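import Mathlib
import Fermat.Prelude.Def_EllipticCurve_FrobeniusTrace
import Fermat.Prelude.Def_FLTPrelim_Ramification
import Fermat.Agent.Pack.L1B.E6L0

set_option linter.all false

-- ===== PACK-BEGIN LT/H470/Polar.lean
section


/-!
# Row LT, tower A2, pre-leaf ARCH-MVP (helper470): geodesic polar coordinates on `ℍ³`

Mathlib only.  The point `polarPt d β α = (rotZ α * rotY β * torus d) • j` of the upper half-space
`ℍ³ = {(x₁, x₂, y) : y > 0}` (`j = (0, 0, 1)`; the matrices are those of
`Fermat.Agent.LT.H556.A0`), i.e.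

    x₁ + i x₂ = e^{iα} sinh d sin β / (cosh d - sinh d cos β),   y = 1 / (cosh d - sinh d cos β),

with its first and second derivatives along the three coordinate curves.
-/

set_option autoImplicit false

open Real

noncomputable section

namespace Fermat.Agent.LT.H470

/-- `cosh d - sinh d cos β`. -/
def pden (d β : ℝ) : ℝ := cosh d - sinh d * cos β

/-- `sinh d - cosh d cos β`, the `d`-derivative of `pden`. -/
def pdd (d β : ℝ) : ℝ := sinh d - cosh d * cos β

theorem pden_pos470 (d β : ℝ) : 0 < pden d β := by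
  unfold pden
  have hC : cosh d ^ 2 = sinh d ^ 2 + 1 := Real.cosh_sq d
  have hC0 : 0 < cosh d := Real.cosh_pos d
  have hc : cos β ^ 2 ≤ 1 := Real.cos_sq_le_one β
  by_contra h
  rw [not_lt] at h
  have h1 : cosh d ≤ sinh d * cos β := by linarith
  have h2 : cosh d ^ 2 ≤ (sinh d * cos β) ^ 2 := by
    apply pow_le_pow_left₀ hC0.le h1
  have h3 : (sinh d * cos β) ^ 2 ≤ sinh d ^ 2 := by
    rw [mul_pow]
    calc sinh d ^ 2 * cos β ^ 2 ≤ sinh d ^ 2 * 1 :=
          mul_le_mul_of_nonneg_left hc (sq_nonneg _)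
      _ = sinh d ^ 2 := mul_one _
  linarith

theorem pden_ne470 (d β : ℝ) : pden d β ≠ 0 := (pden_pos470 d β).ne'

/-- First coordinate of the polar point. -/
def PX1 (d β α : ℝ) : ℝ := sinh d * sin β * cos α / pden d β
/-- Second coordinate of the polar point. -/
def PX2 (d β α : ℝ) : ℝ := sinh d * sin β * sin α / pden d β
/-- Height of the polar point. -/
def PY (d β : ℝ) : ℝ := 1 / pden d β

/-- The point of `ℍ³` with geodesic polar coordinates `(d, β, α)` around `j = (0,0,1)`. -/
def polarPt (d β α : ℝ) : ℝ × ℝ × ℝ := (PX1 d β α, PX2 d β α, PY d β)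

theorem polarPt_zero470 (β α : ℝ) : polarPt 0 β α = (0, 0, 1) := by
  simp [polarPt, PX1, PX2, PY, pden]

theorem polarPt_height_pos470 (d β α : ℝ) : 0 < (polarPt d β α).2.2 := by
  simp only [polarPt, PY]
  exact one_div_pos.mpr (pden_pos470 d β)

/-! ## Derivative vectors -/

/-- `∂/∂d`. -/
def Pd (d β α : ℝ) : ℝ × ℝ × ℝ :=
  (sin β * cos α / pden d β ^ 2, sin β * sin α / pden d β ^ 2, -pdd d β / pden d β ^ 2)

/-- `∂²/∂d²`. -/
def Pdd (d β α : ℝ) : ℝ × ℝ × ℝ :=
  (-2 * sin β * cos α * pdd d β / pden d β ^ 3, -2 * sin β * sin α * pdd d β / pden d β ^ 3,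
    -1 / pden d β + 2 * pdd d β ^ 2 / pden d β ^ 3)

/-- `∂/∂β`. -/
def Pb (d β α : ℝ) : ℝ × ℝ × ℝ :=
  (sinh d * cos α * (cosh d * cos β - sinh d) / pden d β ^ 2,
    sinh d * sin α * (cosh d * cos β - sinh d) / pden d β ^ 2,
    -(sinh d * sin β) / pden d β ^ 2)

/-- `∂²/∂β²`. -/
def Pbb (d β α : ℝ) : ℝ × ℝ × ℝ :=
  (sinh d * cos α *
      (-(sin β * cosh d * pden d β) - 2 * sinh d * sin β * (cosh d * cos β - sinh d))
      / pden d β ^ 3,
    sinh d * sin α *
      (-(sin β * cosh d * pden d β) - 2 * sinh d * sin β * (cosh d * cos β - sinh d))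
      / pden d β ^ 3,
    -(sinh d * cos β) / pden d β ^ 2 + 2 * sinh d ^ 2 * sin β ^ 2 / pden d β ^ 3)

/-- `∂/∂α`. -/
def Pa (d β α : ℝ) : ℝ × ℝ × ℝ := (-PX2 d β α, PX1 d β α, 0)

/-- `∂²/∂α²`. -/
def Paa (d β α : ℝ) : ℝ × ℝ × ℝ := (-PX1 d β α, -PX2 d β α, 0)

/-! ## Derivatives of the denominators -/

theorem hasDerivAt_pden_d470 (d β : ℝ) : HasDerivAt (fun t => pden t β) (pdd d β) d := by
  unfold pden pdd
  exact (Real.hasDerivAt_cosh d).sub ((Real.hasDerivAt_sinh d).mul_const (cos β))

theorem hasDerivAt_pdd_d470 (d β : ℝ) : HasDerivAt (fun t => pdd t β) (pden d β) d := by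
  unfold pden pdd
  exact (Real.hasDerivAt_sinh d).sub ((Real.hasDerivAt_cosh d).mul_const (cos β))

theorem hasDerivAt_pden_b470 (d β : ℝ) :
    HasDerivAt (fun t => pden d t) (sinh d * sin β) β := by
  unfold pden
  have h := ((Real.hasDerivAt_cos β).const_mul (sinh d)).const_sub (cosh d)
  refine h.congr_deriv ?_
  ring

/-! ## The `d`-curve -/

theorem hasDerivAt_polarPt_d470 (d β α : ℝ) :
    HasDerivAt (fun t => polarPt t β α) (Pd d β α) d := by
  have hD := hasDerivAt_pden_d470 d β
  have hD0 := pden_ne470 d β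
  have hC : cosh d ^ 2 = sinh d ^ 2 + 1 := Real.cosh_sq d
  have h1 : HasDerivAt (fun t => PX1 t β α) (sin β * cos α / pden d β ^ 2) d := by
    unfold PX1
    have h := (((Real.hasDerivAt_sinh d).mul_const (sin β)).mul_const (cos α)).div hD hD0
    refine h.congr_deriv ?_
    unfold pden pdd at *
    field_simp
    grind
  have h2 : HasDerivAt (fun t => PX2 t β α) (sin β * sin α / pden d β ^ 2) d := by
    unfold PX2
    have h := (((Real.hasDerivAt_sinh d).mul_const (sin β)).mul_const (sin α)).div hD hD0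
    refine h.congr_deriv ?_
    unfold pden pdd at *
    field_simp
    grind
  have h3 : HasDerivAt (fun t => PY t β) (-pdd d β / pden d β ^ 2) d := by
    unfold PY
    have h := (hasDerivAt_const d (1 : ℝ)).div hD hD0
    refine h.congr_deriv ?_
    field_simp
    ring
  exact h1.prodMk (h2.prodMk h3)

theorem hasDerivAt_Pd_d470 (d β α : ℝ) :
    HasDerivAt (fun t => Pd t β α) (Pdd d β α) d := by
  have hD := hasDerivAt_pden_d470 d β
  have hDd := hasDerivAt_pdd_d470 d β
  have hD0 := pden_ne470 d β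
  have hD2 : HasDerivAt (fun t => pden t β ^ 2) (2 * pden d β * pdd d β) d := by
    have h := hD.pow 2
    refine h.congr_deriv ?_
    ring
  have hD20 : pden d β ^ 2 ≠ 0 := pow_ne_zero _ hD0
  have h1 : HasDerivAt (fun t => sin β * cos α / pden t β ^ 2)
      (-2 * sin β * cos α * pdd d β / pden d β ^ 3) d := by
    have h := (hasDerivAt_const d (sin β * cos α)).div hD2 hD20
    refine h.congr_deriv ?_
    field_simp
    ring
  have h2 : HasDerivAt (fun t => sin β * sin α / pden t β ^ 2)
      (-2 * sin β * sin α * pdd d β / pden d β ^ 3) d := by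
    have h := (hasDerivAt_const d (sin β * sin α)).div hD2 hD20
    refine h.congr_deriv ?_
    field_simp
    ring
  have h3 : HasDerivAt (fun t => -pdd t β / pden t β ^ 2)
      (-1 / pden d β + 2 * pdd d β ^ 2 / pden d β ^ 3) d := by
    have h := hDd.neg.div hD2 hD20
    refine h.congr_deriv ?_
    simp only [Pi.neg_apply]
    field_simp
    ring
  exact h1.prodMk (h2.prodMk h3)


/-! ## The `β`-curve -/

theorem hasDerivAt_polarPt_b470 (d β α : ℝ) :
    HasDerivAt (fun t => polarPt d t α) (Pb d β α) β := by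
  have hD := hasDerivAt_pden_b470 d β
  have hD0 := pden_ne470 d β
  have hs : sin β ^ 2 + cos β ^ 2 = 1 := Real.sin_sq_add_cos_sq β
  have h1 : HasDerivAt (fun t => PX1 d t α)
      (sinh d * cos α * (cosh d * cos β - sinh d) / pden d β ^ 2) β := by
    unfold PX1
    have h := (((Real.hasDerivAt_sin β).const_mul (sinh d)).mul_const (cos α)).div hD hD0
    refine h.congr_deriv ?_
    unfold pden at *
    field_simp
    grind
  have h2 : HasDerivAt (fun t => PX2 d t α)
      (sinh d * sin α * (cosh d * cos β - sinh d) / pden d β ^ 2) β := by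
    unfold PX2
    have h := (((Real.hasDerivAt_sin β).const_mul (sinh d)).mul_const (sin α)).div hD hD0
    refine h.congr_deriv ?_
    unfold pden at *
    field_simp
    grind
  have h3 : HasDerivAt (fun t => PY d t) (-(sinh d * sin β) / pden d β ^ 2) β := by
    unfold PY
    have h := (hasDerivAt_const β (1 : ℝ)).div hD hD0
    refine h.congr_deriv ?_
    field_simp
    ring
  exact h1.prodMk (h2.prodMk h3)

theorem hasDerivAt_Pb_b470 (d β α : ℝ) :
    HasDerivAt (fun t => Pb d t α) (Pbb d β α) β := by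
  have hD := hasDerivAt_pden_b470 d β
  have hD0 := pden_ne470 d β
  have hD2 : HasDerivAt (fun t => pden d t ^ 2) (2 * pden d β * (sinh d * sin β)) β := by
    have h := hD.pow 2
    refine h.congr_deriv ?_
    ring
  have hD20 : pden d β ^ 2 ≠ 0 := pow_ne_zero _ hD0
  have hN : HasDerivAt (fun t => cosh d * cos t - sinh d) (-(cosh d * sin β)) β := by
    have h := ((Real.hasDerivAt_cos β).const_mul (cosh d)).sub_const (sinh d)
    refine h.congr_deriv ?_
    ring
  have h1 : HasDerivAt (fun t => sinh d * cos α * (cosh d * cos t - sinh d) / pden d t ^ 2)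
      (sinh d * cos α *
        (-(sin β * cosh d * pden d β) - 2 * sinh d * sin β * (cosh d * cos β - sinh d))
        / pden d β ^ 3) β := by
    have h := (hN.const_mul (sinh d * cos α)).div hD2 hD20
    refine h.congr_deriv ?_
    field_simp
  have h2 : HasDerivAt (fun t => sinh d * sin α * (cosh d * cos t - sinh d) / pden d t ^ 2)
      (sinh d * sin α *
        (-(sin β * cosh d * pden d β) - 2 * sinh d * sin β * (cosh d * cos β - sinh d))
        / pden d β ^ 3) β := by
    have h := (hN.const_mul (sinh d * sin α)).div hD2 hD20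
    refine h.congr_deriv ?_
    field_simp
  have h3 : HasDerivAt (fun t => -(sinh d * sin t) / pden d t ^ 2)
      (-(sinh d * cos β) / pden d β ^ 2 + 2 * sinh d ^ 2 * sin β ^ 2 / pden d β ^ 3) β := by
    have h := ((Real.hasDerivAt_sin β).const_mul (sinh d)).neg.div hD2 hD20
    refine h.congr_deriv ?_
    simp only [Pi.neg_apply]
    field_simp
    ring
  exact h1.prodMk (h2.prodMk h3)

/-! ## The `α`-curve -/

theorem hasDerivAt_polarPt_a470 (d β α : ℝ) :
    HasDerivAt (fun t => polarPt d β t) (Pa d β α) α := by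
  have h1 : HasDerivAt (fun t => PX1 d β t) (-PX2 d β α) α := by
    unfold PX1 PX2
    have h := ((Real.hasDerivAt_cos α).const_mul (sinh d * sin β)).div_const (pden d β)
    refine h.congr_deriv ?_
    ring
  have h2 : HasDerivAt (fun t => PX2 d β t) (PX1 d β α) α := by
    unfold PX1 PX2
    have h := ((Real.hasDerivAt_sin α).const_mul (sinh d * sin β)).div_const (pden d β)
    exact h
  have h3 : HasDerivAt (fun _ : ℝ => PY d β) 0 α := hasDerivAt_const α _
  exact h1.prodMk (h2.prodMk h3)

theorem hasDerivAt_Pa_a470 (d β α : ℝ) :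
    HasDerivAt (fun t => Pa d β t) (Paa d β α) α := by
  have h1 : HasDerivAt (fun t => PX1 d β t) (-PX2 d β α) α := by
    unfold PX1 PX2
    have h := ((Real.hasDerivAt_cos α).const_mul (sinh d * sin β)).div_const (pden d β)
    refine h.congr_deriv ?_
    ring
  have h2 : HasDerivAt (fun t => PX2 d β t) (PX1 d β α) α := by
    unfold PX1 PX2
    have h := ((Real.hasDerivAt_sin α).const_mul (sinh d * sin β)).div_const (pden d β)
    exact h
  have h3 : HasDerivAt (fun _ : ℝ => (0 : ℝ)) 0 α := hasDerivAt_const α _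
  exact h2.neg.prodMk (h1.prodMk h3)

/-! ## Continuity -/

theorem continuous_pden470 : Continuous (fun q : ℝ × ℝ × ℝ => pden q.1 q.2.1) := by
  unfold pden
  fun_prop

theorem continuous_pdd470 : Continuous (fun q : ℝ × ℝ × ℝ => pdd q.1 q.2.1) := by
  unfold pdd
  fun_prop

theorem continuous_polarPt470 :
    Continuous (fun q : ℝ × ℝ × ℝ => polarPt q.1 q.2.1 q.2.2) := by
  unfold polarPt PX1 PX2 PY pden
  fun_prop (disch := exact fun q => pden_ne470 _ _)

theorem continuous_Pd470 : Continuous (fun q : ℝ × ℝ × ℝ => Pd q.1 q.2.1 q.2.2) := by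
  unfold Pd pdd pden
  fun_prop (disch := exact fun q => pow_ne_zero _ (pden_ne470 _ _))

theorem continuous_Pdd470 : Continuous (fun q : ℝ × ℝ × ℝ => Pdd q.1 q.2.1 q.2.2) := by
  unfold Pdd pdd pden
  fun_prop (disch := first
    | exact fun q => pow_ne_zero _ (pden_ne470 _ _)
    | exact fun q => pden_ne470 _ _)

theorem continuous_Pb470 : Continuous (fun q : ℝ × ℝ × ℝ => Pb q.1 q.2.1 q.2.2) := by
  unfold Pb pden
  fun_prop (disch := exact fun q => pow_ne_zero _ (pden_ne470 _ _))

theorem continuous_Pbb470 : Continuous (fun q : ℝ × ℝ × ℝ => Pbb q.1 q.2.1 q.2.2) := by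
  unfold Pbb pden
  fun_prop (disch := exact fun q => pow_ne_zero _ (pden_ne470 _ _))

theorem continuous_Pa470 : Continuous (fun q : ℝ × ℝ × ℝ => Pa q.1 q.2.1 q.2.2) := by
  unfold Pa PX1 PX2 pden
  fun_prop (disch := exact fun q => pden_ne470 _ _)

theorem continuous_Paa470 : Continuous (fun q : ℝ × ℝ × ℝ => Paa q.1 q.2.1 q.2.2) := by
  unfold Paa PX1 PX2 pden
  fun_prop (disch := exact fun q => pden_ne470 _ _)

/-! ## Periodicity in `α` -/

theorem polarPt_two_pi470 (d β : ℝ) : polarPt d β (2 * π) = polarPt d β 0 := by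
  simp [polarPt, PX1, PX2]

theorem Pa_two_pi470 (d β : ℝ) : Pa d β (2 * π) = Pa d β 0 := by
  simp [Pa, PX1, PX2]

end Fermat.Agent.LT.H470

end
end
-- ===== PACK-END LT/H470/Polar.lean

-- ===== PACK-BEGIN LT/A2/H231/CharIndep.lean
section


/-!
# Row LT, tower A2, leaf A2.14 (helper231): `ℓ¹`-independence of unitary characters

OFF-MAIN.  Mathlib only.

`coeff_eq_zero_of_tsum_eq_zero231`: let `η i`, `i : ι`, be unitary characters of an additive
commutative group `G` (no topology), `c : ι → ℂ` absolutely summable, `η i₀ = 1`, `η i ≠ 1` for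
`i ≠ i₀`.  If `∑' i, c i * η i x = 0` for all `x`, then `c i₀ = 0`.

The proof is elementary (no Haar measure, no invariant mean): for finitely many nontrivial
characters there are finite families of points on which all of them have a small mean
(iterated Cesàro means along one-parameter progressions `x + k • y`), and the tail of an
absolutely summable family is small.
-/

set_option autoImplicit false

open Finset

noncomputable section

namespace Fermat.Agent.LT.A2.H231

/-- The geometric sums of a complex number of modulus one, different from `1`, are bounded. -/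
theorem norm_geom_sum_le231 (z : ℂ) (hz : ‖z‖ = 1) (hz1 : z ≠ 1) (N : ℕ) :
    ‖∑ k ∈ range N, z ^ k‖ ≤ 2 / ‖z - 1‖ := by
  rw [geom_sum_eq hz1, norm_div]
  have h0 : 0 < ‖z - 1‖ := norm_pos_iff.mpr (sub_ne_zero.mpr hz1)
  have h2 : ‖z ^ N - 1‖ ≤ 2 := by
    calc ‖z ^ N - 1‖ ≤ ‖z ^ N‖ + ‖(1 : ℂ)‖ := norm_sub_le _ _
      _ = 2 := by rw [norm_pow, hz, one_pow, norm_one]; norm_num
  exact div_le_div_of_nonneg_right h2 h0.le

section Char

variable {G : Type*} [AddCommGroup G]

/-- A unitary character: multiplicative for the addition of `G`, of modulus one. -/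
structure IsUChar231 (η : G → ℂ) : Prop where
  map_add : ∀ x y : G, η (x + y) = η x * η y
  norm_one : ∀ x : G, ‖η x‖ = 1

namespace IsUChar231

variable {η : G → ℂ}

theorem ne_zero (h : IsUChar231 η) (x : G) : η x ≠ 0 := by
  intro h0
  have := h.norm_one x
  rw [h0, norm_zero] at this
  exact zero_ne_one this

theorem map_zero (h : IsUChar231 η) : η 0 = 1 := by
  have h1 : η 0 = η 0 * η 0 := by
    have := h.map_add 0 0
    rwa [add_zero] at this
  have h2 : η 0 ≠ 0 := h.ne_zero 0
  have h3 : η 0 * 1 = η 0 * η 0 := by rw [mul_one]; exact h1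
  exact (mul_left_cancel₀ h2 h3).symm

theorem map_nsmul (h : IsUChar231 η) (k : ℕ) (y : G) : η (k • y) = η y ^ k := by
  induction k with
  | zero => simp [h.map_zero]
  | succ k ih => rw [succ_nsmul, h.map_add, ih, pow_succ]

end IsUChar231

/-- **Separation.**  For finitely many nontrivial unitary characters and `δ > 0` there is a
nonempty finite family of points on which every one of them has a mean of modulus `≤ δ`. -/
theorem exists_small_means231 {ι : Type*} (η : ι → G → ℂ) (hη : ∀ i, IsUChar231 (η i))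
    (δ : ℝ) (hδ : 0 < δ) (F : Finset ι) (hF : ∀ i ∈ F, ∃ y : G, η i y ≠ 1) :
    ∃ (J : Type) (_ : Fintype J) (x : J → G), 0 < Fintype.card J ∧
      ∀ i ∈ F, ‖∑ j, η i (x j)‖ ≤ δ * Fintype.card J := by
  classical
  induction F using Finset.induction_on with
  | empty =>
    refine ⟨Unit, inferInstance, fun _ => 0, ?_, ?_⟩
    · simp
    · intro i hi
      simp at hi
  | insert a F ha ih =>
    obtain ⟨J, hJ, x, hcard, hx⟩ := ih (fun i hi => hF i (Finset.mem_insert_of_mem hi))
    obtain ⟨y, hy⟩ := hF a (Finset.mem_insert_self a F)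
    have hpos : 0 < ‖η a y - 1‖ := norm_pos_iff.mpr (sub_ne_zero.mpr hy)
    -- the length of the progression
    obtain ⟨N, hN⟩ := exists_nat_gt (2 / (δ * ‖η a y - 1‖))
    have hN0 : (0 : ℝ) < N := lt_of_le_of_lt (by positivity) hN
    have hNpos : 0 < N := by exact_mod_cast hN0
    have hgeo : 2 / ‖η a y - 1‖ ≤ δ * N := by
      have h1 : 2 / (δ * ‖η a y - 1‖) * (δ * ‖η a y - 1‖) = 2 := by
        field_simp
      have h2 : 2 < N * (δ * ‖η a y - 1‖) := by
        have := mul_lt_mul_of_pos_right hN (mul_pos hδ hpos)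
        rwa [h1] at this
      rw [div_le_iff₀ hpos]
      nlinarith
    -- the sums over the product family factor
    have hfac : ∀ i : ι, ∑ p : J × Fin N, η i (x p.1 + (p.2 : ℕ) • y)
        = (∑ j, η i (x j)) * ∑ k ∈ range N, η i y ^ k := by
      intro i
      rw [Fintype.sum_prod_type, Finset.sum_mul]
      refine Finset.sum_congr rfl fun j _ => ?_
      rw [← Fin.sum_univ_eq_sum_range (fun k => η i y ^ k) N, Finset.mul_sum]
      refine Finset.sum_congr rfl fun k _ => ?_
      rw [(hη i).map_add, (hη i).map_nsmul]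
    have hle1 : ∀ (i : ι) (n : ℕ), ‖∑ k ∈ range n, η i y ^ k‖ ≤ n := by
      intro i n
      calc ‖∑ k ∈ range n, η i y ^ k‖ ≤ ∑ k ∈ range n, ‖η i y ^ k‖ := norm_sum_le _ _
        _ = ∑ k ∈ range n, (1 : ℝ) := by
            refine Finset.sum_congr rfl fun k _ => ?_
            rw [norm_pow, (hη i).norm_one, one_pow]
        _ = n := by simp
    have hleJ : ∀ i : ι, ‖∑ j, η i (x j)‖ ≤ Fintype.card J := by
      intro i
      calc ‖∑ j, η i (x j)‖ ≤ ∑ j, ‖η i (x j)‖ := norm_sum_le _ _
        _ = ∑ _j : J, (1 : ℝ) := by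
            refine Finset.sum_congr rfl fun j _ => ?_
            rw [(hη i).norm_one]
        _ = Fintype.card J := by simp
    refine ⟨J × Fin N, inferInstance, fun p => x p.1 + (p.2 : ℕ) • y, ?_, ?_⟩
    · rw [Fintype.card_prod, Fintype.card_fin]
      exact Nat.mul_pos hcard hNpos
    · intro i hi
      have hcardR : ((Fintype.card (J × Fin N) : ℕ) : ℝ) = (Fintype.card J : ℝ) * N := by
        rw [Fintype.card_prod, Fintype.card_fin]; push_cast; ring
      rw [hfac i, norm_mul, hcardR]
      rcases Finset.mem_insert.mp hi with rfl | hiF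
      · -- the new character: the progression kills it
        calc ‖∑ j, η i (x j)‖ * ‖∑ k ∈ range N, η i y ^ k‖
            ≤ (Fintype.card J : ℝ) * (2 / ‖η i y - 1‖) :=
              mul_le_mul (hleJ i) (norm_geom_sum_le231 _ ((hη i).norm_one y) hy N)
                (norm_nonneg _) (Nat.cast_nonneg _)
          _ ≤ (Fintype.card J : ℝ) * (δ * N) :=
              mul_le_mul_of_nonneg_left hgeo (Nat.cast_nonneg _)
          _ = δ * ((Fintype.card J : ℝ) * N) := by ring
      · -- the old characters: the bound is inherited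
        calc ‖∑ j, η i (x j)‖ * ‖∑ k ∈ range N, η i y ^ k‖
            ≤ (δ * Fintype.card J) * N :=
              mul_le_mul (hx i hiF) (hle1 i N) (norm_nonneg _)
                (mul_nonneg hδ.le (Nat.cast_nonneg _))
          _ = δ * ((Fintype.card J : ℝ) * N) := by ring

/-- **`ℓ¹`-independence of unitary characters.**  If an absolutely summable combination of
pairwise different unitary characters vanishes identically, then the coefficient of the trivial
character is `0`.  (Stated for a family `η` with `η i₀ = 1` and `η i ≠ 1` for `i ≠ i₀`.) -/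
theorem coeff_eq_zero_of_tsum_eq_zero231 {ι : Type*} (η : ι → G → ℂ)
    (hη : ∀ i, IsUChar231 (η i)) (c : ι → ℂ) (hc : Summable fun i => ‖c i‖) (i₀ : ι)
    (h₀ : ∀ x : G, η i₀ x = 1) (hsep : ∀ i, i ≠ i₀ → ∃ y : G, η i y ≠ 1)
    (hsum : ∀ x : G, ∑' i, c i * η i x = 0) : c i₀ = 0 := by
  classical
  have hsummable : ∀ x : G, Summable fun i => c i * η i x := by
    intro x
    refine Summable.of_norm ?_
    refine hc.congr fun i => ?_
    rw [norm_mul, (hη i).norm_one, mul_one]
  set T : ℝ := ∑' i, ‖c i‖ with hT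
  have hT0 : 0 ≤ T := tsum_nonneg fun i => norm_nonneg _
  -- it suffices to bound the norm by every `ε > 0`
  rw [← norm_le_zero_iff]
  refine le_of_forall_pos_le_add fun ε hε => ?_
  rw [zero_add]
  -- the tail
  obtain ⟨F₀, hF₀⟩ : ∃ F₀ : Finset ι, T - ∑ i ∈ F₀, ‖c i‖ < ε / 2 := by
    have hlim := hc.hasSum
    rw [HasSum] at hlim
    have hmem : Set.Ioi (T - ε / 2) ∈ nhds T := Ioi_mem_nhds (by linarith)
    obtain ⟨F₀, hF₀⟩ := (Filter.mem_map.mp (hlim hmem) |> Filter.mem_atTop_sets.mp)
    refine ⟨F₀, ?_⟩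
    have := hF₀ F₀ le_rfl
    simp only [Set.mem_preimage, Set.mem_Ioi] at this
    linarith
  set tail : ι → ℝ := fun i => if i ∈ F₀ then 0 else ‖c i‖ with htail
  have htail_le : ∀ i, tail i ≤ ‖c i‖ := by
    intro i
    simp only [htail]
    split_ifs
    · exact norm_nonneg _
    · exact le_rfl
  have htail0 : ∀ i, 0 ≤ tail i := by
    intro i
    simp only [htail]
    split_ifs
    · exact le_rfl
    · exact norm_nonneg _
  have htail_sum : Summable tail := Summable.of_nonneg_of_le htail0 htail_le hc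
  have htail_tsum : ∑' i, tail i = T - ∑ i ∈ F₀, ‖c i‖ := by
    have h1 : ∑' i, (if i ∈ F₀ then ‖c i‖ else 0) = ∑ i ∈ F₀, ‖c i‖ := by
      rw [tsum_eq_sum (s := F₀)]
      · refine Finset.sum_congr rfl fun i hi => ?_
        rw [if_pos hi]
      · intro i hi
        rw [if_neg hi]
    have h2 : Summable fun i => (if i ∈ F₀ then ‖c i‖ else 0) :=
      summable_of_ne_finset_zero (s := F₀) fun i hi => by rw [if_neg hi]
    have h3 : ∀ i, ‖c i‖ = (if i ∈ F₀ then ‖c i‖ else 0) + tail i := by
      intro i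
      simp only [htail]
      split_ifs <;> simp
    have h4 : T = ∑ i ∈ F₀, ‖c i‖ + ∑' i, tail i := by
      calc T = ∑' i, ((if i ∈ F₀ then ‖c i‖ else 0) + tail i) := hT.trans (tsum_congr h3)
        _ = ∑ i ∈ F₀, ‖c i‖ + ∑' i, tail i := by
            rw [Summable.tsum_add h2 htail_sum, h1]
    linarith
  -- the points
  set δ : ℝ := ε / (2 * (T + 1)) with hδdef
  have hδ : 0 < δ := by positivity
  have hδT : δ * T ≤ ε / 2 := by
    rw [hδdef, div_mul_eq_mul_div, div_le_div_iff₀ (by positivity) (by norm_num)]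
    nlinarith
  obtain ⟨J, hJ, x, hcard, hx⟩ := exists_small_means231 η hη δ hδ (F₀.erase i₀)
    (fun i hi => hsep i (Finset.ne_of_mem_erase hi))
  set M : ℝ := (Fintype.card J : ℝ) with hM
  have hM0 : 0 < M := by rw [hM]; exact_mod_cast hcard
  set S : ι → ℂ := fun i => ∑ j, η i (x j) with hS
  have hSle : ∀ i, ‖S i‖ ≤ M := by
    intro i
    calc ‖S i‖ ≤ ∑ j, ‖η i (x j)‖ := norm_sum_le _ _
      _ = ∑ _j : J, (1 : ℝ) := by
          refine Finset.sum_congr rfl fun j _ => ?_
          rw [(hη i).norm_one]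
      _ = M := by simp [hM]
  have hS0 : S i₀ = (M : ℂ) := by
    simp only [hS, h₀, hM]
    simp
  -- the sum of the `c i * S i` vanishes
  have hcS : ∑' i, c i * S i = 0 := by
    have h1 : ∀ i, c i * S i = ∑ j, c i * η i (x j) := by
      intro i
      rw [hS, Finset.mul_sum]
    simp_rw [h1]
    rw [Summable.tsum_finsetSum fun j _ => hsummable (x j)]
    exact Finset.sum_eq_zero fun j _ => hsum (x j)
  have hcS_summable : Summable fun i => c i * S i := by
    have h1 : (fun i => c i * S i) = fun i => ∑ j, c i * η i (x j) := by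
      funext i
      rw [hS, Finset.mul_sum]
    rw [h1]
    exact summable_sum fun j _ => hsummable (x j)
  -- split off the term `i₀`
  have hsplit := hcS_summable.tsum_eq_add_tsum_ite i₀
  rw [hcS, hS0] at hsplit
  have hrest : c i₀ * (M : ℂ) = - ∑' i, ite (i = i₀) 0 (c i * S i) := by
    rw [eq_neg_iff_add_eq_zero]
    exact hsplit.symm
  -- the bound of the rest
  have hbound : ∀ i, ‖ite (i = i₀) 0 (c i * S i)‖ ≤ δ * M * ‖c i‖ + M * tail i := by
    intro i
    by_cases hi : i = i₀
    · rw [if_pos hi, norm_zero]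
      have := htail0 i
      positivity
    · rw [if_neg hi, norm_mul]
      by_cases hiF : i ∈ F₀
      · have h1 : ‖S i‖ ≤ δ * M := hx i (Finset.mem_erase.mpr ⟨hi, hiF⟩)
        have h2 : ‖c i‖ * ‖S i‖ ≤ ‖c i‖ * (δ * M) :=
          mul_le_mul_of_nonneg_left h1 (norm_nonneg _)
        have h3 : 0 ≤ M * tail i := mul_nonneg hM0.le (htail0 i)
        nlinarith
      · have h1 : tail i = ‖c i‖ := by simp only [htail]; rw [if_neg hiF]
        have h2 : ‖c i‖ * ‖S i‖ ≤ ‖c i‖ * M :=
          mul_le_mul_of_nonneg_left (hSle i) (norm_nonneg _)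
        have h3 : 0 ≤ δ * M * ‖c i‖ := by positivity
        rw [h1]
        nlinarith
  have hmaj : Summable fun i => δ * M * ‖c i‖ + M * tail i :=
    (hc.mul_left (δ * M)).add (htail_sum.mul_left M)
  have hmaj_tsum : ∑' i, (δ * M * ‖c i‖ + M * tail i) = δ * M * T + M * (T - ∑ i ∈ F₀, ‖c i‖) := by
    rw [Summable.tsum_add (hc.mul_left (δ * M)) (htail_sum.mul_left M), tsum_mul_left,
      tsum_mul_left, htail_tsum]
  have hnorm : ‖∑' i, ite (i = i₀) 0 (c i * S i)‖ ≤ δ * M * T + M * (T - ∑ i ∈ F₀, ‖c i‖) := by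
    rw [← hmaj_tsum]
    exact tsum_of_norm_bounded hmaj.hasSum hbound
  have hfinal : ‖c i₀‖ * M ≤ δ * M * T + M * (T - ∑ i ∈ F₀, ‖c i‖) := by
    have h1 : ‖c i₀ * (M : ℂ)‖ = ‖c i₀‖ * M := by
      rw [norm_mul, Complex.norm_real, Real.norm_of_nonneg hM0.le]
    rw [← h1, hrest, norm_neg]
    exact hnorm
  -- divide by `M`
  have h5 : ‖c i₀‖ * M ≤ (δ * T + (T - ∑ i ∈ F₀, ‖c i‖)) * M := by
    calc ‖c i₀‖ * M ≤ δ * M * T + M * (T - ∑ i ∈ F₀, ‖c i‖) := hfinal
      _ = (δ * T + (T - ∑ i ∈ F₀, ‖c i‖)) * M := by ring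
  have h6 : ‖c i₀‖ ≤ δ * T + (T - ∑ i ∈ F₀, ‖c i‖) := le_of_mul_le_mul_right h5 hM0
  linarith

end Char

end Fermat.Agent.LT.A2.H231

end

end
-- ===== PACK-END LT/A2/H231/CharIndep.lean

-- ===== PACK-BEGIN LT/A2/H323/Gauss/Cut.lean
section


/-!
# Row LT, tower A2, leaf A2.03.1.1.06.05 `LF54.LeafGauss` (helper323), OFF-MAIN : CUT-OFFS

For an ultrametric normed group `V` (later `V = k × k`):

* `cut323 r` : the indicator function of the closed ball of radius `r` (a subgroup), with values
  in `ℂ`; it is invariant under the translations by the elements of the ball, continuous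
  (the ball is clopen) and has compact support (`V` proper).
* `integral_cut_mul_eq_zero323` : ORTHOGONALITY, `∫ χ_r g = 0` for a multiplicative function `g`
  which is not `1` somewhere on the ball.
* `integral_cut_ne_zero323` : `∫ χ_r ≠ 0`.
* `exists_unif_locConst323` : a locally constant function with compact support is invariant
  under the translations by a small ball (Lebesgue number).
* `exists_norm_le_of_ne_zero323` : a function with compact support vanishes outside a ball.
Mathlib only.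
-/

set_option autoImplicit false
set_option linter.style.haveILetI false
set_option linter.unusedSectionVars false

open MeasureTheory

noncomputable section

namespace Fermat.Agent.LT.A2.H323

section Plain

variable {V : Type*} [NormedAddCommGroup V]

/-- A locally constant function with compact support is uniformly locally constant. -/
theorem exists_unif_locConst323 (Φ : V → ℂ) (h1 : IsLocallyConstant Φ)
    (h2 : HasCompactSupport Φ) :
    ∃ ε : ℝ, 0 < ε ∧ ∀ z h : V, ‖h‖ ≤ ε → Φ (z + h) = Φ z := by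
  obtain ⟨δ, hδ, hδ'⟩ := lebesgue_number_lemma_of_metric (s := tsupport Φ)
    (c := fun w : ℂ => Φ ⁻¹' {w}) h2 (fun w => h1.isOpen_fiber w)
    (fun z _ => Set.mem_iUnion.mpr ⟨Φ z, rfl⟩)
  have key : ∀ z ∈ tsupport Φ, ∀ h : V, ‖h‖ ≤ δ / 2 → Φ (z + h) = Φ z := by
    intro z hz h hh
    obtain ⟨w, hw⟩ := hδ' z hz
    have m1 : z ∈ Metric.ball z δ := Metric.mem_ball_self hδ
    have m2 : z + h ∈ Metric.ball z δ := by
      rw [Metric.mem_ball, dist_eq_norm, add_sub_cancel_left]
      linarith
    have e1 : Φ z = w := hw m1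
    have e2 : Φ (z + h) = w := hw m2
    rw [e1, e2]
  refine ⟨δ / 2, by positivity, fun z h hh => ?_⟩
  by_cases hz : z ∈ tsupport Φ
  · exact key z hz h hh
  · by_cases hz' : z + h ∈ tsupport Φ
    · have := key (z + h) hz' (-h) (by rwa [norm_neg])
      rw [add_neg_cancel_right] at this
      exact this.symm
    · rw [image_eq_zero_of_notMem_tsupport hz, image_eq_zero_of_notMem_tsupport hz']

/-- A function with compact support vanishes outside a ball. -/
theorem exists_norm_le_of_ne_zero323 (Φ : V → ℂ) (h2 : HasCompactSupport Φ) :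
    ∃ ρ : ℝ, 0 ≤ ρ ∧ ∀ z : V, Φ z ≠ 0 → ‖z‖ ≤ ρ := by
  obtain ⟨C, hC⟩ := isBounded_iff_forall_norm_le.mp h2.isCompact.isBounded
  exact ⟨max C 0, le_max_right _ _,
    fun z hz => (hC z (subset_tsupport _ hz)).trans (le_max_left _ _)⟩

end Plain

section Cut

variable {V : Type*} [NormedAddCommGroup V] [IsUltrametricDist V]

/-- The cut-off function of the closed ball of radius `r`. -/
def cut323 (r : ℝ) : V → ℂ := Set.indicator (Metric.closedBall (0 : V) r) (fun _ => (1 : ℂ))

theorem cut_of_le323 {r : ℝ} {y : V} (h : ‖y‖ ≤ r) : cut323 r y = 1 :=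
  Set.indicator_of_mem (by rwa [Metric.mem_closedBall, dist_zero_right]) _

theorem cut_of_lt323 {r : ℝ} {y : V} (h : r < ‖y‖) : cut323 r y = 0 :=
  Set.indicator_of_notMem (by rw [Metric.mem_closedBall, dist_zero_right]; exact not_le.mpr h) _

theorem cut_ne_zero323 {r : ℝ} {y : V} (h : cut323 r y ≠ 0) : ‖y‖ ≤ r := by
  by_contra h1
  exact h (cut_of_lt323 (not_le.mp h1))

theorem norm_add_le_iff323 {r : ℝ} {y h : V} (hh : ‖h‖ ≤ r) : ‖y + h‖ ≤ r ↔ ‖y‖ ≤ r := by
  constructor
  · intro h1
    have : y = (y + h) + (-h) := by abel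
    rw [this]
    exact (IsUltrametricDist.norm_add_le_max _ _).trans (max_le h1 (by rwa [norm_neg]))
  · intro h1
    exact (IsUltrametricDist.norm_add_le_max _ _).trans (max_le h1 hh)

theorem cut_add323 {r : ℝ} {y h : V} (hh : ‖h‖ ≤ r) : cut323 r (y + h) = cut323 r y := by
  by_cases h1 : ‖y‖ ≤ r
  · rw [cut_of_le323 h1, cut_of_le323 ((norm_add_le_iff323 hh).mpr h1)]
  · rw [cut_of_lt323 (not_le.mp h1),
      cut_of_lt323 (not_le.mp fun h2 => h1 ((norm_add_le_iff323 hh).mp h2))]

theorem continuous_cut323 {r : ℝ} (hr : 0 < r) : Continuous (cut323 (V := V) r) :=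
  (IsUltrametricDist.isClopen_closedBall (0 : V) hr.ne').continuous_indicator continuous_const

theorem hasCompactSupport_cut323 [ProperSpace V] (r : ℝ) :
    HasCompactSupport (cut323 (V := V) r) :=
  HasCompactSupport.intro (isCompact_closedBall 0 r) fun _ hy => Set.indicator_of_notMem hy _

variable [MeasurableSpace V] [BorelSpace V]

/-- **Orthogonality.** -/
theorem integral_cut_mul_eq_zero323 (ν : Measure V) [ν.IsAddLeftInvariant] {r : ℝ} (g : V → ℂ)
    (hg : ∀ x y : V, g (x + y) = g x * g y) (h₀ : V) (hh₀ : ‖h₀‖ ≤ r) (hne : g h₀ ≠ 1) :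
    ∫ h, cut323 r h * g h ∂ν = 0 := by
  have h1 := integral_add_left_eq_self (μ := ν) (fun h => cut323 r h * g h) h₀
  have h2 : ∀ h : V, cut323 r (h₀ + h) * g (h₀ + h) = g h₀ * (cut323 r h * g h) := by
    intro h
    rw [add_comm h₀ h, cut_add323 hh₀, add_comm h h₀, hg]
    ring
  simp only [h2] at h1
  rw [integral_const_mul] at h1
  have h3 : (g h₀ - 1) * ∫ h, cut323 r h * g h ∂ν = 0 := by
    rw [sub_mul, one_mul, h1, sub_self]
  rcases mul_eq_zero.mp h3 with h4 | h4
  · exact absurd (sub_eq_zero.mp h4) hne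
  · exact h4

/-- The integral of the cut-off function is not zero. -/
theorem integral_cut_ne_zero323 [ProperSpace V] (ν : Measure V) [IsFiniteMeasureOnCompacts ν]
    [ν.IsOpenPosMeasure] {r : ℝ} (hr : 0 < r) : ∫ h, cut323 (V := V) r h ∂ν ≠ 0 := by
  have h1 : ∫ h, cut323 (V := V) r h ∂ν = ν.real (Metric.closedBall (0 : V) r) • (1 : ℂ) :=
    integral_indicator_const (1 : ℂ) Metric.isClosed_closedBall.measurableSet
  rw [h1]
  have h2 : 0 < ν (Metric.closedBall (0 : V) r) := Metric.measure_closedBall_pos ν 0 hr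
  have h3 : ν (Metric.closedBall (0 : V) r) < ⊤ := (isCompact_closedBall 0 r).measure_lt_top
  have h4 : ν.real (Metric.closedBall (0 : V) r) ≠ 0 :=
    (ENNReal.toReal_pos h2.ne' h3.ne).ne'
  simpa using h4

end Cut

end Fermat.Agent.LT.A2.H323

end

end
-- ===== PACK-END LT/A2/H323/Gauss/Cut.lean

-- ===== PACK-BEGIN LT/H701/Quat.lean
section


/-!
# Row LT, block IDENT (helper701): linear algebra of `2 × 2` complex matrices

* `sq_eq_h701`: Cayley--Hamilton for `2 × 2` matrices.
* `eq_neg_one_of_sq_h701`: an involution of trace `-2` is `-1`.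
* `eq_one_of_pow_h701`: a complex matrix of finite order and trace `2` is `1`.
* `exists_stdForm_h701`: a pair `A, B` with `A² = B² = -1`, `AB = -BA` is conjugate to the
  standard pair `D = diag(i, -i)`, `E = [[0, -1], [1, 0]]`.
* `scalar_of_commute_std_h701`: the commutant of the standard pair consists of scalars.
-/

set_option autoImplicit false

open Matrix

namespace Fermat.Agent.LT.H701

/-- Cayley--Hamilton for `2 × 2` matrices. -/
theorem sq_eq_h701 {R : Type*} [CommRing R] (M : Matrix (Fin 2) (Fin 2) R) :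
    M * M = M.trace • M - M.det • (1 : Matrix (Fin 2) (Fin 2) R) := by
  ext i j
  fin_cases i <;> fin_cases j <;>
    simp [Matrix.mul_apply, Fin.sum_univ_two, Matrix.trace, Matrix.det_fin_two] <;> ring

/-- An involution of trace `-2` is `-1`. -/
theorem eq_neg_one_of_sq_h701 {R : Type*} [CommRing R] [IsDomain R] (h2 : (2 : R) ≠ 0)
    (Z : Matrix (Fin 2) (Fin 2) R) (hZ : Z * Z = 1) (ht : Z.trace = -2) : Z = -1 := by
  have hCH := sq_eq_h701 Z
  rw [hZ, ht] at hCH
  -- trace of both sides
  have htr := congrArg Matrix.trace hCH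
  rw [Matrix.trace_sub, Matrix.trace_smul, Matrix.trace_smul, ht, Matrix.trace_one] at htr
  simp only [Fintype.card_fin, smul_eq_mul, Nat.cast_ofNat] at htr
  have hd : Z.det = 1 := by
    have h : (2 : R) * (Z.det - 1) = 0 := by linear_combination htr
    rcases mul_eq_zero.mp h with h | h
    · exact absurd h h2
    · exact sub_eq_zero.mp h
  rw [hd] at hCH
  ext i j
  have hij := congrFun (congrFun hCH i) j
  simp only [Matrix.sub_apply, Matrix.smul_apply, smul_eq_mul, Matrix.neg_apply] at hij ⊢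
  have h : (2 : R) * (Z i j + (1 : Matrix (Fin 2) (Fin 2) R) i j) = 0 := by
    linear_combination hij
  rcases mul_eq_zero.mp h with h | h
  · exact absurd h h2
  · exact eq_neg_of_add_eq_zero_left h

/-- The characteristic polynomial of a `2 × 2` matrix, evaluated. -/
theorem det_sub_smul_one_h701 {R : Type*} [CommRing R] (M : Matrix (Fin 2) (Fin 2) R) (x : R) :
    (M - x • (1 : Matrix (Fin 2) (Fin 2) R)).det = x ^ 2 - M.trace * x + M.det := by
  simp [Matrix.det_fin_two, Matrix.trace, Fin.sum_univ_two]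
  ring

/-- An eigenvalue of a matrix of finite order is a root of unity. -/
theorem pow_eq_one_of_det_h701 (a : Matrix (Fin 2) (Fin 2) ℂ) (n : ℕ) (ha : a ^ n = 1) (x : ℂ)
    (hx : (a - x • (1 : Matrix (Fin 2) (Fin 2) ℂ)).det = 0) : x ^ n = 1 := by
  obtain ⟨v, hv0, hv⟩ := Matrix.exists_mulVec_eq_zero_iff.mpr hx
  have hav : a *ᵥ v = x • v := by
    have : a *ᵥ v - x • v = 0 := by
      rw [← hv, Matrix.sub_mulVec, Matrix.smul_mulVec, Matrix.one_mulVec]
    exact sub_eq_zero.mp this
  have hpow : ∀ k : ℕ, (a ^ k) *ᵥ v = x ^ k • v := by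
    intro k
    induction k with
    | zero => simp
    | succ k ih =>
      rw [pow_succ, ← Matrix.mulVec_mulVec, hav, Matrix.mulVec_smul, ih, smul_smul, pow_succ,
        mul_comm]
  have h1 := hpow n
  rw [ha, Matrix.one_mulVec] at h1
  by_contra hne
  apply hv0
  have h2 : (x ^ n - 1) • v = 0 := by
    rw [sub_smul, one_smul, ← h1, sub_self]
  rcases smul_eq_zero.mp h2 with h | h
  · exact absurd (sub_eq_zero.mp h) hne
  · exact h

/-- A complex number of norm one and real part at least one is one. -/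
theorem eq_one_of_norm_h701 (z : ℂ) (hz : ‖z‖ = 1) (hre : 1 ≤ z.re) : z = 1 := by
  have h1 : z.re ^ 2 + z.im ^ 2 = 1 := by
    have := Complex.sq_norm z
    rw [hz, Complex.normSq_apply] at this
    nlinarith [this]
  have hre' : z.re = 1 := by nlinarith [sq_nonneg z.im]
  have him : z.im = 0 := by
    have : z.im ^ 2 = 0 := by rw [hre'] at h1; linarith
    exact pow_eq_zero_iff (two_ne_zero) |>.mp this
  exact Complex.ext (by simp [hre']) (by simp [him])

/-- A complex `2 × 2` matrix of finite order and trace `2` is the identity. -/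
theorem eq_one_of_pow_h701 (a : Matrix (Fin 2) (Fin 2) ℂ) (n : ℕ) (hn : 0 < n) (ha : a ^ n = 1)
    (ht : a.trace = 2) : a = 1 := by
  obtain ⟨w, hw⟩ := IsAlgClosed.exists_pow_nat_eq (1 - a.det) (n := 2) (by norm_num)
  have hα : (1 + w) ^ n = 1 := by
    apply pow_eq_one_of_det_h701 a n ha
    rw [det_sub_smul_one_h701, ht]
    linear_combination hw
  have hβ : (1 - w) ^ n = 1 := by
    apply pow_eq_one_of_det_h701 a n ha
    rw [det_sub_smul_one_h701, ht]
    linear_combination hw
  have hnα : ‖1 + w‖ = 1 := Complex.norm_eq_one_of_pow_eq_one hα hn.ne'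
  have hnβ : ‖1 - w‖ = 1 := Complex.norm_eq_one_of_pow_eq_one hβ hn.ne'
  have hreα : (1 + w).re ≤ 1 := (Complex.re_le_norm _).trans hnα.le
  have hreβ : (1 - w).re ≤ 1 := (Complex.re_le_norm _).trans hnβ.le
  have hsum : (1 + w).re + (1 - w).re = 2 := by
    simp only [Complex.add_re, Complex.sub_re, Complex.one_re]
    ring
  have hα1 : 1 + w = 1 := eq_one_of_norm_h701 _ hnα (by linarith)
  have hw0 : w = 0 := by simpa using hα1
  have hd : a.det = 1 := by
    rw [hw0] at hw
    have : (1 : ℂ) - a.det = 0 := by rw [← hw]; norm_num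
    exact (sub_eq_zero.mp this).symm
  -- `(a - 1)² = 0`
  obtain ⟨N, hN⟩ : ∃ N : Matrix (Fin 2) (Fin 2) ℂ, N = a - 1 := ⟨_, rfl⟩
  have ha' : a = 1 + N := by rw [hN]; abel
  have hNN : N * N = 0 := by
    have hCH := sq_eq_h701 a
    rw [ht, hd] at hCH
    rw [hN, sub_mul, mul_sub, mul_sub, Matrix.one_mul, Matrix.mul_one, Matrix.mul_one, hCH]
    rw [two_smul, one_smul]
    abel
  have hpow : ∀ k : ℕ, a ^ k = 1 + (k : ℂ) • N := by
    intro k
    induction k with
    | zero => simp
    | succ k ih =>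
      rw [pow_succ, ih]
      conv_lhs => rw [ha']
      rw [mul_add, mul_one, add_mul, one_mul, Matrix.smul_mul, hNN, smul_zero,
        add_zero, Nat.cast_succ, add_smul, one_smul]
      abel
  have h1 := hpow n
  rw [ha] at h1
  have h2 : (n : ℂ) • N = 0 := by
    have := h1.symm
    rwa [add_eq_left] at this
  have hN0 : N = 0 := by
    rcases smul_eq_zero.mp h2 with h | h
    · exact absurd h (Nat.cast_ne_zero.mpr hn.ne')
    · exact h
  rw [hN] at hN0
  exact sub_eq_zero.mp hN0

/-- The standard diagonal matrix `diag(i, -i)`. -/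
noncomputable def stdD_h701 : Matrix (Fin 2) (Fin 2) ℂ := !![Complex.I, 0; 0, -Complex.I]

/-- The standard matrix `[[0, -1], [1, 0]]`. -/
def stdE_h701 : Matrix (Fin 2) (Fin 2) ℂ := !![0, -1; 1, 0]

/-- The matrix with columns `v`, `w`. -/
def colMat_h701 (v w : Fin 2 → ℂ) : Matrix (Fin 2) (Fin 2) ℂ :=
  Matrix.of fun l m => if m = 0 then v l else w l

theorem colMat_mulVec_h701 (v w c : Fin 2 → ℂ) :
    colMat_h701 v w *ᵥ c = c 0 • v + c 1 • w := by
  ext l
  simp [colMat_h701, Matrix.mulVec, dotProduct, Fin.sum_univ_two, mul_comm]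

theorem mul_colMat_h701 (M : Matrix (Fin 2) (Fin 2) ℂ) (v w : Fin 2 → ℂ) :
    M * colMat_h701 v w = colMat_h701 (M *ᵥ v) (M *ᵥ w) := by
  ext l m
  fin_cases m <;>
    simp [colMat_h701, Matrix.mul_apply, Matrix.mulVec, dotProduct, Fin.sum_univ_two]

theorem colMat_mul_stdD_h701 (v w : Fin 2 → ℂ) :
    colMat_h701 v w * stdD_h701 = colMat_h701 (Complex.I • v) (-Complex.I • w) := by
  ext l m
  fin_cases m <;>
    simp [colMat_h701, stdD_h701, Matrix.mul_apply, Fin.sum_univ_two, mul_comm]

theorem colMat_mul_stdE_h701 (v w : Fin 2 → ℂ) :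
    colMat_h701 v w * stdE_h701 = colMat_h701 w (-v) := by
  ext l m
  fin_cases m <;>
    simp [colMat_h701, stdE_h701, Matrix.mul_apply, Fin.sum_univ_two]

/-- A pair of complex `2 × 2` matrices satisfying the quaternion relations is conjugate to the
standard pair. -/
theorem exists_stdForm_h701 (A B : Matrix (Fin 2) (Fin 2) ℂ) (hA : A * A = -1)
    (hB : B * B = -1) (hAB : A * B = -(B * A)) :
    ∃ P : Matrix (Fin 2) (Fin 2) ℂ, P.det ≠ 0 ∧ A * P = P * stdD_h701 ∧
      B * P = P * stdE_h701 := by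
  -- `A + i ≠ 0`
  have hne : A + Complex.I • (1 : Matrix (Fin 2) (Fin 2) ℂ) ≠ 0 := by
    intro h
    have hAeq : A = -(Complex.I • (1 : Matrix (Fin 2) (Fin 2) ℂ)) := eq_neg_of_add_eq_zero_left h
    have h1 : A * B = B * A := by
      rw [hAeq]
      simp
    have h2 : (2 : ℂ) • (B * A) = 0 := by
      rw [two_smul]
      nth_rewrite 1 [← h1]
      rw [hAB]
      simp
    have h3 : B * A = 0 := by
      rcases smul_eq_zero.mp h2 with h | h
      · exact absurd h two_ne_zero
      · exact h
    have h4 : B * A * A = 0 := by rw [h3, Matrix.zero_mul]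
    rw [Matrix.mul_assoc, hA] at h4
    have h5 : B = 0 := by simpa using h4
    rw [h5, Matrix.zero_mul] at hB
    have := congrFun (congrFun hB 0) 0
    simp at this
  -- a nonzero column
  obtain ⟨k, hk⟩ : ∃ k : Fin 2,
      (A + Complex.I • (1 : Matrix (Fin 2) (Fin 2) ℂ)) *ᵥ (Pi.single k 1) ≠ 0 := by
    by_contra hcon
    simp only [not_exists, not_not] at hcon
    apply hne
    ext l m
    have := congrFun (hcon m) l
    simpa [Matrix.mulVec_single_one] using this
  set v : Fin 2 → ℂ := (A + Complex.I • (1 : Matrix (Fin 2) (Fin 2) ℂ)) *ᵥ (Pi.single k 1)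
    with hv
  have hAv : A *ᵥ v = Complex.I • v := by
    have h0 : (A - Complex.I • (1 : Matrix (Fin 2) (Fin 2) ℂ)) *
        (A + Complex.I • (1 : Matrix (Fin 2) (Fin 2) ℂ)) = 0 := by
      rw [sub_mul, mul_add, mul_add, hA]
      simp only [Matrix.mul_smul, Matrix.smul_mul, Matrix.mul_one, Matrix.one_mul, smul_smul,
        Complex.I_mul_I]
      rw [neg_smul, one_smul]
      abel
    have h1 : (A - Complex.I • (1 : Matrix (Fin 2) (Fin 2) ℂ)) *ᵥ v = 0 := by
      rw [hv, Matrix.mulVec_mulVec, h0, Matrix.zero_mulVec]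
    rw [Matrix.sub_mulVec, Matrix.smul_mulVec, Matrix.one_mulVec] at h1
    exact sub_eq_zero.mp h1
  set w : Fin 2 → ℂ := B *ᵥ v with hw
  have hAw : A *ᵥ w = -Complex.I • w := by
    rw [hw, Matrix.mulVec_mulVec, hAB, Matrix.neg_mulVec, ← Matrix.mulVec_mulVec, hAv,
      Matrix.mulVec_smul, neg_smul]
  have hBw : B *ᵥ w = -v := by
    rw [hw, Matrix.mulVec_mulVec, hB, Matrix.neg_mulVec, Matrix.one_mulVec]
  refine ⟨colMat_h701 v w, ?_, ?_, ?_⟩
  · intro hdet
    obtain ⟨c, hc0, hc⟩ := Matrix.exists_mulVec_eq_zero_iff.mpr hdet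
    rw [colMat_mulVec_h701] at hc
    have hc' : A *ᵥ (c 0 • v + c 1 • w) = 0 := by rw [hc, Matrix.mulVec_zero]
    rw [Matrix.mulVec_add, Matrix.mulVec_smul, Matrix.mulVec_smul, hAv, hAw] at hc'
    have h1 : (2 * c 0) • v = 0 := by
      have e : (2 * c 0) • v =
          (c 0 • v + c 1 • w) + (-Complex.I) • (c 0 • Complex.I • v + c 1 • -Complex.I • w) := by
        ext l
        simp only [Pi.add_apply, Pi.smul_apply, smul_eq_mul]
        linear_combination (c 0 * v l - c 1 * w l) * Complex.I_mul_I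
      rw [e, hc, hc']
      simp
    have hc00 : c 0 = 0 := by
      rcases smul_eq_zero.mp h1 with h | h
      · rcases mul_eq_zero.mp h with h | h
        · exact absurd h two_ne_zero
        · exact h
      · exact absurd h hk
    rw [hc00, zero_smul, zero_add] at hc
    have hc1 : c 1 ≠ 0 := by
      intro h
      apply hc0
      ext l
      fin_cases l
      · exact hc00
      · exact h
    have hw0 : w = 0 := by
      rcases smul_eq_zero.mp hc with h | h
      · exact absurd h hc1
      · exact h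
    rw [hw0, Matrix.mulVec_zero] at hBw
    exact hk (neg_eq_zero.mp hBw.symm)
  · rw [mul_colMat_h701, colMat_mul_stdD_h701, hAv, hAw]
  · rw [mul_colMat_h701, colMat_mul_stdE_h701, hBw]

/-- The commutant of the standard pair consists of scalar matrices. -/
theorem scalar_of_commute_std_h701 (X : Matrix (Fin 2) (Fin 2) ℂ)
    (hD : X * stdD_h701 = stdD_h701 * X) (hE : X * stdE_h701 = stdE_h701 * X) :
    X = X 0 0 • (1 : Matrix (Fin 2) (Fin 2) ℂ) := by
  have hI : Complex.I ≠ 0 := Complex.I_ne_zero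
  have h01 := congrFun (congrFun hD 0) 1
  have h10 := congrFun (congrFun hD 1) 0
  have e01 := congrFun (congrFun hE 0) 1
  simp [stdD_h701, stdE_h701, Matrix.mul_apply, Fin.sum_univ_two] at h01 h10 e01
  have hX01 : X 0 1 = 0 := by
    have : (2 * Complex.I) * X 0 1 = 0 := by linear_combination -h01
    rcases mul_eq_zero.mp this with h | h
    · exact absurd h (mul_ne_zero two_ne_zero hI)
    · exact h
  have hX10 : X 1 0 = 0 := by
    have : (2 * Complex.I) * X 1 0 = 0 := by linear_combination h10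
    rcases mul_eq_zero.mp this with h | h
    · exact absurd h (mul_ne_zero two_ne_zero hI)
    · exact h
  ext l m
  fin_cases l <;> fin_cases m <;> simp [hX01, hX10]
  exact e01.symm


end Fermat.Agent.LT.H701

end
-- ===== PACK-END LT/H701/Quat.lean

-- ===== PACK-BEGIN LT/A2/H138/FrobLAbs.lean
section




/-!
# Row LT, tower A2, leaf `FrobLC` (registry 817) -- abstract part (helper138, OFF-MAIN)

Mathlib + Prelude only.  Valuation subrings `A` of `ℚ̄`, Prelude Frobenius elements.

* `mem_of_isIntegral138` : algebraic integers lie in every valuation subring of `ℚ̄`.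
* `int_dvd_of_mem_nonunits138` : `c ∈ ℤ ∩ 𝔪_A`, `A | p` ⟹ `p ∣ c`.
* `residue_smul138` : the action of the decomposition group on the residue field.
* `isFrobeniusAt_pow138` : `σ` Frobenius at `A` for `q` ⟹ `σ ^ f` Frobenius at `A` for `q ^ f`.
* `exists_sep_primes138` : for an algebraic integer `α` there is a finite set `S` of primes such
  that for `p ∉ S`, `A | p`, every `τ ∈ G_ℚ` with `τ α ≡ α mod 𝔪_A` fixes `α`
  (the differences of the conjugates of `α` are units outside `S`).
-/

set_option autoImplicit false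

noncomputable section

namespace Fermat.Agent.LT.A2.H138

local notation "Qb" => AlgebraicClosure ℚ
local notation "Γℚ" => (AlgebraicClosure ℚ ≃ₐ[ℚ] AlgebraicClosure ℚ)

/-- `ℚ̄ / ℚ` is Galois. -/
theorem isGalois_Qb138 : IsGalois ℚ Qb := by
  have : Algebra.IsAlgebraic ℚ Qb := AlgebraicClosure.isAlgebraic ℚ
  have : IsAlgClosure ℚ Qb := ⟨inferInstance, inferInstance⟩
  have : Normal ℚ Qb := IsAlgClosure.normal ℚ Qb
  exact isGalois_iff.mpr ⟨inferInstance, inferInstance⟩

/-- Integers lie in every valuation subring. -/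
theorem intCast_mem138 (A : ValuationSubring Qb) (c : ℤ) : (c : Qb) ∈ A :=
  intCast_mem A c

/-- Algebraic integers lie in every valuation subring of `ℚ̄`. -/
theorem mem_of_isIntegral138 (A : ValuationSubring Qb) {x : Qb} (hx : IsIntegral ℤ x) :
    x ∈ A := by
  have h1 : IsIntegral A x := hx.tower_top
  obtain ⟨y, hy⟩ := IsIntegrallyClosed.isIntegral_iff.mp h1
  rw [← hy]
  exact y.2

/-- `𝔪_A` is closed under addition. -/
theorem add_mem_nonunits138 (A : ValuationSubring Qb) {x y : Qb} (hx : x ∈ A.nonunits)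
    (hy : y ∈ A.nonunits) : x + y ∈ A.nonunits := by
  rw [ValuationSubring.mem_nonunits_iff_exists_mem_maximalIdeal] at hx hy ⊢
  obtain ⟨hxA, hxm⟩ := hx
  obtain ⟨hyA, hym⟩ := hy
  exact ⟨A.add_mem _ _ hxA hyA, (IsLocalRing.maximalIdeal A).add_mem hxm hym⟩

/-- `𝔪_A` is an ideal of `A`. -/
theorem mul_mem_nonunits138 (A : ValuationSubring Qb) {x y : Qb} (hx : x ∈ A)
    (hy : y ∈ A.nonunits) : x * y ∈ A.nonunits := by
  rw [ValuationSubring.mem_nonunits_iff_exists_mem_maximalIdeal] at hy ⊢
  obtain ⟨hyA, hym⟩ := hy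
  exact ⟨A.mul_mem _ _ hx hyA, (IsLocalRing.maximalIdeal A).mul_mem_left ⟨x, hx⟩ hym⟩

theorem one_not_mem_nonunits138 (A : ValuationSubring Qb) : (1 : Qb) ∉ A.nonunits := by
  intro h
  rw [ValuationSubring.mem_nonunits_iff_exists_mem_maximalIdeal] at h
  obtain ⟨h1, hm⟩ := h
  have : (⟨1, h1⟩ : A) = 1 := rfl
  rw [this] at hm
  exact (Ideal.ne_top_iff_one _).mp (IsLocalRing.maximalIdeal.isMaximal A).ne_top hm

/-- An integer of `𝔪_A` is divisible by the residue characteristic. -/
theorem int_dvd_of_mem_nonunits138 (A : ValuationSubring Qb) {p : ℕ} (hp : p.Prime)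
    (hA : A.LiesOverPrime p) {c : ℤ} (hc : (c : Qb) ∈ A.nonunits) : (p : ℤ) ∣ c := by
  by_contra hnd
  have hcop : IsCoprime (p : ℤ) c :=
    ((Nat.prime_iff_prime_int.mp hp).coprime_iff_not_dvd).mpr hnd
  obtain ⟨u, v, huv⟩ := hcop
  have h1 : ((u : Qb) * (p : Qb)) + (v : Qb) * (c : Qb) = 1 := by
    have := congrArg (fun z : ℤ => (z : Qb)) huv
    push_cast at this
    exact this
  have h2 : ((u : Qb) * (p : Qb)) + (v : Qb) * (c : Qb) ∈ A.nonunits :=
    add_mem_nonunits138 A (mul_mem_nonunits138 A (intCast_mem138 A u) hA)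
      (mul_mem_nonunits138 A (intCast_mem138 A v) hc)
  rw [h1] at h2
  exact one_not_mem_nonunits138 A h2

/-- A natural number of `𝔪_A` is divisible by the residue characteristic. -/
theorem nat_dvd_of_mem_nonunits138 (A : ValuationSubring Qb) {p : ℕ} (hp : p.Prime)
    (hA : A.LiesOverPrime p) {c : ℕ} (hc : (c : Qb) ∈ A.nonunits) : p ∣ c := by
  have h : (((c : ℤ) : ℤ) : Qb) ∈ A.nonunits := by
    have : (((c : ℤ) : ℤ) : Qb) = (c : Qb) := by push_cast; rfl
    rw [this]; exact hc
  exact Int.natCast_dvd_natCast.mp (int_dvd_of_mem_nonunits138 A hp hA h)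

/-! ## The action on the residue field -/

/-- The decomposition group preserves `A`. -/
theorem apply_mem_of_mem_decomp138 (A : ValuationSubring Qb) {σ : Γℚ}
    (hσ : σ ∈ A.decompositionSubgroup ℚ) {x : Qb} (hx : x ∈ A) : σ x ∈ A := by
  have h := ((⟨σ, hσ⟩ : A.decompositionSubgroup ℚ) • (⟨x, hx⟩ : A)).2
  exact h

/-- `σ • (x mod 𝔪_A) = (σ x mod 𝔪_A)`. -/
theorem residue_smul138 (A : ValuationSubring Qb) {σ : Γℚ}
    (hσ : σ ∈ A.decompositionSubgroup ℚ) {x : Qb} (hx : x ∈ A) :
    (⟨σ, hσ⟩ : A.decompositionSubgroup ℚ) • (IsLocalRing.residue A ⟨x, hx⟩)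
      = IsLocalRing.residue A ⟨σ x, apply_mem_of_mem_decomp138 A hσ hx⟩ := by
  rw [← IsLocalRing.ResidueField.residue_smul]
  rfl

/-- Powers of a Frobenius element. -/
theorem isFrobeniusAt_pow138 (A : ValuationSubring Qb) {σ : Γℚ} {q : ℕ}
    (h : A.IsFrobeniusAt σ q) (f : ℕ) : A.IsFrobeniusAt (σ ^ f) (q ^ f) := by
  obtain ⟨hσ, hx⟩ := h
  refine ⟨pow_mem hσ f, fun x => ?_⟩
  have hpow : (⟨σ ^ f, pow_mem hσ f⟩ : A.decompositionSubgroup ℚ)
      = (⟨σ, hσ⟩ : A.decompositionSubgroup ℚ) ^ f := rfl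
  rw [hpow]
  clear hpow
  induction f generalizing x with
  | zero => simp
  | succ n ih =>
    rw [pow_succ, mul_smul, hx x, ih (x ^ q), ← pow_mul, pow_succ, mul_comm]

/-- The residue class of `x ∈ A` is fixed by `σ` iff `σ x - x ∈ 𝔪_A`. -/
theorem sub_mem_nonunits_of_smul_residue138 (A : ValuationSubring Qb) {σ : Γℚ}
    (hσ : σ ∈ A.decompositionSubgroup ℚ) {x : Qb} (hx : x ∈ A)
    (h : (⟨σ, hσ⟩ : A.decompositionSubgroup ℚ) • (IsLocalRing.residue A ⟨x, hx⟩)
      = IsLocalRing.residue A ⟨x, hx⟩) : σ x - x ∈ A.nonunits := by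
  rw [residue_smul138 A hσ hx] at h
  rw [ValuationSubring.mem_nonunits_iff_exists_mem_maximalIdeal]
  refine ⟨A.sub_mem (apply_mem_of_mem_decomp138 A hσ hx) hx, ?_⟩
  rw [← IsLocalRing.residue_eq_zero_iff]
  have : (⟨σ x - x, A.sub_mem (apply_mem_of_mem_decomp138 A hσ hx) hx⟩ : A)
      = ⟨σ x, apply_mem_of_mem_decomp138 A hσ hx⟩ - ⟨x, hx⟩ := rfl
  rw [this, map_sub, h, sub_self]

/-! ## Separation of the conjugates -/

/-- A nonzero algebraic integer divides a nonzero rational integer: if it lies in `𝔪_A`, `A | p`,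
then `p` divides the constant coefficient of its minimal polynomial. -/
theorem exists_int_of_isIntegral138 {d : Qb} (hd : IsIntegral ℤ d) (hd0 : d ≠ 0) :
    ∃ c : ℤ, c ≠ 0 ∧ ∀ A : ValuationSubring Qb, d ∈ A.nonunits → (c : Qb) ∈ A.nonunits := by
  refine ⟨(minpoly ℤ d).coeff 0, ?_, fun A hdA => ?_⟩
  · intro h0
    have h1 : minpoly ℚ d = (minpoly ℤ d).map (algebraMap ℤ ℚ) :=
      minpoly.isIntegrallyClosed_eq_field_fractions' ℚ hd
    have h2 : (minpoly ℚ d).coeff 0 = 0 := by
      rw [h1, Polynomial.coeff_map, h0, map_zero]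
    have hdQ : IsIntegral ℚ d := hd.tower_top
    exact minpoly.coeff_zero_ne_zero hdQ hd0 h2
  · have h1 : Polynomial.aeval d (minpoly ℤ d) = 0 := minpoly.aeval ℤ d
    have h2 := Polynomial.divX_mul_X_add (minpoly ℤ d)
    rw [← h2] at h1
    simp only [map_add, map_mul, Polynomial.aeval_X, Polynomial.aeval_C] at h1
    have h3 : ((algebraMap ℤ Qb) ((minpoly ℤ d).coeff 0))
        = -(Polynomial.aeval d (minpoly ℤ d).divX) * d := by
      linear_combination h1
    have h4 : ((((minpoly ℤ d).coeff 0 : ℤ)) : Qb)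
        = -(Polynomial.aeval d (minpoly ℤ d).divX) * d := by
      rw [← h3]; rfl
    rw [h4]
    apply mul_mem_nonunits138 A _ hdA
    apply mem_of_isIntegral138 A
    apply IsIntegral.neg
    have hsub : Polynomial.aeval d (minpoly ℤ d).divX ∈ Algebra.adjoin ℤ {d} := by
      rw [Algebra.adjoin_singleton_eq_range_aeval]
      exact ⟨_, rfl⟩
    exact IsIntegral.of_mem_of_fg (Algebra.adjoin ℤ {d}) (hd.fg_adjoin_singleton) _ hsub

/-- For an algebraic integer `α` there is a finite set `S` of primes such that for `p ∉ S` and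
`A | p`: every `τ` with `τ α ≡ α mod 𝔪_A` fixes `α`. -/
theorem exists_sep_primes138 {α : Qb} (hα : IsIntegral ℤ α) :
    ∃ S : Finset ℕ, ∀ p : ℕ, p.Prime → p ∉ S →
      ∀ A : ValuationSubring Qb, A.LiesOverPrime p →
        ∀ τ : Γℚ, τ α - α ∈ A.nonunits → τ α = α := by
  classical
  have hfin : ((minpoly ℚ α).rootSet Qb).Finite := Polynomial.rootSet_finite _ _
  have hex : ∀ β : Qb, ∃ c : ℤ, (β ∈ (minpoly ℚ α).rootSet Qb → β ≠ α →
      c ≠ 0 ∧ ∀ A : ValuationSubring Qb, β - α ∈ A.nonunits → (c : Qb) ∈ A.nonunits) := by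
    intro β
    by_cases hβ : β ∈ (minpoly ℚ α).rootSet Qb ∧ β ≠ α
    · have hβint : IsIntegral ℤ β := by
        have hroot : Polynomial.aeval β (minpoly ℚ α) = 0 :=
          (Polynomial.mem_rootSet.mp hβ.1).2
        have h1 : minpoly ℚ α = (minpoly ℤ α).map (algebraMap ℤ ℚ) :=
          minpoly.isIntegrallyClosed_eq_field_fractions' ℚ hα
        rw [h1, Polynomial.aeval_map_algebraMap] at hroot
        exact ⟨minpoly ℤ α, minpoly.monic hα, by
          rw [← Polynomial.aeval_def]; exact hroot⟩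
      obtain ⟨c, hc0, hc⟩ := exists_int_of_isIntegral138 (hβint.sub hα)
        (sub_ne_zero.mpr hβ.2)
      exact ⟨c, fun _ _ => ⟨hc0, hc⟩⟩
    · exact ⟨0, fun h1 h2 => absurd ⟨h1, h2⟩ hβ⟩
  choose c hc using hex
  refine ⟨(∏ β ∈ hfin.toFinset.filter (fun β => β ≠ α), (c β).natAbs).primeFactors, ?_⟩
  intro p hp hpS A hA τ hτ
  by_contra hne
  have hβroot : τ α ∈ (minpoly ℚ α).rootSet Qb := by
    rw [Polynomial.mem_rootSet]
    refine ⟨minpoly.ne_zero hα.tower_top, ?_⟩
    have h1 : Polynomial.aeval (τ α) (minpoly ℚ α)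
        = τ (Polynomial.aeval α (minpoly ℚ α)) :=
      Polynomial.aeval_algHom_apply τ.toAlgHom α (minpoly ℚ α)
    rw [h1, minpoly.aeval, map_zero]
  obtain ⟨hc0, hcA⟩ := hc (τ α) hβroot hne
  have hdvd : (p : ℤ) ∣ c (τ α) := int_dvd_of_mem_nonunits138 A hp hA (hcA A hτ)
  have hmem : τ α ∈ hfin.toFinset.filter (fun β => β ≠ α) := by
    rw [Finset.mem_filter, Set.Finite.mem_toFinset]
    exact ⟨hβroot, hne⟩
  have hprod0 : (∏ β ∈ hfin.toFinset.filter (fun β => β ≠ α), (c β).natAbs) ≠ 0 := by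
    rw [Finset.prod_ne_zero_iff]
    intro β hβ
    rw [Finset.mem_filter, Set.Finite.mem_toFinset] at hβ
    exact Int.natAbs_ne_zero.mpr (hc β hβ.1 hβ.2).1
  apply hpS
  rw [Nat.mem_primeFactors]
  refine ⟨hp, ?_, hprod0⟩
  have h1 : p ∣ (c (τ α)).natAbs := Int.natCast_dvd.mp hdvd
  exact h1.trans (Finset.dvd_prod_of_mem _ hmem)

end Fermat.Agent.LT.A2.H138

end

end
-- ===== PACK-END LT/A2/H138/FrobLAbs.lean

-- ===== PACK-BEGIN LT/T1/H558/FundDomAbs.lean
section


/-!
# Row LT, tower T1, leaf T1.18 (helper558): strict Borel fundamental domains, abstract part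

OFF-MAIN.  Mathlib only.

`exists_strict_fundDom558`: a countable discrete subgroup `Γ` of a second countable topological
group `G` (Borel σ-algebra), an invariant Borel set `X` and a Borel set `S` meeting every
`Γ`-orbit of `X`: there is a Borel set `F ⊆ S ∩ X` meeting every `Γ`-orbit of `X` in exactly one
point (`∀ g ∈ X, ∃! γ : Γ, γ * g ∈ F`).  Bourbaki, Intégration VII §2 no. 10.
-/

set_option autoImplicit false

open Set Topology

namespace Fermat.Agent.LT.T1.H558

section Abs

variable {G : Type*} [Group G] [TopologicalSpace G] [IsTopologicalGroup G]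

/-- A discrete subgroup has an open neighbourhood `V` of `1` with `V V⁻¹ ∩ Γ = {1}`. -/
theorem exists_nhds_sep558 (Γ : Subgroup G) [DiscreteTopology Γ] :
    ∃ V : Set G, IsOpen V ∧ (1 : G) ∈ V ∧
      ∀ a ∈ V, ∀ b ∈ V, a * b⁻¹ ∈ Γ → a * b⁻¹ = 1 := by
  classical
  -- an open `U` with `U ∩ Γ = {1}`
  have h1 : IsOpen ({1} : Set Γ) := isOpen_discrete _
  obtain ⟨U, hUo, hU⟩ := isOpen_induced_iff.mp h1
  have h1U : (1 : G) ∈ U := by
    have : (1 : Γ) ∈ (Subtype.val ⁻¹' U : Set Γ) := by rw [hU]; exact rfl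
    simpa using this
  have hUΓ : ∀ x ∈ U, x ∈ Γ → x = 1 := by
    intro x hx hxΓ
    have : (⟨x, hxΓ⟩ : Γ) ∈ (Subtype.val ⁻¹' U : Set Γ) := hx
    rw [hU] at this
    exact congrArg Subtype.val (Set.mem_singleton_iff.mp this)
  -- continuity of `(a, b) ↦ a * b⁻¹` at `(1, 1)`
  have hc : Continuous fun p : G × G => p.1 * p.2⁻¹ := by fun_prop
  have hpre : (fun p : G × G => p.1 * p.2⁻¹) ⁻¹' U ∈ 𝓝 ((1 : G), (1 : G)) := by
    apply hc.continuousAt.preimage_mem_nhds
    simpa using hUo.mem_nhds h1U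
  rw [nhds_prod_eq, Filter.mem_prod_iff] at hpre
  obtain ⟨A, hA, B, hB, hAB⟩ := hpre
  obtain ⟨V, hVsub, hVo, hV1⟩ := mem_nhds_iff.mp (Filter.inter_mem hA hB)
  refine ⟨V, hVo, hV1, ?_⟩
  intro a ha b hb hab
  apply hUΓ _ _ hab
  have : (a, b) ∈ A ×ˢ B := ⟨(hVsub ha).1, (hVsub hb).2⟩
  exact hAB this

variable [SecondCountableTopology G]

/-- A sequence of right translates of `V` covering `G`. -/
theorem exists_seq_cover558 (V : Set G) (hVo : IsOpen V) (hV1 : (1 : G) ∈ V) :
    ∃ x : ℕ → G, ∀ g : G, ∃ n : ℕ, g * (x n)⁻¹ ∈ V := by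
  classical
  have hf : ∀ y : G, (fun g : G => g * y⁻¹) ⁻¹' V ∈ 𝓝 y := by
    intro y
    have hc : Continuous fun g : G => g * y⁻¹ := by fun_prop
    apply hc.continuousAt.preimage_mem_nhds
    simpa using hVo.mem_nhds hV1
  obtain ⟨s, hs, hcov⟩ := TopologicalSpace.countable_cover_nhds hf
  have hne : s.Nonempty := by
    by_contra hcon
    rw [Set.not_nonempty_iff_eq_empty] at hcon
    have : (1 : G) ∈ (⋃ x ∈ s, (fun g : G => g * x⁻¹) ⁻¹' V) := by rw [hcov]; trivial
    rw [hcon] at this
    simp at this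
  obtain ⟨x, hx⟩ := hs.exists_eq_range hne
  refine ⟨x, fun g => ?_⟩
  have : g ∈ (⋃ y ∈ s, (fun g : G => g * y⁻¹) ⁻¹' V) := by rw [hcov]; trivial
  simp only [Set.mem_iUnion, Set.mem_preimage, exists_prop] at this
  obtain ⟨y, hy, hgy⟩ := this
  rw [hx] at hy
  obtain ⟨n, rfl⟩ := hy
  exact ⟨n, hgy⟩

variable [MeasurableSpace G] [BorelSpace G]

/-- **Strict Borel fundamental domain** for a countable discrete subgroup `Γ` in an invariant
Borel set `X`, inside a Borel set `S` that meets every orbit of `X`. -/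
theorem exists_strict_fundDom558 (Γ : Subgroup G) [Countable Γ] [DiscreteTopology Γ]
    (X S : Set G) (hX : MeasurableSet X) (hS : MeasurableSet S)
    (hXinv : ∀ γ : Γ, ∀ g ∈ X, (γ : G) * g ∈ X)
    (hcov : ∀ g ∈ X, ∃ γ : Γ, (γ : G) * g ∈ S) :
    ∃ F : Set G, MeasurableSet F ∧ F ⊆ S ∩ X ∧ ∀ g ∈ X, ∃! γ : Γ, (γ : G) * g ∈ F := by
  classical
  obtain ⟨V, hVo, hV1, hVsep⟩ := exists_nhds_sep558 Γ
  obtain ⟨x, hx⟩ := exists_seq_cover558 V hVo hV1
  -- the pieces
  set A : ℕ → Set G := fun n => (S ∩ X) ∩ (fun g : G => g * (x n)⁻¹) ⁻¹' V with hA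
  set B : ℕ → Set G := fun n => ⋃ γ : Γ, (fun g : G => (γ : G) * g) ⁻¹' A n with hB
  have hAm : ∀ n, MeasurableSet (A n) := by
    intro n
    refine (hS.inter hX).inter ?_
    have hc : Continuous fun g : G => g * (x n)⁻¹ := by fun_prop
    exact (hVo.preimage hc).measurableSet
  have hBm : ∀ n, MeasurableSet (B n) := by
    intro n
    refine MeasurableSet.iUnion fun γ => ?_
    have hc : Continuous fun g : G => (γ : G) * g := by fun_prop
    exact hc.measurable (hAm n)
  have hBmem : ∀ n g, g ∈ B n ↔ ∃ γ : Γ, (γ : G) * g ∈ A n := by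
    intro n g
    simp [hB]
  have hBinv : ∀ n (γ : Γ) g, (γ : G) * g ∈ B n ↔ g ∈ B n := by
    intro n γ g
    rw [hBmem, hBmem]
    constructor
    · rintro ⟨δ, hδ⟩
      refine ⟨δ * γ, ?_⟩
      simpa [mul_assoc] using hδ
    · rintro ⟨δ, hδ⟩
      refine ⟨δ * γ⁻¹, ?_⟩
      simpa [mul_assoc] using hδ
  refine ⟨⋃ n, (A n \ ⋃ m ∈ Finset.range n, B m), ?_, ?_, ?_⟩
  · refine MeasurableSet.iUnion fun n => (hAm n).diff ?_
    exact Finset.measurableSet_biUnion _ fun m _ => hBm m
  · intro g hg
    simp only [Set.mem_iUnion, Set.mem_sdiff] at hg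
    obtain ⟨n, hgA, _⟩ := hg
    exact hgA.1
  · intro g hg
    -- the orbit of `g` meets some `A n`
    have hex : ∃ n, g ∈ B n := by
      obtain ⟨γ, hγ⟩ := hcov g hg
      obtain ⟨n, hn⟩ := hx ((γ : G) * g)
      exact ⟨n, (hBmem n g).mpr ⟨γ, ⟨hγ, hXinv γ g hg⟩, hn⟩⟩
    set n := Nat.find hex with hn
    have hgn : g ∈ B n := Nat.find_spec hex
    have hmin : ∀ m, m < n → g ∉ B m := fun m hm => Nat.find_min hex hm
    obtain ⟨γ, hγ⟩ := (hBmem n g).mp hgn
    have hF : ∀ (δ : Γ), ((δ : G) * g ∈ ⋃ k, (A k \ ⋃ m ∈ Finset.range k, B m)) ↔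
        (δ : G) * g ∈ A n := by
      intro δ
      constructor
      · intro h
        simp only [Set.mem_iUnion, Set.mem_sdiff, Finset.mem_range, exists_prop, not_exists,
          not_and] at h
        obtain ⟨k, hkA, hk⟩ := h
        have hgk : g ∈ B k := (hBmem k g).mpr ⟨δ, hkA⟩
        have hnk : n ≤ k := Nat.find_min' hex hgk
        rcases Nat.lt_or_ge n k with hlt | hge
        · exact absurd ((hBinv n δ g).mpr hgn) (hk n hlt)
        · have : k = n := le_antisymm hge hnk
          rw [this] at hkA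
          exact hkA
      · intro h
        simp only [Set.mem_iUnion, Set.mem_sdiff, Finset.mem_range, exists_prop, not_exists,
          not_and]
        refine ⟨n, h, fun m hm hmB => ?_⟩
        exact hmin m hm ((hBinv m δ g).mp hmB)
    refine ⟨γ, (hF γ).mpr hγ, ?_⟩
    intro δ hδ
    have hδA : (δ : G) * g ∈ A n := (hF δ).mp hδ
    -- both in `V x_n`
    have h1 : ((δ : G) * g) * (x n)⁻¹ ∈ V := hδA.2
    have h2 : ((γ : G) * g) * (x n)⁻¹ ∈ V := hγ.2
    have hmem : (((δ : G) * g) * (x n)⁻¹) * (((γ : G) * g) * (x n)⁻¹)⁻¹ ∈ Γ := by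
      have : (((δ : G) * g) * (x n)⁻¹) * (((γ : G) * g) * (x n)⁻¹)⁻¹ = ((δ * γ⁻¹ : Γ) : G) := by
        push_cast
        group
      rw [this]
      exact (δ * γ⁻¹).2
    have h3 := hVsep _ h1 _ h2 hmem
    have h4 : (δ : G) * (γ : G)⁻¹ = 1 := by
      have : (((δ : G) * g) * (x n)⁻¹) * (((γ : G) * g) * (x n)⁻¹)⁻¹ = (δ : G) * (γ : G)⁻¹ := by
        group
      rw [this] at h3
      exact h3
    exact Subtype.ext (mul_inv_eq_one.mp h4)

end Abs

end Fermat.Agent.LT.T1.H558

end
-- ===== PACK-END LT/T1/H558/FundDomAbs.lean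

-- ===== PACK-BEGIN LT/CFT/H701/ArtinSchreier.lean
section


/-!
# Row LT, tower CFT (helper701, OFF-MAIN): ARTIN–SCHREIER for `ℚ̄`

An element of order two of `Gal(ℚ̄/ℚ)` is a "complex conjugation": its fixed field `L` is an
ordered field (positive = nonzero square), archimedean because `L/ℚ` is algebraic, so it embeds
in `ℝ`.  Consequence (`eq_one_of_mul_self_of_totallyComplex701`): if `K` is a totally complex
number field embedded in `ℚ̄` by `j`, the group `Gal(ℚ̄/j K)` has no element of order two.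

Mathlib only.  Reference: Artin–Schreier (Lang, Algebra, VI §9 Cor. 9.3 + XI §2).
-/

set_option autoImplicit false

noncomputable section

namespace Fermat.Agent.LT.CFT.H701

open Polynomial

/-! ## 1. The fixed field of an involution of an algebraically closed field -/

section Invol

variable {C : Type*} [Field C]

/-- The fixed field of a ring automorphism. -/
def fixSub701 (c : C ≃+* C) : Subfield C where
  carrier := {x | c x = x}
  mul_mem' := by
    intro a b ha hb
    change c a = a at ha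
    change c b = b at hb
    change c (a * b) = a * b
    rw [map_mul, ha, hb]
  one_mem' := map_one c
  add_mem' := by
    intro a b ha hb
    change c a = a at ha
    change c b = b at hb
    change c (a + b) = a + b
    rw [map_add, ha, hb]
  zero_mem' := map_zero c
  neg_mem' := by
    intro a ha
    change c a = a at ha
    change c (-a) = -a
    rw [map_neg, ha]
  inv_mem' := by
    intro a ha
    change c a = a at ha
    change c a⁻¹ = a⁻¹
    rw [map_inv₀, ha]

theorem mem_fixSub701 (c : C ≃+* C) (x : C) : x ∈ fixSub701 c ↔ c x = x := Iff.rfl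

variable [IsAlgClosed C]

/-- In characteristic `≠ 2`, an involution `c ≠ 1` of an algebraically closed field moves the
square roots of `-1`. -/
theorem exists_sqrt_neg_one701 (h2 : (2 : C) ≠ 0) (c : C ≃+* C) (hcc : ∀ x, c (c x) = x)
    (hne : ∃ y, c y ≠ y) : ∃ i : C, i * i = -1 ∧ c i = -i := by
  obtain ⟨i, hi⟩ := IsAlgClosed.exists_eq_mul_self (-1 : C)
  have hi' : i * i = -1 := hi.symm
  refine ⟨i, hi', ?_⟩
  have hci : c i * c i = -1 := by rw [← map_mul, hi', map_neg, map_one]
  have hprod : (c i - i) * (c i + i) = 0 := by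
    have : (c i - i) * (c i + i) = c i * c i - i * i := by ring
    rw [this, hci, hi', sub_self]
  rcases mul_eq_zero.mp hprod with h | h
  · exfalso
    have hcii : c i = i := sub_eq_zero.mp h
    obtain ⟨y, hy⟩ := hne
    set j : C := y - c y with hj
    have hj0 : j ≠ 0 := fun h0 => hy (sub_eq_zero.mp h0).symm
    have hcj : c j = -j := by
      rw [hj, map_sub, hcc]; ring
    obtain ⟨b, hb⟩ := IsAlgClosed.exists_eq_mul_self j
    set N : C := b * c b with hN
    have hcN : c N = N := by rw [hN, map_mul, hcc]; ring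
    have hNN : N * N = -(j * j) := by
      have h1 : N * N = (b * b) * (c b * c b) := by rw [hN]; ring
      have h2' : c b * c b = c j := by rw [← map_mul, ← hb]
      rw [h1, ← hb, h2', hcj]; ring
    have hsq : (i * N - j) * (i * N + j) = 0 := by
      have : (i * N - j) * (i * N + j) = (i * i) * (N * N) - j * j := by ring
      rw [this, hi', hNN]; ring
    have hcin : c (i * N) = i * N := by rw [map_mul, hcii, hcN]
    have hjfix : c j = j := by
      rcases mul_eq_zero.mp hsq with h' | h'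
      · have : j = i * N := (sub_eq_zero.mp h').symm
        rw [this, hcin]
      · have : j = -(i * N) := by
          have := eq_neg_of_add_eq_zero_right h'
          exact this
        rw [this, map_neg, hcin]
    have : (2 : C) * j = 0 := by
      have h3 : j = -j := hjfix.symm.trans hcj
      have : j + j = 0 := by
        nth_rewrite 2 [h3]
        ring
      rw [two_mul]; exact this
    rcases mul_eq_zero.mp this with h' | h'
    · exact h2 h'
    · exact hj0 h'
  · exact eq_neg_of_add_eq_zero_left h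

variable (c : C ≃+* C) (hcc : ∀ x, c (c x) = x) (i : C) (hi : i * i = -1) (hci : c i = -i)

include hi hci in
/-- Every element of the fixed field is a square or minus a square. -/
theorem sq_or_neg_sq701 (x : fixSub701 c) :
    (∃ t : fixSub701 c, x = t * t) ∨ (∃ t : fixSub701 c, -x = t * t) := by
  obtain ⟨w, hw⟩ := IsAlgClosed.exists_eq_mul_self (x : C)
  have hx : c (x : C) = x := x.2
  have hcw : c w * c w = w * w := by rw [← map_mul, ← hw, hx]
  have hprod : (c w - w) * (c w + w) = 0 := by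
    have : (c w - w) * (c w + w) = c w * c w - w * w := by ring
    rw [this, hcw, sub_self]
  rcases mul_eq_zero.mp hprod with h | h
  · left
    refine ⟨⟨w, sub_eq_zero.mp h⟩, ?_⟩
    apply Subtype.ext
    simpa using hw
  · right
    have hcw' : c w = -w := eq_neg_of_add_eq_zero_left h
    refine ⟨⟨w * i, ?_⟩, ?_⟩
    · show c (w * i) = w * i
      rw [map_mul, hcw', hci]; ring
    · apply Subtype.ext
      show -(x : C) = (w * i) * (w * i)
      have : (w * i) * (w * i) = (w * w) * (i * i) := by ring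
      rw [this, hi, ← hw]; ring

include hcc hi hci in
/-- In the fixed field a sum of two squares is a square. -/
theorem add_sq_eq_sq701 (u v : fixSub701 c) :
    ∃ r : fixSub701 c, u * u + v * v = r * r := by
  obtain ⟨w, hw⟩ := IsAlgClosed.exists_eq_mul_self ((u : C) + v * i)
  have hu : c (u : C) = u := u.2
  have hv : c (v : C) = v := v.2
  refine ⟨⟨w * c w, ?_⟩, ?_⟩
  · show c (w * c w) = w * c w
    rw [map_mul, hcc]; ring
  · apply Subtype.ext
    show (u : C) * u + v * v = (w * c w) * (w * c w)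
    have h1 : (w * c w) * (w * c w) = (w * w) * (c w * c w) := by ring
    have h2 : c w * c w = (u : C) - v * i := by
      rw [← map_mul, ← hw, map_add, map_mul, hu, hv, hci]; ring
    rw [h1, ← hw, h2]
    have : ((u : C) + v * i) * (u - v * i) = u * u - (v * v) * (i * i) := by ring
    rw [this, hi]; ring

omit [IsAlgClosed C] in
include hi hci in
/-- `-1` is not a square in the fixed field. -/
theorem sq_ne_neg_one701 (h2 : (2 : C) ≠ 0) (t : fixSub701 c) : t * t ≠ -1 := by
  intro h
  have ht : c (t : C) = t := t.2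
  have h' : (t : C) * t = -1 := by
    have := congrArg (fun z : fixSub701 c => (z : C)) h
    simpa using this
  have hprod : ((t : C) - i) * (t + i) = 0 := by
    have : ((t : C) - i) * (t + i) = t * t - i * i := by ring
    rw [this, h', hi, sub_self]
  have hi0 : i ≠ 0 := by
    intro h0
    rw [h0, mul_zero] at hi
    have : (1 : C) = 0 := by
      have := congrArg (fun z => -z) hi
      simpa using this.symm
    exact one_ne_zero this
  have hifix : c i = i := by
    rcases mul_eq_zero.mp hprod with h1 | h1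
    · have : i = t := (sub_eq_zero.mp h1).symm
      rw [this, ht]
    · have : i = -t := (eq_neg_of_add_eq_zero_right h1)
      rw [this, map_neg, ht]
  have : (2 : C) * i = 0 := by
    have h3 : i = -i := hifix.symm.trans hci
    have : i + i = 0 := by
      nth_rewrite 2 [h3]
      ring
    rw [two_mul]; exact this
  rcases mul_eq_zero.mp this with h1 | h1
  · exact h2 h1
  · exact hi0 h1

end Invol

/-! ## 2. The order of the fixed field -/

section Order

variable {C : Type*} [Field C] [IsAlgClosed C]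
variable (c : C ≃+* C) (hcc : ∀ x, c (c x) = x) (i : C) (hi : i * i = -1) (hci : c i = -i)
  (h2 : (2 : C) ≠ 0)

/-- The squares of the fixed field of an involution form a positive cone. -/
def sqCone701 : RingCone (fixSub701 c) where
  carrier := {x | ∃ t : fixSub701 c, x = t * t}
  mul_mem' := by
    rintro a b ⟨s, rfl⟩ ⟨t, rfl⟩
    exact ⟨s * t, by ring⟩
  one_mem' := ⟨1, by simp⟩
  add_mem' := by
    rintro a b ⟨s, rfl⟩ ⟨t, rfl⟩
    exact add_sq_eq_sq701 c hcc i hi hci s t
  zero_mem' := ⟨0, by simp⟩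
  eq_zero_of_mem_of_neg_mem' := by
    rintro a ⟨s, hs⟩ ⟨t, ht⟩
    by_contra ha
    have hs0 : s ≠ 0 := by
      rintro rfl
      exact ha (by simpa using hs)
    apply sq_ne_neg_one701 c i hi hci h2 (t / s)
    have : (t / s) * (t / s) = (t * t) / (s * s) := by
      field_simp
    rw [this, ← ht, ← hs]
    field_simp

theorem mem_sqCone701 (x : fixSub701 c) :
    x ∈ sqCone701 c hcc i hi hci h2 ↔ ∃ t : fixSub701 c, x = t * t := Iff.rfl

instance hasMemOrNegMem_sqCone701 : HasMemOrNegMem (sqCone701 c hcc i hi hci h2) where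
  mem_or_neg_mem := fun a => sq_or_neg_sq701 c i hi hci a

end Order

/-! ## 3. An ordered field which is algebraic over `ℚ` is archimedean -/

section Arch

variable {F : Type*} [Field F] [LinearOrder F] [IsStrictOrderedRing F]

theorem le_nat_of_root701 (x : F) (p : ℚ[X]) (hp : p.Monic)
    (hx : eval₂ (Rat.castHom F) x p = 0) : ∃ n : ℕ, x ≤ n := by
  set d := p.natDegree with hd
  set B : ℚ := ∑ k ∈ Finset.range d, |p.coeff k| with hB
  have hB0 : 0 ≤ B := Finset.sum_nonneg fun k _ => abs_nonneg _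
  obtain ⟨m, hm⟩ := exists_nat_ge B
  refine ⟨m + 1, ?_⟩
  by_contra hlt
  have hlt' : ((m + 1 : ℕ) : F) < x := not_le.mp hlt
  have hx1 : (1 : F) ≤ x := by
    have : (1 : F) ≤ ((m + 1 : ℕ) : F) := by
      have : (1 : ℕ) ≤ m + 1 := Nat.le_add_left 1 m
      exact_mod_cast this
    exact this.trans hlt'.le
  have hx0 : (0 : F) < x := lt_of_lt_of_le one_pos hx1
  have hBx : (B : F) < x := by
    have h1 : (B : F) ≤ ((m : ℚ) : F) := by exact_mod_cast hm
    have h2 : ((m : ℚ) : F) ≤ ((m + 1 : ℕ) : F) := by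
      have : (m : ℚ) ≤ ((m + 1 : ℕ) : ℚ) := by push_cast; linarith
      have h3 : ((m : ℚ) : F) ≤ (((m + 1 : ℕ) : ℚ) : F) := by exact_mod_cast this
      exact h3.trans (le_of_eq (Rat.cast_natCast (m + 1)))
    exact (h1.trans h2).trans_lt hlt'
  -- expand the polynomial
  have hsum : eval₂ (Rat.castHom F) x p
      = ∑ k ∈ Finset.range (d + 1), ((p.coeff k : ℚ) : F) * x ^ k := by
    rw [eval₂_eq_sum_range]
    rfl
  rw [hsum, Finset.sum_range_succ] at hx
  have hlead : p.coeff d = 1 := hp.coeff_natDegree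
  rw [hlead, Rat.cast_one, one_mul] at hx
  rcases Nat.eq_zero_or_pos d with h0 | hpos
  · rw [h0] at hx
    simp at hx
  · -- x ^ d = - ∑ ...
    have hxd : x ^ d = - ∑ k ∈ Finset.range d, ((p.coeff k : ℚ) : F) * x ^ k := by
      have := eq_neg_of_add_eq_zero_right hx
      exact this
    have hbound : - ∑ k ∈ Finset.range d, ((p.coeff k : ℚ) : F) * x ^ k
        ≤ (B : F) * x ^ (d - 1) := by
      rw [← Finset.sum_neg_distrib, hB, Rat.cast_sum, Finset.sum_mul]
      apply Finset.sum_le_sum
      intro k hk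
      have hk' : k ≤ d - 1 := Nat.le_sub_one_of_lt (Finset.mem_range.mp hk)
      have hpow : x ^ k ≤ x ^ (d - 1) := pow_le_pow_right₀ hx1 hk'
      have habs : -((p.coeff k : ℚ) : F) ≤ ((|p.coeff k| : ℚ) : F) := by
        have : -(p.coeff k) ≤ |p.coeff k| := neg_le_abs _
        exact_mod_cast this
      have hnn : (0 : F) ≤ ((|p.coeff k| : ℚ) : F) := by
        have : (0 : ℚ) ≤ |p.coeff k| := abs_nonneg _
        exact_mod_cast this
      calc -(((p.coeff k : ℚ) : F) * x ^ k) = (-((p.coeff k : ℚ) : F)) * x ^ k := by ring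
        _ ≤ ((|p.coeff k| : ℚ) : F) * x ^ k :=
            mul_le_mul_of_nonneg_right habs (pow_nonneg hx0.le k)
        _ ≤ ((|p.coeff k| : ℚ) : F) * x ^ (d - 1) :=
            mul_le_mul_of_nonneg_left hpow hnn
    have hlt2 : (B : F) * x ^ (d - 1) < x ^ d := by
      have hpp : (0 : F) < x ^ (d - 1) := pow_pos hx0 _
      have : x ^ d = x * x ^ (d - 1) := by
        rw [← pow_succ']
        congr 1
        omega
      rw [this]
      exact mul_lt_mul_of_pos_right hBx hpp
    have : x ^ d < x ^ d := by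
      calc x ^ d = - ∑ k ∈ Finset.range d, ((p.coeff k : ℚ) : F) * x ^ k := hxd
        _ ≤ (B : F) * x ^ (d - 1) := hbound
        _ < x ^ d := hlt2
    exact lt_irrefl _ this

theorem archimedean_of_roots701
    (h : ∀ x : F, ∃ p : ℚ[X], p.Monic ∧ eval₂ (Rat.castHom F) x p = 0) : Archimedean F := by
  rw [archimedean_iff_nat_le]
  intro x
  obtain ⟨p, hp, hx⟩ := h x
  exact le_nat_of_root701 x p hp hx

end Arch

/-! ## 4. The real embedding of the fixed field -/

section Real

variable {C : Type*} [Field C] [IsAlgClosed C] [CharZero C]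

/-- **Artin–Schreier**, embedding form: the fixed field of an involution `c ≠ 1` of an
algebraically closed field `C`, algebraic over `ℚ`, embeds in `ℝ`. -/
theorem exists_ringHom_real701
    (hint : ∀ x : C, ∃ p : ℚ[X], p.Monic ∧ eval₂ (Rat.castHom C) x p = 0) (c : C ≃+* C)
    (hcc : ∀ x, c (c x) = x) (hne : ∃ y, c y ≠ y) :
    Nonempty (fixSub701 c →+* ℝ) := by
  classical
  have h2 : (2 : C) ≠ 0 := two_ne_zero
  obtain ⟨i, hi, hci⟩ := exists_sqrt_neg_one701 h2 c hcc hne
  let _ : LinearOrder (fixSub701 c) := LinearOrder.mkOfAddGroupCone (sqCone701 c hcc i hi hci h2)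
  have _ : IsOrderedRing (fixSub701 c) := IsOrderedRing.mkOfCone (sqCone701 c hcc i hi hci h2)
  have _ : IsStrictOrderedRing (fixSub701 c) := IsOrderedRing.toIsStrictOrderedRing _
  have _ : Archimedean (fixSub701 c) := by
    apply archimedean_of_roots701
    intro x
    obtain ⟨p, hp, hpx⟩ := hint (x : C)
    refine ⟨p, hp, ?_⟩
    have hinj : Function.Injective (fixSub701 c).subtype := Subtype.val_injective
    apply hinj
    rw [map_zero, Polynomial.hom_eval₂]
    have hhom : (fixSub701 c).subtype.comp (Rat.castHom (fixSub701 c)) = Rat.castHom C :=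
      Subsingleton.elim _ _
    rw [hhom]
    exact hpx
  exact ⟨(ConditionallyCompleteLinearOrderedField.inducedOrderRingHom (fixSub701 c) ℝ).toRingHom⟩

end Real

/-! ## 5. Totally complex number fields -/

section NF

open NumberField

local notation "Qb" => AlgebraicClosure ℚ

/-- A number field `K` embedded in `ℚ̄` by `j` and fixed by an element `c ≠ 1` with `c * c = 1` of
`Gal(ℚ̄/ℚ)` has a real place. -/
theorem exists_isReal_of_involution701 (K : Type*) [Field K] [NumberField K] (j : K →+* Qb)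
    (c : Qb ≃ₐ[ℚ] Qb) (hc : ∀ x : K, c (j x) = j x) (h2 : c * c = 1) (hne : c ≠ 1) :
    ∃ w : InfinitePlace K, w.IsReal := by
  have hcc : ∀ x, c.toRingEquiv (c.toRingEquiv x) = x := by
    intro x
    have := congrArg (fun g : Qb ≃ₐ[ℚ] Qb => g x) h2
    simpa [AlgEquiv.mul_apply] using this
  have hmove : ∃ y, c.toRingEquiv y ≠ y := by
    by_contra hall
    refine hne (AlgEquiv.ext fun y => ?_)
    by_contra hy
    exact hall ⟨y, hy⟩
  have hint : ∀ x : Qb, ∃ p : ℚ[X], p.Monic ∧ eval₂ (Rat.castHom Qb) x p = 0 := by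
    intro x
    have hx : IsIntegral ℚ x := ((AlgebraicClosure.isAlgebraic ℚ).isAlgebraic x).isIntegral
    refine ⟨minpoly ℚ x, minpoly.monic hx, ?_⟩
    have hhom : Rat.castHom Qb = algebraMap ℚ Qb := Subsingleton.elim _ _
    rw [hhom]
    exact minpoly.aeval ℚ x
  obtain ⟨ψ⟩ := exists_ringHom_real701 hint c.toRingEquiv hcc hmove
  let jL : K →+* fixSub701 c.toRingEquiv :=
    j.codRestrict (fixSub701 c.toRingEquiv) (fun x => hc x)
  let φ : K →+* ℂ := (algebraMap ℝ ℂ).comp (ψ.comp jL)
  have hreal : ComplexEmbedding.IsReal φ := by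
    rw [ComplexEmbedding.isReal_iff]
    ext x
    show (starRingEnd ℂ) (φ x) = φ x
    show (starRingEnd ℂ) (((ψ (jL x) : ℝ)) : ℂ) = ((ψ (jL x) : ℝ) : ℂ)
    exact Complex.conj_ofReal _
  exact ⟨InfinitePlace.mk φ, InfinitePlace.isReal_mk_iff.mpr hreal⟩

/-- **NO ELEMENT OF ORDER TWO**: if `K` is a totally complex number field embedded in `ℚ̄` by
`j`, then `Gal(ℚ̄/j K)` has no element of order two. -/
theorem eq_one_of_mul_self_of_totallyComplex701 (K : Type*) [Field K] [NumberField K]
    (j : K →+* Qb) (hK : ∀ w : InfinitePlace K, w.IsComplex)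
    (c : Qb ≃ₐ[ℚ] Qb) (hc : ∀ x : K, c (j x) = j x) (h2 : c * c = 1) : c = 1 := by
  by_contra hne
  obtain ⟨w, hw⟩ := exists_isReal_of_involution701 K j c hc h2 hne
  exact (InfinitePlace.not_isReal_iff_isComplex.mpr (hK w)) hw

end NF

end Fermat.Agent.LT.CFT.H701

end
end
-- ===== PACK-END LT/CFT/H701/ArtinSchreier.lean

-- ===== PACK-BEGIN LT/T1/H729/Red/Blichfeldt2.lean
section


/-!
# Row LT, tower T1, leaf T1.14 (helper729): Blichfeldt's principle for `L × L ⊂ A × A`

OFF-MAIN.  Mathlib only.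

* `isAddFundamentalDomain_prod729` : if `D` is a fundamental domain of the subgroup `L` of the
  additive group `A` for the invariant measure `μ`, then `D ×ˢ D` is a fundamental domain of
  `L × L` in `A × A` for `μ.prod μ`.
* `exists_lattice_diff729` : a measurable set `S ⊆ A × A` with `μ D * μ D < (μ.prod μ) S` contains
  two points whose difference is a non-zero element of `L × L`.
-/

set_option autoImplicit false

open MeasureTheory Set
open scoped Pointwise ENNReal

noncomputable section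

namespace Fermat.Agent.LT.T1.H729

set_option linter.unusedSectionVars false

variable {A : Type*} [AddCommGroup A] [MeasurableSpace A] [MeasurableAdd₂ A]

/-- Translates of a product set by an element of `L × L`. -/
theorem vadd_prod_set729 (L : AddSubgroup A) (g : (L.prod L : AddSubgroup (A × A)))
    (s t : Set A) :
    g +ᵥ (s ×ˢ t) = (((⟨g.1.1, g.2.1⟩ : L) +ᵥ s) ×ˢ ((⟨g.1.2, g.2.2⟩ : L) +ᵥ t)) := by
  ext ⟨x, y⟩
  simp only [Set.mem_vadd_set, Set.mem_prod, Prod.exists]
  constructor
  · rintro ⟨a, b, ⟨ha, hb⟩, hab⟩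
    have h1 : g.1.1 + a = x := congrArg Prod.fst hab
    have h2 : g.1.2 + b = y := congrArg Prod.snd hab
    exact ⟨⟨a, ha, h1⟩, ⟨b, hb, h2⟩⟩
  · rintro ⟨⟨a, ha, h1⟩, ⟨b, hb, h2⟩⟩
    refine ⟨a, b, ⟨ha, hb⟩, ?_⟩
    have h1' : g.1.1 + a = x := h1
    have h2' : g.1.2 + b = y := h2
    exact Prod.ext h1' h2'

/-- The product of a fundamental domain with itself is a fundamental domain of `L × L`. -/
theorem isAddFundamentalDomain_prod729 (μ : Measure A) [SFinite μ] (L : AddSubgroup A)
    {D : Set A} (hDm : MeasurableSet D) (hD : IsAddFundamentalDomain L D μ) :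
    IsAddFundamentalDomain (L.prod L : AddSubgroup (A × A)) (D ×ˢ D) (μ.prod μ) where
  nullMeasurableSet := (hDm.prod hDm).nullMeasurableSet
  ae_covers := by
    have h1 := hD.ae_covers
    have hx : ∀ᵐ p ∂(μ.prod μ), ∃ g : L, g +ᵥ p.1 ∈ D :=
      (Measure.quasiMeasurePreserving_fst (μ := μ) (ν := μ)).ae h1
    have hy : ∀ᵐ p ∂(μ.prod μ), ∃ g : L, g +ᵥ p.2 ∈ D :=
      (Measure.quasiMeasurePreserving_snd (μ := μ) (ν := μ)).ae h1
    filter_upwards [hx, hy] with p hp hq
    obtain ⟨g, hg⟩ := hp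
    obtain ⟨h, hh⟩ := hq
    exact ⟨⟨(g.1, h.1), ⟨g.2, h.2⟩⟩, ⟨hg, hh⟩⟩
  aedisjoint := by
    intro g g' hgg'
    change AEDisjoint (μ.prod μ) (g +ᵥ (D ×ˢ D)) (g' +ᵥ (D ×ˢ D))
    rw [vadd_prod_set729, vadd_prod_set729, AEDisjoint, Set.prod_inter_prod, Measure.prod_prod]
    by_cases h1 : (⟨g.1.1, g.2.1⟩ : L) = ⟨g'.1.1, g'.2.1⟩
    · have h2 : (⟨g.1.2, g.2.2⟩ : L) ≠ ⟨g'.1.2, g'.2.2⟩ := by
        intro h2
        apply hgg'
        have e1 : g.1.1 = g'.1.1 := congrArg Subtype.val h1
        have e2 : g.1.2 = g'.1.2 := congrArg Subtype.val h2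
        exact Subtype.ext (Prod.ext e1 e2)
      have := hD.aedisjoint h2
      rw [Function.onFun, AEDisjoint] at this
      rw [this, mul_zero]
    · have := hD.aedisjoint h1
      rw [Function.onFun, AEDisjoint] at this
      rw [this, zero_mul]

/-- `L × L` is countable when `L` is. -/
theorem countable_prod729 (L : AddSubgroup A) [Countable L] :
    Countable (L.prod L : AddSubgroup (A × A)) := by
  have hinj : Function.Injective
      (fun g : (L.prod L : AddSubgroup (A × A)) =>
        ((⟨g.1.1, g.2.1⟩ : L), (⟨g.1.2, g.2.2⟩ : L))) := by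
    intro g g' h
    have e1 : g.1.1 = g'.1.1 := congrArg (fun p : L × L => (p.1 : A)) h
    have e2 : g.1.2 = g'.1.2 := congrArg (fun p : L × L => (p.2 : A)) h
    exact Subtype.ext (Prod.ext e1 e2)
  exact hinj.countable

/-- **Blichfeldt for `L × L`**: a measurable subset of `A × A` of measure larger than
`μ D * μ D` contains two points whose difference is a non-zero element of `L × L`. -/
theorem exists_lattice_diff729 [MeasurableAdd₂ (A × A)]
    (μ : Measure A) [SFinite μ] [μ.IsAddLeftInvariant]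
    (L : AddSubgroup A) [Countable L]
    {D : Set A} (hDm : MeasurableSet D) (hD : IsAddFundamentalDomain L D μ)
    {S : Set (A × A)} (hS : MeasurableSet S) (h : μ D * μ D < (μ.prod μ) S) :
    ∃ ξ η : A, ξ ∈ L ∧ η ∈ L ∧ (ξ ≠ 0 ∨ η ≠ 0) ∧
      ∃ s ∈ S, ∃ s' ∈ S, s'.1 = ξ + s.1 ∧ s'.2 = η + s.2 := by
  have : Countable (L.prod L : AddSubgroup (A × A)) := countable_prod729 L
  have fund := isAddFundamentalDomain_prod729 μ L hDm hD
  have hlt : (μ.prod μ) (D ×ˢ D) < (μ.prod μ) S := by rwa [Measure.prod_prod]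
  obtain ⟨x, y, hxy, hnd⟩ :=
    exists_pair_mem_lattice_not_disjoint_vadd fund hS.nullMeasurableSet hlt
  obtain ⟨p, hp1, hp2⟩ := Set.not_disjoint_iff.mp hnd
  obtain ⟨s, hs, hsp⟩ := hp1
  obtain ⟨s', hs', hsp'⟩ := hp2
  -- `x + s = p = y + s'`, so `s = (y - x) + s'`
  have hsp1 : (x : A × A) + s = p := hsp
  have hsp2 : (y : A × A) + s' = p := hsp'
  refine ⟨(y : A × A).1 - (x : A × A).1, (y : A × A).2 - (x : A × A).2,
    L.sub_mem y.2.1 x.2.1, L.sub_mem y.2.2 x.2.2, ?_, s', hs', s, hs, ?_, ?_⟩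
  · by_contra hcon
    rw [not_or, not_not, not_not] at hcon
    apply hxy
    apply Subtype.ext
    exact Prod.ext (sub_eq_zero.mp hcon.1).symm (sub_eq_zero.mp hcon.2).symm
  · have h1 := congrArg Prod.fst (hsp1.trans hsp2.symm)
    simp only [Prod.fst_add] at h1
    rw [← sub_eq_zero] at h1 ⊢
    rw [← h1]
    abel
  · have h1 := congrArg Prod.snd (hsp1.trans hsp2.symm)
    simp only [Prod.snd_add] at h1
    rw [← sub_eq_zero] at h1 ⊢
    rw [← h1]
    abel

end Fermat.Agent.LT.T1.H729

end
end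
-- ===== PACK-END LT/T1/H729/Red/Blichfeldt2.lean

-- ===== PACK-BEGIN LT/T1/H729/Red/ShearMeasure.lean
section


/-!
# Row LT, tower T1, leaf T1.14 (helper729): the measure of a sheared box

OFF-MAIN.  Mathlib only.  `A` is a commutative topological ring, second countable, with its Borel
σ-algebra, `μ` a σ-finite translation invariant measure which scales under multiplication by units:
`μ (u • X) = m u * μ X`.  Then for units `b₁`, `b₂`, any `x` and a measurable set `I`

`(μ.prod μ) {(r₁, r₂) | r₁ b₁ ∈ I ∧ r₁ x + r₂ b₂ ∈ I} = m b₁⁻¹ μ I * (m b₂⁻¹ μ I)`.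
-/

set_option autoImplicit false

open MeasureTheory Set
open scoped ENNReal

noncomputable section

namespace Fermat.Agent.LT.T1.H729

set_option linter.unusedSectionVars false

variable {A : Type*} [CommRing A] [TopologicalSpace A] [IsTopologicalRing A]
  [SecondCountableTopology A] [MeasurableSpace A] [BorelSpace A]

/-- Preimage under multiplication by a unit = image under multiplication by its inverse. -/
theorem preimage_mul_unit729 (b : Aˣ) (Y : Set A) :
    (fun r : A => r * (b : A)) ⁻¹' Y = (fun a : A => ((b⁻¹ : Aˣ) : A) * a) '' Y := by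
  ext r
  simp only [Set.mem_preimage, Set.mem_image]
  constructor
  · intro h
    refine ⟨r * b, h, ?_⟩
    rw [mul_comm ((b⁻¹ : Aˣ) : A), mul_assoc, Units.mul_inv, mul_one]
  · rintro ⟨a, ha, rfl⟩
    rw [mul_comm ((b⁻¹ : Aˣ) : A), mul_assoc, Units.inv_mul, mul_one]
    exact ha

/-- The sheared box. -/
def shearBox729 (b₁ b₂ : Aˣ) (x : A) (I : Set A) : Set (A × A) :=
  {p | p.1 * (b₁ : A) ∈ I ∧ p.1 * x + p.2 * (b₂ : A) ∈ I}

theorem measurableSet_shearBox729 (b₁ b₂ : Aˣ) (x : A) {I : Set A} (hI : MeasurableSet I) :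
    MeasurableSet (shearBox729 b₁ b₂ x I) := by
  have h1 : Measurable fun p : A × A => p.1 * (b₁ : A) :=
    (continuous_fst.mul continuous_const).measurable
  have h2 : Measurable fun p : A × A => p.1 * x + p.2 * (b₂ : A) :=
    ((continuous_fst.mul continuous_const).add (continuous_snd.mul continuous_const)).measurable
  exact (h1 hI).inter (h2 hI)

/-- **The measure of the sheared box.** -/
theorem measure_shearBox729 (μ : Measure A) [SFinite μ] [μ.IsAddLeftInvariant]
    (m : Aˣ → ℝ)
    (hscale : ∀ (u : Aˣ) (X : Set A),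
      μ ((fun a : A => (u : A) * a) '' X) = ENNReal.ofReal (m u) * μ X)
    (b₁ b₂ : Aˣ) (x : A) {I : Set A} (hI : MeasurableSet I) :
    (μ.prod μ) (shearBox729 b₁ b₂ x I) =
      (ENNReal.ofReal (m b₁⁻¹) * μ I) * (ENNReal.ofReal (m b₂⁻¹) * μ I) := by
  rw [Measure.prod_apply (measurableSet_shearBox729 b₁ b₂ x hI)]
  -- the sections
  have hsec : ∀ r : A, μ (Prod.mk r ⁻¹' shearBox729 b₁ b₂ x I) =
      Set.indicator ((fun r : A => r * (b₁ : A)) ⁻¹' I)
        (fun _ => ENNReal.ofReal (m b₂⁻¹) * μ I) r := by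
    intro r
    by_cases hr : r * (b₁ : A) ∈ I
    · have hmem : r ∈ (fun r : A => r * (b₁ : A)) ⁻¹' I := hr
      rw [Set.indicator_of_mem hmem]
      have hset : Prod.mk r ⁻¹' shearBox729 b₁ b₂ x I =
          (fun s : A => s * (b₂ : A)) ⁻¹' ((fun a : A => r * x + a) ⁻¹' I) := by
        ext s
        simp only [shearBox729, Set.mem_preimage, Set.mem_ofPred_eq]
        exact ⟨fun h => h.2, fun h => ⟨hr, h⟩⟩
      rw [hset, preimage_mul_unit729, hscale, measure_preimage_add]
    · have hmem : r ∉ (fun r : A => r * (b₁ : A)) ⁻¹' I := hr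
      rw [Set.indicator_of_notMem hmem]
      have hset : Prod.mk r ⁻¹' shearBox729 b₁ b₂ x I = ∅ := by
        ext s
        simp only [shearBox729, Set.mem_preimage, Set.mem_ofPred_eq, Set.mem_empty_iff_false,
          iff_false, not_and]
        exact fun h => absurd h hr
      rw [hset, measure_empty]
  simp_rw [hsec]
  have hmeas : MeasurableSet ((fun r : A => r * (b₁ : A)) ⁻¹' I) :=
    (continuous_id.mul continuous_const).measurable hI
  rw [lintegral_indicator hmeas, lintegral_const, Measure.restrict_apply MeasurableSet.univ,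
    Set.univ_inter, preimage_mul_unit729, hscale]
  ring

end Fermat.Agent.LT.T1.H729

end
end
-- ===== PACK-END LT/T1/H729/Red/ShearMeasure.lean

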