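import Mathlib
import Fermat.Agent.Pack.L1B.E6L0

set_option linter.all false

-- ===== PACK-BEGIN LT/H11/LC.lean
section


/-!
# Row LT, tower T1, leaf LC (helper11): local compactness of the adelic objects

OFF-MAIN.  Mathlib only; NO definitions, only facts about Mathlib objects, so every tower Spec
can use them (`haveI := ...`).  For a number field `K`, a finite place `v` of `𝓞 K`:

* `finite_residueField_h11`        : the residue field of `𝒪_v` is finite (general Dedekind `R` with
                                      finite `R ⧸ v`),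
* `compactSpace_integers_h11`      : `𝒪_v = v.adicCompletionIntegers K` is compact,
* `locallyCompactSpace_adicCompletion_h11` : `K_v` is locally compact,
* `locallyCompactSpace_finiteAdeleRing_h11`, `locallyCompactSpace_adeleRing_h11`,
* `t2Space_finiteAdeleRing_h11`, `t2Space_adeleRing_h11`,
* `locallyCompactSpace_GL2_adeleRing_h11`, `t2Space_GL2_adeleRing_h11` : `GL₂(𝔸_K)` (units
  topology) is a locally compact Hausdorff group (`IsTopologicalGroup` is a Mathlib instance).
-/

set_option autoImplicit false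

open IsDedekindDomain NumberField
open scoped RestrictedProduct

namespace Fermat.Agent.LT.H11.LC

section General

variable {R : Type*} [CommRing R] [IsDedekindDomain R] (K : Type*) [Field K] [Algebra R K]
  [IsFractionRing R K] (v : HeightOneSpectrum R)

/-- The open unit ball of `K_v` is open. -/
theorem isOpen_valued_lt_one_h11 : IsOpen {z : v.adicCompletion K | Valued.v z < 1} := by
  have := Valued.isOpen_ball (v.adicCompletion K) (1 : _)
  simpa only [Valuation.restrict_lt_one_iff] using this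

/-- Every element of the completed local ring `𝒪_v` is congruent modulo the maximal ideal to an
element of `R`. -/
theorem exists_valued_sub_algebraMap_lt_one_h11 (x : v.adicCompletion K)
    (hx : Valued.v x ≤ 1) :
    ∃ r : R, Valued.v (x - algebraMap R (v.adicCompletion K) r) < 1 := by
  -- density of `K`
  have hopen : IsOpen {y : v.adicCompletion K | Valued.v (x - y) < 1} := by
    have h1 : {y : v.adicCompletion K | Valued.v (x - y) < 1}
        = (fun y => x - y) ⁻¹' {z | Valued.v z < 1} := rfl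
    rw [h1]
    exact IsOpen.preimage (by fun_prop) (isOpen_valued_lt_one_h11 K v)
  have hne : ({y : v.adicCompletion K | Valued.v (x - y) < 1}).Nonempty :=
    ⟨x, by simp⟩
  obtain ⟨k, hk⟩ := (HeightOneSpectrum.denseRange_algebraMap K v).exists_mem_open hopen hne
  replace hk : Valued.v (x - algebraMap K (v.adicCompletion K) k) < 1 := hk
  -- `k` is integral at `v`
  have hk1 : Valued.v (algebraMap K (v.adicCompletion K) k) ≤ 1 := by
    have : algebraMap K (v.adicCompletion K) k = x - (x - algebraMap K (v.adicCompletion K) k) := by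
      ring
    rw [this]
    exact le_trans (Valuation.map_sub _ _ _) (max_le hx hk.le)
  have key : ∀ y : K, Valued.v (algebraMap K (v.adicCompletion K) y) = v.valuation K y :=
    fun y => HeightOneSpectrum.valuedAdicCompletion_eq_valuation' v y
  have hk2 : v.valuation K k ≤ 1 := by
    rw [← key]
    exact hk1
  obtain ⟨a, ha⟩ := HeightOneSpectrum.exists_valuation_sub_lt_of_integer v hk2 1
  refine ⟨a, ?_⟩
  have ha' : Valued.v (algebraMap K (v.adicCompletion K) k
      - algebraMap R (v.adicCompletion K) a) < 1 := by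
    have e : algebraMap K (v.adicCompletion K) k - algebraMap R (v.adicCompletion K) a
        = algebraMap K (v.adicCompletion K) (k - algebraMap R K a) := by
      rw [map_sub, ← IsScalarTower.algebraMap_apply]
    rw [e, key]
    rw [Valuation.map_sub_swap] at ha
    simpa using ha
  have : x - algebraMap R (v.adicCompletion K) a
      = (x - algebraMap K (v.adicCompletion K) k)
        + (algebraMap K (v.adicCompletion K) k - algebraMap R (v.adicCompletion K) a) := by ring
  rw [this]
  exact lt_of_le_of_lt (Valuation.map_add _ _ _) (max_lt hk ha')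

/-- Membership in the maximal ideal of `𝒪_v`. -/
theorem mem_maximalIdeal_iff_h11 (a : v.adicCompletionIntegers K) :
    a ∈ IsLocalRing.maximalIdeal (v.adicCompletionIntegers K) ↔
      Valued.v (a : v.adicCompletion K) < 1 := by
  rw [IsLocalRing.mem_maximalIdeal, mem_nonunits_iff,
    HeightOneSpectrum.adicCompletionIntegers.isUnit_iff_valued_eq_one]
  have h1 : Valued.v (a : v.adicCompletion K) ≤ 1 :=
    (HeightOneSpectrum.mem_adicCompletionIntegers R K v).1 a.2
  exact ⟨fun h => lt_of_le_of_ne h1 h, fun h => ne_of_lt h⟩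

theorem coe_algebraMap_integers_h11 (r : R) :
    ((algebraMap R (v.adicCompletionIntegers K) r : v.adicCompletionIntegers K) :
        v.adicCompletion K) = algebraMap R (v.adicCompletion K) r := by
  rfl

/-- The residue field of the completed local ring `𝒪_v` is a quotient of `R ⧸ v`, hence finite
when `R ⧸ v` is. -/
theorem finite_residueField_h11 [Finite (R ⧸ v.asIdeal)] :
    Finite (IsLocalRing.ResidueField (v.adicCompletionIntegers K)) := by
  let f : R →+* IsLocalRing.ResidueField (v.adicCompletionIntegers K) :=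
    (IsLocalRing.residue (v.adicCompletionIntegers K)).comp
      (algebraMap R (v.adicCompletionIntegers K))
  have hker : ∀ r ∈ v.asIdeal, f r = 0 := by
    intro r hr
    change IsLocalRing.residue _ (algebraMap R (v.adicCompletionIntegers K) r) = 0
    rw [IsLocalRing.residue_eq_zero_iff, mem_maximalIdeal_iff_h11, coe_algebraMap_integers_h11]
    have h2 := HeightOneSpectrum.valuedAdicCompletion_eq_valuation (K := K) v r
    have h3 : Valued.v (algebraMap R (v.adicCompletion K) r) = v.valuation K (algebraMap R K r) :=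
      h2
    rw [h3, HeightOneSpectrum.valuation_of_algebraMap]
    exact (HeightOneSpectrum.intValuation_lt_one_iff_mem v r).2 hr
  have hsurj : Function.Surjective (Ideal.Quotient.lift v.asIdeal f hker) := by
    intro y
    obtain ⟨x, rfl⟩ := IsLocalRing.residue_surjective y
    obtain ⟨r, hr⟩ := exists_valued_sub_algebraMap_lt_one_h11 K v (x : v.adicCompletion K)
      ((HeightOneSpectrum.mem_adicCompletionIntegers R K v).1 x.2)
    refine ⟨Ideal.Quotient.mk _ r, ?_⟩
    rw [Ideal.Quotient.lift_mk]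
    change IsLocalRing.residue _ (algebraMap R (v.adicCompletionIntegers K) r) = _
    rw [eq_comm, ← sub_eq_zero, ← map_sub, IsLocalRing.residue_eq_zero_iff,
      mem_maximalIdeal_iff_h11]
    exact hr
  exact Finite.of_surjective _ hsurj

/-- `𝒪_v` is complete. -/
theorem completeSpace_integers_h11 : CompleteSpace (v.adicCompletionIntegers K) :=
  (Valued.isClosed_valuationSubring (v.adicCompletion K)).completeSpace_coe

/-- The finite adele ring is Hausdorff. -/
theorem t2Space_finiteAdeleRing_h11 : T2Space (FiniteAdeleRing R K) :=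
  inferInstanceAs (T2Space
    (Πʳ v : HeightOneSpectrum R, [v.adicCompletion K, v.adicCompletionIntegers K]))

/-- Matrices over a locally compact space. -/
theorem locallyCompactSpace_matrix_h11 (n : Type*) [Fintype n] (A : Type*) [TopologicalSpace A]
    [LocallyCompactSpace A] : LocallyCompactSpace (Matrix n n A) :=
  inferInstanceAs (LocallyCompactSpace (n → n → A))

/-- Matrices over a Hausdorff space. -/
theorem t2Space_matrix_h11 (n : Type*) (A : Type*) [TopologicalSpace A]
    [T2Space A] : T2Space (Matrix n n A) :=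
  inferInstanceAs (T2Space (n → n → A))

end General

section NF

variable (K : Type*) [Field K] [NumberField K] (v : HeightOneSpectrum (𝓞 K))

/-- `𝒪_v` is compact. -/
theorem compactSpace_integers_h11 : CompactSpace (v.adicCompletionIntegers K) := by
  have h := (Valued.integer.compactSpace_iff_completeSpace_and_isDiscreteValuationRing_and_finite_residueField
    (K := v.adicCompletion K)).2
  exact h ⟨completeSpace_integers_h11 K v,
    (inferInstance : IsDiscreteValuationRing (v.adicCompletionIntegers K)),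
    finite_residueField_h11 K v⟩

/-- `𝒪_v` is a compact subset of `K_v`. -/
theorem isCompact_integers_h11 :
    IsCompact (v.adicCompletionIntegers K : Set (v.adicCompletion K)) := by
  have := compactSpace_integers_h11 K v
  exact isCompact_iff_compactSpace.2 inferInstance

/-- `K_v` is locally compact. -/
theorem locallyCompactSpace_adicCompletion_h11 : LocallyCompactSpace (v.adicCompletion K) :=
  (isCompact_integers_h11 K v).locallyCompactSpace_of_mem_nhds_of_addGroup
    ((Valued.isOpen_valuationSubring (v.adicCompletion K)).mem_nhds (zero_mem _))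

/-- The finite adele ring of a number field is locally compact. -/
theorem locallyCompactSpace_finiteAdeleRing_h11 :
    LocallyCompactSpace (FiniteAdeleRing (𝓞 K) K) := by
  have : Fact (∀ v : HeightOneSpectrum (𝓞 K),
      IsOpen (v.adicCompletionIntegers K : Set (v.adicCompletion K))) :=
    ⟨fun _ ↦ Valued.isOpen_valuationSubring _⟩
  have : ∀ v : HeightOneSpectrum (𝓞 K), CompactSpace (v.adicCompletionIntegers K) :=
    fun v => compactSpace_integers_h11 K v
  exact inferInstanceAs (LocallyCompactSpace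
    (Πʳ v : HeightOneSpectrum (𝓞 K), [v.adicCompletion K, v.adicCompletionIntegers K]))

/-- The adele ring of a number field is locally compact. -/
theorem locallyCompactSpace_adeleRing_h11 :
    LocallyCompactSpace (NumberField.AdeleRing (𝓞 K) K) := by
  have := locallyCompactSpace_finiteAdeleRing_h11 K
  exact inferInstanceAs (LocallyCompactSpace (InfiniteAdeleRing K × FiniteAdeleRing (𝓞 K) K))

omit [NumberField K] in
/-- The infinite adele ring is Hausdorff. -/
theorem t2Space_infiniteAdeleRing_h11 : T2Space (InfiniteAdeleRing K) :=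
  inferInstanceAs (T2Space ((w : InfinitePlace K) → w.Completion))

/-- The adele ring of a number field is Hausdorff. -/
theorem t2Space_adeleRing_h11 : T2Space (NumberField.AdeleRing (𝓞 K) K) := by
  have := t2Space_finiteAdeleRing_h11 (R := 𝓞 K) K
  have := t2Space_infiniteAdeleRing_h11 K
  exact inferInstanceAs (T2Space (InfiniteAdeleRing K × FiniteAdeleRing (𝓞 K) K))

/-- `GL₂(𝔸_K)` is locally compact. -/
theorem locallyCompactSpace_GL2_adeleRing_h11 :
    LocallyCompactSpace (GL (Fin 2) (NumberField.AdeleRing (𝓞 K) K)) := by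
  have := locallyCompactSpace_adeleRing_h11 K
  have := t2Space_adeleRing_h11 K
  have := locallyCompactSpace_matrix_h11 (Fin 2) (NumberField.AdeleRing (𝓞 K) K)
  have := t2Space_matrix_h11 (Fin 2) (NumberField.AdeleRing (𝓞 K) K)
  infer_instance

/-- `GL₂(𝔸_K)` is Hausdorff. -/
theorem t2Space_GL2_adeleRing_h11 :
    T2Space (GL (Fin 2) (NumberField.AdeleRing (𝓞 K) K)) := by
  have := t2Space_adeleRing_h11 K
  have := t2Space_matrix_h11 (Fin 2) (NumberField.AdeleRing (𝓞 K) K)
  infer_instance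

/-- `GL₂(K_v)` is locally compact. -/
theorem locallyCompactSpace_GL2_adicCompletion_h11 :
    LocallyCompactSpace (GL (Fin 2) (v.adicCompletion K)) := by
  have := locallyCompactSpace_adicCompletion_h11 K v
  have := locallyCompactSpace_matrix_h11 (Fin 2) (v.adicCompletion K)
  have := t2Space_matrix_h11 (Fin 2) (v.adicCompletion K)
  infer_instance

end NF

end Fermat.Agent.LT.H11.LC

end
-- ===== PACK-END LT/H11/LC.lean

-- ===== PACK-BEGIN LT/T6/Spec.lean
section


/-!
# Row LT, tower T6 (LOCAL COMPARISON) -- Spec (architect helper22), OFF-MAIN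

Definitions only + frozen Props + proved `top`.  No hole, no opaque constant, nothing assumed.
Interface memo: `coord/LT-T6-interface.md` (origin/helper22).

T6 is LOCAL and ALGEBRAIC: no adeles, no Haar measure, no `L²`.

* Part A (any field): the NORM MAP `N δ = δ · σ δ ⋯ σ^{l-1} δ` on `GL₂`, `σ`-conjugacy, regular
  elements.  Props `NormClassC` ([L] Lemma 4.1), `NormInjC`, `TwCentC` ([L] Lemma 4.2),
  `NormImageTCC`, `NormImageQC` (local-global principle for norms in the two cases of the wall;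
  hypothesis-parametrised on the Hasse norm theorem `HasseNormTCC`, `HasseNormQC`, inputs from
  tower CFT; the general statements `HasseNormC`, `NormImageC` are kept as definitions).
* Part B (abstract nonarchimedean local field `k` = a field with `Valued k ℤᵐ⁰`): congruence
  subgroups `U(n)`, the Cartan invariant, ORBITAL INTEGRALS AS FINITE WEIGHTED ORBIT SUMS
  (relation `IsOrbSumGen`), the Satake polynomials and the base-change relation `IsBC`.
* Part C: the FUNDAMENTAL LEMMA for the whole spherical Hecke algebra at an inert unramified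
  place (`FundLemmaC`, [L] §5), matching at split places (`SplitMatchC`, [L] §8), matching at
  the remaining finite places on the regular set (`BadMatchC`, [L] §6).

References: [L] = Langlands, *Base change for GL(2)*, Ann. of Math. Studies 96 (by section).

NORMALISATION OF ORBITAL INTEGRALS.  `G` a group with an automorphism `s`, `U` an open compact
subgroup with `s U = U`, `φ` bi-`U`-invariant, `δ ∈ G`.  With `vol U = 1` and `vol T^c = 1`
(`T^c` the maximal compact subgroup of the twisted centraliser), the twisted orbital integral is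
`∫_{T_δ \ G} φ(x⁻¹ δ s(x)) dx = ∑_{[y]} φ(y) · [T_y^c : T_y ∩ U]`, the sum over the classes `[y]`
of the `s`-conjugacy class of `δ` modulo `s`-conjugation by `U` (`y ∼ u⁻¹ y s(u)`).  For `s = 1`
this is the ordinary orbital integral.  For `N δ = γ ∈ GL₂(k)` regular the twisted centraliser of
`δ` IS the centraliser of `γ` in `GL₂(k)` (`TwCentC`), so the same torus, with the same measure,
occurs on both sides of every comparison below.
-/

set_option autoImplicit false

open scoped Matrix

noncomputable section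

namespace Fermat.Agent.LT.T6

/-! ## Part A.  Norm map and `σ`-conjugacy -/

/-- The twisted norm in a group `Γ` with an endomorphism `s`:
`N_n δ = δ · s(δ) ⋯ s^{n-1}(δ)` (`N_0 δ = 1`). -/
def twN {Γ : Type} [Group Γ] (s : Γ →* Γ) : ℕ → Γ → Γ
  | 0, _ => 1
  | (n + 1), δ => δ * s (twN s n δ)

section NormMap

variable {R : Type} [CommRing R]

/-- The action of a ring automorphism on `GL₂`. -/
def glAut (s : R ≃+* R) : GL (Fin 2) R →* GL (Fin 2) R :=
  Matrix.GeneralLinearGroup.map (s : R →+* R)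

/-- The twisted norm `N_n δ = δ · s(δ) ⋯ s^{n-1}(δ)` (`N_0 δ = 1`). -/
def twNorm (s : R ≃+* R) (n : ℕ) (δ : GL (Fin 2) R) : GL (Fin 2) R :=
  twN (glAut s) n δ

/-- `δ'` is `s`-conjugate to `δ`: `δ' = x⁻¹ δ s(x)`. -/
def IsTwConj (s : R ≃+* R) (δ δ' : GL (Fin 2) R) : Prop :=
  ∃ x : GL (Fin 2) R, δ' = x⁻¹ * δ * glAut s x

/-- `x` lies in the twisted centraliser of `δ`. -/
def InTwCent (s : R ≃+* R) (δ x : GL (Fin 2) R) : Prop :=
  x⁻¹ * δ * glAut s x = δ

/-- The discriminant `tr² - 4 det` of the characteristic polynomial. -/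
def disc (γ : GL (Fin 2) R) : R :=
  (γ : Matrix (Fin 2) (Fin 2) R).trace ^ 2 - 4 * (γ : Matrix (Fin 2) (Fin 2) R).det

/-- `γ` is REGULAR (semisimple): the discriminant of its characteristic polynomial is a unit
(over a field: is not zero, i.e. two distinct eigenvalues in an algebraic closure). -/
def IsReg (γ : GL (Fin 2) R) : Prop := IsUnit (disc γ)

/-- `γ` is ELLIPTIC over the field `R`: regular, no eigenvalue in `R`. -/
def IsEll (γ : GL (Fin 2) R) : Prop :=
  IsReg γ ∧ ∀ x : R, x ^ 2 - (γ : Matrix (Fin 2) (Fin 2) R).trace * x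
    + (γ : Matrix (Fin 2) (Fin 2) R).det ≠ 0

end NormMap

/-- The data of a cyclic extension `K'/K` of fields of degree `l` with generator `s`:
`s` has order exactly `l` and `K` (its image) is the fixed field. -/
structure IsCyclicData (K K' : Type) [Field K] [Field K'] (l : ℕ) (i : K →+* K')
    (s : K' ≃+* K') : Prop where
  pos : 0 < l
  fix_i : ∀ x : K, s (i x) = i x
  fixed : ∀ y : K', s y = y → ∃ x : K, i x = y
  order : ∀ y : K', (s ^ l) y = y
  faithful : ∀ m : ℕ, 0 < m → m < l → ∃ y : K', (s ^ m) y ≠ y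

/-- `γ ∈ GL₂(K)` is (conjugate to) a NORM from `GL₂(K')`. -/
def IsNormFrom {K K' : Type} [Field K] [CommRing K'] (l : ℕ) (i : K →+* K') (s : K' ≃+* K')
    (γ : GL (Fin 2) K) : Prop :=
  ∃ δ : GL (Fin 2) K', IsConj (twNorm s l δ) (Matrix.GeneralLinearGroup.map i γ)

/-- **P1 (NormClass), [L] Lemma 4.1.**  The norm of every `δ ∈ GL₂(K')` is conjugate in
`GL₂(K')` to an element of `GL₂(K)`. -/
def NormClassC : Prop :=
  ∀ (K K' : Type) [Field K] [Field K'] (l : ℕ) (i : K →+* K') (s : K' ≃+* K'),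
    IsCyclicData K K' l i s →
    ∀ δ : GL (Fin 2) K', ∃ γ : GL (Fin 2) K,
      IsConj (twNorm s l δ) (Matrix.GeneralLinearGroup.map i γ)

/-- **P2a (NormInj), [L] Lemma 4.2.**  If `N δ` is regular and `N δ`, `N δ'` are conjugate then
`δ` and `δ'` are `s`-conjugate (Hilbert 90 in `K'[γ] / K[γ]`). -/
def NormInjC : Prop :=
  ∀ (K K' : Type) [Field K] [Field K'] (l : ℕ) (i : K →+* K') (s : K' ≃+* K'),
    IsCyclicData K K' l i s →
    ∀ δ δ' : GL (Fin 2) K', IsReg (twNorm s l δ) → IsConj (twNorm s l δ) (twNorm s l δ') →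
      IsTwConj s δ δ'

/-- **P2b (TwCent), [L] §4.**  If `N δ = γ ∈ GL₂(K)` is regular, the twisted centraliser of `δ`
is the image of the centraliser of `γ` in `GL₂(K)`. -/
def TwCentC : Prop :=
  ∀ (K K' : Type) [Field K] [Field K'] (l : ℕ) (i : K →+* K') (s : K' ≃+* K'),
    IsCyclicData K K' l i s →
    ∀ (δ : GL (Fin 2) K') (γ : GL (Fin 2) K), IsReg γ →
      twNorm s l δ = Matrix.GeneralLinearGroup.map i γ →
      ∀ x : GL (Fin 2) K', InTwCent s δ x ↔
        ∃ t : GL (Fin 2) K, t * γ = γ * t ∧ x = Matrix.GeneralLinearGroup.map i t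

/-! ### Local-global principle for norms (number fields) -/

section LocalGlobal

open IsDedekindDomain NumberField

variable (K K' : Type) [Field K] [NumberField K] [Field K'] [NumberField K'] [Algebra K K']

/-- The local algebra `K' ⊗_K K_v` at a finite place `v` of `K`. -/
abbrev locAlgFin (v : HeightOneSpectrum (𝓞 K)) : Type :=
  TensorProduct K K' (v.adicCompletion K)

/-- The local algebra `K' ⊗_K K_w` at an infinite place `w` of `K`. -/
abbrev locAlgInf (w : InfinitePlace K) : Type :=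
  TensorProduct K K' w.Completion

variable {K K'}

/-- The automorphism `s ⊗ 1` of `K' ⊗_K K_v`. -/
def locAutFin (s : K' ≃ₐ[K] K') (v : HeightOneSpectrum (𝓞 K)) :
    locAlgFin K K' v ≃+* locAlgFin K K' v :=
  (Algebra.TensorProduct.congr s (AlgEquiv.refl : v.adicCompletion K ≃ₐ[K] v.adicCompletion K)
    : locAlgFin K K' v ≃ₐ[K] locAlgFin K K' v).toRingEquiv

/-- The automorphism `s ⊗ 1` of `K' ⊗_K K_w`. -/
def locAutInf (s : K' ≃ₐ[K] K') (w : InfinitePlace K) :
    locAlgInf K K' w ≃+* locAlgInf K K' w :=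
  (Algebra.TensorProduct.congr s (AlgEquiv.refl : w.Completion ≃ₐ[K] w.Completion)
    : locAlgInf K K' w ≃ₐ[K] locAlgInf K K' w).toRingEquiv

/-- `γ ∈ GL₂(K)` is a norm at the finite place `v`: conjugate in `GL₂(K' ⊗ K_v)` to the norm of
an element of `GL₂(K' ⊗ K_v)`. -/
def IsLocNormFin (s : K' ≃ₐ[K] K') (l : ℕ) (v : HeightOneSpectrum (𝓞 K)) (γ : GL (Fin 2) K) :
    Prop :=
  ∃ δ : GL (Fin 2) (locAlgFin K K' v),
    IsConj (twNorm (locAutFin s v) l δ)
      (Matrix.GeneralLinearGroup.map
        ((Algebra.TensorProduct.includeRight : v.adicCompletion K →ₐ[K] locAlgFin K K' v)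
            : v.adicCompletion K →+* locAlgFin K K' v)
        (Matrix.GeneralLinearGroup.map (algebraMap K (v.adicCompletion K)) γ))

/-- `γ ∈ GL₂(K)` is a norm at the infinite place `w`. -/
def IsLocNormInf (s : K' ≃ₐ[K] K') (l : ℕ) (w : InfinitePlace K) (γ : GL (Fin 2) K) : Prop :=
  ∃ δ : GL (Fin 2) (locAlgInf K K' w),
    IsConj (twNorm (locAutInf s w) l δ)
      (Matrix.GeneralLinearGroup.map
        ((Algebra.TensorProduct.includeRight : w.Completion →ₐ[K] locAlgInf K K' w)
            : w.Completion →+* locAlgInf K K' w)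
        (Matrix.GeneralLinearGroup.map (algebraMap K w.Completion) γ))

end LocalGlobal

/-- **INPUT from tower CFT: the Hasse norm theorem** for a cyclic extension `M/L` of number
fields of prime degree: an element of `L` which is a norm from `L_u ⊗_L M` for every finite and
every infinite place `u` of `L` is a norm from `M`. -/
def HasseNormC : Prop :=
  ∀ (L M : Type) [Field L] [NumberField L] [Field M] [NumberField M] [Algebra L M]
    [IsGalois L M], IsCyclic (M ≃ₐ[L] M) → (Module.finrank L M).Prime →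
    ∀ x : L, x ≠ 0 →
      (∀ u : IsDedekindDomain.HeightOneSpectrum (NumberField.RingOfIntegers L),
        ∃ y : TensorProduct L (u.adicCompletion L) M,
          Algebra.norm (u.adicCompletion L)
            (S := TensorProduct L (u.adicCompletion L) M) y
            = algebraMap L (u.adicCompletion L) x) →
      (∀ u : NumberField.InfinitePlace L,
        ∃ y : TensorProduct L u.Completion M,
          Algebra.norm u.Completion (S := TensorProduct L u.Completion M) y
            = algebraMap L u.Completion x) →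
      ∃ y : M, Algebra.norm L y = x

/-- **P3 (NormImage), [L] §4.**  For `K'/K` cyclic of prime degree `l` (number fields), an
elliptic regular `γ ∈ GL₂(K)` which is a norm at every place is a norm. -/
def NormImageC : Prop :=
  ∀ (K K' : Type) [Field K] [NumberField K] [Field K'] [NumberField K'] [Algebra K K']
    [IsGalois K K'] (s : K' ≃ₐ[K] K'),
    (∀ t : K' ≃ₐ[K] K', t ∈ Subgroup.zpowers s) → (Module.finrank K K').Prime →
    ∀ γ : GL (Fin 2) K, IsEll γ →
      (∀ v, IsLocNormFin s (Module.finrank K K') v γ) →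
      (∀ w, IsLocNormInf s (Module.finrank K K') w γ) →
      IsNormFrom (Module.finrank K K') (algebraMap K K') (s : K' ≃+* K') γ

/-! ### The two cases which the wall uses

The cubic step `E/F` has a TOTALLY COMPLEX base field `F = ℚ(√-3)` (then `L = F[γ]` is totally
complex as well); the quadratic step has base field `ℚ` and `K' = F = ℚ(√-3)`
(then `L = ℚ[γ]` is a quadratic field, REAL or imaginary, and `M = L(√-3)`).  Tower CFT delivers
the Hasse norm theorem in these two cases only; `T6Out` contains exactly these two cases. -/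

/-- **INPUT from tower CFT, totally complex case**: `HasseNormC` for `L` totally complex. -/
def HasseNormTCC : Prop :=
  ∀ (L M : Type) [Field L] [NumberField L] [Field M] [NumberField M] [Algebra L M]
    [IsGalois L M], IsCyclic (M ≃ₐ[L] M) → (Module.finrank L M).Prime →
    (∀ u : NumberField.InfinitePlace L, u.IsComplex) →
    ∀ x : L, x ≠ 0 →
      (∀ u : IsDedekindDomain.HeightOneSpectrum (NumberField.RingOfIntegers L),
        ∃ y : TensorProduct L (u.adicCompletion L) M,
          Algebra.norm (u.adicCompletion L)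
            (S := TensorProduct L (u.adicCompletion L) M) y
            = algebraMap L (u.adicCompletion L) x) →
      ∃ y : M, Algebra.norm L y = x

/-- **INPUT from tower CFT, quadratic case over `ℚ`**: `HasseNormC` for `L/ℚ` quadratic (real
or imaginary) and `M = L(√-3)` quadratic over `L`.  (Elementary route of helper438: reduction to
the Hasse--Minkowski theorem over `ℚ` for a quaternary form.) -/
def HasseNormQC : Prop :=
  ∀ (L M : Type) [Field L] [NumberField L] [Field M] [NumberField M] [Algebra L M]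
    [IsGalois L M], Module.finrank ℚ L = 2 → Module.finrank L M = 2 →
    (∃ z : M, z ^ 2 = -3 ∧ ∀ x : L, algebraMap L M x ≠ z) →
    ∀ x : L, x ≠ 0 →
      (∀ u : IsDedekindDomain.HeightOneSpectrum (NumberField.RingOfIntegers L),
        ∃ y : TensorProduct L (u.adicCompletion L) M,
          Algebra.norm (u.adicCompletion L)
            (S := TensorProduct L (u.adicCompletion L) M) y
            = algebraMap L (u.adicCompletion L) x) →
      (∀ u : NumberField.InfinitePlace L,
        ∃ y : TensorProduct L u.Completion M,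
          Algebra.norm u.Completion (S := TensorProduct L u.Completion M) y
            = algebraMap L u.Completion x) →
      ∃ y : M, Algebra.norm L y = x

/-- **P3a (NormImage, totally complex base), [L] §4.**  `NormImageC` for `K` totally complex
(no condition at the infinite places: they split). -/
def NormImageTCC : Prop :=
  ∀ (K K' : Type) [Field K] [NumberField K] [Field K'] [NumberField K'] [Algebra K K']
    [IsGalois K K'] (s : K' ≃ₐ[K] K'),
    (∀ t : K' ≃ₐ[K] K', t ∈ Subgroup.zpowers s) → (Module.finrank K K').Prime →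
    (∀ w : NumberField.InfinitePlace K, w.IsComplex) →
    ∀ γ : GL (Fin 2) K, IsEll γ →
      (∀ v, IsLocNormFin s (Module.finrank K K') v γ) →
      IsNormFrom (Module.finrank K K') (algebraMap K K') (s : K' ≃+* K') γ

/-- **P3b (NormImage, quadratic step over `ℚ`), [L] §4.**  `NormImageC` for `K = ℚ` and
`K' = ℚ(√-3)`.  (If `ℚ[γ] ≅ K'` every element is a norm; otherwise `M = ℚ[γ] ⊗ K'` is the field
`ℚ[γ](√-3)` and `HasseNormQC` applies.) -/
def NormImageQC : Prop :=
  ∀ (K' : Type) [Field K'] [NumberField K'] [IsGalois ℚ K'] (s : K' ≃ₐ[ℚ] K'),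
    (∀ t : K' ≃ₐ[ℚ] K', t ∈ Subgroup.zpowers s) → Module.finrank ℚ K' = 2 →
    (∃ z : K', z ^ 2 = -3) →
    ∀ γ : GL (Fin 2) ℚ, IsEll γ →
      (∀ v, IsLocNormFin s 2 v γ) →
      (∀ w, IsLocNormInf s 2 w γ) →
      IsNormFrom 2 (algebraMap ℚ K') (s : K' ≃+* K') γ

/-! ## Part B.  Abstract nonarchimedean local fields, orbit sums, Satake polynomials -/

/-- The value group `ℤᵐ⁰` (written out). -/
abbrev Γ₀ : Type := WithZero (Multiplicative ℤ)

/-- `k` (a field with a valuation in `ℤᵐ⁰`) is a NONARCHIMEDEAN LOCAL FIELD of characteristic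
zero with residue field of `q` elements: complete, the valuation takes the value `exp (-1)`
(normalised), and a full system of representatives of the residue field has `q` elements. -/
structure IsLocalField (k : Type) [Field k] [Valued k Γ₀] (q : ℕ) : Prop where
  char0 : CharZero k
  complete : CompleteSpace k
  unif : ∃ ϖ : k, Valued.v ϖ = WithZero.exp (-1 : ℤ)
  residue : ∃ T : Finset k, T.card = q ∧ (∀ x ∈ T, Valued.v x ≤ 1) ∧
    (∀ x ∈ T, ∀ y ∈ T, x ≠ y → Valued.v (x - y) = 1) ∧
    ∀ z : k, Valued.v z ≤ 1 → ∃ x ∈ T, Valued.v (z - x) < 1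

/-- `k'/k` is a cyclic extension of local fields of degree `l` with generator `s`, ramification
index `e` (`e = 1`: unramified; `e = l`: totally ramified). -/
structure IsLocalExt (k k' : Type) [Field k] [Field k'] [Valued k Γ₀] [Valued k' Γ₀]
    (l e : ℕ) (i : k →+* k') (s : k' ≃+* k') : Prop where
  cyc : IsCyclicData k k' l i s
  e_pos : 0 < e
  val_i : ∀ x : k, Valued.v (i x) = Valued.v x ^ e
  val_s : ∀ y : k', Valued.v (s y) = Valued.v y

section LocalGroup

variable {k : Type} [Field k] [Valued k Γ₀]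

/-- The principal congruence subgroup `U(n) = {g ∈ GL₂(𝒪) : g ≡ 1 mod ϖⁿ}` of `GL₂(k)`
(`U(0) = GL₂(𝒪)`), as a predicate. -/
def InU (n : ℕ) (g : GL (Fin 2) k) : Prop :=
  ∀ i j : Fin 2,
    Valued.v ((g : Matrix (Fin 2) (Fin 2) k) i j - (1 : Matrix (Fin 2) (Fin 2) k) i j)
        ≤ WithZero.exp (-(n : ℤ)) ∧
      Valued.v (((g⁻¹ : GL (Fin 2) k) : Matrix (Fin 2) (Fin 2) k) i j
          - (1 : Matrix (Fin 2) (Fin 2) k) i j) ≤ WithZero.exp (-(n : ℤ))

/-- The largest valuation of an entry of `g`. -/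
def entryMax (g : GL (Fin 2) k) : Γ₀ :=
  Finset.univ.sup' Finset.univ_nonempty
    (fun p : Fin 2 × Fin 2 => Valued.v ((g : Matrix (Fin 2) (Fin 2) k) p.1 p.2))

/-- The CARTAN INVARIANT `(a, b)`, `a ≥ b`, of `g ∈ GL₂(𝒪) diag(ϖ^a, ϖ^b) GL₂(𝒪)`:
`b` = the least (additive) valuation of an entry, `a + b` = the valuation of `det g`. -/
def cartan (g : GL (Fin 2) k) : ℤ × ℤ :=
  (WithZero.log (entryMax g) - WithZero.log (Valued.v (g : Matrix (Fin 2) (Fin 2) k).det),
    - WithZero.log (entryMax g))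

/-- `t` lies in the MAXIMAL COMPACT SUBGROUP of the `s`-twisted centraliser of `y`
(integral characteristic polynomial, unit determinant). -/
def InTwCentC (s : k ≃+* k) (y t : GL (Fin 2) k) : Prop :=
  InTwCent s y t ∧ Valued.v (t : Matrix (Fin 2) (Fin 2) k).trace ≤ 1 ∧
    Valued.v (t : Matrix (Fin 2) (Fin 2) k).det = 1

end LocalGroup

/-! ### Orbital integrals as finite weighted orbit sums -/

section OrbitSums

variable {Γ : Type} [Group Γ]

/-- `φ` is bi-invariant under the subgroup described by the predicate `U`. -/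
def IsBiInv (U : Γ → Prop) (φ : Γ → ℂ) : Prop :=
  ∀ u u' g : Γ, U u → U u' → φ (u * g * u') = φ g

/-- `φ` is supported on finitely many cosets `x U`. -/
def HasFinSupp (U : Γ → Prop) (φ : Γ → ℂ) : Prop :=
  ∃ F : Finset Γ, ∀ g : Γ, φ g ≠ 0 → ∃ x ∈ F, ∃ u : Γ, U u ∧ g = x * u

/-- The index `[T_y^c : T_y^c ∩ U]`, as the number of cosets `t U`, `t ∈ T_y^c`
(`C y t` says `t ∈ T_y^c`). -/
def cIndex (U : Γ → Prop) (C : Γ → Γ → Prop) (y : Γ) : ℕ :=
  Set.ncard {c : Set Γ | ∃ t : Γ, C y t ∧ c = {g : Γ | ∃ u : Γ, U u ∧ g = t * u}}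

/-- **The (twisted) orbital integral as an orbit sum.**  `c` is the sum of
`φ(y) · [T_y^c : T_y^c ∩ U]` over a finite set `R` of representatives of the classes modulo
`s`-conjugation by `U` which lie in the `s`-conjugacy class of `δ` and on which `φ ≠ 0`. -/
def IsOrbSumGen (s : Γ →* Γ) (U : Γ → Prop) (C : Γ → Γ → Prop) (φ : Γ → ℂ) (δ : Γ) (c : ℂ) :
    Prop :=
  ∃ R : Finset Γ,
    (∀ y ∈ R, ∃ x : Γ, y = x⁻¹ * δ * s x) ∧
    (∀ y ∈ R, ∀ y' ∈ R, (∃ u : Γ, U u ∧ y' = u⁻¹ * y * s u) → y = y') ∧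
    (∀ y : Γ, (∃ x : Γ, y = x⁻¹ * δ * s x) → φ y ≠ 0 →
      ∃ y' ∈ R, ∃ u : Γ, U u ∧ y = u⁻¹ * y' * s u) ∧
    c = ∑ y ∈ R, φ y * (cIndex U C y : ℂ)

/-- Convolution with `vol U = 1`: `χ(g) = ∑_{h ∈ Γ/U} φ(h) ψ(h⁻¹ g)` (finite sums, given by
representatives). -/
def IsConv (U : Γ → Prop) (φ ψ χ : Γ → ℂ) : Prop :=
  ∀ g : Γ, ∃ R : Finset Γ,
    (∀ h ∈ R, ∀ h' ∈ R, (∃ u : Γ, U u ∧ h' = h * u) → h = h') ∧
    (∀ h : Γ, φ h * ψ (h⁻¹ * g) ≠ 0 → ∃ h' ∈ R, ∃ u : Γ, U u ∧ h = h' * u) ∧
    χ g = ∑ h ∈ R, φ h * ψ (h⁻¹ * g)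

/-- `f = φ 0 * φ 1 * ⋯ * φ (l-1)` (iterated convolution, `l ≥ 1`). -/
def IsConvProd (U : Γ → Prop) (l : ℕ) (φ : ℕ → Γ → ℂ) (f : Γ → ℂ) : Prop :=
  ∃ χ : ℕ → Γ → ℂ, χ 0 = φ 0 ∧ (∀ m : ℕ, m + 1 < l → IsConv U (χ m) (φ (m + 1)) (χ (m + 1))) ∧
    f = χ (l - 1)

end OrbitSums

section LocalOrb

variable {k : Type} [Field k] [Valued k Γ₀]

/-- The `s`-twisted orbital integral of `φ` (bi-`U(n)`-invariant) at `δ ∈ GL₂(k)`. -/
def IsTwOrbSum (s : k ≃+* k) (n : ℕ) (φ : GL (Fin 2) k → ℂ) (δ : GL (Fin 2) k) (c : ℂ) : Prop :=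
  IsOrbSumGen (glAut s) (InU n) (InTwCentC s) φ δ c

/-- The ordinary orbital integral of `f` (bi-`U(n)`-invariant) at `γ ∈ GL₂(k)`: the twisted one
for `s = 1`. -/
def IsOrbSum (n : ℕ) (f : GL (Fin 2) k → ℂ) (γ : GL (Fin 2) k) (c : ℂ) : Prop :=
  IsTwOrbSum (RingEquiv.refl k) n f γ c

/-- The cyclic shift of `GL₂(k)^l` (`l ≥ 1`): `(s x)_j = x_{j+1}`. -/
def shiftHom (l : ℕ) [NeZero l] : (Fin l → GL (Fin 2) k) →* (Fin l → GL (Fin 2) k) where
  toFun x := fun j => x (j + 1)
  map_one' := rfl
  map_mul' _ _ := rfl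

/-- The twisted orbital integral on `GL₂(k)^l` (split place), level `U(n)^l`. -/
def IsSplitOrbSum (l : ℕ) [NeZero l] (n : ℕ) (φ : (Fin l → GL (Fin 2) k) → ℂ)
    (δ : Fin l → GL (Fin 2) k) (c : ℂ) : Prop :=
  IsOrbSumGen (shiftHom l) (fun u => ∀ j, InU n (u j))
    (fun y t => t⁻¹ * y * shiftHom l t = y ∧
      ∀ j, Valued.v ((t j : GL (Fin 2) k) : Matrix (Fin 2) (Fin 2) k).trace ≤ 1 ∧
        Valued.v ((t j : GL (Fin 2) k) : Matrix (Fin 2) (Fin 2) k).det = 1) φ δ c

end LocalOrb

/-! ### Satake polynomials and base change of spherical functions -/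

/-- The Satake polynomial of the sphere of radius `n`: the eigenvalue of
`1_{K diag(ϖⁿ, 1) K}` on the spherical vector with Satake parameters `x, y` (unitary
normalisation: `T = √q (x + y)`, `S = x y`).  Recursion
`T · Σ₁ = Σ₂ + (q + 1) S`, `T · Σ_{n+2} = Σ_{n+3} + q S Σ_{n+1}`. -/
def satPoly (q : ℕ) (x y : ℂ) : ℕ → ℂ
  | 0 => 1
  | 1 => ((Real.sqrt q : ℝ) : ℂ) * (x + y)
  | 2 => (((Real.sqrt q : ℝ) : ℂ) * (x + y)) ^ 2 - ((q : ℂ) + 1) * (x * y)
  | (n + 3) => ((Real.sqrt q : ℝ) : ℂ) * (x + y) * satPoly q x y (n + 2)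
      - (q : ℂ) * (x * y) * satPoly q x y (n + 1)

/-- The Satake transform of `1_{K diag(ϖ^a, ϖ^b) K}`, `a ≥ b`, at `(x, y)`. -/
def satake (q : ℕ) (lam : ℤ × ℤ) (x y : ℂ) : ℂ :=
  (x * y) ^ lam.2 * satPoly q x y (lam.1 - lam.2).toNat

/-- A spherical function given by its values on the Cartan invariants: finitely supported on
`{(a, b) : a ≥ b}`. -/
def IsDominant (F : (ℤ × ℤ) →₀ ℂ) : Prop := ∀ lam ∈ F.support, lam.2 ≤ lam.1

/-- **Base change of spherical functions** (`k'/k` unramified of degree `l`, residue fields of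
`q` and `q ^ l` elements): `f = b(φ)`, i.e. `f^∨(x, y) = φ^∨(x^l, y^l)`. -/
def IsBC (l q : ℕ) (φ f : (ℤ × ℤ) →₀ ℂ) : Prop :=
  ∀ x y : ℂ, x ≠ 0 → y ≠ 0 →
    (f.sum fun lam c => c * satake q lam x y)
      = φ.sum fun lam c => c * satake (q ^ l) lam (x ^ l) (y ^ l)

/-! ## Part C.  The local comparison -/

section Comparison

/-- Existence of orbit sums: for `φ` bi-`U(n)`-invariant with finite support and `N δ` regular the
twisted orbital integral exists (the `s`-conjugacy class of `δ` is closed). -/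
def OrbSumExC : Prop :=
  ∀ (k k' : Type) [Field k] [Field k'] [Valued k Γ₀] [Valued k' Γ₀] (q l e : ℕ)
    (i : k →+* k') (s : k' ≃+* k'),
    IsLocalField k q → IsLocalField k' (q ^ (l / e)) → IsLocalExt k k' l e i s →
    ∀ (n : ℕ) (φ : GL (Fin 2) k' → ℂ), IsBiInv (InU n) φ → HasFinSupp (InU n) φ →
    ∀ δ : GL (Fin 2) k', IsReg (twNorm s l δ) → ∃ c : ℂ, IsTwOrbSum s n φ δ c

/-- Uniqueness of orbit sums. -/
def OrbSumUniqC : Prop :=
  ∀ (k : Type) [Field k] [Valued k Γ₀] (s : k ≃+* k),
    (∀ y : k, Valued.v (s y) = Valued.v y) →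
    ∀ (n : ℕ) (φ : GL (Fin 2) k → ℂ), IsBiInv (InU n) φ →
    ∀ (δ : GL (Fin 2) k) (c c' : ℂ), IsTwOrbSum s n φ δ c → IsTwOrbSum s n φ δ c' → c = c'

/-- The matching statement of the fundamental lemma for the `γ` satisfying `P`. -/
def FLMatch (P : ∀ (k : Type) [Field k] [Valued k Γ₀], GL (Fin 2) k → Prop) : Prop :=
  ∀ (k k' : Type) [Field k] [Field k'] [Valued k Γ₀] [Valued k' Γ₀] (q l : ℕ)
    (i : k →+* k') (s : k' ≃+* k'),
    IsLocalField k q → IsLocalField k' (q ^ l) → IsLocalExt k k' l 1 i s → l.Prime →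
    ∀ φ f : (ℤ × ℤ) →₀ ℂ, IsDominant φ → IsDominant f → IsBC l q φ f →
    ∀ (δ : GL (Fin 2) k') (γ : GL (Fin 2) k) (c c' : ℂ), IsReg γ → P k γ →
      IsConj (twNorm s l δ) (Matrix.GeneralLinearGroup.map i γ) →
      IsTwOrbSum s 0 (fun g => φ (cartan g)) δ c →
      IsOrbSum 0 (fun g => f (cartan g)) γ c' → c = c'

/-- `γ` has an eigenvalue in `k`. -/
def HasEigen (k : Type) [Field k] [Valued k Γ₀] (γ : GL (Fin 2) k) : Prop :=
  ∃ x : k, x ^ 2 - (γ : Matrix (Fin 2) (Fin 2) k).trace * x
    + (γ : Matrix (Fin 2) (Fin 2) k).det = 0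

/-- The centraliser of `γ` contains an element whose determinant is a uniformiser (for elliptic
`γ`: `k[γ]/k` is RAMIFIED). -/
def HasRamUnif (k : Type) [Field k] [Valued k Γ₀] (γ : GL (Fin 2) k) : Prop :=
  ∃ t : GL (Fin 2) k, t * γ = γ * t ∧
    Valued.v (t : Matrix (Fin 2) (Fin 2) k).det = WithZero.exp (-1 : ℤ)

/-- **T6.C1** fundamental lemma, `γ` hyperbolic ([L] §5; Iwasawa decomposition, constant term). -/
def FLHypC : Prop := FLMatch fun k _ _ γ => HasEigen k γ

/-- **T6.C2** fundamental lemma, `γ` elliptic, `k[γ]` unramified ([L] §5, count on the tree). -/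
def FLEllUnrC : Prop := FLMatch fun k _ _ γ => ¬ HasEigen k γ ∧ ¬ HasRamUnif k γ

/-- **T6.C3** fundamental lemma, `γ` elliptic, `k[γ]` ramified ([L] §5). -/
def FLEllRamC : Prop := FLMatch fun k _ _ γ => ¬ HasEigen k γ ∧ HasRamUnif k γ

/-- **T6.C4** fundamental lemma, vanishing at the regular `γ` which are not norms ([L] §5). -/
def FLVanishC : Prop :=
  ∀ (k k' : Type) [Field k] [Field k'] [Valued k Γ₀] [Valued k' Γ₀] (q l : ℕ)
    (i : k →+* k') (s : k' ≃+* k'),
    IsLocalField k q → IsLocalField k' (q ^ l) → IsLocalExt k k' l 1 i s → l.Prime →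
    ∀ φ f : (ℤ × ℤ) →₀ ℂ, IsDominant φ → IsDominant f → IsBC l q φ f →
    ∀ (γ : GL (Fin 2) k) (c' : ℂ), IsReg γ → ¬ IsNormFrom l i s γ →
      IsOrbSum 0 (fun g => f (cartan g)) γ c' → c' = 0

/-- **P4 (FUNDAMENTAL LEMMA for the whole spherical Hecke algebra), [L] §5.**  `k'/k`
unramified of prime degree `l`, `f = b(φ)`: the twisted orbital integral of `φ` at `δ` is the
orbital integral of `f` at `γ = N δ` (regular), and the orbital integrals of `f` vanish at the
regular `γ` which are not norms. -/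
def FundLemmaC : Prop := (FLMatch fun _ _ _ _ => True) ∧ FLVanishC

/-- **T6.B4** existence of the base change of a spherical function. -/
def BCExistsC : Prop :=
  ∀ (l q : ℕ), 0 < l → 1 < q → ∀ φ : (ℤ × ℤ) →₀ ℂ, IsDominant φ →
    ∃ f : (ℤ × ℤ) →₀ ℂ, IsDominant f ∧ IsBC l q φ f ∧
      ∀ lam ∈ f.support, (l : ℤ) ∣ lam.1 + lam.2

/-- **P5 (matching at a SPLIT place), [L] §8.**  On `GL₂(k)^l` with the cyclic shift, for a pure
tensor `φ = φ_0 ⊗ ⋯ ⊗ φ_{l-1}` of bi-`U(n)`-invariant functions of finite support and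
`f = φ_0 * ⋯ * φ_{l-1}`: the twisted orbital integral of `φ` at `δ` is the orbital integral of
`f` at `γ = δ_0 δ_1 ⋯ δ_{l-1}`. -/
def SplitMatchC : Prop :=
  ∀ (k : Type) [Field k] [Valued k Γ₀] (q l : ℕ) [NeZero l], IsLocalField k q →
    ∀ (n : ℕ) (φ : ℕ → GL (Fin 2) k → ℂ) (f : GL (Fin 2) k → ℂ),
      (∀ j, IsBiInv (InU n) (φ j)) → (∀ j, HasFinSupp (InU n) (φ j)) →
      IsConvProd (InU n) l φ f →
      ∀ (δ : Fin l → GL (Fin 2) k) (c c' : ℂ), IsReg (twN (shiftHom l) l δ 0) →
        IsSplitOrbSum l n (fun x => ∏ j : Fin l, φ (j : ℕ) (x j)) δ c →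
        IsOrbSum n f (twN (shiftHom l) l δ 0) c' → c = c'

/-- **P6 (matching at the remaining finite places, REGULAR SET), [L] §6.**  `k'/k` cyclic of
prime degree `l` (ramified or not), `φ` bi-`U'(n)`-invariant of finite support: there are `m` and
`f`, bi-`U(m)`-invariant of finite support, with `O_γ(f) = TO_δ(φ)` for `γ = N δ` regular and
`O_γ(f) = 0` for `γ` regular, not a norm. -/
def BadMatchC : Prop :=
  ∀ (k k' : Type) [Field k] [Field k'] [Valued k Γ₀] [Valued k' Γ₀] (q l e : ℕ)
    (i : k →+* k') (s : k' ≃+* k'),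
    IsLocalField k q → IsLocalField k' (q ^ (l / e)) → IsLocalExt k k' l e i s → l.Prime →
    ∀ (n : ℕ) (φ : GL (Fin 2) k' → ℂ), IsBiInv (InU n) φ → HasFinSupp (InU n) φ →
    ∃ (m : ℕ) (f : GL (Fin 2) k → ℂ), IsBiInv (InU m) f ∧ HasFinSupp (InU m) f ∧
      (∀ (δ : GL (Fin 2) k') (γ : GL (Fin 2) k) (c c' : ℂ), IsReg γ →
        IsConj (twNorm s l δ) (Matrix.GeneralLinearGroup.map i γ) →
        IsTwOrbSum s n φ δ c → IsOrbSum m f γ c' → c = c') ∧
      ∀ (γ : GL (Fin 2) k) (c' : ℂ), IsReg γ → ¬ IsNormFrom l i s γ →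
        IsOrbSum m f γ c' → c' = 0

/-! ### Spectral side of the spherical functions (T6.B3) and the instances (T6.01) -/

/-- `H` is a full system of representatives of `K λ K / K`, `K = GL₂(𝒪)`. -/
def IsCosetSys {k : Type} [Field k] [Valued k Γ₀] (lam : ℤ × ℤ) (H : Finset (GL (Fin 2) k)) :
    Prop :=
  (∀ h ∈ H, cartan h = lam) ∧
    (∀ h ∈ H, ∀ h' ∈ H, InU 0 (h⁻¹ * h') → h = h') ∧
    ∀ g : GL (Fin 2) k, cartan g = lam → ∃ h ∈ H, InU 0 (h⁻¹ * g)

/-- **T6.B3 (Satake, eigenvalue form).**  A right `GL₂(𝒪)`-invariant function which is an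
eigenfunction of `T = 1_{K diag(ϖ,1) K}` and of `S = 1_{ϖ K}` with eigenvalues `√q (x + y)` and
`x y` is an eigenfunction of every `1_{K λ K}`, with eigenvalue the Satake polynomial. -/
def SatakeEigenC : Prop :=
  ∀ (k : Type) [Field k] [Valued k Γ₀] (q : ℕ), IsLocalField k q →
    ∀ (Φ : GL (Fin 2) k → ℂ) (x y : ℂ), x ≠ 0 → y ≠ 0 →
      (∀ u g : GL (Fin 2) k, InU 0 u → Φ (g * u) = Φ g) →
      (∀ lam : ℤ × ℤ, lam = (1, 0) ∨ lam = (1, 1) →
        ∀ H : Finset (GL (Fin 2) k), IsCosetSys lam H →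
          ∀ g, ∑ h ∈ H, Φ (g * h) = satake q lam x y * Φ g) →
      ∀ lam : ℤ × ℤ, lam.2 ≤ lam.1 →
        ∀ H : Finset (GL (Fin 2) k), IsCosetSys lam H →
          ∀ g, ∑ h ∈ H, Φ (g * h) = satake q lam x y * Φ g

section Instances

open IsDedekindDomain NumberField

/-- **T6.01a.**  The completion of a number field at a finite place is a local field in the
sense of `IsLocalField`. -/
def InstLocalC : Prop :=
  ∀ (K : Type) [Field K] [NumberField K] (v : HeightOneSpectrum (𝓞 K)),
    IsLocalField (v.adicCompletion K) (Ideal.absNorm v.asIdeal)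

/-- **T6.01b.**  `K'/K` cyclic of prime degree `l` with generator `s`, `w` the ONLY place of `K'`
over the place `v` of `K` (inert or ramified): the inclusion and `s` extend to the completions and
give a cyclic extension of local fields. -/
def InstExtC : Prop :=
  ∀ (K K' : Type) [Field K] [NumberField K] [Field K'] [NumberField K'] [Algebra K K']
    [IsGalois K K'] (s : K' ≃ₐ[K] K'),
    (∀ t : K' ≃ₐ[K] K', t ∈ Subgroup.zpowers s) → (Module.finrank K K').Prime →
    ∀ (v : HeightOneSpectrum (𝓞 K)) (w : HeightOneSpectrum (𝓞 K')),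
      (∀ x : 𝓞 K, x ∈ v.asIdeal ↔ algebraMap (𝓞 K) (𝓞 K') x ∈ w.asIdeal) →
      (∀ w' : HeightOneSpectrum (𝓞 K'),
        (∀ x : 𝓞 K, x ∈ v.asIdeal → algebraMap (𝓞 K) (𝓞 K') x ∈ w'.asIdeal) → w' = w) →
      ∃ (e : ℕ) (i : v.adicCompletion K →+* w.adicCompletion K')
        (sw : w.adicCompletion K' ≃+* w.adicCompletion K'),
        (∀ x : K, i (algebraMap K (v.adicCompletion K) x)
          = algebraMap K' (w.adicCompletion K') (algebraMap K K' x)) ∧
        (∀ y : K', sw (algebraMap K' (w.adicCompletion K') y)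
          = algebraMap K' (w.adicCompletion K') (s y)) ∧
        IsLocalExt (v.adicCompletion K) (w.adicCompletion K') (Module.finrank K K') e i sw ∧
        Ideal.absNorm w.asIdeal = Ideal.absNorm v.asIdeal ^ (Module.finrank K K' / e)

/-- **T6.01c.**  At a place `w` of `K'` over `v` with the same residue field and ramification
index one (in particular: `v` split in `K'`), the completions are isomorphic. -/
def InstSplitC : Prop :=
  ∀ (K K' : Type) [Field K] [NumberField K] [Field K'] [NumberField K'] [Algebra K K']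
    (v : HeightOneSpectrum (𝓞 K)) (w : HeightOneSpectrum (𝓞 K')),
      (∀ x : 𝓞 K, x ∈ v.asIdeal ↔ algebraMap (𝓞 K) (𝓞 K') x ∈ w.asIdeal) →
      Ideal.absNorm w.asIdeal = Ideal.absNorm v.asIdeal →
      (∃ x : 𝓞 K, x ∈ v.asIdeal ∧ algebraMap (𝓞 K) (𝓞 K') x ∉ w.asIdeal ^ 2) →
      ∃ i : v.adicCompletion K ≃+* w.adicCompletion K',
        (∀ x : K, i (algebraMap K (v.adicCompletion K) x)
          = algebraMap K' (w.adicCompletion K') (algebraMap K K' x)) ∧
        ∀ x : v.adicCompletion K, Valued.v (i x) = Valued.v x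

end Instances

/-! ### Split places, integral form (any locally compact group; covers the complex places of
the cubic step, where every infinite place splits) -/

section SplitIntegral

open MeasureTheory

/-- Convolution `(φ * ψ)(g) = ∫ φ(h) ψ(h⁻¹ g) dh`. -/
def convInt {H : Type} [Group H] [MeasurableSpace H] (μ : Measure H) (φ ψ : H → ℂ) (g : H) : ℂ :=
  ∫ h, φ h * ψ (h⁻¹ * g) ∂μ

/-- **T6.D2 (split place, `l = 2`, integral form), [L] §8.**  For a left Haar measure:
`∫ φ₀(x₀⁻¹ δ₀ x₁) φ₁(x₁⁻¹ δ₁ x₀) dx₁ = (φ₀ * φ₁)(x₀⁻¹ δ₀ δ₁ x₀)`. -/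
def SplitInt2C : Prop :=
  ∀ (H : Type) [Group H] [TopologicalSpace H] [IsTopologicalGroup H] [LocallyCompactSpace H]
    [MeasurableSpace H] [BorelSpace H] (μ : Measure H) [μ.IsHaarMeasure]
    (φ₀ φ₁ : H → ℂ) (δ₀ δ₁ x₀ : H),
    ∫ x₁, φ₀ (x₀⁻¹ * δ₀ * x₁) * φ₁ (x₁⁻¹ * δ₁ * x₀) ∂μ
      = convInt μ φ₀ φ₁ (x₀⁻¹ * (δ₀ * δ₁) * x₀)

/-- **T6.D2 (split place, `l = 3`, integral form), [L] §8.** -/
def SplitInt3C : Prop :=
  ∀ (H : Type) [Group H] [TopologicalSpace H] [IsTopologicalGroup H] [LocallyCompactSpace H]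
    [MeasurableSpace H] [BorelSpace H] (μ : Measure H) [μ.IsHaarMeasure]
    (φ₀ φ₁ φ₂ : H → ℂ) (δ₀ δ₁ δ₂ x₀ : H),
    ∫ x₁, φ₀ (x₀⁻¹ * δ₀ * x₁) * (∫ x₂, φ₁ (x₁⁻¹ * δ₁ * x₂) * φ₂ (x₂⁻¹ * δ₂ * x₀) ∂μ) ∂μ
      = convInt μ φ₀ (convInt μ φ₁ φ₂) (x₀⁻¹ * (δ₀ * δ₁ * δ₂) * x₀)

end SplitIntegral

/-! ### Bridge: the orbit sum IS the orbital integral (for the comparison layer of T7) -/

section Bridge

open MeasureTheory

/-- The twisted centraliser `{x : x⁻¹ δ s(x) = δ}` as a subgroup. -/
def twCentSub {Γ : Type} [Group Γ] (s : Γ →* Γ) (δ : Γ) : Subgroup Γ where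
  carrier := {x | x⁻¹ * δ * s x = δ}
  one_mem' := by simp
  mul_mem' := by
    intro a b ha hb
    change _ = δ at ha hb ⊢
    calc (a * b)⁻¹ * δ * s (a * b) = b⁻¹ * (a⁻¹ * δ * s a) * s b := by
          simp [mul_assoc]
      _ = δ := by rw [ha, hb]
  inv_mem' := by
    intro a ha
    change _ = δ at ha ⊢
    calc a⁻¹⁻¹ * δ * s a⁻¹ = a * (a⁻¹ * δ * s a) * (s a)⁻¹ := by rw [ha]; simp
      _ = δ := by simp [mul_assoc]

/-- **T6.19 (bridge).**  `k` a local field, `s` an automorphism of finite order `l` preserving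
the valuation, `N δ` regular, `φ` bi-`U(n)`-invariant of finite support with orbit sum `c`.
For the Haar measure `μ` of `GL₂(k)` with `μ(U(n)) = 1`, the Haar measure `μT` of the twisted
centraliser `T` with `μT(T^c) = 1` and every cut-off function `β ≥ 0` (continuous,
`∫_T β(t x) dt = 1` for all `x`): `∫ φ(x⁻¹ δ s(x)) β(x) dμ(x) = c`.
(So `c = ∫_{T \ G} φ(x⁻¹ δ s(x)) dx` for the quotient of these measures.) -/
def OrbSumIntC : Prop :=
  ∀ (k : Type) [Field k] [Valued k Γ₀] (q l : ℕ) (s : k ≃+* k), IsLocalField k q →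
    (∀ y : k, Valued.v (s y) = Valued.v y) → 0 < l → (∀ y : k, (s ^ l) y = y) →
    ∀ (n : ℕ) (φ : GL (Fin 2) k → ℂ), IsBiInv (InU n) φ → HasFinSupp (InU n) φ →
    ∀ (δ : GL (Fin 2) k) (c : ℂ), IsReg (twNorm s l δ) → IsTwOrbSum s n φ δ c →
    ∀ μ : @Measure (GL (Fin 2) k) (borel _),
      @Measure.IsHaarMeasure _ _ _ (borel _) μ → μ {g | InU n g} = 1 →
    ∀ μT : @Measure (twCentSub (glAut s) δ) (borel _),
      @Measure.IsHaarMeasure _ _ _ (borel _) μT →
      μT {t | Valued.v ((t : GL (Fin 2) k) : Matrix (Fin 2) (Fin 2) k).trace ≤ 1 ∧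
        Valued.v ((t : GL (Fin 2) k) : Matrix (Fin 2) (Fin 2) k).det = 1} = 1 →
    ∀ β : GL (Fin 2) k → ℝ, Continuous β → (∀ x, 0 ≤ β x) →
      (∀ x : GL (Fin 2) k,
        @integral _ _ _ _ (borel _) μT
          (fun t : twCentSub (glAut s) δ => β ((t : GL (Fin 2) k) * x)) = 1) →
      @integral _ _ _ _ (borel _) μ
        (fun x : GL (Fin 2) k => φ (x⁻¹ * δ * glAut s x) * (β x : ℂ)) = c

end Bridge

/-! ## The tower Prop and the top -/

/-- **THE TOWER PROP of T6** (consumers: T5 uses `NormClassC`; T7 uses everything). -/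
def T6Out : Prop :=
  NormClassC ∧ NormInjC ∧ TwCentC ∧ NormImageTCC ∧ NormImageQC ∧ InstLocalC ∧ InstExtC ∧
    InstSplitC ∧
    OrbSumExC ∧ OrbSumUniqC ∧ OrbSumIntC ∧ SatakeEigenC ∧ BCExistsC ∧ FundLemmaC ∧
    SplitMatchC ∧ SplitInt2C ∧ SplitInt3C ∧ BadMatchC

/-- The fundamental lemma from its three cases and the vanishing statement. -/
theorem fundLemma_of_cases (h1 : FLHypC) (h2 : FLEllUnrC) (h3 : FLEllRamC) (h4 : FLVanishC) :
    FundLemmaC := by
  refine ⟨?_, h4⟩
  intro k k' _ _ _ _ q l i s hk hk' hext hl φ f hφ hf hbc δ γ c c' hreg _ hconj hc hc'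
  by_cases he : HasEigen k γ
  · exact h1 k k' q l i s hk hk' hext hl φ f hφ hf hbc δ γ c c' hreg he hconj hc hc'
  · by_cases hr : HasRamUnif k γ
    · exact h3 k k' q l i s hk hk' hext hl φ f hφ hf hbc δ γ c c' hreg ⟨he, hr⟩ hconj hc hc'
    · exact h2 k k' q l i s hk hk' hext hl φ f hφ hf hbc δ γ c c' hreg ⟨he, hr⟩ hconj hc hc'

/-- **TOP of T6**: the tower Prop from the sub-leaves.  The two `NormImage` Props are
hypothesis-parametrised on the Hasse norm theorem of tower CFT in the two cases used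
(`HasseNormTCC → NormImageTCC`, `HasseNormQC → NormImageQC` are the sub-leaves A3). -/
theorem top (hasseTC : HasseNormTCC) (hasseQ : HasseNormQC)
    (a1 : NormClassC) (a2 : NormInjC) (a2' : TwCentC) (a3 : HasseNormTCC → NormImageTCC)
    (a3q : HasseNormQC → NormImageQC)
    (i1 : InstLocalC) (i2 : InstExtC) (i3 : InstSplitC)
    (b1 : OrbSumExC) (b2 : OrbSumUniqC) (b5 : OrbSumIntC) (b3 : SatakeEigenC) (b4 : BCExistsC)
    (c1 : FLHypC) (c2 : FLEllUnrC) (c3 : FLEllRamC) (c4 : FLVanishC)
    (d1 : SplitMatchC) (d2 : SplitInt2C) (d3 : SplitInt3C) (e1 : BadMatchC) : T6Out :=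
  ⟨a1, a2, a2', a3 hasseTC, a3q hasseQ, i1, i2, i3, b1, b2, b5, b3, b4,
    fundLemma_of_cases c1 c2 c3 c4, d1, d2, d3, e1⟩

end Comparison

/-! ## Equation lemmas of the definitions by recursion, REALISED ONCE

ADDITIVE (row-lead helper17, 15:45Z; fix of helper112 / helper8, see
`coord/LT-collision-helper8.md`): `simp [twN]`, `rw [twN]`, `unfold twN` realise `twN.eq_def`
in the using module unless an imported module has done so; two such copies differ and the
grader's kernel checker rejects the closure.  Realised here, they are declared by no other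
module.  Nothing above this line is changed. -/

theorem twN_eqns_realised : True := by
  have _h1 := @twN.eq_def
  have _h2 := @twN.eq_1
  have _h3 := @twN.eq_2
  trivial

theorem satPoly_eqns_realised : True := by
  have _h0 := @satPoly.eq_def
  have _h1 := @satPoly.eq_1
  have _h2 := @satPoly.eq_2
  have _h3 := @satPoly.eq_3
  have _h4 := @satPoly.eq_4
  trivial

end Fermat.Agent.LT.T6

end

end
-- ===== PACK-END LT/T6/Spec.lean

-- ===== PACK-BEGIN LT/A2/H323/Gauss/Char.lean
section


/-!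
# Row LT, tower A2, leaf A2.03.1.1.06.05 `LF54.LeafGauss` (helper323), OFF-MAIN : CHARACTERS

* `eq_one_of_forall_pow_near323` : a complex number `z` of absolute value `1` with
  `‖z ^ m - 1‖ < 1` for all `m` is `1` (no small subgroups in the circle).
* `char_eq_one_near_zero323` : a continuous unitary additive character of an ultrametric normed
  field is trivial on a ball around `0`.
Mathlib only.
-/

set_option autoImplicit false
set_option linter.style.haveILetI false
set_option linter.unusedSectionVars false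

noncomputable section

namespace Fermat.Agent.LT.A2.H323

/-- **No small subgroups.** -/
theorem eq_one_of_forall_pow_near323 (z : ℂ) (hz : ‖z‖ = 1)
    (h : ∀ m : ℕ, ‖z ^ m - 1‖ < 1) : z = 1 := by
  by_contra hne
  have hre : ∀ m : ℕ, (1 : ℝ) / 2 < (z ^ m).re := by
    intro m
    have h1 := h m
    have h2 : ‖z ^ m‖ = 1 := by rw [norm_pow, hz, one_pow]
    have h3 : ‖z ^ m - 1‖ ^ 2 = ‖z ^ m‖ ^ 2 - 2 * (z ^ m).re + 1 := by
      rw [Complex.sq_norm, Complex.sq_norm, Complex.normSq_apply, Complex.normSq_apply]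
      simp only [Complex.sub_re, Complex.one_re, Complex.sub_im, Complex.one_im, sub_zero]
      ring
    have h4 : ‖z ^ m - 1‖ ^ 2 < 1 := by nlinarith [norm_nonneg (z ^ m - 1)]
    rw [h3, h2] at h4
    linarith
  have hz1 : z - 1 ≠ 0 := sub_ne_zero.mpr hne
  have hz1' : 0 < ‖z - 1‖ := norm_pos_iff.mpr hz1
  have hgeom : ∀ N : ℕ, ‖∑ i ∈ Finset.range N, z ^ i‖ ≤ 2 / ‖z - 1‖ := by
    intro N
    rw [geom_sum_eq hne, norm_div]
    apply div_le_div_of_nonneg_right _ (norm_nonneg _)
    calc ‖z ^ N - 1‖ ≤ ‖z ^ N‖ + ‖(1 : ℂ)‖ := norm_sub_le _ _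
      _ = 2 := by rw [norm_pow, hz, one_pow, norm_one]; norm_num
  have hsum : ∀ N : ℕ, (N : ℝ) / 2 ≤ (∑ i ∈ Finset.range N, z ^ i).re := by
    intro N
    rw [Complex.re_sum]
    calc (N : ℝ) / 2 = ∑ _i ∈ Finset.range N, (1 : ℝ) / 2 := by
          rw [Finset.sum_const, Finset.card_range, nsmul_eq_mul]; ring
      _ ≤ ∑ i ∈ Finset.range N, (z ^ i).re := Finset.sum_le_sum fun i _ => (hre i).le
  obtain ⟨N, hN⟩ := exists_nat_gt (2 * (2 / ‖z - 1‖))
  have := (hsum N).trans ((Complex.re_le_norm _).trans (hgeom N))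
  linarith

/-- **A continuous unitary additive character of an ultrametric normed field is trivial near
`0`.** -/
theorem char_eq_one_near_zero323 {k : Type*} [NormedField k] [IsUltrametricDist k] (ψ : k → ℂ)
    (hc : Continuous ψ) (hm : ∀ x y : k, ψ (x + y) = ψ x * ψ y) (hu : ∀ x : k, ‖ψ x‖ = 1) :
    ψ 0 = 1 ∧ ∃ ε : ℝ, 0 < ε ∧ ∀ x : k, ‖x‖ ≤ ε → ψ x = 1 := by
  have h0 : ψ 0 = 1 := by
    have h1 := hm 0 0
    rw [add_zero] at h1
    have hne : ψ 0 ≠ 0 := by
      intro h
      have := hu 0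
      rw [h, norm_zero] at this
      exact zero_ne_one this
    have h2 : ψ 0 * ψ 0 = ψ 0 * 1 := by rw [← h1, mul_one]
    exact mul_left_cancel₀ hne h2
  refine ⟨h0, ?_⟩
  have hcont := hc.continuousAt (x := 0)
  rw [Metric.continuousAt_iff] at hcont
  obtain ⟨δ, hδ, hδ'⟩ := hcont 1 one_pos
  refine ⟨δ / 2, by positivity, fun x hx => ?_⟩
  have hpow : ∀ m : ℕ, ψ ((m : k) * x) = ψ x ^ m := by
    intro m
    induction m with
    | zero => simp [h0]
    | succ m ih => rw [Nat.cast_succ, add_mul, one_mul, hm, ih, pow_succ]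
  apply eq_one_of_forall_pow_near323 _ (hu x)
  intro m
  rw [← hpow m]
  have hnorm : ‖(m : k) * x‖ < δ := by
    rw [norm_mul]
    calc ‖(m : k)‖ * ‖x‖ ≤ 1 * ‖x‖ :=
          mul_le_mul_of_nonneg_right (IsUltrametricDist.norm_natCast_le_one k m) (norm_nonneg _)
      _ = ‖x‖ := one_mul _
      _ ≤ δ / 2 := hx
      _ < δ := by linarith
  have := hδ' (x := (m : k) * x) (by rwa [dist_zero_right])
  rw [h0, dist_eq_norm] at this
  exact this

end Fermat.Agent.LT.A2.H323

end

end
-- ===== PACK-END LT/A2/H323/Gauss/Char.lean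

-- ===== PACK-BEGIN LT/CFT/H861/Idele.lean
section


/-!
# Row LT, tower CFT, helper861 (OFF-MAIN): ideles of a number field — local components

Mathlib only.  `K` a number field, `𝔸 = NumberField.AdeleRing (𝓞 K) K` (the adele ring used by
`Fermat/Agent/LT/H556/A0.lean`), ideles = `𝔸ˣ` with the units topology.

* `fc861 v x`  : the component of the idele `x` at the finite place `v`;
* `ord861 v x` : its `v`-adic order (`Valued.v (fc861 v x) = exp (- ord861 v x)`);
* finiteness of the support of `ord861 · x`; multiplicativity; values on principal ideles.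
-/

set_option autoImplicit false

open IsDedekindDomain NumberField

noncomputable section

namespace Fermat.Agent.LT.CFT.H861

variable {K : Type} [Field K] [NumberField K]

/-- The principal idele of `γ ∈ Kˣ`. -/
def pr861 (K : Type) [Field K] [NumberField K] : Kˣ →* (AdeleRing (𝓞 K) K)ˣ :=
  Units.map (algebraMap K (AdeleRing (𝓞 K) K)).toMonoidHom

/-- The component of the idele `x` at the finite place `v`. -/
def fc861 (v : HeightOneSpectrum (𝓞 K)) (x : (AdeleRing (𝓞 K) K)ˣ) : v.adicCompletion K :=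
  (x : AdeleRing (𝓞 K) K).2 v

theorem fc861_one (v : HeightOneSpectrum (𝓞 K)) : fc861 v (1 : (AdeleRing (𝓞 K) K)ˣ) = 1 := rfl

theorem fc861_mul (v : HeightOneSpectrum (𝓞 K)) (x y : (AdeleRing (𝓞 K) K)ˣ) :
    fc861 v (x * y) = fc861 v x * fc861 v y := rfl

theorem fc861_mul_inv (v : HeightOneSpectrum (𝓞 K)) (x : (AdeleRing (𝓞 K) K)ˣ) :
    fc861 v x * fc861 v x⁻¹ = 1 := by
  rw [← fc861_mul, mul_inv_cancel, fc861_one]

theorem fc861_ne_zero (v : HeightOneSpectrum (𝓞 K)) (x : (AdeleRing (𝓞 K) K)ˣ) :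
    fc861 v x ≠ 0 := fun h => by
  have := fc861_mul_inv v x
  rw [h, zero_mul] at this
  exact zero_ne_one this

theorem fc861_inv (v : HeightOneSpectrum (𝓞 K)) (x : (AdeleRing (𝓞 K) K)ˣ) :
    fc861 v x⁻¹ = (fc861 v x)⁻¹ :=
  eq_inv_of_mul_eq_one_right (fc861_mul_inv v x)

theorem fc861_pr (v : HeightOneSpectrum (𝓞 K)) (γ : Kˣ) :
    fc861 v (pr861 K γ) = ((γ : K) : v.adicCompletion K) := rfl

theorem val_fc861_ne_zero (v : HeightOneSpectrum (𝓞 K)) (x : (AdeleRing (𝓞 K) K)ˣ) :
    Valued.v (fc861 v x) ≠ 0 :=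
  (Valuation.ne_zero_iff _).2 (fc861_ne_zero v x)

theorem val_fc861_pr (v : HeightOneSpectrum (𝓞 K)) (γ : Kˣ) :
    Valued.v (fc861 v (pr861 K γ)) = v.valuation K (γ : K) := by
  rw [fc861_pr]
  exact HeightOneSpectrum.valuedAdicCompletion_eq_valuation' v (γ : K)

/-- For an idele `x`, almost all finite components have valuation `1`. -/
theorem finite_val_fc861_ne_one (x : (AdeleRing (𝓞 K) K)ˣ) :
    {v : HeightOneSpectrum (𝓞 K) | Valued.v (fc861 v x) ≠ 1}.Finite := by
  have hu : IsUnit ((x : AdeleRing (𝓞 K) K).2) :=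
    ⟨⟨(x : AdeleRing (𝓞 K) K).2, ((x⁻¹ : (AdeleRing (𝓞 K) K)ˣ) : AdeleRing (𝓞 K) K).2,
      congrArg Prod.snd x.mul_inv, congrArg Prod.snd x.inv_mul⟩, rfl⟩
  have h := (FiniteAdeleRing.isUnit_iff.1 hu).2
  rw [Filter.eventually_cofinite] at h
  exact h

/-- The `v`-adic order of the idele `x`. -/
def ord861 (v : HeightOneSpectrum (𝓞 K)) (x : (AdeleRing (𝓞 K) K)ˣ) : ℤ :=
  - WithZero.log (Valued.v (fc861 v x))

theorem val_fc861_eq_exp (v : HeightOneSpectrum (𝓞 K)) (x : (AdeleRing (𝓞 K) K)ˣ) :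
    Valued.v (fc861 v x) = WithZero.exp (- ord861 v x) := by
  rw [ord861, neg_neg, WithZero.exp_log (val_fc861_ne_zero v x)]

theorem ord861_one (v : HeightOneSpectrum (𝓞 K)) : ord861 v (1 : (AdeleRing (𝓞 K) K)ˣ) = 0 := by
  simp [ord861, fc861_one]

theorem ord861_mul (v : HeightOneSpectrum (𝓞 K)) (x y : (AdeleRing (𝓞 K) K)ˣ) :
    ord861 v (x * y) = ord861 v x + ord861 v y := by
  rw [ord861, ord861, ord861, fc861_mul, map_mul,
    WithZero.log_mul (val_fc861_ne_zero v x) (val_fc861_ne_zero v y)]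
  ring

theorem ord861_inv (v : HeightOneSpectrum (𝓞 K)) (x : (AdeleRing (𝓞 K) K)ˣ) :
    ord861 v x⁻¹ = - ord861 v x := by
  have h := ord861_mul v x x⁻¹
  rw [mul_inv_cancel, ord861_one] at h
  linarith

theorem ord861_eq_zero_iff (v : HeightOneSpectrum (𝓞 K)) (x : (AdeleRing (𝓞 K) K)ˣ) :
    ord861 v x = 0 ↔ Valued.v (fc861 v x) = 1 := by
  rw [val_fc861_eq_exp]
  constructor
  · intro h; rw [h]; simp
  · intro h
    have : WithZero.exp (- ord861 v x) = WithZero.exp (0 : ℤ) := by rw [h]; simp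
    have h2 := WithZero.exp_injective this
    linarith

theorem ord861_eq_of_val (v : HeightOneSpectrum (𝓞 K)) (x : (AdeleRing (𝓞 K) K)ˣ) (n : ℤ)
    (h : Valued.v (fc861 v x) = WithZero.exp (-n)) : ord861 v x = n := by
  rw [val_fc861_eq_exp] at h
  have := WithZero.exp_injective h
  linarith

theorem finite_ord861_ne_zero (x : (AdeleRing (𝓞 K) K)ˣ) :
    {v : HeightOneSpectrum (𝓞 K) | ord861 v x ≠ 0}.Finite := by
  refine (finite_val_fc861_ne_one x).subset fun v hv => ?_
  simpa [ord861_eq_zero_iff] using hv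

end Fermat.Agent.LT.CFT.H861

end

end
-- ===== PACK-END LT/CFT/H861/Idele.lean

-- ===== PACK-BEGIN LT/A2/H441/AsmLevel.lean
section


/-!
# Row LT, tower A2, leaf A2.03.1.1.11 `WX467.AsmC` (helper441): the level ideal

OFF-MAIN.  Mathlib only.  For a Dedekind domain `R`, a nonzero ideal `𝔡`, a finite set `S` of
height one primes and depths `N : S → ℕ`:

    `asmLevel441 𝔡 S N = 𝔡 * ∏_{v ∈ S} v ^ (N v + 1)`.
-/

set_option autoImplicit false
set_option linter.unusedSectionVars false

open IsDedekindDomain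

namespace Fermat.Agent.LT.A2.H441

variable {R : Type*} [CommRing R] [IsDedekindDomain R]

/-- The level `𝔡 · ∏_{v ∈ S} v ^ (N v + 1)`. -/
noncomputable def asmLevel441 (𝔡 : Ideal R) (S : Finset (HeightOneSpectrum R))
    (N : HeightOneSpectrum R → ℕ) : Ideal R :=
  𝔡 * ∏ v ∈ S, v.asIdeal ^ (N v + 1)

theorem asmLevel441_ne_bot {𝔡 : Ideal R} (h𝔡 : 𝔡 ≠ ⊥) (S : Finset (HeightOneSpectrum R))
    (N : HeightOneSpectrum R → ℕ) : asmLevel441 𝔡 S N ≠ ⊥ := by
  unfold asmLevel441
  rw [← Ideal.zero_eq_bot]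
  refine mul_ne_zero h𝔡 ?_
  rw [Finset.prod_ne_zero_iff]
  intro v _
  exact pow_ne_zero _ v.ne_bot

theorem asmLevel441_le (𝔡 : Ideal R) (S : Finset (HeightOneSpectrum R))
    (N : HeightOneSpectrum R → ℕ) : asmLevel441 𝔡 S N ≤ 𝔡 :=
  Ideal.mul_le_left

theorem asmLevel441_le_pow (𝔡 : Ideal R) (S : Finset (HeightOneSpectrum R))
    (N : HeightOneSpectrum R → ℕ) {v : HeightOneSpectrum R} (hv : v ∈ S) :
    asmLevel441 𝔡 S N ≤ v.asIdeal ^ (N v + 1) := by
  unfold asmLevel441
  refine le_trans Ideal.mul_le_right ?_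
  exact Ideal.le_of_dvd (Finset.dvd_prod_of_mem (fun w => w.asIdeal ^ (N w + 1)) hv)

theorem asmLevel441_le_pow' (𝔡 : Ideal R) (S : Finset (HeightOneSpectrum R))
    (N : HeightOneSpectrum R → ℕ) {v : HeightOneSpectrum R} (hv : v ∈ S) :
    asmLevel441 𝔡 S N ≤ v.asIdeal ^ N v :=
  le_trans (asmLevel441_le_pow 𝔡 S N hv) (Ideal.pow_le_pow_right (Nat.le_succ _))

theorem asmLevel441_dvd (𝔡 : Ideal R) (S : Finset (HeightOneSpectrum R))
    (N : HeightOneSpectrum R → ℕ) {v : HeightOneSpectrum R} (hv : v ∈ S) :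
    v.asIdeal ∣ asmLevel441 𝔡 S N := by
  rw [Ideal.dvd_iff_le]
  refine le_trans (asmLevel441_le_pow 𝔡 S N hv) ?_
  exact Ideal.pow_le_self (Nat.succ_ne_zero _)

theorem asmLevel441_not_dvd (𝔡 : Ideal R) (S : Finset (HeightOneSpectrum R))
    (N : HeightOneSpectrum R → ℕ) {v : HeightOneSpectrum R} (hv : v ∉ S)
    (hd : ¬ v.asIdeal ∣ 𝔡) : ¬ v.asIdeal ∣ asmLevel441 𝔡 S N := by
  intro h
  unfold asmLevel441 at h
  rcases v.prime.dvd_mul.1 h with h1 | h1
  · exact hd h1
  · obtain ⟨w, hw, hvw⟩ := (Prime.dvd_finsetProd_iff v.prime _).1 h1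
    have h2 : v.asIdeal ∣ w.asIdeal := v.prime.dvd_of_dvd_pow hvw
    have h3 : w.asIdeal ≤ v.asIdeal := Ideal.le_of_dvd h2
    have h4 : w.asIdeal = v.asIdeal :=
      w.isMaximal.eq_of_le v.isPrime.ne_top h3
    have h5 : w = v := HeightOneSpectrum.ext h4
    exact hv (h5 ▸ hw)

end Fermat.Agent.LT.A2.H441

end
-- ===== PACK-END LT/A2/H441/AsmLevel.lean

-- ===== PACK-BEGIN LT/A2/H546/FundInt.lean
section


/-!
# Row LT, tower A2, leaf A2.07 `LiftExC` (helper546) -- part 2: integrals over a fundamental domain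

Mathlib only.  `G` a group with a measurable left multiplication, `T` a subgroup whose elements
commute, `Γ ≤ T` a countable subgroup, `μ` a measure on `G` carried by `T` and invariant under the
left translations by `T`, `DT ⊆ T` a measurable strict fundamental domain of `Γ` in `T`
(elementwise form).  Then for every `Γ`-invariant function `f` and every `m₀ ∈ T`:

    ∫_{DT} f (m₀ x) dμ(x) = ∫_{DT} f(x) dμ(x)         (`setIntegral_mul_left_eq_h546`).

No integrability hypothesis.
-/

set_option autoImplicit false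
set_option linter.style.haveILetI false
set_option linter.unusedSectionVars false

open MeasureTheory
open scoped Pointwise

namespace Fermat.Agent.LT.A2.H546

section

variable {G : Type*} [Group G] [MeasurableSpace G] [MeasurableMul G]
variable {E : Type*} [NormedAddCommGroup E] [NormedSpace ℝ E]

/-- The data: see the header. -/
structure FundData_h546 (T Γ : Subgroup G) (μ : Measure G) (DT : Set G) : Prop where
  comm : ∀ a ∈ T, ∀ b ∈ T, a * b = b * a
  le : Γ ≤ T
  carried : μ {m | m ∉ T} = 0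
  inv : ∀ m' ∈ T, ∀ S : Set G, μ ((fun m => m' * m) '' S) = μ S
  dom_sub : ∀ m ∈ DT, m ∈ T
  dom_meas : MeasurableSet DT
  dom_fund : ∀ m ∈ T, ∃! y : G, y ∈ Γ ∧ y * m ∈ DT

variable {T Γ : Subgroup G} {μ : Measure G} {DT : Set G}

theorem measurableConstSMul_h546 (H : Subgroup G) : MeasurableConstSMul H G :=
  ⟨fun c => measurable_const_mul (c : G)⟩

theorem smulInvariant_h546 (h : FundData_h546 T Γ μ DT) (H : Subgroup G) (hH : H ≤ T) :
    SMulInvariantMeasure H G μ := by
  refine ⟨fun c s _ => ?_⟩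
  have e : (fun x : G => c • x) ⁻¹' s = (fun m => ((c⁻¹ : H) : G) * m) '' s := by
    ext x
    constructor
    · intro hx
      refine ⟨(c : G) * x, hx, ?_⟩
      simp
    · rintro ⟨z, hz, rfl⟩
      show c • (((c⁻¹ : H) : G) * z) ∈ s
      rw [Subgroup.smul_def, smul_eq_mul, ← mul_assoc]
      simpa using hz
  rw [e]
  exact h.inv _ (hH (c⁻¹).2) s

theorem isFundamentalDomain_h546 (h : FundData_h546 T Γ μ DT) :
    IsFundamentalDomain Γ DT μ := by
  refine ⟨h.dom_meas.nullMeasurableSet, ?_, ?_⟩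
  · -- a.e. covering
    have : {x : G | ¬ ∃ g : Γ, g • x ∈ DT} ⊆ {m | m ∉ T} := by
      intro x hx hxT
      apply hx
      obtain ⟨y, ⟨hyΓ, hy⟩, -⟩ := h.dom_fund x hxT
      exact ⟨⟨y, hyΓ⟩, hy⟩
    exact measure_mono_null this h.carried
  · -- disjointness
    intro g g' hgg'
    apply Disjoint.aedisjoint
    rw [Set.disjoint_left]
    rintro x ⟨d, hd, rfl⟩ ⟨d', hd', e⟩
    apply hgg'
    -- `x = g d = g' d'`
    have e' : (g' : G) * d' = (g : G) * d := e
    have hxT : (g : G) * d ∈ T := T.mul_mem (h.le g.2) (h.dom_sub d hd)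
    obtain ⟨y, -, huniq⟩ := h.dom_fund _ hxT
    have h1 : ((g⁻¹ : Γ) : G) = y := huniq _ ⟨(g⁻¹).2, by simpa using hd⟩
    have h2 : ((g'⁻¹ : Γ) : G) = y := huniq _ ⟨(g'⁻¹).2, by
      rw [← e']; simpa using hd'⟩
    have : (g⁻¹ : Γ) = g'⁻¹ := Subtype.ext (h1.trans h2.symm)
    exact inv_injective this

theorem smulCommClass_h546 (h : FundData_h546 T Γ μ DT) : SMulCommClass T Γ G := by
  refine ⟨fun a b x => ?_⟩
  show (a : G) * ((b : G) * x) = (b : G) * ((a : G) * x)
  rw [← mul_assoc, ← mul_assoc, h.comm a a.2 b (h.le b.2)]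

/-- **Translation of the variable in an integral over the fundamental domain.** -/
theorem setIntegral_mul_left_eq_h546 [Countable Γ] (h : FundData_h546 T Γ μ DT)
    (f : G → E) (hf : ∀ y ∈ Γ, ∀ x, f (y * x) = f x) (m₀ : G) (hm₀ : m₀ ∈ T) :
    ∫ x in DT, f (m₀ * x) ∂μ = ∫ x in DT, f x ∂μ := by
  haveI := measurableConstSMul_h546 (G := G) Γ
  haveI := measurableConstSMul_h546 (G := G) T
  haveI := smulInvariant_h546 h Γ h.le
  haveI := smulInvariant_h546 h T le_rfl
  haveI := smulCommClass_h546 h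
  have hD := isFundamentalDomain_h546 h
  have hD' : IsFundamentalDomain Γ ((⟨m₀, hm₀⟩ : T) • DT) μ := hD.smul_of_comm (⟨m₀, hm₀⟩ : T)
  have hf' : ∀ (g : Γ) (x : G), f (g • x) = f x := fun g x => hf g g.2 x
  have e1 : ∫ x in (⟨m₀, hm₀⟩ : T) • DT, f x ∂μ = ∫ x in DT, f x ∂μ :=
    hD'.setIntegral_eq hD hf'
  have e2 := (measurePreserving_smul (⟨m₀, hm₀⟩ : T) μ).setIntegral_image_emb
    (measurableEmbedding_const_smul (⟨m₀, hm₀⟩ : T)) f DT
  rw [Set.image_smul] at e2
  rw [← e1, e2]
  rfl

end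

end Fermat.Agent.LT.A2.H546

end
-- ===== PACK-END LT/A2/H546/FundInt.lean

-- ===== PACK-BEGIN LT/A2/H792/Aniso.lean
section


/-!
# Row LT, tower A2, leaf A2.03.8.6 `H142.RecInertC` (helper792) -- part 1: the local norm form

OFF-MAIN.  Mathlib only.  `F` is a field with a valuation `val : Valuation F ℤᵐ⁰`, `ϖ` an element
of valuation `exp (-1)`, `t`, `n` integral with `t² - 4n` a unit, `N(a, b) = a² + t a b + n b²`.
If no integral pair `(a, b)` has `val (N(a, b)) = exp (-1)` (the place is INERT), then the form is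
anisotropic modulo `ϖ`:

* `aniso_prim792` : `val (N(a, b)) = 1` for an integral pair with one unit coordinate;
* `aniso_val792`  : `val (N(a, b)) = (max (val a) (val b)) ^ 2` for all `a`, `b`;
* `aniso_int792`  : `val (N(a, b)) = 1 → val a ≤ 1 ∧ val b ≤ 1`;
* `aniso_even792` : `val (N(a, b)) = exp (-j) → Even j`.

No Hensel lemma: if `val (N(a, b)) < exp (-1)` for a primitive pair, one of
`N(a + ϖ, b)`, `N(a, b + ϖ)` has valuation `exp (-1)` (the polar form is nondegenerate modulo `ϖ`).
-/

set_option autoImplicit false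

open scoped WithZero

namespace Fermat.Agent.LT.A2.H792

variable {F : Type*} [Field F] (val : Valuation F ℤᵐ⁰)

/-- The norm form `N(a, b) = a² + t a b + n b²`. -/
def nf792 (t n a b : F) : F := a ^ 2 + t * a * b + n * b ^ 2

theorem nf792_smul (t n c a b : F) : nf792 t n (c * a) (c * b) = c ^ 2 * nf792 t n a b := by
  unfold nf792; ring

theorem val_two_le792 : val (2 : F) ≤ 1 := by
  have h : (2 : F) = 1 + 1 := by norm_num
  rw [h]
  exact le_trans (Valuation.map_add _ _ _) (by simp)

theorem val_nf_le792 {t n a b : F} (ht : val t ≤ 1) (hn : val n ≤ 1) (ha : val a ≤ 1)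
    (hb : val b ≤ 1) : val (nf792 t n a b) ≤ 1 := by
  unfold nf792
  refine le_trans (Valuation.map_add _ _ _) (max_le (le_trans (Valuation.map_add _ _ _)
    (max_le ?_ ?_)) ?_)
  · rw [map_pow]; exact pow_le_one₀ zero_le ha
  · rw [map_mul, map_mul]
    exact mul_le_one₀ (mul_le_one₀ ht zero_le ha) zero_le hb
  · rw [map_mul, map_pow]
    exact mul_le_one₀ hn zero_le (pow_le_one₀ zero_le hb)

theorem lt_exp_neg_one_iff792 {y : ℤᵐ⁰} : y < WithZero.exp (-1 : ℤ) ↔ y ≤ WithZero.exp (-2 : ℤ) := by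
  rw [← WithZero.lt_mul_exp_iff_le (by simp), ← WithZero.exp_add]
  norm_num

theorem lt_one_iff792 {y : ℤᵐ⁰} : y < 1 ↔ y ≤ WithZero.exp (-1 : ℤ) := by
  rw [← WithZero.lt_mul_exp_iff_le (by simp), ← WithZero.exp_add]
  norm_num

/-- The hypothesis of inertness, in local form. -/
def LocInert792 (t n : F) : Prop :=
  ∀ a b : F, val a ≤ 1 → val b ≤ 1 → val (nf792 t n a b) ≠ WithZero.exp (-1 : ℤ)

variable {val}

/-- **Anisotropy modulo `ϖ`** at an inert place. -/
theorem aniso_prim792 {t n ϖ : F} (ht : val t ≤ 1) (hn : val n ≤ 1)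
    (hd : val (t ^ 2 - 4 * n) = 1) (hϖ : val ϖ = WithZero.exp (-1 : ℤ))
    (hin : LocInert792 val t n) {a b : F} (ha : val a ≤ 1) (hb : val b ≤ 1)
    (hab : val a = 1 ∨ val b = 1) : val (nf792 t n a b) = 1 := by
  by_contra hne
  have hN1 : val (nf792 t n a b) < 1 := lt_of_le_of_ne (val_nf_le792 val ht hn ha hb) hne
  have hNle : val (nf792 t n a b) ≤ WithZero.exp (-1 : ℤ) := (lt_one_iff792).mp hN1
  have hN2 : val (nf792 t n a b) < WithZero.exp (-1 : ℤ) :=
    lt_of_le_of_ne hNle (hin a b ha hb)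
  have hϖ1 : val ϖ ≤ 1 := by
    rw [hϖ, ← WithZero.exp_zero, WithZero.exp_le_exp]; norm_num
  have h2 : val (2 : F) ≤ 1 := val_two_le792 val
  have h4 : val (4 : F) ≤ 1 := by
    have : (4 : F) = 2 * 2 := by norm_num
    rw [this, map_mul]; exact mul_le_one₀ h2 zero_le h2
  -- the polar form is nondegenerate
  have hu : val (2 * a + t * b) = 1 ∨ val (t * a + 2 * n * b) = 1 := by
    by_contra hcon
    rw [not_or] at hcon
    have hu1 : val (2 * a + t * b) ≤ 1 := by
      refine le_trans (Valuation.map_add _ _ _) (max_le ?_ ?_)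
      · rw [map_mul]; exact mul_le_one₀ h2 zero_le ha
      · rw [map_mul]; exact mul_le_one₀ ht zero_le hb
    have hu2 : val (t * a + 2 * n * b) ≤ 1 := by
      refine le_trans (Valuation.map_add _ _ _) (max_le ?_ ?_)
      · rw [map_mul]; exact mul_le_one₀ ht zero_le ha
      · rw [map_mul, map_mul]; exact mul_le_one₀ (mul_le_one₀ h2 zero_le hn) zero_le hb
    have hu1' : val (2 * a + t * b) < 1 := lt_of_le_of_ne hu1 hcon.1
    have hu2' : val (t * a + 2 * n * b) < 1 := lt_of_le_of_ne hu2 hcon.2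
    have hda : val ((t ^ 2 - 4 * n) * a) < 1 := by
      have e : (t ^ 2 - 4 * n) * a = t * (t * a + 2 * n * b) - 2 * n * (2 * a + t * b) := by ring
      rw [e]
      refine lt_of_le_of_lt (Valuation.map_sub _ _ _) (max_lt ?_ ?_)
      · rw [map_mul]
        exact lt_of_le_of_lt (mul_le_of_le_one_left zero_le ht) hu2'
      · rw [map_mul, map_mul]
        exact lt_of_le_of_lt (mul_le_of_le_one_left zero_le (mul_le_one₀ h2 zero_le hn)) hu1'
    have hdb : val ((t ^ 2 - 4 * n) * b) < 1 := by
      have e : (t ^ 2 - 4 * n) * b = t * (2 * a + t * b) - 2 * (t * a + 2 * n * b) := by ring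
      rw [e]
      refine lt_of_le_of_lt (Valuation.map_sub _ _ _) (max_lt ?_ ?_)
      · rw [map_mul]
        exact lt_of_le_of_lt (mul_le_of_le_one_left zero_le ht) hu1'
      · rw [map_mul]
        exact lt_of_le_of_lt (mul_le_of_le_one_left zero_le h2) hu2'
    rw [map_mul, hd, one_mul] at hda hdb
    rcases hab with h | h
    · exact absurd h hda.ne
    · exact absurd h hdb.ne
  -- the perturbation
  have key : ∀ (a' b' u c : F), val a' ≤ 1 → val b' ≤ 1 → val u = 1 → val c ≤ 1 →
      nf792 t n a' b' = nf792 t n a b + ϖ * u + ϖ ^ 2 * c → False := by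
    intro a' b' u c ha' hb' hu hc e
    apply hin a' b' ha' hb'
    have h1 : val (ϖ * u) = WithZero.exp (-1 : ℤ) := by rw [map_mul, hu, mul_one, hϖ]
    have h2' : val (ϖ ^ 2 * c) < WithZero.exp (-1 : ℤ) := by
      rw [lt_exp_neg_one_iff792, map_mul, map_pow, hϖ, ← WithZero.exp_nsmul]
      refine le_trans (mul_le_of_le_one_right zero_le hc) ?_
      rw [WithZero.exp_le_exp]; norm_num
    have e' : nf792 t n a' b' = ϖ * u + (nf792 t n a b + ϖ ^ 2 * c) := by rw [e]; ring
    rw [e', Valuation.map_add_eq_of_lt_left, h1]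
    rw [h1]
    exact lt_of_le_of_lt (Valuation.map_add _ _ _) (max_lt hN2 h2')
  rcases hu with hu | hu
  · refine key (a + ϖ) b (2 * a + t * b) 1 ?_ hb hu (by simp) (by unfold nf792; ring)
    exact le_trans (Valuation.map_add _ _ _) (max_le ha hϖ1)
  · refine key a (b + ϖ) (t * a + 2 * n * b) n ha ?_ hu hn (by unfold nf792; ring)
    exact le_trans (Valuation.map_add _ _ _) (max_le hb hϖ1)

/-- **The valuation of the norm form** at an inert place. -/
theorem aniso_val792 {t n ϖ : F} (ht : val t ≤ 1) (hn : val n ≤ 1)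
    (hd : val (t ^ 2 - 4 * n) = 1) (hϖ : val ϖ = WithZero.exp (-1 : ℤ))
    (hin : LocInert792 val t n) (a b : F) :
    val (nf792 t n a b) = (max (val a) (val b)) ^ 2 := by
  have main : ∀ a b : F, val b ≤ val a → val (nf792 t n a b) = (val a) ^ 2 ∧
      val (nf792 t n b a) = (val a) ^ 2 := by
    intro a b hba
    by_cases ha0 : a = 0
    · have hb0 : b = 0 := by
        rw [ha0, map_zero, le_zero_iff, map_eq_zero] at hba
        exact hba
      subst ha0; subst hb0
      simp [nf792]
    have hva : val a ≠ 0 := by rwa [Ne, map_eq_zero]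
    have hq : val (b / a) ≤ 1 := by
      rw [map_div₀]; exact div_le_one_of_le₀ hba zero_le
    have h1 : val (1 : F) ≤ 1 := by simp
    have e1 : nf792 t n a b = a ^ 2 * nf792 t n 1 (b / a) := by
      rw [← nf792_smul, mul_one, mul_div_cancel₀ b ha0]
    have e2 : nf792 t n b a = a ^ 2 * nf792 t n (b / a) 1 := by
      rw [← nf792_smul, mul_one, mul_div_cancel₀ b ha0]
    constructor
    · rw [e1, map_mul, map_pow,
        aniso_prim792 ht hn hd hϖ hin h1 hq (Or.inl (map_one _)), mul_one]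
    · rw [e2, map_mul, map_pow,
        aniso_prim792 ht hn hd hϖ hin hq h1 (Or.inr (map_one _)), mul_one]
  rcases le_total (val b) (val a) with h | h
  · rw [max_eq_left h]; exact (main a b h).1
  · rw [max_eq_right h]; exact (main b a h).2

theorem sq_eq_one_iff792 {x : ℤᵐ⁰} : x ^ 2 = 1 ↔ x = 1 := by
  constructor
  · intro h
    rcases lt_trichotomy x 1 with hx | hx | hx
    · exfalso
      have : x ^ 2 < 1 := pow_lt_one₀ zero_le hx (by norm_num)
      exact this.ne h
    · exact hx
    · exfalso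
      have : 1 < x ^ 2 := one_lt_pow₀ hx (by norm_num)
      exact this.ne' h
  · intro h; rw [h, one_pow]

/-- An element of the local torus of norm a unit is integral. -/
theorem aniso_int792 {t n ϖ : F} (ht : val t ≤ 1) (hn : val n ≤ 1)
    (hd : val (t ^ 2 - 4 * n) = 1) (hϖ : val ϖ = WithZero.exp (-1 : ℤ))
    (hin : LocInert792 val t n) {a b : F} (h : val (nf792 t n a b) = 1) :
    val a ≤ 1 ∧ val b ≤ 1 := by
  rw [aniso_val792 ht hn hd hϖ hin a b, sq_eq_one_iff792] at h
  exact ⟨h ▸ le_max_left _ _, h ▸ le_max_right _ _⟩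

/-- The norm of an element of the local torus has even valuation. -/
theorem aniso_even792 {t n ϖ : F} (ht : val t ≤ 1) (hn : val n ≤ 1)
    (hd : val (t ^ 2 - 4 * n) = 1) (hϖ : val ϖ = WithZero.exp (-1 : ℤ))
    (hin : LocInert792 val t n) {a b : F} {j : ℤ}
    (h : val (nf792 t n a b) = WithZero.exp j) : Even j := by
  rw [aniso_val792 ht hn hd hϖ hin a b] at h
  set x : ℤᵐ⁰ := max (val a) (val b) with hx
  have hx0 : x ≠ 0 := by
    intro h0
    rw [h0] at h
    simp only [ne_eq, OfNat.ofNat_ne_zero, not_false_eq_true, zero_pow] at h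
    exact WithZero.exp_ne_zero h.symm
  obtain ⟨k, hk⟩ : ∃ k : ℤ, x = WithZero.exp k := ⟨WithZero.log x, (WithZero.exp_log hx0).symm⟩
  rw [hk, ← WithZero.exp_nsmul, WithZero.exp_inj] at h
  exact ⟨k, by rw [← h]; simp [two_mul]⟩

end Fermat.Agent.LT.A2.H792

end
-- ===== PACK-END LT/A2/H792/Aniso.lean

-- ===== PACK-BEGIN LT/A2/H139/GaussDen.lean
section


/-!
# Row LT, tower A2, sub-leaf A2.03.4.2 (GaussSumC), part 1: bounded denominators (helper139)

OFF-MAIN.  Mathlib only.  A compact set of finite adeles has bounded denominators: there is a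
positive integer `M` with `M x` integral at every finite place for all `x` in the set
(`exists_den_of_isCompact139`); a rational `ξ` whose finite adele has denominator dividing `M`
is `a / M` with `a` in the ring of integers (`exists_int_of_mem_denSet139`).
-/

set_option autoImplicit false

open IsDedekindDomain NumberField
open scoped RestrictedProduct

noncomputable section

namespace Fermat.Agent.LT.A2.H139

variable (K : Type) [Field K] [NumberField K]

/-- The integral finite adeles. -/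
def intAdele139 : Set (FiniteAdeleRing (𝓞 K) K) :=
  {x | ∀ v : HeightOneSpectrum (𝓞 K), x v ∈ v.adicCompletionIntegers K}

/-- The finite adeles with denominator dividing `M`. -/
def denSet139 (M : ℕ) : Set (FiniteAdeleRing (𝓞 K) K) :=
  {x | (M : FiniteAdeleRing (𝓞 K) K) * x ∈ intAdele139 K}

theorem mem_denSet139 (M : ℕ) (x : FiniteAdeleRing (𝓞 K) K) :
    x ∈ denSet139 K M ↔
      ∀ v : HeightOneSpectrum (𝓞 K), (M : v.adicCompletion K) * x v ∈ v.adicCompletionIntegers K :=
  Iff.rfl

theorem natCast_coe139 (v : HeightOneSpectrum (𝓞 K)) (n : ℕ) :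
    (n : v.adicCompletion K) = ((n : K) : v.adicCompletion K) :=
  (map_natCast (algebraMap K (v.adicCompletion K)) n).symm

theorem valued_natCast_absNorm_lt_one139 (v : HeightOneSpectrum (𝓞 K)) :
    Valued.v ((Ideal.absNorm v.asIdeal : ℕ) : v.adicCompletion K) < 1 := by
  rw [natCast_coe139, HeightOneSpectrum.valuedAdicCompletion_eq_valuation',
    ← map_natCast (algebraMap (𝓞 K) K), HeightOneSpectrum.valuation_lt_one_iff_mem]
  exact Ideal.absNorm_mem _

theorem exists_nat_mul_mem139 (v : HeightOneSpectrum (𝓞 K)) (y : v.adicCompletion K) :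
    ∃ m : ℕ, m ≠ 0 ∧ (m : v.adicCompletion K) * y ∈ v.adicCompletionIntegers K := by
  by_cases hy : y = 0
  · exact ⟨1, one_ne_zero, by simp [hy]⟩
  have hp0 : Ideal.absNorm v.asIdeal ≠ 0 := by
    rw [Ne, Ideal.absNorm_eq_zero_iff]
    exact v.ne_bot
  have hvy : Valued.v y ≠ 0 := by
    rwa [Ne, Valuation.zero_iff]
  obtain ⟨n, hn⟩ := exists_pow_lt₀ (valued_natCast_absNorm_lt_one139 K v) (Units.mk0 _ hvy)⁻¹
  refine ⟨Ideal.absNorm v.asIdeal ^ n, pow_ne_zero _ hp0, ?_⟩
  rw [HeightOneSpectrum.mem_adicCompletionIntegers]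
  push_cast
  rw [map_mul, map_pow]
  have h2 : Valued.v ((Ideal.absNorm v.asIdeal : ℕ) : v.adicCompletion K) ^ n * Valued.v y
      < ((Units.mk0 _ hvy)⁻¹ : (WithZero (Multiplicative ℤ))ˣ) * Valued.v y :=
    mul_lt_mul_of_pos_right hn (zero_lt_iff.mpr hvy)
  have h3 : (((Units.mk0 _ hvy)⁻¹ : (WithZero (Multiplicative ℤ))ˣ) : WithZero (Multiplicative ℤ))
      * Valued.v y = 1 := by
    rw [Units.val_inv_eq_inv_val, Units.val_mk0]
    exact inv_mul_cancel₀ hvy
  rw [h3] at h2
  exact h2.le

theorem denSet_mono139 {M M' : ℕ} (h : M ∣ M') : denSet139 K M ⊆ denSet139 K M' := by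
  obtain ⟨c, rfl⟩ := h
  intro x hx
  rw [mem_denSet139] at hx ⊢
  intro v
  have h1 : ((M * c : ℕ) : v.adicCompletion K) * x v
      = (c : v.adicCompletion K) * ((M : v.adicCompletion K) * x v) := by
    push_cast
    ring
  rw [h1]
  exact mul_mem (natCast_mem _ c) (hx v)

theorem exists_den139 (x : FiniteAdeleRing (𝓞 K) K) : ∃ M : ℕ, M ≠ 0 ∧ x ∈ denSet139 K M := by
  classical
  have hfin : {v : HeightOneSpectrum (𝓞 K) | x v ∉ v.adicCompletionIntegers K}.Finite := by
    have := x.2
    rwa [Filter.eventually_cofinite] at this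
  choose m hm0 hm using fun v : HeightOneSpectrum (𝓞 K) => exists_nat_mul_mem139 K v (x v)
  refine ⟨∏ v ∈ hfin.toFinset, m v, Finset.prod_ne_zero_iff.mpr fun v _ => hm0 v, ?_⟩
  rw [mem_denSet139]
  intro w
  by_cases hw : x w ∈ w.adicCompletionIntegers K
  · exact mul_mem (natCast_mem _ _) hw
  · have hwT : w ∈ hfin.toFinset := by
      rw [Set.Finite.mem_toFinset]
      exact hw
    have h1 : ((∏ v ∈ hfin.toFinset, m v : ℕ) : w.adicCompletion K) * x w
        = ((∏ v ∈ hfin.toFinset.erase w, m v : ℕ) : w.adicCompletion K)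
          * ((m w : w.adicCompletion K) * x w) := by
      rw [← Finset.mul_prod_erase _ _ hwT]
      push_cast
      ring
    rw [h1]
    exact mul_mem (natCast_mem _ _) (hm w)

theorem isOpen_intAdele139 : IsOpen (intAdele139 K) := by
  have h : ∀ v : HeightOneSpectrum (𝓞 K),
      IsOpen (v.adicCompletionIntegers K : Set (v.adicCompletion K)) :=
    fun _ => Valued.isOpen_valuationSubring _
  exact RestrictedProduct.isOpen_forall_mem h

theorem isOpen_denSet139 (M : ℕ) : IsOpen (denSet139 K M) :=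
  (isOpen_intAdele139 K).preimage (continuous_const.mul continuous_id)

/-- **Bounded denominators**: a compact set of finite adeles is contained in `M⁻¹ ∏ 𝒪_v`. -/
theorem exists_den_of_isCompact139 (C : Set (FiniteAdeleRing (𝓞 K) K)) (hC : IsCompact C) :
    ∃ M : ℕ, M ≠ 0 ∧ C ⊆ denSet139 K M := by
  classical
  obtain ⟨t, ht⟩ := hC.elim_finite_subcover (fun i : ℕ => denSet139 K (i + 1))
    (fun i => isOpen_denSet139 K (i + 1)) (by
      intro x _
      obtain ⟨M, hM0, hM⟩ := exists_den139 K x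
      rw [Set.mem_iUnion]
      refine ⟨M - 1, ?_⟩
      rwa [Nat.sub_add_cancel (Nat.one_le_iff_ne_zero.mpr hM0)])
  refine ⟨∏ i ∈ t, (i + 1), Finset.prod_ne_zero_iff.mpr fun i _ => Nat.succ_ne_zero i, ?_⟩
  intro x hx
  obtain ⟨i, hi, hxi⟩ : ∃ i ∈ t, x ∈ denSet139 K (i + 1) := by
    have := ht hx
    simpa [Set.mem_iUnion] using this
  exact denSet_mono139 K (Finset.dvd_prod_of_mem _ hi) hxi

/-- A rational number whose finite adele has denominator dividing `M` is `a / M` with `a`
integral. -/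
theorem exists_int_of_mem_denSet139 {M : ℕ} (ξ : K)
    (h : algebraMap K (FiniteAdeleRing (𝓞 K) K) ξ ∈ denSet139 K M) :
    ∃ a : 𝓞 K, (a : K) = (M : K) * ξ := by
  have h1 : ∀ v : HeightOneSpectrum (𝓞 K), v.valuation K ((M : K) * ξ) ≤ 1 := by
    intro v
    have h2 := (mem_denSet139 K M _).mp h v
    rw [HeightOneSpectrum.mem_adicCompletionIntegers, FiniteAdeleRing.algebraMap_apply,
      natCast_coe139, ← HeightOneSpectrum.adicCompletion.coe_mul,
      HeightOneSpectrum.valuedAdicCompletion_eq_valuation'] at h2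
    exact h2
  obtain ⟨a, ha⟩ := HeightOneSpectrum.mem_integers_of_valuation_le_one K _ h1
  exact ⟨a, ha⟩

end Fermat.Agent.LT.A2.H139

end
end
-- ===== PACK-END LT/A2/H139/GaussDen.lean

-- ===== PACK-BEGIN LT/T1/H619/QuadAlg.lean
section


/-!
# Row LT, tower T1, sub-leaf T1.20 (helper619): the algebra `R[γ]` of a `2 × 2` matrix

OFF-MAIN.  Mathlib only.

For a commutative ring `R` and `γ ∈ M₂(R)`, `QA619 R γ` is `R × R` with the multiplication of
`R[X]/(X² - tr(γ) X + det(γ))` (`(p, q) ↔ p + q γ`), the product topology, and the ring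
homomorphism `emb619 γ : QA619 R γ →+* M₂(R)`, `(p, q) ↦ p + q γ`.

* `exists_emb619_eq_of_commute` : if `γ₁₀` is invertible, every matrix commuting with `γ` is in
  the image of `emb619 γ`;
* `emb619_injective` : if `γ₁₀` is invertible, `emb619 γ` is injective;
* `exists_mul_eq_one619` : over a field, if the characteristic polynomial of `γ` is irreducible,
  every nonzero element of `QA619 K γ` is invertible;
* `map619 f` : base change along `f : R →+* S`.
-/

set_option autoImplicit false

namespace Fermat.Agent.LT.T1.H619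

open Matrix

/-- `R[γ] = R ⊕ R γ` as a type: pairs `(p, q) ↔ p + q γ`. -/
def QA619 (R : Type*) [CommRing R] (_γ : Matrix (Fin 2) (Fin 2) R) : Type _ := R × R

section Ring

variable {R : Type*} [CommRing R] (γ : Matrix (Fin 2) (Fin 2) R)

instance instAddCommGroupQA619 : AddCommGroup (QA619 R γ) :=
  inferInstanceAs (AddCommGroup (R × R))

instance instMulQA619 : Mul (QA619 R γ) :=
  ⟨fun x y => ((x.1 * y.1 - x.2 * y.2 * γ.det : R),
    (x.1 * y.2 + x.2 * y.1 + x.2 * y.2 * γ.trace : R))⟩

instance instOneQA619 : One (QA619 R γ) := ⟨((1 : R), (0 : R))⟩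

@[ext] lemma QA619.ext {x y : QA619 R γ} (h1 : x.1 = y.1) (h2 : x.2 = y.2) : x = y :=
  Prod.ext h1 h2

@[simp] lemma QA619.mul_fst (x y : QA619 R γ) :
    (x * y).1 = x.1 * y.1 - x.2 * y.2 * γ.det := rfl
@[simp] lemma QA619.mul_snd (x y : QA619 R γ) :
    (x * y).2 = x.1 * y.2 + x.2 * y.1 + x.2 * y.2 * γ.trace := rfl
@[simp] lemma QA619.one_fst : (1 : QA619 R γ).1 = 1 := rfl
@[simp] lemma QA619.one_snd : (1 : QA619 R γ).2 = 0 := rfl
@[simp] lemma QA619.zero_fst : (0 : QA619 R γ).1 = 0 := rfl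
@[simp] lemma QA619.zero_snd : (0 : QA619 R γ).2 = 0 := rfl
@[simp] lemma QA619.add_fst (x y : QA619 R γ) : (x + y).1 = x.1 + y.1 := rfl
@[simp] lemma QA619.add_snd (x y : QA619 R γ) : (x + y).2 = x.2 + y.2 := rfl
@[simp] lemma QA619.sub_fst (x y : QA619 R γ) : (x - y).1 = x.1 - y.1 := rfl
@[simp] lemma QA619.sub_snd (x y : QA619 R γ) : (x - y).2 = x.2 - y.2 := rfl
@[simp] lemma QA619.neg_fst (x : QA619 R γ) : (-x).1 = -x.1 := rfl
@[simp] lemma QA619.neg_snd (x : QA619 R γ) : (-x).2 = -x.2 := rfl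

instance instCommRingQA619 : CommRing (QA619 R γ) :=
  { instAddCommGroupQA619 γ with
    mul := (· * ·)
    one := 1
    left_distrib := fun x y z => by ext <;> simp <;> ring
    right_distrib := fun x y z => by ext <;> simp <;> ring
    zero_mul := fun x => by ext <;> simp
    mul_zero := fun x => by ext <;> simp
    mul_assoc := fun x y z => by ext <;> simp <;> ring
    one_mul := fun x => by ext <;> simp
    mul_one := fun x => by ext <;> simp
    mul_comm := fun x y => by ext <;> simp <;> ring }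

/-- The scalars `R → R[γ]`. -/
def scal619 : R →+* QA619 R γ where
  toFun c := ((c, 0) : R × R)
  map_one' := rfl
  map_mul' x y := by
    refine Prod.ext ?_ ?_
    · change x * y = x * y - 0 * 0 * γ.det
      ring
    · change (0 : R) = x * 0 + 0 * y + 0 * 0 * γ.trace
      ring
  map_zero' := rfl
  map_add' x y := by
    refine Prod.ext ?_ ?_
    · rfl
    · change (0 : R) = 0 + 0
      ring

@[simp] lemma scal619_fst (c : R) : (scal619 γ c).1 = c := rfl
@[simp] lemma scal619_snd (c : R) : (scal619 γ c).2 = 0 := rfl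

/-- `(p, q) ↦ p + q γ`. -/
def emb619 : QA619 R γ →+* Matrix (Fin 2) (Fin 2) R where
  toFun x := !![x.1 + x.2 * γ 0 0, x.2 * γ 0 1; x.2 * γ 1 0, x.1 + x.2 * γ 1 1]
  map_one' := by
    ext i j; fin_cases i <;> fin_cases j <;> simp
  map_mul' x y := by
    ext i j
    fin_cases i <;> fin_cases j <;>
      simp [Matrix.mul_apply, Fin.sum_univ_two, Matrix.det_fin_two, Matrix.trace_fin_two] <;>
      ring
  map_zero' := by
    ext i j; fin_cases i <;> fin_cases j <;> simp
  map_add' x y := by
    ext i j; fin_cases i <;> fin_cases j <;> simp <;> ring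

lemma emb619_apply (x : QA619 R γ) :
    emb619 γ x = !![x.1 + x.2 * γ 0 0, x.2 * γ 0 1; x.2 * γ 1 0, x.1 + x.2 * γ 1 1] := rfl

@[simp] lemma emb619_apply_zero_zero (x : QA619 R γ) :
    emb619 γ x 0 0 = x.1 + x.2 * γ 0 0 := rfl
@[simp] lemma emb619_apply_zero_one (x : QA619 R γ) :
    emb619 γ x 0 1 = x.2 * γ 0 1 := rfl
@[simp] lemma emb619_apply_one_zero (x : QA619 R γ) :
    emb619 γ x 1 0 = x.2 * γ 1 0 := rfl
@[simp] lemma emb619_apply_one_one (x : QA619 R γ) :
    emb619 γ x 1 1 = x.1 + x.2 * γ 1 1 := rfl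

lemma emb619_scal (c : R) : emb619 γ (scal619 γ c) = Matrix.diagonal fun _ => c := by
  ext i j; fin_cases i <;> fin_cases j <;> simp

/-- The image of `emb619` commutes with `γ`. -/
lemma emb619_mul_comm (x : QA619 R γ) : emb619 γ x * γ = γ * emb619 γ x := by
  ext i j
  fin_cases i <;> fin_cases j <;>
    simp [emb619_apply, Matrix.mul_apply, Fin.sum_univ_two] <;> ring

/-- If `γ₁₀` is invertible, the centraliser of `γ` in `M₂(R)` is the image of `emb619 γ`. -/
lemma exists_emb619_eq_of_commute {c' : R} (hc : γ 1 0 * c' = 1)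
    (X : Matrix (Fin 2) (Fin 2) R) (hX : X * γ = γ * X) :
    ∃ x : QA619 R γ, emb619 γ x = X := by
  have h00 := congrFun (congrFun hX 0) 0
  have h10 := congrFun (congrFun hX 1) 0
  simp only [Matrix.mul_apply, Fin.sum_univ_two] at h00 h10
  refine ⟨((X 0 0 - X 1 0 * c' * γ 0 0, X 1 0 * c') : R × R), ?_⟩
  ext i j
  fin_cases i <;> fin_cases j
  · change (X 0 0 - X 1 0 * c' * γ 0 0) + X 1 0 * c' * γ 0 0 = X 0 0
    ring
  · change X 1 0 * c' * γ 0 1 = X 0 1
    linear_combination (X 0 1) * hc - c' * h00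
  · change X 1 0 * c' * γ 1 0 = X 1 0
    linear_combination (X 1 0) * hc
  · change (X 0 0 - X 1 0 * c' * γ 0 0) + X 1 0 * c' * γ 1 1 = X 1 1
    linear_combination (X 1 1 - X 0 0) * hc - c' * h10

/-- If `γ₁₀` is invertible, `emb619 γ` is injective. -/
lemma emb619_injective {c' : R} (hc : γ 1 0 * c' = 1) : Function.Injective (emb619 γ) := by
  rw [injective_iff_map_eq_zero]
  intro x hx
  have h10 : x.2 * γ 1 0 = 0 := by
    have := congrFun (congrFun hx 1) 0
    simpa using this
  have h00 : x.1 + x.2 * γ 0 0 = 0 := by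
    have := congrFun (congrFun hx 0) 0
    simpa using this
  have h2 : x.2 = 0 := by linear_combination c' * h10 - x.2 * hc
  have h1 : x.1 = 0 := by rw [h2] at h00; simpa using h00
  ext
  · exact h1
  · exact h2

end Ring

section Map

variable {R S : Type*} [CommRing R] [CommRing S] (f : R →+* S) (γ : Matrix (Fin 2) (Fin 2) R)

/-- Base change `R[γ] → S[f(γ)]`. -/
def map619 : QA619 R γ →+* QA619 S (γ.map f) where
  toFun x := ((f x.1, f x.2) : S × S)
  map_one' := by
    refine Prod.ext ?_ ?_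
    · change f 1 = 1
      exact map_one f
    · change f 0 = 0
      exact map_zero f
  map_mul' x y := by
    refine Prod.ext ?_ ?_
    · change f (x.1 * y.1 - x.2 * y.2 * γ.det) = f x.1 * f y.1 - f x.2 * f y.2 * (γ.map f).det
      simp [Matrix.det_fin_two]
    · change f (x.1 * y.2 + x.2 * y.1 + x.2 * y.2 * γ.trace)
        = f x.1 * f y.2 + f x.2 * f y.1 + f x.2 * f y.2 * (γ.map f).trace
      simp [Matrix.trace_fin_two]
  map_zero' := by
    refine Prod.ext ?_ ?_
    · change f 0 = 0
      exact map_zero f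
    · change f 0 = 0
      exact map_zero f
  map_add' x y := by
    refine Prod.ext ?_ ?_
    · change f (x.1 + y.1) = f x.1 + f y.1
      exact map_add f _ _
    · change f (x.2 + y.2) = f x.2 + f y.2
      exact map_add f _ _

@[simp] lemma map619_fst (x : QA619 R γ) : (map619 f γ x).1 = f x.1 := rfl
@[simp] lemma map619_snd (x : QA619 R γ) : (map619 f γ x).2 = f x.2 := rfl

lemma map619_injective (hf : Function.Injective f) : Function.Injective (map619 f γ) := by
  intro x y h
  ext
  · exact hf (congrArg Prod.fst h)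
  · exact hf (congrArg Prod.snd h)

lemma emb619_map619 (x : QA619 R γ) :
    emb619 (γ.map f) (map619 f γ x) = (emb619 γ x).map f := by
  ext i j
  fin_cases i <;> fin_cases j <;> simp [emb619_apply]

end Map

section Field

variable {K : Type*} [Field K] (γ : Matrix (Fin 2) (Fin 2) K)

/-- An irreducible characteristic polynomial of a `2 × 2` matrix has no root. -/
lemma charpoly_eval_ne_zero619 (hγ : Irreducible γ.charpoly) (x : K) :
    x ^ 2 - γ.trace * x + γ.det ≠ 0 := by
  intro h
  have hroot : γ.charpoly.IsRoot x := by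
    rw [Polynomial.IsRoot, Matrix.charpoly_fin_two]
    simpa using h
  have hdeg := Polynomial.degree_eq_one_of_irreducible_of_root hγ hroot
  rw [Matrix.charpoly_degree_eq_dim] at hdeg
  simp at hdeg

/-- The lower left entry of a `2 × 2` matrix with irreducible characteristic polynomial is
nonzero. -/
lemma apply_one_zero_ne_zero619 (hγ : Irreducible γ.charpoly) : γ 1 0 ≠ 0 := by
  intro h
  refine charpoly_eval_ne_zero619 γ hγ (γ 0 0) ?_
  rw [Matrix.det_fin_two, Matrix.trace_fin_two, h]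
  ring

/-- Over a field, `K[γ]` is a field when the characteristic polynomial is irreducible. -/
lemma exists_mul_eq_one619 (hγ : Irreducible γ.charpoly) (x : QA619 K γ) (hx : x ≠ 0) :
    ∃ y : QA619 K γ, x * y = 1 := by
  set N : K := x.1 ^ 2 + x.1 * x.2 * γ.trace + x.2 ^ 2 * γ.det with hN
  have hN0 : N ≠ 0 := by
    by_cases hq : x.2 = 0
    · have hp : x.1 ≠ 0 := fun hp => hx (QA619.ext γ hp hq)
      rw [hN, hq]
      simpa using hp
    · intro h0
      refine charpoly_eval_ne_zero619 γ hγ (-x.1 / x.2) ?_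
      field_simp
      rw [hN] at h0
      linear_combination h0
  refine ⟨(((x.1 + x.2 * γ.trace) / N, -x.2 / N) : K × K), ?_⟩
  ext
  · change x.1 * ((x.1 + x.2 * γ.trace) / N) - x.2 * (-x.2 / N) * γ.det = 1
    field_simp
    rw [hN]; ring
  · change x.1 * (-x.2 / N) + x.2 * ((x.1 + x.2 * γ.trace) / N) + x.2 * (-x.2 / N) * γ.trace = 0
    field_simp
    ring

end Field

section Topology

variable {R : Type*} [CommRing R] [TopologicalSpace R] (γ : Matrix (Fin 2) (Fin 2) R)

instance instTopologicalSpaceQA619 : TopologicalSpace (QA619 R γ) :=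
  inferInstanceAs (TopologicalSpace (R × R))

instance instIsTopologicalRingQA619 [IsTopologicalRing R] : IsTopologicalRing (QA619 R γ) where
  continuous_add := (inferInstance : ContinuousAdd (R × R)).continuous_add
  continuous_neg := (inferInstance : ContinuousNeg (R × R)).continuous_neg
  continuous_mul := by
    have h1 : Continuous fun p : (R × R) × (R × R) =>
        (p.1.1 * p.2.1 - p.1.2 * p.2.2 * γ.det : R) := by fun_prop
    have h2 : Continuous fun p : (R × R) × (R × R) =>
        (p.1.1 * p.2.2 + p.1.2 * p.2.1 + p.1.2 * p.2.2 * γ.trace : R) := by fun_prop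
    exact h1.prodMk h2

instance instLocallyCompactSpaceQA619 [LocallyCompactSpace R] :
    LocallyCompactSpace (QA619 R γ) :=
  inferInstanceAs (LocallyCompactSpace (R × R))

instance instT2SpaceQA619 [T2Space R] : T2Space (QA619 R γ) :=
  inferInstanceAs (T2Space (R × R))

instance instSecondCountableTopologyQA619 [SecondCountableTopology R] :
    SecondCountableTopology (QA619 R γ) :=
  inferInstanceAs (SecondCountableTopology (R × R))

lemma continuous_emb619 [IsTopologicalRing R] : Continuous (emb619 γ) := by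
  refine continuous_matrix fun i j => ?_
  have hfst : Continuous fun x : QA619 R γ => (x.1 : R) := continuous_fst
  have hsnd : Continuous fun x : QA619 R γ => (x.2 : R) := continuous_snd
  fin_cases i <;> fin_cases j
  · exact hfst.add (hsnd.mul continuous_const)
  · exact hsnd.mul continuous_const
  · exact hsnd.mul continuous_const
  · exact hfst.add (hsnd.mul continuous_const)

lemma continuous_scal619 : Continuous (scal619 γ) :=
  Continuous.prodMk continuous_id continuous_const

end Topology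

end Fermat.Agent.LT.T1.H619

end
-- ===== PACK-END LT/T1/H619/QuadAlg.lean

-- ===== PACK-BEGIN LT/T1/H729/IwasawaLocal.lean
section


/-!
# Row LT, tower T1 (volunteer helper729): local Iwasawa decompositions for `GL₂`, Mathlib only

OFF-MAIN.  Pure algebra, no definitions of ours beyond two small predicates.

* `exists_sl2_integral_kill729` : for a field `k` with a valuation subring `O` and a row `(c, d)`
  there is `κ ∈ SL₂(O)` with `(c, d) κ = (0, *)`.
* `exists_su2_kill729` : for a row `(c, d)` of complex numbers there is a unitary matrix `κ` of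
  determinant one, with entries in any subfield-like set `S ⊆ ℂ` stable under conjugation and
  containing the real numbers and `c`, `d`, such that `(c, d) κ = (0, *)`.
-/

set_option autoImplicit false

namespace Fermat.Agent.LT.T1.H729

open Matrix

/-- Non-archimedean local step of the Iwasawa decomposition: a row `(c, d)` over the fraction
field of a valuation ring `O` is moved to `(0, *)` by a matrix of `SL₂(O)`. -/
theorem exists_sl2_integral_kill729 {k : Type*} [Field k] (O : ValuationSubring k) (c d : k) :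
    ∃ p q r s : k, p ∈ O ∧ q ∈ O ∧ r ∈ O ∧ s ∈ O ∧ p * s - q * r = 1 ∧ c * p + d * r = 0 := by
  by_cases hc : c = 0
  · exact ⟨1, 0, 0, 1, O.one_mem, O.zero_mem, O.zero_mem, O.one_mem, by simp, by simp [hc]⟩
  by_cases hd : d = 0
  · exact ⟨0, -1, 1, 0, O.zero_mem, O.neg_mem _ O.one_mem, O.one_mem, O.zero_mem, by simp,
      by simp [hd]⟩
  rcases O.mem_or_inv_mem (d / c) with h | h
  · refine ⟨-(d / c), -1, 1, 0, O.neg_mem _ h, O.neg_mem _ O.one_mem, O.one_mem, O.zero_mem,
      by simp, ?_⟩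
    field_simp
    ring
  · have h' : c / d ∈ O := by simpa [inv_div] using h
    refine ⟨1, 0, -(c / d), 1, O.one_mem, O.zero_mem, O.neg_mem _ h', O.one_mem, by simp, ?_⟩
    field_simp
    ring

/-- Archimedean local step of the Iwasawa decomposition: a non-zero row `(c, d)` of complex
numbers is moved to `(0, *)` by a special unitary matrix `!![p, q; r, s]`; its entries are
`d / ρ`, `conj c / ρ`, `- c / ρ`, `conj d / ρ` with `ρ = √(|c|² + |d|²)`. -/
theorem exists_su2_kill729 (c d : ℂ) (h : c ≠ 0 ∨ d ≠ 0) :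
    ∃ ρ : ℝ, 0 < ρ ∧
      (!![d / ρ, (starRingEnd ℂ) c / ρ; -c / ρ, (starRingEnd ℂ) d / ρ] : Matrix (Fin 2) (Fin 2) ℂ) *
        (!![d / ρ, (starRingEnd ℂ) c / ρ; -c / ρ, (starRingEnd ℂ) d / ρ] :
          Matrix (Fin 2) (Fin 2) ℂ).conjTranspose = 1 ∧
      (!![d / ρ, (starRingEnd ℂ) c / ρ; -c / ρ, (starRingEnd ℂ) d / ρ] :
          Matrix (Fin 2) (Fin 2) ℂ).det = 1 ∧
      c * (d / ρ) + d * (-c / ρ) = 0 := by
  have hpos : 0 < Complex.normSq c + Complex.normSq d := by
    rcases h with h | h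
    · have := Complex.normSq_pos.mpr h
      have := Complex.normSq_nonneg d
      linarith
    · have := Complex.normSq_pos.mpr h
      have := Complex.normSq_nonneg c
      linarith
  set ρ : ℝ := Real.sqrt (Complex.normSq c + Complex.normSq d) with hρ
  have hρpos : 0 < ρ := Real.sqrt_pos.mpr hpos
  have hρ2 : ρ * ρ = Complex.normSq c + Complex.normSq d := Real.mul_self_sqrt hpos.le
  have hρC : (ρ : ℂ) ≠ 0 := by exact_mod_cast hρpos.ne'
  have hρ2C : (ρ : ℂ) * ρ = c * (starRingEnd ℂ) c + d * (starRingEnd ℂ) d := by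
    rw [Complex.mul_conj, Complex.mul_conj]
    exact_mod_cast hρ2
  have hconjρ : (starRingEnd ℂ) (ρ : ℂ) = ρ := Complex.conj_ofReal ρ
  refine ⟨ρ, hρpos, ?_, ?_, ?_⟩
  · ext i j
    fin_cases i <;> fin_cases j <;>
      simp [Matrix.mul_apply, Fin.sum_univ_two, Matrix.conjTranspose_apply, hconjρ] <;>
      field_simp <;>
      first
        | ring1
        | linear_combination hρ2C
        | linear_combination (-1 : ℂ) * hρ2C
  · rw [Matrix.det_fin_two_of]
    field_simp
    first
      | linear_combination hρ2C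
      | linear_combination (-1 : ℂ) * hρ2C
  · field_simp
    ring

/-- The unitary matrix of the archimedean Iwasawa step, in the form used for `κ` itself:
`κ = ρ⁻¹ !![conj d, - conj c; c, d]` is special unitary when `ρ² = |c|² + |d|²`. -/
theorem su2_of_row729 (c d : ℂ) (ρ : ℝ) (hρC : (ρ : ℂ) ≠ 0)
    (hρ2C : (ρ : ℂ) * ρ = c * (starRingEnd ℂ) c + d * (starRingEnd ℂ) d) :
    (!![(starRingEnd ℂ) d / ρ, -(starRingEnd ℂ) c / ρ; c / ρ, d / ρ] : Matrix (Fin 2) (Fin 2) ℂ) *
        (!![(starRingEnd ℂ) d / ρ, -(starRingEnd ℂ) c / ρ; c / ρ, d / ρ] :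
          Matrix (Fin 2) (Fin 2) ℂ).conjTranspose = 1 ∧
      (!![(starRingEnd ℂ) d / ρ, -(starRingEnd ℂ) c / ρ; c / ρ, d / ρ] :
          Matrix (Fin 2) (Fin 2) ℂ).det = 1 := by
  have hconjρ : (starRingEnd ℂ) (ρ : ℂ) = ρ := Complex.conj_ofReal ρ
  refine ⟨?_, ?_⟩
  · ext i j
    fin_cases i <;> fin_cases j <;>
      simp [Matrix.mul_apply, Fin.sum_univ_two, Matrix.conjTranspose_apply, hconjρ] <;>
      field_simp <;>
      first
        | ring1
        | linear_combination hρ2C
        | linear_combination (-1 : ℂ) * hρ2C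
  · rw [Matrix.det_fin_two_of]
    field_simp
    first
      | linear_combination hρ2C
      | linear_combination (-1 : ℂ) * hρ2C

/-- Existence of the radius `ρ` for a non-zero row. -/
theorem exists_radius729 (c d : ℂ) (h : c ≠ 0 ∨ d ≠ 0) :
    ∃ ρ : ℝ, 0 < ρ ∧ (ρ : ℂ) * ρ = c * (starRingEnd ℂ) c + d * (starRingEnd ℂ) d := by
  have hpos : 0 < Complex.normSq c + Complex.normSq d := by
    rcases h with h | h
    · have := Complex.normSq_pos.mpr h
      have := Complex.normSq_nonneg d
      linarith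
    · have := Complex.normSq_pos.mpr h
      have := Complex.normSq_nonneg c
      linarith
  refine ⟨Real.sqrt (Complex.normSq c + Complex.normSq d), Real.sqrt_pos.mpr hpos, ?_⟩
  rw [Complex.mul_conj, Complex.mul_conj]
  exact_mod_cast Real.mul_self_sqrt hpos.le

end Fermat.Agent.LT.T1.H729

end
-- ===== PACK-END LT/T1/H729/IwasawaLocal.lean

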