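import Mathlib
import Fermat.Prelude.Def_AutomorphicForm_HeckeEigensystem
import Fermat.Prelude.Def_FLTPrelim_Modularity
import Mathlib.Analysis.Fourier.PoissonSummation
import Mathlib.MeasureTheory.Group.FundamentalDomain
import Mathlib.Topology.ContinuousMap.StoneWeierstrass
import Mathlib.Topology.Algebra.Group.Quotient
import Fermat.Agent.Pack.L1B.E6L0

set_option linter.all false

-- ===== PACK-BEGIN LT/H556/A0.lean
section




/-!
# Row LT, WALL block A0 (helper556, WALL-ARCH chief): THE NOTION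

OFF-MAIN.  Definitions only (no `sorry`, no opaque constant, nothing assumed).

`notion556 : AutomorphicForm.CuspidalityNotion ℂ` is the notion of *cuspidal automorphic Hecke
eigensystem of `GL₂` over a number field `K`, archimedean type included*, against which the leaves
of the WALL (`SEED` over `E`, `DESC3` for `E/F`, `DESC2` for `F/ℚ`, `PAR`, `DICT`) are to be
stated.  `IsCusp K π` holds when ONE of the following holds.

* `IsCuspAdelicSph0 K π` -- there is a function `φ` on `GL₂(𝔸_K)` which is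
  continuous, bounded, not identically zero, left invariant under `GL₂(K)`, right invariant under
  the principal congruence subgroup `U(𝔫)` of level `𝔫 = π.level` (trivial at the infinite places),
  right invariant under the positive real scalars and under the maximal connected compact subgroup
  at every infinite place (`U(2)` at a complex place, `SO(2)` at a real place), SPHERICAL OF
  PARAMETER ZERO at every infinite place (mean-value property with the spherical function of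
  parameter `0`: `d / sinh d` on `ℍ³`, the Legendre function `P_{-1/2}(cosh t)` on `ℍ²`; this is
  the derivative-free form of "eigenfunction of the Laplacian with eigenvalue `1`, resp. `1/4`"),
  CUSPIDAL (the constant term along the upper unipotent vanishes), and a HECKE EIGENFUNCTION at
  every finite place `v ∤ 𝔫` with `T_v φ = √q_v · π.a v · φ` and `φ(g ϖ_v) = π.b v · φ(g)`.
  So `π.a v = α_v + β_v`, `π.b v = α_v β_v` for the Satake parameters in the UNITARY (= Artin)
  normalisation, as in `AutomorphicForm.IsBaseChangeAt`.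
  Mathematically: `π` is the eigensystem of a cuspidal automorphic representation `Π` of
  `GL₂(𝔸_K)` with `Π^{U(𝔫)} ≠ 0`, `Π_w = π(1,1)` at the complex places,
  `Π_w ∈ {π(1,1), π(sgn,sgn)}` at the real places.
* `IsCuspHolQ K π` -- `[K : ℚ] = 1` and `π` is the eigensystem of a classical holomorphic
  cuspidal Hecke eigenform of weight ONE on `Γ₁(N)` (shape of the hypotheses of the landed S48 and
  of `LTB.WallOut`), i.e. `Π_∞ = π(1,sgn)`.

Over the fields of the WALL (`E` sextic, `F = ℚ(√-3)`: totally complex) only the first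
alternative occurs; over `ℚ` the descent of a form over `F` of type `π(1,1)` has type `π(1,1)`,
`π(sgn,sgn)` (first alternative, a Maass form of eigenvalue `1/4`) or `π(1,sgn)` (second
alternative); leaf `PAR` excludes the first alternative for an odd determinant.
-/

set_option autoImplicit false

open IsDedekindDomain NumberField AutomorphicForm
open CongruenceSubgroup
open scoped MatrixGroups

noncomputable section

namespace Fermat.Agent.LT.H556.A0

/-! ## The adelic group and its local components -/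

/-- The adele ring of the number field `K`. -/
abbrev Adl (K : Type) [Field K] [NumberField K] : Type := NumberField.AdeleRing (𝓞 K) K

/-- `GL₂` of the adeles of `K`, with the topology of units of the matrix ring. -/
abbrev G (K : Type) [Field K] [NumberField K] : Type := GL (Fin 2) (Adl K)

variable {K : Type} [Field K] [NumberField K]

/-- The matrix of `g` at the infinite place `w`, transported to `ℂ` by the embedding of the
completion (`extensionEmbedding`; real matrices at a real place). -/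
def infComp (w : InfinitePlace K) (g : G K) : Matrix (Fin 2) (Fin 2) ℂ :=
  fun i j => InfinitePlace.Completion.extensionEmbedding w
    (((g : Matrix (Fin 2) (Fin 2) (Adl K)) i j).1 w)

/-- The matrix of `g` at the finite place `v`. -/
def finComp (v : HeightOneSpectrum (𝓞 K)) (g : G K) :
    Matrix (Fin 2) (Fin 2) (v.adicCompletion K) :=
  fun i j => ((g : Matrix (Fin 2) (Fin 2) (Adl K)) i j).2 v

/-- `g` is the identity at the infinite place `w`. -/
def TrivAtInf (w : InfinitePlace K) (g : G K) : Prop :=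
  ∀ i j, ((g : Matrix (Fin 2) (Fin 2) (Adl K)) i j).1 w
    = (1 : Matrix (Fin 2) (Fin 2) w.Completion) i j

/-- `g` is the identity at the finite place `v`. -/
def TrivAtFin (v : HeightOneSpectrum (𝓞 K)) (g : G K) : Prop :=
  finComp v g = 1

/-- `g` is supported at the infinite place `w` (identity at every other place). -/
def IsLocalAtInf (w : InfinitePlace K) (g : G K) : Prop :=
  (∀ w' : InfinitePlace K, w' ≠ w → TrivAtInf w' g) ∧
    ∀ v : HeightOneSpectrum (𝓞 K), TrivAtFin v g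

/-- `g` is supported at the finite place `v` (identity at every other place). -/
def IsLocalAtFin (v : HeightOneSpectrum (𝓞 K)) (g : G K) : Prop :=
  (∀ w : InfinitePlace K, TrivAtInf w g) ∧
    ∀ v' : HeightOneSpectrum (𝓞 K), v' ≠ v → TrivAtFin v' g

/-- The matrix of `g` at `v` has integral entries. -/
def IsIntegralAt (v : HeightOneSpectrum (𝓞 K)) (g : G K) : Prop :=
  ∀ i j, finComp v g i j ∈ v.adicCompletionIntegers K

/-! ## The level group -/

/-- The closure `𝔫 𝒪_v` of the ideal `𝔫` in the completion at `v`. -/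
def idealClosure (𝔫 : Ideal (𝓞 K)) (v : HeightOneSpectrum (𝓞 K)) : Set (v.adicCompletion K) :=
  closure ((fun x : 𝓞 K => algebraMap K (v.adicCompletion K) (algebraMap (𝓞 K) K x)) ''
    (𝔫 : Set (𝓞 K)))

/-- The principal congruence subgroup `U(𝔫) = {u ∈ GL₂(𝒪̂) : u ≡ 1 mod 𝔫}`, trivial at the
infinite places.  At `v ∤ 𝔫` the local factor is `GL₂(𝒪_v)`. -/
def InLevelGroup (𝔫 : Ideal (𝓞 K)) (u : G K) : Prop :=
  (∀ w : InfinitePlace K, TrivAtInf w u) ∧
    ∀ (v : HeightOneSpectrum (𝓞 K)) (i j : Fin 2),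
      (finComp v u - 1) i j ∈ idealClosure 𝔫 v ∧ (finComp v u⁻¹ - 1) i j ∈ idealClosure 𝔫 v

/-! ## Archimedean conditions -/

/-- The maximal connected compact subgroup at `w`: `U(2)` at a complex place, `SO(2)` at a real
place. -/
def IsArchCompact (w : InfinitePlace K) (k : G K) : Prop :=
  IsLocalAtInf w k ∧ infComp w k * (infComp w k).conjTranspose = 1 ∧
    (w.IsReal → (infComp w k).det = 1)

/-- Positive real scalar matrices at `w`. -/
def IsArchPosScalar (w : InfinitePlace K) (z : G K) : Prop :=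
  IsLocalAtInf w z ∧ ∃ r : ℝ, 0 < r ∧ infComp w z = Matrix.diagonal (fun _ => (r : ℂ))

/-- `diag(e^{iα/2}, e^{-iα/2})`. -/
def rotZ (α : ℝ) : Matrix (Fin 2) (Fin 2) ℂ :=
  !![Complex.exp (Complex.I * ((α / 2 : ℝ) : ℂ)), 0;
     0, Complex.exp (-(Complex.I * ((α / 2 : ℝ) : ℂ)))]

/-- The rotation matrix of angle `β / 2`. -/
def rotY (β : ℝ) : Matrix (Fin 2) (Fin 2) ℂ :=
  !![((Real.cos (β / 2) : ℝ) : ℂ), -((Real.sin (β / 2) : ℝ) : ℂ);
     ((Real.sin (β / 2) : ℝ) : ℂ), ((Real.cos (β / 2) : ℝ) : ℂ)]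

/-- `diag(e^{d/2}, e^{-d/2})`: moves the base point of `ℍ³` (resp. `ℍ²`) to distance `d`. -/
def torus (d : ℝ) : Matrix (Fin 2) (Fin 2) ℂ :=
  !![((Real.exp (d / 2) : ℝ) : ℂ), 0;
     0, ((Real.exp (-(d / 2)) : ℝ) : ℂ)]

/-- Mean-value property at a COMPLEX place `w`, spherical parameter `0`: for every `g` and every
radius `d > 0` the mean of `φ` over the geodesic sphere of radius `d` around `g` in
`ℍ³ = GL₂(ℂ) / ℂˣ U(2)` is `(d / sinh d) · φ(g)`.  The sphere is parametrised by Euler angles: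
`k(α,β) = rotZ α * rotY β` runs over `SU(2) / U(1) = S²` with uniform measure
`sin β dβ dα / 4π`. -/
def MeanValueComplex (φ : G K → ℂ) (w : InfinitePlace K) : Prop :=
  ∀ d : ℝ, 0 < d → ∀ Y : ℝ → ℝ → G K,
    (∀ α β : ℝ, IsLocalAtInf w (Y α β) ∧ infComp w (Y α β) = rotZ α * rotY β * torus d) →
    ∀ g : G K,
      (∫ α in (0 : ℝ)..(2 * Real.pi), ∫ β in (0 : ℝ)..Real.pi,
          φ (g * Y α β) * ((Real.sin β : ℝ) : ℂ))
        = ((4 * Real.pi * (d / Real.sinh d) : ℝ) : ℂ) * φ g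

/-- Mean-value property at a REAL place `w`, spherical parameter `0` (Laplace eigenvalue `1/4`):
for every `g` and every radius `t > 0` the mean of `φ` over the geodesic circle of radius `t`
around `g` in `ℍ^± = GL₂(ℝ) / ℝ_{>0} SO(2)` is `P_{-1/2}(cosh t) · φ(g)`, where
`P_{-1/2}(cosh t) = (1/2π) ∫₀^{2π} (cosh t + sinh t cos θ)^{-1/2} dθ`. -/
def MeanValueReal (φ : G K → ℂ) (w : InfinitePlace K) : Prop :=
  ∀ t : ℝ, 0 < t → ∀ Y : ℝ → G K,
    (∀ θ : ℝ, IsLocalAtInf w (Y θ) ∧ infComp w (Y θ) = rotY θ * torus t) →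
    ∀ g : G K,
      (∫ θ in (0 : ℝ)..(2 * Real.pi), φ (g * Y θ))
        = ((∫ θ in (0 : ℝ)..(2 * Real.pi),
            (Real.cosh t + Real.sinh t * Real.cos θ) ^ (-(1 / 2 : ℝ)) : ℝ) : ℂ) * φ g

/-! ## Cuspidality -/

/-- Vanishing of the constant term along the upper unipotent radical:
`∫_{K \ 𝔸_K} φ(n(x) g) dx = 0` for all `g`.  The integral is over an arbitrary fundamental domain
of `K` in `𝔸_K` for an arbitrary Haar measure (Borel σ-algebra). -/
def IsCuspidalFn (φ : G K → ℂ) : Prop :=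
  letI : MeasurableSpace (Adl K) := borel (Adl K)
  ∀ μ : MeasureTheory.Measure (Adl K), μ.IsAddHaarMeasure →
    ∀ D : Set (Adl K),
      MeasureTheory.IsAddFundamentalDomain
        ((algebraMap K (Adl K)).toAddMonoidHom.range) D μ →
      ∀ n : Adl K → G K,
        (∀ x : Adl K, (n x : Matrix (Fin 2) (Fin 2) (Adl K)) = !![1, x; 0, 1]) →
        ∀ g : G K, ∫ x in D, φ (n x * g) ∂μ = 0

/-! ## Hecke operators at the finite places -/

/-- A full system of representatives of `GL₂(𝒪_v) diag(ϖ_v, 1) GL₂(𝒪_v) / GL₂(𝒪_v)`: `q_v + 1`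
elements supported at `v`, integral, with determinant a uniformiser, pairwise inequivalent modulo
`GL₂(𝒪_v)` on the right. -/
def IsHeckeCosetSystem (v : HeightOneSpectrum (𝓞 K)) (H : Finset (G K)) : Prop :=
  H.card = Ideal.absNorm v.asIdeal + 1 ∧
    (∀ h ∈ H, IsLocalAtFin v h ∧ IsIntegralAt v h ∧
      Valued.v (finComp v h).det = WithZero.exp (-1 : ℤ)) ∧
    ∀ h ∈ H, ∀ h' ∈ H, h ≠ h' → ¬ IsIntegralAt v (h⁻¹ * h')

/-- A scalar uniformiser at `v`. -/
def IsScalarUniformizerAt (v : HeightOneSpectrum (𝓞 K)) (z : G K) : Prop :=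
  IsLocalAtFin v z ∧ ∃ c : v.adicCompletion K,
    Valued.v c = WithZero.exp (-1 : ℤ) ∧ finComp v z = Matrix.diagonal (fun _ => c)

/-- `φ` is an eigenfunction of the Hecke operators at `v`, with `T_v`-eigenvalue `√q_v · a` and
`S_v`-eigenvalue `b` (unitary normalisation: `a = α_v + β_v`, `b = α_v β_v`). -/
def IsHeckeEigenAt (φ : G K → ℂ) (v : HeightOneSpectrum (𝓞 K)) (a b : ℂ) : Prop :=
  (∀ H : Finset (G K), IsHeckeCosetSystem v H →
      ∀ g : G K, ∑ h ∈ H, φ (g * h)
        = ((Real.sqrt (Ideal.absNorm v.asIdeal : ℝ) : ℝ) : ℂ) * a * φ g) ∧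
    ∀ z : G K, IsScalarUniformizerAt v z → ∀ g : G K, φ (g * z) = b * φ g

/-! ## The notion -/

/-- `φ` is a cusp form on `GL₂(𝔸_K)` of level `U(π.level)`, spherical of parameter `0` at every
infinite place, with Hecke eigensystem `π` away from the level. -/
structure IsSph0CuspFormFor (π : HeckeEigensystem K ℂ) (φ : G K → ℂ) : Prop where
  cont : Continuous φ
  bdd : ∃ C : ℝ, ∀ g : G K, ‖φ g‖ ≤ C
  ne_zero : ∃ g : G K, φ g ≠ 0
  left_inv : ∀ (γ : GL (Fin 2) K) (g : G K),
    φ (Matrix.GeneralLinearGroup.map (algebraMap K (Adl K)) γ * g) = φ g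
  level_inv : ∀ u : G K, InLevelGroup π.level u → ∀ g : G K, φ (g * u) = φ g
  arch_scalar : ∀ (w : InfinitePlace K) (z : G K), IsArchPosScalar w z →
    ∀ g : G K, φ (g * z) = φ g
  arch_compact : ∀ (w : InfinitePlace K) (k : G K), IsArchCompact w k →
    ∀ g : G K, φ (g * k) = φ g
  mean_complex : ∀ w : InfinitePlace K, w.IsComplex → MeanValueComplex φ w
  mean_real : ∀ w : InfinitePlace K, w.IsReal → MeanValueReal φ w
  cuspidal : IsCuspidalFn φ
  hecke : ∀ v : HeightOneSpectrum (𝓞 K), ¬ v.asIdeal ∣ π.level →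
    IsHeckeEigenAt φ v (π.a v) (π.b v)

/-- First alternative: `π` is the eigensystem of an adelic cusp form, spherical of parameter `0`
at every infinite place. -/
def IsCuspAdelicSph0 (K : Type) [Field K] [NumberField K] (π : HeckeEigensystem K ℂ) : Prop :=
  ∃ φ : G K → ℂ, IsSph0CuspFormFor π φ

/-- The classical datum of the second alternative (shape of the hypotheses of the landed S48 and
of `LTB.WallOut`): a normalised holomorphic cusp form of weight one on `Γ₁(N)` with the Hecke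
relations of character `ε` at the primes not dividing `N`. -/
def IsWtOneEigenform (N : ℕ) (ε : DirichletCharacter ℂ N) (f : CuspForm (Gamma1 N) 1) : Prop :=
  ModularFormClass.qCoeff f 1 = 1 ∧
    ∀ p : ℕ, p.Prime → ¬ p ∣ N → ∀ n : ℕ,
      ModularFormClass.qCoeff f (p * n) +
          ε (p : ZMod N) * (if p ∣ n then ModularFormClass.qCoeff f (n / p) else 0) =
        ModularFormClass.qCoeff f p * ModularFormClass.qCoeff f n

/-- Second alternative: `K` has degree one and `π` is the eigensystem of a classical holomorphic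
cuspidal eigenform of weight one on `Γ₁(N)`, with `(N) ∣ π.level`. -/
def IsCuspHolQ (K : Type) [Field K] [NumberField K] (π : HeckeEigensystem K ℂ) : Prop :=
  Module.finrank ℚ K = 1 ∧
    ∃ (N : ℕ) (_ : NeZero N) (ε : DirichletCharacter ℂ N) (f : CuspForm (Gamma1 N) 1),
      IsWtOneEigenform N ε f ∧
      π.level ≤ Ideal.span {(N : 𝓞 K)} ∧
      ∀ v : HeightOneSpectrum (𝓞 K), (N : 𝓞 K) ∉ v.asIdeal →
        π.a v = ModularFormClass.qCoeff f (Ideal.absNorm v.asIdeal) ∧
        π.b v = ε ((Ideal.absNorm v.asIdeal : ℕ) : ZMod N)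

/-- THE NOTION of block A0. -/
def notion556 : CuspidalityNotion ℂ where
  IsCusp := fun F _ _ π => IsCuspAdelicSph0 F π ∨ IsCuspHolQ F π

theorem notion556_isCusp_iff (F : Type) [Field F] [NumberField F] (π : HeckeEigensystem F ℂ) :
    notion556.IsCusp F π ↔ IsCuspAdelicSph0 F π ∨ IsCuspHolQ F π :=
  Iff.rfl

end Fermat.Agent.LT.H556.A0

end

end
-- ===== PACK-END LT/H556/A0.lean

-- ===== PACK-BEGIN LT/H129/ResidueCard.lean
section


/-!
# Row LT, tower T1 (local fields), helper129: the residue field of `𝒪_v`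

OFF-MAIN.  Mathlib only.  For a Dedekind domain `R` with fraction field `K` and a height-one
prime `v`, the residue field of the ring of integers `𝒪_v = v.adicCompletionIntegers K` of the
completion is `R ⧸ v`:

* `resHom129 K v : R →+* 𝓀(𝒪_v)` is surjective with kernel `v.asIdeal`;
* `residueEquiv129 K v : R ⧸ v.asIdeal ≃+* 𝓀(𝒪_v)`;
* `card_residueField129` : for a number field, `#𝓀(𝒪_v) = Ideal.absNorm v.asIdeal`, and the
  residue field is finite (`finite_residueField129`).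
-/

set_option autoImplicit false

open IsDedekindDomain IsDedekindDomain.HeightOneSpectrum

namespace Fermat.Agent.LT.H129

section Dedekind

variable {R : Type*} [CommRing R] [IsDedekindDomain R] (K : Type*) [Field K] [Algebra R K]
  [IsFractionRing R K] (v : HeightOneSpectrum R)

/-- The residue map `R → 𝒪_v → 𝓀(𝒪_v)`. -/
noncomputable def resHom129 : R →+* IsLocalRing.ResidueField (v.adicCompletionIntegers K) :=
  (IsLocalRing.residue (v.adicCompletionIntegers K)).comp
    (algebraMap R (v.adicCompletionIntegers K))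

theorem residue_eq_zero_iff_valued129 (x : v.adicCompletionIntegers K) :
    IsLocalRing.residue (v.adicCompletionIntegers K) x = 0 ↔
      Valued.v (x : v.adicCompletion K) < 1 := by
  rw [IsLocalRing.residue_eq_zero_iff, IsLocalRing.mem_maximalIdeal, mem_nonunits_iff,
    adicCompletionIntegers.isUnit_iff_valued_eq_one]
  have hx : Valued.v (x : v.adicCompletion K) ≤ 1 := x.2
  exact ⟨fun h => lt_of_le_of_ne hx h, fun h => ne_of_lt h⟩

theorem resHom129_eq_zero_iff (r : R) : resHom129 K v r = 0 ↔ r ∈ v.asIdeal := by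
  rw [resHom129, RingHom.comp_apply, residue_eq_zero_iff_valued129,
    algebraMap_adicCompletionIntegers_apply]
  rw [valuedAdicCompletion_eq_valuation', valuation_lt_one_iff_mem]

theorem resHom129_ker : RingHom.ker (resHom129 K v) = v.asIdeal := by
  ext r
  rw [RingHom.mem_ker, resHom129_eq_zero_iff]

theorem resHom129_surjective : Function.Surjective (resHom129 K v) := by
  intro y
  obtain ⟨x, rfl⟩ := IsLocalRing.residue_surjective y
  -- approximate `x` by an element of `K`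
  have hopen : IsOpen {z : v.adicCompletion K | Valued.v (z - (x : v.adicCompletion K)) < 1} := by
    rw [isOpen_iff_mem_nhds]
    intro z hz
    rw [Valued.mem_nhds]
    refine ⟨1, fun w hw => ?_⟩
    have hw' : Valued.v (w - z) < 1 := by simpa using hw
    have : w - (x : v.adicCompletion K) = (w - z) + (z - (x : v.adicCompletion K)) := by ring
    show Valued.v (w - (x : v.adicCompletion K)) < 1
    rw [this]
    exact lt_of_le_of_lt (Valuation.map_add _ _ _) (max_lt hw' hz)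
  obtain ⟨k, hk⟩ := (denseRange_algebraMap (K := K) v).exists_mem_open hopen
    ⟨(x : v.adicCompletion K), by simp⟩
  have hk' : Valued.v ((k : v.adicCompletion K) - (x : v.adicCompletion K)) < 1 := hk
  have hk1 : v.valuation K k ≤ 1 := by
    rw [← valuedAdicCompletion_eq_valuation']
    have : (k : v.adicCompletion K) = ((k : v.adicCompletion K) - x) + x := by ring
    rw [this]
    exact le_trans (Valuation.map_add _ _ _) (max_le hk'.le x.2)
  obtain ⟨a, ha⟩ := exists_valuation_sub_lt_of_integer v hk1 1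
  refine ⟨a, ?_⟩
  rw [resHom129, RingHom.comp_apply, ← sub_eq_zero, ← map_sub, residue_eq_zero_iff_valued129]
  have e : ((algebraMap R (v.adicCompletionIntegers K) a - x : v.adicCompletionIntegers K) :
      v.adicCompletion K) = algebraMap K (v.adicCompletion K) (algebraMap R K a - k)
        + (algebraMap K (v.adicCompletion K) k - x) := by
    have h1 : ((algebraMap R (v.adicCompletionIntegers K) a : v.adicCompletionIntegers K) :
        v.adicCompletion K) = algebraMap K (v.adicCompletion K) (algebraMap R K a) := rfl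
    rw [map_sub]
    push_cast
    rw [h1]
    ring
  rw [e]
  refine lt_of_le_of_lt (Valuation.map_add _ _ _) (max_lt ?_ hk)
  have := valuedAdicCompletion_eq_valuation' (v := v) (algebraMap R K a - k)
  rw [show (algebraMap K (v.adicCompletion K) (algebraMap R K a - k))
    = ((algebraMap R K a - k : K) : v.adicCompletion K) from rfl, this]
  simpa using ha

/-- The residue field of `𝒪_v` is `R ⧸ v`. -/
noncomputable def residueEquiv129 :
    (R ⧸ v.asIdeal) ≃+* IsLocalRing.ResidueField (v.adicCompletionIntegers K) :=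
  (Ideal.quotEquivOfEq (resHom129_ker K v).symm).trans
    (RingHom.quotientKerEquivOfSurjective (resHom129_surjective K v))

theorem natCard_residueField129 :
    Nat.card (IsLocalRing.ResidueField (v.adicCompletionIntegers K)) = Nat.card (R ⧸ v.asIdeal) :=
  (Nat.card_congr (residueEquiv129 K v).toEquiv).symm

end Dedekind

section NumberField

open NumberField

variable (K : Type*) [Field K] [NumberField K] (v : HeightOneSpectrum (𝓞 K))

/-- For a number field the residue field of `𝒪_v` has `N(v)` elements. -/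
theorem card_residueField129 :
    Nat.card (IsLocalRing.ResidueField (v.adicCompletionIntegers K)) = Ideal.absNorm v.asIdeal := by
  rw [natCard_residueField129, Ideal.absNorm_apply, Submodule.cardQuot_apply]

theorem finite_residueField129 :
    Finite (IsLocalRing.ResidueField (v.adicCompletionIntegers K)) := by
  apply Nat.finite_of_card_ne_zero
  rw [card_residueField129]
  exact ne_of_gt (lt_trans Nat.zero_lt_one (NumberField.HeightOneSpectrum.one_lt_absNorm v))

end NumberField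

end Fermat.Agent.LT.H129

end
-- ===== PACK-END LT/H129/ResidueCard.lean

-- ===== PACK-BEGIN LT/H470/ParamInt.lean
section


/-!
# Row LT, tower A2, pre-leaf ARCH-MVP (helper470): parametric interval integrals

Mathlib only.  Differentiation under the integral sign and change of order of integration for
JOINTLY CONTINUOUS integrands on compact intervals (no domination hypotheses left to the user).
-/

set_option autoImplicit false

open MeasureTheory Set Filter Topology

namespace Fermat.Agent.LT.H470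

/-- Differentiation under an interval integral for jointly continuous data. -/
theorem hasDerivAt_intervalIntegral470 {G G' : ℝ → ℝ → ℂ}
    (hG : Continuous (Function.uncurry G)) (hG' : Continuous (Function.uncurry G'))
    (hd : ∀ x t, HasDerivAt (fun x => G x t) (G' x t) x) (a b x₀ : ℝ) :
    HasDerivAt (fun x => ∫ t in a..b, G x t) (∫ t in a..b, G' x₀ t) x₀ := by
  have hK : IsCompact (Icc (x₀ - 1) (x₀ + 1) ×ˢ uIcc a b) := isCompact_Icc.prod isCompact_uIcc
  obtain ⟨C, hC⟩ := hK.exists_bound_of_continuousOn hG'.continuousOn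
  have key := intervalIntegral.hasDerivAt_integral_of_dominated_loc_of_deriv_le (μ := volume)
    (F := G) (F' := G') (x₀ := x₀) (a := a) (b := b) (bound := fun _ => C)
    (s := Icc (x₀ - 1) (x₀ + 1)) (Icc_mem_nhds (by linarith) (by linarith))
    (Eventually.of_forall fun x =>
      (hG.comp (Continuous.prodMk_right x)).aestronglyMeasurable)
    ((hG.comp (Continuous.prodMk_right x₀)).intervalIntegrable a b)
    ((hG'.comp (Continuous.prodMk_right x₀)).aestronglyMeasurable)
    (Eventually.of_forall fun t ht x hx => hC (x, t) ⟨hx, uIoc_subset_uIcc ht⟩)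
    intervalIntegrable_const
    (Eventually.of_forall fun t _ x _ => hd x t)
  exact key.2

/-- Joint continuity of an inner integral in the two remaining variables. -/
theorem continuous_inner470 {H : ℝ → ℝ → ℝ → ℂ}
    (hH : Continuous (fun q : ℝ × ℝ × ℝ => H q.1 q.2.1 q.2.2)) (c e : ℝ) :
    Continuous (Function.uncurry (fun d α => ∫ β in c..e, H d β α)) := by
  have h1 : Continuous (Function.uncurry (fun (p : ℝ × ℝ) (β : ℝ) => H p.1 β p.2)) := by
    have : (Function.uncurry (fun (p : ℝ × ℝ) (β : ℝ) => H p.1 β p.2))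
        = (fun q : ℝ × ℝ × ℝ => H q.1 q.2.1 q.2.2) ∘
          (fun r : (ℝ × ℝ) × ℝ => (r.1.1, r.2, r.1.2)) := by
      ext r; rfl
    rw [this]
    exact hH.comp (by fun_prop)
  have h2 := intervalIntegral.continuous_parametric_intervalIntegral_of_continuous'
    (μ := volume) h1 c e
  have : (Function.uncurry (fun d α => ∫ β in c..e, H d β α))
      = fun p : ℝ × ℝ => ∫ β in c..e, H p.1 β p.2 := by
    ext p; rfl
  rw [this]
  exact h2

/-- Differentiation of a double interval integral with respect to a parameter. -/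
theorem hasDerivAt_double470 {H H' : ℝ → ℝ → ℝ → ℂ}
    (hH : Continuous (fun q : ℝ × ℝ × ℝ => H q.1 q.2.1 q.2.2))
    (hH' : Continuous (fun q : ℝ × ℝ × ℝ => H' q.1 q.2.1 q.2.2))
    (hd : ∀ d β α, HasDerivAt (fun x => H x β α) (H' d β α) d) (a b c e d₀ : ℝ) :
    HasDerivAt (fun d => ∫ α in a..b, ∫ β in c..e, H d β α)
      (∫ α in a..b, ∫ β in c..e, H' d₀ β α) d₀ := by
  refine hasDerivAt_intervalIntegral470 (G := fun d α => ∫ β in c..e, H d β α)
    (G' := fun d α => ∫ β in c..e, H' d β α) (continuous_inner470 hH c e)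
    (continuous_inner470 hH' c e) ?_ a b d₀
  intro d α
  refine hasDerivAt_intervalIntegral470 (G := fun d β => H d β α)
    (G' := fun d β => H' d β α) ?_ ?_ (fun x t => hd x t α) c e d
  · have : (Function.uncurry fun d β => H d β α)
        = (fun q : ℝ × ℝ × ℝ => H q.1 q.2.1 q.2.2) ∘ (fun r : ℝ × ℝ => (r.1, r.2, α)) := by
      ext r; rfl
    rw [this]; exact hH.comp (by fun_prop)
  · have : (Function.uncurry fun d β => H' d β α)
        = (fun q : ℝ × ℝ × ℝ => H' q.1 q.2.1 q.2.2) ∘ (fun r : ℝ × ℝ => (r.1, r.2, α)) := by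
      ext r; rfl
    rw [this]; exact hH'.comp (by fun_prop)

/-- Fubini on a rectangle for a jointly continuous integrand. -/
theorem intervalIntegral_swap470 {K : ℝ → ℝ → ℂ} (hK : Continuous (Function.uncurry K))
    (a b c e : ℝ) :
    ∫ α in a..b, ∫ β in c..e, K α β = ∫ β in c..e, ∫ α in a..b, K α β := by
  apply MeasureTheory.intervalIntegral_intervalIntegral_swap
  have hcomp : IsCompact (uIcc a b ×ˢ uIcc c e) := isCompact_uIcc.prod isCompact_uIcc
  exact (hK.continuousOn.integrableOn_compact hcomp).mono_set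
    (Set.prod_mono uIoc_subset_uIcc uIoc_subset_uIcc)

end Fermat.Agent.LT.H470

end
-- ===== PACK-END LT/H470/ParamInt.lean

-- ===== PACK-BEGIN LT/A2/H144/BesselCore.lean
section


/-!
# Row LT, tower A2, leaf A2.03.7.1 `BesselInvC` (helper144) -- CORE, Mathlib only, OFF-MAIN

Registry row 1126 (sub-leaf of A2.03.7 `WhitMeanC`, cut by helper416, `LT/A2/H416/MeanSpec.lean`).

`J(y) = ∫ A exp(-a y (p + q)) dμ` with `p q = 1`; if `∫ A exp(-a y (r⁻² p + r² q)) dμ = J(y)` for
all `r > 0`, then `J` is twice differentiable on `y > 0` and `y J'' + J' - 4 a² y J = 0`.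

Four differentiations under the integral sign
(`hasDerivAt_integral_of_dominated_loc_of_deriv_le`), all through ONE kernel lemma
`hasDerivAt_integral_kernel144b`: with `S = p + q`,
`(c₁ S + c₂ S²) e^{-2 ε S} ≤ (c₁ / ε + 2 c₂ / ε²) e^{-ε S}`.
`G(s) = ∫ A exp(-a y (e^{-2s} p + e^{2s} q))` is constant, so `G' = 0` near `0` and `G''(0) = 0`,
and `G''(0) = 4 y (y J'' + J' - 4 a² y J)` because `(q - p)² = S² - 4`.
-/

set_option autoImplicit false

open MeasureTheory

noncomputable section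

namespace Fermat.Agent.LT.A2.H144

/-! ## Elementary bounds -/

theorem mul_exp_neg_le_one144b {u : ℝ} : u * Real.exp (-u) ≤ 1 := by
  have h1 : u ≤ Real.exp u := by linarith [Real.add_one_le_exp u]
  have h2 : 0 < Real.exp u := Real.exp_pos u
  rw [Real.exp_neg, ← div_eq_mul_inv, div_le_one h2]
  exact h1

theorem sq_mul_exp_neg_le_two144b {u : ℝ} (hu : 0 ≤ u) : u ^ 2 * Real.exp (-u) ≤ 2 := by
  have h1 : u ^ 2 ≤ 2 * Real.exp u := by
    nlinarith [Real.quadratic_le_exp_of_nonneg hu]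
  have h2 : 0 < Real.exp u := Real.exp_pos u
  rw [Real.exp_neg, ← div_eq_mul_inv, div_le_iff₀ h2]
  exact h1

/-- `(c₁ x + c₂ x²) e^{-2 ε x} ≤ (c₁ / ε + 2 c₂ / ε²) e^{-ε x}` for `x ≥ 0`. -/
theorem poly_exp_bound144b {ε x c₁ c₂ : ℝ} (hε : 0 < ε) (hx : 0 ≤ x) (hc₁ : 0 ≤ c₁)
    (hc₂ : 0 ≤ c₂) :
    (c₁ * x + c₂ * x ^ 2) * Real.exp (-(2 * (ε * x)))
      ≤ (c₁ / ε + 2 * c₂ / ε ^ 2) * Real.exp (-(ε * x)) := by
  have hu : 0 ≤ ε * x := mul_nonneg hε.le hx
  have e1 : ε * x * Real.exp (-(ε * x)) ≤ 1 := mul_exp_neg_le_one144b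
  have e2 : (ε * x) ^ 2 * Real.exp (-(ε * x)) ≤ 2 := sq_mul_exp_neg_le_two144b hu
  have hsplit : Real.exp (-(2 * (ε * x))) = Real.exp (-(ε * x)) * Real.exp (-(ε * x)) := by
    rw [← Real.exp_add]
    ring_nf
  have hpos : 0 < Real.exp (-(ε * x)) := Real.exp_pos _
  have t1 : c₁ * x * Real.exp (-(ε * x)) ≤ c₁ / ε := by
    have h : c₁ * x * Real.exp (-(ε * x)) = (c₁ / ε) * ((ε * x) * Real.exp (-(ε * x))) := by
      field_simp
    rw [h]
    exact mul_le_of_le_one_right (div_nonneg hc₁ hε.le) e1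
  have t2 : c₂ * x ^ 2 * Real.exp (-(ε * x)) ≤ 2 * c₂ / ε ^ 2 := by
    have h : c₂ * x ^ 2 * Real.exp (-(ε * x))
        = (c₂ / ε ^ 2) * ((ε * x) ^ 2 * Real.exp (-(ε * x))) := by
      field_simp
    rw [h]
    calc (c₂ / ε ^ 2) * ((ε * x) ^ 2 * Real.exp (-(ε * x))) ≤ (c₂ / ε ^ 2) * 2 :=
          mul_le_mul_of_nonneg_left e2 (by positivity)
      _ = 2 * c₂ / ε ^ 2 := by ring
  rw [hsplit]
  calc (c₁ * x + c₂ * x ^ 2) * (Real.exp (-(ε * x)) * Real.exp (-(ε * x)))
      = (c₁ * x * Real.exp (-(ε * x)) + c₂ * x ^ 2 * Real.exp (-(ε * x)))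
          * Real.exp (-(ε * x)) := by ring
    _ ≤ (c₁ / ε + 2 * c₂ / ε ^ 2) * Real.exp (-(ε * x)) := by
        apply mul_le_mul_of_nonneg_right _ hpos.le
        linarith

/-! ## The kernel lemma -/

/-- Differentiation under the integral sign for `t ↦ ∫ A(m) k(t, m) dμ`, `k` real valued with
`|∂_t k| ≤ (c₁ S + c₂ S²) e^{-2 ε S}` near `t₀` and `A e^{-ε S}` integrable. -/
theorem hasDerivAt_integral_kernel144b {X : Type} [MeasurableSpace X] {μ : Measure X}
    {A : X → ℂ} (hA : AEStronglyMeasurable A μ) {S : X → ℝ} (hS : ∀ᵐ m ∂μ, 0 ≤ S m)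
    {k k' : ℝ → X → ℝ} {t₀ δ : ℝ} (hδ : 0 < δ)
    (hk_meas : ∀ t, AEMeasurable (k t) μ) (hk'_meas : AEMeasurable (k' t₀) μ)
    (hint0 : Integrable (fun m => A m * ((k t₀ m : ℝ) : ℂ)) μ)
    {c₁ c₂ ε : ℝ} (hε : 0 < ε) (hc₁ : 0 ≤ c₁) (hc₂ : 0 ≤ c₂)
    (hB : Integrable (fun m => A m * ((Real.exp (-(ε * S m)) : ℝ) : ℂ)) μ)
    (hbound : ∀ᵐ m ∂μ, ∀ t ∈ Metric.ball t₀ δ,
      |k' t m| ≤ (c₁ * S m + c₂ * S m ^ 2) * Real.exp (-(2 * (ε * S m))))
    (hdiff : ∀ m, ∀ t ∈ Metric.ball t₀ δ, HasDerivAt (fun t => k t m) (k' t m) t) :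
    Integrable (fun m => A m * ((k' t₀ m : ℝ) : ℂ)) μ ∧
    HasDerivAt (fun t => ∫ m, A m * ((k t m : ℝ) : ℂ) ∂μ)
      (∫ m, A m * ((k' t₀ m : ℝ) : ℂ) ∂μ) t₀ := by
  refine hasDerivAt_integral_of_dominated_loc_of_deriv_le
    (F := fun t m => A m * ((k t m : ℝ) : ℂ)) (F' := fun t m => A m * ((k' t m : ℝ) : ℂ))
    (s := Metric.ball t₀ δ)
    (bound := fun m => (c₁ / ε + 2 * c₂ / ε ^ 2) * ‖A m * ((Real.exp (-(ε * S m)) : ℝ) : ℂ)‖)
    (Metric.ball_mem_nhds t₀ hδ) ?_ hint0 ?_ ?_ ?_ ?_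
  · exact Filter.Eventually.of_forall fun t =>
      hA.mul (Complex.measurable_ofReal.comp_aemeasurable (hk_meas t)).aestronglyMeasurable
  · exact hA.mul (Complex.measurable_ofReal.comp_aemeasurable hk'_meas).aestronglyMeasurable
  · filter_upwards [hbound, hS] with m hm hSm t ht
    have h1 := hm t ht
    have h2 := poly_exp_bound144b (x := S m) hε hSm hc₁ hc₂
    rw [norm_mul, norm_mul, Complex.norm_real, Complex.norm_real, Real.norm_eq_abs,
      Real.norm_eq_abs, abs_of_pos (Real.exp_pos _)]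
    calc ‖A m‖ * |k' t m| ≤ ‖A m‖ * ((c₁ / ε + 2 * c₂ / ε ^ 2) * Real.exp (-(ε * S m))) :=
          mul_le_mul_of_nonneg_left (h1.trans h2) (norm_nonneg _)
      _ = (c₁ / ε + 2 * c₂ / ε ^ 2) * (‖A m‖ * Real.exp (-(ε * S m))) := by ring
  · exact hB.norm.const_mul _
  · refine Filter.Eventually.of_forall fun m t ht => ?_
    exact ((hdiff m t ht).ofReal_comp).const_mul (A m)

/-! ## Calculus of the kernels -/

theorem hasDerivAt_lin144b (c s : ℝ) : HasDerivAt (fun s : ℝ => c * s) c s := by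
  have h := (hasDerivAt_id s).const_mul c
  rw [mul_one] at h
  exact h

theorem hasDerivAt_k0_144b (a S y : ℝ) :
    HasDerivAt (fun y : ℝ => Real.exp (-(a * y * S)))
      (-(a * S) * Real.exp (-(a * y * S))) y := by
  have h0 : HasDerivAt (fun y : ℝ => a * y * S) (a * S) y :=
    (hasDerivAt_lin144b a y).mul_const S
  have h1 : HasDerivAt (fun y : ℝ => -(a * y * S)) (-(a * S)) y := h0.neg
  have h2 : HasDerivAt (fun y : ℝ => Real.exp (-(a * y * S)))
      (Real.exp (-(a * y * S)) * (-(a * S))) y := h1.exp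
  exact h2.congr_deriv (by ring)

theorem hasDerivAt_k1_144b (a S y : ℝ) :
    HasDerivAt (fun y : ℝ => -(a * S) * Real.exp (-(a * y * S)))
      ((a * S) ^ 2 * Real.exp (-(a * y * S))) y := by
  have h : HasDerivAt (fun y : ℝ => -(a * S) * Real.exp (-(a * y * S)))
      (-(a * S) * (-(a * S) * Real.exp (-(a * y * S)))) y :=
    (hasDerivAt_k0_144b a S y).const_mul (-(a * S))
  exact h.congr_deriv (by ring)

theorem hasDerivAt_expm_144b (s : ℝ) :
    HasDerivAt (fun s : ℝ => Real.exp (-(2 * s))) (-2 * Real.exp (-(2 * s))) s := by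
  have h1 : HasDerivAt (fun s : ℝ => -(2 * s)) (-2) s := (hasDerivAt_lin144b 2 s).neg
  have h2 : HasDerivAt (fun s : ℝ => Real.exp (-(2 * s))) (Real.exp (-(2 * s)) * (-2)) s :=
    h1.exp
  exact h2.congr_deriv (by ring)

theorem hasDerivAt_expp_144b (s : ℝ) :
    HasDerivAt (fun s : ℝ => Real.exp (2 * s)) (2 * Real.exp (2 * s)) s := by
  have h2 : HasDerivAt (fun s : ℝ => Real.exp (2 * s)) (Real.exp (2 * s) * 2) s :=
    (hasDerivAt_lin144b 2 s).exp
  exact h2.congr_deriv (by ring)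

/-- The exponent `E(s) = a y (e^{-2s} p + e^{2s} q)`. -/
theorem hasDerivAt_E_144b (a y p q s : ℝ) :
    HasDerivAt (fun s : ℝ => a * y * (Real.exp (-(2 * s)) * p + Real.exp (2 * s) * q))
      (a * y * (-2 * Real.exp (-(2 * s)) * p + 2 * Real.exp (2 * s) * q)) s :=
  (((hasDerivAt_expm_144b s).mul_const p).add ((hasDerivAt_expp_144b s).mul_const q)).const_mul
    (a * y)

/-- The first derivative of the exponent. -/
theorem hasDerivAt_E'_144b (a y p q s : ℝ) :
    HasDerivAt (fun s : ℝ => a * y * (-2 * Real.exp (-(2 * s)) * p + 2 * Real.exp (2 * s) * q))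
      (a * y * (4 * Real.exp (-(2 * s)) * p + 4 * Real.exp (2 * s) * q)) s := by
  have h : HasDerivAt
      (fun s : ℝ => a * y * (-2 * Real.exp (-(2 * s)) * p + 2 * Real.exp (2 * s) * q))
      (a * y * (-2 * (-2 * Real.exp (-(2 * s))) * p + 2 * (2 * Real.exp (2 * s)) * q)) s :=
    ((((hasDerivAt_expm_144b s).const_mul (-2 : ℝ)).mul_const p).add
      (((hasDerivAt_expp_144b s).const_mul (2 : ℝ)).mul_const q)).const_mul (a * y)
  exact h.congr_deriv (by ring)

/-- `g₀(s) = exp(-E(s))`. -/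
def g0_144b (a y p q s : ℝ) : ℝ :=
  Real.exp (-(a * y * (Real.exp (-(2 * s)) * p + Real.exp (2 * s) * q)))

/-- `g₁ = ∂_s g₀ = -E' exp(-E)`. -/
def g1_144b (a y p q s : ℝ) : ℝ :=
  -(a * y * (-2 * Real.exp (-(2 * s)) * p + 2 * Real.exp (2 * s) * q))
    * Real.exp (-(a * y * (Real.exp (-(2 * s)) * p + Real.exp (2 * s) * q)))

/-- `g₂ = ∂_s g₁ = (E'² - E'') exp(-E)`. -/
def g2_144b (a y p q s : ℝ) : ℝ :=
  ((a * y * (-2 * Real.exp (-(2 * s)) * p + 2 * Real.exp (2 * s) * q)) ^ 2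
      - a * y * (4 * Real.exp (-(2 * s)) * p + 4 * Real.exp (2 * s) * q))
    * Real.exp (-(a * y * (Real.exp (-(2 * s)) * p + Real.exp (2 * s) * q)))

theorem hasDerivAt_g0_144b (a y p q s : ℝ) :
    HasDerivAt (fun s => g0_144b a y p q s) (g1_144b a y p q s) s := by
  have h : HasDerivAt
      (fun s : ℝ => Real.exp (-(a * y * (Real.exp (-(2 * s)) * p + Real.exp (2 * s) * q))))
      (Real.exp (-(a * y * (Real.exp (-(2 * s)) * p + Real.exp (2 * s) * q)))
        * (-(a * y * (-2 * Real.exp (-(2 * s)) * p + 2 * Real.exp (2 * s) * q)))) s :=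
    ((hasDerivAt_E_144b a y p q s).neg).exp
  exact h.congr_deriv (by unfold g1_144b; ring)

theorem hasDerivAt_g1_144b (a y p q s : ℝ) :
    HasDerivAt (fun s => g1_144b a y p q s) (g2_144b a y p q s) s := by
  have h0 : HasDerivAt
      (fun s : ℝ => Real.exp (-(a * y * (Real.exp (-(2 * s)) * p + Real.exp (2 * s) * q))))
      (Real.exp (-(a * y * (Real.exp (-(2 * s)) * p + Real.exp (2 * s) * q)))
        * (-(a * y * (-2 * Real.exp (-(2 * s)) * p + 2 * Real.exp (2 * s) * q)))) s :=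
    ((hasDerivAt_E_144b a y p q s).neg).exp
  have h1 : HasDerivAt
      (fun s : ℝ => -(a * y * (-2 * Real.exp (-(2 * s)) * p + 2 * Real.exp (2 * s) * q)))
      (-(a * y * (4 * Real.exp (-(2 * s)) * p + 4 * Real.exp (2 * s) * q))) s :=
    (hasDerivAt_E'_144b a y p q s).neg
  have h : HasDerivAt
      (fun s : ℝ => -(a * y * (-2 * Real.exp (-(2 * s)) * p + 2 * Real.exp (2 * s) * q))
        * Real.exp (-(a * y * (Real.exp (-(2 * s)) * p + Real.exp (2 * s) * q))))
      (-(a * y * (4 * Real.exp (-(2 * s)) * p + 4 * Real.exp (2 * s) * q))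
          * Real.exp (-(a * y * (Real.exp (-(2 * s)) * p + Real.exp (2 * s) * q)))
        + -(a * y * (-2 * Real.exp (-(2 * s)) * p + 2 * Real.exp (2 * s) * q))
          * (Real.exp (-(a * y * (Real.exp (-(2 * s)) * p + Real.exp (2 * s) * q)))
            * (-(a * y * (-2 * Real.exp (-(2 * s)) * p + 2 * Real.exp (2 * s) * q))))) s :=
    h1.mul h0
  exact h.congr_deriv (by unfold g2_144b; ring)


/-! ## Bounds for the `s`-kernels, `|s| < 1/2` -/

theorem exp_two_mul_bounds144b {s : ℝ} (hs : |s| < 1 / 2) :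
    1 / 3 ≤ Real.exp (-(2 * s)) ∧ Real.exp (-(2 * s)) ≤ 3 ∧
    1 / 3 ≤ Real.exp (2 * s) ∧ Real.exp (2 * s) ≤ 3 := by
  have h1 := abs_lt.mp hs
  have e3 : Real.exp 1 ≤ 3 := (Real.exp_one_lt_d9.trans (by norm_num)).le
  have em : (1 : ℝ) / 3 ≤ Real.exp (-1) := by
    rw [Real.exp_neg, one_div]
    exact inv_anti₀ (Real.exp_pos 1) e3
  refine ⟨?_, ?_, ?_, ?_⟩
  · exact em.trans (Real.exp_le_exp.mpr (by linarith))
  · exact (Real.exp_le_exp.mpr (by linarith)).trans e3
  · exact em.trans (Real.exp_le_exp.mpr (by linarith))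
  · exact (Real.exp_le_exp.mpr (by linarith)).trans e3

theorem g0_bound144b {a y p q s : ℝ} (ha : 0 < a) (hy : 0 < y) (hp : 0 < p) (hq : 0 < q)
    (hs : |s| < 1 / 2) :
    |g0_144b a y p q s| ≤ Real.exp (-(2 * (a * (y / 6) * (p + q)))) := by
  obtain ⟨l1, u1, l2, u2⟩ := exp_two_mul_bounds144b hs
  unfold g0_144b
  rw [abs_of_pos (Real.exp_pos _)]
  apply Real.exp_le_exp.mpr
  have hay : 0 < a * y := mul_pos ha hy
  have h1 : (p + q) / 3 ≤ Real.exp (-(2 * s)) * p + Real.exp (2 * s) * q := by nlinarith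
  have h2 := mul_le_mul_of_nonneg_left h1 hay.le
  nlinarith

theorem g1_bound144b {a y p q s : ℝ} (ha : 0 < a) (hy : 0 < y) (hp : 0 < p) (hq : 0 < q)
    (hs : |s| < 1 / 2) :
    |g1_144b a y p q s|
      ≤ (a * y * 6 * (p + q) + 0 * (p + q) ^ 2) * Real.exp (-(2 * (a * (y / 6) * (p + q)))) := by
  obtain ⟨l1, u1, l2, u2⟩ := exp_two_mul_bounds144b hs
  have hg0 := g0_bound144b ha hy hp hq hs
  unfold g0_144b at hg0
  rw [abs_of_pos (Real.exp_pos _)] at hg0
  unfold g1_144b
  rw [abs_mul, abs_of_pos (Real.exp_pos _), abs_neg]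
  have hay : 0 < a * y := mul_pos ha hy
  have h1 : |a * y * (-2 * Real.exp (-(2 * s)) * p + 2 * Real.exp (2 * s) * q)|
      ≤ a * y * 6 * (p + q) := by
    rw [abs_mul, abs_of_pos hay]
    have : |-2 * Real.exp (-(2 * s)) * p + 2 * Real.exp (2 * s) * q| ≤ 6 * (p + q) := by
      rw [abs_le]
      constructor <;> nlinarith
    nlinarith
  calc |a * y * (-2 * Real.exp (-(2 * s)) * p + 2 * Real.exp (2 * s) * q)|
        * Real.exp (-(a * y * (Real.exp (-(2 * s)) * p + Real.exp (2 * s) * q)))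
      ≤ (a * y * 6 * (p + q)) * Real.exp (-(2 * (a * (y / 6) * (p + q)))) :=
        mul_le_mul h1 hg0 (Real.exp_pos _).le (by positivity)
    _ = _ := by ring

theorem g2_bound144b {a y p q s : ℝ} (ha : 0 < a) (hy : 0 < y) (hp : 0 < p) (hq : 0 < q)
    (hs : |s| < 1 / 2) :
    |g2_144b a y p q s|
      ≤ (a * y * 12 * (p + q) + (a * y * 6) ^ 2 * (p + q) ^ 2)
        * Real.exp (-(2 * (a * (y / 6) * (p + q)))) := by
  obtain ⟨l1, u1, l2, u2⟩ := exp_two_mul_bounds144b hs
  have hg0 := g0_bound144b ha hy hp hq hs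
  unfold g0_144b at hg0
  rw [abs_of_pos (Real.exp_pos _)] at hg0
  unfold g2_144b
  rw [abs_mul, abs_of_pos (Real.exp_pos _)]
  have hay : 0 < a * y := mul_pos ha hy
  have h1 : |a * y * (-2 * Real.exp (-(2 * s)) * p + 2 * Real.exp (2 * s) * q)|
      ≤ a * y * 6 * (p + q) := by
    rw [abs_mul, abs_of_pos hay]
    have : |-2 * Real.exp (-(2 * s)) * p + 2 * Real.exp (2 * s) * q| ≤ 6 * (p + q) := by
      rw [abs_le]
      constructor <;> nlinarith
    nlinarith
  have h2 : (a * y * (-2 * Real.exp (-(2 * s)) * p + 2 * Real.exp (2 * s) * q)) ^ 2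
      ≤ (a * y * 6) ^ 2 * (p + q) ^ 2 := by
    rw [← mul_pow, ← sq_abs (a * y * (-2 * Real.exp (-(2 * s)) * p + 2 * Real.exp (2 * s) * q))]
    exact pow_le_pow_left₀ (abs_nonneg _) h1 2
  have h3 : 0 ≤ a * y * (4 * Real.exp (-(2 * s)) * p + 4 * Real.exp (2 * s) * q) := by
    have : 0 ≤ 4 * Real.exp (-(2 * s)) * p + 4 * Real.exp (2 * s) * q := by nlinarith
    positivity
  have h4 : a * y * (4 * Real.exp (-(2 * s)) * p + 4 * Real.exp (2 * s) * q)
      ≤ a * y * 12 * (p + q) := by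
    have : 4 * Real.exp (-(2 * s)) * p + 4 * Real.exp (2 * s) * q ≤ 12 * (p + q) := by nlinarith
    nlinarith
  have h5 : |(a * y * (-2 * Real.exp (-(2 * s)) * p + 2 * Real.exp (2 * s) * q)) ^ 2
      - a * y * (4 * Real.exp (-(2 * s)) * p + 4 * Real.exp (2 * s) * q)|
      ≤ a * y * 12 * (p + q) + (a * y * 6) ^ 2 * (p + q) ^ 2 := by
    rw [abs_le]
    constructor
    · nlinarith [sq_nonneg (a * y * (-2 * Real.exp (-(2 * s)) * p + 2 * Real.exp (2 * s) * q)),
        sq_nonneg ((a * y * 6) * (p + q))]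
    · nlinarith [sq_nonneg (a * y * (-2 * Real.exp (-(2 * s)) * p + 2 * Real.exp (2 * s) * q))]
  exact mul_le_mul h5 hg0 (Real.exp_pos _).le (by positivity)


/-! ## The main theorem, real-exponential form -/

section Main

variable {X : Type} [MeasurableSpace X] {μ : Measure X} {a : ℝ} {A : X → ℂ} {p q : X → ℝ}

theorem aemeas_k0_144b (hp : AEMeasurable p μ) (hq : AEMeasurable q μ) (y : ℝ) :
    AEMeasurable (fun m => Real.exp (-(a * y * (p m + q m)))) μ :=
  Real.measurable_exp.comp_aemeasurable (((hp.add hq).const_mul (a * y)).neg)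

theorem aemeas_k1_144b (hp : AEMeasurable p μ) (hq : AEMeasurable q μ) (y : ℝ) :
    AEMeasurable (fun m => -(a * (p m + q m)) * Real.exp (-(a * y * (p m + q m)))) μ :=
  (((hp.add hq).const_mul a).neg).mul (aemeas_k0_144b hp hq y)

theorem aemeas_k2_144b (hp : AEMeasurable p μ) (hq : AEMeasurable q μ) (y : ℝ) :
    AEMeasurable (fun m => (a * (p m + q m)) ^ 2 * Real.exp (-(a * y * (p m + q m)))) μ :=
  ((((hp.add hq).const_mul a)).pow_const 2).mul (aemeas_k0_144b hp hq y)

theorem aemeas_g0_144b (hp : AEMeasurable p μ) (hq : AEMeasurable q μ) (y s : ℝ) :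
    AEMeasurable (fun m => g0_144b a y (p m) (q m) s) μ := by
  unfold g0_144b
  exact Real.measurable_exp.comp_aemeasurable
    (((((hp.const_mul (Real.exp (-(2 * s)))).add (hq.const_mul (Real.exp (2 * s)))).const_mul
      (a * y))).neg)

theorem aemeas_g1_144b (hp : AEMeasurable p μ) (hq : AEMeasurable q μ) (y s : ℝ) :
    AEMeasurable (fun m => g1_144b a y (p m) (q m) s) μ := by
  have h0 := aemeas_g0_144b (a := a) hp hq y s
  unfold g0_144b at h0
  unfold g1_144b
  exact ((((hp.const_mul (-2 * Real.exp (-(2 * s)))).add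
    (hq.const_mul (2 * Real.exp (2 * s)))).const_mul (a * y)).neg).mul h0

theorem aemeas_g2_144b (hp : AEMeasurable p μ) (hq : AEMeasurable q μ) (y s : ℝ) :
    AEMeasurable (fun m => g2_144b a y (p m) (q m) s) μ := by
  have h0 := aemeas_g0_144b (a := a) hp hq y s
  unfold g0_144b at h0
  unfold g2_144b
  exact ((((((hp.const_mul (-2 * Real.exp (-(2 * s)))).add
    (hq.const_mul (2 * Real.exp (2 * s)))).const_mul (a * y))).pow_const 2).sub
    (((hp.const_mul (4 * Real.exp (-(2 * s)))).add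
      (hq.const_mul (4 * Real.exp (2 * s)))).const_mul (a * y))).mul h0

/-- First derivative of `J` (with the integrability of the derived integrand). -/
theorem hasDerivAt_J_144b (ha : 0 < a) (hA : AEStronglyMeasurable A μ) (hp : AEMeasurable p μ)
    (hq : AEMeasurable q μ) (hpq : ∀ᵐ m ∂μ, 0 < p m ∧ 0 < q m ∧ p m * q m = 1)
    (hint : ∀ y : ℝ, 0 < y →
      Integrable (fun m => A m * ((Real.exp (-(a * y * (p m + q m))) : ℝ) : ℂ)) μ)
    {y₀ : ℝ} (hy₀ : 0 < y₀) :
    Integrable (fun m => A m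
      * ((-(a * (p m + q m)) * Real.exp (-(a * y₀ * (p m + q m))) : ℝ) : ℂ)) μ ∧
    HasDerivAt (fun y : ℝ => ∫ m, A m * ((Real.exp (-(a * y * (p m + q m))) : ℝ) : ℂ) ∂μ)
      (∫ m, A m * ((-(a * (p m + q m)) * Real.exp (-(a * y₀ * (p m + q m))) : ℝ) : ℂ) ∂μ)
      y₀ := by
  have hS : ∀ᵐ m ∂μ, 0 ≤ p m + q m := hpq.mono fun m h => by linarith [h.1, h.2.1]
  refine hasDerivAt_integral_kernel144b (μ := μ) hA (S := fun m => p m + q m) hS
    (k := fun y m => Real.exp (-(a * y * (p m + q m))))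
    (k' := fun y m => -(a * (p m + q m)) * Real.exp (-(a * y * (p m + q m))))
    (t₀ := y₀) (δ := y₀ / 2) (by positivity) (fun y => aemeas_k0_144b hp hq y)
    (aemeas_k1_144b hp hq y₀) (hint y₀ hy₀) (c₁ := a) (c₂ := 0) (ε := a * (y₀ / 4))
    (by positivity) ha.le le_rfl (hint (y₀ / 4) (by positivity)) ?_ ?_
  · filter_upwards [hS] with m hSm y hy
    rw [Metric.mem_ball, Real.dist_eq] at hy
    have hy' : y₀ / 2 < y := by have := (abs_lt.mp hy).1; linarith
    rw [abs_mul, abs_of_pos (Real.exp_pos _), abs_neg, abs_of_nonneg (by positivity)]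
    have h1 : Real.exp (-(a * y * (p m + q m)))
        ≤ Real.exp (-(2 * (a * (y₀ / 4) * (p m + q m)))) := by
      apply Real.exp_le_exp.mpr
      have : a * (y₀ / 2) * (p m + q m) ≤ a * y * (p m + q m) := by
        apply mul_le_mul_of_nonneg_right _ hSm
        exact mul_le_mul_of_nonneg_left hy'.le ha.le
      linarith
    calc a * (p m + q m) * Real.exp (-(a * y * (p m + q m)))
        ≤ a * (p m + q m) * Real.exp (-(2 * (a * (y₀ / 4) * (p m + q m)))) :=
          mul_le_mul_of_nonneg_left h1 (by positivity)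
      _ = _ := by ring
  · intro m y _
    exact hasDerivAt_k0_144b a (p m + q m) y

/-- Second derivative of `J`. -/
theorem hasDerivAt_J1_144b (ha : 0 < a) (hA : AEStronglyMeasurable A μ) (hp : AEMeasurable p μ)
    (hq : AEMeasurable q μ) (hpq : ∀ᵐ m ∂μ, 0 < p m ∧ 0 < q m ∧ p m * q m = 1)
    (hint : ∀ y : ℝ, 0 < y →
      Integrable (fun m => A m * ((Real.exp (-(a * y * (p m + q m))) : ℝ) : ℂ)) μ)
    {y₀ : ℝ} (hy₀ : 0 < y₀) :
    Integrable (fun m => A m
      * (((a * (p m + q m)) ^ 2 * Real.exp (-(a * y₀ * (p m + q m))) : ℝ) : ℂ)) μ ∧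
    HasDerivAt (fun y : ℝ => ∫ m, A m
        * ((-(a * (p m + q m)) * Real.exp (-(a * y * (p m + q m))) : ℝ) : ℂ) ∂μ)
      (∫ m, A m * (((a * (p m + q m)) ^ 2 * Real.exp (-(a * y₀ * (p m + q m))) : ℝ) : ℂ) ∂μ)
      y₀ := by
  have hS : ∀ᵐ m ∂μ, 0 ≤ p m + q m := hpq.mono fun m h => by linarith [h.1, h.2.1]
  refine hasDerivAt_integral_kernel144b (μ := μ) hA (S := fun m => p m + q m) hS
    (k := fun y m => -(a * (p m + q m)) * Real.exp (-(a * y * (p m + q m))))
    (k' := fun y m => (a * (p m + q m)) ^ 2 * Real.exp (-(a * y * (p m + q m))))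
    (t₀ := y₀) (δ := y₀ / 2) (by positivity) (fun y => aemeas_k1_144b hp hq y)
    (aemeas_k2_144b hp hq y₀) (hasDerivAt_J_144b ha hA hp hq hpq hint hy₀).1
    (c₁ := 0) (c₂ := a ^ 2) (ε := a * (y₀ / 4))
    (by positivity) le_rfl (by positivity) (hint (y₀ / 4) (by positivity)) ?_ ?_
  · filter_upwards [hS] with m hSm y hy
    rw [Metric.mem_ball, Real.dist_eq] at hy
    have hy' : y₀ / 2 < y := by have := (abs_lt.mp hy).1; linarith
    rw [abs_mul, abs_of_pos (Real.exp_pos _), abs_of_nonneg (by positivity)]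
    have h1 : Real.exp (-(a * y * (p m + q m)))
        ≤ Real.exp (-(2 * (a * (y₀ / 4) * (p m + q m)))) := by
      apply Real.exp_le_exp.mpr
      have : a * (y₀ / 2) * (p m + q m) ≤ a * y * (p m + q m) := by
        apply mul_le_mul_of_nonneg_right _ hSm
        exact mul_le_mul_of_nonneg_left hy'.le ha.le
      linarith
    calc (a * (p m + q m)) ^ 2 * Real.exp (-(a * y * (p m + q m)))
        ≤ (a * (p m + q m)) ^ 2 * Real.exp (-(2 * (a * (y₀ / 4) * (p m + q m)))) :=
          mul_le_mul_of_nonneg_left h1 (by positivity)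
      _ = _ := by ring
  · intro m y _
    exact hasDerivAt_k1_144b a (p m + q m) y

/-- Integrability of the shifted kernel. -/
theorem integrable_g0_144b (ha : 0 < a) (hA : AEStronglyMeasurable A μ) (hp : AEMeasurable p μ)
    (hq : AEMeasurable q μ) (hpq : ∀ᵐ m ∂μ, 0 < p m ∧ 0 < q m ∧ p m * q m = 1)
    (hint : ∀ y : ℝ, 0 < y →
      Integrable (fun m => A m * ((Real.exp (-(a * y * (p m + q m))) : ℝ) : ℂ)) μ)
    {y : ℝ} (hy : 0 < y) {s : ℝ} (hs : |s| < 1 / 2) :
    Integrable (fun m => A m * ((g0_144b a y (p m) (q m) s : ℝ) : ℂ)) μ := by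
  have hB := hint (y / 3) (by positivity)
  refine Integrable.mono' hB.norm
    (hA.mul (Complex.measurable_ofReal.comp_aemeasurable
      (aemeas_g0_144b hp hq y s)).aestronglyMeasurable) ?_
  filter_upwards [hpq] with m hm
  have h := g0_bound144b ha hy hm.1 hm.2.1 hs
  rw [norm_mul, norm_mul, Complex.norm_real, Complex.norm_real, Real.norm_eq_abs,
    Real.norm_eq_abs, abs_of_pos (Real.exp_pos (-(a * (y / 3) * (p m + q m))))]
  apply mul_le_mul_of_nonneg_left _ (norm_nonneg _)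
  refine h.trans (le_of_eq ?_)
  congr 1
  ring

/-- First derivative in `s`. -/
theorem hasDerivAt_G_144b (ha : 0 < a) (hA : AEStronglyMeasurable A μ) (hp : AEMeasurable p μ)
    (hq : AEMeasurable q μ) (hpq : ∀ᵐ m ∂μ, 0 < p m ∧ 0 < q m ∧ p m * q m = 1)
    (hint : ∀ y : ℝ, 0 < y →
      Integrable (fun m => A m * ((Real.exp (-(a * y * (p m + q m))) : ℝ) : ℂ)) μ)
    {y : ℝ} (hy : 0 < y) {s₀ : ℝ} (hs₀ : |s₀| < 1 / 4) :
    Integrable (fun m => A m * ((g1_144b a y (p m) (q m) s₀ : ℝ) : ℂ)) μ ∧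
    HasDerivAt (fun s : ℝ => ∫ m, A m * ((g0_144b a y (p m) (q m) s : ℝ) : ℂ) ∂μ)
      (∫ m, A m * ((g1_144b a y (p m) (q m) s₀ : ℝ) : ℂ) ∂μ) s₀ := by
  have hS : ∀ᵐ m ∂μ, 0 ≤ p m + q m := hpq.mono fun m h => by linarith [h.1, h.2.1]
  refine hasDerivAt_integral_kernel144b (μ := μ) hA (S := fun m => p m + q m) hS
    (k := fun s m => g0_144b a y (p m) (q m) s)
    (k' := fun s m => g1_144b a y (p m) (q m) s)
    (t₀ := s₀) (δ := 1 / 4) (by norm_num) (fun s => aemeas_g0_144b hp hq y s)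
    (aemeas_g1_144b hp hq y s₀)
    (integrable_g0_144b ha hA hp hq hpq hint hy (hs₀.trans (by norm_num)))
    (c₁ := a * y * 6) (c₂ := 0) (ε := a * (y / 6))
    (by positivity) (by positivity) le_rfl (hint (y / 6) (by positivity)) ?_ ?_
  · filter_upwards [hpq] with m hm s hs
    rw [Metric.mem_ball, Real.dist_eq] at hs
    have hs' : |s| < 1 / 2 := by
      have h1 := abs_lt.mp hs
      have h2 := abs_lt.mp hs₀
      rw [abs_lt]
      constructor <;> linarith
    exact g1_bound144b ha hy hm.1 hm.2.1 hs'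
  · intro m s _
    exact hasDerivAt_g0_144b a y (p m) (q m) s

/-- Second derivative in `s` at `0`. -/
theorem hasDerivAt_G1_144b (ha : 0 < a) (hA : AEStronglyMeasurable A μ) (hp : AEMeasurable p μ)
    (hq : AEMeasurable q μ) (hpq : ∀ᵐ m ∂μ, 0 < p m ∧ 0 < q m ∧ p m * q m = 1)
    (hint : ∀ y : ℝ, 0 < y →
      Integrable (fun m => A m * ((Real.exp (-(a * y * (p m + q m))) : ℝ) : ℂ)) μ)
    {y : ℝ} (hy : 0 < y) :
    HasDerivAt (fun s : ℝ => ∫ m, A m * ((g1_144b a y (p m) (q m) s : ℝ) : ℂ) ∂μ)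
      (∫ m, A m * ((g2_144b a y (p m) (q m) 0 : ℝ) : ℂ) ∂μ) 0 := by
  have hS : ∀ᵐ m ∂μ, 0 ≤ p m + q m := hpq.mono fun m h => by linarith [h.1, h.2.1]
  refine (hasDerivAt_integral_kernel144b (μ := μ) hA (S := fun m => p m + q m) hS
    (k := fun s m => g1_144b a y (p m) (q m) s)
    (k' := fun s m => g2_144b a y (p m) (q m) s)
    (t₀ := 0) (δ := 1 / 4) (by norm_num) (fun s => aemeas_g1_144b hp hq y s)
    (aemeas_g2_144b hp hq y 0)
    (hasDerivAt_G_144b ha hA hp hq hpq hint hy (s₀ := 0) (by norm_num)).1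
    (c₁ := a * y * 12) (c₂ := (a * y * 6) ^ 2) (ε := a * (y / 6))
    (by positivity) (by positivity) (by positivity) (hint (y / 6) (by positivity)) ?_ ?_).2
  · filter_upwards [hpq] with m hm s hs
    rw [Metric.mem_ball, Real.dist_eq, sub_zero] at hs
    exact g2_bound144b ha hy hm.1 hm.2.1 (hs.trans (by norm_num))
  · intro m s _
    exact hasDerivAt_g1_144b a y (p m) (q m) s

/-- The pointwise identity behind the Bessel equation (`p q = 1`). -/
theorem g2_zero_144b (a y p q : ℝ) (hpq : p * q = 1) :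
    g2_144b a y p q 0
      = (4 * y) * (y * ((a * (p + q)) ^ 2 * Real.exp (-(a * y * (p + q))))
          + (-(a * (p + q)) * Real.exp (-(a * y * (p + q))))
          - (4 * a ^ 2 * y) * Real.exp (-(a * y * (p + q)))) := by
  unfold g2_144b
  simp only [mul_zero, neg_zero, Real.exp_zero, mul_one, one_mul]
  linear_combination (-16 * Real.exp (-(a * y * (p + q))) * a ^ 2 * y ^ 2) * hpq

/-- **The Bessel equation, real-exponential form.** -/
theorem bessel_core144b (ha : 0 < a) (hA : AEStronglyMeasurable A μ) (hp : AEMeasurable p μ)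
    (hq : AEMeasurable q μ) (hpq : ∀ᵐ m ∂μ, 0 < p m ∧ 0 < q m ∧ p m * q m = 1)
    (hint : ∀ y : ℝ, 0 < y →
      Integrable (fun m => A m * ((Real.exp (-(a * y * (p m + q m))) : ℝ) : ℂ)) μ)
    (hinv : ∀ y : ℝ, 0 < y → ∀ s : ℝ,
      ∫ m, A m * ((g0_144b a y (p m) (q m) s : ℝ) : ℂ) ∂μ
        = ∫ m, A m * ((Real.exp (-(a * y * (p m + q m))) : ℝ) : ℂ) ∂μ)
    {y : ℝ} (hy : 0 < y) :
    (y : ℂ) * (∫ m, A m
        * (((a * (p m + q m)) ^ 2 * Real.exp (-(a * y * (p m + q m))) : ℝ) : ℂ) ∂μ)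
      + (∫ m, A m * ((-(a * (p m + q m)) * Real.exp (-(a * y * (p m + q m))) : ℝ) : ℂ) ∂μ)
      - ((4 * a ^ 2 * y : ℝ) : ℂ)
        * (∫ m, A m * ((Real.exp (-(a * y * (p m + q m))) : ℝ) : ℂ) ∂μ) = 0 := by
  -- `G' = 0` near `0`
  have hG1 : ∀ s₀ : ℝ, |s₀| < 1 / 4 →
      (∫ m, A m * ((g1_144b a y (p m) (q m) s₀ : ℝ) : ℂ) ∂μ) = 0 := by
    intro s₀ hs₀
    have h1 := (hasDerivAt_G_144b ha hA hp hq hpq hint hy hs₀).2
    have h2 : (fun s : ℝ => ∫ m, A m * ((g0_144b a y (p m) (q m) s : ℝ) : ℂ) ∂μ)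
        = fun _ => ∫ m, A m * ((Real.exp (-(a * y * (p m + q m))) : ℝ) : ℂ) ∂μ := by
      funext s
      exact hinv y hy s
    rw [h2] at h1
    exact h1.unique (hasDerivAt_const s₀ _)
  -- `G''(0) = 0`
  have hG2 : (∫ m, A m * ((g2_144b a y (p m) (q m) 0 : ℝ) : ℂ) ∂μ) = 0 := by
    have h1 := hasDerivAt_G1_144b ha hA hp hq hpq hint hy
    have h2 : (fun s : ℝ => ∫ m, A m * ((g1_144b a y (p m) (q m) s : ℝ) : ℂ) ∂μ)
        =ᶠ[nhds 0] fun _ => (0 : ℂ) := by
      have hball : Metric.ball (0 : ℝ) (1 / 4) ∈ nhds (0 : ℝ) :=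
        Metric.ball_mem_nhds 0 (by norm_num)
      filter_upwards [hball] with s hs
      rw [Metric.mem_ball, Real.dist_eq, sub_zero] at hs
      exact hG1 s hs
    have h3 : HasDerivAt (fun s : ℝ => ∫ m, A m * ((g1_144b a y (p m) (q m) s : ℝ) : ℂ) ∂μ)
        (0 : ℂ) 0 := (hasDerivAt_const (0 : ℝ) (0 : ℂ)).congr_of_eventuallyEq h2
    exact h1.unique h3
  -- linearity
  have hI0 := hint y hy
  have hI1 := (hasDerivAt_J_144b ha hA hp hq hpq hint hy).1
  have hI2 := (hasDerivAt_J1_144b ha hA hp hq hpq hint hy).1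
  have e : (∫ m, A m * ((g2_144b a y (p m) (q m) 0 : ℝ) : ℂ) ∂μ)
      = ∫ m, ((4 * y : ℝ) : ℂ) * (((y : ℂ) * (A m
          * (((a * (p m + q m)) ^ 2 * Real.exp (-(a * y * (p m + q m))) : ℝ) : ℂ))
        + A m * ((-(a * (p m + q m)) * Real.exp (-(a * y * (p m + q m))) : ℝ) : ℂ))
        - ((4 * a ^ 2 * y : ℝ) : ℂ)
          * (A m * ((Real.exp (-(a * y * (p m + q m))) : ℝ) : ℂ))) ∂μ := by
    apply integral_congr_ae
    filter_upwards [hpq] with m hm
    rw [g2_zero_144b a y (p m) (q m) hm.2.2]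
    push_cast
    ring
  have i2 : Integrable (fun m => (y : ℂ) * (A m
      * (((a * (p m + q m)) ^ 2 * Real.exp (-(a * y * (p m + q m))) : ℝ) : ℂ))) μ :=
    hI2.const_mul _
  have i21 : Integrable (fun m => (y : ℂ) * (A m
        * (((a * (p m + q m)) ^ 2 * Real.exp (-(a * y * (p m + q m))) : ℝ) : ℂ))
      + A m * ((-(a * (p m + q m)) * Real.exp (-(a * y * (p m + q m))) : ℝ) : ℂ)) μ :=
    i2.add hI1
  have i0 : Integrable (fun m => ((4 * a ^ 2 * y : ℝ) : ℂ)
      * (A m * ((Real.exp (-(a * y * (p m + q m))) : ℝ) : ℂ))) μ := hI0.const_mul _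
  rw [e, integral_const_mul, integral_sub i21 i0, integral_add i2 hI1, integral_const_mul,
    integral_const_mul] at hG2
  have h4 : ((4 * y : ℝ) : ℂ) ≠ 0 := by
    rw [Ne, Complex.ofReal_eq_zero]
    positivity
  exact (mul_eq_zero.mp hG2).resolve_left h4

end Main

end Fermat.Agent.LT.A2.H144

end

end
-- ===== PACK-END LT/A2/H144/BesselCore.lean

-- ===== PACK-BEGIN LT/A2/H312/SAMink.lean
section


/-!
# Row LT, tower A2, leaf A2.03.1.1.10.09 (helper312): small elements of `𝓞 K`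

Mathlib only.  OFF-MAIN.

* `exists_small_inf312`: nonzero integers which are small at every infinite place but one
  (Minkowski).
* `exists_small_fin312`: nonzero integers which are small at finitely many finite places.
* `norm_factorial_tendsto312`: `n !` tends to zero at every finite place.
-/

set_option autoImplicit false
set_option linter.unusedSectionVars false

open IsDedekindDomain NumberField Filter Topology
open scoped NNReal

noncomputable section

namespace Fermat.Agent.LT.A2.H312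

variable {K : Type} [Field K] [NumberField K]

/-- the norm of an integer at a finite place -/
def nrmF (v : HeightOneSpectrum (𝓞 K)) (a : 𝓞 K) : ℝ :=
  ‖algebraMap K (v.adicCompletion K) (algebraMap (𝓞 K) K a)‖

theorem nrmF_le_one (v : HeightOneSpectrum (𝓞 K)) (a : 𝓞 K) : nrmF v a ≤ 1 :=
  NumberField.FinitePlace.norm_le_one K v a

theorem nrmF_nonneg (v : HeightOneSpectrum (𝓞 K)) (a : 𝓞 K) : 0 ≤ nrmF v a := norm_nonneg _

theorem nrmF_mul (v : HeightOneSpectrum (𝓞 K)) (a b : 𝓞 K) :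
    nrmF v (a * b) = nrmF v a * nrmF v b := by
  unfold nrmF
  rw [map_mul, map_mul, norm_mul]

theorem nrmF_one (v : HeightOneSpectrum (𝓞 K)) : nrmF v (1 : 𝓞 K) = 1 := by
  unfold nrmF
  rw [map_one, map_one, norm_one]

theorem nrmF_pow (v : HeightOneSpectrum (𝓞 K)) (a : 𝓞 K) (n : ℕ) :
    nrmF v (a ^ n) = nrmF v a ^ n := by
  unfold nrmF
  rw [map_pow, map_pow, norm_pow]

theorem nrmF_lt_one_of_mem {v : HeightOneSpectrum (𝓞 K)} {a : 𝓞 K} (h : a ∈ v.asIdeal) :
    nrmF v a < 1 :=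
  (NumberField.FinitePlace.norm_lt_one_iff_mem K v a).2 h

/-- the absolute norm of `v`, as an element of `𝓞 K` -/
def piOf (v : HeightOneSpectrum (𝓞 K)) : 𝓞 K := ((Ideal.absNorm v.asIdeal : ℕ) : 𝓞 K)

theorem piOf_mem (v : HeightOneSpectrum (𝓞 K)) : piOf v ∈ v.asIdeal :=
  Ideal.absNorm_mem v.asIdeal

theorem piOf_ne_zero (v : HeightOneSpectrum (𝓞 K)) : piOf v ≠ 0 := by
  unfold piOf
  have h := HeightOneSpectrum.one_lt_absNorm v
  have : (Ideal.absNorm v.asIdeal : ℕ) ≠ 0 := by omega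
  exact_mod_cast this

theorem nrmF_piOf_lt_one (v : HeightOneSpectrum (𝓞 K)) : nrmF v (piOf v) < 1 :=
  nrmF_lt_one_of_mem (piOf_mem v)

/-- a nonzero integer which is smaller than `1 / M` at `v` -/
theorem exists_small_at312 (v : HeightOneSpectrum (𝓞 K)) {M : ℝ} (hM : 1 ≤ M) :
    ∃ D : 𝓞 K, D ≠ 0 ∧ nrmF v D * M ≤ 1 := by
  have hpos : (0 : ℝ) < 1 / M := by positivity
  obtain ⟨n, hn⟩ := exists_pow_lt_of_lt_one hpos (nrmF_piOf_lt_one v)
  refine ⟨piOf v ^ n, pow_ne_zero _ (piOf_ne_zero v), ?_⟩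
  rw [nrmF_pow]
  have hM0 : 0 < M := by linarith
  calc nrmF v (piOf v) ^ n * M ≤ (1 / M) * M := mul_le_mul_of_nonneg_right hn.le hM0.le
    _ = 1 := by field_simp

/-- a nonzero integer which is smaller than `1 / M v` at every place `v` of a finite set -/
theorem exists_small_fin312 (S : Finset (HeightOneSpectrum (𝓞 K)))
    (M : HeightOneSpectrum (𝓞 K) → ℝ) (hM : ∀ v, 1 ≤ M v) :
    ∃ D : 𝓞 K, D ≠ 0 ∧ ∀ v ∈ S, nrmF v D * M v ≤ 1 := by
  classical
  choose Dv hDv0 hDv using fun v => exists_small_at312 (K := K) v (hM v)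
  refine ⟨∏ v ∈ S, Dv v, Finset.prod_ne_zero_iff.2 (fun v _ => hDv0 v), fun v hv => ?_⟩
  rw [← Finset.mul_prod_erase S Dv hv, nrmF_mul]
  have h1 : nrmF v (∏ x ∈ S.erase v, Dv x) ≤ 1 := nrmF_le_one v _
  have h0 : 0 ≤ M v := le_trans zero_le_one (hM v)
  calc nrmF v (Dv v) * nrmF v (∏ x ∈ S.erase v, Dv x) * M v
      ≤ nrmF v (Dv v) * 1 * M v :=
        mul_le_mul_of_nonneg_right (mul_le_mul_of_nonneg_left h1 (nrmF_nonneg v _)) h0
    _ = nrmF v (Dv v) * M v := by rw [mul_one]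
    _ ≤ 1 := hDv v

/-- **Minkowski**: a nonzero integer which is small at every infinite place but `u` -/
theorem exists_small_inf312 (u : InfinitePlace K) (f : InfinitePlace K → ℝ)
    (hf : ∀ w, 0 < f w) :
    ∃ a : 𝓞 K, a ≠ 0 ∧ ∀ w : InfinitePlace K, w ≠ u → w (a : K) < f w := by
  let f' : InfinitePlace K → ℝ≥0 := fun w => ⟨f w, (hf w).le⟩
  have hf' : ∀ w, w ≠ u → f' w ≠ 0 := by
    intro w _ h
    have := congrArg NNReal.toReal h
    simp only [f', NNReal.coe_zero] at this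
    exact (hf w).ne' this
  have hlt := NumberField.mixedEmbedding.minkowskiBound_lt_top K
    (1 : (FractionalIdeal (nonZeroDivisors (𝓞 K)) K)ˣ)
  set B : ℝ≥0 := (NumberField.mixedEmbedding.minkowskiBound K
    (1 : (FractionalIdeal (nonZeroDivisors (𝓞 K)) K)ˣ)).toNNReal + 1 with hB
  obtain ⟨g, hg1, hg2⟩ := NumberField.mixedEmbedding.adjust_f K (w₁ := u) B hf'
  have h1 : NumberField.mixedEmbedding.minkowskiBound K
      (1 : (FractionalIdeal (nonZeroDivisors (𝓞 K)) K)ˣ) < (B : ENNReal) := by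
    rw [hB]
    push_cast
    rw [ENNReal.coe_toNNReal hlt.ne]
    exact ENNReal.lt_add_right hlt.ne one_ne_zero
  have h2 : (B : ENNReal) ≤ (NumberField.mixedEmbedding.convexBodyLTFactor K : ENNReal) * B := by
    have := NumberField.mixedEmbedding.one_le_convexBodyLTFactor K
    calc (B : ENNReal) = 1 * B := (one_mul _).symm
      _ ≤ _ := mul_le_mul_left (by exact_mod_cast this) _
  obtain ⟨a, ha0, ha⟩ :=
    NumberField.mixedEmbedding.exists_ne_zero_mem_ringOfIntegers_lt K (f := g) (by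
      rw [NumberField.mixedEmbedding.convexBodyLT_volume, hg2]
      exact lt_of_lt_of_le h1 h2)
  refine ⟨a, ha0, fun w hw => ?_⟩
  have := ha w
  rw [hg1 w hw] at this
  exact this

/-! ## factorials -/

theorem nrmF_natCast_le_one (v : HeightOneSpectrum (𝓞 K)) (m : ℕ) : nrmF v (m : 𝓞 K) ≤ 1 :=
  nrmF_le_one v _

theorem nrmF_factorial_le (v : HeightOneSpectrum (𝓞 K)) (n : ℕ) :
    nrmF v ((n.factorial : ℕ) : 𝓞 K)
      ≤ nrmF v (piOf v) ^ (n / Ideal.absNorm v.asIdeal) := by
  induction n with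
  | zero => simp [nrmF_one]
  | succ n ih =>
    have hρ0 := nrmF_nonneg v (piOf v)
    have hρ1 := (nrmF_piOf_lt_one v).le
    rw [Nat.factorial_succ, Nat.cast_mul, nrmF_mul]
    by_cases hd : Ideal.absNorm v.asIdeal ∣ n + 1
    · obtain ⟨m, hm⟩ := hd
      have h1 : nrmF v ((n + 1 : ℕ) : 𝓞 K) ≤ nrmF v (piOf v) := by
        rw [hm, Nat.cast_mul, nrmF_mul]
        calc nrmF v ((Ideal.absNorm v.asIdeal : ℕ) : 𝓞 K) * nrmF v (m : 𝓞 K)
            ≤ nrmF v ((Ideal.absNorm v.asIdeal : ℕ) : 𝓞 K) * 1 :=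
              mul_le_mul_of_nonneg_left (nrmF_natCast_le_one v m) (nrmF_nonneg v _)
          _ = nrmF v (piOf v) := by rw [mul_one]; rfl
      have h2 : (n + 1) / Ideal.absNorm v.asIdeal = n / Ideal.absNorm v.asIdeal + 1 := by
        rw [Nat.succ_div, if_pos ⟨m, hm⟩]
      rw [h2, pow_succ, mul_comm]
      exact mul_le_mul ih h1 (nrmF_nonneg v _) (pow_nonneg hρ0 _)
    · have h2 : (n + 1) / Ideal.absNorm v.asIdeal = n / Ideal.absNorm v.asIdeal := by
        rw [Nat.succ_div, if_neg hd, add_zero]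
      rw [h2]
      calc nrmF v ((n + 1 : ℕ) : 𝓞 K) * nrmF v ((n.factorial : ℕ) : 𝓞 K)
          ≤ 1 * nrmF v ((n.factorial : ℕ) : 𝓞 K) :=
            mul_le_mul_of_nonneg_right (nrmF_natCast_le_one v _) (nrmF_nonneg v _)
        _ = nrmF v ((n.factorial : ℕ) : 𝓞 K) := one_mul _
        _ ≤ _ := ih

theorem nrmF_factorial_tendsto312 (v : HeightOneSpectrum (𝓞 K)) :
    Tendsto (fun n : ℕ => nrmF v ((n.factorial : ℕ) : 𝓞 K)) atTop (𝓝 0) := by
  have hN : 0 < Ideal.absNorm v.asIdeal := by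
    have := HeightOneSpectrum.one_lt_absNorm v
    omega
  have h1 : Tendsto (fun n : ℕ => n / Ideal.absNorm v.asIdeal) atTop atTop :=
    Nat.tendsto_div_const_atTop hN.ne'
  have h2 : Tendsto (fun n : ℕ => nrmF v (piOf v) ^ (n / Ideal.absNorm v.asIdeal)) atTop (𝓝 0) :=
    (tendsto_pow_atTop_nhds_zero_of_lt_one (nrmF_nonneg v _) (nrmF_piOf_lt_one v)).comp h1
  exact squeeze_zero (fun n => nrmF_nonneg v _) (nrmF_factorial_le v) h2

theorem factorial_ne_zero312 (n : ℕ) : ((n.factorial : ℕ) : 𝓞 K) ≠ 0 := by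
  have := Nat.factorial_ne_zero n
  exact_mod_cast this

end Fermat.Agent.LT.A2.H312

end
end
-- ===== PACK-END LT/A2/H312/SAMink.lean

-- ===== PACK-BEGIN LT/A2/H314/TorCore.lean
section


/-!
# Row LT, tower A2, leaf A2.03.8.5.8 `H254.DecompC254` (helper314): the algebra of the torus

OFF-MAIN.  Mathlib only.  `torM314 t n a b` is the matrix of the multiplication by `a + b ω`
(`ω² - t ω + n = 0`) in the basis `1, ω`; it is the same matrix as `A2.torMat t n a b`.

* `torM314_mul`, `torM314_det`, `torM314_adjugate`, `torM314_smul`, `torM314_inj`;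
* `torSub314 t n : Subgroup (GL (Fin 2) R)`, the torus, and `torSub314_comm`.
-/

set_option autoImplicit false

open Matrix

namespace Fermat.Agent.LT.A2.H314

/-- The matrix of the multiplication by `a + b ω` in the basis `1, ω` (same as `A2.torMat`). -/
def torM314 {R : Type*} [CommRing R] (t n a b : R) : Matrix (Fin 2) (Fin 2) R :=
  !![a, -(n * b); b, a + t * b]

section Ring

variable {R : Type*} [CommRing R] (t n : R)

theorem torM314_mul (a b a' b' : R) :
    torM314 t n a b * torM314 t n a' b'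
      = torM314 t n (a * a' - n * b * b') (a * b' + b * a' + t * b * b') := by
  unfold torM314
  ext i j
  fin_cases i <;> fin_cases j <;> simp [Matrix.mul_apply, Fin.sum_univ_two] <;> ring

theorem torM314_one : torM314 t n 1 0 = 1 := by
  unfold torM314
  ext i j
  fin_cases i <;> fin_cases j <;> simp

theorem torM314_det (a b : R) : (torM314 t n a b).det = a ^ 2 + t * a * b + n * b ^ 2 := by
  unfold torM314
  rw [Matrix.det_fin_two_of]
  ring

theorem torM314_adjugate (a b : R) :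
    (torM314 t n a b).adjugate = torM314 t n (a + t * b) (-b) := by
  unfold torM314
  rw [Matrix.adjugate_fin_two_of]
  ext i j
  fin_cases i <;> fin_cases j <;> simp

theorem torM314_smul (x a b : R) : x • torM314 t n a b = torM314 t n (x * a) (x * b) := by
  unfold torM314
  ext i j
  fin_cases i <;> fin_cases j <;> simp <;> ring

theorem torM314_inj {a b a' b' : R} (h : torM314 t n a b = torM314 t n a' b') :
    a = a' ∧ b = b' := by
  have h0 := congrFun (congrFun h 0) 0
  have h1 := congrFun (congrFun h 1) 0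
  simp [torM314] at h0 h1
  exact ⟨h0, h1⟩

theorem torM314_comm (a b a' b' : R) :
    torM314 t n a b * torM314 t n a' b' = torM314 t n a' b' * torM314 t n a b := by
  rw [torM314_mul, torM314_mul]
  congr 1 <;> ring

theorem torM314_apply_zero_zero (a b : R) : torM314 t n a b 0 0 = a := by simp [torM314]

theorem torM314_apply_one_zero (a b : R) : torM314 t n a b 1 0 = b := by simp [torM314]

theorem torM314_map {S : Type*} [CommRing S] (f : R →+* S) (a b : R) :
    (torM314 t n a b).map f = torM314 (f t) (f n) (f a) (f b) := by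
  unfold torM314
  ext i j
  fin_cases i <;> fin_cases j <;> simp

/-- The torus `{a + b ω}` as a subgroup of `GL₂(R)`. -/
def torSub314 : Subgroup (GL (Fin 2) R) where
  carrier := {g | ∃ a b : R, (g : Matrix (Fin 2) (Fin 2) R) = torM314 t n a b}
  one_mem' := ⟨1, 0, by rw [torM314_one]; rfl⟩
  mul_mem' := by
    rintro g h ⟨a, b, hg⟩ ⟨a', b', hh⟩
    exact ⟨_, _, by rw [Units.val_mul, hg, hh, torM314_mul]⟩
  inv_mem' := by
    rintro g ⟨a, b, hg⟩
    refine ⟨Ring.inverse (torM314 t n a b).det * (a + t * b),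
      Ring.inverse (torM314 t n a b).det * -b, ?_⟩
    rw [Matrix.coe_units_inv, Matrix.inv_def, hg, torM314_adjugate, torM314_smul]

theorem mem_torSub314 {g : GL (Fin 2) R} :
    g ∈ torSub314 t n ↔ ∃ a b : R, (g : Matrix (Fin 2) (Fin 2) R) = torM314 t n a b :=
  Iff.rfl

theorem torSub314_comm {g h : GL (Fin 2) R} (hg : g ∈ torSub314 t n) (hh : h ∈ torSub314 t n) :
    g * h = h * g := by
  obtain ⟨a, b, hg⟩ := hg
  obtain ⟨a', b', hh⟩ := hh
  apply Units.ext
  rw [Units.val_mul, Units.val_mul, hg, hh, torM314_comm]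

/-- The torus is a commutative group. -/
instance torSub314_commGroup : CommGroup (torSub314 t n) :=
  { (inferInstance : Group (torSub314 t n)) with
    mul_comm := fun g h => Subtype.ext (torSub314_comm t n g.2 h.2) }

end Ring

end Fermat.Agent.LT.A2.H314

end
-- ===== PACK-END LT/A2/H314/TorCore.lean

-- ===== PACK-BEGIN LT/H701/GL23.lean
section


/-!
# Row LT, block IDENT (helper701): the finite group `GL₂(𝔽₃)`

Explicit elements `i, j` (generators of `Q8`), `u` (unipotent), `d = diag(-1, 1)`, the brute-force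
facts

* `mem_closure_of_q8_h701`: `Q8 = {g | det g = 1 ∧ g ^ 4 = 1} ⊆ ⟨i, j⟩`;
* `exists_pow_q8_h701`: every `g` of determinant one is `q * u ^ (-k)` with `q ∈ Q8`;
* `det_mul_gd_h701`: `det (g * d) = 1` when `det g ≠ 1`;

and the consequence `hom_eq_h701`: a homomorphism `χ` from `GL₂(𝔽₃)` to any group that kills
`i, j` and for which `χ d`, `χ u` commute is trivial on `SL₂(𝔽₃)` and constant on its complement.
-/

set_option autoImplicit false

open Matrix

namespace Fermat.Agent.LT.H701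

/-- The matrix `i`. -/
def gi_h701 : GL (Fin 2) (ZMod 3) := ⟨!![0, 2; 1, 0], !![0, 1; 2, 0], by decide, by decide⟩

/-- The matrix `j`. -/
def gj_h701 : GL (Fin 2) (ZMod 3) := ⟨!![1, 1; 1, 2], !![2, 2; 2, 1], by decide, by decide⟩

/-- The unipotent matrix `u`. -/
def gu_h701 : GL (Fin 2) (ZMod 3) := ⟨!![1, 1; 0, 1], !![1, 2; 0, 1], by decide, by decide⟩

/-- The diagonal matrix `d = diag(-1, 1)`. -/
def gd_h701 : GL (Fin 2) (ZMod 3) := ⟨!![2, 0; 0, 1], !![2, 0; 0, 1], by decide, by decide⟩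

theorem gi_mul_gi_h701 : gi_h701 * gi_h701 = -1 := Units.ext (by decide)

theorem gj_mul_gj_h701 : gj_h701 * gj_h701 = -1 := Units.ext (by decide)

theorem gi_mul_gj_h701 : gi_h701 * gj_h701 = -1 * (gj_h701 * gi_h701) := Units.ext (by decide)

theorem gd_mul_gd_h701 : gd_h701 * gd_h701 = 1 := Units.ext (by decide)

theorem gu_comm_h701 : gu_h701 = gd_h701 * gu_h701 * gd_h701⁻¹ * gu_h701⁻¹ :=
  Units.ext (by decide)

theorem neg_one_sq_h701 : (-1 : GL (Fin 2) (ZMod 3)) * -1 = 1 := Units.ext (by decide)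

theorem det_neg_one_h701 : Matrix.GeneralLinearGroup.det (-1 : GL (Fin 2) (ZMod 3)) = 1 :=
  Units.ext (by decide)

theorem neg_one_pow_four_h701 : (-1 : GL (Fin 2) (ZMod 3)) ^ 4 = 1 := Units.ext (by decide)

theorem val_eq_of_h701 (g : GL (Fin 2) (ZMod 3)) :
    (g : Matrix (Fin 2) (Fin 2) (ZMod 3)) = !![g.val 0 0, g.val 0 1; g.val 1 0, g.val 1 1] :=
  Matrix.eta_fin_two _

theorem bf1_h701 : ∀ a b c e : ZMod 3, a * e - b * c = 1 →
    (!![a, b; c, e] : Matrix (Fin 2) (Fin 2) (ZMod 3)) ^ 4 = 1 →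
    (!![a, b; c, e] : Matrix (Fin 2) (Fin 2) (ZMod 3)) = (1 : GL (Fin 2) (ZMod 3)).val ∨
    !![a, b; c, e] = gi_h701.val ∨ !![a, b; c, e] = (gi_h701 * gi_h701).val ∨
    !![a, b; c, e] = (gi_h701 * gi_h701 * gi_h701).val ∨
    !![a, b; c, e] = gj_h701.val ∨ !![a, b; c, e] = (gj_h701 * gj_h701 * gj_h701).val ∨
    !![a, b; c, e] = (gi_h701 * gj_h701).val ∨ !![a, b; c, e] = (gj_h701 * gi_h701).val := by
  decide

theorem bf2_h701 : ∀ a b c e : ZMod 3, a * e - b * c = 1 →
    (!![a, b; c, e] : Matrix (Fin 2) (Fin 2) (ZMod 3)) ^ 4 = 1 ∨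
    ((!![a, b; c, e] : Matrix (Fin 2) (Fin 2) (ZMod 3)) * gu_h701.val) ^ 4 = 1 ∨
    ((!![a, b; c, e] : Matrix (Fin 2) (Fin 2) (ZMod 3)) * (gu_h701 * gu_h701).val) ^ 4 = 1 := by
  decide

theorem bf3_h701 : ∀ x : (ZMod 3)ˣ, x ≠ 1 → x * Matrix.GeneralLinearGroup.det gd_h701 = 1 := by
  decide

theorem det_val_h701 (g : GL (Fin 2) (ZMod 3)) (h : Matrix.GeneralLinearGroup.det g = 1) :
    g.val 0 0 * g.val 1 1 - g.val 0 1 * g.val 1 0 = 1 := by
  have h1 : ((Matrix.GeneralLinearGroup.det g : (ZMod 3)ˣ) : ZMod 3) = 1 := by rw [h]; rfl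
  rw [Matrix.GeneralLinearGroup.val_det_apply, Matrix.det_fin_two] at h1
  exact h1

/-- `Q8 ⊆ ⟨i, j⟩`. -/
theorem mem_closure_of_q8_h701 (g : GL (Fin 2) (ZMod 3))
    (hdet : Matrix.GeneralLinearGroup.det g = 1) (h4 : g ^ 4 = 1) :
    g ∈ Subgroup.closure ({gi_h701, gj_h701} : Set (GL (Fin 2) (ZMod 3))) := by
  have hi : gi_h701 ∈ Subgroup.closure ({gi_h701, gj_h701} : Set (GL (Fin 2) (ZMod 3))) :=
    Subgroup.subset_closure (by simp)
  have hj : gj_h701 ∈ Subgroup.closure ({gi_h701, gj_h701} : Set (GL (Fin 2) (ZMod 3))) :=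
    Subgroup.subset_closure (by simp)
  have h4' : (!![g.val 0 0, g.val 0 1; g.val 1 0, g.val 1 1] :
      Matrix (Fin 2) (Fin 2) (ZMod 3)) ^ 4 = 1 := by
    rw [← val_eq_of_h701, ← Units.val_pow_eq_pow_val, h4]
    rfl
  have key := bf1_h701 _ _ _ _ (by linear_combination det_val_h701 g hdet) h4'
  rw [← val_eq_of_h701] at key
  rcases key with h | h | h | h | h | h | h | h
  · rw [Units.ext h]; exact Subgroup.one_mem _
  · rw [Units.ext h]; exact hi
  · rw [Units.ext h]; exact Subgroup.mul_mem _ hi hi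
  · rw [Units.ext h]; exact Subgroup.mul_mem _ (Subgroup.mul_mem _ hi hi) hi
  · rw [Units.ext h]; exact hj
  · rw [Units.ext h]; exact Subgroup.mul_mem _ (Subgroup.mul_mem _ hj hj) hj
  · rw [Units.ext h]; exact Subgroup.mul_mem _ hi hj
  · rw [Units.ext h]; exact Subgroup.mul_mem _ hj hi

/-- Every element of determinant one is in `Q8 · ⟨u⟩`. -/
theorem exists_pow_q8_h701 (g : GL (Fin 2) (ZMod 3))
    (hdet : Matrix.GeneralLinearGroup.det g = 1) :
    ∃ k : ℕ, (g * gu_h701 ^ k) ^ 4 = 1 := by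
  have key := bf2_h701 _ _ _ _ (by linear_combination det_val_h701 g hdet :
    g.val 0 0 * g.val 1 1 - g.val 0 1 * g.val 1 0 = 1)
  rw [← val_eq_of_h701] at key
  rcases key with h | h | h
  · refine ⟨0, Units.ext ?_⟩
    rw [pow_zero, mul_one, Units.val_pow_eq_pow_val, h]
    rfl
  · refine ⟨1, Units.ext ?_⟩
    rw [pow_one, Units.val_pow_eq_pow_val, Units.val_mul, h]
    rfl
  · refine ⟨2, Units.ext ?_⟩
    rw [pow_two, Units.val_pow_eq_pow_val, Units.val_mul, h]
    rfl

theorem det_gu_h701 : Matrix.GeneralLinearGroup.det gu_h701 = 1 := Units.ext (by decide)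

theorem det_mul_gd_h701 (g : GL (Fin 2) (ZMod 3))
    (hdet : Matrix.GeneralLinearGroup.det g ≠ 1) :
    Matrix.GeneralLinearGroup.det (g * gd_h701) = 1 := by
  rw [map_mul]
  exact bf3_h701 _ hdet

/-- A homomorphism from `GL₂(𝔽₃)` that kills `i`, `j` and for which the images of `d` and `u`
commute is trivial on `SL₂(𝔽₃)` and constant on the complement. -/
theorem hom_eq_h701 {H : Type*} [Group H] (χ : GL (Fin 2) (ZMod 3) →* H)
    (hi : χ gi_h701 = 1) (hj : χ gj_h701 = 1) (hc : Commute (χ gd_h701) (χ gu_h701))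
    (g : GL (Fin 2) (ZMod 3)) :
    (Matrix.GeneralLinearGroup.det g = 1 → χ g = 1) ∧
      (Matrix.GeneralLinearGroup.det g ≠ 1 → χ g = χ gd_h701) := by
  have hcl : Subgroup.closure ({gi_h701, gj_h701} : Set (GL (Fin 2) (ZMod 3))) ≤ χ.ker := by
    rw [Subgroup.closure_le]
    intro x hx
    rcases hx with hx | hx
    · rw [hx]; exact MonoidHom.mem_ker.mpr hi
    · rw [Set.mem_singleton_iff.mp hx]; exact MonoidHom.mem_ker.mpr hj
  have hu : χ gu_h701 = 1 := by
    have h := congrArg χ gu_comm_h701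
    rw [map_mul, map_mul, map_mul, map_inv, map_inv, hc.eq, mul_inv_cancel_right,
      mul_inv_cancel] at h
    exact h
  have hsl : ∀ x : GL (Fin 2) (ZMod 3), Matrix.GeneralLinearGroup.det x = 1 → χ x = 1 := by
    intro x hx
    obtain ⟨k, hk⟩ := exists_pow_q8_h701 x hx
    have hdet' : Matrix.GeneralLinearGroup.det (x * gu_h701 ^ k) = 1 := by
      rw [map_mul, map_pow, hx, det_gu_h701, one_pow, one_mul]
    have := MonoidHom.mem_ker.mp (hcl (mem_closure_of_q8_h701 _ hdet' hk))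
    rw [map_mul, map_pow, hu, one_pow, mul_one] at this
    exact this
  refine ⟨hsl g, fun hg => ?_⟩
  have h1 := hsl _ (det_mul_gd_h701 g hg)
  have h2 : χ gd_h701 * χ gd_h701 = 1 := by rw [← map_mul, gd_mul_gd_h701, map_one]
  rw [map_mul] at h1
  calc χ g = χ g * (χ gd_h701 * χ gd_h701) := by rw [h2, mul_one]
    _ = (χ g * χ gd_h701) * χ gd_h701 := by rw [mul_assoc]
    _ = χ gd_h701 := by rw [h1, one_mul]

end Fermat.Agent.LT.H701

end
-- ===== PACK-END LT/H701/GL23.lean

-- ===== PACK-BEGIN LT/T3/H534/PoissonAbs.lean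
section





/-!
# LT / T3 (and T1) — abstract Poisson summation (helper534)

Pure Mathlib.  `G` a locally compact abelian topological group with a Borel measure `μ`,
`Γ` a countable subgroup with compact quotient `G ⧸ Γ` and a fundamental domain `D` of finite
measure, `e : Ξ → G → ℂ` a system of unitary characters of `G`, trivial on `Γ`, parametrised by an
additive group `Ξ`, which separates the points of `G ⧸ Γ`.  Then for `φ : C(G, ℂ)` integrable,
locally normally summable over `Γ`, with summable Fourier coefficients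
`c ξ = ∫ φ x * e (-ξ) x ∂μ`:

  `μ(D) * ∑' γ : Γ, φ (x + γ) = ∑' ξ, c ξ * e ξ x`.

Reference: Tate's thesis, Lemma 4.2.4 / Theorem 4.2.1; proof = Stone–Weierstrass on `G ⧸ Γ`
(no Pontryagin duality is used).
-/

set_option autoImplicit false
set_option linter.style.haveILetI false
set_option linter.unusedSectionVars false

noncomputable section

namespace Fermat.Agent.LT.T3.H534

open MeasureTheory Filter Topology TopologicalSpace Set
open scoped Pointwise

variable {G : Type*} [AddCommGroup G] [TopologicalSpace G] [IsTopologicalAddGroup G]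

/-- A system of unitary characters of `G`, trivial on `Γ`, parametrised by an additive group `Ξ`,
separating the points of `G ⧸ Γ`, with `ξ ↦ e ξ` injective. -/
structure CharSys534 (Γ : AddSubgroup G) (Ξ : Type*) [AddCommGroup Ξ] where
  /-- the characters -/
  e : Ξ → G → ℂ
  cont : ∀ ξ, Continuous (e ξ)
  norm_one : ∀ ξ x, ‖e ξ x‖ = 1
  map_add : ∀ ξ x y, e ξ (x + y) = e ξ x * e ξ y
  add_map : ∀ ξ η x, e (ξ + η) x = e ξ x * e η x
  triv : ∀ ξ, ∀ γ ∈ Γ, e ξ γ = 1
  sep : ∀ x, x ∉ Γ → ∃ ξ, e ξ x ≠ 1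
  inj : ∀ ξ, (∀ x, e ξ x = 1) → ξ = 0

namespace CharSys534

variable {Γ : AddSubgroup G} {Ξ : Type*} [AddCommGroup Ξ] (S : CharSys534 Γ Ξ)

lemma ne_zero534 (ξ : Ξ) (x : G) : S.e ξ x ≠ 0 := by
  intro h
  have := S.norm_one ξ x
  rw [h, norm_zero] at this
  exact zero_ne_one this

lemma map_zero534 (ξ : Ξ) : S.e ξ 0 = 1 := by
  have h := S.map_add ξ 0 0
  rw [add_zero] at h
  have h0 := S.ne_zero534 ξ 0
  exact (mul_left_cancel₀ h0 (by rw [mul_one]; exact h)).symm

lemma zero_map534 (x : G) : S.e 0 x = 1 := by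
  have h := S.add_map 0 0 x
  rw [add_zero] at h
  have h0 := S.ne_zero534 0 x
  exact (mul_left_cancel₀ h0 (by rw [mul_one]; exact h)).symm

lemma neg_map534 (ξ : Ξ) (x : G) : S.e (-ξ) x = (S.e ξ x)⁻¹ := by
  have h := S.add_map (-ξ) ξ x
  rw [neg_add_cancel, S.zero_map534] at h
  exact eq_inv_of_mul_eq_one_left h.symm

lemma neg_map_conj534 (ξ : Ξ) (x : G) : S.e (-ξ) x = (starRingEnd ℂ) (S.e ξ x) := by
  rw [S.neg_map534, Complex.inv_def, Complex.normSq_eq_norm_sq, S.norm_one]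
  simp

lemma periodic534 (ξ : Ξ) (x : G) {γ : G} (hγ : γ ∈ Γ) : S.e ξ (x + γ) = S.e ξ x := by
  rw [S.map_add, S.triv ξ γ hγ, mul_one]

lemma rel534 (ξ : Ξ) (a b : G) (h : QuotientAddGroup.leftRel Γ a b) : S.e ξ a = S.e ξ b := by
  rw [QuotientAddGroup.leftRel_apply] at h
  have := S.periodic534 ξ a h
  rw [← this]
  congr 1
  abel

/-- The character `e ξ` as a continuous function on `G ⧸ Γ`. -/
def ebar534 (ξ : Ξ) : C(G ⧸ Γ, ℂ) where
  toFun := Quotient.lift (S.e ξ) (fun a b h => S.rel534 ξ a b h)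
  continuous_toFun := (S.cont ξ).quotient_lift _

@[simp] lemma ebar_mk534 (ξ : Ξ) (x : G) : S.ebar534 ξ (x : G ⧸ Γ) = S.e ξ x := rfl


/-! ### Stone–Weierstrass: the span of the characters is dense in `C(G ⧸ Γ, ℂ)` -/

/-- The star subalgebra of `C(G ⧸ Γ, ℂ)` generated by the characters. -/
def charSubalgebra534 : StarSubalgebra ℂ C(G ⧸ Γ, ℂ) where
  toSubalgebra := Algebra.adjoin ℂ (range S.ebar534)
  star_mem' := by
    change Algebra.adjoin ℂ (range S.ebar534) ≤ star (Algebra.adjoin ℂ (range S.ebar534))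
    refine Algebra.adjoin_le ?_
    rintro - ⟨ξ, rfl⟩
    refine Algebra.subset_adjoin ⟨-ξ, ?_⟩
    ext1 z
    induction z using QuotientAddGroup.induction_on with
    | H x =>
      simp only [ContinuousMap.star_apply, ebar_mk534]
      rw [S.neg_map_conj534]
      simp

theorem charSubalgebra_coe534 :
    Subalgebra.toSubmodule S.charSubalgebra534.toSubalgebra
      = Submodule.span ℂ (range S.ebar534) := by
  apply Algebra.adjoin_eq_span_of_subset
  refine Subset.trans ?_ Submodule.subset_span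
  intro x hx
  refine Submonoid.closure_induction (fun _ => id) ⟨0, ?_⟩ ?_ hx
  · ext1 z
    induction z using QuotientAddGroup.induction_on with
    | H x => simp [S.zero_map534]
  · rintro _ _ _ _ ⟨m, rfl⟩ ⟨n, rfl⟩
    refine ⟨m + n, ?_⟩
    ext1 z
    induction z using QuotientAddGroup.induction_on with
    | H x => simp [S.add_map]

theorem charSubalgebra_separatesPoints534 : S.charSubalgebra534.SeparatesPoints := by
  intro x y hxy
  induction x using QuotientAddGroup.induction_on with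
  | H a =>
  induction y using QuotientAddGroup.induction_on with
  | H b =>
  have hab : b - a ∉ Γ := by
    intro h
    apply hxy
    rw [QuotientAddGroup.eq]
    have : -a + b = b - a := by abel
    rw [this]; exact h
  obtain ⟨ξ, hξ⟩ := S.sep _ hab
  refine ⟨_, ⟨S.ebar534 ξ, Algebra.subset_adjoin ⟨ξ, rfl⟩, rfl⟩, ?_⟩
  simp only [ebar_mk534]
  intro h
  apply hξ
  have h1 : S.e ξ b = S.e ξ (b - a) * S.e ξ a := by
    rw [← S.map_add]; congr 1; abel
  rw [← h] at h1
  have h0 := S.ne_zero534 ξ a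
  have : S.e ξ (b - a) * S.e ξ a = 1 * S.e ξ a := by rw [one_mul]; exact h1.symm
  exact mul_right_cancel₀ h0 this

variable [CompactSpace (G ⧸ Γ)]

theorem span_ebar_closure_eq_top534 :
    (Submodule.span ℂ (range S.ebar534)).topologicalClosure = ⊤ := by
  rw [← S.charSubalgebra_coe534]
  exact congr_arg (Subalgebra.toSubmodule <| StarSubalgebra.toSubalgebra ·)
    (ContinuousMap.starSubalgebra_topologicalClosure_eq_top_of_separatesPoints
      S.charSubalgebra534 S.charSubalgebra_separatesPoints534)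


end CharSys534

/-! ### Integrals over a fundamental domain -/

section FD

variable [MeasurableSpace G] [BorelSpace G] {Γ : AddSubgroup G} [Countable Γ]
  {μ : Measure G} [μ.IsAddLeftInvariant] {D : Set G}

/-- The integral over a fundamental domain of a `Γ`-periodic function is invariant under all
translations of `G`. -/
theorem setIntegral_add_left534 (hD : IsAddFundamentalDomain Γ D μ) {f : G → ℂ}
    (hf : ∀ (γ : Γ) (x : G), f (γ +ᵥ x) = f x) (a : G) :
    ∫ x in D, f (a + x) ∂μ = ∫ x in D, f x ∂μ := by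
  have h1 : ∫ y in (a +ᵥ D), f y ∂μ = ∫ x in D, f (a +ᵥ x) ∂μ :=
    (measurePreserving_vadd a μ).setIntegral_image_emb (measurableEmbedding_const_vadd a) f D
  have h2 : ∫ y in (a +ᵥ D), f y ∂μ = ∫ y in D, f y ∂μ :=
    (hD.vadd_of_comm a).setIntegral_eq hD hf
  rw [← h2, h1]
  rfl

/-- Unfolding: the integral over `G` of an integrable function is the integral over the
fundamental domain of its periodisation. -/
theorem integral_eq_setIntegral_tsum534 (hD : IsAddFundamentalDomain Γ D μ) {f : G → ℂ}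
    (hf : Integrable f μ) :
    ∫ x, f x ∂μ = ∫ x in D, ∑' γ : Γ, f (γ +ᵥ x) ∂μ := by
  rw [hD.integral_eq_tsum'' f hf]
  symm
  apply integral_tsum
  · intro γ
    exact (hf.aestronglyMeasurable.comp_measurePreserving
      (measurePreserving_vadd γ μ)).restrict
  · have := hD.lintegral_eq_tsum'' (fun x => ‖f x‖ₑ)
    rw [← this]
    exact hf.2.ne

end FD

namespace CharSys534

variable {Γ : AddSubgroup G} {Ξ : Type*} [AddCommGroup Ξ] (S : CharSys534 Γ Ξ)
variable [MeasurableSpace G] [BorelSpace G] [Countable Γ]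
  {μ : Measure G} [μ.IsAddLeftInvariant] {D : Set G}

lemma periodic_vadd534 (ξ : Ξ) (γ : Γ) (x : G) : S.e ξ (γ +ᵥ x) = S.e ξ x := by
  change S.e ξ ((γ : G) + x) = S.e ξ x
  rw [add_comm]
  exact S.periodic534 ξ x γ.2

/-- Orthogonality: a nontrivial character integrates to `0` over the fundamental domain. -/
theorem setIntegral_e_eq_zero534 (hD : IsAddFundamentalDomain Γ D μ) {ξ : Ξ} (hξ : ξ ≠ 0) :
    ∫ x in D, S.e ξ x ∂μ = 0 := by
  have hex : ∃ a, S.e ξ a ≠ 1 := by
    by_contra hcon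
    simp only [not_exists, not_not] at hcon
    exact hξ (S.inj ξ hcon)
  obtain ⟨a, ha⟩ := hex
  have h1 := setIntegral_add_left534 hD (f := S.e ξ) (S.periodic_vadd534 ξ) a
  have h2 : ∫ x in D, S.e ξ (a + x) ∂μ = S.e ξ a * ∫ x in D, S.e ξ x ∂μ := by
    rw [← integral_const_mul]
    congr 1
    funext x
    exact S.map_add ξ a x
  rw [h2] at h1
  have h3 : (S.e ξ a - 1) * ∫ x in D, S.e ξ x ∂μ = 0 := by
    rw [sub_mul, one_mul, h1, sub_self]
  rcases mul_eq_zero.1 h3 with h | h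
  · exact absurd (sub_eq_zero.1 h) ha
  · exact h

theorem setIntegral_e_zero534 : ∫ x in D, S.e 0 x ∂μ = ((μ D).toReal : ℂ) := by
  simp only [S.zero_map534]
  rw [setIntegral_const]
  simp [Measure.real]


/-! ### Uniqueness: a continuous function on `G ⧸ Γ` with vanishing coefficients is zero -/

omit [IsTopologicalAddGroup G] [BorelSpace G] [Countable Γ] [μ.IsAddLeftInvariant] in
lemma mk_vadd534 (γ : Γ) (x : G) : ((γ +ᵥ x : G) : G ⧸ Γ) = (x : G ⧸ Γ) := by
  rw [QuotientAddGroup.eq]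
  change -((γ : G) + x) + x ∈ Γ
  have : -((γ : G) + x) + x = -(γ : G) := by abel
  rw [this]
  exact Γ.neg_mem γ.2

omit [IsTopologicalAddGroup G] [Countable Γ] [μ.IsAddLeftInvariant] in
lemma integrableOn_pull534 [CompactSpace (G ⧸ Γ)] (hDfin : μ D ≠ ⊤) (f : C(G ⧸ Γ, ℂ)) :
    IntegrableOn (fun x : G => f (x : G ⧸ Γ)) D μ := by
  refine IntegrableOn.of_bound hDfin.lt_top ?_ ‖f‖
    (Eventually.of_forall fun x => f.norm_coe_le_norm _)
  exact (f.continuous.comp continuous_quotient_mk').aestronglyMeasurable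

theorem eq_zero_of_coeff534 [CompactSpace (G ⧸ Γ)] [μ.IsOpenPosMeasure]
    (hD : IsAddFundamentalDomain Γ D μ) (hDfin : μ D ≠ ⊤) (h : C(G ⧸ Γ, ℂ))
    (hcoef : ∀ ξ, ∫ x in D, h (x : G ⧸ Γ) * S.e ξ x ∂μ = 0) : h = 0 := by
  set L : C(G ⧸ Γ, ℂ) → ℂ := fun f => ∫ x in D, h (x : G ⧸ Γ) * f (x : G ⧸ Γ) ∂μ with hL
  have hint : ∀ f : C(G ⧸ Γ, ℂ),
      IntegrableOn (fun x : G => h (x : G ⧸ Γ) * f (x : G ⧸ Γ)) D μ :=
    fun f => integrableOn_pull534 hDfin (h * f)
  have hadd : ∀ f g, L (f + g) = L f + L g := by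
    intro f g
    simp only [hL, ContinuousMap.add_apply, mul_add]
    exact integral_add (hint f) (hint g)
  have hsmul : ∀ (c : ℂ) f, L (c • f) = c * L f := by
    intro c f
    simp only [hL, ContinuousMap.smul_apply, smul_eq_mul]
    rw [← integral_const_mul]
    congr 1; funext x; ring
  have hspan : ∀ f ∈ Submodule.span ℂ (range S.ebar534), L f = 0 := by
    intro f hf
    induction hf using Submodule.span_induction with
    | mem f hf => obtain ⟨ξ, rfl⟩ := hf; exact hcoef ξ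
    | zero => simp [hL]
    | add f g _ _ hf hg => rw [hadd, hf, hg, add_zero]
    | smul c f _ hf => rw [hsmul, hf, mul_zero]
  have hbound : ∀ f g, ‖L f - L g‖ ≤ ‖h‖ * (μ D).toReal * ‖f - g‖ := by
    intro f g
    have h1 : L f - L g = ∫ x in D, h (x : G ⧸ Γ) * (f - g) (x : G ⧸ Γ) ∂μ := by
      simp only [hL, ContinuousMap.sub_apply, mul_sub]
      exact (integral_sub (hint f) (hint g)).symm
    rw [h1]
    have h2 := norm_setIntegral_le_of_norm_le_const (μ := μ) (s := D)
      (f := fun x : G => h (x : G ⧸ Γ) * (f - g) (x : G ⧸ Γ)) (C := ‖h‖ * ‖f - g‖)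
      hDfin.lt_top (by
        intro x _
        rw [norm_mul]
        exact mul_le_mul (h.norm_coe_le_norm _) ((f - g).norm_coe_le_norm _) (norm_nonneg _)
          (norm_nonneg _))
    refine h2.trans (le_of_eq ?_)
    simp only [Measure.real]
    ring
  have hall : ∀ f, L f = 0 := by
    intro f
    have hf : f ∈ (Submodule.span ℂ (range S.ebar534)).topologicalClosure := by
      rw [S.span_ebar_closure_eq_top534]; trivial
    by_contra hne
    have hpos : 0 < ‖L f‖ := norm_pos_iff.2 hne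
    set c : ℝ := ‖h‖ * (μ D).toReal with hc
    have hc0 : 0 ≤ c := mul_nonneg (norm_nonneg _) ENNReal.toReal_nonneg
    have hε : 0 < ‖L f‖ / (c + 1) := div_pos hpos (by linarith)
    have hf' : f ∈ closure ((Submodule.span ℂ (range S.ebar534) : Set C(G ⧸ Γ, ℂ))) := hf
    obtain ⟨g, hg, hdist⟩ := Metric.mem_closure_iff.1 hf' _ hε
    have h1 := hbound f g
    rw [hspan g hg, sub_zero] at h1
    rw [dist_eq_norm] at hdist
    have h2 : c * ‖f - g‖ ≤ c * (‖L f‖ / (c + 1)) := mul_le_mul_of_nonneg_left hdist.le hc0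
    have h3 : c * (‖L f‖ / (c + 1)) < (c + 1) * (‖L f‖ / (c + 1)) :=
      mul_lt_mul_of_pos_right (by linarith) hε
    have h4 : (c + 1) * (‖L f‖ / (c + 1)) = ‖L f‖ := by
      field_simp
    linarith
  -- apply to `star h`
  have hstar := hall (star h)
  have h5 : ∫ x in D, ‖h (x : G ⧸ Γ)‖ ^ 2 ∂μ = 0 := by
    have h6 : ∫ x in D, ((‖h (x : G ⧸ Γ)‖ ^ 2 : ℝ) : ℂ) ∂μ = 0 := by
      rw [← hstar]
      simp only [hL]
      congr 1
      funext x
      rw [ContinuousMap.star_apply]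
      simp only [Complex.star_def, Complex.mul_conj, Complex.normSq_eq_norm_sq]
    rw [integral_complex_ofReal] at h6
    exact_mod_cast h6
  have hcontn : Continuous fun x : G => ‖h (x : G ⧸ Γ)‖ ^ 2 :=
    ((h.continuous.comp continuous_quotient_mk').norm).pow 2
  have hint2 : IntegrableOn (fun x : G => ‖h (x : G ⧸ Γ)‖ ^ 2) D μ := by
    refine IntegrableOn.of_bound hDfin.lt_top hcontn.aestronglyMeasurable (‖h‖ ^ 2)
      (Eventually.of_forall fun x => ?_)
    rw [Real.norm_eq_abs, abs_of_nonneg (by positivity)]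
    exact pow_le_pow_left₀ (norm_nonneg _) (h.norm_coe_le_norm _) 2
  have h7 := (setIntegral_eq_zero_iff_of_nonneg_ae
    (Eventually.of_forall fun x => by positivity) hint2).1 h5
  set U : Set G := {x | h (x : G ⧸ Γ) ≠ 0} with hU
  have hUo : IsOpen U := by
    have : Continuous fun x : G => h (x : G ⧸ Γ) := h.continuous.comp continuous_quotient_mk'
    exact isOpen_ne_fun this continuous_const
  have hUD : μ (U ∩ D) = 0 := by
    have h8 : μ.restrict D U = 0 := by
      have : U = {x | ¬ ((fun x : G => ‖h (x : G ⧸ Γ)‖ ^ 2) x = (0 : G → ℝ) x)} := by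
        ext x
        simp [hU]
      rw [this]
      exact h7
    rwa [Measure.restrict_apply hUo.measurableSet] at h8
  have hUinv : ∀ γ : Γ, γ +ᵥ U = U := by
    intro γ
    ext x
    rw [Set.mem_vadd_set_iff_neg_vadd_mem]
    simp only [hU, Set.mem_ofPred_eq]
    rw [mk_vadd534]
  have hU0 : μ U = 0 := hD.measure_zero_of_invariant U hUinv hUD
  have hUe : U = ∅ := (hUo.measure_eq_zero_iff μ).1 hU0
  ext z
  induction z using QuotientAddGroup.induction_on with
  | H x =>
    by_contra hx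
    have : x ∈ U := hx
    rw [hUe] at this
    exact this


/-! ### Poisson summation -/

/-- The Fourier coefficient `c ξ = ∫ φ x * e (-ξ) x ∂μ`. -/
def coeff534 (μ : Measure G) (φ : G → ℂ) (ξ : Ξ) : ℂ := ∫ x, φ x * S.e (-ξ) x ∂μ

lemma norm_ebar_le534 [CompactSpace (G ⧸ Γ)] (ξ : Ξ) : ‖S.ebar534 ξ‖ ≤ 1 := by
  rw [ContinuousMap.norm_le _ zero_le_one]
  intro z
  induction z using QuotientAddGroup.induction_on with
  | H x => rw [ebar_mk534, S.norm_one]

omit [Countable Γ] [μ.IsAddLeftInvariant] in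
lemma integrableOn_e534 (hDfin : μ D ≠ ⊤) (ξ : Ξ) : IntegrableOn (S.e ξ) D μ :=
  IntegrableOn.of_bound hDfin.lt_top (S.cont ξ).aestronglyMeasurable 1
    (Eventually.of_forall fun x => (S.norm_one ξ x).le)

/-- The coefficients of the periodisation (unfolding). -/
theorem setIntegral_tsum_mul_e534 (hD : IsAddFundamentalDomain Γ D μ)
    {φ : G → ℂ} (hφi : Integrable φ μ) (ξ : Ξ) :
    ∫ x in D, (∑' γ : Γ, φ (x + γ)) * S.e ξ x ∂μ = ∫ x, φ x * S.e ξ x ∂μ := by
  have hint : Integrable (fun x => φ x * S.e ξ x) μ :=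
    hφi.mul_bdd (c := 1) (S.cont ξ).aestronglyMeasurable
      (Eventually.of_forall fun x => (S.norm_one ξ x).le)
  rw [integral_eq_setIntegral_tsum534 hD hint]
  congr 1
  funext x
  rw [← tsum_mul_right]
  congr 1
  funext γ
  rw [S.periodic_vadd534]
  congr 2
  change x + (γ : G) = (γ : G) + x
  abel

/-- **Abstract Poisson summation** (pointwise form). -/
theorem poisson_pointwise534 [LocallyCompactSpace G] [CompactSpace (G ⧸ Γ)]
    [μ.IsOpenPosMeasure] [Countable Ξ]
    (hD : IsAddFundamentalDomain Γ D μ) (hDfin : μ D ≠ ⊤)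
    (φ : C(G, ℂ)) (hφi : Integrable φ μ)
    (hφ : ∀ K : Compacts G,
      Summable fun γ : Γ => ‖(φ.comp (ContinuousMap.addRight (γ : G))).restrict K‖)
    (hc : Summable fun ξ => ‖S.coeff534 μ φ ξ‖) (x : G) :
    ((μ D).toReal : ℂ) * ∑' γ : Γ, φ (x + γ) = ∑' ξ, S.coeff534 μ φ ξ * S.e ξ x := by
  classical
  -- the periodisation
  have hsumΦ : Summable fun γ : Γ => φ.comp (ContinuousMap.addRight (γ : G)) :=
    ContinuousMap.summable_of_locally_summable_norm hφ
  set Φ : C(G, ℂ) := ∑' γ : Γ, φ.comp (ContinuousMap.addRight (γ : G)) with hΦ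
  have hΦapp : ∀ y, Φ y = ∑' γ : Γ, φ (y + γ) := fun y => by
    rw [hΦ, ← ContinuousMap.tsum_apply hsumΦ]
    rfl
  have hΦper : ∀ (γ : Γ) (y : G), Φ (γ +ᵥ y) = Φ y := by
    intro γ y
    rw [hΦapp, hΦapp, ← (Equiv.addLeft γ).tsum_eq (fun γ' : Γ => φ (y + γ'))]
    congr 1
    funext γ'
    congr 1
    change (γ : G) + y + (γ' : G) = y + ((γ + γ' : Γ) : G)
    push_cast
    abel
  have hΦrel : ∀ a b : G, QuotientAddGroup.leftRel Γ a b → Φ a = Φ b := by
    intro a b hab
    rw [QuotientAddGroup.leftRel_apply] at hab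
    have := hΦper ⟨-a + b, hab⟩ a
    rw [← this]
    congr 1
    change (-a + b) + a = b
    abel
  let Φbar : C(G ⧸ Γ, ℂ) := ⟨Quotient.lift Φ hΦrel, Φ.continuous.quotient_lift _⟩
  have hΦbar : ∀ y : G, Φbar (y : G ⧸ Γ) = Φ y := fun y => rfl
  -- the Fourier series
  have hsumΨ : Summable fun ξ => S.coeff534 μ φ ξ • S.ebar534 ξ := by
    refine Summable.of_norm_bounded hc (fun ξ => ?_)
    rw [norm_smul]
    calc ‖S.coeff534 μ φ ξ‖ * ‖S.ebar534 ξ‖ ≤ ‖S.coeff534 μ φ ξ‖ * 1 :=
          mul_le_mul_of_nonneg_left (S.norm_ebar_le534 ξ) (norm_nonneg _)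
      _ = ‖S.coeff534 μ φ ξ‖ := mul_one _
  set Ψbar : C(G ⧸ Γ, ℂ) := ∑' ξ, S.coeff534 μ φ ξ • S.ebar534 ξ with hΨ
  have hΨapp : ∀ y : G, Ψbar (y : G ⧸ Γ) = ∑' ξ, S.coeff534 μ φ ξ * S.e ξ y := fun y => by
    rw [hΨ, ← ContinuousMap.tsum_apply hsumΨ]
    rfl
  -- coefficients of `Φ`
  have hcoefΦ : ∀ ξ, ∫ y in D, Φbar (y : G ⧸ Γ) * S.e ξ y ∂μ = S.coeff534 μ φ (-ξ) := by
    intro ξ
    have := S.setIntegral_tsum_mul_e534 hD hφi ξ
    simp only [hΦbar, hΦapp, coeff534, neg_neg]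
    exact this
  -- coefficients of `Ψ`
  have hcoefΨ : ∀ ξ, ∫ y in D, Ψbar (y : G ⧸ Γ) * S.e ξ y ∂μ
      = S.coeff534 μ φ (-ξ) * ((μ D).toReal : ℂ) := by
    intro ξ
    have h1 : ∀ y : G, Ψbar (y : G ⧸ Γ) * S.e ξ y
        = ∑' η, S.coeff534 μ φ η * S.e (η + ξ) y := by
      intro y
      rw [hΨapp, ← tsum_mul_right]
      congr 1
      funext η
      rw [S.add_map, mul_assoc]
    simp only [h1]
    have hFint : ∀ η, Integrable (fun y => S.coeff534 μ φ η * S.e (η + ξ) y) (μ.restrict D) :=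
      fun η => (S.integrableOn_e534 hDfin (η + ξ)).const_mul _
    have hnorm : ∀ η, ∫ y in D, ‖S.coeff534 μ φ η * S.e (η + ξ) y‖ ∂μ
        = ‖S.coeff534 μ φ η‖ * (μ D).toReal := by
      intro η
      simp only [norm_mul, S.norm_one, mul_one]
      rw [setIntegral_const]
      simp [Measure.real, mul_comm]
    rw [← integral_tsum_of_summable_integral_norm hFint (by
      simp only [hnorm]
      exact hc.mul_right _)]
    have h2 : ∀ η, ∫ y in D, S.coeff534 μ φ η * S.e (η + ξ) y ∂μ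
        = if η = -ξ then S.coeff534 μ φ (-ξ) * ((μ D).toReal : ℂ) else 0 := by
      intro η
      rw [integral_const_mul]
      split_ifs with hη
      · subst hη
        rw [neg_add_cancel, S.setIntegral_e_zero534]
      · have : η + ξ ≠ 0 := fun h0 => hη (eq_neg_of_add_eq_zero_left h0)
        rw [S.setIntegral_e_eq_zero534 hD this, mul_zero]
    simp only [h2]
    rw [tsum_eq_single (-ξ) (fun η hη => by rw [if_neg hη])]
    rw [if_pos rfl]
  -- uniqueness
  have key : ((μ D).toReal : ℂ) • Φbar - Ψbar = 0 := by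
    apply S.eq_zero_of_coeff534 hD hDfin
    intro ξ
    have h3 : ∀ y : G, (((μ D).toReal : ℂ) • Φbar - Ψbar) (y : G ⧸ Γ) * S.e ξ y
        = ((μ D).toReal : ℂ) * (Φbar (y : G ⧸ Γ) * S.e ξ y) - Ψbar (y : G ⧸ Γ) * S.e ξ y := by
      intro y
      simp only [ContinuousMap.sub_apply, ContinuousMap.smul_apply, smul_eq_mul]
      ring
    simp only [h3]
    have i1 : IntegrableOn (fun y : G => Φbar (y : G ⧸ Γ) * S.e ξ y) D μ :=
      integrableOn_pull534 hDfin (Φbar * S.ebar534 ξ)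
    have i2 : IntegrableOn (fun y : G => Ψbar (y : G ⧸ Γ) * S.e ξ y) D μ :=
      integrableOn_pull534 hDfin (Ψbar * S.ebar534 ξ)
    rw [integral_sub (i1.const_mul _) i2, integral_const_mul, hcoefΦ, hcoefΨ]
    ring
  have hx := congrArg (fun f : C(G ⧸ Γ, ℂ) => f (x : G ⧸ Γ)) key
  simp only [ContinuousMap.sub_apply, ContinuousMap.smul_apply, smul_eq_mul,
    ContinuousMap.zero_apply] at hx
  rw [hΦbar, hΦapp, hΨapp] at hx
  exact sub_eq_zero.1 hx

end CharSys534

end Fermat.Agent.LT.T3.H534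

end

end
-- ===== PACK-END LT/T3/H534/PoissonAbs.lean

-- ===== PACK-BEGIN LT/H767/AdeleDiscrete.lean
section


/-!
# Row LT, tower T1 (basics) — helper767: `K` is discrete in its adele ring

OFF-MAIN.  Mathlib only.

* `unitBox K` : the open set `{a | ‖a_v‖ < 1 (v ∣ ∞), a_v ∈ 𝒪_v (v finite)}` of `𝔸_K`.
* `eq_zero_of_mem_unitBox` : the only principal adele in `unitBox K` is `0`.
* `discreteTopology_principal` : the principal adeles form a discrete subgroup.
-/

set_option autoImplicit false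

open NumberField IsDedekindDomain IsDedekindDomain.HeightOneSpectrum

noncomputable section

namespace Fermat.Agent.LT.H767

variable (K : Type*) [Field K] [NumberField K]

/-- The standard open neighbourhood of `0` in the adele ring meeting `K` in `{0}`. -/
def unitBox : Set (AdeleRing (𝓞 K) K) :=
  {a | (∀ v : InfinitePlace K, ‖a.1 v‖ < 1) ∧
    ∀ v : HeightOneSpectrum (𝓞 K), a.2 v ∈ v.adicCompletionIntegers K}

theorem isOpen_unitBox : IsOpen (unitBox K) := by
  have h1 : IsOpen {x : InfiniteAdeleRing K | ∀ v : InfinitePlace K, ‖x v‖ < 1} := by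
    have : {x : InfiniteAdeleRing K | ∀ v : InfinitePlace K, ‖x v‖ < 1}
        = ⋂ v : InfinitePlace K, (fun x : InfiniteAdeleRing K => x v) ⁻¹' {y | ‖y‖ < 1} := by
      ext x; simp
    rw [this]
    refine isOpen_iInter_of_finite fun v => ?_
    exact (isOpen_lt continuous_norm continuous_const).preimage (continuous_apply v)
  have h2 : IsOpen {f : FiniteAdeleRing (𝓞 K) K |
      ∀ v : HeightOneSpectrum (𝓞 K), f v ∈ v.adicCompletionIntegers K} :=
    RestrictedProduct.isOpen_forall_mem (fun v => Valued.isOpen_valuationSubring _)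
  exact h1.prod h2

theorem zero_mem_unitBox : (0 : AdeleRing (𝓞 K) K) ∈ unitBox K := by
  refine ⟨fun v => ?_, fun v => ?_⟩
  · change ‖(0 : v.Completion)‖ < 1
    simp
  · exact zero_mem _

theorem eq_zero_of_mem_unitBox (x : K) (hx : algebraMap K (AdeleRing (𝓞 K) K) x ∈ unitBox K) :
    x = 0 := by
  obtain ⟨h1, h2⟩ := hx
  have hint : x ∈ (algebraMap (𝓞 K) K).range := by
    refine mem_integers_of_valuation_le_one K x fun v => ?_
    have := h2 v
    rw [mem_adicCompletionIntegers] at this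
    rw [← valuedAdicCompletion_eq_valuation' v x]
    exact this
  obtain ⟨a, rfl⟩ := hint
  by_contra hne
  have ha : a ≠ 0 := fun h => hne (by simp [h])
  obtain ⟨w⟩ : Nonempty (InfinitePlace K) := inferInstance
  have hlt : ∀ z : InfinitePlace K, z (a : K) < 1 := by
    intro z
    have := h1 z
    have h3 : ‖((algebraMap K (AdeleRing (𝓞 K) K) ((algebraMap (𝓞 K) K) a)).1 z)‖
        = z ((algebraMap (𝓞 K) K) a) := by
      change ‖(((algebraMap (𝓞 K) K) a : K) : z.Completion)‖ = _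
      rw [InfinitePlace.Completion.norm_coe]
      rfl
    rw [h3] at this
    exact this
  have := InfinitePlace.one_le_of_lt_one (w := w) ha (fun z _ => hlt z)
  exact absurd (hlt w) (not_lt.mpr this)

theorem discreteTopology_principal :
    DiscreteTopology (AdeleRing.principalSubgroup (𝓞 K) K) := by
  apply discreteTopology_of_isOpen_singleton_zero
  have : ({0} : Set (AdeleRing.principalSubgroup (𝓞 K) K)) =
      (Subtype.val : AdeleRing.principalSubgroup (𝓞 K) K → AdeleRing (𝓞 K) K) ⁻¹' unitBox K := by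
    ext ⟨y, hy⟩
    simp only [Set.mem_singleton_iff, Set.mem_preimage]
    constructor
    · intro h
      have : y = 0 := by simpa using congrArg Subtype.val h
      subst this
      exact zero_mem_unitBox K
    · intro h
      obtain ⟨x, rfl⟩ := hy
      have := eq_zero_of_mem_unitBox K x h
      subst this
      ext
      simp
  rw [this]
  exact (isOpen_unitBox K).preimage continuous_subtype_val

end Fermat.Agent.LT.H767

end
end
-- ===== PACK-END LT/H767/AdeleDiscrete.lean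

-- ===== PACK-BEGIN LT/T1/H619/FujisakiAbs.lean
section


/-!
# Row LT, tower T1, sub-leaf T1.20 (helper619): the abstract Fujisaki lemma

OFF-MAIN.  Mathlib only, no definitions of automorphic objects.

`V` a commutative topological ring, locally compact, Hausdorff, second countable; `Λ` an
additive subgroup which meets every compact set in a finite set, is closed under multiplication
and whose nonzero elements are invertible with inverse in `Λ` (a discrete subfield);
`F` a compact set with `V = Λ + F`; `h` a unit of `V` whose module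
(`MeasureTheory.distribHaarChar V h`) is `< 1`.  Then

  `Vˣ = h^ℤ · Λˣ · (compact)`      (`fujisaki_ray619`).

This is the argument of Weil, *Basic Number Theory* IV §4 Thm 6 / Cassels–Fröhlich II §16
(Fujisaki's lemma) for an arbitrary `V`; it is applied in `EllipticCompact.lean` to
`V = 𝔸_K[γ]`, `Λ = K[γ]`, `h` = the scalar `1/2` at the infinite places.
-/

set_option autoImplicit false

namespace Fermat.Agent.LT.T1.H619

open MeasureTheory Set
open scoped NNReal ENNReal Pointwise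

section Abs

variable {V : Type*} [CommRing V] [TopologicalSpace V] [IsTopologicalRing V]
  [LocallyCompactSpace V] [T2Space V] [SecondCountableTopology V]
  [MeasurableSpace V] [BorelSpace V]

omit [CommRing V] [IsTopologicalRing V] [T2Space V] [MeasurableSpace V] [BorelSpace V] in
/-- A subset of a σ-compact space meeting every compact set in a finite set is countable. -/
lemma countable_of_finite_inter619 (L : Set V)
    (hfin : ∀ Q : Set V, IsCompact Q → (Q ∩ L).Finite) : L.Countable := by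
  have h : L ⊆ ⋃ n : ℕ, compactCovering V n ∩ L := by
    intro x hx
    obtain ⟨n, hn⟩ := Set.mem_iUnion.mp
      ((iUnion_compactCovering V).symm ▸ Set.mem_univ x : x ∈ ⋃ n, compactCovering V n)
    exact Set.mem_iUnion.mpr ⟨n, hn, hx⟩
  exact (Set.countable_iUnion fun n => (hfin _ (isCompact_compactCovering V n)).countable).mono h

omit [LocallyCompactSpace V] [T2Space V] [SecondCountableTopology V] in
/-- Blichfeldt's principle for a covering set `F` (no disjointness of the translates of `F`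
is needed): a measurable set of measure `> μ F` contains two distinct points which are congruent
modulo `Λ`. -/
lemma blichfeldt_cover619 (μ : Measure V) [μ.IsAddHaarMeasure] (Λ : AddSubgroup V)
    [Countable Λ] {F S : Set V} (hFm : MeasurableSet F)
    (hcov : ∀ x : V, ∃ ξ ∈ Λ, x - ξ ∈ F) (hS : MeasurableSet S) (h : μ F < μ S) :
    ∃ s₁ ∈ S, ∃ s₂ ∈ S, s₁ - s₂ ∈ Λ ∧ s₁ - s₂ ≠ 0 := by
  by_contra hcon
  push Not at hcon
  -- `T ξ = F ∩ (S - ξ)`
  set T : Λ → Set V := fun ξ => F ∩ (fun x => (ξ : V) + x) ⁻¹' S with hT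
  have hTm : ∀ ξ, MeasurableSet (T ξ) := fun ξ =>
    hFm.inter ((measurable_const_add (ξ : V)) hS)
  have hTd : Pairwise (Function.onFun Disjoint T) := by
    intro ξ η hne
    rw [Function.onFun, Set.disjoint_left]
    rintro x ⟨-, hxξ⟩ ⟨-, hxη⟩
    have h1 : ((ξ : V) + x) - ((η : V) + x) ∈ Λ := by
      have : ((ξ : V) + x) - ((η : V) + x) = (ξ : V) - (η : V) := by ring
      rw [this]; exact Λ.sub_mem ξ.2 η.2
    have h2 := hcon _ hxξ _ hxη h1
    have h3 : (ξ : V) = (η : V) := by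
      have : ((ξ : V) + x) - ((η : V) + x) = (ξ : V) - (η : V) := by ring
      rw [this, sub_eq_zero] at h2; exact h2
    exact hne (Subtype.ext h3)
  have hsum : ∑' ξ, μ (T ξ) ≤ μ F := by
    rw [← measure_iUnion hTd hTm]
    exact measure_mono (Set.iUnion_subset fun ξ => Set.inter_subset_left)
  have hScov : S ⊆ ⋃ ξ : Λ, (fun x => -(ξ : V) + x) ⁻¹' T ξ := by
    intro s hs
    obtain ⟨ξ, hξ, hF⟩ := hcov s
    refine Set.mem_iUnion.mpr ⟨⟨ξ, hξ⟩, ?_⟩
    refine ⟨?_, ?_⟩
    · change -ξ + s ∈ F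
      rwa [neg_add_eq_sub]
    · change ξ + (-ξ + s) ∈ S
      rwa [add_neg_cancel_left]
  have hle : μ S ≤ ∑' ξ, μ (T ξ) := by
    calc μ S ≤ μ (⋃ ξ : Λ, (fun x => -(ξ : V) + x) ⁻¹' T ξ) := measure_mono hScov
      _ ≤ ∑' ξ : Λ, μ ((fun x => -(ξ : V) + x) ⁻¹' T ξ) := measure_iUnion_le _
      _ = ∑' ξ, μ (T ξ) := by
          congr 1; funext ξ
          exact measure_preimage_add μ (-(ξ : V)) (T ξ)
  exact absurd (hle.trans hsum) (not_le.mpr h)

/-- Blichfeldt step: a unit `t` with `μ F < mod(t) μ Z` moves the difference of two points of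
`Z` into `Λ \ {0}`. -/
lemma exists_mul_mem_lattice619 (μ : Measure V) [μ.IsAddHaarMeasure] (Λ : AddSubgroup V)
    [Countable Λ] {F Z : Set V} (hFm : MeasurableSet F)
    (hcov : ∀ x : V, ∃ ξ ∈ Λ, x - ξ ∈ F) (hZ : IsCompact Z) (t : Vˣ)
    (hFZ : μ F < distribHaarChar V t * μ Z) :
    ∃ z₁ ∈ Z, ∃ z₂ ∈ Z, (t : V) * (z₁ - z₂) ∈ Λ ∧ (t : V) * (z₁ - z₂) ≠ 0 := by
  have hμ : μ (t • Z) = distribHaarChar V t * μ Z := (distribHaarChar_mul μ t Z).symm
  have hmeas : MeasurableSet (t • Z) := (hZ.smul t).measurableSet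
  obtain ⟨s₁, hs₁, s₂, hs₂, hΛ, h0⟩ :=
    blichfeldt_cover619 μ Λ hFm hcov hmeas (by rwa [hμ])
  obtain ⟨z₁, hz₁, rfl⟩ := Set.mem_smul_set.mp hs₁
  obtain ⟨z₂, hz₂, rfl⟩ := Set.mem_smul_set.mp hs₂
  have key : (t : V) * (z₁ - z₂) = t • z₁ - t • z₂ := by
    rw [mul_sub, Units.smul_def, Units.smul_def, smul_eq_mul, smul_eq_mul]
  exact ⟨z₁, hz₁, z₂, hz₂, by rw [key]; exact hΛ, by rw [key]; exact h0⟩

/-- **Fujisaki's lemma, abstract form, for units of bounded module.** -/
theorem fujisaki_bdd619 (μ : Measure V) [μ.IsAddHaarMeasure] (Λ : AddSubgroup V)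
    (hfin : ∀ Q : Set V, IsCompact Q → (Q ∩ (Λ : Set V)).Finite)
    (hmul : ∀ ξ ∈ Λ, ∀ η ∈ Λ, ξ * η ∈ Λ)
    (hinv : ∀ ξ ∈ Λ, ξ ≠ 0 → ∃ η ∈ Λ, ξ * η = 1)
    {F Z : Set V} (hFm : MeasurableSet F) (hcov : ∀ x : V, ∃ ξ ∈ Λ, x - ξ ∈ F)
    (hZ : IsCompact Z) (m : ℝ≥0) (hFZ : μ F < m * μ Z) :
    ∃ C : Set Vˣ, IsCompact C ∧ ∀ t : Vˣ, m ≤ distribHaarChar V t →
      m ≤ distribHaarChar V t⁻¹ →
      ∃ ξ : Vˣ, (ξ : V) ∈ Λ ∧ ((ξ⁻¹ : Vˣ) : V) ∈ Λ ∧ ξ⁻¹ * t ∈ C := by
  classical
  have : Countable Λ := (countable_of_finite_inter619 (Λ : Set V) hfin).to_subtype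
  -- the compact sets
  set W : Set V := (fun p : V × V => p.1 - p.2) '' (Z ×ˢ Z) with hWdef
  have hW : IsCompact W := (hZ.prod hZ).image (continuous_fst.sub continuous_snd)
  set WW : Set V := (fun p : V × V => p.1 * p.2) '' (W ×ˢ W) with hWWdef
  have hWW : IsCompact WW := (hW.prod hW).image (continuous_fst.mul continuous_snd)
  have hΦ : (WW ∩ (Λ : Set V)).Finite := hfin WW hWW
  set M : Set V := ⋃ φ ∈ hΦ.toFinset, (fun w : V => Ring.inverse φ * w) '' W with hMdef
  have hM : IsCompact M :=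
    hΦ.toFinset.isCompact_biUnion fun φ _ => hW.image (continuous_const.mul continuous_id)
  set C : Set Vˣ := Units.embedProduct V ⁻¹' (M ×ˢ (MulOpposite.op '' W)) with hCdef
  have hC : IsCompact C :=
    Units.isClosedEmbedding_embedProduct.isCompact_preimage
      (hM.prod (hW.image MulOpposite.continuous_op))
  refine ⟨C, hC, fun t ht ht' => ?_⟩
  have hlt : ∀ s : Vˣ, m ≤ distribHaarChar V s → μ F < distribHaarChar V s * μ Z := fun s hs =>
    hFZ.trans_le (mul_le_mul_left (ENNReal.coe_le_coe.mpr hs) _)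
  obtain ⟨z₁, hz₁, z₂, hz₂, hξΛ, hξ0⟩ :=
    exists_mul_mem_lattice619 μ Λ hFm hcov hZ t (hlt t ht)
  obtain ⟨z₃, hz₃, z₄, hz₄, hηΛ, hη0⟩ :=
    exists_mul_mem_lattice619 μ Λ hFm hcov hZ t⁻¹ (hlt t⁻¹ ht')
  set w : V := z₁ - z₂ with hw
  set w' : V := z₃ - z₄ with hw'
  have hwW : w ∈ W := ⟨(z₁, z₂), ⟨hz₁, hz₂⟩, rfl⟩
  have hw'W : w' ∈ W := ⟨(z₃, z₄), ⟨hz₃, hz₄⟩, rfl⟩
  obtain ⟨ξi, hξiΛ, hξi⟩ := hinv _ hξΛ hξ0
  obtain ⟨ηi, hηiΛ, hηi⟩ := hinv _ hηΛ hη0
  -- the unit ξ
  let ξ : Vˣ := ⟨(t : V) * w, ξi, hξi, by rw [mul_comm]; exact hξi⟩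
  have hξval : (ξ : V) = (t : V) * w := rfl
  have hξinv : ((ξ⁻¹ : Vˣ) : V) = ξi := rfl
  -- the element φ = ξ η = w w'
  have hφ : ((t : V) * w) * (((t⁻¹ : Vˣ) : V) * w') = w * w' := by
    have : (t : V) * ((t⁻¹ : Vˣ) : V) = 1 := by simp
    calc ((t : V) * w) * (((t⁻¹ : Vˣ) : V) * w')
        = ((t : V) * ((t⁻¹ : Vˣ) : V)) * (w * w') := by ring
      _ = w * w' := by rw [this, one_mul]
  have hφΛ : w * w' ∈ (Λ : Set V) := by
    rw [← hφ]; exact hmul _ hξΛ _ hηΛ
  have hφWW : w * w' ∈ WW := ⟨(w, w'), ⟨hwW, hw'W⟩, rfl⟩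
  have hφmem : w * w' ∈ hΦ.toFinset := by
    rw [Set.Finite.mem_toFinset]; exact ⟨hφWW, hφΛ⟩
  -- the inverse of φ
  have hφinv : (w * w') * (ξi * ηi) = 1 := by
    rw [← hφ]
    calc ((t : V) * w) * (((t⁻¹ : Vˣ) : V) * w') * (ξi * ηi)
        = (((t : V) * w) * ξi) * ((((t⁻¹ : Vˣ) : V) * w') * ηi) := by ring
      _ = 1 := by rw [hξi, hηi, one_mul]
  have hRinv : Ring.inverse (w * w') = ξi * ηi := by
    have hu : IsUnit (w * w') := ⟨⟨w * w', ξi * ηi, hφinv, by rw [mul_comm]; exact hφinv⟩, rfl⟩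
    have h1 : Ring.inverse (w * w') * (w * w') = 1 := Ring.inverse_mul_cancel _ hu
    calc Ring.inverse (w * w') = Ring.inverse (w * w') * ((w * w') * (ξi * ηi)) := by
          rw [hφinv, mul_one]
      _ = (Ring.inverse (w * w') * (w * w')) * (ξi * ηi) := by ring
      _ = ξi * ηi := by rw [h1, one_mul]
  have hηw' : ηi * w' = (t : V) := by
    have h1 : (t : V) * ((t⁻¹ : Vˣ) : V) = 1 := by simp
    calc ηi * w' = ((t : V) * ((t⁻¹ : Vˣ) : V)) * (ηi * w') := by rw [h1, one_mul]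
      _ = (t : V) * ((((t⁻¹ : Vˣ) : V) * w') * ηi) := by ring
      _ = (t : V) := by rw [hηi, mul_one]
  refine ⟨ξ, hξΛ, by rw [hξinv]; exact hξiΛ, ?_⟩
  -- membership in C
  rw [hCdef, Set.mem_preimage]
  refine ⟨?_, ?_⟩
  · -- first component: ξ⁻¹ t ∈ M
    rw [hMdef]
    refine Set.mem_biUnion hφmem ⟨w', hw'W, ?_⟩
    change Ring.inverse (w * w') * w' = ((ξ⁻¹ * t : Vˣ) : V)
    rw [hRinv, Units.val_mul, hξinv, mul_assoc, hηw']
  · -- second component: (ξ⁻¹ t)⁻¹ = w ∈ W
    refine ⟨w, hwW, ?_⟩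
    change MulOpposite.op w = MulOpposite.op (((ξ⁻¹ * t : Vˣ)⁻¹ : Vˣ) : V)
    congr 1
    have h1 : ((t⁻¹ : Vˣ) : V) * (t : V) = 1 := by simp
    rw [mul_inv_rev, inv_inv, Units.val_mul, hξval, ← mul_assoc, h1, one_mul]

omit [T2Space V] [SecondCountableTopology V] in
/-- A unit `h` which maps an open relatively compact nonempty set `U` into two disjoint
translates inside `U` has module `< 1`. -/
lemma distribHaarChar_lt_one619 (h : Vˣ) {U N : Set V} (hUo : IsOpen U) (hUne : U.Nonempty)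
    (hN : IsCompact N) (hUN : U ⊆ N) (v₁ v₂ : V)
    (h₁ : ∀ x ∈ U, v₁ + (h : V) * x ∈ U) (h₂ : ∀ x ∈ U, v₂ + (h : V) * x ∈ U)
    (hd : ∀ x ∈ U, ∀ y ∈ U, v₁ + (h : V) * x ≠ v₂ + (h : V) * y) :
    distribHaarChar V h < 1 := by
  set μ : Measure V := Measure.addHaar with hμdef
  have hpos : 0 < μ U := hUo.measure_pos μ hUne
  have hfin : μ U < ⊤ := (measure_mono hUN).trans_lt hN.measure_lt_top
  have hhU : IsOpen (h • U) := hUo.smul h
  set A₁ : Set V := (fun x => -v₁ + x) ⁻¹' (h • U) with hA₁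
  set A₂ : Set V := (fun x => -v₂ + x) ⁻¹' (h • U) with hA₂
  have hA₁m : MeasurableSet A₁ :=
    (hhU.preimage (continuous_const.add continuous_id)).measurableSet
  have hA₂m : MeasurableSet A₂ :=
    (hhU.preimage (continuous_const.add continuous_id)).measurableSet
  have hμA₁ : μ A₁ = distribHaarChar V h * μ U := by
    rw [hA₁, measure_preimage_add μ (-v₁) (h • U), distribHaarChar_mul μ h U]
  have hμA₂ : μ A₂ = distribHaarChar V h * μ U := by
    rw [hA₂, measure_preimage_add μ (-v₂) (h • U), distribHaarChar_mul μ h U]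
  have hsub : ∀ (v : V), (∀ x ∈ U, v + (h : V) * x ∈ U) →
      (fun x => -v + x) ⁻¹' (h • U) ⊆ U := by
    intro v hv y hy
    obtain ⟨x, hx, hxy⟩ := Set.mem_smul_set.mp hy
    have : y = v + (h : V) * x := by
      have h3 : h • x = -v + y := hxy
      rw [Units.smul_def, smul_eq_mul] at h3
      rw [h3]; ring
    rw [this]; exact hv x hx
  have hdis : Disjoint A₁ A₂ := by
    rw [Set.disjoint_left]
    intro y hy₁ hy₂
    obtain ⟨x₁, hx₁, e₁⟩ := Set.mem_smul_set.mp hy₁
    obtain ⟨x₂, hx₂, e₂⟩ := Set.mem_smul_set.mp hy₂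
    refine hd x₁ hx₁ x₂ hx₂ ?_
    have e₁' : (h : V) * x₁ = -v₁ + y := by
      have := e₁; rwa [Units.smul_def, smul_eq_mul] at this
    have e₂' : (h : V) * x₂ = -v₂ + y := by
      have := e₂; rwa [Units.smul_def, smul_eq_mul] at this
    rw [e₁', e₂']; ring
  have hle : μ A₁ + μ A₂ ≤ μ U := by
    rw [← measure_union hdis hA₂m]
    exact measure_mono (Set.union_subset (hsub v₁ h₁) (hsub v₂ h₂))
  rw [hμA₁, hμA₂] at hle
  by_contra hcon
  rw [not_lt] at hcon
  have h1 : (1 : ℝ≥0∞) ≤ (distribHaarChar V h : ℝ≥0∞) := by exact_mod_cast hcon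
  have h2 : μ U + μ U ≤ μ U := by
    calc μ U + μ U = 1 * μ U + 1 * μ U := by rw [one_mul]
      _ ≤ distribHaarChar V h * μ U + distribHaarChar V h * μ U := by gcongr
      _ ≤ μ U := hle
  have h3 : μ U + μ U ≤ μ U + 0 := by rwa [add_zero]
  have h4 := (ENNReal.add_le_add_iff_left hfin.ne).mp h3
  exact absurd h4 (not_le.mpr hpos)

/-- **Fujisaki's lemma with a ray**: `Vˣ = h^ℤ · Λˣ · (compact)`. -/
theorem fujisaki_ray619 (Λ : AddSubgroup V)
    (hfin : ∀ Q : Set V, IsCompact Q → (Q ∩ (Λ : Set V)).Finite)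
    (hmul : ∀ ξ ∈ Λ, ∀ η ∈ Λ, ξ * η ∈ Λ)
    (hinv : ∀ ξ ∈ Λ, ξ ≠ 0 → ∃ η ∈ Λ, ξ * η = 1)
    {F : Set V} (hF : IsCompact F) (hcov : ∀ x : V, ∃ ξ ∈ Λ, x - ξ ∈ F)
    (h : Vˣ) (hh : distribHaarChar V h < 1) :
    ∃ C : Set Vˣ, IsCompact C ∧ ∀ u : Vˣ, ∃ (k : ℤ) (ξ : Vˣ),
      (ξ : V) ∈ Λ ∧ ((ξ⁻¹ : Vˣ) : V) ∈ Λ ∧ (h ^ k * ξ)⁻¹ * u ∈ C := by
  set μ : Measure V := Measure.addHaar with hμdef
  set m : ℝ≥0 := distribHaarChar V h with hm
  have hm0 : m ≠ 0 := by
    intro h0
    have := map_mul (distribHaarChar V) h h⁻¹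
    rw [mul_inv_cancel, map_one, ← hm, h0, zero_mul] at this
    exact one_ne_zero this
  -- enlarge `F` to have positive measure
  obtain ⟨N, hNc, hN0⟩ := exists_compact_mem_nhds (0 : V)
  set F' : Set V := F ∪ N with hF'
  have hF'c : IsCompact F' := hF.union hNc
  have hF'cov : ∀ x : V, ∃ ξ ∈ Λ, x - ξ ∈ F' := fun x => by
    obtain ⟨ξ, hξ, hx⟩ := hcov x
    exact ⟨ξ, hξ, Or.inl hx⟩
  have hF'pos : 0 < μ F' :=
    (Measure.measure_pos_of_mem_nhds μ hN0).trans_le (measure_mono Set.subset_union_right)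
  have hF'fin : μ F' < ⊤ := hF'c.measure_lt_top
  -- the big compact set
  set Z : Set V := (h⁻¹ * h⁻¹) • F' with hZ
  have hZc : IsCompact Z := hF'c.smul _
  have hμZ : μ Z = (m⁻¹ * m⁻¹ : ℝ≥0) * μ F' := by
    rw [hZ, ← distribHaarChar_mul μ (h⁻¹ * h⁻¹) F', map_mul, map_inv]
  have hFZ : μ F' < m * μ Z := by
    rw [hμZ, ← mul_assoc, ← ENNReal.coe_mul]
    have e : m * (m⁻¹ * m⁻¹) = m⁻¹ := by
      rw [← mul_assoc, mul_inv_cancel₀ hm0, one_mul]
    rw [e]
    have h1 : (1 : ℝ≥0) < m⁻¹ := by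
      rw [one_lt_inv₀ (pos_iff_ne_zero.mpr hm0)]; exact hh
    calc μ F' = (1 : ℝ≥0) * μ F' := by rw [ENNReal.coe_one, one_mul]
      _ < (m⁻¹ : ℝ≥0) * μ F' :=
          ENNReal.mul_lt_mul_left hF'pos.ne' hF'fin.ne (ENNReal.coe_lt_coe.mpr h1)
  obtain ⟨C, hC, hCt⟩ :=
    fujisaki_bdd619 μ Λ hfin hmul hinv hF'c.measurableSet hF'cov hZc m hFZ
  refine ⟨C, hC, fun u => ?_⟩
  set r : ℝ≥0 := distribHaarChar V u with hr
  have hr0 : r ≠ 0 := by
    intro h0
    have := map_mul (distribHaarChar V) u u⁻¹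
    rw [mul_inv_cancel, map_one, ← hr, h0, zero_mul] at this
    exact one_ne_zero this
  have hy : (1 : ℝ≥0) < m⁻¹ := by
    rw [one_lt_inv₀ (pos_iff_ne_zero.mpr hm0)]; exact hh
  obtain ⟨n, hn₁, hn₂⟩ := NNReal.exists_mem_Ico_zpow hr0 hy
  -- `t = h^n u` has module in `[1, m⁻¹)`
  set t : Vˣ := h ^ n * u with ht
  have hmodt : distribHaarChar V t = m ^ n * r := by
    rw [ht, map_mul, map_zpow]
  have hmn : m ^ n * (m⁻¹) ^ n = 1 := by
    rw [← mul_zpow, mul_inv_cancel₀ hm0, one_zpow]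
  have hmn0 : m ^ n ≠ 0 := zpow_ne_zero n hm0
  have h1t : 1 ≤ distribHaarChar V t := by
    rw [hmodt, ← hmn]
    exact mul_le_mul_right hn₁ _
  have ht2 : distribHaarChar V t < m⁻¹ := by
    rw [hmodt]
    have : m ^ n * r < m ^ n * (m⁻¹) ^ (n + 1) :=
      mul_lt_mul_of_pos_left hn₂ (pos_iff_ne_zero.mpr hmn0)
    rwa [zpow_add₀ (inv_ne_zero hm0), ← mul_assoc, hmn, one_mul, zpow_one] at this
  have hm1 : m ≤ 1 := hh.le
  have ht0 : distribHaarChar V t ≠ 0 := by
    intro h0; rw [h0] at h1t; exact absurd h1t (by simp)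
  obtain ⟨ξ, hξ, hξi, hmem⟩ := hCt t (hm1.trans h1t) (by
    rw [map_inv]
    rw [← inv_inv m]
    exact inv_anti₀ (pos_iff_ne_zero.mpr ht0) ht2.le)
  refine ⟨-n, ξ, hξ, hξi, ?_⟩
  have e : (h ^ (-n) * ξ)⁻¹ * u = ξ⁻¹ * t := by
    rw [ht, mul_inv_rev, zpow_neg, inv_inv, mul_assoc]
  rw [e]; exact hmem

end Abs

end Fermat.Agent.LT.T1.H619

end
-- ===== PACK-END LT/T1/H619/FujisakiAbs.lean

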