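import Mathlib
import Fermat.Prelude.Def_FLTPrelim_Modularity
import Fermat.Agent.Pack.L1B.E6L0

set_option linter.all false

-- ===== PACK-BEGIN LT/H129/LocalDecomp.lean
section


/-!
# Row LT, tower T1 (local algebra), helper129: decompositions of `GL₂` over a valued field

OFF-MAIN.  Mathlib only.  `F` is a field, `O` a valuation subring of `F` (no discreteness, no
completeness, no topology).  `IsMaxCpt129 O k` says that `k` and `k⁻¹` have entries in `O`
(`k ∈ GL₂(O)`).

* `iwasawa129`  : `GL₂(F) = B(F) · GL₂(O)`.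
* `bruhat129`   : `GL₂(F) = B(F) ⊔ N(F) w B(F)`.
* `cartan129`   : `GL₂(F) = GL₂(O) · T(F)⁺ · GL₂(O)`  (`diag(x, y)` with `x / y ∈ O`).
-/

set_option autoImplicit false

open Matrix

namespace Fermat.Agent.LT.H129

variable {F : Type*} [Field F]

/-- The entries of `g` lie in `O`. -/
def IsInt129 (O : ValuationSubring F) (g : GL (Fin 2) F) : Prop :=
  ∀ i j, (g : Matrix (Fin 2) (Fin 2) F) i j ∈ O

/-- `g ∈ GL₂(O)`: the entries of `g` and of `g⁻¹` lie in `O`. -/
def IsMaxCpt129 (O : ValuationSubring F) (g : GL (Fin 2) F) : Prop :=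
  IsInt129 O g ∧ IsInt129 O g⁻¹

/-- `g` is upper triangular. -/
def IsUpper129 (g : GL (Fin 2) F) : Prop :=
  (g : Matrix (Fin 2) (Fin 2) F) 1 0 = 0

/-- The matrix `!![a, b; c, d]` as an element of `GL₂(F)`, given `a d - b c ≠ 0`. -/
noncomputable def mkGL129 (a b c d : F) (h : a * d - b * c ≠ 0) : GL (Fin 2) F :=
  Matrix.GeneralLinearGroup.mkOfDetNeZero !![a, b; c, d] (by
    rw [Matrix.det_fin_two_of]; exact h)

@[simp] theorem coe_mkGL129 (a b c d : F) (h : a * d - b * c ≠ 0) :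
    ((mkGL129 a b c d h : GL (Fin 2) F) : Matrix (Fin 2) (Fin 2) F) = !![a, b; c, d] := rfl

theorem ext_mat129 {g h : GL (Fin 2) F}
    (H : (g : Matrix (Fin 2) (Fin 2) F) = (h : Matrix (Fin 2) (Fin 2) F)) : g = h :=
  Units.ext H

theorem eta129 (g : GL (Fin 2) F) :
    (g : Matrix (Fin 2) (Fin 2) F) = !![g 0 0, g 0 1; g 1 0, g 1 1] :=
  Matrix.eta_fin_two _

theorem det_ne_zero129 (g : GL (Fin 2) F) :
    (g : Matrix (Fin 2) (Fin 2) F) 0 0 * (g : Matrix (Fin 2) (Fin 2) F) 1 1
      - (g : Matrix (Fin 2) (Fin 2) F) 0 1 * (g : Matrix (Fin 2) (Fin 2) F) 1 0 ≠ 0 := by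
  have h := (Matrix.isUnit_iff_isUnit_det (g : Matrix (Fin 2) (Fin 2) F)).mp g.isUnit
  rw [Matrix.det_fin_two] at h
  exact h.ne_zero

/-- The lower unipotent `!![1, 0; x, 1]`. -/
noncomputable def lowerU129 (x : F) : GL (Fin 2) F :=
  mkGL129 1 0 x 1 (by simp)

/-- The upper unipotent `!![1, x; 0, 1]`. -/
noncomputable def upperU129 (x : F) : GL (Fin 2) F :=
  mkGL129 1 x 0 1 (by simp)

/-- The Weyl element `!![0, 1; 1, 0]`. -/
noncomputable def weyl129 : GL (Fin 2) F :=
  mkGL129 0 1 1 0 (by simp)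

theorem lowerU129_inv (x : F) : (lowerU129 x)⁻¹ = lowerU129 (-x) := by
  rw [inv_eq_iff_mul_eq_one]
  apply ext_mat129
  simp [lowerU129, Matrix.one_fin_two]

theorem upperU129_inv (x : F) : (upperU129 x)⁻¹ = upperU129 (-x) := by
  rw [inv_eq_iff_mul_eq_one]
  apply ext_mat129
  simp [upperU129, Matrix.one_fin_two]

theorem weyl129_inv : (weyl129 : GL (Fin 2) F)⁻¹ = weyl129 := by
  rw [inv_eq_iff_mul_eq_one]
  apply ext_mat129
  simp [weyl129, Matrix.one_fin_two]

theorem isInt129_mkGL {O : ValuationSubring F} {a b c d : F} (h : a * d - b * c ≠ 0)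
    (ha : a ∈ O) (hb : b ∈ O) (hc : c ∈ O) (hd : d ∈ O) : IsInt129 O (mkGL129 a b c d h) := by
  intro i j
  fin_cases i <;> fin_cases j <;> simpa using by assumption

theorem isMaxCpt129_lowerU {O : ValuationSubring F} {x : F} (hx : x ∈ O) :
    IsMaxCpt129 O (lowerU129 x) := by
  refine ⟨isInt129_mkGL _ O.one_mem O.zero_mem hx O.one_mem, ?_⟩
  rw [lowerU129_inv]
  exact isInt129_mkGL _ O.one_mem O.zero_mem (O.neg_mem _ hx) O.one_mem

theorem isMaxCpt129_upperU {O : ValuationSubring F} {x : F} (hx : x ∈ O) :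
    IsMaxCpt129 O (upperU129 x) := by
  refine ⟨isInt129_mkGL _ O.one_mem hx O.zero_mem O.one_mem, ?_⟩
  rw [upperU129_inv]
  exact isInt129_mkGL _ O.one_mem (O.neg_mem _ hx) O.zero_mem O.one_mem

theorem isMaxCpt129_weyl (O : ValuationSubring F) : IsMaxCpt129 O (weyl129 : GL (Fin 2) F) := by
  refine ⟨isInt129_mkGL _ O.zero_mem O.one_mem O.one_mem O.zero_mem, ?_⟩
  rw [weyl129_inv]
  exact isInt129_mkGL _ O.zero_mem O.one_mem O.one_mem O.zero_mem

theorem isInt129_one (O : ValuationSubring F) : IsInt129 O (1 : GL (Fin 2) F) := by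
  intro i j
  fin_cases i <;> fin_cases j <;> simp [O.one_mem, O.zero_mem]

theorem isInt129_mul {O : ValuationSubring F} {g h : GL (Fin 2) F} (hg : IsInt129 O g)
    (hh : IsInt129 O h) : IsInt129 O (g * h) := by
  intro i j
  rw [Matrix.GeneralLinearGroup.coe_mul, Matrix.mul_apply, Fin.sum_univ_two]
  exact O.add_mem _ _ (O.mul_mem _ _ (hg i 0) (hh 0 j)) (O.mul_mem _ _ (hg i 1) (hh 1 j))

theorem isMaxCpt129_one (O : ValuationSubring F) : IsMaxCpt129 O (1 : GL (Fin 2) F) :=
  ⟨isInt129_one O, by rw [inv_one]; exact isInt129_one O⟩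

theorem isMaxCpt129_mul {O : ValuationSubring F} {g h : GL (Fin 2) F} (hg : IsMaxCpt129 O g)
    (hh : IsMaxCpt129 O h) : IsMaxCpt129 O (g * h) :=
  ⟨isInt129_mul hg.1 hh.1, by rw [_root_.mul_inv_rev]; exact isInt129_mul hh.2 hg.2⟩

theorem isMaxCpt129_inv {O : ValuationSubring F} {g : GL (Fin 2) F} (hg : IsMaxCpt129 O g) :
    IsMaxCpt129 O g⁻¹ :=
  ⟨hg.2, by rw [inv_inv]; exact hg.1⟩

/-- `GL₂(O)` as a subgroup of `GL₂(F)`. -/
def maxCpt129 (O : ValuationSubring F) : Subgroup (GL (Fin 2) F) where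
  carrier := {g | IsMaxCpt129 O g}
  mul_mem' := fun hg hh => isMaxCpt129_mul hg hh
  one_mem' := isMaxCpt129_one O
  inv_mem' := fun hg => isMaxCpt129_inv hg

theorem mem_maxCpt129 {O : ValuationSubring F} {g : GL (Fin 2) F} :
    g ∈ maxCpt129 O ↔ IsMaxCpt129 O g := Iff.rfl

/-- The determinant of an element of `GL₂(O)` is a unit of `O`: it and its inverse lie in `O`. -/
theorem det_mem_of_isInt129 {O : ValuationSubring F} {g : GL (Fin 2) F} (hg : IsInt129 O g) :
    (g : Matrix (Fin 2) (Fin 2) F).det ∈ O := by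
  rw [Matrix.det_fin_two]
  exact sub_mem (O.mul_mem _ _ (hg 0 0) (hg 1 1)) (O.mul_mem _ _ (hg 0 1) (hg 1 0))

/-- **Iwasawa decomposition** `GL₂(F) = B(F) · GL₂(O)` for a valuation subring `O` of `F`. -/
theorem iwasawa129 (O : ValuationSubring F) (g : GL (Fin 2) F) :
    ∃ b k : GL (Fin 2) F, g = b * k ∧ IsUpper129 b ∧ IsMaxCpt129 O k := by
  set c : F := (g : Matrix (Fin 2) (Fin 2) F) 1 0 with hc
  set d : F := (g : Matrix (Fin 2) (Fin 2) F) 1 1 with hd
  have hdet := det_ne_zero129 g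
  by_cases hc0 : c = 0
  · exact ⟨g, 1, (mul_one g).symm, hc0, isMaxCpt129_one O⟩
  by_cases hd0 : d = 0
  · -- bottom row `(c, 0)`: swap the columns
    refine ⟨g * weyl129, weyl129, ?_, ?_, isMaxCpt129_weyl O⟩
    · rw [mul_assoc]
      have : (weyl129 : GL (Fin 2) F) * weyl129 = 1 := by
        rw [← inv_eq_iff_mul_eq_one]; exact weyl129_inv
      rw [this, mul_one]
    · show ((g * weyl129 : GL (Fin 2) F) : Matrix (Fin 2) (Fin 2) F) 1 0 = 0
      rw [Matrix.GeneralLinearGroup.coe_mul, Matrix.mul_apply, Fin.sum_univ_two]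
      simp [weyl129, ← hd, hd0]
  rcases O.mem_or_inv_mem (c / d) with h | h
  · -- `c / d ∈ O`
    refine ⟨g * (lowerU129 (c / d))⁻¹, lowerU129 (c / d), (inv_mul_cancel_right g _).symm, ?_,
      isMaxCpt129_lowerU h⟩
    show ((g * (lowerU129 (c / d))⁻¹ : GL (Fin 2) F) : Matrix (Fin 2) (Fin 2) F) 1 0 = 0
    rw [lowerU129_inv, Matrix.GeneralLinearGroup.coe_mul, Matrix.mul_apply, Fin.sum_univ_two]
    simp only [lowerU129, coe_mkGL129, Matrix.of_apply, Matrix.cons_val', Matrix.cons_val_zero,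
      Matrix.cons_val_one, Matrix.cons_val_fin_one]
    rw [← hc, ← hd]
    field_simp
    ring
  · -- `d / c ∈ O`
    have h' : d / c ∈ O := by
      have : (c / d)⁻¹ = d / c := by rw [inv_div]
      rwa [this] at h
    refine ⟨g * (lowerU129 (d / c) * weyl129)⁻¹, lowerU129 (d / c) * weyl129,
      (inv_mul_cancel_right g _).symm, ?_,
      isMaxCpt129_mul (isMaxCpt129_lowerU h') (isMaxCpt129_weyl O)⟩
    show ((g * (lowerU129 (d / c) * weyl129)⁻¹ : GL (Fin 2) F) :
      Matrix (Fin 2) (Fin 2) F) 1 0 = 0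
    rw [_root_.mul_inv_rev, lowerU129_inv, weyl129_inv, Matrix.GeneralLinearGroup.coe_mul,
      Matrix.GeneralLinearGroup.coe_mul, Matrix.mul_apply, Fin.sum_univ_two]
    simp only [lowerU129, weyl129, coe_mkGL129, Matrix.mul_apply, Fin.sum_univ_two,
      Matrix.of_apply, Matrix.cons_val', Matrix.cons_val_zero,
      Matrix.cons_val_one, Matrix.cons_val_fin_one]
    rw [← hc, ← hd]
    field_simp
    ring

/-- **Bruhat decomposition** `GL₂(F) = B(F) ⊔ N(F) w B(F)`. -/
theorem bruhat129 (g : GL (Fin 2) F) :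
    IsUpper129 g ∨ ∃ (x : F) (b : GL (Fin 2) F), IsUpper129 b ∧ g = upperU129 x * weyl129 * b := by
  set a : F := (g : Matrix (Fin 2) (Fin 2) F) 0 0 with ha
  set b' : F := (g : Matrix (Fin 2) (Fin 2) F) 0 1 with hb
  set c : F := (g : Matrix (Fin 2) (Fin 2) F) 1 0 with hc
  set d : F := (g : Matrix (Fin 2) (Fin 2) F) 1 1 with hd
  have hdet : a * d - b' * c ≠ 0 := det_ne_zero129 g
  by_cases hc0 : c = 0
  · exact Or.inl hc0
  right
  have hdet' : c * (b' - a / c * d) - d * 0 ≠ 0 := by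
    intro h
    apply hdet
    have : c * (b' - a / c * d) = -(a * d - b' * c) := by field_simp; ring
    rw [mul_zero, sub_zero, this, neg_eq_zero] at h
    exact h
  refine ⟨a / c, mkGL129 c d 0 (b' - a / c * d) hdet', by simp [IsUpper129], ?_⟩
  apply ext_mat129
  rw [eta129 g]
  simp only [upperU129, weyl129, Matrix.GeneralLinearGroup.coe_mul, coe_mkGL129]
  rw [← ha, ← hb, ← hc, ← hd]
  ext i j
  fin_cases i <;> fin_cases j <;> simp [Matrix.mul_apply, Fin.sum_univ_two]
  all_goals field_simp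

end Fermat.Agent.LT.H129

end
-- ===== PACK-END LT/H129/LocalDecomp.lean

-- ===== PACK-BEGIN LT/H767/LocalCompact.lean
section


/-!
# Row LT, tower T1 (basics) — helper767: the integers of a finite completion are compact

OFF-MAIN.  Mathlib only.

* `finite_residueField_adicCompletionIntegers` : the residue field of `𝒪_v` is finite.
* `compactSpace_adicCompletionIntegers` : `𝒪_v` is compact.
* `isCompact_adicCompletionIntegers` : the same as a subset of `K_v`.
-/

set_option autoImplicit false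

open NumberField IsDedekindDomain IsDedekindDomain.HeightOneSpectrum

noncomputable section

namespace Fermat.Agent.LT.H767

variable (K : Type*) [Field K] [NumberField K]

/-- Every element of `K_v` is close to an element of `K`. -/
theorem exists_sub_lt_one (v : HeightOneSpectrum (𝓞 K)) (x : v.adicCompletion K) :
    ∃ k : K, Valued.v (algebraMap K (v.adicCompletion K) k - x) < 1 := by
  have hn : Metric.ball x 1 ∈ nhds x := Metric.ball_mem_nhds x one_pos
  have hd : DenseRange (algebraMap K (v.adicCompletion K)) := denseRange_algebraMap K v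
  obtain ⟨y, hy, k, rfl⟩ := mem_closure_iff_nhds.mp (hd x) _ hn
  refine ⟨k, ?_⟩
  rw [Metric.mem_ball, dist_eq_norm] at hy
  exact Valued.toNormedField.norm_lt_one_iff.mp hy

/-- Every element of `𝒪_v` is congruent modulo the maximal ideal to an element of `𝓞 K`. -/
theorem exists_int_sub_lt_one (v : HeightOneSpectrum (𝓞 K)) (x : v.adicCompletion K)
    (hx : Valued.v x ≤ 1) :
    ∃ a : 𝓞 K, Valued.v (algebraMap K (v.adicCompletion K) (algebraMap (𝓞 K) K a) - x) < 1 := by
  obtain ⟨k, hk⟩ := exists_sub_lt_one K v x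
  have hk1 : v.valuation K k ≤ 1 := by
    rw [← valuedAdicCompletion_eq_valuation' v k]
    have : (algebraMap K (v.adicCompletion K) k) = (algebraMap K (v.adicCompletion K) k - x) + x := by
      ring
    change Valued.v (algebraMap K (v.adicCompletion K) k) ≤ 1
    rw [this]
    exact le_trans (Valuation.map_add _ _ _) (max_le hk.le hx)
  obtain ⟨a, ha⟩ := exists_valuation_sub_lt_of_integer v hk1 1
  refine ⟨a, ?_⟩
  have h2 : Valued.v (algebraMap K (v.adicCompletion K) (algebraMap (𝓞 K) K a) -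
      algebraMap K (v.adicCompletion K) k) < 1 := by
    rw [← map_sub]
    change Valued.v (((algebraMap (𝓞 K) K a - k : K)) : v.adicCompletion K) < 1
    rw [valuedAdicCompletion_eq_valuation' v]
    simpa using ha
  have : algebraMap K (v.adicCompletion K) (algebraMap (𝓞 K) K a) - x
      = (algebraMap K (v.adicCompletion K) (algebraMap (𝓞 K) K a) -
      algebraMap K (v.adicCompletion K) k) + (algebraMap K (v.adicCompletion K) k - x) := by ring
  rw [this]
  exact lt_of_le_of_lt (Valuation.map_add _ _ _) (max_lt h2 hk)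


open Valued in
/-- The residue field of `𝒪_v` is finite. -/
theorem finite_residueField_adicCompletion (v : HeightOneSpectrum (𝓞 K)) :
    Finite (Valued.ResidueField (v.adicCompletion K)) := by
  have : Finite (𝓞 K ⧸ v.asIdeal) := Ideal.finiteQuotientOfFreeOfNeBot v.asIdeal v.ne_bot
  -- the ring homomorphism `𝓞 K → 𝒪[K_v]`
  let ι : 𝓞 K →+* 𝒪[v.adicCompletion K] :=
    { toFun := fun a => ⟨algebraMap K (v.adicCompletion K) (algebraMap (𝓞 K) K a),
        coe_algebraMap_mem (𝓞 K) K v a⟩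
      map_one' := by ext; simp
      map_mul' := fun x y => by ext; simp
      map_zero' := by ext; simp
      map_add' := fun x y => by ext; simp }
  let φ : 𝓞 K →+* Valued.ResidueField (v.adicCompletion K) :=
    (IsLocalRing.residue _).comp ι
  have hker : ∀ a ∈ v.asIdeal, φ a = 0 := by
    intro a ha
    change IsLocalRing.residue _ (ι a) = 0
    rw [IsLocalRing.residue_eq_zero_iff, IsLocalRing.mem_maximalIdeal, mem_nonunits_iff,
      Valuation.Integer.not_isUnit_iff_valuation_lt_one]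
    change Valued.v ((algebraMap (𝓞 K) K a : K) : v.adicCompletion K) < 1
    rw [valuedAdicCompletion_eq_valuation' v]
    exact (valuation_lt_one_iff_mem v a).mpr ha
  have hsurj : Function.Surjective (Ideal.Quotient.lift v.asIdeal φ hker) := by
    intro y
    obtain ⟨x, rfl⟩ := IsLocalRing.residue_surjective y
    obtain ⟨a, ha⟩ := exists_int_sub_lt_one K v x.1 x.2
    refine ⟨Ideal.Quotient.mk _ a, ?_⟩
    rw [Ideal.Quotient.lift_mk]
    change IsLocalRing.residue _ (ι a) = IsLocalRing.residue _ x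
    rw [← sub_eq_zero, ← map_sub, IsLocalRing.residue_eq_zero_iff, IsLocalRing.mem_maximalIdeal,
      mem_nonunits_iff, Valuation.Integer.not_isUnit_iff_valuation_lt_one]
    exact ha
  exact Finite.of_surjective _ hsurj


open Valued in
/-- `𝒪[K_v]` is compact. -/
theorem compactSpace_integer_adicCompletion (v : HeightOneSpectrum (𝓞 K)) :
    CompactSpace 𝒪[v.adicCompletion K] := by
  rw [Valued.integer.compactSpace_iff_completeSpace_and_isDiscreteValuationRing_and_finite_residueField]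
  refine ⟨?_, ?_, finite_residueField_adicCompletion K v⟩
  · exact IsClosed.completeSpace_coe (hs := Valued.isClosed_integer _)
  · exact inferInstanceAs (IsDiscreteValuationRing (v.adicCompletionIntegers K))

/-- `𝒪_v` is a compact subset of `K_v`. -/
theorem isCompact_adicCompletionIntegers (v : HeightOneSpectrum (𝓞 K)) :
    IsCompact (v.adicCompletionIntegers K : Set (v.adicCompletion K)) := by
  have := compactSpace_integer_adicCompletion K v
  exact isCompact_iff_compactSpace.mpr this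

/-- `𝒪_v` is compact. -/
theorem compactSpace_adicCompletionIntegers (v : HeightOneSpectrum (𝓞 K)) :
    CompactSpace (v.adicCompletionIntegers K) :=
  isCompact_iff_compactSpace.mp (isCompact_adicCompletionIntegers K v)

end Fermat.Agent.LT.H767

end
end
-- ===== PACK-END LT/H767/LocalCompact.lean

-- ===== PACK-BEGIN LT/A2/H201/PushHaar.lean
section


/-!
# Row LT, tower A2, leaf A2.03.1.1.02 `WX467.ProdIntC` -- abstract core (helper201)

OFF-MAIN.  Mathlib only.

* `isAddLeftInvariant_map_restrict201`: the push-forward of the restriction of a translation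
  invariant measure to an open subgroup `B` under an additive map `q` which is onto on `B` is
  translation invariant.
* `map_restrict_eq_smul201`: it is a multiple of any Haar measure of the target, the constant
  being computed on one box.
* `integral_box201`: the integral formula for functions of finitely many coordinates.
-/

set_option autoImplicit false
set_option linter.unusedSectionVars false
set_option linter.style.haveILetI false

open MeasureTheory Set Filter Topology
open scoped ENNReal NNReal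

noncomputable section

namespace Fermat.Agent.LT.A2.H201

section Push

variable {Y H : Type*} [AddCommGroup Y] [TopologicalSpace Y] [MeasurableSpace Y] [BorelSpace Y]
  [IsTopologicalAddGroup Y]
  [AddCommGroup H] [TopologicalSpace H] [MeasurableSpace H] [BorelSpace H]
  [IsTopologicalAddGroup H]

/-- Push-forward of the restriction of an invariant measure to a subgroup `B` under an additive
map which is onto on `B`: the result is invariant. -/
theorem isAddLeftInvariant_map_restrict201 (lam : Measure Y) [lam.IsAddLeftInvariant]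
    (B : AddSubgroup Y) (hB : MeasurableSet (B : Set Y)) (q : Y → H) (hq : Measurable q)
    (hadd : ∀ x y, q (x + y) = q x + q y)
    (hsurj : ∀ h : H, ∃ b ∈ B, q b = h) :
    ((lam.restrict (B : Set Y)).map q).IsAddLeftInvariant := by
  refine ⟨fun h => ?_⟩
  obtain ⟨b, hb, rfl⟩ := hsurj h
  rw [Measure.map_map (measurable_const_add _) hq]
  have h1 : (fun x => q b + x) ∘ q = q ∘ (fun y => b + y) := by
    funext y
    simp [hadd]
  rw [h1, ← Measure.map_map hq (measurable_const_add b)]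
  congr 1
  have h2 : (fun y => b + y) ⁻¹' (B : Set Y) = (B : Set Y) := by
    ext y
    simp only [mem_preimage, SetLike.mem_coe]
    exact ⟨fun hy => by simpa using B.add_mem (B.neg_mem hb) hy, fun hy => B.add_mem hb hy⟩
  have h3 := Measure.restrict_map (μ := lam) (measurable_const_add b) hB
  rw [h2, map_add_left_eq_self] at h3
  exact h3.symm

/-- The push-forward is a multiple of every Haar measure of the target. -/
theorem map_restrict_eq_smul201 [LocallyCompactSpace H] [SecondCountableTopology H]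
    (lam : Measure Y) [lam.IsAddLeftInvariant]
    (B : AddSubgroup Y) (hB : MeasurableSet (B : Set Y)) (q : Y → H) (hq : Measurable q)
    (hadd : ∀ x y, q (x + y) = q x + q y)
    (hsurj : ∀ h : H, ∃ b ∈ B, q b = h)
    (m : Measure H) [m.IsAddHaarMeasure]
    (E : Set H) (hE : MeasurableSet E) (hEint : (interior E).Nonempty)
    (hfin : lam ((B : Set Y) ∩ q ⁻¹' E) ≠ ∞) (hm0 : m E ≠ 0) (hmtop : m E ≠ ∞) :
    (lam.restrict (B : Set Y)).map q = (lam ((B : Set Y) ∩ q ⁻¹' E) / m E) • m := by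
  set nu := (lam.restrict (B : Set Y)).map q with hnu
  have hinv : nu.IsAddLeftInvariant := isAddLeftInvariant_map_restrict201 lam B hB q hq hadd hsurj
  have hnuE : nu E = lam ((B : Set Y) ∩ q ⁻¹' E) := by
    rw [hnu, Measure.map_apply hq hE, Measure.restrict_apply (hq hE), inter_comm]
  have hfinc : IsFiniteMeasureOnCompacts nu :=
    ⟨fun C hC => measure_lt_top_of_isCompact_of_isAddLeftInvariant (interior E) isOpen_interior
      hEint (ne_top_of_le_ne_top (by rw [hnuE]; exact hfin) (measure_mono interior_subset)) hC⟩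
  have h1 := Measure.isAddLeftInvariant_eq_smul nu m
  have h2 : nu E = (Measure.addHaarScalarFactor nu m : ℝ≥0∞) * m E := by
    conv_lhs => rw [h1]
    simp [Measure.smul_apply]
  have h3 : (Measure.addHaarScalarFactor nu m : ℝ≥0∞) = lam ((B : Set Y) ∩ q ⁻¹' E) / m E := by
    rw [← hnuE, h2, ENNReal.mul_div_cancel_right hm0 hmtop]
  rw [h1, ← h3]
  rfl

end Push

section Box

variable {X : Type*} [AddCommGroup X] [TopologicalSpace X] [IsTopologicalAddGroup X]
  [LocallyCompactSpace X] [SecondCountableTopology X] [MeasurableSpace X] [BorelSpace X]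
  {ι₁ ι₂ : Type*} [Fintype ι₁] [Fintype ι₂]
  {k₁ : ι₁ → Type*} {k₂ : ι₂ → Type*}
  [∀ i, AddCommGroup (k₁ i)] [∀ i, TopologicalSpace (k₁ i)] [∀ i, IsTopologicalAddGroup (k₁ i)]
  [∀ i, LocallyCompactSpace (k₁ i)] [∀ i, SecondCountableTopology (k₁ i)] [∀ i, T2Space (k₁ i)]
  [∀ i, MeasurableSpace (k₁ i)] [∀ i, BorelSpace (k₁ i)]
  [∀ i, AddCommGroup (k₂ i)] [∀ i, TopologicalSpace (k₂ i)] [∀ i, IsTopologicalAddGroup (k₂ i)]
  [∀ i, LocallyCompactSpace (k₂ i)] [∀ i, SecondCountableTopology (k₂ i)] [∀ i, T2Space (k₂ i)]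
  [∀ i, MeasurableSpace (k₂ i)] [∀ i, BorelSpace (k₂ i)]

/-- The target of the coordinate map. -/
abbrev BoxTarget201 (k₁ : ι₁ → Type*) (k₂ : ι₂ → Type*) : Type _ :=
  (∀ i, k₁ i × k₁ i) × (∀ i, k₂ i × k₂ i)

/-- The coordinate map `X × X → ∏ (k_i × k_i)`. -/
def boxMap201 (p₁ : ∀ i, X → k₁ i) (p₂ : ∀ i, X → k₂ i) (ξ : X × X) : BoxTarget201 k₁ k₂ :=
  (fun i => (p₁ i ξ.1, p₁ i ξ.2), fun i => (p₂ i ξ.1, p₂ i ξ.2))

/-- The product function on the target. -/
def boxFn201 (f₁ : ∀ i, k₁ i × k₁ i → ℂ) (f₂ : ∀ i, k₂ i × k₂ i → ℂ)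
    (h : BoxTarget201 k₁ k₂) : ℂ :=
  (∏ i, f₁ i (h.1 i)) * ∏ i, f₂ i (h.2 i)

/-- The reference box of the target. -/
def boxSet201 (E₁ : ∀ i, Set (k₁ i)) (E₂ : ∀ i, Set (k₂ i)) : Set (BoxTarget201 k₁ k₂) :=
  (univ.pi fun i => E₁ i ×ˢ E₁ i) ×ˢ (univ.pi fun i => E₂ i ×ˢ E₂ i)

/-- The reference box of the source. -/
def boxSrc201 (A : AddSubgroup X) (p₁ : ∀ i, X → k₁ i) (p₂ : ∀ i, X → k₂ i)
    (E₁ : ∀ i, Set (k₁ i)) (E₂ : ∀ i, Set (k₂ i)) : Set X :=
  {x | x ∈ A ∧ (∀ i, p₁ i x ∈ E₁ i) ∧ ∀ i, p₂ i x ∈ E₂ i}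

/-- The product measure of the target. -/
def boxMeas201 (μ₁ : ∀ i, Measure (k₁ i)) (μ₂ : ∀ i, Measure (k₂ i)) :
    Measure (BoxTarget201 k₁ k₂) :=
  (Measure.pi fun i => (μ₁ i).prod (μ₁ i)).prod (Measure.pi fun i => (μ₂ i).prod (μ₂ i))

theorem continuous_boxMap201 (p₁ : ∀ i, X → k₁ i) (p₂ : ∀ i, X → k₂ i)
    (hp₁ : ∀ i, Continuous (p₁ i)) (hp₂ : ∀ i, Continuous (p₂ i)) :
    Continuous (boxMap201 p₁ p₂) := by
  unfold boxMap201
  refine Continuous.prodMk ?_ ?_
  · exact continuous_pi fun i =>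
      ((hp₁ i).comp continuous_fst).prodMk ((hp₁ i).comp continuous_snd)
  · exact continuous_pi fun i =>
      ((hp₂ i).comp continuous_fst).prodMk ((hp₂ i).comp continuous_snd)

theorem continuous_boxFn201 (f₁ : ∀ i, k₁ i × k₁ i → ℂ) (f₂ : ∀ i, k₂ i × k₂ i → ℂ)
    (hf₁ : ∀ i, Continuous (f₁ i)) (hf₂ : ∀ i, Continuous (f₂ i)) :
    Continuous (boxFn201 f₁ f₂) := by
  unfold boxFn201
  refine Continuous.mul ?_ ?_
  · exact continuous_finsetProd _ fun i _ =>
      (hf₁ i).comp ((continuous_apply i).comp continuous_fst)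
  · exact continuous_finsetProd _ fun i _ =>
      (hf₂ i).comp ((continuous_apply i).comp continuous_snd)

theorem preimage_boxSet201 (A : AddSubgroup X) (p₁ : ∀ i, X → k₁ i) (p₂ : ∀ i, X → k₂ i)
    (E₁ : ∀ i, Set (k₁ i)) (E₂ : ∀ i, Set (k₂ i)) :
    ((A.prod A : AddSubgroup (X × X)) : Set (X × X)) ∩ boxMap201 p₁ p₂ ⁻¹' boxSet201 E₁ E₂
      = boxSrc201 A p₁ p₂ E₁ E₂ ×ˢ boxSrc201 A p₁ p₂ E₁ E₂ := by
  ext ξ
  constructor
  · rintro ⟨h12, h34⟩
    have h12' : ξ.1 ∈ A ∧ ξ.2 ∈ A := AddSubgroup.mem_prod.1 h12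
    have h3 : ∀ i, (p₁ i ξ.1, p₁ i ξ.2) ∈ E₁ i ×ˢ E₁ i := fun i => h34.1 i (Set.mem_univ i)
    have h4 : ∀ i, (p₂ i ξ.1, p₂ i ξ.2) ∈ E₂ i ×ˢ E₂ i := fun i => h34.2 i (Set.mem_univ i)
    exact ⟨⟨h12'.1, fun i => (h3 i).1, fun i => (h4 i).1⟩,
      ⟨h12'.2, fun i => (h3 i).2, fun i => (h4 i).2⟩⟩
  · rintro ⟨⟨h1, h3, h4⟩, ⟨h2, h5, h6⟩⟩
    refine ⟨AddSubgroup.mem_prod.2 ⟨h1, h2⟩, ?_, ?_⟩
    · intro i _
      exact ⟨h3 i, h5 i⟩
    · intro i _
      exact ⟨h4 i, h6 i⟩

theorem boxMeas_boxSet201 (μ₁ : ∀ i, Measure (k₁ i)) (μ₂ : ∀ i, Measure (k₂ i))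
    [∀ i, (μ₁ i).IsAddHaarMeasure] [∀ i, (μ₂ i).IsAddHaarMeasure]
    (E₁ : ∀ i, Set (k₁ i)) (E₂ : ∀ i, Set (k₂ i)) :
    boxMeas201 μ₁ μ₂ (boxSet201 E₁ E₂)
      = (∏ i, μ₁ i (E₁ i) * μ₁ i (E₁ i)) * ∏ i, μ₂ i (E₂ i) * μ₂ i (E₂ i) := by
  unfold boxMeas201 boxSet201
  rw [Measure.prod_prod, Measure.pi_pi, Measure.pi_pi]
  simp only [Measure.prod_prod]

/-- **The integral formula for functions of finitely many coordinates.** -/
theorem integral_box201 (μ : Measure X) [μ.IsAddHaarMeasure]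
    (μ₁ : ∀ i, Measure (k₁ i)) (μ₂ : ∀ i, Measure (k₂ i))
    [∀ i, (μ₁ i).IsAddHaarMeasure] [∀ i, (μ₂ i).IsAddHaarMeasure]
    (p₁ : ∀ i, X → k₁ i) (p₂ : ∀ i, X → k₂ i)
    (hp₁ : ∀ i, Continuous (p₁ i)) (hp₂ : ∀ i, Continuous (p₂ i))
    (hadd₁ : ∀ i x y, p₁ i (x + y) = p₁ i x + p₁ i y)
    (hadd₂ : ∀ i x y, p₂ i (x + y) = p₂ i x + p₂ i y)
    (A : AddSubgroup X) (hA : IsOpen (A : Set X))
    (hsurj : ∀ (a : ∀ i, k₁ i) (b : ∀ i, k₂ i),
      ∃ x ∈ A, (∀ i, p₁ i x = a i) ∧ ∀ i, p₂ i x = b i)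
    (E₁ : ∀ i, Set (k₁ i)) (E₂ : ∀ i, Set (k₂ i))
    (hE₁ : ∀ i, IsCompact (E₁ i)) (hE₂ : ∀ i, IsCompact (E₂ i))
    (hE₁' : ∀ i, (interior (E₁ i)).Nonempty) (hE₂' : ∀ i, (interior (E₂ i)).Nonempty)
    (hW : μ (boxSrc201 A p₁ p₂ E₁ E₂) ≠ ∞)
    (f₁ : ∀ i, k₁ i × k₁ i → ℂ) (f₂ : ∀ i, k₂ i × k₂ i → ℂ)
    (hf₁ : ∀ i, Continuous (f₁ i)) (hf₂ : ∀ i, Continuous (f₂ i))
    (hf₁' : ∀ i, Integrable (f₁ i) ((μ₁ i).prod (μ₁ i)))
    (hf₂' : ∀ i, Integrable (f₂ i) ((μ₂ i).prod (μ₂ i))) :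
    Integrable (((A.prod A : AddSubgroup (X × X)) : Set (X × X)).indicator
        (fun ξ => boxFn201 f₁ f₂ (boxMap201 p₁ p₂ ξ))) (μ.prod μ) ∧
      ∫ ξ, ((A.prod A : AddSubgroup (X × X)) : Set (X × X)).indicator
          (fun ξ => boxFn201 f₁ f₂ (boxMap201 p₁ p₂ ξ)) ξ ∂(μ.prod μ)
        = ((μ (boxSrc201 A p₁ p₂ E₁ E₂) * μ (boxSrc201 A p₁ p₂ E₁ E₂) /
            ((∏ i, μ₁ i (E₁ i) * μ₁ i (E₁ i)) * ∏ i, μ₂ i (E₂ i) * μ₂ i (E₂ i))).toReal : ℂ) *
          ((∏ i, ∫ y, f₁ i y ∂((μ₁ i).prod (μ₁ i))) *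
            ∏ i, ∫ y, f₂ i y ∂((μ₂ i).prod (μ₂ i))) := by
  classical
  set B : AddSubgroup (X × X) := A.prod A with hBdef
  set q := boxMap201 p₁ p₂ with hqdef
  set Ψ := boxFn201 f₁ f₂ with hΨdef
  set m := boxMeas201 μ₁ μ₂ with hmdef
  set E := boxSet201 E₁ E₂ with hEdef
  set W := boxSrc201 A p₁ p₂ E₁ E₂ with hWdef
  have hBopen : IsOpen (B : Set (X × X)) := by
    have : (B : Set (X × X)) = (A : Set X) ×ˢ (A : Set X) := by
      ext ξ; exact AddSubgroup.mem_prod
    rw [this]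
    exact hA.prod hA
  have hBmeas : MeasurableSet (B : Set (X × X)) := hBopen.measurableSet
  have hqc : Continuous q := continuous_boxMap201 p₁ p₂ hp₁ hp₂
  have hqm : Measurable q := hqc.measurable
  have hqadd : ∀ x y, q (x + y) = q x + q y := by
    intro x y
    simp only [hqdef, boxMap201]
    refine Prod.ext ?_ ?_
    · funext i
      simp [hadd₁]
    · funext i
      simp [hadd₂]
  have hqsurj : ∀ h : BoxTarget201 k₁ k₂, ∃ b ∈ B, q b = h := by
    intro h
    obtain ⟨x, hx, hx1, hx2⟩ := hsurj (fun i => (h.1 i).1) (fun i => (h.2 i).1)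
    obtain ⟨y, hy, hy1, hy2⟩ := hsurj (fun i => (h.1 i).2) (fun i => (h.2 i).2)
    refine ⟨(x, y), AddSubgroup.mem_prod.2 ⟨hx, hy⟩, ?_⟩
    simp only [hqdef, boxMap201]
    refine Prod.ext ?_ ?_
    · funext i
      simp [hx1, hy1]
    · funext i
      simp [hx2, hy2]
  haveI hs1 : ∀ i, SigmaFinite (μ₁ i) := fun i => inferInstance
  haveI hs2 : ∀ i, SigmaFinite (μ₂ i) := fun i => inferInstance
  haveI hh1 : ∀ i, ((μ₁ i).prod (μ₁ i)).IsAddHaarMeasure := fun i => inferInstance
  haveI hh2 : ∀ i, ((μ₂ i).prod (μ₂ i)).IsAddHaarMeasure := fun i => inferInstance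
  haveI hp1 : (Measure.pi fun i => (μ₁ i).prod (μ₁ i)).IsAddHaarMeasure := inferInstance
  haveI hp2 : (Measure.pi fun i => (μ₂ i).prod (μ₂ i)).IsAddHaarMeasure := inferInstance
  haveI hmHaar : m.IsAddHaarMeasure := by
    rw [hmdef]; unfold boxMeas201; infer_instance
  have hEc : IsCompact E := by
    rw [hEdef]; unfold boxSet201
    exact (isCompact_univ_pi fun i => (hE₁ i).prod (hE₁ i)).prod
      (isCompact_univ_pi fun i => (hE₂ i).prod (hE₂ i))
  have hEm : MeasurableSet E := hEc.isClosed.measurableSet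
  have hEint : (interior E).Nonempty := by
    rw [hEdef]; unfold boxSet201
    rw [interior_prod_eq, interior_pi_set finite_univ, interior_pi_set finite_univ]
    simp only [interior_prod_eq]
    refine Set.Nonempty.prod ?_ ?_
    · exact Set.univ_pi_nonempty_iff.2 fun i => (hE₁' i).prod (hE₁' i)
    · exact Set.univ_pi_nonempty_iff.2 fun i => (hE₂' i).prod (hE₂' i)
  have hpre : (B : Set (X × X)) ∩ q ⁻¹' E = W ×ˢ W := preimage_boxSet201 A p₁ p₂ E₁ E₂
  have hlamW : (μ.prod μ) ((B : Set (X × X)) ∩ q ⁻¹' E) = μ W * μ W := by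
    rw [hpre, Measure.prod_prod]
  have hfin : (μ.prod μ) ((B : Set (X × X)) ∩ q ⁻¹' E) ≠ ∞ := by
    rw [hlamW]
    exact ENNReal.mul_ne_top hW hW
  have hmE : m E = (∏ i, μ₁ i (E₁ i) * μ₁ i (E₁ i)) * ∏ i, μ₂ i (E₂ i) * μ₂ i (E₂ i) :=
    boxMeas_boxSet201 μ₁ μ₂ E₁ E₂
  have hm0 : m E ≠ 0 :=
    (Measure.measure_pos_of_nonempty_interior m hEint).ne'
  have hmtop : m E ≠ ∞ := hEc.measure_lt_top.ne
  have hmap := map_restrict_eq_smul201 (μ.prod μ) B hBmeas q hqm hqadd hqsurj m E hEm hEint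
    hfin hm0 hmtop
  rw [hlamW, hmE] at hmap
  set c : ℝ≥0∞ := μ W * μ W /
    ((∏ i, μ₁ i (E₁ i) * μ₁ i (E₁ i)) * ∏ i, μ₂ i (E₂ i) * μ₂ i (E₂ i)) with hcdef
  have hctop : c ≠ ∞ := by
    rw [hcdef]
    refine ENNReal.div_ne_top (ENNReal.mul_ne_top hW hW) ?_
    rw [← hmE]; exact hm0
  have hΨc : Continuous Ψ := continuous_boxFn201 f₁ f₂ hf₁ hf₂
  have hΨint : Integrable Ψ m := by
    rw [hΨdef, hmdef]; unfold boxFn201 boxMeas201
    exact Integrable.mul_prod (Integrable.fintype_prod_dep hf₁')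
      (Integrable.fintype_prod_dep hf₂')
  have hΨval : ∫ h, Ψ h ∂m = (∏ i, ∫ y, f₁ i y ∂((μ₁ i).prod (μ₁ i))) *
      ∏ i, ∫ y, f₂ i y ∂((μ₂ i).prod (μ₂ i)) := by
    rw [hΨdef, hmdef]; unfold boxFn201 boxMeas201
    have h0 := integral_prod_mul (μ := Measure.pi fun i => (μ₁ i).prod (μ₁ i))
      (ν := Measure.pi fun i => (μ₂ i).prod (μ₂ i))
      (fun a : (∀ i, k₁ i × k₁ i) => ∏ i, f₁ i (a i))
      (fun b : (∀ i, k₂ i × k₂ i) => ∏ i, f₂ i (b i))
    rw [integral_fintype_prod_eq_prod, integral_fintype_prod_eq_prod] at h0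
    exact h0
  have hΨint' : Integrable Ψ (((μ.prod μ).restrict (B : Set (X × X))).map q) := by
    rw [hmap]
    exact hΨint.smul_measure hctop
  have hcomp : Integrable (fun ξ => Ψ (q ξ)) ((μ.prod μ).restrict (B : Set (X × X))) :=
    (integrable_map_measure hΨc.aestronglyMeasurable hqm.aemeasurable).1 hΨint'
  refine ⟨?_, ?_⟩
  · exact (integrable_indicator_iff hBmeas).2 hcomp
  · rw [integral_indicator hBmeas]
    have h1 : ∫ ξ in (B : Set (X × X)), Ψ (q ξ) ∂(μ.prod μ)
        = ∫ h, Ψ h ∂(((μ.prod μ).restrict (B : Set (X × X))).map q) :=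
      (integral_map hqm.aemeasurable hΨc.aestronglyMeasurable).symm
    rw [h1, hmap, integral_smul_measure, hΨval]
    rfl

end Box

end Fermat.Agent.LT.A2.H201

end
end
-- ===== PACK-END LT/A2/H201/PushHaar.lean

-- ===== PACK-BEGIN LT/T1/H671/HaarGen.lean
section


/-!
# Row LT, tower T1, shared prerequisite (helper671): the module of a unit of a locally compact ring

OFF-MAIN.  Mathlib only.  For a locally compact topological ring `A` the group `Aˣ` acts on `A` by
multiplication and Mathlib's `MeasureTheory.distribHaarChar A : Aˣ →* ℝ≥0` is the module: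
`μ (x • s) = distribHaarChar A x * μ s` for every (regular) Haar measure `μ` and every set `s`.

This file: the module of a product, of a finite product, and transport along a topological ring
isomorphism.
-/

set_option autoImplicit false

open MeasureTheory MeasureTheory.Measure TopologicalSpace
open scoped NNReal Pointwise ENNReal

namespace Fermat.Agent.LT.T1.H671

section Prod

variable {A B : Type*} [Ring A] [Ring B] [TopologicalSpace A] [TopologicalSpace B]
  [IsTopologicalRing A] [IsTopologicalRing B] [LocallyCompactSpace A] [LocallyCompactSpace B]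
  [SecondCountableTopology A] [SecondCountableTopology B]

omit [TopologicalSpace A] [TopologicalSpace B] [IsTopologicalRing A] [IsTopologicalRing B]
  [LocallyCompactSpace A] [LocallyCompactSpace B] [SecondCountableTopology A]
  [SecondCountableTopology B] in
theorem smul_prod_set671 (x : (A × B)ˣ) (s : Set A) (t : Set B) :
    x • (s ×ˢ t) = ((Units.map (RingHom.fst A B).toMonoidHom x) • s) ×ˢ
      ((Units.map (RingHom.snd A B).toMonoidHom x) • t) := by
  ext ⟨a, b⟩
  simp only [Set.mem_smul_set, Set.mem_prod, Units.smul_def, Prod.exists, Units.coe_map,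
    RingHom.toMonoidHom_eq_coe, MonoidHom.coe_coe, RingHom.coe_fst, RingHom.coe_snd, smul_eq_mul]
  constructor
  · rintro ⟨a', b', ⟨ha', hb'⟩, h⟩
    have h1 : (x : A × B).1 * a' = a := congrArg Prod.fst h
    have h2 : (x : A × B).2 * b' = b := congrArg Prod.snd h
    exact ⟨⟨a', ha', h1⟩, ⟨b', hb', h2⟩⟩
  · rintro ⟨⟨a', ha', h1⟩, ⟨b', hb', h2⟩⟩
    exact ⟨a', b', ⟨ha', hb'⟩, Prod.ext h1 h2⟩

/-- The module of a product ring is the product of the modules. -/
theorem distribHaarChar_prod671 (x : (A × B)ˣ) :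
    distribHaarChar (A × B) x =
      distribHaarChar A (Units.map (RingHom.fst A B).toMonoidHom x) *
        distribHaarChar B (Units.map (RingHom.snd A B).toMonoidHom x) := by
  borelize A
  borelize B
  let μ : Measure A := addHaar
  let ν : Measure B := addHaar
  obtain ⟨K₁⟩ := (inferInstance : Nonempty (PositiveCompacts A))
  obtain ⟨K₂⟩ := (inferInstance : Nonempty (PositiveCompacts B))
  have hK₁ : μ (K₁ : Set A) ≠ 0 := (measure_pos_of_nonempty_interior μ K₁.interior_nonempty).ne'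
  have hK₂ : ν (K₂ : Set B) ≠ 0 := (measure_pos_of_nonempty_interior ν K₂.interior_nonempty).ne'
  have hK₁' : μ (K₁ : Set A) ≠ ∞ := K₁.isCompact.measure_lt_top.ne
  have hK₂' : ν (K₂ : Set B) ≠ ∞ := K₂.isCompact.measure_lt_top.ne
  refine distribHaarChar_eq_of_measure_smul_eq_mul (μ := μ.prod ν)
    (s := (K₁ : Set A) ×ˢ (K₂ : Set B)) ?_ ?_ ?_
  · rw [Measure.prod_prod]
    exact mul_ne_zero hK₁ hK₂
  · rw [Measure.prod_prod]
    exact ENNReal.mul_ne_top hK₁' hK₂'
  · rw [smul_prod_set671, Measure.prod_prod, Measure.prod_prod, ← distribHaarChar_mul μ,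
      ← distribHaarChar_mul ν, ENNReal.coe_mul]
    ring

end Prod

section Pi

variable {ι : Type*} [Fintype ι] {A : ι → Type*} [∀ i, Ring (A i)] [∀ i, TopologicalSpace (A i)]
  [∀ i, IsTopologicalRing (A i)] [∀ i, LocallyCompactSpace (A i)]
  [∀ i, SecondCountableTopology (A i)]

omit [Fintype ι] [∀ i, TopologicalSpace (A i)] [∀ i, IsTopologicalRing (A i)]
  [∀ i, LocallyCompactSpace (A i)] [∀ i, SecondCountableTopology (A i)] in
theorem smul_pi_set671 (x : (∀ i, A i)ˣ) (s : ∀ i, Set (A i)) :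
    x • (Set.univ.pi s) =
      Set.univ.pi (fun i => (Units.map (Pi.evalRingHom A i).toMonoidHom x) • s i) := by
  ext a
  simp only [Set.mem_smul_set, Set.mem_pi, Set.mem_univ, forall_true_left, Units.smul_def,
    Units.coe_map, RingHom.toMonoidHom_eq_coe, MonoidHom.coe_coe, Pi.evalRingHom_apply,
    smul_eq_mul]
  constructor
  · rintro ⟨a', ha', h⟩ i
    exact ⟨a' i, ha' i, congrFun h i⟩
  · intro h
    choose a' ha' h' using h
    exact ⟨a', ha', funext h'⟩

/-- The module of a finite product of rings is the product of the modules. -/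
theorem distribHaarChar_pi671 (x : (∀ i, A i)ˣ) :
    distribHaarChar (∀ i, A i) x =
      ∏ i, distribHaarChar (A i) (Units.map (Pi.evalRingHom A i).toMonoidHom x) := by
  classical
  let _ : ∀ i, MeasurableSpace (A i) := fun i => borel (A i)
  have : ∀ i, BorelSpace (A i) := fun i => ⟨rfl⟩
  let μ : ∀ i, Measure (A i) := fun i => addHaar
  have hne : ∀ i, Nonempty (PositiveCompacts (A i)) := fun i => inferInstance
  let K : ∀ i, PositiveCompacts (A i) := fun i => (hne i).some
  have hK : ∀ i, μ i (K i : Set (A i)) ≠ 0 := fun i =>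
    (measure_pos_of_nonempty_interior (μ i) (K i).interior_nonempty).ne'
  have hK' : ∀ i, μ i (K i : Set (A i)) ≠ ∞ := fun i => (K i).isCompact.measure_lt_top.ne
  refine distribHaarChar_eq_of_measure_smul_eq_mul (μ := Measure.pi μ)
    (s := Set.univ.pi fun i => (K i : Set (A i))) ?_ ?_ ?_
  · rw [Measure.pi_pi]
    exact Finset.prod_ne_zero_iff.2 fun i _ => hK i
  · rw [Measure.pi_pi]
    exact (ENNReal.prod_lt_top fun i _ => (hK' i).lt_top).ne
  · rw [smul_pi_set671, Measure.pi_pi, Measure.pi_pi, ENNReal.ofNNReal_finsetProd,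
      ← Finset.prod_mul_distrib]
    refine Finset.prod_congr rfl fun i _ => ?_
    rw [← distribHaarChar_mul (μ i)]

end Pi

section Transport

variable {A B : Type*} [Ring A] [Ring B] [TopologicalSpace A] [TopologicalSpace B]
  [IsTopologicalRing A] [IsTopologicalRing B] [LocallyCompactSpace A] [LocallyCompactSpace B]
  [SecondCountableTopology A] [SecondCountableTopology B]

omit [SecondCountableTopology B] in
/-- The module is invariant under topological ring isomorphisms. -/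
theorem distribHaarChar_ringEquiv671 (e : A ≃+* B) (he : Continuous e) (he' : Continuous e.symm)
    (x : Aˣ) :
    distribHaarChar A x = distribHaarChar B (Units.map e.toRingHom.toMonoidHom x) := by
  borelize A
  borelize B
  let ν : Measure B := addHaar
  let E : B ≃ₜ+ A :=
    { e.symm.toAddEquiv with
      continuous_toFun := he'
      continuous_invFun := he }
  have : (Measure.map E ν).IsAddHaarMeasure := ContinuousAddEquiv.isAddHaarMeasure_map ν E
  obtain ⟨K₁⟩ := (inferInstance : Nonempty (PositiveCompacts A))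
  have hmeas : ∀ s : Set A, Measure.map E ν s = ν (e '' s) := by
    intro s
    have h := E.toHomeomorph.toMeasurableEquiv.map_apply (μ := ν) s
    have h' : Measure.map E ν s = ν (E ⁻¹' s) := h
    rw [h']
    congr 1
    ext b
    constructor
    · intro hb
      exact ⟨E b, hb, e.apply_symm_apply b⟩
    · rintro ⟨a, ha, rfl⟩
      show e.symm (e a) ∈ s
      rw [e.symm_apply_apply]
      exact ha
  have hK₁ : Measure.map E ν (K₁ : Set A) ≠ 0 :=
    (measure_pos_of_nonempty_interior _ K₁.interior_nonempty).ne'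
  have hK₁' : Measure.map E ν (K₁ : Set A) ≠ ∞ := K₁.isCompact.measure_lt_top.ne
  refine distribHaarChar_eq_of_measure_smul_eq_mul (μ := Measure.map E ν)
    (s := (K₁ : Set A)) hK₁ hK₁' ?_
  rw [hmeas, hmeas, distribHaarChar_mul ν]
  congr 1
  ext b
  simp only [Set.mem_image, Set.mem_smul_set, Units.smul_def, smul_eq_mul, Units.coe_map,
    RingHom.toMonoidHom_eq_coe, MonoidHom.coe_coe, RingEquiv.toRingHom_eq_coe, RingHom.coe_coe]
  constructor
  · rintro ⟨_, ⟨a, ha, rfl⟩, rfl⟩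
    exact ⟨e a, ⟨a, ha, rfl⟩, (map_mul e _ _).symm⟩
  · rintro ⟨_, ⟨a, ha, rfl⟩, rfl⟩
    exact ⟨(x : A) * a, ⟨a, ha, rfl⟩, map_mul e _ _⟩

end Transport

end Fermat.Agent.LT.T1.H671

end
-- ===== PACK-END LT/T1/H671/HaarGen.lean

-- ===== PACK-BEGIN LT/A2/H322/LocalInt.lean
section


/-!
# Row LT, tower A2, leaf A2.03.8.5.9 `H254.SuppC254` (helper322): the local lemma

OFF-MAIN, Mathlib only.  `k = K_v` (completion at a finite place), `𝒪 = 𝒪_v`, `ϖ` a uniformiser.
`A, B ∈ M₂(𝒪)` with `A B = B A = ϖ`, `det A = det B = ϖ` and trace a unit.  Then for `N ≥ 1`,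
`e ≥ 1` the matrix `ϖ^{-e} B^N` is NOT integral (`not_intM_smul_pow322`):
`B² = τ B - ϖ` (Cayley--Hamilton), so `B^N = x B + ϖ y` with `x` a unit and `y` integral, and
`ϖ⁻¹ B` is not integral (its determinant is `ϖ⁻¹`).
-/

set_option autoImplicit false

open IsDedekindDomain NumberField

noncomputable section

namespace Fermat.Agent.LT.A2.H322

variable {K : Type} [Field K] [NumberField K] (v : HeightOneSpectrum (𝓞 K))

/-- The matrix `M` over `K_v` has entries in `𝒪_v`. -/
def IntM322 (M : Matrix (Fin 2) (Fin 2) (v.adicCompletion K)) : Prop :=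
  ∀ i j, M i j ∈ v.adicCompletionIntegers K

variable {v}

theorem intM_one322 : IntM322 v (1 : Matrix (Fin 2) (Fin 2) (v.adicCompletion K)) := by
  intro i j
  by_cases h : i = j
  · subst h; rw [Matrix.one_apply_eq]; exact one_mem _
  · rw [Matrix.one_apply_ne h]; exact zero_mem _

theorem intM_mul322 {M N : Matrix (Fin 2) (Fin 2) (v.adicCompletion K)}
    (hM : IntM322 v M) (hN : IntM322 v N) : IntM322 v (M * N) := by
  intro i j
  rw [Matrix.mul_apply]
  exact sum_mem fun l _ => mul_mem (hM i l) (hN l j)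

theorem intM_pow322 {M : Matrix (Fin 2) (Fin 2) (v.adicCompletion K)}
    (hM : IntM322 v M) (n : ℕ) : IntM322 v (M ^ n) := by
  induction n with
  | zero => rw [pow_zero]; exact intM_one322
  | succ n ih => rw [pow_succ]; exact intM_mul322 ih hM

theorem intM_smul322 {c : v.adicCompletion K} (hc : c ∈ v.adicCompletionIntegers K)
    {M : Matrix (Fin 2) (Fin 2) (v.adicCompletion K)} (hM : IntM322 v M) :
    IntM322 v (c • M) := by
  intro i j
  rw [Matrix.smul_apply, smul_eq_mul]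
  exact mul_mem hc (hM i j)

theorem intM_det322 {M : Matrix (Fin 2) (Fin 2) (v.adicCompletion K)} (hM : IntM322 v M) :
    M.det ∈ v.adicCompletionIntegers K := by
  rw [Matrix.det_fin_two]
  exact sub_mem (mul_mem (hM 0 0) (hM 1 1)) (mul_mem (hM 0 1) (hM 1 0))

theorem mem_int_iff322 (x : v.adicCompletion K) :
    x ∈ v.adicCompletionIntegers K ↔ Valued.v x ≤ 1 :=
  HeightOneSpectrum.mem_adicCompletionIntegers _ _ _

/-- Discreteness: `|x| < 1` implies `|x| ≤ |ϖ|`. -/
theorem le_exp_of_lt_one322 {x : WithZero (Multiplicative ℤ)} (h : x < 1) :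
    x ≤ WithZero.exp (-1 : ℤ) := by
  have h1 : (WithZero.exp (-1 : ℤ) : WithZero (Multiplicative ℤ)) * WithZero.exp (1 : ℤ) = 1 := by
    rw [← WithZero.exp_add]; simp
  rw [← h1] at h
  exact (WithZero.lt_mul_exp_iff_le WithZero.exp_ne_zero).mp h

/-- Cayley--Hamilton for a `2 × 2` matrix. -/
theorem sq_eq322 {R : Type*} [CommRing R] (B : Matrix (Fin 2) (Fin 2) R) :
    B ^ 2 = (B 0 0 + B 1 1) • B - B.det • (1 : Matrix (Fin 2) (Fin 2) R) := by
  rw [pow_two, Matrix.det_fin_two]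
  ext i j
  fin_cases i <;> fin_cases j <;> simp [Matrix.mul_apply, Fin.sum_univ_two] <;> ring

/-- `B^N = x B + ϖ y` with `x` a unit and `y` integral. -/
theorem pow_eq322 {ϖ : v.adicCompletion K} (hϖ : Valued.v ϖ = WithZero.exp (-1 : ℤ))
    {B : Matrix (Fin 2) (Fin 2) (v.adicCompletion K)} (hdet : B.det = ϖ)
    (htr : Valued.v (B 0 0 + B 1 1) = 1) (N : ℕ) :
    ∃ x y : v.adicCompletion K, Valued.v x = 1 ∧ Valued.v y ≤ 1 ∧
      B ^ (N + 1) = x • B + (ϖ * y) • (1 : Matrix (Fin 2) (Fin 2) (v.adicCompletion K)) := by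
  induction N with
  | zero => exact ⟨1, 0, map_one _, by simp, by simp⟩
  | succ N ih =>
    obtain ⟨x, y, hx, hy, hxy⟩ := ih
    have hlt : Valued.v (ϖ * y) < Valued.v ((B 0 0 + B 1 1) * x) := by
      rw [map_mul, map_mul, hϖ, htr, hx, one_mul]
      calc WithZero.exp (-1 : ℤ) * Valued.v y ≤ WithZero.exp (-1 : ℤ) * 1 :=
            mul_le_mul_right hy _
        _ = WithZero.exp (-1 : ℤ) := mul_one _
        _ < 1 := by rw [← WithZero.exp_zero]; exact WithZero.exp_lt_exp.mpr (by norm_num)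
    refine ⟨(B 0 0 + B 1 1) * x + ϖ * y, -x, ?_, ?_, ?_⟩
    · rw [Valuation.map_add_eq_of_lt_left _ hlt, map_mul, htr, hx, one_mul]
    · rw [Valuation.map_neg, hx]
    · have h2 := sq_eq322 B
      rw [hdet] at h2
      calc B ^ (N + 1 + 1) = B ^ (N + 1) * B := pow_succ _ _
        _ = (x • B + (ϖ * y) • (1 : Matrix (Fin 2) (Fin 2) (v.adicCompletion K))) * B := by
            rw [hxy]
        _ = x • B ^ 2 + (ϖ * y) • B := by
            rw [add_mul, Matrix.smul_mul, Matrix.smul_mul, one_mul, pow_two]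
        _ = ((B 0 0 + B 1 1) * x + ϖ * y) • B
              + (ϖ * -x) • (1 : Matrix (Fin 2) (Fin 2) (v.adicCompletion K)) := by
            rw [h2]
            ext i j
            simp only [Matrix.add_apply, Matrix.smul_apply, Matrix.sub_apply, smul_eq_mul]
            ring_nf

/-- `ϖ⁻¹ B` is not integral. -/
theorem not_intM_inv_smul322 {ϖ : v.adicCompletion K} (hϖ : Valued.v ϖ = WithZero.exp (-1 : ℤ))
    {B : Matrix (Fin 2) (Fin 2) (v.adicCompletion K)} (hdet : B.det = ϖ) :
    ¬ IntM322 v (ϖ⁻¹ • B) := by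
  intro h
  have h1 := intM_det322 h
  rw [Matrix.det_smul, hdet, Fintype.card_fin, mem_int_iff322, map_mul, map_pow, map_inv₀,
    hϖ] at h1
  have h2 : ((WithZero.exp (-1 : ℤ) : WithZero (Multiplicative ℤ))⁻¹) ^ 2 * WithZero.exp (-1 : ℤ)
      = WithZero.exp (1 : ℤ) := by
    rw [← WithZero.exp_neg, ← WithZero.exp_nsmul, ← WithZero.exp_add]
    norm_num
  rw [h2, ← WithZero.exp_zero, WithZero.exp_le_exp] at h1
  norm_num at h1

/-- **The local lemma**: `ϖ^{-e} B^N` is not integral for `e, N ≥ 1`. -/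
theorem not_intM_smul_pow322 {ϖ : v.adicCompletion K}
    (hϖ : Valued.v ϖ = WithZero.exp (-1 : ℤ))
    {B : Matrix (Fin 2) (Fin 2) (v.adicCompletion K)} (hdet : B.det = ϖ)
    (htr : Valued.v (B 0 0 + B 1 1) = 1) (e N : ℕ) :
    ¬ IntM322 v ((ϖ⁻¹) ^ (e + 1) • B ^ (N + 1)) := by
  intro h
  have hϖ0 : ϖ ≠ 0 := by
    intro h0
    rw [h0, map_zero] at hϖ
    exact WithZero.exp_ne_zero hϖ.symm
  have hϖint : ϖ ∈ v.adicCompletionIntegers K := by
    rw [mem_int_iff322, hϖ, ← WithZero.exp_zero, WithZero.exp_le_exp]; norm_num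
  -- reduce to `e = 0`
  have h1 : IntM322 v (ϖ⁻¹ • B ^ (N + 1)) := by
    have h2 := intM_smul322 (pow_mem hϖint e) h
    have h3 : ϖ ^ e • ((ϖ⁻¹) ^ (e + 1) • B ^ (N + 1)) = ϖ⁻¹ • B ^ (N + 1) := by
      rw [smul_smul]
      congr 1
      rw [pow_succ, ← mul_assoc, ← mul_pow, mul_inv_cancel₀ hϖ0, one_pow, one_mul]
    rwa [h3] at h2
  obtain ⟨x, y, hx, hy, hxy⟩ := pow_eq322 hϖ hdet htr N
  have hx0 : x ≠ 0 := by
    intro h0
    rw [h0, map_zero] at hx
    exact zero_ne_one hx
  apply not_intM_inv_smul322 hϖ hdet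
  intro i j
  have h4 := h1 i j
  rw [hxy] at h4
  simp only [Matrix.smul_apply, Matrix.add_apply, smul_eq_mul] at h4 ⊢
  have hy' : y * (1 : Matrix (Fin 2) (Fin 2) (v.adicCompletion K)) i j
      ∈ v.adicCompletionIntegers K :=
    mul_mem ((mem_int_iff322 y).mpr hy) (intM_one322 i j)
  have hxinv : x⁻¹ ∈ v.adicCompletionIntegers K := by
    rw [mem_int_iff322, map_inv₀, hx, inv_one]
  have h5 : ϖ⁻¹ * B i j
      = x⁻¹ * (ϖ⁻¹ * (x * B i j + ϖ * y * (1 : Matrix (Fin 2) (Fin 2) (v.adicCompletion K)) i j)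
          - y * (1 : Matrix (Fin 2) (Fin 2) (v.adicCompletion K)) i j) := by
    field_simp
    ring
  rw [h5]
  exact mul_mem hxinv (sub_mem h4 hy')

end Fermat.Agent.LT.A2.H322

end

end
-- ===== PACK-END LT/A2/H322/LocalInt.lean

-- ===== PACK-BEGIN LT/A2/H444/Idele.lean
section


/-!
# Row LT, tower A2, leaf `FinOrdC` (helper444), part 1: ideles with prescribed components and
the density theorem

OFF-MAIN.  Mathlib only.

`idele_char_trivial444`: a continuous character `ψ` of the idele group of a number field `K`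
which is trivial on the principal ideles and on the ideles supported at a single finite place
`v ∉ S` (`S` a finite set of finite places) is trivial.  (Weak approximation at the places in
`S` and at the infinite places, Mathlib's `AbsoluteValue.denseRange_algebraMap_pi`; the ideles
with unit components are limits of ideles with finite support.)
-/

set_option autoImplicit false
set_option linter.unusedVariables false

open IsDedekindDomain NumberField Filter Topology
open scoped RestrictedProduct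

noncomputable section

namespace Fermat.Agent.LT.A2.H444

variable (K : Type) [Field K] [NumberField K]

/-- The adele ring (same Mathlib type as `A0.Adl K`). -/
abbrev Ad444 : Type := NumberField.AdeleRing (𝓞 K) K

variable {K}

/-! ## Components -/

/-- The component at the infinite place `w`, as a ring homomorphism. -/
def evInf444 (w : InfinitePlace K) : Ad444 K →+* w.Completion where
  toFun x := x.1 w
  map_one' := rfl
  map_mul' _ _ := rfl
  map_zero' := rfl
  map_add' _ _ := rfl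

/-- The component at the finite place `v`, as a ring homomorphism. -/
def evFin444 (v : HeightOneSpectrum (𝓞 K)) : Ad444 K →+* v.adicCompletion K where
  toFun x := x.2 v
  map_one' := rfl
  map_mul' _ _ := rfl
  map_zero' := rfl
  map_add' _ _ := rfl

theorem evInf444_apply (w : InfinitePlace K) (x : Ad444 K) : evInf444 w x = x.1 w := rfl

theorem evFin444_apply (v : HeightOneSpectrum (𝓞 K)) (x : Ad444 K) : evFin444 v x = x.2 v := rfl

/-- An adele is determined by its components. -/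
theorem ad_ext444 {x y : Ad444 K} (hinf : ∀ w : InfinitePlace K, x.1 w = y.1 w)
    (hfin : ∀ v : HeightOneSpectrum (𝓞 K), x.2 v = y.2 v) : x = y :=
  Prod.ext (funext hinf) (FiniteAdeleRing.ext K hfin)

/-- An idele is determined by its components. -/
theorem idele_ext444 {z z' : (Ad444 K)ˣ}
    (hinf : ∀ w : InfinitePlace K, (z : Ad444 K).1 w = (z' : Ad444 K).1 w)
    (hfin : ∀ v : HeightOneSpectrum (𝓞 K), (z : Ad444 K).2 v = (z' : Ad444 K).2 v) : z = z' :=
  Units.ext (ad_ext444 hinf hfin)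

theorem continuous_evInf444 (w : InfinitePlace K) : Continuous (evInf444 (K := K) w) :=
  (continuous_apply w).comp continuous_fst

theorem continuous_evFin444 (v : HeightOneSpectrum (𝓞 K)) : Continuous (evFin444 (K := K) v) :=
  (RestrictedProduct.continuous_eval v).comp continuous_snd


/-! ## Ideles supported at one place -/

theorem cofinite_le_principal_compl444 {ι : Type*} (T : Set ι) (hT : T.Finite) :
    (cofinite : Filter ι) ≤ 𝓟 Tᶜ := by
  rw [le_principal_iff, mem_cofinite, compl_compl]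
  exact hT

open Classical in
/-- The finite adele with component `c` at `v` and `1` at the other places, in the restricted
product along the principal filter of `{v}ᶜ`. -/
def finAdPre444 (v : HeightOneSpectrum (𝓞 K)) (c : v.adicCompletion K) :
    Πʳ v' : HeightOneSpectrum (𝓞 K), [v'.adicCompletion K, v'.adicCompletionIntegers K]_[𝓟 {v}ᶜ] :=
  ⟨Function.update (fun _ => 1) v c, by
    rw [eventually_principal]
    intro v' hv'
    rw [Function.update_of_ne hv']
    exact (v'.adicCompletionIntegers K).one_mem⟩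

theorem continuous_finAdPre444 (v : HeightOneSpectrum (𝓞 K)) :
    Continuous (finAdPre444 (K := K) v) := by
  classical
  rw [RestrictedProduct.continuous_rng_of_principal_iff_forall]
  intro v'
  by_cases h : v' = v
  · subst h
    have : ((fun x : Πʳ v'' : HeightOneSpectrum (𝓞 K),
        [v''.adicCompletion K, v''.adicCompletionIntegers K]_[𝓟 {v'}ᶜ] => x v') ∘ finAdPre444 v')
        = fun c => c := by
      funext c
      simp [finAdPre444]
    rw [this]
    exact continuous_id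
  · have : ((fun x : Πʳ v'' : HeightOneSpectrum (𝓞 K),
        [v''.adicCompletion K, v''.adicCompletionIntegers K]_[𝓟 {v}ᶜ] => x v') ∘ finAdPre444 v)
        = fun _ => 1 := by
      funext c
      simp [finAdPre444, Function.update_of_ne h]
    rw [this]
    exact continuous_const

/-- The finite adele with component `c` at `v` and `1` at the other places. -/
def finAd444 (v : HeightOneSpectrum (𝓞 K)) (c : v.adicCompletion K) :
    FiniteAdeleRing (𝓞 K) K :=
  RestrictedProduct.inclusion _ _ (cofinite_le_principal_compl444 {v} (Set.finite_singleton v))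
    (finAdPre444 v c)

theorem finAd444_self (v : HeightOneSpectrum (𝓞 K)) (c : v.adicCompletion K) :
    finAd444 v c v = c := by
  classical
  show Function.update (fun _ => 1) v c v = c
  simp

theorem finAd444_of_ne {v v' : HeightOneSpectrum (𝓞 K)} (h : v' ≠ v) (c : v.adicCompletion K) :
    finAd444 v c v' = 1 := by
  classical
  show Function.update (fun _ => 1) v c v' = 1
  rw [Function.update_of_ne h]

theorem continuous_finAd444 (v : HeightOneSpectrum (𝓞 K)) : Continuous (finAd444 (K := K) v) :=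
  (RestrictedProduct.continuous_inclusion _).comp (continuous_finAdPre444 v)

/-- The adele with component `c` at the finite place `v` and `1` at the other places, as a
monoid homomorphism. -/
def finAdHom444 (v : HeightOneSpectrum (𝓞 K)) : v.adicCompletion K →* Ad444 K where
  toFun c := ((1 : InfiniteAdeleRing K), finAd444 v c)
  map_one' := by
    refine ad_ext444 (fun w => rfl) (fun v' => ?_)
    by_cases h : v' = v
    · subst h
      exact finAd444_self v' 1
    · exact finAd444_of_ne h 1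
  map_mul' c c' := by
    refine ad_ext444 (fun w => (one_mul (1 : w.Completion)).symm) (fun v' => ?_)
    by_cases h : v' = v
    · subst h
      show finAd444 v' (c * c') v' = finAd444 v' c v' * finAd444 v' c' v'
      rw [finAd444_self, finAd444_self, finAd444_self]
    · show finAd444 v (c * c') v' = finAd444 v c v' * finAd444 v c' v'
      rw [finAd444_of_ne h, finAd444_of_ne h, finAd444_of_ne h, one_mul]

theorem continuous_finAdHom444 (v : HeightOneSpectrum (𝓞 K)) :
    Continuous (finAdHom444 (K := K) v) :=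
  Continuous.prodMk continuous_const (continuous_finAd444 v)

/-- The idele with component `c` at the finite place `v` and `1` at the other places. -/
def finIdele444 (v : HeightOneSpectrum (𝓞 K)) : (v.adicCompletion K)ˣ →* (Ad444 K)ˣ :=
  Units.map (finAdHom444 v)

theorem continuous_finIdele444 (v : HeightOneSpectrum (𝓞 K)) :
    Continuous (finIdele444 (K := K) v) :=
  Continuous.units_map (finAdHom444 v) (continuous_finAdHom444 v)

theorem finIdele444_inf (v : HeightOneSpectrum (𝓞 K)) (c : (v.adicCompletion K)ˣ)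
    (w : InfinitePlace K) : ((finIdele444 v c : (Ad444 K)ˣ) : Ad444 K).1 w = 1 := rfl

theorem finIdele444_self (v : HeightOneSpectrum (𝓞 K)) (c : (v.adicCompletion K)ˣ) :
    ((finIdele444 v c : (Ad444 K)ˣ) : Ad444 K).2 v = c :=
  finAd444_self v c

theorem finIdele444_of_ne {v v' : HeightOneSpectrum (𝓞 K)} (h : v' ≠ v)
    (c : (v.adicCompletion K)ˣ) : ((finIdele444 v c : (Ad444 K)ˣ) : Ad444 K).2 v' = 1 :=
  finAd444_of_ne h c


/-! ## Ideles supported at one infinite place -/

open Classical in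
/-- The adele with component `c` at the infinite place `w` and `1` at the other places, as a
monoid homomorphism. -/
def infAdHom444 (w : InfinitePlace K) : w.Completion →* Ad444 K where
  toFun c := ((Function.update (fun _ => 1) w c : InfiniteAdeleRing K),
    (1 : FiniteAdeleRing (𝓞 K) K))
  map_one' := by
    refine ad_ext444 (fun w' => ?_) (fun v' => rfl)
    show Function.update (fun _ => 1) w (1 : w.Completion) w' = 1
    by_cases h : w' = w
    · subst h
      simp
    · rw [Function.update_of_ne h]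
  map_mul' c c' := by
    refine ad_ext444 (fun w' => ?_) (fun v' => (one_mul (1 : v'.adicCompletion K)).symm)
    show Function.update (fun _ => 1) w (c * c') w' =
      Function.update (fun _ => 1) w c w' * Function.update (fun _ => 1) w c' w'
    by_cases h : w' = w
    · subst h
      simp
    · rw [Function.update_of_ne h, Function.update_of_ne h, Function.update_of_ne h, one_mul]

theorem continuous_infAdHom444 (w : InfinitePlace K) :
    Continuous (infAdHom444 (K := K) w) := by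
  classical
  refine Continuous.prodMk ?_ continuous_const
  refine continuous_pi (fun w' => ?_)
  by_cases h : w' = w
  · subst h
    have : (fun c : w'.Completion => (Function.update (fun _ => 1) w' c : InfiniteAdeleRing K) w')
        = fun c => c := by
      funext c
      simp
    rw [this]
    exact continuous_id
  · have : (fun c : w.Completion => (Function.update (fun _ => 1) w c : InfiniteAdeleRing K) w')
        = fun _ => 1 := by
      funext c
      rw [Function.update_of_ne h]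
    rw [this]
    exact continuous_const

/-- The idele with component `c` at the infinite place `w` and `1` at the other places. -/
def infIdele444 (w : InfinitePlace K) : (w.Completion)ˣ →* (Ad444 K)ˣ :=
  Units.map (infAdHom444 w)

theorem continuous_infIdele444 (w : InfinitePlace K) :
    Continuous (infIdele444 (K := K) w) :=
  Continuous.units_map (infAdHom444 w) (continuous_infAdHom444 w)

theorem infIdele444_fin (w : InfinitePlace K) (c : (w.Completion)ˣ)
    (v : HeightOneSpectrum (𝓞 K)) : ((infIdele444 w c : (Ad444 K)ˣ) : Ad444 K).2 v = 1 := rfl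

theorem infIdele444_self (w : InfinitePlace K) (c : (w.Completion)ˣ) :
    ((infIdele444 w c : (Ad444 K)ˣ) : Ad444 K).1 w = c := by
  classical
  show Function.update (fun _ => 1) w (c : w.Completion) w = c
  simp

theorem infIdele444_of_ne {w w' : InfinitePlace K} (h : w' ≠ w) (c : (w.Completion)ˣ) :
    ((infIdele444 w c : (Ad444 K)ˣ) : Ad444 K).1 w' = 1 := by
  classical
  show Function.update (fun _ => 1) w (c : w.Completion) w' = 1
  rw [Function.update_of_ne h]

/-! ## Ideles with unit components -/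

/-- The adele with integral components `y v` at the finite places and `1` at the infinite
places. -/
def unitAdHom444 :
    ((v : HeightOneSpectrum (𝓞 K)) → v.adicCompletionIntegers K) →* Ad444 K where
  toFun y := ((1 : InfiniteAdeleRing K),
    (RestrictedProduct.structureMap (fun v : HeightOneSpectrum (𝓞 K) => v.adicCompletion K)
      (fun v => (v.adicCompletionIntegers K : Set (v.adicCompletion K))) cofinite y :
      FiniteAdeleRing (𝓞 K) K))
  map_one' := ad_ext444 (fun w => rfl) (fun v => rfl)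
  map_mul' y y' := ad_ext444 (fun w => (one_mul (1 : w.Completion)).symm) (fun v => rfl)

theorem unitAdHom444_fin (y : (v : HeightOneSpectrum (𝓞 K)) → v.adicCompletionIntegers K)
    (v : HeightOneSpectrum (𝓞 K)) : (unitAdHom444 y).2 v = (y v : v.adicCompletion K) := rfl

theorem continuous_unitAdHom444 : Continuous (unitAdHom444 (K := K)) :=
  Continuous.prodMk continuous_const RestrictedProduct.isEmbedding_structureMap.continuous

/-- The idele with unit components `y v` at the finite places and `1` at the infinite places. -/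
def unitIdele444 :
    ((v : HeightOneSpectrum (𝓞 K)) → (v.adicCompletionIntegers K)ˣ) →* (Ad444 K)ˣ :=
  (Units.map unitAdHom444).comp MulEquiv.piUnits.symm.toMonoidHom

theorem unitIdele444_inf (y : (v : HeightOneSpectrum (𝓞 K)) → (v.adicCompletionIntegers K)ˣ)
    (w : InfinitePlace K) : ((unitIdele444 y : (Ad444 K)ˣ) : Ad444 K).1 w = 1 := rfl

theorem unitIdele444_fin (y : (v : HeightOneSpectrum (𝓞 K)) → (v.adicCompletionIntegers K)ˣ)
    (v : HeightOneSpectrum (𝓞 K)) :
    ((unitIdele444 y : (Ad444 K)ˣ) : Ad444 K).2 v = ((y v : v.adicCompletionIntegers K) :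
      v.adicCompletion K) := rfl

theorem continuous_unitIdele444 : Continuous (unitIdele444 (K := K)) := by
  rw [Units.continuous_iff]
  constructor
  · have : (Units.val ∘ (unitIdele444 (K := K))) =
        unitAdHom444 ∘ (fun y v => ((y v : (v.adicCompletionIntegers K)ˣ) :
          v.adicCompletionIntegers K)) := rfl
    rw [this]
    exact continuous_unitAdHom444.comp
      (continuous_pi (fun v => Units.continuous_val.comp (continuous_apply v)))
  · have : (fun y => ((unitIdele444 (K := K) y)⁻¹ : (Ad444 K)ˣ).val) =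
        unitAdHom444 ∘ (fun y v => (((y v)⁻¹ : (v.adicCompletionIntegers K)ˣ) :
          v.adicCompletionIntegers K)) := by
      funext y
      rw [← map_inv]
      rfl
    rw [this]
    exact continuous_unitAdHom444.comp
      (continuous_pi (fun v => Units.continuous_val.comp
        (continuous_inv.comp (continuous_apply v))))


/-! ## Components of units and of finite products -/

/-- The component of an idele at the finite place `v`, as a unit. -/
def unitFin444 (v : HeightOneSpectrum (𝓞 K)) : (Ad444 K)ˣ →* (v.adicCompletion K)ˣ :=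
  Units.map (evFin444 v).toMonoidHom

/-- The component of an idele at the infinite place `w`, as a unit. -/
def unitInf444 (w : InfinitePlace K) : (Ad444 K)ˣ →* (w.Completion)ˣ :=
  Units.map (evInf444 w).toMonoidHom

theorem unitFin444_val (v : HeightOneSpectrum (𝓞 K)) (z : (Ad444 K)ˣ) :
    ((unitFin444 v z : (v.adicCompletion K)ˣ) : v.adicCompletion K) = (z : Ad444 K).2 v := rfl

theorem unitInf444_val (w : InfinitePlace K) (z : (Ad444 K)ˣ) :
    ((unitInf444 w z : (w.Completion)ˣ) : w.Completion) = (z : Ad444 K).1 w := rfl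

theorem mul_fin444 (z z' : (Ad444 K)ˣ) (v : HeightOneSpectrum (𝓞 K)) :
    ((z * z' : (Ad444 K)ˣ) : Ad444 K).2 v = (z : Ad444 K).2 v * (z' : Ad444 K).2 v := rfl

theorem mul_inf444 (z z' : (Ad444 K)ˣ) (w : InfinitePlace K) :
    ((z * z' : (Ad444 K)ˣ) : Ad444 K).1 w = (z : Ad444 K).1 w * (z' : Ad444 K).1 w := rfl

theorem one_fin444 (v : HeightOneSpectrum (𝓞 K)) :
    ((1 : (Ad444 K)ˣ) : Ad444 K).2 v = 1 := rfl

theorem one_inf444 (w : InfinitePlace K) :
    ((1 : (Ad444 K)ˣ) : Ad444 K).1 w = 1 := rfl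

theorem inv_fin444 (z : (Ad444 K)ˣ) (v : HeightOneSpectrum (𝓞 K)) :
    ((z⁻¹ : (Ad444 K)ˣ) : Ad444 K).2 v = ((z : Ad444 K).2 v)⁻¹ := by
  have h := map_inv (unitFin444 v) z
  have h2 := congrArg (fun u : (v.adicCompletion K)ˣ => (u : v.adicCompletion K)) h
  simp only [Units.val_inv_eq_inv_val] at h2
  exact h2

theorem inv_inf444 (z : (Ad444 K)ˣ) (w : InfinitePlace K) :
    ((z⁻¹ : (Ad444 K)ˣ) : Ad444 K).1 w = ((z : Ad444 K).1 w)⁻¹ := by
  have h := map_inv (unitInf444 w) z
  have h2 := congrArg (fun u : (w.Completion)ˣ => (u : w.Completion)) h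
  simp only [Units.val_inv_eq_inv_val] at h2
  exact h2

theorem prod_fin444 {ι : Type*} (T : Finset ι) (f : ι → (Ad444 K)ˣ)
    (v : HeightOneSpectrum (𝓞 K)) :
    ((∏ i ∈ T, f i : (Ad444 K)ˣ) : Ad444 K).2 v = ∏ i ∈ T, ((f i : (Ad444 K)ˣ) : Ad444 K).2 v := by
  have h := map_prod (unitFin444 v) f T
  have h2 := congrArg (fun u : (v.adicCompletion K)ˣ => (u : v.adicCompletion K)) h
  simp only [Units.coe_prod] at h2
  exact h2

theorem prod_inf444 {ι : Type*} (T : Finset ι) (f : ι → (Ad444 K)ˣ)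
    (w : InfinitePlace K) :
    ((∏ i ∈ T, f i : (Ad444 K)ˣ) : Ad444 K).1 w = ∏ i ∈ T, ((f i : (Ad444 K)ˣ) : Ad444 K).1 w := by
  have h := map_prod (unitInf444 w) f T
  have h2 := congrArg (fun u : (w.Completion)ˣ => (u : w.Completion)) h
  simp only [Units.coe_prod] at h2
  exact h2

/-- Components of a finite product of ideles supported at distinct finite places. -/
theorem prod_finIdele_fin_mem444 {T : Finset (HeightOneSpectrum (𝓞 K))}
    (c : (v : HeightOneSpectrum (𝓞 K)) → (v.adicCompletion K)ˣ) {v : HeightOneSpectrum (𝓞 K)}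
    (h : v ∈ T) :
    ((∏ v' ∈ T, finIdele444 v' (c v') : (Ad444 K)ˣ) : Ad444 K).2 v = (c v : v.adicCompletion K) := by
  rw [prod_fin444, Finset.prod_eq_single_of_mem v h, finIdele444_self]
  intro v' _ hne
  exact finIdele444_of_ne hne.symm (c v')

theorem prod_finIdele_fin_notMem444 {T : Finset (HeightOneSpectrum (𝓞 K))}
    (c : (v : HeightOneSpectrum (𝓞 K)) → (v.adicCompletion K)ˣ) {v : HeightOneSpectrum (𝓞 K)}
    (h : v ∉ T) :
    ((∏ v' ∈ T, finIdele444 v' (c v') : (Ad444 K)ˣ) : Ad444 K).2 v = 1 := by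
  rw [prod_fin444]
  refine Finset.prod_eq_one (fun v' hv' => ?_)
  refine finIdele444_of_ne ?_ (c v')
  rintro rfl
  exact h hv'

theorem prod_finIdele_inf444 (T : Finset (HeightOneSpectrum (𝓞 K)))
    (c : (v : HeightOneSpectrum (𝓞 K)) → (v.adicCompletion K)ˣ) (w : InfinitePlace K) :
    ((∏ v' ∈ T, finIdele444 v' (c v') : (Ad444 K)ˣ) : Ad444 K).1 w = 1 := by
  rw [prod_inf444]
  exact Finset.prod_eq_one (fun v' _ => finIdele444_inf v' (c v') w)

/-- Components of a finite product of ideles supported at distinct infinite places. -/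
theorem prod_infIdele_inf_mem444 {T : Finset (InfinitePlace K)}
    (c : (w : InfinitePlace K) → (w.Completion)ˣ) {w : InfinitePlace K} (h : w ∈ T) :
    ((∏ w' ∈ T, infIdele444 w' (c w') : (Ad444 K)ˣ) : Ad444 K).1 w = (c w : w.Completion) := by
  rw [prod_inf444, Finset.prod_eq_single_of_mem w h, infIdele444_self]
  intro w' _ hne
  exact infIdele444_of_ne hne.symm (c w')

theorem prod_infIdele_fin444 (T : Finset (InfinitePlace K))
    (c : (w : InfinitePlace K) → (w.Completion)ˣ) (v : HeightOneSpectrum (𝓞 K)) :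
    ((∏ w' ∈ T, infIdele444 w' (c w') : (Ad444 K)ˣ) : Ad444 K).2 v = 1 := by
  rw [prod_fin444]
  exact Finset.prod_eq_one (fun w' _ => infIdele444_fin w' (c w') v)


/-! ## Characters trivial at the places outside `S` -/

/-- `ψ` is trivial on the ideles supported at a single finite place outside `S`. -/
def TrivAway444 (ψ : (Ad444 K)ˣ →* ℂˣ) (S : Finset (HeightOneSpectrum (𝓞 K))) : Prop :=
  ∀ v : HeightOneSpectrum (𝓞 K), v ∉ S → ∀ z : (Ad444 K)ˣ,
    (∀ w : InfinitePlace K, (z : Ad444 K).1 w = 1) →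
    (∀ v' : HeightOneSpectrum (𝓞 K), v' ≠ v → (z : Ad444 K).2 v' = 1) → ψ z = 1

variable {ψ : (Ad444 K)ˣ →* ℂˣ} {S : Finset (HeightOneSpectrum (𝓞 K))}

theorem psi_finIdele444 (h : TrivAway444 ψ S) {v : HeightOneSpectrum (𝓞 K)} (hv : v ∉ S)
    (c : (v.adicCompletion K)ˣ) : ψ (finIdele444 v c) = 1 :=
  h v hv _ (finIdele444_inf v c) (fun v' hne => finIdele444_of_ne hne c)

/-- A unit of the ring of integers of `K_v` as a unit of `K_v`. -/
def unitCoe444 (v : HeightOneSpectrum (𝓞 K)) :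
    (v.adicCompletionIntegers K)ˣ →* (v.adicCompletion K)ˣ :=
  Units.map (v.adicCompletionIntegers K).subtype.toMonoidHom

theorem unitCoe444_val (v : HeightOneSpectrum (𝓞 K)) (u : (v.adicCompletionIntegers K)ˣ) :
    ((unitCoe444 v u : (v.adicCompletion K)ˣ) : v.adicCompletion K) =
      ((u : v.adicCompletionIntegers K) : v.adicCompletion K) := rfl

open Classical in
/-- Truncation of a family of local units to a finite set of places. -/
def trunc444 (T : Finset (HeightOneSpectrum (𝓞 K)))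
    (y : (v : HeightOneSpectrum (𝓞 K)) → (v.adicCompletionIntegers K)ˣ) :
    (v : HeightOneSpectrum (𝓞 K)) → (v.adicCompletionIntegers K)ˣ :=
  fun v => if v ∈ T then y v else 1

theorem trunc444_mem {T : Finset (HeightOneSpectrum (𝓞 K))}
    (y : (v : HeightOneSpectrum (𝓞 K)) → (v.adicCompletionIntegers K)ˣ)
    {v : HeightOneSpectrum (𝓞 K)} (h : v ∈ T) : trunc444 T y v = y v := by
  unfold trunc444
  rw [if_pos h]

theorem trunc444_notMem {T : Finset (HeightOneSpectrum (𝓞 K))}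
    (y : (v : HeightOneSpectrum (𝓞 K)) → (v.adicCompletionIntegers K)ˣ)
    {v : HeightOneSpectrum (𝓞 K)} (h : v ∉ T) : trunc444 T y v = 1 := by
  unfold trunc444
  rw [if_neg h]

theorem unitIdele_trunc444 (T : Finset (HeightOneSpectrum (𝓞 K)))
    (y : (v : HeightOneSpectrum (𝓞 K)) → (v.adicCompletionIntegers K)ˣ) :
    unitIdele444 (trunc444 T y) = ∏ v ∈ T, finIdele444 v (unitCoe444 v (y v)) := by
  refine idele_ext444 (fun w => ?_) (fun v => ?_)
  · rw [unitIdele444_inf, prod_finIdele_inf444 T (fun v => unitCoe444 v (y v))]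
  · rw [unitIdele444_fin]
    by_cases h : v ∈ T
    · rw [prod_finIdele_fin_mem444 (fun v => unitCoe444 v (y v)) h, trunc444_mem y h,
        unitCoe444_val]
    · rw [prod_finIdele_fin_notMem444 (fun v => unitCoe444 v (y v)) h, trunc444_notMem y h]
      rfl

theorem tendsto_trunc444
    (y : (v : HeightOneSpectrum (𝓞 K)) → (v.adicCompletionIntegers K)ˣ) :
    Tendsto (fun T : Finset (HeightOneSpectrum (𝓞 K)) => trunc444 T y) atTop (𝓝 y) := by
  rw [tendsto_pi_nhds]
  intro v
  refine tendsto_const_nhds.congr' ?_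
  filter_upwards [eventually_ge_atTop ({v} : Finset (HeightOneSpectrum (𝓞 K)))] with T hT
  exact (trunc444_mem y (hT (Finset.mem_singleton_self v))).symm

/-- A continuous character which is trivial at the places outside `S` is trivial on the ideles
with unit components which are `1` at the places of `S`. -/
theorem psi_unitIdele444 (hc : Continuous ψ) (h : TrivAway444 ψ S)
    (y : (v : HeightOneSpectrum (𝓞 K)) → (v.adicCompletionIntegers K)ˣ)
    (hy : ∀ v ∈ S, y v = 1) : ψ (unitIdele444 y) = 1 := by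
  have hlim : Tendsto (fun T : Finset (HeightOneSpectrum (𝓞 K)) =>
      ψ (unitIdele444 (trunc444 T y))) atTop (𝓝 (ψ (unitIdele444 y))) :=
    ((hc.comp continuous_unitIdele444).tendsto y).comp (tendsto_trunc444 y)
  have hone : (fun T : Finset (HeightOneSpectrum (𝓞 K)) =>
      ψ (unitIdele444 (trunc444 T y))) = fun _ => 1 := by
    funext T
    rw [unitIdele_trunc444, map_prod]
    refine Finset.prod_eq_one (fun v _ => ?_)
    by_cases hv : v ∈ S
    · rw [hy v hv, map_one, map_one, map_one]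
    · exact psi_finIdele444 h hv _
  rw [hone] at hlim
  exact tendsto_nhds_unique hlim tendsto_const_nhds

/-- The unit of the ring of integers of `K_v` given by an element of valuation `1`. -/
def unitOfValOne444 (v : HeightOneSpectrum (𝓞 K)) (x : v.adicCompletion K)
    (hx : Valued.v x = 1) : (v.adicCompletionIntegers K)ˣ where
  val := ⟨x, (HeightOneSpectrum.mem_adicCompletionIntegers (𝓞 K) K v).mpr (le_of_eq hx)⟩
  inv := ⟨x⁻¹, (HeightOneSpectrum.mem_adicCompletionIntegers (𝓞 K) K v).mpr (by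
    rw [map_inv₀, hx, inv_one])⟩
  val_inv := by
    apply Subtype.ext
    have hx0 : x ≠ 0 := by
      intro h0
      rw [h0, map_zero] at hx
      exact zero_ne_one hx
    exact mul_inv_cancel₀ hx0
  inv_val := by
    apply Subtype.ext
    have hx0 : x ≠ 0 := by
      intro h0
      rw [h0, map_zero] at hx
      exact zero_ne_one hx
    exact inv_mul_cancel₀ hx0

theorem unitOfValOne444_val (v : HeightOneSpectrum (𝓞 K)) (x : v.adicCompletion K)
    (hx : Valued.v x = 1) :
    (((unitOfValOne444 v x hx : (v.adicCompletionIntegers K)ˣ) : v.adicCompletionIntegers K) :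
      v.adicCompletion K) = x := rfl

theorem unitOfValOne444_one (v : HeightOneSpectrum (𝓞 K))
    (hx : Valued.v (1 : v.adicCompletion K) = 1) : unitOfValOne444 v 1 hx = 1 :=
  Units.ext (Subtype.ext rfl)

/-- The set of places where an idele is not a local unit is finite. -/
theorem finite_val_ne_one444 (z : (Ad444 K)ˣ) :
    {v : HeightOneSpectrum (𝓞 K) | Valued.v ((z : Ad444 K).2 v) ≠ 1}.Finite := by
  have h1 : (z : Ad444 K).2 * ((z⁻¹ : (Ad444 K)ˣ) : Ad444 K).2 = 1 :=
    congrArg (fun x : Ad444 K => x.2) z.mul_inv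
  have h2 : IsUnit ((z : Ad444 K).2) := IsUnit.of_mul_eq_one _ h1
  have h3 := (FiniteAdeleRing.isUnit_iff.mp h2).2
  rw [eventually_cofinite] at h3
  exact h3

/-- A continuous character which is trivial at the places outside `S` is trivial on the ideles
whose components at the infinite places and at the places of `S` are `1`. -/
theorem psi_of_triv444 (hc : Continuous ψ) (h : TrivAway444 ψ S) (z : (Ad444 K)ˣ)
    (hinf : ∀ w : InfinitePlace K, (z : Ad444 K).1 w = 1)
    (hS : ∀ v ∈ S, (z : Ad444 K).2 v = 1) : ψ z = 1 := by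
  classical
  set T : Finset (HeightOneSpectrum (𝓞 K)) := (finite_val_ne_one444 z).toFinset with hT
  have hmemT : ∀ v, v ∈ T ↔ Valued.v ((z : Ad444 K).2 v) ≠ 1 := by
    intro v
    rw [hT, Set.Finite.mem_toFinset]
    rfl
  let u : (v : HeightOneSpectrum (𝓞 K)) → (v.adicCompletionIntegers K)ˣ := fun v =>
    if hv : Valued.v ((z : Ad444 K).2 v) = 1 then unitOfValOne444 v _ hv else 1
  have hz : z = (∏ v ∈ T, finIdele444 v (unitFin444 v z)) * unitIdele444 u := by
    refine idele_ext444 (fun w => ?_) (fun v => ?_)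
    · rw [mul_inf444, prod_finIdele_inf444 T (fun v => unitFin444 v z), unitIdele444_inf, hinf,
        one_mul]
    · rw [mul_fin444, unitIdele444_fin]
      by_cases hv : v ∈ T
      · have hv' : ¬ Valued.v ((z : Ad444 K).2 v) = 1 := (hmemT v).mp hv
        rw [prod_finIdele_fin_mem444 (fun v => unitFin444 v z) hv, unitFin444_val]
        simp only [u, dif_neg hv']
        simp
      · have hv' : Valued.v ((z : Ad444 K).2 v) = 1 := by
          by_contra hcon
          exact hv ((hmemT v).mpr hcon)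
        rw [prod_finIdele_fin_notMem444 (fun v => unitFin444 v z) hv]
        simp only [u, dif_pos hv']
        rw [unitOfValOne444_val, one_mul]
  have hu : ∀ v ∈ S, u v = 1 := by
    intro v hv
    have h1 : Valued.v ((z : Ad444 K).2 v) = 1 := by rw [hS v hv, map_one]
    simp only [u, dif_pos h1]
    apply Units.ext
    apply Subtype.ext
    rw [unitOfValOne444_val]
    exact hS v hv
  rw [hz, map_mul, psi_unitIdele444 hc h u hu, mul_one, map_prod]
  refine Finset.prod_eq_one (fun v hv => ?_)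
  refine psi_finIdele444 h ?_ _
  intro hvS
  exact (hmemT v).mp hv (by rw [hS v hvS, map_one])

end Fermat.Agent.LT.A2.H444

end
end
-- ===== PACK-END LT/A2/H444/Idele.lean

-- ===== PACK-BEGIN LT/A2/H743/BaseChange.lean
section


/-!
# Row LT, tower A2: ADELIC BASE CHANGE `𝔸_K → 𝔸_L` (pre-leaf for `A2.02 TorusCharC`)

OFF-MAIN (helper743).  Mathlib only.  For an arbitrary extension `L / K` of number fields:

* `infUnder743`, `finUnder743` : the place of `K` under an infinite / a finite place of `L`.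
* `infLoc743 u : K_v → L_u`, `finLoc743 w : K_v → L_w` : the local maps (completions of
  `algebraMap K L`; Mathlib `NumberField.LiesOver.completionMap`,
  `HeightOneSpectrum.uniformContinuous_algebraMap_liesOver`), continuous, compatible with the
  global elements (`infLoc_coe743`, `finLoc_coe743`), and
  `valued_finLoc743 : Valued.v (finLoc743 K L w c) = Valued.v c ^ e(w | v)`.
* `bcAdele743 K L : 𝔸_K →+* 𝔸_L` : the base change of adeles, `continuous_bcAdele743`,
  `bcAdele_algebraMap743 : bc (x) = (algebraMap K L x)` on principal adeles,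
  `bcAdele_fst743`, `bcAdele_snd743` : the components of `bc a` at `u`, `w` are the images of the
  components of `a` at the places under `u`, `w`.
* `bcUnits743 K L : 𝔸_Kˣ →* 𝔸_Lˣ` and its continuity.
-/

set_option autoImplicit false
set_option linter.unusedSectionVars false

open IsDedekindDomain NumberField

noncomputable section

namespace Fermat.Agent.LT.A2.H743

variable (K L : Type) [Field K] [NumberField K] [Field L] [NumberField L] [Algebra K L]

/-! ## Infinite places -/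

/-- The infinite place of `K` under the infinite place `u` of `L`. -/
def infUnder743 (u : InfinitePlace L) : InfinitePlace K := u.comap (algebraMap K L)

instance infUnder_liesOver743 (u : InfinitePlace L) : u.LiesOver (infUnder743 K L u) :=
  ⟨rfl⟩

/-- The local map `K_v → L_u` at an infinite place `u` of `L`, `v` the place under `u`. -/
def infLoc743 (u : InfinitePlace L) : (infUnder743 K L u).Completion →+* u.Completion :=
  NumberField.LiesOver.completionMap

theorem continuous_infLoc743 (u : InfinitePlace L) : Continuous (infLoc743 K L u) :=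
  NumberField.LiesOver.continuous_completionMap

open scoped NumberField.LiesOver in
theorem infLoc_coe743 (u : InfinitePlace L) (x : K) :
    infLoc743 K L u (algebraMap K (infUnder743 K L u).Completion x)
      = algebraMap L u.Completion (algebraMap K L x) := by
  have h := IsScalarTower.algebraMap_apply K (infUnder743 K L u).Completion u.Completion x
  have h2 : algebraMap K u.Completion x = algebraMap L u.Completion (algebraMap K L x) := rfl
  rw [← h2, h]
  rfl

/-- Base change of the infinite adeles. -/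
def infBC743 : InfiniteAdeleRing K →+* InfiniteAdeleRing L :=
  RingHom.pi fun u => (infLoc743 K L u).comp (Pi.evalRingHom _ (infUnder743 K L u))

theorem infBC_apply743 (a : InfiniteAdeleRing K) (u : InfinitePlace L) :
    infBC743 K L a u = infLoc743 K L u (a (infUnder743 K L u)) := rfl

theorem continuous_infBC743 : Continuous (infBC743 K L) :=
  continuous_pi fun u => (continuous_infLoc743 K L u).comp (continuous_apply _)

/-! ## Finite places -/

/-- The finite place of `K` under the finite place `w` of `L`. -/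
def finUnder743 (w : HeightOneSpectrum (𝓞 L)) : HeightOneSpectrum (𝓞 K) where
  asIdeal := w.asIdeal.under (𝓞 K)
  isPrime := inferInstance
  ne_bot := Ideal.under_ne_bot (𝓞 K) w.ne_bot

instance finUnder_liesOver743 (w : HeightOneSpectrum (𝓞 L)) :
    w.asIdeal.LiesOver (finUnder743 K L w).asIdeal := ⟨rfl⟩

/-- The map `K → L` between the valued fields. -/
def valMap743 (w : HeightOneSpectrum (𝓞 L)) :
    WithVal ((finUnder743 K L w).valuation K) →+* WithVal (w.valuation L) :=
  algebraMap (WithVal ((finUnder743 K L w).valuation K)) (WithVal (w.valuation L))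

theorem continuous_valMap743 (w : HeightOneSpectrum (𝓞 L)) : Continuous (valMap743 K L w) :=
  (HeightOneSpectrum.uniformContinuous_algebraMap_liesOver K L (finUnder743 K L w) w).continuous

/-- The local map `K_v → L_w` at a finite place `w` of `L`, `v` the place under `w`. -/
def finLoc743 (w : HeightOneSpectrum (𝓞 L)) :
    (finUnder743 K L w).adicCompletion K →+* w.adicCompletion L :=
  ((HeightOneSpectrum.adicCompletion.equiv L w).symm.toRingHom.comp
    (UniformSpace.Completion.mapRingHom (valMap743 K L w) (continuous_valMap743 K L w))).comp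
    (HeightOneSpectrum.adicCompletion.equiv K (finUnder743 K L w)).toRingHom

theorem finLoc_apply743 (w : HeightOneSpectrum (𝓞 L))
    (c : (finUnder743 K L w).adicCompletion K) :
    finLoc743 K L w c = HeightOneSpectrum.adicCompletion.ofCompletion
      (UniformSpace.Completion.mapRingHom (valMap743 K L w) (continuous_valMap743 K L w)
        c.toCompletion) := rfl

theorem continuous_finLoc743 (w : HeightOneSpectrum (𝓞 L)) : Continuous (finLoc743 K L w) :=
  (HeightOneSpectrum.adicCompletion.continuous_ofCompletion L w).comp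
    (UniformSpace.Completion.continuous_map.comp
      (HeightOneSpectrum.adicCompletion.continuous_toCompletion K (finUnder743 K L w)))

theorem finLoc_coe743 (w : HeightOneSpectrum (𝓞 L)) (x : K) :
    finLoc743 K L w ((x : K) : (finUnder743 K L w).adicCompletion K)
      = ((algebraMap K L x : L) : w.adicCompletion L) := by
  rw [finLoc_apply743]
  apply HeightOneSpectrum.adicCompletion.ext
  exact UniformSpace.Completion.mapRingHom_coe (continuous_valMap743 K L w) _

/-- The ramification index of `w` over the place under it. -/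
def ramIdx743 (w : HeightOneSpectrum (𝓞 L)) : ℕ :=
  (finUnder743 K L w).asIdeal.ramificationIdx' w.asIdeal

theorem ramIdx_ne_zero743 (w : HeightOneSpectrum (𝓞 L)) : ramIdx743 K L w ≠ 0 :=
  Ideal.IsDedekindDomain.ramificationIdx'_ne_zero_of_liesOver w.asIdeal (finUnder743 K L w).ne_bot

open WithZeroTopology in
/-- The valuation of the image under the local map. -/
theorem valued_finLoc743 (w : HeightOneSpectrum (𝓞 L))
    (c : (finUnder743 K L w).adicCompletion K) :
    Valued.v (finLoc743 K L w c) = Valued.v c ^ ramIdx743 K L w := by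
  have h1 : Continuous fun c : (finUnder743 K L w).adicCompletion K =>
      Valued.v (finLoc743 K L w c) :=
    (Valued.continuous_valuation_of_surjective
      (HeightOneSpectrum.valuedAdicCompletion_surjective L w)).comp (continuous_finLoc743 K L w)
  have h2 : Continuous fun c : (finUnder743 K L w).adicCompletion K =>
      Valued.v c ^ ramIdx743 K L w :=
    (Valued.continuous_valuation_of_surjective
      (HeightOneSpectrum.valuedAdicCompletion_surjective K (finUnder743 K L w))).pow _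
  have hd : DenseRange (algebraMap K ((finUnder743 K L w).adicCompletion K)) :=
    (finUnder743 K L w).denseRange_algebraMap K
  have heq : (fun c : (finUnder743 K L w).adicCompletion K => Valued.v (finLoc743 K L w c)) ∘
      (algebraMap K ((finUnder743 K L w).adicCompletion K))
      = (fun c : (finUnder743 K L w).adicCompletion K => Valued.v c ^ ramIdx743 K L w) ∘
      (algebraMap K ((finUnder743 K L w).adicCompletion K)) := by
    funext x
    show Valued.v (finLoc743 K L w ((x : K) : (finUnder743 K L w).adicCompletion K))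
      = Valued.v ((x : K) : (finUnder743 K L w).adicCompletion K) ^ ramIdx743 K L w
    rw [finLoc_coe743, HeightOneSpectrum.adicCompletion.valued_coe,
      HeightOneSpectrum.adicCompletion.valued_coe]
    exact (HeightOneSpectrum.valuation_liesOver L (finUnder743 K L w) w x).symm
  exact congrFun (hd.equalizer h1 h2 heq) c

theorem finite_fiber_finUnder743 (v : HeightOneSpectrum (𝓞 K)) :
    (finUnder743 K L ⁻¹' {v}).Finite := by
  have hfin : (v.asIdeal.primesOver (𝓞 L)).Finite :=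
    Algebra.QuasiFinite.finite_primesOver v.asIdeal
  refine Set.Finite.of_finite_image (f := fun w : HeightOneSpectrum (𝓞 L) => w.asIdeal)
    (hfin.subset ?_) ?_
  · rintro _ ⟨w, hw, rfl⟩
    refine ⟨w.isPrime, ⟨?_⟩⟩
    rw [← Set.mem_singleton_iff.mp hw]
    rfl
  · intro w₁ _ w₂ _ h
    exact HeightOneSpectrum.ext h

theorem tendsto_finUnder743 :
    Filter.Tendsto (finUnder743 K L) Filter.cofinite Filter.cofinite :=
  Filter.Tendsto.cofinite_of_finite_preimage_singleton (finite_fiber_finUnder743 K L)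

theorem mapsTo_finLoc743 (w : HeightOneSpectrum (𝓞 L)) :
    Set.MapsTo (finLoc743 K L w)
      ((finUnder743 K L w).adicCompletionIntegers K : Set ((finUnder743 K L w).adicCompletion K))
      (w.adicCompletionIntegers L : Set (w.adicCompletion L)) := by
  intro c hc
  rw [SetLike.mem_coe, HeightOneSpectrum.mem_adicCompletionIntegers] at hc ⊢
  rw [valued_finLoc743]
  exact pow_le_one' hc _

/-- Base change of the finite adeles. -/
def finBC743 : FiniteAdeleRing (𝓞 K) K →+* FiniteAdeleRing (𝓞 L) L :=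
  RestrictedProduct.mapAlongRingHom (fun v : HeightOneSpectrum (𝓞 K) => v.adicCompletion K)
    (fun w : HeightOneSpectrum (𝓞 L) => w.adicCompletion L)
    (finUnder743 K L) (tendsto_finUnder743 K L) (fun w => finLoc743 K L w)
    (Filter.Eventually.of_forall (mapsTo_finLoc743 K L))

theorem finBC_apply743 (a : FiniteAdeleRing (𝓞 K) K) (w : HeightOneSpectrum (𝓞 L)) :
    finBC743 K L a w = finLoc743 K L w (a (finUnder743 K L w)) := rfl

theorem continuous_finBC743 : Continuous (finBC743 K L) :=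
  RestrictedProduct.mapAlong_continuous (fun v : HeightOneSpectrum (𝓞 K) => v.adicCompletion K)
    (fun w : HeightOneSpectrum (𝓞 L) => w.adicCompletion L)
    (finUnder743 K L) (tendsto_finUnder743 K L) (fun w => finLoc743 K L w)
    (Filter.Eventually.of_forall (mapsTo_finLoc743 K L)) (continuous_finLoc743 K L)

/-! ## The adeles -/

/-- **Base change of the adeles**, `𝔸_K → 𝔸_L`. -/
def bcAdele743 : NumberField.AdeleRing (𝓞 K) K →+* NumberField.AdeleRing (𝓞 L) L :=
  RingHom.prodMap (infBC743 K L) (finBC743 K L)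

theorem bcAdele_fst743 (a : NumberField.AdeleRing (𝓞 K) K) (u : InfinitePlace L) :
    (bcAdele743 K L a).1 u = infLoc743 K L u (a.1 (infUnder743 K L u)) := rfl

theorem bcAdele_snd743 (a : NumberField.AdeleRing (𝓞 K) K) (w : HeightOneSpectrum (𝓞 L)) :
    (bcAdele743 K L a).2 w = finLoc743 K L w (a.2 (finUnder743 K L w)) := rfl

theorem continuous_bcAdele743 : Continuous (bcAdele743 K L) :=
  (continuous_infBC743 K L).prodMap (continuous_finBC743 K L)

/-- Base change is the inclusion `K ⊂ L` on the principal adeles. -/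
theorem bcAdele_algebraMap743 (x : K) :
    bcAdele743 K L (algebraMap K (NumberField.AdeleRing (𝓞 K) K) x)
      = algebraMap L (NumberField.AdeleRing (𝓞 L) L) (algebraMap K L x) := by
  refine Prod.ext ?_ ?_
  · funext u
    exact infLoc_coe743 K L u x
  · refine FiniteAdeleRing.ext (R := 𝓞 L) (K := L) fun w => ?_
    exact finLoc_coe743 K L w x

/-- Base change of the ideles. -/
def bcUnits743 : (NumberField.AdeleRing (𝓞 K) K)ˣ →* (NumberField.AdeleRing (𝓞 L) L)ˣ :=
  Units.map (bcAdele743 K L).toMonoidHom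

theorem bcUnits_val743 (z : (NumberField.AdeleRing (𝓞 K) K)ˣ) :
    ((bcUnits743 K L z : (NumberField.AdeleRing (𝓞 L) L)ˣ) : NumberField.AdeleRing (𝓞 L) L)
      = bcAdele743 K L (z : NumberField.AdeleRing (𝓞 K) K) := rfl

theorem continuous_bcUnits743 : Continuous (bcUnits743 K L) :=
  Continuous.units_map (bcAdele743 K L).toMonoidHom (continuous_bcAdele743 K L)

/-- Base change maps the principal ideles to the principal ideles. -/
theorem bcUnits_principal743 (x : Kˣ) :
    bcUnits743 K L (Units.map (algebraMap K (NumberField.AdeleRing (𝓞 K) K)).toMonoidHom x)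
      = Units.map (algebraMap L (NumberField.AdeleRing (𝓞 L) L)).toMonoidHom
          (Units.map (algebraMap K L).toMonoidHom x) :=
  Units.ext (bcAdele_algebraMap743 K L (x : K))

end Fermat.Agent.LT.A2.H743

end
end
-- ===== PACK-END LT/A2/H743/BaseChange.lean

-- ===== PACK-BEGIN LT/A2/H709/PsiArith.lean
section


/-!
# Row LT, tower A2, leaf A2.03.1.1.01 `PsiC` (helper709) -- the arithmetic part

OFF-MAIN.  Mathlib only.

* `trInf709` : the trace functional `∑_u mult(u) Re(x_u)` on `K_∞`; on `K` it is `Tr_{K/ℚ}`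
  (`trInf_algebraMap709`), so it takes integral values on `𝓞 K` (`trInf_int709`).
* `exists_trace_not_int709` : at a place `v` which does not divide the different there is
  `k ∈ K`, of valuation `exp 1` at `v`, integral at the other finite places, whose trace is not
  an integer.
-/

set_option autoImplicit false

open NumberField IsDedekindDomain WithZero
open scoped nonZeroDivisors

noncomputable section

namespace Fermat.Agent.LT.A2.H709

variable (K : Type) [Field K] [NumberField K]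

/-- The trace functional on `K_∞`: `∑_u mult(u) · Re(x_u)`. -/
def trInf709 (y : (u : InfinitePlace K) → u.Completion) : ℝ :=
  ∑ u : InfinitePlace K, (u.mult : ℝ) * (InfinitePlace.Completion.extensionEmbedding u (y u)).re

theorem trInf_add709 (y z : (u : InfinitePlace K) → u.Completion) :
    trInf709 K (y + z) = trInf709 K y + trInf709 K z := by
  unfold trInf709
  rw [← Finset.sum_add_distrib]
  refine Finset.sum_congr rfl fun u _ => ?_
  rw [Pi.add_apply, map_add, Complex.add_re, mul_add]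

theorem trInf_zero709 : trInf709 K 0 = 0 := by
  unfold trInf709
  simp

theorem trInf_neg709 (y : (u : InfinitePlace K) → u.Completion) :
    trInf709 K (-y) = - trInf709 K y := by
  have h := trInf_add709 K y (-y)
  rw [add_neg_cancel, trInf_zero709] at h
  linarith

theorem trInf_sub709 (y z : (u : InfinitePlace K) → u.Completion) :
    trInf709 K (y - z) = trInf709 K y - trInf709 K z := by
  rw [sub_eq_add_neg, trInf_add709, trInf_neg709, sub_eq_add_neg]

theorem continuous_trInf709 : Continuous (trInf709 K) := by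
  unfold trInf709
  refine continuous_finsetSum _ fun u _ => ?_
  refine continuous_const.mul ?_
  refine Complex.continuous_re.comp ?_
  exact (InfinitePlace.Completion.isometry_extensionEmbedding u).continuous.comp
    (continuous_apply u)

/-- The sum of the real parts of the conjugates of `k` is the trace. -/
theorem sum_re_embeddings709 (k : K) :
    ∑ φ : K →+* ℂ, (φ k).re = ((Algebra.trace ℚ K k : ℚ) : ℝ) := by
  have h := trace_eq_sum_embeddings (K := ℚ) (L := K) ℂ (x := k)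
  have h2 : ∑ σ : K →ₐ[ℚ] ℂ, σ k = ∑ φ : K →+* ℂ, φ k := by
    refine Fintype.sum_equiv (RingHom.equivRatAlgHom K ℂ).symm _ _ fun σ => ?_
    rfl
  rw [h2] at h
  have h3 := congrArg Complex.re h
  rw [Complex.re_sum] at h3
  rw [← h3]
  simp

theorem trInf_algebraMap709 (k : K) :
    trInf709 K (fun u => algebraMap K u.Completion k) = ((Algebra.trace ℚ K k : ℚ) : ℝ) := by
  classical
  rw [← sum_re_embeddings709]
  unfold trInf709
  rw [← Finset.sum_fiberwise (Finset.univ : Finset (K →+* ℂ)) InfinitePlace.mk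
    (fun φ => (φ k).re)]
  refine Finset.sum_congr rfl fun u _ => ?_
  have hu : ∀ φ ∈ (Finset.univ.filter fun φ : K →+* ℂ => InfinitePlace.mk φ = u),
      (φ k).re = (u.embedding k).re := by
    intro φ hφ
    rw [Finset.mem_filter] at hφ
    have h1 := hφ.2
    rw [← InfinitePlace.mk_embedding u, InfinitePlace.mk_eq_iff] at h1
    rcases h1 with h1 | h1
    · rw [h1]
    · rw [← h1]
      simp [ComplexEmbedding.conjugate_coe_eq]
  rw [Finset.sum_congr rfl hu, Finset.sum_const, InfinitePlace.card_filter_mk_eq, nsmul_eq_mul]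
  congr 2
  simp

theorem trInf_int709 (a : 𝓞 K) :
    ∃ n : ℤ, trInf709 K (fun u => algebraMap K u.Completion (a : K)) = n := by
  refine ⟨Algebra.trace ℤ (𝓞 K) a, ?_⟩
  rw [trInf_algebraMap709, ← Algebra.coe_trace_int]
  simp

/-- At a place which does not divide the different there is an element of `K` of valuation
`exp 1`, integral at the other finite places, whose trace is not an integer. -/
theorem exists_trace_not_int709 (v : HeightOneSpectrum (𝓞 K))
    (hv : ¬ v.asIdeal ∣ differentIdeal ℤ (𝓞 K)) :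
    ∃ k : K, v.valuation K k = exp (1 : ℤ) ∧
      (∀ w : HeightOneSpectrum (𝓞 K), w ≠ v → w.valuation K k ≤ 1) ∧
      ∀ n : ℤ, ((Algebra.trace ℚ K k : ℚ) : ℝ) ≠ n := by
  classical
  rw [Ideal.dvd_iff_le, differentialIdeal_le_iff (K := ℚ) (L := K) v.ne_bot] at hv
  rw [SetLike.not_le_iff_exists] at hv
  obtain ⟨q, hq, hq1⟩ := hv
  rw [Submodule.mem_map] at hq
  obtain ⟨k, hk, rfl⟩ := hq
  have hk' : k ∈ ((v.asIdeal : FractionalIdeal (𝓞 K)⁰ K)⁻¹) := hk
  have hI : (v.asIdeal : FractionalIdeal (𝓞 K)⁰ K) ≠ 0 := by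
    rw [Ne, FractionalIdeal.coeIdeal_eq_zero]
    exact v.ne_bot
  rw [FractionalIdeal.mem_inv_iff hI] at hk'
  have hmul : ∀ b ∈ v.asIdeal, ∃ c : 𝓞 K, (c : K) = k * (b : K) := by
    intro b hb
    have h := hk' (algebraMap (𝓞 K) K b) ((FractionalIdeal.mem_coeIdeal _).2 ⟨b, hb, rfl⟩)
    rw [FractionalIdeal.mem_one_iff] at h
    obtain ⟨c, hc⟩ := h
    exact ⟨c, hc⟩
  have htr : ∀ n : ℤ, ((Algebra.trace ℚ K k : ℚ) : ℝ) ≠ n := by
    intro n hn
    apply hq1
    rw [Submodule.mem_one]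
    refine ⟨n, ?_⟩
    have : ((n : ℚ) : ℝ) = ((Algebra.trace ℚ K k : ℚ) : ℝ) := by rw [hn]; simp
    have h2 : (n : ℚ) = Algebra.trace ℚ K k := by exact_mod_cast this
    simpa using h2
  have hw : ∀ w : HeightOneSpectrum (𝓞 K), w ≠ v → w.valuation K k ≤ 1 := by
    intro w hwv
    have hex : ∃ b ∈ v.asIdeal, b ∉ w.asIdeal := by
      by_contra hcon
      have hle : v.asIdeal ≤ w.asIdeal := fun b hb => by
        by_contra hb'
        exact hcon ⟨b, hb, hb'⟩
      have := (v.isPrime.isMaximal v.ne_bot).eq_of_le (w.isPrime.isMaximal w.ne_bot).ne_top hle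
      exact hwv (HeightOneSpectrum.ext this.symm)
    obtain ⟨b, hb, hbw⟩ := hex
    obtain ⟨c, hc⟩ := hmul b hb
    have h1 : w.valuation K (b : K) = 1 := by
      have h2 := HeightOneSpectrum.valuation_le_one (K := K) w b
      have h3 := (HeightOneSpectrum.valuation_lt_one_iff_mem (K := K) w b).not.2 hbw
      exact le_antisymm h2 (not_lt.1 h3)
    have h4 : w.valuation K (k * (b : K)) ≤ 1 := by
      rw [← hc]
      exact HeightOneSpectrum.valuation_le_one w c
    rwa [map_mul, h1, mul_one] at h4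
  have hvle : v.valuation K k ≤ exp (1 : ℤ) := by
    obtain ⟨ϖ, hϖ⟩ := HeightOneSpectrum.intValuation_exists_uniformizer v
    have hϖmem : ϖ ∈ v.asIdeal := by
      rw [← HeightOneSpectrum.intValuation_lt_one_iff_mem, hϖ, ← exp_zero, exp_lt_exp]
      norm_num
    obtain ⟨c, hc⟩ := hmul ϖ hϖmem
    have h4 : v.valuation K (k * (ϖ : K)) ≤ 1 := by
      rw [← hc]
      exact HeightOneSpectrum.valuation_le_one v c
    rw [map_mul, HeightOneSpectrum.valuation_of_algebraMap, hϖ] at h4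
    have h5 : v.valuation K k = v.valuation K k * exp (-1 : ℤ) * exp (1 : ℤ) := by
      rw [mul_assoc, ← exp_add]
      simp
    rw [h5]
    calc v.valuation K k * exp (-1 : ℤ) * exp (1 : ℤ) ≤ 1 * exp (1 : ℤ) :=
          mul_le_mul_left h4 _
      _ = exp (1 : ℤ) := one_mul _
  have hvgt : 1 < v.valuation K k := by
    by_contra hcon
    rw [not_lt] at hcon
    have hall : ∀ w : HeightOneSpectrum (𝓞 K), w.valuation K k ≤ 1 := by
      intro w
      by_cases hwv : w = v
      · rw [hwv]; exact hcon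
      · exact hw w hwv
    obtain ⟨a, ha⟩ := HeightOneSpectrum.mem_integers_of_valuation_le_one K k hall
    apply htr (Algebra.trace ℤ (𝓞 K) a)
    rw [← ha]
    have := Algebra.coe_trace_int (K := K) a
    rw [← this]
    simp
  refine ⟨k, ?_, hw, htr⟩
  have hne : v.valuation K k ≠ 0 := fun h => by rw [h] at hvgt; exact absurd hvgt (by simp)
  obtain ⟨n, hn⟩ : ∃ n : ℤ, v.valuation K k = exp n := ⟨_, (exp_log hne).symm⟩
  rw [hn] at hvle hvgt ⊢
  rw [exp_le_exp] at hvle
  rw [← exp_zero, exp_lt_exp] at hvgt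
  have : n = 1 := by omega
  rw [this]

end Fermat.Agent.LT.A2.H709

end
end
-- ===== PACK-END LT/A2/H709/PsiArith.lean

-- ===== PACK-BEGIN LT/A2/H894/WeylGauss.lean
section


/-!
# Row LT, tower A2, station A2.03.1.1.10, leaf CX.04 WEYL -- the Gaussian core (helper894)

OFF-MAIN.  Mathlib only.

* `gaussC894`: `∫_ℂ exp(-b v v̄ + u v + w v̄) dv = (π / b) exp(u w / b)`, `b > 0`, `u w : ℂ`.
* `gaussC2_894`: the two-variable Gaussian integral in split coordinates.
* `splitMap894`: the change of variables `y ↦ (y₁ + ω₁ y₂, y₁ + ω₂ y₂)`.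
-/

set_option autoImplicit false

open MeasureTheory Complex
open scoped ComplexConjugate Real

noncomputable section

namespace Fermat.Agent.LT.A2.H894

/-- The one-dimensional building block. -/
theorem gaussR894 (b : ℝ) (hb : 0 < b) (p : ℂ) :
    ∫ x : ℝ, cexp (-(b : ℂ) * (x : ℂ) ^ 2 + p * (x : ℂ))
      = ((π : ℂ) / (b : ℂ)) ^ (1 / 2 : ℂ) * cexp (p ^ 2 / (4 * (b : ℂ))) := by
  have h : (-(b : ℂ)).re < 0 := by simpa using hb
  have := integral_cexp_quadratic h p 0
  simp only [add_zero, zero_sub, neg_neg] at this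
  rw [this]
  congr 2
  rw [mul_neg, div_neg, neg_neg]

/-- `∫_ℂ exp(-b v v̄ + u v + w v̄) dv = (π / b) exp(u w / b)`. -/
theorem gaussC894 (b : ℝ) (hb : 0 < b) (u w : ℂ) :
    ∫ v : ℂ, cexp (-(b : ℂ) * (v * conj v) + u * v + w * conj v)
      = ((π : ℂ) / (b : ℂ)) * cexp (u * w / (b : ℂ)) := by
  have hmp := Complex.volume_preserving_equiv_real_prod.symm
  rw [← hmp.integral_comp' (g := fun v : ℂ => cexp (-(b : ℂ) * (v * conj v) + u * v + w * conj v))]
  have hpt : ∀ q : ℝ × ℝ,
      cexp (-(b : ℂ) * (Complex.measurableEquivRealProd.symm q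
          * conj (Complex.measurableEquivRealProd.symm q))
        + u * Complex.measurableEquivRealProd.symm q
        + w * conj (Complex.measurableEquivRealProd.symm q))
      = cexp (-(b : ℂ) * (q.1 : ℂ) ^ 2 + (u + w) * (q.1 : ℂ))
        * cexp (-(b : ℂ) * (q.2 : ℂ) ^ 2 + (Complex.I * (u - w)) * (q.2 : ℂ)) := by
    intro q
    rw [← Complex.exp_add]
    congr 1
    have h1 : (Complex.measurableEquivRealProd.symm q : ℂ) = (q.1 : ℂ) + (q.2 : ℂ) * Complex.I := by
      apply Complex.ext <;> simp [Complex.measurableEquivRealProd]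
    have h2 : conj (Complex.measurableEquivRealProd.symm q : ℂ)
        = (q.1 : ℂ) - (q.2 : ℂ) * Complex.I := by
      rw [h1]
      simp [sub_eq_add_neg]
    rw [h2, h1]
    have hI : Complex.I ^ 2 = -1 := Complex.I_sq
    linear_combination ((b : ℂ) * (q.2 : ℂ) ^ 2) * hI
  simp_rw [hpt]
  rw [Measure.volume_eq_prod,
    integral_prod_mul (fun x : ℝ => cexp (-(b : ℂ) * (x : ℂ) ^ 2 + (u + w) * (x : ℂ)))
      (fun y : ℝ => cexp (-(b : ℂ) * (y : ℂ) ^ 2 + (Complex.I * (u - w)) * (y : ℂ))),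
    gaussR894 b hb, gaussR894 b hb]
  have hb' : ((π : ℂ) / (b : ℂ)) ≠ 0 := by
    apply div_ne_zero
    · exact_mod_cast Real.pi_ne_zero
    · exact_mod_cast hb.ne'
  have hsq : ((π : ℂ) / (b : ℂ)) ^ (1 / 2 : ℂ) * ((π : ℂ) / (b : ℂ)) ^ (1 / 2 : ℂ)
      = (π : ℂ) / (b : ℂ) := by
    rw [← Complex.cpow_add _ _ hb']
    norm_num
  have hbne : (b : ℂ) ≠ 0 := by exact_mod_cast hb.ne'
  calc ((π : ℂ) / (b : ℂ)) ^ (1 / 2 : ℂ) * cexp ((u + w) ^ 2 / (4 * (b : ℂ)))
        * (((π : ℂ) / (b : ℂ)) ^ (1 / 2 : ℂ) * cexp ((Complex.I * (u - w)) ^ 2 / (4 * (b : ℂ))))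
      = (((π : ℂ) / (b : ℂ)) ^ (1 / 2 : ℂ) * ((π : ℂ) / (b : ℂ)) ^ (1 / 2 : ℂ))
        * (cexp ((u + w) ^ 2 / (4 * (b : ℂ)))
          * cexp ((Complex.I * (u - w)) ^ 2 / (4 * (b : ℂ)))) := by ring
    _ = ((π : ℂ) / (b : ℂ)) * cexp (u * w / (b : ℂ)) := by
        rw [hsq, ← Complex.exp_add]
        congr 2
        have hI : Complex.I ^ 2 = -1 := Complex.I_sq
        field_simp
        linear_combination ((u - w) ^ 2) * hI


/-- Integrability of the real Gaussian on `ℂ`. -/
theorem integrable_rexp_C894 (b : ℝ) (hb : 0 < b) :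
    Integrable (fun v : ℂ => Real.exp (-b * ‖v‖ ^ 2)) := by
  apply Integrable.of_integral_ne_zero
  rw [GaussianFourier.integral_rexp_neg_mul_sq_norm hb]
  have : 0 < π / b := div_pos Real.pi_pos hb
  positivity

/-- The exponent of the two-variable Gaussian. -/
def expo894 (A₁ A₂ : ℝ) (κ s₁ s₂ : ℂ) (z : ℂ × ℂ) : ℂ :=
  -(A₁ : ℂ) * (z.1 * conj z.1) - (A₂ : ℂ) * (z.2 * conj z.2)
    + 2 * (π : ℂ) * Complex.I * (κ * z.1 * z.2 + conj κ * conj z.1 * conj z.2)
    + 2 * (π : ℂ) * Complex.I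
        * (s₁ * z.1 + conj s₁ * conj z.1 + s₂ * z.2 + conj s₂ * conj z.2)

theorem expo_re894 (A₁ A₂ : ℝ) (κ s₁ s₂ : ℂ) (z : ℂ × ℂ) :
    (expo894 A₁ A₂ κ s₁ s₂ z).re = -A₁ * ‖z.1‖ ^ 2 + -A₂ * ‖z.2‖ ^ 2 := by
  have e1 : κ * z.1 * z.2 + conj κ * conj z.1 * conj z.2
      = ((2 * (κ * z.1 * z.2).re : ℝ) : ℂ) := by
    rw [← Complex.add_conj]
    simp [map_mul]
  have e2 : s₁ * z.1 + conj s₁ * conj z.1 + s₂ * z.2 + conj s₂ * conj z.2
      = ((2 * (s₁ * z.1).re + 2 * (s₂ * z.2).re : ℝ) : ℂ) := by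
    rw [Complex.ofReal_add, ← Complex.add_conj, ← Complex.add_conj]
    simp only [map_mul]
    ring
  unfold expo894
  rw [e1, e2, Complex.mul_conj, Complex.mul_conj, Complex.normSq_eq_norm_sq,
    Complex.normSq_eq_norm_sq]
  simp only [Complex.add_re, Complex.sub_re, Complex.mul_re, Complex.neg_re, Complex.ofReal_re,
    Complex.ofReal_im, Complex.neg_im, Complex.I_re, Complex.I_im, Complex.mul_im,
    Complex.re_ofNat, Complex.im_ofNat]
  ring

theorem continuous_expo894 (A₁ A₂ : ℝ) (κ s₁ s₂ : ℂ) :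
    Continuous (expo894 A₁ A₂ κ s₁ s₂) := by
  unfold expo894
  have hc1 : Continuous fun z : ℂ × ℂ => conj z.1 := Complex.continuous_conj.comp continuous_fst
  have hc2 : Continuous fun z : ℂ × ℂ => conj z.2 := Complex.continuous_conj.comp continuous_snd
  fun_prop

theorem integrable_expo894 (A₁ A₂ : ℝ) (h₁ : 0 < A₁) (h₂ : 0 < A₂) (κ s₁ s₂ : ℂ) :
    Integrable (fun z : ℂ × ℂ => cexp (expo894 A₁ A₂ κ s₁ s₂ z))
      ((volume : Measure ℂ).prod (volume : Measure ℂ)) := by
  have hg : Integrable (fun z : ℂ × ℂ => Real.exp (-A₁ * ‖z.1‖ ^ 2) * Real.exp (-A₂ * ‖z.2‖ ^ 2))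
      ((volume : Measure ℂ).prod (volume : Measure ℂ)) :=
    Integrable.mul_prod (integrable_rexp_C894 A₁ h₁) (integrable_rexp_C894 A₂ h₂)
  refine hg.mono' ?_ ?_
  · exact (Complex.continuous_exp.comp (continuous_expo894 A₁ A₂ κ s₁ s₂)).aestronglyMeasurable
  · refine Filter.Eventually.of_forall fun z => ?_
    rw [Complex.norm_exp, expo_re894, Real.exp_add]

/-- **The two-variable Gaussian integral in split coordinates.** -/
theorem gaussC2_894 (A₁ A₂ : ℝ) (h₁ : 0 < A₁) (h₂ : 0 < A₂) (κ s₁ s₂ : ℂ) :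
    ∫ z : ℂ × ℂ, cexp (expo894 A₁ A₂ κ s₁ s₂ z)
        ∂((volume : Measure ℂ).prod (volume : Measure ℂ))
      = ((π : ℂ) ^ 2 / ((A₁ : ℂ) * (A₂ : ℂ) + 4 * (π : ℂ) ^ 2 * (κ * conj κ)))
        * cexp (-(4 * (π : ℂ) ^ 2 * ((A₁ : ℂ) * (s₂ * conj s₂) + (A₂ : ℂ) * (s₁ * conj s₁))
              / ((A₁ : ℂ) * (A₂ : ℂ) + 4 * (π : ℂ) ^ 2 * (κ * conj κ)))
            - 8 * (π : ℂ) ^ 3 * Complex.I * (conj κ * s₁ * s₂ + κ * conj s₁ * conj s₂)
              / ((A₁ : ℂ) * (A₂ : ℂ) + 4 * (π : ℂ) ^ 2 * (κ * conj κ))) := by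
  rw [integral_prod _ (integrable_expo894 A₁ A₂ h₁ h₂ κ s₁ s₂)]
  -- the inner integral
  have hA₂ : (A₂ : ℂ) ≠ 0 := by exact_mod_cast h₂.ne'
  have hA₁ : (A₁ : ℂ) ≠ 0 := by exact_mod_cast h₁.ne'
  have hπ : (π : ℂ) ≠ 0 := by exact_mod_cast Real.pi_ne_zero
  set b' : ℝ := A₁ + 4 * π ^ 2 * Complex.normSq κ / A₂ with hb'def
  have hb'pos : 0 < b' := by
    have : 0 ≤ 4 * π ^ 2 * Complex.normSq κ / A₂ := by
      have := Complex.normSq_nonneg κ
      positivity
    linarith
  have hb'C : (b' : ℂ) = (A₁ : ℂ) + 4 * (π : ℂ) ^ 2 * (κ * conj κ) / (A₂ : ℂ) := by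
    rw [hb'def, Complex.mul_conj]
    push_cast
    ring
  have hb'ne : (b' : ℂ) ≠ 0 := by exact_mod_cast hb'pos.ne'
  have hD : (A₁ : ℂ) * (A₂ : ℂ) + 4 * (π : ℂ) ^ 2 * (κ * conj κ) = (A₂ : ℂ) * (b' : ℂ) := by
    rw [hb'C]
    field_simp
  have hDne : (A₁ : ℂ) * (A₂ : ℂ) + 4 * (π : ℂ) ^ 2 * (κ * conj κ) ≠ 0 := by
    rw [hD]
    exact mul_ne_zero hA₂ hb'ne
  have hinner : ∀ z₁ : ℂ,
      ∫ z₂ : ℂ, cexp (expo894 A₁ A₂ κ s₁ s₂ (z₁, z₂))
        = ((π : ℂ) / (A₂ : ℂ)) * cexp (-(4 * (π : ℂ) ^ 2 * (s₂ * conj s₂) / (A₂ : ℂ)))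
          * cexp (-(b' : ℂ) * (z₁ * conj z₁)
            + (2 * (π : ℂ) * Complex.I * s₁ - 4 * (π : ℂ) ^ 2 * κ * conj s₂ / (A₂ : ℂ)) * z₁
            + (2 * (π : ℂ) * Complex.I * conj s₁ - 4 * (π : ℂ) ^ 2 * conj κ * s₂ / (A₂ : ℂ))
                * conj z₁) := by
    intro z₁
    have hsplit : ∀ z₂ : ℂ, cexp (expo894 A₁ A₂ κ s₁ s₂ (z₁, z₂))
        = cexp (-(A₁ : ℂ) * (z₁ * conj z₁)
            + 2 * (π : ℂ) * Complex.I * (s₁ * z₁ + conj s₁ * conj z₁))
          * cexp (-(A₂ : ℂ) * (z₂ * conj z₂)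
            + (2 * (π : ℂ) * Complex.I * (κ * z₁ + s₂)) * z₂
            + (2 * (π : ℂ) * Complex.I * (conj κ * conj z₁ + conj s₂)) * conj z₂) := by
      intro z₂
      rw [← Complex.exp_add]
      congr 1
      unfold expo894
      ring
    simp_rw [hsplit]
    rw [integral_const_mul, gaussC894 A₂ h₂]
    have key : cexp (-(A₁ : ℂ) * (z₁ * conj z₁)
            + 2 * (π : ℂ) * Complex.I * (s₁ * z₁ + conj s₁ * conj z₁))
          * cexp ((2 * (π : ℂ) * Complex.I * (κ * z₁ + s₂))
            * (2 * (π : ℂ) * Complex.I * (conj κ * conj z₁ + conj s₂)) / (A₂ : ℂ))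
        = cexp (-(4 * (π : ℂ) ^ 2 * (s₂ * conj s₂) / (A₂ : ℂ)))
          * cexp (-(b' : ℂ) * (z₁ * conj z₁)
            + (2 * (π : ℂ) * Complex.I * s₁ - 4 * (π : ℂ) ^ 2 * κ * conj s₂ / (A₂ : ℂ)) * z₁
            + (2 * (π : ℂ) * Complex.I * conj s₁ - 4 * (π : ℂ) ^ 2 * conj κ * s₂ / (A₂ : ℂ))
                * conj z₁) := by
      rw [← Complex.exp_add, ← Complex.exp_add]
      congr 1
      rw [hb'C]
      have hI : Complex.I ^ 2 = -1 := Complex.I_sq
      field_simp
      linear_combination (4 * (π : ℂ) ^ 2 * (κ * z₁ + s₂) * (conj κ * conj z₁ + conj s₂)) * hI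
    linear_combination ((π : ℂ) / (A₂ : ℂ)) * key
  simp_rw [hinner]
  rw [integral_const_mul, gaussC894 b' hb'pos]
  rw [hD]
  have hI : Complex.I ^ 2 = -1 := Complex.I_sq
  have hfac : (π : ℂ) / (A₂ : ℂ) * cexp (-(4 * (π : ℂ) ^ 2 * (s₂ * conj s₂) / (A₂ : ℂ)))
        * ((π : ℂ) / (b' : ℂ) * cexp
          ((2 * (π : ℂ) * Complex.I * s₁ - 4 * (π : ℂ) ^ 2 * κ * conj s₂ / (A₂ : ℂ))
            * (2 * (π : ℂ) * Complex.I * conj s₁ - 4 * (π : ℂ) ^ 2 * conj κ * s₂ / (A₂ : ℂ))
            / (b' : ℂ)))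
      = ((π : ℂ) ^ 2 / ((A₂ : ℂ) * (b' : ℂ)))
        * (cexp (-(4 * (π : ℂ) ^ 2 * (s₂ * conj s₂) / (A₂ : ℂ)))
          * cexp ((2 * (π : ℂ) * Complex.I * s₁ - 4 * (π : ℂ) ^ 2 * κ * conj s₂ / (A₂ : ℂ))
            * (2 * (π : ℂ) * Complex.I * conj s₁ - 4 * (π : ℂ) ^ 2 * conj κ * s₂ / (A₂ : ℂ))
            / (b' : ℂ))) := by
    field_simp
  rw [hfac, ← Complex.exp_add]
  congr 2
  have hb'A : (A₂ : ℂ) * (b' : ℂ) = (A₁ : ℂ) * (A₂ : ℂ) + 4 * (π : ℂ) ^ 2 * (κ * conj κ) := hD.symm
  field_simp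
  linear_combination (-4 * s₂ * conj s₂) * hb'A + (4 * (A₂ : ℂ) ^ 2 * s₁ * conj s₁) * hI


/-! ## The change of variables `y ↦ (y₁ + ω₁ y₂, y₁ + ω₂ y₂)` -/

/-- The split coordinates, as a `ℂ`-linear map. -/
def splitMap894 (ω₁ ω₂ : ℂ) : (ℂ × ℂ) →ₗ[ℂ] (ℂ × ℂ) :=
  (LinearMap.fst ℂ ℂ ℂ + ω₁ • LinearMap.snd ℂ ℂ ℂ).prod
    (LinearMap.fst ℂ ℂ ℂ + ω₂ • LinearMap.snd ℂ ℂ ℂ)

@[simp]
theorem splitMap_apply894 (ω₁ ω₂ : ℂ) (y : ℂ × ℂ) :
    splitMap894 ω₁ ω₂ y = (y.1 + ω₁ * y.2, y.1 + ω₂ * y.2) := by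
  simp [splitMap894]

theorem det_splitMap894 (ω₁ ω₂ : ℂ) : LinearMap.det (splitMap894 ω₁ ω₂) = ω₂ - ω₁ := by
  rw [← LinearMap.det_toMatrix (Module.Basis.finTwoProd ℂ), Matrix.det_fin_two]
  simp [LinearMap.toMatrix_apply, Module.Basis.finTwoProd]

theorem det_splitMapR894 (ω₁ ω₂ : ℂ) :
    LinearMap.det ((splitMap894 ω₁ ω₂).restrictScalars ℝ) = ‖ω₂ - ω₁‖ ^ 2 := by
  rw [LinearMap.det_restrictScalars, det_splitMap894, Algebra.norm_complex_apply,
    Complex.normSq_eq_norm_sq]

theorem map_splitMap894 (ω₁ ω₂ : ℂ) (hω : ω₁ ≠ ω₂) :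
    Measure.map (fun y : ℂ × ℂ => (y.1 + ω₁ * y.2, y.1 + ω₂ * y.2))
        ((volume : Measure ℂ).prod (volume : Measure ℂ))
      = ENNReal.ofReal ((‖ω₂ - ω₁‖ ^ 2)⁻¹) • ((volume : Measure ℂ).prod (volume : Measure ℂ)) := by
  have hpos : 0 < ‖ω₂ - ω₁‖ ^ 2 := by
    have : ω₂ - ω₁ ≠ 0 := sub_ne_zero.mpr (Ne.symm hω)
    positivity
  have hdet : LinearMap.det ((splitMap894 ω₁ ω₂).restrictScalars ℝ) ≠ 0 := by
    rw [det_splitMapR894]
    exact hpos.ne'
  have h := Measure.map_linearMap_addHaar_eq_smul_addHaar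
    ((volume : Measure ℂ).prod (volume : Measure ℂ)) hdet
  rw [det_splitMapR894, abs_of_pos (inv_pos.mpr hpos)] at h
  rw [← h]
  congr 1

/-- **The change of variables** for a continuous integrand. -/
theorem integral_split894 (ω₁ ω₂ : ℂ) (hω : ω₁ ≠ ω₂) (Φ : ℂ × ℂ → ℂ) (hΦ : Continuous Φ) :
    ∫ y : ℂ × ℂ, Φ (y.1 + ω₁ * y.2, y.1 + ω₂ * y.2)
        ∂((volume : Measure ℂ).prod (volume : Measure ℂ))
      = (((‖ω₂ - ω₁‖ ^ 2)⁻¹ : ℝ) : ℂ)
        * ∫ z : ℂ × ℂ, Φ z ∂((volume : Measure ℂ).prod (volume : Measure ℂ)) := by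
  have hL : Continuous fun y : ℂ × ℂ => (y.1 + ω₁ * y.2, y.1 + ω₂ * y.2) := by fun_prop
  have h := integral_map (μ := (volume : Measure ℂ).prod (volume : Measure ℂ))
    hL.aemeasurable (f := Φ) hΦ.aestronglyMeasurable
  rw [← h, map_splitMap894 ω₁ ω₂ hω, integral_smul_measure]
  have hpos : 0 ≤ (‖ω₂ - ω₁‖ ^ 2)⁻¹ := by positivity
  rw [ENNReal.toReal_ofReal hpos]
  rfl


/-! ## The core identity of the Weyl formula -/

/-- The exponent of the closed form, in the shape of `expo894`. -/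
theorem expo_bridge894 (c l₁ l₂ B : ℂ) (N : ℝ) (hN : N ≠ 0) (z Z : ℂ × ℂ) :
    (((-(2 * π * ‖c‖ * (‖l₂ * z.1‖ ^ 2 + ‖l₁ * z.2‖ ^ 2) / N) : ℝ) : ℂ)
        + 4 * (π : ℂ) * Complex.I * (((c * B * (z.1 * z.2)).re / N : ℝ) : ℂ))
      + 4 * (π : ℂ) * Complex.I * (((c * (Z.1 * z.2 + z.1 * Z.2)).re : ℝ) : ℂ)
    = expo894 (2 * π * ‖c‖ * ‖l₂‖ ^ 2 / N) (2 * π * ‖c‖ * ‖l₁‖ ^ 2 / N) (c * B / (N : ℂ))
        (c * Z.2) (c * Z.1) z := by
  have hNC : (N : ℂ) ≠ 0 := by exact_mod_cast hN
  unfold expo894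
  rw [norm_mul, norm_mul, mul_pow, mul_pow]
  push_cast
  rw [Complex.re_eq_add_conj, Complex.re_eq_add_conj, ← Complex.mul_conj' l₁,
    ← Complex.mul_conj' l₂, ← Complex.mul_conj' z.1, ← Complex.mul_conj' z.2]
  simp only [map_mul, map_add, map_div₀, Complex.conj_ofReal]
  field_simp
  ring

theorem weyl_core894 (c ω₁ ω₂ : ℂ) (hc : c ≠ 0) (hω : ω₁ ≠ ω₂) (l₁ l₂ B : ℂ) (N M : ℝ)
    (hl₁ : l₁ ≠ 0) (hl₂ : l₂ ≠ 0) (hN : 0 < N) (hM : 0 < M)
    (hMN : M * N = ‖B‖ ^ 2 + ‖l₁ * l₂‖ ^ 2) (ξ : ℂ × ℂ) :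
    ((‖l₁ * l₂‖ / M : ℝ) : ℂ) *
        cexp (((-(2 * π * ‖c‖ *
            (‖l₂ * (ξ.1 + ω₁ * ξ.2)‖ ^ 2 + ‖l₁ * (ξ.1 + ω₂ * ξ.2)‖ ^ 2) / M) : ℝ) : ℂ)
          + 4 * (π : ℂ) * Complex.I *
            (((c * (-conj B) * ((ξ.1 + ω₁ * ξ.2) * (ξ.1 + ω₂ * ξ.2))).re / M : ℝ) : ℂ))
      = ((4 * ‖c‖ ^ 2 * ‖ω₁ - ω₂‖ ^ 2 : ℝ) : ℂ) *
          ∫ y : ℂ × ℂ,
            (((‖l₁ * l₂‖ / N : ℝ) : ℂ) *
              cexp (((-(2 * π * ‖c‖ *
                  (‖l₂ * (y.1 + ω₁ * y.2)‖ ^ 2 + ‖l₁ * (y.1 + ω₂ * y.2)‖ ^ 2) / N) : ℝ) : ℂ)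
                + 4 * (π : ℂ) * Complex.I *
                  (((c * B * ((y.1 + ω₁ * y.2) * (y.1 + ω₂ * y.2))).re / N : ℝ) : ℂ)))
              * cexp (4 * (π : ℂ) * Complex.I *
                  (((c * ((ξ.1 + ω₁ * ξ.2) * (y.1 + ω₂ * y.2)
                      + (y.1 + ω₁ * y.2) * (ξ.1 + ω₂ * ξ.2))).re : ℝ) : ℂ))
            ∂((volume : Measure ℂ).prod (volume : Measure ℂ)) := by
  have hcn : 0 < ‖c‖ := norm_pos_iff.mpr hc
  have hl₁n : 0 < ‖l₁‖ := norm_pos_iff.mpr hl₁
  have hl₂n : 0 < ‖l₂‖ := norm_pos_iff.mpr hl₂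
  set A₁ : ℝ := 2 * π * ‖c‖ * ‖l₂‖ ^ 2 / N with hA₁
  set A₂ : ℝ := 2 * π * ‖c‖ * ‖l₁‖ ^ 2 / N with hA₂
  have hA₁pos : 0 < A₁ := by
    have := Real.pi_pos
    positivity
  have hA₂pos : 0 < A₂ := by
    have := Real.pi_pos
    positivity
  set κ : ℂ := c * B / (N : ℂ) with hκ
  set s₁ : ℂ := c * (ξ.1 + ω₂ * ξ.2) with hs₁
  set s₂ : ℂ := c * (ξ.1 + ω₁ * ξ.2) with hs₂
  -- the integrand in split coordinates
  have hint : ∀ y : ℂ × ℂ,
      (((‖l₁ * l₂‖ / N : ℝ) : ℂ) *
              cexp (((-(2 * π * ‖c‖ *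
                  (‖l₂ * (y.1 + ω₁ * y.2)‖ ^ 2 + ‖l₁ * (y.1 + ω₂ * y.2)‖ ^ 2) / N) : ℝ) : ℂ)
                + 4 * (π : ℂ) * Complex.I *
                  (((c * B * ((y.1 + ω₁ * y.2) * (y.1 + ω₂ * y.2))).re / N : ℝ) : ℂ)))
              * cexp (4 * (π : ℂ) * Complex.I *
                  (((c * ((ξ.1 + ω₁ * ξ.2) * (y.1 + ω₂ * y.2)
                      + (y.1 + ω₁ * y.2) * (ξ.1 + ω₂ * ξ.2))).re : ℝ) : ℂ))
        = (fun z : ℂ × ℂ => ((‖l₁ * l₂‖ / N : ℝ) : ℂ) * cexp (expo894 A₁ A₂ κ s₁ s₂ z))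
            (y.1 + ω₁ * y.2, y.1 + ω₂ * y.2) := by
    intro y
    have h := expo_bridge894 c l₁ l₂ B N hN.ne' (y.1 + ω₁ * y.2, y.1 + ω₂ * y.2)
      (ξ.1 + ω₁ * ξ.2, ξ.1 + ω₂ * ξ.2)
    show _ = ((‖l₁ * l₂‖ / N : ℝ) : ℂ)
      * cexp (expo894 A₁ A₂ κ s₁ s₂ (y.1 + ω₁ * y.2, y.1 + ω₂ * y.2))
    rw [← h, mul_assoc, ← Complex.exp_add]
  simp_rw [hint]
  have hΦ : Continuous fun z : ℂ × ℂ =>
      ((‖l₁ * l₂‖ / N : ℝ) : ℂ) * cexp (expo894 A₁ A₂ κ s₁ s₂ z) :=
    continuous_const.mul (Complex.continuous_exp.comp (continuous_expo894 A₁ A₂ κ s₁ s₂))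
  rw [integral_split894 ω₁ ω₂ hω _ hΦ, integral_const_mul, gaussC2_894 A₁ A₂ hA₁pos hA₂pos]
  -- the algebra
  have hNC : (N : ℂ) ≠ 0 := by exact_mod_cast hN.ne'
  have hMC : (M : ℂ) ≠ 0 := by exact_mod_cast hM.ne'
  have hcC : (‖c‖ : ℂ) ≠ 0 := by exact_mod_cast hcn.ne'
  have hπ : (π : ℂ) ≠ 0 := by exact_mod_cast Real.pi_ne_zero
  have hcc : c * conj c = (‖c‖ : ℂ) ^ 2 := Complex.mul_conj' c
  have hBB : B * conj B = (‖B‖ : ℂ) ^ 2 := Complex.mul_conj' B
  have hMNC : (M : ℂ) * (N : ℂ) = (‖B‖ : ℂ) ^ 2 + (‖l₁‖ : ℂ) ^ 2 * (‖l₂‖ : ℂ) ^ 2 := by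
    have h : ((M * N : ℝ) : ℂ) = ((‖B‖ ^ 2 + ‖l₁ * l₂‖ ^ 2 : ℝ) : ℂ) := by rw [hMN]
    rw [norm_mul, mul_pow] at h
    exact_mod_cast h
  have hωn : (‖ω₂ - ω₁‖ : ℂ) ≠ 0 := by
    have : ω₂ - ω₁ ≠ 0 := sub_ne_zero.mpr (Ne.symm hω)
    exact_mod_cast (norm_pos_iff.mpr this).ne'
  have hκc : conj κ = conj c * conj B / (N : ℂ) := by
    rw [hκ]
    simp only [map_mul, map_div₀, Complex.conj_ofReal]
  have hD : (A₁ : ℂ) * (A₂ : ℂ) + 4 * (π : ℂ) ^ 2 * (κ * conj κ)
      = 4 * (π : ℂ) ^ 2 * (‖c‖ : ℂ) ^ 2 * (M : ℂ) / (N : ℂ) := by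
    rw [hκc, hκ, hA₁, hA₂]
    push_cast
    field_simp
    linear_combination (4 * (‖c‖ : ℂ) ^ 2) * hMNC.symm + (4 * B * conj B) * hcc
      + (4 * (‖c‖ : ℂ) ^ 2) * hBB
  rw [hD, norm_sub_rev ω₁ ω₂]
  have hpre : ((4 * ‖c‖ ^ 2 * ‖ω₂ - ω₁‖ ^ 2 : ℝ) : ℂ)
      * ((((‖ω₂ - ω₁‖ ^ 2)⁻¹ : ℝ) : ℂ)
        * (((‖l₁ * l₂‖ / N : ℝ) : ℂ)
          * ((π : ℂ) ^ 2 / (4 * (π : ℂ) ^ 2 * (‖c‖ : ℂ) ^ 2 * (M : ℂ) / (N : ℂ)) * cexp
            (-(4 * (π : ℂ) ^ 2 * ((A₁ : ℂ) * (s₂ * conj s₂) + (A₂ : ℂ) * (s₁ * conj s₁))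
                / (4 * (π : ℂ) ^ 2 * (‖c‖ : ℂ) ^ 2 * (M : ℂ) / (N : ℂ)))
              - 8 * (π : ℂ) ^ 3 * Complex.I * (conj κ * s₁ * s₂ + κ * conj s₁ * conj s₂)
                / (4 * (π : ℂ) ^ 2 * (‖c‖ : ℂ) ^ 2 * (M : ℂ) / (N : ℂ))))))
      = ((‖l₁ * l₂‖ / M : ℝ) : ℂ) * cexp
            (-(4 * (π : ℂ) ^ 2 * ((A₁ : ℂ) * (s₂ * conj s₂) + (A₂ : ℂ) * (s₁ * conj s₁))
                / (4 * (π : ℂ) ^ 2 * (‖c‖ : ℂ) ^ 2 * (M : ℂ) / (N : ℂ)))
              - 8 * (π : ℂ) ^ 3 * Complex.I * (conj κ * s₁ * s₂ + κ * conj s₁ * conj s₂)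
                / (4 * (π : ℂ) ^ 2 * (‖c‖ : ℂ) ^ 2 * (M : ℂ) / (N : ℂ))) := by
    push_cast
    field_simp
  rw [hpre]
  congr 2
  rw [hκc, hκ, hA₁, hA₂, hs₁, hs₂, norm_mul, norm_mul, mul_pow, mul_pow]
  push_cast
  rw [Complex.re_eq_add_conj, ← Complex.mul_conj' l₁, ← Complex.mul_conj' l₂,
    ← Complex.mul_conj' (ξ.1 + ω₁ * ξ.2), ← Complex.mul_conj' (ξ.1 + ω₂ * ξ.2)]
  simp only [map_mul, map_add, map_neg, Complex.conj_conj]
  field_simp
  rw [← hcc]
  ring

end Fermat.Agent.LT.A2.H894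

end

end
-- ===== PACK-END LT/A2/H894/WeylGauss.lean

-- ===== PACK-BEGIN LT/A2/H98/FinCoverAbs.lean
section


/-!
# Row LT, tower A2, leaf A2.03.1.3.8 `H753.FinCoverC` -- abstract core (helper98)

OFF-MAIN.  Mathlib only.  A compact subset `C` of a topological group is covered, as far as the
points of a given set `P` are concerned, by finitely many left translates `q U` of a
neighbourhood `U` of `1` with centres `q ∈ P`.
-/

set_option autoImplicit false

open scoped Topology

namespace Fermat.Agent.LT.A2.H98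

/-- A neighbourhood `U` of `1` in a topological group contains `a⁻¹ * b` for all `a`, `b` in a
suitable open neighbourhood `V` of `1`. -/
theorem exists_open_inv_mul98 {H : Type*} [Group H] [TopologicalSpace H] [IsTopologicalGroup H]
    {U : Set H} (hU : U ∈ 𝓝 (1 : H)) :
    ∃ V : Set H, IsOpen V ∧ (1 : H) ∈ V ∧ ∀ a ∈ V, ∀ b ∈ V, a⁻¹ * b ∈ U := by
  have hc : ContinuousAt (fun p : H × H => p.1⁻¹ * p.2) ((1 : H), (1 : H)) :=
    (continuous_fst.inv.mul continuous_snd).continuousAt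
  have h1 : (fun p : H × H => p.1⁻¹ * p.2) ((1 : H), (1 : H)) = 1 := by simp
  have hpre : (fun p : H × H => p.1⁻¹ * p.2) ⁻¹' U ∈ 𝓝 ((1 : H), (1 : H)) := by
    apply hc
    rw [h1]
    exact hU
  rw [nhds_prod_eq] at hpre
  obtain ⟨V₁, hV₁, V₂, hV₂, hsub⟩ := Filter.mem_prod_iff.mp hpre
  obtain ⟨W, hWsub, hWo, hW1⟩ := mem_nhds_iff.mp (Filter.inter_mem hV₁ hV₂)
  refine ⟨W, hWo, hW1, fun a ha b hb => ?_⟩
  have : (a, b) ∈ V₁ ×ˢ V₂ := ⟨(hWsub ha).1, (hWsub hb).2⟩
  exact hsub this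

/-- **FIN-COVER, abstract form.** -/
theorem finCover98 {H : Type*} [Group H] [TopologicalSpace H] [IsTopologicalGroup H]
    (C P U : Set H) (hC : IsCompact C) (hU : U ∈ 𝓝 (1 : H)) :
    ∃ Q : Finset H, (∀ q ∈ Q, q ∈ P) ∧ ∀ p ∈ C, p ∈ P → ∃ q ∈ Q, q⁻¹ * p ∈ U := by
  classical
  obtain ⟨V, hVo, hV1, hV⟩ := exists_open_inv_mul98 hU
  -- the open cover of `C` by the translates `c V`
  have hcov : C ⊆ ⋃ c : H, (fun x : H => c⁻¹ * x) ⁻¹' V := by
    intro c _
    exact Set.mem_iUnion.mpr ⟨c, by simpa using hV1⟩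
  have hopen : ∀ c : H, IsOpen ((fun x : H => c⁻¹ * x) ⁻¹' V) := fun c =>
    hVo.preimage (continuous_const.mul continuous_id)
  obtain ⟨T, hT⟩ := hC.elim_finite_subcover _ hopen hcov
  -- for every centre whose translate meets `P` choose a point of `P` in it
  let good : H → Prop := fun c => ∃ q, q ∈ P ∧ c⁻¹ * q ∈ V
  let pick : H → H := fun c => if h : good c then h.choose else 1
  have hpick : ∀ c, good c → pick c ∈ P ∧ c⁻¹ * pick c ∈ V := by
    intro c h
    have : pick c = h.choose := dif_pos h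
    rw [this]
    exact h.choose_spec
  refine ⟨(T.filter good).image pick, ?_, ?_⟩
  · intro q hq
    obtain ⟨c, hc, rfl⟩ := Finset.mem_image.mp hq
    exact (hpick c (Finset.mem_filter.mp hc).2).1
  · intro p hpC hpP
    obtain ⟨c, hcT, hcp⟩ := Set.mem_iUnion₂.mp (hT hpC)
    have hcp' : c⁻¹ * p ∈ V := hcp
    have hg : good c := ⟨p, hpP, hcp'⟩
    refine ⟨pick c, Finset.mem_image.mpr ⟨c, Finset.mem_filter.mpr ⟨hcT, hg⟩, rfl⟩, ?_⟩
    have h2 := (hpick c hg).2
    have : (pick c)⁻¹ * p = (c⁻¹ * pick c)⁻¹ * (c⁻¹ * p) := by group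
    rw [this]
    exact hV _ h2 _ hcp'

end Fermat.Agent.LT.A2.H98

end
-- ===== PACK-END LT/A2/H98/FinCoverAbs.lean

-- ===== PACK-BEGIN LT/H670/Twist.lean
section



/-!
# Row LT, classical end (helper670): multiplying the `q`-expansion of a cusp form on `Γ₁(N)` by a
function of `n mod m`

`exists_twist_Gamma1`: for `f ∈ S_k(Γ₁(N))` and ANY `ψ : ZMod m → ℂ` there is
`g ∈ S_k(Γ₁(N m²))` with `a_n(g) = ψ(n) a_n(f)` for all `n`.

Special cases: twist by a Dirichlet character mod `m` (e.g. `χ₋₃`, `m = 3`, level `9N`), and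
depletion at a prime `ℓ` (`ψ = 1_{ℓ ∤ n}`, level `N ℓ²`).
-/

set_option autoImplicit false

open UpperHalfPlane ModularForm CongruenceSubgroup Matrix.SpecialLinearGroup ModularFormClass
open scoped MatrixGroups ModularForm Manifold

namespace Fermat.Agent.LT.H670

noncomputable section

/-- The unipotent matrix `[[1, x], [0, 1]]` in `GL₂(ℝ)`. -/
def unipR (x : ℝ) : GL (Fin 2) ℝ :=
  Matrix.GeneralLinearGroup.mkOfDetNeZero !![1, x; 0, 1] (by simp [Matrix.det_fin_two_of])

theorem unipR_det (x : ℝ) : (unipR x).det.val = 1 := by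
  simp [unipR, Matrix.GeneralLinearGroup.mkOfDetNeZero, Matrix.det_fin_two_of]

theorem coe_unipR_smul (x : ℝ) (τ : ℍ) : ((unipR x • τ : ℍ) : ℂ) = (τ : ℂ) + x := by
  rw [UpperHalfPlane.coe_smul_of_det_pos (by rw [unipR_det]; exact one_pos)]
  simp [UpperHalfPlane.num, UpperHalfPlane.denom, unipR, Matrix.GeneralLinearGroup.mkOfDetNeZero]

theorem slash_unipR_apply (k : ℤ) (x : ℝ) (f : ℍ → ℂ) (τ : ℍ) :
    (f ∣[k] unipR x) τ = f (unipR x • τ) := by
  rw [ModularForm.slash_apply]
  have hσ : UpperHalfPlane.σ (unipR x) = ContinuousAlgEquiv.refl ℝ ℂ := by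
    rw [UpperHalfPlane.σ, if_pos (by rw [unipR_det]; exact one_pos)]
  have hden : UpperHalfPlane.denom (unipR x) τ = 1 := by
    simp [UpperHalfPlane.denom, unipR, Matrix.GeneralLinearGroup.mkOfDetNeZero]
  rw [hσ, hden, unipR_det]
  simp

/-- Restriction of a cusp form to a smaller subgroup. -/
def restrictCusp {Γ Γ' : Subgroup (GL (Fin 2) ℝ)} {k : ℤ} (h : Γ ≤ Γ') (f : CuspForm Γ' k) :
    CuspForm Γ k where
  toFun := f
  slash_action_eq' γ hγ := f.slash_action_eq' γ (h hγ)
  holo' := f.holo'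
  zero_at_cusps' hc := f.zero_at_cusps' (hc.mono h)

@[simp] theorem coe_restrictCusp {Γ Γ' : Subgroup (GL (Fin 2) ℝ)} {k : ℤ} (h : Γ ≤ Γ')
    (f : CuspForm Γ' k) : ⇑(restrictCusp h f) = ⇑f := rfl

theorem sl2_det_eq (g : SL(2, ℤ)) : g 0 0 * g 1 1 - g 0 1 * g 1 0 = 1 := by
  have := g.det_coe
  rw [Matrix.det_fin_two] at this
  exact this

/-- An element of `SL(2, ℤ)` with prescribed entries. -/
theorem exists_sl2_of_entries (a b c d : ℤ) (h : a * d - b * c = 1) :
    ∃ g : SL(2, ℤ), g 0 0 = a ∧ g 0 1 = b ∧ g 1 0 = c ∧ g 1 1 = d :=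
  ⟨⟨!![a, b; c, d], by rw [Matrix.det_fin_two_of]; exact h⟩, rfl, rfl, rfl, rfl⟩

theorem mapGL_real_apply (g : SL(2, ℤ)) (i j : Fin 2) :
    ((mapGL ℝ g : GL (Fin 2) ℝ) : Matrix (Fin 2) (Fin 2) ℝ) i j = ((g i j : ℤ) : ℝ) := by
  simp

/-- `[[1, j/m],[0,1]] g = g' [[1, j/m],[0,1]]` with `g' ∈ Γ₁(N)` for `g ∈ Γ₁(N m²)`. -/
theorem unip_mul_Gamma1 (N m : ℕ) (hm : m ≠ 0) (j : ℤ) (g : SL(2, ℤ))
    (hg : g ∈ Gamma1 (N * m ^ 2)) :
    ∃ g' : SL(2, ℤ), g' ∈ Gamma1 N ∧
      unipR ((j : ℝ) / m) * mapGL ℝ g = mapGL ℝ g' * unipR ((j : ℝ) / m) := by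
  obtain ⟨h00, h11, h10⟩ := (Gamma1_mem (N * m ^ 2) g).mp hg
  have hdet := sl2_det_eq g
  obtain ⟨a₀, ha⟩ : ((N * m ^ 2 : ℕ) : ℤ) ∣ g 0 0 - 1 := by
    have : ((g 0 0 - 1 : ℤ) : ZMod (N * m ^ 2)) = 0 := by push_cast; rw [h00]; ring
    exact (ZMod.intCast_zmod_eq_zero_iff_dvd _ _).mp this
  obtain ⟨d₀, hd⟩ : ((N * m ^ 2 : ℕ) : ℤ) ∣ g 1 1 - 1 := by
    have : ((g 1 1 - 1 : ℤ) : ZMod (N * m ^ 2)) = 0 := by push_cast; rw [h11]; ring
    exact (ZMod.intCast_zmod_eq_zero_iff_dvd _ _).mp this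
  obtain ⟨c₀, hc⟩ : ((N * m ^ 2 : ℕ) : ℤ) ∣ g 1 0 :=
    (ZMod.intCast_zmod_eq_zero_iff_dvd _ _).mp h10
  push_cast at ha hd hc
  obtain ⟨g', e00, e01, e10, e11⟩ := exists_sl2_of_entries
    (g 0 0 + j * N * m * c₀) (g 0 1 + j * N * m * (d₀ - a₀) - j ^ 2 * N * c₀)
    (g 1 0) (g 1 1 - j * N * m * c₀)
    (by linear_combination hdet + (j * N * m * c₀) * (hd - ha)
      + (-(j * N * m * (d₀ - a₀)) + j ^ 2 * N * c₀) * hc)
  refine ⟨g', (Gamma1_mem N g').mpr ⟨?_, ?_, ?_⟩, ?_⟩
  · have : (g' 0 0 : ℤ) = 1 + N * (m ^ 2 * a₀ + j * m * c₀) := by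
      rw [e00]; linear_combination ha
    rw [this]
    push_cast
    simp
  · have : (g' 1 1 : ℤ) = 1 + N * (m ^ 2 * d₀ - j * m * c₀) := by
      rw [e11]; linear_combination hd
    rw [this]
    push_cast
    simp
  · have : (g' 1 0 : ℤ) = N * (m ^ 2 * c₀) := by
      rw [e10]; linear_combination hc
    rw [this]
    push_cast
    simp
  · have hmR : (m : ℝ) ≠ 0 := Nat.cast_ne_zero.mpr hm
    have haR := congrArg (Int.cast : ℤ → ℝ) ha
    have hdR := congrArg (Int.cast : ℤ → ℝ) hd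
    have hcR := congrArg (Int.cast : ℤ → ℝ) hc
    have f00 := congrArg (Int.cast : ℤ → ℝ) e00
    have f01 := congrArg (Int.cast : ℤ → ℝ) e01
    have f10 := congrArg (Int.cast : ℤ → ℝ) e10
    have f11 := congrArg (Int.cast : ℤ → ℝ) e11
    push_cast at haR hdR hcR f00 f01 f10 f11
    have e1 : ((g 1 1 : ℤ) : ℝ) = 1 + N * m ^ 2 * d₀ := by linear_combination hdR
    have e0 : ((g 0 0 : ℤ) : ℝ) = 1 + N * m ^ 2 * a₀ := by linear_combination haR
    apply Units.ext
    ext i j'
    rw [Units.val_mul, Units.val_mul, Matrix.mul_apply, Matrix.mul_apply, Fin.sum_univ_two,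
      Fin.sum_univ_two]
    simp only [mapGL_real_apply]
    fin_cases i <;> fin_cases j' <;>
      simp [unipR, Matrix.GeneralLinearGroup.mkOfDetNeZero, f00, f01, f10, f11] <;>
      first
        | ring1
        | (rw [hcR]; field_simp; done)
        | (rw [e1, e0]; field_simp; ring1)
        | (rw [hcR]; field_simp; ring1)

open ConjAct Pointwise in
theorem Gamma1_le_conj_unip (N m : ℕ) (hm : m ≠ 0) (j : ℤ) :
    (Gamma1 (N * m ^ 2) : Subgroup (GL (Fin 2) ℝ)) ≤
      toConjAct (unipR ((j : ℝ) / m))⁻¹ • (Gamma1 N : Subgroup (GL (Fin 2) ℝ)) := by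
  rintro γ ⟨g, hg, rfl⟩
  rw [Subgroup.mem_pointwise_smul_iff_inv_smul_mem, ← map_inv, inv_inv, ConjAct.smul_def,
    ConjAct.ofConjAct_toConjAct]
  obtain ⟨g', hg'1, hg'⟩ := unip_mul_Gamma1 N m hm j g hg
  rw [hg', mul_inv_cancel_right]
  exact ⟨g', hg'1, rfl⟩

theorem one_mem_strictPeriods_Gamma1_map (N : ℕ) :
    (1 : ℝ) ∈ (Subgroup.map (mapGL ℝ) (Gamma1 N)).strictPeriods := by
  have h := strictPeriods_Gamma1 N
  rw [h]
  exact AddSubgroup.mem_zmultiples (1 : ℝ)

/-- `τ ↦ f (τ + j / m)` as a cusp form on `Γ₁(N m²)`. -/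
def shiftForm (N m : ℕ) (hm : m ≠ 0) (k : ℤ) (j : ℤ) (f : CuspForm (Gamma1 N) k) :
    CuspForm (Gamma1 (N * m ^ 2)) k :=
  restrictCusp (Gamma1_le_conj_unip N m hm j) (CuspForm.translate f (unipR ((j : ℝ) / m)))

theorem shiftForm_apply (N m : ℕ) (hm : m ≠ 0) (k : ℤ) (j : ℤ) (f : CuspForm (Gamma1 N) k)
    (τ : ℍ) : shiftForm N m hm k j f τ = f (unipR ((j : ℝ) / m) • τ) := by
  change ((⇑f) ∣[k] unipR ((j : ℝ) / m)) τ = _
  exact slash_unipR_apply k _ _ τ

theorem qParam_unipR (x : ℝ) (τ : ℍ) :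
    Function.Periodic.qParam 1 ((unipR x • τ : ℍ) : ℂ) =
      Function.Periodic.qParam 1 (τ : ℂ) * Complex.exp (2 * Real.pi * Complex.I * x) := by
  rw [coe_unipR_smul, Function.Periodic.qParam, Function.Periodic.qParam, ← Complex.exp_add]
  congr 1
  push_cast
  ring

theorem hasSum_shiftForm (N m : ℕ) (hm : m ≠ 0) (k : ℤ) (j : ℤ) (f : CuspForm (Gamma1 N) k)
    (τ : ℍ) :
    HasSum (fun n : ℕ =>
        (qCoeff f n * Complex.exp (2 * Real.pi * Complex.I * ((j : ℝ) / m : ℝ)) ^ n) •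
          Function.Periodic.qParam 1 (τ : ℂ) ^ n)
      (shiftForm N m hm k j f τ) := by
  have : Fact (IsCusp OnePoint.infty (Subgroup.map (mapGL ℝ) (Gamma1 N))) :=
    ⟨Subgroup.isCusp_of_mem_strictPeriods one_pos (one_mem_strictPeriods_Gamma1_map N)⟩
  have h1 := ModularForm.hasSum_qExpansion (f := f) one_pos
    (one_mem_strictPeriods_Gamma1_map N) (unipR ((j : ℝ) / m) • τ)
  rw [qParam_unipR, ← shiftForm_apply N m hm k j f τ] at h1
  refine h1.congr_fun ?_ 
  intro n
  simp only [qCoeff, smul_eq_mul, mul_pow]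
  ring

theorem cuspForm_sum_apply {Γ : Subgroup (GL (Fin 2) ℝ)} {k : ℤ} {ι : Type*} (s : Finset ι)
    (F : ι → CuspForm Γ k) (τ : ℍ) : (∑ j ∈ s, F j) τ = ∑ j ∈ s, F j τ := by
  classical
  induction s using Finset.induction_on with
  | empty => simp
  | insert a s ha ih => rw [Finset.sum_insert ha, Finset.sum_insert ha, ← ih]; rfl

theorem exp_shift_pow (m : ℕ) [NeZero m] (j : ZMod m) (n : ℕ) :
    Complex.exp (2 * Real.pi * Complex.I * (((j.val : ℤ) : ℝ) / m : ℝ)) ^ n =
      ZMod.stdAddChar (j * (n : ZMod m)) := by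
  have h : j * (n : ZMod m) = (((j.val * n : ℕ) : ℤ) : ZMod m) := by
    push_cast
    rw [ZMod.natCast_zmod_val]
  rw [h, ZMod.stdAddChar_coe, ← Complex.exp_nat_mul]
  congr 1
  push_cast
  ring

/-- **TWIST**: for `f ∈ S_k(Γ₁(N))` and any function `ψ` on `ℤ/m` there is a cusp form on
`Γ₁(N m²)` whose `n`-th `q`-coefficient is `ψ(n) a_n(f)`. -/
theorem exists_twist_Gamma1 (N m : ℕ) [NeZero m] (k : ℤ) (f : CuspForm (Gamma1 N) k)
    (ψ : ZMod m → ℂ) :
    ∃ g : CuspForm (Gamma1 (N * m ^ 2)) k,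
      ∀ n : ℕ, qCoeff g n = ψ (n : ZMod m) * qCoeff f n := by
  have hm : m ≠ 0 := NeZero.ne m
  set c : ZMod m → ℂ := fun j => (m : ℂ)⁻¹ * (ZMod.dft ψ) j with hc
  refine ⟨∑ j : ZMod m, c j • shiftForm N m hm k ((j.val : ℕ) : ℤ) f, fun n => ?_⟩
  have key : ∀ τ : ℍ, HasSum
      (fun n : ℕ => (ψ (n : ZMod m) * qCoeff f n) • Function.Periodic.qParam 1 (τ : ℂ) ^ n)
      ((∑ j : ZMod m, c j • shiftForm N m hm k ((j.val : ℕ) : ℤ) f) τ) := by
    intro τ
    rw [cuspForm_sum_apply]
    have h1 : ∀ j ∈ (Finset.univ : Finset (ZMod m)), HasSum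
        (fun n : ℕ => c j * ((qCoeff f n *
          Complex.exp (2 * Real.pi * Complex.I * ((((j.val : ℕ) : ℤ) : ℝ) / m : ℝ)) ^ n) •
            Function.Periodic.qParam 1 (τ : ℂ) ^ n))
        ((c j • shiftForm N m hm k ((j.val : ℕ) : ℤ) f) τ) := by
      intro j _
      exact (hasSum_shiftForm N m hm k ((j.val : ℕ) : ℤ) f τ).mul_left (c j)
    have h2 := hasSum_sum h1
    refine h2.congr_fun ?_
    intro n
    have hψ : ψ (n : ZMod m) = (ZMod.dft.symm (ZMod.dft ψ)) (n : ZMod m) := by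
      rw [LinearEquiv.symm_apply_apply]
    rw [hψ, ZMod.invDFT_apply, Finset.smul_sum, Finset.sum_mul]
    simp only [smul_eq_mul]
    rw [Finset.sum_mul]
    refine Finset.sum_congr rfl fun j _ => ?_
    rw [exp_shift_pow m j n]
    simp only [hc]
    ring
  exact (ModularFormClass.qExpansion_coeff_unique one_pos
    (one_mem_strictPeriods_Gamma1_map (N * m ^ 2)) key n).symm

end

end Fermat.Agent.LT.H670

end
-- ===== PACK-END LT/H670/Twist.lean

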