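import Mathlib
import Fermat.Agent.Pack.LT2.E0L2

set_option linter.all false

-- ===== PACK-BEGIN LT/T1/H793/Gl2Local.lean
section


/-!
# Row LT, tower T1 (helper793, OFF-MAIN): local decompositions of `GL₂`

Mathlib only.  Generic, definition-free statements about `GL (Fin 2) F`:

* `bruhat793`       : Bruhat decomposition over a field (`c ≠ 0 ⇒ g = n(x) w b`);
* `iwasawaVal793`   : Iwasawa decomposition `GL₂(F) = B(F) GL₂(O)` for a valuation subring `O`;
* `iwasawaReal793`  : `GL₂(ℝ) = B(ℝ) SO(2)`;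
* `iwasawaComplex793` : `GL₂(ℂ) = B(ℂ) SU(2)`.
-/

set_option autoImplicit false

namespace Fermat.Agent.LT.T1.H793

open Matrix

section Field

variable {F : Type*} [Field F]

/-- The elementary lower unipotent matrix as an element of `GL₂`. -/
def lowerUnip793 (t : F) : GL (Fin 2) F :=
  ⟨!![1, 0; t, 1], !![1, 0; -t, 1],
    by ext i j; fin_cases i <;> fin_cases j <;> simp [Matrix.mul_apply, Fin.sum_univ_two],
    by ext i j; fin_cases i <;> fin_cases j <;> simp [Matrix.mul_apply, Fin.sum_univ_two]⟩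

/-- The matrix `[[0, 1], [1, s]]` as an element of `GL₂`. -/
def swapUnip793 (s : F) : GL (Fin 2) F :=
  ⟨!![0, 1; 1, s], !![-s, 1; 1, 0],
    by ext i j; fin_cases i <;> fin_cases j <;> simp [Matrix.mul_apply, Fin.sum_univ_two],
    by ext i j; fin_cases i <;> fin_cases j <;> simp [Matrix.mul_apply, Fin.sum_univ_two]⟩

@[simp] lemma lowerUnip793_coe (t : F) :
    ((lowerUnip793 t : GL (Fin 2) F) : Matrix (Fin 2) (Fin 2) F) = !![1, 0; t, 1] := rfl

@[simp] lemma lowerUnip793_inv_coe (t : F) :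
    (((lowerUnip793 t)⁻¹ : GL (Fin 2) F) : Matrix (Fin 2) (Fin 2) F) = !![1, 0; -t, 1] := rfl

@[simp] lemma swapUnip793_coe (s : F) :
    ((swapUnip793 s : GL (Fin 2) F) : Matrix (Fin 2) (Fin 2) F) = !![0, 1; 1, s] := rfl

@[simp] lemma swapUnip793_inv_coe (s : F) :
    (((swapUnip793 s)⁻¹ : GL (Fin 2) F) : Matrix (Fin 2) (Fin 2) F) = !![-s, 1; 1, 0] := rfl

/-- The two entries of the bottom row of an invertible `2 × 2` matrix do not both vanish. -/
lemma bottom_ne_zero793 (g : GL (Fin 2) F) :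
    (g : Matrix (Fin 2) (Fin 2) F) 1 0 ≠ 0 ∨ (g : Matrix (Fin 2) (Fin 2) F) 1 1 ≠ 0 := by
  by_contra h
  push Not at h
  have hdet : (g : Matrix (Fin 2) (Fin 2) F).det ≠ 0 := by
    have := (Matrix.GeneralLinearGroup.det g).ne_zero
    simpa using this
  apply hdet
  rw [Matrix.det_fin_two, h.1, h.2]
  ring

/-- **Bruhat decomposition** of `GL₂` over a field, big cell: if the lower left entry of `g` does
not vanish then `g = n(x) · w · b` with `b` upper triangular. -/
theorem bruhat793 (g : GL (Fin 2) F) (hc : (g : Matrix (Fin 2) (Fin 2) F) 1 0 ≠ 0) :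
    ∃ (x : F) (b : GL (Fin 2) F), (b : Matrix (Fin 2) (Fin 2) F) 1 0 = 0 ∧
      (g : Matrix (Fin 2) (Fin 2) F)
        = !![1, x; 0, 1] * !![0, 1; 1, 0] * (b : Matrix (Fin 2) (Fin 2) F) := by
  set a := (g : Matrix (Fin 2) (Fin 2) F) 0 0 with ha
  set b0 := (g : Matrix (Fin 2) (Fin 2) F) 0 1 with hb0
  set c := (g : Matrix (Fin 2) (Fin 2) F) 1 0 with hc0
  set d := (g : Matrix (Fin 2) (Fin 2) F) 1 1 with hd
  have hdet : a * d - b0 * c ≠ 0 := by
    have := (Matrix.GeneralLinearGroup.det g).ne_zero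
    have h2 : (g : Matrix (Fin 2) (Fin 2) F).det = a * d - b0 * c := by
      rw [Matrix.det_fin_two]
    rw [← h2]; simpa using this
  have hB : (!![c, d; 0, b0 - a * d / c] : Matrix (Fin 2) (Fin 2) F).det ≠ 0 := by
    rw [Matrix.det_fin_two]
    simp only [Matrix.of_apply, Matrix.cons_val', Matrix.cons_val_zero, Matrix.cons_val_one,
      Matrix.cons_val_fin_one]
    intro h
    apply hdet
    have : c * (b0 - a * d / c) = b0 * c - a * d := by field_simp
    have h' : b0 * c - a * d = 0 := by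
      rw [← this]; simpa using h
    linear_combination -h'
  refine ⟨a / c, Matrix.GeneralLinearGroup.mkOfDetNeZero _ hB, ?_, ?_⟩
  · simp [Matrix.GeneralLinearGroup.mkOfDetNeZero]
  · ext i j
    fin_cases i <;> fin_cases j <;>
      simp [Matrix.GeneralLinearGroup.mkOfDetNeZero, Matrix.mul_apply, Fin.sum_univ_two,
        ← ha, ← hb0, ← hc0, ← hd]
    · field_simp
    · field_simp
      ring

/-- **Iwasawa decomposition** of `GL₂(F)` with respect to a valuation subring `O` of `F`: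
`g = b · k` with `b` upper triangular and `k ∈ GL₂(O)`. -/
theorem iwasawaVal793 (O : ValuationSubring F) (g : GL (Fin 2) F) :
    ∃ b k : GL (Fin 2) F, g = b * k ∧ (b : Matrix (Fin 2) (Fin 2) F) 1 0 = 0 ∧
      (∀ i j, (k : Matrix (Fin 2) (Fin 2) F) i j ∈ O) ∧
      (∀ i j, ((k⁻¹ : GL (Fin 2) F) : Matrix (Fin 2) (Fin 2) F) i j ∈ O) := by
  set c := (g : Matrix (Fin 2) (Fin 2) F) 1 0 with hc0
  set d := (g : Matrix (Fin 2) (Fin 2) F) 1 1 with hd
  by_cases hA : d ≠ 0 ∧ c / d ∈ O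
  · -- `k = [[1,0],[t,1]]`, `t = c / d`
    obtain ⟨hd0, ht⟩ := hA
    refine ⟨g * (lowerUnip793 (c / d))⁻¹, lowerUnip793 (c / d), by group, ?_, ?_, ?_⟩
    · rw [Units.val_mul, lowerUnip793_inv_coe]
      simp only [Matrix.mul_apply, Fin.sum_univ_two, Matrix.of_apply, Matrix.cons_val',
        Matrix.cons_val_zero, Matrix.cons_val_one, Matrix.cons_val_fin_one]
      rw [← hc0, ← hd]
      field_simp
      ring
    · intro i j
      rw [lowerUnip793_coe]
      fin_cases i <;> fin_cases j <;> simp [O.zero_mem, O.one_mem, ht]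
    · intro i j
      rw [lowerUnip793_inv_coe]
      fin_cases i <;> fin_cases j <;> simp [O.zero_mem, O.one_mem, ht]
  · -- `k = [[0,1],[1,s]]`, `s = d / c`
    have hc : c ≠ 0 := by
      intro h
      rcases bottom_ne_zero793 g with h1 | h1
      · exact h1 (by rw [← hc0]; exact h)
      · apply hA
        refine ⟨by rw [hd]; exact h1, ?_⟩
        rw [h, zero_div]; exact O.zero_mem
    have hs : d / c ∈ O := by
      by_cases hd0 : d = 0
      · rw [hd0, zero_div]; exact O.zero_mem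
      · have h1 : c / d ∉ O := fun h => hA ⟨hd0, h⟩
        have h2 := O.mem_or_inv_mem (c / d)
        rcases h2 with h2 | h2
        · exact absurd h2 h1
        · rwa [inv_div] at h2
    refine ⟨g * (swapUnip793 (d / c))⁻¹, swapUnip793 (d / c), by group, ?_, ?_, ?_⟩
    · rw [Units.val_mul, swapUnip793_inv_coe]
      simp only [Matrix.mul_apply, Fin.sum_univ_two, Matrix.of_apply, Matrix.cons_val',
        Matrix.cons_val_zero, Matrix.cons_val_one, Matrix.cons_val_fin_one]
      rw [← hc0, ← hd]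
      field_simp
      ring
    · intro i j
      rw [swapUnip793_coe]
      fin_cases i <;> fin_cases j <;> simp [O.zero_mem, O.one_mem, hs]
    · intro i j
      rw [swapUnip793_inv_coe]
      fin_cases i <;> fin_cases j <;> simp [O.zero_mem, O.one_mem, hs]

end Field

/-! ## The archimedean places -/

/-- **Iwasawa decomposition** of `GL₂(ℝ)`: `g = b · k` with `b` upper triangular and
`k ∈ SO(2)`. -/
theorem iwasawaReal793 (g : GL (Fin 2) ℝ) :
    ∃ b k : GL (Fin 2) ℝ, g = b * k ∧ (b : Matrix (Fin 2) (Fin 2) ℝ) 1 0 = 0 ∧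
      (k : Matrix (Fin 2) (Fin 2) ℝ) * (k : Matrix (Fin 2) (Fin 2) ℝ).transpose = 1 ∧
      (k : Matrix (Fin 2) (Fin 2) ℝ).det = 1 := by
  set c := (g : Matrix (Fin 2) (Fin 2) ℝ) 1 0 with hc0
  set d := (g : Matrix (Fin 2) (Fin 2) ℝ) 1 1 with hd
  have hpos : 0 < c ^ 2 + d ^ 2 := by
    rcases bottom_ne_zero793 g with h | h
    · have : 0 < c ^ 2 := by positivity
      nlinarith [sq_nonneg d]
    · have : 0 < d ^ 2 := by positivity
      nlinarith [sq_nonneg c]
  set r := Real.sqrt (c ^ 2 + d ^ 2) with hr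
  have hr0 : 0 < r := Real.sqrt_pos.mpr hpos
  have hr2 : r ^ 2 = c ^ 2 + d ^ 2 := Real.sq_sqrt hpos.le
  have hrne : r ≠ 0 := hr0.ne'
  -- `k = (1/r) [[d, -c], [c, d]]`, `k⁻¹ = (1/r) [[d, c], [-c, d]]`
  let k : GL (Fin 2) ℝ :=
    ⟨!![d / r, -c / r; c / r, d / r], !![d / r, c / r; -c / r, d / r],
      by
        ext i j
        fin_cases i <;> fin_cases j <;>
          simp [Matrix.mul_apply, Fin.sum_univ_two] <;> field_simp <;> nlinarith [hr2],
      by
        ext i j
        fin_cases i <;> fin_cases j <;>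
          simp [Matrix.mul_apply, Fin.sum_univ_two] <;> field_simp <;> nlinarith [hr2]⟩
  have hk : (k : Matrix (Fin 2) (Fin 2) ℝ) = !![d / r, -c / r; c / r, d / r] := rfl
  have hkinv : ((k⁻¹ : GL (Fin 2) ℝ) : Matrix (Fin 2) (Fin 2) ℝ)
      = !![d / r, c / r; -c / r, d / r] := rfl
  refine ⟨g * k⁻¹, k, by group, ?_, ?_, ?_⟩
  · rw [Units.val_mul, hkinv]
    simp only [Matrix.mul_apply, Fin.sum_univ_two, Matrix.of_apply, Matrix.cons_val',
      Matrix.cons_val_zero, Matrix.cons_val_one, Matrix.cons_val_fin_one]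
    rw [← hc0, ← hd]
    field_simp
    ring
  · rw [hk]
    ext i j
    fin_cases i <;> fin_cases j <;>
      simp [Matrix.mul_apply, Fin.sum_univ_two, Matrix.transpose_apply] <;> field_simp <;>
      nlinarith [hr2]
  · rw [hk, Matrix.det_fin_two]
    simp only [Matrix.of_apply, Matrix.cons_val', Matrix.cons_val_zero, Matrix.cons_val_one,
      Matrix.cons_val_fin_one]
    field_simp
    nlinarith [hr2]

/-- **Iwasawa decomposition** of `GL₂(ℂ)`: `g = b · k` with `b` upper triangular and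
`k ∈ SU(2)`. -/
theorem iwasawaComplex793 (g : GL (Fin 2) ℂ) :
    ∃ b k : GL (Fin 2) ℂ, g = b * k ∧ (b : Matrix (Fin 2) (Fin 2) ℂ) 1 0 = 0 ∧
      (k : Matrix (Fin 2) (Fin 2) ℂ) * (k : Matrix (Fin 2) (Fin 2) ℂ).conjTranspose = 1 ∧
      (k : Matrix (Fin 2) (Fin 2) ℂ).det = 1 := by
  set c := (g : Matrix (Fin 2) (Fin 2) ℂ) 1 0 with hc0
  set d := (g : Matrix (Fin 2) (Fin 2) ℂ) 1 1 with hd
  have hpos : 0 < Complex.normSq c + Complex.normSq d := by
    rcases bottom_ne_zero793 g with h | h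
    · have : 0 < Complex.normSq c := Complex.normSq_pos.mpr h
      linarith [Complex.normSq_nonneg d]
    · have : 0 < Complex.normSq d := Complex.normSq_pos.mpr h
      linarith [Complex.normSq_nonneg c]
  set r := Real.sqrt (Complex.normSq c + Complex.normSq d) with hr
  have hr0 : 0 < r := Real.sqrt_pos.mpr hpos
  have hr2 : r ^ 2 = Complex.normSq c + Complex.normSq d := Real.sq_sqrt hpos.le
  have hrne : (r : ℂ) ≠ 0 := by exact_mod_cast hr0.ne'
  have hcc : c * (starRingEnd ℂ) c = (Complex.normSq c : ℂ) := Complex.mul_conj c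
  have hdd : d * (starRingEnd ℂ) d = (Complex.normSq d : ℂ) := Complex.mul_conj d
  have hsum : c * (starRingEnd ℂ) c + d * (starRingEnd ℂ) d = (r : ℂ) ^ 2 := by
    rw [hcc, hdd]; exact_mod_cast hr2.symm
  -- `k⁻¹ = (1/r) [[d, conj c], [-c, conj d]]`, `k = (1/r) [[conj d, -conj c], [c, d]]`
  let k : GL (Fin 2) ℂ :=
    ⟨!![(starRingEnd ℂ) d / r, -(starRingEnd ℂ) c / r; c / r, d / r],
      !![d / r, (starRingEnd ℂ) c / r; -c / r, (starRingEnd ℂ) d / r],
      by
        ext i j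
        fin_cases i <;> fin_cases j <;>
          simp [Matrix.mul_apply, Fin.sum_univ_two] <;> field_simp <;>
          first | ring1 | linear_combination hsum
      ,
      by
        ext i j
        fin_cases i <;> fin_cases j <;>
          simp [Matrix.mul_apply, Fin.sum_univ_two] <;> field_simp <;>
          first | ring1 | linear_combination hsum⟩
  have hk : (k : Matrix (Fin 2) (Fin 2) ℂ)
      = !![(starRingEnd ℂ) d / r, -(starRingEnd ℂ) c / r; c / r, d / r] := rfl
  have hkinv : ((k⁻¹ : GL (Fin 2) ℂ) : Matrix (Fin 2) (Fin 2) ℂ)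
      = !![d / r, (starRingEnd ℂ) c / r; -c / r, (starRingEnd ℂ) d / r] := rfl
  refine ⟨g * k⁻¹, k, by group, ?_, ?_, ?_⟩
  · rw [Units.val_mul, hkinv]
    simp only [Matrix.mul_apply, Fin.sum_univ_two, Matrix.of_apply, Matrix.cons_val',
      Matrix.cons_val_zero, Matrix.cons_val_one, Matrix.cons_val_fin_one]
    rw [← hc0, ← hd]
    field_simp
    ring
  · rw [hk]
    ext i j
    fin_cases i <;> fin_cases j <;>
      simp [Matrix.mul_apply, Fin.sum_univ_two, Matrix.conjTranspose_apply] <;> field_simp <;>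
      first | ring1 | linear_combination hsum
  · rw [hk, Matrix.det_fin_two]
    simp only [Matrix.of_apply, Matrix.cons_val', Matrix.cons_val_zero, Matrix.cons_val_one,
      Matrix.cons_val_fin_one]
    field_simp
    first | ring1 | linear_combination hsum

end Fermat.Agent.LT.T1.H793

end
-- ===== PACK-END LT/T1/H793/Gl2Local.lean

-- ===== PACK-BEGIN LT/T1/H849/Unimod.lean
section


/-!
# Row LT, tower T1 (groups and measures): `GL₂(𝔸_K)` is UNIMODULAR

OFF-MAIN, Mathlib only (helper849, volunteer under option B; CLAIM T1.UNIMOD).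
Reference: Godement, *Domaines fondamentaux des groupes arithmétiques* / Jacquet–Langlands §9
("`GL₂(𝔸)` is unimodular"), here by a purely algebraic argument.

## Results (all hypothesis-parametrised on `[LocallyCompactSpace (GL (Fin 2) 𝔸_K)]` = leaf T1.LC)

* `hom_eq_one_of_stableRangeOne849`: over a commutative ring `R` of stable range one
  (`StableRangeOne849 R`: `r a + s c = 1 → ∃ x, IsUnit (a + x c)`), every monoid homomorphism
  `GL₂(R) → A`, `A` a commutative monoid with `t * t = 1 → t = 1`, which is trivial on the scalar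
  matrices, is trivial.  (`diag(-1,1)` conjugates a transvection to its inverse; the Weyl element
  swaps `diag(u,v)` and `diag(v,u)`; Gauss elimination with a unit pivot.)
* `stableRangeOne_adele849`: the adele ring of a number field has stable range one
  (`stableRangeOne_finiteAdele849`: so has the finite adele ring of any Dedekind domain; the pivot
  `x` has components `0` or `1`, units by `FiniteAdeleRing.isUnit_iff`).
* `modularCharacter_central849`: the modular character of a locally compact group is trivial on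
  the centre.
* `modularCharacter_adelicGL2_849`: the modular character of `GL₂(𝔸_K)` is trivial.
* `adelicGL2_map_mul_right849`, `adelicGL2_isMulRightInvariant849` (regular Haar measures),
  `..._innerRegular849` (inner regular Haar measures), `adelicGL2_integral_mul_right849`
  (EVERY Haar measure, continuous functions with compact support): right invariance.
-/

set_option autoImplicit false

open Matrix IsDedekindDomain NumberField MeasureTheory MeasureTheory.Measure
open scoped NNReal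

namespace Fermat.Agent.LT.T1.H849

/-- Stable range one, for unimodular pairs. -/
def StableRangeOne849 (R : Type*) [CommRing R] : Prop :=
  ∀ a c r s : R, r * a + s * c = 1 → ∃ x : R, IsUnit (a + x * c)

section Algebra

variable {R : Type*} [CommRing R]

/-- The upper transvection `[1, x; 0, 1]`. -/
def upT849 (x : R) : GL (Fin 2) R :=
  ⟨!![1, x; 0, 1], !![1, -x; 0, 1], by simp [Matrix.one_fin_two], by simp [Matrix.one_fin_two]⟩

/-- The lower transvection `[1, 0; x, 1]`. -/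
def loT849 (x : R) : GL (Fin 2) R :=
  ⟨!![1, 0; x, 1], !![1, 0; -x, 1], by simp [Matrix.one_fin_two], by simp [Matrix.one_fin_two]⟩

/-- The diagonal matrix `diag(u, v)`. -/
def dg849 (u v : Rˣ) : GL (Fin 2) R :=
  ⟨!![(u : R), 0; 0, (v : R)], !![((u⁻¹ : Rˣ) : R), 0; 0, ((v⁻¹ : Rˣ) : R)],
    by simp [Matrix.one_fin_two], by simp [Matrix.one_fin_two]⟩

/-- The Weyl element `[0, 1; 1, 0]`. -/
def wE849 : GL (Fin 2) R :=
  ⟨!![0, 1; 1, 0], !![0, 1; 1, 0], by simp [Matrix.one_fin_two], by simp [Matrix.one_fin_two]⟩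

@[simp] lemma coe_upT849 (x : R) : ((upT849 x : GL (Fin 2) R) : Matrix (Fin 2) (Fin 2) R)
    = !![1, x; 0, 1] := rfl

@[simp] lemma coe_loT849 (x : R) : ((loT849 x : GL (Fin 2) R) : Matrix (Fin 2) (Fin 2) R)
    = !![1, 0; x, 1] := rfl

@[simp] lemma coe_dg849 (u v : Rˣ) : ((dg849 u v : GL (Fin 2) R) : Matrix (Fin 2) (Fin 2) R)
    = !![(u : R), 0; 0, (v : R)] := rfl

@[simp] lemma coe_wE849 : ((wE849 : GL (Fin 2) R) : Matrix (Fin 2) (Fin 2) R)
    = !![0, 1; 1, 0] := rfl

lemma dg_conj_upT849 (x : R) :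
    dg849 (-1) 1 * upT849 x = (upT849 x)⁻¹ * dg849 (-1 : Rˣ) 1 := by
  rw [eq_inv_mul_iff_mul_eq]
  apply Units.ext
  simp

lemma wE_conj_upT849 (x : R) : wE849 * upT849 x = loT849 x * wE849 := by
  apply Units.ext
  simp

lemma wE_conj_dg849 (u v : Rˣ) : wE849 * dg849 u v = dg849 v u * wE849 := by
  apply Units.ext
  simp

lemma dg_mul_dg_swap849 (u v : Rˣ) :
    dg849 u v * dg849 v u = Matrix.GeneralLinearGroup.scalar (Fin 2) (u * v) := by
  apply Units.ext
  ext i j
  fin_cases i <;> fin_cases j <;> simp [mul_comm]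

/-- Gauss elimination with a unit pivot `a' = g₀₀ + x g₁₀`. -/
lemma gauss849 (g : GL (Fin 2) R) (x : R) (a' : Rˣ) (ha' : (a' : R) = g 0 0 + x * g 1 0) :
    loT849 (-(g 1 0 * ((a'⁻¹ : Rˣ) : R))) * (upT849 x * g)
        * upT849 (-(((a'⁻¹ : Rˣ) : R) * (g 0 1 + x * g 1 1)))
      = dg849 a' (a'⁻¹ * Matrix.GeneralLinearGroup.det g) := by
  have hinv : ((a'⁻¹ : Rˣ) : R) * (g 0 0 + x * g 1 0) = 1 := by
    rw [← ha']; exact Units.inv_mul a'
  have hdet : ((Matrix.GeneralLinearGroup.det g : Rˣ) : R) = g 0 0 * g 1 1 - g 0 1 * g 1 0 := by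
    simp [Matrix.det_fin_two]
  apply Units.ext
  have hg : (g : Matrix (Fin 2) (Fin 2) R) = !![g 0 0, g 0 1; g 1 0, g 1 1] :=
    Matrix.eta_fin_two _
  simp only [Units.val_mul, coe_upT849, coe_loT849, coe_dg849, hdet]
  rw [hg]
  simp only [Matrix.mul_fin_two, Matrix.of_apply, Matrix.cons_val', Matrix.cons_val_zero,
    Matrix.cons_val_one, Matrix.cons_val_fin_one]
  ext i j
  fin_cases i <;> fin_cases j
  · simp [ha']
  · simp; linear_combination (-(g 0 1 + x * g 1 1)) * hinv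
  · simp; linear_combination (-(g 1 0)) * hinv
  · simp; linear_combination (g 1 0 * ((a'⁻¹ : Rˣ) : R) * (g 0 1 + x * g 1 1) - g 1 1) * hinv

end Algebra

section Hom

variable {R : Type*} [CommRing R] {A : Type*} [CommMonoid A] (χ : GL (Fin 2) R →* A)

/-- A homomorphism to a commutative monoid is constant on conjugacy classes. -/
lemma hom_eq_of_conj849 {h g g' : GL (Fin 2) R} (e : h * g = g' * h) : χ g = χ g' := by
  have h1 : χ h * χ g = χ g' * χ h := by rw [← map_mul, ← map_mul, e]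
  have hu : IsUnit (χ h) := (Group.isUnit h).map χ
  rw [mul_comm] at h1
  exact hu.mul_right_cancel h1

variable (hA : ∀ t : A, t * t = 1 → t = 1)
include hA

lemma hom_upT849 (x : R) : χ (upT849 x) = 1 := by
  apply hA
  have h1 : χ (upT849 x) = χ ((upT849 x)⁻¹) := hom_eq_of_conj849 χ (dg_conj_upT849 x)
  nth_rewrite 2 [h1]
  rw [← map_mul, mul_inv_cancel, map_one]

lemma hom_loT849 (x : R) : χ (loT849 x) = 1 := by
  rw [← hom_eq_of_conj849 χ (wE_conj_upT849 x)]
  exact hom_upT849 χ hA x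

lemma hom_dg849 (hc : ∀ z : Rˣ, χ (Matrix.GeneralLinearGroup.scalar (Fin 2) z) = 1)
    (u v : Rˣ) : χ (dg849 u v) = 1 := by
  apply hA
  have h1 : χ (dg849 u v) = χ (dg849 v u) := hom_eq_of_conj849 χ (wE_conj_dg849 u v)
  nth_rewrite 2 [h1]
  rw [← map_mul, dg_mul_dg_swap849, hc]

/-- **Algebraic core.**  Over a commutative ring of stable range one, a homomorphism from `GL₂`
to a commutative monoid without `2`-torsion which is trivial on the scalar matrices is trivial. -/
theorem hom_eq_one_of_stableRangeOne849 (hsr : StableRangeOne849 R)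
    (hc : ∀ z : Rˣ, χ (Matrix.GeneralLinearGroup.scalar (Fin 2) z) = 1)
    (g : GL (Fin 2) R) : χ g = 1 := by
  have hdet : ((Matrix.GeneralLinearGroup.det g : Rˣ) : R) = g 0 0 * g 1 1 - g 0 1 * g 1 0 := by
    simp [Matrix.det_fin_two]
  have hinv : (((Matrix.GeneralLinearGroup.det g)⁻¹ : Rˣ) : R)
      * (g 0 0 * g 1 1 - g 0 1 * g 1 0) = 1 := by
    rw [← hdet]; exact Units.inv_mul _
  obtain ⟨x, hx⟩ := hsr (g 0 0) (g 1 0)
    ((((Matrix.GeneralLinearGroup.det g)⁻¹ : Rˣ) : R) * g 1 1)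
    (-((((Matrix.GeneralLinearGroup.det g)⁻¹ : Rˣ) : R) * g 0 1))
    (by linear_combination hinv)
  obtain ⟨a', ha'⟩ := hx
  have key := congrArg χ (gauss849 g x a' ha')
  rw [map_mul, map_mul, map_mul, hom_loT849 χ hA, hom_upT849 χ hA, hom_upT849 χ hA,
    hom_dg849 χ hA hc, one_mul, one_mul, mul_one] at key
  exact key

end Hom

/-! ## Stable range one: fields, products, adeles -/

lemma stableRangeOne_field849 (F : Type*) [Field F] : StableRangeOne849 F := by
  intro a c r s h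
  by_cases ha : a = 0
  · refine ⟨1, ?_⟩
    have hc : c ≠ 0 := by
      rintro rfl
      rw [ha] at h
      simp at h
    simpa [ha] using hc.isUnit
  · exact ⟨0, by simpa using (isUnit_iff_ne_zero.mpr ha)⟩

lemma stableRangeOne_pi849 {ι : Type*} (S : ι → Type*) [∀ i, CommRing (S i)]
    (h : ∀ i, StableRangeOne849 (S i)) : StableRangeOne849 (∀ i, S i) := by
  intro a c r s hrs
  have hi : ∀ i, ∃ x : S i, IsUnit (a i + x * c i) := fun i =>
    h i (a i) (c i) (r i) (s i) (by simpa using congrFun hrs i)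
  choose x hx using hi
  exact ⟨x, Pi.isUnit_iff.mpr hx⟩

lemma stableRangeOne_prod849 {S T : Type*} [CommRing S] [CommRing T]
    (hS : StableRangeOne849 S) (hT : StableRangeOne849 T) : StableRangeOne849 (S × T) := by
  intro a c r s hrs
  obtain ⟨x, hx⟩ := hS a.1 c.1 r.1 s.1 (by simpa using congrArg Prod.fst hrs)
  obtain ⟨y, hy⟩ := hT a.2 c.2 r.2 s.2 (by simpa using congrArg Prod.snd hrs)
  exact ⟨(x, y), Prod.isUnit_iff.mpr ⟨hx, hy⟩⟩

section FiniteAdele

variable (R : Type*) [CommRing R] [IsDedekindDomain R] (K : Type*) [Field K] [Algebra R K]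
  [IsFractionRing R K]

open scoped Classical in
/-- The integral finite adele with components `0` (where `|c_v| ≤ |a_v|`) and `1` (elsewhere). -/
noncomputable def pivot849 (a c : FiniteAdeleRing R K) : FiniteAdeleRing R K :=
  ⟨fun v => if Valued.v (c v) ≤ Valued.v (a v) then 0 else 1,
    Filter.Eventually.of_forall (fun v => by
      by_cases h : Valued.v (c v) ≤ Valued.v (a v)
      · simp only [h, if_true]; exact zero_mem _
      · simp only [h, if_false]; exact one_mem _)⟩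

open scoped Classical in
lemma pivot849_apply (a c : FiniteAdeleRing R K) (v : HeightOneSpectrum R) :
    pivot849 R K a c v = if Valued.v (c v) ≤ Valued.v (a v) then 0 else 1 := rfl

lemma stableRangeOne_finiteAdele849 : StableRangeOne849 (FiniteAdeleRing R K) := by
  classical
  intro a c r s hrs
  refine ⟨pivot849 R K a c, ?_⟩
  have hv : ∀ v : HeightOneSpectrum R, r v * a v + s v * c v = 1 := fun v =>
    congrArg (fun z : FiniteAdeleRing R K => z v) hrs
  have happ : ∀ v : HeightOneSpectrum R, (a + pivot849 R K a c * c) v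
      = a v + (if Valued.v (c v) ≤ Valued.v (a v) then 0 else 1) * c v := fun v => rfl
  rw [FiniteAdeleRing.isUnit_iff]
  constructor
  · intro v
    rw [happ]
    by_cases h : Valued.v (c v) ≤ Valued.v (a v)
    · simp only [h, if_true, zero_mul, add_zero]
      intro ha
      have hc : c v = 0 := by
        rw [ha, Valuation.map_zero] at h
        exact (Valuation.zero_iff _).mp (le_antisymm h zero_le)
      have := hv v
      rw [ha, hc] at this
      simp at this
    · simp only [h, if_false, one_mul]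
      rw [not_le] at h
      intro h0
      have h1 : Valued.v (a v + c v) = Valued.v (c v) := Valuation.map_add_eq_of_lt_right _ h
      rw [h0, Valuation.map_zero] at h1
      rw [← h1] at h
      exact not_lt_zero h
  · filter_upwards [a.2, c.2, r.2, s.2] with v ha hc hr hs
    rw [happ]
    have ha1 : Valued.v (a v) ≤ 1 := ha
    have hc1 : Valued.v (c v) ≤ 1 := hc
    have hr1 : Valued.v (r v) ≤ 1 := hr
    have hs1 : Valued.v (s v) ≤ 1 := hs
    have hmax : (1 : WithZero (Multiplicative ℤ)) ≤ max (Valued.v (a v)) (Valued.v (c v)) := by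
      have h1 : Valued.v (r v * a v + s v * c v) = 1 := by rw [hv v, Valuation.map_one]
      have h2 := Valuation.map_add (Valued.v) (r v * a v) (s v * c v)
      rw [h1, Valuation.map_mul, Valuation.map_mul] at h2
      refine h2.trans (max_le_max ?_ ?_)
      · exact mul_le_of_le_one_left' hr1
      · exact mul_le_of_le_one_left' hs1
    by_cases h : Valued.v (c v) ≤ Valued.v (a v)
    · simp only [h, if_true, zero_mul, add_zero]
      rw [max_eq_left h] at hmax
      exact le_antisymm ha1 hmax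
    · simp only [h, if_false, one_mul]
      rw [not_le] at h
      rw [Valuation.map_add_eq_of_lt_right _ h]
      rw [max_eq_right h.le] at hmax
      exact le_antisymm hc1 hmax

end FiniteAdele

lemma stableRangeOne_infiniteAdele849 (K : Type*) [Field K] [NumberField K] :
    StableRangeOne849 (InfiniteAdeleRing K) :=
  stableRangeOne_pi849 (fun v : InfinitePlace K => v.Completion)
    (fun v => stableRangeOne_field849 v.Completion)

/-- **The adele ring of a number field has stable range one.** -/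
theorem stableRangeOne_adele849 (K : Type*) [Field K] [NumberField K] :
    StableRangeOne849 (AdeleRing (𝓞 K) K) :=
  stableRangeOne_prod849 (stableRangeOne_infiniteAdele849 K)
    (stableRangeOne_finiteAdele849 (𝓞 K) K)

section Measure

variable {G : Type*} [Group G] [TopologicalSpace G] [IsTopologicalGroup G] [LocallyCompactSpace G]

/-- The modular character is trivial on the centre. -/
lemma modularCharacter_central849 (z : G) (hz : ∀ g : G, z * g = g * z) :
    modularCharacter z = 1 := by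
  borelize G
  show modularCharacterFun z = 1
  rw [modularCharacterFun_eq_haarScalarFactor (MeasureTheory.Measure.haar : Measure G) z]
  have hfun : (fun x : G => x * z) = (fun x => z * x) := funext (fun x => (hz x).symm)
  have hm : map (fun x : G => x * z) (MeasureTheory.Measure.haar : Measure G)
      = MeasureTheory.Measure.haar := by
    rw [hfun]; exact map_mul_left_eq_self _ z
  have key : ∀ (ν : Measure G) [IsHaarMeasure ν], ν = MeasureTheory.Measure.haar →
      haarScalarFactor ν (MeasureTheory.Measure.haar : Measure G) = 1 := by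
    intro ν _ h
    subst h
    exact haarScalarFactor_self _
  exact key _ hm

lemma nnreal_no_two_torsion849 (t : ℝ≥0) (ht : t * t = 1) : t = 1 :=
  (pow_eq_one_iff_of_nonneg zero_le two_ne_zero).mp (by rw [sq]; exact ht)

variable [MeasurableSpace G] [BorelSpace G]

/-- Unimodular group: an inner regular Haar measure is right invariant. -/
theorem map_mul_right_eq_self_of_innerRegular849 (h1 : ∀ g : G, modularCharacter g = 1)
    (μ : Measure G) [IsHaarMeasure μ] [InnerRegular μ] (g : G) : map (· * g) μ = μ := by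
  rw [map_right_mul_eq_modularCharacterFun_smul μ g]
  have : modularCharacterFun g = 1 := h1 g
  rw [this, one_smul]

theorem isMulRightInvariant_of_innerRegular849 (h1 : ∀ g : G, modularCharacter g = 1)
    (μ : Measure G) [IsHaarMeasure μ] [InnerRegular μ] : μ.IsMulRightInvariant :=
  ⟨fun g => map_mul_right_eq_self_of_innerRegular849 h1 μ g⟩

/-- Unimodular group: a regular Haar measure is right invariant. -/
theorem map_mul_right_eq_self_of_regular849 (h1 : ∀ g : G, modularCharacter g = 1)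
    (μ : Measure G) [IsHaarMeasure μ] [Regular μ] (g : G) : map (· * g) μ = μ := by
  have : Regular (map (· * g) μ) := Regular.map (Homeomorph.mulRight g)
  have e := isMulLeftInvariant_eq_smul_of_regular (map (· * g) μ) μ
  rw [← modularCharacterFun_eq_haarScalarFactor μ g, show modularCharacterFun g = 1 from h1 g,
    one_smul] at e
  exact e

theorem isMulRightInvariant_of_regular849 (h1 : ∀ g : G, modularCharacter g = 1)
    (μ : Measure G) [IsHaarMeasure μ] [Regular μ] : μ.IsMulRightInvariant :=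
  ⟨fun g => map_mul_right_eq_self_of_regular849 h1 μ g⟩

/-- Unimodular group: for EVERY Haar measure the integral of a continuous function with compact
support is right invariant. -/
theorem integral_mul_right_eq_self849 (h1 : ∀ g : G, modularCharacter g = 1)
    (μ : Measure G) [IsHaarMeasure μ] {f : G → ℝ} (hf : Continuous f)
    (hfc : HasCompactSupport f) (g : G) : ∫ x, f (x * g) ∂μ = ∫ x, f x ∂μ := by
  have e := integral_isMulLeftInvariant_eq_smul_of_hasCompactSupport (map (· * g) μ) μ hf hfc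
  rw [← modularCharacterFun_eq_haarScalarFactor μ g, show modularCharacterFun g = 1 from h1 g,
    one_smul, integral_map (AEMeasurable.mul_const aemeasurable_id' _)
      hf.aestronglyMeasurable] at e
  exact e

end Measure

/-! ## The statements for `GL₂` -/

section GL2

/-- `GL₂(R)` is unimodular for a topological ring `R` of stable range one. -/
theorem modularCharacter_GL2_eq_one849 {R : Type*} [CommRing R] [TopologicalSpace R]
    [IsTopologicalRing R] [LocallyCompactSpace (GL (Fin 2) R)] (hsr : StableRangeOne849 R)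
    (g : GL (Fin 2) R) : modularCharacter g = 1 :=
  hom_eq_one_of_stableRangeOne849 modularCharacter nnreal_no_two_torsion849 hsr
    (fun z => modularCharacter_central849 _
      (fun g => Matrix.GeneralLinearGroup.scalar_commute z g)) g

variable (K : Type*) [Field K] [NumberField K]
  [LocallyCompactSpace (GL (Fin 2) (AdeleRing (𝓞 K) K))]

/-- **`GL₂(𝔸_K)` is unimodular**: its modular character is trivial. -/
theorem modularCharacter_adelicGL2_849 (g : GL (Fin 2) (AdeleRing (𝓞 K) K)) :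
    modularCharacter g = 1 :=
  modularCharacter_GL2_eq_one849 (stableRangeOne_adele849 K) g

variable [MeasurableSpace (GL (Fin 2) (AdeleRing (𝓞 K) K))]
  [BorelSpace (GL (Fin 2) (AdeleRing (𝓞 K) K))]

/-- A regular Haar measure on `GL₂(𝔸_K)` is invariant under right translations. -/
theorem adelicGL2_map_mul_right849 (μ : Measure (GL (Fin 2) (AdeleRing (𝓞 K) K)))
    [IsHaarMeasure μ] [Regular μ] (g : GL (Fin 2) (AdeleRing (𝓞 K) K)) :
    map (· * g) μ = μ :=
  map_mul_right_eq_self_of_regular849 (modularCharacter_adelicGL2_849 K) μ g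

/-- A regular Haar measure on `GL₂(𝔸_K)` is right invariant. -/
theorem adelicGL2_isMulRightInvariant849 (μ : Measure (GL (Fin 2) (AdeleRing (𝓞 K) K)))
    [IsHaarMeasure μ] [Regular μ] : μ.IsMulRightInvariant :=
  isMulRightInvariant_of_regular849 (modularCharacter_adelicGL2_849 K) μ

/-- An inner regular Haar measure on `GL₂(𝔸_K)` is invariant under right translations. -/
theorem adelicGL2_map_mul_right_innerRegular849 (μ : Measure (GL (Fin 2) (AdeleRing (𝓞 K) K)))
    [IsHaarMeasure μ] [InnerRegular μ] (g : GL (Fin 2) (AdeleRing (𝓞 K) K)) :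
    map (· * g) μ = μ :=
  map_mul_right_eq_self_of_innerRegular849 (modularCharacter_adelicGL2_849 K) μ g

/-- An inner regular Haar measure on `GL₂(𝔸_K)` is right invariant. -/
theorem adelicGL2_isMulRightInvariant_innerRegular849
    (μ : Measure (GL (Fin 2) (AdeleRing (𝓞 K) K))) [IsHaarMeasure μ] [InnerRegular μ] :
    μ.IsMulRightInvariant :=
  isMulRightInvariant_of_innerRegular849 (modularCharacter_adelicGL2_849 K) μ

/-- For EVERY Haar measure on `GL₂(𝔸_K)` the integral of a continuous function with compact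
support is invariant under right translations. -/
theorem adelicGL2_integral_mul_right849 (μ : Measure (GL (Fin 2) (AdeleRing (𝓞 K) K)))
    [IsHaarMeasure μ] {f : GL (Fin 2) (AdeleRing (𝓞 K) K) → ℝ} (hf : Continuous f)
    (hfc : HasCompactSupport f) (g : GL (Fin 2) (AdeleRing (𝓞 K) K)) :
    ∫ x, f (x * g) ∂μ = ∫ x, f x ∂μ :=
  integral_mul_right_eq_self849 (modularCharacter_adelicGL2_849 K) μ hf hfc g

end GL2

end Fermat.Agent.LT.T1.H849

end
-- ===== PACK-END LT/T1/H849/Unimod.lean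

-- ===== PACK-BEGIN LT/T2/H98/CharAbs.lean
section


/-!
# Row LT, tower T2, sub-leaf T2.10.08.05 (helper98): continuous characters of `ℝ` and `ℂ`

* `char_real98`: a continuous `ψ : ℝ → ℂ` with `ψ (x + y) = ψ x * ψ y` and `‖ψ x‖ = 1` is
  `x ↦ exp (i a x)` (`c₀ = ∫₀^δ ψ ≠ 0`, `ψ x * c₀ = ∫_x^{x+δ} ψ` is differentiable,
  `ψ' = λ ψ`, `ψ = exp (λ x)`, `‖ψ‖ = 1` gives `Re λ = 0`).
* `char_complex98`: the same on `ℂ`: `χ z = exp (i Re (conj c * z))`.
Mathlib only.
-/

set_option autoImplicit false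

noncomputable section

namespace Fermat.Agent.LT.T2.H98

open Complex MeasureTheory intervalIntegral Topology

/-- A multiplicative continuous function of norm one on `ℝ` has a nonzero integral over a small
interval. -/
theorem exists_integral_ne_zero98 (ψ : ℝ → ℂ) (hc : Continuous ψ) (h0 : ψ 0 = 1) :
    ∃ δ : ℝ, 0 < δ ∧ (∫ t in (0 : ℝ)..δ, ψ t) ≠ 0 := by
  have hcont : ContinuousAt ψ 0 := hc.continuousAt
  rw [Metric.continuousAt_iff] at hcont
  obtain ⟨ε, hε, hε'⟩ := hcont (1 / 2) (by norm_num)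
  refine ⟨ε / 2, by positivity, ?_⟩
  have hδ : ∀ t ∈ Set.uIoc (0 : ℝ) (ε / 2), ‖ψ t - 1‖ ≤ 1 / 2 := by
    intro t ht
    rw [Set.uIoc_of_le (by positivity)] at ht
    have h1 : dist t 0 < ε := by
      rw [Real.dist_eq, sub_zero, abs_of_pos ht.1]
      linarith [ht.2]
    have h2 := hε' h1
    rw [h0, dist_eq_norm] at h2
    exact h2.le
  have h1 : (∫ t in (0 : ℝ)..(ε / 2), ψ t) - ((ε / 2 : ℝ) : ℂ)
      = ∫ t in (0 : ℝ)..(ε / 2), (ψ t - 1) := by
    rw [intervalIntegral.integral_sub (hc.intervalIntegrable _ _) intervalIntegrable_const]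
    simp
  have h2 : ‖∫ t in (0 : ℝ)..(ε / 2), (ψ t - 1)‖ ≤ 1 / 2 * |ε / 2 - 0| :=
    intervalIntegral.norm_integral_le_of_norm_le_const hδ
  intro h
  rw [h, zero_sub] at h1
  rw [← h1, norm_neg, Complex.norm_real, Real.norm_eq_abs, sub_zero] at h2
  have h3 : 0 < |ε / 2| := abs_pos.mpr (by positivity)
  linarith

/-- **Continuous characters of `ℝ`.** -/
theorem char_real98 (ψ : ℝ → ℂ) (hc : Continuous ψ) (hadd : ∀ x y : ℝ, ψ (x + y) = ψ x * ψ y)
    (hnorm : ∀ x : ℝ, ‖ψ x‖ = 1) :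
    ∃ a : ℝ, ∀ x : ℝ, ψ x = Complex.exp (Complex.I * ((a * x : ℝ) : ℂ)) := by
  have hne : ∀ x : ℝ, ψ x ≠ 0 := by
    intro x hx
    have := hnorm x
    rw [hx, norm_zero] at this
    exact zero_ne_one this
  have h0 : ψ 0 = 1 := by
    have h1 := hadd 0 0
    rw [add_zero] at h1
    have h2 : ψ 0 * 1 = ψ 0 * ψ 0 := by rw [mul_one]; exact h1
    exact (mul_left_cancel₀ (hne 0) h2).symm
  obtain ⟨δ, hδ, hc0⟩ := exists_integral_ne_zero98 ψ hc h0
  set c0 : ℂ := ∫ t in (0 : ℝ)..δ, ψ t with hc0def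
  have hshift : ∀ x : ℝ, ψ x * c0 = ∫ t in x..(x + δ), ψ t := by
    intro x
    have h1 : (∫ t in (0 : ℝ)..δ, ψ (x + t)) = ∫ t in (x + 0)..(x + δ), ψ t :=
      intervalIntegral.integral_comp_add_left ψ x
    rw [add_zero] at h1
    rw [← h1, hc0def, ← intervalIntegral.integral_const_mul]
    congr 1
    funext t
    rw [hadd]
  have hF : ∀ y : ℝ, HasDerivAt (fun u : ℝ => ∫ t in (0 : ℝ)..u, ψ t) (ψ y) y := fun y =>
    intervalIntegral.integral_hasDerivAt_right (hc.intervalIntegrable _ _)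
      (hc.stronglyMeasurableAtFilter _ _) hc.continuousAt
  have hrep : ∀ y : ℝ, ψ y = ((∫ t in (0 : ℝ)..(y + δ), ψ t) - ∫ t in (0 : ℝ)..y, ψ t) / c0 := by
    intro y
    rw [intervalIntegral.integral_interval_sub_left (hc.intervalIntegrable _ _)
      (hc.intervalIntegrable _ _), ← hshift y]
    field_simp
  set lam : ℂ := (ψ δ - 1) / c0 with hlam
  have hderiv : ∀ x : ℝ, HasDerivAt ψ (lam * ψ x) x := by
    intro x
    have h1 : HasDerivAt (fun y : ℝ => ((∫ t in (0 : ℝ)..(y + δ), ψ t)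
        - ∫ t in (0 : ℝ)..y, ψ t) / c0) ((ψ (x + δ) - ψ x) / c0) x :=
      (((hF (x + δ)).comp_add_const x δ).sub (hF x)).div_const c0
    have h3 : lam * ψ x = (ψ (x + δ) - ψ x) / c0 := by
      rw [hlam, hadd]
      field_simp
    rw [h3]
    exact h1.congr_of_eventuallyEq (Filter.Eventually.of_forall (fun y => hrep y))
  -- `g x = ψ x * exp (-lam x)` is constant
  have hg : ∀ x : ℝ, HasDerivAt (fun y : ℝ => ψ y * Complex.exp (-lam * (y : ℂ))) 0 x := by
    intro x
    have h1 : HasDerivAt (fun y : ℝ => Complex.exp (-lam * (y : ℂ)))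
        (Complex.exp (-lam * (x : ℂ)) * (-lam * 1)) x := by
      have h2 : HasDerivAt (fun y : ℝ => -lam * (y : ℂ)) (-lam * 1) x :=
        (Complex.ofRealCLM.hasDerivAt (x := x)).const_mul (-lam)
      exact h2.cexp
    have h3 := (hderiv x).mul h1
    have h4 : lam * ψ x * Complex.exp (-lam * (x : ℂ))
        + ψ x * (Complex.exp (-lam * (x : ℂ)) * (-lam * 1)) = 0 := by ring
    rw [h4] at h3
    exact h3
  have hconst : ∀ x : ℝ, ψ x * Complex.exp (-lam * (x : ℂ)) = 1 := by
    intro x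
    have h1 : Differentiable ℝ (fun y : ℝ => ψ y * Complex.exp (-lam * (y : ℂ))) :=
      fun y => (hg y).differentiableAt
    have h2 := is_const_of_deriv_eq_zero h1 (fun y => (hg y).deriv) x 0
    rw [h2]
    simp [h0]
  have hexp : ∀ x : ℝ, ψ x = Complex.exp (lam * (x : ℂ)) := by
    intro x
    have h1 := hconst x
    have h2 : Complex.exp (lam * (x : ℂ)) * Complex.exp (-lam * (x : ℂ)) = 1 := by
      rw [← Complex.exp_add]
      simp
    have h3 : Complex.exp (-lam * (x : ℂ)) ≠ 0 := Complex.exp_ne_zero _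
    exact mul_right_cancel₀ h3 (h1.trans h2.symm)
  have hre : lam.re = 0 := by
    have h1 := hnorm 1
    rw [hexp 1, Complex.norm_exp] at h1
    simp only [Complex.ofReal_one, mul_one] at h1
    have h2 : Real.exp lam.re = Real.exp 0 := by rw [h1, Real.exp_zero]
    exact Real.exp_injective h2
  refine ⟨lam.im, fun x => ?_⟩
  rw [hexp x]
  congr 1
  apply Complex.ext
  · simp [hre]
  · simp [hre]

/-- **Continuous characters of `ℂ`.** -/
theorem char_complex98 (χ : ℂ → ℂ) (hc : Continuous χ)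
    (hadd : ∀ x y : ℂ, χ (x + y) = χ x * χ y) (hnorm : ∀ x : ℂ, ‖χ x‖ = 1) :
    ∃ c : ℂ, ∀ x : ℂ,
      χ x = Complex.exp (Complex.I * ((((starRingEnd ℂ) c * x).re : ℝ) : ℂ)) := by
  obtain ⟨a, ha⟩ := char_real98 (fun x : ℝ => χ (x : ℂ))
    (hc.comp Complex.continuous_ofReal)
    (fun x y => by
      show χ ((x + y : ℝ) : ℂ) = χ (x : ℂ) * χ (y : ℂ)
      rw [Complex.ofReal_add, hadd])
    (fun x => hnorm _)
  obtain ⟨b, hb⟩ := char_real98 (fun y : ℝ => χ ((y : ℂ) * Complex.I))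
    (hc.comp (Complex.continuous_ofReal.mul continuous_const))
    (fun x y => by
      show χ (((x + y : ℝ) : ℂ) * Complex.I) = χ ((x : ℂ) * Complex.I) * χ ((y : ℂ) * Complex.I)
      rw [Complex.ofReal_add, add_mul, hadd])
    (fun x => hnorm _)
  refine ⟨⟨a, b⟩, fun z => ?_⟩
  have hz : z = (z.re : ℂ) + (z.im : ℂ) * Complex.I := (Complex.re_add_im z).symm
  have h1 : χ z = χ (z.re : ℂ) * χ ((z.im : ℂ) * Complex.I) := by
    conv_lhs => rw [hz]
    rw [hadd]
  rw [h1]
  have h2 : χ (z.re : ℂ) = Complex.exp (Complex.I * ((a * z.re : ℝ) : ℂ)) := ha z.re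
  have h3 : χ ((z.im : ℂ) * Complex.I) = Complex.exp (Complex.I * ((b * z.im : ℝ) : ℂ)) :=
    hb z.im
  rw [h2, h3, ← Complex.exp_add]
  congr 1
  have h4 : ((starRingEnd ℂ) (⟨a, b⟩ : ℂ) * z).re = a * z.re + b * z.im := by
    simp [Complex.mul_re]
  rw [h4]
  push_cast
  ring

end Fermat.Agent.LT.T2.H98

end

end
-- ===== PACK-END LT/T2/H98/CharAbs.lean

-- ===== PACK-BEGIN LT/T2/H708/GenSecondCore.lean
section


/-!
# Row LT, tower T2, leaf T2.10.08.10 `GenSecondC` (L4b) — core, Mathlib only (helper708)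

Blaschke--Privalov in dimension one: a continuous function `H : ℝ → ℂ` whose generalised second
derivative (mean value form)

  `lim_{d → 0+} ((2 d)⁻¹ ∫_{-d}^{d} H (s + t) dt - H s) / d ^ 2 = φ s / 6`

exists at every point and is a continuous function `φ` of `s`, is twice differentiable with
`H'' = φ`.

* `gsR`                : the real difference quotient;
* `gsR_quad708`        : the quotient of a quadratic polynomial `A + B x + C x ^ 2` is `C / 3`;
* `le_chord708`        : maximum principle: generalised second derivative `0` ⟹ below the chord;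
* `affine708`          : generalised second derivative `0` ⟹ affine;
* `primitive708`       : a double primitive of `ψ` has generalised second derivative `ψ`;
* `genSecond_real708`  : the real statement;
* `genSecond_core708`  : the complex statement, in the exact shape of `H973.GenSecondC`.
-/

set_option autoImplicit false

open MeasureTheory Filter Topology

noncomputable section

namespace Fermat.Agent.LT.T2.H708

/-- The real difference quotient of the generalised second derivative. -/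
def gsR (q : ℝ → ℝ) (s d : ℝ) : ℝ :=
  ((2 * d)⁻¹ * (∫ t in (-d)..d, q (s + t)) - q s) / d ^ 2

theorem shift_cont708 {E : Type*} [TopologicalSpace E] (q : ℝ → E) (hq : Continuous q) (s : ℝ) :
    Continuous (fun t : ℝ => q (s + t)) :=
  hq.comp (continuous_const.add continuous_id)

theorem gsR_add708 (q c : ℝ → ℝ) (hq : Continuous q) (hc : Continuous c) (s d : ℝ) :
    gsR (fun x => q x + c x) s d = gsR q s d + gsR c s d := by
  unfold gsR
  rw [intervalIntegral.integral_add ((shift_cont708 q hq s).intervalIntegrable _ _)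
    ((shift_cont708 c hc s).intervalIntegrable _ _)]
  ring

theorem gsR_neg708 (q : ℝ → ℝ) (s d : ℝ) : gsR (fun x => - q x) s d = - gsR q s d := by
  unfold gsR
  rw [intervalIntegral.integral_neg]
  ring

/-- The integral of a quadratic polynomial over a symmetric interval. -/
theorem integral_quad708 (A B C s d : ℝ) :
    ∫ t in (-d)..d, (A + B * (s + t) + C * (s + t) ^ 2)
      = 2 * d * (A + B * s + C * s ^ 2) + C * (2 * d ^ 3 / 3) := by
  have hder : ∀ t ∈ Set.uIcc (-d) d,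
      HasDerivAt (fun t : ℝ => (A + B * s + C * s ^ 2) * t + (B + 2 * C * s) * (t ^ 2 / 2)
          + C * (t ^ 3 / 3))
        (A + B * (s + t) + C * (s + t) ^ 2) t := by
    intro t _
    have h1 : HasDerivAt (fun t : ℝ => (A + B * s + C * s ^ 2) * t) (A + B * s + C * s ^ 2) t := by
      simpa using (hasDerivAt_id t).const_mul (A + B * s + C * s ^ 2)
    have h2 : HasDerivAt (fun t : ℝ => (B + 2 * C * s) * (t ^ 2 / 2)) ((B + 2 * C * s) * t) t := by
      have := ((hasDerivAt_pow 2 t).div_const 2).const_mul (B + 2 * C * s)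
      refine this.congr_deriv ?_
      norm_num
    have h3 : HasDerivAt (fun t : ℝ => C * (t ^ 3 / 3)) (C * t ^ 2) t := by
      have := ((hasDerivAt_pow 3 t).div_const 3).const_mul C
      refine this.congr_deriv ?_
      norm_num
    refine ((h1.add h2).add h3).congr_deriv ?_
    ring
  rw [intervalIntegral.integral_eq_sub_of_hasDerivAt hder]
  · ring
  · exact (by fun_prop : Continuous fun t : ℝ => A + B * (s + t) + C * (s + t) ^ 2).intervalIntegrable
      _ _

theorem integral_quad0_708 (A B C d : ℝ) :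
    ∫ t in (-d)..d, (A + B * t + C * t ^ 2) = 2 * d * A + C * (2 * d ^ 3 / 3) := by
  have := integral_quad708 A B C 0 d
  simpa using this

theorem gsR_quad708 (A B C s d : ℝ) (hd : d ≠ 0) :
    gsR (fun x => A + B * x + C * x ^ 2) s d = C / 3 := by
  unfold gsR
  rw [integral_quad708]
  field_simp
  ring

/-- **Maximum principle.**  A continuous real function whose generalised second derivative
vanishes identically lies below its chords. -/
theorem le_chord708 (q : ℝ → ℝ) (hq : Continuous q)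
    (h0 : ∀ s, Tendsto (gsR q s) (𝓝[>] 0) (𝓝 0)) (a b : ℝ) (hab : a < b) :
    ∀ x ∈ Set.Icc a b, q x ≤ q a + (q b - q a) / (b - a) * (x - a) := by
  have hba : 0 < b - a := sub_pos.2 hab
  set m : ℝ := (q b - q a) / (b - a) with hm
  have key : ∀ ε > 0, ∀ x ∈ Set.Icc a b,
      q x + ((-(q a) + m * a + ε * (a * b)) + (-m - ε * (a + b)) * x + ε * x ^ 2) ≤ 0 := by
    intro ε hε
    set c : ℝ → ℝ :=
      fun x => (-(q a) + m * a + ε * (a * b)) + (-m - ε * (a + b)) * x + ε * x ^ 2 with hc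
    have hcc : Continuous c := by rw [hc]; fun_prop
    set g : ℝ → ℝ := fun x => q x + c x with hg
    have hgc : Continuous g := hq.add hcc
    obtain ⟨x₀, hx₀, hmax⟩ :=
      isCompact_Icc.exists_isMaxOn (Set.nonempty_Icc.2 hab.le) hgc.continuousOn
    have hga : g a = 0 := by
      simp only [hg, hc]
      ring
    have hgb : g b = 0 := by
      have e : m * (b - a) = q b - q a := by
        rw [hm]
        field_simp
      simp only [hg, hc]
      linear_combination -e
    by_contra hcon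
    push Not at hcon
    obtain ⟨x₁, hx₁, hpos⟩ := hcon
    have hg0 : 0 < g x₀ := lt_of_lt_of_le hpos (hmax hx₁)
    have hxa : x₀ ≠ a := by
      rintro rfl
      rw [hga] at hg0
      exact lt_irrefl _ hg0
    have hxb : x₀ ≠ b := by
      rintro rfl
      rw [hgb] at hg0
      exact lt_irrefl _ hg0
    have hax : a < x₀ := lt_of_le_of_ne hx₀.1 (Ne.symm hxa)
    have hxb' : x₀ < b := lt_of_le_of_ne hx₀.2 hxb
    have hlim : Tendsto (gsR g x₀) (𝓝[>] 0) (𝓝 (ε / 3)) := by
      have h1 : ∀ᶠ d in 𝓝[>] (0 : ℝ), gsR q x₀ d + ε / 3 = gsR g x₀ d := by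
        filter_upwards [self_mem_nhdsWithin] with d hd
        have hd0 : d ≠ 0 := ne_of_gt hd
        rw [hg, gsR_add708 q c hq hcc, hc, gsR_quad708 _ _ _ _ _ hd0]
      have h2 : Tendsto (fun d => gsR q x₀ d + ε / 3) (𝓝[>] 0) (𝓝 (0 + ε / 3)) :=
        (h0 x₀).add tendsto_const_nhds
      rw [zero_add] at h2
      exact h2.congr' h1
    have hle : ∀ᶠ d in 𝓝[>] (0 : ℝ), gsR g x₀ d ≤ 0 := by
      have hmem : Set.Ioo 0 (min (x₀ - a) (b - x₀)) ∈ 𝓝[>] (0 : ℝ) :=
        Ioo_mem_nhdsGT (lt_min (sub_pos.2 hax) (sub_pos.2 hxb'))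
      filter_upwards [hmem] with d hd
      have hd0 : 0 < d := hd.1
      have hd1 : d < x₀ - a := lt_of_lt_of_le hd.2 (min_le_left _ _)
      have hd2 : d < b - x₀ := lt_of_lt_of_le hd.2 (min_le_right _ _)
      have hint : ∫ t in (-d)..d, g (x₀ + t) ≤ ∫ _t in (-d)..d, g x₀ := by
        apply intervalIntegral.integral_mono_on (by linarith)
        · exact (shift_cont708 g hgc x₀).intervalIntegrable _ _
        · exact (continuous_const).intervalIntegrable _ _
        · intro t ht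
          exact hmax ⟨by linarith [ht.1], by linarith [ht.2]⟩
      rw [intervalIntegral.integral_const] at hint
      unfold gsR
      apply div_nonpos_of_nonpos_of_nonneg _ (sq_nonneg d)
      have h3 : (2 * d)⁻¹ * ∫ t in (-d)..d, g (x₀ + t) ≤ (2 * d)⁻¹ * ((d - -d) • g x₀) :=
        mul_le_mul_of_nonneg_left hint (by positivity)
      have e : (2 * d)⁻¹ * ((d - -d) • g x₀) = g x₀ := by
        rw [smul_eq_mul]
        field_simp
        ring
      linarith
    have hfin := le_of_tendsto hlim hle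
    linarith
  intro x hx
  by_contra hcon
  push Not at hcon
  set η : ℝ := q x - (q a + m * (x - a)) with hη
  have hηpos : 0 < η := by
    rw [hη]
    linarith
  have hε : 0 < η / ((b - a) ^ 2 + 1) := by positivity
  have hk := key (η / ((b - a) ^ 2 + 1)) hε x hx
  have e : q x + ((-(q a) + m * a + η / ((b - a) ^ 2 + 1) * (a * b))
      + (-m - η / ((b - a) ^ 2 + 1) * (a + b)) * x + η / ((b - a) ^ 2 + 1) * x ^ 2)
      = η - η / ((b - a) ^ 2 + 1) * ((x - a) * (b - x)) := by
    rw [hη]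
    ring
  rw [e] at hk
  have h1 : (x - a) * (b - x) ≤ (b - a) ^ 2 := by nlinarith [hx.1, hx.2]
  have h2 : η / ((b - a) ^ 2 + 1) * ((x - a) * (b - x))
      ≤ η / ((b - a) ^ 2 + 1) * (b - a) ^ 2 :=
    mul_le_mul_of_nonneg_left h1 hε.le
  have h3 : η / ((b - a) ^ 2 + 1) * (b - a) ^ 2 < η := by
    rw [div_mul_eq_mul_div, div_lt_iff₀ (by positivity)]
    nlinarith
  linarith

theorem eq_chord708 (q : ℝ → ℝ) (hq : Continuous q)
    (h0 : ∀ s, Tendsto (gsR q s) (𝓝[>] 0) (𝓝 0)) (a b : ℝ) (hab : a < b) :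
    ∀ x ∈ Set.Icc a b, q x = q a + (q b - q a) / (b - a) * (x - a) := by
  intro x hx
  apply le_antisymm (le_chord708 q hq h0 a b hab x hx)
  have h0' : ∀ s, Tendsto (gsR (fun y => - q y) s) (𝓝[>] 0) (𝓝 0) := by
    intro s
    have := (h0 s).neg
    rw [neg_zero] at this
    exact this.congr' (Eventually.of_forall fun d => (gsR_neg708 q s d).symm)
  have hneg := le_chord708 (fun y => - q y) hq.neg h0' a b hab x hx
  have e : (- q b - - q a) / (b - a) = - ((q b - q a) / (b - a)) := by ring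
  rw [e] at hneg
  linarith

/-- A continuous real function whose generalised second derivative vanishes identically is
affine. -/
theorem affine708 (q : ℝ → ℝ) (hq : Continuous q)
    (h0 : ∀ s, Tendsto (gsR q s) (𝓝[>] 0) (𝓝 0)) :
    ∀ x, q x = q 0 + (q 1 - q 0) * x := by
  intro x
  have hab : min x 0 - 1 < max x 1 + 1 := by
    have h1 : min x 0 ≤ 0 := min_le_right _ _
    have h2 : (1 : ℝ) ≤ max x 1 := le_max_right _ _
    linarith
  have hx : x ∈ Set.Icc (min x 0 - 1) (max x 1 + 1) :=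
    ⟨by linarith [min_le_left x 0], by linarith [le_max_left x 1]⟩
  have hz : (0 : ℝ) ∈ Set.Icc (min x 0 - 1) (max x 1 + 1) :=
    ⟨by linarith [min_le_right x 0], by linarith [le_max_right x 1]⟩
  have ho : (1 : ℝ) ∈ Set.Icc (min x 0 - 1) (max x 1 + 1) :=
    ⟨by linarith [min_le_right x 0], by linarith [le_max_right x 1]⟩
  have ex := eq_chord708 q hq h0 _ _ hab x hx
  have e0 := eq_chord708 q hq h0 _ _ hab 0 hz
  have e1 := eq_chord708 q hq h0 _ _ hab 1 ho
  rw [ex, e0, e1]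
  ring

/-- A double primitive of a continuous function `ψ` has generalised second derivative `ψ`. -/
theorem primitive708 (ψ : ℝ → ℝ) (hψ : Continuous ψ) :
    ∃ P P1 : ℝ → ℝ, Continuous P ∧ (∀ s, HasDerivAt P (P1 s) s) ∧
      (∀ s, HasDerivAt P1 (ψ s) s) ∧ ∀ s, Tendsto (gsR P s) (𝓝[>] 0) (𝓝 (ψ s / 6)) := by
  set P1 : ℝ → ℝ := fun u => ∫ x in (0 : ℝ)..u, ψ x with hP1
  have hP1d : ∀ s, HasDerivAt P1 (ψ s) s := fun s =>
    (hψ.integral_hasStrictDerivAt 0 s).hasDerivAt
  have hP1c : Continuous P1 := continuous_iff_continuousAt.2 fun s => (hP1d s).continuousAt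
  set P : ℝ → ℝ := fun s => ∫ u in (0 : ℝ)..s, P1 u with hP
  have hPd : ∀ s, HasDerivAt P (P1 s) s := fun s =>
    (hP1c.integral_hasStrictDerivAt 0 s).hasDerivAt
  have hPc : Continuous P := continuous_iff_continuousAt.2 fun s => (hPd s).continuousAt
  refine ⟨P, P1, hPc, hPd, hP1d, fun s => ?_⟩
  rw [Metric.tendsto_nhdsWithin_nhds]
  intro ε hε
  obtain ⟨δ, hδ, hδψ⟩ := Metric.continuous_iff.1 hψ s (ε / 2) (by positivity)
  refine ⟨δ, hδ, fun d hd hdδ => ?_⟩
  have hd0 : 0 < d := hd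
  have hdδ' : d < δ := by
    rw [Real.dist_eq, sub_zero, abs_of_pos hd0] at hdδ
    exact hdδ
  set G1 : ℝ → ℝ := fun t => P1 (s + t) - (P1 s + ψ s * t) with hG1
  set G : ℝ → ℝ := fun t => P (s + t) - (P s + P1 s * t + ψ s / 2 * t ^ 2) with hG
  have hG1d : ∀ t, HasDerivAt G1 (ψ (s + t) - ψ s) t := by
    intro t
    have h1 : HasDerivAt (fun t => P1 (s + t)) (ψ (s + t)) t :=
      HasDerivAt.comp_const_add s t (hP1d (s + t))
    have h2 : HasDerivAt (fun t : ℝ => P1 s + ψ s * t) (ψ s) t := by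
      simpa using ((hasDerivAt_id t).const_mul (ψ s)).const_add (P1 s)
    exact h1.sub h2
  have hGd : ∀ t, HasDerivAt G (G1 t) t := by
    intro t
    have h1 : HasDerivAt (fun t => P (s + t)) (P1 (s + t)) t :=
      HasDerivAt.comp_const_add s t (hPd (s + t))
    have h2 : HasDerivAt (fun t : ℝ => P s + P1 s * t + ψ s / 2 * t ^ 2) (P1 s + ψ s * t) t := by
      have h3 : HasDerivAt (fun t : ℝ => P s + P1 s * t) (P1 s) t := by
        simpa using ((hasDerivAt_id t).const_mul (P1 s)).const_add (P s)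
      have h4 : HasDerivAt (fun t : ℝ => ψ s / 2 * t ^ 2) (ψ s * t) t := by
        have := (hasDerivAt_pow 2 t).const_mul (ψ s / 2)
        refine this.congr_deriv ?_
        norm_num
        ring
      exact h3.add h4
    exact h1.sub h2
  have hbψ : ∀ x ∈ Set.Icc (-d) d, ‖ψ (s + x) - ψ s‖ ≤ ε / 2 := by
    intro x hx
    have hdist : dist (s + x) s < δ := by
      rw [Real.dist_eq]
      have : s + x - s = x := by ring
      rw [this]
      exact lt_of_le_of_lt (abs_le.2 ⟨hx.1, hx.2⟩) hdδ'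
    have := hδψ (s + x) hdist
    rw [Real.dist_eq] at this
    exact le_of_lt this
  have hzero : (0 : ℝ) ∈ Set.Icc (-d) d := ⟨by linarith, hd0.le⟩
  have hG10 : G1 0 = 0 := by
    simp only [hG1]
    simp
  have hG0 : G 0 = 0 := by
    simp only [hG]
    simp
  have hG1b : ∀ t ∈ Set.Icc (-d) d, ‖G1 t‖ ≤ ε / 2 * d := by
    intro t ht
    have h := Convex.norm_image_sub_le_of_norm_hasDerivWithin_le (f := G1)
      (f' := fun t => ψ (s + t) - ψ s) (s := Set.Icc (-d) d) (x := 0) (y := t) (C := ε / 2)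
      (fun x _ => (hG1d x).hasDerivWithinAt) hbψ (convex_Icc _ _) hzero ht
    rw [hG10, sub_zero, sub_zero] at h
    have ht' : ‖t‖ ≤ d := by
      rw [Real.norm_eq_abs]
      exact abs_le.2 ⟨ht.1, ht.2⟩
    calc ‖G1 t‖ ≤ ε / 2 * ‖t‖ := h
      _ ≤ ε / 2 * d := mul_le_mul_of_nonneg_left ht' (by positivity)
  have hGb : ∀ t ∈ Set.Icc (-d) d, ‖G t‖ ≤ ε / 2 * d * d := by
    intro t ht
    have h := Convex.norm_image_sub_le_of_norm_hasDerivWithin_le (f := G)
      (f' := G1) (s := Set.Icc (-d) d) (x := 0) (y := t) (C := ε / 2 * d)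
      (fun x _ => (hGd x).hasDerivWithinAt) hG1b (convex_Icc _ _) hzero ht
    rw [hG0, sub_zero, sub_zero] at h
    have ht' : ‖t‖ ≤ d := by
      rw [Real.norm_eq_abs]
      exact abs_le.2 ⟨ht.1, ht.2⟩
    calc ‖G t‖ ≤ ε / 2 * d * ‖t‖ := h
      _ ≤ ε / 2 * d * d := mul_le_mul_of_nonneg_left ht' (by positivity)
  have hGint : ‖∫ t in (-d)..d, G t‖ ≤ ε / 2 * d * d * |d - -d| := by
    apply intervalIntegral.norm_integral_le_of_norm_le_const
    intro t ht
    rw [Set.uIoc_of_le (by linarith : -d ≤ d)] at ht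
    exact hGb t ⟨ht.1.le, ht.2⟩
  have habs : |d - -d| = 2 * d := by
    rw [abs_of_pos (by linarith)]
    ring
  rw [habs] at hGint
  have hGc : Continuous G := continuous_iff_continuousAt.2 fun t => (hGd t).continuousAt
  have hsplit : ∫ t in (-d)..d, G t
      = (∫ t in (-d)..d, P (s + t)) - (2 * d * P s + ψ s / 2 * (2 * d ^ 3 / 3)) := by
    simp only [hG]
    rw [intervalIntegral.integral_sub ((shift_cont708 P hPc s).intervalIntegrable _ _)
      ((by fun_prop : Continuous fun t : ℝ => P s + P1 s * t + ψ s / 2 * t ^ 2).intervalIntegrable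
        _ _), integral_quad0_708]
  have hrel : gsR P s d - ψ s / 6 = (2 * d)⁻¹ * (∫ t in (-d)..d, G t) / d ^ 2 := by
    rw [hsplit]
    unfold gsR
    field_simp
    ring
  rw [Real.dist_eq, hrel, abs_div, abs_mul, abs_of_pos (by positivity : (0 : ℝ) < d ^ 2),
    abs_of_pos (by positivity : (0 : ℝ) < (2 * d)⁻¹), div_lt_iff₀ (by positivity)]
  rw [Real.norm_eq_abs] at hGint
  calc (2 * d)⁻¹ * |∫ t in (-d)..d, G t| ≤ (2 * d)⁻¹ * (ε / 2 * d * d * (2 * d)) :=
        mul_le_mul_of_nonneg_left hGint (by positivity)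
    _ = ε / 2 * d ^ 2 := by
        field_simp
    _ < ε * d ^ 2 := by
        have : (0 : ℝ) < d ^ 2 := by positivity
        nlinarith

/-- **Blaschke--Privalov in dimension one, real form.** -/
theorem genSecond_real708 (h ψ : ℝ → ℝ) (hh : Continuous h) (hψ : Continuous ψ)
    (hgs : ∀ s, Tendsto (gsR h s) (𝓝[>] 0) (𝓝 (ψ s / 6))) :
    ∃ h' : ℝ → ℝ, (∀ s, HasDerivAt h (h' s) s) ∧ ∀ s, HasDerivAt h' (ψ s) s := by
  obtain ⟨P, P1, hPc, hPd, hP1d, hPgs⟩ := primitive708 ψ hψ
  set q : ℝ → ℝ := fun x => h x + (- P x) with hq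
  have hqc : Continuous q := hh.add hPc.neg
  have hq0 : ∀ s, Tendsto (gsR q s) (𝓝[>] 0) (𝓝 0) := by
    intro s
    have := (hgs s).add ((hPgs s).neg)
    rw [add_neg_cancel] at this
    refine this.congr' (Eventually.of_forall fun d => ?_)
    rw [hq, gsR_add708 h (fun x => - P x) hh hPc.neg, gsR_neg708]
  have haff := affine708 q hqc hq0
  have e : ∀ x, P x + (q 0 + (q 1 - q 0) * x) = h x := by
    intro x
    have := haff x
    simp only [hq] at this ⊢
    linarith
  refine ⟨fun s => P1 s + (q 1 - q 0), fun s => ?_, fun s => ?_⟩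
  · have h1 : HasDerivAt (fun x : ℝ => q 0 + (q 1 - q 0) * x) (q 1 - q 0) s := by
      simpa using ((hasDerivAt_id s).const_mul (q 1 - q 0)).const_add (q 0)
    exact ((hPd s).add h1).congr_of_eventuallyEq (Eventually.of_forall fun x => (e x).symm)
  · exact (hP1d s).add_const (q 1 - q 0)

theorem integral_re708 (H : ℝ → ℂ) (hH : Continuous H) (a b : ℝ) :
    (∫ t in a..b, H t).re = ∫ t in a..b, (H t).re := by
  have := Complex.reCLM.intervalIntegral_comp_comm (hH.intervalIntegrable (μ := volume) a b)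
  simpa using this.symm

theorem integral_im708 (H : ℝ → ℂ) (hH : Continuous H) (a b : ℝ) :
    (∫ t in a..b, H t).im = ∫ t in a..b, (H t).im := by
  have := Complex.imCLM.intervalIntegral_comp_comm (hH.intervalIntegrable (μ := volume) a b)
  simpa using this.symm

theorem gsC_re708 (H : ℝ → ℂ) (hH : Continuous H) (s d : ℝ) :
    ((((2 * d : ℝ) : ℂ)⁻¹ * (∫ t in (-d)..d, H (s + t)) - H s) / ((d ^ 2 : ℝ) : ℂ)).re
      = gsR (fun x => (H x).re) s d := by
  unfold gsR
  rw [Complex.div_ofReal_re, Complex.sub_re, ← Complex.ofReal_inv, Complex.re_ofReal_mul,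
    integral_re708 _ (shift_cont708 H hH s)]

theorem gsC_im708 (H : ℝ → ℂ) (hH : Continuous H) (s d : ℝ) :
    ((((2 * d : ℝ) : ℂ)⁻¹ * (∫ t in (-d)..d, H (s + t)) - H s) / ((d ^ 2 : ℝ) : ℂ)).im
      = gsR (fun x => (H x).im) s d := by
  unfold gsR
  rw [Complex.div_ofReal_im, Complex.sub_im, ← Complex.ofReal_inv, Complex.im_ofReal_mul,
    integral_im708 _ (shift_cont708 H hH s)]

/-- **Blaschke--Privalov in dimension one** (complex values), in the shape of the leaf
`H973.GenSecondC` with `H973.HasGenSecond` unfolded. -/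
theorem genSecond_core708 (H φ : ℝ → ℂ) (hH : Continuous H) (hφ : Continuous φ)
    (hgs : ∀ s : ℝ, Tendsto
      (fun d : ℝ =>
        (((2 * d : ℝ) : ℂ)⁻¹ * (∫ t in (-d)..d, H (s + t)) - H s) / ((d ^ 2 : ℝ) : ℂ))
      (nhdsWithin 0 (Set.Ioi 0)) (nhds (φ s / 6))) :
    ∃ H' : ℝ → ℂ, (∀ s : ℝ, HasDerivAt H (H' s) s) ∧ ∀ s : ℝ, HasDerivAt H' (φ s) s := by
  have e6r : ∀ s, (φ s / 6).re = (φ s).re / 6 := by
    intro s
    have : (6 : ℂ) = ((6 : ℝ) : ℂ) := by norm_num
    rw [this, Complex.div_ofReal_re]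
  have e6i : ∀ s, (φ s / 6).im = (φ s).im / 6 := by
    intro s
    have : (6 : ℂ) = ((6 : ℝ) : ℂ) := by norm_num
    rw [this, Complex.div_ofReal_im]
  have hre : ∀ s, Tendsto (gsR (fun x => (H x).re) s) (𝓝[>] 0) (𝓝 ((φ s).re / 6)) := by
    intro s
    have := (Complex.continuous_re.tendsto _).comp (hgs s)
    rw [e6r] at this
    exact this.congr' (Eventually.of_forall fun d => gsC_re708 H hH s d)
  have him : ∀ s, Tendsto (gsR (fun x => (H x).im) s) (𝓝[>] 0) (𝓝 ((φ s).im / 6)) := by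
    intro s
    have := (Complex.continuous_im.tendsto _).comp (hgs s)
    rw [e6i] at this
    exact this.congr' (Eventually.of_forall fun d => gsC_im708 H hH s d)
  obtain ⟨u', hu, hu'⟩ := genSecond_real708 _ _ (Complex.continuous_re.comp hH)
    (Complex.continuous_re.comp hφ) hre
  obtain ⟨v', hv, hv'⟩ := genSecond_real708 _ _ (Complex.continuous_im.comp hH)
    (Complex.continuous_im.comp hφ) him
  refine ⟨fun s => (u' s : ℂ) + (v' s : ℂ) * Complex.I, fun s => ?_, fun s => ?_⟩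
  · have := (hu s).ofReal_comp.add ((hv s).ofReal_comp.mul_const Complex.I)
    exact this.congr_of_eventuallyEq
      (Eventually.of_forall fun x => (Complex.re_add_im (H x)).symm)
  · have := (hu' s).ofReal_comp.add ((hv' s).ofReal_comp.mul_const Complex.I)
    exact this.congr_deriv (Complex.re_add_im (φ s))

end Fermat.Agent.LT.T2.H708

end

end
-- ===== PACK-END LT/T2/H708/GenSecondCore.lean

-- ===== PACK-BEGIN LT/T3/H57/Annih.lean
section


/-!
# Row LT, tower T3 (volunteer helper57): the annihilator lemma, abstract form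

OFF-MAIN.  Mathlib only, no definitions.

`annihilator_eq_range57`: let `A` be a commutative topological ring, `K` an infinite field with a
ring homomorphism `ι : K →+* A` which is COCOMPACT (`A = C + ι K` for a compact `C`), and
`ψ : A → ℂ` a continuous unitary additive character which is trivial on `ι K` and NON-DEGENERATE
(`ψ (x * A) = 1 → x = 0`).  Then the annihilator of `ι K` for the pairing `(x, y) ↦ ψ (x * y)`
is `ι K` itself:  `(∀ ξ, ψ (ι ξ * x) = 1) → x ∈ range ι`.

This is Tate's Theorem 4.1.4 (`K^⊥ = K` in the adeles) without any duality theory and without the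
local theory: the annihilator is discrete by the tube lemma (a character of `A / K` which is
uniformly close to `1` on `C` is trivial), it meets `C` in a finite set, and it is a `K`-vector
space, hence `⊆ K` because `K` is infinite.  By-product: `ι K` is discrete
(`discrete_annihilator57`).
-/

set_option autoImplicit false
set_option linter.unusedSectionVars false

namespace Fermat.Agent.LT.T3.H57

open Topology Filter Set

/-- A complex number of norm one whose real part is `≤ 1/2` is at distance `≥ 1` from `1`. -/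
theorem half_lt_re_of_norm_sub_one_lt57 (w : ℂ) (hw : ‖w‖ = 1) (h : ‖w - 1‖ < 1) :
    1 / 2 < w.re := by
  have h1 : ‖w‖ ^ 2 = w.re ^ 2 + w.im ^ 2 := by
    rw [Complex.sq_norm, Complex.normSq_apply]; ring
  have h2 : ‖w - 1‖ ^ 2 = (w.re - 1) ^ 2 + w.im ^ 2 := by
    rw [Complex.sq_norm, Complex.normSq_apply]; simp; ring
  have h3 : ‖w - 1‖ ^ 2 < 1 := by
    have := norm_nonneg (w - 1)
    nlinarith
  rw [hw] at h1
  nlinarith

/-- A complex number of norm one all of whose powers are at distance `< 1` from `1` is `1`. -/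
theorem eq_one_of_forall_pow_near57 (z : ℂ) (hz : ‖z‖ = 1) (h : ∀ n : ℕ, ‖z ^ n - 1‖ < 1) :
    z = 1 := by
  by_contra hne
  have hpos : 0 < ‖z - 1‖ := norm_pos_iff.mpr (sub_ne_zero.mpr hne)
  have hre : ∀ k : ℕ, 1 / 2 < (z ^ k).re := fun k =>
    half_lt_re_of_norm_sub_one_lt57 (z ^ k) (by rw [norm_pow, hz, one_pow]) (h k)
  have hsum : ∀ n : ℕ, (n : ℝ) / 2 ≤ ‖∑ k ∈ Finset.range n, z ^ k‖ := by
    intro n
    have h1 : (n : ℝ) / 2 ≤ (∑ k ∈ Finset.range n, z ^ k).re := by
      rw [Complex.re_sum]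
      have : ∑ _k ∈ Finset.range n, (1 / 2 : ℝ) ≤ ∑ k ∈ Finset.range n, (z ^ k).re :=
        Finset.sum_le_sum fun k _ => (hre k).le
      simpa [div_eq_mul_inv] using this
    exact h1.trans (Complex.re_le_norm _)
  obtain ⟨n, hn⟩ := exists_nat_gt (2 / ‖z - 1‖)
  have h2 : ‖z - 1‖ * ‖∑ k ∈ Finset.range n, z ^ k‖ < 1 := by
    rw [← norm_mul, mul_comm, geom_sum_mul]
    exact h n
  have h3 : ‖z - 1‖ * ((n : ℝ) / 2) < 1 :=
    lt_of_le_of_lt (mul_le_mul_of_nonneg_left (hsum n) hpos.le) h2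
  have h4 : 2 < (n : ℝ) * ‖z - 1‖ := by
    rwa [div_lt_iff₀ hpos] at hn
  nlinarith

section

variable {A : Type*} [CommRing A] [TopologicalSpace A] [IsTopologicalRing A]
  {K : Type*} [Field K] (ι : K →+* A)
  (ψ : A → ℂ)

/-- The annihilator of `ι K` is discrete: there is a neighbourhood of `0` which meets it only in
`0`.  No discreteness of `ι K` is assumed. -/
theorem discrete_annihilator57
    (hcc : ∃ C : Set A, IsCompact C ∧ ∀ x : A, ∃ ξ : K, x - ι ξ ∈ C)
    (hψc : Continuous ψ) (hψadd : ∀ x y, ψ (x + y) = ψ x * ψ y) (hψn : ∀ x, ‖ψ x‖ = 1)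
    (hnd : ∀ x : A, (∀ y : A, ψ (x * y) = 1) → x = 0) :
    ∃ U : Set A, IsOpen U ∧ (0 : A) ∈ U ∧
      ∀ x ∈ U, (∀ ξ : K, ψ (ι ξ * x) = 1) → x = 0 := by
  obtain ⟨C, hC, hCK⟩ := hcc
  have hψ0 : ψ 0 = 1 := by
    have h := hψadd 0 0
    rw [add_zero] at h
    have hne : ψ 0 ≠ 0 := by
      intro h0
      have := hψn 0
      rw [h0, norm_zero] at this
      exact zero_ne_one this
    exact (mul_eq_left₀ hne).mp h.symm
  have hψpow : ∀ (n : ℕ) (y : A), ψ (n • y) = ψ y ^ n := by
    intro n y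
    induction n with
    | zero => simp [hψ0]
    | succ n ih => rw [succ_nsmul, hψadd, ih, pow_succ]
  let W : Set (A × A) := {p | ‖ψ (p.1 * p.2) - 1‖ < 1}
  have hW : IsOpen W := by
    have hc : Continuous fun p : A × A => ‖ψ (p.1 * p.2) - 1‖ :=
      ((hψc.comp (continuous_fst.mul continuous_snd)).sub continuous_const).norm
    exact isOpen_lt hc continuous_const
  have hsub : ({0} : Set A) ×ˢ C ⊆ W := by
    rintro ⟨a, c⟩ ⟨ha, -⟩
    rw [mem_singleton_iff] at ha
    subst ha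
    show ‖ψ (0 * c) - 1‖ < 1
    simp [hψ0]
  obtain ⟨U, V, hU, -, h0U, hCV, hUV⟩ := generalized_tube_lemma isCompact_singleton hC hW hsub
  refine ⟨U, hU, h0U (mem_singleton 0), fun x hxU hx => hnd x fun y => ?_⟩
  have hnear : ∀ y : A, ‖ψ (x * y) - 1‖ < 1 := by
    intro y
    obtain ⟨ξ, hξ⟩ := hCK y
    have h1 : ψ (x * y) = ψ (x * (y - ι ξ)) := by
      have : x * y = x * (y - ι ξ) + ι ξ * x := by ring
      rw [this, hψadd, hx ξ, mul_one]
    rw [h1]
    exact hUV (mk_mem_prod hxU (hCV hξ))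
  refine eq_one_of_forall_pow_near57 _ (hψn _) fun n => ?_
  rw [← hψpow, nsmul_eq_mul]
  have : (n : A) * (x * y) = x * ((n : A) * y) := by ring
  rw [this]
  exact hnear _

/-- **Annihilator lemma** (`K^⊥ = K`), abstract form. -/
theorem annihilator_eq_range57 [Infinite K]
    (hcc : ∃ C : Set A, IsCompact C ∧ ∀ x : A, ∃ ξ : K, x - ι ξ ∈ C)
    (hψc : Continuous ψ) (hψadd : ∀ x y, ψ (x + y) = ψ x * ψ y) (hψn : ∀ x, ‖ψ x‖ = 1)
    (hψK : ∀ ξ : K, ψ (ι ξ) = 1)
    (hnd : ∀ x : A, (∀ y : A, ψ (x * y) = 1) → x = 0)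
    (x : A) (hx : ∀ ξ : K, ψ (ι ξ * x) = 1) : ∃ ξ : K, x = ι ξ := by
  obtain ⟨U, hU, h0U, hUΛ⟩ := discrete_annihilator57 ι ψ hcc hψc hψadd hψn hnd
  obtain ⟨C, hC, hCK⟩ := hcc
  -- a symmetric smaller neighbourhood
  have hsubc : Continuous fun p : A × A => p.1 - p.2 := continuous_fst.sub continuous_snd
  have hpre : IsOpen ((fun p : A × A => p.1 - p.2) ⁻¹' U) := hU.preimage hsubc
  have h00 : ((0 : A), (0 : A)) ∈ (fun p : A × A => p.1 - p.2) ⁻¹' U := by
    simpa using h0U
  obtain ⟨V₁, V₂, hV₁, hV₂, h0V₁, h0V₂, hVU⟩ := isOpen_prod_iff.mp hpre 0 0 h00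
  let V : Set A := V₁ ∩ V₂
  have hV : IsOpen V := hV₁.inter hV₂
  have h0V : (0 : A) ∈ V := ⟨h0V₁, h0V₂⟩
  have hVV : ∀ a ∈ V, ∀ b ∈ V, a - b ∈ U := fun a ha b hb =>
    hVU (mk_mem_prod ha.1 hb.2)
  -- the annihilator
  let Λ : Set A := {y | ∀ ξ : K, ψ (ι ξ * y) = 1}
  have hΛsub : ∀ a ∈ Λ, ∀ b ∈ Λ, a - b ∈ Λ := by
    intro a ha b hb ξ
    have h1 : ι ξ * a = ι ξ * (a - b) + ι ξ * b := by ring
    have h2 := hψadd (ι ξ * (a - b)) (ι ξ * b)
    rw [← h1, ha ξ, hb ξ, mul_one] at h2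
    exact h2.symm
  have hΛK : ∀ η : K, ι η ∈ Λ := fun η ξ => by rw [← map_mul]; exact hψK _
  have hΛmul : ∀ η : K, ∀ a ∈ Λ, ι η * a ∈ Λ := by
    intro η a ha ξ
    rw [← mul_assoc, ← map_mul]
    exact ha _
  -- `Λ ∩ C` is finite
  have hfin : (Λ ∩ C).Finite := by
    have hcov : C ⊆ ⋃ c : A, (fun a => a - c) ⁻¹' V := fun c _ =>
      mem_iUnion.mpr ⟨c, by simpa using h0V⟩
    obtain ⟨t, ht⟩ := hC.elim_finite_subcover (fun c : A => (fun a => a - c) ⁻¹' V)
      (fun c => hV.preimage (continuous_id.sub continuous_const)) hcov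
    have hsubs : Λ ∩ C ⊆ ⋃ c ∈ t, (Λ ∩ (fun a => a - c) ⁻¹' V) := by
      rintro a ⟨haΛ, haC⟩
      obtain ⟨c, hct, hac⟩ := mem_iUnion₂.mp (ht haC)
      exact mem_iUnion₂.mpr ⟨c, hct, haΛ, hac⟩
    refine (Set.Finite.biUnion t.finite_toSet fun c _ => ?_).subset hsubs
    refine Set.Subsingleton.finite ?_
    rintro a ⟨haΛ, haV⟩ b ⟨hbΛ, hbV⟩
    have h1 : a - b ∈ U := by
      have := hVV (a - c) haV (b - c) hbV
      simpa using this
    exact sub_eq_zero.mp (hUΛ (a - b) h1 (hΛsub a haΛ b hbΛ))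
  -- pigeonhole
  have hxΛ : x ∈ Λ := hx
  choose η hη using fun ξ : K => hCK (ι ξ * x)
  let F : K → A := fun ξ => ι ξ * x - ι (η ξ)
  have hF : ∀ ξ, F ξ ∈ Λ ∩ C := fun ξ =>
    ⟨hΛsub _ (hΛmul ξ x hxΛ) _ (hΛK _), hη ξ⟩
  obtain ⟨ξ, -, ξ', -, hne, heq⟩ :=
    Set.infinite_univ.exists_ne_map_eq_of_mapsTo (fun ξ _ => hF ξ) hfin
  have hd : ξ - ξ' ≠ 0 := sub_ne_zero.mpr hne
  refine ⟨(ξ - ξ')⁻¹ * (η ξ - η ξ'), ?_⟩
  have h1 : ι (ξ - ξ') * x = ι (η ξ - η ξ') := by
    have : ι ξ * x - ι (η ξ) = ι ξ' * x - ι (η ξ') := heq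
    rw [map_sub, map_sub, sub_mul]
    linear_combination this
  rw [map_mul, ← h1, ← mul_assoc, ← map_mul, inv_mul_cancel₀ hd, map_one, one_mul]

end

end Fermat.Agent.LT.T3.H57

end
-- ===== PACK-END LT/T3/H57/Annih.lean

-- ===== PACK-BEGIN LT/T3/H614/AbelCalc.lean
section


/-!
# Row LT, tower T3, sub-leaf T3.17 (helper614): the Abel transform on `ℍ³` and its inverse

OFF-MAIN.  Mathlib only.  Complete proofs, nothing assumed.

`ℍ³ = GL₂(ℂ) / ℂˣ U(2)`.  A bi-`U(2)`-invariant function on `GL₂(ℂ)` which is invariant under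
the centre is a function of `chD614 g = ‖g‖²_HS / (2 |det g|) = cosh d(o, g o)`.

* `integral_complex_affine_sq614` : `∫_ℂ ρ(A + B |x|²) dx = (π / B) ∫_A^∞ ρ(c) dc`;
* `IsEvenTest614 E R` : `E` is `C²`, even, supported in `[-R, R]`;
* `abelInv614 E` : the inverse Abel transform `ρ(cosh r) = - E'(r) / (2π sinh r)`,
  `ρ(1) = - E''(0) / (2π)` (Helgason, *Groups and Geometric Analysis*, Ch. IV; Lindenstrauss--
  Venkatesh, GAFA 17 (2007), §4), as a function of `c = cosh r`;
* `IsEvenTest614.continuous_abelInv`, `IsEvenTest614.abelInv_eq_zero` (support);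
* `IsEvenTest614.abel_transform` : `2π ∫_{cosh u}^∞ ρ(c) dc = E(u)`;
* `IsEvenTest614.spherical_zero` : `4π ∫_0^∞ ρ(cosh r) (r / sinh r) sinh² r dr = ∫_ℝ E`;
* `chD614` and its invariance under `U(2)` (both sides) and the centre, `1 ≤ chD614`;
* `chD614_upper` : the value on `n(x) diag(t₁, t₂)`;
* `IsEvenTest614.abel_unipotent` : `∫_ℂ ρ(chD614 (n(x) diag(t₁,t₂))) dx = |t₁/t₂| E(log |t₁/t₂|)`,
  i.e. the Satake transform `δ^{-1/2}(t) ∫_N f(n t) dn` of `f = ρ ∘ chD614` is `E`
  (`δ(t) = |t₁/t₂|²` is the module of `ℂ`).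
-/

set_option autoImplicit false

open MeasureTheory Set Real Filter Topology
open scoped Matrix ComplexConjugate

namespace Fermat.Agent.LT.T3.H614

theorem integral_complex_radial614 {E : Type*} [NormedAddCommGroup E] [NormedSpace ℝ E]
    (g : ℝ → E) :
    ∫ x : ℂ, g ‖x‖ = (2 * π) • ∫ r in Ioi (0 : ℝ), r • g r := by
  rw [← Complex.integral_comp_polarCoord_symm]
  have h1 : ∀ p ∈ polarCoord.target, p.1 • g ‖Complex.polarCoord.symm p‖ = p.1 • g p.1 := by
    intro p hp
    rw [Complex.norm_polarCoord_symm, abs_of_pos]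
    rw [polarCoord_target] at hp
    exact hp.1
  rw [setIntegral_congr_fun polarCoord.open_target.measurableSet h1]
  rw [polarCoord_target]
  have h2 : (volume : Measure (ℝ × ℝ)).restrict (Ioi 0 ×ˢ Ioo (-π) π)
      = ((volume : Measure ℝ).restrict (Ioi 0)).prod ((volume : Measure ℝ).restrict (Ioo (-π) π)) := by
    rw [Measure.prod_restrict]; rfl
  rw [h2, integral_fun_fst (fun r => r • g r)]
  congr 1
  simp only [Measure.real, Measure.restrict_apply MeasurableSet.univ, univ_inter, Real.volume_Ioo]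
  rw [ENNReal.toReal_ofReal (by linarith [Real.pi_pos])]
  ring

theorem integral_Ioi_comp_add614 {E : Type*} [NormedAddCommGroup E] [NormedSpace ℝ E]
    (g : ℝ → E) (A a : ℝ) :
    ∫ y in Ioi a, g (A + y) = ∫ c in Ioi (A + a), g c := by
  have h : MeasurableEmbedding (fun y : ℝ => A + y) := (Homeomorph.addLeft A).measurableEmbedding
  have hmp : MeasurePreserving (fun y : ℝ => A + y) volume volume :=
    measurePreserving_add_left volume A
  have := hmp.setIntegral_preimage_emb h g (Ioi (A + a))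
  rw [← this]
  congr 1
  ext y
  simp

/-- `∫_ℂ ρ(A + B |x|²) dx = (π / B) ∫_A^∞ ρ(c) dc` for `B > 0` (no integrability hypothesis). -/
theorem integral_complex_affine_sq614 {E : Type*} [NormedAddCommGroup E] [NormedSpace ℝ E]
    (ρ : ℝ → E) (A : ℝ) {B : ℝ} (hB : 0 < B) :
    ∫ x : ℂ, ρ (A + B * ‖x‖ ^ 2) = (π / B) • ∫ c in Ioi A, ρ c := by
  rw [integral_complex_radial614 (fun r => ρ (A + B * r ^ 2))]
  have h2 := integral_comp_rpow_Ioi_of_pos (g := fun y => ρ (A + B * y)) (p := 2) (by norm_num)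
  have h2' : ∫ x in Ioi (0 : ℝ), (2 : ℝ) • (x • ρ (A + B * x ^ 2)) = ∫ y in Ioi (0 : ℝ), ρ (A + B * y) := by
    rw [← h2]
    refine setIntegral_congr_fun measurableSet_Ioi (fun x hx => ?_)
    have hx0 : (0 : ℝ) < x := hx
    rw [smul_smul]
    have e1 : x ^ ((2 : ℝ) - 1) = x := by
      have : ((2 : ℝ) - 1) = 1 := by norm_num
      rw [this, Real.rpow_one]
    have e2 : x ^ (2 : ℝ) = x ^ 2 := by
      rw [← Real.rpow_natCast]; norm_num
    rw [e1, e2]
  rw [integral_smul] at h2'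
  have h3 := integral_comp_mul_left_Ioi (fun y => ρ (A + y)) 0 hB
  simp only [mul_zero] at h3
  have h4 := integral_Ioi_comp_add614 ρ A 0
  simp only [add_zero] at h4
  have h5 : ∫ r in Ioi (0 : ℝ), r • ρ (A + B * r ^ 2) = (2 : ℝ)⁻¹ • (B⁻¹ • ∫ c in Ioi A, ρ c) := by
    rw [← h4, ← h3, ← h2', smul_smul]
    norm_num
  rw [h5, smul_smul, smul_smul]
  congr 1
  field_simp

/-- An even `C²` test function on the line, supported in `[-R, R]`. -/
structure IsEvenTest614 (E : ℝ → ℂ) (R : ℝ) : Prop where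
  smooth : ContDiff ℝ 2 E
  even : ∀ u, E (-u) = E u
  supp : ∀ u, R ≤ |u| → E u = 0

/-- The inverse Abel transform on `ℍ³`, as a function of `c = cosh r`:
`ρ(cosh r) = - E'(r) / (2π sinh r)`, `ρ(1) = - E''(0) / (2π)`. -/
noncomputable def abelInv614 (E : ℝ → ℂ) (c : ℝ) : ℂ :=
  if c ≤ 1 then (-(2 * π)⁻¹ : ℝ) • deriv (deriv E) 0
  else (-(2 * π * √(c ^ 2 - 1))⁻¹ : ℝ) • deriv E (arcosh c)

variable {E : ℝ → ℂ} {R : ℝ}

theorem IsEvenTest614.differentiable (h : IsEvenTest614 E R) : Differentiable ℝ E :=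
  h.smooth.differentiable (by norm_num)

theorem IsEvenTest614.contDiff_deriv (h : IsEvenTest614 E R) : ContDiff ℝ 1 (deriv E) := by
  have := h.smooth
  have h2 : ((1 : ℕ∞) + 1 : WithTop ℕ∞) = 2 := by norm_num
  rw [← h2] at this
  exact (contDiff_succ_iff_deriv.1 this).2.2

theorem IsEvenTest614.continuous_deriv (h : IsEvenTest614 E R) : Continuous (deriv E) :=
  h.contDiff_deriv.continuous

theorem IsEvenTest614.differentiable_deriv (h : IsEvenTest614 E R) :
    Differentiable ℝ (deriv E) :=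
  h.contDiff_deriv.differentiable (by norm_num)

theorem IsEvenTest614.deriv_zero (h : IsEvenTest614 E R) : deriv E 0 = 0 := by
  have h1 : (fun u => E (-u)) = E := funext h.even
  have h2 : deriv (fun u => E (-u)) 0 = -deriv E (-0) := deriv_comp_neg E 0
  rw [h1, neg_zero] at h2
  have h3 : (2 : ℂ) * deriv E 0 = 0 := by
    have : deriv E 0 + deriv E 0 = 0 := by
      nth_rewrite 1 [h2]; simp
    rw [two_mul]; exact this
  simpa using h3

/-- `E'(r) / sinh r → E''(0)` as `r → 0`, `r ≠ 0`. -/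
theorem IsEvenTest614.tendsto_deriv_div_sinh (h : IsEvenTest614 E R) :
    Tendsto (fun r : ℝ => (sinh r)⁻¹ • deriv E r) (𝓝[≠] 0) (𝓝 (deriv (deriv E) 0)) := by
  have hD : HasDerivAt (deriv E) (deriv (deriv E) 0) 0 :=
    (h.differentiable_deriv 0).hasDerivAt
  have hs : HasDerivAt sinh (cosh 0) 0 := Real.hasDerivAt_sinh 0
  rw [hasDerivAt_iff_tendsto_slope] at hD hs
  rw [Real.cosh_zero] at hs
  have hs' : Tendsto (fun r => (slope sinh 0 r)⁻¹) (𝓝[≠] 0) (𝓝 1) := by
    simpa using hs.inv₀ one_ne_zero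
  have := hs'.smul hD
  rw [one_smul] at this
  refine this.congr' ?_
  filter_upwards [self_mem_nhdsWithin] with r hr
  have hr0 : r ≠ 0 := hr
  simp only [slope, vsub_eq_sub, sub_zero, Real.sinh_zero, h.deriv_zero, smul_eq_mul]
  rw [smul_smul]
  congr 1
  field_simp

theorem abelInv614_of_le {c : ℝ} (hc : c ≤ 1) :
    abelInv614 E c = (-(2 * π)⁻¹ : ℝ) • deriv (deriv E) 0 := by
  simp [abelInv614, hc]

theorem abelInv614_of_lt {c : ℝ} (hc : 1 < c) :
    abelInv614 E c = (-(2 * π * √(c ^ 2 - 1))⁻¹ : ℝ) • deriv E (arcosh c) := by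
  simp [abelInv614, not_le.2 hc]

theorem abelInv614_cosh {r : ℝ} (hr : 0 < r) :
    abelInv614 E (cosh r) = (-(2 * π * sinh r)⁻¹ : ℝ) • deriv E r := by
  have h1 : 1 < cosh r := Real.one_lt_cosh.2 hr.ne'
  rw [abelInv614_of_lt h1, Real.arcosh_cosh hr.le]
  have h2 : √(cosh r ^ 2 - 1) = sinh r := by
    rw [← Real.sinh_arcosh h1.le, Real.arcosh_cosh hr.le]
  rw [h2]

theorem tendsto_arcosh_nhdsGT614 : Tendsto arcosh (𝓝[>] 1) (𝓝[≠] 0) := by
  apply tendsto_nhdsWithin_of_tendsto_nhds_of_eventually_within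
  · have h := Real.continuousOn_arcosh 1 (by simp)
    have h' : Tendsto arcosh (𝓝[Ici 1] 1) (𝓝 (arcosh 1)) := h
    rw [Real.arcosh_zero] at h'
    exact h'.mono_left (nhdsWithin_mono _ Ioi_subset_Ici_self)
  · filter_upwards [self_mem_nhdsWithin] with c hc
    exact (Real.arcosh_pos hc).ne'

theorem IsEvenTest614.continuous_abelInv (h : IsEvenTest614 E R) :
    Continuous (abelInv614 E) := by
  rw [continuous_iff_continuousAt]
  intro c
  rcases lt_trichotomy c 1 with hc | hc | hc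
  · -- locally constant
    have : abelInv614 E =ᶠ[𝓝 c] fun _ => (-(2 * π)⁻¹ : ℝ) • deriv (deriv E) 0 := by
      filter_upwards [Iio_mem_nhds hc] with x hx
      exact abelInv614_of_le (le_of_lt hx)
    exact (continuousAt_const.congr this.symm)
  · subst hc
    rw [continuousAt_iff_continuous_left'_right']
    constructor
    · have : abelInv614 E =ᶠ[𝓝[<] 1] fun _ => (-(2 * π)⁻¹ : ℝ) • deriv (deriv E) 0 := by
        filter_upwards [self_mem_nhdsWithin] with x hx
        exact abelInv614_of_le (le_of_lt hx)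
      have h1 : abelInv614 E 1 = (-(2 * π)⁻¹ : ℝ) • deriv (deriv E) 0 :=
        abelInv614_of_le le_rfl
      unfold ContinuousWithinAt
      rw [h1]
      exact tendsto_const_nhds.congr' this.symm
    · have h1 : abelInv614 E 1 = (-(2 * π)⁻¹ : ℝ) • deriv (deriv E) 0 :=
        abelInv614_of_le le_rfl
      unfold ContinuousWithinAt
      rw [h1]
      have ht := (h.tendsto_deriv_div_sinh.comp tendsto_arcosh_nhdsGT614).const_smul
        (-(2 * π)⁻¹ : ℝ)
      refine ht.congr' ?_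
      filter_upwards [self_mem_nhdsWithin] with x hx
      have hx1 : (1 : ℝ) < x := hx
      rw [abelInv614_of_lt hx1]
      simp only [Function.comp_apply]
      rw [Real.sinh_arcosh hx1.le, smul_smul]
      congr 1
      rw [mul_inv]
      ring
  · -- smooth region
    have : abelInv614 E =ᶠ[𝓝 c]
        fun x => (-(2 * π * √(x ^ 2 - 1))⁻¹ : ℝ) • deriv E (arcosh x) := by
      filter_upwards [Ioi_mem_nhds hc] with x hx
      exact abelInv614_of_lt hx
    refine ContinuousAt.congr ?_ this.symm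
    have hpos : 0 < c ^ 2 - 1 := by nlinarith
    have h1 : ContinuousAt (fun x : ℝ => (-(2 * π * √(x ^ 2 - 1))⁻¹ : ℝ)) c := by
      apply ContinuousAt.neg
      apply ContinuousAt.inv₀
      · fun_prop
      · have : 0 < √(c ^ 2 - 1) := Real.sqrt_pos.2 hpos
        positivity
    have h2 : ContinuousAt (fun x : ℝ => deriv E (arcosh x)) c :=
      (h.continuous_deriv.continuousAt).comp
        ((Real.differentiableAt_arcosh hc).continuousAt)
    exact h1.smul h2

/-- `E' = 0` outside `(-R, R)`... on `{R < |u|}`. -/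
theorem IsEvenTest614.deriv_eq_zero (h : IsEvenTest614 E R) {u : ℝ} (hu : R < |u|) :
    deriv E u = 0 := by
  have : E =ᶠ[𝓝 u] fun _ => (0 : ℂ) := by
    have hopen : IsOpen {x : ℝ | R < |x|} := isOpen_lt continuous_const continuous_abs
    filter_upwards [hopen.mem_nhds hu] with x hx
    exact h.supp x (le_of_lt hx)
  rw [this.deriv_eq]
  simp

/-- `E = 0` identically if `R ≤ 0`. -/
theorem IsEvenTest614.eq_zero_of_nonpos (h : IsEvenTest614 E R) (hR : R ≤ 0) (u : ℝ) : E u = 0 :=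
  h.supp u (hR.trans (abs_nonneg u))

/-- Support of the inverse Abel transform: `ρ(c) = 0` for `c > cosh R`. -/
theorem IsEvenTest614.abelInv_eq_zero (h : IsEvenTest614 E R) {c : ℝ} (hc : cosh R < c) :
    abelInv614 E c = 0 := by
  have h1 : 1 < c := lt_of_le_of_lt (Real.one_le_cosh R) hc
  rw [abelInv614_of_lt h1]
  have : deriv E (arcosh c) = 0 := by
    apply h.deriv_eq_zero
    have hpos : 0 < arcosh c := Real.arcosh_pos h1
    rw [abs_of_pos hpos]
    by_contra hcon
    have hcon' : arcosh c ≤ R := not_lt.1 hcon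
    -- arcosh c ≤ R, so c = cosh (arcosh c) ≤ cosh R
    have h2 : cosh (arcosh c) ≤ cosh R := by
      rw [Real.cosh_le_cosh, abs_of_pos hpos]
      exact hcon'.trans (le_abs_self R)
    rw [Real.cosh_arcosh h1.le] at h2
    linarith
  rw [this, smul_zero]

/-- `c ↦ E (arcosh c)` has derivative `E'(arcosh c) / √(c² - 1)` at `c > 1`. -/
theorem IsEvenTest614.hasDerivAt_comp_arcosh (h : IsEvenTest614 E R) {c : ℝ} (hc : 1 < c) :
    HasDerivAt (fun x => E (arcosh x)) ((√(c ^ 2 - 1))⁻¹ • deriv E (arcosh c)) c := by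
  have h1 : HasDerivAt arcosh (√(c ^ 2 - 1))⁻¹ c := Real.hasDerivAt_arcosh hc
  have h2 : HasDerivAt E (deriv E (arcosh c)) (arcosh c) := (h.differentiable _).hasDerivAt
  exact h2.scomp c h1

theorem IsEvenTest614.integrableOn_abelInv (h : IsEvenTest614 E R) (y : ℝ) :
    IntegrableOn (abelInv614 E) (Ioi y) := by
  have hc := h.continuous_abelInv
  have h1 : IntegrableOn (abelInv614 E) (Ioc y (max y (cosh R))) :=
    (hc.integrableOn_Icc (a := y) (b := max y (cosh R))).mono_set Ioc_subset_Icc_self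
  have h2 : IntegrableOn (abelInv614 E) (Ioi (max y (cosh R))) := by
    have : ∀ x ∈ Ioi (max y (cosh R)), abelInv614 E x = (fun _ => (0 : ℂ)) x := by
      intro x hx
      exact h.abelInv_eq_zero (lt_of_le_of_lt (le_max_right _ _) hx)
    exact (integrableOn_zero).congr_fun (fun x hx => (this x hx).symm) measurableSet_Ioi
  have := h1.union h2
  rwa [Ioc_union_Ioi_eq_Ioi (le_max_left _ _)] at this

/-- **Abel inversion**, `c`-form: `2π ∫_y^∞ ρ(c) dc = E(arcosh y)` for `y ≥ 1`. -/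
theorem IsEvenTest614.abel_integral (h : IsEvenTest614 E R) {y : ℝ} (hy : 1 ≤ y) :
    (2 * π) • ∫ c in Ioi y, abelInv614 E c = E (arcosh y) := by
  have hF : ∀ x ∈ Ioi y, HasDerivAt (fun x => (-(2 * π)⁻¹ : ℝ) • E (arcosh x))
      (abelInv614 E x) x := by
    intro x hx
    have hx1 : 1 < x := lt_of_le_of_lt hy hx
    have := (h.hasDerivAt_comp_arcosh hx1).const_smul (-(2 * π)⁻¹ : ℝ)
    rw [abelInv614_of_lt hx1]
    refine HasDerivAt.congr_deriv this ?_
    rw [smul_smul]
    congr 1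
    rw [mul_inv]
    ring
  have hcont : ContinuousWithinAt (fun x => (-(2 * π)⁻¹ : ℝ) • E (arcosh x)) (Ici y) y := by
    have h1 : ContinuousWithinAt arcosh (Ici y) y :=
      (Real.continuousOn_arcosh y hy).mono (Ici_subset_Ici.2 hy)
    have h2 : ContinuousWithinAt (fun x => E (arcosh x)) (Ici y) y :=
      (h.differentiable.continuous.continuousAt).comp_continuousWithinAt h1
    exact h2.const_smul (-(2 * π)⁻¹ : ℝ)
  have hlim : Tendsto (fun x => (-(2 * π)⁻¹ : ℝ) • E (arcosh x)) atTop (𝓝 0) := by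
    apply tendsto_const_nhds.congr'
    filter_upwards [eventually_gt_atTop (cosh R), eventually_gt_atTop 1] with x hx hx1
    have hpos : 0 < arcosh x := Real.arcosh_pos hx1
    have : E (arcosh x) = 0 := by
      apply h.supp
      rw [abs_of_pos hpos]
      by_contra hcon
      have hcon' : arcosh x < R := not_le.1 hcon
      have h2 : cosh (arcosh x) ≤ cosh R := by
        rw [Real.cosh_le_cosh, abs_of_pos hpos]
        exact hcon'.le.trans (le_abs_self R)
      rw [Real.cosh_arcosh hx1.le] at h2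
      linarith
    rw [this, smul_zero]
  have := integral_Ioi_of_hasDerivAt_of_tendsto hcont hF (h.integrableOn_abelInv y) hlim
  rw [this, zero_sub, ← neg_smul, smul_smul]
  have hpi : (2 * π) * (-(-(2 * π)⁻¹)) = 1 := by
    have : (2 * π) ≠ 0 := by positivity
    field_simp
  rw [neg_neg] at hpi ⊢
  rw [mul_inv_cancel₀ (by positivity), one_smul]

/-- **Abel inversion**, `u`-form: the Abel transform of `ρ = abelInv614 E` is `E`:
`2π ∫_{cosh u}^∞ ρ(c) dc = E(u)`. -/
theorem IsEvenTest614.abel_transform (h : IsEvenTest614 E R) (u : ℝ) :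
    (2 * π) • ∫ c in Ioi (cosh u), abelInv614 E c = E u := by
  rw [h.abel_integral (Real.one_le_cosh u)]
  rw [← Real.cosh_abs, Real.arcosh_cosh (abs_nonneg u)]
  rcases abs_choice u with hu | hu
  · rw [hu]
  · rw [hu, h.even]

theorem IsEvenTest614.hasCompactSupport (h : IsEvenTest614 E R) : HasCompactSupport E := by
  apply HasCompactSupport.of_support_subset_isCompact (isCompact_Icc (a := -|R|) (b := |R|))
  intro u hu
  rw [Function.mem_support] at hu
  rw [mem_Icc, ← abs_le]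
  by_contra hcon
  have : |R| < |u| := not_le.1 hcon
  exact hu (h.supp u ((le_abs_self R).trans this.le))

theorem IsEvenTest614.integrable (h : IsEvenTest614 E R) : Integrable E :=
  h.differentiable.continuous.integrable_of_hasCompactSupport h.hasCompactSupport

theorem IsEvenTest614.integrable_id_smul_deriv (h : IsEvenTest614 E R) :
    Integrable (fun r : ℝ => r • deriv E r) := by
  apply Continuous.integrable_of_hasCompactSupport
  · exact continuous_id.smul h.continuous_deriv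
  · exact HasCompactSupport.smul_left (f := fun r : ℝ => r) (h.hasCompactSupport.deriv)

/-- Integration by parts: `∫_0^∞ r E'(r) dr = - ∫_0^∞ E(r) dr`. -/
theorem IsEvenTest614.integral_id_smul_deriv (h : IsEvenTest614 E R) :
    ∫ r in Ioi (0 : ℝ), r • deriv E r = - ∫ r in Ioi (0 : ℝ), E r := by
  have hG : ∀ x ∈ Ici (0 : ℝ), HasDerivAt (fun r : ℝ => r • E r) (E x + x • deriv E x) x := by
    intro x _
    have h1 : HasDerivAt (fun r : ℝ => r) 1 x := hasDerivAt_id x
    have h2 : HasDerivAt E (deriv E x) x := (h.differentiable x).hasDerivAt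
    have := h1.smul h2
    refine HasDerivAt.congr_deriv this ?_
    simp [add_comm]
  have hint : IntegrableOn (fun x : ℝ => E x + x • deriv E x) (Ioi 0) :=
    (h.integrable.add h.integrable_id_smul_deriv).integrableOn
  have hlim : Tendsto (fun r : ℝ => r • E r) atTop (𝓝 0) := by
    apply tendsto_const_nhds.congr'
    filter_upwards [eventually_ge_atTop |R|, eventually_ge_atTop 0] with x hx hx0
    have : E x = 0 := h.supp x (by rw [abs_of_nonneg hx0]; exact (le_abs_self R).trans hx)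
    rw [this, smul_zero]
  have := integral_Ioi_of_hasDerivAt_of_tendsto' hG hint hlim
  rw [integral_add h.integrable.integrableOn h.integrable_id_smul_deriv.integrableOn] at this
  simp only [zero_smul, sub_zero] at this
  exact eq_neg_of_add_eq_zero_right this

/-- Even functions: `∫_ℝ E = 2 ∫_0^∞ E`. -/
theorem IsEvenTest614.integral_eq_two_smul (h : IsEvenTest614 E R) :
    ∫ u, E u = (2 : ℝ) • ∫ r in Ioi (0 : ℝ), E r := by
  rw [← intervalIntegral.integral_Iic_add_Ioi h.integrable.integrableOn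
    h.integrable.integrableOn (b := 0)]
  have : ∫ x in Iic (0 : ℝ), E x = ∫ x in Ioi (0 : ℝ), E x := by
    have h1 := integral_comp_neg_Ioi (0 : ℝ) E
    rw [neg_zero] at h1
    rw [← h1]
    exact setIntegral_congr_fun measurableSet_Ioi (fun x _ => h.even x)
  rw [this, two_smul]

/-- **Spherical transform at parameter `0`** of `ρ = abelInv614 E`:
`4π ∫_0^∞ ρ(cosh r) · (r / sinh r) · sinh² r dr = ∫_ℝ E(u) du`. -/
theorem IsEvenTest614.spherical_zero (h : IsEvenTest614 E R) :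
    (4 * π) • ∫ r in Ioi (0 : ℝ), (r * sinh r) • abelInv614 E (cosh r) = ∫ u, E u := by
  have h1 : ∫ r in Ioi (0 : ℝ), (r * sinh r) • abelInv614 E (cosh r)
      = ∫ r in Ioi (0 : ℝ), (-(2 * π)⁻¹ : ℝ) • (r • deriv E r) := by
    refine setIntegral_congr_fun measurableSet_Ioi (fun r hr => ?_)
    have hr0 : (0 : ℝ) < r := hr
    have hs : sinh r ≠ 0 := (Real.sinh_pos_iff.2 hr0).ne'
    rw [abelInv614_cosh hr0, smul_smul, smul_smul]
    congr 1
    field_simp
  rw [h1, integral_smul, h.integral_id_smul_deriv, h.integral_eq_two_smul, smul_smul, smul_neg,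
    ← neg_smul]
  congr 1
  field_simp
  ring

/-- The sum of the squares of the absolute values of the entries (squared Hilbert--Schmidt
norm). -/
noncomputable def hsq614 (g : Matrix (Fin 2) (Fin 2) ℂ) : ℝ :=
  ‖g 0 0‖ ^ 2 + ‖g 0 1‖ ^ 2 + ‖g 1 0‖ ^ 2 + ‖g 1 1‖ ^ 2

/-- `cosh` of the hyperbolic distance in `ℍ³ = GL₂(ℂ) / ℂˣ U(2)` between the base point and its
image under `g`: `‖g‖²_HS / (2 |det g|)`. -/
noncomputable def chD614 (g : Matrix (Fin 2) (Fin 2) ℂ) : ℝ :=
  hsq614 g / (2 * ‖g.det‖)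

theorem hsq614_eq_trace (g : Matrix (Fin 2) (Fin 2) ℂ) :
    ((hsq614 g : ℝ) : ℂ) = (g * gᴴ).trace := by
  simp only [hsq614, Matrix.trace, Matrix.diag, Matrix.mul_apply, Matrix.conjTranspose_apply,
    Fin.sum_univ_two, Complex.star_def, Complex.mul_conj, Complex.normSq_eq_norm_sq]
  push_cast
  ring

theorem hsq614_mul_unitary_right (g k : Matrix (Fin 2) (Fin 2) ℂ) (hk : k * kᴴ = 1) :
    hsq614 (g * k) = hsq614 g := by
  have h : ((hsq614 (g * k) : ℝ) : ℂ) = ((hsq614 g : ℝ) : ℂ) := by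
    rw [hsq614_eq_trace, hsq614_eq_trace, Matrix.conjTranspose_mul]
    rw [show g * k * (kᴴ * gᴴ) = g * (k * kᴴ) * gᴴ by simp only [Matrix.mul_assoc]]
    rw [hk, Matrix.mul_one]
  exact_mod_cast h

theorem hsq614_mul_unitary_left (g k : Matrix (Fin 2) (Fin 2) ℂ) (hk : k * kᴴ = 1) :
    hsq614 (k * g) = hsq614 g := by
  have hk' : kᴴ * k = 1 := mul_eq_one_comm.1 hk
  have h : ((hsq614 (k * g) : ℝ) : ℂ) = ((hsq614 g : ℝ) : ℂ) := by
    rw [hsq614_eq_trace, hsq614_eq_trace, Matrix.conjTranspose_mul]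
    rw [show k * g * (gᴴ * kᴴ) = k * (g * gᴴ * kᴴ) by simp only [Matrix.mul_assoc]]
    rw [Matrix.trace_mul_comm, Matrix.mul_assoc, hk', Matrix.mul_one]
  exact_mod_cast h

theorem norm_det_of_unitary614 (k : Matrix (Fin 2) (Fin 2) ℂ) (hk : k * kᴴ = 1) :
    ‖k.det‖ = 1 := by
  have h1 : k.det * star k.det = 1 := by
    rw [← Matrix.det_conjTranspose, ← Matrix.det_mul, hk, Matrix.det_one]
  have h2 : ‖k.det‖ * ‖k.det‖ = 1 := by
    have := congrArg norm h1
    rwa [norm_mul, norm_star, norm_one] at this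
  nlinarith [norm_nonneg k.det]

theorem chD614_mul_unitary_right (g k : Matrix (Fin 2) (Fin 2) ℂ) (hk : k * kᴴ = 1) :
    chD614 (g * k) = chD614 g := by
  unfold chD614
  rw [hsq614_mul_unitary_right g k hk, Matrix.det_mul, norm_mul, norm_det_of_unitary614 k hk,
    mul_one]

theorem chD614_mul_unitary_left (g k : Matrix (Fin 2) (Fin 2) ℂ) (hk : k * kᴴ = 1) :
    chD614 (k * g) = chD614 g := by
  unfold chD614
  rw [hsq614_mul_unitary_left g k hk, Matrix.det_mul, norm_mul, norm_det_of_unitary614 k hk,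
    one_mul]

theorem chD614_smul (z : ℂ) (hz : z ≠ 0) (g : Matrix (Fin 2) (Fin 2) ℂ) :
    chD614 (z • g) = chD614 g := by
  unfold chD614 hsq614
  rw [Matrix.det_smul]
  simp only [Matrix.smul_apply, smul_eq_mul, norm_mul, Fintype.card_fin, norm_pow]
  have hz' : ‖z‖ ≠ 0 := norm_ne_zero_iff.2 hz
  by_cases hd : ‖g.det‖ = 0
  · simp [hd]
  · field_simp

/-- `1 ≤ chD614 g` for invertible `g`. -/
theorem one_le_chD614 (g : Matrix (Fin 2) (Fin 2) ℂ) (hg : g.det ≠ 0) : 1 ≤ chD614 g := by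
  unfold chD614 hsq614
  have hd : 0 < ‖g.det‖ := norm_pos_iff.2 hg
  rw [le_div_iff₀ (by positivity), one_mul]
  have h1 : ‖g.det‖ ≤ ‖g 0 0‖ * ‖g 1 1‖ + ‖g 0 1‖ * ‖g 1 0‖ := by
    rw [Matrix.det_fin_two]
    calc ‖g 0 0 * g 1 1 - g 0 1 * g 1 0‖ ≤ ‖g 0 0 * g 1 1‖ + ‖g 0 1 * g 1 0‖ := norm_sub_le _ _
      _ = _ := by rw [norm_mul, norm_mul]
  nlinarith [sq_nonneg (‖g 0 0‖ - ‖g 1 1‖), sq_nonneg (‖g 0 1‖ - ‖g 1 0‖)]

/-- The value of `chD614` on the upper triangular matrix `n(x) diag(t₁, t₂)`. -/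
theorem chD614_upper (x t₁ t₂ : ℂ) (h1 : t₁ ≠ 0) (h2 : t₂ ≠ 0) :
    chD614 (!![1, x; 0, 1] * !![t₁, 0; 0, t₂])
      = cosh (Real.log ‖t₁‖ - Real.log ‖t₂‖) + (‖t₂‖ / (2 * ‖t₁‖)) * ‖x‖ ^ 2 := by
  have n1 : 0 < ‖t₁‖ := norm_pos_iff.2 h1
  have n2 : 0 < ‖t₂‖ := norm_pos_iff.2 h2
  have hm : (!![1, x; 0, 1] * !![t₁, 0; 0, t₂] : Matrix (Fin 2) (Fin 2) ℂ)
      = !![t₁, x * t₂; 0, t₂] := by
    ext i j; fin_cases i <;> fin_cases j <;> simp [Matrix.mul_apply, Fin.sum_univ_two]
  rw [hm]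
  unfold chD614 hsq614
  rw [Matrix.det_fin_two_of]
  simp only [Matrix.of_apply, Matrix.cons_val', Matrix.cons_val_zero, Matrix.cons_val_one,
    Matrix.cons_val_fin_one, mul_zero, sub_zero, norm_mul, norm_zero]
  rw [Real.cosh_eq, Real.exp_sub, Real.exp_log n1, Real.exp_log n2, neg_sub, Real.exp_sub,
    Real.exp_log n1, Real.exp_log n2]
  field_simp
  ring

/-- **The Abel transform on the group**: for `ρ = abelInv614 E` the integral of the radial
function `g ↦ ρ(chD614 g)` over the unipotent radical through `diag(t₁, t₂)` is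
`δ(t)^{1/2} E(u)`, `δ(t)^{1/2} = |t₁| / |t₂|`, `u = log |t₁| - log |t₂|`. -/
theorem IsEvenTest614.abel_unipotent {E : ℝ → ℂ} {R : ℝ} (h : IsEvenTest614 E R)
    (t₁ t₂ : ℂ) (h1 : t₁ ≠ 0) (h2 : t₂ ≠ 0) :
    ∫ x : ℂ, abelInv614 E (chD614 (!![1, x; 0, 1] * !![t₁, 0; 0, t₂]))
      = (‖t₁‖ / ‖t₂‖) • E (Real.log ‖t₁‖ - Real.log ‖t₂‖) := by
  have n1 : 0 < ‖t₁‖ := norm_pos_iff.2 h1
  have n2 : 0 < ‖t₂‖ := norm_pos_iff.2 h2
  simp_rw [chD614_upper _ t₁ t₂ h1 h2]
  rw [integral_complex_affine_sq614 (abelInv614 E) _ (by positivity : 0 < ‖t₂‖ / (2 * ‖t₁‖))]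
  rw [← h.abel_transform (Real.log ‖t₁‖ - Real.log ‖t₂‖), smul_smul]
  congr 1
  field_simp

end Fermat.Agent.LT.T3.H614

end
-- ===== PACK-END LT/T3/H614/AbelCalc.lean

-- ===== PACK-BEGIN LT/T3/H57/ROpHaar.lean
section


/-!
# Row LT, tower T3, station T3.18a, leaf AS.5 `ROpC` (helper57, OFF-MAIN): abstract measure theory

Mathlib only.

* `integral_eq_smul_of_hasCompactSupport57` : the complex form of Haar uniqueness on continuous
  functions of compact support;
* `pushforward_haar57` : `U ⊆ G` open, `π : G →* H` continuous with a homomorphic section `ι`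
  which preserves `U`, and `μ (U ∩ π⁻¹ C) < ∞` for compact `C`.  Then the image of `μ|_U` under
  `π` is a Haar measure of `H`: `∫_U f(π x) dμ = c ∫_H f dν`, `c > 0` independent of `f`;
* `integral_pi_eigen57` : finite Fubini, one coordinate at a time, for a function on `Lⁿ` which
  is an eigenfunction of the right convolution by `F i` in the `i`-th coordinate.
-/

set_option autoImplicit false

open MeasureTheory Measure
open scoped ENNReal NNReal

noncomputable section

namespace Fermat.Agent.LT.T3.H57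

/-- Haar uniqueness on continuous functions of compact support, complex values. -/
theorem integral_eq_smul_of_hasCompactSupport57 {G : Type*} [TopologicalSpace G] [Group G]
    [IsTopologicalGroup G] [MeasurableSpace G] [BorelSpace G]
    (μ' μ : Measure G) [IsHaarMeasure μ] [IsFiniteMeasureOnCompacts μ'] [IsMulLeftInvariant μ']
    {f : G → ℂ} (hf : Continuous f) (h'f : HasCompactSupport f) :
    ∫ x, f x ∂μ' = ((haarScalarFactor μ' μ : ℝ≥0) : ℝ) • ∫ x, f x ∂μ := by
  have hi' : Integrable f μ' := hf.integrable_of_hasCompactSupport h'f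
  have hi : Integrable f μ := hf.integrable_of_hasCompactSupport h'f
  have hre := integral_isMulLeftInvariant_eq_smul_of_hasCompactSupport μ' μ
    (Complex.continuous_re.comp hf) (h'f.comp_left Complex.zero_re)
  have him := integral_isMulLeftInvariant_eq_smul_of_hasCompactSupport μ' μ
    (Complex.continuous_im.comp hf) (h'f.comp_left Complex.zero_im)
  rw [integral_smul_nnreal_measure] at hre him
  simp only [Function.comp_apply] at hre him
  have e1 : (∫ x, f x ∂μ').re = ∫ x, (f x).re ∂μ' := (integral_re hi').symm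
  have e2 : (∫ x, f x ∂μ').im = ∫ x, (f x).im ∂μ' := (integral_im hi').symm
  have e3 : (∫ x, f x ∂μ).re = ∫ x, (f x).re ∂μ := (integral_re hi).symm
  have e4 : (∫ x, f x ∂μ).im = ∫ x, (f x).im ∂μ := (integral_im hi).symm
  apply Complex.ext
  · rw [e1, hre, Complex.real_smul, Complex.re_ofReal_mul, e3]; rfl
  · rw [e2, him, Complex.real_smul, Complex.im_ofReal_mul, e4]; rfl

/-- The image of `μ|_U` under `π` is a Haar measure. -/
theorem pushforward_haar57 {G H : Type*} [Group G] [TopologicalSpace G] [IsTopologicalGroup G]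
    [MeasurableSpace G] [BorelSpace G]
    [Group H] [TopologicalSpace H] [IsTopologicalGroup H] [MeasurableSpace H] [BorelSpace H]
    (μ : Measure G) [μ.IsHaarMeasure] (ν : Measure H) [ν.IsHaarMeasure]
    (U : Set G) (hUo : IsOpen U) (π : G →* H) (hπ : Continuous π) (ι : H →* G)
    (hπι : ∀ t, π (ι t) = t) (hιU : ∀ t x, x ∈ U → ι t * x ∈ U) (h1 : (1 : G) ∈ U)
    (hfin : ∀ C : Set H, IsCompact C → μ (U ∩ π ⁻¹' C) < ∞) :
    ∃ c : ℝ, 0 < c ∧ ∀ f : H → ℂ, Continuous f → HasCompactSupport f →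
      IntegrableOn (fun x => f (π x)) U μ ∧ ∫ x in U, f (π x) ∂μ = c • ∫ t, f t ∂ν := by
  have hπm : Measurable π := hπ.measurable
  have hUm : MeasurableSet U := hUo.measurableSet
  set ρ : Measure H := (μ.restrict U).map π with hρ
  have hρ_apply : ∀ E : Set H, MeasurableSet E → ρ E = μ (π ⁻¹' E ∩ U) := by
    intro E hE
    rw [hρ, Measure.map_apply hπm hE, Measure.restrict_apply (hπm hE)]
  have : IsFiniteMeasureOnCompacts ρ := by
    refine ⟨fun C hC => ?_⟩
    have hcl : IsCompact (closure C) := hC.closure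
    calc ρ C ≤ ρ (closure C) := measure_mono subset_closure
      _ = μ (π ⁻¹' closure C ∩ U) := hρ_apply _ isClosed_closure.measurableSet
      _ = μ (U ∩ π ⁻¹' closure C) := by rw [Set.inter_comm]
      _ < ∞ := hfin _ hcl
  have hUiff : ∀ t x, ι t * x ∈ U ↔ x ∈ U := by
    intro t x
    refine ⟨fun h => ?_, hιU t x⟩
    have := hιU t⁻¹ _ h
    rwa [map_inv, inv_mul_cancel_left] at this
  have : IsMulLeftInvariant ρ := by
    refine ⟨fun t => ?_⟩
    refine Measure.ext fun E hE => ?_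
    have hE' : MeasurableSet ((fun x => t * x) ⁻¹' E) := (measurable_const_mul t) hE
    rw [Measure.map_apply (measurable_const_mul t) hE, hρ_apply _ hE', hρ_apply _ hE]
    have hset : π ⁻¹' ((fun x => t * x) ⁻¹' E) ∩ U = (fun x => ι t * x) ⁻¹' (π ⁻¹' E ∩ U) := by
      ext x
      simp only [Set.mem_inter_iff, Set.mem_preimage, map_mul, hπι, hUiff]
    rw [hset]
    exact measure_preimage_mul μ (ι t) _
  have : IsOpenPosMeasure ρ := by
    refine ⟨fun V hV hne => ?_⟩
    rw [hρ_apply _ hV.measurableSet]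
    obtain ⟨t, ht⟩ := hne
    refine ((hV.preimage hπ).inter hUo).measure_ne_zero μ ⟨ι t, ?_, ?_⟩
    · simpa [hπι] using ht
    · simpa using hιU t 1 h1
  have : IsHaarMeasure ρ := {}
  refine ⟨((haarScalarFactor ρ ν : ℝ≥0) : ℝ), ?_, fun f hf h'f => ⟨?_, ?_⟩⟩
  · exact_mod_cast haarScalarFactor_pos_of_isHaarMeasure ρ ν
  · have hi : Integrable f ρ := hf.integrable_of_hasCompactSupport h'f
    have := (integrable_map_measure hf.aestronglyMeasurable hπm.aemeasurable).1 hi
    exact this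
  · have := integral_eq_smul_of_hasCompactSupport57 ρ ν hf h'f
    rw [← this, hρ, integral_map hπm.aemeasurable hf.aestronglyMeasurable]

/-- The function `t ↦ Φ t * ∏ i, F i (t i)` has compact support. -/
theorem hasCompactSupport_mul_prod57 {L : Type*} [TopologicalSpace L] [R1Space L]
    (n : ℕ) (Φ : (Fin n → L) → ℂ) (F : Fin n → L → ℂ) (hFs : ∀ i, HasCompactSupport (F i)) :
    HasCompactSupport (fun t : Fin n → L => Φ t * ∏ i, F i (t i)) := by
  have hK : IsCompact (Set.pi Set.univ fun i : Fin n => tsupport (F i)) :=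
    isCompact_univ_pi fun i => hFs i
  refine HasCompactSupport.of_support_subset_isCompact hK ?_
  intro t ht
  rw [Function.mem_support] at ht
  intro i _
  by_contra hi
  have h0 : F i (t i) = 0 := image_eq_zero_of_notMem_tsupport hi
  exact ht (by rw [Finset.prod_eq_zero (Finset.mem_univ i) h0, mul_zero])

/-- FINITE FUBINI.  If `Φ` is an eigenfunction of the right convolution by `F i` in the `i`-th
coordinate, with eigenvalue `C i`, for every `i`, then
`∫ Φ(t) ∏ F_i(t_i) dt = (∏ C_i) Φ(1)`. -/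
theorem integral_pi_eigen57 {L : Type*} [Group L] [TopologicalSpace L] [IsTopologicalGroup L]
    [MeasurableSpace L] [BorelSpace L] [SecondCountableTopology L]
    (μc : Measure L) [SigmaFinite μc] [IsFiniteMeasureOnCompacts μc] :
    ∀ (n : ℕ) (Φ : (Fin n → L) → ℂ), Continuous Φ →
    ∀ (F : Fin n → L → ℂ), (∀ i, Continuous (F i)) → (∀ i, HasCompactSupport (F i)) →
    ∀ C : Fin n → ℂ,
      (∀ i t, ∫ s, Φ (Function.update t i (t i * s)) * F i s ∂μc = C i * Φ t) →
      ∫ t, Φ t * ∏ i, F i (t i) ∂(Measure.pi fun _ : Fin n => μc) = (∏ i, C i) * Φ 1 := by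
  intro n
  induction n with
  | zero =>
    intro Φ _ F _ _ C _
    have hsub : ∀ t : Fin 0 → L, t = 1 := fun t => Subsingleton.elim _ _
    rw [Measure.pi_of_empty, integral_dirac]
    simp [hsub]
  | succ n ih =>
    intro Φ hΦ F hFc hFs C h
    obtain ⟨e, he⟩ : ∃ e : (Fin (n + 1) → L) ≃ᵐ L × (Fin n → L),
        e = MeasurableEquiv.piFinSuccAbove (fun _ : Fin (n + 1) => L) 0 := ⟨_, rfl⟩
    have hmp : MeasurePreserving e (Measure.pi fun _ : Fin (n + 1) => μc)
        (μc.prod (Measure.pi fun _ : Fin n => μc)) := by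
      rw [he]; exact measurePreserving_piFinSuccAbove (fun _ : Fin (n + 1) => μc) 0
    set g : (Fin (n + 1) → L) → ℂ := fun t => Φ t * ∏ i, F i (t i) with hg
    have hgc : Continuous g :=
      hΦ.mul (continuous_finsetProd _ fun i _ => (hFc i).comp (continuous_apply i))
    have hgs : HasCompactSupport g := hasCompactSupport_mul_prod57 (n + 1) Φ F hFs
    have hgi : Integrable g (Measure.pi fun _ : Fin (n + 1) => μc) :=
      hgc.integrable_of_hasCompactSupport hgs
    set g' : L × (Fin n → L) → ℂ := fun p => g (e.symm p) with hg'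
    have hgg' : ∀ t, g t = g' (e t) := fun t => (congrArg g (e.symm_apply_apply t)).symm
    have hg'i : Integrable g' (μc.prod (Measure.pi fun _ : Fin n => μc)) := by
      have := (hmp.integrable_comp_emb e.measurableEmbedding (g := g')).1
      apply this
      have hcomp : g' ∘ e = g := funext fun t => (hgg' t).symm
      rw [hcomp]
      exact hgi
    have hes : ∀ (s : L) (t' : Fin n → L), e.symm (s, t') = Fin.cons s t' := by
      intro s t'
      rw [he]
      simp [MeasurableEquiv.piFinSuccAbove]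
      rfl
    have h1 : ∫ t, g t ∂(Measure.pi fun _ : Fin (n + 1) => μc)
        = ∫ p, g' p ∂(μc.prod (Measure.pi fun _ : Fin n => μc)) := by
      rw [← hmp.integral_comp' (f := e) g']
      exact integral_congr_ae (Filter.Eventually.of_forall hgg')
    rw [h1, integral_prod_symm _ hg'i]
    have hinner : ∀ t' : Fin n → L, ∫ s, g' (s, t') ∂μc
        = C 0 * ((fun t' : Fin n → L => Φ (Fin.cons 1 t')) t' * ∏ i : Fin n, F i.succ (t' i)) := by
      intro t'
      have hh := h 0 (Fin.cons 1 t')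
      simp only [Fin.cons_zero, one_mul, Fin.update_cons_zero] at hh
      have : ∀ s, g' (s, t') = (Φ (Fin.cons s t') * F 0 s) * ∏ i : Fin n, F i.succ (t' i) := by
        intro s
        simp only [hg', hg, hes, Fin.prod_univ_succ, Fin.cons_zero, Fin.cons_succ]
        ring
      simp_rw [this]
      rw [integral_mul_const, hh]
      ring
    simp_rw [hinner]
    rw [integral_const_mul]
    rw [ih (fun t' => Φ (Fin.cons 1 t')) (hΦ.comp (by fun_prop)) (fun i => F i.succ)
      (fun i => hFc _) (fun i => hFs _) (fun i => C i.succ) ?_]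
    · rw [Fin.prod_univ_succ]
      have : (Fin.cons 1 1 : Fin (n + 1) → L) = 1 := by
        funext i
        refine Fin.cases ?_ (fun j => ?_) i <;> simp
      rw [this]
      ring
    · intro i t'
      have hh := h i.succ (Fin.cons 1 t')
      simp only [Fin.cons_succ] at hh
      rw [← hh]
      refine integral_congr_ae (Filter.Eventually.of_forall fun s => ?_)
      simp only [Fin.cons_update]


end Fermat.Agent.LT.T3.H57

end

end
-- ===== PACK-END LT/T3/H57/ROpHaar.lean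

-- ===== PACK-BEGIN LT/T3/H732/EKCore.lean
section


/-!
# Row LT, tower T3, leaf T3.18b `LeafEKAlg` (helper732): the CORE (Mathlib only)

OFF-MAIN.  Pure algebra on the coordinate group `Crd732 ι = ℤ² × (ℝ²)^ι` (`ι` a finite type; in the
application `ι = InfinitePlace K`).  Complete proofs, nothing assumed.

For `n ≥ 1` and `ℓ : ι → ℝ` let `c₀ = ((n, 0), (ℓ_w, 0)_w)`.  The swap group
`S = Bool × (ι → Bool)` acts on `Crd732 ι` (swap of the two coordinates at each place).  With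
`Φ₁ = δ_{(0,0)} ⊗ ⊗_w (bump ⊗ bump)` put

`Φ = ∏_{t ∈ S} (1 - τ_{t c₀}) Φ₁ = ∑_{T ⊆ S} (-1)^{|T|} Φ₁(· - ∑_{t ∈ T} t c₀)`.

Then (`exists_ekPhi732`)
* `Φ` is in the span of the symmetric pure tensors (`Φ` is `S`-invariant; the average over `S` of a
  translate of `Φ₁` is a symmetric pure tensor);
* `∑_{j ∈ ℤ} Φ(Δ + j c₀) = 0` for every `Δ` (`Φ = (1 - τ_{c₀}) Φ₂`, finitely many terms);
* `∑_m (∫ Φ(m, x) dx) z₁^{m₁} z₂^{m₂} = (∫ bump)^{2|ι|} ∏_{t ∈ S} (1 - z_{i(t)}ⁿ) ≠ 0` as soon as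
  `z₁, z₂ ≠ 0`, `z₁ⁿ ≠ 1`, `z₂ⁿ ≠ 1`.
-/

set_option autoImplicit false

open MeasureTheory Finset

noncomputable section

namespace Fermat.Agent.LT.T3.H732

/-- The coordinate group `ℤ² × (ℝ²)^ι`. -/
abbrev Crd732 (ι : Type) : Type := (ℤ × ℤ) × (ι → ℝ × ℝ)

/-- The swap group. -/
abbrev Sw732 (ι : Type) : Type := Bool × (ι → Bool)

/-- Swap of the two coordinates (if `b`), as an additive map. -/
def sw732 {α : Type} [AddCommGroup α] (b : Bool) : α × α →+ α × α where
  toFun p := bif b then (p.2, p.1) else p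
  map_zero' := by cases b <;> rfl
  map_add' p q := by cases b <;> rfl

@[simp] lemma sw732_true {α : Type} [AddCommGroup α] (p : α × α) :
    sw732 true p = (p.2, p.1) := rfl

@[simp] lemma sw732_false {α : Type} [AddCommGroup α] (p : α × α) :
    sw732 false p = p := rfl

lemma sw732_sw732 {α : Type} [AddCommGroup α] (a b : Bool) (p : α × α) :
    sw732 a (sw732 b p) = sw732 (xor a b) p := by
  cases a <;> cases b <;> rfl

lemma sw732_eq_zero {α : Type} [AddCommGroup α] (b : Bool) (p : α × α) :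
    sw732 b p = 0 ↔ p = 0 := by
  cases b
  · simp
  · simp only [sw732_true, Prod.ext_iff, Prod.fst_zero, Prod.snd_zero]
    tauto

variable {ι : Type}

/-- The action of the swap group on the coordinate group. -/
def act732 (s : Sw732 ι) : Crd732 ι →+ Crd732 ι where
  toFun y := (sw732 s.1 y.1, fun w => sw732 (s.2 w) (y.2 w))
  map_zero' := by
    refine Prod.ext (map_zero _) ?_
    funext w
    exact map_zero _
  map_add' y y' := by
    refine Prod.ext (map_add _ _ _) ?_
    funext w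
    exact map_add _ _ _

@[simp] lemma act732_fst (s : Sw732 ι) (y : Crd732 ι) : (act732 s y).1 = sw732 s.1 y.1 := rfl

@[simp] lemma act732_snd (s : Sw732 ι) (y : Crd732 ι) (w : ι) :
    (act732 s y).2 w = sw732 (s.2 w) (y.2 w) := rfl

/-- The product of the swap group. -/
def sx732 (s t : Sw732 ι) : Sw732 ι := (xor s.1 t.1, fun w => xor (s.2 w) (t.2 w))

lemma sx732_sx732 (s t : Sw732 ι) : sx732 s (sx732 s t) = t := by
  refine Prod.ext ?_ ?_
  · simp [sx732]
  · funext w
    simp [sx732]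

/-- Left multiplication in the swap group, as a permutation. -/
def sxEquiv732 (s : Sw732 ι) : Sw732 ι ≃ Sw732 ι where
  toFun := sx732 s
  invFun := sx732 s
  left_inv := sx732_sx732 s
  right_inv := sx732_sx732 s

lemma act732_act732 (s t : Sw732 ι) (y : Crd732 ι) :
    act732 s (act732 t y) = act732 (sx732 s t) y := by
  refine Prod.ext ?_ ?_
  · exact sw732_sw732 _ _ _
  · funext w
    exact sw732_sw732 _ _ _

lemma act732_self (s : Sw732 ι) (y : Crd732 ι) : act732 s (act732 s y) = y := by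
  rw [act732_act732]
  refine Prod.ext ?_ ?_
  · simp [sx732]
  · funext w
    simp [sx732]

/-- The unit element of the swap group. -/
def one732 (ι : Type) : Sw732 ι := (false, fun _ => false)

lemma act732_one (y : Crd732 ι) : act732 (one732 ι) y = y := rfl

/-! ## The functions -/

/-- The bump function on `ℝ`. -/
def bump732 : ContDiffBump (0 : ℝ) := ⟨1, 2, zero_lt_one, one_lt_two⟩

/-- `bump ⊗ bump` on `ℝ²`, with complex values. -/
def B732 (p : ℝ × ℝ) : ℂ := ((bump732 p.1 * bump732 p.2 : ℝ) : ℂ)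

lemma B732_sw (b : Bool) (p : ℝ × ℝ) : B732 (sw732 b p) = B732 p := by
  cases b
  · rfl
  · simp [B732, mul_comm]

variable [Fintype ι]

/-- `Φ₁ = δ_{(0,0)} ⊗ ⊗_w (bump ⊗ bump)`. -/
def Phi1_732 (y : Crd732 ι) : ℂ := (if y.1 = 0 then 1 else 0) * ∏ w, B732 (y.2 w)

lemma Phi1_732_act (s : Sw732 ι) (y : Crd732 ι) : Phi1_732 (act732 s y) = Phi1_732 y := by
  unfold Phi1_732
  simp only [act732_fst, act732_snd, B732_sw, sw732_eq_zero]

/-- `c₀ = ((n, 0), (ℓ_w, 0)_w)`. -/
def c0_732 (n : ℕ) (ℓ : ι → ℝ) : Crd732 ι := (((n : ℤ), 0), fun w => (ℓ w, 0))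

/-- The sum of the translates `t c₀`, `t ∈ T`. -/
def cT732 (n : ℕ) (ℓ : ι → ℝ) (T : Finset (Sw732 ι)) : Crd732 ι :=
  ∑ t ∈ T, act732 t (c0_732 n ℓ)

open scoped Classical in
/-- `Φ = ∏_{t ∈ S} (1 - τ_{t c₀}) Φ₁`, expanded. -/
def Phi732 (n : ℕ) (ℓ : ι → ℝ) (y : Crd732 ι) : ℂ :=
  ∑ T : Finset (Sw732 ι), (-1) ^ T.card * Phi1_732 (y - cT732 n ℓ T)


/-! ## Invariance under the swap group -/

omit [Fintype ι] in
open scoped Classical in
lemma cT732_map (n : ℕ) (ℓ : ι → ℝ) (s : Sw732 ι) (T : Finset (Sw732 ι)) :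
    cT732 n ℓ (T.map (sxEquiv732 s).toEmbedding) = act732 s (cT732 n ℓ T) := by
  unfold cT732
  rw [Finset.sum_map, map_sum]
  refine Finset.sum_congr rfl fun t _ => ?_
  rw [act732_act732]
  rfl

open scoped Classical in
lemma Phi732_act (n : ℕ) (ℓ : ι → ℝ) (s : Sw732 ι) (y : Crd732 ι) :
    Phi732 n ℓ (act732 s y) = Phi732 n ℓ y := by
  unfold Phi732
  rw [← Equiv.sum_comp (Equiv.finsetCongr (sxEquiv732 s))
    (fun T => (-1) ^ T.card * Phi1_732 (act732 s y - cT732 n ℓ T))]
  refine Finset.sum_congr rfl fun T _ => ?_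
  have h : (Equiv.finsetCongr (sxEquiv732 s)) T = T.map (sxEquiv732 s).toEmbedding := rfl
  rw [h, Finset.card_map, cT732_map, ← map_sub, Phi1_732_act]

/-! ## Telescoping along `c₀` -/

open scoped Classical in
/-- `Φ₂ = ∏_{t ≠ 1} (1 - τ_{t c₀}) Φ₁`, expanded. -/
def Phi2_732 (n : ℕ) (ℓ : ι → ℝ) (y : Crd732 ι) : ℂ :=
  ∑ T ∈ ((Finset.univ : Finset (Sw732 ι)).erase (one732 ι)).powerset,
    (-1) ^ T.card * Phi1_732 (y - cT732 n ℓ T)

open scoped Classical in
lemma Phi732_eq_sub (n : ℕ) (ℓ : ι → ℝ) (y : Crd732 ι) :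
    Phi732 n ℓ y = Phi2_732 n ℓ y - Phi2_732 n ℓ (y - c0_732 n ℓ) := by
  unfold Phi732 Phi2_732
  have h1 : (Finset.univ : Finset (Finset (Sw732 ι)))
      = (insert (one732 ι) ((Finset.univ : Finset (Sw732 ι)).erase (one732 ι))).powerset := by
    rw [Finset.insert_erase (Finset.mem_univ _), Finset.powerset_univ]
  rw [h1, Finset.sum_powerset_insert (Finset.notMem_erase _ _), sub_eq_add_neg,
    ← Finset.sum_neg_distrib]
  congr 1
  refine Finset.sum_congr rfl fun T hT => ?_
  have hT' : one732 ι ∉ T := fun h =>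
    Finset.notMem_erase (one732 ι) Finset.univ (Finset.mem_powerset.mp hT h)
  have h2 : cT732 n ℓ (insert (one732 ι) T) = c0_732 n ℓ + cT732 n ℓ T := by
    unfold cT732
    rw [Finset.sum_insert hT', act732_one]
  rw [Finset.card_insert_of_notMem hT', pow_succ, h2, sub_add_eq_sub_sub]
  ring

lemma Phi1_732_eq_zero {y : Crd732 ι} (h : y.1 ≠ 0) : Phi1_732 y = 0 := by
  simp [Phi1_732, h]

open scoped Classical in
lemma Phi2_732_ne_zero (n : ℕ) (ℓ : ι → ℝ) {y : Crd732 ι} (h : Phi2_732 n ℓ y ≠ 0) :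
    ∃ T : Finset (Sw732 ι), y.1 = (cT732 n ℓ T).1 := by
  unfold Phi2_732 at h
  obtain ⟨T, _, hT⟩ := Finset.exists_ne_zero_of_sum_ne_zero h
  refine ⟨T, ?_⟩
  by_contra hne
  refine hT ?_
  rw [Phi1_732_eq_zero, mul_zero]
  intro h0
  exact hne (sub_eq_zero.mp h0)

open scoped Classical in
lemma Phi2_732_finite (n : ℕ) (hn : 0 < n) (ℓ : ι → ℝ) (Δ : Crd732 ι) :
    (Function.support fun j : ℤ => Phi2_732 n ℓ (Δ + j • c0_732 n ℓ)).Finite := by
  have hsub : (Function.support fun j : ℤ => Phi2_732 n ℓ (Δ + j • c0_732 n ℓ)) ⊆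
      ⋃ T : Finset (Sw732 ι), {j : ℤ | Δ.1.1 + j * (n : ℤ) = (cT732 n ℓ T).1.1} := by
    intro j hj
    obtain ⟨T, hT⟩ := Phi2_732_ne_zero n ℓ (Function.mem_support.mp hj)
    refine Set.mem_iUnion.mpr ⟨T, ?_⟩
    have := congrArg Prod.fst hT
    simpa [c0_732] using this
  refine Set.Finite.subset (Set.finite_iUnion fun T => ?_) hsub
  refine Set.Subsingleton.finite ?_
  intro j hj j' hj'
  have hj : Δ.1.1 + j * (n : ℤ) = (cT732 n ℓ T).1.1 := hj
  have hj' : Δ.1.1 + j' * (n : ℤ) = (cT732 n ℓ T).1.1 := hj'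
  have hn' : (n : ℤ) ≠ 0 := by exact_mod_cast hn.ne'
  have : j * (n : ℤ) = j' * (n : ℤ) := by linarith
  exact mul_right_cancel₀ hn' this

omit [Fintype ι] in
lemma smul_sub_c0_732 (n : ℕ) (ℓ : ι → ℝ) (Δ : Crd732 ι) (j : ℤ) :
    Δ + j • c0_732 n ℓ - c0_732 n ℓ = Δ + (j - 1) • c0_732 n ℓ := by
  rw [sub_smul, one_smul, add_sub_assoc]

/-- **The telescoping sum**: `∑_{j ∈ ℤ} Φ(Δ + j c₀) = 0`. -/
theorem Phi732_hasSum (n : ℕ) (hn : 0 < n) (ℓ : ι → ℝ) (Δ : Crd732 ι) :
    HasSum (fun j : ℤ => Phi732 n ℓ (Δ + j • c0_732 n ℓ)) 0 := by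
  set g : ℤ → ℂ := fun j => Phi2_732 n ℓ (Δ + j • c0_732 n ℓ) with hgdef
  have hg : Summable g := summable_of_hasFiniteSupport (Phi2_732_finite n hn ℓ Δ)
  have h1 : HasSum g (∑' j, g j) := hg.hasSum
  have h2 : HasSum (g ∘ (Equiv.subRight (1 : ℤ))) (∑' j, g j) :=
    (Equiv.hasSum_iff (Equiv.subRight (1 : ℤ))).mpr h1
  have h3 : HasSum (fun j => g j - (g ∘ (Equiv.subRight (1 : ℤ))) j) (∑' j, g j - ∑' j, g j) :=
    h1.sub h2
  rw [sub_self] at h3
  have hfun : (fun j : ℤ => Phi732 n ℓ (Δ + j • c0_732 n ℓ))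
      = fun j => g j - (g ∘ (Equiv.subRight (1 : ℤ))) j := by
    funext j
    rw [Phi732_eq_sub, smul_sub_c0_732]
    rfl
  rw [hfun]
  exact h3


/-! ## The Fourier--Laplace transform -/

lemma integral_bump732_pos : 0 < ∫ t : ℝ, bump732 t := bump732.integral_pos

lemma integrable_bump732 : Integrable (fun t : ℝ => (bump732 t : ℂ)) :=
  (bump732.integrable (μ := volume)).ofReal

lemma integrable_B732 : Integrable B732 (volume : Measure (ℝ × ℝ)) := by
  have h := Integrable.mul_prod (μ := (volume : Measure ℝ)) (ν := (volume : Measure ℝ))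
    integrable_bump732 integrable_bump732
  refine h.congr (Filter.Eventually.of_forall fun p => ?_)
  simp [B732]

lemma integral_B732 : ∫ p : ℝ × ℝ, B732 p = ((∫ t : ℝ, bump732 t : ℝ) : ℂ) ^ 2 := by
  have h := integral_prod_mul (μ := (volume : Measure ℝ)) (ν := (volume : Measure ℝ))
    (fun t : ℝ => (bump732 t : ℂ)) (fun t : ℝ => (bump732 t : ℂ))
  have hb : ∫ t : ℝ, ((bump732 t : ℝ) : ℂ) = ((∫ t : ℝ, bump732 t : ℝ) : ℂ) := integral_ofReal
  rw [hb] at h
  rw [sq, ← h]
  refine integral_congr_ae (Filter.Eventually.of_forall fun p => ?_)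
  simp [B732]

/-- `J = ∫ ⊗_w (bump ⊗ bump)`. -/
def J732 (ι : Type) [Fintype ι] : ℂ := ∫ x : ι → ℝ × ℝ, ∏ w, B732 (x w)

lemma J732_eq : J732 ι = (((∫ t : ℝ, bump732 t : ℝ) : ℂ) ^ 2) ^ Fintype.card ι := by
  unfold J732
  rw [integral_fintype_prod_volume_eq_pow B732, integral_B732]

lemma J732_ne_zero : J732 ι ≠ 0 := by
  rw [J732_eq]
  refine pow_ne_zero _ (pow_ne_zero _ ?_)
  exact_mod_cast integral_bump732_pos.ne'

lemma integrable_G732 (c : ι → ℝ × ℝ) :
    Integrable (fun x : ι → ℝ × ℝ => ∏ w, B732 ((x - c) w)) := by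
  have h : Integrable (fun x : ι → ℝ × ℝ => ∏ w, B732 (x w)) :=
    Integrable.fintype_prod (f := fun _ : ι => B732) (μ := fun _ => volume)
      (fun _ => integrable_B732)
  exact h.comp_sub_right c

lemma integral_G732 (c : ι → ℝ × ℝ) :
    ∫ x : ι → ℝ × ℝ, ∏ w, B732 ((x - c) w) = J732 ι :=
  integral_sub_right_eq_self (fun x : ι → ℝ × ℝ => ∏ w, B732 (x w)) c

open scoped Classical in
lemma Phi732_apply (n : ℕ) (ℓ : ι → ℝ) (m : ℤ × ℤ) (x : ι → ℝ × ℝ) :
    Phi732 n ℓ (m, x) = ∑ T : Finset (Sw732 ι),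
      ((-1) ^ T.card * (if m = (cT732 n ℓ T).1 then 1 else 0)) *
        ∏ w, B732 ((x - (cT732 n ℓ T).2) w) := by
  unfold Phi732 Phi1_732
  refine Finset.sum_congr rfl fun T _ => ?_
  simp only [Prod.fst_sub, Prod.snd_sub, sub_eq_zero, mul_assoc]

open scoped Classical in
lemma integral_Phi732 (n : ℕ) (ℓ : ι → ℝ) (m : ℤ × ℤ) :
    ∫ x : ι → ℝ × ℝ, Phi732 n ℓ (m, x) = ∑ T : Finset (Sw732 ι),
      ((-1) ^ T.card * (if m = (cT732 n ℓ T).1 then 1 else 0)) * J732 ι := by
  simp only [Phi732_apply]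
  rw [integral_finsetSum]
  · refine Finset.sum_congr rfl fun T _ => ?_
    rw [integral_const_mul, integral_G732]
  · intro T _
    exact (integrable_G732 _).const_mul _

/-- The character `m ↦ z₁^{m₁} z₂^{m₂}`. -/
def chi732 (z₁ z₂ : ℂ) (m : ℤ × ℤ) : ℂ := z₁ ^ m.1 * z₂ ^ m.2

lemma chi732_zero (z₁ z₂ : ℂ) : chi732 z₁ z₂ 0 = 1 := by simp [chi732]

lemma chi732_add {z₁ z₂ : ℂ} (h₁ : z₁ ≠ 0) (h₂ : z₂ ≠ 0) (m m' : ℤ × ℤ) :
    chi732 z₁ z₂ (m + m') = chi732 z₁ z₂ m * chi732 z₁ z₂ m' := by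
  simp only [chi732, Prod.fst_add, Prod.snd_add, zpow_add₀ h₁, zpow_add₀ h₂]
  ring

lemma chi732_sum {z₁ z₂ : ℂ} (h₁ : z₁ ≠ 0) (h₂ : z₂ ≠ 0) {α : Type} (T : Finset α)
    (f : α → ℤ × ℤ) : chi732 z₁ z₂ (∑ t ∈ T, f t) = ∏ t ∈ T, chi732 z₁ z₂ (f t) := by
  classical
  induction T using Finset.induction_on with
  | empty => simp [chi732_zero]
  | insert a T ha ih => rw [Finset.sum_insert ha, Finset.prod_insert ha, chi732_add h₁ h₂, ih]

omit [Fintype ι] in
lemma chi732_act (n : ℕ) (ℓ : ι → ℝ) (z₁ z₂ : ℂ) (t : Sw732 ι) :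
    chi732 z₁ z₂ (act732 t (c0_732 n ℓ)).1 = bif t.1 then z₂ ^ n else z₁ ^ n := by
  rcases t with ⟨i, ε⟩
  cases i <;> simp [chi732, c0_732]

omit [Fintype ι] in
lemma chi732_cT {z₁ z₂ : ℂ} (h₁ : z₁ ≠ 0) (h₂ : z₂ ≠ 0) (n : ℕ) (ℓ : ι → ℝ)
    (T : Finset (Sw732 ι)) :
    chi732 z₁ z₂ (cT732 n ℓ T).1 = ∏ t ∈ T, (bif t.1 then z₂ ^ n else z₁ ^ n) := by
  unfold cT732
  rw [Prod.fst_sum, chi732_sum h₁ h₂]
  refine Finset.prod_congr rfl fun t _ => ?_
  exact chi732_act n ℓ z₁ z₂ t

open scoped Classical in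
/-- **The transform of `Φ`**. -/
theorem ft_Phi732 (n : ℕ) (ℓ : ι → ℝ) {z₁ z₂ : ℂ} (h₁ : z₁ ≠ 0) (h₂ : z₂ ≠ 0) :
    (∑ᶠ m : ℤ × ℤ, (∫ x : ι → ℝ × ℝ, Phi732 n ℓ (m, x)) * z₁ ^ m.1 * z₂ ^ m.2)
      = J732 ι * ∏ t : Sw732 ι, (1 - bif t.1 then z₂ ^ n else z₁ ^ n) := by
  have hrw : ∀ m : ℤ × ℤ, (∫ x : ι → ℝ × ℝ, Phi732 n ℓ (m, x)) * z₁ ^ m.1 * z₂ ^ m.2
      = ∑ T : Finset (Sw732 ι),
          (if m = (cT732 n ℓ T).1 then ((-1) ^ T.card * J732 ι) * chi732 z₁ z₂ m else 0) := by
    intro m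
    rw [integral_Phi732, mul_assoc, Finset.sum_mul]
    refine Finset.sum_congr rfl fun T _ => ?_
    by_cases hm : m = (cT732 n ℓ T).1
    · simp only [if_pos hm, mul_one, chi732]
    · simp only [if_neg hm, mul_zero, zero_mul]
  simp only [hrw]
  rw [finsum_sum_comm]
  · have hsingle : ∀ T : Finset (Sw732 ι),
        (∑ᶠ m : ℤ × ℤ, (if m = (cT732 n ℓ T).1 then
          ((-1) ^ T.card * J732 ι) * chi732 z₁ z₂ m else 0))
        = ((-1) ^ T.card * J732 ι) * chi732 z₁ z₂ (cT732 n ℓ T).1 := by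
      intro T
      rw [finsum_eq_single _ (cT732 n ℓ T).1]
      · simp
      · intro m hm
        simp [hm]
    simp only [hsingle]
    have hprod := Finset.prod_sub (fun _ : Sw732 ι => (1 : ℂ))
      (fun t : Sw732 ι => bif t.1 then z₂ ^ n else z₁ ^ n) Finset.univ
    rw [hprod, Finset.powerset_univ, Finset.mul_sum]
    refine Finset.sum_congr rfl fun T _ => ?_
    rw [chi732_cT h₁ h₂]
    simp only [Finset.prod_const_one, mul_one]
    ring
  · intro T _
    refine Set.Finite.subset (Set.finite_singleton (cT732 n ℓ T).1) ?_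
    intro m hm
    by_contra hne
    exact hm (by simp [show m ≠ (cT732 n ℓ T).1 from hne])

/-- **Non-vanishing of the transform.** -/
theorem ft_Phi732_ne_zero (n : ℕ) (ℓ : ι → ℝ) {z₁ z₂ : ℂ} (h₁ : z₁ ≠ 0) (h₂ : z₂ ≠ 0)
    (hz₁ : z₁ ^ n ≠ 1) (hz₂ : z₂ ^ n ≠ 1) :
    (∑ᶠ m : ℤ × ℤ, (∫ x : ι → ℝ × ℝ, Phi732 n ℓ (m, x)) * z₁ ^ m.1 * z₂ ^ m.2) ≠ 0 := by
  classical
  rw [ft_Phi732 n ℓ h₁ h₂]
  refine mul_ne_zero J732_ne_zero (Finset.prod_ne_zero_iff.mpr fun t _ => ?_)
  rcases t with ⟨i, ε⟩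
  cases i
  · exact sub_ne_zero.mpr (Ne.symm hz₁)
  · exact sub_ne_zero.mpr (Ne.symm hz₂)


/-! ## `Φ` is in the span of the symmetric pure tensors -/

/-- A symmetric pure tensor on `Crd732 ι` (the definition `T3.IsSymPure` for a general finite
index type). -/
def IsSymPure732 (ι : Type) [Fintype ι] (Φ : Crd732 ι → ℂ) : Prop :=
  ∃ (A : ℤ × ℤ → ℂ) (β : ι → ℝ × ℝ → ℂ),
    (Function.support A).Finite ∧ (∀ m₁ m₂ : ℤ, A (m₁, m₂) = A (m₂, m₁)) ∧
    (∀ w : ι, ContDiff ℝ ((⊤ : ℕ∞) : WithTop ℕ∞) (β w) ∧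
      HasCompactSupport (β w) ∧ ∀ x y : ℝ, β w (x, y) = β w (y, x)) ∧
    ∀ (m : ℤ × ℤ) (x : ι → ℝ × ℝ), Φ (m, x) = A m * ∏ w, β w (x w)

/-- The sum over the swaps of the translate of `δ₀`. -/
def A732 (c : ℤ × ℤ) (m : ℤ × ℤ) : ℂ := ∑ i : Bool, if sw732 i m = c then 1 else 0

/-- The sum over the swaps of the translate of `bump ⊗ bump`. -/
def beta732 (c : ℝ × ℝ) (p : ℝ × ℝ) : ℂ := ∑ e : Bool, B732 (sw732 e p - c)

lemma A732_eq (c m : ℤ × ℤ) :
    A732 c m = (if (m.2, m.1) = c then 1 else 0) + (if m = c then 1 else 0) := by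
  unfold A732
  rw [Fintype.sum_bool]
  rfl

lemma beta732_eq (c p : ℝ × ℝ) :
    beta732 c p = B732 ((p.2, p.1) - c) + B732 (p - c) := by
  simp [beta732]

lemma A732_support (c : ℤ × ℤ) : (Function.support (A732 c)).Finite := by
  refine Set.Finite.subset (Set.toFinite {c, (c.2, c.1)}) ?_
  intro m hm
  rw [Function.mem_support, A732_eq] at hm
  by_cases h1 : m = c
  · exact Or.inl h1
  · by_cases h2 : (m.2, m.1) = c
    · right
      rw [Set.mem_singleton_iff, ← h2]
    · exact absurd (by simp [h1, h2]) hm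

lemma A732_symm (c : ℤ × ℤ) (m₁ m₂ : ℤ) : A732 c (m₁, m₂) = A732 c (m₂, m₁) := by
  rw [A732_eq, A732_eq]
  exact add_comm _ _

lemma beta732_symm (c : ℝ × ℝ) (x y : ℝ) : beta732 c (x, y) = beta732 c (y, x) := by
  rw [beta732_eq, beta732_eq]
  exact add_comm _ _

lemma contDiff_B732 : ContDiff ℝ ((⊤ : ℕ∞) : WithTop ℕ∞) B732 := by
  have h1 : ContDiff ℝ ((⊤ : ℕ∞) : WithTop ℕ∞) (fun p : ℝ × ℝ => bump732 p.1 * bump732 p.2) :=
    (bump732.contDiff.comp contDiff_fst).mul (bump732.contDiff.comp contDiff_snd)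
  exact Complex.ofRealCLM.contDiff.comp h1

lemma hasCompactSupport_B732 : HasCompactSupport B732 := by
  refine HasCompactSupport.intro
    ((isCompact_closedBall (0 : ℝ) 2).prod (isCompact_closedBall (0 : ℝ) 2)) ?_
  intro p hp
  have hp' : ¬ (p.1 ∈ Metric.closedBall (0 : ℝ) 2 ∧ p.2 ∈ Metric.closedBall (0 : ℝ) 2) := by
    intro h
    exact hp (Set.mem_prod.mpr h)
  have hz : bump732 p.1 = 0 ∨ bump732 p.2 = 0 := by
    by_cases h1 : p.1 ∈ Metric.closedBall (0 : ℝ) 2
    · right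
      have h2 : p.2 ∉ Metric.closedBall (0 : ℝ) 2 := fun h2 => hp' ⟨h1, h2⟩
      refine bump732.zero_of_le_dist ?_
      rw [Metric.mem_closedBall, not_le] at h2
      exact h2.le
    · left
      refine bump732.zero_of_le_dist ?_
      rw [Metric.mem_closedBall, not_le] at h1
      exact h1.le
  rcases hz with hz | hz <;> simp [B732, hz]

lemma contDiff_beta732 (c : ℝ × ℝ) : ContDiff ℝ ((⊤ : ℕ∞) : WithTop ℕ∞) (beta732 c) := by
  have h : beta732 c = fun p => B732 ((p.2, p.1) - c) + B732 (p - c) := by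
    funext p
    exact beta732_eq c p
  rw [h]
  refine ContDiff.add ?_ ?_
  · exact contDiff_B732.comp ((contDiff_snd.prodMk contDiff_fst).sub contDiff_const)
  · exact contDiff_B732.comp (contDiff_id.sub contDiff_const)

lemma hasCompactSupport_beta732 (c : ℝ × ℝ) : HasCompactSupport (beta732 c) := by
  have h : beta732 c = (B732 ∘ ((Homeomorph.prodComm ℝ ℝ).trans (Homeomorph.subRight c)))
      + (B732 ∘ (Homeomorph.subRight c)) := by
    funext p
    exact beta732_eq c p
  rw [h]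
  exact (hasCompactSupport_B732.comp_homeomorph _).add
    (hasCompactSupport_B732.comp_homeomorph _)

/-- The sum over the swap group of a translate of `Φ₁` is a symmetric pure tensor. -/
lemma isSymPure732_avg (c : Crd732 ι) :
    IsSymPure732 ι (fun y => A732 c.1 y.1 * ∏ w, beta732 (c.2 w) (y.2 w)) :=
  ⟨A732 c.1, fun w => beta732 (c.2 w), A732_support c.1, A732_symm c.1,
    fun _ => ⟨contDiff_beta732 _, hasCompactSupport_beta732 _, beta732_symm _⟩,
    fun _ _ => rfl⟩

open scoped Classical in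
lemma sum_act_Phi1_732 (c : Crd732 ι) (y : Crd732 ι) :
    ∑ s : Sw732 ι, Phi1_732 (act732 s y - c) = A732 c.1 y.1 * ∏ w, beta732 (c.2 w) (y.2 w) := by
  unfold A732 beta732
  rw [Fintype.sum_prod_type, Finset.sum_mul]
  refine Finset.sum_congr rfl fun i _ => ?_
  rw [Fintype.prod_sum, Finset.mul_sum]
  refine Finset.sum_congr rfl fun ε _ => ?_
  simp only [Phi1_732, Prod.fst_sub, Prod.snd_sub, act732_fst, act732_snd, sub_eq_zero,
    Pi.sub_apply]

open scoped Classical in
lemma Phi732_eq_avg (n : ℕ) (ℓ : ι → ℝ) (y : Crd732 ι) :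
    Phi732 n ℓ y = ∑ T : Finset (Sw732 ι),
      ((-1) ^ T.card * ((Fintype.card (Sw732 ι) : ℂ))⁻¹) *
        (A732 (cT732 n ℓ T).1 y.1 * ∏ w, beta732 ((cT732 n ℓ T).2 w) (y.2 w)) := by
  have hcard : ((Fintype.card (Sw732 ι) : ℂ)) ≠ 0 := by
    have : 0 < Fintype.card (Sw732 ι) := Fintype.card_pos_iff.mpr ⟨one732 ι⟩
    exact_mod_cast this.ne'
  have h1 : (Fintype.card (Sw732 ι) : ℂ) * Phi732 n ℓ y
      = ∑ s : Sw732 ι, Phi732 n ℓ (act732 s y) := by
    simp only [Phi732_act, Finset.sum_const, Finset.card_univ, nsmul_eq_mul]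
  have h2 : ∑ s : Sw732 ι, Phi732 n ℓ (act732 s y)
      = ∑ T : Finset (Sw732 ι), (-1) ^ T.card *
          (A732 (cT732 n ℓ T).1 y.1 * ∏ w, beta732 ((cT732 n ℓ T).2 w) (y.2 w)) := by
    unfold Phi732
    rw [Finset.sum_comm]
    refine Finset.sum_congr rfl fun T _ => ?_
    rw [← Finset.mul_sum, sum_act_Phi1_732]
  have h3 : Phi732 n ℓ y = ((Fintype.card (Sw732 ι) : ℂ))⁻¹ *
      ((Fintype.card (Sw732 ι) : ℂ) * Phi732 n ℓ y) := by
    field_simp
  rw [h3, h1, h2, Finset.mul_sum]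
  refine Finset.sum_congr rfl fun T _ => ?_
  ring

open scoped Classical in
/-- **`Φ` is in the span of the symmetric pure tensors.** -/
theorem Phi732_mem (n : ℕ) (ℓ : ι → ℝ) :
    Phi732 n ℓ ∈ Submodule.span ℂ {Φ : Crd732 ι → ℂ | IsSymPure732 ι Φ} := by
  have h : Phi732 n ℓ = ∑ T : Finset (Sw732 ι),
      ((-1) ^ T.card * ((Fintype.card (Sw732 ι) : ℂ))⁻¹) •
        (fun y : Crd732 ι =>
          A732 (cT732 n ℓ T).1 y.1 * ∏ w, beta732 ((cT732 n ℓ T).2 w) (y.2 w)) := by
    funext y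
    rw [Phi732_eq_avg, Finset.sum_apply]
    rfl
  rw [h]
  exact Submodule.sum_mem _ fun T _ =>
    Submodule.smul_mem _ _ (Submodule.subset_span (isSymPure732_avg _))

/-- **THE CORE**: the function `Φ` of leaf T3.18b. -/
theorem exists_ekPhi732 (ι : Type) [Fintype ι] (n : ℕ) (hn : 0 < n) (ℓ : ι → ℝ) :
    ∃ Φ : (ℤ × ℤ) × (ι → ℝ × ℝ) → ℂ,
      Φ ∈ Submodule.span ℂ {Φ : (ℤ × ℤ) × (ι → ℝ × ℝ) → ℂ | IsSymPure732 ι Φ} ∧
      (∀ Δ : (ℤ × ℤ) × (ι → ℝ × ℝ),
        HasSum (fun j : ℤ => Φ (Δ + j • ((((n : ℤ), 0), fun w => (ℓ w, 0)) :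
          (ℤ × ℤ) × (ι → ℝ × ℝ)))) 0) ∧
      ∀ z₁ z₂ : ℂ, z₁ ≠ 0 → z₂ ≠ 0 → z₁ ^ n ≠ 1 → z₂ ^ n ≠ 1 →
        (∑ᶠ m : ℤ × ℤ, (∫ x : ι → ℝ × ℝ, Φ (m, x)) * z₁ ^ m.1 * z₂ ^ m.2) ≠ 0 :=
  ⟨Phi732 n ℓ, Phi732_mem n ℓ, fun Δ => Phi732_hasSum n hn ℓ Δ,
    fun _ _ h₁ h₂ hz₁ hz₂ => ft_Phi732_ne_zero n ℓ h₁ h₂ hz₁ hz₂⟩

end Fermat.Agent.LT.T3.H732

end

end
-- ===== PACK-END LT/T3/H732/EKCore.lean

-- ===== PACK-BEGIN LT/H415/AutAbs.lean
section


/-!
# Row LT, asset AUT-UNIQUE (helper415): abstract core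

OFF-MAIN.  Mathlib only.

A *place datum* of a commutative topological ring `A` with values in a topological field `F`
is a continuous ring homomorphism `pr : A →+* F` together with a continuous section
`sec : F → A` such that `x * sec 1 = sec (pr x)` (so `sec 1` is the idempotent of the place and
`sec` is the inclusion of the factor `F`).

For a continuous ring endomorphism `τ` of `A` which is `σ`-semilinear over a subfield
`ι : K →+* A` we prove

* `PlaceDatum.pr_tau_idem_eq_zero` (no cross-talk): if some `x ∈ K` is topologically nilpotent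
  at the place `P₁` while `σ x` is not topologically nilpotent at `P₂`, then the `P₂`-component
  of `τ (e₁)` vanishes;
* `PlaceDatum.pr_tau_eq` (transport): if the `P₂`-component of `τ (e₁)` is `1`, then
  `P₂.pr ∘ τ = ψ ∘ P₁.pr` for the continuous ring homomorphism `ψ = P₂.pr ∘ τ ∘ P₁.sec`.
-/

set_option autoImplicit false

open Filter Topology

namespace Fermat.Agent.LT.H415

/-- A place of the topological ring `A` with local field `F`: projection and section. -/
structure PlaceDatum (A F : Type*) [CommRing A] [TopologicalSpace A] [Field F]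
    [TopologicalSpace F] where
  /-- the projection onto the factor -/
  pr : A →+* F
  /-- the inclusion of the factor (not unital) -/
  sec : F → A
  cont_pr : Continuous pr
  cont_sec : Continuous sec
  mul_sec_one : ∀ x : A, x * sec 1 = sec (pr x)
  pr_sec : ∀ a : F, pr (sec a) = a

namespace PlaceDatum

variable {A F F₁ F₂ K : Type*} [CommRing A] [TopologicalSpace A] [Field F] [TopologicalSpace F]
  [Field F₁] [TopologicalSpace F₁] [Field F₂] [TopologicalSpace F₂] [Field K]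

/-- The idempotent of the place. -/
def idem (P : PlaceDatum A F) : A := P.sec 1

theorem pr_idem (P : PlaceDatum A F) : P.pr P.idem = 1 := P.pr_sec 1

theorem mul_idem (P : PlaceDatum A F) (x : A) : x * P.idem = P.sec (P.pr x) := P.mul_sec_one x

theorem idem_mul_idem (P : PlaceDatum A F) : P.idem * P.idem = P.idem := by
  rw [P.mul_idem, P.pr_idem]; rfl

theorem sec_zero (P : PlaceDatum A F) : P.sec 0 = 0 := by
  have h := P.mul_idem 0
  rw [zero_mul, map_zero] at h
  exact h.symm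

theorem sec_eq_mul_idem (P : PlaceDatum A F) (x : A) : P.sec (P.pr x) = x * P.idem :=
  (P.mul_idem x).symm

theorem idem_ne_zero (P : PlaceDatum A F) : P.idem ≠ 0 := by
  intro h
  have h1 := P.pr_idem
  rw [h, map_zero] at h1
  exact zero_ne_one h1

/-- The component at a place of the image of an idempotent is `0` or `1`. -/
theorem pr_map_idem (P₁ : PlaceDatum A F₁) (P₂ : PlaceDatum A F₂) (τ : A →+* A) :
    P₂.pr (τ P₁.idem) = 0 ∨ P₂.pr (τ P₁.idem) = 1 := by
  have h : P₂.pr (τ P₁.idem) * P₂.pr (τ P₁.idem) = P₂.pr (τ P₁.idem) := by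
    rw [← map_mul, ← map_mul, P₁.idem_mul_idem]
  rcases eq_or_ne (P₂.pr (τ P₁.idem)) 0 with h0 | h0
  · exact Or.inl h0
  · right
    have h2 : P₂.pr (τ P₁.idem) * (P₂.pr (τ P₁.idem) - 1) = 0 := by
      rw [mul_sub, h, mul_one, sub_self]
    rcases mul_eq_zero.1 h2 with h3 | h3
    · exact absurd h3 h0
    · exact sub_eq_zero.1 h3

/-- **No cross-talk.**  If `x ∈ K` is topologically nilpotent at `P₁` and `σ x` is not
topologically nilpotent at `P₂`, the `P₂`-component of `τ e₁` vanishes. -/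
theorem pr_tau_idem_eq_zero (P₁ : PlaceDatum A F₁) (P₂ : PlaceDatum A F₂) (ι : K →+* A)
    (σ : K → K) (τ : A →+* A) (hτ : Continuous τ) (hτι : ∀ x, τ (ι x) = ι (σ x)) (x : K)
    (h1 : Tendsto (fun n : ℕ => P₁.pr (ι x) ^ n) atTop (𝓝 0))
    (h2 : ¬ Tendsto (fun n : ℕ => P₂.pr (ι (σ x)) ^ n) atTop (𝓝 0)) :
    P₂.pr (τ P₁.idem) = 0 := by
  rcases P₁.pr_map_idem P₂ τ with h | h
  · exact h
  · exfalso
    apply h2
    have hc : Continuous fun a : F₁ => P₂.pr (τ (P₁.sec a)) :=
      P₂.cont_pr.comp (hτ.comp P₁.cont_sec)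
    have ht : Tendsto (fun n : ℕ => P₂.pr (τ (P₁.sec (P₁.pr (ι x) ^ n)))) atTop
        (𝓝 (P₂.pr (τ (P₁.sec 0)))) := (hc.tendsto 0).comp h1
    rw [P₁.sec_zero, map_zero, map_zero] at ht
    refine ht.congr fun n => ?_
    rw [← map_pow P₁.pr, P₁.sec_eq_mul_idem, map_mul, map_mul, h, mul_one, map_pow τ, hτι,
      map_pow]

/-- The local homomorphism `ψ = P₂.pr ∘ τ ∘ P₁.sec`. -/
def localMap (P₁ : PlaceDatum A F₁) (P₂ : PlaceDatum A F₂) (τ : A →+* A) : F₁ → F₂ :=
  fun a => P₂.pr (τ (P₁.sec a))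

theorem continuous_localMap (P₁ : PlaceDatum A F₁) (P₂ : PlaceDatum A F₂) (τ : A →+* A)
    (hτ : Continuous τ) : Continuous (localMap P₁ P₂ τ) :=
  P₂.cont_pr.comp (hτ.comp P₁.cont_sec)

/-- **Transport.**  If the `P₂`-component of `τ e₁` is `1`, then the `P₂`-component of `τ x`
only depends on the `P₁`-component of `x`. -/
theorem pr_tau_eq (P₁ : PlaceDatum A F₁) (P₂ : PlaceDatum A F₂) (τ : A →+* A)
    (h : P₂.pr (τ P₁.idem) = 1) (x : A) :
    P₂.pr (τ x) = localMap P₁ P₂ τ (P₁.pr x) := by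
  unfold localMap
  rw [P₁.sec_eq_mul_idem, map_mul, map_mul, h, mul_one]

theorem localMap_one (P₁ : PlaceDatum A F₁) (P₂ : PlaceDatum A F₂) (τ : A →+* A)
    (h : P₂.pr (τ P₁.idem) = 1) : localMap P₁ P₂ τ 1 = 1 := h

theorem localMap_mul (P₁ : PlaceDatum A F₁) (P₂ : PlaceDatum A F₂) (τ : A →+* A)
    (h : P₂.pr (τ P₁.idem) = 1) (a b : F₁) :
    localMap P₁ P₂ τ (a * b) = localMap P₁ P₂ τ a * localMap P₁ P₂ τ b := by
  have hab := pr_tau_eq P₁ P₂ τ h (P₁.sec a * P₁.sec b)
  rw [map_mul P₁.pr, P₁.pr_sec, P₁.pr_sec] at hab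
  rw [← hab, map_mul τ, map_mul P₂.pr]
  rfl

theorem localMap_add (P₁ : PlaceDatum A F₁) (P₂ : PlaceDatum A F₂) (τ : A →+* A)
    (h : P₂.pr (τ P₁.idem) = 1) (a b : F₁) :
    localMap P₁ P₂ τ (a + b) = localMap P₁ P₂ τ a + localMap P₁ P₂ τ b := by
  have hab := pr_tau_eq P₁ P₂ τ h (P₁.sec a + P₁.sec b)
  rw [map_add P₁.pr, P₁.pr_sec, P₁.pr_sec] at hab
  rw [← hab, map_add τ, map_add P₂.pr]
  rfl

theorem localMap_zero (P₁ : PlaceDatum A F₁) (P₂ : PlaceDatum A F₂) (τ : A →+* A) :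
    localMap P₁ P₂ τ 0 = 0 := by
  unfold localMap
  rw [P₁.sec_zero, map_zero, map_zero]

/-- The local homomorphism as a ring homomorphism. -/
def localHom (P₁ : PlaceDatum A F₁) (P₂ : PlaceDatum A F₂) (τ : A →+* A)
    (h : P₂.pr (τ P₁.idem) = 1) : F₁ →+* F₂ where
  toFun := localMap P₁ P₂ τ
  map_one' := localMap_one P₁ P₂ τ h
  map_mul' := localMap_mul P₁ P₂ τ h
  map_zero' := localMap_zero P₁ P₂ τ
  map_add' := localMap_add P₁ P₂ τ h

theorem localMap_of_field (P₁ : PlaceDatum A F₁) (P₂ : PlaceDatum A F₂) (ι : K →+* A)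
    (σ : K → K) (τ : A →+* A) (hτι : ∀ x, τ (ι x) = ι (σ x))
    (h : P₂.pr (τ P₁.idem) = 1) (x : K) :
    localMap P₁ P₂ τ (P₁.pr (ι x)) = P₂.pr (ι (σ x)) := by
  rw [← pr_tau_eq P₁ P₂ τ h, hτι]

/-- **Same place, identity on a dense subfield.**  If `τ` fixes `K`, `K` is dense at the place
`P` and the `P`-component of `τ e` is `1`, then `τ` does not change `P`-components. -/
theorem pr_tau_eq_self [T2Space F] (P : PlaceDatum A F) (ι : K →+* A) (τ : A →+* A)
    (hτ : Continuous τ) (hτι : ∀ x, τ (ι x) = ι x)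
    (hd : DenseRange fun x : K => P.pr (ι x)) (h : P.pr (τ P.idem) = 1) (x : A) :
    P.pr (τ x) = P.pr x := by
  have hid : localMap P P τ = id := by
    refine hd.equalizer (continuous_localMap P P τ hτ) continuous_id ?_
    funext y
    simp only [Function.comp_apply, id]
    exact localMap_of_field P P ι id τ hτι h y
  rw [pr_tau_eq P P τ h, hid]
  rfl

end PlaceDatum

end Fermat.Agent.LT.H415

end
-- ===== PACK-END LT/H415/AutAbs.lean

-- ===== PACK-BEGIN LT/T5/H379/HilbAbs.lean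
section


/-!
# Row LT, tower T5, leaf T5.01 (helper379): Hilbert space lemmas (Mathlib only)

* `orth_summable379` : a pairwise orthogonal sequence `φ` with `⟪φ i, y⟫ = ⟪φ i, φ i⟫` is summable.
* `parseval_expand379` : Parseval's identity for `g` in an orthonormal sequence `E` gives
  `⟪w, g⟫ = ∑ ⟪w, E i⟫ ⟪E i, g⟫` for every `w`.
-/

set_option autoImplicit false

open scoped InnerProductSpace ComplexConjugate

noncomputable section

namespace Fermat.Agent.LT.T5.H379

variable {E : Type*} [NormedAddCommGroup E] [InnerProductSpace ℂ E]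

theorem hasSum_inner_right379 {ι : Type*} {φ : ι → E} {g : E} (h : HasSum φ g) (a : E) :
    HasSum (fun i => ⟪a, φ i⟫_ℂ) ⟪a, g⟫_ℂ :=
  (innerSL ℂ a).hasSum h

theorem hasSum_inner_left379 {ι : Type*} {φ : ι → E} {g : E} (h : HasSum φ g) (a : E) :
    HasSum (fun i => ⟪φ i, a⟫_ℂ) ⟪g, a⟫_ℂ := by
  have h1 := (hasSum_inner_right379 h a).star
  simpa using h1

/-- Bessel's inequality for an orthogonal sequence of "projections" of `y`. -/
theorem orth_sum_le379 {φ : ℕ → E} {y : E}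
    (horth : ∀ i j, i ≠ j → ⟪φ i, φ j⟫_ℂ = 0)
    (hproj : ∀ i, ⟪φ i, y⟫_ℂ = ⟪φ i, φ i⟫_ℂ) (s : Finset ℕ) :
    ∑ i ∈ s, ‖φ i‖ ^ 2 ≤ ‖y‖ ^ 2 := by
  classical
  set p : E := ∑ i ∈ s, φ i with hp
  have h1 : ⟪p, p⟫_ℂ = ∑ i ∈ s, ⟪φ i, φ i⟫_ℂ := by
    rw [hp, sum_inner]
    refine Finset.sum_congr rfl fun i hi => ?_
    rw [inner_sum]
    exact Finset.sum_eq_single i (fun j _ hji => horth i j (Ne.symm hji))
      (fun h => absurd hi h)
  have h2 : ⟪p, y⟫_ℂ = ∑ i ∈ s, ⟪φ i, φ i⟫_ℂ := by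
    rw [hp, sum_inner]
    exact Finset.sum_congr rfl fun i _ => hproj i
  have h3 : ⟪p, y⟫_ℂ = ((‖p‖ ^ 2 : ℝ) : ℂ) := by
    rw [h2, ← h1, inner_self_eq_norm_sq_to_K]
    norm_cast
  have h4 : ‖p‖ ^ 2 ≤ ‖p‖ * ‖y‖ := by
    have := norm_inner_le_norm (𝕜 := ℂ) p y
    rw [h3, Complex.norm_real, Real.norm_eq_abs, abs_of_nonneg (by positivity)] at this
    exact this
  have h5 : ‖p‖ ≤ ‖y‖ := by
    rcases (norm_nonneg p).eq_or_lt with h0 | h0
    · rw [← h0]; exact norm_nonneg y
    · rw [pow_two] at h4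
      exact le_of_mul_le_mul_left h4 h0
  have h6 : ((∑ i ∈ s, ‖φ i‖ ^ 2 : ℝ) : ℂ) = ((‖p‖ ^ 2 : ℝ) : ℂ) := by
    rw [← h3, h2]
    push_cast
    refine Finset.sum_congr rfl fun i _ => ?_
    rw [inner_self_eq_norm_sq_to_K]
    norm_cast
  have h7 : ∑ i ∈ s, ‖φ i‖ ^ 2 = ‖p‖ ^ 2 := by exact_mod_cast h6
  rw [h7]
  exact pow_le_pow_left₀ (norm_nonneg _) h5 2

/-- The sum of an orthogonal sequence of projections of `y`: inner products with the terms. -/
theorem orth_inner_tsum379 {φ : ℕ → E} {g' : E} (hs : HasSum φ g')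
    (horth : ∀ i j, i ≠ j → ⟪φ i, φ j⟫_ℂ = 0) (j : ℕ) :
    ⟪φ j, g'⟫_ℂ = ⟪φ j, φ j⟫_ℂ := by
  have h1 := hasSum_inner_right379 hs (φ j)
  have h2 : HasSum (fun i => ⟪φ j, φ i⟫_ℂ) ⟪φ j, φ j⟫_ℂ :=
    hasSum_single j (fun i hij => horth j i (Ne.symm hij))
  exact h1.unique h2

/-- The remainder is orthogonal to the sum. -/
theorem orth_rem379 {φ : ℕ → E} {y g' : E} (hs : HasSum φ g')
    (horth : ∀ i j, i ≠ j → ⟪φ i, φ j⟫_ℂ = 0)
    (hproj : ∀ i, ⟪φ i, y⟫_ℂ = ⟪φ i, φ i⟫_ℂ) : ⟪g', y - g'⟫_ℂ = 0 := by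
  have h1 := hasSum_inner_left379 hs (y - g')
  have h2 : (fun i => ⟪φ i, y - g'⟫_ℂ) = fun _ => 0 := by
    funext i
    rw [inner_sub_right, hproj i, orth_inner_tsum379 hs horth i, sub_self]
  rw [h2] at h1
  exact h1.unique hasSum_zero

/-- The square norm of the sum. -/
theorem orth_norm_sq379 {φ : ℕ → E} {g' : E} (hs : HasSum φ g')
    (horth : ∀ i j, i ≠ j → ⟪φ i, φ j⟫_ℂ = 0) :
    HasSum (fun i => ‖φ i‖ ^ 2) (‖g'‖ ^ 2) := by
  have h1 := hasSum_inner_left379 hs g'
  have h2 : (fun i => ⟪φ i, g'⟫_ℂ) = fun i => ((‖φ i‖ ^ 2 : ℝ) : ℂ) := by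
    funext i
    rw [orth_inner_tsum379 hs horth i, inner_self_eq_norm_sq_to_K]
    norm_cast
  rw [h2] at h1
  have h3 : ⟪g', g'⟫_ℂ = ((‖g'‖ ^ 2 : ℝ) : ℂ) := by
    rw [inner_self_eq_norm_sq_to_K]
    norm_cast
  rw [h3] at h1
  exact_mod_cast h1

variable [CompleteSpace E]

/-- A pairwise orthogonal sequence of "projections" of `y` is summable. -/
theorem orth_summable379 {φ : ℕ → E} {y : E}
    (horth : ∀ i j, i ≠ j → ⟪φ i, φ j⟫_ℂ = 0)
    (hproj : ∀ i, ⟪φ i, y⟫_ℂ = ⟪φ i, φ i⟫_ℂ) : Summable φ := by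
  have hsq : Summable fun i => ‖φ i‖ ^ 2 :=
    summable_of_sum_le (fun i => by positivity) (fun s => orth_sum_le379 horth hproj s)
  let V : ℕ → Submodule ℂ E := fun i => Submodule.span ℂ {φ i}
  have hV : Pairwise fun i j => V i ⟂ V j := by
    intro i j hij
    rw [Submodule.isOrtho_span]
    intro u hu v hv
    rw [Set.mem_singleton_iff] at hu hv
    rw [hu, hv]
    exact horth i j hij
  have hfam := OrthogonalFamily.of_pairwise hV
  let f : ∀ i, V i := fun i => ⟨φ i, Submodule.mem_span_singleton_self (φ i)⟩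
  have := (hfam.summable_iff_norm_sq_summable f).2 hsq
  exact this

/-- **Parseval gives the expansion.** -/
theorem parseval_expand379 {e : ℕ → E} {g : E}
    (hon : ∀ i j, ⟪e i, e j⟫_ℂ = if i = j then 1 else 0)
    (hpar : HasSum (fun i => ‖⟪e i, g⟫_ℂ‖ ^ 2) (‖g‖ ^ 2)) (w : E) :
    HasSum (fun i => ⟪w, e i⟫_ℂ * ⟪e i, g⟫_ℂ) ⟪w, g⟫_ℂ := by
  set φ : ℕ → E := fun i => ⟪e i, g⟫_ℂ • e i with hφ
  have horth : ∀ i j, i ≠ j → ⟪φ i, φ j⟫_ℂ = 0 := by
    intro i j hij
    simp only [hφ, inner_smul_left, inner_smul_right, hon i j, if_neg hij, mul_zero]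
  have hself : ∀ i, ⟪φ i, φ i⟫_ℂ = conj ⟪e i, g⟫_ℂ * ⟪e i, g⟫_ℂ := by
    intro i
    simp only [hφ, inner_smul_left, inner_smul_right, hon i i, if_true, mul_one]
    ring
  have hproj : ∀ i, ⟪φ i, g⟫_ℂ = ⟪φ i, φ i⟫_ℂ := by
    intro i
    rw [hself i]
    simp only [hφ, inner_smul_left]
  have hsum : Summable φ := orth_summable379 horth hproj
  obtain ⟨g', hg'⟩ := hsum
  have hrem := orth_rem379 hg' horth hproj
  have hn := orth_norm_sq379 hg' horth
  have hnorm : ∀ i, ‖φ i‖ ^ 2 = ‖⟪e i, g⟫_ℂ‖ ^ 2 := by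
    intro i
    have h1 : ‖e i‖ = 1 := by
      have := hon i i
      rw [if_pos rfl, inner_self_eq_norm_sq_to_K] at this
      have h2 : (‖e i‖ : ℂ) ^ 2 = 1 := this
      have h3 : ‖e i‖ ^ 2 = 1 := by exact_mod_cast h2
      exact (pow_eq_one_iff_of_nonneg (norm_nonneg _) two_ne_zero).1 h3
    simp only [hφ, norm_smul, h1, mul_one]
  have hn' : HasSum (fun i => ‖⟪e i, g⟫_ℂ‖ ^ 2) (‖g'‖ ^ 2) := by
    have : (fun i => ‖φ i‖ ^ 2) = fun i => ‖⟪e i, g⟫_ℂ‖ ^ 2 := funext hnorm
    rw [← this]; exact hn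
  have heq : ‖g'‖ ^ 2 = ‖g‖ ^ 2 := hn'.unique hpar
  have hpyth : ‖g' + (g - g')‖ * ‖g' + (g - g')‖ = ‖g'‖ * ‖g'‖ + ‖g - g'‖ * ‖g - g'‖ :=
    norm_add_sq_eq_norm_sq_add_norm_sq_of_inner_eq_zero (𝕜 := ℂ) g' (g - g') hrem
  have hz : ‖g - g'‖ = 0 := by
    have h1 : g' + (g - g') = g := by abel
    rw [h1] at hpyth
    have h2 : ‖g - g'‖ * ‖g - g'‖ = 0 := by nlinarith [heq]
    exact mul_self_eq_zero.1 h2
  have hgg : g = g' := by
    have := norm_eq_zero.1 hz
    exact sub_eq_zero.1 this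
  rw [← hgg] at hg'
  have h3 := hasSum_inner_right379 hg' w
  have h4 : (fun i => ⟪w, φ i⟫_ℂ) = fun i => ⟪w, e i⟫_ℂ * ⟪e i, g⟫_ℂ := by
    funext i
    simp only [hφ, inner_smul_right]
    ring
  rw [h4] at h3
  exact h3

end Fermat.Agent.LT.T5.H379

end
end
-- ===== PACK-END LT/T5/H379/HilbAbs.lean

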