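import Mathlib
import Fermat.Agent.Pack.LT2.E0L1

set_option linter.all false

-- ===== PACK-BEGIN LT/T2/H465/CS.lean
section


/-!
# Row LT, tower T2, leaf T2.23c (`LeafIntCore`), part 3: Cauchy--Schwarz on a set of finite
measure (helper465)

OFF-MAIN.  Mathlib only.
-/

set_option autoImplicit false

open MeasureTheory
open scoped ENNReal

noncomputable section

namespace Fermat.Agent.LT.T2.H465

/-- Cauchy--Schwarz: `∫_Ω ‖f‖ ≤ √Q · √μ(Ω)` if `∫_Ω ‖f‖² ≤ Q` and `μ(Ω) < ∞`. -/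
theorem integral_norm_le_sqrt465 {α : Type*} [MeasurableSpace α] (μ : Measure α) (Ω : Set α)
    (hΩ : μ Ω ≠ ⊤) {f : α → ℂ} (hf : AEStronglyMeasurable f (μ.restrict Ω)) (Q : ℝ) (hQ : 0 ≤ Q)
    (h : ∫⁻ a in Ω, ‖f a‖ₑ ^ (2 : ℝ) ∂μ ≤ ENNReal.ofReal Q) :
    ∫ a in Ω, ‖f a‖ ∂μ ≤ Real.sqrt Q * Real.sqrt (μ Ω).toReal := by
  rw [integral_norm_eq_lintegral_enorm hf]
  have H := ENNReal.lintegral_mul_le_Lp_mul_Lq (μ.restrict Ω) Real.HolderConjugate.two_two
    (f := fun a => ‖f a‖ₑ) (g := fun _ => (1 : ℝ≥0∞)) hf.enorm aemeasurable_const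
  have H' : (∫⁻ a in Ω, ‖f a‖ₑ ∂μ)
      ≤ (∫⁻ a in Ω, ‖f a‖ₑ ^ (2 : ℝ) ∂μ) ^ (1 / (2 : ℝ)) * (μ Ω) ^ (1 / (2 : ℝ)) := by
    simpa using H
  have H2 : ∫⁻ a in Ω, ‖f a‖ₑ ∂μ
      ≤ ENNReal.ofReal (Real.sqrt Q * Real.sqrt (μ Ω).toReal) := by
    refine H'.trans ?_
    rw [ENNReal.ofReal_mul (Real.sqrt_nonneg _)]
    refine mul_le_mul' ?_ ?_
    · calc (∫⁻ a in Ω, ‖f a‖ₑ ^ (2 : ℝ) ∂μ) ^ (1 / (2 : ℝ))
          ≤ (ENNReal.ofReal Q) ^ (1 / (2 : ℝ)) :=
            ENNReal.rpow_le_rpow h (by norm_num)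
        _ = ENNReal.ofReal (Real.sqrt Q) := by
            rw [Real.sqrt_eq_rpow, ENNReal.ofReal_rpow_of_nonneg hQ (by norm_num)]
    · rw [Real.sqrt_eq_rpow, ← ENNReal.ofReal_rpow_of_nonneg ENNReal.toReal_nonneg
        (by norm_num), ENNReal.ofReal_toReal hΩ]
  exact ENNReal.toReal_le_of_le_ofReal (mul_nonneg (Real.sqrt_nonneg _) (Real.sqrt_nonneg _)) H2

end Fermat.Agent.LT.T2.H465

end

end
-- ===== PACK-END LT/T2/H465/CS.lean

-- ===== PACK-BEGIN LT/T3/H57/PoissonAbs.lean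
section


/-!
# Row LT, tower T3 (volunteer helper57): abstract Poisson summation

OFF-MAIN.  Mathlib only, no definitions.

`poisson_abstract57`: let `G` be an abelian topological group with a Borel measure `μ` which is
translation invariant and positive on open sets, `Γ ≤ G` a countable subgroup with a fundamental
domain `D` of measure `1` and compact quotient `G ⧸ Γ`, and `χ : ι → G → ℂ` a countable family of
continuous unitary characters of `G`, trivial on `Γ`, pairwise distinct, closed under products and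
complex conjugation, containing `1`, and SEPARATING the points of `G ⧸ Γ`
(`(∀ i, χ i x = 1) → x ∈ Γ`).  Then for every continuous integrable `φ : G → ℂ` such that the
periodisation `x ↦ ∑' γ : Γ, φ (x + γ)` is continuous and the Fourier coefficients
`∫ φ · conj (χ i)` are absolutely summable,

  `∑' γ : Γ, φ γ = ∑' i, ∫ x, φ x * conj (χ i x) ∂μ`.

No duality theory: the two sides are the values at `0` of two continuous functions on `G ⧸ Γ` with
the same Fourier coefficients; they agree by Stone--Weierstrass.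
-/

set_option autoImplicit false
set_option linter.unusedSectionVars false

namespace Fermat.Agent.LT.T3.H57

open MeasureTheory Filter Set Topology ComplexConjugate
open scoped Pointwise

section

variable {G : Type*} [AddCommGroup G] [TopologicalSpace G] [IsTopologicalAddGroup G]
  [MeasurableSpace G] [BorelSpace G]
  (Γ : AddSubgroup G) [Countable Γ]
  (μ : Measure G) [μ.IsAddLeftInvariant]
  (D : Set G)

/-- The integral over a fundamental domain of a periodic function is translation invariant. -/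
theorem setIntegral_add_right_of_periodic57 (hD : IsAddFundamentalDomain Γ D μ) (f : G → ℂ)
    (hf : ∀ γ ∈ Γ, ∀ x, f (γ + x) = f x) (a : G) :
    ∫ x in D, f (x + a) ∂μ = ∫ x in D, f x ∂μ := by
  have hD' : IsAddFundamentalDomain Γ (a +ᵥ D) μ := hD.vadd_of_comm a
  have h1 : ∫ x in a +ᵥ D, f x ∂μ = ∫ x in D, f x ∂μ :=
    hD'.setIntegral_eq hD fun γ x => hf γ γ.2 x
  have h2 : ∫ x in a +ᵥ D, f x ∂μ = ∫ x in D, f (a + x) ∂μ :=
    (measurePreserving_add_left μ a).setIntegral_image_emb (measurableEmbedding_addLeft a) f D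
  rw [← h1, h2]
  simp only [add_comm]

/-- The integral over a fundamental domain of a periodic function which is multiplied by a
constant `c ≠ 1` under some translation vanishes (orthogonality of characters). -/
theorem setIntegral_eq_zero_of_twist57 (hD : IsAddFundamentalDomain Γ D μ) (f : G → ℂ)
    (hf : ∀ γ ∈ Γ, ∀ x, f (γ + x) = f x) (a : G) (c : ℂ) (hc : c ≠ 1)
    (hfa : ∀ x, f (x + a) = c * f x) : ∫ x in D, f x ∂μ = 0 := by
  have h1 := setIntegral_add_right_of_periodic57 Γ μ D hD f hf a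
  simp only [hfa] at h1
  rw [integral_const_mul] at h1
  have h2 : (c - 1) * ∫ x in D, f x ∂μ = 0 := by rw [sub_mul, one_mul, h1, sub_self]
  rcases mul_eq_zero.mp h2 with h | h
  · exact absurd (sub_eq_zero.mp h) hc
  · exact h

/-- **Unfolding**: the integral over a fundamental domain of the periodisation of `φ` against a
bounded continuous periodic function `g` is the integral of `φ * g` over `G`. -/
theorem setIntegral_periodisation_mul57 (hD : IsAddFundamentalDomain Γ D μ)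
    (φ : G → ℂ) (hφc : Continuous φ) (hφi : Integrable φ μ)
    (g : G → ℂ) (hgc : Continuous g) (hgb : ∀ x, ‖g x‖ ≤ 1)
    (hg : ∀ γ ∈ Γ, ∀ x, g (γ + x) = g x) :
    ∫ x in D, (∑' γ : Γ, φ (x + γ)) * g x ∂μ = ∫ x, φ x * g x ∂μ := by
  have hint : Integrable (fun x => φ x * g x) μ :=
    hφi.mul_bdd (c := 1) hgc.aestronglyMeasurable (Eventually.of_forall hgb)
  have h1 := hD.integral_eq_tsum'' (fun x => φ x * g x) hint
  have h2 : ∀ γ : Γ, ∀ x : G, φ (γ +ᵥ x) * g (γ +ᵥ x) = φ (x + γ) * g x := by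
    intro γ x
    have : γ +ᵥ x = (γ : G) + x := rfl
    rw [this, hg γ γ.2 x, add_comm]
  simp only [h2] at h1
  rw [h1]
  have hmeas : ∀ γ : Γ, AEStronglyMeasurable (fun x => φ (x + γ) * g x) (μ.restrict D) :=
    fun γ => ((hφc.comp (continuous_id.add continuous_const)).mul hgc).aestronglyMeasurable
  have hfin : ∑' γ : Γ, ∫⁻ x in D, ‖φ (x + γ) * g x‖ₑ ∂μ ≠ ⊤ := by
    have h3 := hD.lintegral_eq_tsum'' (fun x => ‖φ x * g x‖ₑ)
    have h4 : ∀ γ : Γ, ∀ x : G, ‖φ (γ +ᵥ x) * g (γ +ᵥ x)‖ₑ = ‖φ (x + γ) * g x‖ₑ := by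
      intro γ x; rw [h2]
    simp only [h4] at h3
    rw [← h3]
    exact hint.2.ne
  rw [← integral_tsum hmeas hfin]
  congr 1
  ext x
  rw [tsum_mul_right]

end

section Main

variable {G : Type*} [AddCommGroup G] [TopologicalSpace G] [IsTopologicalAddGroup G]
  [MeasurableSpace G] [BorelSpace G]
  (Γ : AddSubgroup G)

/-- Descent of a continuous `Γ`-periodic function to the quotient `G ⧸ Γ`. -/
noncomputable def desc57 (f : G → ℂ) (hfc : Continuous f)
    (hf : ∀ γ ∈ Γ, ∀ x, f (γ + x) = f x) : C(G ⧸ Γ, ℂ) :=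
  ⟨Quotient.lift f (fun a b hab => by
      have h1 : -a + b ∈ Γ := QuotientAddGroup.leftRel_apply.mp hab
      have h2 := hf _ h1 a
      rw [show -a + b + a = b by abel] at h2
      exact h2.symm),
    hfc.quotient_lift _⟩

@[simp] theorem desc57_mk (f : G → ℂ) (hfc : Continuous f)
    (hf : ∀ γ ∈ Γ, ∀ x, f (γ + x) = f x) (x : G) :
    desc57 Γ f hfc hf (x : G ⧸ Γ) = f x := rfl

variable [Countable Γ] [CompactSpace (G ⧸ Γ)]
  (μ : Measure G) [μ.IsAddLeftInvariant] [μ.IsOpenPosMeasure]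
  (D : Set G)

/-- Integration over the fundamental domain as a linear functional on `C(G ⧸ Γ, ℂ)`. -/
noncomputable def intD57 (hvol : μ D = 1) : C(G ⧸ Γ, ℂ) →ₗ[ℂ] ℂ where
  toFun f := ∫ x in D, f (x : G ⧸ Γ) ∂μ
  map_add' f g := by
    have : IsFiniteMeasure (μ.restrict D) :=
      ⟨by rw [Measure.restrict_apply_univ, hvol]; exact ENNReal.one_lt_top⟩
    have hi : ∀ f : C(G ⧸ Γ, ℂ), Integrable (fun x : G => f (x : G ⧸ Γ)) (μ.restrict D) :=
      fun f => Integrable.of_bound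
        (f.continuous.comp continuous_quot_mk).aestronglyMeasurable ‖f‖
        (Eventually.of_forall fun x => f.norm_coe_le_norm _)
    simp only [ContinuousMap.add_apply]
    exact integral_add (hi f) (hi g)
  map_smul' c f := by
    simp only [ContinuousMap.smul_apply, smul_eq_mul, RingHom.id_apply]
    exact integral_const_mul c _

theorem intD57_apply (hvol : μ D = 1) (f : C(G ⧸ Γ, ℂ)) :
    intD57 Γ μ D hvol f = ∫ x in D, f (x : G ⧸ Γ) ∂μ := rfl

theorem norm_intD57_le (hvol : μ D = 1) (f : C(G ⧸ Γ, ℂ)) :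
    ‖intD57 Γ μ D hvol f‖ ≤ ‖f‖ := by
  rw [intD57_apply]
  have h := norm_setIntegral_le_of_norm_le_const (μ := μ) (s := D) (C := ‖f‖)
    (f := fun x : G => f (x : G ⧸ Γ)) (by rw [hvol]; exact ENNReal.one_lt_top)
    (fun x _ => f.norm_coe_le_norm _)
  have h1 : μ.real D = 1 := by simp [Measure.real, hvol]
  rwa [h1, mul_one] at h

/-- A continuous function on `G ⧸ Γ` with `∫_D |f|² = 0` vanishes identically. -/
theorem eq_zero_of_intD57_mul_star (hD : IsAddFundamentalDomain Γ D μ) (hvol : μ D = 1)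
    (f : C(G ⧸ Γ, ℂ)) (h0 : intD57 Γ μ D hvol (f * star f) = 0) (x : G) :
    f (x : G ⧸ Γ) = 0 := by
  have : IsFiniteMeasure (μ.restrict D) :=
    ⟨by rw [Measure.restrict_apply_univ, hvol]; exact ENNReal.one_lt_top⟩
  let F : G → ℂ := fun x => f (x : G ⧸ Γ)
  have hFc : Continuous F := f.continuous.comp continuous_quot_mk
  have h1 : ∫ x in D, ((Complex.normSq (F x) : ℝ) : ℂ) ∂μ = 0 := by
    rw [intD57_apply] at h0
    rw [← h0]
    congr 1
    ext x
    simp only [ContinuousMap.mul_apply, ContinuousMap.star_apply, F]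
    rw [Complex.star_def, Complex.mul_conj]
  rw [integral_complex_ofReal] at h1
  have h2 : ∫ x in D, Complex.normSq (F x) ∂μ = 0 := by exact_mod_cast h1
  have hnn : 0 ≤ fun x => Complex.normSq (F x) := fun x => Complex.normSq_nonneg _
  have hcn : Continuous fun x => Complex.normSq (F x) := Complex.continuous_normSq.comp hFc
  have hint : Integrable (fun x => Complex.normSq (F x)) (μ.restrict D) := by
    refine Integrable.of_bound hcn.aestronglyMeasurable (‖f‖ ^ 2)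
      (Eventually.of_forall fun x => ?_)
    rw [Real.norm_of_nonneg (Complex.normSq_nonneg _), Complex.normSq_eq_norm_sq]
    exact pow_le_pow_left₀ (norm_nonneg _) (f.norm_coe_le_norm _) 2
  have h3 := (integral_eq_zero_iff_of_nonneg hnn hint).mp h2
  let U : Set G := {x | F x ≠ 0}
  have hU : IsOpen U := isOpen_ne_fun hFc continuous_const
  have h4 : μ (U ∩ D) = 0 := by
    have h5 : (μ.restrict D) {x | ¬ (Complex.normSq (F x) = (0 : G → ℝ) x)} = 0 := ae_iff.mp h3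
    have h6 : {x | ¬ (Complex.normSq (F x) = (0 : G → ℝ) x)} = U := by
      ext x
      simp [U]
    rw [h6, Measure.restrict_apply hU.measurableSet] at h5
    exact h5
  have hinv : ∀ γ : Γ, γ +ᵥ U = U := by
    intro γ
    ext x
    rw [Set.mem_vadd_set_iff_neg_vadd_mem]
    have h7 : F (-γ +ᵥ x) = F x := by
      show f ((-γ +ᵥ x : G) : G ⧸ Γ) = f (x : G ⧸ Γ)
      congr 1
      have : (-γ +ᵥ x : G) = x + ((-γ : Γ) : G) := by
        show ((-γ : Γ) : G) + x = x + ((-γ : Γ) : G)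
        exact add_comm _ _
      rw [this]
      exact QuotientAddGroup.mk_add_of_mem x (-γ).2
    show F (-γ +ᵥ x) ≠ 0 ↔ F x ≠ 0
    rw [h7]
  have h8 : μ U = 0 := hD.measure_zero_of_invariant U hinv h4
  have h9 : U = ∅ := (hU.measure_eq_zero_iff μ).mp h8
  by_contra hne
  have : x ∈ U := hne
  rw [h9] at this
  exact this

/-- **Abstract Poisson summation formula.** -/
theorem poisson_abstract57 (hD : IsAddFundamentalDomain Γ D μ) (hvol : μ D = 1)
    {ι : Type*} [Countable ι] (χ : ι → G → ℂ)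
    (hχc : ∀ i, Continuous (χ i))
    (hχadd : ∀ i x y, χ i (x + y) = χ i x * χ i y)
    (hχn : ∀ i x, ‖χ i x‖ = 1)
    (hχΓ : ∀ i, ∀ γ ∈ Γ, χ i γ = 1)
    (hχinj : Function.Injective χ)
    (hχone : ∃ i, ∀ x, χ i x = 1)
    (hχmul : ∀ i j, ∃ k, ∀ x, χ k x = χ i x * χ j x)
    (hχinv : ∀ i, ∃ k, ∀ x, χ k x = conj (χ i x))
    (hsep : ∀ x : G, (∀ i, χ i x = 1) → x ∈ Γ)
    (φ : G → ℂ) (hφc : Continuous φ) (hφi : Integrable φ μ)
    (hΦc : Continuous fun x => ∑' γ : Γ, φ (x + γ))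
    (hhat : Summable fun i => ‖∫ x, φ x * conj (χ i x) ∂μ‖) :
    ∑' γ : Γ, φ γ = ∑' i, ∫ x, φ x * conj (χ i x) ∂μ := by
  classical
  have hfm : IsFiniteMeasure (μ.restrict D) :=
    ⟨by rw [Measure.restrict_apply_univ, hvol]; exact ENNReal.one_lt_top⟩
  have hreal : μ.real D = 1 := by simp [Measure.real, hvol]
  -- basic facts on the characters
  have hχper : ∀ i, ∀ γ ∈ Γ, ∀ x, χ i (γ + x) = χ i x := fun i γ hγ x => by
    rw [hχadd, hχΓ i γ hγ, one_mul]
  have hχ0 : ∀ i, χ i 0 = 1 := fun i => hχΓ i 0 Γ.zero_mem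
  have hχcc : ∀ i x, χ i x * conj (χ i x) = 1 := by
    intro i x
    rw [Complex.mul_conj, Complex.normSq_eq_norm_sq, hχn]
    simp
  have hχconjn : ∀ i x, ‖conj (χ i x)‖ = 1 := fun i x => by
    rw [RCLike.norm_conj, hχn]
  have hχconjc : ∀ i, Continuous fun x => conj (χ i x) := fun i =>
    Complex.continuous_conj.comp (hχc i)
  -- the functions
  let X : ι → C(G ⧸ Γ, ℂ) := fun i => desc57 Γ (χ i) (hχc i) (hχper i)
  let c : ι → ℂ := fun i => ∫ x, φ x * conj (χ i x) ∂μ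
  let Φ : G → ℂ := fun x => ∑' γ : Γ, φ (x + γ)
  let Ψ : G → ℂ := fun x => ∑' i, c i * χ i x
  have hΨc : Continuous Ψ :=
    continuous_tsum (fun i => continuous_const.mul (hχc i)) hhat
      (fun i x => by rw [norm_mul, hχn, mul_one])
  have hΦper : ∀ γ ∈ Γ, ∀ x, Φ (γ + x) = Φ x := by
    intro γ hγ x
    show ∑' γ' : Γ, φ (γ + x + γ') = ∑' γ' : Γ, φ (x + γ')
    have h1 := (Equiv.addRight (⟨γ, hγ⟩ : Γ)).tsum_eq (fun γ' : Γ => φ (x + γ'))
    rw [← h1]
    congr 1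
    ext γ'
    congr 1
    simp only [Equiv.coe_addRight, AddSubgroup.coe_add]
    abel
  have hΨper : ∀ γ ∈ Γ, ∀ x, Ψ (γ + x) = Ψ x := by
    intro γ hγ x
    show ∑' i, c i * χ i (γ + x) = ∑' i, c i * χ i x
    simp only [hχper _ γ hγ]
  let PhiT : C(G ⧸ Γ, ℂ) := desc57 Γ Φ hΦc hΦper
  let PsiT : C(G ⧸ Γ, ℂ) := desc57 Γ Ψ hΨc hΨper
  let H : C(G ⧸ Γ, ℂ) := PhiT - PsiT
  -- orthogonality relations
  have horth : ∀ i j, ∫ x in D, χ i x * conj (χ j x) ∂μ = if i = j then 1 else 0 := by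
    intro i j
    split_ifs with hij
    · subst hij
      simp only [hχcc]
      rw [setIntegral_const, hreal, one_smul]
    · have hex : ∃ a, χ i a ≠ χ j a := by
        by_contra hcon
        push Not at hcon
        exact hij (hχinj (funext hcon))
      obtain ⟨a, ha⟩ := hex
      refine setIntegral_eq_zero_of_twist57 Γ μ D hD _ ?_ a (χ i a * conj (χ j a)) ?_ ?_
      · intro γ hγ x
        rw [hχper i γ hγ, hχper j γ hγ]
      · intro h1
        apply ha
        have h2 : χ i a * conj (χ j a) * χ j a = χ j a := by rw [h1, one_mul]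
        rw [mul_assoc, mul_comm (conj (χ j a)), hχcc, mul_one] at h2
        exact h2
      · intro x
        rw [hχadd, hχadd, map_mul]
        ring
  -- Fourier coefficients of the periodisation
  have hΦhat : ∀ j, intD57 Γ μ D hvol (PhiT * star (X j)) = c j := by
    intro j
    rw [intD57_apply]
    exact setIntegral_periodisation_mul57 Γ μ D hD φ hφc hφi (fun x => conj (χ j x))
      (hχconjc j) (fun x => (hχconjn j x).le)
      (fun γ hγ x => by rw [hχper j γ hγ])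
  -- Fourier coefficients of the Fourier series
  have hΨhat : ∀ j, intD57 Γ μ D hvol (PsiT * star (X j)) = c j := by
    intro j
    rw [intD57_apply]
    show ∫ x in D, (∑' i, c i * χ i x) * conj (χ j x) ∂μ = c j
    have h1 : ∀ x, (∑' i, c i * χ i x) * conj (χ j x) = ∑' i, c i * χ i x * conj (χ j x) :=
      fun x => by rw [← tsum_mul_right]
    simp only [h1]
    have hnorm : ∀ i x, ‖c i * χ i x * conj (χ j x)‖ = ‖c i‖ := fun i x => by
      rw [norm_mul, norm_mul, hχn, hχconjn, mul_one, mul_one]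
    rw [← integral_tsum_of_summable_integral_norm]
    · have h2 : ∀ i, ∫ x in D, c i * χ i x * conj (χ j x) ∂μ = if i = j then c i else 0 := by
        intro i
        simp only [mul_assoc]
        rw [integral_const_mul, horth]
        split_ifs <;> simp
      simp only [h2]
      rw [tsum_ite_eq]
    · intro i
      exact Integrable.of_bound
        ((continuous_const.mul (hχc i)).mul (hχconjc j)).aestronglyMeasurable ‖c i‖
        (Eventually.of_forall fun x => (hnorm i x).le)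
    · simp only [hnorm]
      simp only [setIntegral_const, hreal, one_smul]
      exact hhat
  have hHorth : ∀ j, intD57 Γ μ D hvol (H * star (X j)) = 0 := by
    intro j
    show intD57 Γ μ D hvol ((PhiT - PsiT) * star (X j)) = 0
    rw [sub_mul, map_sub, hΦhat, hΨhat, sub_self]
  -- every character is the conjugate of a character
  have hXstar : ∀ i, ∃ k, star (X i) = X k := by
    intro i
    obtain ⟨k, hk⟩ := hχinv i
    refine ⟨k, ?_⟩
    ext q
    induction q using QuotientAddGroup.induction_on with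
    | H x =>
      show star (χ i x) = χ k x
      rw [hk]
      rfl
  have hHX : ∀ i, intD57 Γ μ D hvol (H * X i) = 0 := by
    intro i
    obtain ⟨k, hk⟩ := hXstar i
    have : X i = star (X k) := by rw [← hk, star_star]
    rw [this]
    exact hHorth k
  -- the span of the characters
  let Ssub : Submodule ℂ C(G ⧸ Γ, ℂ) := Submodule.span ℂ (Set.range X)
  have hS1 : (1 : C(G ⧸ Γ, ℂ)) ∈ Ssub := by
    obtain ⟨i, hi⟩ := hχone
    have : X i = 1 := by
      ext q
      induction q using QuotientAddGroup.induction_on with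
      | H x => exact hi x
    rw [← this]
    exact Submodule.subset_span ⟨i, rfl⟩
  have hSmul : ∀ a b, a ∈ Ssub → b ∈ Ssub → a * b ∈ Ssub := by
    intro a b ha hb
    have h1 : a * b ∈ Ssub * Ssub := Submodule.mul_mem_mul ha hb
    have h2 : Ssub * Ssub ≤ Ssub := by
      show Submodule.span ℂ (Set.range X) * Submodule.span ℂ (Set.range X) ≤ _
      rw [Submodule.span_mul_span]
      refine Submodule.span_le.mpr ?_
      rintro _ ⟨_, ⟨i, rfl⟩, _, ⟨j, rfl⟩, rfl⟩
      obtain ⟨k, hk⟩ := hχmul i j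
      have : X i * X j = X k := by
        ext q
        induction q using QuotientAddGroup.induction_on with
        | H x => exact (hk x).symm
      show X i * X j ∈ Ssub
      rw [this]
      exact Submodule.subset_span ⟨k, rfl⟩
    exact h2 h1
  have hSstar : ∀ a, a ∈ Ssub → star a ∈ Ssub := by
    intro a ha
    induction ha using Submodule.span_induction with
    | mem x hx =>
      obtain ⟨i, rfl⟩ := hx
      obtain ⟨k, hk⟩ := hXstar i
      rw [hk]
      exact Submodule.subset_span ⟨k, rfl⟩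
    | zero => rw [star_zero]; exact Submodule.zero_mem _
    | add x y _ _ hx hy => rw [star_add]; exact Submodule.add_mem _ hx hy
    | smul r x _ hx => rw [star_smul]; exact Submodule.smul_mem _ _ hx
  let S : StarSubalgebra ℂ C(G ⧸ Γ, ℂ) :=
    { toSubalgebra := Ssub.toSubalgebra hS1 hSmul
      star_mem' := fun {a} ha => hSstar a ha }
  have hSmem : ∀ a, a ∈ S → a ∈ Ssub := fun a ha => ha
  have hSsep : S.SeparatesPoints := by
    intro q q' hqq'
    induction q using QuotientAddGroup.induction_on with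
    | H x =>
    induction q' using QuotientAddGroup.induction_on with
    | H y =>
    have hxy : -x + y ∉ Γ := fun hmem => hqq' (QuotientAddGroup.eq.mpr hmem)
    have hex : ∃ i, χ i (-x + y) ≠ 1 := by
      by_contra hcon
      push Not at hcon
      exact hxy (hsep _ hcon)
    obtain ⟨i, hi⟩ := hex
    refine ⟨X i, ⟨X i, Submodule.subset_span ⟨i, rfl⟩, rfl⟩, ?_⟩
    show χ i x ≠ χ i y
    intro heq
    apply hi
    have h1 : χ i y = χ i x * χ i (-x + y) := by
      rw [← hχadd]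
      congr 1
      abel
    have hne : χ i x ≠ 0 := by
      intro h0
      have := hχn i x
      rw [h0, norm_zero] at this
      exact zero_ne_one this
    rw [← heq] at h1
    exact (mul_eq_left₀ hne).mp h1.symm
  have hdense : S.topologicalClosure = ⊤ :=
    ContinuousMap.starSubalgebra_topologicalClosure_eq_top_of_separatesPoints S hSsep
  -- `H` is orthogonal to the span
  have hHS : ∀ p, p ∈ Ssub → intD57 Γ μ D hvol (H * p) = 0 := by
    intro p hp
    induction hp using Submodule.span_induction with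
    | mem x hx =>
      obtain ⟨i, rfl⟩ := hx
      exact hHX i
    | zero => rw [mul_zero, map_zero]
    | add x y _ _ hx hy => rw [mul_add, map_add, hx, hy, add_zero]
    | smul r x _ hx => rw [mul_smul_comm, map_smul, hx, smul_zero]
  -- hence to itself
  have hHH : intD57 Γ μ D hvol (H * star H) = 0 := by
    have hcl : star H ∈ closure (S : Set C(G ⧸ Γ, ℂ)) := by
      rw [← StarSubalgebra.topologicalClosure_coe, hdense]
      trivial
    rw [← norm_eq_zero]
    refine le_antisymm (le_of_forall_pos_le_add fun ε hε => ?_) (norm_nonneg _)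
    rw [zero_add]
    obtain ⟨p, hpS, hp⟩ := Metric.mem_closure_iff.mp hcl (ε / (‖H‖ + 1)) (by positivity)
    have h1 : H * star H = H * (star H - p) + H * p := by ring
    rw [h1, map_add, hHS p (hSmem p hpS), add_zero]
    calc ‖intD57 Γ μ D hvol (H * (star H - p))‖ ≤ ‖H * (star H - p)‖ := norm_intD57_le Γ μ D hvol _
      _ ≤ ‖H‖ * ‖star H - p‖ := norm_mul_le _ _
      _ ≤ ‖H‖ * (ε / (‖H‖ + 1)) := by
          refine mul_le_mul_of_nonneg_left ?_ (norm_nonneg _)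
          rw [← dist_eq_norm]
          exact hp.le
      _ ≤ ε := by
          have hpos : 0 < ‖H‖ + 1 := by positivity
          rw [← mul_div_assoc, div_le_iff₀ hpos]
          nlinarith [norm_nonneg H]
  have hfinal := eq_zero_of_intD57_mul_star Γ μ D hD hvol H hHH 0
  have h0 : Φ 0 - Ψ 0 = 0 := hfinal
  have hΦ0 : Φ 0 = ∑' γ : Γ, φ γ := by
    show ∑' γ : Γ, φ (0 + γ) = _
    simp only [zero_add]
  have hΨ0 : Ψ 0 = ∑' i, ∫ x, φ x * conj (χ i x) ∂μ := by
    show ∑' i, c i * χ i 0 = _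
    simp only [hχ0, mul_one]
    rfl
  rw [← hΦ0, ← hΨ0]
  exact sub_eq_zero.mp h0

end Main

end Fermat.Agent.LT.T3.H57

end
-- ===== PACK-END LT/T3/H57/PoissonAbs.lean

-- ===== PACK-BEGIN LT/H942/NormMap.lean
section


/-!
# Row LT, towers T5/T6 — the norm map of a cyclic extension on `2 × 2` matrices (helper942)

OFF-MAIN.  Mathlib only.  `L` a field, `σ : L ≃+* L`, `S = ` entrywise `σ` on `M₂(L)`.

`normMat σ l δ = δ · σ(δ) ⋯ σ^{l-1}(δ)`.  For `σ ^ l = 1` (`hσ : ∀ x, (σ ^ l) x = x`):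

* `normMat_twist` : `N(g' δ σ(g)) = g' N(δ) g` for `g' g = 1 = g g'` (σ-conjugate elements have
  conjugate norms);
* `map_normMat` : `σ(N δ) · δ' = δ' · N δ` for `δ' δ = 1 = δ δ'`, i.e. `σ(N δ) = δ⁻¹ (N δ) δ`;
* `trace_normMat_fixed`, `det_normMat_fixed` : the trace and the determinant of `N δ` are fixed by
  `σ` (so they lie in the fixed field `K` of `σ`);
* `commute_normMat_of_twistCentralizer` : `g' δ σ(g) = δ` ⟹ `g` commutes with `N δ`
  (the σ-centraliser of `δ` lies in the centraliser of `N δ`);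
* `exists_conj_companion` : a non-scalar `X ∈ M₂(L)` is conjugate to the companion matrix
  `[[0, -det X], [1, tr X]]` of its characteristic polynomial;
* `normMat_conj_rational` : hence a non-scalar `N δ` is conjugate in `GL₂(L)` to a matrix with
  σ-fixed entries (`= T6_NormClass` of the T5 interface, regular case).
-/

set_option autoImplicit false

namespace Fermat.Agent.LT.H942

open Matrix

variable {L : Type*} [Field L]

/-- Entrywise action of `σ` on `M₂(L)`, as a ring homomorphism. -/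
def sigMat (σ : L ≃+* L) : Matrix (Fin 2) (Fin 2) L →+* Matrix (Fin 2) (Fin 2) L :=
  (σ : L →+* L).mapMatrix

@[simp] theorem sigMat_apply (σ : L ≃+* L) (M : Matrix (Fin 2) (Fin 2) L) (i j : Fin 2) :
    sigMat σ M i j = σ (M i j) := rfl

/-- `σ^k` entrywise. -/
def sigPow (σ : L ≃+* L) (k : ℕ) : Matrix (Fin 2) (Fin 2) L →+* Matrix (Fin 2) (Fin 2) L :=
  ((σ ^ k : L ≃+* L) : L →+* L).mapMatrix

@[simp] theorem sigPow_apply (σ : L ≃+* L) (k : ℕ) (M : Matrix (Fin 2) (Fin 2) L) (i j : Fin 2) :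
    sigPow σ k M i j = (σ ^ k) (M i j) := rfl

theorem sigPow_zero (σ : L ≃+* L) (M : Matrix (Fin 2) (Fin 2) L) : sigPow σ 0 M = M := by
  ext i j; simp

theorem sigPow_succ (σ : L ≃+* L) (k : ℕ) (M : Matrix (Fin 2) (Fin 2) L) :
    sigPow σ (k + 1) M = sigPow σ k (sigMat σ M) := by
  ext i j
  simp only [sigPow_apply, sigMat_apply, pow_succ]
  rfl

theorem sigPow_succ' (σ : L ≃+* L) (k : ℕ) (M : Matrix (Fin 2) (Fin 2) L) :
    sigPow σ (k + 1) M = sigMat σ (sigPow σ k M) := by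
  ext i j
  simp only [sigPow_apply, sigMat_apply, pow_succ']
  rfl

/-- The norm `N δ = δ · σ(δ) ⋯ σ^{l-1}(δ)`. -/
def normMat (σ : L ≃+* L) : ℕ → Matrix (Fin 2) (Fin 2) L → Matrix (Fin 2) (Fin 2) L
  | 0, _ => 1
  | l + 1, δ => normMat σ l δ * sigPow σ l δ

@[simp] theorem normMat_zero (σ : L ≃+* L) (δ : Matrix (Fin 2) (Fin 2) L) :
    normMat σ 0 δ = 1 := rfl

theorem normMat_succ (σ : L ≃+* L) (l : ℕ) (δ : Matrix (Fin 2) (Fin 2) L) :
    normMat σ (l + 1) δ = normMat σ l δ * sigPow σ l δ := rfl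

/-- `N_{l+1} δ = δ · σ(N_l δ)`. -/
theorem normMat_succ' (σ : L ≃+* L) (l : ℕ) (δ : Matrix (Fin 2) (Fin 2) L) :
    normMat σ (l + 1) δ = δ * sigMat σ (normMat σ l δ) := by
  induction l with
  | zero => simp [normMat_succ, sigPow_zero]
  | succ l ih =>
    calc normMat σ (l + 1 + 1) δ = normMat σ (l + 1) δ * sigPow σ (l + 1) δ := rfl
      _ = δ * sigMat σ (normMat σ l δ) * sigMat σ (sigPow σ l δ) := by rw [ih, sigPow_succ']
      _ = δ * sigMat σ (normMat σ l δ * sigPow σ l δ) := by rw [map_mul, Matrix.mul_assoc]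
      _ = δ * sigMat σ (normMat σ (l + 1) δ) := rfl

/-- Telescoping: `N_l(g' δ σ(g)) = g' · N_l(δ) · σ^l(g)`. -/
theorem normMat_twist_aux (σ : L ≃+* L) {g g' : Matrix (Fin 2) (Fin 2) L}
    (h1 : g' * g = 1) (h2 : g * g' = 1) (δ : Matrix (Fin 2) (Fin 2) L) (l : ℕ) :
    normMat σ l (g' * δ * sigMat σ g) = g' * normMat σ l δ * sigPow σ l g := by
  induction l with
  | zero => simp [sigPow_zero, h1]
  | succ l ih =>
    rw [normMat_succ, ih, normMat_succ, map_mul, map_mul, ← sigPow_succ]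
    have hc : sigPow σ l g * sigPow σ l g' = 1 := by rw [← map_mul, h2, map_one]
    calc g' * normMat σ l δ * sigPow σ l g * (sigPow σ l g' * sigPow σ l δ * sigPow σ (l + 1) g)
        = g' * normMat σ l δ * (sigPow σ l g * sigPow σ l g') * sigPow σ l δ
            * sigPow σ (l + 1) g := by simp only [Matrix.mul_assoc]
      _ = g' * (normMat σ l δ * sigPow σ l δ) * sigPow σ (l + 1) g := by
          rw [hc]; simp only [Matrix.mul_assoc, Matrix.mul_one]

theorem sigPow_of_pow_eq_one (σ : L ≃+* L) {l : ℕ} (hσ : ∀ x : L, (σ ^ l) x = x)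
    (M : Matrix (Fin 2) (Fin 2) L) : sigPow σ l M = M := by
  ext i j
  simp [hσ]

/-- **σ-conjugate elements have conjugate norms.** -/
theorem normMat_twist (σ : L ≃+* L) {l : ℕ} (hσ : ∀ x : L, (σ ^ l) x = x)
    {g g' : Matrix (Fin 2) (Fin 2) L} (h1 : g' * g = 1) (h2 : g * g' = 1)
    (δ : Matrix (Fin 2) (Fin 2) L) :
    normMat σ l (g' * δ * sigMat σ g) = g' * normMat σ l δ * g := by
  rw [normMat_twist_aux σ h1 h2, sigPow_of_pow_eq_one σ hσ]

/-- **`σ(N δ) = δ⁻¹ (N δ) δ`**, in the form `δ · σ(N δ) = N δ · δ`. -/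
theorem mul_map_normMat (σ : L ≃+* L) {l : ℕ} (hσ : ∀ x : L, (σ ^ l) x = x)
    (δ : Matrix (Fin 2) (Fin 2) L) :
    δ * sigMat σ (normMat σ l δ) = normMat σ l δ * δ := by
  rw [← normMat_succ', normMat_succ, sigPow_of_pow_eq_one σ hσ]

theorem map_normMat (σ : L ≃+* L) {l : ℕ} (hσ : ∀ x : L, (σ ^ l) x = x)
    {δ δ' : Matrix (Fin 2) (Fin 2) L} (h1 : δ' * δ = 1) :
    sigMat σ (normMat σ l δ) = δ' * normMat σ l δ * δ := by
  have h := mul_map_normMat σ hσ δ
  calc sigMat σ (normMat σ l δ) = (δ' * δ) * sigMat σ (normMat σ l δ) := by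
        rw [h1, Matrix.one_mul]
    _ = δ' * (δ * sigMat σ (normMat σ l δ)) := by rw [Matrix.mul_assoc]
    _ = δ' * normMat σ l δ * δ := by rw [h, Matrix.mul_assoc]

theorem trace_sigMat (σ : L ≃+* L) (M : Matrix (Fin 2) (Fin 2) L) :
    (sigMat σ M).trace = σ M.trace := by
  simp [Matrix.trace_fin_two]

theorem det_sigMat (σ : L ≃+* L) (M : Matrix (Fin 2) (Fin 2) L) :
    (sigMat σ M).det = σ M.det := by
  simp [Matrix.det_fin_two]

/-- The trace of `N δ` is fixed by `σ`. -/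
theorem trace_normMat_fixed (σ : L ≃+* L) {l : ℕ} (hσ : ∀ x : L, (σ ^ l) x = x)
    {δ δ' : Matrix (Fin 2) (Fin 2) L} (h1 : δ' * δ = 1) (h2 : δ * δ' = 1) :
    σ (normMat σ l δ).trace = (normMat σ l δ).trace := by
  rw [← trace_sigMat, map_normMat σ hσ h1, Matrix.trace_mul_comm, ← Matrix.mul_assoc, h2,
    Matrix.one_mul]

/-- The determinant of `N δ` is fixed by `σ`. -/
theorem det_normMat_fixed (σ : L ≃+* L) {l : ℕ} (hσ : ∀ x : L, (σ ^ l) x = x)
    {δ δ' : Matrix (Fin 2) (Fin 2) L} (h1 : δ' * δ = 1) :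
    σ (normMat σ l δ).det = (normMat σ l δ).det := by
  rw [← det_sigMat, map_normMat σ hσ h1, Matrix.det_mul, Matrix.det_mul]
  have hd : δ'.det * δ.det = 1 := by rw [← Matrix.det_mul, h1, Matrix.det_one]
  linear_combination (normMat σ l δ).det * hd

/-- **The σ-centraliser of `δ` lies in the centraliser of `N δ`.** -/
theorem commute_normMat_of_twistCentralizer (σ : L ≃+* L) {l : ℕ}
    (hσ : ∀ x : L, (σ ^ l) x = x) {g g' δ : Matrix (Fin 2) (Fin 2) L}
    (h1 : g' * g = 1) (h2 : g * g' = 1) (hc : g' * δ * sigMat σ g = δ) :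
    g * normMat σ l δ = normMat σ l δ * g := by
  have h := normMat_twist σ hσ h1 h2 δ
  rw [hc] at h
  calc g * normMat σ l δ = g * (g' * normMat σ l δ * g) := by rw [← h]
    _ = (g * g') * normMat σ l δ * g := by simp only [Matrix.mul_assoc]
    _ = normMat σ l δ * g := by rw [h2, Matrix.one_mul]

/-- The companion matrix of `X² - t X + d`. -/
def companionMat (t d : L) : Matrix (Fin 2) (Fin 2) L := !![0, -d; 1, t]

/-- **Rational canonical form in dimension two**: a matrix `X` which is not scalar is conjugate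
to the companion matrix of its characteristic polynomial: `X Q = Q C` with `det Q ≠ 0`. -/
theorem exists_conj_companion (X : Matrix (Fin 2) (Fin 2) L)
    (hX : ¬ (X 0 1 = 0 ∧ X 1 0 = 0 ∧ X 0 0 = X 1 1)) :
    ∃ Q : Matrix (Fin 2) (Fin 2) L, Q.det ≠ 0 ∧ X * Q = Q * companionMat X.trace X.det := by
  by_cases hb : X 0 1 = 0
  · by_cases hc : X 1 0 = 0
    · have had : X 1 1 - X 0 0 ≠ 0 := by
        intro hh
        exact hX ⟨hb, hc, (sub_eq_zero.mp hh).symm⟩
      refine ⟨!![1, X 0 0; 1, X 1 1], ?_, ?_⟩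
      · rw [Matrix.det_fin_two]
        simpa using had
      · ext i j
        fin_cases i <;> fin_cases j <;>
          simp [companionMat, Matrix.mul_apply, Fin.sum_univ_two, Matrix.trace_fin_two,
            Matrix.det_fin_two, hb, hc] <;> ring
    · refine ⟨!![1, X 0 0; 0, X 1 0], ?_, ?_⟩
      · rw [Matrix.det_fin_two]
        simpa using hc
      · ext i j
        fin_cases i <;> fin_cases j <;>
          simp [companionMat, Matrix.mul_apply, Fin.sum_univ_two, Matrix.trace_fin_two,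
            Matrix.det_fin_two, hb] <;> ring
  · refine ⟨!![0, X 0 1; 1, X 1 1], ?_, ?_⟩
    · rw [Matrix.det_fin_two]
      simpa using hb
    · ext i j
      fin_cases i <;> fin_cases j <;>
        simp [companionMat, Matrix.mul_apply, Fin.sum_univ_two, Matrix.trace_fin_two,
          Matrix.det_fin_two] <;> ring

/-- **Norm classes are rational** (regular case): if `N δ` is not scalar, it is conjugate in
`GL₂(L)` to a matrix `γ` all of whose entries are fixed by `σ`, with the same trace and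
determinant. -/
theorem normMat_conj_rational (σ : L ≃+* L) {l : ℕ} (hσ : ∀ x : L, (σ ^ l) x = x)
    {δ δ' : Matrix (Fin 2) (Fin 2) L} (h1 : δ' * δ = 1) (h2 : δ * δ' = 1)
    (hreg : ¬ ((normMat σ l δ) 0 1 = 0 ∧ (normMat σ l δ) 1 0 = 0 ∧
      (normMat σ l δ) 0 0 = (normMat σ l δ) 1 1)) :
    ∃ Q γ : Matrix (Fin 2) (Fin 2) L, Q.det ≠ 0 ∧ normMat σ l δ * Q = Q * γ ∧
      (∀ i j, σ (γ i j) = γ i j) ∧ γ.trace = (normMat σ l δ).trace ∧
      γ.det = (normMat σ l δ).det := by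
  obtain ⟨Q, hQ, hconj⟩ := exists_conj_companion (normMat σ l δ) hreg
  refine ⟨Q, companionMat (normMat σ l δ).trace (normMat σ l δ).det, hQ, hconj, ?_, ?_, ?_⟩
  · intro i j
    have ht := trace_normMat_fixed σ hσ h1 h2
    have hd := det_normMat_fixed σ hσ h1
    fin_cases i <;> fin_cases j <;> simp [companionMat, ht, hd]
  · simp [companionMat, Matrix.trace_fin_two]
  · simp [companionMat, Matrix.det_fin_two]

end Fermat.Agent.LT.H942

end
-- ===== PACK-END LT/H942/NormMap.lean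

-- ===== PACK-BEGIN LT/T7/H179/WeightCore.lean
section


/-!
# Row LT, tower T7, leaf T7.14.6d `WeightC`: the analytic core (helper179), Mathlib only

OFF-MAIN.  `K₀(t) = ∫₀^∞ exp(-t cosh u) du` and the weight
`G(T) = ∫_{r ∈ (0,∞)^ι, ∏ r_w² ≥ T} ∏_w K₀(c_w r_w)² / r_w dr`.

* `bK_pos179`, `bK_sq_le179` : `0 < K₀(t)`, `K₀(t)² ≤ (π / t) e^{-2t}` (`cosh u ≥ 1 + u²/4`);
* `gg_le179` : `G(T) ≤ T^{-s} ∏_w ∫₀^∞ r^{2s-1} K₀(c_w r)² dr` for every `s > 1/2`, `T > 0`
  (`1[∏ r² ≥ T] ≤ (∏ r² / T)^s`, Fubini);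
* `weight_core179` : the five properties of a weight for `T ↦ G(T / t₀)`.
-/

set_option autoImplicit false

open MeasureTheory Set

noncomputable section

namespace Fermat.Agent.LT.T7.H179

/-! ## The Bessel function `K₀` -/

/-- `K₀(t) = ∫₀^∞ exp(-t cosh u) du`. -/
def bK179 (t : ℝ) : ℝ := ∫ u in Ioi (0 : ℝ), Real.exp (-t * Real.cosh u)

theorem cosh_ge179 {u : ℝ} (hu : 0 ≤ u) : 1 + u ^ 2 / 4 ≤ Real.cosh u := by
  have h1 := Real.quadratic_le_exp_of_nonneg hu
  have h2 := Real.add_one_le_exp (-u)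
  rw [Real.cosh_eq]
  linarith

theorem exp_cosh_le179 {t u : ℝ} (ht : 0 ≤ t) (hu : 0 ≤ u) :
    Real.exp (-t * Real.cosh u) ≤ Real.exp (-t) * Real.exp (-(t / 4) * u ^ 2) := by
  rw [← Real.exp_add]
  apply Real.exp_le_exp.mpr
  have h := mul_le_mul_of_nonneg_left (cosh_ge179 hu) ht
  nlinarith

theorem integrableOn_gauss179 {t : ℝ} (ht : 0 < t) :
    IntegrableOn (fun u : ℝ => Real.exp (-t) * Real.exp (-(t / 4) * u ^ 2)) (Ioi 0) :=
  ((integrable_exp_neg_mul_sq (by positivity : (0 : ℝ) < t / 4)).const_mul _).integrableOn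

theorem integrableOn_bK179 {t : ℝ} (ht : 0 < t) :
    IntegrableOn (fun u : ℝ => Real.exp (-t * Real.cosh u)) (Ioi 0) := by
  refine Integrable.mono' (integrableOn_gauss179 ht) ?_ ?_
  · exact (by fun_prop : Continuous fun u : ℝ => Real.exp (-t * Real.cosh u)).aestronglyMeasurable
  · refine (ae_restrict_iff' measurableSet_Ioi).mpr (Filter.Eventually.of_forall fun u hu => ?_)
    rw [Real.norm_of_nonneg (Real.exp_pos _).le]
    exact exp_cosh_le179 ht.le (le_of_lt hu)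

theorem bK_nonneg179 (t : ℝ) : 0 ≤ bK179 t :=
  integral_nonneg fun _ => (Real.exp_pos _).le

theorem bK_pos179 {t : ℝ} (ht : 0 < t) : 0 < bK179 t := by
  unfold bK179
  rw [setIntegral_pos_iff_support_of_nonneg_ae
    (Filter.Eventually.of_forall fun u => (Real.exp_pos _).le) (integrableOn_bK179 ht)]
  have : Function.support (fun u : ℝ => Real.exp (-t * Real.cosh u)) = univ := by
    ext u
    simp [(Real.exp_pos _).ne']
  rw [this, univ_inter, Real.volume_Ioi]
  exact ENNReal.zero_lt_top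

theorem bK_le179 {t : ℝ} (ht : 0 < t) :
    bK179 t ≤ Real.exp (-t) * (√(Real.pi / (t / 4)) / 2) := by
  unfold bK179
  calc ∫ u in Ioi (0 : ℝ), Real.exp (-t * Real.cosh u)
      ≤ ∫ u in Ioi (0 : ℝ), Real.exp (-t) * Real.exp (-(t / 4) * u ^ 2) :=
        setIntegral_mono_on (integrableOn_bK179 ht) (integrableOn_gauss179 ht) measurableSet_Ioi
          fun u hu => exp_cosh_le179 ht.le (le_of_lt hu)
    _ = Real.exp (-t) * (√(Real.pi / (t / 4)) / 2) := by
        rw [integral_const_mul, integral_gaussian_Ioi]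

theorem bK_sq_le179 {t : ℝ} (ht : 0 < t) :
    bK179 t ^ 2 ≤ Real.pi / t * Real.exp (-(2 * t)) := by
  have h1 := bK_le179 ht
  have h0 := bK_nonneg179 t
  have h2 : bK179 t ^ 2 ≤ (Real.exp (-t) * (√(Real.pi / (t / 4)) / 2)) ^ 2 :=
    pow_le_pow_left₀ h0 h1 2
  have h3 : (Real.exp (-t) * (√(Real.pi / (t / 4)) / 2)) ^ 2
      = Real.pi / t * Real.exp (-(2 * t)) := by
    have hp : (0 : ℝ) ≤ Real.pi / (t / 4) := by positivity
    rw [mul_pow, div_pow, Real.sq_sqrt hp, ← Real.exp_nat_mul]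
    have : ((2 : ℕ) : ℝ) * -t = -(2 * t) := by push_cast; ring
    rw [this]
    field_simp
    ring
  linarith

theorem measurable_bK179 : Measurable bK179 := by
  have h : StronglyMeasurable (fun p : ℝ × ℝ => Real.exp (-p.1 * Real.cosh p.2)) :=
    (by fun_prop : Continuous fun p : ℝ × ℝ => Real.exp (-p.1 * Real.cosh p.2)).stronglyMeasurable
  exact (h.integral_prod_right' (ν := volume.restrict (Ioi (0 : ℝ)))).measurable

/-! ## The one-variable factor -/

/-- The inner function `(r²)^s K₀(c r)² / r`. -/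
def facIn179 (c s : ℝ) (r : ℝ) : ℝ := (r ^ 2) ^ s * (bK179 (c * r) ^ 2 / r)

/-- The one-variable factor `1[r > 0] (r²)^s K₀(c r)² / r`. -/
def fac179 (c s : ℝ) : ℝ → ℝ := (Ioi (0 : ℝ)).indicator (facIn179 c s)

theorem facIn_nonneg179 (c s : ℝ) {r : ℝ} (hr : 0 < r) : 0 ≤ facIn179 c s r :=
  mul_nonneg (Real.rpow_nonneg (sq_nonneg _) _) (div_nonneg (sq_nonneg _) hr.le)

theorem fac_nonneg179 (c s r : ℝ) : 0 ≤ fac179 c s r :=
  indicator_nonneg (fun _ hr => facIn_nonneg179 c s hr) r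

theorem fac_of_pos179 (c s : ℝ) {r : ℝ} (hr : 0 < r) :
    fac179 c s r = (r ^ 2) ^ s * (bK179 (c * r) ^ 2 / r) := by
  rw [fac179, indicator_of_mem (mem_Ioi.mpr hr)]
  rfl

theorem measurable_facIn179 (c s : ℝ) : Measurable (facIn179 c s) := by
  have h1 : Measurable fun r : ℝ => (r ^ 2) ^ s := (measurable_id.pow_const 2).pow_const s
  have h2 : Measurable fun r : ℝ => bK179 (c * r) ^ 2 / r :=
    ((measurable_bK179.comp (measurable_const.mul measurable_id)).pow_const 2).div measurable_id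
  exact h1.mul h2

theorem facIn_le179 {c s r : ℝ} (hc : 0 < c) (hr : 0 < r) :
    facIn179 c s r ≤ Real.pi / c * (r ^ (2 * s - 2) * Real.exp (-(2 * c) * r ^ (1 : ℝ))) := by
  have hb := bK_sq_le179 (mul_pos hc hr)
  have h1 : (r ^ 2) ^ s = r ^ (2 * s) := by
    rw [← Real.rpow_natCast_mul hr.le]
    norm_num
  have h2 : r ^ (2 * s - 2) = r ^ (2 * s) / r ^ 2 := by
    rw [Real.rpow_sub hr, Real.rpow_two]
  have h3 : bK179 (c * r) ^ 2 / r ≤ Real.pi / (c * r) * Real.exp (-(2 * (c * r))) / r :=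
    div_le_div_of_nonneg_right hb hr.le
  unfold facIn179
  rw [h1, h2, Real.rpow_one]
  calc r ^ (2 * s) * (bK179 (c * r) ^ 2 / r)
      ≤ r ^ (2 * s) * (Real.pi / (c * r) * Real.exp (-(2 * (c * r))) / r) :=
        mul_le_mul_of_nonneg_left h3 (Real.rpow_nonneg hr.le _)
    _ = Real.pi / c * (r ^ (2 * s) / r ^ 2 * Real.exp (-(2 * c) * r)) := by
        have : -(2 * (c * r)) = -(2 * c) * r := by ring
        rw [this]
        field_simp

theorem integrable_fac179 {c s : ℝ} (hc : 0 < c) (hs : 1 / 2 < s) : Integrable (fac179 c s) := by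
  have hI : IntegrableOn
      (fun r : ℝ => Real.pi / c * (r ^ (2 * s - 2) * Real.exp (-(2 * c) * r ^ (1 : ℝ)))) (Ioi 0) :=
    (integrableOn_rpow_mul_exp_neg_mul_rpow (by linarith) one_pos (by positivity)).const_mul _
  unfold fac179
  rw [integrable_indicator_iff measurableSet_Ioi]
  refine Integrable.mono' hI (measurable_facIn179 c s).aestronglyMeasurable ?_
  refine (ae_restrict_iff' measurableSet_Ioi).mpr (Filter.Eventually.of_forall fun r hr => ?_)
  rw [Real.norm_of_nonneg (facIn_nonneg179 c s hr)]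
  exact facIn_le179 hc hr

/-! ## The weight on `(0,∞)^ι` -/

section Weight

variable {ι : Type} [Fintype ι]

/-- The domain `{r ∈ (0,∞)^ι : T ≤ ∏ r_w²}`. -/
def dom179 (ι : Type) [Fintype ι] (T : ℝ) : Set (ι → ℝ) :=
  {r | (∀ w, 0 < r w) ∧ T ≤ ∏ w, r w ^ 2}

/-- The integrand `∏_w K₀(c_w r_w)² / r_w`. -/
def itg179 (c : ι → ℝ) (r : ι → ℝ) : ℝ := ∏ w, bK179 (c w * r w) ^ 2 / r w

/-- The weight `G(T) = ∫_{dom T} ∏_w K₀(c_w r_w)² / r_w`. -/
def gg179 (c : ι → ℝ) (T : ℝ) : ℝ := ∫ r in dom179 ι T, itg179 c r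

/-- The constant `∏_w ∫₀^∞ (r²)^s K₀(c_w r)² dr / r`. -/
def cst179 (c : ι → ℝ) (s : ℝ) : ℝ := ∏ w, ∫ r, fac179 (c w) s r

theorem measurableSet_dom179 (T : ℝ) : MeasurableSet (dom179 ι T) := by
  have h : dom179 ι T = (⋂ w, {r : ι → ℝ | 0 < r w}) ∩ {r | T ≤ ∏ w, r w ^ 2} := by
    ext r
    simp [dom179]
  rw [h]
  refine MeasurableSet.inter (MeasurableSet.iInter fun w => ?_) ?_
  · exact measurableSet_lt measurable_const (measurable_pi_apply w)
  · exact measurableSet_le measurable_const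
      (Finset.measurable_prod _ fun w _ => (measurable_pi_apply w).pow_const 2)

theorem measurable_itg179 (c : ι → ℝ) : Measurable (itg179 c) := by
  show Measurable (fun r : ι → ℝ => ∏ w, bK179 (c w * r w) ^ 2 / r w)
  refine Finset.measurable_prod _ fun w _ => ?_
  exact ((measurable_bK179.comp (measurable_const.mul (measurable_pi_apply w))).pow_const 2).div
    (measurable_pi_apply w)

theorem itg_nonneg179 (c : ι → ℝ) {r : ι → ℝ} (hr : ∀ w, 0 < r w) : 0 ≤ itg179 c r :=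
  Finset.prod_nonneg fun w _ => div_nonneg (sq_nonneg _) (hr w).le

theorem dom_anti179 {T₁ T₂ : ℝ} (h : T₁ ≤ T₂) : dom179 ι T₂ ⊆ dom179 ι T₁ :=
  fun _ hr => ⟨hr.1, h.trans hr.2⟩

/-- `1[∏ r² ≥ T] ≤ (∏ r² / T)^s`. -/
theorem itg_le179 (c : ι → ℝ) {T s : ℝ} (hT : 0 < T) (hs : 0 ≤ s) {r : ι → ℝ}
    (hr : r ∈ dom179 ι T) : itg179 c r ≤ T ^ (-s) * ∏ w, fac179 (c w) s (r w) := by
  obtain ⟨hpos, hprod⟩ := hr
  have h1 : ∏ w, fac179 (c w) s (r w) = (∏ w, r w ^ 2) ^ s * itg179 c r := by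
    rw [← Real.finsetProd_rpow _ _ (fun w _ => sq_nonneg (r w)), itg179, ← Finset.prod_mul_distrib]
    exact Finset.prod_congr rfl fun w _ => fac_of_pos179 _ _ (hpos w)
  have h2 : T ^ s ≤ (∏ w, r w ^ 2) ^ s := Real.rpow_le_rpow hT.le hprod hs
  have h3 : 0 ≤ itg179 c r := itg_nonneg179 c hpos
  have hTs : 0 < T ^ s := Real.rpow_pos_of_pos hT s
  have h4 : 1 ≤ (T ^ s)⁻¹ * (∏ w, r w ^ 2) ^ s := by
    rw [inv_mul_eq_div, one_le_div hTs]
    exact h2
  rw [h1, Real.rpow_neg hT.le, ← mul_assoc]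
  exact le_mul_of_one_le_left h3 h4

theorem integrable_prodFac179 {c : ι → ℝ} (hc : ∀ w, 0 < c w) {s : ℝ} (hs : 1 / 2 < s) :
    Integrable (fun r : ι → ℝ => ∏ w, fac179 (c w) s (r w)) :=
  Integrable.fintype_prod (μ := fun _ => (volume : Measure ℝ))
    (fun w => integrable_fac179 (hc w) hs)

theorem integrableOn_itg179 {c : ι → ℝ} (hc : ∀ w, 0 < c w) {T : ℝ} (hT : 0 < T) :
    IntegrableOn (itg179 c) (dom179 ι T) := by
  have hg : IntegrableOn (fun r : ι → ℝ => T ^ (-(1 : ℝ)) * ∏ w, fac179 (c w) 1 (r w))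
      (dom179 ι T) :=
    ((integrable_prodFac179 hc (by norm_num)).const_mul _).integrableOn
  refine Integrable.mono' hg (measurable_itg179 c).aestronglyMeasurable ?_
  refine (ae_restrict_iff' (measurableSet_dom179 T)).mpr
    (Filter.Eventually.of_forall fun r hr => ?_)
  rw [Real.norm_of_nonneg (itg_nonneg179 c hr.1)]
  exact itg_le179 c hT zero_le_one hr

/-- **The bound** `G(T) ≤ T^{-s} ∏_w ∫₀^∞ (r²)^s K₀(c_w r)² dr / r` (`s > 1/2`, `T > 0`). -/
theorem gg_le179 {c : ι → ℝ} (hc : ∀ w, 0 < c w) {T s : ℝ} (hT : 0 < T) (hs : 1 / 2 < s) :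
    gg179 c T ≤ T ^ (-s) * cst179 c s := by
  have hint := integrable_prodFac179 hc hs
  unfold gg179
  calc ∫ r in dom179 ι T, itg179 c r
      ≤ ∫ r in dom179 ι T, T ^ (-s) * ∏ w, fac179 (c w) s (r w) :=
        setIntegral_mono_on (integrableOn_itg179 hc hT) (hint.const_mul _).integrableOn
          (measurableSet_dom179 T) (fun r hr => itg_le179 c hT (by linarith) hr)
    _ ≤ ∫ r : ι → ℝ, T ^ (-s) * ∏ w, fac179 (c w) s (r w) :=
        setIntegral_le_integral (hint.const_mul _)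
          (Filter.Eventually.of_forall fun r => mul_nonneg (Real.rpow_nonneg hT.le _)
            (Finset.prod_nonneg fun w _ => fac_nonneg179 _ _ _))
    _ = T ^ (-s) * cst179 c s := by
        rw [integral_const_mul, integral_fintype_prod_volume_eq_prod]
        rfl

theorem gg_nonneg179 (c : ι → ℝ) (T : ℝ) : 0 ≤ gg179 c T :=
  setIntegral_nonneg (measurableSet_dom179 T) fun _ hr => itg_nonneg179 c hr.1

theorem gg_anti179 {c : ι → ℝ} (hc : ∀ w, 0 < c w) {T₁ T₂ : ℝ} (h1 : 0 < T₁) (h : T₁ ≤ T₂) :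
    gg179 c T₂ ≤ gg179 c T₁ := by
  unfold gg179
  refine setIntegral_mono_set (integrableOn_itg179 hc h1) ?_ (dom_anti179 h).eventuallyLE
  exact (ae_restrict_iff' (measurableSet_dom179 T₁)).mpr
    (Filter.Eventually.of_forall fun r hr => itg_nonneg179 c hr.1)

theorem gg_pos179 {c : ι → ℝ} (hc : ∀ w, 0 < c w) : 0 < gg179 c 1 := by
  unfold gg179
  rw [setIntegral_pos_iff_support_of_nonneg_ae
    ((ae_restrict_iff' (measurableSet_dom179 1)).mpr
      (Filter.Eventually.of_forall fun r hr => itg_nonneg179 c hr.1))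
    (integrableOn_itg179 hc one_pos)]
  have hsub : Set.pi univ (fun _ : ι => Ioo (1 : ℝ) 2)
      ⊆ Function.support (itg179 c) ∩ dom179 ι 1 := by
    intro r hr
    have hr' : ∀ w, 1 < r w := fun w => (hr w (mem_univ w)).1
    have hpos : ∀ w, 0 < r w := fun w => by linarith [hr' w]
    refine ⟨?_, hpos, ?_⟩
    · refine ne_of_gt (Finset.prod_pos fun w _ => ?_)
      exact div_pos (pow_pos (bK_pos179 (mul_pos (hc w) (hpos w))) 2) (hpos w)
    · calc (1 : ℝ) = ∏ _w : ι, (1 : ℝ) := by simp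
        _ ≤ ∏ w, r w ^ 2 := Finset.prod_le_prod (fun _ _ => zero_le_one)
            (fun w _ => by nlinarith [hr' w])
  refine lt_of_lt_of_le ?_ (measure_mono hsub)
  rw [Real.volume_pi_Ioo]
  norm_num

theorem gg_div_le179 {c : ι → ℝ} (hc : ∀ w, 0 < c w) {t₀ : ℝ} (ht₀ : 0 < t₀) {T s : ℝ}
    (hT : 0 < T) (hs : 1 / 2 < s) :
    gg179 c (T / t₀) ≤ cst179 c s / t₀ ^ (-s) * T ^ (-s) := by
  have h := gg_le179 hc (div_pos hT ht₀) hs
  rw [Real.div_rpow hT.le ht₀.le] at h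
  calc gg179 c (T / t₀) ≤ T ^ (-s) / t₀ ^ (-s) * cst179 c s := h
    _ = cst179 c s / t₀ ^ (-s) * T ^ (-s) := by ring

/-- **The five properties of a weight** for `T ↦ G(T / t₀)`. -/
theorem weight_core179 (c : ι → ℝ) (hc : ∀ w, 0 < c w) (t₀ : ℝ) (ht₀ : 0 < t₀) :
    (∀ T : ℝ, 0 < T → 0 ≤ gg179 c (T / t₀)) ∧
    AntitoneOn (fun T => gg179 c (T / t₀)) (Ioi 0) ∧
    (∃ T : ℝ, 0 < T ∧ 0 < gg179 c (T / t₀)) ∧
    IntegrableOn (fun T => gg179 c (T / t₀)) (Ioc 0 1) ∧
    ∃ C η : ℝ, 0 < η ∧ ∀ T : ℝ, 1 ≤ T → gg179 c (T / t₀) ≤ C * T ^ (-(1 + η)) := by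
  have hanti : AntitoneOn (fun T => gg179 c (T / t₀)) (Ioi 0) := fun T₁ h1 T₂ _ h =>
    gg_anti179 hc (div_pos h1 ht₀) (div_le_div_of_nonneg_right h ht₀.le)
  refine ⟨fun T _ => gg_nonneg179 c _, hanti, ⟨t₀, ht₀, ?_⟩, ?_, ?_⟩
  · rw [div_self ht₀.ne']
    exact gg_pos179 hc
  · have hmeas : AEStronglyMeasurable (fun T => gg179 c (T / t₀)) (volume.restrict (Ioc 0 1)) :=
      (aemeasurable_restrict_of_antitoneOn measurableSet_Ioc
        (hanti.mono Ioc_subset_Ioi_self)).aestronglyMeasurable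
    have hI : IntegrableOn
        (fun T : ℝ => cst179 c (3 / 4) / t₀ ^ (-(3 / 4 : ℝ)) * T ^ (-(3 / 4 : ℝ))) (Ioc 0 1) := by
      have h := intervalIntegral.intervalIntegrable_rpow' (r := -(3 / 4 : ℝ)) (by norm_num)
        (a := 0) (b := 1)
      exact ((intervalIntegrable_iff_integrableOn_Ioc_of_le zero_le_one).mp h).const_mul _
    refine Integrable.mono' hI hmeas ?_
    refine (ae_restrict_iff' measurableSet_Ioc).mpr (Filter.Eventually.of_forall fun T hT => ?_)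
    rw [Real.norm_of_nonneg (gg_nonneg179 c _)]
    exact gg_div_le179 hc ht₀ hT.1 (by norm_num)
  · refine ⟨cst179 c (1 + 1) / t₀ ^ (-(1 + 1 : ℝ)), 1, one_pos, fun T hT => ?_⟩
    exact gg_div_le179 hc ht₀ (by linarith) (by norm_num)

end Weight

end Fermat.Agent.LT.T7.H179

end
end
-- ===== PACK-END LT/T7/H179/WeightCore.lean

-- ===== PACK-BEGIN LT/T7/H729/HaarLogCore.lean
section


/-!
# Row LT, tower T7, leaf T7.14.6a-F.6.1 `HaarLogC216` (helper729): core, OFF-MAIN.  Mathlib only.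

`haarLog_core729`: a non-zero measure `m` on `ℝ` with `m (-∞, 0] = 0`, invariant under all
dilations `t ↦ s t` (`s > 0`) and finite on `[1, 2]`, is `V₀ · dt/t` with `V₀ > 0`.

Proof: `m₂ = log_* m` is translation invariant and locally finite, hence `c · volume`;
`m = exp_* m₂`, and `exp_* volume = dt/t` (change of variables).
-/

set_option autoImplicit false

open MeasureTheory Filter Topology
open scoped ENNReal NNReal

noncomputable section

namespace Fermat.Agent.LT.T7.H729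

/-- The measure `dt / t` on `(0, ∞)`. -/
def dtt729 : Measure ℝ :=
  (volume.restrict (Set.Ioi (0 : ℝ))).withDensity fun t => ENNReal.ofReal t⁻¹

/-- `exp_* volume = dt/t`. -/
theorem map_exp_volume729 : Measure.map Real.exp (volume : Measure ℝ) = dtt729 := by
  ext A hA
  rw [Measure.map_apply Real.measurable_exp hA]
  unfold dtt729
  rw [withDensity_apply _ hA, Measure.restrict_restrict hA]
  have himg : Real.exp '' (Real.exp ⁻¹' A) = A ∩ Set.Ioi 0 := by
    ext t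
    constructor
    · rintro ⟨u, hu, rfl⟩
      exact ⟨hu, Real.exp_pos u⟩
    · rintro ⟨ht, ht0⟩
      exact ⟨Real.log t, by
        show Real.exp (Real.log t) ∈ A
        rw [Real.exp_log ht0]
        exact ht, Real.exp_log ht0⟩
  have hms : MeasurableSet (Real.exp ⁻¹' A) := Real.measurable_exp hA
  have h := lintegral_image_eq_lintegral_abs_deriv_mul hms
    (fun x _ => (Real.hasDerivAt_exp x).hasDerivWithinAt) Real.exp_injective.injOn
    (fun t => ENNReal.ofReal t⁻¹)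
  rw [himg] at h
  rw [h]
  have h1 : ∀ x : ℝ, ENNReal.ofReal |Real.exp x| * ENNReal.ofReal (Real.exp x)⁻¹ = 1 := by
    intro x
    rw [abs_of_pos (Real.exp_pos x), ← ENNReal.ofReal_mul (Real.exp_pos x).le,
      mul_inv_cancel₀ (Real.exp_ne_zero x), ENNReal.ofReal_one]
  simp only [h1]
  rw [lintegral_one, Measure.restrict_apply MeasurableSet.univ, Set.univ_inter]

/-- **Core of `HaarLogC216`.** -/
theorem haarLog_core729 (m : Measure ℝ) (h0 : m (Set.Iic 0) = 0)
    (hinv : ∀ s : ℝ, 0 < s → Measure.map (fun t : ℝ => s * t) m = m)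
    (hfin : m (Set.Icc 1 2) < ⊤) (hne : m ≠ 0) :
    ∃ V₀ : ℝ, 0 < V₀ ∧ m = ENNReal.ofReal V₀ • dtt729 := by
  -- `m` is carried by `(0, ∞)`
  have hpos : ∀ᵐ t ∂m, 0 < t := by
    have := measure_eq_zero_iff_ae_notMem.1 h0
    filter_upwards [this] with t ht
    exact not_le.1 ht
  set m₂ : Measure ℝ := Measure.map Real.log m with hm₂
  -- translation invariance
  have htr : ∀ a : ℝ, Measure.map (fun u : ℝ => a + u) m₂ = m₂ := by
    intro a
    have hmeas1 : Measurable fun u : ℝ => a + u := measurable_const_add a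
    have hmeas2 : Measurable fun t : ℝ => Real.exp a * t := measurable_const_mul _
    rw [hm₂, Measure.map_map hmeas1 Real.measurable_log]
    have hae : ((fun u : ℝ => a + u) ∘ Real.log)
        =ᵐ[m] (Real.log ∘ fun t : ℝ => Real.exp a * t) := by
      filter_upwards [hpos] with t ht
      show a + Real.log t = Real.log (Real.exp a * t)
      rw [Real.log_mul (Real.exp_ne_zero a) ht.ne', Real.log_exp]
    rw [Measure.map_congr hae, ← Measure.map_map Real.measurable_log hmeas2,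
      hinv _ (Real.exp_pos a)]
  have hI : m₂.IsAddLeftInvariant := ⟨htr⟩
  -- finiteness on `[0, log 2]`
  have hL : 0 < Real.log 2 := Real.log_pos (by norm_num)
  have hfin0 : m₂ (Set.Icc 0 (Real.log 2)) < ⊤ := by
    rw [hm₂, Measure.map_apply Real.measurable_log measurableSet_Icc]
    have hsub : Real.log ⁻¹' Set.Icc 0 (Real.log 2) ⊆ Set.Iic 0 ∪ Set.Icc 1 2 := by
      intro t ht
      by_cases ht0 : t ≤ 0
      · exact Or.inl ht0
      · right
        have ht0' : 0 < t := not_le.1 ht0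
        obtain ⟨h1, h2⟩ := ht
        exact ⟨(Real.log_nonneg_iff ht0').1 h1,
          (Real.log_le_log_iff ht0' (by norm_num)).1 h2⟩
    calc m (Real.log ⁻¹' Set.Icc 0 (Real.log 2))
        ≤ m (Set.Iic 0 ∪ Set.Icc 1 2) := measure_mono hsub
      _ ≤ m (Set.Iic 0) + m (Set.Icc 1 2) := measure_union_le _ _
      _ < ⊤ := by
          rw [h0, zero_add]
          exact hfin
  -- local finiteness
  have hLF : IsLocallyFiniteMeasure m₂ := by
    refine ⟨fun x => ⟨Set.Icc (x - Real.log 2 / 2) (x + Real.log 2 / 2), ?_, ?_⟩⟩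
    · exact Icc_mem_nhds (by linarith) (by linarith)
    · have h1 := htr (x - Real.log 2 / 2)
      have h2 : m₂ (Set.Icc (x - Real.log 2 / 2) (x + Real.log 2 / 2))
          = m₂ (Set.Icc 0 (Real.log 2)) := by
        have h3 : (Measure.map (fun u : ℝ => (-(x - Real.log 2 / 2)) + u) m₂)
            (Set.Icc 0 (Real.log 2)) = m₂ (Set.Icc 0 (Real.log 2)) := by
          rw [htr]
        rw [Measure.map_apply (measurable_const_add _) measurableSet_Icc,
          Set.preimage_const_add_Icc] at h3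
        rw [← h3]
        congr 1
        congr 1 <;> ring
      rw [h2]
      exact hfin0
  -- uniqueness of the Haar measure of `ℝ`
  set c : ℝ≥0 := Measure.addHaarScalarFactor m₂ volume with hc
  have hm₂c : m₂ = c • (volume : Measure ℝ) := Measure.isAddLeftInvariant_eq_smul m₂ volume
  -- back to `m`
  have hback : m = Measure.map Real.exp m₂ := by
    rw [hm₂, Measure.map_map Real.measurable_exp Real.measurable_log]
    have hae : (Real.exp ∘ Real.log) =ᵐ[m] id := by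
      filter_upwards [hpos] with t ht
      exact Real.exp_log ht
    rw [Measure.map_congr hae, Measure.map_id]
  have hm : m = c • dtt729 := by
    rw [hback, hm₂c, Measure.map_smul, map_exp_volume729]
  have hc0 : c ≠ 0 := by
    intro h
    apply hne
    rw [hm, h, zero_smul]
  refine ⟨(c : ℝ), NNReal.coe_pos.2 (pos_iff_ne_zero.2 hc0), ?_⟩
  rw [ENNReal.ofReal_coe_nnreal]
  exact hm

end Fermat.Agent.LT.T7.H729

end

end
-- ===== PACK-END LT/T7/H729/HaarLogCore.lean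

-- ===== PACK-BEGIN LT/T7/H171/CalcCore.lean
section


/-!
# Row LT, tower T7, leaf T7.14.6a-F.6.5 `CalcC216` (registry 2163) -- Mathlib-only core (helper171)

OFF-MAIN.  The two one-variable lower integrals of `H216.CalcC216`
(spec helper216@8929b2109 `LT/T7/H216/BoxSpec.lean`, sha256 760ee146fd99e7ce), proved over
Mathlib only.  The thin wrapper `Calc.lean` states `H216.CalcC216` verbatim.
-/

set_option autoImplicit false

open MeasureTheory Set
open scoped ENNReal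

namespace Fermat.Agent.LT.T7.H171

/-- `∫_{t ≥ Y} t⁻² dt < ∞`, as a lower integral over `(0, ∞)`. -/
theorem calc_tail171 (Y : ℝ) (hY : 0 < Y) :
    ∫⁻ t in Set.Ioi (0 : ℝ),
      ENNReal.ofReal t⁻¹ * (Set.Ici Y).indicator (fun u : ℝ => ENNReal.ofReal u⁻¹) t < ⊤ := by
  have hint : IntegrableOn (fun t : ℝ => t ^ (-2 : ℝ)) (Set.Ioi Y) :=
    integrableOn_Ioi_rpow_of_lt (by norm_num) hY
  have hint' : IntegrableOn (fun t : ℝ => t ^ (-2 : ℝ)) (Set.Ici Y) :=
    Iff.mpr integrableOn_Ici_iff_integrableOn_Ioi hint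
  have hlt : ∫⁻ t in Set.Ici Y, ENNReal.ofReal (t ^ (-2 : ℝ)) < ⊤ :=
    hint'.setLIntegral_lt_top
  refine lt_of_le_of_lt ?_ hlt
  rw [← lintegral_indicator measurableSet_Ici, ← lintegral_indicator measurableSet_Ioi]
  refine lintegral_mono fun t => ?_
  by_cases ht : t ∈ Set.Ici Y
  · have ht0 : 0 < t := lt_of_lt_of_le hY ht
    have hinv : 0 ≤ t⁻¹ := inv_nonneg.mpr ht0.le
    rw [Set.indicator_of_mem (show t ∈ Set.Ioi (0 : ℝ) from ht0), Set.indicator_of_mem ht,
      Set.indicator_of_mem ht, ← ENNReal.ofReal_mul hinv]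
    refine le_of_eq (congrArg ENNReal.ofReal ?_)
    rw [Real.rpow_neg ht0.le, Real.rpow_two, sq, mul_inv]
  · rw [Set.indicator_of_notMem ht]
    by_cases ht0 : t ∈ Set.Ioi (0 : ℝ)
    · rw [Set.indicator_of_mem ht0, Set.indicator_of_notMem ht, mul_zero]
    · rw [Set.indicator_of_notMem ht0]

/-- `∫_{t > 0, 1 ≤ c t² < 2} dt / t = log 2 / 2`, as a lower integral over `(0, ∞)`. -/
theorem calc_shell171 (c : ℝ) (hc : 0 < c) :
    ∫⁻ t in Set.Ioi (0 : ℝ),
      ENNReal.ofReal t⁻¹ *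
        {u : ℝ | 1 ≤ c * u ^ 2 ∧ c * u ^ 2 < 2}.indicator (fun _ : ℝ => (1 : ℝ≥0∞)) t
      = ENNReal.ofReal (Real.log 2 / 2) := by
  have hsc : 0 < Real.sqrt c := Real.sqrt_pos.mpr hc
  have hs2 : 0 < Real.sqrt 2 := Real.sqrt_pos.mpr (by norm_num)
  have hsq : Real.sqrt c * Real.sqrt c = c := Real.mul_self_sqrt hc.le
  have hsq2 : Real.sqrt 2 * Real.sqrt 2 = 2 := Real.mul_self_sqrt (by norm_num)
  set a : ℝ := (Real.sqrt c)⁻¹ with ha_def
  set b : ℝ := Real.sqrt 2 / Real.sqrt c with hb_def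
  have ha : 0 < a := inv_pos.mpr hsc
  have hb : 0 < b := div_pos hs2 hsc
  have h12 : (1 : ℝ) ≤ Real.sqrt 2 := by
    rw [show (1 : ℝ) = Real.sqrt 1 from Real.sqrt_one.symm]
    exact Real.sqrt_le_sqrt (by norm_num)
  have hab : a ≤ b := by
    rw [ha_def, hb_def, inv_eq_one_div]
    exact div_le_div_of_nonneg_right h12 hsc.le
  -- membership in the shell
  have hmem : ∀ t : ℝ, 0 < t → ((1 ≤ c * t ^ 2 ∧ c * t ^ 2 < 2) ↔ t ∈ Set.Ico a b) := by
    intro t ht
    have hct : c * t ^ 2 = (Real.sqrt c * t) ^ 2 := by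
      rw [mul_pow, sq (Real.sqrt c), hsq]
    have hpos : 0 ≤ Real.sqrt c * t := (mul_pos hsc ht).le
    rw [Set.mem_Ico, hct, ha_def, hb_def, inv_eq_one_div, div_le_iff₀ hsc, lt_div_iff₀ hsc,
      mul_comm t (Real.sqrt c)]
    constructor
    · rintro ⟨h1, h2⟩
      refine ⟨?_, ?_⟩
      · by_contra hlt
        have hlt' := not_le.mp hlt
        nlinarith
      · by_contra hge
        have hge' := not_lt.mp hge
        nlinarith
    · rintro ⟨h1, h2⟩
      refine ⟨by nlinarith, by nlinarith⟩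
  -- rewrite the integrand
  have h1 : ∫⁻ t in Set.Ioi (0 : ℝ),
      ENNReal.ofReal t⁻¹ *
        {u : ℝ | 1 ≤ c * u ^ 2 ∧ c * u ^ 2 < 2}.indicator (fun _ : ℝ => (1 : ℝ≥0∞)) t
      = ∫⁻ t in Set.Ico a b, ENNReal.ofReal t⁻¹ := by
    rw [← lintegral_indicator measurableSet_Ioi, ← lintegral_indicator measurableSet_Ico]
    refine lintegral_congr fun t => ?_
    by_cases ht0 : t ∈ Set.Ioi (0 : ℝ)
    · rw [Set.indicator_of_mem ht0]
      by_cases ht : t ∈ Set.Ico a b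
      · have ht' : t ∈ {u : ℝ | 1 ≤ c * u ^ 2 ∧ c * u ^ 2 < 2} := (hmem t ht0).mpr ht
        rw [Set.indicator_of_mem ht, Set.indicator_of_mem ht', mul_one]
      · have ht' : t ∉ {u : ℝ | 1 ≤ c * u ^ 2 ∧ c * u ^ 2 < 2} := fun h => ht ((hmem t ht0).mp h)
        rw [Set.indicator_of_notMem ht, Set.indicator_of_notMem ht', mul_zero]
    · have ht : t ∉ Set.Ico a b := fun h => ht0 (lt_of_lt_of_le ha h.1)
      rw [Set.indicator_of_notMem ht0, Set.indicator_of_notMem ht]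
  -- the interval integral
  have hcont : ContinuousOn (fun t : ℝ => t⁻¹) (Set.Icc a b) :=
    continuousOn_inv₀.mono fun t ht => ne_of_gt (lt_of_lt_of_le ha ht.1)
  have hintIcc : IntegrableOn (fun t : ℝ => t⁻¹) (Set.Icc a b) :=
    hcont.integrableOn_Icc
  have hintIco : IntegrableOn (fun t : ℝ => t⁻¹) (Set.Ico a b) :=
    hintIcc.mono_set Set.Ico_subset_Icc_self
  have hnn : 0 ≤ᵐ[volume.restrict (Set.Ico a b)] fun t : ℝ => t⁻¹ := by
    refine (ae_restrict_iff' measurableSet_Ico).mpr (Filter.Eventually.of_forall fun t ht => ?_)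
    exact inv_nonneg.mpr (lt_of_lt_of_le ha ht.1).le
  have h2 : ∫⁻ t in Set.Ico a b, ENNReal.ofReal t⁻¹
      = ENNReal.ofReal (∫ t in Set.Ico a b, t⁻¹) :=
    (ofReal_integral_eq_lintegral_ofReal hintIco hnn).symm
  have h3 : ∫ t in Set.Ico a b, t⁻¹ = ∫ t in a..b, t⁻¹ := by
    rw [intervalIntegral.integral_of_le hab, integral_Ico_eq_integral_Ioc]
  have h4 : ∫ t in a..b, t⁻¹ = Real.log (b / a) := integral_inv_of_pos ha hb
  have h5 : b / a = Real.sqrt 2 := by
    rw [ha_def, hb_def]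
    field_simp
  rw [h1, h2, h3, h4, h5, Real.log_sqrt (by norm_num)]

end Fermat.Agent.LT.T7.H171

end
-- ===== PACK-END LT/T7/H171/CalcCore.lean

-- ===== PACK-BEGIN LT/T7/H346/GlueAbs.lean
section


/-!
# Row LT, tower T7, leaf T7.14.6a-F.8 `CoreOfPosC57`: the abstract glue (helper346), Mathlib only

OFF-MAIN.  From a `lintegral` identity for non-negative functions with an extended counting
function `N` to the Bochner identity for bounded real / complex functions with the counting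
function `n` (`n = N` wherever `N < ∞`).
-/

set_option autoImplicit false

open MeasureTheory
open scoped ENNReal

noncomputable section

namespace Fermat.Agent.LT.T7.H346

variable {X P : Type*} [MeasurableSpace X] [MeasurableSpace P]

/-- A non-negative measurable function with finite `lintegral` is integrable. -/
theorem integrable_of_lintegral_ofReal346 {ρ : Measure P} {w : P → ℝ} (hw0 : ∀ p, 0 ≤ w p)
    (hwm : Measurable w) (hwfin : ∫⁻ p, ENNReal.ofReal (w p) ∂ρ < ⊤) : Integrable w ρ := by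
  have h := integrable_toReal_of_lintegral_ne_top
    (hwm.ennreal_ofReal.aemeasurable (μ := ρ)) hwfin.ne
  refine h.congr (Filter.Eventually.of_forall fun p => ?_)
  exact ENNReal.toReal_ofReal (hw0 p)

/-- **The glue, real case.** -/
theorem integral_mul_card_eq346 (μ : Measure X) (ρ : Measure P) (N : X → ℝ≥0∞) (n : X → ℕ)
    (j : P → X) (w : P → ℝ) (c₀ : ℝ)
    (hN : Measurable N) (hn : ∀ x, N x < ⊤ → (n x : ℝ≥0∞) = N x)
    (hNfin : ∫⁻ x, N x ∂μ < ⊤)
    (hw0 : ∀ p, 0 ≤ w p) (hwm : Measurable w) (hwfin : ∫⁻ p, ENNReal.ofReal (w p) ∂ρ < ⊤)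
    (hc₀ : 0 ≤ c₀)
    (f : X → ℝ) (hf : Measurable f) (hfj : Measurable fun p => f (j p)) (C : ℝ)
    (hC : ∀ x, |f x| ≤ C)
    (hp : ∫⁻ x, ENNReal.ofReal (f x) * N x ∂μ
      = ENNReal.ofReal c₀ * ∫⁻ p, ENNReal.ofReal (f (j p)) * ENNReal.ofReal (w p) ∂ρ)
    (hm : ∫⁻ x, ENNReal.ofReal (-f x) * N x ∂μ
      = ENNReal.ofReal c₀ * ∫⁻ p, ENNReal.ofReal (-f (j p)) * ENNReal.ofReal (w p) ∂ρ) :
    ∫ x, f x * (n x : ℝ) ∂μ = c₀ * ∫ p, f (j p) * w p ∂ρ := by
  have hae : ∀ᵐ x ∂μ, N x < ⊤ := ae_lt_top hN hNfin.ne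
  have hnN : ∀ᵐ x ∂μ, (N x).toReal = (n x : ℝ) := hae.mono fun x hx => by
    rw [← hn x hx]
    simp
  have hNint : Integrable (fun x => (N x).toReal) μ :=
    integrable_toReal_of_lintegral_ne_top hN.aemeasurable hNfin.ne
  have hnint : Integrable (fun x => (n x : ℝ)) μ := hNint.congr hnN
  have hfn : Integrable (fun x => f x * (n x : ℝ)) μ :=
    hnint.bdd_mul hf.aestronglyMeasurable (c := C)
      (Filter.Eventually.of_forall fun x => by rw [Real.norm_eq_abs]; exact hC x)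
  have hwint : Integrable w ρ := integrable_of_lintegral_ofReal346 hw0 hwm hwfin
  have hfw : Integrable (fun p => f (j p) * w p) ρ :=
    hwint.bdd_mul hfj.aestronglyMeasurable (c := C)
      (Filter.Eventually.of_forall fun p => by rw [Real.norm_eq_abs]; exact hC (j p))
  -- the four lintegrals
  have e1 : ∫⁻ x, ENNReal.ofReal (f x * (n x : ℝ)) ∂μ = ∫⁻ x, ENNReal.ofReal (f x) * N x ∂μ := by
    refine lintegral_congr_ae (hae.mono fun x hx => ?_)
    show ENNReal.ofReal (f x * (n x : ℝ)) = ENNReal.ofReal (f x) * N x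
    rw [ENNReal.ofReal_mul' (Nat.cast_nonneg _), ENNReal.ofReal_natCast, hn x hx]
  have e2 : ∫⁻ x, ENNReal.ofReal (-(f x * (n x : ℝ))) ∂μ
      = ∫⁻ x, ENNReal.ofReal (-f x) * N x ∂μ := by
    refine lintegral_congr_ae (hae.mono fun x hx => ?_)
    show ENNReal.ofReal (-(f x * (n x : ℝ))) = ENNReal.ofReal (-f x) * N x
    rw [← neg_mul, ENNReal.ofReal_mul' (Nat.cast_nonneg _), ENNReal.ofReal_natCast, hn x hx]
  have e3 : ∫⁻ p, ENNReal.ofReal (f (j p) * w p) ∂ρ
      = ∫⁻ p, ENNReal.ofReal (f (j p)) * ENNReal.ofReal (w p) ∂ρ := by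
    refine lintegral_congr fun p => ?_
    rw [ENNReal.ofReal_mul' (hw0 p)]
  have e4 : ∫⁻ p, ENNReal.ofReal (-(f (j p) * w p)) ∂ρ
      = ∫⁻ p, ENNReal.ofReal (-f (j p)) * ENNReal.ofReal (w p) ∂ρ := by
    refine lintegral_congr fun p => ?_
    rw [← neg_mul, ENNReal.ofReal_mul' (hw0 p)]
  rw [integral_eq_lintegral_pos_part_sub_lintegral_neg_part hfn,
    integral_eq_lintegral_pos_part_sub_lintegral_neg_part hfw, e1, e2, e3, e4, hp, hm,
    ENNReal.toReal_mul, ENNReal.toReal_mul, ENNReal.toReal_ofReal hc₀]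
  ring

/-- **The glue, complex case.** -/
theorem integral_mul_card_eq_complex346 (μ : Measure X) (ρ : Measure P) (N : X → ℝ≥0∞)
    (n : X → ℕ) (j : P → X) (w : P → ℝ) (c₀ : ℝ)
    (hN : Measurable N) (hn : ∀ x, N x < ⊤ → (n x : ℝ≥0∞) = N x)
    (hNfin : ∫⁻ x, N x ∂μ < ⊤)
    (hw0 : ∀ p, 0 ≤ w p) (hwm : Measurable w) (hwfin : ∫⁻ p, ENNReal.ofReal (w p) ∂ρ < ⊤)
    (hc₀ : 0 ≤ c₀)
    (Φ : X → ℂ) (hΦ : Measurable Φ) (hΦj : Measurable fun p => Φ (j p)) (C : ℝ)
    (hC : ∀ x, ‖Φ x‖ ≤ C)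
    (H : ∀ f : X → ℝ, (f = fun x => (Φ x).re) ∨ (f = fun x => -(Φ x).re) ∨
        (f = fun x => (Φ x).im) ∨ (f = fun x => -(Φ x).im) →
      ∫⁻ x, ENNReal.ofReal (f x) * N x ∂μ
        = ENNReal.ofReal c₀ * ∫⁻ p, ENNReal.ofReal (f (j p)) * ENNReal.ofReal (w p) ∂ρ) :
    ∫ x, Φ x * (((n x : ℕ) : ℝ) : ℂ) ∂μ
      = (c₀ : ℂ) * ∫ p, Φ (j p) * ((w p : ℝ) : ℂ) ∂ρ := by
  have hre := integral_mul_card_eq346 μ ρ N n j w c₀ hN hn hNfin hw0 hwm hwfin hc₀
    (fun x => (Φ x).re) (Complex.measurable_re.comp hΦ) (Complex.measurable_re.comp hΦj) C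
    (fun x => (Complex.abs_re_le_norm _).trans (hC x))
    (H _ (Or.inl rfl)) (H _ (Or.inr (Or.inl rfl)))
  have him := integral_mul_card_eq346 μ ρ N n j w c₀ hN hn hNfin hw0 hwm hwfin hc₀
    (fun x => (Φ x).im) (Complex.measurable_im.comp hΦ) (Complex.measurable_im.comp hΦj) C
    (fun x => (Complex.abs_im_le_norm _).trans (hC x))
    (H _ (Or.inr (Or.inr (Or.inl rfl)))) (H _ (Or.inr (Or.inr (Or.inr rfl))))
  -- integrability
  have hae : ∀ᵐ x ∂μ, N x < ⊤ := ae_lt_top hN hNfin.ne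
  have hnN : ∀ᵐ x ∂μ, (N x).toReal = (n x : ℝ) := hae.mono fun x hx => by
    rw [← hn x hx]
    simp
  have hNint : Integrable (fun x => (N x).toReal) μ :=
    integrable_toReal_of_lintegral_ne_top hN.aemeasurable hNfin.ne
  have hnint : Integrable (fun x => (((n x : ℕ) : ℝ) : ℂ)) μ := (hNint.congr hnN).ofReal
  have hΦn : Integrable (fun x => Φ x * (((n x : ℕ) : ℝ) : ℂ)) μ :=
    hnint.bdd_mul hΦ.aestronglyMeasurable (c := C) (Filter.Eventually.of_forall hC)
  have hwint : Integrable (fun p => ((w p : ℝ) : ℂ)) ρ :=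
    (integrable_of_lintegral_ofReal346 hw0 hwm hwfin).ofReal
  have hΦw : Integrable (fun p => Φ (j p) * ((w p : ℝ) : ℂ)) ρ :=
    hwint.bdd_mul hΦj.aestronglyMeasurable (c := C)
      (Filter.Eventually.of_forall fun p => hC (j p))
  rw [← integral_re_add_im hΦn, ← integral_re_add_im hΦw]
  have r1 : (fun x => RCLike.re (Φ x * (((n x : ℕ) : ℝ) : ℂ))) = fun x => (Φ x).re * (n x : ℝ) := by
    funext x
    simp
  have r2 : (fun x => RCLike.im (Φ x * (((n x : ℕ) : ℝ) : ℂ))) = fun x => (Φ x).im * (n x : ℝ) := by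
    funext x
    simp
  have r3 : (fun p => RCLike.re (Φ (j p) * ((w p : ℝ) : ℂ))) = fun p => (Φ (j p)).re * w p := by
    funext p
    simp
  have r4 : (fun p => RCLike.im (Φ (j p) * ((w p : ℝ) : ℂ))) = fun p => (Φ (j p)).im * w p := by
    funext p
    simp
  rw [r1, r2, r3, r4, hre, him]
  push_cast
  simp only [RCLike.I_to_complex]
  rw [mul_add, mul_assoc]
  rfl

end Fermat.Agent.LT.T7.H346

end

end
-- ===== PACK-END LT/T7/H346/GlueAbs.lean

-- ===== PACK-BEGIN LT/T7/H362/AbelWeight.lean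
section


/-!
# Row LT, tower T7, leaf T7.14.2 (`AbelC`), part 1: the Mellin transform of a weight -- helper362

OFF-MAIN.  Mathlib only.  For an admissible weight `G` (`Wt362`: nonnegative and antitone on
`(0, ∞)`, positive somewhere, integrable on `(0, 1]`, `G T ≤ C T^{-1-η}` on `[1, ∞)`):

* `Wt362.aesm`        : `G` is a.e. strongly measurable on `(0, ∞)`;
* `Wt362.mellin_int`  : `G T · T^{s-1}` is integrable on `(0, ∞)` for `1 ≤ s < 1 + η`;
* `Wt362.mellin_tendsto` : `M(s) = ∫₀^∞ G T · T^{s-1} dT → M(1) = ∫₀^∞ G` as `s → 1⁺`;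
* `Wt362.mass_pos`    : `∫₀^∞ G > 0`.
-/

set_option autoImplicit false

open MeasureTheory Filter Topology Set

noncomputable section

namespace Fermat.Agent.LT.T7.H362

/-- Admissible weights, with the decay constants as data-free existence statement split off:
`G ≥ 0` and antitone on `(0, ∞)`, positive somewhere, integrable on `(0, 1]`, and
`G T ≤ C T^{-(1+η)}` for `T ≥ 1`. -/
structure Wt362 (G : ℝ → ℝ) (C η : ℝ) : Prop where
  nonneg : ∀ T : ℝ, 0 < T → 0 ≤ G T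
  anti : AntitoneOn G (Ioi 0)
  pos : ∃ T : ℝ, 0 < T ∧ 0 < G T
  int0 : IntegrableOn G (Ioc 0 1)
  eta_pos : 0 < η
  decay : ∀ T : ℝ, 1 ≤ T → G T ≤ C * T ^ (-(1 + η))

namespace Wt362

variable {G : ℝ → ℝ} {C η : ℝ}

theorem C_nonneg (h : Wt362 G C η) : 0 ≤ C := by
  have h1 := h.decay 1 le_rfl
  have h2 := h.nonneg 1 one_pos
  simp only [Real.one_rpow, mul_one] at h1
  linarith

theorem aesm (h : Wt362 G C η) : AEStronglyMeasurable G (volume.restrict (Ioi 0)) :=
  (aemeasurable_restrict_of_antitoneOn measurableSet_Ioi h.anti).aestronglyMeasurable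

theorem aesm_mul (h : Wt362 G C η) (s : ℝ) :
    AEStronglyMeasurable (fun T : ℝ => G T * T ^ (s - 1)) (volume.restrict (Ioi 0)) :=
  h.aesm.mul (measurable_id.pow_const (s - 1)).aestronglyMeasurable

/-- `G T · T^{s-1}` is integrable on `(0, ∞)` for `1 ≤ s < 1 + η`. -/
theorem mellin_int (h : Wt362 G C η) {s : ℝ} (hs1 : 1 ≤ s) (hs2 : s < 1 + η) :
    IntegrableOn (fun T : ℝ => G T * T ^ (s - 1)) (Ioi 0) := by
  rw [← Ioc_union_Ioi_eq_Ioi (zero_le_one' ℝ)]
  refine IntegrableOn.union ?_ ?_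
  · -- on `(0, 1]`
    refine Integrable.mono' h.int0.norm ((h.aesm_mul s).mono_set Ioc_subset_Ioi_self) ?_
    refine (ae_restrict_iff' measurableSet_Ioc).mpr (Eventually.of_forall fun T hT => ?_)
    have h1 : T ^ (s - 1) ≤ 1 := Real.rpow_le_one hT.1.le hT.2 (by linarith)
    have h2 : 0 ≤ T ^ (s - 1) := Real.rpow_nonneg hT.1.le _
    rw [norm_mul, Real.norm_of_nonneg h2]
    exact mul_le_of_le_one_right (norm_nonneg _) h1
  · -- on `(1, ∞)`
    have hint : IntegrableOn (fun T : ℝ => C * T ^ (s - 2 - η)) (Ioi 1) :=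
      (integrableOn_Ioi_rpow_of_lt (by linarith) one_pos).const_mul C
    refine Integrable.mono' hint ((h.aesm_mul s).mono_set (Ioi_subset_Ioi zero_le_one)) ?_
    refine (ae_restrict_iff' measurableSet_Ioi).mpr (Eventually.of_forall fun T hT => ?_)
    have hT0 : 0 < T := lt_trans one_pos hT
    have h2 : 0 ≤ T ^ (s - 1) := Real.rpow_nonneg hT0.le _
    have h3 := h.nonneg T hT0
    have h4 := h.decay T (le_of_lt hT)
    rw [Real.norm_of_nonneg (mul_nonneg h3 h2)]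
    calc G T * T ^ (s - 1) ≤ C * T ^ (-(1 + η)) * T ^ (s - 1) :=
          mul_le_mul_of_nonneg_right h4 h2
      _ = C * T ^ (s - 2 - η) := by
          rw [mul_assoc, ← Real.rpow_add hT0]
          congr 2
          ring

theorem int_Ioi (h : Wt362 G C η) : IntegrableOn G (Ioi 0) := by
  have h1 := h.mellin_int le_rfl (by linarith [h.eta_pos])
  refine h1.congr_fun (fun T _ => ?_) measurableSet_Ioi
  simp

/-- The total mass of a weight is positive. -/
theorem mass_pos (h : Wt362 G C η) : 0 < ∫ T in Ioi 0, G T := by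
  obtain ⟨T₀, hT₀, hG₀⟩ := h.pos
  have h1 : ∫ T in Ioc 0 T₀, G T₀ = T₀ * G T₀ := by
    rw [setIntegral_const]
    simp [hT₀.le]
  have h2 : ∫ T in Ioc 0 T₀, G T₀ ≤ ∫ T in Ioc 0 T₀, G T := by
    refine setIntegral_mono_on (integrableOn_const (by simp)) (h.int_Ioi.mono_set Ioc_subset_Ioi_self)
      measurableSet_Ioc (fun T hT => ?_)
    exact h.anti hT.1 hT₀ hT.2
  have h3 : ∫ T in Ioc 0 T₀, G T ≤ ∫ T in Ioi 0, G T := by
    refine setIntegral_mono_set h.int_Ioi ?_ (Eventually.of_forall Ioc_subset_Ioi_self)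
    exact (ae_restrict_iff' measurableSet_Ioi).mpr (Eventually.of_forall fun T hT => h.nonneg T hT)
  have h4 : 0 < T₀ * G T₀ := mul_pos hT₀ hG₀
  linarith

/-- `M(s) → M(1)` as `s → 1⁺`. -/
theorem mellin_tendsto (h : Wt362 G C η) :
    Tendsto (fun s : ℝ => ∫ T in Ioi 0, G T * T ^ (s - 1)) (𝓝[>] 1)
      (𝓝 (∫ T in Ioi 0, G T)) := by
  have hη := h.eta_pos
  have hb1 := h.mellin_int le_rfl (by linarith)
  have hb2 := h.mellin_int (s := 1 + η / 2) (by linarith) (by linarith)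
  refine tendsto_integral_filter_of_dominated_convergence
    (fun T => G T * T ^ ((1 : ℝ) - 1) + G T * T ^ (1 + η / 2 - 1)) ?_ ?_ (hb1.add hb2) ?_
  · exact Eventually.of_forall fun s => h.aesm_mul s
  · have hev : ∀ᶠ s in 𝓝[>] (1 : ℝ), 1 < s ∧ s < 1 + η / 2 := by
      refine (eventually_mem_nhdsWithin).and ?_
      exact eventually_nhdsWithin_of_eventually_nhds (eventually_lt_nhds (by linarith))
    filter_upwards [hev] with s hs
    refine (ae_restrict_iff' measurableSet_Ioi).mpr (Eventually.of_forall fun T hT => ?_)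
    have hT0 : (0 : ℝ) < T := hT
    have h3 := h.nonneg T hT0
    have h2 : 0 ≤ T ^ (s - 1) := Real.rpow_nonneg hT0.le _
    rw [Real.norm_of_nonneg (mul_nonneg h3 h2), ← mul_add]
    refine mul_le_mul_of_nonneg_left ?_ h3
    rcases le_total T 1 with hT1 | hT1
    · have h5 : T ^ (s - 1) ≤ 1 := Real.rpow_le_one hT0.le hT1 (by linarith)
      have h6 : 0 ≤ T ^ (1 + η / 2 - 1) := Real.rpow_nonneg hT0.le _
      simp only [sub_self, Real.rpow_zero]
      linarith
    · have h5 : T ^ (s - 1) ≤ T ^ (1 + η / 2 - 1) :=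
        Real.rpow_le_rpow_of_exponent_le hT1 (by linarith)
      simp only [sub_self, Real.rpow_zero]
      linarith
  · refine (ae_restrict_iff' measurableSet_Ioi).mpr (Eventually.of_forall fun T hT => ?_)
    have hT0 : (0 : ℝ) < T := hT
    have hc : ContinuousAt (fun s : ℝ => G T * T ^ (s - 1)) 1 := by
      refine continuousAt_const.mul ?_
      exact (Real.continuousAt_const_rpow hT0.ne').comp (continuousAt_id.sub continuousAt_const)
    have := hc.tendsto
    simp only [sub_self, Real.rpow_zero, mul_one] at this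
    exact tendsto_nhdsWithin_of_tendsto_nhds this

end Wt362

end Fermat.Agent.LT.T7.H362

end
end
-- ===== PACK-END LT/T7/H362/AbelWeight.lean

-- ===== PACK-BEGIN LT/T7/H236/MSFCore.lean
section


/-!
# Row LT, tower T7, node T7.13 (ThinC), leaf T7.13j `MSFC`: the abstract core (helper236)

OFF-MAIN.  Mathlib only.  Mean square bound over a principal ring of integers, squarefree form:
from the coefficient relation

  `√(N v) · A v · c ν y = χ ϖ · N v · c (ϖ ν) (y / |e ϖ|)`      (`v = (ϖ) ∤ M`, `ν ≠ 0`, `ϖ ∤ ν`)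

Bessel's inequality and one non-vanishing coefficient `c k`, `k ≠ 0`:

  `∑_{T' ⊆ T, N T' ≤ X} ∏_{v ∈ T'} |A v|² ≤ C X`      (`T` away from the places dividing `M k`).

Model: `LT/H51/MS1.lean` (helper51; block bound + geometric summation).
-/

set_option autoImplicit false
set_option linter.unusedSectionVars false

open IsDedekindDomain NumberField

noncomputable section

namespace Fermat.Agent.LT.T7.H236

variable {K : Type} [Field K] [NumberField K]

/-! ## 1. Places and generators -/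

theorem one_le_absNorm236 (v : HeightOneSpectrum (𝓞 K)) :
    (1 : ℝ) ≤ ((Ideal.absNorm v.asIdeal : ℕ) : ℝ) := by
  have h0 : Ideal.absNorm v.asIdeal ≠ 0 := fun h => v.ne_bot (Ideal.absNorm_eq_zero_iff.mp h)
  exact_mod_cast Nat.one_le_iff_ne_zero.mpr h0

theorem absNorm_pos236 (v : HeightOneSpectrum (𝓞 K)) :
    (0 : ℝ) < ((Ideal.absNorm v.asIdeal : ℕ) : ℝ) :=
  lt_of_lt_of_le one_pos (one_le_absNorm236 v)

/-- The product of the norms of the places in `T'`. -/
def nrmProd236 (T' : Finset (HeightOneSpectrum (𝓞 K))) : ℝ :=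
  ∏ v ∈ T', ((Ideal.absNorm v.asIdeal : ℕ) : ℝ)

theorem one_le_nrmProd236 (T' : Finset (HeightOneSpectrum (𝓞 K))) : 1 ≤ nrmProd236 T' := by
  unfold nrmProd236
  exact Finset.prod_induction _ (fun x : ℝ => 1 ≤ x)
    (fun a b ha hb => one_le_mul_of_one_le_of_one_le ha hb) le_rfl
    (fun v _ => one_le_absNorm236 v)

theorem nrmProd_pos236 (T' : Finset (HeightOneSpectrum (𝓞 K))) : 0 < nrmProd236 T' :=
  lt_of_lt_of_le one_pos (one_le_nrmProd236 T')

section Gen

variable (ϖ : HeightOneSpectrum (𝓞 K) → 𝓞 K)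
  (hϖ : ∀ v : HeightOneSpectrum (𝓞 K), v.asIdeal = Ideal.span {ϖ v})

include hϖ

theorem gen_ne_zero236 (v : HeightOneSpectrum (𝓞 K)) : ϖ v ≠ 0 := by
  intro h
  apply v.ne_bot
  rw [hϖ v, h]
  exact Ideal.span_singleton_eq_bot.mpr rfl

theorem gen_dvd_iff236 (v : HeightOneSpectrum (𝓞 K)) (x : 𝓞 K) :
    ϖ v ∣ x ↔ x ∈ v.asIdeal := by
  rw [hϖ v, Ideal.mem_span_singleton]

theorem gen_prime236 (v : HeightOneSpectrum (𝓞 K)) : Prime (ϖ v) := by
  have h := v.isPrime
  rw [hϖ v] at h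
  exact (Ideal.span_singleton_prime (gen_ne_zero236 ϖ hϖ v)).mp h

theorem gen_not_dvd_gen236 (v w : HeightOneSpectrum (𝓞 K)) (h : v ≠ w) : ¬ ϖ v ∣ ϖ w := by
  intro hd
  apply h
  have hw : ϖ w ∈ v.asIdeal := (gen_dvd_iff236 ϖ hϖ v _).mp hd
  have hle : w.asIdeal ≤ v.asIdeal := by
    rw [hϖ w]
    exact (Ideal.span_singleton_le_iff_mem _).mpr hw
  have he : w.asIdeal = v.asIdeal := w.isMaximal.eq_of_le v.isPrime.ne_top hle
  exact (HeightOneSpectrum.ext he).symm

/-- The index `k ∏_{v ∈ T'} ϖ_v`. -/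
def idx236 (k : 𝓞 K) (T' : Finset (HeightOneSpectrum (𝓞 K))) : 𝓞 K := k * ∏ v ∈ T', ϖ v

omit hϖ in
theorem idx_empty236 (k : 𝓞 K) : idx236 ϖ k ∅ = k := by
  unfold idx236
  rw [Finset.prod_empty, mul_one]

omit hϖ in
theorem idx_insert236 [DecidableEq (HeightOneSpectrum (𝓞 K))] (k : 𝓞 K)
    {T' : Finset (HeightOneSpectrum (𝓞 K))} {v : HeightOneSpectrum (𝓞 K)} (hv : v ∉ T') :
    idx236 ϖ k (insert v T') = ϖ v * idx236 ϖ k T' := by
  unfold idx236
  rw [Finset.prod_insert hv]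
  ring

theorem idx_ne_zero236 {k : 𝓞 K} (hk : k ≠ 0) (T' : Finset (HeightOneSpectrum (𝓞 K))) :
    idx236 ϖ k T' ≠ 0 := by
  unfold idx236
  refine mul_ne_zero hk ?_
  exact Finset.prod_ne_zero_iff.mpr fun v _ => gen_ne_zero236 ϖ hϖ v

theorem not_dvd_idx236 {k : 𝓞 K} {T' : Finset (HeightOneSpectrum (𝓞 K))}
    {v : HeightOneSpectrum (𝓞 K)} (hv : v ∉ T') (hkv : k ∉ v.asIdeal) :
    ¬ ϖ v ∣ idx236 ϖ k T' := by
  intro h
  unfold idx236 at h
  rcases (gen_prime236 ϖ hϖ v).dvd_or_dvd h with h1 | h2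
  · exact hkv ((gen_dvd_iff236 ϖ hϖ v _).mp h1)
  · obtain ⟨w, hw, hvw⟩ := (Prime.dvd_finsetProd_iff (gen_prime236 ϖ hϖ v) _).mp h2
    exact gen_not_dvd_gen236 ϖ hϖ v w (by rintro rfl; exact hv hw) hvw

omit hϖ in
theorem dvd_idx236 {k : 𝓞 K} {T' : Finset (HeightOneSpectrum (𝓞 K))}
    {v : HeightOneSpectrum (𝓞 K)} (hv : v ∈ T') : ϖ v ∣ idx236 ϖ k T' := by
  unfold idx236
  exact Dvd.dvd.mul_left (Finset.dvd_prod_of_mem _ hv) k

/-- The indices of different subsets of `T` are different (`T` away from the places of `k`). -/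
theorem idx_injOn236 {k : 𝓞 K} (T : Finset (HeightOneSpectrum (𝓞 K)))
    (hT : ∀ v ∈ T, k ∉ v.asIdeal) :
    Set.InjOn (idx236 ϖ k) {T' : Finset (HeightOneSpectrum (𝓞 K)) | T' ⊆ T} := by
  have key : ∀ T₁ T₂ : Finset (HeightOneSpectrum (𝓞 K)), T₁ ⊆ T → T₂ ⊆ T →
      idx236 ϖ k T₁ = idx236 ϖ k T₂ → T₁ ⊆ T₂ := by
    intro T₁ T₂ h1 _ he v hv
    by_contra hv2
    have hd : ϖ v ∣ idx236 ϖ k T₂ := he ▸ dvd_idx236 ϖ hv
    exact not_dvd_idx236 ϖ hϖ hv2 (hT v (h1 hv)) hd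
  intro T₁ h1 T₂ h2 he
  exact Finset.Subset.antisymm (key T₁ T₂ h1 h2 he) (key T₂ T₁ h2 h1 he.symm)

end Gen

/-! ## 2. The coefficient relation in norm form and universality -/

section Coeff

variable (e : K →+* ℂ) (M : ℕ) (A : HeightOneSpectrum (𝓞 K) → ℂ) (χ : 𝓞 K → ℂ)
  (c : 𝓞 K → ℝ → ℂ)
  (hN : ∀ x : 𝓞 K, ‖e (x : K)‖ ^ 2 = ((Ideal.absNorm (Ideal.span {x}) : ℕ) : ℝ))
  (chi_norm : ∀ (v : HeightOneSpectrum (𝓞 K)) (ϖ : 𝓞 K), v.asIdeal = Ideal.span {ϖ} →
    ((M : ℕ) : 𝓞 K) ∉ v.asIdeal → ‖χ ϖ‖ = 1)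
  (star : ∀ (v : HeightOneSpectrum (𝓞 K)) (ϖ : 𝓞 K), v.asIdeal = Ideal.span {ϖ} →
    ((M : ℕ) : 𝓞 K) ∉ v.asIdeal → ∀ ν : 𝓞 K, ν ≠ 0 → ¬ ϖ ∣ ν → ∀ y : ℝ, 0 < y →
      ((Real.sqrt ((Ideal.absNorm v.asIdeal : ℕ) : ℝ) : ℝ) : ℂ) * A v * c ν y
        = χ ϖ * ((((Ideal.absNorm v.asIdeal : ℕ) : ℝ) : ℝ) : ℂ) * c (ϖ * ν) (y / ‖e (ϖ : K)‖))

include hN in
theorem norm_gen236 (v : HeightOneSpectrum (𝓞 K)) (ϖ : 𝓞 K) (h : v.asIdeal = Ideal.span {ϖ}) :
    ‖e (ϖ : K)‖ = Real.sqrt ((Ideal.absNorm v.asIdeal : ℕ) : ℝ) := by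
  rw [h, ← hN ϖ, Real.sqrt_sq (norm_nonneg _)]

include hN chi_norm star in
/-- The coefficient relation, norm form. -/
theorem star_norm236 (v : HeightOneSpectrum (𝓞 K)) (ϖ : 𝓞 K) (h : v.asIdeal = Ideal.span {ϖ})
    (hM : ((M : ℕ) : 𝓞 K) ∉ v.asIdeal) (ν : 𝓞 K) (hν : ν ≠ 0) (hd : ¬ ϖ ∣ ν) (y : ℝ)
    (hy : 0 < y) :
    ‖A v‖ ^ 2 * ‖c ν (y * ‖e (ϖ : K)‖)‖ ^ 2
      = ((Ideal.absNorm v.asIdeal : ℕ) : ℝ) * ‖c (ϖ * ν) y‖ ^ 2 := by
  have hn : (0 : ℝ) < ((Ideal.absNorm v.asIdeal : ℕ) : ℝ) := absNorm_pos236 v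
  have he : ‖e (ϖ : K)‖ = Real.sqrt ((Ideal.absNorm v.asIdeal : ℕ) : ℝ) :=
    norm_gen236 e hN v ϖ h
  have hepos : 0 < ‖e (ϖ : K)‖ := by
    rw [he]
    exact Real.sqrt_pos.mpr hn
  have hs := star v ϖ h hM ν hν hd (y * ‖e (ϖ : K)‖) (mul_pos hy hepos)
  rw [mul_div_assoc, div_self hepos.ne', mul_one] at hs
  have hs' := congrArg norm hs
  rw [norm_mul, norm_mul, norm_mul, norm_mul, chi_norm v ϖ h hM, one_mul, Complex.norm_real,
    Complex.norm_real, Real.norm_of_nonneg (Real.sqrt_nonneg _), Real.norm_of_nonneg hn.le]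
    at hs'
  have hsq : (Real.sqrt ((Ideal.absNorm v.asIdeal : ℕ) : ℝ)) ^ 2
      = ((Ideal.absNorm v.asIdeal : ℕ) : ℝ) := Real.sq_sqrt hn.le
  have h2 : ((Ideal.absNorm v.asIdeal : ℕ) : ℝ) * (‖A v‖ ^ 2 * ‖c ν (y * ‖e (ϖ : K)‖)‖ ^ 2)
      = ((Ideal.absNorm v.asIdeal : ℕ) : ℝ)
        * (((Ideal.absNorm v.asIdeal : ℕ) : ℝ) * ‖c (ϖ * ν) y‖ ^ 2) := by
    calc ((Ideal.absNorm v.asIdeal : ℕ) : ℝ) * (‖A v‖ ^ 2 * ‖c ν (y * ‖e (ϖ : K)‖)‖ ^ 2)
        = (Real.sqrt ((Ideal.absNorm v.asIdeal : ℕ) : ℝ) * ‖A v‖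
            * ‖c ν (y * ‖e (ϖ : K)‖)‖) ^ 2 := by
          rw [mul_pow, mul_pow, hsq]
          ring
      _ = (((Ideal.absNorm v.asIdeal : ℕ) : ℝ) * ‖c (ϖ * ν) y‖) ^ 2 := by rw [hs']
      _ = _ := by ring
  exact mul_left_cancel₀ hn.ne' h2

variable (ϖ : HeightOneSpectrum (𝓞 K) → 𝓞 K)
  (hϖ : ∀ v : HeightOneSpectrum (𝓞 K), v.asIdeal = Ideal.span {ϖ v})

include hN chi_norm star hϖ in
/-- **Universality**, norm form:
`N T' · |c (k ∏_{T'} ϖ_v) y|² = ∏_{T'} |A v|² · |c k (y √(N T'))|²`. -/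
theorem universality236 {k : 𝓞 K} (hk : k ≠ 0) (T' : Finset (HeightOneSpectrum (𝓞 K)))
    (hT' : ∀ v ∈ T', ((M : ℕ) : 𝓞 K) ∉ v.asIdeal ∧ k ∉ v.asIdeal) :
    ∀ y : ℝ, 0 < y →
      nrmProd236 T' * ‖c (idx236 ϖ k T') y‖ ^ 2
        = (∏ v ∈ T', ‖A v‖ ^ 2) * ‖c k (y * Real.sqrt (nrmProd236 T'))‖ ^ 2 := by
  classical
  induction T' using Finset.induction_on with
  | empty =>
    intro y _
    rw [idx_empty236]
    unfold nrmProd236
    rw [Finset.prod_empty, Finset.prod_empty, Real.sqrt_one, mul_one]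
  | insert v T' hv ih =>
    intro y hy
    have hT'' : ∀ w ∈ T', ((M : ℕ) : 𝓞 K) ∉ w.asIdeal ∧ k ∉ w.asIdeal :=
      fun w hw => hT' w (Finset.mem_insert_of_mem hw)
    obtain ⟨hMv, hkv⟩ := hT' v (Finset.mem_insert_self v T')
    have hn : (0 : ℝ) < ((Ideal.absNorm v.asIdeal : ℕ) : ℝ) := absNorm_pos236 v
    have he : ‖e ((ϖ v : 𝓞 K) : K)‖ = Real.sqrt ((Ideal.absNorm v.asIdeal : ℕ) : ℝ) :=
      norm_gen236 e hN v (ϖ v) (hϖ v)
    have hepos : 0 < ‖e ((ϖ v : 𝓞 K) : K)‖ := by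
      rw [he]
      exact Real.sqrt_pos.mpr hn
    have hst := star_norm236 e M A χ c hN chi_norm star v (ϖ v) (hϖ v) hMv (idx236 ϖ k T')
      (idx_ne_zero236 ϖ hϖ hk T') (not_dvd_idx236 ϖ hϖ hv hkv) y hy
    have hih := ih hT'' (y * ‖e ((ϖ v : 𝓞 K) : K)‖) (mul_pos hy hepos)
    have hNins : nrmProd236 (insert v T')
        = ((Ideal.absNorm v.asIdeal : ℕ) : ℝ) * nrmProd236 T' := by
      unfold nrmProd236
      rw [Finset.prod_insert hv]
    have hsqrt : y * Real.sqrt (nrmProd236 (insert v T'))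
        = y * ‖e ((ϖ v : 𝓞 K) : K)‖ * Real.sqrt (nrmProd236 T') := by
      rw [hNins, Real.sqrt_mul hn.le, he]
      ring
    rw [idx_insert236 ϖ k hv, Finset.prod_insert hv, hsqrt, hNins]
    calc ((Ideal.absNorm v.asIdeal : ℕ) : ℝ) * nrmProd236 T'
          * ‖c (ϖ v * idx236 ϖ k T') y‖ ^ 2
        = nrmProd236 T'
          * (((Ideal.absNorm v.asIdeal : ℕ) : ℝ) * ‖c (ϖ v * idx236 ϖ k T') y‖ ^ 2) := by
          ring
      _ = nrmProd236 T'
          * (‖A v‖ ^ 2 * ‖c (idx236 ϖ k T') (y * ‖e ((ϖ v : 𝓞 K) : K)‖)‖ ^ 2) := by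
          rw [hst]
      _ = ‖A v‖ ^ 2
          * (nrmProd236 T' * ‖c (idx236 ϖ k T') (y * ‖e ((ϖ v : 𝓞 K) : K)‖)‖ ^ 2) := by
          ring
      _ = ‖A v‖ ^ 2 * ((∏ w ∈ T', ‖A w‖ ^ 2)
          * ‖c k (y * ‖e ((ϖ v : 𝓞 K) : K)‖ * Real.sqrt (nrmProd236 T'))‖ ^ 2) := by
          rw [hih]
      _ = _ := by ring


/-! ## 3. The block bound -/

variable (M₁ : ℝ)
  (bessel : ∀ y : ℝ, 0 < y → ∀ F : Finset (𝓞 K), ∑ ν ∈ F, ‖c ν y‖ ^ 2 ≤ M₁ ^ 2)

include hN chi_norm star hϖ bessel in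
/-- **Block bound**: Bessel's inequality at the height `t₂ / √X`. -/
theorem block236 {k : 𝓞 K} (hk : k ≠ 0) {t₁ t₂ δ : ℝ} (ht₁ : 0 < t₁) (ht : t₁ < t₂)
    (hδ : 0 < δ) (hlow : ∀ t : ℝ, t₁ ≤ t → t ≤ t₂ → δ ≤ ‖c k t‖)
    (T : Finset (HeightOneSpectrum (𝓞 K)))
    (hT : ∀ v ∈ T, ((M : ℕ) : 𝓞 K) ∉ v.asIdeal ∧ k ∉ v.asIdeal)
    (X : ℝ) (hX : 0 < X) (G : Finset (Finset (HeightOneSpectrum (𝓞 K))))
    (hG : ∀ T' ∈ G, T' ⊆ T ∧ X * t₁ ^ 2 ≤ t₂ ^ 2 * nrmProd236 T' ∧ nrmProd236 T' ≤ X) :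
    ∑ T' ∈ G, ∏ v ∈ T', ‖A v‖ ^ 2 ≤ X * (M₁ ^ 2 / δ ^ 2) := by
  classical
  have ht₂ : 0 < t₂ := ht₁.trans ht
  have hsX : 0 < Real.sqrt X := Real.sqrt_pos.mpr hX
  set y : ℝ := t₂ / Real.sqrt X with hy_def
  have hy : 0 < y := div_pos ht₂ hsX
  have hterm : ∀ T' ∈ G, (∏ v ∈ T', ‖A v‖ ^ 2) * (δ ^ 2 / X) ≤ ‖c (idx236 ϖ k T') y‖ ^ 2 := by
    intro T' hT'
    obtain ⟨hsub, hlo, hhi⟩ := hG T' hT'
    have hNpos : 0 < nrmProd236 T' := nrmProd_pos236 T'
    have huni := universality236 e M A χ c hN chi_norm star ϖ hϖ hk T'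
      (fun v hv => hT v (hsub hv)) y hy
    -- the height `y √(N T')` lies in `[t₁, t₂]`
    have hs2 : y * Real.sqrt (nrmProd236 T') ≤ t₂ := by
      rw [hy_def, div_mul_eq_mul_div, div_le_iff₀ hsX]
      exact mul_le_mul_of_nonneg_left (Real.sqrt_le_sqrt hhi) ht₂.le
    have hs1 : t₁ ≤ y * Real.sqrt (nrmProd236 T') := by
      rw [hy_def, div_mul_eq_mul_div, le_div_iff₀ hsX]
      have h1 : t₁ * Real.sqrt X = Real.sqrt (X * t₁ ^ 2) := by
        rw [Real.sqrt_mul hX.le, Real.sqrt_sq ht₁.le]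
        ring
      have h2 : t₂ * Real.sqrt (nrmProd236 T') = Real.sqrt (t₂ ^ 2 * nrmProd236 T') := by
        rw [Real.sqrt_mul (by positivity), Real.sqrt_sq ht₂.le]
      rw [h1, h2]
      exact Real.sqrt_le_sqrt hlo
    have hlw := hlow _ hs1 hs2
    have h3 : δ ^ 2 ≤ ‖c k (y * Real.sqrt (nrmProd236 T'))‖ ^ 2 :=
      pow_le_pow_left₀ hδ.le hlw 2
    have hP : 0 ≤ ∏ v ∈ T', ‖A v‖ ^ 2 := Finset.prod_nonneg fun v _ => by positivity
    have h4 : (∏ v ∈ T', ‖A v‖ ^ 2) * δ ^ 2 ≤ X * ‖c (idx236 ϖ k T') y‖ ^ 2 := by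
      calc (∏ v ∈ T', ‖A v‖ ^ 2) * δ ^ 2
          ≤ (∏ v ∈ T', ‖A v‖ ^ 2) * ‖c k (y * Real.sqrt (nrmProd236 T'))‖ ^ 2 :=
            mul_le_mul_of_nonneg_left h3 hP
        _ = nrmProd236 T' * ‖c (idx236 ϖ k T') y‖ ^ 2 := huni.symm
        _ ≤ X * ‖c (idx236 ϖ k T') y‖ ^ 2 :=
            mul_le_mul_of_nonneg_right hhi (by positivity)
    rw [← mul_div_assoc, div_le_iff₀ hX, mul_comm (‖c (idx236 ϖ k T') y‖ ^ 2)]
    exact h4
  have hinj : Set.InjOn (idx236 ϖ k) (G : Set (Finset (HeightOneSpectrum (𝓞 K)))) := by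
    intro T₁ h1 T₂ h2 he
    exact idx_injOn236 ϖ hϖ T (fun v hv => (hT v hv).2) (hG T₁ h1).1 (hG T₂ h2).1 he
  have hbes := bessel y hy (G.image (idx236 ϖ k))
  rw [Finset.sum_image hinj] at hbes
  have hsum : ∑ T' ∈ G, (∏ v ∈ T', ‖A v‖ ^ 2) * (δ ^ 2 / X) ≤ M₁ ^ 2 :=
    (Finset.sum_le_sum hterm).trans hbes
  rw [← Finset.sum_mul] at hsum
  have hc0 : 0 < δ ^ 2 / X := div_pos (by positivity) hX
  have h6 : ∑ T' ∈ G, ∏ v ∈ T', ‖A v‖ ^ 2 ≤ M₁ ^ 2 / (δ ^ 2 / X) := by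
    rw [le_div_iff₀ hc0]
    exact hsum
  have h7 : M₁ ^ 2 / (δ ^ 2 / X) = X * (M₁ ^ 2 / δ ^ 2) := by
    field_simp
  rw [h7] at h6
  exact h6

end Coeff

/-! ## 4. The geometric summation -/

/-- A continuous function which does not vanish at a point is bounded below on an interval. -/
theorem exists_interval236 {f : ℝ → ℂ} (hf : ContinuousOn f (Set.Ioi 0)) {y : ℝ}
    (hy : 0 < y) (hne : f y ≠ 0) :
    ∃ t₁ t₂ δ : ℝ, 0 < t₁ ∧ t₁ < t₂ ∧ 0 < δ ∧ ∀ t : ℝ, t₁ ≤ t → t ≤ t₂ → δ ≤ ‖f t‖ := by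
  have hc : ContinuousAt f y := hf.continuousAt (Ioi_mem_nhds hy)
  have hpos : 0 < ‖f y‖ := norm_pos_iff.mpr hne
  obtain ⟨ε, hε, hball⟩ := Metric.continuousAt_iff.mp hc (‖f y‖ / 2) (by positivity)
  refine ⟨y, y + ε / 2, ‖f y‖ / 2, hy, by linarith, by positivity, fun t ht1 ht2 => ?_⟩
  have hd : dist t y < ε := by
    rw [Real.dist_eq, abs_lt]
    constructor <;> linarith
  have h := hball hd
  rw [dist_eq_norm] at h
  have h2 : ‖f y‖ ≤ ‖f t‖ + ‖f t - f y‖ := by
    have := norm_sub_le (f t) (f t - f y)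
    rw [sub_sub_cancel] at this
    exact this
  linarith

/-- The partial sums over the subsets `T'` of `T` with `N T' ≤ X`. -/
def msfSum236 (A : HeightOneSpectrum (𝓞 K) → ℂ) (T : Finset (HeightOneSpectrum (𝓞 K)))
    (X : ℝ) : ℝ :=
  ∑ T' ∈ T.powerset.filter (fun T' => nrmProd236 T' ≤ X), ∏ v ∈ T', ‖A v‖ ^ 2

theorem msfSum_eq_zero236 (A : HeightOneSpectrum (𝓞 K) → ℂ)
    (T : Finset (HeightOneSpectrum (𝓞 K))) {X : ℝ} (hX : X < 1) : msfSum236 A T X = 0 := by
  unfold msfSum236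
  have : T.powerset.filter (fun T' => nrmProd236 T' ≤ X) = ∅ := by
    refine Finset.filter_eq_empty_iff.mpr fun T' _ h => ?_
    exact absurd (lt_of_le_of_lt (one_le_nrmProd236 T') (lt_of_le_of_lt h hX)) (lt_irrefl _)
  rw [this, Finset.sum_empty]

/-- Abstract geometric summation: `f X ≤ f (r X) + B X`, `f = 0` on `[0, 1)` give
`f X ≤ B / (1 - r) · X`. -/
theorem geom_sum236 (f : ℝ → ℝ) (r B : ℝ) (hr0 : 0 < r) (hr1 : r < 1) (hB : 0 ≤ B)
    (h0 : ∀ X : ℝ, X < 1 → f X = 0) (hstep : ∀ X : ℝ, 0 < X → f X ≤ f (r * X) + X * B) :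
    ∀ X : ℝ, 0 ≤ X → f X ≤ B / (1 - r) * X := by
  have h1r : 0 < 1 - r := by linarith
  have hC : 0 ≤ B / (1 - r) := div_nonneg hB h1r.le
  have key : ∀ j : ℕ, ∀ X : ℝ, 0 ≤ X → r ^ j * X < 1 → f X ≤ B / (1 - r) * X := by
    intro j
    induction j with
    | zero =>
      intro X hX0 hX
      rw [pow_zero, one_mul] at hX
      rw [h0 X hX]
      exact mul_nonneg hC hX0
    | succ j ih =>
      intro X hX0 hX
      rcases lt_or_ge X 1 with h1 | h1
      · rw [h0 X h1]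
        exact mul_nonneg hC hX0
      · have hXpos : 0 < X := lt_of_lt_of_le one_pos h1
        have hs := hstep X hXpos
        have hih := ih (r * X) (mul_nonneg hr0.le hX0) (by
          rw [← mul_assoc, ← pow_succ]
          exact hX)
        have e : B / (1 - r) * (r * X) + X * B = B / (1 - r) * X := by
          field_simp
          ring
        linarith
  intro X hX
  rcases eq_or_lt_of_le hX with h | h
  · exact key 0 X hX (by rw [← h]; simp)
  · obtain ⟨j, hj⟩ := exists_pow_lt_of_lt_one (one_div_pos.mpr h) hr1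
    refine key j X hX ?_
    rw [lt_div_iff₀ h] at hj
    exact hj

/-! ## 5. The mean square bound -/

/-- **The abstract mean square bound over `𝓞 K`, squarefree form** (core of leaf T7.13j). -/
theorem msf_core236 (hpid : IsPrincipalIdealRing (𝓞 K))
    (e : K →+* ℂ) (M : ℕ) (A : HeightOneSpectrum (𝓞 K) → ℂ) (χ : 𝓞 K → ℂ)
    (c : 𝓞 K → ℝ → ℂ) (M₁ : ℝ) (hM : 0 < M)
    (hN : ∀ x : 𝓞 K, ‖e (x : K)‖ ^ 2 = ((Ideal.absNorm (Ideal.span {x}) : ℕ) : ℝ))
    (chi_norm : ∀ (v : HeightOneSpectrum (𝓞 K)) (ϖ : 𝓞 K), v.asIdeal = Ideal.span {ϖ} →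
      ((M : ℕ) : 𝓞 K) ∉ v.asIdeal → ‖χ ϖ‖ = 1)
    (cont : ∀ ν : 𝓞 K, ContinuousOn (c ν) (Set.Ioi 0))
    (bessel : ∀ y : ℝ, 0 < y → ∀ F : Finset (𝓞 K), ∑ ν ∈ F, ‖c ν y‖ ^ 2 ≤ M₁ ^ 2)
    (star : ∀ (v : HeightOneSpectrum (𝓞 K)) (ϖ : 𝓞 K), v.asIdeal = Ideal.span {ϖ} →
      ((M : ℕ) : 𝓞 K) ∉ v.asIdeal → ∀ ν : 𝓞 K, ν ≠ 0 → ¬ ϖ ∣ ν → ∀ y : ℝ, 0 < y →
        ((Real.sqrt ((Ideal.absNorm v.asIdeal : ℕ) : ℝ) : ℝ) : ℂ) * A v * c ν y
          = χ ϖ * ((((Ideal.absNorm v.asIdeal : ℕ) : ℝ) : ℝ) : ℂ)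
            * c (ϖ * ν) (y / ‖e (ϖ : K)‖))
    (hk : ∃ k : 𝓞 K, k ≠ 0 ∧ ∃ y : ℝ, 0 < y ∧ c k y ≠ 0) :
    ∃ (S : Finset (HeightOneSpectrum (𝓞 K))) (C : ℝ),
      ∀ T : Finset (HeightOneSpectrum (𝓞 K)), Disjoint T S → ∀ X : ℝ, 1 ≤ X →
        ∑ T' ∈ T.powerset.filter
            (fun T' => ∏ v ∈ T', ((Ideal.absNorm v.asIdeal : ℕ) : ℝ) ≤ X),
          ∏ v ∈ T', ‖A v‖ ^ 2 ≤ C * X := by
  classical
  obtain ⟨k, hk0, y₀, hy₀, hky⟩ := hk
  obtain ⟨t₁, t₂, δ, ht₁, ht, hδ, hlow⟩ := exists_interval236 (cont k) hy₀ hky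
  have ht₂ : 0 < t₂ := ht₁.trans ht
  -- generators
  have hgen : ∀ v : HeightOneSpectrum (𝓞 K), ∃ ϖ : 𝓞 K, v.asIdeal = Ideal.span {ϖ} :=
    fun v => (IsPrincipalIdealRing.principal v.asIdeal).principal
  choose ϖ hϖ using hgen
  -- the exceptional set
  have hMk : ((M : ℕ) : 𝓞 K) * k ≠ 0 :=
    mul_ne_zero (Nat.cast_ne_zero.mpr hM.ne') hk0
  have hI : (Ideal.span {((M : ℕ) : 𝓞 K) * k} : Ideal (𝓞 K)) ≠ 0 := by
    rw [Ne, Ideal.zero_eq_bot, Ideal.span_singleton_eq_bot]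
    exact hMk
  have hfin : {v : HeightOneSpectrum (𝓞 K) |
      v.asIdeal ∣ Ideal.span {((M : ℕ) : 𝓞 K) * k}}.Finite := Ideal.finite_factors hI
  have hS : ∀ v : HeightOneSpectrum (𝓞 K), v ∉ hfin.toFinset →
      ((M : ℕ) : 𝓞 K) ∉ v.asIdeal ∧ k ∉ v.asIdeal := by
    intro v hv
    rw [Set.Finite.mem_toFinset, Set.mem_ofPred_eq, Ideal.dvd_iff_le,
      Ideal.span_singleton_le_iff_mem] at hv
    exact ⟨fun h => hv (v.asIdeal.mul_mem_right _ h), fun h => hv (v.asIdeal.mul_mem_left _ h)⟩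
  set r : ℝ := t₁ ^ 2 / t₂ ^ 2 with hr_def
  have hr0 : 0 < r := by positivity
  have hr1 : r < 1 := by
    rw [hr_def, div_lt_one (by positivity)]
    exact pow_lt_pow_left₀ ht ht₁.le (by norm_num)
  have hB : 0 ≤ M₁ ^ 2 / δ ^ 2 := by positivity
  refine ⟨hfin.toFinset, M₁ ^ 2 / δ ^ 2 / (1 - r), fun T hT X hX => ?_⟩
  have hT' : ∀ v ∈ T, ((M : ℕ) : 𝓞 K) ∉ v.asIdeal ∧ k ∉ v.asIdeal :=
    fun v hv => hS v (Finset.disjoint_left.mp hT hv)
  have hstep : ∀ X : ℝ, 0 < X →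
      msfSum236 A T X ≤ msfSum236 A T (r * X) + X * (M₁ ^ 2 / δ ^ 2) := by
    intro X hX
    set G : Finset (Finset (HeightOneSpectrum (𝓞 K))) :=
      T.powerset.filter (fun T' => r * X < nrmProd236 T' ∧ nrmProd236 T' ≤ X) with hG_def
    have hG : ∀ T' ∈ G, T' ⊆ T ∧ X * t₁ ^ 2 ≤ t₂ ^ 2 * nrmProd236 T' ∧ nrmProd236 T' ≤ X := by
      intro T' hT'
      rw [hG_def, Finset.mem_filter, Finset.mem_powerset] at hT'
      obtain ⟨h1, h2, h3⟩ := hT'
      refine ⟨h1, ?_, h3⟩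
      have h4 : t₁ ^ 2 / t₂ ^ 2 * X < nrmProd236 T' := h2
      rw [div_mul_eq_mul_div, div_lt_iff₀ (by positivity)] at h4
      linarith
    have hblock := block236 e M A χ c hN chi_norm star ϖ hϖ M₁ bessel hk0 ht₁ ht hδ hlow T hT'
      X hX G hG
    have hsub : T.powerset.filter (fun T' => nrmProd236 T' ≤ X)
        ⊆ T.powerset.filter (fun T' => nrmProd236 T' ≤ r * X) ∪ G := by
      intro T' hT'
      rw [Finset.mem_filter] at hT'
      rw [Finset.mem_union, Finset.mem_filter, hG_def, Finset.mem_filter]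
      by_cases h : nrmProd236 T' ≤ r * X
      · exact Or.inl ⟨hT'.1, h⟩
      · exact Or.inr ⟨hT'.1, lt_of_not_ge h, hT'.2⟩
    have hnn : ∀ T' : Finset (HeightOneSpectrum (𝓞 K)), 0 ≤ ∏ v ∈ T', ‖A v‖ ^ 2 :=
      fun T' => Finset.prod_nonneg fun v _ => by positivity
    unfold msfSum236
    calc ∑ T' ∈ T.powerset.filter (fun T' => nrmProd236 T' ≤ X), ∏ v ∈ T', ‖A v‖ ^ 2
        ≤ ∑ T' ∈ T.powerset.filter (fun T' => nrmProd236 T' ≤ r * X) ∪ G,
            ∏ v ∈ T', ‖A v‖ ^ 2 :=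
          Finset.sum_le_sum_of_subset_of_nonneg hsub (fun T' _ _ => hnn T')
      _ ≤ ∑ T' ∈ T.powerset.filter (fun T' => nrmProd236 T' ≤ r * X), ∏ v ∈ T', ‖A v‖ ^ 2
            + ∑ T' ∈ G, ∏ v ∈ T', ‖A v‖ ^ 2 := by
          have h := Finset.sum_union_inter
            (s₁ := T.powerset.filter (fun T' => nrmProd236 T' ≤ r * X)) (s₂ := G)
            (f := fun T' => ∏ v ∈ T', ‖A v‖ ^ 2)
          have h0 : 0 ≤ ∑ T' ∈ T.powerset.filter (fun T' => nrmProd236 T' ≤ r * X) ∩ G,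
              ∏ v ∈ T', ‖A v‖ ^ 2 := Finset.sum_nonneg fun T' _ => hnn T'
          linarith
      _ ≤ ∑ T' ∈ T.powerset.filter (fun T' => nrmProd236 T' ≤ r * X), ∏ v ∈ T', ‖A v‖ ^ 2
            + X * (M₁ ^ 2 / δ ^ 2) := by linarith
  have hfinal := geom_sum236 (msfSum236 A T) r (M₁ ^ 2 / δ ^ 2) hr0 hr1 hB
    (fun X hX => msfSum_eq_zero236 A T hX) hstep X (le_trans zero_le_one hX)
  exact hfinal

end Fermat.Agent.LT.T7.H236

end

end
-- ===== PACK-END LT/T7/H236/MSFCore.lean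

-- ===== PACK-BEGIN LT/T7/H768/Torus.lean
section


/-!
# Row LT, tower T7, leaf T7.13i `HoroCoeffFC` (helper768), part 2: Fourier analysis on a compact
abelian group

OFF-MAIN.  `G` a compact abelian topological group with its Borel structure, `μ` a Haar
probability measure, `ψ ν` (`ν ∈ Γ`) a family of unitary characters which is closed under
products and conjugation, separates the points and has `ψ ν ≠ 1` for `ν ≠ 0`.

* `orthonormal_char768`: the characters are orthonormal in `L²(μ)`;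
* `bessel768`: Bessel's inequality for a continuous function bounded by `B`;
* `complete768`: a continuous function all of whose coefficients vanish is zero
  (Stone--Weierstrass);
* `const_of_coef768`: a continuous function whose coefficients of non-zero index vanish is
  constant.
-/

set_option autoImplicit false
set_option linter.unusedSectionVars false
set_option linter.style.haveILetI false

open MeasureTheory
open scoped ComplexConjugate InnerProductSpace

noncomputable section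

namespace Fermat.Agent.LT.T7.H768

section Abstract

variable {G : Type*} [AddCommGroup G] [TopologicalSpace G] [IsTopologicalAddGroup G]
  [CompactSpace G] [MeasurableSpace G] [BorelSpace G]

/-- A family of unitary characters of `G`, indexed by an abelian group `Γ`, closed under products
and conjugation, separating the points, with `ψ ν ≠ 1` for `ν ≠ 0`. -/
structure IsCharFam768 {Γ : Type*} [AddCommGroup Γ] (ψ : Γ → G → ℂ) : Prop where
  cont : ∀ ν, Continuous (ψ ν)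
  mul : ∀ ν a b, ψ ν (a + b) = ψ ν a * ψ ν b
  one : ∀ a, ψ 0 a = 1
  add : ∀ ν ν' a, ψ (ν + ν') a = ψ ν a * ψ ν' a
  neg : ∀ ν a, ψ (-ν) a = (starRingEnd ℂ) (ψ ν a)
  nontriv : ∀ ν, ν ≠ 0 → ∃ a, ψ ν a ≠ 1
  sep : ∀ a b, a ≠ b → ∃ ν, ψ ν a ≠ ψ ν b

variable {Γ : Type*} [AddCommGroup Γ] {ψ : Γ → G → ℂ} (hψ : IsCharFam768 ψ)
  (μ : Measure G) [μ.IsAddHaarMeasure] [IsProbabilityMeasure μ]

include hψ

/-- The character as a continuous map. -/
def charC768 (ν : Γ) : C(G, ℂ) := ⟨ψ ν, hψ.cont ν⟩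

@[simp] theorem charC768_apply (ν : Γ) (a : G) : charC768 hψ ν a = ψ ν a := rfl

theorem integral_char_zero768 : ∫ a, ψ 0 a ∂μ = 1 := by
  simp_rw [hψ.one]
  simp

theorem integral_char_ne768 {ν : Γ} (hν : ν ≠ 0) : ∫ a, ψ ν a ∂μ = 0 := by
  obtain ⟨t, ht⟩ := hψ.nontriv ν hν
  have h1 : ∫ a, ψ ν (a + t) ∂μ = ∫ a, ψ ν a ∂μ := integral_add_right_eq_self _ t
  simp_rw [hψ.mul] at h1
  rw [integral_mul_const] at h1
  have h2 : (∫ a, ψ ν a ∂μ) * (ψ ν t - 1) = 0 := by linear_combination h1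
  rcases mul_eq_zero.1 h2 with h | h
  · exact h
  · exact absurd (sub_eq_zero.1 h) ht

theorem orthonormal_char768 :
    Orthonormal ℂ (fun ν : Γ => ContinuousMap.toLp (E := ℂ) 2 μ ℂ (charC768 hψ ν)) := by
  classical
  rw [orthonormal_iff_ite]
  intro i j
  rw [ContinuousMap.inner_toLp]
  have h : ∀ x, (charC768 hψ j) x * conj ((charC768 hψ i) x) = ψ (j + -i) x := fun x => by
    rw [hψ.add, hψ.neg]
    rfl
  simp_rw [h]
  split_ifs with hij
  · subst hij
    rw [add_neg_cancel]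
    exact integral_char_zero768 hψ μ
  · refine integral_char_ne768 hψ μ ?_
    intro h0
    apply hij
    rw [← sub_eq_add_neg, sub_eq_zero] at h0
    exact h0.symm

omit hψ in
/-- The Fourier coefficient of `f` at the character `ψ ν`. -/
def coef768 (μ : Measure G) (ψ : Γ → G → ℂ) (f : G → ℂ) (ν : Γ) : ℂ :=
  ∫ a, f a * conj (ψ ν a) ∂μ

theorem coef_eq_inner768 (f : C(G, ℂ)) (ν : Γ) :
    coef768 μ ψ f ν
      = ⟪ContinuousMap.toLp (E := ℂ) 2 μ ℂ (charC768 hψ ν),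
          ContinuousMap.toLp (E := ℂ) 2 μ ℂ f⟫_ℂ := by
  rw [ContinuousMap.inner_toLp]
  rfl

theorem norm_toLp_le768 (f : C(G, ℂ)) {B : ℝ} (hB : ∀ a, ‖f a‖ ≤ B) :
    ‖ContinuousMap.toLp (E := ℂ) 2 μ ℂ f‖ ≤ B := by
  have hB0 : 0 ≤ B := (norm_nonneg _).trans (hB 0)
  have h := Lp.norm_le_of_ae_bound (μ := μ) (p := 2)
    (f := ContinuousMap.toLp (E := ℂ) 2 μ ℂ f) hB0 (by
      filter_upwards [ContinuousMap.coeFn_toLp (p := 2) (𝕜 := ℂ) μ f] with x hx
      rw [hx]
      exact hB x)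
  simpa [measureUnivNNReal] using h

/-- **Bessel's inequality.** -/
theorem bessel768 (f : C(G, ℂ)) {B : ℝ} (hB : ∀ a, ‖f a‖ ≤ B) (F : Finset Γ) :
    ∑ ν ∈ F, ‖coef768 μ ψ f ν‖ ^ 2 ≤ B ^ 2 := by
  have h1 := Orthonormal.sum_inner_products_le (ContinuousMap.toLp (E := ℂ) 2 μ ℂ f)
    (orthonormal_char768 hψ μ) (s := F)
  have h2 := norm_toLp_le768 hψ μ f hB
  have h3 : ‖ContinuousMap.toLp (E := ℂ) 2 μ ℂ f‖ ^ 2 ≤ B ^ 2 :=
    pow_le_pow_left₀ (norm_nonneg _) h2 2
  refine le_trans (le_of_eq ?_) (h1.trans h3)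
  refine Finset.sum_congr rfl fun ν _ => ?_
  rw [coef_eq_inner768 hψ μ f ν]

/-! ### Completeness -/

/-- The span of the characters. -/
def charSpan768 : Submodule ℂ C(G, ℂ) := Submodule.span ℂ (Set.range (charC768 hψ))

theorem charC768_zero : charC768 hψ 0 = 1 := by
  ext a
  simp [hψ.one]

theorem charC768_add (ν ν' : Γ) : charC768 hψ (ν + ν') = charC768 hψ ν * charC768 hψ ν' := by
  ext a
  simp [hψ.add]

theorem charC768_neg (ν : Γ) : charC768 hψ (-ν) = star (charC768 hψ ν) := by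
  ext a
  simp [hψ.neg]

theorem one_mem_charSpan768 : (1 : C(G, ℂ)) ∈ charSpan768 hψ :=
  Submodule.subset_span ⟨0, charC768_zero hψ⟩

theorem mul_mem_charSpan768 (x y : C(G, ℂ)) (hx : x ∈ charSpan768 hψ)
    (hy : y ∈ charSpan768 hψ) : x * y ∈ charSpan768 hψ := by
  have h1 : x * y ∈ charSpan768 hψ * charSpan768 hψ := Submodule.mul_mem_mul hx hy
  have h2 : charSpan768 hψ * charSpan768 hψ ≤ charSpan768 hψ := by
    unfold charSpan768
    rw [Submodule.span_mul_span]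
    apply Submodule.span_mono
    rintro _ ⟨_, ⟨η, rfl⟩, _, ⟨η', rfl⟩, rfl⟩
    exact ⟨η + η', charC768_add hψ η η'⟩
  exact h2 h1

theorem star_mem_charSpan768 (x : C(G, ℂ)) (hx : x ∈ charSpan768 hψ) :
    star x ∈ charSpan768 hψ := by
  unfold charSpan768 at hx ⊢
  induction hx using Submodule.span_induction with
  | mem x hx =>
    obtain ⟨η, rfl⟩ := hx
    exact Submodule.subset_span ⟨-η, charC768_neg hψ η⟩
  | zero => simp
  | add x y _ _ hx hy => rw [star_add]; exact Submodule.add_mem _ hx hy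
  | smul a x _ hx => rw [star_smul]; exact Submodule.smul_mem _ _ hx

/-- The star subalgebra of trigonometric polynomials. -/
def charAlg768 : StarSubalgebra ℂ C(G, ℂ) where
  toSubalgebra := (charSpan768 hψ).toSubalgebra (one_mem_charSpan768 hψ) (mul_mem_charSpan768 hψ)
  star_mem' := fun {a} ha => star_mem_charSpan768 hψ a ha

theorem mem_charAlg768 (g : C(G, ℂ)) : g ∈ charAlg768 hψ ↔ g ∈ charSpan768 hψ := Iff.rfl

theorem charAlg768_separates : (charAlg768 hψ).SeparatesPoints := by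
  intro a b hne
  obtain ⟨ν, hν⟩ := hψ.sep a b hne
  exact ⟨charC768 hψ ν, ⟨charC768 hψ ν, Submodule.subset_span ⟨ν, rfl⟩, rfl⟩, hν⟩

/-- **Completeness**: a continuous function all of whose Fourier coefficients vanish is zero. -/
theorem complete768 (f : C(G, ℂ)) (h : ∀ ν, coef768 μ ψ f ν = 0) : f = 0 := by
  set Λ : C(G, ℂ) →L[ℂ] ℂ :=
    (innerSL ℂ (ContinuousMap.toLp (E := ℂ) 2 μ ℂ (star f))).comp
      (ContinuousMap.toLp (E := ℂ) 2 μ ℂ) with hΛ
  have hΛapp : ∀ g : C(G, ℂ), Λ g = ∫ x, g x * f x ∂μ := by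
    intro g
    show ⟪ContinuousMap.toLp (E := ℂ) 2 μ ℂ (star f), ContinuousMap.toLp (E := ℂ) 2 μ ℂ g⟫_ℂ = _
    rw [ContinuousMap.inner_toLp]
    refine integral_congr_ae (Filter.Eventually.of_forall fun x => ?_)
    simp
  have hspan : charSpan768 hψ ≤ LinearMap.ker Λ.toLinearMap := by
    unfold charSpan768
    rw [Submodule.span_le]
    rintro _ ⟨ν, rfl⟩
    show Λ (charC768 hψ ν) = 0
    rw [hΛapp, ← h (-ν)]
    unfold coef768
    refine integral_congr_ae (Filter.Eventually.of_forall fun x => ?_)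
    show ψ ν x * f x = f x * conj (ψ (-ν) x)
    rw [hψ.neg, Complex.conj_conj, mul_comm]
  have hsub : ((charAlg768 hψ : StarSubalgebra ℂ C(G, ℂ)) : Set C(G, ℂ))
      ⊆ (LinearMap.ker Λ.toLinearMap : Set C(G, ℂ)) :=
    fun a ha => hspan ((mem_charAlg768 hψ a).mp ha)
  have hclosed : IsClosed (LinearMap.ker Λ.toLinearMap : Set C(G, ℂ)) :=
    ContinuousLinearMap.isClosed_ker _
  have hdense := ContinuousMap.starSubalgebra_topologicalClosure_eq_top_of_separatesPoints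
    (charAlg768 hψ) (charAlg768_separates hψ)
  have hall : ∀ g : C(G, ℂ), Λ g = 0 := by
    intro g
    have hg : g ∈ (charAlg768 hψ).topologicalClosure := by rw [hdense]; trivial
    have hg' : g ∈ closure ((charAlg768 hψ : StarSubalgebra ℂ C(G, ℂ)) : Set C(G, ℂ)) := by
      rw [← StarSubalgebra.topologicalClosure_coe]; exact hg
    exact closure_minimal hsub hclosed hg'
  have h0 : ⟪ContinuousMap.toLp (E := ℂ) 2 μ ℂ (star f),
      ContinuousMap.toLp (E := ℂ) 2 μ ℂ (star f)⟫_ℂ = 0 := hall (star f)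
  have h1 : ContinuousMap.toLp (E := ℂ) 2 μ ℂ (star f) = 0 := inner_self_eq_zero.mp h0
  have h2 : star f = 0 := by
    apply ContinuousMap.toLp_injective (p := 2) (𝕜 := ℂ) μ
    rw [h1, map_zero]
  have h3 : star (star f) = star 0 := by rw [h2]
  simpa using h3

theorem coef_one768 [DecidableEq Γ] (ν : Γ) :
    coef768 μ ψ (fun _ => (1 : ℂ)) ν = if ν = 0 then 1 else 0 := by
  unfold coef768
  have h : ∀ a, (1 : ℂ) * conj (ψ ν a) = ψ (-ν) a := fun a => by rw [hψ.neg, one_mul]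
  simp_rw [h]
  split_ifs with h0
  · subst h0
    rw [neg_zero]
    exact integral_char_zero768 hψ μ
  · exact integral_char_ne768 hψ μ (neg_ne_zero.mpr h0)

theorem integrable_mul_conj768 (f : C(G, ℂ)) (ν : Γ) :
    Integrable (fun a => f a * conj (ψ ν a)) μ := by
  have hc : Continuous (fun a => f a * conj (ψ ν a)) :=
    f.continuous.mul (Complex.continuous_conj.comp (hψ.cont ν))
  exact hc.integrable_of_hasCompactSupport (HasCompactSupport.of_compactSpace _)

/-- A continuous function whose Fourier coefficients of non-zero index vanish is constant. -/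
theorem const_of_coef768 (f : C(G, ℂ)) (h : ∀ ν, ν ≠ 0 → coef768 μ ψ f ν = 0) (a b : G) :
    f a = f b := by
  classical
  set c : ℂ := coef768 μ ψ f 0 with hc
  set g : C(G, ℂ) := f - ContinuousMap.const G c with hg
  have hcoef : ∀ ν, coef768 μ ψ g ν = 0 := by
    intro ν
    have e1 : coef768 μ ψ g ν = coef768 μ ψ f ν - c * coef768 μ ψ (fun _ => (1 : ℂ)) ν := by
      unfold coef768
      rw [← integral_const_mul, ← integral_sub (integrable_mul_conj768 hψ μ f ν)]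
      · refine integral_congr_ae (Filter.Eventually.of_forall fun x => ?_)
        simp only [hg, ContinuousMap.sub_apply, ContinuousMap.const_apply]
        ring
      · exact ((integrable_mul_conj768 hψ μ (1 : C(G, ℂ)) ν).const_mul c)
    rw [e1, coef_one768 hψ μ]
    split_ifs with h0
    · subst h0
      rw [mul_one, sub_self]
    · rw [h ν h0, mul_zero, sub_zero]
  have hg0 := complete768 hψ μ g hcoef
  have ha : g a = 0 := by rw [hg0]; rfl
  have hb : g b = 0 := by rw [hg0]; rfl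
  simp only [hg, ContinuousMap.sub_apply, ContinuousMap.const_apply] at ha hb
  rw [sub_eq_zero.mp ha, sub_eq_zero.mp hb]

end Abstract

end Fermat.Agent.LT.T7.H768

end

end
-- ===== PACK-END LT/T7/H768/Torus.lean

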