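import Mathlib
import Fermat.Agent.Pack.L1.E1L2
import Fermat.Agent.Pack.LT2.E0L2
import Fermat.Agent.Pack.LT2.E0L1
import Fermat.Agent.Pack.LT2.E1L1

set_option linter.all false

-- ===== PACK-BEGIN LT/H130/Wall.lean
section



/-!
# Row LT, WALL-ARCH skeleton (D1) of squad S25/S10 -- architect helper130, OFF-MAIN

ADELIC form.  Every definition is written out in full (no abstract notion, no parameter
standing for an automorphic object).

## A0 (objects)
For a number field `K`, `G = GL₂(𝔸_K)` (`𝔸_K = NumberField.AdeleRing (𝓞 K) K`).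
`IsCuspEig K π` : the Hecke eigensystem `π` (Prelude `AutomorphicForm.HeckeEigensystem K ℂ`:
`level`, `a`, `b`) is CUSPIDAL AUTOMORPHIC: there is a nonzero function `φ : G → ℂ`, continuous,
bounded, left `GL₂(K)`-invariant, with a unitary central character, right invariant under the
principal congruence subgroup of level `π.level`, cuspidal (constant term zero), eigenfunction of
`T_v` with eigenvalue `√(N v) · π.a v` and of `S_v` with eigenvalue `π.b v` at every `v ∤ π.level`.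
(Bounded + finite volume mod centre ⇒ `φ ∈ L²_cusp`; Hecke-eigen at almost all places ⇒ `φ`
lies in the isotypic part of ONE cuspidal automorphic representation: strong multiplicity one.)
`IsHolWtOne π` (over `ℚ`): in addition `φ (g r(θ)) = e^{± i θ} φ g` and
`z = x + i y ↦ y^{-1/2} φ (g_z g_f)` is holomorphic on the upper half plane for every finite `g_f`.

## Stations and data
`F = fieldF ρ = ℚ(√-3)`, `E = fieldE ρ` (the `S₃`-sextic field), as intermediate fields of `ℚ̄`.
`SeedData / MidData / BotData` record, at almost all primes `p` and all places over `p`, the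
Satake-power identities of base change in terms of `g = ρ(Frob_p)` (only traces of `Ψ` on `Q8`
occur, so no choice of arithmetic/geometric Frobenius matters).
`SeedAt`, `MidAt`, `BotAt`, `HolAt`: existence of a cuspidal eigensystem with these data over
`E`, `F`, `ℚ`, and over `ℚ` of holomorphic weight-one type.

## Leaves (frozen Props) and the proved top
`A2` (SEED over the sextic field `E`), `A3c` (cubic descent `E/F`), `A3q` (quadratic descent
`F/ℚ`), `PAR` (parity), `A6` (dictionary), and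
`wall_of_leaves : A2 → A3c → A3q → PAR → A6 → LTB.WallC`.
Proof plans, sub-leaves, references, prerequisites: `coord/LT-WALL-helper130.md` (D2).
-/

set_option autoImplicit false

open AutomorphicForm FLT.ExplicitLift EisensteinWeightOne
open WeierstrassCurve CongruenceSubgroup
open IsDedekindDomain NumberField
open scoped MatrixGroups

noncomputable section

namespace Fermat.Agent.LT.H130

local notation "Γℚ" => (AlgebraicClosure ℚ ≃ₐ[ℚ] AlgebraicClosure ℚ)

/-! ## A0.1  The adelic group and its components -/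

section Adelic

variable (K : Type) [Field K] [NumberField K]

/-- `GL₂(𝔸_K)`. -/
abbrev GA : Type := GL (Fin 2) (AdeleRing (𝓞 K) K)

variable {K}

/-- The component of `g ∈ GL₂(𝔸_K)` at the finite place `v`. -/
def finComp (g : GA K) (v : HeightOneSpectrum (𝓞 K)) :
    Matrix (Fin 2) (Fin 2) (v.adicCompletion K) :=
  fun i j => ((g : Matrix (Fin 2) (Fin 2) (AdeleRing (𝓞 K) K)) i j).2 v

/-- The component of `g ∈ GL₂(𝔸_K)` at the infinite place `u`. -/
def infComp (g : GA K) (u : InfinitePlace K) : Matrix (Fin 2) (Fin 2) u.Completion :=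
  fun i j => ((g : Matrix (Fin 2) (Fin 2) (AdeleRing (𝓞 K) K)) i j).1 u

/-- `h` is the element of `GL₂(𝔸_K)` with component `m` at the finite place `v` and `1` at
every other place. -/
def SuppFin (v : HeightOneSpectrum (𝓞 K)) (m : Matrix (Fin 2) (Fin 2) (v.adicCompletion K))
    (h : GA K) : Prop :=
  finComp h v = m ∧ (∀ w : HeightOneSpectrum (𝓞 K), w ≠ v → finComp h w = 1) ∧
    ∀ u : InfinitePlace K, infComp h u = 1

/-- `g` is a FINITE adelic matrix: all archimedean components are `1`. -/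
def IsFin (g : GA K) : Prop := ∀ u : InfinitePlace K, infComp g u = 1

/-- `h` has all finite components `1` and archimedean components (read in `ℂ`) equal to `m`. -/
def SuppInf (m : Matrix (Fin 2) (Fin 2) ℂ) (h : GA K) : Prop :=
  (∀ v : HeightOneSpectrum (𝓞 K), finComp h v = 1) ∧
    ∀ (u : InfinitePlace K) (i j : Fin 2),
      InfinitePlace.Completion.extensionEmbedding u (infComp h u i j) = m i j

/-- The principal congruence subgroup `K(𝔫) ⊂ GL₂(𝔸_K^f)`. -/
def InLevel (𝔫 : Ideal (𝓞 K)) (k : GA K) : Prop :=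
  IsFin k ∧ ∀ (v : HeightOneSpectrum (𝓞 K)) (i j : Fin 2),
    finComp k v i j ∈ v.adicCompletionIntegers K ∧
    finComp k⁻¹ v i j ∈ v.adicCompletionIntegers K ∧
    ∃ d ∈ 𝔫, ∃ c ∈ v.adicCompletionIntegers K,
      finComp k v i j - (1 : Matrix (Fin 2) (Fin 2) (v.adicCompletion K)) i j
        = ((d : K) : v.adicCompletion K) * c

/-- `ϖ` is a uniformiser of `K_v`. -/
def IsUnif (v : HeightOneSpectrum (𝓞 K)) (ϖ : v.adicCompletion K) : Prop :=
  Valued.v ϖ < 1 ∧ ∀ y : v.adicCompletion K, Valued.v y < 1 → Valued.v y ≤ Valued.v ϖ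

/-- `T` is a complete set of representatives of `𝒪_v / ϖ 𝒪_v`. -/
def IsResidueSystem (v : HeightOneSpectrum (𝓞 K)) (T : Finset (v.adicCompletion K)) : Prop :=
  (∀ x ∈ T, x ∈ v.adicCompletionIntegers K) ∧
  (∀ x ∈ T, ∀ y ∈ T, x ≠ y → Valued.v (x - y) = 1) ∧
  ∀ z ∈ v.adicCompletionIntegers K, ∃ x ∈ T, Valued.v (z - x) < 1

end Adelic

/-! ## A0.2  Cuspidal automorphic Hecke eigensystems over a number field -/

section Cusp

open MeasureTheory

variable (K : Type) [Field K] [NumberField K]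

/-- `φ : GL₂(𝔸_K) → ℂ` is a cuspidal automorphic eigenfunction with the eigensystem `π`. -/
structure CuspEigFun (π : HeckeEigensystem K ℂ) (φ : GA K → ℂ) : Prop where
  /-- `φ ≠ 0` -/
  ne_zero : ∃ g, φ g ≠ 0
  cont : Continuous φ
  bdd : ∃ C : ℝ, ∀ g, ‖φ g‖ ≤ C
  /-- left invariance under `GL₂(K)` -/
  left_inv : ∀ (γ : GL (Fin 2) K) (g : GA K),
    φ (Matrix.GeneralLinearGroup.map (algebraMap K (AdeleRing (𝓞 K) K)) γ * g) = φ g
  /-- unitary central character -/
  central : ∃ ω : (AdeleRing (𝓞 K) K)ˣ → ℂ, (∀ z, ‖ω z‖ = 1) ∧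
    ∀ (z : (AdeleRing (𝓞 K) K)ˣ) (h : GA K),
      (h : Matrix (Fin 2) (Fin 2) (AdeleRing (𝓞 K) K))
          = (z : AdeleRing (𝓞 K) K) • (1 : Matrix (Fin 2) (Fin 2) (AdeleRing (𝓞 K) K)) →
      ∀ g, φ (h * g) = ω z * φ g
  /-- right invariance under the principal congruence subgroup of level `π.level` -/
  level_inv : ∀ k : GA K, InLevel π.level k → ∀ g, φ (g * k) = φ g
  /-- CUSPIDALITY: the constant term along the unipotent radical vanishes
  (`∫_{𝔸_K / K} φ (n(x) g) dx = 0`, Haar measure of the compact group `𝔸_K / K`) -/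
  cusp : ∀ U : AdeleRing (𝓞 K) K → GA K,
    (∀ x, ((U x : GA K) : Matrix (Fin 2) (Fin 2) (AdeleRing (𝓞 K) K)) = !![1, x; 0, 1]) →
    ∀ (g : GA K)
      (μ : @Measure (AdeleRing (𝓞 K) K ⧸ AdeleRing.principalSubgroup (𝓞 K) K) (borel _)),
      @Measure.IsAddHaarMeasure _ _ _ (borel _) μ →
      @integral _ _ _ _ (borel _) μ (fun x => φ (U (Quotient.out x) * g)) = 0
  /-- HECKE: at every `v ∤ π.level`, `T_v φ = √(N v) · a_v · φ` and `S_v φ = b_v · φ`
  (`K_v diag(ϖ, 1) K_v = ⊔_x [ϖ, x; 0, 1] K_v ⊔ [1, 0; 0, ϖ] K_v`) -/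
  hecke : ∀ v : HeightOneSpectrum (𝓞 K), ¬ π.level ≤ v.asIdeal →
    ∀ ϖ : v.adicCompletion K, IsUnif v ϖ →
    ∀ T : Finset (v.adicCompletion K), IsResidueSystem v T →
    ∀ (H : v.adicCompletion K → GA K) (h' s : GA K),
      (∀ x ∈ T, SuppFin v !![ϖ, x; 0, 1] (H x)) →
      SuppFin v !![1, 0; 0, ϖ] h' → SuppFin v !![ϖ, 0; 0, ϖ] s →
      ∀ g, (∑ x ∈ T, φ (g * H x)) + φ (g * h')
            = ((Real.sqrt (T.card : ℝ) : ℝ) : ℂ) * π.a v * φ g ∧
          φ (g * s) = π.b v * φ g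

/-- **A0: `π` is a cuspidal automorphic Hecke eigensystem over `K`.** -/
def IsCuspEig (π : HeckeEigensystem K ℂ) : Prop := ∃ φ : GA K → ℂ, CuspEigFun K π φ

end Cusp

/-- **A0 (weight one): `π` (over `ℚ`) is cuspidal automorphic of HOLOMORPHIC WEIGHT ONE type.** -/
def IsHolWtOne (π : HeckeEigensystem ℚ ℂ) : Prop :=
  ∃ φ : GA ℚ → ℂ, CuspEigFun ℚ π φ ∧
    (∃ s : ℤ, (s = 1 ∨ s = -1) ∧ ∀ (θ : ℝ) (r : GA ℚ),
      SuppInf !![(Real.cos θ : ℂ), (Real.sin θ : ℂ); -(Real.sin θ : ℂ), (Real.cos θ : ℂ)] r →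
      ∀ g, φ (g * r) = Complex.exp ((s : ℂ) * (θ : ℂ) * Complex.I) * φ g) ∧
    ∀ gf : GA ℚ, IsFin gf → ∀ Gz : ℂ → GA ℚ,
      (∀ z : ℂ, 0 < z.im → SuppInf !![(z.im : ℂ), (z.re : ℂ); 0, 1] (Gz z)) →
      DifferentiableOn ℂ (fun z : ℂ => ((Real.sqrt z.im : ℝ) : ℂ)⁻¹ * φ (Gz z * gf))
        {z : ℂ | 0 < z.im}

/-! ## The fields `F ⊂ E` cut out by `ρ` and the matching with `Ψ ∘ ρ` -/

/-- `ρ⁻¹(SL₂(𝔽₃))`. -/
def subSL (ρ : Γℚ →* GL (Fin 2) (ZMod 3)) : Subgroup Γℚ :=
  (Matrix.GeneralLinearGroup.det.comp ρ).ker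

/-- `ρ⁻¹(Q8)`, `Q8 = {g | det g = 1, g ^ 4 = 1}` (a normal subgroup of `GL₂(𝔽₃)`; the closure is
taken only to have a `Subgroup` without a proof obligation). -/
def subQ8 (ρ : Γℚ →* GL (Fin 2) (ZMod 3)) : Subgroup Γℚ :=
  Subgroup.closure {σ | Matrix.GeneralLinearGroup.det (ρ σ) = 1 ∧ (ρ σ) ^ 4 = 1}

/-- `F = ℚ(√-3)`, the fixed field of `ρ⁻¹(SL₂(𝔽₃))`. -/
def fieldF (ρ : Γℚ →* GL (Fin 2) (ZMod 3)) : IntermediateField ℚ (AlgebraicClosure ℚ) :=
  IntermediateField.fixedField (subSL ρ)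

/-- `E`, the `S₃`-sextic field, fixed field of `ρ⁻¹(Q8)`. -/
def fieldE (ρ : Γℚ →* GL (Fin 2) (ZMod 3)) : IntermediateField ℚ (AlgebraicClosure ℚ) :=
  IntermediateField.fixedField (subQ8 ρ)

/-! ### Frobenius data.  `g = ρ(Frob_p) ∈ GL₂(𝔽₃)`, `ḡ ∈ GL₂(𝔽₃)/Q8 ≅ S₃ = Gal(E/ℚ)`. -/

/-- `g ∈ Q8 = {det = 1, g⁴ = 1}` (the normal Sylow 2-subgroup of `SL₂(𝔽₃)`). -/
def InQ8 (g : GL (Fin 2) (ZMod 3)) : Prop :=
  Matrix.GeneralLinearGroup.det g = 1 ∧ g ^ 4 = 1

open scoped Classical in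
/-- The order of `ḡ` in `S₃`: the residue degree in `E/ℚ` of the places over `p`. -/
def ordQ8 (g : GL (Fin 2) (ZMod 3)) : ℕ :=
  if InQ8 g then 1 else if InQ8 (g ^ 2) then 2 else 3

open scoped Classical in
/-- The residue degree in `F/ℚ` of the places over `p`: `1` if `det g = 1`, else `2`. -/
def ordSL (g : GL (Fin 2) (ZMod 3)) : ℕ :=
  if Matrix.GeneralLinearGroup.det g = 1 then 1 else 2

/-- The trace of `Ψ g`, read in `ℂ`. -/
def trΨ (Ψ : GL (Fin 2) (ZMod 3) →* GL (Fin 2) (ℤ√(-2))) (ι : ℤ√(-2) →+* ℂ)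
    (g : GL (Fin 2) (ZMod 3)) : ℂ :=
  ι (((Ψ g : GL (Fin 2) (ℤ√(-2))) : Matrix (Fin 2) (Fin 2) (ℤ√(-2))).trace)

/-- A property `P w g` holds for almost all primes `p`, every Frobenius element `σ` at `p`
(`g = ρ σ`) and every place `w` of `K` over `p`. -/
def AlmostAllFrob (K : Type) [Field K] [NumberField K] (ρ : Γℚ →* GL (Fin 2) (ZMod 3))
    (P : HeightOneSpectrum (𝓞 K) → GL (Fin 2) (ZMod 3) → Prop) : Prop :=
  ∃ S : Finset ℕ, ∀ p : ℕ, p.Prime → p ∉ S →
    ∀ A : ValuationSubring (AlgebraicClosure ℚ), A.LiesOverPrime p →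
      ∀ σ : Γℚ, A.IsFrobeniusAt σ p →
        ∀ w : HeightOneSpectrum (𝓞 K), ((p : ℕ) : 𝓞 K) ∈ w.asIdeal → P w (ρ σ)

/-- DATA over `E`: `π_w ↔ Ψ ρ (Frob_w)`, `Frob_w = Frob_p ^ f`, `f = ordQ8 g`
(`Frob_w ∈ Q8 ⊂ SL₂`, so the central character is trivial). -/
def SeedData (K : Type) [Field K] [NumberField K] (ρ : Γℚ →* GL (Fin 2) (ZMod 3))
    (Ψ : GL (Fin 2) (ZMod 3) →* GL (Fin 2) (ℤ√(-2))) (ι : ℤ√(-2) →+* ℂ)
    (π : HeckeEigensystem K ℂ) : Prop :=
  AlmostAllFrob K ρ fun w g => π.a w = trΨ Ψ ι (g ^ ordQ8 g) ∧ π.b w = 1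

/-- DATA over `F`: the base change of `π` to `E` is the seed (`v` a place of `F` over `p`,
`τ = Frob_v = g ^ ordSL g`, residue degree `d = ordQ8 τ ∈ {1, 3}` in `E/F`), and the central
character is trivial. -/
def MidData (K : Type) [Field K] [NumberField K] (ρ : Γℚ →* GL (Fin 2) (ZMod 3))
    (Ψ : GL (Fin 2) (ZMod 3) →* GL (Fin 2) (ℤ√(-2))) (ι : ℤ√(-2) →+* ℂ)
    (π : HeckeEigensystem K ℂ) : Prop :=
  AlmostAllFrob K ρ fun v g =>
    satakePow (ordQ8 (g ^ ordSL g)) (π.a v) (π.b v)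
        = trΨ Ψ ι ((g ^ ordSL g) ^ ordQ8 (g ^ ordSL g)) ∧
      π.b v = 1

/-- DATA over `ℚ`: the base change of `π` to `F` (Satake power `f = ordSL g`) has the data
`MidData`.  (At the primes inert in `F` only `b_p ^ 2 = 1` is known: the PARITY ambiguity.) -/
def BotData (ρ : Γℚ →* GL (Fin 2) (ZMod 3))
    (Ψ : GL (Fin 2) (ZMod 3) →* GL (Fin 2) (ℤ√(-2))) (ι : ℤ√(-2) →+* ℂ)
    (π : HeckeEigensystem ℚ ℂ) : Prop :=
  AlmostAllFrob ℚ ρ fun w g =>
    satakePow (ordQ8 (g ^ ordSL g)) (satakePow (ordSL g) (π.a w) (π.b w)) (π.b w ^ ordSL g)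
        = trΨ Ψ ι ((g ^ ordSL g) ^ ordQ8 (g ^ ordSL g)) ∧
      π.b w ^ ordSL g = 1

/-! ## The four stations -/

/-- Station `E`: a cuspidal eigensystem over `E` with the data of `Ψ ∘ ρ|_{G_E}`. -/
def SeedAt (ρ : Γℚ →* GL (Fin 2) (ZMod 3)) (Ψ : GL (Fin 2) (ZMod 3) →* GL (Fin 2) (ℤ√(-2)))
    (ι : ℤ√(-2) →+* ℂ) : Prop :=
  ∃ (_ : NumberField (fieldE ρ)) (π : HeckeEigensystem (fieldE ρ) ℂ),
    IsCuspEig (fieldE ρ) π ∧ SeedData (fieldE ρ) ρ Ψ ι π

/-- Station `F`: a cuspidal eigensystem over `F`, trivial central character, whose base change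
to `E` is the seed. -/
def MidAt (ρ : Γℚ →* GL (Fin 2) (ZMod 3)) (Ψ : GL (Fin 2) (ZMod 3) →* GL (Fin 2) (ℤ√(-2)))
    (ι : ℤ√(-2) →+* ℂ) : Prop :=
  ∃ (_ : NumberField (fieldF ρ)) (π : HeckeEigensystem (fieldF ρ) ℂ),
    IsCuspEig (fieldF ρ) π ∧ MidData (fieldF ρ) ρ Ψ ι π

/-- Station `ℚ`: a cuspidal eigensystem over `ℚ` whose base change to `F` is the one of `MidAt`. -/
def BotAt (ρ : Γℚ →* GL (Fin 2) (ZMod 3)) (Ψ : GL (Fin 2) (ZMod 3) →* GL (Fin 2) (ℤ√(-2)))
    (ι : ℤ√(-2) →+* ℂ) : Prop :=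
  ∃ π : HeckeEigensystem ℚ ℂ, IsCuspEig ℚ π ∧ BotData ρ Ψ ι π

/-- Station `ℚ`, holomorphic: the same with `π` of holomorphic weight-one type. -/
def HolAt (ρ : Γℚ →* GL (Fin 2) (ZMod 3)) (Ψ : GL (Fin 2) (ZMod 3) →* GL (Fin 2) (ℤ√(-2)))
    (ι : ℤ√(-2) →+* ℂ) : Prop :=
  ∃ π : HeckeEigensystem ℚ ℂ, IsHolWtOne π ∧ BotData ρ Ψ ι π

/-! ## The leaves (frozen Props) -/

/-- **A2 (SEED).**  `Ψ ∘ ρ|_{G_E}` has image `Q8`, is induced from a quartic character `θ` of a
quadratic extension `E'/E`; the dihedral form `π(θ)` over `E` (Hecke/Jacquet--Langlands). -/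
def A2 : Prop :=
  ∀ (ρ : Γℚ →* GL (Fin 2) (ZMod 3)) (Ψ : GL (Fin 2) (ZMod 3) →* GL (Fin 2) (ℤ√(-2))),
    LTB.Hyp ρ Ψ → ∃ ι : ℤ√(-2) →+* ℂ, SeedAt ρ Ψ ι

/-- **A3c (cubic cyclic DESCENT `E/F`).**  The seed is `Gal(E/F)`-invariant (its data are class
functions of `ρ(Frob)`; strong multiplicity one), hence a base change from `F` (Langlands); the
three descents are twists by the cubic characters of `E/F` and exactly one of them has trivial
central character. -/
def A3c : Prop :=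
  ∀ (ρ : Γℚ →* GL (Fin 2) (ZMod 3)) (Ψ : GL (Fin 2) (ZMod 3) →* GL (Fin 2) (ℤ√(-2)))
    (ι : ℤ√(-2) →+* ℂ), LTB.Hyp ρ Ψ → SeedAt ρ Ψ ι → MidAt ρ Ψ ι

/-- **A3q (quadratic DESCENT `F/ℚ`).**  The form of `MidAt` is `Gal(F/ℚ)`-invariant (its
conjugate has the same base change to `E` and the same central character; the fibres of base
change are twists), hence a base change from `ℚ` (Langlands). -/
def A3q : Prop :=
  ∀ (ρ : Γℚ →* GL (Fin 2) (ZMod 3)) (Ψ : GL (Fin 2) (ZMod 3) →* GL (Fin 2) (ℤ√(-2)))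
    (ι : ℤ√(-2) →+* ℂ), LTB.Hyp ρ Ψ → MidAt ρ Ψ ι → BotAt ρ Ψ ι

/-- **PAR (parity).**  A cuspidal eigensystem over `ℚ` with the data `BotData` is of holomorphic
weight-one type, not a Maass form of eigenvalue `1/4` (Rankin--Selberg mass count: in the even
case the Chebotarev average of `|a_p|²` would be `≥ 2 > 1`). -/
def PAR : Prop :=
  ∀ (ρ : Γℚ →* GL (Fin 2) (ZMod 3)) (Ψ : GL (Fin 2) (ZMod 3) →* GL (Fin 2) (ℤ√(-2)))
    (ι : ℤ√(-2) →+* ℂ), LTB.Hyp ρ Ψ → BotAt ρ Ψ ι → HolAt ρ Ψ ι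

/-- **A6 (dictionary).**  Adelic holomorphic weight one ⟹ classical `CuspForm (Gamma1 N) 1`,
normalised, with the Hecke relations of S48. -/
def A6 : Prop :=
  ∀ (ρ : Γℚ →* GL (Fin 2) (ZMod 3)) (Ψ : GL (Fin 2) (ZMod 3) →* GL (Fin 2) (ℤ√(-2)))
    (ι : ℤ√(-2) →+* ℂ), LTB.Hyp ρ Ψ → HolAt ρ Ψ ι → LTB.WallOut ρ Ψ

/-! ## The top -/

/-- **THE WALL from its five leaves.** -/
theorem wall_of_leaves (h2 : A2) (h3c : A3c) (h3q : A3q) (hpar : PAR) (h6 : A6) :
    LTB.WallC := by
  intro ρ Ψ hyp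
  obtain ⟨ι, hseed⟩ := h2 ρ Ψ hyp
  exact h6 ρ Ψ ι hyp (hpar ρ Ψ ι hyp (h3q ρ Ψ ι hyp (h3c ρ Ψ ι hyp hseed)))

end Fermat.Agent.LT.H130

end

end
-- ===== PACK-END LT/H130/Wall.lean

-- ===== PACK-BEGIN LT/T1/Spec.lean
section



/-!
# Row LT, tower T1 (helper54, architect): groups, measures, reduction theory for `GL₂(𝔸_K)`

OFF-MAIN.  Vocabulary = `LT/H556/A0.lean` (origin/helper556@0fa0be5a0, byte-identical copy):
`Adl K`, `G K = GL (Fin 2) (Adl K)`, `infComp`, `finComp`, `IsIntegralAt`, `IsHeckeCosetSystem`, ...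
Nothing of A0 is re-defined.  This file contains definitions and `Prop`s only, plus the PROVED
`top`; no `sorry`, no opaque constant, nothing assumed.

## Interface of the tower (what T2, T3/T3', T4, T5, T8, A2 may take as hypotheses)

`T1Out K` = conjunction of the interface Props below, for ONE number field `K`:

| Prop | content | consumers |
|---|---|---|
| `LocCompC` | `𝔸_K`, `GL₂(𝔸_K)` locally compact, Hausdorff, second countable | all |
| `AdeleLatticeC` | `K` discrete and cocompact in `𝔸_K` | T2, T3, A2 |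
| `AddFundDomC` | Borel fundamental domain of `K` in `𝔸_K`, relatively compact, `0 < vol < ∞` | T2 (constant term) |
| `AdNormC` | module `‖·‖_𝔸` on ideles: positive, multiplicative, product formula | T3, T4 |
| `FujisakiC` | `𝔸¹_K / Kˣ` compact | T3, T4, A2 |
| `DiscreteC` | `GL₂(K)` discrete and closed in `GL₂(𝔸_K)` | T2, T4 |
| `DiscreteModCentreC` | `PGL₂(K)` meets compact sets mod centre in finite sets | T4 |
| `UnimodC` | Haar measures of `GL₂(𝔸_K)` are right invariant | T2, T4 |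
| `IwasawaC` | `GL₂(𝔸) = B(𝔸) · K⁰` | T2, T3' |
| `HeightC` | the height `H(g) = ‖a₁/a₂‖` is well defined, left `B(K)Z(𝔸)`-invariant, right `K⁰`-invariant | T2, T3' |
| `ReductionC` | `∃ c > 0 ∀ g ∃ γ ∈ GL₂(K), H(γ g) ≥ c` | T2, A2 |
| `SiegelSepC` | `γ ∉ B(K) ⇒ H(g) H(γ g) ≤ 1` | T2 |
| `SiegelCompactC` | a Siegel set is `B(K) Z(𝔸) · {diag(s,1)} · compact` | T2, A2 |
| `FundDomC` | strict Borel fundamental domain of `GL₂(K)` in the slab `1 ≤ ‖det g‖ < 2`, finite volume | T2, T4 |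
| `HeckeCosetC` | Hecke coset systems exist and are full systems of representatives | T2, T6 |
| `EllipticCompactC` | centraliser of an elliptic `γ ∈ GL₂(K)` is compact modulo `Z(𝔸) G_γ(K)` | T4 |

Sub-leaves: section 3 (`structure Leaves K`, 20 leaves T1.01 - T1.20, each an implication from
interface Props of this tower); `top : Leaves K → T1Out K` is PROVED in section 4
(axioms: propext, Classical.choice, Quot.sound).
-/

set_option autoImplicit false

open IsDedekindDomain NumberField MeasureTheory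
open scoped MatrixGroups

noncomputable section

namespace Fermat.Agent.LT.T1

open Fermat.Agent.LT.H556.A0

variable (K : Type) [Field K] [NumberField K]

/-! ## 1. Vocabulary of the tower -/

/-- The diagonal embedding `GL₂(K) → GL₂(𝔸_K)`; the map of `A0.IsSph0CuspFormFor.left_inv`. -/
def ratG : GL (Fin 2) K →* G K :=
  Matrix.GeneralLinearGroup.map (algebraMap K (Adl K))

/-- `GL₂(K)` as a subgroup of `GL₂(𝔸_K)`. -/
def Gam : Subgroup (G K) := (ratG K).range

/-- The principal adeles (the subgroup used by `A0.IsCuspidalFn`). -/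
def princ : AddSubgroup (Adl K) := (algebraMap K (Adl K)).toAddMonoidHom.range

/-- The principal ideles. -/
def ratUnit : Kˣ →* (Adl K)ˣ := Units.map (algebraMap K (Adl K)).toMonoidHom

/-- The module `‖x‖_𝔸 = ∏_{w ∣ ∞} |x_w|^{[K_w : ℝ]} · ∏_v |x_v|_v` (normalised absolute values).
Only meaningful for ideles (for a non-unit the `finprod` may be the junk value `1`). -/
def adNorm (x : Adl K) : ℝ :=
  (∏ w : InfinitePlace K, ‖x.1 w‖ ^ w.mult) * ∏ᶠ v : HeightOneSpectrum (𝓞 K), ‖x.2 v‖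

/-- `g` is upper triangular. -/
def IsUpper (g : G K) : Prop := (g : Matrix (Fin 2) (Fin 2) (Adl K)) 1 0 = 0

/-- `g = [[1, x], [0, 1]]`. -/
def IsUnip (g : G K) (x : Adl K) : Prop :=
  (g : Matrix (Fin 2) (Fin 2) (Adl K)) = !![1, x; 0, 1]

/-- `g` is a scalar matrix (an element of the centre `Z(𝔸_K)`). -/
def IsCentral (z : G K) : Prop :=
  ∃ c : Adl K, (z : Matrix (Fin 2) (Fin 2) (Adl K)) = Matrix.diagonal (fun _ => c)

/-- `γ ∈ GL₂(K)` is upper triangular. -/
def IsUpperRat (γ : GL (Fin 2) K) : Prop := (γ : Matrix (Fin 2) (Fin 2) K) 1 0 = 0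

/-- The standard compact subgroup `K⁰ = ∏_v GL₂(𝒪_v) × ∏_{w real} SO(2) × ∏_{w complex} U(2)`
(at the infinite places: the groups of `A0.IsArchCompact`). -/
def IsStdCompact (k : G K) : Prop :=
  (∀ v : HeightOneSpectrum (𝓞 K), IsIntegralAt v k ∧ IsIntegralAt v k⁻¹) ∧
    ∀ w : InfinitePlace K, infComp w k * (infComp w k).conjTranspose = 1 ∧
      (w.IsReal → (infComp w k).det = 1)

/-- `a = diag(s, 1)` at every infinite place and `a = 1` at every finite place (`s > 0` real):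
the ray `A_∞⁺` of reduction theory. -/
def IsRay (a : G K) (s : ℝ) : Prop :=
  (∀ v : HeightOneSpectrum (𝓞 K), TrivAtFin v a) ∧
    ∀ w : InfinitePlace K, infComp w a = !![(s : ℂ), 0; 0, 1]

/-- `t` is a height of `g`: `g = b k` with `b` upper triangular, `k ∈ K⁰` and
`t = ‖b₁₁‖_𝔸 / ‖b₂₂‖_𝔸`.  (Unique by `HeightC`, exists by `IwasawaC`.) -/
def HasHeight (g : G K) (t : ℝ) : Prop :=
  ∃ b k : G K, IsUpper K b ∧ IsStdCompact K k ∧ g = b * k ∧
    t = adNorm K ((b : Matrix (Fin 2) (Fin 2) (Adl K)) 0 0) /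
      adNorm K ((b : Matrix (Fin 2) (Fin 2) (Adl K)) 1 1)

/-- The slab `1 ≤ ‖det g‖_𝔸 < 2`: a fundamental domain for the action of the central ray
`{t^{1/2n} : t = 2^m}`; `GL₂(K)`-invariant by the product formula.  Used to state finiteness of
the volume of `GL₂(K) \ GL₂(𝔸_K)¹` without Haar measures on subgroups:
`vol(GL₂(K) \ slab) = log 2 · vol(GL₂(K) \ GL₂(𝔸_K)¹)`. -/
def slab : Set (G K) :=
  {g | 1 ≤ adNorm K (Matrix.det (g : Matrix (Fin 2) (Fin 2) (Adl K))) ∧
    adNorm K (Matrix.det (g : Matrix (Fin 2) (Fin 2) (Adl K))) < 2}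

/-! ## 2. The interface Props -/

/-- **Local compactness.**  Weil, *Basic Number Theory*, IV §1; Cassels–Fröhlich II §14. -/
def LocCompC : Prop :=
  (LocallyCompactSpace (Adl K) ∧ T2Space (Adl K) ∧ SecondCountableTopology (Adl K)) ∧
    LocallyCompactSpace (G K) ∧ T2Space (G K) ∧ SecondCountableTopology (G K)

/-- **`K` is a lattice in `𝔸_K`.**  Weil IV §2 Thm 2; Cassels–Fröhlich II §14. -/
def AdeleLatticeC : Prop :=
  DiscreteTopology (princ K) ∧ IsClosed (princ K : Set (Adl K)) ∧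
    ∃ C : Set (Adl K), IsCompact C ∧ ∀ x : Adl K, ∃ ξ : K, x - algebraMap K (Adl K) ξ ∈ C

/-- **Fundamental domain for `K` in `𝔸_K`** (so that the constant term of `A0.IsCuspidalFn` is an
integral over a set of finite positive measure). -/
def AddFundDomC : Prop :=
  letI : MeasurableSpace (Adl K) := borel (Adl K)
  ∀ μ : Measure (Adl K), μ.IsAddHaarMeasure →
    ∃ D : Set (Adl K), MeasurableSet D ∧ IsAddFundamentalDomain (princ K) D μ ∧
      IsCompact (closure D) ∧ 0 < μ D ∧ μ D < ⊤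

/-- **The module of an idele**: positive, multiplicative, trivial on `Kˣ` (product formula).
Weil IV §4 Thm 5. -/
def AdNormC : Prop :=
  (∀ x : (Adl K)ˣ, 0 < adNorm K (x : Adl K)) ∧
    (∀ x y : (Adl K)ˣ, adNorm K ((x * y : (Adl K)ˣ) : Adl K)
      = adNorm K (x : Adl K) * adNorm K (y : Adl K)) ∧
    (∀ ξ : Kˣ, adNorm K (ratUnit K ξ : Adl K) = 1) ∧
    Continuous fun x : (Adl K)ˣ => adNorm K (x : Adl K)

/-- **Fujisaki's lemma**: `𝔸¹_K / Kˣ` is compact.  Weil IV §4 Thm 6; Cassels–Fröhlich II §16. -/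
def FujisakiC : Prop :=
  ∃ C : Set (Adl K)ˣ, IsCompact C ∧
    ∀ x : (Adl K)ˣ, adNorm K (x : Adl K) = 1 → ∃ ξ : Kˣ, (ratUnit K ξ)⁻¹ * x ∈ C

/-- **`GL₂(K)` is discrete and closed in `GL₂(𝔸_K)`.** -/
def DiscreteC : Prop :=
  DiscreteTopology (Gam K) ∧ IsClosed (Gam K : Set (G K))

/-- **`PGL₂(K)` is discrete in `PGL₂(𝔸_K)`**, in elementwise form: only finitely many classes
`γ Kˣ` have a central multiple in a given compact set.  Gelbart §3; Godement–Jacquet §10. -/
def DiscreteModCentreC : Prop :=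
  ∀ C : Set (G K), IsCompact C → ∃ S : Finset (GL (Fin 2) K), ∀ γ : GL (Fin 2) K,
    (∃ z : G K, IsCentral K z ∧ z * ratG K γ ∈ C) →
      ∃ σ ∈ S, ∃ c : K, (γ : Matrix (Fin 2) (Fin 2) K) = c • (σ : Matrix (Fin 2) (Fin 2) K)

/-- **Unimodularity of `GL₂(𝔸_K)`.**  Weil, *Adeles and algebraic groups* §2.4. -/
def UnimodC : Prop :=
  letI : MeasurableSpace (G K) := borel (G K)
  ∀ μ : Measure (G K), μ.IsHaarMeasure → μ.IsMulRightInvariant

/-- **Iwasawa decomposition** `GL₂(𝔸_K) = B(𝔸_K) · K⁰`.  Gelbart §3.A; Bump Prop. 3.3.1 (local),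
Godement–Jacquet §10. -/
def IwasawaC : Prop :=
  ∀ g : G K, ∃ b k : G K, IsUpper K b ∧ IsStdCompact K k ∧ g = b * k

/-- **The height is well defined**, left invariant under `B(K) Z(𝔸_K)`, right invariant under
`K⁰`. -/
def HeightC : Prop :=
  (∀ (g : G K) (t t' : ℝ), HasHeight K g t → HasHeight K g t' → t = t') ∧
    (∀ (β : GL (Fin 2) K), IsUpperRat K β → ∀ (g : G K) (t : ℝ),
      HasHeight K g t → HasHeight K (ratG K β * g) t) ∧
    (∀ z : G K, IsCentral K z → ∀ (g : G K) (t : ℝ), HasHeight K g t → HasHeight K (z * g) t) ∧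
    ∀ k : G K, IsStdCompact K k → ∀ (g : G K) (t : ℝ), HasHeight K g t → HasHeight K (g * k) t

/-- **Reduction theory, covering**: `GL₂(𝔸_K) = GL₂(K) · 𝔖_c` for the Siegel set
`𝔖_c = {H ≥ c}`.  Godement, *Domaines fondamentaux des groupes arithmétiques* (Sém. Bourbaki 257)
§§7-9; Borel, *Reduction theory*; Gelbart §3. -/
def ReductionC : Prop :=
  ∃ c : ℝ, 0 < c ∧ ∀ g : G K, ∃ (γ : GL (Fin 2) K) (t : ℝ),
    HasHeight K (ratG K γ * g) t ∧ c ≤ t

/-- **Reduction theory, separation**: `H(g) H(γ g) ≤ 1` for `γ ∈ GL₂(K)` not upper triangular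
(Hadamard's inequality at every place and the product formula). -/
def SiegelSepC : Prop :=
  ∀ γ : GL (Fin 2) K, ¬ IsUpperRat K γ → ∀ (g : G K) (t t' : ℝ),
    HasHeight K g t → HasHeight K (ratG K γ * g) t' → t * t' ≤ 1

/-- **Siegel sets are compact modulo `B(K) Z(𝔸_K)` and the ray**: for `c > 0` there are a compact
`Ω` and constants `0 < m ≤ M` such that every `g` of height `t ≥ c` is `β z a ω` with `β ∈ B(K)`,
`z` central, `a = diag(s,1)` in the ray, `ω ∈ Ω` and `m t ≤ s^{[K:ℚ]} ≤ M t`. -/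
def SiegelCompactC : Prop :=
  ∀ c : ℝ, 0 < c → ∃ (Ω : Set (G K)) (m M : ℝ), IsCompact Ω ∧ 0 < m ∧ m ≤ M ∧
    ∀ (g : G K) (t : ℝ), HasHeight K g t → c ≤ t →
      ∃ (β : GL (Fin 2) K) (z a ω : G K) (s : ℝ), IsUpperRat K β ∧ IsCentral K z ∧ 0 < s ∧
        IsRay K a s ∧ ω ∈ Ω ∧ g = ratG K β * z * a * ω ∧
        m * t ≤ s ^ Module.finrank ℚ K ∧ s ^ Module.finrank ℚ K ≤ M * t

/-- **Finite volume**: the slab `1 ≤ ‖det‖ < 2` has a strict Borel fundamental domain for
`GL₂(K)` of finite Haar measure, i.e. `vol(GL₂(K) \ GL₂(𝔸_K)¹) < ∞`.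
Godement loc. cit. §10; Borel–Harish-Chandra; Gelbart §3. -/
def FundDomC : Prop :=
  letI : MeasurableSpace (G K) := borel (G K)
  ∀ μ : Measure (G K), μ.IsHaarMeasure →
    ∃ F : Set (G K), MeasurableSet F ∧ F ⊆ slab K ∧
      (∀ g ∈ slab K, ∃! γ : GL (Fin 2) K, ratG K γ * g ∈ F) ∧ μ F < ⊤

/-- **Hecke coset systems** (`A0.IsHeckeCosetSystem`) exist at every finite place, any such system
is a full system of representatives of the integral matrices of determinant a uniformiser modulo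
`GL₂(𝒪_v)` on the right, and scalar uniformisers exist.  Bump §4.6; Gelbart §3.B. -/
def HeckeCosetC : Prop :=
  ∀ v : HeightOneSpectrum (𝓞 K),
    (∃ H : Finset (G K), IsHeckeCosetSystem v H) ∧
    (∀ H : Finset (G K), IsHeckeCosetSystem v H → ∀ g : G K, IsLocalAtFin v g →
      IsIntegralAt v g → Valued.v (finComp v g).det = WithZero.exp (-1 : ℤ) →
      ∃ h ∈ H, IsIntegralAt v (h⁻¹ * g)) ∧
    ∃ z : G K, IsScalarUniformizerAt v z

/-- **Elliptic tori are compact modulo the centre**: for `γ ∈ GL₂(K)` with irreducible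
characteristic polynomial, the centraliser of `γ` in `GL₂(𝔸_K)` is
`Z(𝔸_K) · G_γ(K) · (compact)`.  (`G_γ = Res_{L/K} 𝔾_m`, `L = K[γ]`; Fujisaki for `L`.)
Gelbart–Jacquet, *Forms of GL(2) from the analytic point of view* §1. -/
def EllipticCompactC : Prop :=
  ∀ γ : GL (Fin 2) K, Irreducible (γ : Matrix (Fin 2) (Fin 2) K).charpoly →
    ∃ C : Set (G K), IsCompact C ∧ ∀ g : G K, g * ratG K γ = ratG K γ * g →
      ∃ (z : G K) (δ : GL (Fin 2) K) (c : G K), IsCentral K z ∧ δ * γ = γ * δ ∧ c ∈ C ∧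
        g = z * ratG K δ * c

/-- THE OUTPUT OF TOWER T1 for the number field `K`. -/
structure T1Out : Prop where
  locComp : LocCompC K
  adeleLattice : AdeleLatticeC K
  addFundDom : AddFundDomC K
  adNorm : AdNormC K
  fujisaki : FujisakiC K
  discrete : DiscreteC K
  discreteModCentre : DiscreteModCentreC K
  unimod : UnimodC K
  iwasawa : IwasawaC K
  height : HeightC K
  reduction : ReductionC K
  siegelSep : SiegelSepC K
  siegelCompact : SiegelCompactC K
  fundDom : FundDomC K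
  heckeCoset : HeckeCosetC K
  ellipticCompact : EllipticCompactC K

/-! ## 3. The sub-leaves

Every leaf is hypothesis-parametrised: `Leaf… K` is an implication whose premises are interface
Props of THIS tower (no other tower is needed by T1).  Size estimates (lines of Lean over Mathlib)
in the doc-comments. -/

/-- T1.01 (≈ 400 lines; helper11 `LT/H11/LC.lean`).  Finite residue fields, `𝒪_v` compact,
`K_v` locally compact, restricted product, units of the matrix ring.  Weil BNT I §3, IV §1. -/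
def LeafLocComp : Prop := LocCompC K

/-- T1.02 (DONE by helper767, `LT/H767/AdeleDiscrete.lean`, 94 lines; adapter to `princ K`).
Cassels–Fröhlich II §14. -/
def LeafAdeleDiscrete : Prop := DiscreteTopology (princ K)

/-- T1.03 (≈ 800 lines; claimed by helper767).  `𝔸_K = K + (compact)`: strong approximation at
the finite places (`𝔸_f = K + ∏ 𝒪_v`, CRT) and `K_∞ / 𝒪_K` compact (Minkowski lattice in Mathlib:
`NumberField.mixedEmbedding`).  Cassels–Fröhlich II §14 Thm. -/
def LeafAdeleCocompact : Prop :=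
  LocCompC K →
    ∃ C : Set (Adl K), IsCompact C ∧ ∀ x : Adl K, ∃ ξ : K, x - algebraMap K (Adl K) ξ ∈ C

/-- T1.04 (≈ 500 lines).  A countable discrete subgroup of a second countable locally compact
group has a Borel fundamental domain inside any compact set whose translates cover; applied to
`K ⊂ 𝔸_K`.  Bourbaki, Intégration VII §2 no. 10, Exercice 12; Weil BNT II §4 Lemma 1. -/
def LeafAddFundDom : Prop := LocCompC K → AdeleLatticeC K → AddFundDomC K

/-- T1.05 (≈ 600 lines).  Finite support of `v ↦ ‖x_v‖` on ideles, multiplicativity, product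
formula (`NumberField.prod_abs_eq_one` in Mathlib), continuity on the idele group.
Weil BNT IV §4 Thm 5. -/
def LeafAdNorm : Prop := AdNormC K

/-- T1.06 (≈ 2500 lines).  Fujisaki's lemma by the adelic Minkowski argument
(Blichfeldt for the lattice `K ⊂ 𝔸_K` and the scaling `μ(xX) = ‖x‖ μ(X)`).
Weil BNT IV §4 Thm 6; Cassels–Fröhlich II §16. -/
def LeafFujisaki : Prop := LocCompC K → AdeleLatticeC K → AddFundDomC K → AdNormC K → FujisakiC K

/-- T1.07 (≈ 200 lines).  `γ` close to `1` in `GL₂(𝔸_K)` has `γ - 1` close to `0` entrywise;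
closedness = discrete subgroups of Hausdorff groups are closed. -/
def LeafDiscrete : Prop := LocCompC K → AdeleLatticeC K → DiscreteC K

/-- T1.08 (≈ 800 lines).  `Ad : GL₂ → GL(M₂)`, `Ad(γ)` rational, `M₂(K)` discrete in
`M₂(𝔸_K)`; kernel of `Ad` = centre.  Godement–Jacquet §10. -/
def LeafDiscreteModCentre : Prop := LocCompC K → AdeleLatticeC K → DiscreteModCentreC K

/-- T1.09 (≈ 800 lines).  The modular character (`MeasureTheory.Measure.modularCharacter`) is
trivial on the centre and on unipotent elements (commutators `[diag(2,1), n(x)] = n(x)`, `3`-free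
form: `[diag(a,1), n(x)] = n((a-1)x)` with `a = 2`), on `K⁰` (compact) and on the torus (its square
is a commutator times a central element); these generate.  Weil, *Adeles and algebraic groups*
§2.4. -/
def LeafUnimod : Prop := LocCompC K → UnimodC K

/-- T1.10 (≈ 250 lines).  Local Iwasawa decomposition at a finite place:
`GL₂(K_v) = B(K_v) GL₂(𝒪_v)`.  Bump Prop. 4.5.2. -/
def LeafIwasawaFin : Prop :=
  ∀ (v : HeightOneSpectrum (𝓞 K)) (g : GL (Fin 2) (v.adicCompletion K)),
    ∃ b k : GL (Fin 2) (v.adicCompletion K),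
      (b : Matrix (Fin 2) (Fin 2) (v.adicCompletion K)) 1 0 = 0 ∧
      (∀ i j, (k : Matrix (Fin 2) (Fin 2) (v.adicCompletion K)) i j
        ∈ v.adicCompletionIntegers K) ∧
      (∀ i j, ((k⁻¹ : GL (Fin 2) (v.adicCompletion K)) :
        Matrix (Fin 2) (Fin 2) (v.adicCompletion K)) i j ∈ v.adicCompletionIntegers K) ∧
      g = b * k

/-- T1.11 (≈ 300 lines).  Archimedean Iwasawa decomposition (Gram–Schmidt on the rows):
`GL₂(ℂ) = B(ℂ) U(2)`, and for a real matrix `b`, `k` are real with `k ∈ SO(2)`.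
Bump §2.1 (Iwasawa decomposition of `GL(2,ℝ)`); Gelbart §3.A. -/
def LeafIwasawaInf : Prop :=
  ∀ g : GL (Fin 2) ℂ, ∃ b k : GL (Fin 2) ℂ,
    (b : Matrix (Fin 2) (Fin 2) ℂ) 1 0 = 0 ∧
    (k : Matrix (Fin 2) (Fin 2) ℂ) * (k : Matrix (Fin 2) (Fin 2) ℂ).conjTranspose = 1 ∧
    g = b * k ∧
    ((∀ i j, ((g : Matrix (Fin 2) (Fin 2) ℂ) i j).im = 0) →
      (∀ i j, ((b : Matrix (Fin 2) (Fin 2) ℂ) i j).im = 0) ∧
      (∀ i j, ((k : Matrix (Fin 2) (Fin 2) ℂ) i j).im = 0) ∧
      (k : Matrix (Fin 2) (Fin 2) ℂ).det = 1)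

/-- T1.12 (≈ 800 lines).  Gluing: local decompositions at all places, `b_v = 1` at the places
where `g_v ∈ GL₂(𝒪_v)`, give an adelic decomposition (construction of elements of the restricted
product from local components; surjectivity of `extensionEmbedding` onto `ℝ` resp. `ℂ`). -/
def LeafIwasawaGlue : Prop := LeafIwasawaFin K → LeafIwasawaInf → IwasawaC K

/-- T1.13 (≈ 700 lines).  `B(𝔸) ∩ K⁰` has diagonal entries of absolute value `1` at every place;
product formula for `β ∈ B(K)`. -/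
def LeafHeight : Prop := AdNormC K → HeightC K

/-- T1.14 (≈ 3000 lines).  Adelic Minkowski: the lattice `K² g ⊂ 𝔸_K²` has a nonzero vector
`(c,d) g` with `‖(c,d) g‖² ≤ C ‖det g‖` (Blichfeldt for `K² ⊂ 𝔸_K²`, scaling of the Haar measure
of `𝔸_K²` by `‖det g‖`); complete `(c,d)` to `γ ∈ GL₂(K)` and use
`H(γ g) = ‖det g‖ / ‖(c,d) g‖²`.  Godement, Sém. Bourbaki 257 §8; Weil BNT IV §4 Lemma 1. -/
def LeafReduction : Prop :=
  LocCompC K → AdeleLatticeC K → AddFundDomC K → AdNormC K → IwasawaC K → HeightC K →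
    ReductionC K

/-- T1.15 (≈ 900 lines).  `H(g) = ‖det g‖ / ‖(0,1) g‖²`, Hadamard's inequality
`|det(v,w)|_v ≤ ‖v‖_v ‖w‖_v` at every place, product formula for the entry `c ≠ 0` of `γ`.
Godement, Sém. Bourbaki 257 §7. -/
def LeafSiegelSep : Prop := AdNormC K → IwasawaC K → HeightC K → SiegelSepC K

/-- T1.16 (≈ 900 lines).  `𝔸ˣ = Kˣ · ray · (compact)` (Fujisaki), `𝔸 = K + (compact)`, Iwasawa;
conjugation by `diag(s,1)`, `s ≥ s₀`, contracts the unipotent radical at the infinite places.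
Godement loc. cit. §9; Gelbart §3. -/
def LeafSiegelCompact : Prop :=
  LocCompC K → AdeleLatticeC K → AdNormC K → FujisakiC K → IwasawaC K → HeightC K →
    SiegelCompactC K

/-- **Finite volume of Siegel sets in the slab** (auxiliary Prop of the tower): for every `c > 0`
there is a Borel set `S` of finite Haar measure meeting the `B(K)`-orbit of every `g` in the slab
of height `≥ c`. -/
def SiegelVolC : Prop :=
  letI : MeasurableSpace (G K) := borel (G K)
  ∀ μ : Measure (G K), μ.IsHaarMeasure → ∀ c : ℝ, 0 < c →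
    ∃ S : Set (G K), MeasurableSet S ∧ μ S < ⊤ ∧
      ∀ g ∈ slab K, ∀ t : ℝ, HasHeight K g t → c ≤ t →
        ∃ β : GL (Fin 2) K, IsUpperRat K β ∧ ratG K β * g ∈ S

/-- T1.17 (≈ 3000 lines).  Haar measure of `GL₂(𝔸)` in Iwasawa coordinates
`dg = ‖a₁/a₂‖⁻¹ dn da dk`, and `∫_{s ≥ s₀} s^{-n} dˣs < ∞`.  Godement loc. cit. §10;
Gelbart §3 (3.10); Bump §3.3 (over `ℚ`). -/
def LeafSiegelVol : Prop :=
  LocCompC K → UnimodC K → AdeleLatticeC K → AddFundDomC K → AdNormC K → IwasawaC K →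
    HeightC K → SiegelCompactC K → SiegelVolC K

/-- T1.18 (≈ 600 lines).  Strict Borel fundamental domain of the countable discrete group
`GL₂(K)` in the invariant Borel set `slab K`; its measure is bounded by the measure of any Borel
set meeting all orbits (left invariance of `μ`).  Bourbaki, Intégration VII §2 no. 10. -/
def LeafFundDom : Prop :=
  LocCompC K → DiscreteC K → AdNormC K → HeightC K → ReductionC K → SiegelVolC K → FundDomC K

/-- T1.19 (≈ 1200 lines).  The `q_v + 1` cosets `[[ϖ, r],[0,1]]` (`r` mod `ϖ`), `[[1,0],[0,ϖ]]`;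
elementary divisors over the discrete valuation ring `𝒪_v`; residue field of cardinality
`Ideal.absNorm v.asIdeal`; local elements as adeles.  Bump Prop. 4.6.4. -/
def LeafHeckeCoset : Prop := HeckeCosetC K

/-- T1.20 (≈ 3000 lines).  Centraliser of `γ` in `M₂(𝔸_K)` is `𝔸_K ⊗_K K[γ]`; Fujisaki's argument
for the lattice `K[γ] ⊂ 𝔸_K[γ]` (rank 2 over `𝔸_K`), module = `‖det‖`.  Weil BNT IV §3 Thm 4
(`𝔸_K ⊗ L`), §4 Thm 6; Gelbart–Jacquet §1. -/
def LeafEllipticCompact : Prop :=
  LocCompC K → AdeleLatticeC K → AddFundDomC K → AdNormC K → EllipticCompactC K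

/-- ALL SUB-LEAVES of tower T1 for the number field `K`. -/
structure Leaves : Prop where
  locComp : LeafLocComp K
  adeleDiscrete : LeafAdeleDiscrete K
  adeleCocompact : LeafAdeleCocompact K
  addFundDom : LeafAddFundDom K
  adNorm : LeafAdNorm K
  fujisaki : LeafFujisaki K
  discrete : LeafDiscrete K
  discreteModCentre : LeafDiscreteModCentre K
  unimod : LeafUnimod K
  iwasawaFin : LeafIwasawaFin K
  iwasawaInf : LeafIwasawaInf
  iwasawaGlue : LeafIwasawaGlue K
  height : LeafHeight K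
  reduction : LeafReduction K
  siegelSep : LeafSiegelSep K
  siegelCompact : LeafSiegelCompact K
  siegelVol : LeafSiegelVol K
  fundDom : LeafFundDom K
  heckeCoset : LeafHeckeCoset K
  ellipticCompact : LeafEllipticCompact K

/-! ## 4. The top of the tower (PROVED) -/

/-- Discrete subgroups of the Hausdorff group `𝔸_K` are closed: `AdeleLatticeC` from the leaves
T1.01, T1.02, T1.03. -/
theorem adeleLattice_of_leaves (h1 : LeafLocComp K) (h2 : LeafAdeleDiscrete K)
    (h3 : LeafAdeleCocompact K) : AdeleLatticeC K := by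
  have : T2Space (Adl K) := h1.1.2.1
  have : DiscreteTopology (princ K) := h2
  exact ⟨h2, AddSubgroup.isClosed_of_discrete, h3 h1⟩

/-- THE TOP OF TOWER T1: the sub-leaves give the output of the tower. -/
theorem top (L : Leaves K) : T1Out K := by
  have hLC : LocCompC K := L.locComp
  have hAL : AdeleLatticeC K := adeleLattice_of_leaves K L.locComp L.adeleDiscrete L.adeleCocompact
  have hFD : AddFundDomC K := L.addFundDom hLC hAL
  have hN : AdNormC K := L.adNorm
  have hFu : FujisakiC K := L.fujisaki hLC hAL hFD hN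
  have hD : DiscreteC K := L.discrete hLC hAL
  have hU : UnimodC K := L.unimod hLC
  have hI : IwasawaC K := L.iwasawaGlue L.iwasawaFin L.iwasawaInf
  have hH : HeightC K := L.height hN
  have hR : ReductionC K := L.reduction hLC hAL hFD hN hI hH
  have hSC : SiegelCompactC K := L.siegelCompact hLC hAL hN hFu hI hH
  have hSV : SiegelVolC K := L.siegelVol hLC hU hAL hFD hN hI hH hSC
  exact
    { locComp := hLC
      adeleLattice := hAL
      addFundDom := hFD
      adNorm := hN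
      fujisaki := hFu
      discrete := hD
      discreteModCentre := L.discreteModCentre hLC hAL
      unimod := hU
      iwasawa := hI
      height := hH
      reduction := hR
      siegelSep := L.siegelSep hN hI hH
      siegelCompact := hSC
      fundDom := L.fundDom hLC hD hN hH hR hSV
      heckeCoset := L.heckeCoset
      ellipticCompact := L.ellipticCompact hLC hAL hFD hN }

end Fermat.Agent.LT.T1

end

end
-- ===== PACK-END LT/T1/Spec.lean

-- ===== PACK-BEGIN LT/T1/H793/AdeleProj.lean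
section



/-!
# Row LT, tower T1 (helper793, OFF-MAIN): the local components of `GL₂(𝔸_K)`

The projections of the adele ring to the completions as ring homomorphisms, the induced maps on
`GL₂`, the extensionality principle ("an adele is determined by its components") and the
construction of an element of `GL₂(𝔸_K)` from everywhere integral local components.
Definitions of `LT/H556/A0.lean` (`Adl`, `G`, `infComp`, `finComp`) are used, none is re-defined.
-/

set_option autoImplicit false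

open IsDedekindDomain NumberField
open Fermat.Agent.LT.H556.A0

noncomputable section

namespace Fermat.Agent.LT.T1.H793

variable {K : Type} [Field K] [NumberField K]

/-- The projection of the adele ring to the completion at the infinite place `w`. -/
def projInf793 (w : InfinitePlace K) : Adl K →+* w.Completion where
  toFun x := x.1 w
  map_one' := rfl
  map_mul' _ _ := rfl
  map_zero' := rfl
  map_add' _ _ := rfl

/-- The projection of the adele ring to the completion at the finite place `v`. -/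
def projFin793 (v : HeightOneSpectrum (𝓞 K)) : Adl K →+* v.adicCompletion K where
  toFun x := x.2 v
  map_one' := rfl
  map_mul' _ _ := rfl
  map_zero' := rfl
  map_add' _ _ := rfl

@[simp] lemma projInf793_apply (w : InfinitePlace K) (x : Adl K) : projInf793 w x = x.1 w := rfl

@[simp] lemma projFin793_apply (v : HeightOneSpectrum (𝓞 K)) (x : Adl K) :
    projFin793 v x = x.2 v := rfl

/-- An adele is determined by its components. -/
lemma adl_ext793 {x y : Adl K} (h1 : ∀ w : InfinitePlace K, projInf793 w x = projInf793 w y)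
    (h2 : ∀ v : HeightOneSpectrum (𝓞 K), projFin793 v x = projFin793 v y) : x = y := by
  refine Prod.ext (funext h1) ?_
  exact FiniteAdeleRing.ext (K := K) h2

/-- A matrix over the adeles is determined by its components. -/
lemma adlMatrix_ext793 {M N : Matrix (Fin 2) (Fin 2) (Adl K)}
    (h1 : ∀ w : InfinitePlace K, M.map (projInf793 w) = N.map (projInf793 w))
    (h2 : ∀ v : HeightOneSpectrum (𝓞 K), M.map (projFin793 v) = N.map (projFin793 v)) :
    M = N := by
  ext i j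
  refine adl_ext793 (fun w => ?_) (fun v => ?_)
  · have := congrFun (congrFun (h1 w) i) j
    simpa [Matrix.map_apply] using this
  · have := congrFun (congrFun (h2 v) i) j
    simpa [Matrix.map_apply] using this

/-- The component of `g ∈ GL₂(𝔸_K)` at the infinite place `w`. -/
def glInf793 (w : InfinitePlace K) : G K →* GL (Fin 2) w.Completion :=
  Matrix.GeneralLinearGroup.map (projInf793 w)

/-- The component of `g ∈ GL₂(𝔸_K)` at the finite place `v`. -/
def glFin793 (v : HeightOneSpectrum (𝓞 K)) : G K →* GL (Fin 2) (v.adicCompletion K) :=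
  Matrix.GeneralLinearGroup.map (projFin793 v)

lemma glInf793_coe (w : InfinitePlace K) (g : G K) :
    ((glInf793 w g : GL (Fin 2) w.Completion) : Matrix (Fin 2) (Fin 2) w.Completion)
      = (g : Matrix (Fin 2) (Fin 2) (Adl K)).map (projInf793 w) := rfl

lemma glFin793_coe (v : HeightOneSpectrum (𝓞 K)) (g : G K) :
    ((glFin793 v g : GL (Fin 2) (v.adicCompletion K)) :
        Matrix (Fin 2) (Fin 2) (v.adicCompletion K))
      = (g : Matrix (Fin 2) (Fin 2) (Adl K)).map (projFin793 v) := rfl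

lemma finComp_eq793 (v : HeightOneSpectrum (𝓞 K)) (g : G K) :
    finComp v g = ((glFin793 v g : GL (Fin 2) (v.adicCompletion K)) :
        Matrix (Fin 2) (Fin 2) (v.adicCompletion K)) := rfl

lemma infComp_eq793 (w : InfinitePlace K) (g : G K) :
    infComp w g = ((glInf793 w g : GL (Fin 2) w.Completion) :
        Matrix (Fin 2) (Fin 2) w.Completion).map
          (InfinitePlace.Completion.extensionEmbedding w) := rfl

/-- An element of `GL₂(𝔸_K)` is determined by its components. -/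
lemma gl_ext793 {g h : G K} (h1 : ∀ w : InfinitePlace K, glInf793 w g = glInf793 w h)
    (h2 : ∀ v : HeightOneSpectrum (𝓞 K), glFin793 v g = glFin793 v h) : g = h := by
  apply Units.ext
  refine adlMatrix_ext793 (fun w => ?_) (fun v => ?_)
  · have := congrArg (fun x : GL (Fin 2) w.Completion =>
      (x : Matrix (Fin 2) (Fin 2) w.Completion)) (h1 w)
    simpa [glInf793_coe] using this
  · have := congrArg (fun x : GL (Fin 2) (v.adicCompletion K) =>
      (x : Matrix (Fin 2) (Fin 2) (v.adicCompletion K))) (h2 v)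
    simpa [glFin793_coe] using this

/-! ## Assembling an element from its components -/

/-- The adele with the components `a w` at the infinite places and the INTEGRAL components `c v`
at the finite places. -/
def adlMk793 (a : ∀ w : InfinitePlace K, w.Completion)
    (c : ∀ v : HeightOneSpectrum (𝓞 K), v.adicCompletion K)
    (hc : ∀ v, c v ∈ v.adicCompletionIntegers K) : Adl K :=
  (a, ⟨c, Filter.Eventually.of_forall hc⟩)

@[simp] lemma projInf793_adlMk (a : ∀ w : InfinitePlace K, w.Completion)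
    (c : ∀ v : HeightOneSpectrum (𝓞 K), v.adicCompletion K)
    (hc : ∀ v, c v ∈ v.adicCompletionIntegers K) (w : InfinitePlace K) :
    projInf793 w (adlMk793 a c hc) = a w := rfl

@[simp] lemma projFin793_adlMk (a : ∀ w : InfinitePlace K, w.Completion)
    (c : ∀ v : HeightOneSpectrum (𝓞 K), v.adicCompletion K)
    (hc : ∀ v, c v ∈ v.adicCompletionIntegers K) (v : HeightOneSpectrum (𝓞 K)) :
    projFin793 v (adlMk793 a c hc) = c v := rfl

/-- The matrix over the adeles with the components `kw w` at the infinite places and the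
integral components `kv v` at the finite places. -/
def adlMatrixMk793 (kw : ∀ w : InfinitePlace K, Matrix (Fin 2) (Fin 2) w.Completion)
    (kv : ∀ v : HeightOneSpectrum (𝓞 K), Matrix (Fin 2) (Fin 2) (v.adicCompletion K))
    (h1 : ∀ v i j, kv v i j ∈ v.adicCompletionIntegers K) : Matrix (Fin 2) (Fin 2) (Adl K) :=
  Matrix.of fun i j => adlMk793 (fun w => kw w i j) (fun v => kv v i j) (fun v => h1 v i j)

lemma adlMatrixMk793_mapInf (kw : ∀ w : InfinitePlace K, Matrix (Fin 2) (Fin 2) w.Completion)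
    (kv : ∀ v : HeightOneSpectrum (𝓞 K), Matrix (Fin 2) (Fin 2) (v.adicCompletion K))
    (h1 : ∀ v i j, kv v i j ∈ v.adicCompletionIntegers K) (w : InfinitePlace K) :
    (adlMatrixMk793 kw kv h1).map (projInf793 w) = kw w := by
  ext i j; rfl

lemma adlMatrixMk793_mapFin (kw : ∀ w : InfinitePlace K, Matrix (Fin 2) (Fin 2) w.Completion)
    (kv : ∀ v : HeightOneSpectrum (𝓞 K), Matrix (Fin 2) (Fin 2) (v.adicCompletion K))
    (h1 : ∀ v i j, kv v i j ∈ v.adicCompletionIntegers K) (v : HeightOneSpectrum (𝓞 K)) :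
    (adlMatrixMk793 kw kv h1).map (projFin793 v) = kv v := by
  ext i j; rfl

/-- The element of `GL₂(𝔸_K)` with the components `kw w` at the infinite places and the
components `kv v ∈ GL₂(𝒪_v)` at the finite places. -/
def glMk793 (kw : ∀ w : InfinitePlace K, GL (Fin 2) w.Completion)
    (kv : ∀ v : HeightOneSpectrum (𝓞 K), GL (Fin 2) (v.adicCompletion K))
    (h1 : ∀ v i j, (kv v : Matrix (Fin 2) (Fin 2) (v.adicCompletion K)) i j
      ∈ v.adicCompletionIntegers K)
    (h2 : ∀ v i j, (((kv v)⁻¹ : GL (Fin 2) (v.adicCompletion K)) :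
      Matrix (Fin 2) (Fin 2) (v.adicCompletion K)) i j ∈ v.adicCompletionIntegers K) : G K where
  val := adlMatrixMk793 (fun w => (kw w : Matrix (Fin 2) (Fin 2) w.Completion))
    (fun v => (kv v : Matrix (Fin 2) (Fin 2) (v.adicCompletion K))) h1
  inv := adlMatrixMk793
    (fun w => (((kw w)⁻¹ : GL (Fin 2) w.Completion) : Matrix (Fin 2) (Fin 2) w.Completion))
    (fun v => (((kv v)⁻¹ : GL (Fin 2) (v.adicCompletion K)) :
      Matrix (Fin 2) (Fin 2) (v.adicCompletion K))) h2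
  val_inv := by
    refine adlMatrix_ext793 (fun w => ?_) (fun v => ?_)
    · rw [Matrix.map_mul, Matrix.map_one _ (map_zero _) (map_one _), adlMatrixMk793_mapInf,
        adlMatrixMk793_mapInf, ← Units.val_mul, mul_inv_cancel, Units.val_one]
    · rw [Matrix.map_mul, Matrix.map_one _ (map_zero _) (map_one _), adlMatrixMk793_mapFin,
        adlMatrixMk793_mapFin, ← Units.val_mul, mul_inv_cancel, Units.val_one]
  inv_val := by
    refine adlMatrix_ext793 (fun w => ?_) (fun v => ?_)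
    · rw [Matrix.map_mul, Matrix.map_one _ (map_zero _) (map_one _), adlMatrixMk793_mapInf,
        adlMatrixMk793_mapInf, ← Units.val_mul, inv_mul_cancel, Units.val_one]
    · rw [Matrix.map_mul, Matrix.map_one _ (map_zero _) (map_one _), adlMatrixMk793_mapFin,
        adlMatrixMk793_mapFin, ← Units.val_mul, inv_mul_cancel, Units.val_one]

lemma glInf793_glMk (kw : ∀ w : InfinitePlace K, GL (Fin 2) w.Completion)
    (kv : ∀ v : HeightOneSpectrum (𝓞 K), GL (Fin 2) (v.adicCompletion K))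
    (h1 : ∀ v i j, (kv v : Matrix (Fin 2) (Fin 2) (v.adicCompletion K)) i j
      ∈ v.adicCompletionIntegers K)
    (h2 : ∀ v i j, (((kv v)⁻¹ : GL (Fin 2) (v.adicCompletion K)) :
      Matrix (Fin 2) (Fin 2) (v.adicCompletion K)) i j ∈ v.adicCompletionIntegers K)
    (w : InfinitePlace K) : glInf793 w (glMk793 kw kv h1 h2) = kw w := by
  apply Units.ext
  rw [glInf793_coe]
  exact adlMatrixMk793_mapInf _ _ _ w

lemma glFin793_glMk (kw : ∀ w : InfinitePlace K, GL (Fin 2) w.Completion)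
    (kv : ∀ v : HeightOneSpectrum (𝓞 K), GL (Fin 2) (v.adicCompletion K))
    (h1 : ∀ v i j, (kv v : Matrix (Fin 2) (Fin 2) (v.adicCompletion K)) i j
      ∈ v.adicCompletionIntegers K)
    (h2 : ∀ v i j, (((kv v)⁻¹ : GL (Fin 2) (v.adicCompletion K)) :
      Matrix (Fin 2) (Fin 2) (v.adicCompletion K)) i j ∈ v.adicCompletionIntegers K)
    (v : HeightOneSpectrum (𝓞 K)) : glFin793 v (glMk793 kw kv h1 h2) = kv v := by
  apply Units.ext
  rw [glFin793_coe]
  exact adlMatrixMk793_mapFin _ _ _ v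

end Fermat.Agent.LT.T1.H793

end

end
-- ===== PACK-END LT/T1/H793/AdeleProj.lean

-- ===== PACK-BEGIN LT/T6/H159/VanishSpec.lean
section



/-!
# Row LT, tower T6, leaf T6.15 `FLVanishC` (owner helper159) -- split into sub-leaves + proved top

`FLVanishC` ([L] §5): for `k'/k` unramified of prime degree `l` and `f = b(φ)`, the orbital
integrals of `f` vanish at the regular `γ ∈ GL₂(k)` which are not norms.

Sub-leaves (all TRUE statements; proofs in the sibling files or by the named owners):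

* `SupportC` (T6.15a): `f = b(φ)` is supported on the Cartan types `(a, b)` with `l ∣ a + b`
  (homogeneity of the Satake polynomials + their linear independence in each degree).
* `HypVanishC` (T6.15b): `γ` regular with an eigenvalue `t ∈ k`, `l ∤ ord t`  ⟹  `O_γ(f) = 0`
  (hyperbolic orbital integral = `|1 - t₂/t₁|⁻¹ ×` constant term; the constant term of `b(φ)` at
  `(m₁, m₂)` vanishes unless `l ∣ m₁, m₂`).  No `k'` in the statement.
* `NormCritC` (T6.15c): `γ` regular, `l ∣ ord (det γ)`, every eigenvalue of `γ` in `k` has order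
  divisible by `l`  ⟹  `γ` is a norm (unit norm surjectivity in unramified extensions, for `k'/k`
  and for `k'[γ]/k[γ]`).

`flVanish_of : SupportC → HypVanishC → NormCritC → FLVanishC` is proved below.
-/

set_option autoImplicit false

open scoped Matrix

noncomputable section

namespace Fermat.Agent.LT.T6.H159

open Fermat.Agent.LT.T6

/-- **T6.15a.**  The base change of a spherical function is supported on `l ∣ a + b`. -/
def SupportC : Prop :=
  ∀ (l q : ℕ), 0 < l → 1 < q → ∀ φ f : (ℤ × ℤ) →₀ ℂ, IsDominant φ → IsDominant f →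
    IsBC l q φ f → ∀ lam ∈ f.support, (l : ℤ) ∣ lam.1 + lam.2

/-- **T6.15b.**  Vanishing of the hyperbolic orbital integrals of `f = b(φ)` at the `γ` with an
eigenvalue in `k` whose order is not divisible by `l`. -/
def HypVanishC : Prop :=
  ∀ (k : Type) [Field k] [Valued k Γ₀] (q l : ℕ), IsLocalField k q → 0 < l →
    ∀ φ f : (ℤ × ℤ) →₀ ℂ, IsDominant φ → IsDominant f → IsBC l q φ f →
    ∀ (γ : GL (Fin 2) k) (c' : ℂ) (t : k), IsReg γ →
      t ^ 2 - (γ : Matrix (Fin 2) (Fin 2) k).trace * t + (γ : Matrix (Fin 2) (Fin 2) k).det = 0 →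
      ¬ (l : ℤ) ∣ WithZero.log (Valued.v t) →
      IsOrbSum 0 (fun g => f (cartan g)) γ c' → c' = 0

/-- **T6.15c.**  Norm criterion at an unramified place: a regular `γ ∈ GL₂(k)` with
`l ∣ ord (det γ)` all of whose eigenvalues in `k` have order divisible by `l` is a norm. -/
def NormCritC : Prop :=
  ∀ (k k' : Type) [Field k] [Field k'] [Valued k Γ₀] [Valued k' Γ₀] (q l : ℕ)
    (i : k →+* k') (s : k' ≃+* k'),
    IsLocalField k q → IsLocalField k' (q ^ l) → IsLocalExt k k' l 1 i s → l.Prime →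
    ∀ γ : GL (Fin 2) k, IsReg γ →
      (l : ℤ) ∣ WithZero.log (Valued.v (γ : Matrix (Fin 2) (Fin 2) k).det) →
      (∀ t : k, t ^ 2 - (γ : Matrix (Fin 2) (Fin 2) k).trace * t
          + (γ : Matrix (Fin 2) (Fin 2) k).det = 0 → (l : ℤ) ∣ WithZero.log (Valued.v t)) →
      IsNormFrom l i s γ

/-! ## Elementary facts -/

/-- The residue field of a local field has at least two elements. -/
theorem one_lt_of_isLocalField {k : Type} [Field k] [Valued k Γ₀] {q : ℕ}
    (h : IsLocalField k q) : 1 < q := by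
  obtain ⟨T, hcard, -, -, hcov⟩ := h.residue
  obtain ⟨x0, hx0, h0⟩ := hcov 0 (by simp)
  obtain ⟨x1, hx1, h1⟩ := hcov 1 (by simp)
  have hne : x0 ≠ x1 := by
    intro h
    rw [← h] at h1
    have h2 : Valued.v (1 : k) ≤ max (Valued.v (1 - x0)) (Valued.v (x0 - 0)) := by
      have := Valuation.map_add (Valued.v : Valuation k Γ₀) (1 - x0) (x0 - 0)
      simpa using this
    have h3 : Valued.v (x0 - 0) < 1 := by
      rw [← Valuation.map_neg]
      simpa using h0
    have h4 : Valued.v (1 : k) < 1 := lt_of_le_of_lt h2 (max_lt h1 h3)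
    simp at h4
  rw [← hcard]
  exact Finset.one_lt_card.mpr ⟨x0, hx0, x1, hx1, hne⟩

/-- `glAut` of the identity is the identity. -/
theorem glAut_refl {R : Type} [CommRing R] (x : GL (Fin 2) R) :
    glAut (RingEquiv.refl R) x = x := by
  apply Units.ext
  ext a b
  rfl

/-- The sum of the two Cartan exponents is the order of the determinant. -/
theorem cartan_sum {k : Type} [Field k] [Valued k Γ₀] (g : GL (Fin 2) k) :
    (cartan g).1 + (cartan g).2 = - WithZero.log (Valued.v (g : Matrix (Fin 2) (Fin 2) k).det) := by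
  unfold cartan
  ring

/-- The determinant is constant on conjugacy classes. -/
theorem det_conj {k : Type} [Field k] (γ x : GL (Fin 2) k) :
    ((x⁻¹ * γ * x : GL (Fin 2) k) : Matrix (Fin 2) (Fin 2) k).det
      = (γ : Matrix (Fin 2) (Fin 2) k).det := by
  have h1 : ((x⁻¹ * γ * x : GL (Fin 2) k) : Matrix (Fin 2) (Fin 2) k)
      = ((x⁻¹ : GL (Fin 2) k) : Matrix (Fin 2) (Fin 2) k) * (γ : Matrix (Fin 2) (Fin 2) k)
        * (x : Matrix (Fin 2) (Fin 2) k) := rfl
  have h2 : ((x⁻¹ : GL (Fin 2) k) : Matrix (Fin 2) (Fin 2) k).det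
      * (x : Matrix (Fin 2) (Fin 2) k).det = 1 := by
    rw [← Matrix.det_mul]
    have : ((x⁻¹ : GL (Fin 2) k) : Matrix (Fin 2) (Fin 2) k) * (x : Matrix (Fin 2) (Fin 2) k)
        = 1 := Units.inv_mul x
    rw [this, Matrix.det_one]
  rw [h1, Matrix.det_mul, Matrix.det_mul]
  linear_combination (γ : Matrix (Fin 2) (Fin 2) k).det * h2

/-! ## The top -/

/-- **`FLVanishC` from its three sub-leaves.** -/
theorem flVanish_of (ha : SupportC) (hb : HypVanishC) (hc : NormCritC) : FLVanishC := by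
  intro k k' _ _ _ _ q l i s hk hk' hext hl φ f hφ hf hbc γ c' hreg hnn horb
  by_cases h1 : (l : ℤ) ∣ WithZero.log (Valued.v (γ : Matrix (Fin 2) (Fin 2) k).det)
  · by_cases h2 : ∀ t : k, t ^ 2 - (γ : Matrix (Fin 2) (Fin 2) k).trace * t
        + (γ : Matrix (Fin 2) (Fin 2) k).det = 0 → (l : ℤ) ∣ WithZero.log (Valued.v t)
    · exact absurd (hc k k' q l i s hk hk' hext hl γ hreg h1 h2) hnn
    · rw [not_forall] at h2
      obtain ⟨t, h2'⟩ := h2
      rw [Classical.not_imp] at h2'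
      obtain ⟨ht, hlt⟩ := h2'
      exact hb k q l hk hl.pos φ f hφ hf hbc γ c' t hreg ht hlt horb
  · obtain ⟨R, hR1, -, -, hsum⟩ := horb
    rw [hsum]
    apply Finset.sum_eq_zero
    intro y hy
    obtain ⟨x, rfl⟩ := hR1 y hy
    have hsupp : cartan (x⁻¹ * γ * glAut (RingEquiv.refl k) x) ∉ f.support := by
      intro hmem
      have h3 := ha l q hl.pos (one_lt_of_isLocalField hk) φ f hφ hf hbc _ hmem
      rw [cartan_sum, glAut_refl, det_conj, dvd_neg] at h3
      exact h1 h3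
    have hzero : f (cartan (x⁻¹ * γ * glAut (RingEquiv.refl k) x)) = 0 :=
      Finsupp.notMem_support_iff.mp hsupp
    simp only [hzero, zero_mul]

end Fermat.Agent.LT.T6.H159

end

end
-- ===== PACK-END LT/T6/H159/VanishSpec.lean

-- ===== PACK-BEGIN LT/A2/H312/SACompact.lean
section




/-!
# Row LT, tower A2, leaf A2.03.1.1.10.09 (helper312): strong approximation

Mathlib + A0 only.  OFF-MAIN.

* `compact_bounds_sa312`: a compact set of adeles is integral outside a finite set of places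
  and bounded at every place.
* `strong_approx312`: if `𝔸_K = K + C` with `C` compact, then for every adele `x`, every infinite
  place `u`, every `ε > 0` and every nonzero integer `d` there is `k ∈ K` such that `x - k` is
  smaller than `ε` at every infinite place `≠ u` and divisible by `d` at every finite place.
-/

set_option autoImplicit false
set_option linter.unusedSectionVars false

open IsDedekindDomain NumberField Filter Topology
open scoped NNReal
open Fermat.Agent.LT.H556.A0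

noncomputable section

namespace Fermat.Agent.LT.A2.H312

variable {K : Type} [Field K] [NumberField K]

theorem continuous_finC (u : HeightOneSpectrum (𝓞 K)) :
    Continuous (fun y : Adl K => y.2 u) :=
  (RestrictedProduct.continuous_eval u).comp continuous_snd

theorem continuous_infC (w : InfinitePlace K) :
    Continuous (fun y : Adl K => y.1 w) :=
  (continuous_apply w).comp continuous_fst

/-- a compact set of adeles is integral outside a finite set of places -/
theorem exists_finset_integral_sa312 {E : Set (Adl K)} (hE : IsCompact E) :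
    ∃ S : Finset (HeightOneSpectrum (𝓞 K)), ∀ y ∈ E, ∀ u ∉ S, ‖y.2 u‖ ≤ 1 := by
  classical
  have hE' : IsCompact ((fun y : Adl K => y.2) '' E) := hE.image continuous_snd
  let U : Finset (HeightOneSpectrum (𝓞 K)) → Set (FiniteAdeleRing (𝓞 K) K) :=
    fun S => {f | ∀ u : HeightOneSpectrum (𝓞 K), u ∉ S →
      f.1 u ∈ (u.adicCompletionIntegers K : Set (u.adicCompletion K))}
  have hUo : ∀ S, IsOpen (U S) := fun S =>
    RestrictedProduct.isOpen_forall_imp_mem
      (fun u : HeightOneSpectrum (𝓞 K) => Valued.isOpen_valuationSubring (u.adicCompletion K))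
  have hcov : (fun y : Adl K => y.2) '' E ⊆ ⋃ S, U S := by
    intro f _
    have hf : {u : HeightOneSpectrum (𝓞 K) |
        ¬ f.1 u ∈ (u.adicCompletionIntegers K : Set (u.adicCompletion K))}.Finite := f.2
    refine Set.mem_iUnion.2 ⟨hf.toFinset, ?_⟩
    intro u hu
    by_contra hcon
    exact hu (hf.mem_toFinset.2 hcon)
  have hdir : Directed (fun x1 x2 => x1 ⊆ x2) U := by
    intro S S'
    refine ⟨S ∪ S', ?_, ?_⟩
    · intro f hf u hu
      exact hf u (fun h => hu (Finset.mem_union_left _ h))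
    · intro f hf u hu
      exact hf u (fun h => hu (Finset.mem_union_right _ h))
  obtain ⟨S, hS⟩ := hE'.elim_directed_cover U hUo hcov hdir
  refine ⟨S, fun y hy u hu => ?_⟩
  have := hS (Set.mem_image_of_mem _ hy) u hu
  rw [Valued.toNormedField.norm_le_one_iff]
  exact (HeightOneSpectrum.mem_adicCompletionIntegers (𝓞 K) K u).1 this

theorem exists_bound_fin_sa312 {E : Set (Adl K)} (hE : IsCompact E)
    (u : HeightOneSpectrum (𝓞 K)) : ∃ M : ℝ, 1 ≤ M ∧ ∀ y ∈ E, ‖y.2 u‖ ≤ M := by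
  obtain ⟨C, hC⟩ := hE.exists_bound_of_continuousOn (f := fun y : Adl K => y.2 u)
    (continuous_finC u).continuousOn
  exact ⟨max C 1, le_max_right _ _, fun y hy => le_trans (hC y hy) (le_max_left _ _)⟩

theorem exists_bound_inf_sa312 {E : Set (Adl K)} (hE : IsCompact E) (w : InfinitePlace K) :
    ∃ M : ℝ, 1 ≤ M ∧ ∀ y ∈ E, ‖y.1 w‖ ≤ M := by
  obtain ⟨C, hC⟩ := hE.exists_bound_of_continuousOn (f := fun y : Adl K => y.1 w)
    (continuous_infC w).continuousOn
  exact ⟨max C 1, le_max_right _ _, fun y hy => le_trans (hC y hy) (le_max_left _ _)⟩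

/-- packaged bounds for a compact subset of the adeles: one bound `Mf v ≥ 1` at every finite
place, equal to `1` outside a finite set, and one bound `Mi w ≥ 1` at every infinite place -/
theorem compact_bounds_sa312 {E : Set (Adl K)} (hE : IsCompact E) :
    ∃ (S : Finset (HeightOneSpectrum (𝓞 K))) (Mf : HeightOneSpectrum (𝓞 K) → ℝ)
      (Mi : InfinitePlace K → ℝ),
      (∀ u, 1 ≤ Mf u) ∧ (∀ w, 1 ≤ Mi w) ∧
      (∀ y ∈ E, ∀ u ∉ S, ‖y.2 u‖ ≤ 1) ∧ (∀ y ∈ E, ∀ u, ‖y.2 u‖ ≤ Mf u) ∧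
      (∀ y ∈ E, ∀ w, ‖y.1 w‖ ≤ Mi w) := by
  obtain ⟨S, hS⟩ := exists_finset_integral_sa312 hE
  choose Mf hMf1 hMf2 using exists_bound_fin_sa312 (K := K) hE
  choose Mi hMi1 hMi2 using exists_bound_inf_sa312 (K := K) hE
  exact ⟨S, Mf, Mi, hMf1, hMi1, hS, fun y hy u => hMf2 u y hy, fun y hy w => hMi2 w y hy⟩

/-! ## components of a principal adele -/

theorem fin_algebraMap (v : HeightOneSpectrum (𝓞 K)) (x : K) :
    (algebraMap K (Adl K) x).2 v = algebraMap K (v.adicCompletion K) x := rfl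

theorem fin_mul (v : HeightOneSpectrum (𝓞 K)) (x y : Adl K) :
    (x * y).2 v = x.2 v * y.2 v := rfl

theorem inf_mul (w : InfinitePlace K) (x y : Adl K) :
    (x * y).1 w = x.1 w * y.1 w := rfl

theorem norm_inf_algebraMap (w : InfinitePlace K) (x : K) :
    ‖(algebraMap K (Adl K) x).1 w‖ = w x := by
  have h := InfinitePlace.Completion.norm_coe (v := w) ((WithAbs.equiv w.1).symm x)
  simp only [RingEquiv.apply_symm_apply] at h
  exact h

theorem norm_fin_algebraMap_int (v : HeightOneSpectrum (𝓞 K)) (a : 𝓞 K) :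
    ‖(algebraMap K (Adl K) (a : K)).2 v‖ = nrmF v a := rfl

/-! ## strong approximation -/

/-- **strong approximation** (Cassels–Fröhlich II.15) from the compactness of `𝔸_K / K` -/
theorem strong_approx312 {C : Set (Adl K)} (hC : IsCompact C)
    (hcov : ∀ x : Adl K, ∃ ξ : K, x - algebraMap K (Adl K) ξ ∈ C) (u : InfinitePlace K)
    {ε : ℝ} (hε : 0 < ε) {d : 𝓞 K} (hd : d ≠ 0) (x : Adl K) :
    ∃ k : K, (∀ w : InfinitePlace K, w ≠ u → ‖(x - algebraMap K (Adl K) k).1 w‖ < ε) ∧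
      ∀ v : HeightOneSpectrum (𝓞 K), ‖(x - algebraMap K (Adl K) k).2 v‖ ≤ nrmF v d := by
  classical
  obtain ⟨S, Mf, Mi, hMf, hMi, hS, hbf, hbi⟩ := compact_bounds_sa312 hC
  obtain ⟨D, hD0, hD⟩ := exists_small_fin312 S Mf hMf
  have hdD : (d * D : 𝓞 K) ≠ 0 := mul_ne_zero hd hD0
  have hdDK : ((d * D : 𝓞 K) : K) ≠ 0 := RingOfIntegers.coe_ne_zero_iff.mpr hdD
  -- the Minkowski element
  have hfpos : ∀ w : InfinitePlace K, 0 < ε / (Mi w * w ((d * D : 𝓞 K) : K)) := by
    intro w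
    have h1 : 0 < Mi w := lt_of_lt_of_le zero_lt_one (hMi w)
    have h2 : 0 < w ((d * D : 𝓞 K) : K) := InfinitePlace.pos_iff.mpr hdDK
    positivity
  obtain ⟨a, ha0, ha⟩ := exists_small_inf312 u _ hfpos
  set lam : 𝓞 K := d * D * a with hlam
  have hlam0 : (lam : K) ≠ 0 :=
    RingOfIntegers.coe_ne_zero_iff.mpr (mul_ne_zero hdD ha0)
  -- the covering
  obtain ⟨ξ, hξ⟩ := hcov (x * algebraMap K (Adl K) ((lam : K)⁻¹))
  set c : Adl K := x * algebraMap K (Adl K) ((lam : K)⁻¹) - algebraMap K (Adl K) ξ with hc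
  have hx : x - algebraMap K (Adl K) ((lam : K) * ξ) = algebraMap K (Adl K) (lam : K) * c := by
    rw [hc, mul_sub, map_mul]
    have : algebraMap K (Adl K) (lam : K) * (x * algebraMap K (Adl K) ((lam : K)⁻¹)) = x := by
      rw [mul_comm x, ← mul_assoc, ← map_mul, mul_inv_cancel₀ hlam0, map_one, one_mul]
    rw [this]
  refine ⟨(lam : K) * ξ, fun w hw => ?_, fun v => ?_⟩
  · rw [hx, inf_mul, norm_mul, norm_inf_algebraMap]
    have h1 : 0 < Mi w := lt_of_lt_of_le zero_lt_one (hMi w)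
    have h2 : 0 < w ((d * D : 𝓞 K) : K) := InfinitePlace.pos_iff.mpr hdDK
    have h3 : w (lam : K) = w ((d * D : 𝓞 K) : K) * w (a : K) := by
      rw [hlam]
      push_cast
      rw [map_mul, map_mul]
    have h4 := ha w hw
    have h5 : ‖c.1 w‖ ≤ Mi w := hbi c hξ w
    have h6 : w (a : K) * (Mi w * w ((d * D : 𝓞 K) : K)) < ε := by
      rwa [lt_div_iff₀ (mul_pos h1 h2)] at h4
    calc w (lam : K) * ‖c.1 w‖ ≤ w (lam : K) * Mi w :=
          mul_le_mul_of_nonneg_left h5 (apply_nonneg w _)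
      _ = w (a : K) * (Mi w * w ((d * D : 𝓞 K) : K)) := by rw [h3]; ring
      _ < ε := h6
  · rw [hx, fin_mul, norm_mul, norm_fin_algebraMap_int, hlam, nrmF_mul, nrmF_mul]
    have ha1 := nrmF_le_one v a
    have hD1 := nrmF_le_one v D
    have hn0 := nrmF_nonneg v d
    have hnD := nrmF_nonneg v D
    have hna := nrmF_nonneg v a
    have hc0 := norm_nonneg (c.2 v)
    have key : nrmF v D * ‖c.2 v‖ ≤ 1 := by
      by_cases hv : v ∈ S
      · calc nrmF v D * ‖c.2 v‖ ≤ nrmF v D * Mf v :=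
              mul_le_mul_of_nonneg_left (hbf c hξ v) hnD
          _ ≤ 1 := hD v hv
      · calc nrmF v D * ‖c.2 v‖ ≤ 1 * 1 := mul_le_mul hD1 (hS c hξ v hv) hc0 zero_le_one
          _ = 1 := one_mul 1
    calc nrmF v d * nrmF v D * nrmF v a * ‖c.2 v‖
        = nrmF v d * (nrmF v a * (nrmF v D * ‖c.2 v‖)) := by ring
      _ ≤ nrmF v d * (1 * 1) :=
          mul_le_mul_of_nonneg_left
            (mul_le_mul ha1 key (mul_nonneg hnD hc0) zero_le_one) hn0
      _ = nrmF v d := by ring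

end Fermat.Agent.LT.A2.H312

end
end
-- ===== PACK-END LT/A2/H312/SACompact.lean

-- ===== PACK-BEGIN LT/A2/H751/LocalCont.lean
section



/-!
# Row LT, tower A2, leaf A2.13 (helper751): continuity of families supported at one infinite place

OFF-MAIN.  Imports Mathlib + `LT/H556/A0.lean` (byte-identical copy of helper556@0fa0be5a0).

A family `Y : X → GL₂(𝔸_K)` of elements supported at ONE infinite place `w` whose component at `w`
(transported to `ℂ`) is continuous with determinant `1` is continuous for the topology of `A0.G K`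
(units of the matrix ring of the adeles).  In particular the Euler-angle family of
`A0.MeanValueComplex` is continuous, although it is only given relationally.
-/

set_option autoImplicit false

open IsDedekindDomain NumberField

noncomputable section

namespace Fermat.Agent.LT.A2.H751

open Fermat.Agent.LT.H556

variable {K : Type} [Field K] [NumberField K]

/-! ## Components as ring homomorphisms -/

/-- The component at the infinite place `w`, as a ring homomorphism. -/
def prInf751 (w : InfinitePlace K) : A0.Adl K →+* w.Completion where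
  toFun x := x.1 w
  map_one' := rfl
  map_mul' _ _ := rfl
  map_zero' := rfl
  map_add' _ _ := rfl

/-- The component at the finite place `v`, as a ring homomorphism. -/
def prFin751 (v : HeightOneSpectrum (𝓞 K)) : A0.Adl K →+* v.adicCompletion K where
  toFun x := x.2 v
  map_one' := rfl
  map_mul' _ _ := rfl
  map_zero' := rfl
  map_add' _ _ := rfl

/-- The component at the infinite place `w`, transported to `ℂ`. -/
def cInf751 (w : InfinitePlace K) : A0.Adl K →+* ℂ :=
  (InfinitePlace.Completion.extensionEmbedding w).comp (prInf751 w)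

theorem infComp_eq_map751 (w : InfinitePlace K) (g : A0.G K) :
    A0.infComp w g = (g : Matrix (Fin 2) (Fin 2) (A0.Adl K)).map (cInf751 w) := rfl

theorem finComp_eq_map751 (v : HeightOneSpectrum (𝓞 K)) (g : A0.G K) :
    A0.finComp v g = (g : Matrix (Fin 2) (Fin 2) (A0.Adl K)).map (prFin751 v) := rfl

theorem infComp_mul751 (w : InfinitePlace K) (g h : A0.G K) :
    A0.infComp w (g * h) = A0.infComp w g * A0.infComp w h := by
  rw [infComp_eq_map751, infComp_eq_map751, infComp_eq_map751, Units.val_mul, Matrix.map_mul]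

theorem infComp_one751 (w : InfinitePlace K) : A0.infComp w (1 : A0.G K) = 1 := by
  rw [infComp_eq_map751, Units.val_one, Matrix.map_one _ (map_zero _) (map_one _)]

theorem finComp_mul751 (v : HeightOneSpectrum (𝓞 K)) (g h : A0.G K) :
    A0.finComp v (g * h) = A0.finComp v g * A0.finComp v h := by
  rw [finComp_eq_map751, finComp_eq_map751, finComp_eq_map751, Units.val_mul, Matrix.map_mul]

theorem finComp_one751 (v : HeightOneSpectrum (𝓞 K)) : A0.finComp v (1 : A0.G K) = 1 := by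
  rw [finComp_eq_map751, Units.val_one, Matrix.map_one _ (map_zero _) (map_one _)]

/-- The matrix of `g` at the infinite place `w` (in the completion). -/
def mInf751 (w : InfinitePlace K) (g : A0.G K) : Matrix (Fin 2) (Fin 2) w.Completion :=
  (g : Matrix (Fin 2) (Fin 2) (A0.Adl K)).map (prInf751 w)

theorem mInf_mul751 (w : InfinitePlace K) (g h : A0.G K) :
    mInf751 w (g * h) = mInf751 w g * mInf751 w h := by
  rw [mInf751, mInf751, mInf751, Units.val_mul, Matrix.map_mul]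

theorem mInf_one751 (w : InfinitePlace K) : mInf751 w (1 : A0.G K) = 1 := by
  rw [mInf751, Units.val_one, Matrix.map_one _ (map_zero _) (map_one _)]

theorem trivAtInf_iff751 (w : InfinitePlace K) (g : A0.G K) :
    A0.TrivAtInf w g ↔ mInf751 w g = 1 := by
  constructor
  · intro h
    exact Matrix.ext fun i j => h i j
  · intro h i j
    exact congrFun (congrFun h i) j

theorem trivAtInf_inv751 (w : InfinitePlace K) (g : A0.G K) (h : A0.TrivAtInf w g) :
    A0.TrivAtInf w g⁻¹ := by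
  rw [trivAtInf_iff751] at h ⊢
  have h1 : mInf751 w g⁻¹ * mInf751 w g = 1 := by
    rw [← mInf_mul751, inv_mul_cancel, mInf_one751]
  rwa [h, mul_one] at h1

theorem trivAtFin_inv751 (v : HeightOneSpectrum (𝓞 K)) (g : A0.G K) (h : A0.TrivAtFin v g) :
    A0.TrivAtFin v g⁻¹ := by
  unfold A0.TrivAtFin at h ⊢
  have h1 : A0.finComp v g⁻¹ * A0.finComp v g = 1 := by
    rw [← finComp_mul751, inv_mul_cancel, finComp_one751]
  rwa [h, mul_one] at h1

theorem isLocalAtInf_inv751 (w : InfinitePlace K) (g : A0.G K) (h : A0.IsLocalAtInf w g) :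
    A0.IsLocalAtInf w g⁻¹ :=
  ⟨fun w' hw' => trivAtInf_inv751 w' g (h.1 w' hw'), fun v => trivAtFin_inv751 v g (h.2 v)⟩

theorem infComp_inv751 (w : InfinitePlace K) (g : A0.G K) (hdet : (A0.infComp w g).det = 1) :
    A0.infComp w g⁻¹ = (A0.infComp w g).adjugate := by
  have h1 : A0.infComp w g⁻¹ * A0.infComp w g = 1 := by
    rw [← infComp_mul751, inv_mul_cancel, infComp_one751]
  have h2 : (A0.infComp w g)⁻¹ = A0.infComp w g⁻¹ := Matrix.inv_eq_left_inv h1
  rw [← h2, Matrix.inv_def, hdet, Ring.inverse_one, one_smul]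

/-! ## Continuity -/

theorem one_apply_snd751 (i j : Fin 2) (v : HeightOneSpectrum (𝓞 K)) :
    ((1 : Matrix (Fin 2) (Fin 2) (A0.Adl K)) i j).2 v
      = (1 : Matrix (Fin 2) (Fin 2) (v.adicCompletion K)) i j := by
  by_cases h : i = j
  · subst h
    rw [Matrix.one_apply_eq, Matrix.one_apply_eq]
    rfl
  · rw [Matrix.one_apply_ne h, Matrix.one_apply_ne h]
    rfl

/-- The matrix of a family supported at `w` with continuous component at `w` is continuous. -/
theorem continuous_val_of_local751 {X : Type*} [TopologicalSpace X] (w : InfinitePlace K)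
    (Y : X → A0.G K) (hloc : ∀ x, A0.IsLocalAtInf w (Y x))
    (hcont : Continuous fun x => A0.infComp w (Y x)) :
    Continuous fun x => (Y x : Matrix (Fin 2) (Fin 2) (A0.Adl K)) := by
  refine continuous_matrix fun i j => ?_
  have hfst : Continuous fun x => ((Y x : Matrix (Fin 2) (Fin 2) (A0.Adl K)) i j).1 := by
    refine continuous_pi fun w' => ?_
    by_cases hw : w' = w
    · subst hw
      have hi := (InfinitePlace.Completion.isometry_extensionEmbedding w').isUniformInducing.isInducing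
      rw [hi.continuous_iff]
      exact (continuous_apply_apply i j).comp hcont
    · have h1 : (fun x => ((Y x : Matrix (Fin 2) (Fin 2) (A0.Adl K)) i j).1 w')
          = fun _ => (1 : Matrix (Fin 2) (Fin 2) w'.Completion) i j :=
        funext fun x => (hloc x).1 w' hw i j
      rw [h1]
      exact continuous_const
  have hsnd : Continuous fun x => ((Y x : Matrix (Fin 2) (Fin 2) (A0.Adl K)) i j).2 := by
    have h1 : (fun x => ((Y x : Matrix (Fin 2) (Fin 2) (A0.Adl K)) i j).2)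
        = fun _ => ((1 : Matrix (Fin 2) (Fin 2) (A0.Adl K)) i j).2 := by
      funext x
      refine DFunLike.ext _ _ fun v => ?_
      rw [one_apply_snd751]
      exact congrFun (congrFun ((hloc x).2 v) i) j
    rw [h1]
    exact continuous_const
  exact hfst.prodMk hsnd

/-- **Continuity criterion.**  A family of elements of `GL₂(𝔸_K)` supported at the infinite place
`w` whose component at `w` is continuous of determinant `1` is continuous. -/
theorem continuous_of_local751 {X : Type*} [TopologicalSpace X] (w : InfinitePlace K)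
    (Y : X → A0.G K) (hloc : ∀ x, A0.IsLocalAtInf w (Y x))
    (hcont : Continuous fun x => A0.infComp w (Y x))
    (hdet : ∀ x, (A0.infComp w (Y x)).det = 1) : Continuous Y := by
  rw [Units.continuous_iff]
  refine ⟨continuous_val_of_local751 w Y hloc hcont, ?_⟩
  have h2 : (fun x => A0.infComp w (Y x)⁻¹) = fun x => (A0.infComp w (Y x)).adjugate :=
    funext fun x => infComp_inv751 w (Y x) (hdet x)
  exact continuous_val_of_local751 w (fun x => (Y x)⁻¹)
    (fun x => isLocalAtInf_inv751 w _ (hloc x)) (by rw [h2]; exact hcont.matrix_adjugate)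

end Fermat.Agent.LT.A2.H751

end

end
-- ===== PACK-END LT/A2/H751/LocalCont.lean

-- ===== PACK-BEGIN LT/A2/H139/GaussLat.lean
section



/-!
# Row LT, tower A2, sub-leaf A2.03.4.2 (GaussSumC), part 2: Gaussian lattice sums (helper139)

OFF-MAIN.  Mathlib only (plus part 1).  Gaussian sums over a discrete subgroup of a finite
dimensional normed space converge (`summable_exp_lattice139`); Gaussian sums over the rational
vectors `ξ ∈ K²` whose finite adeles lie in a compact set: summability and the bound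
`σ^N ∑_{ξ ≠ 0} ≤ C` uniformly in `σ ≥ σ₀` (`gaussSum_core139`).
-/

set_option autoImplicit false

open IsDedekindDomain NumberField
open scoped Classical

noncomputable section

namespace Fermat.Agent.LT.A2.H139

/-- Gaussian sums over a discrete subgroup of a finite-dimensional normed space converge. -/
theorem summable_exp_lattice139 {E : Type*} [NormedAddCommGroup E] [NormedSpace ℝ E]
    [FiniteDimensional ℝ E] (L : Submodule ℤ E) [DiscreteTopology L] (c : ℝ) (hc : 0 < c) :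
    Summable fun z : L => Real.exp (-(c * ‖(z : E)‖ ^ 2)) := by
  classical
  set n : ℕ := Module.finrank ℤ L + 1 with hn
  have h2n : Module.finrank ℤ L < 2 * n := by omega
  have hs1 : Summable fun z : L => (n.factorial / c ^ n : ℝ) * ‖z‖⁻¹ ^ (2 * n) :=
    (ZLattice.summable_norm_pow_inv L (2 * n) h2n).mul_left _
  have hs2 : Summable fun z : L => if z = 0 then (1 : ℝ) else 0 :=
    (hasSum_ite_eq (0 : L) (1 : ℝ)).summable
  refine Summable.of_nonneg_of_le (fun z => (Real.exp_pos _).le) (fun z => ?_) (hs1.add hs2)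
  by_cases hz : z = 0
  · subst hz
    have h0 : (0 : ℝ) ≤ (n.factorial / c ^ n : ℝ) * ‖(0 : L)‖⁻¹ ^ (2 * n) := by positivity
    simp
  · have ht : 0 < ‖(z : E)‖ := by
      rw [norm_pos_iff]
      exact fun h => hz (Subtype.ext h)
    have hx : 0 ≤ c * ‖(z : E)‖ ^ 2 := by positivity
    have h1 := Real.pow_div_factorial_le_exp _ hx n
    have hpos : 0 < (c * ‖(z : E)‖ ^ 2) ^ n / (n.factorial : ℝ) := by positivity
    have h2 : Real.exp (-(c * ‖(z : E)‖ ^ 2))
        ≤ (n.factorial / c ^ n : ℝ) * ‖z‖⁻¹ ^ (2 * n) := by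
      rw [Real.exp_neg]
      calc (Real.exp (c * ‖(z : E)‖ ^ 2))⁻¹
          ≤ ((c * ‖(z : E)‖ ^ 2) ^ n / (n.factorial : ℝ))⁻¹ := inv_anti₀ hpos h1
        _ = (n.factorial / c ^ n : ℝ) * ‖z‖⁻¹ ^ (2 * n) := by
            have hnorm : ‖z‖ = ‖(z : E)‖ := rfl
            rw [hnorm]
            have hc' : c ≠ 0 := hc.ne'
            have ht' : ‖(z : E)‖ ≠ 0 := ht.ne'
            have h3 : ‖(z : E)‖⁻¹ ^ (2 * n) = ((‖(z : E)‖ ^ 2) ^ n)⁻¹ := by
              rw [inv_pow, pow_mul]
            rw [h3, inv_div, mul_pow]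
            field_simp
    simpa [hz] using h2

variable (K : Type) [Field K] [NumberField K]

/-- `q(ξ) = ∑_w ‖ξ‖_w²` (sum over the infinite places, norms not normalised). -/
def q139 (ξ : K) : ℝ := ∑ w : InfinitePlace K, (w ξ) ^ 2

theorem q139_nonneg (ξ : K) : 0 ≤ q139 K ξ := Finset.sum_nonneg fun _ _ => sq_nonneg _

theorem norm_sq_le_q139 (ξ : K) : ‖mixedEmbedding K ξ‖ ^ 2 ≤ q139 K ξ := by
  classical
  rw [mixedEmbedding.norm_eq_sup'_normAtPlace]
  obtain ⟨w, -, hw⟩ := Finset.exists_mem_eq_sup' Finset.univ_nonempty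
    (fun w : InfinitePlace K => mixedEmbedding.normAtPlace w (mixedEmbedding K ξ))
  rw [hw, mixedEmbedding.normAtPlace_apply]
  exact Finset.single_le_sum (f := fun w : InfinitePlace K => (w ξ) ^ 2)
    (fun w _ => sq_nonneg _) (Finset.mem_univ w)

theorem q139_natCast_mul (M : ℕ) (ξ : K) : q139 K ((M : K) * ξ) = (M : ℝ) ^ 2 * q139 K ξ := by
  unfold q139
  rw [Finset.mul_sum]
  refine Finset.sum_congr rfl fun w _ => ?_
  rw [map_mul, InfinitePlace.map_natCast, mul_pow]

/-- A nonzero algebraic integer has `q ≥ 1`. -/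
theorem one_le_q139 (a : 𝓞 K) (ha : a ≠ 0) : 1 ≤ q139 K (a : K) := by
  classical
  obtain ⟨w, hw⟩ : ∃ w : InfinitePlace K, 1 ≤ w (a : K) := by
    by_contra hcon
    push Not at hcon
    obtain ⟨w₀⟩ : Nonempty (InfinitePlace K) := inferInstance
    exact absurd (InfinitePlace.one_le_of_lt_one ha fun z _ => hcon z) (not_le.mpr (hcon w₀))
  have h1 : (w (a : K)) ^ 2 ≤ q139 K (a : K) :=
    Finset.single_le_sum (f := fun w : InfinitePlace K => (w (a : K)) ^ 2)
      (fun w _ => sq_nonneg _) (Finset.mem_univ w)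
  nlinarith

theorem summable_exp_integers139 (c : ℝ) (hc : 0 < c) :
    Summable fun a : 𝓞 K => Real.exp (-(c * q139 K (a : K))) := by
  have h1 := summable_exp_lattice139 (mixedEmbedding.integerLattice K) c hc
  let j : 𝓞 K → mixedEmbedding.integerLattice K := fun a =>
    ⟨mixedEmbedding K (a : K), LinearMap.mem_range.mpr ⟨a, rfl⟩⟩
  have hj : Function.Injective j := by
    intro a b hab
    have h2 : mixedEmbedding K (a : K) = mixedEmbedding K (b : K) := congrArg Subtype.val hab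
    exact RingOfIntegers.coe_injective (mixedEmbedding_injective K h2)
  refine Summable.of_nonneg_of_le (fun a => (Real.exp_pos _).le) (fun a => ?_)
    (h1.comp_injective hj)
  simp only [Function.comp, j]
  apply Real.exp_le_exp.mpr
  have h3 := norm_sq_le_q139 K (a : K)
  nlinarith

/-- The one-variable Gaussian on `M⁻¹ 𝒪_K`. -/
def gauss1_139 (M : ℕ) (c : ℝ) (ξ : K) : ℝ :=
  Set.indicator {ξ : K | ∃ a : 𝓞 K, (a : K) = (M : K) * ξ}
    (fun ξ => Real.exp (-(c * q139 K ξ))) ξ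

theorem gauss1_139_nonneg (M : ℕ) (c : ℝ) (ξ : K) : 0 ≤ gauss1_139 K M c ξ :=
  Set.indicator_nonneg (fun _ _ => (Real.exp_pos _).le) _

theorem summable_gauss1_139 (M : ℕ) (hM : M ≠ 0) (c : ℝ) (hc : 0 < c) :
    Summable (gauss1_139 K M c) := by
  have hMK : (M : K) ≠ 0 := Nat.cast_ne_zero.mpr hM
  have hMR : (M : ℝ) ≠ 0 := Nat.cast_ne_zero.mpr hM
  let j : 𝓞 K → K := fun a => (M : K)⁻¹ * (a : K)
  have hj : Function.Injective j := by
    intro a b hab
    exact RingOfIntegers.coe_injective (mul_left_cancel₀ (inv_ne_zero hMK) hab)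
  have hcomp : Summable (gauss1_139 K M c ∘ j) := by
    have h1 := summable_exp_integers139 K (c / (M : ℝ) ^ 2) (by positivity)
    refine h1.congr fun a => ?_
    have hmem : j a ∈ {ξ : K | ∃ a : 𝓞 K, (a : K) = (M : K) * ξ} :=
      ⟨a, by simp only [j]; rw [mul_inv_cancel_left₀ hMK]⟩
    have hq : q139 K (a : K) = (M : ℝ) ^ 2 * q139 K (j a) := by
      rw [← q139_natCast_mul]
      simp only [j]
      rw [mul_inv_cancel_left₀ hMK]
    simp only [Function.comp, gauss1_139, Set.indicator_of_mem hmem]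
    rw [hq]
    congr 2
    field_simp
  refine (Function.Injective.summable_iff hj fun ξ hξ => ?_).mp hcomp
  apply Set.indicator_of_notMem
  rintro ⟨a, ha⟩
  exact hξ ⟨a, by simp only [j]; rw [ha, inv_mul_cancel_left₀ hMK]⟩

/-- The Gaussian majorant on the rational vectors with finite part in `B`. -/
def gaussG139 (B : Set (FiniteAdeleRing (𝓞 K) K × FiniteAdeleRing (𝓞 K) K)) (δ σ : ℝ)
    (ξ : K × K) : ℝ :=
  Set.indicator {ξ : K × K | (algebraMap K (FiniteAdeleRing (𝓞 K) K) ξ.1,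
      algebraMap K (FiniteAdeleRing (𝓞 K) K) ξ.2) ∈ B}
    (fun ξ : K × K => Real.exp (-(δ * σ ^ 2 * (q139 K ξ.1 + q139 K ξ.2)))) ξ

theorem gaussG139_nonneg (B : Set (FiniteAdeleRing (𝓞 K) K × FiniteAdeleRing (𝓞 K) K))
    (δ σ : ℝ) (ξ : K × K) : 0 ≤ gaussG139 K B δ σ ξ :=
  Set.indicator_nonneg (fun _ _ => (Real.exp_pos _).le) _

/-- Bounded denominators for a compact set of pairs of finite adeles. -/
theorem exists_den_pair139 (B : Set (FiniteAdeleRing (𝓞 K) K × FiniteAdeleRing (𝓞 K) K))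
    (hB : IsCompact B) : ∃ M : ℕ, M ≠ 0 ∧ ∀ ξ : K × K,
      (algebraMap K (FiniteAdeleRing (𝓞 K) K) ξ.1,
        algebraMap K (FiniteAdeleRing (𝓞 K) K) ξ.2) ∈ B →
      (∃ a : 𝓞 K, (a : K) = (M : K) * ξ.1) ∧ (∃ b : 𝓞 K, (b : K) = (M : K) * ξ.2) := by
  obtain ⟨M₁, h₁, hM₁⟩ := exists_den_of_isCompact139 K (Prod.fst '' B) (hB.image continuous_fst)
  obtain ⟨M₂, h₂, hM₂⟩ := exists_den_of_isCompact139 K (Prod.snd '' B) (hB.image continuous_snd)
  refine ⟨M₁ * M₂, mul_ne_zero h₁ h₂, fun ξ hξ => ⟨?_, ?_⟩⟩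
  · exact exists_int_of_mem_denSet139 K ξ.1
      (denSet_mono139 K (dvd_mul_right M₁ M₂) (hM₁ ⟨_, hξ, rfl⟩))
  · exact exists_int_of_mem_denSet139 K ξ.2
      (denSet_mono139 K (dvd_mul_left M₂ M₁) (hM₂ ⟨_, hξ, rfl⟩))

theorem summable_gaussG139 (B : Set (FiniteAdeleRing (𝓞 K) K × FiniteAdeleRing (𝓞 K) K))
    (hB : IsCompact B) (δ σ : ℝ) (hδ : 0 < δ) (hσ : 0 < σ) : Summable (gaussG139 K B δ σ) := by
  obtain ⟨M, hM0, hM⟩ := exists_den_pair139 K B hB
  have hc : 0 < δ * σ ^ 2 := by positivity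
  have h1 := summable_gauss1_139 K M hM0 (δ * σ ^ 2) hc
  have h2 : Summable fun ξ : K × K =>
      gauss1_139 K M (δ * σ ^ 2) ξ.1 * gauss1_139 K M (δ * σ ^ 2) ξ.2 :=
    h1.mul_of_nonneg h1 (fun ξ => gauss1_139_nonneg K M _ ξ) (fun ξ => gauss1_139_nonneg K M _ ξ)
  refine Summable.of_nonneg_of_le (gaussG139_nonneg K B δ σ) (fun ξ => ?_) h2
  by_cases hξ : (algebraMap K (FiniteAdeleRing (𝓞 K) K) ξ.1,
      algebraMap K (FiniteAdeleRing (𝓞 K) K) ξ.2) ∈ B
  · obtain ⟨ha, hb⟩ := hM ξ hξ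
    have e1 : gaussG139 K B δ σ ξ = Real.exp (-(δ * σ ^ 2 * (q139 K ξ.1 + q139 K ξ.2))) :=
      Set.indicator_of_mem (s := {ξ : K × K | (algebraMap K (FiniteAdeleRing (𝓞 K) K) ξ.1,
        algebraMap K (FiniteAdeleRing (𝓞 K) K) ξ.2) ∈ B}) hξ _
    have e2 : gauss1_139 K M (δ * σ ^ 2) ξ.1 = Real.exp (-(δ * σ ^ 2 * q139 K ξ.1)) :=
      Set.indicator_of_mem (s := {ξ : K | ∃ a : 𝓞 K, (a : K) = (M : K) * ξ}) ha _
    have e3 : gauss1_139 K M (δ * σ ^ 2) ξ.2 = Real.exp (-(δ * σ ^ 2 * q139 K ξ.2)) :=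
      Set.indicator_of_mem (s := {ξ : K | ∃ a : 𝓞 K, (a : K) = (M : K) * ξ}) hb _
    rw [e1, e2, e3, ← Real.exp_add]
    apply le_of_eq
    congr 1
    ring
  · have e1 : gaussG139 K B δ σ ξ = 0 :=
      Set.indicator_of_notMem (s := {ξ : K × K | (algebraMap K (FiniteAdeleRing (𝓞 K) K) ξ.1,
        algebraMap K (FiniteAdeleRing (𝓞 K) K) ξ.2) ∈ B}) hξ _
    rw [e1]
    exact mul_nonneg (gauss1_139_nonneg K M _ _) (gauss1_139_nonneg K M _ _)

theorem pow_mul_exp_neg_le139 (N : ℕ) (a σ₀ : ℝ) (ha : 0 < a) (hσ₀ : 0 < σ₀) (σ : ℝ)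
    (hσ : σ₀ ≤ σ) :
    σ ^ N * Real.exp (-(a * σ ^ 2)) ≤ (N.factorial : ℝ) / (a ^ N * σ₀ ^ N) := by
  have hσpos : 0 < σ := lt_of_lt_of_le hσ₀ hσ
  have hx : 0 ≤ a * σ ^ 2 := by positivity
  have h1 := Real.pow_div_factorial_le_exp _ hx N
  have hpos : 0 < (a * σ ^ 2) ^ N / (N.factorial : ℝ) := by positivity
  have h2 : Real.exp (-(a * σ ^ 2)) ≤ ((a * σ ^ 2) ^ N / (N.factorial : ℝ))⁻¹ := by
    rw [Real.exp_neg]
    exact inv_anti₀ hpos h1
  have h3 : σ ^ N * ((a * σ ^ 2) ^ N / (N.factorial : ℝ))⁻¹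
      = (N.factorial : ℝ) / (a ^ N * σ ^ N) := by
    have ha' : a ≠ 0 := ha.ne'
    have hs' : σ ≠ 0 := hσpos.ne'
    rw [inv_div, mul_pow, ← pow_mul]
    field_simp
    ring
  have h4 : (N.factorial : ℝ) / (a ^ N * σ ^ N) ≤ (N.factorial : ℝ) / (a ^ N * σ₀ ^ N) := by
    apply div_le_div_of_nonneg_left (by positivity) (by positivity)
    exact mul_le_mul_of_nonneg_left (pow_le_pow_left₀ hσ₀.le hσ N) (by positivity)
  calc σ ^ N * Real.exp (-(a * σ ^ 2))
      ≤ σ ^ N * ((a * σ ^ 2) ^ N / (N.factorial : ℝ))⁻¹ :=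
        mul_le_mul_of_nonneg_left h2 (by positivity)
    _ = (N.factorial : ℝ) / (a ^ N * σ ^ N) := h3
    _ ≤ (N.factorial : ℝ) / (a ^ N * σ₀ ^ N) := h4

/-- **Core of A2.03.4.2.**  Gaussian sums over the rational vectors with finite part in a compact
set: summable, and `σ^N ·` (the sum over `ξ ≠ 0`) is bounded on `σ ≥ σ₀`. -/
theorem gaussSum_core139 (B : Set (FiniteAdeleRing (𝓞 K) K × FiniteAdeleRing (𝓞 K) K))
    (hB : IsCompact B) (N : ℕ) (δ σ₀ : ℝ) (hδ : 0 < δ) (hσ₀ : 0 < σ₀) :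
    ∃ C : ℝ, ∀ σ : ℝ, σ₀ ≤ σ →
      Summable (gaussG139 K B δ σ) ∧
      σ ^ N * ∑' ξ : K × K, Set.indicator {ξ : K × K | ξ ≠ 0} (gaussG139 K B δ σ) ξ ≤ C := by
  obtain ⟨M, hM0, hM⟩ := exists_den_pair139 K B hB
  have hMR : (0 : ℝ) < (M : ℝ) := Nat.cast_pos.mpr (Nat.pos_of_ne_zero hM0)
  set ρ : ℝ := 1 / (M : ℝ) ^ 2 with hρ
  have hρpos : 0 < ρ := by positivity
  have hS₀ := summable_gaussG139 K B hB δ σ₀ hδ hσ₀
  set S₀ : ℝ := ∑' ξ : K × K, gaussG139 K B δ σ₀ ξ with hS₀def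
  have hS₀nn : 0 ≤ S₀ := tsum_nonneg (gaussG139_nonneg K B δ σ₀)
  -- the lower bound of the quadratic form on the nonzero vectors
  have hq : ∀ ξ : K × K, ξ ≠ 0 →
      (algebraMap K (FiniteAdeleRing (𝓞 K) K) ξ.1,
        algebraMap K (FiniteAdeleRing (𝓞 K) K) ξ.2) ∈ B → ρ ≤ q139 K ξ.1 + q139 K ξ.2 := by
    intro ξ hξ0 hξB
    obtain ⟨⟨a, ha⟩, ⟨b, hb⟩⟩ := hM ξ hξB
    have key : ∀ (x : K) (c : 𝓞 K), (c : K) = (M : K) * x → x ≠ 0 → ρ ≤ q139 K x := by
      intro x c hc hx
      have hc0 : c ≠ 0 := by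
        rintro rfl
        have : (M : K) * x = 0 := by rw [← hc]; simp
        rcases mul_eq_zero.mp this with h | h
        · exact hM0 (Nat.cast_eq_zero.mp h)
        · exact hx h
      have h1 := one_le_q139 K c hc0
      rw [hc, q139_natCast_mul] at h1
      rw [hρ, div_le_iff₀ (by positivity)]
      linarith
    by_cases h1 : ξ.1 = 0
    · have h2 : ξ.2 ≠ 0 := fun h2 => hξ0 (Prod.ext h1 h2)
      have := key ξ.2 b hb h2
      have := q139_nonneg K ξ.1
      linarith
    · have := key ξ.1 a ha h1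
      have := q139_nonneg K ξ.2
      linarith
  refine ⟨(N.factorial : ℝ) / ((δ * ρ) ^ N * σ₀ ^ N) * Real.exp (δ * ρ * σ₀ ^ 2) * S₀,
    fun σ hσ => ?_⟩
  have hσpos : 0 < σ := lt_of_lt_of_le hσ₀ hσ
  have hsum := summable_gaussG139 K B hB δ σ hδ hσpos
  refine ⟨hsum, ?_⟩
  set E : ℝ := Real.exp (-(δ * (σ ^ 2 - σ₀ ^ 2) * ρ)) with hE
  have hsq : σ₀ ^ 2 ≤ σ ^ 2 := pow_le_pow_left₀ hσ₀.le hσ 2
  -- termwise comparison
  have hterm : ∀ ξ : K × K,
      Set.indicator {ξ : K × K | ξ ≠ 0} (gaussG139 K B δ σ) ξ ≤ E * gaussG139 K B δ σ₀ ξ := by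
    intro ξ
    have hRnn : 0 ≤ E * gaussG139 K B δ σ₀ ξ :=
      mul_nonneg (Real.exp_pos _).le (gaussG139_nonneg K B δ σ₀ ξ)
    by_cases hξ0 : ξ = 0
    · rw [Set.indicator_of_notMem (by simpa using hξ0)]
      exact hRnn
    rw [Set.indicator_of_mem (show ξ ∈ {ξ : K × K | ξ ≠ 0} from hξ0)]
    by_cases hξB : (algebraMap K (FiniteAdeleRing (𝓞 K) K) ξ.1,
        algebraMap K (FiniteAdeleRing (𝓞 K) K) ξ.2) ∈ B
    · have e1 : gaussG139 K B δ σ ξ = Real.exp (-(δ * σ ^ 2 * (q139 K ξ.1 + q139 K ξ.2))) :=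
        Set.indicator_of_mem (s := {ξ : K × K | (algebraMap K (FiniteAdeleRing (𝓞 K) K) ξ.1,
          algebraMap K (FiniteAdeleRing (𝓞 K) K) ξ.2) ∈ B}) hξB _
      have e2 : gaussG139 K B δ σ₀ ξ = Real.exp (-(δ * σ₀ ^ 2 * (q139 K ξ.1 + q139 K ξ.2))) :=
        Set.indicator_of_mem (s := {ξ : K × K | (algebraMap K (FiniteAdeleRing (𝓞 K) K) ξ.1,
          algebraMap K (FiniteAdeleRing (𝓞 K) K) ξ.2) ∈ B}) hξB _
      rw [e1, e2, hE, ← Real.exp_add]
      apply Real.exp_le_exp.mpr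
      have hqξ := hq ξ hξ0 hξB
      have h5 : 0 ≤ δ * (σ ^ 2 - σ₀ ^ 2) := mul_nonneg hδ.le (sub_nonneg.mpr hsq)
      nlinarith [mul_le_mul_of_nonneg_left hqξ h5]
    · have e1 : gaussG139 K B δ σ ξ = 0 :=
        Set.indicator_of_notMem (s := {ξ : K × K | (algebraMap K (FiniteAdeleRing (𝓞 K) K) ξ.1,
          algebraMap K (FiniteAdeleRing (𝓞 K) K) ξ.2) ∈ B}) hξB _
      rw [e1]
      exact hRnn
  have hind : Summable (Set.indicator {ξ : K × K | ξ ≠ 0} (gaussG139 K B δ σ)) :=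
    hsum.indicator _
  have htsum : ∑' ξ : K × K, Set.indicator {ξ : K × K | ξ ≠ 0} (gaussG139 K B δ σ) ξ
      ≤ E * S₀ := by
    rw [hS₀def, ← tsum_mul_left]
    exact Summable.tsum_le_tsum hterm hind (hS₀.mul_left E)
  have hEbound : σ ^ N * E
      ≤ (N.factorial : ℝ) / ((δ * ρ) ^ N * σ₀ ^ N) * Real.exp (δ * ρ * σ₀ ^ 2) := by
    have h6 := pow_mul_exp_neg_le139 N (δ * ρ) σ₀ (by positivity) hσ₀ σ hσ
    have h7 : E = Real.exp (-(δ * ρ * σ ^ 2)) * Real.exp (δ * ρ * σ₀ ^ 2) := by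
      rw [hE, ← Real.exp_add]
      congr 1
      ring
    rw [h7, ← mul_assoc]
    exact mul_le_mul_of_nonneg_right h6 (Real.exp_pos _).le
  calc σ ^ N * ∑' ξ : K × K, Set.indicator {ξ : K × K | ξ ≠ 0} (gaussG139 K B δ σ) ξ
      ≤ σ ^ N * (E * S₀) := mul_le_mul_of_nonneg_left htsum (by positivity)
    _ = σ ^ N * E * S₀ := by ring
    _ ≤ (N.factorial : ℝ) / ((δ * ρ) ^ N * σ₀ ^ N) * Real.exp (δ * ρ * σ₀ ^ 2) * S₀ :=
        mul_le_mul_of_nonneg_right hEbound hS₀nn

end Fermat.Agent.LT.A2.H139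

end
end
-- ===== PACK-END LT/A2/H139/GaussLat.lean

-- ===== PACK-BEGIN LT/T7/H671/Sieve.lean
section


/-!
# Row LT, tower T7, node T7.14, leaf `CountC`: an abstract sieve

OFF-MAIN (helper671).  Mathlib only.  Nothing assumed.

`X ⊆ E` a set with a gauge `γ`, `A v ⊆ E` (`v : I`) the sets to be removed.  If

* `{x ∈ X : γ x ≤ B}` is finite for every `B`,
* `#{x ∈ X : γ x ≤ B, x ∈ A v ∀ v ∈ T} / B² → α · ∏_{v ∈ T} β v` for every finite `T`,
* `#{x ∈ X : γ x ≤ B, x ∈ A v} ≤ δ v · B²` with `∑ δ v < ∞`, and `0 ≤ β v ≤ 1`,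

then `#{x ∈ X : γ x ≤ B, x ∉ A v ∀ v} / B² → α · L`, `L = lim_S ∏_{v ∈ S} (1 - β v)`
(`sieve_tendsto671`), and `L > 0` if moreover `β v < 1` and `∑ β v < ∞` (`sieve_limit_pos671`).
-/

set_option autoImplicit false

open Filter Topology

noncomputable section

namespace Fermat.Agent.LT.T7.H671

variable {E I : Type*}

/-- The sieved set: `x ∈ X`, `γ x ≤ B`, `x ∈ A v` for `v ∈ T`, `x ∉ A v` for `v ∈ S`. -/
def sv671 (X : Set E) (γ : E → ℝ) (A : I → Set E) (B : ℝ) (T S : Finset I) : Set E :=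
  {x | x ∈ X ∧ γ x ≤ B ∧ (∀ v ∈ T, x ∈ A v) ∧ ∀ v ∈ S, x ∉ A v}

/-- The fully sieved set. -/
def svAll671 (X : Set E) (γ : E → ℝ) (A : I → Set E) (B : ℝ) : Set E :=
  {x | x ∈ X ∧ γ x ≤ B ∧ ∀ v, x ∉ A v}

variable {X : Set E} {γ : E → ℝ} {A : I → Set E}

theorem sv671_subset (B : ℝ) (T S : Finset I) :
    sv671 X γ A B T S ⊆ {x | x ∈ X ∧ γ x ≤ B} := fun _ hx => ⟨hx.1, hx.2.1⟩

theorem sv671_finite (hfin : ∀ B : ℝ, {x | x ∈ X ∧ γ x ≤ B}.Finite) (B : ℝ) (T S : Finset I) :
    (sv671 X γ A B T S).Finite := (hfin B).subset (sv671_subset B T S)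

theorem sv671_split [DecidableEq I] (hfin : ∀ B : ℝ, {x | x ∈ X ∧ γ x ≤ B}.Finite) (B : ℝ)
    (T S : Finset I) (v : I) :
    (sv671 X γ A B T S).ncard
      = (sv671 X γ A B T (insert v S)).ncard + (sv671 X γ A B (insert v T) S).ncard := by
  have hdisj : Disjoint (sv671 X γ A B T (insert v S)) (sv671 X γ A B (insert v T) S) := by
    rw [Set.disjoint_left]
    intro x hx hx'
    exact hx.2.2.2 v (Finset.mem_insert_self v S) (hx'.2.2.1 v (Finset.mem_insert_self v T))
  have hunion : sv671 X γ A B T S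
      = sv671 X γ A B T (insert v S) ∪ sv671 X γ A B (insert v T) S := by
    ext x
    simp only [sv671, Set.mem_union, Set.mem_ofPred_eq, Finset.mem_insert, forall_eq_or_imp]
    constructor
    · rintro ⟨h1, h2, h3, h4⟩
      by_cases hv : x ∈ A v
      · exact Or.inr ⟨h1, h2, ⟨hv, h3⟩, h4⟩
      · exact Or.inl ⟨h1, h2, h3, hv, h4⟩
    · rintro (⟨h1, h2, h3, _, h4⟩ | ⟨h1, h2, ⟨_, h3⟩, h4⟩)
      · exact ⟨h1, h2, h3, h4⟩
      · exact ⟨h1, h2, h3, h4⟩
  rw [hunion]
  exact Set.ncard_union_eq hdisj (sv671_finite hfin B _ _) (sv671_finite hfin B _ _)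

/-- The finite sieve. -/
theorem sieve_finset671 (hfin : ∀ B : ℝ, {x | x ∈ X ∧ γ x ≤ B}.Finite) {α : ℝ} {β : I → ℝ}
    (hlim : ∀ T : Finset I, Tendsto
      (fun B : ℝ => ((sv671 X γ A B T ∅).ncard : ℝ) / B ^ 2) atTop
      (𝓝 (α * ∏ v ∈ T, β v)))
    (S : Finset I) : ∀ T : Finset I, Disjoint T S →
      Tendsto (fun B : ℝ => ((sv671 X γ A B T S).ncard : ℝ) / B ^ 2) atTop
        (𝓝 (α * (∏ v ∈ T, β v) * ∏ v ∈ S, (1 - β v))) := by
  classical
  induction S using Finset.induction_on with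
  | empty =>
    intro T _
    simpa using hlim T
  | insert v S hv ih =>
    intro T hT
    have hvT : v ∉ T := fun h => (Finset.disjoint_left.mp hT h) (Finset.mem_insert_self v S)
    have hTS : Disjoint T S :=
      Finset.disjoint_left.mpr fun a ha haS =>
        (Finset.disjoint_left.mp hT ha) (Finset.mem_insert_of_mem haS)
    have hT'S : Disjoint (insert v T) S := by
      rw [Finset.disjoint_insert_left]
      exact ⟨hv, hTS⟩
    have h1 := ih T hTS
    have h2 := ih (insert v T) hT'S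
    have h3 := h1.sub h2
    have hval : α * (∏ v ∈ T, β v) * ∏ v ∈ S, (1 - β v)
        - α * (∏ v ∈ insert v T, β v) * ∏ v ∈ S, (1 - β v)
        = α * (∏ v ∈ T, β v) * ∏ v ∈ insert v S, (1 - β v) := by
      rw [Finset.prod_insert hvT, Finset.prod_insert hv]
      ring
    rw [hval] at h3
    refine h3.congr fun B => ?_
    have hs := sv671_split (A := A) hfin B T S v
    rw [hs]
    push_cast
    ring

/-- The limit of the partial products exists. -/
theorem exists_prod_limit671 {β : I → ℝ} (hβ0 : ∀ v, 0 ≤ β v) (hβ1 : ∀ v, β v ≤ 1) :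
    ∃ L : ℝ, 0 ≤ L ∧ Tendsto (fun S : Finset I => ∏ v ∈ S, (1 - β v)) atTop (𝓝 L) := by
  classical
  have hanti : Antitone fun S : Finset I => ∏ v ∈ S, (1 - β v) := by
    intro S S' hSS'
    have hsplit : ∏ v ∈ S', (1 - β v) = (∏ v ∈ S, (1 - β v)) * ∏ v ∈ S' \ S, (1 - β v) := by
      rw [← Finset.prod_union Finset.disjoint_sdiff, Finset.union_sdiff_of_subset hSS']
    have h1 : 0 ≤ ∏ v ∈ S, (1 - β v) := Finset.prod_nonneg fun v _ => by linarith [hβ1 v]
    have h2 : ∏ v ∈ S' \ S, (1 - β v) ≤ 1 :=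
      Finset.prod_le_one (fun v _ => by linarith [hβ1 v]) (fun v _ => by linarith [hβ0 v])
    change ∏ v ∈ S', (1 - β v) ≤ ∏ v ∈ S, (1 - β v)
    rw [hsplit]
    nlinarith
  have hbdd : BddBelow (Set.range fun S : Finset I => ∏ v ∈ S, (1 - β v)) :=
    ⟨0, by
      rintro _ ⟨S, rfl⟩
      exact Finset.prod_nonneg fun v _ => by linarith [hβ1 v]⟩
  refine ⟨_, ?_, tendsto_atTop_ciInf hanti hbdd⟩
  exact le_ciInf fun S => Finset.prod_nonneg fun v _ => by linarith [hβ1 v]

/-- Weierstrass' inequality. -/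
theorem one_sub_sum_le_prod671 {β : I → ℝ} (hβ0 : ∀ v, 0 ≤ β v) (hβ1 : ∀ v, β v ≤ 1)
    (S : Finset I) : 1 - ∑ v ∈ S, β v ≤ ∏ v ∈ S, (1 - β v) := by
  classical
  induction S using Finset.induction_on with
  | empty => simp
  | insert v S hv ih =>
    rw [Finset.sum_insert hv, Finset.prod_insert hv]
    have h1 : 0 ≤ ∏ v ∈ S, (1 - β v) := Finset.prod_nonneg fun v _ => by linarith [hβ1 v]
    have h2 : ∏ v ∈ S, (1 - β v) ≤ 1 :=
      Finset.prod_le_one (fun v _ => by linarith [hβ1 v]) (fun v _ => by linarith [hβ0 v])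
    have h3 := hβ0 v
    have h4 := hβ1 v
    nlinarith

/-- Positivity of the limit of the partial products. -/
theorem prod_limit_pos671 {β : I → ℝ} (hβ0 : ∀ v, 0 ≤ β v) (hβ1 : ∀ v, β v < 1)
    (hsum : Summable β) {L : ℝ}
    (hL : Tendsto (fun S : Finset I => ∏ v ∈ S, (1 - β v)) atTop (𝓝 L)) : 0 < L := by
  classical
  -- a finite set with small tail
  have htail := tendsto_tsum_compl_atTop_zero β
  have hev : ∀ᶠ S : Finset I in atTop, ∑' a : {x // x ∉ S}, β a < 1 / 2 :=
    (tendsto_order.mp htail).2 _ (by norm_num)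
  obtain ⟨S₀, hS₀⟩ := hev.exists
  set c : ℝ := ∏ v ∈ S₀, (1 - β v) with hc
  have hcpos : 0 < c := Finset.prod_pos fun v _ => by linarith [hβ1 v]
  have hlow : ∀ S : Finset I, S₀ ⊆ S → c / 2 ≤ ∏ v ∈ S, (1 - β v) := by
    intro S hS
    have hsplit : ∏ v ∈ S, (1 - β v) = c * ∏ v ∈ S \ S₀, (1 - β v) := by
      rw [hc, ← Finset.prod_union Finset.disjoint_sdiff, Finset.union_sdiff_of_subset hS]
    rw [hsplit]
    have h1 := one_sub_sum_le_prod671 hβ0 (fun v => (hβ1 v).le) (S \ S₀)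
    have h2 : ∑ v ∈ S \ S₀, β v ≤ ∑' a : {x // x ∉ S₀}, β a := by
      have hsum' : Summable fun a : {x // x ∉ S₀} => β a := hsum.subtype _
      have hmem : ∀ v ∈ S \ S₀, v ∉ S₀ := fun v hv => (Finset.mem_sdiff.mp hv).2
      have h3 : ∑ v ∈ S \ S₀, β v
          = ∑ a ∈ (S \ S₀).subtype (fun x => x ∉ S₀), β a := by
        rw [Finset.sum_subtype_eq_sum_filter]
        refine Finset.sum_congr ?_ fun _ _ => rfl
        ext v
        simp only [Finset.mem_filter, Finset.mem_sdiff]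
        tauto
      rw [h3]
      exact hsum'.sum_le_tsum _ (fun a _ => hβ0 a)
    have h4 : (1 : ℝ) / 2 ≤ ∏ v ∈ S \ S₀, (1 - β v) := by linarith
    nlinarith
  have hge : c / 2 ≤ L := by
    refine ge_of_tendsto hL ?_
    filter_upwards [eventually_ge_atTop S₀] with S hS
    exact hlow S hS
  linarith

/-- **The sieve.** -/
theorem sieve_tendsto671 (hfin : ∀ B : ℝ, {x | x ∈ X ∧ γ x ≤ B}.Finite) {α : ℝ} {β δ : I → ℝ}
    (hlim : ∀ T : Finset I, Tendsto
      (fun B : ℝ => ((sv671 X γ A B T ∅).ncard : ℝ) / B ^ 2) atTop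
      (𝓝 (α * ∏ v ∈ T, β v)))
    (hδ : Summable δ) (hδ0 : ∀ v, 0 ≤ δ v)
    (htail : ∀ (v : I) (B : ℝ), ((sv671 X γ A B {v} ∅).ncard : ℝ) ≤ δ v * B ^ 2)
    {L : ℝ} (hL : Tendsto (fun S : Finset I => ∏ v ∈ S, (1 - β v)) atTop (𝓝 L)) :
    Tendsto (fun B : ℝ => ((svAll671 X γ A B).ncard : ℝ) / B ^ 2) atTop (𝓝 (α * L)) := by
  classical
  rw [Metric.tendsto_atTop]
  intro ε hε
  -- choose `S`
  have htail0 := tendsto_tsum_compl_atTop_zero δ
  have hev1 : ∀ᶠ S : Finset I in atTop, ∑' a : {x // x ∉ S}, δ a < ε / 3 :=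
    (tendsto_order.mp htail0).2 _ (by positivity)
  have hev2 : ∀ᶠ S : Finset I in atTop, dist (α * ∏ v ∈ S, (1 - β v)) (α * L) < ε / 3 := by
    have := (hL.const_mul α)
    exact (Metric.tendsto_nhds.mp this) _ (by positivity)
  obtain ⟨S, hS1, hS2⟩ := (hev1.and hev2).exists
  have hfinS := sieve_finset671 hfin hlim S ∅ (Finset.disjoint_empty_left S)
  simp only [Finset.prod_empty, mul_one] at hfinS
  obtain ⟨B₀, hB₀⟩ := (Metric.tendsto_atTop.mp hfinS) (ε / 3) (by positivity)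
  refine ⟨max B₀ 1, fun B hB => ?_⟩
  have hBB₀ : B₀ ≤ B := le_trans (le_max_left _ _) hB
  have hB1 : 1 ≤ B := le_trans (le_max_right _ _) hB
  have hB2 : 0 < B ^ 2 := by positivity
  have h1 := hB₀ B hBB₀
  -- comparison of the two counts
  have hsub : svAll671 X γ A B ⊆ sv671 X γ A B ∅ S := fun x hx =>
    ⟨hx.1, hx.2.1, by simp, fun v _ => hx.2.2 v⟩
  have hfinsv := sv671_finite (A := A) hfin B ∅ S
  have hle : (svAll671 X γ A B).ncard ≤ (sv671 X γ A B ∅ S).ncard :=
    Set.ncard_le_ncard hsub hfinsv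
  -- the difference
  have hdiff : ((sv671 X γ A B ∅ S).ncard : ℝ) - (svAll671 X γ A B).ncard
      ≤ (∑' a : {x // x ∉ S}, δ a) * B ^ 2 := by
    have hd : (sv671 X γ A B ∅ S \ svAll671 X γ A B).ncard
        = (sv671 X γ A B ∅ S).ncard - (svAll671 X γ A B).ncard :=
      Set.ncard_sdiff hsub ((hfin B).subset fun x hx => ⟨hx.1, hx.2.1⟩)
    have hd' : ((sv671 X γ A B ∅ S).ncard : ℝ) - (svAll671 X γ A B).ncard
        = ((sv671 X γ A B ∅ S \ svAll671 X γ A B).ncard : ℝ) := by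
      rw [hd, Nat.cast_sub hle]
    rw [hd']
    set Z : Set E := sv671 X γ A B ∅ S \ svAll671 X γ A B with hZ
    have hZfin : Z.Finite := hfinsv.subset Set.sdiff_subset
    -- every element of `Z` lies in some `A v`, `v ∉ S`
    have hex : ∀ z ∈ Z, ∃ v : I, v ∉ S ∧ z ∈ A v := by
      intro z hz
      have hz1 := hz.1
      have hz2 := hz.2
      by_contra hcon
      push Not at hcon
      apply hz2
      refine ⟨hz1.1, hz1.2.1, fun v hv => ?_⟩
      by_cases hvS : v ∈ S
      · exact hz1.2.2.2 v hvS hv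
      · exact hcon v hvS hv
    rcases isEmpty_or_nonempty I with hI | hI
    · have hZe : Z = ∅ := by
        ext z
        simp only [Set.mem_empty_iff_false, iff_false]
        intro hz
        obtain ⟨v, -, -⟩ := hex z hz
        exact hI.false v
      rw [hZe, Set.ncard_empty, Nat.cast_zero]
      have hnn : 0 ≤ ∑' a : {x // x ∉ S}, δ a := tsum_nonneg fun a => hδ0 a
      positivity
    choose! f hf using hex
    set V : Finset I := hZfin.toFinset.image f with hV
    have hVS : ∀ v ∈ V, v ∉ S := by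
      intro v hv
      rw [hV, Finset.mem_image] at hv
      obtain ⟨z, hz, rfl⟩ := hv
      exact (hf z (hZfin.mem_toFinset.mp hz)).1
    have hcover : Z ⊆ ⋃ v ∈ V, sv671 X γ A B {v} ∅ := by
      intro z hz
      have hzf := hf z hz
      refine Set.mem_biUnion (x := f z) ?_ ?_
      · rw [hV]
        exact Finset.mem_coe.mpr (Finset.mem_image_of_mem f (hZfin.mem_toFinset.mpr hz))
      · exact ⟨hz.1.1, hz.1.2.1, by simpa using hzf.2, by simp⟩
    have hcard : Z.ncard ≤ ∑ v ∈ V, (sv671 X γ A B {v} ∅).ncard := by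
      have hfinU : (⋃ v ∈ V, sv671 X γ A B {v} ∅).Finite :=
        Set.Finite.biUnion V.finite_toSet fun v _ => sv671_finite hfin B _ _
      refine (Set.ncard_le_ncard hcover hfinU).trans ?_
      exact Finset.set_ncard_biUnion_le V _
    have hsumV : (∑ v ∈ V, ((sv671 X γ A B {v} ∅).ncard : ℝ)) ≤ ∑ v ∈ V, δ v * B ^ 2 :=
      Finset.sum_le_sum fun v _ => htail v B
    have hsumV2 : ∑ v ∈ V, δ v ≤ ∑' a : {x // x ∉ S}, δ a := by
      have hsum' : Summable fun a : {x // x ∉ S} => δ a := hδ.subtype _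
      have h3 : ∑ v ∈ V, δ v = ∑ a ∈ V.subtype (fun x => x ∉ S), δ a := by
        rw [Finset.sum_subtype_eq_sum_filter]
        refine Finset.sum_congr ?_ fun _ _ => rfl
        ext v
        simp only [Finset.mem_filter]
        constructor
        · intro hv
          exact ⟨hv, hVS v hv⟩
        · exact fun hv => hv.1
      rw [h3]
      exact hsum'.sum_le_tsum _ (fun a _ => hδ0 a)
    calc (Z.ncard : ℝ) ≤ ((∑ v ∈ V, (sv671 X γ A B {v} ∅).ncard : ℕ) : ℝ) := by
          exact_mod_cast hcard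
      _ = ∑ v ∈ V, ((sv671 X γ A B {v} ∅).ncard : ℝ) := by push_cast; rfl
      _ ≤ ∑ v ∈ V, δ v * B ^ 2 := hsumV
      _ = (∑ v ∈ V, δ v) * B ^ 2 := by rw [Finset.sum_mul]
      _ ≤ (∑' a : {x // x ∉ S}, δ a) * B ^ 2 :=
          mul_le_mul_of_nonneg_right hsumV2 hB2.le
  -- conclusion
  have hA : |((sv671 X γ A B ∅ S).ncard : ℝ) / B ^ 2 - (svAll671 X γ A B).ncard / B ^ 2|
      < ε / 3 := by
    rw [← sub_div, abs_div, abs_of_pos hB2, div_lt_iff₀ hB2]
    have h0 : 0 ≤ ((sv671 X γ A B ∅ S).ncard : ℝ) - (svAll671 X γ A B).ncard := by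
      have : ((svAll671 X γ A B).ncard : ℝ) ≤ (sv671 X γ A B ∅ S).ncard := by exact_mod_cast hle
      linarith
    rw [abs_of_nonneg h0]
    calc ((sv671 X γ A B ∅ S).ncard : ℝ) - (svAll671 X γ A B).ncard
        ≤ (∑' a : {x // x ∉ S}, δ a) * B ^ 2 := hdiff
      _ < ε / 3 * B ^ 2 := mul_lt_mul_of_pos_right hS1 hB2
  rw [Real.dist_eq] at h1 hS2 ⊢
  have habs : |((svAll671 X γ A B).ncard : ℝ) / B ^ 2 - α * L|
      ≤ |((svAll671 X γ A B).ncard : ℝ) / B ^ 2 - (sv671 X γ A B ∅ S).ncard / B ^ 2|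
        + |((sv671 X γ A B ∅ S).ncard : ℝ) / B ^ 2 - α * ∏ v ∈ S, (1 - β v)|
        + |α * ∏ v ∈ S, (1 - β v) - α * L| := by
    have := abs_add_three
      (((svAll671 X γ A B).ncard : ℝ) / B ^ 2 - (sv671 X γ A B ∅ S).ncard / B ^ 2)
      (((sv671 X γ A B ∅ S).ncard : ℝ) / B ^ 2 - α * ∏ v ∈ S, (1 - β v))
      (α * ∏ v ∈ S, (1 - β v) - α * L)
    calc |((svAll671 X γ A B).ncard : ℝ) / B ^ 2 - α * L|
        = |(((svAll671 X γ A B).ncard : ℝ) / B ^ 2 - (sv671 X γ A B ∅ S).ncard / B ^ 2)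
          + (((sv671 X γ A B ∅ S).ncard : ℝ) / B ^ 2 - α * ∏ v ∈ S, (1 - β v))
          + (α * ∏ v ∈ S, (1 - β v) - α * L)| := by ring_nf
      _ ≤ _ := this
  rw [abs_sub_comm] at hA
  linarith

end Fermat.Agent.LT.T7.H671

end
end
-- ===== PACK-END LT/T7/H671/Sieve.lean

-- ===== PACK-BEGIN LT/H51/MS1.lean
section


/-!
# Row LT, tower T8 (Rankin--Selberg input of PAR), leaf MS1 (helper51), OFF-MAIN

**Mean square bound for Hecke eigenvalues from Hecke relations and Bessel's inequality only.**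

No Bessel function, no differential equation, no uniqueness of Whittaker functions, no newform
theory.  Abstract setting (Mathlib only):

* `a : ℕ → ℂ` a Hecke sequence: `a 1 = 1`, `a (p n) + b p · [p ∣ n] · a (n / p) = a p · a n` for
  the primes `p ∤ N`;
* `c : ℕ → ℝ → ℂ` the Fourier coefficient functions `c n y` (`n ≥ 1`, `y > 0`) of a bounded function
  `u (x + i y)`, periodic in `x`: continuous in `y`, Bessel's inequality `∑ ‖c n y‖² ≤ M²`;
* the Fourier coefficients of the Hecke identity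
  `√p · a p · u(z) = χ p · ∑_j u((z + j) / p) + b p · (χ p)⁻¹ · u(p z)`, i.e.
  `√p · a p · c n y = χ p · p · c (p n) (y / p) + [p ∣ n] · b p · (χ p)⁻¹ · c (n / p) (p y)`,
  with a completely multiplicative unitary twist `χ` (it appears at principal level);
* some `c k` is not identically zero.

Then `∑_{n ≤ x, (n, N) = 1} ‖a n‖² ≤ C · x`.

Key point: `c (m n) y = (χ n)⁻¹ · a n · n^{-1/2} · c m (n y)` for `(n, N) = 1` and `m ∣ N^∞`
(`universality`), a consequence of the Hecke relations alone.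
-/

set_option autoImplicit false

namespace Fermat.Agent.LT.H51

open Finset

/-- The data of the abstract mean square argument. -/
structure CoeffData (N : ℕ) (a b χ : ℕ → ℂ) (c : ℕ → ℝ → ℂ) (M : ℝ) : Prop where
  a_one : a 1 = 1
  chi_one : χ 1 = 1
  chi_mul : ∀ m n : ℕ, χ (m * n) = χ m * χ n
  chi_norm : ∀ n : ℕ, 0 < n → Nat.Coprime n N → ‖χ n‖ = 1
  hecke : ∀ p : ℕ, p.Prime → ¬ p ∣ N → ∀ n : ℕ,
    a (p * n) + b p * (if p ∣ n then a (n / p) else 0) = a p * a n
  cont : ∀ n : ℕ, ContinuousOn (c n) (Set.Ioi 0)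
  bessel : ∀ y : ℝ, 0 < y → ∀ F : Finset ℕ, ∑ n ∈ F, ‖c n y‖ ^ 2 ≤ M ^ 2
  star : ∀ p : ℕ, p.Prime → ¬ p ∣ N → ∀ n : ℕ, 0 < n → ∀ y : ℝ, 0 < y →
    ((Real.sqrt p : ℝ) : ℂ) * a p * c n y
      = χ p * (p : ℂ) * c (p * n) (y / p)
        + (if p ∣ n then b p * (χ p)⁻¹ * c (n / p) (p * y) else 0)

/-- `m` is composed of primes dividing `N`. -/
def SmoothFor (N m : ℕ) : Prop := 0 < m ∧ ∀ q : ℕ, q.Prime → q ∣ m → q ∣ N

/-- The complex square root of a natural number. -/
noncomputable def csqrt (n : ℕ) : ℂ := ((Real.sqrt n : ℝ) : ℂ)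

theorem csqrt_mul (m n : ℕ) : csqrt (m * n) = csqrt m * csqrt n := by
  unfold csqrt
  rw [Nat.cast_mul, Real.sqrt_mul (Nat.cast_nonneg m), Complex.ofReal_mul]

theorem csqrt_mul_self (n : ℕ) : csqrt n * csqrt n = (n : ℂ) := by
  unfold csqrt
  rw [← Complex.ofReal_mul, Real.mul_self_sqrt (Nat.cast_nonneg n)]
  simp

theorem csqrt_ne_zero {n : ℕ} (hn : 0 < n) : csqrt n ≠ 0 := by
  unfold csqrt
  rw [Ne, Complex.ofReal_eq_zero]
  exact (Real.sqrt_pos.mpr (Nat.cast_pos.mpr hn)).ne'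

theorem norm_csqrt (n : ℕ) : ‖csqrt n‖ = Real.sqrt n := by
  unfold csqrt
  rw [Complex.norm_real, Real.norm_of_nonneg (Real.sqrt_nonneg _)]

section

variable {N : ℕ} {a b χ : ℕ → ℂ} {c : ℕ → ℝ → ℂ} {M : ℝ}

theorem CoeffData.chi_ne_zero (D : CoeffData N a b χ c M) {n : ℕ} (hn : 0 < n)
    (hc : Nat.Coprime n N) : χ n ≠ 0 := by
  intro h
  have := D.chi_norm n hn hc
  rw [h, norm_zero] at this
  exact zero_ne_one this

/-- A prime not dividing `N` does not divide an `N`-smooth number. -/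
theorem SmoothFor.not_dvd {m : ℕ} (hm : SmoothFor N m) {p : ℕ} (hp : p.Prime)
    (hpN : ¬ p ∣ N) : ¬ p ∣ m := fun h => hpN (hm.2 p hp h)

/-- **Universality**: the coefficients of index `m n`, `(n, N) = 1`, are those of index `m`. -/
theorem CoeffData.universality (D : CoeffData N a b χ c M) {m : ℕ} (hm : SmoothFor N m) :
    ∀ n : ℕ, 0 < n → Nat.Coprime n N → ∀ y : ℝ, 0 < y →
      c (m * n) y = (χ n)⁻¹ * a n * (csqrt n)⁻¹ * c m (n * y) := by
  intro n
  induction n using Nat.strong_induction_on with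
  | _ n ih =>
    intro hn hcop y hy
    rcases Nat.lt_or_ge n 2 with h2 | h2
    · -- `n = 1`
      have h1 : n = 1 := by omega
      subst h1
      have hs : csqrt 1 = 1 := by unfold csqrt; simp
      rw [mul_one, D.chi_one, D.a_one, hs]
      simp
    · -- `n = p n'`
      set p := n.minFac with hp_def
      have hp : p.Prime := Nat.minFac_prime (by omega)
      have hpn : p ∣ n := Nat.minFac_dvd n
      obtain ⟨n', hn'⟩ := hpn
      have hn'0 : 0 < n' := by
        rcases Nat.eq_zero_or_pos n' with h | h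
        · rw [h, mul_zero] at hn'; omega
        · exact h
      have hn'lt : n' < n := by
        rw [hn']
        exact lt_mul_of_one_lt_left hn'0 hp.one_lt
      have hpN : ¬ p ∣ N := by
        intro h
        have : p ∣ Nat.gcd n N := Nat.dvd_gcd (Nat.minFac_dvd n) h
        rw [hcop] at this
        exact hp.one_lt.ne' (Nat.dvd_one.mp this)
      have hcop' : Nat.Coprime n' N := by
        rw [hn'] at hcop
        exact Nat.Coprime.coprime_mul_left hcop
      have hcopp : Nat.Coprime p N := (Nat.Prime.coprime_iff_not_dvd hp).mpr hpN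
      have hpm : ¬ p ∣ m := hm.not_dvd hp hpN
      have hp0 : (0 : ℝ) < p := Nat.cast_pos.mpr hp.pos
      have hpy : 0 < (p : ℝ) * y := mul_pos hp0 hy
      have hstar := D.star p hp hpN (m * n') (Nat.mul_pos hm.1 hn'0) ((p : ℝ) * y) hpy
      have hidx : p * (m * n') = m * n := by rw [hn']; ring
      have hdiv : (p : ℝ) * y / p = y := by field_simp
      rw [hidx, hdiv] at hstar
      have ih1 := ih n' hn'lt hn'0 hcop' ((p : ℝ) * y) hpy
      have harg1 : (n' : ℝ) * ((p : ℝ) * y) = (n : ℝ) * y := by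
        rw [hn']; push_cast; ring
      rw [harg1] at ih1
      have hχp : χ p ≠ 0 := D.chi_ne_zero hp.pos hcopp
      have hχn' : χ n' ≠ 0 := D.chi_ne_zero hn'0 hcop'
      have hsp : csqrt p ≠ 0 := csqrt_ne_zero hp.pos
      have hsn' : csqrt n' ≠ 0 := csqrt_ne_zero hn'0
      have hpc : (p : ℂ) ≠ 0 := Nat.cast_ne_zero.mpr hp.ne_zero
      have hχn : χ n = χ p * χ n' := by rw [hn', D.chi_mul]
      have hsn : csqrt n = csqrt p * csqrt n' := by rw [hn', csqrt_mul]
      have hpp : (p : ℂ) = csqrt p * csqrt p := (csqrt_mul_self p).symm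
      have hheck := D.hecke p hp hpN n'
      rw [← hn'] at hheck
      have hsq : ((Real.sqrt p : ℝ) : ℂ) = csqrt p := rfl
      rw [hsq] at hstar
      by_cases hpn' : p ∣ n'
      · -- `p ∣ n'`
        have hpmn' : p ∣ m * n' := Dvd.dvd.mul_left hpn' m
        rw [if_pos hpmn'] at hstar
        rw [if_pos hpn'] at hheck
        obtain ⟨n'', hn''⟩ := hpn'
        have hn''0 : 0 < n'' := by
          rcases Nat.eq_zero_or_pos n'' with h | h
          · rw [h, mul_zero] at hn''; omega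
          · exact h
        have hn''lt : n'' < n := by
          have : n'' < n' := by
            rw [hn'']
            exact lt_mul_of_one_lt_left hn''0 hp.one_lt
          omega
        have hcop'' : Nat.Coprime n'' N := by
          rw [hn''] at hcop'
          exact Nat.Coprime.coprime_mul_left hcop'
        have hdiv1 : n' / p = n'' := by
          rw [hn'', Nat.mul_div_cancel_left _ hp.pos]
        have hdiv2 : m * n' / p = m * n'' := by
          rw [hn'', ← mul_assoc, mul_comm m p, mul_assoc, Nat.mul_div_cancel_left _ hp.pos]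
        rw [hdiv2] at hstar
        rw [hdiv1] at hheck
        have hppy : 0 < (p : ℝ) * ((p : ℝ) * y) := mul_pos hp0 hpy
        have ih2 := ih n'' hn''lt hn''0 hcop'' ((p : ℝ) * ((p : ℝ) * y)) hppy
        have harg2 : (n'' : ℝ) * ((p : ℝ) * ((p : ℝ) * y)) = (n : ℝ) * y := by
          rw [hn', hn'']; push_cast; ring
        rw [harg2] at ih2
        have hχn'' : χ n'' ≠ 0 := D.chi_ne_zero hn''0 hcop''
        have hsn'' : csqrt n'' ≠ 0 := csqrt_ne_zero hn''0
        have hχn'2 : χ n' = χ p * χ n'' := by rw [hn'', D.chi_mul]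
        have hsn'2 : csqrt n' = csqrt p * csqrt n'' := by rw [hn'', csqrt_mul]
        rw [ih1, ih2] at hstar
        have ha : a n = a p * a n' - b p * a n'' := by
          rw [← hheck]; ring
        rw [hχn, hsn, ha, hχn'2, hsn'2]
        rw [hχn'2, hsn'2] at hstar
        have e1 : χ p * (csqrt p * csqrt p) * c (m * n) y
            = csqrt p * a p * ((χ p * χ n'')⁻¹ * a n' * (csqrt p * csqrt n'')⁻¹ * c m (↑n * y))
              - b p * (χ p)⁻¹ * ((χ n'')⁻¹ * a n'' * (csqrt n'')⁻¹ * c m (↑n * y)) := by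
          rw [← hpp, hstar]; ring
        have key : χ p * (csqrt p * csqrt p) * c (m * n) y
            = χ p * (csqrt p * csqrt p) *
              ((χ p * (χ p * χ n''))⁻¹ * (a p * a n' - b p * a n'')
                * (csqrt p * (csqrt p * csqrt n''))⁻¹ * c m (↑n * y)) := by
          rw [e1]
          field_simp
          try ring
        exact mul_left_cancel₀ (mul_ne_zero hχp (mul_ne_zero hsp hsp)) key
      · -- `p ∤ n'`
        have hpmn' : ¬ p ∣ m * n' := by
          intro h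
          rcases (Nat.Prime.dvd_mul hp).mp h with h | h
          · exact hpm h
          · exact hpn' h
        rw [if_neg hpmn', add_zero] at hstar
        rw [if_neg hpn', mul_zero, add_zero] at hheck
        rw [ih1] at hstar
        rw [hχn, hsn, hheck]
        have e1 : χ p * (csqrt p * csqrt p) * c (m * n) y
            = csqrt p * a p * ((χ n')⁻¹ * a n' * (csqrt n')⁻¹ * c m (↑n * y)) := by
          rw [← hpp, hstar]
        have key : χ p * (csqrt p * csqrt p) * c (m * n) y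
            = χ p * (csqrt p * csqrt p) *
              ((χ p * χ n')⁻¹ * (a p * a n') * (csqrt p * csqrt n')⁻¹ * c m (↑n * y)) := by
          rw [e1]
          field_simp
          try ring
        exact mul_left_cancel₀ (mul_ne_zero hχp (mul_ne_zero hsp hsp)) key

/-- **Reduction to an `N`-smooth index**: if some coefficient function does not vanish
identically, then one of `N`-smooth index does not. -/
theorem CoeffData.exists_smooth (D : CoeffData N a b χ c M) :
    ∀ k : ℕ, 0 < k → (∃ y : ℝ, 0 < y ∧ c k y ≠ 0) →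
      ∃ m : ℕ, SmoothFor N m ∧ ∃ y : ℝ, 0 < y ∧ c m y ≠ 0 := by
  intro k
  induction k using Nat.strong_induction_on with
  | _ k ih =>
    intro hk hne
    by_cases hsm : ∀ q : ℕ, q.Prime → q ∣ k → q ∣ N
    · exact ⟨k, ⟨hk, hsm⟩, hne⟩
    · push Not at hsm
      obtain ⟨p, hp, hpk, hpN⟩ := hsm
      obtain ⟨k', hk'⟩ := hpk
      obtain ⟨y, hy, hcy⟩ := hne
      have hk'0 : 0 < k' := by
        rcases Nat.eq_zero_or_pos k' with h | h
        · rw [h, mul_zero] at hk'; omega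
        · exact h
      have hk'lt : k' < k := by
        rw [hk']
        exact lt_mul_of_one_lt_left hk'0 hp.one_lt
      have hp0 : (0 : ℝ) < p := Nat.cast_pos.mpr hp.pos
      have hpy : 0 < (p : ℝ) * y := mul_pos hp0 hy
      have hcopp : Nat.Coprime p N := (Nat.Prime.coprime_iff_not_dvd hp).mpr hpN
      have hχp : χ p ≠ 0 := D.chi_ne_zero hp.pos hcopp
      have hpc : (p : ℂ) ≠ 0 := Nat.cast_ne_zero.mpr hp.ne_zero
      have hstar := D.star p hp hpN k' hk'0 ((p : ℝ) * y) hpy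
      have hdiv : (p : ℝ) * y / p = y := by field_simp
      rw [← hk', hdiv] at hstar
      by_cases h1 : c k' ((p : ℝ) * y) = 0
      · rw [h1, mul_zero] at hstar
        by_cases hpk' : p ∣ k'
        · rw [if_pos hpk'] at hstar
          have h2 : c (k' / p) ((p : ℝ) * ((p : ℝ) * y)) ≠ 0 := by
            intro h0
            rw [h0, mul_zero, add_zero] at hstar
            exact (mul_ne_zero (mul_ne_zero hχp hpc) hcy) hstar.symm
          have hlt : k' / p < k := lt_of_le_of_lt (Nat.div_le_self _ _) hk'lt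
          have hpos : 0 < k' / p := Nat.div_pos (Nat.le_of_dvd hk'0 hpk') hp.pos
          exact ih (k' / p) hlt hpos ⟨_, mul_pos hp0 hpy, h2⟩
        · rw [if_neg hpk', add_zero] at hstar
          exact absurd hstar.symm (mul_ne_zero (mul_ne_zero hχp hpc) hcy)
      · exact ih k' hk'lt hk'0 ⟨_, hpy, h1⟩

end

/-- A continuous function which does not vanish at a point is bounded below on an interval. -/
theorem exists_interval_of_continuousOn {f : ℝ → ℂ} (hf : ContinuousOn f (Set.Ioi 0)) {y : ℝ}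
    (hy : 0 < y) (hne : f y ≠ 0) :
    ∃ t₁ t₂ δ : ℝ, 0 < t₁ ∧ t₁ < t₂ ∧ 0 < δ ∧ ∀ t : ℝ, t₁ ≤ t → t ≤ t₂ → δ ≤ ‖f t‖ := by
  have hc : ContinuousAt f y := hf.continuousAt (Ioi_mem_nhds hy)
  have hpos : 0 < ‖f y‖ := norm_pos_iff.mpr hne
  obtain ⟨ε, hε, hball⟩ := Metric.continuousAt_iff.mp hc (‖f y‖ / 2) (by positivity)
  refine ⟨y, y + ε / 2, ‖f y‖ / 2, hy, by linarith, by positivity, fun t ht1 ht2 => ?_⟩
  have hd : dist t y < ε := by
    rw [Real.dist_eq, abs_lt]
    constructor <;> linarith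
  have h := hball hd
  rw [dist_eq_norm] at h
  have h2 : ‖f y‖ ≤ ‖f t‖ + ‖f t - f y‖ := by
    have := norm_sub_le (f t) (f t - f y)
    rw [sub_sub_cancel] at this
    exact this
  linarith

section

variable {N : ℕ} {a b χ : ℕ → ℂ} {c : ℕ → ℝ → ℂ} {M : ℝ}

/-- **Block bound**: Bessel's inequality at the height `t₁ / X`. -/
theorem CoeffData.block (D : CoeffData N a b χ c M) {m : ℕ} (hm : SmoothFor N m)
    {t₁ t₂ δ : ℝ} (ht₁ : 0 < t₁) (ht : t₁ < t₂) (hδ : 0 < δ)
    (hlow : ∀ t : ℝ, t₁ ≤ t → t ≤ t₂ → δ ≤ ‖c m t‖)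
    (X : ℝ) (hX : 0 < X) (G : Finset ℕ)
    (hG : ∀ n ∈ G, Nat.Coprime n N ∧ X ≤ (n : ℝ) ∧ (n : ℝ) ≤ (t₂ / t₁) * X) :
    ∑ n ∈ G, ‖a n‖ ^ 2 ≤ (t₂ / t₁) * X * (M ^ 2 / δ ^ 2) := by
  have ht₂ : 0 < t₂ := ht₁.trans ht
  have hκ : 0 < t₂ / t₁ := div_pos ht₂ ht₁
  set y : ℝ := t₁ / X with hy_def
  have hy : 0 < y := div_pos ht₁ hX
  have hpos : ∀ n ∈ G, 0 < n := by
    intro n hn
    have h := (hG n hn).2.1
    have : (0 : ℝ) < n := lt_of_lt_of_le hX h
    exact_mod_cast this
  -- lower bound for the coefficients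
  have hterm : ∀ n ∈ G, ‖a n‖ ^ 2 * (δ ^ 2 / ((t₂ / t₁) * X)) ≤ ‖c (m * n) y‖ ^ 2 := by
    intro n hn
    obtain ⟨hcop, hXn, hnX⟩ := hG n hn
    have hn0 : 0 < n := hpos n hn
    have hnR : (0 : ℝ) < n := Nat.cast_pos.mpr hn0
    have huni := D.universality hm n hn0 hcop y hy
    have hny1 : t₁ ≤ (n : ℝ) * y := by
      rw [hy_def, ← mul_div_assoc, le_div_iff₀ hX]
      nlinarith
    have hny2 : (n : ℝ) * y ≤ t₂ := by
      rw [hy_def, ← mul_div_assoc, div_le_iff₀ hX]
      have h1 : (n : ℝ) * t₁ ≤ (t₂ / t₁ * X) * t₁ := mul_le_mul_of_nonneg_right hnX ht₁.le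
      have h2 : (t₂ / t₁ * X) * t₁ = t₂ * X := by field_simp
      linarith
    have hlw := hlow _ hny1 hny2
    have hnorm : ‖c (m * n) y‖ = ‖a n‖ * (Real.sqrt n)⁻¹ * ‖c m ((n : ℝ) * y)‖ := by
      rw [huni, norm_mul, norm_mul, norm_mul, norm_inv, norm_inv, D.chi_norm n hn0 hcop,
        norm_csqrt, inv_one, one_mul]
    rw [hnorm, mul_pow, mul_pow, inv_pow, Real.sq_sqrt hnR.le]
    have h3 : δ ^ 2 ≤ ‖c m ((n : ℝ) * y)‖ ^ 2 := by
      apply pow_le_pow_left₀ hδ.le hlw
    have h4 : ((t₂ / t₁) * X)⁻¹ ≤ ((n : ℝ))⁻¹ := by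
      rw [inv_le_inv₀ (mul_pos hκ hX) hnR]
      exact hnX
    have h5 : 0 ≤ ‖a n‖ ^ 2 := by positivity
    calc ‖a n‖ ^ 2 * (δ ^ 2 / ((t₂ / t₁) * X))
        = ‖a n‖ ^ 2 * ((t₂ / t₁) * X)⁻¹ * δ ^ 2 := by rw [div_eq_mul_inv]; ring
      _ ≤ ‖a n‖ ^ 2 * ((n : ℝ))⁻¹ * ‖c m ((n : ℝ) * y)‖ ^ 2 := by
          apply mul_le_mul _ h3 (by positivity) (by positivity)
          exact mul_le_mul_of_nonneg_left h4 h5
  -- Bessel
  have hinj : Set.InjOn (fun n : ℕ => m * n) (G : Set ℕ) := by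
    intro x _ z _ h
    exact Nat.eq_of_mul_eq_mul_left hm.1 h
  have hbes := D.bessel y hy (G.image (fun n : ℕ => m * n))
  rw [Finset.sum_image hinj] at hbes
  have hsum : ∑ n ∈ G, ‖a n‖ ^ 2 * (δ ^ 2 / ((t₂ / t₁) * X)) ≤ M ^ 2 :=
    (Finset.sum_le_sum hterm).trans hbes
  rw [← Finset.sum_mul] at hsum
  have hc0 : 0 < δ ^ 2 / ((t₂ / t₁) * X) := div_pos (by positivity) (mul_pos hκ hX)
  have h6 : ∑ n ∈ G, ‖a n‖ ^ 2 ≤ M ^ 2 / (δ ^ 2 / ((t₂ / t₁) * X)) := by
    rw [le_div_iff₀ hc0]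
    exact hsum
  have h7 : M ^ 2 / (δ ^ 2 / ((t₂ / t₁) * X)) = (t₂ / t₁) * X * (M ^ 2 / δ ^ 2) := by
    field_simp
  rw [h7] at h6
  exact h6

/-- The partial sums of `‖a n‖²` over the integers prime to `N`. -/
noncomputable def msSum (N : ℕ) (a : ℕ → ℂ) (x : ℝ) : ℝ :=
  ∑ n ∈ (Finset.Icc 1 ⌊x⌋₊).filter (fun n => Nat.Coprime n N), ‖a n‖ ^ 2

theorem msSum_nonneg (N : ℕ) (a : ℕ → ℂ) (x : ℝ) : 0 ≤ msSum N a x :=
  Finset.sum_nonneg fun _ _ => by positivity

theorem msSum_eq_zero (N : ℕ) (a : ℕ → ℂ) {x : ℝ} (hx : x < 1) : msSum N a x = 0 := by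
  unfold msSum
  have : ⌊x⌋₊ = 0 := Nat.floor_eq_zero.mpr hx
  rw [this]
  simp

/-- One step of the dyadic induction. -/
theorem CoeffData.msSum_step (D : CoeffData N a b χ c M) {m : ℕ} (hm : SmoothFor N m)
    {t₁ t₂ δ : ℝ} (ht₁ : 0 < t₁) (ht : t₁ < t₂) (hδ : 0 < δ)
    (hlow : ∀ t : ℝ, t₁ ≤ t → t ≤ t₂ → δ ≤ ‖c m t‖) (x : ℝ) (hx : 0 < x) :
    msSum N a x ≤ msSum N a (x / (t₂ / t₁)) + x * (M ^ 2 / δ ^ 2) := by
  classical
  have ht₂ : 0 < t₂ := ht₁.trans ht
  have hκ : 0 < t₂ / t₁ := div_pos ht₂ ht₁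
  have hκ1 : 1 < t₂ / t₁ := (one_lt_div ht₁).mpr ht
  set X : ℝ := x / (t₂ / t₁) with hX_def
  have hX : 0 < X := div_pos hx hκ
  have hκX : (t₂ / t₁) * X = x := by rw [hX_def]; field_simp
  set G : Finset ℕ := (Finset.Ioc ⌊X⌋₊ ⌊x⌋₊).filter (fun n => Nat.Coprime n N) with hG_def
  have hG : ∀ n ∈ G, Nat.Coprime n N ∧ X ≤ (n : ℝ) ∧ (n : ℝ) ≤ (t₂ / t₁) * X := by
    intro n hn
    rw [hG_def, Finset.mem_filter, Finset.mem_Ioc] at hn
    obtain ⟨⟨h1, h2⟩, h3⟩ := hn
    refine ⟨h3, ?_, ?_⟩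
    · exact (Nat.lt_of_floor_lt h1).le
    · rw [hκX]
      exact (Nat.le_floor_iff hx.le).mp h2
  have hblock := D.block hm ht₁ ht hδ hlow X hX G hG
  rw [hκX] at hblock
  have hsub : (Finset.Icc 1 ⌊x⌋₊).filter (fun n => Nat.Coprime n N)
      ⊆ (Finset.Icc 1 ⌊X⌋₊).filter (fun n => Nat.Coprime n N) ∪ G := by
    intro n hn
    rw [Finset.mem_filter, Finset.mem_Icc] at hn
    rw [Finset.mem_union, Finset.mem_filter, Finset.mem_Icc, hG_def, Finset.mem_filter,
      Finset.mem_Ioc]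
    by_cases h : n ≤ ⌊X⌋₊
    · exact Or.inl ⟨⟨hn.1.1, h⟩, hn.2⟩
    · exact Or.inr ⟨⟨by omega, hn.1.2⟩, hn.2⟩
  unfold msSum
  calc ∑ n ∈ (Finset.Icc 1 ⌊x⌋₊).filter (fun n => Nat.Coprime n N), ‖a n‖ ^ 2
      ≤ ∑ n ∈ (Finset.Icc 1 ⌊X⌋₊).filter (fun n => Nat.Coprime n N) ∪ G, ‖a n‖ ^ 2 :=
        Finset.sum_le_sum_of_subset_of_nonneg hsub (fun _ _ _ => by positivity)
    _ ≤ ∑ n ∈ (Finset.Icc 1 ⌊X⌋₊).filter (fun n => Nat.Coprime n N), ‖a n‖ ^ 2
          + ∑ n ∈ G, ‖a n‖ ^ 2 := by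
        have h := Finset.sum_union_inter (s₁ := (Finset.Icc 1 ⌊X⌋₊).filter (fun n => Nat.Coprime n N))
          (s₂ := G) (f := fun n => ‖a n‖ ^ 2)
        have h0 : 0 ≤ ∑ n ∈ (Finset.Icc 1 ⌊X⌋₊).filter (fun n => Nat.Coprime n N) ∩ G,
            ‖a n‖ ^ 2 := Finset.sum_nonneg fun _ _ => by positivity
        linarith
    _ ≤ ∑ n ∈ (Finset.Icc 1 ⌊X⌋₊).filter (fun n => Nat.Coprime n N), ‖a n‖ ^ 2
          + x * (M ^ 2 / δ ^ 2) := by linarith

/-- **The mean square bound**, real form. -/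
theorem CoeffData.msSum_le (D : CoeffData N a b χ c M)
    (hne : ∃ k : ℕ, 0 < k ∧ ∃ y : ℝ, 0 < y ∧ c k y ≠ 0) :
    ∃ C : ℝ, 0 ≤ C ∧ ∀ x : ℝ, 0 ≤ x → msSum N a x ≤ C * x := by
  obtain ⟨k, hk, hky⟩ := hne
  obtain ⟨m, hm, y, hy, hmy⟩ := D.exists_smooth k hk hky
  obtain ⟨t₁, t₂, δ, ht₁, ht, hδ, hlow⟩ := exists_interval_of_continuousOn (D.cont m) hy hmy
  have ht₂ : 0 < t₂ := ht₁.trans ht
  have hκ : 0 < t₂ / t₁ := div_pos ht₂ ht₁
  have hκ1 : 1 < t₂ / t₁ := (one_lt_div ht₁).mpr ht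
  set κ : ℝ := t₂ / t₁ with hκ_def
  set A : ℝ := M ^ 2 / δ ^ 2 with hA_def
  have hA : 0 ≤ A := by positivity
  have hC : 0 ≤ A * κ / (κ - 1) := by
    apply div_nonneg (mul_nonneg hA hκ.le)
    linarith
  refine ⟨A * κ / (κ - 1), hC, ?_⟩
  have key : ∀ j : ℕ, ∀ x : ℝ, 0 ≤ x → x < κ ^ j → msSum N a x ≤ A * κ / (κ - 1) * x := by
    intro j
    induction j with
    | zero =>
      intro x hx0 hx
      rw [pow_zero] at hx
      rw [msSum_eq_zero N a hx]
      exact mul_nonneg hC hx0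
    | succ j ih =>
      intro x hx0 hx
      rcases lt_or_ge x 1 with h1 | h1
      · rw [msSum_eq_zero N a h1]
        exact mul_nonneg hC hx0
      · have hxpos : 0 < x := lt_of_lt_of_le one_pos h1
        have hstep : msSum N a x ≤ msSum N a (x / κ) + x * A :=
          D.msSum_step hm ht₁ ht hδ hlow x hxpos
        have hxk : x / κ < κ ^ j := by
          rw [div_lt_iff₀ hκ]
          rw [pow_succ] at hx
          exact hx
        have hih := ih (x / κ) (div_nonneg hx0 hκ.le) hxk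
        have hκ0 : κ - 1 ≠ 0 := by linarith
        have e : A * κ / (κ - 1) * (x / κ) + x * A = A * κ / (κ - 1) * x := by
          field_simp
          ring
        linarith
  intro x hx
  obtain ⟨j, hj⟩ := pow_unbounded_of_one_lt x hκ1
  exact key j x hx hj

/-- The sequence `a` depleted at `N` (and at `0`). -/
noncomputable def depleted (N : ℕ) (a : ℕ → ℂ) : ℕ → ℂ := by
  classical
  exact fun n => if 0 < n ∧ Nat.Coprime n N then a n else 0

theorem depleted_of_coprime (N : ℕ) (a : ℕ → ℂ) {n : ℕ} (hn : 0 < n) (hc : Nat.Coprime n N) :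
    depleted N a n = a n := by
  unfold depleted
  rw [if_pos ⟨hn, hc⟩]

theorem depleted_of_not (N : ℕ) (a : ℕ → ℂ) {n : ℕ} (h : ¬ (0 < n ∧ Nat.Coprime n N)) :
    depleted N a n = 0 := by
  unfold depleted
  rw [if_neg h]

/-- The depleted sequence still satisfies the Hecke relations at the primes `p ∤ N`. -/
theorem depleted_hecke (N : ℕ) (a b : ℕ → ℂ)
    (hrel : ∀ p : ℕ, p.Prime → ¬ p ∣ N → ∀ n : ℕ,
      a (p * n) + b p * (if p ∣ n then a (n / p) else 0) = a p * a n)
    (p : ℕ) (hp : p.Prime) (hpN : ¬ p ∣ N) (n : ℕ) :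
    depleted N a (p * n) + b p * (if p ∣ n then depleted N a (n / p) else 0)
      = depleted N a p * depleted N a n := by
  have hcopp : Nat.Coprime p N := (Nat.Prime.coprime_iff_not_dvd hp).mpr hpN
  by_cases hn : 0 < n ∧ Nat.Coprime n N
  · obtain ⟨hn0, hcop⟩ := hn
    rw [depleted_of_coprime N a (Nat.mul_pos hp.pos hn0) (Nat.Coprime.mul_left hcopp hcop),
      depleted_of_coprime N a hp.pos hcopp, depleted_of_coprime N a hn0 hcop, ← hrel p hp hpN n]
    congr 2
    by_cases hpn : p ∣ n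
    · rw [if_pos hpn, if_pos hpn]
      have hpos : 0 < n / p := Nat.div_pos (Nat.le_of_dvd hn0 hpn) hp.pos
      have hc' : Nat.Coprime (n / p) N := Nat.Coprime.coprime_dvd_left (Nat.div_dvd_of_dvd hpn) hcop
      rw [depleted_of_coprime N a hpos hc']
    · rw [if_neg hpn, if_neg hpn]
  · have h1 : ¬ (0 < p * n ∧ Nat.Coprime (p * n) N) := by
      rintro ⟨h0, hc⟩
      exact hn ⟨Nat.pos_of_mul_pos_left h0, Nat.Coprime.coprime_mul_left hc⟩
    rw [depleted_of_not N a h1, depleted_of_not N a hn, mul_zero, zero_add]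
    by_cases hpn : p ∣ n
    · rw [if_pos hpn]
      have h2 : ¬ (0 < n / p ∧ Nat.Coprime (n / p) N) := by
        rintro ⟨h0, hc⟩
        apply hn
        have hnp : n = p * (n / p) := (Nat.mul_div_cancel' hpn).symm
        refine ⟨?_, ?_⟩
        · rw [hnp]; exact Nat.mul_pos hp.pos h0
        · rw [hnp]; exact Nat.Coprime.mul_left hcopp hc
      rw [depleted_of_not N a h2, mul_zero]
    · rw [if_neg hpn, mul_zero]

/-- **MS1: the mean square bound** in the form of `MSBound` for the depleted Hecke sequence. -/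
theorem CoeffData.msBound (D : CoeffData N a b χ c M)
    (hne : ∃ k : ℕ, 0 < k ∧ ∃ y : ℝ, 0 < y ∧ c k y ≠ 0) :
    ∃ C : ℝ, 0 ≤ C ∧ ∀ x : ℕ, 1 ≤ x →
      ∑ n ∈ Finset.range (x + 1), ‖depleted N a n‖ ^ 2 ≤ C * (x : ℝ) := by
  classical
  obtain ⟨C, hC, h⟩ := D.msSum_le hne
  refine ⟨C, hC, fun x _ => ?_⟩
  have hx := h (x : ℝ) (Nat.cast_nonneg x)
  unfold msSum at hx
  rw [Nat.floor_natCast] at hx
  refine le_trans (le_of_eq ?_) hx
  rw [Finset.sum_filter]
  have hsub : Finset.Icc 1 x ⊆ Finset.range (x + 1) := by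
    intro n hn
    rw [Finset.mem_Icc] at hn
    rw [Finset.mem_range]
    omega
  rw [← Finset.sum_subset hsub]
  · refine Finset.sum_congr rfl fun n hn => ?_
    rw [Finset.mem_Icc] at hn
    by_cases hc : Nat.Coprime n N
    · rw [if_pos hc, depleted_of_coprime N a (by omega) hc]
    · rw [if_neg hc, depleted_of_not N a (fun h => hc h.2), norm_zero]
      simp
  · intro n hn hn'
    rw [Finset.mem_range] at hn
    rw [Finset.mem_Icc] at hn'
    have hn0 : n = 0 := by omega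
    subst hn0
    rw [depleted_of_not N a (fun h => by omega), norm_zero]
    simp

end

end Fermat.Agent.LT.H51

end
-- ===== PACK-END LT/H51/MS1.lean

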