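import Mathlib
import Fermat.Agent.Pack.LT2.E0L0

set_option linter.all false

-- ===== PACK-BEGIN LT/T2/H437/USChart.lean
section


/-!
# Row LT, tower T2, leaf T2.03a.2 (helper437): charts -- Mathlib only

* `rho437 x = x / (8 √(1 + x²))`: a smooth map `ℝ → (-1/8, 1/8)` whose restriction to `[-1, 1]`
  covers `[-1/16, 1/16]`;
* `det (1 + Y) ≠ 0` for a complex `2 × 2` matrix with entries of norm `≤ 1/4`;
* matrix valued functions with smooth entries: products, inverses.
-/

set_option autoImplicit false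

noncomputable section

namespace Fermat.Agent.LT.T2.H437

/-! ## 1. The one-dimensional chart -/

/-- The chart `ℝ → (-1/8, 1/8)`. -/
def rho437 (x : ℝ) : ℝ := x / (8 * Real.sqrt (1 + x ^ 2))

theorem one_add_sq_pos437 (x : ℝ) : 0 < 1 + x ^ 2 := by positivity

theorem sqrt_pos437 (x : ℝ) : 0 < Real.sqrt (1 + x ^ 2) := Real.sqrt_pos.mpr (one_add_sq_pos437 x)

theorem contDiff_rho437 : ContDiff ℝ (⊤ : ℕ∞) rho437 := by
  unfold rho437
  have h1 : ContDiff ℝ (⊤ : ℕ∞) (fun x : ℝ => 1 + x ^ 2) :=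
    contDiff_const.add (contDiff_id.pow 2)
  have h2 : ContDiff ℝ (⊤ : ℕ∞) (fun x : ℝ => Real.sqrt (1 + x ^ 2)) :=
    h1.sqrt (fun x => (one_add_sq_pos437 x).ne')
  exact contDiff_id.div (contDiff_const.mul h2) (fun x => (mul_pos (by norm_num) (sqrt_pos437 x)).ne')

theorem abs_lt_sqrt437 (x : ℝ) : |x| < Real.sqrt (1 + x ^ 2) := by
  rw [← Real.sqrt_sq_eq_abs]
  exact Real.sqrt_lt_sqrt (sq_nonneg x) (by linarith)

theorem abs_rho437_lt (x : ℝ) : |rho437 x| < 1 / 8 := by
  unfold rho437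
  have hs := sqrt_pos437 x
  rw [abs_div, abs_of_pos (mul_pos (by norm_num : (0 : ℝ) < 8) hs), div_lt_iff₀ (by positivity)]
  have := abs_lt_sqrt437 x
  linarith

theorem exists_rho437_eq {y : ℝ} (hy : |y| ≤ 1 / 16) : ∃ x : ℝ, |x| ≤ 1 ∧ rho437 x = y := by
  have hc : ContinuousOn rho437 (Set.Icc (-1 : ℝ) 1) := contDiff_rho437.continuous.continuousOn
  have hs2 : Real.sqrt (1 + (1 : ℝ) ^ 2) ≤ 2 := by
    rw [show (1 : ℝ) + 1 ^ 2 = 2 by norm_num]
    exact Real.sqrt_le_iff.mpr ⟨by norm_num, by norm_num⟩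
  have hs2' : Real.sqrt (1 + (-1 : ℝ) ^ 2) ≤ 2 := by
    rw [show (1 : ℝ) + (-1) ^ 2 = 2 by norm_num]
    exact Real.sqrt_le_iff.mpr ⟨by norm_num, by norm_num⟩
  have h1 : (1 : ℝ) / 16 ≤ rho437 1 := by
    unfold rho437
    rw [div_le_div_iff₀ (by norm_num) (mul_pos (by norm_num) (sqrt_pos437 1))]
    linarith
  have h2 : rho437 (-1) ≤ -(1 / 16) := by
    unfold rho437
    rw [neg_div, neg_le_neg_iff, div_le_div_iff₀ (by norm_num) (mul_pos (by norm_num) (sqrt_pos437 (-1)))]
    linarith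
  have hy' := abs_le.mp hy
  have hmem : y ∈ Set.Icc (rho437 (-1)) (rho437 1) := ⟨by linarith, by linarith⟩
  obtain ⟨x, hx, hxy⟩ := intermediate_value_Icc (by norm_num : (-1 : ℝ) ≤ 1) hc hmem
  exact ⟨x, abs_le.mpr ⟨hx.1, hx.2⟩, hxy⟩

/-! ## 2. `det (1 + Y) ≠ 0` -/

theorem det_one_add_ne_zero437 (Y : Matrix (Fin 2) (Fin 2) ℂ) (h : ∀ i j, ‖Y i j‖ ≤ 1 / 4) :
    (1 + Y).det ≠ 0 := by
  intro h0
  have e : (1 + Y).det = 1 + (Y 0 0 + Y 1 1 + Y 0 0 * Y 1 1 - Y 0 1 * Y 1 0) := by
    rw [Matrix.det_fin_two]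
    simp [Matrix.add_apply]
    ring
  have hb : ‖Y 0 0 + Y 1 1 + Y 0 0 * Y 1 1 - Y 0 1 * Y 1 0‖ ≤ 5 / 8 := by
    have h00 := h 0 0
    have h11 := h 1 1
    have h01 := h 0 1
    have h10 := h 1 0
    have n00 := norm_nonneg (Y 0 0)
    have n11 := norm_nonneg (Y 1 1)
    have n01 := norm_nonneg (Y 0 1)
    have n10 := norm_nonneg (Y 1 0)
    calc ‖Y 0 0 + Y 1 1 + Y 0 0 * Y 1 1 - Y 0 1 * Y 1 0‖
        ≤ ‖Y 0 0 + Y 1 1 + Y 0 0 * Y 1 1‖ + ‖Y 0 1 * Y 1 0‖ := norm_sub_le _ _
      _ ≤ (‖Y 0 0 + Y 1 1‖ + ‖Y 0 0 * Y 1 1‖) + ‖Y 0 1 * Y 1 0‖ := by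
          gcongr; exact norm_add_le _ _
      _ ≤ ((‖Y 0 0‖ + ‖Y 1 1‖) + ‖Y 0 0‖ * ‖Y 1 1‖) + ‖Y 0 1‖ * ‖Y 1 0‖ := by
          gcongr
          · exact norm_add_le _ _
          · exact (norm_mul _ _).le
          · exact (norm_mul _ _).le
      _ ≤ 5 / 8 := by nlinarith
  have h1 : (1 : ℂ) = -(Y 0 0 + Y 1 1 + Y 0 0 * Y 1 1 - Y 0 1 * Y 1 0) := by
    rw [e] at h0
    exact eq_neg_of_add_eq_zero_left h0
  have h2 : ‖(1 : ℂ)‖ ≤ 5 / 8 := by
    rw [h1, norm_neg]
    exact hb
  rw [norm_one] at h2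
  norm_num at h2

/-! ## 3. Matrix valued functions with smooth entries -/

variable {E : Type*} [NormedAddCommGroup E] [NormedSpace ℝ E]

/-- A `2 × 2` matrix valued function with smooth entries. -/
def SmoothMat437 (F : E → Matrix (Fin 2) (Fin 2) ℂ) : Prop :=
  ∀ i j : Fin 2, ContDiff ℝ (⊤ : ℕ∞) (fun q => F q i j)

theorem smoothMat_const437 (A : Matrix (Fin 2) (Fin 2) ℂ) : SmoothMat437 (fun _ : E => A) :=
  fun _ _ => contDiff_const

theorem SmoothMat437.mul {F G : E → Matrix (Fin 2) (Fin 2) ℂ} (hF : SmoothMat437 F)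
    (hG : SmoothMat437 G) : SmoothMat437 (fun q => F q * G q) := by
  intro i j
  simp only [Matrix.mul_apply, Fin.sum_univ_two]
  exact ((hF i 0).mul (hG 0 j)).add ((hF i 1).mul (hG 1 j))

/-- The inverse of a matrix valued function with smooth entries has smooth entries. -/
theorem SmoothMat437.inv {F G : E → Matrix (Fin 2) (Fin 2) ℂ} (hF : SmoothMat437 F)
    (hFG : ∀ q, F q * G q = 1) : SmoothMat437 G := by
  have hdet : ∀ q, (F q).det ≠ 0 := by
    intro q h0
    have := congrArg Matrix.det (hFG q)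
    rw [Matrix.det_mul, h0, zero_mul, Matrix.det_one] at this
    exact zero_ne_one this
  have hG : ∀ q, G q = (F q).det⁻¹ • (F q).adjugate := by
    intro q
    have h1 : (F q)⁻¹ = G q := Matrix.inv_eq_right_inv (hFG q)
    rw [← h1, Matrix.inv_def, Ring.inverse_eq_inv']
  have hd : ContDiff ℝ (⊤ : ℕ∞) (fun q => (F q).det) := by
    simp only [Matrix.det_fin_two]
    exact ((hF 0 0).mul (hF 1 1)).sub ((hF 0 1).mul (hF 1 0))
  have hdi : ContDiff ℝ (⊤ : ℕ∞) (fun q => ((F q).det)⁻¹) := hd.inv hdet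
  intro i j
  simp only [hG, Matrix.smul_apply, smul_eq_mul, Matrix.adjugate_fin_two]
  fin_cases i <;> fin_cases j
  · simpa using hdi.mul (hF 1 1)
  · simpa using hdi.mul (hF 0 1).neg
  · simpa using hdi.mul (hF 1 0).neg
  · simpa using hdi.mul (hF 0 0)

end Fermat.Agent.LT.T2.H437

end

end
-- ===== PACK-END LT/T2/H437/USChart.lean

-- ===== PACK-BEGIN LT/T2/H465/Tile.lean
section


/-!
# Row LT, tower T2, leaf T2.23c (`LeafIntCore`), part 1: the tiling inequality (helper465)

OFF-MAIN.  Mathlib only.  `lintegral_tile_le465`: if a measurable set `A` of a group is covered by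
the sets `{g : a γ j * g ∈ D}` (`j` in a finite set `S`, `γ` in a countable set), the function
`φ ≥ 0` is invariant under the left translations by the `a γ j`, the measure is left invariant and
at most `N` of the sets `a γ j · A` (`j` fixed) contain a given point, then
`∫_A φ ≤ #S · N · ∫_D φ`.
-/

set_option autoImplicit false

open MeasureTheory
open scoped ENNReal

noncomputable section

namespace Fermat.Agent.LT.T2.H465

/-- A sum of indicators with at most `N` non-zero terms. -/
theorem tsum_ite_le465 {Γ : Type*} (P : Γ → Prop) [DecidablePred P] (c N : ℝ≥0∞)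
    (h : ∀ T : Finset Γ, (∀ γ ∈ T, P γ) → (T.card : ℝ≥0∞) ≤ N) :
    ∑' γ, (if P γ then c else 0) ≤ N * c := by
  rw [ENNReal.tsum_eq_iSup_sum]
  refine iSup_le fun T => ?_
  rw [← Finset.sum_filter, Finset.sum_const, nsmul_eq_mul]
  gcongr
  exact h _ (fun γ hγ => (Finset.mem_filter.1 hγ).2)

/-- **The tiling inequality.** -/
theorem lintegral_tile_le465 {G : Type*} [Group G] [MeasurableSpace G] [MeasurableMul G]
    {Γ : Type*} [Countable Γ] (μ : Measure G) [μ.IsMulLeftInvariant]
    (a : Γ → ℤ → G) (D A : Set G) (hD : MeasurableSet D) (hA : MeasurableSet A) (S : Finset ℤ)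
    (hcov : ∀ g ∈ A, ∃ j ∈ S, ∃ γ, a γ j * g ∈ D)
    (φ : G → ℝ≥0∞) (hφ : Measurable φ) (hinv : ∀ γ j g, φ (a γ j * g) = φ g)
    (N : ℝ≥0∞)
    (hcount : ∀ j ∈ S, ∀ g' : G, ∀ T : Finset Γ,
      (∀ γ ∈ T, (a γ j)⁻¹ * g' ∈ A) → (T.card : ℝ≥0∞) ≤ N) :
    ∫⁻ g in A, φ g ∂μ ≤ S.card * (N * ∫⁻ g in D, φ g ∂μ) := by
  classical
  -- the pieces
  set P : ℤ → Γ → Set G := fun j γ => A ∩ (fun g => a γ j * g) ⁻¹' D with hP
  have hPm : ∀ j γ, MeasurableSet (P j γ) := fun j γ =>
    hA.inter ((measurable_const_mul (a γ j)) hD)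
  have hsub : A ⊆ ⋃ p : S × Γ, P p.1 p.2 := by
    intro g hg
    obtain ⟨j, hj, γ, hγ⟩ := hcov g hg
    exact Set.mem_iUnion.2 ⟨(⟨j, hj⟩, γ), hg, hγ⟩
  -- one piece
  have hpiece : ∀ j γ, ∫⁻ g in P j γ, φ g ∂μ
      = ∫⁻ g' in D, (if (a γ j)⁻¹ * g' ∈ A then φ g' else 0) ∂μ := by
    intro j γ
    rw [← lintegral_indicator (hPm j γ), ← lintegral_indicator hD]
    rw [← lintegral_mul_left_eq_self (μ := μ)
      (fun g' => D.indicator (fun g' => if (a γ j)⁻¹ * g' ∈ A then φ g' else 0) g') (a γ j)]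
    refine lintegral_congr fun g => ?_
    by_cases h1 : g ∈ A
    · by_cases h2 : a γ j * g ∈ D
      · have hmem : g ∈ P j γ := ⟨h1, h2⟩
        rw [Set.indicator_of_mem hmem, Set.indicator_of_mem h2, inv_mul_cancel_left, if_pos h1,
          hinv]
      · have hmem : g ∉ P j γ := fun h => h2 h.2
        rw [Set.indicator_of_notMem hmem, Set.indicator_of_notMem h2]
    · have hmem : g ∉ P j γ := fun h => h1 h.1
      rw [Set.indicator_of_notMem hmem]
      by_cases h2 : a γ j * g ∈ D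
      · rw [Set.indicator_of_mem h2, inv_mul_cancel_left, if_neg h1]
      · rw [Set.indicator_of_notMem h2]
  -- the sum over `γ`
  have hsum : ∀ j ∈ S, ∑' γ, ∫⁻ g in P j γ, φ g ∂μ ≤ N * ∫⁻ g in D, φ g ∂μ := by
    intro j hj
    simp only [hpiece]
    rw [← lintegral_tsum]
    · rw [← lintegral_const_mul N hφ]
      refine lintegral_mono fun g' => ?_
      exact tsum_ite_le465 (fun γ => (a γ j)⁻¹ * g' ∈ A) (φ g') N (hcount j hj g')
    · intro γ
      refine Measurable.aemeasurable ?_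
      refine Measurable.ite ?_ hφ measurable_const
      exact (measurable_const_mul ((a γ j)⁻¹)) hA
  calc ∫⁻ g in A, φ g ∂μ
      ≤ ∫⁻ g in ⋃ p : S × Γ, P p.1 p.2, φ g ∂μ := lintegral_mono_set hsub
    _ ≤ ∑' p : S × Γ, ∫⁻ g in P p.1 p.2, φ g ∂μ := lintegral_iUnion_le _ _
    _ = ∑' j : S, ∑' γ : Γ, ∫⁻ g in P j γ, φ g ∂μ :=
        ENNReal.tsum_prod (f := fun (j : S) (γ : Γ) => ∫⁻ g in P j γ, φ g ∂μ)
    _ ≤ ∑' _ : S, N * ∫⁻ g in D, φ g ∂μ :=
        ENNReal.tsum_le_tsum fun j => hsum j.1 j.2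
    _ = S.card * (N * ∫⁻ g in D, φ g ∂μ) := by
        rw [tsum_fintype, Finset.sum_const, Finset.card_univ, Fintype.card_coe, nsmul_eq_mul]

end Fermat.Agent.LT.T2.H465

end

end
-- ===== PACK-END LT/T2/H465/Tile.lean

-- ===== PACK-BEGIN LT/T3/H57/Periodise.lean
section


/-!
# Row LT, tower T3 (volunteer helper57): periodisation of compactly supported functions

OFF-MAIN.  Mathlib only, no definitions.

For a subgroup `Γ` of a locally compact abelian topological group `G` which is discrete (meets a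
neighbourhood of `0` only in `0`) and a continuous compactly supported `φ : G → ℂ`:

* `finite_inter_compact_of_discrete57`: `Γ` meets every compact set in a finite set;
* `locallyFinite_periodisation57`: the supports of the translates `x ↦ φ (x + γ)` are locally
  finite;
* `summable_periodisation57`: `γ ↦ φ (x + γ)` is summable for every `x`;
* `continuous_periodisation57`: `x ↦ ∑' γ : Γ, φ (x + γ)` is continuous.

These discharge the hypothesis `hΦc` of `poisson_abstract57` / `poisson_ring57` for test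
functions.
-/

set_option autoImplicit false
set_option linter.unusedSectionVars false

namespace Fermat.Agent.LT.T3.H57

open Set Topology Filter Function

section

variable {G : Type*} [AddCommGroup G] [TopologicalSpace G] [IsTopologicalAddGroup G]
  (Γ : AddSubgroup G)

/-- A subgroup which meets a neighbourhood of `0` only in `0` meets every compact set in a
finite set. -/
theorem finite_inter_compact_of_discrete57
    (hΓ : ∃ U : Set G, IsOpen U ∧ (0 : G) ∈ U ∧ ∀ γ ∈ Γ, γ ∈ U → γ = 0)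
    (C : Set G) (hC : IsCompact C) : ((Γ : Set G) ∩ C).Finite := by
  obtain ⟨U, hU, h0U, hUΓ⟩ := hΓ
  have hsubc : Continuous fun p : G × G => p.1 - p.2 := continuous_fst.sub continuous_snd
  have hpre : IsOpen ((fun p : G × G => p.1 - p.2) ⁻¹' U) := hU.preimage hsubc
  have h00 : ((0 : G), (0 : G)) ∈ (fun p : G × G => p.1 - p.2) ⁻¹' U := by
    simpa using h0U
  obtain ⟨V₁, V₂, hV₁, hV₂, h0V₁, h0V₂, hVU⟩ := isOpen_prod_iff.mp hpre 0 0 h00
  let V : Set G := V₁ ∩ V₂
  have hV : IsOpen V := hV₁.inter hV₂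
  have h0V : (0 : G) ∈ V := ⟨h0V₁, h0V₂⟩
  have hVV : ∀ a ∈ V, ∀ b ∈ V, a - b ∈ U := fun a ha b hb =>
    hVU (mk_mem_prod ha.1 hb.2)
  have hcov : C ⊆ ⋃ c : G, (fun a => a - c) ⁻¹' V := fun c _ =>
    mem_iUnion.mpr ⟨c, by simpa using h0V⟩
  obtain ⟨t, ht⟩ := hC.elim_finite_subcover (fun c : G => (fun a => a - c) ⁻¹' V)
    (fun c => hV.preimage (continuous_id.sub continuous_const)) hcov
  have hsubs : (Γ : Set G) ∩ C ⊆ ⋃ c ∈ t, ((Γ : Set G) ∩ (fun a => a - c) ⁻¹' V) := by
    rintro a ⟨haΓ, haC⟩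
    obtain ⟨c, hct, hac⟩ := mem_iUnion₂.mp (ht haC)
    exact mem_iUnion₂.mpr ⟨c, hct, haΓ, hac⟩
  refine (Set.Finite.biUnion t.finite_toSet fun c _ => ?_).subset hsubs
  refine Set.Subsingleton.finite ?_
  rintro a ⟨haΓ, haV⟩ b ⟨hbΓ, hbV⟩
  have h1 : a - b ∈ U := by
    have := hVV (a - c) haV (b - c) hbV
    simpa using this
  exact sub_eq_zero.mp (hUΓ (a - b) (Γ.sub_mem haΓ hbΓ) h1)

variable [LocallyCompactSpace G]

/-- The supports of the translates of a compactly supported function by a discrete subgroup are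
locally finite. -/
theorem locallyFinite_periodisation57
    (hΓ : ∃ U : Set G, IsOpen U ∧ (0 : G) ∈ U ∧ ∀ γ ∈ Γ, γ ∈ U → γ = 0)
    (φ : G → ℂ) (hφs : HasCompactSupport φ) :
    LocallyFinite fun γ : Γ => support fun x => φ (x + γ) := by
  intro x₀
  obtain ⟨V, hVc, hVn⟩ := exists_compact_mem_nhds x₀
  refine ⟨V, hVn, ?_⟩
  let T : Set G := (fun p : G × G => p.1 - p.2) '' (tsupport φ ×ˢ V)
  have hT : IsCompact T :=
    (hφs.isCompact.prod hVc).image (continuous_fst.sub continuous_snd)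
  have hfin : ((Γ : Set G) ∩ T).Finite := finite_inter_compact_of_discrete57 Γ hΓ T hT
  have hsub : {γ : Γ | ((support fun x => φ (x + γ)) ∩ V).Nonempty} ⊆
      (fun γ : Γ => (γ : G)) ⁻¹' ((Γ : Set G) ∩ T) := by
    rintro γ ⟨x, hx, hxV⟩
    refine ⟨γ.2, (x + γ, x), ⟨subset_tsupport _ hx, hxV⟩, ?_⟩
    simp
  exact (hfin.preimage (Subtype.val_injective.injOn)).subset hsub

theorem summable_periodisation57
    (hΓ : ∃ U : Set G, IsOpen U ∧ (0 : G) ∈ U ∧ ∀ γ ∈ Γ, γ ∈ U → γ = 0)
    (φ : G → ℂ) (hφs : HasCompactSupport φ) (x : G) :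
    Summable fun γ : Γ => φ (x + γ) := by
  have h := (locallyFinite_periodisation57 Γ hΓ φ hφs).point_finite x
  refine summable_of_hasFiniteSupport (h.subset ?_)
  intro γ hγ
  exact hγ

/-- The periodisation of a continuous compactly supported function along a discrete subgroup is
continuous. -/
theorem continuous_periodisation57
    (hΓ : ∃ U : Set G, IsOpen U ∧ (0 : G) ∈ U ∧ ∀ γ ∈ Γ, γ ∈ U → γ = 0)
    (φ : G → ℂ) (hφc : Continuous φ) (hφs : HasCompactSupport φ) :
    Continuous fun x => ∑' γ : Γ, φ (x + γ) := by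
  have hlf := locallyFinite_periodisation57 Γ hΓ φ hφs
  have h1 : Continuous fun x => ∑ᶠ γ : Γ, φ (x + γ) :=
    continuous_finsum (fun γ => hφc.comp (continuous_id.add continuous_const)) hlf
  have h2 : (fun x => ∑' γ : Γ, φ (x + γ)) = fun x => ∑ᶠ γ : Γ, φ (x + γ) := by
    ext x
    refine tsum_eq_finsum ((hlf.point_finite x).subset ?_)
    intro γ hγ
    exact hγ
  rw [h2]
  exact h1

end

/-- A number field is countable. -/
theorem countable_of_numberField57 (K : Type*) [Field K] [NumberField K] : Countable K := by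
  let b := Module.finBasis ℚ K
  exact b.equivFun.injective.countable

end Fermat.Agent.LT.T3.H57

end
-- ===== PACK-END LT/T3/H57/Periodise.lean

-- ===== PACK-BEGIN LT/H942/RegularLocal.lean
section


/-!
# Row LT, towers T4/T5/T6 — a regular Iwahori element has unit trace (helper942)

OFF-MAIN.  Mathlib only.  `F` a field with a valuation `v`.  `IsIwahoriMat v k` : the matrix
`k ∈ M₂(F)` has integral entries, lower left entry of valuation `< 1` and a determinant of
valuation `1` (so `k` lies in the Iwahori subgroup of `GL₂(𝒪)`).  For `k₁, k₂` Iwahori and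
`v c < 1`:

* `iwahori_regular_trace` : `v (tr (k₁ · diag(c, 1) · k₂)) = 1`;
* `iwahori_regular_det`   : `v (det (k₁ · diag(c, 1) · k₂)) = v c`;
* `iwahori_regular_ratio` : hence `v (tr² / det) = (v c)⁻¹` (`c ≠ 0`), and the same for every
  conjugate `h · g · h⁻¹` (`iwahori_regular_ratio_conj`).

With `c = ϖ ^ m` this is the local input at the auxiliary place `u` of "regular ⇒ elliptic"
(`RegularCore.lean`): `|tr² / det|_u = q_u ^ m`.
-/

set_option autoImplicit false

namespace Fermat.Agent.LT.H942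

open Matrix

variable {F : Type*} [Field F] {Γ₀ : Type*} [LinearOrderedCommGroupWithZero Γ₀]

/-- `k` lies in the Iwahori subgroup (upper triangular modulo the maximal ideal) of `GL₂(𝒪_v)`. -/
structure IsIwahoriMat (v : Valuation F Γ₀) (k : Matrix (Fin 2) (Fin 2) F) : Prop where
  int : ∀ i j, v (k i j) ≤ 1
  low : v (k 1 0) < 1
  det : v k.det = 1

theorem IsIwahoriMat.diag_mul {v : Valuation F Γ₀} {k : Matrix (Fin 2) (Fin 2) F}
    (hk : IsIwahoriMat v k) : v (k 0 0) * v (k 1 1) = 1 := by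
  have hdet := hk.det
  rw [Matrix.det_fin_two] at hdet
  have hsmall : v (k 0 1 * k 1 0) < 1 := by
    rw [map_mul]
    calc v (k 0 1) * v (k 1 0) ≤ 1 * v (k 1 0) := mul_le_mul_left (hk.int 0 1) _
      _ = v (k 1 0) := one_mul _
      _ < 1 := hk.low
  -- `k00 k11 = det + k01 k10`
  have e : k 0 0 * k 1 1 = (k 0 0 * k 1 1 - k 0 1 * k 1 0) + k 0 1 * k 1 0 := by ring
  rw [← map_mul, e]
  rw [Valuation.map_add_eq_of_lt_left v (by rw [hdet]; exact hsmall)]
  exact hdet

theorem IsIwahoriMat.v00 {v : Valuation F Γ₀} {k : Matrix (Fin 2) (Fin 2) F}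
    (hk : IsIwahoriMat v k) : v (k 0 0) = 1 := by
  have h := hk.diag_mul
  refine le_antisymm (hk.int 0 0) ?_
  by_contra hlt
  rw [not_le] at hlt
  have : v (k 0 0) * v (k 1 1) < 1 := by
    calc v (k 0 0) * v (k 1 1) ≤ v (k 0 0) * 1 := mul_le_mul_right (hk.int 1 1) _
      _ = v (k 0 0) := mul_one _
      _ < 1 := hlt
  rw [h] at this
  exact lt_irrefl _ this

theorem IsIwahoriMat.v11 {v : Valuation F Γ₀} {k : Matrix (Fin 2) (Fin 2) F}
    (hk : IsIwahoriMat v k) : v (k 1 1) = 1 := by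
  have h := hk.diag_mul
  rw [hk.v00, one_mul] at h
  exact h

/-- The trace of `k₁ · diag(c, 1) · k₂`. -/
theorem trace_mul_diag_mul (k₁ k₂ : Matrix (Fin 2) (Fin 2) F) (c : F) :
    (k₁ * Matrix.diagonal ![c, 1] * k₂).trace =
      k₁ 1 1 * k₂ 1 1 + (c * (k₁ 0 0 * k₂ 0 0 + k₁ 1 0 * k₂ 0 1) + k₁ 0 1 * k₂ 1 0) := by
  simp [Matrix.trace_fin_two, Matrix.mul_apply, Fin.sum_univ_two, Matrix.diagonal_apply]
  ring

/-- **Unit trace.** -/
theorem iwahori_regular_trace {v : Valuation F Γ₀} {k₁ k₂ : Matrix (Fin 2) (Fin 2) F}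
    (h₁ : IsIwahoriMat v k₁) (h₂ : IsIwahoriMat v k₂) {c : F} (hc : v c < 1) :
    v (k₁ * Matrix.diagonal ![c, 1] * k₂).trace = 1 := by
  rw [trace_mul_diag_mul]
  have hmain : v (k₁ 1 1 * k₂ 1 1) = 1 := by rw [map_mul, h₁.v11, h₂.v11, one_mul]
  have hle1 : ∀ a b : F, v a ≤ 1 → v b ≤ 1 → v (a * b) ≤ 1 := fun a b ha hb => by
    rw [map_mul]
    calc v a * v b ≤ 1 * 1 := mul_le_mul' ha hb
      _ = 1 := one_mul _
  have hA : v (k₁ 0 0 * k₂ 0 0 + k₁ 1 0 * k₂ 0 1) ≤ 1 :=
    le_trans (v.map_add _ _) (max_le (hle1 _ _ (h₁.int 0 0) (h₂.int 0 0))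
      (hle1 _ _ (h₁.int 1 0) (h₂.int 0 1)))
  have hcA : v (c * (k₁ 0 0 * k₂ 0 0 + k₁ 1 0 * k₂ 0 1)) < 1 := by
    rw [map_mul]
    calc v c * v (k₁ 0 0 * k₂ 0 0 + k₁ 1 0 * k₂ 0 1) ≤ v c * 1 := mul_le_mul_right hA _
      _ = v c := mul_one _
      _ < 1 := hc
  have hB : v (k₁ 0 1 * k₂ 1 0) < 1 := by
    rw [map_mul]
    calc v (k₁ 0 1) * v (k₂ 1 0) ≤ 1 * v (k₂ 1 0) := mul_le_mul_left (h₁.int 0 1) _
      _ = v (k₂ 1 0) := one_mul _
      _ < 1 := h₂.low
  have hrest : v (c * (k₁ 0 0 * k₂ 0 0 + k₁ 1 0 * k₂ 0 1) + k₁ 0 1 * k₂ 1 0) < 1 :=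
    lt_of_le_of_lt (v.map_add _ _) (max_lt hcA hB)
  rw [Valuation.map_add_eq_of_lt_left v (by rw [hmain]; exact hrest)]
  exact hmain

/-- **Determinant.** -/
theorem iwahori_regular_det {v : Valuation F Γ₀} {k₁ k₂ : Matrix (Fin 2) (Fin 2) F}
    (h₁ : IsIwahoriMat v k₁) (h₂ : IsIwahoriMat v k₂) (c : F) :
    v (k₁ * Matrix.diagonal ![c, 1] * k₂).det = v c := by
  rw [Matrix.det_mul, Matrix.det_mul, Matrix.det_diagonal, map_mul, map_mul, h₁.det, h₂.det]
  simp [Fin.prod_univ_two]

/-- **The invariant `tr² / det` of a regular Iwahori element.** -/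
theorem iwahori_regular_ratio {v : Valuation F Γ₀} {k₁ k₂ : Matrix (Fin 2) (Fin 2) F}
    (h₁ : IsIwahoriMat v k₁) (h₂ : IsIwahoriMat v k₂) {c : F} (hc : v c < 1) :
    v ((k₁ * Matrix.diagonal ![c, 1] * k₂).trace ^ 2 / (k₁ * Matrix.diagonal ![c, 1] * k₂).det)
      = (v c)⁻¹ := by
  rw [map_div₀, map_pow, iwahori_regular_trace h₁ h₂ hc, iwahori_regular_det h₁ h₂ c]
  simp

/-- … and of every conjugate (trace and determinant are conjugation invariant). -/
theorem iwahori_regular_ratio_conj {v : Valuation F Γ₀} {k₁ k₂ : Matrix (Fin 2) (Fin 2) F}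
    (h₁ : IsIwahoriMat v k₁) (h₂ : IsIwahoriMat v k₂) {c : F} (hc : v c < 1)
    (h h' : Matrix (Fin 2) (Fin 2) F) (hh : h' * h = 1) :
    v ((h * (k₁ * Matrix.diagonal ![c, 1] * k₂) * h').trace ^ 2 /
        (h * (k₁ * Matrix.diagonal ![c, 1] * k₂) * h').det) = (v c)⁻¹ := by
  have htr : (h * (k₁ * Matrix.diagonal ![c, 1] * k₂) * h').trace
      = (k₁ * Matrix.diagonal ![c, 1] * k₂).trace := by
    rw [Matrix.trace_mul_comm, ← Matrix.mul_assoc, hh, Matrix.one_mul]
  have hdet : (h * (k₁ * Matrix.diagonal ![c, 1] * k₂) * h').det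
      = (k₁ * Matrix.diagonal ![c, 1] * k₂).det := by
    have h1 : h'.det * h.det = 1 := by rw [← Matrix.det_mul, hh, Matrix.det_one]
    rw [Matrix.det_mul, Matrix.det_mul]
    linear_combination (k₁ * Matrix.diagonal ![c, 1] * k₂).det * h1
  rw [htr, hdet]
  exact iwahori_regular_ratio h₁ h₂ hc

end Fermat.Agent.LT.H942

end
-- ===== PACK-END LT/H942/RegularLocal.lean

-- ===== PACK-BEGIN LT/T7/H309/SepAbs.lean
section


/-!
# Row LT, tower T7, leaf T7.C4 (helper309): the abstract separation of atoms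

OFF-MAIN.  Mathlib only.

`X` a compact Hausdorff space (no countability assumption), two families of atoms `p i`, `p' j`
in `X` with absolutely summable complex weights `x i`, `y j`.  If the two atomic measures have
the same integral against every function of a point-separating star-subalgebra of `C(X, ℂ)`,
then they have the same mass at every point (`atoms_sep309`).

Proof: Stone--Weierstrass (the integrals agree on all of `C(X, ℂ)`), then a point is isolated
from finitely many others by Urysohn's lemma, the remaining atoms carry a mass `< ε`.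
-/

set_option autoImplicit false

open Filter Topology

noncomputable section

namespace Fermat.Agent.LT.T7.H309

section Abs

variable {X : Type} [TopologicalSpace X] [CompactSpace X]
variable {ι : Type}

theorem summable_norm_eval_mul309 (p : ι → X) (x : ι → ℂ) (hx : Summable fun i => ‖x i‖)
    (f : C(X, ℂ)) : Summable fun i => ‖f (p i) * x i‖ := by
  refine Summable.of_nonneg_of_le (fun i => norm_nonneg _) (fun i => ?_) (hx.mul_left ‖f‖)
  rw [norm_mul]
  exact mul_le_mul_of_nonneg_right (f.norm_coe_le_norm _) (norm_nonneg _)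

theorem summable_eval_mul309 (p : ι → X) (x : ι → ℂ) (hx : Summable fun i => ‖x i‖)
    (f : C(X, ℂ)) : Summable fun i => f (p i) * x i :=
  (summable_norm_eval_mul309 p x hx f).of_norm

theorem norm_atomSum_sub_le309 (p : ι → X) (x : ι → ℂ) (hx : Summable fun i => ‖x i‖)
    (f g : C(X, ℂ)) :
    ‖(∑' i, f (p i) * x i) - ∑' i, g (p i) * x i‖ ≤ (∑' i, ‖x i‖) * ‖f - g‖ := by
  rw [← (summable_eval_mul309 p x hx f).tsum_sub (summable_eval_mul309 p x hx g)]
  have h1 : ∀ i, f (p i) * x i - g (p i) * x i = (f - g) (p i) * x i := fun i => by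
    simp [sub_mul]
  simp only [h1]
  refine (norm_tsum_le_tsum_norm (summable_norm_eval_mul309 p x hx (f - g))).trans ?_
  rw [← tsum_mul_right]
  refine Summable.tsum_le_tsum (fun i => ?_) (summable_norm_eval_mul309 p x hx (f - g))
    (hx.mul_right _)
  rw [norm_mul, mul_comm]
  exact mul_le_mul_of_nonneg_left ((f - g).norm_coe_le_norm _) (norm_nonneg _)

theorem continuous_atomSum309 (p : ι → X) (x : ι → ℂ) (hx : Summable fun i => ‖x i‖) :
    Continuous fun f : C(X, ℂ) => ∑' i, f (p i) * x i := by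
  have hnn : 0 ≤ ∑' i, ‖x i‖ := tsum_nonneg fun i => norm_nonneg _
  refine (LipschitzWith.of_dist_le_mul (K := ⟨∑' i, ‖x i‖, hnn⟩) fun f g => ?_).continuous
  rw [dist_eq_norm, dist_eq_norm]
  exact norm_atomSum_sub_le309 p x hx f g

variable {ι' : Type}

/-- Stone--Weierstrass: two absolutely summable atomic measures which agree on a point-separating
star-subalgebra agree on all continuous functions. -/
theorem atomSum_eq_of_sep309 (A : StarSubalgebra ℂ C(X, ℂ)) (hA : A.SeparatesPoints)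
    (p : ι → X) (p' : ι' → X) (x : ι → ℂ) (y : ι' → ℂ)
    (hx : Summable fun i => ‖x i‖) (hy : Summable fun j => ‖y j‖)
    (h : ∀ f ∈ A, ∑' i, f (p i) * x i = ∑' j, f (p' j) * y j) (f : C(X, ℂ)) :
    ∑' i, f (p i) * x i = ∑' j, f (p' j) * y j := by
  have hdense : A.topologicalClosure = ⊤ :=
    ContinuousMap.starSubalgebra_topologicalClosure_eq_top_of_separatesPoints A hA
  have hf : f ∈ closure (A : Set C(X, ℂ)) := by
    have h1 : f ∈ A.topologicalClosure := by rw [hdense]; exact StarSubalgebra.mem_top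
    exact h1
  have hclosed : IsClosed {f : C(X, ℂ) | ∑' i, f (p i) * x i = ∑' j, f (p' j) * y j} :=
    isClosed_eq (continuous_atomSum309 p x hx) (continuous_atomSum309 p' y hy)
  exact (hclosed.closure_subset_iff.mpr fun g hg => h g hg) hf


/-- Isolation of one atom: if `f` is `1` at `ω₀`, vanishes at the atoms `p i ≠ ω₀`, `i ∈ I₀`, and
is bounded by `1`, then the integral of `f` differs from the mass at `ω₀` by at most the mass
outside `I₀`. -/
theorem norm_atomSum_sub_mass_le309 (p : ι → X) (x : ι → ℂ) (hx : Summable fun i => ‖x i‖)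
    (ω₀ : X) (I₀ : Finset ι) (f : C(X, ℂ)) (h1 : f ω₀ = 1)
    (h0 : ∀ i ∈ I₀, p i ≠ ω₀ → f (p i) = 0) (hb : ∀ z, ‖f z‖ ≤ 1) :
    ‖(∑' i, f (p i) * x i) - ∑' i : {i : ι // p i = ω₀}, x i‖
      ≤ ∑' i : {i : ι // i ∉ I₀}, ‖x i‖ := by
  classical
  have hs := summable_eval_mul309 p x hx f
  have hsn := summable_norm_eval_mul309 p x hx f
  have hsplit := hs.tsum_subtype_add_tsum_subtype_compl {i : ι | p i = ω₀}
  have hfirst : ∑' i : {i : ι | p i = ω₀}, f (p i) * x i = ∑' i : {i : ι // p i = ω₀}, x i := by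
    refine tsum_congr fun i => ?_
    have hi : p i = ω₀ := i.2
    rw [hi, h1, one_mul]
  rw [← hsplit, hfirst, add_sub_cancel_left]
  refine (norm_tsum_le_tsum_norm (hsn.subtype _)).trans ?_
  have e1 : ∑' i : ({i : ι | p i = ω₀}ᶜ : Set ι), ‖f (p i) * x i‖
      = ∑' i, ({i : ι | p i = ω₀}ᶜ : Set ι).indicator (fun i => ‖f (p i) * x i‖) i :=
    tsum_subtype ({i : ι | p i = ω₀}ᶜ : Set ι) (fun i => ‖f (p i) * x i‖)
  have e2 : ∑' i : {i : ι // i ∉ I₀}, ‖x i‖
      = ∑' i, ({i : ι | i ∉ I₀} : Set ι).indicator (fun i => ‖x i‖) i :=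
    tsum_subtype ({i : ι | i ∉ I₀} : Set ι) (fun i => ‖x i‖)
  rw [e1, e2]
  refine Summable.tsum_le_tsum (fun i => ?_) (hsn.indicator _) (hx.indicator _)
  by_cases hP : p i = ω₀
  · have : i ∉ ({i : ι | p i = ω₀}ᶜ : Set ι) := fun h => h hP
    rw [Set.indicator_of_notMem this]
    exact Set.indicator_nonneg (fun _ _ => norm_nonneg _) _
  · have hmem : i ∈ ({i : ι | p i = ω₀}ᶜ : Set ι) := hP
    rw [Set.indicator_of_mem hmem]
    by_cases hI : i ∈ I₀
    · rw [h0 i hI hP, zero_mul, norm_zero]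
      exact Set.indicator_nonneg (fun _ _ => norm_nonneg _) _
    · have hmem' : i ∈ ({i : ι | i ∉ I₀} : Set ι) := hI
      rw [Set.indicator_of_mem hmem', norm_mul]
      calc ‖f (p i)‖ * ‖x i‖ ≤ 1 * ‖x i‖ :=
            mul_le_mul_of_nonneg_right (hb _) (norm_nonneg _)
        _ = ‖x i‖ := one_mul _

variable [T2Space X]

/-- **Separation of atoms.**  Two absolutely summable atomic measures on a compact Hausdorff
space which have the same integral against every function of a point-separating star-subalgebra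
have the same mass at every point. -/
theorem atoms_sep309 (A : StarSubalgebra ℂ C(X, ℂ)) (hA : A.SeparatesPoints)
    (p : ι → X) (p' : ι' → X) (x : ι → ℂ) (y : ι' → ℂ)
    (hx : Summable fun i => ‖x i‖) (hy : Summable fun j => ‖y j‖)
    (h : ∀ f ∈ A, ∑' i, f (p i) * x i = ∑' j, f (p' j) * y j) (ω₀ : X) :
    ∑' i : {i : ι // p i = ω₀}, x i = ∑' j : {j : ι' // p' j = ω₀}, y j := by
  classical
  by_contra hne
  have hd : 0 < ‖(∑' i : {i : ι // p i = ω₀}, x i) - ∑' j : {j : ι' // p' j = ω₀}, y j‖ :=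
    norm_pos_iff.mpr (sub_ne_zero.mpr hne)
  set d := ‖(∑' i : {i : ι // p i = ω₀}, x i) - ∑' j : {j : ι' // p' j = ω₀}, y j‖ with hd_def
  have hhalf : 0 < d / 2 := by positivity
  obtain ⟨I₀, hI₀⟩ := ((tendsto_order.mp (tendsto_tsum_compl_atTop_zero fun i => ‖x i‖)).2
    (d / 2) hhalf).exists
  obtain ⟨J₀, hJ₀⟩ := ((tendsto_order.mp (tendsto_tsum_compl_atTop_zero fun j => ‖y j‖)).2
    (d / 2) hhalf).exists
  let F : Set X := ((p '' (I₀ : Set ι)) ∪ (p' '' (J₀ : Set ι'))) \ {ω₀}
  have hFfin : F.Finite :=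
    (((I₀.finite_toSet.image p).union (J₀.finite_toSet.image p')).subset Set.sdiff_subset)
  have hFcl : IsClosed F := hFfin.isClosed
  have hdisj : Disjoint F {ω₀} := Set.disjoint_sdiff_left
  obtain ⟨f, hf0, hf1, hf01⟩ := exists_continuous_zero_one_of_isClosed hFcl isClosed_singleton hdisj
  let fc : C(X, ℂ) := ⟨fun z => ((f z : ℝ) : ℂ), Complex.continuous_ofReal.comp f.continuous⟩
  have hfc1 : fc ω₀ = 1 := by
    have : f ω₀ = 1 := hf1 (Set.mem_singleton ω₀)
    simp [fc, this]
  have hfcb : ∀ z, ‖fc z‖ ≤ 1 := fun z => by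
    have h01 := hf01 z
    simp only [fc, ContinuousMap.coe_mk, Complex.norm_real, Real.norm_eq_abs]
    rw [abs_of_nonneg h01.1]
    exact h01.2
  have hfc0 : ∀ i ∈ I₀, p i ≠ ω₀ → fc (p i) = 0 := fun i hi hpi => by
    have hmem : p i ∈ F := ⟨Or.inl ⟨i, hi, rfl⟩, hpi⟩
    have : f (p i) = 0 := hf0 hmem
    simp [fc, this]
  have hfc0' : ∀ j ∈ J₀, p' j ≠ ω₀ → fc (p' j) = 0 := fun j hj hpj => by
    have hmem : p' j ∈ F := ⟨Or.inr ⟨j, hj, rfl⟩, hpj⟩
    have : f (p' j) = 0 := hf0 hmem
    simp [fc, this]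
  have hX := norm_atomSum_sub_mass_le309 p x hx ω₀ I₀ fc hfc1 hfc0 hfcb
  have hY := norm_atomSum_sub_mass_le309 p' y hy ω₀ J₀ fc hfc1 hfc0' hfcb
  have heq := atomSum_eq_of_sep309 A hA p p' x y hx hy h fc
  rw [heq] at hX
  have hlt : d < d := by
    calc d = ‖((∑' i : {i : ι // p i = ω₀}, x i) - ∑' j, fc (p' j) * y j)
            + ((∑' j, fc (p' j) * y j) - ∑' j : {j : ι' // p' j = ω₀}, y j)‖ := by
          rw [hd_def]; congr 1; ring
      _ ≤ ‖(∑' i : {i : ι // p i = ω₀}, x i) - ∑' j, fc (p' j) * y j‖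
            + ‖(∑' j, fc (p' j) * y j) - ∑' j : {j : ι' // p' j = ω₀}, y j‖ := norm_add_le _ _
      _ = ‖(∑' j, fc (p' j) * y j) - ∑' i : {i : ι // p i = ω₀}, x i‖
            + ‖(∑' j, fc (p' j) * y j) - ∑' j : {j : ι' // p' j = ω₀}, y j‖ := by
          rw [norm_sub_rev]
      _ < d / 2 + d / 2 := add_lt_add (lt_of_le_of_lt hX hI₀) (lt_of_le_of_lt hY hJ₀)
      _ = d := add_halves d
  exact lt_irrefl d hlt

omit [T2Space X] in
/-- The linear span of a star-closed set is star-closed. -/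
theorem star_mem_span309 (s : Set C(X, ℂ)) (hstar : ∀ f ∈ s, star f ∈ s)
    {f : C(X, ℂ)} (hf : f ∈ Submodule.span ℂ s) : star f ∈ Submodule.span ℂ s := by
  induction hf using Submodule.span_induction with
  | mem z hz => exact Submodule.subset_span (hstar z hz)
  | zero => simp
  | add u v _ _ hu hv => rw [star_add]; exact Submodule.add_mem _ hu hv
  | smul c u _ hu => rw [star_smul]; exact Submodule.smul_mem _ _ hu

omit [T2Space X] in
/-- The star-subalgebra generated by a star-closed submonoid is contained in its linear span. -/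
theorem mem_span_of_mem_starAdjoin309 (M : Submonoid C(X, ℂ)) (hstar : ∀ f ∈ M, star f ∈ M)
    {f : C(X, ℂ)} (hf : f ∈ StarAlgebra.adjoin ℂ (M : Set C(X, ℂ))) :
    f ∈ Submodule.span ℂ (M : Set C(X, ℂ)) := by
  induction hf using StarAlgebra.adjoin_induction with
  | mem z hz => exact Submodule.subset_span hz
  | algebraMap r =>
      rw [Algebra.algebraMap_eq_smul_one]
      exact Submodule.smul_mem _ _ (Submodule.subset_span M.one_mem)
  | add a b _ _ ha hb => exact Submodule.add_mem _ ha hb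
  | mul a b _ _ ha hb =>
      have h1 := Submodule.mul_mem_mul ha hb
      rw [Submodule.span_mul_span] at h1
      refine Submodule.span_mono ?_ h1
      rintro _ ⟨u, hu, v, hv, rfl⟩
      exact M.mul_mem hu hv
  | star a _ ha => exact star_mem_span309 (M : Set C(X, ℂ)) hstar ha

omit [T2Space X] in
/-- An identity of atomic integrals on a set of functions extends to its linear span. -/
theorem atomSum_eq_on_span309 (s : Set C(X, ℂ))
    (p : ι → X) (p' : ι' → X) (x : ι → ℂ) (y : ι' → ℂ)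
    (hx : Summable fun i => ‖x i‖) (hy : Summable fun j => ‖y j‖)
    (h : ∀ f ∈ s, ∑' i, f (p i) * x i = ∑' j, f (p' j) * y j)
    {f : C(X, ℂ)} (hf : f ∈ Submodule.span ℂ s) :
    ∑' i, f (p i) * x i = ∑' j, f (p' j) * y j := by
  induction hf using Submodule.span_induction with
  | mem z hz => exact h z hz
  | zero => simp
  | add u v _ _ hu hv =>
      have e1 : ∀ i, (u + v) (p i) * x i = u (p i) * x i + v (p i) * x i := fun i => by
        simp [add_mul]
      have e2 : ∀ j, (u + v) (p' j) * y j = u (p' j) * y j + v (p' j) * y j := fun j => by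
        simp [add_mul]
      simp only [e1, e2]
      rw [(summable_eval_mul309 p x hx u).tsum_add (summable_eval_mul309 p x hx v),
        (summable_eval_mul309 p' y hy u).tsum_add (summable_eval_mul309 p' y hy v), hu, hv]
  | smul c u _ hu =>
      have e1 : ∀ i, (c • u) (p i) * x i = c * (u (p i) * x i) := fun i => by
        simp [mul_assoc]
      have e2 : ∀ j, (c • u) (p' j) * y j = c * (u (p' j) * y j) := fun j => by
        simp [mul_assoc]
      simp only [e1, e2]
      rw [tsum_mul_left, tsum_mul_left, hu]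

/-- **Separation of atoms, monoid form.**  `M` a submonoid of `C(X, ℂ)`, closed under
conjugation, which separates the points of the compact Hausdorff space `X`: two absolutely
summable atomic measures with the same integral against every element of `M` have the same mass
at every point. -/
theorem atoms_sep_monoid309 (M : Submonoid C(X, ℂ)) (hstar : ∀ f ∈ M, star f ∈ M)
    (hsep : ∀ z z' : X, z ≠ z' → ∃ f ∈ M, f z ≠ f z')
    (p : ι → X) (p' : ι' → X) (x : ι → ℂ) (y : ι' → ℂ)
    (hx : Summable fun i => ‖x i‖) (hy : Summable fun j => ‖y j‖)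
    (h : ∀ f ∈ M, ∑' i, f (p i) * x i = ∑' j, f (p' j) * y j) (ω₀ : X) :
    ∑' i : {i : ι // p i = ω₀}, x i = ∑' j : {j : ι' // p' j = ω₀}, y j := by
  refine atoms_sep309 (StarAlgebra.adjoin ℂ (M : Set C(X, ℂ))) ?_ p p' x y hx hy ?_ ω₀
  · intro z z' hzz'
    obtain ⟨f, hf, hne⟩ := hsep z z' hzz'
    exact ⟨f, ⟨f, StarAlgebra.subset_adjoin ℂ _ hf, rfl⟩, hne⟩
  · intro f hf
    exact atomSum_eq_on_span309 (M : Set C(X, ℂ)) p p' x y hx hy h
      (mem_span_of_mem_starAdjoin309 M hstar hf)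

end Abs

end Fermat.Agent.LT.T7.H309

end

end
-- ===== PACK-END LT/T7/H309/SepAbs.lean

-- ===== PACK-BEGIN LT/T7/H980/DirichletCore.lean
section


/-!
# Row LT, tower T7, leaf T7.13k `DirichletC`: the Mathlib-only core (helper980), OFF-MAIN

Real analysis only, no number field.

* `geom_sum_le_980`   : `∑_{j < K} r ^ j ≤ 1 / (1 - r)` for `0 ≤ r < 1`.
* `dyadic_sum_le_980` : partial sums `∑_{n p ≤ X} a p ≤ C X` (all `X ≥ 1`) of a non-negative weight
  give `∑ a p (n p) ^ (-t) ≤ 2 C / (1 - 2 ^ (-(t - 1)))` for `t > 1` (dyadic blocks).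
* `dirichlet_core_980`: for ONE finite set `T` with `2 ≤ N i`, `0 ≤ w i ≤ 4` on `T` and the
  squarefree partial sum bound over the subsets of `T`:
  `∑_{i ∈ T} w i (N i) ^ (-s) ≤ log (1 / (s - 1)) + (log (4 C / log 2) + 16 C)`, `1 < s ≤ 2`
  (Euler product `∏ (1 + x_i) = ∑_{T' ⊆ T} ∏_{T'} x_i`, `log (1 + x) ≥ x - x ^ 2`,
  `∑ x_i ^ 2 ≤ 4 ∑ w_i N_i ^ (-2) ≤ 16 C` by the singletons).
-/

set_option autoImplicit false

namespace Fermat.Agent.LT.T7.H980

theorem geom_sum_le_980 (r : ℝ) (hr0 : 0 ≤ r) (hr1 : r < 1) (K : ℕ) :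
    ∑ j ∈ Finset.range K, r ^ j ≤ 1 / (1 - r) := by
  have h1 : 0 < 1 - r := by linarith
  rw [le_div_iff₀ h1, geom_sum_mul_neg]
  have : 0 ≤ r ^ K := pow_nonneg hr0 K
  linarith

theorem dyadic_sum_le_980 {α : Type*} (F : Finset α) (a n : α → ℝ) (C t : ℝ)
    (ha : ∀ p ∈ F, 0 ≤ a p) (hn : ∀ p ∈ F, 1 ≤ n p)
    (hC : ∀ X : ℝ, 1 ≤ X → ∑ p ∈ F.filter (fun p => n p ≤ X), a p ≤ C * X)
    (ht : 1 < t) :
    ∑ p ∈ F, a p * n p ^ (-t) ≤ 2 * C / (1 - (2 : ℝ) ^ (-(t - 1))) := by
  have hC0 : 0 ≤ C := by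
    have h := hC 1 le_rfl
    have h2 : 0 ≤ ∑ p ∈ F.filter (fun p => n p ≤ 1), a p :=
      Finset.sum_nonneg (fun p hp => ha p (Finset.mem_of_mem_filter p hp))
    linarith
  obtain ⟨r, hr⟩ : ∃ r : ℝ, r = (2 : ℝ) ^ (-(t - 1)) := ⟨_, rfl⟩
  rw [← hr]
  have hr0 : 0 < r := by rw [hr]; exact Real.rpow_pos_of_pos (by norm_num) _
  have hr1 : r < 1 := by
    rw [hr]; exact Real.rpow_lt_one_of_one_lt_of_neg (by norm_num) (by linarith)
  have hid : ∀ j : ℕ, (2 : ℝ) ^ (j + 1) * ((2 : ℝ) ^ j) ^ (-t) = 2 * r ^ j := by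
    intro j
    have e1 : ((2 : ℝ) ^ j) ^ (-t) = (2 : ℝ) ^ ((j : ℝ) * (-t)) := by
      rw [Real.rpow_mul (by norm_num : (0 : ℝ) ≤ 2), Real.rpow_natCast]
    have e2 : r ^ j = (2 : ℝ) ^ ((-(t - 1)) * (j : ℝ)) := by
      rw [hr, Real.rpow_mul (by norm_num : (0 : ℝ) ≤ 2), Real.rpow_natCast]
    have e3 : (2 : ℝ) ^ j = (2 : ℝ) ^ (j : ℝ) := (Real.rpow_natCast 2 j).symm
    rw [pow_succ, e1, e2, e3, mul_comm ((2 : ℝ) ^ (j : ℝ)) 2, mul_assoc,
      ← Real.rpow_add (by norm_num : (0 : ℝ) < 2)]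
    congr 2
    ring
  let k : α → ℕ := fun p => Nat.log 2 ⌊n p⌋₊
  have hk1 : ∀ p ∈ F, (2 : ℝ) ^ (k p) ≤ n p := by
    intro p hp
    have h1 : 1 ≤ ⌊n p⌋₊ := (Nat.one_le_floor_iff (n p)).mpr (hn p hp)
    have h2 : 2 ^ (k p) ≤ ⌊n p⌋₊ := Nat.pow_log_le_self 2 (by omega)
    have h3 : ((⌊n p⌋₊ : ℕ) : ℝ) ≤ n p := Nat.floor_le (by linarith [hn p hp])
    have h4 : (2 : ℝ) ^ (k p) ≤ ((⌊n p⌋₊ : ℕ) : ℝ) := by exact_mod_cast h2
    exact h4.trans h3
  have hk2 : ∀ p ∈ F, n p ≤ (2 : ℝ) ^ (k p + 1) := by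
    intro p _
    have h2 : ⌊n p⌋₊ + 1 ≤ 2 ^ (k p + 1) := Nat.lt_pow_succ_log_self (by norm_num) _
    have h3 : n p < ⌊n p⌋₊ + 1 := Nat.lt_floor_add_one _
    have h4 : ((⌊n p⌋₊ : ℕ) : ℝ) + 1 ≤ (2 : ℝ) ^ (k p + 1) := by exact_mod_cast h2
    linarith
  have hmaps : ∀ p ∈ F, k p ∈ Finset.range (F.sup k + 1) := by
    intro p hp
    rw [Finset.mem_range]
    exact Nat.lt_succ_of_le (Finset.le_sup hp)
  rw [← Finset.sum_fiberwise_of_maps_to hmaps]
  have hblock : ∀ j ∈ Finset.range (F.sup k + 1),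
      ∑ p ∈ F.filter (fun p => k p = j), a p * n p ^ (-t) ≤ 2 * C * r ^ j := by
    intro j _
    have h2j : (0 : ℝ) < 2 ^ j := by positivity
    calc ∑ p ∈ F.filter (fun p => k p = j), a p * n p ^ (-t)
        ≤ ∑ p ∈ F.filter (fun p => k p = j), a p * ((2 : ℝ) ^ j) ^ (-t) := by
          apply Finset.sum_le_sum
          intro p hp
          rw [Finset.mem_filter] at hp
          apply mul_le_mul_of_nonneg_left _ (ha p hp.1)
          apply Real.rpow_le_rpow_of_nonpos h2j _ (by linarith)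
          rw [← hp.2]; exact hk1 p hp.1
      _ = (∑ p ∈ F.filter (fun p => k p = j), a p) * ((2 : ℝ) ^ j) ^ (-t) := by
          rw [Finset.sum_mul]
      _ ≤ (∑ p ∈ F.filter (fun p => n p ≤ (2 : ℝ) ^ (j + 1)), a p) * ((2 : ℝ) ^ j) ^ (-t) := by
          apply mul_le_mul_of_nonneg_right _ (Real.rpow_nonneg h2j.le _)
          apply Finset.sum_le_sum_of_subset_of_nonneg
          · intro p hp
            rw [Finset.mem_filter] at hp ⊢
            refine ⟨hp.1, ?_⟩
            rw [← hp.2]; exact hk2 p hp.1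
          · intro p hp _
            exact ha p (Finset.mem_of_mem_filter p hp)
      _ ≤ (C * (2 : ℝ) ^ (j + 1)) * ((2 : ℝ) ^ j) ^ (-t) := by
          apply mul_le_mul_of_nonneg_right _ (Real.rpow_nonneg h2j.le _)
          apply hC
          exact one_le_pow₀ (by norm_num)
      _ = 2 * C * r ^ j := by
          rw [mul_assoc, hid j]; ring
  calc ∑ j ∈ Finset.range (F.sup k + 1), ∑ p ∈ F.filter (fun p => k p = j), a p * n p ^ (-t)
      ≤ ∑ j ∈ Finset.range (F.sup k + 1), 2 * C * r ^ j := Finset.sum_le_sum hblock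
    _ = 2 * C * ∑ j ∈ Finset.range (F.sup k + 1), r ^ j := by rw [Finset.mul_sum]
    _ ≤ 2 * C * (1 / (1 - r)) :=
        mul_le_mul_of_nonneg_left (geom_sum_le_980 r hr0.le hr1 _) (by positivity)
    _ = 2 * C / (1 - r) := by ring

theorem log_one_add_ge_980 (y : ℝ) (hy : 0 ≤ y) : y - y ^ 2 ≤ Real.log (1 + y) := by
  have h1y : 0 < 1 + y := by linarith
  have h := Real.one_sub_inv_le_log_of_pos h1y
  have h2 : (1 + y)⁻¹ ≤ 1 - y + y ^ 2 := by
    rw [inv_eq_one_div, div_le_iff₀ h1y]
    nlinarith [pow_nonneg hy 3]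
  linarith

theorem one_sub_two_rpow_ge_980 (s : ℝ) (hs1 : 1 < s) (hs2 : s ≤ 2) :
    (s - 1) * Real.log 2 / 2 ≤ 1 - (2 : ℝ) ^ (-(s - 1)) := by
  have hlog2 : 0 < Real.log 2 := Real.log_pos (by norm_num)
  have hlog2' : Real.log 2 < 1 := by
    have := Real.log_two_lt_d9
    linarith
  have hs0 : 0 < s - 1 := by linarith
  obtain ⟨u, hu⟩ : ∃ u : ℝ, u = (s - 1) * Real.log 2 := ⟨_, rfl⟩
  have hu0 : 0 < u := by rw [hu]; positivity
  have hu1 : u ≤ 1 := by rw [hu]; nlinarith
  have e : (2 : ℝ) ^ (-(s - 1)) = Real.exp (-u) := by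
    rw [Real.rpow_def_of_pos (by norm_num), hu]
    congr 1
    ring
  rw [e, ← hu]
  have h1 : 1 + u ≤ Real.exp u := by linarith [Real.add_one_le_exp u]
  have h2 : Real.exp (-u) ≤ 1 / (1 + u) := by
    rw [Real.exp_neg, ← one_div]
    exact one_div_le_one_div_of_le (by linarith) h1
  have h3 : 1 / (1 + u) ≤ 1 - u / 2 := by
    rw [div_le_iff₀ (by linarith)]
    nlinarith
  linarith

theorem dirichlet_core_980 {ι : Type*} (N w : ι → ℝ) (C : ℝ) (T : Finset ι)
    (hN : ∀ i ∈ T, 2 ≤ N i) (hw : ∀ i ∈ T, 0 ≤ w i ∧ w i ≤ 4)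
    (hC : ∀ X : ℝ, 1 ≤ X →
      ∑ T' ∈ T.powerset.filter (fun T' => ∏ i ∈ T', N i ≤ X), ∏ i ∈ T', w i ≤ C * X)
    (s : ℝ) (hs1 : 1 < s) (hs2 : s ≤ 2) :
    ∑ i ∈ T, w i * N i ^ (-s) ≤
      Real.log (1 / (s - 1)) + (Real.log (4 * C / Real.log 2) + 16 * C) := by
  have hwT : ∀ T' ∈ T.powerset, 0 ≤ ∏ i ∈ T', w i := by
    intro T' hT'
    rw [Finset.mem_powerset] at hT'
    exact Finset.prod_nonneg (fun i hi => (hw i (hT' hi)).1)
  have hNT : ∀ T' ∈ T.powerset, 1 ≤ ∏ i ∈ T', N i := by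
    intro T' hT'
    rw [Finset.mem_powerset] at hT'
    calc (1 : ℝ) = ∏ _i ∈ T', (1 : ℝ) := by simp
      _ ≤ ∏ i ∈ T', N i :=
          Finset.prod_le_prod (fun _ _ => zero_le_one)
            (fun i hi => by linarith [hN i (hT' hi)])
  have hC1 : 1 ≤ C := by
    have h := hC 1 le_rfl
    have hmem : (∅ : Finset ι) ∈ T.powerset.filter (fun T' => ∏ i ∈ T', N i ≤ 1) := by
      rw [Finset.mem_filter]
      exact ⟨Finset.empty_mem_powerset T, by simp⟩
    have h2 := Finset.single_le_sum (f := fun T' => ∏ i ∈ T', w i)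
      (fun T' hT' => hwT T' (Finset.mem_of_mem_filter T' hT')) hmem
    simp only [Finset.prod_empty] at h2
    linarith
  have hlog2 : 0 < Real.log 2 := Real.log_pos (by norm_num)
  have hs0 : 0 < s - 1 := by linarith
  have hNpos : ∀ i ∈ T, 0 < N i := fun i hi => by linarith [hN i hi]
  have hx0 : ∀ i ∈ T, 0 ≤ w i * N i ^ (-s) :=
    fun i hi => mul_nonneg (hw i hi).1 (Real.rpow_nonneg (hNpos i hi).le _)
  -- the Euler product
  have hprod : ∏ i ∈ T, (1 + w i * N i ^ (-s)) =
      ∑ T' ∈ T.powerset, (∏ i ∈ T', w i) * (∏ i ∈ T', N i) ^ (-s) := by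
    rw [Finset.prod_one_add]
    apply Finset.sum_congr rfl
    intro T' hT'
    rw [Finset.mem_powerset] at hT'
    rw [Finset.prod_mul_distrib,
      Real.finsetProd_rpow _ _ (fun i hi => (hNpos i (hT' hi)).le)]
  have hP1 : ∏ i ∈ T, (1 + w i * N i ^ (-s)) ≤ 2 * C / (1 - (2 : ℝ) ^ (-(s - 1))) := by
    rw [hprod]
    exact dyadic_sum_le_980 T.powerset (fun T' => ∏ i ∈ T', w i) (fun T' => ∏ i ∈ T', N i)
      C s hwT hNT hC hs1
  have hP2 : ∏ i ∈ T, (1 + w i * N i ^ (-s)) ≤ (4 * C / Real.log 2) * (1 / (s - 1)) := by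
    refine hP1.trans ?_
    have hpos : 0 < (s - 1) * Real.log 2 / 2 := by positivity
    calc 2 * C / (1 - (2 : ℝ) ^ (-(s - 1))) ≤ 2 * C / ((s - 1) * Real.log 2 / 2) :=
          div_le_div_of_nonneg_left (by linarith) hpos (one_sub_two_rpow_ge_980 s hs1 hs2)
      _ = (4 * C / Real.log 2) * (1 / (s - 1)) := by
          field_simp
          ring
  have hPpos : 0 < ∏ i ∈ T, (1 + w i * N i ^ (-s)) :=
    Finset.prod_pos (fun i hi => by linarith [hx0 i hi])
  have hlogP : Real.log (∏ i ∈ T, (1 + w i * N i ^ (-s))) ≤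
      Real.log (1 / (s - 1)) + Real.log (4 * C / Real.log 2) := by
    calc Real.log (∏ i ∈ T, (1 + w i * N i ^ (-s)))
        ≤ Real.log ((4 * C / Real.log 2) * (1 / (s - 1))) := Real.log_le_log hPpos hP2
      _ = Real.log (4 * C / Real.log 2) + Real.log (1 / (s - 1)) :=
          Real.log_mul (by positivity) (by positivity)
      _ = _ := add_comm _ _
  have hlogsum : Real.log (∏ i ∈ T, (1 + w i * N i ^ (-s))) =
      ∑ i ∈ T, Real.log (1 + w i * N i ^ (-s)) :=
    Real.log_prod (fun i hi => by linarith [hx0 i hi])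
  -- the squares
  have hsq : ∑ i ∈ T, (w i * N i ^ (-s)) ^ 2 ≤ 16 * C := by
    have hA : ∑ i ∈ T, w i * N i ^ (-(2 : ℝ)) ≤ 2 * C / (1 - (2 : ℝ) ^ (-((2 : ℝ) - 1))) := by
      apply dyadic_sum_le_980 T w N C 2 (fun i hi => (hw i hi).1)
        (fun i hi => by linarith [hN i hi]) _ (by norm_num)
      intro X hX
      refine le_trans ?_ (hC X hX)
      have hmap : ∑ i ∈ T.filter (fun i => N i ≤ X), w i =
          ∑ T' ∈ (T.filter (fun i => N i ≤ X)).map
            ⟨(singleton : ι → Finset ι), Finset.singleton_injective⟩, ∏ i ∈ T', w i := by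
        rw [Finset.sum_map]
        simp
      rw [hmap]
      apply Finset.sum_le_sum_of_subset_of_nonneg
      · intro T' hT'
        rw [Finset.mem_map] at hT'
        obtain ⟨i, hi, rfl⟩ := hT'
        rw [Finset.mem_filter] at hi ⊢
        simp only [Function.Embedding.coeFn_mk, Finset.mem_powerset,
          Finset.singleton_subset_iff, Finset.prod_singleton]
        exact hi
      · intro T' hT' _
        exact hwT T' (Finset.mem_of_mem_filter T' hT')
    have h4C : 2 * C / (1 - (2 : ℝ) ^ (-((2 : ℝ) - 1))) = 4 * C := by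
      have h12 : (2 : ℝ) ^ (-((2 : ℝ) - 1)) = 1 / 2 := by
        rw [show (-((2 : ℝ) - 1)) = -1 by norm_num, Real.rpow_neg_one]
        norm_num
      rw [h12]
      ring
    rw [h4C] at hA
    calc ∑ i ∈ T, (w i * N i ^ (-s)) ^ 2 ≤ ∑ i ∈ T, 4 * (w i * N i ^ (-(2 : ℝ))) := by
          apply Finset.sum_le_sum
          intro i hi
          have hw0 := (hw i hi).1
          have hw4 := (hw i hi).2
          have hNi := hN i hi
          have hp : 0 ≤ N i ^ (-s) := Real.rpow_nonneg (by linarith) _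
          have hp2 : N i ^ (-s) * N i ^ (-s) ≤ N i ^ (-(2 : ℝ)) := by
            rw [← Real.rpow_add (by linarith)]
            exact Real.rpow_le_rpow_of_exponent_le (by linarith) (by linarith)
          calc (w i * N i ^ (-s)) ^ 2 = (w i * w i) * (N i ^ (-s) * N i ^ (-s)) := by ring
            _ ≤ (4 * w i) * N i ^ (-(2 : ℝ)) := by
                apply mul_le_mul _ hp2 (by positivity) (by linarith)
                nlinarith
            _ = 4 * (w i * N i ^ (-(2 : ℝ))) := by ring
      _ = 4 * ∑ i ∈ T, w i * N i ^ (-(2 : ℝ)) := by rw [Finset.mul_sum]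
      _ ≤ 4 * (4 * C) := by linarith
      _ = 16 * C := by ring
  calc ∑ i ∈ T, w i * N i ^ (-s)
      ≤ ∑ i ∈ T, (Real.log (1 + w i * N i ^ (-s)) + (w i * N i ^ (-s)) ^ 2) :=
        Finset.sum_le_sum (fun i hi => by
          linarith [log_one_add_ge_980 (w i * N i ^ (-s)) (hx0 i hi)])
    _ = Real.log (∏ i ∈ T, (1 + w i * N i ^ (-s))) + ∑ i ∈ T, (w i * N i ^ (-s)) ^ 2 := by
        rw [Finset.sum_add_distrib, hlogsum]
    _ ≤ (Real.log (1 / (s - 1)) + Real.log (4 * C / Real.log 2)) + 16 * C :=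
        add_le_add hlogP hsq
    _ = _ := by ring

end Fermat.Agent.LT.T7.H980

end
-- ===== PACK-END LT/T7/H980/DirichletCore.lean

-- ===== PACK-BEGIN LT/T7/H496/ExpSepCore.lean
section


/-!
# Row LT, tower T7, leaf `T7.C7 = ExpSepC` (SPARE, helper496): the analytic core, Mathlib only

OFF-MAIN.  Linear independence of the characters `(b, λ) ↦ b^k λ^m` (`k ∈ ℤ`, `m ≥ m₀`) on
absolutely summable families of atoms with `|b| = 1` and `|λ| = 1` or `λ² / b > 0`.

Route (NO Stone--Weierstrass, no regrouping of the two families before the end):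

1. `cesaro_isolate496`: Cesàro means isolate the atoms at `1` of a family in the closed unit
   disc (dominated convergence).  Applied in `k` it fixes `b = b₀`.
2. With `ζ₀² = b₀` the atoms `μ = λ / ζ₀` lie on the unit circle or on the real axis.
   `family_core496` regroups the family by points.
3. `real_atom_zero496`: for masses `d p` at points of `{|p| ≤ r} ∪ ℝ` with vanishing moments
   the Cauchy transform `G(t) = ∑ d(p) / (1 - p t)` vanishes near `0`
   (`cauchyG496_eq_zero_near`, geometric series with remainder), is holomorphic on the star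
   domain `{lowB496 r R > 0}` = the disc `|t| < 1/r` minus the real rays `|t| ≥ 1/R`
   (`differentiableOn_cauchyG496`), hence vanishes there (identity theorem); the vertical limit
   `t = 1/p₀ + iε`, `ε → 0⁺`, of `(1 - p₀ t) G(t)` is the mass at the real point `p₀`, `|p₀| > r`.
4. `core496`: `r = 1` kills the real atoms outside the unit disc, Cesàro means kill the atoms on
   the unit circle, `r = |p₀| / 2` kills the remaining real atoms.
-/

set_option autoImplicit false

open Filter Topology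

noncomputable section

namespace Fermat.Agent.LT.T7.ES496

/-! ## 1. Cesàro means isolate the atoms at `1` -/

/-- The Cesàro mean of the powers of `z`. -/
def cesaro496 (N : ℕ) (z : ℂ) : ℂ := (∑ k ∈ Finset.range N, z ^ k) / (N : ℂ)

theorem cesaro496_one {N : ℕ} (hN : 0 < N) : cesaro496 N 1 = 1 := by
  unfold cesaro496
  simp only [one_pow, Finset.sum_const, Finset.card_range, nsmul_eq_mul, mul_one]
  exact div_self (Nat.cast_ne_zero.2 hN.ne')

theorem norm_cesaro496_le (N : ℕ) {z : ℂ} (hz : ‖z‖ ≤ 1) : ‖cesaro496 N z‖ ≤ 1 := by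
  unfold cesaro496
  rcases Nat.eq_zero_or_pos N with h0 | hN
  · subst h0; simp
  rw [norm_div, Complex.norm_natCast]
  rw [div_le_one (by exact_mod_cast hN)]
  calc ‖∑ k ∈ Finset.range N, z ^ k‖ ≤ ∑ k ∈ Finset.range N, ‖z ^ k‖ := norm_sum_le _ _
    _ ≤ ∑ _k ∈ Finset.range N, (1 : ℝ) := by
        apply Finset.sum_le_sum
        intro k _
        rw [norm_pow]
        exact pow_le_one₀ (norm_nonneg _) hz
    _ = N := by simp

theorem tendsto_cesaro496 {z : ℂ} (hz : ‖z‖ ≤ 1) (hz1 : z ≠ 1) :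
    Tendsto (fun N : ℕ => cesaro496 N z) atTop (𝓝 0) := by
  have h1z : (1 : ℂ) - z ≠ 0 := sub_ne_zero.2 (Ne.symm hz1)
  have hbound : ∀ N : ℕ, ‖cesaro496 N z‖ ≤ (2 / ‖1 - z‖) * (1 / (N : ℝ)) := by
    intro N
    unfold cesaro496
    have hgeo : (∑ k ∈ Finset.range N, z ^ k) = (1 - z ^ N) / (1 - z) := by
      rw [eq_div_iff h1z]
      have := mul_neg_geom_sum z N
      rw [mul_comm] at this
      rw [← this]
    rw [hgeo, norm_div, norm_div, Complex.norm_natCast]
    have h2 : ‖1 - z ^ N‖ ≤ 2 := by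
      calc ‖1 - z ^ N‖ ≤ ‖(1 : ℂ)‖ + ‖z ^ N‖ := norm_sub_le _ _
        _ ≤ 1 + 1 := by
            rw [norm_one, norm_pow]
            exact add_le_add le_rfl (pow_le_one₀ (norm_nonneg _) hz)
        _ = 2 := by norm_num
    have hpos : 0 < ‖1 - z‖ := norm_pos_iff.2 h1z
    rw [div_mul_div_comm, mul_one, div_div]
    apply div_le_div_of_nonneg_right h2
    exact mul_nonneg hpos.le (Nat.cast_nonneg _)
  have hlim : Tendsto (fun N : ℕ => (2 / ‖1 - z‖) * (1 / (N : ℝ))) atTop (𝓝 0) := by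
    have := tendsto_one_div_atTop_nhds_zero_nat.const_mul (2 / ‖1 - z‖)
    simpa using this
  exact squeeze_zero_norm hbound hlim

/-- **Cesàro isolation.**  If `∑ e_i z_i^k = 0` for all `k`, `|z_i| ≤ 1`, then the total
coefficient of the indices with `z_i = 1` is zero. -/
theorem cesaro_isolate496 {I : Type*} (e : I → ℂ) (z : I → ℂ) (he : Summable fun i => ‖e i‖)
    (hz : ∀ i, ‖z i‖ ≤ 1) (h : ∀ k : ℕ, ∑' i, e i * z i ^ k = 0) :
    ∑' i, (if z i = 1 then e i else 0) = 0 := by
  classical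
  have hsum : ∀ k : ℕ, Summable fun i => e i * z i ^ k := by
    intro k
    refine Summable.of_norm_bounded he (fun i => ?_)
    rw [norm_mul, norm_pow]
    calc ‖e i‖ * ‖z i‖ ^ k ≤ ‖e i‖ * 1 :=
          mul_le_mul_of_nonneg_left (pow_le_one₀ (norm_nonneg _) (hz i)) (norm_nonneg _)
      _ = ‖e i‖ := mul_one _
  have hzero : ∀ N : ℕ, ∑' i, e i * cesaro496 N (z i) = 0 := by
    intro N
    have h1 : ∀ i, e i * cesaro496 N (z i)
        = (∑ k ∈ Finset.range N, e i * z i ^ k) / (N : ℂ) := by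
      intro i
      unfold cesaro496
      rw [mul_div_assoc', Finset.mul_sum]
    simp_rw [h1]
    rw [tsum_div_const, Summable.tsum_finsetSum (fun k _ => hsum k)]
    simp [h]
  have hlim : Tendsto (fun N : ℕ => ∑' i, e i * cesaro496 N (z i)) atTop
      (𝓝 (∑' i, (if z i = 1 then e i else 0))) := by
    refine tendsto_tsum_of_dominated_convergence (bound := fun i => ‖e i‖) he ?_ ?_
    · intro i
      by_cases hi : z i = 1
      · rw [if_pos hi, hi]
        refine tendsto_const_nhds.congr' ?_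
        filter_upwards [eventually_gt_atTop 0] with N hN
        rw [cesaro496_one hN, mul_one]
      · rw [if_neg hi]
        have := (tendsto_cesaro496 (hz i) hi).const_mul (e i)
        simpa using this
    · refine Eventually.of_forall fun N i => ?_
      rw [norm_mul]
      calc ‖e i‖ * ‖cesaro496 N (z i)‖ ≤ ‖e i‖ * 1 :=
            mul_le_mul_of_nonneg_left (norm_cesaro496_le N (hz i)) (norm_nonneg _)
        _ = ‖e i‖ := mul_one _
  have hconst : Tendsto (fun N : ℕ => ∑' i, e i * cesaro496 N (z i)) atTop (𝓝 0) := by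
    simp_rw [hzero]
    exact tendsto_const_nhds
  exact tendsto_nhds_unique hlim hconst


/-! ## 2. The Cauchy transform of an atomic measure -/

/-- The atoms lie in the closed disc of radius `r` or on the real axis, and in the closed disc
of radius `R`. -/
def Supp496 (d : ℂ → ℂ) (r R : ℝ) : Prop :=
  ∀ p, d p ≠ 0 → ‖p‖ ≤ R ∧ (‖p‖ ≤ r ∨ p.im = 0)

/-- A lower bound for `|1 - p t|`, uniform in the atoms `p`. -/
def lowB496 (r R : ℝ) (t : ℂ) : ℝ := min (1 - r * ‖t‖) (max (r * |t.im|) (1 - R * ‖t‖))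

theorem continuous_lowB496 (r R : ℝ) : Continuous (lowB496 r R) := by
  unfold lowB496
  fun_prop

theorem lowB496_le {d : ℂ → ℂ} {r R : ℝ} (hsupp : Supp496 d r R) {p : ℂ}
    (hp : d p ≠ 0) (t : ℂ) : lowB496 r R t ≤ ‖1 - p * t‖ := by
  obtain ⟨hpR, hcase⟩ := hsupp p hp
  have hbase : ∀ c : ℝ, ‖p‖ ≤ c → 1 - c * ‖t‖ ≤ ‖1 - p * t‖ := by
    intro c hc
    have h1 : ‖(1 : ℂ)‖ - ‖p * t‖ ≤ ‖1 - p * t‖ := norm_sub_norm_le _ _
    rw [norm_one, norm_mul] at h1
    have h2 : ‖p‖ * ‖t‖ ≤ c * ‖t‖ := mul_le_mul_of_nonneg_right hc (norm_nonneg _)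
    linarith
  by_cases hpr : ‖p‖ ≤ r
  · exact (min_le_left _ _).trans (hbase r hpr)
  · have him : p.im = 0 := by
      rcases hcase with h | h
      · exact absurd h hpr
      · exact h
    rw [not_le] at hpr
    refine (min_le_right _ _).trans (max_le ?_ (hbase R hpR))
    have h1 : |(1 - p * t).im| ≤ ‖1 - p * t‖ := Complex.abs_im_le_norm _
    have h2 : (1 - p * t).im = -(p.re * t.im) := by
      simp [Complex.sub_im, Complex.mul_im, him]
    have h3 : ‖p‖ = |p.re| := by
      have : p = (p.re : ℂ) := Complex.ext rfl (by simp [him])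
      conv_lhs => rw [this]
      exact Complex.norm_real _
    rw [h2, abs_neg, abs_mul, ← h3] at h1
    calc r * |t.im| ≤ ‖p‖ * |t.im| := mul_le_mul_of_nonneg_right hpr.le (abs_nonneg _)
      _ ≤ ‖1 - p * t‖ := h1

/-- The Cauchy transform `G(t) = ∑ d(p) / (1 - p t)`. -/
def cauchyG496 (d : ℂ → ℂ) (t : ℂ) : ℂ := ∑' p, d p * (1 - p * t)⁻¹

theorem summable_moment496 {d : ℂ → ℂ} (hd : Summable fun p => ‖d p‖) {R : ℝ}
    (hsuppR : ∀ p, d p ≠ 0 → ‖p‖ ≤ R) (m : ℕ) : Summable fun p => d p * p ^ m := by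
  refine Summable.of_norm_bounded (hd.mul_right (R ^ m)) (fun p => ?_)
  by_cases hp : d p = 0
  · simp [hp]
  · rw [norm_mul, norm_pow]
    exact mul_le_mul_of_nonneg_left
      (pow_le_pow_left₀ (norm_nonneg _) (hsuppR p hp) m) (norm_nonneg _)

/-- `G` vanishes near `0` if all the moments vanish. -/
theorem cauchyG496_eq_zero_near {d : ℂ → ℂ} (hd : Summable fun p => ‖d p‖) {R : ℝ}
    (hR : 0 < R) (hsuppR : ∀ p, d p ≠ 0 → ‖p‖ ≤ R)
    (hmom : ∀ m : ℕ, ∑' p, d p * p ^ m = 0) {t : ℂ} (ht : ‖t‖ < 1 / R) :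
    cauchyG496 d t = 0 := by
  set q : ℝ := R * ‖t‖ with hq
  have hq0 : 0 ≤ q := mul_nonneg hR.le (norm_nonneg _)
  have hq1 : q < 1 := by
    rw [hq]
    calc R * ‖t‖ < R * (1 / R) := mul_lt_mul_of_pos_left ht hR
      _ = 1 := by field_simp
  have hpt : ∀ p, d p ≠ 0 → ‖p * t‖ ≤ q := by
    intro p hp
    rw [norm_mul, hq]
    exact mul_le_mul_of_nonneg_right (hsuppR p hp) (norm_nonneg _)
  have hinv : ∀ p, d p ≠ 0 → ‖(1 - p * t)⁻¹‖ ≤ (1 - q)⁻¹ := by
    intro p hp
    rw [norm_inv]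
    have h1 : ‖(1 : ℂ)‖ - ‖p * t‖ ≤ ‖1 - p * t‖ := norm_sub_norm_le _ _
    rw [norm_one] at h1
    have h2 := hpt p hp
    have h3 : 0 < 1 - q := by linarith
    exact inv_anti₀ h3 (by linarith)
  have hne : ∀ p, d p ≠ 0 → (1 : ℂ) - p * t ≠ 0 := by
    intro p hp h0
    have h1 : ‖(1 : ℂ)‖ - ‖p * t‖ ≤ ‖1 - p * t‖ := norm_sub_norm_le _ _
    rw [h0, norm_zero, norm_one] at h1
    have := hpt p hp
    linarith
  -- the remainder
  have hrem : ∀ M : ℕ, ∀ p, d p * (1 - p * t)⁻¹
      = (∑ m ∈ Finset.range M, d p * p ^ m * t ^ m) + d p * ((p * t) ^ M * (1 - p * t)⁻¹) := by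
    intro M p
    by_cases hp : d p = 0
    · simp [hp]
    · have hx := hne p hp
      have hgeo : (∑ m ∈ Finset.range M, (p * t) ^ m) * (1 - p * t) = 1 - (p * t) ^ M := by
        have := mul_neg_geom_sum (p * t) M
        rw [mul_comm] at this
        exact this
      have h0 : ((∑ m ∈ Finset.range M, (p * t) ^ m) + (p * t) ^ M * (1 - p * t)⁻¹)
          * (1 - p * t) = 1 := by
        rw [add_mul, hgeo, mul_assoc, inv_mul_cancel₀ hx]
        ring
      have h1 : (1 - p * t)⁻¹
          = (∑ m ∈ Finset.range M, (p * t) ^ m) + (p * t) ^ M * (1 - p * t)⁻¹ :=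
        (eq_inv_of_mul_eq_one_left h0).symm
      calc d p * (1 - p * t)⁻¹
          = d p * ((∑ m ∈ Finset.range M, (p * t) ^ m) + (p * t) ^ M * (1 - p * t)⁻¹) := by
            rw [← h1]
        _ = (∑ m ∈ Finset.range M, d p * p ^ m * t ^ m)
              + d p * ((p * t) ^ M * (1 - p * t)⁻¹) := by
            rw [mul_add, Finset.mul_sum]
            congr 1
            apply Finset.sum_congr rfl
            intro m _
            rw [mul_pow]
            ring
  have hsm : ∀ m : ℕ, Summable fun p => d p * p ^ m * t ^ m := fun m =>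
    (summable_moment496 hd hsuppR m).mul_right _
  have hsrem : ∀ M : ℕ, Summable fun p => d p * ((p * t) ^ M * (1 - p * t)⁻¹) := by
    intro M
    refine Summable.of_norm_bounded (hd.mul_right (q ^ M * (1 - q)⁻¹)) (fun p => ?_)
    by_cases hp : d p = 0
    · simp [hp]
    · rw [norm_mul, norm_mul, norm_pow]
      apply mul_le_mul_of_nonneg_left _ (norm_nonneg _)
      exact mul_le_mul (pow_le_pow_left₀ (norm_nonneg _) (hpt p hp) M) (hinv p hp)
        (norm_nonneg _) (pow_nonneg hq0 M)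
  have hbound : ∀ M : ℕ, ‖cauchyG496 d t‖ ≤ (∑' p, ‖d p‖) * (1 - q)⁻¹ * q ^ M := by
    intro M
    have h1 : cauchyG496 d t = ∑' p, d p * ((p * t) ^ M * (1 - p * t)⁻¹) := by
      unfold cauchyG496
      have h2 : (fun p => d p * (1 - p * t)⁻¹)
          = fun p => (∑ m ∈ Finset.range M, d p * p ^ m * t ^ m)
              + d p * ((p * t) ^ M * (1 - p * t)⁻¹) := funext (hrem M)
      rw [h2, Summable.tsum_add (summable_sum fun m _ => hsm m) (hsrem M),
        Summable.tsum_finsetSum (fun m _ => hsm m)]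
      have h3 : ∀ m ∈ Finset.range M, ∑' p, d p * p ^ m * t ^ m = 0 := by
        intro m _
        rw [tsum_mul_right, hmom m, zero_mul]
      rw [Finset.sum_eq_zero h3, zero_add]
    rw [h1]
    have hsn : Summable fun p => ‖d p * ((p * t) ^ M * (1 - p * t)⁻¹)‖ := by
      refine Summable.of_nonneg_of_le (fun _ => norm_nonneg _) (fun p => ?_)
        (hd.mul_right (q ^ M * (1 - q)⁻¹))
      by_cases hp : d p = 0
      · simp [hp]
      · rw [norm_mul, norm_mul, norm_pow]
        apply mul_le_mul_of_nonneg_left _ (norm_nonneg _)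
        exact mul_le_mul (pow_le_pow_left₀ (norm_nonneg _) (hpt p hp) M) (hinv p hp)
          (norm_nonneg _) (pow_nonneg hq0 M)
    refine (norm_tsum_le_tsum_norm hsn).trans ?_
    have : (∑' p, ‖d p‖) * (1 - q)⁻¹ * q ^ M = ∑' p, ‖d p‖ * (q ^ M * (1 - q)⁻¹) := by
      rw [tsum_mul_right]; ring
    rw [this]
    refine hsn.tsum_le_tsum (fun p => ?_) (hd.mul_right _)
    by_cases hp : d p = 0
    · simp [hp]
    · rw [norm_mul, norm_mul, norm_pow]
      apply mul_le_mul_of_nonneg_left _ (norm_nonneg _)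
      exact mul_le_mul (pow_le_pow_left₀ (norm_nonneg _) (hpt p hp) M) (hinv p hp)
        (norm_nonneg _) (pow_nonneg hq0 M)
  have hlim : Tendsto (fun M : ℕ => (∑' p, ‖d p‖) * (1 - q)⁻¹ * q ^ M) atTop (𝓝 0) := by
    have := (tendsto_pow_atTop_nhds_zero_of_lt_one hq0 hq1).const_mul
      ((∑' p, ‖d p‖) * (1 - q)⁻¹)
    simpa using this
  have hle : ‖cauchyG496 d t‖ ≤ 0 := ge_of_tendsto' hlim hbound
  exact norm_le_zero_iff.mp hle

/-- `G` is holomorphic where the lower bound is positive. -/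
theorem differentiableOn_cauchyG496 {d : ℂ → ℂ} (hd : Summable fun p => ‖d p‖) {r R : ℝ}
    (hsupp : Supp496 d r R) :
    DifferentiableOn ℂ (cauchyG496 d) {t | 0 < lowB496 r R t} := by
  intro t₁ ht₁
  have ht₁' : 0 < lowB496 r R t₁ := ht₁
  set c : ℝ := lowB496 r R t₁ / 2 with hc
  have hc0 : 0 < c := by rw [hc]; linarith
  set V : Set ℂ := {t | c < lowB496 r R t} with hV
  have hVopen : IsOpen V := isOpen_lt continuous_const (continuous_lowB496 r R)
  have ht₁V : t₁ ∈ V := by
    show c < lowB496 r R t₁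
    rw [hc]; linarith
  have hne : ∀ p, d p ≠ 0 → ∀ t ∈ V, (1 : ℂ) - p * t ≠ 0 := by
    intro p hp t ht h0
    have h1 := lowB496_le hsupp hp t
    rw [h0, norm_zero] at h1
    have : c < lowB496 r R t := ht
    linarith
  have hdiff : DifferentiableOn ℂ (fun t => ∑' p, d p * (1 - p * t)⁻¹) V := by
    refine Complex.differentiableOn_tsum_of_summable_norm (u := fun p => ‖d p‖ * c⁻¹)
      (hd.mul_right _) ?_ hVopen ?_
    · intro p
      by_cases hp : d p = 0
      · simp only [hp, zero_mul]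
        exact differentiableOn_const _
      · intro t ht
        have h1 : DifferentiableAt ℂ (fun t : ℂ => (1 : ℂ) - p * t) t := by fun_prop
        exact ((differentiableAt_const _).mul (h1.inv (hne p hp t ht))).differentiableWithinAt
    · intro p t ht
      by_cases hp : d p = 0
      · simp [hp]
      · rw [norm_mul, norm_inv]
        apply mul_le_mul_of_nonneg_left _ (norm_nonneg _)
        have h1 := lowB496_le hsupp hp t
        have h2 : c < lowB496 r R t := ht
        exact inv_anti₀ hc0 (by linarith)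
  exact (hdiff.differentiableAt (hVopen.mem_nhds ht₁V)).differentiableWithinAt

theorem isOpen_lowB496 (r R : ℝ) : IsOpen {t | 0 < lowB496 r R t} :=
  isOpen_lt continuous_const (continuous_lowB496 r R)

theorem zero_mem_lowB496 (r R : ℝ) : (0 : ℂ) ∈ {t | 0 < lowB496 r R t} := by
  show 0 < lowB496 r R 0
  unfold lowB496
  simp

theorem starConvex_lowB496 {r R : ℝ} (hr : 0 < r) (hR : 0 ≤ R) :
    StarConvex ℝ (0 : ℂ) {t | 0 < lowB496 r R t} := by
  intro t ht a b _ hb hab
  have hb1 : b ≤ 1 := by linarith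
  have ht' : 0 < lowB496 r R t := ht
  show 0 < lowB496 r R (a • (0 : ℂ) + b • t)
  rw [smul_zero, zero_add]
  unfold lowB496 at ht' ⊢
  rw [lt_min_iff, lt_max_iff] at ht' ⊢
  have hn : ‖b • t‖ = b * ‖t‖ := by
    rw [norm_smul, Real.norm_eq_abs, abs_of_nonneg hb]
  have him : (b • t).im = b * t.im := by
    simp
  have hle : b * ‖t‖ ≤ ‖t‖ := by
    calc b * ‖t‖ ≤ 1 * ‖t‖ := mul_le_mul_of_nonneg_right hb1 (norm_nonneg _)
      _ = ‖t‖ := one_mul _
  rw [hn, him]
  refine ⟨?_, ?_⟩
  · have := mul_le_mul_of_nonneg_left hle hr.le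
    linarith [ht'.1]
  · rcases ht'.2 with h | h
    · rcases eq_or_lt_of_le hb with hb0 | hbpos
      · right
        rw [← hb0]
        simp
      · left
        rw [abs_mul, abs_of_pos hbpos]
        have h' : 0 < |t.im| := by
          by_contra hcon
          have : |t.im| = 0 := le_antisymm (not_lt.mp hcon) (abs_nonneg _)
          rw [this, mul_zero] at h
          exact lt_irrefl _ h
        positivity
    · right
      have := mul_le_mul_of_nonneg_left hle hR
      linarith

/-- `G` vanishes on the whole star domain. -/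
theorem cauchyG496_eq_zero {d : ℂ → ℂ} (hd : Summable fun p => ‖d p‖) {r R : ℝ}
    (hr : 0 < r) (hR : 0 < R) (hsupp : Supp496 d r R)
    (hmom : ∀ m : ℕ, ∑' p, d p * p ^ m = 0) {t : ℂ} (ht : 0 < lowB496 r R t) :
    cauchyG496 d t = 0 := by
  have han : AnalyticOnNhd ℂ (cauchyG496 d) {t | 0 < lowB496 r R t} :=
    (differentiableOn_cauchyG496 hd hsupp).analyticOnNhd (isOpen_lowB496 r R)
  have hpre : IsPreconnected {t : ℂ | 0 < lowB496 r R t} :=
    ((starConvex_lowB496 hr hR.le).isPathConnected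
      (zero_mem_lowB496 r R)).isConnected.isPreconnected
  have hnear : cauchyG496 d =ᶠ[𝓝 (0 : ℂ)] 0 := by
    have hball : Metric.ball (0 : ℂ) (1 / R) ∈ 𝓝 (0 : ℂ) :=
      Metric.ball_mem_nhds _ (by positivity)
    filter_upwards [hball] with t ht
    rw [Metric.mem_ball, dist_zero_right] at ht
    exact cauchyG496_eq_zero_near hd hR (fun p hp => (hsupp p hp).1) hmom ht
  exact han.eqOn_zero_of_preconnected_of_eventuallyEq_zero hpre (zero_mem_lowB496 r R) hnear ht

/-- **Real atoms outside the disc of radius `r` carry no mass.** -/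
theorem real_atom_zero496 {d : ℂ → ℂ} (hd : Summable fun p => ‖d p‖) {r R : ℝ}
    (hr : 0 < r) (hR : 0 < R) (hsupp : Supp496 d r R)
    (hmom : ∀ m : ℕ, ∑' p, d p * p ^ m = 0) {p₀ : ℂ} (hp₀ : p₀.im = 0) (hp₀r : r < ‖p₀‖) :
    d p₀ = 0 := by
  classical
  have hp₀0 : p₀ ≠ 0 := by
    intro h0
    rw [h0, norm_zero] at hp₀r
    linarith
  have hp₀pos : 0 < ‖p₀‖ := norm_pos_iff.2 hp₀0
  set u : ℂ := p₀⁻¹ with hu
  have huim : u.im = 0 := by
    rw [hu, Complex.inv_im, hp₀]
    simp
  have hunorm : ‖u‖ = ‖p₀‖⁻¹ := by rw [hu, norm_inv]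
  have hur : ‖u‖ < 1 / r := by
    rw [hunorm, one_div]
    exact inv_strictAnti₀ hr hp₀r
  set ε₀ : ℝ := (1 / r - ‖u‖) / 2 with hε₀
  have hε₀pos : 0 < ε₀ := by rw [hε₀]; linarith
  set c₁ : ℝ := 1 - r * (‖u‖ + ε₀) with hc₁
  have hc₁pos : 0 < c₁ := by
    have h1 : ‖u‖ + ε₀ < 1 / r := by rw [hε₀]; linarith
    have h2 : r * (‖u‖ + ε₀) < r * (1 / r) := mul_lt_mul_of_pos_left h1 hr
    have h3 : r * (1 / r) = 1 := by field_simp
    rw [hc₁]; linarith
  -- the points `t_ε = 1/p₀ + i ε`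
  let tt : ℝ → ℂ := fun ε => u + (ε : ℂ) * Complex.I
  have htt_im : ∀ ε : ℝ, (tt ε).im = ε := by
    intro ε
    simp [tt, huim]
  have htt_norm : ∀ ε : ℝ, 0 ≤ ε → ‖tt ε‖ ≤ ‖u‖ + ε := by
    intro ε hε
    calc ‖tt ε‖ ≤ ‖u‖ + ‖(ε : ℂ) * Complex.I‖ := norm_add_le _ _
      _ = ‖u‖ + ε := by
          rw [norm_mul, Complex.norm_I, mul_one, Complex.norm_real, Real.norm_eq_abs,
            abs_of_nonneg hε]
  have hone : ∀ ε : ℝ, (1 : ℂ) - p₀ * tt ε = -(p₀ * ((ε : ℂ) * Complex.I)) := by
    intro ε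
    simp only [tt]
    rw [mul_add, hu, mul_inv_cancel₀ hp₀0]
    ring
  have hone_norm : ∀ ε : ℝ, 0 ≤ ε → ‖(1 : ℂ) - p₀ * tt ε‖ = ‖p₀‖ * ε := by
    intro ε hε
    rw [hone, norm_neg, norm_mul, norm_mul, Complex.norm_I, mul_one, Complex.norm_real,
      Real.norm_eq_abs, abs_of_nonneg hε]
  have hlow : ∀ ε : ℝ, 0 < ε → ε < ε₀ → 0 < lowB496 r R (tt ε) := by
    intro ε hε hεε
    unfold lowB496
    rw [lt_min_iff, lt_max_iff]
    refine ⟨?_, Or.inl ?_⟩
    · have h1 := htt_norm ε hε.le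
      have h2 : r * ‖tt ε‖ ≤ r * (‖u‖ + ε₀) :=
        mul_le_mul_of_nonneg_left (by linarith) hr.le
      rw [hc₁] at hc₁pos
      linarith
    · rw [htt_im, abs_of_pos hε]
      positivity
  -- the family
  let f : ℝ → ℂ → ℂ := fun ε p => d p * (((1 : ℂ) - p₀ * tt ε) * ((1 : ℂ) - p * tt ε)⁻¹)
  have hfsum : ∀ ε : ℝ, 0 < ε → ε < ε₀ → ∑' p, f ε p = 0 := by
    intro ε hε hεε
    have h1 : ∀ p, f ε p = ((1 : ℂ) - p₀ * tt ε) * (d p * ((1 : ℂ) - p * tt ε)⁻¹) := by
      intro p
      simp only [f]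
      ring
    simp_rw [h1]
    rw [tsum_mul_left]
    have := cauchyG496_eq_zero hd hr hR hsupp hmom (hlow ε hε hεε)
    unfold cauchyG496 at this
    rw [this, mul_zero]
  set C : ℝ := max (‖p₀‖ / r) (‖p₀‖ * ε₀ / c₁) with hC
  have hCnn : 0 ≤ C := le_max_of_le_left (by positivity)
  have hbound : ∀ ε : ℝ, 0 < ε → ε < ε₀ → ∀ p, ‖f ε p‖ ≤ ‖d p‖ * C := by
    intro ε hε hεε p
    by_cases hp : d p = 0
    · simp [f, hp]
    simp only [f]
    rw [norm_mul, norm_mul, norm_inv, hone_norm ε hε.le]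
    apply mul_le_mul_of_nonneg_left _ (norm_nonneg _)
    obtain ⟨hpR, hcase⟩ := hsupp p hp
    by_cases hpr : ‖p‖ ≤ r
    · -- atoms in the small disc
      have h1 : c₁ ≤ ‖(1 : ℂ) - p * tt ε‖ := by
        have h2 : ‖(1 : ℂ)‖ - ‖p * tt ε‖ ≤ ‖1 - p * tt ε‖ := norm_sub_norm_le _ _
        rw [norm_one, norm_mul] at h2
        have h3 : ‖p‖ * ‖tt ε‖ ≤ r * (‖u‖ + ε₀) :=
          mul_le_mul hpr ((htt_norm ε hε.le).trans (by linarith)) (norm_nonneg _) hr.le
        rw [hc₁]; linarith
      calc ‖p₀‖ * ε * ‖(1 : ℂ) - p * tt ε‖⁻¹ ≤ ‖p₀‖ * ε₀ * c₁⁻¹ := by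
            apply mul_le_mul _ (inv_anti₀ hc₁pos h1) (inv_nonneg.2 (norm_nonneg _))
              (by positivity)
            exact mul_le_mul_of_nonneg_left hεε.le (norm_nonneg _)
        _ = ‖p₀‖ * ε₀ / c₁ := by rw [div_eq_mul_inv]
        _ ≤ C := le_max_right _ _
    · -- real atoms
      rw [not_le] at hpr
      have him : p.im = 0 := by
        rcases hcase with h | h
        · exact absurd h (not_le.2 hpr)
        · exact h
      have h1 : r * ε ≤ ‖(1 : ℂ) - p * tt ε‖ := by
        have h2 : |((1 : ℂ) - p * tt ε).im| ≤ ‖(1 : ℂ) - p * tt ε‖ := Complex.abs_im_le_norm _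
        have h3 : ((1 : ℂ) - p * tt ε).im = -(p.re * ε) := by
          simp [Complex.sub_im, Complex.mul_im, him, htt_im]
        have h4 : ‖p‖ = |p.re| := by
          have : p = (p.re : ℂ) := Complex.ext rfl (by simp [him])
          conv_lhs => rw [this]
          exact Complex.norm_real _
        rw [h3, abs_neg, abs_mul, ← h4, abs_of_pos hε] at h2
        calc r * ε ≤ ‖p‖ * ε := mul_le_mul_of_nonneg_right hpr.le hε.le
          _ ≤ _ := h2
      have hrε : 0 < r * ε := mul_pos hr hε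
      calc ‖p₀‖ * ε * ‖(1 : ℂ) - p * tt ε‖⁻¹ ≤ ‖p₀‖ * ε * (r * ε)⁻¹ :=
            mul_le_mul_of_nonneg_left (inv_anti₀ hrε h1) (by positivity)
        _ = ‖p₀‖ / r := by field_simp
        _ ≤ C := le_max_left _ _
  -- the limit
  have hlim : Tendsto (fun ε : ℝ => ∑' p, f ε p) (𝓝[>] (0 : ℝ))
      (𝓝 (∑' p, (if p = p₀ then d p₀ else 0))) := by
    refine tendsto_tsum_of_dominated_convergence (bound := fun p => ‖d p‖ * C)
      (hd.mul_right C) ?_ ?_
    · intro p
      by_cases hpp : p = p₀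
      · rw [if_pos hpp]
        refine tendsto_const_nhds.congr' ?_
        filter_upwards [self_mem_nhdsWithin] with ε hε
        have hε' : 0 < ε := hε
        simp only [f]
        rw [hpp]
        have hne : (1 : ℂ) - p₀ * tt ε ≠ 0 := by
          intro h0
          have := hone_norm ε hε'.le
          rw [h0, norm_zero] at this
          have : 0 < ‖p₀‖ * ε := mul_pos hp₀pos hε'
          linarith
        rw [mul_inv_cancel₀ hne, mul_one]
      · rw [if_neg hpp]
        have hden : (1 : ℂ) - p * tt 0 ≠ 0 := by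
          simp only [tt, Complex.ofReal_zero, zero_mul, add_zero]
          intro h0
          have h1 : p * u = 1 := (sub_eq_zero.mp h0).symm
          have h2 : p = p₀ := by
            have := congrArg (fun x => x * p₀) h1
            simp only [hu, mul_assoc, inv_mul_cancel₀ hp₀0, mul_one, one_mul] at this
            exact this
          exact hpp h2
        have hcont : ContinuousAt
            (fun ε : ℝ => d p * (((1 : ℂ) - p₀ * tt ε) * ((1 : ℂ) - p * tt ε)⁻¹)) 0 := by
          have htc : Continuous tt := by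
            simp only [tt]
            fun_prop
          have h1 : ContinuousAt (fun ε : ℝ => (1 : ℂ) - p₀ * tt ε) 0 := by fun_prop
          have h2 : ContinuousAt (fun ε : ℝ => (1 : ℂ) - p * tt ε) 0 := by fun_prop
          exact continuousAt_const.mul (h1.mul (h2.inv₀ hden))
        have hval : d p * (((1 : ℂ) - p₀ * tt 0) * ((1 : ℂ) - p * tt 0)⁻¹) = 0 := by
          have : (1 : ℂ) - p₀ * tt 0 = 0 := by
            rw [hone]
            simp
          rw [this, zero_mul, mul_zero]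
        have := hcont.tendsto
        rw [hval] at this
        exact tendsto_nhdsWithin_of_tendsto_nhds this
    · have hmem : Set.Ioo (0 : ℝ) ε₀ ∈ 𝓝[>] (0 : ℝ) := Ioo_mem_nhdsGT hε₀pos
      filter_upwards [hmem] with ε hε
      exact fun p => hbound ε hε.1 hε.2 p
  have hzero : Tendsto (fun ε : ℝ => ∑' p, f ε p) (𝓝[>] (0 : ℝ)) (𝓝 0) := by
    refine tendsto_const_nhds.congr' ?_
    have hmem : Set.Ioo (0 : ℝ) ε₀ ∈ 𝓝[>] (0 : ℝ) := Ioo_mem_nhdsGT hε₀pos
    filter_upwards [hmem] with ε hε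
    exact (hfsum ε hε.1 hε.2).symm
  have := tendsto_nhds_unique hlim hzero
  rw [tsum_ite_eq] at this
  exact this

/-! ## 3. The core: atoms on the unit circle and on the real axis -/

/-- **CORE.**  An absolutely summable family of masses `d p` at points `p ≠ 0` of the unit
circle and of the real axis (bounded), all of whose moments vanish, is zero. -/
theorem core496 {d : ℂ → ℂ} (hd : Summable fun p => ‖d p‖) {R : ℝ}
    (hsupp : ∀ p, d p ≠ 0 → p ≠ 0 ∧ ‖p‖ ≤ R ∧ (‖p‖ = 1 ∨ p.im = 0))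
    (hmom : ∀ m : ℕ, ∑' p, d p * p ^ m = 0) : ∀ p, d p = 0 := by
  classical
  set R' : ℝ := max R 1 with hR'
  have hR'pos : 0 < R' := lt_of_lt_of_le one_pos (le_max_right _ _)
  -- Step A: the real atoms outside the unit disc
  have hsuppA : Supp496 d 1 R' := by
    intro p hp
    obtain ⟨_, h1, h2⟩ := hsupp p hp
    refine ⟨h1.trans (le_max_left _ _), ?_⟩
    rcases h2 with h | h
    · exact Or.inl h.le
    · exact Or.inr h
  have stepA : ∀ p₀ : ℂ, p₀.im = 0 → 1 < ‖p₀‖ → d p₀ = 0 := fun p₀ h1 h2 =>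
    real_atom_zero496 hd one_pos hR'pos hsuppA hmom h1 h2
  have hle1 : ∀ p, d p ≠ 0 → ‖p‖ ≤ 1 := by
    intro p hp
    obtain ⟨_, _, h2⟩ := hsupp p hp
    rcases h2 with h | h
    · exact h.le
    · by_contra hcon
      exact hp (stepA p h (not_le.mp hcon))
  -- Step B: the unit circle
  have stepB : ∀ p₀ : ℂ, ‖p₀‖ = 1 → d p₀ = 0 := by
    intro p₀ hp₀
    have hp₀0 : p₀ ≠ 0 := by
      intro h0
      rw [h0, norm_zero] at hp₀
      exact zero_ne_one hp₀
    let z : ℂ → ℂ := fun p => if d p = 0 then 0 else p * p₀⁻¹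
    have hz : ∀ p, ‖z p‖ ≤ 1 := by
      intro p
      simp only [z]
      split_ifs with h
      · simp
      · rw [norm_mul, norm_inv, hp₀, inv_one, mul_one]
        exact hle1 p h
    have hzmom : ∀ k : ℕ, ∑' p, d p * z p ^ k = 0 := by
      intro k
      have h1 : ∀ p, d p * z p ^ k = d p * p ^ k * (p₀⁻¹) ^ k := by
        intro p
        simp only [z]
        split_ifs with h
        · simp [h]
        · rw [mul_pow]; ring
      simp_rw [h1]
      rw [tsum_mul_right, hmom k, zero_mul]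
    have h := cesaro_isolate496 d z hd hz hzmom
    have h2 : ∀ p, (if z p = 1 then d p else 0) = if p = p₀ then d p₀ else 0 := by
      intro p
      by_cases hdp : d p = 0
      · have : z p = 0 := by simp [z, hdp]
        rw [this]
        by_cases hpp : p = p₀
        · rw [if_pos hpp, ← hpp, hdp]
          simp
        · rw [if_neg hpp]
          simp
      · have hzp : z p = p * p₀⁻¹ := by simp [z, hdp]
        rw [hzp]
        by_cases hpp : p = p₀
        · rw [if_pos hpp, hpp, mul_inv_cancel₀ hp₀0, if_pos rfl]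
        · rw [if_neg hpp, if_neg]
          intro h1
          apply hpp
          have := congrArg (fun x => x * p₀) h1
          simp only [mul_assoc, inv_mul_cancel₀ hp₀0, mul_one, one_mul] at this
          exact this
    simp_rw [h2] at h
    rw [tsum_ite_eq] at h
    exact h
  -- Step C: the real atoms
  have stepC : ∀ p₀ : ℂ, p₀.im = 0 → p₀ ≠ 0 → d p₀ = 0 := by
    intro p₀ him h0
    have hpos : 0 < ‖p₀‖ := norm_pos_iff.2 h0
    have hsuppC : Supp496 d (‖p₀‖ / 2) R' := by
      intro p hp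
      obtain ⟨_, h1, h2⟩ := hsupp p hp
      refine ⟨h1.trans (le_max_left _ _), Or.inr ?_⟩
      rcases h2 with h | h
      · exact absurd (stepB p h) hp
      · exact h
    exact real_atom_zero496 hd (by positivity) hR'pos hsuppC hmom him (by linarith)
  intro p
  by_contra hp
  obtain ⟨h0, _, h2⟩ := hsupp p hp
  rcases h2 with h | h
  · exact hp (stepB p h)
  · exact hp (stepC p h h0)

/-! ## 4. Families with multiplicities -/

/-- **CORE with multiplicities.**  A family of atoms `μ i ≠ 0` on the unit circle and on the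
real axis, with absolutely summable coefficients, whose moments of order `≥ m₀` vanish, has total
coefficient zero over every point. -/
theorem family_core496 {I : Type*} (c μ : I → ℂ) (hc : Summable fun i => ‖c i‖) {R : ℝ}
    (hμ : ∀ i, μ i ≠ 0 ∧ ‖μ i‖ ≤ R ∧ (‖μ i‖ = 1 ∨ (μ i).im = 0))
    (m₀ : ℕ) (hmom : ∀ m, m₀ ≤ m → ∑' i, c i * μ i ^ m = 0) (p₀ : ℂ) :
    ∑' i : {i // μ i = p₀}, c i = 0 := by
  classical
  let c' : I → ℂ := fun i => c i * μ i ^ m₀
  have hc'le : ∀ i, ‖c' i‖ ≤ ‖c i‖ * R ^ m₀ := by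
    intro i
    simp only [c']
    rw [norm_mul, norm_pow]
    exact mul_le_mul_of_nonneg_left (pow_le_pow_left₀ (norm_nonneg _) (hμ i).2.1 m₀)
      (norm_nonneg _)
  have hc' : Summable fun i => ‖c' i‖ :=
    Summable.of_nonneg_of_le (fun _ => norm_nonneg _) hc'le (hc.mul_right _)
  let E := Equiv.sigmaFiberEquiv μ
  let d : ℂ → ℂ := fun p => ∑' i : {i // μ i = p}, c' i
  have hcE : Summable fun q : (p : ℂ) × {i // μ i = p} => ‖c' (E q)‖ :=
    (E.summable_iff (f := fun i => ‖c' i‖)).2 hc'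
  have hbound : ∀ p, ‖d p‖ ≤ ∑' i : {i // μ i = p}, ‖c' i‖ := fun p =>
    norm_tsum_le_tsum_norm (hcE.sigma_factor p)
  have hd : Summable fun p => ‖d p‖ :=
    Summable.of_nonneg_of_le (fun p => norm_nonneg _) hbound hcE.sigma
  have hsupp : ∀ p, d p ≠ 0 → p ≠ 0 ∧ ‖p‖ ≤ R ∧ (‖p‖ = 1 ∨ p.im = 0) := by
    intro p hp
    have hne : Nonempty {i // μ i = p} := by
      by_contra hcon
      rw [not_nonempty_iff] at hcon
      exact hp tsum_empty
    obtain ⟨i, hi⟩ := hne
    rw [← hi]
    exact hμ i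
  have hsm : ∀ m : ℕ, Summable fun i => c' i * μ i ^ m := by
    intro m
    refine Summable.of_norm_bounded (hc'.mul_right (R ^ m)) (fun i => ?_)
    rw [norm_mul, norm_pow]
    exact mul_le_mul_of_nonneg_left (pow_le_pow_left₀ (norm_nonneg _) (hμ i).2.1 m)
      (norm_nonneg _)
  have hdmom : ∀ m : ℕ, ∑' p, d p * p ^ m = 0 := by
    intro m
    have hs : Summable fun q : (p : ℂ) × {i // μ i = p} => c' (E q) * μ (E q) ^ m :=
      (E.summable_iff (f := fun i => c' i * μ i ^ m)).2 (hsm m)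
    have h1 : ∑' q : (p : ℂ) × {i // μ i = p}, c' (E q) * μ (E q) ^ m = 0 := by
      rw [E.tsum_eq (fun i => c' i * μ i ^ m)]
      have := hmom (m₀ + m) (Nat.le_add_right _ _)
      rw [← this]
      congr 1
      funext i
      simp only [c']
      rw [pow_add]; ring
    rw [hs.tsum_sigma' (fun p => hs.sigma_factor p)] at h1
    rw [← h1]
    congr 1
    funext p
    have hcp : Summable fun i : {i // μ i = p} => c' i := (hcE.sigma_factor p).of_norm
    simp only [d]
    rw [← hcp.tsum_mul_right]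
    congr 1
    funext i
    have : μ (E ⟨p, i⟩) = p := i.2
    rw [this]
    rfl
  have hzero := core496 hd hsupp hdmom p₀
  by_cases hne : Nonempty {i // μ i = p₀}
  · obtain ⟨i₀, hi₀⟩ := hne
    have hp₀ : p₀ ≠ 0 := by rw [← hi₀]; exact (hμ i₀).1
    have h1 : d p₀ = (∑' i : {i // μ i = p₀}, c i) * p₀ ^ m₀ := by
      simp only [d, c']
      rw [← tsum_mul_right]
      congr 1
      funext i
      rw [i.2]
    rw [h1] at hzero
    rcases mul_eq_zero.mp hzero with h | h
    · exact h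
    · exact absurd h (pow_ne_zero _ hp₀)
  · rw [not_nonempty_iff] at hne
    exact tsum_empty

/-! ## 5. Linear independence of the characters `(b, λ) ↦ b^k λ^m` -/

/-- The condition on the parameters of an atom (= `T7.IsRegParam`). -/
def RegParam496 (R : ℝ) (b l : ℂ) : Prop :=
  ‖b‖ = 1 ∧ ‖l‖ ≤ R ∧ (‖l‖ = 1 ∨ ∃ t : ℝ, 0 < t ∧ l ^ 2 = (t : ℂ) * b)

theorem RegParam496.ne_zero {R : ℝ} {b l : ℂ} (h : RegParam496 R b l) : l ≠ 0 := by
  intro h0
  rcases h.2.2 with h1 | ⟨t, ht, h1⟩
  · rw [h0, norm_zero] at h1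
    exact zero_ne_one h1
  · rw [h0] at h1
    have hb : b ≠ 0 := by
      intro hb
      have := h.1
      rw [hb, norm_zero] at this
      exact zero_ne_one this
    have : (t : ℂ) * b ≠ 0 := mul_ne_zero (by exact_mod_cast ht.ne') hb
    apply this
    rw [← h1]
    simp

/-- A complex number whose square is a positive real number is real. -/
theorem im_eq_zero_of_sq_pos496 {z : ℂ} {t : ℝ} (ht : 0 < t) (h : z ^ 2 = (t : ℂ)) :
    z.im = 0 := by
  have hre := congrArg Complex.re h
  have him := congrArg Complex.im h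
  rw [pow_two, Complex.mul_re, Complex.ofReal_re] at hre
  rw [pow_two, Complex.mul_im, Complex.ofReal_im] at him
  by_contra hne
  have h1 : z.re = 0 := by
    have : z.re * z.im = 0 := by linarith
    rcases mul_eq_zero.mp this with h | h
    · exact h
    · exact absurd h hne
  rw [h1] at hre
  nlinarith [sq_nonneg z.im]

theorem tsum_ite_subtype496 {J : Type*} (P : J → Prop) [DecidablePred P] (g : J → ℂ) :
    ∑' n, (if P n then g n else 0) = ∑' n : {n // P n}, g n := by
  have := tsum_subtype {n | P n} g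
  rw [show (∑' n : {n // P n}, g n) = ∑' n : ({n | P n} : Set J), g n from rfl, this]
  congr 1
  funext n
  by_cases h : P n
  · rw [if_pos h, Set.indicator_of_mem (show n ∈ {n | P n} from h)]
  · rw [if_neg h, Set.indicator_of_notMem (show n ∉ {n | P n} from h)]

/-- **EXP-SEP for one family.** -/
theorem expSep_single496 {J : Type*} (c B L : J → ℂ) (R : ℝ) (m₀ : ℕ)
    (hc : Summable fun n => ‖c n‖) (hP : ∀ n, RegParam496 R (B n) (L n))
    (h : ∀ m : ℕ, m₀ ≤ m → ∀ k : ℤ, ∑' n, c n * B n ^ k * L n ^ m = 0) (b₀ l₀ : ℂ) :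
    ∑' n : {n // B n = b₀ ∧ L n = l₀}, c n = 0 := by
  classical
  by_cases hb₀ : ‖b₀‖ = 1
  swap
  · have : IsEmpty {n // B n = b₀ ∧ L n = l₀} := by
      refine ⟨fun n => hb₀ ?_⟩
      rw [← n.2.1]
      exact (hP n.1).1
    exact tsum_empty
  have hb₀0 : b₀ ≠ 0 := by
    intro h0
    rw [h0, norm_zero] at hb₀
    exact zero_ne_one hb₀
  -- Step 1: isolate `b₀` by Cesàro means in `k`
  have step1 : ∀ m : ℕ, m₀ ≤ m → ∑' n : {n // B n = b₀}, c n * L n ^ m = 0 := by
    intro m hm
    let e : J → ℂ := fun n => c n * L n ^ m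
    let z : J → ℂ := fun n => B n * b₀⁻¹
    have he : Summable fun n => ‖e n‖ := by
      refine Summable.of_nonneg_of_le (fun _ => norm_nonneg _) (fun n => ?_)
        (hc.mul_right (R ^ m))
      simp only [e]
      rw [norm_mul, norm_pow]
      exact mul_le_mul_of_nonneg_left (pow_le_pow_left₀ (norm_nonneg _) (hP n).2.1 m)
        (norm_nonneg _)
    have hz : ∀ n, ‖z n‖ ≤ 1 := by
      intro n
      simp only [z]
      rw [norm_mul, norm_inv, hb₀, (hP n).1, inv_one, mul_one]
    have hmom : ∀ k : ℕ, ∑' n, e n * z n ^ k = 0 := by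
      intro k
      have h1 : ∀ n, e n * z n ^ k = c n * B n ^ (k : ℤ) * L n ^ m * (b₀⁻¹) ^ k := by
        intro n
        simp only [e, z]
        rw [mul_pow, zpow_natCast]
        ring
      simp_rw [h1]
      rw [tsum_mul_right, h m hm (k : ℤ), zero_mul]
    have := cesaro_isolate496 e z he hz hmom
    have h2 : ∀ n, (if z n = 1 then e n else 0) = if B n = b₀ then c n * L n ^ m else 0 := by
      intro n
      have hiff : z n = 1 ↔ B n = b₀ := by
        simp only [z]
        constructor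
        · intro h1
          have := congrArg (fun x => x * b₀) h1
          simp only [mul_assoc, inv_mul_cancel₀ hb₀0, mul_one, one_mul] at this
          exact this
        · intro h1
          rw [h1, mul_inv_cancel₀ hb₀0]
      by_cases hn : B n = b₀
      · rw [if_pos (hiff.2 hn), if_pos hn]
      · rw [if_neg (fun h1 => hn (hiff.1 h1)), if_neg hn]
    simp_rw [h2] at this
    rw [tsum_ite_subtype496 (fun n => B n = b₀) (fun n => c n * L n ^ m)] at this
    exact this
  -- Step 2: the family over `b₀`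
  obtain ⟨ζ₀, hζ₀⟩ := IsAlgClosed.exists_pow_nat_eq b₀ (n := 2) (by norm_num)
  have hζ₀n : ‖ζ₀‖ = 1 := by
    have h1 : ‖ζ₀‖ ^ 2 = 1 := by rw [← norm_pow, hζ₀, hb₀]
    have h2 : 0 ≤ ‖ζ₀‖ := norm_nonneg _
    nlinarith
  have hζ₀0 : ζ₀ ≠ 0 := by
    intro h0
    rw [h0, norm_zero] at hζ₀n
    exact zero_ne_one hζ₀n
  let J₀ := {n // B n = b₀}
  let c₀ : J₀ → ℂ := fun n => c n.1
  let μ : J₀ → ℂ := fun n => L n.1 * ζ₀⁻¹
  have hc₀ : Summable fun n : J₀ => ‖c₀ n‖ := hc.subtype _
  have hμ : ∀ n : J₀, μ n ≠ 0 ∧ ‖μ n‖ ≤ R ∧ (‖μ n‖ = 1 ∨ (μ n).im = 0) := by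
    intro n
    have hn := hP n.1
    have hnorm : ‖μ n‖ = ‖L n.1‖ := by
      simp only [μ]
      rw [norm_mul, norm_inv, hζ₀n, inv_one, mul_one]
    refine ⟨mul_ne_zero hn.ne_zero (inv_ne_zero hζ₀0), by rw [hnorm]; exact hn.2.1, ?_⟩
    rcases hn.2.2 with h1 | ⟨t, ht, h1⟩
    · left
      rw [hnorm, h1]
    · right
      apply im_eq_zero_of_sq_pos496 ht
      simp only [μ]
      rw [mul_pow, h1, n.2, ← hζ₀, inv_pow]
      field_simp
  have hmom₀ : ∀ m : ℕ, m₀ ≤ m → ∑' n : J₀, c₀ n * μ n ^ m = 0 := by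
    intro m hm
    have h1 : ∀ n : J₀, c₀ n * μ n ^ m = c n.1 * L n.1 ^ m * (ζ₀⁻¹) ^ m := by
      intro n
      simp only [c₀, μ]
      rw [mul_pow]
      ring
    simp_rw [h1]
    rw [tsum_mul_right, step1 m hm, zero_mul]
  have hfin := family_core496 c₀ μ hc₀ hμ m₀ hmom₀ (l₀ * ζ₀⁻¹)
  -- identify the fibres
  let Φ : {n // B n = b₀ ∧ L n = l₀} ≃ {n : J₀ // μ n = l₀ * ζ₀⁻¹} :=
    { toFun := fun n => ⟨⟨n.1, n.2.1⟩, by simp only [μ]; rw [n.2.2]⟩
      invFun := fun n => ⟨n.1.1, n.1.2, by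
        have h1 : L n.1.1 * ζ₀⁻¹ = l₀ * ζ₀⁻¹ := n.2
        exact mul_right_cancel₀ (inv_ne_zero hζ₀0) h1⟩
      left_inv := fun n => rfl
      right_inv := fun n => rfl }
  rw [← Φ.tsum_eq (fun n : {n : J₀ // μ n = l₀ * ζ₀⁻¹} => c₀ n.1)] at hfin
  exact hfin

/-- **EXP-SEP (linear independence of characters at the regular place)**, Mathlib-only form of
`T7.ExpSepC`. -/
theorem expSep_core496 (ι ι' : Type) (a : ι → ℂ) (a' : ι' → ℂ) (b l : ι → ℂ) (b' l' : ι' → ℂ)
    (R : ℝ) (m₀ : ℕ)
    (ha : Summable fun i => ‖a i‖) (ha' : Summable fun j => ‖a' j‖)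
    (hp : ∀ i, RegParam496 R (b i) (l i)) (hp' : ∀ j, RegParam496 R (b' j) (l' j))
    (h : ∀ m : ℕ, m₀ ≤ m → ∀ k : ℤ,
      ∑' i, a i * b i ^ k * l i ^ m = ∑' j, a' j * b' j ^ k * l' j ^ m)
    (b₀ l₀ : ℂ) :
    ∑' i : {i : ι // b i = b₀ ∧ l i = l₀}, a i
      = ∑' j : {j : ι' // b' j = b₀ ∧ l' j = l₀}, a' j := by
  classical
  let c : ι ⊕ ι' → ℂ := Sum.elim a (fun j => -a' j)
  let B : ι ⊕ ι' → ℂ := Sum.elim b b'
  let L : ι ⊕ ι' → ℂ := Sum.elim l l'
  have hc : Summable fun n => ‖c n‖ := by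
    have h1 : Summable fun i => ‖c (Sum.inl i)‖ := by simpa [c] using ha
    have h2 : Summable fun j => ‖c (Sum.inr j)‖ := by simpa [c] using ha'
    exact Summable.sum (fun n => ‖c n‖) h1 h2
  have hP : ∀ n, RegParam496 R (B n) (L n) := by
    rintro (i | j)
    · exact hp i
    · exact hp' j
  have hterm : ∀ (m : ℕ) (k : ℤ), Summable fun n => c n * B n ^ k * L n ^ m := by
    intro m k
    refine Summable.of_norm_bounded (hc.mul_right (R ^ m)) (fun n => ?_)
    rw [norm_mul, norm_mul, norm_zpow, (hP n).1, one_zpow, mul_one, norm_pow]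
    exact mul_le_mul_of_nonneg_left (pow_le_pow_left₀ (norm_nonneg _) (hP n).2.1 m)
      (norm_nonneg _)
  have hzero : ∀ m : ℕ, m₀ ≤ m → ∀ k : ℤ, ∑' n, c n * B n ^ k * L n ^ m = 0 := by
    intro m hm k
    have hs := hterm m k
    have h1 : Summable fun i => c (Sum.inl i) * B (Sum.inl i) ^ k * L (Sum.inl i) ^ m :=
      hs.comp_injective Sum.inl_injective
    have h2 : Summable fun j => c (Sum.inr j) * B (Sum.inr j) ^ k * L (Sum.inr j) ^ m :=
      hs.comp_injective Sum.inr_injective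
    rw [Summable.tsum_sum (f := fun n => c n * B n ^ k * L n ^ m) h1 h2]
    simp only [c, B, L, Sum.elim_inl, Sum.elim_inr, neg_mul]
    rw [tsum_neg, h m hm k, add_neg_cancel]
  have hfib := expSep_single496 c B L R m₀ hc hP hzero b₀ l₀
  let Φ : {i // b i = b₀ ∧ l i = l₀} ⊕ {j // b' j = b₀ ∧ l' j = l₀}
      ≃ {n // B n = b₀ ∧ L n = l₀} :=
    { toFun := Sum.elim (fun i => ⟨Sum.inl i.1, i.2⟩) (fun j => ⟨Sum.inr j.1, j.2⟩)
      invFun := fun n => match n with
        | ⟨Sum.inl i, hi⟩ => Sum.inl ⟨i, hi⟩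
        | ⟨Sum.inr j, hj⟩ => Sum.inr ⟨j, hj⟩
      left_inv := by rintro (i | j) <;> rfl
      right_inv := by rintro ⟨i | j, hk⟩ <;> rfl }
  rw [← Φ.tsum_eq (fun n : {n // B n = b₀ ∧ L n = l₀} => c n)] at hfib
  have hsx : Summable fun i : {i // b i = b₀ ∧ l i = l₀} => a i := (ha.subtype _).of_norm
  have hsy : Summable fun j : {j // b' j = b₀ ∧ l' j = l₀} => a' j := (ha'.subtype _).of_norm
  have h1 : Summable fun i : {i // b i = b₀ ∧ l i = l₀} => c (Φ (Sum.inl i)) := by
    simpa [Φ, c] using hsx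
  have h2 : Summable fun j : {j // b' j = b₀ ∧ l' j = l₀} => c (Φ (Sum.inr j)) := by
    simpa [Φ, c] using hsy.neg
  rw [Summable.tsum_sum (f := fun n => c (Φ n)) h1 h2] at hfib
  simp only [Φ, c, Equiv.coe_fn_mk, Sum.elim_inl, Sum.elim_inr] at hfib
  rw [tsum_neg] at hfib
  exact eq_of_sub_eq_zero (by rw [sub_eq_add_neg]; exact hfib)


end Fermat.Agent.LT.T7.ES496

end

end
-- ===== PACK-END LT/T7/H496/ExpSepCore.lean

-- ===== PACK-BEGIN LT/T7/H671/ConeCount.lean
section


/-!
# Row LT, tower T7, node T7.14 `RigidC`: lattice points of `(K_∞)²` in a fundamental cone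

OFF-MAIN (helper671).  Mathlib only.  No `sorry`, nothing assumed.

For a number field `K` (ANY signature, ANY unit rank) let `(K_∞)² = mixedSpace K × mixedSpace K`,
`pairNorm671 x = (‖x_w‖₂)_w` (Hermitian norm of the pair at every infinite place),
`pairGauge671 x = ∏_w ‖x_w‖₂ ^ [K_w : ℝ]` and

* `pairCone671 K` : the pairs `x` such that `(‖x_w‖₂)_w` lies in Mathlib's `fundamentalCone K`
  (a fundamental domain for the diagonal action of the units modulo torsion on the pairs all of
  whose components are non-zero);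
* `pairBody671 K` : the part of the cone with `pairGauge671 ≤ 1`.

Main results.

* `isBounded_pairBody671`, `measurableSet_pairBody671`, `volume_frontier_pairBody671` (`= 0`),
  `volume_pairBody671_pos`.
* `tendsto_card_pairCone671` : for EVERY `ℤ`-lattice `L` of `(K_∞)²`,
  `#{x ∈ L ∩ cone : gauge x ≤ B} / B² → vol (body) / covol L` as `B → ∞`.

This is the counting input of the Eisenstein series / Schanuel's theorem for `ℙ¹(K)` with twisted
heights for a general number field (infinitely many units).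
-/

set_option autoImplicit false
set_option linter.unusedSectionVars false

open NumberField NumberField.mixedEmbedding NumberField.InfinitePlace NumberField.Units
  NumberField.Units.dirichletUnitTheorem
  NumberField.mixedEmbedding.fundamentalCone MeasureTheory Filter Topology Bornology Module

noncomputable section

namespace Fermat.Agent.LT.T7.H671

variable (K : Type*) [Field K] [NumberField K]

/-- `(K_∞)²`. -/
abbrev Pair671 : Type _ := mixedSpace K × mixedSpace K

variable {K}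

/-- The vector of the Hermitian norms of the pair `x` at the infinite places. -/
def pairNorm671 (x : Pair671 K) : realSpace K :=
  fun w => Real.sqrt (normAtPlace w x.1 ^ 2 + normAtPlace w x.2 ^ 2)

theorem pairNorm671_apply (x : Pair671 K) (w : InfinitePlace K) :
    pairNorm671 x w = Real.sqrt (normAtPlace w x.1 ^ 2 + normAtPlace w x.2 ^ 2) := rfl

theorem pairNorm671_nonneg (x : Pair671 K) (w : InfinitePlace K) : 0 ≤ pairNorm671 x w :=
  Real.sqrt_nonneg _

theorem continuous_pairNorm671 : Continuous (pairNorm671 : Pair671 K → realSpace K) := by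
  refine continuous_pi fun w => ?_
  unfold pairNorm671
  have h1 : Continuous fun x : Pair671 K => normAtPlace w x.1 :=
    (continuous_normAtPlace w).comp continuous_fst
  have h2 : Continuous fun x : Pair671 K => normAtPlace w x.2 :=
    (continuous_normAtPlace w).comp continuous_snd
  exact ((h1.pow 2).add (h2.pow 2)).sqrt

theorem pairNorm671_smul (r : ℝ) (x : Pair671 K) :
    pairNorm671 (r • x) = |r| • pairNorm671 x := by
  ext w
  simp only [pairNorm671_apply, Prod.smul_fst, Prod.smul_snd, normAtPlace_smul, Pi.smul_apply,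
    smul_eq_mul]
  rw [show (|r| * normAtPlace w x.1) ^ 2 + (|r| * normAtPlace w x.2) ^ 2
      = |r| ^ 2 * (normAtPlace w x.1 ^ 2 + normAtPlace w x.2 ^ 2) by ring,
    Real.sqrt_mul (sq_nonneg _), Real.sqrt_sq (abs_nonneg r)]

/-- Multiplication of both components by `m`. -/
theorem pairNorm671_mul (m : mixedSpace K) (x : Pair671 K) (w : InfinitePlace K) :
    pairNorm671 (m * x.1, m * x.2) w = normAtPlace w m * pairNorm671 x w := by
  simp only [pairNorm671_apply, map_mul]
  rw [show (normAtPlace w m * normAtPlace w x.1) ^ 2 + (normAtPlace w m * normAtPlace w x.2) ^ 2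
      = normAtPlace w m ^ 2 * (normAtPlace w x.1 ^ 2 + normAtPlace w x.2 ^ 2) by ring,
    Real.sqrt_mul (sq_nonneg _), Real.sqrt_sq (normAtPlace_nonneg w m)]

theorem normAtPlace_le_pairNorm671_fst (x : Pair671 K) (w : InfinitePlace K) :
    normAtPlace w x.1 ≤ pairNorm671 x w := by
  rw [pairNorm671_apply]
  refine Real.le_sqrt_of_sq_le ?_
  nlinarith [sq_nonneg (normAtPlace w x.2)]

theorem normAtPlace_le_pairNorm671_snd (x : Pair671 K) (w : InfinitePlace K) :
    normAtPlace w x.2 ≤ pairNorm671 x w := by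
  rw [pairNorm671_apply]
  refine Real.le_sqrt_of_sq_le ?_
  nlinarith [sq_nonneg (normAtPlace w x.1)]

theorem pairNorm671_eq_zero_iff (x : Pair671 K) :
    pairNorm671 x = 0 ↔ x = 0 := by
  constructor
  · intro h
    have h1 : ∀ w, normAtPlace w x.1 = 0 := fun w =>
      le_antisymm (by
        have := normAtPlace_le_pairNorm671_fst x w
        rw [h] at this
        exact this) (normAtPlace_nonneg w _)
    have h2 : ∀ w, normAtPlace w x.2 = 0 := fun w =>
      le_antisymm (by
        have := normAtPlace_le_pairNorm671_snd x w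
        rw [h] at this
        exact this) (normAtPlace_nonneg w _)
    exact Prod.ext (forall_normAtPlace_eq_zero_iff.mp h1) (forall_normAtPlace_eq_zero_iff.mp h2)
  · rintro rfl
    ext w
    simp [pairNorm671_apply]

/-- The pair norm of `(mixedSpaceOfRealSpace y, 0)` is `y` for `y ≥ 0`. -/
theorem pairNorm671_of_real {y : realSpace K} (hy : ∀ w, 0 ≤ y w) :
    pairNorm671 ((mixedSpaceOfRealSpace y, 0) : Pair671 K) = y := by
  ext w
  simp only [pairNorm671_apply, map_zero, ne_eq, OfNat.ofNat_ne_zero, not_false_eq_true,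
    zero_pow, add_zero]
  rw [normAtPlace_mixedSpaceOfRealSpace (hy w), Real.sqrt_sq (hy w)]

theorem normAtAllPlaces_pairNorm671 (x : Pair671 K) :
    normAtAllPlaces (mixedSpaceOfRealSpace (pairNorm671 x)) = pairNorm671 x :=
  normAtAllPlaces_mixedSpaceOfRealSpace (pairNorm671_nonneg x)

/-- The gauge `∏_w ‖x_w‖₂ ^ [K_w : ℝ]`. -/
def pairGauge671 (x : Pair671 K) : ℝ :=
  mixedEmbedding.norm (mixedSpaceOfRealSpace (pairNorm671 x))

theorem pairGauge671_eq_prod (x : Pair671 K) :
    pairGauge671 x = ∏ w : InfinitePlace K, pairNorm671 x w ^ w.mult := by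
  unfold pairGauge671
  rw [mixedEmbedding.norm_apply]
  refine Finset.prod_congr rfl fun w _ => ?_
  rw [normAtPlace_mixedSpaceOfRealSpace (pairNorm671_nonneg x w)]

theorem pairGauge671_nonneg (x : Pair671 K) : 0 ≤ pairGauge671 x :=
  mixedEmbedding.norm_nonneg _

theorem continuous_pairGauge671 : Continuous (pairGauge671 : Pair671 K → ℝ) :=
  (mixedEmbedding.continuous_norm K).comp
    (mixedSpaceOfRealSpace.continuous.comp continuous_pairNorm671)

theorem pairGauge671_smul (r : ℝ) (x : Pair671 K) :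
    pairGauge671 (r • x) = |r| ^ finrank ℚ K * pairGauge671 x := by
  unfold pairGauge671
  rw [pairNorm671_smul, map_smul, mixedEmbedding.norm_smul, abs_abs]

variable (K) in
/-- The cone: `(‖x_w‖₂)_w` lies in the fundamental cone of `K`. -/
def pairCone671 : Set (Pair671 K) :=
  {x | mixedSpaceOfRealSpace (pairNorm671 x) ∈ fundamentalCone K}

variable (K) in
/-- The part of the cone with gauge `≤ 1`. -/
def pairBody671 : Set (Pair671 K) :=
  {x | x ∈ pairCone671 K ∧ pairGauge671 x ^ 2 ≤ 1}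

theorem smul_mem_pairCone671 {x : Pair671 K} (hx : x ∈ pairCone671 K) {r : ℝ} (hr : 0 < r) :
    r • x ∈ pairCone671 K := by
  unfold pairCone671 at hx ⊢
  rw [Set.mem_ofPred_eq] at hx ⊢
  rw [pairNorm671_smul, map_smul]
  exact fundamentalCone.smul_mem_of_mem hx (abs_pos.mpr hr.ne').ne'

theorem mem_pairBody671_iff (x : Pair671 K) :
    x ∈ pairBody671 K ↔ mixedSpaceOfRealSpace (pairNorm671 x) ∈ normLeOne K := by
  unfold pairBody671 pairCone671
  rw [Set.mem_ofPred_eq, Set.mem_ofPred_eq, mem_normLeOne]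
  refine and_congr_right fun _ => ?_
  have h0 := pairGauge671_nonneg x
  constructor
  · intro h
    have : pairGauge671 x ≤ 1 := by nlinarith
    exact this
  · intro h
    have h' : pairGauge671 x ≤ 1 := h
    nlinarith

variable (K) in
theorem pairBody671_eq_preimage :
    pairBody671 K = pairNorm671 ⁻¹' (expMapBasis '' paramSet K) := by
  ext x
  rw [mem_pairBody671_iff, normLeOne_eq_preimage, Set.mem_preimage, Set.mem_preimage,
    normAtAllPlaces_pairNorm671]

/-! ## The measure on `(K_∞)²` -/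

open scoped Classical in
variable (K) in
theorem haarPair671 : Measure.IsAddHaarMeasure (volume : Measure (Pair671 K)) :=
  Measure.prod.instIsAddHaarMeasure volume volume

open scoped Classical in
variable (K) in
theorem borelPair671 : @BorelSpace (Pair671 K) _ MeasureSpace.toMeasurableSpace :=
  inferInstance

open scoped Classical in
variable (K) in
theorem nullSingletonPair671 : NullSingletonClass (volume : Measure (Pair671 K)) :=
  Measure.prod.instNullSingletonClass_fst

/-! ## Boundedness, measurability -/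

variable (K) in
theorem isBounded_pairBody671 : IsBounded (pairBody671 K) := by
  classical
  have hb : IsBounded (expMapBasis '' paramSet K) :=
    ((isCompact_compactSet K).isBounded.subset (expMapBasis_closure_subset_compactSet K)).subset
      (Set.image_mono subset_closure)
  obtain ⟨C, hC⟩ := isBounded_iff_forall_norm_le.mp hb
  refine isBounded_iff_forall_norm_le.mpr ⟨C, fun x hx => ?_⟩
  rw [pairBody671_eq_preimage] at hx
  have h1 : ∀ w, pairNorm671 x w ≤ C := fun w => by
    have := (pi_norm_le_iff_of_nonempty _).mp (hC _ hx) w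
    rwa [Real.norm_of_nonneg (pairNorm671_nonneg x w)] at this
  rw [Prod.norm_def]
  refine max_le ?_ ?_
  · rw [norm_eq_sup'_normAtPlace]
    exact Finset.sup'_le _ _ fun w _ => (normAtPlace_le_pairNorm671_fst x w).trans (h1 w)
  · rw [norm_eq_sup'_normAtPlace]
    exact Finset.sup'_le _ _ fun w _ => (normAtPlace_le_pairNorm671_snd x w).trans (h1 w)

variable (K) in
theorem measurableSet_pairBody671 : MeasurableSet (pairBody671 K) := by
  have h : pairBody671 K
      = (fun x : Pair671 K => mixedSpaceOfRealSpace (pairNorm671 x)) ⁻¹' (normLeOne K) := by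
    ext x
    exact mem_pairBody671_iff x
  rw [h]
  exact (measurableSet_normLeOne K).preimage
    (mixedSpaceOfRealSpace.continuous.comp continuous_pairNorm671).measurable

/-! ## The frontier of the body is a null set -/

theorem expMapBasis_add671 (x y : realSpace K) :
    expMapBasis (x + y) = expMapBasis x * expMapBasis y := by
  simp_rw [expMapBasis_apply, map_add, expMap_add]

/-- The level sets of the coordinates of `expMapBasis⁻¹ ∘ pairNorm671`. -/
def levelSet671 (w : InfinitePlace K) (c : ℝ) : Set (Pair671 K) :=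
  pairNorm671 ⁻¹' (expMapBasis '' {y : realSpace K | y w = c})

theorem measurableSet_levelSet671 (w : InfinitePlace K) (c : ℝ) :
    MeasurableSet (levelSet671 w c) := by
  refine MeasurableSet.preimage ?_ continuous_pairNorm671.measurable
  refine MeasurableSet.image_of_continuousOn_injOn ?_ (continuous_expMapBasis K).continuousOn
    (injective_expMapBasis K).injOn
  exact measurableSet_eq_fun (measurable_pi_apply w) measurable_const

theorem disjoint_levelSet671 (w : InfinitePlace K) {c c' : ℝ} (h : c ≠ c') :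
    Disjoint (levelSet671 w c) (levelSet671 w c') := by
  rw [Set.disjoint_left]
  rintro x ⟨y, hy, hxy⟩ ⟨y', hy', hxy'⟩
  have : y = y' := injective_expMapBasis K (hxy.trans hxy'.symm)
  subst this
  exact h (hy.symm.trans hy')

/-- Multiplication of both components of a pair by `m`, as a linear map. -/
def mulPair671 (m : mixedSpace K) : Pair671 K →ₗ[ℝ] Pair671 K :=
  (LinearMap.mulLeft ℝ m).prodMap (LinearMap.mulLeft ℝ m)

theorem mulPair671_apply (m : mixedSpace K) (x : Pair671 K) :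
    mulPair671 m x = (m * x.1, m * x.2) := rfl

theorem det_mulPair671_ne_zero {m : mixedSpace K} (hm : ∀ w, normAtPlace w m ≠ 0) :
    LinearMap.det (mulPair671 m) ≠ 0 := by
  intro h0
  have hker := LinearMap.bot_lt_ker_of_det_eq_zero h0
  obtain ⟨x, hx, hx0⟩ := Submodule.exists_mem_ne_zero_of_ne_bot hker.ne'
  apply hx0
  rw [LinearMap.mem_ker, mulPair671_apply, Prod.mk_eq_zero] at hx
  have key : ∀ a : mixedSpace K, m * a = 0 → a = 0 := fun a ha => by
    refine forall_normAtPlace_eq_zero_iff.mp fun w => ?_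
    have : normAtPlace w (m * a) = 0 := by rw [ha, map_zero]
    rw [map_mul] at this
    exact (mul_eq_zero.mp this).resolve_left (hm w)
  exact Prod.ext (key _ hx.1) (key _ hx.2)

open scoped Classical in
theorem volume_levelSet671 (w : InfinitePlace K) (c : ℝ) :
    volume (levelSet671 w c) = 0 := by
  have := haarPair671 K
  have := borelPair671 K
  -- countably many level sets have positive measure
  have hcount : Set.Countable {t : ℝ | 0 < volume (levelSet671 w (c + t))} :=
    Measure.countable_meas_pos_of_disjoint_iUnion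
      (fun t => measurableSet_levelSet671 w (c + t))
      (fun t t' htt' => disjoint_levelSet671 w (fun h => htt' (add_left_cancel h)))
  obtain ⟨t, ht⟩ : ∃ t : ℝ, t ∉ {t : ℝ | 0 < volume (levelSet671 w (c + t))} := by
    by_contra hcon
    push Not at hcon
    have : (Set.univ : Set ℝ) ⊆ {t : ℝ | 0 < volume (levelSet671 w (c + t))} :=
      fun t _ => hcon t
    exact Cardinal.not_countable_real (hcount.mono this)
  have ht0 : volume (levelSet671 w (c + t)) = 0 := by
    simpa using ht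
  -- the flow
  set e : realSpace K := expMapBasis (t • Pi.single w (1 : ℝ)) with he
  set m : mixedSpace K := mixedSpaceOfRealSpace e with hm
  have hmw : ∀ w', normAtPlace w' m = e w' := fun w' =>
    normAtPlace_mixedSpaceOfRealSpace (expMapBasis_pos _ _).le
  have hsub : levelSet671 w c ⊆ (mulPair671 m) ⁻¹' (levelSet671 w (c + t)) := by
    rintro x ⟨y, hy, hxy⟩
    refine ⟨y + t • Pi.single w (1 : ℝ), ?_, ?_⟩
    · rw [Set.mem_ofPred_eq] at hy ⊢
      simp [hy]
    · rw [expMapBasis_add671, hxy]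
      ext w'
      rw [mulPair671_apply, pairNorm671_mul, hmw, Pi.mul_apply, mul_comm]
  refine measure_mono_null hsub ?_
  rw [Measure.addHaar_preimage_linearMap volume
    (det_mulPair671_ne_zero (fun w' => by rw [hmw]; exact (expMapBasis_pos _ _).ne')), ht0,
    mul_zero]

variable (K) in
theorem frontier_pairBody671_subset :
    frontier (pairBody671 K) ⊆
      {0} ∪ ⋃ w : InfinitePlace K, (levelSet671 w 0 ∪ levelSet671 w 1) := by
  classical
  rw [pairBody671_eq_preimage]
  refine (continuous_pairNorm671.frontier_preimage_subset _).trans ?_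
  intro x hx
  rw [Set.mem_preimage, frontier, Set.mem_sdiff] at hx
  obtain ⟨hx1, hx2⟩ := hx
  have hcl : pairNorm671 x ∈ compactSet K := by
    refine (isCompact_compactSet K).isClosed.closure_subset_iff.mpr ?_ hx1
    exact (Set.image_mono subset_closure).trans (expMapBasis_closure_subset_compactSet K)
  have hopen : IsOpen (expMapBasis '' (interior (paramSet K))) :=
    expMapBasis.isOpen_image_of_subset_source isOpen_interior (by simp [expMapBasis_source])
  have hint : pairNorm671 x ∉ expMapBasis '' (interior (paramSet K)) := fun h =>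
    hx2 (interior_maximal (Set.image_mono interior_subset) hopen h)
  rw [compactSet_eq_union] at hcl
  rcases hcl with hcl | hcl
  · right
    obtain ⟨y, hy, hxy⟩ := hcl
    have hy' : y ∉ interior (paramSet K) := fun h => hint ⟨y, h, hxy⟩
    rw [closure_paramSet, Set.mem_univ_pi] at hy
    rw [interior_paramSet, Set.mem_univ_pi] at hy'
    push Not at hy'
    obtain ⟨w, hw⟩ := hy'
    have hyw := hy w
    refine Set.mem_iUnion.mpr ⟨w, ?_⟩
    by_cases hw0 : w = w₀
    · rw [if_pos hw0] at hw hyw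
      left
      refine ⟨y, ?_, hxy⟩
      rw [Set.mem_ofPred_eq]
      rw [Set.mem_Iio, not_lt] at hw
      exact le_antisymm hyw hw
    · rw [if_neg hw0] at hw hyw
      rw [Set.mem_Ioo, not_and_or, not_lt, not_lt] at hw
      rcases hw with hw | hw
      · left
        exact ⟨y, le_antisymm hw hyw.1, hxy⟩
      · right
        exact ⟨y, le_antisymm hyw.2 hw, hxy⟩
  · left
    rw [Set.mem_singleton_iff] at hcl ⊢
    exact (pairNorm671_eq_zero_iff x).mp hcl

open scoped Classical in
variable (K) in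
theorem volume_frontier_pairBody671 : volume (frontier (pairBody671 K)) = 0 := by
  refine measure_mono_null (frontier_pairBody671_subset K) ?_
  have := nullSingletonPair671 K
  refine measure_union_null ?_ ?_
  · exact measure_singleton _
  · refine measure_iUnion_null fun w => measure_union_null ?_ ?_
    · exact volume_levelSet671 w 0
    · exact volume_levelSet671 w 1

open scoped Classical in
variable (K) in
theorem volume_pairBody671_pos : 0 < volume (pairBody671 K) := by
  have := haarPair671 K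
  have := borelPair671 K
  have hopen : IsOpen (expMapBasis '' (interior (paramSet K))) :=
    expMapBasis.isOpen_image_of_subset_source isOpen_interior (by simp [expMapBasis_source])
  have hsub : pairNorm671 ⁻¹' (expMapBasis '' (interior (paramSet K))) ⊆ pairBody671 K := by
    rw [pairBody671_eq_preimage]
    exact Set.preimage_mono (Set.image_mono interior_subset)
  refine lt_of_lt_of_le ?_ (measure_mono hsub)
  refine IsOpen.measure_pos volume (hopen.preimage continuous_pairNorm671) ?_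
  let y : realSpace K := fun w => if w = w₀ then -1 else 1 / 2
  have hy : y ∈ interior (paramSet K) := by
    rw [interior_paramSet, Set.mem_univ_pi]
    intro w
    by_cases hw : w = w₀
    · simp [y, hw]
    · simp only [y, hw, if_false]
      constructor <;> norm_num
  refine ⟨(mixedSpaceOfRealSpace (expMapBasis y), 0), ?_⟩
  rw [Set.mem_preimage, pairNorm671_of_real (fun w => (expMapBasis_pos _ _).le)]
  exact ⟨y, hy, rfl⟩

open scoped Classical in
variable (K) in
theorem volume_pairBody671_lt_top : volume (pairBody671 K) < ⊤ := by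
  have := haarPair671 K
  have := borelPair671 K
  exact (isBounded_pairBody671 K).measure_lt_top

/-! ## Volume of the image under the coordinates of a lattice basis -/

/-- For an additive Haar measure `μ` on a finite dimensional real vector space `E` and a lattice
`L` with `ℤ`-basis `b`: the Lebesgue measure of the image of `s` under the coordinates of `b` is
`μ s / covol_μ L`. -/
theorem volume_image_equivFun671 {E : Type*} [NormedAddCommGroup E] [NormedSpace ℝ E]
    [FiniteDimensional ℝ E] [MeasurableSpace E] [BorelSpace E] (μ : Measure E)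
    [μ.IsAddHaarMeasure] (L : Submodule ℤ E) [DiscreteTopology L] [IsZLattice ℝ L]
    {ι : Type*} [Fintype ι] (b : Basis ι ℤ L) (s : Set E) :
    volume ((b.ofZLatticeBasis ℝ L).equivFun '' s)
      = μ s / ENNReal.ofReal (ZLattice.covolume L μ) := by
  classical
  set B : Basis ι ℝ E := b.ofZLatticeBasis ℝ L with hB
  set e : E ≃L[ℝ] (ι → ℝ) := B.equivFunL with he
  set ν : Measure (ι → ℝ) := μ.map e with hν
  have : ν.IsAddHaarMeasure := e.isAddHaarMeasure_map μ
  have hνeq : ν = ν (TopologicalSpace.PositiveCompacts.piIcc01 ι) • volume := by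
    have h1 := Measure.addHaarMeasure_unique ν (TopologicalSpace.PositiveCompacts.piIcc01 ι)
    rwa [addHaarMeasure_eq_volume_pi] at h1
  set c : ENNReal := ν (TopologicalSpace.PositiveCompacts.piIcc01 ι) with hc
  have hmap : ∀ t : Set (ι → ℝ), ν t = μ (e ⁻¹' t) := fun t =>
    e.toHomeomorph.toMeasurableEquiv.map_apply t
  -- the fundamental domain
  have hfd : ZSpan.fundamentalDomain B = e ⁻¹' (Set.univ.pi fun _ : ι => Set.Ico (0 : ℝ) 1) := by
    ext x
    simp only [ZSpan.mem_fundamentalDomain, Set.mem_preimage, Set.mem_univ_pi, he,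
      Basis.equivFunL_apply]
  have hcov : ENNReal.ofReal (ZLattice.covolume L μ) = μ (ZSpan.fundamentalDomain B) := by
    rw [ZLattice.covolume_eq_measure_fundamentalDomain L μ (ZLattice.isAddFundamentalDomain b μ),
      measureReal_def, ENNReal.ofReal_toReal]
    exact (ZSpan.fundamentalDomain_isBounded B).measure_lt_top.ne
  have hc1 : c = μ (ZSpan.fundamentalDomain B) := by
    have h2 : ν (Set.univ.pi fun _ : ι => Set.Ico (0 : ℝ) 1) = c := by
      conv_lhs => rw [hνeq]
      rw [Measure.smul_apply, Real.volume_pi_Ico]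
      simp
    rw [← h2, hmap, hfd]
  have hc0 : c ≠ 0 := by
    rw [hc1, ← hcov]
    exact (ENNReal.ofReal_pos.mpr (ZLattice.covolume_pos L μ)).ne'
  have hctop : c ≠ ⊤ := by
    rw [hc1, ← hcov]
    exact ENNReal.ofReal_ne_top
  have h3 : μ s = c * volume (e '' s) := by
    have h4 : ν (e '' s) = μ s := by
      rw [hmap, e.injective.preimage_image]
    rw [← h4]
    conv_lhs => rw [hνeq]
    rw [Measure.smul_apply, smul_eq_mul]
  have h5 : (B.equivFun '' s) = e '' s := rfl
  rw [h5, hcov, ← hc1, h3, mul_comm, ENNReal.mul_div_cancel_right hc0 hctop]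

/-! ## The counting theorem -/

theorem finrank_pair671 : finrank ℝ (Pair671 K) = 2 * finrank ℚ K := by
  rw [Module.finrank_prod, mixedEmbedding.finrank]
  ring

open scoped Classical in
/-- **Lattice points in the fundamental cone of `(K_∞)²`.**  For every `ℤ`-lattice `L` of
`(K_∞)²`: `#{x ∈ L ∩ cone : gauge x ≤ B} / B² → vol (body) / covol L` as `B → ∞`. -/
theorem tendsto_card_pairCone671 (L : Submodule ℤ (Pair671 K)) [DiscreteTopology L]
    [IsZLattice ℝ L] :
    Tendsto (fun B : ℝ =>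
        (Nat.card {x : Pair671 K // x ∈ pairCone671 K ∧ pairGauge671 x ≤ B ∧ x ∈ L} : ℝ) / B ^ 2)
      atTop (𝓝 ((volume (pairBody671 K)).toReal / ZLattice.covolume L volume)) := by
  have hHaar := haarPair671 K
  have hBorel := borelPair671 K
  set b := Module.Free.chooseBasis ℤ L with hb
  have hcard : Fintype.card (Module.Free.ChooseBasisIndex ℤ L) = 2 * finrank ℚ K := by
    rw [← Module.finrank_eq_card_chooseBasisIndex, ZLattice.rank ℝ L, finrank_pair671]
  have : Nonempty (Module.Free.ChooseBasisIndex ℤ L) := by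
    rw [← Fintype.card_pos_iff, hcard]
    have := Module.finrank_pos (R := ℚ) (M := K)
    omega
  have hF : ∀ (x : Pair671 K) ⦃r : ℝ⦄, 0 ≤ r →
      (fun x : Pair671 K => pairGauge671 x ^ 2) (r • x)
        = r ^ Fintype.card (Module.Free.ChooseBasisIndex ℤ L)
          * (fun x : Pair671 K => pairGauge671 x ^ 2) x := by
    intro x r hr
    simp only [pairGauge671_smul, hcard, abs_of_nonneg hr]
    ring
  have hbody : {x : Pair671 K | x ∈ pairCone671 K ∧ pairGauge671 x ^ 2 ≤ 1} = pairBody671 K := rfl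
  have key := ZLattice.covolume.tendsto_card_le_div'' (L := L) b
    (X := pairCone671 K) (F := fun x : Pair671 K => pairGauge671 x ^ 2)
    (fun x r hx hr => smul_mem_pairCone671 hx hr) hF
    (by rw [hbody]; exact isBounded_pairBody671 K)
    (by rw [hbody]; exact measurableSet_pairBody671 K)
    (by
      rw [hbody]
      have h1 : frontier ((b.ofZLatticeBasis ℝ L).equivFun '' pairBody671 K)
          = (b.ofZLatticeBasis ℝ L).equivFun '' frontier (pairBody671 K) :=
        ((b.ofZLatticeBasis ℝ L).equivFunL.toHomeomorph.image_frontier _).symm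
      rw [h1, volume_image_equivFun671 volume L b, volume_frontier_pairBody671,
        ENNReal.zero_div])
  rw [hbody, measureReal_def, volume_image_equivFun671 volume L b, ENNReal.toReal_div,
    ENNReal.toReal_ofReal (ZLattice.covolume_pos L volume).le] at key
  have hsq : Tendsto (fun B : ℝ => B ^ 2) atTop atTop :=
    tendsto_pow_atTop (by norm_num)
  refine (key.comp hsq).congr' ?_
  filter_upwards [eventually_ge_atTop 0] with B hB
  simp only [Function.comp_apply]
  congr 2
  refine Nat.card_congr (Equiv.subtypeEquivRight fun x => ?_)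
  simp only [Set.mem_inter_iff, Set.mem_ofPred_eq, SetLike.mem_coe]
  have h0 := pairGauge671_nonneg x
  have hiff : pairGauge671 x ^ 2 ≤ B ^ 2 ↔ pairGauge671 x ≤ B :=
    pow_le_pow_iff_left₀ h0 hB (by norm_num)
  rw [hiff]
  tauto

end Fermat.Agent.LT.T7.H671

end
end
-- ===== PACK-END LT/T7/H671/ConeCount.lean

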