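import Mathlib
import Fermat.Agent.Pack.LT2.E0L2
import Fermat.Agent.Pack.LT2.E0L0
import Fermat.Agent.Pack.LT2.E0L3
import Fermat.Agent.Pack.LT2.E0L1
import Fermat.Agent.Pack.L1.E1L2
import Fermat.Agent.Pack.LT2.E1L0

set_option linter.all false

-- ===== PACK-BEGIN LT/H129/Comp.lean
section


/-!
# Row LT, tower T1, helper129: components of `GL₂(𝔸_K)` and local elements (A0 vocabulary)

OFF-MAIN.  On `LT/H556/A0.lean` (helper556, byte-identical copy).  General number field `K`.

* `evF129 v : 𝔸_K →+* K_v`, `evI129 w : 𝔸_K →+* K_w` — the component ring homs;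
  `adele_ext129` — an adele is determined by its components;
* `finCompHom129 v : G K →* GL₂(K_v)` with matrix `A0.finComp v g`;
* `locFin129 v : GL₂(K_v) →* G K` — the element with matrix `x` at `v` and `1` elsewhere;
  `isLocalAtFin_locFin129`, `finComp_locFin129`, and `eq_locFin129_of_isLocalAtFin`.
-/

set_option autoImplicit false

open IsDedekindDomain NumberField
open Fermat.Agent.LT.H556.A0

noncomputable section

namespace Fermat.Agent.LT.H129

variable {K : Type} [Field K] [NumberField K]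

/-- The component at the finite place `v`. -/
def evF129 (v : HeightOneSpectrum (𝓞 K)) : Adl K →+* v.adicCompletion K :=
  (RestrictedProduct.evalRingHom (fun v : HeightOneSpectrum (𝓞 K) => v.adicCompletion K) v).comp
    (RingHom.snd _ _)

/-- The component at the infinite place `w`. -/
def evI129 (w : InfinitePlace K) : Adl K →+* w.Completion :=
  (Pi.evalRingHom (fun w : InfinitePlace K => w.Completion) w).comp (RingHom.fst _ _)

@[simp] theorem evF129_apply (v : HeightOneSpectrum (𝓞 K)) (x : Adl K) : evF129 v x = x.2 v := rfl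

@[simp] theorem evI129_apply (w : InfinitePlace K) (x : Adl K) : evI129 w x = x.1 w := rfl

/-- An adele is determined by its components. -/
theorem adele_ext129 {x y : Adl K} (hI : ∀ w : InfinitePlace K, x.1 w = y.1 w)
    (hF : ∀ v : HeightOneSpectrum (𝓞 K), x.2 v = y.2 v) : x = y :=
  Prod.ext (funext hI) (RestrictedProduct.ext _ _ hF)

/-- A matrix over the adeles is determined by its components. -/
theorem adeleMatrix_ext129 {A B : Matrix (Fin 2) (Fin 2) (Adl K)}
    (hI : ∀ w : InfinitePlace K, A.map (evI129 w) = B.map (evI129 w))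
    (hF : ∀ v : HeightOneSpectrum (𝓞 K), A.map (evF129 v) = B.map (evF129 v)) : A = B := by
  refine Matrix.ext fun i j => adele_ext129 (fun w => ?_) (fun v => ?_)
  · exact congrFun (congrFun (hI w) i) j
  · exact congrFun (congrFun (hF v) i) j

/-- The component of `g ∈ GL₂(𝔸_K)` at the finite place `v`, as a group homomorphism. -/
def finCompHom129 (v : HeightOneSpectrum (𝓞 K)) : G K →* GL (Fin 2) (v.adicCompletion K) :=
  Matrix.GeneralLinearGroup.map (evF129 v)

/-- The component of `g ∈ GL₂(𝔸_K)` at the infinite place `w`, as a group homomorphism. -/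
def infCompHom129 (w : InfinitePlace K) : G K →* GL (Fin 2) w.Completion :=
  Matrix.GeneralLinearGroup.map (evI129 w)

theorem coe_finCompHom129 (v : HeightOneSpectrum (𝓞 K)) (g : G K) :
    ((finCompHom129 v g : GL (Fin 2) (v.adicCompletion K)) :
      Matrix (Fin 2) (Fin 2) (v.adicCompletion K)) = finComp v g := rfl

theorem coe_finCompHom129_map (v : HeightOneSpectrum (𝓞 K)) (g : G K) :
    ((finCompHom129 v g : GL (Fin 2) (v.adicCompletion K)) :
      Matrix (Fin 2) (Fin 2) (v.adicCompletion K))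
      = (g : Matrix (Fin 2) (Fin 2) (Adl K)).map (evF129 v) := rfl

theorem coe_infCompHom129_map (w : InfinitePlace K) (g : G K) :
    ((infCompHom129 w g : GL (Fin 2) w.Completion) : Matrix (Fin 2) (Fin 2) w.Completion)
      = (g : Matrix (Fin 2) (Fin 2) (Adl K)).map (evI129 w) := rfl

theorem trivAtFin_iff129 (v : HeightOneSpectrum (𝓞 K)) (g : G K) :
    TrivAtFin v g ↔ finCompHom129 v g = 1 := by
  unfold TrivAtFin
  rw [← coe_finCompHom129]
  constructor
  · intro h; exact Units.ext h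
  · intro h; rw [h]; rfl

theorem trivAtInf_iff129 (w : InfinitePlace K) (g : G K) :
    TrivAtInf w g ↔ infCompHom129 w g = 1 := by
  unfold TrivAtInf
  constructor
  · intro h
    apply Units.ext
    exact Matrix.ext fun i j => h i j
  · intro h i j
    have := congrArg (fun u : GL (Fin 2) w.Completion =>
      (u : Matrix (Fin 2) (Fin 2) w.Completion) i j) h
    exact this

/-- An element of `G K` is determined by its components. -/
theorem G_ext129 {g h : G K} (hI : ∀ w : InfinitePlace K, infCompHom129 w g = infCompHom129 w h)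
    (hF : ∀ v : HeightOneSpectrum (𝓞 K), finCompHom129 v g = finCompHom129 v h) : g = h := by
  apply Units.ext
  apply adeleMatrix_ext129
  · intro w
    have := congrArg (fun u : GL (Fin 2) w.Completion =>
      (u : Matrix (Fin 2) (Fin 2) w.Completion)) (hI w)
    exact this
  · intro v
    have := congrArg (fun u : GL (Fin 2) (v.adicCompletion K) =>
      (u : Matrix (Fin 2) (Fin 2) (v.adicCompletion K))) (hF v)
    exact this

theorem isIntegralAt_iff129 (v : HeightOneSpectrum (𝓞 K)) (g : G K) :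
    IsIntegralAt v g ↔ ∀ i j, ((finCompHom129 v g : GL (Fin 2) (v.adicCompletion K)) :
      Matrix (Fin 2) (Fin 2) (v.adicCompletion K)) i j ∈ v.adicCompletionIntegers K :=
  Iff.rfl

end Fermat.Agent.LT.H129

end

end
-- ===== PACK-END LT/H129/Comp.lean

-- ===== PACK-BEGIN LT/H470/Chain.lean
section


/-!
# Row LT, tower A2, pre-leaf ARCH-MVP (helper470): eigenfunctions in polar coordinates

Mathlib only.  For `f` twice differentiable on the upper half-space `{y > 0}` of `ℝ³` with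
`y² (f₁₁ + f₂₂ + f₃₃) - y f₃ = -f` (the hyperbolic Laplace equation of `ℍ³` with eigenvalue `-1`,
i.e. spherical parameter `0`), the function `F = f ∘ polarPt` satisfies

    sinh² d sin² β (F_dd + F) + 2 cosh d sinh d sin² β F_d + sin β (sin β F_ββ + cos β F_β) + F_αα = 0.
-/

set_option autoImplicit false

open Real

noncomputable section

namespace Fermat.Agent.LT.H470

/-- Coordinate space of the upper half-space model: `(x₁, x₂, y)`. -/
abbrev E3 : Type := ℝ × ℝ × ℝ

/-- Basis vectors. -/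
def e1 : E3 := (1, 0, 0)
/-- Basis vectors. -/
def e2 : E3 := (0, 1, 0)
/-- Basis vectors. -/
def e3 : E3 := (0, 0, 1)

theorem vec_decomp470 (v : E3) : v = v.1 • e1 + v.2.1 • e2 + v.2.2 • e3 := by
  ext <;> simp [e1, e2, e3]

theorem clm3_470 (L : E3 →L[ℝ] ℂ) (v : E3) :
    L v = (v.1 : ℂ) * L e1 + (v.2.1 : ℂ) * L e2 + (v.2.2 : ℂ) * L e3 := by
  conv_lhs => rw [vec_decomp470 v]
  simp only [map_add, map_smul, Complex.real_smul]

theorem clm33_470 (B : E3 →L[ℝ] E3 →L[ℝ] ℂ) (v w : E3) :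
    B v w =
      (v.1 : ℂ) * (w.1 : ℂ) * B e1 e1 + (v.1 : ℂ) * (w.2.1 : ℂ) * B e1 e2
        + (v.1 : ℂ) * (w.2.2 : ℂ) * B e1 e3
        + (v.2.1 : ℂ) * (w.1 : ℂ) * B e2 e1 + (v.2.1 : ℂ) * (w.2.1 : ℂ) * B e2 e2
        + (v.2.1 : ℂ) * (w.2.2 : ℂ) * B e2 e3
        + (v.2.2 : ℂ) * (w.1 : ℂ) * B e3 e1 + (v.2.2 : ℂ) * (w.2.1 : ℂ) * B e3 e2
        + (v.2.2 : ℂ) * (w.2.2 : ℂ) * B e3 e3 := by
  have h : ∀ e : E3, B v e = (v.1 : ℂ) * B e1 e + (v.2.1 : ℂ) * B e2 e + (v.2.2 : ℂ) * B e3 e := by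
    intro e
    have := clm3_470 (B.flip e) v
    simpa using this
  rw [clm3_470 (B v) w, h e1, h e2, h e3]
  ring

/-- The data of a twice differentiable solution of the hyperbolic Laplace equation
`Δ f = -f` on the upper half-space `{y > 0}` of `ℝ³`, with explicit derivative fields. -/
structure EigenData470 (f : E3 → ℂ) (f' : E3 → E3 →L[ℝ] ℂ)
    (f'' : E3 → E3 →L[ℝ] E3 →L[ℝ] ℂ) : Prop where
  d1 : ∀ p : E3, 0 < p.2.2 → HasFDerivAt f (f' p) p
  d2 : ∀ p : E3, 0 < p.2.2 → HasFDerivAt f' (f'' p) p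
  cont : ContinuousOn f'' {p : E3 | 0 < p.2.2}
  pde : ∀ p : E3, 0 < p.2.2 →
    ((p.2.2 : ℝ) : ℂ) ^ 2 * (f'' p e1 e1 + f'' p e2 e2 + f'' p e3 e3)
      - ((p.2.2 : ℝ) : ℂ) * f' p e3 = -f p

section Fields

variable (f : E3 → ℂ) (f' : E3 → E3 →L[ℝ] ℂ) (f'' : E3 → E3 →L[ℝ] E3 →L[ℝ] ℂ)

/-- `F = f ∘ polarPt`. -/
def F0 (d β α : ℝ) : ℂ := f (polarPt d β α)
/-- `∂F/∂d`. -/
def Fd (d β α : ℝ) : ℂ := f' (polarPt d β α) (Pd d β α)
/-- `∂²F/∂d²`. -/
def Fdd (d β α : ℝ) : ℂ :=
  f'' (polarPt d β α) (Pd d β α) (Pd d β α) + f' (polarPt d β α) (Pdd d β α)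
/-- `∂F/∂β`. -/
def Fb (d β α : ℝ) : ℂ := f' (polarPt d β α) (Pb d β α)
/-- `∂²F/∂β²`. -/
def Fbb (d β α : ℝ) : ℂ :=
  f'' (polarPt d β α) (Pb d β α) (Pb d β α) + f' (polarPt d β α) (Pbb d β α)
/-- `∂F/∂α`. -/
def Fa (d β α : ℝ) : ℂ := f' (polarPt d β α) (Pa d β α)
/-- `∂²F/∂α²`. -/
def Faa (d β α : ℝ) : ℂ :=
  f'' (polarPt d β α) (Pa d β α) (Pa d β α) + f' (polarPt d β α) (Paa d β α)

variable {f f' f''}

theorem hasDerivAt_F0_d470 (h : EigenData470 f f' f'') (d β α : ℝ) :
    HasDerivAt (fun t => F0 f t β α) (Fd f' d β α) d :=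
  (h.d1 _ (polarPt_height_pos470 d β α)).comp_hasDerivAt d (hasDerivAt_polarPt_d470 d β α)

theorem hasDerivAt_Fd_d470 (h : EigenData470 f f' f'') (d β α : ℝ) :
    HasDerivAt (fun t => Fd f' t β α) (Fdd f' f'' d β α) d := by
  have h1 : HasDerivAt (fun t => f' (polarPt t β α)) (f'' (polarPt d β α) (Pd d β α)) d :=
    (h.d2 _ (polarPt_height_pos470 d β α)).comp_hasDerivAt d (hasDerivAt_polarPt_d470 d β α)
  have h2 : HasDerivAt (fun t => Pd t β α) (Pdd d β α) d := hasDerivAt_Pd_d470 d β α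
  exact h1.clm_apply h2

theorem hasDerivAt_F0_b470 (h : EigenData470 f f' f'') (d β α : ℝ) :
    HasDerivAt (fun t => F0 f d t α) (Fb f' d β α) β :=
  (h.d1 _ (polarPt_height_pos470 d β α)).comp_hasDerivAt β (hasDerivAt_polarPt_b470 d β α)

theorem hasDerivAt_Fb_b470 (h : EigenData470 f f' f'') (d β α : ℝ) :
    HasDerivAt (fun t => Fb f' d t α) (Fbb f' f'' d β α) β := by
  have h1 : HasDerivAt (fun t => f' (polarPt d t α)) (f'' (polarPt d β α) (Pb d β α)) β :=
    (h.d2 _ (polarPt_height_pos470 d β α)).comp_hasDerivAt β (hasDerivAt_polarPt_b470 d β α)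
  have h2 : HasDerivAt (fun t => Pb d t α) (Pbb d β α) β := hasDerivAt_Pb_b470 d β α
  exact h1.clm_apply h2

theorem hasDerivAt_F0_a470 (h : EigenData470 f f' f'') (d β α : ℝ) :
    HasDerivAt (fun t => F0 f d β t) (Fa f' d β α) α :=
  (h.d1 _ (polarPt_height_pos470 d β α)).comp_hasDerivAt α (hasDerivAt_polarPt_a470 d β α)

theorem hasDerivAt_Fa_a470 (h : EigenData470 f f' f'') (d β α : ℝ) :
    HasDerivAt (fun t => Fa f' d β t) (Faa f' f'' d β α) α := by
  have h1 : HasDerivAt (fun t => f' (polarPt d β t)) (f'' (polarPt d β α) (Pa d β α)) α :=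
    (h.d2 _ (polarPt_height_pos470 d β α)).comp_hasDerivAt α (hasDerivAt_polarPt_a470 d β α)
  have h2 : HasDerivAt (fun t => Pa d β t) (Paa d β α) α := hasDerivAt_Pa_a470 d β α
  exact h1.clm_apply h2

/-! ## Continuity of the fields in `(d, β, α)` -/

theorem EigenData470.continuousOn_f (h : EigenData470 f f' f'') :
    ContinuousOn f {p : E3 | 0 < p.2.2} :=
  fun p hp => (h.d1 p hp).continuousAt.continuousWithinAt

theorem EigenData470.continuousOn_f' (h : EigenData470 f f' f'') :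
    ContinuousOn f' {p : E3 | 0 < p.2.2} :=
  fun p hp => (h.d2 p hp).continuousAt.continuousWithinAt

theorem polarPt_mem470 (q : ℝ × ℝ × ℝ) :
    polarPt q.1 q.2.1 q.2.2 ∈ {p : E3 | 0 < p.2.2} :=
  polarPt_height_pos470 _ _ _

theorem continuous_F0_470 (h : EigenData470 f f' f'') :
    Continuous (fun q : ℝ × ℝ × ℝ => F0 f q.1 q.2.1 q.2.2) :=
  h.continuousOn_f.comp_continuous continuous_polarPt470 polarPt_mem470

theorem continuous_f'_polar470 (h : EigenData470 f f' f'') :
    Continuous (fun q : ℝ × ℝ × ℝ => f' (polarPt q.1 q.2.1 q.2.2)) :=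
  h.continuousOn_f'.comp_continuous continuous_polarPt470 polarPt_mem470

theorem continuous_f''_polar470 (h : EigenData470 f f' f'') :
    Continuous (fun q : ℝ × ℝ × ℝ => f'' (polarPt q.1 q.2.1 q.2.2)) :=
  h.cont.comp_continuous continuous_polarPt470 polarPt_mem470

theorem continuous_Fd_470 (h : EigenData470 f f' f'') :
    Continuous (fun q : ℝ × ℝ × ℝ => Fd f' q.1 q.2.1 q.2.2) :=
  (continuous_f'_polar470 h).clm_apply continuous_Pd470

theorem continuous_Fdd_470 (h : EigenData470 f f' f'') :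
    Continuous (fun q : ℝ × ℝ × ℝ => Fdd f' f'' q.1 q.2.1 q.2.2) :=
  (((continuous_f''_polar470 h).clm_apply continuous_Pd470).clm_apply continuous_Pd470).add
    ((continuous_f'_polar470 h).clm_apply continuous_Pdd470)

theorem continuous_Fb_470 (h : EigenData470 f f' f'') :
    Continuous (fun q : ℝ × ℝ × ℝ => Fb f' q.1 q.2.1 q.2.2) :=
  (continuous_f'_polar470 h).clm_apply continuous_Pb470

theorem continuous_Fbb_470 (h : EigenData470 f f' f'') :
    Continuous (fun q : ℝ × ℝ × ℝ => Fbb f' f'' q.1 q.2.1 q.2.2) :=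
  (((continuous_f''_polar470 h).clm_apply continuous_Pb470).clm_apply continuous_Pb470).add
    ((continuous_f'_polar470 h).clm_apply continuous_Pbb470)

theorem continuous_Fa_470 (h : EigenData470 f f' f'') :
    Continuous (fun q : ℝ × ℝ × ℝ => Fa f' q.1 q.2.1 q.2.2) :=
  (continuous_f'_polar470 h).clm_apply continuous_Pa470

theorem continuous_Faa_470 (h : EigenData470 f f' f'') :
    Continuous (fun q : ℝ × ℝ × ℝ => Faa f' f'' q.1 q.2.1 q.2.2) :=
  (((continuous_f''_polar470 h).clm_apply continuous_Pa470).clm_apply continuous_Pa470).add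
    ((continuous_f'_polar470 h).clm_apply continuous_Paa470)

end Fields

/-! ## The algebraic identity -/

set_option maxHeartbeats 1600000 in
theorem polar_alg470 (C S c s ca sa D A11 A12 A13 A21 A22 A23 A31 A32 A33 B1 B2 B3 F : ℂ)
    (hC : C ^ 2 = S ^ 2 + 1) (hs : s ^ 2 + c ^ 2 = 1) (ha : sa ^ 2 + ca ^ 2 = 1)
    (hD : D = C - S * c) (hD0 : D ≠ 0)
    (hpde : (1 / D) ^ 2 * (A11 + A22 + A33) - (1 / D) * B3 = -F) :
    S ^ 2 * s ^ 2 *
        ((A11 * (s * ca / D ^ 2) * (s * ca / D ^ 2) + A12 * (s * ca / D ^ 2) * (s * sa / D ^ 2)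
          + A13 * (s * ca / D ^ 2) * (-(S - C * c) / D ^ 2)
          + A21 * (s * sa / D ^ 2) * (s * ca / D ^ 2) + A22 * (s * sa / D ^ 2) * (s * sa / D ^ 2)
          + A23 * (s * sa / D ^ 2) * (-(S - C * c) / D ^ 2)
          + A31 * (-(S - C * c) / D ^ 2) * (s * ca / D ^ 2)
          + A32 * (-(S - C * c) / D ^ 2) * (s * sa / D ^ 2)
          + A33 * (-(S - C * c) / D ^ 2) * (-(S - C * c) / D ^ 2))
          + (B1 * (-2 * s * ca * (S - C * c) / D ^ 3) + B2 * (-2 * s * sa * (S - C * c) / D ^ 3)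
            + B3 * (-1 / D + 2 * (S - C * c) ^ 2 / D ^ 3)) + F)
      + 2 * C * S * s ^ 2 *
          (B1 * (s * ca / D ^ 2) + B2 * (s * sa / D ^ 2) + B3 * (-(S - C * c) / D ^ 2))
      + s * (s *
          ((A11 * (S * ca * (C * c - S) / D ^ 2) * (S * ca * (C * c - S) / D ^ 2)
            + A12 * (S * ca * (C * c - S) / D ^ 2) * (S * sa * (C * c - S) / D ^ 2)
            + A13 * (S * ca * (C * c - S) / D ^ 2) * (-(S * s) / D ^ 2)
            + A21 * (S * sa * (C * c - S) / D ^ 2) * (S * ca * (C * c - S) / D ^ 2)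
            + A22 * (S * sa * (C * c - S) / D ^ 2) * (S * sa * (C * c - S) / D ^ 2)
            + A23 * (S * sa * (C * c - S) / D ^ 2) * (-(S * s) / D ^ 2)
            + A31 * (-(S * s) / D ^ 2) * (S * ca * (C * c - S) / D ^ 2)
            + A32 * (-(S * s) / D ^ 2) * (S * sa * (C * c - S) / D ^ 2)
            + A33 * (-(S * s) / D ^ 2) * (-(S * s) / D ^ 2))
            + (B1 * (S * ca * (-(s * C * D) - 2 * S * s * (C * c - S)) / D ^ 3)
              + B2 * (S * sa * (-(s * C * D) - 2 * S * s * (C * c - S)) / D ^ 3)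
              + B3 * (-(S * c) / D ^ 2 + 2 * S ^ 2 * s ^ 2 / D ^ 3)))
          + c * (B1 * (S * ca * (C * c - S) / D ^ 2) + B2 * (S * sa * (C * c - S) / D ^ 2)
              + B3 * (-(S * s) / D ^ 2)))
      + ((A11 * (-(S * s * sa / D)) * (-(S * s * sa / D))
          + A12 * (-(S * s * sa / D)) * (S * s * ca / D)
          + A21 * (S * s * ca / D) * (-(S * s * sa / D))
          + A22 * (S * s * ca / D) * (S * s * ca / D))
          + (B1 * (-(S * s * ca / D)) + B2 * (-(S * s * sa / D)))) = 0 := by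
  have hF : F = -((1 / D) ^ 2 * (A11 + A22 + A33) - (1 / D) * B3) := by rw [hpde]; ring
  subst hF
  subst hD
  field_simp
  grind

/-- **The hyperbolic Laplace equation in geodesic polar coordinates** (multiplied by
`sinh² d sin² β`, so that it holds at every `(d, β, α)`). -/
theorem polar_pde470 {f : E3 → ℂ} {f' : E3 → E3 →L[ℝ] ℂ} {f'' : E3 → E3 →L[ℝ] E3 →L[ℝ] ℂ}
    (h : EigenData470 f f' f'') (d β α : ℝ) :
    ((sinh d : ℝ) : ℂ) ^ 2 * ((sin β : ℝ) : ℂ) ^ 2 * (Fdd f' f'' d β α + F0 f d β α)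
      + 2 * ((cosh d : ℝ) : ℂ) * ((sinh d : ℝ) : ℂ) * ((sin β : ℝ) : ℂ) ^ 2 * Fd f' d β α
      + ((sin β : ℝ) : ℂ) *
          (((sin β : ℝ) : ℂ) * Fbb f' f'' d β α + ((cos β : ℝ) : ℂ) * Fb f' d β α)
      + Faa f' f'' d β α = 0 := by
  have hpde := h.pde (polarPt d β α) (polarPt_height_pos470 d β α)
  have hD0 : ((pden d β : ℝ) : ℂ) ≠ 0 := by exact_mod_cast pden_ne470 d β
  have hC : ((cosh d : ℝ) : ℂ) ^ 2 = ((sinh d : ℝ) : ℂ) ^ 2 + 1 := by
    exact_mod_cast Real.cosh_sq d
  have hs : ((sin β : ℝ) : ℂ) ^ 2 + ((cos β : ℝ) : ℂ) ^ 2 = 1 := by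
    exact_mod_cast Real.sin_sq_add_cos_sq β
  have ha : ((sin α : ℝ) : ℂ) ^ 2 + ((cos α : ℝ) : ℂ) ^ 2 = 1 := by
    exact_mod_cast Real.sin_sq_add_cos_sq α
  have hD : ((pden d β : ℝ) : ℂ) = ((cosh d : ℝ) : ℂ) - ((sinh d : ℝ) : ℂ) * ((cos β : ℝ) : ℂ) := by
    unfold pden; push_cast; ring
  have key := polar_alg470 ((cosh d : ℝ) : ℂ) ((sinh d : ℝ) : ℂ) ((cos β : ℝ) : ℂ)
    ((sin β : ℝ) : ℂ) ((cos α : ℝ) : ℂ) ((sin α : ℝ) : ℂ) ((pden d β : ℝ) : ℂ)
    (f'' (polarPt d β α) e1 e1) (f'' (polarPt d β α) e1 e2) (f'' (polarPt d β α) e1 e3)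
    (f'' (polarPt d β α) e2 e1) (f'' (polarPt d β α) e2 e2) (f'' (polarPt d β α) e2 e3)
    (f'' (polarPt d β α) e3 e1) (f'' (polarPt d β α) e3 e2) (f'' (polarPt d β α) e3 e3)
    (f' (polarPt d β α) e1) (f' (polarPt d β α) e2) (f' (polarPt d β α) e3)
    (f (polarPt d β α)) hC hs ha hD hD0
    (by
      have : ((polarPt d β α).2.2 : ℝ) = 1 / pden d β := rfl
      rw [this] at hpde
      push_cast at hpde
      exact hpde)
  unfold Fdd Fd Fbb Fb Faa F0
  rw [clm33_470 (f'' (polarPt d β α)) (Pd d β α) (Pd d β α),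
    clm33_470 (f'' (polarPt d β α)) (Pb d β α) (Pb d β α),
    clm33_470 (f'' (polarPt d β α)) (Pa d β α) (Pa d β α),
    clm3_470 (f' (polarPt d β α)) (Pd d β α), clm3_470 (f' (polarPt d β α)) (Pdd d β α),
    clm3_470 (f' (polarPt d β α)) (Pb d β α), clm3_470 (f' (polarPt d β α)) (Pbb d β α),
    clm3_470 (f' (polarPt d β α)) (Paa d β α)]
  simp only [Pd, Pdd, Pb, Pbb, Pa, Paa, PX1, PX2, pdd]
  push_cast
  rw [hD] at key ⊢
  push_cast at key ⊢
  linear_combination key

end Fermat.Agent.LT.H470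

end
end
-- ===== PACK-END LT/H470/Chain.lean

-- ===== PACK-BEGIN LT/H767/StrongApprox.lean
section


/-!
# Row LT, tower T1 (basics) — helper767: `𝔸_f = K + ∏ 𝒪_v`

OFF-MAIN.  Mathlib only (+ `LocalCompact.lean`).

* `exists_sub_mem_integers` : for every finite adele `a` there is `k : K` with
  `a v - k ∈ 𝒪_v` for all `v` (additive strong approximation at the finite places).
-/

set_option autoImplicit false

open NumberField IsDedekindDomain IsDedekindDomain.HeightOneSpectrum

noncomputable section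

namespace Fermat.Agent.LT.H767

variable (K : Type*) [Field K] [NumberField K]

/-- The valuation of the image of `k : K` in `K_v`. -/
theorem valued_algebraMap (v : HeightOneSpectrum (𝓞 K)) (k : K) :
    Valued.v (algebraMap K (v.adicCompletion K) k) = v.valuation K k :=
  valuedAdicCompletion_eq_valuation' v k

/-- The valuation of the image of `a : 𝓞 K` in `K_v` is at most one. -/
theorem valued_algebraMap_int_le_one (v : HeightOneSpectrum (𝓞 K)) (a : 𝓞 K) :
    Valued.v (algebraMap K (v.adicCompletion K) (algebraMap (𝓞 K) K a)) ≤ 1 := by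
  rw [valued_algebraMap]
  exact valuation_le_one v a

/-- Approximation of an element of `𝒪_v` by an element of `𝓞 K` to the precision of a non-zero
`d : 𝓞 K`. -/
theorem exists_int_sub_lt (v : HeightOneSpectrum (𝓞 K)) (x : v.adicCompletion K)
    (hx : Valued.v x ≤ 1) (d : 𝓞 K) (hd : d ≠ 0) :
    ∃ y : 𝓞 K, Valued.v (algebraMap K (v.adicCompletion K) (algebraMap (𝓞 K) K y) - x)
      < Valued.v (algebraMap K (v.adicCompletion K) (algebraMap (𝓞 K) K d)) := by
  set D : v.adicCompletion K := algebraMap K (v.adicCompletion K) (algebraMap (𝓞 K) K d) with hD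
  have hdK : (algebraMap (𝓞 K) K d) ≠ 0 := by simpa using hd
  have hD0 : D ≠ 0 := by
    rw [hD]; simpa using hdK
  have hn : Metric.ball x ‖D‖ ∈ nhds x := Metric.ball_mem_nhds x (norm_pos_iff.mpr hD0)
  have hdense : DenseRange (algebraMap K (v.adicCompletion K)) := denseRange_algebraMap K v
  obtain ⟨_, hy, k, rfl⟩ := mem_closure_iff_nhds.mp (hdense x) _ hn
  rw [Metric.mem_ball, dist_eq_norm] at hy
  have hk : Valued.v (algebraMap K (v.adicCompletion K) k - x) < Valued.v D :=
    Valued.toNormedField.norm_lt_iff.mp hy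
  have hD1 : Valued.v D ≤ 1 := valued_algebraMap_int_le_one K v d
  have hk1 : v.valuation K k ≤ 1 := by
    rw [← valued_algebraMap K v k]
    have : (algebraMap K (v.adicCompletion K) k)
        = (algebraMap K (v.adicCompletion K) k - x) + x := by ring
    rw [this]
    exact le_trans (Valuation.map_add _ _ _) (max_le (hk.le.trans hD1) hx)
  have hγ : v.valuation K (algebraMap (𝓞 K) K d) ≠ 0 := (Valuation.ne_zero_iff _).mpr hdK
  obtain ⟨y, hy'⟩ := exists_valuation_sub_lt_of_integer v hk1 (Units.mk0 _ hγ)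
  refine ⟨y, ?_⟩
  have h2 : Valued.v (algebraMap K (v.adicCompletion K) (algebraMap (𝓞 K) K y) -
      algebraMap K (v.adicCompletion K) k) < Valued.v D := by
    rw [← map_sub, valued_algebraMap, hD, valued_algebraMap]
    simpa using hy'
  have : algebraMap K (v.adicCompletion K) (algebraMap (𝓞 K) K y) - x
      = (algebraMap K (v.adicCompletion K) (algebraMap (𝓞 K) K y) -
      algebraMap K (v.adicCompletion K) k) + (algebraMap K (v.adicCompletion K) k - x) := by ring
  rw [this]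
  exact lt_of_le_of_lt (Valuation.map_add _ _ _) (max_lt h2 hk)


/-- Local denominators: every element of `K_v` becomes integral after multiplication by a
non-zero element of `𝓞 K`. -/
theorem exists_int_mul_le_one (v : HeightOneSpectrum (𝓞 K)) (x : v.adicCompletion K) :
    ∃ d : 𝓞 K, d ≠ 0 ∧
      Valued.v (algebraMap K (v.adicCompletion K) (algebraMap (𝓞 K) K d) * x) ≤ 1 := by
  obtain ⟨π, hπ, hπ0⟩ := Submodule.exists_mem_ne_zero_of_ne_bot v.ne_bot
  set P0 : v.adicCompletion K := algebraMap K (v.adicCompletion K) (algebraMap (𝓞 K) K π) with hP0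
  have hP1 : ‖P0‖ < 1 := by
    rw [Valued.toNormedField.norm_lt_one_iff, hP0, valued_algebraMap]
    exact (valuation_lt_one_iff_mem v π).mpr hπ
  obtain ⟨n, hn⟩ := exists_pow_lt_of_lt_one (show (0 : ℝ) < 1 / (‖x‖ + 1) by positivity) hP1
  refine ⟨π ^ n, pow_ne_zero _ hπ0, ?_⟩
  rw [← Valued.toNormedField.norm_le_one_iff, map_pow, map_pow, norm_mul, norm_pow]
  have h1 : ‖P0‖ ^ n * ‖x‖ ≤ 1 / (‖x‖ + 1) * (‖x‖ + 1) := by
    apply mul_le_mul hn.le (by linarith) (norm_nonneg _) (by positivity)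
  have h2 : 1 / (‖x‖ + 1) * (‖x‖ + 1) = 1 := by
    field_simp
  linarith

/-- Global denominators: every finite adele becomes integral after multiplication by a non-zero
element of `𝓞 K`. -/
theorem exists_denominator (a : FiniteAdeleRing (𝓞 K) K) :
    ∃ d : 𝓞 K, d ≠ 0 ∧ ∀ v : HeightOneSpectrum (𝓞 K),
      Valued.v (algebraMap K (v.adicCompletion K) (algebraMap (𝓞 K) K d) * a v) ≤ 1 := by
  classical
  have hfin : {v : HeightOneSpectrum (𝓞 K) | ¬ a v ∈ v.adicCompletionIntegers K}.Finite :=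
    Filter.eventually_cofinite.mp a.2
  choose δ hδ0 hδ using fun v : HeightOneSpectrum (𝓞 K) => exists_int_mul_le_one K v (a v)
  refine ⟨∏ v ∈ hfin.toFinset, δ v, Finset.prod_ne_zero_iff.mpr fun v _ => hδ0 v, fun v => ?_⟩
  by_cases hv : v ∈ hfin.toFinset
  · rw [← Finset.mul_prod_erase _ _ hv]
    have key : algebraMap K (v.adicCompletion K)
          (algebraMap (𝓞 K) K (δ v * ∏ x ∈ hfin.toFinset.erase v, δ x)) * a v
        = (algebraMap K (v.adicCompletion K) (algebraMap (𝓞 K) K (δ v)) * a v) *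
          algebraMap K (v.adicCompletion K)
            (algebraMap (𝓞 K) K (∏ x ∈ hfin.toFinset.erase v, δ x)) := by
      rw [map_mul, map_mul]; ring
    rw [key, map_mul]
    calc _ ≤ 1 * 1 := mul_le_mul' (hδ v) (valued_algebraMap_int_le_one K v _)
      _ = 1 := one_mul 1
  · have hav : Valued.v (a v) ≤ 1 := by
      by_contra h
      exact hv (hfin.mem_toFinset.mpr h)
    rw [map_mul]
    calc _ ≤ 1 * 1 := mul_le_mul' (valued_algebraMap_int_le_one K v _) hav
      _ = 1 := one_mul 1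


/-- **Additive strong approximation at the finite places**: `𝔸_f = K + ∏ 𝒪_v`. -/
theorem exists_sub_mem_integers (a : FiniteAdeleRing (𝓞 K) K) :
    ∃ k : K, ∀ v : HeightOneSpectrum (𝓞 K),
      a v - algebraMap K (v.adicCompletion K) k ∈ v.adicCompletionIntegers K := by
  classical
  obtain ⟨d, hd0, hd⟩ := exists_denominator K a
  have hdK : (algebraMap (𝓞 K) K d) ≠ 0 := by simpa using hd0
  have hT : {v : HeightOneSpectrum (𝓞 K) | v.asIdeal ∣ Ideal.span {d}}.Finite :=
    Ideal.finite_factors (by simpa using hd0)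
  choose y hy using fun v : HeightOneSpectrum (𝓞 K) =>
    exists_int_sub_lt K v (algebraMap K _ (algebraMap (𝓞 K) K d) * a v) (hd v) d hd0
  obtain ⟨z, hz⟩ := IsDedekindDomain.exists_forall_sub_mem_ideal (s := hT.toFinset)
    (fun v : HeightOneSpectrum (𝓞 K) => v.asIdeal)
    (fun v => multiplicity v.asIdeal (Ideal.span {d}))
    (fun v _ => v.prime) (fun v _ w _ hvw h => hvw (HeightOneSpectrum.ext h))
    (fun v => y v.1)
  have hz' : ∀ v : HeightOneSpectrum (𝓞 K),
      z - y v ∈ v.asIdeal ^ multiplicity v.asIdeal (Ideal.span {d}) := by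
    intro v
    by_cases hv : v ∈ hT.toFinset
    · exact hz v hv
    · have : ¬ v.asIdeal ∣ Ideal.span {d} := fun h => hv (hT.mem_toFinset.mpr h)
      rw [multiplicity_eq_zero.mpr this, pow_zero, Ideal.one_eq_top]
      exact Submodule.mem_top
  refine ⟨algebraMap (𝓞 K) K z / algebraMap (𝓞 K) K d, fun v => ?_⟩
  rw [mem_adicCompletionIntegers]
  set D : v.adicCompletion K := algebraMap K (v.adicCompletion K) (algebraMap (𝓞 K) K d) with hD
  have hD0 : D ≠ 0 := by rw [hD]; simpa using hdK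
  have hvD : Valued.v D ≠ 0 := (Valuation.ne_zero_iff _).mpr hD0
  -- the numerator is divisible by `d` at `v`
  have hnum : Valued.v (D * a v - algebraMap K (v.adicCompletion K) (algebraMap (𝓞 K) K z))
      ≤ Valued.v D := by
    have h1 : Valued.v (algebraMap K (v.adicCompletion K) (algebraMap (𝓞 K) K (z - y v)))
        ≤ Valued.v D := by
      rw [hD, valued_algebraMap, valued_algebraMap, valuation_of_algebraMap,
        valuation_of_algebraMap, intValuation_eq_exp_neg_multiplicity v hd0,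
        intValuation_le_pow_iff_mem]
      exact hz' v
    have h2 : D * a v - algebraMap K (v.adicCompletion K) (algebraMap (𝓞 K) K z)
        = -(algebraMap K (v.adicCompletion K) (algebraMap (𝓞 K) K (y v)) - D * a v)
          + -(algebraMap K (v.adicCompletion K) (algebraMap (𝓞 K) K (z - y v))) := by
      rw [map_sub, map_sub]; ring
    rw [h2]
    refine le_trans (Valuation.map_add _ _ _) (max_le ?_ ?_)
    · rw [Valuation.map_neg]; exact (hy v).le
    · rw [Valuation.map_neg]; exact h1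
  have h3 : a v - algebraMap K (v.adicCompletion K)
        (algebraMap (𝓞 K) K z / algebraMap (𝓞 K) K d)
      = D⁻¹ * (D * a v - algebraMap K (v.adicCompletion K) (algebraMap (𝓞 K) K z)) := by
    rw [map_div₀, ← hD]
    field_simp
  rw [h3, map_mul, map_inv₀]
  calc (Valued.v D)⁻¹ * _ ≤ (Valued.v D)⁻¹ * Valued.v D := by gcongr
    _ = 1 := inv_mul_cancel₀ hvD

end Fermat.Agent.LT.H767

end
end
-- ===== PACK-END LT/H767/StrongApprox.lean

-- ===== PACK-BEGIN LT/A2/H426/LocalNorm.lean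
section



/-!
# Row LT, tower A2, leaf A2.03.2 TORUS-OPEN (helper426) -- local part

OFF-MAIN.  Mathlib + `LT/H11/LC.lean` (helper11, byte-identical copy) only; complete proofs.

* `sq_open_inf426`, `sq_open_fin426` : squaring is open at `1` in every completion of a number field
  (inverse function theorem);
* `exists_sq_eq_of_odd426` : Hensel for squares at an odd place (Newton + compactness of `𝒪_v`);
* `exists_norm_eq_of_good426` : at a good place (`v ∤ 2`, `t`, `n` integral, discriminant a unit) the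
  norm form `a² + t a b + n b²` represents every unit integrally;
* `LocSol426`, `locSol_special426`, `locSol_good426` : the local solutions used by the global
  assembly; `finite_valuation_ne_one426`, `finite_valuation_not_le_one426`.
-/

set_option autoImplicit false
set_option linter.style.haveILetI false
set_option linter.unusedSectionVars false

open IsDedekindDomain NumberField
open scoped Valued Topology

noncomputable section

namespace Fermat.Agent.LT.A2.H426

/-- Squaring is open at `1` in a complete nontrivially normed field of characteristic `≠ 2`. -/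
theorem sq_image_mem_nhds_one426 {𝕜 : Type*} [NontriviallyNormedField 𝕜] [CompleteSpace 𝕜]
    (h2 : (2 : 𝕜) ≠ 0) {N : Set 𝕜} (hN : N ∈ 𝓝 (1 : 𝕜)) :
    (fun x : 𝕜 => x ^ 2) '' N ∈ 𝓝 (1 : 𝕜) := by
  have hd : HasStrictDerivAt (fun x : 𝕜 => x ^ 2) (((2 : ℕ) : 𝕜) * (1 : 𝕜) ^ (2 - 1)) 1 :=
    hasStrictDerivAt_pow 2 (1 : 𝕜)
  have hne : (((2 : ℕ) : 𝕜) * (1 : 𝕜) ^ (2 - 1)) ≠ 0 := by
    simpa using h2
  have h := hd.map_nhds_eq hne
  have h1 : 𝓝 ((1 : 𝕜) ^ 2) = 𝓝 (1 : 𝕜) := by rw [one_pow]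
  rw [← h1, ← h]
  exact Filter.image_mem_map hN

section Inf
variable (K : Type) [Field K] [NumberField K] (w : InfinitePlace K)

theorem two_ne_zero_inf426 : (2 : w.Completion) ≠ 0 := by
  have : CharZero w.Completion := by
    exact charZero_of_injective_algebraMap (algebraMap K w.Completion).injective
  exact two_ne_zero

theorem norm_two_inf426 : ‖(2 : w.Completion)‖ = 2 := by
  have h := (InfinitePlace.Completion.isometry_extensionEmbedding w).norm_map_of_map_zero
    (map_zero _) (2 : w.Completion)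
  rw [← h, map_ofNat]
  simp

theorem sq_open_inf426 {N : Set w.Completion} (hN : N ∈ 𝓝 (1 : w.Completion)) :
    ∃ N' ∈ 𝓝 (1 : w.Completion), ∀ y ∈ N', ∃ z ∈ N, z ^ 2 = y := by
  let _i : NontriviallyNormedField w.Completion :=
    NontriviallyNormedField.ofNormNeOne ⟨(2 : w.Completion), two_ne_zero_inf426 K w, by
      rw [norm_two_inf426]; norm_num⟩
  refine ⟨_, sq_image_mem_nhds_one426 (two_ne_zero_inf426 K w) hN, ?_⟩
  rintro y ⟨z, hz, rfl⟩
  exact ⟨z, hz, rfl⟩

end Inf

section Fin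
variable (K : Type) [Field K] [NumberField K] (v : HeightOneSpectrum (𝓞 K))

theorem two_ne_zero_fin426 : (2 : v.adicCompletion K) ≠ 0 := by
  have : CharZero (v.adicCompletion K) := by
    exact charZero_of_injective_algebraMap (algebraMap K (v.adicCompletion K)).injective
  exact two_ne_zero

theorem sq_open_fin426 {N : Set (v.adicCompletion K)} (hN : N ∈ 𝓝 (1 : v.adicCompletion K)) :
    ∃ N' ∈ 𝓝 (1 : v.adicCompletion K), ∀ y ∈ N', ∃ z ∈ N, z ^ 2 = y := by
  refine ⟨_, sq_image_mem_nhds_one426 (two_ne_zero_fin426 K v) hN, ?_⟩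
  rintro y ⟨z, hz, rfl⟩
  exact ⟨z, hz, rfl⟩

end Fin

section Fin
variable (K : Type) [Field K] [NumberField K] (v : HeightOneSpectrum (𝓞 K))

/-- Newton approximation of a square root of `y ≡ 1` at an odd place. -/
theorem newton_sq426 (h2 : Valued.v (2 : v.adicCompletion K) = 1) (y : v.adicCompletion K)
    (hy : Valued.v (y - 1) < 1) (k : ℕ) :
    ∃ z : v.adicCompletion K, Valued.v z = 1 ∧
      Valued.v (z ^ 2 - y) ≤ Valued.v ((y - 1) ^ (k + 1)) := by
  induction k with
  | zero =>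
    refine ⟨1, by simp, ?_⟩
    rw [one_pow, zero_add, pow_one, Valuation.map_sub_swap]
  | succ k ih =>
    obtain ⟨z, hz1, hze⟩ := ih
    have hz0 : z ≠ 0 := by
      intro h
      rw [h, map_zero] at hz1
      exact zero_ne_one hz1
    have h20 : (2 : v.adicCompletion K) ≠ 0 := by
      intro h
      rw [h, map_zero] at h2
      exact zero_ne_one h2
    have hr1 : Valued.v ((y - 1) ^ (k + 1)) < 1 := by
      rw [map_pow]
      exact pow_lt_one₀ zero_le hy (Nat.succ_ne_zero k)
    have he : Valued.v (z ^ 2 - y) < 1 := lt_of_le_of_lt hze hr1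
    have hv2z : Valued.v (2 * z) = 1 := by rw [map_mul, h2, hz1, one_mul]
    refine ⟨z - (z ^ 2 - y) / (2 * z), ?_, ?_⟩
    · have hlt : Valued.v ((z ^ 2 - y) / (2 * z)) < Valued.v z := by
        rw [map_div₀, hv2z, div_one, hz1]
        exact he
      rw [Valuation.map_sub_eq_of_lt_left _ hlt, hz1]
    · have key : (z - (z ^ 2 - y) / (2 * z)) ^ 2 - y = (z ^ 2 - y) ^ 2 / (2 * z) ^ 2 := by
        field_simp
        ring
      rw [key, map_div₀, map_pow, map_pow, hv2z, one_pow, div_one]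
      have h1 : Valued.v (z ^ 2 - y) ^ 2 ≤ Valued.v ((y - 1) ^ (k + 1)) ^ 2 :=
        pow_le_pow_left₀ zero_le hze 2
      refine le_trans h1 ?_
      rw [map_pow, map_pow, ← pow_mul]
      exact pow_le_pow_of_le_one zero_le hy.le (by omega)

/-- Hensel for squares at an odd place: every `y ≡ 1` is the square of a unit. -/
theorem exists_sq_eq_of_odd426 (h2 : Valued.v (2 : v.adicCompletion K) = 1)
    (y : v.adicCompletion K) (hy : Valued.v (y - 1) < 1) :
    ∃ z : v.adicCompletion K, Valued.v z ≤ 1 ∧ z ^ 2 = y := by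
  have hcomp : IsCompact ((fun z : v.adicCompletion K => z ^ 2) ''
      (v.adicCompletionIntegers K : Set (v.adicCompletion K))) :=
    (Fermat.Agent.LT.H11.LC.isCompact_integers_h11 K v).image (by fun_prop)
  have hcl := hcomp.isClosed
  have hmem : y ∈ closure ((fun z : v.adicCompletion K => z ^ 2) ''
      (v.adicCompletionIntegers K : Set (v.adicCompletion K))) := by
    rw [Metric.mem_closure_iff]
    intro ε hε
    have hn1 : ‖y - 1‖ < 1 := Valued.toNormedField.norm_lt_one_iff.2 hy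
    obtain ⟨n, hn⟩ := exists_pow_lt_of_lt_one hε hn1
    obtain ⟨z, hz1, hz⟩ := newton_sq426 K v h2 y hy n
    refine ⟨z ^ 2, ⟨z, ?_, rfl⟩, ?_⟩
    · exact (HeightOneSpectrum.mem_adicCompletionIntegers (𝓞 K) K v).2 hz1.le
    · rw [dist_comm, dist_eq_norm]
      have h3 : ‖z ^ 2 - y‖ ≤ ‖(y - 1) ^ (n + 1)‖ := Valued.toNormedField.norm_le_iff.2 hz
      rw [norm_pow] at h3
      refine lt_of_le_of_lt h3 (lt_of_le_of_lt ?_ hn)
      exact pow_le_pow_of_le_one (norm_nonneg _) hn1.le (Nat.le_succ n)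
  rw [hcl.closure_eq] at hmem
  obtain ⟨z, hz, hzy⟩ := hmem
  exact ⟨z, (HeightOneSpectrum.mem_adicCompletionIntegers (𝓞 K) K v).1 hz, hzy⟩

end Fin

/-- A nondegenerate binary quadratic form over a finite field of odd characteristic represents
every element. -/
theorem finite_field_binary426 {k : Type*} [Field k] [Finite k] (h2 : (2 : k) ≠ 0)
    (t n u : k) (hd : t ^ 2 - 4 * n ≠ 0) :
    ∃ a b : k, a ^ 2 + t * a * b + n * b ^ 2 = u := by
  classical
  haveI : Fintype k := Fintype.ofFinite k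
  have hchar : ringChar k ≠ 2 := by
    intro h
    have h0 : ((ringChar k : ℕ) : k) = 0 := ringChar.Nat.cast_ringChar
    rw [h] at h0
    exact h2 (by exact_mod_cast h0)
  have hodd : Fintype.card k % 2 = 1 := FiniteField.odd_card_of_char_ne_two hchar
  have h4 : (4 : k) ≠ 0 := by
    have : (4 : k) = 2 * 2 := by norm_num
    rw [this]
    exact mul_ne_zero h2 h2
  set D : k := n - t ^ 2 / 4 with hD
  have hD0 : D ≠ 0 := by
    intro h
    apply hd
    have : t ^ 2 - 4 * n = -4 * D := by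
      rw [hD]; field_simp; ring
    rw [this, h, mul_zero]
  have hf : (Polynomial.C (1 : k) * Polynomial.X ^ 2 + Polynomial.C 0 * Polynomial.X
      + Polynomial.C 0 : Polynomial k).degree = 2 := Polynomial.degree_quadratic one_ne_zero
  have hg : (Polynomial.C D * Polynomial.X ^ 2 + Polynomial.C 0 * Polynomial.X
      + Polynomial.C (-u) : Polynomial k).degree = 2 := Polynomial.degree_quadratic hD0
  obtain ⟨a', b', hab⟩ := FiniteField.exists_root_sum_quadratic hf hg hodd
  simp only [Polynomial.eval_add, Polynomial.eval_mul, Polynomial.eval_C, Polynomial.eval_pow,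
    Polynomial.eval_X, one_mul, zero_mul, add_zero] at hab
  refine ⟨a' - t * b' / 2, b', ?_⟩
  have : (a' - t * b' / 2) ^ 2 + t * (a' - t * b' / 2) * b' + n * b' ^ 2
      = a' ^ 2 + D * b' ^ 2 := by
    rw [hD]; field_simp; ring
  rw [this]
  linear_combination hab

section Fin
variable (K : Type) [Field K] [NumberField K] (v : HeightOneSpectrum (𝓞 K))

/-- At a good place the norm form represents every unit integrally. -/
theorem exists_norm_eq_of_good426 (t n : v.adicCompletion K)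
    (h2 : Valued.v (2 : v.adicCompletion K) = 1) (ht : Valued.v t ≤ 1) (hn : Valued.v n ≤ 1)
    (hd : Valued.v (t ^ 2 - 4 * n) = 1) (u : v.adicCompletion K) (hu : Valued.v u = 1) :
    ∃ a b : v.adicCompletion K, Valued.v a ≤ 1 ∧ Valued.v b ≤ 1 ∧
      a ^ 2 + t * a * b + n * b ^ 2 = u := by
  haveI : Finite (IsLocalRing.ResidueField (v.adicCompletionIntegers K)) :=
    Fermat.Agent.LT.H11.LC.finite_residueField_h11 K v
  have memO : ∀ x : v.adicCompletion K, Valued.v x ≤ 1 → x ∈ v.adicCompletionIntegers K :=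
    fun x hx => (HeightOneSpectrum.mem_adicCompletionIntegers (𝓞 K) K v).2 hx
  -- residue map and nonvanishing criterion
  have res0 : ∀ x : v.adicCompletionIntegers K,
      IsLocalRing.residue (v.adicCompletionIntegers K) x = 0 ↔
        Valued.v (x : v.adicCompletion K) < 1 := by
    intro x
    rw [IsLocalRing.residue_eq_zero_iff, Fermat.Agent.LT.H11.LC.mem_maximalIdeal_iff_h11]
  set tO : v.adicCompletionIntegers K := ⟨t, memO t ht⟩ with htO
  set nO : v.adicCompletionIntegers K := ⟨n, memO n hn⟩ with hnO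
  set uO : v.adicCompletionIntegers K := ⟨u, memO u hu.le⟩ with huO
  have htc : (tO : v.adicCompletion K) = t := rfl
  have hnc : (nO : v.adicCompletion K) = n := rfl
  have huc : (uO : v.adicCompletion K) = u := rfl
  set res := IsLocalRing.residue (v.adicCompletionIntegers K) with hres
  have hres2 : (2 : IsLocalRing.ResidueField (v.adicCompletionIntegers K)) ≠ 0 := by
    have h : res (1 + 1 : v.adicCompletionIntegers K) ≠ 0 := by
      rw [Ne, res0]
      have e : (((1 + 1 : v.adicCompletionIntegers K)) : v.adicCompletion K) = 2 := by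
        push_cast; norm_num
      rw [e, h2]
      exact lt_irrefl _
    rw [map_add, map_one] at h
    intro h'
    apply h
    rw [← h']
    norm_num
  have hresd : (res tO) ^ 2 - 4 * res nO ≠ 0 := by
    have h : res (tO ^ 2 - (1 + 1 + 1 + 1) * nO) ≠ 0 := by
      rw [Ne, res0]
      have e : ((tO ^ 2 - (1 + 1 + 1 + 1) * nO : v.adicCompletionIntegers K) :
          v.adicCompletion K) = t ^ 2 - 4 * n := by
        push_cast; rw [htc, hnc]; norm_num
      rw [e, hd]
      exact lt_irrefl _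
    rw [map_sub, map_mul, map_pow, map_add, map_add, map_add, map_one] at h
    intro h'
    apply h
    rw [← h']
    norm_num
  obtain ⟨a', b', hab⟩ := finite_field_binary426 hres2 (res tO) (res nO) (res uO) hresd
  obtain ⟨a₀, rfl⟩ := IsLocalRing.residue_surjective a'
  obtain ⟨b₀, rfl⟩ := IsLocalRing.residue_surjective b'
  have hq : Valued.v ((a₀ : v.adicCompletion K) ^ 2 + t * a₀ * b₀ + n * (b₀ : v.adicCompletion K) ^ 2 - u) < 1 := by
    have h : res (a₀ ^ 2 + tO * a₀ * b₀ + nO * b₀ ^ 2 - uO) = 0 := by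
      rw [map_sub, map_add, map_add, map_mul, map_mul, map_mul, map_pow, map_pow, sub_eq_zero]
      exact hab
    rw [res0] at h
    have e : ((a₀ ^ 2 + tO * a₀ * b₀ + nO * b₀ ^ 2 - uO : v.adicCompletionIntegers K) :
        v.adicCompletion K)
        = (a₀ : v.adicCompletion K) ^ 2 + t * a₀ * b₀ + n * (b₀ : v.adicCompletion K) ^ 2 - u := by
      push_cast; rw [htc, hnc, huc]
    rwa [e] at h
  set q₀ : v.adicCompletion K := (a₀ : v.adicCompletion K) ^ 2 + t * a₀ * b₀ + n * (b₀ : v.adicCompletion K) ^ 2 with hq₀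
  have hq1 : Valued.v q₀ = 1 := by
    have : q₀ = u + (q₀ - u) := by ring
    rw [this, Valuation.map_add_eq_of_lt_left _ (by rw [hu]; exact hq), hu]
  have hq0 : q₀ ≠ 0 := by
    intro h
    rw [h, map_zero] at hq1
    exact zero_ne_one hq1
  have hy : Valued.v (u / q₀ - 1) < 1 := by
    have : u / q₀ - 1 = -(q₀ - u) / q₀ := by field_simp; ring
    rw [this, map_div₀, hq1, div_one, Valuation.map_neg]
    exact hq
  obtain ⟨z, hz1, hz⟩ := exists_sq_eq_of_odd426 K v h2 (u / q₀) hy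
  have ha₀ : Valued.v (a₀ : v.adicCompletion K) ≤ 1 :=
    (HeightOneSpectrum.mem_adicCompletionIntegers (𝓞 K) K v).1 a₀.2
  have hb₀ : Valued.v (b₀ : v.adicCompletion K) ≤ 1 :=
    (HeightOneSpectrum.mem_adicCompletionIntegers (𝓞 K) K v).1 b₀.2
  refine ⟨z * a₀, z * b₀, ?_, ?_, ?_⟩
  · rw [map_mul]; exact mul_le_one' hz1 ha₀
  · rw [map_mul]; exact mul_le_one' hz1 hb₀
  · have : (z * (a₀ : v.adicCompletion K)) ^ 2 + t * (z * a₀) * (z * b₀) + n * (z * (b₀ : v.adicCompletion K)) ^ 2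
        = z ^ 2 * q₀ := by rw [hq₀]; ring
    rw [this, hz]
    field_simp

end Fin

/-- The four entries of `torMat t n a b - 1` lie in `T`. -/
def Ent426 {F : Type*} [CommRing F] (T : Set F) (t n a b : F) : Prop :=
  a - 1 ∈ T ∧ -(n * b) ∈ T ∧ b ∈ T ∧ a + t * b - 1 ∈ T

/-- Local solution: `(a, b)` has norm `u`, and the entries of the torus element and of its inverse
are `T`-close to the identity. -/
def LocSol426 {F : Type*} [Field F] (T : Set F) (t n u a b : F) : Prop :=
  a * (a + t * b) + n * b * b = u ∧ Ent426 T t n a b ∧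
    Ent426 T t n ((a + t * b) * u⁻¹) (-(b * u⁻¹))

theorem LocSol426.mono {F : Type*} [Field F] {T T' : Set F} (h : T ⊆ T') {t n u a b : F}
    (hs : LocSol426 T t n u a b) : LocSol426 T' t n u a b :=
  ⟨hs.1, ⟨h hs.2.1.1, h hs.2.1.2.1, h hs.2.1.2.2.1, h hs.2.1.2.2.2⟩,
    ⟨h hs.2.2.1, h hs.2.2.2.1, h hs.2.2.2.2.1, h hs.2.2.2.2.2⟩⟩

/-- The special local solution: a square root, `b = 0`. -/
theorem locSol_special426 {F : Type*} [Field F] [TopologicalSpace F] [IsTopologicalDivisionRing F]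
    (hsq : ∀ N : Set F, N ∈ 𝓝 (1 : F) → ∃ N' ∈ 𝓝 (1 : F), ∀ y ∈ N', ∃ z ∈ N, z ^ 2 = y)
    (t n : F) {T : Set F} (hT : T ∈ 𝓝 (0 : F)) :
    ∃ Y ∈ 𝓝 (1 : F), ∀ u ∈ Y, ∃ a b : F, LocSol426 T t n u a b := by
  have h0 : (0 : F) ∈ T := mem_of_mem_nhds hT
  have hZ : {z : F | z - 1 ∈ T ∧ z⁻¹ - 1 ∈ T} ∈ 𝓝 (1 : F) := by
    have h1 : ContinuousAt (fun z : F => z - 1) 1 := by fun_prop
    have h2 : ContinuousAt (fun z : F => z⁻¹ - 1) 1 :=
      (continuousAt_inv₀ one_ne_zero).sub continuousAt_const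
    have m1 := h1.preimage_mem_nhds (t := T) (by simpa using hT)
    have m2 := h2.preimage_mem_nhds (t := T) (by simpa using hT)
    exact Filter.inter_mem m1 m2
  obtain ⟨Y, hY, hYz⟩ := hsq _ hZ
  refine ⟨Y, hY, fun u hu => ?_⟩
  obtain ⟨z, ⟨hz1, hz2⟩, hzu⟩ := hYz u hu
  refine ⟨z, 0, ?_, ⟨?_, ?_, ?_, ?_⟩, ⟨?_, ?_, ?_, ?_⟩⟩
  · rw [← hzu]; ring
  · exact hz1
  · simpa using h0
  · exact h0
  · simpa using hz1
  · have : (z + t * 0) * u⁻¹ = z⁻¹ := by
      rw [← hzu, mul_zero, add_zero]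
      by_cases hz : z = 0
      · simp [hz]
      · field_simp
    rw [this]; exact hz2
  · simpa using h0
  · simpa using h0
  · have : (z + t * 0) * u⁻¹ + t * -(0 * u⁻¹) = z⁻¹ := by
      rw [← hzu, mul_zero, add_zero, zero_mul, neg_zero, mul_zero, add_zero]
      by_cases hz : z = 0
      · simp [hz]
      · field_simp
    rw [this]; exact hz2

section Good
variable (K : Type) [Field K] [NumberField K]

/-- For `x ≠ 0` in `K` the valuation of `x` is `1` at almost all finite places. -/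
theorem finite_valuation_ne_one426 (x : K) (hx : x ≠ 0) :
    {v : HeightOneSpectrum (𝓞 K) | Valued.v (algebraMap K (v.adicCompletion K) x) ≠ 1}.Finite := by
  have h1 := HeightOneSpectrum.Support.finite (𝓞 K) x
  have h2 := HeightOneSpectrum.Support.finite (𝓞 K) x⁻¹
  refine (h1.union h2).subset ?_
  intro v hv
  have key : ∀ y : K, Valued.v (algebraMap K (v.adicCompletion K) y) = v.valuation K y :=
    fun y => HeightOneSpectrum.valuedAdicCompletion_eq_valuation' v y
  rw [Set.mem_ofPred_eq, key] at hv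
  rcases lt_or_gt_of_ne hv with h | h
  · right
    show 1 < v.valuation K x⁻¹
    rw [map_inv₀]
    exact (one_lt_inv₀ (by
      rw [zero_lt_iff]
      exact (Valuation.ne_zero_iff _).2 hx)).2 h
  · left
    exact h

/-- The valuation of `x` is `≤ 1` at almost all finite places. -/
theorem finite_valuation_not_le_one426 (x : K) :
    {v : HeightOneSpectrum (𝓞 K) | ¬ Valued.v (algebraMap K (v.adicCompletion K) x) ≤ 1}.Finite := by
  have h1 := HeightOneSpectrum.Support.finite (𝓞 K) x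
  refine h1.subset ?_
  intro v hv
  have key : ∀ y : K, Valued.v (algebraMap K (v.adicCompletion K) y) = v.valuation K y :=
    fun y => HeightOneSpectrum.valuedAdicCompletion_eq_valuation' v y
  rw [Set.mem_ofPred_eq, key, not_le] at hv
  exact hv

end Good

section GoodSol
variable (K : Type) [Field K] [NumberField K] (v : HeightOneSpectrum (𝓞 K))

/-- The local solution at a good place: integral, for every unit. -/
theorem locSol_good426 (t n : v.adicCompletion K)
    (h2 : Valued.v (2 : v.adicCompletion K) = 1) (ht : Valued.v t ≤ 1) (hn : Valued.v n ≤ 1)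
    (hd : Valued.v (t ^ 2 - 4 * n) = 1) (u : v.adicCompletion K) (hu : Valued.v u = 1) :
    ∃ a b : v.adicCompletion K,
      LocSol426 (v.adicCompletionIntegers K : Set (v.adicCompletion K)) t n u a b := by
  obtain ⟨a, b, ha, hb, hab⟩ := exists_norm_eq_of_good426 K v t n h2 ht hn hd u hu
  have memO : ∀ x : v.adicCompletion K, Valued.v x ≤ 1 → x ∈ v.adicCompletionIntegers K :=
    fun x hx => (HeightOneSpectrum.mem_adicCompletionIntegers (𝓞 K) K v).2 hx
  have hui : Valued.v u⁻¹ ≤ 1 := by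
    rw [map_inv₀, hu, inv_one]
  have ma := memO a ha
  have mb := memO b hb
  have mt := memO t ht
  have mn := memO n hn
  have mu := memO _ hui
  have m1 : (1 : v.adicCompletion K) ∈ v.adicCompletionIntegers K := one_mem _
  refine ⟨a, b, ?_, ⟨?_, ?_, ?_, ?_⟩, ⟨?_, ?_, ?_, ?_⟩⟩
  · rw [← hab]; ring
  · exact sub_mem ma m1
  · exact neg_mem (mul_mem mn mb)
  · exact mb
  · exact sub_mem (add_mem ma (mul_mem mt mb)) m1
  · exact sub_mem (mul_mem (add_mem ma (mul_mem mt mb)) mu) m1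
  · exact neg_mem (mul_mem mn (neg_mem (mul_mem mb mu)))
  · exact neg_mem (mul_mem mb mu)
  · exact sub_mem (add_mem (mul_mem (add_mem ma (mul_mem mt mb)) mu)
      (mul_mem mt (neg_mem (mul_mem mb mu)))) m1

end GoodSol

end Fermat.Agent.LT.A2.H426

end

end
-- ===== PACK-END LT/A2/H426/LocalNorm.lean

-- ===== PACK-BEGIN LT/H670/WallTop.lean
section


/-!
# Row LT -- WALL-TOP (helper670): abstract-notion skeleton of `LTB.WallC`

`notion : CuspidalityNotion ℂ` is ABSTRACT here (its definition is block A0, helper556).  The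
eigensystems are complex valued (`HeckeEigensystem K ℂ`, unitary normalisation: `a_v` = trace and
`b_v` = determinant of the Satake parameter); `ι : ℤ√(-2) →+* ℂ` is any embedding.

Tower: `F = ℚ(√-3)` = fixed field of `ker (det ∘ ρ)`, `E` = fixed field of `ρ⁻¹(Q8)`,
`Q8 = {g | det g = 1 ∧ g ^ 4 = 1}`; `E/ℚ` is Galois with group `S₃`, `E/F` cyclic cubic.

Leaves (frozen Props; each is a TRUE statement for the honest notion = cuspidal automorphic
representations of `GL₂(𝔸_K)` whose archimedean components are of Artin type):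

| leaf | Prop | content |
|---|---|---|
| TOWER | `TowerC` | the tower exists (infinite Galois theory, elementary) |
| A2    | `SeedC notion` | the dihedral form over `E` attached to `ρ|G_E` (image `Q8`) is cuspidal |
| A3c   | `Desc3C notion` | cubic cyclic descent `E/F`, the descent chosen `Gal(F/ℚ)`-invariant with trivial central character |
| A3q   | `Desc2C notion` | quadratic descent `F/ℚ` |
| SPLIT | `SplitC` | elementary: at a prime `p` whose Frobenius lies in `Q8` the two base-change relations and the seed give `a_p(π_ℚ) = ι tr Ψ(ρ Frob_p)` |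
| PAR   | `ParC notion` | the central character of the descended form is `χ₋₃` (Rankin--Selberg mass count) |
| A6    | `DictC notion` | dictionary: cuspidal over `ℚ`, central character `χ₋₃` ⇒ classical weight-one form with the Hecke relations of S48 |
| DEPL  | `DeplWC` | classical depletion at finitely many primes (from `LT/H670/Twist.lean`) |

`wall_of_leaves : TowerC → SeedC n → Desc3C n → Desc2C n → SplitC → ParC n → DictC n → DeplWC →
  LTB.WallC` is PROVED below.
-/

set_option autoImplicit false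

open AutomorphicForm FLT.ExplicitLift EisensteinWeightOne
open WeierstrassCurve
open CongruenceSubgroup IsDedekindDomain NumberField
open scoped MatrixGroups

noncomputable section

namespace Fermat.Agent.LT.H670

local notation "Γℚ" => (AlgebraicClosure ℚ ≃ₐ[ℚ] AlgebraicClosure ℚ)

/-- The tower `ℚ ⊂ F ⊂ E ⊂ ℚ̄` cut out by `ρ`: `F` is the fixed field of `ker (det ∘ ρ)` and `E`
the fixed field of `ρ⁻¹(Q8)`. -/
structure TowerData (ρ : Γℚ →* GL (Fin 2) (ZMod 3)) where
  /-- the quadratic field -/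
  F : Type
  /-- the sextic field -/
  E : Type
  [fieldF : Field F]
  [fieldE : Field E]
  [nfF : NumberField F]
  [nfE : NumberField E]
  [algFE : Algebra F E]
  /-- embedding of `F` -/
  jF : F →+* AlgebraicClosure ℚ
  /-- embedding of `E` -/
  jE : E →+* AlgebraicClosure ℚ
  compat : ∀ x : F, jE (algebraMap F E x) = jF x
  rangeF : ∀ x : AlgebraicClosure ℚ, x ∈ jF.range ↔
    ∀ σ : Γℚ, Matrix.GeneralLinearGroup.det (ρ σ) = 1 → σ x = x
  rangeE : ∀ x : AlgebraicClosure ℚ, x ∈ jE.range ↔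
    ∀ σ : Γℚ, Matrix.GeneralLinearGroup.det (ρ σ) = 1 → (ρ σ) ^ 4 = 1 → σ x = x

attribute [instance] TowerData.fieldF TowerData.fieldE TowerData.nfF TowerData.nfE
  TowerData.algFE

/-- The valuation subring `A` of `ℚ̄` lies over the finite place `𝔓` of `K` (embedded by `j`). -/
def UnderPlace {K : Type} [Field K] [NumberField K] (j : K →+* AlgebraicClosure ℚ)
    (𝔓 : HeightOneSpectrum (𝓞 K)) (A : ValuationSubring (AlgebraicClosure ℚ)) : Prop :=
  ∀ x : 𝓞 K, x ∈ 𝔓.asIdeal ↔ j (algebraMap (𝓞 K) K x) ∈ A.nonunits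

/-- `Φ` is the seed: at almost every finite place `𝔓` of `E`, `b_𝔓 = 1` and `a_𝔓` is the trace
of `Ψ (ρ σ)` for every Frobenius element `σ ∈ G_E` at `𝔓`. -/
def IsSeed (ρ : Γℚ →* GL (Fin 2) (ZMod 3)) (Ψ : GL (Fin 2) (ZMod 3) →* GL (Fin 2) (ℤ√(-2)))
    (ι : ℤ√(-2) →+* ℂ) (T : TowerData ρ) (Φ : HeckeEigensystem T.E ℂ) : Prop :=
  ∃ S : Finset (HeightOneSpectrum (𝓞 T.E)), ∀ 𝔓 ∉ S,
    Φ.b 𝔓 = 1 ∧
    ∀ A : ValuationSubring (AlgebraicClosure ℚ), UnderPlace T.jE 𝔓 A →
      ∀ σ : Γℚ, Matrix.GeneralLinearGroup.det (ρ σ) = 1 → (ρ σ) ^ 4 = 1 →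
        A.IsFrobeniusAt σ (Nat.card (𝓞 T.E ⧸ 𝔓.asIdeal)) →
        Φ.a 𝔓 = ι (((Ψ (ρ σ) : GL (Fin 2) (ℤ√(-2))) : Matrix (Fin 2) (Fin 2) (ℤ√(-2))).trace)

/-- The eigensystem `π` over `ℚ` matches `Ψ ∘ ρ` at almost all primes whose Frobenius is in
`Q8`. -/
def MatchesOnQ8 (ρ : Γℚ →* GL (Fin 2) (ZMod 3)) (Ψ : GL (Fin 2) (ZMod 3) →* GL (Fin 2) (ℤ√(-2)))
    (ι : ℤ√(-2) →+* ℂ) (π : HeckeEigensystem ℚ ℂ) : Prop :=
  ∃ S : Finset ℕ, ∀ p : Nat.Primes, (p : ℕ) ∉ S →
    ∀ A : ValuationSubring (AlgebraicClosure ℚ), A.LiesOverPrime (p : ℕ) →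
      ∀ σ : Γℚ, A.IsFrobeniusAt σ (p : ℕ) →
        Matrix.GeneralLinearGroup.det (ρ σ) = 1 → (ρ σ) ^ 4 = 1 →
        π.a (ratPrime p) =
          ι (((Ψ (ρ σ) : GL (Fin 2) (ℤ√(-2))) : Matrix (Fin 2) (Fin 2) (ℤ√(-2))).trace)

/-- The central character of `π` is `χ₋₃` (at almost all primes). -/
def HasCentralCharChi (π : HeckeEigensystem ℚ ℂ) : Prop :=
  ∃ S : Finset ℕ, ∀ p : Nat.Primes, (p : ℕ) ∉ S →
    π.b (ratPrime p) = ((chiNegThree (p : ℕ) : ℤ) : ℂ)

/-- Output of the dictionary: a classical weight-one form with the Hecke relations of S48 whose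
`a_p` are those of `π` at almost all primes. -/
def ClassicalFor (π : HeckeEigensystem ℚ ℂ) : Prop :=
  ∃ (N : ℕ) (_ : NeZero N) (ε : DirichletCharacter ℂ N) (f : CuspForm (Gamma1 N) 1),
    ModularFormClass.qCoeff f 1 = 1 ∧
    (∀ p : ℕ, p.Prime → ¬ p ∣ N → ∀ n : ℕ,
        ModularFormClass.qCoeff f (p * n) +
            ε (p : ZMod N) * (if p ∣ n then ModularFormClass.qCoeff f (n / p) else 0) =
          ModularFormClass.qCoeff f p * ModularFormClass.qCoeff f n) ∧
    ∃ S : Finset ℕ, ∀ p : Nat.Primes, (p : ℕ) ∉ S →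
      ModularFormClass.qCoeff f (p : ℕ) = π.a (ratPrime p)

/-- `WallOut` with the trace identity only outside a finite set of primes. -/
def WallOutAE (ρ : Γℚ →* GL (Fin 2) (ZMod 3))
    (Ψ : GL (Fin 2) (ZMod 3) →* GL (Fin 2) (ℤ√(-2))) : Prop :=
  ∃ (N : ℕ) (_ : NeZero N) (ε : DirichletCharacter ℂ N) (f : CuspForm (Gamma1 N) 1)
    (ι : ℤ√(-2) →+* ℂ) (S : Finset ℕ),
    ModularFormClass.qCoeff f 1 = 1 ∧
    (∀ p : ℕ, p.Prime → ¬ p ∣ N → ∀ n : ℕ,
        ModularFormClass.qCoeff f (p * n) +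
            ε (p : ZMod N) * (if p ∣ n then ModularFormClass.qCoeff f (n / p) else 0) =
          ModularFormClass.qCoeff f p * ModularFormClass.qCoeff f n) ∧
    ∀ p : ℕ, p.Prime → p ∉ S →
      ∀ A : ValuationSubring (AlgebraicClosure ℚ), A.LiesOverPrime p →
        ∀ σ : Γℚ, A.IsFrobeniusAt σ p →
          Matrix.GeneralLinearGroup.det (ρ σ) = 1 → (ρ σ) ^ 4 = 1 →
          ModularFormClass.qCoeff f p =
            ι (((Ψ (ρ σ) : GL (Fin 2) (ℤ√(-2))) : Matrix (Fin 2) (Fin 2) (ℤ√(-2))).trace)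

/-! ## The leaves -/

/-- **TOWER** (elementary). -/
def TowerC : Prop :=
  ∀ (ρ : Γℚ →* GL (Fin 2) (ZMod 3)) (Ψ : GL (Fin 2) (ZMod 3) →* GL (Fin 2) (ℤ√(-2))),
    LTB.Hyp ρ Ψ → Nonempty (TowerData ρ)

/-- **A2 = SEED**: the dihedral form over `E`. -/
def SeedC (notion : CuspidalityNotion ℂ) : Prop :=
  ∀ (ρ : Γℚ →* GL (Fin 2) (ZMod 3)) (Ψ : GL (Fin 2) (ZMod 3) →* GL (Fin 2) (ℤ√(-2))),
    LTB.Hyp ρ Ψ → ∀ (ι : ℤ√(-2) →+* ℂ) (T : TowerData ρ),
      ∃ Φ : HeckeEigensystem T.E ℂ, notion.IsCusp T.E Φ ∧ IsSeed ρ Ψ ι T Φ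

/-- **A3c**: cubic cyclic descent `E/F`; the descent is chosen invariant under `Gal(F/ℚ)` and
with trivial central character (exactly one of the three twists by `Gal(E/F)^∨` is). -/
def Desc3C (notion : CuspidalityNotion ℂ) : Prop :=
  ∀ (ρ : Γℚ →* GL (Fin 2) (ZMod 3)) (Ψ : GL (Fin 2) (ZMod 3) →* GL (Fin 2) (ℤ√(-2))),
    LTB.Hyp ρ Ψ → ∀ (ι : ℤ√(-2) →+* ℂ) (T : TowerData ρ) (Φ : HeckeEigensystem T.E ℂ),
      notion.IsCusp T.E Φ → IsSeed ρ Ψ ι T Φ →
      ∃ πF : HeckeEigensystem T.F ℂ, notion.IsCusp T.F πF ∧ IsBaseChangeOf πF Φ ∧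
        πF.IsConstantOnFibers ℚ ∧
        ∃ S : Finset (HeightOneSpectrum (𝓞 T.F)), ∀ 𝔭 ∉ S, πF.b 𝔭 = 1

/-- **A3q**: quadratic descent `F/ℚ`. -/
def Desc2C (notion : CuspidalityNotion ℂ) : Prop :=
  ∀ (ρ : Γℚ →* GL (Fin 2) (ZMod 3)) (Ψ : GL (Fin 2) (ZMod 3) →* GL (Fin 2) (ℤ√(-2))),
    LTB.Hyp ρ Ψ → ∀ (T : TowerData ρ) (πF : HeckeEigensystem T.F ℂ),
      notion.IsCusp T.F πF → πF.IsConstantOnFibers ℚ →
      ∃ π : HeckeEigensystem ℚ ℂ, notion.IsCusp ℚ π ∧ IsBaseChangeOf π πF

/-- **SPLIT** (elementary algebraic number theory, no automorphic input): if the Frobenius at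
`p` lies in `Q8` then `p` splits completely in `E`, the inertia degrees are `1`, and the two
base-change relations and the seed give the value of `a_p`. -/
def SplitC : Prop :=
  ∀ (ρ : Γℚ →* GL (Fin 2) (ZMod 3)) (Ψ : GL (Fin 2) (ZMod 3) →* GL (Fin 2) (ℤ√(-2))),
    LTB.Hyp ρ Ψ → ∀ (ι : ℤ√(-2) →+* ℂ) (T : TowerData ρ) (Φ : HeckeEigensystem T.E ℂ)
      (πF : HeckeEigensystem T.F ℂ) (π : HeckeEigensystem ℚ ℂ),
      IsSeed ρ Ψ ι T Φ → IsBaseChangeOf πF Φ → IsBaseChangeOf π πF → MatchesOnQ8 ρ Ψ ι π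

/-- **PAR**: the central character of the descended form is `χ₋₃`, not `1`
(Rankin--Selberg: the mean of `|a_p|²` is `1`; the even alternative gives mean `2`). -/
def ParC (notion : CuspidalityNotion ℂ) : Prop :=
  ∀ (ρ : Γℚ →* GL (Fin 2) (ZMod 3)) (Ψ : GL (Fin 2) (ZMod 3) →* GL (Fin 2) (ℤ√(-2))),
    LTB.Hyp ρ Ψ → ∀ (ι : ℤ√(-2) →+* ℂ) (T : TowerData ρ) (Φ : HeckeEigensystem T.E ℂ)
      (πF : HeckeEigensystem T.F ℂ) (π : HeckeEigensystem ℚ ℂ),
      notion.IsCusp T.E Φ → IsSeed ρ Ψ ι T Φ →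
      notion.IsCusp T.F πF → IsBaseChangeOf πF Φ →
      (∃ S : Finset (HeightOneSpectrum (𝓞 T.F)), ∀ 𝔭 ∉ S, πF.b 𝔭 = 1) →
      notion.IsCusp ℚ π → IsBaseChangeOf π πF →
      HasCentralCharChi π

/-- **A6 = DICT**: a cuspidal eigensystem over `ℚ` (archimedean component of Artin type, part of
the notion) with odd central character `χ₋₃` is a classical holomorphic form of weight one. -/
def DictC (notion : CuspidalityNotion ℂ) : Prop :=
  ∀ π : HeckeEigensystem ℚ ℂ, notion.IsCusp ℚ π → HasCentralCharChi π → ClassicalFor π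

/-- **DEPL** (classical): depletion at finitely many primes turns an almost-everywhere wall
output into `LTB.WallOut`. -/
def DeplWC : Prop :=
  ∀ (ρ : Γℚ →* GL (Fin 2) (ZMod 3)) (Ψ : GL (Fin 2) (ZMod 3) →* GL (Fin 2) (ℤ√(-2))),
    WallOutAE ρ Ψ → LTB.WallOut ρ Ψ

/-! ## The top -/

/-- an embedding `ℤ√(-2) → ℂ` exists -/
theorem exists_iota : Nonempty (ℤ√(-2) →+* ℂ) := by
  have h2 : ((Real.sqrt 2 : ℝ) : ℂ) * ((Real.sqrt 2 : ℝ) : ℂ) = 2 := by
    rw [← Complex.ofReal_mul, Real.mul_self_sqrt (by norm_num)]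
    norm_num
  refine ⟨Zsqrtd.lift ⟨Complex.I * ((Real.sqrt 2 : ℝ) : ℂ), ?_⟩⟩
  have : Complex.I * ((Real.sqrt 2 : ℝ) : ℂ) * (Complex.I * ((Real.sqrt 2 : ℝ) : ℂ))
      = (Complex.I * Complex.I) * (((Real.sqrt 2 : ℝ) : ℂ) * ((Real.sqrt 2 : ℝ) : ℂ)) := by ring
  rw [this, Complex.I_mul_I, h2]
  norm_num

/-- **WALL-TOP**: `LTB.WallC` from the leaves, for ANY notion. -/
theorem wall_of_leaves (notion : CuspidalityNotion ℂ)
    (hT : TowerC) (hSeed : SeedC notion) (h3 : Desc3C notion) (h2 : Desc2C notion)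
    (hSplit : SplitC) (hPar : ParC notion) (hDict : DictC notion) (hDepl : DeplWC) :
    LTB.WallC := by
  intro ρ Ψ hyp
  obtain ⟨T⟩ := hT ρ Ψ hyp
  obtain ⟨ι⟩ := exists_iota
  obtain ⟨Φ, hΦ, hseed⟩ := hSeed ρ Ψ hyp ι T
  obtain ⟨πF, hπF, hbc1, hinv, hb1⟩ := h3 ρ Ψ hyp ι T Φ hΦ hseed
  obtain ⟨π, hπ, hbc2⟩ := h2 ρ Ψ hyp T πF hπF hinv
  have hchi := hPar ρ Ψ hyp ι T Φ πF π hΦ hseed hπF hbc1 hb1 hπ hbc2
  obtain ⟨S₁, hmatch⟩ := hSplit ρ Ψ hyp ι T Φ πF π hseed hbc1 hbc2
  obtain ⟨N, hN, ε, f, hf1, hrel, S₂, hf⟩ := hDict π hπ hchi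
  apply hDepl ρ Ψ
  refine ⟨N, hN, ε, f, ι, S₁ ∪ S₂, hf1, hrel, ?_⟩
  intro p hp hpS A hA σ hσ hdet h4
  rw [Finset.mem_union, not_or] at hpS
  rw [hf ⟨p, hp⟩ hpS.2]
  exact hmatch ⟨p, hp⟩ hpS.1 A hA σ hσ hdet h4

end Fermat.Agent.LT.H670

end

end
-- ===== PACK-END LT/H670/WallTop.lean

-- ===== PACK-BEGIN LT/T7/H954/PlaceSumCore.lean
section


/-!
# Row LT, tower T7, node T7.14 `RigidC`, leaf R0 (helper954, OFF-MAIN): `∑_v N v ^ (-s) < ∞`

Mathlib only.  For a number field `K` and `s > 1` the series `∑_v N v ^ (-s)` over the finite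
places of `K` converges: a place `v` lies over the rational prime `p = absNorm (v ∩ ℤ)`,
`N v ≥ p`, and at most `[K : ℚ]` places lie over a given `p`; so the series is dominated by
`[K : ℚ] · ∑_p p ^ (-s)` (`Nat.Primes.summable_rpow`).
-/

set_option autoImplicit false
set_option linter.deprecated false

open IsDedekindDomain NumberField

noncomputable section

namespace Fermat.Agent.LT.T7.H954

/-- A non-negative family `f` on `α` is summable if it is dominated by `g ∘ φ`, `g` summable and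
non-negative, and the fibres of `φ` have at most `n` elements. -/
theorem summable_of_fibre_bound954 {α β : Type*} (φ : α → β) (n : ℕ) (f : α → ℝ) (g : β → ℝ)
    (hf : ∀ a, 0 ≤ f a) (hfg : ∀ a, f a ≤ g (φ a)) (hg0 : ∀ b, 0 ≤ g b) (hg : Summable g)
    (hfib : ∀ (s : Finset α) (b : β), ∀ t : Finset α, t ⊆ s → (∀ a ∈ t, φ a = b) → t.card ≤ n) :
    Summable f := by
  classical
  refine summable_of_sum_le (c := n * ∑' b, g b) hf ?_
  intro s
  calc ∑ a ∈ s, f a ≤ ∑ a ∈ s, g (φ a) := Finset.sum_le_sum fun a _ => hfg a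
    _ = ∑ b ∈ s.image φ, ∑ a ∈ s with φ a = b, g (φ a) := by
        rw [Finset.sum_fiberwise_of_maps_to (fun a ha => Finset.mem_image_of_mem φ ha)]
    _ ≤ ∑ b ∈ s.image φ, (n : ℝ) * g b := by
        refine Finset.sum_le_sum fun b _ => ?_
        have h1 : ∑ a ∈ s with φ a = b, g (φ a) = ∑ a ∈ s with φ a = b, g b :=
          Finset.sum_congr rfl fun a ha => by rw [(Finset.mem_filter.mp ha).2]
        rw [h1, Finset.sum_const, nsmul_eq_mul]
        have h2 : (s.filter fun a => φ a = b).card ≤ n :=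
          hfib s b _ (Finset.filter_subset _ _) fun a ha => (Finset.mem_filter.mp ha).2
        exact mul_le_mul_of_nonneg_right (by exact_mod_cast h2) (hg0 b)
    _ = (n : ℝ) * ∑ b ∈ s.image φ, g b := by rw [Finset.mul_sum]
    _ ≤ (n : ℝ) * ∑' b, g b :=
        mul_le_mul_of_nonneg_left (hg.sum_le_tsum _ fun b _ => hg0 b) (Nat.cast_nonneg n)

variable (K : Type) [Field K] [NumberField K]

/-- The rational prime below a finite place. -/
def primeBelow954 (v : HeightOneSpectrum (𝓞 K)) : Nat.Primes :=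
  ⟨Ideal.absNorm (Ideal.under ℤ v.asIdeal), by
    have : NeZero v.asIdeal := ⟨v.ne_bot⟩
    exact Nat.absNorm_under_prime v.asIdeal⟩

theorem primeBelow_le954 (v : HeightOneSpectrum (𝓞 K)) :
    ((primeBelow954 K v : ℕ) : ℝ) ≤ (Ideal.absNorm v.asIdeal : ℝ) := by
  have h0 : Ideal.absNorm v.asIdeal ≠ 0 := by
    rw [Ne, Ideal.absNorm_eq_zero_iff]
    exact v.ne_bot
  have h1 : Ideal.absNorm (Ideal.under ℤ v.asIdeal) ∣ Ideal.absNorm v.asIdeal :=
    Int.absNorm_under_dvd_absNorm v.asIdeal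
  exact_mod_cast Nat.le_of_dvd (Nat.pos_of_ne_zero h0) h1

/-- At most `[K : ℚ]` finite places lie over a given rational prime. -/
theorem card_fibre_le954 (p : Nat.Primes) (t : Finset (HeightOneSpectrum (𝓞 K)))
    (ht : ∀ v ∈ t, primeBelow954 K v = p) : t.card ≤ Module.finrank ℚ K := by
  classical
  have : Fact (Nat.Prime (p : ℕ)) := ⟨p.2⟩
  have hp0 : (Ideal.span {((p : ℕ) : ℤ)}) ≠ ⊥ := by
    rw [Ne, Ideal.span_singleton_eq_bot]
    exact_mod_cast p.2.ne_zero
  have hinj : Set.InjOn (fun v : HeightOneSpectrum (𝓞 K) => v.asIdeal) (t : Set _) :=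
    fun v _ w _ h => HeightOneSpectrum.ext h
  have hsub : t.image (fun v : HeightOneSpectrum (𝓞 K) => v.asIdeal)
      ⊆ IsDedekindDomain.primesOverFinset (Ideal.span {((p : ℕ) : ℤ)}) (𝓞 K) := by
    intro P hP
    obtain ⟨v, hv, rfl⟩ := Finset.mem_image.mp hP
    rw [IsDedekindDomain.mem_primesOverFinset_iff hp0]
    refine ⟨v.isPrime, ?_⟩
    have h1 : (p : ℕ) = Ideal.absNorm (Ideal.under ℤ v.asIdeal) := by
      rw [← ht v hv]; rfl
    rw [h1]
    exact Int.liesOver_span_absNorm v.asIdeal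
  calc t.card = (t.image fun v : HeightOneSpectrum (𝓞 K) => v.asIdeal).card :=
        (Finset.card_image_of_injOn hinj).symm
    _ ≤ (IsDedekindDomain.primesOverFinset (Ideal.span {((p : ℕ) : ℤ)}) (𝓞 K)).card :=
        Finset.card_le_card hsub
    _ ≤ Module.finrank ℚ K := Ideal.card_primesOverFinset_le_finrank (𝓞 K) ℚ K hp0

/-- **R0.**  `∑_v N v ^ (-s)` over the finite places of a number field converges for `s > 1`. -/
theorem summable_absNorm_rpow954 (s : ℝ) (hs : 1 < s) :
    Summable fun v : HeightOneSpectrum (𝓞 K) => (Ideal.absNorm v.asIdeal : ℝ) ^ (-s) := by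
  have hg : Summable fun p : Nat.Primes => ((p : ℕ) : ℝ) ^ (-s) :=
    Nat.Primes.summable_rpow.mpr (by linarith)
  refine summable_of_fibre_bound954 (primeBelow954 K) (Module.finrank ℚ K) _
    (fun p : Nat.Primes => ((p : ℕ) : ℝ) ^ (-s)) ?_ ?_ ?_ hg ?_
  · intro v
    exact Real.rpow_nonneg (Nat.cast_nonneg _) _
  · intro v
    have hp : (0 : ℝ) < ((primeBelow954 K v : ℕ) : ℝ) := by
      exact_mod_cast (primeBelow954 K v).2.pos
    exact Real.antitoneOn_rpow_Ioi_of_exponent_nonpos (by linarith : -s ≤ 0) hp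
      (lt_of_lt_of_le hp (primeBelow_le954 K v)) (primeBelow_le954 K v)
  · intro p
    exact Real.rpow_nonneg (Nat.cast_nonneg _) _
  · intro _ p t _ ht
    exact card_fibre_le954 K p t ht

end Fermat.Agent.LT.T7.H954

end

end
-- ===== PACK-END LT/T7/H954/PlaceSumCore.lean

-- ===== PACK-BEGIN LT/T7/H724/BesselK0.lean
section


/-!
# Row LT, tower T7, node T7.14 `RigidC`, leaf ARCH-U: the Bessel function `K₀` (helper724)

OFF-MAIN, Mathlib only.  `K₀(t) = ∫₀^∞ exp(-t cosh u) du` (same integral as `Rigid.besselK0` of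
helper62, `LT/T7/H62/RigidStrip.lean`).

* `besI724 j t = ∫₀^∞ cosh^j u · exp(-t cosh u) du`, integrable for `t > 0`;
* `hasDerivAt_besI724` : `d/dt I_j = - I_{j+1}` (differentiation under the integral sign);
* `besI_ibp724` : `I₁ = t (I₂ - I₀)` (integration by parts), i.e. the modified Bessel equation
  `t² K₀'' + t K₀' = t² K₀`;
* `besK_pos724` : `K₀ > 0`; `besK_le724` : `K₀(t) ≤ e^{1-t} K₀(1)` for `t ≥ 1`;
* `besK_decSol724` : for `k > 0`, `h(s) = K₀(k eˢ)` is a solution of `h'' = k² e^{2s} h` which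
  tends to `0` at `+∞` (the shape of `T2.H973.IsDecSol k h`, unfolded).
-/

set_option autoImplicit false

open MeasureTheory Set Filter Topology

noncomputable section

namespace Fermat.Agent.LT.T7.H724

/-- `I_j(t) = ∫₀^∞ cosh^j u · exp(-t cosh u) du`. -/
def besI724 (j : ℕ) (t : ℝ) : ℝ :=
  ∫ u in Ioi (0 : ℝ), Real.cosh u ^ j * Real.exp (-t * Real.cosh u)

/-- `K₀(t) = ∫₀^∞ exp(-t cosh u) du`. -/
def besK724 (t : ℝ) : ℝ := ∫ u in Ioi (0 : ℝ), Real.exp (-t * Real.cosh u)

theorem besK_eq_besI724 (t : ℝ) : besK724 t = besI724 0 t := by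
  unfold besK724 besI724
  simp

/-! ## Elementary bounds -/

theorem one_add_sq_le_cosh724 (u : ℝ) : 1 + u ^ 2 / 2 ≤ Real.cosh u := by
  have h1 : Real.cosh u = 1 + 2 * Real.sinh (u / 2) ^ 2 := by
    have h := Real.cosh_two_mul (u / 2)
    have h2 := Real.cosh_sq (u / 2)
    rw [show 2 * (u / 2) = u by ring] at h
    rw [h, h2]
    ring
  have h2 : (u / 2) ^ 2 ≤ Real.sinh (u / 2) ^ 2 := by
    rcases le_total 0 u with hu | hu
    · have : u / 2 ≤ Real.sinh (u / 2) := Real.self_le_sinh_iff.mpr (by linarith)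
      exact pow_le_pow_left₀ (by linarith) this 2
    · have h3 : -(u / 2) ≤ Real.sinh (-(u / 2)) := Real.self_le_sinh_iff.mpr (by linarith)
      rw [Real.sinh_neg] at h3
      have h4 : (-(u / 2)) ^ 2 ≤ (-Real.sinh (u / 2)) ^ 2 :=
        pow_le_pow_left₀ (by linarith) h3 2
      simpa using h4
  rw [h1]
  nlinarith

/-- `x^j e^{-b x} ≤ j! / b^j` for `x ≥ 0`, `b > 0`. -/
theorem pow_mul_exp_neg_le724 (j : ℕ) {b : ℝ} (hb : 0 < b) {x : ℝ} (hx : 0 ≤ x) :
    x ^ j * Real.exp (-(b * x)) ≤ (j.factorial : ℝ) / b ^ j := by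
  have h := Real.pow_div_factorial_le_exp (b * x) (mul_nonneg hb.le hx) j
  have hf : (0 : ℝ) < (j.factorial : ℝ) := by exact_mod_cast j.factorial_pos
  have hbj : 0 < b ^ j := pow_pos hb j
  rw [Real.exp_neg, le_div_iff₀ hbj]
  rw [div_le_iff₀ hf] at h
  have he : 0 < Real.exp (b * x) := Real.exp_pos _
  rw [mul_pow] at h
  calc x ^ j * (Real.exp (b * x))⁻¹ * b ^ j = (b ^ j * x ^ j) * (Real.exp (b * x))⁻¹ := by ring
    _ ≤ (Real.exp (b * x) * (j.factorial : ℝ)) * (Real.exp (b * x))⁻¹ := by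
        gcongr
    _ = (j.factorial : ℝ) := by
        field_simp

/-- The Gaussian bound of the integrand. -/
theorem integrand_le724 (j : ℕ) {t : ℝ} (ht : 0 < t) (u : ℝ) :
    Real.cosh u ^ j * Real.exp (-t * Real.cosh u)
      ≤ (j.factorial : ℝ) / (t / 2) ^ j * Real.exp (-(t / 4) * u ^ 2) := by
  have hc : 0 ≤ Real.cosh u := (Real.cosh_pos u).le
  have h1 := pow_mul_exp_neg_le724 j (half_pos ht) hc
  have h2 : Real.exp (-(t / 2 * Real.cosh u)) ≤ Real.exp (-(t / 4) * u ^ 2) := by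
    apply Real.exp_le_exp.mpr
    have := one_add_sq_le_cosh724 u
    nlinarith
  have e : Real.cosh u ^ j * Real.exp (-t * Real.cosh u)
      = (Real.cosh u ^ j * Real.exp (-(t / 2 * Real.cosh u)))
        * Real.exp (-(t / 2 * Real.cosh u)) := by
    rw [mul_assoc, ← Real.exp_add]
    congr 2
    ring
  rw [e]
  exact mul_le_mul h1 h2 (Real.exp_pos _).le (by positivity)

theorem integrand_nonneg724 (j : ℕ) (t u : ℝ) :
    0 ≤ Real.cosh u ^ j * Real.exp (-t * Real.cosh u) :=
  mul_nonneg (pow_nonneg (Real.cosh_pos u).le j) (Real.exp_pos _).le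

theorem continuous_integrand724 (j : ℕ) (t : ℝ) :
    Continuous fun u : ℝ => Real.cosh u ^ j * Real.exp (-t * Real.cosh u) := by
  fun_prop

/-- The integrand is integrable on `ℝ` for `t > 0`. -/
theorem integrable_integrand724 (j : ℕ) {t : ℝ} (ht : 0 < t) :
    Integrable fun u : ℝ => Real.cosh u ^ j * Real.exp (-t * Real.cosh u) := by
  have hg : Integrable fun u : ℝ =>
      (j.factorial : ℝ) / (t / 2) ^ j * Real.exp (-(t / 4) * u ^ 2) :=
    (integrable_exp_neg_mul_sq (by positivity : 0 < t / 4)).const_mul _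
  refine hg.mono' (continuous_integrand724 j t).aestronglyMeasurable
    (Eventually.of_forall fun u => ?_)
  rw [Real.norm_eq_abs, abs_of_nonneg (integrand_nonneg724 j t u)]
  exact integrand_le724 j ht u

theorem integrableOn_integrand724 (j : ℕ) {t : ℝ} (ht : 0 < t) :
    IntegrableOn (fun u : ℝ => Real.cosh u ^ j * Real.exp (-t * Real.cosh u)) (Ioi 0) :=
  (integrable_integrand724 j ht).integrableOn

/-! ## Differentiation under the integral sign -/

theorem hasDerivAt_besI724 (j : ℕ) {t : ℝ} (ht : 0 < t) :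
    HasDerivAt (besI724 j) (-besI724 (j + 1) t) t := by
  have hs : Ioi (t / 2) ∈ 𝓝 t := Ioi_mem_nhds (by linarith)
  have key := hasDerivAt_integral_of_dominated_loc_of_deriv_le
    (μ := volume.restrict (Ioi (0 : ℝ))) (s := Ioi (t / 2)) (x₀ := t)
    (F := fun (x : ℝ) (u : ℝ) => Real.cosh u ^ j * Real.exp (-x * Real.cosh u))
    (F' := fun (x : ℝ) (u : ℝ) => -(Real.cosh u ^ (j + 1) * Real.exp (-x * Real.cosh u)))
    (bound := fun u : ℝ => Real.cosh u ^ (j + 1) * Real.exp (-(t / 2) * Real.cosh u))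
    hs
    (Eventually.of_forall fun x => (continuous_integrand724 j x).aestronglyMeasurable)
    (integrableOn_integrand724 j ht)
    ((continuous_integrand724 (j + 1) t).neg.aestronglyMeasurable)
    (Eventually.of_forall fun u x hx => by
      rw [norm_neg, Real.norm_eq_abs, abs_of_nonneg (integrand_nonneg724 (j + 1) x u)]
      have hx' : t / 2 < x := hx
      have hc := Real.cosh_pos u
      refine mul_le_mul_of_nonneg_left (Real.exp_le_exp.mpr ?_) (pow_nonneg hc.le _)
      nlinarith)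
    (integrableOn_integrand724 (j + 1) (half_pos ht))
    (Eventually.of_forall fun u x _ => by
      have h1 : HasDerivAt (fun x : ℝ => -x * Real.cosh u) (-Real.cosh u) x := by
        simpa using (hasDerivAt_id x).neg.mul_const (Real.cosh u)
      have h2 : HasDerivAt (fun y : ℝ => Real.cosh u ^ j * Real.exp (-y * Real.cosh u))
          (Real.cosh u ^ j * (Real.exp (-x * Real.cosh u) * -Real.cosh u)) x :=
        (h1.exp).const_mul (Real.cosh u ^ j)
      exact h2.congr_deriv (by rw [pow_succ]; ring))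
  have h := key.2
  have e : (∫ u in Ioi (0 : ℝ), -(Real.cosh u ^ (j + 1) * Real.exp (-t * Real.cosh u)))
      = -besI724 (j + 1) t := by
    rw [integral_neg]
    rfl
  rw [e] at h
  exact h

/-! ## Integration by parts: the modified Bessel equation -/

theorem tendsto_sinh_mul_exp724 {t : ℝ} (ht : 0 < t) :
    Tendsto (fun u : ℝ => Real.sinh u * Real.exp (-t * Real.cosh u)) atTop (𝓝 0) := by
  have hb : Tendsto (fun u : ℝ => (1 : ℝ) / (t / 2) ^ 1 * Real.exp (-(t / 4) * u ^ 2))
      atTop (𝓝 0) := by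
    have h1 : Tendsto (fun u : ℝ => (t / 4) * u ^ 2) atTop atTop :=
      (tendsto_pow_atTop (by norm_num : (2 : ℕ) ≠ 0)).const_mul_atTop (by positivity)
    have h2 := Real.tendsto_exp_neg_atTop_nhds_zero.comp h1
    have h3 := h2.const_mul ((1 : ℝ) / (t / 2) ^ 1)
    rw [mul_zero] at h3
    refine h3.congr fun u => ?_
    simp only [Function.comp_apply, neg_mul]
  refine squeeze_zero' ?_ ?_ hb
  · filter_upwards [Ioi_mem_atTop (0 : ℝ)] with u hu
    exact mul_nonneg (Real.sinh_nonneg_iff.mpr (le_of_lt hu)) (Real.exp_pos _).le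
  · filter_upwards with u
    have h1 := integrand_le724 1 ht u
    simp only [Nat.factorial_one, Nat.cast_one] at h1
    have h2 : Real.sinh u ≤ Real.cosh u := le_of_lt (Real.sinh_lt_cosh u)
    calc Real.sinh u * Real.exp (-t * Real.cosh u)
        ≤ Real.cosh u ^ 1 * Real.exp (-t * Real.cosh u) := by
          rw [pow_one]
          exact mul_le_mul_of_nonneg_right h2 (Real.exp_pos _).le
      _ ≤ _ := h1

theorem besI_ibp724 {t : ℝ} (ht : 0 < t) :
    besI724 1 t = t * (besI724 2 t - besI724 0 t) := by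
  -- `G(u) = sinh u · exp(-t cosh u)`, `G' = cosh·E - t (cosh² - 1) E`
  have hderiv : ∀ u ∈ Ici (0 : ℝ),
      HasDerivAt (fun u : ℝ => Real.sinh u * Real.exp (-t * Real.cosh u))
        (Real.cosh u ^ 1 * Real.exp (-t * Real.cosh u)
          - t * (Real.cosh u ^ 2 * Real.exp (-t * Real.cosh u)
            - Real.cosh u ^ 0 * Real.exp (-t * Real.cosh u))) u := by
    intro u _
    have h1 : HasDerivAt (fun u : ℝ => -t * Real.cosh u) (-t * Real.sinh u) u :=
      (Real.hasDerivAt_cosh u).const_mul (-t)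
    have h2 : HasDerivAt (fun u : ℝ => Real.sinh u * Real.exp (-t * Real.cosh u))
        (Real.cosh u * Real.exp (-t * Real.cosh u)
          + Real.sinh u * (Real.exp (-t * Real.cosh u) * (-t * Real.sinh u))) u :=
      (Real.hasDerivAt_sinh u).mul h1.exp
    refine h2.congr_deriv ?_
    have := Real.cosh_sq u
    rw [pow_one, pow_zero, this]
    ring
  have i20 : IntegrableOn (fun u : ℝ => Real.cosh u ^ 2 * Real.exp (-t * Real.cosh u)
        - Real.cosh u ^ 0 * Real.exp (-t * Real.cosh u)) (Ioi 0) :=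
    (integrableOn_integrand724 2 ht).sub (integrableOn_integrand724 0 ht)
  have it20 : IntegrableOn (fun u : ℝ => t * (Real.cosh u ^ 2 * Real.exp (-t * Real.cosh u)
        - Real.cosh u ^ 0 * Real.exp (-t * Real.cosh u))) (Ioi 0) :=
    i20.const_mul t
  have hint : IntegrableOn (fun u : ℝ => Real.cosh u ^ 1 * Real.exp (-t * Real.cosh u)
      - t * (Real.cosh u ^ 2 * Real.exp (-t * Real.cosh u)
        - Real.cosh u ^ 0 * Real.exp (-t * Real.cosh u))) (Ioi 0) :=
    (integrableOn_integrand724 1 ht).sub it20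
  have h := integral_Ioi_of_hasDerivAt_of_tendsto' hderiv hint (tendsto_sinh_mul_exp724 ht)
  rw [Real.sinh_zero, zero_mul, sub_zero] at h
  have e : (∫ u in Ioi (0 : ℝ), (Real.cosh u ^ 1 * Real.exp (-t * Real.cosh u)
      - t * (Real.cosh u ^ 2 * Real.exp (-t * Real.cosh u)
        - Real.cosh u ^ 0 * Real.exp (-t * Real.cosh u))))
      = besI724 1 t - t * (besI724 2 t - besI724 0 t) := by
    rw [integral_sub (integrableOn_integrand724 1 ht) it20, integral_const_mul,
      integral_sub (integrableOn_integrand724 2 ht) (integrableOn_integrand724 0 ht)]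
    rfl
  rw [e] at h
  linarith

/-! ## Positivity and decay -/

theorem besI_nonneg724 (j : ℕ) (t : ℝ) : 0 ≤ besI724 j t :=
  setIntegral_nonneg measurableSet_Ioi fun u _ => integrand_nonneg724 j t u

theorem besK_pos724 {t : ℝ} (ht : 0 < t) : 0 < besK724 t := by
  rw [besK_eq_besI724]
  unfold besI724
  rw [setIntegral_pos_iff_support_of_nonneg_ae
    (Eventually.of_forall fun u => integrand_nonneg724 0 t u) (integrableOn_integrand724 0 ht)]
  have hsupp : Function.support (fun u : ℝ => Real.cosh u ^ 0 * Real.exp (-t * Real.cosh u))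
      = univ := by
    ext u
    simp only [Function.mem_support, pow_zero, one_mul, mem_univ, iff_true]
    exact (Real.exp_pos _).ne'
  rw [hsupp, univ_inter]
  simp

theorem besK_le724 {t : ℝ} (ht : 1 ≤ t) : besK724 t ≤ Real.exp (1 - t) * besK724 1 := by
  rw [besK_eq_besI724, besK_eq_besI724]
  unfold besI724
  rw [← integral_const_mul]
  refine setIntegral_mono_on (integrableOn_integrand724 0 (by linarith))
    ((integrableOn_integrand724 0 one_pos).const_mul _) measurableSet_Ioi fun u _ => ?_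
  simp only [pow_zero, one_mul]
  rw [← Real.exp_add]
  apply Real.exp_le_exp.mpr
  have := Real.one_le_cosh u
  nlinarith

theorem tendsto_besK724 : Tendsto besK724 atTop (𝓝 0) := by
  have hb : Tendsto (fun t : ℝ => Real.exp (1 - t) * besK724 1) atTop (𝓝 0) := by
    have h1 : Tendsto (fun t : ℝ => t - 1) atTop atTop :=
      tendsto_atTop_add_const_right atTop (-1) tendsto_id
    have h2 := (Real.tendsto_exp_neg_atTop_nhds_zero.comp h1).mul_const (besK724 1)
    rw [zero_mul] at h2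
    refine h2.congr fun t => ?_
    simp only [Function.comp_apply, neg_sub]
  refine squeeze_zero' ?_ ?_ hb
  · filter_upwards [Ioi_mem_atTop (0 : ℝ)] with t ht
    exact (besK_pos724 ht).le
  · filter_upwards [Ici_mem_atTop (1 : ℝ)] with t ht
    exact besK_le724 ht

/-! ## The equation in the variable `s = log t` -/

/-- For `k > 0`, `h(s) = K₀(k eˢ)` is a solution of `h'' = k² e^{2s} h` which tends to `0` at
`+∞` (the shape of `T2.H973.IsDecSol k h`). -/
theorem besK_decSol724 {k : ℝ} (hk : 0 < k) :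
    (∃ h' : ℝ → ℝ, (∀ s : ℝ, HasDerivAt (fun s : ℝ => besK724 (k * Real.exp s)) (h' s) s) ∧
        ∀ s : ℝ, HasDerivAt h'
          (k ^ 2 * Real.exp (2 * s) * besK724 (k * Real.exp s)) s) ∧
      Tendsto (fun s : ℝ => besK724 (k * Real.exp s)) atTop (𝓝 0) := by
  have hpos : ∀ s : ℝ, 0 < k * Real.exp s := fun s => mul_pos hk (Real.exp_pos s)
  have hinner : ∀ s : ℝ, HasDerivAt (fun s : ℝ => k * Real.exp s) (k * Real.exp s) s :=
    fun s => (Real.hasDerivAt_exp s).const_mul k
  have hK : besK724 = besI724 0 := funext besK_eq_besI724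
  refine ⟨⟨fun s => -besI724 1 (k * Real.exp s) * (k * Real.exp s), ?_, ?_⟩, ?_⟩
  · intro s
    rw [hK]
    have hd0 : HasDerivAt (besI724 0) (-besI724 1 (k * Real.exp s)) (k * Real.exp s) :=
      hasDerivAt_besI724 0 (hpos s)
    exact HasDerivAt.comp (h₂ := besI724 0) s hd0 (hinner s)
  · intro s
    have hd1 : HasDerivAt (besI724 1) (-besI724 2 (k * Real.exp s)) (k * Real.exp s) :=
      hasDerivAt_besI724 1 (hpos s)
    have h1 : HasDerivAt (fun s : ℝ => besI724 1 (k * Real.exp s))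
        (-besI724 2 (k * Real.exp s) * (k * Real.exp s)) s :=
      HasDerivAt.comp (h₂ := besI724 1) s hd1 (hinner s)
    have h2 : HasDerivAt (fun s : ℝ => -besI724 1 (k * Real.exp s) * (k * Real.exp s))
        (-(-besI724 2 (k * Real.exp s) * (k * Real.exp s)) * (k * Real.exp s)
          + -besI724 1 (k * Real.exp s) * (k * Real.exp s)) s :=
      (h1.neg).mul (hinner s)
    refine h2.congr_deriv ?_
    have hibp := besI_ibp724 (hpos s)
    have he : Real.exp (2 * s) = Real.exp s ^ 2 := by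
      rw [← Real.exp_nat_mul]
      norm_num
    rw [hK, he, hibp]
    ring
  · have h1 : Tendsto (fun s : ℝ => k * Real.exp s) atTop atTop :=
      Real.tendsto_exp_atTop.const_mul_atTop hk
    exact tendsto_besK724.comp h1

end Fermat.Agent.LT.T7.H724

end

end
-- ===== PACK-END LT/T7/H724/BesselK0.lean

-- ===== PACK-BEGIN LT/T8/H47/HeckeSeq.lean
section


/-!
# Row LT, tower T8, leaf HSEQ (helper47), OFF-MAIN: the Hecke-multiplicative sequence

For arbitrary local data `A B : ℕ → ℂ` (`A p` = the `T_p`-eigenvalue, `B p` = the `S_p`-eigenvalue)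
there is a sequence `a : ℕ → ℂ` with `a 0 = 0`, `a 1 = 1`, `a p = A p` and the Hecke relations

  `a (p * n) + B p * [p ∣ n] * a (n / p) = A p * a n`      (ALL primes `p`, ALL `n`),

namely `a n = ∏_{p ∣ n} s_p (v_p n)` with `s_p 0 = 1`, `s_p 1 = A p`,
`s_p (k + 2) = A p * s_p (k + 1) - B p * s_p k`.

Mathlib only.  Needed to STATE a mean square bound for an adelic eigensystem `(π.a, π.b)`
(sub-leaf `MS556` of helper19), where only the local eigenvalues are given.
-/

set_option autoImplicit false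

namespace Fermat.Agent.LT.T8.H47

/-- The local Hecke recursion `s 0 = 1`, `s 1 = A`, `s (k + 2) = A * s (k + 1) - B * s k`. -/
noncomputable def heckeLocal47 (A B : ℂ) : ℕ → ℂ
  | 0 => 1
  | 1 => A
  | (k + 2) => A * heckeLocal47 A B (k + 1) - B * heckeLocal47 A B k

@[simp] theorem heckeLocal47_zero (A B : ℂ) : heckeLocal47 A B 0 = 1 := by
  rw [heckeLocal47]

@[simp] theorem heckeLocal47_one (A B : ℂ) : heckeLocal47 A B 1 = A := by
  rw [heckeLocal47]

theorem heckeLocal47_succ_succ (A B : ℂ) (k : ℕ) :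
    heckeLocal47 A B (k + 2) = A * heckeLocal47 A B (k + 1) - B * heckeLocal47 A B k := by
  rw [heckeLocal47]

/-- The Hecke-multiplicative sequence of the local data `A`, `B`. -/
noncomputable def heckeSeq47 (A B : ℕ → ℂ) (n : ℕ) : ℂ :=
  if n = 0 then 0 else n.factorization.prod (fun p k => heckeLocal47 (A p) (B p) k)

theorem heckeSeq47_zero (A B : ℕ → ℂ) : heckeSeq47 A B 0 = 0 := by
  simp [heckeSeq47]

theorem heckeSeq47_one (A B : ℕ → ℂ) : heckeSeq47 A B 1 = 1 := by
  simp [heckeSeq47]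

theorem heckeSeq47_mul_of_coprime (A B : ℕ → ℂ) {m n : ℕ} (h : Nat.Coprime m n) :
    heckeSeq47 A B (m * n) = heckeSeq47 A B m * heckeSeq47 A B n := by
  rcases Nat.eq_zero_or_pos m with hm | hm
  · subst hm
    simp [heckeSeq47_zero]
  rcases Nat.eq_zero_or_pos n with hn | hn
  · subst hn
    simp [heckeSeq47_zero]
  unfold heckeSeq47
  rw [if_neg (Nat.mul_ne_zero hm.ne' hn.ne'), if_neg hm.ne', if_neg hn.ne',
    Nat.factorization_mul_of_coprime h]
  apply Finsupp.prod_add_index_of_disjoint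
  rw [Nat.support_factorization, Nat.support_factorization]
  exact h.disjoint_primeFactors

theorem heckeSeq47_prime_pow (A B : ℕ → ℂ) {p : ℕ} (hp : p.Prime) (k : ℕ) :
    heckeSeq47 A B (p ^ k) = heckeLocal47 (A p) (B p) k := by
  unfold heckeSeq47
  rw [if_neg (pow_ne_zero k hp.ne_zero), hp.factorization_pow]
  rw [Finsupp.prod_single_index]
  exact heckeLocal47_zero _ _

theorem heckeSeq47_prime (A B : ℕ → ℂ) {p : ℕ} (hp : p.Prime) :
    heckeSeq47 A B p = A p := by
  have h := heckeSeq47_prime_pow A B hp 1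
  rwa [pow_one, heckeLocal47_one] at h

/-- **HSEQ**: the Hecke relations at all primes. -/
theorem heckeSeq47_hecke (A B : ℕ → ℂ) {p : ℕ} (hp : p.Prime) (n : ℕ) :
    heckeSeq47 A B (p * n) + B p * (if p ∣ n then heckeSeq47 A B (n / p) else 0)
      = A p * heckeSeq47 A B n := by
  rcases Nat.eq_zero_or_pos n with hn | hn
  · subst hn
    simp [heckeSeq47_zero]
  obtain ⟨k, m, hpm, hnkm⟩ := Nat.exists_eq_pow_mul_and_not_dvd hn.ne' p hp.ne_one
  have hcop : ∀ j : ℕ, Nat.Coprime (p ^ j) m := fun j =>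
    Nat.Coprime.pow_left j ((Nat.Prime.coprime_iff_not_dvd hp).mpr hpm)
  have e1 : p * n = p ^ (k + 1) * m := by rw [hnkm, pow_succ]; ring
  rw [e1, heckeSeq47_mul_of_coprime A B (hcop (k + 1)), heckeSeq47_prime_pow A B hp]
  have e0 : heckeSeq47 A B n = heckeLocal47 (A p) (B p) k * heckeSeq47 A B m := by
    rw [hnkm, heckeSeq47_mul_of_coprime A B (hcop k), heckeSeq47_prime_pow A B hp]
  rw [e0]
  rcases Nat.eq_zero_or_pos k with hk | hk
  · subst hk
    have hnd : ¬ p ∣ n := by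
      rw [hnkm, pow_zero, one_mul]
      exact hpm
    rw [if_neg hnd]
    simp
  · obtain ⟨k', rfl⟩ : ∃ k', k = k' + 1 := ⟨k - 1, by omega⟩
    have hd : p ∣ n := ⟨p ^ k' * m, by rw [hnkm, pow_succ]; ring⟩
    have e2 : n / p = p ^ k' * m := by
      rw [hnkm, pow_succ]
      rw [show p ^ k' * p * m = p * (p ^ k' * m) by ring, Nat.mul_div_cancel_left _ hp.pos]
    rw [if_pos hd, e2, heckeSeq47_mul_of_coprime A B (hcop k'), heckeSeq47_prime_pow A B hp,
      heckeLocal47_succ_succ]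
    ring

/-- **HSEQ**, existence form. -/
theorem exists_heckeSeq47 (A B : ℕ → ℂ) :
    ∃ a : ℕ → ℂ, a 0 = 0 ∧ a 1 = 1 ∧ (∀ p : ℕ, p.Prime → a p = A p) ∧
      (∀ m n : ℕ, Nat.Coprime m n → a (m * n) = a m * a n) ∧
      ∀ p : ℕ, p.Prime → ∀ n : ℕ,
        a (p * n) + B p * (if p ∣ n then a (n / p) else 0) = A p * a n :=
  ⟨heckeSeq47 A B, heckeSeq47_zero A B, heckeSeq47_one A B,
    fun _ hp => heckeSeq47_prime A B hp,
    fun _ _ h => heckeSeq47_mul_of_coprime A B h,
    fun _ hp n => heckeSeq47_hecke A B hp n⟩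

end Fermat.Agent.LT.T8.H47

end
-- ===== PACK-END LT/T8/H47/HeckeSeq.lean

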