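import Mathlib
import Fermat.Agent.Pack.LT2.E0L1
import Fermat.Agent.Pack.LT2.E2L1
import Fermat.Agent.Pack.LT2.E1L1
import Fermat.Agent.Pack.LT2.E1L2
import Fermat.Agent.Pack.LT2.E0L2
import Fermat.Agent.Pack.LT2.E2L0

set_option linter.all false

-- ===== PACK-BEGIN LT/T6/H159/NormSpec.lean
section




/-!
# Row LT, tower T6, sub-leaf T6.15c `NormCritC` (owner helper159) -- split into sub-leaves

`NormCritC`: `k'/k` unramified of prime degree `l`; a regular `γ ∈ GL₂(k)` with
`l ∣ ord (det γ)`, all of whose eigenvalues in `k` have order divisible by `l`, is a norm.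

Sub-leaves (all TRUE; pure local algebra, no orbit sums, no Satake):

* `NewtonC` (T6.15c2): `X² - τ X + d` with `d` a unit and `|τ| > 1` has a root in `k`
  (`X = τ Y`, `Y = Y² + d/τ²`, contraction in the complete field `k`).  Used as: an elliptic
  element with unit determinant has integral trace.
* `QuadUnitNormC` (T6.15c3): every `u ∈ GL₂(k)` with integral trace and unit determinant is an
  exact twisted norm `u = N x` of some `x = a + b u`, `a, b ∈ k'` (unit norm surjectivity in
  the unramified extension `𝒪'[X]/(X² - tX + d)` of `𝒪[X]/(X² - tX + d)`: surjectivity of norm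
  and trace on the residue rings + successive approximation modulo `ϖⁿ`).  For scalar `u` this
  is the surjectivity of `N : 𝒪'ˣ → 𝒪ˣ`.
* `Unr2C` (T6.15c4): `l = 2`, `γ` elliptic with `k[γ]/k` unramified: the characteristic polynomial
  of `γ` has a root in `k'` (uniqueness of the unramified quadratic extension).

The glue `normCrit_of : NewtonC → QuadUnitNormC → Unr2C → NormCritC` is in `NormGlue.lean`.
-/

set_option autoImplicit false

open scoped Matrix

noncomputable section

namespace Fermat.Agent.LT.T6.H159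

open Fermat.Agent.LT.T6

/-- **T6.15c2 (Newton polygon with two slopes).**  In a local field, `X² - τ X + d` with
`|d| = 1 < |τ|` has a root. -/
def NewtonC : Prop :=
  ∀ (k : Type) [Field k] [Valued k Γ₀] (q : ℕ), IsLocalField k q →
    ∀ τ d : k, Valued.v d = 1 → 1 < Valued.v τ → ∃ x : k, x ^ 2 - τ * x + d = 0

/-- **T6.15c3 (unit norm surjectivity, quadratic-algebra form).**  `k'/k` unramified of prime
degree `l`: every `u ∈ GL₂(k)` with integral trace and unit determinant is the twisted norm of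
an element `x = a + b u` of `GL₂(k')`. -/
def QuadUnitNormC : Prop :=
  ∀ (k k' : Type) [Field k] [Field k'] [Valued k Γ₀] [Valued k' Γ₀] (q l : ℕ)
    (i : k →+* k') (s : k' ≃+* k'),
    IsLocalField k q → IsLocalField k' (q ^ l) → IsLocalExt k k' l 1 i s → l.Prime →
    ∀ u : GL (Fin 2) k, Valued.v (u : Matrix (Fin 2) (Fin 2) k).trace ≤ 1 →
      Valued.v (u : Matrix (Fin 2) (Fin 2) k).det = 1 →
      ∃ (x : GL (Fin 2) k') (a b : k'),
        (x : Matrix (Fin 2) (Fin 2) k') = a • (1 : Matrix (Fin 2) (Fin 2) k')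
          + b • ((Matrix.GeneralLinearGroup.map i u : GL (Fin 2) k') :
              Matrix (Fin 2) (Fin 2) k') ∧
        twNorm s l x = Matrix.GeneralLinearGroup.map i u

/-- **T6.15c4 (the unramified quadratic extension is unique).**  `k'/k` unramified quadratic,
`γ ∈ GL₂(k)` regular elliptic with `k[γ]/k` unramified: the characteristic polynomial of `γ`
has a root in `k'`. -/
def Unr2C : Prop :=
  ∀ (k k' : Type) [Field k] [Field k'] [Valued k Γ₀] [Valued k' Γ₀] (q : ℕ)
    (i : k →+* k') (s : k' ≃+* k'),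
    IsLocalField k q → IsLocalField k' (q ^ 2) → IsLocalExt k k' 2 1 i s →
    ∀ γ : GL (Fin 2) k, IsReg γ → ¬ HasEigen k γ → ¬ HasRamUnif k γ →
      ∃ x : k', x ^ 2 - i (γ : Matrix (Fin 2) (Fin 2) k).trace * x
        + i (γ : Matrix (Fin 2) (Fin 2) k).det = 0

end Fermat.Agent.LT.T6.H159

end

end
-- ===== PACK-END LT/T6/H159/NormSpec.lean

-- ===== PACK-BEGIN LT/T3/H57/PoissonRing.lean
section



/-!
# Row LT, tower T3 (volunteer helper57): Poisson summation for a ring with a cocompact field

OFF-MAIN.  Mathlib only, no definitions.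

`poisson_ring57` = Tate's Theorem 4.2.1 in abstract form: `A` a commutative topological ring
(Borel), `ι : K →+* A` a countable infinite field which is COCOMPACT (`A = C + ι K`, `C` compact),
`μ` a translation invariant measure, positive on open sets, with a fundamental domain `D` for
`ι K` of measure `1`, `ψ` a continuous unitary additive character of `A`, trivial on `ι K` and
non-degenerate.  Then for `φ` continuous, integrable, with continuous periodisation and absolutely
summable Fourier transform on `K`: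

  `∑' ξ : K, φ (ι ξ) = ∑' ξ : K, ∫ x, φ x * conj (ψ (ι ξ * x)) ∂μ`.

For `A = 𝔸_K` the inputs are: cocompactness of `K` in the adeles, a Haar measure of covolume `1`,
and a non-degenerate character (`nondegenerate_of_dense57`: any nontrivial `ψ` trivial on `K`, IF
strong approximation `K + x 𝔸_K` dense is known; the standard character directly).
-/

set_option autoImplicit false
set_option linter.unusedSectionVars false

namespace Fermat.Agent.LT.T3.H57

open MeasureTheory Filter Set Topology ComplexConjugate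

section

variable {A : Type*} [CommRing A] [TopologicalSpace A] [IsTopologicalRing A]
  {K : Type*} [Field K] (ι : K →+* A) (ψ : A → ℂ)

/-- Non-degeneracy of a nontrivial character trivial on `ι K`, from strong approximation. -/
theorem nondegenerate_of_dense57
    (hψc : Continuous ψ) (hψadd : ∀ x y, ψ (x + y) = ψ x * ψ y)
    (hψK : ∀ ξ : K, ψ (ι ξ) = 1) (hψne : ∃ x, ψ x ≠ 1)
    (hSA : ∀ x : A, x ≠ 0 → Dense {y : A | ∃ (ξ : K) (a : A), y = ι ξ + x * a})
    (x : A) (hx : ∀ y : A, ψ (x * y) = 1) : x = 0 := by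
  by_contra hne
  obtain ⟨z, hz⟩ := hψne
  apply hz
  have hcl : IsClosed {y : A | ψ y = 1} := isClosed_eq hψc continuous_const
  have hsub : {y : A | ∃ (ξ : K) (a : A), y = ι ξ + x * a} ⊆ {y : A | ψ y = 1} := by
    rintro y ⟨ξ, a, rfl⟩
    show ψ (ι ξ + x * a) = 1
    rw [hψadd, hψK, hx, mul_one]
  have := (hSA x hne).closure_eq ▸ closure_minimal hsub hcl
  exact this (mem_univ z)

/-- Cocompactness in the compact-set form implies that the quotient group is compact. -/
theorem compactSpace_quotient_of_cocompact57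
    (hcc : ∃ C : Set A, IsCompact C ∧ ∀ x : A, ∃ ξ : K, x - ι ξ ∈ C) :
    CompactSpace (A ⧸ ι.toAddMonoidHom.range) := by
  obtain ⟨C, hC, hCK⟩ := hcc
  have himg : IsCompact ((QuotientAddGroup.mk : A → A ⧸ ι.toAddMonoidHom.range) '' C) :=
    hC.image continuous_quot_mk
  have huniv : (QuotientAddGroup.mk : A → A ⧸ ι.toAddMonoidHom.range) '' C = univ := by
    refine eq_univ_of_forall fun q => ?_
    induction q using QuotientAddGroup.induction_on with
    | H x =>
      obtain ⟨ξ, hξ⟩ := hCK x
      refine ⟨x - ι ξ, hξ, ?_⟩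
      rw [sub_eq_add_neg]
      exact QuotientAddGroup.mk_add_of_mem x (neg_mem ⟨ξ, rfl⟩)
  rw [huniv] at himg
  exact isCompact_univ_iff.mp himg

end

section

variable {A : Type*} [CommRing A] [Nontrivial A] [TopologicalSpace A] [IsTopologicalRing A]
  [MeasurableSpace A] [BorelSpace A]
  {K : Type*} [Field K] [Infinite K] [Countable K] (ι : K →+* A)
  (μ : Measure A) [μ.IsAddLeftInvariant] [μ.IsOpenPosMeasure]
  (D : Set A) (ψ : A → ℂ)

/-- **Poisson summation formula** for a commutative topological ring with a cocompact countable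
field and a non-degenerate character (Tate, Theorem 4.2.1, abstract form). -/
theorem poisson_ring57
    (hcc : ∃ C : Set A, IsCompact C ∧ ∀ x : A, ∃ ξ : K, x - ι ξ ∈ C)
    (hD : IsAddFundamentalDomain ι.toAddMonoidHom.range D μ) (hvol : μ D = 1)
    (hψc : Continuous ψ) (hψadd : ∀ x y, ψ (x + y) = ψ x * ψ y) (hψn : ∀ x, ‖ψ x‖ = 1)
    (hψK : ∀ ξ : K, ψ (ι ξ) = 1)
    (hnd : ∀ x : A, (∀ y : A, ψ (x * y) = 1) → x = 0)
    (φ : A → ℂ) (hφc : Continuous φ) (hφi : Integrable φ μ)
    (hΦc : Continuous fun x => ∑' ξ : K, φ (x + ι ξ))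
    (hhat : Summable fun ξ : K => ‖∫ x, φ x * conj (ψ (ι ξ * x)) ∂μ‖) :
    ∑' ξ : K, φ (ι ξ) = ∑' ξ : K, ∫ x, φ x * conj (ψ (ι ξ * x)) ∂μ := by
  have hinj : Function.Injective ι := ι.injective
  let Γ : AddSubgroup A := ι.toAddMonoidHom.range
  -- `K ≃ Γ`
  let e : K ≃ Γ := Equiv.ofInjective ι hinj
  have he : ∀ ξ : K, ((e ξ : Γ) : A) = ι ξ := fun ξ => rfl
  have hcount : Countable Γ := e.symm.injective.countable
  have hcomp : CompactSpace (A ⧸ Γ) := compactSpace_quotient_of_cocompact57 ι hcc
  have hsumΓ : ∀ f : A → ℂ, ∑' γ : Γ, f γ = ∑' ξ : K, f (ι ξ) := by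
    intro f
    rw [← e.tsum_eq]
    rfl
  have hψ0 : ψ 0 = 1 := by
    have := hψK 0
    rwa [map_zero] at this
  have hψconj : ∀ x, ψ x * conj (ψ x) = 1 := by
    intro x
    rw [Complex.mul_conj, Complex.normSq_eq_norm_sq, hψn]
    simp
  have hψneg : ∀ x, ψ (-x) = conj (ψ x) := by
    intro x
    have h1 : ψ (-x) * ψ x = 1 := by rw [← hψadd, neg_add_cancel, hψ0]
    have h2 : ψ x ≠ 0 := by
      intro h0
      have := hψn x
      rw [h0, norm_zero] at this
      exact zero_ne_one this
    have h3 : ψ (-x) * ψ x = conj (ψ x) * ψ x := by rw [h1, mul_comm, hψconj]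
    exact mul_right_cancel₀ h2 h3
  -- the characters
  let χ : K → A → ℂ := fun ξ x => ψ (ι ξ * x)
  have hmain := poisson_abstract57 Γ μ D hD hvol χ
    (fun ξ => hψc.comp (continuous_const.mul continuous_id))
    (fun ξ x y => by show ψ (ι ξ * (x + y)) = _; rw [mul_add, hψadd])
    (fun ξ x => hψn _)
    (fun ξ γ hγ => by
      obtain ⟨η, rfl⟩ := hγ
      show ψ (ι ξ * ι η) = 1
      rw [← map_mul]
      exact hψK _)
    (fun ξ ξ' h => by
      by_contra hne
      have hd : ξ - ξ' ≠ 0 := sub_ne_zero.mpr hne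
      have h1 : ∀ y : A, ψ (ι (ξ - ξ') * y) = 1 := by
        intro y
        have h2 : ψ (ι ξ * y) = ψ (ι ξ' * y) := congrFun h y
        have h3 : ι (ξ - ξ') * y = ι ξ * y + -(ι ξ' * y) := by rw [map_sub]; ring
        rw [h3, hψadd, hψneg, h2, hψconj]
      have h4 := hnd _ h1
      exact hd (hinj (by rw [h4, map_zero])))
    ⟨0, fun x => by show ψ (ι 0 * x) = 1; rw [map_zero, zero_mul, hψ0]⟩
    (fun ξ ξ' => ⟨ξ + ξ', fun x => by
      show ψ (ι (ξ + ξ') * x) = ψ (ι ξ * x) * ψ (ι ξ' * x)
      rw [map_add, add_mul, hψadd]⟩)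
    (fun ξ => ⟨-ξ, fun x => by
      show ψ (ι (-ξ) * x) = conj (ψ (ι ξ * x))
      rw [map_neg, neg_mul, hψneg]⟩)
    (fun x hx => by
      obtain ⟨ξ, hξ⟩ := annihilator_eq_range57 ι ψ hcc hψc hψadd hψn hψK hnd x hx
      exact ⟨ξ, hξ.symm⟩)
    φ hφc hφi
    (by
      have : (fun x => ∑' γ : Γ, φ (x + γ)) = fun x => ∑' ξ : K, φ (x + ι ξ) := by
        ext x
        exact hsumΓ fun y => φ (x + y)
      rw [this]
      exact hΦc)
    hhat
  rw [← hsumΓ φ]
  exact hmain

end

end Fermat.Agent.LT.T3.H57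

end
-- ===== PACK-END LT/T3/H57/PoissonRing.lean

-- ===== PACK-BEGIN LT/T6/H305/Basic.lean
section


/-!
# Row LT, tower T6, leaf T6.10 `SatakeEigenC` (helper305) -- part 1: the group `GL₂(𝒪)`

OFF-MAIN.  Elementary facts on `K = GL₂(𝒪) = {g : InU 0 g}` for a field `k` with a valuation in
`ℤᵐ⁰`: it is a subgroup, `g ∈ K` iff the entries of `g` are integral and `det g` is a unit;
explicit elements `mk2`.
-/

set_option autoImplicit false
set_option linter.unusedSectionVars false

open scoped Matrix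

noncomputable section

namespace Fermat.Agent.LT.T6.H305

open Fermat.Agent.LT.T6

variable {k : Type} [Field k] [Valued k Γ₀]

/-- `g ∈ GL₂(𝒪)`: the entries of `g` and of `g⁻¹` are integral. -/
def InK (g : GL (Fin 2) k) : Prop :=
  (∀ i j, Valued.v ((g : Matrix (Fin 2) (Fin 2) k) i j) ≤ 1) ∧
    ∀ i j, Valued.v (((g⁻¹ : GL (Fin 2) k) : Matrix (Fin 2) (Fin 2) k) i j) ≤ 1

theorem val_one_apply_le (i j : Fin 2) :
    Valued.v ((1 : Matrix (Fin 2) (Fin 2) k) i j) ≤ 1 := by
  rw [Matrix.one_apply]
  split_ifs <;> simp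

theorem inU_zero_iff (g : GL (Fin 2) k) : InU 0 g ↔ InK g := by
  have key : ∀ (x : k) (i j : Fin 2),
      Valued.v (x - (1 : Matrix (Fin 2) (Fin 2) k) i j) ≤ WithZero.exp (-((0 : ℕ) : ℤ))
        ↔ Valued.v x ≤ 1 := by
    intro x i j
    simp only [Nat.cast_zero, neg_zero, WithZero.exp_zero]
    constructor
    · intro h
      have := Valuation.map_add_le (Valued.v) h (val_one_apply_le (k := k) i j)
      simpa using this
    · intro h
      exact Valuation.map_sub_le (Valued.v) h (val_one_apply_le i j)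
  unfold InU InK
  constructor
  · intro h
    exact ⟨fun i j => (key _ i j).1 (h i j).1, fun i j => (key _ i j).1 (h i j).2⟩
  · intro h i j
    exact ⟨(key _ i j).2 (h.1 i j), (key _ i j).2 (h.2 i j)⟩

theorem inK_one : InK (1 : GL (Fin 2) k) := by
  refine ⟨fun i j => ?_, fun i j => ?_⟩
  · simpa using val_one_apply_le (k := k) i j
  · simpa using val_one_apply_le (k := k) i j

theorem inK_inv {g : GL (Fin 2) k} (h : InK g) : InK g⁻¹ :=
  ⟨h.2, by simpa using h.1⟩

theorem val_mul_apply_le {A B : Matrix (Fin 2) (Fin 2) k}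
    (hA : ∀ i j, Valued.v (A i j) ≤ 1) (hB : ∀ i j, Valued.v (B i j) ≤ 1) (i j : Fin 2) :
    Valued.v ((A * B) i j) ≤ 1 := by
  rw [Matrix.mul_apply]
  refine Valuation.map_sum_le _ (fun l _ => ?_)
  rw [map_mul]
  exact mul_le_one' (hA i l) (hB l j)

theorem inK_mul {g h : GL (Fin 2) k} (hg : InK g) (hh : InK h) : InK (g * h) := by
  refine ⟨fun i j => ?_, fun i j => ?_⟩
  · simpa using val_mul_apply_le hg.1 hh.1 i j
  · rw [mul_inv_rev]
    simpa using val_mul_apply_le hh.2 hg.2 i j

/-- The matrix `[[a, b], [c, d]]` of nonzero determinant, as an element of `GL₂(k)`. -/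
def mk2 (a b c d : k) (h : a * d - b * c ≠ 0) : GL (Fin 2) k :=
  Matrix.GeneralLinearGroup.mkOfDetNeZero !![a, b; c, d] (by rwa [Matrix.det_fin_two_of])

@[simp] theorem mk2_val (a b c d : k) (h : a * d - b * c ≠ 0) :
    ((mk2 a b c d h : GL (Fin 2) k) : Matrix (Fin 2) (Fin 2) k) = !![a, b; c, d] := rfl

theorem det_ne_zero (g : GL (Fin 2) k) : (g : Matrix (Fin 2) (Fin 2) k).det ≠ 0 := by
  have h := Matrix.GeneralLinearGroup.det g |>.ne_zero
  simpa using h

theorem inv_val_eq (g : GL (Fin 2) k) :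
    ((g⁻¹ : GL (Fin 2) k) : Matrix (Fin 2) (Fin 2) k)
      = !![(g : Matrix (Fin 2) (Fin 2) k) 1 1 / (g : Matrix (Fin 2) (Fin 2) k).det,
            -(g : Matrix (Fin 2) (Fin 2) k) 0 1 / (g : Matrix (Fin 2) (Fin 2) k).det;
           -(g : Matrix (Fin 2) (Fin 2) k) 1 0 / (g : Matrix (Fin 2) (Fin 2) k).det,
            (g : Matrix (Fin 2) (Fin 2) k) 0 0 / (g : Matrix (Fin 2) (Fin 2) k).det] := by
  rw [Matrix.coe_units_inv, Matrix.inv_def, Matrix.adjugate_fin_two, Ring.inverse_eq_inv']
  ext i j
  fin_cases i <;> fin_cases j <;> simp [div_eq_inv_mul]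

theorem val_det_le_one {A : Matrix (Fin 2) (Fin 2) k} (hA : ∀ i j, Valued.v (A i j) ≤ 1) :
    Valued.v A.det ≤ 1 := by
  rw [Matrix.det_fin_two]
  refine Valuation.map_sub_le _ ?_ ?_
  · rw [map_mul]; exact mul_le_one' (hA 0 0) (hA 1 1)
  · rw [map_mul]; exact mul_le_one' (hA 0 1) (hA 1 0)

theorem inK_iff (g : GL (Fin 2) k) :
    InK g ↔ (∀ i j, Valued.v ((g : Matrix (Fin 2) (Fin 2) k) i j) ≤ 1) ∧
      Valued.v (g : Matrix (Fin 2) (Fin 2) k).det = 1 := by
  constructor
  · intro h
    refine ⟨h.1, ?_⟩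
    have h1 := val_det_le_one h.1
    have h2 := val_det_le_one h.2
    have h3 : (g : Matrix (Fin 2) (Fin 2) k).det
        * ((g⁻¹ : GL (Fin 2) k) : Matrix (Fin 2) (Fin 2) k).det = 1 := by
      rw [← Matrix.det_mul, ← Units.val_mul, mul_inv_cancel]
      simp
    have h4 : Valued.v (g : Matrix (Fin 2) (Fin 2) k).det
        * Valued.v ((g⁻¹ : GL (Fin 2) k) : Matrix (Fin 2) (Fin 2) k).det = 1 := by
      rw [← map_mul, h3, map_one]
    refine le_antisymm h1 ?_
    calc (1 : Γ₀) = Valued.v (g : Matrix (Fin 2) (Fin 2) k).det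
        * Valued.v ((g⁻¹ : GL (Fin 2) k) : Matrix (Fin 2) (Fin 2) k).det := h4.symm
      _ ≤ Valued.v (g : Matrix (Fin 2) (Fin 2) k).det * 1 := by gcongr
      _ = _ := mul_one _
  · rintro ⟨h1, h2⟩
    refine ⟨h1, fun i j => ?_⟩
    rw [inv_val_eq]
    fin_cases i <;> fin_cases j <;> simp [h2, h1]

end Fermat.Agent.LT.T6.H305

end

end
-- ===== PACK-END LT/T6/H305/Basic.lean

-- ===== PACK-BEGIN LT/T5/Spec.lean
section



/-!
# Row LT, tower T5: the σ-twisted trace identity (architect helper32) — SPEC v4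

OFF-MAIN.  Definitions and Props only; the only theorems are the formal tops at the end and
three one-line instances (`isKType_triv`, `isCyclicOfDegree_id`, `autPreserves_id`).

## v3 = v2 + two changes (chief helper797 #15661 (3); referee helper11 #15733)

* every Prop except T5.01 and T5.09 has ONE more explicit argument `τ : G K → ℂ`, placed after
  the level `𝔫`: the `K_∞`-TYPE (a unitary character of `K_∞ = ∏_w K_w`, `IsKType`).  Test
  functions satisfy `φ(k₁ g k₂) = τ(k₁)⁻¹ τ(k₂)⁻¹ φ(g)`, automorphic functions `e(g k) = τ(k) e(g)`.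
  `τ = trivType` (constant `1`) is v2.  (Over `ℚ`: `τ =` weight `±1` for the target `π(1,sgn)`.)
* `IsTestFn` has two more fields: `ktype : IsKType τ` and `smooth : IsSmoothAtInf φ` (the
  Gelfand--Piatetski-Shapiro estimate behind T5.02 / T5.04 needs derivatives along `N(K_∞)`;
  same definition as `T2.IsSmoothAtInf`).
  No binder of a v2 Prop has moved: a v2 proof is re-typed by adding `τ` to its signature.

## v4 = v3 + two changes (chief helper797 #15966 R2; FAIL reports helper567 #15946, helper359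
#15954, helper130 #15976)

* `IsBorelInvariantFn` has the new field `ray` (right invariance under the ray generator), so
  `IsEK` asks LESS of `φ` (R2); no signature has changed.  The leaves stay true: all kernels
  contain `φ` only through its periodisation `flat r φ`.
* ZERO VECTORS ARE ALLOWED in the orthonormal sequences: the field `orthonormal` of `IsCuspONB`
  and the first hypothesis of T5.01 `LeafAbstractTrace` are replaced by `orth` (`i ≠ j`) and
  `norm` (`⟨e i, e i⟩ = 1` or `e i = 0`).  So the space of cusp functions may be finite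
  dimensional or zero, and `CuspONBExistsC` is elementary (separability + Gram--Schmidt, padded
  by zeros).  The v3 statement of T5.01 is kept as `LeafAbstractTraceStrict` (not used).
  UNCHANGED statements: T5.02 -- T5.09, `GeomUnfold`.  CHANGED: T5.01, `IsCuspONB`.

## Frame = the frame of T1 (helper54) and T3 (helper14); T4 is the instance `σ = id`

* Everything lives on `G K = GL₂(𝔸_K)` (A0) with a Haar measure `μ` of `G K` (Borel σ-algebra).
* `GL₂(K) \ GL₂(𝔸_K)¹` is realised as a STRICT fundamental domain `F` of `GL₂(K)` inside the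
  `slab = {1 ≤ ‖det g‖_𝔸 < 2}` (shape of `T1.FundDomC`); the slab is a fundamental domain of the
  discrete central ray `⟨r⟩`, `r` = the scalar matrix which is `1` at the finite places, the same
  positive real `t` at every infinite place, `‖det r‖_𝔸 = 2` (`IsRayGen`).  No quotient is formed.
  WARNING (why not "modulo the positive scalars `A_∞` at each infinite place"): `GL₂(K)` is not
  discrete modulo `A_∞` when `K` has infinitely many units; modulo the ONE-dimensional ray it is.
* test functions `φ ∈ C_c(GL₂(𝔸_K))`, smooth at infinity, bi-invariant under `U(𝔫)`, of type `τ`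
  under `K_∞` on both sides; `R(φ)ψ(x) = ∫ φ(y) ψ(xy) dy` (= `T3.Rop`); automorphic functions
  are right invariant under `U(𝔫)` and the central ray, of type `τ` under `K_∞`.
* kernels carry the periodisation along the ray: `K_φ(x,y) = ∑_{γ ∈ GL₂(K)} ∑_{m ∈ ℤ} φ(x⁻¹ γ y rᵐ)`.
* `AdelicAut K` : a field automorphism `σ` of `K` with its continuous extension to the adeles.
* `IsEK`        : Eisenstein-killing in the OPERATOR form: `R(φ)` annihilates every continuous
                  function which is left invariant under `N(𝔸_K) T(K)` (this is the conclusion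
                  of `T3.EKKillC`, so `T3.IsEK f α → T5.IsEK` is one application of that leaf).
                  So there is NO continuous term, NO truncation, NO Eisenstein series in T5.

## Tower Prop

`Tower s l k 𝔫 τ` = `STFsigma` (twisted trace identity for products of two EK test functions)
+ `GeomUnfold` (unfolding of the geometric side into σ-conjugacy classes) + `RegularOfIwahori`
(Flicker's regular Iwahori support gives σ-regularity: only classes with elliptic regular norm).

To use the measure-theoretic Props in another file: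
`attribute [local instance] Fermat.Agent.LT.T5.instMeasurableSpaceG`.
-/

set_option autoImplicit false

open IsDedekindDomain NumberField MeasureTheory
open scoped MatrixGroups ComplexConjugate ContDiff

noncomputable section

namespace Fermat.Agent.LT.T5

open Fermat.Agent.LT.H556.A0

variable {K : Type} [Field K] [NumberField K]

/-! ## 1. Components as ring homomorphisms -/

/-- The component at the infinite place `w`, in `ℂ`. -/
def infHom (w : InfinitePlace K) : Adl K →+* ℂ :=
  (InfinitePlace.Completion.extensionEmbedding w).comp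
    ((Pi.evalRingHom (fun v : InfinitePlace K => v.Completion) w).comp
      (RingHom.fst (InfiniteAdeleRing K) (FiniteAdeleRing (𝓞 K) K)))

/-- The component at the finite place `v`. -/
def finHom (v : HeightOneSpectrum (𝓞 K)) : Adl K →+* v.adicCompletion K :=
  (RestrictedProduct.evalRingHom (fun v : HeightOneSpectrum (𝓞 K) => v.adicCompletion K) v).comp
    (RingHom.snd (InfiniteAdeleRing K) (FiniteAdeleRing (𝓞 K) K))

theorem infComp_eq_map (w : InfinitePlace K) (g : G K) :
    infComp w g = (g : Matrix (Fin 2) (Fin 2) (Adl K)).map (infHom w) := rfl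

theorem finComp_eq_map (v : HeightOneSpectrum (𝓞 K)) (g : G K) :
    finComp v g = (g : Matrix (Fin 2) (Fin 2) (Adl K)).map (finHom v) := rfl

/-! ## 2. Rational points, the central ray, the slab -/

/-- `GL₂(K) → GL₂(𝔸_K)`. -/
def ratG : GL (Fin 2) K →* G K :=
  Matrix.GeneralLinearGroup.map (algebraMap K (Adl K))

/-- The module `‖x‖_𝔸 = ∏_{w ∣ ∞} |x_w|^{[K_w : ℝ]} · ∏_v |x_v|_v` (normalised absolute values;
same definition as `T1.adNorm`).  Only meaningful for ideles. -/
def adNorm (x : Adl K) : ℝ :=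
  (∏ w : InfinitePlace K, ‖x.1 w‖ ^ w.mult) * ∏ᶠ v : HeightOneSpectrum (𝓞 K), ‖x.2 v‖

/-- The slab `1 ≤ ‖det g‖_𝔸 < 2` (same definition as `T1.slab`). -/
def slab (K : Type) [Field K] [NumberField K] : Set (G K) :=
  {g | 1 ≤ adNorm (Matrix.det (g : Matrix (Fin 2) (Fin 2) (Adl K))) ∧
    adNorm (Matrix.det (g : Matrix (Fin 2) (Fin 2) (Adl K))) < 2}

/-- `z` lies on the central ray: `1` at every finite place and the same positive real scalar at
every infinite place. -/
def IsCentralRay (z : G K) : Prop :=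
  (∀ v : HeightOneSpectrum (𝓞 K), TrivAtFin v z) ∧
    ∃ t : ℝ, 0 < t ∧ ∀ w : InfinitePlace K, infComp w z = Matrix.diagonal (fun _ => (t : ℂ))

/-- `r` is the generator of the discrete ray: the point of the central ray with
`‖det r‖_𝔸 = t^{2 [K:ℚ]} = 2`. -/
def IsRayGen (r : G K) : Prop :=
  (∀ v : HeightOneSpectrum (𝓞 K), TrivAtFin v r) ∧
    ∃ t : ℝ, 0 < t ∧ t ^ (2 * Module.finrank ℚ K) = 2 ∧
      ∀ w : InfinitePlace K, infComp w r = Matrix.diagonal (fun _ => (t : ℂ))

/-! ## 3. The automorphism -/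

/-- A field automorphism of `K` together with its continuous extension to the adele ring.
(T1: exists and is unique for every `σ`.) -/
structure AdelicAut (K : Type) [Field K] [NumberField K] where
  /-- the automorphism of the field -/
  σ : K ≃+* K
  /-- its extension to the adeles -/
  σA : Adl K ≃+* Adl K
  continuous_σA : Continuous σA
  continuous_symm : Continuous σA.symm
  compat : ∀ x : K, σA (algebraMap K (Adl K) x) = algebraMap K (Adl K) (σ x)

namespace AdelicAut

variable (s : AdelicAut K)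

/-- The automorphism of `GL₂(𝔸_K)`. -/
def onG : G K →* G K := Matrix.GeneralLinearGroup.map (s.σA : Adl K →+* Adl K)

/-- Its inverse. -/
def onGinv : G K →* G K := Matrix.GeneralLinearGroup.map (s.σA.symm : Adl K →+* Adl K)

/-- The automorphism of `GL₂(K)`. -/
def onRat : GL (Fin 2) K →* GL (Fin 2) K :=
  Matrix.GeneralLinearGroup.map (s.σ : K →+* K)

/-- `δ σ(δ) ⋯ σ^{n-1}(δ)`. -/
def normUpTo : ℕ → GL (Fin 2) K → GL (Fin 2) K
  | 0, _ => 1
  | n + 1, δ => δ * s.onRat (normUpTo n δ)

/-! Equation lemmas of `normUpTo`, REALISED ONCE (ADDITIVE, row-lead helper17, 16:00Z; fix of helper8 /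
helper112 / helper493, see `coord/LT-collision-helper8.md`): the grader's kernel checker rejects a
closure in which two modules realise `normUpTo.eq_def`.  No statement of this file is changed. -/

theorem normUpTo_eqns_realised : True := by
  have _h0 := @normUpTo.eq_def
  have _h1 := @normUpTo.eq_1
  have _h2 := @normUpTo.eq_2
  trivial

end AdelicAut

/-- The trivial automorphism (the frame of T4). -/
def AdelicAut.id (K : Type) [Field K] [NumberField K] : AdelicAut K where
  σ := RingEquiv.refl K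
  σA := RingEquiv.refl (Adl K)
  continuous_σA := continuous_id
  continuous_symm := continuous_id
  compat := fun _ => rfl

/-- `σ` generates a cyclic group of order `l` with fixed field `k` (given as a subfield). -/
structure IsCyclicOfDegree (s : AdelicAut K) (l : ℕ) (k : Subfield K) : Prop where
  pos : 0 < l
  pow_eq : ∀ x : K, (s.σ ^ l) x = x
  fixed : ∀ x : K, x ∈ k ↔ s.σ x = x
  faithful : ∀ j : ℕ, 0 < j → j < l → ∃ x : K, (s.σ ^ j) x ≠ x

/-! ## 4. Functions on `GL₂(𝔸_K)` -/

/-- A `K_∞`-type: a unitary character of `K_∞ = ∏_w K_w` (`K_w = SO(2)` at a real place,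
`U(2)` at a complex place; `A0.IsArchCompact`), given as a function on `GL₂(𝔸_K)` of which only
the values on the elements of the groups `K_w` matter.  (`τ = 1` for the forms of A0; over `ℚ`
the rotation of angle `θ` goes to `e^{± i θ}` for the forms of weight one.) -/
structure IsKType (τ : G K → ℂ) : Prop where
  norm_one : ∀ (w : InfinitePlace K) (k : G K), IsArchCompact w k → ‖τ k‖ = 1
  mul : ∀ (w : InfinitePlace K) (k k' : G K), IsArchCompact w k → IsArchCompact w k' →
    τ (k * k') = τ k * τ k'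
  cont : ∀ w : InfinitePlace K, ContinuousOn τ {k : G K | IsArchCompact w k}

/-- The trivial `K_∞`-type (the frame of v2 and of A0). -/
def trivType : G K → ℂ := fun _ => 1

/-- `φ` is smooth in the archimedean variables: smooth along every smooth finite-dimensional
family of elements supported at the infinite places (same definition as `T2.IsSmoothAtInf`).
Right smoothness implies left smoothness (`h(t) g = g · g⁻¹ h(t) g`) and the smoothness of
`u ↦ φ(g₁ n(u) g₂)` in the unipotent parameter at the infinite places. -/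
def IsSmoothAtInf (φ : G K → ℂ) : Prop :=
  ∀ (n : ℕ) (h : (Fin n → ℝ) → G K),
    (∀ (t : Fin n → ℝ) (v : HeightOneSpectrum (𝓞 K)), TrivAtFin v (h t)) →
    (∀ (w : InfinitePlace K) (i j : Fin 2), ContDiff ℝ ∞ (fun t => infComp w (h t) i j)) →
    ∀ g : G K, ContDiff ℝ ∞ (fun t => φ (g * h t))

/-- Two-sided invariance under the level group `U(𝔫)` and two-sided equivariance of type `τ`
under the maximal compact subgroups at the infinite places:
`φ(k₁ g k₂) = τ(k₁)⁻¹ τ(k₂)⁻¹ φ(g)` (so that `R(φ)` preserves the functions of type `τ`). -/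
structure IsBiInvariant (𝔫 : Ideal (𝓞 K)) (τ : G K → ℂ) (φ : G K → ℂ) : Prop where
  level_right : ∀ u : G K, InLevelGroup 𝔫 u → ∀ g : G K, φ (g * u) = φ g
  level_left : ∀ u : G K, InLevelGroup 𝔫 u → ∀ g : G K, φ (u * g) = φ g
  arch_right : ∀ (w : InfinitePlace K) (k : G K), IsArchCompact w k →
    ∀ g : G K, φ (g * k) = (τ k)⁻¹ * φ g
  arch_left : ∀ (w : InfinitePlace K) (k : G K), IsArchCompact w k →
    ∀ g : G K, φ (k * g) = (τ k)⁻¹ * φ g

/-- Test functions of level `𝔫` and `K_∞`-type `τ`: continuous, compactly supported on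
`GL₂(𝔸_K)`, smooth at infinity, bi-invariant under `U(𝔫)`, of type `τ` under `K_∞`. -/
structure IsTestFn (𝔫 : Ideal (𝓞 K)) (τ : G K → ℂ) (φ : G K → ℂ) : Prop where
  ktype : IsKType τ
  cont : Continuous φ
  supp : HasCompactSupport φ
  smooth : IsSmoothAtInf φ
  inv : IsBiInvariant 𝔫 τ φ

/-- Automorphic functions of level `𝔫` and `K_∞`-type `τ`: left invariant under `GL₂(K)`,
right invariant under `U(𝔫)` and under the generator `r` of the discrete ray, of type `τ` under
`K_∞` on the right (so they are functions on `GL₂(K) ⟨r⟩ \ GL₂(𝔸_K)`; the forms of A0 are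
invariant under all positive scalars at the infinite places, in particular under `r`, and have
the trivial type). -/
structure IsAutomorphicFn (𝔫 : Ideal (𝓞 K)) (τ : G K → ℂ) (r : G K) (e : G K → ℂ) : Prop where
  left_inv : ∀ (γ : GL (Fin 2) K) (g : G K), e (ratG γ * g) = e g
  level_inv : ∀ u : G K, InLevelGroup 𝔫 u → ∀ g : G K, e (g * u) = e g
  arch_compact : ∀ (w : InfinitePlace K) (k : G K), IsArchCompact w k →
    ∀ g : G K, e (g * k) = τ k * e g
  ray : ∀ g : G K, e (g * r) = e g

/-- Cusp functions of level `𝔫` and type `τ`: continuous bounded automorphic functions with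
vanishing constant term (`A0.IsCuspidalFn`).  No eigen-condition, no condition on the central
character beyond invariance under `r`. -/
structure IsCuspFn (𝔫 : Ideal (𝓞 K)) (τ : G K → ℂ) (r : G K) (e : G K → ℂ) : Prop where
  cont : Continuous e
  bdd : ∃ C : ℝ, ∀ g : G K, ‖e g‖ ≤ C
  aut : IsAutomorphicFn 𝔫 τ r e
  cuspidal : IsCuspidalFn e

/-- The functions killed by Eisenstein-killing test functions: continuous, left invariant under
`N(𝔸_K)` and under the diagonal matrices of `GL₂(K)`, right invariant under the generator of the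
discrete ray (the constant terms of the automorphic functions of the frame are of this kind). -/
structure IsBorelInvariantFn (Ψ : G K → ℂ) : Prop where
  cont : Continuous Ψ
  unip : ∀ (n : G K) (x : Adl K), (n : Matrix (Fin 2) (Fin 2) (Adl K)) = !![1, x; 0, 1] →
    ∀ g : G K, Ψ (n * g) = Ψ g
  torus : ∀ (t : GL (Fin 2) K) (a b : K), (t : Matrix (Fin 2) (Fin 2) K) = !![a, 0; 0, b] →
    ∀ g : G K, Ψ (ratG t * g) = Ψ g
  /-- right invariance under the generator of the discrete ray (v4, ruling R2) -/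
  ray : ∃ r : G K, IsRayGen r ∧ ∀ g : G K, Ψ (g * r) = Ψ g

/-! ## 5. Measures, operators, kernels

All measures are measures on `GL₂(𝔸_K)` for the Borel σ-algebra. -/

/-- The Borel σ-algebra of `GL₂(𝔸_K)` (local instance of this file). -/
local instance instMeasurableSpaceG : MeasurableSpace (G K) := borel (G K)

/-- `μ` is a (left and right) Haar measure on `GL₂(𝔸_K)` and `F` is a strict Borel fundamental
domain of finite volume for `GL₂(K)` in the slab (the shape of `T1.FundDomC` + `T1.UnimodC`). -/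
structure IsFrame (μ : Measure (G K)) (F : Set (G K)) : Prop where
  haar : μ.IsHaarMeasure
  right_inv : ∀ (g : G K) (A : Set (G K)), MeasurableSet A → μ ((fun x => x * g) ⁻¹' A) = μ A
  inv_inv : ∀ A : Set (G K), MeasurableSet A → μ ((fun x => x⁻¹) ⁻¹' A) = μ A
  meas : MeasurableSet F
  sub : F ⊆ slab K
  strict : ∀ g ∈ slab K, ∃! γ : GL (Fin 2) K, ratG γ * g ∈ F
  finite : μ F < ⊤

/-- The automorphism preserves the frame: it is a measure-preserving automorphism of
`GL₂(𝔸_K)` with inverse `onGinv`, compatible with `σ` on `GL₂(K)`, fixing the ray generator and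
preserving the slab, the level group and the compact subgroups at the infinite places.
(All of this is TRUE for every `AdelicAut` and a `σ`-stable level; T1.) -/
structure AutPreserves (s : AdelicAut K) (𝔫 : Ideal (𝓞 K)) (μ : Measure (G K)) (r : G K) :
    Prop where
  left_inverse : ∀ g : G K, s.onGinv (s.onG g) = g
  right_inverse : ∀ g : G K, s.onG (s.onGinv g) = g
  rat : ∀ γ : GL (Fin 2) K, s.onG (ratG γ) = ratG (s.onRat γ)
  cont : Continuous s.onG
  measure : ∀ A : Set (G K), MeasurableSet A → μ (s.onG ⁻¹' A) = μ A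
  ray : s.onG r = r
  slab : ∀ g : G K, g ∈ slab K ↔ s.onG g ∈ slab K
  level : ∀ u : G K, InLevelGroup 𝔫 u ↔ InLevelGroup 𝔫 (s.onG u)
  arch : ∀ k : G K, (∃ w, IsArchCompact w k) ↔ (∃ w, IsArchCompact w (s.onG k))

/-- The inner product on the fundamental domain. -/
def innerD (μ : Measure (G K)) (F : Set (G K)) (e f : G K → ℂ) : ℂ :=
  ∫ x in F, e x * conj (f x) ∂μ

/-- `(R(φ) e)(x) = ∫ φ(y) e(x y) dy` (= `T3.Rop`). -/
def Rconv (μ : Measure (G K)) (φ e : G K → ℂ) : G K → ℂ :=
  fun x => ∫ y, φ y * e (x * y) ∂μ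

/-- `(R(σ) e)(x) = e(σ⁻¹ x)`. -/
def Rsig (s : AdelicAut K) (e : G K → ℂ) : G K → ℂ :=
  fun x => e (s.onGinv x)

/-- Convolution `(φ₁ ⋆ φ₂)(g) = ∫ φ₁(y) φ₂(y⁻¹ g) dy`, so that `R(φ₁ ⋆ φ₂) = R(φ₁) R(φ₂)`. -/
def conv (μ : Measure (G K)) (φ₁ φ₂ : G K → ℂ) : G K → ℂ :=
  fun g => ∫ y, φ₁ y * φ₂ (y⁻¹ * g) ∂μ

/-- Periodisation along the discrete ray: `φ♭(g) = ∑_{m ∈ ℤ} φ(g rᵐ)`. -/
def flat (r : G K) (φ : G K → ℂ) : G K → ℂ :=
  fun g => ∑' m : ℤ, φ (g * r ^ m)

/-- The untwisted kernel `K_φ(x, y) = ∑_{γ ∈ GL₂(K)} φ♭(x⁻¹ γ y)`. -/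
def ker0 (r : G K) (φ : G K → ℂ) (x y : G K) : ℂ :=
  ∑' γ : GL (Fin 2) K, flat r φ (x⁻¹ * ratG γ * y)

/-- The twisted kernel `K_φ^σ(x, y) = ∑_{δ ∈ GL₂(K)} φ♭(x⁻¹ δ σ(y))`. -/
def twKer (r : G K) (s : AdelicAut K) (φ : G K → ℂ) (x y : G K) : ℂ :=
  ∑' δ : GL (Fin 2) K, flat r φ (x⁻¹ * ratG δ * s.onG y)

/-- The diagonal coefficient `⟨R(φ) R(σ) e, e⟩`. -/
def diagCoeff (s : AdelicAut K) (μ : Measure (G K)) (F : Set (G K)) (φ e : G K → ℂ) : ℂ :=
  innerD μ F (Rconv μ φ (Rsig s e)) e

/-- An orthonormal sequence of cusp functions, ZERO VECTORS ALLOWED, which is complete for the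
cusp functions.  (Exists by separability and Gram--Schmidt; if the space of cusp functions has
finite dimension the sequence is padded by zeros.) -/
structure IsCuspONB (𝔫 : Ideal (𝓞 K)) (τ : G K → ℂ) (r : G K) (μ : Measure (G K))
    (F : Set (G K)) (e : ℕ → G K → ℂ) : Prop where
  cusp : ∀ i, IsCuspFn 𝔫 τ r (e i)
  orth : ∀ i j, i ≠ j → innerD μ F (e i) (e j) = 0
  norm : ∀ i, innerD μ F (e i) (e i) = 1 ∨ ∀ g : G K, e i g = 0
  complete : ∀ f : G K → ℂ, IsCuspFn 𝔫 τ r f →
    HasSum (fun i => ‖innerD μ F f (e i)‖ ^ 2) (innerD μ F f f).re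

/-- **Eisenstein-killing, operator form** (helper261, after Lindenstrauss–Venkatesh):
`R(φ)` annihilates every continuous function which is left invariant under `N(𝔸_K) T(K)`.
(`T3.EKKillC` : `T3.IsEK ν φ α → ` this.) -/
def IsEK (μ : Measure (G K)) (φ : G K → ℂ) : Prop :=
  ∀ Ψ : G K → ℂ, IsBorelInvariantFn Ψ → ∀ x : G K, Rconv μ φ Ψ x = 0

/-- The adjoint test function `φ*(g) = conj φ(g⁻¹)`. -/
def adjointFn (φ : G K → ℂ) : G K → ℂ := fun g => conj (φ g⁻¹)

/-! ## 6. σ-conjugacy -/

/-- `δ' = g⁻¹ δ σ(g)` for some `g ∈ GL₂(K)`. -/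
def TwConj (s : AdelicAut K) (δ δ' : GL (Fin 2) K) : Prop :=
  ∃ g : GL (Fin 2) K, δ' = g⁻¹ * δ * s.onRat g

theorem twConj_refl (s : AdelicAut K) (δ : GL (Fin 2) K) : TwConj s δ δ :=
  ⟨1, by simp⟩

theorem twConj_symm (s : AdelicAut K) {δ δ' : GL (Fin 2) K} (h : TwConj s δ δ') :
    TwConj s δ' δ := by
  obtain ⟨g, rfl⟩ := h
  exact ⟨g⁻¹, by simp [mul_assoc]⟩

theorem twConj_trans (s : AdelicAut K) {δ δ' δ'' : GL (Fin 2) K} (h : TwConj s δ δ')
    (h' : TwConj s δ' δ'') : TwConj s δ δ'' := by
  obtain ⟨g, rfl⟩ := h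
  obtain ⟨g', rfl⟩ := h'
  exact ⟨g * g', by simp [mul_assoc]⟩

/-- The setoid of σ-conjugacy on `GL₂(K)`. -/
def twSetoid (s : AdelicAut K) : Setoid (GL (Fin 2) K) where
  r := TwConj s
  iseqv := ⟨twConj_refl s, twConj_symm s, twConj_trans s⟩

/-- The σ-conjugacy classes of `GL₂(K)`. -/
abbrev TwClass (s : AdelicAut K) : Type := Quotient (twSetoid s)

/-- The σ-centraliser of `δ` in `GL₂(K)`. -/
def twStab (s : AdelicAut K) (δ : GL (Fin 2) K) : Subgroup (GL (Fin 2) K) where
  carrier := {g | g⁻¹ * δ * s.onRat g = δ}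
  one_mem' := by simp
  mul_mem' := by
    intro a b ha hb
    simp only [Set.mem_setOf_eq] at ha hb ⊢
    calc (a * b)⁻¹ * δ * s.onRat (a * b)
        = b⁻¹ * (a⁻¹ * δ * s.onRat a) * s.onRat b := by simp [mul_assoc]
      _ = δ := by rw [ha, hb]
  inv_mem' := by
    intro a ha
    simp only [Set.mem_setOf_eq] at ha ⊢
    calc a⁻¹⁻¹ * δ * s.onRat a⁻¹
        = a * (a⁻¹ * δ * s.onRat a) * (s.onRat a)⁻¹ := by rw [ha]; simp
      _ = δ := by simp [mul_assoc]

/-- `Fδ` is a strict Borel fundamental domain in the slab for the σ-centraliser `G^σ_δ(K)`. -/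
structure IsTwDomain (s : AdelicAut K) (δ : GL (Fin 2) K) (Fδ : Set (G K)) : Prop where
  meas : MeasurableSet Fδ
  sub : Fδ ⊆ slab K
  strict : ∀ g ∈ slab K, ∃! γ : twStab s δ, ratG (γ : GL (Fin 2) K) * g ∈ Fδ

/-- The summand of the twisted kernel on the diagonal: `x ↦ φ♭(x⁻¹ δ σ(x))`. -/
def twTerm (r : G K) (s : AdelicAut K) (φ : G K → ℂ) (δ : GL (Fin 2) K) (x : G K) : ℂ :=
  flat r φ (x⁻¹ * ratG δ * s.onG x)

/-- `γ ∈ GL₂(K)` is elliptic regular over the subfield `k`: its characteristic polynomial is the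
image of an irreducible polynomial with coefficients in `k`. -/
def IsEllRegOver (k : Subfield K) (γ : GL (Fin 2) K) : Prop :=
  ∃ Q : Polynomial k, Irreducible Q ∧
    Q.map (algebraMap k K) = (γ : Matrix (Fin 2) (Fin 2) K).charpoly

/-- `φ` is σ-regular: the diagonal of its twisted kernel only meets σ-conjugacy classes whose
norm is elliptic regular over the fixed field. -/
def IsTwRegular (s : AdelicAut K) (l : ℕ) (k : Subfield K) (φ : G K → ℂ) : Prop :=
  ∀ (x : G K) (δ : GL (Fin 2) K) (z : G K), IsCentralRay z →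
    φ (x⁻¹ * ratG δ * s.onG x * z) ≠ 0 → IsEllRegOver k (s.normUpTo l δ)

/-! ## 7. Regular Iwahori support (the concrete source of σ-regularity) -/

/-- `w'` is the image of the place `w` under `σ`. -/
def PlaceRel (s : AdelicAut K) (w w' : HeightOneSpectrum (𝓞 K)) : Prop :=
  w'.asIdeal = Ideal.map (NumberField.RingOfIntegers.mapRingEquiv s.σ) w.asIdeal

/-- The component of `g` at `w` lies in the Iwahori subgroup (integral, integral inverse, lower
left entry in the maximal ideal). -/
def InIwahori (w : HeightOneSpectrum (𝓞 K)) (g : G K) : Prop :=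
  IsIntegralAt w g ∧ IsIntegralAt w g⁻¹ ∧ Valued.v (finComp w g 1 0) < 1

/-- The component of `g` at `w` lies in `I_w diag(ϖ^m, 1) I_w`. -/
def InIwahoriCoset (w : HeightOneSpectrum (𝓞 K)) (m : ℕ) (g : G K) : Prop :=
  ∃ (k₁ k₂ t : G K) (c : w.adicCompletion K),
    InIwahori w k₁ ∧ InIwahori w k₂ ∧ Valued.v c = WithZero.exp (-(m : ℤ)) ∧
    finComp w t = !![c, 0; 0, 1] ∧ finComp w g = finComp w (k₁ * t * k₂)

/-- `g` and `h` have the same components at all infinite places and at all finite places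
outside `O`. -/
def AgreeOutside (O : Set (HeightOneSpectrum (𝓞 K))) (g h : G K) : Prop :=
  (∀ w : InfinitePlace K, infComp w g = infComp w h) ∧
    ∀ v : HeightOneSpectrum (𝓞 K), v ∉ O → finComp v g = finComp v h

/-- The support of `φ` is regular of depth `m` along the `σ`-orbit `o 0, …, o (l-1)` (a place
of the fixed field which splits completely): every point of the support lies in
`I diag(ϖ^m,1) I` at `o 0`, in the Iwahori subgroup at the other places of the orbit, and agrees
outside the orbit with an element of the compact set `C`. -/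
def HasRegularSupport (l : ℕ) (o : ℕ → HeightOneSpectrum (𝓞 K)) (m : ℕ) (C : Set (G K))
    (φ : G K → ℂ) : Prop :=
  ∀ g : G K, φ g ≠ 0 →
    InIwahoriCoset (o 0) m g ∧ (∀ j : ℕ, 0 < j → j < l → InIwahori (o j) g) ∧
      ∃ h ∈ C, AgreeOutside {v | ∃ j < l, v = o j} g h

/-! ## 8. THE TOWER PROPS -/

/-- **STF-σ (twisted trace identity).**  For a product of two Eisenstein-killing test
functions the diagonal coefficients of `R(φ₁ ⋆ φ₂) R(σ)` in an orthonormal basis of cusp
functions are absolutely summable, the diagonal of the twisted kernel is integrable on the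
fundamental domain, and the two are equal.  (No continuous term: EK.) -/
def STFsigma (s : AdelicAut K) (𝔫 : Ideal (𝓞 K)) (τ : G K → ℂ) : Prop :=
  ∀ (μ : Measure (G K)) (F : Set (G K)) (r : G K), IsFrame μ F → IsRayGen r →
    AutPreserves s 𝔫 μ r →
    ∀ e : ℕ → G K → ℂ, IsCuspONB 𝔫 τ r μ F e →
    ∀ φ₁ φ₂ : G K → ℂ, IsTestFn 𝔫 τ φ₁ → IsTestFn 𝔫 τ φ₂ →
      IsEK μ φ₁ → IsEK μ (adjointFn φ₁) → IsEK μ φ₂ → IsEK μ (adjointFn φ₂) →
      Summable (fun i => diagCoeff s μ F (conv μ φ₁ φ₂) (e i)) ∧
      IntegrableOn (fun x => twKer r s (conv μ φ₁ φ₂) x x) F μ ∧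
      ∑' i, diagCoeff s μ F (conv μ φ₁ φ₂) (e i)
        = ∫ x in F, twKer r s (conv μ φ₁ φ₂) x x ∂μ

/-- **Unfolding of the geometric side.**  For a σ-regular test function only finitely many
σ-conjugacy classes meet the diagonal, and the diagonal integral of the twisted kernel is the
sum over these classes of the integral of `x ↦ φ♭(x⁻¹ δ σ(x))` over a fundamental domain of the
σ-centraliser `G^σ_δ(K)` in the slab (any representative `δ`, any fundamental domain). -/
def GeomUnfold (s : AdelicAut K) (l : ℕ) (k : Subfield K) (𝔫 : Ideal (𝓞 K)) (τ : G K → ℂ) :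
    Prop :=
  ∀ (μ : Measure (G K)) (F : Set (G K)) (r : G K), IsFrame μ F → IsRayGen r →
    AutPreserves s 𝔫 μ r →
    ∀ φ : G K → ℂ, IsTestFn 𝔫 τ φ → IsTwRegular s l k φ →
      {c : TwClass s | ∃ δ : GL (Fin 2) K, Quotient.mk (twSetoid s) δ = c ∧
          ∃ x : G K, twTerm r s φ δ x ≠ 0}.Finite ∧
      ∀ (rep : TwClass s → GL (Fin 2) K) (Fc : TwClass s → Set (G K)),
        (∀ c, Quotient.mk (twSetoid s) (rep c) = c) →
        (∀ c, IsTwDomain s (rep c) (Fc c)) →
        (∀ c, IntegrableOn (twTerm r s φ (rep c)) (Fc c) μ) ∧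
        ∫ x in F, twKer r s φ x x ∂μ
          = ∑ᶠ c : TwClass s, ∫ x in Fc c, twTerm r s φ (rep c) x ∂μ

/-- **Regular Iwahori support gives σ-regularity.**  (Flicker's device; product formula.)
Steps: (a) for `g = x⁻¹ δ σ(x) z` one has `g σ(g) ⋯ σ^{l-1}(g) = x⁻¹ N(δ) x z^l`; (b) an element
of `I diag(ϖ^m,1) I`, `m ≥ 1`, has eigenvalues of valuations `0` and `m`; (c) a compact set
bounds the quotient of the eigenvalues at every place and makes it a unit at almost all places;
(d) if the characteristic polynomial of `N(δ)` were reducible over `k`, the product formula for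
the quotient of its roots would fail for `m` large.  [F] §1; memo helper261 FACT 4. -/
def RegularOfIwahori (s : AdelicAut K) (l : ℕ) (k : Subfield K) : Prop :=
  IsCyclicOfDegree s l k →
  ∀ (o : ℕ → HeightOneSpectrum (𝓞 K)) (C : Set (G K)), IsCompact C →
    (∀ j : ℕ, PlaceRel s (o j) (o (j + 1))) → (∀ j : ℕ, 0 < j → j < l → o j ≠ o 0) →
    ∃ m₀ : ℕ, ∀ m : ℕ, m₀ ≤ m → ∀ φ : G K → ℂ,
      HasRegularSupport l o m C φ → IsTwRegular s l k φ

/-- The tower Prop of T5 for the automorphism `s` of order `l` with fixed field `k`, level `𝔫`,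
`K_∞`-type `τ`. -/
structure Tower (s : AdelicAut K) (l : ℕ) (k : Subfield K) (𝔫 : Ideal (𝓞 K)) (τ : G K → ℂ) :
    Prop where
  stf : STFsigma s 𝔫 τ
  unfold : GeomUnfold s l k 𝔫 τ
  regular : RegularOfIwahori s l k

/-! ## 8a. The instances `τ = 1` and `σ = id` (the frame of T4), and the input from T2 -/

theorem isKType_triv : IsKType (trivType : G K → ℂ) :=
  ⟨fun _ _ _ => by simp [trivType], fun _ _ _ _ _ => by simp [trivType],
    fun _ => continuousOn_const⟩

theorem onG_id (g : G K) : (AdelicAut.id K).onG g = g := by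
  ext i j
  rfl

theorem onGinv_id (g : G K) : (AdelicAut.id K).onGinv g = g := by
  ext i j
  rfl

theorem onRat_id (γ : GL (Fin 2) K) : (AdelicAut.id K).onRat γ = γ := by
  ext i j
  rfl

/-- The trivial automorphism is cyclic of degree `1` with fixed field `K`. -/
theorem isCyclicOfDegree_id : IsCyclicOfDegree (AdelicAut.id K) 1 ⊤ :=
  ⟨Nat.one_pos, fun _ => rfl, fun _ => ⟨fun _ => rfl, fun _ => Subfield.mem_top _⟩,
    fun j h0 h1 => absurd h1 (by omega)⟩

/-- The trivial automorphism preserves every frame. -/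
theorem autPreserves_id (𝔫 : Ideal (𝓞 K)) (μ : Measure (G K)) (r : G K) :
    AutPreserves (AdelicAut.id K) 𝔫 μ r where
  left_inverse := fun g => by rw [onG_id, onGinv_id]
  right_inverse := fun g => by rw [onGinv_id, onG_id]
  rat := fun γ => by rw [onG_id, onRat_id]
  cont := by
    have h : ((AdelicAut.id K).onG : G K → G K) = fun g => g := funext onG_id
    rw [h]
    exact continuous_id
  measure := fun A _ => by
    have h : ((AdelicAut.id K).onG : G K → G K) = fun g => g := funext onG_id
    rw [h]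
    rfl
  ray := onG_id r
  slab := fun g => by rw [onG_id]
  level := fun u => by rw [onG_id]
  arch := fun k => by rw [onG_id]

/-- **Existence of the orthonormal sequence (interface Prop, not a leaf of T5; chief R3: leaf
T7.C0).**  For every frame there is an orthonormal sequence (zero vectors allowed) of cusp
functions of level `𝔫` and type `τ`, invariant under the ray generator `r`, which is complete
(Parseval for every such cusp function).  ELEMENTARY: `L²(F)` is separable, Gram--Schmidt; no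
spectral theory, no eigen-property.  The class is larger than the class of `T2.IsCuspFn` (which
is invariant under the positive scalars at EVERY infinite place); a sequence adapted to the
projector onto that class is obtained from `T2.CuspSpec` and Gram--Schmidt on the complement. -/
def CuspONBExistsC (𝔫 : Ideal (𝓞 K)) (τ : G K → ℂ) : Prop :=
  ∀ (μ : Measure (G K)) (F : Set (G K)) (r : G K), IsFrame μ F → IsRayGen r →
    ∃ e : ℕ → G K → ℂ, IsCuspONB 𝔫 τ r μ F e

/-! ## 9. SUB-LEAVES

Every leaf is a closed Prop, TRUE as stated (architect's claim; referees: helper22 / helper11).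
A leaf may be delivered conditionally on Props of T1 / T2 / T3 (`theorem leafX_of : T1.… → LeafX`).
References: [GJ] Gelbart–Jacquet, Forms of GL(2) from the analytic point of view, §§1–2, 6;
[Go] Godement, Notes on Jacquet–Langlands theory, §3; [L] Langlands, Base change for GL(2),
§4, §10; [F] Flicker, Regular trace formula and base change lifting, §1; [LV]
Lindenstrauss–Venkatesh, GAFA 17 (2007), §§3–4; memo origin/helper261 coord/LT-A3-EK-helper261.md;
memo origin/helper14 coord/LT-T3-helper14.md. -/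

/-- **T5.01 (abstract; measure theory only).**  On a finite measure space: if `K₁, K₂` are
square-integrable kernels, `e` is an orthogonal sequence of bounded continuous functions each of
which has norm `1` or vanishes identically, and the operator with kernel `K₁` maps `L²` into
functions which satisfy Parseval's identity for `e`, then the diagonal coefficients of the
composite operator in `e` are absolutely summable with sum `∬ K₁(x,z) K₂(z,x)`.  (Trace of a
product of two Hilbert–Schmidt operators, computed in a basis of a subspace containing the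
range; the zero vectors contribute nothing.)  [Go] §3, [GJ] §1. -/
def LeafAbstractTrace (K : Type) [Field K] [NumberField K] : Prop :=
  ∀ (μ : Measure (G K)) (F : Set (G K)), μ F < ⊤ →
    ∀ (K₁ K₂ : G K → G K → ℂ) (e : ℕ → G K → ℂ),
      (∀ i j, i ≠ j → innerD μ F (e i) (e j) = 0) →
      (∀ i, innerD μ F (e i) (e i) = 1 ∨ ∀ g : G K, e i g = 0) →
      (∀ i, Continuous (e i) ∧ ∃ C : ℝ, ∀ g : G K, ‖e i g‖ ≤ C) →
      MemLp (fun p : G K × G K => K₁ p.1 p.2) 2 ((μ.restrict F).prod (μ.restrict F)) →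
      MemLp (fun p : G K × G K => K₂ p.1 p.2) 2 ((μ.restrict F).prod (μ.restrict F)) →
      (∀ f : G K → ℂ, MemLp f 2 (μ.restrict F) →
        HasSum (fun i => ‖innerD μ F (fun x => ∫ z in F, K₁ x z * f z ∂μ) (e i)‖ ^ 2)
          (innerD μ F (fun x => ∫ z in F, K₁ x z * f z ∂μ)
            (fun x => ∫ z in F, K₁ x z * f z ∂μ)).re) →
      Summable (fun i => innerD μ F
          (fun x => ∫ z in F, K₁ x z * (∫ y in F, K₂ z y * e i y ∂μ) ∂μ) (e i)) ∧
        IntegrableOn (fun x => ∫ z in F, K₁ x z * K₂ z x ∂μ) F μ ∧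
        ∑' i, innerD μ F
            (fun x => ∫ z in F, K₁ x z * (∫ y in F, K₂ z y * e i y ∂μ) ∂μ) (e i)
          = ∫ x in F, (∫ z in F, K₁ x z * K₂ z x ∂μ) ∂μ

/-- The statement of T5.01 in Spec v3 (strictly orthonormal sequence; proved by helper90,
helper632, helper752, helper572).  NOT used by the tower; kept for the owners of T5.01. -/
def LeafAbstractTraceStrict (K : Type) [Field K] [NumberField K] : Prop :=
  ∀ (μ : Measure (G K)) (F : Set (G K)), μ F < ⊤ →
    ∀ (K₁ K₂ : G K → G K → ℂ) (e : ℕ → G K → ℂ),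
      (∀ i j, innerD μ F (e i) (e j) = if i = j then 1 else 0) →
      (∀ i, Continuous (e i) ∧ ∃ C : ℝ, ∀ g : G K, ‖e i g‖ ≤ C) →
      MemLp (fun p : G K × G K => K₁ p.1 p.2) 2 ((μ.restrict F).prod (μ.restrict F)) →
      MemLp (fun p : G K × G K => K₂ p.1 p.2) 2 ((μ.restrict F).prod (μ.restrict F)) →
      (∀ f : G K → ℂ, MemLp f 2 (μ.restrict F) →
        HasSum (fun i => ‖innerD μ F (fun x => ∫ z in F, K₁ x z * f z ∂μ) (e i)‖ ^ 2)
          (innerD μ F (fun x => ∫ z in F, K₁ x z * f z ∂μ)
            (fun x => ∫ z in F, K₁ x z * f z ∂μ)).re) →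
      Summable (fun i => innerD μ F
          (fun x => ∫ z in F, K₁ x z * (∫ y in F, K₂ z y * e i y ∂μ) ∂μ) (e i)) ∧
        IntegrableOn (fun x => ∫ z in F, K₁ x z * K₂ z x ∂μ) F μ ∧
        ∑' i, innerD μ F
            (fun x => ∫ z in F, K₁ x z * (∫ y in F, K₂ z y * e i y ∂μ) ∂μ) (e i)
          = ∫ x in F, (∫ z in F, K₁ x z * K₂ z x ∂μ) ∂μ

/-- **T5.02 (Hilbert–Schmidt, untwisted kernel) = T3.19 `EKKernel` in the frame of T5.**  For an
Eisenstein-killing test function (smooth at infinity) whose adjoint is Eisenstein-killing, the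
kernel
`∑_γ φ♭(x⁻¹ γ y)` is square-integrable on `F × F`.  Inputs: reduction theory (`T1.ReductionC`,
`T1.SiegelSepC`, `T1.SiegelCompactC`, `T1.SiegelVolC`), Poisson summation over `N(K)`
(`T3.PoissonC`); the term `ξ = 0` vanishes by `IsEK` ([LV] §3; memo helper261 §5 (a); [Go] §3). -/
def LeafHS0 (𝔫 : Ideal (𝓞 K)) (τ : G K → ℂ) : Prop :=
  ∀ (μ : Measure (G K)) (F : Set (G K)) (r : G K), IsFrame μ F → IsRayGen r →
    ∀ φ : G K → ℂ, IsTestFn 𝔫 τ φ → IsEK μ φ → IsEK μ (adjointFn φ) →
      MemLp (fun p : G K × G K => ker0 r φ p.1 p.2) 2 ((μ.restrict F).prod (μ.restrict F))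

/-- **T5.03 (Hilbert–Schmidt, twisted kernel).**  The same for `∑_δ φ♭(x⁻¹ δ σ(y))`; follows
from T5.02 because `σ` preserves the measure and maps strict fundamental domains in the slab to
strict fundamental domains in the slab. -/
def LeafHS (s : AdelicAut K) (𝔫 : Ideal (𝓞 K)) (τ : G K → ℂ) : Prop :=
  ∀ (μ : Measure (G K)) (F : Set (G K)) (r : G K), IsFrame μ F → IsRayGen r →
    AutPreserves s 𝔫 μ r →
    ∀ φ : G K → ℂ, IsTestFn 𝔫 τ φ → IsEK μ φ → IsEK μ (adjointFn φ) →
      MemLp (fun p : G K × G K => twKer r s φ p.1 p.2) 2 ((μ.restrict F).prod (μ.restrict F))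

/-- **T5.04 (range in the cusp functions).**  For an Eisenstein-killing test function `φ` and
`f ∈ L²(F)`, the function `x ↦ ∫_F K_φ(x,z) f(z) dz` is a cusp function (continuous, bounded,
automorphic, vanishing constant term).  `T3.EKCuspC` + the estimate of T5.02. -/
def LeafRange (𝔫 : Ideal (𝓞 K)) (τ : G K → ℂ) : Prop :=
  ∀ (μ : Measure (G K)) (F : Set (G K)) (r : G K), IsFrame μ F → IsRayGen r →
    ∀ φ : G K → ℂ, IsTestFn 𝔫 τ φ → IsEK μ φ → IsEK μ (adjointFn φ) →
      ∀ f : G K → ℂ, MemLp f 2 (μ.restrict F) →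
        IsCuspFn 𝔫 τ r (fun x => ∫ z in F, ker0 r φ x z * f z ∂μ)

/-- **T5.05 (the operator is the kernel operator).**  For test functions `φ₁, φ₂` and a cusp
function `e`: `⟨R(φ₁ ⋆ φ₂) R(σ) e, e⟩ = ⟨K_{φ₁} K^σ_{φ₂} e, e⟩` (Fubini; unfolding over `GL₂(K)`
and over the discrete ray: `GL₂(𝔸_K) = ⨆_m slab · rᵐ`, `slab = ⨆_γ γ F`).  [L] §10, [GJ] §1. -/
def LeafCoeff (s : AdelicAut K) (𝔫 : Ideal (𝓞 K)) (τ : G K → ℂ) : Prop :=
  ∀ (μ : Measure (G K)) (F : Set (G K)) (r : G K), IsFrame μ F → IsRayGen r →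
    AutPreserves s 𝔫 μ r →
    ∀ φ₁ φ₂ : G K → ℂ, IsTestFn 𝔫 τ φ₁ → IsTestFn 𝔫 τ φ₂ →
      ∀ e : G K → ℂ, IsCuspFn 𝔫 τ r e →
        diagCoeff s μ F (conv μ φ₁ φ₂) e
          = innerD μ F
              (fun x => ∫ z in F, ker0 r φ₁ x z * (∫ y in F, twKer r s φ₂ z y * e y ∂μ) ∂μ) e

/-- **T5.06 (composition of kernels on the diagonal).**
`∑_δ (φ₁ ⋆ φ₂)♭(x⁻¹ δ σ(x)) = ∫_F K_{φ₁}(x,z) K^σ_{φ₂}(z,x) dz` for every `x`. -/
def LeafDiag (s : AdelicAut K) (𝔫 : Ideal (𝓞 K)) (τ : G K → ℂ) : Prop :=
  ∀ (μ : Measure (G K)) (F : Set (G K)) (r : G K), IsFrame μ F → IsRayGen r →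
    AutPreserves s 𝔫 μ r →
    ∀ φ₁ φ₂ : G K → ℂ, IsTestFn 𝔫 τ φ₁ → IsTestFn 𝔫 τ φ₂ →
      ∀ x : G K,
        twKer r s (conv μ φ₁ φ₂) x x = ∫ z in F, ker0 r φ₁ x z * twKer r s φ₂ z x ∂μ

/-- **T5.07 (finiteness and integrability for σ-regular test functions).**  Only finitely many
σ-conjugacy classes meet the diagonal, and `x ↦ φ♭(x⁻¹ δ σ(x))` is integrable on every strict
fundamental domain of the σ-centraliser in the slab (the σ-centraliser of `δ` with elliptic
regular norm `γ` is the multiplicative group of the quadratic extension `L = k[γ]` of the fixed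
field, `L^× \ 𝔸_L^{×,1}` is compact (`T1.FujisakiC` for `L`, cf. `T1.EllipticCompactC`), and the
σ-conjugacy class of `δ` is closed; the class of `δ` is determined by the class of its norm:
`T6.NormInjC`).  [L] §4 Lemma 4.2, §10; [F] §1. -/
def LeafTwFinite (s : AdelicAut K) (l : ℕ) (k : Subfield K) (𝔫 : Ideal (𝓞 K)) (τ : G K → ℂ) :
    Prop :=
  IsCyclicOfDegree s l k →
  ∀ (μ : Measure (G K)) (F : Set (G K)) (r : G K), IsFrame μ F → IsRayGen r →
    AutPreserves s 𝔫 μ r →
    ∀ φ : G K → ℂ, IsTestFn 𝔫 τ φ → IsTwRegular s l k φ →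
      {c : TwClass s | ∃ δ : GL (Fin 2) K, Quotient.mk (twSetoid s) δ = c ∧
          ∃ x : G K, twTerm r s φ δ x ≠ 0}.Finite ∧
      ∀ (δ : GL (Fin 2) K) (Fδ : Set (G K)), IsTwDomain s δ Fδ →
        IntegrableOn (twTerm r s φ δ) Fδ μ

/-- **T5.08 (unfolding).**  Given the finiteness and integrability of T5.07, the diagonal
integral of the twisted kernel over `F` is the finite sum over the σ-conjugacy classes of the
integrals over strict fundamental domains of the σ-centralisers.  (Unfolding for the countable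
group `GL₂(K)` acting on itself by σ-conjugation.) -/
def LeafTwUnfold (s : AdelicAut K) (𝔫 : Ideal (𝓞 K)) (τ : G K → ℂ) : Prop :=
  ∀ (μ : Measure (G K)) (F : Set (G K)) (r : G K), IsFrame μ F → IsRayGen r →
    AutPreserves s 𝔫 μ r →
    ∀ φ : G K → ℂ, IsTestFn 𝔫 τ φ →
      {c : TwClass s | ∃ δ : GL (Fin 2) K, Quotient.mk (twSetoid s) δ = c ∧
          ∃ x : G K, twTerm r s φ δ x ≠ 0}.Finite →
      (∀ (δ : GL (Fin 2) K) (Fδ : Set (G K)), IsTwDomain s δ Fδ →
        IntegrableOn (twTerm r s φ δ) Fδ μ) →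
      ∀ (rep : TwClass s → GL (Fin 2) K) (Fc : TwClass s → Set (G K)),
        (∀ c, Quotient.mk (twSetoid s) (rep c) = c) →
        (∀ c, IsTwDomain s (rep c) (Fc c)) →
        ∫ x in F, twKer r s φ x x ∂μ
          = ∑ᶠ c : TwClass s, ∫ x in Fc c, twTerm r s φ (rep c) x ∂μ

/-! ## 10. THE TOPS (proved) -/

/-- STF-σ from its leaves. -/
theorem top_STF (s : AdelicAut K) (𝔫 : Ideal (𝓞 K)) (τ : G K → ℂ)
    (hA : LeafAbstractTrace K) (hHS0 : LeafHS0 𝔫 τ) (hHS : LeafHS s 𝔫 τ) (hR : LeafRange 𝔫 τ)
    (hC : LeafCoeff s 𝔫 τ) (hD : LeafDiag s 𝔫 τ) : STFsigma s 𝔫 τ := by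
  intro μ F r hF hr hP e he φ₁ φ₂ t₁ t₂ ek₁ ek₁' ek₂ ek₂'
  have h := hA μ F hF.finite (ker0 r φ₁) (twKer r s φ₂) e he.orth he.norm
    (fun i => ⟨(he.cusp i).cont, (he.cusp i).bdd⟩)
    (hHS0 μ F r hF hr φ₁ t₁ ek₁ ek₁') (hHS μ F r hF hr hP φ₂ t₂ ek₂ ek₂')
    (fun f hf => he.complete _ (hR μ F r hF hr φ₁ t₁ ek₁ ek₁' f hf))
  have e1 : (fun i => diagCoeff s μ F (conv μ φ₁ φ₂) (e i))
      = fun i => innerD μ F
          (fun x => ∫ z in F, ker0 r φ₁ x z * (∫ y in F, twKer r s φ₂ z y * e i y ∂μ) ∂μ)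
          (e i) :=
    funext fun i => hC μ F r hF hr hP φ₁ φ₂ t₁ t₂ (e i) (he.cusp i)
  have e2 : (fun x => twKer r s (conv μ φ₁ φ₂) x x)
      = fun x => ∫ z in F, ker0 r φ₁ x z * twKer r s φ₂ z x ∂μ :=
    funext fun x => hD μ F r hF hr hP φ₁ φ₂ t₁ t₂ x
  rw [e1, e2]
  exact h

/-- The unfolding from its leaves. -/
theorem top_Unfold (s : AdelicAut K) (l : ℕ) (k : Subfield K) (𝔫 : Ideal (𝓞 K)) (τ : G K → ℂ)
    (hcyc : IsCyclicOfDegree s l k)
    (hfin : LeafTwFinite s l k 𝔫 τ) (hunf : LeafTwUnfold s 𝔫 τ) : GeomUnfold s l k 𝔫 τ := by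
  intro μ F r hF hr hP φ t hreg
  obtain ⟨hf, hint⟩ := hfin hcyc μ F r hF hr hP φ t hreg
  exact ⟨hf, fun rep Fc hrep hFc =>
    ⟨fun c => hint (rep c) (Fc c) (hFc c), hunf μ F r hF hr hP φ t hf hint rep Fc hrep hFc⟩⟩

/-- **THE TOWER from its leaves.** -/
theorem top (s : AdelicAut K) (l : ℕ) (k : Subfield K) (𝔫 : Ideal (𝓞 K)) (τ : G K → ℂ)
    (hcyc : IsCyclicOfDegree s l k)
    (hA : LeafAbstractTrace K) (hHS0 : LeafHS0 𝔫 τ) (hHS : LeafHS s 𝔫 τ) (hR : LeafRange 𝔫 τ)
    (hC : LeafCoeff s 𝔫 τ) (hD : LeafDiag s 𝔫 τ)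
    (hfin : LeafTwFinite s l k 𝔫 τ) (hunf : LeafTwUnfold s 𝔫 τ)
    (hreg : RegularOfIwahori s l k) : Tower s l k 𝔫 τ :=
  ⟨top_STF s 𝔫 τ hA hHS0 hHS hR hC hD, top_Unfold s l k 𝔫 τ hcyc hfin hunf, hreg⟩

end Fermat.Agent.LT.T5

end

end
-- ===== PACK-END LT/T5/Spec.lean

-- ===== PACK-BEGIN LT/H415/AutPlaces.lean
section



/-!
# Row LT, asset AUT-UNIQUE (helper415): the places of the adele ring as place data

OFF-MAIN.  Mathlib only.
-/

set_option autoImplicit false

open IsDedekindDomain NumberField Filter Topology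

noncomputable section

namespace Fermat.Agent.LT.H415

/-! ## Continuity of `RestrictedProduct.single` -/

section Single

variable {ι : Type*} {R : ι → Type*} {S : ι → Type*} [∀ i, SetLike (S i) (R i)] (A : ∀ i, S i)
  [DecidableEq ι] [∀ i, Zero (R i)] [∀ i, ZeroMemClass (S i) (R i)]
  [∀ i, TopologicalSpace (R i)]

theorem continuous_rp_single415 (i : ι) : Continuous (RestrictedProduct.single A i) := by
  have hle : (Filter.cofinite : Filter ι) ≤ Filter.principal ({i}ᶜ : Set ι) := by
    rw [Filter.le_principal_iff]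
    exact (Set.finite_singleton i).compl_mem_cofinite
  let f : R i → RestrictedProduct R (fun j => (A j : Set (R j)))
      (Filter.principal ({i}ᶜ : Set ι)) :=
    fun a => ⟨Pi.single i a, by
      rw [Filter.eventually_principal]
      intro j hj
      rw [Pi.single_eq_of_ne hj]
      exact zero_mem _⟩
  have hf : Continuous f := by
    rw [RestrictedProduct.continuous_rng_of_principal]
    exact continuous_single i
  have h : RestrictedProduct.single A i = RestrictedProduct.inclusion R _ hle ∘ f := by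
    funext a
    ext j
    rfl
  rw [h]
  exact (RestrictedProduct.continuous_inclusion hle).comp hf

end Single

variable (K : Type*) [Field K] [NumberField K]

/-- The place datum of a finite place. -/
def finPlace (v : HeightOneSpectrum (𝓞 K)) :
    PlaceDatum (AdeleRing (𝓞 K) K) (v.adicCompletion K) := by
  classical
  exact
  { pr := (RestrictedProduct.evalRingHom
        (fun v : HeightOneSpectrum (𝓞 K) => v.adicCompletion K) v).comp
      (RingHom.snd (InfiniteAdeleRing K) (FiniteAdeleRing (𝓞 K) K))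
    sec := fun a => ((0 : InfiniteAdeleRing K),
      (RestrictedProduct.single
        (fun v : HeightOneSpectrum (𝓞 K) => v.adicCompletionIntegers K) v a :
          FiniteAdeleRing (𝓞 K) K))
    cont_pr := (RestrictedProduct.continuous_eval v).comp continuous_snd
    cont_sec := continuous_const.prodMk
      (continuous_rp_single415 (fun v : HeightOneSpectrum (𝓞 K) => v.adicCompletionIntegers K) v)
    mul_sec_one := fun x => by
      refine Prod.ext (mul_zero _) ?_
      have h := RestrictedProduct.mul_single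
        (fun v : HeightOneSpectrum (𝓞 K) => v.adicCompletionIntegers K) v
        (1 : v.adicCompletion K) x.2
      rw [mul_one] at h
      exact h.symm
    pr_sec := fun a => RestrictedProduct.single_eq_same
      (fun v : HeightOneSpectrum (𝓞 K) => v.adicCompletionIntegers K) (i := v) a }

/-- The place datum of an infinite place. -/
def infPlace (w : InfinitePlace K) :
    PlaceDatum (AdeleRing (𝓞 K) K) w.Completion := by
  classical
  exact
  { pr := (Pi.evalRingHom (fun v : InfinitePlace K => v.Completion) w).comp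
      (RingHom.fst (InfiniteAdeleRing K) (FiniteAdeleRing (𝓞 K) K))
    sec := fun a => ((Pi.single w a : InfiniteAdeleRing K), (0 : FiniteAdeleRing (𝓞 K) K))
    cont_pr := (continuous_apply w).comp continuous_fst
    cont_sec := (continuous_single w).prodMk continuous_const
    mul_sec_one := fun x => by
      refine Prod.ext ?_ (mul_zero _)
      funext w'
      change x.1 w' * (Pi.single w (1 : w.Completion) : InfiniteAdeleRing K) w'
        = (Pi.single w (x.1 w) : InfiniteAdeleRing K) w'
      by_cases h : w' = w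
      · subst h
        rw [Pi.single_eq_same, Pi.single_eq_same, mul_one]
      · rw [Pi.single_eq_of_ne h, Pi.single_eq_of_ne h, mul_zero]
    pr_sec := fun a => Pi.single_eq_same w a }

@[simp] theorem finPlace_pr_apply (v : HeightOneSpectrum (𝓞 K)) (x : AdeleRing (𝓞 K) K) :
    (finPlace K v).pr x = x.2 v := rfl

@[simp] theorem infPlace_pr_apply (w : InfinitePlace K) (x : AdeleRing (𝓞 K) K) :
    (infPlace K w).pr x = x.1 w := rfl

theorem finPlace_pr_algebraMap (v : HeightOneSpectrum (𝓞 K)) (x : K) :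
    (finPlace K v).pr (algebraMap K (AdeleRing (𝓞 K) K) x) = (x : v.adicCompletion K) := rfl

theorem infPlace_pr_algebraMap (w : InfinitePlace K) (x : K) :
    (infPlace K w).pr (algebraMap K (AdeleRing (𝓞 K) K) x) = (x : w.Completion) := rfl

/-- Extensionality of adeles by place components. -/
theorem adele_ext415 {x y : AdeleRing (𝓞 K) K}
    (hf : ∀ v : HeightOneSpectrum (𝓞 K), (finPlace K v).pr x = (finPlace K v).pr y)
    (hi : ∀ w : InfinitePlace K, (infPlace K w).pr x = (infPlace K w).pr y) : x = y := by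
  refine Prod.ext (funext hi) ?_
  exact FiniteAdeleRing.ext K hf

end Fermat.Agent.LT.H415

end
end
-- ===== PACK-END LT/H415/AutPlaces.lean

-- ===== PACK-BEGIN LT/H942/AdelicComp.lean
section



/-!
# Row LT, towers T4/T5 — local components of `GL₂(𝔸_K)` are ring homomorphisms (helper942)

OFF-MAIN.  Imports Mathlib and the frozen vocabulary `LT/H556/A0.lean` (byte-identical copy of
origin/helper556@0fa0be5a0) only.

`A0.finComp v` and `A0.infComp w` are the entrywise images of the matrix of `g ∈ GL₂(𝔸_K)` under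
the ring homomorphisms `finProj942 v : 𝔸_K → K_v` and `infProj942 w : 𝔸_K → ℂ`.  Consequences:

* `finComp_mul942`, `finComp_one942`, `finComp_inv_mul942`, `finComp_mul_inv942`
  (and the same for `infComp`): the local components are multiplicative;
* `finComp_rat942`, `infComp_rat942`: the components of a rational matrix `γ ∈ GL₂(K)`;
* `det_finComp942`, `det_infComp942`: determinant of the component = component of the determinant;
* `trace_finComp_conj942`, `det_finComp_conj942` (and `inf`): trace and determinant of the local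
  components of a conjugate `g⁻¹ γ g`, `γ ∈ GL₂(K)`, `g ∈ GL₂(𝔸_K)`, are the images of
  `tr γ`, `det γ`;
* `norm_finProj_rat942`, `norm_infProj_rat942`: the norms of these images are the values of the
  finite place `FinitePlace.mk v`, resp. of the infinite place `w`;
* `isIntegralAt_iff_norm942`, `norm_det_eq_one_of_integral942`, `norm_trace_le_one_of_integral942`:
  integrality in terms of norms; an element of `GL₂(𝒪_v)` has determinant of norm `1` and trace of
  norm `≤ 1`.
-/

set_option autoImplicit false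

open IsDedekindDomain NumberField

noncomputable section

namespace Fermat.Agent.LT.H942

open Fermat.Agent.LT.H556.A0

variable {K : Type} [Field K] [NumberField K]

/-- The projection of the adele ring to the completion at the finite place `v`. -/
def finProj942 (v : HeightOneSpectrum (𝓞 K)) : Adl K →+* v.adicCompletion K where
  toFun a := a.2 v
  map_one' := rfl
  map_mul' _ _ := rfl
  map_zero' := rfl
  map_add' _ _ := rfl

/-- The projection of the adele ring to the completion at the infinite place `w`, followed by the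
embedding of the completion into `ℂ`. -/
def infProj942 (w : InfinitePlace K) : Adl K →+* ℂ :=
  (InfinitePlace.Completion.extensionEmbedding w).comp
    { toFun := fun a => a.1 w
      map_one' := rfl
      map_mul' := fun _ _ => rfl
      map_zero' := rfl
      map_add' := fun _ _ => rfl }

@[simp] theorem finProj942_apply (v : HeightOneSpectrum (𝓞 K)) (a : Adl K) :
    finProj942 v a = a.2 v := rfl

@[simp] theorem infProj942_apply (w : InfinitePlace K) (a : Adl K) :
    infProj942 w a = InfinitePlace.Completion.extensionEmbedding w (a.1 w) := rfl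

theorem finComp_eq_map942 (v : HeightOneSpectrum (𝓞 K)) (g : G K) :
    finComp v g = (g : Matrix (Fin 2) (Fin 2) (Adl K)).map (finProj942 v) := rfl

theorem infComp_eq_map942 (w : InfinitePlace K) (g : G K) :
    infComp w g = (g : Matrix (Fin 2) (Fin 2) (Adl K)).map (infProj942 w) := rfl

/-! ## Multiplicativity -/

theorem finComp_mul942 (v : HeightOneSpectrum (𝓞 K)) (g h : G K) :
    finComp v (g * h) = finComp v g * finComp v h := by
  rw [finComp_eq_map942, finComp_eq_map942, finComp_eq_map942, Units.val_mul, Matrix.map_mul]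

theorem infComp_mul942 (w : InfinitePlace K) (g h : G K) :
    infComp w (g * h) = infComp w g * infComp w h := by
  rw [infComp_eq_map942, infComp_eq_map942, infComp_eq_map942, Units.val_mul, Matrix.map_mul]

theorem finComp_one942 (v : HeightOneSpectrum (𝓞 K)) : finComp v (1 : G K) = 1 := by
  rw [finComp_eq_map942, Units.val_one]
  exact Matrix.map_one _ (map_zero _) (map_one _)

theorem infComp_one942 (w : InfinitePlace K) : infComp w (1 : G K) = 1 := by
  rw [infComp_eq_map942, Units.val_one]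
  exact Matrix.map_one _ (map_zero _) (map_one _)

theorem finComp_inv_mul942 (v : HeightOneSpectrum (𝓞 K)) (g : G K) :
    finComp v g⁻¹ * finComp v g = 1 := by
  rw [← finComp_mul942, inv_mul_cancel, finComp_one942]

theorem finComp_mul_inv942 (v : HeightOneSpectrum (𝓞 K)) (g : G K) :
    finComp v g * finComp v g⁻¹ = 1 := by
  rw [← finComp_mul942, mul_inv_cancel, finComp_one942]

theorem infComp_inv_mul942 (w : InfinitePlace K) (g : G K) :
    infComp w g⁻¹ * infComp w g = 1 := by
  rw [← infComp_mul942, inv_mul_cancel, infComp_one942]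

theorem infComp_mul_inv942 (w : InfinitePlace K) (g : G K) :
    infComp w g * infComp w g⁻¹ = 1 := by
  rw [← infComp_mul942, mul_inv_cancel, infComp_one942]

/-! ## Determinants and traces -/

theorem det_finComp942 (v : HeightOneSpectrum (𝓞 K)) (g : G K) :
    (finComp v g).det = finProj942 v (g : Matrix (Fin 2) (Fin 2) (Adl K)).det := by
  rw [finComp_eq_map942, RingHom.map_det]; rfl

theorem det_infComp942 (w : InfinitePlace K) (g : G K) :
    (infComp w g).det = infProj942 w (g : Matrix (Fin 2) (Fin 2) (Adl K)).det := by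
  rw [infComp_eq_map942, RingHom.map_det]; rfl

theorem trace_finComp942 (v : HeightOneSpectrum (𝓞 K)) (g : G K) :
    (finComp v g).trace = finProj942 v (g : Matrix (Fin 2) (Fin 2) (Adl K)).trace := by
  rw [finComp_eq_map942, AddMonoidHom.map_trace]

theorem trace_infComp942 (w : InfinitePlace K) (g : G K) :
    (infComp w g).trace = infProj942 w (g : Matrix (Fin 2) (Fin 2) (Adl K)).trace := by
  rw [infComp_eq_map942, AddMonoidHom.map_trace]

theorem det_finComp_ne_zero942 (v : HeightOneSpectrum (𝓞 K)) (g : G K) :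
    (finComp v g).det ≠ 0 := by
  intro h
  have := congrArg Matrix.det (finComp_mul_inv942 v g)
  rw [Matrix.det_mul, h, zero_mul, Matrix.det_one] at this
  exact zero_ne_one this

theorem det_infComp_ne_zero942 (w : InfinitePlace K) (g : G K) :
    (infComp w g).det ≠ 0 := by
  intro h
  have := congrArg Matrix.det (infComp_mul_inv942 w g)
  rw [Matrix.det_mul, h, zero_mul, Matrix.det_one] at this
  exact zero_ne_one this

/-! ## Rational matrices -/

/-- The diagonal embedding `GL₂(K) → GL₂(𝔸_K)` (`= T1.ratG K`, definitionally). -/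
def rat942 : GL (Fin 2) K →* G K :=
  Matrix.GeneralLinearGroup.map (algebraMap K (Adl K))

theorem finProj942_algebraMap (v : HeightOneSpectrum (𝓞 K)) (x : K) :
    finProj942 v (algebraMap K (Adl K) x) = algebraMap K (v.adicCompletion K) x := rfl

theorem infProj942_algebraMap (w : InfinitePlace K) (x : K) :
    infProj942 w (algebraMap K (Adl K) x) = w.embedding x := by
  rw [infProj942_apply]
  exact InfinitePlace.Completion.extensionEmbedding_coe w ((WithAbs.equiv w.1).symm x)

theorem finComp_rat942 (v : HeightOneSpectrum (𝓞 K)) (γ : GL (Fin 2) K) :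
    finComp v (rat942 γ) =
      (γ : Matrix (Fin 2) (Fin 2) K).map (algebraMap K (v.adicCompletion K)) := by
  ext i j
  rfl

theorem infComp_rat942 (w : InfinitePlace K) (γ : GL (Fin 2) K) :
    infComp w (rat942 γ) = (γ : Matrix (Fin 2) (Fin 2) K).map w.embedding := by
  ext i j
  show infProj942 w (algebraMap K (Adl K) ((γ : Matrix (Fin 2) (Fin 2) K) i j)) = _
  rw [infProj942_algebraMap]
  rfl

/-- Trace of the `v`-component of a conjugate of a rational matrix. -/
theorem trace_finComp_conj942 (v : HeightOneSpectrum (𝓞 K)) (γ : GL (Fin 2) K) (g : G K) :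
    (finComp v (g⁻¹ * rat942 γ * g)).trace =
      algebraMap K (v.adicCompletion K) (γ : Matrix (Fin 2) (Fin 2) K).trace := by
  rw [finComp_mul942, finComp_mul942, Matrix.trace_mul_comm, ← Matrix.mul_assoc,
    finComp_mul_inv942, Matrix.one_mul, finComp_rat942, ← AddMonoidHom.map_trace]

/-- Determinant of the `v`-component of a conjugate of a rational matrix. -/
theorem det_finComp_conj942 (v : HeightOneSpectrum (𝓞 K)) (γ : GL (Fin 2) K) (g : G K) :
    (finComp v (g⁻¹ * rat942 γ * g)).det =
      algebraMap K (v.adicCompletion K) (γ : Matrix (Fin 2) (Fin 2) K).det := by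
  have h1 : (finComp v g⁻¹).det * (finComp v g).det = 1 := by
    rw [← Matrix.det_mul, finComp_inv_mul942, Matrix.det_one]
  have h2 : (finComp v (rat942 γ)).det =
      algebraMap K (v.adicCompletion K) (γ : Matrix (Fin 2) (Fin 2) K).det := by
    rw [finComp_rat942, RingHom.map_det]; rfl
  rw [finComp_mul942, finComp_mul942, Matrix.det_mul, Matrix.det_mul, h2]
  linear_combination (algebraMap K (v.adicCompletion K) (γ : Matrix (Fin 2) (Fin 2) K).det) * h1

/-- Trace of the `w`-component of a conjugate of a rational matrix. -/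
theorem trace_infComp_conj942 (w : InfinitePlace K) (γ : GL (Fin 2) K) (g : G K) :
    (infComp w (g⁻¹ * rat942 γ * g)).trace =
      w.embedding (γ : Matrix (Fin 2) (Fin 2) K).trace := by
  rw [infComp_mul942, infComp_mul942, Matrix.trace_mul_comm, ← Matrix.mul_assoc,
    infComp_mul_inv942, Matrix.one_mul, infComp_rat942, ← AddMonoidHom.map_trace]

/-- Determinant of the `w`-component of a conjugate of a rational matrix. -/
theorem det_infComp_conj942 (w : InfinitePlace K) (γ : GL (Fin 2) K) (g : G K) :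
    (infComp w (g⁻¹ * rat942 γ * g)).det =
      w.embedding (γ : Matrix (Fin 2) (Fin 2) K).det := by
  have h1 : (infComp w g⁻¹).det * (infComp w g).det = 1 := by
    rw [← Matrix.det_mul, infComp_inv_mul942, Matrix.det_one]
  have h2 : (infComp w (rat942 γ)).det = w.embedding (γ : Matrix (Fin 2) (Fin 2) K).det := by
    rw [infComp_rat942, RingHom.map_det]; rfl
  rw [infComp_mul942, infComp_mul942, Matrix.det_mul, Matrix.det_mul, h2]
  linear_combination (w.embedding (γ : Matrix (Fin 2) (Fin 2) K).det) * h1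

/-! ## Norms -/

theorem norm_algebraMap_fin942 (v : HeightOneSpectrum (𝓞 K)) (x : K) :
    ‖algebraMap K (v.adicCompletion K) x‖ = FinitePlace.mk v x := rfl

omit [NumberField K] in
theorem norm_embedding_inf942 (w : InfinitePlace K) (x : K) : ‖w.embedding x‖ = w x :=
  InfinitePlace.norm_embedding_eq w x

theorem isIntegralAt_iff_norm942 (v : HeightOneSpectrum (𝓞 K)) (g : G K) :
    IsIntegralAt v g ↔ ∀ i j, ‖finComp v g i j‖ ≤ 1 := by
  unfold IsIntegralAt
  refine forall_congr' fun i => forall_congr' fun j => ?_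
  rw [HeightOneSpectrum.mem_adicCompletionIntegers, Valued.toNormedField.norm_le_one_iff]

/-- Ultrametric bound for the determinant of an integral `2 × 2` matrix. -/
theorem norm_det_le_one942 (v : HeightOneSpectrum (𝓞 K))
    (m : Matrix (Fin 2) (Fin 2) (v.adicCompletion K)) (hm : ∀ i j, Valued.v (m i j) ≤ 1) :
    Valued.v m.det ≤ 1 := by
  rw [Matrix.det_fin_two]
  have h1 : Valued.v (m 0 0 * m 1 1) ≤ 1 := by
    rw [map_mul]; exact mul_le_one' (hm 0 0) (hm 1 1)
  have h2 : Valued.v (m 0 1 * m 1 0) ≤ 1 := by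
    rw [map_mul]; exact mul_le_one' (hm 0 1) (hm 1 0)
  exact le_trans (Valuation.map_sub _ _ _) (max_le h1 h2)

/-- Ultrametric bound for the trace of an integral `2 × 2` matrix. -/
theorem norm_trace_le_one942 (v : HeightOneSpectrum (𝓞 K))
    (m : Matrix (Fin 2) (Fin 2) (v.adicCompletion K)) (hm : ∀ i j, Valued.v (m i j) ≤ 1) :
    Valued.v m.trace ≤ 1 := by
  rw [Matrix.trace_fin_two]
  exact le_trans (Valuation.map_add _ _ _) (max_le (hm 0 0) (hm 1 1))

/-- An element of `GL₂(𝒪_v)` has a determinant of valuation `1`. -/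
theorem valued_det_eq_one_of_integral942 (v : HeightOneSpectrum (𝓞 K)) (g : G K)
    (h1 : IsIntegralAt v g) (h2 : IsIntegralAt v g⁻¹) :
    Valued.v (finComp v g).det = 1 := by
  have hd1 : Valued.v (finComp v g).det ≤ 1 :=
    norm_det_le_one942 v _ fun i j =>
      (HeightOneSpectrum.mem_adicCompletionIntegers _ _ _).1 (h1 i j)
  have hd2 : Valued.v (finComp v g⁻¹).det ≤ 1 :=
    norm_det_le_one942 v _ fun i j =>
      (HeightOneSpectrum.mem_adicCompletionIntegers _ _ _).1 (h2 i j)
  have hmul : Valued.v (finComp v g).det * Valued.v (finComp v g⁻¹).det = 1 := by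
    rw [← map_mul, ← Matrix.det_mul, finComp_mul_inv942, Matrix.det_one, map_one]
  refine le_antisymm hd1 ?_
  by_contra hlt
  rw [not_le] at hlt
  have : Valued.v (finComp v g).det * Valued.v (finComp v g⁻¹).det < 1 := by
    calc Valued.v (finComp v g).det * Valued.v (finComp v g⁻¹).det
        ≤ Valued.v (finComp v g).det * 1 := mul_le_mul_right hd2 _
      _ = Valued.v (finComp v g).det := mul_one _
      _ < 1 := hlt
  rw [hmul] at this
  exact lt_irrefl _ this

theorem valued_trace_le_one_of_integral942 (v : HeightOneSpectrum (𝓞 K)) (g : G K)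
    (h1 : IsIntegralAt v g) : Valued.v (finComp v g).trace ≤ 1 :=
  norm_trace_le_one942 v _ fun i j =>
    (HeightOneSpectrum.mem_adicCompletionIntegers _ _ _).1 (h1 i j)

theorem norm_eq_one_iff_valued942 (v : HeightOneSpectrum (𝓞 K)) (x : v.adicCompletion K) :
    ‖x‖ = 1 ↔ Valued.v x = 1 := by
  constructor
  · intro h
    refine le_antisymm (Valued.toNormedField.norm_le_one_iff.1 h.le) ?_
    by_contra hlt
    rw [not_le] at hlt
    have := Valued.toNormedField.norm_lt_one_iff.2 hlt
    rw [h] at this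
    exact lt_irrefl _ this
  · intro h
    refine le_antisymm (Valued.toNormedField.norm_le_one_iff.2 h.le) ?_
    by_contra hlt
    rw [not_le] at hlt
    have := Valued.toNormedField.norm_lt_one_iff.1 hlt
    rw [h] at this
    exact lt_irrefl _ this

theorem norm_det_eq_one_of_integral942 (v : HeightOneSpectrum (𝓞 K)) (g : G K)
    (h1 : IsIntegralAt v g) (h2 : IsIntegralAt v g⁻¹) : ‖(finComp v g).det‖ = 1 :=
  (norm_eq_one_iff_valued942 v _).2 (valued_det_eq_one_of_integral942 v g h1 h2)

theorem norm_trace_le_one_of_integral942 (v : HeightOneSpectrum (𝓞 K)) (g : G K)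
    (h1 : IsIntegralAt v g) : ‖(finComp v g).trace‖ ≤ 1 :=
  Valued.toNormedField.norm_le_one_iff.2 (valued_trace_le_one_of_integral942 v g h1)

end Fermat.Agent.LT.H942

end

end
-- ===== PACK-END LT/H942/AdelicComp.lean

-- ===== PACK-BEGIN LT/H132/GLDiscrete.lean
section



/-!
# Row LT, tower T1 (basics) — helper132: `GL₂(K)` is discrete in `GL₂(𝔸_K)`

OFF-MAIN.  Mathlib + `LT/H767/AdeleDiscrete.lean` (helper767: `K` is discrete in `𝔸_K`).

* `glBox K n`   : the open neighbourhood `{g | ∀ i j, (g - 1) i j ∈ unitBox K}` of `1` in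
                  `GL n 𝔸_K`;
* `eq_one_of_mem_glBox` : the only rational point in it is `1`;
* `discreteTopology_glRange` : the image of `GL n K` in `GL n 𝔸_K` is a discrete subgroup;
* `isClosed_glRange` : it is closed.
-/

set_option autoImplicit false
set_option linter.unusedSectionVars false

open NumberField IsDedekindDomain IsDedekindDomain.HeightOneSpectrum

noncomputable section

namespace Fermat.Agent.LT.H132

variable (K : Type*) [Field K] [NumberField K]
variable (n : Type*) [Fintype n] [DecidableEq n]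

/-- The diagonal embedding `GL n K → GL n 𝔸_K`. -/
abbrev glDiag : GL n K →* GL n (AdeleRing (𝓞 K) K) :=
  Matrix.GeneralLinearGroup.map (algebraMap K (AdeleRing (𝓞 K) K))

/-- The standard open neighbourhood of `1` in `GL n 𝔸_K` meeting `GL n K` in `{1}`. -/
def glBox : Set (GL n (AdeleRing (𝓞 K) K)) :=
  {g | ∀ i j, ((g : Matrix n n (AdeleRing (𝓞 K) K)) - 1) i j ∈ H767.unitBox K}

theorem isOpen_glBox : IsOpen (glBox K n) := by
  have h : glBox K n = ⋂ i : n, ⋂ j : n,
      (fun g : GL n (AdeleRing (𝓞 K) K) =>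
        ((g : Matrix n n (AdeleRing (𝓞 K) K)) - 1) i j) ⁻¹' H767.unitBox K := by
    ext g; simp [glBox]
  rw [h]
  refine isOpen_iInter_of_finite fun i => isOpen_iInter_of_finite fun j => ?_
  refine (H767.isOpen_unitBox K).preimage ?_
  have h1 : Continuous fun g : GL n (AdeleRing (𝓞 K) K) =>
      (g : Matrix n n (AdeleRing (𝓞 K) K)) := Units.continuous_val
  have h2 : Continuous fun g : GL n (AdeleRing (𝓞 K) K) =>
      (g : Matrix n n (AdeleRing (𝓞 K) K)) - 1 := h1.sub continuous_const
  exact (continuous_apply j).comp ((continuous_apply i).comp h2)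

theorem one_mem_glBox : (1 : GL n (AdeleRing (𝓞 K) K)) ∈ glBox K n := by
  intro i j
  simpa using H767.zero_mem_unitBox K

theorem glDiag_injective : Function.Injective (glDiag K n) := by
  intro a b hab
  apply Units.ext
  ext i j
  have h := congrArg (fun g : GL n (AdeleRing (𝓞 K) K) =>
    (g : Matrix n n (AdeleRing (𝓞 K) K)) i j) hab
  simp only [glDiag, Matrix.GeneralLinearGroup.map_apply] at h
  exact AdeleRing.algebraMap_injective (𝓞 K) K h

theorem eq_one_of_mem_glBox (γ : GL n K) (h : glDiag K n γ ∈ glBox K n) : γ = 1 := by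
  apply Units.ext
  ext i j
  have hij := h i j
  have h0 : ((γ : Matrix n n K) - 1) i j = 0 := by
    apply H767.eq_zero_of_mem_unitBox K
    have e : algebraMap K (AdeleRing (𝓞 K) K) (((γ : Matrix n n K) - 1) i j)
        = ((glDiag K n γ : Matrix n n (AdeleRing (𝓞 K) K)) - 1) i j := by
      simp only [glDiag, Matrix.sub_apply, map_sub, Matrix.GeneralLinearGroup.map_apply]
      by_cases hh : i = j
      · subst hh; simp
      · simp [Matrix.one_apply_ne hh]
    rw [e]
    exact hij
  have : (γ : Matrix n n K) i j = (1 : Matrix n n K) i j := by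
    have := h0
    rw [Matrix.sub_apply, sub_eq_zero] at this
    exact this
  simpa using this

/-- **`GL n K` is discrete in `GL n 𝔸_K`.** -/
theorem discreteTopology_glRange : DiscreteTopology ((glDiag K n).range) := by
  apply discreteTopology_of_isOpen_singleton_one
  have : ({1} : Set ((glDiag K n).range)) =
      (Subtype.val : (glDiag K n).range → GL n (AdeleRing (𝓞 K) K)) ⁻¹' glBox K n := by
    ext ⟨y, hy⟩
    simp only [Set.mem_singleton_iff, Set.mem_preimage]
    constructor
    · intro h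
      have : y = 1 := by simpa using congrArg Subtype.val h
      subst this
      exact one_mem_glBox K n
    · intro h
      obtain ⟨γ, rfl⟩ := hy
      have := eq_one_of_mem_glBox K n γ h
      subst this
      ext
      simp
  rw [this]
  exact (isOpen_glBox K n).preimage continuous_subtype_val

end Fermat.Agent.LT.H132

namespace Fermat.Agent.LT.H132

variable (K : Type*) [Field K] [NumberField K]
variable (n : Type*) [Fintype n] [DecidableEq n]

/-- The finite adele ring is Hausdorff. -/
theorem t2Space_finiteAdeleRing132 : T2Space (FiniteAdeleRing (𝓞 K) K) := by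
  refine T2Space.of_injective_continuous
    (f := fun (x : FiniteAdeleRing (𝓞 K) K) (v : HeightOneSpectrum (𝓞 K)) => x v) ?_ ?_
  · intro x y h
    exact RestrictedProduct.ext _ _ fun v => congrFun h v
  · exact RestrictedProduct.continuous_coe

/-- The infinite adele ring is Hausdorff. -/
theorem t2Space_infiniteAdeleRing132 : T2Space (InfiniteAdeleRing K) :=
  inferInstanceAs (T2Space ((v : InfinitePlace K) → v.Completion))

/-- The adele ring is Hausdorff. -/
theorem t2Space_adeleRing132 : T2Space (AdeleRing (𝓞 K) K) := by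
  have h1 := t2Space_finiteAdeleRing132 K
  have h2 := t2Space_infiniteAdeleRing132 K
  exact inferInstanceAs (T2Space (InfiniteAdeleRing K × FiniteAdeleRing (𝓞 K) K))

/-- `GL n 𝔸_K` is Hausdorff. -/
theorem t2Space_glAdele132 : T2Space (GL n (AdeleRing (𝓞 K) K)) := by
  have h := t2Space_adeleRing132 K
  infer_instance

/-- **`GL n K` is closed in `GL n 𝔸_K`.** -/
theorem isClosed_glRange : IsClosed ((glDiag K n).range : Set (GL n (AdeleRing (𝓞 K) K))) := by
  have h1 := t2Space_glAdele132 K n
  have h2 := discreteTopology_glRange K n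
  exact Subgroup.isClosed_of_discrete

end Fermat.Agent.LT.H132

end
end
-- ===== PACK-END LT/H132/GLDiscrete.lean

-- ===== PACK-BEGIN LT/T5/H379/TraceAbs.lean
section



/-!
# Row LT, tower T5, leaf T5.01 (helper379): the abstract trace identity — MEASURE THEORY ONLY

OFF-MAIN.  Mathlib only.  For a finite measure `ν`, square-integrable kernels `K₁, K₂` on the
product, and an orthonormal sequence `e` of bounded measurable functions such that the range of
the operator with kernel `K₁` satisfies Parseval's identity for `e`: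
`∑ᵢ ⟨K₁ K₂ eᵢ, eᵢ⟩ = ∬ K₁(x,z) K₂(z,x)` (absolutely convergent).
-/

set_option autoImplicit false

open MeasureTheory ComplexConjugate
open scoped ENNReal InnerProductSpace

noncomputable section

namespace Fermat.Agent.LT.T5.H379

variable {X : Type*} [MeasurableSpace X] {ν : Measure X}

/-- Dictionary: the inner product of `L²` as an integral. -/
theorem inner_toLp379 {f g : X → ℂ} (hf : MemLp f 2 ν) (hg : MemLp g 2 ν) :
    ⟪hf.toLp f, hg.toLp g⟫_ℂ = ∫ x, g x * conj (f x) ∂ν := by
  rw [L2.inner_def]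
  apply integral_congr_ae
  filter_upwards [hf.coeFn_toLp, hg.coeFn_toLp] with x h1 h2
  rw [h1, h2, RCLike.inner_apply]

/-- Dictionary: the norm of `L²` as an integral. -/
theorem norm_sq_toLp379 {f : X → ℂ} (hf : MemLp f 2 ν) :
    ‖hf.toLp f‖ ^ 2 = ∫ x, ‖f x‖ ^ 2 ∂ν := by
  have h1 : ‖hf.toLp f‖ ^ 2 = RCLike.re ⟪hf.toLp f, hf.toLp f⟫_ℂ :=
    (inner_self_eq_norm_sq (𝕜 := ℂ) (hf.toLp f)).symm
  rw [h1, inner_toLp379 hf hf]
  have h2 : (fun x => f x * conj (f x)) = fun x => ((‖f x‖ ^ 2 : ℝ) : ℂ) := by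
    funext x
    rw [RCLike.mul_conj]
    push_cast
    rfl
  have h3 : ∫ x, ((‖f x‖ ^ 2 : ℝ) : ℂ) ∂ν = ((∫ x, ‖f x‖ ^ 2 ∂ν : ℝ) : ℂ) :=
    integral_ofReal (𝕜 := ℂ)
  rw [h2, h3]
  simp

/-- The conjugate of an `L²` function is `L²`. -/
theorem memLp_conj379 {f : X → ℂ} (hf : MemLp f 2 ν) : MemLp (fun x => conj (f x)) 2 ν := by
  refine ⟨?_, ?_⟩
  · exact (Complex.continuous_conj.comp_aestronglyMeasurable hf.1)
  · have : eLpNorm (fun x => conj (f x)) 2 ν = eLpNorm f 2 ν := by
      apply eLpNorm_congr_norm_ae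
      filter_upwards with x
      simp
    rw [this]
    exact hf.2

/-- A bounded measurable function on a finite measure space is `L²`. -/
theorem memLp_of_bdd379 [IsFiniteMeasure ν] {f : X → ℂ} (hf : AEStronglyMeasurable f ν)
    {C : ℝ} (hC : ∀ x, ‖f x‖ ≤ C) : MemLp f 2 ν :=
  MemLp.of_bound hf C (Filter.Eventually.of_forall hC)

/-- The operator with kernel `K`: `(K f)(x) = ∫ K(x,z) f(z) dz`. -/
def kop379 (ν : Measure X) (K : X → X → ℂ) (f : X → ℂ) : X → ℂ :=
  fun x => ∫ z, K x z * f z ∂ν

/-- Almost every section of a square-integrable kernel is square-integrable. -/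
theorem ae_memLp_section379 [IsFiniteMeasure ν] {N : X → X → ℂ}
    (hN : MemLp (fun p : X × X => N p.1 p.2) 2 (ν.prod ν)) :
    ∀ᵐ x ∂ν, MemLp (N x) 2 ν := by
  have h1 : ∀ᵐ x ∂ν, AEStronglyMeasurable (fun y => N x y) ν := hN.1.prodMk_left
  have h2 : Integrable (fun p : X × X => ‖N p.1 p.2‖ ^ 2) (ν.prod ν) :=
    (memLp_two_iff_integrable_sq_norm hN.1).1 hN
  have h3 := h2.prod_right_ae
  filter_upwards [h1, h3] with x hx1 hx3
  exact (memLp_two_iff_integrable_sq_norm hx1).2 hx3

/-- The square norm of the sections is integrable. -/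
theorem integrable_section_sq379 [IsFiniteMeasure ν] {N : X → X → ℂ}
    (hN : MemLp (fun p : X × X => N p.1 p.2) 2 (ν.prod ν)) :
    Integrable (fun x => ∫ z, ‖N x z‖ ^ 2 ∂ν) ν := by
  have h2 : Integrable (fun p : X × X => ‖N p.1 p.2‖ ^ 2) (ν.prod ν) :=
    (memLp_two_iff_integrable_sq_norm hN.1).1 hN
  exact h2.integral_prod_left

/-- The transposed kernel is square-integrable. -/
theorem memLp_transpose379 [IsFiniteMeasure ν] {N : X → X → ℂ}
    (hN : MemLp (fun p : X × X => N p.1 p.2) 2 (ν.prod ν)) :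
    MemLp (fun p : X × X => N p.2 p.1) 2 (ν.prod ν) :=
  hN.comp_measurePreserving (Measure.measurePreserving_swap (μ := ν) (ν := ν))

/-- Tensor products of `L²` functions are `L²` on the product. -/
theorem memLp_tensor379 [IsFiniteMeasure ν] {u v : X → ℂ} (hu : MemLp u 2 ν)
    (hv : MemLp v 2 ν) : MemLp (fun p : X × X => u p.1 * v p.2) 2 (ν.prod ν) := by
  have hm : AEStronglyMeasurable (fun p : X × X => u p.1 * v p.2) (ν.prod ν) :=
    (hu.comp_fst ν).1.mul (hv.comp_snd ν).1
  rw [memLp_two_iff_integrable_sq_norm hm]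
  have h1 := (memLp_two_iff_integrable_sq_norm hu.1).1 hu
  have h2 := (memLp_two_iff_integrable_sq_norm hv.1).1 hv
  have h3 := h1.mul_prod h2
  refine h3.congr ?_
  filter_upwards with p
  simp [mul_pow]

/-- The kernel operator as an inner product with the section. -/
theorem kop_eq_inner379 {N : X → X → ℂ} {f : X → ℂ} (hf : MemLp f 2 ν) {x : X}
    (hx : MemLp (N x) 2 ν) :
    kop379 ν N f x = ⟪(memLp_conj379 hf).toLp _, hx.toLp (N x)⟫_ℂ := by
  rw [inner_toLp379]
  simp [kop379]

/-- Pointwise Cauchy–Schwarz for the kernel operator. -/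
theorem kop_sq_le379 {N : X → X → ℂ} {f : X → ℂ} (hf : MemLp f 2 ν) {x : X}
    (hx : MemLp (N x) 2 ν) :
    ‖kop379 ν N f x‖ ^ 2 ≤ (∫ z, ‖f z‖ ^ 2 ∂ν) * ∫ z, ‖N x z‖ ^ 2 ∂ν := by
  rw [kop_eq_inner379 hf hx]
  have h1 := norm_inner_le_norm (𝕜 := ℂ) ((memLp_conj379 hf).toLp _) (hx.toLp (N x))
  have h2 : ‖⟪(memLp_conj379 hf).toLp _, hx.toLp (N x)⟫_ℂ‖ ^ 2
      ≤ (‖(memLp_conj379 hf).toLp _‖ * ‖hx.toLp (N x)‖) ^ 2 :=
    pow_le_pow_left₀ (norm_nonneg _) h1 2
  rw [mul_pow, norm_sq_toLp379, norm_sq_toLp379] at h2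
  simpa using h2

/-- The kernel operator maps `L²` to `L²`. -/
theorem memLp_kop379 [IsFiniteMeasure ν] {N : X → X → ℂ}
    (hN : MemLp (fun p : X × X => N p.1 p.2) 2 (ν.prod ν)) {f : X → ℂ} (hf : MemLp f 2 ν) :
    MemLp (kop379 ν N f) 2 ν := by
  have hm : AEStronglyMeasurable (kop379 ν N f) ν := by
    have h0 : AEStronglyMeasurable (fun p : X × X => N p.1 p.2 * f p.2) (ν.prod ν) :=
      hN.1.mul (hf.comp_snd ν).1
    exact h0.integral_prod_right'
  rw [memLp_two_iff_integrable_sq_norm hm]
  have hi : Integrable (fun x => (∫ z, ‖f z‖ ^ 2 ∂ν) * ∫ z, ‖N x z‖ ^ 2 ∂ν) ν :=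
    (integrable_section_sq379 hN).const_mul _
  refine hi.mono' (hm.norm.pow 2) ?_
  filter_upwards [ae_memLp_section379 hN] with x hx
  rw [Real.norm_eq_abs, abs_of_nonneg (by positivity)]
  exact kop_sq_le379 hf hx

/-- Integrability of `N(x,z) u(x) v(z)`. -/
theorem integrable_bil379 [IsFiniteMeasure ν] {N : X → X → ℂ}
    (hN : MemLp (fun p : X × X => N p.1 p.2) 2 (ν.prod ν)) {u v : X → ℂ}
    (hu : MemLp u 2 ν) (hv : MemLp v 2 ν) :
    Integrable (fun p : X × X => N p.1 p.2 * (u p.1 * v p.2)) (ν.prod ν) :=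
  hN.integrable_mul (memLp_tensor379 hu hv)

/-- Fubini, inner integral over the second variable. -/
theorem bil_eq_left379 [IsFiniteMeasure ν] {N : X → X → ℂ}
    (hN : MemLp (fun p : X × X => N p.1 p.2) 2 (ν.prod ν)) {u v : X → ℂ}
    (hu : MemLp u 2 ν) (hv : MemLp v 2 ν) :
    ∫ p, N p.1 p.2 * (u p.1 * v p.2) ∂(ν.prod ν) = ∫ x, u x * kop379 ν N v x ∂ν := by
  rw [integral_prod _ (integrable_bil379 hN hu hv)]
  apply integral_congr_ae
  filter_upwards with x
  simp only [kop379]
  rw [← integral_const_mul]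
  congr 1
  funext z
  ring

/-- Fubini, inner integral over the first variable. -/
theorem bil_eq_right379 [IsFiniteMeasure ν] {N : X → X → ℂ}
    (hN : MemLp (fun p : X × X => N p.1 p.2) 2 (ν.prod ν)) {u v : X → ℂ}
    (hu : MemLp u 2 ν) (hv : MemLp v 2 ν) :
    ∫ p, N p.1 p.2 * (u p.1 * v p.2) ∂(ν.prod ν)
      = ∫ z, v z * kop379 ν (fun a b => N b a) u z ∂ν := by
  rw [integral_prod_symm _ (integrable_bil379 hN hu hv)]
  apply integral_congr_ae
  filter_upwards with z
  simp only [kop379]
  rw [← integral_const_mul]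
  congr 1
  funext x
  ring

/-- An `L²` function on the product whose integrals over all measurable rectangles vanish is
zero. -/
theorem eq_zero_of_rect379 [IsFiniteMeasure ν] (Ψ : Lp ℂ 2 (ν.prod ν))
    (h : ∀ S T : Set X, MeasurableSet S → MeasurableSet T →
      ∫ p in S ×ˢ T, Ψ p ∂(ν.prod ν) = 0) : Ψ = 0 := by
  have hint : Integrable (Ψ : X × X → ℂ) (ν.prod ν) :=
    (Lp.memLp Ψ).integrable (by norm_num)
  have hall : ∀ U, MeasurableSet U → ∫ p in U, Ψ p ∂(ν.prod ν) = 0 := by
    intro U hU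
    induction U, hU using MeasurableSpace.induction_on_inter generateFrom_prod.symm
      isPiSystem_prod with
    | empty => simp
    | basic t ht =>
      obtain ⟨S, hS, T, hT, rfl⟩ := ht
      exact h S T hS hT
    | compl t htm ih =>
      have I : ∫ p, Ψ p ∂(ν.prod ν) = 0 := by
        have := h Set.univ Set.univ MeasurableSet.univ MeasurableSet.univ
        simpa using this
      have := integral_add_compl htm hint
      rw [ih, I, zero_add] at this
      exact this
    | iUnion f hd hfm ih =>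
      rw [integral_iUnion hfm hd hint.integrableOn]
      simp [ih]
  have := hint.ae_eq_zero_of_forall_setIntegral_eq_zero (fun s hs _ => hall s hs)
  exact (Lp.eq_zero_iff_ae_eq_zero).2 this

end Fermat.Agent.LT.T5.H379

end
end
-- ===== PACK-END LT/T5/H379/TraceAbs.lean

-- ===== PACK-BEGIN LT/T6/H848/NormInj.lean
section



/-!
# Row LT, tower T6, sub-leaf T6.05 `NormInjC` (helper848)

OFF-MAIN.  `normInjC848 : T6.NormInjC`, verbatim against `LT/T6/Spec.lean` (helper22@823e765ba),
UNCONDITIONAL (Mathlib only; `NormClassC` is not used).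

[L] Lemma 4.2 for `GL₂`: if `N δ` is regular and `N δ`, `N δ'` are conjugate, then `δ`, `δ'` are
`σ`-conjugate.  Proof.

1. `σ(N δ) = δ⁻¹ (N δ) δ`, so trace and determinant of `M = N δ` are `σ`-fixed; `M` is not
   scalar, hence `M = P c P⁻¹` with `c` the companion matrix `[[0, -d], [1, τ]]`, `σ(c) = c`.
   Replacing `δ`, `δ'` by `σ`-conjugates we may assume `N δ = N δ' = c`.
2. Then `δ`, `δ'` and all partial norms `N_j δ`, `N_j δ'` commute with `c`, i.e. they have the form
   `[[a, -d b], [b, a + τ b]]`.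
3. Twisted Lagrange resolvent `X(t) = ∑_{j<l} σʲ(t) · N_j(δ) N_j(δ')⁻¹`, `t ∈ K'`:
   `δ σ(X(t)) = X(t) δ'`, `X(t)` commutes with `c`, `det X(t) = A² + τ A B + d B²`
   with `A = X(t)₀₀`, `B = X(t)₁₀`.
4. Dedekind's independence of the characters `σʲ`, `j < l`, gives `t` with `det X(t) ≠ 0`
   (two cases: `X² - τ X + d` has a root in `K'` or not).
-/

set_option autoImplicit false

open scoped Matrix

noncomputable section

namespace Fermat.Agent.LT.T6.H848

open Fermat.Agent.LT.T6

/-! ## 1. The twisted norm in a group -/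

section Group

variable {Γ : Type} [Group Γ] (φ : Γ →* Γ)

theorem twN_zero848 (δ : Γ) : twN φ 0 δ = 1 := rfl

theorem twN_succ848 (n : ℕ) (δ : Γ) : twN φ (n + 1) δ = δ * φ (twN φ n δ) := rfl

/-- The other recursion: `N_{n+1} δ = N_n δ · φⁿ(δ)`. -/
theorem twN_succ_right848 (n : ℕ) (δ : Γ) : twN φ (n + 1) δ = twN φ n δ * (φ^[n]) δ := by
  induction n with
  | zero => simp [twN_succ848, twN_zero848]
  | succ n ih =>
    have h1 : twN φ (n + 1 + 1) δ = δ * φ (twN φ (n + 1) δ) := rfl
    have h2 : δ * φ (twN φ n δ) = twN φ (n + 1) δ := rfl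
    rw [h1, ih, map_mul, ← mul_assoc, h2, ih, Function.iterate_succ_apply']

/-- `N_n (x⁻¹ δ φ(x)) = x⁻¹ (N_n δ) φⁿ(x)`. -/
theorem twN_twConj848 (n : ℕ) (x δ : Γ) :
    twN φ n (x⁻¹ * δ * φ x) = x⁻¹ * twN φ n δ * (φ^[n]) x := by
  induction n with
  | zero => simp [twN_zero848]
  | succ n ih =>
    rw [twN_succ848, ih, twN_succ848, Function.iterate_succ_apply']
    simp only [map_mul, map_inv]
    group

/-- `φ(N_n δ) = δ⁻¹ (N_n δ) φⁿ(δ)`. -/
theorem map_twN848 (n : ℕ) (δ : Γ) : φ (twN φ n δ) = δ⁻¹ * twN φ n δ * (φ^[n]) δ := by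
  have h := twN_succ_right848 φ n δ
  rw [twN_succ848] at h
  rw [mul_assoc, ← h]
  group

end Group

/-! ## 2. The automorphism of `GL₂` -/

section GlAut

variable {F : Type} [Field F] (s : F ≃+* F)

theorem glAut_apply848 (g : GL (Fin 2) F) (i j : Fin 2) :
    ((glAut s g : GL (Fin 2) F) : Matrix (Fin 2) (Fin 2) F) i j
      = s ((g : Matrix (Fin 2) (Fin 2) F) i j) := rfl

theorem glAut_iterate848 (n : ℕ) (g : GL (Fin 2) F) (i j : Fin 2) :
    ((((glAut s)^[n]) g : GL (Fin 2) F) : Matrix (Fin 2) (Fin 2) F) i j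
      = (s ^ n) ((g : Matrix (Fin 2) (Fin 2) F) i j) := by
  induction n with
  | zero => simp
  | succ n ih =>
    rw [Function.iterate_succ_apply', glAut_apply848, ih, pow_succ']
    rfl

theorem glAut_iterate_eq848 {l : ℕ} (hord : ∀ y : F, (s ^ l) y = y) (g : GL (Fin 2) F) :
    ((glAut s)^[l]) g = g := by
  apply Units.ext
  ext i j
  rw [glAut_iterate848, hord]

theorem twNorm_twConj848 {l : ℕ} (hord : ∀ y : F, (s ^ l) y = y) (x δ : GL (Fin 2) F) :
    twNorm s l (x⁻¹ * δ * glAut s x) = x⁻¹ * twNorm s l δ * x := by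
  unfold twNorm
  rw [twN_twConj848, glAut_iterate_eq848 s hord]

theorem glAut_twNorm848 {l : ℕ} (hord : ∀ y : F, (s ^ l) y = y) (δ : GL (Fin 2) F) :
    glAut s (twNorm s l δ) = δ⁻¹ * twNorm s l δ * δ := by
  unfold twNorm
  rw [map_twN848, glAut_iterate_eq848 s hord]

end GlAut

/-! ## 3. Matrices commuting with a companion matrix -/

section Companion

variable {F : Type} [Field F]

/-- The companion matrix of `X² - τ X + d`. -/
def compMat848 (τ d : F) : Matrix (Fin 2) (Fin 2) F := !![0, -d; 1, τ]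

theorem coords_of_comm848 {τ d : F} {M : Matrix (Fin 2) (Fin 2) F}
    (h : M * compMat848 τ d = compMat848 τ d * M) :
    M 0 1 = -d * M 1 0 ∧ M 1 1 = M 0 0 + τ * M 1 0 := by
  have h00 := congrFun (congrFun h 0) 0
  have h10 := congrFun (congrFun h 1) 0
  simp only [compMat848, Matrix.mul_apply, Fin.sum_univ_two, Matrix.of_apply, Matrix.cons_val',
    Matrix.cons_val_zero, Matrix.cons_val_one, Matrix.cons_val_fin_one] at h00 h10
  constructor
  · linear_combination h00
  · linear_combination h10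

theorem det_of_comm848 {τ d : F} {M : Matrix (Fin 2) (Fin 2) F}
    (h : M * compMat848 τ d = compMat848 τ d * M) :
    M.det = M 0 0 ^ 2 + τ * M 0 0 * M 1 0 + d * M 1 0 ^ 2 := by
  obtain ⟨h1, h2⟩ := coords_of_comm848 h
  rw [Matrix.det_fin_two, h1, h2]
  ring

end Companion

/-! ## 4. Independence of the characters `σʲ`, `j < l` -/

section Dedekind

variable {F : Type} [Field F] (s : F ≃+* F)

theorem pow_injOn848 {l : ℕ} (hfaith : ∀ m : ℕ, 0 < m → m < l → ∃ y : F, (s ^ m) y ≠ y)
    {j j' : ℕ} (hj : j < l) (hj' : j' < l) (h : ∀ y : F, (s ^ j) y = (s ^ j') y) : j = j' := by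
  -- it suffices to treat `j < j'`
  have key : ∀ a b : ℕ, a < b → b < l → (∀ y : F, (s ^ a) y = (s ^ b) y) → False := by
    intro a b hab hb hy
    obtain ⟨y, hy'⟩ := hfaith (b - a) (by omega) (by omega)
    apply hy'
    have h1 : (s ^ b) y = (s ^ a) ((s ^ (b - a)) y) := by
      have : b = a + (b - a) := by omega
      conv_lhs => rw [this, pow_add]
      rfl
    have h2 := hy y
    rw [h1] at h2
    exact ((s ^ a).injective h2).symm
  rcases lt_trichotomy j j' with hlt | heq | hgt
  · exact (key j j' hlt hj' h).elim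
  · exact heq
  · exact (key j' j hgt hj (fun y => (h y).symm)).elim

/-- **Dedekind**: a combination `∑_{j<l} k_j σʲ` with some `k_j ≠ 0` is not identically zero. -/
theorem exists_resolvent_ne_zero848 {l : ℕ}
    (hfaith : ∀ m : ℕ, 0 < m → m < l → ∃ y : F, (s ^ m) y ≠ y)
    (k : ℕ → F) (hk : ∃ j, j < l ∧ k j ≠ 0) :
    ∃ t : F, ∑ j ∈ Finset.range l, (s ^ j) t * k j ≠ 0 := by
  by_contra hcon
  push Not at hcon
  let v : Fin l → (F →* F) := fun j => ((s ^ (j : ℕ) : F ≃+* F) : F →* F)
  have hinj : Function.Injective v := by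
    intro a b hab
    apply Fin.ext
    apply pow_injOn848 s hfaith a.2 b.2
    intro y
    exact DFunLike.congr_fun hab y
  have hli : LinearIndependent F (fun j : Fin l => (v j : F → F)) :=
    (linearIndependent_monoidHom F F).comp v hinj
  have hzero : ∑ j : Fin l, k (j : ℕ) • (v j : F → F) = 0 := by
    funext t
    have := hcon t
    rw [← Fin.sum_univ_eq_sum_range (fun j => (s ^ j) t * k j) l] at this
    simp only [Finset.sum_apply, Pi.smul_apply, smul_eq_mul, Pi.zero_apply]
    rw [← this]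
    refine Finset.sum_congr rfl fun j _ => ?_
    rw [mul_comm]
    rfl
  obtain ⟨j, hj, hkj⟩ := hk
  exact hkj (Fintype.linearIndependent_iff.mp hli (fun j => k (j : ℕ)) hzero ⟨j, hj⟩)

end Dedekind

/-! ## 5. The core: equal norms in companion form -/

section Core

variable {F : Type} [Field F] (s : F ≃+* F)

theorem glAut_comp_eq848 {τ d : F} (hτ : s τ = τ) (hd : s d = d) (c : GL (Fin 2) F)
    (hc : (c : Matrix (Fin 2) (Fin 2) F) = compMat848 τ d) : glAut s c = c := by
  apply Units.ext
  ext i j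
  rw [glAut_apply848, hc]
  fin_cases i <;> fin_cases j <;> simp [compMat848, hτ, hd]

theorem comm_glAut848 {c g : GL (Fin 2) F} (hc : glAut s c = c) (h : g * c = c * g) :
    glAut s g * c = c * glAut s g := by
  have := congrArg (glAut s) h
  rwa [map_mul, map_mul, hc] at this

theorem comm_twN848 {c δ : GL (Fin 2) F} (hc : glAut s c = c) (h : δ * c = c * δ) (j : ℕ) :
    twN (glAut s) j δ * c = c * twN (glAut s) j δ := by
  induction j with
  | zero => simp [twN_zero848]
  | succ j ih =>
    rw [twN_succ848, mul_assoc, comm_glAut848 s hc ih, ← mul_assoc, h, mul_assoc]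

theorem comm_inv848 {c g : GL (Fin 2) F} (h : g * c = c * g) : g⁻¹ * c = c * g⁻¹ := by
  have : c = g * c * g⁻¹ := by rw [h]; group
  calc g⁻¹ * c = g⁻¹ * (g * c * g⁻¹) := by rw [← this]
    _ = c * g⁻¹ := by group

/-- The coefficients of the resolvent. -/
def resCoeff848 (δ δ' : GL (Fin 2) F) (j : ℕ) : GL (Fin 2) F :=
  twN (glAut s) j δ * (twN (glAut s) j δ')⁻¹

theorem resCoeff_zero848 (δ δ' : GL (Fin 2) F) : resCoeff848 s δ δ' 0 = 1 := by
  simp [resCoeff848, twN_zero848]

theorem resCoeff_step848 (δ δ' : GL (Fin 2) F) (j : ℕ) :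
    δ * glAut s (resCoeff848 s δ δ' j) = resCoeff848 s δ δ' (j + 1) * δ' := by
  simp only [resCoeff848, twN_succ848, map_mul, map_inv]
  group

theorem resCoeff_comm848 {c δ δ' : GL (Fin 2) F} (hc : glAut s c = c) (h : δ * c = c * δ)
    (h' : δ' * c = c * δ') (j : ℕ) :
    resCoeff848 s δ δ' j * c = c * resCoeff848 s δ δ' j := by
  unfold resCoeff848
  rw [mul_assoc, comm_inv848 (comm_twN848 s hc h' j), ← mul_assoc, comm_twN848 s hc h j,
    mul_assoc]

/-- The twisted Lagrange resolvent `X(t) = ∑_{j<l} σʲ(t) · N_j(δ) N_j(δ')⁻¹`. -/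
def resolvent848 (l : ℕ) (δ δ' : GL (Fin 2) F) (t : F) : Matrix (Fin 2) (Fin 2) F :=
  ∑ j ∈ Finset.range l, (s ^ j) t • (resCoeff848 s δ δ' j : Matrix (Fin 2) (Fin 2) F)

theorem resolvent_apply848 (l : ℕ) (δ δ' : GL (Fin 2) F) (t : F) (a b : Fin 2) :
    resolvent848 s l δ δ' t a b
      = ∑ j ∈ Finset.range l,
          (s ^ j) t * (resCoeff848 s δ δ' j : Matrix (Fin 2) (Fin 2) F) a b := by
  simp [resolvent848, Matrix.sum_apply]

theorem resolvent_comm848 {c δ δ' : GL (Fin 2) F} (hc : glAut s c = c) (h : δ * c = c * δ)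
    (h' : δ' * c = c * δ') (l : ℕ) (t : F) :
    resolvent848 s l δ δ' t * (c : Matrix (Fin 2) (Fin 2) F)
      = (c : Matrix (Fin 2) (Fin 2) F) * resolvent848 s l δ δ' t := by
  unfold resolvent848
  rw [Finset.sum_mul, Finset.mul_sum]
  refine Finset.sum_congr rfl fun j _ => ?_
  have hj : (resCoeff848 s δ δ' j : Matrix (Fin 2) (Fin 2) F) * (c : Matrix (Fin 2) (Fin 2) F)
      = (c : Matrix (Fin 2) (Fin 2) F) * (resCoeff848 s δ δ' j : Matrix (Fin 2) (Fin 2) F) := by
    have := congrArg (fun g : GL (Fin 2) F => (g : Matrix (Fin 2) (Fin 2) F))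
      (resCoeff_comm848 s hc h h' j)
    simpa using this
  rw [smul_mul_assoc, mul_smul_comm, hj]

/-- The resolvent intertwines: `δ · σ(X) = X · δ'` when `N δ = N δ'`. -/
theorem resolvent_twist848 {l : ℕ} (hord : ∀ y : F, (s ^ l) y = y) (δ δ' : GL (Fin 2) F)
    (hN : twNorm s l δ = twNorm s l δ') (t : F) :
    (δ : Matrix (Fin 2) (Fin 2) F) * (resolvent848 s l δ δ' t).map s
      = resolvent848 s l δ δ' t * (δ' : Matrix (Fin 2) (Fin 2) F) := by
  -- the image under `σ`
  have hmap : (resolvent848 s l δ δ' t).map s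
      = ∑ j ∈ Finset.range l, (s ^ (j + 1)) t •
          (glAut s (resCoeff848 s δ δ' j) : Matrix (Fin 2) (Fin 2) F) := by
    ext a b
    rw [Matrix.map_apply, resolvent_apply848, map_sum, Matrix.sum_apply]
    refine Finset.sum_congr rfl fun j _ => ?_
    rw [map_mul, Matrix.smul_apply, smul_eq_mul, glAut_apply848, pow_succ']
    rfl
  -- the last coefficient is the first one
  have hlast : resCoeff848 s δ δ' l = 1 := by
    unfold resCoeff848
    have : twN (glAut s) l δ = twN (glAut s) l δ' := hN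
    rw [this, mul_inv_cancel]
  rw [hmap, Finset.mul_sum]
  have hstep : ∀ j ∈ Finset.range l,
      (δ : Matrix (Fin 2) (Fin 2) F) * ((s ^ (j + 1)) t •
          (glAut s (resCoeff848 s δ δ' j) : Matrix (Fin 2) (Fin 2) F))
        = ((s ^ (j + 1)) t • (resCoeff848 s δ δ' (j + 1) : Matrix (Fin 2) (Fin 2) F))
            * (δ' : Matrix (Fin 2) (Fin 2) F) := by
    intro j _
    have := congrArg (fun g : GL (Fin 2) F => (g : Matrix (Fin 2) (Fin 2) F))
      (resCoeff_step848 s δ δ' j)
    simp only [Units.val_mul] at this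
    rw [mul_smul_comm, this, smul_mul_assoc]
  rw [Finset.sum_congr rfl hstep, ← Finset.sum_mul]
  congr 1
  -- shift of the summation index
  have h1 := Finset.sum_range_succ
    (fun j => (s ^ j) t • (resCoeff848 s δ δ' j : Matrix (Fin 2) (Fin 2) F)) l
  have h2 := Finset.sum_range_succ'
    (fun j => (s ^ j) t • (resCoeff848 s δ δ' j : Matrix (Fin 2) (Fin 2) F)) l
  rw [h1] at h2
  have h3 : (s ^ l) t • (resCoeff848 s δ δ' l : Matrix (Fin 2) (Fin 2) F)
      = (s ^ 0) t • (resCoeff848 s δ δ' 0 : Matrix (Fin 2) (Fin 2) F) := by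
    rw [hlast, resCoeff_zero848, hord, pow_zero]
    rfl
  rw [h3] at h2
  unfold resolvent848
  exact (add_right_cancel h2).symm

/-- The `σ`-linear form `t ↦ ∑_{j<l} σʲ(t) k_j`. -/
def linForm848 (l : ℕ) (k : ℕ → F) (t : F) : F := ∑ j ∈ Finset.range l, (s ^ j) t * k j

theorem linForm_add848 (l : ℕ) (k : ℕ → F) (t t' : F) :
    linForm848 s l k (t + t') = linForm848 s l k t + linForm848 s l k t' := by
  unfold linForm848
  rw [← Finset.sum_add_distrib]
  refine Finset.sum_congr rfl fun j _ => ?_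
  rw [map_add, add_mul]

theorem linForm_comb848 (l : ℕ) (k k' : ℕ → F) (lam : F) (t : F) :
    linForm848 s l (fun j => k j + lam * k' j) t
      = linForm848 s l k t + lam * linForm848 s l k' t := by
  unfold linForm848
  rw [Finset.mul_sum, ← Finset.sum_add_distrib]
  refine Finset.sum_congr rfl fun j _ => ?_
  ring

/-- Two nonzero additive forms have a common point where both do not vanish. -/
theorem exists_both_ne_zero848 (L₁ L₂ : F → F)
    (h₁ : ∀ t t', L₁ (t + t') = L₁ t + L₁ t') (h₂ : ∀ t t', L₂ (t + t') = L₂ t + L₂ t')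
    (e₁ : ∃ t, L₁ t ≠ 0) (e₂ : ∃ t, L₂ t ≠ 0) : ∃ t, L₁ t ≠ 0 ∧ L₂ t ≠ 0 := by
  obtain ⟨t₁, ht₁⟩ := e₁
  obtain ⟨t₂, ht₂⟩ := e₂
  by_cases a : L₂ t₁ = 0
  · by_cases b : L₁ t₂ = 0
    · refine ⟨t₁ + t₂, ?_, ?_⟩
      · rw [h₁, b, add_zero]; exact ht₁
      · rw [h₂, a, zero_add]; exact ht₂
    · exact ⟨t₂, b, ht₂⟩
  · exact ⟨t₁, ht₁, a⟩

theorem exists_det_ne_zero848 {l : ℕ} (hl : 0 < l)
    (hfaith : ∀ m : ℕ, 0 < m → m < l → ∃ y : F, (s ^ m) y ≠ y)
    {τ d : F} {c δ δ' : GL (Fin 2) F}
    (hcm : (c : Matrix (Fin 2) (Fin 2) F) = compMat848 τ d)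
    (hc : glAut s c = c) (h : δ * c = c * δ) (h' : δ' * c = c * δ') :
    ∃ t : F, (resolvent848 s l δ δ' t).det ≠ 0 := by
  set kA : ℕ → F := fun j => (resCoeff848 s δ δ' j : Matrix (Fin 2) (Fin 2) F) 0 0 with hkA
  set kB : ℕ → F := fun j => (resCoeff848 s δ δ' j : Matrix (Fin 2) (Fin 2) F) 1 0 with hkB
  have hA0 : kA 0 = 1 := by simp [hkA, resCoeff_zero848]
  have hB0 : kB 0 = 0 := by simp [hkB, resCoeff_zero848]
  have hdet : ∀ t : F, (resolvent848 s l δ δ' t).det
      = linForm848 s l kA t ^ 2 + τ * linForm848 s l kA t * linForm848 s l kB t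
        + d * linForm848 s l kB t ^ 2 := by
    intro t
    have hcomm := resolvent_comm848 s hc h h' l t
    rw [hcm] at hcomm
    rw [det_of_comm848 hcomm, resolvent_apply848, resolvent_apply848]
    rfl
  by_cases hroot : ∃ lam : F, lam ^ 2 - τ * lam + d = 0
  · obtain ⟨lam, hlam⟩ := hroot
    have e₁ : ∃ t, linForm848 s l (fun j => kA j + lam * kB j) t ≠ 0 :=
      exists_resolvent_ne_zero848 s hfaith _ ⟨0, hl, by simp [hA0, hB0]⟩
    have e₂ : ∃ t, linForm848 s l (fun j => kA j + (τ - lam) * kB j) t ≠ 0 :=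
      exists_resolvent_ne_zero848 s hfaith _ ⟨0, hl, by simp [hA0, hB0]⟩
    obtain ⟨t, ht₁, ht₂⟩ := exists_both_ne_zero848 _ _ (linForm_add848 s l _) (linForm_add848 s l _)
      e₁ e₂
    refine ⟨t, ?_⟩
    rw [hdet]
    rw [linForm_comb848] at ht₁ ht₂
    have hfac : linForm848 s l kA t ^ 2 + τ * linForm848 s l kA t * linForm848 s l kB t
        + d * linForm848 s l kB t ^ 2
        = (linForm848 s l kA t + lam * linForm848 s l kB t)
          * (linForm848 s l kA t + (τ - lam) * linForm848 s l kB t) := by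
      linear_combination (linForm848 s l kB t ^ 2) * hlam
    rw [hfac]
    exact mul_ne_zero ht₁ ht₂
  · obtain ⟨t, ht⟩ : ∃ t, linForm848 s l kA t ≠ 0 :=
      exists_resolvent_ne_zero848 s hfaith _ ⟨0, hl, by simp [hA0]⟩
    refine ⟨t, ?_⟩
    rw [hdet]
    intro hzero
    by_cases hB : linForm848 s l kB t = 0
    · rw [hB] at hzero
      simp only [mul_zero, add_zero, ne_eq, OfNat.ofNat_ne_zero, not_false_eq_true, zero_pow] at hzero
      exact ht (pow_eq_zero_iff (by norm_num) |>.mp hzero)
    · apply hroot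
      refine ⟨-(linForm848 s l kA t) / linForm848 s l kB t, ?_⟩
      field_simp
      linear_combination hzero

/-- **Core**: `N δ = N δ' = c` in companion form with `σ`-fixed entries ⟹ `δ`, `δ'` are
`σ`-conjugate. -/
theorem core848 {l : ℕ} (hl : 0 < l) (hord : ∀ y : F, (s ^ l) y = y)
    (hfaith : ∀ m : ℕ, 0 < m → m < l → ∃ y : F, (s ^ m) y ≠ y)
    {τ d : F} (hτ : s τ = τ) (hd : s d = d) (c : GL (Fin 2) F)
    (hcm : (c : Matrix (Fin 2) (Fin 2) F) = compMat848 τ d)
    (δ δ' : GL (Fin 2) F) (hδ : twNorm s l δ = c) (hδ' : twNorm s l δ' = c) :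
    IsTwConj s δ δ' := by
  have hc : glAut s c = c := glAut_comp_eq848 s hτ hd c hcm
  have comm_of : ∀ ε : GL (Fin 2) F, twNorm s l ε = c → ε * c = c * ε := by
    intro ε hε
    have h1 := glAut_twNorm848 s hord ε
    rw [hε, hc] at h1
    calc ε * c = ε * (ε⁻¹ * c * ε) := by rw [← h1]
      _ = c * ε := by group
  have h := comm_of δ hδ
  have h' := comm_of δ' hδ'
  obtain ⟨t, ht⟩ := exists_det_ne_zero848 s hl hfaith hcm hc h h'
  let X : GL (Fin 2) F := Matrix.GeneralLinearGroup.mkOfDetNeZero (resolvent848 s l δ δ' t) ht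
  have hXval : (X : Matrix (Fin 2) (Fin 2) F) = resolvent848 s l δ δ' t := rfl
  have hXmap : ((glAut s X : GL (Fin 2) F) : Matrix (Fin 2) (Fin 2) F)
      = (resolvent848 s l δ δ' t).map s := by
    ext a b
    rw [glAut_apply848, hXval, Matrix.map_apply]
  have hkey : δ * glAut s X = X * δ' := by
    apply Units.ext
    rw [Units.val_mul, Units.val_mul, hXmap, hXval]
    exact resolvent_twist848 s hord δ δ' (hδ.trans hδ'.symm) t
  refine ⟨X, ?_⟩
  rw [mul_assoc, hkey]
  group

end Core

/-! ## 6. Reduction to companion form and the leaf -/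

section Reduction

variable {F : Type} [Field F]

theorem det_compMat848 (τ d : F) : (compMat848 τ d).det = d := by
  simp [compMat848, Matrix.det_fin_two]

/-- A regular element of `GL₂` is conjugate to the companion matrix of its characteristic
polynomial. -/
theorem exists_conj_companion848 (M : GL (Fin 2) F) (hreg : IsReg M) :
    ∃ P c : GL (Fin 2) F,
      (c : Matrix (Fin 2) (Fin 2) F)
        = compMat848 (M : Matrix (Fin 2) (Fin 2) F).trace (M : Matrix (Fin 2) (Fin 2) F).det ∧
      P⁻¹ * M * P = c := by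
  set Mm : Matrix (Fin 2) (Fin 2) F := (M : Matrix (Fin 2) (Fin 2) F) with hMm
  have hd : Mm.det ≠ 0 := by
    have := M.isUnit.map (Matrix.detMonoidHom (n := Fin 2) (R := F))
    exact this.ne_zero
  let c : GL (Fin 2) F := Matrix.GeneralLinearGroup.mkOfDetNeZero (compMat848 Mm.trace Mm.det)
    (by rw [det_compMat848]; exact hd)
  have hcval : (c : Matrix (Fin 2) (Fin 2) F) = compMat848 Mm.trace Mm.det := rfl
  -- it suffices to find an invertible `Pm` with `Mm * Pm = Pm * companion`
  suffices h : ∃ Pm : Matrix (Fin 2) (Fin 2) F, Pm.det ≠ 0 ∧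
      Mm * Pm = Pm * compMat848 Mm.trace Mm.det by
    obtain ⟨Pm, hPdet, hPm⟩ := h
    let P : GL (Fin 2) F := Matrix.GeneralLinearGroup.mkOfDetNeZero Pm hPdet
    refine ⟨P, c, hcval, ?_⟩
    have hMP : M * P = P * c := by
      apply Units.ext
      rw [Units.val_mul, Units.val_mul, hcval]
      exact hPm
    rw [mul_assoc, hMP]
    group
  have htr : Mm.trace = Mm 0 0 + Mm 1 1 := Matrix.trace_fin_two Mm
  have hdet : Mm.det = Mm 0 0 * Mm 1 1 - Mm 0 1 * Mm 1 0 := Matrix.det_fin_two Mm
  by_cases h10 : Mm 1 0 = 0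
  · by_cases h01 : Mm 0 1 = 0
    · -- diagonal, distinct eigenvalues
      have hne : Mm 1 1 - Mm 0 0 ≠ 0 := by
        intro h
        have hdisc : disc M = 0 := by
          unfold disc
          rw [← hMm, htr, hdet, h10, h01]
          have : Mm 1 1 = Mm 0 0 := sub_eq_zero.mp h
          rw [this]; ring
        have hu : IsUnit (disc M) := hreg
        rw [hdisc] at hu
        exact not_isUnit_zero hu
      refine ⟨!![1, Mm 0 0; 1, Mm 1 1], ?_, ?_⟩
      · rw [Matrix.det_fin_two]
        simpa using hne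
      · rw [htr, hdet, h10, h01]
        ext a b
        fin_cases a <;> fin_cases b <;>
          simp [compMat848, Matrix.mul_apply, Fin.sum_univ_two, h10, h01] <;> ring
    · refine ⟨!![0, Mm 0 1; 1, Mm 1 1], ?_, ?_⟩
      · rw [Matrix.det_fin_two]
        simpa using h01
      · rw [htr, hdet, h10]
        ext a b
        fin_cases a <;> fin_cases b <;>
          simp [compMat848, Matrix.mul_apply, Fin.sum_univ_two, h10] <;> ring
  · refine ⟨!![1, Mm 0 0; 0, Mm 1 0], ?_, ?_⟩
    · rw [Matrix.det_fin_two]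
      simpa using h10
    · rw [htr, hdet]
      ext a b
      fin_cases a <;> fin_cases b <;>
        simp [compMat848, Matrix.mul_apply, Fin.sum_univ_two] <;> ring

end Reduction

section Leaf

/-- **T6.05 `NormInjC`** ([L] Lemma 4.2), verbatim against `LT/T6/Spec.lean`
(helper22@823e765ba). -/
theorem normInjC848 : NormInjC := by
  intro K K' _ _ l i s hcyc δ δ' hreg hconj
  have hl := hcyc.pos
  have hord := hcyc.order
  have hfaith := hcyc.faithful
  have hσM : glAut s (twNorm s l δ) = δ⁻¹ * twNorm s l δ * δ := glAut_twNorm848 s hord δ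
  -- trace and determinant of the norm are `σ`-fixed
  have hval : ((glAut s (twNorm s l δ) : GL (Fin 2) K') : Matrix (Fin 2) (Fin 2) K')
      = ((δ⁻¹ : GL (Fin 2) K') : Matrix (Fin 2) (Fin 2) K')
        * (twNorm s l δ : Matrix (Fin 2) (Fin 2) K') * (δ : Matrix (Fin 2) (Fin 2) K') := by
    rw [hσM]; simp
  have hinv : (δ : Matrix (Fin 2) (Fin 2) K') * ((δ⁻¹ : GL (Fin 2) K') : Matrix (Fin 2) (Fin 2) K')
      = 1 := by
    rw [← Units.val_mul, mul_inv_cancel]; rfl
  have htr : s (twNorm s l δ : Matrix (Fin 2) (Fin 2) K').trace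
      = (twNorm s l δ : Matrix (Fin 2) (Fin 2) K').trace := by
    have h1 : ((glAut s (twNorm s l δ) : GL (Fin 2) K') : Matrix (Fin 2) (Fin 2) K').trace
        = s (twNorm s l δ : Matrix (Fin 2) (Fin 2) K').trace := by
      rw [Matrix.trace_fin_two, Matrix.trace_fin_two, glAut_apply848, glAut_apply848, map_add]
    rw [← h1, hval, Matrix.trace_mul_comm, ← mul_assoc, hinv, one_mul]
  have hdet : s (twNorm s l δ : Matrix (Fin 2) (Fin 2) K').det
      = (twNorm s l δ : Matrix (Fin 2) (Fin 2) K').det := by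
    have h1 : ((glAut s (twNorm s l δ) : GL (Fin 2) K') : Matrix (Fin 2) (Fin 2) K').det
        = s (twNorm s l δ : Matrix (Fin 2) (Fin 2) K').det := by
      rw [Matrix.det_fin_two, Matrix.det_fin_two]
      simp only [glAut_apply848, map_sub, map_mul]
    have h2 : (δ : Matrix (Fin 2) (Fin 2) K').det
        * ((δ⁻¹ : GL (Fin 2) K') : Matrix (Fin 2) (Fin 2) K').det = 1 := by
      rw [← Matrix.det_mul, hinv, Matrix.det_one]
    rw [← h1, hval, Matrix.det_mul, Matrix.det_mul]
    linear_combination ((twNorm s l δ : Matrix (Fin 2) (Fin 2) K').det) * h2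
  obtain ⟨P, c, hcm, hP⟩ := exists_conj_companion848 (twNorm s l δ) hreg
  obtain ⟨g, hg⟩ := isConj_iff.mp hconj
  have h1 : twNorm s l (P⁻¹ * δ * glAut s P) = c := by
    rw [twNorm_twConj848 s hord]; exact hP
  have h2 : twNorm s l ((g * P)⁻¹ * δ' * glAut s (g * P)) = c := by
    rw [twNorm_twConj848 s hord, ← hg, ← hP]; group
  obtain ⟨X, hX⟩ := core848 s hl hord hfaith htr hdet c hcm _ _ h1 h2
  refine ⟨P * X * (g * P)⁻¹, ?_⟩
  have h3 : δ' = (g * P) * ((g * P)⁻¹ * δ' * glAut s (g * P)) * (glAut s (g * P))⁻¹ := by group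
  rw [h3, hX]
  simp only [map_mul, map_inv]
  group

end Leaf

end Fermat.Agent.LT.T6.H848

end

end
-- ===== PACK-END LT/T6/H848/NormInj.lean

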