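import Mathlib
import Fermat.Agent.Pack.LT2.E0L3
import Fermat.Agent.Pack.LT2.E0L1
import Fermat.Agent.Pack.LT2.E0L2
import Fermat.Agent.Pack.LT2.E0L0
import Fermat.Agent.Pack.LT2.E1L2

set_option linter.all false

-- ===== PACK-BEGIN LT/H129/HeckeCoset.lean
section


/-!
# Row LT, towers T1/T2/T6 (local algebra), helper129: Hecke coset systems are complete

OFF-MAIN.  Mathlib only.  `F` a field, `O` a valuation subring with finite residue field `k`.
`IsHeckeElt129 O g` : `g ∈ M₂(O)` and `det g` generates the maximal ideal of `O`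
(`g ∈ GL₂(O) diag(ϖ, 1) GL₂(O)`).

`hecke_complete129` : a finite set `H` of `#k + 1` such elements, pairwise inequivalent modulo
`GL₂(O)` on the right (`h⁻¹ h'` not integral), is a FULL system of representatives: every such
element `g` has exactly one `h ∈ H` with `h⁻¹ g` integral.

The invariant is the left kernel of `g mod 𝔪`, a point of `ℙ¹(k) = Option k`.
-/

set_option autoImplicit false

open Matrix

namespace Fermat.Agent.LT.H129

variable {F : Type*} [Field F]

/-- `π` generates the maximal ideal of `O`: `v(π) < 1` and `v(x) < 1 → v(x) ≤ v(π)`. -/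
def IsUnif129 (O : ValuationSubring F) (π : F) : Prop :=
  O.valuation π < 1 ∧ ∀ x : F, O.valuation x < 1 → O.valuation x ≤ O.valuation π

/-- `g ∈ M₂(O)` with `det g` a generator of the maximal ideal. -/
def IsHeckeElt129 (O : ValuationSubring F) (g : GL (Fin 2) F) : Prop :=
  IsInt129 O g ∧ IsUnif129 O (g : Matrix (Fin 2) (Fin 2) F).det

/-- The entry `(i, j)` of an integral matrix, as an element of `O`. -/
def ent129 {O : ValuationSubring F} {g : GL (Fin 2) F} (hg : IsInt129 O g) (i j : Fin 2) : O :=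
  ⟨(g : Matrix (Fin 2) (Fin 2) F) i j, hg i j⟩

/-- The residue of the entry `(i, j)`. -/
noncomputable def res129 {O : ValuationSubring F} {g : GL (Fin 2) F} (hg : IsInt129 O g)
    (i j : Fin 2) : IsLocalRing.ResidueField O :=
  IsLocalRing.residue O (ent129 hg i j)

theorem residue_eq_zero_iff129 {O : ValuationSubring F} (x : O) :
    IsLocalRing.residue O x = 0 ↔ O.valuation (x : F) < 1 := by
  rw [IsLocalRing.residue_eq_zero_iff, ValuationSubring.valuation_lt_one_iff]

/-- The determinant of a Hecke element vanishes in the residue field. -/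
theorem res_det129 {O : ValuationSubring F} {g : GL (Fin 2) F} (hg : IsHeckeElt129 O g) :
    res129 hg.1 0 0 * res129 hg.1 1 1 = res129 hg.1 0 1 * res129 hg.1 1 0 := by
  have h : IsLocalRing.residue O (ent129 hg.1 0 0 * ent129 hg.1 1 1
      - ent129 hg.1 0 1 * ent129 hg.1 1 0) = 0 := by
    rw [residue_eq_zero_iff129]
    have := hg.2.1
    rw [Matrix.det_fin_two] at this
    exact this
  rw [map_sub, map_mul, map_mul, sub_eq_zero] at h
  exact h

/-- The invariant of a Hecke element: the left kernel of `g mod 𝔪` as a point of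
`ℙ¹(k) = Option k` (`none` = the line spanned by `(0, 1)`, `some τ` = the line of `(1, τ)`). -/
noncomputable def inv129 {O : ValuationSubring F} {g : GL (Fin 2) F} (hg : IsInt129 O g) :
    Option (IsLocalRing.ResidueField O) :=
  open Classical in
  if res129 hg 1 0 = 0 ∧ res129 hg 1 1 = 0 then none
  else some (if res129 hg 1 0 ≠ 0 then -(res129 hg 0 0 / res129 hg 1 0)
    else -(res129 hg 0 1 / res129 hg 1 1))

theorem inv129_none {O : ValuationSubring F} {g : GL (Fin 2) F} (hg : IsInt129 O g)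
    (h : inv129 hg = none) : res129 hg 1 0 = 0 ∧ res129 hg 1 1 = 0 := by
  unfold inv129 at h
  by_contra hcon
  rw [if_neg hcon] at h
  exact Option.some_ne_none _ h

theorem inv129_some {O : ValuationSubring F} {g : GL (Fin 2) F} (hg : IsHeckeElt129 O g)
    {τ : IsLocalRing.ResidueField O} (h : inv129 hg.1 = some τ) :
    res129 hg.1 0 0 = -τ * res129 hg.1 1 0 ∧ res129 hg.1 0 1 = -τ * res129 hg.1 1 1 := by
  have hdet := res_det129 hg
  unfold inv129 at h
  by_cases hcon : res129 hg.1 1 0 = 0 ∧ res129 hg.1 1 1 = 0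
  · rw [if_pos hcon] at h
    exact absurd h (by simp)
  rw [if_neg hcon] at h
  have hτ := Option.some.inj h
  by_cases hc : res129 hg.1 1 0 = 0
  · have hd : res129 hg.1 1 1 ≠ 0 := fun hd => hcon ⟨hc, hd⟩
    rw [if_neg (not_not.mpr hc)] at hτ
    rw [hc, mul_zero] at hdet
    have ha : res129 hg.1 0 0 = 0 := by
      rcases mul_eq_zero.mp hdet with h | h
      · exact h
      · exact absurd h hd
    refine ⟨by rw [ha, hc, mul_zero], ?_⟩
    rw [← hτ]
    field_simp
  · rw [if_pos hc] at hτ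
    refine ⟨by rw [← hτ]; field_simp, ?_⟩
    rw [← hτ]
    field_simp
    rw [hdet]

/-- Integrality of `h⁻¹ g` in terms of the entries: `adj(h) g / det h`. -/
theorem inv_mul_apply129 (h g : GL (Fin 2) F) (i j : Fin 2) :
    ((h⁻¹ * g : GL (Fin 2) F) : Matrix (Fin 2) (Fin 2) F) i j
      = ((Matrix.adjugate (h : Matrix (Fin 2) (Fin 2) F) * (g : Matrix (Fin 2) (Fin 2) F)) i j)
        / (h : Matrix (Fin 2) (Fin 2) F).det := by
  rw [Matrix.GeneralLinearGroup.coe_mul, Matrix.coe_units_inv, Matrix.inv_def,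
    Matrix.smul_mul, Matrix.smul_apply, smul_eq_mul, Ring.inverse_eq_inv', div_eq_inv_mul]

/-- An element of `O` with zero residue is divisible by a generator of the maximal ideal. -/
theorem div_mem_of_res129 {O : ValuationSubring F} {π : F} (hπ : IsUnif129 O π) (x : O)
    (hx : IsLocalRing.residue O x = 0) : (x : F) / π ∈ O := by
  rw [residue_eq_zero_iff129] at hx
  have h0 : π ≠ 0 ∨ (x : F) = 0 := by
    by_cases h : π = 0
    · right
      have := hπ.2 _ hx
      rw [h, map_zero, le_zero_iff, map_eq_zero] at this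
      exact this
    · exact Or.inl h
  rcases h0 with h0 | h0
  · rw [← ValuationSubring.valuation_le_one_iff, map_div₀]
    exact div_le_one_of_le₀ (hπ.2 _ hx) zero_le
  · rw [h0, zero_div]; exact O.zero_mem

/-- Equal invariants imply right equivalence modulo `GL₂(O)`. -/
theorem isInt_inv_mul_of_inv129_eq {O : ValuationSubring F} {h g : GL (Fin 2) F}
    (hh : IsHeckeElt129 O h) (hg : IsHeckeElt129 O g) (e : inv129 hh.1 = inv129 hg.1) :
    IsInt129 O (h⁻¹ * g) := by
  -- the four entries of `adj(h) g` have zero residue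
  have key : ∀ i j, ∃ x : O, (x : F) = (Matrix.adjugate (h : Matrix (Fin 2) (Fin 2) F) *
      (g : Matrix (Fin 2) (Fin 2) F)) i j ∧ IsLocalRing.residue O x = 0 := by
    have hres : ∀ (i j : Fin 2), (ent129 hh.1 i j : F) = (h : Matrix (Fin 2) (Fin 2) F) i j :=
      fun _ _ => rfl
    have gres : ∀ (i j : Fin 2), (ent129 hg.1 i j : F) = (g : Matrix (Fin 2) (Fin 2) F) i j :=
      fun _ _ => rfl
    -- residues
    have R : (res129 hh.1 1 0 = 0 ∧ res129 hh.1 1 1 = 0 ∧ res129 hg.1 1 0 = 0 ∧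
        res129 hg.1 1 1 = 0) ∨ ∃ τ, (res129 hh.1 0 0 = -τ * res129 hh.1 1 0 ∧
        res129 hh.1 0 1 = -τ * res129 hh.1 1 1) ∧ (res129 hg.1 0 0 = -τ * res129 hg.1 1 0 ∧
        res129 hg.1 0 1 = -τ * res129 hg.1 1 1) := by
      cases hi : inv129 hh.1 with
      | none =>
        left
        have h1 := inv129_none hh.1 hi
        have h2 := inv129_none hg.1 (e ▸ hi)
        exact ⟨h1.1, h1.2, h2.1, h2.2⟩
      | some τ =>
        right
        exact ⟨τ, inv129_some hh hi, inv129_some hg (e ▸ hi)⟩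
    intro i j
    fin_cases i <;> fin_cases j
    · refine ⟨ent129 hh.1 1 1 * ent129 hg.1 0 0 - ent129 hh.1 0 1 * ent129 hg.1 1 0, ?_, ?_⟩
      · simp [Matrix.adjugate_fin_two, Matrix.mul_apply, Fin.sum_univ_two, hres, gres]
        ring
      · rw [map_sub, map_mul, map_mul]
        change res129 hh.1 1 1 * res129 hg.1 0 0 - res129 hh.1 0 1 * res129 hg.1 1 0 = 0
        rcases R with ⟨h1, h2, h3, h4⟩ | ⟨τ, ⟨h1, h2⟩, ⟨h3, h4⟩⟩
        · rw [h2, h3]; ring
        · rw [h2, h3]; ring
    · refine ⟨ent129 hh.1 1 1 * ent129 hg.1 0 1 - ent129 hh.1 0 1 * ent129 hg.1 1 1, ?_, ?_⟩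
      · simp [Matrix.adjugate_fin_two, Matrix.mul_apply, Fin.sum_univ_two, hres, gres]
        ring
      · rw [map_sub, map_mul, map_mul]
        change res129 hh.1 1 1 * res129 hg.1 0 1 - res129 hh.1 0 1 * res129 hg.1 1 1 = 0
        rcases R with ⟨h1, h2, h3, h4⟩ | ⟨τ, ⟨h1, h2⟩, ⟨h3, h4⟩⟩
        · rw [h2, h4]; ring
        · rw [h2, h4]; ring
    · refine ⟨ent129 hh.1 0 0 * ent129 hg.1 1 0 - ent129 hh.1 1 0 * ent129 hg.1 0 0, ?_, ?_⟩
      · simp [Matrix.adjugate_fin_two, Matrix.mul_apply, Fin.sum_univ_two, hres, gres]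
        ring
      · rw [map_sub, map_mul, map_mul]
        change res129 hh.1 0 0 * res129 hg.1 1 0 - res129 hh.1 1 0 * res129 hg.1 0 0 = 0
        rcases R with ⟨h1, h2, h3, h4⟩ | ⟨τ, ⟨h1, h2⟩, ⟨h3, h4⟩⟩
        · rw [h1, h3]; ring
        · rw [h1, h3]; ring
    · refine ⟨ent129 hh.1 0 0 * ent129 hg.1 1 1 - ent129 hh.1 1 0 * ent129 hg.1 0 1, ?_, ?_⟩
      · simp [Matrix.adjugate_fin_two, Matrix.mul_apply, Fin.sum_univ_two, hres, gres]
        ring
      · rw [map_sub, map_mul, map_mul]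
        change res129 hh.1 0 0 * res129 hg.1 1 1 - res129 hh.1 1 0 * res129 hg.1 0 1 = 0
        rcases R with ⟨h1, h2, h3, h4⟩ | ⟨τ, ⟨h1, h2⟩, ⟨h3, h4⟩⟩
        · rw [h1, h4]; ring
        · rw [h1, h4]; ring
  intro i j
  rw [inv_mul_apply129]
  obtain ⟨x, hx, hx0⟩ := key i j
  rw [← hx]
  exact div_mem_of_res129 hh.2 x hx0

/-- **Completeness of Hecke coset systems.**  A finite set `H` of `#k + 1` elements of
`GL₂(O) diag(ϖ, 1) GL₂(O)` that are pairwise inequivalent modulo `GL₂(O)` on the right is a full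
system of representatives. -/
theorem hecke_complete129 (O : ValuationSubring F) [Finite (IsLocalRing.ResidueField O)]
    (H : Finset (GL (Fin 2) F))
    (hcard : H.card = Nat.card (IsLocalRing.ResidueField O) + 1)
    (hH : ∀ h ∈ H, IsHeckeElt129 O h)
    (hne : ∀ h ∈ H, ∀ h' ∈ H, h ≠ h' → ¬ IsInt129 O (h⁻¹ * h'))
    (g : GL (Fin 2) F) (hg : IsHeckeElt129 O g) :
    ∃ h ∈ H, IsInt129 O (h⁻¹ * g) ∧ ∀ h' ∈ H, IsInt129 O (h'⁻¹ * g) → h' = h := by
  classical
  let _ : Fintype (IsLocalRing.ResidueField O) := Fintype.ofFinite _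
  -- the invariant on `H`
  let ι : {h // h ∈ H} → Option (IsLocalRing.ResidueField O) := fun h => inv129 (hH h.1 h.2).1
  have hinj : Function.Injective ι := by
    intro h h' e
    by_contra hcon
    have hne' : h.1 ≠ h'.1 := fun hh => hcon (Subtype.ext hh)
    exact hne h.1 h.2 h'.1 h'.2 hne' (isInt_inv_mul_of_inv129_eq (hH h.1 h.2) (hH h'.1 h'.2) e)
  have hcard' : Fintype.card {h // h ∈ H} = Fintype.card (Option (IsLocalRing.ResidueField O)) := by
    rw [Fintype.card_coe, hcard, Fintype.card_option, Nat.card_eq_fintype_card]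
  have hbij : Function.Bijective ι :=
    (Fintype.bijective_iff_injective_and_card ι).mpr ⟨hinj, hcard'⟩
  obtain ⟨⟨h, hhH⟩, hh⟩ := hbij.2 (inv129 hg.1)
  refine ⟨h, hhH, isInt_inv_mul_of_inv129_eq (hH h hhH) hg hh, ?_⟩
  intro h' hh'H hh'
  by_contra hcon
  apply hne h' hh'H h hhH hcon
  -- `h'⁻¹ h = (h'⁻¹ g) (h⁻¹ g)⁻¹`, and `(h⁻¹ g)⁻¹ = g⁻¹ h` is integral by symmetry
  have hsym : IsInt129 O (g⁻¹ * h) :=
    isInt_inv_mul_of_inv129_eq hg (hH h hhH) hh.symm
  have : h'⁻¹ * h = (h'⁻¹ * g) * (g⁻¹ * h) := by group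
  rw [this]
  exact isInt129_mul hh' hsym

end Fermat.Agent.LT.H129

end
-- ===== PACK-END LT/H129/HeckeCoset.lean

-- ===== PACK-BEGIN LT/H11/SC.lean
section



/-!
# Row LT, tower T1, leaf SC (helper11): second countability and σ-compactness

OFF-MAIN.  Mathlib + `LC.lean` only; NO definitions.  For a number field `K`:

* `secondCountableTopology_restrictedProduct_h11` : a restricted product over a countable index
  set of second countable spaces with respect to open subsets is second countable (general),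
* `countable_numberField_h11`, `countable_heightOneSpectrum_h11`,
* `secondCountableTopology_adicCompletion_h11`, `secondCountableTopology_infCompletion_h11`,
* `secondCountableTopology_finiteAdeleRing_h11`, `secondCountableTopology_adeleRing_h11`,
  `secondCountableTopology_GL2_adeleRing_h11`,
* `sigmaCompactSpace_adeleRing_h11`, `sigmaCompactSpace_GL2_adeleRing_h11`.

Consequences for the towers: every Haar measure on `𝔸_K` and on `GL₂(𝔸_K)` (Borel σ-algebra) is
σ-finite, Fubini applies, `L²` is separable.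
-/

set_option autoImplicit false

open IsDedekindDomain NumberField Filter Set TopologicalSpace Topology
open scoped RestrictedProduct

namespace Fermat.Agent.LT.H11.SC

open Fermat.Agent.LT.H11.LC

section RP

variable {ι : Type*} (R : ι → Type*) (A : (i : ι) → Set (R i)) [∀ i, TopologicalSpace (R i)]

/-- The restricted product over a countable index set of second countable spaces, with respect
to open subsets, is second countable. -/
theorem secondCountableTopology_restrictedProduct_h11 [Countable ι]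
    [∀ i, SecondCountableTopology (R i)] (hAopen : ∀ i, IsOpen (A i)) :
    SecondCountableTopology (Πʳ i, [R i, A i]) := by
  classical
  -- index the cover by finite sets
  let S : Finset ι → Set ι := fun T => ((T : Set ι))ᶜ
  have hS : ∀ T : Finset ι, cofinite ≤ 𝓟 (S T) := by
    intro T
    rw [le_principal_iff]
    exact T.finite_toSet.compl_mem_cofinite
  let U : Finset ι → Set (Πʳ i, [R i, A i]) := fun T =>
    Set.range (RestrictedProduct.inclusion R A (hS T))
  have hemb : ∀ T, IsOpenEmbedding (RestrictedProduct.inclusion R A (hS T)) :=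
    fun T => RestrictedProduct.isOpenEmbedding_inclusion_principal hAopen (hS T)
  have hsc : ∀ T, SecondCountableTopology (Πʳ i, [R i, A i]_[𝓟 (S T)]) := fun T =>
    (RestrictedProduct.isEmbedding_coe_of_principal (R := R) (A := A)
      (S := S T)).secondCountableTopology
  have hU : ∀ T, SecondCountableTopology (U T) := by
    intro T
    have := hsc T
    have e := (hemb T).isEmbedding.toHomeomorph
    exact e.symm.secondCountableTopology
  refine secondCountableTopology_of_countable_cover (U := U) (fun T => (hemb T).isOpen_range) ?_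
  rw [Set.eq_univ_iff_forall]
  intro x
  rw [Set.mem_iUnion]
  have hx : {i | x i ∉ A i}.Finite := by
    have := x.2
    rwa [eventually_cofinite] at this
  refine ⟨hx.toFinset, ?_⟩
  change x ∈ Set.range _
  rw [RestrictedProduct.range_inclusion]
  rw [Set.mem_ofPred_eq, eventually_principal]
  intro i hi
  by_contra h
  exact hi (by simpa using h)

end RP

/-- A number field is countable. -/
theorem countable_numberField_h11 (K : Type*) [Field K] [NumberField K] : Countable K := by
  have e := (Module.finBasis ℚ K).equivFun.toEquiv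
  exact e.countable_iff.2 inferInstance

/-- The ideals of a countable noetherian ring form a countable set. -/
theorem countable_ideal_h11 (R : Type*) [CommRing R] [Countable R] [IsNoetherianRing R] :
    Countable (Ideal R) := by
  have hs : Function.Surjective (fun s : Finset R => Ideal.span (s : Set R)) := by
    intro I
    obtain ⟨s, hs⟩ := (IsNoetherian.noetherian I : I.FG)
    exact ⟨s, hs⟩
  exact hs.countable

/-- Matrices over a second countable space. -/
theorem secondCountableTopology_matrix_h11 (n : Type*) [Countable n] (A : Type*)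
    [TopologicalSpace A] [SecondCountableTopology A] :
    SecondCountableTopology (Matrix n n A) :=
  inferInstanceAs (SecondCountableTopology (n → n → A))

/-- Units of a second countable monoid (units topology). -/
theorem secondCountableTopology_units_h11 (M : Type*) [Monoid M] [TopologicalSpace M]
    [SecondCountableTopology M] : SecondCountableTopology Mˣ := by
  have : SecondCountableTopology Mᵐᵒᵖ :=
    (MulOpposite.opHomeomorph (M := M)).symm.secondCountableTopology
  exact Units.isEmbedding_embedProduct.secondCountableTopology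

section NF

variable (K : Type*) [Field K] [NumberField K] (v : HeightOneSpectrum (𝓞 K))

/-- The ring of integers of a number field is countable. -/
theorem countable_ringOfIntegers_h11 : Countable (𝓞 K) := by
  have := countable_numberField_h11 K
  exact (RingOfIntegers.coe_injective (K := K)).countable

/-- The set of finite places of a number field is countable. -/
theorem countable_heightOneSpectrum_h11 : Countable (HeightOneSpectrum (𝓞 K)) := by
  have := countable_ringOfIntegers_h11 K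
  have := countable_ideal_h11 (𝓞 K)
  have hinj : Function.Injective (fun v : HeightOneSpectrum (𝓞 K) => v.asIdeal) := by
    intro a b h
    exact HeightOneSpectrum.ext h
  exact hinj.countable

/-- `K_v` is separable. -/
theorem separableSpace_adicCompletion_h11 : SeparableSpace (v.adicCompletion K) := by
  have := countable_numberField_h11 K
  exact ⟨⟨Set.range (algebraMap K (v.adicCompletion K)), Set.countable_range _,
    HeightOneSpectrum.denseRange_algebraMap K v⟩⟩

/-- `K_v` is second countable. -/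
theorem secondCountableTopology_adicCompletion_h11 :
    SecondCountableTopology (v.adicCompletion K) := by
  have := separableSpace_adicCompletion_h11 K v
  exact UniformSpace.secondCountable_of_separable _

/-- The completion at an infinite place is separable. -/
theorem separableSpace_infCompletion_h11 (w : InfinitePlace K) :
    SeparableSpace w.Completion := by
  have := countable_numberField_h11 K
  have hd : DenseRange ((↑) : WithAbs w.1 → w.Completion) :=
    InfinitePlace.Completion.denseRange_coe w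
  have : Countable (WithAbs w.1) := (WithAbs.equiv w.1).toEquiv.countable_iff.2 inferInstance
  exact ⟨⟨Set.range _, Set.countable_range _, hd⟩⟩

/-- The completion at an infinite place is second countable. -/
theorem secondCountableTopology_infCompletion_h11 (w : InfinitePlace K) :
    SecondCountableTopology w.Completion := by
  have := separableSpace_infCompletion_h11 K w
  exact UniformSpace.secondCountable_of_separable _

/-- The finite adele ring of a number field is second countable. -/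
theorem secondCountableTopology_finiteAdeleRing_h11 :
    SecondCountableTopology (FiniteAdeleRing (𝓞 K) K) := by
  have := countable_heightOneSpectrum_h11 K
  have : ∀ v : HeightOneSpectrum (𝓞 K), SecondCountableTopology (v.adicCompletion K) :=
    fun v => secondCountableTopology_adicCompletion_h11 K v
  exact secondCountableTopology_restrictedProduct_h11
    (fun v : HeightOneSpectrum (𝓞 K) => v.adicCompletion K)
    (fun v => (v.adicCompletionIntegers K : Set (v.adicCompletion K)))
    (fun v => Valued.isOpen_valuationSubring _)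

/-- The infinite adele ring of a number field is second countable. -/
theorem secondCountableTopology_infiniteAdeleRing_h11 :
    SecondCountableTopology (InfiniteAdeleRing K) := by
  have : ∀ w : InfinitePlace K, SecondCountableTopology w.Completion :=
    fun w => secondCountableTopology_infCompletion_h11 K w
  exact inferInstanceAs (SecondCountableTopology ((w : InfinitePlace K) → w.Completion))

/-- The adele ring of a number field is second countable. -/
theorem secondCountableTopology_adeleRing_h11 :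
    SecondCountableTopology (NumberField.AdeleRing (𝓞 K) K) := by
  have := secondCountableTopology_finiteAdeleRing_h11 K
  have := secondCountableTopology_infiniteAdeleRing_h11 K
  exact inferInstanceAs
    (SecondCountableTopology (InfiniteAdeleRing K × FiniteAdeleRing (𝓞 K) K))

/-- `GL₂(𝔸_K)` is second countable. -/
theorem secondCountableTopology_GL2_adeleRing_h11 :
    SecondCountableTopology (GL (Fin 2) (NumberField.AdeleRing (𝓞 K) K)) := by
  have := secondCountableTopology_adeleRing_h11 K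
  have := secondCountableTopology_matrix_h11 (Fin 2) (NumberField.AdeleRing (𝓞 K) K)
  exact secondCountableTopology_units_h11 _

/-- The adele ring of a number field is σ-compact. -/
theorem sigmaCompactSpace_adeleRing_h11 :
    SigmaCompactSpace (NumberField.AdeleRing (𝓞 K) K) := by
  have := secondCountableTopology_adeleRing_h11 K
  have := locallyCompactSpace_adeleRing_h11 K
  infer_instance

/-- `GL₂(𝔸_K)` is σ-compact. -/
theorem sigmaCompactSpace_GL2_adeleRing_h11 :
    SigmaCompactSpace (GL (Fin 2) (NumberField.AdeleRing (𝓞 K) K)) := by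
  have := secondCountableTopology_GL2_adeleRing_h11 K
  have := locallyCompactSpace_GL2_adeleRing_h11 K
  infer_instance

end NF

end Fermat.Agent.LT.H11.SC

end
-- ===== PACK-END LT/H11/SC.lean

-- ===== PACK-BEGIN LT/A2/H314/TorLocal.lean
section


/-!
# Row LT, tower A2, leaf A2.03.8.5.8 `H254.DecompC254` (helper314): the local structure of the
split torus

OFF-MAIN.  Mathlib only.  `F` is a field with a valuation `val : Valuation F ℤᵐ⁰`, `t`, `n`
integral with `t² - 4n` a unit, `(c, d)` integral with `N(c, d) = c² + t c d + n d²` of valuation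
`exp (-1)` (a uniformiser `ϖ`).  `M = torM314 t n c d`, `M̄ = torM314 t n (c + t d) (-d)` (the
conjugate), `M M̄ = ϖ`.

* `LocData314.step`: an integral `(a, b)` with `a d - b c ≡ 0 mod ϖ` is `M · (integral)`;
* `LocData314.dichotomy`: an integral `(a, b)` with `N(a, b) ≡ 0 mod ϖ` is divisible by `M` or by
  `M̄`;
* `LocData314.exists_decomp`: an integral `(a, b)` with `val N(a, b) = exp (-k)` is
  `M^i M̄^j κ`, `i + j = k`, `κ` integral of unit norm;
* `LocData314.not_dvd_pow`: `M̄` does not divide `M^p`.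
-/

set_option autoImplicit false

open Matrix WithZero

namespace Fermat.Agent.LT.A2.H314

section Local

variable {F : Type*} [Field F] (val : Valuation F (WithZero (Multiplicative ℤ)))

theorem le_exp_neg_one314 {y : WithZero (Multiplicative ℤ)} (hy : y < 1) :
    y ≤ WithZero.exp (-1 : ℤ) := by
  rw [← WithZero.lt_mul_exp_iff_le (by simp), ← WithZero.exp_add]
  simpa using hy

theorem exp_neg_one_lt_one314 : (WithZero.exp (-1 : ℤ) : WithZero (Multiplicative ℤ)) < 1 := by
  rw [← WithZero.exp_zero, WithZero.exp_lt_exp]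
  norm_num

variable {val}

theorem vint_mul314 {x y : F} (hx : val x ≤ 1) (hy : val y ≤ 1) : val (x * y) ≤ 1 := by
  rw [map_mul]
  exact Left.mul_le_one hx hy

theorem vint_add314 {x y : F} (hx : val x ≤ 1) (hy : val y ≤ 1) : val (x + y) ≤ 1 :=
  Valuation.map_add_le val hx hy

theorem vint_sub314 {x y : F} (hx : val x ≤ 1) (hy : val y ≤ 1) : val (x - y) ≤ 1 :=
  Valuation.map_sub_le val hx hy

theorem vint_neg314 {x : F} (hx : val x ≤ 1) : val (-x) ≤ 1 := by
  rwa [Valuation.map_neg]

theorem vint_pow314 {x : F} (hx : val x ≤ 1) (k : ℕ) : val (x ^ k) ≤ 1 := by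
  rw [map_pow]
  exact pow_le_one' hx k

theorem vlt_mul_left314 {x y : F} (hx : val x < 1) (hy : val y ≤ 1) : val (x * y) < 1 := by
  rw [map_mul]
  exact mul_lt_one_of_lt_of_le hx hy

theorem vlt_mul_right314 {x y : F} (hx : val x ≤ 1) (hy : val y < 1) : val (x * y) < 1 := by
  rw [mul_comm]
  exact vlt_mul_left314 hy hx

theorem vprime314 {x y : F} (hx : val x ≤ 1) (hy : val y ≤ 1) (h : val (x * y) < 1) :
    val x < 1 ∨ val y < 1 := by
  by_contra hcon
  rcases not_or.mp hcon with ⟨hc1, hc2⟩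
  have h1 : val x = 1 := le_antisymm hx (not_lt.mp hc1)
  have h2 : val y = 1 := le_antisymm hy (not_lt.mp hc2)
  rw [map_mul, h1, h2, one_mul] at h
  exact lt_irrefl _ h

theorem vint_two314 : val (2 : F) ≤ 1 := by
  have : (2 : F) = 1 + 1 := by norm_num
  rw [this]
  exact vint_add314 (le_of_eq (map_one val)) (le_of_eq (map_one val))

theorem vint_four314 : val (4 : F) ≤ 1 := by
  have : (4 : F) = 2 * 2 := by norm_num
  rw [this]
  exact vint_mul314 vint_two314 vint_two314

variable (val)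

/-- The local data: `t`, `n` integral, `t² - 4n` a unit, `(c, d)` integral with norm a
uniformiser. -/
structure LocData314 (t n c d : F) : Prop where
  ht : val t ≤ 1
  hn : val n ≤ 1
  hdisc : val (t ^ 2 - 4 * n) = 1
  hc : val c ≤ 1
  hd : val d ≤ 1
  hnorm : val (c ^ 2 + t * c * d + n * d ^ 2) = WithZero.exp (-1 : ℤ)

variable {val} {t n c d : F}

namespace LocData314

theorem pi_lt_one (h : LocData314 val t n c d) : val (c ^ 2 + t * c * d + n * d ^ 2) < 1 := by
  rw [h.hnorm]
  exact exp_neg_one_lt_one314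

theorem pi_ne_zero (h : LocData314 val t n c d) : c ^ 2 + t * c * d + n * d ^ 2 ≠ 0 := by
  intro h0
  have := h.hnorm
  rw [h0, map_zero] at this
  exact WithZero.exp_ne_zero this.symm

theorem le_pi (h : LocData314 val t n c d) {x : F} (hx : val x < 1) :
    val x ≤ val (c ^ 2 + t * c * d + n * d ^ 2) := by
  rw [h.hnorm]
  exact le_exp_neg_one314 hx

theorem div_pi (h : LocData314 val t n c d) {x : F} (hx : val x < 1) :
    val (x / (c ^ 2 + t * c * d + n * d ^ 2)) ≤ 1 := by
  rw [map_div₀]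
  have hpos : 0 < val (c ^ 2 + t * c * d + n * d ^ 2) := by
    rw [h.hnorm]; exact WithZero.exp_pos
  exact (div_le_one₀ hpos).mpr (h.le_pi hx)

/-- The conjugate data. -/
theorem conj (h : LocData314 val t n c d) : LocData314 val t n (c + t * d) (-d) where
  ht := h.ht
  hn := h.hn
  hdisc := h.hdisc
  hc := vint_add314 h.hc (vint_mul314 h.ht h.hd)
  hd := vint_neg314 h.hd
  hnorm := by
    have e : (c + t * d) ^ 2 + t * (c + t * d) * (-d) + n * (-d) ^ 2
        = c ^ 2 + t * c * d + n * d ^ 2 := by ring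
    rw [e]
    exact h.hnorm

theorem d_unit (h : LocData314 val t n c d) : val d = 1 := by
  by_contra hne
  have hd : val d < 1 := lt_of_le_of_ne h.hd hne
  have h1 : val (c ^ 2) < 1 := by
    have e : c ^ 2 = (c ^ 2 + t * c * d + n * d ^ 2) - (t * c + n * d) * d := by ring
    rw [e]
    exact Valuation.map_sub_lt val h.pi_lt_one
      (vlt_mul_right314 (vint_add314 (vint_mul314 h.ht h.hc) (vint_mul314 h.hn h.hd)) hd)
  have hc : val c < 1 := by
    by_contra hc'
    have h2 : val c = 1 := le_antisymm h.hc (not_lt.mp hc')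
    rw [map_pow, h2, one_pow] at h1
    exact lt_irrefl _ h1
  have hc2 := le_exp_neg_one314 hc
  have hd2 := le_exp_neg_one314 hd
  have hle : ∀ x y z : F, val x ≤ 1 → val y ≤ WithZero.exp (-1 : ℤ) →
      val z ≤ WithZero.exp (-1 : ℤ) →
      val (x * y * z) ≤ WithZero.exp (-1 : ℤ) * WithZero.exp (-1 : ℤ) := by
    intro x y z hx hy hz
    rw [map_mul, map_mul]
    calc val x * val y * val z ≤ 1 * WithZero.exp (-1 : ℤ) * WithZero.exp (-1 : ℤ) :=
          mul_le_mul' (mul_le_mul' hx hy) hz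
      _ = _ := by rw [one_mul]
  have h3 : val (c ^ 2 + t * c * d + n * d ^ 2)
      ≤ WithZero.exp (-1 : ℤ) * WithZero.exp (-1 : ℤ) := by
    have e : c ^ 2 + t * c * d + n * d ^ 2 = 1 * c * c + t * c * d + n * d * d := by ring
    rw [e]
    exact Valuation.map_add_le val
      (Valuation.map_add_le val (hle 1 c c (le_of_eq (map_one val)) hc2 hc2)
        (hle t c d h.ht hc2 hd2)) (hle n d d h.hn hd2 hd2)
  rw [h.hnorm, ← WithZero.exp_add, WithZero.exp_le_exp] at h3
  norm_num at h3

theorem two_c_unit (h : LocData314 val t n c d) : val (2 * c + t * d) = 1 := by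
  have e : (2 * c + t * d) ^ 2
      = (t ^ 2 - 4 * n) * d ^ 2 + 4 * (c ^ 2 + t * c * d + n * d ^ 2) := by ring
  have h1 : val ((t ^ 2 - 4 * n) * d ^ 2) = 1 := by
    rw [map_mul, map_pow, h.hdisc, h.d_unit]; simp
  have h2 : val (4 * (c ^ 2 + t * c * d + n * d ^ 2)) < 1 :=
    vlt_mul_right314 vint_four314 h.pi_lt_one
  have h3 : val ((2 * c + t * d) ^ 2) = 1 := by
    rw [e, Valuation.map_add_eq_of_lt_left val (by rw [h1]; exact h2), h1]
  rw [map_pow] at h3
  exact sq_eq_one.mp h3

/-- **The step**: an integral `(a, b)` with `a d - b c ≡ 0` is divisible by `M = (c, d)`. -/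
theorem step (h : LocData314 val t n c d) {a b : F} (hb : val b ≤ 1)
    (hφ : val (a * d - b * c) < 1) :
    ∃ a₁ b₁ : F, val a₁ ≤ 1 ∧ val b₁ ≤ 1 ∧
      torM314 t n a b = torM314 t n c d * torM314 t n a₁ b₁ := by
  have hπ := h.pi_ne_zero
  refine ⟨((c + t * d) * a + n * d * b) / (c ^ 2 + t * c * d + n * d ^ 2),
    (c * b - d * a) / (c ^ 2 + t * c * d + n * d ^ 2), ?_, ?_, ?_⟩
  · apply h.div_pi
    -- `e d = (c + t d) φ + b ϖ`
    have e : ((c + t * d) * a + n * d * b) * d
        = (c + t * d) * (a * d - b * c) + b * (c ^ 2 + t * c * d + n * d ^ 2) := by ring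
    have h1 : val (((c + t * d) * a + n * d * b) * d) < 1 := by
      rw [e]
      exact Valuation.map_add_lt val
        (vlt_mul_right314 (vint_add314 h.hc (vint_mul314 h.ht h.hd)) hφ)
        (vlt_mul_right314 hb h.pi_lt_one)
    rwa [map_mul, h.d_unit, mul_one] at h1
  · apply h.div_pi
    have e : c * b - d * a = -(a * d - b * c) := by ring
    rwa [e, Valuation.map_neg]
  · rw [torM314_mul]
    congr 1
    · rw [eq_comm, ← mul_div_assoc, ← mul_div_assoc, ← sub_div, div_eq_iff hπ]
      ring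
    · rw [eq_comm, ← mul_div_assoc, ← mul_div_assoc, ← mul_div_assoc, ← add_div, ← add_div,
        div_eq_iff hπ]
      ring

/-- **The dichotomy**: an integral `(a, b)` whose norm is not a unit is divisible by `M` or by
`M̄`. -/
theorem dichotomy (h : LocData314 val t n c d) {a b : F} (ha : val a ≤ 1) (hb : val b ≤ 1)
    (hN : val (a ^ 2 + t * a * b + n * b ^ 2) < 1) :
    (∃ a₁ b₁ : F, val a₁ ≤ 1 ∧ val b₁ ≤ 1 ∧
      torM314 t n a b = torM314 t n c d * torM314 t n a₁ b₁) ∨
    (∃ a₁ b₁ : F, val a₁ ≤ 1 ∧ val b₁ ≤ 1 ∧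
      torM314 t n a b = torM314 t n (c + t * d) (-d) * torM314 t n a₁ b₁) := by
  have e : (a * d - b * c) * (a * -d - b * (c + t * d))
      = b ^ 2 * (c ^ 2 + t * c * d + n * d ^ 2) - d ^ 2 * (a ^ 2 + t * a * b + n * b ^ 2) := by
    ring
  have h1 : val ((a * d - b * c) * (a * -d - b * (c + t * d))) < 1 := by
    rw [e]
    exact Valuation.map_sub_lt val (vlt_mul_right314 (vint_pow314 hb 2) h.pi_lt_one)
      (vlt_mul_right314 (vint_pow314 h.hd 2) hN)
  have hi1 : val (a * d - b * c) ≤ 1 :=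
    vint_sub314 (vint_mul314 ha h.hd) (vint_mul314 hb h.hc)
  have hi2 : val (a * -d - b * (c + t * d)) ≤ 1 :=
    vint_sub314 (vint_mul314 ha h.conj.hd) (vint_mul314 hb h.conj.hc)
  rcases vprime314 hi1 hi2 h1 with h2 | h2
  · exact Or.inl (h.step hb h2)
  · exact Or.inr (h.conj.step hb h2)

/-- **The decomposition**: an integral `(a, b)` with `val N(a, b) = exp (-k)` is `M^i M̄^j κ`
with `i + j = k` and `κ` integral of unit norm. -/
theorem exists_decomp (h : LocData314 val t n c d) :
    ∀ (k : ℕ) (a b : F), val a ≤ 1 → val b ≤ 1 →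
      val (a ^ 2 + t * a * b + n * b ^ 2) = WithZero.exp (-(k : ℤ)) →
      ∃ (i j : ℕ) (a' b' : F), i + j = k ∧ val a' ≤ 1 ∧ val b' ≤ 1 ∧
        val (a' ^ 2 + t * a' * b' + n * b' ^ 2) = 1 ∧
        torM314 t n a b
          = torM314 t n c d ^ i * torM314 t n (c + t * d) (-d) ^ j * torM314 t n a' b' := by
  intro k
  induction k with
  | zero =>
    intro a b ha hb hN
    exact ⟨0, 0, a, b, rfl, ha, hb, by simpa using hN, by simp⟩
  | succ k ih =>
    intro a b ha hb hN
    have hlt : val (a ^ 2 + t * a * b + n * b ^ 2) < 1 := by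
      rw [hN, ← WithZero.exp_zero, WithZero.exp_lt_exp]
      push_cast
      omega
    -- the norm of the quotient
    have key : ∀ (c' d' a₁ b₁ : F),
        val (c' ^ 2 + t * c' * d' + n * d' ^ 2) = WithZero.exp (-1 : ℤ) →
        torM314 t n a b = torM314 t n c' d' * torM314 t n a₁ b₁ →
        val (a₁ ^ 2 + t * a₁ * b₁ + n * b₁ ^ 2) = WithZero.exp (-(k : ℤ)) := by
      intro c' d' a₁ b₁ hπ he
      have hdet := congrArg Matrix.det he
      rw [Matrix.det_mul, torM314_det, torM314_det, torM314_det] at hdet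
      have h2 := congrArg val hdet
      rw [map_mul, hN, hπ] at h2
      have h3 : (WithZero.exp (-((k + 1 : ℕ) : ℤ)) : WithZero (Multiplicative ℤ))
          = WithZero.exp (-1 : ℤ) * WithZero.exp (-(k : ℤ)) := by
        rw [← WithZero.exp_add]
        congr 1
        push_cast
        ring
      rw [h3] at h2
      exact (mul_left_cancel₀ WithZero.exp_ne_zero h2).symm
    rcases h.dichotomy ha hb hlt with ⟨a₁, b₁, ha₁, hb₁, he⟩ | ⟨a₁, b₁, ha₁, hb₁, he⟩
    · obtain ⟨i, j, a', b', hij, ha', hb', hN', he'⟩ :=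
        ih a₁ b₁ ha₁ hb₁ (key c d a₁ b₁ h.hnorm he)
      refine ⟨i + 1, j, a', b', by omega, ha', hb', hN', ?_⟩
      rw [he, he', pow_succ']
      simp only [mul_assoc]
    · obtain ⟨i, j, a', b', hij, ha', hb', hN', he'⟩ :=
        ih a₁ b₁ ha₁ hb₁ (key (c + t * d) (-d) a₁ b₁ h.conj.hnorm he)
      refine ⟨i, j + 1, a', b', by omega, ha', hb', hN', ?_⟩
      have hcomm : Commute (torM314 t n (c + t * d) (-d)) (torM314 t n c d) :=
        torM314_comm t n _ _ _ _
      rw [he, he', pow_succ', ← mul_assoc, ← mul_assoc, ← mul_assoc, (hcomm.pow_right i).eq]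

/-- The powers of `M`: integral, and `ψ(M^p) = d a + (c + t d) b` is a unit. -/
theorem pow_eq (h : LocData314 val t n c d) (p : ℕ) :
    ∃ a b : F, val a ≤ 1 ∧ val b ≤ 1 ∧ torM314 t n c d ^ p = torM314 t n a b ∧
      val (d * a + (c + t * d) * b) = 1 := by
  induction p with
  | zero =>
    refine ⟨1, 0, le_of_eq (map_one val), by simp, by rw [pow_zero, torM314_one], ?_⟩
    simpa using h.d_unit
  | succ p ih =>
    obtain ⟨a, b, ha, hb, he, hψ⟩ := ih
    refine ⟨a * c - n * b * d, a * d + b * c + t * b * d, ?_, ?_, ?_, ?_⟩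
    · exact vint_sub314 (vint_mul314 ha h.hc) (vint_mul314 (vint_mul314 h.hn hb) h.hd)
    · exact vint_add314 (vint_add314 (vint_mul314 ha h.hd) (vint_mul314 hb h.hc))
        (vint_mul314 (vint_mul314 h.ht hb) h.hd)
    · rw [pow_succ, he, torM314_mul]
    · have e : d * (a * c - n * b * d) + (c + t * d) * (a * d + b * c + t * b * d)
          = (d * a + (c + t * d) * b) * (2 * c + t * d)
            - b * (c ^ 2 + t * c * d + n * d ^ 2) := by ring
      have h1 : val ((d * a + (c + t * d) * b) * (2 * c + t * d)) = 1 := by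
        rw [map_mul, hψ, h.two_c_unit, one_mul]
      have h2 : val (b * (c ^ 2 + t * c * d + n * d ^ 2)) < 1 :=
        vlt_mul_right314 hb h.pi_lt_one
      rw [e, Valuation.map_sub_eq_of_lt_left val (by rw [h1]; exact h2), h1]

/-- `M̄` does not divide `M^p`. -/
theorem not_dvd_pow (h : LocData314 val t n c d) (p : ℕ) (a' b' : F) (hb' : val b' ≤ 1) :
    torM314 t n c d ^ p ≠ torM314 t n (c + t * d) (-d) * torM314 t n a' b' := by
  intro he
  obtain ⟨a, b, _, _, hp, hψ⟩ := h.pow_eq p
  rw [hp, torM314_mul] at he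
  obtain ⟨h1, h2⟩ := torM314_inj t n he
  have e : d * a + (c + t * d) * b = b' * (c ^ 2 + t * c * d + n * d ^ 2) := by
    rw [h1, h2]; ring
  rw [e] at hψ
  have h3 := vlt_mul_right314 hb' h.pi_lt_one
  rw [hψ] at h3
  exact lt_irrefl _ h3

end LocData314

end Local

end Fermat.Agent.LT.A2.H314

end
-- ===== PACK-END LT/A2/H314/TorLocal.lean

-- ===== PACK-BEGIN LT/H701/Core.lean
section



/-!
# Row LT, block IDENT (helper701): the Clifford/Schur core for `GL₂(𝔽₃)`

`core_h701`: two homomorphisms `φ₁ φ₂ : GL₂(𝔽₃) →* GL₂(ℂ)` with `φ₁ (-1) = φ₂ (-1) = -1` (two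
"genuine" two-dimensional representations) have the same trace up to the sign character
`g ↦ s ^ [det g ≠ 1]`, `s ∈ {1, -1}`.
-/

set_option autoImplicit false

open Matrix

namespace Fermat.Agent.LT.H701

theorem det_gi_h701 : Matrix.GeneralLinearGroup.det gi_h701 = 1 := Units.ext (by decide)

theorem det_gj_h701 : Matrix.GeneralLinearGroup.det gj_h701 = 1 := Units.ext (by decide)

theorem gi_pow_four_h701 : gi_h701 ^ 4 = 1 := Units.ext (by decide)

theorem gj_pow_four_h701 : gj_h701 ^ 4 = 1 := Units.ext (by decide)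

/-- Conjugation-invariance of the condition defining `Q8`. -/
theorem q8_conj_h701 (g x : GL (Fin 2) (ZMod 3)) (hdet : Matrix.GeneralLinearGroup.det x = 1)
    (h4 : x ^ 4 = 1) :
    Matrix.GeneralLinearGroup.det (g⁻¹ * x * g) = 1 ∧ (g⁻¹ * x * g) ^ 4 = 1 := by
  constructor
  · rw [map_mul, map_mul, map_inv, hdet, mul_one, inv_mul_cancel]
  · have : g⁻¹ * x * g = g⁻¹ * x * g⁻¹⁻¹ := by rw [inv_inv]
    rw [this, conj_pow, h4, mul_one, inv_inv, inv_mul_cancel]

/-- A genuine two-dimensional representation of `GL₂(𝔽₃)` is conjugate to one in standard form on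
`i`, `j`. -/
theorem exists_conj_std_h701 (φ : GL (Fin 2) (ZMod 3) →* GL (Fin 2) ℂ) (h : φ (-1) = -1) :
    ∃ ψ : GL (Fin 2) (ZMod 3) →* GL (Fin 2) ℂ,
      (∀ g, (ψ g).val.trace = (φ g).val.trace) ∧ (∀ g, (ψ g).val.det = (φ g).val.det) ∧
        (ψ gi_h701).val = stdD_h701 ∧ (ψ gj_h701).val = stdE_h701 := by
  have hA : (φ gi_h701).val * (φ gi_h701).val = -1 := by
    rw [← Units.val_mul, ← map_mul, gi_mul_gi_h701, h]
    rfl
  have hB : (φ gj_h701).val * (φ gj_h701).val = -1 := by
    rw [← Units.val_mul, ← map_mul, gj_mul_gj_h701, h]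
    rfl
  have hAB : (φ gi_h701).val * (φ gj_h701).val = -((φ gj_h701).val * (φ gi_h701).val) := by
    rw [← Units.val_mul, ← map_mul, gi_mul_gj_h701, map_mul, map_mul, h]
    simp
  obtain ⟨P, hP, hPA, hPB⟩ := exists_stdForm_h701 _ _ hA hB hAB
  let Pu : GL (Fin 2) ℂ := Matrix.GeneralLinearGroup.mkOfDetNeZero P hP
  have hPu : (Pu : Matrix (Fin 2) (Fin 2) ℂ) = P := rfl
  have hinv : (Pu⁻¹ : GL (Fin 2) ℂ).val * P = 1 := by
    rw [← hPu, ← Units.val_mul, inv_mul_cancel]
    rfl
  refine ⟨(MulAut.conj Pu⁻¹).toMonoidHom.comp φ, fun g => ?_, fun g => ?_, ?_, ?_⟩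
  · simp only [MonoidHom.coe_comp, MulEquiv.coe_toMonoidHom, Function.comp_apply,
      MulAut.conj_apply, inv_inv, Units.val_mul]
    rw [Matrix.trace_mul_cycle, ← Units.val_mul, mul_inv_cancel, Units.val_one, Matrix.one_mul]
  · simp only [MonoidHom.coe_comp, MulEquiv.coe_toMonoidHom, Function.comp_apply,
      MulAut.conj_apply, inv_inv, Units.val_mul]
    rw [Matrix.det_mul, Matrix.det_mul, mul_comm, ← mul_assoc, ← Matrix.det_mul,
      ← Units.val_mul, mul_inv_cancel, Units.val_one, Matrix.det_one, one_mul]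
  · simp only [MonoidHom.coe_comp, MulEquiv.coe_toMonoidHom, Function.comp_apply,
      MulAut.conj_apply, inv_inv, Units.val_mul]
    rw [hPu, Matrix.mul_assoc, hPA, ← Matrix.mul_assoc, hinv, Matrix.one_mul]
  · simp only [MonoidHom.coe_comp, MulEquiv.coe_toMonoidHom, Function.comp_apply,
      MulAut.conj_apply, inv_inv, Units.val_mul]
    rw [hPu, Matrix.mul_assoc, hPB, ← Matrix.mul_assoc, hinv, Matrix.one_mul]

/-- A unit whose matrix is scalar is central. -/
theorem central_of_scalar_h701 (c : GL (Fin 2) ℂ) (t : ℂ)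
    (hc : c.val = t • (1 : Matrix (Fin 2) (Fin 2) ℂ)) (y : GL (Fin 2) ℂ) : c * y = y * c := by
  apply Units.ext
  rw [Units.val_mul, Units.val_mul, hc]
  simp

/-- **Clifford/Schur core.** -/
theorem core_h701 (φ₁ φ₂ : GL (Fin 2) (ZMod 3) →* GL (Fin 2) ℂ)
    (h₁ : φ₁ (-1) = -1) (h₂ : φ₂ (-1) = -1) :
    ∃ s : ℂ, (s = 1 ∨ s = -1) ∧ ∀ g : GL (Fin 2) (ZMod 3),
      (φ₁ g).val.trace =
        (if Matrix.GeneralLinearGroup.det g = 1 then 1 else s) * (φ₂ g).val.trace ∧
      (φ₁ g).val.det = (φ₂ g).val.det := by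
  obtain ⟨ψ₁, ht₁, hd₁, hi₁, hj₁⟩ := exists_conj_std_h701 φ₁ h₁
  obtain ⟨ψ₂, ht₂, hd₂, hi₂, hj₂⟩ := exists_conj_std_h701 φ₂ h₂
  have hi : ψ₁ gi_h701 = ψ₂ gi_h701 := Units.ext (hi₁.trans hi₂.symm)
  have hj : ψ₁ gj_h701 = ψ₂ gj_h701 := Units.ext (hj₁.trans hj₂.symm)
  have hcl : Subgroup.closure ({gi_h701, gj_h701} : Set (GL (Fin 2) (ZMod 3))) ≤
      ψ₁.eqLocus ψ₂ := by
    rw [Subgroup.closure_le]
    intro x hx
    rcases hx with hx | hx
    · rw [hx]; exact hi
    · rw [Set.mem_singleton_iff.mp hx]; exact hj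
  have hq8 : ∀ y : GL (Fin 2) (ZMod 3), Matrix.GeneralLinearGroup.det y = 1 → y ^ 4 = 1 →
      ψ₁ y = ψ₂ y := fun y hy hy4 => hcl (mem_closure_of_q8_h701 y hy hy4)
  -- the comparison cocycle
  have hcomm : ∀ (g x : GL (Fin 2) (ZMod 3)), Matrix.GeneralLinearGroup.det x = 1 → x ^ 4 = 1 →
      (ψ₁ g * (ψ₂ g)⁻¹) * ψ₂ x = ψ₂ x * (ψ₁ g * (ψ₂ g)⁻¹) := by
    intro g x hx hx4
    obtain ⟨hy, hy4⟩ := q8_conj_h701 g x hx hx4
    have e := hq8 _ hy hy4
    have ex := hq8 x hx hx4
    rw [map_mul, map_mul, map_mul, map_mul, map_inv, map_inv, ex] at e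
    -- e : (ψ₁ g)⁻¹ * ψ₂ x * ψ₁ g = (ψ₂ g)⁻¹ * ψ₂ x * ψ₂ g
    have e2 : ψ₂ x * ψ₁ g = ψ₁ g * ((ψ₂ g)⁻¹ * ψ₂ x * ψ₂ g) := by
      rw [← e]
      group
    calc (ψ₁ g * (ψ₂ g)⁻¹) * ψ₂ x
        = ψ₁ g * ((ψ₂ g)⁻¹ * ψ₂ x * ψ₂ g) * (ψ₂ g)⁻¹ := by group
      _ = ψ₂ x * ψ₁ g * (ψ₂ g)⁻¹ := by rw [← e2]
      _ = ψ₂ x * (ψ₁ g * (ψ₂ g)⁻¹) := by group
  have hscal : ∀ g : GL (Fin 2) (ZMod 3),
      (ψ₁ g * (ψ₂ g)⁻¹).val =
        (ψ₁ g * (ψ₂ g)⁻¹).val 0 0 • (1 : Matrix (Fin 2) (Fin 2) ℂ) := by
    intro g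
    apply scalar_of_commute_std_h701
    · have := congrArg Units.val (hcomm g gi_h701 det_gi_h701 gi_pow_four_h701)
      rw [Units.val_mul (ψ₁ g * (ψ₂ g)⁻¹) (ψ₂ gi_h701),
        Units.val_mul (ψ₂ gi_h701) (ψ₁ g * (ψ₂ g)⁻¹), hi₂] at this
      exact this
    · have := congrArg Units.val (hcomm g gj_h701 det_gj_h701 gj_pow_four_h701)
      rw [Units.val_mul (ψ₁ g * (ψ₂ g)⁻¹) (ψ₂ gj_h701),
        Units.val_mul (ψ₂ gj_h701) (ψ₁ g * (ψ₂ g)⁻¹), hj₂] at this
      exact this
  have hcent : ∀ (g : GL (Fin 2) (ZMod 3)) (y : GL (Fin 2) ℂ),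
      (ψ₁ g * (ψ₂ g)⁻¹) * y = y * (ψ₁ g * (ψ₂ g)⁻¹) :=
    fun g y => central_of_scalar_h701 _ _ (hscal g) y
  let c : GL (Fin 2) (ZMod 3) →* GL (Fin 2) ℂ :=
    MonoidHom.mk' (fun g => ψ₁ g * (ψ₂ g)⁻¹) (by
      intro a b
      show ψ₁ (a * b) * (ψ₂ (a * b))⁻¹ = ψ₁ a * (ψ₂ a)⁻¹ * (ψ₁ b * (ψ₂ b)⁻¹)
      rw [map_mul, map_mul, _root_.mul_inv_rev]
      calc ψ₁ a * ψ₁ b * ((ψ₂ b)⁻¹ * (ψ₂ a)⁻¹)
          = ψ₁ a * ((ψ₁ b * (ψ₂ b)⁻¹) * (ψ₂ a)⁻¹) := by group
        _ = ψ₁ a * ((ψ₂ a)⁻¹ * (ψ₁ b * (ψ₂ b)⁻¹)) := by rw [hcent b]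
        _ = ψ₁ a * (ψ₂ a)⁻¹ * (ψ₁ b * (ψ₂ b)⁻¹) := by group)
  have hc : ∀ g, c g = ψ₁ g * (ψ₂ g)⁻¹ := fun g => rfl
  have key := hom_eq_h701 c (by rw [hc, hi, mul_inv_cancel]) (by rw [hc, hj, mul_inv_cancel])
    (by rw [hc, hc]; exact hcent gd_h701 _)
  set s : ℂ := (c gd_h701).val 0 0 with hs
  have hsval : (c gd_h701).val = s • (1 : Matrix (Fin 2) (Fin 2) ℂ) := hscal gd_h701
  have hs2 : s * s = 1 := by
    have h1 : c gd_h701 * c gd_h701 = 1 := by rw [← map_mul, gd_mul_gd_h701, map_one]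
    have h2 := congrArg Units.val h1
    rw [Units.val_mul, hsval] at h2
    have h3 := congrFun (congrFun h2 0) 0
    simpa using h3
  refine ⟨s, ?_, fun g => ?_⟩
  · have : (s - 1) * (s + 1) = 0 := by linear_combination hs2
    rcases mul_eq_zero.mp this with h | h
    · exact Or.inl (sub_eq_zero.mp h)
    · exact Or.inr (eq_neg_of_add_eq_zero_left h)
  · rw [← ht₁, ← ht₂, ← hd₁, ← hd₂]
    have hψ : ψ₁ g = c g * ψ₂ g := by rw [hc, inv_mul_cancel_right]
    by_cases hg : Matrix.GeneralLinearGroup.det g = 1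
    · rw [if_pos hg, one_mul, hψ, (key g).1 hg, one_mul]
      exact ⟨rfl, rfl⟩
    · rw [if_neg hg, hψ, (key g).2 hg, Units.val_mul, hsval, Matrix.smul_mul, Matrix.one_mul,
        Matrix.trace_smul, smul_eq_mul, Matrix.det_smul]
      refine ⟨rfl, ?_⟩
      simp only [Fintype.card_fin]
      rw [pow_two, hs2, one_mul]

end Fermat.Agent.LT.H701

end
-- ===== PACK-END LT/H701/Core.lean

-- ===== PACK-BEGIN LT/A2/H444/Approx.lean
section


/-!
# Row LT, tower A2, leaf `FinOrdC` (helper444), part 2: weak approximation and the density theorem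

OFF-MAIN.  Mathlib only (on top of `Idele.lean`).

* `denseRange_diag444` : weak approximation at the places of `∞ ∪ S` (`S` a finite set of finite
  places), from Mathlib's abstract `AbsoluteValue.denseRange_algebraMap_pi`.
* `dense_comp_principal444` : the same for the unit groups.
* `idele_char_trivial444` : a continuous character of the idele group of `K` which is trivial on
  the principal ideles and on the ideles supported at a single finite place `v ∉ S` is trivial.
-/

set_option autoImplicit false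
set_option linter.unusedVariables false

open IsDedekindDomain NumberField Filter Topology

noncomputable section

namespace Fermat.Agent.LT.A2.H444

variable {K : Type} [Field K] [NumberField K]

/-- The absolute values of the places in `∞ ∪ S`. -/
def av444 (S : Finset (HeightOneSpectrum (𝓞 K))) :
    InfinitePlace K ⊕ {v : HeightOneSpectrum (𝓞 K) // v ∈ S} → AbsoluteValue K ℝ :=
  Sum.elim (fun w => w.1) (fun v => NumberField.HeightOneSpectrum.adicAbv K v.1)

theorem adicAbv_lt_one444 (v : HeightOneSpectrum (𝓞 K)) {x : 𝓞 K} (hx : x ∈ v.asIdeal) :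
    NumberField.HeightOneSpectrum.adicAbv K v (algebraMap (𝓞 K) K x) < 1 :=
  (v.adicAbv_coe_lt_one_iff (NumberField.HeightOneSpectrum.one_lt_absNorm_nnreal v) x).mpr hx

theorem adicAbv_eq_one444 (v : HeightOneSpectrum (𝓞 K)) {x : 𝓞 K} (hx : x ∉ v.asIdeal) :
    NumberField.HeightOneSpectrum.adicAbv K v (algebraMap (𝓞 K) K x) = 1 :=
  (v.adicAbv_coe_eq_one_iff (NumberField.HeightOneSpectrum.one_lt_absNorm_nnreal v) x).mpr hx

theorem av444_nontrivial (S : Finset (HeightOneSpectrum (𝓞 K))) (i) :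
    (av444 S i).IsNontrivial := by
  rcases i with w | v
  · exact w.isNontrivial
  · obtain ⟨x, hx, hx0⟩ := Submodule.exists_mem_ne_zero_of_ne_bot v.1.ne_bot
    refine ⟨algebraMap (𝓞 K) K x, ?_, ?_⟩
    · intro h
      exact hx0 ((FaithfulSMul.algebraMap_eq_zero_iff (𝓞 K) K).mp h)
    · exact (adicAbv_lt_one444 v.1 hx).ne

theorem av444_pairwise (S : Finset (HeightOneSpectrum (𝓞 K))) :
    Pairwise fun i j => ¬ (av444 S i).IsEquiv (av444 S j) := by
  intro i j hij heq
  rcases i with w | v <;> rcases j with w' | v'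
  · exact hij (congrArg Sum.inl (InfinitePlace.eq_iff_isEquiv.mpr heq))
  · -- archimedean against non-archimedean
    have h := (heq (2 : K) 1).mpr (by
      show NumberField.HeightOneSpectrum.adicAbv K v'.1 (2 : K) ≤
        NumberField.HeightOneSpectrum.adicAbv K v'.1 1
      rw [map_one]
      exact_mod_cast NumberField.HeightOneSpectrum.adicAbv_natCast_le_one K v'.1 2)
    have h2 : (w.1 : AbsoluteValue K ℝ) (2 : K) = 2 := by
      have := w.2
      obtain ⟨φ, hφ⟩ := this
      rw [← hφ, NumberField.place_apply, map_ofNat]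
      norm_num
    have h3 : (w.1 : AbsoluteValue K ℝ) (2 : K) ≤ (w.1 : AbsoluteValue K ℝ) 1 := h
    rw [h2, map_one] at h3
    norm_num at h3
  · have h := (heq (2 : K) 1).mp (by
      show NumberField.HeightOneSpectrum.adicAbv K v.1 (2 : K) ≤
        NumberField.HeightOneSpectrum.adicAbv K v.1 1
      rw [map_one]
      exact_mod_cast NumberField.HeightOneSpectrum.adicAbv_natCast_le_one K v.1 2)
    have h2 : (w'.1 : AbsoluteValue K ℝ) (2 : K) = 2 := by
      have := w'.2
      obtain ⟨φ, hφ⟩ := this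
      rw [← hφ, NumberField.place_apply, map_ofNat]
      norm_num
    have h3 : (w'.1 : AbsoluteValue K ℝ) (2 : K) ≤ (w'.1 : AbsoluteValue K ℝ) 1 := h
    rw [h2, map_one] at h3
    norm_num at h3
  · have hne : v.1 ≠ v'.1 := fun h => hij (congrArg Sum.inr (Subtype.ext h))
    have hnle : ¬ v.1.asIdeal ≤ v'.1.asIdeal := by
      intro hle
      have := v.1.isMaximal.eq_of_le v'.1.isPrime.ne_top hle
      exact hne (HeightOneSpectrum.ext this)
    obtain ⟨x, hx, hx'⟩ := Set.not_subset.mp hnle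
    have h := (heq 1 (algebraMap (𝓞 K) K x)).mpr (by
      show NumberField.HeightOneSpectrum.adicAbv K v'.1 1 ≤
        NumberField.HeightOneSpectrum.adicAbv K v'.1 (algebraMap (𝓞 K) K x)
      rw [map_one, adicAbv_eq_one444 v'.1 hx'])
    have h3 : NumberField.HeightOneSpectrum.adicAbv K v.1 1 ≤
        NumberField.HeightOneSpectrum.adicAbv K v.1 (algebraMap (𝓞 K) K x) := h
    rw [map_one] at h3
    exact absurd (adicAbv_lt_one444 v.1 hx) (not_lt.mpr h3)


/-- The product of the completions at the places of `∞ ∪ S`. -/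
abbrev X444 (S : Finset (HeightOneSpectrum (𝓞 K))) : Type :=
  ((w : InfinitePlace K) → w.Completion) ×
    ((v : {v : HeightOneSpectrum (𝓞 K) // v ∈ S}) → v.1.adicCompletion K)

/-- The diagonal embedding of `K` in the product of the completions at the places of `∞ ∪ S`. -/
def diag444 (S : Finset (HeightOneSpectrum (𝓞 K))) (x : K) : X444 S :=
  (fun w => (algebraMap K (Ad444 K) x).1 w, fun v => (algebraMap K (Ad444 K) x).2 v.1)

/-- The embedding of `K` with the `v`-adic absolute value in the completion. -/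
def embFin444 (v : HeightOneSpectrum (𝓞 K)) :
    WithAbs (NumberField.HeightOneSpectrum.adicAbv K v) →+* v.adicCompletion K :=
  (NumberField.FinitePlace.embedding v).comp
    (WithAbs.equiv (NumberField.HeightOneSpectrum.adicAbv K v)).toRingHom

theorem continuous_embFin444 (v : HeightOneSpectrum (𝓞 K)) : Continuous (embFin444 (K := K) v) := by
  refine (AddMonoidHomClass.isometry_of_norm (embFin444 v) (fun x => ?_)).continuous
  show ‖NumberField.FinitePlace.embedding v (WithAbs.equiv _ x)‖ = ‖x‖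
  rw [NumberField.FinitePlace.norm_embedding]
  rfl

theorem denseRange_embFin444 (v : HeightOneSpectrum (𝓞 K)) : DenseRange (embFin444 (K := K) v) := by
  have h : Set.range (embFin444 (K := K) v) = Set.range (algebraMap K (v.adicCompletion K)) := by
    ext y
    constructor
    · rintro ⟨x, rfl⟩
      exact ⟨WithAbs.equiv _ x, rfl⟩
    · rintro ⟨x, rfl⟩
      exact ⟨(WithAbs.equiv _).symm x, by
        show NumberField.FinitePlace.embedding v (WithAbs.equiv _ ((WithAbs.equiv _).symm x)) = _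
        rw [RingEquiv.apply_symm_apply]
        rfl⟩
  rw [DenseRange, h]
  exact HeightOneSpectrum.denseRange_algebraMap K v

/-- **Weak approximation** at the places of `∞ ∪ S`. -/
theorem denseRange_diag444 (S : Finset (HeightOneSpectrum (𝓞 K))) :
    DenseRange (diag444 (K := K) S) := by
  have h0 := AbsoluteValue.denseRange_algebraMap_pi (av444_nontrivial S) (av444_pairwise S)
  let c1 : (w : InfinitePlace K) → WithAbs w.1 → w.Completion := fun w x => (x : w.Completion)
  let e1 : (w : InfinitePlace K) → WithAbs (av444 S (Sum.inl w)) → w.Completion :=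
    fun w x => c1 w x
  let e2 : (v : {v : HeightOneSpectrum (𝓞 K) // v ∈ S}) → WithAbs (av444 S (Sum.inr v)) →
      v.1.adicCompletion K := fun v x => embFin444 v.1 x
  have hd1 : DenseRange (Pi.map e1) :=
    DenseRange.piMap (fun w => InfinitePlace.Completion.denseRange_coe w)
  have hd2 : DenseRange (Pi.map e2) := DenseRange.piMap (fun v => denseRange_embFin444 v.1)
  have hc1 : Continuous (Pi.map e1) :=
    Continuous.piMap (fun w => InfinitePlace.Completion.continuous_coe w)
  have hc2 : Continuous (Pi.map e2) := Continuous.piMap (fun v => continuous_embFin444 v.1)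
  let hh := (Homeomorph.sumPiEquivProdPi (InfinitePlace K)
    {v : HeightOneSpectrum (𝓞 K) // v ∈ S} (fun i => WithAbs (av444 S i)))
  have hd3 := ((hd1.prodMap hd2).comp hh.surjective.denseRange (hc1.prodMap hc2)).comp h0
    ((hc1.prodMap hc2).comp hh.continuous)
  have heq : diag444 (K := K) S = (Prod.map (Pi.map e1) (Pi.map e2) ∘ ⇑hh) ∘
      ⇑(algebraMap K ((i : InfinitePlace K ⊕ {v : HeightOneSpectrum (𝓞 K) // v ∈ S}) →
        WithAbs (av444 S i))) := by
    funext x
    rfl
  rw [heq]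
  exact hd3


/-! ## Units -/

/-- The product of the unit groups of the completions at the places of `∞ ∪ S`. -/
abbrev Xu444 (S : Finset (HeightOneSpectrum (𝓞 K))) : Type :=
  ((w : InfinitePlace K) → (w.Completion)ˣ) ×
    ((v : {v : HeightOneSpectrum (𝓞 K) // v ∈ S}) → (v.1.adicCompletion K)ˣ)

/-- The underlying elements. -/
def valX444 (S : Finset (HeightOneSpectrum (𝓞 K))) : Xu444 (K := K) S → X444 (K := K) S :=
  Prod.map (Pi.map (fun w => (Units.val : (w.Completion)ˣ → w.Completion)))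
    (Pi.map (fun v => (Units.val : (v.1.adicCompletion K)ˣ → v.1.adicCompletion K)))

theorem isOpenEmbedding_valX444 (S : Finset (HeightOneSpectrum (𝓞 K))) :
    IsOpenEmbedding (valX444 (K := K) S) :=
  IsOpenEmbedding.prodMap (IsOpenEmbedding.piMap (fun w => Units.isOpenEmbedding_val))
    (IsOpenEmbedding.piMap (fun v => Units.isOpenEmbedding_val))

/-- The principal idele of `α ∈ Kˣ`. -/
def principal444 : Kˣ →* (Ad444 K)ˣ := Units.map (algebraMap K (Ad444 K)).toMonoidHom

/-- The components of an idele at the places of `∞ ∪ S`. -/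
def comp444 (S : Finset (HeightOneSpectrum (𝓞 K))) (z : (Ad444 K)ˣ) : Xu444 (K := K) S :=
  (fun w => unitInf444 w z, fun v => unitFin444 v.1 z)

theorem valX444_comp_principal (S : Finset (HeightOneSpectrum (𝓞 K))) (α : Kˣ) :
    valX444 S (comp444 S (principal444 α)) = diag444 S (α : K) := rfl

/-- The components of the principal ideles are dense in the product of the unit groups of the
completions at the places of `∞ ∪ S`. -/
theorem dense_comp_principal444 (S : Finset (HeightOneSpectrum (𝓞 K))) :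
    DenseRange (fun α : Kˣ => comp444 S (principal444 α)) := by
  rw [DenseRange, dense_iff_inter_open]
  intro O hO hOne
  have hopen : IsOpen (valX444 S '' O) := (isOpenEmbedding_valX444 S).isOpenMap O hO
  have hne : (valX444 S '' O).Nonempty := hOne.image _
  obtain ⟨y, hyO, x, rfl⟩ := (denseRange_diag444 (K := K) S).inter_open_nonempty _ hopen hne
  obtain ⟨u, huO, hu⟩ := hyO
  obtain ⟨w₀⟩ : Nonempty (InfinitePlace K) := inferInstance
  have hx : x ≠ 0 := by
    rintro rfl
    have h1 := congrArg (fun t : X444 (K := K) S => t.1 w₀) hu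
    have h2 : ((u.1 w₀ : (w₀.Completion)ˣ) : w₀.Completion) = 0 := by
      rw [show ((u.1 w₀ : (w₀.Completion)ˣ) : w₀.Completion) = (valX444 S u).1 w₀ from rfl]
      rw [hu]
      show (algebraMap K (Ad444 K) 0).1 w₀ = 0
      rw [map_zero]
      rfl
    exact (u.1 w₀).ne_zero h2
  refine ⟨u, huO, Units.mk0 x hx, ?_⟩
  apply (isOpenEmbedding_valX444 S).injective
  rw [hu]
  rfl


/-! ## Gluing local components at the places of `∞ ∪ S` -/

/-- The idele with prescribed components at the places of `∞ ∪ S` and `1` elsewhere. -/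
def glue444 (S : Finset (HeightOneSpectrum (𝓞 K))) (u : Xu444 (K := K) S) : (Ad444 K)ˣ :=
  (∏ w ∈ (Finset.univ : Finset (InfinitePlace K)), infIdele444 w (u.1 w)) *
    (∏ v ∈ S.attach, finIdele444 v.1 (u.2 v))

theorem continuous_glue444 (S : Finset (HeightOneSpectrum (𝓞 K))) :
    Continuous (glue444 (K := K) S) := by
  unfold glue444
  refine Continuous.mul ?_ ?_
  · refine continuous_finsetProd _ (fun w _ => ?_)
    exact (continuous_infIdele444 w).comp ((continuous_apply w).comp continuous_fst)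
  · refine continuous_finsetProd _ (fun v _ => ?_)
    exact (continuous_finIdele444 v.1).comp ((continuous_apply v).comp continuous_snd)

theorem glue444_inf (S : Finset (HeightOneSpectrum (𝓞 K))) (u : Xu444 (K := K) S)
    (w : InfinitePlace K) :
    ((glue444 S u : (Ad444 K)ˣ) : Ad444 K).1 w = (u.1 w : w.Completion) := by
  unfold glue444
  have h2 : ((∏ v ∈ S.attach, finIdele444 v.1 (u.2 v) : (Ad444 K)ˣ) : Ad444 K).1 w = 1 := by
    rw [prod_inf444]
    exact Finset.prod_eq_one (fun v _ => finIdele444_inf v.1 (u.2 v) w)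
  rw [mul_inf444, prod_infIdele_inf_mem444 (fun w => u.1 w) (Finset.mem_univ w), h2, mul_one]

theorem glue444_fin_mem (S : Finset (HeightOneSpectrum (𝓞 K))) (u : Xu444 (K := K) S)
    (v : {v : HeightOneSpectrum (𝓞 K) // v ∈ S}) :
    ((glue444 S u : (Ad444 K)ˣ) : Ad444 K).2 v.1 = (u.2 v : v.1.adicCompletion K) := by
  unfold glue444
  have h2 : ((∏ v' ∈ S.attach, finIdele444 v'.1 (u.2 v') : (Ad444 K)ˣ) : Ad444 K).2 v.1 =
      (u.2 v : v.1.adicCompletion K) := by
    rw [prod_fin444, Finset.prod_eq_single_of_mem v (Finset.mem_attach S v), finIdele444_self]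
    intro v' _ hne
    refine finIdele444_of_ne ?_ (u.2 v')
    intro h
    exact hne (Subtype.ext h.symm)
  rw [mul_fin444, prod_infIdele_fin444 _ (fun w => u.1 w), one_mul, h2]

theorem glue444_fin_notMem (S : Finset (HeightOneSpectrum (𝓞 K))) (u : Xu444 (K := K) S)
    {v : HeightOneSpectrum (𝓞 K)} (hv : v ∉ S) :
    ((glue444 S u : (Ad444 K)ˣ) : Ad444 K).2 v = 1 := by
  unfold glue444
  have h2 : ((∏ v' ∈ S.attach, finIdele444 v'.1 (u.2 v') : (Ad444 K)ˣ) : Ad444 K).2 v = 1 := by
    rw [prod_fin444]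
    refine Finset.prod_eq_one (fun v' _ => ?_)
    refine finIdele444_of_ne ?_ (u.2 v')
    rintro rfl
    exact hv v'.2
  rw [mul_fin444, prod_infIdele_fin444 _ (fun w => u.1 w), one_mul, h2]

variable {ψ : (Ad444 K)ˣ →* ℂˣ} {S : Finset (HeightOneSpectrum (𝓞 K))}

/-- A character trivial at the places outside `S` only depends on the components at the places
of `∞ ∪ S`. -/
theorem psi_eq_psi_glue444 (hc : Continuous ψ) (h : TrivAway444 ψ S) (z : (Ad444 K)ˣ) :
    ψ z = ψ (glue444 S (comp444 S z)) := by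
  have hz : z = glue444 S (comp444 S z) * ((glue444 S (comp444 S z))⁻¹ * z) := by
    rw [mul_inv_cancel_left]
  have h1 : ψ ((glue444 S (comp444 S z))⁻¹ * z) = 1 := by
    refine psi_of_triv444 hc h _ (fun w => ?_) (fun v hv => ?_)
    · rw [mul_inf444, inv_inf444, glue444_inf]
      show ((z : Ad444 K).1 w)⁻¹ * (z : Ad444 K).1 w = 1
      exact inv_mul_cancel₀ (unitInf444 w z).ne_zero
    · rw [mul_fin444, inv_fin444, glue444_fin_mem S _ ⟨v, hv⟩]
      show ((z : Ad444 K).2 v)⁻¹ * (z : Ad444 K).2 v = 1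
      exact inv_mul_cancel₀ (unitFin444 v z).ne_zero
  conv_lhs => rw [hz, map_mul, h1, mul_one]

/-- **Density theorem.**  A continuous character of the idele group which is trivial on the
principal ideles and on the ideles supported at a single finite place `v ∉ S` is trivial. -/
theorem idele_char_trivial444 (hc : Continuous ψ)
    (hK : ∀ x : Kˣ, ψ (Units.map (algebraMap K (Ad444 K)).toMonoidHom x) = 1)
    (h : TrivAway444 ψ S) (z : (Ad444 K)ˣ) : ψ z = 1 := by
  have hclosed : IsClosed {u : Xu444 (K := K) S | ψ (glue444 S u) = 1} :=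
    isClosed_eq (hc.comp (continuous_glue444 S)) continuous_const
  have hsub : Set.range (fun α : Kˣ => comp444 S (principal444 α)) ⊆
      {u : Xu444 (K := K) S | ψ (glue444 S u) = 1} := by
    rintro _ ⟨α, rfl⟩
    show ψ (glue444 S (comp444 S (principal444 α))) = 1
    rw [← psi_eq_psi_glue444 hc h]
    exact hK α
  have hall : ∀ u : Xu444 (K := K) S, ψ (glue444 S u) = 1 := by
    intro u
    have := (dense_comp_principal444 (K := K) S).closure_eq
    have hu : u ∈ closure (Set.range (fun α : Kˣ => comp444 S (principal444 α))) := by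
      rw [(dense_comp_principal444 (K := K) S).closure_range]
      trivial
    exact (closure_minimal hsub hclosed) hu
  rw [psi_eq_psi_glue444 hc h]
  exact hall _

end Fermat.Agent.LT.A2.H444

end
end
-- ===== PACK-END LT/A2/H444/Approx.lean

-- ===== PACK-BEGIN LT/T3/Spec.lean
section



/-!
# Row LT, tower T3 (architect helper14): adelic POISSON summation + EISENSTEIN-KILLING (EK)

OFF-MAIN.  Definitions, frozen Props, PROVED top.  No `sorry`, no opaque constant, nothing assumed.

Tower T3 of board v2 was "Eisenstein series, `M(s)`, spectral decomposition, Tate's thesis".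
Following the memo of helper261 (`origin/helper261@a08a0013d coord/LT-A3-EK-helper261.md`,
Lindenstrauss--Venkatesh, GAFA 17 (2007) §§3--4) the Eisenstein part is REPLACED by a condition on
the test function, `IsEK`, under which `R(f)` maps every automorphic function to a cuspidal one.
No Eisenstein series, no intertwining operator, no Hecke `L`-function is used by the towers above.

## What T3 delivers (`T3Out K`)

* `GoodCharExistsC K`, `PoissonNDC K` -- there is a continuous additive character of `𝔸_K`,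
  trivial on `K`, NON-DEGENERATE, with local conductor `𝒪_v` at almost all `v`; Poisson summation
  in the form of Tate's thesis, Thm 4.2.1, for EVERY non-degenerate character trivial on `K` and
  the Haar measure of covolume one.  (Consumers: A2 = theta kernel over `E'`; T4/T5 step
  "Poisson over `N(K)`".)  The stronger forms `NonDegC`, `PoissonC`, `CondC` (for every
  non-trivial character trivial on `K`; they need strong approximation) are OPTIONAL:
  `T3OutStrong`.
* `EKCuspC K` -- if `f` is EK then `R(f)ψ` is cuspidal (sense of `A0.IsCuspidalFn`) for every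
  bounded continuous `ψ` on `GL₂(K) \ GL₂(𝔸_K)`.
* `EKIdealC K`, `EKStarC K` -- EK functions form a two-sided ideal of `C_c(GL₂(𝔸_K))` stable under
  `f ↦ f^*`.
* `EKExistC K` -- (K totally complex) for a level `𝔫`, a place `v₀ ∤ 𝔫` and a generator
  `α ≡ 1 mod 𝔫` of `𝔭_{v₀}^n` there is an EK function, supported at `{v₀} ∪ S_∞`, bi-invariant
  under `U(𝔫) K_∞`, which acts on every function that is spherical of parameter `0` at infinity
  and Hecke-eigen at `v₀` with Satake parameters `z₁, z₂` by a scalar `c(a,b)`, non-zero as soon as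
  `z₁ⁿ ≠ 1 ≠ z₂ⁿ`.

## Conventions

`Adl K`, `G K`, `finComp`, `infComp`, `InLevelGroup`, `IsArchCompact`, `IsArchPosScalar`,
`MeanValueComplex`, `MeanValueReal`, `IsHeckeEigenAt`, `IsCuspidalFn` are those of
`LT/H556/A0.lean` (helper556@0fa0be5a0, byte-identical copy).  All σ-algebras are Borel.
Measures are quantified universally (every Haar measure); no normalisation is chosen.
-/

set_option autoImplicit false

open IsDedekindDomain NumberField MeasureTheory
open Fermat.Agent.LT.H556.A0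

noncomputable section

namespace Fermat.Agent.LT.T3

variable (K : Type) [Field K] [NumberField K]

/-! ## Part A.  Additive characters and Poisson summation (Tate's thesis §§2.2, 4.1, 4.2) -/

/-- The diagonal embedding `K → 𝔸_K`. -/
abbrev emb : K →+* Adl K := algebraMap K (Adl K)

/-- A *standard character*: a continuous additive character of `𝔸_K`, trivial on `K`, not
identically `1`. -/
structure IsStdChar (ψ : AddChar (Adl K) Circle) : Prop where
  cont : Continuous ψ
  triv : ∀ ξ : K, ψ (emb K ξ) = 1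
  nontriv : ∃ x : Adl K, ψ x ≠ 1

/-- The Haar measure `μ` of `𝔸_K` gives `𝔸_K / K` the volume `1`. -/
def IsCovolOne {m : MeasurableSpace (Adl K)} (μ : Measure (Adl K)) : Prop :=
  ∃ D : Set (Adl K),
    IsAddFundamentalDomain ((algebraMap K (Adl K)).toAddMonoidHom.range) D μ ∧ μ D = 1

/-- The Fourier transform of `φ` with respect to `ψ` and `μ`:
`φ̂(y) = ∫ φ(x) ψ(xy) dμ(x)`. -/
def fourierAd {m : MeasurableSpace (Adl K)} (ψ : AddChar (Adl K) Circle) (μ : Measure (Adl K))
    (φ : Adl K → ℂ) (y : Adl K) : ℂ :=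
  ∫ x, φ x * ((ψ (x * y) : Circle) : ℂ) ∂μ

/-- Normal convergence of `∑_{ξ ∈ K} φ(x + ξ)` on compact sets. -/
def IsNormallySummable (φ : Adl K → ℂ) : Prop :=
  ∀ C : Set (Adl K), IsCompact C →
    ∃ b : K → ℝ, Summable b ∧ ∀ (ξ : K) (x : Adl K), x ∈ C → ‖φ (x + emb K ξ)‖ ≤ b ξ

/-- **T3.01', weak form** (Tate §4.1).  A standard character exists. -/
def StdCharExistsC : Prop :=
  ∃ ψ : AddChar (Adl K) Circle, IsStdChar K ψ

/-- `ψ` is non-degenerate: `ψ(x 𝔸_K) = 1` only for `x = 0` (equivalently: `ψ` is non-trivial on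
every local component `K_v`). -/
def IsNonDeg (ψ : AddChar (Adl K) Circle) : Prop :=
  ∀ x : Adl K, (∀ y : Adl K, ψ (x * y) = 1) → x = 0

/-- **T3.02, OPTIONAL** (strong approximation, Cassels--Fröhlich II §15: `K + K_v` is dense in
`𝔸_K` for every place `v`).  Every standard character is non-degenerate. -/
def NonDegC : Prop :=
  ∀ ψ : AddChar (Adl K) Circle, IsStdChar K ψ → IsNonDeg K ψ

/-- **T3.03', OPTIONAL** (Tate Thm 4.1.4, every standard character).  `K^⊥ = K`. -/
def PerpC : Prop :=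
  ∀ ψ : AddChar (Adl K) Circle, IsStdChar K ψ →
    ∀ x : Adl K, (∀ ξ : K, ψ (x * emb K ξ) = 1) → ∃ ξ₀ : K, x = emb K ξ₀

/-- **T3.03** (Tate Thm 4.1.4 for a non-degenerate character; abstract annihilator lemma: tube
lemma + "a finite vector space over an infinite field is zero").  `K^⊥ = K`. -/
def PerpNDC : Prop :=
  ∀ ψ : AddChar (Adl K) Circle, IsStdChar K ψ → IsNonDeg K ψ →
    ∀ x : Adl K, (∀ ξ : K, ψ (x * emb K ξ) = 1) → ∃ ξ₀ : K, x = emb K ξ₀

/-- **T3.04', OPTIONAL** (completeness of the characters `x ↦ ψ(xη)`, `η ∈ K`, on the compact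
group `𝔸_K / K`; Stone--Weierstrass + `PerpC`).  A continuous `K`-periodic function all of whose
Fourier coefficients vanish is zero. -/
def CompleteC : Prop :=
  letI : MeasurableSpace (Adl K) := borel (Adl K)
  ∀ ψ : AddChar (Adl K) Circle, IsStdChar K ψ →
  ∀ μ : Measure (Adl K), μ.IsAddHaarMeasure →
  ∀ D : Set (Adl K), IsAddFundamentalDomain ((algebraMap K (Adl K)).toAddMonoidHom.range) D μ →
  ∀ F : Adl K → ℂ, Continuous F → (∀ (ξ : K) (x : Adl K), F (x + emb K ξ) = F x) →
    (∀ η : K, ∫ x in D, F x * ((ψ (x * emb K η) : Circle) : ℂ) ∂μ = 0) →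
    ∀ x : Adl K, F x = 0

/-- **T3.04** for a non-degenerate character. -/
def CompleteNDC : Prop :=
  letI : MeasurableSpace (Adl K) := borel (Adl K)
  ∀ ψ : AddChar (Adl K) Circle, IsStdChar K ψ → IsNonDeg K ψ →
  ∀ μ : Measure (Adl K), μ.IsAddHaarMeasure →
  ∀ D : Set (Adl K), IsAddFundamentalDomain ((algebraMap K (Adl K)).toAddMonoidHom.range) D μ →
  ∀ F : Adl K → ℂ, Continuous F → (∀ (ξ : K) (x : Adl K), F (x + emb K ξ) = F x) →
    (∀ η : K, ∫ x in D, F x * ((ψ (x * emb K η) : Circle) : ℂ) ∂μ = 0) →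
    ∀ x : Adl K, F x = 0

/-- **T3.05** (unfolding).  The Fourier coefficients of the periodisation of `φ` are the values
of the Fourier transform of `φ` on `K`. -/
def UnfoldC : Prop :=
  letI : MeasurableSpace (Adl K) := borel (Adl K)
  ∀ ψ : AddChar (Adl K) Circle, IsStdChar K ψ →
  ∀ μ : Measure (Adl K), μ.IsAddHaarMeasure →
  ∀ D : Set (Adl K), IsAddFundamentalDomain ((algebraMap K (Adl K)).toAddMonoidHom.range) D μ →
  ∀ φ : Adl K → ℂ, Continuous φ → Integrable φ μ → IsNormallySummable K φ →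
    ∀ η : K, ∫ x in D, (∑' ξ : K, φ (x + emb K ξ)) * ((ψ (x * emb K η) : Circle) : ℂ) ∂μ
      = fourierAd K ψ μ φ (emb K η)

/-- **T3.06 = POISSON** (Tate Thm 4.2.1; Lemma 4.2.4; tower Prop).  For every NON-DEGENERATE
standard character `ψ`, the Haar measure `μ` of covolume one and every continuous integrable `φ`
such that `∑_ξ φ(x + ξ)` converges normally on compact sets and `∑_ξ |φ̂(ξ)| < ∞`:
`∑_{ξ ∈ K} φ(ξ) = ∑_{ξ ∈ K} φ̂(ξ)`. -/
def PoissonNDC : Prop :=
  letI : MeasurableSpace (Adl K) := borel (Adl K)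
  ∀ ψ : AddChar (Adl K) Circle, IsStdChar K ψ → IsNonDeg K ψ →
  ∀ μ : Measure (Adl K), μ.IsAddHaarMeasure → IsCovolOne K μ →
  ∀ φ : Adl K → ℂ, Continuous φ → Integrable φ μ → IsNormallySummable K φ →
    Summable (fun ξ : K => ‖fourierAd K ψ μ φ (emb K ξ)‖) →
    ∑' ξ : K, φ (emb K ξ) = ∑' ξ : K, fourierAd K ψ μ φ (emb K ξ)

/-- **T3.06', OPTIONAL** (Tate Thm 4.2.1; Lemma 4.2.4).  For every standard character `ψ`, the
Haar measure `μ` of covolume one and every continuous integrable `φ` such that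
`∑_ξ φ(x + ξ)` converges normally on compact sets and `∑_ξ |φ̂(ξ)| < ∞`:
`∑_{ξ ∈ K} φ(ξ) = ∑_{ξ ∈ K} φ̂(ξ)`. -/
def PoissonC : Prop :=
  letI : MeasurableSpace (Adl K) := borel (Adl K)
  ∀ ψ : AddChar (Adl K) Circle, IsStdChar K ψ →
  ∀ μ : Measure (Adl K), μ.IsAddHaarMeasure → IsCovolOne K μ →
  ∀ φ : Adl K → ℂ, Continuous φ → Integrable φ μ → IsNormallySummable K φ →
    Summable (fun ξ : K => ‖fourierAd K ψ μ φ (emb K ξ)‖) →
    ∑' ξ : K, φ (emb K ξ) = ∑' ξ : K, fourierAd K ψ μ φ (emb K ξ)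

/-- The adele `x` is supported at the finite place `v`. -/
def IsLocAdeleAt (v : HeightOneSpectrum (𝓞 K)) (x : Adl K) : Prop :=
  x.1 = 0 ∧ ∀ v' : HeightOneSpectrum (𝓞 K), v' ≠ v → x.2 v' = 0

/-- For almost all finite places `v` the local component of `ψ` has conductor `𝒪_v`: it is
trivial on `𝒪_v` and non-trivial on `ϖ_v⁻¹ 𝒪_v`. -/
def IsUnramAE (ψ : AddChar (Adl K) Circle) : Prop :=
  ∃ S : Finset (HeightOneSpectrum (𝓞 K)), ∀ v : HeightOneSpectrum (𝓞 K), v ∉ S →
    (∀ x : Adl K, IsLocAdeleAt K v x → x.2 v ∈ v.adicCompletionIntegers K → ψ x = 1) ∧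
    ∃ x : Adl K, IsLocAdeleAt K v x ∧ Valued.v (x.2 v) = WithZero.exp (1 : ℤ) ∧ ψ x ≠ 1

/-- **T3.01** (Tate §4.1; tower Prop).  There is a standard character which is non-degenerate
and has conductor `𝒪_v` at almost all `v`.  Construction: `𝔸_f = K + ∏ 𝒪_v`,
`ψ_f(ξ + u) = e(Tr_{K/ℚ} ξ)`, `ψ_∞(x) = e(-∑_w Tr_{K_w/ℝ} x_w)`. -/
def GoodCharExistsC : Prop :=
  ∃ ψ : AddChar (Adl K) Circle, IsStdChar K ψ ∧ IsNonDeg K ψ ∧ IsUnramAE K ψ

/-- **T3.07, OPTIONAL** (Tate §4.1, Lemma 4.1.2 ff.).  Every standard character has conductor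
`𝒪_v` at almost all `v`. -/
def CondC : Prop :=
  ∀ ψ : AddChar (Adl K) Circle, IsStdChar K ψ → IsUnramAE K ψ

/-! ## Part B.  Eisenstein-killing test functions -/

/-- The upper unipotent element `n(x) = [[1, x], [0, 1]]` of `GL₂(𝔸_K)`. -/
def unip (x : Adl K) : G K :=
  ⟨!![1, x; 0, 1], !![1, -x; 0, 1],
    by ext i j; fin_cases i <;> fin_cases j <;> simp [Matrix.mul_apply, Fin.sum_univ_two],
    by ext i j; fin_cases i <;> fin_cases j <;> simp [Matrix.mul_apply, Fin.sum_univ_two]⟩

/-- The rational torus element `diag(α, 1)`, `α ∈ Kˣ`, diagonally embedded in `GL₂(𝔸_K)`. -/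
def torK (α : Kˣ) : G K :=
  ⟨!![emb K (α : K), 0; 0, 1], !![emb K ((α⁻¹ : Kˣ) : K), 0; 0, 1],
    by
      ext i j; fin_cases i <;> fin_cases j <;>
        simp [Matrix.mul_apply, Fin.sum_univ_two, ← map_mul],
    by
      ext i j; fin_cases i <;> fin_cases j <;>
        simp [Matrix.mul_apply, Fin.sum_univ_two, ← map_mul]⟩

/-- Right convolution: `(R(f)Ψ)(g) = ∫ Ψ(gh) f(h) dμ(h)`. -/
def Rop {m : MeasurableSpace (G K)} (μ : Measure (G K)) (f Ψ : G K → ℂ) (g : G K) : ℂ :=
  ∫ h, Ψ (g * h) * f h ∂μ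

/-- Convolution on `GL₂(𝔸_K)`: `(f₁ ⋆ f₂)(h) = ∫ f₁(y) f₂(y⁻¹h) dμ(y)`; then
`R(f₁ ⋆ f₂) = R(f₁) R(f₂)`. -/
def convG {m : MeasurableSpace (G K)} (μ : Measure (G K)) (f₁ f₂ : G K → ℂ) (h : G K) : ℂ :=
  ∫ y, f₁ y * f₂ (y⁻¹ * h) ∂μ

/-- The adjoint test function `f^*(h) = conj f(h⁻¹)`. -/
def starG (f : G K → ℂ) (h : G K) : ℂ := (starRingEnd ℂ) (f h⁻¹)

/-- THE EK CONDITION (global form of helper261's FACT 1).  `f` is *Eisenstein-killing with respect
to `α ∈ Kˣ`* if for all `g, g'`
`∑_{j ∈ ℤ} ∫_{𝔸_K} f(g⁻¹ n(x) γ₀ʲ g') dx = 0`, `γ₀ = diag(α, 1)`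
(for `f` of compact support and `α` not a root of unity the sum is finite). -/
def IsEK {m : MeasurableSpace (Adl K)} (ν : Measure (Adl K)) (f : G K → ℂ) (α : Kˣ) : Prop :=
  ∀ g g' : G K, HasSum (fun j : ℤ => ∫ x, f (g⁻¹ * unip K x * torK K α ^ j * g') ∂ν) 0

/-- **T3.11 = FACT 1** (Lindenstrauss--Venkatesh §3; memo helper261 §1; needs from T1 the Iwasawa
integration formula `dg = δ(a)⁻¹ dn da dk` on `GL₂(𝔸_K)` and the product formula).  If `f` is EK
with respect to `α`, then `R(f)` kills every continuous function which is left invariant under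
`N(𝔸_K)` and under `diag(α, 1)`. -/
def EKKillC : Prop :=
  letI : MeasurableSpace (Adl K) := borel (Adl K)
  letI : MeasurableSpace (G K) := borel (G K)
  ∀ μ : Measure (G K), μ.IsHaarMeasure → ∀ ν : Measure (Adl K), ν.IsAddHaarMeasure →
  ∀ (α : Kˣ) (f : G K → ℂ), Continuous f → HasCompactSupport f → IsEK K ν f α →
  ∀ Ψ : G K → ℂ, Continuous Ψ → (∀ (x : Adl K) (g : G K), Ψ (unip K x * g) = Ψ g) →
    (∀ g : G K, Ψ (torK K α * g) = Ψ g) →
    ∀ g : G K, Rop K μ f Ψ g = 0

/-- `ψ` is a bounded continuous function on `GL₂(K) \ GL₂(𝔸_K)`. -/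
structure IsAutFn (ψ : G K → ℂ) : Prop where
  cont : Continuous ψ
  bdd : ∃ C : ℝ, ∀ g : G K, ‖ψ g‖ ≤ C
  left_inv : ∀ (γ : GL (Fin 2) K) (g : G K),
    ψ (Matrix.GeneralLinearGroup.map (algebraMap K (Adl K)) γ * g) = ψ g

/-- **T3.12** (constant term; Fubini + product formula).  For `ψ` automorphic and `f` a test
function, the constant term of `R(f)ψ` over any fundamental domain `D` of `K` in `𝔸_K` is
`R(f)Ψ` for a continuous function `Ψ` (the constant term of `ψ`) which is left invariant under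
`N(𝔸_K)` and under the rational torus elements `diag(α, 1)`. -/
def ConstTermC : Prop :=
  letI : MeasurableSpace (Adl K) := borel (Adl K)
  letI : MeasurableSpace (G K) := borel (G K)
  ∀ μ : Measure (G K), μ.IsHaarMeasure →
  ∀ f : G K → ℂ, Continuous f → HasCompactSupport f →
  ∀ ψ : G K → ℂ, IsAutFn K ψ →
  ∀ μ' : Measure (Adl K), μ'.IsAddHaarMeasure →
  ∀ D : Set (Adl K), IsAddFundamentalDomain ((algebraMap K (Adl K)).toAddMonoidHom.range) D μ' →
    ∃ Ψ : G K → ℂ, Continuous Ψ ∧ (∀ (x : Adl K) (g : G K), Ψ (unip K x * g) = Ψ g) ∧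
      (∀ (α : Kˣ) (g : G K), Ψ (torK K α * g) = Ψ g) ∧
      ∀ g : G K, ∫ x in D, Rop K μ f ψ (unip K x * g) ∂μ' = Rop K μ f Ψ g

/-- **T3.13 = COROLLARY 1** (tower Prop).  If `f` is EK, then `R(f)ψ` is cuspidal for every
bounded continuous automorphic `ψ`. -/
def EKCuspC : Prop :=
  letI : MeasurableSpace (Adl K) := borel (Adl K)
  letI : MeasurableSpace (G K) := borel (G K)
  ∀ μ : Measure (G K), μ.IsHaarMeasure → ∀ ν : Measure (Adl K), ν.IsAddHaarMeasure →
  ∀ (α : Kˣ) (f : G K → ℂ), Continuous f → HasCompactSupport f → IsEK K ν f α →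
  ∀ ψ : G K → ℂ, IsAutFn K ψ → IsCuspidalFn (Rop K μ f ψ)

/-- **T3.14** (two-sided ideal; Fubini).  `f` EK, `f₁` any test function: `f ⋆ f₁` and `f₁ ⋆ f`
are EK. -/
def EKIdealC : Prop :=
  letI : MeasurableSpace (Adl K) := borel (Adl K)
  letI : MeasurableSpace (G K) := borel (G K)
  ∀ μ : Measure (G K), μ.IsHaarMeasure → ∀ ν : Measure (Adl K), ν.IsAddHaarMeasure →
  ∀ (α : Kˣ) (f : G K → ℂ), Continuous f → HasCompactSupport f → IsEK K ν f α →
  ∀ f₁ : G K → ℂ, Continuous f₁ → HasCompactSupport f₁ →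
    IsEK K ν (convG K μ f f₁) α ∧ IsEK K ν (convG K μ f₁ f) α

/-- **T3.15** (adjoint; product formula).  `f` EK with respect to `α` implies `f^*` EK with
respect to `α`. -/
def EKStarC : Prop :=
  letI : MeasurableSpace (Adl K) := borel (Adl K)
  ∀ ν : Measure (Adl K), ν.IsAddHaarMeasure →
  ∀ (α : Kˣ) (f : G K → ℂ), Continuous f → HasCompactSupport f → IsEK K ν f α →
    IsEK K ν (starG K f) α

/-- `φ` is right invariant under `U(𝔫)`, under the positive scalars and the maximal connected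
compact subgroups at infinity, and spherical of parameter `0` at every infinite place
(the local conditions of `A0.IsSph0CuspFormFor`, without automorphy). -/
structure IsSph0Level (𝔫 : Ideal (𝓞 K)) (φ : G K → ℂ) : Prop where
  cont : Continuous φ
  level_inv : ∀ u : G K, InLevelGroup 𝔫 u → ∀ g : G K, φ (g * u) = φ g
  arch_scalar : ∀ (w : InfinitePlace K) (z : G K), IsArchPosScalar w z →
    ∀ g : G K, φ (g * z) = φ g
  arch_compact : ∀ (w : InfinitePlace K) (k : G K), IsArchCompact w k →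
    ∀ g : G K, φ (g * k) = φ g
  mean_complex : ∀ w : InfinitePlace K, w.IsComplex → MeanValueComplex φ w
  mean_real : ∀ w : InfinitePlace K, w.IsReal → MeanValueReal φ w

/-- `f` is bi-invariant under `U(𝔫)` and under the maximal compact subgroups at infinity. -/
def IsBiInv (𝔫 : Ideal (𝓞 K)) (f : G K → ℂ) : Prop :=
  (∀ u : G K, InLevelGroup 𝔫 u → ∀ h : G K, f (u * h) = f h ∧ f (h * u) = f h) ∧
    ∀ (w : InfinitePlace K) (k : G K), IsArchCompact w k →
      ∀ h : G K, f (k * h) = f h ∧ f (h * k) = f h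

/-- `f` is supported at `{v₀} ∪ S_∞`: on the support of `f` the component at every finite
`v ≠ v₀` lies in `U(𝔫)_v`. -/
def IsSuppAt (𝔫 : Ideal (𝓞 K)) (v₀ : HeightOneSpectrum (𝓞 K)) (f : G K → ℂ) : Prop :=
  ∀ h : G K, f h ≠ 0 → ∀ v : HeightOneSpectrum (𝓞 K), v ≠ v₀ → ∀ i j : Fin 2,
    (finComp v h - 1) i j ∈ idealClosure 𝔫 v ∧ (finComp v h⁻¹ - 1) i j ∈ idealClosure 𝔫 v

/-- **T3.18 = FACT 2, existence** (memo helper261 §§1--2; Satake isomorphism at `v₀`, Abel
transform on `ℍ³` at the complex places).  `K` totally complex, `𝔫 ≠ 0`, `v₀ ∤ 𝔫`,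
`(α) = 𝔭_{v₀}ⁿ`, `n ≥ 1`, `α ≡ 1 mod 𝔫`.  There is an EK function `f` with respect to `α`,
bi-invariant under `U(𝔫) K_∞`, supported at `{v₀} ∪ S_∞`, and a function `c` of the Hecke
eigenvalues at `v₀` such that `R(f)φ = c(a,b) φ` for every `φ` spherical of parameter `0` of level
`𝔫` which is Hecke-eigen at `v₀` with eigenvalues `(a,b)`; and `c(a,b) ≠ 0` whenever the Satake
parameters `z₁, z₂` (`z₁ + z₂ = a`, `z₁ z₂ = b`) satisfy `z₁ⁿ ≠ 1`, `z₂ⁿ ≠ 1`. -/
def EKExistC : Prop :=
  letI : MeasurableSpace (Adl K) := borel (Adl K)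
  letI : MeasurableSpace (G K) := borel (G K)
  (∀ w : InfinitePlace K, w.IsComplex) →
  ∀ μ : Measure (G K), μ.IsHaarMeasure → ∀ ν : Measure (Adl K), ν.IsAddHaarMeasure →
  ∀ 𝔫 : Ideal (𝓞 K), 𝔫 ≠ ⊥ → ∀ v₀ : HeightOneSpectrum (𝓞 K), ¬ v₀.asIdeal ∣ 𝔫 →
  ∀ (a₀ : 𝓞 K) (n : ℕ), 0 < n → Ideal.span {a₀} = v₀.asIdeal ^ n → a₀ - 1 ∈ 𝔫 →
  ∀ α : Kˣ, (α : K) = algebraMap (𝓞 K) K a₀ →
    ∃ f : G K → ℂ, Continuous f ∧ HasCompactSupport f ∧ IsEK K ν f α ∧
      IsBiInv K 𝔫 f ∧ IsSuppAt K 𝔫 v₀ f ∧
      ∃ c : ℂ → ℂ → ℂ,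
        (∀ a b z₁ z₂ : ℂ, z₁ + z₂ = a → z₁ * z₂ = b → z₁ ^ n ≠ 1 → z₂ ^ n ≠ 1 → c a b ≠ 0) ∧
        ∀ φ : G K → ℂ, IsSph0Level K 𝔫 φ → ∀ a b : ℂ, IsHeckeEigenAt φ v₀ a b →
          ∀ g : G K, Rop K μ f φ g = c a b * φ g

/-! ## Part C.  What T3 takes from T1 (hypotheses of the leaves)

The first four Props are `T1.LocCompC`, `T1.AdeleLatticeC`, `T1.AddFundDomC`, `T1.DiscreteC` of
`LT/T1/Spec.lean` (helper54), unfolded; the last two are the measure forms of the product formula
and of the Iwasawa decomposition (ingredients of T1.06 and T1.17). -/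

/-- IN = `T1.LocCompC`. -/
def InLocCompC : Prop :=
  (LocallyCompactSpace (Adl K) ∧ T2Space (Adl K) ∧ SecondCountableTopology (Adl K)) ∧
    LocallyCompactSpace (G K) ∧ T2Space (G K) ∧ SecondCountableTopology (G K)

/-- IN = `T1.AdeleLatticeC`: `K` is discrete, closed and cocompact in `𝔸_K`. -/
def InLatticeC : Prop :=
  DiscreteTopology ((algebraMap K (Adl K)).toAddMonoidHom.range) ∧
    IsClosed (((algebraMap K (Adl K)).toAddMonoidHom.range : AddSubgroup (Adl K)) :
      Set (Adl K)) ∧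
    ∃ C : Set (Adl K), IsCompact C ∧ ∀ x : Adl K, ∃ ξ : K, x - algebraMap K (Adl K) ξ ∈ C

/-- IN = `T1.AddFundDomC`: Borel fundamental domain of `K` in `𝔸_K`, relatively compact, of
finite positive measure. -/
def InFundDomC : Prop :=
  letI : MeasurableSpace (Adl K) := borel (Adl K)
  ∀ μ : Measure (Adl K), μ.IsAddHaarMeasure →
    ∃ D : Set (Adl K), MeasurableSet D ∧
      IsAddFundamentalDomain ((algebraMap K (Adl K)).toAddMonoidHom.range) D μ ∧
      IsCompact (closure D) ∧ 0 < μ D ∧ μ D < ⊤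

/-- IN = `T1.DiscreteC`: `GL₂(K)` is discrete and closed in `GL₂(𝔸_K)`. -/
def InDiscreteC : Prop :=
  DiscreteTopology ((Matrix.GeneralLinearGroup.map (n := Fin 2) (algebraMap K (Adl K))).range) ∧
    IsClosed (((Matrix.GeneralLinearGroup.map (n := Fin 2) (algebraMap K (Adl K))).range :
      Subgroup (G K)) : Set (G K))

/-- IN (product formula, measure form; Weil BNT IV §4 Thm 5).  Multiplication by `α ∈ Kˣ`
preserves every Haar measure of `𝔸_K`. -/
def HaarScaleC : Prop :=
  letI : MeasurableSpace (Adl K) := borel (Adl K)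
  ∀ ν : Measure (Adl K), ν.IsAddHaarMeasure → ∀ α : Kˣ,
    Measure.map (fun x : Adl K => emb K (α : K) * x) ν = ν

/-- IN (Iwasawa decomposition, measure form `dg = δ(a)⁻¹ dn da dk`; Godement, Sém. Bourbaki 257
§10; Gelbart (3.10)).  For Haar measures `μ` of `GL₂(𝔸_K)` and `ν` of `𝔸_K` there is a measure
`ρ` on `GL₂(𝔸_K)` (the image of `δ(a)⁻¹ da dk` under `(a,k) ↦ ak`, `a` diagonal, `k ∈ K⁰`), finite
on compact sets, invariant under left multiplication by the rational torus elements
`diag(α, 1)` (because `δ(diag(α,1)) = ‖α‖_𝔸 = 1`), with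
`∫ F dμ = ∫ (∫ F(n(x) y) dν(x)) dρ(y)` for every continuous `F` of compact support, the inner
integral being of compact support on the support of `ρ`. -/
def IwasawaIntC : Prop :=
  letI : MeasurableSpace (Adl K) := borel (Adl K)
  letI : MeasurableSpace (G K) := borel (G K)
  ∀ μ : Measure (G K), μ.IsHaarMeasure → ∀ ν : Measure (Adl K), ν.IsAddHaarMeasure →
    ∃ ρ : Measure (G K), IsFiniteMeasureOnCompacts ρ ∧
      (∀ α : Kˣ, Measure.map (fun y : G K => torK K α * y) ρ = ρ) ∧
      ∀ F : G K → ℂ, Continuous F → HasCompactSupport F →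
        (∃ C : Set (G K), IsCompact C ∧
          ∀ᵐ y ∂ρ, (∫ x, F (unip K x * y) ∂ν) ≠ 0 → y ∈ C) ∧
        ∫ h, F h ∂μ = ∫ y, (∫ x, F (unip K x * y) ∂ν) ∂ρ

/-- THE INPUT of tower T3 (all of it is output of T1). -/
structure T3In : Prop where
  locComp : InLocCompC K
  lattice : InLatticeC K
  fundDom : InFundDomC K
  discrete : InDiscreteC K
  haarScale : HaarScaleC K
  iwasawaInt : IwasawaIntC K

/-! ## Part D.  The sub-leaves, the tower Prop and the proved top -/

/-- ALL SUB-LEAVES of tower T3 for the number field `K`.  Each leaf is an implication whose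
premises are inputs from T1 or Props of this tower. -/
structure Leaves : Prop where
  /-- T3.01 (≈ 2k). -/
  goodChar : InLocCompC K → GoodCharExistsC K
  /-- T3.03 (≈ 1k; abstract annihilator lemma). -/
  perpND : InLocCompC K → InLatticeC K → PerpNDC K
  /-- T3.04 (≈ 2k; Stone--Weierstrass on `𝔸_K / K`). -/
  completeND : InLocCompC K → InLatticeC K → InFundDomC K → PerpNDC K → CompleteNDC K
  /-- T3.05 (≈ 1k). -/
  unfold : InLocCompC K → InLatticeC K → UnfoldC K
  /-- T3.06 (≈ 1.5k). -/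
  poissonND : InLocCompC K → InLatticeC K → InFundDomC K → CompleteNDC K → UnfoldC K →
    PoissonNDC K
  /-- T3.11 (≈ 2.5k). -/
  ekKill : InLocCompC K → InDiscreteC K → HaarScaleC K → IwasawaIntC K → EKKillC K
  /-- T3.12 (≈ 2k). -/
  constTerm : InLocCompC K → InLatticeC K → InFundDomC K → HaarScaleC K → ConstTermC K
  /-- T3.14 (≈ 2k). -/
  ekIdeal : InLocCompC K → InDiscreteC K → EKIdealC K
  /-- T3.15 (≈ 1k). -/
  ekStar : InLocCompC K → InDiscreteC K → HaarScaleC K → EKStarC K
  /-- T3.18 (≈ 8k with T3.16 Satake at `v₀` and T3.17 Abel transform on `ℍ³`). -/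
  ekExist : InLocCompC K → InDiscreteC K → HaarScaleC K → IwasawaIntC K → EKExistC K

/-- THE TOWER PROP of T3. -/
def T3Out : Prop :=
  GoodCharExistsC K ∧ PoissonNDC K ∧ EKCuspC K ∧ EKIdealC K ∧ EKStarC K ∧ EKExistC K

/-- The optional strong form: Poisson summation and conductors for EVERY standard character. -/
def T3OutStrong : Prop :=
  T3Out K ∧ NonDegC K ∧ PoissonC K ∧ CondC K

/-- `unip` has the matrix required by `A0.IsCuspidalFn`. -/
theorem unip_coe (x : Adl K) :
    ((unip K x : G K) : Matrix (Fin 2) (Fin 2) (Adl K)) = !![1, x; 0, 1] := rfl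

/-- `torK` has the matrix `diag(α, 1)`. -/
theorem torK_coe (α : Kˣ) :
    ((torK K α : G K) : Matrix (Fin 2) (Fin 2) (Adl K)) = !![emb K (α : K), 0; 0, 1] := rfl

/-- COROLLARY 1 from FACT 1 and the constant-term leaf. -/
theorem ekCusp_of (h1 : EKKillC K) (h2 : ConstTermC K) : EKCuspC K := by
  intro μ hμ ν hν α f hf hfc hEK ψ hψ μ' hμ' D hD n hn g
  have hn' : n = unip K := by
    funext x
    apply Units.ext
    rw [hn x, unip_coe]
  subst hn'
  obtain ⟨Ψ, hΨc, hΨN, hΨT, hΨ⟩ := h2 μ hμ f hf hfc ψ hψ μ' hμ' D hD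
  rw [hΨ g]
  exact h1 μ hμ ν hν α f hf hfc hEK Ψ hΨc hΨN (hΨT α) g

/-- A good character is a standard character. -/
theorem stdChar_of_good (h : GoodCharExistsC K) : StdCharExistsC K :=
  let ⟨ψ, hψ, _, _⟩ := h
  ⟨ψ, hψ⟩

/-- Strong approximation upgrades the non-degenerate forms to all standard characters. -/
theorem perp_of_nd (h0 : NonDegC K) (h : PerpNDC K) : PerpC K :=
  fun ψ hψ => h ψ hψ (h0 ψ hψ)

theorem complete_of_nd (h0 : NonDegC K) (h : CompleteNDC K) : CompleteC K :=
  fun ψ hψ => h ψ hψ (h0 ψ hψ)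

theorem poisson_of_nd (h0 : NonDegC K) (h : PoissonNDC K) : PoissonC K :=
  fun ψ hψ => h ψ hψ (h0 ψ hψ)

/-- THE TOP of tower T3: inputs from T1 and the sub-leaves give the tower Prop. -/
theorem top (hin : T3In K) (hl : Leaves K) : T3Out K := by
  have hperp := hl.perpND hin.locComp hin.lattice
  have hcomp := hl.completeND hin.locComp hin.lattice hin.fundDom hperp
  have hunf := hl.unfold hin.locComp hin.lattice
  have hkill := hl.ekKill hin.locComp hin.discrete hin.haarScale hin.iwasawaInt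
  have hct := hl.constTerm hin.locComp hin.lattice hin.fundDom hin.haarScale
  exact ⟨hl.goodChar hin.locComp,
    hl.poissonND hin.locComp hin.lattice hin.fundDom hcomp hunf,
    ekCusp_of K hkill hct,
    hl.ekIdeal hin.locComp hin.discrete,
    hl.ekStar hin.locComp hin.discrete hin.haarScale,
    hl.ekExist hin.locComp hin.discrete hin.haarScale hin.iwasawaInt⟩

/-- The strong top. -/
theorem topStrong (hin : T3In K) (hl : Leaves K) (h0 : NonDegC K) (h7 : CondC K) :
    T3OutStrong K :=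
  ⟨top K hin hl, h0, poisson_of_nd K h0 (top K hin hl).2.1, h7⟩

end Fermat.Agent.LT.T3

end

end
-- ===== PACK-END LT/T3/Spec.lean

-- ===== PACK-BEGIN LT/CFT/H701/ConjEmb.lean
section


/-!
# Row LT, tower CFT (helper701, OFF-MAIN): involutions of `ℚ̄` and complex embeddings

* `exists_embedding_conj701` (**Artin–Schreier**, conjugation form): for `c ∈ Gal(ℚ̄/ℚ)` with
  `c * c = 1`, `c ≠ 1` there is an embedding `φ : ℚ̄ → ℂ` with `φ (c x) = conj (φ x)`.
* `exists_conj_of_embedding701` : conversely every embedding `φ : ℚ̄ → ℂ` has its complex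
  conjugation `c ∈ Gal(ℚ̄/ℚ)`, `c * c = 1`, `c ≠ 1`, `φ (c x) = conj (φ x)`.

Mathlib only.
-/

set_option autoImplicit false

noncomputable section

namespace Fermat.Agent.LT.CFT.H701

section Ext

variable {C : Type*} [Field C]

/-- The extension of `ψ : Fix(c) → ℝ` to `C = Fix(c)(i) → ℂ`, `i ↦ I`. -/
def extEmb701 (c : C ≃+* C) (hcc : ∀ x, c (c x) = x) (i : C) (hi : i * i = -1)
    (hci : c i = -i) (h2 : (2 : C) ≠ 0) (ψ : fixSub701 c →+* ℝ) : C →+* ℂ :=
  have hi0 : i ≠ 0 := by
    intro h0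
    rw [h0, mul_zero] at hi
    have h1 : (1 : C) = 0 := by
      have := congrArg (fun z => -z) hi
      simpa using this.symm
    exact one_ne_zero h1
  have hu : ∀ x : C, (x + c x) / 2 ∈ fixSub701 c := by
    intro x
    show c ((x + c x) / 2) = (x + c x) / 2
    rw [map_div₀, map_add, hcc, map_ofNat, add_comm]
  have hv : ∀ x : C, (x - c x) / (2 * i) ∈ fixSub701 c := by
    intro x
    show c ((x - c x) / (2 * i)) = (x - c x) / (2 * i)
    rw [map_div₀, map_sub, hcc, map_mul, map_ofNat, hci]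
    field_simp
    ring
  { toFun := fun x => ((ψ ⟨(x + c x) / 2, hu x⟩ : ℝ) : ℂ)
        + ((ψ ⟨(x - c x) / (2 * i), hv x⟩ : ℝ) : ℂ) * Complex.I
    map_one' := by
      have h1 : (⟨((1 : C) + c 1) / 2, hu 1⟩ : fixSub701 c) = 1 := by
        apply Subtype.ext
        show ((1 : C) + c 1) / 2 = 1
        rw [map_one]
        field_simp
        norm_num
      have h0 : (⟨((1 : C) - c 1) / (2 * i), hv 1⟩ : fixSub701 c) = 0 := by
        apply Subtype.ext
        show ((1 : C) - c 1) / (2 * i) = 0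
        rw [map_one, sub_self, zero_div]
      show ((ψ ⟨((1 : C) + c 1) / 2, hu 1⟩ : ℝ) : ℂ)
        + ((ψ ⟨((1 : C) - c 1) / (2 * i), hv 1⟩ : ℝ) : ℂ) * Complex.I = 1
      rw [h1, h0, map_one, map_zero]
      simp
    map_zero' := by
      have h1 : (⟨((0 : C) + c 0) / 2, hu 0⟩ : fixSub701 c) = 0 := by
        apply Subtype.ext
        show ((0 : C) + c 0) / 2 = 0
        rw [map_zero, add_zero, zero_div]
      have h0 : (⟨((0 : C) - c 0) / (2 * i), hv 0⟩ : fixSub701 c) = 0 := by
        apply Subtype.ext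
        show ((0 : C) - c 0) / (2 * i) = 0
        rw [map_zero, sub_self, zero_div]
      show ((ψ ⟨((0 : C) + c 0) / 2, hu 0⟩ : ℝ) : ℂ)
        + ((ψ ⟨((0 : C) - c 0) / (2 * i), hv 0⟩ : ℝ) : ℂ) * Complex.I = 0
      rw [h1, h0, map_zero]
      simp
    map_add' := by
      intro x y
      have h1 : (⟨((x + y) + c (x + y)) / 2, hu (x + y)⟩ : fixSub701 c)
          = ⟨(x + c x) / 2, hu x⟩ + ⟨(y + c y) / 2, hu y⟩ := by
        apply Subtype.ext
        show ((x + y) + c (x + y)) / 2 = (x + c x) / 2 + (y + c y) / 2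
        rw [map_add]
        ring
      have h0 : (⟨((x + y) - c (x + y)) / (2 * i), hv (x + y)⟩ : fixSub701 c)
          = ⟨(x - c x) / (2 * i), hv x⟩ + ⟨(y - c y) / (2 * i), hv y⟩ := by
        apply Subtype.ext
        show ((x + y) - c (x + y)) / (2 * i) = (x - c x) / (2 * i) + (y - c y) / (2 * i)
        rw [map_add]
        ring
      show ((ψ ⟨((x + y) + c (x + y)) / 2, hu (x + y)⟩ : ℝ) : ℂ)
        + ((ψ ⟨((x + y) - c (x + y)) / (2 * i), hv (x + y)⟩ : ℝ) : ℂ) * Complex.I
        = (((ψ ⟨(x + c x) / 2, hu x⟩ : ℝ) : ℂ)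
            + ((ψ ⟨(x - c x) / (2 * i), hv x⟩ : ℝ) : ℂ) * Complex.I)
          + (((ψ ⟨(y + c y) / 2, hu y⟩ : ℝ) : ℂ)
            + ((ψ ⟨(y - c y) / (2 * i), hv y⟩ : ℝ) : ℂ) * Complex.I)
      rw [h1, h0, map_add, map_add]
      push_cast
      ring
    map_mul' := by
      intro x y
      have h1 : (⟨((x * y) + c (x * y)) / 2, hu (x * y)⟩ : fixSub701 c)
          = ⟨(x + c x) / 2, hu x⟩ * ⟨(y + c y) / 2, hu y⟩
            - ⟨(x - c x) / (2 * i), hv x⟩ * ⟨(y - c y) / (2 * i), hv y⟩ := by
        apply Subtype.ext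
        show ((x * y) + c (x * y)) / 2
          = (x + c x) / 2 * ((y + c y) / 2) - (x - c x) / (2 * i) * ((y - c y) / (2 * i))
        rw [map_mul]
        have hii : (2 * i) * (2 * i) = -4 := by
          have : (2 * i) * (2 * i) = 4 * (i * i) := by ring
          rw [this, hi]
          ring
        have h4 : (4 : C) ≠ 0 := by
          have : (4 : C) = 2 * 2 := by norm_num
          rw [this]
          exact mul_ne_zero h2 h2
        rw [div_mul_div_comm, div_mul_div_comm, hii]
        field_simp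
        ring
      have h0 : (⟨((x * y) - c (x * y)) / (2 * i), hv (x * y)⟩ : fixSub701 c)
          = ⟨(x + c x) / 2, hu x⟩ * ⟨(y - c y) / (2 * i), hv y⟩
            + ⟨(x - c x) / (2 * i), hv x⟩ * ⟨(y + c y) / 2, hu y⟩ := by
        apply Subtype.ext
        show ((x * y) - c (x * y)) / (2 * i)
          = (x + c x) / 2 * ((y - c y) / (2 * i)) + (x - c x) / (2 * i) * ((y + c y) / 2)
        rw [map_mul]
        field_simp
        ring
      show ((ψ ⟨((x * y) + c (x * y)) / 2, hu (x * y)⟩ : ℝ) : ℂ)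
        + ((ψ ⟨((x * y) - c (x * y)) / (2 * i), hv (x * y)⟩ : ℝ) : ℂ) * Complex.I
        = (((ψ ⟨(x + c x) / 2, hu x⟩ : ℝ) : ℂ)
            + ((ψ ⟨(x - c x) / (2 * i), hv x⟩ : ℝ) : ℂ) * Complex.I)
          * (((ψ ⟨(y + c y) / 2, hu y⟩ : ℝ) : ℂ)
            + ((ψ ⟨(y - c y) / (2 * i), hv y⟩ : ℝ) : ℂ) * Complex.I)
      rw [h1, h0, map_sub, map_add, map_mul, map_mul, map_mul, map_mul]
      push_cast
      ring_nf
      rw [Complex.I_sq]
      ring }

theorem extEmb701_apply (c : C ≃+* C) (hcc : ∀ x, c (c x) = x) (i : C) (hi : i * i = -1)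
    (hci : c i = -i) (h2 : (2 : C) ≠ 0) (ψ : fixSub701 c →+* ℝ) (x : C)
    (hu : (x + c x) / 2 ∈ fixSub701 c) (hv : (x - c x) / (2 * i) ∈ fixSub701 c) :
    extEmb701 c hcc i hi hci h2 ψ x
      = ((ψ ⟨(x + c x) / 2, hu⟩ : ℝ) : ℂ) + ((ψ ⟨(x - c x) / (2 * i), hv⟩ : ℝ) : ℂ) * Complex.I :=
  rfl

/-- The extension intertwines `c` and the complex conjugation. -/
theorem extEmb701_conj (c : C ≃+* C) (hcc : ∀ x, c (c x) = x) (i : C) (hi : i * i = -1)
    (hci : c i = -i) (h2 : (2 : C) ≠ 0) (ψ : fixSub701 c →+* ℝ) (x : C) :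
    extEmb701 c hcc i hi hci h2 ψ (c x) = starRingEnd ℂ (extEmb701 c hcc i hi hci h2 ψ x) := by
  have hu : (x + c x) / 2 ∈ fixSub701 c := by
    show c ((x + c x) / 2) = (x + c x) / 2
    rw [map_div₀, map_add, hcc, map_ofNat, add_comm]
  have hi0 : i ≠ 0 := by
    intro h0
    rw [h0, mul_zero] at hi
    have h1 : (1 : C) = 0 := by
      have := congrArg (fun z => -z) hi
      simpa using this.symm
    exact one_ne_zero h1
  have hv : (x - c x) / (2 * i) ∈ fixSub701 c := by
    show c ((x - c x) / (2 * i)) = (x - c x) / (2 * i)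
    rw [map_div₀, map_sub, hcc, map_mul, map_ofNat, hci]
    field_simp
    ring
  have hu' : (c x + c (c x)) / 2 ∈ fixSub701 c := by
    rw [hcc, add_comm]; exact hu
  have hv' : (c x - c (c x)) / (2 * i) ∈ fixSub701 c := by
    have : (c x - c (c x)) / (2 * i) = -((x - c x) / (2 * i)) := by
      rw [hcc]; ring
    rw [this]
    exact (fixSub701 c).neg_mem hv
  rw [extEmb701_apply c hcc i hi hci h2 ψ (c x) hu' hv',
    extEmb701_apply c hcc i hi hci h2 ψ x hu hv]
  have e1 : (⟨(c x + c (c x)) / 2, hu'⟩ : fixSub701 c) = ⟨(x + c x) / 2, hu⟩ := by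
    apply Subtype.ext
    show (c x + c (c x)) / 2 = (x + c x) / 2
    rw [hcc, add_comm]
  have e2 : (⟨(c x - c (c x)) / (2 * i), hv'⟩ : fixSub701 c) = -⟨(x - c x) / (2 * i), hv⟩ := by
    apply Subtype.ext
    show (c x - c (c x)) / (2 * i) = -((x - c x) / (2 * i))
    rw [hcc]; ring
  rw [e1, e2, map_neg, map_add, map_mul, Complex.conj_ofReal, Complex.conj_ofReal,
    Complex.conj_I]
  push_cast
  ring

end Ext

section Qbar

local notation "Qb" => AlgebraicClosure ℚ
local notation "GQ" => (AlgebraicClosure ℚ ≃ₐ[ℚ] AlgebraicClosure ℚ)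

/-- **Artin–Schreier, conjugation form**: an element `c ≠ 1`, `c * c = 1` of `Gal(ℚ̄/ℚ)` is the
complex conjugation of an embedding `φ : ℚ̄ → ℂ`. -/
theorem exists_embedding_conj701 (c : GQ) (h2 : c * c = 1) (hne : c ≠ 1) :
    ∃ φ : Qb →+* ℂ, ∀ x, φ (c x) = starRingEnd ℂ (φ x) := by
  have hcc : ∀ x, c.toRingEquiv (c.toRingEquiv x) = x := by
    intro x
    have := congrArg (fun g : GQ => g x) h2
    simpa [AlgEquiv.mul_apply] using this
  have hmove : ∃ y, c.toRingEquiv y ≠ y := by
    by_contra hall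
    refine hne (AlgEquiv.ext fun y => ?_)
    by_contra hy
    exact hall ⟨y, hy⟩
  have hint : ∀ x : Qb, ∃ p : Polynomial ℚ, p.Monic ∧
      Polynomial.eval₂ (Rat.castHom Qb) x p = 0 := by
    intro x
    have hx : IsIntegral ℚ x := ((AlgebraicClosure.isAlgebraic ℚ).isAlgebraic x).isIntegral
    refine ⟨minpoly ℚ x, minpoly.monic hx, ?_⟩
    have hhom : Rat.castHom Qb = algebraMap ℚ Qb := Subsingleton.elim _ _
    rw [hhom]
    exact minpoly.aeval ℚ x
  obtain ⟨ψ⟩ := exists_ringHom_real701 hint c.toRingEquiv hcc hmove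
  have h2' : (2 : Qb) ≠ 0 := two_ne_zero
  obtain ⟨i, hi, hci⟩ := exists_sqrt_neg_one701 h2' c.toRingEquiv hcc hmove
  exact ⟨extEmb701 c.toRingEquiv hcc i hi hci h2' ψ,
    fun x => extEmb701_conj c.toRingEquiv hcc i hi hci h2' ψ x⟩

/-- Every embedding `φ : ℚ̄ → ℂ` has a complex conjugation in `Gal(ℚ̄/ℚ)`. -/
theorem exists_conj_of_embedding701 (φ : Qb →+* ℂ) :
    ∃ c : GQ, c * c = 1 ∧ c ≠ 1 ∧ ∀ x, φ (c x) = starRingEnd ℂ (φ x) := by
  let _ : Algebra Qb ℂ := φ.toAlgebra
  have _ : IsScalarTower ℚ Qb ℂ := IsScalarTower.of_algebraMap_eq' (Subsingleton.elim _ _)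
  have _ : Algebra.IsAlgebraic ℚ Qb := AlgebraicClosure.isAlgebraic ℚ
  have _ : IsAlgClosure ℚ Qb := ⟨inferInstance, inferInstance⟩
  have _ : Normal ℚ Qb := IsAlgClosure.normal ℚ Qb
  let cc : ℂ ≃ₐ[ℚ] ℂ :=
    AlgEquiv.ofRingEquiv (f := starRingAut) fun x => map_ratCast (starRingEnd ℂ) x
  have hcc : ∀ z : ℂ, cc z = starRingEnd ℂ z := fun z => rfl
  let c : GQ := AlgEquiv.restrictNormalHom (F := ℚ) (K₁ := ℂ) Qb cc
  have hc : ∀ x : Qb, φ (c x) = starRingEnd ℂ (φ x) := fun x =>
    AlgEquiv.restrictNormal_commutes cc Qb x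
  have hinj : Function.Injective φ := φ.injective
  refine ⟨c, ?_, ?_, hc⟩
  · apply AlgEquiv.ext
    intro x
    apply hinj
    show φ (c (c x)) = φ x
    rw [hc, hc, Complex.conj_conj]
  · intro h1
    obtain ⟨i, hi⟩ := IsAlgClosed.exists_eq_mul_self (-1 : Qb)
    have hφi : φ i * φ i = -1 := by
      rw [← map_mul, ← hi, map_neg, map_one]
    have hfix : starRingEnd ℂ (φ i) = φ i := by
      rw [← hc, h1]
      rfl
    -- a real number with square -1
    have hre : (φ i).im = 0 := by
      have := congrArg Complex.im hfix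
      simp only [Complex.conj_im] at this
      linarith
    have hsq := congrArg Complex.re hφi
    simp only [Complex.mul_re, hre, mul_zero, sub_zero, Complex.neg_re, Complex.one_re] at hsq
    nlinarith [mul_self_nonneg (φ i).re]

end Qbar

end Fermat.Agent.LT.CFT.H701

end
end
-- ===== PACK-END LT/CFT/H701/ConjEmb.lean

-- ===== PACK-BEGIN LT/T1/H729/Iwasawa.lean
section




/-!
# Row LT, tower T1 (volunteer helper729): the Iwasawa decomposition of `GL₂(𝔸_K)`

OFF-MAIN.  Vocabulary of `LT/H556/A0.lean` (`G K`, `Adl K`, `finComp`, `infComp`, `IsIntegralAt`).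

`iwasawa729 : ∀ g : G K, ∃ b κ : G K, g = b * κ ∧ b₁₀ = 0 ∧ InMaxCompact729 κ`, where
`InMaxCompact729 κ` says: `κ` and `κ⁻¹` are integral at every finite place, and at every infinite
place the matrix of `κ` is unitary of determinant one (`SU(2)` at a complex place, `SO(2)` at a
real place).
-/

set_option autoImplicit false

open IsDedekindDomain NumberField
open Fermat.Agent.LT.H556.A0

noncomputable section

namespace Fermat.Agent.LT.T1.H729

set_option linter.unusedSectionVars false

variable {K : Type} [Field K] [NumberField K]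

/-! ## Components of adeles -/

/-- The component at the infinite place `w`, as a ring homomorphism. -/
def projInf729 (w : InfinitePlace K) : Adl K →+* w.Completion :=
  (Pi.evalRingHom (fun w : InfinitePlace K => w.Completion) w).comp
    (RingHom.fst (InfiniteAdeleRing K) (FiniteAdeleRing (𝓞 K) K))

/-- The component at the finite place `v`, as a ring homomorphism. -/
def projFin729 (v : HeightOneSpectrum (𝓞 K)) : Adl K →+* v.adicCompletion K :=
  (RestrictedProduct.evalRingHom (fun v : HeightOneSpectrum (𝓞 K) => v.adicCompletion K) v).comp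
    (RingHom.snd (InfiniteAdeleRing K) (FiniteAdeleRing (𝓞 K) K))

@[simp] theorem projInf729_apply (w : InfinitePlace K) (x : Adl K) : projInf729 w x = x.1 w := rfl

@[simp] theorem projFin729_apply (v : HeightOneSpectrum (𝓞 K)) (x : Adl K) :
    projFin729 v x = x.2 v := rfl

@[simp] theorem neg_inf729 (w : InfinitePlace K) (x : Adl K) : (-x).1 w = -(x.1 w) :=
  map_neg (projInf729 w) x

@[simp] theorem neg_fin729 (v : HeightOneSpectrum (𝓞 K)) (x : Adl K) : (-x).2 v = -(x.2 v) :=
  map_neg (projFin729 v) x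

/-- Two adeles with the same components are equal. -/
theorem adl_ext729 {x y : Adl K} (hinf : ∀ w : InfinitePlace K, x.1 w = y.1 w)
    (hfin : ∀ v : HeightOneSpectrum (𝓞 K), x.2 v = y.2 v) : x = y :=
  Prod.ext (funext hinf) (FiniteAdeleRing.ext K hfin)

/-- The adele with prescribed components, integral at every finite place. -/
def mkAdl729 (xinf : ∀ w : InfinitePlace K, w.Completion)
    (xfin : ∀ v : HeightOneSpectrum (𝓞 K), v.adicCompletion K)
    (h : ∀ v, xfin v ∈ v.adicCompletionIntegers K) : Adl K :=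
  (xinf, ⟨xfin, Filter.Eventually.of_forall h⟩)

@[simp] theorem mkAdl729_inf (xinf : ∀ w : InfinitePlace K, w.Completion)
    (xfin : ∀ v : HeightOneSpectrum (𝓞 K), v.adicCompletion K)
    (h : ∀ v, xfin v ∈ v.adicCompletionIntegers K) (w : InfinitePlace K) :
    (mkAdl729 xinf xfin h).1 w = xinf w := rfl

@[simp] theorem mkAdl729_fin (xinf : ∀ w : InfinitePlace K, w.Completion)
    (xfin : ∀ v : HeightOneSpectrum (𝓞 K), v.adicCompletion K)
    (h : ∀ v, xfin v ∈ v.adicCompletionIntegers K) (v : HeightOneSpectrum (𝓞 K)) :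
    (mkAdl729 xinf xfin h).2 v = xfin v := rfl

/-- Two adelic matrices with the same local components are equal. -/
theorem adlMatrix_ext729 {M N : Matrix (Fin 2) (Fin 2) (Adl K)}
    (hinf : ∀ w : InfinitePlace K, (projInf729 w).mapMatrix M = (projInf729 w).mapMatrix N)
    (hfin : ∀ v : HeightOneSpectrum (𝓞 K), (projFin729 v).mapMatrix M = (projFin729 v).mapMatrix N) :
    M = N := by
  ext i j
  refine adl_ext729 (fun w => ?_) (fun v => ?_)
  · have := congrFun (congrFun (hinf w) i) j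
    simpa using this
  · have := congrFun (congrFun (hfin v) i) j
    simpa using this

/-! ## Preimages under the extension embedding -/

open InfinitePlace.Completion in
/-- Every real number is in the image of the extension embedding of an infinite place. -/
theorem exists_extEmb_eq_ofReal729 (w : InfinitePlace K) (t : ℝ) :
    ∃ x : w.Completion, extensionEmbedding w x = (t : ℂ) := by
  rcases w.isReal_or_isComplex with hw | hw
  · obtain ⟨x, hx⟩ := surjective_extensionEmbeddingOfIsReal hw t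
    exact ⟨x, by rw [← extensionEmbeddingOfIsReal_apply hw, hx]⟩
  · exact surjective_extensionEmbedding_of_isComplex hw _

open InfinitePlace.Completion in
/-- The image of the extension embedding of an infinite place is stable under conjugation. -/
theorem exists_extEmb_eq_conj729 (w : InfinitePlace K) (x : w.Completion) :
    ∃ y : w.Completion, extensionEmbedding w y = (starRingEnd ℂ) (extensionEmbedding w x) := by
  rcases w.isReal_or_isComplex with hw | hw
  · exact ⟨x, by rw [← extensionEmbeddingOfIsReal_apply hw, Complex.conj_ofReal]⟩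
  · exact surjective_extensionEmbedding_of_isComplex hw _

/-! ## Local data -/

open InfinitePlace.Completion in
/-- Local Iwasawa datum at an infinite place: `!![P, Q; R, S]` has determinant one, moves the row
`(c, d)` to `(0, *)`, and its inverse `!![S, -Q; -R, P]` is special unitary. -/
theorem exists_local_inf729 (w : InfinitePlace K) (c d : w.Completion) (h : c ≠ 0 ∨ d ≠ 0) :
    ∃ P Q R S : w.Completion, P * S - Q * R = 1 ∧ c * P + d * R = 0 ∧
      (!![extensionEmbedding w S, -extensionEmbedding w Q;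
          -extensionEmbedding w R, extensionEmbedding w P] : Matrix (Fin 2) (Fin 2) ℂ) *
        (!![extensionEmbedding w S, -extensionEmbedding w Q;
          -extensionEmbedding w R, extensionEmbedding w P] :
            Matrix (Fin 2) (Fin 2) ℂ).conjTranspose = 1 ∧
      (!![extensionEmbedding w S, -extensionEmbedding w Q;
          -extensionEmbedding w R, extensionEmbedding w P] : Matrix (Fin 2) (Fin 2) ℂ).det = 1 := by
  set ι := extensionEmbedding w with hι
  have hinj : Function.Injective ι := ι.injective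
  have h' : ι c ≠ 0 ∨ ι d ≠ 0 := by
    rcases h with h | h
    · exact Or.inl (fun h0 => h (hinj (by rw [h0, map_zero])))
    · exact Or.inr (fun h0 => h (hinj (by rw [h0, map_zero])))
  obtain ⟨ρ, hρpos, hρ2⟩ := exists_radius729 (ι c) (ι d) h'
  have hρC : (ρ : ℂ) ≠ 0 := by exact_mod_cast hρpos.ne'
  obtain ⟨ρi, hρi0⟩ := exists_extEmb_eq_ofReal729 w ρ⁻¹
  obtain ⟨cb, hcb0⟩ := exists_extEmb_eq_conj729 w c
  obtain ⟨db, hdb0⟩ := exists_extEmb_eq_conj729 w d
  have hρi : ι ρi = ((ρ⁻¹ : ℝ) : ℂ) := hρi0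
  have hcb : ι cb = (starRingEnd ℂ) (ι c) := hcb0
  have hdb : ι db = (starRingEnd ℂ) (ι d) := hdb0
  have hρi' : ι ρi = (ρ : ℂ)⁻¹ := by rw [hρi]; push_cast; rfl
  obtain ⟨hU, hD⟩ := su2_of_row729 (ι c) (ι d) ρ hρC hρ2
  have e1 : ι (db * ρi) = (starRingEnd ℂ) (ι d) / ρ := by
    rw [map_mul, hdb, hρi', div_eq_mul_inv]
  have e2 : -ι (cb * ρi) = -(starRingEnd ℂ) (ι c) / ρ := by
    rw [map_mul, hcb, hρi', div_eq_mul_inv, neg_mul]
  have e3 : -ι (-c * ρi) = ι c / ρ := by
    rw [map_mul, map_neg, hρi', div_eq_mul_inv, neg_mul, neg_neg]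
  have e4 : ι (d * ρi) = ι d / ρ := by
    rw [map_mul, hρi', div_eq_mul_inv]
  refine ⟨d * ρi, cb * ρi, -c * ρi, db * ρi, ?_, by ring, ?_, ?_⟩
  · apply hinj
    have hdet := hD
    rw [Matrix.det_fin_two_of] at hdet
    simp only [map_sub, map_mul, map_neg, map_one, hdb, hcb, hρi']
    rw [← hdet]
    field_simp
  · rw [e1, e2, e3, e4]; exact hU
  · rw [e1, e2, e3, e4]; exact hD

/-- Local Iwasawa datum at a finite place. -/
theorem exists_local_fin729 (v : HeightOneSpectrum (𝓞 K)) (c d : v.adicCompletion K) :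
    ∃ P Q R S : v.adicCompletion K,
      P ∈ v.adicCompletionIntegers K ∧ Q ∈ v.adicCompletionIntegers K ∧
      R ∈ v.adicCompletionIntegers K ∧ S ∈ v.adicCompletionIntegers K ∧
      P * S - Q * R = 1 ∧ c * P + d * R = 0 :=
  exists_sl2_integral_kill729 (v.adicCompletionIntegers K) c d

/-! ## The maximal compact subgroup and the global statement -/

/-- `κ` lies in the standard maximal compact subgroup of `GL₂(𝔸_K)`, connected at infinity:
`κ` and `κ⁻¹` are integral at every finite place; at every infinite place the matrix of `κ` is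
unitary of determinant one (`SU(2)` at a complex place, `SO(2)` at a real place). -/
def InMaxCompact729 (κ : G K) : Prop :=
  (∀ v : HeightOneSpectrum (𝓞 K), IsIntegralAt v κ ∧ IsIntegralAt v κ⁻¹) ∧
    ∀ w : InfinitePlace K,
      infComp w κ * (infComp w κ).conjTranspose = 1 ∧ (infComp w κ).det = 1

/-- The row `(g₁₀, g₁₁)` of an invertible adelic matrix is non-zero at every infinite place. -/
theorem row_ne_zero_inf729 (g : G K) (w : InfinitePlace K) :
    ((g : Matrix (Fin 2) (Fin 2) (Adl K)) 1 0).1 w ≠ 0 ∨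
      ((g : Matrix (Fin 2) (Fin 2) (Adl K)) 1 1).1 w ≠ 0 := by
  by_contra hcon
  rw [not_or, not_not, not_not] at hcon
  obtain ⟨h0, h1⟩ := hcon
  have hmul : (g : Matrix (Fin 2) (Fin 2) (Adl K)) * ((g⁻¹ : G K) : Matrix (Fin 2) (Fin 2) (Adl K))
      = 1 := by
    rw [← Units.val_mul, mul_inv_cancel, Units.val_one]
  have h11 := congrFun (congrFun hmul 1) 1
  rw [Matrix.mul_apply, Fin.sum_univ_two, Matrix.one_apply_eq] at h11
  have := congrArg (projInf729 w) h11
  simp only [map_add, map_mul, projInf729_apply, map_one, h0, h1, zero_mul, add_zero] at this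
  exact zero_ne_one this

/-- THE IWASAWA DECOMPOSITION of `GL₂(𝔸_K)`: every `g` is `b κ` with `b` upper triangular and `κ`
in the standard maximal compact subgroup (connected at infinity). -/
theorem iwasawa729 (g : G K) :
    ∃ b κ : G K, g = b * κ ∧ (b : Matrix (Fin 2) (Fin 2) (Adl K)) 1 0 = 0 ∧
      InMaxCompact729 κ := by
  classical
  -- local data
  have hinf : ∀ w : InfinitePlace K, ∃ P Q R S : w.Completion, P * S - Q * R = 1 ∧
      ((g : Matrix (Fin 2) (Fin 2) (Adl K)) 1 0).1 w * P +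
        ((g : Matrix (Fin 2) (Fin 2) (Adl K)) 1 1).1 w * R = 0 ∧
      (!![InfinitePlace.Completion.extensionEmbedding w S,
            -InfinitePlace.Completion.extensionEmbedding w Q;
          -InfinitePlace.Completion.extensionEmbedding w R,
            InfinitePlace.Completion.extensionEmbedding w P] : Matrix (Fin 2) (Fin 2) ℂ) *
        (!![InfinitePlace.Completion.extensionEmbedding w S,
            -InfinitePlace.Completion.extensionEmbedding w Q;
          -InfinitePlace.Completion.extensionEmbedding w R,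
            InfinitePlace.Completion.extensionEmbedding w P] :
            Matrix (Fin 2) (Fin 2) ℂ).conjTranspose = 1 ∧
      (!![InfinitePlace.Completion.extensionEmbedding w S,
            -InfinitePlace.Completion.extensionEmbedding w Q;
          -InfinitePlace.Completion.extensionEmbedding w R,
            InfinitePlace.Completion.extensionEmbedding w P] :
            Matrix (Fin 2) (Fin 2) ℂ).det = 1 :=
    fun w => exists_local_inf729 w _ _ (row_ne_zero_inf729 g w)
  have hfin : ∀ v : HeightOneSpectrum (𝓞 K), ∃ P Q R S : v.adicCompletion K,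
      P ∈ v.adicCompletionIntegers K ∧ Q ∈ v.adicCompletionIntegers K ∧
      R ∈ v.adicCompletionIntegers K ∧ S ∈ v.adicCompletionIntegers K ∧
      P * S - Q * R = 1 ∧
      ((g : Matrix (Fin 2) (Fin 2) (Adl K)) 1 0).2 v * P +
        ((g : Matrix (Fin 2) (Fin 2) (Adl K)) 1 1).2 v * R = 0 :=
    fun v => exists_local_fin729 v _ _
  choose Pi Qi Ri Si hdi hri hUi hDi using hinf
  choose Pf Qf Rf Sf hP hQ hR hS hdf hrf using hfin
  -- the adelic entries
  set P : Adl K := mkAdl729 Pi Pf hP with hPdef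
  set Q : Adl K := mkAdl729 Qi Qf hQ with hQdef
  set R : Adl K := mkAdl729 Ri Rf hR with hRdef
  set S : Adl K := mkAdl729 Si Sf hS with hSdef
  have hdet : P * S - Q * R = 1 := by
    refine adl_ext729 (fun w => ?_) (fun v => ?_)
    · exact hdi w
    · exact hdf v
  have hrow : (g : Matrix (Fin 2) (Fin 2) (Adl K)) 1 0 * P +
      (g : Matrix (Fin 2) (Fin 2) (Adl K)) 1 1 * R = 0 := by
    refine adl_ext729 (fun w => ?_) (fun v => ?_)
    · exact hri w
    · exact hrf v
  have h1 : (!![S, -Q; -R, P] : Matrix (Fin 2) (Fin 2) (Adl K)) * !![P, Q; R, S] = 1 := by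
    ext i j
    fin_cases i <;> fin_cases j <;>
      simp [Matrix.mul_apply, Fin.sum_univ_two] <;>
      first
        | ring1
        | linear_combination hdet
  have h2 : (!![P, Q; R, S] : Matrix (Fin 2) (Fin 2) (Adl K)) * !![S, -Q; -R, P] = 1 := by
    ext i j
    fin_cases i <;> fin_cases j <;>
      simp [Matrix.mul_apply, Fin.sum_univ_two] <;>
      first
        | ring1
        | linear_combination hdet
  let κ : G K := ⟨!![S, -Q; -R, P], !![P, Q; R, S], h1, h2⟩
  have hκ : (κ : Matrix (Fin 2) (Fin 2) (Adl K)) = !![S, -Q; -R, P] := rfl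
  have hκi : ((κ⁻¹ : G K) : Matrix (Fin 2) (Fin 2) (Adl K)) = !![P, Q; R, S] := rfl
  refine ⟨g * κ⁻¹, κ, by rw [inv_mul_cancel_right], ?_, ⟨fun v => ⟨?_, ?_⟩, fun w => ?_⟩⟩
  · rw [Units.val_mul, hκi, Matrix.mul_apply, Fin.sum_univ_two]
    simpa using hrow
  · intro i j
    simp only [finComp, hκ]
    fin_cases i <;> fin_cases j
    · simpa [hSdef] using hS v
    · simpa [hQdef] using (v.adicCompletionIntegers K).neg_mem _ (hQ v)
    · simpa [hRdef] using (v.adicCompletionIntegers K).neg_mem _ (hR v)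
    · simpa [hPdef] using hP v
  · intro i j
    simp only [finComp, hκi]
    fin_cases i <;> fin_cases j
    · simpa [hPdef] using hP v
    · simpa [hQdef] using hQ v
    · simpa [hRdef] using hR v
    · simpa [hSdef] using hS v
  · have hmat : infComp w κ =
        (!![InfinitePlace.Completion.extensionEmbedding w (Si w),
            -InfinitePlace.Completion.extensionEmbedding w (Qi w);
          -InfinitePlace.Completion.extensionEmbedding w (Ri w),
            InfinitePlace.Completion.extensionEmbedding w (Pi w)] :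
            Matrix (Fin 2) (Fin 2) ℂ) := by
      ext i j
      simp only [infComp, hκ]
      fin_cases i <;> fin_cases j <;> simp [hPdef, hQdef, hRdef, hSdef]
    rw [hmat]
    exact ⟨hUi w, hDi w⟩

end Fermat.Agent.LT.T1.H729

end
end
-- ===== PACK-END LT/T1/H729/Iwasawa.lean

-- ===== PACK-BEGIN LT/T7/H263/Pack.lean
section


/-!
# Row LT, tower T7, leaf T7.14.3b `CountBddC` (helper263, registry 1657) -- packing core

OFF-MAIN.  Mathlib only.  A finite family of nonzero vectors `(p i, q i)` of `ℂ²` which is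
pairwise `Y`-separated for the chordal metric of `ℙ¹(ℂ)`,
`Y (|p_i|² + |q_i|²)(|p_j|² + |q_j|²) ≤ |p_i q_j - q_i p_j|²`, has at most `98 / Y` members
(`0 < Y ≤ 1`): in the chart `z = q / p` (resp. `p / q`), `|z| ≤ 1`, the points are
`√Y`-separated, so the grid cell of side `√Y / 2` is injective.
-/

set_option autoImplicit false

noncomputable section

namespace Fermat.Agent.LT.T7.H263

/-- Chordal separation in the chart `z = b / a`. -/
theorem sep_chart263 {a b c d : ℂ} (ha : a ≠ 0) (hc : c ≠ 0) {Y : ℝ} (hY : 0 ≤ Y)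
    (h : Y * ((‖a‖ ^ 2 + ‖b‖ ^ 2) * (‖c‖ ^ 2 + ‖d‖ ^ 2)) ≤ ‖a * d - b * c‖ ^ 2) :
    Y ≤ ‖d / c - b / a‖ ^ 2 := by
  have ha' : 0 < ‖a‖ ^ 2 := by positivity
  have hc' : 0 < ‖c‖ ^ 2 := by positivity
  have hfac : a * d - b * c = a * c * (d / c - b / a) := by
    field_simp
  have hnorm : ‖a * d - b * c‖ ^ 2 = ‖a‖ ^ 2 * ‖c‖ ^ 2 * ‖d / c - b / a‖ ^ 2 := by
    rw [hfac, norm_mul, norm_mul]
    ring
  rw [hnorm] at h
  have h1 : Y * (‖a‖ ^ 2 * ‖c‖ ^ 2) ≤ Y * ((‖a‖ ^ 2 + ‖b‖ ^ 2) * (‖c‖ ^ 2 + ‖d‖ ^ 2)) := by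
    refine mul_le_mul_of_nonneg_left ?_ hY
    refine mul_le_mul ?_ ?_ hc'.le (by positivity)
    · nlinarith [sq_nonneg ‖b‖]
    · nlinarith [sq_nonneg ‖d‖]
  have h2 : Y * (‖a‖ ^ 2 * ‖c‖ ^ 2) ≤ ‖d / c - b / a‖ ^ 2 * (‖a‖ ^ 2 * ‖c‖ ^ 2) := by
    calc Y * (‖a‖ ^ 2 * ‖c‖ ^ 2) ≤ _ := h1
      _ ≤ ‖a‖ ^ 2 * ‖c‖ ^ 2 * ‖d / c - b / a‖ ^ 2 := h
      _ = _ := by ring
  exact le_of_mul_le_mul_right h2 (mul_pos ha' hc')

/-- The chart coordinate: `q / p` if `|q| ≤ |p|`, else `p / q`. -/
def chartZ263 (p q : ℂ) : ℂ := if ‖q‖ ≤ ‖p‖ then q / p else p / q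

theorem norm_chartZ_le263 (p q : ℂ) : ‖chartZ263 p q‖ ≤ 1 := by
  unfold chartZ263
  split_ifs with h
  · rw [norm_div]
    exact div_le_one_of_le₀ h (norm_nonneg _)
  · rw [norm_div]
    exact div_le_one_of_le₀ (le_of_lt (not_le.mp h)) (norm_nonneg _)

/-- The grid cell of a point of `ℙ¹(ℂ)`. -/
def cell263 (s : ℝ) (p q : ℂ) : Bool × ℤ × ℤ :=
  (decide (‖q‖ ≤ ‖p‖), ⌊(chartZ263 p q).re / s⌋, ⌊(chartZ263 p q).im / s⌋)

theorem abs_sub_lt_of_floor_eq263 {s x y : ℝ} (hs : 0 < s) (h : ⌊x / s⌋ = ⌊y / s⌋) :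
    |x - y| < s := by
  have h1 := Int.abs_sub_lt_one_of_floor_eq_floor h
  have h2 : x / s - y / s = (x - y) / s := by ring
  rw [h2, abs_div, abs_of_pos hs, div_lt_one hs] at h1
  exact h1

theorem floor_mem_Icc263 {s x : ℝ} (hs : 0 < s) (hx : |x| ≤ 1) :
    ⌊x / s⌋ ∈ Finset.Icc (-⌈1 / s⌉) ⌈1 / s⌉ := by
  rw [Finset.mem_Icc]
  have hx1 := (abs_le.mp hx).1
  have hx2 := (abs_le.mp hx).2
  constructor
  · rw [← Int.floor_neg]
    refine Int.floor_le_floor ?_
    rw [neg_le, ← neg_div]
    exact div_le_div_of_nonneg_right (by linarith) hs.le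
  · refine (Int.floor_le_ceil _).trans (Int.ceil_le_ceil ?_)
    exact div_le_div_of_nonneg_right hx2 hs.le

/-- Two separated points lie in different cells. -/
theorem cell_ne263 {p q p' q' : ℂ} (h0 : p ≠ 0 ∨ q ≠ 0) (h0' : p' ≠ 0 ∨ q' ≠ 0) {Y : ℝ}
    (hY : 0 < Y)
    (h : Y * ((‖p‖ ^ 2 + ‖q‖ ^ 2) * (‖p'‖ ^ 2 + ‖q'‖ ^ 2)) ≤ ‖p * q' - q * p'‖ ^ 2) :
    cell263 (Real.sqrt Y / 2) p q ≠ cell263 (Real.sqrt Y / 2) p' q' := by
  intro hcell
  have hs : 0 < Real.sqrt Y / 2 := by positivity
  unfold cell263 at hcell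
  simp only [Prod.mk.injEq, decide_eq_decide] at hcell
  obtain ⟨hb, hre, him⟩ := hcell
  have hre' := abs_sub_lt_of_floor_eq263 hs hre
  have him' := abs_sub_lt_of_floor_eq263 hs him
  -- the chart distance is small
  have hsmall : ‖chartZ263 p' q' - chartZ263 p q‖ ^ 2 < Y := by
    rw [Complex.sq_norm, Complex.normSq_apply, Complex.sub_re, Complex.sub_im]
    have e1 : ((chartZ263 p' q').re - (chartZ263 p q).re) ^ 2 < (Real.sqrt Y / 2) ^ 2 := by
      rw [abs_sub_comm] at hre'
      exact sq_lt_sq' (by linarith [(abs_lt.mp hre').1]) (abs_lt.mp hre').2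
    have e2 : ((chartZ263 p' q').im - (chartZ263 p q).im) ^ 2 < (Real.sqrt Y / 2) ^ 2 := by
      rw [abs_sub_comm] at him'
      exact sq_lt_sq' (by linarith [(abs_lt.mp him').1]) (abs_lt.mp him').2
    have e3 : (Real.sqrt Y / 2) ^ 2 = Y / 4 := by
      rw [div_pow, Real.sq_sqrt hY.le]; norm_num
    rw [e3] at e1 e2
    nlinarith
  -- the chart distance is large
  have hlarge : Y ≤ ‖chartZ263 p' q' - chartZ263 p q‖ ^ 2 := by
    by_cases hc : ‖q‖ ≤ ‖p‖
    · have hc' : ‖q'‖ ≤ ‖p'‖ := hb.mp hc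
      have hp : p ≠ 0 := by
        rintro rfl
        rw [norm_zero] at hc
        have : q = 0 := norm_le_zero_iff.mp hc
        exact h0.elim (fun h => h rfl) (fun h => h this)
      have hp' : p' ≠ 0 := by
        rintro rfl
        rw [norm_zero] at hc'
        have : q' = 0 := norm_le_zero_iff.mp hc'
        exact h0'.elim (fun h => h rfl) (fun h => h this)
      have := sep_chart263 hp hp' hY.le h
      unfold chartZ263
      rw [if_pos hc, if_pos hc']
      exact this
    · have hc' : ¬ ‖q'‖ ≤ ‖p'‖ := fun h => hc (hb.mpr h)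
      have hq : q ≠ 0 := by
        rintro rfl
        rw [norm_zero] at hc
        exact hc (norm_nonneg _)
      have hq' : q' ≠ 0 := by
        rintro rfl
        rw [norm_zero] at hc'
        exact hc' (norm_nonneg _)
      have h' : Y * ((‖q‖ ^ 2 + ‖p‖ ^ 2) * (‖q'‖ ^ 2 + ‖p'‖ ^ 2)) ≤ ‖q * p' - p * q'‖ ^ 2 := by
        rw [norm_sub_rev, add_comm (‖q‖ ^ 2), add_comm (‖q'‖ ^ 2)]
        exact h
      have := sep_chart263 hq hq' hY.le h'
      unfold chartZ263
      rw [if_neg hc, if_neg hc']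
      exact this
  exact absurd hlarge (not_le.mpr hsmall)

theorem cell_mem263 {s : ℝ} (hs : 0 < s) (p q : ℂ) :
    cell263 s p q ∈ (Finset.univ : Finset Bool) ×ˢ
      (Finset.Icc (-⌈1 / s⌉) ⌈1 / s⌉ ×ˢ Finset.Icc (-⌈1 / s⌉) ⌈1 / s⌉) := by
  have hz := norm_chartZ_le263 p q
  unfold cell263
  simp only [Finset.mem_product, Finset.mem_univ, true_and]
  exact ⟨floor_mem_Icc263 hs ((Complex.abs_re_le_norm _).trans hz),
    floor_mem_Icc263 hs ((Complex.abs_im_le_norm _).trans hz)⟩

/-- **Packing bound.** -/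
theorem pack263 {ι : Type*} (T : Finset ι) (p q : ι → ℂ) (Y : ℝ) (hY : 0 < Y) (hY1 : Y ≤ 1)
    (hne : ∀ i ∈ T, p i ≠ 0 ∨ q i ≠ 0)
    (hsep : ∀ i ∈ T, ∀ j ∈ T, i ≠ j →
      Y * ((‖p i‖ ^ 2 + ‖q i‖ ^ 2) * (‖p j‖ ^ 2 + ‖q j‖ ^ 2)) ≤ ‖p i * q j - q i * p j‖ ^ 2) :
    Y * (T.card : ℝ) ≤ 98 := by
  set s : ℝ := Real.sqrt Y / 2 with hs_def
  have hsqrt : 0 < Real.sqrt Y := Real.sqrt_pos.mpr hY
  have hs : 0 < s := by positivity
  set N : ℤ := ⌈1 / s⌉ with hN_def
  have hinj : Set.InjOn (fun i => cell263 s (p i) (q i)) (T : Set ι) := by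
    intro i hi j hj hij
    by_contra hne'
    exact cell_ne263 (hne i hi) (hne j hj) hY (hsep i hi j hj hne') hij
  have hmaps : ∀ i ∈ T, (fun i => cell263 s (p i) (q i)) i ∈
      (Finset.univ : Finset Bool) ×ˢ (Finset.Icc (-N) N ×ˢ Finset.Icc (-N) N) :=
    fun i _ => cell_mem263 hs (p i) (q i)
  have hcard := Finset.card_le_card_of_injOn _ hmaps hinj
  rw [Finset.card_product, Finset.card_product, Finset.card_univ, Fintype.card_bool,
    Int.card_Icc] at hcard
  have hN0 : 0 ≤ N := Int.ceil_nonneg (by positivity)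
  have hNlt : (N : ℝ) < 1 / s + 1 := Int.ceil_lt_add_one _
  have htoNat : (((N + 1 - -N).toNat : ℕ) : ℝ) = 2 * (N : ℝ) + 1 := by
    have h1 : ((N + 1 - -N).toNat : ℤ) = 2 * N + 1 := by
      rw [Int.toNat_of_nonneg (by linarith)]
      ring
    have h2 : (((N + 1 - -N).toNat : ℤ) : ℝ) = ((2 * N + 1 : ℤ) : ℝ) := by rw [h1]
    push_cast at h2
    exact h2
  have hcardR : (T.card : ℝ) ≤ 2 * ((2 * (N : ℝ) + 1) * (2 * (N : ℝ) + 1)) := by
    have := (Nat.cast_le (α := ℝ)).mpr hcard
    push_cast at this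
    rw [htoNat] at this
    exact this
  have hsqrt1 : Real.sqrt Y ≤ 1 := Real.sqrt_le_one.mpr hY1 |> fun h => by simpa using h
  have hbound : 2 * (N : ℝ) + 1 ≤ 7 / Real.sqrt Y := by
    have e1 : 1 / s = 2 / Real.sqrt Y := by
      rw [hs_def]; field_simp
    rw [e1] at hNlt
    have e2 : 2 * (2 / Real.sqrt Y + 1) + 1 = 4 / Real.sqrt Y + 3 := by ring
    have e3 : (3 : ℝ) ≤ 3 / Real.sqrt Y := by
      rw [le_div_iff₀ hsqrt]; nlinarith
    have e4 : 4 / Real.sqrt Y + 3 / Real.sqrt Y = 7 / Real.sqrt Y := by ring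
    linarith
  have hpos : 0 ≤ 2 * (N : ℝ) + 1 := by
    have : (0 : ℝ) ≤ N := by exact_mod_cast hN0
    linarith
  have hsq : (2 * (N : ℝ) + 1) * (2 * (N : ℝ) + 1) ≤ 49 / Y := by
    have h1 : (2 * (N : ℝ) + 1) * (2 * (N : ℝ) + 1) ≤ (7 / Real.sqrt Y) * (7 / Real.sqrt Y) :=
      mul_le_mul hbound hbound hpos (hpos.trans hbound)
    have h2 : (7 / Real.sqrt Y) * (7 / Real.sqrt Y) = 49 / Y := by
      rw [div_mul_div_comm, Real.mul_self_sqrt hY.le]; norm_num
    rw [h2] at h1
    exact h1
  calc Y * (T.card : ℝ) ≤ Y * (2 * (49 / Y)) := by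
        refine mul_le_mul_of_nonneg_left (hcardR.trans ?_) hY.le
        linarith
    _ = 98 := by field_simp; norm_num

end Fermat.Agent.LT.T7.H263

end

end
-- ===== PACK-END LT/T7/H263/Pack.lean

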