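import Mathlib
import Fermat.Agent.Pack.LT2.E0L3

set_option linter.all false

-- ===== PACK-BEGIN LT/T2/H864/OdeCore.lean
section


/-!
# Row LT, tower T2, leaf T2.10.08.11 `OdeUniqC`: the Mathlib-only core (helper864)

OFF-MAIN.  A solution of `h'' = k² e^{2s} h` on `ℝ` which tends to `0` at `+∞` and has a zero
vanishes identically.

Proof.  `E = h h'` has `E' = h'² + q h² ≥ 0` (`q = k² e^{2s} ≥ 0`), so `E ≥ 0` after the zero `s₀`,
`h²` is non-decreasing on `[s₀, ∞)` and tends to `0`: `h = 0` on `[s₀, ∞)`.  At `s₁ = s₀ + 1`: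
`h = h' = 0`; on `(-∞, s₁]`, `q ≤ C = k² e^{2 s₁}` and `F = h'² + h²` satisfies
`F' + (C + 1) F ≥ (q + 1) (h + h')² ≥ 0`, so `e^{(C+1) s} F` is non-decreasing and `≤ 0` at `s₁`.
-/

set_option autoImplicit false

noncomputable section

namespace Fermat.Agent.LT.T2.H864

/-- The core of `OdeUniqC`. -/
theorem ode_uniq_core864 (k : ℝ) (h h' : ℝ → ℝ) (hh : ∀ s : ℝ, HasDerivAt h (h' s) s)
    (hh' : ∀ s : ℝ, HasDerivAt h' (k ^ 2 * Real.exp (2 * s) * h s) s)
    (hlim : Filter.Tendsto h Filter.atTop (nhds 0)) {s₀ : ℝ} (h0 : h s₀ = 0) :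
    ∀ s : ℝ, h s = 0 := by
  have hq : ∀ s : ℝ, 0 ≤ k ^ 2 * Real.exp (2 * s) := fun s =>
    mul_nonneg (sq_nonneg k) (Real.exp_pos _).le
  -- Step A: `E = h h'` is monotone
  have hE : ∀ s : ℝ, HasDerivAt (fun x => h x * h' x)
      (h' s * h' s + h s * (k ^ 2 * Real.exp (2 * s) * h s)) s := fun s => (hh s).mul (hh' s)
  have hEmono : Monotone fun x => h x * h' x := by
    refine monotone_of_deriv_nonneg (fun s => (hE s).differentiableAt) (fun s => ?_)
    rw [(hE s).deriv]
    have := hq s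
    nlinarith [sq_nonneg (h' s), sq_nonneg (h s), mul_nonneg this (sq_nonneg (h s))]
  -- Step B: `h = 0` on `[s₀, ∞)`
  have hP : ∀ s : ℝ, HasDerivAt (fun x => h x ^ 2) (2 * (h s * h' s)) s := by
    intro s
    have h1 : HasDerivAt (fun x => h x * h x) (h' s * h s + h s * h' s) s := (hh s).mul (hh s)
    have e1 : (fun x => h x ^ 2) = fun x => h x * h x := by
      funext x
      ring
    rw [e1]
    exact h1.congr_deriv (by ring)
  have hPmono : MonotoneOn (fun x => h x ^ 2) (Set.Ici s₀) := by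
    refine monotoneOn_of_deriv_nonneg (convex_Ici s₀)
      (fun s _ => (hP s).continuousAt.continuousWithinAt)
      (fun s _ => (hP s).differentiableAt.differentiableWithinAt) (fun s hs => ?_)
    rw [interior_Ici] at hs
    rw [(hP s).deriv]
    have h1 : h s₀ * h' s₀ ≤ h s * h' s := hEmono (le_of_lt hs)
    rw [h0, zero_mul] at h1
    linarith
  have hright : ∀ s : ℝ, s₀ ≤ s → h s = 0 := by
    intro s hs
    have hlim2 : Filter.Tendsto (fun x => h x ^ 2) Filter.atTop (nhds 0) := by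
      have := hlim.pow 2
      simpa using this
    have hle : h s ^ 2 ≤ 0 := by
      refine ge_of_tendsto hlim2 ?_
      filter_upwards [Filter.eventually_ge_atTop s] with t ht
      exact hPmono (Set.mem_Ici.2 hs) (Set.mem_Ici.2 (hs.trans ht)) ht
    have : h s ^ 2 = 0 := le_antisymm hle (sq_nonneg _)
    exact pow_eq_zero_iff (two_ne_zero) |>.1 this
  -- Step C: `h = h' = 0` at `s₁ = s₀ + 1`
  set s₁ : ℝ := s₀ + 1 with hs₁
  have hs₁0 : h s₁ = 0 := hright s₁ (by rw [hs₁]; linarith)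
  have hs₁' : h' s₁ = 0 := by
    have hev : h =ᶠ[nhds s₁] fun _ => (0 : ℝ) := by
      have hmem : Set.Ioi s₀ ∈ nhds s₁ := Ioi_mem_nhds (by rw [hs₁]; linarith)
      filter_upwards [hmem] with t ht
      exact hright t (le_of_lt ht)
    have hd : HasDerivAt h 0 s₁ := (hasDerivAt_const s₁ (0 : ℝ)).congr_of_eventuallyEq hev
    exact (hh s₁).unique hd
  -- Step D: `h = 0` on `(-∞, s₁]`
  set C : ℝ := k ^ 2 * Real.exp (2 * s₁) with hC
  have hF : ∀ s : ℝ, HasDerivAt (fun x => h' x ^ 2 + h x ^ 2)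
      (2 * (h' s * (k ^ 2 * Real.exp (2 * s) * h s)) + 2 * (h s * h' s)) s := by
    intro s
    have h1 : HasDerivAt (fun x => h' x * h' x)
        (k ^ 2 * Real.exp (2 * s) * h s * h' s + h' s * (k ^ 2 * Real.exp (2 * s) * h s)) s :=
      (hh' s).mul (hh' s)
    have h2 : HasDerivAt (fun x => h x * h x) (h' s * h s + h s * h' s) s := (hh s).mul (hh s)
    have h3 := h1.add h2
    have e1 : (fun x => h' x ^ 2 + h x ^ 2) = fun x => h' x * h' x + h x * h x := by
      funext x
      ring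
    rw [e1]
    exact h3.congr_deriv (by ring)
  have hexp : ∀ s : ℝ, HasDerivAt (fun x => Real.exp ((C + 1) * x))
      (Real.exp ((C + 1) * s) * (C + 1)) s := by
    intro s
    have h1 : HasDerivAt (fun x : ℝ => (C + 1) * x) (C + 1) s := by
      simpa using (hasDerivAt_id s).const_mul (C + 1)
    exact h1.exp
  have hG : ∀ s : ℝ, HasDerivAt (fun x => Real.exp ((C + 1) * x) * (h' x ^ 2 + h x ^ 2))
      (Real.exp ((C + 1) * s) * (C + 1) * (h' s ^ 2 + h s ^ 2) +
        Real.exp ((C + 1) * s) *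
          (2 * (h' s * (k ^ 2 * Real.exp (2 * s) * h s)) + 2 * (h s * h' s))) s :=
    fun s => (hexp s).mul (hF s)
  have hGmono : MonotoneOn (fun x => Real.exp ((C + 1) * x) * (h' x ^ 2 + h x ^ 2))
      (Set.Iic s₁) := by
    refine monotoneOn_of_deriv_nonneg (convex_Iic s₁)
      (fun s _ => (hG s).continuousAt.continuousWithinAt)
      (fun s _ => (hG s).differentiableAt.differentiableWithinAt) (fun s hs => ?_)
    rw [interior_Iic] at hs
    rw [(hG s).deriv]
    have hqs : k ^ 2 * Real.exp (2 * s) ≤ C := by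
      rw [hC]
      refine mul_le_mul_of_nonneg_left ?_ (sq_nonneg k)
      exact Real.exp_le_exp.2 (by have := Set.mem_Iio.1 hs; linarith)
    have hq0 := hq s
    have hpos : 0 < Real.exp ((C + 1) * s) := Real.exp_pos _
    have key : 0 ≤ (C + 1) * (h' s ^ 2 + h s ^ 2) +
        (2 * (h' s * (k ^ 2 * Real.exp (2 * s) * h s)) + 2 * (h s * h' s)) := by
      set q := k ^ 2 * Real.exp (2 * s) with hqdef
      have e : (C + 1) * (h' s ^ 2 + h s ^ 2) + (2 * (h' s * (q * h s)) + 2 * (h s * h' s))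
          = (C - q) * (h' s ^ 2 + h s ^ 2) + (q + 1) * (h s + h' s) ^ 2 := by ring
      rw [e]
      have t1 : 0 ≤ (C - q) * (h' s ^ 2 + h s ^ 2) :=
        mul_nonneg (by linarith) (by positivity)
      have t2 : 0 ≤ (q + 1) * (h s + h' s) ^ 2 := mul_nonneg (by linarith) (sq_nonneg _)
      linarith
    have e2 : Real.exp ((C + 1) * s) * (C + 1) * (h' s ^ 2 + h s ^ 2) +
        Real.exp ((C + 1) * s) *
          (2 * (h' s * (k ^ 2 * Real.exp (2 * s) * h s)) + 2 * (h s * h' s)) =
        Real.exp ((C + 1) * s) * ((C + 1) * (h' s ^ 2 + h s ^ 2) +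
          (2 * (h' s * (k ^ 2 * Real.exp (2 * s) * h s)) + 2 * (h s * h' s))) := by ring
    rw [e2]
    exact mul_nonneg hpos.le key
  intro s
  rcases le_total s s₁ with hs | hs
  · have h1 := hGmono (Set.mem_Iic.2 hs) (Set.mem_Iic.2 le_rfl) hs
    simp only [hs₁0, hs₁'] at h1
    have hpos : 0 < Real.exp ((C + 1) * s) := Real.exp_pos _
    have h2 : Real.exp ((C + 1) * s) * (h' s ^ 2 + h s ^ 2) ≤ 0 := by
      simpa using h1
    have h3 : h' s ^ 2 + h s ^ 2 ≤ 0 := by
      by_contra hcon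
      have hcon' : 0 < h' s ^ 2 + h s ^ 2 := lt_of_not_ge hcon
      have := mul_pos hpos hcon'
      linarith
    have h4 : h s ^ 2 ≤ 0 := by nlinarith [sq_nonneg (h' s)]
    have : h s ^ 2 = 0 := le_antisymm h4 (sq_nonneg _)
    exact pow_eq_zero_iff (two_ne_zero) |>.1 this
  · exact hright s (by rw [hs₁] at hs; linarith)

end Fermat.Agent.LT.T2.H864

end

end
-- ===== PACK-END LT/T2/H864/OdeCore.lean

-- ===== PACK-BEGIN LT/T3/H736/ASWhitney.lean
section


/-!
# Row LT, tower T3, station T3.18a, leaf AS.2w: WHITNEY'S LEMMA with a parameter (MATHLIB ONLY)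

OFF-MAIN.  Frozen Props only (sub-architect helper736).  This is the only new analytic content of
the smooth form AS.2s `AbelCplxSmoothC` (ruling R4: test functions are smooth at infinity).

`WhitneySinhC`: for `E(u, c)` smooth on `ℝ²` and even in `u` there is `ρ`, smooth on the closed
half plane `{y ≥ 1}` (up to the boundary, `ContDiffOn`), with
`∂_u E(u, c) = sinh u · ρ(cosh u, c)`.
[`ρ(y, c) = ∂_u E(arcosh y, c) / sinh(arcosh y)` for `y > 1`, `ρ(1, c) = ∂_u² E(0, c)`.]

Use in AS.2s: `β̃(u, c) = β((c+u)/2, (c-u)/2)`, `F(x) = - ρ(chD x, log |det x|) / 2π` is smooth on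
`GL₂(ℂ)` (`chD ≥ 1` is smooth, `ContDiffOn.comp`), equals `abelInv614 (β̃(·, c)) (chD x)` of
helper614 for every fixed `c = log |det x|`, and its `N`-integral is `|c₁ c₂| β` by the
fundamental theorem of calculus.

Proof (Whitney, Duke Math. J. 10 (1943); Hadamard's lemma).  `Q(u, c) := ∂_u E(u, c) / sinh u`
extends to a smooth function, even in `u`:
`∂_u E(u, c) = u ∫₀¹ ∂_u² E(t u, c) dt`, `sinh u = u ∫₀¹ cosh (t u) dt`, the second integral is
`≥ 1`.  `ρ(cosh u, c) = Q(u, c)`; `∂_y ρ (cosh u, c) = ∂_u Q(u, c) / sinh u` is of the same form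
(`Q` is smooth and even), so by induction all derivatives of `ρ` in `y > 1` extend continuously
to `y = 1`, jointly in `(y, c)`.
-/

set_option autoImplicit false

noncomputable section

namespace Fermat.Agent.LT.T3.AS

/-- **AS.2w = WHITNEY (division form, with a parameter).** -/
def WhitneySinhC : Prop :=
  ∀ E : ℝ × ℝ → ℂ, ContDiff ℝ ((⊤ : ℕ∞) : WithTop ℕ∞) E → (∀ u c : ℝ, E (-u, c) = E (u, c)) →
    ∃ ρ : ℝ × ℝ → ℂ,
      ContDiffOn ℝ ((⊤ : ℕ∞) : WithTop ℕ∞) ρ (Set.Ici (1 : ℝ) ×ˢ (Set.univ : Set ℝ)) ∧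
      ∀ u c : ℝ, deriv (fun t : ℝ => E (t, c)) u = (Real.sinh u : ℂ) * ρ (Real.cosh u, c)

/-- The one-variable form (no parameter), a sub-step. -/
def WhitneySinh1C : Prop :=
  ∀ E : ℝ → ℂ, ContDiff ℝ ((⊤ : ℕ∞) : WithTop ℕ∞) E → (∀ u : ℝ, E (-u) = E u) →
    ∃ ρ : ℝ → ℂ, ContDiffOn ℝ ((⊤ : ℕ∞) : WithTop ℕ∞) ρ (Set.Ici (1 : ℝ)) ∧
      ∀ u : ℝ, deriv E u = (Real.sinh u : ℂ) * ρ (Real.cosh u)

end Fermat.Agent.LT.T3.AS

end

end
-- ===== PACK-END LT/T3/H736/ASWhitney.lean

-- ===== PACK-BEGIN LT/T3/H893/Bruhat.lean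
section


/-!
# Row LT, tower T3, leaf T3.11 (helper893): an abstract lemma of Bruhat type

OFF-MAIN.  Mathlib only.

`G` a second countable topological group with a left invariant measure `μ`, `(B, κ)` a measure
space, `p : B → G` measurable (in the application `B = ℤ × 𝔸_K`, `p (j, x) = n(x) γ₀ʲ`, a
parametrisation of the closed subgroup `P = N(𝔸_K) ⋊ γ₀^ℤ`).  If `Ψ` is left invariant under the
`p b`, if the orbital integrals `∫ φ((p b)⁻¹ y) dκ(b)` vanish, and if there is a weight `ρ ≥ 0`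
whose orbital integral `S(y) = ∫ ρ(p b · y) dκ(b)` is invariant, positive and finite on the support
of `φ`, then `∫ Ψ φ dμ = 0`.  (This is the well-definedness of the quotient integral on `P \ G`,
proved with the weight `ρ / S` instead of a Bruhat function; no quotient measure is used.)
-/

set_option autoImplicit false

open MeasureTheory
open scoped ENNReal

noncomputable section

namespace Fermat.Agent.LT.T3.H893

section Abstract

variable {G B : Type*} [Group G] [TopologicalSpace G] [IsTopologicalGroup G]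
  [MeasurableSpace G] [BorelSpace G] [SecondCountableTopology G]
  [MeasurableSpace B]

/-- The shear `(b, y) ↦ (b, p b * y)` as a measurable equivalence. -/
def shear893 (p : B → G) (hp : Measurable p) : B × G ≃ᵐ B × G where
  toFun z := (z.1, p z.1 * z.2)
  invFun z := (z.1, (p z.1)⁻¹ * z.2)
  left_inv z := by simp
  right_inv z := by simp
  measurable_toFun := by
    refine Measurable.prodMk measurable_fst ?_
    exact (hp.comp measurable_fst).mul measurable_snd
  measurable_invFun := by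
    refine Measurable.prodMk measurable_fst ?_
    exact ((hp.comp measurable_fst).inv).mul measurable_snd

theorem shear893_apply (p : B → G) (hp : Measurable p) (z : B × G) :
    shear893 p hp z = (z.1, p z.1 * z.2) := rfl

theorem measurePreserving_shear893 (μ : Measure G) [μ.IsMulLeftInvariant] [SFinite μ]
    (κ : Measure B) [SFinite κ] (p : B → G) (hp : Measurable p) :
    MeasurePreserving (shear893 p hp) (κ.prod μ) (κ.prod μ) := by
  have h := MeasurePreserving.skew_product (μa := κ) (μb := κ) (μc := μ) (μd := μ)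
    (f := id) (MeasurePreserving.id κ) (g := fun b y => p b * y)
    ((hp.comp measurable_fst).mul measurable_snd)
    (Filter.Eventually.of_forall fun b => map_mul_left_eq_self μ (p b))
  exact h

/-- **Bruhat-type lemma.** -/
theorem integral_eq_zero_of_orbital893 (μ : Measure G) [μ.IsMulLeftInvariant] [SFinite μ]
    (κ : Measure B) [SFinite κ] (p : B → G) (hp : Measurable p)
    (φ Ψ : G → ℂ) (hφ : Measurable φ) (hΨ : Measurable Ψ)
    (hint : Integrable (fun y => Ψ y * φ y) μ)
    (ρ : G → ℝ) (hρ : Measurable ρ) (hρ0 : ∀ y, 0 ≤ ρ y)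
    (hΨinv : ∀ b y, Ψ (p b * y) = Ψ y)
    (hSinv : ∀ b y, ∫⁻ b', ENNReal.ofReal (ρ (p b' * (p b * y))) ∂κ
        = ∫⁻ b', ENNReal.ofReal (ρ (p b' * y)) ∂κ)
    (hS0 : ∀ y, φ y ≠ 0 → ∫⁻ b, ENNReal.ofReal (ρ (p b * y)) ∂κ ≠ 0)
    (hStop : ∀ y, φ y ≠ 0 → ∫⁻ b, ENNReal.ofReal (ρ (p b * y)) ∂κ ≠ ∞)
    (horb : ∀ y, Integrable (fun b => φ ((p b)⁻¹ * y)) κ → ∫ b, φ ((p b)⁻¹ * y) ∂κ = 0) :
    ∫ y, Ψ y * φ y ∂μ = 0 := by
  classical
  -- the orbital integral of the weight
  set S : G → ℝ≥0∞ := fun y => ∫⁻ b, ENNReal.ofReal (ρ (p b * y)) ∂κ with hSdef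
  have hρpm : Measurable fun z : B × G => ρ (p z.1 * z.2) :=
    hρ.comp ((hp.comp measurable_fst).mul measurable_snd)
  have hSm : Measurable S := by
    have h1 : Measurable fun z : G × B => ENNReal.ofReal (ρ (p z.2 * z.1)) :=
      (hρ.comp ((hp.comp measurable_snd).mul measurable_fst)).ennreal_ofReal
    exact Measurable.lintegral_prod_right' h1
  set w : G → ℝ := fun y => ((S y)⁻¹).toReal with hwdef
  have hwm : Measurable w := (hSm.inv).ennreal_toReal
  have hwinv : ∀ b y, w (p b * y) = w y := by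
    intro b y
    simp only [hwdef, hSdef]
    rw [hSinv b y]
  -- the real orbital integral of the weight
  have hρint : ∀ y, φ y ≠ 0 → Integrable (fun b => ρ (p b * y)) κ := by
    intro y hy
    refine ⟨(hρ.comp (hp.mul_const y)).aestronglyMeasurable, ?_⟩
    rw [hasFiniteIntegral_iff_enorm]
    have : ∀ b, ‖ρ (p b * y)‖ₑ = ENNReal.ofReal (ρ (p b * y)) := fun b =>
      Real.enorm_of_nonneg (hρ0 _)
    simp only [this]
    exact lt_of_le_of_ne le_top (hStop y hy)
  have hρval : ∀ y, φ y ≠ 0 → w y * ∫ b, ρ (p b * y) ∂κ = 1 := by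
    intro y hy
    rw [integral_eq_lintegral_of_nonneg_ae (Filter.Eventually.of_forall fun b => hρ0 _)
      (hρ.comp (hp.mul_const y)).aestronglyMeasurable]
    have h0 : S y ≠ 0 := hS0 y hy
    have h1 : S y ≠ ∞ := hStop y hy
    change ((S y)⁻¹).toReal * (S y).toReal = 1
    rw [← ENNReal.toReal_mul, ENNReal.inv_mul_cancel h0 h1, ENNReal.toReal_one]
  -- the two kernels
  set H₁ : B × G → ℂ := fun z => Ψ z.2 * φ z.2 * (w z.2 : ℂ) * (ρ (p z.1 * z.2) : ℂ) with hH₁
  set H₂ : B × G → ℂ := fun z => Ψ z.2 * (w z.2 : ℂ) * (ρ z.2 : ℂ) * φ ((p z.1)⁻¹ * z.2) with hH₂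
  have hH₁m : Measurable H₁ := by
    refine ((((hΨ.comp measurable_snd).mul (hφ.comp measurable_snd)).mul
      (Complex.measurable_ofReal.comp (hwm.comp measurable_snd))).mul
      (Complex.measurable_ofReal.comp hρpm))
  have hcomp : ∀ z, H₂ (shear893 p hp z) = H₁ z := by
    intro z
    simp only [hH₁, hH₂, shear893_apply, inv_mul_cancel_left, hΨinv, hwinv]
    ring
  have key1 : ∀ y, ∫ b, H₁ (b, y) ∂κ = Ψ y * φ y := by
    intro y
    simp only [hH₁]
    rw [integral_const_mul, integral_complex_ofReal]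
    by_cases hy : φ y = 0
    · simp [hy]
    · have := hρval y hy
      rw [mul_assoc, ← Complex.ofReal_mul, this]
      simp
  have key1n : ∀ y, ∫ b, ‖H₁ (b, y)‖ ∂κ = ‖Ψ y * φ y‖ := by
    intro y
    simp only [hH₁]
    by_cases hy : φ y = 0
    · simp [hy]
    · have hw0 : 0 ≤ w y := ENNReal.toReal_nonneg
      have e1 : ∀ b, ‖Ψ y * φ y * (w y : ℂ) * (ρ (p b * y) : ℂ)‖
          = ‖Ψ y * φ y‖ * w y * ρ (p b * y) := by
        intro b
        rw [norm_mul, norm_mul, Complex.norm_real, Complex.norm_real,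
          Real.norm_of_nonneg hw0, Real.norm_of_nonneg (hρ0 _)]
      simp only [e1]
      rw [integral_const_mul, mul_assoc, hρval y hy, mul_one]
  have int1 : Integrable H₁ (κ.prod μ) := by
    rw [integrable_prod_iff' hH₁m.aestronglyMeasurable]
    refine ⟨Filter.Eventually.of_forall fun y => ?_, ?_⟩
    · by_cases hy : φ y = 0
      · simp [hH₁, hy]
      · simp only [hH₁]
        exact ((hρint y hy).ofReal (𝕜 := ℂ)).const_mul _
    · simp only [key1n]
      exact hint.norm
  have hT := measurePreserving_shear893 μ κ p hp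
  have int2 : Integrable H₂ (κ.prod μ) := by
    have h := (hT.integrable_comp_emb (shear893 p hp).measurableEmbedding (g := H₂)).1
    apply h
    have : H₂ ∘ (shear893 p hp) = H₁ := funext hcomp
    rw [this]
    exact int1
  have key2 : ∀ y, ∫ b, H₂ (b, y) ∂κ = 0 := by
    intro y
    simp only [hH₂]
    rw [integral_const_mul]
    by_cases hi : Integrable (fun b => φ ((p b)⁻¹ * y)) κ
    · rw [horb y hi, mul_zero]
    · rw [integral_undef hi, mul_zero]
  calc ∫ y, Ψ y * φ y ∂μ = ∫ y, ∫ b, H₁ (b, y) ∂κ ∂μ := by simp only [key1]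
    _ = ∫ z, H₁ z ∂(κ.prod μ) := (integral_prod_symm H₁ int1).symm
    _ = ∫ z, H₂ (shear893 p hp z) ∂(κ.prod μ) := by simp only [hcomp]
    _ = ∫ z, H₂ z ∂(κ.prod μ) := hT.integral_comp' H₂
    _ = ∫ y, ∫ b, H₂ (b, y) ∂κ ∂μ := integral_prod_symm H₂ int2
    _ = 0 := by simp only [key2, integral_zero]

end Abstract

end Fermat.Agent.LT.T3.H893

end

end
-- ===== PACK-END LT/T3/H893/Bruhat.lean

-- ===== PACK-BEGIN LT/T3/H984/ParamInt.lean
section


/-!
# Row LT, tower T3, leaf AS.2w (helper984): smooth parametric integrals over `[0,1]`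

Mathlib only.  `p ↦ ∫ t in 0..1, g p t` is smooth when `g` is jointly smooth
(from `contDiffOn_convolution_right_with_param`).  OFF-MAIN.
-/

set_option autoImplicit false

noncomputable section

namespace Fermat.Agent.LT.T3.H984

open Set Filter Topology MeasureTheory
open scoped ContDiff Convolution

/-- A smooth bump function, equal to `1` on `[-3/2, 1/2]`, with support in `(-5/2, 3/2)`. -/
def bump984 : ContDiffBump (-(1/2) : ℝ) := ⟨1, 2, by norm_num, by norm_num⟩

/-- The indicator function of `(0, 1]`. -/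
def ind984 : ℝ → ℝ := Set.indicator (Set.Ioc 0 1) (fun _ => (1:ℝ))

/-- The cut-off, reflected integrand. -/
def cut984 (g : ℝ × ℝ → ℝ → ℂ) : ℝ × ℝ → ℝ → ℂ := fun p x => (bump984 x : ℝ) • g p (-x)

theorem ind984_locInt : LocallyIntegrable ind984 volume := by
  apply Integrable.locallyIntegrable
  exact (integrable_indicator_iff measurableSet_Ioc).mpr (by simp)

theorem cut984_zero (g : ℝ × ℝ → ℝ → ℂ) (p : ℝ × ℝ) (x : ℝ)
    (hx : x ∉ Metric.closedBall (-(1/2) : ℝ) 2) : cut984 g p x = 0 := by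
  have : (bump984 x : ℝ) = 0 := by
    apply bump984.zero_of_le_dist
    rw [Metric.mem_closedBall, not_le] at hx
    exact hx.le
  simp only [cut984, this, zero_smul]

theorem cut984_contDiff {g : ℝ × ℝ → ℝ → ℂ}
    (hg : ContDiff ℝ ∞ (fun q : (ℝ × ℝ) × ℝ => g q.1 q.2)) :
    ContDiff ℝ ∞ (fun q : (ℝ × ℝ) × ℝ => cut984 g q.1 q.2) := by
  have h1 : ContDiff ℝ ∞ (fun q : (ℝ × ℝ) × ℝ => (bump984 q.2 : ℝ)) :=
    (bump984.contDiff (n := (⊤ : ℕ∞))).comp contDiff_snd
  have h2 : ContDiff ℝ ∞ (fun q : (ℝ × ℝ) × ℝ => g q.1 (-q.2)) :=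
    hg.comp (contDiff_fst.prodMk contDiff_snd.neg)
  exact h1.smul h2

theorem conv984_eq (g : ℝ × ℝ → ℝ → ℂ) (p : ℝ × ℝ) :
    (ind984 ⋆[(ContinuousLinearMap.lsmul ℝ ℝ : ℝ →L[ℝ] ℂ →L[ℝ] ℂ), volume] cut984 g p) 0
      = ∫ t in (0:ℝ)..1, g p t := by
  rw [MeasureTheory.convolution_def, intervalIntegral.integral_of_le zero_le_one,
    ← integral_indicator measurableSet_Ioc]
  congr 1
  funext t
  by_cases ht : t ∈ Set.Ioc (0:ℝ) 1
  · have hχ : (bump984 (-t) : ℝ) = 1 := by
      apply bump984.one_of_mem_closedBall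
      rw [Metric.mem_closedBall, Real.dist_eq, abs_le]
      obtain ⟨h0, h1⟩ := ht
      have : bump984.rIn = 1 := rfl
      rw [this]
      constructor <;> linarith
    simp only [ind984, cut984, Set.indicator_of_mem ht, ContinuousLinearMap.lsmul_apply,
      one_smul, zero_sub, neg_neg, hχ]
  · simp only [ind984, Set.indicator_of_notMem ht, ContinuousLinearMap.lsmul_apply, zero_smul]

/-- The convolution, as a function of the parameter and the point. -/
def conv984 (g : ℝ × ℝ → ℝ → ℂ) (q : (ℝ × ℝ) × ℝ) : ℂ :=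
  (ind984 ⋆[(ContinuousLinearMap.lsmul ℝ ℝ : ℝ →L[ℝ] ℂ →L[ℝ] ℂ), volume] cut984 g q.1) q.2

theorem conv984_contDiff {g : ℝ × ℝ → ℝ → ℂ}
    (hg : ContDiff ℝ ∞ (fun q : (ℝ × ℝ) × ℝ => g q.1 q.2)) : ContDiff ℝ ∞ (conv984 g) := by
  have hg' : ContDiffOn ℝ ((⊤ : ℕ∞) : WithTop ℕ∞) ↿(cut984 g) (univ ×ˢ univ) :=
    (cut984_contDiff hg).contDiffOn
  have key : ContDiffOn ℝ ((⊤ : ℕ∞) : WithTop ℕ∞) (conv984 g) (univ ×ˢ univ) :=
    contDiffOn_convolution_right_with_param (μ := volume)
      (ContinuousLinearMap.lsmul ℝ ℝ : ℝ →L[ℝ] ℂ →L[ℝ] ℂ) (f := ind984) (g := cut984 g)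
      (s := univ) (k := Metric.closedBall (-(1/2) : ℝ) 2) isOpen_univ (isCompact_closedBall _ _)
      (fun p x _ hx => cut984_zero g p x hx) ind984_locInt hg'
  rw [univ_prod_univ] at key
  exact contDiffOn_univ.mp key

/-- The parametric integral over `[0,1]` of a jointly smooth function is smooth. -/
theorem contDiff_paramInt984 {g : ℝ × ℝ → ℝ → ℂ}
    (hg : ContDiff ℝ ∞ (fun q : (ℝ × ℝ) × ℝ => g q.1 q.2)) :
    ContDiff ℝ ∞ (fun p : ℝ × ℝ => ∫ t in (0:ℝ)..1, g p t) := by
  have key2 : ContDiff ℝ ∞ (fun p : ℝ × ℝ => conv984 g (p, (0:ℝ))) :=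
    (conv984_contDiff hg).comp (contDiff_id.prodMk contDiff_const)
  have e : (fun p : ℝ × ℝ => ∫ t in (0:ℝ)..1, g p t) = (fun p : ℝ × ℝ => conv984 g (p, (0:ℝ))) := by
    funext p
    exact (conv984_eq g p).symm
  rw [e]
  exact key2

end Fermat.Agent.LT.T3.H984

end
end
-- ===== PACK-END LT/T3/H984/ParamInt.lean

-- ===== PACK-BEGIN LT/H29/Unfold.lean
section


/-!
# Row LT, towers T4 / T5, pre-leaf UNFOLD (helper29, squad S29/S29) -- OFF-MAIN, Mathlib only

Abstract core of the passage "kernel on the diagonal = sum over (twisted) conjugacy classes of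
orbital integrals" (`T5.06 TwUnfold`, and its instance `σ = id` in T4).

Frame: a countable group `Γ` acts on a measure space `(α, μ)` by measure preserving maps and on a
set `Δ`; `Φ : Δ → α → E` is invariant under the diagonal action,
`Φ (γ • δ) (γ • x) = Φ δ x`.  (Trace formula: `α = GL₂(𝔸)` or a slice of it, `Γ = GL₂(K)` acting
by left translation, `Δ = GL₂(K)` with `γ • δ = γ δ γ⁻¹`, resp. `γ δ σ(γ)⁻¹` in the twisted case,
and `Φ δ x = φ (x⁻¹ δ x)`, resp. `φ (x⁻¹ δ σ(x))`.)

* `isFundamentalDomain_subgroup29`: if `D` is a fundamental domain for `Γ` and `S ≤ Γ`, then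
  `⋃ q : Γ ⧸ S, q.out⁻¹ • D` is a fundamental domain for `S`.
* `lintegral_orbit_unfold29`: for `f ≥ 0`,
  `∑' δ : orbit Γ δ₀, ∫⁻ x in D, f δ x = ∫⁻ x in F, f δ₀ x` for EVERY fundamental domain `F` of
  the stabiliser of `δ₀`.
* `hasSum_integral_orbit_unfold29`: the same for Bochner integrals, under integrability of
  `Φ δ₀` on `F`.
* `integral_tsum_unfold29`: `∫ x in D, ∑' δ, Φ δ x = ∑' ω, ∫ x in F ω, Φ (rep ω) x`, the sum
  over the orbits `ω` of `Γ` in `Δ` (absolute convergence on `D` assumed).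
-/

set_option autoImplicit false

open MeasureTheory Set Function
open scoped ENNReal Pointwise

noncomputable section

namespace Fermat.Agent.LT.H29

variable {Γ α Δ : Type*} [Group Γ] [MulAction Γ α] [MeasurableSpace α] [MulAction Γ Δ]
  {μ : Measure α}

/-- The representative `q.out⁻¹` of the right coset `S q.out⁻¹`. -/
theorem out_inv_injective29 (S : Subgroup Γ) :
    Function.Injective fun q : Γ ⧸ S => (q.out : Γ)⁻¹ := by
  intro q q' h
  have h' : (q.out : Γ) = q'.out := inv_injective h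
  calc q = ((q.out : Γ) : Γ ⧸ S) := (QuotientGroup.out_eq' q).symm
    _ = ((q'.out : Γ) : Γ ⧸ S) := by rw [h']
    _ = q' := QuotientGroup.out_eq' q'

/-- `Γ ⧸ S` is countable. -/
theorem countable_quotient29 [Countable Γ] (S : Subgroup Γ) : Countable (Γ ⧸ S) :=
  (QuotientGroup.mk_surjective (s := S)).countable

/-- The translates `q.out⁻¹ • D` are pairwise a.e. disjoint. -/
theorem pairwise_aedisjoint_out_inv29 (S : Subgroup Γ) {D : Set α}
    (hD : IsFundamentalDomain Γ D μ) :
    Pairwise (AEDisjoint μ on fun q : Γ ⧸ S => (q.out : Γ)⁻¹ • D) := by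
  intro q q' hqq'
  exact hD.aedisjoint fun h => hqq' (out_inv_injective29 S h)

variable [Countable Γ] [MeasurableConstSMul Γ α] [SMulInvariantMeasure Γ α μ]

/-- **Fundamental domain of a subgroup from coset representatives.** -/
theorem isFundamentalDomain_subgroup29 (S : Subgroup Γ) {D : Set α}
    (hD : IsFundamentalDomain Γ D μ) :
    IsFundamentalDomain S (⋃ q : Γ ⧸ S, (q.out : Γ)⁻¹ • D) μ := by
  have : Countable (Γ ⧸ S) := countable_quotient29 S
  refine IsFundamentalDomain.mk'' ?_ ?_ ?_ ?_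
  · exact NullMeasurableSet.iUnion fun q => hD.nullMeasurableSet_smul _
  · filter_upwards [hD.ae_covers] with x hx
    obtain ⟨γ, hγ⟩ := hx
    set q : Γ ⧸ S := (γ : Γ ⧸ S) with hq
    have hmem : (q.out : Γ)⁻¹ * γ ∈ S := by
      rw [← QuotientGroup.eq, QuotientGroup.out_eq']
    refine ⟨⟨(q.out : Γ)⁻¹ * γ, hmem⟩, ?_⟩
    refine mem_iUnion.2 ⟨q, ?_⟩
    rw [mem_smul_set_iff_inv_smul_mem, inv_inv]
    show (q.out : Γ) • (((q.out : Γ)⁻¹ * γ) • x) ∈ D
    rw [smul_smul, mul_inv_cancel_left]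
    exact hγ
  · intro s hs
    have hsΓ : (s : Γ) ≠ 1 := fun h => hs (Subtype.ext h)
    have hsm : (s • ⋃ q : Γ ⧸ S, (q.out : Γ)⁻¹ • D : Set α)
        = ⋃ q : Γ ⧸ S, ((s : Γ) * (q.out : Γ)⁻¹) • D := by
      rw [smul_set_iUnion]
      refine iUnion_congr fun q => ?_
      show (s : Γ) • ((q.out : Γ)⁻¹ • D) = _
      rw [smul_smul]
    rw [hsm]
    refine (AEDisjoint.iUnion_left_iff).2 fun q => (AEDisjoint.iUnion_right_iff).2 fun q' => ?_
    refine hD.aedisjoint fun h => hsΓ ?_
    -- `s * q.out⁻¹ = q'.out⁻¹`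
    have h1 : (q'.out : Γ) = (q.out : Γ) * (s : Γ)⁻¹ := by
      have := congrArg (fun g : Γ => g⁻¹) h
      simpa [mul_inv_rev] using this.symm
    have hq : q' = q := by
      calc q' = ((q'.out : Γ) : Γ ⧸ S) := (QuotientGroup.out_eq' q').symm
        _ = (((q.out : Γ) * (s : Γ)⁻¹ : Γ) : Γ ⧸ S) := by rw [h1]
        _ = ((q.out : Γ) : Γ ⧸ S) := by
          rw [QuotientGroup.eq]
          simp only [mul_inv_rev, inv_inv, mul_assoc, inv_mul_cancel, mul_one]
          exact s.2
        _ = q := QuotientGroup.out_eq' q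
    subst hq
    have : (q'.out : Γ) = (q'.out : Γ) * (s : Γ)⁻¹ := h1
    have h2 : (s : Γ)⁻¹ = 1 := by
      have := mul_left_cancel (a := (q'.out : Γ)) (b := (1 : Γ)) (c := (s : Γ)⁻¹)
        (by rw [mul_one]; exact this)
      exact this.symm
    exact inv_eq_one.1 h2
  · intro s
    exact (measurePreserving_smul s μ).quasiMeasurePreserving

/-- Invariance of `f δ₀` under the stabiliser of `δ₀`. -/
theorem stabilizer_invariant29 {β : Type*} (f : Δ → α → β)
    (hf : ∀ (γ : Γ) (δ : Δ) (x : α), f (γ • δ) (γ • x) = f δ x) (δ₀ : Δ)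
    (s : MulAction.stabilizer Γ δ₀) (x : α) : f δ₀ (s • x) = f δ₀ x := by
  have h := hf (s : Γ) δ₀ x
  rw [MulAction.mem_stabilizer_iff.1 s.2] at h
  exact h

/-- Transport of the invariance: `f (γ • δ) x = f δ (γ⁻¹ • x)`. -/
theorem smul_left_eq29 {β : Type*} (f : Δ → α → β)
    (hf : ∀ (γ : Γ) (δ : Δ) (x : α), f (γ • δ) (γ • x) = f δ x) (γ : Γ) (δ : Δ) (x : α) :
    f (γ • δ) x = f δ (γ⁻¹ • x) := by
  have h := hf γ δ (γ⁻¹ • x)
  rwa [smul_inv_smul] at h

/-- **Orbit unfolding, `lintegral` form.**  No integrability hypothesis. -/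
theorem lintegral_orbit_unfold29 {D : Set α} (hD : IsFundamentalDomain Γ D μ)
    (f : Δ → α → ℝ≥0∞) (hf : ∀ (γ : Γ) (δ : Δ) (x : α), f (γ • δ) (γ • x) = f δ x)
    (δ₀ : Δ) {F : Set α} (hF : IsFundamentalDomain (MulAction.stabilizer Γ δ₀) F μ) :
    ∑' δ : MulAction.orbit Γ δ₀, ∫⁻ x in D, f δ x ∂μ = ∫⁻ x in F, f δ₀ x ∂μ := by
  set S := MulAction.stabilizer Γ δ₀ with hS
  have : Countable (Γ ⧸ S) := countable_quotient29 S
  have hD' := isFundamentalDomain_subgroup29 (μ := μ) S hD
  calc ∑' δ : MulAction.orbit Γ δ₀, ∫⁻ x in D, f δ x ∂μ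
      = ∑' q : Γ ⧸ S, ∫⁻ x in D, f (((MulAction.orbitEquivQuotientStabilizer Γ δ₀).symm q :
          MulAction.orbit Γ δ₀) : Δ) x ∂μ :=
        ((MulAction.orbitEquivQuotientStabilizer Γ δ₀).symm.tsum_eq
          (fun δ : MulAction.orbit Γ δ₀ => ∫⁻ x in D, f δ x ∂μ)).symm
    _ = ∑' q : Γ ⧸ S, ∫⁻ x in (q.out : Γ)⁻¹ • D, f δ₀ x ∂μ := by
        refine tsum_congr fun q => ?_
        have hq : (((MulAction.orbitEquivQuotientStabilizer Γ δ₀).symm q :
            MulAction.orbit Γ δ₀) : Δ) = (q.out : Γ) • δ₀ := by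
          conv_lhs => rw [← QuotientGroup.out_eq' q]
          exact MulAction.orbitEquivQuotientStabilizer_symm_apply Γ δ₀ _
        rw [hq]
        simp only [smul_left_eq29 f hf]
        exact (measurePreserving_smul (q.out : Γ)⁻¹ μ).setLIntegral_comp_emb
          (measurableEmbedding_const_smul _) _ _
    _ = ∫⁻ x in ⋃ q : Γ ⧸ S, (q.out : Γ)⁻¹ • D, f δ₀ x ∂μ :=
        (lintegral_iUnion₀ (fun q => hD.nullMeasurableSet_smul _)
          (pairwise_aedisjoint_out_inv29 S hD) _).symm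
    _ = ∫⁻ x in F, f δ₀ x ∂μ :=
        hD'.setLIntegral_eq hF _ (stabilizer_invariant29 f hf δ₀)

/-! ## Bochner form -/

variable {E : Type*} [NormedAddCommGroup E]

/-- Measurability on a translate of `D`. -/
theorem aestronglyMeasurable_smul_iff29 (f : Δ → α → E)
    (hf : ∀ (γ : Γ) (δ : Δ) (x : α), f (γ • δ) (γ • x) = f δ x) (γ : Γ) (δ : Δ) (D : Set α) :
    AEStronglyMeasurable (f δ) (μ.restrict (γ⁻¹ • D)) ↔
      AEStronglyMeasurable (f (γ • δ)) (μ.restrict D) := by
  have he : MeasurableEmbedding (γ⁻¹ • · : α → α) := measurableEmbedding_const_smul _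
  rw [← image_smul, ← ((measurePreserving_smul γ⁻¹ μ).restrict_image_emb he
    _).aestronglyMeasurable_comp_iff he]
  have : (f δ ∘ fun x => γ⁻¹ • x) = f (γ • δ) := by
    funext x
    exact (smul_left_eq29 f hf γ δ x).symm
  rw [this]

/-- Measurability on the fundamental domain of the stabiliser built from `D`. -/
theorem aestronglyMeasurable_iUnion29 {D : Set α} (f : Δ → α → E)
    (hf : ∀ (γ : Γ) (δ : Δ) (x : α), f (γ • δ) (γ • x) = f δ x) (δ₀ : Δ)
    (hmeas : ∀ δ : MulAction.orbit Γ δ₀, AEStronglyMeasurable (f δ) (μ.restrict D)) :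
    AEStronglyMeasurable (f δ₀)
      (μ.restrict (⋃ q : Γ ⧸ MulAction.stabilizer Γ δ₀, (q.out : Γ)⁻¹ • D)) := by
  have : Countable (Γ ⧸ MulAction.stabilizer Γ δ₀) := countable_quotient29 _
  refine AEStronglyMeasurable.iUnion fun q => ?_
  rw [aestronglyMeasurable_smul_iff29 f hf]
  exact hmeas ⟨(q.out : Γ) • δ₀, MulAction.mem_orbit _ _⟩

/-- Measurability on every fundamental domain of the stabiliser. -/
theorem aestronglyMeasurable_stabilizer29 {D : Set α} (hD : IsFundamentalDomain Γ D μ)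
    (f : Δ → α → E) (hf : ∀ (γ : Γ) (δ : Δ) (x : α), f (γ • δ) (γ • x) = f δ x) (δ₀ : Δ)
    {F : Set α} (hF : IsFundamentalDomain (MulAction.stabilizer Γ δ₀) F μ)
    (hmeas : ∀ δ : MulAction.orbit Γ δ₀, AEStronglyMeasurable (f δ) (μ.restrict D)) :
    AEStronglyMeasurable (f δ₀) (μ.restrict F) :=
  ((isFundamentalDomain_subgroup29 (μ := μ) (MulAction.stabilizer Γ δ₀)
    hD).aestronglyMeasurable_on_iff hF (stabilizer_invariant29 f hf δ₀)).1
    (aestronglyMeasurable_iUnion29 f hf δ₀ hmeas)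

/-- **Orbit unfolding of the `L¹`-norm**:
`∑' δ : orbit Γ δ₀, ∫⁻ x in D, ‖Φ δ x‖ₑ = ∫⁻ x in F, ‖Φ δ₀ x‖ₑ`. -/
theorem lintegral_enorm_orbit_unfold29 {D : Set α} (hD : IsFundamentalDomain Γ D μ)
    (Φ : Δ → α → E) (hΦ : ∀ (γ : Γ) (δ : Δ) (x : α), Φ (γ • δ) (γ • x) = Φ δ x)
    (δ₀ : Δ) {F : Set α} (hF : IsFundamentalDomain (MulAction.stabilizer Γ δ₀) F μ) :
    ∑' δ : MulAction.orbit Γ δ₀, ∫⁻ x in D, ‖Φ δ x‖ₑ ∂μ = ∫⁻ x in F, ‖Φ δ₀ x‖ₑ ∂μ :=
  lintegral_orbit_unfold29 hD (fun δ x => ‖Φ δ x‖ₑ) (fun γ δ x => by rw [hΦ]) δ₀ hF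

/-- Integrability on `F` from absolute convergence on `D`. -/
theorem integrableOn_stabilizer29 {D : Set α} (hD : IsFundamentalDomain Γ D μ)
    (Φ : Δ → α → E) (hΦ : ∀ (γ : Γ) (δ : Δ) (x : α), Φ (γ • δ) (γ • x) = Φ δ x)
    (δ₀ : Δ) {F : Set α} (hF : IsFundamentalDomain (MulAction.stabilizer Γ δ₀) F μ)
    (hmeas : ∀ δ : MulAction.orbit Γ δ₀, AEStronglyMeasurable (Φ δ) (μ.restrict D))
    (hsum : ∑' δ : MulAction.orbit Γ δ₀, ∫⁻ x in D, ‖Φ δ x‖ₑ ∂μ ≠ ∞) :
    IntegrableOn (Φ δ₀) F μ := by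
  refine ⟨aestronglyMeasurable_stabilizer29 hD Φ hΦ δ₀ hF hmeas, ?_⟩
  rw [hasFiniteIntegral_iff_enorm, ← lintegral_enorm_orbit_unfold29 hD Φ hΦ δ₀ hF]
  exact lt_top_iff_ne_top.2 hsum

/-- Integrability on `D` of every member of the orbit, from integrability on `F`. -/
theorem integrableOn_orbit29 {D : Set α} (hD : IsFundamentalDomain Γ D μ)
    (Φ : Δ → α → E) (hΦ : ∀ (γ : Γ) (δ : Δ) (x : α), Φ (γ • δ) (γ • x) = Φ δ x)
    (δ₀ : Δ) {F : Set α} (hF : IsFundamentalDomain (MulAction.stabilizer Γ δ₀) F μ)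
    (hint : IntegrableOn (Φ δ₀) F μ) (δ : MulAction.orbit Γ δ₀) :
    IntegrableOn (Φ δ) D μ := by
  have hD' := isFundamentalDomain_subgroup29 (μ := μ) (MulAction.stabilizer Γ δ₀) hD
  have hint' : IntegrableOn (Φ δ₀)
      (⋃ q : Γ ⧸ MulAction.stabilizer Γ δ₀, (q.out : Γ)⁻¹ • D) μ :=
    (hD'.integrableOn_iff hF (stabilizer_invariant29 Φ hΦ δ₀)).2 hint
  -- write `δ = q.out • δ₀`
  obtain ⟨q, hq⟩ : ∃ q : Γ ⧸ MulAction.stabilizer Γ δ₀, (δ : Δ) = (q.out : Γ) • δ₀ := by
    refine ⟨MulAction.orbitEquivQuotientStabilizer Γ δ₀ δ, ?_⟩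
    have h1 : ((MulAction.orbitEquivQuotientStabilizer Γ δ₀).symm
        (MulAction.orbitEquivQuotientStabilizer Γ δ₀ δ) : Δ) = δ := by
      rw [Equiv.symm_apply_apply]
    rw [← h1]
    conv_lhs => rw [← QuotientGroup.out_eq' (MulAction.orbitEquivQuotientStabilizer Γ δ₀ δ)]
    rw [MulAction.orbitEquivQuotientStabilizer_symm_apply Γ δ₀ _]
  have hsub : IntegrableOn (Φ δ₀) ((q.out : Γ)⁻¹ • D) μ :=
    hint'.mono_set (subset_iUnion (fun q : Γ ⧸ MulAction.stabilizer Γ δ₀ => (q.out : Γ)⁻¹ • D) q)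
  have he : MeasurableEmbedding ((q.out : Γ)⁻¹ • · : α → α) := measurableEmbedding_const_smul _
  have h2 : IntegrableOn (Φ δ₀ ∘ fun x => (q.out : Γ)⁻¹ • x) D μ := by
    rw [← image_smul] at hsub
    exact ((measurePreserving_smul (q.out : Γ)⁻¹ μ).integrableOn_image he).1 hsub
  have h3 : (Φ δ₀ ∘ fun x => (q.out : Γ)⁻¹ • x) = Φ δ := by
    funext x
    rw [hq]
    exact (smul_left_eq29 Φ hΦ (q.out : Γ) δ₀ x).symm
  rwa [h3] at h2

variable [NormedSpace ℝ E]

/-- **Orbit unfolding, Bochner form.** -/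
theorem hasSum_integral_orbit_unfold29 {D : Set α} (hD : IsFundamentalDomain Γ D μ)
    (Φ : Δ → α → E) (hΦ : ∀ (γ : Γ) (δ : Δ) (x : α), Φ (γ • δ) (γ • x) = Φ δ x)
    (δ₀ : Δ) {F : Set α} (hF : IsFundamentalDomain (MulAction.stabilizer Γ δ₀) F μ)
    (hint : IntegrableOn (Φ δ₀) F μ) :
    HasSum (fun δ : MulAction.orbit Γ δ₀ => ∫ x in D, Φ δ x ∂μ) (∫ x in F, Φ δ₀ x ∂μ) := by
  set S := MulAction.stabilizer Γ δ₀ with hS
  have : Countable (Γ ⧸ S) := countable_quotient29 S
  have hD' := isFundamentalDomain_subgroup29 (μ := μ) S hD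
  have hint' : IntegrableOn (Φ δ₀) (⋃ q : Γ ⧸ S, (q.out : Γ)⁻¹ • D) μ :=
    (hD'.integrableOn_iff hF (stabilizer_invariant29 Φ hΦ δ₀)).2 hint
  have h1 : HasSum (fun q : Γ ⧸ S => ∫ x in (q.out : Γ)⁻¹ • D, Φ δ₀ x ∂μ)
      (∫ x in F, Φ δ₀ x ∂μ) := by
    rw [← hD'.setIntegral_eq hF (stabilizer_invariant29 Φ hΦ δ₀)]
    exact hasSum_integral_iUnion_ae (fun q => hD.nullMeasurableSet_smul _)
      (pairwise_aedisjoint_out_inv29 S hD) hint'
  have h2 : (fun q : Γ ⧸ S => ∫ x in (q.out : Γ)⁻¹ • D, Φ δ₀ x ∂μ)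
      = (fun δ : MulAction.orbit Γ δ₀ => ∫ x in D, Φ δ x ∂μ) ∘
          (MulAction.orbitEquivQuotientStabilizer Γ δ₀).symm := by
    funext q
    have hq : (((MulAction.orbitEquivQuotientStabilizer Γ δ₀).symm q :
        MulAction.orbit Γ δ₀) : Δ) = (q.out : Γ) • δ₀ := by
      conv_lhs => rw [← QuotientGroup.out_eq' q]
      exact MulAction.orbitEquivQuotientStabilizer_symm_apply Γ δ₀ _
    simp only [Function.comp_apply, hq, smul_left_eq29 Φ hΦ]
    exact (measurePreserving_smul (q.out : Γ)⁻¹ μ).setIntegral_image_emb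
      (measurableEmbedding_const_smul _) _ _
  rw [h2] at h1
  exact ((MulAction.orbitEquivQuotientStabilizer Γ δ₀).symm.hasSum_iff).1 h1

/-- **Orbit unfolding, Bochner form, `tsum` version.** -/
theorem tsum_integral_orbit_unfold29 {D : Set α} (hD : IsFundamentalDomain Γ D μ)
    (Φ : Δ → α → E) (hΦ : ∀ (γ : Γ) (δ : Δ) (x : α), Φ (γ • δ) (γ • x) = Φ δ x)
    (δ₀ : Δ) {F : Set α} (hF : IsFundamentalDomain (MulAction.stabilizer Γ δ₀) F μ)
    (hint : IntegrableOn (Φ δ₀) F μ) :
    ∑' δ : MulAction.orbit Γ δ₀, ∫ x in D, Φ δ x ∂μ = ∫ x in F, Φ δ₀ x ∂μ :=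
  (hasSum_integral_orbit_unfold29 hD Φ hΦ δ₀ hF hint).tsum_eq

/-! ## The whole sum: decomposition along the orbits of `Γ` in `Δ` -/

/-- `Δ` is the disjoint union of the orbits of the representatives `rep ω`. -/
def sigmaOrbitEquiv29 (rep : MulAction.orbitRel.Quotient Γ Δ → Δ)
    (hrep : Function.LeftInverse (Quotient.mk'' : Δ → MulAction.orbitRel.Quotient Γ Δ) rep) :
    Δ ≃ Σ ω : MulAction.orbitRel.Quotient Γ Δ, MulAction.orbit Γ (rep ω) :=
  (MulAction.selfEquivSigmaOrbits' Γ Δ).trans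
    (Equiv.sigmaCongrRight fun ω =>
      Equiv.setCongr (MulAction.orbitRel.Quotient.orbit_eq_orbit_out ω hrep))

theorem sigmaOrbitEquiv29_symm_apply (rep : MulAction.orbitRel.Quotient Γ Δ → Δ)
    (hrep : Function.LeftInverse (Quotient.mk'' : Δ → MulAction.orbitRel.Quotient Γ Δ) rep)
    (p : Σ ω : MulAction.orbitRel.Quotient Γ Δ, MulAction.orbit Γ (rep ω)) :
    (sigmaOrbitEquiv29 rep hrep).symm p = (p.2 : Δ) :=
  rfl

/-- **Unfolding of the whole sum, `lintegral` form** (no hypothesis on `f`). -/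
theorem lintegral_tsum_unfold29 {D : Set α} (hD : IsFundamentalDomain Γ D μ)
    (f : Δ → α → ℝ≥0∞) (hf : ∀ (γ : Γ) (δ : Δ) (x : α), f (γ • δ) (γ • x) = f δ x)
    (rep : MulAction.orbitRel.Quotient Γ Δ → Δ)
    (hrep : Function.LeftInverse (Quotient.mk'' : Δ → MulAction.orbitRel.Quotient Γ Δ) rep)
    (F : MulAction.orbitRel.Quotient Γ Δ → Set α)
    (hF : ∀ ω, IsFundamentalDomain (MulAction.stabilizer Γ (rep ω)) (F ω) μ) :
    ∑' δ, ∫⁻ x in D, f δ x ∂μ = ∑' ω, ∫⁻ x in F ω, f (rep ω) x ∂μ := by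
  calc ∑' δ, ∫⁻ x in D, f δ x ∂μ
      = ∑' p : Σ ω : MulAction.orbitRel.Quotient Γ Δ, MulAction.orbit Γ (rep ω),
          ∫⁻ x in D, f (p.2 : Δ) x ∂μ :=
        ((sigmaOrbitEquiv29 rep hrep).symm.tsum_eq (fun δ => ∫⁻ x in D, f δ x ∂μ)).symm
    _ = ∑' ω, ∑' δ : MulAction.orbit Γ (rep ω), ∫⁻ x in D, f (δ : Δ) x ∂μ :=
        ENNReal.tsum_sigma' _
    _ = ∑' ω, ∫⁻ x in F ω, f (rep ω) x ∂μ :=
        tsum_congr fun ω => lintegral_orbit_unfold29 hD f hf (rep ω) (hF ω)

/-- **Unfolding of the whole sum, Bochner form**: the integral over `D` of the full sum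
`∑' δ, Φ δ x` is the sum over the orbits `ω` of `Γ` in `Δ` of the integrals of `Φ (rep ω)` over
fundamental domains of the stabilisers. -/
theorem integral_tsum_unfold29 [Countable Δ] [CompleteSpace E]
    {D : Set α} (hD : IsFundamentalDomain Γ D μ)
    (Φ : Δ → α → E) (hΦ : ∀ (γ : Γ) (δ : Δ) (x : α), Φ (γ • δ) (γ • x) = Φ δ x)
    (rep : MulAction.orbitRel.Quotient Γ Δ → Δ)
    (hrep : Function.LeftInverse (Quotient.mk'' : Δ → MulAction.orbitRel.Quotient Γ Δ) rep)
    (F : MulAction.orbitRel.Quotient Γ Δ → Set α)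
    (hF : ∀ ω, IsFundamentalDomain (MulAction.stabilizer Γ (rep ω)) (F ω) μ)
    (hmeas : ∀ δ, AEStronglyMeasurable (Φ δ) (μ.restrict D))
    (hsum : ∑' δ, ∫⁻ x in D, ‖Φ δ x‖ₑ ∂μ ≠ ∞) :
    (∀ ω, IntegrableOn (Φ (rep ω)) (F ω) μ) ∧
      Summable (fun ω => ∫ x in F ω, Φ (rep ω) x ∂μ) ∧
      ∫ x in D, ∑' δ, Φ δ x ∂μ = ∑' ω, ∫ x in F ω, Φ (rep ω) x ∂μ := by
  -- absolute summability of `δ ↦ ∫_D Φ δ`
  have hnorm : ∀ δ, ‖∫ x in D, Φ δ x ∂μ‖ₑ ≤ ∫⁻ x in D, ‖Φ δ x‖ₑ ∂μ := fun δ =>
    enorm_integral_le_lintegral_enorm _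
  have hsumN : Summable fun δ => ‖∫ x in D, Φ δ x ∂μ‖ := by
    have h1 : ∑' δ, ‖∫ x in D, Φ δ x ∂μ‖ₑ ≠ ∞ :=
      ne_top_of_le_ne_top hsum (ENNReal.tsum_le_tsum hnorm)
    have h2 : ∀ δ, ‖∫ x in D, Φ δ x ∂μ‖ₑ = ENNReal.ofReal ‖∫ x in D, Φ δ x ∂μ‖ := fun δ =>
      (ofReal_norm _).symm
    simp only [h2] at h1
    have := ENNReal.summable_toReal h1
    simpa [ENNReal.toReal_ofReal (norm_nonneg _)] using this
  have hsumE : Summable fun δ => ∫ x in D, Φ δ x ∂μ := hsumN.of_norm
  -- each orbit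
  have horb : ∀ ω, ∑' δ : MulAction.orbit Γ (rep ω), ∫⁻ x in D, ‖Φ (δ : Δ) x‖ₑ ∂μ ≠ ∞ := by
    intro ω
    refine ne_top_of_le_ne_top hsum ?_
    exact ENNReal.tsum_comp_le_tsum_of_injective Subtype.val_injective
      (fun δ => ∫⁻ x in D, ‖Φ δ x‖ₑ ∂μ)
  have hint : ∀ ω, IntegrableOn (Φ (rep ω)) (F ω) μ := fun ω =>
    integrableOn_stabilizer29 hD Φ hΦ (rep ω) (hF ω) (fun δ => hmeas δ) (horb ω)
  have hHS : ∀ ω, HasSum (fun δ : MulAction.orbit Γ (rep ω) => ∫ x in D, Φ (δ : Δ) x ∂μ)
      (∫ x in F ω, Φ (rep ω) x ∂μ) := fun ω =>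
    hasSum_integral_orbit_unfold29 hD Φ hΦ (rep ω) (hF ω) (hint ω)
  -- regroup
  have hsumS : Summable fun p : Σ ω : MulAction.orbitRel.Quotient Γ Δ, MulAction.orbit Γ (rep ω)
      => ∫ x in D, Φ (p.2 : Δ) x ∂μ :=
    ((sigmaOrbitEquiv29 rep hrep).symm.summable_iff (f := fun δ => ∫ x in D, Φ δ x ∂μ)).2 hsumE
  have hHSS : HasSum (fun p : Σ ω : MulAction.orbitRel.Quotient Γ Δ, MulAction.orbit Γ (rep ω)
      => ∫ x in D, Φ (p.2 : Δ) x ∂μ) (∑' δ, ∫ x in D, Φ δ x ∂μ) :=
    ((sigmaOrbitEquiv29 rep hrep).symm.hasSum_iff (f := fun δ => ∫ x in D, Φ δ x ∂μ)).2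
      hsumE.hasSum
  have hreg : HasSum (fun ω => ∫ x in F ω, Φ (rep ω) x ∂μ) (∑' δ, ∫ x in D, Φ δ x ∂μ) :=
    hHSS.sigma hHS
  refine ⟨hint, hreg.summable, ?_⟩
  rw [integral_tsum hmeas hsum]
  exact hreg.tsum_eq.symm

end Fermat.Agent.LT.H29

end

end
-- ===== PACK-END LT/H29/Unfold.lean

-- ===== PACK-BEGIN LT/H942/RegularCore.lean
section


/-!
# Row LT, towers T4/T5 — the arithmetic core of "regular ⇒ elliptic" (helper942)

OFF-MAIN.  Mathlib only.

`γ ∈ GL₂(K)`, `t = (tr γ)² / det γ`.  If the characteristic polynomial of `γ` splits over `K`, with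
roots `λ₁, λ₂`, then `r = λ₂ / λ₁ ∈ Kˣ` satisfies `r + 2 + r⁻¹ = t`.  The product formula bounds
`|t|_u` at ONE finite place `u` by the sizes of `t` at the other places:

* `finitePlace_ratio_le`   : nonarchimedean place, `|r + 2 + r⁻¹| ≤ B`, `1 ≤ B` ⟹ `|r| ≤ B`;
* `infinitePlace_ratio_le` : archimedean place, `|r + 2 + r⁻¹| ≤ B` ⟹ `|r| ≤ B + 3`;
* `finitePlace_le_of_bounds` : product formula, `|r|_u ≤ C ^ ([K : ℚ] + #S)`;
* `regular_core` : if `|t|_v ≤ 1` at the finite places `v ∉ S ∪ {u}`, `|t|_v ≤ B` at `v ∈ S` and at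
  the infinite places, then `|t|_u ≤ (B + 3) ^ ([K : ℚ] + #S)`;
* `regular_no_split` : so if `|t|_u` is larger than that bound, `t ≠ r + 2 + r⁻¹` for every
  `r ∈ Kˣ`; `regular_charpoly_no_root`: the matrix form, for `γ : Matrix (Fin 2) (Fin 2) K`.

This is FACT 4 of `origin/helper261:coord/LT-A3-EK-helper261.md` ([F] §1) in its place-by-place
form: at `u` a regular Iwahori element has unit trace and determinant of valuation `m`, so
`|t|_u = q_u ^ m`.
-/

set_option autoImplicit false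

namespace Fermat.Agent.LT.H942

open NumberField

variable {K : Type*} [Field K] [NumberField K]

/-- Nonarchimedean place: `|r + 2 + r⁻¹| ≤ B`, `1 ≤ B` ⟹ `|r| ≤ B`. -/
theorem finitePlace_ratio_le (v : FinitePlace K) {r : K} {B : ℝ} (hB : 1 ≤ B)
    (ht : v (r + 2 + r⁻¹) ≤ B) : v r ≤ B := by
  by_contra hlt
  rw [not_le] at hlt
  have hr1 : 1 < v r := lt_of_le_of_lt hB hlt
  have hrpos : 0 < v r := lt_trans one_pos hr1
  -- `r = t - 2 - r⁻¹`
  have h2 : v (2 : K) ≤ 1 := by
    have := FinitePlace.add_le v (1 : K) 1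
    have h1 : v (1 : K) = 1 := map_one v
    rw [h1, max_self] at this
    have e : (2 : K) = 1 + 1 := by norm_num
    rw [e]; exact this
  have hinv : v r⁻¹ < 1 := by
    rw [map_inv₀]
    exact inv_lt_one_of_one_lt₀ hr1
  have key : r = (r + 2 + r⁻¹) + (-(2 : K) + -r⁻¹) := by ring
  have hle : v r ≤ max (v (r + 2 + r⁻¹)) (v (-(2 : K) + -r⁻¹)) := by
    conv_lhs => rw [key]
    exact FinitePlace.add_le v _ _
  have hle2 : v (-(2 : K) + -r⁻¹) ≤ max (v (-(2 : K))) (v (-r⁻¹)) := FinitePlace.add_le v _ _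
  have hn2 : v (-(2 : K)) = v 2 := by
    rw [show (-(2:K)) = (-1) * 2 by ring, map_mul]
    have : v (-1 : K) = 1 := by
      have hsq : v (-1 : K) * v (-1 : K) = 1 := by
        rw [← map_mul]; simp
      have hnn : 0 ≤ v (-1 : K) := apply_nonneg v _
      nlinarith [hsq, hnn]
    rw [this, one_mul]
  have hninv : v (-r⁻¹) = v r⁻¹ := by
    rw [show (-r⁻¹) = (-1) * r⁻¹ by ring, map_mul]
    have : v (-1 : K) = 1 := by
      have hsq : v (-1 : K) * v (-1 : K) = 1 := by
        rw [← map_mul]; simp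
      have hnn : 0 ≤ v (-1 : K) := apply_nonneg v _
      nlinarith [hsq, hnn]
    rw [this, one_mul]
  rw [hn2, hninv] at hle2
  have hsmall : v (-(2 : K) + -r⁻¹) ≤ 1 := le_trans hle2 (max_le h2 hinv.le)
  have : v r ≤ B := le_trans hle (max_le ht (le_trans hsmall hB))
  exact absurd this (not_le.mpr hlt)

/-- Archimedean place: `|r + 2 + r⁻¹| ≤ B` ⟹ `|r| ≤ B + 3`. -/
theorem infinitePlace_ratio_le (w : InfinitePlace K) {r : K} {B : ℝ}
    (ht : w (r + 2 + r⁻¹) ≤ B) : w r ≤ B + 3 := by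
  have hB0 : 0 ≤ B := le_trans (apply_nonneg w _) ht
  by_cases h1 : w r ≤ 1
  · linarith
  · rw [not_le] at h1
    have hinv : w r⁻¹ ≤ 1 := by
      rw [map_inv₀]
      exact (inv_lt_one_of_one_lt₀ h1).le
    have h2 : w (2 : K) ≤ 2 := by
      have := w.1.add_le (1 : K) 1
      have h11 : w (1 : K) = 1 := map_one w
      have e : (2 : K) = 1 + 1 := by norm_num
      rw [e]
      calc w ((1 : K) + 1) ≤ w 1 + w 1 := this
        _ = 2 := by rw [h11]; norm_num
    have key : r = (r + 2 + r⁻¹) + (-(2 : K) + -r⁻¹) := by ring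
    have hneg : ∀ x : K, w (-x) = w x := fun x => by
      have := w.1.map_neg x
      exact this
    calc w r = w ((r + 2 + r⁻¹) + (-(2 : K) + -r⁻¹)) := by rw [← key]
      _ ≤ w (r + 2 + r⁻¹) + w (-(2 : K) + -r⁻¹) := w.1.add_le _ _
      _ ≤ w (r + 2 + r⁻¹) + (w (-(2 : K)) + w (-r⁻¹)) := by
          have h3 : w (-(2 : K) + -r⁻¹) ≤ w (-(2 : K)) + w (-r⁻¹) := w.1.add_le _ _
          linarith
      _ = w (r + 2 + r⁻¹) + (w 2 + w r⁻¹) := by rw [hneg, hneg]
      _ ≤ B + 3 := by linarith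

/-- **Product formula bound.**  If `|r|_v = 1` at the finite places `v ∉ S ∪ {u}`, and
`|r|_v⁻¹ ≤ C` at the places of `S` and at the infinite places, then
`|r|_u ≤ C ^ ([K : ℚ] + #S)`. -/
theorem finitePlace_le_of_bounds [DecidableEq (FinitePlace K)] (u : FinitePlace K)
    (S : Finset (FinitePlace K)) {C : ℝ} (hC : 1 ≤ C) {r : K} (hr : r ≠ 0)
    (hout : ∀ v : FinitePlace K, v ≠ u → v ∉ S → v r = 1)
    (hS : ∀ v ∈ S, v ≠ u → (v r)⁻¹ ≤ C)
    (hinf : ∀ w : InfinitePlace K, (w r)⁻¹ ≤ C) :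
    u r ≤ C ^ (Module.finrank ℚ K + S.card) := by
  classical
  have hC0 : 0 < C := lt_of_lt_of_le one_pos hC
  have hpf := NumberField.prod_abs_eq_one (K := K) hr
  -- the finite part
  have hsupp : Function.mulSupport (fun v : FinitePlace K => v r) ⊆
      ((insert u (S.erase u) : Finset (FinitePlace K)) : Set (FinitePlace K)) := by
    intro v hv
    rw [Function.mem_mulSupport] at hv
    by_cases hvu : v = u
    · simp [hvu]
    · by_cases hvS : v ∈ S
      · simp [hvu, hvS]
      · exact absurd (hout v hvu hvS) hv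
  have hfin : ∏ᶠ v : FinitePlace K, v r = u r * ∏ v ∈ S.erase u, v r := by
    rw [finprod_eq_prod_of_mulSupport_subset _ hsupp, Finset.prod_insert (by simp)]
  rw [hfin] at hpf
  have hIpos : 0 < ∏ w : InfinitePlace K, w r ^ w.mult :=
    Finset.prod_pos fun w _ => pow_pos (InfinitePlace.pos_iff.mpr hr) _
  have hSpos : 0 < ∏ v ∈ S.erase u, v r :=
    Finset.prod_pos fun v _ => FinitePlace.pos_iff.mpr hr
  have hu : u r = (∏ w : InfinitePlace K, w r ^ w.mult)⁻¹ * (∏ v ∈ S.erase u, v r)⁻¹ := by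
    have hne1 : (∏ w : InfinitePlace K, w r ^ w.mult) ≠ 0 := hIpos.ne'
    have hne2 : (∏ v ∈ S.erase u, v r) ≠ 0 := hSpos.ne'
    field_simp
    linear_combination hpf
  have hI : (∏ w : InfinitePlace K, w r ^ w.mult)⁻¹ ≤ C ^ Module.finrank ℚ K := by
    rw [← Finset.prod_inv_distrib, ← InfinitePlace.sum_mult_eq (K := K), ← Finset.prod_pow_eq_pow_sum]
    apply Finset.prod_le_prod
    · intro w _
      exact inv_nonneg.mpr (pow_nonneg (apply_nonneg w r) _)
    · intro w _
      rw [← inv_pow]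
      exact pow_le_pow_left₀ (inv_nonneg.mpr (apply_nonneg w r)) (hinf w) _
  have hSb : (∏ v ∈ S.erase u, v r)⁻¹ ≤ C ^ S.card := by
    rw [← Finset.prod_inv_distrib]
    calc ∏ v ∈ S.erase u, (v r)⁻¹ ≤ ∏ _v ∈ S.erase u, C := by
          apply Finset.prod_le_prod
          · intro v _
            exact inv_nonneg.mpr (apply_nonneg v r)
          · intro v hv
            exact hS v (Finset.mem_of_mem_erase hv) (Finset.ne_of_mem_erase hv)
      _ = C ^ (S.erase u).card := by rw [Finset.prod_const]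
      _ ≤ C ^ S.card := pow_le_pow_right₀ hC (Finset.card_erase_le)
  rw [hu, pow_add]
  exact mul_le_mul hI hSb (inv_nonneg.mpr hSpos.le) (pow_nonneg hC0.le _)

/-- **Regular core.**  `t = r + 2 + r⁻¹` with `r ∈ Kˣ`; if `|t|_v ≤ 1` at the finite places
`v ∉ S ∪ {u}` and `|t|_v ≤ B` at the places of `S` and at the infinite places (`1 ≤ B`), then
`|t|_u ≤ (B + 3) ^ ([K : ℚ] + #S)`. -/
theorem regular_core [DecidableEq (FinitePlace K)] (u : FinitePlace K)
    (S : Finset (FinitePlace K)) {B : ℝ} (hB : 1 ≤ B) {r : K} (hr : r ≠ 0)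
    (hout : ∀ v : FinitePlace K, v ≠ u → v ∉ S → v (r + 2 + r⁻¹) ≤ 1)
    (hS : ∀ v ∈ S, v ≠ u → v (r + 2 + r⁻¹) ≤ B)
    (hinf : ∀ w : InfinitePlace K, w (r + 2 + r⁻¹) ≤ B) :
    u (r + 2 + r⁻¹) ≤ (B + 3) ^ (Module.finrank ℚ K + S.card) := by
  have hB3 : (1 : ℝ) ≤ B + 3 := by linarith
  have hrinv : r⁻¹ ≠ 0 := inv_ne_zero hr
  have hsym : r⁻¹ + 2 + r⁻¹⁻¹ = r + 2 + r⁻¹ := by rw [inv_inv]; ring
  -- bounds for `r` and `r⁻¹` at every place other than `u`
  have hv1 : ∀ v : FinitePlace K, v ≠ u → v ∉ S → v r = 1 := by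
    intro v hvu hvS
    have h1 : v r ≤ 1 := finitePlace_ratio_le v le_rfl (hout v hvu hvS)
    have h2 : v r⁻¹ ≤ 1 := finitePlace_ratio_le v le_rfl (by rw [hsym]; exact hout v hvu hvS)
    rw [map_inv₀] at h2
    have hpos : 0 < v r := FinitePlace.pos_iff.mpr hr
    have h3 : 1 ≤ v r := by
      rw [inv_le_one₀ hpos] at h2
      exact h2
    exact le_antisymm h1 h3
  have hv1' : ∀ v : FinitePlace K, v ≠ u → v ∉ S → v r⁻¹ = 1 := by
    intro v hvu hvS
    rw [map_inv₀, hv1 v hvu hvS, inv_one]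
  have hSr : ∀ v ∈ S, v ≠ u → v r ≤ B + 3 := fun v hv hvu =>
    le_trans (finitePlace_ratio_le v hB (hS v hv hvu)) (by linarith)
  have hSr' : ∀ v ∈ S, v ≠ u → v r⁻¹ ≤ B + 3 := fun v hv hvu =>
    le_trans (finitePlace_ratio_le v hB (by rw [hsym]; exact hS v hv hvu)) (by linarith)
  have hIr : ∀ w : InfinitePlace K, w r ≤ B + 3 := fun w => infinitePlace_ratio_le w (hinf w)
  have hIr' : ∀ w : InfinitePlace K, w r⁻¹ ≤ B + 3 := fun w =>
    infinitePlace_ratio_le w (by rw [hsym]; exact hinf w)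
  -- the product formula for `r` and for `r⁻¹`
  have hur : u r ≤ (B + 3) ^ (Module.finrank ℚ K + S.card) :=
    finitePlace_le_of_bounds u S hB3 hr hv1
      (fun v hv hvu => by rw [← map_inv₀]; exact hSr' v hv hvu)
      (fun w => by rw [← map_inv₀]; exact hIr' w)
  have hur' : u r⁻¹ ≤ (B + 3) ^ (Module.finrank ℚ K + S.card) :=
    finitePlace_le_of_bounds u S hB3 hrinv hv1'
      (fun v hv hvu => by rw [← map_inv₀, inv_inv]; exact hSr v hv hvu)
      (fun w => by rw [← map_inv₀, inv_inv]; exact hIr w)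
  have hbig : (1 : ℝ) ≤ (B + 3) ^ (Module.finrank ℚ K + S.card) := one_le_pow₀ hB3
  -- `|t|_u ≤ max(|r|_u, |2|_u, |r⁻¹|_u)`
  have h2 : u (2 : K) ≤ 1 := by
    have := FinitePlace.add_le u (1 : K) 1
    have h1 : u (1 : K) = 1 := map_one u
    rw [h1, max_self] at this
    have e : (2 : K) = 1 + 1 := by norm_num
    rw [e]; exact this
  calc u (r + 2 + r⁻¹) ≤ max (u (r + 2)) (u r⁻¹) := FinitePlace.add_le u _ _
    _ ≤ max (max (u r) (u 2)) (u r⁻¹) := max_le_max (FinitePlace.add_le u _ _) le_rfl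
    _ ≤ (B + 3) ^ (Module.finrank ℚ K + S.card) :=
        max_le (max_le hur (le_trans h2 hbig)) hur'

/-- **Regular ⇒ no split class.**  If `|t|_v ≤ 1` at the finite places `v ∉ S ∪ {u}`,
`|t|_v ≤ B` at the places of `S` and at the infinite places, and `|t|_u` exceeds
`(B + 3) ^ ([K : ℚ] + #S)`, then `t ≠ r + 2 + r⁻¹` for every `r ∈ Kˣ`. -/
theorem regular_no_split [DecidableEq (FinitePlace K)] (u : FinitePlace K)
    (S : Finset (FinitePlace K)) {B : ℝ} (hB : 1 ≤ B) {t : K}
    (hout : ∀ v : FinitePlace K, v ≠ u → v ∉ S → v t ≤ 1)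
    (hS : ∀ v ∈ S, v ≠ u → v t ≤ B)
    (hinf : ∀ w : InfinitePlace K, w t ≤ B)
    (hu : (B + 3) ^ (Module.finrank ℚ K + S.card) < u t) :
    ∀ r : K, r ≠ 0 → t ≠ r + 2 + r⁻¹ := by
  intro r hr ht
  subst ht
  exact absurd (regular_core u S hB hr hout hS hinf) (not_le.mpr hu)

omit [NumberField K] in
/-- A root of `X² - τ X + δ`, `δ ≠ 0`, gives `r ∈ Kˣ` with `τ² / δ = r + 2 + r⁻¹`
(`r` = the quotient of the two roots). -/
theorem exists_ratio_of_root {τ δ x : K} (hδ : δ ≠ 0) (hx : x ^ 2 - τ * x + δ = 0) :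
    ∃ r : K, r ≠ 0 ∧ τ ^ 2 / δ = r + 2 + r⁻¹ := by
  have hx0 : x ≠ 0 := by
    rintro rfl
    apply hδ
    simpa using hx
  have hy : x * (τ - x) = δ := by linear_combination -hx
  have hy0 : τ - x ≠ 0 := by
    intro h
    apply hδ
    rw [← hy, h, mul_zero]
  refine ⟨(τ - x) / x, div_ne_zero hy0 hx0, ?_⟩
  rw [← hy]
  field_simp
  ring

/-- **Regular ⇒ elliptic** (trace/determinant form): if `t = τ² / δ` is integral at the finite
places `v ∉ S ∪ {u}`, bounded by `B` at the places of `S` and at the infinite places, and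
`|t|_u > (B + 3) ^ ([K : ℚ] + #S)`, then `X² - τ X + δ` has no root in `K`. -/
theorem regular_no_root [DecidableEq (FinitePlace K)] (u : FinitePlace K)
    (S : Finset (FinitePlace K)) {B : ℝ} (hB : 1 ≤ B) {τ δ : K} (hδ : δ ≠ 0)
    (hout : ∀ v : FinitePlace K, v ≠ u → v ∉ S → v (τ ^ 2 / δ) ≤ 1)
    (hS : ∀ v ∈ S, v ≠ u → v (τ ^ 2 / δ) ≤ B)
    (hinf : ∀ w : InfinitePlace K, w (τ ^ 2 / δ) ≤ B)
    (hu : (B + 3) ^ (Module.finrank ℚ K + S.card) < u (τ ^ 2 / δ)) :
    ∀ x : K, x ^ 2 - τ * x + δ ≠ 0 := by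
  intro x hx
  obtain ⟨r, hr, ht⟩ := exists_ratio_of_root hδ hx
  exact regular_no_split u S hB hout hS hinf hu r hr ht

/-- **Regular ⇒ elliptic** (matrix form): for `γ ∈ M₂(K)` with `det γ ≠ 0`, under the same
conditions on `t = (tr γ)² / det γ`, no `x ∈ K` is an eigenvalue of `γ`: the characteristic
polynomial of `γ` is irreducible over `K`. -/
theorem regular_matrix_no_eigenvalue [DecidableEq (FinitePlace K)] (u : FinitePlace K)
    (S : Finset (FinitePlace K)) {B : ℝ} (hB : 1 ≤ B) (γ : Matrix (Fin 2) (Fin 2) K)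
    (hδ : γ.det ≠ 0)
    (hout : ∀ v : FinitePlace K, v ≠ u → v ∉ S → v (γ.trace ^ 2 / γ.det) ≤ 1)
    (hS : ∀ v ∈ S, v ≠ u → v (γ.trace ^ 2 / γ.det) ≤ B)
    (hinf : ∀ w : InfinitePlace K, w (γ.trace ^ 2 / γ.det) ≤ B)
    (hu : (B + 3) ^ (Module.finrank ℚ K + S.card) < u (γ.trace ^ 2 / γ.det)) :
    ∀ x : K, (γ - Matrix.scalar (Fin 2) x).det ≠ 0 := by
  intro x hx
  apply regular_no_root u S hB hδ hout hS hinf hu x
  have h1 : (γ - Matrix.scalar (Fin 2) x).det = x ^ 2 - γ.trace * x + γ.det := by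
    rw [Matrix.det_fin_two, Matrix.det_fin_two, Matrix.trace_fin_two]
    simp [Matrix.scalar_apply]
    ring
  rw [← h1]
  exact hx

end Fermat.Agent.LT.H942

end
-- ===== PACK-END LT/H942/RegularCore.lean

-- ===== PACK-BEGIN LT/T5/H807/BSKernel.lean
section


/-!
# Row LT, tower T5 (helper807, OFF-MAIN): kernels with pointwise bounded integral operators

Mathlib only.  Abstract core of `T5.04 LeafRange ⇒ T5.02 LeafHS0`:

* `exists_bound_integral_sq807` -- (Banach--Steinhaus) if `k y ∈ L²(ν)` for every `y` and for every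
  `f ∈ L²(ν)` the function `y ↦ ∫ k y z f z dν(z)` is bounded, then `∫ ‖k y z‖² dν(z) ≤ C` for
  every `y`, with ONE constant `C`;
* `memLp_two_prod_of_bound807` -- a jointly measurable kernel whose sections are in `L²(ν)` with
  `∫ ‖K (y, z)‖² dν(z) ≤ C` is in `L²(ν₁ × ν)` for every finite measure `ν₁`;
* `memLp_two_prod_of_pointwise807` -- the two together.
-/

set_option autoImplicit false

open MeasureTheory

noncomputable section

namespace Fermat.Agent.LT.T5.H807

section Abstract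

variable {X Y : Type*} [MeasurableSpace X] {ν : Measure X}

/-- The square of the `L²` norm as an integral. -/
theorem sq_toReal_eLpNorm_two807 {f : X → ℂ} (hf : MemLp f 2 ν) :
    (eLpNorm f 2 ν).toReal ^ 2 = ∫ z, ‖f z‖ ^ 2 ∂ν := by
  have h := hf.eLpNorm_eq_integral_rpow_norm (by norm_num) (by norm_num)
  have h2 : ENNReal.toReal 2 = (2 : ℝ) := by simp
  rw [h2] at h
  have e : (∫ z, ‖f z‖ ^ (2 : ℝ) ∂ν) = ∫ z, ‖f z‖ ^ 2 ∂ν := by
    congr 1
    funext z
    exact Real.rpow_two _
  rw [e] at h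
  have h0 : 0 ≤ ∫ z, ‖f z‖ ^ 2 ∂ν := integral_nonneg fun z => by positivity
  rw [h, ENNReal.toReal_ofReal (Real.rpow_nonneg h0 _), ← Real.rpow_natCast,
    ← Real.rpow_mul h0]
  norm_num

/-- **Banach--Steinhaus for kernels.**  If every section `k y` is in `L²(ν)` and for every
`f ∈ L²(ν)` the function `y ↦ ∫ k y z f z dν(z)` is bounded, then the `L²` norms of the sections
are uniformly bounded. -/
theorem exists_bound_eLpNorm807 (k : Y → X → ℂ) (hk : ∀ y, MemLp (k y) 2 ν)
    (hbd : ∀ f : X → ℂ, MemLp f 2 ν → ∃ C : ℝ, ∀ y, ‖∫ z, k y z * f z ∂ν‖ ≤ C) :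
    ∃ C : ℝ, ∀ y, (eLpNorm (k y) 2 ν).toReal ≤ C := by
  have hk' : ∀ y, MemLp (star (k y)) 2 ν := fun y => (hk y).star
  let κ : Y → Lp ℂ 2 ν := fun y => (hk' y).toLp _
  let Λ : Y → (Lp ℂ 2 ν →L[ℂ] ℂ) := fun y => innerSL ℂ (κ y)
  have key : ∀ (y : Y) (f : Lp ℂ 2 ν), Λ y f = ∫ z, k y z * f z ∂ν := by
    intro y f
    change (innerSL ℂ (κ y)) f = _
    rw [innerSL_apply_apply, L2.inner_def]
    apply integral_congr_ae
    filter_upwards [(hk' y).coeFn_toLp] with z hz
    rw [RCLike.inner_apply]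
    change f z * (starRingEnd ℂ) (κ y z) = _
    rw [show (κ y : X → ℂ) z = star (k y) z from hz]
    simp [mul_comm]
  obtain ⟨C, hC⟩ := banach_steinhaus (g := Λ) (fun f => by
    obtain ⟨C, hC⟩ := hbd f (Lp.memLp f)
    exact ⟨C, fun y => by rw [key]; exact hC y⟩)
  refine ⟨C, fun y => ?_⟩
  have h1 : ‖Λ y‖ = ‖κ y‖ := innerSL_apply_norm ℂ (κ y)
  have h2 : ‖κ y‖ = (eLpNorm (star (k y)) 2 ν).toReal := Lp.norm_toLp _ _
  have h3 : eLpNorm (star (k y)) 2 ν = eLpNorm (k y) 2 ν := eLpNorm_star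
  rw [← h3, ← h2, ← h1]
  exact hC y

/-- The same with the integral of the square. -/
theorem exists_bound_integral_sq807 (k : Y → X → ℂ) (hk : ∀ y, MemLp (k y) 2 ν)
    (hbd : ∀ f : X → ℂ, MemLp f 2 ν → ∃ C : ℝ, ∀ y, ‖∫ z, k y z * f z ∂ν‖ ≤ C) :
    ∃ C : ℝ, ∀ y, ∫ z, ‖k y z‖ ^ 2 ∂ν ≤ C := by
  obtain ⟨C, hC⟩ := exists_bound_eLpNorm807 k hk hbd
  refine ⟨C ^ 2, fun y => ?_⟩
  rw [← sq_toReal_eLpNorm_two807 (hk y)]
  exact pow_le_pow_left₀ ENNReal.toReal_nonneg (hC y) 2

variable {X₁ : Type*} [MeasurableSpace X₁] {ν₁ : Measure X₁}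

/-- A jointly measurable kernel with sections in `L²(ν)` of uniformly bounded norm is in
`L²(ν₁ × ν)`, `ν₁` finite. -/
theorem memLp_two_prod_of_bound807 [IsFiniteMeasure ν₁] [SFinite ν] (K : X₁ × X → ℂ)
    (hK : AEStronglyMeasurable K (ν₁.prod ν)) (hk : ∀ y, MemLp (fun z => K (y, z)) 2 ν)
    (C : ℝ) (hC : ∀ y, ∫ z, ‖K (y, z)‖ ^ 2 ∂ν ≤ C) :
    MemLp K 2 (ν₁.prod ν) := by
  rw [memLp_two_iff_integrable_sq_norm hK]
  have hm : AEStronglyMeasurable (fun p : X₁ × X => ‖K p‖ ^ 2) (ν₁.prod ν) := hK.norm.pow 2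
  rw [integrable_prod_iff hm]
  refine ⟨Filter.Eventually.of_forall fun y => ?_, ?_⟩
  · exact (memLp_two_iff_integrable_sq_norm (hk y).aestronglyMeasurable).1 (hk y)
  · have hm2 : AEStronglyMeasurable (fun y => ∫ z, ‖‖K (y, z)‖ ^ 2‖ ∂ν) ν₁ :=
      hm.norm.integral_prod_right'
    refine Integrable.of_bound hm2 C (Filter.Eventually.of_forall fun y => ?_)
    have e : (fun z => ‖‖K (y, z)‖ ^ 2‖) = fun z => ‖K (y, z)‖ ^ 2 := by
      funext z
      exact Real.norm_of_nonneg (by positivity)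
    rw [e, Real.norm_of_nonneg (integral_nonneg fun z => by positivity)]
    exact hC y

/-- **Pointwise bounded integral operators have square-integrable kernels.** -/
theorem memLp_two_prod_of_pointwise807 [IsFiniteMeasure ν₁] [SFinite ν] (K : X₁ × X → ℂ)
    (hK : AEStronglyMeasurable K (ν₁.prod ν)) (hk : ∀ y, MemLp (fun z => K (y, z)) 2 ν)
    (hbd : ∀ f : X → ℂ, MemLp f 2 ν → ∃ C : ℝ, ∀ y, ‖∫ z, K (y, z) * f z ∂ν‖ ≤ C) :
    MemLp K 2 (ν₁.prod ν) := by
  obtain ⟨C, hC⟩ := exists_bound_integral_sq807 (fun y z => K (y, z)) hk hbd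
  exact memLp_two_prod_of_bound807 K hK hk C hC

end Abstract

end Fermat.Agent.LT.T5.H807

end

end
-- ===== PACK-END LT/T5/H807/BSKernel.lean

-- ===== PACK-BEGIN LT/T7/H724/CountMeasAbs.lean
section


/-!
# Row LT, tower T7, leaf T7.14.3a `CountMeasC`: the abstract measurability lemmas (helper724)

OFF-MAIN, Mathlib only.

* `measurable_of_countable_cover724` : a function which agrees with measurable functions on the
  members of a countable measurable cover is measurable;
* `measurable_finprod724` : `a ↦ ∏ᶠ i, f i a` is measurable for a COUNTABLE family of measurable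
  real functions (no finiteness of the supports is needed);
* `measurable_natCard724` : `a ↦ Nat.card {x | a ∈ A x}` is measurable for a COUNTABLE family of
  measurable sets (no finiteness is needed: `Nat.card` of an infinite set is `0`);
* `measurableSet_ratio724` : `{a | ∃ t ∈ C, p a = t * q a}` is measurable for continuous `p`, `q`
  with values in a topological field and `C` closed.
-/

set_option autoImplicit false

open MeasureTheory

namespace Fermat.Agent.LT.T7.H724

/-- A function which agrees with measurable functions on the members of a countable measurable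
cover is measurable. -/
theorem measurable_of_countable_cover724 {α β ι : Type*} [MeasurableSpace α] [MeasurableSpace β]
    [Countable ι] (E : ι → Set α) (hE : ∀ i, MeasurableSet (E i)) (hcov : ∀ a, ∃ i, a ∈ E i)
    (F : ι → α → β) (hF : ∀ i, Measurable (F i)) (f : α → β)
    (hf : ∀ i, ∀ a ∈ E i, f a = F i a) : Measurable f := by
  intro B hB
  have h : f ⁻¹' B = ⋃ i, E i ∩ F i ⁻¹' B := by
    ext a
    simp only [Set.mem_preimage, Set.mem_iUnion, Set.mem_inter_iff]
    constructor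
    · intro ha
      obtain ⟨i, hi⟩ := hcov a
      exact ⟨i, hi, by rw [← hf i a hi]; exact ha⟩
    · rintro ⟨i, hi, ha⟩
      rw [hf i a hi]
      exact ha
  rw [h]
  exact MeasurableSet.iUnion fun i => (hE i).inter (hF i hB)

/-- The set where a countable family of "predicates with measurable truth sets" has a given
finite truth set. -/
theorem measurableSet_eq_finset724 {α P : Type*} [MeasurableSpace α] [Countable P]
    (A : P → Set α) (hA : ∀ x, MeasurableSet (A x)) (T : Finset P) :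
    MeasurableSet {a | {x | a ∈ A x} = (T : Set P)} := by
  classical
  have h : {a | {x | a ∈ A x} = (T : Set P)}
      = ⋂ x : P, (if x ∈ T then A x else (A x)ᶜ) := by
    ext a
    simp only [Set.mem_ofPred_eq, Set.mem_iInter]
    constructor
    · intro h x
      by_cases hx : x ∈ T
      · rw [if_pos hx]
        have : x ∈ {x | a ∈ A x} := by rw [h]; exact hx
        exact this
      · rw [if_neg hx]
        intro hax
        have : x ∈ (T : Set P) := by rw [← h]; exact hax
        exact hx this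
    · intro h
      ext x
      have hx := h x
      by_cases hxT : x ∈ T
      · rw [if_pos hxT] at hx
        simp only [Set.mem_ofPred_eq, Finset.mem_coe]
        exact ⟨fun _ => hxT, fun _ => hx⟩
      · rw [if_neg hxT] at hx
        simp only [Set.mem_ofPred_eq, Finset.mem_coe]
        exact ⟨fun hax => absurd hax hx, fun h' => absurd h' hxT⟩
  rw [h]
  refine MeasurableSet.iInter fun x => ?_
  by_cases hx : x ∈ T
  · rw [if_pos hx]; exact hA x
  · rw [if_neg hx]; exact (hA x).compl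

/-- The set where the truth set is infinite. -/
theorem measurableSet_infinite724 {α P : Type*} [MeasurableSpace α] [Countable P]
    (A : P → Set α) (hA : ∀ x, MeasurableSet (A x)) :
    MeasurableSet {a | {x | a ∈ A x}.Infinite} := by
  have h : {a | {x | a ∈ A x}.Infinite}
      = (⋃ T : Finset P, {a | {x | a ∈ A x} = (T : Set P)})ᶜ := by
    ext a
    simp only [Set.mem_ofPred_eq, Set.mem_compl_iff, Set.mem_iUnion, not_exists]
    constructor
    · intro hinf T hT
      rw [hT] at hinf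
      exact hinf T.finite_toSet
    · intro h hfin
      obtain ⟨T, hT⟩ := hfin.exists_finset_coe
      exact h T hT.symm
  rw [h]
  exact (MeasurableSet.iUnion fun T => measurableSet_eq_finset724 A hA T).compl

/-- `a ↦ Nat.card {x | a ∈ A x}` is measurable for a countable family of measurable sets. -/
theorem measurable_natCard724 {α P : Type*} [MeasurableSpace α] [Countable P]
    (A : P → Set α) (hA : ∀ x, MeasurableSet (A x)) :
    Measurable fun a => (Nat.card {x | a ∈ A x} : ℝ) := by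
  classical
  refine measurable_of_countable_cover724
    (ι := Option (Finset P))
    (fun o => match o with
      | none => {a | {x | a ∈ A x}.Infinite}
      | some T => {a | {x | a ∈ A x} = (T : Set P)})
    ?_ ?_
    (fun o => match o with
      | none => fun _ => (0 : ℝ)
      | some T => fun _ => (T.card : ℝ))
    ?_ _ ?_
  · rintro (_ | T)
    · exact measurableSet_infinite724 A hA
    · exact measurableSet_eq_finset724 A hA T
  · intro a
    by_cases hfin : {x | a ∈ A x}.Finite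
    · obtain ⟨T, hT⟩ := hfin.exists_finset_coe
      exact ⟨some T, hT.symm⟩
    · exact ⟨none, hfin⟩
  · rintro (_ | T)
    · exact measurable_const
    · exact measurable_const
  · rintro (_ | T) a ha
    · have hinf : {x | a ∈ A x}.Infinite := ha
      have : Infinite {x | a ∈ A x} := hinf.to_subtype
      simp only [Nat.card_eq_zero_of_infinite, Nat.cast_zero]
    · have hT : {x | a ∈ A x} = (T : Set P) := ha
      simp only
      rw [hT, Nat.card_coe_set_eq, Set.ncard_coe_finset]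

/-- `a ↦ ∏ᶠ i, f i a` is measurable for a countable family of measurable real functions. -/
theorem measurable_finprod724 {α ι : Type*} [MeasurableSpace α] [Countable ι]
    (f : ι → α → ℝ) (hf : ∀ i, Measurable (f i)) :
    Measurable fun a => ∏ᶠ i, f i a := by
  classical
  have hA : ∀ i, MeasurableSet {a | f i a ≠ 1} := fun i =>
    (hf i (measurableSet_singleton (1 : ℝ))).compl
  refine measurable_of_countable_cover724
    (ι := Option (Finset ι))
    (fun o => match o with
      | none => {a | {i | a ∈ {a | f i a ≠ 1}}.Infinite}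
      | some T => {a | {i | a ∈ {a | f i a ≠ 1}} = (T : Set ι)})
    ?_ ?_
    (fun o => match o with
      | none => fun _ => (1 : ℝ)
      | some T => fun a => ∏ i ∈ T, f i a)
    ?_ _ ?_
  · rintro (_ | T)
    · exact measurableSet_infinite724 _ hA
    · exact measurableSet_eq_finset724 _ hA T
  · intro a
    by_cases hfin : {i | a ∈ {a | f i a ≠ 1}}.Finite
    · obtain ⟨T, hT⟩ := hfin.exists_finset_coe
      exact ⟨some T, hT.symm⟩
    · exact ⟨none, hfin⟩
  · rintro (_ | T)
    · exact measurable_const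
    · exact Finset.measurable_prod T fun i _ => hf i
  · rintro (_ | T) a ha
    · have hinf : (Function.mulSupport fun i => f i a).Infinite := ha
      exact finprod_of_infinite_mulSupport hinf
    · have hT : (Function.mulSupport fun i => f i a) = (T : Set ι) := ha
      exact finprod_eq_prod_of_mulSupport_subset _ hT.le

/-- `{a | ∃ t ∈ C, p a = t * q a}` is measurable for continuous `p`, `q` with values in a
topological field and `C` closed. -/
theorem measurableSet_ratio724 {α k : Type*} [TopologicalSpace α] [MeasurableSpace α]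
    [OpensMeasurableSpace α] [Field k] [TopologicalSpace k] [IsTopologicalDivisionRing k]
    [T1Space k] (p q : α → k) (hp : Continuous p) (hq : Continuous q) (C : Set k)
    (hC : IsClosed C) :
    MeasurableSet {a | ∃ t ∈ C, p a = t * q a} := by
  have hU : IsOpen {a | q a ≠ 0} := isOpen_ne_fun hq continuous_const
  have hO : IsOpen ({a | q a ≠ 0} ∩ (fun a => p a / q a) ⁻¹' Cᶜ) := by
    refine ContinuousOn.isOpen_inter_preimage ?_ hU hC.isOpen_compl
    exact hp.continuousOn.div hq.continuousOn fun a ha => ha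
  have hZ : IsClosed {a | p a = 0 ∧ q a = 0} :=
    (isClosed_eq hp continuous_const).inter (isClosed_eq hq continuous_const)
  have h : {a | ∃ t ∈ C, p a = t * q a}
      = ({a | q a ≠ 0} \ ({a | q a ≠ 0} ∩ (fun a => p a / q a) ⁻¹' Cᶜ))
        ∪ ({a | p a = 0 ∧ q a = 0} ∩ {_a | C.Nonempty}) := by
    ext a
    simp only [Set.mem_ofPred_eq, Set.mem_union, Set.mem_sdiff, Set.mem_inter_iff,
      Set.mem_preimage, Set.mem_compl_iff, not_and, not_not]
    constructor
    · rintro ⟨t, ht, e⟩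
      by_cases hq0 : q a = 0
      · right
        refine ⟨⟨?_, hq0⟩, ⟨t, ht⟩⟩
        rw [e, hq0, mul_zero]
      · left
        refine ⟨hq0, fun _ => ?_⟩
        rw [e, mul_div_assoc, div_self hq0, mul_one]
        exact ht
    · rintro (⟨hq0, h⟩ | ⟨⟨hp0, hq0⟩, ⟨t, ht⟩⟩)
      · refine ⟨p a / q a, h hq0, ?_⟩
        rw [div_mul_cancel₀ _ hq0]
      · exact ⟨t, ht, by rw [hp0, hq0, mul_zero]⟩
  rw [h]
  refine (hU.measurableSet.diff hO.measurableSet).union (hZ.measurableSet.inter ?_)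
  by_cases hne : C.Nonempty
  · simp [hne]
  · simp [hne]

end Fermat.Agent.LT.T7.H724

end
-- ===== PACK-END LT/T7/H724/CountMeasAbs.lean

-- ===== PACK-BEGIN LT/T7/H468/IwasawaC.lean
section


/-!
# Row LT, tower T7, node T7.13 `ThinC`, adelic half over `F`: Iwasawa in `GL₂(ℂ)`
(helper468, OFF-MAIN; Mathlib only)

* `iwasawaC468`: every `[[a, b], [c, d]]` with `ad - bc ≠ 0` is
  `[[y, x], [0, 1]] · (r · k)`, `y, r > 0`, `k k* = 1`.
* `norm_embedding_unit468`, `norm_embedding_sq468`: for a number field `K` with ONE infinite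
  place `w`, complex: `‖σ ε‖ = 1` for the units of `𝒪_K`, and `‖σ ϖ‖² = N v` for a generator `ϖ`
  of a prime `v`.
-/

set_option autoImplicit false

open IsDedekindDomain NumberField
open scoped MatrixGroups ComplexConjugate

noncomputable section

namespace Fermat.Agent.LT.T7.H468

/-- The unitary factor of the Iwasawa decomposition. -/
def iwaK468 (c d u : ℂ) (r : ℝ) : Matrix (Fin 2) (Fin 2) ℂ :=
  !![u * conj d / r, -(u * conj c) / r; c / r, d / r]

theorem iwaK468_unitary {c d u : ℂ} {r : ℝ} (hr : ((r : ℝ) : ℂ) ≠ 0)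
    (hr2 : ((r : ℝ) : ℂ) ^ 2 = c * conj c + d * conj d) (hu : u * conj u = 1) :
    iwaK468 c d u r * (iwaK468 c d u r).conjTranspose = 1 := by
  have hct : (iwaK468 c d u r).conjTranspose
      = !![conj u * d / r, conj c / r; -(conj u * c) / r, conj d / r] := by
    ext i j
    fin_cases i <;> fin_cases j <;>
      simp [iwaK468, Matrix.conjTranspose_apply]
  rw [hct, iwaK468, Matrix.mul_fin_two, Matrix.one_fin_two]
  have e11 : u * conj d / r * (conj u * d / r) + -(u * conj c) / r * (-(conj u * c) / r) = 1 := by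
    field_simp
    linear_combination (c * conj c + d * conj d) * hu - hr2
  have e12 : u * conj d / r * (conj c / r) + -(u * conj c) / r * (conj d / r) = 0 := by
    field_simp
    ring
  have e21 : c / r * (conj u * d / r) + d / r * (-(conj u * c) / r) = 0 := by
    field_simp
    ring
  have e22 : c / r * (conj c / r) + d / r * (conj d / r) = 1 := by
    field_simp
    linear_combination -hr2
  rw [e11, e12, e21, e22]

/-- **Iwasawa decomposition in `GL₂(ℂ)`**, matrix form. -/
theorem iwasawaC468 (a b c d : ℂ) (hdet : a * d - b * c ≠ 0) :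
    ∃ (x : ℂ) (y r : ℝ) (k : Matrix (Fin 2) (Fin 2) ℂ), 0 < y ∧ 0 < r ∧
      k * k.conjTranspose = 1 ∧
      !![a, b; c, d] = !![((y : ℝ) : ℂ), x; 0, 1] * (!![((r : ℝ) : ℂ), 0; 0, ((r : ℝ) : ℂ)] * k) := by
  set Δ : ℂ := a * d - b * c with hΔ
  set N : ℝ := Complex.normSq c + Complex.normSq d with hN
  have hNpos : 0 < N := by
    rcases eq_or_ne c 0 with hc | hc
    · rcases eq_or_ne d 0 with hd | hd
      · exfalso
        apply hdet
        rw [hΔ, hc, hd]
        ring
      · have h1 := Complex.normSq_pos.2 hd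
        have h2 := Complex.normSq_nonneg c
        linarith
    · have h1 := Complex.normSq_pos.2 hc
      have h2 := Complex.normSq_nonneg d
      linarith
  set r : ℝ := Real.sqrt N with hr
  have hrpos : 0 < r := Real.sqrt_pos.2 hNpos
  have hr2 : r ^ 2 = N := Real.sq_sqrt hNpos.le
  have hnΔ : 0 < ‖Δ‖ := norm_pos_iff.2 hdet
  have hNC : ((N : ℝ) : ℂ) = c * conj c + d * conj d := by
    rw [hN, Complex.mul_conj, Complex.mul_conj]
    push_cast
    ring
  have hrC : ((r : ℝ) : ℂ) ^ 2 = c * conj c + d * conj d := by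
    rw [← hNC, ← hr2]
    push_cast
    ring
  have hrne : ((r : ℝ) : ℂ) ≠ 0 := by exact_mod_cast hrpos.ne'
  have hNne : ((N : ℝ) : ℂ) ≠ 0 := by exact_mod_cast hNpos.ne'
  have hnΔC : ((‖Δ‖ : ℝ) : ℂ) ≠ 0 := by exact_mod_cast hnΔ.ne'
  set u : ℂ := Δ / ((‖Δ‖ : ℝ) : ℂ) with hu
  have huu : u * conj u = 1 := by
    rw [hu, map_div₀, Complex.conj_ofReal, div_mul_div_comm, Complex.mul_conj,
      Complex.normSq_eq_norm_sq]
    push_cast
    field_simp
  refine ⟨(a * conj c + b * conj d) / ((N : ℝ) : ℂ), ‖Δ‖ / N, r, iwaK468 c d u r,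
    div_pos hnΔ hNpos, hrpos, iwaK468_unitary hrne hrC huu, ?_⟩
  rw [iwaK468, Matrix.mul_fin_two, Matrix.mul_fin_two]
  have hyu : (((‖Δ‖ / N : ℝ)) : ℂ) * u = Δ / ((N : ℝ) : ℂ) := by
    rw [hu]
    push_cast
    field_simp
  have e11 : (((‖Δ‖ / N : ℝ)) : ℂ) * (r * (u * conj d / r) + 0 * (c / r))
      + (a * conj c + b * conj d) / ((N : ℝ) : ℂ) * (0 * (u * conj d / r) + r * (c / r)) = a := by
    have h1 : (((‖Δ‖ / N : ℝ)) : ℂ) * (r * (u * conj d / r) + 0 * (c / r))
        = Δ / ((N : ℝ) : ℂ) * conj d := by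
      rw [← hyu]
      field_simp
      ring
    have h2 : (0 * (u * conj d / r) + (r : ℂ) * (c / r)) = c := by
      field_simp
      ring
    rw [h1, h2, hΔ]
    field_simp
    rw [hNC]
    ring
  have e12 : (((‖Δ‖ / N : ℝ)) : ℂ) * (r * (-(u * conj c) / r) + 0 * (d / r))
      + (a * conj c + b * conj d) / ((N : ℝ) : ℂ) * (0 * (-(u * conj c) / r) + r * (d / r))
      = b := by
    have h1 : (((‖Δ‖ / N : ℝ)) : ℂ) * (r * (-(u * conj c) / r) + 0 * (d / r))
        = -(Δ / ((N : ℝ) : ℂ) * conj c) := by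
      rw [← hyu]
      field_simp
      ring
    have h2 : (0 * (-(u * conj c) / r) + (r : ℂ) * (d / r)) = d := by
      field_simp
      ring
    rw [h1, h2, hΔ]
    field_simp
    rw [hNC]
    ring
  have e21 : (0 : ℂ) * (r * (u * conj d / r) + 0 * (c / r))
      + 1 * (0 * (u * conj d / r) + r * (c / r)) = c := by
    field_simp
    ring
  have e22 : (0 : ℂ) * (r * (-(u * conj c) / r) + 0 * (d / r))
      + 1 * (0 * (-(u * conj c) / r) + r * (d / r)) = d := by
    field_simp
    ring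
  rw [e11, e12, e21, e22]

/-! ## The norm at the unique infinite place -/

section Norm

variable {K : Type} [Field K] [NumberField K]

/-- For a number field with ONE infinite place `w`, complex: `‖σ x‖² = |N x|`. -/
theorem norm_embedding_sq_eq468 {w : InfinitePlace K} (hw : w.IsComplex)
    (huniq : ∀ w' : InfinitePlace K, w' = w) (x : K) :
    ‖w.embedding x‖ ^ 2 = ((|Algebra.norm ℚ x| : ℚ) : ℝ) := by
  rw [← InfinitePlace.prod_eq_abs_norm x,
    Fintype.prod_eq_single w (fun w' h => absurd (huniq w') h),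
    InfinitePlace.norm_embedding_eq]
  have hm : w.mult = 2 := InfinitePlace.mult_isComplex ⟨w, hw⟩
  rw [hm]

/-- The units of `𝒪_K` have absolute value `1` at the unique infinite place. -/
theorem norm_embedding_unit468 {w : InfinitePlace K} (hw : w.IsComplex)
    (huniq : ∀ w' : InfinitePlace K, w' = w) (ε : (𝓞 K)ˣ) :
    ‖w.embedding (algebraMap (𝓞 K) K (ε : 𝓞 K))‖ = 1 := by
  have h1 := norm_embedding_sq_eq468 hw huniq (algebraMap (𝓞 K) K (ε : 𝓞 K))
  have h2 : |((RingOfIntegers.norm ℚ (ε : 𝓞 K) : 𝓞 ℚ) : ℚ)| = 1 :=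
    NumberField.isUnit_iff_norm.1 ε.isUnit
  rw [RingOfIntegers.coe_norm] at h2
  have h3 : ‖w.embedding (algebraMap (𝓞 K) K (ε : 𝓞 K))‖ ^ 2 = 1 := by
    rw [h1]
    have : (|Algebra.norm ℚ (algebraMap (𝓞 K) K (ε : 𝓞 K))| : ℚ) = 1 := h2
    rw [this]
    norm_num
  have h4 : 0 ≤ ‖w.embedding (algebraMap (𝓞 K) K (ε : 𝓞 K))‖ := norm_nonneg _
  nlinarith [h3, h4]

/-- `‖σ ϖ‖² = N v` for a generator `ϖ` of the prime `v`. -/
theorem norm_embedding_sq468 {w : InfinitePlace K} (hw : w.IsComplex)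
    (huniq : ∀ w' : InfinitePlace K, w' = w) {v : HeightOneSpectrum (𝓞 K)} {ϖ : 𝓞 K}
    (hϖ : v.asIdeal = Ideal.span {ϖ}) :
    ‖w.embedding (algebraMap (𝓞 K) K ϖ)‖ ^ 2 = (Ideal.absNorm v.asIdeal : ℝ) := by
  rw [norm_embedding_sq_eq468 hw huniq, hϖ, Ideal.absNorm_span_singleton,
    ← Algebra.coe_norm_int]
  rw [Nat.cast_natAbs]
  push_cast
  rfl

/-- `‖σ ϖ‖ = √(N v)` for a generator `ϖ` of the prime `v`. -/
theorem norm_embedding_eq_sqrt468 {w : InfinitePlace K} (hw : w.IsComplex)
    (huniq : ∀ w' : InfinitePlace K, w' = w) {v : HeightOneSpectrum (𝓞 K)} {ϖ : 𝓞 K}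
    (hϖ : v.asIdeal = Ideal.span {ϖ}) :
    ‖w.embedding (algebraMap (𝓞 K) K ϖ)‖ = Real.sqrt (Ideal.absNorm v.asIdeal : ℝ) := by
  rw [← norm_embedding_sq468 hw huniq hϖ, Real.sqrt_sq (norm_nonneg _)]

end Norm

end Fermat.Agent.LT.T7.H468

end

end
-- ===== PACK-END LT/T7/H468/IwasawaC.lean

-- ===== PACK-BEGIN LT/T7/H389/PRTransAbs.lean
section


/-!
# Row LT, tower T7, leaf `PRTransC57` (owner helper389) -- the abstract core (Mathlib only)

Right translation of the left Haar measure `|y|⁻¹ dx dy dz` of the Borel group in the coordinates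
`(x, y, z)`: for `p₀ = (x₀, y₀, z₀)`,
`∫ f (x + c y, y y₀, z z₀) |y|⁻¹ = |y₀| ∫ f (x, y, z) |y|⁻¹`.
-/

set_option autoImplicit false

open MeasureTheory
open scoped ENNReal

namespace Fermat.Agent.LT.T7.H389

/-- **Abstract right translation.** -/
theorem prtrans_abs389 {A X : Type*} [AddCommGroup A] [MeasurableSpace A] [MeasurableAdd₂ A]
    [CommGroup X] [MeasurableSpace X] [MeasurableMul₂ X]
    (ν : Measure A) [SFinite ν] [ν.IsAddRightInvariant]
    (τ : Measure X) [SFinite τ] [τ.IsMulRightInvariant]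
    (N : X → ℝ) (hNpos : ∀ y, 0 < N y) (hNmul : ∀ y y', N (y * y') = N y * N y')
    (hNmeas : Measurable N) (c : X → A) (hc : Measurable c)
    (f : A × X × X → ℝ≥0∞) (hf : Measurable f) (y₀ z₀ : X) :
    ∫⁻ p, f (p.1 + c p.2.1, p.2.1 * y₀, p.2.2 * z₀) * ENNReal.ofReal ((N p.2.1)⁻¹)
        ∂(ν.prod (τ.prod τ))
      = ENNReal.ofReal (N y₀)
          * ∫⁻ p, f p * ENNReal.ofReal ((N p.2.1)⁻¹) ∂(ν.prod (τ.prod τ)) := by
  -- the weight
  set w : X → ℝ≥0∞ := fun y => ENNReal.ofReal ((N y)⁻¹) with hw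
  have hwm : Measurable w := (hNmeas.inv).ennreal_ofReal
  -- partial integrals
  set F : X × X → ℝ≥0∞ := fun q => ∫⁻ x, f (x, q) ∂ν with hF
  have hFm : Measurable F := hf.lintegral_prod_left'
  set H : X → ℝ≥0∞ := fun y => ∫⁻ z, F (y, z) ∂τ with hH
  have hHm : Measurable H := hFm.lintegral_prod_right'
  -- the right-hand side
  have hR : ∫⁻ p, f p * ENNReal.ofReal ((N p.2.1)⁻¹) ∂(ν.prod (τ.prod τ))
      = ∫⁻ y, H y * w y ∂τ := by
    have hm : Measurable fun p : A × X × X => f p * w p.2.1 :=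
      hf.mul (hwm.comp (measurable_fst.comp measurable_snd))
    rw [lintegral_prod_symm' _ hm]
    have h1 : ∀ q : X × X, ∫⁻ x, f (x, q) * w q.1 ∂ν = F q * w q.1 := by
      intro q
      have hfq : Measurable fun x : A => f (x, q) :=
        hf.comp (measurable_id.prodMk measurable_const)
      exact lintegral_mul_const _ hfq
    simp only [h1]
    have hm2 : Measurable fun q : X × X => F q * w q.1 := hFm.mul (hwm.comp measurable_fst)
    rw [lintegral_prod _ hm2.aemeasurable]
    refine lintegral_congr fun y => ?_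
    have hFy : Measurable fun z : X => F (y, z) :=
      hFm.comp (measurable_const.prodMk measurable_id)
    show ∫⁻ z, F (y, z) * w y ∂τ = H y * w y
    exact lintegral_mul_const _ hFy
  -- the left-hand side
  have hL : ∫⁻ p, f (p.1 + c p.2.1, p.2.1 * y₀, p.2.2 * z₀) * ENNReal.ofReal ((N p.2.1)⁻¹)
        ∂(ν.prod (τ.prod τ))
      = ∫⁻ y, H (y * y₀) * w y ∂τ := by
    have hmap : Measurable fun p : A × X × X => (p.1 + c p.2.1, p.2.1 * y₀, p.2.2 * z₀) := by
      refine Measurable.prodMk ?_ (Measurable.prodMk ?_ ?_)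
      · exact measurable_fst.add (hc.comp (measurable_fst.comp measurable_snd))
      · exact (measurable_fst.comp measurable_snd).mul measurable_const
      · exact (measurable_snd.comp measurable_snd).mul measurable_const
    have hm : Measurable fun p : A × X × X =>
        f (p.1 + c p.2.1, p.2.1 * y₀, p.2.2 * z₀) * w p.2.1 :=
      (hf.comp hmap).mul (hwm.comp (measurable_fst.comp measurable_snd))
    rw [lintegral_prod_symm' _ hm]
    have h1 : ∀ q : X × X,
        ∫⁻ x, f (x + c q.1, q.1 * y₀, q.2 * z₀) * w q.1 ∂ν = F (q.1 * y₀, q.2 * z₀) * w q.1 := by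
      intro q
      have hfq : Measurable fun x : A => f (x, q.1 * y₀, q.2 * z₀) :=
        hf.comp (measurable_id.prodMk measurable_const)
      have hfq' : Measurable fun x : A => f (x + c q.1, q.1 * y₀, q.2 * z₀) :=
        hfq.comp (measurable_id.add measurable_const)
      rw [lintegral_mul_const _ hfq']
      congr 1
      exact lintegral_add_right_eq_self (fun x => f (x, q.1 * y₀, q.2 * z₀)) (c q.1)
    simp only [h1]
    have hm2 : Measurable fun q : X × X => F (q.1 * y₀, q.2 * z₀) * w q.1 := by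
      refine (hFm.comp ?_).mul (hwm.comp measurable_fst)
      exact (measurable_fst.mul measurable_const).prodMk (measurable_snd.mul measurable_const)
    rw [lintegral_prod _ hm2.aemeasurable]
    refine lintegral_congr fun y => ?_
    have hFy : Measurable fun z : X => F (y * y₀, z) :=
      hFm.comp (measurable_const.prodMk measurable_id)
    have hFy' : Measurable fun z : X => F (y * y₀, z * z₀) :=
      hFy.comp (measurable_id.mul measurable_const)
    show ∫⁻ z, F (y * y₀, z * z₀) * w y ∂τ = H (y * y₀) * w y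
    rw [lintegral_mul_const _ hFy']
    congr 1
    exact lintegral_mul_right_eq_self (fun z => F (y * y₀, z)) z₀
  rw [hL, hR]
  -- the weight: `w y = N y₀ * w (y y₀)`
  have hwy : ∀ y, w y = ENNReal.ofReal (N y₀) * w (y * y₀) := by
    intro y
    simp only [hw]
    rw [← ENNReal.ofReal_mul (hNpos y₀).le, hNmul]
    congr 1
    have h1 := (hNpos y).ne'
    have h2 := (hNpos y₀).ne'
    field_simp
  calc ∫⁻ y, H (y * y₀) * w y ∂τ
      = ∫⁻ y, ENNReal.ofReal (N y₀) * (H (y * y₀) * w (y * y₀)) ∂τ := by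
        refine lintegral_congr fun y => ?_
        rw [hwy y]; ring
    _ = ENNReal.ofReal (N y₀) * ∫⁻ y, H (y * y₀) * w (y * y₀) ∂τ := by
        rw [lintegral_const_mul]
        exact ((hHm.mul hwm).comp (measurable_id.mul measurable_const))
    _ = ENNReal.ofReal (N y₀) * ∫⁻ y, H y * w y ∂τ := by
        congr 1
        exact lintegral_mul_right_eq_self (fun y => H y * w y) y₀

end Fermat.Agent.LT.T7.H389

end
-- ===== PACK-END LT/T7/H389/PRTransAbs.lean

-- ===== PACK-BEGIN LT/T1/H930/AdeleAut.lean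
section


/-!
# Row LT, tower T1 (pre-leaf T1.AUT, helper930): the adelic isomorphism of a field isomorphism

OFF-MAIN.  Mathlib only.  No `sorry`, nothing assumed.

For an isomorphism `e : K ≃+* L` of number fields (in particular an automorphism `σ` of `K`) we
construct the induced isomorphism of adele rings

  `adeleEquiv930 e : AdeleRing (𝓞 K) K ≃+* AdeleRing (𝓞 L) L`,

continuous in both directions, which is `e` on the principal adeles and is functorial in `e`.
It is the product over the places `w` of `L` of the completion maps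
`K_{e⁻¹ w} → L_w` (`infMapHom930` at the infinite places, an isometry; `finMapEquiv930` at the
finite places, valuation preserving, so integers go to integers).

Main declarations (all in namespace `Fermat.Agent.LT.T1.H930`):

* `infPull930 e w`, `finPull930 e w` : the place of `K` below the place `w` of `L`.
* `infMapHom930 e w`, `isometry_infMapHom930`, `infMapHom930_coe`.
* `finMapEquiv930 e w`, `valued_finMapEquiv930`, `finMapEquiv930_mem_integers`,
  `finMapEquiv930_coe`, `continuous_finMapEquiv930`.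
* `infAdeleEquiv930 e`, `finAdeleEquiv930 e`, `adeleEquiv930 e`, with `_apply`, `_algebraMap`,
  `continuous_…`, `…_symm`, `…_refl`, `…_trans` lemmas, and `adeleHomeo930 e`.
* `adeleAutHom930 : RingAut K →* RingAut (AdeleRing (𝓞 K) K)`.
-/

set_option autoImplicit false

open IsDedekindDomain NumberField InfinitePlace Valuation MonoidWithZeroHom WithZero

noncomputable section

namespace Fermat.Agent.LT.T1.H930

/-! ## Infinite places -/

section infinite

variable {K L : Type*} [Field K] [Field L]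

/-- The place of `K` below `w` along the isomorphism `e : K ≃+* L`. -/
def infPull930 (e : K ≃+* L) (w : InfinitePlace L) : InfinitePlace K :=
  w.comap (e : K →+* L)

theorem infPull930_apply (e : K ≃+* L) (w : InfinitePlace L) (x : K) :
    infPull930 e w x = w (e x) := rfl

/-- `e` as a ring isomorphism of the normed fields `(K, |·|_{e⁻¹w}) → (L, |·|_w)`. -/
def withAbsEquiv930 (e : K ≃+* L) (w : InfinitePlace L) :
    WithAbs (infPull930 e w).1 ≃+* WithAbs w.1 :=
  WithAbs.congr (infPull930 e w).1 w.1 e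

theorem withAbsEquiv930_apply (e : K ≃+* L) (w : InfinitePlace L)
    (x : WithAbs (infPull930 e w).1) :
    withAbsEquiv930 e w x = WithAbs.toAbs w.1 (e x.ofAbs) := rfl

theorem norm_withAbsEquiv930 (e : K ≃+* L) (w : InfinitePlace L)
    (x : WithAbs (infPull930 e w).1) : ‖withAbsEquiv930 e w x‖ = ‖x‖ := by
  rw [WithAbs.norm_eq_apply_ofAbs, WithAbs.norm_eq_apply_ofAbs]
  rfl

theorem isometry_withAbsEquiv930 (e : K ≃+* L) (w : InfinitePlace L) :
    Isometry (withAbsEquiv930 e w).toRingHom :=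
  AddMonoidHomClass.isometry_of_norm _ (norm_withAbsEquiv930 e w)

/-- The completion map `K_{e⁻¹ w} →+* L_w` induced by `e`. -/
def infMapHom930 (e : K ≃+* L) (w : InfinitePlace L) :
    (infPull930 e w).Completion →+* w.Completion :=
  ((Completion.equiv w).symm.toRingHom.comp (isometry_withAbsEquiv930 e w).mapRingHom).comp
    (Completion.equiv (infPull930 e w)).toRingHom

theorem infMapHom930_coe (e : K ≃+* L) (w : InfinitePlace L) (x : K) :
    infMapHom930 e w (x : (infPull930 e w).Completion) = ((e x : L) : w.Completion) := by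
  apply Completion.ext
  exact (isometry_withAbsEquiv930 e w).mapRingHom_coe (WithAbs.toAbs _ x)

theorem isometry_infMapHom930 (e : K ≃+* L) (w : InfinitePlace L) :
    Isometry (infMapHom930 e w) := by
  refine Isometry.of_dist_eq fun x y => ?_
  exact (isometry_withAbsEquiv930 e w).isometry_mapRingHom.dist_eq x.toCompletion y.toCompletion

theorem continuous_infMapHom930 (e : K ≃+* L) (w : InfinitePlace L) :
    Continuous (infMapHom930 e w) := (isometry_infMapHom930 e w).continuous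


/-- The map of infinite adele rings induced by `e : K ≃+* L`. -/
def infAdeleHom930 (e : K ≃+* L) : InfiniteAdeleRing K →+* InfiniteAdeleRing L :=
  RingHom.pi fun w => (infMapHom930 e w).comp (Pi.evalRingHom _ (infPull930 e w))

theorem infAdeleHom930_apply (e : K ≃+* L) (a : InfiniteAdeleRing K) (w : InfinitePlace L) :
    infAdeleHom930 e a w = infMapHom930 e w (a (infPull930 e w)) := rfl

theorem continuous_infAdeleHom930 (e : K ≃+* L) : Continuous (infAdeleHom930 e) :=
  continuous_pi fun w => (continuous_infMapHom930 e w).comp (continuous_apply (infPull930 e w))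

theorem infAdeleHom930_algebraMap (e : K ≃+* L) (k : K) :
    infAdeleHom930 e (algebraMap K (InfiniteAdeleRing K) k)
      = algebraMap L (InfiniteAdeleRing L) (e k) := by
  funext w
  rw [infAdeleHom930_apply]
  exact infMapHom930_coe e w k

theorem infPull930_symm (e : K ≃+* L) (v : InfinitePlace K) :
    infPull930 e (infPull930 e.symm v) = v := by
  refine InfinitePlace.ext _ _ fun x => ?_
  rw [infPull930_apply, infPull930_apply, RingEquiv.symm_apply_apply]

/-- Two continuous ring homomorphisms out of `K_{v'}` and `K_v`, `v' = v`, which agree on `K`,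
agree on the components of an infinite adele. -/
theorem infAdele_apply_eq930 {M : Type*} [TopologicalSpace M] [T2Space M] [Semiring M]
    (v' v : InfinitePlace K) (h : v' = v)
    (ψ₁ : v'.Completion →+* M) (ψ₂ : v.Completion →+* M) (h₁ : Continuous ψ₁)
    (h₂ : Continuous ψ₂)
    (hk : ∀ k : K, ψ₁ (k : v'.Completion) = ψ₂ (k : v.Completion))
    (a : InfiniteAdeleRing K) : ψ₁ (a v') = ψ₂ (a v) := by
  subst h
  have hcl : IsClosed {x : v'.Completion | ψ₁ x = ψ₂ x} := isClosed_eq h₁ h₂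
  exact Completion.induction_on v' (p := fun x => ψ₁ x = ψ₂ x) (a v') hcl fun x => hk x.ofAbs

/-- A continuous ring homomorphism `K_{v'} → K_v` which is the identity on `K` is the identity
(transported along `v' = v`), evaluated on an infinite adele. -/
theorem infAdele_apply_eq_of_id930 (v' v : InfinitePlace K) (h : v' = v)
    (ψ : v'.Completion →+* v.Completion) (hψ : Continuous ψ)
    (hk : ∀ k : K, ψ (k : v'.Completion) = (k : v.Completion))
    (a : InfiniteAdeleRing K) : ψ (a v') = a v :=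
  infAdele_apply_eq930 v' v h ψ (RingHom.id _) hψ continuous_id hk a

theorem infAdeleHom930_symm_apply (e : K ≃+* L) (a : InfiniteAdeleRing K) :
    infAdeleHom930 e.symm (infAdeleHom930 e a) = a := by
  funext v
  rw [infAdeleHom930_apply, infAdeleHom930_apply]
  refine infAdele_apply_eq_of_id930 (infPull930 e (infPull930 e.symm v)) v (infPull930_symm e v)
    ((infMapHom930 e.symm v).comp (infMapHom930 e (infPull930 e.symm v)))
    ((continuous_infMapHom930 e.symm v).comp (continuous_infMapHom930 e _)) ?_ a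
  intro k
  show infMapHom930 e.symm v (infMapHom930 e (infPull930 e.symm v) _) = _
  rw [infMapHom930_coe, infMapHom930_coe, RingEquiv.symm_apply_apply]

/-- The isomorphism of infinite adele rings induced by `e : K ≃+* L`. -/
def infAdeleEquiv930 (e : K ≃+* L) : InfiniteAdeleRing K ≃+* InfiniteAdeleRing L :=
  RingEquiv.ofRingHom (infAdeleHom930 e) (infAdeleHom930 e.symm)
    (RingHom.ext fun b => infAdeleHom930_symm_apply e.symm b)
    (RingHom.ext fun a => infAdeleHom930_symm_apply e a)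

end infinite

/-! ## Finite places -/

section general

variable {K L Γ₀ : Type*} [Field K] [Field L] [LinearOrderedCommGroupWithZero Γ₀]

theorem uniformContinuous_congr930 (v : Valuation K Γ₀) (w : Valuation L Γ₀) (f : K ≃+* L)
    (h : ∀ x, w (f x) = v x) : UniformContinuous (WithVal.congr v w f) := by
  refine uniformContinuous_of_continuousAt_zero _ ?_
  simp_rw [ContinuousAt, map_zero, (Valued.hasBasis_nhds_zero _ _).tendsto_iff
    (Valued.hasBasis_nhds_zero _ _), true_and, forall_const]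
  intro γ
  obtain ⟨r, s, hr₀, hs₀, hr⟩ := restrict_exists_div_eq (Valued.v : Valuation (WithVal w) Γ₀) γ
  -- pull `r`, `s` back to `WithVal v`
  set r' : WithVal v := (WithVal.congr v w f).symm r with hr'
  set s' : WithVal v := (WithVal.congr v w f).symm s with hs'
  have hval : ∀ x : WithVal v, (Valued.v : Valuation (WithVal w) Γ₀) (WithVal.congr v w f x)
      = (Valued.v : Valuation (WithVal v) Γ₀) x := fun x => h x.ofVal
  have hr1 : (Valued.v : Valuation (WithVal v) Γ₀) r' = Valued.v r := by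
    rw [← hval, hr', RingEquiv.apply_symm_apply]
  have hs1 : (Valued.v : Valuation (WithVal v) Γ₀) s' = Valued.v s := by
    rw [← hval, hs', RingEquiv.apply_symm_apply]
  have hr0' : (Valued.v : Valuation (WithVal v) Γ₀).restrict r' ≠ 0 := by
    intro h0
    have := congrArg ValueGroup₀.embedding h0
    rw [embedding_restrict, map_zero, hr1] at this
    exact hr₀.ne' this
  have hs0' : (Valued.v : Valuation (WithVal v) Γ₀).restrict s' ≠ 0 := by
    intro h0
    have := congrArg ValueGroup₀.embedding h0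
    rw [embedding_restrict, map_zero, hs1] at this
    exact hs₀.ne' this
  refine ⟨Units.mk0 ((Valued.v : Valuation (WithVal v) Γ₀).restrict r' /
    (Valued.v : Valuation (WithVal v) Γ₀).restrict s') (div_ne_zero hr0' hs0'), ?_⟩
  intro x hx
  simp only [Units.val_mk0, Set.mem_ofPred_eq] at hx ⊢
  rw [restrict_lt_iff_lt_embedding, map_div₀, embedding_restrict, embedding_restrict] at hx
  rw [← hr, restrict_lt_iff_lt_embedding, map_div₀, embedding_restrict, embedding_restrict,
    hval, ← hr1, ← hs1]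
  exact hx

end general

section dedekind

variable {R S : Type*} [CommRing R] [CommRing S] [IsDedekindDomain R] [IsDedekindDomain S]

/-- The prime of `R` below `w` along the isomorphism `e : R ≃+* S`. -/
def primePull930 (e : R ≃+* S) (w : HeightOneSpectrum S) : HeightOneSpectrum R :=
  HeightOneSpectrum.comap (e : R →+* S) e.surjective w

omit [IsDedekindDomain R] [IsDedekindDomain S] in
theorem primePull930_asIdeal (e : R ≃+* S) (w : HeightOneSpectrum S) :
    (primePull930 e w).asIdeal = w.asIdeal.comap (e : R →+* S) := rfl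

omit [IsDedekindDomain R] [IsDedekindDomain S] in
theorem mem_primePull930_pow (e : R ≃+* S) (w : HeightOneSpectrum S) (n : ℕ) (r : R) :
    r ∈ (primePull930 e w).asIdeal ^ n ↔ e r ∈ w.asIdeal ^ n := by
  have h1 : (primePull930 e w).asIdeal = w.asIdeal.map (e.symm : S →+* R) := by
    rw [primePull930_asIdeal]
    exact (Ideal.map_symm (I := w.asIdeal) (f := e)).symm
  have h2 : (w.asIdeal ^ n).map (e.symm : S →+* R) = (w.asIdeal ^ n).comap (e : R →+* S) :=
    Ideal.map_symm (I := w.asIdeal ^ n) (f := e)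
  rw [h1, ← Ideal.map_pow, h2, Ideal.mem_comap]
  rfl

theorem intValuation_primePull930 (e : R ≃+* S) (w : HeightOneSpectrum S) (r : R) :
    (primePull930 e w).intValuation r = w.intValuation (e r) := by
  by_cases hr : r = 0
  · simp [hr]
  have her : e r ≠ 0 := fun h => hr (by simpa using h)
  have key : ∀ n : ℕ, (primePull930 e w).intValuation r ≤ WithZero.exp (-(n : ℤ)) ↔
      w.intValuation (e r) ≤ WithZero.exp (-(n : ℤ)) := fun n => by
    rw [HeightOneSpectrum.intValuation_le_pow_iff_mem, HeightOneSpectrum.intValuation_le_pow_iff_mem,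
      mem_primePull930_pow]
  rw [HeightOneSpectrum.intValuation_if_neg _ hr, HeightOneSpectrum.intValuation_if_neg _ her]
    at key ⊢
  exact le_antisymm ((key _).2 le_rfl) ((key _).1 le_rfl)

variable {K L : Type*} [Field K] [Field L] [Algebra R K] [IsFractionRing R K] [Algebra S L]
  [IsFractionRing S L]

theorem valuation_primePull930 (e : R ≃+* S) (f : K ≃+* L)
    (hf : ∀ r : R, f (algebraMap R K r) = algebraMap S L (e r)) (w : HeightOneSpectrum S)
    (x : K) : w.valuation L (f x) = (primePull930 e w).valuation K x := by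
  obtain ⟨a, b, hb, rfl⟩ := IsFractionRing.div_surjective (A := R) x
  rw [map_div₀, hf, hf, map_div₀, map_div₀, HeightOneSpectrum.valuation_of_algebraMap,
    HeightOneSpectrum.valuation_of_algebraMap, HeightOneSpectrum.valuation_of_algebraMap,
    HeightOneSpectrum.valuation_of_algebraMap, intValuation_primePull930,
    intValuation_primePull930]

end dedekind

section numberfield

variable {K L : Type*} [Field K] [Field L] [NumberField K] [NumberField L]

/-- The finite place of `K` below `w` along the isomorphism `e : K ≃+* L`. -/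
def finPull930 (e : K ≃+* L) (w : HeightOneSpectrum (𝓞 L)) : HeightOneSpectrum (𝓞 K) :=
  primePull930 (RingOfIntegers.mapRingEquiv e) w

theorem valuation_finPull930 (e : K ≃+* L) (w : HeightOneSpectrum (𝓞 L)) (x : K) :
    w.valuation L (e x) = (finPull930 e w).valuation K x :=
  valuation_primePull930 (RingOfIntegers.mapRingEquiv e) e (fun _ => rfl) w x

/-- `e` as an isomorphism of the valued fields `(K, v_{e⁻¹ w}) → (L, v_w)`. -/
def withValEquiv930 (e : K ≃+* L) (w : HeightOneSpectrum (𝓞 L)) :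
    WithVal ((finPull930 e w).valuation K) ≃+* WithVal (w.valuation L) :=
  WithVal.congr _ _ e

theorem uniformContinuous_withValEquiv930 (e : K ≃+* L) (w : HeightOneSpectrum (𝓞 L)) :
    UniformContinuous (withValEquiv930 e w) :=
  uniformContinuous_congr930 _ _ e (valuation_finPull930 e w)

theorem uniformContinuous_withValEquiv930_symm (e : K ≃+* L) (w : HeightOneSpectrum (𝓞 L)) :
    UniformContinuous (withValEquiv930 e w).symm :=
  uniformContinuous_congr930 _ _ e.symm fun y => by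
    rw [← valuation_finPull930 e w, RingEquiv.apply_symm_apply]

/-- The completion isomorphism `K_{e⁻¹ w} ≃+* L_w` induced by `e`. -/
def finMapEquiv930 (e : K ≃+* L) (w : HeightOneSpectrum (𝓞 L)) :
    (finPull930 e w).adicCompletion K ≃+* w.adicCompletion L :=
  (HeightOneSpectrum.adicCompletion.equiv K (finPull930 e w)).trans
    ((UniformSpace.Completion.mapRingEquiv (withValEquiv930 e w)
      (uniformContinuous_withValEquiv930 e w).continuous
      (uniformContinuous_withValEquiv930_symm e w).continuous).trans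
      (HeightOneSpectrum.adicCompletion.equiv L w).symm)

theorem finMapEquiv930_coe (e : K ≃+* L) (w : HeightOneSpectrum (𝓞 L)) (x : K) :
    finMapEquiv930 e w (x : (finPull930 e w).adicCompletion K) = ((e x : L) : w.adicCompletion L) := by
  apply HeightOneSpectrum.adicCompletion.ext
  exact UniformSpace.Completion.mapRingHom_coe
    (uniformContinuous_withValEquiv930 e w).continuous (WithVal.toVal _ x)

theorem continuous_finMapEquiv930 (e : K ≃+* L) (w : HeightOneSpectrum (𝓞 L)) :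
    Continuous (finMapEquiv930 e w) :=
  (HeightOneSpectrum.adicCompletion.continuous_ofCompletion L w).comp
    (UniformSpace.Completion.continuous_map.comp
      (HeightOneSpectrum.adicCompletion.continuous_toCompletion K (finPull930 e w)))


open scoped WithZeroTopology in
theorem valued_finMapEquiv930 (e : K ≃+* L) (w : HeightOneSpectrum (𝓞 L))
    (x : (finPull930 e w).adicCompletion K) :
    Valued.v (finMapEquiv930 e w x) = Valued.v x := by
  have hc1 : Continuous (Valued.v : w.adicCompletion L → ℤᵐ⁰) :=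
    Valued.continuous_valuation_of_surjective (HeightOneSpectrum.valuedAdicCompletion_surjective L w)
  have hc2 : Continuous (Valued.v : (finPull930 e w).adicCompletion K → ℤᵐ⁰) :=
    Valued.continuous_valuation_of_surjective
      (HeightOneSpectrum.valuedAdicCompletion_surjective K (finPull930 e w))
  have hcl : IsClosed {x : (finPull930 e w).adicCompletion K |
      Valued.v (finMapEquiv930 e w x) = Valued.v x} :=
    isClosed_eq (hc1.comp (continuous_finMapEquiv930 e w)) hc2
  have hd : DenseRange (algebraMap K ((finPull930 e w).adicCompletion K)) :=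
    HeightOneSpectrum.denseRange_algebraMap K (finPull930 e w)
  refine hd.induction_on (p := fun x => Valued.v (finMapEquiv930 e w x) = Valued.v x) x hcl ?_
  intro k
  have h1 : algebraMap K ((finPull930 e w).adicCompletion K) k
      = (k : (finPull930 e w).adicCompletion K) := rfl
  rw [h1, finMapEquiv930_coe, HeightOneSpectrum.adicCompletion.valued_coe,
    HeightOneSpectrum.adicCompletion.valued_coe, valuation_finPull930]

theorem finMapEquiv930_mem_integers (e : K ≃+* L) (w : HeightOneSpectrum (𝓞 L))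
    (x : (finPull930 e w).adicCompletion K) :
    finMapEquiv930 e w x ∈ w.adicCompletionIntegers L ↔
      x ∈ (finPull930 e w).adicCompletionIntegers K := by
  rw [HeightOneSpectrum.mem_adicCompletionIntegers, HeightOneSpectrum.mem_adicCompletionIntegers,
    valued_finMapEquiv930]


omit [NumberField K] [NumberField L] in
theorem finPull930_injective (e : K ≃+* L) : Function.Injective (finPull930 e) :=
  (HeightOneSpectrum.equivOfRingEquiv (RingOfIntegers.mapRingEquiv e)).symm.injective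

omit [NumberField K] [NumberField L] in
theorem tendsto_finPull930 (e : K ≃+* L) :
    Filter.Tendsto (finPull930 e) Filter.cofinite Filter.cofinite :=
  (finPull930_injective e).tendsto_cofinite

/-- The map of finite adele rings induced by `e : K ≃+* L`. -/
def finAdeleHom930 (e : K ≃+* L) : FiniteAdeleRing (𝓞 K) K →+* FiniteAdeleRing (𝓞 L) L :=
  RestrictedProduct.mapAlongRingHom (fun v : HeightOneSpectrum (𝓞 K) => v.adicCompletion K)
    (fun w : HeightOneSpectrum (𝓞 L) => w.adicCompletion L) (finPull930 e) (tendsto_finPull930 e)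
    (fun w => (finMapEquiv930 e w).toRingHom)
    (Filter.Eventually.of_forall fun w x hx => (finMapEquiv930_mem_integers e w x).2 hx)

theorem finAdeleHom930_apply (e : K ≃+* L) (a : FiniteAdeleRing (𝓞 K) K)
    (w : HeightOneSpectrum (𝓞 L)) :
    finAdeleHom930 e a w = finMapEquiv930 e w (a (finPull930 e w)) := rfl

theorem continuous_finAdeleHom930 (e : K ≃+* L) : Continuous (finAdeleHom930 e) :=
  RestrictedProduct.mapAlong_continuous (fun v : HeightOneSpectrum (𝓞 K) => v.adicCompletion K)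
    (fun w : HeightOneSpectrum (𝓞 L) => w.adicCompletion L) (finPull930 e) (tendsto_finPull930 e)
    (fun w => finMapEquiv930 e w)
    (Filter.Eventually.of_forall fun w x hx => (finMapEquiv930_mem_integers e w x).2 hx)
    (fun w => continuous_finMapEquiv930 e w)

theorem finAdeleHom930_algebraMap (e : K ≃+* L) (k : K) :
    finAdeleHom930 e (algebraMap K (FiniteAdeleRing (𝓞 K) K) k)
      = algebraMap L (FiniteAdeleRing (𝓞 L) L) (e k) := by
  refine FiniteAdeleRing.ext L fun w => ?_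
  rw [finAdeleHom930_apply]
  exact finMapEquiv930_coe e w k


/-- Two continuous ring homomorphisms out of `K_{v'}` and `K_v`, `v' = v`, which agree on `K`,
agree on the components of a finite adele. -/
theorem finAdele_apply_eq930 {M : Type*} [TopologicalSpace M] [T2Space M] [Semiring M]
    (v' v : HeightOneSpectrum (𝓞 K)) (h : v' = v)
    (ψ₁ : v'.adicCompletion K →+* M) (ψ₂ : v.adicCompletion K →+* M) (h₁ : Continuous ψ₁)
    (h₂ : Continuous ψ₂)
    (hk : ∀ k : K, ψ₁ (k : v'.adicCompletion K) = ψ₂ (k : v.adicCompletion K))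
    (a : FiniteAdeleRing (𝓞 K) K) : ψ₁ (a v') = ψ₂ (a v) := by
  subst h
  have hd : DenseRange (algebraMap K (v'.adicCompletion K)) :=
    HeightOneSpectrum.denseRange_algebraMap K v'
  have hcl : IsClosed {x : v'.adicCompletion K | ψ₁ x = ψ₂ x} := isClosed_eq h₁ h₂
  exact hd.induction_on (p := fun x => ψ₁ x = ψ₂ x) (a v') hcl hk

/-- A continuous ring homomorphism `K_{v'} → K_v` which is the identity on `K` is the identity
(transported along `v' = v`), evaluated on a finite adele. -/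
theorem finAdele_apply_eq_of_id930 (v' v : HeightOneSpectrum (𝓞 K)) (h : v' = v)
    (ψ : v'.adicCompletion K →+* v.adicCompletion K) (hψ : Continuous ψ)
    (hk : ∀ k : K, ψ (k : v'.adicCompletion K) = (k : v.adicCompletion K))
    (a : FiniteAdeleRing (𝓞 K) K) : ψ (a v') = a v :=
  finAdele_apply_eq930 v' v h ψ (RingHom.id _) hψ continuous_id hk a

theorem finAdeleHom930_symm_apply (e : K ≃+* L) (a : FiniteAdeleRing (𝓞 K) K) :
    finAdeleHom930 e.symm (finAdeleHom930 e a) = a := by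
  refine FiniteAdeleRing.ext K fun v => ?_
  rw [finAdeleHom930_apply, finAdeleHom930_apply]
  refine finAdele_apply_eq_of_id930 (finPull930 e (finPull930 e.symm v)) v ?_
    ((finMapEquiv930 e.symm v).toRingHom.comp (finMapEquiv930 e (finPull930 e.symm v)).toRingHom)
    ((continuous_finMapEquiv930 e.symm v).comp (continuous_finMapEquiv930 e _)) ?_ a
  · exact (HeightOneSpectrum.equivOfRingEquiv (RingOfIntegers.mapRingEquiv e)).symm_apply_apply v
  · intro k
    show finMapEquiv930 e.symm v (finMapEquiv930 e (finPull930 e.symm v) _) = _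
    rw [finMapEquiv930_coe, finMapEquiv930_coe, RingEquiv.symm_apply_apply]

/-- The isomorphism of finite adele rings induced by `e : K ≃+* L`. -/
def finAdeleEquiv930 (e : K ≃+* L) : FiniteAdeleRing (𝓞 K) K ≃+* FiniteAdeleRing (𝓞 L) L :=
  RingEquiv.ofRingHom (finAdeleHom930 e) (finAdeleHom930 e.symm)
    (RingHom.ext fun b => finAdeleHom930_symm_apply e.symm b)
    (RingHom.ext fun a => finAdeleHom930_symm_apply e a)


/-! ## The adele ring -/

/-- The isomorphism of adele rings induced by `e : K ≃+* L`. -/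
def adeleEquiv930 (e : K ≃+* L) : AdeleRing (𝓞 K) K ≃+* AdeleRing (𝓞 L) L :=
  RingEquiv.prodCongr (infAdeleEquiv930 e) (finAdeleEquiv930 e)

theorem adeleEquiv930_fst (e : K ≃+* L) (a : AdeleRing (𝓞 K) K) (w : InfinitePlace L) :
    (adeleEquiv930 e a).1 w = infMapHom930 e w (a.1 (infPull930 e w)) := rfl

theorem adeleEquiv930_snd (e : K ≃+* L) (a : AdeleRing (𝓞 K) K) (w : HeightOneSpectrum (𝓞 L)) :
    (adeleEquiv930 e a).2 w = finMapEquiv930 e w (a.2 (finPull930 e w)) := rfl

theorem adeleEquiv930_symm (e : K ≃+* L) : (adeleEquiv930 e).symm = adeleEquiv930 e.symm := rfl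

theorem adeleEquiv930_symm_apply_apply (e : K ≃+* L) (a : AdeleRing (𝓞 K) K) :
    adeleEquiv930 e.symm (adeleEquiv930 e a) = a :=
  (adeleEquiv930 e).symm_apply_apply a

theorem adeleEquiv930_apply_symm_apply (e : K ≃+* L) (b : AdeleRing (𝓞 L) L) :
    adeleEquiv930 e (adeleEquiv930 e.symm b) = b :=
  (adeleEquiv930 e).apply_symm_apply b

theorem continuous_adeleEquiv930 (e : K ≃+* L) : Continuous (adeleEquiv930 e) :=
  ((continuous_infAdeleHom930 e).comp continuous_fst).prodMk
    ((continuous_finAdeleHom930 e).comp continuous_snd)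

theorem adeleEquiv930_algebraMap (e : K ≃+* L) (k : K) :
    adeleEquiv930 e (algebraMap K (AdeleRing (𝓞 K) K) k)
      = algebraMap L (AdeleRing (𝓞 L) L) (e k) :=
  Prod.ext (infAdeleHom930_algebraMap e k) (finAdeleHom930_algebraMap e k)

/-- `adeleEquiv930 e` as a homeomorphism. -/
def adeleHomeo930 (e : K ≃+* L) : AdeleRing (𝓞 K) K ≃ₜ AdeleRing (𝓞 L) L where
  toEquiv := (adeleEquiv930 e).toEquiv
  continuous_toFun := continuous_adeleEquiv930 e
  continuous_invFun := continuous_adeleEquiv930 e.symm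

theorem adeleHomeo930_apply (e : K ≃+* L) (a : AdeleRing (𝓞 K) K) :
    adeleHomeo930 e a = adeleEquiv930 e a := rfl

/-! ## Functoriality -/

theorem adeleEquiv930_refl (a : AdeleRing (𝓞 K) K) :
    adeleEquiv930 (RingEquiv.refl K) a = a := by
  refine Prod.ext (funext fun w => ?_) (FiniteAdeleRing.ext K fun w => ?_)
  · rw [adeleEquiv930_fst]
    exact infAdele_apply_eq_of_id930 (infPull930 (RingEquiv.refl K) w) w rfl
      (infMapHom930 (RingEquiv.refl K) w) (continuous_infMapHom930 _ w)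
      (fun k => infMapHom930_coe _ w k) a.1
  · rw [adeleEquiv930_snd]
    exact finAdele_apply_eq_of_id930 (finPull930 (RingEquiv.refl K) w) w rfl
      (finMapEquiv930 (RingEquiv.refl K) w).toRingHom (continuous_finMapEquiv930 _ w)
      (fun k => finMapEquiv930_coe _ w k) a.2

variable {M : Type*} [Field M] [NumberField M]

theorem adeleEquiv930_trans (e : K ≃+* L) (f : L ≃+* M) (a : AdeleRing (𝓞 K) K) :
    adeleEquiv930 (e.trans f) a = adeleEquiv930 f (adeleEquiv930 e a) := by
  refine Prod.ext (funext fun w => ?_) (FiniteAdeleRing.ext M fun w => ?_)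
  · rw [adeleEquiv930_fst, adeleEquiv930_fst, adeleEquiv930_fst]
    exact infAdele_apply_eq930 (infPull930 (e.trans f) w) (infPull930 e (infPull930 f w)) rfl
      (infMapHom930 (e.trans f) w)
      ((infMapHom930 f w).comp (infMapHom930 e (infPull930 f w)))
      (continuous_infMapHom930 _ w)
      ((continuous_infMapHom930 f w).comp (continuous_infMapHom930 e _))
      (fun k => by
        rw [infMapHom930_coe, RingHom.comp_apply, infMapHom930_coe, infMapHom930_coe]; rfl) a.1
  · rw [adeleEquiv930_snd, adeleEquiv930_snd, adeleEquiv930_snd]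
    exact finAdele_apply_eq930 (finPull930 (e.trans f) w) (finPull930 e (finPull930 f w)) rfl
      (finMapEquiv930 (e.trans f) w).toRingHom
      ((finMapEquiv930 f w).toRingHom.comp (finMapEquiv930 e (finPull930 f w)).toRingHom)
      (continuous_finMapEquiv930 _ w)
      ((continuous_finMapEquiv930 f w).comp (continuous_finMapEquiv930 e _))
      (fun k => by
        show finMapEquiv930 (e.trans f) w _ = finMapEquiv930 f w (finMapEquiv930 e _ _)
        rw [finMapEquiv930_coe, finMapEquiv930_coe, finMapEquiv930_coe]; rfl) a.2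

/-- The action of the automorphism group of `K` on the adele ring of `K`, as a group
homomorphism `σ ↦ adeleEquiv930 σ`. -/
def adeleAutHom930 : RingAut K →* RingAut (AdeleRing (𝓞 K) K) where
  toFun σ := adeleEquiv930 σ
  map_one' := RingEquiv.ext fun a => adeleEquiv930_refl a
  map_mul' σ τ := RingEquiv.ext fun a => adeleEquiv930_trans τ σ a

theorem adeleAutHom930_apply (σ : RingAut K) (a : AdeleRing (𝓞 K) K) :
    adeleAutHom930 σ a = adeleEquiv930 σ a := rfl

theorem adeleEquiv930_pow (σ : K ≃+* K) (n : ℕ) (a : AdeleRing (𝓞 K) K) :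
    adeleEquiv930 ((σ : RingAut K) ^ n) a = ((adeleEquiv930 σ : RingAut _) ^ n) a := by
  have := map_pow (adeleAutHom930 (K := K)) σ n
  exact congrArg (fun φ : RingAut (AdeleRing (𝓞 K) K) => φ a) this

end numberfield

end Fermat.Agent.LT.T1.H930

end
end
-- ===== PACK-END LT/T1/H930/AdeleAut.lean

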