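import Mathlib
import Fermat.Agent.Pack.LT2.E0L3
import Fermat.Agent.Pack.LT2.E0L2
import Fermat.Agent.Pack.LT2.E0L1
import Fermat.Agent.Pack.S43GC.G0E0L3
import Fermat.Agent.Pack.LT2.E0L0
import Fermat.Agent.Pack.LT2.E1L3

set_option linter.all false

-- ===== PACK-BEGIN LT/H129/Cartan.lean
section


/-!
# Row LT, tower T1 (local algebra), helper129: Cartan decomposition of `GL₂` over a valued field

OFF-MAIN.  Mathlib only.  `cartan129 : GL₂(F) = GL₂(O) · {diag(x, y) : y / x ∈ O} · GL₂(O)` for a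
valuation subring `O` of a field `F` (elementary divisors; no discreteness needed).
-/

set_option autoImplicit false

open Matrix

namespace Fermat.Agent.LT.H129

variable {F : Type*} [Field F]

/-- The diagonal matrix `diag(x, y)` in `GL₂(F)`. -/
noncomputable def diag129 (x y : F) (hx : x ≠ 0) (hy : y ≠ 0) : GL (Fin 2) F :=
  mkGL129 x 0 0 y (by simpa using mul_ne_zero hx hy)

/-- Core of the Cartan decomposition: the `(0,0)` entry divides all entries. -/
theorem cartan_core129 (O : ValuationSubring F) (g : GL (Fin 2) F)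
    (hm : (g : Matrix (Fin 2) (Fin 2) F) 0 0 ≠ 0)
    (h01 : (g : Matrix (Fin 2) (Fin 2) F) 0 1 / (g : Matrix (Fin 2) (Fin 2) F) 0 0 ∈ O)
    (h10 : (g : Matrix (Fin 2) (Fin 2) F) 1 0 / (g : Matrix (Fin 2) (Fin 2) F) 0 0 ∈ O)
    (h11 : (g : Matrix (Fin 2) (Fin 2) F) 1 1 / (g : Matrix (Fin 2) (Fin 2) F) 0 0 ∈ O) :
    ∃ (k₁ k₂ : GL (Fin 2) F) (x y : F) (hx : x ≠ 0) (hy : y ≠ 0),
      IsMaxCpt129 O k₁ ∧ IsMaxCpt129 O k₂ ∧ y / x ∈ O ∧ g = k₁ * diag129 x y hx hy * k₂ := by
  set a : F := (g : Matrix (Fin 2) (Fin 2) F) 0 0 with ha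
  set b : F := (g : Matrix (Fin 2) (Fin 2) F) 0 1 with hb
  set c : F := (g : Matrix (Fin 2) (Fin 2) F) 1 0 with hc
  set d : F := (g : Matrix (Fin 2) (Fin 2) F) 1 1 with hd
  have hdet : a * d - b * c ≠ 0 := det_ne_zero129 g
  have hy : d - c * b / a ≠ 0 := by
    intro h
    apply hdet
    have : a * d - b * c = a * (d - c * b / a) := by field_simp
    rw [this, h, mul_zero]
  refine ⟨lowerU129 (c / a), upperU129 (b / a), a, d - c * b / a, hm, hy,
    isMaxCpt129_lowerU h10, isMaxCpt129_upperU h01, ?_, ?_⟩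
  · have : (d - c * b / a) / a = d / a - (c / a) * (b / a) := by field_simp
    rw [this]
    exact sub_mem h11 (O.mul_mem _ _ h10 h01)
  · apply ext_mat129
    rw [eta129 g]
    simp only [upperU129, lowerU129, diag129, Matrix.GeneralLinearGroup.coe_mul, coe_mkGL129]
    rw [← ha, ← hb, ← hc, ← hd]
    ext i j
    fin_cases i <;> fin_cases j <;> simp [Matrix.mul_apply, Fin.sum_univ_two]
    all_goals field_simp
    all_goals ring

theorem weyl129_mul_self : (weyl129 : GL (Fin 2) F) * weyl129 = 1 := by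
  rw [← inv_eq_iff_mul_eq_one]; exact weyl129_inv

theorem coe_mul_weyl129 (g : GL (Fin 2) F) :
    ((g * weyl129 : GL (Fin 2) F) : Matrix (Fin 2) (Fin 2) F)
      = !![g 0 1, g 0 0; g 1 1, g 1 0] := by
  rw [Matrix.GeneralLinearGroup.coe_mul]
  conv_lhs => rw [eta129 g]
  simp only [weyl129, coe_mkGL129]
  ext i j
  fin_cases i <;> fin_cases j <;> simp [Matrix.mul_apply, Fin.sum_univ_two]

theorem coe_weyl129_mul (g : GL (Fin 2) F) :
    ((weyl129 * g : GL (Fin 2) F) : Matrix (Fin 2) (Fin 2) F)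
      = !![g 1 0, g 1 1; g 0 0, g 0 1] := by
  rw [Matrix.GeneralLinearGroup.coe_mul]
  conv_lhs => rw [eta129 g]
  simp only [weyl129, coe_mkGL129]
  ext i j
  fin_cases i <;> fin_cases j <;> simp [Matrix.mul_apply, Fin.sum_univ_two]

/-- Transport of a Cartan decomposition along left and right multiplication by `GL₂(O)`. -/
theorem cartan_transport129 (O : ValuationSubring F) (g u v : GL (Fin 2) F)
    (hu : IsMaxCpt129 O u) (hv : IsMaxCpt129 O v)
    (H : ∃ (k₁ k₂ : GL (Fin 2) F) (x y : F) (hx : x ≠ 0) (hy : y ≠ 0),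
      IsMaxCpt129 O k₁ ∧ IsMaxCpt129 O k₂ ∧ y / x ∈ O ∧ u * g * v = k₁ * diag129 x y hx hy * k₂) :
    ∃ (k₁ k₂ : GL (Fin 2) F) (x y : F) (hx : x ≠ 0) (hy : y ≠ 0),
      IsMaxCpt129 O k₁ ∧ IsMaxCpt129 O k₂ ∧ y / x ∈ O ∧ g = k₁ * diag129 x y hx hy * k₂ := by
  obtain ⟨k₁, k₂, x, y, hx, hy, h1, h2, hxy, h⟩ := H
  refine ⟨u⁻¹ * k₁, k₂ * v⁻¹, x, y, hx, hy, isMaxCpt129_mul (isMaxCpt129_inv hu) h1,
    isMaxCpt129_mul h2 (isMaxCpt129_inv hv), hxy, ?_⟩
  have : g = u⁻¹ * (u * g * v) * v⁻¹ := by group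
  rw [this, h]
  group

/-- **Cartan decomposition** `GL₂(F) = GL₂(O) · {diag(x, y) : y / x ∈ O} · GL₂(O)`. -/
theorem cartan129 (O : ValuationSubring F) (g : GL (Fin 2) F) :
    ∃ (k₁ k₂ : GL (Fin 2) F) (x y : F) (hx : x ≠ 0) (hy : y ≠ 0),
      IsMaxCpt129 O k₁ ∧ IsMaxCpt129 O k₂ ∧ y / x ∈ O ∧ g = k₁ * diag129 x y hx hy * k₂ := by
  classical
  -- an entry of maximal valuation
  obtain ⟨⟨i₀, j₀⟩, -, hmax⟩ := Finset.exists_max_image (Finset.univ : Finset (Fin 2 × Fin 2))
    (fun p => O.valuation ((g : Matrix (Fin 2) (Fin 2) F) p.1 p.2)) ⟨(0, 0), Finset.mem_univ _⟩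
  have hmax' : ∀ i j, O.valuation ((g : Matrix (Fin 2) (Fin 2) F) i j)
      ≤ O.valuation ((g : Matrix (Fin 2) (Fin 2) F) i₀ j₀) :=
    fun i j => hmax (i, j) (Finset.mem_univ _)
  have hm : (g : Matrix (Fin 2) (Fin 2) F) i₀ j₀ ≠ 0 := by
    intro h0
    have hz : ∀ i j, (g : Matrix (Fin 2) (Fin 2) F) i j = 0 := by
      intro i j
      have := hmax' i j
      rw [h0, map_zero, le_zero_iff, map_eq_zero] at this
      exact this
    exact det_ne_zero129 g (by rw [hz 0 0, hz 0 1]; simp)
  have hdiv : ∀ i j, (g : Matrix (Fin 2) (Fin 2) F) i j / (g : Matrix (Fin 2) (Fin 2) F) i₀ j₀ ∈ O := by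
    intro i j
    rw [← ValuationSubring.valuation_le_one_iff, map_div₀]
    exact div_le_one_of_le₀ (hmax' i j) zero_le
  -- move the entry to position `(0,0)`
  fin_cases i₀ <;> fin_cases j₀
  · exact cartan_core129 O g hm (hdiv 0 1) (hdiv 1 0) (hdiv 1 1)
  · refine cartan_transport129 O g 1 weyl129 (isMaxCpt129_one O) (isMaxCpt129_weyl O) ?_
    rw [one_mul]
    apply cartan_core129 O (g * weyl129)
    all_goals rw [coe_mul_weyl129]
    · simpa using hm
    · simpa using hdiv 0 0
    · simpa using hdiv 1 1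
    · simpa using hdiv 1 0
  · refine cartan_transport129 O g weyl129 1 (isMaxCpt129_weyl O) (isMaxCpt129_one O) ?_
    rw [mul_one]
    apply cartan_core129 O (weyl129 * g)
    all_goals rw [coe_weyl129_mul]
    · simpa using hm
    · simpa using hdiv 1 1
    · simpa using hdiv 0 0
    · simpa using hdiv 0 1
  · refine cartan_transport129 O g weyl129 weyl129 (isMaxCpt129_weyl O) (isMaxCpt129_weyl O) ?_
    apply cartan_core129 O (weyl129 * g * weyl129)
    all_goals rw [coe_mul_weyl129, coe_weyl129_mul]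
    · simpa using hm
    · simpa using hdiv 1 0
    · simpa using hdiv 0 1
    · simpa using hdiv 0 0

end Fermat.Agent.LT.H129

end
-- ===== PACK-END LT/H129/Cartan.lean

-- ===== PACK-BEGIN LT/T8/H864/Local.lean
section



/-!
# Row LT, tower T8 (leaf MS-EVEN), sub-leaf MS2 (helper864): local elements of `GL₂(𝔸_K)`

OFF-MAIN.  On `Fermat/Agent/LT/H556/A0.lean` (helper556) verbatim.

* `evInf w`, `evFin v`: the evaluation ring homomorphisms of the adele ring at a place;
  `matA_ext`: a matrix over the adeles is determined by its components.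
* `locFin v : GL₂(K_v) →* GL₂(𝔸_K)`, `locInf w : GL₂(K_w) →* GL₂(𝔸_K)`: the element with the given
  component at ONE place and the identity at all other places; components (`finComp`, `infComp`),
  `IsLocalAtFin`, `IsLocalAtInf`, `TrivAtFin`, `TrivAtInf`, `IsIntegralAt`.
* elements at different places commute.
-/

set_option autoImplicit false
set_option linter.unusedSectionVars false

open IsDedekindDomain NumberField
open scoped MatrixGroups Classical

noncomputable section

namespace Fermat.Agent.LT.T8.H864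

open Fermat.Agent.LT.H556.A0

variable {K : Type} [Field K] [NumberField K]

/-! ## Evaluation at a place -/

/-- Evaluation of an adele at the infinite place `w`. -/
def evInf (w : InfinitePlace K) : Adl K →+* w.Completion where
  toFun x := x.1 w
  map_one' := rfl
  map_mul' _ _ := rfl
  map_zero' := rfl
  map_add' _ _ := rfl

/-- Evaluation of an adele at the finite place `v`. -/
def evFin (v : HeightOneSpectrum (𝓞 K)) : Adl K →+* v.adicCompletion K where
  toFun x := x.2 v
  map_one' := rfl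
  map_mul' _ _ := rfl
  map_zero' := rfl
  map_add' _ _ := rfl

@[simp] theorem evInf_apply (w : InfinitePlace K) (x : Adl K) : evInf w x = x.1 w := rfl

@[simp] theorem evFin_apply (v : HeightOneSpectrum (𝓞 K)) (x : Adl K) : evFin v x = x.2 v := rfl

/-- An adele is determined by its components. -/
theorem adl_ext {x y : Adl K} (hinf : ∀ w : InfinitePlace K, evInf w x = evInf w y)
    (hfin : ∀ v : HeightOneSpectrum (𝓞 K), evFin v x = evFin v y) : x = y := by
  refine Prod.ext (funext hinf) ?_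
  exact FiniteAdeleRing.ext K hfin

/-- A matrix over the adeles is determined by its components. -/
theorem matA_ext {A B : Matrix (Fin 2) (Fin 2) (Adl K)}
    (hinf : ∀ w : InfinitePlace K, A.map (evInf w) = B.map (evInf w))
    (hfin : ∀ v : HeightOneSpectrum (𝓞 K), A.map (evFin v) = B.map (evFin v)) : A = B := by
  ext i j : 1
  refine adl_ext (fun w => ?_) (fun v => ?_)
  · simpa using congrFun (congrFun (hinf w) i) j
  · simpa using congrFun (congrFun (hfin v) i) j

theorem finComp_eq_map (v : HeightOneSpectrum (𝓞 K)) (g : G K) :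
    finComp v g = (g : Matrix (Fin 2) (Fin 2) (Adl K)).map (evFin v) := rfl

theorem trivAtInf_iff (w : InfinitePlace K) (g : G K) :
    TrivAtInf w g ↔ (g : Matrix (Fin 2) (Fin 2) (Adl K)).map (evInf w) = 1 := by
  constructor
  · intro h
    exact Matrix.ext fun i j => h i j
  · intro h i j
    exact congrFun (congrFun h i) j

theorem trivAtFin_iff (v : HeightOneSpectrum (𝓞 K)) (g : G K) :
    TrivAtFin v g ↔ (g : Matrix (Fin 2) (Fin 2) (Adl K)).map (evFin v) = 1 := Iff.rfl


/-! ## The element with a given component at one finite place -/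

theorem one_apply_mem_integers (v : HeightOneSpectrum (𝓞 K)) (i j : Fin 2) :
    (1 : Matrix (Fin 2) (Fin 2) (v.adicCompletion K)) i j ∈ v.adicCompletionIntegers K := by
  by_cases h : i = j
  · rw [h, Matrix.one_apply_eq]; exact one_mem _
  · rw [Matrix.one_apply_ne h]; exact zero_mem _

/-- The finite adele with component `x` at `v` and the `(i, j)` entry of the identity matrix at
all other finite places. -/
def finEntry (v : HeightOneSpectrum (𝓞 K)) (i j : Fin 2) (x : v.adicCompletion K) :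
    FiniteAdeleRing (𝓞 K) K :=
  ⟨Function.update
      (fun v' : HeightOneSpectrum (𝓞 K) => (1 : Matrix (Fin 2) (Fin 2) (v'.adicCompletion K)) i j)
      v x, by
    rw [Filter.eventually_cofinite]
    refine (Set.finite_singleton v).subset fun v' hv' => ?_
    by_contra hne
    apply hv'
    have hne' : v' ≠ v := hne
    simp only [Function.update_of_ne hne']
    exact one_apply_mem_integers v' i j⟩

theorem finEntry_self (v : HeightOneSpectrum (𝓞 K)) (i j : Fin 2) (x : v.adicCompletion K) :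
    finEntry v i j x v = x := by
  exact Function.update_self v x
    (fun v' : HeightOneSpectrum (𝓞 K) => (1 : Matrix (Fin 2) (Fin 2) (v'.adicCompletion K)) i j)

theorem finEntry_of_ne {v v' : HeightOneSpectrum (𝓞 K)} (h : v' ≠ v) (i j : Fin 2)
    (x : v.adicCompletion K) :
    finEntry v i j x v' = (1 : Matrix (Fin 2) (Fin 2) (v'.adicCompletion K)) i j := by
  exact Function.update_of_ne h x
    (fun v' : HeightOneSpectrum (𝓞 K) => (1 : Matrix (Fin 2) (Fin 2) (v'.adicCompletion K)) i j)

/-- The matrix over the adeles with component `m` at the finite place `v` and the identity at all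
other places. -/
def locFinMat (v : HeightOneSpectrum (𝓞 K)) (m : Matrix (Fin 2) (Fin 2) (v.adicCompletion K)) :
    Matrix (Fin 2) (Fin 2) (Adl K) :=
  Matrix.of fun i j =>
    (((fun w : InfinitePlace K => (1 : Matrix (Fin 2) (Fin 2) w.Completion) i j), finEntry v i j (m i j)) :
      Adl K)

theorem locFinMat_map_evInf (v : HeightOneSpectrum (𝓞 K))
    (m : Matrix (Fin 2) (Fin 2) (v.adicCompletion K)) (w : InfinitePlace K) :
    (locFinMat v m).map (evInf w) = 1 := by
  refine Matrix.ext fun i j => ?_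
  rfl

theorem locFinMat_map_evFin_self (v : HeightOneSpectrum (𝓞 K))
    (m : Matrix (Fin 2) (Fin 2) (v.adicCompletion K)) :
    (locFinMat v m).map (evFin v) = m := by
  refine Matrix.ext fun i j => ?_
  exact finEntry_self v i j (m i j)

theorem locFinMat_map_evFin_of_ne {v v' : HeightOneSpectrum (𝓞 K)} (h : v' ≠ v)
    (m : Matrix (Fin 2) (Fin 2) (v.adicCompletion K)) :
    (locFinMat v m).map (evFin v') = 1 := by
  refine Matrix.ext fun i j => ?_
  exact finEntry_of_ne h i j (m i j)

theorem locFinMat_one (v : HeightOneSpectrum (𝓞 K)) : locFinMat v (1 : Matrix (Fin 2) (Fin 2) _) = 1 := by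
  refine matA_ext (fun w => ?_) (fun v' => ?_)
  · rw [locFinMat_map_evInf, Matrix.map_one _ (map_zero _) (map_one _)]
  · rw [Matrix.map_one _ (map_zero _) (map_one _)]
    by_cases h : v' = v
    · subst h; rw [locFinMat_map_evFin_self]
    · rw [locFinMat_map_evFin_of_ne h]

theorem locFinMat_mul (v : HeightOneSpectrum (𝓞 K))
    (m m' : Matrix (Fin 2) (Fin 2) (v.adicCompletion K)) :
    locFinMat v (m * m') = locFinMat v m * locFinMat v m' := by
  refine matA_ext (fun w => ?_) (fun v' => ?_)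
  · rw [Matrix.map_mul, locFinMat_map_evInf, locFinMat_map_evInf, locFinMat_map_evInf, one_mul]
  · rw [Matrix.map_mul]
    by_cases h : v' = v
    · subst h; rw [locFinMat_map_evFin_self, locFinMat_map_evFin_self, locFinMat_map_evFin_self]
    · rw [locFinMat_map_evFin_of_ne h, locFinMat_map_evFin_of_ne h, locFinMat_map_evFin_of_ne h,
        one_mul]

/-- `locFinMat v` as a monoid homomorphism. -/
def locFinMatHom (v : HeightOneSpectrum (𝓞 K)) :
    Matrix (Fin 2) (Fin 2) (v.adicCompletion K) →* Matrix (Fin 2) (Fin 2) (Adl K) where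
  toFun := locFinMat v
  map_one' := locFinMat_one v
  map_mul' := locFinMat_mul v

/-- **The local element at a finite place**: the element of `GL₂(𝔸_K)` with component `m` at `v`
and the identity at all other places. -/
def locFin (v : HeightOneSpectrum (𝓞 K)) : GL (Fin 2) (v.adicCompletion K) →* G K :=
  Units.map (locFinMatHom v)

theorem coe_locFin (v : HeightOneSpectrum (𝓞 K)) (m : GL (Fin 2) (v.adicCompletion K)) :
    ((locFin v m : G K) : Matrix (Fin 2) (Fin 2) (Adl K)) =
      locFinMat v (m : Matrix (Fin 2) (Fin 2) (v.adicCompletion K)) := rfl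

theorem finComp_locFin_self (v : HeightOneSpectrum (𝓞 K)) (m : GL (Fin 2) (v.adicCompletion K)) :
    finComp v (locFin v m) = (m : Matrix (Fin 2) (Fin 2) (v.adicCompletion K)) := by
  rw [finComp_eq_map, coe_locFin, locFinMat_map_evFin_self]

theorem finComp_locFin_of_ne {v v' : HeightOneSpectrum (𝓞 K)} (h : v' ≠ v)
    (m : GL (Fin 2) (v.adicCompletion K)) : finComp v' (locFin v m) = 1 := by
  rw [finComp_eq_map, coe_locFin, locFinMat_map_evFin_of_ne h]

theorem trivAtInf_locFin (v : HeightOneSpectrum (𝓞 K)) (m : GL (Fin 2) (v.adicCompletion K))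
    (w : InfinitePlace K) : TrivAtInf w (locFin v m) := by
  rw [trivAtInf_iff, coe_locFin, locFinMat_map_evInf]

theorem trivAtFin_locFin_of_ne {v v' : HeightOneSpectrum (𝓞 K)} (h : v' ≠ v)
    (m : GL (Fin 2) (v.adicCompletion K)) : TrivAtFin v' (locFin v m) :=
  finComp_locFin_of_ne h m

/-- `locFin v m` is supported at `v`. -/
theorem isLocalAtFin_locFin (v : HeightOneSpectrum (𝓞 K)) (m : GL (Fin 2) (v.adicCompletion K)) :
    IsLocalAtFin v (locFin v m) :=
  ⟨fun w => trivAtInf_locFin v m w, fun _ h => trivAtFin_locFin_of_ne h m⟩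

theorem isIntegralAt_locFin_iff (v : HeightOneSpectrum (𝓞 K))
    (m : GL (Fin 2) (v.adicCompletion K)) :
    IsIntegralAt v (locFin v m) ↔
      ∀ i j, (m : Matrix (Fin 2) (Fin 2) (v.adicCompletion K)) i j ∈ v.adicCompletionIntegers K := by
  unfold IsIntegralAt
  rw [finComp_locFin_self]


/-! ## The element with a given component at one infinite place -/

/-- The infinite adele with component `x` at `w` and the `(i, j)` entry of the identity matrix at
all other infinite places. -/
def infEntry (w : InfinitePlace K) (i j : Fin 2) (x : w.Completion) : InfiniteAdeleRing K :=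
  Function.update
    (fun w' : InfinitePlace K => (1 : Matrix (Fin 2) (Fin 2) w'.Completion) i j) w x

theorem infEntry_self (w : InfinitePlace K) (i j : Fin 2) (x : w.Completion) :
    infEntry w i j x w = x :=
  Function.update_self w x
    (fun w' : InfinitePlace K => (1 : Matrix (Fin 2) (Fin 2) w'.Completion) i j)

theorem infEntry_of_ne {w w' : InfinitePlace K} (h : w' ≠ w) (i j : Fin 2) (x : w.Completion) :
    infEntry w i j x w' = (1 : Matrix (Fin 2) (Fin 2) w'.Completion) i j :=
  Function.update_of_ne h x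
    (fun w' : InfinitePlace K => (1 : Matrix (Fin 2) (Fin 2) w'.Completion) i j)

/-- The finite adele whose components are the `(i, j)` entries of the identity matrices. -/
def finOne (i j : Fin 2) : FiniteAdeleRing (𝓞 K) K :=
  ⟨fun v : HeightOneSpectrum (𝓞 K) => (1 : Matrix (Fin 2) (Fin 2) (v.adicCompletion K)) i j,
    Filter.Eventually.of_forall fun v => one_apply_mem_integers v i j⟩

/-- The matrix over the adeles with component `m` at the infinite place `w` and the identity at
all other places. -/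
def locInfMat (w : InfinitePlace K) (m : Matrix (Fin 2) (Fin 2) w.Completion) :
    Matrix (Fin 2) (Fin 2) (Adl K) :=
  Matrix.of fun i j => ((infEntry w i j (m i j), finOne i j) : Adl K)

theorem locInfMat_map_evFin (w : InfinitePlace K) (m : Matrix (Fin 2) (Fin 2) w.Completion)
    (v : HeightOneSpectrum (𝓞 K)) : (locInfMat w m).map (evFin v) = 1 := by
  refine Matrix.ext fun i j => ?_
  rfl

theorem locInfMat_map_evInf_self (w : InfinitePlace K) (m : Matrix (Fin 2) (Fin 2) w.Completion) :
    (locInfMat w m).map (evInf w) = m := by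
  refine Matrix.ext fun i j => ?_
  exact infEntry_self w i j (m i j)

theorem locInfMat_map_evInf_of_ne {w w' : InfinitePlace K} (h : w' ≠ w)
    (m : Matrix (Fin 2) (Fin 2) w.Completion) : (locInfMat w m).map (evInf w') = 1 := by
  refine Matrix.ext fun i j => ?_
  exact infEntry_of_ne h i j (m i j)

theorem locInfMat_one (w : InfinitePlace K) :
    locInfMat w (1 : Matrix (Fin 2) (Fin 2) w.Completion) = 1 := by
  refine matA_ext (fun w' => ?_) (fun v => ?_)
  · rw [Matrix.map_one _ (map_zero _) (map_one _)]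
    by_cases h : w' = w
    · subst h; rw [locInfMat_map_evInf_self]
    · rw [locInfMat_map_evInf_of_ne h]
  · rw [locInfMat_map_evFin, Matrix.map_one _ (map_zero _) (map_one _)]

theorem locInfMat_mul (w : InfinitePlace K) (m m' : Matrix (Fin 2) (Fin 2) w.Completion) :
    locInfMat w (m * m') = locInfMat w m * locInfMat w m' := by
  refine matA_ext (fun w' => ?_) (fun v => ?_)
  · rw [Matrix.map_mul]
    by_cases h : w' = w
    · subst h; rw [locInfMat_map_evInf_self, locInfMat_map_evInf_self, locInfMat_map_evInf_self]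
    · rw [locInfMat_map_evInf_of_ne h, locInfMat_map_evInf_of_ne h, locInfMat_map_evInf_of_ne h,
        one_mul]
  · rw [Matrix.map_mul, locInfMat_map_evFin, locInfMat_map_evFin, locInfMat_map_evFin, one_mul]

/-- `locInfMat w` as a monoid homomorphism. -/
def locInfMatHom (w : InfinitePlace K) :
    Matrix (Fin 2) (Fin 2) w.Completion →* Matrix (Fin 2) (Fin 2) (Adl K) where
  toFun := locInfMat w
  map_one' := locInfMat_one w
  map_mul' := locInfMat_mul w

/-- **The local element at an infinite place**: the element of `GL₂(𝔸_K)` with component `m` at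
`w` and the identity at all other places. -/
def locInf (w : InfinitePlace K) : GL (Fin 2) w.Completion →* G K :=
  Units.map (locInfMatHom w)

theorem coe_locInf (w : InfinitePlace K) (m : GL (Fin 2) w.Completion) :
    ((locInf w m : G K) : Matrix (Fin 2) (Fin 2) (Adl K)) =
      locInfMat w (m : Matrix (Fin 2) (Fin 2) w.Completion) := rfl

theorem infComp_eq_map (w : InfinitePlace K) (g : G K) :
    infComp w g = ((g : Matrix (Fin 2) (Fin 2) (Adl K)).map (evInf w)).map
      (InfinitePlace.Completion.extensionEmbedding w) := rfl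

theorem infComp_locInf_self (w : InfinitePlace K) (m : GL (Fin 2) w.Completion) :
    infComp w (locInf w m) = (m : Matrix (Fin 2) (Fin 2) w.Completion).map
      (InfinitePlace.Completion.extensionEmbedding w) := by
  rw [infComp_eq_map, coe_locInf, locInfMat_map_evInf_self]

theorem trivAtFin_locInf (w : InfinitePlace K) (m : GL (Fin 2) w.Completion)
    (v : HeightOneSpectrum (𝓞 K)) : TrivAtFin v (locInf w m) := by
  rw [trivAtFin_iff, coe_locInf, locInfMat_map_evFin]

theorem trivAtInf_locInf_of_ne {w w' : InfinitePlace K} (h : w' ≠ w)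
    (m : GL (Fin 2) w.Completion) : TrivAtInf w' (locInf w m) := by
  rw [trivAtInf_iff, coe_locInf, locInfMat_map_evInf_of_ne h]

/-- `locInf w m` is supported at `w`. -/
theorem isLocalAtInf_locInf (w : InfinitePlace K) (m : GL (Fin 2) w.Completion) :
    IsLocalAtInf w (locInf w m) :=
  ⟨fun _ h => trivAtInf_locInf_of_ne h m, fun v => trivAtFin_locInf w m v⟩


/-! ## Components as group homomorphisms -/

/-- The component at the finite place `v`, as a group homomorphism. -/
def finCompHom (v : HeightOneSpectrum (𝓞 K)) : G K →* GL (Fin 2) (v.adicCompletion K) :=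
  Matrix.GeneralLinearGroup.map (evFin v)

/-- The component at the infinite place `w` (with values in the completion), as a group
homomorphism. -/
def infCompHom (w : InfinitePlace K) : G K →* GL (Fin 2) w.Completion :=
  Matrix.GeneralLinearGroup.map (evInf w)

theorem coe_finCompHom (v : HeightOneSpectrum (𝓞 K)) (g : G K) :
    ((finCompHom v g : GL (Fin 2) (v.adicCompletion K)) :
      Matrix (Fin 2) (Fin 2) (v.adicCompletion K)) = finComp v g := rfl

theorem coe_infCompHom (w : InfinitePlace K) (g : G K) :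
    ((infCompHom w g : GL (Fin 2) w.Completion) : Matrix (Fin 2) (Fin 2) w.Completion) =
      (g : Matrix (Fin 2) (Fin 2) (Adl K)).map (evInf w) := rfl

theorem infComp_eq_infCompHom (w : InfinitePlace K) (g : G K) :
    infComp w g = ((infCompHom w g : GL (Fin 2) w.Completion) :
      Matrix (Fin 2) (Fin 2) w.Completion).map (InfinitePlace.Completion.extensionEmbedding w) :=
  rfl

theorem finComp_mul (v : HeightOneSpectrum (𝓞 K)) (g g' : G K) :
    finComp v (g * g') = finComp v g * finComp v g' := by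
  rw [← coe_finCompHom, map_mul]; rfl

theorem finComp_one (v : HeightOneSpectrum (𝓞 K)) : finComp v (1 : G K) = 1 := by
  rw [← coe_finCompHom, map_one]; rfl

theorem infComp_mul (w : InfinitePlace K) (g g' : G K) :
    infComp w (g * g') = infComp w g * infComp w g' := by
  rw [infComp_eq_infCompHom, map_mul, Matrix.GeneralLinearGroup.coe_mul, Matrix.map_mul]
  rfl

theorem infComp_one (w : InfinitePlace K) : infComp w (1 : G K) = 1 := by
  rw [infComp_eq_infCompHom, map_one, Matrix.GeneralLinearGroup.coe_one,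
    Matrix.map_one _ (map_zero _) (map_one _)]

theorem trivAtFin_iff_hom (v : HeightOneSpectrum (𝓞 K)) (g : G K) :
    TrivAtFin v g ↔ finCompHom v g = 1 := by
  rw [Units.ext_iff, coe_finCompHom]; rfl

theorem trivAtInf_iff_hom (w : InfinitePlace K) (g : G K) :
    TrivAtInf w g ↔ infCompHom w g = 1 := by
  rw [trivAtInf_iff, Units.ext_iff, coe_infCompHom]; rfl

/-- An element of `GL₂(𝔸_K)` is determined by its components. -/
theorem G_ext {g g' : G K} (hinf : ∀ w : InfinitePlace K, infCompHom w g = infCompHom w g')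
    (hfin : ∀ v : HeightOneSpectrum (𝓞 K), finCompHom v g = finCompHom v g') : g = g' := by
  refine Units.ext (matA_ext (fun w => ?_) (fun v => ?_))
  · have := congrArg (fun x : GL (Fin 2) w.Completion =>
      (x : Matrix (Fin 2) (Fin 2) w.Completion)) (hinf w)
    exact this
  · have := congrArg (fun x : GL (Fin 2) (v.adicCompletion K) =>
      (x : Matrix (Fin 2) (Fin 2) (v.adicCompletion K))) (hfin v)
    exact this

@[simp] theorem finCompHom_locFin_self (v : HeightOneSpectrum (𝓞 K))
    (m : GL (Fin 2) (v.adicCompletion K)) : finCompHom v (locFin v m) = m :=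
  Units.ext (finComp_locFin_self v m)

theorem finCompHom_locFin_of_ne {v v' : HeightOneSpectrum (𝓞 K)} (h : v' ≠ v)
    (m : GL (Fin 2) (v.adicCompletion K)) : finCompHom v' (locFin v m) = 1 :=
  Units.ext (finComp_locFin_of_ne h m)

@[simp] theorem infCompHom_locFin (v : HeightOneSpectrum (𝓞 K))
    (m : GL (Fin 2) (v.adicCompletion K)) (w : InfinitePlace K) :
    infCompHom w (locFin v m) = 1 :=
  (trivAtInf_iff_hom w _).1 (trivAtInf_locFin v m w)

@[simp] theorem infCompHom_locInf_self (w : InfinitePlace K) (m : GL (Fin 2) w.Completion) :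
    infCompHom w (locInf w m) = m :=
  Units.ext (by rw [coe_infCompHom, coe_locInf, locInfMat_map_evInf_self])

theorem infCompHom_locInf_of_ne {w w' : InfinitePlace K} (h : w' ≠ w)
    (m : GL (Fin 2) w.Completion) : infCompHom w' (locInf w m) = 1 :=
  (trivAtInf_iff_hom w' _).1 (trivAtInf_locInf_of_ne h m)

@[simp] theorem finCompHom_locInf (w : InfinitePlace K) (m : GL (Fin 2) w.Completion)
    (v : HeightOneSpectrum (𝓞 K)) : finCompHom v (locInf w m) = 1 :=
  (trivAtFin_iff_hom v _).1 (trivAtFin_locInf w m v)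

/-- Two elements such that at every place one of them is trivial commute. -/
theorem commute_of_triv {g g' : G K}
    (hinf : ∀ w : InfinitePlace K, infCompHom w g = 1 ∨ infCompHom w g' = 1)
    (hfin : ∀ v : HeightOneSpectrum (𝓞 K), finCompHom v g = 1 ∨ finCompHom v g' = 1) :
    g * g' = g' * g := by
  refine G_ext (fun w => ?_) (fun v => ?_)
  · rw [map_mul, map_mul]
    rcases hinf w with h | h <;> rw [h] <;> simp
  · rw [map_mul, map_mul]
    rcases hfin v with h | h <;> rw [h] <;> simp

/-- An element at a finite place commutes with an element at an infinite place. -/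
theorem locFin_mul_locInf (v : HeightOneSpectrum (𝓞 K)) (m : GL (Fin 2) (v.adicCompletion K))
    (w : InfinitePlace K) (m' : GL (Fin 2) w.Completion) :
    locFin v m * locInf w m' = locInf w m' * locFin v m :=
  commute_of_triv (fun _ => Or.inl (infCompHom_locFin v m _))
    (fun _ => Or.inr (finCompHom_locInf w m' _))

/-- Elements at two different finite places commute. -/
theorem locFin_mul_locFin_of_ne {v v' : HeightOneSpectrum (𝓞 K)} (h : v' ≠ v)
    (m : GL (Fin 2) (v.adicCompletion K)) (m' : GL (Fin 2) (v'.adicCompletion K)) :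
    locFin v m * locFin v' m' = locFin v' m' * locFin v m := by
  refine commute_of_triv (fun _ => Or.inl (infCompHom_locFin v m _)) (fun v'' => ?_)
  by_cases h' : v'' = v
  · subst h'
    exact Or.inr (finCompHom_locFin_of_ne (Ne.symm h) m')
  · exact Or.inl (finCompHom_locFin_of_ne h' m)

/-- An element trivial at `v` commutes with every element at `v`. -/
theorem mul_locFin_comm_of_trivAtFin {v : HeightOneSpectrum (𝓞 K)} {g : G K}
    (hg : TrivAtFin v g) (m : GL (Fin 2) (v.adicCompletion K)) :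
    g * locFin v m = locFin v m * g := by
  refine commute_of_triv (fun _ => Or.inr (infCompHom_locFin v m _)) (fun v' => ?_)
  by_cases h' : v' = v
  · subst h'
    exact Or.inl ((trivAtFin_iff_hom _ g).1 hg)
  · exact Or.inr (finCompHom_locFin_of_ne h' m)

/-- An element trivial at `w` commutes with every element at `w`. -/
theorem mul_locInf_comm_of_trivAtInf {w : InfinitePlace K} {g : G K}
    (hg : TrivAtInf w g) (m : GL (Fin 2) w.Completion) :
    g * locInf w m = locInf w m * g := by
  refine commute_of_triv (fun w' => ?_) (fun _ => Or.inr (finCompHom_locInf w m _))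
  by_cases h' : w' = w
  · subst h'
    exact Or.inl ((trivAtInf_iff_hom _ g).1 hg)
  · exact Or.inr (infCompHom_locInf_of_ne h' m)

/-! ## The diagonal embedding of `GL₂(K)` -/

/-- The diagonal embedding `GL₂(K) → GL₂(𝔸_K)` (the one of `A0.IsSph0CuspFormFor.left_inv`). -/
def diagG : GL (Fin 2) K →* G K :=
  Matrix.GeneralLinearGroup.map (algebraMap K (Adl K))

theorem diagG_apply (γ : GL (Fin 2) K) :
    diagG γ = Matrix.GeneralLinearGroup.map (algebraMap K (Adl K)) γ := rfl

theorem finCompHom_diagG (v : HeightOneSpectrum (𝓞 K)) (γ : GL (Fin 2) K) :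
    finCompHom v (diagG γ) =
      Matrix.GeneralLinearGroup.map (algebraMap K (v.adicCompletion K)) γ := by
  refine Units.ext (Matrix.ext fun i j => ?_)
  rfl

theorem infCompHom_diagG (w : InfinitePlace K) (γ : GL (Fin 2) K) :
    infCompHom w (diagG γ) = Matrix.GeneralLinearGroup.map (algebraMap K w.Completion) γ := by
  refine Units.ext (Matrix.ext fun i j => ?_)
  rfl


/-! ## Local elements from matrices over `K` and, at a real place, over `ℝ` -/

/-- The local element at the finite place `v` given by a matrix with entries in `K`. -/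
def locFinK (v : HeightOneSpectrum (𝓞 K)) : GL (Fin 2) K →* G K :=
  (locFin v).comp (Matrix.GeneralLinearGroup.map (algebraMap K (v.adicCompletion K)))

theorem locFinK_apply (v : HeightOneSpectrum (𝓞 K)) (γ : GL (Fin 2) K) :
    locFinK v γ = locFin v (Matrix.GeneralLinearGroup.map (algebraMap K (v.adicCompletion K)) γ) :=
  rfl

theorem isLocalAtFin_locFinK (v : HeightOneSpectrum (𝓞 K)) (γ : GL (Fin 2) K) :
    IsLocalAtFin v (locFinK v γ) := isLocalAtFin_locFin v _

theorem finComp_locFinK_self (v : HeightOneSpectrum (𝓞 K)) (γ : GL (Fin 2) K) :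
    finComp v (locFinK v γ) =
      (γ : Matrix (Fin 2) (Fin 2) K).map (algebraMap K (v.adicCompletion K)) := by
  rw [locFinK_apply, finComp_locFin_self]; rfl

/-- At `v` the local element of a rational matrix has the component of its diagonal image. -/
theorem finCompHom_locFinK_self (v : HeightOneSpectrum (𝓞 K)) (γ : GL (Fin 2) K) :
    finCompHom v (locFinK v γ) = finCompHom v (diagG γ) := by
  rw [locFinK_apply, finCompHom_locFin_self, finCompHom_diagG]

/-- The real numbers inside the completion at a real place. -/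
def realHom {w : InfinitePlace K} (hw : w.IsReal) : ℝ →+* w.Completion :=
  (InfinitePlace.Completion.ringEquivRealOfIsReal hw).symm.toRingHom

theorem extensionEmbedding_realHom {w : InfinitePlace K} (hw : w.IsReal) (r : ℝ) :
    InfinitePlace.Completion.extensionEmbedding w (realHom hw r) = (r : ℂ) := by
  rw [← InfinitePlace.Completion.extensionEmbeddingOfIsReal_apply hw,
    ← InfinitePlace.Completion.ringEquivRealOfIsReal_apply]
  congr 1
  exact (InfinitePlace.Completion.ringEquivRealOfIsReal hw).apply_symm_apply r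

theorem continuous_realHom {w : InfinitePlace K} (hw : w.IsReal) : Continuous (realHom hw) :=
  (InfinitePlace.Completion.isometryEquivRealOfIsReal hw).symm.continuous

/-- The local element at the real place `w` given by a real matrix. -/
def locInfReal {w : InfinitePlace K} (hw : w.IsReal) : GL (Fin 2) ℝ →* G K :=
  (locInf w).comp (Matrix.GeneralLinearGroup.map (realHom hw))

theorem locInfReal_apply {w : InfinitePlace K} (hw : w.IsReal) (m : GL (Fin 2) ℝ) :
    locInfReal hw m = locInf w (Matrix.GeneralLinearGroup.map (realHom hw) m) := rfl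

theorem isLocalAtInf_locInfReal {w : InfinitePlace K} (hw : w.IsReal) (m : GL (Fin 2) ℝ) :
    IsLocalAtInf w (locInfReal hw m) := isLocalAtInf_locInf w _

/-- The complex matrix of `locInfReal hw m` at `w` is `m`. -/
theorem infComp_locInfReal {w : InfinitePlace K} (hw : w.IsReal) (m : GL (Fin 2) ℝ) :
    infComp w (locInfReal hw m) =
      (m : Matrix (Fin 2) (Fin 2) ℝ).map (fun r : ℝ => (r : ℂ)) := by
  rw [locInfReal_apply, infComp_locInf_self]
  refine Matrix.ext fun i j => ?_
  exact extensionEmbedding_realHom hw _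

/-! ## Continuity -/

theorem continuous_locInfMat (w : InfinitePlace K) : Continuous (locInfMat (K := K) w) := by
  refine continuous_matrix fun i j => ?_
  have h1 : Continuous fun m : Matrix (Fin 2) (Fin 2) w.Completion => infEntry w i j (m i j) :=
    Continuous.update continuous_const w (continuous_id.matrix_elem i j)
  have h2 : Continuous fun _ : Matrix (Fin 2) (Fin 2) w.Completion => finOne (K := K) i j :=
    continuous_const
  exact Continuous.prodMk h1 h2

/-- `locInf w` is continuous. -/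
theorem continuous_locInf (w : InfinitePlace K) : Continuous (locInf (K := K) w) :=
  Continuous.units_map (locInfMatHom w) (continuous_locInfMat w)

/-- `locInfReal hw` is continuous. -/
theorem continuous_locInfReal {w : InfinitePlace K} (hw : w.IsReal) :
    Continuous (locInfReal (K := K) hw) := by
  have h : Continuous (Matrix.GeneralLinearGroup.map (n := Fin 2) (realHom hw)) := by
    unfold Matrix.GeneralLinearGroup.map
    apply Continuous.units_map
    exact Continuous.matrix_map continuous_id (continuous_realHom hw)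
  exact (continuous_locInf w).comp h


/-! ## The upper triangular elements `b(x, y) = [[y, x], [0, 1]]` at a real place -/

/-- The real matrix `[[y, x], [0, 1]]`. -/
def bMat (x y : ℝ) : Matrix (Fin 2) (Fin 2) ℝ := !![y, x; 0, 1]

theorem det_bMat (x y : ℝ) : (bMat x y).det = y := by
  simp [bMat, Matrix.det_fin_two]

/-- `[[y, x], [0, 1]]` as an element of `GL₂(ℝ)` (the identity if `y = 0`). -/
def bGL (x y : ℝ) : GL (Fin 2) ℝ :=
  if h : y = 0 then 1
  else Matrix.GeneralLinearGroup.mkOfDetNeZero (bMat x y) (by rw [det_bMat]; exact h)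

theorem coe_bGL (x : ℝ) {y : ℝ} (hy : y ≠ 0) :
    ((bGL x y : GL (Fin 2) ℝ) : Matrix (Fin 2) (Fin 2) ℝ) = bMat x y := by
  simp [bGL, hy, Matrix.GeneralLinearGroup.mkOfDetNeZero]

theorem bGL_mul (x x' : ℝ) {y y' : ℝ} (hy : y ≠ 0) (hy' : y' ≠ 0) :
    bGL x y * bGL x' y' = bGL (y * x' + x) (y * y') := by
  refine Units.ext ?_
  rw [Matrix.GeneralLinearGroup.coe_mul, coe_bGL x hy, coe_bGL x' hy',
    coe_bGL _ (mul_ne_zero hy hy')]
  ext i j
  fin_cases i <;> fin_cases j <;> simp [bMat, Matrix.mul_apply, Fin.sum_univ_two]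

theorem bGL_zero_one : bGL 0 1 = 1 := by
  refine Units.ext ?_
  rw [coe_bGL 0 one_ne_zero]
  ext i j
  fin_cases i <;> fin_cases j <;> simp [bMat]

/-- `n(x) a(y) = b(x, y)`. -/
theorem bGL_eq_n_mul_a (x : ℝ) {y : ℝ} (hy : y ≠ 0) : bGL x y = bGL x 1 * bGL 0 y := by
  rw [bGL_mul x 0 one_ne_zero hy]
  simp

theorem coe_inv_bGL (x : ℝ) {y : ℝ} (hy : y ≠ 0) :
    (((bGL x y)⁻¹ : GL (Fin 2) ℝ) : Matrix (Fin 2) (Fin 2) ℝ) = bMat (-(x / y)) y⁻¹ := by
  have h : (bGL x y)⁻¹ = bGL (-(x / y)) y⁻¹ := by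
    rw [inv_eq_iff_mul_eq_one, bGL_mul x _ hy (inv_ne_zero hy)]
    have e1 : y * -(x / y) + x = 0 := by field_simp; ring
    rw [e1, mul_inv_cancel₀ hy, bGL_zero_one]
  rw [h, coe_bGL _ (inv_ne_zero hy)]

/-- `(x, y) ↦ b(x, y)` is continuous on `y ≠ 0`. -/
theorem continuousOn_bGL :
    ContinuousOn (fun p : ℝ × ℝ => bGL p.1 p.2) {p : ℝ × ℝ | p.2 ≠ 0} := by
  rw [continuousOn_iff_continuous_restrict, Units.continuous_iff]
  constructor
  · have h : (fun p : {p : ℝ × ℝ | p.2 ≠ 0} =>
        ((bGL p.1.1 p.1.2 : GL (Fin 2) ℝ) : Matrix (Fin 2) (Fin 2) ℝ)) =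
        fun p => bMat p.1.1 p.1.2 := by
      funext p
      exact coe_bGL _ p.2
    change Continuous fun p : {p : ℝ × ℝ | p.2 ≠ 0} =>
        ((bGL p.1.1 p.1.2 : GL (Fin 2) ℝ) : Matrix (Fin 2) (Fin 2) ℝ)
    rw [h]
    refine continuous_matrix fun i j => ?_
    fin_cases i <;> fin_cases j <;> simp [bMat] <;> fun_prop
  · have h : (fun p : {p : ℝ × ℝ | p.2 ≠ 0} =>
        (((bGL p.1.1 p.1.2)⁻¹ : GL (Fin 2) ℝ) : Matrix (Fin 2) (Fin 2) ℝ)) =
        fun p => bMat (-(p.1.1 / p.1.2)) (p.1.2)⁻¹ := by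
      funext p
      exact coe_inv_bGL _ p.2
    change Continuous fun p : {p : ℝ × ℝ | p.2 ≠ 0} =>
        (((bGL p.1.1 p.1.2)⁻¹ : GL (Fin 2) ℝ) : Matrix (Fin 2) (Fin 2) ℝ)
    rw [h]
    have hc1 : Continuous fun p : {p : ℝ × ℝ | p.2 ≠ 0} => p.1.1 := by fun_prop
    have hc2 : Continuous fun p : {p : ℝ × ℝ | p.2 ≠ 0} => p.1.2 := by fun_prop
    have hc3 : Continuous fun p : {p : ℝ × ℝ | p.2 ≠ 0} => (p.1.2)⁻¹ :=
      hc2.inv₀ fun p => p.2
    have hc4 : Continuous fun p : {p : ℝ × ℝ | p.2 ≠ 0} => -(p.1.1 / p.1.2) :=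
      (hc1.div hc2 fun p => p.2).neg
    refine continuous_matrix fun i j => ?_
    fin_cases i <;> fin_cases j <;> simp [bMat] <;> first | exact hc3 | exact hc4 | fun_prop

/-- The element `b(x, y)_∞ = n(x)_∞ a(y)_∞` of `GL₂(𝔸_K)` at the real place `w`. -/
def bInf {w : InfinitePlace K} (hw : w.IsReal) (x y : ℝ) : G K := locInfReal hw (bGL x y)

theorem isLocalAtInf_bInf {w : InfinitePlace K} (hw : w.IsReal) (x y : ℝ) :
    IsLocalAtInf w (bInf hw x y) := isLocalAtInf_locInfReal hw _

theorem infComp_bInf {w : InfinitePlace K} (hw : w.IsReal) (x : ℝ) {y : ℝ} (hy : y ≠ 0) :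
    infComp w (bInf hw x y) = !![(y : ℂ), (x : ℂ); 0, 1] := by
  rw [bInf, infComp_locInfReal, coe_bGL x hy]
  ext i j
  fin_cases i <;> fin_cases j <;> simp [bMat]

theorem bInf_mul {w : InfinitePlace K} (hw : w.IsReal) (x x' : ℝ) {y y' : ℝ} (hy : y ≠ 0)
    (hy' : y' ≠ 0) : bInf hw x y * bInf hw x' y' = bInf hw (y * x' + x) (y * y') := by
  rw [bInf, bInf, ← map_mul, bGL_mul x x' hy hy']; rfl

/-- `(x, y) ↦ b(x, y)_∞` is continuous on `y ≠ 0`. -/
theorem continuousOn_bInf {w : InfinitePlace K} (hw : w.IsReal) :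
    ContinuousOn (fun p : ℝ × ℝ => bInf (K := K) hw p.1 p.2) {p : ℝ × ℝ | p.2 ≠ 0} :=
  (continuous_locInfReal hw).comp_continuousOn continuousOn_bGL

/-- For a continuous `φ` on `GL₂(𝔸_K)`, `(x, y) ↦ φ(b(x, y)_∞ g)` is continuous on `y ≠ 0`. -/
theorem continuousOn_comp_bInf {w : InfinitePlace K} (hw : w.IsReal) {φ : G K → ℂ}
    (hφ : Continuous φ) (g : G K) :
    ContinuousOn (fun p : ℝ × ℝ => φ (bInf hw p.1 p.2 * g)) {p : ℝ × ℝ | p.2 ≠ 0} :=
  hφ.comp_continuousOn ((continuousOn_bInf hw).mul continuousOn_const)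

end Fermat.Agent.LT.T8.H864

end

end
-- ===== PACK-END LT/T8/H864/Local.lean

-- ===== PACK-BEGIN LT/T6/H176/InstLocal.lean
section



/-!
# Row LT, tower T6, sub-leaf T6.01 `InstLocalC` (helper176), OFF-MAIN

The completion `K_v` of a number field at a finite place `v` is a local field in the sense of
`T6.IsLocalField`, with `q = N(v)`: characteristic zero, complete, the valuation takes the value
`exp (-1)`, and the images of a system of representatives of `𝓞 K / v` form a full residue
system of `N(v)` elements.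

Mathlib only (plus the Spec of the tower, byte-identical copy of origin/helper22@823e765ba).
-/

set_option autoImplicit false

open IsDedekindDomain NumberField

noncomputable section

namespace Fermat.Agent.LT.T6.H176

variable {K : Type} [Field K] [NumberField K] (v : HeightOneSpectrum (𝓞 K))

/-- The map `𝓞 K → K_v`. -/
def toLoc176 : 𝓞 K →+* v.adicCompletion K :=
  (algebraMap K (v.adicCompletion K)).comp (algebraMap (𝓞 K) K)

theorem toLoc176_injective : Function.Injective (toLoc176 v) :=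
  (algebraMap K (v.adicCompletion K)).injective.comp
    (FaithfulSMul.algebraMap_injective (𝓞 K) K)

theorem valued_algebraMap176 (x : K) :
    Valued.v (algebraMap K (v.adicCompletion K) x) = v.valuation K x :=
  HeightOneSpectrum.valuedAdicCompletion_eq_valuation' v x

theorem valued_toLoc176 (r : 𝓞 K) :
    Valued.v (toLoc176 v r) = v.valuation K (algebraMap (𝓞 K) K r) :=
  valued_algebraMap176 v _

theorem valued_toLoc176_le_one (r : 𝓞 K) : Valued.v (toLoc176 v r) ≤ 1 := by
  rw [valued_toLoc176]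
  exact HeightOneSpectrum.valuation_le_one v r

theorem valued_toLoc176_lt_one_iff (r : 𝓞 K) :
    Valued.v (toLoc176 v r) < 1 ↔ r ∈ v.asIdeal := by
  rw [valued_toLoc176]
  exact HeightOneSpectrum.valuation_lt_one_iff_mem v r

theorem valued_toLoc176_eq_one_iff (r : 𝓞 K) :
    Valued.v (toLoc176 v r) = 1 ↔ r ∉ v.asIdeal := by
  rw [← valued_toLoc176_lt_one_iff v r]
  constructor
  · intro h; rw [h]; exact lt_irrefl _
  · intro h
    exact le_antisymm (valued_toLoc176_le_one v r) (not_lt.mp h)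

/-- Every element of `K_v` is `v`-adically close to an element of `K`. -/
theorem exists_rat_sub_lt_one176 (z : v.adicCompletion K) :
    ∃ y : K, Valued.v (z - algebraMap K (v.adicCompletion K) y) < 1 := by
  have hopen : {w : v.adicCompletion K | Valued.v (z - w) < 1} ∈ nhds z := by
    rw [Valued.mem_nhds]
    refine ⟨1, fun w hw => ?_⟩
    have hw' : Valued.v.restrict (w - z) < 1 := by simpa using hw
    show Valued.v (z - w) < 1
    rw [Valuation.map_sub_swap]
    exact (Valued.v.restrict_lt_one_iff).mp hw'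
  obtain ⟨w, ⟨y, rfl⟩, hw⟩ :=
    Dense.inter_nhds_nonempty (HeightOneSpectrum.denseRange_algebraMap (K := K) v) hopen
  exact ⟨y, hw⟩

/-- Every integer of `K_v` is congruent modulo the maximal ideal to an element of `𝓞 K`. -/
theorem exists_int_sub_lt_one176 (z : v.adicCompletion K) (hz : Valued.v z ≤ 1) :
    ∃ a : 𝓞 K, Valued.v (z - toLoc176 v a) < 1 := by
  obtain ⟨y, hy⟩ := exists_rat_sub_lt_one176 v z
  have hy1 : v.valuation K y ≤ 1 := by
    rw [← valued_algebraMap176 v y]
    have h : algebraMap K (v.adicCompletion K) y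
        = z - (z - algebraMap K (v.adicCompletion K) y) := by ring
    rw [h]
    exact (Valuation.map_sub _ _ _).trans (max_le hz hy.le)
  obtain ⟨a, ha⟩ := HeightOneSpectrum.exists_valuation_sub_lt_of_integer v hy1 1
  refine ⟨a, ?_⟩
  have ha' : Valued.v (algebraMap K (v.adicCompletion K) y - toLoc176 v a) < 1 := by
    have h : algebraMap K (v.adicCompletion K) y - toLoc176 v a
        = algebraMap K (v.adicCompletion K) (y - algebraMap (𝓞 K) K a) := by
      simp [toLoc176]
    rw [h, valued_algebraMap176, Valuation.map_sub_swap]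
    simpa using ha
  have h : z - toLoc176 v a
      = (z - algebraMap K (v.adicCompletion K) y)
        + (algebraMap K (v.adicCompletion K) y - toLoc176 v a) := by ring
  rw [h]
  exact lt_of_le_of_lt (Valuation.map_add _ _ _) (max_lt hy ha')

/-- **T6.01 `InstLocalC`.** -/
theorem instLocalC176 : Fermat.Agent.LT.T6.InstLocalC := by
  intro K _ _ v
  classical
  have hfin : Finite (𝓞 K ⧸ v.asIdeal) := v.asIdeal.finiteQuotientOfFreeOfNeBot v.ne_bot
  let _ : Fintype (𝓞 K ⧸ v.asIdeal) := Fintype.ofFinite _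
  -- a section of the residue map
  let sec : 𝓞 K ⧸ v.asIdeal → 𝓞 K := fun c => Quotient.out c
  have hsec : ∀ c, Ideal.Quotient.mk v.asIdeal (sec c) = c := fun c => Quotient.out_eq c
  let f : 𝓞 K ⧸ v.asIdeal → v.adicCompletion K := fun c => toLoc176 v (sec c)
  have hf : Function.Injective f := by
    intro c c' h
    have h' : sec c = sec c' := toLoc176_injective v h
    rw [← hsec c, ← hsec c', h']
  refine ⟨?_, inferInstance, ?_, ?_⟩
  · exact charZero_of_injective_ringHom (algebraMap K (v.adicCompletion K)).injective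
  · obtain ⟨π, hπ⟩ := v.valuation_exists_uniformizer K
    exact ⟨algebraMap K (v.adicCompletion K) π, by rw [valued_algebraMap176, hπ]⟩
  · refine ⟨Finset.univ.image f, ?_, ?_, ?_, ?_⟩
    · rw [Finset.card_image_of_injective _ hf, Finset.card_univ, Ideal.absNorm_apply,
        Submodule.cardQuot_apply, Nat.card_eq_fintype_card]
    · intro x hx
      obtain ⟨c, -, rfl⟩ := Finset.mem_image.mp hx
      exact valued_toLoc176_le_one v _
    · intro x hx y hy hxy
      obtain ⟨c, -, rfl⟩ := Finset.mem_image.mp hx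
      obtain ⟨c', -, rfl⟩ := Finset.mem_image.mp hy
      have hcc : c ≠ c' := fun h => hxy (by rw [h])
      show Valued.v (toLoc176 v (sec c) - toLoc176 v (sec c')) = 1
      rw [← map_sub, valued_toLoc176_eq_one_iff]
      intro hmem
      apply hcc
      rw [← hsec c, ← hsec c']
      exact (Ideal.Quotient.eq).mpr hmem
    · intro z hz
      obtain ⟨a, ha⟩ := exists_int_sub_lt_one176 v z hz
      refine ⟨f (Ideal.Quotient.mk v.asIdeal a), Finset.mem_image.mpr ⟨_, Finset.mem_univ _, rfl⟩,
        ?_⟩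
      have hmem : a - sec (Ideal.Quotient.mk v.asIdeal a) ∈ v.asIdeal := by
        rw [← Ideal.Quotient.eq, hsec]
      have h2 : Valued.v (toLoc176 v a - toLoc176 v (sec (Ideal.Quotient.mk v.asIdeal a))) < 1 := by
        rw [← map_sub, valued_toLoc176_lt_one_iff]
        exact hmem
      have h : z - f (Ideal.Quotient.mk v.asIdeal a)
          = (z - toLoc176 v a)
            + (toLoc176 v a - toLoc176 v (sec (Ideal.Quotient.mk v.asIdeal a))) := by
        show z - toLoc176 v (sec (Ideal.Quotient.mk v.asIdeal a)) = _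
        ring
      rw [h]
      exact lt_of_le_of_lt (Valuation.map_add _ _ _) (max_lt ha h2)

end Fermat.Agent.LT.T6.H176

end

end
-- ===== PACK-END LT/T6/H176/InstLocal.lean

-- ===== PACK-BEGIN LT/T6/H526/LocFld.lean
section



/-!
# Row LT -- ADAPTER (helper526): the local fields of the T6 Spec are local fields of main

OFF-MAIN.  Nothing assumed, no hole.  Imports the T6 Spec and `Fermat/Agent/S55/L/Spec.lean`
(main, Mathlib only).

`h526_isLocalFld : IsLocalField k q → Fermat.Agent.S55.L.IsLocalFld k`: a field with a valuation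
in `ℤᵐ⁰` which is complete, of characteristic zero, with a uniformiser and a finite system of
representatives of the residue field, is the fraction field of a complete discrete valuation ring
with finite residue field (the `ValuationSubring` `{v ≤ 1}`).

So the LOCAL CLASS FIELD THEORY of main (`Fermat/Agent/S55/L/H715/OuterClosed.lean`: norm index,
`H²`, unramified extensions, norms of units) applies to every local field of towers T6 / A2.
-/

set_option autoImplicit false

noncomputable section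

namespace Fermat.Agent.LT.T6.H526

open Fermat.Agent.LT.T6

variable {k : Type} [Field k] [Valued k Γ₀]

/-- The ring of integers `{v ≤ 1}`. -/
abbrev h526_O (k : Type) [Field k] [Valued k Γ₀] : ValuationSubring k :=
  (Valued.v : Valuation k Γ₀).valuationSubring

theorem h526_mem_O (x : k) : x ∈ h526_O k ↔ Valued.v x ≤ 1 :=
  Valuation.mem_valuationSubring_iff _ x

theorem h526_isUnit_iff (a : h526_O k) : IsUnit a ↔ Valued.v (a : k) = 1 := by
  constructor
  · rintro ⟨u, rfl⟩
    have h1 : Valued.v ((u : h526_O k) : k) ≤ 1 := (h526_mem_O _).1 (u : h526_O k).2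
    have h2 : Valued.v (((u⁻¹ : (h526_O k)ˣ) : h526_O k) : k) ≤ 1 :=
      (h526_mem_O _).1 ((u⁻¹ : (h526_O k)ˣ) : h526_O k).2
    have h3 : ((u : h526_O k) : k) * (((u⁻¹ : (h526_O k)ˣ) : h526_O k) : k) = 1 := by
      have e1 : ((u : h526_O k) * ((u⁻¹ : (h526_O k)ˣ) : h526_O k)) = 1 := u.mul_inv
      have e2 := congrArg (Subtype.val) e1
      rw [MulMemClass.coe_mul] at e2
      exact e2
    have h4 : Valued.v ((u : h526_O k) : k) * Valued.v (((u⁻¹ : (h526_O k)ˣ) : h526_O k) : k)
        = 1 := by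
      rw [← Valuation.map_mul, h3, Valuation.map_one]
    refine le_antisymm h1 ?_
    by_contra hlt
    rw [not_le] at hlt
    have : Valued.v ((u : h526_O k) : k) * Valued.v (((u⁻¹ : (h526_O k)ˣ) : h526_O k) : k)
        < 1 := by
      calc _ ≤ Valued.v ((u : h526_O k) : k) * 1 := mul_le_mul' le_rfl h2
        _ = Valued.v ((u : h526_O k) : k) := mul_one _
        _ < 1 := hlt
    rw [h4] at this
    exact lt_irrefl _ this
  · intro h
    have h0 : (a : k) ≠ 0 := by
      intro h0
      rw [h0, Valuation.map_zero] at h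
      exact zero_ne_one h
    have hinv : (a : k)⁻¹ ∈ h526_O k := by
      rw [h526_mem_O, map_inv₀, h, inv_one]
    refine isUnit_iff_exists_inv.2 ⟨⟨(a : k)⁻¹, hinv⟩, ?_⟩
    apply Subtype.ext
    simp [h0]

theorem h526_val_eq_exp_of_ne_zero {x : k} (hx : x ≠ 0) :
    Valued.v x = WithZero.exp (WithZero.log (Valued.v x)) :=
  (WithZero.exp_log (by simpa using hx)).symm

/-- Every non-zero integer is a unit times a power of the uniformiser. -/
theorem h526_exists_pow {ϖ : k} (hϖ : Valued.v ϖ = WithZero.exp (-1 : ℤ)) {x : k}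
    (hx : x ≠ 0) (hx1 : Valued.v x ≤ 1) :
    ∃ m : ℕ, Valued.v x = WithZero.exp (-(m : ℤ)) ∧ Valued.v (x / ϖ ^ m) = 1 := by
  have e := h526_val_eq_exp_of_ne_zero hx
  have hle : WithZero.log (Valued.v x) ≤ 0 := by
    rw [e, ← WithZero.exp_zero, WithZero.exp_le_exp] at hx1
    exact hx1
  refine ⟨(-(WithZero.log (Valued.v x))).toNat, ?_, ?_⟩
  · have : ((-(WithZero.log (Valued.v x))).toNat : ℤ) = -(WithZero.log (Valued.v x)) :=
      Int.toNat_of_nonneg (by omega)
    rw [this, neg_neg]
    exact e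
  · have h1 : ((-(WithZero.log (Valued.v x))).toNat : ℤ) = -(WithZero.log (Valued.v x)) :=
      Int.toNat_of_nonneg (by omega)
    have h2 : Valued.v (ϖ ^ (-(WithZero.log (Valued.v x))).toNat)
        = WithZero.exp (WithZero.log (Valued.v x)) := by
      rw [Valuation.map_pow, hϖ, ← WithZero.exp_nsmul]
      congr 1
      rw [nsmul_eq_mul, h1]
      ring
    rw [map_div₀, h2, ← e]
    exact div_self (by simpa using hx)

theorem h526_lt_one_iff {x : k} : Valued.v x < 1 ↔ Valued.v x ≤ WithZero.exp (-1 : ℤ) := by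
  by_cases hx : x = 0
  · subst hx
    simp
  · rw [h526_val_eq_exp_of_ne_zero hx, ← WithZero.exp_zero, WithZero.exp_lt_exp,
      WithZero.exp_le_exp]
    omega

theorem h526_unif_mem {ϖ : k} (hϖ : Valued.v ϖ = WithZero.exp (-1 : ℤ)) : ϖ ∈ h526_O k := by
  rw [h526_mem_O, hϖ, ← WithZero.exp_zero, WithZero.exp_le_exp]
  omega

theorem h526_unif_ne_zero {ϖ : k} (hϖ : Valued.v ϖ = WithZero.exp (-1 : ℤ)) : ϖ ≠ 0 := by
  intro h
  rw [h, Valuation.map_zero] at hϖ
  exact WithZero.exp_ne_zero hϖ.symm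

theorem h526_irreducible {ϖ : k} (hϖ : Valued.v ϖ = WithZero.exp (-1 : ℤ)) :
    Irreducible (⟨ϖ, h526_unif_mem hϖ⟩ : h526_O k) := by
  rw [irreducible_iff]
  constructor
  · rw [h526_isUnit_iff]
    show Valued.v ϖ ≠ 1
    rw [hϖ, ← WithZero.exp_zero]
    intro h
    have := WithZero.exp_injective h
    omega
  · intro a b hab
    by_contra hcon
    rw [not_or] at hcon
    have ha : Valued.v (a : k) < 1 :=
      lt_of_le_of_ne ((h526_mem_O _).1 a.2) (fun h => hcon.1 ((h526_isUnit_iff a).2 h))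
    have hb : Valued.v (b : k) < 1 :=
      lt_of_le_of_ne ((h526_mem_O _).1 b.2) (fun h => hcon.2 ((h526_isUnit_iff b).2 h))
    have hab' : ϖ = (a : k) * (b : k) := by
      have := congrArg Subtype.val hab
      rw [MulMemClass.coe_mul] at this
      exact this
    have h1 : Valued.v ϖ = Valued.v (a : k) * Valued.v (b : k) := by
      rw [hab', Valuation.map_mul]
    have h2 : Valued.v (a : k) * Valued.v (b : k)
        ≤ WithZero.exp (-1 : ℤ) * WithZero.exp (-1 : ℤ) :=
      mul_le_mul' (h526_lt_one_iff.1 ha) (h526_lt_one_iff.1 hb)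
    rw [← h1, hϖ, ← WithZero.exp_add, WithZero.exp_le_exp] at h2
    omega

theorem h526_dvr (q : ℕ) (hk : IsLocalField k q) : IsDiscreteValuationRing (h526_O k) := by
  obtain ⟨ϖ, hϖ⟩ := hk.unif
  apply IsDiscreteValuationRing.ofHasUnitMulPowIrreducibleFactorization
  refine ⟨⟨ϖ, h526_unif_mem hϖ⟩, h526_irreducible hϖ, ?_⟩
  intro x hx
  have hx0 : (x : k) ≠ 0 := fun h => hx (Subtype.ext h)
  obtain ⟨m, -, hu⟩ := h526_exists_pow hϖ hx0 ((h526_mem_O _).1 x.2)
  have hmem : (x : k) / ϖ ^ m ∈ h526_O k := by rw [h526_mem_O, hu]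
  obtain ⟨u, hu'⟩ := (h526_isUnit_iff (⟨(x : k) / ϖ ^ m, hmem⟩ : h526_O k)).2 hu
  refine ⟨m, u, ?_⟩
  apply Subtype.ext
  rw [MulMemClass.coe_mul, hu', SubmonoidClass.coe_pow]
  show ϖ ^ m * ((x : k) / ϖ ^ m) = x
  field_simp [h526_unif_ne_zero hϖ]

theorem h526_mem_maximalIdeal (a : h526_O k) :
    a ∈ IsLocalRing.maximalIdeal (h526_O k) ↔ Valued.v (a : k) < 1 := by
  rw [IsLocalRing.mem_maximalIdeal, mem_nonunits_iff, h526_isUnit_iff]
  constructor
  · intro h
    exact lt_of_le_of_ne ((h526_mem_O _).1 a.2) h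
  · intro h
    exact ne_of_lt h

theorem h526_finite_residue (q : ℕ) (hk : IsLocalField k q) :
    Finite (IsLocalRing.ResidueField (h526_O k)) := by
  obtain ⟨T, -, hT1, -, hT⟩ := hk.residue
  let f : {x // x ∈ T} → IsLocalRing.ResidueField (h526_O k) :=
    fun x => IsLocalRing.residue _ (⟨x.1, (h526_mem_O _).2 (hT1 x.1 x.2)⟩ : h526_O k)
  have hf : Function.Surjective f := by
    intro y
    obtain ⟨z, rfl⟩ := IsLocalRing.residue_surjective y
    obtain ⟨x, hx, hxz⟩ := hT (z : k) ((h526_mem_O _).1 z.2)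
    refine ⟨⟨x, hx⟩, ?_⟩
    show IsLocalRing.residue _ (⟨x, (h526_mem_O _).2 (hT1 x hx)⟩ : h526_O k)
      = IsLocalRing.residue _ z
    symm
    rw [← sub_eq_zero, ← map_sub, IsLocalRing.residue_eq_zero_iff, h526_mem_maximalIdeal]
    exact hxz
  exact Finite.of_surjective f hf

/-- The powers of the maximal ideal are the balls. -/
theorem h526_mem_pow (q : ℕ) (hk : IsLocalField k q) (n : ℕ) (x : h526_O k) :
    x ∈ IsLocalRing.maximalIdeal (h526_O k) ^ n ↔ Valued.v (x : k) ≤ WithZero.exp (-(n : ℤ)) := by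
  obtain ⟨ϖ, hϖ⟩ := hk.unif
  have hdvr := h526_dvr q hk
  have hvpow : Valued.v (ϖ ^ n) = WithZero.exp (-(n : ℤ)) := by
    rw [Valuation.map_pow, hϖ, ← WithZero.exp_nsmul]
    congr 1
    rw [nsmul_eq_mul]
    ring
  rw [(h526_irreducible hϖ).maximalIdeal_eq, Ideal.span_singleton_pow, Ideal.mem_span_singleton]
  constructor
  · rintro ⟨y, hy⟩
    have e : (x : k) = ϖ ^ n * (y : k) := by
      have := congrArg Subtype.val hy
      rw [MulMemClass.coe_mul, SubmonoidClass.coe_pow] at this
      exact this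
    rw [e, Valuation.map_mul, hvpow]
    calc WithZero.exp (-(n : ℤ)) * Valued.v (y : k) ≤ WithZero.exp (-(n : ℤ)) * 1 :=
          mul_le_mul' le_rfl ((h526_mem_O _).1 y.2)
      _ = WithZero.exp (-(n : ℤ)) := mul_one _
  · intro h
    have hmem : (x : k) / ϖ ^ n ∈ h526_O k := by
      rw [h526_mem_O, map_div₀, hvpow]
      exact div_le_one_of_le₀ h zero_le
    refine ⟨⟨(x : k) / ϖ ^ n, hmem⟩, ?_⟩
    apply Subtype.ext
    rw [MulMemClass.coe_mul, SubmonoidClass.coe_pow]
    show (x : k) = ϖ ^ n * ((x : k) / ϖ ^ n)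
    field_simp [h526_unif_ne_zero hϖ]

theorem h526_mem_smul_top (q : ℕ) (hk : IsLocalField k q) (n : ℕ) (x : h526_O k) :
    x ∈ (IsLocalRing.maximalIdeal (h526_O k) ^ n • ⊤ : Submodule (h526_O k) (h526_O k))
      ↔ Valued.v (x : k) ≤ WithZero.exp (-(n : ℤ)) := by
  rw [← h526_mem_pow q hk n x]
  simp

theorem h526_val_pow {ϖ : k} (hϖ : Valued.v ϖ = WithZero.exp (-1 : ℤ)) (n : ℕ) :
    Valued.v (ϖ ^ n) = WithZero.exp (-(n : ℤ)) := by
  rw [Valuation.map_pow, hϖ, ← WithZero.exp_nsmul]
  congr 1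
  rw [nsmul_eq_mul]
  ring

/-- A sequence of integers which is Cauchy for the powers of the maximal ideal converges. -/
theorem h526_exists_limit (q : ℕ) (hk : IsLocalField k q) (f : ℕ → k)
    (hf : ∀ m n : ℕ, m ≤ n → Valued.v (f m - f n) ≤ WithZero.exp (-(m : ℤ))) :
    ∃ L : k, ∀ n : ℕ, Valued.v (f n - L) ≤ WithZero.exp (-(n : ℤ)) := by
  have hcomp := hk.complete
  obtain ⟨ϖ, hϖ⟩ := hk.unif
  have hC : CauchySeq f := by
    rw [(Valued.hasBasis_uniformity k Γ₀).cauchySeq_iff]
    intro γ _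
    have hγ0 := MonoidWithZeroHom.ValueGroup₀.embedding_unit_ne_zero γ
    have hγ := (WithZero.exp_log hγ0).symm
    generalize hj : WithZero.log (MonoidWithZeroHom.ValueGroup₀.embedding
      (γ : MonoidWithZeroHom.ValueGroup₀ (MonoidWithZeroHom.ofClass (Valued.v : Valuation k Γ₀))))
      = j at hγ
    refine ⟨(1 - j).toNat, fun m hm n hn => ?_⟩
    show Valued.v.restrict (f n - f m) < (γ : _)
    rw [Valuation.restrict_lt_iff_lt_embedding, hγ]
    have hbound : Valued.v (f n - f m) ≤ WithZero.exp (-(((1 - j).toNat : ℕ) : ℤ)) := by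
      rcases le_total m n with hmn | hmn
      · have h1 := hf m n hmn
        rw [← Valuation.map_neg, neg_sub] at h1
        refine h1.trans ?_
        rw [WithZero.exp_le_exp]
        omega
      · refine (hf n m hmn).trans ?_
        rw [WithZero.exp_le_exp]
        omega
    refine lt_of_le_of_lt hbound ?_
    rw [WithZero.exp_lt_exp]
    omega
  obtain ⟨L, hL⟩ := cauchySeq_tendsto_of_complete hC
  refine ⟨L, fun n => ?_⟩
  have hcl : IsClosed {y : k | Valued.v (f n - y) ≤ WithZero.exp (-(n : ℤ))} := by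
    have h1 : IsClosed {x : k | Valued.v.restrict x ≤ Valued.v.restrict (ϖ ^ n)} :=
      Valued.isClosed_closedBall k _
    have h2 : {y : k | Valued.v (f n - y) ≤ WithZero.exp (-(n : ℤ))}
        = (fun y : k => f n - y) ⁻¹' {x : k | Valued.v.restrict x ≤ Valued.v.restrict (ϖ ^ n)} := by
      ext y
      simp only [Set.mem_ofPred_eq, Set.mem_preimage, Valuation.restrict_le_iff, h526_val_pow hϖ]
    rw [h2]
    exact h1.preimage (by fun_prop)
  refine hcl.mem_of_tendsto hL ?_
  filter_upwards [Filter.eventually_ge_atTop n] with N hN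
  exact hf n N hN

theorem h526_isAdicComplete (q : ℕ) (hk : IsLocalField k q) :
    IsAdicComplete (IsLocalRing.maximalIdeal (h526_O k)) (h526_O k) := by
  obtain ⟨ϖ, hϖ⟩ := hk.unif
  have hH : IsHausdorff (IsLocalRing.maximalIdeal (h526_O k)) (h526_O k) := by
    refine ⟨fun x hx => ?_⟩
    by_contra h0
    have hx0 : (x : k) ≠ 0 := fun h => h0 (Subtype.ext h)
    obtain ⟨m, hm, -⟩ := h526_exists_pow hϖ hx0 ((h526_mem_O _).1 x.2)
    have h1 : x ∈ (IsLocalRing.maximalIdeal (h526_O k) ^ (m + 1) • ⊤ :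
        Submodule (h526_O k) (h526_O k)) := by
      have := hx (m + 1)
      rwa [SModEq.sub_mem, sub_zero] at this
    rw [h526_mem_smul_top q hk, hm, WithZero.exp_le_exp] at h1
    push_cast at h1
    omega
  have hP : IsPrecomplete (IsLocalRing.maximalIdeal (h526_O k)) (h526_O k) := by
    refine ⟨fun f hf => ?_⟩
    have hf' : ∀ m n : ℕ, m ≤ n →
        Valued.v (((f m : h526_O k) : k) - ((f n : h526_O k) : k)) ≤ WithZero.exp (-(m : ℤ)) := by
      intro m n hmn
      have := hf hmn
      rw [SModEq.sub_mem, h526_mem_smul_top q hk] at this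
      exact this
    obtain ⟨L, hL⟩ := h526_exists_limit q hk (fun n => ((f n : h526_O k) : k)) hf'
    have hLmem : L ∈ h526_O k := by
      rw [h526_mem_O]
      have h0 := hL 0
      have h1 : Valued.v ((f 0 : h526_O k) : k) ≤ 1 := (h526_mem_O _).1 (f 0).2
      have e : L = ((f 0 : h526_O k) : k) - (((f 0 : h526_O k) : k) - L) := by ring
      rw [e]
      refine Valuation.map_sub_le _ h1 ?_
      simpa using h0
    refine ⟨⟨L, hLmem⟩, fun n => ?_⟩
    rw [SModEq.sub_mem, h526_mem_smul_top q hk]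
    exact hL n
  exact { toIsHausdorff := hH, toIsPrecomplete := hP }

/-- **THE ADAPTER.**  A local field of the T6 Spec is a local field of main (layer `S55/L`). -/
theorem h526_isLocalFld (q : ℕ) (hk : IsLocalField k q) : Fermat.Agent.S55.L.IsLocalFld k :=
  { charZero := hk.char0
    exists_ringOfIntegers :=
      ⟨h526_O k, h526_dvr q hk, h526_isAdicComplete q hk, h526_finite_residue q hk⟩ }

end Fermat.Agent.LT.T6.H526

end
end
-- ===== PACK-END LT/T6/H526/LocFld.lean

-- ===== PACK-BEGIN LT/A2/H323/Gauss/Core.lean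
section




/-!
# Row LT, tower A2, leaf A2.03.1.1.06.05 `LF54.LeafGauss` (helper323), OFF-MAIN : THE CORE

Abstract form of the Gauss identity of Weil (1964, § 14, th. 2).

`k` an ultrametric normed field, `V` an ultrametric proper normed `k`-space with a translation
invariant measure `ν` (finite on compact sets, positive on open sets), `Q : V → k` a quadratic
form with polar form `B` (`QData323`: continuity, `Q(y + z) = Q(y) + B(y, z) + Q(z)`, bilinearity,
`Q(c y) = c² Q(y)`, and NONDEGENERACY in the form `sup_{‖h‖ ≤ 1} ‖B(y, h)‖ ≤ M ⟹ ‖y‖ ≤ C M`),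
`ψ` a nontrivial continuous unitary character of `k` (`CharData323`).

* `exists_bound_of_orth323` : `{y : ψ(a B(y, h)) = 1 for ‖h‖ ≤ ε}` is bounded.
* `exists_stab323` : `∫ χ_r ψ(a Q)` does not depend on `r ≥ r₁(a)`.
* `ft_eq_zero_of_large323` : the Fourier transform of a Schwartz--Bruhat function vanishes
  outside a ball.
* `gauss_identity323` : for `a ≠ 0` there is `g` with
  `∫ ψ(a Q(y)) FT Φ(y) ψ(B(ξ, y)) dy = g ∫ Φ(z) ψ(-Q(z + ξ) / a) dz` for all Schwartz--Bruhat `Φ`
  and all `ξ`.
-/

set_option autoImplicit false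
set_option linter.style.haveILetI false
set_option linter.unusedSectionVars false

open MeasureTheory

noncomputable section

namespace Fermat.Agent.LT.A2.H323

/-- A nondegenerate quadratic form `Q` on `V` with polar form `B`. -/
structure QData323 (k V : Type*) [NormedField k] [NormedAddCommGroup V] [NormedSpace k V]
    (Q : V → k) (B : V → V → k) : Prop where
  contQ : Continuous Q
  contB : Continuous fun p : V × V => B p.1 p.2
  add : ∀ y z : V, Q (y + z) = Q y + B y z + Q z
  B_add : ∀ y z z' : V, B y (z + z') = B y z + B y z'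
  B_symm : ∀ y z : V, B y z = B z y
  B_smul : ∀ (c : k) (y z : V), B y (c • z) = c * B y z
  Q_smul : ∀ (c : k) (y : V), Q (c • y) = c ^ 2 * Q y
  nondeg : ∃ C : ℝ, ∀ (y : V) (M : ℝ), (∀ h : V, ‖h‖ ≤ 1 → ‖B y h‖ ≤ M) → ‖y‖ ≤ C * M

/-- A nontrivial continuous unitary additive character. -/
structure CharData323 (k : Type*) [NormedField k] (ψ : k → ℂ) : Prop where
  cont : Continuous ψ
  mul : ∀ x y : k, ψ (x + y) = ψ x * ψ y
  unit : ∀ x : k, ‖ψ x‖ = 1
  nontriv : ∃ x : k, ψ x ≠ 1

section Core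

variable {k : Type*} [NormedField k] [IsUltrametricDist k]
variable {V : Type*} [NormedAddCommGroup V] [NormedSpace k V] [IsUltrametricDist V]
variable {Q : V → k} {B : V → V → k} {ψ : k → ℂ}

theorem CharData323.zero (hψ : CharData323 k ψ) : ψ 0 = 1 :=
  (char_eq_one_near_zero323 ψ hψ.cont hψ.mul hψ.unit).1

theorem QData323.zero (hQ : QData323 k V Q B) : Q 0 = 0 := by
  have := hQ.Q_smul 0 0
  rw [zero_smul] at this
  rw [this]
  ring

/-- `ψ(a Q(h)) = 1` for small `h`. -/
theorem exists_eps_Q323 (hQ : QData323 k V Q B) (hψ : CharData323 k ψ) (a : k) :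
    ∃ ε : ℝ, 0 < ε ∧ ∀ h : V, ‖h‖ ≤ ε → ψ (a * Q h) = 1 := by
  obtain ⟨-, ε₀, hε₀, h1⟩ := char_eq_one_near_zero323 ψ hψ.cont hψ.mul hψ.unit
  have hc : Continuous fun h : V => a * Q h := continuous_const.mul hQ.contQ
  have hcont := hc.continuousAt (x := 0)
  rw [Metric.continuousAt_iff] at hcont
  obtain ⟨δ, hδ, hδ'⟩ := hcont ε₀ hε₀
  refine ⟨δ / 2, by positivity, fun h hh => h1 _ ?_⟩
  have := hδ' (x := h) (by rw [dist_zero_right]; linarith)
  rw [hQ.zero, mul_zero, dist_zero_right] at this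
  exact this.le

/-- **Nondegeneracy**: the orthogonal of a ball is bounded. -/
theorem exists_bound_of_orth323 (hQ : QData323 k V Q B) (hψ : CharData323 k ψ) (a : k)
    (ha : a ≠ 0) (ε : ℝ) (hε : 0 < ε) :
    ∃ r₀ : ℝ, 0 ≤ r₀ ∧ ∀ y : V, (∀ h : V, ‖h‖ ≤ ε → ψ (a * B y h) = 1) → ‖y‖ ≤ r₀ := by
  obtain ⟨C, hC⟩ := hQ.nondeg
  obtain ⟨x₀, hx₀⟩ := hψ.nontriv
  have hx₀0 : x₀ ≠ 0 := by
    rintro rfl
    exact hx₀ hψ.zero
  have han : 0 < ‖a‖ := norm_pos_iff.mpr ha
  set M : ℝ := ‖x₀‖ / (‖a‖ * ε) with hM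
  have hM0 : 0 ≤ M := by positivity
  refine ⟨max (C * M) 0, le_max_right _ _, fun y hy => ?_⟩
  refine (hC y M fun h hh => ?_).trans (le_max_left _ _)
  by_contra hcon
  rw [not_le] at hcon
  have hβ0 : B y h ≠ 0 := by
    intro h0'
    rw [h0', norm_zero] at hcon
    linarith
  have hβn : 0 < ‖B y h‖ := norm_pos_iff.mpr hβ0
  have hcn : ‖x₀ / (a * B y h)‖ ≤ ε := by
    rw [norm_div, norm_mul, div_le_iff₀ (by positivity)]
    have h1 : M * (‖a‖ * ε) = ‖x₀‖ := by
      rw [hM]
      field_simp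
    have h2 : M * (‖a‖ * ε) ≤ ‖B y h‖ * (‖a‖ * ε) :=
      mul_le_mul_of_nonneg_right hcon.le (by positivity)
    calc ‖x₀‖ = M * (‖a‖ * ε) := h1.symm
      _ ≤ ‖B y h‖ * (‖a‖ * ε) := h2
      _ = ε * (‖a‖ * ‖B y h‖) := by ring
  have h1 := hy ((x₀ / (a * B y h)) • h) (by
    rw [norm_smul]
    calc ‖x₀ / (a * B y h)‖ * ‖h‖ ≤ ε * 1 := mul_le_mul hcn hh (norm_nonneg _) hε.le
      _ = ε := mul_one _)
  rw [hQ.B_smul] at h1
  have h2 : a * (x₀ / (a * B y h) * B y h) = x₀ := by
    field_simp
  rw [h2] at h1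
  exact hx₀ h1

variable [ProperSpace V] [SecondCountableTopology V] [MeasurableSpace V] [BorelSpace V]
variable (ν : Measure V) [ν.IsAddLeftInvariant] [IsFiniteMeasureOnCompacts ν]
  [ν.IsOpenPosMeasure] [SFinite ν]

theorem CharData323.sub (hψ : CharData323 k ψ) (x y : k) : ψ (x - y) = ψ x * ψ (-y) := by
  rw [sub_eq_add_neg, hψ.mul]

/-- **Stabilisation** of the truncated Gauss integrals. -/
theorem exists_stab323 (hQ : QData323 k V Q B) (hψ : CharData323 k ψ) (a : k) (ha : a ≠ 0) :
    ∃ r₁ : ℝ, 0 < r₁ ∧ ∀ r : ℝ, r₁ ≤ r →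
      ∫ y, cut323 r y * ψ (a * Q y) ∂ν = ∫ y, cut323 r₁ y * ψ (a * Q y) ∂ν := by
  obtain ⟨ε, hε, hεQ⟩ := exists_eps_Q323 hQ hψ a
  obtain ⟨r₀, hr₀, hr₀'⟩ := exists_bound_of_orth323 hQ hψ a ha ε hε
  have hr₁ : 0 < max r₀ ε := lt_of_lt_of_le hε (le_max_right _ _)
  refine ⟨max r₀ ε, hr₁, fun r hr => ?_⟩
  have hr0 : 0 < r := lt_of_lt_of_le hr₁ hr
  have hεr₁ : ε ≤ max r₀ ε := le_max_right _ _
  have hεr : ε ≤ r := hεr₁.trans hr
  have hcf : Continuous fun y : V => ψ (a * Q y) :=
    hψ.cont.comp (continuous_const.mul hQ.contQ)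
  -- integrability
  have hi : ∀ ρ : ℝ, 0 < ρ → Integrable (fun y : V => cut323 ρ y * ψ (a * Q y)) ν := by
    intro ρ hρ
    exact ((continuous_cut323 hρ).mul hcf).integrable_of_hasCompactSupport
      ((hasCompactSupport_cut323 ρ).mul_right)
  -- the difference
  set D : V → ℂ := fun y => cut323 r y - cut323 (max r₀ ε) y with hD
  have hDadd : ∀ y h : V, ‖h‖ ≤ ε → D (y + h) = D y := by
    intro y h hh
    simp only [hD]
    rw [cut_add323 (hh.trans hεr), cut_add323 (hh.trans hεr₁)]
  have hDne : ∀ y : V, D y ≠ 0 → r₀ < ‖y‖ := by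
    intro y hy
    by_contra hcon
    rw [not_lt] at hcon
    apply hy
    have h1 : ‖y‖ ≤ max r₀ ε := hcon.trans (le_max_left _ _)
    simp only [hD]
    rw [cut_of_le323 h1, cut_of_le323 (h1.trans hr), sub_self]
  have hDc : Continuous D := (continuous_cut323 hr0).sub (continuous_cut323 hr₁)
  set I : ℂ := ∫ y, D y * ψ (a * Q y) ∂ν with hI
  have hIeq : I = ∫ y, cut323 r y * ψ (a * Q y) ∂ν
      - ∫ y, cut323 (max r₀ ε) y * ψ (a * Q y) ∂ν := by
    rw [hI, ← integral_sub (hi r hr0) (hi _ hr₁)]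
    refine integral_congr_ae (Filter.Eventually.of_forall fun y => ?_)
    simp only [hD]
    ring
  -- (a) translation
  have ha' : ∀ h : V, ‖h‖ ≤ ε → I = ∫ y, D y * ψ (a * Q y) * ψ (a * B y h) ∂ν := by
    intro h hh
    have h1 := integral_add_right_eq_self (μ := ν) (fun y => D y * ψ (a * Q y)) h
    rw [hI, ← h1]
    refine integral_congr_ae (Filter.Eventually.of_forall fun y => ?_)
    show D (y + h) * ψ (a * Q (y + h)) = D y * ψ (a * Q y) * ψ (a * B y h)
    rw [hDadd y h hh, hQ.add]
    have e : a * (Q y + B y h + Q h) = a * Q y + a * B y h + a * Q h := by ring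
    rw [e, hψ.mul, hψ.mul, hεQ h hh]
    ring
  -- (b) average over the ball of radius `ε`
  have hKc : Continuous fun p : V × V =>
      cut323 ε p.1 * (D p.2 * ψ (a * Q p.2) * ψ (a * B p.2 p.1)) := by
    have c1 : Continuous fun p : V × V => cut323 ε p.1 :=
      (continuous_cut323 hε).comp continuous_fst
    have c2 : Continuous fun p : V × V => D p.2 := hDc.comp continuous_snd
    have c3 : Continuous fun p : V × V => ψ (a * Q p.2) := hcf.comp continuous_snd
    have c4 : Continuous fun p : V × V => ψ (a * B p.2 p.1) := by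
      have : Continuous fun p : V × V => B p.2 p.1 :=
        hQ.contB.comp (continuous_snd.prodMk continuous_fst)
      exact hψ.cont.comp (continuous_const.mul this)
    exact c1.mul ((c2.mul c3).mul c4)
  have hKs : HasCompactSupport fun p : V × V =>
      cut323 ε p.1 * (D p.2 * ψ (a * Q p.2) * ψ (a * B p.2 p.1)) := by
    refine HasCompactSupport.intro
      ((isCompact_closedBall (0 : V) ε).prod (isCompact_closedBall (0 : V) r)) ?_
    intro p hp
    by_contra hne
    apply hp
    have h1 : cut323 ε p.1 ≠ 0 := fun h => hne (by rw [h, zero_mul])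
    have h2 : D p.2 ≠ 0 := fun h => hne (by rw [h, zero_mul, zero_mul, mul_zero])
    have h3 : cut323 r p.2 ≠ 0 := by
      intro h
      apply h2
      simp only [hD]
      have : cut323 (max r₀ ε) p.2 = 0 := by
        by_contra h4
        have h5 := (cut_ne_zero323 h4).trans hr
        rw [cut_of_le323 h5] at h
        exact one_ne_zero h
      rw [h, this, sub_self]
    refine ⟨?_, ?_⟩
    · rw [Metric.mem_closedBall, dist_zero_right]
      exact cut_ne_zero323 h1
    · rw [Metric.mem_closedBall, dist_zero_right]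
      exact cut_ne_zero323 h3
  have hint : Integrable (Function.uncurry fun (h y : V) =>
      cut323 ε h * (D y * ψ (a * Q y) * ψ (a * B y h))) (ν.prod ν) :=
    hKc.integrable_of_hasCompactSupport hKs
  have hswap := integral_integral_swap hint
  have hb : (∫ h, cut323 (V := V) ε h ∂ν) * I = 0 := by
    calc (∫ h, cut323 (V := V) ε h ∂ν) * I = ∫ h, cut323 ε h * I ∂ν := by
          rw [integral_mul_const]
      _ = ∫ h, ∫ y, cut323 ε h * (D y * ψ (a * Q y) * ψ (a * B y h)) ∂ν ∂ν := by
          refine integral_congr_ae (Filter.Eventually.of_forall fun h => ?_)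
          show cut323 ε h * I = ∫ y, cut323 ε h * (D y * ψ (a * Q y) * ψ (a * B y h)) ∂ν
          rw [integral_const_mul]
          by_cases hh : ‖h‖ ≤ ε
          · rw [← ha' h hh]
          · rw [cut_of_lt323 (not_le.mp hh), zero_mul, zero_mul]
      _ = ∫ y, ∫ h, cut323 ε h * (D y * ψ (a * Q y) * ψ (a * B y h)) ∂ν ∂ν := hswap
      _ = ∫ _y : V, (0 : ℂ) ∂ν := by
          refine integral_congr_ae (Filter.Eventually.of_forall fun y => ?_)
          show ∫ h, cut323 ε h * (D y * ψ (a * Q y) * ψ (a * B y h)) ∂ν = 0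
          by_cases hy : D y = 0
          · simp [hy]
          · have hlt := hDne y hy
            have hex : ∃ h₀ : V, ‖h₀‖ ≤ ε ∧ ψ (a * B y h₀) ≠ 1 := by
              by_contra hcon
              push Not at hcon
              exact absurd (hr₀' y hcon) (not_le.mpr hlt)
            obtain ⟨h₀, hh₀, hne⟩ := hex
            have horth := integral_cut_mul_eq_zero323 ν (r := ε) (fun h => ψ (a * B y h))
              (fun x x' => by
                show ψ (a * B y (x + x')) = ψ (a * B y x) * ψ (a * B y x')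
                rw [hQ.B_add, mul_add, hψ.mul]) h₀ hh₀ hne
            have e : ∀ h : V, cut323 ε h * (D y * ψ (a * Q y) * ψ (a * B y h))
                = (D y * ψ (a * Q y)) * (cut323 ε h * ψ (a * B y h)) := fun h => by ring
            simp only [e]
            rw [integral_const_mul, horth, mul_zero]
      _ = 0 := integral_zero _ _
  have hI0 : I = 0 := by
    rcases mul_eq_zero.mp hb with h | h
    · exact absurd h (integral_cut_ne_zero323 ν hε)
    · exact h
  rw [hI0] at hIeq
  exact (sub_eq_zero.mp hIeq.symm)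

/-- **The Fourier transform of a Schwartz--Bruhat function vanishes outside a ball.** -/
theorem ft_eq_zero_of_large323 (hQ : QData323 k V Q B) (hψ : CharData323 k ψ) (Φ : V → ℂ)
    (h1 : IsLocallyConstant Φ) (h2 : HasCompactSupport Φ) :
    ∃ r₂ : ℝ, 0 ≤ r₂ ∧ ∀ y : V, r₂ < ‖y‖ → ∫ z, Φ z * ψ (B y z) ∂ν = 0 := by
  obtain ⟨ε, hε, hΦ⟩ := exists_unif_locConst323 Φ h1 h2
  obtain ⟨r₀, hr₀, hr₀'⟩ := exists_bound_of_orth323 hQ hψ 1 one_ne_zero ε hε
  refine ⟨r₀, hr₀, fun y hy => ?_⟩
  have hex : ∃ h₀ : V, ‖h₀‖ ≤ ε ∧ ψ (1 * B y h₀) ≠ 1 := by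
    by_contra hcon
    push Not at hcon
    exact absurd (hr₀' y hcon) (not_le.mpr hy)
  obtain ⟨h₀, hh₀, hne⟩ := hex
  rw [one_mul] at hne
  have h3 := integral_add_right_eq_self (μ := ν) (fun z => Φ z * ψ (B y z)) h₀
  have h4 : ∀ z : V, Φ (z + h₀) * ψ (B y (z + h₀)) = ψ (B y h₀) * (Φ z * ψ (B y z)) := by
    intro z
    rw [hΦ z h₀ hh₀, hQ.B_add, hψ.mul]
    ring
  simp only [h4] at h3
  rw [integral_const_mul] at h3
  have h5 : (ψ (B y h₀) - 1) * ∫ z, Φ z * ψ (B y z) ∂ν = 0 := by
    rw [sub_mul, one_mul, h3, sub_self]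
  rcases mul_eq_zero.mp h5 with h6 | h6
  · exact absurd (sub_eq_zero.mp h6) hne
  · exact h6

/-- **THE GAUSS IDENTITY**, abstract form. -/
theorem gauss_identity323 (hQ : QData323 k V Q B) (hψ : CharData323 k ψ) (a : k) (ha : a ≠ 0) :
    ∃ g : ℂ, ∀ Φ : V → ℂ, IsLocallyConstant Φ → HasCompactSupport Φ → ∀ ξ : V,
      ∫ y, (ψ (a * Q y) * ∫ z, Φ z * ψ (B y z) ∂ν) * ψ (B ξ y) ∂ν
        = g * ∫ z, Φ z * ψ (-(Q (z + ξ)) / a) ∂ν := by
  obtain ⟨r₁, hr₁, hstab⟩ := exists_stab323 ν hQ hψ a ha
  refine ⟨∫ y, cut323 r₁ y * ψ (a * Q y) ∂ν, fun Φ h1 h2 ξ => ?_⟩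
  obtain ⟨r₂, hr₂, hft⟩ := ft_eq_zero_of_large323 ν hQ hψ Φ h1 h2
  obtain ⟨ρ, hρ, hΦρ⟩ := exists_norm_le_of_ne_zero323 Φ h2
  have han : 0 < ‖a‖ := norm_pos_iff.mpr ha
  set r : ℝ := max r₁ (max r₂ ((ρ + ‖ξ‖) / ‖a‖)) with hr
  have hrr₁ : r₁ ≤ r := le_max_left _ _
  have hrr₂ : r₂ ≤ r := (le_max_left _ _).trans (le_max_right _ _)
  have hrr₃ : (ρ + ‖ξ‖) / ‖a‖ ≤ r := (le_max_right _ _).trans (le_max_right _ _)
  have hr0 : 0 < r := lt_of_lt_of_le hr₁ hrr₁
  have hcf : Continuous fun y : V => ψ (a * Q y) :=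
    hψ.cont.comp (continuous_const.mul hQ.contQ)
  have hΦc : Continuous Φ := h1.continuous
  -- the kernel
  have hKc : Continuous fun p : V × V =>
      cut323 r p.1 * ψ (a * Q p.1) * ψ (B ξ p.1) * (Φ p.2 * ψ (B p.1 p.2)) := by
    have c1 : Continuous fun p : V × V => cut323 r p.1 :=
      (continuous_cut323 hr0).comp continuous_fst
    have c2 : Continuous fun p : V × V => ψ (a * Q p.1) := hcf.comp continuous_fst
    have c3 : Continuous fun p : V × V => ψ (B ξ p.1) := by
      have : Continuous fun p : V × V => B ξ p.1 :=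
        hQ.contB.comp (continuous_const.prodMk continuous_fst)
      exact hψ.cont.comp this
    have c4 : Continuous fun p : V × V => Φ p.2 := hΦc.comp continuous_snd
    have c5 : Continuous fun p : V × V => ψ (B p.1 p.2) := hψ.cont.comp hQ.contB
    exact ((c1.mul c2).mul c3).mul (c4.mul c5)
  have hKs : HasCompactSupport fun p : V × V =>
      cut323 r p.1 * ψ (a * Q p.1) * ψ (B ξ p.1) * (Φ p.2 * ψ (B p.1 p.2)) := by
    refine HasCompactSupport.intro ((isCompact_closedBall (0 : V) r).prod h2.isCompact) ?_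
    intro p hp
    by_contra hne
    apply hp
    have e1 : cut323 r p.1 ≠ 0 := fun h => hne (by rw [h, zero_mul, zero_mul, zero_mul])
    have e2 : Φ p.2 ≠ 0 := fun h => hne (by rw [h, zero_mul, mul_zero])
    refine ⟨?_, subset_tsupport _ e2⟩
    rw [Metric.mem_closedBall, dist_zero_right]
    exact cut_ne_zero323 e1
  have hint : Integrable (Function.uncurry fun (y z : V) =>
      cut323 r y * ψ (a * Q y) * ψ (B ξ y) * (Φ z * ψ (B y z))) (ν.prod ν) :=
    hKc.integrable_of_hasCompactSupport hKs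
  have hswap := integral_integral_swap hint
  -- Step 1
  have step1 : ∀ y : V, (ψ (a * Q y) * ∫ z, Φ z * ψ (B y z) ∂ν) * ψ (B ξ y)
      = ∫ z, cut323 r y * ψ (a * Q y) * ψ (B ξ y) * (Φ z * ψ (B y z)) ∂ν := by
    intro y
    rw [integral_const_mul]
    by_cases hy : ‖y‖ ≤ r
    · rw [cut_of_le323 hy]
      ring
    · rw [cut_of_lt323 (not_le.mp hy), hft y (lt_of_le_of_lt hrr₂ (not_le.mp hy))]
      ring
  -- Step 3
  have step3 : ∀ z : V, ∫ y, cut323 r y * ψ (a * Q y) * ψ (B ξ y) * (Φ z * ψ (B y z)) ∂ν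
      = (∫ y, cut323 r₁ y * ψ (a * Q y) ∂ν) * (Φ z * ψ (-(Q (z + ξ)) / a)) := by
    intro z
    by_cases hz : Φ z = 0
    · simp [hz]
    · have hzρ := hΦρ z hz
      set u : V := z + ξ with hu
      set w : V := a⁻¹ • u with hw
      have hwn : ‖w‖ ≤ r := by
        rw [hw, norm_smul, norm_inv]
        have h3 : ‖u‖ ≤ ρ + ‖ξ‖ := (norm_add_le _ _).trans (by linarith)
        calc ‖a‖⁻¹ * ‖u‖ ≤ ‖a‖⁻¹ * (ρ + ‖ξ‖) :=
              mul_le_mul_of_nonneg_left h3 (inv_nonneg.mpr han.le)
          _ = (ρ + ‖ξ‖) / ‖a‖ := by rw [div_eq_inv_mul]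
          _ ≤ r := hrr₃
      have key : ∀ y : V, cut323 r y * ψ (a * Q y) * ψ (B ξ y) * (Φ z * ψ (B y z))
          = (Φ z * ψ (-(Q u) / a)) * (cut323 r (y + w) * ψ (a * Q (y + w))) := by
        intro y
        rw [cut_add323 hwn]
        have e1 : a * Q (y + w) = a * Q y + (B ξ y + B y z) + Q u / a := by
          rw [hQ.add, hw, hQ.B_smul, hQ.Q_smul, hu, hQ.B_add, hQ.B_symm ξ y]
          field_simp
          ring
        have e2 : ψ (a * Q (y + w)) = ψ (a * Q y) * (ψ (B ξ y) * ψ (B y z)) * ψ (Q u / a) := by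
          rw [e1, hψ.mul, hψ.mul, hψ.mul]
        have e3 : ψ (-(Q u) / a) * ψ (Q u / a) = 1 := by
          rw [← hψ.mul, neg_div, neg_add_cancel, hψ.zero]
        rw [e2]
        calc cut323 r y * ψ (a * Q y) * ψ (B ξ y) * (Φ z * ψ (B y z))
            = cut323 r y * ψ (a * Q y) * ψ (B ξ y) * (Φ z * ψ (B y z)) * 1 := by ring
          _ = cut323 r y * ψ (a * Q y) * ψ (B ξ y) * (Φ z * ψ (B y z))
                * (ψ (-(Q u) / a) * ψ (Q u / a)) := by rw [e3]
          _ = _ := by ring
      simp only [key]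
      rw [integral_const_mul,
        integral_add_right_eq_self (μ := ν) (fun y => cut323 r y * ψ (a * Q y)) w,
        hstab r hrr₁]
      ring
  calc ∫ y, (ψ (a * Q y) * ∫ z, Φ z * ψ (B y z) ∂ν) * ψ (B ξ y) ∂ν
      = ∫ y, ∫ z, cut323 r y * ψ (a * Q y) * ψ (B ξ y) * (Φ z * ψ (B y z)) ∂ν ∂ν := by
        refine integral_congr_ae (Filter.Eventually.of_forall fun y => ?_)
        exact step1 y
    _ = ∫ z, ∫ y, cut323 r y * ψ (a * Q y) * ψ (B ξ y) * (Φ z * ψ (B y z)) ∂ν ∂ν := hswap
    _ = ∫ z, (∫ y, cut323 r₁ y * ψ (a * Q y) ∂ν) * (Φ z * ψ (-(Q (z + ξ)) / a)) ∂ν := by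
        refine integral_congr_ae (Filter.Eventually.of_forall fun z => ?_)
        exact step3 z
    _ = (∫ y, cut323 r₁ y * ψ (a * Q y) ∂ν) * ∫ z, Φ z * ψ (-(Q (z + ξ)) / a) ∂ν := by
        rw [integral_const_mul]

end Core

end Fermat.Agent.LT.A2.H323

end

end
-- ===== PACK-END LT/A2/H323/Gauss/Core.lean

-- ===== PACK-BEGIN LT/CFT/H861/Modulus.lean
section


/-!
# Row LT, tower CFT, helper861 (OFF-MAIN): the modulus `𝔣`

Mathlib only.

* `fexp861 𝔣 v`  : the exponent of `v` in `𝔣`;
* `mem_iff_forall_intValuation_le861` : `r ∈ 𝔣 ↔ ∀ v, v.intValuation r ≤ exp (- fexp861 𝔣 v)`;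
* `InU861 𝔣 x`   : the idele `x` is `≡ 1 mod 𝔣` at every place dividing `𝔣`
  (no condition at the other places); stability under products and inverses;
* `cont861 ω`    : the content character `x ↦ ∏ᶠ v, ω v ^ ord_v x`.
-/

set_option autoImplicit false

open IsDedekindDomain NumberField

noncomputable section

namespace Fermat.Agent.LT.CFT.H861

variable {K : Type} [Field K] [NumberField K]

/-- The exponent of `v` in the ideal `𝔣`. -/
def fexp861 (𝔣 : Ideal (𝓞 K)) (v : HeightOneSpectrum (𝓞 K)) : ℕ :=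
  (Associates.mk v.asIdeal).count (Associates.mk 𝔣).factors

theorem fexp861_ne_zero_iff {𝔣 : Ideal (𝓞 K)} (h𝔣 : 𝔣 ≠ ⊥) (v : HeightOneSpectrum (𝓞 K)) :
    fexp861 𝔣 v ≠ 0 ↔ v.asIdeal ∣ 𝔣 :=
  Associates.count_ne_zero_iff_dvd h𝔣 v.irreducible

theorem finite_fexp861_ne_zero {𝔣 : Ideal (𝓞 K)} (h𝔣 : 𝔣 ≠ ⊥) :
    {v : HeightOneSpectrum (𝓞 K) | fexp861 𝔣 v ≠ 0}.Finite := by
  refine (Ideal.finite_factors h𝔣).subset fun v hv => ?_
  exact (fexp861_ne_zero_iff h𝔣 v).1 hv

theorem mem_iff_forall_intValuation_le861 {𝔣 : Ideal (𝓞 K)} (h𝔣 : 𝔣 ≠ ⊥) (r : 𝓞 K) :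
    r ∈ 𝔣 ↔ ∀ v : HeightOneSpectrum (𝓞 K),
      v.intValuation r ≤ WithZero.exp (-(fexp861 𝔣 v : ℤ)) := by
  conv_lhs => rw [← Ideal.iInf_maxPowDividing_eq h𝔣]
  rw [Submodule.mem_iInf]
  refine forall_congr' fun v => ?_
  rw [HeightOneSpectrum.intValuation_le_pow_iff_mem]
  rfl

/-- The idele `x` is `≡ 1 mod 𝔣` at every finite place dividing `𝔣`. -/
def InU861 (𝔣 : Ideal (𝓞 K)) (x : (AdeleRing (𝓞 K) K)ˣ) : Prop :=
  ∀ v : HeightOneSpectrum (𝓞 K), fexp861 𝔣 v ≠ 0 →
    Valued.v (fc861 v x - 1) ≤ WithZero.exp (-(fexp861 𝔣 v : ℤ))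

theorem inU861_one (𝔣 : Ideal (𝓞 K)) : InU861 𝔣 (1 : (AdeleRing (𝓞 K) K)ˣ) := by
  intro v _
  simp [fc861_one]

theorem exp_neg_lt_one861 {n : ℕ} (hn : n ≠ 0) :
    (WithZero.exp (-(n : ℤ)) : WithZero (Multiplicative ℤ)) < 1 := by
  rw [← WithZero.exp_zero, WithZero.exp_lt_exp]
  have : 0 < (n : ℤ) := by exact_mod_cast Nat.pos_of_ne_zero hn
  linarith

theorem InU861.val_eq_one {𝔣 : Ideal (𝓞 K)} {x : (AdeleRing (𝓞 K) K)ˣ} (hx : InU861 𝔣 x)
    {v : HeightOneSpectrum (𝓞 K)} (hv : fexp861 𝔣 v ≠ 0) : Valued.v (fc861 v x) = 1 := by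
  have h1 : Valued.v (fc861 v x - 1) < 1 := lt_of_le_of_lt (hx v hv) (exp_neg_lt_one861 hv)
  have h2 : Valued.v (fc861 v x - 1) < Valued.v (1 : v.adicCompletion K) := by
    rwa [Valuation.map_one]
  have h3 := Valuation.map_add_eq_of_lt_right (Valued.v : Valuation (v.adicCompletion K) _) h2
  rw [sub_add_cancel, Valuation.map_one] at h3
  exact h3

theorem InU861.ord_eq_zero {𝔣 : Ideal (𝓞 K)} {x : (AdeleRing (𝓞 K) K)ˣ} (hx : InU861 𝔣 x)
    {v : HeightOneSpectrum (𝓞 K)} (hv : fexp861 𝔣 v ≠ 0) : ord861 v x = 0 :=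
  (ord861_eq_zero_iff v x).2 (hx.val_eq_one hv)

theorem InU861.mul {𝔣 : Ideal (𝓞 K)} {x y : (AdeleRing (𝓞 K) K)ˣ} (hx : InU861 𝔣 x)
    (hy : InU861 𝔣 y) : InU861 𝔣 (x * y) := by
  intro v hv
  have e : fc861 v (x * y) - 1 = fc861 v x * (fc861 v y - 1) + (fc861 v x - 1) := by
    rw [fc861_mul]; ring
  rw [e]
  refine le_trans (Valuation.map_add _ _ _) (max_le ?_ (hx v hv))
  rw [map_mul, hx.val_eq_one hv, one_mul]
  exact hy v hv

theorem InU861.inv {𝔣 : Ideal (𝓞 K)} {x : (AdeleRing (𝓞 K) K)ˣ} (hx : InU861 𝔣 x) :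
    InU861 𝔣 x⁻¹ := by
  intro v hv
  have hne := fc861_ne_zero v x
  have e : fc861 v x⁻¹ - 1 = -((fc861 v x - 1) * (fc861 v x)⁻¹) := by
    rw [fc861_inv]; field_simp; ring
  rw [e, Valuation.map_neg, map_mul, map_inv₀, hx.val_eq_one hv, inv_one, mul_one]
  exact hx v hv

/-! ### The content character -/

variable {A : Type*} [CommGroup A]

theorem hasFiniteMulSupport_zpow_ord861 (ω : HeightOneSpectrum (𝓞 K) → A)
    (x : (AdeleRing (𝓞 K) K)ˣ) :
    Function.HasFiniteMulSupport fun v : HeightOneSpectrum (𝓞 K) => ω v ^ ord861 v x := by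
  refine (finite_ord861_ne_zero x).subset fun v hv => ?_
  intro h0
  apply hv
  simp [h0]

/-- The content character `x ↦ ∏ᶠ v, ω v ^ ord_v x` on the ideles. -/
def cont861 (ω : HeightOneSpectrum (𝓞 K) → A) : (AdeleRing (𝓞 K) K)ˣ →* A where
  toFun x := ∏ᶠ v : HeightOneSpectrum (𝓞 K), ω v ^ ord861 v x
  map_one' := by simp [ord861_one]
  map_mul' x y := by
    simp only [ord861_mul, zpow_add]
    exact finprod_mul_distrib (hasFiniteMulSupport_zpow_ord861 ω x)
      (hasFiniteMulSupport_zpow_ord861 ω y)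

theorem cont861_apply (ω : HeightOneSpectrum (𝓞 K) → A) (x : (AdeleRing (𝓞 K) K)ˣ) :
    cont861 ω x = ∏ᶠ v : HeightOneSpectrum (𝓞 K), ω v ^ ord861 v x := rfl

theorem cont861_eq_one_of_ord (ω : HeightOneSpectrum (𝓞 K) → A) (x : (AdeleRing (𝓞 K) K)ˣ)
    (h : ∀ v, ord861 v x = 0) : cont861 ω x = 1 := by
  rw [cont861_apply]
  simp [h]

theorem cont861_eq_single (ω : HeightOneSpectrum (𝓞 K) → A) (x : (AdeleRing (𝓞 K) K)ˣ)
    (v : HeightOneSpectrum (𝓞 K)) (h : ∀ w, w ≠ v → ord861 w x = 0) :
    cont861 ω x = ω v ^ ord861 v x := by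
  rw [cont861_apply]
  exact finprod_eq_single _ v fun w hw => by simp [h w hw]

end Fermat.Agent.LT.CFT.H861

end

end
-- ===== PACK-END LT/CFT/H861/Modulus.lean

-- ===== PACK-BEGIN LT/A2/H138/PushHaar.lean
section


/-!
# Row LT, tower A2, leaf A2.03.1.1.02 `ProdIntC` (spare, helper138) -- abstract part

OFF-MAIN.  Mathlib only.

`G`, `H` additive topological groups with Borel σ-algebras, `μ` a left invariant measure on `G`
which is finite on compact sets, `W` an open subgroup of `G`, `P : G →+ H` continuous with a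
continuous section `s : H →+ G` with values in `W`, and `W ∩ ker P` contained in a compact set.
Then the image under `P` of the restriction of `μ` to `W` is left invariant and finite on compact
sets, hence a multiple `κ • π` of any Haar measure `π` of `H` (`H` locally compact and second
countable); `κ` is computed on any set of finite positive measure.
-/

set_option autoImplicit false

open MeasureTheory Set
open scoped ENNReal NNReal Pointwise

noncomputable section

namespace Fermat.Agent.LT.A2.H138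

section Push

variable {G H : Type*} [AddCommGroup G] [TopologicalSpace G] [IsTopologicalAddGroup G]
  [MeasurableSpace G] [BorelSpace G]
  [AddCommGroup H] [TopologicalSpace H] [IsTopologicalAddGroup H]
  [MeasurableSpace H] [BorelSpace H]

/-- The image under `P` of the restriction of `μ` to `W`. -/
def pushMeas138 (μ : Measure G) (W : Set G) (P : G → H) : Measure H :=
  (μ.restrict W).map P

theorem pushMeas_apply138 (μ : Measure G) {W : Set G} {P : G → H}
    (hP : Measurable P) {E : Set H} (hE : MeasurableSet E) :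
    pushMeas138 μ W P E = μ (P ⁻¹' E ∩ W) := by
  rw [pushMeas138, Measure.map_apply hP hE, Measure.restrict_apply (hP hE)]

theorem pushMeas_isAddLeftInvariant138 (μ : Measure G) [μ.IsAddLeftInvariant]
    (W : AddSubgroup G) (P : G →+ H) (hP : Continuous P) (s : H → G)
    (hPs : ∀ h, P (s h) = h) (hsW : ∀ h, s h ∈ W) :
    (pushMeas138 μ (W : Set G) P).IsAddLeftInvariant := by
  refine ⟨fun h₀ => ?_⟩
  ext E hE
  have hm : Measurable (fun x : H => h₀ + x) := (continuous_const.add continuous_id).measurable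
  rw [Measure.map_apply hm hE, pushMeas_apply138 μ hP.measurable (hm hE),
    pushMeas_apply138 μ hP.measurable hE]
  have hset : (P ⁻¹' ((fun x : H => h₀ + x) ⁻¹' E) ∩ (W : Set G))
      = (fun x : G => s h₀ + x) ⁻¹' (P ⁻¹' E ∩ (W : Set G)) := by
    ext x
    simp only [mem_inter_iff, mem_preimage, SetLike.mem_coe, map_add, hPs]
    constructor
    · rintro ⟨h1, h2⟩
      exact ⟨h1, W.add_mem (hsW h₀) h2⟩
    · rintro ⟨h1, h2⟩
      refine ⟨h1, ?_⟩
      have := W.sub_mem h2 (hsW h₀)
      simpa using this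
  rw [hset, measure_preimage_add]

theorem pushMeas_isFiniteMeasureOnCompacts138 (μ : Measure G) [IsFiniteMeasureOnCompacts μ]
    (W : AddSubgroup G) (P : G →+ H) (hP : Continuous P) (s : H → G) (hs : Continuous s)
    (hPs : ∀ h, P (s h) = h) (hsW : ∀ h, s h ∈ W)
    (C : Set G) (hC : IsCompact C) (hker : ∀ x ∈ W, P x = 0 → x ∈ C) [T2Space H] :
    IsFiniteMeasureOnCompacts (pushMeas138 μ (W : Set G) P) := by
  refine ⟨fun E hE => ?_⟩
  rw [pushMeas_apply138 μ hP.measurable hE.isClosed.measurableSet]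
  have hsub : P ⁻¹' E ∩ (W : Set G) ⊆ s '' E + C := by
    rintro x ⟨hx1, hx2⟩
    refine ⟨s (P x), ⟨P x, hx1, rfl⟩, x - s (P x), ?_, by abel⟩
    refine hker _ (W.sub_mem hx2 (hsW _)) ?_
    rw [map_sub, hPs, sub_self]
  exact lt_of_le_of_lt (measure_mono hsub) ((hE.image hs).add hC).measure_lt_top

/-- **The image of the restricted measure is a multiple of the Haar measure.** -/
theorem pushMeas_eq_smul138 [LocallyCompactSpace H] [SecondCountableTopology H] [T2Space H]
    (μ : Measure G) [μ.IsAddLeftInvariant] [IsFiniteMeasureOnCompacts μ]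
    (π : Measure H) [π.IsAddHaarMeasure]
    (W : AddSubgroup G) (P : G →+ H) (hP : Continuous P) (s : H → G) (hs : Continuous s)
    (hPs : ∀ h, P (s h) = h) (hsW : ∀ h, s h ∈ W)
    (C : Set G) (hC : IsCompact C) (hker : ∀ x ∈ W, P x = 0 → x ∈ C) :
    ∃ κ : ℝ≥0, pushMeas138 μ (W : Set G) P = κ • π := by
  have := pushMeas_isAddLeftInvariant138 μ W P hP s hPs hsW
  have := pushMeas_isFiniteMeasureOnCompacts138 μ W P hP s hs hPs hsW C hC hker
  exact ⟨_, Measure.isAddLeftInvariant_eq_smul (pushMeas138 μ (W : Set G) P) π⟩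

/-- The constant is computed on any measurable set of finite positive measure. -/
theorem kappa_eq138 (μ : Measure G) (π : Measure H) {W : Set G} {P : G → H}
    (hP : Measurable P) {κ : ℝ≥0} (hκ : pushMeas138 μ W P = κ • π)
    {B : Set H} (hB : MeasurableSet B) (h0 : π B ≠ 0) (htop : π B ≠ ⊤) :
    (κ : ℝ≥0∞) = μ (P ⁻¹' B ∩ W) / π B := by
  have h := congrArg (fun m : Measure H => m B) hκ
  simp only [pushMeas_apply138 μ hP hB, Measure.smul_apply, ENNReal.smul_def, smul_eq_mul] at h
  rw [ENNReal.eq_div_iff h0 htop, h, mul_comm]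

/-- Integrals against the image measure. -/
theorem integral_indicator_comp138 (μ : Measure G) (π : Measure H) {W : Set G}
    (hW : MeasurableSet W) {P : G → H} (hP : Measurable P) {κ : ℝ≥0}
    (hκ : pushMeas138 μ W P = κ • π) (f : H → ℂ) (hf : AEStronglyMeasurable f π) :
    ∫ x, W.indicator (fun x => f (P x)) x ∂μ = (κ : ℂ) * ∫ y, f y ∂π := by
  rw [integral_indicator hW]
  have hf' : AEStronglyMeasurable f ((μ.restrict W).map P) := by
    change AEStronglyMeasurable f (pushMeas138 μ W P)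
    rw [hκ]
    exact hf.smul_measure _
  rw [← integral_map hP.aemeasurable hf']
  change ∫ y, f y ∂(pushMeas138 μ W P) = _
  rw [hκ, integral_smul_nnreal_measure]
  rw [NNReal.smul_def, Complex.real_smul]

theorem integrable_indicator_comp138 (μ : Measure G) (π : Measure H) {W : Set G}
    (hW : MeasurableSet W) {P : G → H} (hP : Measurable P) {κ : ℝ≥0}
    (hκ : pushMeas138 μ W P = κ • π) (f : H → ℂ) (hf : Integrable f π) :
    Integrable (W.indicator (fun x => f (P x))) μ := by
  rw [integrable_indicator_iff hW]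
  have h1 : Integrable f (pushMeas138 μ W P) := by
    rw [hκ]
    exact hf.smul_measure_nnreal
  have h2 : Integrable f ((μ.restrict W).map P) := h1
  exact (integrable_map_measure h2.aestronglyMeasurable hP.aemeasurable).1 h2

end Push

end Fermat.Agent.LT.A2.H138

end

end
-- ===== PACK-END LT/A2/H138/PushHaar.lean

-- ===== PACK-BEGIN LT/T7/H91/ParsevalAbs.lean
section


/-!
# Row LT, tower T7, ASSIST for leaf T7.14.6a `FoldWhitC`, step (4): abstract PARSEVAL (helper91)

OFF-MAIN.  Registry row 1801.  Mathlib only.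

`G` abelian topological group (Borel, second countable), `Γ` a countable subgroup, `μ` an
invariant measure, `D` a fundamental domain of FINITE measure, `χ i` (`i : ι`, `ι` countable)
pairwise distinct continuous unitary characters trivial on `Γ` which are COMPLETE on continuous
`Γ`-periodic functions (a continuous periodic `F` with `∫_D F χ i = 0` for all `i` vanishes).
Then for continuous bounded `Γ`-periodic `f₁`, `f₂`

`μ(D) ∫_D f₁ f̄₂ dμ = ∑_i A_i(f₁) conj A_i(f₂)`,   `A_i(f) = ∫_D f χ i dμ`,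

and the series converges absolutely (`parseval_abstract91`).

Proof (classical): `h(t) = ∫_D f₁(x + t) f̄₂(x) dx` is continuous, periodic, with coefficients
`A_i(f₁) conj A_i(f₂)` (Fubini + invariance of `∫_D` under translations); the coefficients are
absolutely summable (Bessel in `L²(D)` + Cauchy--Schwarz), so `g(t) = μ(D)⁻¹ ∑_i a_i conj (χ i t)`
is continuous, periodic, with the same coefficients; completeness gives `h = g`; evaluate at `0`.
-/

set_option autoImplicit false
set_option linter.unusedSectionVars false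

namespace Fermat.Agent.LT.T7.H91

open MeasureTheory Filter Set Topology ComplexConjugate

/-- A continuous unitary character of `G`, trivial on `Γ`. -/
structure IsChar91 {G : Type*} [AddCommGroup G] [TopologicalSpace G] (Γ : AddSubgroup G)
    (χ : G → ℂ) : Prop where
  cont : Continuous χ
  add : ∀ x y, χ (x + y) = χ x * χ y
  norm : ∀ x, ‖χ x‖ = 1
  triv : ∀ γ ∈ Γ, χ γ = 1

namespace IsChar91

variable {G : Type*} [AddCommGroup G] [TopologicalSpace G] {Γ : AddSubgroup G} {χ : G → ℂ}

theorem ne_zero (h : IsChar91 Γ χ) (x : G) : χ x ≠ 0 := by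
  intro h0
  have := h.norm x
  rw [h0, norm_zero] at this
  exact zero_ne_one this

theorem zero (h : IsChar91 Γ χ) : χ 0 = 1 := by
  have h1 := h.add 0 0
  rw [add_zero] at h1
  have h2 : χ 0 * 1 = χ 0 * χ 0 := by rw [mul_one]; exact h1
  exact (mul_left_cancel₀ (h.ne_zero 0) h2).symm

theorem conj_mul (h : IsChar91 Γ χ) (x : G) : conj (χ x) * χ x = 1 := by
  rw [mul_comm, Complex.mul_conj, Complex.normSq_eq_norm_sq, h.norm]
  simp

theorem mul_conj (h : IsChar91 Γ χ) (x : G) : χ x * conj (χ x) = 1 := by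
  rw [mul_comm]; exact h.conj_mul x

theorem periodic (h : IsChar91 Γ χ) (γ : G) (hγ : γ ∈ Γ) (x : G) : χ (x + γ) = χ x := by
  rw [h.add, h.triv γ hγ, mul_one]

end IsChar91

section Abstract

variable {G : Type*} [AddCommGroup G] [TopologicalSpace G] [IsTopologicalAddGroup G]
  [MeasurableSpace G] [BorelSpace G] [SecondCountableTopology G]
  (Γ : AddSubgroup G) [Countable Γ]
  (μ : Measure G) [μ.IsAddLeftInvariant]
  (D : Set G)

/-- The integral of a `Γ`-periodic function over a fundamental domain is invariant under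
translations. -/
theorem setIntegral_add_right91 (hD : IsAddFundamentalDomain Γ D μ) (F : G → ℂ)
    (hF : ∀ γ ∈ Γ, ∀ x, F (x + γ) = F x) (t : G) :
    ∫ x in D, F (x + t) ∂μ = ∫ x in D, F x ∂μ := by
  have hmp : MeasurePreserving (fun x : G => x + t) μ μ := measurePreserving_add_right μ t
  have hD' : IsAddFundamentalDomain Γ ((fun x : G => x + t) ⁻¹' D) μ := by
    refine hD.preimage_of_equiv hmp.quasiMeasurePreserving (e := id) Function.bijective_id ?_
    intro g x
    show ((g : G) + x) + t = (g : G) + (x + t)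
    rw [add_assoc]
  have h1 : ∫ x in (fun x : G => x + t) ⁻¹' D, F (x + t) ∂μ = ∫ y in D, F y ∂μ :=
    hmp.setIntegral_preimage_emb (measurableEmbedding_addRight t) F D
  have h2 : ∫ x in D, F (x + t) ∂μ = ∫ x in (fun x : G => x + t) ⁻¹' D, F (x + t) ∂μ := by
    refine hD.setIntegral_eq hD' (fun g x => ?_)
    show F (((g : G) + x) + t) = F (x + t)
    have : ((g : G) + x) + t = (x + t) + (g : G) := by abel
    rw [this]
    exact hF _ g.2 _
  rw [h2, h1]

variable {Γ μ D}

/-- The integral over a fundamental domain of a character which is not identically `1`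
vanishes. -/
theorem setIntegral_char_eq_zero91 (hD : IsAddFundamentalDomain Γ D μ) {u : G → ℂ}
    (hadd : ∀ x y, u (x + y) = u x * u y) (hper : ∀ γ ∈ Γ, ∀ x, u (x + γ) = u x)
    {t : G} (ht : u t ≠ 1) : ∫ x in D, u x ∂μ = 0 := by
  have h1 := setIntegral_add_right91 Γ μ D hD u hper t
  have h2 : ∫ x in D, u (x + t) ∂μ = (∫ x in D, u x ∂μ) * u t := by
    rw [← integral_mul_const]
    refine integral_congr_ae (Eventually.of_forall fun x => ?_)
    exact hadd x t
  rw [h2] at h1
  have h3 : (∫ x in D, u x ∂μ) * (u t - 1) = 0 := by rw [mul_sub, h1, mul_one, sub_self]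
  rcases mul_eq_zero.mp h3 with h | h
  · exact h
  · exact absurd (sub_eq_zero.mp h) ht

/-- Orthogonality relations of distinct characters. -/
theorem setIntegral_char_mul_conj91 (hD : IsAddFundamentalDomain Γ D μ) {χ₁ χ₂ : G → ℂ}
    (h₁ : IsChar91 Γ χ₁) (h₂ : IsChar91 Γ χ₂) {t : G} (ht : χ₁ t ≠ χ₂ t) :
    ∫ x in D, χ₁ x * conj (χ₂ x) ∂μ = 0 := by
  refine setIntegral_char_eq_zero91 (u := fun x => χ₁ x * conj (χ₂ x)) hD ?_ ?_ (t := t) ?_
  · intro x y
    show χ₁ (x + y) * conj (χ₂ (x + y)) = χ₁ x * conj (χ₂ x) * (χ₁ y * conj (χ₂ y))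
    rw [h₁.add, h₂.add, map_mul]
    ring
  · intro γ hγ x
    show χ₁ (x + γ) * conj (χ₂ (x + γ)) = χ₁ x * conj (χ₂ x)
    rw [h₁.periodic γ hγ, h₂.periodic γ hγ]
  · intro h
    apply ht
    have h3 : χ₁ t * conj (χ₂ t) * χ₂ t = 1 * χ₂ t := by rw [h]
    rw [mul_assoc, h₂.conj_mul, mul_one, one_mul] at h3
    exact h3

theorem setIntegral_char_self91 {χ : G → ℂ} (h : IsChar91 Γ χ) :
    ∫ x in D, χ x * conj (χ x) ∂μ = (μ.real D : ℂ) := by
  have : (fun x => χ x * conj (χ x)) = fun _ => (1 : ℂ) := funext fun x => h.mul_conj x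
  rw [this, setIntegral_const]
  simp

/-- **Bessel** (in the form of summability): the squares of the coefficients of a bounded
continuous function with respect to pairwise distinct characters are summable. -/
theorem summable_coef_sq91 (hD : IsAddFundamentalDomain Γ D μ) (hfin : μ D ≠ ⊤)
    {ι : Type*} (χ : ι → G → ℂ) (hχ : ∀ i, IsChar91 Γ (χ i))
    (hdist : ∀ i j, i ≠ j → ∃ t, χ i t ≠ χ j t)
    (f : G → ℂ) (hfc : Continuous f) (C : ℝ) (hfb : ∀ x, ‖f x‖ ≤ C) :
    Summable fun i => ‖∫ x in D, f x * χ i x ∂μ‖ ^ 2 := by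
  classical
  have hfinm : IsFiniteMeasure (μ.restrict D) :=
    ⟨by rw [Measure.restrict_apply_univ]; exact lt_top_iff_ne_top.mpr hfin⟩
  by_cases hm0 : μ.real D = 0
  · have hD0 : μ D = 0 := by
      rcases (ENNReal.toReal_eq_zero_iff _).mp hm0 with h | h
      · exact h
      · exact absurd h hfin
    have hν0 : μ.restrict D = 0 := Measure.restrict_eq_zero.mpr hD0
    have : (fun i => ‖∫ x in D, f x * χ i x ∂μ‖ ^ 2) = fun _ => (0 : ℝ) := by
      funext i
      rw [hν0, integral_zero_measure]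
      simp
    rw [this]
    exact summable_zero
  · have hmpos : 0 < μ.real D := lt_of_le_of_ne measureReal_nonneg (Ne.symm hm0)
    have hmem : ∀ (u : G → ℂ), Continuous u → ∀ C : ℝ, (∀ x, ‖u x‖ ≤ C) →
        MemLp u 2 (μ.restrict D) :=
      fun u hu C hC => MemLp.of_bound hu.aestronglyMeasurable C (Eventually.of_forall hC)
    have hχmem : ∀ i, MemLp (fun x => conj (χ i x)) 2 (μ.restrict D) := fun i =>
      hmem _ (Complex.continuous_conj.comp (hχ i).cont) 1 (fun x => by
        rw [RCLike.norm_conj, (hχ i).norm x])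
    have hfmem : MemLp f 2 (μ.restrict D) := hmem f hfc C hfb
    let L : ι → Lp ℂ 2 (μ.restrict D) := fun i => (hχmem i).toLp _
    let Lf : Lp ℂ 2 (μ.restrict D) := hfmem.toLp f
    have hinner : ∀ i j, inner ℂ (L i) (L j) = ∫ x in D, χ i x * conj (χ j x) ∂μ := by
      intro i j
      rw [L2.inner_def]
      refine integral_congr_ae ?_
      filter_upwards [(hχmem i).coeFn_toLp, (hχmem j).coeFn_toLp] with x hx hy
      rw [hx, hy, RCLike.inner_apply, Complex.conj_conj, mul_comm]
    have hinnerf : ∀ i, inner ℂ (L i) Lf = ∫ x in D, f x * χ i x ∂μ := by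
      intro i
      rw [L2.inner_def]
      refine integral_congr_ae ?_
      filter_upwards [(hχmem i).coeFn_toLp, hfmem.coeFn_toLp] with x hx hy
      rw [hx, hy, RCLike.inner_apply, Complex.conj_conj]
    set r : ℝ := (Real.sqrt (μ.real D))⁻¹ with hr
    have hr2 : r * r * μ.real D = 1 := by
      have hs : Real.sqrt (μ.real D) * Real.sqrt (μ.real D) = μ.real D :=
        Real.mul_self_sqrt hmpos.le
      have hs0 : Real.sqrt (μ.real D) ≠ 0 := (Real.sqrt_pos.mpr hmpos).ne'
      rw [hr]
      calc (Real.sqrt (μ.real D))⁻¹ * (Real.sqrt (μ.real D))⁻¹ * μ.real D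
          = (Real.sqrt (μ.real D))⁻¹ * (Real.sqrt (μ.real D))⁻¹
              * (Real.sqrt (μ.real D) * Real.sqrt (μ.real D)) := by rw [hs]
        _ = 1 := by field_simp
    let e : ι → Lp ℂ 2 (μ.restrict D) := fun i => (r : ℂ) • L i
    have horth : Orthonormal ℂ e := by
      rw [orthonormal_iff_ite]
      intro i j
      simp only [e, inner_smul_left, inner_smul_right, hinner, Complex.conj_ofReal]
      by_cases hij : i = j
      · subst hij
        rw [if_pos rfl, setIntegral_char_self91 (hχ i), ← mul_assoc]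
        exact_mod_cast hr2
      · rw [if_neg hij]
        obtain ⟨t, ht⟩ := hdist i j hij
        rw [setIntegral_char_mul_conj91 hD (hχ i) (hχ j) ht, mul_zero, mul_zero]
    have hsum := horth.inner_products_summable Lf
    have hr0 : 0 ≤ r := by rw [hr]; exact inv_nonneg.mpr (Real.sqrt_nonneg _)
    have key : ∀ i, ‖∫ x in D, f x * χ i x ∂μ‖ ^ 2 = μ.real D * ‖inner ℂ (e i) Lf‖ ^ 2 := by
      intro i
      simp only [e, inner_smul_left, hinnerf, Complex.conj_ofReal]
      rw [norm_mul, mul_pow, Complex.norm_real, Real.norm_of_nonneg hr0, ← mul_assoc]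
      have : μ.real D * r ^ 2 = 1 := by rw [pow_two, mul_comm]; exact hr2
      rw [this, one_mul]
    simp_rw [key]
    exact hsum.mul_left _

/-- **Parseval** for a complete family of pairwise distinct characters of `G ⧸ Γ`. -/
theorem parseval_abstract91 (hD : IsAddFundamentalDomain Γ D μ) (hfin : μ D ≠ ⊤)
    {ι : Type*} [Countable ι] (χ : ι → G → ℂ) (hχ : ∀ i, IsChar91 Γ (χ i))
    (hdist : ∀ i j, i ≠ j → ∃ t, χ i t ≠ χ j t)
    (hcomp : ∀ F : G → ℂ, Continuous F → (∀ γ ∈ Γ, ∀ x, F (x + γ) = F x) →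
      (∀ i, ∫ x in D, F x * χ i x ∂μ = 0) → ∀ x, F x = 0)
    (f₁ f₂ : G → ℂ) (hc₁ : Continuous f₁) (hc₂ : Continuous f₂)
    (C₁ C₂ : ℝ) (hb₁ : ∀ x, ‖f₁ x‖ ≤ C₁) (hb₂ : ∀ x, ‖f₂ x‖ ≤ C₂)
    (hp₁ : ∀ γ ∈ Γ, ∀ x, f₁ (x + γ) = f₁ x) :
    Summable (fun i => ‖(∫ x in D, f₁ x * χ i x ∂μ) * conj (∫ x in D, f₂ x * χ i x ∂μ)‖) ∧
    (μ.real D : ℂ) * ∫ x in D, f₁ x * conj (f₂ x) ∂μ
      = ∑' i, (∫ x in D, f₁ x * χ i x ∂μ) * conj (∫ x in D, f₂ x * χ i x ∂μ) := by
  classical
  have hfinm : IsFiniteMeasure (μ.restrict D) :=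
    ⟨by rw [Measure.restrict_apply_univ]; exact lt_top_iff_ne_top.mpr hfin⟩
  set A₁ : ι → ℂ := fun i => ∫ x in D, f₁ x * χ i x ∂μ with hA₁
  set A₂ : ι → ℂ := fun i => ∫ x in D, f₂ x * χ i x ∂μ with hA₂
  set a : ι → ℂ := fun i => A₁ i * conj (A₂ i) with ha
  have hs₁ := summable_coef_sq91 hD hfin χ hχ hdist f₁ hc₁ C₁ hb₁
  have hs₂ := summable_coef_sq91 hD hfin χ hχ hdist f₂ hc₂ C₂ hb₂
  have hsa : Summable fun i => ‖a i‖ := by
    refine Summable.of_nonneg_of_le (fun i => norm_nonneg _) (fun i => ?_) (hs₁.add hs₂)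
    show ‖A₁ i * conj (A₂ i)‖ ≤ ‖A₁ i‖ ^ 2 + ‖A₂ i‖ ^ 2
    rw [norm_mul, RCLike.norm_conj]
    nlinarith [sq_nonneg (‖A₁ i‖ - ‖A₂ i‖), norm_nonneg (A₁ i), norm_nonneg (A₂ i)]
  refine ⟨hsa, ?_⟩
  have hC₁ : 0 ≤ C₁ := le_trans (norm_nonneg _) (hb₁ 0)
  have hC₂ : 0 ≤ C₂ := le_trans (norm_nonneg _) (hb₂ 0)
  by_cases hm0 : μ.real D = 0
  · have hD0 : μ D = 0 := by
      rcases (ENNReal.toReal_eq_zero_iff _).mp hm0 with h | h
      · exact h
      · exact absurd h hfin
    have hν0 : μ.restrict D = 0 := Measure.restrict_eq_zero.mpr hD0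
    have hA0 : ∀ i, a i = 0 := by
      intro i
      show (∫ x in D, f₁ x * χ i x ∂μ) * conj (∫ x in D, f₂ x * χ i x ∂μ) = 0
      rw [hν0, integral_zero_measure, zero_mul]
    have ha0 : a = fun _ => (0 : ℂ) := funext hA0
    rw [hm0, ha0, tsum_zero, Complex.ofReal_zero, zero_mul]
  have hmpos : 0 < μ.real D := lt_of_le_of_ne measureReal_nonneg (Ne.symm hm0)
  have hmC : (μ.real D : ℂ) ≠ 0 := by exact_mod_cast hmpos.ne'
  -- the autocorrelation
  let h : G → ℂ := fun t => ∫ x in D, f₁ (x + t) * conj (f₂ x) ∂μ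
  have hh_cont : Continuous h := by
    refine continuous_of_dominated (bound := fun _ => C₁ * C₂) ?_ ?_ ?_ ?_
    · intro t
      exact ((hc₁.comp (continuous_id.add continuous_const)).mul
        (Complex.continuous_conj.comp hc₂)).aestronglyMeasurable
    · intro t
      refine Eventually.of_forall fun x => ?_
      rw [norm_mul, RCLike.norm_conj]
      exact mul_le_mul (hb₁ _) (hb₂ _) (norm_nonneg _) hC₁
    · exact integrable_const _
    · exact Eventually.of_forall fun x =>
        (hc₁.comp (continuous_const.add continuous_id)).mul continuous_const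
  have hh_per : ∀ γ ∈ Γ, ∀ t, h (t + γ) = h t := by
    intro γ hγ t
    show ∫ x in D, f₁ (x + (t + γ)) * conj (f₂ x) ∂μ = ∫ x in D, f₁ (x + t) * conj (f₂ x) ∂μ
    refine integral_congr_ae (Eventually.of_forall fun x => ?_)
    show f₁ (x + (t + γ)) * conj (f₂ x) = f₁ (x + t) * conj (f₂ x)
    rw [← add_assoc, hp₁ γ hγ]
  have hper₁ : ∀ i, ∀ γ ∈ Γ, ∀ x, f₁ (x + γ) * χ i (x + γ) = f₁ x * χ i x := by
    intro i γ hγ x
    rw [hp₁ γ hγ, (hχ i).periodic γ hγ]
  have hh_coef : ∀ i, ∫ t in D, h t * χ i t ∂μ = a i := by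
    intro i
    have hint : Integrable (Function.uncurry fun (t x : G) => f₁ (x + t) * conj (f₂ x) * χ i t)
        ((μ.restrict D).prod (μ.restrict D)) := by
      refine Integrable.of_bound ?_ (C₁ * C₂) (Eventually.of_forall fun p => ?_)
      · have hcont : Continuous (Function.uncurry fun (t x : G) =>
            f₁ (x + t) * conj (f₂ x) * χ i t) := by
          show Continuous fun p : G × G => f₁ (p.2 + p.1) * conj (f₂ p.2) * χ i p.1
          exact ((hc₁.comp (continuous_snd.add continuous_fst)).mul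
            (Complex.continuous_conj.comp (hc₂.comp continuous_snd))).mul
            ((hχ i).cont.comp continuous_fst)
        exact hcont.aestronglyMeasurable
      · show ‖f₁ (p.2 + p.1) * conj (f₂ p.2) * χ i p.1‖ ≤ C₁ * C₂
        rw [norm_mul, norm_mul, RCLike.norm_conj, (hχ i).norm, mul_one]
        exact mul_le_mul (hb₁ _) (hb₂ _) (norm_nonneg _) hC₁
    calc ∫ t in D, h t * χ i t ∂μ
        = ∫ t in D, ∫ x in D, f₁ (x + t) * conj (f₂ x) * χ i t ∂μ ∂μ := by
          refine integral_congr_ae (Eventually.of_forall fun t => ?_)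
          exact (integral_mul_const _ _).symm
      _ = ∫ x in D, ∫ t in D, f₁ (x + t) * conj (f₂ x) * χ i t ∂μ ∂μ :=
          integral_integral_swap hint
      _ = ∫ x in D, conj (f₂ x) * conj (χ i x) * A₁ i ∂μ := by
          refine integral_congr_ae (Eventually.of_forall fun x => ?_)
          have h1 : ∫ t in D, f₁ (x + t) * conj (f₂ x) * χ i t ∂μ
              = conj (f₂ x) * conj (χ i x) * ∫ t in D, f₁ (t + x) * χ i (t + x) ∂μ := by
            rw [← integral_const_mul]
            refine integral_congr_ae (Eventually.of_forall fun t => ?_)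
            show f₁ (x + t) * conj (f₂ x) * χ i t
              = conj (f₂ x) * conj (χ i x) * (f₁ (t + x) * χ i (t + x))
            rw [(hχ i).add t x, add_comm x t]
            have hcm := (hχ i).conj_mul x
            linear_combination (-(f₁ (t + x) * conj (f₂ x) * χ i t)) * hcm
          show ∫ t in D, f₁ (x + t) * conj (f₂ x) * χ i t ∂μ = conj (f₂ x) * conj (χ i x) * A₁ i
          rw [h1, setIntegral_add_right91 Γ μ D hD (fun y => f₁ y * χ i y) (hper₁ i) x]
      _ = a i := by
          rw [integral_mul_const]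
          have h2 : ∫ x in D, conj (f₂ x) * conj (χ i x) ∂μ = conj (A₂ i) := by
            rw [hA₂, ← integral_conj]
            refine integral_congr_ae (Eventually.of_forall fun x => ?_)
            show conj (f₂ x) * conj (χ i x) = conj (f₂ x * χ i x)
            rw [map_mul]
          rw [h2, ha]
          ring
  -- the Fourier series
  let S : G → ℂ := fun t => ∑' i, a i * conj (χ i t)
  have hS_cont : Continuous S :=
    continuous_tsum (fun i => continuous_const.mul (Complex.continuous_conj.comp (hχ i).cont))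
      hsa (fun i t => by rw [norm_mul, RCLike.norm_conj, (hχ i).norm, mul_one])
  have hS_per : ∀ γ ∈ Γ, ∀ t, S (t + γ) = S t := by
    intro γ hγ t
    show ∑' i, a i * conj (χ i (t + γ)) = ∑' i, a i * conj (χ i t)
    refine tsum_congr fun i => ?_
    rw [(hχ i).periodic γ hγ]
  have hS_coef : ∀ j, ∫ t in D, S t * χ j t ∂μ = a j * (μ.real D : ℂ) := by
    intro j
    have h1 : ∀ t, S t * χ j t = ∑' i, a i * conj (χ i t) * χ j t := by
      intro t
      show (∑' i, a i * conj (χ i t)) * χ j t = _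
      rw [tsum_mul_right]
    have hFint : ∀ i, Integrable (fun t => a i * conj (χ i t) * χ j t) (μ.restrict D) := by
      intro i
      refine Integrable.of_bound ?_ ‖a i‖ (Eventually.of_forall fun t => ?_)
      · exact ((continuous_const.mul (Complex.continuous_conj.comp (hχ i).cont)).mul
          (hχ j).cont).aestronglyMeasurable
      · rw [norm_mul, norm_mul, RCLike.norm_conj, (hχ i).norm, (hχ j).norm, mul_one, mul_one]
    have hFnorm : ∀ i, ∫ t in D, ‖a i * conj (χ i t) * χ j t‖ ∂μ = ‖a i‖ * μ.real D := by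
      intro i
      have : (fun t => ‖a i * conj (χ i t) * χ j t‖) = fun _ => ‖a i‖ := by
        funext t
        rw [norm_mul, norm_mul, RCLike.norm_conj, (hχ i).norm, (hχ j).norm, mul_one, mul_one]
      rw [this, setIntegral_const, smul_eq_mul, mul_comm]
    have hFsum : Summable fun i => ∫ t in D, ‖a i * conj (χ i t) * χ j t‖ ∂μ := by
      simp_rw [hFnorm]
      exact hsa.mul_right _
    have h2 : ∀ i, ∫ t in D, a i * conj (χ i t) * χ j t ∂μ
        = if i = j then a j * (μ.real D : ℂ) else 0 := by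
      intro i
      have h3 : ∫ t in D, a i * conj (χ i t) * χ j t ∂μ
          = a i * ∫ t in D, χ j t * conj (χ i t) ∂μ := by
        rw [← integral_const_mul]
        refine integral_congr_ae (Eventually.of_forall fun t => ?_)
        show a i * conj (χ i t) * χ j t = a i * (χ j t * conj (χ i t))
        ring
      rw [h3]
      by_cases hij : i = j
      · subst hij
        rw [if_pos rfl, setIntegral_char_self91 (hχ i)]
      · rw [if_neg hij]
        obtain ⟨t, ht⟩ := hdist j i (Ne.symm hij)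
        rw [setIntegral_char_mul_conj91 hD (hχ j) (hχ i) ht, mul_zero]
    calc ∫ t in D, S t * χ j t ∂μ
        = ∫ t in D, ∑' i, a i * conj (χ i t) * χ j t ∂μ := by
          refine integral_congr_ae (Eventually.of_forall fun t => ?_)
          exact h1 t
      _ = ∑' i, ∫ t in D, a i * conj (χ i t) * χ j t ∂μ :=
          (integral_tsum_of_summable_integral_norm hFint hFsum).symm
      _ = ∑' i, if i = j then a j * (μ.real D : ℂ) else 0 := tsum_congr h2
      _ = a j * (μ.real D : ℂ) := tsum_ite_eq j _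
  -- completeness
  have hSb : ∀ t, ‖S t‖ ≤ ∑' i, ‖a i‖ := by
    intro t
    have hsum : Summable fun i => ‖a i * conj (χ i t)‖ := by
      have : (fun i => ‖a i * conj (χ i t)‖) = fun i => ‖a i‖ := by
        funext i
        rw [norm_mul, RCLike.norm_conj, (hχ i).norm, mul_one]
      rw [this]
      exact hsa
    refine le_trans (norm_tsum_le_tsum_norm hsum) (le_of_eq ?_)
    refine tsum_congr fun i => ?_
    rw [norm_mul, RCLike.norm_conj, (hχ i).norm, mul_one]
  have hzero := hcomp (fun t => (μ.real D : ℂ) * h t - S t)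
    ((continuous_const.mul hh_cont).sub hS_cont)
    (fun γ hγ t => by
      show (μ.real D : ℂ) * h (t + γ) - S (t + γ) = (μ.real D : ℂ) * h t - S t
      rw [hh_per γ hγ, hS_per γ hγ])
    (fun i => by
      have hi1 : Integrable (fun t => (μ.real D : ℂ) * h t * χ i t) (μ.restrict D) := by
        refine Integrable.of_bound ?_ (μ.real D * (C₁ * C₂ * μ.real D))
          (Eventually.of_forall fun t => ?_)
        · exact ((continuous_const.mul hh_cont).mul (hχ i).cont).aestronglyMeasurable
        · rw [norm_mul, norm_mul, (hχ i).norm, mul_one, Complex.norm_real,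
            Real.norm_of_nonneg hmpos.le]
          refine mul_le_mul_of_nonneg_left ?_ hmpos.le
          refine norm_setIntegral_le_of_norm_le_const (lt_top_iff_ne_top.mpr hfin)
            (fun x _ => ?_) |>.trans (le_of_eq rfl)
          rw [norm_mul, RCLike.norm_conj]
          exact mul_le_mul (hb₁ _) (hb₂ _) (norm_nonneg _) hC₁
      have hi2 : Integrable (fun t => S t * χ i t) (μ.restrict D) := by
        refine Integrable.of_bound ?_ (∑' i, ‖a i‖) (Eventually.of_forall fun t => ?_)
        · exact (hS_cont.mul (hχ i).cont).aestronglyMeasurable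
        · rw [norm_mul, (hχ i).norm, mul_one]
          exact hSb t
      have hsplit : (fun t => ((μ.real D : ℂ) * h t - S t) * χ i t)
          = fun t => (μ.real D : ℂ) * h t * χ i t - S t * χ i t := by
        funext t
        ring
      rw [hsplit, integral_sub hi1 hi2, hS_coef i]
      have : ∫ t in D, (μ.real D : ℂ) * h t * χ i t ∂μ = (μ.real D : ℂ) * a i := by
        rw [← hh_coef i, ← integral_const_mul]
        refine integral_congr_ae (Eventually.of_forall fun t => ?_)
        show (μ.real D : ℂ) * h t * χ i t = (μ.real D : ℂ) * (h t * χ i t)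
        ring
      rw [this]
      ring)
  have h0 := hzero 0
  have hh0 : h 0 = ∫ x in D, f₁ x * conj (f₂ x) ∂μ := by
    show ∫ x in D, f₁ (x + 0) * conj (f₂ x) ∂μ = _
    simp only [add_zero]
  have hS0 : S 0 = ∑' i, a i := by
    show ∑' i, a i * conj (χ i 0) = _
    refine tsum_congr fun i => ?_
    rw [(hχ i).zero, map_one, mul_one]
  have h0' : (μ.real D : ℂ) * h 0 - S 0 = 0 := h0
  rw [hh0, hS0] at h0'
  exact sub_eq_zero.mp h0'

end Abstract

end Fermat.Agent.LT.T7.H91

end
-- ===== PACK-END LT/T7/H91/ParsevalAbs.lean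

-- ===== PACK-BEGIN LT/T8/H47/PerFourier.lean
section


/-!
# Row LT, tower T8, leaf MS4a part 1 (helper47), OFF-MAIN: Fourier coefficients on a period

Mathlib only.  For a `T`-periodic continuous function `f : ℝ → ℂ` and `n : ℤ`,
`coef47 T f n = T⁻¹ ∫₀ᵀ e(-n x / T) f x dx`.

* `bessel47`: `∑_{n ∈ F} ‖coef47 T f n‖² ≤ C²` if `‖f‖ ≤ C`;
* `exists_coef_ne_zero47`: a non-constant continuous periodic function has a non-zero coefficient
  of non-zero frequency;
* `coef47_sumShift`: the coefficients of `x ↦ ∑_{j < p} f ((x + j T) / p)` are `p · coef f (p n)`;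
* `coef47_dilate_mul` / `coef47_dilate_of_not_dvd`: the coefficients of `x ↦ f (p x)` are
  `coef f (n / p)` if `p ∣ n` and `0` otherwise;
* `continuousOn_coef47`: continuity in a parameter.
-/

set_option autoImplicit false

open MeasureTheory Real

noncomputable section

namespace Fermat.Agent.LT.T8.H47

/-- The exponential `e_n (x) = exp (2 π i n x / T)`. -/
def ek47 (T : ℝ) (n : ℤ) (x : ℝ) : ℂ := Complex.exp (2 * π * Complex.I * n * x / T)

/-- The `n`-th Fourier coefficient on the period `[0, T]`. -/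
def coef47 (T : ℝ) (f : ℝ → ℂ) (n : ℤ) : ℂ :=
  (1 / (T : ℂ)) * ∫ x in (0 : ℝ)..T, ek47 T (-n) x * f x

theorem continuous_ek47 (T : ℝ) (n : ℤ) : Continuous (ek47 T n) := by
  unfold ek47
  fun_prop

theorem norm_ek47 (T : ℝ) (n : ℤ) (x : ℝ) : ‖ek47 T n x‖ = 1 := by
  unfold ek47
  have : (2 * (π : ℂ) * Complex.I * n * x / T) = ((2 * π * n * x / T : ℝ) : ℂ) * Complex.I := by
    push_cast
    ring
  rw [this, Complex.norm_exp_ofReal_mul_I]

theorem ek47_ne_zero (T : ℝ) (n : ℤ) (x : ℝ) : ek47 T n x ≠ 0 := Complex.exp_ne_zero _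

theorem ek47_zero (T : ℝ) (x : ℝ) : ek47 T 0 x = 1 := by
  simp [ek47]

theorem ek47_add (T : ℝ) (m n : ℤ) (x : ℝ) : ek47 T (m + n) x = ek47 T m x * ek47 T n x := by
  unfold ek47
  rw [← Complex.exp_add]
  congr 1
  push_cast
  ring

theorem ek47_neg (T : ℝ) (n : ℤ) (x : ℝ) : ek47 T (-n) x = (ek47 T n x)⁻¹ := by
  unfold ek47
  rw [← Complex.exp_neg]
  congr 1
  push_cast
  ring

/-- `e_n (x + k T) = e_n x` for integers `k`. -/
theorem ek47_add_int_mul {T : ℝ} (hT : T ≠ 0) (n k : ℤ) (x : ℝ) :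
    ek47 T n (x + k * T) = ek47 T n x := by
  unfold ek47
  have hTc : (T : ℂ) ≠ 0 := Complex.ofReal_ne_zero.mpr hT
  have : (2 * (π : ℂ) * Complex.I * n * ((x + k * T : ℝ) : ℂ) / T)
      = 2 * π * Complex.I * n * x / T + ((n * k : ℤ) : ℂ) * (2 * π * Complex.I) := by
    push_cast
    field_simp
  rw [this, Complex.exp_add, Complex.exp_int_mul_two_pi_mul_I, mul_one]

theorem ek47_periodic {T : ℝ} (hT : T ≠ 0) (n : ℤ) : Function.Periodic (ek47 T n) T := by
  intro x
  have := ek47_add_int_mul hT n 1 x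
  simpa using this

theorem coef47_eq_fourierCoeffOn {T : ℝ} (hT : 0 < T) (f : ℝ → ℂ) (n : ℤ) :
    fourierCoeffOn (a := 0) (b := T) hT f n = coef47 T f n := by
  rw [fourierCoeffOn_eq_integral]
  simp only [fourier_coe_apply, smul_eq_mul, sub_zero]
  unfold coef47 ek47
  push_cast
  rw [Complex.real_smul]
  push_cast
  rfl

/-- **Bessel's inequality** for a bounded continuous function. -/
theorem bessel47 {T : ℝ} (hT : 0 < T) {f : ℝ → ℂ} (hf : Continuous f) {C : ℝ}
    (hC : ∀ x, ‖f x‖ ≤ C) (F : Finset ℤ) :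
    ∑ n ∈ F, ‖coef47 T f n‖ ^ 2 ≤ C ^ 2 := by
  have hC0 : 0 ≤ C := (norm_nonneg _).trans (hC 0)
  have hmem : MemLp f 2 (volume.restrict (Set.Ioc 0 T)) :=
    MemLp.of_bound hf.aestronglyMeasurable C (Filter.Eventually.of_forall hC)
  have hsum := hasSum_sq_fourierCoeffOn (a := 0) (b := T) hT hmem
  simp only [sub_zero, smul_eq_mul] at hsum
  have hle := sum_le_hasSum F (fun i _ => by positivity) hsum
  have e : ∀ n ∈ F, ‖coef47 T f n‖ ^ 2 = ‖fourierCoeffOn (a := 0) (b := T) hT f n‖ ^ 2 := by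
    intro n _
    rw [coef47_eq_fourierCoeffOn hT]
  rw [Finset.sum_congr rfl e]
  refine hle.trans ?_
  have hint : ∫ x in (0 : ℝ)..T, ‖f x‖ ^ 2 ≤ ∫ _x in (0 : ℝ)..T, C ^ 2 := by
    apply intervalIntegral.integral_mono_on hT.le
    · exact (Continuous.intervalIntegrable (by fun_prop) _ _)
    · exact intervalIntegrable_const
    · intro x _
      exact pow_le_pow_left₀ (norm_nonneg _) (hC x) 2
  rw [intervalIntegral.integral_const, sub_zero, smul_eq_mul] at hint
  calc T⁻¹ * ∫ x in (0 : ℝ)..T, ‖f x‖ ^ 2 ≤ T⁻¹ * (T * C ^ 2) :=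
        mul_le_mul_of_nonneg_left hint (inv_nonneg.mpr hT.le)
    _ = C ^ 2 := by field_simp

/-! ## Linearity -/

theorem intervalIntegrable_ek47_mul {T : ℝ} {f : ℝ → ℂ} (hf : Continuous f) (n : ℤ) (a b : ℝ) :
    IntervalIntegrable (fun x => ek47 T n x * f x) volume a b :=
  ((continuous_ek47 T n).mul hf).intervalIntegrable a b

theorem coef47_add {T : ℝ} {f g : ℝ → ℂ} (hf : Continuous f) (hg : Continuous g) (n : ℤ) :
    coef47 T (fun x => f x + g x) n = coef47 T f n + coef47 T g n := by
  unfold coef47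
  rw [← mul_add, ← intervalIntegral.integral_add (intervalIntegrable_ek47_mul hf _ _ _)
    (intervalIntegrable_ek47_mul hg _ _ _)]
  congr 1
  refine intervalIntegral.integral_congr fun x _ => ?_
  simp only
  ring

theorem coef47_const_mul (T : ℝ) (f : ℝ → ℂ) (c : ℂ) (n : ℤ) :
    coef47 T (fun x => c * f x) n = c * coef47 T f n := by
  unfold coef47
  have e : ∫ x in (0 : ℝ)..T, ek47 T (-n) x * (c * f x)
      = c * ∫ x in (0 : ℝ)..T, ek47 T (-n) x * f x := by
    rw [← intervalIntegral.integral_const_mul c (fun x => ek47 T (-n) x * f x)]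
    refine intervalIntegral.integral_congr fun x _ => ?_
    ring
  rw [e]
  ring

theorem coef47_zero_fun (T : ℝ) (n : ℤ) : coef47 T (fun _ => (0 : ℂ)) n = 0 := by
  unfold coef47
  simp

theorem coef47_sum {ι : Type*} (s : Finset ι) {T : ℝ} {f : ι → ℝ → ℂ}
    (hf : ∀ i ∈ s, Continuous (f i)) (n : ℤ) :
    coef47 T (fun x => ∑ i ∈ s, f i x) n = ∑ i ∈ s, coef47 T (f i) n := by
  classical
  induction s using Finset.induction_on with
  | empty => simpa using coef47_zero_fun T n
  | insert i s hi ih =>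
    have h1 : Continuous (f i) := hf i (Finset.mem_insert_self i s)
    have h2 : ∀ j ∈ s, Continuous (f j) := fun j hj => hf j (Finset.mem_insert_of_mem hj)
    have h3 : Continuous (fun x => ∑ j ∈ s, f j x) := continuous_finsetSum s h2
    have e : (fun x => ∑ j ∈ insert i s, f j x) = fun x => f i x + ∑ j ∈ s, f j x := by
      funext x
      rw [Finset.sum_insert hi]
    rw [e, coef47_add h1 h3, Finset.sum_insert hi, ih h2]

/-! ## Coefficients of a constant -/

theorem integral_ek47_eq_zero {T : ℝ} (hT : 0 < T) {n : ℤ} (hn : n ≠ 0) :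
    ∫ x in (0 : ℝ)..T, ek47 T n x = 0 := by
  have hTc : (T : ℂ) ≠ 0 := Complex.ofReal_ne_zero.mpr hT.ne'
  have hnc : (n : ℂ) ≠ 0 := Int.cast_ne_zero.mpr hn
  set c : ℂ := 2 * π * Complex.I * n / T with hc
  have hc0 : c ≠ 0 := by
    rw [hc]
    refine div_ne_zero (mul_ne_zero (mul_ne_zero (mul_ne_zero two_ne_zero ?_) Complex.I_ne_zero)
      hnc) hTc
    exact Complex.ofReal_ne_zero.mpr Real.pi_ne_zero
  have e : ∀ x : ℝ, ek47 T n x = Complex.exp (c * x) := by
    intro x
    unfold ek47
    congr 1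
    rw [hc]
    ring
  simp_rw [e]
  rw [integral_exp_mul_complex hc0]
  have h1 : Complex.exp (c * (T : ℝ)) = 1 := by
    have : c * (T : ℝ) = (n : ℂ) * (2 * π * Complex.I) := by
      rw [hc]
      field_simp
    rw [this, Complex.exp_int_mul_two_pi_mul_I]
  rw [h1]
  simp

theorem coef47_const {T : ℝ} (hT : 0 < T) (c : ℂ) (n : ℤ) :
    coef47 T (fun _ => c) n = if n = 0 then c else 0 := by
  have hTc : (T : ℂ) ≠ 0 := Complex.ofReal_ne_zero.mpr hT.ne'
  unfold coef47
  rw [intervalIntegral.integral_mul_const]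
  split_ifs with h
  · subst h
    simp only [neg_zero, ek47_zero]
    rw [intervalIntegral.integral_const, sub_zero]
    simp only [Complex.real_smul, mul_one]
    field_simp
  · rw [integral_ek47_eq_zero hT (neg_ne_zero.mpr h)]
    simp

/-! ## Uniqueness -/

/-- A continuous `T`-periodic function all of whose Fourier coefficients of non-zero frequency
vanish is constant. -/
theorem eq_const_of_coef47_eq_zero {T : ℝ} (hT : 0 < T) {f : ℝ → ℂ} (hf : Continuous f)
    (hper : Function.Periodic f T) (h0 : ∀ n : ℤ, n ≠ 0 → coef47 T f n = 0) (x : ℝ) :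
    f x = coef47 T f 0 := by
  set c₀ : ℂ := coef47 T f 0 with hc₀
  set g : ℝ → ℂ := fun x => f x + (-c₀) with hg
  have hgc : Continuous g := hf.add continuous_const
  have hcoef : ∀ n : ℤ, coef47 T g n = 0 := by
    intro n
    rw [hg, coef47_add hf continuous_const, coef47_const hT]
    split_ifs with h
    · subst h
      rw [← hc₀]
      ring
    · rw [h0 n h, add_zero]
  have hmem : MemLp g 2 (volume.restrict (Set.Ioc 0 T)) := by
    obtain ⟨C, hC⟩ := (isCompact_Icc (a := (0 : ℝ)) (b := T)).exists_bound_of_continuousOn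
      hgc.continuousOn
    refine MemLp.of_bound hgc.aestronglyMeasurable C ?_
    rw [ae_restrict_iff' measurableSet_Ioc]
    exact Filter.Eventually.of_forall fun x hx => hC x (Set.Ioc_subset_Icc_self hx)
  have hsum := hasSum_sq_fourierCoeffOn (a := 0) (b := T) hT hmem
  simp only [sub_zero, smul_eq_mul] at hsum
  have hz : (fun i : ℤ => ‖fourierCoeffOn (a := 0) (b := T) hT g i‖ ^ 2) = fun _ => 0 := by
    funext i
    rw [coef47_eq_fourierCoeffOn hT, hcoef i]
    simp
  rw [hz] at hsum
  have hval : T⁻¹ * ∫ x in (0 : ℝ)..T, ‖g x‖ ^ 2 = 0 := hsum.unique hasSum_zero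
  have hint : ∫ x in (0 : ℝ)..T, ‖g x‖ ^ 2 = 0 := by
    rcases mul_eq_zero.mp hval with h | h
    · exact absurd (inv_eq_zero.mp h) hT.ne'
    · exact h
  have hcont2 : Continuous fun x => ‖g x‖ ^ 2 := by fun_prop
  have hae := (intervalIntegral.integral_eq_zero_iff_of_le_of_nonneg_ae hT.le
    (Filter.Eventually.of_forall fun x => by positivity)
    (hcont2.intervalIntegrable 0 T)).mp hint
  have heq : Set.EqOn (fun x => ‖g x‖ ^ 2) 0 (Set.Ioc 0 T) :=
    Measure.eqOn_Ioc_of_ae_eq volume hae hcont2.continuousOn continuousOn_const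
  obtain ⟨y, hy, hxy⟩ := hper.exists_mem_Ioc hT (a := 0) x
  rw [zero_add] at hy
  have h1 := heq hy
  simp only [Pi.zero_apply] at h1
  have h2 : g y = 0 := by
    have := pow_eq_zero_iff (two_ne_zero) |>.mp h1
    exact norm_eq_zero.mp this
  rw [hxy]
  rw [hg] at h2
  simp only at h2
  exact eq_neg_of_add_eq_zero_left h2 |>.trans (neg_neg _)

/-- A non-constant continuous periodic function has a non-zero Fourier coefficient of non-zero
frequency. -/
theorem exists_coef47_ne_zero {T : ℝ} (hT : 0 < T) {f : ℝ → ℂ} (hf : Continuous f)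
    (hper : Function.Periodic f T) {x x' : ℝ} (hne : f x ≠ f x') :
    ∃ n : ℤ, n ≠ 0 ∧ coef47 T f n ≠ 0 := by
  by_contra h
  push Not at h
  exact hne ((eq_const_of_coef47_eq_zero hT hf hper h x).trans
    (eq_const_of_coef47_eq_zero hT hf hper h x').symm)

/-! ## Dilation `x ↦ f (p x)` -/

theorem ek47_mul_arg (T : ℝ) (p : ℕ) (n : ℤ) (x : ℝ) :
    ek47 T (p * n) x = ek47 T n (p * x) := by
  unfold ek47
  congr 1
  push_cast
  ring

/-- The coefficients of index `p n` of `x ↦ f (p x)`. -/
theorem coef47_dilate_mul {T : ℝ} {f : ℝ → ℂ} (hf : Continuous f)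
    (hper : Function.Periodic f T) {p : ℕ} (hp : 0 < p) (n : ℤ) :
    coef47 T (fun x => f (p * x)) (p * n) = coef47 T f n := by
  unfold coef47
  congr 1
  set G : ℝ → ℂ := fun w => ek47 T (-n) w * f w with hG
  have hGc : Continuous G := (continuous_ek47 T _).mul hf
  have hGper : Function.Periodic G T := by
    intro w
    rw [hG]
    simp only
    by_cases hT : T = 0
    · subst hT
      simp
    · rw [ek47_periodic hT, hper w]
  have e1 : ∀ x : ℝ, ek47 T (-(p * n)) x * f (p * x) = G (p * x) := by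
    intro x
    rw [hG]
    simp only
    rw [show -((p : ℤ) * n) = (p : ℤ) * (-n) by ring, ek47_mul_arg]
  have hp0 : (p : ℝ) ≠ 0 := Nat.cast_ne_zero.mpr hp.ne'
  calc ∫ x in (0 : ℝ)..T, ek47 T (-(p * n)) x * f (p * x)
      = ∫ x in (0 : ℝ)..T, G (p * x) := intervalIntegral.integral_congr fun x _ => e1 x
    _ = (p : ℝ)⁻¹ • ∫ x in (p : ℝ) * 0..(p : ℝ) * T, G x :=
        intervalIntegral.integral_comp_mul_left G hp0
    _ = (p : ℝ)⁻¹ • ((p : ℤ) • ∫ x in (0 : ℝ)..0 + T, G x) := by
        have h := hGper.intervalIntegral_add_zsmul_eq (p : ℤ) 0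
          (fun t₁ t₂ => hGc.intervalIntegrable t₁ t₂)
        rw [← h]
        congr 2
        · simp
        · simp
    _ = ∫ x in (0 : ℝ)..T, G x := by
        have hpc : (p : ℂ) ≠ 0 := Nat.cast_ne_zero.mpr hp.ne'
        rw [zero_add, zsmul_eq_mul, Complex.real_smul]
        push_cast
        rw [← mul_assoc, inv_mul_cancel₀ hpc, one_mul]

/-- The coefficients of `x ↦ f (p x)` of index prime to `p` vanish. -/
theorem coef47_dilate_of_not_dvd {T : ℝ} (hT : 0 < T) {f : ℝ → ℂ}
    (hper : Function.Periodic f T) {p : ℕ} (hp : 0 < p) {n : ℤ} (hn : ¬ (p : ℤ) ∣ n) :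
    coef47 T (fun x => f (p * x)) n = 0 := by
  unfold coef47
  have hTc : (T : ℂ) ≠ 0 := Complex.ofReal_ne_zero.mpr hT.ne'
  have hp0 : (p : ℝ) ≠ 0 := Nat.cast_ne_zero.mpr hp.ne'
  have hpc : (p : ℂ) ≠ 0 := Nat.cast_ne_zero.mpr hp.ne'
  set H : ℝ → ℂ := fun x => ek47 T (-n) x * f (p * x) with hH
  set ζ : ℂ := Complex.exp (2 * π * Complex.I * (-n : ℤ) / p) with hζ
  have hHper : Function.Periodic H T := by
    intro x
    rw [hH]
    simp only
    rw [ek47_periodic hT.ne', mul_add]
    have := hper.nat_mul p (p * x)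
    rw [this]
  have hshift : ∀ x : ℝ, H (x + T / p) = ζ * H x := by
    intro x
    rw [hH, hζ]
    simp only
    have e1 : (p : ℝ) * (x + T / p) = p * x + T := by field_simp
    rw [e1, hper]
    have e2 : ek47 T (-n) (x + T / p)
        = Complex.exp (2 * π * Complex.I * (-n : ℤ) / p) * ek47 T (-n) x := by
      unfold ek47
      rw [← Complex.exp_add]
      congr 1
      push_cast
      field_simp
      ring
    rw [e2]
    ring
  have hI : ∫ x in (0 : ℝ)..T, H x = ζ * ∫ x in (0 : ℝ)..T, H x := by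
    have h1 : ∫ x in (0 : ℝ)..T, H (x + T / p) = ∫ x in (0 : ℝ)..T, H x := by
      rw [intervalIntegral.integral_comp_add_right]
      have := hHper.intervalIntegral_add_eq (0 + T / p) 0
      simp only [zero_add] at this
      rw [zero_add, add_comm T, this]
    calc ∫ x in (0 : ℝ)..T, H x = ∫ x in (0 : ℝ)..T, H (x + T / p) := h1.symm
      _ = ∫ x in (0 : ℝ)..T, ζ * H x := intervalIntegral.integral_congr fun x _ => hshift x
      _ = ζ * ∫ x in (0 : ℝ)..T, H x := intervalIntegral.integral_const_mul ζ H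
  have hζ1 : ζ ≠ 1 := by
    intro h1
    rw [hζ, Complex.exp_eq_one_iff] at h1
    obtain ⟨m, hm⟩ := h1
    apply hn
    have h2π : (2 * (π : ℂ) * Complex.I) ≠ 0 := Complex.two_pi_I_ne_zero
    have h3 : ((-n : ℤ) : ℂ) = (m : ℂ) * p := by
      have h4 : 2 * (π : ℂ) * Complex.I * ((-n : ℤ) : ℂ) = 2 * π * Complex.I * ((m : ℂ) * p) := by
        field_simp at hm
        rw [hm]
        ring
      exact mul_left_cancel₀ h2π h4
    have h5 : (-n : ℤ) = m * p := by exact_mod_cast h3
    exact ⟨-m, by linarith⟩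
  have hzero : ∫ x in (0 : ℝ)..T, H x = 0 := by
    have h6 : (1 - ζ) * ∫ x in (0 : ℝ)..T, H x = 0 := by
      rw [sub_mul, one_mul, ← hI, sub_self]
    rcases mul_eq_zero.mp h6 with h | h
    · exact absurd (sub_eq_zero.mp h).symm hζ1
    · exact h
  rw [hzero, mul_zero]

/-! ## The trace `x ↦ ∑_{j < p} f ((x + j T) / p)` -/

/-- The coefficients of `x ↦ ∑_{j < p} f ((x + j T) / p)`. -/
theorem coef47_sumShift {T : ℝ} (hT : 0 < T) {f : ℝ → ℂ} (hf : Continuous f)
    {p : ℕ} (hp : 0 < p) (n : ℤ) :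
    coef47 T (fun x => ∑ j ∈ Finset.range p, f ((x + j * T) / p)) n
      = p * coef47 T f (p * n) := by
  have hp0 : (p : ℝ) ≠ 0 := Nat.cast_ne_zero.mpr hp.ne'
  have hcj : ∀ j : ℕ, Continuous fun x : ℝ => f ((x + j * T) / p) := by
    intro j
    exact hf.comp (by fun_prop)
  rw [coef47_sum _ (fun j _ => hcj j)]
  set G : ℝ → ℂ := fun w => ek47 T (-(p * n)) w * f w with hG
  have hGc : Continuous G := (continuous_ek47 T _).mul hf
  have key : ∀ j : ℕ, coef47 T (fun x : ℝ => f ((x + j * T) / p)) n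
      = (1 / (T : ℂ)) * ((p : ℂ) * ∫ x in (j * T / p : ℝ)..((j + 1 : ℕ) * T / p : ℝ), G x) := by
    intro j
    unfold coef47
    congr 1
    have e1 : ∀ x : ℝ, ek47 T (-n) x * f ((x + j * T) / p) = G (x / p + j * T / p) := by
      intro x
      rw [hG]
      simp only
      have e2 : x / p + j * T / p = (x + j * T) / p := by ring
      rw [e2, show -((p : ℤ) * n) = (p : ℤ) * (-n) by ring, ek47_mul_arg]
      have e3 : (p : ℝ) * ((x + j * T) / p) = x + (j : ℤ) * T := by
        push_cast
        field_simp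
      rw [e3, ek47_add_int_mul hT.ne']
    rw [intervalIntegral.integral_congr fun x _ => e1 x,
      intervalIntegral.integral_comp_div_add G hp0, Complex.real_smul]
    congr 2
    · simp
    · push_cast
      ring
  rw [Finset.sum_congr rfl fun j _ => key j, ← Finset.mul_sum, ← Finset.mul_sum]
  have hadj := intervalIntegral.sum_integral_adjacent_intervals (f := G) (μ := volume)
    (a := fun k : ℕ => (k : ℝ) * T / p) (n := p)
    (fun k _ => hGc.intervalIntegrable _ _)
  rw [hadj]
  unfold coef47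
  have e0 : ((0 : ℕ) : ℝ) * T / p = 0 := by simp
  have e1 : (p : ℝ) * T / p = T := by field_simp
  rw [e0, e1]
  ring

/-! ## Continuity in a parameter -/

/-- The Fourier coefficients of a bounded family of continuous functions which depends
continuously on a parameter (separately in the two variables) are continuous in the parameter. -/
theorem continuousOn_coef47 {T : ℝ} (hT : 0 ≤ T) {F : ℝ → ℝ → ℂ} {s : Set ℝ} {C : ℝ}
    (hx : ∀ y ∈ s, Continuous (F y)) (hy : ∀ x, ContinuousOn (fun y => F y x) s)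
    (hC : ∀ y ∈ s, ∀ x, ‖F y x‖ ≤ C) (n : ℤ) :
    ContinuousOn (fun y => coef47 T (F y) n) s := by
  unfold coef47
  refine ContinuousOn.mul continuousOn_const ?_
  simp_rw [intervalIntegral.integral_of_le hT]
  refine continuousOn_of_dominated (bound := fun _ => C) ?_ ?_ ?_ ?_
  · intro y hy'
    exact ((continuous_ek47 T _).mul (hx y hy')).aestronglyMeasurable
  · intro y hy'
    refine Filter.Eventually.of_forall fun x => ?_
    rw [norm_mul, norm_ek47, one_mul]
    exact hC y hy' x
  · exact integrableOn_const (by simp)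
  · refine Filter.Eventually.of_forall fun x => ?_
    exact ContinuousOn.mul continuousOn_const (hy x)

end Fermat.Agent.LT.T8.H47

end
end
-- ===== PACK-END LT/T8/H47/PerFourier.lean

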