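import Mathlib
import Fermat.Prelude.Def_LanglandsTunnell_ExplicitLift
import Fermat.Agent.Pack.LT2.E2L3
import Fermat.Agent.Pack.LT2.E2L0
import Fermat.Agent.Pack.LT2.E0L1
import Fermat.Agent.Pack.LT2.E2L2
import Fermat.Agent.Pack.LT2.E0L3
import Fermat.Agent.Pack.LT2.E2L1
import Fermat.Agent.Pack.LT2.E0L2
import Fermat.Agent.Pack.LT2.E1L0

set_option linter.all false

-- ===== PACK-BEGIN LT/H556/T0/ArchLocal.lean
section


/-!
# Row LT, tower T0 (helper556): local elements at a COMPLEX place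

On `LT/T8/H864/Local.lean` (helper864, byte-identical copy).  `locInfComplex hw : GL₂(ℂ) →* GL₂(𝔸_K)`
for a complex place `w`; an element supported at `w` is determined by its complex matrix.
OFF-MAIN.
-/

set_option autoImplicit false
set_option linter.unusedSectionVars false

open IsDedekindDomain NumberField

noncomputable section

namespace Fermat.Agent.LT.H556.T0

open Fermat.Agent.LT.H556.A0 Fermat.Agent.LT.T8.H864

variable {K : Type} [Field K] [NumberField K]

/-- The complex numbers inside the completion at a complex place. -/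
def cplxHom {w : InfinitePlace K} (hw : w.IsComplex) : ℂ →+* w.Completion :=
  (InfinitePlace.Completion.ringEquivComplexOfIsComplex hw).symm.toRingHom

theorem extensionEmbedding_cplxHom {w : InfinitePlace K} (hw : w.IsComplex) (z : ℂ) :
    InfinitePlace.Completion.extensionEmbedding w (cplxHom hw z) = z :=
  (InfinitePlace.Completion.ringEquivComplexOfIsComplex hw).apply_symm_apply z

/-- The local element at the complex place `w` given by a complex matrix. -/
def locInfComplex {w : InfinitePlace K} (hw : w.IsComplex) : GL (Fin 2) ℂ →* G K :=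
  (locInf w).comp (Matrix.GeneralLinearGroup.map (cplxHom hw))

theorem isLocalAtInf_locInfComplex {w : InfinitePlace K} (hw : w.IsComplex) (m : GL (Fin 2) ℂ) :
    IsLocalAtInf w (locInfComplex hw m) := isLocalAtInf_locInf w _

/-- The complex matrix of `locInfComplex hw m` at `w` is `m`. -/
theorem infComp_locInfComplex {w : InfinitePlace K} (hw : w.IsComplex) (m : GL (Fin 2) ℂ) :
    infComp w (locInfComplex hw m) = (m : Matrix (Fin 2) (Fin 2) ℂ) := by
  show infComp w (locInf w (Matrix.GeneralLinearGroup.map (cplxHom hw) m)) = _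
  rw [infComp_locInf_self]
  refine Matrix.ext fun i j => ?_
  exact extensionEmbedding_cplxHom hw _

/-- An element supported at the infinite place `w` is determined by its complex matrix at `w`. -/
theorem eq_of_isLocalAtInf {w : InfinitePlace K} {g g' : G K} (hg : IsLocalAtInf w g)
    (hg' : IsLocalAtInf w g') (h : infComp w g = infComp w g') : g = g' := by
  refine G_ext (fun w' => ?_) (fun v => ?_)
  · by_cases hw' : w' = w
    · subst hw'
      apply Units.ext
      rw [infComp_eq_infCompHom, infComp_eq_infCompHom] at h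
      refine Matrix.ext fun i j => ?_
      have hij := congrFun (congrFun h i) j
      exact (InfinitePlace.Completion.extensionEmbedding w').injective hij
    · rw [(trivAtInf_iff_hom w' g).1 (hg.1 w' hw'), (trivAtInf_iff_hom w' g').1 (hg'.1 w' hw')]
  · rw [(trivAtFin_iff_hom v g).1 (hg.2 v), (trivAtFin_iff_hom v g').1 (hg'.2 v)]

theorem eq_locInfComplex {w : InfinitePlace K} (hw : w.IsComplex) {g : G K}
    (hg : IsLocalAtInf w g) (m : GL (Fin 2) ℂ)
    (h : infComp w g = (m : Matrix (Fin 2) (Fin 2) ℂ)) : g = locInfComplex hw m :=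
  eq_of_isLocalAtInf hg (isLocalAtInf_locInfComplex hw m) (h.trans (infComp_locInfComplex hw m).symm)

/-- Unitary matrices at a complex place lie in the compact group of `A0.IsArchCompact`. -/
theorem isArchCompact_locInfComplex {w : InfinitePlace K} (hw : w.IsComplex) (u : GL (Fin 2) ℂ)
    (hu : (u : Matrix (Fin 2) (Fin 2) ℂ) * (u : Matrix (Fin 2) (Fin 2) ℂ).conjTranspose = 1) :
    IsArchCompact w (locInfComplex hw u) := by
  refine ⟨isLocalAtInf_locInfComplex hw u, ?_, fun hr => ?_⟩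
  · rw [infComp_locInfComplex]
    exact hu
  · exact absurd hr (InfinitePlace.not_isReal_iff_isComplex.2 hw)

/-- Positive real scalar matrices at a complex place. -/
theorem isArchPosScalar_locInfComplex {w : InfinitePlace K} (hw : w.IsComplex) (z : GL (Fin 2) ℂ)
    (r : ℝ) (hr : 0 < r)
    (hz : (z : Matrix (Fin 2) (Fin 2) ℂ) = Matrix.diagonal (fun _ => (r : ℂ))) :
    IsArchPosScalar w (locInfComplex hw z) :=
  ⟨isLocalAtInf_locInfComplex hw z, r, hr, by rw [infComp_locInfComplex, hz]⟩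

end Fermat.Agent.LT.H556.T0

end

end
-- ===== PACK-END LT/H556/T0/ArchLocal.lean

-- ===== PACK-BEGIN LT/H470/Pullback.lean
section


/-!
# Row LT, tower A2, pre-leaf ARCH-MVP (helper470): pull-back of eigenfunctions by isometries

Mathlib only.  `ConfMap470 Φ Φ' Φ''`: a twice differentiable self-map of the upper half-space of
`ℝ³` which is an isometry of the hyperbolic metric in the infinitesimal form needed here
(`y² J Jᵀ = Y² · 1` and `y² ΔΦ - y ∂_y Φ = (0, 0, -Y)`, `Y` the height of `Φ p`).  Such a map pulls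
solutions of the hyperbolic Laplace equation back to solutions (`EigenData470.pullback`).
-/

set_option autoImplicit false

open Real

noncomputable section

namespace Fermat.Agent.LT.H470

/-- A twice differentiable self-map of the upper half-space which preserves the hyperbolic
Laplacian (infinitesimal form). -/
structure ConfMap470 (Φ : E3 → E3) (Φ' : E3 → E3 →L[ℝ] E3)
    (Φ'' : E3 → E3 →L[ℝ] E3 →L[ℝ] E3) : Prop where
  maps : ∀ p : E3, 0 < p.2.2 → 0 < (Φ p).2.2
  d1 : ∀ p : E3, 0 < p.2.2 → HasFDerivAt Φ (Φ' p) p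
  d2 : ∀ p : E3, 0 < p.2.2 → HasFDerivAt Φ' (Φ'' p) p
  cont : ContinuousOn Φ'' {p : E3 | 0 < p.2.2}
  conf11 : ∀ p : E3, 0 < p.2.2 → p.2.2 ^ 2 * ((Φ' p e1).1 * (Φ' p e1).1
    + (Φ' p e2).1 * (Φ' p e2).1 + (Φ' p e3).1 * (Φ' p e3).1) = (Φ p).2.2 ^ 2
  conf22 : ∀ p : E3, 0 < p.2.2 → p.2.2 ^ 2 * ((Φ' p e1).2.1 * (Φ' p e1).2.1
    + (Φ' p e2).2.1 * (Φ' p e2).2.1 + (Φ' p e3).2.1 * (Φ' p e3).2.1) = (Φ p).2.2 ^ 2
  conf33 : ∀ p : E3, 0 < p.2.2 → p.2.2 ^ 2 * ((Φ' p e1).2.2 * (Φ' p e1).2.2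
    + (Φ' p e2).2.2 * (Φ' p e2).2.2 + (Φ' p e3).2.2 * (Φ' p e3).2.2) = (Φ p).2.2 ^ 2
  conf12 : ∀ p : E3, 0 < p.2.2 → p.2.2 ^ 2 * ((Φ' p e1).1 * (Φ' p e1).2.1
    + (Φ' p e2).1 * (Φ' p e2).2.1 + (Φ' p e3).1 * (Φ' p e3).2.1) = 0
  conf13 : ∀ p : E3, 0 < p.2.2 → p.2.2 ^ 2 * ((Φ' p e1).1 * (Φ' p e1).2.2
    + (Φ' p e2).1 * (Φ' p e2).2.2 + (Φ' p e3).1 * (Φ' p e3).2.2) = 0
  conf23 : ∀ p : E3, 0 < p.2.2 → p.2.2 ^ 2 * ((Φ' p e1).2.1 * (Φ' p e1).2.2
    + (Φ' p e2).2.1 * (Φ' p e2).2.2 + (Φ' p e3).2.1 * (Φ' p e3).2.2) = 0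
  lap1 : ∀ p : E3, 0 < p.2.2 → p.2.2 ^ 2 * ((Φ'' p e1 e1).1 + (Φ'' p e2 e2).1
    + (Φ'' p e3 e3).1) - p.2.2 * (Φ' p e3).1 = 0
  lap2 : ∀ p : E3, 0 < p.2.2 → p.2.2 ^ 2 * ((Φ'' p e1 e1).2.1 + (Φ'' p e2 e2).2.1
    + (Φ'' p e3 e3).2.1) - p.2.2 * (Φ' p e3).2.1 = 0
  lap3 : ∀ p : E3, 0 < p.2.2 → p.2.2 ^ 2 * ((Φ'' p e1 e1).2.2 + (Φ'' p e2 e2).2.2
    + (Φ'' p e3 e3).2.2) - p.2.2 * (Φ' p e3).2.2 = -(Φ p).2.2

section Pull

variable (f' : E3 → E3 →L[ℝ] ℂ) (f'' : E3 → E3 →L[ℝ] E3 →L[ℝ] ℂ)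
  (Φ : E3 → E3) (Φ' : E3 → E3 →L[ℝ] E3) (Φ'' : E3 → E3 →L[ℝ] E3 →L[ℝ] E3)

/-- First derivative of `f ∘ Φ`. -/
def pull1 (p : E3) : E3 →L[ℝ] ℂ := (f' (Φ p)).comp (Φ' p)

/-- Second derivative of `f ∘ Φ`. -/
def pull2 (p : E3) : E3 →L[ℝ] E3 →L[ℝ] ℂ :=
  ((ContinuousLinearMap.compL ℝ E3 E3 ℂ) (f' (Φ p))).comp (Φ'' p)
    + ((ContinuousLinearMap.compL ℝ E3 E3 ℂ).flip (Φ' p)).comp ((f'' (Φ p)).comp (Φ' p))

theorem pull2_apply470 (p u v : E3) :
    pull2 f' f'' Φ Φ' Φ'' p u v
      = f' (Φ p) (Φ'' p u v) + f'' (Φ p) (Φ' p u) (Φ' p v) := by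
  simp [pull2]

end Pull

variable {f : E3 → ℂ} {f' : E3 → E3 →L[ℝ] ℂ} {f'' : E3 → E3 →L[ℝ] E3 →L[ℝ] ℂ}
  {Φ : E3 → E3} {Φ' : E3 → E3 →L[ℝ] E3} {Φ'' : E3 → E3 →L[ℝ] E3 →L[ℝ] E3}

theorem ConfMap470.continuousOn_Φ (hΦ : ConfMap470 Φ Φ' Φ'') :
    ContinuousOn Φ {p : E3 | 0 < p.2.2} :=
  fun p hp => (hΦ.d1 p hp).continuousAt.continuousWithinAt

theorem ConfMap470.continuousOn_Φ' (hΦ : ConfMap470 Φ Φ' Φ'') :
    ContinuousOn Φ' {p : E3 | 0 < p.2.2} :=
  fun p hp => (hΦ.d2 p hp).continuousAt.continuousWithinAt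

/-- **Pull-back of a solution by an isometry.** -/
theorem EigenData470.pullback (h : EigenData470 f f' f'') (hΦ : ConfMap470 Φ Φ' Φ'') :
    EigenData470 (f ∘ Φ) (pull1 f' Φ Φ') (pull2 f' f'' Φ Φ' Φ'') where
  d1 := fun p hp => (h.d1 (Φ p) (hΦ.maps p hp)).comp p (hΦ.d1 p hp)
  d2 := fun p hp => by
    have h1 : HasFDerivAt (fun q => f' (Φ q)) ((f'' (Φ p)).comp (Φ' p)) p :=
      (h.d2 (Φ p) (hΦ.maps p hp)).comp p (hΦ.d1 p hp)
    have h2 := h1.clm_comp (hΦ.d2 p hp)
    exact h2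
  cont := by
    have hmaps : Set.MapsTo Φ {p : E3 | 0 < p.2.2} {p : E3 | 0 < p.2.2} :=
      fun p hp => hΦ.maps p hp
    have c1 : ContinuousOn (fun p => f' (Φ p)) {p : E3 | 0 < p.2.2} :=
      h.continuousOn_f'.comp hΦ.continuousOn_Φ hmaps
    have c2 : ContinuousOn (fun p => f'' (Φ p)) {p : E3 | 0 < p.2.2} :=
      h.cont.comp hΦ.continuousOn_Φ hmaps
    have c3 := hΦ.continuousOn_Φ'
    have c4 := hΦ.cont
    have a1 : ContinuousOn (fun p => (ContinuousLinearMap.compL ℝ E3 E3 ℂ) (f' (Φ p)))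
        {p : E3 | 0 < p.2.2} :=
      (ContinuousLinearMap.compL ℝ E3 E3 ℂ).continuous.comp_continuousOn c1
    have a2 : ContinuousOn
        (fun p => ((ContinuousLinearMap.compL ℝ E3 E3 ℂ) (f' (Φ p))).comp (Φ'' p))
        {p : E3 | 0 < p.2.2} := a1.clm_comp c4
    have b1 : ContinuousOn (fun p => (ContinuousLinearMap.compL ℝ E3 E3 ℂ).flip (Φ' p))
        {p : E3 | 0 < p.2.2} :=
      (ContinuousLinearMap.compL ℝ E3 E3 ℂ).flip.continuous.comp_continuousOn c3
    have b2 : ContinuousOn (fun p => (f'' (Φ p)).comp (Φ' p)) {p : E3 | 0 < p.2.2} :=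
      c2.clm_comp c3
    have b3 : ContinuousOn
        (fun p => ((ContinuousLinearMap.compL ℝ E3 E3 ℂ).flip (Φ' p)).comp
          ((f'' (Φ p)).comp (Φ' p))) {p : E3 | 0 < p.2.2} := b1.clm_comp b2
    exact a2.add b3
  pde := fun p hp => by
    have hpde := h.pde (Φ p) (hΦ.maps p hp)
    have k11 : (((p.2.2 ^ 2 * ((Φ' p e1).1 * (Φ' p e1).1
      + (Φ' p e2).1 * (Φ' p e2).1 + (Φ' p e3).1 * (Φ' p e3).1) : ℝ) : ℂ))
        = (((Φ p).2.2 ^ 2 : ℝ) : ℂ) := by rw [hΦ.conf11 p hp]
    have k22 : (((p.2.2 ^ 2 * ((Φ' p e1).2.1 * (Φ' p e1).2.1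
      + (Φ' p e2).2.1 * (Φ' p e2).2.1 + (Φ' p e3).2.1 * (Φ' p e3).2.1) : ℝ) : ℂ))
        = (((Φ p).2.2 ^ 2 : ℝ) : ℂ) := by rw [hΦ.conf22 p hp]
    have k33 : (((p.2.2 ^ 2 * ((Φ' p e1).2.2 * (Φ' p e1).2.2
      + (Φ' p e2).2.2 * (Φ' p e2).2.2 + (Φ' p e3).2.2 * (Φ' p e3).2.2) : ℝ) : ℂ))
        = (((Φ p).2.2 ^ 2 : ℝ) : ℂ) := by rw [hΦ.conf33 p hp]
    have k12 : (((p.2.2 ^ 2 * ((Φ' p e1).1 * (Φ' p e1).2.1
      + (Φ' p e2).1 * (Φ' p e2).2.1 + (Φ' p e3).1 * (Φ' p e3).2.1) : ℝ) : ℂ))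
        = ((0 : ℝ) : ℂ) := by rw [hΦ.conf12 p hp]
    have k13 : (((p.2.2 ^ 2 * ((Φ' p e1).1 * (Φ' p e1).2.2
      + (Φ' p e2).1 * (Φ' p e2).2.2 + (Φ' p e3).1 * (Φ' p e3).2.2) : ℝ) : ℂ))
        = ((0 : ℝ) : ℂ) := by rw [hΦ.conf13 p hp]
    have k23 : (((p.2.2 ^ 2 * ((Φ' p e1).2.1 * (Φ' p e1).2.2
      + (Φ' p e2).2.1 * (Φ' p e2).2.2 + (Φ' p e3).2.1 * (Φ' p e3).2.2) : ℝ) : ℂ))
        = ((0 : ℝ) : ℂ) := by rw [hΦ.conf23 p hp]
    have l1 : (((p.2.2 ^ 2 * ((Φ'' p e1 e1).1 + (Φ'' p e2 e2).1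
      + (Φ'' p e3 e3).1) - p.2.2 * (Φ' p e3).1 : ℝ) : ℂ)) = ((0 : ℝ) : ℂ) := by
      rw [hΦ.lap1 p hp]
    have l2 : (((p.2.2 ^ 2 * ((Φ'' p e1 e1).2.1 + (Φ'' p e2 e2).2.1
      + (Φ'' p e3 e3).2.1) - p.2.2 * (Φ' p e3).2.1 : ℝ) : ℂ)) = ((0 : ℝ) : ℂ) := by
      rw [hΦ.lap2 p hp]
    have l3 : (((p.2.2 ^ 2 * ((Φ'' p e1 e1).2.2 + (Φ'' p e2 e2).2.2
      + (Φ'' p e3 e3).2.2) - p.2.2 * (Φ' p e3).2.2 : ℝ) : ℂ)) = ((-(Φ p).2.2 : ℝ) : ℂ) := by
      rw [hΦ.lap3 p hp]
    push_cast at k11 k22 k33 k12 k13 k23 l1 l2 l3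
    simp only [pull2_apply470, pull1, ContinuousLinearMap.comp_apply, Function.comp_apply]
    rw [clm33_470 (f'' (Φ p)) (Φ' p e1) (Φ' p e1), clm33_470 (f'' (Φ p)) (Φ' p e2) (Φ' p e2),
      clm33_470 (f'' (Φ p)) (Φ' p e3) (Φ' p e3),
      clm3_470 (f' (Φ p)) (Φ'' p e1 e1), clm3_470 (f' (Φ p)) (Φ'' p e2 e2),
      clm3_470 (f' (Φ p)) (Φ'' p e3 e3), clm3_470 (f' (Φ p)) (Φ' p e3)]
    linear_combination hpde + (f'' (Φ p) e1 e1) * k11 + (f'' (Φ p) e2 e2) * k22
      + (f'' (Φ p) e3 e3) * k33 + (f'' (Φ p) e1 e2 + f'' (Φ p) e2 e1) * k12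
      + (f'' (Φ p) e1 e3 + f'' (Φ p) e3 e1) * k13
      + (f'' (Φ p) e2 e3 + f'' (Φ p) e3 e2) * k23
      + (f' (Φ p) e1) * l1 + (f' (Φ p) e2) * l2 + (f' (Φ p) e3) * l3

end Fermat.Agent.LT.H470

end
end
-- ===== PACK-END LT/H470/Pullback.lean

-- ===== PACK-BEGIN LT/T1/H671/HaarFin.lean
section





/-!
# Row LT, tower T1, shared prerequisite (helper671): the module of a finite idele

OFF-MAIN.  For a number field `K` and a unit `x` of the finite adele ring:
`distribHaarChar 𝔸_f x = ∏ᶠ v, ‖x v‖` (`finiteAdele_module671`).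

Proof: `U = ∏ 𝒪_v` is a compact open subgroup; units of `U` preserve it; for a uniformiser `ϖ` at
`v` the subgroup `π U` (`π` = `ϖ` at `v`, `1` elsewhere) has index `q_v` in `U`; every finite idele
is a product of a unit of `U` and finitely many local elements.
-/

set_option autoImplicit false

open MeasureTheory MeasureTheory.Measure TopologicalSpace NumberField IsDedekindDomain
open scoped NNReal Pointwise ENNReal RestrictedProduct

noncomputable section

namespace Fermat.Agent.LT.T1.H671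

variable (K : Type*) [Field K] [NumberField K]

/-- The integral finite adeles `∏ 𝒪_v`. -/
def intAdeles671 : Set (FiniteAdeleRing (𝓞 K) K) :=
  {a | ∀ v : HeightOneSpectrum (𝓞 K), a v ∈ v.adicCompletionIntegers K}

theorem isOpen_intAdeles671 : IsOpen (intAdeles671 K) :=
  RestrictedProduct.isOpen_forall_mem
    (R := fun v : HeightOneSpectrum (𝓞 K) => v.adicCompletion K)
    (A := fun v => (v.adicCompletionIntegers K : Set (v.adicCompletion K)))
    (fun _ => Valued.isOpen_valuationSubring _)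

theorem isCompact_intAdeles671 : IsCompact (intAdeles671 K) := by
  have : ∀ v : HeightOneSpectrum (𝓞 K), CompactSpace (v.adicCompletionIntegers K) :=
    fun v => Fermat.Agent.LT.H11.LC.compactSpace_integers_h11 K v
  have h := isCompact_range
    (RestrictedProduct.isEmbedding_structureMap
      (R := fun v : HeightOneSpectrum (𝓞 K) => v.adicCompletion K)
      (A := fun v => (v.adicCompletionIntegers K : Set (v.adicCompletion K)))
      (𝓕 := Filter.cofinite)).continuous
  rw [RestrictedProduct.range_structureMap] at h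
  exact h

theorem zero_mem_intAdeles671 : (0 : FiniteAdeleRing (𝓞 K) K) ∈ intAdeles671 K :=
  fun _ => zero_mem _

variable {K}

theorem mul_apply671 (a b : FiniteAdeleRing (𝓞 K) K) (v : HeightOneSpectrum (𝓞 K)) :
    (a * b) v = a v * b v := rfl

theorem add_apply671 (a b : FiniteAdeleRing (𝓞 K) K) (v : HeightOneSpectrum (𝓞 K)) :
    (a + b) v = a v + b v := rfl

theorem sub_apply671 (a b : FiniteAdeleRing (𝓞 K) K) (v : HeightOneSpectrum (𝓞 K)) :
    (a - b) v = a v - b v := rfl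

theorem one_apply671 (v : HeightOneSpectrum (𝓞 K)) :
    (1 : FiniteAdeleRing (𝓞 K) K) v = 1 := rfl

theorem unit_mul_inv_apply671 (u : (FiniteAdeleRing (𝓞 K) K)ˣ) (v : HeightOneSpectrum (𝓞 K)) :
    (u : FiniteAdeleRing (𝓞 K) K) v * ((u⁻¹ : (FiniteAdeleRing (𝓞 K) K)ˣ) :
      FiniteAdeleRing (𝓞 K) K) v = 1 := by
  rw [← mul_apply671, Units.mul_inv, one_apply671]

theorem unit_apply_ne_zero671 (u : (FiniteAdeleRing (𝓞 K) K)ˣ) (v : HeightOneSpectrum (𝓞 K)) :
    (u : FiniteAdeleRing (𝓞 K) K) v ≠ 0 := by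
  intro h
  have := unit_mul_inv_apply671 u v
  rw [h, zero_mul] at this
  exact zero_ne_one this

theorem valued_unit_inv671 (u : (FiniteAdeleRing (𝓞 K) K)ˣ) (v : HeightOneSpectrum (𝓞 K)) :
    Valued.v (((u⁻¹ : (FiniteAdeleRing (𝓞 K) K)ˣ) : FiniteAdeleRing (𝓞 K) K) v)
      = (Valued.v ((u : FiniteAdeleRing (𝓞 K) K) v))⁻¹ := by
  have h := congrArg Valued.v (unit_mul_inv_apply671 u v)
  rw [map_mul, map_one] at h
  exact eq_inv_of_mul_eq_one_right h

theorem smul_set_eq671 (u : (FiniteAdeleRing (𝓞 K) K)ˣ) (s : Set (FiniteAdeleRing (𝓞 K) K)) :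
    u • s = (fun a => (u : FiniteAdeleRing (𝓞 K) K) * a) '' s := by
  ext z
  simp [Set.mem_smul_set, Units.smul_def]

/-- Units of `∏ 𝒪_v` preserve `∏ 𝒪_v`. -/
theorem smul_intAdeles_of_valued_eq_one671 (u : (FiniteAdeleRing (𝓞 K) K)ˣ)
    (hu : ∀ v, Valued.v ((u : FiniteAdeleRing (𝓞 K) K) v) = 1) :
    u • intAdeles671 K = intAdeles671 K := by
  rw [smul_set_eq671]
  ext a
  constructor
  · rintro ⟨b, hb, rfl⟩ v
    show (u : FiniteAdeleRing (𝓞 K) K) v * b v ∈ v.adicCompletionIntegers K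
    rw [HeightOneSpectrum.mem_adicCompletionIntegers, map_mul, hu v, one_mul]
    exact (HeightOneSpectrum.mem_adicCompletionIntegers _ _ _).1 (hb v)
  · intro ha
    refine ⟨((u⁻¹ : (FiniteAdeleRing (𝓞 K) K)ˣ) : FiniteAdeleRing (𝓞 K) K) * a, ?_, ?_⟩
    · intro v
      show ((u⁻¹ : (FiniteAdeleRing (𝓞 K) K)ˣ) : FiniteAdeleRing (𝓞 K) K) v * a v
        ∈ v.adicCompletionIntegers K
      rw [HeightOneSpectrum.mem_adicCompletionIntegers, map_mul, valued_unit_inv671, hu v,
        inv_one, one_mul]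
      exact (HeightOneSpectrum.mem_adicCompletionIntegers _ _ _).1 (ha v)
    · show (u : FiniteAdeleRing (𝓞 K) K) * (_ * a) = a
      rw [← mul_assoc, Units.mul_inv, one_mul]

section Module

variable (K)

theorem locallyCompact_finiteAdele671 : LocallyCompactSpace (FiniteAdeleRing (𝓞 K) K) :=
  Fermat.Agent.LT.H11.LC.locallyCompactSpace_finiteAdeleRing_h11 K

theorem secondCountable_finiteAdele671 : SecondCountableTopology (FiniteAdeleRing (𝓞 K) K) :=
  Fermat.Agent.LT.H11.SC.secondCountableTopology_finiteAdeleRing_h11 K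

end Module

attribute [local instance] locallyCompact_finiteAdele671 secondCountable_finiteAdele671

/-- The module of a unit of `∏ 𝒪_v` is `1`. -/
theorem distribHaarChar_of_valued_eq_one671 (u : (FiniteAdeleRing (𝓞 K) K)ˣ)
    (hu : ∀ v, Valued.v ((u : FiniteAdeleRing (𝓞 K) K) v) = 1) :
    distribHaarChar (FiniteAdeleRing (𝓞 K) K) u = 1 := by
  borelize (FiniteAdeleRing (𝓞 K) K)
  let μ : Measure (FiniteAdeleRing (𝓞 K) K) := addHaar
  have h0 : μ (intAdeles671 K) ≠ 0 :=
    ((isOpen_intAdeles671 K).measure_pos μ ⟨0, zero_mem_intAdeles671 K⟩).ne'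
  have h1 : μ (intAdeles671 K) ≠ ∞ := (isCompact_intAdeles671 K).measure_lt_top.ne
  refine distribHaarChar_eq_of_measure_smul_eq_mul (μ := μ) (s := intAdeles671 K) h0 h1 ?_
  rw [smul_intAdeles_of_valued_eq_one671 u hu]
  simp

/-! ### Local elements -/

open scoped Classical in
/-- The finite adele equal to `y` at `v` and to `1` elsewhere. -/
def localElt671 (v : HeightOneSpectrum (𝓞 K)) (y : v.adicCompletion K) :
    FiniteAdeleRing (𝓞 K) K :=
  RestrictedProduct.mulSingle (fun v : HeightOneSpectrum (𝓞 K) => v.adicCompletionIntegers K) v y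

open scoped Classical in
/-- The finite adele equal to `y` at `v` and to `0` elsewhere. -/
def localAdd671 (v : HeightOneSpectrum (𝓞 K)) (y : v.adicCompletion K) :
    FiniteAdeleRing (𝓞 K) K :=
  RestrictedProduct.single (fun v : HeightOneSpectrum (𝓞 K) => v.adicCompletionIntegers K) v y

theorem localElt_same671 (v : HeightOneSpectrum (𝓞 K)) (y : v.adicCompletion K) :
    localElt671 v y v = y := by
  classical
  exact RestrictedProduct.mulSingle_eq_same _ v y

theorem localElt_of_ne671 {v w : HeightOneSpectrum (𝓞 K)} (y : v.adicCompletion K) (h : w ≠ v) :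
    localElt671 v y w = 1 := by
  classical
  exact RestrictedProduct.mulSingle_eq_of_ne _ y h

theorem localAdd_same671 (v : HeightOneSpectrum (𝓞 K)) (y : v.adicCompletion K) :
    localAdd671 v y v = y := by
  classical
  exact RestrictedProduct.single_eq_same _ v y

theorem localAdd_of_ne671 {v w : HeightOneSpectrum (𝓞 K)} (y : v.adicCompletion K) (h : w ≠ v) :
    localAdd671 v y w = 0 := by
  classical
  exact RestrictedProduct.single_eq_of_ne _ y h

theorem localElt_mul671 (v : HeightOneSpectrum (𝓞 K)) (y z : v.adicCompletion K) :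
    localElt671 v (y * z) = localElt671 v y * localElt671 v z := by
  classical
  exact RestrictedProduct.mulSingle_mul _ v y z

theorem localElt_one671 (v : HeightOneSpectrum (𝓞 K)) :
    localElt671 v (1 : v.adicCompletion K) = 1 := by
  classical
  exact RestrictedProduct.mulSingle_one _ v

/-- The finite idele equal to `y` at `v` and to `1` elsewhere. -/
def localUnit671 (v : HeightOneSpectrum (𝓞 K)) :
    (v.adicCompletion K)ˣ →* (FiniteAdeleRing (𝓞 K) K)ˣ where
  toFun y :=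
    { val := localElt671 v (y : v.adicCompletion K)
      inv := localElt671 v ((y⁻¹ : (v.adicCompletion K)ˣ) : v.adicCompletion K)
      val_inv := by rw [← localElt_mul671, Units.mul_inv, localElt_one671]
      inv_val := by rw [← localElt_mul671, Units.inv_mul, localElt_one671] }
  map_one' := Units.ext (localElt_one671 v)
  map_mul' y z := Units.ext (localElt_mul671 v _ _)

theorem localUnit_same671 (v : HeightOneSpectrum (𝓞 K)) (y : (v.adicCompletion K)ˣ) :
    ((localUnit671 v y : (FiniteAdeleRing (𝓞 K) K)ˣ) : FiniteAdeleRing (𝓞 K) K) v = y :=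
  localElt_same671 v _

theorem localUnit_of_ne671 {v w : HeightOneSpectrum (𝓞 K)} (y : (v.adicCompletion K)ˣ)
    (h : w ≠ v) :
    ((localUnit671 v y : (FiniteAdeleRing (𝓞 K) K)ˣ) : FiniteAdeleRing (𝓞 K) K) w = 1 :=
  localElt_of_ne671 _ h

/-- The module of a local unit of valuation `1` is `1`. -/
theorem distribHaarChar_localUnit_of_valued_eq_one671 (v : HeightOneSpectrum (𝓞 K))
    (y : (v.adicCompletion K)ˣ) (hy : Valued.v (y : v.adicCompletion K) = 1) :
    distribHaarChar (FiniteAdeleRing (𝓞 K) K) (localUnit671 v y) = 1 := by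
  refine distribHaarChar_of_valued_eq_one671 _ fun w => ?_
  by_cases h : w = v
  · subst h
    rw [localUnit_same671, hy]
  · rw [localUnit_of_ne671 _ h, map_one]

/-! ### The index of `π U` in `U` -/

theorem lt_one_iff_le_exp_neg_one671 (x : WithZero (Multiplicative ℤ)) :
    x < 1 ↔ x ≤ WithZero.exp (-1 : ℤ) := by
  by_cases hx : x = 0
  · subst hx
    simp
  · obtain ⟨n, rfl⟩ : ∃ n : ℤ, x = WithZero.exp n := ⟨WithZero.log x, (WithZero.exp_log hx).symm⟩
    rw [← WithZero.exp_zero, WithZero.exp_lt_exp, WithZero.exp_le_exp]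
    omega

/-- The subgroup `{a ∈ U : v(a_v) < 1}` of the integral adeles. -/
def intAdelesLt671 (v : HeightOneSpectrum (𝓞 K)) : Set (FiniteAdeleRing (𝓞 K) K) :=
  {a | a ∈ intAdeles671 K ∧ Valued.v (a v) < 1}

/-- `π U = {a ∈ U : v(a_v) < 1}`. -/
theorem smul_intAdeles_uniformizer671 (v : HeightOneSpectrum (𝓞 K)) (ϖ : (v.adicCompletion K)ˣ)
    (hϖ : Valued.v (ϖ : v.adicCompletion K) = WithZero.exp (-1 : ℤ)) :
    localUnit671 v ϖ • intAdeles671 K = intAdelesLt671 v := by
  rw [smul_set_eq671]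
  ext a
  constructor
  · rintro ⟨b, hb, rfl⟩
    have hbv : Valued.v (b v) ≤ 1 := (HeightOneSpectrum.mem_adicCompletionIntegers _ _ _).1 (hb v)
    have hv : Valued.v ((((localUnit671 v ϖ : (FiniteAdeleRing (𝓞 K) K)ˣ) :
        FiniteAdeleRing (𝓞 K) K) * b) v) ≤ WithZero.exp (-1 : ℤ) := by
      rw [mul_apply671, localUnit_same671, map_mul, hϖ]
      calc WithZero.exp (-1 : ℤ) * Valued.v (b v) ≤ WithZero.exp (-1 : ℤ) * 1 :=
            mul_le_mul_right hbv _
        _ = WithZero.exp (-1 : ℤ) := mul_one _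
    refine ⟨fun w => ?_, (lt_one_iff_le_exp_neg_one671 _).2 hv⟩
    by_cases h : w = v
    · subst h
      rw [HeightOneSpectrum.mem_adicCompletionIntegers]
      exact ((lt_one_iff_le_exp_neg_one671 _).2 hv).le
    · show ((localUnit671 v ϖ : (FiniteAdeleRing (𝓞 K) K)ˣ) : FiniteAdeleRing (𝓞 K) K) w * b w
        ∈ w.adicCompletionIntegers K
      rw [localUnit_of_ne671 _ h, one_mul]
      exact hb w
  · rintro ⟨haU, hav⟩
    refine ⟨(((localUnit671 v ϖ)⁻¹ : (FiniteAdeleRing (𝓞 K) K)ˣ) : FiniteAdeleRing (𝓞 K) K) * a,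
      ?_, ?_⟩
    · intro w
      show (((localUnit671 v ϖ)⁻¹ : (FiniteAdeleRing (𝓞 K) K)ˣ) : FiniteAdeleRing (𝓞 K) K) w * a w
        ∈ w.adicCompletionIntegers K
      rw [← map_inv]
      by_cases h : w = v
      · subst h
        rw [localUnit_same671, HeightOneSpectrum.mem_adicCompletionIntegers, map_mul,
          Units.val_inv_eq_inv_val, map_inv₀, hϖ, WithZero.exp_neg, inv_inv]
        have h2 : Valued.v (a w) ≤ WithZero.exp (-1 : ℤ) := (lt_one_iff_le_exp_neg_one671 _).1 hav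
        calc WithZero.exp (1 : ℤ) * Valued.v (a w)
            ≤ WithZero.exp (1 : ℤ) * WithZero.exp (-1 : ℤ) := mul_le_mul_right h2 _
          _ = 1 := by rw [← WithZero.exp_add]; simp
      · rw [localUnit_of_ne671 _ h, one_mul]
        exact haU w
    · show ((localUnit671 v ϖ : (FiniteAdeleRing (𝓞 K) K)ˣ) : FiniteAdeleRing (𝓞 K) K) * (_ * a) = a
      rw [← mul_assoc, Units.mul_inv, one_mul]

theorem neg_apply671 (a : FiniteAdeleRing (𝓞 K) K) (v : HeightOneSpectrum (𝓞 K)) :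
    (-a) v = -(a v) := rfl

theorem continuous_eval671 (v : HeightOneSpectrum (𝓞 K)) :
    Continuous fun a : FiniteAdeleRing (𝓞 K) K => a v :=
  RestrictedProduct.continuous_eval
    (R := fun v : HeightOneSpectrum (𝓞 K) => v.adicCompletion K)
    (A := fun v => (v.adicCompletionIntegers K : Set (v.adicCompletion K))) v

theorem isOpen_intAdelesLt671 (v : HeightOneSpectrum (𝓞 K)) : IsOpen (intAdelesLt671 (K := K) v) := by
  have h : intAdelesLt671 (K := K) v
      = intAdeles671 K ∩ (fun a : FiniteAdeleRing (𝓞 K) K => a v) ⁻¹' {z | Valued.v z < 1} := rfl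
  rw [h]
  exact (isOpen_intAdeles671 K).inter
    ((Fermat.Agent.LT.H11.LC.isOpen_valued_lt_one_h11 K v).preimage (continuous_eval671 v))

theorem valued_algebraMap_le_one671 (v : HeightOneSpectrum (𝓞 K)) (t : 𝓞 K) :
    Valued.v (algebraMap (𝓞 K) (v.adicCompletion K) t) ≤ 1 := by
  have h2 := HeightOneSpectrum.valuedAdicCompletion_eq_valuation (K := K) v t
  have h3 : Valued.v (algebraMap (𝓞 K) (v.adicCompletion K) t)
      = v.valuation K (algebraMap (𝓞 K) K t) := h2
  rw [h3]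
  exact HeightOneSpectrum.valuation_le_one v t

theorem valued_algebraMap_lt_one_iff671 (v : HeightOneSpectrum (𝓞 K)) (t : 𝓞 K) :
    Valued.v (algebraMap (𝓞 K) (v.adicCompletion K) t) < 1 ↔ t ∈ v.asIdeal := by
  have h2 := HeightOneSpectrum.valuedAdicCompletion_eq_valuation (K := K) v t
  have h3 : Valued.v (algebraMap (𝓞 K) (v.adicCompletion K) t)
      = v.valuation K (algebraMap (𝓞 K) K t) := h2
  rw [h3]
  exact HeightOneSpectrum.valuation_lt_one_iff_mem v t

/-- The coset `t + {a ∈ U : v(a_v) < 1}` of the integral adeles, `t ∈ 𝒪_K` placed at `v`. -/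
def intAdelesCoset671 (v : HeightOneSpectrum (𝓞 K)) (t : 𝓞 K) :
    Set (FiniteAdeleRing (𝓞 K) K) :=
  {a | a ∈ intAdeles671 K ∧ Valued.v (a v - algebraMap (𝓞 K) (v.adicCompletion K) t) < 1}

theorem intAdelesCoset_eq_preimage671 (v : HeightOneSpectrum (𝓞 K)) (t : 𝓞 K) :
    intAdelesCoset671 v t = (fun a : FiniteAdeleRing (𝓞 K) K =>
      a + (-localAdd671 v (algebraMap (𝓞 K) (v.adicCompletion K) t))) ⁻¹' intAdelesLt671 v := by
  ext a
  have hv : (a + (-localAdd671 v (algebraMap (𝓞 K) (v.adicCompletion K) t))) v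
      = a v - algebraMap (𝓞 K) (v.adicCompletion K) t := by
    rw [add_apply671, neg_apply671, localAdd_same671, sub_eq_add_neg]
  have hw : ∀ w, w ≠ v → (a + (-localAdd671 v (algebraMap (𝓞 K) (v.adicCompletion K) t))) w
      = a w := by
    intro w h
    rw [add_apply671, neg_apply671, localAdd_of_ne671 _ h, neg_zero, add_zero]
  have ht : algebraMap (𝓞 K) (v.adicCompletion K) t ∈ v.adicCompletionIntegers K :=
    (HeightOneSpectrum.mem_adicCompletionIntegers _ _ _).2 (valued_algebraMap_le_one671 v t)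
  simp only [intAdelesCoset671, intAdelesLt671, intAdeles671, Set.mem_ofPred_eq, Set.mem_preimage]
  constructor
  · rintro ⟨haU, hav⟩
    refine ⟨fun w => ?_, by rw [hv]; exact hav⟩
    by_cases h : w = v
    · subst h
      rw [hv]
      exact sub_mem (haU w) ht
    · rw [hw w h]
      exact haU w
  · rintro ⟨haU, hav⟩
    refine ⟨fun w => ?_, by rw [← hv]; exact hav⟩
    by_cases h : w = v
    · subst h
      have := haU w
      rw [hv] at this
      have h2 := add_mem this ht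
      rwa [sub_add_cancel] at h2
    · have := haU w
      rwa [hw w h] at this

theorem isOpen_intAdelesCoset671 (v : HeightOneSpectrum (𝓞 K)) (t : 𝓞 K) :
    IsOpen (intAdelesCoset671 (K := K) v t) := by
  rw [intAdelesCoset_eq_preimage671]
  exact (isOpen_intAdelesLt671 v).preimage (by fun_prop)

/-- `U` is the disjoint union of `q_v` cosets of `π U`: measure form. -/
theorem measure_intAdeles_eq671 (v : HeightOneSpectrum (𝓞 K))
    [MeasurableSpace (FiniteAdeleRing (𝓞 K) K)] [BorelSpace (FiniteAdeleRing (𝓞 K) K)]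
    (μ : Measure (FiniteAdeleRing (𝓞 K) K)) [μ.IsAddHaarMeasure] :
    μ (intAdeles671 K) = (Ideal.absNorm v.asIdeal : ℝ≥0∞) * μ (intAdelesLt671 v) := by
  classical
  have hfin : Finite (𝓞 K ⧸ v.asIdeal) := Ideal.finiteQuotientOfFreeOfNeBot _ v.ne_bot
  let _ : Fintype (𝓞 K ⧸ v.asIdeal) := Fintype.ofFinite _
  let t : (𝓞 K ⧸ v.asIdeal) → 𝓞 K := Function.surjInv Ideal.Quotient.mk_surjective
  have ht : ∀ c, Ideal.Quotient.mk v.asIdeal (t c) = c :=
    Function.surjInv_eq Ideal.Quotient.mk_surjective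
  have hU : intAdeles671 K = ⋃ c ∈ (Finset.univ : Finset (𝓞 K ⧸ v.asIdeal)),
      intAdelesCoset671 v (t c) := by
    ext a
    simp only [Finset.mem_univ, Set.iUnion_true, Set.mem_iUnion]
    constructor
    · intro ha
      obtain ⟨r, hr⟩ := Fermat.Agent.LT.H11.LC.exists_valued_sub_algebraMap_lt_one_h11 K v (a v)
        ((HeightOneSpectrum.mem_adicCompletionIntegers _ _ _).1 (ha v))
      refine ⟨Ideal.Quotient.mk v.asIdeal r, ha, ?_⟩
      have h1 : r - t (Ideal.Quotient.mk v.asIdeal r) ∈ v.asIdeal := by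
        rw [← Ideal.Quotient.eq, ht]
      have h2 := (valued_algebraMap_lt_one_iff671 v _).2 h1
      have h3 : a v - algebraMap (𝓞 K) (v.adicCompletion K) (t (Ideal.Quotient.mk v.asIdeal r))
          = (a v - algebraMap (𝓞 K) (v.adicCompletion K) r)
            + algebraMap (𝓞 K) (v.adicCompletion K) (r - t (Ideal.Quotient.mk v.asIdeal r)) := by
        rw [map_sub]
        ring
      rw [h3]
      exact lt_of_le_of_lt (Valuation.map_add _ _ _) (max_lt hr h2)
    · rintro ⟨c, hc⟩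
      exact hc.1
  have hdisj : ((Finset.univ : Finset (𝓞 K ⧸ v.asIdeal)) : Set (𝓞 K ⧸ v.asIdeal)).PairwiseDisjoint
      (fun c => intAdelesCoset671 (K := K) v (t c)) := by
    intro c _ c' _ hcc'
    rw [Function.onFun, Set.disjoint_left]
    rintro a ⟨_, h1⟩ ⟨_, h2⟩
    apply hcc'
    have h3 : algebraMap (𝓞 K) (v.adicCompletion K) (t c - t c')
        = (a v - algebraMap (𝓞 K) (v.adicCompletion K) (t c'))
          - (a v - algebraMap (𝓞 K) (v.adicCompletion K) (t c)) := by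
      rw [map_sub]
      ring
    have h4 : Valued.v (algebraMap (𝓞 K) (v.adicCompletion K) (t c - t c')) < 1 := by
      rw [h3]
      exact lt_of_le_of_lt (Valuation.map_sub _ _ _) (max_lt h2 h1)
    have h5 := (valued_algebraMap_lt_one_iff671 v _).1 h4
    rw [← ht c, ← ht c', Ideal.Quotient.eq]
    exact h5
  have hmeas : ∀ c ∈ (Finset.univ : Finset (𝓞 K ⧸ v.asIdeal)),
      MeasurableSet (intAdelesCoset671 (K := K) v (t c)) :=
    fun c _ => (isOpen_intAdelesCoset671 v (t c)).measurableSet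
  have hterm : ∀ c, μ (intAdelesCoset671 (K := K) v (t c)) = μ (intAdelesLt671 v) := by
    intro c
    rw [intAdelesCoset_eq_preimage671]
    exact measure_preimage_add_right μ _ _
  rw [hU, measure_biUnion_finset hdisj hmeas]
  simp only [hterm, Finset.sum_const, Finset.card_univ, nsmul_eq_mul]
  congr 2
  rw [Ideal.absNorm_apply, Submodule.cardQuot_apply, Nat.card_eq_fintype_card]

/-! ### The module of a local unit -/

theorem nnnorm_eq_zpow671 (v : HeightOneSpectrum (𝓞 K)) (y : v.adicCompletion K) (n : ℤ)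
    (h : Valued.v y = WithZero.exp n) : ‖y‖₊ = (Ideal.absNorm v.asIdeal : ℝ≥0) ^ n := by
  apply NNReal.coe_injective
  rw [coe_nnnorm, FinitePlace.norm_def, h]
  have hne : (WithZero.exp n : WithZero (Multiplicative ℤ)) ≠ 0 := WithZero.exp_ne_zero
  rw [WithZeroMulInt.toNNReal_neg_apply _ hne]
  simp [WithZero.exp]

theorem nnnorm_eq_one_of_valued_eq_one671 (v : HeightOneSpectrum (𝓞 K)) (y : v.adicCompletion K)
    (h : Valued.v y = 1) : ‖y‖₊ = 1 := by
  have := nnnorm_eq_zpow671 v y 0 (by rw [h, WithZero.exp_zero])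
  simpa using this

theorem hom_inv671 {G : Type*} [Group G] (φ : G →* ℝ≥0) (g : G) : φ g⁻¹ = (φ g)⁻¹ := by
  have h : φ g * φ g⁻¹ = 1 := by rw [← map_mul, mul_inv_cancel, map_one]
  exact eq_inv_of_mul_eq_one_right h

theorem hom_zpow671 {G : Type*} [Group G] (φ : G →* ℝ≥0) (g : G) (n : ℤ) :
    φ (g ^ n) = φ g ^ n := by
  cases n with
  | ofNat k => simp
  | negSucc k => rw [zpow_negSucc, zpow_negSucc, hom_inv671, map_pow]

/-- The module of the idele `ϖ` at `v`, `1` elsewhere (`ϖ` a uniformiser) is `q_v⁻¹`. -/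
theorem distribHaarChar_localUnit_uniformizer671 (v : HeightOneSpectrum (𝓞 K))
    (ϖ : (v.adicCompletion K)ˣ)
    (hϖ : Valued.v (ϖ : v.adicCompletion K) = WithZero.exp (-1 : ℤ)) :
    distribHaarChar (FiniteAdeleRing (𝓞 K) K) (localUnit671 v ϖ)
      = (Ideal.absNorm v.asIdeal : ℝ≥0)⁻¹ := by
  borelize (FiniteAdeleRing (𝓞 K) K)
  let μ : Measure (FiniteAdeleRing (𝓞 K) K) := addHaar
  have h0 : μ (intAdeles671 K) ≠ 0 :=
    ((isOpen_intAdeles671 K).measure_pos μ ⟨0, zero_mem_intAdeles671 K⟩).ne'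
  have h1 : μ (intAdeles671 K) ≠ ∞ := (isCompact_intAdeles671 K).measure_lt_top.ne
  refine distribHaarChar_eq_of_measure_smul_eq_mul (μ := μ) (s := intAdeles671 K) h0 h1 ?_
  rw [smul_intAdeles_uniformizer671 v ϖ hϖ, measure_intAdeles_eq671 v μ, ← mul_assoc]
  have hq : (Ideal.absNorm v.asIdeal : ℝ≥0) ≠ 0 := HeightOneSpectrum.absNorm_ne_zero v
  have h2 : (((Ideal.absNorm v.asIdeal : ℝ≥0)⁻¹ : ℝ≥0) : ℝ≥0∞)
      * (Ideal.absNorm v.asIdeal : ℝ≥0∞) = 1 := by
    rw [ENNReal.coe_inv hq]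
    have : ((Ideal.absNorm v.asIdeal : ℝ≥0) : ℝ≥0∞) = (Ideal.absNorm v.asIdeal : ℝ≥0∞) := by
      simp
    rw [this]
    refine ENNReal.inv_mul_cancel ?_ (ENNReal.natCast_ne_top _)
    exact_mod_cast (Nat.cast_ne_zero (R := ℝ≥0)).1 hq
  rw [h2, one_mul]

theorem exists_uniformizer_unit671 (v : HeightOneSpectrum (𝓞 K)) :
    ∃ ϖ : (v.adicCompletion K)ˣ,
      Valued.v (ϖ : v.adicCompletion K) = WithZero.exp (-1 : ℤ) := by
  obtain ⟨π, hπ⟩ := HeightOneSpectrum.valuation_exists_uniformizer K v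
  have h1 : Valued.v (algebraMap K (v.adicCompletion K) π) = WithZero.exp (-1 : ℤ) := by
    rw [← hπ]
    exact HeightOneSpectrum.valuedAdicCompletion_eq_valuation' v π
  have hne : algebraMap K (v.adicCompletion K) π ≠ 0 := by
    intro h
    rw [h, map_zero] at h1
    exact WithZero.exp_ne_zero h1.symm
  exact ⟨Units.mk0 _ hne, h1⟩

/-- The module of the idele `y` at `v`, `1` elsewhere, is `‖y‖_v`. -/
theorem distribHaarChar_localUnit671 (v : HeightOneSpectrum (𝓞 K)) (y : (v.adicCompletion K)ˣ) :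
    distribHaarChar (FiniteAdeleRing (𝓞 K) K) (localUnit671 v y)
      = ‖(y : v.adicCompletion K)‖₊ := by
  obtain ⟨ϖ, hϖ⟩ := exists_uniformizer_unit671 (K := K) v
  have hy0 : Valued.v (y : v.adicCompletion K) ≠ 0 := by
    rw [Valuation.ne_zero_iff]
    exact y.ne_zero
  obtain ⟨n, hn⟩ : ∃ n : ℤ, Valued.v (y : v.adicCompletion K) = WithZero.exp n :=
    ⟨WithZero.log _, (WithZero.exp_log hy0).symm⟩
  have hy' : Valued.v ((y * ϖ ^ n : (v.adicCompletion K)ˣ) : v.adicCompletion K) = 1 := by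
    rw [Units.val_mul, Units.val_zpow_eq_zpow_val, map_mul, map_zpow₀, hn, hϖ, ← WithZero.exp_zsmul,
      ← WithZero.exp_add]
    simp
  have hdec : y = (y * ϖ ^ n) * ϖ ^ (-n) := by
    rw [mul_assoc, ← zpow_add, add_neg_cancel, zpow_zero, mul_one]
  have hφ : ∀ z : (v.adicCompletion K)ˣ,
      distribHaarChar (FiniteAdeleRing (𝓞 K) K) (localUnit671 v z)
        = ((distribHaarChar (FiniteAdeleRing (𝓞 K) K)).comp (localUnit671 v)) z := fun _ => rfl
  conv_lhs => rw [hdec]
  rw [hφ, map_mul, hom_zpow671, ← hφ, ← hφ, distribHaarChar_localUnit_of_valued_eq_one671 v _ hy',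
    distribHaarChar_localUnit_uniformizer671 v ϖ hϖ, one_mul, nnnorm_eq_zpow671 v _ n hn,
    inv_zpow, zpow_neg, inv_inv]

/-! ### The module of a finite idele -/

/-- The component of a finite idele at `v`, as a unit of `K_v`. -/
def unitAt671 (x : (FiniteAdeleRing (𝓞 K) K)ˣ) (v : HeightOneSpectrum (𝓞 K)) :
    (v.adicCompletion K)ˣ :=
  Units.mk0 ((x : FiniteAdeleRing (𝓞 K) K) v) (unit_apply_ne_zero671 x v)

theorem distribHaarChar_finset671 (S : Finset (HeightOneSpectrum (𝓞 K))) :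
    ∀ x : (FiniteAdeleRing (𝓞 K) K)ˣ,
      (∀ v, v ∉ S → Valued.v ((x : FiniteAdeleRing (𝓞 K) K) v) = 1) →
      distribHaarChar (FiniteAdeleRing (𝓞 K) K) x
        = ∏ v ∈ S, ‖(x : FiniteAdeleRing (𝓞 K) K) v‖₊ := by
  classical
  induction S using Finset.induction_on with
  | empty =>
    intro x hx
    rw [Finset.prod_empty]
    exact distribHaarChar_of_valued_eq_one671 x fun v => hx v (Finset.notMem_empty v)
  | insert v S hv ih =>
    intro x hx
    set y : (v.adicCompletion K)ˣ := unitAt671 x v with hy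
    set x' : (FiniteAdeleRing (𝓞 K) K)ˣ := x * (localUnit671 v y)⁻¹ with hx'
    have hx'v : ((x' : (FiniteAdeleRing (𝓞 K) K)ˣ) : FiniteAdeleRing (𝓞 K) K) v = 1 := by
      rw [hx', Units.val_mul, mul_apply671, ← map_inv, localUnit_same671]
      show (x : FiniteAdeleRing (𝓞 K) K) v * ((y⁻¹ : (v.adicCompletion K)ˣ) : v.adicCompletion K) = 1
      rw [Units.val_inv_eq_inv_val]
      exact mul_inv_cancel₀ (unit_apply_ne_zero671 x v)
    have hx'w : ∀ w, w ≠ v → ((x' : (FiniteAdeleRing (𝓞 K) K)ˣ) : FiniteAdeleRing (𝓞 K) K) w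
        = (x : FiniteAdeleRing (𝓞 K) K) w := by
      intro w hw
      rw [hx', Units.val_mul, mul_apply671, ← map_inv, localUnit_of_ne671 _ hw, mul_one]
    have h1 : ∀ w, w ∉ S → Valued.v (((x' : (FiniteAdeleRing (𝓞 K) K)ˣ) :
        FiniteAdeleRing (𝓞 K) K) w) = 1 := by
      intro w hw
      by_cases h : w = v
      · subst h
        rw [hx'v, map_one]
      · rw [hx'w w h]
        exact hx w (by simp [h, hw])
    have hdec : x = x' * localUnit671 v y := by
      rw [hx', inv_mul_cancel_right]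
    have h2 := ih x' h1
    conv_lhs => rw [hdec]
    rw [map_mul, h2, distribHaarChar_localUnit671, Finset.prod_insert hv, mul_comm]
    congr 1
    refine Finset.prod_congr rfl fun w hw => ?_
    have hwv : w ≠ v := fun h => hv (h ▸ hw)
    rw [hx'w w hwv]

theorem finite_valued_ne_one671 (x : (FiniteAdeleRing (𝓞 K) K)ˣ) :
    {v : HeightOneSpectrum (𝓞 K) | Valued.v ((x : FiniteAdeleRing (𝓞 K) K) v) ≠ 1}.Finite := by
  have h := (FiniteAdeleRing.isUnit_iff (a := (x : FiniteAdeleRing (𝓞 K) K))).1 x.isUnit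
  exact h.2

/-- **The module of a finite idele**: `distribHaarChar 𝔸_f x = ∏ᶠ v, ‖x_v‖_v`. -/
theorem finiteAdele_module671 (x : (FiniteAdeleRing (𝓞 K) K)ˣ) :
    (distribHaarChar (FiniteAdeleRing (𝓞 K) K) x : ℝ)
      = ∏ᶠ v : HeightOneSpectrum (𝓞 K), ‖(x : FiniteAdeleRing (𝓞 K) K) v‖ := by
  classical
  set S : Finset (HeightOneSpectrum (𝓞 K)) := (finite_valued_ne_one671 x).toFinset with hS
  have h1 : ∀ v, v ∉ S → Valued.v ((x : FiniteAdeleRing (𝓞 K) K) v) = 1 := by
    intro v hv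
    by_contra h
    exact hv ((finite_valued_ne_one671 x).mem_toFinset.2 h)
  rw [distribHaarChar_finset671 S x h1]
  rw [finprod_eq_prod_of_mulSupport_subset (s := S)]
  · push_cast
    rfl
  · intro v hv
    rw [Function.mem_mulSupport] at hv
    by_contra h
    apply hv
    have := nnnorm_eq_one_of_valued_eq_one671 v _ (h1 v h)
    have h2 := congrArg NNReal.toReal this
    rwa [coe_nnnorm, NNReal.coe_one] at h2

end Fermat.Agent.LT.T1.H671

end

end
-- ===== PACK-END LT/T1/H671/HaarFin.lean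

-- ===== PACK-BEGIN LT/T1/H629/FujisakiMinkowski.lean
section




/-!
# Row LT, tower T1, leaf T1.06 `LeafFujisaki` (helper629), part 1: idelic Minkowski

OFF-MAIN.  For a number field `K`: there is `r > 0` such that for every idele `y` of module `1`
there is `ξ ∈ Kˣ` with `ξ y⁻¹` in the box `Wset629 K r` (`‖x_w‖ ≤ r` at the infinite places,
`x_v` integral at the finite places).  Proof: Mathlib's Minkowski theorem
(`NumberField.mixedEmbedding.exists_ne_zero_mem_ideal_lt`) applied to the integral ideal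
`∏ v ^ ord_v (d y)` for a common denominator `d` of `y`.
-/

set_option autoImplicit false

open IsDedekindDomain NumberField HeightOneSpectrum
open scoped WithZero NNReal ENNReal nonZeroDivisors

noncomputable section

namespace Fermat.Agent.LT.T1.H629

open Fermat.Agent.LT.H556.A0

variable (K : Type) [Field K] [NumberField K]

open mixedEmbedding MeasureTheory in
/-- Minkowski bound of a fractional ideal in terms of the bound of the unit ideal. -/
theorem minkowskiBound_eq629 (I : (FractionalIdeal (𝓞 K)⁰ K)ˣ) :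
    minkowskiBound K I = ENNReal.ofReal (FractionalIdeal.absNorm I.1) * minkowskiBound K 1 := by
  classical
  have h1 := volume_fundamentalDomain_fractionalIdealLatticeBasis K I
  have h2 := volume_fundamentalDomain_fractionalIdealLatticeBasis K 1
  simp only [Units.val_one, FractionalIdeal.absNorm_one, Rat.cast_one, ENNReal.ofReal_one,
    one_mul] at h2
  unfold minkowskiBound
  rw [h1, h2, mul_assoc]

open mixedEmbedding MeasureTheory in
/-- **Minkowski**, real form, for integral ideals. -/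
theorem exists_minkowski629 :
    ∃ C₀ : ℝ, 0 < C₀ ∧ ∀ (J : Ideal (𝓞 K)), J ≠ ⊥ → ∀ f : InfinitePlace K → ℝ, (∀ w, 0 < f w) →
      C₀ * (Ideal.absNorm J : ℝ) < ∏ w : InfinitePlace K, f w ^ w.mult →
      ∃ a : 𝓞 K, a ∈ J ∧ a ≠ 0 ∧ ∀ w : InfinitePlace K, w (a : K) < f w := by
  classical
  have hB0 : 0 < (minkowskiBound K 1).toReal :=
    ENNReal.toReal_pos (minkowskiBound_pos K 1).ne' (minkowskiBound_lt_top K 1).ne
  have hF0 : (0 : ℝ) < (convexBodyLTFactor K : ℝ) :=
    lt_of_lt_of_le zero_lt_one (by exact_mod_cast one_le_convexBodyLTFactor K)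
  refine ⟨(minkowskiBound K 1).toReal / (convexBodyLTFactor K : ℝ), div_pos hB0 hF0, ?_⟩
  intro J hJ f hf hlt
  have hJ' : (J : FractionalIdeal (𝓞 K)⁰ K) ≠ 0 := FractionalIdeal.coeIdeal_ne_zero.mpr hJ
  set I : (FractionalIdeal (𝓞 K)⁰ K)ˣ := Units.mk0 (J : FractionalIdeal (𝓞 K)⁰ K) hJ' with hI
  set f' : InfinitePlace K → ℝ≥0 := fun w => ⟨f w, (hf w).le⟩ with hf'
  have hN : ((FractionalIdeal.absNorm (I.1) : ℚ) : ℝ) = (Ideal.absNorm J : ℝ) := by
    rw [hI, Units.val_mk0, FractionalIdeal.coeIdeal_absNorm]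
    norm_cast
  have hP0 : 0 ≤ ∏ w : InfinitePlace K, f w ^ w.mult :=
    Finset.prod_nonneg fun w _ => pow_nonneg (hf w).le _
  have key : minkowskiBound K I < volume (convexBodyLT K f') := by
    rw [minkowskiBound_eq629, convexBodyLT_volume, hN]
    have e1 : minkowskiBound K 1 = ENNReal.ofReal (minkowskiBound K 1).toReal :=
      (ENNReal.ofReal_toReal (minkowskiBound_lt_top K 1).ne).symm
    have e2 : ((convexBodyLTFactor K : ℝ≥0) : ℝ≥0∞) *
        ((∏ w : InfinitePlace K, (f' w) ^ w.mult : ℝ≥0) : ℝ≥0∞)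
        = ENNReal.ofReal ((convexBodyLTFactor K : ℝ) * ∏ w : InfinitePlace K, f w ^ w.mult) := by
      rw [← ENNReal.coe_mul, ENNReal.ofReal, ENNReal.coe_inj]
      ext
      rw [Real.coe_toNNReal _ (mul_nonneg hF0.le hP0), NNReal.coe_mul, NNReal.coe_prod]
      rfl
    rw [e1, ← ENNReal.ofReal_mul (Nat.cast_nonneg _), e2]
    rw [ENNReal.ofReal_lt_ofReal_iff (mul_pos_iff_of_pos_left hF0 |>.2 ?_)]
    · rw [div_mul_eq_mul_div, div_lt_iff₀ hF0] at hlt
      linarith
    · have : 0 ≤ (minkowskiBound K 1).toReal / (convexBodyLTFactor K : ℝ) * (Ideal.absNorm J : ℝ) :=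
        mul_nonneg (div_pos hB0 hF0).le (Nat.cast_nonneg _)
      linarith
  obtain ⟨a, ha, ha0, haw⟩ := exists_ne_zero_mem_ideal_lt K I key
  rw [hI, Units.val_mk0, FractionalIdeal.mem_coeIdeal] at ha
  obtain ⟨a', ha', rfl⟩ := ha
  refine ⟨a', ha', ?_, haw⟩
  rintro rfl
  exact ha0 (map_zero _)

theorem toNNReal_exp629 {e : ℝ≥0} (he : e ≠ 0) (k : ℤ) :
    WithZeroMulInt.toNNReal he (WithZero.exp k) = e ^ k := by
  rw [WithZeroMulInt.toNNReal_neg_apply he WithZero.exp_ne_zero]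
  rfl

theorem exists_nat_exp629 (x : ℤᵐ⁰) (hx : x ≠ 0) (h1 : x ≤ 1) :
    ∃ m : ℕ, x = WithZero.exp (-(m : ℤ)) := by
  have h2 : WithZero.log x ≤ 0 := by
    have := (WithZero.log_le_log hx one_ne_zero).2 h1
    simpa using this
  refine ⟨(-(WithZero.log x)).toNat, ?_⟩
  rw [Int.toNat_of_nonneg (by omega), neg_neg, WithZero.exp_log hx]

/-- norm of a local element of valuation `exp (-m)` -/
theorem norm_of_valued_eq_exp629 (v : HeightOneSpectrum (𝓞 K)) (x : v.adicCompletion K) (m : ℕ)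
    (hx : Valued.v x = WithZero.exp (-(m : ℤ))) :
    ‖x‖ = ((Ideal.absNorm v.asIdeal : ℝ) ^ m)⁻¹ := by
  rw [FinitePlace.norm_def, hx, toNNReal_exp629]
  simp

theorem norm_of_valued_eq_one629 (v : HeightOneSpectrum (𝓞 K)) (x : v.adicCompletion K)
    (hx : Valued.v x = 1) : ‖x‖ = 1 := by
  rw [FinitePlace.norm_def, hx, map_one]
  rfl

theorem snd_isUnit629 (z : (Adl K)ˣ) : IsUnit ((z : Adl K).2) :=
  z.isUnit.map (RingHom.snd (InfiniteAdeleRing K) (FiniteAdeleRing (𝓞 K) K))

theorem snd_ne_zero629 (z : (Adl K)ˣ) (v : HeightOneSpectrum (𝓞 K)) : (z : Adl K).2 v ≠ 0 :=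
  (FiniteAdeleRing.isUnit_iff.1 (snd_isUnit629 K z)).1 v

theorem snd_finite629 (z : (Adl K)ˣ) :
    {v : HeightOneSpectrum (𝓞 K) | Valued.v ((z : Adl K).2 v) ≠ 1}.Finite := by
  have := (FiniteAdeleRing.isUnit_iff.1 (snd_isUnit629 K z)).2
  simpa [Filter.eventually_cofinite] using this

theorem valued_algebraMap629 (a : 𝓞 K) (v : HeightOneSpectrum (𝓞 K)) :
    Valued.v ((algebraMap K (Adl K) (a : K)).2 v) = v.intValuation a := by
  rw [show (algebraMap K (Adl K) (a : K)).2 v = ((a : K) : v.adicCompletion K) from rfl,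
    valuedAdicCompletion_eq_valuation', valuation_of_algebraMap]

/-- The ideal of an integral idele. -/
theorem exists_ideal629 (z : (Adl K)ˣ) (hz : ∀ v, Valued.v ((z : Adl K).2 v) ≤ 1) :
    ∃ J : Ideal (𝓞 K), J ≠ ⊥ ∧
      (∀ a : 𝓞 K, a ∈ J → ∀ v : HeightOneSpectrum (𝓞 K),
        Valued.v ((algebraMap K (Adl K) (a : K)).2 v) ≤ Valued.v ((z : Adl K).2 v)) ∧
      (Ideal.absNorm J : ℝ) * ∏ᶠ v : HeightOneSpectrum (𝓞 K), ‖(z : Adl K).2 v‖ = 1 := by
  classical
  have hex : ∀ v : HeightOneSpectrum (𝓞 K), ∃ m : ℕ,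
      Valued.v ((z : Adl K).2 v) = WithZero.exp (-(m : ℤ)) := fun v =>
    exists_nat_exp629 _ (by simpa using snd_ne_zero629 K z v) (hz v)
  choose m hm using hex
  set S : Finset (HeightOneSpectrum (𝓞 K)) := (snd_finite629 K z).toFinset with hS
  have hSmem : ∀ v, v ∈ S ↔ Valued.v ((z : Adl K).2 v) ≠ 1 := by
    intro v; simp [hS]
  refine ⟨∏ v ∈ S, v.asIdeal ^ m v, ?_, ?_, ?_⟩
  · rw [← Ideal.zero_eq_bot, Finset.prod_ne_zero_iff]
    intro v _
    exact pow_ne_zero _ v.ne_bot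
  · intro a ha v
    rw [valued_algebraMap629]
    by_cases hv : v ∈ S
    · have hle : ∏ v ∈ S, v.asIdeal ^ m v ≤ v.asIdeal ^ m v :=
        Ideal.le_of_dvd (Finset.dvd_prod_of_mem _ hv)
      rw [hm v]
      exact (intValuation_le_pow_iff_mem v a (m v)).2 (hle ha)
    · have h1 : Valued.v ((z : Adl K).2 v) = 1 := by
        by_contra h; exact hv ((hSmem v).2 h)
      rw [h1]
      exact intValuation_le_one v a
  · have hsupp : Function.mulSupport (fun v : HeightOneSpectrum (𝓞 K) => ‖(z : Adl K).2 v‖)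
        ⊆ (S : Set (HeightOneSpectrum (𝓞 K))) := by
      intro v hv
      rw [Function.mem_mulSupport] at hv
      rw [Finset.mem_coe, hSmem]
      intro h1
      exact hv (norm_of_valued_eq_one629 K v _ h1)
    rw [finprod_eq_prod_of_mulSupport_subset _ hsupp, map_prod, Nat.cast_prod,
      ← Finset.prod_mul_distrib]
    refine Finset.prod_eq_one fun v _ => ?_
    rw [map_pow, Nat.cast_pow, norm_of_valued_eq_exp629 K v _ (m v) (hm v)]
    have hN : (Ideal.absNorm v.asIdeal : ℝ) ≠ 0 := by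
      have := one_lt_absNorm v
      positivity
    exact mul_inv_cancel₀ (pow_ne_zero _ hN)

theorem fst_isUnit629 (z : (Adl K)ˣ) (w : InfinitePlace K) : IsUnit ((z : Adl K).1 w) :=
  (z.isUnit.map (RingHom.fst (InfiniteAdeleRing K) (FiniteAdeleRing (𝓞 K) K))).map
    (Pi.evalRingHom (fun w : InfinitePlace K => w.Completion) w)

theorem fst_ne_zero629 (z : (Adl K)ˣ) (w : InfinitePlace K) : (z : Adl K).1 w ≠ 0 :=
  (fst_isUnit629 K z w).ne_zero

theorem norm_fst_pos629 (z : (Adl K)ˣ) (w : InfinitePlace K) : 0 < ‖(z : Adl K).1 w‖ :=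
  norm_pos_iff.2 (fst_ne_zero629 K z w)

/-- Idelic Minkowski, integral case. -/
theorem exists_minkowski_integral629 :
    ∃ r : ℝ, 0 < r ∧ ∀ z : (Adl K)ˣ, (∀ v, Valued.v ((z : Adl K).2 v) ≤ 1) →
      adNorm K (z : Adl K) = 1 →
      ∃ a : 𝓞 K, a ≠ 0 ∧ (∀ w : InfinitePlace K, w (a : K) ≤ r * ‖(z : Adl K).1 w‖) ∧
        ∀ v : HeightOneSpectrum (𝓞 K),
          Valued.v ((algebraMap K (Adl K) (a : K)).2 v) ≤ Valued.v ((z : Adl K).2 v) := by
  classical
  obtain ⟨C₀, hC₀, hM⟩ := exists_minkowski629 K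
  refine ⟨C₀ + 1, by linarith, ?_⟩
  intro z hz hnorm
  obtain ⟨J, hJ0, hJmem, hJnorm⟩ := exists_ideal629 K z hz
  set r : ℝ := C₀ + 1 with hr
  have hr1 : 1 ≤ r := by linarith
  set P : ℝ := ∏ w : InfinitePlace K, ‖(z : Adl K).1 w‖ ^ w.mult with hP
  set Q : ℝ := ∏ᶠ v : HeightOneSpectrum (𝓞 K), ‖(z : Adl K).2 v‖ with hQ
  have hPQ : P * Q = 1 := hnorm
  have hPN : P = (Ideal.absNorm J : ℝ) := by
    calc P = P * ((Ideal.absNorm J : ℝ) * Q) := by rw [hJnorm, mul_one]
      _ = (Ideal.absNorm J : ℝ) * (P * Q) := by ring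
      _ = (Ideal.absNorm J : ℝ) := by rw [hPQ, mul_one]
  have hNpos : (0 : ℝ) < (Ideal.absNorm J : ℝ) := by
    have h0 : (0 : ℝ) ≤ (Ideal.absNorm J : ℝ) := Nat.cast_nonneg _
    rcases h0.lt_or_eq with h | h
    · exact h
    · rw [← h, zero_mul] at hJnorm
      exact absurd hJnorm zero_ne_one
  have hdeg : 1 ≤ ∑ w : InfinitePlace K, w.mult := by
    rw [InfinitePlace.sum_mult_eq]
    exact Module.finrank_pos
  have hprod : ∏ w : InfinitePlace K, (r * ‖(z : Adl K).1 w‖) ^ w.mult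
      = r ^ (∑ w : InfinitePlace K, w.mult) * P := by
    simp_rw [mul_pow]
    rw [Finset.prod_mul_distrib, Finset.prod_pow_eq_pow_sum]
  obtain ⟨a, haJ, ha0, haw⟩ := hM J hJ0 (fun w => r * ‖(z : Adl K).1 w‖)
    (fun w => mul_pos (by linarith) (norm_fst_pos629 K z w)) (by
      rw [hprod, hPN]
      have h1 : r ≤ r ^ (∑ w : InfinitePlace K, w.mult) := le_self_pow₀ hr1 (by omega)
      have h2 : C₀ < r ^ (∑ w : InfinitePlace K, w.mult) := by linarith
      exact mul_lt_mul_of_pos_right h2 hNpos)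
  exact ⟨a, ha0, fun w => (haw w).le, hJmem a haJ⟩

theorem norm_algebraMap_fst629 (k : K) (w : InfinitePlace K) :
    ‖(algebraMap K (Adl K) k).1 w‖ = w k := by
  rw [show (algebraMap K (Adl K) k).1 w = ((k : K) : w.Completion) from rfl]
  have := InfinitePlace.Completion.norm_coe w ((WithAbs.equiv w.1).symm k)
  simpa using this

theorem val_mul_snd629 (x y : (Adl K)ˣ) (v : HeightOneSpectrum (𝓞 K)) :
    ((x * y : (Adl K)ˣ) : Adl K).2 v = (x : Adl K).2 v * (y : Adl K).2 v := rfl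

theorem val_mul_fst629 (x y : (Adl K)ˣ) (w : InfinitePlace K) :
    ((x * y : (Adl K)ˣ) : Adl K).1 w = (x : Adl K).1 w * (y : Adl K).1 w := rfl

theorem val_one_snd629 (v : HeightOneSpectrum (𝓞 K)) :
    ((1 : (Adl K)ˣ) : Adl K).2 v = 1 := rfl

theorem val_one_fst629 (w : InfinitePlace K) :
    ((1 : (Adl K)ˣ) : Adl K).1 w = 1 := rfl

theorem ratUnit_val629 (ξ : Kˣ) : ((ratUnit K ξ : (Adl K)ˣ) : Adl K) = algebraMap K (Adl K) (ξ : K) := rfl

/-- The box: `‖x_w‖ ≤ r` at the infinite places, `x_v` integral at the finite places. -/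
def Wset629 (r : ℝ) : Set (Adl K) :=
  {x | (∀ w : InfinitePlace K, ‖x.1 w‖ ≤ r) ∧
    ∀ v : HeightOneSpectrum (𝓞 K), Valued.v (x.2 v) ≤ 1}

theorem mem_Wset_of_le629 (r : ℝ) (u y : (Adl K)ˣ)
    (hinf : ∀ w : InfinitePlace K, ‖(u : Adl K).1 w‖ ≤ r * ‖(y : Adl K).1 w‖)
    (hfin : ∀ v : HeightOneSpectrum (𝓞 K),
      Valued.v ((u : Adl K).2 v) ≤ Valued.v ((y : Adl K).2 v)) :
    ((u * y⁻¹ : (Adl K)ˣ) : Adl K) ∈ Wset629 K r := by
  refine ⟨fun w => ?_, fun v => ?_⟩
  · rw [val_mul_fst629, norm_mul]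
    have h1 : ‖(y : Adl K).1 w‖ * ‖((y⁻¹ : (Adl K)ˣ) : Adl K).1 w‖ = 1 := by
      rw [← norm_mul, ← val_mul_fst629, mul_inv_cancel, val_one_fst629, norm_one]
    calc ‖(u : Adl K).1 w‖ * ‖((y⁻¹ : (Adl K)ˣ) : Adl K).1 w‖
        ≤ (r * ‖(y : Adl K).1 w‖) * ‖((y⁻¹ : (Adl K)ˣ) : Adl K).1 w‖ :=
          mul_le_mul_of_nonneg_right (hinf w) (norm_nonneg _)
      _ = r := by rw [mul_assoc, h1, mul_one]
  · rw [val_mul_snd629, map_mul]
    have h1 : Valued.v ((y : Adl K).2 v) * Valued.v (((y⁻¹ : (Adl K)ˣ) : Adl K).2 v) = 1 := by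
      rw [← map_mul, ← val_mul_snd629, mul_inv_cancel, val_one_snd629, map_one]
    calc Valued.v ((u : Adl K).2 v) * Valued.v (((y⁻¹ : (Adl K)ˣ) : Adl K).2 v)
        ≤ Valued.v ((y : Adl K).2 v) * Valued.v (((y⁻¹ : (Adl K)ˣ) : Adl K).2 v) :=
          mul_le_mul_left (hfin v) _
      _ = 1 := h1

theorem exists_nat_exp_mul_le629 (x : ℤᵐ⁰) (hx : x ≠ 0) :
    ∃ k : ℕ, WithZero.exp (-(k : ℤ)) * x ≤ 1 := by
  obtain ⟨t, rfl⟩ : ∃ t : ℤ, x = WithZero.exp t := ⟨WithZero.log x, (WithZero.exp_log hx).symm⟩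
  refine ⟨t.toNat, ?_⟩
  rw [← WithZero.exp_add, ← WithZero.exp_zero, WithZero.exp_le_exp]
  have := Int.self_le_toNat t
  omega

/-- A common denominator of an idele. -/
theorem exists_denominator629 (y : (Adl K)ˣ) :
    ∃ d : 𝓞 K, d ≠ 0 ∧ ∀ v : HeightOneSpectrum (𝓞 K),
      v.intValuation d * Valued.v ((y : Adl K).2 v) ≤ 1 := by
  classical
  have hex : ∀ v : HeightOneSpectrum (𝓞 K), ∃ k : ℕ,
      WithZero.exp (-(k : ℤ)) * Valued.v ((y : Adl K).2 v) ≤ 1 := fun v =>
    exists_nat_exp_mul_le629 _ (by simpa using snd_ne_zero629 K y v)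
  choose k hk using hex
  set S : Finset (HeightOneSpectrum (𝓞 K)) := (snd_finite629 K y).toFinset with hS
  have hSmem : ∀ v, v ∈ S ↔ Valued.v ((y : Adl K).2 v) ≠ 1 := by
    intro v; simp [hS]
  refine ⟨∏ v ∈ S, ((Ideal.absNorm v.asIdeal : ℕ) : 𝓞 K) ^ k v, ?_, ?_⟩
  · rw [Finset.prod_ne_zero_iff]
    intro v _
    refine pow_ne_zero _ ?_
    have := one_lt_absNorm v
    exact_mod_cast (by omega : Ideal.absNorm v.asIdeal ≠ 0)
  · intro v
    by_cases hv : v ∈ S
    · have hmem : (∏ v ∈ S, ((Ideal.absNorm v.asIdeal : ℕ) : 𝓞 K) ^ k v) ∈ v.asIdeal ^ k v := by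
        obtain ⟨c, hc⟩ := Finset.dvd_prod_of_mem
          (fun v : HeightOneSpectrum (𝓞 K) => ((Ideal.absNorm v.asIdeal : ℕ) : 𝓞 K) ^ k v) hv
        rw [hc]
        exact Ideal.mul_mem_right _ _ (Ideal.pow_mem_pow (Ideal.absNorm_mem v.asIdeal) _)
      have hle := (intValuation_le_pow_iff_mem v _ (k v)).2 hmem
      exact le_trans (mul_le_mul_left hle _) (hk v)
    · have h1 : Valued.v ((y : Adl K).2 v) = 1 := by
        by_contra h; exact hv ((hSmem v).2 h)
      rw [h1, mul_one]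
      exact intValuation_le_one v _

/-- **Idelic Minkowski**: every idele of module `1` is, up to a box, a principal idele. -/
theorem exists_minkowski_idele629 (hN : AdNormC K) :
    ∃ r : ℝ, 0 < r ∧ ∀ y : (Adl K)ˣ, adNorm K (y : Adl K) = 1 →
      ∃ ξ : Kˣ, ((ratUnit K ξ * y⁻¹ : (Adl K)ˣ) : Adl K) ∈ Wset629 K r := by
  obtain ⟨r, hr, hM⟩ := exists_minkowski_integral629 K
  refine ⟨r, hr, fun y hy => ?_⟩
  obtain ⟨d, hd0, hd⟩ := exists_denominator629 K y
  have hdK : (d : K) ≠ 0 := by simpa using hd0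
  set dK : Kˣ := Units.mk0 (d : K) hdK with hdKdef
  set z : (Adl K)ˣ := ratUnit K dK * y with hz
  have hzfin : ∀ v : HeightOneSpectrum (𝓞 K), Valued.v ((z : Adl K).2 v) ≤ 1 := by
    intro v
    rw [hz, val_mul_snd629, map_mul, ratUnit_val629, hdKdef, Units.val_mk0, valued_algebraMap629]
    exact hd v
  have hznorm : adNorm K (z : Adl K) = 1 := by
    rw [hz, hN.2.1, hN.2.2.1, hy, mul_one]
  obtain ⟨a, ha0, hainf, hafin⟩ := hM z hzfin hznorm
  have haK : (a : K) ≠ 0 := by simpa using ha0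
  set aK : Kˣ := Units.mk0 (a : K) haK with haKdef
  refine ⟨aK * dK⁻¹, ?_⟩
  have e : ratUnit K (aK * dK⁻¹) * y⁻¹ = ratUnit K aK * z⁻¹ := by
    rw [hz, map_mul, map_inv, mul_inv, mul_assoc]
  rw [e]
  refine mem_Wset_of_le629 K r (ratUnit K aK) z (fun w => ?_) (fun v => ?_)
  · rw [ratUnit_val629, haKdef, Units.val_mk0, norm_algebraMap_fst629]
    exact hainf w
  · rw [ratUnit_val629, haKdef, Units.val_mk0]
    exact hafin v

end Fermat.Agent.LT.T1.H629

end
end
-- ===== PACK-END LT/T1/H629/FujisakiMinkowski.lean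

-- ===== PACK-BEGIN LT/H701/Psi.lean
section



/-!
# Row LT, block IDENT (helper701): the complex representation `R = ι ∘ Ψ`

For a section `Ψ : GL₂(𝔽₃) →* GL₂(ℤ[√-2])` of the reduction `red` and a ring homomorphism
`ι : ℤ[√-2] →+* ℂ`:

* `iota_injective_h701`: `ι` is injective;
* `rhom_neg_one_h701`: `R (-1) = -1`;
* `det_rhom_h701`: `det R(g) = 1` if `det g = 1`, and `-1` otherwise;
* `trace_rhom_h701`: `tr R(g) = ι (tr Ψ(g))`.
-/

set_option autoImplicit false

open Matrix FLT.ExplicitLift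

namespace Fermat.Agent.LT.H701

theorem iota_injective_h701 (ι : ℤ√(-2) →+* ℂ) : Function.Injective ι := by
  have h := Zsqrtd.lift_injective (R := ℂ) (d := -2) (Zsqrtd.lift.symm ι) (by
    intro n hn
    nlinarith [sq_nonneg n])
  rwa [Equiv.apply_symm_apply] at h

/-- An element of `ℤ[√-2]` whose image in `ℂ` has the square of an integer `n` is `n` or `-n`. -/
theorem eq_or_eq_neg_of_sq_h701 (ι : ℤ√(-2) →+* ℂ) (x : ℤ√(-2)) (n : ℤ)
    (h : ι x * ι x = (n : ℂ) * n) : x = (n : ℤ√(-2)) ∨ x = -(n : ℤ√(-2)) := by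
  have h1 : (ι x - n) * (ι x + n) = 0 := by linear_combination h
  rcases mul_eq_zero.mp h1 with h2 | h2
  · left
    apply iota_injective_h701 ι
    rw [map_intCast]
    exact sub_eq_zero.mp h2
  · right
    apply iota_injective_h701 ι
    rw [map_neg, map_intCast]
    exact eq_neg_of_add_eq_zero_left h2

/-- The complex representation `R = ι ∘ Ψ`. -/
noncomputable def rhom_h701 (ι : ℤ√(-2) →+* ℂ)
    (Ψ : GL (Fin 2) (ZMod 3) →* GL (Fin 2) (ℤ√(-2))) :
    GL (Fin 2) (ZMod 3) →* GL (Fin 2) ℂ :=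
  (Matrix.GeneralLinearGroup.map ι).comp Ψ

theorem val_rhom_h701 (ι : ℤ√(-2) →+* ℂ) (Ψ : GL (Fin 2) (ZMod 3) →* GL (Fin 2) (ℤ√(-2)))
    (g : GL (Fin 2) (ZMod 3)) :
    (rhom_h701 ι Ψ g).val = (Ψ g).val.map ι := rfl

theorem trace_rhom_h701 (ι : ℤ√(-2) →+* ℂ) (Ψ : GL (Fin 2) (ZMod 3) →* GL (Fin 2) (ℤ√(-2)))
    (g : GL (Fin 2) (ZMod 3)) :
    (rhom_h701 ι Ψ g).val.trace = ι ((Ψ g).val.trace) := by
  rw [val_rhom_h701, AddMonoidHom.map_trace]

theorem det_rhom_eq_h701 (ι : ℤ√(-2) →+* ℂ) (Ψ : GL (Fin 2) (ZMod 3) →* GL (Fin 2) (ℤ√(-2)))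
    (g : GL (Fin 2) (ZMod 3)) :
    (rhom_h701 ι Ψ g).val.det = ι ((Ψ g).val.det) := by
  rw [val_rhom_h701, RingHom.map_det]
  rfl

section red

variable (Ψ : GL (Fin 2) (ZMod 3) →* GL (Fin 2) (ℤ√(-2)))
  (hΨ : ∀ g, Matrix.GeneralLinearGroup.map red (Ψ g) = g)

include hΨ

theorem red_val_h701 (g : GL (Fin 2) (ZMod 3)) : (Ψ g).val.map red = g.val := by
  have := congrArg Units.val (hΨ g)
  exact this

theorem red_trace_h701 (g : GL (Fin 2) (ZMod 3)) :
    red ((Ψ g).val.trace) = g.val.trace := by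
  rw [AddMonoidHom.map_trace, red_val_h701 Ψ hΨ]

theorem red_det_h701 (g : GL (Fin 2) (ZMod 3)) :
    red ((Ψ g).val.det) = g.val.det := by
  rw [RingHom.map_det]
  show ((Ψ g).val.map red).det = _
  rw [red_val_h701 Ψ hΨ]

/-- If `det R(x)` squares to one, it is the lift of `det x`. -/
theorem det_rhom_of_sq_h701 (ι : ℤ√(-2) →+* ℂ) (x : GL (Fin 2) (ZMod 3))
    (h : (rhom_h701 ι Ψ x).val.det * (rhom_h701 ι Ψ x).val.det = 1) :
    (x.val.det = 1 → (Ψ x).val.det = 1) ∧ (x.val.det = -1 → (Ψ x).val.det = -1) := by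
  rw [det_rhom_eq_h701] at h
  have h' : ι (Ψ x).val.det * ι (Ψ x).val.det = ((1 : ℤ) : ℂ) * ((1 : ℤ) : ℂ) := by
    rw [h]; simp
  have hred := red_det_h701 Ψ hΨ x
  rcases eq_or_eq_neg_of_sq_h701 ι _ 1 h' with h1 | h1
  · rw [h1] at hred ⊢
    refine ⟨fun _ => by simp, fun hx => ?_⟩
    rw [hx] at hred
    simp only [Int.cast_one, map_one] at hred
    exact absurd hred (by decide)
  · rw [h1] at hred ⊢
    refine ⟨fun hx => ?_, fun _ => by simp⟩
    rw [hx] at hred
    simp only [Int.cast_one, map_neg, map_one] at hred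
    exact absurd hred (by decide)

theorem rhom_neg_one_h701 (ι : ℤ√(-2) →+* ℂ) : rhom_h701 ι Ψ (-1) = -1 := by
  have hZ : (rhom_h701 ι Ψ (-1)).val * (rhom_h701 ι Ψ (-1)).val = 1 := by
    rw [← Units.val_mul, ← map_mul, neg_one_sq_h701, map_one]
    rfl
  have hdd : (rhom_h701 ι Ψ (-1)).val.det * (rhom_h701 ι Ψ (-1)).val.det = 1 := by
    rw [← Matrix.det_mul, hZ, Matrix.det_one]
  have hdet1 : ((-1 : GL (Fin 2) (ZMod 3)) : Matrix (Fin 2) (Fin 2) (ZMod 3)).det = 1 := by
    decide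
  have hd : (Ψ (-1)).val.det = 1 := (det_rhom_of_sq_h701 Ψ hΨ ι (-1) hdd).1 hdet1
  have hdC : (rhom_h701 ι Ψ (-1)).val.det = 1 := by
    rw [det_rhom_eq_h701, hd, map_one]
  have hCH := sq_eq_h701 (rhom_h701 ι Ψ (-1)).val
  rw [hZ, hdC, one_smul] at hCH
  -- trace of both sides
  have htr := congrArg Matrix.trace hCH
  rw [Matrix.trace_sub, Matrix.trace_smul, Matrix.trace_one] at htr
  simp only [Fintype.card_fin, smul_eq_mul, Nat.cast_ofNat] at htr
  rw [trace_rhom_h701] at htr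
  have h' : ι (Ψ (-1)).val.trace * ι (Ψ (-1)).val.trace = ((2 : ℤ) : ℂ) * ((2 : ℤ) : ℂ) := by
    push_cast
    linear_combination -htr
  have hred := red_trace_h701 Ψ hΨ (-1)
  have htr1 : ((-1 : GL (Fin 2) (ZMod 3)) : Matrix (Fin 2) (Fin 2) (ZMod 3)).trace = 1 := by
    decide
  rw [htr1] at hred
  have ht : (Ψ (-1)).val.trace = -2 := by
    rcases eq_or_eq_neg_of_sq_h701 ι _ 2 h' with h1 | h1
    · rw [h1] at hred
      simp only [Int.cast_ofNat, map_ofNat] at hred
      exact absurd hred (by decide)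
    · rw [h1]; simp
  apply Units.ext
  apply eq_neg_one_of_sq_h701 (two_ne_zero) _ hZ
  rw [trace_rhom_h701, ht, map_neg, map_ofNat]

/-- The determinant of `R`. -/
theorem det_rhom_h701 (ι : ℤ√(-2) →+* ℂ) (g : GL (Fin 2) (ZMod 3)) :
    (rhom_h701 ι Ψ g).val.det =
      if Matrix.GeneralLinearGroup.det g = 1 then 1 else -1 := by
  have hm1 : ((-1 : GL (Fin 2) ℂ) : Matrix (Fin 2) (Fin 2) ℂ).det = 1 := by
    simp [Matrix.det_fin_two]
  have hsq : ∀ x : GL (Fin 2) (ZMod 3), x * x = -1 →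
      (rhom_h701 ι Ψ x).val.det * (rhom_h701 ι Ψ x).val.det = 1 := by
    intro x hx
    rw [← Matrix.det_mul, ← Units.val_mul, ← map_mul, hx, rhom_neg_one_h701 Ψ hΨ ι, hm1]
  let χ : GL (Fin 2) (ZMod 3) →* ℂˣ := Matrix.GeneralLinearGroup.det.comp (rhom_h701 ι Ψ)
  have hχ : ∀ x, ((χ x : ℂˣ) : ℂ) = (rhom_h701 ι Ψ x).val.det := fun x => rfl
  have hi : χ gi_h701 = 1 := by
    apply Units.ext
    rw [hχ, det_rhom_eq_h701,
      (det_rhom_of_sq_h701 Ψ hΨ ι gi_h701 (hsq _ gi_mul_gi_h701)).1 (by decide), map_one]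
    rfl
  have hj : χ gj_h701 = 1 := by
    apply Units.ext
    rw [hχ, det_rhom_eq_h701,
      (det_rhom_of_sq_h701 Ψ hΨ ι gj_h701 (hsq _ gj_mul_gj_h701)).1 (by decide), map_one]
    rfl
  have hd : χ gd_h701 = -1 := by
    apply Units.ext
    have hdd : (rhom_h701 ι Ψ gd_h701).val.det * (rhom_h701 ι Ψ gd_h701).val.det = 1 := by
      rw [← Matrix.det_mul, ← Units.val_mul, ← map_mul, gd_mul_gd_h701, map_one]
      simp
    rw [hχ, det_rhom_eq_h701,
      (det_rhom_of_sq_h701 Ψ hΨ ι gd_h701 hdd).2 (by decide), map_neg, map_one]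
    rfl
  have key := hom_eq_h701 χ hi hj (Commute.all _ _) g
  by_cases hg : Matrix.GeneralLinearGroup.det g = 1
  · rw [if_pos hg, ← hχ, key.1 hg]
    rfl
  · rw [if_neg hg, ← hχ, key.2 hg, hd]
    rfl

end red

end Fermat.Agent.LT.H701

end
-- ===== PACK-END LT/H701/Psi.lean

-- ===== PACK-BEGIN LT/T2/H729/Contr.lean
section



/-!
# Row LT, tower T2, leaf T2.03a (`FDBound`), sub-leaf T2.03a.1 `ContrC` (helper729): core

OFF-MAIN.  Mathlib + `LT/H556/A0.lean` only.  Nothing is assumed.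

`contr729` : for an ideal `𝔫 ≠ 0`, a compact `Ω ⊆ GL₂(𝔸_K)` and a compact `C ⊆ 𝔸_K` there is an
integer `m > 0` such that `ω⁻¹ n ω ∈ U(𝔫)` for all `ω ∈ Ω`, `u ∈ C` and every unipotent
`n = [[1, x], [0, 1]]` whose parameter `x` has infinite part `0` and the finite part of `m u`.

Proof.  (1) `exists_denom729`: a compact set of adeles has bounded denominators (the sets
`{x : m x_v ∈ 𝒪_v for all v}` are open, increasing for divisibility, and cover `𝔸_K`).
(2) The entries of `ω` and `ω⁻¹` are continuous, so they have bounded denominators on `Ω`.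
(3) `mul_mem_idealClosure729`: `c 𝒪_v ⊆` closure of `𝔫` for `c ∈ 𝔫` (`𝒪_K` is dense in `𝒪_v`).
(4) `m = m₁ m₂² m₃`, `m₃ = N(𝔫) ∈ 𝔫`:
`(ω⁻¹ n ω - 1)_v = ω_v⁻¹ [[0, m u_v], [0, 0]] ω_v`, with entries
`m₃ (m₂ (ω_v⁻¹)_{i0}) (m₁ u_v) (m₂ (ω_v)_{1j}) ∈ m₃ 𝒪_v`.
-/

set_option autoImplicit false

open IsDedekindDomain NumberField
open Fermat.Agent.LT.H556.A0

noncomputable section

namespace Fermat.Agent.LT.T2.H729

set_option linter.unusedSectionVars false

variable {K : Type} [Field K] [NumberField K]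

/-! ## Components -/

/-- The component at the infinite place `w`, as a ring homomorphism. -/
def pInfC729 (w : InfinitePlace K) : Adl K →+* w.Completion :=
  (Pi.evalRingHom (fun w : InfinitePlace K => w.Completion) w).comp
    (RingHom.fst (InfiniteAdeleRing K) (FiniteAdeleRing (𝓞 K) K))

/-- The component at the finite place `v`, as a ring homomorphism. -/
def pFinC729 (v : HeightOneSpectrum (𝓞 K)) : Adl K →+* v.adicCompletion K :=
  (RestrictedProduct.evalRingHom (fun v : HeightOneSpectrum (𝓞 K) => v.adicCompletion K) v).comp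
    (RingHom.snd (InfiniteAdeleRing K) (FiniteAdeleRing (𝓞 K) K))

theorem pInfC729_apply (w : InfinitePlace K) (x : Adl K) : pInfC729 w x = x.1 w := rfl

theorem pFinC729_apply (v : HeightOneSpectrum (𝓞 K)) (x : Adl K) : pFinC729 v x = x.2 v := rfl

theorem natCast_mul_snd729 (v : HeightOneSpectrum (𝓞 K)) (m : ℕ) (x : Adl K) :
    ((m : Adl K) * x).2 v = (m : v.adicCompletion K) * x.2 v := by
  rw [← pFinC729_apply, map_mul, map_natCast, pFinC729_apply]

theorem natCast_mem_integers729 (v : HeightOneSpectrum (𝓞 K)) (m : ℕ) :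
    (m : v.adicCompletion K) ∈ v.adicCompletionIntegers K :=
  natCast_mem _ m

/-! ## Bounded denominators -/

/-- The adeles with denominator dividing `m`. -/
def denomSet729 (m : ℕ) : Set (Adl K) :=
  {x | ∀ v : HeightOneSpectrum (𝓞 K),
    (m : v.adicCompletion K) * x.2 v ∈ v.adicCompletionIntegers K}

theorem isOpen_denomSet729 (m : ℕ) : IsOpen (denomSet729 (K := K) m) := by
  have hopen : IsOpen {f : FiniteAdeleRing (𝓞 K) K |
      ∀ v : HeightOneSpectrum (𝓞 K), f v ∈ v.adicCompletionIntegers K} :=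
    RestrictedProduct.isOpen_forall_mem (fun v => Valued.isOpen_valuationSubring _)
  have hc : Continuous fun x : Adl K => ((m : Adl K) * x).2 :=
    continuous_snd.comp (continuous_const.mul continuous_id)
  have he : denomSet729 (K := K) m = (fun x : Adl K => ((m : Adl K) * x).2) ⁻¹'
      {f : FiniteAdeleRing (𝓞 K) K |
        ∀ v : HeightOneSpectrum (𝓞 K), f v ∈ v.adicCompletionIntegers K} := by
    ext x
    simp only [denomSet729, Set.mem_preimage, Set.mem_ofPred_eq]
    refine forall_congr' (fun v => ?_)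
    rw [natCast_mul_snd729]
  rw [he]
  exact hopen.preimage hc

theorem denomSet_mono729 {m m' : ℕ} (h : m ∣ m') :
    denomSet729 (K := K) m ⊆ denomSet729 m' := by
  obtain ⟨k, rfl⟩ := h
  intro x hx v
  have h1 := hx v
  have h2 : ((m * k : ℕ) : v.adicCompletion K) * x.2 v
      = (k : v.adicCompletion K) * ((m : v.adicCompletion K) * x.2 v) := by
    push_cast
    ring
  rw [h2]
  exact mul_mem (natCast_mem_integers729 v k) h1

/-- Every element of `K_v` has a positive integer multiple in `𝒪_v`. -/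
theorem exists_natCast_mul_mem729 (v : HeightOneSpectrum (𝓞 K)) (a : v.adicCompletion K) :
    ∃ k : ℕ, 0 < k ∧ (k : v.adicCompletion K) * a ∈ v.adicCompletionIntegers K := by
  obtain ⟨b, hb, hab⟩ :=
    HeightOneSpectrum.adicCompletion.mul_nonZeroDivisor_mem_adicCompletionIntegers (K := K) v a
  have hb0 : b ≠ 0 := nonZeroDivisors.ne_zero hb
  set I : Ideal (𝓞 K) := Ideal.span {b} with hI
  have hI0 : I ≠ ⊥ := by
    rw [hI, Ne, Ideal.span_singleton_eq_bot]
    exact hb0
  have hk0 : Ideal.absNorm I ≠ 0 := by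
    rw [Ne, Ideal.absNorm_eq_zero_iff]
    exact hI0
  have hmem : ((Ideal.absNorm I : ℕ) : 𝓞 K) ∈ I := Ideal.absNorm_mem I
  rw [hI, Ideal.mem_span_singleton'] at hmem
  obtain ⟨c, hc⟩ := hmem
  refine ⟨Ideal.absNorm I, Nat.pos_of_ne_zero hk0, ?_⟩
  have h1 : ((Ideal.absNorm I : ℕ) : v.adicCompletion K)
      = algebraMap (𝓞 K) (v.adicCompletion K) c * algebraMap (𝓞 K) (v.adicCompletion K) b := by
    rw [← map_mul, hc, map_natCast]
  rw [h1, mul_assoc]
  refine mul_mem (HeightOneSpectrum.coe_mem_adicCompletionIntegers (K := K) v c) ?_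
  rw [mul_comm]
  exact hab

/-- The sets `denomSet729 m`, `m > 0`, cover the adeles. -/
theorem exists_mem_denomSet729 (x : Adl K) : ∃ m : ℕ, 0 < m ∧ x ∈ denomSet729 m := by
  classical
  have hfin : {v : HeightOneSpectrum (𝓞 K) | x.2 v ∉ v.adicCompletionIntegers K}.Finite := by
    have := x.2.2
    rw [Filter.eventually_cofinite] at this
    exact this
  choose k hk0 hk using fun v : HeightOneSpectrum (𝓞 K) => exists_natCast_mul_mem729 v (x.2 v)
  refine ⟨∏ v ∈ hfin.toFinset, k v, Finset.prod_pos (fun v _ => hk0 v), fun v => ?_⟩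
  by_cases hv : v ∈ hfin.toFinset
  · have hdvd : k v ∣ ∏ v ∈ hfin.toFinset, k v := Finset.dvd_prod_of_mem k hv
    obtain ⟨c, hc⟩ := hdvd
    rw [hc]
    have h2 : ((k v * c : ℕ) : v.adicCompletion K) * x.2 v
        = (c : v.adicCompletion K) * ((k v : v.adicCompletion K) * x.2 v) := by
      push_cast
      ring
    rw [h2]
    exact mul_mem (natCast_mem_integers729 v c) (hk v)
  · have hx : x.2 v ∈ v.adicCompletionIntegers K := by
      by_contra h
      exact hv (hfin.mem_toFinset.mpr h)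
    exact mul_mem (natCast_mem_integers729 v _) hx

/-- **Bounded denominators**: a compact set of adeles is contained in some `denomSet729 m`,
`m > 0`. -/
theorem exists_denom729 (C : Set (Adl K)) (hC : IsCompact C) :
    ∃ m : ℕ, 0 < m ∧ C ⊆ denomSet729 m := by
  classical
  have hcover : C ⊆ ⋃ i : ℕ, denomSet729 (K := K) (i + 1) := by
    intro x _
    obtain ⟨m, hm, hx⟩ := exists_mem_denomSet729 x
    rw [Set.mem_iUnion]
    refine ⟨m - 1, ?_⟩
    have : m - 1 + 1 = m := by omega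
    rw [this]
    exact hx
  obtain ⟨t, ht⟩ := hC.elim_finite_subcover (fun i : ℕ => denomSet729 (K := K) (i + 1))
    (fun i => isOpen_denomSet729 (i + 1)) hcover
  refine ⟨∏ i ∈ t, (i + 1), Finset.prod_pos (fun i _ => Nat.succ_pos i), fun x hx => ?_⟩
  have := ht hx
  rw [Set.mem_iUnion₂] at this
  obtain ⟨i, hi, hxi⟩ := this
  exact denomSet_mono729 (Finset.dvd_prod_of_mem (fun i => i + 1) hi) hxi

/-! ## The closure of an ideal -/

/-- `𝒪_K` is dense in `𝒪_v`. -/
theorem mem_closure_range_integers729 (v : HeightOneSpectrum (𝓞 K)) (y : v.adicCompletion K)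
    (hy : y ∈ v.adicCompletionIntegers K) :
    y ∈ closure (Set.range fun a : 𝓞 K =>
      algebraMap K (v.adicCompletion K) (algebraMap (𝓞 K) K a)) := by
  rw [mem_closure_iff_nhds]
  intro t ht
  rw [Valued.mem_nhds] at ht
  obtain ⟨γ, hγ⟩ := ht
  set γ' : WithZero (Multiplicative ℤ) := MonoidWithZeroHom.ValueGroup₀.embedding γ.1 with hγ'
  have hγ'0 : γ' ≠ 0 :=
    (map_ne_zero_iff _ MonoidWithZeroHom.ValueGroup₀.embedding_injective).mpr γ.ne_zero
  have hsub : ∀ z : v.adicCompletion K, Valued.v (z - y) < γ' → z ∈ t := fun z hz =>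
    hγ ((Valuation.restrict_lt_iff_lt_embedding _).mpr hz)
  -- step 1: an element of `K` close to `y`
  have hopen : {z : v.adicCompletion K | Valued.v (z - y) < min γ' 1} ∈ nhds y := by
    rw [Valued.mem_nhds]
    by_cases hle : γ.1 ≤ 1
    · refine ⟨γ, fun z hz => ?_⟩
      have h1 : Valued.v (z - y) < γ' := (Valuation.restrict_lt_iff_lt_embedding _).mp hz
      have h2 : γ' ≤ 1 := by
        have := MonoidWithZeroHom.ValueGroup₀.embedding_strictMono.monotone hle
        rwa [map_one] at this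
      show Valued.v (z - y) < min γ' 1
      rw [min_eq_left h2]
      exact h1
    · refine ⟨1, fun z hz => ?_⟩
      have h1 : Valued.v (z - y) < 1 := by
        have := (Valuation.restrict_lt_iff_lt_embedding _).mp hz
        rwa [Units.val_one, map_one] at this
      have h2 : 1 ≤ γ' := by
        have := MonoidWithZeroHom.ValueGroup₀.embedding_strictMono.monotone (not_le.mp hle).le
        rwa [map_one] at this
      show Valued.v (z - y) < min γ' 1
      rw [min_eq_right h2]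
      exact h1
  have hdense : DenseRange (algebraMap K (v.adicCompletion K)) :=
    HeightOneSpectrum.denseRange_algebraMap (R := 𝓞 K) K v
  have hval : ∀ k : K, Valued.v (algebraMap K (v.adicCompletion K) k) = v.valuation K k :=
    fun k => HeightOneSpectrum.valuedAdicCompletion_eq_valuation' v k
  obtain ⟨z, ⟨x, rfl⟩, hz⟩ := hdense.inter_nhds_nonempty hopen
  have hz1 : Valued.v (algebraMap K (v.adicCompletion K) x - y) < γ' :=
    lt_of_lt_of_le hz (min_le_left _ _)
  have hz2 : Valued.v (algebraMap K (v.adicCompletion K) x - y) < 1 :=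
    lt_of_lt_of_le hz (min_le_right _ _)
  have hy1 : Valued.v y ≤ 1 := by
    rwa [HeightOneSpectrum.mem_adicCompletionIntegers] at hy
  have hx1 : Valued.v (algebraMap K (v.adicCompletion K) x) ≤ 1 := by
    have h3 : algebraMap K (v.adicCompletion K) x
        = (algebraMap K (v.adicCompletion K) x - y) + y := by ring
    rw [h3]
    exact (Valued.v.map_add _ _).trans (max_le hz2.le hy1)
  have hx2 : v.valuation K x ≤ 1 := by
    rwa [hval] at hx1
  -- step 2: an element of `𝒪_K` close to `x`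
  obtain ⟨a, ha⟩ := HeightOneSpectrum.exists_valuation_sub_lt_of_integer (K := K) v hx2
    (Units.mk0 γ' hγ'0)
  rw [Units.val_mk0] at ha
  refine ⟨algebraMap K (v.adicCompletion K) (algebraMap (𝓞 K) K a), hsub _ ?_, ⟨a, rfl⟩⟩
  have h4 : algebraMap K (v.adicCompletion K) (algebraMap (𝓞 K) K a) - y
      = algebraMap K (v.adicCompletion K) (algebraMap (𝓞 K) K a - x)
        + (algebraMap K (v.adicCompletion K) x - y) := by
    rw [map_sub]
    ring
  rw [h4]
  refine lt_of_le_of_lt (Valued.v.map_add _ _) (max_lt ?_ hz1)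
  rw [hval]
  exact ha

/-- `c 𝒪_v` is contained in the closure of `𝔫` for `c ∈ 𝔫`. -/
theorem mul_mem_idealClosure729 (𝔫 : Ideal (𝓞 K)) (v : HeightOneSpectrum (𝓞 K)) (c : 𝓞 K)
    (hc : c ∈ 𝔫) (y : v.adicCompletion K) (hy : y ∈ v.adicCompletionIntegers K) :
    algebraMap K (v.adicCompletion K) (algebraMap (𝓞 K) K c) * y ∈ idealClosure 𝔫 v := by
  have h1 := mem_closure_range_integers729 v y hy
  have hcont : Continuous fun z : v.adicCompletion K =>
      algebraMap K (v.adicCompletion K) (algebraMap (𝓞 K) K c) * z :=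
    continuous_const.mul continuous_id
  have h2 := map_mem_closure hcont h1 (t := (fun x : 𝓞 K =>
      algebraMap K (v.adicCompletion K) (algebraMap (𝓞 K) K x)) '' (𝔫 : Set (𝓞 K))) ?_
  · exact h2
  · rintro _ ⟨a, rfl⟩
    refine ⟨c * a, 𝔫.mul_mem_right a hc, ?_⟩
    show algebraMap K (v.adicCompletion K) (algebraMap (𝓞 K) K (c * a)) = _
    rw [map_mul, map_mul]

/-- The same for a natural number in `𝔫`. -/
theorem natCast_mul_mem_idealClosure729 (𝔫 : Ideal (𝓞 K)) (v : HeightOneSpectrum (𝓞 K)) (m : ℕ)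
    (hm : (m : 𝓞 K) ∈ 𝔫) (y : v.adicCompletion K) (hy : y ∈ v.adicCompletionIntegers K) :
    (m : v.adicCompletion K) * y ∈ idealClosure 𝔫 v := by
  have := mul_mem_idealClosure729 𝔫 v (m : 𝓞 K) hm y hy
  rwa [map_natCast, map_natCast] at this

/-! ## The contraction -/

/-- The entries of the elements of a compact subset of `GL₂(𝔸_K)` and of their inverses have
bounded denominators. -/
theorem exists_denom_entries729 (Ω : Set (G K)) (hΩ : IsCompact Ω) :
    ∃ m : ℕ, 0 < m ∧ ∀ ω ∈ Ω, ∀ i j : Fin 2,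
      (ω : Matrix (Fin 2) (Fin 2) (Adl K)) i j ∈ denomSet729 m ∧
        ((ω⁻¹ : G K) : Matrix (Fin 2) (Fin 2) (Adl K)) i j ∈ denomSet729 m := by
  have hval : Continuous fun ω : G K => (ω : Matrix (Fin 2) (Fin 2) (Adl K)) :=
    Units.continuous_val
  have hinv : Continuous fun ω : G K => ((ω⁻¹ : G K) : Matrix (Fin 2) (Fin 2) (Adl K)) :=
    Units.continuous_coe_inv
  have hc1 : ∀ i j : Fin 2, Continuous fun ω : G K =>
      (ω : Matrix (Fin 2) (Fin 2) (Adl K)) i j := fun i j => hval.matrix_elem i j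
  have hc2 : ∀ i j : Fin 2, Continuous fun ω : G K =>
      ((ω⁻¹ : G K) : Matrix (Fin 2) (Fin 2) (Adl K)) i j := fun i j => hinv.matrix_elem i j
  have hcpt : IsCompact (⋃ i : Fin 2, ⋃ j : Fin 2,
      ((fun ω : G K => (ω : Matrix (Fin 2) (Fin 2) (Adl K)) i j) '' Ω ∪
        (fun ω : G K => ((ω⁻¹ : G K) : Matrix (Fin 2) (Fin 2) (Adl K)) i j) '' Ω)) :=
    isCompact_iUnion fun i => isCompact_iUnion fun j =>
      (hΩ.image (hc1 i j)).union (hΩ.image (hc2 i j))
  obtain ⟨m, hm, hsub⟩ := exists_denom729 _ hcpt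
  refine ⟨m, hm, fun ω hω i j => ⟨hsub ?_, hsub ?_⟩⟩
  · exact Set.mem_iUnion.mpr ⟨i, Set.mem_iUnion.mpr ⟨j, Or.inl ⟨ω, hω, rfl⟩⟩⟩
  · exact Set.mem_iUnion.mpr ⟨i, Set.mem_iUnion.mpr ⟨j, Or.inr ⟨ω, hω, rfl⟩⟩⟩

/-- The entries of a conjugate of `[[1, x], [0, 1]] - 1`. -/
theorem conj_unip_sub_one729 {R : Type} [CommRing R] (A B : Matrix (Fin 2) (Fin 2) R)
    (hBA : B * A = 1) (x : R) (i j : Fin 2) :
    (B * !![1, x; 0, 1] * A - 1) i j = B i 0 * x * A 1 j := by
  have h1 : B * !![1, x; 0, 1] * A - 1 = B * (!![1, x; 0, 1] - 1) * A := by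
    rw [Matrix.mul_sub, Matrix.sub_mul, Matrix.mul_one, hBA]
  rw [h1]
  have h2 : (!![1, x; 0, 1] - 1 : Matrix (Fin 2) (Fin 2) R) = !![0, x; 0, 0] := by
    ext a b
    fin_cases a <;> fin_cases b <;> simp
  rw [h2]
  simp [Matrix.mul_apply, Fin.sum_univ_two]

/-- **CONTR**, core form. -/
theorem contr729 (𝔫 : Ideal (𝓞 K)) (h𝔫 : 𝔫 ≠ ⊥) (Ω : Set (G K)) (hΩ : IsCompact Ω)
    (C : Set (Adl K)) (hC : IsCompact C) :
    ∃ m : ℕ, 0 < m ∧ ∀ ω ∈ Ω, ∀ u ∈ C, ∀ n : G K,
      (n : Matrix (Fin 2) (Fin 2) (Adl K))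
        = !![1, ((0 : InfiniteAdeleRing K), ((m : Adl K) * u).2); 0, 1] →
      ((n⁻¹ : G K) : Matrix (Fin 2) (Fin 2) (Adl K))
        = !![1, -((0 : InfiniteAdeleRing K), ((m : Adl K) * u).2); 0, 1] →
      InLevelGroup 𝔫 (ω⁻¹ * n * ω) := by
  obtain ⟨m₁, hm₁, hC₁⟩ := exists_denom729 C hC
  obtain ⟨m₂, hm₂, hΩ₂⟩ := exists_denom_entries729 Ω hΩ
  set m₃ : ℕ := Ideal.absNorm 𝔫 with hm₃def
  have hm₃ : 0 < m₃ := Nat.pos_of_ne_zero (by
    rw [hm₃def, Ne, Ideal.absNorm_eq_zero_iff]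
    exact h𝔫)
  have hm₃mem : (m₃ : 𝓞 K) ∈ 𝔫 := Ideal.absNorm_mem 𝔫
  refine ⟨m₃ * (m₂ * m₁ * m₂), Nat.mul_pos hm₃ (Nat.mul_pos (Nat.mul_pos hm₂ hm₁) hm₂),
    fun ω hω u hu n hn hn' => ?_⟩
  set x : Adl K := ((0 : InfiniteAdeleRing K), (((m₃ * (m₂ * m₁ * m₂) : ℕ) : Adl K) * u).2)
    with hx
  have hBA : ((ω⁻¹ : G K) : Matrix (Fin 2) (Fin 2) (Adl K))
      * (ω : Matrix (Fin 2) (Fin 2) (Adl K)) = 1 := by
    rw [← Units.val_mul, inv_mul_cancel, Units.val_one]
  have hg : ((ω⁻¹ * n * ω : G K) : Matrix (Fin 2) (Fin 2) (Adl K))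
      = ((ω⁻¹ : G K) : Matrix (Fin 2) (Fin 2) (Adl K)) * !![1, x; 0, 1]
        * (ω : Matrix (Fin 2) (Fin 2) (Adl K)) := by
    rw [Units.val_mul, Units.val_mul, hn]
    rfl
  have hginv : (((ω⁻¹ * n * ω)⁻¹ : G K) : Matrix (Fin 2) (Fin 2) (Adl K))
      = ((ω⁻¹ : G K) : Matrix (Fin 2) (Fin 2) (Adl K)) * !![1, -x; 0, 1]
        * (ω : Matrix (Fin 2) (Fin 2) (Adl K)) := by
    have : (ω⁻¹ * n * ω)⁻¹ = ω⁻¹ * n⁻¹ * ω := by group
    rw [this, Units.val_mul, Units.val_mul, hn']
    rfl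
  have hentry : ∀ i j : Fin 2,
      ((ω⁻¹ * n * ω : G K) : Matrix (Fin 2) (Fin 2) (Adl K)) i j - (1 : Matrix _ _ _) i j
        = ((ω⁻¹ : G K) : Matrix (Fin 2) (Fin 2) (Adl K)) i 0 * x
          * (ω : Matrix (Fin 2) (Fin 2) (Adl K)) 1 j := by
    intro i j
    rw [hg]
    exact conj_unip_sub_one729 _ _ hBA x i j
  have hentry' : ∀ i j : Fin 2,
      (((ω⁻¹ * n * ω)⁻¹ : G K) : Matrix (Fin 2) (Fin 2) (Adl K)) i j - (1 : Matrix _ _ _) i j
        = ((ω⁻¹ : G K) : Matrix (Fin 2) (Fin 2) (Adl K)) i 0 * (-x)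
          * (ω : Matrix (Fin 2) (Fin 2) (Adl K)) 1 j := by
    intro i j
    rw [hginv]
    exact conj_unip_sub_one729 _ _ hBA (-x) i j
  have hone_inf : ∀ (w : InfinitePlace K) (i j : Fin 2),
      ((1 : Matrix (Fin 2) (Fin 2) (Adl K)) i j).1 w
        = (1 : Matrix (Fin 2) (Fin 2) w.Completion) i j := by
    intro w i j
    by_cases h : i = j
    · subst h
      simp only [Matrix.one_apply_eq]
      rfl
    · simp only [Matrix.one_apply_ne h]
      rfl
  have hone_fin : ∀ (v : HeightOneSpectrum (𝓞 K)) (i j : Fin 2),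
      ((1 : Matrix (Fin 2) (Fin 2) (Adl K)) i j).2 v
        = (1 : Matrix (Fin 2) (Fin 2) (v.adicCompletion K)) i j := by
    intro v i j
    by_cases h : i = j
    · subst h
      simp only [Matrix.one_apply_eq]
      rfl
    · simp only [Matrix.one_apply_ne h]
      rfl
  have hxinf : ∀ w : InfinitePlace K, x.1 w = 0 := fun w => rfl
  have hxfin : ∀ v : HeightOneSpectrum (𝓞 K), x.2 v
      = (m₃ : v.adicCompletion K) * (((m₂ : v.adicCompletion K) * (m₁ : v.adicCompletion K))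
        * (m₂ : v.adicCompletion K)) * u.2 v := by
    intro v
    show ((((m₃ * (m₂ * m₁ * m₂) : ℕ) : Adl K) * u).2) v = _
    rw [natCast_mul_snd729]
    push_cast
    ring
  refine ⟨fun w i j => ?_, fun v i j => ⟨?_, ?_⟩⟩
  · -- infinite places
    have h1 := congrArg (fun a : Adl K => a.1 w) (hentry i j)
    have h2 : (((ω⁻¹ : G K) : Matrix (Fin 2) (Fin 2) (Adl K)) i 0 * x
        * (ω : Matrix (Fin 2) (Fin 2) (Adl K)) 1 j).1 w = 0 := by
      rw [← pInfC729_apply, map_mul, map_mul, pInfC729_apply w x, hxinf w, mul_zero, zero_mul]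
    have h3 : (((ω⁻¹ * n * ω : G K) : Matrix (Fin 2) (Fin 2) (Adl K)) i j
        - (1 : Matrix _ _ _) i j).1 w
        = (((ω⁻¹ * n * ω : G K) : Matrix (Fin 2) (Fin 2) (Adl K)) i j).1 w
          - ((1 : Matrix (Fin 2) (Fin 2) (Adl K)) i j).1 w := by
      rw [← pInfC729_apply, map_sub, pInfC729_apply, pInfC729_apply]
    have h4 : (((ω⁻¹ * n * ω : G K) : Matrix (Fin 2) (Fin 2) (Adl K)) i j).1 w
        = ((1 : Matrix (Fin 2) (Fin 2) (Adl K)) i j).1 w := by
      have : (((ω⁻¹ * n * ω : G K) : Matrix (Fin 2) (Fin 2) (Adl K)) i j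
          - (1 : Matrix _ _ _) i j).1 w = 0 := h1.trans h2
      rw [h3] at this
      exact sub_eq_zero.mp this
    rw [h4, hone_inf]
  · -- finite places, the element
    have h1 := congrArg (fun a : Adl K => a.2 v) (hentry i j)
    have h3 : (finComp v (ω⁻¹ * n * ω) - 1) i j
        = (((ω⁻¹ * n * ω : G K) : Matrix (Fin 2) (Fin 2) (Adl K)) i j
          - (1 : Matrix _ _ _) i j).2 v := by
      rw [← pFinC729_apply, map_sub, pFinC729_apply, pFinC729_apply, hone_fin]
      rfl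
    rw [h3]
    have h5 : (((ω⁻¹ * n * ω : G K) : Matrix (Fin 2) (Fin 2) (Adl K)) i j
        - (1 : Matrix _ _ _) i j).2 v
        = (((ω⁻¹ : G K) : Matrix (Fin 2) (Fin 2) (Adl K)) i 0 * x
          * (ω : Matrix (Fin 2) (Fin 2) (Adl K)) 1 j).2 v := h1
    rw [h5, ← pFinC729_apply, map_mul, map_mul, pFinC729_apply, pFinC729_apply, pFinC729_apply,
      hxfin v]
    have h6 : (((ω⁻¹ : G K) : Matrix (Fin 2) (Fin 2) (Adl K)) i 0).2 v *
        ((m₃ : v.adicCompletion K) * (((m₂ : v.adicCompletion K) * (m₁ : v.adicCompletion K))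
          * (m₂ : v.adicCompletion K)) * u.2 v) *
        ((ω : Matrix (Fin 2) (Fin 2) (Adl K)) 1 j).2 v
        = (m₃ : v.adicCompletion K) *
          (((m₂ : v.adicCompletion K) *
              (((ω⁻¹ : G K) : Matrix (Fin 2) (Fin 2) (Adl K)) i 0).2 v) *
            ((m₁ : v.adicCompletion K) * u.2 v) *
            ((m₂ : v.adicCompletion K) * ((ω : Matrix (Fin 2) (Fin 2) (Adl K)) 1 j).2 v)) := by
      ring
    rw [h6]
    refine natCast_mul_mem_idealClosure729 𝔫 v m₃ hm₃mem _ ?_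
    exact mul_mem (mul_mem ((hΩ₂ ω hω i 0).2 v) (hC₁ hu v)) ((hΩ₂ ω hω 1 j).1 v)
  · -- finite places, the inverse
    have h1 := congrArg (fun a : Adl K => a.2 v) (hentry' i j)
    have h3 : (finComp v (ω⁻¹ * n * ω)⁻¹ - 1) i j
        = ((((ω⁻¹ * n * ω)⁻¹ : G K) : Matrix (Fin 2) (Fin 2) (Adl K)) i j
          - (1 : Matrix _ _ _) i j).2 v := by
      rw [← pFinC729_apply, map_sub, pFinC729_apply, pFinC729_apply, hone_fin]
      rfl
    rw [h3]
    have h5 : ((((ω⁻¹ * n * ω)⁻¹ : G K) : Matrix (Fin 2) (Fin 2) (Adl K)) i j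
        - (1 : Matrix _ _ _) i j).2 v
        = (((ω⁻¹ : G K) : Matrix (Fin 2) (Fin 2) (Adl K)) i 0 * (-x)
          * (ω : Matrix (Fin 2) (Fin 2) (Adl K)) 1 j).2 v := h1
    rw [h5, ← pFinC729_apply, map_mul, map_mul, map_neg, pFinC729_apply, pFinC729_apply,
      pFinC729_apply, hxfin v]
    have h6 : (((ω⁻¹ : G K) : Matrix (Fin 2) (Fin 2) (Adl K)) i 0).2 v *
        -((m₃ : v.adicCompletion K) * (((m₂ : v.adicCompletion K) * (m₁ : v.adicCompletion K))
          * (m₂ : v.adicCompletion K)) * u.2 v) *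
        ((ω : Matrix (Fin 2) (Fin 2) (Adl K)) 1 j).2 v
        = (m₃ : v.adicCompletion K) *
          (-(((m₂ : v.adicCompletion K) *
              (((ω⁻¹ : G K) : Matrix (Fin 2) (Fin 2) (Adl K)) i 0).2 v) *
            ((m₁ : v.adicCompletion K) * u.2 v) *
            ((m₂ : v.adicCompletion K) * ((ω : Matrix (Fin 2) (Fin 2) (Adl K)) 1 j).2 v))) := by
      ring
    rw [h6]
    refine natCast_mul_mem_idealClosure729 𝔫 v m₃ hm₃mem _ ?_
    exact neg_mem (mul_mem (mul_mem ((hΩ₂ ω hω i 0).2 v) (hC₁ hu v)) ((hΩ₂ ω hω 1 j).1 v))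

end Fermat.Agent.LT.T2.H729

end

end
-- ===== PACK-END LT/T2/H729/Contr.lean

-- ===== PACK-BEGIN LT/T2/H557/CutLocal.lean
section



/-!
# Row LT, tower T2, station T2.10 (`SMO_AA`), leaf T2.10.10 `CutoffC` (helper557), OFF-MAIN

Part 1 (LOCAL): Mathlib + `LT/H11/LC.lean` (helper11, byte-identical) only.

* `ball557 v r` : the closed ball `{x : Valued.v x ≤ exp r}` of `K_v` as an additive subgroup; it
  is compact and open, so the quotient of two balls is finite;
* `sum_out_eq_zero557`, `sum_out_eq_card557` : orthogonality on a finite quotient, in the form of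
  a sum over representatives;
* `indicator_exists557` : for a character `χ` of `K_v` with conductor exponent `d`, the indicator
  function of a coset `z + B(b)` on the ball `B(a)` is a finite combination of the functions
  `t ↦ χ(t u)`, `u ∈ B(d - b)`.
-/

set_option autoImplicit false
set_option linter.style.haveILetI false

open IsDedekindDomain NumberField

noncomputable section

namespace Fermat.Agent.LT.T2.H557

variable {K : Type} [Field K] [NumberField K] (v : HeightOneSpectrum (𝓞 K))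

/-- The closed ball `{x : |x|_v ≤ exp r}` of `K_v`, an additive subgroup. -/
def ball557 (r : ℤ) : AddSubgroup (v.adicCompletion K) where
  carrier := {x | Valued.v x ≤ WithZero.exp r}
  zero_mem' := by
    rw [Set.mem_ofPred_eq, map_zero]
    exact zero_le
  add_mem' := fun {a b} ha hb => by
    rw [Set.mem_ofPred_eq] at ha hb ⊢
    exact le_trans (Valuation.map_add _ _ _) (max_le ha hb)
  neg_mem' := fun {a} ha => by
    rw [Set.mem_ofPred_eq] at ha ⊢
    rw [Valuation.map_neg]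
    exact ha

theorem mem_ball557 {r : ℤ} {x : v.adicCompletion K} :
    x ∈ ball557 v r ↔ Valued.v x ≤ WithZero.exp r := Set.mem_ofPred

theorem valued_algebraMap557 (k : K) :
    Valued.v (algebraMap K (v.adicCompletion K) k) = v.valuation K k :=
  HeightOneSpectrum.valuedAdicCompletion_eq_valuation' v k

/-- Every `exp r` is a value of the valuation of `K_v`. -/
theorem exists_val_eq_exp557 (r : ℤ) :
    ∃ c : v.adicCompletion K, Valued.v c = WithZero.exp r := by
  obtain ⟨π, hπ⟩ := HeightOneSpectrum.valuation_exists_uniformizer K v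
  refine ⟨(algebraMap K (v.adicCompletion K) π) ^ (-r), ?_⟩
  rw [map_zpow₀, valued_algebraMap557, hπ, ← WithZero.exp_zsmul]
  simp

theorem exp_ne_zero557 (r : ℤ) : (WithZero.exp r : WithZero (Multiplicative ℤ)) ≠ 0 :=
  WithZero.exp_ne_zero

theorem ball_eq_image557 (r : ℤ) (c : v.adicCompletion K) (hc : Valued.v c = WithZero.exp r) :
    (ball557 v r : Set (v.adicCompletion K))
      = (fun x => c * x) '' (v.adicCompletionIntegers K : Set (v.adicCompletion K)) := by
  have hc0 : c ≠ 0 := by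
    intro h
    rw [h, map_zero] at hc
    exact exp_ne_zero557 r hc.symm
  ext x
  constructor
  · intro hx
    have hx' : Valued.v x ≤ WithZero.exp r := (mem_ball557 v).1 hx
    refine ⟨c⁻¹ * x, ?_, ?_⟩
    · show Valued.v (c⁻¹ * x) ≤ 1
      rw [map_mul, map_inv₀, hc]
      calc (WithZero.exp r)⁻¹ * Valued.v x ≤ (WithZero.exp r)⁻¹ * WithZero.exp r :=
            mul_le_mul_right hx' _
        _ = 1 := inv_mul_cancel₀ (exp_ne_zero557 r)
    · show c * (c⁻¹ * x) = x
      rw [← mul_assoc, mul_inv_cancel₀ hc0, one_mul]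
  · rintro ⟨y, hy, rfl⟩
    have hy' : Valued.v y ≤ 1 := hy
    refine (mem_ball557 v).2 ?_
    show Valued.v (c * y) ≤ WithZero.exp r
    rw [map_mul, hc]
    calc WithZero.exp r * Valued.v y ≤ WithZero.exp r * 1 := mul_le_mul_right hy' _
      _ = WithZero.exp r := mul_one _

theorem isCompact_ball557 (r : ℤ) : IsCompact (ball557 v r : Set (v.adicCompletion K)) := by
  obtain ⟨c, hc⟩ := exists_val_eq_exp557 v r
  rw [ball_eq_image557 v r c hc]
  exact (Fermat.Agent.LT.H11.LC.isCompact_integers_h11 K v).image (continuous_const_mul c)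

theorem isOpen_ball557 (r : ℤ) : IsOpen (ball557 v r : Set (v.adicCompletion K)) := by
  obtain ⟨c, hc⟩ := exists_val_eq_exp557 v r
  have hc0 : c ≠ 0 := by
    intro h
    rw [h, map_zero] at hc
    exact exp_ne_zero557 r hc.symm
  rw [ball_eq_image557 v r c hc]
  exact (Homeomorph.mulLeft₀ c hc0).isOpenMap _ (Valued.isOpen_integer (v.adicCompletion K))

theorem ball_mono557 {r r' : ℤ} (h : r' ≤ r) : ball557 v r' ≤ ball557 v r := fun _ hx =>
  (mem_ball557 v).2 (le_trans ((mem_ball557 v).1 hx) (WithZero.exp_le_exp.mpr h))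

/-- The quotient of two balls is finite. -/
theorem finite_ball_quot557 (r r' : ℤ) :
    Finite (ball557 v r ⧸ (ball557 v r').addSubgroupOf (ball557 v r)) := by
  have : CompactSpace (ball557 v r) := isCompact_iff_compactSpace.mp (isCompact_ball557 v r)
  refine AddSubgroup.quotient_finite_of_isOpen _ ?_
  exact (isOpen_ball557 v r').preimage continuous_subtype_val

/-! ## Orthogonality on a finite quotient, as a sum over representatives -/

section Orth

variable {A : Type*} [AddCommGroup A] (B : AddSubgroup A)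

theorem out_class557 (f : A → ℂ) (hadd : ∀ a a', f (a + a') = f a * f a')
    (hB : ∀ b ∈ B, f b = 1) (a : A) :
    f ((QuotientAddGroup.mk a : A ⧸ B).out) = f a := by
  have h : (QuotientAddGroup.mk ((QuotientAddGroup.mk a : A ⧸ B).out) : A ⧸ B)
      = QuotientAddGroup.mk a := QuotientAddGroup.out_eq' _
  rw [QuotientAddGroup.eq] at h
  have e : a = (QuotientAddGroup.mk a : A ⧸ B).out + (-(QuotientAddGroup.mk a : A ⧸ B).out + a) := by
    abel
  conv_rhs => rw [e]
  rw [hadd, hB _ h, mul_one]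

theorem sum_out_eq_zero557 [Fintype (A ⧸ B)] (f : A → ℂ)
    (hadd : ∀ a a', f (a + a') = f a * f a') (hB : ∀ b ∈ B, f b = 1)
    (a₀ : A) (ha₀ : f a₀ ≠ 1) : ∑ q : A ⧸ B, f q.out = 0 := by
  have h1 : ∑ q : A ⧸ B, f q.out
      = ∑ q : A ⧸ B, f (q + (QuotientAddGroup.mk a₀ : A ⧸ B)).out :=
    (Equiv.sum_comp (Equiv.addRight (QuotientAddGroup.mk a₀ : A ⧸ B)) (fun q => f q.out)).symm
  have h2 : ∀ q : A ⧸ B, f (q + (QuotientAddGroup.mk a₀ : A ⧸ B)).out = f q.out * f a₀ := by
    intro q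
    have e : q + (QuotientAddGroup.mk a₀ : A ⧸ B) = QuotientAddGroup.mk (q.out + a₀) := by
      rw [QuotientAddGroup.mk_add, QuotientAddGroup.out_eq']
    rw [e, out_class557 B f hadd hB, hadd]
  rw [Finset.sum_congr rfl (fun q _ => h2 q), ← Finset.sum_mul] at h1
  have h3 : (∑ q : A ⧸ B, f q.out) * (1 - f a₀) = 0 := by linear_combination h1
  rcases mul_eq_zero.mp h3 with h | h
  · exact h
  · exact absurd (sub_eq_zero.mp h).symm ha₀

end Orth

/-! ## The indicator function of a coset of a ball -/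

/-- For a character `χ` of `K_v` with conductor exponent `d` (trivial on `B(d)`, not on `B(d+1)`)
the indicator function of the coset `z + B(b)` is, on the ball `B(a) ∋ z`, a finite combination
of the functions `t ↦ χ(t u)` with `u ∈ B(d - b)`. -/
theorem indicator_exists557 (χ : AddChar (v.adicCompletion K) Circle) (d : ℤ)
    (h1 : ∀ x : v.adicCompletion K, Valued.v x ≤ WithZero.exp d → χ x = 1)
    (h2 : ∃ x : v.adicCompletion K, Valued.v x = WithZero.exp (d + 1) ∧ χ x ≠ 1)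
    (a b : ℤ) (z : v.adicCompletion K) (hz : Valued.v z ≤ WithZero.exp a) :
    ∃ (n : ℕ) (c : Fin n → ℂ) (u : Fin n → v.adicCompletion K),
      (∀ i, Valued.v (u i) ≤ WithZero.exp (d - b)) ∧
      ∀ t : v.adicCompletion K, Valued.v t ≤ WithZero.exp a →
        ∑ i, c i * ((χ (t * u i) : Circle) : ℂ)
          = if Valued.v (t - z) ≤ WithZero.exp b then 1 else 0 := by
  classical
  have hfin : Finite (ball557 v (d - b) ⧸ (ball557 v (d - a)).addSubgroupOf (ball557 v (d - b))) :=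
    finite_ball_quot557 v (d - b) (d - a)
  letI : Fintype (ball557 v (d - b) ⧸ (ball557 v (d - a)).addSubgroupOf (ball557 v (d - b))) :=
    Fintype.ofFinite _
  let e := Fintype.equivFin
    (ball557 v (d - b) ⧸ (ball557 v (d - a)).addSubgroupOf (ball557 v (d - b)))
  refine ⟨_, fun i => ((Fintype.card
      (ball557 v (d - b) ⧸ (ball557 v (d - a)).addSubgroupOf (ball557 v (d - b))) : ℕ) : ℂ)⁻¹
        * (starRingEnd ℂ) ((χ (z * (((e.symm i).out : ball557 v (d - b)) : v.adicCompletion K))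
            : Circle) : ℂ),
    fun i => (((e.symm i).out : ball557 v (d - b)) : v.adicCompletion K),
    fun i => (mem_ball557 v).1 ((e.symm i).out : ball557 v (d - b)).2, ?_⟩
  intro t ht
  have hs : Valued.v (t - z) ≤ WithZero.exp a :=
    le_trans (Valuation.map_sub _ _ _) (max_le ht hz)
  let f : ball557 v (d - b) → ℂ := fun x =>
    ((χ ((t - z) * (x : v.adicCompletion K)) : Circle) : ℂ)
  have hadd : ∀ x y, f (x + y) = f x * f y := by
    intro x y
    simp only [f]
    rw [AddSubgroup.coe_add, mul_add, AddChar.map_add_eq_mul, Circle.coe_mul]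
  have hfB : ∀ x ∈ (ball557 v (d - a)).addSubgroupOf (ball557 v (d - b)), f x = 1 := by
    intro x hx
    have hx' : Valued.v (x : v.adicCompletion K) ≤ WithZero.exp (d - a) :=
      (mem_ball557 v).1 (AddSubgroup.mem_addSubgroupOf.1 hx)
    have h3 : χ ((t - z) * (x : v.adicCompletion K)) = 1 := by
      apply h1
      rw [map_mul]
      calc Valued.v (t - z) * Valued.v (x : v.adicCompletion K)
          ≤ WithZero.exp a * WithZero.exp (d - a) := mul_le_mul' hs hx'
        _ = WithZero.exp d := by rw [← WithZero.exp_add]; congr 1; ring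
    simp only [f, h3, Circle.coe_one]
  have hterm : ∀ i : Fin (Fintype.card
      (ball557 v (d - b) ⧸ (ball557 v (d - a)).addSubgroupOf (ball557 v (d - b)))),
      ((Fintype.card
      (ball557 v (d - b) ⧸ (ball557 v (d - a)).addSubgroupOf (ball557 v (d - b))) : ℕ) : ℂ)⁻¹
        * (starRingEnd ℂ) ((χ (z * (((e.symm i).out : ball557 v (d - b)) : v.adicCompletion K))
            : Circle) : ℂ)
        * ((χ (t * (((e.symm i).out : ball557 v (d - b)) : v.adicCompletion K)) : Circle) : ℂ)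
      = ((Fintype.card
      (ball557 v (d - b) ⧸ (ball557 v (d - a)).addSubgroupOf (ball557 v (d - b))) : ℕ) : ℂ)⁻¹
        * f (e.symm i).out := by
    intro i
    simp only [f]
    rw [mul_assoc, ← Circle.coe_inv_eq_conj, ← Circle.coe_mul, ← AddChar.map_neg_eq_inv,
      ← AddChar.map_add_eq_mul]
    congr 3
    ring
  rw [Finset.sum_congr rfl (fun i _ => hterm i), ← Finset.mul_sum,
    Equiv.sum_comp e.symm (fun q => f q.out)]
  by_cases hsb : Valued.v (t - z) ≤ WithZero.exp b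
  · rw [if_pos hsb]
    have hone : ∀ q : ball557 v (d - b) ⧸ (ball557 v (d - a)).addSubgroupOf (ball557 v (d - b)),
        f q.out = 1 := by
      intro q
      have h3 : χ ((t - z) * ((q.out : ball557 v (d - b)) : v.adicCompletion K)) = 1 := by
        apply h1
        rw [map_mul]
        calc Valued.v (t - z) * Valued.v ((q.out : ball557 v (d - b)) : v.adicCompletion K)
            ≤ WithZero.exp b * WithZero.exp (d - b) :=
              mul_le_mul' hsb ((mem_ball557 v).1 (q.out : ball557 v (d - b)).2)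
          _ = WithZero.exp d := by rw [← WithZero.exp_add]; congr 1; ring
      simp only [f, h3, Circle.coe_one]
    rw [Finset.sum_congr rfl (fun q _ => hone q), Finset.sum_const, Finset.card_univ,
      nsmul_eq_mul, mul_one]
    have hN : ((Fintype.card
      (ball557 v (d - b) ⧸ (ball557 v (d - a)).addSubgroupOf (ball557 v (d - b))) : ℕ) : ℂ) ≠ 0 := by
      exact_mod_cast Fintype.card_ne_zero
    exact inv_mul_cancel₀ hN
  · rw [if_neg hsb]
    obtain ⟨x₀, hx₀, hχ⟩ := h2
    have hs0 : Valued.v (t - z) ≠ 0 := by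
      intro h
      apply hsb
      rw [h]
      exact zero_le
    have hs0' : t - z ≠ 0 := by
      intro h
      apply hs0
      rw [h, map_zero]
    have hlog : b + 1 ≤ WithZero.log (Valued.v (t - z)) := by
      have h4 : WithZero.exp b < Valued.v (t - z) := not_le.mp hsb
      rw [← WithZero.exp_log hs0, WithZero.exp_lt_exp] at h4
      omega
    have ha₀ : Valued.v (x₀ / (t - z)) ≤ WithZero.exp (d - b) := by
      rw [map_div₀, hx₀, ← WithZero.exp_log hs0, ← WithZero.exp_sub, WithZero.exp_le_exp]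
      omega
    have hfa : f ⟨x₀ / (t - z), (mem_ball557 v).2 ha₀⟩ ≠ 1 := by
      simp only [f]
      rw [mul_div_cancel₀ _ hs0']
      intro h
      exact hχ (Circle.coe_eq_one.mp h)
    rw [sum_out_eq_zero557 _ f hadd hfB _ hfa, mul_zero]

/-! ## The cut-off function of an orbit -/

theorem val_eq_exp_log557 {x : v.adicCompletion K} (hx : x ≠ 0) :
    Valued.v x = WithZero.exp (WithZero.log (Valued.v x)) :=
  (WithZero.exp_log ((Valuation.ne_zero_iff _).mpr hx)).symm

/-- THE LOCAL CUT-OFF.  `χ` a character of `K_v` with conductor exponent `d`, `e ≥ 0`,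
`z ≠ 0` in the ball `B(d + e)`.  The indicator function of the orbit
`{t : t / z ≡ 1, z / t ≡ 1 mod ϖ^e 𝒪_v}` is, on `B(d + e) ∖ {0}`, a finite combination of the
functions `t ↦ χ(t u)` with `|u| ≤ exp (d + max e 1 - log |z|)`. -/
theorem cutoff_local557 (χ : AddChar (v.adicCompletion K) Circle) (d : ℤ)
    (h1 : ∀ x : v.adicCompletion K, Valued.v x ≤ WithZero.exp d → χ x = 1)
    (h2 : ∃ x : v.adicCompletion K, Valued.v x = WithZero.exp (d + 1) ∧ χ x ≠ 1)
    (e : ℕ) (z : v.adicCompletion K) (hz0 : z ≠ 0)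
    (hz : Valued.v z ≤ WithZero.exp (d + e)) :
    ∃ (n : ℕ) (c : Fin n → ℂ) (u : Fin n → v.adicCompletion K),
      (∀ i, Valued.v (u i) ≤ WithZero.exp (d + max (e : ℤ) 1 - WithZero.log (Valued.v z))) ∧
      ∀ t : v.adicCompletion K, t ≠ 0 → Valued.v t ≤ WithZero.exp (d + e) →
        ((Valued.v (t * z⁻¹ - 1) ≤ WithZero.exp (-(e : ℤ)) ∧
            Valued.v (z * t⁻¹ - 1) ≤ WithZero.exp (-(e : ℤ))) →
          ∑ i, c i * ((χ (t * u i) : Circle) : ℂ) = 1) ∧
        (¬ (Valued.v (t * z⁻¹ - 1) ≤ WithZero.exp (-(e : ℤ)) ∧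
            Valued.v (z * t⁻¹ - 1) ≤ WithZero.exp (-(e : ℤ))) →
          ∑ i, c i * ((χ (t * u i) : Circle) : ℂ) = 0) := by
  have hvz := val_eq_exp_log557 v hz0
  set lz : ℤ := WithZero.log (Valued.v z) with hlz
  rcases Nat.eq_zero_or_pos e with he | he
  · -- `e = 0`: the orbit is `{|t| = |z|}`
    subst he
    have h00 : Valued.v (0 : v.adicCompletion K) ≤ WithZero.exp (d + ((0 : ℕ) : ℤ)) := by
      rw [map_zero]
      exact zero_le
    obtain ⟨n₁, c₁, u₁, hu₁, hsum₁⟩ := indicator_exists557 v χ d h1 h2 (d + ((0 : ℕ) : ℤ)) lz 0 h00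
    obtain ⟨n₂, c₂, u₂, hu₂, hsum₂⟩ :=
      indicator_exists557 v χ d h1 h2 (d + ((0 : ℕ) : ℤ)) (lz - 1) 0 h00
    refine ⟨n₁ + n₂, Fin.append c₁ (fun j => - c₂ j), Fin.append u₁ u₂, ?_, ?_⟩
    · intro i
      refine Fin.addCases (fun i => ?_) (fun j => ?_) i
      · rw [Fin.append_left]
        refine le_trans (hu₁ i) (WithZero.exp_le_exp.mpr ?_)
        have : max ((0 : ℕ) : ℤ) 1 = 1 := by simp
        rw [this]
        omega
      · rw [Fin.append_right]
        refine le_trans (hu₂ j) (WithZero.exp_le_exp.mpr ?_)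
        have : max ((0 : ℕ) : ℤ) 1 = 1 := by simp
        rw [this]
        omega
    · intro t ht0 ht
      have hvt := val_eq_exp_log557 v ht0
      set lt : ℤ := WithZero.log (Valued.v t) with hlt
      have hS : ∑ i, Fin.append c₁ (fun j => - c₂ j) i
            * ((χ (t * Fin.append u₁ u₂ i) : Circle) : ℂ)
          = (if lt ≤ lz then (1 : ℂ) else 0) - (if lt ≤ lz - 1 then (1 : ℂ) else 0) := by
        rw [Fin.sum_univ_add]
        simp only [Fin.append_left, Fin.append_right, neg_mul, Finset.sum_neg_distrib]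
        rw [hsum₁ t ht, hsum₂ t ht, sub_zero, hvt, ← sub_eq_add_neg]
        simp only [WithZero.exp_le_exp]
      have hexp0 : WithZero.exp (-((0 : ℕ) : ℤ)) = (1 : WithZero (Multiplicative ℤ)) := by
        simp
      have hone : Valued.v (1 : v.adicCompletion K) = 1 := map_one _
      have key : (Valued.v (t * z⁻¹ - 1) ≤ WithZero.exp (-((0 : ℕ) : ℤ)) ∧
            Valued.v (z * t⁻¹ - 1) ≤ WithZero.exp (-((0 : ℕ) : ℤ))) ↔ lt = lz := by
        rw [hexp0]
        constructor
        · rintro ⟨ha, hb⟩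
          have ha' : Valued.v (t * z⁻¹) ≤ 1 := by
            have e1 : t * z⁻¹ = (t * z⁻¹ - 1) + 1 := by ring
            rw [e1]
            exact le_trans (Valuation.map_add _ _ _) (max_le ha hone.le)
          have hb' : Valued.v (z * t⁻¹) ≤ 1 := by
            have e1 : z * t⁻¹ = (z * t⁻¹ - 1) + 1 := by ring
            rw [e1]
            exact le_trans (Valuation.map_add _ _ _) (max_le hb hone.le)
          rw [map_mul, map_inv₀, hvt, hvz, ← WithZero.exp_neg, ← WithZero.exp_add,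
            ← WithZero.exp_zero, WithZero.exp_le_exp] at ha' hb'
          omega
        · intro h
          have ha' : Valued.v (t * z⁻¹) ≤ 1 := by
            rw [map_mul, map_inv₀, hvt, hvz, ← WithZero.exp_neg, ← WithZero.exp_add,
              ← WithZero.exp_zero, WithZero.exp_le_exp]
            omega
          have hb' : Valued.v (z * t⁻¹) ≤ 1 := by
            rw [map_mul, map_inv₀, hvt, hvz, ← WithZero.exp_neg, ← WithZero.exp_add,
              ← WithZero.exp_zero, WithZero.exp_le_exp]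
            omega
          exact ⟨le_trans (Valuation.map_sub _ _ _) (max_le ha' hone.le),
            le_trans (Valuation.map_sub _ _ _) (max_le hb' hone.le)⟩
      rw [hS, key]
      constructor
      · intro h
        rw [if_pos h.le, if_neg (by omega), sub_zero]
      · intro h
        by_cases h3 : lt ≤ lz
        · rw [if_pos h3, if_pos (by omega), sub_self]
        · rw [if_neg h3, if_neg (by omega), sub_self]
  · -- `e ≥ 1`: the orbit is the coset `z + z ϖ^e 𝒪_v`
    obtain ⟨n, c, u, hu, hsum⟩ := indicator_exists557 v χ d h1 h2 (d + e) (lz - e) z hz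
    refine ⟨n, c, u, fun i => ?_, fun t ht0 ht => ?_⟩
    · refine le_trans (hu i) (WithZero.exp_le_exp.mpr ?_)
      have : max (e : ℤ) 1 = e := max_eq_left (by exact_mod_cast he)
      rw [this]
      omega
    · have hvt := val_eq_exp_log557 v ht0
      have key : (Valued.v (t * z⁻¹ - 1) ≤ WithZero.exp (-(e : ℤ)) ∧
            Valued.v (z * t⁻¹ - 1) ≤ WithZero.exp (-(e : ℤ)))
          ↔ Valued.v (t - z) ≤ WithZero.exp (lz - e) := by
        constructor
        · rintro ⟨ha, -⟩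
          have e1 : t - z = (t * z⁻¹ - 1) * z := by
            field_simp
          rw [e1, map_mul, hvz]
          calc Valued.v (t * z⁻¹ - 1) * WithZero.exp lz
              ≤ WithZero.exp (-(e : ℤ)) * WithZero.exp lz := mul_le_mul_left ha _
            _ = WithZero.exp (lz - e) := by rw [← WithZero.exp_add]; congr 1; ring
        · intro h
          have hlt : Valued.v (t - z) < Valued.v z := by
            refine lt_of_le_of_lt h ?_
            rw [hvz, WithZero.exp_lt_exp]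
            have : (1 : ℤ) ≤ e := by exact_mod_cast he
            omega
          have hvtz : Valued.v t = Valued.v z := Valuation.map_eq_of_sub_lt _ hlt
          have hb : Valued.v (t - z) * (Valued.v z)⁻¹ ≤ WithZero.exp (-(e : ℤ)) := by
            rw [hvz, ← WithZero.exp_neg]
            calc Valued.v (t - z) * WithZero.exp (-lz)
                ≤ WithZero.exp (lz - e) * WithZero.exp (-lz) := mul_le_mul_left h _
              _ = WithZero.exp (-(e : ℤ)) := by rw [← WithZero.exp_add]; congr 1; ring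
          constructor
          · have e1 : t * z⁻¹ - 1 = (t - z) * z⁻¹ := by
              field_simp
            rw [e1, map_mul, map_inv₀]
            exact hb
          · have e1 : z * t⁻¹ - 1 = (z - t) * t⁻¹ := by
              field_simp
            rw [e1, map_mul, map_inv₀, Valuation.map_sub_swap, hvtz]
            exact hb
      rw [hsum t ht, key]
      constructor
      · intro h
        rw [if_pos h]
      · intro h
        rw [if_neg h]

end Fermat.Agent.LT.T2.H557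

end

end
-- ===== PACK-END LT/T2/H557/CutLocal.lean

-- ===== PACK-BEGIN LT/T7/H671/ConeOrbit.lean
section



/-!
# Row LT, tower T7, node T7.14, leaf `CountC`: the cone is a fundamental domain for the units

OFF-MAIN (helper671).  Mathlib only.  Nothing assumed.

The units `(𝓞 K)ˣ` act diagonally on `(K_∞)² = mixedSpace K × mixedSpace K`.

* `exists_unit_smul_mem_pairCone671` : every pair of nonzero gauge has a unit multiple in the cone;
* `unit_smul_mem_pairCone671_iff`    : for `x` in the cone, `u • x` is in the cone iff `u` is a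
  root of unity;
* `unit_smul_pair_eq_self671`        : the action is free on pairs of nonzero gauge;
* `pairGauge671_unit_smul`           : the gauge is invariant.
-/

set_option autoImplicit false
set_option linter.unusedSectionVars false

open NumberField NumberField.mixedEmbedding NumberField.InfinitePlace NumberField.Units
  NumberField.Units.dirichletUnitTheorem
  NumberField.mixedEmbedding.fundamentalCone MeasureTheory Filter Topology Bornology Module

noncomputable section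

namespace Fermat.Agent.LT.T7.H671

variable {K : Type*} [Field K] [NumberField K]

/-- The diagonal action of a unit on a pair. -/
def unitPair671 (u : (𝓞 K)ˣ) (x : Pair671 K) : Pair671 K := (u • x.1, u • x.2)

theorem unitPair671_eq_mul (u : (𝓞 K)ˣ) (x : Pair671 K) :
    unitPair671 u x = (mixedEmbedding K u * x.1, mixedEmbedding K u * x.2) := rfl

theorem unitPair671_one (x : Pair671 K) : unitPair671 (1 : (𝓞 K)ˣ) x = x := by
  simp [unitPair671]

theorem unitPair671_mul (u v : (𝓞 K)ˣ) (x : Pair671 K) :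
    unitPair671 (u * v) x = unitPair671 u (unitPair671 v x) := by
  simp [unitPair671, mul_smul]

theorem pairNorm671_unit (u : (𝓞 K)ˣ) (x : Pair671 K) (w : InfinitePlace K) :
    pairNorm671 (unitPair671 u x) w = w (u : K) * pairNorm671 x w := by
  rw [unitPair671_eq_mul, pairNorm671_mul, normAtPlace_apply]

theorem normAtPlace_unit_smul_real671 (u : (𝓞 K)ˣ) (x : Pair671 K) (w : InfinitePlace K) :
    normAtPlace w (u • mixedSpaceOfRealSpace (pairNorm671 x))
      = normAtPlace w (mixedSpaceOfRealSpace (pairNorm671 (unitPair671 u x))) := by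
  rw [normAtPlace_mixedSpaceOfRealSpace (pairNorm671_nonneg _ w), pairNorm671_unit]
  change normAtPlace w (mixedEmbedding K u * mixedSpaceOfRealSpace (pairNorm671 x)) = _
  rw [map_mul, normAtPlace_apply, normAtPlace_mixedSpaceOfRealSpace (pairNorm671_nonneg _ w)]

theorem unit_smul_mem_cone_iff671 (u : (𝓞 K)ˣ) (x : Pair671 K) :
    unitPair671 u x ∈ pairCone671 K
      ↔ u • mixedSpaceOfRealSpace (pairNorm671 x) ∈ fundamentalCone K := by
  unfold pairCone671
  rw [Set.mem_ofPred_eq]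
  constructor
  · intro h
    exact fundamentalCone.mem_of_normAtPlace_eq h
      (fun w => normAtPlace_unit_smul_real671 u x w)
  · intro h
    exact fundamentalCone.mem_of_normAtPlace_eq h
      (fun w => (normAtPlace_unit_smul_real671 u x w).symm)

theorem pairGauge671_unit_smul (u : (𝓞 K)ˣ) (x : Pair671 K) :
    pairGauge671 (unitPair671 u x) = pairGauge671 x := by
  unfold pairGauge671
  have h1 : mixedEmbedding.norm (mixedSpaceOfRealSpace (pairNorm671 (unitPair671 u x)))
      = mixedEmbedding.norm (u • mixedSpaceOfRealSpace (pairNorm671 x)) := by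
    rw [mixedEmbedding.norm_apply, mixedEmbedding.norm_apply]
    exact Finset.prod_congr rfl fun w _ => by rw [normAtPlace_unit_smul_real671]
  rw [h1, norm_unit_smul]

/-- Every pair of nonzero gauge has a unit multiple in the cone. -/
theorem exists_unit_smul_mem_pairCone671 {x : Pair671 K} (hx : pairGauge671 x ≠ 0) :
    ∃ u : (𝓞 K)ˣ, unitPair671 u x ∈ pairCone671 K := by
  obtain ⟨u, hu⟩ := fundamentalCone.exists_unit_smul_mem (K := K)
    (x := mixedSpaceOfRealSpace (pairNorm671 x)) hx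
  exact ⟨u, (unit_smul_mem_cone_iff671 u x).mpr hu⟩

/-- For `x` in the cone, `u • x` is in the cone iff `u` is a root of unity. -/
theorem unit_smul_mem_pairCone671_iff {x : Pair671 K} (hx : x ∈ pairCone671 K) (u : (𝓞 K)ˣ) :
    unitPair671 u x ∈ pairCone671 K ↔ u ∈ torsion K := by
  rw [unit_smul_mem_cone_iff671]
  exact fundamentalCone.unit_smul_mem_iff_mem_torsion hx u

theorem pairGauge671_ne_zero_of_mem_cone {x : Pair671 K} (hx : x ∈ pairCone671 K) :
    pairGauge671 x ≠ 0 :=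
  (fundamentalCone.norm_pos_of_mem hx).ne'

theorem pairNorm671_pos_of_gauge_ne_zero {x : Pair671 K} (hx : pairGauge671 x ≠ 0)
    (w : InfinitePlace K) : 0 < pairNorm671 x w := by
  rcases (pairNorm671_nonneg x w).lt_or_eq with h | h
  · exact h
  · exfalso
    apply hx
    rw [pairGauge671_eq_prod]
    exact Finset.prod_eq_zero (Finset.mem_univ w) (by rw [← h]; exact zero_pow w.mult_ne_zero)

/-- The action of the units is free on the pairs of nonzero gauge. -/
theorem unit_smul_pair_eq_self671 {x : Pair671 K} (hx : pairGauge671 x ≠ 0) {u : (𝓞 K)ˣ}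
    (hu : unitPair671 u x = x) : u = 1 := by
  classical
  obtain ⟨w⟩ := (inferInstance : Nonempty (InfinitePlace K))
  have hpos := pairNorm671_pos_of_gauge_ne_zero hx w
  -- one of the two components is nonzero at `w`
  have hne : normAtPlace w x.1 ≠ 0 ∨ normAtPlace w x.2 ≠ 0 := by
    by_contra hcon
    push Not at hcon
    rw [pairNorm671_apply, hcon.1, hcon.2] at hpos
    simp at hpos
  rw [unitPair671_eq_mul, Prod.ext_iff] at hu
  have key : ∀ a : mixedSpace K, normAtPlace w a ≠ 0 → mixedEmbedding K u * a = a → u = 1 := by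
    intro a ha hmul
    have h1 : (mixedEmbedding K ((u : K) - 1)) * a = 0 := by
      rw [map_sub, map_one, sub_mul, one_mul, hmul, sub_self]
    have h2 : normAtPlace w (mixedEmbedding K ((u : K) - 1)) = 0 := by
      have := congrArg (normAtPlace w) h1
      rw [map_mul, map_zero] at this
      exact (mul_eq_zero.mp this).resolve_right ha
    rw [normAtPlace_apply] at h2
    have h3 : (u : K) - 1 = 0 := by
      by_contra h
      exact (w.pos_iff.mpr h).ne' h2
    have h4 : (u : K) = 1 := sub_eq_zero.mp h3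
    exact Units.ext (RingOfIntegers.ext (by simpa using h4))
  rcases hne with h | h
  · exact key _ h hu.1
  · exact key _ h hu.2

end Fermat.Agent.LT.T7.H671

end
end
-- ===== PACK-END LT/T7/H671/ConeOrbit.lean

-- ===== PACK-BEGIN LT/T8/H468/Scalar.lean
section


/-!
# Row LT, tower T8, sub-leaf P-A (`CentralEven556`): scalar ideles of `ℚ` (helper468, OFF-MAIN)

Scalar matrices of `GL₂(𝔸_ℚ)` attached to ideles, and the predicates of `LT/H556/A0.lean`
(`IsScalarUniformizerAt`, `IsArchPosScalar`, `IsArchCompact`, `InLevelGroup`) for them.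
Definitions and elementary lemmas only.
-/

set_option autoImplicit false

open IsDedekindDomain NumberField AutomorphicForm
open scoped MatrixGroups

noncomputable section

namespace Fermat.Agent.LT.T8.H468

open Fermat.Agent.LT.H556.A0
open scoped Classical

/-! ## The scalar map -/

/-- The scalar matrix of an idele. -/
def sc468 : (Adl ℚ)ˣ →* G ℚ :=
  Units.map (Matrix.scalar (Fin 2) : Adl ℚ →+* Matrix (Fin 2) (Fin 2) (Adl ℚ)).toMonoidHom

theorem sc468_coe (a : (Adl ℚ)ˣ) :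
    ((sc468 a : G ℚ) : Matrix (Fin 2) (Fin 2) (Adl ℚ)) = Matrix.scalar (Fin 2) (a : Adl ℚ) := rfl

theorem sc468_apply (a : (Adl ℚ)ˣ) (i j : Fin 2) :
    ((sc468 a : G ℚ) : Matrix (Fin 2) (Fin 2) (Adl ℚ)) i j = if i = j then (a : Adl ℚ) else 0 := by
  rw [sc468_coe, Matrix.scalar_apply, Matrix.diagonal_apply]

theorem sc468_comm (a : (Adl ℚ)ˣ) (g : G ℚ) : sc468 a * g = g * sc468 a := by
  apply Units.ext
  simp only [Units.val_mul]
  rw [sc468_coe]
  exact (Matrix.scalar_commute (a : Adl ℚ) (fun r' => Commute.all _ _) _).eq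

theorem finComp_sc468 (v : HeightOneSpectrum (𝓞 ℚ)) (a : (Adl ℚ)ˣ) :
    finComp v (sc468 a) = Matrix.diagonal (fun _ => (a : Adl ℚ).2 v) := by
  ext i j
  simp only [finComp, sc468_apply, Matrix.diagonal_apply]
  split_ifs <;> rfl

theorem infComp_sc468 (w : InfinitePlace ℚ) (a : (Adl ℚ)ˣ) :
    infComp w (sc468 a) = Matrix.diagonal
      (fun _ => InfinitePlace.Completion.extensionEmbedding w ((a : Adl ℚ).1 w)) := by
  ext i j
  simp only [infComp, sc468_apply, Matrix.diagonal_apply]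
  split_ifs
  · rfl
  · exact map_zero _

theorem trivAtInf_sc468 (w : InfinitePlace ℚ) (a : (Adl ℚ)ˣ) (h : (a : Adl ℚ).1 w = 1) :
    TrivAtInf w (sc468 a) := by
  intro i j
  rw [sc468_apply, Matrix.one_apply]
  split_ifs
  · exact h
  · rfl

theorem trivAtFin_sc468 (v : HeightOneSpectrum (𝓞 ℚ)) (a : (Adl ℚ)ˣ) (h : (a : Adl ℚ).2 v = 1) :
    TrivAtFin v (sc468 a) := by
  unfold TrivAtFin
  rw [finComp_sc468, h, Matrix.diagonal_one]

/-! ## Adeles with prescribed components -/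

/-- Infinite part of the principal adele of `q`. -/
def infPart468 (q : ℚ) : Adl ℚ := ((algebraMap ℚ (Adl ℚ) q).1, 1)

/-- Finite part of the principal adele of `q`. -/
def finPart468 (q : ℚ) : Adl ℚ := (1, (algebraMap ℚ (Adl ℚ) q).2)

/-- Local adele: `c` at the finite place `v`, `1` at every other place. -/
def locPart468 (v : HeightOneSpectrum (𝓞 ℚ)) (c : v.adicCompletion ℚ) : Adl ℚ :=
  (1, RestrictedProduct.mulSingle _ v c)

theorem infPart468_fst (q : ℚ) (w : InfinitePlace ℚ) :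
    (infPart468 q).1 w = algebraMap ℚ w.Completion q := rfl

theorem infPart468_snd (q : ℚ) (v : HeightOneSpectrum (𝓞 ℚ)) : (infPart468 q).2 v = 1 := rfl

theorem finPart468_fst (q : ℚ) (w : InfinitePlace ℚ) : (finPart468 q).1 w = 1 := rfl

theorem finPart468_snd (q : ℚ) (v : HeightOneSpectrum (𝓞 ℚ)) :
    (finPart468 q).2 v = algebraMap ℚ (v.adicCompletion ℚ) q := rfl

theorem locPart468_fst (v : HeightOneSpectrum (𝓞 ℚ)) (c : v.adicCompletion ℚ)
    (w : InfinitePlace ℚ) : (locPart468 v c).1 w = 1 := rfl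

theorem locPart468_snd_same (v : HeightOneSpectrum (𝓞 ℚ)) (c : v.adicCompletion ℚ) :
    (locPart468 v c).2 v = c :=
  RestrictedProduct.mulSingle_eq_same _ v c

theorem locPart468_snd_ne (v v' : HeightOneSpectrum (𝓞 ℚ)) (c : v.adicCompletion ℚ)
    (h : v' ≠ v) : (locPart468 v c).2 v' = 1 :=
  RestrictedProduct.mulSingle_eq_of_ne _ c h

/-- Extensionality for adeles of `ℚ`. -/
theorem adl_ext468 {a b : Adl ℚ} (h1 : ∀ w : InfinitePlace ℚ, a.1 w = b.1 w)
    (h2 : ∀ v : HeightOneSpectrum (𝓞 ℚ), a.2 v = b.2 v) : a = b :=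
  Prod.ext (funext h1) (FiniteAdeleRing.ext ℚ h2)

theorem mul_fst468 (a b : Adl ℚ) (w : InfinitePlace ℚ) : (a * b).1 w = a.1 w * b.1 w := rfl

theorem mul_snd468 (a b : Adl ℚ) (v : HeightOneSpectrum (𝓞 ℚ)) : (a * b).2 v = a.2 v * b.2 v :=
  rfl

theorem one_fst468 (w : InfinitePlace ℚ) : (1 : Adl ℚ).1 w = 1 := rfl

theorem one_snd468 (v : HeightOneSpectrum (𝓞 ℚ)) : (1 : Adl ℚ).2 v = 1 := rfl

theorem infPart468_mul_finPart468 (q : ℚ) :
    infPart468 q * finPart468 q = algebraMap ℚ (Adl ℚ) q := by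
  apply adl_ext468
  · intro w
    rw [mul_fst468, finPart468_fst, mul_one]
    rfl
  · intro v
    rw [mul_snd468, infPart468_snd, one_mul]
    rfl

theorem infPart468_mul (q r : ℚ) : infPart468 (q * r) = infPart468 q * infPart468 r := by
  apply adl_ext468
  · intro w
    rw [mul_fst468, infPart468_fst, infPart468_fst, infPart468_fst, map_mul]
  · intro v
    rw [mul_snd468, infPart468_snd, infPart468_snd, infPart468_snd, mul_one]

theorem infPart468_one : infPart468 1 = 1 := by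
  apply adl_ext468
  · intro w
    rw [infPart468_fst, map_one, one_fst468]
  · intro v
    rw [infPart468_snd, one_snd468]

theorem finPart468_mul (q r : ℚ) : finPart468 (q * r) = finPart468 q * finPart468 r := by
  apply adl_ext468
  · intro w
    rw [mul_fst468, finPart468_fst, finPart468_fst, finPart468_fst, mul_one]
  · intro v
    rw [mul_snd468, finPart468_snd, finPart468_snd, finPart468_snd, map_mul]

theorem finPart468_one : finPart468 1 = 1 := by
  apply adl_ext468
  · intro w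
    rw [finPart468_fst, one_fst468]
  · intro v
    rw [finPart468_snd, map_one, one_snd468]

theorem locPart468_mul (v : HeightOneSpectrum (𝓞 ℚ)) (c d : v.adicCompletion ℚ) :
    locPart468 v (c * d) = locPart468 v c * locPart468 v d := by
  apply adl_ext468
  · intro w
    rw [mul_fst468, locPart468_fst, locPart468_fst, locPart468_fst, mul_one]
  · intro v'
    rw [mul_snd468]
    by_cases h : v' = v
    · subst h
      rw [locPart468_snd_same, locPart468_snd_same, locPart468_snd_same]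
    · rw [locPart468_snd_ne _ _ _ h, locPart468_snd_ne _ _ _ h, locPart468_snd_ne _ _ _ h,
        mul_one]

theorem locPart468_one (v : HeightOneSpectrum (𝓞 ℚ)) : locPart468 v 1 = 1 := by
  apply adl_ext468
  · intro w
    rw [locPart468_fst, one_fst468]
  · intro v'
    by_cases h : v' = v
    · subst h
      rw [locPart468_snd_same, one_snd468]
    · rw [locPart468_snd_ne _ _ _ h, one_snd468]

/-! ## The ideles -/

/-- The idele `(q)_∞`. -/
def infIdele468 (q : ℚ) (hq : q ≠ 0) : (Adl ℚ)ˣ where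
  val := infPart468 q
  inv := infPart468 q⁻¹
  val_inv := by rw [← infPart468_mul, mul_inv_cancel₀ hq, infPart468_one]
  inv_val := by rw [← infPart468_mul, inv_mul_cancel₀ hq, infPart468_one]

/-- The idele `(q)_f`. -/
def finIdele468 (q : ℚ) (hq : q ≠ 0) : (Adl ℚ)ˣ where
  val := finPart468 q
  inv := finPart468 q⁻¹
  val_inv := by rw [← finPart468_mul, mul_inv_cancel₀ hq, finPart468_one]
  inv_val := by rw [← finPart468_mul, inv_mul_cancel₀ hq, finPart468_one]

/-- The idele `(q)_v`, for a rational number `q ≠ 0`. -/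
def locIdele468 (v : HeightOneSpectrum (𝓞 ℚ)) (q : ℚ) (hq : q ≠ 0) : (Adl ℚ)ˣ where
  val := locPart468 v (algebraMap ℚ (v.adicCompletion ℚ) q)
  inv := locPart468 v (algebraMap ℚ (v.adicCompletion ℚ) q⁻¹)
  val_inv := by rw [← locPart468_mul, ← map_mul, mul_inv_cancel₀ hq, map_one, locPart468_one]
  inv_val := by rw [← locPart468_mul, ← map_mul, inv_mul_cancel₀ hq, map_one, locPart468_one]

theorem infIdele468_val (q : ℚ) (hq : q ≠ 0) : ((infIdele468 q hq : (Adl ℚ)ˣ) : Adl ℚ)
    = infPart468 q := rfl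

theorem finIdele468_val (q : ℚ) (hq : q ≠ 0) : ((finIdele468 q hq : (Adl ℚ)ˣ) : Adl ℚ)
    = finPart468 q := rfl

theorem locIdele468_val (v : HeightOneSpectrum (𝓞 ℚ)) (q : ℚ) (hq : q ≠ 0) :
    ((locIdele468 v q hq : (Adl ℚ)ˣ) : Adl ℚ)
      = locPart468 v (algebraMap ℚ (v.adicCompletion ℚ) q) := rfl

/-- The principal idele is the product of its infinite and finite parts. -/
theorem principal_eq468 (q : ℚ) (hq : q ≠ 0) :
    Units.map (algebraMap ℚ (Adl ℚ)).toMonoidHom (Units.mk0 q hq)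
      = infIdele468 q hq * finIdele468 q hq := by
  apply Units.ext
  rw [Units.val_mul, infIdele468_val, finIdele468_val, infPart468_mul_finPart468]
  rfl

/-- The image in `GL₂(𝔸_ℚ)` of the rational scalar matrix `q`. -/
theorem map_scalar468 (q : ℚ) (hq : q ≠ 0) (γ : GL (Fin 2) ℚ)
    (hγ : (γ : Matrix (Fin 2) (Fin 2) ℚ) = Matrix.scalar (Fin 2) q) :
    Matrix.GeneralLinearGroup.map (algebraMap ℚ (Adl ℚ)) γ
      = sc468 (infIdele468 q hq * finIdele468 q hq) := by
  apply Units.ext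
  ext i j
  rw [sc468_apply, Units.val_mul, infIdele468_val, finIdele468_val, infPart468_mul_finPart468]
  simp only [Matrix.GeneralLinearGroup.map_apply, hγ, Matrix.scalar_apply,
    Matrix.diagonal_apply]
  split_ifs
  · rfl
  · exact map_zero _

end Fermat.Agent.LT.T8.H468

end

end
-- ===== PACK-END LT/T8/H468/Scalar.lean

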