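import Mathlib
import Fermat.Agent.Pack.L1.E1L2
import Fermat.Agent.Pack.LT2.E2L1
import Fermat.Agent.Pack.LT2.E0L2
import Fermat.Agent.Pack.LT2.E2L2
import Fermat.Agent.Pack.LT2.E2L0
import Fermat.Agent.Pack.LT2.E1L1
import Fermat.Agent.Pack.LT2.E1L3
import Fermat.Agent.Pack.LT2.E0L1
import Fermat.Agent.Pack.LT2.E2L3

set_option linter.all false

-- ===== PACK-BEGIN LT/H556/WallTop.lean
section





/-!
# Row LT, WALL: D1 of the WALL-ARCH chief (helper556), OFF-MAIN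

The skeleton of the WALL with the ARCHIMEDEAN TYPE tracked through the stations.

* Board: `Fermat/Agent/LT/H17/Board.lean` (helper17, `LTB.Hyp`, `LTB.WallOut`, `LTB.WallC`).
* Stations, fields and Frobenius data: `Fermat/Agent/LT/H130/Wall.lean` (helper130):
  `fieldE`, `fieldF`, `SeedData`, `MidData`, `BotData` are used VERBATIM.
* Notion: `Fermat/Agent/LT/H556/A0.lean`: `A0.IsCuspAdelicSph0`, `A0.IsCuspHolQ`, `A0.notion556`.

Difference with the skeleton of helper130: there `IsCuspEig` carries NO archimedean condition, so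
the leaf `PAR` of that file has to determine the archimedean type of a cuspidal representation of
`GL₂(𝔸_ℚ)` from Hecke data alone (true, but this is NOT the Rankin--Selberg mass count: an odd
central character does not exclude a principal series `π(|·|^s, sgn |·|^{-s})`, `s ≠ 0`, nor a
discrete series of odd weight `≥ 3`).  Here the type is part of the notion:

* over `E` and over `F` (totally complex): spherical of parameter `0` (`Π_w = π(1,1)`);
* over `ℚ`: spherical of parameter `0` (`π(1,1)`, `π(sgn,sgn)`: EVEN central character) OR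
  classical holomorphic of weight one (`π(1,sgn)`).

Then the descent leaves carry the type (as every proof of cyclic base change does), `PAR556` is
exactly the mass count (even central character, Maass eigenvalue `1/4`), and `A6_556` is the
absorption of the finite exceptional set of primes into the level.

PROVED here: `wall_of_leaves556 : A2_556 → A3c_556 → A3q_556 → PAR556 → A6_556 → LTB.WallC`.
-/

set_option autoImplicit false

open AutomorphicForm FLT.ExplicitLift EisensteinWeightOne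
open WeierstrassCurve CongruenceSubgroup
open IsDedekindDomain NumberField
open scoped MatrixGroups

noncomputable section

namespace Fermat.Agent.LT.H556.WT

open Fermat.Agent.LT.H130 Fermat.Agent.LT.H556

local notation "Γℚ" => (AlgebraicClosure ℚ ≃ₐ[ℚ] AlgebraicClosure ℚ)

/-! ## Stations -/

/-- Station `E`: a cusp form on `GL₂(𝔸_E)`, spherical of parameter `0` at the (complex) infinite
places, with the data of `Ψ ∘ ρ|_{G_E}`. -/
def SeedAt556 (ρ : Γℚ →* GL (Fin 2) (ZMod 3)) (Ψ : GL (Fin 2) (ZMod 3) →* GL (Fin 2) (ℤ√(-2)))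
    (ι : ℤ√(-2) →+* ℂ) : Prop :=
  ∃ (_ : NumberField (fieldE ρ)) (π : HeckeEigensystem (fieldE ρ) ℂ),
    A0.IsCuspAdelicSph0 (fieldE ρ) π ∧ SeedData (fieldE ρ) ρ Ψ ι π

/-- Station `F`: a cusp form on `GL₂(𝔸_F)`, spherical of parameter `0` at the complex place,
trivial central character, whose base change to `E` is the seed. -/
def MidAt556 (ρ : Γℚ →* GL (Fin 2) (ZMod 3)) (Ψ : GL (Fin 2) (ZMod 3) →* GL (Fin 2) (ℤ√(-2)))
    (ι : ℤ√(-2) →+* ℂ) : Prop :=
  ∃ (_ : NumberField (fieldF ρ)) (π : HeckeEigensystem (fieldF ρ) ℂ),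
    A0.IsCuspAdelicSph0 (fieldF ρ) π ∧ MidData (fieldF ρ) ρ Ψ ι π

/-- Station `ℚ`: a cuspidal eigensystem over `ℚ` in the sense of `A0.notion556` (Maass form of
eigenvalue `1/4`, or holomorphic of weight one) whose base change to `F` is the one of
`MidAt556`. -/
def BotAt556 (ρ : Γℚ →* GL (Fin 2) (ZMod 3)) (Ψ : GL (Fin 2) (ZMod 3) →* GL (Fin 2) (ℤ√(-2)))
    (ι : ℤ√(-2) →+* ℂ) : Prop :=
  ∃ π : HeckeEigensystem ℚ ℂ, A0.notion556.IsCusp ℚ π ∧ BotData ρ Ψ ι π

/-- Station `ℚ`, holomorphic alternative. -/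
def HolAt556 (ρ : Γℚ →* GL (Fin 2) (ZMod 3)) (Ψ : GL (Fin 2) (ZMod 3) →* GL (Fin 2) (ℤ√(-2)))
    (ι : ℤ√(-2) →+* ℂ) : Prop :=
  ∃ π : HeckeEigensystem ℚ ℂ, A0.IsCuspHolQ ℚ π ∧ BotData ρ Ψ ι π

/-! ## The leaves (frozen Props) -/

/-- **A2 (SEED over `E`).**  The dihedral form `π(θ)` over the totally complex sextic field `E`;
its archimedean components are `π(1,1)` because `Ψ ∘ ρ` is trivial on `W_ℂ`. -/
def A2_556 : Prop :=
  ∀ (ρ : Γℚ →* GL (Fin 2) (ZMod 3)) (Ψ : GL (Fin 2) (ZMod 3) →* GL (Fin 2) (ℤ√(-2))),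
    LTB.Hyp ρ Ψ → ∃ ι : ℤ√(-2) →+* ℂ, SeedAt556 ρ Ψ ι

/-- **A3c (cubic cyclic descent `E/F`).**  Langlands: a `Gal(E/F)`-invariant cuspidal
representation is a base change; the complex place of `F` splits in `E`, so the descent is again
`π(1,1)` at infinity; exactly one of the three descents has trivial central character. -/
def A3c_556 : Prop :=
  ∀ (ρ : Γℚ →* GL (Fin 2) (ZMod 3)) (Ψ : GL (Fin 2) (ZMod 3) →* GL (Fin 2) (ℤ√(-2)))
    (ι : ℤ√(-2) →+* ℂ), LTB.Hyp ρ Ψ → SeedAt556 ρ Ψ ι → MidAt556 ρ Ψ ι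

/-- **A3q (quadratic descent `F/ℚ`).**  Langlands: the form of `MidAt556` is
`Gal(F/ℚ)`-invariant, hence a base change of a cuspidal `Π` over `ℚ`; `BC_{ℂ/ℝ}(Π_∞) = π(1,1)`,
so `Π_∞ ∈ {π(1,1), π(sgn,sgn), π(1,sgn)}`: the two alternatives of `A0.notion556`.
(The passage from the adelic form of type `π(1,sgn)` to the classical weight-one form belongs to
this leaf.) -/
def A3q_556 : Prop :=
  ∀ (ρ : Γℚ →* GL (Fin 2) (ZMod 3)) (Ψ : GL (Fin 2) (ZMod 3) →* GL (Fin 2) (ℤ√(-2)))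
    (ι : ℤ√(-2) →+* ℂ), LTB.Hyp ρ Ψ → MidAt556 ρ Ψ ι → BotAt556 ρ Ψ ι

/-- **PAR (parity).**  No cusp form on `GL₂(𝔸_ℚ)` which is spherical of parameter `0` at the real
place (Maass form of eigenvalue `1/4`, central character EVEN because `-1 ∈ SO(2)`) has the data
`BotData`: the central character would be trivial, `|a_p|² = 4` at the primes whose Frobenius has
order `2`, and the Chebotarev average of `|a_p|²` would be `2`, against Rankin--Selberg
(average `1`). -/
def PAR556 : Prop :=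
  ∀ (ρ : Γℚ →* GL (Fin 2) (ZMod 3)) (Ψ : GL (Fin 2) (ZMod 3) →* GL (Fin 2) (ℤ√(-2)))
    (ι : ℤ√(-2) →+* ℂ), LTB.Hyp ρ Ψ →
    ∀ π : HeckeEigensystem ℚ ℂ, A0.IsCuspAdelicSph0 ℚ π → ¬ BotData ρ Ψ ι π

/-- **A6 (dictionary).**  The classical weight-one eigenform of `A0.IsCuspHolQ`, with the data
`BotData` at almost all primes, gives `LTB.WallOut`: unfold, and absorb the finite exceptional set
of primes into the level (`Γ₁(N M) ≤ Γ₁(N)`). -/
def A6_556 : Prop :=
  ∀ (ρ : Γℚ →* GL (Fin 2) (ZMod 3)) (Ψ : GL (Fin 2) (ZMod 3) →* GL (Fin 2) (ℤ√(-2)))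
    (ι : ℤ√(-2) →+* ℂ), LTB.Hyp ρ Ψ → HolAt556 ρ Ψ ι → LTB.WallOut ρ Ψ

/-! ## The top -/

/-- **THE WALL from its five leaves, archimedean type tracked.** -/
theorem wall_of_leaves556 (h2 : A2_556) (h3c : A3c_556) (h3q : A3q_556) (hpar : PAR556)
    (h6 : A6_556) : LTB.WallC := by
  intro ρ Ψ hyp
  obtain ⟨ι, hseed⟩ := h2 ρ Ψ hyp
  obtain ⟨π, hπ, hdata⟩ := h3q ρ Ψ ι hyp (h3c ρ Ψ ι hyp hseed)
  rcases hπ with hsph | hhol
  · exact absurd hdata (hpar ρ Ψ ι hyp π hsph)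
  · exact h6 ρ Ψ ι hyp ⟨π, hhol, hdata⟩

end Fermat.Agent.LT.H556.WT

end

end
-- ===== PACK-END LT/H556/WallTop.lean

-- ===== PACK-BEGIN LT/H129/HeckeFam.lean
section


/-!
# Row LT, towers T1/T2/T6 (local algebra), helper129: Hecke coset systems, indexed form

OFF-MAIN.  Mathlib only.  Complements `HeckeCoset.lean`:

* `isInt129_inv_of_det` : an integral matrix with unit determinant has an integral inverse;
* `isInt_inv_mul_symm129` : for Hecke elements `h`, `g`: `h⁻¹ g` integral ⇒ `g⁻¹ h` integral;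
* `hecke_complete_fam129` : completeness for a family indexed by a `Fintype` with `#k + 1` elements.
-/

set_option autoImplicit false

open Matrix

namespace Fermat.Agent.LT.H129

variable {F : Type*} [Field F]

theorem inv_apply129 (x : GL (Fin 2) F) (i j : Fin 2) :
    ((x⁻¹ : GL (Fin 2) F) : Matrix (Fin 2) (Fin 2) F) i j
      = (Matrix.adjugate (x : Matrix (Fin 2) (Fin 2) F)) i j
        / (x : Matrix (Fin 2) (Fin 2) F).det := by
  rw [Matrix.coe_units_inv, Matrix.inv_def, Matrix.smul_apply, smul_eq_mul,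
    Ring.inverse_eq_inv', div_eq_inv_mul]

/-- An integral matrix whose determinant is a unit of `O` has an integral inverse. -/
theorem isInt129_inv_of_det {O : ValuationSubring F} {x : GL (Fin 2) F} (hx : IsInt129 O x)
    (hdet : ((x : Matrix (Fin 2) (Fin 2) F).det)⁻¹ ∈ O) : IsInt129 O x⁻¹ := by
  intro i j
  rw [inv_apply129, div_eq_mul_inv]
  refine O.mul_mem _ _ ?_ hdet
  rw [Matrix.adjugate_fin_two]
  fin_cases i <;> fin_cases j
  · simpa using hx 1 1
  · simpa using O.neg_mem _ (hx 0 1)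
  · simpa using O.neg_mem _ (hx 1 0)
  · simpa using hx 0 0

theorem valuation_det_eq129 {O : ValuationSubring F} {h g : GL (Fin 2) F}
    (hh : IsHeckeElt129 O h) (hg : IsHeckeElt129 O g) :
    O.valuation (h : Matrix (Fin 2) (Fin 2) F).det
      = O.valuation (g : Matrix (Fin 2) (Fin 2) F).det :=
  le_antisymm (hg.2.2 _ hh.2.1) (hh.2.2 _ hg.2.1)

theorem det_ne_zero_gl129 (g : GL (Fin 2) F) : (g : Matrix (Fin 2) (Fin 2) F).det ≠ 0 := by
  have h := (Matrix.isUnit_iff_isUnit_det (g : Matrix (Fin 2) (Fin 2) F)).mp g.isUnit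
  exact h.ne_zero

/-- For Hecke elements, right equivalence modulo `GL₂(O)` is symmetric. -/
theorem isInt_inv_mul_symm129 {O : ValuationSubring F} {h g : GL (Fin 2) F}
    (hh : IsHeckeElt129 O h) (hg : IsHeckeElt129 O g) (H : IsInt129 O (h⁻¹ * g)) :
    IsInt129 O (g⁻¹ * h) := by
  have e : g⁻¹ * h = (h⁻¹ * g)⁻¹ := by group
  rw [e]
  apply isInt129_inv_of_det H
  rw [← ValuationSubring.valuation_le_one_iff, map_inv₀, Matrix.GeneralLinearGroup.coe_mul,
    Matrix.det_mul, map_mul, Matrix.coe_units_inv, Matrix.det_nonsing_inv, Ring.inverse_eq_inv',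
    map_inv₀, valuation_det_eq129 hh hg]
  have hne : O.valuation (g : Matrix (Fin 2) (Fin 2) F).det ≠ 0 := by
    rw [ne_eq, map_eq_zero]
    exact det_ne_zero_gl129 g
  rw [inv_mul_cancel₀ hne, inv_one]

/-- **Completeness of Hecke coset systems, indexed form.** -/
theorem hecke_complete_fam129 (O : ValuationSubring F) [Finite (IsLocalRing.ResidueField O)]
    {ι : Type*} [Fintype ι] (f : ι → GL (Fin 2) F)
    (hcard : Fintype.card ι = Nat.card (IsLocalRing.ResidueField O) + 1)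
    (hH : ∀ i, IsHeckeElt129 O (f i))
    (hne : ∀ i j, i ≠ j → ¬ IsInt129 O ((f i)⁻¹ * f j))
    (g : GL (Fin 2) F) (hg : IsHeckeElt129 O g) :
    ∃ i, IsInt129 O ((f i)⁻¹ * g) ∧ ∀ j, IsInt129 O ((f j)⁻¹ * g) → j = i := by
  classical
  let _ : Fintype (IsLocalRing.ResidueField O) := Fintype.ofFinite _
  let ι' : ι → Option (IsLocalRing.ResidueField O) := fun i => inv129 (hH i).1
  have hinj : Function.Injective ι' := by
    intro i j e
    by_contra hcon
    exact hne i j hcon (isInt_inv_mul_of_inv129_eq (hH i) (hH j) e)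
  have hcard' : Fintype.card ι = Fintype.card (Option (IsLocalRing.ResidueField O)) := by
    rw [hcard, Fintype.card_option, Nat.card_eq_fintype_card]
  have hbij : Function.Bijective ι' :=
    (Fintype.bijective_iff_injective_and_card ι').mpr ⟨hinj, hcard'⟩
  obtain ⟨i, hi⟩ := hbij.2 (inv129 hg.1)
  refine ⟨i, isInt_inv_mul_of_inv129_eq (hH i) hg hi, ?_⟩
  intro j hj
  by_contra hcon
  apply hne j i hcon
  have hsym : IsInt129 O (g⁻¹ * f i) :=
    isInt_inv_mul_of_inv129_eq hg (hH i) hi.symm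
  have : (f j)⁻¹ * f i = ((f j)⁻¹ * g) * (g⁻¹ * f i) := by group
  rw [this]
  exact isInt129_mul hj hsym

end Fermat.Agent.LT.H129

end
-- ===== PACK-END LT/H129/HeckeFam.lean

-- ===== PACK-BEGIN LT/H470/MVP.lean
section



/-!
# Row LT, tower A2, pre-leaf ARCH-MVP (helper470): the mean-value property on `ℍ³`

Mathlib only.  **Theorem** (`mvp_H3_470`).  Let `f` be twice differentiable on the upper half-space
`{y > 0}` of `ℝ³` with continuous second derivative and `y² (f₁₁ + f₂₂ + f₃₃) - y f₃ = -f`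
(`EigenData470`).  Then for every `d > 0`

    ∫ α in 0..2π, ∫ β in 0..π, f (polarPt d β α) * sin β = 4π (d / sinh d) * f (0, 0, 1),

where `polarPt d β α = (rotZ α * rotY β * torus d) • (0,0,1)`.  This is the analytic core of
`Fermat.Agent.LT.H556.A0.MeanValueComplex` (spherical parameter `0` at a complex place).

Proof: the Laplace equation in geodesic polar coordinates (`polar_pde470`), differentiation under
the integral sign, integration by parts in `β`, periodicity in `α`, and the ODE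
`(sinh d · u)'' = 0` for the spherical mean `u`.
-/

set_option autoImplicit false

open Real MeasureTheory Set Filter Topology

noncomputable section

namespace Fermat.Agent.LT.H470

/-! ## Slices of jointly continuous functions -/

section Slices

variable {G : ℝ → ℝ → ℝ → ℂ}

theorem slice_ab470 (hG : Continuous (fun q : ℝ × ℝ × ℝ => G q.1 q.2.1 q.2.2)) (d : ℝ) :
    Continuous (Function.uncurry (fun α β => G d β α)) := by
  have : (Function.uncurry fun α β => G d β α)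
      = (fun q : ℝ × ℝ × ℝ => G q.1 q.2.1 q.2.2) ∘ (fun r : ℝ × ℝ => (d, r.2, r.1)) := by
    ext r; rfl
  rw [this]; exact hG.comp (by fun_prop)

theorem slice_ba470 (hG : Continuous (fun q : ℝ × ℝ × ℝ => G q.1 q.2.1 q.2.2)) (d : ℝ) :
    Continuous (Function.uncurry (fun β α => G d β α)) := by
  have : (Function.uncurry fun β α => G d β α)
      = (fun q : ℝ × ℝ × ℝ => G q.1 q.2.1 q.2.2) ∘ (fun r : ℝ × ℝ => (d, r.1, r.2)) := by
    ext r; rfl
  rw [this]; exact hG.comp (by fun_prop)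

theorem slice_a470 (hG : Continuous (fun q : ℝ × ℝ × ℝ => G q.1 q.2.1 q.2.2)) (d β : ℝ) :
    Continuous (fun α => G d β α) := by
  have : (fun α => G d β α)
      = (fun q : ℝ × ℝ × ℝ => G q.1 q.2.1 q.2.2) ∘ (fun r : ℝ => (d, β, r)) := by
    ext r; rfl
  rw [this]; exact hG.comp (by fun_prop)

theorem slice_b470 (hG : Continuous (fun q : ℝ × ℝ × ℝ => G q.1 q.2.1 q.2.2)) (d α : ℝ) :
    Continuous (fun β => G d β α) := by
  have : (fun β => G d β α)
      = (fun q : ℝ × ℝ × ℝ => G q.1 q.2.1 q.2.2) ∘ (fun r : ℝ => (d, r, α)) := by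
    ext r; rfl
  rw [this]; exact hG.comp (by fun_prop)

end Slices

/-! ## The weighted fields -/

section Weighted

variable (f : E3 → ℂ) (f' : E3 → E3 →L[ℝ] ℂ) (f'' : E3 → E3 →L[ℝ] E3 →L[ℝ] ℂ)

/-- `F sin β`. -/
def H0 (d β α : ℝ) : ℂ := F0 f d β α * ((sin β : ℝ) : ℂ)
/-- `F_d sin β`. -/
def H1 (d β α : ℝ) : ℂ := Fd f' d β α * ((sin β : ℝ) : ℂ)
/-- `F_dd sin β`. -/
def H2 (d β α : ℝ) : ℂ := Fdd f' f'' d β α * ((sin β : ℝ) : ℂ)
/-- `sinh² d (F_dd + F) sin β + 2 cosh d sinh d F_d sin β`. -/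
def GK (d β α : ℝ) : ℂ :=
  ((sinh d : ℝ) : ℂ) ^ 2 * H0 f d β α + 2 * ((cosh d : ℝ) : ℂ) * ((sinh d : ℝ) : ℂ) * H1 f' d β α
    + ((sinh d : ℝ) : ℂ) ^ 2 * H2 f' f'' d β α
/-- `(sin β F_β)_β = cos β F_β + sin β F_ββ`. -/
def Gl (d β α : ℝ) : ℂ :=
  ((cos β : ℝ) : ℂ) * Fb f' d β α + ((sin β : ℝ) : ℂ) * Fbb f' f'' d β α

/-- The (unnormalised) spherical mean of `f` over the geodesic sphere of radius `d` around
`(0,0,1)`. -/
def M0 (d : ℝ) : ℂ := ∫ α in (0 : ℝ)..(2 * π), ∫ β in (0 : ℝ)..π, H0 f d β α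
/-- Its first derivative. -/
def M1 (d : ℝ) : ℂ := ∫ α in (0 : ℝ)..(2 * π), ∫ β in (0 : ℝ)..π, H1 f' d β α
/-- Its second derivative. -/
def M2 (d : ℝ) : ℂ := ∫ α in (0 : ℝ)..(2 * π), ∫ β in (0 : ℝ)..π, H2 f' f'' d β α

variable {f f' f''}

theorem continuous_sinb470 : Continuous (fun q : ℝ × ℝ × ℝ => ((sin q.2.1 : ℝ) : ℂ)) := by
  fun_prop

theorem continuous_cosb470 : Continuous (fun q : ℝ × ℝ × ℝ => ((cos q.2.1 : ℝ) : ℂ)) := by
  fun_prop

theorem continuous_H0_470 (h : EigenData470 f f' f'') :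
    Continuous (fun q : ℝ × ℝ × ℝ => H0 f q.1 q.2.1 q.2.2) :=
  (continuous_F0_470 h).mul continuous_sinb470

theorem continuous_H1_470 (h : EigenData470 f f' f'') :
    Continuous (fun q : ℝ × ℝ × ℝ => H1 f' q.1 q.2.1 q.2.2) :=
  (continuous_Fd_470 h).mul continuous_sinb470

theorem continuous_H2_470 (h : EigenData470 f f' f'') :
    Continuous (fun q : ℝ × ℝ × ℝ => H2 f' f'' q.1 q.2.1 q.2.2) :=
  (continuous_Fdd_470 h).mul continuous_sinb470

theorem continuous_GK_470 (h : EigenData470 f f' f'') :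
    Continuous (fun q : ℝ × ℝ × ℝ => GK f f' f'' q.1 q.2.1 q.2.2) := by
  have h0 := continuous_H0_470 h
  have h1 := continuous_H1_470 h
  have h2 := continuous_H2_470 h
  unfold GK
  fun_prop

theorem continuous_Gl_470 (h : EigenData470 f f' f'') :
    Continuous (fun q : ℝ × ℝ × ℝ => Gl f' f'' q.1 q.2.1 q.2.2) :=
  (continuous_cosb470.mul (continuous_Fb_470 h)).add
    (continuous_sinb470.mul (continuous_Fbb_470 h))

/-! ## Derivatives of the spherical mean -/

theorem hasDerivAt_M0_470 (h : EigenData470 f f' f'') (d : ℝ) :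
    HasDerivAt (M0 f) (M1 f' d) d :=
  hasDerivAt_double470 (H := H0 f) (H' := H1 f') (continuous_H0_470 h) (continuous_H1_470 h)
    (fun d β α => (hasDerivAt_F0_d470 h d β α).mul_const _) 0 (2 * π) 0 π d

theorem hasDerivAt_M1_470 (h : EigenData470 f f' f'') (d : ℝ) :
    HasDerivAt (M1 f') (M2 f' f'' d) d :=
  hasDerivAt_double470 (H := H1 f') (H' := H2 f' f'') (continuous_H1_470 h)
    (continuous_H2_470 h)
    (fun d β α => (hasDerivAt_Fd_d470 h d β α).mul_const _) 0 (2 * π) 0 π d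

/-! ## The integrated equation -/

theorem pointwise470 (h : EigenData470 f f' f'') (d β α : ℝ) :
    ((sin β : ℝ) : ℂ) * (GK f f' f'' d β α + Gl f' f'' d β α) + Faa f' f'' d β α = 0 := by
  have key := polar_pde470 h d β α
  unfold GK Gl H0 H1 H2
  linear_combination key

theorem integral_Faa470 (h : EigenData470 f f' f'') (d β : ℝ) :
    ∫ α in (0 : ℝ)..(2 * π), Faa f' f'' d β α = 0 := by
  rw [intervalIntegral.integral_eq_sub_of_hasDerivAt
    (fun α _ => hasDerivAt_Fa_a470 h d β α)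
    ((slice_a470 (continuous_Faa_470 h) d β).intervalIntegrable _ _)]
  unfold Fa
  rw [polarPt_two_pi470, Pa_two_pi470, sub_self]

theorem integral_Gl470 (h : EigenData470 f f' f'') (d α : ℝ) :
    ∫ β in (0 : ℝ)..π, Gl f' f'' d β α = 0 := by
  have hd : ∀ β ∈ uIcc (0 : ℝ) π,
      HasDerivAt (fun β => ((sin β : ℝ) : ℂ) * Fb f' d β α) (Gl f' f'' d β α) β := by
    intro β _
    exact ((Real.hasDerivAt_sin β).ofReal_comp).mul (hasDerivAt_Fb_b470 h d β α)
  rw [intervalIntegral.integral_eq_sub_of_hasDerivAt hd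
    ((slice_b470 (continuous_Gl_470 h) d α).intervalIntegrable _ _)]
  simp

theorem integral_GK_a470 (h : EigenData470 f f' f'') (d β : ℝ) (hβ : sin β ≠ 0) :
    ∫ α in (0 : ℝ)..(2 * π), GK f f' f'' d β α
      = -∫ α in (0 : ℝ)..(2 * π), Gl f' f'' d β α := by
  have hK := (slice_a470 (continuous_GK_470 h) d β).intervalIntegrable (μ := volume) 0 (2 * π)
  have hl := (slice_a470 (continuous_Gl_470 h) d β).intervalIntegrable (μ := volume) 0 (2 * π)
  have hs : ((sin β : ℝ) : ℂ) ≠ 0 := by exact_mod_cast hβ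
  have h1 : ∫ α in (0 : ℝ)..(2 * π), (GK f f' f'' d β α + Gl f' f'' d β α)
      = ∫ α in (0 : ℝ)..(2 * π), (-(((sin β : ℝ) : ℂ))⁻¹) * Faa f' f'' d β α := by
    apply intervalIntegral.integral_congr
    intro α _
    have hp := pointwise470 h d β α
    simp only
    field_simp
    linear_combination hp
  rw [intervalIntegral.integral_add hK hl, intervalIntegral.integral_const_mul,
    integral_Faa470 h d β, mul_zero] at h1
  exact eq_neg_of_add_eq_zero_left h1

theorem integrated470 (h : EigenData470 f f' f'') (d : ℝ) :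
    ∫ α in (0 : ℝ)..(2 * π), ∫ β in (0 : ℝ)..π, GK f f' f'' d β α = 0 := by
  rw [intervalIntegral_swap470 (slice_ab470 (continuous_GK_470 h) d) 0 (2 * π) 0 π]
  have hae : ∀ᵐ β ∂(volume : Measure ℝ), β ∈ Set.uIoc (0 : ℝ) π →
      (∫ α in (0 : ℝ)..(2 * π), GK f f' f'' d β α)
        = -∫ α in (0 : ℝ)..(2 * π), Gl f' f'' d β α := by
    have hπ : ({π}ᶜ : Set ℝ) ∈ ae (volume : Measure ℝ) :=
      compl_mem_ae_iff.mpr (measure_singleton π)
    filter_upwards [hπ] with β hβ hmem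
    rw [uIoc_of_le Real.pi_pos.le] at hmem
    have hlt : β < π := lt_of_le_of_ne hmem.2 hβ
    exact integral_GK_a470 h d β (Real.sin_pos_of_pos_of_lt_pi hmem.1 hlt).ne'
  rw [intervalIntegral.integral_congr_ae hae, intervalIntegral.integral_neg,
    ← intervalIntegral_swap470 (slice_ab470 (continuous_Gl_470 h) d) 0 (2 * π) 0 π]
  simp [integral_Gl470 h d]

theorem ode_M470 (h : EigenData470 f f' f'') (d : ℝ) :
    ((sinh d : ℝ) : ℂ) ^ 2 * (M2 f' f'' d + M0 f d)
      + 2 * ((cosh d : ℝ) : ℂ) * ((sinh d : ℝ) : ℂ) * M1 f' d = 0 := by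
  have key := integrated470 h d
  have c0 := continuous_H0_470 h
  have c1 := continuous_H1_470 h
  have c2 := continuous_H2_470 h
  -- inner linearity
  have inner : ∀ α : ℝ, ∫ β in (0 : ℝ)..π, GK f f' f'' d β α
      = ((sinh d : ℝ) : ℂ) ^ 2 * (∫ β in (0 : ℝ)..π, H0 f d β α)
        + 2 * ((cosh d : ℝ) : ℂ) * ((sinh d : ℝ) : ℂ) * (∫ β in (0 : ℝ)..π, H1 f' d β α)
        + ((sinh d : ℝ) : ℂ) ^ 2 * (∫ β in (0 : ℝ)..π, H2 f' f'' d β α) := by
    intro α
    have i0 := (slice_b470 c0 d α).intervalIntegrable (μ := volume) 0 π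
    have i1 := (slice_b470 c1 d α).intervalIntegrable (μ := volume) 0 π
    have i2 := (slice_b470 c2 d α).intervalIntegrable (μ := volume) 0 π
    unfold GK
    rw [intervalIntegral.integral_add ((i0.const_mul _).add (i1.const_mul _)) (i2.const_mul _),
      intervalIntegral.integral_add (i0.const_mul _) (i1.const_mul _),
      intervalIntegral.integral_const_mul, intervalIntegral.integral_const_mul,
      intervalIntegral.integral_const_mul]
  simp only [inner] at key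
  have j0 := ((continuous_inner470 (H := fun d β α => H0 f d β α) c0 0 π).comp
    (Continuous.prodMk_right d)).intervalIntegrable (μ := volume) 0 (2 * π)
  have j1 := ((continuous_inner470 (H := fun d β α => H1 f' d β α) c1 0 π).comp
    (Continuous.prodMk_right d)).intervalIntegrable (μ := volume) 0 (2 * π)
  have j2 := ((continuous_inner470 (H := fun d β α => H2 f' f'' d β α) c2 0 π).comp
    (Continuous.prodMk_right d)).intervalIntegrable (μ := volume) 0 (2 * π)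
  simp only [Function.comp_def, Function.uncurry_apply_pair] at j0 j1 j2
  rw [intervalIntegral.integral_add ((j0.const_mul _).add (j1.const_mul _)) (j2.const_mul _),
    intervalIntegral.integral_add (j0.const_mul _) (j1.const_mul _),
    intervalIntegral.integral_const_mul, intervalIntegral.integral_const_mul,
    intervalIntegral.integral_const_mul] at key
  unfold M0 M1 M2
  linear_combination key

end Weighted

/-! ## The ordinary differential equation -/

/-- A function on `ℝ`, differentiable everywhere, with zero derivative on `(0, ∞)`, is constant on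
`[0, ∞)`. -/
theorem const_of_deriv_zero_Ioi470 {g g' : ℝ → ℂ} (hg : ∀ x, HasDerivAt g (g' x) x)
    (h0 : ∀ x, 0 < x → g' x = 0) {d : ℝ} (hd : 0 < d) : g d = g 0 := by
  have hconst : ∀ x ∈ Ioi (0 : ℝ), g x = g d := by
    intro x hx
    have := (convex_Ioi (0 : ℝ)).norm_image_sub_le_of_norm_hasDerivWithin_le
      (f := g) (f' := g') (C := 0)
      (fun y _ => (hg y).hasDerivWithinAt) (fun y hy => by rw [h0 y hy, norm_zero])
      (show d ∈ Ioi (0 : ℝ) from hd) hx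
    rw [zero_mul] at this
    exact sub_eq_zero.mp (norm_le_zero_iff.mp this)
  have hcont : Tendsto g (𝓝[>] (0 : ℝ)) (𝓝 (g 0)) :=
    ((hg 0).continuousAt.tendsto).mono_left nhdsWithin_le_nhds
  have hev : g =ᶠ[𝓝[>] (0 : ℝ)] fun _ => g d :=
    eventually_nhdsWithin_of_forall hconst
  have hlim : Tendsto g (𝓝[>] (0 : ℝ)) (𝓝 (g d)) :=
    (tendsto_const_nhds).congr' hev.symm
  exact tendsto_nhds_unique hlim hcont

/-- The ODE `sinh² d (u'' + u) + 2 cosh d sinh d u' = 0` forces `sinh d · u(d) = d · u(0)`. -/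
theorem ode470 {u u' u'' : ℝ → ℂ} (hu : ∀ d, HasDerivAt u (u' d) d)
    (hu' : ∀ d, HasDerivAt u' (u'' d) d)
    (hode : ∀ d, ((sinh d : ℝ) : ℂ) ^ 2 * (u'' d + u d)
      + 2 * ((cosh d : ℝ) : ℂ) * ((sinh d : ℝ) : ℂ) * u' d = 0)
    {d : ℝ} (hd : 0 < d) : ((sinh d : ℝ) : ℂ) * u d = (d : ℂ) * u 0 := by
  have hS : ∀ x : ℝ, HasDerivAt (fun t : ℝ => ((sinh t : ℝ) : ℂ)) ((cosh x : ℝ) : ℂ) x :=
    fun x => (Real.hasDerivAt_sinh x).ofReal_comp
  have hC : ∀ x : ℝ, HasDerivAt (fun t : ℝ => ((cosh t : ℝ) : ℂ)) ((sinh x : ℝ) : ℂ) x :=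
    fun x => (Real.hasDerivAt_cosh x).ofReal_comp
  -- `v = sinh · u`
  have hv : ∀ x : ℝ, HasDerivAt (fun t : ℝ => ((sinh t : ℝ) : ℂ) * u t)
      (((cosh x : ℝ) : ℂ) * u x + ((sinh x : ℝ) : ℂ) * u' x) x :=
    fun x => (hS x).mul (hu x)
  have hv' : ∀ x : ℝ, HasDerivAt
      (fun t : ℝ => ((cosh t : ℝ) : ℂ) * u t + ((sinh t : ℝ) : ℂ) * u' t)
      ((((sinh x : ℝ) : ℂ) * u x + ((cosh x : ℝ) : ℂ) * u' x)
        + (((cosh x : ℝ) : ℂ) * u' x + ((sinh x : ℝ) : ℂ) * u'' x)) x :=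
    fun x => ((hC x).mul (hu x)).add ((hS x).mul (hu' x))
  have hv'' : ∀ x : ℝ, 0 < x →
      (((sinh x : ℝ) : ℂ) * u x + ((cosh x : ℝ) : ℂ) * u' x)
        + (((cosh x : ℝ) : ℂ) * u' x + ((sinh x : ℝ) : ℂ) * u'' x) = 0 := by
    intro x hx
    have hs : ((sinh x : ℝ) : ℂ) ≠ 0 := by
      exact_mod_cast (Real.sinh_pos_iff.mpr hx).ne'
    have := hode x
    apply mul_left_cancel₀ hs
    linear_combination this
  -- `v'` is constant on `[0, ∞)`
  have hv'const : ∀ x : ℝ, 0 < x →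
      ((cosh x : ℝ) : ℂ) * u x + ((sinh x : ℝ) : ℂ) * u' x = u 0 := by
    intro x hx
    have := const_of_deriv_zero_Ioi470 hv' hv'' hx
    simpa using this
  -- `w = v - d · u 0`
  have hw : ∀ x : ℝ, HasDerivAt (fun t : ℝ => ((sinh t : ℝ) : ℂ) * u t - (t : ℂ) * u 0)
      ((((cosh x : ℝ) : ℂ) * u x + ((sinh x : ℝ) : ℂ) * u' x) - 1 * u 0) x := by
    intro x
    have hid : HasDerivAt (fun t : ℝ => (t : ℂ)) 1 x := by
      simpa using (hasDerivAt_id x).ofReal_comp
    exact (hv x).sub (hid.mul_const (u 0))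
  have hw0 : ∀ x : ℝ, 0 < x →
      (((cosh x : ℝ) : ℂ) * u x + ((sinh x : ℝ) : ℂ) * u' x) - 1 * u 0 = 0 := by
    intro x hx
    rw [hv'const x hx]; ring
  have := const_of_deriv_zero_Ioi470 hw hw0 hd
  simp only [Real.sinh_zero, Complex.ofReal_zero, zero_mul, sub_zero] at this
  exact sub_eq_zero.mp this

/-! ## The theorem -/

theorem M0_zero470 (f : E3 → ℂ) : M0 f 0 = ((4 * π : ℝ) : ℂ) * f (0, 0, 1) := by
  unfold M0 H0 F0
  simp only [polarPt_zero470]
  have h1 : ∫ β in (0 : ℝ)..π, f (0, 0, 1) * ((sin β : ℝ) : ℂ) = f (0, 0, 1) * 2 := by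
    rw [intervalIntegral.integral_const_mul, intervalIntegral.integral_ofReal, integral_sin]
    norm_num
  simp only [h1, intervalIntegral.integral_const, sub_zero, Complex.real_smul]
  push_cast
  ring

/-- **Mean-value property on `ℍ³`, spherical parameter `0`.**  For a solution `f` of the
hyperbolic Laplace equation `y² (f₁₁ + f₂₂ + f₃₃) - y f₃ = -f` on the upper half-space, the mean
of `f` over the geodesic sphere of radius `d > 0` around `j = (0,0,1)` (Euler angles, weight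
`sin β dβ dα`) is `4π (d / sinh d) f(j)`. -/
theorem mvp_H3_470 {f : E3 → ℂ} {f' : E3 → E3 →L[ℝ] ℂ} {f'' : E3 → E3 →L[ℝ] E3 →L[ℝ] ℂ}
    (h : EigenData470 f f' f'') {d : ℝ} (hd : 0 < d) :
    ∫ α in (0 : ℝ)..(2 * π), ∫ β in (0 : ℝ)..π, f (polarPt d β α) * ((sin β : ℝ) : ℂ)
      = ((4 * π * (d / sinh d) : ℝ) : ℂ) * f (0, 0, 1) := by
  have key := ode470 (u := M0 f) (u' := M1 f') (u'' := M2 f' f'')
    (hasDerivAt_M0_470 h) (hasDerivAt_M1_470 h) (ode_M470 h) hd
  rw [M0_zero470] at key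
  have hs : ((sinh d : ℝ) : ℂ) ≠ 0 := by
    exact_mod_cast (Real.sinh_pos_iff.mpr hd).ne'
  have hM : M0 f d = ∫ α in (0 : ℝ)..(2 * π), ∫ β in (0 : ℝ)..π,
      f (polarPt d β α) * ((sin β : ℝ) : ℂ) := rfl
  rw [← hM]
  apply mul_left_cancel₀ hs
  rw [key]
  simp only [Complex.ofReal_mul, Complex.ofReal_div]
  field_simp

end Fermat.Agent.LT.H470

end
end
-- ===== PACK-END LT/H470/MVP.lean

-- ===== PACK-BEGIN LT/A2/H314/TorGL.lean
section


/-!
# Row LT, tower A2, leaf A2.03.8.5.8 `H254.DecompC254` (helper314): the local theorem in `GL₂(F)`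

OFF-MAIN.  Mathlib only.

`local_decomp314`: `F` a field with a valuation `val : Valuation F ℤᵐ⁰`, `t`, `n` integral with
`t² - 4n` a unit, `M, M̄ ∈ GL₂(F)`, `M` in the torus, integral, `det M = ϖ` a uniformiser,
`M M̄ = ϖ`; `R = M M̄⁻¹`.  Then for every `X` in the torus with `det X = 1` there is exactly one
`i : ℤ` such that `R^(-i) X` and its inverse are integral.
-/

set_option autoImplicit false

namespace Fermat.Agent.LT.A2.H314

/-! ## Two identities in a commutative group, one in a group -/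

theorem cg_exist314 {G : Type*} [CommGroup G] (a b x k : G) (e i j : ℕ) (hij : i + j = 2 * e)
    (h : (a * b) ^ e * x = a ^ i * b ^ j * k) : (a * b⁻¹) ^ (-((i : ℤ) - e)) * x = k := by
  have hx : x = ((a * b) ^ e)⁻¹ * (a ^ i * b ^ j * k) := eq_inv_mul_of_mul_eq h
  have hj : (j : ℤ) = 2 * e - i := by omega
  rw [hx, ← zpow_natCast, ← zpow_natCast a, ← zpow_natCast b, hj, mul_zpow, mul_zpow,
    inv_zpow', mul_inv, ← zpow_neg, ← zpow_neg]
  have : a ^ (-((i : ℤ) - e)) * b ^ (-(-((i : ℤ) - e)))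
      * (a ^ (-(e : ℤ)) * b ^ (-(e : ℤ)) * (a ^ (i : ℤ) * b ^ (2 * (e : ℤ) - i) * k))
      = (a ^ (-((i : ℤ) - e)) * a ^ (-(e : ℤ)) * a ^ (i : ℤ))
        * (b ^ (-(-((i : ℤ) - e))) * b ^ (-(e : ℤ)) * b ^ (2 * (e : ℤ) - i)) * k := by
    ac_rfl
  rw [this, ← zpow_add, ← zpow_add, ← zpow_add, ← zpow_add]
  have e1 : -((i : ℤ) - e) + -(e : ℤ) + i = 0 := by ring
  have e2 : -(-((i : ℤ) - e)) + -(e : ℤ) + (2 * (e : ℤ) - i) = 0 := by ring
  rw [e1, e2]
  simp

theorem cg_uniq314 {G : Type*} [CommGroup G] (a b : G) (p : ℕ) :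
    a ^ (p + 1) = b * (b ^ p * (a * b⁻¹) ^ (p + 1)) := by
  rw [← mul_assoc, ← pow_succ', mul_pow, inv_pow, mul_comm (a ^ (p + 1)), mul_inv_cancel_left]

theorem grp_quot314 {G : Type*} [Group G] (r x : G) (i₁ i₂ : ℤ) :
    r ^ (-i₁) * x * (r ^ (-i₂) * x)⁻¹ = r ^ (i₂ - i₁) := by
  group

section LocGL

variable {F : Type*} [Field F] (val : Valuation F (WithZero (Multiplicative ℤ)))

/-- The matrix `A` has integral entries. -/
def IsIntM314 (A : Matrix (Fin 2) (Fin 2) F) : Prop := ∀ i j, val (A i j) ≤ 1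

variable {val}

theorem isIntM314_one : IsIntM314 val (1 : Matrix (Fin 2) (Fin 2) F) := by
  intro i j
  by_cases h : i = j
  · rw [h, Matrix.one_apply_eq, map_one]
  · rw [Matrix.one_apply_ne h, map_zero]
    exact zero_le

theorem isIntM314_mul {A B : Matrix (Fin 2) (Fin 2) F} (hA : IsIntM314 val A)
    (hB : IsIntM314 val B) : IsIntM314 val (A * B) := by
  intro i j
  rw [Matrix.mul_apply, Fin.sum_univ_two]
  exact vint_add314 (vint_mul314 (hA i 0) (hB 0 j)) (vint_mul314 (hA i 1) (hB 1 j))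

theorem isIntM314_pow {A : Matrix (Fin 2) (Fin 2) F} (hA : IsIntM314 val A) (k : ℕ) :
    IsIntM314 val (A ^ k) := by
  induction k with
  | zero => rw [pow_zero]; exact isIntM314_one
  | succ k ih => rw [pow_succ]; exact isIntM314_mul ih hA

theorem isIntM314_torM {t n a b : F} (ht : val t ≤ 1) (hn : val n ≤ 1) (ha : val a ≤ 1)
    (hb : val b ≤ 1) : IsIntM314 val (torM314 t n a b) := by
  intro i j
  fin_cases i <;> fin_cases j
  · simpa [torM314] using ha
  · simpa [torM314] using vint_mul314 hn hb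
  · simpa [torM314] using hb
  · simpa [torM314] using vint_add314 ha (vint_mul314 ht hb)

theorem isIntM314_torM_coords {t n a b : F} (h : IsIntM314 val (torM314 t n a b)) :
    val a ≤ 1 ∧ val b ≤ 1 := by
  have h0 := h 0 0
  have h1 := h 1 0
  rw [torM314_apply_zero_zero] at h0
  rw [torM314_apply_one_zero] at h1
  exact ⟨h0, h1⟩

theorem exists_pow_mul_int314 {ϖ : F} (hϖ : val ϖ = WithZero.exp (-1 : ℤ)) (x : F) :
    ∃ e : ℕ, val (ϖ ^ e * x) ≤ 1 := by
  by_cases hx : x = 0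
  · exact ⟨0, by simp [hx]⟩
  · have hv : val x ≠ 0 := (Valuation.ne_zero_iff val).mpr hx
    refine ⟨(WithZero.log (val x)).toNat, ?_⟩
    rw [map_mul, map_pow, hϖ, ← WithZero.exp_log hv, ← WithZero.exp_nsmul, ← WithZero.exp_add,
      ← WithZero.exp_zero, WithZero.exp_le_exp]
    have := Int.self_le_toNat (WithZero.log (val x))
    simp only [nsmul_eq_mul, WithZero.log_exp]
    omega

theorem exists_pow_mul_int_two314 {ϖ : F} (hϖ : val ϖ = WithZero.exp (-1 : ℤ)) (x y : F) :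
    ∃ e : ℕ, val (ϖ ^ e * x) ≤ 1 ∧ val (ϖ ^ e * y) ≤ 1 := by
  obtain ⟨e₁, h₁⟩ := exists_pow_mul_int314 hϖ x
  obtain ⟨e₂, h₂⟩ := exists_pow_mul_int314 hϖ y
  have hϖ1 : val ϖ ≤ 1 := by rw [hϖ]; exact le_of_lt exp_neg_one_lt_one314
  refine ⟨e₁ + e₂, ?_, ?_⟩
  · have e : ϖ ^ (e₁ + e₂) * x = ϖ ^ e₂ * (ϖ ^ e₁ * x) := by ring
    rw [e]
    exact vint_mul314 (vint_pow314 hϖ1 e₂) h₁
  · have e : ϖ ^ (e₁ + e₂) * y = ϖ ^ e₁ * (ϖ ^ e₂ * y) := by ring
    rw [e]
    exact vint_mul314 (vint_pow314 hϖ1 e₁) h₂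

/-- **The local theorem.** -/
theorem local_decomp314 {t n ϖ : F} (ht : val t ≤ 1) (hn : val n ≤ 1)
    (hdisc : val (t ^ 2 - 4 * n) = 1) (hϖ : val ϖ = WithZero.exp (-1 : ℤ))
    {M Mb X : GL (Fin 2) F} (hM : M ∈ torSub314 t n)
    (hMint : IsIntM314 val (M : Matrix (Fin 2) (Fin 2) F))
    (hdet : (M : Matrix (Fin 2) (Fin 2) F).det = ϖ)
    (hmul : (M : Matrix (Fin 2) (Fin 2) F) * (Mb : Matrix (Fin 2) (Fin 2) F)
      = Matrix.diagonal (fun _ => ϖ))
    (hX : X ∈ torSub314 t n) (hXdet : (X : Matrix (Fin 2) (Fin 2) F).det = 1) :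
    ∃! i : ℤ,
      IsIntM314 val (((M * Mb⁻¹) ^ (-i) * X : GL (Fin 2) F) : Matrix (Fin 2) (Fin 2) F) ∧
      IsIntM314 val ((((M * Mb⁻¹) ^ (-i) * X)⁻¹ : GL (Fin 2) F) :
        Matrix (Fin 2) (Fin 2) F) := by
  obtain ⟨c, d, hMcd⟩ := hM
  have hc : val c ≤ 1 := by
    have := hMint 0 0
    rwa [hMcd, torM314_apply_zero_zero] at this
  have hd : val d ≤ 1 := by
    have := hMint 1 0
    rwa [hMcd, torM314_apply_one_zero] at this
  have hπ : c ^ 2 + t * c * d + n * d ^ 2 = ϖ := by rw [← torM314_det, ← hMcd, hdet]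
  have L : LocData314 val t n c d := ⟨ht, hn, hdisc, hc, hd, by rw [hπ]; exact hϖ⟩
  have hMbcd : (Mb : Matrix (Fin 2) (Fin 2) F) = torM314 t n (c + t * d) (-d) := by
    rw [← torM314_adjugate, ← hMcd]
    have h1 : (M : Matrix (Fin 2) (Fin 2) F) * (Mb : Matrix (Fin 2) (Fin 2) F)
        = (M : Matrix (Fin 2) (Fin 2) F) * (M : Matrix (Fin 2) (Fin 2) F).adjugate := by
      rw [hmul, Matrix.mul_adjugate, hdet, Matrix.smul_one_eq_diagonal]
    have h2 := congrArg (fun A => ((M⁻¹ : GL (Fin 2) F) : Matrix (Fin 2) (Fin 2) F) * A) h1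
    simp only [← mul_assoc] at h2
    rw [← Units.val_mul, inv_mul_cancel] at h2
    simpa using h2
  have hMT : M ∈ torSub314 t n := ⟨c, d, hMcd⟩
  have hMbT : Mb ∈ torSub314 t n := ⟨_, _, hMbcd⟩
  have hMbint : IsIntM314 val (Mb : Matrix (Fin 2) (Fin 2) F) := by
    rw [hMbcd]
    exact isIntM314_torM ht hn L.conj.hc L.conj.hd
  -- uniqueness
  have huniq : ∀ i₁ i₂ : ℤ,
      IsIntM314 val (((M * Mb⁻¹) ^ (-i₁) * X : GL (Fin 2) F) : Matrix (Fin 2) (Fin 2) F) →
      IsIntM314 val ((((M * Mb⁻¹) ^ (-i₂) * X)⁻¹ : GL (Fin 2) F) :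
        Matrix (Fin 2) (Fin 2) F) → ¬ i₁ < i₂ := by
    intro i₁ i₂ h₁ h₂ hlt
    obtain ⟨p, hp⟩ : ∃ p : ℕ, (p : ℤ) + 1 = i₂ - i₁ := ⟨(i₂ - i₁ - 1).toNat, by omega⟩
    have hR : IsIntM314 val (((M * Mb⁻¹) ^ (p + 1) : GL (Fin 2) F) :
        Matrix (Fin 2) (Fin 2) F) := by
      have e : (M * Mb⁻¹) ^ (p + 1)
          = ((M * Mb⁻¹) ^ (-i₁) * X) * ((M * Mb⁻¹) ^ (-i₂) * X)⁻¹ := by
        rw [grp_quot314, ← hp, ← zpow_natCast]
        push_cast
        rfl
      rw [e, Units.val_mul]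
      exact isIntM314_mul h₁ h₂
    have h3 := cg_uniq314 (⟨M, hMT⟩ : torSub314 t n) ⟨Mb, hMbT⟩ p
    have h4 : (M : Matrix (Fin 2) (Fin 2) F) ^ (p + 1)
        = (Mb : Matrix (Fin 2) (Fin 2) F)
          * ((Mb : Matrix (Fin 2) (Fin 2) F) ^ p
            * (((M * Mb⁻¹) ^ (p + 1) : GL (Fin 2) F) : Matrix (Fin 2) (Fin 2) F)) := by
      have := congrArg (fun y : torSub314 t n =>
        ((y : GL (Fin 2) F) : Matrix (Fin 2) (Fin 2) F)) h3
      simpa using this
    obtain ⟨a'', b'', hab⟩ : Mb ^ p * (M * Mb⁻¹) ^ (p + 1) ∈ torSub314 t n :=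
      mul_mem (pow_mem hMbT p) (pow_mem (mul_mem hMT (inv_mem hMbT)) (p + 1))
    have hab' : (Mb : Matrix (Fin 2) (Fin 2) F) ^ p
        * (((M * Mb⁻¹) ^ (p + 1) : GL (Fin 2) F) : Matrix (Fin 2) (Fin 2) F)
        = torM314 t n a'' b'' := by
      rw [← hab]
      simp
    have hint : IsIntM314 val (torM314 t n a'' b'') := by
      rw [← hab']
      exact isIntM314_mul (isIntM314_pow hMbint p) hR
    refine L.not_dvd_pow (p + 1) a'' b'' (isIntM314_torM_coords hint).2 ?_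
    rw [← hMcd, ← hMbcd, ← hab']
    exact h4
  -- existence
  obtain ⟨a, b, hXab⟩ := hX
  obtain ⟨e, ha, hb⟩ := exists_pow_mul_int_two314 hϖ a b
  have hN1 : a ^ 2 + t * a * b + n * b ^ 2 = 1 := by rw [← torM314_det, ← hXab, hXdet]
  have hN : val ((ϖ ^ e * a) ^ 2 + t * (ϖ ^ e * a) * (ϖ ^ e * b) + n * (ϖ ^ e * b) ^ 2)
      = WithZero.exp (-((2 * e : ℕ) : ℤ)) := by
    have e1 : (ϖ ^ e * a) ^ 2 + t * (ϖ ^ e * a) * (ϖ ^ e * b) + n * (ϖ ^ e * b) ^ 2
        = ϖ ^ (2 * e) * (a ^ 2 + t * a * b + n * b ^ 2) := by ring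
    rw [e1, hN1, mul_one, map_pow, hϖ, ← WithZero.exp_nsmul]
    congr 1
    simp
  obtain ⟨i, j, a', b', hij, ha', hb', hN', he'⟩ := L.exists_decomp (2 * e) _ _ ha hb hN
  have hdetκ : (torM314 t n a' b').det ≠ 0 := by
    rw [torM314_det]
    intro h0
    rw [h0, map_zero] at hN'
    exact zero_ne_one hN'
  have hkey : (M * Mb) ^ e * X
      = M ^ i * Mb ^ j * Matrix.GeneralLinearGroup.mkOfDetNeZero (torM314 t n a' b') hdetκ := by
    apply Units.ext
    simp only [Units.val_mul, Units.val_pow_eq_pow_val]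
    rw [hmul, hXab, hMcd, hMbcd]
    change _ = torM314 t n c d ^ i * torM314 t n (c + t * d) (-d) ^ j * torM314 t n a' b'
    rw [← he', ← Matrix.smul_one_eq_diagonal, smul_pow, one_pow, smul_mul_assoc, one_mul,
      torM314_smul]
  have hκT : Matrix.GeneralLinearGroup.mkOfDetNeZero (torM314 t n a' b') hdetκ ∈ torSub314 t n :=
    ⟨a', b', rfl⟩
  have hres := cg_exist314 (⟨M, hMT⟩ : torSub314 t n) ⟨Mb, hMbT⟩ ⟨X, ⟨a, b, hXab⟩⟩
    ⟨_, hκT⟩ e i j hij (Subtype.ext hkey)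
  have hres' : (M * Mb⁻¹) ^ (-((i : ℤ) - e)) * X
      = Matrix.GeneralLinearGroup.mkOfDetNeZero (torM314 t n a' b') hdetκ := by
    have := congrArg (fun y : torSub314 t n => (y : GL (Fin 2) F)) hres
    simpa using this
  have hex1 : IsIntM314 val (((M * Mb⁻¹) ^ (-((i : ℤ) - e)) * X : GL (Fin 2) F) :
      Matrix (Fin 2) (Fin 2) F) := by
    rw [hres']
    exact isIntM314_torM ht hn ha' hb'
  have hex2 : IsIntM314 val ((((M * Mb⁻¹) ^ (-((i : ℤ) - e)) * X)⁻¹ : GL (Fin 2) F) :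
      Matrix (Fin 2) (Fin 2) F) := by
    rw [hres', Matrix.coe_units_inv, Matrix.inv_def]
    change IsIntM314 val (Ring.inverse (torM314 t n a' b').det • (torM314 t n a' b').adjugate)
    rw [torM314_adjugate, torM314_smul, torM314_det, Ring.inverse_eq_inv']
    have hu : val (a' ^ 2 + t * a' * b' + n * b' ^ 2)⁻¹ = 1 := by
      rw [map_inv₀, hN', inv_one]
    exact isIntM314_torM ht hn
      (vint_mul314 (le_of_eq hu) (vint_add314 ha' (vint_mul314 ht hb')))
      (vint_mul314 (le_of_eq hu) (vint_neg314 hb'))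
  refine ⟨(i : ℤ) - e, ⟨hex1, hex2⟩, ?_⟩
  intro y hy
  by_contra hne
  rcases lt_or_gt_of_ne hne with h | h
  · exact huniq y _ hy.1 hex2 h
  · exact huniq _ y hex1 hy.2 h

end LocGL

end Fermat.Agent.LT.A2.H314

end
-- ===== PACK-END LT/A2/H314/TorGL.lean

-- ===== PACK-BEGIN LT/T3/H57/CompleteAbs.lean
section


/-!
# Row LT, tower T3 (volunteer helper57): completeness of a separating group of characters

OFF-MAIN.  Mathlib only.

`complete_abstract57`: `G` abelian topological group (Borel), `Γ` countable subgroup with compact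
quotient, `μ` invariant and positive on open sets, `D` a fundamental domain of FINITE measure,
`χ i` continuous unitary characters trivial on `Γ`, closed under `1`, products and conjugates,
separating the points of `G ⧸ Γ`.  A continuous `Γ`-periodic `F` with
`∫_D F · χ i = 0` for all `i` vanishes identically.  (Stone--Weierstrass; no normalisation of the
measure, no countability or injectivity of the family.)
-/

set_option autoImplicit false
set_option linter.unusedSectionVars false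

namespace Fermat.Agent.LT.T3.H57

open MeasureTheory Filter Set Topology ComplexConjugate
open scoped Pointwise

section

variable {G : Type*} [AddCommGroup G] [TopologicalSpace G] [IsTopologicalAddGroup G]
  [MeasurableSpace G] [BorelSpace G]
  (Γ : AddSubgroup G) [Countable Γ] [CompactSpace (G ⧸ Γ)]
  (μ : Measure G) [μ.IsAddLeftInvariant] [μ.IsOpenPosMeasure]
  (D : Set G)

/-- Integration over a fundamental domain of finite measure as a linear functional on
`C(G ⧸ Γ, ℂ)`. -/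
noncomputable def intDf57 (hfin : μ D ≠ ⊤) : C(G ⧸ Γ, ℂ) →ₗ[ℂ] ℂ where
  toFun f := ∫ x in D, f (x : G ⧸ Γ) ∂μ
  map_add' f g := by
    have : IsFiniteMeasure (μ.restrict D) :=
      ⟨by rw [Measure.restrict_apply_univ]; exact lt_top_iff_ne_top.mpr hfin⟩
    have hi : ∀ f : C(G ⧸ Γ, ℂ), Integrable (fun x : G => f (x : G ⧸ Γ)) (μ.restrict D) :=
      fun f => Integrable.of_bound
        (f.continuous.comp continuous_quot_mk).aestronglyMeasurable ‖f‖
        (Eventually.of_forall fun x => f.norm_coe_le_norm _)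
    simp only [ContinuousMap.add_apply]
    exact integral_add (hi f) (hi g)
  map_smul' c f := by
    simp only [ContinuousMap.smul_apply, smul_eq_mul, RingHom.id_apply]
    exact integral_const_mul c _

theorem intDf57_apply (hfin : μ D ≠ ⊤) (f : C(G ⧸ Γ, ℂ)) :
    intDf57 Γ μ D hfin f = ∫ x in D, f (x : G ⧸ Γ) ∂μ := rfl

theorem norm_intDf57_le (hfin : μ D ≠ ⊤) (f : C(G ⧸ Γ, ℂ)) :
    ‖intDf57 Γ μ D hfin f‖ ≤ ‖f‖ * μ.real D := by
  rw [intDf57_apply]
  exact norm_setIntegral_le_of_norm_le_const (μ := μ) (s := D) (C := ‖f‖)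
    (f := fun x : G => f (x : G ⧸ Γ)) (lt_top_iff_ne_top.mpr hfin)
    (fun x _ => f.norm_coe_le_norm _)

/-- A continuous function on `G ⧸ Γ` with `∫_D |f|² = 0` vanishes identically. -/
theorem eq_zero_of_intDf57_mul_star (hD : IsAddFundamentalDomain Γ D μ) (hfin : μ D ≠ ⊤)
    (f : C(G ⧸ Γ, ℂ)) (h0 : intDf57 Γ μ D hfin (f * star f) = 0) (x : G) :
    f (x : G ⧸ Γ) = 0 := by
  have : IsFiniteMeasure (μ.restrict D) :=
    ⟨by rw [Measure.restrict_apply_univ]; exact lt_top_iff_ne_top.mpr hfin⟩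
  let F : G → ℂ := fun x => f (x : G ⧸ Γ)
  have hFc : Continuous F := f.continuous.comp continuous_quot_mk
  have h1 : ∫ x in D, ((Complex.normSq (F x) : ℝ) : ℂ) ∂μ = 0 := by
    rw [intDf57_apply] at h0
    rw [← h0]
    congr 1
    ext x
    simp only [ContinuousMap.mul_apply, ContinuousMap.star_apply, F]
    rw [Complex.star_def, Complex.mul_conj]
  rw [integral_complex_ofReal] at h1
  have h2 : ∫ x in D, Complex.normSq (F x) ∂μ = 0 := by exact_mod_cast h1
  have hnn : 0 ≤ fun x => Complex.normSq (F x) := fun x => Complex.normSq_nonneg _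
  have hcn : Continuous fun x => Complex.normSq (F x) := Complex.continuous_normSq.comp hFc
  have hint : Integrable (fun x => Complex.normSq (F x)) (μ.restrict D) := by
    refine Integrable.of_bound hcn.aestronglyMeasurable (‖f‖ ^ 2)
      (Eventually.of_forall fun x => ?_)
    rw [Real.norm_of_nonneg (Complex.normSq_nonneg _), Complex.normSq_eq_norm_sq]
    exact pow_le_pow_left₀ (norm_nonneg _) (f.norm_coe_le_norm _) 2
  have h3 := (integral_eq_zero_iff_of_nonneg hnn hint).mp h2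
  let U : Set G := {x | F x ≠ 0}
  have hU : IsOpen U := isOpen_ne_fun hFc continuous_const
  have h4 : μ (U ∩ D) = 0 := by
    have h5 : (μ.restrict D) {x | ¬ (Complex.normSq (F x) = (0 : G → ℝ) x)} = 0 := ae_iff.mp h3
    have h6 : {x | ¬ (Complex.normSq (F x) = (0 : G → ℝ) x)} = U := by
      ext x
      simp [U]
    rw [h6, Measure.restrict_apply hU.measurableSet] at h5
    exact h5
  have hinv : ∀ γ : Γ, γ +ᵥ U = U := by
    intro γ
    ext x
    rw [Set.mem_vadd_set_iff_neg_vadd_mem]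
    have h7 : F (-γ +ᵥ x) = F x := by
      show f ((-γ +ᵥ x : G) : G ⧸ Γ) = f (x : G ⧸ Γ)
      congr 1
      have : (-γ +ᵥ x : G) = x + ((-γ : Γ) : G) := by
        show ((-γ : Γ) : G) + x = x + ((-γ : Γ) : G)
        exact add_comm _ _
      rw [this]
      exact QuotientAddGroup.mk_add_of_mem x (-γ).2
    show F (-γ +ᵥ x) ≠ 0 ↔ F x ≠ 0
    rw [h7]
  have h8 : μ U = 0 := hD.measure_zero_of_invariant U hinv h4
  have h9 : U = ∅ := (hU.measure_eq_zero_iff μ).mp h8
  by_contra hne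
  have : x ∈ U := hne
  rw [h9] at this
  exact this

/-- **Completeness** of a separating group of characters of `G ⧸ Γ`. -/
theorem complete_abstract57 (hD : IsAddFundamentalDomain Γ D μ) (hfin : μ D ≠ ⊤)
    {ι : Type*} (χ : ι → G → ℂ)
    (hχc : ∀ i, Continuous (χ i))
    (hχadd : ∀ i x y, χ i (x + y) = χ i x * χ i y)
    (hχn : ∀ i x, ‖χ i x‖ = 1)
    (hχΓ : ∀ i, ∀ γ ∈ Γ, χ i γ = 1)
    (hχone : ∃ i, ∀ x, χ i x = 1)
    (hχmul : ∀ i j, ∃ k, ∀ x, χ k x = χ i x * χ j x)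
    (hχinv : ∀ i, ∃ k, ∀ x, χ k x = conj (χ i x))
    (hsep : ∀ x : G, (∀ i, χ i x = 1) → x ∈ Γ)
    (F : G → ℂ) (hFc : Continuous F) (hFper : ∀ γ ∈ Γ, ∀ x, F (γ + x) = F x)
    (h0 : ∀ i, ∫ x in D, F x * χ i x ∂μ = 0) (x : G) : F x = 0 := by
  classical
  have hχper : ∀ i, ∀ γ ∈ Γ, ∀ x, χ i (γ + x) = χ i x := fun i γ hγ x => by
    rw [hχadd, hχΓ i γ hγ, one_mul]
  let X : ι → C(G ⧸ Γ, ℂ) := fun i => desc57 Γ (χ i) (hχc i) (hχper i)
  let H : C(G ⧸ Γ, ℂ) := desc57 Γ F hFc hFper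
  have hHX : ∀ i, intDf57 Γ μ D hfin (H * X i) = 0 := fun i => h0 i
  have hXstar : ∀ i, ∃ k, star (X i) = X k := by
    intro i
    obtain ⟨k, hk⟩ := hχinv i
    refine ⟨k, ?_⟩
    ext q
    induction q using QuotientAddGroup.induction_on with
    | H x =>
      show star (χ i x) = χ k x
      rw [hk]
      rfl
  let Ssub : Submodule ℂ C(G ⧸ Γ, ℂ) := Submodule.span ℂ (Set.range X)
  have hS1 : (1 : C(G ⧸ Γ, ℂ)) ∈ Ssub := by
    obtain ⟨i, hi⟩ := hχone
    have : X i = 1 := by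
      ext q
      induction q using QuotientAddGroup.induction_on with
      | H x => exact hi x
    rw [← this]
    exact Submodule.subset_span ⟨i, rfl⟩
  have hSmul : ∀ a b, a ∈ Ssub → b ∈ Ssub → a * b ∈ Ssub := by
    intro a b ha hb
    have h1 : a * b ∈ Ssub * Ssub := Submodule.mul_mem_mul ha hb
    have h2 : Ssub * Ssub ≤ Ssub := by
      show Submodule.span ℂ (Set.range X) * Submodule.span ℂ (Set.range X) ≤ _
      rw [Submodule.span_mul_span]
      refine Submodule.span_le.mpr ?_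
      rintro _ ⟨_, ⟨i, rfl⟩, _, ⟨j, rfl⟩, rfl⟩
      obtain ⟨k, hk⟩ := hχmul i j
      have : X i * X j = X k := by
        ext q
        induction q using QuotientAddGroup.induction_on with
        | H x => exact (hk x).symm
      show X i * X j ∈ Ssub
      rw [this]
      exact Submodule.subset_span ⟨k, rfl⟩
    exact h2 h1
  have hSstar : ∀ a, a ∈ Ssub → star a ∈ Ssub := by
    intro a ha
    induction ha using Submodule.span_induction with
    | mem x hx =>
      obtain ⟨i, rfl⟩ := hx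
      obtain ⟨k, hk⟩ := hXstar i
      rw [hk]
      exact Submodule.subset_span ⟨k, rfl⟩
    | zero => rw [star_zero]; exact Submodule.zero_mem _
    | add x y _ _ hx hy => rw [star_add]; exact Submodule.add_mem _ hx hy
    | smul r x _ hx => rw [star_smul]; exact Submodule.smul_mem _ _ hx
  let S : StarSubalgebra ℂ C(G ⧸ Γ, ℂ) :=
    { toSubalgebra := Ssub.toSubalgebra hS1 hSmul
      star_mem' := fun {a} ha => hSstar a ha }
  have hSmem : ∀ a, a ∈ S → a ∈ Ssub := fun a ha => ha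
  have hSsep : S.SeparatesPoints := by
    intro q q' hqq'
    induction q using QuotientAddGroup.induction_on with
    | H x =>
    induction q' using QuotientAddGroup.induction_on with
    | H y =>
    have hxy : -x + y ∉ Γ := fun hmem => hqq' (QuotientAddGroup.eq.mpr hmem)
    have hex : ∃ i, χ i (-x + y) ≠ 1 := by
      by_contra hcon
      push Not at hcon
      exact hxy (hsep _ hcon)
    obtain ⟨i, hi⟩ := hex
    refine ⟨X i, ⟨X i, Submodule.subset_span ⟨i, rfl⟩, rfl⟩, ?_⟩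
    show χ i x ≠ χ i y
    intro heq
    apply hi
    have h1 : χ i y = χ i x * χ i (-x + y) := by
      rw [← hχadd]
      congr 1
      abel
    have hne : χ i x ≠ 0 := by
      intro h0
      have := hχn i x
      rw [h0, norm_zero] at this
      exact zero_ne_one this
    rw [← heq] at h1
    exact (mul_eq_left₀ hne).mp h1.symm
  have hdense : S.topologicalClosure = ⊤ :=
    ContinuousMap.starSubalgebra_topologicalClosure_eq_top_of_separatesPoints S hSsep
  have hHS : ∀ p, p ∈ Ssub → intDf57 Γ μ D hfin (H * p) = 0 := by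
    intro p hp
    induction hp using Submodule.span_induction with
    | mem x hx =>
      obtain ⟨i, rfl⟩ := hx
      exact hHX i
    | zero => rw [mul_zero, map_zero]
    | add x y _ _ hx hy => rw [mul_add, map_add, hx, hy, add_zero]
    | smul r x _ hx => rw [mul_smul_comm, map_smul, hx, smul_zero]
  have hHH : intDf57 Γ μ D hfin (H * star H) = 0 := by
    have hcl : star H ∈ closure (S : Set C(G ⧸ Γ, ℂ)) := by
      rw [← StarSubalgebra.topologicalClosure_coe, hdense]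
      trivial
    rw [← norm_eq_zero]
    refine le_antisymm (le_of_forall_pos_le_add fun ε hε => ?_) (norm_nonneg _)
    rw [zero_add]
    have hM : 0 ≤ μ.real D := ENNReal.toReal_nonneg
    obtain ⟨p, hpS, hp⟩ := Metric.mem_closure_iff.mp hcl (ε / (‖H‖ * μ.real D + 1))
      (by positivity)
    have h1 : H * star H = H * (star H - p) + H * p := by ring
    rw [h1, map_add, hHS p (hSmem p hpS), add_zero]
    have hpos : 0 < ‖H‖ * μ.real D + 1 := by positivity
    calc ‖intDf57 Γ μ D hfin (H * (star H - p))‖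
        ≤ ‖H * (star H - p)‖ * μ.real D := norm_intDf57_le Γ μ D hfin _
      _ ≤ ‖H‖ * ‖star H - p‖ * μ.real D :=
          mul_le_mul_of_nonneg_right (norm_mul_le _ _) hM
      _ ≤ ‖H‖ * (ε / (‖H‖ * μ.real D + 1)) * μ.real D := by
          refine mul_le_mul_of_nonneg_right ?_ hM
          refine mul_le_mul_of_nonneg_left ?_ (norm_nonneg _)
          rw [← dist_eq_norm]
          exact hp.le
      _ = ε * (‖H‖ * μ.real D / (‖H‖ * μ.real D + 1)) := by ring
      _ ≤ ε * 1 := by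
          refine mul_le_mul_of_nonneg_left ?_ hε.le
          rw [div_le_one hpos]
          linarith
      _ = ε := mul_one ε
  exact eq_zero_of_intDf57_mul_star Γ μ D hD hfin H hHH x

end

end Fermat.Agent.LT.T3.H57

end
-- ===== PACK-END LT/T3/H57/CompleteAbs.lean

-- ===== PACK-BEGIN LT/T3/H984/Hadamard.lean
section



/-!
# Row LT, tower T3, leaf AS.2w (helper984): Hadamard's lemma with a parameter

Mathlib only.  For `Q : ℝ × ℝ → ℂ` smooth and even in the first variable, the function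
`L Q (u, c) = ∂_u Q (u, c) / sinh u` extends to a smooth function, even in `u`.  OFF-MAIN.
-/

set_option autoImplicit false

noncomputable section

namespace Fermat.Agent.LT.T3.H984

open Set Filter Topology MeasureTheory
open scoped ContDiff

/-- Partial derivative in the first variable. -/
def d1_984 (Q : ℝ × ℝ → ℂ) (p : ℝ × ℝ) : ℂ := fderiv ℝ Q p (1, 0)

/-- Partial derivative in the second variable. -/
def d2_984 (Q : ℝ × ℝ → ℂ) (p : ℝ × ℝ) : ℂ := fderiv ℝ Q p (0, 1)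

/-- Even in the first variable. -/
def IsEv984 (Q : ℝ × ℝ → ℂ) : Prop := ∀ u c : ℝ, Q (-u, c) = Q (u, c)

/-- Odd in the first variable. -/
def IsOd984 (Q : ℝ × ℝ → ℂ) : Prop := ∀ u c : ℝ, Q (-u, c) = -Q (u, c)

theorem fderiv_contDiff984 {Q : ℝ × ℝ → ℂ} (hQ : ContDiff ℝ ∞ Q) :
    ContDiff ℝ ∞ (fderiv ℝ Q) :=
  hQ.fderiv_right (m := ∞) (by simp)

theorem d1_contDiff984 {Q : ℝ × ℝ → ℂ} (hQ : ContDiff ℝ ∞ Q) : ContDiff ℝ ∞ (d1_984 Q) :=
  (fderiv_contDiff984 hQ).clm_apply contDiff_const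

theorem d2_contDiff984 {Q : ℝ × ℝ → ℂ} (hQ : ContDiff ℝ ∞ Q) : ContDiff ℝ ∞ (d2_984 Q) :=
  (fderiv_contDiff984 hQ).clm_apply contDiff_const

theorem hasFDerivAt984 {Q : ℝ × ℝ → ℂ} (hQ : ContDiff ℝ ∞ Q) (p : ℝ × ℝ) :
    HasFDerivAt Q (fderiv ℝ Q p) p :=
  ((hQ.differentiable (by simp)) p).hasFDerivAt

theorem fderiv_apply984 (Q : ℝ × ℝ → ℂ) (p : ℝ × ℝ) (a b : ℝ) :
    fderiv ℝ Q p (a, b) = (a : ℂ) * d1_984 Q p + (b : ℂ) * d2_984 Q p := by
  have : ((a, b) : ℝ × ℝ) = a • ((1, 0) : ℝ × ℝ) + b • ((0, 1) : ℝ × ℝ) := by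
    ext <;> simp
  rw [this, map_add, map_smul, map_smul]
  simp only [d1_984, d2_984, Complex.real_smul]

/-- `∂₁ Q (u, c)` is the derivative of `t ↦ Q (t, c)` at `u`. -/
theorem hasDerivAt_d1_984 {Q : ℝ × ℝ → ℂ} (hQ : ContDiff ℝ ∞ Q) (u c : ℝ) :
    HasDerivAt (fun t : ℝ => Q (t, c)) (d1_984 Q (u, c)) u := by
  have h1 : HasDerivAt (fun t : ℝ => ((t, c) : ℝ × ℝ)) ((1, 0) : ℝ × ℝ) u :=
    (hasDerivAt_id u).prodMk (hasDerivAt_const u c)
  exact (hasFDerivAt984 hQ (u, c)).comp_hasDerivAt u h1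

/-- `∂₂ Q (u, c)` is the derivative of `s ↦ Q (u, s)` at `c`. -/
theorem hasDerivAt_d2_984 {Q : ℝ × ℝ → ℂ} (hQ : ContDiff ℝ ∞ Q) (u c : ℝ) :
    HasDerivAt (fun s : ℝ => Q (u, s)) (d2_984 Q (u, c)) c := by
  have h1 : HasDerivAt (fun s : ℝ => ((u, s) : ℝ × ℝ)) ((0, 1) : ℝ × ℝ) c :=
    (hasDerivAt_const c u).prodMk (hasDerivAt_id c)
  exact (hasFDerivAt984 hQ (u, c)).comp_hasDerivAt c h1

theorem d1_eq_deriv984 {Q : ℝ × ℝ → ℂ} (hQ : ContDiff ℝ ∞ Q) (u c : ℝ) :
    d1_984 Q (u, c) = deriv (fun t : ℝ => Q (t, c)) u :=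
  (hasDerivAt_d1_984 hQ u c).deriv.symm

theorem d2_eq_deriv984 {Q : ℝ × ℝ → ℂ} (hQ : ContDiff ℝ ∞ Q) (u c : ℝ) :
    d2_984 Q (u, c) = deriv (fun s : ℝ => Q (u, s)) c :=
  (hasDerivAt_d2_984 hQ u c).deriv.symm

/-- The `u`-derivative of an even function is odd. -/
theorem d1_odd984 {Q : ℝ × ℝ → ℂ} (hQ : ContDiff ℝ ∞ Q) (hev : IsEv984 Q) : IsOd984 (d1_984 Q) := by
  intro u c
  have h1 : HasDerivAt (fun t : ℝ => Q (-t, c)) (-(d1_984 Q (-u, c))) u := by
    have := (hasDerivAt_d1_984 hQ (-u) c).scomp u (hasDerivAt_neg u)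
    simp only [neg_smul, one_smul] at this
    exact this
  have h2 : (fun t : ℝ => Q (-t, c)) = fun t : ℝ => Q (t, c) := funext fun t => hev t c
  rw [h2] at h1
  have := h1.unique (hasDerivAt_d1_984 hQ u c)
  rw [← this, neg_neg]

/-- The `u`-derivative of an odd function is even. -/
theorem d1_even984 {Q : ℝ × ℝ → ℂ} (hQ : ContDiff ℝ ∞ Q) (hod : IsOd984 Q) : IsEv984 (d1_984 Q) := by
  intro u c
  have h1 : HasDerivAt (fun t : ℝ => Q (-t, c)) (-(d1_984 Q (-u, c))) u := by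
    have := (hasDerivAt_d1_984 hQ (-u) c).scomp u (hasDerivAt_neg u)
    simp only [neg_smul, one_smul] at this
    exact this
  have h2 : (fun t : ℝ => Q (-t, c)) = fun t : ℝ => -Q (t, c) := funext fun t => hod t c
  rw [h2] at h1
  have := h1.unique (hasDerivAt_d1_984 hQ u c).neg
  exact neg_injective this

/-- The `c`-derivative of an even function is even. -/
theorem d2_even984 {Q : ℝ × ℝ → ℂ} (hQ : ContDiff ℝ ∞ Q) (hev : IsEv984 Q) : IsEv984 (d2_984 Q) := by
  intro u c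
  rw [d2_eq_deriv984 hQ, d2_eq_deriv984 hQ]
  congr 1
  funext s
  exact hev u s

theorem odd_zero984 {Q : ℝ × ℝ → ℂ} (hod : IsOd984 Q) (c : ℝ) : Q (0, c) = 0 := by
  have := hod 0 c
  rw [neg_zero] at this
  have h2 : (2 : ℂ) * Q (0, c) = 0 := by linear_combination this
  simpa using h2

/-- Hadamard's quotient: `had f (u, c) = ∫₀¹ ∂₁ f (t u, c) dt`. -/
def had984 (f : ℝ × ℝ → ℂ) (p : ℝ × ℝ) : ℂ := ∫ t in (0:ℝ)..1, d1_984 f (t * p.1, p.2)

theorem had_contDiff984 {f : ℝ × ℝ → ℂ} (hf : ContDiff ℝ ∞ f) : ContDiff ℝ ∞ (had984 f) := by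
  have hg : ContDiff ℝ ∞ (fun q : (ℝ × ℝ) × ℝ => d1_984 f (q.2 * q.1.1, q.1.2)) := by
    apply (d1_contDiff984 hf).comp
    exact (contDiff_snd.mul (contDiff_fst.comp contDiff_fst)).prodMk
      (contDiff_snd.comp contDiff_fst)
  exact contDiff_paramInt984 (g := fun p t => d1_984 f (t * p.1, p.2)) hg

/-- Hadamard's lemma: `f (u, c) - f (0, c) = u * had f (u, c)`. -/
theorem had_eq984 {f : ℝ × ℝ → ℂ} (hf : ContDiff ℝ ∞ f) (u c : ℝ) :
    f (u, c) - f (0, c) = (u : ℂ) * had984 f (u, c) := by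
  have hderiv : ∀ t ∈ Set.uIcc (0:ℝ) 1,
      HasDerivAt (fun t : ℝ => f (t * u, c)) ((u : ℂ) * d1_984 f (t * u, c)) t := by
    intro t _
    have h1 : HasDerivAt (fun t : ℝ => t * u) u t := by
      simpa using (hasDerivAt_id t).mul_const u
    have := (hasDerivAt_d1_984 hf (t * u) c).scomp t h1
    simpa [Function.comp_def] using this
  have hcont : Continuous (fun t : ℝ => (u : ℂ) * d1_984 f (t * u, c)) := by
    apply Continuous.mul continuous_const
    exact (d1_contDiff984 hf).continuous.comp (by fun_prop)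
  have key := intervalIntegral.integral_eq_sub_of_hasDerivAt hderiv (hcont.intervalIntegrable 0 1)
  rw [intervalIntegral.integral_const_mul] at key
  simp only [one_mul, zero_mul] at key
  rw [had984]
  exact key.symm

/-- `sinh` as a function on the plane. -/
def sh984 (p : ℝ × ℝ) : ℂ := (Real.sinh p.1 : ℂ)

theorem sh_contDiff984 : ContDiff ℝ ∞ sh984 := by
  have h1 : ContDiff ℝ ∞ (fun p : ℝ × ℝ => Real.sinh p.1) := Real.contDiff_sinh.comp contDiff_fst
  exact Complex.ofRealCLM.contDiff.comp h1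

theorem d1_sh984 (u c : ℝ) : d1_984 sh984 (u, c) = (Real.cosh u : ℂ) := by
  rw [d1_eq_deriv984 sh_contDiff984]
  have : HasDerivAt (fun t : ℝ => sh984 (t, c)) (Real.cosh u : ℂ) u := by
    have := (Real.hasDerivAt_sinh u).ofReal_comp
    simpa [sh984] using this
  exact this.deriv

/-- The denominator `sinh u / u`. -/
def shc984 : ℝ × ℝ → ℂ := had984 sh984

theorem shc_contDiff984 : ContDiff ℝ ∞ shc984 := had_contDiff984 sh_contDiff984

theorem shc_mul984 (u c : ℝ) : (Real.sinh u : ℂ) = (u : ℂ) * shc984 (u, c) := by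
  have := had_eq984 sh_contDiff984 u c
  rw [shc984, ← this]
  simp [sh984]

theorem shc_ne_zero984 (p : ℝ × ℝ) : shc984 p ≠ 0 := by
  obtain ⟨u, c⟩ := p
  by_cases hu : u = 0
  · subst hu
    have : shc984 (0, c) = 1 := by
      simp only [shc984, had984, mul_zero, d1_sh984, Real.cosh_zero, Complex.ofReal_one,
        intervalIntegral.integral_const, sub_zero, one_smul]
    rw [this]
    exact one_ne_zero
  · intro h0
    have := shc_mul984 u c
    rw [h0, mul_zero] at this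
    have h2 : Real.sinh u = 0 := by exact_mod_cast this
    exact hu (Real.sinh_eq_zero.mp h2)

theorem shc_even984 : IsEv984 shc984 := by
  intro u c
  simp only [shc984, had984, d1_sh984, mul_neg, Real.cosh_neg]

/-- The operator `L Q = ∂_u Q / sinh u` (smooth extension). -/
def opL984 (Q : ℝ × ℝ → ℂ) (p : ℝ × ℝ) : ℂ := had984 (d1_984 Q) p / shc984 p

theorem opL_contDiff984 {Q : ℝ × ℝ → ℂ} (hQ : ContDiff ℝ ∞ Q) : ContDiff ℝ ∞ (opL984 Q) := by
  have h := (had_contDiff984 (d1_contDiff984 hQ)).mul (shc_contDiff984.inv shc_ne_zero984)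
  have e : opL984 Q = fun p => had984 (d1_984 Q) p * (shc984⁻¹) p := by
    funext p
    simp only [opL984, div_eq_mul_inv, Pi.inv_apply]
  rw [e]
  exact h

theorem opL_even984 {Q : ℝ × ℝ → ℂ} (hQ : ContDiff ℝ ∞ Q) (hev : IsEv984 Q) :
    IsEv984 (opL984 Q) := by
  intro u c
  have h2 : IsEv984 (d1_984 (d1_984 Q)) := d1_even984 (d1_contDiff984 hQ) (d1_odd984 hQ hev)
  have h3 : had984 (d1_984 Q) (-u, c) = had984 (d1_984 Q) (u, c) := by
    simp only [had984, mul_neg]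
    congr 1
    funext t
    exact h2 (t * u) c
  rw [opL984, opL984, h3, shc_even984 u c]

/-- The defining property of `L`: `∂_u Q (u, c) = sinh u * L Q (u, c)`. -/
theorem opL_mul984 {Q : ℝ × ℝ → ℂ} (hQ : ContDiff ℝ ∞ Q) (hev : IsEv984 Q) (u c : ℝ) :
    d1_984 Q (u, c) = (Real.sinh u : ℂ) * opL984 Q (u, c) := by
  have h1 := had_eq984 (d1_contDiff984 hQ) u c
  rw [odd_zero984 (d1_odd984 hQ hev) c, sub_zero] at h1
  rw [h1, shc_mul984 u c, opL984]
  field_simp [shc_ne_zero984 (u, c)]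

end Fermat.Agent.LT.T3.H984

end
end
-- ===== PACK-END LT/T3/H984/Hadamard.lean

-- ===== PACK-BEGIN LT/T6/H981/NormClass.lean
section


/-!
# Row LT, tower T6, leaf T6.04 `NormClassC` (helper981), OFF-MAIN

Langlands, *Base change for GL(2)*, Lemma 4.1: the norm `N δ = δ · σ δ ⋯ σ^{l-1} δ` of every
`δ ∈ GL₂(K')` is conjugate in `GL₂(K')` to an element of `GL₂(K)`.

Proof.  `σ (N δ) = δ⁻¹ (N δ) δ` because `σ ^ l = 1`; hence the trace and the determinant of `N δ`
are fixed by `σ`, i.e. lie in `K`.  If `N δ` is not a scalar matrix it is conjugate to the companion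
matrix of its characteristic polynomial (basis `v, N v` for a cyclic vector `v`), which has entries
in `K`.  If `N δ = a · 1` is scalar then `σ a = a`, so `a ∈ K`.

Target: `Fermat.Agent.LT.T6.NormClassC` VERBATIM (Spec of helper22, sha256 89f8f8b81940fd80…).
-/

set_option autoImplicit false

open scoped Matrix

noncomputable section

namespace Fermat.Agent.LT.T6.H981

open Fermat.Agent.LT.T6

/-- `N_{n+1} δ = N_n δ · s^n δ`. -/
theorem twN_succ_right981 {Γ : Type} [Group Γ] (s : Γ →* Γ) (n : ℕ) (δ : Γ) :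
    twN s (n + 1) δ = twN s n δ * (s^[n]) δ := by
  induction n with
  | zero => simp [twN]
  | succ n ih =>
    have h2 : twN s (n + 1) δ = δ * s (twN s n δ) := rfl
    calc twN s (n + 1 + 1) δ = δ * s (twN s (n + 1) δ) := rfl
      _ = δ * s (twN s n δ * (s^[n]) δ) := by rw [ih]
      _ = δ * s (twN s n δ) * s ((s^[n]) δ) := by rw [map_mul, mul_assoc]
      _ = twN s (n + 1) δ * (s^[n + 1]) δ := by
          rw [Function.iterate_succ_apply', ← h2]

/-- If `s^n δ = δ` then `s (N_n δ) = δ⁻¹ · N_n δ · δ`. -/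
theorem map_twN_eq_conj981 {Γ : Type} [Group Γ] (s : Γ →* Γ) (n : ℕ) (δ : Γ)
    (h : (s^[n]) δ = δ) : s (twN s n δ) = δ⁻¹ * twN s n δ * δ := by
  have h1 : twN s (n + 1) δ = δ * s (twN s n δ) := rfl
  have h2 := twN_succ_right981 s n δ
  rw [h, h1] at h2
  rw [mul_assoc, ← h2, inv_mul_cancel_left]

/-- Entries of the iterates of `glAut s`. -/
theorem glAut_iterate_apply981 {R : Type} [CommRing R] (s : R ≃+* R) (n : ℕ)
    (δ : GL (Fin 2) R) (i j : Fin 2) :
    ((((glAut s)^[n]) δ : GL (Fin 2) R) : Matrix (Fin 2) (Fin 2) R) i j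
      = (s ^ n) ((δ : Matrix (Fin 2) (Fin 2) R) i j) := by
  induction n with
  | zero => simp
  | succ n ih =>
    rw [Function.iterate_succ_apply', pow_succ', RingAut.mul_apply, ← ih]
    simp [glAut, Matrix.GeneralLinearGroup.map_apply]

theorem glAut_apply981 {R : Type} [CommRing R] (s : R ≃+* R)
    (δ : GL (Fin 2) R) (i j : Fin 2) :
    ((glAut s δ : GL (Fin 2) R) : Matrix (Fin 2) (Fin 2) R) i j
      = s ((δ : Matrix (Fin 2) (Fin 2) R) i j) := by
  simp [glAut, Matrix.GeneralLinearGroup.map_apply]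

/-- The companion-type matrix `!![0, -D; 1, T]` over `K`. -/
def compan981 {K : Type} [Field K] (T D : K) (hD : D ≠ 0) : GL (Fin 2) K :=
  Matrix.GeneralLinearGroup.mkOfDetNeZero !![0, -D; 1, T] (by
    rw [Matrix.det_fin_two]; simpa using hD)

theorem compan_apply981 {K : Type} [Field K] (T D : K) (hD : D ≠ 0) :
    ((compan981 T D hD : GL (Fin 2) K) : Matrix (Fin 2) (Fin 2) K) = !![0, -D; 1, T] := rfl

/-- Conjugacy from an intertwining relation `N * P = P * C` in a group. -/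
theorem isConj_of_mul_eq981 {G : Type} [Group G] {N P C : G} (h : N * P = P * C) :
    IsConj N C := by
  rw [isConj_iff]
  refine ⟨P⁻¹, ?_⟩
  rw [inv_inv, mul_assoc, h, inv_mul_cancel_left]

/-- Key linear algebra: a `2 × 2` matrix `N` over a field `K'` whose trace and determinant are
the images of `T`, `D ∈ K` (`D ≠ 0`) and which is NOT of the form `b = c = 0`, `a = d`, is
conjugate to the image of the companion matrix. -/
theorem isConj_compan981 {K K' : Type} [Field K] [Field K'] (i : K →+* K')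
    (N : GL (Fin 2) K') (T D : K) (hD : D ≠ 0)
    (hT : i T = (N : Matrix (Fin 2) (Fin 2) K') 0 0 + (N : Matrix (Fin 2) (Fin 2) K') 1 1)
    (hDet : i D = (N : Matrix (Fin 2) (Fin 2) K') 0 0 * (N : Matrix (Fin 2) (Fin 2) K') 1 1
      - (N : Matrix (Fin 2) (Fin 2) K') 0 1 * (N : Matrix (Fin 2) (Fin 2) K') 1 0)
    (hns : ¬ ((N : Matrix (Fin 2) (Fin 2) K') 0 1 = 0 ∧ (N : Matrix (Fin 2) (Fin 2) K') 1 0 = 0 ∧
      (N : Matrix (Fin 2) (Fin 2) K') 0 0 = (N : Matrix (Fin 2) (Fin 2) K') 1 1)) :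
    IsConj N (Matrix.GeneralLinearGroup.map i (compan981 T D hD)) := by
  set a := (N : Matrix (Fin 2) (Fin 2) K') 0 0 with ha
  set b := (N : Matrix (Fin 2) (Fin 2) K') 0 1 with hb
  set c := (N : Matrix (Fin 2) (Fin 2) K') 1 0 with hc
  set d := (N : Matrix (Fin 2) (Fin 2) K') 1 1 with hd
  have hNeta : (N : Matrix (Fin 2) (Fin 2) K') = !![a, b; c, d] := Matrix.eta_fin_two _
  have hC : ((Matrix.GeneralLinearGroup.map i (compan981 T D hD) : GL (Fin 2) K') :
      Matrix (Fin 2) (Fin 2) K') = !![0, -(a * d - b * c); 1, a + d] := by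
    ext r k
    rw [Matrix.GeneralLinearGroup.map_apply, compan_apply981]
    fin_cases r <;> fin_cases k <;> simp [hT, hDet]
  -- a general intertwiner `P = [v | N v]`, `v = (x, y)`
  have key : ∀ (x y : K'), c * x ^ 2 + (d - a) * x * y - b * y ^ 2 ≠ 0 →
      IsConj N (Matrix.GeneralLinearGroup.map i (compan981 T D hD)) := by
    intro x y hxy
    have hdet : (!![x, a * x + b * y; y, c * x + d * y] : Matrix (Fin 2) (Fin 2) K').det ≠ 0 := by
      rw [Matrix.det_fin_two]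
      simp only [Matrix.of_apply, Matrix.cons_val', Matrix.cons_val_zero, Matrix.cons_val_one,
        Matrix.cons_val_fin_one]
      intro h0
      apply hxy
      linear_combination h0
    let P : GL (Fin 2) K' := Matrix.GeneralLinearGroup.mkOfDetNeZero _ hdet
    have hP : (P : Matrix (Fin 2) (Fin 2) K') = !![x, a * x + b * y; y, c * x + d * y] := rfl
    apply isConj_of_mul_eq981 (P := P)
    apply Matrix.GeneralLinearGroup.ext
    intro r k
    rw [Matrix.GeneralLinearGroup.coe_mul, Matrix.GeneralLinearGroup.coe_mul, hC, hP, hNeta]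
    fin_cases r <;> fin_cases k <;>
      simp [Matrix.mul_apply, Fin.sum_univ_two] <;> ring
  by_cases hc0 : c = 0
  · by_cases hb0 : b = 0
    · have had : a ≠ d := fun h => hns ⟨hb0, hc0, h⟩
      apply key 1 1
      rw [hc0, hb0]
      simpa [sub_eq_zero] using fun h : d = a => had h.symm
    · apply key 0 1
      simpa using hb0
  · apply key 1 0
    simpa using hc0

/-- **T6.04 `NormClassC`** (Langlands, Lemma 4.1), VERBATIM. -/
theorem normClassC_h981 : NormClassC := by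
  intro K K' _ _ l i s hcyc δ
  -- `σ (N δ) = δ⁻¹ (N δ) δ`
  have hiter : ((glAut s)^[l]) δ = δ := by
    apply Matrix.GeneralLinearGroup.ext
    intro r k
    rw [glAut_iterate_apply981]
    exact hcyc.order _
  have hσ : glAut s (twNorm s l δ) = δ⁻¹ * twNorm s l δ * δ :=
    map_twN_eq_conj981 (glAut s) l δ hiter
  set N : GL (Fin 2) K' := twNorm s l δ with hN
  set a := (N : Matrix (Fin 2) (Fin 2) K') 0 0 with ha
  set b := (N : Matrix (Fin 2) (Fin 2) K') 0 1 with hb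
  set c := (N : Matrix (Fin 2) (Fin 2) K') 1 0 with hc
  set d := (N : Matrix (Fin 2) (Fin 2) K') 1 1 with hd
  have hσM : ((glAut s N : GL (Fin 2) K') : Matrix (Fin 2) (Fin 2) K')
      = ((δ⁻¹ : GL (Fin 2) K') : Matrix (Fin 2) (Fin 2) K') * (N : Matrix (Fin 2) (Fin 2) K')
        * (δ : Matrix (Fin 2) (Fin 2) K') := by
    rw [hσ, Matrix.GeneralLinearGroup.coe_mul, Matrix.GeneralLinearGroup.coe_mul]
  have hδ : (δ : Matrix (Fin 2) (Fin 2) K') * ((δ⁻¹ : GL (Fin 2) K') : Matrix (Fin 2) (Fin 2) K')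
      = 1 := by
    rw [← Matrix.GeneralLinearGroup.coe_mul, mul_inv_cancel]; rfl
  -- the trace is fixed
  have htr : s (a + d) = a + d := by
    have h1 : ((glAut s N : GL (Fin 2) K') : Matrix (Fin 2) (Fin 2) K').trace = s (a + d) := by
      rw [Matrix.trace_fin_two, glAut_apply981, glAut_apply981, map_add]
    have h2 : ((glAut s N : GL (Fin 2) K') : Matrix (Fin 2) (Fin 2) K').trace = a + d := by
      rw [hσM, Matrix.trace_mul_comm, ← Matrix.mul_assoc, hδ, Matrix.one_mul,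
        Matrix.trace_fin_two]
    rw [← h1, h2]
  -- the determinant is fixed
  have hdt : s (a * d - b * c) = a * d - b * c := by
    have h1 : ((glAut s N : GL (Fin 2) K') : Matrix (Fin 2) (Fin 2) K').det
        = s (a * d - b * c) := by
      rw [Matrix.det_fin_two, glAut_apply981, glAut_apply981, glAut_apply981, glAut_apply981,
        map_sub, map_mul, map_mul]
    have h2 : ((glAut s N : GL (Fin 2) K') : Matrix (Fin 2) (Fin 2) K').det
        = a * d - b * c := by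
      rw [hσM, Matrix.det_mul, Matrix.det_mul, mul_comm, ← mul_assoc, ← Matrix.det_mul, hδ,
        Matrix.det_one, one_mul, Matrix.det_fin_two]
    rw [← h1, h2]
  obtain ⟨T, hT⟩ := hcyc.fixed _ htr
  obtain ⟨D, hD⟩ := hcyc.fixed _ hdt
  have hdetne : a * d - b * c ≠ 0 := by
    have h := Matrix.GeneralLinearGroup.det_ne_zero N
    rwa [Matrix.det_fin_two] at h
  have hD0 : D ≠ 0 := by
    rintro rfl
    rw [map_zero] at hD
    exact hdetne hD.symm
  by_cases hsc : b = 0 ∧ c = 0 ∧ a = d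
  · -- the scalar case: `σ a = a`
    obtain ⟨hb0, hc0, had⟩ := hsc
    have hNeta : (N : Matrix (Fin 2) (Fin 2) K') = !![a, 0; 0, a] := by
      have h := Matrix.eta_fin_two (N : Matrix (Fin 2) (Fin 2) K')
      rw [← ha, ← hb, ← hc, ← hd, hb0, hc0, ← had] at h
      exact h
    have hcomm : (N : Matrix (Fin 2) (Fin 2) K') * (δ : Matrix (Fin 2) (Fin 2) K')
        = (δ : Matrix (Fin 2) (Fin 2) K') * (N : Matrix (Fin 2) (Fin 2) K') := by
      rw [hNeta]
      ext r k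
      fin_cases r <;> fin_cases k <;> simp [Matrix.mul_apply, Fin.sum_univ_two, mul_comm]
    have hsa : s a = a := by
      have h1 : ((glAut s N : GL (Fin 2) K') : Matrix (Fin 2) (Fin 2) K') 0 0 = s a :=
        glAut_apply981 s N 0 0
      have h2 : ((glAut s N : GL (Fin 2) K') : Matrix (Fin 2) (Fin 2) K')
          = (N : Matrix (Fin 2) (Fin 2) K') := by
        have hδ' : ((δ⁻¹ : GL (Fin 2) K') : Matrix (Fin 2) (Fin 2) K')
            * (δ : Matrix (Fin 2) (Fin 2) K') = 1 := by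
          rw [← Matrix.GeneralLinearGroup.coe_mul, inv_mul_cancel]; rfl
        rw [hσM, Matrix.mul_assoc, hcomm, ← Matrix.mul_assoc, hδ', Matrix.one_mul]
      rw [← h1, h2]
    obtain ⟨A, hA⟩ := hcyc.fixed _ hsa
    have ha0 : a ≠ 0 := by
      intro h0
      apply hdetne
      rw [hb0, ← had, h0]; ring
    have hA0 : A ≠ 0 := by
      rintro rfl
      rw [map_zero] at hA
      exact ha0 hA.symm
    have hdet : (!![A, 0; 0, A] : Matrix (Fin 2) (Fin 2) K).det ≠ 0 := by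
      rw [Matrix.det_fin_two]
      simpa using hA0
    refine ⟨Matrix.GeneralLinearGroup.mkOfDetNeZero _ hdet, ?_⟩
    have heq : N = Matrix.GeneralLinearGroup.map i
        (Matrix.GeneralLinearGroup.mkOfDetNeZero _ hdet) := by
      apply Matrix.GeneralLinearGroup.ext
      intro r k
      rw [Matrix.GeneralLinearGroup.map_apply, hNeta]
      have hM : ((Matrix.GeneralLinearGroup.mkOfDetNeZero _ hdet : GL (Fin 2) K) :
          Matrix (Fin 2) (Fin 2) K) = !![A, 0; 0, A] := rfl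
      rw [hM]
      fin_cases r <;> fin_cases k <;> simp [hA]
    rw [← heq]
  · -- the non-scalar case: companion matrix
    refine ⟨compan981 T D hD0, ?_⟩
    exact isConj_compan981 i N T D hD0 hT hD hsc

end Fermat.Agent.LT.T6.H981

end

end
-- ===== PACK-END LT/T6/H981/NormClass.lean

-- ===== PACK-BEGIN LT/T7/H362/AbelSeries.lean
section



/-!
# Row LT, tower T7, leaf T7.14.2 (`AbelC`), part 2: the smoothed sums -- helper362

OFF-MAIN.  Mathlib only.  `ι` a countable index set, `N : ι → ℝ`, `c : ι → ℂ` with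
`c i = 0 ∨ 1 ≤ N i`, `∑ ‖c i‖ N i ^ (-s) < ∞` for `s > 1`, `G` a weight.  With
`S(Y) = ∑ c i G(Y N i)`:

* `summable_scale362`    : the series `S(Y)` converges absolutely for `Y > 0`;
* `norm_tsum_scale_le362`: `‖S(Y)‖ ≤ C₁ Y^{-(1+η)}` for `Y ≥ Y₀`;
* `aesm_sum362`          : `S` is a.e. strongly measurable on `(0, ∞)`;
* `hasSum_mellin362`     : `∑ c i N i ^ (-s) · M(s) = ∫₀^∞ S(Y) Y^{s-1} dY` (Tonelli).
-/

set_option autoImplicit false

open MeasureTheory Filter Topology Set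

noncomputable section

namespace Fermat.Agent.LT.T7.H362

variable {G : ℝ → ℝ} {C η : ℝ}

/-- `G (Y n) ≤ (C + G Y) Y^{-(1+η)} n^{-(1+η)}` for `Y > 0`, `n ≥ 1`. -/
theorem Wt362.scale_bound (h : Wt362 G C η) {Y n : ℝ} (hY : 0 < Y) (hn : 1 ≤ n) :
    G (Y * n) ≤ (C + G Y) * Y ^ (-(1 + η)) * n ^ (-(1 + η)) := by
  have hn0 : 0 < n := lt_of_lt_of_le one_pos hn
  have hYn : 0 < Y * n := mul_pos hY hn0
  have hGY := h.nonneg Y hY
  have hC := h.C_nonneg
  have hpow : (Y * n) ^ (-(1 + η)) = Y ^ (-(1 + η)) * n ^ (-(1 + η)) :=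
    Real.mul_rpow hY.le hn0.le
  have hpos : 0 ≤ (Y * n) ^ (-(1 + η)) := Real.rpow_nonneg hYn.le _
  rw [mul_assoc, ← hpow]
  rcases le_or_gt 1 (Y * n) with h1 | h1
  · calc G (Y * n) ≤ C * (Y * n) ^ (-(1 + η)) := h.decay _ h1
      _ ≤ (C + G Y) * (Y * n) ^ (-(1 + η)) :=
          mul_le_mul_of_nonneg_right (by linarith) hpos
  · have hle : Y ≤ Y * n := by nlinarith
    have h2 : G (Y * n) ≤ G Y := h.anti hY hYn hle
    have h3 : 1 ≤ (Y * n) ^ (-(1 + η)) :=
      Real.one_le_rpow_of_pos_of_le_one_of_nonpos hYn h1.le (by linarith [h.eta_pos])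
    calc G (Y * n) ≤ G Y := h2
      _ ≤ (C + G Y) * 1 := by linarith
      _ ≤ (C + G Y) * (Y * n) ^ (-(1 + η)) :=
          mul_le_mul_of_nonneg_left h3 (by linarith)

section Series

variable {ι : Type*} {N : ι → ℝ} {c : ι → ℂ}

theorem term_nonneg362 (h : Wt362 G C η) (hcN : ∀ i, c i = 0 ∨ 1 ≤ N i) {Y : ℝ} (hY : 0 < Y)
    (i : ι) : 0 ≤ ‖c i‖ * G (Y * N i) := by
  rcases hcN i with hc | hn
  · simp [hc]
  · exact mul_nonneg (norm_nonneg _) (h.nonneg _ (mul_pos hY (lt_of_lt_of_le one_pos hn)))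

theorem term_le362 (h : Wt362 G C η) (hcN : ∀ i, c i = 0 ∨ 1 ≤ N i) {Y : ℝ} (hY : 0 < Y)
    (i : ι) : ‖c i‖ * G (Y * N i)
      ≤ (C + G Y) * Y ^ (-(1 + η)) * (‖c i‖ * N i ^ (-(1 + η))) := by
  rcases hcN i with hc | hn
  · simp [hc]
  · calc ‖c i‖ * G (Y * N i)
        ≤ ‖c i‖ * ((C + G Y) * Y ^ (-(1 + η)) * N i ^ (-(1 + η))) :=
          mul_le_mul_of_nonneg_left (h.scale_bound hY hn) (norm_nonneg _)
      _ = (C + G Y) * Y ^ (-(1 + η)) * (‖c i‖ * N i ^ (-(1 + η))) := by ring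

/-- The smoothed sum converges absolutely. -/
theorem summable_scale362 (h : Wt362 G C η) (hcN : ∀ i, c i = 0 ∨ 1 ≤ N i)
    (hsum : ∀ s : ℝ, 1 < s → Summable fun i => ‖c i‖ * N i ^ (-s)) {Y : ℝ} (hY : 0 < Y) :
    Summable fun i => ‖c i‖ * G (Y * N i) :=
  Summable.of_nonneg_of_le (term_nonneg362 h hcN hY) (term_le362 h hcN hY)
    ((hsum (1 + η) (by linarith [h.eta_pos])).mul_left _)

theorem norm_term362 (h : Wt362 G C η) (hcN : ∀ i, c i = 0 ∨ 1 ≤ N i) {Y : ℝ} (hY : 0 < Y)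
    (i : ι) : ‖c i * ((G (Y * N i) : ℝ) : ℂ)‖ = ‖c i‖ * G (Y * N i) := by
  rcases hcN i with hc | hn
  · simp [hc]
  · rw [norm_mul, Complex.norm_real,
      Real.norm_of_nonneg (h.nonneg _ (mul_pos hY (lt_of_lt_of_le one_pos hn)))]

theorem summable_scale_cplx362 (h : Wt362 G C η) (hcN : ∀ i, c i = 0 ∨ 1 ≤ N i)
    (hsum : ∀ s : ℝ, 1 < s → Summable fun i => ‖c i‖ * N i ^ (-s)) {Y : ℝ} (hY : 0 < Y) :
    Summable fun i => c i * ((G (Y * N i) : ℝ) : ℂ) := by
  refine Summable.of_norm ?_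
  simp only [norm_term362 h hcN hY]
  exact summable_scale362 h hcN hsum hY

/-- `‖S(Y)‖ ≤ (C + G Y₀) A Y^{-(1+η)}` for `Y ≥ Y₀ > 0`, `A = ∑ ‖c i‖ N i ^ (-(1+η))`. -/
theorem norm_tsum_scale_le362 (h : Wt362 G C η) (hcN : ∀ i, c i = 0 ∨ 1 ≤ N i)
    (hsum : ∀ s : ℝ, 1 < s → Summable fun i => ‖c i‖ * N i ^ (-s)) {Y₀ Y : ℝ} (hY₀ : 0 < Y₀)
    (hY : Y₀ ≤ Y) :
    ‖∑' i, c i * ((G (Y * N i) : ℝ) : ℂ)‖
      ≤ (C + G Y₀) * (∑' i, ‖c i‖ * N i ^ (-(1 + η))) * Y ^ (-(1 + η)) := by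
  have hY0 : 0 < Y := lt_of_lt_of_le hY₀ hY
  have hs := hsum (1 + η) (by linarith [h.eta_pos])
  have hA : 0 ≤ ∑' i, ‖c i‖ * N i ^ (-(1 + η)) := by
    refine tsum_nonneg fun i => ?_
    rcases hcN i with hc | hn
    · simp [hc]
    · exact mul_nonneg (norm_nonneg _) (Real.rpow_nonneg (by linarith) _)
  have h1 : ‖∑' i, c i * ((G (Y * N i) : ℝ) : ℂ)‖ ≤ ∑' i, ‖c i‖ * G (Y * N i) := by
    have := norm_tsum_le_tsum_norm (f := fun i => c i * ((G (Y * N i) : ℝ) : ℂ))
      (by simp only [norm_term362 h hcN hY0]; exact summable_scale362 h hcN hsum hY0)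
    simpa only [norm_term362 h hcN hY0] using this
  have h2 : ∑' i, ‖c i‖ * G (Y * N i)
      ≤ ∑' i, (C + G Y) * Y ^ (-(1 + η)) * (‖c i‖ * N i ^ (-(1 + η))) :=
    (summable_scale362 h hcN hsum hY0).tsum_le_tsum (term_le362 h hcN hY0) (hs.mul_left _)
  rw [tsum_mul_left] at h2
  have h3 : G Y ≤ G Y₀ := h.anti hY₀ hY0 hY
  have h4 : 0 ≤ Y ^ (-(1 + η)) := Real.rpow_nonneg hY0.le _
  calc ‖∑' i, c i * ((G (Y * N i) : ℝ) : ℂ)‖
      ≤ (C + G Y) * Y ^ (-(1 + η)) * ∑' i, ‖c i‖ * N i ^ (-(1 + η)) := h1.trans h2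
    _ ≤ (C + G Y₀) * Y ^ (-(1 + η)) * ∑' i, ‖c i‖ * N i ^ (-(1 + η)) := by
        refine mul_le_mul_of_nonneg_right (mul_le_mul_of_nonneg_right (by linarith) h4) hA
    _ = (C + G Y₀) * (∑' i, ‖c i‖ * N i ^ (-(1 + η))) * Y ^ (-(1 + η)) := by ring

/-- Each term `Y ↦ G (Y n)`, `n > 0`, is a.e. strongly measurable on `(0, ∞)`. -/
theorem Wt362.aesm_scale (h : Wt362 G C η) {n : ℝ} (hn : 0 < n) :
    AEStronglyMeasurable (fun Y : ℝ => G (Y * n)) (volume.restrict (Ioi 0)) := by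
  refine (aemeasurable_restrict_of_antitoneOn measurableSet_Ioi ?_).aestronglyMeasurable
  intro Y hY Y' hY' hle
  exact h.anti (mul_pos hY hn) (mul_pos hY' hn) (mul_le_mul_of_nonneg_right hle hn.le)

theorem aesm_term362 (h : Wt362 G C η) (hcN : ∀ i, c i = 0 ∨ 1 ≤ N i) (i : ι) :
    AEStronglyMeasurable (fun Y : ℝ => c i * ((G (Y * N i) : ℝ) : ℂ))
      (volume.restrict (Ioi 0)) := by
  rcases hcN i with hc | hn
  · simp only [hc, zero_mul]
    exact aestronglyMeasurable_const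
  · exact (Complex.continuous_ofReal.comp_aestronglyMeasurable
      (h.aesm_scale (lt_of_lt_of_le one_pos hn))).const_mul (c i)

/-- The smoothed sum is a.e. strongly measurable on `(0, ∞)`. -/
theorem aesm_sum362 [Countable ι] (h : Wt362 G C η) (hcN : ∀ i, c i = 0 ∨ 1 ≤ N i)
    (hsum : ∀ s : ℝ, 1 < s → Summable fun i => ‖c i‖ * N i ^ (-s)) :
    AEStronglyMeasurable (fun Y : ℝ => ∑' i, c i * ((G (Y * N i) : ℝ) : ℂ))
      (volume.restrict (Ioi 0)) := by
  refine aestronglyMeasurable_of_tendsto_ae (atTop : Filter (Finset ι))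
    (f := fun (t : Finset ι) (Y : ℝ) => ∑ i ∈ t, c i * ((G (Y * N i) : ℝ) : ℂ)) ?_ ?_
  · intro t
    exact Finset.aestronglyMeasurable_fun_sum t fun i _ => aesm_term362 h hcN i
  · refine (ae_restrict_iff' measurableSet_Ioi).mpr (Eventually.of_forall fun Y hY => ?_)
    exact (summable_scale_cplx362 h hcN hsum hY).hasSum

/-- The scaled Mellin integrals: for `n > 0`, `∫₀^∞ G (Y n) Y^{s-1} dY = n^{-s} M(s)`. -/
theorem Wt362.mellin_scale (h : Wt362 G C η) {s : ℝ} (hs1 : 1 ≤ s) (hs2 : s < 1 + η) {n : ℝ}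
    (hn : 0 < n) :
    IntegrableOn (fun Y : ℝ => G (Y * n) * Y ^ (s - 1)) (Ioi 0) ∧
      ∫ Y in Ioi 0, G (Y * n) * Y ^ (s - 1) = n ^ (-s) * ∫ T in Ioi 0, G T * T ^ (s - 1) := by
  have hM := h.mellin_int hs1 hs2
  have hint : IntegrableOn (fun Y : ℝ => (fun T : ℝ => G T * T ^ (s - 1)) (Y * n)) (Ioi 0) :=
    (integrableOn_Ioi_comp_mul_right_iff (fun T : ℝ => G T * T ^ (s - 1)) 0 hn).mpr
      (by simpa using hM)
  have hcv : ∫ Y in Ioi 0, (fun T : ℝ => G T * T ^ (s - 1)) (Y * n)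
      = n⁻¹ • ∫ T in Ioi (0 * n), G T * T ^ (s - 1) :=
    integral_comp_mul_right_Ioi (fun T : ℝ => G T * T ^ (s - 1)) 0 hn
  have heq : ∀ Y ∈ Ioi (0 : ℝ), n ^ (1 - s) * (fun T : ℝ => G T * T ^ (s - 1)) (Y * n)
      = G (Y * n) * Y ^ (s - 1) := by
    intro Y hY
    have hY0 : (0 : ℝ) < Y := hY
    have h1 : (Y * n) ^ (s - 1) = Y ^ (s - 1) * n ^ (s - 1) := Real.mul_rpow hY0.le hn.le
    have h2 : n ^ (1 - s) * n ^ (s - 1) = 1 := by
      rw [← Real.rpow_add hn]
      simp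
    simp only [h1]
    calc n ^ (1 - s) * (G (Y * n) * (Y ^ (s - 1) * n ^ (s - 1)))
        = G (Y * n) * Y ^ (s - 1) * (n ^ (1 - s) * n ^ (s - 1)) := by ring
      _ = G (Y * n) * Y ^ (s - 1) := by rw [h2, mul_one]
  refine ⟨IntegrableOn.congr_fun (Integrable.const_mul hint (n ^ (1 - s))) heq
    measurableSet_Ioi, ?_⟩
  rw [← setIntegral_congr_fun measurableSet_Ioi heq, integral_const_mul, hcv, zero_mul,
    smul_eq_mul, ← mul_assoc]
  congr 1
  rw [show -s = (1 - s) - 1 by ring, Real.rpow_sub_one hn.ne', div_eq_mul_inv]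

/-- **Tonelli.**  `∑ c i N i ^ (-s) · M(s) = ∫₀^∞ S(Y) Y^{s-1} dY` for `1 < s < 1 + η`. -/
theorem hasSum_mellin362 [Countable ι] (h : Wt362 G C η) (hcN : ∀ i, c i = 0 ∨ 1 ≤ N i)
    (hsum : ∀ s : ℝ, 1 < s → Summable fun i => ‖c i‖ * N i ^ (-s)) {s : ℝ} (hs1 : 1 < s)
    (hs2 : s < 1 + η) :
    HasSum (fun i => c i * ((N i ^ (-s) : ℝ) : ℂ)
        * ((∫ T in Ioi 0, G T * T ^ (s - 1) : ℝ) : ℂ))
      (∫ Y in Ioi 0, (∑' i, c i * ((G (Y * N i) : ℝ) : ℂ)) * ((Y ^ (s - 1) : ℝ) : ℂ)) := by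
  have hterm : ∀ i, (fun Y : ℝ => c i * ((G (Y * N i) : ℝ) : ℂ) * ((Y ^ (s - 1) : ℝ) : ℂ))
      = fun Y : ℝ => c i * ((G (Y * N i) * Y ^ (s - 1) : ℝ) : ℂ) := by
    intro i
    funext Y
    rw [Complex.ofReal_mul, mul_assoc]
  have hF_int : ∀ i, Integrable
      (fun Y : ℝ => c i * ((G (Y * N i) : ℝ) : ℂ) * ((Y ^ (s - 1) : ℝ) : ℂ))
      (volume.restrict (Ioi 0)) := by
    intro i
    rw [hterm i]
    rcases hcN i with hc | hn
    · simp only [hc, zero_mul]
      exact integrable_zero _ _ _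
    · exact ((h.mellin_scale hs1.le hs2 (lt_of_lt_of_le one_pos hn)).1.ofReal).const_mul (c i)
  have hnorm : ∀ i, ∫ Y in Ioi 0,
      ‖c i * ((G (Y * N i) : ℝ) : ℂ) * ((Y ^ (s - 1) : ℝ) : ℂ)‖
      = ‖c i‖ * N i ^ (-s) * ∫ T in Ioi 0, G T * T ^ (s - 1) := by
    intro i
    rcases hcN i with hc | hn
    · simp [hc]
    · have hn0 : 0 < N i := lt_of_lt_of_le one_pos hn
      have h1 : ∀ Y ∈ Ioi (0 : ℝ),
          ‖c i * ((G (Y * N i) : ℝ) : ℂ) * ((Y ^ (s - 1) : ℝ) : ℂ)‖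
            = ‖c i‖ * (G (Y * N i) * Y ^ (s - 1)) := by
        intro Y hY
        have hY0 : (0 : ℝ) < Y := hY
        rw [norm_mul, norm_mul, Complex.norm_real, Complex.norm_real,
          Real.norm_of_nonneg (h.nonneg _ (mul_pos hY0 hn0)),
          Real.norm_of_nonneg (Real.rpow_nonneg hY0.le _), mul_assoc]
      rw [setIntegral_congr_fun measurableSet_Ioi h1, integral_const_mul,
        (h.mellin_scale hs1.le hs2 hn0).2, mul_assoc]
  have hF_sum : Summable fun i => ∫ Y in Ioi 0,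
      ‖c i * ((G (Y * N i) : ℝ) : ℂ) * ((Y ^ (s - 1) : ℝ) : ℂ)‖ := by
    simp only [hnorm]
    exact (hsum s hs1).mul_right _
  have key := hasSum_integral_of_summable_integral_norm hF_int hF_sum
  have hval : ∀ i, ∫ Y in Ioi 0, c i * ((G (Y * N i) : ℝ) : ℂ) * ((Y ^ (s - 1) : ℝ) : ℂ)
      = c i * ((N i ^ (-s) : ℝ) : ℂ) * ((∫ T in Ioi 0, G T * T ^ (s - 1) : ℝ) : ℂ) := by
    intro i
    rw [hterm i]
    rcases hcN i with hc | hn
    · simp [hc]
    · have hn0 : 0 < N i := lt_of_lt_of_le one_pos hn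
      rw [integral_const_mul, integral_complex_ofReal, (h.mellin_scale hs1.le hs2 hn0).2,
        Complex.ofReal_mul, mul_assoc]
  simp only [hval] at key
  simpa only [tsum_mul_right] using key

end Series

end Fermat.Agent.LT.T7.H362

end
end
-- ===== PACK-END LT/T7/H362/AbelSeries.lean

-- ===== PACK-BEGIN LT/T8/H47/Horo.lean
section




/-!
# Row LT, tower T8, leaf MS4a (helper47), OFF-MAIN: the classical horocycle calculus

The CLASSICAL half of the mean square bound `MS556` of helper19 (tower T8, `PAR556`).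
Mathlib + `LT/H51/MS1.lean` (helper51) only; no adeles.

`HoroData47 M a b U C` is what the adelic side has to provide for a bounded continuous function
`φ` on `GL₂(ℚ) \ GL₂(𝔸_ℚ)`, Hecke eigen at the primes `p ∤ M`:

* `U κ x y = φ (n(x)_∞ a(y)_∞ d(κ) g₀)` (`y > 0`), `κ ∈ (ℤ/M)ˣ` the class of the torus twist
  `d(κ) = diag(t, 1)`, `t ∈ ∏ ℤ_q^×`;
* continuity (separately in `x` and `y`), the bound `‖U‖ ≤ C`, the period `M` in `x`;
* the Hecke identity on the horocycles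

    `∑_{j < p} U (κ p) ((x + j M) / p) (y / p) + b p · U (κ p⁻¹) (p x) (p y) = √p · a p · U κ x y`.

`HoroData47.exists_coeffData`: if some `U κ · y` is not constant, then the Fourier coefficients of
one of the `χ`-isotypic sums `∑_κ χ(κ)⁻¹ U κ` (positive or negative frequencies) form a
`H51.CoeffData` with a non-vanishing coefficient function; `HoroData47.msBound` is the resulting
mean square bound `∑_{n ≤ x} ‖depleted M a n‖² ≤ C' x` (MS1 of helper51).
-/

set_option autoImplicit false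

open MeasureTheory Real

noncomputable section

namespace Fermat.Agent.LT.T8.H47

open Fermat.Agent.LT.H51

/-- The unit of `ZMod M` of a natural number prime to `M` (junk value `1` otherwise). -/
def unitOf47 (M n : ℕ) : (ZMod M)ˣ :=
  if h : Nat.Coprime n M then ZMod.unitOfCoprime n h else 1

theorem unitOf47_coe {M n : ℕ} (h : Nat.Coprime n M) :
    ((unitOf47 M n : (ZMod M)ˣ) : ZMod M) = (n : ZMod M) := by
  unfold unitOf47
  rw [dif_pos h, ZMod.coe_unitOfCoprime]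

/-- The classical data on the horocycles. -/
structure HoroData47 (M : ℕ) (a b : ℕ → ℂ) (U : (ZMod M)ˣ → ℝ → ℝ → ℂ) (C : ℝ) : Prop where
  a_one : a 1 = 1
  hecke_a : ∀ p : ℕ, p.Prime → ¬ p ∣ M → ∀ n : ℕ,
    a (p * n) + b p * (if p ∣ n then a (n / p) else 0) = a p * a n
  cont_x : ∀ (κ : (ZMod M)ˣ) (y : ℝ), 0 < y → Continuous fun x => U κ x y
  cont_y : ∀ (κ : (ZMod M)ˣ) (x : ℝ), ContinuousOn (fun y => U κ x y) (Set.Ioi 0)
  bdd : ∀ (κ : (ZMod M)ˣ) (x y : ℝ), 0 < y → ‖U κ x y‖ ≤ C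
  per : ∀ (κ : (ZMod M)ˣ) (x y : ℝ), 0 < y → U κ (x + M) y = U κ x y
  hecke : ∀ p : ℕ, p.Prime → ¬ p ∣ M → ∀ (κ : (ZMod M)ˣ) (x y : ℝ), 0 < y →
    ∑ j ∈ Finset.range p, U (κ * unitOf47 M p) ((x + j * M) / p) (y / p)
        + b p * U (κ * (unitOf47 M p)⁻¹) (p * x) (p * y)
      = ((Real.sqrt p : ℝ) : ℂ) * a p * U κ x y

section

variable {M : ℕ} [NeZero M]

/-- The `χ`-isotypic sum `∑_κ χ(κ)⁻¹ U κ`. -/
def iso47 (χ : DirichletCharacter ℂ M) (U : (ZMod M)ˣ → ℝ → ℝ → ℂ) (x y : ℝ) : ℂ :=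
  ∑ κ : (ZMod M)ˣ, χ ((κ⁻¹ : (ZMod M)ˣ) : ZMod M) * U κ x y

theorem sum_twist47 (χ : DirichletCharacter ℂ M) (V : (ZMod M)ˣ → ℂ) (u : (ZMod M)ˣ) :
    ∑ κ : (ZMod M)ˣ, χ ((κ⁻¹ : (ZMod M)ˣ) : ZMod M) * V (κ * u)
      = χ (u : ZMod M) * ∑ κ : (ZMod M)ˣ, χ ((κ⁻¹ : (ZMod M)ˣ) : ZMod M) * V κ := by
  rw [Finset.mul_sum]
  refine Fintype.sum_equiv (Equiv.mulRight u) _ _ fun κ => ?_
  simp only [Equiv.coe_mulRight]
  have : ((κ⁻¹ : (ZMod M)ˣ) : ZMod M)
      = (u : ZMod M) * (((κ * u)⁻¹ : (ZMod M)ˣ) : ZMod M) := by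
    rw [← Units.val_mul]
    congr 1
    group
  rw [this, map_mul]
  ring

theorem norm_iso47_le (χ : DirichletCharacter ℂ M) {U : (ZMod M)ˣ → ℝ → ℝ → ℂ} {C : ℝ}
    {x y : ℝ} (h : ∀ κ : (ZMod M)ˣ, ‖U κ x y‖ ≤ C) :
    ‖iso47 χ U x y‖ ≤ Fintype.card (ZMod M)ˣ * C := by
  unfold iso47
  refine (norm_sum_le _ _).trans ?_
  have : ∀ κ ∈ (Finset.univ : Finset (ZMod M)ˣ),
      ‖χ ((κ⁻¹ : (ZMod M)ˣ) : ZMod M) * U κ x y‖ ≤ C := by
    intro κ _
    rw [norm_mul, DirichletCharacter.unit_norm_eq_one, one_mul]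
    exact h κ
  refine (Finset.sum_le_sum this).trans ?_
  rw [Finset.sum_const, Finset.card_univ, nsmul_eq_mul]

/-- Orthogonality: the isotypic sums recover `U κ₀`. -/
theorem sum_iso47 (U : (ZMod M)ˣ → ℝ → ℝ → ℂ) (κ₀ : (ZMod M)ˣ) (x y : ℝ) :
    ∑ χ : DirichletCharacter ℂ M, χ (κ₀ : ZMod M) * iso47 χ U x y
      = (M.totient : ℂ) * U κ₀ x y := by
  unfold iso47
  simp_rw [Finset.mul_sum]
  rw [Finset.sum_comm]
  have key : ∀ κ : (ZMod M)ˣ,
      ∑ χ : DirichletCharacter ℂ M,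
          χ (κ₀ : ZMod M) * (χ ((κ⁻¹ : (ZMod M)ˣ) : ZMod M) * U κ x y)
        = if κ = κ₀ then (M.totient : ℂ) * U κ₀ x y else 0 := by
    intro κ
    have h1 := DirichletCharacter.sum_char_inv_mul_char_eq ℂ (n := M) (a := (κ : ZMod M))
      κ.isUnit (κ₀ : ZMod M)
    have h2 : ∀ χ : DirichletCharacter ℂ M,
        χ (κ₀ : ZMod M) * (χ ((κ⁻¹ : (ZMod M)ˣ) : ZMod M) * U κ x y)
          = (χ (κ : ZMod M)⁻¹ * χ (κ₀ : ZMod M)) * U κ x y := by
      intro χ
      have : ((κ⁻¹ : (ZMod M)ˣ) : ZMod M) = (κ : ZMod M)⁻¹ := by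
        rw [ZMod.inv_coe_unit]
      rw [this]
      ring
    simp_rw [h2]
    rw [← Finset.sum_mul, h1]
    by_cases hκ : κ = κ₀
    · subst hκ
      simp
    · have : (κ : ZMod M) ≠ (κ₀ : ZMod M) := fun h => hκ (Units.ext h)
      rw [if_neg this, if_neg hκ, zero_mul]
  simp_rw [key]
  rw [Finset.sum_ite_eq' Finset.univ κ₀]
  simp

/-! ## The Hecke identity for the isotypic sums -/

variable {a b : ℕ → ℂ} {U : (ZMod M)ˣ → ℝ → ℝ → ℂ} {C : ℝ}

theorem HoroData47.iso_hecke (D : HoroData47 M a b U C) (χ : DirichletCharacter ℂ M)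
    {p : ℕ} (hp : p.Prime) (hpM : ¬ p ∣ M) (x y : ℝ) (hy : 0 < y) :
    χ (p : ZMod M) * ∑ j ∈ Finset.range p, iso47 χ U ((x + j * M) / p) (y / p)
        + b p * (χ (p : ZMod M))⁻¹ * iso47 χ U (p * x) (p * y)
      = ((Real.sqrt p : ℝ) : ℂ) * a p * iso47 χ U x y := by
  have hcop : Nat.Coprime p M := (Nat.Prime.coprime_iff_not_dvd hp).mpr hpM
  set u : (ZMod M)ˣ := unitOf47 M p with hu
  have hup : ((u : (ZMod M)ˣ) : ZMod M) = (p : ZMod M) := unitOf47_coe hcop
  have hχu : χ (p : ZMod M) = χ (u : ZMod M) := by rw [hup]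
  have hχu' : (χ (p : ZMod M))⁻¹ = χ ((u⁻¹ : (ZMod M)ˣ) : ZMod M) := by
    rw [hχu]
    have h1 : χ (u : ZMod M) * χ ((u⁻¹ : (ZMod M)ˣ) : ZMod M) = 1 := by
      rw [← map_mul, ← Units.val_mul, mul_inv_cancel, Units.val_one, map_one]
    exact inv_eq_of_mul_eq_one_right h1
  have e1 : ∀ j : ℕ, χ (u : ZMod M) * iso47 χ U ((x + j * M) / p) (y / p)
      = ∑ κ : (ZMod M)ˣ, χ ((κ⁻¹ : (ZMod M)ˣ) : ZMod M)
          * U (κ * u) ((x + j * M) / p) (y / p) := by
    intro j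
    unfold iso47
    exact (sum_twist47 χ (fun κ => U κ ((x + j * M) / p) (y / p)) u).symm
  have e2 : χ ((u⁻¹ : (ZMod M)ˣ) : ZMod M) * iso47 χ U (p * x) (p * y)
      = ∑ κ : (ZMod M)ˣ, χ ((κ⁻¹ : (ZMod M)ˣ) : ZMod M) * U (κ * u⁻¹) (p * x) (p * y) := by
    unfold iso47
    exact (sum_twist47 χ (fun κ => U κ (p * x) (p * y)) u⁻¹).symm
  rw [hχu', hχu, Finset.mul_sum, Finset.sum_congr rfl fun j _ => e1 j, mul_assoc, e2,
    Finset.sum_comm, Finset.mul_sum, ← Finset.sum_add_distrib]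
  unfold iso47
  rw [Finset.mul_sum]
  refine Finset.sum_congr rfl fun κ _ => ?_
  have h := D.hecke p hp hpM κ x y hy
  rw [← hu] at h
  rw [← Finset.mul_sum]
  calc χ ((κ⁻¹ : (ZMod M)ˣ) : ZMod M)
          * ∑ j ∈ Finset.range p, U (κ * u) ((x + j * M) / p) (y / p)
        + b p * (χ ((κ⁻¹ : (ZMod M)ˣ) : ZMod M) * U (κ * u⁻¹) (p * x) (p * y))
      = χ ((κ⁻¹ : (ZMod M)ˣ) : ZMod M)
          * (∑ j ∈ Finset.range p, U (κ * u) ((x + j * M) / p) (y / p)
            + b p * U (κ * u⁻¹) (p * x) (p * y)) := by ring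
    _ = ((Real.sqrt p : ℝ) : ℂ) * a p * (χ ((κ⁻¹ : (ZMod M)ˣ) : ZMod M) * U κ x y) := by
        rw [h]
        ring

theorem HoroData47.iso_cont_x (D : HoroData47 M a b U C) (χ : DirichletCharacter ℂ M)
    {y : ℝ} (hy : 0 < y) : Continuous fun x => iso47 χ U x y := by
  unfold iso47
  exact continuous_finsetSum _ fun κ _ => continuous_const.mul (D.cont_x κ y hy)

theorem HoroData47.iso_cont_y (D : HoroData47 M a b U C) (χ : DirichletCharacter ℂ M)
    (x : ℝ) : ContinuousOn (fun y => iso47 χ U x y) (Set.Ioi 0) := by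
  unfold iso47
  exact continuousOn_finsetSum _ fun κ _ => continuousOn_const.mul (D.cont_y κ x)

theorem HoroData47.iso_bdd (D : HoroData47 M a b U C) (χ : DirichletCharacter ℂ M)
    (x : ℝ) {y : ℝ} (hy : 0 < y) : ‖iso47 χ U x y‖ ≤ Fintype.card (ZMod M)ˣ * C :=
  norm_iso47_le χ fun κ => D.bdd κ x y hy

theorem HoroData47.iso_per (D : HoroData47 M a b U C) (χ : DirichletCharacter ℂ M)
    {y : ℝ} (hy : 0 < y) : Function.Periodic (fun x => iso47 χ U x y) (M : ℝ) := by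
  intro x
  unfold iso47
  simp only
  exact Finset.sum_congr rfl fun κ _ => by rw [D.per κ x y hy]

/-! ## The coefficient functions -/

/-- The Fourier coefficients of the isotypic sum on the horocycle of height `y`, of frequency
`ε n / M` (`ε = ± 1`). -/
def horoCoef47 (χ : DirichletCharacter ℂ M) (U : (ZMod M)ˣ → ℝ → ℝ → ℂ) (ε : ℤ) (n : ℕ)
    (y : ℝ) : ℂ :=
  coef47 (M : ℝ) (fun x => iso47 χ U x y) (ε * n)

theorem HoroData47.star (D : HoroData47 M a b U C) (χ : DirichletCharacter ℂ M) (ε : ℤ)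
    {p : ℕ} (hp : p.Prime) (hpM : ¬ p ∣ M) (n : ℕ) (y : ℝ) (hy : 0 < y)
    (hε : ε = 1 ∨ ε = -1) :
    ((Real.sqrt p : ℝ) : ℂ) * a p * horoCoef47 χ U ε n y
      = χ (p : ZMod M) * (p : ℂ) * horoCoef47 χ U ε (p * n) (y / p)
        + (if p ∣ n then b p * (χ (p : ZMod M))⁻¹ * horoCoef47 χ U ε (n / p) (p * y) else 0) := by
  have hM : (0 : ℝ) < M := Nat.cast_pos.mpr (Nat.pos_of_ne_zero (NeZero.ne M))
  have hp0 : (0 : ℝ) < p := Nat.cast_pos.mpr hp.pos
  have hyp : 0 < y / p := div_pos hy hp0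
  have hpy : 0 < (p : ℝ) * y := mul_pos hp0 hy
  -- the Hecke identity as an identity of functions of `x`
  have hfun : (fun x => ((Real.sqrt p : ℝ) : ℂ) * a p * iso47 χ U x y)
      = fun x => χ (p : ZMod M) * ∑ j ∈ Finset.range p, iso47 χ U ((x + j * M) / p) (y / p)
          + (b p * (χ (p : ZMod M))⁻¹) * iso47 χ U (p * x) (p * y) := by
    funext x
    exact (D.iso_hecke χ hp hpM x y hy).symm
  have hc1 : Continuous fun x => ∑ j ∈ Finset.range p, iso47 χ U ((x + j * M) / p) (y / p) :=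
    continuous_finsetSum _ fun j _ => (D.iso_cont_x χ hyp).comp (by fun_prop)
  have hc2 : Continuous fun x => iso47 χ U (p * x) (p * y) :=
    (D.iso_cont_x χ hpy).comp (by fun_prop)
  have hA : Continuous fun x =>
      χ (p : ZMod M) * ∑ j ∈ Finset.range p, iso47 χ U ((x + j * M) / p) (y / p) :=
    continuous_const.mul hc1
  have hB : Continuous fun x => (b p * (χ (p : ZMod M))⁻¹) * iso47 χ U (p * x) (p * y) :=
    continuous_const.mul hc2
  unfold horoCoef47
  rw [← coef47_const_mul, hfun, coef47_add hA hB,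
    coef47_const_mul, coef47_const_mul,
    coef47_sumShift hM (D.iso_cont_x χ hyp) hp.pos]
  have eidx : (p : ℤ) * (ε * n) = ε * ((p * n : ℕ) : ℤ) := by
    push_cast
    ring
  rw [eidx]
  congr 1
  · ring
  · by_cases hpn : p ∣ n
    · rw [if_pos hpn]
      obtain ⟨n', rfl⟩ := hpn
      have e1 : ε * ((p * n' : ℕ) : ℤ) = (p : ℤ) * (ε * n') := by
        push_cast
        ring
      rw [e1, coef47_dilate_mul (D.iso_cont_x χ hpy) (D.iso_per χ hpy) hp.pos,
        Nat.mul_div_cancel_left _ hp.pos]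
    · rw [if_neg hpn]
      have hnd : ¬ (p : ℤ) ∣ ε * n := by
        intro h
        apply hpn
        have h2 : (p : ℤ) ∣ (n : ℤ) := by
          rcases hε with h1 | h1
          · rw [h1, one_mul] at h
            exact h
          · rw [h1, neg_one_mul] at h
            exact (dvd_neg.mp h)
        exact Int.natCast_dvd_natCast.mp h2
      rw [coef47_dilate_of_not_dvd hM (D.iso_per χ hpy) hp.pos hnd, mul_zero]

theorem HoroData47.bessel (D : HoroData47 M a b U C) (χ : DirichletCharacter ℂ M) (ε : ℤ)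
    (hε : ε = 1 ∨ ε = -1) (y : ℝ) (hy : 0 < y) (F : Finset ℕ) :
    ∑ n ∈ F, ‖horoCoef47 χ U ε n y‖ ^ 2 ≤ (Fintype.card (ZMod M)ˣ * C) ^ 2 := by
  have hM : (0 : ℝ) < M := Nat.cast_pos.mpr (Nat.pos_of_ne_zero (NeZero.ne M))
  have hε0 : ε ≠ 0 := by
    rcases hε with h | h <;> rw [h] <;> norm_num
  have hinj : Set.InjOn (fun n : ℕ => ε * (n : ℤ)) (F : Set ℕ) := by
    intro m _ n _ h
    simp only at h
    exact_mod_cast mul_left_cancel₀ hε0 h
  have h := bessel47 hM (D.iso_cont_x χ hy) (fun x => D.iso_bdd χ x hy)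
    (F.image fun n : ℕ => ε * (n : ℤ))
  rw [Finset.sum_image hinj] at h
  exact h

theorem HoroData47.cont (D : HoroData47 M a b U C) (χ : DirichletCharacter ℂ M) (ε : ℤ)
    (n : ℕ) : ContinuousOn (horoCoef47 χ U ε n) (Set.Ioi 0) := by
  unfold horoCoef47
  exact continuousOn_coef47 (Nat.cast_nonneg M) (F := fun y x => iso47 χ U x y)
    (fun y hy => D.iso_cont_x χ hy) (fun x => D.iso_cont_y χ x)
    (fun y hy x => D.iso_bdd χ x hy) _

/-- The Dirichlet character as a function on `ℕ`. -/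
def chiNat47 (χ : DirichletCharacter ℂ M) (n : ℕ) : ℂ := χ (n : ZMod M)

/-- The `CoeffData` of helper51's MS1 for the isotypic sum of `χ` and the sign `ε`. -/
theorem HoroData47.coeffData (D : HoroData47 M a b U C) (χ : DirichletCharacter ℂ M) (ε : ℤ)
    (hε : ε = 1 ∨ ε = -1) :
    CoeffData M a b (chiNat47 χ) (horoCoef47 χ U ε) (Fintype.card (ZMod M)ˣ * C) where
  a_one := D.a_one
  chi_one := by
    unfold chiNat47
    rw [Nat.cast_one, map_one]
  chi_mul := fun m n => by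
    unfold chiNat47
    rw [Nat.cast_mul, map_mul]
  chi_norm := fun n _ hn => by
    unfold chiNat47
    rw [← ZMod.coe_unitOfCoprime n hn]
    exact DirichletCharacter.unit_norm_eq_one χ _
  hecke := D.hecke_a
  cont := fun n => D.cont χ ε n
  bessel := fun y hy F => D.bessel χ ε hε y hy F
  star := fun p hp hpM n _ y hy => D.star χ ε hp hpM n y hy hε

/-! ## Non-vanishing -/

theorem HoroData47.exists_ne (D : HoroData47 M a b U C)
    (hne : ∃ (κ : (ZMod M)ˣ) (y x x' : ℝ), 0 < y ∧ U κ x y ≠ U κ x' y) :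
    ∃ (χ : DirichletCharacter ℂ M) (ε : ℤ), (ε = 1 ∨ ε = -1) ∧
      ∃ k : ℕ, 0 < k ∧ ∃ y : ℝ, 0 < y ∧ horoCoef47 χ U ε k y ≠ 0 := by
  have hM : (0 : ℝ) < M := Nat.cast_pos.mpr (Nat.pos_of_ne_zero (NeZero.ne M))
  obtain ⟨κ₀, y, x, x', hy, hxx'⟩ := hne
  -- some isotypic sum is not constant
  have h1 : ∃ χ : DirichletCharacter ℂ M, iso47 χ U x y ≠ iso47 χ U x' y := by
    by_contra hcon
    push Not at hcon
    apply hxx'
    have e1 := sum_iso47 U κ₀ x y
    have e2 := sum_iso47 U κ₀ x' y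
    have e3 : ∑ χ : DirichletCharacter ℂ M, χ (κ₀ : ZMod M) * iso47 χ U x y
        = ∑ χ : DirichletCharacter ℂ M, χ (κ₀ : ZMod M) * iso47 χ U x' y :=
      Finset.sum_congr rfl fun χ _ => by rw [hcon χ]
    rw [e1, e2] at e3
    have hφ : (M.totient : ℂ) ≠ 0 :=
      Nat.cast_ne_zero.mpr (Nat.totient_pos.mpr (Nat.pos_of_ne_zero (NeZero.ne M))).ne'
    exact mul_left_cancel₀ hφ e3
  obtain ⟨χ, hχ⟩ := h1
  obtain ⟨n, hn0, hn⟩ := exists_coef47_ne_zero hM (D.iso_cont_x χ hy) (D.iso_per χ hy)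
    (x := x) (x' := x') hχ
  rcases lt_or_gt_of_ne hn0 with hneg | hpos
  · refine ⟨χ, -1, Or.inr rfl, (-n).toNat, ?_, y, hy, ?_⟩
    · omega
    · unfold horoCoef47
      have : (-1 : ℤ) * (((-n).toNat : ℕ) : ℤ) = n := by
        rw [Int.toNat_of_nonneg (by omega)]
        ring
      rw [this]
      exact hn
  · refine ⟨χ, 1, Or.inl rfl, n.toNat, ?_, y, hy, ?_⟩
    · omega
    · unfold horoCoef47
      have : (1 : ℤ) * ((n.toNat : ℕ) : ℤ) = n := by
        rw [Int.toNat_of_nonneg (by omega)]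
        ring
      rw [this]
      exact hn

/-- **MS4a.**  The classical horocycle data give the `CoeffData` of MS1 with a non-vanishing
coefficient function. -/
theorem HoroData47.exists_coeffData (D : HoroData47 M a b U C)
    (hne : ∃ (κ : (ZMod M)ˣ) (y x x' : ℝ), 0 < y ∧ U κ x y ≠ U κ x' y) :
    ∃ (χ : ℕ → ℂ) (c : ℕ → ℝ → ℂ) (M₁ : ℝ), CoeffData M a b χ c M₁ ∧
      ∃ k : ℕ, 0 < k ∧ ∃ y : ℝ, 0 < y ∧ c k y ≠ 0 := by
  obtain ⟨χ, ε, hε, hk⟩ := D.exists_ne hne
  exact ⟨chiNat47 χ, horoCoef47 χ U ε, _, D.coeffData χ ε hε, hk⟩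

/-- **MS4a + MS1**: the mean square bound for the depleted Hecke sequence. -/
theorem HoroData47.msBound (D : HoroData47 M a b U C)
    (hne : ∃ (κ : (ZMod M)ˣ) (y x x' : ℝ), 0 < y ∧ U κ x y ≠ U κ x' y) :
    ∃ C' : ℝ, 0 ≤ C' ∧ ∀ x : ℕ, 1 ≤ x →
      ∑ n ∈ Finset.range (x + 1), ‖depleted M a n‖ ^ 2 ≤ C' * (x : ℝ) := by
  obtain ⟨χ, c, M₁, hD, hk⟩ := D.exists_coeffData hne
  exact hD.msBound hk

end

end Fermat.Agent.LT.T8.H47

end
end
-- ===== PACK-END LT/T8/H47/Horo.lean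

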