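import Mathlib
import Fermat.Agent.Pack.S44C.G0E6L2
import Fermat.Agent.Pack.LT2.E2L1
import Fermat.Agent.Pack.LT2.E0L2
import Fermat.Agent.Pack.LT2.E2L0
import Fermat.Agent.Pack.LT2.E0L3
import Fermat.Agent.Pack.LT2.E3L3

set_option linter.all false

-- ===== PACK-BEGIN LT/CFT/H861/FrobK.lean
section



/-!
# Row LT, tower CFT, helper861 (OFF-MAIN): Frobenius elements of `G_K` at the finite places

`K` a number field, `j : K →+* ℚ̄`.  For every finite place `v` of `K` there are a valuation subring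
`A` of `ℚ̄` over `v` and `σ ∈ Gal(ℚ̄/ℚ)` fixing `j K` which is a Frobenius element at `A` for
`q = #(𝓞 K ⧸ v)` (Prelude `ValuationSubring.IsFrobeniusAt`).

Imports: Mathlib + the landed `Fermat.Agent.S54.FrobExists` (plain module on main).
`exists_frob_abstract861` is a renamed copy of `S55.G.Rec.H931.L2_exists_frob_abstract` (main).
-/

set_option autoImplicit false
set_option linter.style.haveILetI false

open IsDedekindDomain NumberField
open scoped Pointwise

noncomputable section

namespace Fermat.Agent.LT.CFT.H861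

local notation "Qb" => AlgebraicClosure ℚ
local notation "GQ" => (AlgebraicClosure ℚ ≃ₐ[ℚ] AlgebraicClosure ℚ)

/-- Abstract existence of Frobenius lifts for a profinite group acting continuously on a
(discrete) ring `B`, relative to the subring of invariants. -/
theorem exists_frob_abstract861 {B : Type*} [CommRing B] {G : Type*} [Group G]
    [MulSemiringAction G B] [TopologicalSpace G] [CompactSpace G] [TotallyDisconnectedSpace G]
    [IsTopologicalGroup G]
    (hcont : letI : TopologicalSpace B := ⊥; ContinuousSMul G B)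
    (Q : Ideal B) [Q.IsPrime] (p : ℕ) (hp : p.Prime) (hpQ : (p : B) ∈ Q) (f : ℕ)
    (hfix : ∀ a : B, (∀ g : G, g • a = a) → a ^ (p ^ f) - a ∈ Q)
    (hsurj : ∀ b : B, ∃ c : B, c ^ (p ^ f) - b ∈ Q) :
    ∃ σ : G, ∀ x : B, σ • x - x ^ (p ^ f) ∈ Q := by
  letI : TopologicalSpace B := ⊥
  haveI : DiscreteTopology B := ⟨rfl⟩
  haveI := hcont
  haveI : Fact p.Prime := ⟨hp⟩
  let A := FixedPoints.subring B G
  haveI : Algebra.IsInvariant A B G := ⟨fun b hb => ⟨⟨b, hb⟩, rfl⟩⟩
  let P : Ideal A := Q.under A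
  haveI : Q.LiesOver P := ⟨rfl⟩
  haveI : IsDomain (B ⧸ Q) := Ideal.Quotient.isDomain Q
  have hzero : ((p : ℕ) : B ⧸ Q) = 0 := by
    have : (Ideal.Quotient.mk Q) (p : B) = 0 := Ideal.Quotient.eq_zero_iff_mem.mpr hpQ
    simpa using this
  haveI hchar : CharP (B ⧸ Q) p := (CharP.charP_iff_prime_eq_zero hp).mpr hzero
  let F : (B ⧸ Q) →ₐ[A ⧸ P] (B ⧸ Q) :=
    { toRingHom := iterateFrobenius (B ⧸ Q) p f
      commutes' := by
        intro y
        obtain ⟨a, rfl⟩ := Ideal.Quotient.mk_surjective y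
        show iterateFrobenius _ p f (algebraMap (A ⧸ P) _ (Ideal.Quotient.mk P a)) =
          algebraMap (A ⧸ P) _ (Ideal.Quotient.mk P a)
        have h1 : algebraMap (A ⧸ P) (B ⧸ Q) (Ideal.Quotient.mk P a)
            = Ideal.Quotient.mk Q (a : B) := rfl
        rw [h1, iterateFrobenius_def, ← map_pow, ← sub_eq_zero, ← map_sub,
          Ideal.Quotient.eq_zero_iff_mem]
        exact hfix a a.2 }
  have hinj : Function.Injective F := iterateFrobenius_inj (B ⧸ Q) p f
  have hsurj' : Function.Surjective F := by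
    intro y
    obtain ⟨b, rfl⟩ := Ideal.Quotient.mk_surjective y
    obtain ⟨c, hc⟩ := hsurj b
    refine ⟨Ideal.Quotient.mk Q c, ?_⟩
    show iterateFrobenius _ p f (Ideal.Quotient.mk Q c) = _
    rw [iterateFrobenius_def, ← map_pow, ← sub_eq_zero, ← map_sub, Ideal.Quotient.eq_zero_iff_mem]
    exact hc
  let e : (B ⧸ Q) ≃ₐ[A ⧸ P] (B ⧸ Q) := AlgEquiv.ofBijective F ⟨hinj, hsurj'⟩
  obtain ⟨σ, hσ⟩ := Ideal.Quotient.stabilizerHom_surjective_of_profinite (G := G) P Q e
  refine ⟨σ.1, fun x => ?_⟩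
  have h2 := congrArg (fun t => t (Ideal.Quotient.mk Q x)) hσ
  simp only [Ideal.Quotient.stabilizerHom_apply] at h2
  have h3 : e (Ideal.Quotient.mk Q x) = Ideal.Quotient.mk Q (x ^ (p ^ f)) := by
    show iterateFrobenius _ p f (Ideal.Quotient.mk Q x) = _
    rw [iterateFrobenius_def, map_pow]
  rw [h3] at h2
  rw [← Ideal.Quotient.eq]
  exact h2

variable {K : Type} [Field K] [NumberField K] (j : K →+* Qb)

/-- The image of `K` in `ℚ̄`. -/
def imField861 : IntermediateField ℚ Qb := (j.toRatAlgHom).fieldRange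

theorem mem_imField861 (y : Qb) : y ∈ imField861 j ↔ ∃ x : K, j x = y := by
  rw [imField861, AlgHom.mem_fieldRange]
  rfl

instance finiteDimensional_imField861 : FiniteDimensional ℚ (imField861 j) := by
  have h : (imField861 j).toSubalgebra = (j.toRatAlgHom).range := rfl
  have hfin : FiniteDimensional ℚ (j.toRatAlgHom).range :=
    LinearMap.finiteDimensional_range (j.toRatAlgHom).toLinearMap
  exact hfin

/-- The absolute Galois group of `K` (embedded by `j`). -/
def gal861 : Subgroup GQ := (imField861 j).fixingSubgroup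

theorem mem_gal861_iff (σ : GQ) : σ ∈ gal861 j ↔ ∀ x : K, σ (j x) = j x := by
  rw [gal861, IntermediateField.mem_fixingSubgroup_iff]
  constructor
  · intro h x
    exact h (j x) ((mem_imField861 j _).2 ⟨x, rfl⟩)
  · intro h y hy
    obtain ⟨x, rfl⟩ := (mem_imField861 j y).1 hy
    exact h x

theorem isClosed_gal861 : IsClosed (gal861 j : Set GQ) :=
  IntermediateField.fixingSubgroup_isClosed (imField861 j)

/-- There is a valuation subring of `ℚ̄` over every finite place of `K`. -/
theorem exists_valuationSubring_under861 (v : HeightOneSpectrum (𝓞 K)) :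
    ∃ A : ValuationSubring Qb,
      ∀ x : 𝓞 K, x ∈ v.asIdeal ↔ j (algebraMap (𝓞 K) K x) ∈ A.nonunits := by
  let φ : 𝓞 K →+* Qb := j.comp (algebraMap (𝓞 K) K)
  have hφinj : Function.Injective φ :=
    j.injective.comp (FaithfulSMul.algebraMap_injective (𝓞 K) K)
  let A₀ : Subring Qb := φ.range
  let I : Ideal A₀ := v.asIdeal.map φ.rangeRestrict
  have hsurj : Function.Surjective φ.rangeRestrict := φ.rangeRestrict_surjective
  have hI : I ≠ ⊤ := by
    intro h
    have h1 : (1 : A₀) ∈ I := by rw [h]; trivial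
    obtain ⟨x, hx, hx1⟩ := (Ideal.mem_map_iff_of_surjective _ hsurj).1 h1
    have h2 : φ x = 1 := congrArg Subtype.val hx1
    have h3 : x = 1 := hφinj (by rw [h2, map_one])
    rw [h3] at hx
    exact v.isPrime.ne_top ((Ideal.eq_top_iff_one _).2 hx)
  obtain ⟨B, hAB, hIB⟩ := Ideal.image_subset_nonunits_valuationSubring I hI
  refine ⟨B, fun x => ⟨fun hx => ?_, fun hx => ?_⟩⟩
  · apply hIB
    exact ⟨φ.rangeRestrict x, Ideal.mem_map_of_mem _ hx, rfl⟩
  · by_contra hxv
    obtain ⟨y, m, hm, hym⟩ := (inferInstance : v.asIdeal.IsMaximal).exists_inv hxv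
    have hmB : φ m ∈ B.nonunits := by
      apply hIB
      exact ⟨φ.rangeRestrict m, Ideal.mem_map_of_mem _ hm, rfl⟩
    have hyB : φ y ∈ B := hAB ⟨y, rfl⟩
    have h1 : φ y * φ x + φ m = 1 := by
      rw [← map_mul, ← map_add, hym, map_one]
    have hxB : B.valuation (φ x) < 1 := (B.mem_nonunits_iff).1 hx
    have hyB' : B.valuation (φ y) ≤ 1 := (B.valuation_le_one_iff _).2 hyB
    have hmB' : B.valuation (φ m) < 1 := (B.mem_nonunits_iff).1 hmB
    have h2 : B.valuation (φ y * φ x) < 1 := by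
      rw [map_mul]
      exact mul_lt_one_of_nonneg_of_lt_one_right hyB' zero_le hxB
    have h3 : B.valuation (φ y * φ x + φ m) < 1 :=
      lt_of_le_of_lt (Valuation.map_add _ _ _) (max_lt h2 hmB')
    rw [h1, map_one] at h3
    exact lt_irrefl _ h3

/-- The residue characteristic and the residue degree of a finite place. -/
theorem exists_card_eq_pow861 (v : HeightOneSpectrum (𝓞 K)) :
    ∃ p f : ℕ, p.Prime ∧ (p : 𝓞 K) ∈ v.asIdeal ∧ Nat.card (𝓞 K ⧸ v.asIdeal) = p ^ f ∧
      ∀ x : 𝓞 K, x ^ (p ^ f) - x ∈ v.asIdeal := by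
  letI : Field (𝓞 K ⧸ v.asIdeal) := Ideal.Quotient.field v.asIdeal
  letI : Fintype (𝓞 K ⧸ v.asIdeal) := Fintype.ofFinite _
  obtain ⟨p, hp⟩ := CharP.exists (𝓞 K ⧸ v.asIdeal)
  obtain ⟨n, hpp, hn⟩ := FiniteField.card (𝓞 K ⧸ v.asIdeal) p
  refine ⟨p, n, hpp, ?_, ?_, fun x => ?_⟩
  · rw [← Ideal.Quotient.eq_zero_iff_mem, map_natCast]
    exact CharP.cast_eq_zero _ p
  · rw [Nat.card_eq_fintype_card, hn]
  · rw [← Ideal.Quotient.eq_zero_iff_mem, map_sub, map_pow, ← hn, FiniteField.pow_card, sub_self]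

end Fermat.Agent.LT.CFT.H861

end

end
-- ===== PACK-END LT/CFT/H861/FrobK.lean

-- ===== PACK-BEGIN LT/T1/H638/AdNorm.lean
section



set_option autoImplicit false

open IsDedekindDomain NumberField

noncomputable section

namespace Fermat.Agent.LT.T1.H638

open Fermat.Agent.LT.H556.A0 Fermat.Agent.LT.T1

variable (K : Type) [Field K] [NumberField K]

/-- The `v`-adic norm is `1` exactly when the valuation is `1`. -/
theorem norm_eq_one_iff_valued638 (v : HeightOneSpectrum (𝓞 K)) (x : v.adicCompletion K) :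
    ‖x‖ = 1 ↔ Valued.v x = 1 := by
  rw [NumberField.FinitePlace.norm_def]
  have h1 : (Ideal.absNorm v.asIdeal : NNReal) ≠ 1 :=
    (NumberField.HeightOneSpectrum.one_lt_absNorm_nnreal v).ne'
  rw [← WithZeroMulInt.toNNReal_eq_one_iff (Valued.v x)
    (NumberField.HeightOneSpectrum.absNorm_ne_zero v) h1]
  norm_cast

/-- Projection of the adele ring to the finite adeles, as a ring homomorphism. -/
def finHom638 : Adl K →+* FiniteAdeleRing (𝓞 K) K :=
  RingHom.snd (InfiniteAdeleRing K) (FiniteAdeleRing (𝓞 K) K)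

/-- Projection of the adele ring to the infinite adeles, as a ring homomorphism. -/
def infHom638 : Adl K →+* InfiniteAdeleRing K :=
  RingHom.fst (InfiniteAdeleRing K) (FiniteAdeleRing (𝓞 K) K)

theorem finHom638_apply (x : Adl K) : finHom638 K x = x.2 := rfl
theorem infHom638_apply (x : Adl K) : infHom638 K x = x.1 := rfl

theorem continuous_finHom638 : Continuous (finHom638 K) := by
  show Continuous (fun x : InfiniteAdeleRing K × FiniteAdeleRing (𝓞 K) K => x.2)
  exact continuous_snd

theorem continuous_infHom638 : Continuous (infHom638 K) := by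
  show Continuous (fun x : InfiniteAdeleRing K × FiniteAdeleRing (𝓞 K) K => x.1)
  exact continuous_fst

theorem isUnit_snd638 (x : (Adl K)ˣ) : IsUnit (x : Adl K).2 :=
  x.isUnit.map (finHom638 K)

theorem isUnit_fst638 (x : (Adl K)ˣ) : IsUnit (x : Adl K).1 :=
  x.isUnit.map (infHom638 K)

theorem snd_ne_zero638 (x : (Adl K)ˣ) (v : HeightOneSpectrum (𝓞 K)) : (x : Adl K).2 v ≠ 0 :=
  (FiniteAdeleRing.isUnit_iff.1 (isUnit_snd638 K x)).1 v

theorem fst_ne_zero638 (x : (Adl K)ˣ) (w : InfinitePlace K) : (x : Adl K).1 w ≠ 0 := by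
  have h := isUnit_fst638 K x
  have h2 : IsUnit ((x : Adl K).1 w) := (Pi.isUnit_iff.1 h) w
  exact h2.ne_zero

theorem eventually_valued_eq_one638 (x : (Adl K)ˣ) :
    ∀ᶠ v in Filter.cofinite, Valued.v ((x : Adl K).2 v) = 1 :=
  (FiniteAdeleRing.isUnit_iff.1 (isUnit_snd638 K x)).2

/-- For an idele, the local norms at the finite places are almost all `1`. -/
theorem hasFiniteMulSupport_norm638 (x : (Adl K)ˣ) :
    Function.HasFiniteMulSupport fun v : HeightOneSpectrum (𝓞 K) => ‖(x : Adl K).2 v‖ := by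
  have h := eventually_valued_eq_one638 K x
  rw [Filter.eventually_cofinite] at h
  refine h.subset ?_
  intro v hv
  simp only [Function.mem_mulSupport] at hv
  show ¬ (Valued.v ((x : Adl K).2 v) = 1)
  intro h1
  exact hv ((norm_eq_one_iff_valued638 K v _).2 h1)

/-- A `finprod` of positive reals is positive. -/
theorem finprod_pos638 {ι : Type*} {f : ι → ℝ} (hf : ∀ i, 0 < f i) : 0 < ∏ᶠ i, f i := by
  by_cases h : (Function.mulSupport f).Finite
  · rw [finprod_eq_prod_of_mulSupport_subset f (s := h.toFinset) (by simp)]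
    exact Finset.prod_pos fun i _ => hf i
  · rw [finprod_of_infinite_mulSupport h]
    exact one_pos

/-- Positivity of the idele norm. -/
theorem adNorm_pos638 (x : (Adl K)ˣ) : 0 < adNorm K (x : Adl K) := by
  unfold adNorm
  apply mul_pos
  · apply Finset.prod_pos
    intro w _
    exact pow_pos (norm_pos_iff.2 (fst_ne_zero638 K x w)) _
  · exact finprod_pos638 (fun v => norm_pos_iff.2 (snd_ne_zero638 K x v))

/-- Multiplicativity of the idele norm. -/
theorem adNorm_mul638 (x y : (Adl K)ˣ) :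
    adNorm K ((x * y : (Adl K)ˣ) : Adl K) = adNorm K (x : Adl K) * adNorm K (y : Adl K) := by
  unfold adNorm
  have h1 : ∀ w : InfinitePlace K, ‖((x * y : (Adl K)ˣ) : Adl K).1 w‖ ^ w.mult
      = ‖(x : Adl K).1 w‖ ^ w.mult * ‖(y : Adl K).1 w‖ ^ w.mult := by
    intro w
    rw [← mul_pow, ← norm_mul]
    rfl
  have h2 : ∀ v : HeightOneSpectrum (𝓞 K), ‖((x * y : (Adl K)ˣ) : Adl K).2 v‖
      = ‖(x : Adl K).2 v‖ * ‖(y : Adl K).2 v‖ := by
    intro v
    rw [← norm_mul]
    rfl
  simp only [h1, h2]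
  rw [Finset.prod_mul_distrib,
    finprod_mul_distrib (hasFiniteMulSupport_norm638 K x) (hasFiniteMulSupport_norm638 K y)]
  ring

/-- The product formula: principal ideles have norm `1`. -/
theorem adNorm_ratUnit638 (ξ : Kˣ) : adNorm K (ratUnit K ξ : Adl K) = 1 := by
  unfold adNorm
  have hξ : (ξ : K) ≠ 0 := ξ.ne_zero
  have h1 : ∀ w : InfinitePlace K, ‖((ratUnit K ξ : (Adl K)ˣ) : Adl K).1 w‖ = w (ξ : K) := by
    intro w
    exact InfinitePlace.Completion.norm_coe w ((WithAbs.equiv w.1).symm (ξ : K))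
  have h2 : ∀ v : HeightOneSpectrum (𝓞 K), ‖((ratUnit K ξ : (Adl K)ˣ) : Adl K).2 v‖
      = (FinitePlace.equivHeightOneSpectrum.symm v) (ξ : K) := by
    intro v; rfl
  simp only [h1, h2]
  rw [finprod_comp_equiv FinitePlace.equivHeightOneSpectrum.symm
    (f := fun w : FinitePlace K => w (ξ : K))]
  exact prod_abs_eq_one hξ

/-- The set of finite adeles that are integral outside `S` is open. -/
theorem isOpen_integral_outside638 (S : Set (HeightOneSpectrum (𝓞 K))) :
    IsOpen {f : FiniteAdeleRing (𝓞 K) K | ∀ v, v ∉ S → f v ∈ v.adicCompletionIntegers K} :=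
  RestrictedProduct.isOpen_forall_imp_mem
    (R := fun v : HeightOneSpectrum (𝓞 K) => v.adicCompletion K)
    (A := fun v => (v.adicCompletionIntegers K : Set (v.adicCompletion K)))
    (fun _ => Valued.isOpen_valuationSubring _) (p := fun v => v ∉ S)

/-- Two integral elements with product `1` have valuation `1`. -/
theorem valued_eq_one_of_mul_eq_one638 (v : HeightOneSpectrum (𝓞 K)) (a b : v.adicCompletion K)
    (hab : a * b = 1) (ha : Valued.v a ≤ 1) (hb : Valued.v b ≤ 1) : Valued.v a = 1 := by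
  have h : Valued.v a * Valued.v b = 1 := by rw [← map_mul, hab, map_one]
  apply le_antisymm ha
  by_contra hlt
  have hlt' : Valued.v a < 1 := lt_of_le_of_ne ha (fun h1 => hlt h1.ge)
  have : Valued.v a * Valued.v b < 1 := by
    calc Valued.v a * Valued.v b ≤ Valued.v a * 1 := mul_le_mul' le_rfl hb
      _ = Valued.v a := mul_one _
      _ < 1 := hlt'
  exact this.ne h

theorem snd_mul_inv638 (x : (Adl K)ˣ) (v : HeightOneSpectrum (𝓞 K)) :
    (x : Adl K).2 v * ((x⁻¹ : (Adl K)ˣ) : Adl K).2 v = 1 := by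
  have h : (x : Adl K) * ((x⁻¹ : (Adl K)ˣ) : Adl K) = 1 := x.mul_inv
  have h2 := congrArg (fun y : Adl K => y.2 v) h
  exact h2

/-- Continuity of the idele norm. -/
theorem continuous_adNorm638 : Continuous fun x : (Adl K)ˣ => adNorm K (x : Adl K) := by
  unfold adNorm
  apply Continuous.mul
  · -- infinite part
    apply continuous_finsetProd
    intro w _
    apply Continuous.pow
    apply continuous_norm.comp
    exact (continuous_apply w).comp ((continuous_infHom638 K).comp Units.continuous_val)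
  · -- finite part
    rw [continuous_iff_continuousAt]
    intro x₀
    set S : Set (HeightOneSpectrum (𝓞 K)) := {v | ¬ Valued.v ((x₀ : Adl K).2 v) = 1} with hS
    have hSfin : S.Finite := by
      have := eventually_valued_eq_one638 K x₀
      rwa [Filter.eventually_cofinite] at this
    let O : Set (FiniteAdeleRing (𝓞 K) K) :=
      {f | ∀ v, v ∉ S → f v ∈ v.adicCompletionIntegers K}
    have hO : IsOpen O := isOpen_integral_outside638 K S
    let U : Set (Adl K)ˣ := {x | (x : Adl K).2 ∈ O ∧ ((x⁻¹ : (Adl K)ˣ) : Adl K).2 ∈ O}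
    have hU : IsOpen U := by
      apply IsOpen.inter
      · exact hO.preimage ((continuous_finHom638 K).comp Units.continuous_val)
      · exact hO.preimage ((continuous_finHom638 K).comp Units.continuous_coe_inv)
    have hx₀ : x₀ ∈ U := by
      constructor
      · intro v hv
        have h1 : Valued.v ((x₀ : Adl K).2 v) = 1 := not_not.1 hv
        rw [HeightOneSpectrum.mem_adicCompletionIntegers]
        exact h1.le
      · intro v hv
        have h1 : Valued.v ((x₀ : Adl K).2 v) = 1 := not_not.1 hv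
        have h2 := snd_mul_inv638 K x₀ v
        have h3 : Valued.v ((x₀ : Adl K).2 v) * Valued.v (((x₀⁻¹ : (Adl K)ˣ) : Adl K).2 v) = 1 := by
          rw [← map_mul, h2, map_one]
        rw [h1, one_mul] at h3
        rw [HeightOneSpectrum.mem_adicCompletionIntegers]
        exact h3.le
    have hloc : ∀ x ∈ U, ∏ᶠ v, ‖(x : Adl K).2 v‖ = ∏ v ∈ hSfin.toFinset, ‖(x : Adl K).2 v‖ := by
      intro x hx
      apply finprod_eq_prod_of_mulSupport_subset
      intro v hv
      simp only [Function.mem_mulSupport] at hv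
      by_contra hvS
      have hvS' : v ∉ S := by simpa using hvS
      apply hv
      rw [norm_eq_one_iff_valued638]
      have h1 := hx.1 v hvS'
      have h2 := hx.2 v hvS'
      rw [HeightOneSpectrum.mem_adicCompletionIntegers] at h1 h2
      exact valued_eq_one_of_mul_eq_one638 K v _ _ (snd_mul_inv638 K x v) h1 h2
    have hcont : Continuous fun x : (Adl K)ˣ => ∏ v ∈ hSfin.toFinset, ‖(x : Adl K).2 v‖ := by
      apply continuous_finsetProd
      intro v _
      apply continuous_norm.comp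
      exact (RestrictedProduct.continuous_eval v).comp
        ((continuous_finHom638 K).comp Units.continuous_val)
    refine hcont.continuousAt.congr ?_
    filter_upwards [hU.mem_nhds hx₀] with x hx
    exact (hloc x hx).symm

/-- **T1.05 LeafAdNorm**: the idele norm is positive, multiplicative, trivial on principal
ideles (product formula) and continuous. -/
theorem leafAdNorm638 : Fermat.Agent.LT.T1.LeafAdNorm K :=
  ⟨adNorm_pos638 K, adNorm_mul638 K, adNorm_ratUnit638 K, continuous_adNorm638 K⟩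

end Fermat.Agent.LT.T1.H638


end
end
-- ===== PACK-END LT/T1/H638/AdNorm.lean

-- ===== PACK-BEGIN LT/T1/H793/Height.lean
section





/-!
# Row LT, tower T1 (helper793, OFF-MAIN): interface Prop `HeightC`

`heightC793 K : AdNormC K → HeightC K` (Spec.lean of helper54): the height
`H(g) = ‖b₁₁‖ / ‖b₂₂‖` of `g = b k` is well defined, left invariant under `B(K) Z(𝔸_K)` and right
invariant under `K⁰`.  Only the algebraic parts of `AdNormC` are used (positivity,
multiplicativity, product formula).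

By-products: `K⁰` is a subgroup (`isStdCompact_mul793`, `isStdCompact_inv793`,
`isStdCompact_one793`); the diagonal entries of an upper triangular element of `K⁰` have adelic
norm `1` (`adNorm_diag_of_upper_std793`).
-/

set_option autoImplicit false

open IsDedekindDomain NumberField
open Fermat.Agent.LT.H556.A0
open Fermat.Agent.LT.T1

noncomputable section

namespace Fermat.Agent.LT.T1.H793

variable {K : Type} [Field K] [NumberField K]

/-! ## Components are multiplicative -/

lemma finComp_mul793 (v : HeightOneSpectrum (𝓞 K)) (g h : G K) :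
    finComp v (g * h) = finComp v g * finComp v h := by
  rw [finComp_eq793, finComp_eq793, finComp_eq793, map_mul, Units.val_mul]

lemma finComp_one793 (v : HeightOneSpectrum (𝓞 K)) : finComp v (1 : G K) = 1 := by
  rw [finComp_eq793, map_one, Units.val_one]

lemma infComp_mul793 (w : InfinitePlace K) (g h : G K) :
    infComp w (g * h) = infComp w g * infComp w h := by
  rw [infComp_eq793, infComp_eq793, infComp_eq793, map_mul, Units.val_mul, Matrix.map_mul]

lemma infComp_one793 (w : InfinitePlace K) : infComp w (1 : G K) = 1 := by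
  rw [infComp_eq793, map_one, Units.val_one, Matrix.map_one _ (map_zero _) (map_one _)]

lemma isIntegralAt_mul793 {v : HeightOneSpectrum (𝓞 K)} {g h : G K}
    (hg : IsIntegralAt v g) (hh : IsIntegralAt v h) : IsIntegralAt v (g * h) := by
  intro i j
  rw [finComp_mul793, Matrix.mul_apply]
  exact sum_mem (fun l _ => mul_mem (hg i l) (hh l j))

lemma isIntegralAt_one793 (v : HeightOneSpectrum (𝓞 K)) : IsIntegralAt v (1 : G K) := by
  intro i j
  rw [finComp_one793, Matrix.one_apply]
  split_ifs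
  · exact one_mem _
  · exact zero_mem _

/-! ## `K⁰` is a subgroup -/

lemma isStdCompact_one793 : IsStdCompact K (1 : G K) := by
  refine ⟨fun v => ⟨isIntegralAt_one793 v, by rw [inv_one]; exact isIntegralAt_one793 v⟩,
    fun w => ⟨?_, fun _ => ?_⟩⟩
  · rw [infComp_one793, Matrix.conjTranspose_one, mul_one]
  · rw [infComp_one793, Matrix.det_one]

lemma isStdCompact_mul793 {k k' : G K} (hk : IsStdCompact K k) (hk' : IsStdCompact K k') :
    IsStdCompact K (k * k') := by
  refine ⟨fun v => ⟨isIntegralAt_mul793 (hk.1 v).1 (hk'.1 v).1, ?_⟩, fun w => ⟨?_, ?_⟩⟩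
  · rw [mul_inv_rev]; exact isIntegralAt_mul793 (hk'.1 v).2 (hk.1 v).2
  · rw [infComp_mul793, Matrix.conjTranspose_mul]
    calc infComp w k * infComp w k' * ((infComp w k').conjTranspose * (infComp w k).conjTranspose)
        = infComp w k * (infComp w k' * (infComp w k').conjTranspose)
            * (infComp w k).conjTranspose := by simp only [Matrix.mul_assoc]
      _ = 1 := by rw [(hk'.2 w).1, Matrix.mul_one, (hk.2 w).1]
  · intro hw
    rw [infComp_mul793, Matrix.det_mul, (hk.2 w).2 hw, (hk'.2 w).2 hw, mul_one]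

lemma isStdCompact_inv793 {k : G K} (hk : IsStdCompact K k) : IsStdCompact K k⁻¹ := by
  refine ⟨fun v => ⟨(hk.1 v).2, by rw [inv_inv]; exact (hk.1 v).1⟩, fun w => ?_⟩
  have h1 : infComp w k * infComp w k⁻¹ = 1 := by
    rw [← infComp_mul793, mul_inv_cancel, infComp_one793]
  have hU := (hk.2 w).1
  have h3 : (infComp w k).conjTranspose * infComp w k = 1 := mul_eq_one_comm.mp hU
  have h2 : infComp w k⁻¹ = (infComp w k).conjTranspose := by
    calc infComp w k⁻¹ = ((infComp w k).conjTranspose * infComp w k) * infComp w k⁻¹ := by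
          rw [h3, Matrix.one_mul]
      _ = (infComp w k).conjTranspose * (infComp w k * infComp w k⁻¹) := by
          rw [Matrix.mul_assoc]
      _ = _ := by rw [h1, Matrix.mul_one]
  refine ⟨?_, fun hw => ?_⟩
  · rw [h2, Matrix.conjTranspose_conjTranspose]; exact h3
  · have := congrArg Matrix.det h1
    rw [Matrix.det_mul, (hk.2 w).2 hw, one_mul, Matrix.det_one] at this
    exact this

/-! ## Upper triangular elements -/

lemma det_upper793 {b : G K} (hb : IsUpper K b) :
    (b : Matrix (Fin 2) (Fin 2) (Adl K)).det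
      = (b : Matrix (Fin 2) (Fin 2) (Adl K)) 0 0 * (b : Matrix (Fin 2) (Fin 2) (Adl K)) 1 1 := by
  have h : (b : Matrix (Fin 2) (Fin 2) (Adl K)) 1 0 = 0 := hb
  rw [Matrix.det_fin_two, h]
  ring

lemma isUnit_diag793 {b : G K} (hb : IsUpper K b) :
    IsUnit ((b : Matrix (Fin 2) (Fin 2) (Adl K)) 0 0) ∧
      IsUnit ((b : Matrix (Fin 2) (Fin 2) (Adl K)) 1 1) := by
  have h : IsUnit (b : Matrix (Fin 2) (Fin 2) (Adl K)).det := Matrix.isUnits_det_units b
  rw [det_upper793 hb] at h
  exact ⟨isUnit_of_mul_isUnit_left h, isUnit_of_mul_isUnit_right h⟩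

/-- If `b` and `b * u` are upper triangular then so is `u`. -/
lemma isUpper_of_mul793 {b u : G K} (hb : IsUpper K b) (hbu : IsUpper K (b * u)) :
    IsUpper K u := by
  have h : (b : Matrix (Fin 2) (Fin 2) (Adl K)) 1 0 = 0 := hb
  have h' : ((b * u : G K) : Matrix (Fin 2) (Fin 2) (Adl K)) 1 0 = 0 := hbu
  rw [Units.val_mul, Matrix.mul_apply, Fin.sum_univ_two, h, zero_mul, zero_add] at h'
  exact (isUnit_diag793 hb).2.mul_right_eq_zero.mp h'

lemma isUpper_one793 : IsUpper K (1 : G K) := by
  show ((1 : G K) : Matrix (Fin 2) (Fin 2) (Adl K)) 1 0 = 0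
  simp

lemma isUpper_inv793 {u : G K} (hu : IsUpper K u) : IsUpper K u⁻¹ := by
  apply isUpper_of_mul793 hu
  rw [mul_inv_cancel]
  exact isUpper_one793

lemma isUpper_mul793 {b u : G K} (hb : IsUpper K b) (hu : IsUpper K u) : IsUpper K (b * u) := by
  have h : (b : Matrix (Fin 2) (Fin 2) (Adl K)) 1 0 = 0 := hb
  have h' : (u : Matrix (Fin 2) (Fin 2) (Adl K)) 1 0 = 0 := hu
  show ((b * u : G K) : Matrix (Fin 2) (Fin 2) (Adl K)) 1 0 = 0
  rw [Units.val_mul, Matrix.mul_apply, Fin.sum_univ_two, h, h', zero_mul, mul_zero, add_zero]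

lemma mul_apply_zero_zero793 {b u : G K} (hu : IsUpper K u) :
    ((b * u : G K) : Matrix (Fin 2) (Fin 2) (Adl K)) 0 0
      = (b : Matrix (Fin 2) (Fin 2) (Adl K)) 0 0 * (u : Matrix (Fin 2) (Fin 2) (Adl K)) 0 0 := by
  have h' : (u : Matrix (Fin 2) (Fin 2) (Adl K)) 1 0 = 0 := hu
  rw [Units.val_mul, Matrix.mul_apply, Fin.sum_univ_two, h', mul_zero, add_zero]

lemma mul_apply_one_one793 {b u : G K} (hb : IsUpper K b) :
    ((b * u : G K) : Matrix (Fin 2) (Fin 2) (Adl K)) 1 1
      = (b : Matrix (Fin 2) (Fin 2) (Adl K)) 1 1 * (u : Matrix (Fin 2) (Fin 2) (Adl K)) 1 1 := by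
  have h : (b : Matrix (Fin 2) (Fin 2) (Adl K)) 1 0 = 0 := hb
  rw [Units.val_mul, Matrix.mul_apply, Fin.sum_univ_two, h, zero_mul, zero_add]

/-! ## The adelic norm -/

lemma adNorm_eq_one_of793 {x : Adl K} (h1 : ∀ w : InfinitePlace K, ‖x.1 w‖ = 1)
    (h2 : ∀ v : HeightOneSpectrum (𝓞 K), ‖x.2 v‖ = 1) : adNorm K x = 1 := by
  unfold adNorm
  simp [h1, h2]

lemma adNorm_mul793 (h : AdNormC K) {x y : Adl K} (hx : IsUnit x) (hy : IsUnit y) :
    adNorm K (x * y) = adNorm K x * adNorm K y := by
  obtain ⟨x, rfl⟩ := hx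
  obtain ⟨y, rfl⟩ := hy
  have := h.2.1 x y
  rwa [Units.val_mul] at this

lemma adNorm_pos793 (h : AdNormC K) {x : Adl K} (hx : IsUnit x) : 0 < adNorm K x := by
  obtain ⟨x, rfl⟩ := hx
  exact h.1 x

lemma adNorm_algebraMap793 (h : AdNormC K) {ξ : K} (hξ : ξ ≠ 0) :
    adNorm K (algebraMap K (Adl K) ξ) = 1 :=
  h.2.2.1 (Units.mk0 ξ hξ)

/-- Norm of a finite component: integral with integral inverse implies norm one. -/
lemma norm_eq_one_of_mul793 (v : HeightOneSpectrum (𝓞 K)) {x y : v.adicCompletion K}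
    (hx : x ∈ v.adicCompletionIntegers K) (hy : y ∈ v.adicCompletionIntegers K)
    (hxy : x * y = 1) : ‖x‖ = 1 := by
  have h1 : ‖x‖ ≤ 1 := Valued.toNormedField.norm_le_one_iff.mpr
    ((HeightOneSpectrum.mem_adicCompletionIntegers (𝓞 K) K v).mp hx)
  have h2 : ‖y‖ ≤ 1 := Valued.toNormedField.norm_le_one_iff.mpr
    ((HeightOneSpectrum.mem_adicCompletionIntegers (𝓞 K) K v).mp hy)
  have h3 : ‖x‖ * ‖y‖ = 1 := by rw [← norm_mul, hxy, norm_one]
  have hx0 : 0 ≤ ‖x‖ := norm_nonneg x
  have hy0 : 0 ≤ ‖y‖ := norm_nonneg y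
  nlinarith

omit [NumberField K] in
lemma norm_extensionEmbedding793 (w : InfinitePlace K) (x : w.Completion) :
    ‖InfinitePlace.Completion.extensionEmbedding w x‖ = ‖x‖ := by
  have h := (InfinitePlace.Completion.isometry_extensionEmbedding w).norm_map_of_map_zero
    (map_zero _) x
  exact h

/-- **The diagonal entries of an upper triangular element of `K⁰` have adelic norm `1`.** -/
lemma adNorm_diag_of_upper_std793 {u : G K} (hu : IsUpper K u) (hk : IsStdCompact K u) :
    adNorm K ((u : Matrix (Fin 2) (Fin 2) (Adl K)) 0 0) = 1 ∧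
      adNorm K ((u : Matrix (Fin 2) (Fin 2) (Adl K)) 1 1) = 1 := by
  have hu' : IsUpper K u⁻¹ := isUpper_inv793 hu
  have h00 : (u : Matrix (Fin 2) (Fin 2) (Adl K)) 0 0
      * ((u⁻¹ : G K) : Matrix (Fin 2) (Fin 2) (Adl K)) 0 0 = 1 := by
    rw [← mul_apply_zero_zero793 hu', mul_inv_cancel]; simp
  have h11 : (u : Matrix (Fin 2) (Fin 2) (Adl K)) 1 1
      * ((u⁻¹ : G K) : Matrix (Fin 2) (Fin 2) (Adl K)) 1 1 = 1 := by
    rw [← mul_apply_one_one793 hu, mul_inv_cancel]; simp
  have h10 : (u : Matrix (Fin 2) (Fin 2) (Adl K)) 1 0 = 0 := hu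
  -- the archimedean places
  have hinf : ∀ w : InfinitePlace K,
      ‖((u : Matrix (Fin 2) (Fin 2) (Adl K)) 0 0).1 w‖ = 1 ∧
        ‖((u : Matrix (Fin 2) (Fin 2) (Adl K)) 1 1).1 w‖ = 1 := by
    intro w
    have hU := (hk.2 w).1
    have hU' : (infComp w u).conjTranspose * infComp w u = 1 := mul_eq_one_comm.mp hU
    have hz : infComp w u 1 0 = 0 := by
      show InfinitePlace.Completion.extensionEmbedding w
        (((u : Matrix (Fin 2) (Fin 2) (Adl K)) 1 0).1 w) = 0
      rw [h10]; exact map_zero _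
    have e11 := congrFun (congrFun hU 1) 1
    have e00 := congrFun (congrFun hU' 0) 0
    rw [Matrix.mul_apply, Fin.sum_univ_two] at e11 e00
    simp only [Matrix.conjTranspose_apply, hz, star_zero, mul_zero, zero_add,
      add_zero, Matrix.one_apply_eq] at e11 e00
    constructor
    · rw [← norm_extensionEmbedding793]
      have : ‖infComp w u 0 0‖ = 1 := by
        have h := congrArg norm e00
        rw [norm_mul, norm_star, norm_one] at h
        have h0 : 0 ≤ ‖infComp w u 0 0‖ := norm_nonneg _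
        nlinarith
      exact this
    · rw [← norm_extensionEmbedding793]
      have : ‖infComp w u 1 1‖ = 1 := by
        have h := congrArg norm e11
        rw [norm_mul, norm_star, norm_one] at h
        have h0 : 0 ≤ ‖infComp w u 1 1‖ := norm_nonneg _
        nlinarith
      exact this
  -- the finite places
  have hfin : ∀ v : HeightOneSpectrum (𝓞 K),
      ‖((u : Matrix (Fin 2) (Fin 2) (Adl K)) 0 0).2 v‖ = 1 ∧
        ‖((u : Matrix (Fin 2) (Fin 2) (Adl K)) 1 1).2 v‖ = 1 := by
    intro v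
    constructor
    · refine norm_eq_one_of_mul793 v ((hk.1 v).1 0 0) ((hk.1 v).2 0 0) ?_
      have := congrArg (projFin793 v) h00
      rwa [map_mul, map_one] at this
    · refine norm_eq_one_of_mul793 v ((hk.1 v).1 1 1) ((hk.1 v).2 1 1) ?_
      have := congrArg (projFin793 v) h11
      rwa [map_mul, map_one] at this
  exact ⟨adNorm_eq_one_of793 (fun w => (hinf w).1) (fun v => (hfin v).1),
    adNorm_eq_one_of793 (fun w => (hinf w).2) (fun v => (hfin v).2)⟩

/-! ## The interface Prop -/

/-- **`HeightC`** from the algebraic parts of `AdNormC`. -/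
theorem heightC793 (K : Type) [Field K] [NumberField K] (hN : AdNormC K) : HeightC K := by
  refine ⟨?_, ?_, ?_, ?_⟩
  · -- well defined
    rintro g t t' ⟨b, k, hb, hk, hg, ht⟩ ⟨b', k', hb', hk', hg', ht'⟩
    set u : G K := k * k'⁻¹ with hu
    have hbu : b' = b * u := by
      have : b * k = b' * k' := by rw [← hg, ← hg']
      rw [hu, ← mul_assoc, this, mul_assoc, mul_inv_cancel, mul_one]
    have hkU : IsStdCompact K u := isStdCompact_mul793 hk (isStdCompact_inv793 hk')
    have hupU : IsUpper K u := isUpper_of_mul793 hb (hbu ▸ hb')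
    obtain ⟨n0, n1⟩ := adNorm_diag_of_upper_std793 hupU hkU
    have hd := isUnit_diag793 hb
    have hdu := isUnit_diag793 hupU
    rw [ht, ht', hbu, mul_apply_zero_zero793 hupU, mul_apply_one_one793 hb,
      adNorm_mul793 hN hd.1 hdu.1, adNorm_mul793 hN hd.2 hdu.2, n0, n1, mul_one, mul_one]
  · -- left invariance under `B(K)`
    rintro β hβ g t ⟨b, k, hb, hk, hg, ht⟩
    have hβ0 : (β : Matrix (Fin 2) (Fin 2) K) 1 0 = 0 := hβ
    have hup : IsUpper K (ratG K β) := by
      show ((ratG K β : G K) : Matrix (Fin 2) (Fin 2) (Adl K)) 1 0 = 0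
      show algebraMap K (Adl K) ((β : Matrix (Fin 2) (Fin 2) K) 1 0) = 0
      rw [hβ0, map_zero]
    have hdet : (β : Matrix (Fin 2) (Fin 2) K).det ≠ 0 := by
      have := (Matrix.GeneralLinearGroup.det β).ne_zero
      simpa using this
    rw [Matrix.det_fin_two, hβ0, mul_zero, sub_zero] at hdet
    have h0 : (β : Matrix (Fin 2) (Fin 2) K) 0 0 ≠ 0 := left_ne_zero_of_mul hdet
    have h1 : (β : Matrix (Fin 2) (Fin 2) K) 1 1 ≠ 0 := right_ne_zero_of_mul hdet
    have e0 : ((ratG K β : G K) : Matrix (Fin 2) (Fin 2) (Adl K)) 0 0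
        = algebraMap K (Adl K) ((β : Matrix (Fin 2) (Fin 2) K) 0 0) := rfl
    have e1 : ((ratG K β : G K) : Matrix (Fin 2) (Fin 2) (Adl K)) 1 1
        = algebraMap K (Adl K) ((β : Matrix (Fin 2) (Fin 2) K) 1 1) := rfl
    have hdβ := isUnit_diag793 hup
    have hd := isUnit_diag793 hb
    refine ⟨ratG K β * b, k, isUpper_mul793 hup hb, hk, by rw [hg, mul_assoc], ?_⟩
    rw [mul_apply_zero_zero793 hb, mul_apply_one_one793 hup, adNorm_mul793 hN hdβ.1 hd.1,
      adNorm_mul793 hN hdβ.2 hd.2, e0, e1, adNorm_algebraMap793 hN h0,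
      adNorm_algebraMap793 hN h1, one_mul, one_mul]
    exact ht
  · -- left invariance under the centre
    rintro z ⟨c, hz⟩ g t ⟨b, k, hb, hk, hg, ht⟩
    have hup : IsUpper K z := by
      show (z : Matrix (Fin 2) (Fin 2) (Adl K)) 1 0 = 0
      rw [hz]; simp
    have e0 : (z : Matrix (Fin 2) (Fin 2) (Adl K)) 0 0 = c := by rw [hz]; simp
    have e1 : (z : Matrix (Fin 2) (Fin 2) (Adl K)) 1 1 = c := by rw [hz]; simp
    have hdz := isUnit_diag793 hup
    have hd := isUnit_diag793 hb
    have hc : IsUnit c := e0 ▸ hdz.1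
    have hcpos : 0 < adNorm K c := adNorm_pos793 hN hc
    refine ⟨z * b, k, isUpper_mul793 hup hb, hk, by rw [hg, mul_assoc], ?_⟩
    rw [mul_apply_zero_zero793 hb, mul_apply_one_one793 hup, e0, e1,
      adNorm_mul793 hN hc hd.1, adNorm_mul793 hN hc hd.2, mul_div_mul_left _ _ hcpos.ne']
    exact ht
  · -- right invariance under `K⁰`
    rintro k₁ hk₁ g t ⟨b, k, hb, hk, hg, ht⟩
    exact ⟨b, k * k₁, hb, isStdCompact_mul793 hk hk₁, by rw [hg, mul_assoc], ht⟩

end Fermat.Agent.LT.T1.H793

end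

end
-- ===== PACK-END LT/T1/H793/Height.lean

-- ===== PACK-BEGIN LT/H670/WallDepl.lean
section



/-!
# Row LT -- WALL-TOP, leaf DEPL (helper670): PROVED

`deplWC : DeplWC`: an almost-everywhere wall output gives `LTB.WallOut`, by depletion at the
exceptional primes (`exists_twist_Gamma1`), the character being induced to the new level.
-/

set_option autoImplicit false

open AutomorphicForm FLT.ExplicitLift EisensteinWeightOne
open WeierstrassCurve
open CongruenceSubgroup IsDedekindDomain NumberField ModularFormClass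
open scoped MatrixGroups

noncomputable section

namespace Fermat.Agent.LT.H670

local notation "Γℚ" => (AlgebraicClosure ℚ ≃ₐ[ℚ] AlgebraicClosure ℚ)

/-- the induced character at a prime not dividing the new level -/
theorem changeLevel_natCast {N N' : ℕ} [NeZero N'] (h : N ∣ N') (ε : DirichletCharacter ℂ N)
    {p : ℕ} (hp : p.Coprime N') :
    (DirichletCharacter.changeLevel h ε) ((p : ℕ) : ZMod N') = ε ((p : ℕ) : ZMod N) := by
  have hu : IsUnit ((p : ℕ) : ZMod N') := (ZMod.isUnit_iff_coprime p N').mpr hp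
  obtain ⟨u, hu'⟩ := hu
  rw [← hu', DirichletCharacter.changeLevel_eq_cast_of_dvd ε h u, hu', ZMod.cast_natCast h]

/-- **DEPL**, proved. -/
theorem deplWC : DeplWC := by
  classical
  intro ρ Ψ hW
  obtain ⟨N, hN, ε, f, ι, S, hf1, hrel, hmatch⟩ := hW
  set m : ℕ := ∏ p ∈ S.filter (fun p => p ≠ 0), p with hm
  have hm0 : m ≠ 0 := by
    rw [hm]
    exact Finset.prod_ne_zero_iff.mpr fun p hp => (Finset.mem_filter.mp hp).2
  have hmI : NeZero m := ⟨hm0⟩
  have hMI : NeZero (N * m ^ 2) := ⟨mul_ne_zero (NeZero.ne N) (pow_ne_zero 2 hm0)⟩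
  obtain ⟨g, hg⟩ := exists_twist_Gamma1 N m 1 f (fun x => if IsUnit x then 1 else 0)
  have hdvd : N ∣ N * m ^ 2 := Dvd.intro _ rfl
  -- the coefficients of `g`
  have hgc : ∀ n : ℕ, n.Coprime m → qCoeff g n = qCoeff f n := by
    intro n hn
    rw [hg n, if_pos ((ZMod.isUnit_iff_coprime n m).mpr hn), one_mul]
  have hgn : ∀ n : ℕ, ¬ n.Coprime m → qCoeff g n = 0 := by
    intro n hn
    rw [hg n, if_neg (fun hu => hn ((ZMod.isUnit_iff_coprime n m).mp hu)), zero_mul]
  refine ⟨N * m ^ 2, hMI, DirichletCharacter.changeLevel hdvd ε, g, ι, ?_, ?_, ?_⟩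
  · rw [hgc 1 (Nat.coprime_one_left m), hf1]
  · intro p hp hpN' n
    have hpN : ¬ p ∣ N := fun h => hpN' (Dvd.dvd.mul_right h _)
    have hpm : ¬ p ∣ m := fun h => hpN' (Dvd.dvd.mul_left (dvd_pow h two_ne_zero) N)
    have hpc : p.Coprime m := (Nat.Prime.coprime_iff_not_dvd hp).mpr hpm
    have hpc' : p.Coprime (N * m ^ 2) := (Nat.Prime.coprime_iff_not_dvd hp).mpr hpN'
    rw [changeLevel_natCast hdvd ε hpc', hgc p hpc]
    have key := hrel p hp hpN n
    by_cases hn : n.Coprime m
    · rw [hgc (p * n) (Nat.Coprime.mul_left hpc hn), hgc n hn]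
      by_cases hd : p ∣ n
      · rw [if_pos hd] at key ⊢
        rw [hgc (n / p) (Nat.Coprime.coprime_dvd_left (Nat.div_dvd_of_dvd hd) hn)]
        exact key
      · rw [if_neg hd] at key ⊢
        exact key
    · rw [hgn (p * n) (fun hc => hn (Nat.Coprime.coprime_mul_left hc)), hgn n hn]
      by_cases hd : p ∣ n
      · have hn3 : ¬ (n / p).Coprime m := by
          intro hc
          apply hn
          have := Nat.Coprime.mul_left hpc hc
          rwa [Nat.mul_div_cancel' hd] at this
        rw [if_pos hd, hgn (n / p) hn3]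
        simp
      · rw [if_neg hd]
        simp
  · intro p hp hp3N' A hA σ hσ hdet h4
    have hpm : ¬ p ∣ m := fun hd =>
      hp3N' (Dvd.dvd.mul_left (Dvd.dvd.mul_left (dvd_pow hd two_ne_zero) N) 3)
    have hpS : p ∉ S := fun hmem =>
      hpm (Finset.dvd_prod_of_mem _ (Finset.mem_filter.mpr ⟨hmem, hp.ne_zero⟩))
    rw [hgc p ((Nat.Prime.coprime_iff_not_dvd hp).mpr hpm)]
    exact hmatch p hp hpS A hA σ hσ hdet h4

/-- **WALL-TOP** without the depletion leaf. -/
theorem wall_of_leaves' (notion : CuspidalityNotion ℂ)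
    (hT : TowerC) (hSeed : SeedC notion) (h3 : Desc3C notion) (h2 : Desc2C notion)
    (hSplit : SplitC) (hPar : ParC notion) (hDict : DictC notion) : LTB.WallC :=
  wall_of_leaves notion hT hSeed h3 h2 hSplit hPar hDict deplWC

end Fermat.Agent.LT.H670

end

end
-- ===== PACK-END LT/H670/WallDepl.lean

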