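import Mathlib
import Fermat.Agent.Pack.LT2.E0L2
import Fermat.Agent.Pack.LT2.E2L1
import Fermat.Agent.Pack.LT2.E2L2
import Fermat.Agent.Pack.LT2.E3L2
import Fermat.Agent.Pack.LT2.E4L3

set_option linter.all false

-- ===== PACK-BEGIN LT/T2/Spec.lean
section




/-!
# Row LT, tower T2 (cuspidal `L²` theory, multiplicity one): SPEC (helper130, architect)

OFF-MAIN.  Definitions written out, sub-leaf Props, PROVED tops `top_cuspSpec`, `top_gps`,
`top_smo`.  Nothing is assumed, there is no opaque constant and no placeholder proof.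
Vocabulary: `Fermat/Agent/LT/H556/A0.lean` (helper556) and `Fermat/Agent/LT/T1/Spec.lean`
(helper54, v1), byte-identical copies; nothing of them is re-defined.

## The frame (IMPORTANT for T4, T5)

The functions of A0 are right invariant under the positive scalars at EVERY infinite place
(`A_inf = ∏_w ℝ_{>0}`).  The subgroup `GL₂(K) · A_inf` is NOT closed in `GL₂(𝔸_K)` when the unit
group of `K` is infinite (the scalar units lie in a compact group; `K = E` sextic), so the
quotient by `A_inf` carries no fundamental domain.  The frame of this tower is the frame of T1: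

* `Z⁺ = ℝ_{>0}`, embedded DIAGONALLY in all infinite places (`IsDiagPosScalar`);
  `GL₂(K) · Z⁺` is closed, `GL₂(K) Z⁺ \ GL₂(𝔸_K) = GL₂(K) \ GL₂(𝔸_K)¹` has finite volume;
* a `Frame K` = a Haar measure `μ` of `G K` (Borel) and a strict Borel fundamental domain `D` of
  `GL₂(K)` in the slab `T1.slab K = {1 ≤ ‖det g‖_𝔸 < 2}`, of finite measure (`T1.FundDomC`);
* `pair F φ ψ = ∫_D φ ψ̄ dμ`: for `Z⁺`-invariant functions this is the Petersson product of
  `GL₂(K) \ GL₂(𝔸_K)¹`, up to the positive constant `∫_{1 ≤ r^{2n} < 2} dr / r`;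
* test functions are the functions of T3 (helper14): continuous with COMPACT SUPPORT on `G K`
  (not invariant under any scalars), here in addition smooth at infinity and bi-invariant under
  `U(𝔫) K_∞`; `conv F f φ (x) = ∫_{G K} φ(x h) f(h) dμ(h)` is `T3.Rop` (same term), `adj` is
  `T3.starG`.  The scalars are central, so `conv F f` preserves the `A_inf`-invariant functions.

## Tower Props (the interface of T2)

* `CuspSpec K 𝔫`: for every frame, an orthonormal family of bounded continuous cusp functions of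
  level `U(𝔫)`, joint eigenfunctions of the Hecke operators at `v ∤ 𝔫` (`A0.IsHeckeEigenAt`) and of
  the sphere means at the infinite places (`MeanEigC`, `MeanEigR`; A0's parameter `0` is the
  eigenvalue function `sph0C`, resp. `sph0R`), COMPLETE (Parseval for every cusp function),
  with the unitarity relations `|b_v| = 1`, `conj a_v = a_v conj b_v`, `√q_v |a_v| ≤ q_v + 1`.
  The index type is arbitrary (no claim that the family is infinite).
* `GPSCore K 𝔫`: THE ESTIMATE in the form common to the cuspidal and to the Eisenstein-killing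
  route: `R(f)ψ - R(f)ψ_N` is rapidly decreasing on Siegel sets, with constants `C ‖ψ‖₂`, for
  every automorphic `ψ` of level `𝔫` (`IsAutFn`), `ψ_N` its constant term (`IsConstTerm`).
* `GPS K 𝔫`, `HSBound K 𝔫`, `ConvRegular K 𝔫`: the Gelfand--Piatetski-Shapiro estimate on cusp
  functions, its Hilbert--Schmidt form and its regularity form.
* `GPSKill K 𝔫`, `HSKill K 𝔫`: the same for ALL automorphic functions of level `𝔫`, for a test
  function which kills the constant terms (`KillsConstTerms`; the EK functions of T3 do):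
  this is `EK_HilbertSchmidt` of the T5 interface.
* `SMO K`: strong multiplicity one on `A0.notion556` (shape of `DescentPackage.multOne`).

## Sub-leaves (registry rows `T2.01` ... `T2.13`)

Each leaf is a `def ... : Prop`; the references are in the doc-comments; the memo
`coord/LT-T2-helper130.md` has the size estimates and the falsity checks of the author.
-/

set_option autoImplicit false

open IsDedekindDomain NumberField MeasureTheory AutomorphicForm
open Fermat.Agent.LT.H556.A0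
open scoped ContDiff

noncomputable section

namespace Fermat.Agent.LT.T2

variable {K : Type} [Field K] [NumberField K]

/-! ## 1. The frames -/

/-- A positive real scalar, THE SAME at every infinite place, trivial at the finite places:
the group `Z⁺`. -/
def IsDiagPosScalar (z : G K) : Prop :=
  (∀ v : HeightOneSpectrum (𝓞 K), TrivAtFin v z) ∧
    ∃ r : ℝ, 0 < r ∧ ∀ w : InfinitePlace K, infComp w z = Matrix.diagonal (fun _ => (r : ℂ))

/-- The Borel `σ`-algebra of `G K` (the one of `T1.UnimodC`, `T1.FundDomC`).  LOCAL instance of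
this file; a user writes `attribute [local instance] Fermat.Agent.LT.T2.borelG`. -/
local instance borelG : MeasurableSpace (G K) := borel (G K)

/-- A frame: a Haar measure of `G K` and a strict Borel fundamental domain of `GL₂(K)` in the
slab, of finite measure.  Frames exist by `T1.LocCompC` and `T1.FundDomC`. -/
structure Frame (K : Type) [Field K] [NumberField K] where
  μ : Measure (G K)
  haar : μ.IsHaarMeasure
  D : Set (G K)
  meas : MeasurableSet D
  sub : D ⊆ T1.slab K
  strict : ∀ g ∈ T1.slab K, ∃! γ : GL (Fin 2) K, T1.ratG K γ * g ∈ D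
  fin : μ D < ⊤

/-! ## 2. Cusp functions, test functions, operators -/

/-- A cusp function of level `U(𝔫)`: the conditions of `A0.IsSph0CuspFormFor` without the
eigen-conditions and without `ne_zero`. -/
structure IsCuspFn (𝔫 : Ideal (𝓞 K)) (φ : G K → ℂ) : Prop where
  cont : Continuous φ
  bdd : ∃ C : ℝ, ∀ g : G K, ‖φ g‖ ≤ C
  left_inv : ∀ (γ : GL (Fin 2) K) (g : G K),
    φ (Matrix.GeneralLinearGroup.map (algebraMap K (Adl K)) γ * g) = φ g
  level_inv : ∀ u : G K, InLevelGroup 𝔫 u → ∀ g : G K, φ (g * u) = φ g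
  arch_scalar : ∀ (w : InfinitePlace K) (z : G K), IsArchPosScalar w z →
    ∀ g : G K, φ (g * z) = φ g
  arch_compact : ∀ (w : InfinitePlace K) (k : G K), IsArchCompact w k →
    ∀ g : G K, φ (g * k) = φ g
  cuspidal : IsCuspidalFn φ

/-- The form of A0 is a cusp function of its level. -/
theorem isCuspFn_of_sph0 {π : HeckeEigensystem K ℂ} {φ : G K → ℂ}
    (h : IsSph0CuspFormFor π φ) : IsCuspFn π.level φ :=
  ⟨h.cont, h.bdd, h.left_inv, h.level_inv, h.arch_scalar, h.arch_compact, h.cuspidal⟩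

/-- An automorphic function of level `U(𝔫)`: a cusp function without the cuspidality. -/
structure IsAutFn (𝔫 : Ideal (𝓞 K)) (ψ : G K → ℂ) : Prop where
  cont : Continuous ψ
  bdd : ∃ C : ℝ, ∀ g : G K, ‖ψ g‖ ≤ C
  left_inv : ∀ (γ : GL (Fin 2) K) (g : G K),
    ψ (Matrix.GeneralLinearGroup.map (algebraMap K (Adl K)) γ * g) = ψ g
  level_inv : ∀ u : G K, InLevelGroup 𝔫 u → ∀ g : G K, ψ (g * u) = ψ g
  arch_scalar : ∀ (w : InfinitePlace K) (z : G K), IsArchPosScalar w z →
    ∀ g : G K, ψ (g * z) = ψ g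
  arch_compact : ∀ (w : InfinitePlace K) (k : G K), IsArchCompact w k →
    ∀ g : G K, ψ (g * k) = ψ g

theorem IsCuspFn.isAutFn {𝔫 : Ideal (𝓞 K)} {φ : G K → ℂ} (h : IsCuspFn 𝔫 φ) : IsAutFn 𝔫 φ :=
  ⟨h.cont, h.bdd, h.left_inv, h.level_inv, h.arch_scalar, h.arch_compact⟩

/-- `Ψ` is the constant term of `ψ` along the upper unipotent radical:
`∫_D ψ(n(x) g) dx = vol(D) Ψ(g)` for every Haar measure of `𝔸_K` and every fundamental domain `D`
of `K` (quantifiers of `A0.IsCuspidalFn`). -/
def IsConstTerm (ψ Ψ : G K → ℂ) : Prop :=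
  letI : MeasurableSpace (Adl K) := borel (Adl K)
  ∀ μ : MeasureTheory.Measure (Adl K), μ.IsAddHaarMeasure →
    ∀ D : Set (Adl K),
      MeasureTheory.IsAddFundamentalDomain
        ((algebraMap K (Adl K)).toAddMonoidHom.range) D μ →
      ∀ n : Adl K → G K,
        (∀ x : Adl K, (n x : Matrix (Fin 2) (Fin 2) (Adl K)) = !![1, x; 0, 1]) →
        ∀ g : G K, ∫ x in D, ψ (n x * g) ∂μ = (((μ D).toReal : ℝ) : ℂ) * Ψ g

/-- A cuspidal function has constant term `0`. -/
theorem isConstTerm_zero {φ : G K → ℂ} (h : IsCuspidalFn φ) : IsConstTerm φ (fun _ => 0) := by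
  intro μ hμ D hD n hn g
  simpa using h μ hμ D hD n hn g

/-- The Petersson pairing of the frame (linear in `φ`, conjugate linear in `ψ`). -/
def pair (F : Frame K) (φ ψ : G K → ℂ) : ℂ :=
  ∫ g in F.D, φ g * (starRingEnd ℂ) (ψ g) ∂F.μ

/-- The square of the `L²`-norm. -/
def nsq (F : Frame K) (φ : G K → ℂ) : ℝ := (pair F φ φ).re

/-- `f` is smooth in the archimedean variables: smooth along every smooth finite-dimensional
family of elements supported at the infinite places. -/
def IsSmoothAtInf (f : G K → ℂ) : Prop :=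
  ∀ (n : ℕ) (h : (Fin n → ℝ) → G K),
    (∀ (t : Fin n → ℝ) (v : HeightOneSpectrum (𝓞 K)), TrivAtFin v (h t)) →
    (∀ (w : InfinitePlace K) (i j : Fin 2), ContDiff ℝ ∞ (fun t => infComp w (h t) i j)) →
    ∀ g : G K, ContDiff ℝ ∞ (fun t => f (g * h t))

/-- A test function of level `U(𝔫)`: continuous with compact support on `G K` (as in T3), smooth
at infinity, left and right invariant under `U(𝔫)` and under the compact groups at infinity. -/
structure IsTestFn (𝔫 : Ideal (𝓞 K)) (f : G K → ℂ) : Prop where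
  cont : Continuous f
  smooth : IsSmoothAtInf f
  cpt : HasCompactSupport f
  level_right : ∀ u : G K, InLevelGroup 𝔫 u → ∀ g : G K, f (g * u) = f g
  level_left : ∀ u : G K, InLevelGroup 𝔫 u → ∀ g : G K, f (u * g) = f g
  arch_right : ∀ (w : InfinitePlace K) (k : G K), IsArchCompact w k → ∀ g : G K, f (g * k) = f g
  arch_left : ∀ (w : InfinitePlace K) (k : G K), IsArchCompact w k → ∀ g : G K, f (k * g) = f g

/-- A SPHERICAL test function: a test function which, at the places dividing the level, is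
supported in `U(𝔫)_v` (the unit element of the local Hecke algebra).  These commute. -/
structure IsSphTestFn (𝔫 : Ideal (𝓞 K)) (f : G K → ℂ) : Prop where
  test : IsTestFn 𝔫 f
  bad_unit : ∀ g : G K, f g ≠ 0 → ∀ v : HeightOneSpectrum (𝓞 K), v.asIdeal ∣ 𝔫 →
    ∀ i j : Fin 2, (finComp v g - 1) i j ∈ idealClosure 𝔫 v ∧
      (finComp v g⁻¹ - 1) i j ∈ idealClosure 𝔫 v

/-- The adjoint test function `f*(g) = conj f(g⁻¹)`. -/
def adj (f : G K → ℂ) : G K → ℂ := fun g => (starRingEnd ℂ) (f g⁻¹)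

/-- Right convolution `(R(f) φ)(x) = ∫_{G K} φ(x h) f(h) dμ(h)` (the term of `T3.Rop`). -/
def conv (F : Frame K) (f φ : G K → ℂ) : G K → ℂ :=
  fun x => ∫ h, φ (x * h) * f h ∂F.μ

/-- The Hecke sum `(T_H φ)(g) = ∑_{h ∈ H} φ(g h)`. -/
def heckeSum (H : Finset (G K)) (φ : G K → ℂ) : G K → ℂ :=
  fun g => ∑ h ∈ H, φ (g * h)

/-- Right translation `(S_z φ)(g) = φ(g z)`. -/
def shift (z : G K) (φ : G K → ℂ) : G K → ℂ := fun g => φ (g * z)

/-- `Y` parametrises the geodesic sphere of radius `d` at the complex place `w` (A0). -/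
def IsSphereAt (w : InfinitePlace K) (d : ℝ) (Y : ℝ → ℝ → G K) : Prop :=
  ∀ α β : ℝ, IsLocalAtInf w (Y α β) ∧ infComp w (Y α β) = rotZ α * rotY β * torus d

/-- `Y` parametrises the geodesic circle of radius `t` at the real place `w` (A0). -/
def IsCircleAt (w : InfinitePlace K) (t : ℝ) (Y : ℝ → G K) : Prop :=
  ∀ θ : ℝ, IsLocalAtInf w (Y θ) ∧ infComp w (Y θ) = rotY θ * torus t

/-- The (unnormalised) sphere mean at a complex place. -/
def sphereMean (Y : ℝ → ℝ → G K) (φ : G K → ℂ) : G K → ℂ :=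
  fun g => ∫ α in (0 : ℝ)..(2 * Real.pi), ∫ β in (0 : ℝ)..Real.pi,
    φ (g * Y α β) * ((Real.sin β : ℝ) : ℂ)

/-- The (unnormalised) circle mean at a real place. -/
def circleMean (Y : ℝ → G K) (φ : G K → ℂ) : G K → ℂ :=
  fun g => ∫ θ in (0 : ℝ)..(2 * Real.pi), φ (g * Y θ)

/-- `φ` is an eigenfunction of all sphere means at the complex place `w`, with eigenvalue
function `m` (unnormalised: `m d = 4π ·` spherical function). -/
def MeanEigC (φ : G K → ℂ) (w : InfinitePlace K) (m : ℝ → ℂ) : Prop :=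
  ∀ d : ℝ, 0 < d → ∀ Y : ℝ → ℝ → G K, IsSphereAt w d Y →
    ∀ g : G K, sphereMean Y φ g = m d * φ g

/-- `φ` is an eigenfunction of all circle means at the real place `w`, with eigenvalue
function `m` (unnormalised: `m t = 2π ·` spherical function). -/
def MeanEigR (φ : G K → ℂ) (w : InfinitePlace K) (m : ℝ → ℂ) : Prop :=
  ∀ t : ℝ, 0 < t → ∀ Y : ℝ → G K, IsCircleAt w t Y →
    ∀ g : G K, circleMean Y φ g = m t * φ g

/-- The eigenvalue function of parameter `0` at a complex place: `4π d / sinh d`. -/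
def sph0C : ℝ → ℂ := fun d => ((4 * Real.pi * (d / Real.sinh d) : ℝ) : ℂ)

/-- The eigenvalue function of parameter `0` at a real place: `2π P_{-1/2}(cosh t)`. -/
def sph0R : ℝ → ℂ := fun t =>
  ((∫ θ in (0 : ℝ)..(2 * Real.pi),
    (Real.cosh t + Real.sinh t * Real.cos θ) ^ (-(1 / 2 : ℝ)) : ℝ) : ℂ)

/-- Compatibility with A0 (complex place). -/
theorem meanEigC_sph0_iff (φ : G K → ℂ) (w : InfinitePlace K) :
    MeanEigC φ w sph0C ↔ MeanValueComplex φ w :=
  Iff.rfl

/-- Compatibility with A0 (real place). -/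
theorem meanEigR_sph0_iff (φ : G K → ℂ) (w : InfinitePlace K) :
    MeanEigR φ w sph0R ↔ MeanValueReal φ w :=
  Iff.rfl

/-- The operators of the tower: convolutions by spherical test functions, Hecke sums and scalar
shifts (and their inverses) at the places prime to the level, sphere and circle means at the
infinite places, and their composites. -/
inductive IsOp (𝔫 : Ideal (𝓞 K)) (F : Frame K) : ((G K → ℂ) → (G K → ℂ)) → Prop
  | conv (f : G K → ℂ) (hf : IsSphTestFn 𝔫 f) : IsOp 𝔫 F (conv F f)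
  | hecke (v : HeightOneSpectrum (𝓞 K)) (hv : ¬ v.asIdeal ∣ 𝔫) (H : Finset (G K))
      (hH : IsHeckeCosetSystem v H) : IsOp 𝔫 F (heckeSum H)
  | shift (v : HeightOneSpectrum (𝓞 K)) (hv : ¬ v.asIdeal ∣ 𝔫) (z : G K)
      (hz : IsScalarUniformizerAt v z) : IsOp 𝔫 F (shift z)
  | shiftInv (v : HeightOneSpectrum (𝓞 K)) (hv : ¬ v.asIdeal ∣ 𝔫) (z : G K)
      (hz : IsScalarUniformizerAt v z) : IsOp 𝔫 F (shift z⁻¹)
  | sphere (w : InfinitePlace K) (hw : w.IsComplex) (d : ℝ) (hd : 0 < d) (Y : ℝ → ℝ → G K)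
      (hY : IsSphereAt w d Y) : IsOp 𝔫 F (sphereMean Y)
  | circle (w : InfinitePlace K) (hw : w.IsReal) (t : ℝ) (ht : 0 < t) (Y : ℝ → G K)
      (hY : IsCircleAt w t Y) : IsOp 𝔫 F (circleMean Y)
  | comp (S T : (G K → ℂ) → (G K → ℂ)) (hS : IsOp 𝔫 F S) (hT : IsOp 𝔫 F T) :
      IsOp 𝔫 F (fun φ => S (T φ))

/-! ## 3. The tower Props -/

/-- An orthonormal, complete family of joint eigen-cusp-functions of level `U(𝔫)`. -/
structure IsCuspBasis (𝔫 : Ideal (𝓞 K)) (F : Frame K) {ι : Type} (u : ι → G K → ℂ)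
    (m : ι → InfinitePlace K → ℝ → ℂ) (a b : ι → HeightOneSpectrum (𝓞 K) → ℂ) : Prop where
  cusp : ∀ j, IsCuspFn 𝔫 (u j)
  norm_one : ∀ j, pair F (u j) (u j) = 1
  orth : ∀ i j, i ≠ j → pair F (u i) (u j) = 0
  eig_complex : ∀ j (w : InfinitePlace K), w.IsComplex → MeanEigC (u j) w (m j w)
  eig_real : ∀ j (w : InfinitePlace K), w.IsReal → MeanEigR (u j) w (m j w)
  hecke : ∀ j (v : HeightOneSpectrum (𝓞 K)), ¬ v.asIdeal ∣ 𝔫 →
    IsHeckeEigenAt (u j) v (a j v) (b j v)
  /-- `S_v` is unitary. -/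
  unit_b : ∀ j (v : HeightOneSpectrum (𝓞 K)), ¬ v.asIdeal ∣ 𝔫 → ‖b j v‖ = 1
  /-- `T_v* = S_v⁻¹ T_v` and `T_v` is normal. -/
  conj_a : ∀ j (v : HeightOneSpectrum (𝓞 K)), ¬ v.asIdeal ∣ 𝔫 →
    (starRingEnd ℂ) (a j v) = a j v * (starRingEnd ℂ) (b j v)
  /-- The trivial bound `‖T_v‖ ≤ q_v + 1`. -/
  bound_a : ∀ j (v : HeightOneSpectrum (𝓞 K)), ¬ v.asIdeal ∣ 𝔫 →
    ‖a j v‖ * Real.sqrt (Ideal.absNorm v.asIdeal : ℝ) ≤ (Ideal.absNorm v.asIdeal : ℝ) + 1
  /-- The sphere and circle means are self-adjoint. -/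
  real_m : ∀ j (w : InfinitePlace K) (d : ℝ), 0 < d → (m j w d).im = 0
  parseval : ∀ φ : G K → ℂ, IsCuspFn 𝔫 φ →
    HasSum (fun j => ‖pair F φ (u j)‖ ^ 2) (nsq F φ)

/-- **TOWER PROP 1 (discreteness of the cuspidal spectrum, eigenfunction form).**
[Gelfand--Graev--Piatetski-Shapiro, Representation theory and automorphic functions, ch. 3],
[Godement, The spectral decomposition of cusp forms, Proc. Symp. Pure Math. 9],
[Bump, Automorphic forms and representations, §2.3 and §3.3],
[Garrett, Modern analysis of automorphic forms by example, vol. 1, ch. 7]. -/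
def CuspSpec (K : Type) [Field K] [NumberField K] (𝔫 : Ideal (𝓞 K)) : Prop :=
  ∀ F : Frame K, ∃ (ι : Type) (u : ι → G K → ℂ) (m : ι → InfinitePlace K → ℝ → ℂ)
    (a b : ι → HeightOneSpectrum (𝓞 K) → ℂ), IsCuspBasis 𝔫 F u m a b

/-- **TOWER PROP 2 (strong multiplicity one on `notion556`).**  Shape of
`AutomorphicForm.DescentPackage.multOne`, for `a` and `b`.
[Jacquet--Langlands, LNM 114, §11], [Casselman, On some results of Atkin and Lehner, 1973],
[Miyake, On automorphic forms on `GL₂` and Hecke operators, Ann. of Math. 94 (1971)],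
[Piatetski-Shapiro, Multiplicity one theorems, Corvallis I]. -/
def SMO (K : Type) [Field K] [NumberField K] : Prop :=
  ∀ π π' : HeckeEigensystem K ℂ, notion556.IsCusp K π → notion556.IsCusp K π' →
    HeckeEigensystem.AgreesAwayFromFinite π π' →
    ∀ v : HeightOneSpectrum (𝓞 K), ¬ v.asIdeal ∣ π.level → ¬ v.asIdeal ∣ π'.level →
      π.a v = π'.a v ∧ π.b v = π'.b v

/-! ## 4. The milestones of `CuspSpec` -/

/-- Frames exist (so that the tower Props are not vacuous). -/
def FrameExists (K : Type) [Field K] [NumberField K] : Prop := Nonempty (Frame K)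

/-- Cusp functions are square integrable on the domain and the pairing is definite. -/
def PairDefinite (K : Type) [Field K] [NumberField K] (𝔫 : Ideal (𝓞 K)) : Prop :=
  ∀ (F : Frame K) (φ : G K → ℂ), IsCuspFn 𝔫 φ →
    IntegrableOn (fun g => φ g * (starRingEnd ℂ) (φ g)) F.D F.μ ∧
      (pair F φ φ = 0 → ∀ g : G K, φ g = 0)

/-- Convolution by a test function preserves the cusp functions; the adjoint is the convolution
by `adj f`; convolutions by SPHERICAL test functions commute (Gelfand's trick). -/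
def ConvCusp (K : Type) [Field K] [NumberField K] (𝔫 : Ideal (𝓞 K)) : Prop :=
  ∀ F : Frame K,
    (∀ f : G K → ℂ, IsTestFn 𝔫 f → IsTestFn 𝔫 (adj f)) ∧
    (∀ f : G K → ℂ, IsSphTestFn 𝔫 f → IsSphTestFn 𝔫 (adj f)) ∧
    (∀ f φ : G K → ℂ, IsTestFn 𝔫 f → IsCuspFn 𝔫 φ → IsCuspFn 𝔫 (conv F f φ)) ∧
    (∀ f φ ψ : G K → ℂ, IsTestFn 𝔫 f → IsCuspFn 𝔫 φ → IsCuspFn 𝔫 ψ →
      pair F (conv F f φ) ψ = pair F φ (conv F (adj f) ψ)) ∧
    (∀ f₁ f₂ φ : G K → ℂ, IsSphTestFn 𝔫 f₁ → IsSphTestFn 𝔫 f₂ → IsCuspFn 𝔫 φ →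
      conv F f₁ (conv F f₂ φ) = conv F f₂ (conv F f₁ φ))

/-- **THE ESTIMATE, core form**: for an automorphic `ψ` of level `𝔫` with constant term `Ψ`, the
function `R(f)ψ - R(f)Ψ` is rapidly decreasing on the Siegel set `{H ≥ c}`:
`|R(f)ψ(x) - R(f)Ψ(x)| H(x)^N ≤ C ‖ψ‖₂`, with `C, c` depending on the frame, on `f` and on `N`
only.  (`H` = the height `T1.HasHeight`.)  Cuspidality is NOT assumed: this is the common core of
the classical estimate (`Ψ = 0`) and of the Eisenstein-killing estimate (`R(f)Ψ = 0`).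
[Godement, Proc. Symp. Pure Math. 9, pp. 225--234], [Bump, §2.3 and §3.3],
[Garrett, vol. 1, ch. 7], [Lang, `SL₂(ℝ)`, ch. XII], [Harish-Chandra, LNM 62, ch. I].
Proof: `R(f)ψ(x) = ∫_{N(K)\G} (∑_{ξ ∈ K} f(x⁻¹ n(ξ) y)) ψ(y) dy`; Poisson summation on
`K \ 𝔸_K` (T3 `PoissonNDC`): the term `ξ = 0` is `R(f)Ψ(x)`, the terms `ξ ≠ 0` are
`O(H(x)^{-N})` because `f` is smooth at infinity and locally constant at the finite places;
the support in `y` is `N(𝔸) x Ω`, which maps to `GL₂(K) \ G` with bounded multiplicity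
(`T1.SiegelSepC`). -/
def GPSCore (K : Type) [Field K] [NumberField K] (𝔫 : Ideal (𝓞 K)) : Prop :=
  ∀ (F : Frame K) (f : G K → ℂ), IsTestFn 𝔫 f → ∀ N : ℕ,
    ∃ C c : ℝ, 0 < c ∧ ∀ ψ Ψ : G K → ℂ, IsAutFn 𝔫 ψ → IsConstTerm ψ Ψ →
      ∀ (x : G K) (t : ℝ), T1.HasHeight K x t → c ≤ t →
        ‖conv F f ψ x - conv F f Ψ x‖ * t ^ N ≤ C * Real.sqrt (nsq F ψ)

/-- `R(f)` kills the constant terms of the automorphic functions of level `𝔫`
(the EK functions of T3 do: `T3.EKKillC`, `T3.ConstTermC`). -/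
def KillsConstTerms (𝔫 : Ideal (𝓞 K)) (F : Frame K) (f : G K → ℂ) : Prop :=
  ∀ ψ Ψ : G K → ℂ, IsAutFn 𝔫 ψ → IsConstTerm ψ Ψ → ∀ x : G K, conv F f Ψ x = 0

/-- **The estimate for a test function which kills the constant terms**: `sup |R(f) ψ| ≤ C ‖ψ‖₂`
for EVERY automorphic function of level `𝔫`.  (Lindenstrauss--Venkatesh, GAFA 17 (2007) §3;
memo helper261.) -/
def GPSKill (K : Type) [Field K] [NumberField K] (𝔫 : Ideal (𝓞 K)) : Prop :=
  ∀ (F : Frame K) (f : G K → ℂ), IsTestFn 𝔫 f → KillsConstTerms 𝔫 F f →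
    ∃ C : ℝ, ∀ ψ : G K → ℂ, IsAutFn 𝔫 ψ →
      ∀ x : G K, ‖conv F f ψ x‖ ≤ C * Real.sqrt (nsq F ψ)

/-- **Hilbert--Schmidt form of `GPSKill`** (= `EK_HilbertSchmidt` of the T5 interface):
`∑_i ‖R(f) ψ_i‖² ≤ C` for every finite orthonormal family of automorphic functions. -/
def HSKill (K : Type) [Field K] [NumberField K] (𝔫 : Ideal (𝓞 K)) : Prop :=
  ∀ (F : Frame K) (f : G K → ℂ), IsTestFn 𝔫 f → KillsConstTerms 𝔫 F f →
    ∃ C : ℝ, ∀ (n : ℕ) (ψ : Fin n → G K → ℂ), (∀ i, IsAutFn 𝔫 (ψ i)) →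
      (∀ i j, pair F (ψ i) (ψ j) = if i = j then 1 else 0) →
      ∑ i, nsq F (conv F f (ψ i)) ≤ C

/-- **The Gelfand--Piatetski-Shapiro estimate**: `sup |R(f) φ| ≤ C(f) ‖φ‖₂` on the cusp
functions.  [Godement, Proc. Symp. Pure Math. 9, pp. 225--234], [Bump, §2.3 and §3.3],
[Garrett, vol. 1, ch. 7], [Lang, `SL₂(ℝ)`, ch. XII].  Proof: `GPSCore` with `Ψ = 0` on the
Siegel set `{H ≥ c}`; the rest of a fundamental domain is compact modulo the centre
(`T1.ReductionC`, `T1.SiegelCompactC`), there the kernel is bounded. -/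
def GPS (K : Type) [Field K] [NumberField K] (𝔫 : Ideal (𝓞 K)) : Prop :=
  ∀ (F : Frame K) (f : G K → ℂ), IsTestFn 𝔫 f →
    ∃ C : ℝ, ∀ φ : G K → ℂ, IsCuspFn 𝔫 φ →
      ∀ x : G K, ‖conv F f φ x‖ ≤ C * Real.sqrt (nsq F φ)

/-- **Hilbert--Schmidt form of GPS**: `∑_i ‖R(f) φ_i‖² ≤ C` for every finite orthonormal family
of cusp functions. -/
def HSBound (K : Type) [Field K] [NumberField K] (𝔫 : Ideal (𝓞 K)) : Prop :=
  ∀ (F : Frame K) (f : G K → ℂ), IsTestFn 𝔫 f →
    ∃ C : ℝ, ∀ (n : ℕ) (φ : Fin n → G K → ℂ), (∀ i, IsCuspFn 𝔫 (φ i)) →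
      (∀ i j, pair F (φ i) (φ j) = if i = j then 1 else 0) →
      ∑ i, nsq F (conv F f (φ i)) ≤ C

/-- **Regularity form of GPS**: `R(f)` maps `L²`-Cauchy sequences of cusp functions to sequences
converging in `L²` to a cusp function. -/
def ConvRegular (K : Type) [Field K] [NumberField K] (𝔫 : Ideal (𝓞 K)) : Prop :=
  ∀ (F : Frame K) (f : G K → ℂ), IsTestFn 𝔫 f →
    ∀ φ : ℕ → G K → ℂ, (∀ k, IsCuspFn 𝔫 (φ k)) →
      (∀ ε : ℝ, 0 < ε → ∃ N : ℕ, ∀ k ≥ N, ∀ l ≥ N,
        nsq F (fun g => φ k g - φ l g) < ε) →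
      ∃ ψ : G K → ℂ, IsCuspFn 𝔫 ψ ∧
        Filter.Tendsto (fun k => nsq F (fun g => conv F f (φ k) g - ψ g)) Filter.atTop (nhds 0)

/-- **Approximate units**: every cusp function is an `L²`-limit of `R(f) φ`, `f` spherical and
self-adjoint. -/
def ApproxId (K : Type) [Field K] [NumberField K] (𝔫 : Ideal (𝓞 K)) : Prop :=
  ∀ (F : Frame K) (φ : G K → ℂ), IsCuspFn 𝔫 φ → ∀ ε : ℝ, 0 < ε →
    ∃ f : G K → ℂ, IsSphTestFn 𝔫 f ∧ adj f = f ∧
      nsq F (fun g => conv F f φ g - φ g) < ε

/-- **The operators of the tower on the cusp functions**: they preserve the cusp functions, are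
additive and homogeneous there, bounded in `L²`, commute, and each has an adjoint among them
(`T_v* = S_v⁻¹ T_v`, `S_v* = S_v⁻¹`, sphere and circle means are self-adjoint,
`R(f)* = R(adj f)`).  [Shimura, Introduction to the arithmetic theory of automorphic functions,
ch. 3], [Bump §4.6], [Helgason, Groups and geometric analysis, ch. IV §§2--3]. -/
def OpsGood (K : Type) [Field K] [NumberField K] (𝔫 : Ideal (𝓞 K)) : Prop :=
  ∀ F : Frame K,
    (∀ T, IsOp 𝔫 F T → ∀ φ : G K → ℂ, IsCuspFn 𝔫 φ → IsCuspFn 𝔫 (T φ)) ∧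
    (∀ T, IsOp 𝔫 F T → ∀ (φ ψ : G K → ℂ) (c : ℂ), IsCuspFn 𝔫 φ → IsCuspFn 𝔫 ψ →
      T (fun g => φ g + c * ψ g) = fun g => T φ g + c * T ψ g) ∧
    (∀ T, IsOp 𝔫 F T → ∃ C : ℝ, ∀ φ : G K → ℂ, IsCuspFn 𝔫 φ → nsq F (T φ) ≤ C * nsq F φ) ∧
    (∀ S T, IsOp 𝔫 F S → IsOp 𝔫 F T → ∀ φ : G K → ℂ, IsCuspFn 𝔫 φ → S (T φ) = T (S φ)) ∧
    (∀ T, IsOp 𝔫 F T → ∃ T', IsOp 𝔫 F T' ∧ ∀ φ ψ : G K → ℂ, IsCuspFn 𝔫 φ → IsCuspFn 𝔫 ψ →
      pair F (T φ) ψ = pair F φ (T' ψ))

/-- **The explicit adjoints** (needed for the unitarity relations of `IsCuspBasis`): `S_z` is an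
isometry, `T_H* = S_z⁻¹ T_H`, the sphere and circle means are self-adjoint.  TRUE for every coset
system `H` (the Hecke sum of a cusp function does not depend on `H`); for the proof take a
symmetric coset system.  Petersson invariance: `∫_D Φ(g h) dμ = ∫_D Φ(g) dμ` for every `h` and
every `GL₂(K)`-left- and `Z⁺`-invariant `Φ` (`T1.UnimodC`).  [Shimura, Introduction to the
arithmetic theory of automorphic functions, §3.4], [Bump, §4.6], [Miyake, Modular forms, §4.5]. -/
def OpsAdj (K : Type) [Field K] [NumberField K] (𝔫 : Ideal (𝓞 K)) : Prop :=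
  ∀ F : Frame K,
    (∀ v : HeightOneSpectrum (𝓞 K), ¬ v.asIdeal ∣ 𝔫 → ∀ z : G K, IsScalarUniformizerAt v z →
      ∀ φ ψ : G K → ℂ, IsCuspFn 𝔫 φ → IsCuspFn 𝔫 ψ →
        pair F (shift z φ) (shift z ψ) = pair F φ ψ) ∧
    (∀ v : HeightOneSpectrum (𝓞 K), ¬ v.asIdeal ∣ 𝔫 → ∀ (H : Finset (G K)) (z : G K),
      IsHeckeCosetSystem v H → IsScalarUniformizerAt v z →
      ∀ φ ψ : G K → ℂ, IsCuspFn 𝔫 φ → IsCuspFn 𝔫 ψ →
        pair F (heckeSum H φ) ψ = pair F φ (shift z⁻¹ (heckeSum H ψ))) ∧
    (∀ w : InfinitePlace K, w.IsComplex → ∀ d : ℝ, 0 < d → ∀ Y : ℝ → ℝ → G K, IsSphereAt w d Y →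
      ∀ φ ψ : G K → ℂ, IsCuspFn 𝔫 φ → IsCuspFn 𝔫 ψ →
        pair F (sphereMean Y φ) ψ = pair F φ (sphereMean Y ψ)) ∧
    (∀ w : InfinitePlace K, w.IsReal → ∀ t : ℝ, 0 < t → ∀ Y : ℝ → G K, IsCircleAt w t Y →
      ∀ φ ψ : G K → ℂ, IsCuspFn 𝔫 φ → IsCuspFn 𝔫 ψ →
        pair F (circleMean Y φ) ψ = pair F φ (circleMean Y ψ))

/-- **Abstract spectral theorem** (Mathlib only; no automorphic content).  `V` a complex
pre-Hilbert space, `𝒜` a commuting family of bounded operators closed under adjoints, `𝒞 ⊆ 𝒜`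
Hilbert--Schmidt, REGULAR (Cauchy sequences are mapped to sequences converging IN `V`) and
non-degenerate: then `V` has a complete orthonormal family of joint eigenvectors of `𝒜`.
Proof: completion of `V` (`UniformSpace.Completion`), Hilbert--Schmidt operators are compact,
joint eigenbasis of a commuting adjoint-closed family containing compact operators with trivial
common kernel (pre-freeze assets of helper751, helper386, helper851, helper145, helper567);
the joint eigenspaces are finite dimensional and contained in `V` by regularity. -/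
def AbstractSpectral : Prop :=
  ∀ (V : Type) [NormedAddCommGroup V] [InnerProductSpace ℂ V]
    (𝒜 𝒞 : Set (V →ₗ[ℂ] V)),
    𝒞 ⊆ 𝒜 →
    (∀ A ∈ 𝒜, ∀ B ∈ 𝒜, A ∘ₗ B = B ∘ₗ A) →
    (∀ A ∈ 𝒜, ∃ B ∈ 𝒜, ∀ x y : V, inner ℂ (A x) y = inner ℂ x (B y)) →
    (∀ A ∈ 𝒜, ∃ C : ℝ, ∀ x : V, ‖A x‖ ≤ C * ‖x‖) →
    (∀ A ∈ 𝒞, ∃ C : ℝ, ∀ (n : ℕ) (x : Fin n → V), Orthonormal ℂ x →
      ∑ i, ‖A (x i)‖ ^ 2 ≤ C) →
    (∀ A ∈ 𝒞, ∀ x : ℕ → V, CauchySeq x →
      ∃ y : V, Filter.Tendsto (fun k => A (x k)) Filter.atTop (nhds y)) →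
    (∀ x : V, ∀ ε : ℝ, 0 < ε → ∃ A ∈ 𝒞, ‖A x - x‖ < ε) →
    ∃ (ι : Type) (e : ι → V), Orthonormal ℂ e ∧
      (∀ A ∈ 𝒜, ∀ i, ∃ c : ℂ, A (e i) = c • e i) ∧
      ∀ x : V, HasSum (fun i => ‖inner ℂ (e i) x‖ ^ 2) (‖x‖ ^ 2)

/-! ## 5. The sub-leaves of `CuspSpec` (registry `T2.01` -- `T2.09`, `T2.13`)

Every leaf takes the output `T1.T1Out K` of tower T1 as a hypothesis. -/

/-- **T2.01** `PairDefinite` (and `FrameExists`) from T1.  (≈ 0.8k lines.) -/
def Leaf01 (K : Type) [Field K] [NumberField K] : Prop :=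
  T1.T1Out K → FrameExists K ∧ ∀ 𝔫 : Ideal (𝓞 K), 𝔫 ≠ ⊥ → PairDefinite K 𝔫

/-- **T2.02** `ConvCusp` from T1: Fubini, unimodularity (`T1.UnimodC`), Gelfand's trick with the
transpose.  (≈ 2.5k lines.) -/
def Leaf02 (K : Type) [Field K] [NumberField K] : Prop :=
  T1.T1Out K → ∀ 𝔫 : Ideal (𝓞 K), 𝔫 ≠ ⊥ → ConvCusp K 𝔫

/-- **T2.03** THE ESTIMATE `GPSCore` (the analytic heart of the tower).  Needs Poisson summation
on `K \ 𝔸_K` in addition (tower T3, `PoissonNDC`; to be added as a hypothesis by the owner; the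
statement is true as it stands).  (≈ 2 × 3k lines: the kernel on a Siegel set and the Fourier
expansion along `N`; decay of the terms `ξ ≠ 0`; the owner splits.) -/
def Leaf03 (K : Type) [Field K] [NumberField K] : Prop :=
  T1.T1Out K → ∀ 𝔫 : Ideal (𝓞 K), 𝔫 ≠ ⊥ → GPSCore K 𝔫

/-- **T2.13** `GPSCore ⇒ GPS` and `GPSCore ⇒ GPSKill`: reduction theory (`T1.ReductionC`,
`T1.SiegelCompactC`) and the bounded kernel on the compact part.  (≈ 1.5k lines.) -/
def Leaf13 (K : Type) [Field K] [NumberField K] : Prop :=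
  T1.T1Out K → ∀ 𝔫 : Ideal (𝓞 K), 𝔫 ≠ ⊥ → GPSCore K 𝔫 → GPS K 𝔫 ∧ GPSKill K 𝔫

/-- **T2.04** `GPS ⇒ HSBound` and `GPSKill ⇒ HSKill`: Bessel at a point, then integrate over the
domain of finite volume (asset: helper567 `sum_norm_sq_le567`).  (≈ 0.8k lines.) -/
def Leaf04 (K : Type) [Field K] [NumberField K] : Prop :=
  T1.T1Out K → ∀ 𝔫 : Ideal (𝓞 K), 𝔫 ≠ ⊥ →
    (GPS K 𝔫 → HSBound K 𝔫) ∧ (GPSKill K 𝔫 → HSKill K 𝔫)

/-- **T2.05** `GPS ⇒ ConvRegular`: uniform limits of cusp functions are cusp functions.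
(≈ 1k lines.) -/
def Leaf05 (K : Type) [Field K] [NumberField K] : Prop :=
  T1.T1Out K → ∀ 𝔫 : Ideal (𝓞 K), 𝔫 ≠ ⊥ → PairDefinite K 𝔫 → ConvCusp K 𝔫 → GPS K 𝔫 →
    ConvRegular K 𝔫

/-- **T2.06** `ApproxId`: spherical bump functions shrinking to `U(𝔫) K_∞ Z⁺`.  (≈ 2k lines.) -/
def Leaf06 (K : Type) [Field K] [NumberField K] : Prop :=
  T1.T1Out K → ∀ 𝔫 : Ideal (𝓞 K), 𝔫 ≠ ⊥ → PairDefinite K 𝔫 → ConvCusp K 𝔫 → ApproxId K 𝔫

/-- **T2.07** `OpsGood` and `OpsAdj`: the Hecke operators (`T1.HeckeCosetC`) and the sphere means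
on the cusp functions.  (≈ 3k lines; the owner may split finite / infinite places.) -/
def Leaf07 (K : Type) [Field K] [NumberField K] : Prop :=
  T1.T1Out K → ∀ 𝔫 : Ideal (𝓞 K), 𝔫 ≠ ⊥ → PairDefinite K 𝔫 → ConvCusp K 𝔫 →
    OpsGood K 𝔫 ∧ OpsAdj K 𝔫

/-- **T2.08** the abstract spectral theorem.  (≈ 1.5k lines over the pre-freeze assets, Mathlib
only.) -/
def Leaf08 : Prop := AbstractSpectral

/-- **T2.09** ASSEMBLY: the cusp functions with `pair` are a pre-Hilbert space `V`, the operators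
`IsOp` act on it; apply `AbstractSpectral`; a joint eigenvector of all `IsOp` satisfies
`IsHeckeEigenAt`, `MeanEigC`, `MeanEigR` pointwise; the unitarity relations follow from `OpsAdj`
(`conj_a`, `real_m`) and from the boundedness of the eigenfunction (`unit_b`, `bound_a`).
(≈ 2.5k lines.) -/
def Leaf09 (K : Type) [Field K] [NumberField K] : Prop :=
  T1.T1Out K → AbstractSpectral → ∀ 𝔫 : Ideal (𝓞 K), 𝔫 ≠ ⊥ → PairDefinite K 𝔫 → ConvCusp K 𝔫 →
    HSBound K 𝔫 → ConvRegular K 𝔫 → ApproxId K 𝔫 → OpsGood K 𝔫 → OpsAdj K 𝔫 → CuspSpec K 𝔫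

/-- ALL SUB-LEAVES of `CuspSpec` for the number field `K`. -/
structure Leaves (K : Type) [Field K] [NumberField K] : Prop where
  l01 : Leaf01 K
  l02 : Leaf02 K
  l03 : Leaf03 K
  l04 : Leaf04 K
  l05 : Leaf05 K
  l06 : Leaf06 K
  l07 : Leaf07 K
  l08 : Leaf08
  l09 : Leaf09 K
  l13 : Leaf13 K

/-- **TOP of the tower, part 1**: the discreteness of the cuspidal spectrum from the leaves. -/
theorem top_cuspSpec (K : Type) [Field K] [NumberField K] (L : Leaves K) (hT1 : T1.T1Out K)
    (𝔫 : Ideal (𝓞 K)) (h𝔫 : 𝔫 ≠ ⊥) : CuspSpec K 𝔫 := by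
  have hP : PairDefinite K 𝔫 := (L.l01 hT1).2 𝔫 h𝔫
  have hC : ConvCusp K 𝔫 := L.l02 hT1 𝔫 h𝔫
  have hG : GPS K 𝔫 := (L.l13 hT1 𝔫 h𝔫 (L.l03 hT1 𝔫 h𝔫)).1
  have hO := L.l07 hT1 𝔫 h𝔫 hP hC
  exact L.l09 hT1 L.l08 𝔫 h𝔫 hP hC ((L.l04 hT1 𝔫 h𝔫).1 hG) (L.l05 hT1 𝔫 h𝔫 hP hC hG)
    (L.l06 hT1 𝔫 h𝔫 hP hC) hO.1 hO.2

/-- The estimates are part of the interface as well (T3', T4, T5 use them), and frames exist. -/
theorem top_gps (K : Type) [Field K] [NumberField K] (L : Leaves K) (hT1 : T1.T1Out K)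
    (𝔫 : Ideal (𝓞 K)) (h𝔫 : 𝔫 ≠ ⊥) :
    FrameExists K ∧ PairDefinite K 𝔫 ∧ ConvCusp K 𝔫 ∧ GPSCore K 𝔫 ∧ GPS K 𝔫 ∧ HSBound K 𝔫 ∧
      ConvRegular K 𝔫 ∧ GPSKill K 𝔫 ∧ HSKill K 𝔫 := by
  have hP : PairDefinite K 𝔫 := (L.l01 hT1).2 𝔫 h𝔫
  have hC : ConvCusp K 𝔫 := L.l02 hT1 𝔫 h𝔫
  have hCore : GPSCore K 𝔫 := L.l03 hT1 𝔫 h𝔫
  have hG := L.l13 hT1 𝔫 h𝔫 hCore
  have h4 := L.l04 hT1 𝔫 h𝔫
  exact ⟨(L.l01 hT1).1, hP, hC, hCore, hG.1, h4.1 hG.1, L.l05 hT1 𝔫 h𝔫 hP hC hG.1, hG.2,
    h4.2 hG.2⟩

/-! ## 6. Strong multiplicity one: the cases (registry `T2.10` -- `T2.12`) -/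

/-- **T2.10** SMO, adelic--adelic case (the main case; over `E`, `F` the only one).
[Jacquet--Langlands §11], [Casselman 1973], [Miyake 1971].  (LARGE: Whittaker--Fourier
expansion of cusp functions, local uniqueness at the unramified places, the newform argument at
the finitely many exceptional places; the owner splits; ≥ 10 sub-leaves.) -/
def SMO_AA (K : Type) [Field K] [NumberField K] : Prop :=
  ∀ π π' : HeckeEigensystem K ℂ, IsCuspAdelicSph0 K π → IsCuspAdelicSph0 K π' →
    HeckeEigensystem.AgreesAwayFromFinite π π' →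
    ∀ v : HeightOneSpectrum (𝓞 K), ¬ v.asIdeal ∣ π.level → ¬ v.asIdeal ∣ π'.level →
      π.a v = π'.a v ∧ π.b v = π'.b v

/-- **T2.11** SMO, holomorphic--holomorphic case (`[K : ℚ] = 1`, classical weight one forms).
[Miyake, Modular forms, §4.6], [Atkin--Lehner 1970], [Li 1975].  (≈ 3 × 3k lines.) -/
def SMO_HH (K : Type) [Field K] [NumberField K] : Prop :=
  ∀ π π' : HeckeEigensystem K ℂ, IsCuspHolQ K π → IsCuspHolQ K π' →
    HeckeEigensystem.AgreesAwayFromFinite π π' →
    ∀ v : HeightOneSpectrum (𝓞 K), ¬ v.asIdeal ∣ π.level → ¬ v.asIdeal ∣ π'.level →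
      π.a v = π'.a v ∧ π.b v = π'.b v

/-- **T2.12** SMO, mixed case: a Maass form of parameter `0` and a holomorphic form of weight one
over `ℚ` with the same eigenvalues at almost all primes have the same eigenvalues at the good
primes (in fact the hypothesis is never satisfied: [Jacquet--Langlands §11] with the
archimedean components). -/
def SMO_AH (K : Type) [Field K] [NumberField K] : Prop :=
  ∀ π π' : HeckeEigensystem K ℂ, IsCuspAdelicSph0 K π → IsCuspHolQ K π' →
    HeckeEigensystem.AgreesAwayFromFinite π π' →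
    ∀ v : HeightOneSpectrum (𝓞 K), ¬ v.asIdeal ∣ π.level → ¬ v.asIdeal ∣ π'.level →
      π.a v = π'.a v ∧ π.b v = π'.b v

theorem agreesAwayFromFinite_symm {π π' : HeckeEigensystem K ℂ}
    (h : HeckeEigensystem.AgreesAwayFromFinite π π') :
    HeckeEigensystem.AgreesAwayFromFinite π' π := by
  obtain ⟨S, hS⟩ := h
  exact ⟨S, fun v hv => ⟨(hS v hv).1.symm, (hS v hv).2.symm⟩⟩

/-- **TOP of the tower, part 2**: strong multiplicity one on `notion556` from the three cases. -/
theorem top_smo (K : Type) [Field K] [NumberField K]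
    (hAA : SMO_AA K) (hHH : SMO_HH K) (hAH : SMO_AH K) : SMO K := by
  intro π π' hπ hπ' hag v hv hv'
  rcases hπ with h | h <;> rcases hπ' with h' | h'
  · exact hAA π π' h h' hag v hv hv'
  · exact hAH π π' h h' hag v hv hv'
  · have := hAH π' π h' h (agreesAwayFromFinite_symm hag) v hv' hv
    exact ⟨this.1.symm, this.2.symm⟩
  · exact hHH π π' h h' hag v hv hv'

end Fermat.Agent.LT.T2

end

end
-- ===== PACK-END LT/T2/Spec.lean

-- ===== PACK-BEGIN LT/T3/H276/StdChar.lean
section



/-!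
# Row LT, tower T3, leaf T3.01 `StdCharExistsC` (helper276)

OFF-MAIN.  `stdCharExists276 : StdCharExistsC K` for every number field `K`: a continuous additive
character of `𝔸_K`, trivial on `K`, not identically `1` (Tate's thesis §4.1).

Construction (no local traces, no different):
* `𝔸_K^f = K + ∏_v 𝒪_v` (`exists_approx276`: density of `K` in `K_v`, then partial fractions in
  `K` by the Chinese remainder theorem, `exists_partial276`);
* `K ∩ ∏_v 𝒪_v = 𝒪_K` and `Tr_{K/ℚ}(𝒪_K) ⊆ ℤ`, so `ψ_f(ξ + u) := e(Tr_{K/ℚ} ξ)` (`ξ ∈ K`,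
  `u ∈ ∏ 𝒪_v`) is a well defined additive character of `𝔸_K^f`, trivial on the OPEN subgroup
  `∏ 𝒪_v`, hence continuous (`psiFin276`);
* `ψ_∞(y) := e(-∑_w m_w Re(ι_w y_w))` on `K_∞ = ∏_w K_w` (`m_w = 1, 2`), and
  `∑_w m_w Re(ι_w ξ) = Tr_{K/ℚ} ξ` for `ξ ∈ K` (`trace_eq_sum_places276`);
* `ψ = ψ_∞ ψ_f` is trivial on `K`; `ψ((ξ₀)_∞, 0) = e(-1/2) = -1` for `ξ₀ = 1 / (2 [K:ℚ])`.
-/

set_option autoImplicit false
set_option linter.unusedSectionVars false

open IsDedekindDomain NumberField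
open Fermat.Agent.LT.H556.A0

noncomputable section

namespace Fermat.Agent.LT.T3.H276

variable (K : Type) [Field K] [NumberField K]

/-! ## The trace as a sum over the infinite places -/

theorem trace_eq_sum_places276 (ξ : K) :
    ((Algebra.trace ℚ K ξ : ℚ) : ℝ)
      = ∑ w : InfinitePlace K, (w.mult : ℝ) * (w.embedding ξ).re := by
  classical
  have h1 : (algebraMap ℚ ℂ (Algebra.trace ℚ K ξ)) = ∑ φ : K →+* ℂ, φ ξ := by
    rw [trace_eq_sum_embeddings (K := ℚ) (L := K) ℂ]
    exact (Fintype.sum_equiv (RingHom.equivRatAlgHom K ℂ) _ _ (fun σ => rfl)).symm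
  have h2 : ((Algebra.trace ℚ K ξ : ℚ) : ℝ) = ∑ φ : K →+* ℂ, (φ ξ).re := by
    have := congrArg Complex.re h1
    simpa [Complex.re_sum] using this
  rw [h2, ← Finset.sum_fiberwise (s := Finset.univ) (g := InfinitePlace.mk)]
  refine Finset.sum_congr rfl fun w _ => ?_
  have hconst : ∀ φ ∈ (Finset.univ.filter fun φ : K →+* ℂ => InfinitePlace.mk φ = w),
      (φ ξ).re = (w.embedding ξ).re := by
    intro φ hφ
    have hφw : InfinitePlace.mk φ = InfinitePlace.mk w.embedding := by
      rw [InfinitePlace.mk_embedding]; exact (Finset.mem_filter.1 hφ).2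
    rcases InfinitePlace.mk_eq_iff.1 hφw with h | h
    · rw [h]
    · rw [← h]; simp [ComplexEmbedding.conjugate_coe_eq]
  rw [Finset.sum_congr rfl hconst, Finset.sum_const, InfinitePlace.card_filter_mk_eq, nsmul_eq_mul]


/-! ## Partial fractions in `K` and the decomposition `𝔸_K^f = K + ∏ 𝒪_v` -/

open IsDedekindDomain.HeightOneSpectrum in
/-- Partial fractions: prescribed principal parts `y v` at the places of a finite set `S`,
integral elsewhere. -/
theorem exists_partial276 (S : Finset (HeightOneSpectrum (𝓞 K)))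
    (y : HeightOneSpectrum (𝓞 K) → K) :
    ∃ ξ : K, (∀ v ∈ S, v.valuation K (ξ - y v) ≤ 1) ∧ ∀ v ∉ S, v.valuation K ξ ≤ 1 := by
  classical
  -- a common denominator
  obtain ⟨b, hb0, a, ha⟩ : ∃ b : 𝓞 K, b ≠ 0 ∧ ∃ a : HeightOneSpectrum (𝓞 K) → 𝓞 K,
      ∀ v ∈ S, y v * algebraMap (𝓞 K) K b = algebraMap (𝓞 K) K (a v) := by
    choose n d hd using fun v => IsFractionRing.div_surjective (𝓞 K) (y v)
    refine ⟨∏ v ∈ S, d v, ?_, fun v => n v * ∏ w ∈ S.erase v, d w, fun v hv => ?_⟩
    · exact Finset.prod_ne_zero_iff.2 fun v _ => nonZeroDivisors.ne_zero (hd v).1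
    · have hdv : algebraMap (𝓞 K) K (d v) ≠ 0 := by
        simpa using nonZeroDivisors.ne_zero (hd v).1
      rw [← Finset.mul_prod_erase S d hv, ← (hd v).2, map_mul, map_mul]
      field_simp
  have hbK : algebraMap (𝓞 K) K b ≠ 0 := by simpa using hb0
  -- the primes dividing `b`
  have hTfin : {v : HeightOneSpectrum (𝓞 K) | v.asIdeal ∣ Ideal.span {b}}.Finite :=
    Ideal.finite_factors (by simpa [Ideal.span_singleton_eq_bot] using hb0)
  set T : Finset (HeightOneSpectrum (𝓞 K)) := S ∪ hTfin.toFinset with hT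
  have hexp : ∀ v : HeightOneSpectrum (𝓞 K),
      ∃ n : ℕ, WithZero.exp (-(n : ℤ)) ≤ v.intValuation b :=
    fun v => ⟨_, (v.intValuation_eq_exp_neg_multiplicity hb0).ge⟩
  choose e he using hexp
  obtain ⟨β, hβ⟩ := IsDedekindDomain.exists_forall_sub_mem_ideal (s := T)
    (fun v => v.asIdeal) e (fun v _ => v.prime)
    (fun v _ w _ hvw h => hvw (HeightOneSpectrum.ext h))
    (fun v => if (v : HeightOneSpectrum (𝓞 K)) ∈ S then a v else 0)
  refine ⟨algebraMap (𝓞 K) K β / algebraMap (𝓞 K) K b, fun v hv => ?_, fun v hv => ?_⟩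
  · have hvT : v ∈ T := Finset.mem_union_left _ hv
    have h1 := hβ v hvT
    simp only [hv, if_true] at h1
    have h2 : v.intValuation (β - a v) ≤ v.intValuation b :=
      ((v.intValuation_le_pow_iff_mem _ _).2 h1).trans (he v)
    have h3 : algebraMap (𝓞 K) K β / algebraMap (𝓞 K) K b - y v
        = algebraMap (𝓞 K) K (β - a v) / algebraMap (𝓞 K) K b := by
      rw [map_sub, ← ha v hv]; field_simp
    rw [h3, map_div₀, valuation_of_algebraMap, valuation_of_algebraMap]
    exact div_le_one_of_le₀ h2 zero_le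
  · rw [map_div₀, valuation_of_algebraMap, valuation_of_algebraMap]
    by_cases hvT : v ∈ T
    · have h1 := hβ v hvT
      simp only [hv, if_false, sub_zero] at h1
      exact div_le_one_of_le₀ (((v.intValuation_le_pow_iff_mem _ _).2 h1).trans (he v)) zero_le
    · have hvb : v.intValuation b = 1 := by
        have h4 : ¬ v.asIdeal ∣ Ideal.span {b} := fun h =>
          hvT (Finset.mem_union_right _ (by simpa using h))
        rw [← v.intValuation_lt_one_iff_dvd, not_lt] at h4
        exact le_antisymm (v.intValuation_le_one b) h4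
      rw [hvb, div_one]
      exact v.intValuation_le_one β

open IsDedekindDomain.HeightOneSpectrum in
theorem algebraMap_mem_integers_iff276 (v : HeightOneSpectrum (𝓞 K)) (ξ : K) :
    algebraMap K (v.adicCompletion K) ξ ∈ v.adicCompletionIntegers K ↔ v.valuation K ξ ≤ 1 := by
  rw [mem_adicCompletionIntegers, ← valuedAdicCompletion_eq_valuation' v ξ]
  rfl

open IsDedekindDomain.HeightOneSpectrum in
/-- `𝔸_K^f = K + ∏_v 𝒪_v`. -/
theorem exists_approx276 (x : FiniteAdeleRing (𝓞 K) K) :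
    ∃ ξ : K, ∀ v : HeightOneSpectrum (𝓞 K),
      x v - algebraMap K (v.adicCompletion K) ξ ∈ v.adicCompletionIntegers K := by
  classical
  have hS : {v : HeightOneSpectrum (𝓞 K) | x v ∉ v.adicCompletionIntegers K}.Finite := by
    have h0 := x.2
    rw [Filter.eventually_cofinite] at h0
    exact h0
  have hloc : ∀ v : HeightOneSpectrum (𝓞 K), ∃ y : K,
      x v - algebraMap K (v.adicCompletion K) y ∈ v.adicCompletionIntegers K := by
    intro v
    have hopen : IsOpen {z : v.adicCompletion K | x v - z ∈ v.adicCompletionIntegers K} := by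
      have h0 : IsOpen ((v.adicCompletionIntegers K : Set (v.adicCompletion K))) :=
        Valued.isOpen_valuationSubring _
      exact h0.preimage (continuous_const.sub continuous_id)
    exact (denseRange_algebraMap K v).exists_mem_open hopen ⟨x v, by simp⟩
  choose y hy using hloc
  obtain ⟨ξ, hξ1, hξ2⟩ := exists_partial276 K hS.toFinset y
  refine ⟨ξ, fun v => ?_⟩
  by_cases hv : v ∈ hS.toFinset
  · have h1 : algebraMap K (v.adicCompletion K) (y v - ξ) ∈ v.adicCompletionIntegers K := by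
      rw [algebraMap_mem_integers_iff276, ← Valuation.map_sub_swap]
      exact hξ1 v hv
    have h2 := add_mem (hy v) h1
    rw [map_sub] at h2
    convert h2 using 1
    ring
  · have hxv : x v ∈ v.adicCompletionIntegers K := by simpa using hv
    exact sub_mem hxv ((algebraMap_mem_integers_iff276 K v ξ).2 (hξ2 v hv))


/-! ## The finite part of the character -/

theorem fourierChar_intCast276 (n : ℤ) : Real.fourierChar (n : ℝ) = 1 := by
  rw [Real.fourierChar_apply']
  exact Circle.exp_two_pi_mul_int n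

/-- The trace of an everywhere integral element of `K` is an integer. -/
theorem fourierChar_trace_eq_one276 (ξ : K)
    (h : ∀ v : HeightOneSpectrum (𝓞 K), v.valuation K ξ ≤ 1) :
    Real.fourierChar (((Algebra.trace ℚ K ξ : ℚ) : ℝ)) = 1 := by
  obtain ⟨r, rfl⟩ := HeightOneSpectrum.mem_integers_of_valuation_le_one K ξ h
  have h1 := Algebra.algebraMap_intTrace (A := ℤ) (K := ℚ) (L := K) (B := 𝓞 K) r
  rw [← h1]
  have h2 : ((algebraMap ℤ ℚ (Algebra.intTrace ℤ (𝓞 K) r) : ℚ) : ℝ)
      = ((Algebra.intTrace ℤ (𝓞 K) r : ℤ) : ℝ) := by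
    simp
  rw [h2]
  exact fourierChar_intCast276 _

/-- A global approximant of the finite adele `x`. -/
def finTr276 (x : FiniteAdeleRing (𝓞 K) K) : K := Classical.choose (exists_approx276 K x)

theorem finTr_spec276 (x : FiniteAdeleRing (𝓞 K) K) (v : HeightOneSpectrum (𝓞 K)) :
    x v - algebraMap K (v.adicCompletion K) (finTr276 K x) ∈ v.adicCompletionIntegers K :=
  Classical.choose_spec (exists_approx276 K x) v

/-- `ψ_f(ξ + u) = e(Tr ξ)`. -/
def psiFinFun276 (x : FiniteAdeleRing (𝓞 K) K) : Circle :=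
  Real.fourierChar (((Algebra.trace ℚ K (finTr276 K x) : ℚ) : ℝ))

theorem psiFinFun_eq276 (x : FiniteAdeleRing (𝓞 K) K) (ξ : K)
    (h : ∀ v : HeightOneSpectrum (𝓞 K),
      x v - algebraMap K (v.adicCompletion K) ξ ∈ v.adicCompletionIntegers K) :
    psiFinFun276 K x = Real.fourierChar (((Algebra.trace ℚ K ξ : ℚ) : ℝ)) := by
  have hint : ∀ v : HeightOneSpectrum (𝓞 K), v.valuation K (ξ - finTr276 K x) ≤ 1 := by
    intro v
    rw [← algebraMap_mem_integers_iff276]
    have h0 := sub_mem (finTr_spec276 K x v) (h v)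
    rw [map_sub]
    convert h0 using 1
    ring
  have h1 := fourierChar_trace_eq_one276 K _ hint
  rw [map_sub, Rat.cast_sub, sub_eq_add_neg, AddChar.map_add_eq_mul, AddChar.map_neg_eq_inv]
    at h1
  unfold psiFinFun276
  exact (mul_inv_eq_one.1 h1).symm

theorem fin_add_apply276 (x y : FiniteAdeleRing (𝓞 K) K) (v : HeightOneSpectrum (𝓞 K)) :
    (x + y) v = x v + y v := rfl

theorem fin_sub_apply276 (x y : FiniteAdeleRing (𝓞 K) K) (v : HeightOneSpectrum (𝓞 K)) :
    (x - y) v = x v - y v := rfl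

theorem fin_zero_apply276 (v : HeightOneSpectrum (𝓞 K)) :
    (0 : FiniteAdeleRing (𝓞 K) K) v = 0 := rfl

/-- The finite part `ψ_f` of the standard character. -/
def psiFin276 : AddChar (FiniteAdeleRing (𝓞 K) K) Circle where
  toFun := psiFinFun276 K
  map_zero_eq_one' := by
    rw [psiFinFun_eq276 K 0 0 (fun v => by rw [fin_zero_apply276, map_zero, sub_zero]; exact zero_mem _)]
    simp
  map_add_eq_mul' x y := by
    rw [psiFinFun_eq276 K (x + y) (finTr276 K x + finTr276 K y) ?_]
    · unfold psiFinFun276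
      rw [map_add, Rat.cast_add, AddChar.map_add_eq_mul]
    · intro v
      have h0 := add_mem (finTr_spec276 K x v) (finTr_spec276 K y v)
      rw [map_add, fin_add_apply276]
      convert h0 using 1
      ring

theorem psiFin_apply276 (x : FiniteAdeleRing (𝓞 K) K) : psiFin276 K x = psiFinFun276 K x := rfl

theorem psiFin_of_integral276 (u : FiniteAdeleRing (𝓞 K) K)
    (hu : ∀ v : HeightOneSpectrum (𝓞 K), u v ∈ v.adicCompletionIntegers K) :
    psiFin276 K u = 1 := by
  rw [psiFin_apply276, psiFinFun_eq276 K u 0 (fun v => by rw [map_zero, sub_zero]; exact hu v)]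
  simp

theorem psiFin_algebraMap276 (ξ : K) :
    psiFin276 K (algebraMap K (FiniteAdeleRing (𝓞 K) K) ξ)
      = Real.fourierChar (((Algebra.trace ℚ K ξ : ℚ) : ℝ)) := by
  rw [psiFin_apply276]
  refine psiFinFun_eq276 K _ ξ (fun v => ?_)
  have h0 : (algebraMap K (FiniteAdeleRing (𝓞 K) K) ξ) v = algebraMap K (v.adicCompletion K) ξ :=
    rfl
  rw [h0, sub_self]
  exact zero_mem _

theorem continuous_psiFin276 : Continuous (psiFin276 K) := by
  have hopen : IsOpen {u : FiniteAdeleRing (𝓞 K) K |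
      ∀ v : HeightOneSpectrum (𝓞 K), u v ∈ v.adicCompletionIntegers K} :=
    RestrictedProduct.isOpen_forall_mem (fun v => Valued.isOpen_valuationSubring _)
  rw [continuous_iff_continuousAt]
  intro x
  have hsub : Continuous fun z : FiniteAdeleRing (𝓞 K) K => z - x :=
    continuous_id.sub continuous_const
  have hnhds : {z : FiniteAdeleRing (𝓞 K) K |
      ∀ v : HeightOneSpectrum (𝓞 K), (z - x) v ∈ v.adicCompletionIntegers K} ∈ nhds x := by
    refine (hopen.preimage hsub).mem_nhds ?_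
    intro v
    simp only [sub_self]
    exact zero_mem _
  refine (continuousAt_const (y := psiFin276 K x)).congr ?_
  filter_upwards [hnhds] with z hz
  have h1 : psiFin276 K z = psiFin276 K (z - x) * psiFin276 K x := by
    rw [← AddChar.map_add_eq_mul, sub_add_cancel]
  rw [h1, psiFin_of_integral276 K _ hz, one_mul]

/-! ## The infinite part of the character -/

/-- `∑_w m_w Re(ι_w y_w)`. -/
def trInf276 (y : InfiniteAdeleRing K) : ℝ :=
  ∑ w : InfinitePlace K,
    (w.mult : ℝ) * (InfinitePlace.Completion.extensionEmbedding w (y w)).re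

theorem inf_add_apply276 (y z : InfiniteAdeleRing K) (w : InfinitePlace K) :
    (y + z) w = y w + z w := rfl

theorem inf_zero_apply276 (w : InfinitePlace K) : (0 : InfiniteAdeleRing K) w = 0 := rfl

theorem trInf_add276 (y z : InfiniteAdeleRing K) :
    trInf276 K (y + z) = trInf276 K y + trInf276 K z := by
  simp only [trInf276, inf_add_apply276, map_add, Complex.add_re, mul_add,
    Finset.sum_add_distrib]

theorem trInf_zero276 : trInf276 K 0 = 0 := by
  simp only [trInf276, inf_zero_apply276, map_zero, Complex.zero_re, mul_zero,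
    Finset.sum_const_zero]

theorem continuous_trInf276 : Continuous (trInf276 K) := by
  unfold trInf276
  refine continuous_finsetSum _ fun w _ => continuous_const.mul ?_
  exact Complex.continuous_re.comp
    ((InfinitePlace.Completion.isometry_extensionEmbedding w).continuous.comp
      (continuous_apply w))

theorem trInf_algebraMap276 (ξ : K) :
    trInf276 K (algebraMap K (InfiniteAdeleRing K) ξ) = ((Algebra.trace ℚ K ξ : ℚ) : ℝ) := by
  rw [trace_eq_sum_places276]
  refine Finset.sum_congr rfl fun w _ => ?_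
  congr 2
  rw [InfiniteAdeleRing.algebraMap_apply]
  exact InfinitePlace.Completion.extensionEmbedding_coe w _

/-- The infinite part `ψ_∞` of the standard character. -/
def psiInf276 : AddChar (InfiniteAdeleRing K) Circle where
  toFun y := Real.fourierChar (-(trInf276 K y))
  map_zero_eq_one' := by rw [trInf_zero276, neg_zero, AddChar.map_zero_eq_one]
  map_add_eq_mul' y z := by rw [trInf_add276, neg_add, AddChar.map_add_eq_mul]

theorem psiInf_apply276 (y : InfiniteAdeleRing K) :
    psiInf276 K y = Real.fourierChar (-(trInf276 K y)) := rfl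

theorem continuous_psiInf276 : Continuous (psiInf276 K) := by
  show Continuous fun y => Real.fourierChar (-(trInf276 K y))
  exact Real.continuous_fourierChar.comp (continuous_trInf276 K).neg

/-! ## The standard character -/

/-- The standard character `ψ = ψ_∞ ψ_f` of `𝔸_K`. -/
def psi276 : AddChar (Adl K) Circle where
  toFun x := psiInf276 K x.1 * psiFin276 K x.2
  map_zero_eq_one' := by
    have h1 : (0 : Adl K).1 = 0 := rfl
    have h2 : (0 : Adl K).2 = 0 := rfl
    rw [h1, h2, AddChar.map_zero_eq_one, AddChar.map_zero_eq_one, one_mul]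
  map_add_eq_mul' x y := by
    have h1 : (x + y).1 = x.1 + y.1 := rfl
    have h2 : (x + y).2 = x.2 + y.2 := rfl
    rw [h1, h2, AddChar.map_add_eq_mul, AddChar.map_add_eq_mul]
    exact mul_mul_mul_comm _ _ _ _

theorem psi_apply276 (x : Adl K) : psi276 K x = psiInf276 K x.1 * psiFin276 K x.2 := rfl

theorem continuous_psi276 : Continuous (psi276 K) := by
  show Continuous fun x : Adl K => psiInf276 K x.1 * psiFin276 K x.2
  have h1 : Continuous fun x : Adl K => x.1 := continuous_fst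
  have h2 : Continuous fun x : Adl K => x.2 := continuous_snd
  exact ((continuous_psiInf276 K).comp h1).mul ((continuous_psiFin276 K).comp h2)

theorem psi_algebraMap276 (ξ : K) : psi276 K (emb K ξ) = 1 := by
  have h1 : (emb K ξ).1 = algebraMap K (InfiniteAdeleRing K) ξ := rfl
  have h2 : (emb K ξ).2 = algebraMap K (FiniteAdeleRing (𝓞 K) K) ξ := rfl
  rw [psi_apply276, h1, h2, psiInf_apply276, trInf_algebraMap276, psiFin_algebraMap276,
    ← AddChar.map_add_eq_mul, neg_add_cancel, AddChar.map_zero_eq_one]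

theorem psi_nontrivial276 : ∃ x : Adl K, psi276 K x ≠ 1 := by
  set d : ℕ := Module.finrank ℚ K with hd
  have hdpos : 0 < d := Module.finrank_pos
  set ξ₀ : K := algebraMap ℚ K ((2 * (d : ℚ))⁻¹) with hξ₀
  have htr : ((Algebra.trace ℚ K ξ₀ : ℚ) : ℝ) = 2⁻¹ := by
    rw [hξ₀, Algebra.trace_algebraMap]
    have hd0 : (d : ℚ) ≠ 0 := by exact_mod_cast hdpos.ne'
    have : (d : ℚ) • (2 * (d : ℚ))⁻¹ = 2⁻¹ := by
      rw [smul_eq_mul]; field_simp
    rw [hd] at this ⊢
    rw [Nat.cast_smul_eq_nsmul] at this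
    rw [this]; norm_num
  let x₀ : Adl K := (show InfiniteAdeleRing K × FiniteAdeleRing (𝓞 K) K from
    (algebraMap K (InfiniteAdeleRing K) ξ₀, 0))
  have h1 : x₀.1 = algebraMap K (InfiniteAdeleRing K) ξ₀ := rfl
  have h2 : x₀.2 = 0 := rfl
  refine ⟨x₀, ?_⟩
  rw [psi_apply276, h1, h2, AddChar.map_zero_eq_one, mul_one, psiInf_apply276,
    trInf_algebraMap276, htr, AddChar.map_neg_eq_inv, Ne, inv_eq_one,
    Real.fourierChar_apply']
  rw [mul_comm, ← mul_assoc, inv_mul_cancel₀ (by positivity), one_mul]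
  exact Circle.exp_pi_ne_one

/-- **T3.01** `StdCharExistsC K`, unconditional. -/
theorem stdCharExists276 : StdCharExistsC K :=
  ⟨psi276 K, ⟨continuous_psi276 K, psi_algebraMap276 K, psi_nontrivial276 K⟩⟩

end Fermat.Agent.LT.T3.H276

end

end
-- ===== PACK-END LT/T3/H276/StdChar.lean

-- ===== PACK-BEGIN LT/T3/H354/HaarScale.lean
section



/-!
# Row LT, tower T3, leaf T3.21 `HaarScaleC` (helper354)

OFF-MAIN.  The measure form of the product formula: multiplication by `α ∈ Kˣ` preserves every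
Haar measure of `𝔸_K`.

Proof (Weil, *Basic Number Theory*, IV §4 Thm 5, in the form of Tate's thesis Thm 4.3.1... the
lattice argument): `x ↦ αx` is a topological automorphism of `𝔸_K`, hence maps the Haar measure
`ν` to `c · ν` (uniqueness of Haar measure).  It maps `K` onto `K`, hence the preimage of a
fundamental domain `D` of `K` is again a fundamental domain; all fundamental domains have the same
measure, so `c · ν(D) = ν(D)` and `c = 1` because `0 < ν(D) < ∞`.

Inputs: `InLocCompC K` (only: `𝔸_K` locally compact and second countable) and `InFundDomC K`.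
-/

set_option autoImplicit false
set_option linter.style.haveILetI false

open IsDedekindDomain NumberField MeasureTheory
open Fermat.Agent.LT.H556.A0
open Fermat.Agent.LT.T3

noncomputable section

namespace Fermat.Agent.LT.T3.H354

variable (K : Type) [Field K] [NumberField K]

/-- a number field is countable -/
theorem countable_numberField : Countable K := Finsupp.Countable.of_moduleFinite (R := ℚ) (M := K)

/-- the principal adeles -/
abbrev princ354 : AddSubgroup (Adl K) := (algebraMap K (Adl K)).toAddMonoidHom.range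

theorem countable_princ354 : Countable (princ354 K) := by
  haveI := countable_numberField K
  have h : (Set.range (algebraMap K (Adl K))).Countable := Set.countable_range _
  exact h.to_subtype

/-- multiplication by `α ∈ Kˣ` on the adeles, as an additive equivalence -/
def mulAdl (α : Kˣ) : Adl K ≃+ Adl K where
  toFun x := emb K (α : K) * x
  invFun x := emb K ((α⁻¹ : Kˣ) : K) * x
  left_inv x := by
    show emb K ((α⁻¹ : Kˣ) : K) * (emb K (α : K) * x) = x
    rw [← mul_assoc, ← map_mul]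
    simp
  right_inv x := by
    show emb K (α : K) * (emb K ((α⁻¹ : Kˣ) : K) * x) = x
    rw [← mul_assoc, ← map_mul]
    simp
  map_add' x y := mul_add _ _ _

@[simp] theorem mulAdl_apply (α : Kˣ) (x : Adl K) : mulAdl K α x = emb K (α : K) * x := rfl

theorem continuous_mulAdl (α : Kˣ) : Continuous (mulAdl K α) :=
  continuous_const.mul continuous_id

theorem continuous_mulAdl_symm (α : Kˣ) : Continuous (mulAdl K α).symm :=
  continuous_const.mul continuous_id

/-- multiplication by `α⁻¹` on the principal adeles -/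
def mulPrinc (α : Kˣ) : princ354 K → princ354 K := fun g =>
  ⟨emb K ((α⁻¹ : Kˣ) : K) * (g : Adl K), by
    obtain ⟨ξ, hξ⟩ := g.2
    refine ⟨((α⁻¹ : Kˣ) : K) * ξ, ?_⟩
    rw [← hξ]
    simp⟩

theorem mulPrinc_bijective (α : Kˣ) : Function.Bijective (mulPrinc K α) := by
  constructor
  · intro g h hgh
    have h1 : emb K ((α⁻¹ : Kˣ) : K) * (g : Adl K) = emb K ((α⁻¹ : Kˣ) : K) * (h : Adl K) :=
      congrArg Subtype.val hgh
    have h2 := congrArg (fun y => emb K (α : K) * y) h1
    simp only [← mul_assoc, ← map_mul] at h2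
    apply Subtype.ext
    simpa using h2
  · intro g
    obtain ⟨ξ, hξ⟩ := g.2
    refine ⟨⟨emb K ((α : K) * ξ), ⟨(α : K) * ξ, rfl⟩⟩, ?_⟩
    apply Subtype.ext
    show emb K ((α⁻¹ : Kˣ) : K) * emb K ((α : K) * ξ) = (g : Adl K)
    rw [← map_mul, ← mul_assoc, ← hξ]
    simp

/-- **T3.21.**  Multiplication by `α ∈ Kˣ` preserves every Haar measure of `𝔸_K`. -/
theorem haarScaleC_of (h1 : InLocCompC K) (h3 : InFundDomC K) : HaarScaleC K := by
  letI : MeasurableSpace (Adl K) := borel (Adl K)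
  haveI : BorelSpace (Adl K) := ⟨rfl⟩
  obtain ⟨⟨hlc, _, hsc⟩, -⟩ := h1
  haveI := hlc
  haveI := hsc
  haveI := countable_princ354 K
  intro ν hν α
  haveI := hν
  set e := mulAdl K α with he
  haveI hmap : (Measure.map e ν).IsAddHaarMeasure :=
    AddEquiv.isAddHaarMeasure_map ν e (continuous_mulAdl K α) (continuous_mulAdl_symm K α)
  have hmeas : Measurable e := (continuous_mulAdl K α).measurable
  -- uniqueness of Haar measure
  set c := (Measure.map e ν).addHaarScalarFactor ν with hc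
  have hsmul : Measure.map e ν = c • ν := Measure.isAddLeftInvariant_eq_smul (Measure.map e ν) ν
  -- the fundamental domain
  obtain ⟨D, hDm, hD, -, hpos, hfin⟩ := h3 ν hν
  have hqmp : Measure.QuasiMeasurePreserving e ν ν := by
    refine ⟨hmeas, ?_⟩
    rw [hsmul]
    exact Measure.smul_absolutelyContinuous
  have hD' : IsAddFundamentalDomain (princ354 K) (e ⁻¹' D) ν := by
    refine hD.preimage_of_equiv hqmp (mulPrinc_bijective K α) ?_
    intro g x
    show e (mulPrinc K α g +ᵥ x) = g +ᵥ e x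
    show emb K (α : K) * (emb K ((α⁻¹ : Kˣ) : K) * (g : Adl K) + x) = (g : Adl K) + emb K (α : K) * x
    rw [mul_add, ← mul_assoc, ← map_mul]
    simp
  have hmeq : ν (e ⁻¹' D) = ν D := hD'.measure_eq hD
  have h2 : (c : ENNReal) * ν D = ν D := by
    have := congrArg (fun m : Measure (Adl K) => m D) hsmul
    simp only [Measure.map_apply hmeas hDm, Measure.smul_apply] at this
    rw [hmeq] at this
    have h4 : c • ν D = (c : ENNReal) * ν D := rfl
    rw [← h4]
    exact this.symm
  have hc1 : (c : ENNReal) = 1 := by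
    have h3 : (c : ENNReal) * ν D = 1 * ν D := by rw [h2, one_mul]
    exact (ENNReal.mul_left_inj hpos.ne' hfin.ne).mp h3
  have hc1' : c = 1 := by exact_mod_cast hc1
  have : Measure.map e ν = ν := by rw [hsmul, hc1', one_smul]
  exact this

end Fermat.Agent.LT.T3.H354

end
end
-- ===== PACK-END LT/T3/H354/HaarScale.lean

-- ===== PACK-BEGIN LT/T3/H59/Unfold.lean
section


/-!
# Row LT, tower T3, sub-leaf T3.05 `UnfoldC` (helper59)

Unfolding (Tate's thesis, Lemma 4.2.4 (i)): for a fundamental domain `D` of `K` in `𝔸_K`, a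
standard character `ψ` and an integrable `φ`, the Fourier coefficients of the periodisation of
`φ` are the values of the Fourier transform of `φ` on `K`:

    ∫_D (∑_ξ φ(x + ξ)) ψ(x η) dμ(x) = ∫ φ(x) ψ(x η) dμ(x).

Proof: `IsAddFundamentalDomain.integral_eq_tsum''` + `integral_tsum` (Tonelli via
`lintegral_eq_tsum''`) + `ψ((x + ξ) η) = ψ(x η)` (`ψ` is trivial on `K`).
Mathlib + `LT/T3/Spec.lean` only.  The normal summability hypothesis is not needed.
-/

set_option autoImplicit false
set_option linter.style.haveILetI false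

open IsDedekindDomain NumberField MeasureTheory
open Fermat.Agent.LT.H556.A0 Fermat.Agent.LT.T3

noncomputable section

namespace Fermat.Agent.LT.T3.H59

variable (K : Type) [Field K] [NumberField K]

/-- A number field is countable. -/
theorem countable_numberField59 : Countable K := by
  have e := (Module.finBasis ℚ K).equivFun
  exact e.toEquiv.countable_iff.2 inferInstance

/-- The diagonal embedding is injective. -/
theorem emb_injective59 : Function.Injective (emb K) :=
  NumberField.AdeleRing.algebraMap_injective (𝓞 K) K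

/-- The lattice `K ⊂ 𝔸_K` as an additive subgroup. -/
abbrev Lat59 : AddSubgroup (Adl K) := (algebraMap K (Adl K)).toAddMonoidHom.range

/-- `K ≃ K ⊂ 𝔸_K`. -/
def latEquiv59 : K ≃ Lat59 K :=
  (AddMonoidHom.ofInjective (f := (algebraMap K (Adl K)).toAddMonoidHom)
    (emb_injective59 K)).toEquiv

theorem latEquiv59_coe (ξ : K) : ((latEquiv59 K ξ : Lat59 K) : Adl K) = emb K ξ := rfl

theorem countable_lat59 : Countable (Lat59 K) :=
  haveI := countable_numberField59 K
  (latEquiv59 K).symm.countable_iff.2 inferInstance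

/-- **T3.05**: unfolding. -/
theorem unfoldC59 : UnfoldC K := by
  letI : MeasurableSpace (Adl K) := borel (Adl K)
  haveI : BorelSpace (Adl K) := ⟨rfl⟩
  haveI := countable_numberField59 K
  haveI := countable_lat59 K
  intro ψ hψ μ hμ D hD φ hφc hφi _ η
  -- the integrand
  set h : Adl K → ℂ := fun x => φ x * ((ψ (x * emb K η) : Circle) : ℂ) with hh
  have hψc : Continuous fun x : Adl K => ((ψ (x * emb K η) : Circle) : ℂ) :=
    continuous_subtype_val.comp (hψ.cont.comp (continuous_id.mul continuous_const))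
  have hhc : Continuous h := hφc.mul hψc
  have hnorm : ∀ x, ‖h x‖ = ‖φ x‖ := by
    intro x
    rw [hh]
    show ‖φ x * ((ψ (x * emb K η) : Circle) : ℂ)‖ = ‖φ x‖
    rw [norm_mul, Circle.norm_coe, mul_one]
  have hhi : Integrable h μ := by
    refine ⟨hhc.aestronglyMeasurable, ?_⟩
    have := hφi.hasFiniteIntegral
    unfold HasFiniteIntegral at this ⊢
    refine lt_of_le_of_lt (le_of_eq ?_) this
    refine lintegral_congr fun x => ?_
    rw [← ofReal_norm, ← ofReal_norm, hnorm]
  -- periodicity of the character factor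
  have hper : ∀ (ξ : K) (x : Adl K),
      h (x + emb K ξ) = φ (x + emb K ξ) * ((ψ (x * emb K η) : Circle) : ℂ) := by
    intro ξ x
    have h1 : (x + emb K ξ) * emb K η = x * emb K η + emb K (ξ * η) := by
      rw [add_mul, map_mul]
    show φ (x + emb K ξ) * ((ψ ((x + emb K ξ) * emb K η) : Circle) : ℂ) = _
    rw [h1, AddChar.map_add_eq_mul, hψ.triv, mul_one]
  -- unfold the total integral
  have hunf := hD.integral_eq_tsum'' h hhi
  have hsum : ∑' g : Lat59 K, ∫ x in D, h (g +ᵥ x) ∂μ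
      = ∑' ξ : K, ∫ x in D, φ (x + emb K ξ) * ((ψ (x * emb K η) : Circle) : ℂ) ∂μ := by
    rw [← (latEquiv59 K).tsum_eq]
    refine tsum_congr fun ξ => ?_
    refine integral_congr_ae (Filter.Eventually.of_forall fun x => ?_)
    show h ((latEquiv59 K ξ : Adl K) + x) = _
    rw [latEquiv59_coe, add_comm, hper]
  -- Tonelli
  have hfin : ∑' ξ : K, ∫⁻ x, ‖φ (x + emb K ξ) * ((ψ (x * emb K η) : Circle) : ℂ)‖ₑ
      ∂(μ.restrict D) ≠ ⊤ := by
    have h1 := hD.lintegral_eq_tsum'' (fun x => ‖φ x‖ₑ)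
    have h2 : ∑' g : Lat59 K, ∫⁻ x in D, ‖φ (g +ᵥ x)‖ₑ ∂μ
        = ∑' ξ : K, ∫⁻ x, ‖φ (x + emb K ξ) * ((ψ (x * emb K η) : Circle) : ℂ)‖ₑ
            ∂(μ.restrict D) := by
      rw [← (latEquiv59 K).tsum_eq]
      refine tsum_congr fun ξ => ?_
      refine lintegral_congr fun x => ?_
      show ‖φ ((latEquiv59 K ξ : Adl K) + x)‖ₑ = _
      rw [latEquiv59_coe, add_comm, ← hper, ← ofReal_norm, ← ofReal_norm,
        hnorm]
    rw [← h2, ← h1]
    exact hφi.hasFiniteIntegral.ne
  have hmeas : ∀ ξ : K, AEStronglyMeasurable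
      (fun x => φ (x + emb K ξ) * ((ψ (x * emb K η) : Circle) : ℂ)) (μ.restrict D) := by
    intro ξ
    exact ((hφc.comp (continuous_id.add continuous_const)).mul hψc).aestronglyMeasurable
  have hton := integral_tsum hmeas hfin
  -- conclusion
  show ∫ x in D, (∑' ξ : K, φ (x + emb K ξ)) * ((ψ (x * emb K η) : Circle) : ℂ) ∂μ
      = fourierAd K ψ μ φ (emb K η)
  have hL : ∀ x : Adl K, (∑' ξ : K, φ (x + emb K ξ)) * ((ψ (x * emb K η) : Circle) : ℂ)
      = ∑' ξ : K, φ (x + emb K ξ) * ((ψ (x * emb K η) : Circle) : ℂ) :=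
    fun x => tsum_mul_right.symm
  simp only [hL]
  rw [hton, ← hsum, ← hunf]
  rfl

end Fermat.Agent.LT.T3.H59

end

end
-- ===== PACK-END LT/T3/H59/Unfold.lean

-- ===== PACK-BEGIN LT/T3/H893/Unip.lean
section




/-!
# Row LT, tower T3, leaf T3.11 (helper893): the subgroup `N(𝔸_K) ⋊ γ₀^ℤ` of `GL₂(𝔸_K)`

OFF-MAIN.  Algebra and topology of `T3.unip` (`n(x)`) and `T3.torK` (`diag(α, 1)`).
-/

set_option autoImplicit false
set_option linter.style.haveILetI false

open MeasureTheory NumberField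
open scoped ENNReal
open Fermat.Agent.LT.H556.A0

noncomputable section

namespace Fermat.Agent.LT.T3.H893

variable (K : Type) [Field K] [NumberField K]

/-! ## Algebra -/

theorem unip_val893 (x : Adl K) :
    ((unip K x : G K) : Matrix (Fin 2) (Fin 2) (Adl K)) = !![1, x; 0, 1] := rfl

theorem torK_val893 (α : Kˣ) :
    ((torK K α : G K) : Matrix (Fin 2) (Fin 2) (Adl K)) = !![emb K (α : K), 0; 0, 1] := rfl

theorem unip_zero893 : unip K 0 = 1 := by
  apply Units.ext
  rw [unip_val893]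
  ext i j
  fin_cases i <;> fin_cases j <;> simp

theorem unip_add893 (x y : Adl K) : unip K (x + y) = unip K x * unip K y := by
  apply Units.ext
  rw [Units.val_mul, unip_val893, unip_val893, unip_val893]
  ext i j
  fin_cases i <;> fin_cases j <;> simp [Matrix.mul_apply, Fin.sum_univ_two, add_comm]

theorem unip_inv893 (x : Adl K) : (unip K x)⁻¹ = unip K (-x) := by
  rw [inv_eq_iff_mul_eq_one, ← unip_add893, add_neg_cancel, unip_zero893]

theorem torK_one893 : torK K 1 = 1 := by
  apply Units.ext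
  rw [torK_val893]
  ext i j
  fin_cases i <;> fin_cases j <;> simp

theorem torK_mul893 (α β : Kˣ) : torK K (α * β) = torK K α * torK K β := by
  apply Units.ext
  rw [Units.val_mul, torK_val893, torK_val893, torK_val893]
  ext i j
  fin_cases i <;> fin_cases j <;> simp [Matrix.mul_apply, Fin.sum_univ_two]

/-- `α ↦ diag(α, 1)` as a monoid homomorphism. -/
def torKHom893 : Kˣ →* G K where
  toFun := torK K
  map_one' := torK_one893 K
  map_mul' := torK_mul893 K

theorem torK_zpow893 (α : Kˣ) (j : ℤ) : torK K α ^ j = torK K (α ^ j) :=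
  (map_zpow (torKHom893 K) α j).symm

theorem torK_inv893 (α : Kˣ) : (torK K α)⁻¹ = torK K α⁻¹ :=
  (map_inv (torKHom893 K) α).symm

/-- `diag(β,1) n(x) = n(β x) diag(β,1)`. -/
theorem torK_mul_unip893 (β : Kˣ) (x : Adl K) :
    torK K β * unip K x = unip K (emb K (β : K) * x) * torK K β := by
  apply Units.ext
  rw [Units.val_mul, Units.val_mul, unip_val893, unip_val893, torK_val893]
  ext i j
  fin_cases i <;> fin_cases j <;> simp [Matrix.mul_apply, Fin.sum_univ_two]

/-- `(n(x) diag(β,1))⁻¹ = n(-β⁻¹ x) diag(β⁻¹,1)`. -/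
theorem unip_mul_torK_inv893 (β : Kˣ) (x : Adl K) :
    (unip K x * torK K β)⁻¹ = unip K (-(emb K ((β⁻¹ : Kˣ) : K) * x)) * torK K β⁻¹ := by
  rw [mul_inv_rev, unip_inv893, torK_inv893, torK_mul_unip893, mul_neg]

/-- `n(x) diag(β,1) n(x₀) diag(β₀,1) = n(x + β x₀) diag(β β₀, 1)`. -/
theorem unip_torK_mul893 (β β₀ : Kˣ) (x x₀ : Adl K) :
    unip K x * torK K β * (unip K x₀ * torK K β₀)
      = unip K (x + emb K (β : K) * x₀) * torK K (β * β₀) := by
  rw [mul_assoc, ← mul_assoc (torK K β), torK_mul_unip893, unip_add893, torK_mul893]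
  simp only [mul_assoc]

theorem entry00_unip_mul_torK893 (β : Kˣ) (x : Adl K) :
    ((unip K x * torK K β : G K) : Matrix (Fin 2) (Fin 2) (Adl K)) 0 0 = emb K (β : K) := by
  rw [Units.val_mul, unip_val893, torK_val893]
  simp [Matrix.mul_apply, Fin.sum_univ_two]

theorem entry01_unip893 (x : Adl K) :
    ((unip K x : G K) : Matrix (Fin 2) (Fin 2) (Adl K)) 0 1 = x := by
  rw [unip_val893]
  simp

/-! ## Topology -/

theorem continuous_entry893 (i j : Fin 2) :
    Continuous fun g : G K => (g : Matrix (Fin 2) (Fin 2) (Adl K)) i j :=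
  (Units.continuous_val).matrix_elem i j

theorem continuous_unip893 : Continuous (unip K) := by
  rw [Units.continuous_iff]
  constructor
  · refine continuous_matrix fun i j => ?_
    change Continuous fun x : Adl K => (!![1, x; 0, 1] : Matrix (Fin 2) (Fin 2) (Adl K)) i j
    fin_cases i <;> fin_cases j <;> simp <;> fun_prop
  · have : (fun x : Adl K => (((unip K x)⁻¹ : G K) : Matrix (Fin 2) (Fin 2) (Adl K)))
        = fun x => !![1, -x; 0, 1] := by
      funext x
      rw [unip_inv893, unip_val893]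
    rw [this]
    refine continuous_matrix fun i j => ?_
    fin_cases i <;> fin_cases j <;> simp <;> fun_prop

/-- The preimage of a compact set under `x ↦ a n(x) b` lies in a compact set. -/
theorem exists_compact_unip893 (a b : G K) (C : Set (G K)) (hC : IsCompact C) :
    ∃ C' : Set (Adl K), IsCompact C' ∧ ∀ x : Adl K, a * unip K x * b ∈ C → x ∈ C' := by
  refine ⟨(fun g : G K => (g : Matrix (Fin 2) (Fin 2) (Adl K)) 0 1) ''
      ((fun g : G K => a⁻¹ * g * b⁻¹) '' C), ?_, ?_⟩
  · refine (hC.image ?_).image (continuous_entry893 K 0 1)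
    exact (continuous_const.mul continuous_id).mul continuous_const
  · intro x hx
    refine ⟨unip K x, ⟨a * unip K x * b, hx, ?_⟩, entry01_unip893 K x⟩
    change a⁻¹ * (a * unip K x * b) * b⁻¹ = unip K x
    rw [mul_assoc a, inv_mul_cancel_left, mul_inv_cancel_right]

/-- Composition of a compactly supported function with `x ↦ a n(x) b`. -/
theorem hasCompactSupport_comp_unip893 [T2Space (Adl K)] {E : Type*} [Zero E] (F : G K → E)
    (hF : HasCompactSupport F) (a b : G K) :
    HasCompactSupport fun x : Adl K => F (a * unip K x * b) := by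
  obtain ⟨C', hC', hx⟩ := exists_compact_unip893 K a b (tsupport F) hF
  refine HasCompactSupport.intro hC' ?_
  intro x hxC
  by_contra hne
  exact hxC (hx x (subset_tsupport F hne))

theorem continuous_comp_unip893 {E : Type*} [TopologicalSpace E] (F : G K → E)
    (hF : Continuous F) (a b : G K) :
    Continuous fun x : Adl K => F (a * unip K x * b) :=
  hF.comp ((continuous_const.mul (continuous_unip893 K)).mul continuous_const)

/-- Finiteness: only finitely many `β ∈ Kˣ` have `n(x) diag(β,1) y` in a given compact set. -/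
theorem finite_torK_of893 (hdisc : DiscreteTopology (T1.princ K))
    (hclosed : IsClosed (T1.princ K : Set (Adl K))) (C : Set (G K)) (hC : IsCompact C)
    (y : G K) :
    {β : Kˣ | ∃ x : Adl K, unip K x * torK K β * y ∈ C}.Finite := by
  -- the compact set of possible `(0,0)` entries
  set C' : Set (Adl K) := (fun g : G K => (g : Matrix (Fin 2) (Fin 2) (Adl K)) 0 0) ''
      ((fun g : G K => g * y⁻¹) '' C) with hC'
  have hC'c : IsCompact C' := by
    refine (hC.image ?_).image (continuous_entry893 K 0 0)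
    exact continuous_id.mul continuous_const
  have hfin : (C' ∩ (T1.princ K : Set (Adl K))).Finite := by
    have hcomp : IsCompact (C' ∩ (T1.princ K : Set (Adl K))) := hC'c.inter_right hclosed
    refine hcomp.finite ?_
    have : IsDiscrete ((T1.princ K : Set (Adl K))) := ⟨hdisc⟩
    exact this.mono Set.inter_subset_right
  have hinj : Function.Injective fun β : Kˣ => emb K (β : K) := by
    intro β β' h
    exact Units.ext (NumberField.AdeleRing.algebraMap_injective (𝓞 K) K h)
  refine Set.Finite.of_finite_image (hfin.subset ?_) hinj.injOn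
  rintro _ ⟨β, ⟨x, hx⟩, rfl⟩
  refine ⟨⟨unip K x * torK K β, ⟨unip K x * torK K β * y, hx, ?_⟩,
    entry00_unip_mul_torK893 K β x⟩, ⟨(β : K), rfl⟩⟩
  change unip K x * torK K β * y * y⁻¹ = unip K x * torK K β
  rw [mul_inv_cancel_right]

/-- Finiteness, from the interface Prop of tower T1. -/
theorem finite_torK893 (hAL : T1.AdeleLatticeC K) (C : Set (G K)) (hC : IsCompact C) (y : G K) :
    {β : Kˣ | ∃ x : Adl K, unip K x * torK K β * y ∈ C}.Finite :=
  finite_torK_of893 K hAL.1 hAL.2.1 C hC y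

end Fermat.Agent.LT.T3.H893

end

end
-- ===== PACK-END LT/T3/H893/Unip.lean

-- ===== PACK-BEGIN LT/T3/H893/ProdFormula.lean
section




/-!
# Row LT, tower T3 (helper893): the product formula for Haar measures of `𝔸_K`

OFF-MAIN.  `x ↦ α x`, `α ∈ Kˣ`, preserves every Haar measure of `𝔸_K`
(`|α|_𝔸 = 1` in the form which the leaves T3.11, T3.12, T3.15 use).
Proof: the pushforward is a Haar measure, hence `c • ν`; the preimage of a fundamental domain of
`K` in `𝔸_K` is a fundamental domain; two fundamental domains have the same (finite, positive)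
measure; so `c = 1`.  Hypotheses: the interface Props `T1.LocCompC`, `T1.AddFundDomC`.
-/

set_option autoImplicit false
set_option linter.style.haveILetI false

open MeasureTheory NumberField
open scoped ENNReal
open Fermat.Agent.LT.H556.A0

noncomputable section

namespace Fermat.Agent.LT.T3.H893

variable (K : Type) [Field K] [NumberField K]

/-- A number field is countable. -/
theorem countable_numberField893 : Countable K := by
  have b := Module.finBasis ℚ K
  exact b.equivFun.toEquiv.countable_iff.mpr inferInstance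

/-- **Product formula for Haar measures** (interface Prop): multiplication by a principal idele
preserves every Haar measure of `𝔸_K`. -/
def HaarProdC : Prop :=
  letI : MeasurableSpace (Adl K) := borel (Adl K)
  ∀ ν : Measure (Adl K), ν.IsAddHaarMeasure → ∀ α : Kˣ,
    MeasurePreserving (fun x : Adl K => algebraMap K (Adl K) (α : K) * x) ν ν

/-- Multiplication by `α ∈ Kˣ` as an additive equivalence of `𝔸_K`. -/
def mulRat893 (α : Kˣ) : Adl K ≃+ Adl K where
  toFun x := algebraMap K (Adl K) (α : K) * x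
  invFun x := algebraMap K (Adl K) ((α⁻¹ : Kˣ) : K) * x
  left_inv x := by
    show algebraMap K (Adl K) ((α⁻¹ : Kˣ) : K) * (algebraMap K (Adl K) (α : K) * x) = x
    rw [← mul_assoc, ← map_mul, ← Units.val_mul, inv_mul_cancel, Units.val_one, map_one, one_mul]
  right_inv x := by
    show algebraMap K (Adl K) (α : K) * (algebraMap K (Adl K) ((α⁻¹ : Kˣ) : K) * x) = x
    rw [← mul_assoc, ← map_mul, ← Units.val_mul, mul_inv_cancel, Units.val_one, map_one, one_mul]
  map_add' x y := mul_add _ _ _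

theorem mulRat893_apply (α : Kˣ) (x : Adl K) :
    mulRat893 K α x = algebraMap K (Adl K) (α : K) * x := rfl

theorem continuous_mulRat893 (α : Kˣ) : Continuous (mulRat893 K α) :=
  continuous_const.mul continuous_id

theorem continuous_mulRat893_symm (α : Kˣ) : Continuous (mulRat893 K α).symm :=
  continuous_const.mul continuous_id

/-- The product formula from the interface of tower T1. -/
theorem haarProd_of893 (hLC : T1.LocCompC K) (hFD : T1.AddFundDomC K) : HaarProdC K := by
  intro ν hν α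
  letI : MeasurableSpace (Adl K) := borel (Adl K)
  haveI : BorelSpace (Adl K) := ⟨rfl⟩
  haveI : LocallyCompactSpace (Adl K) := hLC.1.1
  haveI : T2Space (Adl K) := hLC.1.2.1
  haveI : SecondCountableTopology (Adl K) := hLC.1.2.2
  haveI := hν
  haveI : Countable K := countable_numberField893 K
  set e := mulRat893 K α with he
  have hec : Continuous e := continuous_mulRat893 K α
  have hem : Measurable e := hec.measurable
  haveI hν' : (Measure.map e ν).IsAddHaarMeasure :=
    AddEquiv.isAddHaarMeasure_map ν e hec (continuous_mulRat893_symm K α)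
  -- uniqueness of Haar measure
  have hc := Measure.isAddLeftInvariant_eq_smul (Measure.map e ν) ν
  set c : NNReal := (Measure.map e ν).addHaarScalarFactor ν with hcdef
  -- the fundamental domain
  obtain ⟨D, hDm, hD, -, hDpos, hDfin⟩ := hFD ν hν
  haveI : Countable (T1.princ K) := by
    have : Function.Surjective (fun ξ : K => (⟨algebraMap K (Adl K) ξ, ⟨ξ, rfl⟩⟩ : T1.princ K)) := by
      rintro ⟨x, ξ, rfl⟩
      exact ⟨ξ, rfl⟩
    exact this.countable
  -- quasi measure preserving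
  have hq : Measure.QuasiMeasurePreserving e ν ν := by
    refine ⟨hem, ?_⟩
    rw [hc]
    exact Measure.smul_absolutelyContinuous
  -- the bijection of `K` on the translations
  let eG : T1.princ K → T1.princ K := fun g =>
    ⟨(mulRat893 K α).symm g.1, by
      obtain ⟨x, ξ, rfl⟩ := g
      refine ⟨((α⁻¹ : Kˣ) : K) * ξ, ?_⟩
      change algebraMap K (Adl K) (((α⁻¹ : Kˣ) : K) * ξ) = algebraMap K (Adl K) ((α⁻¹ : Kˣ) : K) * _
      rw [map_mul]
      rfl⟩
  have heGb : Function.Bijective eG := by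
    constructor
    · intro a b hab
      have := congrArg Subtype.val hab
      simp only [eG] at this
      exact Subtype.ext ((mulRat893 K α).symm.injective this)
    · rintro ⟨x, ξ, rfl⟩
      refine ⟨⟨mulRat893 K α (algebraMap K (Adl K) ξ), ⟨(α : K) * ξ, ?_⟩⟩, ?_⟩
      · change algebraMap K (Adl K) ((α : K) * ξ) = algebraMap K (Adl K) (α : K) * _
        rw [map_mul]
      · apply Subtype.ext
        simp [eG]
  have hD' : IsAddFundamentalDomain (T1.princ K) (e ⁻¹' D) ν := by
    refine hD.preimage_of_equiv hq heGb ?_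
    intro g x
    change e ((eG g : Adl K) + x) = (g : Adl K) + e x
    rw [map_add]
    congr 1
    simp [eG, he]
  have hmeas : ν (e ⁻¹' D) = ν D := hD'.measure_eq hD
  have hmap : Measure.map e ν D = ν D := by
    rw [Measure.map_apply hem hDm, hmeas]
  have hc1 : (c : ℝ≥0∞) = 1 := by
    have h1 : (Measure.map e ν) D = (c : ℝ≥0∞) * ν D := by
      conv_lhs => rw [hc]
      rfl
    rw [hmap] at h1
    have h2 : (c : ℝ≥0∞) * ν D = 1 * ν D := by rw [one_mul]; exact h1.symm
    exact (ENNReal.mul_left_inj hDpos.ne' hDfin.ne).mp h2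
  refine ⟨hem, ?_⟩
  change Measure.map e ν = ν
  rw [hc]
  change (c : ℝ≥0∞) • ν = ν
  rw [hc1, one_smul]

end Fermat.Agent.LT.T3.H893

end

end
-- ===== PACK-END LT/T3/H893/ProdFormula.lean

-- ===== PACK-BEGIN LT/T3/H904/EKStar.lean
section



/-!
# Row LT, tower T3, sub-leaf T3.15 `EKStarC` (helper904)

OFF-MAIN.  `f` Eisenstein-killing with respect to `α` implies `f^*` Eisenstein-killing with
respect to `α`.

* `ScaleInvC K` : multiplication by a principal idele preserves every Haar measure of `𝔸_K`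
  (product formula in measure form).
* `ekStar_of_scaleInv` : `ScaleInvC K → T3.EKStarC K`  (this file, imports `T3/Spec` only).
* `EKStarT1.lean` : `scaleInv_of : T1.LocCompC K → T1.AddFundDomC K → ScaleInvC K` and
  `ekStar_of : T1.LocCompC K → T1.AddFundDomC K → T3.EKStarC K`.
-/

set_option autoImplicit false
set_option linter.style.haveILetI false

open IsDedekindDomain NumberField MeasureTheory
open Fermat.Agent.LT.H556.A0

noncomputable section

namespace Fermat.Agent.LT.T3.H904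

variable (K : Type) [Field K] [NumberField K]

/-! ## Algebra in `GL₂(𝔸_K)` -/

theorem unip_mul_unip (x y : Adl K) : unip K x * unip K y = unip K (x + y) := by
  apply Units.ext
  simp only [Units.val_mul, unip_coe]
  ext i j
  fin_cases i <;> fin_cases j <;> simp [Matrix.mul_apply, Fin.sum_univ_two, add_comm]

theorem unip_zero : unip K 0 = 1 := by
  apply Units.ext
  rw [unip_coe]
  ext i j
  fin_cases i <;> fin_cases j <;> simp

theorem unip_inv (x : Adl K) : (unip K x)⁻¹ = unip K (-x) := by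
  rw [inv_eq_iff_mul_eq_one, unip_mul_unip, add_neg_cancel, unip_zero]

theorem torK_coe (α : Kˣ) :
    ((torK K α : G K) : Matrix (Fin 2) (Fin 2) (Adl K)) = !![emb K (α : K), 0; 0, 1] := rfl

theorem torK_mul (α β : Kˣ) : torK K α * torK K β = torK K (α * β) := by
  apply Units.ext
  simp only [Units.val_mul, _root_.Fermat.Agent.LT.T3.H904.torK_coe]
  ext i j
  fin_cases i <;> fin_cases j <;> simp [Matrix.mul_apply, Fin.sum_univ_two]

theorem torK_one : torK K 1 = 1 := by
  apply Units.ext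
  rw [_root_.Fermat.Agent.LT.T3.H904.torK_coe]
  ext i j
  fin_cases i <;> fin_cases j <;> simp

/-- `torK` as a monoid homomorphism. -/
def torKHom : Kˣ →* G K where
  toFun := torK K
  map_one' := torK_one K
  map_mul' a b := (torK_mul K a b).symm

theorem torK_zpow (α : Kˣ) (j : ℤ) : torK K α ^ j = torK K (α ^ j) :=
  (map_zpow (torKHom K) α j).symm

theorem torK_mul_unip (β : Kˣ) (y : Adl K) :
    torK K β * unip K y = unip K (emb K (β : K) * y) * torK K β := by
  apply Units.ext
  simp only [Units.val_mul, _root_.Fermat.Agent.LT.T3.H904.torK_coe, unip_coe]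
  ext i j
  fin_cases i <;> fin_cases j <;> simp [Matrix.mul_apply, Fin.sum_univ_two]

/-- The inverse of the argument of the EK integrand. -/
theorem inv_arg (α : Kˣ) (g g' : G K) (x : Adl K) (j : ℤ) :
    (g⁻¹ * unip K x * torK K α ^ j * g')⁻¹
      = g'⁻¹ * unip K (emb K (((-(α ^ (-j)) : Kˣ)) : K) * x) * torK K α ^ (-j) * g := by
  have h1 : (g⁻¹ * unip K x * torK K α ^ j * g')⁻¹
      = g'⁻¹ * ((torK K α ^ j)⁻¹ * (unip K x)⁻¹) * g := by
    simp only [mul_inv_rev, inv_inv, mul_assoc]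
  rw [h1, ← zpow_neg, unip_inv, torK_zpow, torK_mul_unip]
  have h2 : emb K ((α ^ (-j) : Kˣ) : K) * -x = emb K (((-(α ^ (-j)) : Kˣ)) : K) * x := by
    simp [Units.val_neg]
  rw [h2]
  simp only [mul_assoc]

/-! ## Scaling by principal ideles -/

/-- The principal idele of `ξ ∈ Kˣ`. -/
def embU (ξ : Kˣ) : (Adl K)ˣ := Units.map (emb K).toMonoidHom ξ

@[simp] theorem embU_coe (ξ : Kˣ) : ((embU K ξ : (Adl K)ˣ) : Adl K) = emb K (ξ : K) := rfl

/-- Multiplication by a unit of `𝔸_K` as a homeomorphism. -/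
def mulHomeo (c : (Adl K)ˣ) : Adl K ≃ₜ Adl K where
  toFun x := (c : Adl K) * x
  invFun x := ((c⁻¹ : (Adl K)ˣ) : Adl K) * x
  left_inv x := by simp
  right_inv x := by simp
  continuous_toFun := continuous_const.mul continuous_id
  continuous_invFun := continuous_const.mul continuous_id

@[simp] theorem mulHomeo_apply (c : (Adl K)ˣ) (x : Adl K) : mulHomeo K c x = (c : Adl K) * x := rfl

/-- **Product formula, measure form**: multiplication by a principal idele preserves every Haar
measure of `𝔸_K`. -/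
def ScaleInvC : Prop :=
  letI : MeasurableSpace (Adl K) := borel (Adl K)
  ∀ ν : Measure (Adl K), ν.IsAddHaarMeasure → ∀ ξ : Kˣ,
    Measure.map (fun x : Adl K => emb K (ξ : K) * x) ν = ν

/-- Change of variables `x ↦ ξ x` in an integral over `𝔸_K` (no measurability needed). -/
theorem integral_scale (h : ScaleInvC K) :
    letI : MeasurableSpace (Adl K) := borel (Adl K)
    ∀ ν : Measure (Adl K), ν.IsAddHaarMeasure → ∀ (ξ : Kˣ) (F : Adl K → ℂ),
      ∫ x, F (emb K (ξ : K) * x) ∂ν = ∫ x, F x ∂ν := by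
  letI : MeasurableSpace (Adl K) := borel (Adl K)
  haveI : BorelSpace (Adl K) := ⟨rfl⟩
  intro ν hν ξ F
  have hemb : MeasurableEmbedding (fun x : Adl K => emb K (ξ : K) * x) :=
    (mulHomeo K (embU K ξ)).measurableEmbedding
  have := hemb.integral_map (μ := ν) F
  rw [h ν hν ξ] at this
  exact this.symm

/-! ## T3.15 -/

/-- **T3.15 from the product formula in measure form.** -/
theorem ekStar_of_scaleInv (h : ScaleInvC K) : EKStarC K := by
  letI : MeasurableSpace (Adl K) := borel (Adl K)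
  haveI : BorelSpace (Adl K) := ⟨rfl⟩
  intro ν hν α f _hf _hfc hEK g g'
  have key : ∀ j : ℤ, ∫ x, starG K f (g⁻¹ * unip K x * torK K α ^ j * g') ∂ν
      = star (∫ x, f (g'⁻¹ * unip K x * torK K α ^ (-j) * g) ∂ν) := by
    intro j
    have h1 : (fun x : Adl K => starG K f (g⁻¹ * unip K x * torK K α ^ j * g'))
        = fun x : Adl K => (starRingEnd ℂ)
            ((fun y : Adl K => f (g'⁻¹ * unip K y * torK K α ^ (-j) * g))
              (emb K (((-(α ^ (-j)) : Kˣ)) : K) * x)) := by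
      funext x
      simp only [starG, inv_arg]
    have h2 := integral_scale K h ν hν (-(α ^ (-j)))
      (fun y : Adl K => f (g'⁻¹ * unip K y * torK K α ^ (-j) * g))
    rw [h1, integral_conj]
    simp only [] at h2 ⊢
    rw [h2]
    rfl
  have hs := hEK g' g
  have hs' : HasSum (fun j : ℤ => ∫ x, f (g'⁻¹ * unip K x * torK K α ^ (-j) * g) ∂ν) 0 :=
    (Equiv.neg ℤ).hasSum_iff.mpr hs
  have hs'' := hs'.star
  simp only [star_zero] at hs''
  have hfun : (fun j : ℤ => ∫ x, starG K f (g⁻¹ * unip K x * torK K α ^ j * g') ∂ν)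
      = fun j : ℤ => star (∫ x, f (g'⁻¹ * unip K x * torK K α ^ (-j) * g) ∂ν) :=
    funext key
  rw [hfun]
  exact hs''

end Fermat.Agent.LT.T3.H904

end

end
-- ===== PACK-END LT/T3/H904/EKStar.lean

-- ===== PACK-BEGIN LT/T3/H984/Whitney.lean
section



/-!
# Row LT, tower T3, leaf AS.2w (helper984): Whitney's lemma (division by `sinh`, with a parameter)

Mathlib only.  For `E (u, c)` smooth on `ℝ²` and even in `u` there is `ρ`, smooth on the closed
half plane `{y ≥ 1}` up to the boundary, with `∂_u E (u, c) = sinh u · ρ (cosh u, c)`.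

Proof.  `L Q = ∂_u Q / sinh u` preserves the smooth functions which are even in `u`
(`Hadamard.lean`).  For such `Q` put `ρ_Q (y, c) = Q (arcosh y, c)`.  In the open half plane
`ρ_Q` is differentiable with `∂_y ρ_Q = ρ_{L Q}`, `∂_c ρ_Q = ρ_{∂_c Q}`; these are continuous on
the closed half plane, hence (`hasFDerivWithinAt_closure_of_tendsto_fderiv`) `ρ_Q` is
differentiable within the closed half plane with the same formula; induction on the order.
The answer is `ρ = ρ_{L E}`.  OFF-MAIN.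
-/

set_option autoImplicit false

noncomputable section

namespace Fermat.Agent.LT.T3.H984

open Set Filter Topology
open scoped ContDiff

/-- The closed half plane `{y ≥ 1}`. -/
def hp984 : Set (ℝ × ℝ) := Ici (1:ℝ) ×ˢ univ

/-- The open half plane `{y > 1}`. -/
def hpo984 : Set (ℝ × ℝ) := Ioi (1:ℝ) ×ˢ univ

theorem hpo_open984 : IsOpen hpo984 := isOpen_Ioi.prod isOpen_univ

theorem hpo_convex984 : Convex ℝ hpo984 := (convex_Ioi 1).prod convex_univ

theorem hpo_closure984 : closure hpo984 = hp984 := by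
  rw [hpo984, hp984, closure_prod_eq, closure_Ioi, closure_univ]

theorem hpo_sub984 : hpo984 ⊆ hp984 := prod_mono Ioi_subset_Ici_self subset_rfl

theorem hp_unique984 : UniqueDiffOn ℝ hp984 := (uniqueDiffOn_Ici 1).prod uniqueDiffOn_univ

/-- The inner map `(y, c) ↦ (arcosh y, c)`. -/
def inn984 (p : ℝ × ℝ) : ℝ × ℝ := (Real.arcosh p.1, p.2)

/-- `ρ_Q (y, c) = Q (arcosh y, c)`. -/
def rho984 (Q : ℝ × ℝ → ℂ) (p : ℝ × ℝ) : ℂ := Q (inn984 p)

theorem inn_contOn984 : ContinuousOn inn984 hp984 := by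
  apply ContinuousOn.prodMk
  · exact Real.continuousOn_arcosh.comp continuousOn_fst (fun p hp => hp.1)
  · exact continuousOn_snd

theorem rho_contOn984 {Q : ℝ × ℝ → ℂ} (hQ : Continuous Q) : ContinuousOn (rho984 Q) hp984 :=
  hQ.comp_continuousOn inn_contOn984

/-- The derivative of `ρ_Q`. -/
def der984 (Q : ℝ × ℝ → ℂ) (p : ℝ × ℝ) : ℝ × ℝ →L[ℝ] ℂ :=
  (ContinuousLinearMap.fst ℝ ℝ ℝ).smulRight (rho984 (opL984 Q) p) +
    (ContinuousLinearMap.snd ℝ ℝ ℝ).smulRight (rho984 (d2_984 Q) p)

theorem inn_hasFDerivAt984 (p : ℝ × ℝ) (hp : p ∈ hpo984) :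
    HasFDerivAt inn984
      (((√(p.1 ^ 2 - 1))⁻¹ • ContinuousLinearMap.fst ℝ ℝ ℝ).prod
        (ContinuousLinearMap.snd ℝ ℝ ℝ)) p := by
  have h1 : HasFDerivAt (fun q : ℝ × ℝ => Real.arcosh q.1)
      ((√(p.1 ^ 2 - 1))⁻¹ • ContinuousLinearMap.fst ℝ ℝ ℝ) p :=
    (Real.hasDerivAt_arcosh hp.1).comp_hasFDerivAt p hasFDerivAt_fst
  exact h1.prodMk hasFDerivAt_snd

theorem rho_hasFDerivAt984 {Q : ℝ × ℝ → ℂ} (hQ : ContDiff ℝ ∞ Q) (hev : IsEv984 Q)
    (p : ℝ × ℝ) (hp : p ∈ hpo984) : HasFDerivAt (rho984 Q) (der984 Q p) p := by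
  have h1 : HasFDerivAt (rho984 Q) ((fderiv ℝ Q (inn984 p)).comp
      (((√(p.1 ^ 2 - 1))⁻¹ • ContinuousLinearMap.fst ℝ ℝ ℝ).prod
        (ContinuousLinearMap.snd ℝ ℝ ℝ))) p :=
    (hasFDerivAt984 hQ (inn984 p)).comp p (inn_hasFDerivAt984 p hp)
  have hy : (1:ℝ) < p.1 := hp.1
  have hs : √(p.1 ^ 2 - 1) ≠ 0 := by
    apply (Real.sqrt_pos.mpr _).ne'
    nlinarith
  have hsC : ((√(p.1 ^ 2 - 1) : ℝ) : ℂ) ≠ 0 := Complex.ofReal_ne_zero.mpr hs
  have e : (fderiv ℝ Q (inn984 p)).comp
      (((√(p.1 ^ 2 - 1))⁻¹ • ContinuousLinearMap.fst ℝ ℝ ℝ).prod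
        (ContinuousLinearMap.snd ℝ ℝ ℝ)) = der984 Q p := by
    apply ContinuousLinearMap.ext
    rintro ⟨a, b⟩
    have hd1 : d1_984 Q (inn984 p) = ((√(p.1 ^ 2 - 1) : ℝ) : ℂ) * rho984 (opL984 Q) p := by
      have := opL_mul984 hQ hev (Real.arcosh p.1) p.2
      rw [Real.sinh_arcosh hy.le] at this
      exact this
    simp only [ContinuousLinearMap.comp_apply, ContinuousLinearMap.prod_apply,
      FunLike.coe_smul, Pi.smul_apply, ContinuousLinearMap.coe_fst', ContinuousLinearMap.coe_snd',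
      smul_eq_mul, der984, FunLike.coe_add, Pi.add_apply, ContinuousLinearMap.smulRight_apply,
      Complex.real_smul]
    rw [fderiv_apply984, hd1]
    simp only [rho984, Complex.ofReal_mul, Complex.ofReal_inv]
    field_simp
  rw [← e]
  exact h1

theorem rho_hasFDerivWithinAt984 {Q : ℝ × ℝ → ℂ} (hQ : ContDiff ℝ ∞ Q) (hev : IsEv984 Q)
    (hA : ContinuousOn (der984 Q) hp984) (x : ℝ × ℝ) (hx : x ∈ hp984) :
    HasFDerivWithinAt (rho984 Q) (der984 Q x) hp984 x := by
  rw [← hpo_closure984]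
  apply hasFDerivWithinAt_closure_of_tendsto_fderiv
  · intro p hp
    exact (rho_hasFDerivAt984 hQ hev p hp).differentiableAt.differentiableWithinAt
  · exact hpo_convex984
  · exact hpo_open984
  · intro y hy
    rw [hpo_closure984] at hy
    exact ((rho_contOn984 hQ.continuous) y hy).mono hpo_sub984
  · have h1 : Tendsto (der984 Q) (𝓝[hpo984] x) (𝓝 (der984 Q x)) := (hA x hx).mono hpo_sub984
    refine h1.congr' ?_
    filter_upwards [self_mem_nhdsWithin] with y hy
    exact (rho_hasFDerivAt984 hQ hev y hy).fderiv.symm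

theorem rho_contDiffOn_nat984 (n : ℕ) : ∀ Q : ℝ × ℝ → ℂ, ContDiff ℝ ∞ Q → IsEv984 Q →
    ContDiffOn ℝ n (rho984 Q) hp984 := by
  induction n with
  | zero =>
    intro Q hQ _
    have := (contDiffOn_zero (𝕜 := ℝ)).mpr (rho_contOn984 hQ.continuous)
    exact_mod_cast this
  | succ n ih =>
    intro Q hQ hev
    have hL := ih (opL984 Q) (opL_contDiff984 hQ) (opL_even984 hQ hev)
    have hD := ih (d2_984 Q) (d2_contDiff984 hQ) (d2_even984 hQ hev)
    have hA : ContDiffOn ℝ n (der984 Q) hp984 :=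
      (contDiffOn_const.smulRight hL).add (contDiffOn_const.smulRight hD)
    have hd : ∀ x ∈ hp984, HasFDerivWithinAt (rho984 Q) (der984 Q x) hp984 x :=
      fun x hx => rho_hasFDerivWithinAt984 hQ hev hA.continuousOn x hx
    have key : ContDiffOn ℝ ((n : WithTop ℕ∞) + 1) (rho984 Q) hp984 := by
      apply contDiffOn_succ_of_fderivWithin
      · exact fun x hx => (hd x hx).differentiableWithinAt
      · intro h
        exact absurd h (by simp)
      · exact hA.congr (fun x hx => (hd x hx).fderivWithin (hp_unique984 x hx))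
    exact_mod_cast key

theorem rho_contDiffOn984 {Q : ℝ × ℝ → ℂ} (hQ : ContDiff ℝ ∞ Q) (hev : IsEv984 Q) :
    ContDiffOn ℝ ∞ (rho984 Q) hp984 :=
  contDiffOn_infty.mpr (fun n => rho_contDiffOn_nat984 n Q hQ hev)

/-- **AS.2w = WHITNEY (division form, with a parameter).** -/
theorem whitneySinh984 (E : ℝ × ℝ → ℂ) (hE : ContDiff ℝ ((⊤ : ℕ∞) : WithTop ℕ∞) E)
    (hev : ∀ u c : ℝ, E (-u, c) = E (u, c)) :
    ∃ ρ : ℝ × ℝ → ℂ,
      ContDiffOn ℝ ((⊤ : ℕ∞) : WithTop ℕ∞) ρ (Set.Ici (1 : ℝ) ×ˢ (Set.univ : Set ℝ)) ∧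
      ∀ u c : ℝ, deriv (fun t : ℝ => E (t, c)) u = (Real.sinh u : ℂ) * ρ (Real.cosh u, c) := by
  refine ⟨rho984 (opL984 E), rho_contDiffOn984 (opL_contDiff984 hE) (opL_even984 hE hev),
    fun u c => ?_⟩
  rw [← d1_eq_deriv984 hE, opL_mul984 hE hev]
  congr 1
  show opL984 E (u, c) = opL984 E (Real.arcosh (Real.cosh u), c)
  rcases le_total 0 u with h | h
  · rw [Real.arcosh_cosh h]
  · have : Real.arcosh (Real.cosh u) = -u := by
      rw [← Real.cosh_neg, Real.arcosh_cosh (by linarith)]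
    rw [this, opL_even984 hE hev]

/-- The one-variable form. -/
theorem whitneySinh1_984 (E : ℝ → ℂ) (hE : ContDiff ℝ ((⊤ : ℕ∞) : WithTop ℕ∞) E)
    (hev : ∀ u : ℝ, E (-u) = E u) :
    ∃ ρ : ℝ → ℂ, ContDiffOn ℝ ((⊤ : ℕ∞) : WithTop ℕ∞) ρ (Set.Ici (1 : ℝ)) ∧
      ∀ u : ℝ, deriv E u = (Real.sinh u : ℂ) * ρ (Real.cosh u) := by
  obtain ⟨ρ, hρ, h⟩ := whitneySinh984 (fun p => E p.1) (hE.comp contDiff_fst)
    (fun u _ => hev u)
  refine ⟨fun y => ρ (y, 0), ?_, fun u => h u 0⟩
  exact hρ.comp (contDiff_id.prodMk contDiff_const).contDiffOn (fun y hy => ⟨hy, mem_univ _⟩)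

end Fermat.Agent.LT.T3.H984

end
end
-- ===== PACK-END LT/T3/H984/Whitney.lean

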