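import Mathlib
import Fermat.Agent.Pack.LT2.E2L0
import Fermat.Agent.Pack.L1.E1L2
import Fermat.Agent.Pack.LT2.E2L1
import Fermat.Agent.Pack.LT2.E0L2
import Fermat.Agent.Pack.LT2.E1L3

set_option linter.all false

-- ===== PACK-BEGIN LT/H129/Local.lean
section


/-!
# Row LT, tower T1, helper129: the local embedding `GL₂(K_v) → GL₂(𝔸_K)` (A0 vocabulary)

OFF-MAIN.  General number field `K`, finite place `v`.

* `locFin129 v : GL₂(K_v) →* G K` — the element with matrix `x` at `v` and `1` at every other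
  place (finite or infinite);
* `finCompHom129_locFin129`, `finCompHom129_locFin129_of_ne`, `infCompHom129_locFin129`;
* `isLocalAtFin_locFin129 : A0.IsLocalAtFin v (locFin129 v x)`;
* `eq_locFin129_of_isLocalAtFin : A0.IsLocalAtFin v g → g = locFin129 v (finCompHom129 v g)`.
-/

set_option autoImplicit false

open IsDedekindDomain NumberField
open Fermat.Agent.LT.H556.A0

noncomputable section

namespace Fermat.Agent.LT.H129

variable {K : Type} [Field K] [NumberField K]

open scoped Classical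

/-- The finite adele with component `x` at `v` and `1` (if `d = true`) resp. `0` elsewhere. -/
def finSingle129 (v : HeightOneSpectrum (𝓞 K)) (d : Bool) (x : v.adicCompletion K) :
    FiniteAdeleRing (𝓞 K) K :=
  if d then RestrictedProduct.mulSingle
      (fun v : HeightOneSpectrum (𝓞 K) => v.adicCompletionIntegers K) v x
  else RestrictedProduct.single
      (fun v : HeightOneSpectrum (𝓞 K) => v.adicCompletionIntegers K) v x

theorem finSingle129_same (v : HeightOneSpectrum (𝓞 K)) (d : Bool) (x : v.adicCompletion K) :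
    finSingle129 v d x v = x := by
  unfold finSingle129
  cases d
  · simp only [Bool.false_eq_true, if_false]
    exact RestrictedProduct.single_eq_same
      (fun v : HeightOneSpectrum (𝓞 K) => v.adicCompletionIntegers K) v x
  · simp only [if_true]
    exact RestrictedProduct.mulSingle_eq_same
      (fun v : HeightOneSpectrum (𝓞 K) => v.adicCompletionIntegers K) v x

theorem finSingle129_of_ne (v : HeightOneSpectrum (𝓞 K)) (d : Bool) (x : v.adicCompletion K)
    {v' : HeightOneSpectrum (𝓞 K)} (h : v' ≠ v) :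
    finSingle129 v d x v' = if d then 1 else 0 := by
  unfold finSingle129
  cases d
  · simp only [Bool.false_eq_true, if_false]
    exact RestrictedProduct.single_eq_of_ne
      (fun v : HeightOneSpectrum (𝓞 K) => v.adicCompletionIntegers K) x h
  · simp only [if_true]
    exact RestrictedProduct.mulSingle_eq_of_ne
      (fun v : HeightOneSpectrum (𝓞 K) => v.adicCompletionIntegers K) x h

/-- The adelic matrix with component `M` at `v` and `1` elsewhere. -/
def locMat129 (v : HeightOneSpectrum (𝓞 K)) (M : Matrix (Fin 2) (Fin 2) (v.adicCompletion K)) :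
    Matrix (Fin 2) (Fin 2) (Adl K) :=
  fun i j => ((1 : Matrix (Fin 2) (Fin 2) (InfiniteAdeleRing K)) i j,
    finSingle129 v (decide (i = j)) (M i j))

theorem locMat129_map_same (v : HeightOneSpectrum (𝓞 K))
    (M : Matrix (Fin 2) (Fin 2) (v.adicCompletion K)) :
    (locMat129 v M).map (evF129 v) = M := by
  refine Matrix.ext fun i j => ?_
  simp only [Matrix.map_apply, evF129_apply, locMat129]
  exact finSingle129_same v _ _

theorem locMat129_map_of_ne (v : HeightOneSpectrum (𝓞 K))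
    (M : Matrix (Fin 2) (Fin 2) (v.adicCompletion K)) {v' : HeightOneSpectrum (𝓞 K)}
    (h : v' ≠ v) : (locMat129 v M).map (evF129 v') = 1 := by
  refine Matrix.ext fun i j => ?_
  simp only [Matrix.map_apply, evF129_apply, locMat129]
  rw [finSingle129_of_ne v _ _ h]
  by_cases hij : i = j
  · subst hij; simp
  · simp [hij]

theorem locMat129_map_inf (v : HeightOneSpectrum (𝓞 K))
    (M : Matrix (Fin 2) (Fin 2) (v.adicCompletion K)) (w : InfinitePlace K) :
    (locMat129 v M).map (evI129 w) = 1 := by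
  refine Matrix.ext fun i j => ?_
  simp only [Matrix.map_apply, evI129_apply, locMat129]
  by_cases hij : i = j
  · subst hij; simp only [Matrix.one_apply_eq]; rfl
  · simp only [Matrix.one_apply_ne hij]; rfl

theorem one_map_evF129 (v : HeightOneSpectrum (𝓞 K)) :
    (1 : Matrix (Fin 2) (Fin 2) (Adl K)).map (evF129 v) = 1 :=
  Matrix.map_one _ (map_zero _) (map_one _)

theorem one_map_evI129 (w : InfinitePlace K) :
    (1 : Matrix (Fin 2) (Fin 2) (Adl K)).map (evI129 w) = 1 :=
  Matrix.map_one _ (map_zero _) (map_one _)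

theorem locMat129_one (v : HeightOneSpectrum (𝓞 K)) : locMat129 v 1 = 1 := by
  apply adeleMatrix_ext129
  · intro w
    rw [locMat129_map_inf, one_map_evI129]
  · intro v'
    by_cases h : v' = v
    · subst h
      rw [locMat129_map_same, one_map_evF129]
    · rw [locMat129_map_of_ne v _ h, one_map_evF129]

theorem locMat129_mul (v : HeightOneSpectrum (𝓞 K))
    (M N : Matrix (Fin 2) (Fin 2) (v.adicCompletion K)) :
    locMat129 v (M * N) = locMat129 v M * locMat129 v N := by
  apply adeleMatrix_ext129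
  · intro w
    rw [Matrix.map_mul, locMat129_map_inf, locMat129_map_inf, locMat129_map_inf, mul_one]
  · intro v'
    rw [Matrix.map_mul]
    by_cases h : v' = v
    · subst h
      rw [locMat129_map_same, locMat129_map_same, locMat129_map_same]
    · rw [locMat129_map_of_ne v _ h, locMat129_map_of_ne v _ h, locMat129_map_of_ne v _ h,
        mul_one]

/-- **The local embedding** `GL₂(K_v) →* GL₂(𝔸_K)`. -/
def locFin129 (v : HeightOneSpectrum (𝓞 K)) : GL (Fin 2) (v.adicCompletion K) →* G K where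
  toFun x :=
    { val := locMat129 v (x : Matrix (Fin 2) (Fin 2) (v.adicCompletion K))
      inv := locMat129 v ((x⁻¹ : GL (Fin 2) (v.adicCompletion K)) :
        Matrix (Fin 2) (Fin 2) (v.adicCompletion K))
      val_inv := by
        rw [← locMat129_mul, ← Matrix.GeneralLinearGroup.coe_mul, mul_inv_cancel]
        exact locMat129_one v
      inv_val := by
        rw [← locMat129_mul, ← Matrix.GeneralLinearGroup.coe_mul, inv_mul_cancel]
        exact locMat129_one v }
  map_one' := Units.ext (locMat129_one v)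
  map_mul' x y := Units.ext (locMat129_mul v _ _)

theorem coe_locFin129 (v : HeightOneSpectrum (𝓞 K)) (x : GL (Fin 2) (v.adicCompletion K)) :
    ((locFin129 v x : G K) : Matrix (Fin 2) (Fin 2) (Adl K))
      = locMat129 v (x : Matrix (Fin 2) (Fin 2) (v.adicCompletion K)) := rfl

theorem finCompHom129_locFin129 (v : HeightOneSpectrum (𝓞 K))
    (x : GL (Fin 2) (v.adicCompletion K)) : finCompHom129 v (locFin129 v x) = x := by
  apply Units.ext
  rw [coe_finCompHom129_map, coe_locFin129, locMat129_map_same]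

theorem finCompHom129_locFin129_of_ne (v : HeightOneSpectrum (𝓞 K))
    (x : GL (Fin 2) (v.adicCompletion K)) {v' : HeightOneSpectrum (𝓞 K)} (h : v' ≠ v) :
    finCompHom129 v' (locFin129 v x) = 1 := by
  apply Units.ext
  rw [coe_finCompHom129_map, coe_locFin129, locMat129_map_of_ne v _ h]
  rfl

theorem infCompHom129_locFin129 (v : HeightOneSpectrum (𝓞 K))
    (x : GL (Fin 2) (v.adicCompletion K)) (w : InfinitePlace K) :
    infCompHom129 w (locFin129 v x) = 1 := by
  apply Units.ext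
  rw [coe_infCompHom129_map, coe_locFin129, locMat129_map_inf]
  rfl

theorem finComp_locFin129 (v : HeightOneSpectrum (𝓞 K))
    (x : GL (Fin 2) (v.adicCompletion K)) :
    finComp v (locFin129 v x) = (x : Matrix (Fin 2) (Fin 2) (v.adicCompletion K)) := by
  rw [← coe_finCompHom129, finCompHom129_locFin129]

theorem isLocalAtFin_iff129 (v : HeightOneSpectrum (𝓞 K)) (g : G K) :
    IsLocalAtFin v g ↔ (∀ w : InfinitePlace K, infCompHom129 w g = 1) ∧
      ∀ v' : HeightOneSpectrum (𝓞 K), v' ≠ v → finCompHom129 v' g = 1 := by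
  unfold IsLocalAtFin
  simp only [trivAtInf_iff129, trivAtFin_iff129]

theorem isLocalAtFin_locFin129 (v : HeightOneSpectrum (𝓞 K))
    (x : GL (Fin 2) (v.adicCompletion K)) : IsLocalAtFin v (locFin129 v x) := by
  rw [isLocalAtFin_iff129]
  exact ⟨fun w => infCompHom129_locFin129 v x w,
    fun v' h => finCompHom129_locFin129_of_ne v x h⟩

/-- A local element at `v` is the local embedding of its component at `v`. -/
theorem eq_locFin129_of_isLocalAtFin {v : HeightOneSpectrum (𝓞 K)} {g : G K}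
    (hg : IsLocalAtFin v g) : g = locFin129 v (finCompHom129 v g) := by
  rw [isLocalAtFin_iff129] at hg
  apply G_ext129
  · intro w
    rw [hg.1 w, infCompHom129_locFin129]
  · intro v'
    by_cases h : v' = v
    · subst h
      rw [finCompHom129_locFin129]
    · rw [hg.2 v' h, finCompHom129_locFin129_of_ne v _ h]

theorem isLocalAtFin_mul129 {v : HeightOneSpectrum (𝓞 K)} {g h : G K}
    (hg : IsLocalAtFin v g) (hh : IsLocalAtFin v h) : IsLocalAtFin v (g * h) := by
  rw [isLocalAtFin_iff129] at *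
  exact ⟨fun w => by rw [map_mul, hg.1 w, hh.1 w, mul_one],
    fun v' hv => by rw [map_mul, hg.2 v' hv, hh.2 v' hv, mul_one]⟩

theorem isLocalAtFin_inv129 {v : HeightOneSpectrum (𝓞 K)} {g : G K}
    (hg : IsLocalAtFin v g) : IsLocalAtFin v g⁻¹ := by
  rw [isLocalAtFin_iff129] at *
  exact ⟨fun w => by rw [map_inv, hg.1 w, inv_one],
    fun v' hv => by rw [map_inv, hg.2 v' hv, inv_one]⟩

theorem isLocalAtFin_one129 (v : HeightOneSpectrum (𝓞 K)) : IsLocalAtFin v (1 : G K) := by
  rw [isLocalAtFin_iff129]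
  exact ⟨fun w => map_one _, fun v' _ => map_one _⟩

end Fermat.Agent.LT.H129

end

end
-- ===== PACK-END LT/H129/Local.lean

-- ===== PACK-BEGIN LT/H767/AdeleCocompact.lean
section


/-!
# Row LT, tower T1 (basics) — helper767: `𝔸_K / K` is compact

OFF-MAIN.  Mathlib only (+ `LocalCompact.lean`, `StrongApprox.lean`).

* `isCompact_integralAdeles` : `∏ 𝒪_v` is a compact subset of the finite adeles.
* `exists_int_sub_norm_le` : every element of `K_∞` is within `infBound K` (at every infinite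
  place) of an element of `𝓞 K`.
* `isCompact_adeleBox` : the box `{‖a_v‖ ≤ infBound K (v ∣ ∞), a_v ∈ 𝒪_v (v finite)}` is compact.
* `exists_sub_mem_adeleBox` : `𝔸_K = K + adeleBox K`.
* `compactSpace_adele_quotient` : `𝔸_K / K` is compact.
-/

set_option autoImplicit false

open NumberField IsDedekindDomain IsDedekindDomain.HeightOneSpectrum

noncomputable section

namespace Fermat.Agent.LT.H767

variable (K : Type*) [Field K] [NumberField K]

/-- The integral finite adeles `∏ 𝒪_v`. -/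
def integralAdeles : Set (FiniteAdeleRing (𝓞 K) K) :=
  {f | ∀ v : HeightOneSpectrum (𝓞 K), f v ∈ v.adicCompletionIntegers K}

/-- `∏ 𝒪_v` is compact. -/
theorem isCompact_integralAdeles : IsCompact (integralAdeles K) := by
  have hc : ∀ v : HeightOneSpectrum (𝓞 K),
      CompactSpace ((v.adicCompletionIntegers K : Set (v.adicCompletion K))) :=
    fun v => compactSpace_adicCompletionIntegers K v
  have hrange : integralAdeles K = Set.range (RestrictedProduct.structureMap
      (fun v : HeightOneSpectrum (𝓞 K) => v.adicCompletion K)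
      (fun v : HeightOneSpectrum (𝓞 K) => (v.adicCompletionIntegers K : Set (v.adicCompletion K)))
      Filter.cofinite) := by
    rw [RestrictedProduct.range_structureMap]
    rfl
  rw [hrange]
  exact isCompact_range RestrictedProduct.isEmbedding_structureMap.continuous

open scoped Classical in
/-- The radius of the box at the infinite places. -/
def infBound : ℝ := ∑ i, ‖mixedEmbedding.latticeBasis K i‖

open scoped Classical in
theorem infBound_nonneg : 0 ≤ infBound K :=
  Finset.sum_nonneg fun _ _ => norm_nonneg _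

open scoped Classical in
/-- Every element of `K_∞` is within `infBound K` of an element of `𝓞 K`. -/
theorem exists_int_sub_norm_le (x : InfiniteAdeleRing K) :
    ∃ a : 𝓞 K, ∀ v : InfinitePlace K,
      ‖x v - algebraMap K v.Completion (algebraMap (𝓞 K) K a)‖ ≤ infBound K := by
  set y := InfiniteAdeleRing.ringEquiv_mixedSpace K x with hy
  set m := ZSpan.floor (mixedEmbedding.latticeBasis K) y with hm
  have hmem : (m : mixedEmbedding.mixedSpace K) ∈ mixedEmbedding.integerLattice K :=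
    (mixedEmbedding.mem_span_latticeBasis K).mp m.2
  obtain ⟨a, ha⟩ := hmem
  have ha' : mixedEmbedding K (algebraMap (𝓞 K) K a) = (m : mixedEmbedding.mixedSpace K) := ha
  refine ⟨a, fun v => ?_⟩
  set x' : InfiniteAdeleRing K := x - algebraMap K (InfiniteAdeleRing K) (algebraMap (𝓞 K) K a)
    with hx'
  have hfr : InfiniteAdeleRing.ringEquiv_mixedSpace K x'
      = ZSpan.fract (mixedEmbedding.latticeBasis K) y := by
    rw [hx', map_sub, ← InfiniteAdeleRing.mixedEmbedding_eq_algebraMap_comp, ha',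
      ZSpan.fract_apply]
  have hnorm : ‖InfiniteAdeleRing.ringEquiv_mixedSpace K x'‖ ≤ infBound K := by
    rw [hfr]
    exact ZSpan.norm_fract_le (mixedEmbedding.latticeBasis K) y
  have hxv : x' v = x v - algebraMap K v.Completion (algebraMap (𝓞 K) K a) := rfl
  rw [← hxv]
  by_cases hv : v.IsReal
  · have h1 : ‖x' v‖ = ‖(InfiniteAdeleRing.ringEquiv_mixedSpace K x').1 ⟨v, hv⟩‖ := by
      rw [InfiniteAdeleRing.ringEquiv_mixedSpace_apply]
      exact ((InfinitePlace.Completion.isometry_extensionEmbeddingOfIsReal hv).norm_map_of_map_zero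
        (map_zero _) (x' v)).symm
    rw [h1]
    exact le_trans (norm_le_pi_norm _ _) (le_trans (norm_fst_le _) hnorm)
  · have hc : v.IsComplex := InfinitePlace.not_isReal_iff_isComplex.mp hv
    have h1 : ‖x' v‖ = ‖(InfiniteAdeleRing.ringEquiv_mixedSpace K x').2 ⟨v, hc⟩‖ := by
      rw [InfiniteAdeleRing.ringEquiv_mixedSpace_apply]
      exact ((InfinitePlace.Completion.isometry_extensionEmbedding v).norm_map_of_map_zero
        (map_zero _) (x' v)).symm
    rw [h1]
    exact le_trans (norm_le_pi_norm _ _) (le_trans (norm_snd_le _) hnorm)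

omit [NumberField K] in
/-- Closed balls of `K_v`, `v ∣ ∞`, are compact. -/
theorem isCompact_closedBall_completion (v : InfinitePlace K) (C : ℝ) :
    IsCompact {x : v.Completion | ‖x‖ ≤ C} := by
  have hiso := InfinitePlace.Completion.isometry_extensionEmbedding v
  have hce : Topology.IsClosedEmbedding (InfinitePlace.Completion.extensionEmbedding v) :=
    hiso.isClosedEmbedding
  have : {x : v.Completion | ‖x‖ ≤ C}
      = (InfinitePlace.Completion.extensionEmbedding v) ⁻¹' (Metric.closedBall (0 : ℂ) C) := by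
    ext x
    change ‖x‖ ≤ C ↔ InfinitePlace.Completion.extensionEmbedding v x ∈ Metric.closedBall (0 : ℂ) C
    rw [Metric.mem_closedBall, dist_zero_right, hiso.norm_map_of_map_zero (map_zero _) x]
  rw [this]
  exact hce.isCompact_preimage (isCompact_closedBall 0 C)

/-- The compact box of `𝔸_K` that surjects onto `𝔸_K / K`. -/
def adeleBox : Set (AdeleRing (𝓞 K) K) :=
  {a | (∀ v : InfinitePlace K, ‖a.1 v‖ ≤ infBound K) ∧
    ∀ v : HeightOneSpectrum (𝓞 K), a.2 v ∈ v.adicCompletionIntegers K}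

theorem isCompact_adeleBox : IsCompact (adeleBox K) := by
  have h1 : IsCompact {x : InfiniteAdeleRing K | ∀ v : InfinitePlace K, ‖x v‖ ≤ infBound K} := by
    have : {x : InfiniteAdeleRing K | ∀ v : InfinitePlace K, ‖x v‖ ≤ infBound K}
        = Set.pi Set.univ (fun v : InfinitePlace K => {y : v.Completion | ‖y‖ ≤ infBound K}) := by
      ext x
      constructor
      · intro h v _; exact h v
      · intro h v; exact h v (Set.mem_univ v)
    rw [this]
    exact isCompact_univ_pi fun v => isCompact_closedBall_completion K v _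
  have h2 := isCompact_integralAdeles K
  exact h1.prod h2

/-- `𝔸_K = K + adeleBox K`. -/
theorem exists_sub_mem_adeleBox (a : AdeleRing (𝓞 K) K) :
    ∃ k : K, a - algebraMap K (AdeleRing (𝓞 K) K) k ∈ adeleBox K := by
  obtain ⟨k, hk⟩ := exists_sub_mem_integers K a.2
  obtain ⟨b, hb⟩ := exists_int_sub_norm_le K (a.1 - algebraMap K (InfiniteAdeleRing K) k)
  refine ⟨k + algebraMap (𝓞 K) K b, fun v => ?_, fun v => ?_⟩
  · have : (a - algebraMap K (AdeleRing (𝓞 K) K) (k + algebraMap (𝓞 K) K b)).1 v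
        = (a.1 - algebraMap K (InfiniteAdeleRing K) k) v
          - algebraMap K v.Completion (algebraMap (𝓞 K) K b) := by
      change a.1 v - algebraMap K v.Completion (k + algebraMap (𝓞 K) K b)
        = (a.1 v - algebraMap K v.Completion k) - algebraMap K v.Completion (algebraMap (𝓞 K) K b)
      rw [map_add]; ring
    rw [this]
    exact hb v
  · have : (a - algebraMap K (AdeleRing (𝓞 K) K) (k + algebraMap (𝓞 K) K b)).2 v
        = (a.2 v - algebraMap K (v.adicCompletion K) k)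
          - algebraMap K (v.adicCompletion K) (algebraMap (𝓞 K) K b) := by
      change a.2 v - algebraMap K (v.adicCompletion K) (k + algebraMap (𝓞 K) K b)
        = (a.2 v - algebraMap K (v.adicCompletion K) k)
          - algebraMap K (v.adicCompletion K) (algebraMap (𝓞 K) K b)
      rw [map_add]; ring
    rw [this]
    exact sub_mem (hk v) (coe_algebraMap_mem (𝓞 K) K v b)

/-- **`𝔸_K / K` is compact.** -/
theorem compactSpace_adele_quotient :
    CompactSpace (AdeleRing (𝓞 K) K ⧸ AdeleRing.principalSubgroup (𝓞 K) K) := by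
  refine ⟨?_⟩
  have himg : (QuotientAddGroup.mk : AdeleRing (𝓞 K) K →
      AdeleRing (𝓞 K) K ⧸ AdeleRing.principalSubgroup (𝓞 K) K) '' adeleBox K = Set.univ := by
    apply Set.eq_univ_of_forall
    intro q
    obtain ⟨a, rfl⟩ := QuotientAddGroup.mk_surjective q
    obtain ⟨k, hk⟩ := exists_sub_mem_adeleBox K a
    refine ⟨_, hk, ?_⟩
    rw [QuotientAddGroup.eq]
    have : -(a - algebraMap K (AdeleRing (𝓞 K) K) k) + a = algebraMap K (AdeleRing (𝓞 K) K) k := by
      ring
    rw [this]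
    exact ⟨k, rfl⟩
  rw [← himg]
  exact (isCompact_adeleBox K).image continuous_quot_mk

end Fermat.Agent.LT.H767

end
end
-- ===== PACK-END LT/H767/AdeleCocompact.lean

-- ===== PACK-BEGIN LT/A2/H230/FieldE.lean
section




/-!
# Row LT, tower A2, Galois side (`GalSeedC`): the fields cut out by `ρ` (helper230)

OFF-MAIN.  Imports: Mathlib + `LT/H17/Board.lean` + `LT/H130/Wall.lean` (byte-identical copies).
No definitions of automorphic objects, nothing assumed.

For `ρ : Gal(ℚ̄/ℚ) → GL₂(𝔽₃)` with `LTB.Hyp ρ Ψ` (continuous, surjective, `det ρ = χ̄₃`):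

* `subQ8_eq_comap230`      : `subQ8 ρ = ρ⁻¹(Q8)`, `Q8 = {g | det g = 1, g⁴ = 1}` (a subgroup);
* `fixingSubgroup_fieldE230` : the fixing subgroup of `E = fieldE ρ` is `subQ8 ρ`;
* `numberField_fieldE230`  : `E` is a number field;   `finrank_fieldE230 : [E : ℚ] = 6`;
* `isComplex_fieldE230`    : every infinite place of `E` is complex;
* `fieldL230 ρ`            : the fixed field `L` of `ρ⁻¹⟨g₀⟩`, `g₀ = [[0,-1],[1,0]]`;
  `fieldE_le_fieldL230`, `numberField_fieldL230`, `finrank_fieldL230 : [L : ℚ] = 12`,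
  `finrank_fieldE_fieldL230 : [L : E] = 2` for the algebra structure of the inclusion.
-/

set_option autoImplicit false
set_option linter.style.haveILetI false

open scoped MatrixGroups
open NumberField WeierstrassCurve

noncomputable section

namespace Fermat.Agent.LT.A2.H230

open Fermat.Agent.LT.H130

local notation "Γℚ" => (AlgebraicClosure ℚ ≃ₐ[ℚ] AlgebraicClosure ℚ)

/-- `ℚ̄ / ℚ` is Galois. -/
theorem isGalois_Qbar230 : IsGalois ℚ (AlgebraicClosure ℚ) := by
  haveI : Algebra.IsAlgebraic ℚ (AlgebraicClosure ℚ) := AlgebraicClosure.isAlgebraic ℚ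
  haveI : IsAlgClosure ℚ (AlgebraicClosure ℚ) := ⟨inferInstance, inferInstance⟩
  haveI : Normal ℚ (AlgebraicClosure ℚ) := IsAlgClosure.normal ℚ (AlgebraicClosure ℚ)
  exact isGalois_iff.mpr ⟨inferInstance, inferInstance⟩

/-! ## Topology: the kernel of `ρ` is open -/

theorem isOpen_ker230 {ρ : Γℚ →* GL (Fin 2) (ZMod 3)} (hρ : Continuous ρ) :
    IsOpen ((ρ.ker : Subgroup Γℚ) : Set Γℚ) := by
  have h : ((ρ.ker : Subgroup Γℚ) : Set Γℚ) = ρ ⁻¹' {1} := by
    ext σ
    simp [MonoidHom.mem_ker]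
  rw [h]
  exact (isOpen_discrete _).preimage hρ

/-! ## `subQ8 ρ` -/

/-- Every element of `subQ8 ρ` has determinant `1`. -/
theorem det_of_mem_subQ8_230 {ρ : Γℚ →* GL (Fin 2) (ZMod 3)} {σ : Γℚ} (h : σ ∈ subQ8 ρ) :
    Matrix.GeneralLinearGroup.det (ρ σ) = 1 := by
  have hle : subQ8 ρ ≤ (Matrix.GeneralLinearGroup.det.comp ρ).ker := by
    unfold subQ8
    rw [Subgroup.closure_le]
    intro τ hτ
    exact hτ.1
  exact hle h

theorem ker_le_subQ8_230 (ρ : Γℚ →* GL (Fin 2) (ZMod 3)) : ρ.ker ≤ subQ8 ρ := by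
  intro σ hσ
  apply Subgroup.subset_closure
  rw [MonoidHom.mem_ker] at hσ
  simp [hσ]

theorem isOpen_subQ8_230 {ρ : Γℚ →* GL (Fin 2) (ZMod 3)} (hρ : Continuous ρ) :
    IsOpen ((subQ8 ρ : Subgroup Γℚ) : Set Γℚ) :=
  Subgroup.isOpen_mono (ker_le_subQ8_230 ρ) (isOpen_ker230 hρ)

/-- The fixing subgroup of the fixed field of an OPEN subgroup `H` is `H`. -/
theorem fixingSubgroup_fixedField_of_isOpen230 (H : Subgroup Γℚ) (hH : IsOpen (H : Set Γℚ)) :
    (IntermediateField.fixedField H).fixingSubgroup = H := by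
  haveI := isGalois_Qbar230
  have hcl : IsClosed (H : Set Γℚ) := Subgroup.isClosed_of_isOpen H hH
  exact InfiniteGalois.fixingSubgroup_fixedField ⟨H, hcl⟩

/-- The fixed field of an open subgroup is finite over `ℚ`. -/
theorem finiteDimensional_fixedField_of_isOpen230 (H : Subgroup Γℚ) (hH : IsOpen (H : Set Γℚ)) :
    FiniteDimensional ℚ (IntermediateField.fixedField H) := by
  haveI := isGalois_Qbar230
  rw [← InfiniteGalois.isOpen_iff_finite]
  rw [fixingSubgroup_fixedField_of_isOpen230 H hH]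
  exact hH

/-- The degree of the fixed field of an open subgroup is the index. -/
theorem finrank_fixedField_of_isOpen230 (H : Subgroup Γℚ) (hH : IsOpen (H : Set Γℚ)) :
    Module.finrank ℚ (IntermediateField.fixedField H) = H.index := by
  haveI := isGalois_Qbar230
  rw [IntermediateField.finrank_eq_fixingSubgroup_index,
    fixingSubgroup_fixedField_of_isOpen230 H hH]

theorem fixingSubgroup_fieldE230 {ρ : Γℚ →* GL (Fin 2) (ZMod 3)} (hρ : Continuous ρ) :
    (fieldE ρ).fixingSubgroup = subQ8 ρ :=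
  fixingSubgroup_fixedField_of_isOpen230 _ (isOpen_subQ8_230 hρ)

theorem finiteDimensional_fieldE230 {ρ : Γℚ →* GL (Fin 2) (ZMod 3)} (hρ : Continuous ρ) :
    FiniteDimensional ℚ (fieldE ρ) :=
  finiteDimensional_fixedField_of_isOpen230 _ (isOpen_subQ8_230 hρ)

/-- **`E = fieldE ρ` is a number field.** -/
theorem numberField_fieldE230 {ρ : Γℚ →* GL (Fin 2) (ZMod 3)} (hρ : Continuous ρ) :
    NumberField (fieldE ρ) :=
  haveI := finiteDimensional_fieldE230 hρ
  { to_charZero := inferInstance, to_finiteDimensional := inferInstance }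

/-! ## Complex conjugation attached to an embedding `ℚ̄ → ℂ` -/

/-- For every embedding `ι : ℚ̄ → ℂ` there is `c ∈ Gal(ℚ̄/ℚ)` with `ι ∘ c = conj ∘ ι`. -/
theorem exists_conj230 (ι : AlgebraicClosure ℚ →+* ℂ) :
    ∃ c : Γℚ, ∀ x : AlgebraicClosure ℚ, ι (c x) = (starRingEnd ℂ) (ι x) := by
  haveI : Algebra.IsAlgebraic ℚ (AlgebraicClosure ℚ) := AlgebraicClosure.isAlgebraic ℚ
  haveI : IsAlgClosure ℚ (AlgebraicClosure ℚ) := ⟨inferInstance, inferInstance⟩
  haveI : Normal ℚ (AlgebraicClosure ℚ) := IsAlgClosure.normal ℚ (AlgebraicClosure ℚ)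
  letI : Algebra (AlgebraicClosure ℚ) ℂ := ι.toAlgebra
  haveI : IsScalarTower ℚ (AlgebraicClosure ℚ) ℂ := IsScalarTower.of_algebraMap_eq fun x => by
    show algebraMap ℚ ℂ x = ι (algebraMap ℚ (AlgebraicClosure ℚ) x)
    rw [eq_ratCast, eq_ratCast, map_ratCast]
  have hι : ∀ x : AlgebraicClosure ℚ, algebraMap (AlgebraicClosure ℚ) ℂ x = ι x := fun _ => rfl
  let χ : ℂ ≃ₐ[ℚ] ℂ := Complex.conjAe.restrictScalars ℚ
  have hχ : ∀ z : ℂ, χ z = (starRingEnd ℂ) z := fun z => rfl
  refine ⟨χ.restrictNormal (AlgebraicClosure ℚ), fun x => ?_⟩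
  have := AlgEquiv.restrictNormal_commutes χ (AlgebraicClosure ℚ) x
  rw [hι, hι, hχ] at this
  exact this

/-- The mod `3` cyclotomic character of a complex conjugation is `-1`. -/
theorem cyclo_of_conj230 (ι : AlgebraicClosure ℚ →+* ℂ) (c : Γℚ)
    (hc : ∀ x : AlgebraicClosure ℚ, ι (c x) = (starRingEnd ℂ) (ι x)) :
    modThreeCyclotomicChar c = -1 := by
  have hval : ((-1 : (ZMod 3)ˣ) : ZMod 3).val = 2 := by decide
  have key : ((-1 : (ZMod 3)ˣ) : ZMod 3) = modularCyclotomicCharacter (AlgebraicClosure ℚ)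
      (IsAlgClosed.card_rootsOfUnity_eq (AlgebraicClosure ℚ) 3)
      (c : AlgebraicClosure ℚ ≃+* AlgebraicClosure ℚ) := by
    apply modularCyclotomicCharacter.unique
    intro t ht
    rw [hval]
    have ht3 : (t : AlgebraicClosure ℚ) ^ 3 = 1 := by
      have := (mem_rootsOfUnity 3 t).1 ht
      rw [← Units.val_pow_eq_pow_val, this, Units.val_one]
    have hz3 : ι (t : AlgebraicClosure ℚ) ^ 3 = 1 := by rw [← map_pow, ht3, map_one]
    have hnorm : ‖ι (t : AlgebraicClosure ℚ)‖ = 1 :=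
      Complex.norm_eq_one_of_pow_eq_one hz3 (by norm_num)
    have h1 : ι (t : AlgebraicClosure ℚ) * (starRingEnd ℂ) (ι (t : AlgebraicClosure ℚ)) = 1 := by
      rw [Complex.mul_conj, Complex.normSq_eq_norm_sq, hnorm]
      norm_num
    have h2 : ι (t : AlgebraicClosure ℚ) * ι ((t : AlgebraicClosure ℚ) ^ 2) = 1 := by
      rw [map_pow, ← pow_succ']
      exact hz3
    have hz : ι (t : AlgebraicClosure ℚ) ≠ 0 := by
      intro h0
      rw [h0] at hz3
      norm_num at hz3
    have h3 : ι (c (t : AlgebraicClosure ℚ)) = ι ((t : AlgebraicClosure ℚ) ^ 2) := by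
      rw [hc]
      exact mul_left_cancel₀ hz (h1.trans h2.symm)
    exact ι.injective h3
  apply Units.ext
  rw [modThreeCyclotomicChar_apply]
  exact key.symm

/-! ## `E` is totally complex -/

/-- **Every infinite place of `E = fieldE ρ` is complex.** -/
theorem isComplex_fieldE230 {ρ : Γℚ →* GL (Fin 2) (ZMod 3)}
    (hcont : Continuous ρ)
    (hdet : ∀ σ : Γℚ, Matrix.GeneralLinearGroup.det (ρ σ) = modThreeCyclotomicChar σ)
    (u : InfinitePlace (fieldE ρ)) : u.IsComplex := by
  rw [← InfinitePlace.not_isReal_iff_isComplex]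
  intro hreal
  have hφ : ∀ x : fieldE ρ, (starRingEnd ℂ) (u.embedding x) = u.embedding x := by
    intro x
    have h := (InfinitePlace.isReal_iff.mp hreal)
    exact RingHom.congr_fun (ComplexEmbedding.isReal_iff.mp h) x
  -- extend the embedding to `ℚ̄`
  letI : Algebra (fieldE ρ) ℂ := u.embedding.toAlgebra
  haveI : Algebra.IsAlgebraic ℚ (AlgebraicClosure ℚ) := AlgebraicClosure.isAlgebraic ℚ
  haveI : Algebra.IsAlgebraic (fieldE ρ) (AlgebraicClosure ℚ) :=
    Algebra.IsAlgebraic.tower_top (K := ℚ) (fieldE ρ)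
  let ι₀ : AlgebraicClosure ℚ →ₐ[fieldE ρ] ℂ := IsAlgClosed.lift
  have hι₀ : ∀ x : fieldE ρ, ι₀ (x : AlgebraicClosure ℚ) = u.embedding x := fun x =>
    ι₀.commutes x
  obtain ⟨c, hc⟩ := exists_conj230 ι₀.toRingHom
  have hc' : ∀ x : AlgebraicClosure ℚ, ι₀ (c x) = (starRingEnd ℂ) (ι₀ x) := hc
  have hfix : c ∈ (fieldE ρ).fixingSubgroup := by
    rw [IntermediateField.mem_fixingSubgroup_iff]
    intro x hx
    apply ι₀.toRingHom.injective
    show ι₀ (c x) = ι₀ x
    rw [hc', hι₀ ⟨x, hx⟩, hφ]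
  rw [fixingSubgroup_fieldE230 hcont] at hfix
  have h1 := det_of_mem_subQ8_230 hfix
  rw [hdet, cyclo_of_conj230 ι₀.toRingHom c hc] at h1
  exact absurd h1 (by decide)

/-! ## Group theory in `GL₂(𝔽₃)`, on the entries -/

/-- Entries form of `Q8 = {g | det g = 1, g ^ 4 = 1}`. -/
def Q8E230 (a b c d : ZMod 3) : Prop :=
  a * d - b * c = 1 ∧ (a + d = 0 ∨ (b = 0 ∧ c = 0 ∧ a = d))

/-- Entries form of `C₄ = ⟨g₀⟩ = {±1, ±g₀}`, `g₀ = [[0,-1],[1,0]]`. -/
def C4E230 (a b c d : ZMod 3) : Prop :=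
  (b = 0 ∧ c = 0 ∧ a = d ∧ a ≠ 0) ∨ (a = 0 ∧ d = 0 ∧ b = -c ∧ c ≠ 0)

instance : ∀ a b c d : ZMod 3, Decidable (Q8E230 a b c d) := fun a b c d => by
  unfold Q8E230; infer_instance

instance : ∀ a b c d : ZMod 3, Decidable (C4E230 a b c d) := fun a b c d => by
  unfold C4E230; infer_instance

theorem pow_four_entries230 : ∀ a b c d : ZMod 3, a * d - b * c = 1 →
    ((!![a, b; c, d] : Matrix (Fin 2) (Fin 2) (ZMod 3)) ^ 4 = 1 ↔
      (a + d = 0 ∨ (b = 0 ∧ c = 0 ∧ a = d))) := by
  decide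

theorem q8E_mul230 : ∀ a b c d a' b' c' d' : ZMod 3, Q8E230 a b c d → Q8E230 a' b' c' d' →
    Q8E230 (a * a' + b * c') (a * b' + b * d') (c * a' + d * c') (c * b' + d * d') := by
  decide

theorem c4E_mul230 : ∀ a b c d a' b' c' d' : ZMod 3, C4E230 a b c d → C4E230 a' b' c' d' →
    C4E230 (a * a' + b * c') (a * b' + b * d') (c * a' + d * c') (c * b' + d * d') := by
  decide

theorem c4E_le_q8E230 : ∀ a b c d : ZMod 3, C4E230 a b c d → Q8E230 a b c d := by
  decide

/-- the two cosets of `C₄` in `Q8`: right multiplication by `g₁ = [[1,1],[1,-1]]` -/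
theorem xor_entries230 : ∀ p q r s : ZMod 3, Q8E230 p q r s →
    (C4E230 (p + q) (p - q) (r + s) (r - s) ∧ ¬ C4E230 p q r s) ∨
      (C4E230 p q r s ∧ ¬ C4E230 (p + q) (p - q) (r + s) (r - s)) := by
  decide

theorem g1_entries230 : Q8E230 1 1 1 (-1) := by decide

/-! ## The subgroups `Q8` and `C₄` of `GL₂(𝔽₃)` -/

/-- `g ∈ GL₂(𝔽₃)` has the entries property `P`. -/
def HasEntries230 (P : ZMod 3 → ZMod 3 → ZMod 3 → ZMod 3 → Prop) (g : GL (Fin 2) (ZMod 3)) : Prop :=
  P ((g : Matrix (Fin 2) (Fin 2) (ZMod 3)) 0 0) ((g : Matrix (Fin 2) (Fin 2) (ZMod 3)) 0 1)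
    ((g : Matrix (Fin 2) (Fin 2) (ZMod 3)) 1 0) ((g : Matrix (Fin 2) (Fin 2) (ZMod 3)) 1 1)

theorem hasEntries_mul230 {P : ZMod 3 → ZMod 3 → ZMod 3 → ZMod 3 → Prop}
    (hP : ∀ a b c d a' b' c' d' : ZMod 3, P a b c d → P a' b' c' d' →
      P (a * a' + b * c') (a * b' + b * d') (c * a' + d * c') (c * b' + d * d'))
    {g h : GL (Fin 2) (ZMod 3)} (hg : HasEntries230 P g) (hh : HasEntries230 P h) :
    HasEntries230 P (g * h) := by
  unfold HasEntries230 at *
  have := hP _ _ _ _ _ _ _ _ hg hh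
  simpa [Matrix.mul_apply, Fin.sum_univ_two] using this

theorem inQ8_iff230 (g : GL (Fin 2) (ZMod 3)) : InQ8 g ↔ HasEntries230 Q8E230 g := by
  unfold InQ8 HasEntries230 Q8E230
  have hdet : Matrix.GeneralLinearGroup.det g = 1 ↔
      (g : Matrix (Fin 2) (Fin 2) (ZMod 3)) 0 0 * (g : Matrix (Fin 2) (Fin 2) (ZMod 3)) 1 1
        - (g : Matrix (Fin 2) (Fin 2) (ZMod 3)) 0 1 * (g : Matrix (Fin 2) (Fin 2) (ZMod 3)) 1 0
        = 1 := by
    rw [Units.ext_iff, Matrix.GeneralLinearGroup.val_det_apply, Matrix.det_fin_two]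
    rfl
  have hpow : g ^ 4 = 1 ↔ (g : Matrix (Fin 2) (Fin 2) (ZMod 3)) ^ 4 = 1 := by
    rw [Units.ext_iff, Units.val_pow_eq_pow_val]
    rfl
  rw [hdet, hpow]
  constructor
  · rintro ⟨h1, h2⟩
    refine ⟨h1, ?_⟩
    rw [Matrix.eta_fin_two (g : Matrix (Fin 2) (Fin 2) (ZMod 3))] at h2
    exact (pow_four_entries230 _ _ _ _ h1).mp h2
  · rintro ⟨h1, h2⟩
    refine ⟨h1, ?_⟩
    rw [Matrix.eta_fin_two (g : Matrix (Fin 2) (Fin 2) (ZMod 3))]
    exact (pow_four_entries230 _ _ _ _ h1).mpr h2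

theorem inQ8_mul230 {g h : GL (Fin 2) (ZMod 3)} (hg : InQ8 g) (hh : InQ8 h) : InQ8 (g * h) := by
  rw [inQ8_iff230] at *
  exact hasEntries_mul230 q8E_mul230 hg hh

theorem inQ8_one230 : InQ8 (1 : GL (Fin 2) (ZMod 3)) := ⟨map_one _, one_pow 4⟩

theorem inv_eq_pow_three230 {g : GL (Fin 2) (ZMod 3)} (hg : InQ8 g) : g⁻¹ = g * g * g := by
  rw [inv_eq_iff_mul_eq_one]
  have := hg.2
  rw [← this]
  simp only [pow_succ, pow_zero, one_mul, mul_assoc]

/-- `Q8 = {g | det g = 1, g ^ 4 = 1}` as a subgroup of `GL₂(𝔽₃)`. -/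
def Q8grp230 : Subgroup (GL (Fin 2) (ZMod 3)) where
  carrier := {g | InQ8 g}
  one_mem' := inQ8_one230
  mul_mem' := fun hg hh => inQ8_mul230 hg hh
  inv_mem' := fun {g} hg => by
    show InQ8 g⁻¹
    rw [inv_eq_pow_three230 hg]
    exact inQ8_mul230 (inQ8_mul230 hg hg) hg

theorem mem_Q8grp230 {g : GL (Fin 2) (ZMod 3)} : g ∈ Q8grp230 ↔ InQ8 g := Iff.rfl

/-- `C₄ = {±1, ±g₀}` as a subgroup of `GL₂(𝔽₃)`. -/
def C4grp230 : Subgroup (GL (Fin 2) (ZMod 3)) where
  carrier := {g | HasEntries230 C4E230 g}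
  one_mem' := by
    show HasEntries230 C4E230 1
    unfold HasEntries230
    simp only [Units.val_one, Matrix.one_apply_eq, ne_eq, not_false_eq_true, Matrix.one_apply_ne,
      zero_ne_one, one_ne_zero]
    decide
  mul_mem' := fun hg hh => hasEntries_mul230 c4E_mul230 hg hh
  inv_mem' := fun {g} hg => by
    show HasEntries230 C4E230 g⁻¹
    have hq : InQ8 g := (inQ8_iff230 g).mpr (c4E_le_q8E230 _ _ _ _ hg)
    rw [inv_eq_pow_three230 hq]
    exact hasEntries_mul230 c4E_mul230 (hasEntries_mul230 c4E_mul230 hg hg) hg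

theorem mem_C4grp230 {g : GL (Fin 2) (ZMod 3)} : g ∈ C4grp230 ↔ HasEntries230 C4E230 g := Iff.rfl

theorem C4grp_le_Q8grp230 : C4grp230 ≤ Q8grp230 := fun g hg =>
  (inQ8_iff230 g).mpr (c4E_le_q8E230 _ _ _ _ hg)

/-- `g₁ = [[1,1],[1,-1]]`, an element of `Q8` outside `C₄`. -/
def g1_230 : GL (Fin 2) (ZMod 3) :=
  ⟨!![1, 1; 1, -1], !![-1, -1; -1, 1], by decide, by decide⟩

theorem g1_mem230 : g1_230 ∈ Q8grp230 := by
  rw [mem_Q8grp230, inQ8_iff230]
  unfold HasEntries230 g1_230
  simpa using g1_entries230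

/-- **`[Q8 : C₄] = 2`.** -/
theorem relIndex_C4_Q8_230 : C4grp230.relIndex Q8grp230 = 2 := by
  rw [Subgroup.relIndex_eq_two_iff]
  refine ⟨g1_230, g1_mem230, fun b hb => ?_⟩
  have hb' : HasEntries230 Q8E230 b := (inQ8_iff230 b).mp hb
  have key := xor_entries230 _ _ _ _ hb'
  have hmul : (b * g1_230 ∈ C4grp230) ↔
      C4E230 ((b : Matrix (Fin 2) (Fin 2) (ZMod 3)) 0 0 + (b : Matrix (Fin 2) (Fin 2) (ZMod 3)) 0 1)
        ((b : Matrix (Fin 2) (Fin 2) (ZMod 3)) 0 0 - (b : Matrix (Fin 2) (Fin 2) (ZMod 3)) 0 1)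
        ((b : Matrix (Fin 2) (Fin 2) (ZMod 3)) 1 0 + (b : Matrix (Fin 2) (Fin 2) (ZMod 3)) 1 1)
        ((b : Matrix (Fin 2) (Fin 2) (ZMod 3)) 1 0 - (b : Matrix (Fin 2) (Fin 2) (ZMod 3)) 1 1) := by
    rw [mem_C4grp230]
    unfold HasEntries230 g1_230
    simp [Matrix.mul_apply, Fin.sum_univ_two, sub_eq_add_neg]
  rw [hmul]
  exact key

/-! ## The fields `E ⊂ L` -/

theorem subQ8_eq_comap230 (ρ : Γℚ →* GL (Fin 2) (ZMod 3)) : subQ8 ρ = Q8grp230.comap ρ := by
  unfold subQ8
  exact Subgroup.closure_eq (Q8grp230.comap ρ)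

/-- `ρ⁻¹(C₄)`, `C₄ = ⟨g₀⟩`. -/
def subC4_230 (ρ : Γℚ →* GL (Fin 2) (ZMod 3)) : Subgroup Γℚ := C4grp230.comap ρ

theorem subC4_le_subQ8_230 (ρ : Γℚ →* GL (Fin 2) (ZMod 3)) : subC4_230 ρ ≤ subQ8 ρ := by
  rw [subQ8_eq_comap230]
  exact Subgroup.comap_mono C4grp_le_Q8grp230

theorem ker_le_subC4_230 (ρ : Γℚ →* GL (Fin 2) (ZMod 3)) : ρ.ker ≤ subC4_230 ρ := by
  intro σ hσ
  rw [MonoidHom.mem_ker] at hσ
  show ρ σ ∈ C4grp230
  rw [hσ]
  exact C4grp230.one_mem

theorem isOpen_subC4_230 {ρ : Γℚ →* GL (Fin 2) (ZMod 3)} (hρ : Continuous ρ) :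
    IsOpen ((subC4_230 ρ : Subgroup Γℚ) : Set Γℚ) :=
  Subgroup.isOpen_mono (ker_le_subC4_230 ρ) (isOpen_ker230 hρ)

/-- `L`, the fixed field of `ρ⁻¹(C₄)` (as an extension of `ℚ`). -/
def fieldL230 (ρ : Γℚ →* GL (Fin 2) (ZMod 3)) : IntermediateField ℚ (AlgebraicClosure ℚ) :=
  IntermediateField.fixedField (subC4_230 ρ)

theorem fieldE_le_fieldL230 (ρ : Γℚ →* GL (Fin 2) (ZMod 3)) : fieldE ρ ≤ fieldL230 ρ := by
  intro x hx σ
  exact hx ⟨σ.1, subC4_le_subQ8_230 ρ σ.2⟩

theorem fixingSubgroup_fieldL230 {ρ : Γℚ →* GL (Fin 2) (ZMod 3)} (hρ : Continuous ρ) :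
    (fieldL230 ρ).fixingSubgroup = subC4_230 ρ :=
  fixingSubgroup_fixedField_of_isOpen230 _ (isOpen_subC4_230 hρ)

theorem finiteDimensional_fieldL230 {ρ : Γℚ →* GL (Fin 2) (ZMod 3)} (hρ : Continuous ρ) :
    FiniteDimensional ℚ (fieldL230 ρ) :=
  finiteDimensional_fixedField_of_isOpen230 _ (isOpen_subC4_230 hρ)

theorem numberField_fieldL230 {ρ : Γℚ →* GL (Fin 2) (ZMod 3)} (hρ : Continuous ρ) :
    NumberField (fieldL230 ρ) :=
  haveI := finiteDimensional_fieldL230 hρ
  { to_charZero := inferInstance, to_finiteDimensional := inferInstance }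

/-- `[ρ⁻¹(Q8) : ρ⁻¹(C₄)] = 2`. -/
theorem relIndex_subC4_subQ8_230 {ρ : Γℚ →* GL (Fin 2) (ZMod 3)}
    (hsurj : Function.Surjective ρ) : (subC4_230 ρ).relIndex (subQ8 ρ) = 2 := by
  rw [subQ8_eq_comap230]
  unfold subC4_230
  rw [Subgroup.relIndex_comap, Subgroup.map_comap_eq_self_of_surjective hsurj]
  exact relIndex_C4_Q8_230

/-- `[L : ℚ] = 2 [E : ℚ]`. -/
theorem finrank_fieldL_eq230 {ρ : Γℚ →* GL (Fin 2) (ZMod 3)} (hcont : Continuous ρ)
    (hsurj : Function.Surjective ρ) :
    Module.finrank ℚ (fieldL230 ρ) = 2 * Module.finrank ℚ (fieldE ρ) := by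
  unfold fieldL230 fieldE
  rw [finrank_fixedField_of_isOpen230 _ (isOpen_subC4_230 hcont),
    finrank_fixedField_of_isOpen230 _ (isOpen_subQ8_230 hcont),
    ← Subgroup.relIndex_mul_index (subC4_le_subQ8_230 ρ), relIndex_subC4_subQ8_230 hsurj]

/-- `L` as an extension of `E = fieldE ρ`. -/
def fieldLE230 (ρ : Γℚ →* GL (Fin 2) (ZMod 3)) :
    IntermediateField (fieldE ρ) (AlgebraicClosure ℚ) :=
  IntermediateField.extendScalars (fieldE_le_fieldL230 ρ)

theorem mem_fieldLE230 {ρ : Γℚ →* GL (Fin 2) (ZMod 3)} {x : AlgebraicClosure ℚ} :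
    x ∈ fieldLE230 ρ ↔ x ∈ fieldL230 ρ := Iff.rfl

/-- **`[L : E] = 2`.** -/
theorem finrank_fieldLE230 {ρ : Γℚ →* GL (Fin 2) (ZMod 3)} (hcont : Continuous ρ)
    (hsurj : Function.Surjective ρ) :
    Module.finrank (fieldE ρ) (fieldLE230 ρ) = 2 := by
  haveI := finiteDimensional_fieldE230 hcont
  have h1 := IntermediateField.finrank_bot_mul_relfinrank (fieldE_le_fieldL230 ρ)
  rw [IntermediateField.relfinrank_eq_finrank_of_le (fieldE_le_fieldL230 ρ),
    finrank_fieldL_eq230 hcont hsurj] at h1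
  have hpos : 0 < Module.finrank ℚ (fieldE ρ) := Module.finrank_pos
  have h2 : Module.finrank ℚ (fieldE ρ) * Module.finrank (fieldE ρ) (fieldLE230 ρ)
      = Module.finrank ℚ (fieldE ρ) * 2 := by
    rw [mul_comm _ 2]
    exact h1
  exact Nat.eq_of_mul_eq_mul_left hpos h2

/-- `L` (over `E`) is a number field. -/
theorem numberField_fieldLE230 {ρ : Γℚ →* GL (Fin 2) (ZMod 3)} (hρ : Continuous ρ) :
    NumberField (fieldLE230 ρ) :=
  numberField_fieldL230 hρ

/-! ## Summary, in the shape of the first conjuncts of `A2.GalSeedC` -/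

/-- **The field part of `GalSeedC`**: `E = fieldE ρ` is a totally complex number field and
`L` (the fixed field of `ρ⁻¹(C₄)`) is a number field, quadratic over `E`. -/
theorem galSeed_fields230 {ρ : Γℚ →* GL (Fin 2) (ZMod 3)}
    {Ψ : GL (Fin 2) (ZMod 3) →* GL (Fin 2) (ℤ√(-2))} (h : LTB.Hyp ρ Ψ) :
    ∃ (_ : NumberField (fieldE ρ))
      (L : Type) (_ : Field L) (_ : NumberField L) (_ : Algebra (fieldE ρ) L),
      Module.finrank (fieldE ρ) L = 2 ∧ (∀ u : InfinitePlace (fieldE ρ), u.IsComplex) :=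
  ⟨numberField_fieldE230 h.cont, fieldLE230 ρ, inferInstance, numberField_fieldLE230 h.cont,
    inferInstance, finrank_fieldLE230 h.cont h.surj, isComplex_fieldE230 h.cont h.det⟩

end Fermat.Agent.LT.A2.H230

end

end
-- ===== PACK-END LT/A2/H230/FieldE.lean

-- ===== PACK-BEGIN LT/T2/H472/LocCont.lean
section



/-!
# Row LT, tower T2, sub-leaf T2.07.30 `SubLocCont429` (helper472) -- OFF-MAIN, core

A family `h : X → GL₂(𝔸_K)` of elements supported at the infinite place `w` whose components at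
`w` (entries of `infComp w (h x)`, complex numbers) are continuous is continuous for the topology
of `GL₂(𝔸_K)` (units of the matrix ring).

Imports `LT/H556/A0.lean` only (vocabulary `Adl`, `G`, `infComp`, `IsLocalAtInf`), so the file
does not depend on the versions of the tower Specs.  The leaf Prop of helper429 is proved from
`locCont472` in `LocContLeaf.lean`.
-/

set_option autoImplicit false

open IsDedekindDomain NumberField

noncomputable section

namespace Fermat.Agent.LT.T2.H472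

open Fermat.Agent.LT.H556.A0

variable {K : Type} [Field K] [NumberField K]

/-- The component at the infinite place `w`, as a ring homomorphism. -/
def cInf472 (w : InfinitePlace K) : Adl K →+* w.Completion where
  toFun a := a.1 w
  map_one' := rfl
  map_mul' _ _ := rfl
  map_zero' := rfl
  map_add' _ _ := rfl

/-- The component at the finite place `v`, as a ring homomorphism. -/
def cFin472 (v : HeightOneSpectrum (𝓞 K)) : Adl K →+* v.adicCompletion K where
  toFun a := a.2 v
  map_one' := rfl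
  map_mul' _ _ := rfl
  map_zero' := rfl
  map_add' _ _ := rfl

/-- The complex component at the infinite place `w`, as a ring homomorphism. -/
def cC472 (w : InfinitePlace K) : Adl K →+* ℂ :=
  (InfinitePlace.Completion.extensionEmbedding w).comp (cInf472 w)

theorem infComp_eq472 (w : InfinitePlace K) (g : G K) :
    infComp w g = (cC472 w).mapMatrix (g : Matrix (Fin 2) (Fin 2) (Adl K)) := rfl

theorem finComp_eq472 (v : HeightOneSpectrum (𝓞 K)) (g : G K) :
    finComp v g = (cFin472 v).mapMatrix (g : Matrix (Fin 2) (Fin 2) (Adl K)) := rfl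

theorem trivAtInf_iff472 (w : InfinitePlace K) (g : G K) :
    TrivAtInf w g ↔ (cInf472 w).mapMatrix (g : Matrix (Fin 2) (Fin 2) (Adl K)) = 1 := by
  constructor
  · intro h
    exact Matrix.ext fun i j => h i j
  · intro h i j
    exact congrFun (congrFun h i) j

/-- If the image of `g` under a ring homomorphism of the coefficients is `1`, so is the image of
`g⁻¹`. -/
theorem map_inv_eq_one472 {R : Type*} [CommRing R] (c : Adl K →+* R) (g : G K)
    (h : c.mapMatrix (g : Matrix (Fin 2) (Fin 2) (Adl K)) = 1) :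
    c.mapMatrix ((g⁻¹ : G K) : Matrix (Fin 2) (Fin 2) (Adl K)) = 1 := by
  have h1 : c.mapMatrix ((g : Matrix (Fin 2) (Fin 2) (Adl K)) *
      ((g⁻¹ : G K) : Matrix (Fin 2) (Fin 2) (Adl K))) = 1 := by
    rw [← Units.val_mul, mul_inv_cancel, Units.val_one, map_one]
  rwa [map_mul, h, one_mul] at h1

theorem trivAtInf_inv472 {w : InfinitePlace K} {g : G K} (h : TrivAtInf w g) :
    TrivAtInf w g⁻¹ :=
  (trivAtInf_iff472 w _).2 (map_inv_eq_one472 _ g ((trivAtInf_iff472 w g).1 h))

theorem trivAtFin_inv472 {v : HeightOneSpectrum (𝓞 K)} {g : G K} (h : TrivAtFin v g) :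
    TrivAtFin v g⁻¹ := by
  unfold TrivAtFin at h ⊢
  rw [finComp_eq472] at h ⊢
  exact map_inv_eq_one472 _ g h

/-- The inverse of an element supported at `w` is supported at `w`. -/
theorem isLocalAtInf_inv472 {w : InfinitePlace K} {g : G K} (h : IsLocalAtInf w g) :
    IsLocalAtInf w g⁻¹ :=
  ⟨fun w' hw' => trivAtInf_inv472 (h.1 w' hw'), fun v => trivAtFin_inv472 (h.2 v)⟩

/-- The complex component of `g⁻¹` is the inverse of the complex component of `g`. -/
theorem infComp_inv472 (w : InfinitePlace K) (g : G K) :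
    infComp w g⁻¹ = (infComp w g)⁻¹ := by
  have h1 : infComp w g * infComp w g⁻¹ = 1 := by
    rw [infComp_eq472, infComp_eq472, ← map_mul, ← Units.val_mul, mul_inv_cancel, Units.val_one,
      map_one]
  exact (Matrix.inv_eq_right_inv h1).symm

theorem det_infComp_ne_zero472 (w : InfinitePlace K) (g : G K) : (infComp w g).det ≠ 0 := by
  have h1 : infComp w g * infComp w g⁻¹ = 1 := by
    rw [infComp_eq472, infComp_eq472, ← map_mul, ← Units.val_mul, mul_inv_cancel, Units.val_one,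
      map_one]
  have h2 := congrArg Matrix.det h1
  rw [Matrix.det_mul, Matrix.det_one] at h2
  exact left_ne_zero_of_mul_eq_one h2

/-- The entries of the identity matrix over the finite adeles, at the place `v`. -/
theorem one_apply_fin472 (v : HeightOneSpectrum (𝓞 K)) (i j : Fin 2) :
    ((1 : Matrix (Fin 2) (Fin 2) (FiniteAdeleRing (𝓞 K) K)) i j) v
      = (1 : Matrix (Fin 2) (Fin 2) (v.adicCompletion K)) i j := by
  by_cases hij : i = j
  · subst hij
    rw [Matrix.one_apply_eq, Matrix.one_apply_eq]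
    rfl
  · rw [Matrix.one_apply_ne hij, Matrix.one_apply_ne hij]
    rfl

/-- The matrix of a family supported at `w` with continuous complex components is continuous. -/
theorem continuous_val472 (w : InfinitePlace K) {X : Type} [TopologicalSpace X] (h : X → G K)
    (hloc : ∀ x, IsLocalAtInf w (h x))
    (hc : ∀ i j : Fin 2, Continuous fun x => infComp w (h x) i j) :
    Continuous fun x => ((h x : G K) : Matrix (Fin 2) (Fin 2) (Adl K)) := by
  refine continuous_matrix fun i j => ?_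
  have h1 : Continuous fun x =>
      (((h x : G K) : Matrix (Fin 2) (Fin 2) (Adl K)) i j).1 := by
    refine continuous_pi fun w' => ?_
    by_cases hw : w' = w
    · subst hw
      exact (InfinitePlace.Completion.isometry_extensionEmbedding w').isUniformInducing.isInducing.continuous_iff.2 (hc i j)
    · exact (continuous_const (y := (1 : Matrix (Fin 2) (Fin 2) w'.Completion) i j)).congr
        fun x => ((hloc x).1 w' hw i j).symm
  have h2 : Continuous fun x =>
      (((h x : G K) : Matrix (Fin 2) (Fin 2) (Adl K)) i j).2 := by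
    refine (continuous_const
      (y := (1 : Matrix (Fin 2) (Fin 2) (FiniteAdeleRing (𝓞 K) K)) i j)).congr fun x => ?_
    refine FiniteAdeleRing.ext K fun v => ?_
    rw [one_apply_fin472]
    exact (congrFun (congrFun ((hloc x).2 v) i) j).symm
  exact h1.prodMk h2

/-- **T2.07.30, core.**  A family of elements supported at the infinite place `w` with continuous
components is continuous. -/
theorem locCont472 (K : Type) [Field K] [NumberField K] (w : InfinitePlace K) (X : Type)
    [TopologicalSpace X] (h : X → G K) (hloc : ∀ x, IsLocalAtInf w (h x))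
    (hc : ∀ i j : Fin 2, Continuous fun x => infComp w (h x) i j) : Continuous h := by
  rw [Units.continuous_iff]
  refine ⟨continuous_val472 w h hloc hc, ?_⟩
  have hM : Continuous fun x => infComp w (h x) := continuous_matrix hc
  have hinv : Continuous fun x => (infComp w (h x))⁻¹ := by
    rw [continuous_iff_continuousAt]
    intro x
    have hx : ContinuousAt Ring.inverse (infComp w (h x)).det := by
      have : ContinuousAt (fun z : ℂ => z⁻¹) (infComp w (h x)).det :=
        continuousAt_inv₀ (det_infComp_ne_zero472 w (h x))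
      have hfun : (Ring.inverse : ℂ → ℂ) = fun z => z⁻¹ := by
        funext z
        exact Ring.inverse_eq_inv z
      rw [hfun]
      exact this
    exact ContinuousAt.comp (f := fun x => infComp w (h x))
      (g := fun A : Matrix (Fin 2) (Fin 2) ℂ => A⁻¹)
      (continuousAt_matrix_inv (infComp w (h x)) hx) hM.continuousAt
  exact continuous_val472 w (fun x => (h x)⁻¹) (fun x => isLocalAtInf_inv472 (hloc x))
    fun i j => by
      have : (fun x => infComp w (h x)⁻¹ i j) = fun x => (infComp w (h x))⁻¹ i j := by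
        funext x
        rw [infComp_inv472]
      rw [this]
      exact hinv.matrix_elem i j

end Fermat.Agent.LT.T2.H472

end

end
-- ===== PACK-END LT/T2/H472/LocCont.lean

-- ===== PACK-BEGIN LT/H942/RegularOrbit.lean
section



/-!
# Row LT, tower T5 — regular ⇒ elliptic along an ORBIT of places (helper942)

OFF-MAIN.  Mathlib + `RegularCore.lean`.  `K` a number field, `O` a finite set of finite places
(the orbit of the auxiliary place `u` under a cyclic group of automorphisms), `S` a finite set of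
finite places, `r ∈ Kˣ` (an element of the fixed field, so that its absolute values along the
orbit are tied together).

* `orbit_le_of_bounds942` : if `|y|_v = 1` outside `O ∪ S`, `|y|_v⁻¹ ≤ C` on `S ∖ O` and at the
  infinite places, and `|y|_u > 1 ⇒ |y|_v ≥ 1` for `v ∈ O`, then `|y|_u ≤ C ^ ([K:ℚ] + #(S ∪ O))`;
* `orbit_regular_core942` : `t = r + 2 + r⁻¹`; if `|t|_v ≤ 1` outside `O ∪ S`, `|t|_v ≤ B` on
  `S ∖ O` and at the infinite places, and the orbit condition holds for `r` and `r⁻¹`, then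
  `|t|_u ≤ (B + 3) ^ ([K:ℚ] + #(S ∪ O))`.
-/

set_option autoImplicit false

open IsDedekindDomain NumberField

namespace Fermat.Agent.LT.H942

variable {K : Type*} [Field K] [NumberField K]

theorem orbit_le_of_bounds942 [DecidableEq (HeightOneSpectrum (𝓞 K))]
    (u : HeightOneSpectrum (𝓞 K))
    (O S : Finset (HeightOneSpectrum (𝓞 K))) {C : ℝ} (hC : 1 ≤ C) {y : K} (hy : y ≠ 0)
    (horb : ∀ v ∈ O, 1 < FinitePlace.mk u y → 1 ≤ FinitePlace.mk v y)
    (hout : ∀ v : HeightOneSpectrum (𝓞 K), v ∉ O → v ∉ S → FinitePlace.mk v y = 1)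
    (hS : ∀ v ∈ S, v ∉ O → (FinitePlace.mk v y)⁻¹ ≤ C)
    (hinf : ∀ w : InfinitePlace K, (w y)⁻¹ ≤ C) :
    FinitePlace.mk u y ≤ C ^ (Module.finrank ℚ K + (S ∪ O).card) := by
  classical
  have hC1 : (1 : ℝ) ≤ C ^ (Module.finrank ℚ K + (S ∪ O).card) := one_le_pow₀ hC
  by_cases h1 : FinitePlace.mk u y ≤ 1
  · exact le_trans h1 hC1
  · rw [not_le] at h1
    have hcard : ((S ∪ O).image FinitePlace.mk).card = (S ∪ O).card :=
      Finset.card_image_of_injective _ fun a b hab => FinitePlace.mk_eq_iff.1 hab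
    rw [← hcard]
    refine finitePlace_le_of_bounds (K := K) (FinitePlace.mk u) ((S ∪ O).image FinitePlace.mk)
      hC hy ?_ ?_ hinf
    · intro v' _ hv'
      obtain ⟨v, rfl⟩ : ∃ v, FinitePlace.mk v = v' :=
        ⟨v'.maximalIdeal, FinitePlace.mk_maximalIdeal v'⟩
      have hvSO : v ∉ S ∪ O := fun h => hv' (Finset.mem_image_of_mem _ h)
      exact hout v (fun h => hvSO (Finset.mem_union_right _ h))
        (fun h => hvSO (Finset.mem_union_left _ h))
    · intro v' hv' _
      obtain ⟨v, hv, rfl⟩ := Finset.mem_image.1 hv'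
      by_cases hvO : v ∈ O
      · have h2 : 1 ≤ FinitePlace.mk v y := horb v hvO h1
        exact le_trans (inv_le_one_of_one_le₀ h2) hC
      · exact hS v ((Finset.mem_union.1 hv).resolve_right hvO) hvO

theorem orbit_regular_core942 [DecidableEq (HeightOneSpectrum (𝓞 K))]
    (u : HeightOneSpectrum (𝓞 K))
    (O S : Finset (HeightOneSpectrum (𝓞 K))) {B : ℝ} (hB : 1 ≤ B) {r : K} (hr : r ≠ 0)
    (horb : ∀ v ∈ O, (1 < FinitePlace.mk u r → 1 ≤ FinitePlace.mk v r) ∧
      (1 < FinitePlace.mk u r⁻¹ → 1 ≤ FinitePlace.mk v r⁻¹))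
    (hout : ∀ v : HeightOneSpectrum (𝓞 K), v ∉ O → v ∉ S →
      FinitePlace.mk v (r + 2 + r⁻¹) ≤ 1)
    (hS : ∀ v ∈ S, v ∉ O → FinitePlace.mk v (r + 2 + r⁻¹) ≤ B)
    (hinf : ∀ w : InfinitePlace K, w (r + 2 + r⁻¹) ≤ B) :
    FinitePlace.mk u (r + 2 + r⁻¹) ≤ (B + 3) ^ (Module.finrank ℚ K + (S ∪ O).card) := by
  have hB3 : (1 : ℝ) ≤ B + 3 := by linarith
  have hrinv : r⁻¹ ≠ 0 := inv_ne_zero hr
  have hsym : r⁻¹ + 2 + r⁻¹⁻¹ = r + 2 + r⁻¹ := by rw [inv_inv]; ring
  -- local consequences for `r` and `r⁻¹`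
  have hv1 : ∀ v : HeightOneSpectrum (𝓞 K), v ∉ O → v ∉ S → FinitePlace.mk v r = 1 := by
    intro v hvO hvS
    have h1 : FinitePlace.mk v r ≤ 1 := finitePlace_ratio_le _ le_rfl (hout v hvO hvS)
    have h2 : FinitePlace.mk v r⁻¹ ≤ 1 :=
      finitePlace_ratio_le _ le_rfl (by rw [hsym]; exact hout v hvO hvS)
    rw [map_inv₀] at h2
    have hpos : 0 < FinitePlace.mk v r := FinitePlace.pos_iff.mpr hr
    have h3 : 1 ≤ FinitePlace.mk v r := by
      by_contra hlt
      rw [not_le] at hlt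
      have := one_lt_inv₀ hpos |>.mpr hlt
      exact absurd h2 (not_le.mpr this)
    exact le_antisymm h1 h3
  have hv1' : ∀ v : HeightOneSpectrum (𝓞 K), v ∉ O → v ∉ S → FinitePlace.mk v r⁻¹ = 1 := by
    intro v hvO hvS
    rw [map_inv₀, hv1 v hvO hvS, inv_one]
  have hSr : ∀ v ∈ S, v ∉ O → FinitePlace.mk v r ≤ B + 3 := fun v hv hvO =>
    le_trans (finitePlace_ratio_le _ hB (hS v hv hvO)) (by linarith)
  have hSr' : ∀ v ∈ S, v ∉ O → FinitePlace.mk v r⁻¹ ≤ B + 3 := fun v hv hvO =>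
    le_trans (finitePlace_ratio_le _ hB (by rw [hsym]; exact hS v hv hvO)) (by linarith)
  have hIr : ∀ w : InfinitePlace K, w r ≤ B + 3 := fun w => infinitePlace_ratio_le w (hinf w)
  have hIr' : ∀ w : InfinitePlace K, w r⁻¹ ≤ B + 3 := fun w =>
    infinitePlace_ratio_le w (by rw [hsym]; exact hinf w)
  -- the two bounds at `u`
  have hur : FinitePlace.mk u r ≤ (B + 3) ^ (Module.finrank ℚ K + (S ∪ O).card) :=
    orbit_le_of_bounds942 u O S hB3 hr (fun v hv => (horb v hv).1) hv1
      (fun v hv hvO => by rw [← map_inv₀]; exact hSr' v hv hvO)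
      (fun w => by rw [← map_inv₀]; exact hIr' w)
  have hur' : FinitePlace.mk u r⁻¹ ≤ (B + 3) ^ (Module.finrank ℚ K + (S ∪ O).card) :=
    orbit_le_of_bounds942 u O S hB3 hrinv (fun v hv => (horb v hv).2) hv1'
      (fun v hv hvO => by rw [← map_inv₀, inv_inv]; exact hSr v hv hvO)
      (fun w => by rw [← map_inv₀, inv_inv]; exact hIr w)
  -- ultrametric inequality
  have hM1 : (1 : ℝ) ≤ (B + 3) ^ (Module.finrank ℚ K + (S ∪ O).card) := one_le_pow₀ hB3
  have h2 : FinitePlace.mk u (2 : K) ≤ 1 := by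
    have := FinitePlace.add_le (FinitePlace.mk u) (1 : K) 1
    have h1 : FinitePlace.mk u (1 : K) = 1 := map_one _
    rw [h1, max_self] at this
    have e : (2 : K) = 1 + 1 := by norm_num
    rw [e]; exact this
  calc FinitePlace.mk u (r + 2 + r⁻¹)
      ≤ max (FinitePlace.mk u (r + 2)) (FinitePlace.mk u r⁻¹) := FinitePlace.add_le _ _ _
    _ ≤ max (max (FinitePlace.mk u r) (FinitePlace.mk u 2)) (FinitePlace.mk u r⁻¹) :=
        max_le_max (FinitePlace.add_le _ _ _) le_rfl
    _ ≤ (B + 3) ^ (Module.finrank ℚ K + (S ∪ O).card) :=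
        max_le (max_le hur (le_trans h2 hM1)) hur'

end Fermat.Agent.LT.H942

end
-- ===== PACK-END LT/H942/RegularOrbit.lean

-- ===== PACK-BEGIN LT/T7/H360/CellLocal.lean
section



/-!
# Row LT, tower T7, leaf `CellCoordC290` (registry 2230, helper360): local facts

OFF-MAIN.  Facts at one place: the closure `𝔫 𝒪_v` of an ideal is an ideal of `𝒪_v` contained in
the maximal ideal when `v ∣ 𝔫`; the norm of `K_v`; unitary matrices at the infinite places.
-/

set_option autoImplicit false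

open IsDedekindDomain NumberField
open Fermat.Agent.LT.H556.A0

noncomputable section

namespace Fermat.Agent.LT.T7.Rigid.H360

variable {K : Type} [Field K] [NumberField K]

/-! ## The norm of `K_v` -/

theorem norm_le_one_iff360 (v : HeightOneSpectrum (𝓞 K)) (x : v.adicCompletion K) :
    ‖x‖ ≤ 1 ↔ x ∈ v.adicCompletionIntegers K := by
  rw [HeightOneSpectrum.mem_adicCompletionIntegers]
  exact Valued.toNormedField.norm_le_one_iff

theorem norm_lt_one_iff360 (v : HeightOneSpectrum (𝓞 K)) (x : v.adicCompletion K) :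
    ‖x‖ < 1 ↔ Valued.v x < 1 :=
  Valued.toNormedField.norm_lt_one_iff

theorem norm_add_le_max360 (v : HeightOneSpectrum (𝓞 K)) (x y : v.adicCompletion K) :
    ‖x + y‖ ≤ max ‖x‖ ‖y‖ :=
  IsUltrametricDist.norm_add_le_max x y

theorem norm_sub_le_max360 (v : HeightOneSpectrum (𝓞 K)) (x y : v.adicCompletion K) :
    ‖x - y‖ ≤ max ‖x‖ ‖y‖ := by
  have h := norm_add_le_max360 v x (-y)
  rwa [norm_neg, ← sub_eq_add_neg] at h

/-- An element of `𝒪_v` with inverse in `𝒪_v` has norm one. -/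
theorem norm_eq_one_of_mul_eq_one360 (v : HeightOneSpectrum (𝓞 K)) {a b : v.adicCompletion K}
    (ha : ‖a‖ ≤ 1) (hb : ‖b‖ ≤ 1) (hab : a * b = 1) : ‖a‖ = 1 := by
  have h1 : ‖a‖ * ‖b‖ = 1 := by rw [← norm_mul, hab, norm_one]
  have ha0 : 0 ≤ ‖a‖ := norm_nonneg a
  have hb0 : 0 ≤ ‖b‖ := norm_nonneg b
  refine le_antisymm ha ?_
  by_contra hlt
  rw [not_le] at hlt
  have : ‖a‖ * ‖b‖ < 1 := by
    calc ‖a‖ * ‖b‖ ≤ ‖a‖ * 1 := mul_le_mul_of_nonneg_left hb ha0
      _ = ‖a‖ := mul_one _
      _ < 1 := hlt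
  linarith

/-- `1 + t` has norm one when `‖t‖ < 1`. -/
theorem norm_eq_one_of_sub_one_lt360 (v : HeightOneSpectrum (𝓞 K)) {a : v.adicCompletion K}
    (h : ‖a - 1‖ < 1) : ‖a‖ = 1 := by
  refine le_antisymm ?_ ?_
  · have h1 := norm_add_le_max360 v (a - 1) 1
    rw [sub_add_cancel, norm_one] at h1
    exact h1.trans (max_le h.le le_rfl)
  · have h1 := norm_sub_le_max360 v a (a - 1)
    rw [sub_sub_cancel, norm_one] at h1
    rcases le_max_iff.1 h1 with h2 | h2
    · exact h2
    · exact absurd h2 (not_le.2 h)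

/-! ## The closure of an ideal -/

/-- The map `𝓞 K → K_v`. -/
abbrev toCompl360 (v : HeightOneSpectrum (𝓞 K)) (x : 𝓞 K) : v.adicCompletion K :=
  algebraMap K (v.adicCompletion K) (algebraMap (𝓞 K) K x)

theorem valued_algebraMap360 (v : HeightOneSpectrum (𝓞 K)) (y : K) :
    Valued.v (algebraMap K (v.adicCompletion K) y) = v.valuation K y :=
  HeightOneSpectrum.valuedAdicCompletion_eq_valuation' v y

theorem valued_toCompl360 (v : HeightOneSpectrum (𝓞 K)) (x : 𝓞 K) :
    Valued.v (toCompl360 v x) = v.intValuation x := by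
  rw [toCompl360, valued_algebraMap360, HeightOneSpectrum.valuation_of_algebraMap]

theorem toCompl360_mem_integers (v : HeightOneSpectrum (𝓞 K)) (x : 𝓞 K) :
    toCompl360 v x ∈ v.adicCompletionIntegers K := by
  rw [HeightOneSpectrum.mem_adicCompletionIntegers, valued_toCompl360]
  exact v.intValuation_le_one x

/-- `𝓞 K` is dense in `𝒪_v`. -/
theorem integers_subset_closure360 (v : HeightOneSpectrum (𝓞 K)) :
    (v.adicCompletionIntegers K : Set (v.adicCompletion K))
      ⊆ closure (Set.range (toCompl360 v)) := by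
  intro x hx
  rw [mem_closure_iff]
  intro U hU hxU
  have hO : IsOpen (v.adicCompletionIntegers K : Set (v.adicCompletion K)) :=
    Valued.isOpen_valuationSubring _
  obtain ⟨k, hk⟩ := (HeightOneSpectrum.denseRange_algebraMap K v).exists_mem_open
    (hU.inter hO) ⟨x, hxU, hx⟩
  have hkU : algebraMap K (v.adicCompletion K) k ∈ U := hk.1
  have hk1 : v.valuation K k ≤ 1 := by
    rw [← valued_algebraMap360]
    exact (HeightOneSpectrum.mem_adicCompletionIntegers (𝓞 K) K v).1 hk.2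
  obtain ⟨γ, hγ⟩ := (Valued.mem_nhds (R := v.adicCompletion K)).1 (hU.mem_nhds hkU)
  have hγ0 : MonoidWithZeroHom.ValueGroup₀.embedding γ.1 ≠ 0 := by
    simp
  obtain ⟨a, ha⟩ := HeightOneSpectrum.exists_valuation_sub_lt_of_integer v hk1
    (Units.mk0 _ hγ0)
  refine ⟨toCompl360 v a, hγ ?_, a, rfl⟩
  show (Valued.v : Valuation (v.adicCompletion K) _).restrict
    (toCompl360 v a - algebraMap K (v.adicCompletion K) k) < γ.1
  rw [Valuation.restrict_lt_iff_lt_embedding]
  have e : toCompl360 v a - algebraMap K (v.adicCompletion K) k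
      = algebraMap K (v.adicCompletion K) (algebraMap (𝓞 K) K a - k) := by
    rw [map_sub]
  rw [e, valued_algebraMap360]
  exact ha

variable (𝔫 : Ideal (𝓞 K)) (v : HeightOneSpectrum (𝓞 K))

theorem idealClosure_eq360 :
    idealClosure 𝔫 v = closure (toCompl360 v '' (𝔫 : Set (𝓞 K))) := rfl

theorem idealClosure_subset360 :
    idealClosure 𝔫 v ⊆ (v.adicCompletionIntegers K : Set (v.adicCompletion K)) := by
  refine closure_minimal ?_ (Valued.isClosed_valuationSubring _)
  rintro _ ⟨x, -, rfl⟩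
  exact toCompl360_mem_integers v x

theorem norm_le_one_of_mem_idealClosure360 {x : v.adicCompletion K}
    (hx : x ∈ idealClosure 𝔫 v) : ‖x‖ ≤ 1 :=
  (norm_le_one_iff360 v x).2 (idealClosure_subset360 𝔫 v hx)

theorem add_mem_idealClosure360 {x y : v.adicCompletion K} (hx : x ∈ idealClosure 𝔫 v)
    (hy : y ∈ idealClosure 𝔫 v) : x + y ∈ idealClosure 𝔫 v := by
  refine map_mem_closure₂ continuous_add hx hy ?_
  rintro _ ⟨a, ha, rfl⟩ _ ⟨b, hb, rfl⟩
  exact ⟨a + b, 𝔫.add_mem ha hb, by simp⟩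

theorem mul_mem_idealClosure360 {x y : v.adicCompletion K}
    (hx : x ∈ v.adicCompletionIntegers K) (hy : y ∈ idealClosure 𝔫 v) :
    x * y ∈ idealClosure 𝔫 v := by
  refine map_mem_closure₂ continuous_mul (integers_subset_closure360 v hx) hy ?_
  rintro _ ⟨a, rfl⟩ _ ⟨b, hb, rfl⟩
  exact ⟨a * b, 𝔫.mul_mem_left a hb, by simp [toCompl360]⟩

theorem mul_mem_idealClosure360' {x y : v.adicCompletion K}
    (hx : x ∈ idealClosure 𝔫 v) (hy : y ∈ idealClosure 𝔫 v) :
    x * y ∈ idealClosure 𝔫 v :=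
  mul_mem_idealClosure360 𝔫 v (idealClosure_subset360 𝔫 v hx) hy

/-- When `v ∣ 𝔫` the closure of `𝔫` lies in the maximal ideal. -/
theorem norm_lt_one_of_mem_idealClosure360 (hv : v.asIdeal ∣ 𝔫) {x : v.adicCompletion K}
    (hx : x ∈ idealClosure 𝔫 v) : ‖x‖ < 1 := by
  have hcl : IsClosed {y : v.adicCompletion K | ‖y‖ < 1} := by
    have : {y : v.adicCompletion K | ‖y‖ < 1} = Metric.ball (0 : v.adicCompletion K) 1 := by
      ext y; simp [Metric.mem_ball, dist_zero_right]
    rw [this]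
    exact IsUltrametricDist.isClosed_ball _ _
  have hsub : idealClosure 𝔫 v ⊆ {y : v.adicCompletion K | ‖y‖ < 1} := by
    refine closure_minimal ?_ hcl
    rintro _ ⟨a, ha, rfl⟩
    show ‖toCompl360 v a‖ < 1
    rw [norm_lt_one_iff360, valued_toCompl360]
    exact (HeightOneSpectrum.intValuation_lt_one_iff_mem v a).2 (Ideal.dvd_iff_le.1 hv ha)
  exact hsub hx

/-! ## Unitary matrices -/

theorem unitary_row_one360 {U : Matrix (Fin 2) (Fin 2) ℂ} (h : U * U.conjTranspose = 1) :
    ‖U 1 0‖ ^ 2 + ‖U 1 1‖ ^ 2 = 1 := by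
  have h11 := congrFun (congrFun h 1) 1
  rw [Matrix.mul_apply, Fin.sum_univ_two] at h11
  simp only [Matrix.conjTranspose_apply, Matrix.one_apply_eq] at h11
  have e0 : U 1 0 * star (U 1 0) = ((‖U 1 0‖ ^ 2 : ℝ) : ℂ) := by
    rw [Complex.star_def, Complex.mul_conj, Complex.normSq_eq_norm_sq]
  have e1 : U 1 1 * star (U 1 1) = ((‖U 1 1‖ ^ 2 : ℝ) : ℂ) := by
    rw [Complex.star_def, Complex.mul_conj, Complex.normSq_eq_norm_sq]
  rw [e0, e1] at h11
  exact_mod_cast h11

theorem unitary_norm_det360 {U : Matrix (Fin 2) (Fin 2) ℂ} (h : U * U.conjTranspose = 1) :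
    ‖U.det‖ = 1 := by
  have hd := congrArg Matrix.det h
  rw [Matrix.det_mul, Matrix.det_conjTranspose, Matrix.det_one] at hd
  have e0 : U.det * star U.det = ((‖U.det‖ ^ 2 : ℝ) : ℂ) := by
    rw [Complex.star_def, Complex.mul_conj, Complex.normSq_eq_norm_sq]
  rw [e0] at hd
  have h2 : ‖U.det‖ ^ 2 = 1 := by exact_mod_cast hd
  have h0 : 0 ≤ ‖U.det‖ := norm_nonneg _
  nlinarith [sq_nonneg (‖U.det‖ - 1), sq_nonneg (‖U.det‖ + 1)]

end Fermat.Agent.LT.T7.Rigid.H360

end

end
-- ===== PACK-END LT/T7/H360/CellLocal.lean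

-- ===== PACK-BEGIN LT/T7/H468/HoroFSpec.lean
section



/-!
# Row LT, tower T7, node T7.13 `ThinC` (T8 method over `F`): SPEC of the ADELIC HALF
(helper468, OFF-MAIN, candidate; the sub-architect of T7.13 rules)

The analogue over a number field `K` with ONE infinite place `w`, complex (`K` imaginary
quadratic), of `T8.HoroData` / `T8.HoroC` (`LT/T8/Spec.lean`, helper19), closed over `ℚ` in
`LT/T8/H468/Horo.lean`.

* `HoroDataF468 K w M A B U C`: a finite family `U κ : ℂ × ℝ_{>0} → ℂ`, `κ ∈ (𝒪_K / M)ˣ`, of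
  functions bounded by `C`, continuous, periodic in `x` under the lattice `M 𝒪_K ⊂ ℂ`, with the
  function form of the Hecke relation at every PRINCIPAL prime `v = (ϖ)` not dividing `M`, for
  every generator `ϖ` and every residue system `R` modulo `ϖ`:

  `∑_{r ∈ R} U (κ ϖ) ((x + M r) / ϖ) (y / |ϖ|) + B v · U (κ ϖ⁻¹) (ϖ x) (|ϖ| y)
      = √(N v) · A v · U κ x y`.

  Moreover `U κ (ε x) y = U (κ ε) x y` for the units `ε` of `𝒪_K`.
  (`U κ x y = φ (b(x, y)_∞ · d(k) · g₁)`, `b(x, y) = [[y, x], [0, 1]] ∈ GL₂(ℂ)`, `k` a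
  representative of `κ⁻¹`, `d(k) = [[k, 0], [0, 1]]` at the places dividing `M`, `g₁` the finite
  part of the base point at the places dividing `M`.  The phase `ϖ / |ϖ|` is absorbed by
  `U(2)`, the units of `𝒪_K` are covered by "every generator".)
* `HoroCF468`: every cusp form of `A0.IsSph0CuspFormFor` over such a `K` has such a family through
  every base point `g₀` (up to the Iwasawa decomposition at `w`), of a level `M` divisible by a
  prescribed `L`.
-/

set_option autoImplicit false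

open IsDedekindDomain NumberField AutomorphicForm
open scoped MatrixGroups Classical

noncomputable section

namespace Fermat.Agent.LT.T7.H468

open Fermat.Agent.LT.H556.A0

variable {K : Type} [Field K] [NumberField K]

/-- The ideal `M 𝒪_K`. -/
abbrev idM468 (K : Type) [Field K] [NumberField K] (M : ℕ) : Ideal (𝓞 K) :=
  Ideal.span {((M : ℕ) : 𝓞 K)}

/-- The class of `ϖ` in `(𝒪_K / M)ˣ` (`1` if `ϖ` is not prime to `M`). -/
def clsF468 (M : ℕ) (ϖ : 𝓞 K) : (𝓞 K ⧸ idM468 K M)ˣ :=
  if h : IsUnit (Ideal.Quotient.mk (idM468 K M) ϖ) then h.unit else 1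

theorem clsF468_coe {M : ℕ} {ϖ : 𝓞 K} (h : IsUnit (Ideal.Quotient.mk (idM468 K M) ϖ)) :
    ((clsF468 M ϖ : (𝓞 K ⧸ idM468 K M)ˣ) : 𝓞 K ⧸ idM468 K M)
      = Ideal.Quotient.mk (idM468 K M) ϖ := by
  unfold clsF468
  rw [dif_pos h]
  exact h.unit_spec

/-- **Horocycle data over `K`** (one infinite place `w`, complex) of level `M`. -/
structure HoroDataF468 (K : Type) [Field K] [NumberField K] (w : InfinitePlace K) (M : ℕ)
    (A B : HeightOneSpectrum (𝓞 K) → ℂ) (U : (𝓞 K ⧸ idM468 K M)ˣ → ℂ → ℝ → ℂ) (C : ℝ) :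
    Prop where
  M_pos : 0 < M
  cont : ∀ κ : (𝓞 K ⧸ idM468 K M)ˣ,
    ContinuousOn (fun p : ℂ × ℝ => U κ p.1 p.2) {p : ℂ × ℝ | 0 < p.2}
  bdd : ∀ (κ : (𝓞 K ⧸ idM468 K M)ˣ) (x : ℂ) (y : ℝ), 0 < y → ‖U κ x y‖ ≤ C
  periodic : ∀ (κ : (𝓞 K ⧸ idM468 K M)ˣ) (ω : 𝓞 K) (x : ℂ) (y : ℝ), 0 < y →
    U κ (x + (M : ℂ) * w.embedding (ω : K)) y = U κ x y
  unit : ∀ (κ : (𝓞 K ⧸ idM468 K M)ˣ) (ε : (𝓞 K)ˣ) (x : ℂ) (y : ℝ), 0 < y →
    U κ (w.embedding ((ε : 𝓞 K) : K) * x) y = U (κ * clsF468 M (ε : 𝓞 K)) x y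
  hecke : ∀ (v : HeightOneSpectrum (𝓞 K)) (ϖ : 𝓞 K), v.asIdeal = Ideal.span {ϖ} →
    ((M : ℕ) : 𝓞 K) ∉ v.asIdeal →
    ∀ R : Finset (𝓞 K), R.card = Ideal.absNorm v.asIdeal →
      (∀ r ∈ R, ∀ r' ∈ R, r ≠ r' → r - r' ∉ v.asIdeal) →
      ∀ (κ : (𝓞 K ⧸ idM468 K M)ˣ) (x : ℂ) (y : ℝ), 0 < y →
        ∑ r ∈ R, U (κ * clsF468 M ϖ)
            ((x + (M : ℂ) * w.embedding (r : K)) / w.embedding (ϖ : K))
            (y / ‖w.embedding (ϖ : K)‖)
          + B v * U (κ * (clsF468 M ϖ)⁻¹) (w.embedding (ϖ : K) * x)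
              (‖w.embedding (ϖ : K)‖ * y)
        = ((Real.sqrt (Ideal.absNorm v.asIdeal : ℝ) : ℝ) : ℂ) * A v * U κ x y

/-- **The adelic half of the T8 method over `K`.** -/
def HoroCF468 : Prop :=
  ∀ (K : Type) [Field K] [NumberField K] (w : InfinitePlace K), w.IsComplex →
    (∀ w' : InfinitePlace K, w' = w) →
    ∀ (π : HeckeEigensystem K ℂ) (φ : G K → ℂ), IsSph0CuspFormFor π φ →
      ∀ (g₀ : G K) (L : ℕ), L ≠ 0 →
        ∃ (M : ℕ) (U : (𝓞 K ⧸ idM468 K M)ˣ → ℂ → ℝ → ℂ) (C : ℝ),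
          L ∣ M ∧ HoroDataF468 K w M π.a π.b U C ∧
            ∃ (x₀ : ℂ) (y₀ : ℝ), 0 < y₀ ∧ U 1 x₀ y₀ = φ g₀

end Fermat.Agent.LT.T7.H468

end

end
-- ===== PACK-END LT/T7/H468/HoroFSpec.lean

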