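import Mathlib
import Fermat.Agent.Pack.LT2.E2L0
import Fermat.Agent.Pack.LT2.E2L1
import Fermat.Agent.Pack.LT2.E0L1
import Fermat.Agent.Pack.LT2.E2L2
import Fermat.Agent.Pack.LT2.E3L1

set_option linter.all false

-- ===== PACK-BEGIN LT/A2/H426/TorusOpenCore.lean
section



/-!
# Row LT, tower A2, leaf A2.03.2 TORUS-OPEN (helper426) -- global assembly

OFF-MAIN.  Mathlib + `LocalNorm.lean` only; complete proofs.

`torus_open_core426`: for a separable quadratic form `X² + t X Y + n Y²` over a number field `K`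
(`t² - 4n ≠ 0`), every neighbourhood `V` of `1` in `GL₂(𝔸_K)` (units topology) contains, for every
idele `u` in a suitable neighbourhood of `1`, an element of the torus
`{[[a, -n b], [b, a + t b]]}` of determinant `u`.

Proof: at the infinite places and at finitely many finite places (the places occurring in `V`,
the places over `2`, the places where `t`, `n` are not integral or the discriminant is not a unit)
take a square root of `u_v` close to `1` (`b_v = 0`); at all other places `u_v` is a unit and is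
the norm of an integral element (`exists_norm_eq_of_good426`).
-/

set_option autoImplicit false
set_option linter.style.haveILetI false
set_option linter.unusedSectionVars false

open IsDedekindDomain NumberField
open scoped Topology RestrictedProduct

noncomputable section

namespace Fermat.Agent.LT.A2.H426

/-- Neighbourhoods in a finite double product, in terms of entries. -/
theorem nhds_pi_pi426 {A : Type*} [CommRing A] [TopologicalSpace A] [IsTopologicalRing A]
    (c : Fin 2 → Fin 2 → A) {t : Set (Fin 2 → Fin 2 → A)} (ht : t ∈ 𝓝 c) :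
    ∃ N₀ ∈ 𝓝 (0 : A), ∀ X : Fin 2 → Fin 2 → A,
      (∀ i j, X i j - c i j ∈ N₀) → X ∈ t := by
  rw [nhds_pi, Filter.mem_pi] at ht
  obtain ⟨I₁, -, T₁, hT₁, hsub₁⟩ := ht
  have h2 : ∀ i : Fin 2, ∃ T₂ : Fin 2 → Set A,
      (∀ j, T₂ j ∈ 𝓝 (c i j)) ∧ Set.univ.pi T₂ ⊆ T₁ i := by
    intro i
    have := hT₁ i
    rw [nhds_pi, Filter.mem_pi] at this
    obtain ⟨I₂, -, T₂, hT₂, hsub₂⟩ := this
    exact ⟨T₂, hT₂, fun x hx => hsub₂ (fun j _ => hx j (Set.mem_univ j))⟩
  choose T₂ hT₂ hsub₂ using h2
  refine ⟨⋂ i : Fin 2, ⋂ j : Fin 2,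
    (fun x : A => x + c i j) ⁻¹' (T₂ i j), ?_, ?_⟩
  · rw [Filter.iInter_mem]
    intro i
    rw [Filter.iInter_mem]
    intro j
    have hc : ContinuousAt (fun x : A => x + c i j) 0 := by
      fun_prop
    apply hc.preimage_mem_nhds
    rw [zero_add]
    exact hT₂ i j
  · intro X hX
    apply hsub₁
    intro i _
    apply hsub₂ i
    intro j _
    have := hX i j
    rw [Set.mem_iInter] at this
    have := this i
    rw [Set.mem_iInter] at this
    have := this j
    simpa using this

/-- Neighbourhoods of `1` in a matrix ring over a topological ring, in terms of entries. -/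
theorem nhds_one_matrix426 {A : Type*} [CommRing A] [TopologicalSpace A] [IsTopologicalRing A]
    {t : Set (Matrix (Fin 2) (Fin 2) A)} (ht : t ∈ 𝓝 (1 : Matrix (Fin 2) (Fin 2) A)) :
    ∃ N₀ ∈ 𝓝 (0 : A), ∀ X : Matrix (Fin 2) (Fin 2) A,
      (∀ i j, X i j - (1 : Matrix (Fin 2) (Fin 2) A) i j ∈ N₀) → X ∈ t :=
  nhds_pi_pi426 (fun i j => (1 : Matrix (Fin 2) (Fin 2) A) i j) ht

/-- Neighbourhoods of `1` in `GL₂` (units topology), in terms of entries. -/
theorem nhds_one_GL426 {A : Type*} [CommRing A] [TopologicalSpace A] [IsTopologicalRing A]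
    {V : Set (GL (Fin 2) A)} (hV : V ∈ 𝓝 (1 : GL (Fin 2) A)) :
    ∃ N₀ ∈ 𝓝 (0 : A), ∀ g : GL (Fin 2) A,
      (∀ i j, (g : Matrix (Fin 2) (Fin 2) A) i j - (1 : Matrix (Fin 2) (Fin 2) A) i j ∈ N₀) →
      (∀ i j, ((g⁻¹ : GL (Fin 2) A) : Matrix (Fin 2) (Fin 2) A) i j
        - (1 : Matrix (Fin 2) (Fin 2) A) i j ∈ N₀) → g ∈ V := by
  have h1 : Filter.Tendsto (fun g : GL (Fin 2) A => (g : Matrix (Fin 2) (Fin 2) A)) (𝓝 1)
      (𝓝 (1 : Matrix (Fin 2) (Fin 2) A)) := by
    have := (Units.continuous_val (M := Matrix (Fin 2) (Fin 2) A)).tendsto 1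
    simpa using this
  have hV' := hV
  rw [Units.isInducing_embedProduct.nhds_eq_comap, Filter.mem_comap] at hV'
  obtain ⟨s, hs, hsV⟩ := hV'
  have e1 : Units.embedProduct (Matrix (Fin 2) (Fin 2) A) 1 = (1, MulOpposite.op 1) := rfl
  rw [e1, nhds_prod_eq, Filter.mem_prod_iff] at hs
  obtain ⟨s₁, hs₁, s₂, hs₂, hs12⟩ := hs
  have hs₂' : MulOpposite.op ⁻¹' s₂ ∈ 𝓝 (1 : Matrix (Fin 2) (Fin 2) A) :=
    (MulOpposite.continuous_op.continuousAt (x := (1 : Matrix (Fin 2) (Fin 2) A))).preimage_mem_nhds
      hs₂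
  obtain ⟨N₁, hN₁, hN₁s⟩ := nhds_one_matrix426 hs₁
  obtain ⟨N₂, hN₂, hN₂s⟩ := nhds_one_matrix426 hs₂'
  refine ⟨N₁ ∩ N₂, Filter.inter_mem hN₁ hN₂, ?_⟩
  intro g hg hg'
  apply hsV
  apply hs12
  refine Set.mem_prod.2 ⟨?_, ?_⟩
  · exact hN₁s _ (fun i j => (hg i j).1)
  · exact hN₂s _ (fun i j => (hg' i j).2)

section Glob
variable (K : Type) [Field K] [NumberField K]

/-- The adele ring. -/
abbrev Adl426 : Type := NumberField.AdeleRing (𝓞 K) K

/-- Projection to the completion at an infinite place. -/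
def pI426 (w : InfinitePlace K) : Adl426 K →+* w.Completion :=
  (Pi.evalRingHom (fun w : InfinitePlace K => w.Completion) w).comp
    (RingHom.fst (InfiniteAdeleRing K) (FiniteAdeleRing (𝓞 K) K))

/-- Projection to the completion at a finite place. -/
def pF426 (v : HeightOneSpectrum (𝓞 K)) : Adl426 K →+* v.adicCompletion K :=
  (RestrictedProduct.evalRingHom (fun v : HeightOneSpectrum (𝓞 K) => v.adicCompletion K) v).comp
    (RingHom.snd (InfiniteAdeleRing K) (FiniteAdeleRing (𝓞 K) K))

variable {K}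

theorem pI426_apply (w : InfinitePlace K) (x : Adl426 K) : pI426 K w x = x.1 w := rfl
theorem pF426_apply (v : HeightOneSpectrum (𝓞 K)) (x : Adl426 K) : pF426 K v x = x.2 v := rfl

theorem continuous_pI426 (w : InfinitePlace K) : Continuous (pI426 K w) := by
  have h1 : Continuous (fun x : Adl426 K => x.1) := continuous_fst
  exact (continuous_apply w).comp h1

theorem continuous_pF426 (v : HeightOneSpectrum (𝓞 K)) : Continuous (pF426 K v) := by
  have h1 : Continuous (fun x : Adl426 K => x.2) := continuous_snd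
  exact (RestrictedProduct.continuous_eval v).comp h1

theorem adl_ext426 {x y : Adl426 K} (hI : ∀ w, pI426 K w x = pI426 K w y)
    (hF : ∀ v, pF426 K v x = pF426 K v y) : x = y := by
  refine Prod.ext (funext hI) ?_
  exact FiniteAdeleRing.ext K hF

theorem pI426_algebraMap (w : InfinitePlace K) (x : K) :
    pI426 K w (algebraMap K (Adl426 K) x) = algebraMap K w.Completion x := rfl

theorem pF426_algebraMap (v : HeightOneSpectrum (𝓞 K)) (x : K) :
    pF426 K v (algebraMap K (Adl426 K) x) = algebraMap K (v.adicCompletion K) x := rfl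

/-- Build an adele from its components. -/
def mkAdl426 (ai : ∀ w : InfinitePlace K, w.Completion)
    (af : ∀ v : HeightOneSpectrum (𝓞 K), v.adicCompletion K)
    (h : ∀ v, af v ∈ v.adicCompletionIntegers K) : Adl426 K :=
  (ai, ⟨af, Filter.Eventually.of_forall h⟩)

theorem pI426_mk (ai : ∀ w : InfinitePlace K, w.Completion)
    (af : ∀ v : HeightOneSpectrum (𝓞 K), v.adicCompletion K)
    (h : ∀ v, af v ∈ v.adicCompletionIntegers K) (w : InfinitePlace K) :
    pI426 K w (mkAdl426 ai af h) = ai w := rfl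

theorem pF426_mk (ai : ∀ w : InfinitePlace K, w.Completion)
    (af : ∀ v : HeightOneSpectrum (𝓞 K), v.adicCompletion K)
    (h : ∀ v, af v ∈ v.adicCompletionIntegers K) (v : HeightOneSpectrum (𝓞 K)) :
    pF426 K v (mkAdl426 ai af h) = af v := rfl

/-- Neighbourhoods of `0` in the product, in local terms. -/
theorem nhds_zero_prod426 {N₀ : Set ((∀ w : InfinitePlace K, w.Completion) ×
      Πʳ v : HeightOneSpectrum (𝓞 K), [v.adicCompletion K, v.adicCompletionIntegers K])}
    (hN : N₀ ∈ 𝓝 ((0 : ∀ w : InfinitePlace K, w.Completion),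
      (0 : Πʳ v : HeightOneSpectrum (𝓞 K), [v.adicCompletion K, v.adicCompletionIntegers K]))) :
    ∃ (B : ∀ w : InfinitePlace K, Set w.Completion) (I : Finset (HeightOneSpectrum (𝓞 K)))
      (N : ∀ v : HeightOneSpectrum (𝓞 K), Set (v.adicCompletion K)),
      (∀ w, B w ∈ 𝓝 (0 : w.Completion)) ∧ (∀ v, N v ∈ 𝓝 (0 : v.adicCompletion K)) ∧
      ∀ x : (∀ w : InfinitePlace K, w.Completion) ×
          Πʳ v : HeightOneSpectrum (𝓞 K), [v.adicCompletion K, v.adicCompletionIntegers K],
        (∀ w, x.1 w ∈ B w) →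
        (∀ v, x.2 v ∈ v.adicCompletionIntegers K) → (∀ v ∈ I, x.2 v ∈ N v) →
        x ∈ N₀ := by
  rw [nhds_prod_eq, Filter.mem_prod_iff] at hN
  obtain ⟨N₁, hN₁, N₂, hN₂, hsub⟩ := hN
  -- infinite part
  rw [nhds_pi, Filter.mem_pi] at hN₁
  obtain ⟨J, -, B, hB, hBsub⟩ := hN₁
  -- finite part
  have hopen : ∀ v : HeightOneSpectrum (𝓞 K),
      IsOpen (v.adicCompletionIntegers K : Set (v.adicCompletion K)) :=
    fun v => Valued.isOpen_valuationSubring _
  have h0 : (0 : Πʳ v : HeightOneSpectrum (𝓞 K),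
      [v.adicCompletion K, v.adicCompletionIntegers K])
      = RestrictedProduct.structureMap (fun v : HeightOneSpectrum (𝓞 K) => v.adicCompletion K)
          (fun v : HeightOneSpectrum (𝓞 K) => (v.adicCompletionIntegers K : Set (v.adicCompletion K)))
          Filter.cofinite (fun v => ⟨0, zero_mem _⟩) := by
    rfl
  rw [h0, RestrictedProduct.nhds_eq_map_structureMap hopen, Filter.mem_map, nhds_pi,
    Filter.mem_pi] at hN₂
  obtain ⟨I, hI, N', hN', hN'sub⟩ := hN₂
  have hex : ∀ v : HeightOneSpectrum (𝓞 K), ∃ Nv ∈ 𝓝 (0 : v.adicCompletion K),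
      (Subtype.val ⁻¹' Nv : Set (v.adicCompletionIntegers K)) ⊆ N' v := by
    intro v
    have := hN' v
    rw [mem_nhds_subtype] at this
    exact this
  choose N hN hNsub using hex
  refine ⟨B, hI.toFinset, N, hB, hN, ?_⟩
  intro x hx1 hx2 hx3
  apply hsub
  refine Set.mem_prod.2 ⟨?_, ?_⟩
  · apply hBsub
    intro w _
    exact hx1 w
  · have hx : x.2 = RestrictedProduct.structureMap
        (fun v : HeightOneSpectrum (𝓞 K) => v.adicCompletion K)
        (fun v : HeightOneSpectrum (𝓞 K) =>
          (v.adicCompletionIntegers K : Set (v.adicCompletion K)))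
        Filter.cofinite (fun v => ⟨x.2 v, hx2 v⟩) := by
      ext v
      rfl
    rw [hx]
    apply hN'sub
    intro v hv
    apply hNsub v
    exact hx3 v (hI.mem_toFinset.2 hv)

/-- Neighbourhoods of `0` in the adele ring, in local terms. -/
theorem nhds_zero_adl426 {N₀ : Set (Adl426 K)} (hN : N₀ ∈ 𝓝 (0 : Adl426 K)) :
    ∃ (B : ∀ w : InfinitePlace K, Set w.Completion) (I : Finset (HeightOneSpectrum (𝓞 K)))
      (N : ∀ v : HeightOneSpectrum (𝓞 K), Set (v.adicCompletion K)),
      (∀ w, B w ∈ 𝓝 (0 : w.Completion)) ∧ (∀ v, N v ∈ 𝓝 (0 : v.adicCompletion K)) ∧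
      ∀ x : Adl426 K, (∀ w, pI426 K w x ∈ B w) →
        (∀ v, pF426 K v x ∈ v.adicCompletionIntegers K) → (∀ v ∈ I, pF426 K v x ∈ N v) →
        x ∈ N₀ :=
  nhds_zero_prod426 hN


/-- The component at `v` of the inverse of an idele. -/
theorem pF426_inv (v : HeightOneSpectrum (𝓞 K)) (u : (Adl426 K)ˣ) :
    pF426 K v ((u⁻¹ : (Adl426 K)ˣ) : Adl426 K) = (pF426 K v (u : Adl426 K))⁻¹ := by
  have h : pF426 K v (u : Adl426 K) * pF426 K v ((u⁻¹ : (Adl426 K)ˣ) : Adl426 K) = 1 := by
    rw [← map_mul, Units.mul_inv, map_one]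
  exact eq_inv_of_mul_eq_one_right h

/-- The component at `w` of the inverse of an idele. -/
theorem pI426_inv (w : InfinitePlace K) (u : (Adl426 K)ˣ) :
    pI426 K w ((u⁻¹ : (Adl426 K)ˣ) : Adl426 K) = (pI426 K w (u : Adl426 K))⁻¹ := by
  have h : pI426 K w (u : Adl426 K) * pI426 K w ((u⁻¹ : (Adl426 K)ˣ) : Adl426 K) = 1 := by
    rw [← map_mul, Units.mul_inv, map_one]
  exact eq_inv_of_mul_eq_one_right h

/-- The set of integral finite adeles is a neighbourhood of `1` in the adele ring. -/
theorem integral_mem_nhds_one426 :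
    {x : Adl426 K | ∀ v, pF426 K v x ∈ v.adicCompletionIntegers K} ∈ 𝓝 (1 : Adl426 K) := by
  have hopen : ∀ v : HeightOneSpectrum (𝓞 K),
      IsOpen (v.adicCompletionIntegers K : Set (v.adicCompletion K)) :=
    fun v => Valued.isOpen_valuationSubring _
  have h1 : IsOpen {f : Πʳ v : HeightOneSpectrum (𝓞 K),
      [v.adicCompletion K, v.adicCompletionIntegers K] | ∀ v, f.1 v ∈ v.adicCompletionIntegers K} :=
    RestrictedProduct.isOpen_forall_mem hopen
  have h2 : Continuous (fun x : Adl426 K => x.2) := continuous_snd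
  have h3 : IsOpen {x : Adl426 K | ∀ v, pF426 K v x ∈ v.adicCompletionIntegers K} :=
    h1.preimage h2
  exact h3.mem_nhds (fun v => by
    rw [map_one]
    exact one_mem _)

end Glob

section Core
variable (K : Type) [Field K] [NumberField K]

/-- The entries of a torus matrix minus the identity, from the local entries. -/
theorem ent_matrix426 (t n : K) {N₀ : Set (Adl426 K)}
    (B : ∀ w : InfinitePlace K, Set w.Completion)
    (T : ∀ v : HeightOneSpectrum (𝓞 K), Set (v.adicCompletion K))
    (hBT : ∀ x : Adl426 K, (∀ w, pI426 K w x ∈ B w) → (∀ v, pF426 K v x ∈ T v) → x ∈ N₀)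
    (p q : Adl426 K)
    (hI : ∀ w, Ent426 (B w) (algebraMap K w.Completion t) (algebraMap K w.Completion n)
      (pI426 K w p) (pI426 K w q))
    (hF : ∀ v, Ent426 (T v) (algebraMap K (v.adicCompletion K) t)
      (algebraMap K (v.adicCompletion K) n) (pF426 K v p) (pF426 K v q))
    (i j : Fin 2) :
    (!![p, -(algebraMap K (Adl426 K) n * q); q, p + algebraMap K (Adl426 K) t * q] :
        Matrix (Fin 2) (Fin 2) (Adl426 K)) i j
      - (1 : Matrix (Fin 2) (Fin 2) (Adl426 K)) i j ∈ N₀ := by
  apply hBT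
  · intro w
    have h := hI w
    fin_cases i <;> fin_cases j
    · simpa [map_sub] using h.1
    · simpa [map_sub, map_neg, map_mul, pI426_algebraMap] using h.2.1
    · simpa [map_sub] using h.2.2.1
    · simpa [map_sub, map_add, map_mul, pI426_algebraMap] using h.2.2.2
  · intro v
    have h := hF v
    fin_cases i <;> fin_cases j
    · simpa [map_sub] using h.1
    · simpa [map_sub, map_neg, map_mul, pF426_algebraMap] using h.2.1
    · simpa [map_sub] using h.2.2.1
    · simpa [map_sub, map_add, map_mul, pF426_algebraMap] using h.2.2.2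

end Core

section Main
variable (K : Type) [Field K] [NumberField K]

/-- The good places of the quadratic form: `v ∤ 2`, `t`, `n` integral, discriminant a unit. -/
def Good426 (t n : K) (v : HeightOneSpectrum (𝓞 K)) : Prop :=
  Valued.v (algebraMap K (v.adicCompletion K) 2) = 1 ∧
  Valued.v (algebraMap K (v.adicCompletion K) t) ≤ 1 ∧
  Valued.v (algebraMap K (v.adicCompletion K) n) ≤ 1 ∧
  Valued.v (algebraMap K (v.adicCompletion K) (t ^ 2 - 4 * n)) = 1

theorem finite_not_good426 (t n : K) (hd : t ^ 2 - 4 * n ≠ 0) :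
    {v : HeightOneSpectrum (𝓞 K) | ¬ Good426 K t n v}.Finite := by
  have h1 := finite_valuation_ne_one426 K (2 : K) two_ne_zero
  have h2 := finite_valuation_not_le_one426 K t
  have h3 := finite_valuation_not_le_one426 K n
  have h4 := finite_valuation_ne_one426 K _ hd
  refine (((h1.union h2).union h3).union h4).subset ?_
  intro v hv
  have hv' : ¬ Good426 K t n v := hv
  unfold Good426 at hv'
  by_cases c1 : Valued.v (algebraMap K (v.adicCompletion K) 2) = 1
  · by_cases c2 : Valued.v (algebraMap K (v.adicCompletion K) t) ≤ 1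
    · by_cases c3 : Valued.v (algebraMap K (v.adicCompletion K) n) ≤ 1
      · right
        intro c4
        exact hv' ⟨c1, c2, c3, c4⟩
      · left; right; exact c3
    · left; left; right; exact c2
  · left; left; left; exact c1

/-- **Openness of the norm of the torus at the identity** (adelic form). -/
theorem torus_open_core426 (t n : K) (hd : t ^ 2 - 4 * n ≠ 0)
    {V : Set (GL (Fin 2) (Adl426 K))} (hV : V ∈ 𝓝 (1 : GL (Fin 2) (Adl426 K))) :
    ∃ W ∈ 𝓝 (1 : (Adl426 K)ˣ), ∀ u ∈ W, ∃ m ∈ V,
      (∃ a b : Adl426 K, (m : Matrix (Fin 2) (Fin 2) (Adl426 K))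
          = !![a, -(algebraMap K (Adl426 K) n * b); b, a + algebraMap K (Adl426 K) t * b]) ∧
      Matrix.GeneralLinearGroup.det m = u := by
  classical
  obtain ⟨N₀, hN₀, hN₀V⟩ := nhds_one_GL426 hV
  obtain ⟨B, I, N, hB, hN, hBN⟩ := nhds_zero_adl426 hN₀
  have hbad := finite_not_good426 K t n hd
  set I' : Finset (HeightOneSpectrum (𝓞 K)) := I ∪ hbad.toFinset with hI'
  set T : ∀ v : HeightOneSpectrum (𝓞 K), Set (v.adicCompletion K) :=
    fun v => (if v ∈ I then N v else Set.univ) ∩
      (v.adicCompletionIntegers K : Set (v.adicCompletion K)) with hTdef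
  have hT : ∀ v, T v ∈ 𝓝 (0 : v.adicCompletion K) := by
    intro v
    refine Filter.inter_mem ?_ ((Valued.isOpen_valuationSubring _).mem_nhds (zero_mem _))
    by_cases hv : v ∈ I
    · simp only [hv, if_true]; exact hN v
    · simp only [hv, if_false]; exact Filter.univ_mem
  have hBT : ∀ x : Adl426 K, (∀ w, pI426 K w x ∈ B w) → (∀ v, pF426 K v x ∈ T v) → x ∈ N₀ := by
    intro x h1 h2
    refine hBN x h1 (fun v => (h2 v).2) (fun v hv => ?_)
    have := (h2 v).1
    simpa [hv] using this
  have hspF : ∀ v : HeightOneSpectrum (𝓞 K), ∃ Y ∈ 𝓝 (1 : v.adicCompletion K), ∀ u ∈ Y,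
      ∃ a b : v.adicCompletion K, LocSol426 (T v) (algebraMap K (v.adicCompletion K) t)
        (algebraMap K (v.adicCompletion K) n) u a b :=
    fun v => locSol_special426 (fun N hN => sq_open_fin426 K v hN) _ _ (hT v)
  choose YF hYF hYFsol using hspF
  have hspI : ∀ w : InfinitePlace K, ∃ Y ∈ 𝓝 (1 : w.Completion), ∀ u ∈ Y,
      ∃ a b : w.Completion, LocSol426 (B w) (algebraMap K w.Completion t)
        (algebraMap K w.Completion n) u a b :=
    fun w => locSol_special426 (fun N hN => sq_open_inf426 K w hN) _ _ (hB w)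
  choose YI hYI hYIsol using hspI
  refine ⟨{u : (Adl426 K)ˣ | (∀ w, pI426 K w (u : Adl426 K) ∈ YI w) ∧
      (∀ v ∈ I', pF426 K v (u : Adl426 K) ∈ YF v) ∧
      (∀ v, pF426 K v (u : Adl426 K) ∈ v.adicCompletionIntegers K) ∧
      (∀ v, pF426 K v ((u⁻¹ : (Adl426 K)ˣ) : Adl426 K) ∈ v.adicCompletionIntegers K)}, ?_, ?_⟩
  · -- the set is a neighbourhood of `1`
    have c1 : Continuous (fun u : (Adl426 K)ˣ => (u : Adl426 K)) := Units.continuous_val
    have c2 : Continuous (fun u : (Adl426 K)ˣ => ((u⁻¹ : (Adl426 K)ˣ) : Adl426 K)) :=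
      Units.continuous_coe_inv
    have s1 : ∀ w : InfinitePlace K,
        {u : (Adl426 K)ˣ | pI426 K w (u : Adl426 K) ∈ YI w} ∈ 𝓝 (1 : (Adl426 K)ˣ) := by
      intro w
      have hc : ContinuousAt (fun u : (Adl426 K)ˣ => pI426 K w (u : Adl426 K)) 1 :=
        ((continuous_pI426 w).comp c1).continuousAt
      apply hc.preimage_mem_nhds
      simpa using hYI w
    have s2 : ∀ v : HeightOneSpectrum (𝓞 K),
        {u : (Adl426 K)ˣ | pF426 K v (u : Adl426 K) ∈ YF v} ∈ 𝓝 (1 : (Adl426 K)ˣ) := by
      intro v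
      have hc : ContinuousAt (fun u : (Adl426 K)ˣ => pF426 K v (u : Adl426 K)) 1 :=
        ((continuous_pF426 v).comp c1).continuousAt
      apply hc.preimage_mem_nhds
      simpa using hYF v
    have s3 : {u : (Adl426 K)ˣ | ∀ v, pF426 K v (u : Adl426 K) ∈ v.adicCompletionIntegers K}
        ∈ 𝓝 (1 : (Adl426 K)ˣ) := by
      have h := (c1.continuousAt (x := (1 : (Adl426 K)ˣ))).preimage_mem_nhds
        (t := {x : Adl426 K | ∀ v, pF426 K v x ∈ v.adicCompletionIntegers K})
        (by rw [Units.val_one]; exact integral_mem_nhds_one426)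
      exact h
    have s4 : {u : (Adl426 K)ˣ | ∀ v, pF426 K v ((u⁻¹ : (Adl426 K)ˣ) : Adl426 K)
        ∈ v.adicCompletionIntegers K} ∈ 𝓝 (1 : (Adl426 K)ˣ) := by
      have h := (c2.continuousAt (x := (1 : (Adl426 K)ˣ))).preimage_mem_nhds
        (t := {x : Adl426 K | ∀ v, pF426 K v x ∈ v.adicCompletionIntegers K})
        (by rw [inv_one, Units.val_one]; exact integral_mem_nhds_one426)
      exact h
    have s1' : (⋂ w : InfinitePlace K, {u : (Adl426 K)ˣ | pI426 K w (u : Adl426 K) ∈ YI w})
        ∈ 𝓝 (1 : (Adl426 K)ˣ) := (Filter.iInter_mem).2 s1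
    have s2' : (⋂ v ∈ I', {u : (Adl426 K)ˣ | pF426 K v (u : Adl426 K) ∈ YF v})
        ∈ 𝓝 (1 : (Adl426 K)ˣ) := (Filter.biInter_finset_mem I').2 (fun v _ => s2 v)
    filter_upwards [s1', s2', s3, s4] with u h1 h2 h3 h4
    refine ⟨fun w => ?_, fun v hv => ?_, h3, h4⟩
    · exact Set.mem_iInter.1 h1 w
    · exact Set.mem_iInter₂.1 h2 v hv
  · rintro u ⟨hu1, hu2, hu3, hu4⟩
    have hunit : ∀ v, Valued.v (pF426 K v (u : Adl426 K)) = 1 := by
      intro v
      have h3 := (HeightOneSpectrum.mem_adicCompletionIntegers (𝓞 K) K v).1 (hu3 v)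
      have h4 := (HeightOneSpectrum.mem_adicCompletionIntegers (𝓞 K) K v).1 (hu4 v)
      rw [pF426_inv, map_inv₀] at h4
      have hne : pF426 K v (u : Adl426 K) ≠ 0 := by
        intro h0
        have h : pF426 K v (u : Adl426 K) * pF426 K v ((u⁻¹ : (Adl426 K)ˣ) : Adl426 K) = 1 := by
          rw [← map_mul, Units.mul_inv, map_one]
        rw [h0, zero_mul] at h
        exact zero_ne_one h
      have hpos : 0 < Valued.v (pF426 K v (u : Adl426 K)) :=
        zero_lt_iff.2 ((Valuation.ne_zero_iff _).2 hne)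
      exact le_antisymm h3 ((inv_le_one₀ hpos).1 h4)
    have hF : ∀ v : HeightOneSpectrum (𝓞 K), ∃ a b : v.adicCompletion K,
        LocSol426 (T v) (algebraMap K (v.adicCompletion K) t)
          (algebraMap K (v.adicCompletion K) n) (pF426 K v (u : Adl426 K)) a b := by
      intro v
      by_cases hv : v ∈ I'
      · exact hYFsol v _ (hu2 v hv)
      · have hvI : v ∉ I := fun h => hv (Finset.mem_union_left _ h)
        have hgood : Good426 K t n v := by
          by_contra hg
          exact hv (Finset.mem_union_right _ (hbad.mem_toFinset.2 hg))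
        obtain ⟨h2, ht, hn, hdv⟩ := hgood
        have h2' : Valued.v (2 : v.adicCompletion K) = 1 := by
          rwa [map_ofNat] at h2
        have hd' : Valued.v ((algebraMap K (v.adicCompletion K) t) ^ 2
            - 4 * algebraMap K (v.adicCompletion K) n) = 1 := by
          rwa [map_sub, map_mul, map_pow, map_ofNat] at hdv
        obtain ⟨a, b, hab⟩ := locSol_good426 K v _ _ h2' ht hn hd' _ (hunit v)
        have hsub : (v.adicCompletionIntegers K : Set (v.adicCompletion K)) ⊆ T v := by
          intro x hx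
          refine Set.mem_inter ?_ hx
          simp only [hvI, if_false, Set.mem_univ]
        exact ⟨a, b, hab.mono hsub⟩
    choose af bf hf using hF
    have hI : ∀ w : InfinitePlace K, ∃ a b : w.Completion,
        LocSol426 (B w) (algebraMap K w.Completion t) (algebraMap K w.Completion n)
          (pI426 K w (u : Adl426 K)) a b := fun w => hYIsol w _ (hu1 w)
    choose ai bi hi using hI
    have haf : ∀ v, af v ∈ v.adicCompletionIntegers K := by
      intro v
      have h := (hf v).2.1.1.2
      have e : af v = (af v - 1) + 1 := by ring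
      rw [e]
      exact add_mem h (one_mem _)
    have hbf : ∀ v, bf v ∈ v.adicCompletionIntegers K := fun v => (hf v).2.1.2.2.1.2
    obtain ⟨a, ha⟩ : ∃ a : Adl426 K, a = mkAdl426 ai af haf := ⟨_, rfl⟩
    obtain ⟨b, hb⟩ : ∃ b : Adl426 K, b = mkAdl426 bi bf hbf := ⟨_, rfl⟩
    have haI : ∀ w, pI426 K w a = ai w := fun w => by rw [ha, pI426_mk]
    have haF : ∀ v, pF426 K v a = af v := fun v => by rw [ha, pF426_mk]
    have hbI : ∀ w, pI426 K w b = bi w := fun w => by rw [hb, pI426_mk]
    have hbF : ∀ v, pF426 K v b = bf v := fun v => by rw [hb, pF426_mk]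
    obtain ⟨ui, hui⟩ : ∃ ui : Adl426 K, ui = ((u⁻¹ : (Adl426 K)ˣ) : Adl426 K) := ⟨_, rfl⟩
    have huu : (u : Adl426 K) * ui = 1 := by rw [hui]; exact Units.mul_inv u
    have huiI : ∀ w, pI426 K w ui = (pI426 K w (u : Adl426 K))⁻¹ := fun w => by
      rw [hui, pI426_inv]
    have huiF : ∀ v, pF426 K v ui = (pF426 K v (u : Adl426 K))⁻¹ := fun v => by
      rw [hui, pF426_inv]
    have hQ : a * (a + algebraMap K (Adl426 K) t * b) + algebraMap K (Adl426 K) n * b * b
        = (u : Adl426 K) := by
      apply adl_ext426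
      · intro w
        rw [map_add, map_mul, map_add, map_mul, map_mul, map_mul, pI426_algebraMap,
          pI426_algebraMap, haI, hbI]
        exact (hi w).1
      · intro v
        rw [map_add, map_mul, map_add, map_mul, map_mul, map_mul, pF426_algebraMap,
          pF426_algebraMap, haF, hbF]
        exact (hf v).1
    have e1 : (a * (a + algebraMap K (Adl426 K) t * b) + algebraMap K (Adl426 K) n * b * b) * ui
        = 1 := by rw [hQ]; exact huu
    have h12 : (!![a, -(algebraMap K (Adl426 K) n * b); b, a + algebraMap K (Adl426 K) t * b] :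
          Matrix (Fin 2) (Fin 2) (Adl426 K))
        * !![(a + algebraMap K (Adl426 K) t * b) * ui,
              -(algebraMap K (Adl426 K) n * (-(b * ui)));
             -(b * ui),
              (a + algebraMap K (Adl426 K) t * b) * ui + algebraMap K (Adl426 K) t * (-(b * ui))]
        = 1 := by
      ext i j
      fin_cases i <;> fin_cases j
      · simp only [Matrix.mul_apply, Fin.sum_univ_two]
        simp
        linear_combination e1
      · simp only [Matrix.mul_apply, Fin.sum_univ_two]
        simp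
        ring
      · simp only [Matrix.mul_apply, Fin.sum_univ_two]
        simp
        ring
      · simp only [Matrix.mul_apply, Fin.sum_univ_two]
        simp
        linear_combination e1
    have h21 : (!![(a + algebraMap K (Adl426 K) t * b) * ui,
              -(algebraMap K (Adl426 K) n * (-(b * ui)));
             -(b * ui),
              (a + algebraMap K (Adl426 K) t * b) * ui + algebraMap K (Adl426 K) t * (-(b * ui))] :
          Matrix (Fin 2) (Fin 2) (Adl426 K))
        * !![a, -(algebraMap K (Adl426 K) n * b); b, a + algebraMap K (Adl426 K) t * b]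
        = 1 := by
      ext i j
      fin_cases i <;> fin_cases j
      · simp only [Matrix.mul_apply, Fin.sum_univ_two]
        simp
        linear_combination e1
      · simp only [Matrix.mul_apply, Fin.sum_univ_two]
        simp
        ring
      · simp only [Matrix.mul_apply, Fin.sum_univ_two]
        simp
        ring
      · simp only [Matrix.mul_apply, Fin.sum_univ_two]
        simp
        linear_combination e1
    refine ⟨⟨_, _, h12, h21⟩, ?_, ⟨a, b, rfl⟩, ?_⟩
    · apply hN₀V
      · intro i j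
        refine ent_matrix426 K t n B T hBT a b (fun w => ?_) (fun v => ?_) i j
        · rw [haI, hbI]; exact (hi w).2.1
        · rw [haF, hbF]; exact (hf v).2.1
      · intro i j
        refine ent_matrix426 K t n B T hBT _ _ (fun w => ?_) (fun v => ?_) i j
        · rw [map_mul, map_add, map_mul, map_neg, map_mul, pI426_algebraMap, haI, hbI, huiI]
          exact (hi w).2.2
        · rw [map_mul, map_add, map_mul, map_neg, map_mul, pF426_algebraMap, haF, hbF, huiF]
          exact (hf v).2.2
    · apply Units.ext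
      rw [Matrix.GeneralLinearGroup.val_det_apply]
      show Matrix.det (!![a, -(algebraMap K (Adl426 K) n * b); b,
        a + algebraMap K (Adl426 K) t * b] : Matrix (Fin 2) (Fin 2) (Adl426 K)) = (u : Adl426 K)
      rw [Matrix.det_fin_two_of]
      linear_combination hQ

end Main

end Fermat.Agent.LT.A2.H426

end

end
-- ===== PACK-END LT/A2/H426/TorusOpenCore.lean

-- ===== PACK-BEGIN LT/T1/H848/AddFundDom.lean
section



/-!
# Row LT, tower T1, sub-leaf T1.04 `LeafAddFundDom` (helper848)

OFF-MAIN.  `leafAddFundDom848 K : T1.LeafAddFundDom K`, i.e.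
`LocCompC K → AdeleLatticeC K → AddFundDomC K`, verbatim against `LT/T1/Spec.lean`
(helper54@675fbadd3).

Abstract core (`exists_strict_fundDom848`): a countable subgroup `Γ` of a Hausdorff topological
additive group `A` (Borel σ-algebra) which meets a neighbourhood of `0` in `{0}` only, and a
compact `C` with `Γ + C = A`: there is a Borel set `D ⊆ C` which contains exactly one point of
every coset `x + Γ`.  (Bourbaki, Intégration VII §2 no. 10; Weil BNT II §4 Lemma 1.)
Construction: `V` open with `(V - V) ∩ Γ = {0}`, `C ⊆ ⋃ i, (f i + V)` (finitely many points,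
enumerated by `ℕ`), `D = {x ∈ C | ∃ i, x ∈ f i + V ∧ ∀ j < i, ∀ γ ∈ Γ, γ + x ∉ (f j + V) ∩ C}`.
-/

set_option autoImplicit false
set_option linter.style.haveILetI false

open MeasureTheory Set Topology

noncomputable section

namespace Fermat.Agent.LT.T1.H848

section Abstract

variable {A : Type*} [AddCommGroup A] [TopologicalSpace A] [IsTopologicalAddGroup A]

/-- A subgroup meeting an open neighbourhood of `0` only in `0` has an open neighbourhood `V`
of `0` such that two points of a translate of `V` which are congruent modulo `Γ` are equal. -/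
theorem exists_open_sub_sep848 (Γ : AddSubgroup A) {U : Set A} (hU : IsOpen U) (h0 : (0 : A) ∈ U)
    (hUΓ : ∀ γ ∈ Γ, γ ∈ U → γ = 0) :
    ∃ V : Set A, IsOpen V ∧ (0 : A) ∈ V ∧
      ∀ a x y : A, x - a ∈ V → y - a ∈ V → x - y ∈ Γ → x = y := by
  have hcont : ContinuousAt (fun p : A × A => p.1 - p.2) ((0 : A), (0 : A)) :=
    (continuous_fst.sub continuous_snd).continuousAt
  have hmem : (fun p : A × A => p.1 - p.2) ⁻¹' U ∈ 𝓝 ((0 : A), (0 : A)) := by
    apply hcont
    simpa using hU.mem_nhds h0
  rw [nhds_prod_eq, Filter.mem_prod_iff] at hmem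
  obtain ⟨V₁, hV₁, V₂, hV₂, hsub⟩ := hmem
  obtain ⟨W, hWsub, hWo, hW0⟩ := mem_nhds_iff.mp (Filter.inter_mem hV₁ hV₂)
  refine ⟨W, hWo, hW0, ?_⟩
  intro a x y hx hy hxy
  have h1 : (x - a, y - a) ∈ V₁ ×ˢ V₂ := ⟨(hWsub hx).1, (hWsub hy).2⟩
  have h2 : (x - a) - (y - a) ∈ U := hsub h1
  have h3 : (x - a) - (y - a) = x - y := by abel
  rw [h3] at h2
  exact sub_eq_zero.mp (hUΓ _ hxy h2)

variable [MeasurableSpace A] [BorelSpace A] [T2Space A]

/-- **Strict Borel fundamental domain** inside a compact set whose translates cover. -/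
theorem exists_strict_fundDom848 (Γ : AddSubgroup A) [Countable Γ]
    {U : Set A} (hU : IsOpen U) (h0 : (0 : A) ∈ U) (hUΓ : ∀ γ ∈ Γ, γ ∈ U → γ = 0)
    {C : Set A} (hC : IsCompact C) (hcov : ∀ x : A, ∃ γ ∈ Γ, x - γ ∈ C) :
    ∃ D : Set A, MeasurableSet D ∧ D ⊆ C ∧ ∀ x : A, ∃! γ : Γ, γ +ᵥ x ∈ D := by
  obtain ⟨V, hVo, hV0, hVsep⟩ := exists_open_sub_sep848 Γ hU h0 hUΓ
  -- finitely many translates of `V` cover `C`
  obtain ⟨t, htC, htcov⟩ := hC.elim_nhds_subcover (fun a => {x | x - a ∈ V})
    (fun a _ => by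
      have ho : IsOpen {x : A | x - a ∈ V} := hVo.preimage (continuous_id.sub continuous_const)
      exact ho.mem_nhds (by simpa using hV0))
  have hCne : C.Nonempty := by
    obtain ⟨γ, _, hγ⟩ := hcov 0
    exact ⟨_, hγ⟩
  have htne : (t : Set A).Nonempty := by
    obtain ⟨c, hc⟩ := hCne
    have := htcov hc
    simp only [mem_iUnion] at this
    obtain ⟨a, ha, _⟩ := this
    exact ⟨a, ha⟩
  obtain ⟨f, hf⟩ := (t.countable_toSet).exists_eq_range htne
  -- the pieces
  set W : ℕ → Set A := fun i => {x | x - f i ∈ V} with hW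
  have hWo : ∀ i, IsOpen (W i) := fun i => hVo.preimage (continuous_id.sub continuous_const)
  have hCW : ∀ c ∈ C, ∃ i, c ∈ W i := by
    intro c hc
    have := htcov hc
    simp only [mem_iUnion] at this
    obtain ⟨a, ha, hca⟩ := this
    have ha' : a ∈ (t : Set A) := ha
    rw [hf] at ha'
    obtain ⟨i, rfl⟩ := ha'
    exact ⟨i, hca⟩
  have hCm : MeasurableSet C := hC.isClosed.measurableSet
  set D : Set A := {x | x ∈ C ∧ ∃ i, x ∈ W i ∧ ∀ j < i, ∀ γ : Γ, ((γ : A) + x) ∉ W j ∩ C} with hD
  have hDm : MeasurableSet D := by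
    have hD' : D = C ∩ ⋃ i, (W i ∩ ⋂ j, ⋂ (_ : j < i), ⋂ γ : Γ,
        ((fun x : A => (γ : A) + x) ⁻¹' (W j ∩ C))ᶜ) := by
      ext x
      simp only [hD, mem_ofPred_eq, mem_inter_iff, mem_iUnion, mem_iInter, mem_compl_iff,
        mem_preimage, not_and]
    rw [hD']
    refine hCm.inter (MeasurableSet.iUnion fun i => (hWo i).measurableSet.inter ?_)
    refine MeasurableSet.iInter fun j => MeasurableSet.iInter fun _ =>
      MeasurableSet.iInter fun γ => MeasurableSet.compl ?_
    exact ((continuous_const.add continuous_id).measurable) ((hWo j).measurableSet.inter hCm)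
  refine ⟨D, hDm, fun x hx => hx.1, ?_⟩
  -- two congruent points of `D` are equal
  have huniq : ∀ d d' : A, d ∈ D → d' ∈ D → d' - d ∈ Γ → d' = d := by
    intro d d' hd hd' hγ
    obtain ⟨hdC, i, hdi, hdmin⟩ := hd
    obtain ⟨hd'C, i', hd'i, hd'min⟩ := hd'
    have hii' : i = i' := by
      rcases lt_trichotomy i i' with h | h | h
      · exfalso
        refine hd'min i h ⟨d - d', ?_⟩ ⟨?_, ?_⟩
        · have : d - d' = -(d' - d) := by abel
          rw [this]; exact Γ.neg_mem hγ
        · simpa using hdi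
        · simpa using hdC
      · exact h
      · exfalso
        refine hdmin i' h ⟨d' - d, hγ⟩ ⟨?_, ?_⟩
        · simpa using hd'i
        · simpa using hd'C
    subst hii'
    exact hVsep (f i) d' d hd'i hdi hγ
  intro x
  -- existence
  have hI : ∃ i, ∃ γ : Γ, ((γ : A) + x) ∈ W i ∩ C := by
    obtain ⟨γ, hγ, hxγ⟩ := hcov x
    obtain ⟨i, hi⟩ := hCW _ hxγ
    refine ⟨i, ⟨-γ, Γ.neg_mem hγ⟩, ?_⟩
    have : (-γ) + x = x - γ := by abel
    simp only [this]
    exact ⟨hi, hxγ⟩
  classical
  obtain ⟨γ₀, hγ₀⟩ := Nat.find_spec hI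
  have hmin : ∀ j < Nat.find hI, ¬ ∃ γ : Γ, ((γ : A) + x) ∈ W j ∩ C := fun j hj => Nat.find_min hI hj
  have hmem : γ₀ +ᵥ x ∈ D := by
    refine ⟨hγ₀.2, Nat.find hI, hγ₀.1, ?_⟩
    intro j hj γ hγ
    apply hmin j hj
    refine ⟨γ + γ₀, ?_⟩
    have : ((γ + γ₀ : Γ) : A) + x = (γ : A) + ((γ₀ : A) + x) := by push_cast; abel
    rw [this]
    exact hγ
  refine ⟨γ₀, hmem, ?_⟩
  intro γ hγ
  have hmem' : (γ₀ : A) + x ∈ D := hmem
  have hγ' : (γ : A) + x ∈ D := hγ
  have h1 : (γ : A) + x = (γ₀ : A) + x := by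
    apply huniq _ _ hmem' hγ'
    have : (γ : A) + x - ((γ₀ : A) + x) = ((γ - γ₀ : Γ) : A) := by push_cast; abel
    rw [this]
    exact (γ - γ₀).2
  exact Subtype.ext (add_right_cancel h1)

end Abstract

section Adelic

open IsDedekindDomain NumberField
open Fermat.Agent.LT.H556.A0 Fermat.Agent.LT.T1

variable (K : Type) [Field K] [NumberField K]

/-- A number field is countable (finite-dimensional over `ℚ`). -/
theorem countable_numberField848 : Countable K := by
  have e : K ≃ₗ[ℚ] (Fin (Module.finrank ℚ K) → ℚ) := (Module.finBasis ℚ K).equivFun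
  exact e.toEquiv.injective.countable

/-- The principal adeles are countable. -/
theorem countable_princ848 : Countable (princ K) := by
  haveI := countable_numberField848 K
  exact (AddMonoidHom.rangeRestrict_surjective
    ((algebraMap K (Adl K)).toAddMonoidHom)).countable

/-- **T1.04** `LeafAddFundDom`, verbatim against `LT/T1/Spec.lean` (helper54@675fbadd3). -/
theorem leafAddFundDom848 : LeafAddFundDom K := by
  intro hLC hAL
  obtain ⟨⟨_, ht2, _⟩, -⟩ := hLC
  obtain ⟨hdisc, -, C, hC, hcov⟩ := hAL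
  letI : MeasurableSpace (Adl K) := borel (Adl K)
  haveI : BorelSpace (Adl K) := ⟨rfl⟩
  haveI := countable_princ848 K
  intro μ hμ
  haveI : μ.IsAddHaarMeasure := hμ
  -- an open neighbourhood of `0` meeting `princ K` in `{0}`
  obtain ⟨U, hUo, hUeq⟩ := isOpen_induced_iff.mp (isOpen_discrete ({0} : Set (princ K)))
  have h0U : (0 : Adl K) ∈ U := by
    have : (0 : princ K) ∈ Subtype.val ⁻¹' U := by rw [hUeq]; rfl
    exact this
  have hUΓ : ∀ γ ∈ princ K, γ ∈ U → γ = 0 := by
    intro γ hγ hγU
    have : (⟨γ, hγ⟩ : princ K) ∈ Subtype.val ⁻¹' U := hγU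
    rw [hUeq] at this
    exact congrArg Subtype.val (Set.mem_singleton_iff.mp this)
  have hcov' : ∀ x : Adl K, ∃ γ ∈ princ K, x - γ ∈ C := by
    intro x
    obtain ⟨ξ, hξ⟩ := hcov x
    exact ⟨algebraMap K (Adl K) ξ, ⟨ξ, rfl⟩, hξ⟩
  obtain ⟨D, hDm, hDC, hDex⟩ := exists_strict_fundDom848 (princ K) hUo h0U hUΓ hC hcov'
  have hfd : IsAddFundamentalDomain (princ K) D μ :=
    IsAddFundamentalDomain.mk' hDm.nullMeasurableSet hDex
  refine ⟨D, hDm, hfd, ?_, ?_, ?_⟩
  · exact hC.of_isClosed_subset isClosed_closure (closure_minimal hDC hC.isClosed)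
  · have hne : μ ≠ 0 := NeZero.ne μ
    exact pos_iff_ne_zero.mpr (hfd.measure_ne_zero hne)
  · exact lt_of_le_of_lt (measure_mono hDC) hC.measure_lt_top

end Adelic

end Fermat.Agent.LT.T1.H848

end

end
-- ===== PACK-END LT/T1/H848/AddFundDom.lean

-- ===== PACK-BEGIN LT/T1/H849/ScaleFin.lean
section




/-!
# Row LT, tower T1, asset SCALE (helper849), part 2: the module of `K_v`, `v` finite

OFF-MAIN.  Mathlib + byte-identical copies of `LT/H11/{LC,SC}.lean` (helper11).

For a number field `K`, a finite place `v` and `F = v.adicCompletion K`: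
`distribHaarChar_adicCompletion849 : distribHaarChar F y = ‖y‖₊` for every `y : Fˣ`, i.e. every
Haar measure `ν` of `K_v` satisfies `ν (y • S) = ‖y‖ ν S`, with the NORMALISED absolute value
(`‖ϖ‖ = 1 / N(v)`, Mathlib's `NumberField.instNormedFieldValuedAdicCompletion`).
Proof: `𝒪_v` is the disjoint union of `N(v)` translates of `ϖ 𝒪_v`.
-/

set_option autoImplicit false
set_option linter.unusedSectionVars false

open IsDedekindDomain NumberField MeasureTheory MeasureTheory.Measure
open scoped NNReal ENNReal Pointwise WithZero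

namespace Fermat.Agent.LT.T1.H849

open Fermat.Agent.LT.H11.LC Fermat.Agent.LT.H11.SC

section Local

variable (K : Type*) [Field K] [NumberField K] (v : HeightOneSpectrum (𝓞 K))

/-- The closed unit ball `𝒪_v` of `K_v`, as a set. -/
def intBall849 : Set (v.adicCompletion K) := {x | Valued.v x ≤ 1}

/-- The open unit ball `𝔪_v` of `K_v`, as a set. -/
def maxBall849 : Set (v.adicCompletion K) := {x | Valued.v x < 1}

lemma intBall849_eq : intBall849 K v = (v.adicCompletionIntegers K : Set (v.adicCompletion K)) := by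
  ext x
  exact (HeightOneSpectrum.mem_adicCompletionIntegers (𝓞 K) K v).symm

lemma isCompact_intBall849 : IsCompact (intBall849 K v) := by
  rw [intBall849_eq]
  exact isCompact_integers_h11 K v

lemma isOpen_intBall849 : IsOpen (intBall849 K v) := by
  rw [intBall849_eq]
  exact Valued.isOpen_valuationSubring _

lemma isOpen_maxBall849 : IsOpen (maxBall849 K v) := isOpen_valued_lt_one_h11 K v

lemma zero_mem_intBall849 : (0 : v.adicCompletion K) ∈ intBall849 K v := by
  simp [intBall849]

lemma interior_intBall849_nonempty : (interior (intBall849 K v)).Nonempty := by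
  rw [(isOpen_intBall849 K v).interior_eq]
  exact ⟨0, zero_mem_intBall849 K v⟩

/-- Valuation of the image of an integer of `K`. -/
lemma valued_algebraMap_int849 (a : 𝓞 K) :
    Valued.v (algebraMap (𝓞 K) (v.adicCompletion K) a) = v.intValuation a := by
  have h3 : Valued.v (algebraMap (𝓞 K) (v.adicCompletion K) a)
      = v.valuation K (algebraMap (𝓞 K) K a) :=
    HeightOneSpectrum.valuedAdicCompletion_eq_valuation (K := K) v a
  rw [h3, HeightOneSpectrum.valuation_of_algebraMap]

lemma valued_algebraMap_int_le849 (a : 𝓞 K) :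
    Valued.v (algebraMap (𝓞 K) (v.adicCompletion K) a) ≤ 1 := by
  rw [valued_algebraMap_int849]
  exact HeightOneSpectrum.intValuation_le_one v a

lemma valued_algebraMap_int_lt849 (a : 𝓞 K) :
    Valued.v (algebraMap (𝓞 K) (v.adicCompletion K) a) < 1 ↔ a ∈ v.asIdeal := by
  rw [valued_algebraMap_int849]
  exact HeightOneSpectrum.intValuation_lt_one_iff_mem v a

/-- The translate `c + 𝔪_v`. -/
def coset849 (c : v.adicCompletion K) : Set (v.adicCompletion K) := {x | Valued.v (x - c) < 1}

lemma coset849_eq_preimage (c : v.adicCompletion K) :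
    coset849 K v c = (fun x => -c + x) ⁻¹' maxBall849 K v := by
  ext x
  simp only [coset849, maxBall849, Set.mem_ofPred_eq, Set.mem_preimage]
  rw [show -c + x = x - c by ring]

lemma isOpen_coset849 (c : v.adicCompletion K) : IsOpen (coset849 K v c) := by
  rw [coset849_eq_preimage]
  exact (isOpen_maxBall849 K v).preimage (continuous_const.add continuous_id)

/-- Representatives of the residue classes. -/
noncomputable def rep849 (r : 𝓞 K ⧸ v.asIdeal) : v.adicCompletion K :=
  algebraMap (𝓞 K) (v.adicCompletion K) (Function.surjInv Ideal.Quotient.mk_surjective r)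

lemma rep849_le (r : 𝓞 K ⧸ v.asIdeal) : Valued.v (rep849 K v r) ≤ 1 :=
  valued_algebraMap_int_le849 K v _

lemma intBall849_eq_iUnion :
    intBall849 K v = ⋃ r : 𝓞 K ⧸ v.asIdeal, coset849 K v (rep849 K v r) := by
  ext x
  simp only [Set.mem_iUnion]
  constructor
  · intro hx
    obtain ⟨a, ha⟩ := exists_valued_sub_algebraMap_lt_one_h11 K v x hx
    refine ⟨Ideal.Quotient.mk v.asIdeal a, ?_⟩
    have h1 : Ideal.Quotient.mk v.asIdeal
        (Function.surjInv Ideal.Quotient.mk_surjective (Ideal.Quotient.mk v.asIdeal a))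
        = Ideal.Quotient.mk v.asIdeal a := Function.surjInv_eq _ _
    have h2 : a - Function.surjInv Ideal.Quotient.mk_surjective (Ideal.Quotient.mk v.asIdeal a)
        ∈ v.asIdeal := by
      rw [← Ideal.Quotient.eq]; exact h1.symm
    have h3 := (valued_algebraMap_int_lt849 K v _).2 h2
    rw [map_sub] at h3
    have e : x - rep849 K v (Ideal.Quotient.mk v.asIdeal a)
        = (x - algebraMap (𝓞 K) (v.adicCompletion K) a)
          + (algebraMap (𝓞 K) (v.adicCompletion K) a - rep849 K v (Ideal.Quotient.mk v.asIdeal a)) := by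
      ring
    show Valued.v (x - rep849 K v (Ideal.Quotient.mk v.asIdeal a)) < 1
    rw [e]
    exact lt_of_le_of_lt (Valuation.map_add _ _ _) (max_lt ha h3)
  · rintro ⟨r, hr⟩
    have e : x = (x - rep849 K v r) + rep849 K v r := by ring
    show Valued.v x ≤ 1
    rw [e]
    exact le_trans (Valuation.map_add _ _ _) (max_le (le_of_lt hr) (rep849_le K v r))

lemma coset849_disjoint : Pairwise (Function.onFun Disjoint
    (fun r : 𝓞 K ⧸ v.asIdeal => coset849 K v (rep849 K v r))) := by
  intro r r' hrr'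
  rw [Function.onFun, Set.disjoint_left]
  intro x hx hx'
  apply hrr'
  have h1 : Valued.v (rep849 K v r - rep849 K v r') < 1 := by
    have e : rep849 K v r - rep849 K v r' = (x - rep849 K v r') - (x - rep849 K v r) := by ring
    rw [e]
    exact lt_of_le_of_lt (Valuation.map_sub _ _ _) (max_lt hx' hx)
  rw [rep849, rep849, ← map_sub, valued_algebraMap_int_lt849, ← Ideal.Quotient.eq] at h1
  have e1 := Function.surjInv_eq (Ideal.Quotient.mk_surjective (I := v.asIdeal)) r
  have e2 := Function.surjInv_eq (Ideal.Quotient.mk_surjective (I := v.asIdeal)) r'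
  rw [← e1, ← e2]
  exact h1

variable [MeasurableSpace (v.adicCompletion K)] [BorelSpace (v.adicCompletion K)]

/-- `ν(𝒪_v) = N(v) ν(𝔪_v)` for every translation invariant measure. -/
lemma measure_intBall849 (ν : Measure (v.adicCompletion K)) [IsAddLeftInvariant ν] :
    ν (intBall849 K v) = (Ideal.absNorm v.asIdeal : ℝ≥0∞) * ν (maxBall849 K v) := by
  have hfin : Finite (𝓞 K ⧸ v.asIdeal) := Ideal.finiteQuotientOfFreeOfNeBot v.asIdeal v.ne_bot
  have := Fintype.ofFinite (𝓞 K ⧸ v.asIdeal)
  rw [intBall849_eq_iUnion, measure_iUnion (coset849_disjoint K v)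
    (fun r => (isOpen_coset849 K v _).measurableSet)]
  have hc : ∀ r : 𝓞 K ⧸ v.asIdeal, ν (coset849 K v (rep849 K v r)) = ν (maxBall849 K v) := by
    intro r
    rw [coset849_eq_preimage, measure_preimage_add]
  simp_rw [hc]
  rw [tsum_fintype, Finset.sum_const, Finset.card_univ, nsmul_eq_mul]
  congr 2
  rw [Ideal.absNorm_apply, Submodule.cardQuot_apply, Nat.card_eq_fintype_card]

end Local

section Char

variable (K : Type*) [Field K] [NumberField K] (v : HeightOneSpectrum (𝓞 K))

lemma valued_units_ne_zero849 (y : (v.adicCompletion K)ˣ) :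
    Valued.v (y : v.adicCompletion K) ≠ 0 :=
  (Valuation.ne_zero_iff _).2 y.ne_zero

lemma mem_smul_iff849 (y : (v.adicCompletion K)ˣ) (S : Set (v.adicCompletion K))
    (x : v.adicCompletion K) :
    x ∈ y • S ↔ ((y⁻¹ : (v.adicCompletion K)ˣ) : v.adicCompletion K) * x ∈ S := by
  rw [Set.mem_smul_set_iff_inv_smul_mem, Units.smul_def, smul_eq_mul]

lemma smul_intBall_of_valued_eq_one849 (u : (v.adicCompletion K)ˣ)
    (hu : Valued.v (u : v.adicCompletion K) = 1) : u • intBall849 K v = intBall849 K v := by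
  ext x
  rw [mem_smul_iff849]
  simp only [intBall849, Set.mem_ofPred_eq, Valuation.map_mul, Units.val_inv_eq_inv_val,
    map_inv₀, hu, inv_one, one_mul]

lemma lt_one_iff_le_exp849 (a : ℤᵐ⁰) : a < 1 ↔ a ≤ WithZero.exp (-1 : ℤ) := by
  by_cases ha : a = 0
  · subst ha
    simp
  · rw [← WithZero.exp_log ha, ← WithZero.exp_zero, WithZero.exp_lt_exp, WithZero.exp_le_exp]
    omega

lemma smul_intBall_uniformizer849 (ϖ : (v.adicCompletion K)ˣ)
    (hϖ : Valued.v (ϖ : v.adicCompletion K) = WithZero.exp (-1 : ℤ)) :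
    ϖ • intBall849 K v = maxBall849 K v := by
  ext x
  rw [mem_smul_iff849]
  simp only [intBall849, maxBall849, Set.mem_ofPred_eq, Valuation.map_mul,
    Units.val_inv_eq_inv_val, map_inv₀, hϖ]
  rw [lt_one_iff_le_exp849, inv_mul_le_iff₀ (by simp), mul_one]

/-- A uniformiser of `K_v`, as a unit. -/
lemma exists_uniformizer_unit849 :
    ∃ ϖ : (v.adicCompletion K)ˣ, Valued.v (ϖ : v.adicCompletion K) = WithZero.exp (-1 : ℤ) := by
  obtain ⟨π, hπ⟩ := v.valuation_exists_uniformizer K
  have h1 : Valued.v (algebraMap K (v.adicCompletion K) π) = WithZero.exp (-1 : ℤ) := by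
    rw [← hπ]
    exact HeightOneSpectrum.valuedAdicCompletion_eq_valuation' v π
  have h0 : algebraMap K (v.adicCompletion K) π ≠ 0 := by
    intro h
    rw [h, Valuation.map_zero] at h1
    exact WithZero.exp_ne_zero h1.symm
  exact ⟨Units.mk0 _ h0, h1⟩

variable [LocallyCompactSpace (v.adicCompletion K)]

lemma addHaar_intBall_ne_zero849 [MeasurableSpace (v.adicCompletion K)]
    [BorelSpace (v.adicCompletion K)] (ν : Measure (v.adicCompletion K)) [IsAddHaarMeasure ν] :
    ν (intBall849 K v) ≠ 0 :=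
  ((isOpen_intBall849 K v).measure_pos ν ⟨0, zero_mem_intBall849 K v⟩).ne'

lemma addHaar_intBall_ne_top849 [MeasurableSpace (v.adicCompletion K)]
    [BorelSpace (v.adicCompletion K)] (ν : Measure (v.adicCompletion K)) [IsAddHaarMeasure ν] :
    ν (intBall849 K v) ≠ ∞ :=
  (isCompact_intBall849 K v).measure_lt_top.ne

lemma distribHaarChar_of_valued_eq_one849 (u : (v.adicCompletion K)ˣ)
    (hu : Valued.v (u : v.adicCompletion K) = 1) :
    distribHaarChar (v.adicCompletion K) u = 1 := by
  borelize (v.adicCompletion K)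
  refine distribHaarChar_eq_of_measure_smul_eq_mul (μ := (addHaar : Measure (v.adicCompletion K)))
    (s := intBall849 K v) (addHaar_intBall_ne_zero849 K v _) (addHaar_intBall_ne_top849 K v _) ?_
  rw [smul_intBall_of_valued_eq_one849 K v u hu]
  simp

lemma absNorm_nnreal_ne_zero849 : (Ideal.absNorm v.asIdeal : ℝ≥0) ≠ 0 :=
  HeightOneSpectrum.absNorm_ne_zero v

lemma distribHaarChar_uniformizer849 (ϖ : (v.adicCompletion K)ˣ)
    (hϖ : Valued.v (ϖ : v.adicCompletion K) = WithZero.exp (-1 : ℤ)) :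
    distribHaarChar (v.adicCompletion K) ϖ = (Ideal.absNorm v.asIdeal : ℝ≥0)⁻¹ := by
  borelize (v.adicCompletion K)
  refine distribHaarChar_eq_of_measure_smul_eq_mul (μ := (addHaar : Measure (v.adicCompletion K)))
    (s := intBall849 K v) (addHaar_intBall_ne_zero849 K v _) (addHaar_intBall_ne_top849 K v _) ?_
  rw [smul_intBall_uniformizer849 K v ϖ hϖ, measure_intBall849 K v addHaar,
    ENNReal.coe_inv (absNorm_nnreal_ne_zero849 K v), ← mul_assoc]
  have hq : ((Ideal.absNorm v.asIdeal : ℝ≥0) : ℝ≥0∞) = (Ideal.absNorm v.asIdeal : ℝ≥0∞) := by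
    simp
  rw [hq, ENNReal.inv_mul_cancel (by
    simpa using (Ideal.absNorm_ne_zero_iff _).2
      (Ideal.finiteQuotientOfFreeOfNeBot v.asIdeal v.ne_bot)) (by simp), one_mul]

/-- The normalised absolute value, in terms of the valuation. -/
lemma nnnorm_eq849 (x : v.adicCompletion K) :
    ‖x‖₊ = WithZeroMulInt.toNNReal (HeightOneSpectrum.absNorm_ne_zero v) (Valued.v x) :=
  NNReal.coe_injective (FinitePlace.norm_def v x)

/-- **The module of `K_v`**: `distribHaarChar K_v y = ‖y‖_v` (normalised absolute value). -/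
theorem distribHaarChar_adicCompletion849 (y : (v.adicCompletion K)ˣ) :
    distribHaarChar (v.adicCompletion K) y = ‖(y : v.adicCompletion K)‖₊ := by
  obtain ⟨ϖ, hϖ⟩ := exists_uniformizer_unit849 K v
  have hy0 := valued_units_ne_zero849 K v y
  set n : ℤ := WithZero.log (Valued.v (y : v.adicCompletion K)) with hn
  have hyn : Valued.v (y : v.adicCompletion K) = WithZero.exp n := (WithZero.exp_log hy0).symm
  -- `u = y ϖ^n` is a unit of `𝒪_v`
  have hu : Valued.v ((y * ϖ ^ n : (v.adicCompletion K)ˣ) : v.adicCompletion K) = 1 := by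
    rw [Units.val_mul, Units.val_zpow_eq_zpow_val, Valuation.map_mul, map_zpow₀, hϖ, hyn,
      ← WithZero.exp_zsmul, ← WithZero.exp_add]
    simp
  have h1 := distribHaarChar_of_valued_eq_one849 K v _ hu
  rw [map_mul, map_zpow, distribHaarChar_uniformizer849 K v ϖ hϖ] at h1
  have hq0 := absNorm_nnreal_ne_zero849 K v
  have h2 : distribHaarChar (v.adicCompletion K) y = (Ideal.absNorm v.asIdeal : ℝ≥0) ^ n := by
    have h3 : ((Ideal.absNorm v.asIdeal : ℝ≥0)⁻¹) ^ n ≠ 0 := zpow_ne_zero _ (inv_ne_zero hq0)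
    have := eq_div_of_mul_eq h3 h1
    rw [this, inv_zpow, one_div, inv_inv]
  rw [h2, nnnorm_eq849, WithZeroMulInt.toNNReal_neg_apply _ hy0]
  congr 1
  simp only [hyn]
  rfl

end Char

end Fermat.Agent.LT.T1.H849

end
-- ===== PACK-END LT/T1/H849/ScaleFin.lean

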