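import Mathlib
import Fermat.Agent.Pack.LT2.E0L2
import Fermat.Agent.Pack.LT2.E1L2
import Fermat.Agent.Pack.LT2.E2L1
import Fermat.Agent.Pack.LT2.E0L1
import Fermat.Agent.Pack.LT2.E2L2
import Fermat.Agent.Pack.LT2.E3L1
import Fermat.Agent.Pack.LT2.E3L2
import Fermat.Agent.Pack.LT2.E1L0
import Fermat.Agent.Pack.LT2.E4L1

set_option linter.all false

-- ===== PACK-BEGIN LT/T1/H793/IwasawaAdelic.lean
section





/-!
# Row LT, tower T1 (helper793, OFF-MAIN): the Iwasawa decomposition of `GL₂(𝔸_K)`

`iwasawaAdelic793`: every `g ∈ GL₂(𝔸_K)` is `b · k` with `b` upper triangular and `k` in the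
standard maximal compact subgroup: `k_v ∈ GL₂(𝒪_v)` at every finite place, `k_w ∈ SO(2)` at the
real places and `k_w ∈ SU(2)` at the complex places (in the vocabulary of `LT/H556/A0.lean`:
`IsIntegralAt`, `infComp`).
-/

set_option autoImplicit false

open IsDedekindDomain NumberField
open Fermat.Agent.LT.H556.A0

noncomputable section

namespace Fermat.Agent.LT.T1.H793

variable {K : Type} [Field K] [NumberField K]

/-- Local Iwasawa decomposition at a finite place. -/
lemma iwasawaFin793 (v : HeightOneSpectrum (𝓞 K)) (g : GL (Fin 2) (v.adicCompletion K)) :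
    ∃ k : GL (Fin 2) (v.adicCompletion K),
      ((g * k⁻¹ : GL (Fin 2) (v.adicCompletion K)) :
        Matrix (Fin 2) (Fin 2) (v.adicCompletion K)) 1 0 = 0 ∧
      (∀ i j, (k : Matrix (Fin 2) (Fin 2) (v.adicCompletion K)) i j
        ∈ v.adicCompletionIntegers K) ∧
      (∀ i j, ((k⁻¹ : GL (Fin 2) (v.adicCompletion K)) :
        Matrix (Fin 2) (Fin 2) (v.adicCompletion K)) i j ∈ v.adicCompletionIntegers K) := by
  obtain ⟨b, k, hg, hb, hk, hk'⟩ := iwasawaVal793 (v.adicCompletionIntegers K) g
  refine ⟨k, ?_, hk, hk'⟩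
  have : g * k⁻¹ = b := by rw [hg]; group
  rw [this]; exact hb

/-- Transport of an element of `GL₂` along a ring isomorphism and back. -/
lemma map_symm_map793 {A B : Type*} [CommRing A] [CommRing B] (e : A ≃+* B)
    (k : GL (Fin 2) B) :
    Matrix.GeneralLinearGroup.map (e : A →+* B)
      (Matrix.GeneralLinearGroup.map (e.symm : B →+* A) k) = k := by
  apply Units.ext
  ext i j
  simp [Matrix.GeneralLinearGroup.map]

/-- An entry of the image under `GL₂(e)`. -/
lemma map_coe_apply793 {A B : Type*} [CommRing A] [CommRing B] (e : A →+* B)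
    (k : GL (Fin 2) A) (i j : Fin 2) :
    ((Matrix.GeneralLinearGroup.map e k : GL (Fin 2) B) : Matrix (Fin 2) (Fin 2) B) i j
      = e ((k : Matrix (Fin 2) (Fin 2) A) i j) := rfl

/-- Local Iwasawa decomposition at an infinite place. -/
lemma iwasawaInf793 (w : InfinitePlace K) (g : GL (Fin 2) w.Completion) :
    ∃ k : GL (Fin 2) w.Completion,
      ((g * k⁻¹ : GL (Fin 2) w.Completion) : Matrix (Fin 2) (Fin 2) w.Completion) 1 0 = 0 ∧
      ((k : Matrix (Fin 2) (Fin 2) w.Completion).map
          (InfinitePlace.Completion.extensionEmbedding w))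
        * ((k : Matrix (Fin 2) (Fin 2) w.Completion).map
          (InfinitePlace.Completion.extensionEmbedding w)).conjTranspose = 1 ∧
      (w.IsReal → ((k : Matrix (Fin 2) (Fin 2) w.Completion).map
          (InfinitePlace.Completion.extensionEmbedding w)).det = 1) := by
  rcases w.isReal_or_isComplex with hw | hw
  · -- real place
    set e := InfinitePlace.Completion.ringEquivRealOfIsReal hw with he
    obtain ⟨b, kR, hg, hb, hk, hdet⟩ :=
      iwasawaReal793 (Matrix.GeneralLinearGroup.map (e : w.Completion →+* ℝ) g)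
    set k : GL (Fin 2) w.Completion :=
      Matrix.GeneralLinearGroup.map (e.symm : ℝ →+* w.Completion) kR with hk0
    have hek : Matrix.GeneralLinearGroup.map (e : w.Completion →+* ℝ) k = kR :=
      map_symm_map793 e kR
    have hmap : (k : Matrix (Fin 2) (Fin 2) w.Completion).map
        (InfinitePlace.Completion.extensionEmbedding w)
        = (kR : Matrix (Fin 2) (Fin 2) ℝ).map (algebraMap ℝ ℂ) := by
      ext i j
      rw [Matrix.map_apply, Matrix.map_apply, ← hek, map_coe_apply793]
      rw [← InfinitePlace.Completion.extensionEmbeddingOfIsReal_apply hw]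
      rfl
    refine ⟨k, ?_, ?_, ?_⟩
    · have h1 : Matrix.GeneralLinearGroup.map (e : w.Completion →+* ℝ) (g * k⁻¹) = b := by
        rw [map_mul, map_inv, hek, hg]; group
      have h2 := map_coe_apply793 (e : w.Completion →+* ℝ) (g * k⁻¹) 1 0
      rw [h1, hb] at h2
      have h3 : e (((g * k⁻¹ : GL (Fin 2) w.Completion) :
          Matrix (Fin 2) (Fin 2) w.Completion) 1 0) = 0 := h2.symm
      exact (map_eq_zero_iff e e.injective).mp h3
    · rw [hmap]
      have : ((kR : Matrix (Fin 2) (Fin 2) ℝ).map (algebraMap ℝ ℂ)).conjTranspose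
          = ((kR : Matrix (Fin 2) (Fin 2) ℝ).transpose).map (algebraMap ℝ ℂ) := by
        ext i j
        simp [Matrix.conjTranspose_apply, Matrix.map_apply, Matrix.transpose_apply]
      rw [this, ← Matrix.map_mul (f := algebraMap ℝ ℂ), hk,
        Matrix.map_one _ (map_zero _) (map_one _)]
    · intro _
      rw [hmap]
      have := (RingHom.map_det (algebraMap ℝ ℂ) (kR : Matrix (Fin 2) (Fin 2) ℝ)).symm
      rw [RingHom.mapMatrix_apply] at this
      rw [this, hdet, map_one]
  · -- complex place
    set e := InfinitePlace.Completion.ringEquivComplexOfIsComplex hw with he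
    obtain ⟨b, kC, hg, hb, hk, hdet⟩ :=
      iwasawaComplex793 (Matrix.GeneralLinearGroup.map (e : w.Completion →+* ℂ) g)
    set k : GL (Fin 2) w.Completion :=
      Matrix.GeneralLinearGroup.map (e.symm : ℂ →+* w.Completion) kC with hk0
    have hek : Matrix.GeneralLinearGroup.map (e : w.Completion →+* ℂ) k = kC :=
      map_symm_map793 e kC
    have hmap : (k : Matrix (Fin 2) (Fin 2) w.Completion).map
        (InfinitePlace.Completion.extensionEmbedding w)
        = (kC : Matrix (Fin 2) (Fin 2) ℂ) := by
      ext i j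
      rw [Matrix.map_apply, ← hek, map_coe_apply793]
      rfl
    refine ⟨k, ?_, ?_, ?_⟩
    · have h1 : Matrix.GeneralLinearGroup.map (e : w.Completion →+* ℂ) (g * k⁻¹) = b := by
        rw [map_mul, map_inv, hek, hg]; group
      have h2 := map_coe_apply793 (e : w.Completion →+* ℂ) (g * k⁻¹) 1 0
      rw [h1, hb] at h2
      have h3 : e (((g * k⁻¹ : GL (Fin 2) w.Completion) :
          Matrix (Fin 2) (Fin 2) w.Completion) 1 0) = 0 := h2.symm
      exact (map_eq_zero_iff e e.injective).mp h3
    · rw [hmap]; exact hk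
    · intro _
      rw [hmap]; exact hdet

/-- **The Iwasawa decomposition of `GL₂(𝔸_K)`**: `g = b · k`, `b` upper triangular, `k` in the
standard maximal compact subgroup. -/
theorem iwasawaAdelic793 (g : G K) :
    ∃ b k : G K, g = b * k ∧ (b : Matrix (Fin 2) (Fin 2) (Adl K)) 1 0 = 0 ∧
      (∀ v : HeightOneSpectrum (𝓞 K), IsIntegralAt v k ∧ IsIntegralAt v k⁻¹) ∧
      (∀ w : InfinitePlace K,
        infComp w k * (infComp w k).conjTranspose = 1 ∧
          (w.IsReal → (infComp w k).det = 1)) := by
  choose kw hkw1 hkw2 hkw3 using fun w : InfinitePlace K => iwasawaInf793 w (glInf793 w g)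
  choose kv hkv1 hkv2 hkv3 using
    fun v : HeightOneSpectrum (𝓞 K) => iwasawaFin793 v (glFin793 v g)
  set k : G K := glMk793 kw kv hkv2 hkv3 with hk
  refine ⟨g * k⁻¹, k, by group, ?_, ?_, ?_⟩
  · refine adl_ext793 (fun w => ?_) (fun v => ?_)
    · have h1 : glInf793 w (g * k⁻¹) = glInf793 w g * (kw w)⁻¹ := by
        rw [map_mul, map_inv, hk, glInf793_glMk]
      have h2 : projInf793 w (((g * k⁻¹ : G K) : Matrix (Fin 2) (Fin 2) (Adl K)) 1 0)
          = ((glInf793 w (g * k⁻¹) : GL (Fin 2) w.Completion) :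
              Matrix (Fin 2) (Fin 2) w.Completion) 1 0 := rfl
      rw [h2, h1, hkw1 w, map_zero]
    · have h1 : glFin793 v (g * k⁻¹) = glFin793 v g * (kv v)⁻¹ := by
        rw [map_mul, map_inv, hk, glFin793_glMk]
      have h2 : projFin793 v (((g * k⁻¹ : G K) : Matrix (Fin 2) (Fin 2) (Adl K)) 1 0)
          = ((glFin793 v (g * k⁻¹) : GL (Fin 2) (v.adicCompletion K)) :
              Matrix (Fin 2) (Fin 2) (v.adicCompletion K)) 1 0 := rfl
      rw [h2, h1, hkv1 v, map_zero]
  · intro v
    constructor
    · intro i j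
      rw [finComp_eq793, hk, glFin793_glMk]
      exact hkv2 v i j
    · intro i j
      rw [finComp_eq793, map_inv, hk, glFin793_glMk]
      exact hkv3 v i j
  · intro w
    rw [infComp_eq793, hk, glInf793_glMk]
    exact ⟨hkw2 w, hkw3 w⟩

end Fermat.Agent.LT.T1.H793

end

end
-- ===== PACK-END LT/T1/H793/IwasawaAdelic.lean

-- ===== PACK-BEGIN LT/T1/H849/UnimodTop.lean
section





/-!
# Row LT, tower T1: Haar measures on `GL₂(𝔸_K)` — UNCONDITIONAL form

OFF-MAIN (helper849).  Imports: Mathlib, `Unimod.lean` (T1.UNIMOD) and byte-identical copies of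
`LT/H11/LC.lean`, `LT/H11/SC.lean` (helper11: `GL₂(𝔸_K)` is locally compact, Hausdorff, second
countable).

For a number field `K` and EVERY Haar measure `μ` on `GL₂(𝔸_K)` (Borel σ-algebra):

* `adelicGL2_haar_regular849`, `adelicGL2_haar_sigmaFinite849`: `μ` is regular and σ-finite;
* `adelicGL2_haar_isMulRightInvariant849`: `μ` is right invariant (`GL₂(𝔸_K)` is unimodular);
* `adelicGL2_haar_isInvInvariant849`: `μ` is invariant under `g ↦ g⁻¹`;
* `adelicGL2_integral_mul_right849'`, `adelicGL2_integral_inv849`: the change of variables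
  `∫ f (x g) dμ = ∫ f dμ = ∫ f (x⁻¹) dμ` for every `f` with values in a normed space.

Generic: `isInvInvariant_of_regular849` (a regular Haar measure on a locally compact group with
trivial modular character is inversion invariant).
-/

set_option autoImplicit false

open Matrix IsDedekindDomain NumberField MeasureTheory MeasureTheory.Measure
open scoped NNReal ENNReal

namespace Fermat.Agent.LT.T1.H849

section Generic

variable {G : Type*} [Group G] [TopologicalSpace G] [IsTopologicalGroup G] [LocallyCompactSpace G]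
  [MeasurableSpace G] [BorelSpace G]

/-- In a unimodular group a regular Haar measure is invariant under inversion. -/
theorem isInvInvariant_of_regular849 (h1 : ∀ g : G, modularCharacter g = 1)
    (μ : Measure G) [IsHaarMeasure μ] [Regular μ] : IsInvInvariant μ := by
  have hr : μ.IsMulRightInvariant := isMulRightInvariant_of_regular849 h1 μ
  constructor
  let c : ℝ≥0∞ := haarScalarFactor μ.inv μ
  have hc : μ.inv = c • μ := isMulLeftInvariant_eq_smul_of_regular μ.inv μ
  have : map Inv.inv (map Inv.inv μ) = c ^ 2 • μ := by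
    rw [← inv_def μ, hc, Measure.map_smul, ← inv_def μ, hc, smul_smul, pow_two]
  have μeq : μ = c ^ 2 • μ := by
    rw [map_map continuous_inv.measurable continuous_inv.measurable] at this
    simpa only [inv_involutive, Function.Involutive.comp_self, Measure.map_id]
  have K : TopologicalSpace.PositiveCompacts G := Classical.arbitrary _
  have : c ^ 2 * μ K = 1 ^ 2 * μ K := by
    conv_rhs => rw [μeq]
    simp
  have : c ^ 2 = 1 ^ 2 :=
    (ENNReal.mul_left_inj (measure_pos_of_nonempty_interior _ K.interior_nonempty).ne'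
          K.isCompact.measure_lt_top.ne).1 this
  have : c = 1 := (ENNReal.pow_right_strictMono two_ne_zero).injective this
  rw [hc, this, one_smul]

end Generic

section Adelic

open Fermat.Agent.LT.H11.LC Fermat.Agent.LT.H11.SC

variable (K : Type*) [Field K] [NumberField K]
  [MeasurableSpace (GL (Fin 2) (AdeleRing (𝓞 K) K))]
  [BorelSpace (GL (Fin 2) (AdeleRing (𝓞 K) K))]
  (μ : Measure (GL (Fin 2) (AdeleRing (𝓞 K) K))) [IsHaarMeasure μ]

/-- Every Haar measure on `GL₂(𝔸_K)` is regular. -/
theorem adelicGL2_haar_regular849 : Regular μ := by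
  have := locallyCompactSpace_GL2_adeleRing_h11 K
  have := secondCountableTopology_GL2_adeleRing_h11 K
  have := t2Space_GL2_adeleRing_h11 K
  infer_instance

omit [BorelSpace (GL (Fin 2) (AdeleRing (𝓞 K) K))] in
/-- Every Haar measure on `GL₂(𝔸_K)` is σ-finite. -/
theorem adelicGL2_haar_sigmaFinite849 : SigmaFinite μ := by
  have := locallyCompactSpace_GL2_adeleRing_h11 K
  have := secondCountableTopology_GL2_adeleRing_h11 K
  have := t2Space_GL2_adeleRing_h11 K
  infer_instance

/-- **`GL₂(𝔸_K)` is unimodular**: every Haar measure is right invariant. -/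
theorem adelicGL2_haar_isMulRightInvariant849 : μ.IsMulRightInvariant := by
  have := locallyCompactSpace_GL2_adeleRing_h11 K
  have := adelicGL2_haar_regular849 K μ
  exact adelicGL2_isMulRightInvariant849 K μ

/-- Every Haar measure on `GL₂(𝔸_K)` is invariant under inversion. -/
theorem adelicGL2_haar_isInvInvariant849 : μ.IsInvInvariant := by
  have := locallyCompactSpace_GL2_adeleRing_h11 K
  have := adelicGL2_haar_regular849 K μ
  exact isInvInvariant_of_regular849 (modularCharacter_adelicGL2_849 K) μ

/-- Right translation preserves every Haar measure on `GL₂(𝔸_K)`. -/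
theorem adelicGL2_measurePreserving_mul_right849 (g : GL (Fin 2) (AdeleRing (𝓞 K) K)) :
    MeasurePreserving (· * g) μ μ := by
  have := adelicGL2_haar_isMulRightInvariant849 K μ
  exact measurePreserving_mul_right μ g

/-- Change of variables `x ↦ x g` on `GL₂(𝔸_K)`. -/
theorem adelicGL2_integral_mul_right849' {E : Type*} [NormedAddCommGroup E] [NormedSpace ℝ E]
    (f : GL (Fin 2) (AdeleRing (𝓞 K) K) → E) (g : GL (Fin 2) (AdeleRing (𝓞 K) K)) :
    ∫ x, f (x * g) ∂μ = ∫ x, f x ∂μ := by
  have := adelicGL2_haar_isMulRightInvariant849 K μ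
  exact integral_mul_right_eq_self f g

/-- Change of variables `x ↦ x⁻¹` on `GL₂(𝔸_K)`. -/
theorem adelicGL2_integral_inv849 {E : Type*} [NormedAddCommGroup E] [NormedSpace ℝ E]
    (f : GL (Fin 2) (AdeleRing (𝓞 K) K) → E) :
    ∫ x, f x⁻¹ ∂μ = ∫ x, f x ∂μ := by
  have := adelicGL2_haar_isInvInvariant849 K μ
  exact integral_inv_eq_self f μ

end Adelic

end Fermat.Agent.LT.T1.H849

end
-- ===== PACK-END LT/T1/H849/UnimodTop.lean

-- ===== PACK-BEGIN LT/T1/H868/HaarScaleA.lean
section



/-!
# Row LT, tower T1, shared core HAAR-SCALE, part A (helper868)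

OFF-MAIN.  The module of an idele, abstract part.

For a Haar measure `μ` of `𝔸_K` and an idele `x` there is a constant `modF868 μ x` with
`μ (x S) = modF868 μ x * μ S` for EVERY set `S`; it is multiplicative in `x`, and it is `1` on the
principal ideles (Weil's lattice argument: `x ↦ ξ x` maps a fundamental domain of `K` to a
fundamental domain of `K`).
-/

set_option autoImplicit false
set_option linter.style.haveILetI false
set_option linter.unusedVariables false

open IsDedekindDomain NumberField MeasureTheory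
open scoped ENNReal NNReal

noncomputable section

namespace Fermat.Agent.LT.T1.H868

open Fermat.Agent.LT.H556.A0

variable (K : Type) [Field K] [NumberField K]

/-- Multiplication by an idele as a continuous additive automorphism of `𝔸_K`. -/
def mulCAE868 (c : (Adl K)ˣ) : Adl K ≃ₜ+ Adl K where
  toFun x := (c : Adl K) * x
  invFun x := ((c⁻¹ : (Adl K)ˣ) : Adl K) * x
  left_inv x := by simp
  right_inv x := by simp
  map_add' x y := mul_add _ _ _
  continuous_toFun := continuous_const.mul continuous_id
  continuous_invFun := continuous_const.mul continuous_id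

@[simp] theorem mulCAE868_apply (c : (Adl K)ˣ) (x : Adl K) :
    mulCAE868 K c x = (c : Adl K) * x := rfl

theorem mulCAE868_symm_apply (c : (Adl K)ˣ) (x : Adl K) :
    (mulCAE868 K c).symm x = ((c⁻¹ : (Adl K)ˣ) : Adl K) * x := rfl

theorem image_mul_eq_preimage868 (c : (Adl K)ˣ) (S : Set (Adl K)) :
    (fun y : Adl K => (c : Adl K) * y) '' S = (mulCAE868 K c⁻¹) ⁻¹' S := by
  ext y
  constructor
  · rintro ⟨z, hz, rfl⟩
    simpa using hz
  · intro hy
    exact ⟨((c⁻¹ : (Adl K)ˣ) : Adl K) * y, hy, by simp⟩

section Measure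

variable {K}
variable [MeasurableSpace (Adl K)] [BorelSpace (Adl K)] [LocallyCompactSpace (Adl K)]
  [SecondCountableTopology (Adl K)]

/-- The module of the idele `x` with respect to the Haar measure `μ`. -/
def modF868 (μ : Measure (Adl K)) [μ.IsAddHaarMeasure] (x : (Adl K)ˣ) : ℝ≥0 :=
  haveI : (Measure.map (mulCAE868 K x⁻¹) μ).IsAddHaarMeasure :=
    (mulCAE868 K x⁻¹).isAddHaarMeasure_map μ
  Measure.addHaarScalarFactor (Measure.map (mulCAE868 K x⁻¹) μ) μ

theorem map_eq_modF868 (μ : Measure (Adl K)) [μ.IsAddHaarMeasure] (x : (Adl K)ˣ) :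
    Measure.map (mulCAE868 K x⁻¹) μ = modF868 μ x • μ := by
  haveI : (Measure.map (mulCAE868 K x⁻¹) μ).IsAddHaarMeasure :=
    (mulCAE868 K x⁻¹).isAddHaarMeasure_map μ
  exact Measure.isAddLeftInvariant_eq_smul (Measure.map (mulCAE868 K x⁻¹) μ) μ

/-- `μ (x S) = mod(x) μ(S)` for every set `S`. -/
theorem measure_image_mul868 (μ : Measure (Adl K)) [μ.IsAddHaarMeasure] (x : (Adl K)ˣ)
    (S : Set (Adl K)) :
    μ ((fun y : Adl K => (x : Adl K) * y) '' S) = (modF868 μ x : ℝ≥0∞) * μ S := by
  rw [image_mul_eq_preimage868]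
  have h := congrArg (fun ν : Measure (Adl K) => ν S) (map_eq_modF868 μ x)
  simp only [Measure.smul_apply] at h
  have h2 : Measure.map (mulCAE868 K x⁻¹) μ S = μ ((mulCAE868 K x⁻¹) ⁻¹' S) :=
    (mulCAE868 K x⁻¹).toHomeomorph.toMeasurableEquiv.map_apply S
  rw [← h2, h]
  simp [ENNReal.smul_def]

/-- The module is determined by ONE test set of finite positive measure. -/
theorem modF868_eq_of_test (μ : Measure (Adl K)) [μ.IsAddHaarMeasure] (x : (Adl K)ˣ)
    (S : Set (Adl K)) (h0 : μ S ≠ 0) (h1 : μ S ≠ ⊤) (a : ℝ≥0)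
    (h : μ ((fun y : Adl K => (x : Adl K) * y) '' S) = (a : ℝ≥0∞) * μ S) :
    modF868 μ x = a := by
  rw [measure_image_mul868] at h
  have := (ENNReal.mul_left_inj h0 h1).mp h
  exact_mod_cast this

/-- A test set exists. -/
theorem exists_test868 (μ : Measure (Adl K)) [μ.IsAddHaarMeasure] :
    ∃ S : Set (Adl K), μ S ≠ 0 ∧ μ S ≠ ⊤ := by
  obtain ⟨S, hS, h0⟩ := exists_compact_mem_nhds (0 : Adl K)
  refine ⟨S, ?_, hS.measure_lt_top.ne⟩
  exact (Measure.measure_pos_of_mem_nhds μ h0).ne'

theorem modF868_mul (μ : Measure (Adl K)) [μ.IsAddHaarMeasure] (x y : (Adl K)ˣ) :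
    modF868 μ (x * y) = modF868 μ x * modF868 μ y := by
  obtain ⟨S, h0, h1⟩ := exists_test868 μ
  refine modF868_eq_of_test μ (x * y) S h0 h1 _ ?_
  have : (fun z : Adl K => ((x * y : (Adl K)ˣ) : Adl K) * z) '' S
      = (fun z : Adl K => (x : Adl K) * z) '' ((fun z : Adl K => (y : Adl K) * z) '' S) := by
    rw [Set.image_image]
    refine Set.image_congr' fun z => ?_
    simp [mul_assoc]
  rw [this, measure_image_mul868, measure_image_mul868]
  push_cast
  ring

theorem modF868_one (μ : Measure (Adl K)) [μ.IsAddHaarMeasure] :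
    modF868 μ (1 : (Adl K)ˣ) = 1 := by
  obtain ⟨S, h0, h1⟩ := exists_test868 μ
  refine modF868_eq_of_test μ 1 S h0 h1 _ ?_
  simp

theorem modF868_pow (μ : Measure (Adl K)) [μ.IsAddHaarMeasure] (x : (Adl K)ˣ) (n : ℕ) :
    modF868 μ (x ^ n) = modF868 μ x ^ n := by
  induction n with
  | zero => simp [modF868_one]
  | succ n ih => rw [pow_succ, modF868_mul, ih, pow_succ]

theorem modF868_pos (μ : Measure (Adl K)) [μ.IsAddHaarMeasure] (x : (Adl K)ˣ) :
    0 < modF868 μ x := by
  have h : modF868 μ x * modF868 μ x⁻¹ = 1 := by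
    rw [← modF868_mul, mul_inv_cancel, modF868_one]
  rw [pos_iff_ne_zero]
  intro h0
  rw [h0, zero_mul] at h
  exact zero_ne_one h

end Measure

/-! ## The lattice argument: the module of a principal idele is `1` -/

theorem countable_princ868 : Countable (princ K) := by
  haveI : Countable K := Finsupp.Countable.of_moduleFinite (R := ℚ) (M := K)
  have : (princ K : Set (Adl K)) = Set.range (algebraMap K (Adl K)) := by
    ext x
    simp [princ]
  have hc : (princ K : Set (Adl K)).Countable := by
    rw [this]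
    exact Set.countable_range _
  exact hc.to_subtype

/-- Multiplication by `ξ⁻¹` on the principal adeles. -/
def princScale868 (ξ : Kˣ) : princ K → princ K := fun g =>
  ⟨algebraMap K (Adl K) ((ξ⁻¹ : Kˣ) : K) * (g : Adl K), by
    obtain ⟨η, hη⟩ := g.2
    refine ⟨((ξ⁻¹ : Kˣ) : K) * η, ?_⟩
    simp only [RingHom.toAddMonoidHom_eq_coe, AddMonoidHom.coe_coe] at hη ⊢
    rw [map_mul, hη]⟩

theorem princScale868_bijective (ξ : Kˣ) : Function.Bijective (princScale868 K ξ) := by
  refine Function.bijective_iff_has_inverse.mpr ⟨princScale868 K ξ⁻¹, ?_, ?_⟩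
  · intro g
    apply Subtype.ext
    simp only [princScale868, inv_inv]
    rw [← mul_assoc, ← map_mul]
    simp
  · intro g
    apply Subtype.ext
    simp only [princScale868, inv_inv]
    rw [← mul_assoc, ← map_mul]
    simp

section Lattice

variable {K}
variable [MeasurableSpace (Adl K)] [BorelSpace (Adl K)] [LocallyCompactSpace (Adl K)]
  [SecondCountableTopology (Adl K)]

/-- **Product formula, measure form.**  If `K` has a fundamental domain of finite positive
measure in `𝔸_K`, the module of a principal idele is `1`. -/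
theorem modF868_ratUnit (μ : Measure (Adl K)) [μ.IsAddHaarMeasure]
    (D : Set (Adl K)) (hDm : MeasurableSet D) (hD : IsAddFundamentalDomain (princ K) D μ)
    (hpos : 0 < μ D) (hfin : μ D < ⊤) (ξ : Kˣ) :
    modF868 μ (ratUnit K ξ) = 1 := by
  haveI := countable_princ868 K
  refine modF868_eq_of_test μ _ D hpos.ne' hfin.ne 1 ?_
  rw [image_mul_eq_preimage868]
  set φ : Adl K ≃ₜ+ Adl K := mulCAE868 K (ratUnit K ξ)⁻¹ with hφ
  have hqmp : Measure.QuasiMeasurePreserving φ μ μ := by
    refine ⟨φ.continuous.measurable, ?_⟩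
    have := map_eq_modF868 μ (ratUnit K ξ)
    rw [← hφ] at this
    rw [this]
    exact Measure.smul_absolutelyContinuous
  have hD' : IsAddFundamentalDomain (princ K) (φ ⁻¹' D) μ := by
    refine hD.preimage_of_equiv hqmp (princScale868_bijective K ξ⁻¹) ?_
    intro g x
    change φ (princScale868 K ξ⁻¹ g +ᵥ x) = g +ᵥ φ x
    simp only [hφ, mulCAE868_apply, princScale868, AddSubgroup.vadd_def, vadd_eq_add, mul_add,
      inv_inv]
    congr 1
    rw [← mul_assoc]
    have : (((ratUnit K ξ)⁻¹ : (Adl K)ˣ) : Adl K) * algebraMap K (Adl K) (ξ : K) = 1 := by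
      have h1 : (algebraMap K (Adl K) (ξ : K)) = ((ratUnit K ξ : (Adl K)ˣ) : Adl K) := rfl
      rw [h1]
      simp
    rw [this, one_mul]
  rw [hD'.measure_eq hD]
  simp

end Lattice

end Fermat.Agent.LT.T1.H868

end

end
-- ===== PACK-END LT/T1/H868/HaarScaleA.lean

-- ===== PACK-BEGIN LT/T1/H868/HaarScaleD.lean
section



/-!
# Row LT, tower T1, shared core HAAR-SCALE, part D (helper868)

OFF-MAIN.  Finiteness of the class group in idelic form: for every idele `x` of a number field
there are `h ≥ 1` and `ξ ∈ Kˣ` with `|x_v|_v ^ h = |ξ|_v` at EVERY finite place `v`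
(the fractional ideal of `x` has a principal power).
-/

set_option autoImplicit false
set_option linter.style.haveILetI false
set_option linter.unusedVariables false
set_option linter.unusedSectionVars false

open IsDedekindDomain NumberField
open scoped nonZeroDivisors

noncomputable section

namespace Fermat.Agent.LT.T1.H868

open Fermat.Agent.LT.H556.A0

section Dedekind

variable {R : Type*} [CommRing R] [IsDedekindDomain R] (K : Type*) [Field K] [Algebra R K]
  [IsFractionRing R K] (v : HeightOneSpectrum R)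

theorem count_spanSingleton_algebraMap868 {r : R} (hr : r ≠ 0) :
    FractionalIdeal.count K v (FractionalIdeal.spanSingleton R⁰ (algebraMap R K r))
      = - WithZero.log (v.intValuation r) := by
  have hs : Ideal.span {r} ≠ (0 : Ideal R) := by
    rw [Ne, Ideal.zero_eq_bot, Ideal.span_singleton_eq_bot]
    exact hr
  rw [← FractionalIdeal.coeIdeal_span_singleton, FractionalIdeal.count_coe K v hs,
    HeightOneSpectrum.intValuation_if_neg v hr, WithZero.log_exp, neg_neg]

/-- The multiplicity of `v` in a principal fractional ideal is the (additive) valuation. -/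
theorem count_spanSingleton868 {ξ : K} (hξ : ξ ≠ 0) :
    FractionalIdeal.count K v (FractionalIdeal.spanSingleton R⁰ ξ)
      = - WithZero.log (v.valuation K ξ) := by
  obtain ⟨a, b, hb, rfl⟩ := IsFractionRing.div_surjective R ξ
  have hb0 : b ≠ 0 := nonZeroDivisors.ne_zero hb
  have ha0 : a ≠ 0 := by
    rintro rfl
    simp at hξ
  have hA : FractionalIdeal.spanSingleton R⁰ (algebraMap R K a) ≠ 0 := by
    rw [Ne, FractionalIdeal.spanSingleton_eq_zero_iff]
    exact fun h => ha0 ((IsFractionRing.injective R K) (by rw [h, map_zero]))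
  have hB : FractionalIdeal.spanSingleton R⁰ (algebraMap R K b) ≠ 0 := by
    rw [Ne, FractionalIdeal.spanSingleton_eq_zero_iff]
    exact fun h => hb0 ((IsFractionRing.injective R K) (by rw [h, map_zero]))
  have hsp : FractionalIdeal.spanSingleton R⁰ (algebraMap R K a / algebraMap R K b)
      = FractionalIdeal.spanSingleton R⁰ (algebraMap R K a)
        * (FractionalIdeal.spanSingleton R⁰ (algebraMap R K b))⁻¹ := by
    rw [FractionalIdeal.spanSingleton_inv, FractionalIdeal.spanSingleton_mul_spanSingleton,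
      div_eq_mul_inv]
  rw [hsp, FractionalIdeal.count_mul K v hA (inv_ne_zero hB), FractionalIdeal.count_inv,
    count_spanSingleton_algebraMap868 K v ha0, count_spanSingleton_algebraMap868 K v hb0,
    map_div₀, HeightOneSpectrum.valuation_of_algebraMap, HeightOneSpectrum.valuation_of_algebraMap,
    WithZero.log_div (HeightOneSpectrum.intValuation_ne_zero v a ha0)
      (HeightOneSpectrum.intValuation_ne_zero v b hb0)]
  ring

end Dedekind

variable (K : Type) [Field K] [NumberField K]

/-- **Finiteness of the class group, idelic form.** -/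
theorem exists_pow_eq_principal868 (x : (Adl K)ˣ) :
    ∃ (h : ℕ) (ξ : Kˣ), 0 < h ∧ ∀ v : HeightOneSpectrum (𝓞 K),
      Valued.v ((x : Adl K).2 v) ^ h = Valued.v ((ratUnit K ξ : Adl K).2 v) := by
  classical
  have hunit : IsUnit ((x : Adl K).2) := (Prod.isUnit_iff.mp x.isUnit).2
  obtain ⟨hne, hfin⟩ := FiniteAdeleRing.isUnit_iff.mp hunit
  have hv0 : ∀ v : HeightOneSpectrum (𝓞 K), Valued.v ((x : Adl K).2 v) ≠ 0 :=
    fun v => (Valuation.ne_zero_iff _).mpr (hne v)
  -- the exponents
  set e : HeightOneSpectrum (𝓞 K) → ℤ := fun v => - WithZero.log (Valued.v ((x : Adl K).2 v))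
    with he
  have hefin : ∀ᶠ v : HeightOneSpectrum (𝓞 K) in Filter.cofinite, e v = 0 := by
    filter_upwards [hfin] with v hv
    simp [he, hv]
  -- the fractional ideal of `x`
  set J : FractionalIdeal (𝓞 K)⁰ K :=
    ∏ᶠ v : HeightOneSpectrum (𝓞 K), (v.asIdeal : FractionalIdeal (𝓞 K)⁰ K) ^ e v with hJ
  have hJ0 : J ≠ 0 := by
    refine finprod_induction (fun I : FractionalIdeal (𝓞 K)⁰ K => I ≠ 0) one_ne_zero
      (fun _ _ => mul_ne_zero) fun v => ?_
    exact zpow_ne_zero _ (FractionalIdeal.coeIdeal_ne_zero.mpr v.ne_bot)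
  have hcount : ∀ v : HeightOneSpectrum (𝓞 K), FractionalIdeal.count K v J = e v :=
    fun v => FractionalIdeal.count_finprod K v e hefin
  -- a power is principal
  set h : ℕ := Fintype.card (ClassGroup (𝓞 K)) with hh
  have hpos : 0 < h := Fintype.card_pos
  have h1 : ClassGroup.mk K ((Units.mk0 J hJ0) ^ h) = 1 := by
    rw [map_pow]
    exact pow_card_eq_one
  obtain ⟨ξ, hξ⟩ := (FractionalIdeal.isPrincipal_iff _).mp (ClassGroup.mk_eq_one_iff.mp h1)
  have hξ' : J ^ h = FractionalIdeal.spanSingleton (𝓞 K)⁰ ξ := by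
    rw [← hξ]
    simp
  have hξ0 : ξ ≠ 0 := by
    rintro rfl
    rw [FractionalIdeal.spanSingleton_zero] at hξ'
    exact pow_ne_zero h hJ0 hξ'
  refine ⟨h, Units.mk0 ξ hξ0, hpos, fun v => ?_⟩
  have hval : Valued.v ((ratUnit K (Units.mk0 ξ hξ0) : Adl K).2 v)
      = (HeightOneSpectrum.valuation K v) ξ :=
    HeightOneSpectrum.valuedAdicCompletion_eq_valuation' v ξ
  rw [hval]
  have hc := count_spanSingleton868 K v hξ0
  rw [← hξ', FractionalIdeal.count_pow, hcount v] at hc
  -- `h * e v = - log (val ξ)`
  have hvξ : (HeightOneSpectrum.valuation K v) ξ ≠ 0 := (Valuation.ne_zero_iff _).mpr hξ0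
  rw [← WithZero.exp_log hvξ, ← WithZero.exp_log (hv0 v), ← WithZero.exp_nsmul]
  congr 1
  simp only [he] at hc
  have : WithZero.log ((HeightOneSpectrum.valuation K v) ξ)
      = (h : ℤ) * WithZero.log (Valued.v ((x : Adl K).2 v)) := by linarith
  rw [this]
  simp

end Fermat.Agent.LT.T1.H868

end

end
-- ===== PACK-END LT/T1/H868/HaarScaleD.lean

-- ===== PACK-BEGIN LT/T2/H627/Adelic.lean
section




/-!
# Row LT, tower T2, leaf T2.13 (helper627): adelic constructions

Elements of `GL₂(𝔸_K)` with prescribed archimedean components (positive real scalars, the ray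
`diag(s,1)`), scalar matrices of ideles, their continuity.  OFF-MAIN.
-/

set_option autoImplicit false
set_option linter.unusedSectionVars false

open IsDedekindDomain NumberField MeasureTheory
open Fermat.Agent.LT.H556.A0
open scoped Classical

noncomputable section

namespace Fermat.Agent.LT.T2.H627

variable {K : Type} [Field K] [NumberField K]

/-- Real numbers lie in the image of the completion at an infinite place. -/
theorem exists_real627 (w : InfinitePlace K) (s : ℝ) :
    ∃ x : w.Completion, InfinitePlace.Completion.extensionEmbedding w x = (s : ℂ) := by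
  have hcl := InfinitePlace.Completion.isClosed_image_extensionEmbedding w
  have hQ : ∀ q : ℚ, ((q : ℝ) : ℂ) ∈
      Set.range (InfinitePlace.Completion.extensionEmbedding w) :=
    fun q => ⟨(q : w.Completion), by simp⟩
  have hs : s ∈ closure (Set.range (fun q : ℚ => (q : ℝ))) := by
    rw [(Rat.denseRange_cast (𝕜 := ℝ)).closure_range]; trivial
  have h2 : (s : ℂ) ∈ closure (Set.range (InfinitePlace.Completion.extensionEmbedding w)) := by
    have := map_mem_closure Complex.continuous_ofReal hs
      (t := Set.range (InfinitePlace.Completion.extensionEmbedding w))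
      (by rintro _ ⟨q, rfl⟩; exact hQ q)
    exact this
  rwa [hcl.closure_eq] at h2

/-- The real number `s` as an element of the completion at `w`. -/
def eR627 (w : InfinitePlace K) (s : ℝ) : w.Completion := (exists_real627 w s).choose

@[simp] theorem ext_eR627 (w : InfinitePlace K) (s : ℝ) :
    InfinitePlace.Completion.extensionEmbedding w (eR627 w s) = (s : ℂ) :=
  (exists_real627 w s).choose_spec

theorem ext_inj627 (w : InfinitePlace K) :
    Function.Injective (InfinitePlace.Completion.extensionEmbedding w) :=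
  (InfinitePlace.Completion.extensionEmbedding w).injective

theorem eR627_mul (w : InfinitePlace K) (s t : ℝ) : eR627 w (s * t) = eR627 w s * eR627 w t :=
  ext_inj627 w (by simp)

@[simp] theorem eR627_one (w : InfinitePlace K) : eR627 w 1 = 1 := ext_inj627 w (by simp)

@[simp] theorem eR627_zero (w : InfinitePlace K) : eR627 w 0 = 0 := ext_inj627 w (by simp)

theorem isometry_eR627 (w : InfinitePlace K) : Isometry (eR627 (K := K) w) := by
  refine Isometry.of_dist_eq fun s t => ?_
  rw [← (InfinitePlace.Completion.isometry_extensionEmbedding w).dist_eq]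
  simp only [ext_eR627]
  rw [dist_eq_norm, ← Complex.ofReal_sub, Complex.norm_real, Real.dist_eq, Real.norm_eq_abs]

theorem norm_eR627 (w : InfinitePlace K) (s : ℝ) : ‖eR627 w s‖ = |s| := by
  have := (isometry_eR627 w).dist_eq s 0
  simpa [dist_eq_norm] using this

/-! ## Ideles supported at the infinite places -/

/-- The adele with component `s w` at the infinite place `w` and `1` at the finite places. -/
def infAdele627 (s : InfinitePlace K → ℝ) : Adl K :=
  ((fun w => eR627 w (s w)), (1 : FiniteAdeleRing (𝓞 K) K))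

@[simp] theorem infAdele627_fst (s : InfinitePlace K → ℝ) (w : InfinitePlace K) :
    (infAdele627 s).1 w = eR627 w (s w) := rfl

@[simp] theorem infAdele627_snd (s : InfinitePlace K → ℝ) :
    (infAdele627 s).2 = 1 := rfl

theorem adl_ext627 {x y : Adl K} (h1 : ∀ w, x.1 w = y.1 w) (h2 : ∀ v, x.2 v = y.2 v) : x = y :=
  Prod.ext (funext h1) (FiniteAdeleRing.ext K h2)

theorem infAdele627_mul (s t : InfinitePlace K → ℝ) :
    infAdele627 s * infAdele627 t = infAdele627 (fun w => s w * t w) := by
  refine adl_ext627 (fun w => ?_) (fun v => ?_)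
  · show eR627 w (s w) * eR627 w (t w) = eR627 w (s w * t w)
    rw [eR627_mul]
  · show ((1 : FiniteAdeleRing (𝓞 K) K) * 1) v = (1 : FiniteAdeleRing (𝓞 K) K) v
    rw [mul_one]

theorem infAdele627_one : infAdele627 (K := K) (fun _ => 1) = 1 := by
  refine adl_ext627 (fun w => ?_) (fun v => ?_)
  · show eR627 w 1 = 1
    simp
  · rfl

/-- The idele with component `s w ≠ 0` at the infinite place `w` and `1` at the finite places. -/
def infIdele627 (s : InfinitePlace K → ℝ) (hs : ∀ w, s w ≠ 0) : (Adl K)ˣ where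
  val := infAdele627 s
  inv := infAdele627 (fun w => (s w)⁻¹)
  val_inv := by
    rw [infAdele627_mul, ← infAdele627_one]
    congr 1; funext w; exact mul_inv_cancel₀ (hs w)
  inv_val := by
    rw [infAdele627_mul, ← infAdele627_one]
    congr 1; funext w; exact inv_mul_cancel₀ (hs w)

theorem infIdele627_val (s : InfinitePlace K → ℝ) (hs : ∀ w, s w ≠ 0) :
    ((infIdele627 s hs : (Adl K)ˣ) : Adl K) = infAdele627 s := rfl

theorem infIdele627_mul (s t : InfinitePlace K → ℝ) (hs : ∀ w, s w ≠ 0) (ht : ∀ w, t w ≠ 0) :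
    infIdele627 s hs * infIdele627 t ht =
      infIdele627 (fun w => s w * t w) (fun w => mul_ne_zero (hs w) (ht w)) :=
  Units.ext (infAdele627_mul s t)

theorem continuous_infAdele627 :
    Continuous (fun s : ℝ => infAdele627 (K := K) (fun _ => s)) := by
  refine Continuous.prodMk ?_ continuous_const
  exact continuous_pi fun w => (isometry_eR627 w).continuous

/-! ## Scalar matrices and the ray -/

/-- The scalar matrix of an idele. -/
def scal627 : (Adl K)ˣ →* G K := Units.map (Matrix.scalar (Fin 2)).toMonoidHom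

theorem scal627_val (u : (Adl K)ˣ) :
    ((scal627 u : G K) : Matrix (Fin 2) (Fin 2) (Adl K)) = Matrix.diagonal (fun _ => (u : Adl K)) :=
  rfl

theorem scal627_comm (u : (Adl K)ˣ) (g : G K) : scal627 u * g = g * scal627 u := by
  apply Units.ext
  show Matrix.scalar (Fin 2) (u : Adl K) * (g : Matrix (Fin 2) (Fin 2) (Adl K)) =
    (g : Matrix (Fin 2) (Fin 2) (Adl K)) * Matrix.scalar (Fin 2) (u : Adl K)
  exact (Matrix.scalar_commute (u : Adl K) (fun r' => Commute.all _ _) _).eq

theorem continuous_scal627 : Continuous (scal627 (K := K)) := by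
  refine Continuous.units_map _ ?_
  show Continuous fun x : Adl K => Matrix.diagonal (fun _ : Fin 2 => x)
  exact Continuous.matrix_diagonal (continuous_pi fun _ => continuous_id)

/-- The monoid homomorphism `x ↦ diag(x, 1)`. -/
def dmap627 : Adl K →* Matrix (Fin 2) (Fin 2) (Adl K) where
  toFun x := Matrix.diagonal ![x, 1]
  map_one' := by
    ext i j; fin_cases i <;> fin_cases j <;> simp
  map_mul' x y := by
    rw [Matrix.diagonal_mul_diagonal]
    congr 1; funext i; fin_cases i <;> simp

/-- The matrix `diag(u, 1)` of an idele `u`. -/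
def diag627 : (Adl K)ˣ →* G K := Units.map dmap627

theorem diag627_val (u : (Adl K)ˣ) :
    ((diag627 u : G K) : Matrix (Fin 2) (Fin 2) (Adl K)) = Matrix.diagonal ![(u : Adl K), 1] :=
  rfl

theorem continuous_diag627 : Continuous (diag627 (K := K)) := by
  refine Continuous.units_map _ ?_
  show Continuous fun x : Adl K => Matrix.diagonal ![x, 1]
  refine Continuous.matrix_diagonal (continuous_pi fun i => ?_)
  fin_cases i
  · exact continuous_id
  · exact continuous_const

/-! ## Exponential parametrisation -/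

/-- The idele with component `exp (t w)` at the infinite place `w`, `1` at the finite places. -/
def expIdele627 (t : InfinitePlace K → ℝ) : (Adl K)ˣ :=
  infIdele627 (fun w => Real.exp (t w)) (fun w => (Real.exp_pos (t w)).ne')

theorem expIdele627_val (t : InfinitePlace K → ℝ) :
    ((expIdele627 t : (Adl K)ˣ) : Adl K) = infAdele627 (fun w => Real.exp (t w)) := rfl

theorem expIdele627_inv_val (t : InfinitePlace K → ℝ) :
    (((expIdele627 t)⁻¹ : (Adl K)ˣ) : Adl K) = infAdele627 (fun w => (Real.exp (t w))⁻¹) := rfl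

theorem expIdele627_add (s t : InfinitePlace K → ℝ) :
    expIdele627 (s + t) = expIdele627 s * expIdele627 t := by
  apply Units.ext
  rw [Units.val_mul, expIdele627_val, expIdele627_val, expIdele627_val, infAdele627_mul]
  congr 1; funext w; exact Real.exp_add _ _

theorem expIdele627_zero : expIdele627 (K := K) 0 = 1 := by
  apply Units.ext
  rw [expIdele627_val, Units.val_one, ← infAdele627_one]
  congr 1; funext w; exact Real.exp_zero

theorem expIdele627_sum (S : Finset (InfinitePlace K)) (t : InfinitePlace K → InfinitePlace K → ℝ) :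
    expIdele627 (∑ w ∈ S, t w) = ∏ w ∈ S, expIdele627 (t w) := by
  classical
  induction S using Finset.induction_on with
  | empty => simp [expIdele627_zero]
  | insert a S ha ih => rw [Finset.sum_insert ha, Finset.prod_insert ha, expIdele627_add, ih]

theorem expIdele627_const_eq_prod (t : ℝ) :
    expIdele627 (K := K) (fun _ => t) = ∏ w, expIdele627 (Pi.single w t) := by
  classical
  rw [← expIdele627_sum]
  congr 1
  exact (Finset.univ_sum_single (fun _ : InfinitePlace K => t)).symm

theorem continuous_expIdele627 :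
    Continuous (fun t : ℝ => expIdele627 (K := K) (fun _ => t)) := by
  rw [Units.continuous_iff]
  constructor
  · exact continuous_infAdele627.comp Real.continuous_exp
  · have : Continuous fun t : ℝ => (Real.exp t)⁻¹ :=
      Real.continuous_exp.inv₀ (fun t => (Real.exp_pos t).ne')
    exact continuous_infAdele627.comp this

/-- The element `diag(exp t, 1)` of the ray. -/
def ray627 (t : ℝ) : G K := diag627 (expIdele627 (fun _ => t))

theorem continuous_ray627 : Continuous (ray627 (K := K)) :=
  continuous_diag627.comp continuous_expIdele627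

/-- The positive scalar `exp t` (diagonally embedded at the infinite places). -/
def zpos627 (t : ℝ) : G K := scal627 (expIdele627 (fun _ => t))

/-- The positive scalar `exp t` at the infinite place `w`. -/
def zloc627 (w : InfinitePlace K) (t : ℝ) : G K := scal627 (expIdele627 (Pi.single w t))

theorem zpos627_comm (t : ℝ) (g : G K) : zpos627 t * g = g * zpos627 t := scal627_comm _ g

/-! ## Components -/

theorem infComp_scal627 (w : InfinitePlace K) (u : (Adl K)ˣ) :
    infComp w (scal627 u) = Matrix.diagonal (fun _ =>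
      InfinitePlace.Completion.extensionEmbedding w ((u : Adl K).1 w)) := by
  refine Matrix.ext fun i j => ?_
  show InfinitePlace.Completion.extensionEmbedding w
    ((Matrix.diagonal (fun _ : Fin 2 => (u : Adl K)) i j).1 w) = _
  by_cases h : i = j
  · subst h; simp
  · simp only [Matrix.diagonal_apply_ne _ h]
    exact map_zero _

theorem finComp_scal627 (v : HeightOneSpectrum (𝓞 K)) (u : (Adl K)ˣ) :
    finComp v (scal627 u) = Matrix.diagonal (fun _ => (u : Adl K).2 v) := by
  refine Matrix.ext fun i j => ?_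
  show (Matrix.diagonal (fun _ : Fin 2 => (u : Adl K)) i j).2 v = _
  by_cases h : i = j
  · subst h; simp
  · simp only [Matrix.diagonal_apply_ne _ h]
    rfl

theorem isArchPosScalar_zloc627 (w : InfinitePlace K) (t : ℝ) :
    IsArchPosScalar w (zloc627 w t) := by
  classical
  refine ⟨⟨fun w' hw' i j => ?_, fun v => ?_⟩, Real.exp t, Real.exp_pos t, ?_⟩
  · show (Matrix.diagonal (fun _ : Fin 2 => ((expIdele627 (Pi.single w t) : (Adl K)ˣ) : Adl K))
      i j).1 w' = _
    by_cases h : i = j
    · subst h
      simp only [Matrix.diagonal_apply_eq, Matrix.one_apply_eq]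
      show eR627 w' (Real.exp ((Pi.single w t : InfinitePlace K → ℝ) w')) = 1
      rw [Pi.single_eq_of_ne hw', Real.exp_zero, eR627_one]
    · simp only [Matrix.diagonal_apply_ne _ h, Matrix.one_apply_ne h]
      rfl
  · show finComp v (scal627 _) = 1
    rw [finComp_scal627]
    show Matrix.diagonal (fun _ : Fin 2 => (1 : FiniteAdeleRing (𝓞 K) K) v) = 1
    rw [← Matrix.diagonal_one]; rfl
  · show infComp w (scal627 _) = _
    rw [infComp_scal627]
    congr 1; funext _
    show InfinitePlace.Completion.extensionEmbedding w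
      (eR627 w (Real.exp ((Pi.single w t : InfinitePlace K → ℝ) w))) = _
    rw [Pi.single_eq_same, ext_eR627]

/-- Functions invariant under the positive scalars at every infinite place are invariant under
the diagonal positive scalars. -/
theorem inv_zpos627 {ψ : G K → ℂ}
    (h : ∀ (w : InfinitePlace K) (z : G K), IsArchPosScalar w z → ∀ g : G K, ψ (g * z) = ψ g)
    (t : ℝ) (g : G K) : ψ (g * zpos627 t) = ψ g := by
  have key : ∀ (S : Finset (InfinitePlace K)) (g : G K),
      ψ (g * scal627 (∏ w ∈ S, expIdele627 (Pi.single w t))) = ψ g := by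
    intro S
    induction S using Finset.induction_on with
    | empty => intro g; simp
    | insert a S ha ih =>
      intro g
      rw [Finset.prod_insert ha, map_mul, ← mul_assoc, ih]
      exact h a _ (isArchPosScalar_zloc627 a t) g
  unfold zpos627
  rw [expIdele627_const_eq_prod]
  exact key _ g

/-! ## The ray -/

theorem infComp_diag627 (w : InfinitePlace K) (u : (Adl K)ˣ) :
    infComp w (diag627 u) = !![InfinitePlace.Completion.extensionEmbedding w ((u : Adl K).1 w), 0;
      0, 1] := by
  refine Matrix.ext fun i j => ?_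
  show InfinitePlace.Completion.extensionEmbedding w
    ((Matrix.diagonal ![(u : Adl K), 1] i j).1 w) = _
  fin_cases i <;> fin_cases j
  · simp
  · simp only [Fin.zero_eta, Fin.isValue, Fin.mk_one, ne_eq, zero_ne_one, not_false_eq_true,
      Matrix.diagonal_apply_ne, Matrix.of_apply, Matrix.cons_val', Matrix.cons_val_one,
      Matrix.cons_val_fin_one, Matrix.cons_val_zero]
    exact map_zero (InfinitePlace.Completion.extensionEmbedding w)
  · simp only [Fin.zero_eta, Fin.isValue, Fin.mk_one, ne_eq, one_ne_zero, not_false_eq_true,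
      Matrix.diagonal_apply_ne, Matrix.of_apply, Matrix.cons_val', Matrix.cons_val_one,
      Matrix.cons_val_fin_one, Matrix.cons_val_zero]
    exact map_zero (InfinitePlace.Completion.extensionEmbedding w)
  · simp only [Fin.mk_one, Fin.isValue, Matrix.diagonal_apply_eq, Matrix.cons_val_one,
      Matrix.cons_val_fin_one, Matrix.of_apply, Matrix.cons_val']
    exact map_one (InfinitePlace.Completion.extensionEmbedding w)

theorem isRay_eq627 {a : G K} {s : ℝ} (hs : 0 < s) (h : T1.IsRay K a s) :
    a = ray627 (Real.log s) := by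
  apply Units.ext
  refine Matrix.ext fun i j => adl_ext627 (fun w => ?_) (fun v => ?_)
  · apply ext_inj627 w
    have h1 : infComp w a i j = (!![(s : ℂ), 0; 0, 1] : Matrix (Fin 2) (Fin 2) ℂ) i j := by
      rw [h.2 w]
    have h2 : infComp w (ray627 (Real.log s)) i j =
        (!![(s : ℂ), 0; 0, 1] : Matrix (Fin 2) (Fin 2) ℂ) i j := by
      have hu : InfinitePlace.Completion.extensionEmbedding w
          (((expIdele627 (fun _ => Real.log s) : (Adl K)ˣ) : Adl K).1 w) = (s : ℂ) := by
        show InfinitePlace.Completion.extensionEmbedding w (eR627 w (Real.exp (Real.log s))) = _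
        rw [Real.exp_log hs, ext_eR627]
      unfold ray627
      rw [infComp_diag627, hu]
    exact h1.trans h2.symm
  · have h1 : finComp v a i j = (1 : Matrix (Fin 2) (Fin 2) (v.adicCompletion K)) i j := by
      rw [h.1 v]
    refine h1.trans ?_
    show _ = (Matrix.diagonal ![((expIdele627 (fun _ => Real.log s) : (Adl K)ˣ) : Adl K), 1] i j).2 v
    fin_cases i <;> fin_cases j
    · rfl
    · rfl
    · rfl
    · rfl

/-! ## Central elements and rational scalars -/

theorem isCentral_eq627 {z : G K} (h : T1.IsCentral K z) : ∃ u : (Adl K)ˣ, z = scal627 u := by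
  obtain ⟨c, hc⟩ := h
  have h0 : ((z : Matrix (Fin 2) (Fin 2) (Adl K)) * ((z⁻¹ : G K) : Matrix (Fin 2) (Fin 2) (Adl K)))
      0 0 = 1 := by
    rw [← Units.val_mul, mul_inv_cancel]; rfl
  have h1 : c * ((z⁻¹ : G K) : Matrix (Fin 2) (Fin 2) (Adl K)) 0 0 = 1 := by
    rw [hc, Matrix.diagonal_mul] at h0
    exact h0
  refine ⟨Units.mkOfMulEqOne c _ h1, Units.ext ?_⟩
  rw [scal627_val]
  exact hc

/-- The scalar matrix of `ξ ∈ Kˣ`. -/
def ratScal627 : Kˣ →* GL (Fin 2) K := Units.map (Matrix.scalar (Fin 2)).toMonoidHom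

theorem ratG_ratScal627 (ξ : Kˣ) : T1.ratG K (ratScal627 ξ) = scal627 (T1.ratUnit K ξ) := by
  apply Units.ext
  refine Matrix.ext fun i j => ?_
  show algebraMap K (Adl K) (Matrix.diagonal (fun _ : Fin 2 => (ξ : K)) i j) =
    Matrix.diagonal (fun _ : Fin 2 => algebraMap K (Adl K) (ξ : K)) i j
  by_cases h : i = j
  · subst h; simp
  · simp [Matrix.diagonal_apply_ne _ h]

/-! ## The module of the determinant -/

/-- `‖det g‖_𝔸`. -/
def nd627 (g : G K) : ℝ := T1.adNorm K (Matrix.det (g : Matrix (Fin 2) (Fin 2) (Adl K)))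

theorem nd627_eq (g : G K) :
    nd627 g = T1.adNorm K ((Matrix.GeneralLinearGroup.det g : (Adl K)ˣ) : Adl K) := rfl

theorem mem_slab_iff627 (g : G K) : g ∈ T1.slab K ↔ 1 ≤ nd627 g ∧ nd627 g < 2 := Iff.rfl

theorem nd627_pos (hN : T1.AdNormC K) (g : G K) : 0 < nd627 g := by
  rw [nd627_eq]
  exact hN.1 (Matrix.GeneralLinearGroup.det g)

theorem nd627_mul (hN : T1.AdNormC K) (g h : G K) : nd627 (g * h) = nd627 g * nd627 h := by
  rw [nd627_eq, nd627_eq, nd627_eq, map_mul]
  exact hN.2.1 _ _

theorem continuous_nd627 (hN : T1.AdNormC K) : Continuous (nd627 (K := K)) := by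
  have h : Continuous fun g : G K =>
      T1.adNorm K ((Matrix.GeneralLinearGroup.det g : (Adl K)ˣ) : Adl K) :=
    hN.2.2.2.comp Matrix.GeneralLinearGroup.continuous_det
  have e : (nd627 (K := K)) = fun g : G K =>
      T1.adNorm K ((Matrix.GeneralLinearGroup.det g : (Adl K)ˣ) : Adl K) := funext nd627_eq
  rw [e]
  exact h

theorem adNorm_expIdele627 (t : InfinitePlace K → ℝ) :
    T1.adNorm K ((expIdele627 t : (Adl K)ˣ) : Adl K) = ∏ w, Real.exp (t w) ^ w.mult := by
  unfold T1.adNorm
  have h1 : ∀ v : HeightOneSpectrum (𝓞 K),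
      ‖(((expIdele627 t : (Adl K)ˣ) : Adl K).2 v)‖ = 1 := by
    intro v
    show ‖((1 : FiniteAdeleRing (𝓞 K) K) v)‖ = 1
    exact norm_one
  rw [finprod_eq_one_of_forall_eq_one h1, mul_one]
  refine Finset.prod_congr rfl fun w _ => ?_
  show ‖eR627 w (Real.exp (t w))‖ ^ w.mult = _
  rw [norm_eR627, abs_of_pos (Real.exp_pos _)]

theorem adNorm_expIdele627_const (t : ℝ) :
    T1.adNorm K ((expIdele627 (fun _ => t) : (Adl K)ˣ) : Adl K) =
      Real.exp (Module.finrank ℚ K * t) := by
  rw [adNorm_expIdele627, Finset.prod_pow_eq_pow_sum, InfinitePlace.sum_mult_eq, ← Real.exp_nat_mul]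

theorem nd627_scal (u : (Adl K)ˣ) (hN : T1.AdNormC K) :
    nd627 (scal627 u) = T1.adNorm K (u : Adl K) ^ 2 := by
  unfold nd627
  rw [scal627_val, Matrix.det_diagonal, Fin.prod_univ_two, ← Units.val_mul, hN.2.1, sq]

theorem nd627_zpos (hN : T1.AdNormC K) (t : ℝ) :
    nd627 (zpos627 (K := K) t) = Real.exp (2 * Module.finrank ℚ K * t) := by
  unfold zpos627
  rw [nd627_scal _ hN, adNorm_expIdele627_const, ← Real.exp_nat_mul]
  congr 1; push_cast; ring

end Fermat.Agent.LT.T2.H627

end

end
-- ===== PACK-END LT/T2/H627/Adelic.lean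

-- ===== PACK-BEGIN LT/T3/H237/ConstTerm.lean
section



/-!
# Row LT, tower T3, sub-leaf T3.12 `ConstTermC` (helper237) -- OFF-MAIN

* `constTerm237 : InLocCompC K → InLatticeC K → InFundDomC K → HaarScaleC K → ConstTermC K`
  = the field `Leaves.constTerm` of `LT/T3/Spec.lean` v2, VERBATIM;
* `constTermC_of237 : InLocCompC K → InLatticeC K → ConstTermC K` (the last two hypotheses are
  not used);
* `haarScaleC_of237 : InLocCompC K → InLatticeC K → InFundDomC K → HaarScaleC K`
  = the INPUT `T3In.haarScale` (product formula in measure form) PROVED from the other inputs.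

For a bounded continuous automorphic `ψ` the constant term
`Ψ(g) = ∫_D ψ(n(x) g) dμ'(x)` over a fundamental domain `D` of `K` in `𝔸_K` is continuous, left
invariant under `N(𝔸_K)` and under the rational torus elements `diag(α, 1)`, and the constant term
of `R(f)ψ` is `R(f)Ψ` (Fubini).

By-products (interface facts asked for by the memo of tower T3, sec. 4):
* `measure_fundDom_lt_top237` : cocompactness of `K` gives `μ'(D) < ∞`;
* `measurePreserving_mulK237` : PRODUCT FORMULA in measure form, `x ↦ α x` (`α ∈ Kˣ`) preserves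
  every Haar measure of `𝔸_K` (from cocompactness and ONE fundamental domain; no module, no
  local computation);
* `setIntegral_add_right237`, `setIntegral_mulK237` : the integral of a `K`-periodic function
  over a fundamental domain is invariant under translations and under `x ↦ α⁻¹ x`.

Spec files: `LT/T3/Spec.lean` v2 (helper14@0239b9a63, sha256 44de320b…), `LT/H556/A0.lean`
(helper556@0fa0be5a0), byte-identical copies.
-/

set_option autoImplicit false
set_option linter.unusedSectionVars false
set_option linter.style.haveILetI false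
open IsDedekindDomain NumberField MeasureTheory
open Fermat.Agent.LT.H556.A0
open scoped Pointwise

noncomputable section
namespace Fermat.Agent.LT.T3.H237

variable (K : Type) [Field K] [NumberField K]

/-- A number field is countable. -/
theorem countable_numberField237 : Countable K := by
  have : Module.Finite ℚ K := inferInstance
  let b := Module.finBasis ℚ K
  exact b.equivFun.toEquiv.injective.countable

/-- The principal adeles (group of `A0.IsCuspidalFn`). -/
abbrev princ237 : AddSubgroup (Adl K) := (algebraMap K (Adl K)).toAddMonoidHom.range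

instance countable_princ237 : Countable (princ237 K) := by
  have := countable_numberField237 K
  have : Function.Surjective (fun ξ : K => (⟨algebraMap K (Adl K) ξ, ⟨ξ, rfl⟩⟩ : princ237 K)) := by
    rintro ⟨x, ξ, rfl⟩
    exact ⟨ξ, rfl⟩
  exact this.countable

section GLpart

/-- The rational unipotent `n(ξ)`. -/
def nK237 (ξ : K) : GL (Fin 2) K :=
  ⟨!![1, ξ; 0, 1], !![1, -ξ; 0, 1],
    by ext i j; fin_cases i <;> fin_cases j <;> simp [Matrix.mul_apply, Fin.sum_univ_two],
    by ext i j; fin_cases i <;> fin_cases j <;> simp [Matrix.mul_apply, Fin.sum_univ_two]⟩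

/-- The rational torus element `diag(α, 1)`. -/
def tK237 (α : Kˣ) : GL (Fin 2) K :=
  ⟨!![(α : K), 0; 0, 1], !![((α⁻¹ : Kˣ) : K), 0; 0, 1],
    by ext i j; fin_cases i <;> fin_cases j <;> simp [Matrix.mul_apply, Fin.sum_univ_two],
    by ext i j; fin_cases i <;> fin_cases j <;> simp [Matrix.mul_apply, Fin.sum_univ_two]⟩

theorem unip_emb237 (ξ : K) :
    unip K (algebraMap K (Adl K) ξ)
      = Matrix.GeneralLinearGroup.map (algebraMap K (Adl K)) (nK237 K ξ) := by
  apply Units.ext
  ext i j
  fin_cases i <;> fin_cases j <;> simp [unip, nK237, Matrix.GeneralLinearGroup.map]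

theorem torK_eq237 (α : Kˣ) :
    torK K α = Matrix.GeneralLinearGroup.map (algebraMap K (Adl K)) (tK237 K α) := by
  apply Units.ext
  ext i j
  fin_cases i <;> fin_cases j <;> simp [torK, tK237, Matrix.GeneralLinearGroup.map]

theorem unip_add237 (x y : Adl K) : unip K (x + y) = unip K x * unip K y := by
  apply Units.ext
  ext i j
  fin_cases i <;> fin_cases j <;>
    simp [unip, Matrix.mul_apply, Fin.sum_univ_two, add_comm]

theorem unip_mul_torK237 (x : Adl K) (α : Kˣ) :
    unip K x * torK K α
      = torK K α * unip K (algebraMap K (Adl K) ((α⁻¹ : Kˣ) : K) * x) := by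
  apply Units.ext
  ext i j
  fin_cases i <;> fin_cases j <;>
    simp [unip, torK, Matrix.mul_apply, Fin.sum_univ_two, ← mul_assoc, ← map_mul]

theorem continuous_unip237 : Continuous (unip K) := by
  rw [Units.continuous_iff]
  constructor
  · change Continuous fun x : Adl K => (!![1, x; 0, 1] : Matrix (Fin 2) (Fin 2) (Adl K))
    refine continuous_matrix ?_
    intro i j
    fin_cases i <;> fin_cases j <;> simp <;> fun_prop
  · change Continuous fun x : Adl K => (!![1, -x; 0, 1] : Matrix (Fin 2) (Fin 2) (Adl K))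
    refine continuous_matrix ?_
    intro i j
    fin_cases i <;> fin_cases j <;> simp <;> fun_prop

end GLpart

section Meas

variable [MeasurableSpace (Adl K)] [BorelSpace (Adl K)]

/-- Cocompactness gives finite covolume. -/
theorem measure_fundDom_lt_top237 (μ' : Measure (Adl K)) [μ'.IsAddHaarMeasure]
    (hcoc : ∃ C : Set (Adl K), IsCompact C ∧ ∀ x : Adl K, ∃ ξ : K, x - algebraMap K (Adl K) ξ ∈ C)
    (D : Set (Adl K)) (hD : IsAddFundamentalDomain (princ237 K) D μ') : μ' D < ⊤ := by
  obtain ⟨C, hC, hcov⟩ := hcoc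
  have h1 : μ' C = ∑' g : princ237 K, μ' ((g +ᵥ C) ∩ D) := hD.measure_eq_tsum C
  have h2 : D ⊆ ⋃ g : princ237 K, (g +ᵥ C) ∩ D := by
    intro x hx
    obtain ⟨ξ, hξ⟩ := hcov x
    refine Set.mem_iUnion.2 ⟨⟨algebraMap K (Adl K) ξ, ⟨ξ, rfl⟩⟩, ?_, hx⟩
    refine ⟨x - algebraMap K (Adl K) ξ, hξ, ?_⟩
    change algebraMap K (Adl K) ξ + (x - algebraMap K (Adl K) ξ) = x
    abel
  calc μ' D ≤ μ' (⋃ g : princ237 K, (g +ᵥ C) ∩ D) := measure_mono h2
    _ ≤ ∑' g : princ237 K, μ' ((g +ᵥ C) ∩ D) := measure_iUnion_le _
    _ = μ' C := h1.symm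
    _ < ⊤ := hC.measure_lt_top

/-- The principal idele of `α ∈ Kˣ`. -/
def ratU237 (α : Kˣ) : (Adl K)ˣ := Units.map (algebraMap K (Adl K)).toMonoidHom α

@[simp] theorem ratU237_val (α : Kˣ) : ((ratU237 K α : (Adl K)ˣ) : Adl K) = algebraMap K (Adl K) α :=
  rfl

/-- Multiplication by `α ∈ Kˣ` on the adeles. -/
def mulK237 (α : Kˣ) : Adl K ≃ₜ+ Adl K := ContinuousAddEquiv.mulLeft (ratU237 K α)

@[simp] theorem mulK237_apply (α : Kˣ) (x : Adl K) :
    mulK237 K α x = algebraMap K (Adl K) α * x := rfl

theorem mulK237_symm_apply (α : Kˣ) (x : Adl K) :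
    (mulK237 K α).symm x = algebraMap K (Adl K) ((α⁻¹ : Kˣ) : K) * x := rfl

/-- The preimage of a fundamental domain under multiplication by `α ∈ Kˣ` is a fundamental
domain, as soon as the multiplication is quasi measure preserving. -/
theorem isFund_preimage_mulK237 (μ' : Measure (Adl K))
    (α : Kˣ) (hq : Measure.QuasiMeasurePreserving (mulK237 K α) μ' μ')
    (D : Set (Adl K)) (hD : IsAddFundamentalDomain (princ237 K) D μ') :
    IsAddFundamentalDomain (princ237 K) ((mulK237 K α) ⁻¹' D) μ' := by
  -- the group automorphism `g ↦ α g` of the principal adeles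
  let e : princ237 K → princ237 K := fun g =>
    ⟨algebraMap K (Adl K) ((α⁻¹ : Kˣ) : K) * (g : Adl K), by
      obtain ⟨x, ξ, rfl⟩ := g
      exact ⟨((α⁻¹ : Kˣ) : K) * ξ, by simp⟩⟩
  let e' : princ237 K → princ237 K := fun g =>
    ⟨algebraMap K (Adl K) (α : K) * (g : Adl K), by
      obtain ⟨x, ξ, rfl⟩ := g
      exact ⟨(α : K) * ξ, by simp⟩⟩
  have he : Function.Bijective e := by
    refine Function.bijective_iff_has_inverse.2 ⟨e', ?_, ?_⟩
    · intro g
      apply Subtype.ext
      simp only [e, e']
      rw [← mul_assoc, ← map_mul]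
      simp
    · intro g
      apply Subtype.ext
      simp only [e, e']
      rw [← mul_assoc, ← map_mul]
      simp
  refine hD.preimage_of_equiv hq (e := e) he ?_
  intro g x
  change mulK237 K α (e g +ᵥ x) = g +ᵥ mulK237 K α x
  simp only [mulK237_apply, e]
  change algebraMap K (Adl K) α * (algebraMap K (Adl K) ((α⁻¹ : Kˣ) : K) * (g : Adl K) + x)
    = (g : Adl K) + algebraMap K (Adl K) α * x
  rw [mul_add, ← mul_assoc, ← map_mul]
  simp

/-- **Product formula, measure form.**  Multiplication by `α ∈ Kˣ` preserves every Haar measure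
of the adeles, as soon as `K` is cocompact and has a fundamental domain. -/
theorem measurePreserving_mulK237 [LocallyCompactSpace (Adl K)] [SecondCountableTopology (Adl K)]
    (μ' : Measure (Adl K)) [μ'.IsAddHaarMeasure]
    (hcoc : ∃ C : Set (Adl K), IsCompact C ∧ ∀ x : Adl K, ∃ ξ : K, x - algebraMap K (Adl K) ξ ∈ C)
    (D : Set (Adl K)) (hD : IsAddFundamentalDomain (princ237 K) D μ') (α : Kˣ) :
    MeasurePreserving (mulK237 K α) μ' μ' := by
  have hmeas : Measurable (mulK237 K α) := (mulK237 K α).continuous.measurable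
  haveI : (μ'.map (mulK237 K α)).IsAddHaarMeasure := (mulK237 K α).isAddHaarMeasure_map μ'
  have hsm : μ'.map (mulK237 K α)
      = Measure.addHaarScalarFactor (μ'.map (mulK237 K α)) μ' • μ' :=
    Measure.isAddLeftInvariant_eq_smul (μ'.map (mulK237 K α)) μ'
  have hq : Measure.QuasiMeasurePreserving (mulK237 K α) μ' μ' := by
    refine ⟨hmeas, ?_⟩
    rw [hsm]
    exact Measure.smul_absolutelyContinuous
  have hfd := isFund_preimage_mulK237 K μ' α hq D hD
  have h1 : μ' ((mulK237 K α) ⁻¹' D) = μ' D := hfd.measure_eq hD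
  have h2 : μ'.map (mulK237 K α) D = μ' ((mulK237 K α) ⁻¹' D) :=
    (mulK237 K α).toHomeomorph.toMeasurableEquiv.map_apply D
  have hpos : μ' D ≠ 0 := hD.measure_ne_zero (NeZero.ne μ')
  have hfin : μ' D ≠ ⊤ := (measure_fundDom_lt_top237 K μ' hcoc D hD).ne
  have h3 : ((Measure.addHaarScalarFactor (μ'.map (mulK237 K α)) μ' : NNReal) : ENNReal) * μ' D
      = 1 * μ' D := by
    rw [one_mul]
    conv_rhs => rw [← h1, ← h2, hsm]
    simp [Measure.smul_apply]
  have hc : ((Measure.addHaarScalarFactor (μ'.map (mulK237 K α)) μ' : NNReal) : ENNReal) = 1 :=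
    (ENNReal.mul_left_inj hpos hfin).1 h3
  refine ⟨hmeas, ?_⟩
  rw [hsm]
  have : Measure.addHaarScalarFactor (μ'.map (mulK237 K α)) μ' = 1 := by
    exact_mod_cast hc
  rw [this, one_smul]

/-- `φ` is `K`-periodic. -/
def IsPer237 (φ : Adl K → ℂ) : Prop :=
  ∀ (ξ : K) (x : Adl K), φ (x + algebraMap K (Adl K) ξ) = φ x

/-- Integral of a periodic function over a fundamental domain, composed with a measure
preserving equivalence which maps fundamental domains to fundamental domains. -/
theorem setIntegral_comp_equiv237 (μ' : Measure (Adl K)) [μ'.IsAddHaarMeasure]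
    (D : Set (Adl K)) (hD : IsAddFundamentalDomain (princ237 K) D μ')
    (T : Adl K ≃ᵐ Adl K) (hT : MeasurePreserving T μ' μ')
    (hfd : IsAddFundamentalDomain (princ237 K) (T.symm ⁻¹' D) μ')
    (φ : Adl K → ℂ) (hφ : IsPer237 K φ) :
    ∫ x in D, φ (T x) ∂μ' = ∫ x in D, φ x ∂μ' := by
  have h := hT.setIntegral_preimage_emb T.measurableEmbedding φ (T.symm ⁻¹' D)
  have hpre : T ⁻¹' (T.symm ⁻¹' D) = D := by
    ext x
    simp
  rw [hpre] at h
  rw [h]
  refine hfd.setIntegral_eq hD ?_
  rintro ⟨g, ξ, rfl⟩ x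
  change φ (algebraMap K (Adl K) ξ + x) = φ x
  rw [add_comm]
  exact hφ ξ x

/-- Translation invariance of the integral of a periodic function over a fundamental domain. -/
theorem setIntegral_add_right237 (μ' : Measure (Adl K)) [μ'.IsAddHaarMeasure]
    (D : Set (Adl K)) (hD : IsAddFundamentalDomain (princ237 K) D μ')
    (φ : Adl K → ℂ) (hφ : IsPer237 K φ) (y : Adl K) :
    ∫ x in D, φ (x + y) ∂μ' = ∫ x in D, φ x ∂μ' := by
  have hT : MeasurePreserving (MeasurableEquiv.addRight y) μ' μ' :=
    measurePreserving_add_right μ' y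
  have hTs : MeasurePreserving (MeasurableEquiv.addRight y).symm μ' μ' := hT.symm
  have hfd : IsAddFundamentalDomain (princ237 K) ((MeasurableEquiv.addRight y).symm ⁻¹' D) μ' := by
    refine hD.preimage_of_equiv hTs.quasiMeasurePreserving (e := id) Function.bijective_id ?_
    intro g x
    change (MeasurableEquiv.addRight y).symm (g +ᵥ x) = g +ᵥ (MeasurableEquiv.addRight y).symm x
    simp only [MeasurableEquiv.symm_addRight, MeasurableEquiv.coe_addRight]
    change ((g : Adl K) + x) + -y = (g : Adl K) + (x + -y)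
    abel
  exact setIntegral_comp_equiv237 K μ' D hD (MeasurableEquiv.addRight y) hT hfd φ hφ

/-- Invariance under `x ↦ α⁻¹ x`, `α ∈ Kˣ`, of the integral of a periodic function over a
fundamental domain. -/
theorem setIntegral_mulK237 [LocallyCompactSpace (Adl K)] [SecondCountableTopology (Adl K)]
    (μ' : Measure (Adl K)) [μ'.IsAddHaarMeasure]
    (hcoc : ∃ C : Set (Adl K), IsCompact C ∧ ∀ x : Adl K, ∃ ξ : K, x - algebraMap K (Adl K) ξ ∈ C)
    (D : Set (Adl K)) (hD : IsAddFundamentalDomain (princ237 K) D μ')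
    (φ : Adl K → ℂ) (hφ : IsPer237 K φ) (α : Kˣ) :
    ∫ x in D, φ (algebraMap K (Adl K) ((α⁻¹ : Kˣ) : K) * x) ∂μ' = ∫ x in D, φ x ∂μ' := by
  have hmp := measurePreserving_mulK237 K μ' hcoc D hD α
  let T : Adl K ≃ᵐ Adl K := (mulK237 K α).toHomeomorph.toMeasurableEquiv.symm
  have hT : MeasurePreserving T μ' μ' :=
    MeasurePreserving.symm (mulK237 K α).toHomeomorph.toMeasurableEquiv hmp
  have hfd : IsAddFundamentalDomain (princ237 K) (T.symm ⁻¹' D) μ' :=
    isFund_preimage_mulK237 K μ' α hmp.quasiMeasurePreserving D hD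
  exact setIntegral_comp_equiv237 K μ' D hD T hT hfd φ hφ

end Meas

section Main

variable [MeasurableSpace (Adl K)] [BorelSpace (Adl K)] [MeasurableSpace (G K)] [BorelSpace (G K)]
  [LocallyCompactSpace (Adl K)] [SecondCountableTopology (Adl K)]
  [LocallyCompactSpace (G K)] [SecondCountableTopology (G K)]

/-- The constant term leaf, with the topological facts as instances. -/
theorem constTerm_aux237
    (hcoc : ∃ C : Set (Adl K), IsCompact C ∧ ∀ x : Adl K, ∃ ξ : K, x - algebraMap K (Adl K) ξ ∈ C)
    (μ : Measure (G K)) [μ.IsHaarMeasure]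
    (f : G K → ℂ) (hf : Continuous f) (hfc : HasCompactSupport f)
    (ψ : G K → ℂ) (hψ : IsAutFn K ψ)
    (μ' : Measure (Adl K)) [μ'.IsAddHaarMeasure]
    (D : Set (Adl K)) (hD : IsAddFundamentalDomain (princ237 K) D μ') :
    ∃ Ψ : G K → ℂ, Continuous Ψ ∧ (∀ (x : Adl K) (g : G K), Ψ (unip K x * g) = Ψ g) ∧
      (∀ (α : Kˣ) (g : G K), Ψ (torK K α * g) = Ψ g) ∧
      ∀ g : G K, ∫ x in D, Rop K μ f ψ (unip K x * g) ∂μ' = Rop K μ f Ψ g := by
  obtain ⟨C, hC⟩ := hψ.bdd
  have hDfin : μ' D < ⊤ := measure_fundDom_lt_top237 K μ' hcoc D hD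
  haveI : IsFiniteMeasure (μ'.restrict D) := ⟨by simpa using hDfin⟩
  -- periodicity
  have hper : ∀ g : G K, IsPer237 K (fun x => ψ (unip K x * g)) := by
    intro g ξ x
    show ψ (unip K (x + algebraMap K (Adl K) ξ) * g) = ψ (unip K x * g)
    rw [add_comm, unip_add237, unip_emb237, mul_assoc]
    exact hψ.left_inv _ _
  refine ⟨fun g => ∫ x in D, ψ (unip K x * g) ∂μ', ?_, ?_, ?_, ?_⟩
  · -- continuity
    refine continuous_of_dominated (bound := fun _ => C) ?_ ?_ ?_ ?_
    · intro g
      exact (hψ.cont.comp ((continuous_unip237 K).mul continuous_const)).aestronglyMeasurable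
    · intro g
      exact Filter.Eventually.of_forall fun x => hC _
    · exact integrable_const _
    · exact Filter.Eventually.of_forall fun x =>
        hψ.cont.comp (continuous_const.mul continuous_id)
  · intro y g
    show ∫ x in D, ψ (unip K x * (unip K y * g)) ∂μ' = ∫ x in D, ψ (unip K x * g) ∂μ'
    have h := setIntegral_add_right237 K μ' D hD _ (hper g) y
    rw [← h]
    refine integral_congr_ae (Filter.Eventually.of_forall fun x => ?_)
    show ψ (unip K x * (unip K y * g)) = ψ (unip K (x + y) * g)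
    rw [unip_add237, mul_assoc]
  · intro α g
    show ∫ x in D, ψ (unip K x * (torK K α * g)) ∂μ' = ∫ x in D, ψ (unip K x * g) ∂μ'
    have h := setIntegral_mulK237 K μ' hcoc D hD _ (hper g) α
    rw [← h]
    refine integral_congr_ae (Filter.Eventually.of_forall fun x => ?_)
    show ψ (unip K x * (torK K α * g))
      = ψ (unip K (algebraMap K (Adl K) ((α⁻¹ : Kˣ) : K) * x) * g)
    rw [← mul_assoc, unip_mul_torK237, mul_assoc, torK_eq237]
    exact hψ.left_inv _ _
  · intro g
    unfold Rop
    have hfi : Integrable f μ := hf.integrable_of_hasCompactSupport hfc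
    have hb : Integrable (fun z : Adl K × G K => (fun _ : Adl K => C) z.1 * (fun h => ‖f h‖) z.2)
        ((μ'.restrict D).prod μ) :=
      Integrable.mul_prod (integrable_const C) hfi.norm
    have hcont : Continuous (Function.uncurry fun (x : Adl K) (h : G K) =>
        ψ (unip K x * g * h) * f h) := by
      refine Continuous.mul (hψ.cont.comp ?_) (hf.comp continuous_snd)
      exact (((continuous_unip237 K).comp continuous_fst).mul continuous_const).mul continuous_snd
    have hint : Integrable (Function.uncurry fun (x : Adl K) (h : G K) =>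
        ψ (unip K x * g * h) * f h) ((μ'.restrict D).prod μ) := by
      refine hb.mono' hcont.aestronglyMeasurable (Filter.Eventually.of_forall ?_)
      rintro ⟨x, h⟩
      show ‖ψ (unip K x * g * h) * f h‖ ≤ C * ‖f h‖
      rw [norm_mul]
      exact mul_le_mul_of_nonneg_right (hC _) (norm_nonneg _)
    rw [integral_integral_swap hint]
    refine integral_congr_ae (Filter.Eventually.of_forall fun h => ?_)
    show ∫ x in D, ψ (unip K x * g * h) * f h ∂μ'
      = (∫ x in D, ψ (unip K x * (g * h)) ∂μ') * f h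
    rw [integral_mul_const]
    simp only [mul_assoc]

end Main

/-- **T3.12 = `ConstTermC`**, from local compactness and cocompactness only. -/
theorem constTermC_of237 (hLC : InLocCompC K) (hLat : InLatticeC K) : ConstTermC K := by
  obtain ⟨⟨hA1, _, hA3⟩, hG1, _, hG3⟩ := hLC
  obtain ⟨_, _, hcoc⟩ := hLat
  intro μ hμ f hf hfc ψ hψ μ' hμ' D hD
  letI : MeasurableSpace (Adl K) := borel (Adl K)
  letI : MeasurableSpace (G K) := borel (G K)
  haveI : BorelSpace (Adl K) := ⟨rfl⟩
  haveI : BorelSpace (G K) := ⟨rfl⟩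
  exact constTerm_aux237 K hcoc μ f hf hfc ψ hψ μ' D hD

/-- **T3.12**, in the exact shape of the field `Leaves.constTerm` of `LT/T3/Spec.lean` v2. -/
theorem constTerm237 :
    InLocCompC K → InLatticeC K → InFundDomC K → HaarScaleC K → ConstTermC K :=
  fun hLC hLat _ _ => constTermC_of237 K hLC hLat

/-- **The input `HaarScaleC` of tower T3 (product formula, measure form)** follows from the
inputs `InLocCompC`, `InLatticeC`, `InFundDomC`: multiplication by `α ∈ Kˣ` preserves every Haar
measure of `𝔸_K`. -/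
theorem haarScaleC_of237 (hLC : InLocCompC K) (hLat : InLatticeC K) (hFD : InFundDomC K) :
    HaarScaleC K := by
  obtain ⟨⟨hA1, _, hA3⟩, _, _, _⟩ := hLC
  obtain ⟨_, _, hcoc⟩ := hLat
  intro ν hν α
  letI : MeasurableSpace (Adl K) := borel (Adl K)
  haveI : BorelSpace (Adl K) := ⟨rfl⟩
  obtain ⟨D, _, hD, _, _, _⟩ := hFD ν hν
  exact (measurePreserving_mulK237 K ν hcoc D hD α).map_eq

end Fermat.Agent.LT.T3.H237

end
end
-- ===== PACK-END LT/T3/H237/ConstTerm.lean

-- ===== PACK-BEGIN LT/T3/H57/Leaves.lean
section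





/-!
# Row LT, tower T3 (volunteer helper57): the leaves T3.03, T3.04, T3.06 of `T3/Spec.lean` v2

OFF-MAIN.  Against `Fermat/Agent/LT/T3/Spec.lean` of helper14@0239b9a63 (sha256 44de320b8621) and
`LT/H556/A0.lean` (sha256 66d3374a79ca), byte-identical copies.

* `perpND57 : InLocCompC K → InLatticeC K → PerpNDC K`                       (T3.03)
* `completeND57 : InLocCompC K → InLatticeC K → InFundDomC K → PerpNDC K → CompleteNDC K` (T3.04)
* `poissonND57 : InLocCompC K → InLatticeC K → InFundDomC K → CompleteNDC K → UnfoldC K →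
    PoissonNDC K`                                                               (T3.06)

from the abstract theorems `annihilator_eq_range57`, `complete_abstract57`, `poisson_ring57`.
-/

set_option autoImplicit false
set_option linter.unusedSectionVars false
set_option linter.unusedVariables false
set_option linter.style.haveILetI false

open IsDedekindDomain NumberField MeasureTheory
open Fermat.Agent.LT.H556.A0 Fermat.Agent.LT.T3
open ComplexConjugate

noncomputable section

namespace Fermat.Agent.LT.T3.H57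

variable (K : Type) [Field K] [NumberField K]

/-- The complex valued function of a circle valued character. -/
def cval57 (ψ : AddChar (Adl K) Circle) : Adl K → ℂ := fun x => ((ψ x : Circle) : ℂ)

theorem cval57_cont (ψ : AddChar (Adl K) Circle) (h : Continuous ψ) :
    Continuous (cval57 K ψ) := continuous_subtype_val.comp h

theorem cval57_add (ψ : AddChar (Adl K) Circle) (x y : Adl K) :
    cval57 K ψ (x + y) = cval57 K ψ x * cval57 K ψ y := by
  show ((ψ (x + y) : Circle) : ℂ) = _
  rw [AddChar.map_add_eq_mul, Circle.coe_mul]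
  rfl

theorem cval57_norm (ψ : AddChar (Adl K) Circle) (x : Adl K) : ‖cval57 K ψ x‖ = 1 :=
  Circle.norm_coe _

theorem cval57_eq_one (ψ : AddChar (Adl K) Circle) (x : Adl K) :
    cval57 K ψ x = 1 ↔ ψ x = 1 := Circle.coe_eq_one

theorem cval57_neg (ψ : AddChar (Adl K) Circle) (x : Adl K) :
    cval57 K ψ (-x) = conj (cval57 K ψ x) := by
  show ((ψ (-x) : Circle) : ℂ) = _
  rw [AddChar.map_neg_eq_inv, Circle.coe_inv_eq_conj]
  rfl

theorem nontrivial_adl57 : Nontrivial (Adl K) := by
  refine ⟨⟨0, 1, fun h => ?_⟩⟩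
  have h1 : (0 : Adl K).1 = (1 : Adl K).1 := congrArg Prod.fst h
  exact zero_ne_one (α := InfiniteAdeleRing K) h1

theorem countable_range57 :
    Countable ((algebraMap K (Adl K)).toAddMonoidHom.range) := by
  have := countable_of_numberField57 K
  have hs : Function.Surjective
      (fun ξ : K => (⟨algebraMap K (Adl K) ξ, ξ, rfl⟩ :
        (algebraMap K (Adl K)).toAddMonoidHom.range)) := by
    rintro ⟨_, ξ, rfl⟩
    exact ⟨ξ, rfl⟩
  exact hs.countable

/-- **T3.03** `PerpNDC`. -/
theorem perpND57 (_h1 : InLocCompC K) (h2 : InLatticeC K) : PerpNDC K := by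
  intro ψ hψ hnd x hx
  obtain ⟨-, -, hcc⟩ := h2
  refine annihilator_eq_range57 (algebraMap K (Adl K)) (cval57 K ψ) hcc
    (cval57_cont K ψ hψ.cont) (cval57_add K ψ) (cval57_norm K ψ)
    (fun ξ => (cval57_eq_one K ψ _).mpr (hψ.triv ξ))
    (fun y hy => hnd y fun z => (cval57_eq_one K ψ _).mp (hy z)) x (fun ξ => ?_)
  rw [mul_comm]
  exact (cval57_eq_one K ψ _).mpr (hx ξ)

/-- **T3.04** `CompleteNDC`. -/
theorem completeND57 (_h1 : InLocCompC K) (h2 : InLatticeC K) (h3 : InFundDomC K)
    (h4 : PerpNDC K) : CompleteNDC K := by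
  letI : MeasurableSpace (Adl K) := borel (Adl K)
  haveI : BorelSpace (Adl K) := ⟨rfl⟩
  intro ψ hψ hnd μ hμ D hD F hFc hFper h0 x
  haveI := hμ
  obtain ⟨-, -, hcc⟩ := h2
  haveI := countable_range57 K
  haveI := compactSpace_quotient_of_cocompact57 (algebraMap K (Adl K)) hcc
  obtain ⟨D', -, hD', -, -, hD'fin⟩ := h3 μ hμ
  have hfin : μ D ≠ ⊤ := by
    rw [hD.measure_eq hD']
    exact hD'fin.ne
  refine complete_abstract57 ((algebraMap K (Adl K)).toAddMonoidHom.range) μ D hD hfin
    (fun (η : K) (y : Adl K) => cval57 K ψ (y * emb K η))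
    (fun η => (cval57_cont K ψ hψ.cont).comp (continuous_id.mul continuous_const))
    (fun η y z => by rw [add_mul, cval57_add])
    (fun η y => cval57_norm K ψ _)
    (fun η γ hγ => by
      obtain ⟨ξ, rfl⟩ := hγ
      show cval57 K ψ (algebraMap K (Adl K) ξ * emb K η) = 1
      rw [(cval57_eq_one K ψ _)]
      have := hψ.triv (ξ * η)
      rwa [map_mul] at this)
    ⟨0, fun y => by
      show cval57 K ψ (y * emb K 0) = 1
      rw [map_zero, mul_zero, (cval57_eq_one K ψ _)]
      exact AddChar.map_zero_eq_one ψ⟩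
    (fun η η' => ⟨η + η', fun y => by
      show cval57 K ψ (y * emb K (η + η')) = _
      rw [map_add, mul_add, cval57_add]⟩)
    (fun η => ⟨-η, fun y => by
      show cval57 K ψ (y * emb K (-η)) = _
      rw [map_neg, mul_neg, cval57_neg]⟩)
    (fun y hy => by
      obtain ⟨ξ₀, hξ₀⟩ := h4 ψ hψ hnd y fun ξ => (cval57_eq_one K ψ _).mp (hy ξ)
      exact ⟨ξ₀, hξ₀.symm⟩)
    F hFc
    (fun γ hγ y => by
      obtain ⟨ξ, rfl⟩ := hγ
      rw [add_comm]
      exact hFper ξ y)
    (fun η => h0 η) x

/-- Normal convergence on compact sets implies continuity of the periodisation. -/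
theorem continuous_of_normallySummable57 (h1 : InLocCompC K) (φ : Adl K → ℂ)
    (hφc : Continuous φ) (hφn : IsNormallySummable K φ) :
    Continuous fun x => ∑' ξ : K, φ (x + emb K ξ) := by
  haveI : LocallyCompactSpace (Adl K) := h1.1.1
  rw [continuous_iff_continuousAt]
  intro x₀
  obtain ⟨C, hC, hCn⟩ := exists_compact_mem_nhds x₀
  obtain ⟨b, hb, hbφ⟩ := hφn C hC
  have hon : ContinuousOn (fun x => ∑' ξ : K, φ (x + emb K ξ)) C :=
    continuousOn_tsum
      (fun ξ => (hφc.comp (continuous_id.add continuous_const)).continuousOn) hb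
      (fun ξ x hx => hbφ ξ x hx)
  exact hon.continuousAt hCn

/-- **T3.06** `PoissonNDC` (the hypotheses `CompleteNDC`, `UnfoldC` of the leaf shape are not
used: the abstract theorem contains them). -/
theorem poissonND57 (h1 : InLocCompC K) (h2 : InLatticeC K) (_h3 : InFundDomC K)
    (_h4 : CompleteNDC K) (_h5 : UnfoldC K) : PoissonNDC K := by
  letI : MeasurableSpace (Adl K) := borel (Adl K)
  haveI : BorelSpace (Adl K) := ⟨rfl⟩
  intro ψ hψ hnd μ hμ hcov φ hφc hφi hφn hhat
  haveI := hμ
  obtain ⟨D, hD, hvol⟩ := hcov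
  obtain ⟨-, -, hcc⟩ := h2
  haveI := countable_of_numberField57 K
  haveI := nontrivial_adl57 K
  -- the conjugate character
  let ψc : Adl K → ℂ := fun y => cval57 K ψ (-y)
  have hψc_conj : ∀ y, conj (ψc y) = cval57 K ψ y := fun y => by
    show conj (cval57 K ψ (-y)) = _
    rw [cval57_neg, Complex.conj_conj]
  have hF : ∀ ξ : K, fourierAd K ψ μ φ (emb K ξ)
      = ∫ x, φ x * conj (ψc (algebraMap K (Adl K) ξ * x)) ∂μ := by
    intro ξ
    show ∫ x, φ x * ((ψ (x * emb K ξ) : Circle) : ℂ) ∂μ = _
    congr 1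
    ext x
    rw [hψc_conj, mul_comm (algebraMap K (Adl K) ξ) x]
    rfl
  simp only [hF] at hhat ⊢
  exact poisson_ring57 (algebraMap K (Adl K)) μ D ψc hcc hD hvol
    ((cval57_cont K ψ hψ.cont).comp continuous_neg)
    (fun x y => by
      show cval57 K ψ (-(x + y)) = cval57 K ψ (-x) * cval57 K ψ (-y)
      rw [neg_add, cval57_add])
    (fun x => cval57_norm K ψ _)
    (fun ξ => by
      show cval57 K ψ (-(algebraMap K (Adl K) ξ)) = 1
      rw [← map_neg, (cval57_eq_one K ψ _)]
      exact hψ.triv (-ξ))
    (fun x hx => hnd x fun y => by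
      have := hx (-y)
      have h' : cval57 K ψ (-(x * -y)) = 1 := this
      rw [mul_neg, neg_neg] at h'
      exact (cval57_eq_one K ψ _).mp h')
    φ hφc hφi (continuous_of_normallySummable57 K h1 φ hφc hφn) hhat

/-- The three leaves in the exact shape of the fields of `T3.Leaves`. -/
theorem leaves_shape57 :
    (InLocCompC K → InLatticeC K → PerpNDC K) ∧
    (InLocCompC K → InLatticeC K → InFundDomC K → PerpNDC K → CompleteNDC K) ∧
    (InLocCompC K → InLatticeC K → InFundDomC K → CompleteNDC K → UnfoldC K → PoissonNDC K) :=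
  ⟨perpND57 K, completeND57 K, poissonND57 K⟩

end Fermat.Agent.LT.T3.H57

end

end
-- ===== PACK-END LT/T3/H57/Leaves.lean

-- ===== PACK-BEGIN LT/T3/H465/EKBasic.lean
section



/-!
# Row LT, tower T3, leaf T3.14 (`EKIdealC`), part 1: elementary facts (helper465), OFF-MAIN

Continuity of `unip`, the homomorphism property of `torK`, the `(0,0)` entry of `n(x) diag(β,1)`.
-/

set_option autoImplicit false

open IsDedekindDomain NumberField MeasureTheory
open Fermat.Agent.LT.H556.A0

noncomputable section

namespace Fermat.Agent.LT.T3.H465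

open Fermat.Agent.LT.T3

variable (K : Type) [Field K] [NumberField K]

/-- `x ↦ n(x)` is continuous. -/
theorem continuous_unip465 : Continuous (unip K) := by
  rw [Units.continuous_iff]
  constructor
  · refine continuous_matrix (fun i j => ?_)
    fin_cases i <;> fin_cases j <;> simp [unip] <;> fun_prop
  · refine continuous_matrix (fun i j => ?_)
    fin_cases i <;> fin_cases j <;> simp [unip] <;> fun_prop

/-- The `(0,1)` entry is continuous on `GL₂(𝔸_K)`. -/
theorem continuous_entry465 (i j : Fin 2) :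
    Continuous (fun g : G K => (g : Matrix (Fin 2) (Fin 2) (Adl K)) i j) :=
  Continuous.matrix_elem Units.continuous_val i j

theorem unip_entry01_465 (x : Adl K) :
    ((unip K x : G K) : Matrix (Fin 2) (Fin 2) (Adl K)) 0 1 = x := by
  simp [unip]

theorem torK_one465 : torK K 1 = 1 := by
  apply Units.ext
  ext i j
  fin_cases i <;> fin_cases j <;> simp [torK]

theorem torK_mul465 (α β : Kˣ) : torK K (α * β) = torK K α * torK K β := by
  apply Units.ext
  ext i j
  fin_cases i <;> fin_cases j <;>
    simp [torK, Matrix.mul_apply, Fin.sum_univ_two, map_mul]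

/-- `torK` as a homomorphism. -/
def torKHom465 : Kˣ →* G K where
  toFun := torK K
  map_one' := torK_one465 K
  map_mul' := torK_mul465 K

theorem torK_zpow465 (α : Kˣ) (j : ℤ) : torK K α ^ j = torK K (α ^ j) :=
  (map_zpow (torKHom465 K) α j).symm

/-- The `(0,0)` entry of `n(x) diag(β,1)` is `β`. -/
theorem unip_mul_torK_entry465 (x : Adl K) (β : Kˣ) :
    ((unip K x * torK K β : G K) : Matrix (Fin 2) (Fin 2) (Adl K)) 0 0 = emb K (β : K) := by
  simp [unip, torK, Matrix.mul_apply, Fin.sum_univ_two]

end Fermat.Agent.LT.T3.H465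

end

end
-- ===== PACK-END LT/T3/H465/EKBasic.lean

-- ===== PACK-BEGIN LT/T5/H40/HS0Spec.lean
section



/-!
# Row LT, tower T5, leaf T5.02 `LeafHS0` (Hilbert--Schmidt, untwisted kernel): SUB-SPEC (helper40)

OFF-MAIN.  Definitions + frozen sub-leaf Props; the PROVED top `leafHS0_of_leaves` is in
`HS0Top.lean`.  Imports: `T5/Spec.lean` (helper32, v3, sha256 `d6f8b00ae5f1…`) and `T1/Spec.lean`
(helper54, sha256 `e8ae48d6010e…`), byte-identical copies.

## Route: the kernel of an Eisenstein-killing test function is BOUNDED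

`LeafHS0` asks `K_φ(x,y) = ∑_γ φ♭(x⁻¹ γ y) ∈ L²(F × F)`, `μ(F) < ∞`.  We prove more: `K_φ` is
continuous and BOUNDED on `GL₂(𝔸) × GL₂(𝔸)` when `φ` and `φ*` are Eisenstein-killing
(Gelfand--Piatetski-Shapiro; Godement, *Notes on Jacquet--Langlands* §3; Lindenstrauss--Venkatesh
§3).  `H` = the height of `T1` (`T1.HasHeight`), `c` = the constant of `T1.ReductionC`.

* `KerContC`     : `K_φ` is continuous on `G × G` (the sum over `(γ, m)` is locally finite).
* `RayCentralC`  : the ray generator is central.
* `AdjTestC`     : `φ*` is a test function.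
* `LowBddC`      : `K_φ` is bounded on `{c ≤ H(x), H(y) ≤ T}` (Siegel sets are compact modulo
                   `B(K) Z(𝔸)` and the ray; Fujisaki for the centre).  No EK needed.
* `OnlyBorelC`   : for `H(x) ≥ T₁`, `H(y) ≥ c` only `γ ∈ B(K)` contributes to `K_φ(x,y)`
                   (`T1.SiegelSepC` + bounded distortion of the height under a compact set).
* `BorelSumBddC` : THE ESTIMATE.  For `φ` Eisenstein-killing, `𝔫 ≠ 0`, and `H(x) ≥ T₂`, the sum
                   `∑_{β ∈ B(K)} φ♭(x⁻¹ β y)` is bounded uniformly in `x` and in ALL `y`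
                   (Poisson summation over `N(K)`; the term `ξ = 0` summed over `T(K)` vanishes by
                   EK; the terms `ξ ≠ 0` are `O(s^{n-N})` by smoothness at infinity).
                   STATION: cut in `HS0Core.lean`.

Then `K_φ` is bounded: move `x, y` into the Siegel set (`T1.ReductionC`, invariance of the
kernel); `H(x) ≥ T₀`: `OnlyBorelC` + `BorelSumBddC` for `φ`; `H(y) ≥ T₀`: the same for `φ*`
(`K_{φ*}(y,x) = conj K_φ(x,y)`); otherwise `LowBddC`.

REMARK (`𝔫 = 0`).  For `𝔫 = ⊥` the level group is trivial and a test function is only continuous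
in the finite adelic variables; the estimate needs `U(𝔫)` open.  The top carries `𝔫 ≠ ⊥`.
-/

set_option autoImplicit false

open IsDedekindDomain NumberField MeasureTheory
open scoped MatrixGroups ComplexConjugate

noncomputable section

namespace Fermat.Agent.LT.T5.H40

open Fermat.Agent.LT.H556.A0 Fermat.Agent.LT.T5

attribute [local instance] Fermat.Agent.LT.T5.instMeasurableSpaceG

variable (K : Type) [Field K] [NumberField K]

/-- The rational upper triangular matrices `B(K)`, as a subtype of `GL₂(K)`. -/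
abbrev BorelRat : Type := {γ : GL (Fin 2) K // T1.IsUpperRat K γ}

variable {K}

/-- The part of the kernel coming from `B(K)`: `∑_{β ∈ B(K)} φ♭(x⁻¹ β y)`. -/
def borelSum (r : G K) (φ : G K → ℂ) (x y : G K) : ℂ :=
  ∑' β : BorelRat K, flat r φ (x⁻¹ * ratG (β : GL (Fin 2) K) * y)

variable (K)

/-- **T5.02a.**  The kernel of a continuous compactly supported function is continuous on
`G × G`.  (`GL₂(K) · ⟨r⟩` is discrete and closed in `GL₂(𝔸_K)`: `T1.DiscreteC` and
`‖det r‖ = 2`; the double sum is locally finite.) -/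
def KerContC : Prop :=
  ∀ r : G K, IsRayGen r → ∀ φ : G K → ℂ, Continuous φ → HasCompactSupport φ →
    Continuous (fun p : G K × G K => ker0 r φ p.1 p.2)

/-- **T5.02b.**  The generator of the discrete ray is central. -/
def RayCentralC : Prop :=
  ∀ r : G K, IsRayGen r → ∀ g : G K, g * r = r * g

/-- **T5.02c.**  The adjoint of a test function is a test function. -/
def AdjTestC (𝔫 : Ideal (𝓞 K)) (τ : G K → ℂ) : Prop :=
  ∀ φ : G K → ℂ, IsTestFn 𝔫 τ φ → IsTestFn 𝔫 τ (adjointFn φ)

/-- **T5.02d.**  The kernel is bounded where both heights are bounded (above and below). -/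
def LowBddC : Prop :=
  ∀ r : G K, IsRayGen r → ∀ φ : G K → ℂ, Continuous φ → HasCompactSupport φ →
    ∀ c T : ℝ, 0 < c → ∃ B : ℝ, ∀ (x y : G K) (tx ty : ℝ),
      T1.HasHeight K x tx → T1.HasHeight K y ty → c ≤ tx → tx ≤ T → c ≤ ty → ty ≤ T →
        ‖ker0 r φ x y‖ ≤ B

/-- **T5.02e.**  High in the cusp only the rational upper triangular matrices contribute. -/
def OnlyBorelC : Prop :=
  ∀ r : G K, IsRayGen r → ∀ φ : G K → ℂ, Continuous φ → HasCompactSupport φ →
    ∀ c : ℝ, 0 < c → ∃ T₁ : ℝ, ∀ (x y : G K) (tx ty : ℝ),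
      T1.HasHeight K x tx → T1.HasHeight K y ty → T₁ ≤ tx → c ≤ ty →
        ∀ γ : GL (Fin 2) K, ¬ T1.IsUpperRat K γ → flat r φ (x⁻¹ * ratG γ * y) = 0

/-- **T5.02f (THE ESTIMATE of Gelfand--Piatetski-Shapiro, boundedness form).**  For an
Eisenstein-killing test function of level `𝔫 ≠ 0` the `B(K)`-part of the kernel is bounded for
`x` high in the cusp, uniformly in `y ∈ GL₂(𝔸_K)`. -/
def BorelSumBddC (𝔫 : Ideal (𝓞 K)) (τ : G K → ℂ) : Prop :=
  𝔫 ≠ ⊥ →
  ∀ (μ : Measure (G K)) (F : Set (G K)) (r : G K), IsFrame μ F → IsRayGen r →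
    ∀ φ : G K → ℂ, IsTestFn 𝔫 τ φ → IsEK μ φ →
      ∃ T₂ B : ℝ, ∀ (x : G K) (tx : ℝ), T1.HasHeight K x tx → T₂ ≤ tx →
        ∀ y : G K, ‖borelSum r φ x y‖ ≤ B

/-- **The kernel of an Eisenstein-killing test function is bounded.** -/
def KerBddC (𝔫 : Ideal (𝓞 K)) (τ : G K → ℂ) : Prop :=
  ∀ (μ : Measure (G K)) (F : Set (G K)) (r : G K), IsFrame μ F → IsRayGen r →
    ∀ φ : G K → ℂ, IsTestFn 𝔫 τ φ → IsEK μ φ → IsEK μ (adjointFn φ) →
      ∃ B : ℝ, ∀ x y : G K, ‖ker0 r φ x y‖ ≤ B

/-- ALL SUB-LEAVES of T5.02 for the number field `K`, the level `𝔫` and the type `τ`. -/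
structure HS0Leaves (𝔫 : Ideal (𝓞 K)) (τ : G K → ℂ) : Prop where
  kerCont : KerContC K
  rayCentral : RayCentralC K
  adjTest : AdjTestC K 𝔫 τ
  lowBdd : LowBddC K
  onlyBorel : OnlyBorelC K
  borelSumBdd : BorelSumBddC K 𝔫 τ

end Fermat.Agent.LT.T5.H40

end

end
-- ===== PACK-END LT/T5/H40/HS0Spec.lean

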