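import Mathlib
import Fermat.Agent.Pack.LT2.E0L2
import Fermat.Agent.Pack.LT2.E2L1
import Fermat.Agent.Pack.LT2.E0L1
import Fermat.Agent.Pack.LT2.E2L2
import Fermat.Agent.Pack.LT2.E2L0
import Fermat.Agent.Pack.LT2.E3L2

set_option linter.all false

-- ===== PACK-BEGIN LT/T2/H566/Local.lean
section




/-!
# Row LT, tower T2, leaf T2.09 (helper566): elements of `GL₂(𝔸_K)` supported at one place

OFF-MAIN.  Imports: Mathlib, `LT/H556/A0.lean`, `LT/T1/H793/AdeleProj.lean` (helper793,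
byte-identical copy).

* `trivAtInf_iff566`, `trivAtFin_iff566`: triviality at a place = the component is `1`.
* `IsLocalAtFin.mul566`, `IsLocalAtFin.inv566`.
* `eq_of_isLocalAtInf566`: an element supported at the infinite place `w` is determined by
  `infComp w`.
* `integers_subset_idealClosure566`: `𝒪_v ⊆ idealClosure 𝔫 v` for `v ∤ 𝔫`.
* `inLevelGroup_of_local566`: an element supported at `v ∤ 𝔫`, integral with integral inverse,
  lies in the level group `U(𝔫)`.
-/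

set_option autoImplicit false
set_option linter.unusedSectionVars false
set_option linter.style.haveILetI false

open IsDedekindDomain NumberField
open Fermat.Agent.LT.H556.A0 Fermat.Agent.LT.T1.H793

noncomputable section

namespace Fermat.Agent.LT.T2.H566

variable {K : Type} [Field K] [NumberField K]

theorem trivAtInf_iff566 (w : InfinitePlace K) (g : G K) :
    TrivAtInf w g ↔ glInf793 w g = 1 := by
  constructor
  · intro h
    apply Units.ext
    rw [glInf793_coe]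
    refine Matrix.ext (fun i j => ?_)
    simpa [Matrix.map_apply] using h i j
  · intro h i j
    have := congrArg (fun x : GL (Fin 2) w.Completion =>
      (x : Matrix (Fin 2) (Fin 2) w.Completion) i j) h
    simpa [glInf793_coe, Matrix.map_apply] using this

theorem trivAtFin_iff566 (v : HeightOneSpectrum (𝓞 K)) (g : G K) :
    TrivAtFin v g ↔ glFin793 v g = 1 := by
  unfold TrivAtFin
  rw [finComp_eq793]
  constructor
  · intro h
    exact Units.ext h
  · intro h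
    rw [h]
    rfl

theorem finComp_mul566 (v : HeightOneSpectrum (𝓞 K)) (g h : G K) :
    finComp v (g * h) = finComp v g * finComp v h := by
  rw [finComp_eq793, finComp_eq793, finComp_eq793, map_mul]
  rfl

theorem finComp_one566 (v : HeightOneSpectrum (𝓞 K)) : finComp v (1 : G K) = 1 := by
  rw [finComp_eq793, map_one]
  rfl

theorem finComp_inv_mul566 (v : HeightOneSpectrum (𝓞 K)) (g : G K) :
    finComp v g⁻¹ * finComp v g = 1 := by
  rw [← finComp_mul566, inv_mul_cancel, finComp_one566]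

theorem finComp_mul_inv566 (v : HeightOneSpectrum (𝓞 K)) (g : G K) :
    finComp v g * finComp v g⁻¹ = 1 := by
  rw [← finComp_mul566, mul_inv_cancel, finComp_one566]

theorem IsLocalAtFin.mul566 {v : HeightOneSpectrum (𝓞 K)} {g h : G K}
    (hg : IsLocalAtFin v g) (hh : IsLocalAtFin v h) : IsLocalAtFin v (g * h) := by
  refine ⟨fun w => ?_, fun v' hv' => ?_⟩
  · rw [trivAtInf_iff566, map_mul, (trivAtInf_iff566 w g).1 (hg.1 w),
      (trivAtInf_iff566 w h).1 (hh.1 w), one_mul]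
  · rw [trivAtFin_iff566, map_mul, (trivAtFin_iff566 v' g).1 (hg.2 v' hv'),
      (trivAtFin_iff566 v' h).1 (hh.2 v' hv'), one_mul]

theorem IsLocalAtFin.inv566 {v : HeightOneSpectrum (𝓞 K)} {g : G K}
    (hg : IsLocalAtFin v g) : IsLocalAtFin v g⁻¹ := by
  refine ⟨fun w => ?_, fun v' hv' => ?_⟩
  · rw [trivAtInf_iff566, map_inv, (trivAtInf_iff566 w g).1 (hg.1 w), inv_one]
  · rw [trivAtFin_iff566, map_inv, (trivAtFin_iff566 v' g).1 (hg.2 v' hv'), inv_one]

/-- An element supported at the infinite place `w` is determined by its matrix at `w`. -/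
theorem eq_of_isLocalAtInf566 {w : InfinitePlace K} {g h : G K}
    (hg : IsLocalAtInf w g) (hh : IsLocalAtInf w h) (e : infComp w g = infComp w h) :
    g = h := by
  refine gl_ext793 (fun w' => ?_) (fun v => ?_)
  · by_cases hw : w' = w
    · subst hw
      apply Units.ext
      rw [infComp_eq793, infComp_eq793] at e
      refine Matrix.ext (fun i j => ?_)
      have := congrFun (congrFun e i) j
      simp only [Matrix.map_apply] at this
      exact (InfinitePlace.Completion.extensionEmbedding w').injective this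
    · rw [(trivAtInf_iff566 w' g).1 (hg.1 w' hw), (trivAtInf_iff566 w' h).1 (hh.1 w' hw)]
  · rw [(trivAtFin_iff566 v g).1 (hg.2 v), (trivAtFin_iff566 v h).1 (hh.2 v)]

/-! ## The closure of the level ideal at a place prime to the level -/

theorem zero_mem_idealClosure566 (𝔫 : Ideal (𝓞 K)) (v : HeightOneSpectrum (𝓞 K)) :
    (0 : v.adicCompletion K) ∈ idealClosure 𝔫 v := by
  apply subset_closure
  exact ⟨0, 𝔫.zero_mem, by simp⟩

/-- The valuation of the completion on the image of `k : K` under `algebraMap`. -/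
theorem valued_algebraMap566 (v : HeightOneSpectrum (𝓞 K)) (k : K) :
    Valued.v (algebraMap K (v.adicCompletion K) k) = v.valuation K k :=
  HeightOneSpectrum.valuedAdicCompletion_eq_valuation' v k

/-- `𝒪_v ⊆ idealClosure 𝔫 v` for `v ∤ 𝔫`. -/
theorem integers_subset_idealClosure566 (𝔫 : Ideal (𝓞 K)) (v : HeightOneSpectrum (𝓞 K))
    (hv : ¬ v.asIdeal ∣ 𝔫) {x : v.adicCompletion K} (hx : x ∈ v.adicCompletionIntegers K) :
    x ∈ idealClosure 𝔫 v := by
  -- an element of the level ideal which is a unit at `v`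
  have hle : ¬ 𝔫 ≤ v.asIdeal := fun h => hv (Ideal.dvd_iff_le.2 h)
  obtain ⟨c, hc𝔫, hcv⟩ := Set.not_subset.1 hle
  have hcval : v.valuation K (algebraMap (𝓞 K) K c) = 1 :=
    (HeightOneSpectrum.valuation_eq_one_iff_notMem (K := K) v).2 hcv
  have hc0 : algebraMap (𝓞 K) K c ≠ 0 := by
    intro h0
    rw [h0, map_zero] at hcval
    exact zero_ne_one hcval
  rw [HeightOneSpectrum.mem_adicCompletionIntegers] at hx
  unfold idealClosure
  rw [mem_closure_iff_nhds]
  intro t ht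
  obtain ⟨γ, hγ⟩ := Valued.mem_nhds.1 ht
  -- the radius in `ℤᵐ⁰`
  set γ' : WithZero (Multiplicative ℤ) :=
    MonoidWithZeroHom.ValueGroup₀.embedding γ.1 with hγ'
  have hγ'0 : γ' ≠ 0 := by
    intro h0
    have hz : MonoidWithZeroHom.ValueGroup₀.embedding
        (0 : MonoidWithZeroHom.ValueGroup₀ (MonoidWithZeroHom.ofClass
          (Valued.v : Valuation (v.adicCompletion K) (WithZero (Multiplicative ℤ))))) = 0 :=
      map_zero _
    exact γ.ne_zero (MonoidWithZeroHom.ValueGroup₀.embedding_strictMono.injective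
      (h0.trans hz.symm))
  -- `k : K` close to `x`
  have hN1 : {y : v.adicCompletion K | Valued.v.restrict (y - x) < γ.1} ∈ nhds x :=
    Valued.mem_nhds.2 ⟨γ, subset_rfl⟩
  have hN2 : {y : v.adicCompletion K | Valued.v.restrict (y - x) < (1 : (_)ˣ).1} ∈ nhds x :=
    Valued.mem_nhds.2 ⟨1, subset_rfl⟩
  obtain ⟨k, hk⟩ := (HeightOneSpectrum.denseRange_algebraMap (K := K) v).mem_nhds
    (Filter.inter_mem hN1 hN2)
  have hkγ : Valued.v (algebraMap K (v.adicCompletion K) k - x) < γ' :=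
    (Valuation.restrict_lt_iff_lt_embedding _).1 hk.1
  have hk2 : Valued.v (algebraMap K (v.adicCompletion K) k - x) < 1 := by
    have := hk.2
    simp only [Set.mem_ofPred_eq, Units.val_one] at this
    exact (Valuation.restrict_lt_one_iff _).1 this
  have hk1 : v.valuation K k ≤ 1 := by
    rw [← valued_algebraMap566]
    have : algebraMap K (v.adicCompletion K) k = (algebraMap K (v.adicCompletion K) k - x) + x := by
      ring
    rw [this]
    exact (Valuation.map_add_le_max' _ _ _).trans (max_le hk2.le hx)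
  -- `k / c` is integral at `v`: approximate it by `a : 𝓞 K`
  have hkc : v.valuation K (k / algebraMap (𝓞 K) K c) ≤ 1 := by
    rw [map_div₀, hcval, div_one]
    exact hk1
  obtain ⟨a, ha⟩ := HeightOneSpectrum.exists_valuation_sub_lt_of_integer v hkc (Units.mk0 γ' hγ'0)
  rw [Units.val_mk0] at ha
  refine ⟨algebraMap K (v.adicCompletion K) (algebraMap (𝓞 K) K (c * a)), hγ ?_,
    ⟨c * a, 𝔫.mul_mem_right a hc𝔫, rfl⟩⟩
  simp only [Set.mem_ofPred_eq]
  rw [Valuation.restrict_lt_iff_lt_embedding]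
  have e : algebraMap K (v.adicCompletion K) (algebraMap (𝓞 K) K (c * a)) - x
      = algebraMap K (v.adicCompletion K)
          (algebraMap (𝓞 K) K c * (algebraMap (𝓞 K) K a - k / algebraMap (𝓞 K) K c))
        + (algebraMap K (v.adicCompletion K) k - x) := by
    have : algebraMap (𝓞 K) K c * (algebraMap (𝓞 K) K a - k / algebraMap (𝓞 K) K c)
        = algebraMap (𝓞 K) K (c * a) - k := by
      rw [map_mul]
      field_simp
    rw [this, map_sub]
    ring
  rw [e]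
  refine lt_of_le_of_lt (Valuation.map_add_le_max' _ _ _) (max_lt ?_ hkγ)
  show Valued.v (algebraMap K (v.adicCompletion K)
    (algebraMap (𝓞 K) K c * (algebraMap (𝓞 K) K a - k / algebraMap (𝓞 K) K c))) < γ'
  rw [valued_algebraMap566, map_mul, hcval, one_mul]
  exact ha

end Fermat.Agent.LT.T2.H566

end

end
-- ===== PACK-END LT/T2/H566/Local.lean

-- ===== PACK-BEGIN LT/T1/H11/LocComp.lean
section





/-!
# Row LT, tower T1, interface Prop `LocCompC` (helper11): PROVED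

`locCompC_h11 K : Fermat.Agent.LT.T1.LocCompC K` for every number field `K`, from `LC.lean` and
`SC.lean`.  OFF-MAIN.
-/

set_option autoImplicit false

open IsDedekindDomain NumberField

namespace Fermat.Agent.LT.T1.H11

open Fermat.Agent.LT.H556.A0 Fermat.Agent.LT.H11.LC Fermat.Agent.LT.H11.SC

/-- The interface Prop `LocCompC` of tower T1. -/
theorem locCompC_h11 (K : Type) [Field K] [NumberField K] : Fermat.Agent.LT.T1.LocCompC K :=
  ⟨⟨locallyCompactSpace_adeleRing_h11 K, t2Space_adeleRing_h11 K,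
      secondCountableTopology_adeleRing_h11 K⟩,
    locallyCompactSpace_GL2_adeleRing_h11 K, t2Space_GL2_adeleRing_h11 K,
    secondCountableTopology_GL2_adeleRing_h11 K⟩

end Fermat.Agent.LT.T1.H11

end
-- ===== PACK-END LT/T1/H11/LocComp.lean

-- ===== PACK-BEGIN LT/T2/H131/WeakApprox.lean
section




/-!
# Row LT, tower T2, leaf T2.10.04 `WeakApproxC` (weak approximation for `GL₂`) -- helper131, OFF-MAIN

CORE FILE: imports Mathlib, `LT/H556/A0.lean` and `LT/T1/Spec.lean` only (byte-identical copies);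
the statement of `H941.WeakApproxC K` is proved in unfolded form (`weakApproxGL2_h131`), the
adapter to the Spec of helper941 is `WeakApproxLeaf.lean`.  Nothing is assumed, no placeholder
proof.

Proof.  `S` = the finite set of places dividing `𝔪`.
* `exists_ball_subset_idealClosure_h131`: the closure of `𝔪` in `K_v` contains the ball of radius
  `|m|_v`, `0 ≠ m ∈ 𝔪` (`𝓞 K` is dense in the integers of `K_v`: `exists_int_approx_h131`).
* `weakApprox_h131`: `K` is dense in `∏_{v ∈ S} K_v` (density of `K` in `K_v` + Chinese remainder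
  theorem with a common denominator, `weakApprox_field_h131`).
* Choose `A ∈ M₂(K)` close to `g_v⁻¹` for `v ∈ S`: `A g_v = 1 + X`, `X` small; `det A ≠ 0`
  (`det_one_add_ne_zero_h131`); `(A g_v)⁻¹ - 1 = Z` satisfies `Z = -X - Z X`, hence is small
  (`small_of_eq_h131`, ultrametric inequality).
-/

set_option autoImplicit false

open IsDedekindDomain NumberField
open Fermat.Agent.LT.H556.A0

noncomputable section

namespace Fermat.Agent.LT.T2.H131

variable {K : Type} [Field K] [NumberField K]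

/-- A ball around `x` in a valued field is a neighbourhood of `x` (radius = the valuation of a
nonzero element). -/
theorem ball_mem_nhds_h131 {F : Type} [Field F] [Valued F (WithZero (Multiplicative ℤ))]
    (x c : F) (hc : c ≠ 0) : {y : F | Valued.v (y - x) < Valued.v c} ∈ nhds x := by
  rw [Valued.mem_nhds]
  have h' : (Valued.v : Valuation F _).restrict c ≠ 0 := by
    rw [Ne, Valuation.restrict_eq_zero_iff]
    simpa using hc
  refine ⟨Units.mk0 _ h', ?_⟩
  intro y hy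
  simp only [Set.mem_ofPred_eq, Units.val_mk0] at hy ⊢
  exact (Valuation.restrict_lt_iff _).1 hy

/-- Every neighbourhood of `x` contains a ball (radius = the valuation of a nonzero element). -/
theorem exists_ball_subset_h131 {F : Type} [Field F] [Valued F (WithZero (Multiplicative ℤ))]
    (x : F) {s : Set F} (hs : s ∈ nhds x) :
    ∃ c : F, c ≠ 0 ∧ {y : F | Valued.v (y - x) < Valued.v c} ⊆ s := by
  rw [Valued.mem_nhds] at hs
  obtain ⟨γ, hγ⟩ := hs
  obtain ⟨c, hc⟩ := MonoidWithZeroHom.ValueGroup₀.restrict₀_surjective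
    (f := (MonoidWithZeroHom.ofClass (Valued.v : Valuation F _))) γ.1
  have hc' : (Valued.v : Valuation F _).restrict c = γ.1 := hc
  refine ⟨c, ?_, ?_⟩
  · rintro rfl
    rw [map_zero] at hc'
    exact γ.ne_zero hc'.symm
  · intro y hy
    apply hγ
    simp only [Set.mem_ofPred_eq] at hy ⊢
    rw [← hc']
    exact (Valuation.restrict_lt_iff _).2 hy

/-- `K` is dense in `K_v`: approximation up to the valuation of a nonzero element. -/
theorem exists_approx_h131 (v : HeightOneSpectrum (𝓞 K)) (x c : v.adicCompletion K)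
    (hc : c ≠ 0) : ∃ y : K, Valued.v ((algebraMap K (v.adicCompletion K) y) - x) < Valued.v c := by
  have hd := HeightOneSpectrum.denseRange_algebraMap (R := 𝓞 K) K v
  have hmem := ball_mem_nhds_h131 x c hc
  obtain ⟨y, hy⟩ := hd.exists_mem_open (isOpen_interior) ⟨x, mem_interior_iff_mem_nhds.2 hmem⟩
  have : algebraMap K (v.adicCompletion K) y ∈ {y | Valued.v (y - x) < Valued.v c} :=
    interior_subset hy
  exact ⟨y, this⟩

/-- The valuation of `K_v` on the image of `K`. -/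
theorem valued_algebraMap_h131 (v : HeightOneSpectrum (𝓞 K)) (k : K) :
    Valued.v (algebraMap K (v.adicCompletion K) k) = v.valuation K k :=
  v.valuedAdicCompletion_eq_valuation' k

/-- Elements of `K_v` of valuation `exp n`. -/
theorem exists_valued_eq_exp_h131 (v : HeightOneSpectrum (𝓞 K)) (n : ℤ) :
    ∃ c : v.adicCompletion K, c ≠ 0 ∧ Valued.v c = WithZero.exp n := by
  obtain ⟨π, hπ⟩ := v.valuation_exists_uniformizer K
  have hπ' : Valued.v (algebraMap K (v.adicCompletion K) π) = WithZero.exp (-1 : ℤ) := by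
    rw [valued_algebraMap_h131, hπ]
  have hne : algebraMap K (v.adicCompletion K) π ≠ 0 := by
    intro h
    rw [h, map_zero] at hπ'
    exact WithZero.exp_ne_zero hπ'.symm
  refine ⟨(algebraMap K (v.adicCompletion K) π) ^ (-n), zpow_ne_zero _ hne, ?_⟩
  rw [map_zpow₀, hπ', ← WithZero.exp_zsmul]
  simp

/-- `K` is dense in `K_v`: approximation up to `exp n`. -/
theorem exists_approx_exp_h131 (v : HeightOneSpectrum (𝓞 K)) (x : v.adicCompletion K) (n : ℤ) :
    ∃ y : K, Valued.v ((algebraMap K (v.adicCompletion K) y) - x) ≤ WithZero.exp n := by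
  obtain ⟨c, hc, hcv⟩ := exists_valued_eq_exp_h131 v n
  obtain ⟨y, hy⟩ := exists_approx_h131 v x c hc
  exact ⟨y, hcv ▸ hy.le⟩

/-- `𝓞 K` is dense in the integers of `K_v`. -/
theorem exists_int_approx_h131 (v : HeightOneSpectrum (𝓞 K)) (z : v.adicCompletion K)
    (hz : Valued.v z ≤ 1) (n : ℕ) :
    ∃ b : 𝓞 K, Valued.v ((algebraMap K (v.adicCompletion K) (algebraMap (𝓞 K) K b)) - z)
      ≤ WithZero.exp (-(n : ℤ)) := by
  obtain ⟨y, hy⟩ := exists_approx_exp_h131 v z (-(n : ℤ))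
  have hexp : WithZero.exp (-(n : ℤ)) ≤ (1 : WithZero (Multiplicative ℤ)) := by
    rw [← WithZero.exp_zero, WithZero.exp_le_exp]
    omega
  have hy1 : v.valuation K y ≤ 1 := by
    rw [← valued_algebraMap_h131]
    have : algebraMap K (v.adicCompletion K) y
        = (algebraMap K (v.adicCompletion K) y - z) + z := by ring
    rw [this]
    exact (Valuation.map_add _ _ _).trans (max_le (hy.trans hexp) hz)
  obtain ⟨b, hb⟩ := v.exists_valuation_sub_lt_of_integer hy1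
    (Units.mk0 (WithZero.exp (-(n : ℤ))) WithZero.exp_ne_zero)
  rw [Units.val_mk0] at hb
  refine ⟨b, ?_⟩
  have : algebraMap K (v.adicCompletion K) (algebraMap (𝓞 K) K b) - z
      = algebraMap K (v.adicCompletion K) (algebraMap (𝓞 K) K b - y)
        + (algebraMap K (v.adicCompletion K) y - z) := by
    rw [map_sub]; ring
  rw [this]
  refine (Valuation.map_add _ _ _).trans (max_le ?_ hy)
  rw [valued_algebraMap_h131]
  exact hb.le

/-- Every nonzero element of `ℤᵐ⁰` is above some `exp (-n)`, `n : ℕ`. -/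
theorem exists_exp_neg_lt_h131 {a : WithZero (Multiplicative ℤ)} (ha : a ≠ 0) :
    ∃ n : ℕ, WithZero.exp (-(n : ℤ)) < a := by
  obtain ⟨k, rfl⟩ : ∃ k : ℤ, a = WithZero.exp k := ⟨WithZero.log a, (WithZero.exp_log ha).symm⟩
  refine ⟨(-k + 1).toNat, ?_⟩
  rw [WithZero.exp_lt_exp]
  omega

/-- Every element of `ℤᵐ⁰` is below some `exp M`, `M : ℕ`. -/
theorem exists_le_exp_h131 (a : WithZero (Multiplicative ℤ)) :
    ∃ M : ℕ, a ≤ WithZero.exp (M : ℤ) := by
  by_cases ha : a = 0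
  · exact ⟨0, by rw [ha]; exact zero_le⟩
  · obtain ⟨k, rfl⟩ : ∃ k : ℤ, a = WithZero.exp k := ⟨WithZero.log a, (WithZero.exp_log ha).symm⟩
    refine ⟨k.toNat, ?_⟩
    rw [WithZero.exp_le_exp]
    omega

/-- **The closure of a nonzero ideal contains a ball.** -/
theorem exists_ball_subset_idealClosure_h131 (𝔪 : Ideal (𝓞 K)) (h𝔪 : 𝔪 ≠ ⊥)
    (v : HeightOneSpectrum (𝓞 K)) :
    ∃ N : ℕ, ∀ x : v.adicCompletion K, Valued.v x ≤ WithZero.exp (-(N : ℤ)) →
      x ∈ idealClosure 𝔪 v := by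
  obtain ⟨m, hm𝔪, hm0⟩ := Submodule.exists_mem_ne_zero_of_ne_bot h𝔪
  set N : ℕ := (Associates.mk v.asIdeal).count (Associates.mk (Ideal.span {m})).factors with hN
  have hvm : Valued.v (algebraMap K (v.adicCompletion K) (algebraMap (𝓞 K) K m))
      = WithZero.exp (-(N : ℤ)) := by
    rw [valued_algebraMap_h131, HeightOneSpectrum.valuation_of_algebraMap,
      v.intValuation_if_neg hm0]
  have hm' : algebraMap K (v.adicCompletion K) (algebraMap (𝓞 K) K m) ≠ 0 := by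
    intro h
    rw [h, map_zero] at hvm
    exact WithZero.exp_ne_zero hvm.symm
  refine ⟨N, fun x hx => ?_⟩
  unfold idealClosure
  rw [mem_closure_iff_nhds]
  intro t ht
  obtain ⟨c, hc, hct⟩ := exists_ball_subset_h131 x ht
  have hvc : Valued.v c ≠ 0 := by simpa using hc
  obtain ⟨n, hn⟩ := exists_exp_neg_lt_h131 hvc
  set m' := algebraMap K (v.adicCompletion K) (algebraMap (𝓞 K) K m) with hm'def
  have hz : Valued.v (x / m') ≤ 1 := by
    rw [map_div₀, hvm]
    exact div_le_one_of_le₀ hx zero_le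
  obtain ⟨b, hb⟩ := exists_int_approx_h131 v (x / m') hz n
  refine ⟨algebraMap K (v.adicCompletion K) (algebraMap (𝓞 K) K (m * b)), hct ?_, ?_⟩
  · simp only [Set.mem_ofPred_eq]
    have : algebraMap K (v.adicCompletion K) (algebraMap (𝓞 K) K (m * b)) - x
        = m' * (algebraMap K (v.adicCompletion K) (algebraMap (𝓞 K) K b) - x / m') := by
      rw [map_mul, map_mul, mul_sub, mul_div_cancel₀ _ hm']
    rw [this, map_mul]
    have h1 : Valued.v m' ≤ 1 := by
      rw [hvm, ← WithZero.exp_zero, WithZero.exp_le_exp]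
      omega
    calc Valued.v m' * Valued.v (algebraMap K (v.adicCompletion K) (algebraMap (𝓞 K) K b) - x / m')
        ≤ 1 * WithZero.exp (-(n : ℤ)) := mul_le_mul' h1 hb
      _ = WithZero.exp (-(n : ℤ)) := one_mul _
      _ < Valued.v c := hn
  · exact ⟨m * b, 𝔪.mul_mem_right b hm𝔪, rfl⟩

/-- **Weak approximation in `K`** at finitely many finite places (Chinese remainder theorem with
a common denominator). -/
theorem weakApprox_field_h131 (S : Finset (HeightOneSpectrum (𝓞 K)))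
    (y : HeightOneSpectrum (𝓞 K) → K) (e : HeightOneSpectrum (𝓞 K) → ℕ) :
    ∃ ξ : K, ∀ v ∈ S, v.valuation K (ξ - y v) ≤ WithZero.exp (-(e v : ℤ)) := by
  classical
  obtain ⟨d, hd⟩ := IsLocalization.exist_integer_multiples_of_finset (nonZeroDivisors (𝓞 K))
    (S.image y)
  have hd0 : (d : 𝓞 K) ≠ 0 := nonZeroDivisors.coe_ne_zero d
  have hdK : algebraMap (𝓞 K) K (d : 𝓞 K) ≠ 0 := by
    rw [Ne, map_eq_zero_iff _ (IsFractionRing.injective (𝓞 K) K)]
    exact hd0
  have hint : ∀ v : S, ∃ a : 𝓞 K, algebraMap (𝓞 K) K a = algebraMap (𝓞 K) K (d : 𝓞 K) * y v := by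
    intro v
    obtain ⟨a, ha⟩ := hd (y v) (Finset.mem_image_of_mem y v.2)
    refine ⟨a, ?_⟩
    rw [ha, Algebra.smul_def]
  choose a ha using hint
  set m : HeightOneSpectrum (𝓞 K) → ℕ := fun v =>
    (Associates.mk v.asIdeal).count (Associates.mk (Ideal.span {(d : 𝓞 K)})).factors with hm
  obtain ⟨r, hr⟩ := IsDedekindDomain.exists_forall_sub_mem_ideal
    (s := S) (fun v : HeightOneSpectrum (𝓞 K) => v.asIdeal) (fun v => e v + m v)
    (fun v _ => v.prime) (fun v _ w _ hvw h => hvw (HeightOneSpectrum.ext h)) a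
  refine ⟨algebraMap (𝓞 K) K r / algebraMap (𝓞 K) K (d : 𝓞 K), fun v hv => ?_⟩
  have h1 : algebraMap (𝓞 K) K r / algebraMap (𝓞 K) K (d : 𝓞 K) - y v
      = algebraMap (𝓞 K) K (r - a ⟨v, hv⟩) / algebraMap (𝓞 K) K (d : 𝓞 K) := by
    rw [map_sub, ha ⟨v, hv⟩]
    field_simp
  rw [h1, map_div₀, HeightOneSpectrum.valuation_of_algebraMap,
    HeightOneSpectrum.valuation_of_algebraMap, v.intValuation_if_neg hd0]
  have h2 : v.intValuation (r - a ⟨v, hv⟩) ≤ WithZero.exp (-((e v + m v : ℕ) : ℤ)) :=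
    (v.intValuation_le_pow_iff_mem _ _).2 (hr v hv)
  rw [div_le_iff₀ (by simp [WithZero.exp_pos] : (0 : WithZero (Multiplicative ℤ)) <
    WithZero.exp (-((Associates.mk v.asIdeal).count
      (Associates.mk (Ideal.span {(d : 𝓞 K)})).factors : ℤ))), ← WithZero.exp_add]
  refine h2.trans (le_of_eq ?_)
  congr 1
  simp only [hm]
  push_cast
  ring

/-- **Weak approximation**: `K` is dense in `∏_{v ∈ S} K_v`. -/
theorem weakApprox_h131 (S : Finset (HeightOneSpectrum (𝓞 K)))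
    (x : (v : HeightOneSpectrum (𝓞 K)) → v.adicCompletion K)
    (e : HeightOneSpectrum (𝓞 K) → ℕ) :
    ∃ ξ : K, ∀ v ∈ S,
      Valued.v (algebraMap K (v.adicCompletion K) ξ - x v) ≤ WithZero.exp (-(e v : ℤ)) := by
  choose y hy using fun v : HeightOneSpectrum (𝓞 K) => exists_approx_exp_h131 v (x v) (-(e v : ℤ))
  obtain ⟨ξ, hξ⟩ := weakApprox_field_h131 S y e
  refine ⟨ξ, fun v hv => ?_⟩
  have : algebraMap K (v.adicCompletion K) ξ - x v
      = algebraMap K (v.adicCompletion K) (ξ - y v)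
        + (algebraMap K (v.adicCompletion K) (y v) - x v) := by
    rw [map_sub]; ring
  rw [this]
  refine (Valuation.map_add _ _ _).trans (max_le ?_ (hy v))
  rw [valued_algebraMap_h131]
  exact hξ v hv

/-! ## Matrices -/

/-- The projection of the adeles to the completion at `v`. -/
def projFin_h131 (v : HeightOneSpectrum (𝓞 K)) : Adl K →+* v.adicCompletion K where
  toFun x := x.2 v
  map_one' := rfl
  map_mul' _ _ := rfl
  map_zero' := rfl
  map_add' _ _ := rfl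

theorem finComp_eq_map_h131 (v : HeightOneSpectrum (𝓞 K)) (g : G K) :
    finComp v g = (g : Matrix (Fin 2) (Fin 2) (Adl K)).map (projFin_h131 v) := rfl

theorem finComp_mul_h131 (v : HeightOneSpectrum (𝓞 K)) (g h : G K) :
    finComp v (g * h) = finComp v g * finComp v h := by
  rw [finComp_eq_map_h131, finComp_eq_map_h131, finComp_eq_map_h131, Units.val_mul,
    Matrix.map_mul]

theorem finComp_one_h131 (v : HeightOneSpectrum (𝓞 K)) : finComp v (1 : G K) = 1 := by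
  rw [finComp_eq_map_h131, Units.val_one, Matrix.map_one _ (map_zero _) (map_one _)]

theorem finComp_ratG_h131 (v : HeightOneSpectrum (𝓞 K)) (γ : GL (Fin 2) K) :
    finComp v (T1.ratG K γ)
      = (γ : Matrix (Fin 2) (Fin 2) K).map (algebraMap K (v.adicCompletion K)) := rfl

/-- Entries of a product of `2 × 2` matrices. -/
theorem valued_mul_entry_le_h131 {F : Type} [Field F] [Valued F (WithZero (Multiplicative ℤ))]
    (P Q : Matrix (Fin 2) (Fin 2) F) (p q : WithZero (Multiplicative ℤ))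
    (hP : ∀ i j, Valued.v (P i j) ≤ p) (hQ : ∀ i j, Valued.v (Q i j) ≤ q) (i j : Fin 2) :
    Valued.v ((P * Q) i j) ≤ p * q := by
  rw [Matrix.mul_apply]
  refine Valuation.map_sum_le _ fun k _ => ?_
  rw [map_mul]
  exact mul_le_mul' (hP i k) (hQ k j)

/-- Ultrametric Neumann argument: `Z = - X - Z X`, `X` small `⇒` `Z` small. -/
theorem small_of_eq_h131 {F : Type} [Field F] [Valued F (WithZero (Multiplicative ℤ))]
    (X Z : Matrix (Fin 2) (Fin 2) F) (e : WithZero (Multiplicative ℤ)) (he : e < 1)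
    (hX : ∀ i j, Valued.v (X i j) ≤ e) (hZ : Z = -X - Z * X) (i j : Fin 2) :
    Valued.v (Z i j) ≤ e := by
  obtain ⟨p, -, hp⟩ := Finset.exists_max_image (Finset.univ : Finset (Fin 2 × Fin 2))
    (fun p => Valued.v (Z p.1 p.2)) Finset.univ_nonempty
  have hmax : ∀ i j, Valued.v (Z i j) ≤ Valued.v (Z p.1 p.2) :=
    fun i j => hp (i, j) (Finset.mem_univ _)
  suffices h : Valued.v (Z p.1 p.2) ≤ e from (hmax i j).trans h
  by_contra hlt
  rw [not_le] at hlt
  obtain ⟨z, hz⟩ : ∃ z, z = Valued.v (Z p.1 p.2) := ⟨_, rfl⟩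
  rw [← hz] at hlt hmax
  have hzpos : 0 < z := lt_of_le_of_lt zero_le hlt
  have h1 : Valued.v ((Z * X) p.1 p.2) ≤ z * e :=
    valued_mul_entry_le_h131 Z X z e hmax hX p.1 p.2
  have h2 : z * e < z := by
    calc z * e < z * 1 := by
          exact (mul_lt_mul_iff_right₀ hzpos).2 he
      _ = z := mul_one z
  have h3 : Z p.1 p.2 = -X p.1 p.2 - (Z * X) p.1 p.2 := by
    conv_lhs => rw [hZ]
    rfl
  have h4 : z ≤ max e (z * e) := by
    have h5 : z = Valued.v (-X p.1 p.2 - (Z * X) p.1 p.2) := hz.trans (congrArg _ h3)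
    calc z = Valued.v (-X p.1 p.2 - (Z * X) p.1 p.2) := h5
      _ ≤ max (Valued.v (-X p.1 p.2)) (Valued.v ((Z * X) p.1 p.2)) := Valuation.map_sub _ _ _
      _ ≤ max e (z * e) := max_le_max (by rw [Valuation.map_neg]; exact hX _ _) h1
  rcases le_max_iff.1 h4 with h | h
  · exact absurd h (not_le.2 hlt)
  · exact absurd h (not_le.2 h2)

/-- `1 + X` with `X` small has nonzero determinant. -/
theorem det_one_add_ne_zero_h131 {F : Type} [Field F] [Valued F (WithZero (Multiplicative ℤ))]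
    (X : Matrix (Fin 2) (Fin 2) F) (e : WithZero (Multiplicative ℤ)) (he : e < 1)
    (hX : ∀ i j, Valued.v (X i j) ≤ e) : (1 + X).det ≠ 0 := by
  intro h
  rw [Matrix.det_fin_two] at h
  simp only [Matrix.add_apply, Matrix.one_apply_eq, Matrix.one_apply_ne, ne_eq,
    Fin.zero_eq_one_iff, Fin.one_eq_zero_iff, OfNat.ofNat_ne_one, not_false_eq_true,
    zero_add] at h
  have h1 : (1 : F) = -(X 0 0 + X 1 1 + X 0 0 * X 1 1 - X 0 1 * X 1 0) := by
    linear_combination h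
  have hee : e * e ≤ e := by
    calc e * e ≤ e * 1 := mul_le_mul' le_rfl he.le
      _ = e := mul_one e
  have h2 : Valued.v (-(X 0 0 + X 1 1 + X 0 0 * X 1 1 - X 0 1 * X 1 0)) ≤ e := by
    rw [Valuation.map_neg]
    refine (Valuation.map_sub _ _ _).trans (max_le ?_ ?_)
    · refine (Valuation.map_add _ _ _).trans (max_le ?_ ?_)
      · exact (Valuation.map_add _ _ _).trans (max_le (hX _ _) (hX _ _))
      · rw [map_mul]
        exact (mul_le_mul' (hX _ _) (hX _ _)).trans hee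
    · rw [map_mul]
      exact (mul_le_mul' (hX _ _) (hX _ _)).trans hee
  rw [← h1, map_one] at h2
  exact absurd h2 (not_le.2 he)

/-- **T2.10.04 WEAK APPROXIMATION for `GL₂`** at the places dividing `𝔪` (the statement of
`H941.WeakApproxC K`, unfolded). -/
theorem weakApproxGL2_h131 (K : Type) [Field K] [NumberField K] :
    ∀ 𝔪 : Ideal (𝓞 K), 𝔪 ≠ ⊥ → ∀ g : G K, ∃ γ : GL (Fin 2) K,
      ∀ v : HeightOneSpectrum (𝓞 K), v.asIdeal ∣ 𝔪 → ∀ i j : Fin 2,
        (finComp v (T1.ratG K γ * g) - 1) i j ∈ idealClosure 𝔪 v ∧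
          (finComp v (T1.ratG K γ * g)⁻¹ - 1) i j ∈ idealClosure 𝔪 v := by
  intro 𝔪 h𝔪 g
  classical
  set S : Finset (HeightOneSpectrum (𝓞 K)) := (Ideal.finite_factors h𝔪).toFinset with hS
  have hmemS : ∀ v : HeightOneSpectrum (𝓞 K), v.asIdeal ∣ 𝔪 → v ∈ S := fun v hv => by
    rw [hS, Set.Finite.mem_toFinset]
    exact hv
  by_cases hne : S.Nonempty
  swap
  · refine ⟨1, fun v hv => ?_⟩
    exact absurd ⟨v, hmemS v hv⟩ hne
  -- the radii
  choose N hN using fun v => exists_ball_subset_idealClosure_h131 𝔪 h𝔪 v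
  -- bounds for the entries of `g_v`
  have hbound : ∀ v : HeightOneSpectrum (𝓞 K), ∃ M : ℕ, ∀ i j,
      Valued.v (finComp v g i j) ≤ WithZero.exp (M : ℤ) := by
    intro v
    choose M hM using fun p : Fin 2 × Fin 2 =>
      exists_le_exp_h131 (Valued.v (finComp v g p.1 p.2))
    refine ⟨Finset.univ.sup M, fun i j => (hM (i, j)).trans ?_⟩
    rw [WithZero.exp_le_exp]
    exact_mod_cast Finset.le_sup (f := M) (Finset.mem_univ (i, j))
  choose M hM using hbound
  -- approximate the entries of `g_v⁻¹`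
  choose A hA using fun i j : Fin 2 =>
    weakApprox_h131 S (fun v => finComp v g⁻¹ i j) (fun v => (N v + 1) + M v)
  set Am : Matrix (Fin 2) (Fin 2) K := Matrix.of A with hAm
  have hexp1 : ∀ v : HeightOneSpectrum (𝓞 K),
      WithZero.exp (-((N v + 1 : ℕ) : ℤ)) < (1 : WithZero (Multiplicative ℤ)) := by
    intro v
    rw [← WithZero.exp_zero, WithZero.exp_lt_exp]
    push_cast
    omega
  have hexpN : ∀ v : HeightOneSpectrum (𝓞 K),
      WithZero.exp (-((N v + 1 : ℕ) : ℤ)) ≤ WithZero.exp (-(N v : ℤ)) := by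
    intro v
    rw [WithZero.exp_le_exp]
    push_cast
    omega
  -- the key computation at `v ∈ S`
  have key : ∀ v ∈ S, ∃ X : Matrix (Fin 2) (Fin 2) (v.adicCompletion K),
      Am.map (algebraMap K (v.adicCompletion K)) * finComp v g = 1 + X ∧
      ∀ i j, Valued.v (X i j) ≤ WithZero.exp (-((N v + 1 : ℕ) : ℤ)) := by
    intro v hv
    have hinv : finComp v g⁻¹ * finComp v g = 1 := by
      rw [← finComp_mul_h131, inv_mul_cancel, finComp_one_h131]
    refine ⟨(Am.map (algebraMap K (v.adicCompletion K)) - finComp v g⁻¹) * finComp v g, ?_, ?_⟩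
    · rw [sub_mul, hinv]
      abel
    · intro i j
      have := valued_mul_entry_le_h131
        (Am.map (algebraMap K (v.adicCompletion K)) - finComp v g⁻¹) (finComp v g)
        (WithZero.exp (-(((N v + 1) + M v : ℕ) : ℤ))) (WithZero.exp (M v : ℤ))
        (fun i j => hA i j v hv) (hM v) i j
      refine this.trans (le_of_eq ?_)
      rw [← WithZero.exp_add]
      congr 1
      push_cast
      ring
  -- the determinant
  have hdet : Am.det ≠ 0 := by
    obtain ⟨v₀, hv₀⟩ := hne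
    obtain ⟨X, hX1, hX2⟩ := key v₀ hv₀
    intro h0
    have h1 : (Am.map (algebraMap K (v₀.adicCompletion K))).det = 0 := by
      rw [← RingHom.mapMatrix_apply, ← RingHom.map_det, h0, map_zero]
    have h2 : (1 + X).det = 0 := by
      rw [← hX1, Matrix.det_mul, h1, zero_mul]
    exact det_one_add_ne_zero_h131 X _ (hexp1 v₀) hX2 h2
  refine ⟨Matrix.GeneralLinearGroup.mkOfDetNeZero Am hdet, fun v hv i j => ?_⟩
  obtain ⟨X, hX1, hX2⟩ := key v (hmemS v hv)
  have hC : finComp v (T1.ratG K (Matrix.GeneralLinearGroup.mkOfDetNeZero Am hdet) * g)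
      = 1 + X := by
    rw [finComp_mul_h131, finComp_ratG_h131]
    exact hX1
  constructor
  · apply hN v
    rw [hC, add_sub_cancel_left]
    exact (hX2 i j).trans (hexpN v)
  · apply hN v
    refine (small_of_eq_h131 X _ _ (hexp1 v) hX2 ?_ i j).trans (hexpN v)
    have h1 : finComp v (T1.ratG K (Matrix.GeneralLinearGroup.mkOfDetNeZero Am hdet) * g)⁻¹
        * (1 + X) = 1 := by
      rw [← hC, ← finComp_mul_h131, inv_mul_cancel, finComp_one_h131]
    rw [mul_add, mul_one] at h1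
    have h2 : finComp v (T1.ratG K (Matrix.GeneralLinearGroup.mkOfDetNeZero Am hdet) * g)⁻¹
        = 1 - finComp v (T1.ratG K (Matrix.GeneralLinearGroup.mkOfDetNeZero Am hdet) * g)⁻¹ * X :=
      eq_sub_of_add_eq h1
    rw [sub_mul, one_mul]
    nth_rewrite 1 [h2]
    abel

end Fermat.Agent.LT.T2.H131

end
end
-- ===== PACK-END LT/T2/H131/WeakApprox.lean

-- ===== PACK-BEGIN LT/A2/H949/EigenOdeCore.lean
section


/-!
# Row LT, tower A2, sub-leaf A2.03.7.2 EIGEN-ODE (helper949): the core, OFF-MAIN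

Mathlib + `LT/H470/Chain.lean` (helper470, byte-identical) only.

If `J : ℝ → ℂ` is twice differentiable on `y > 0` (derivative fields `J1`, `J2`) and satisfies the
modified Bessel equation `y J'' + J' - (b₁² + b₂²) y J = 0` there, then

    `(x₁, x₂, y) ↦ exp (i (b₁ x₁ + b₂ x₂)) · (y J(y))`

is a solution of the hyperbolic Laplace equation of `ℍ³` in the sense of helper470
(`H470.EigenData470`), with explicit derivative fields `eigD1_949`, `eigD2_949`.

Route: the proof of helper802 (`LT/A2/H802/K0Eigen.lean`) with the radial part `y K₀(a y)`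
replaced by `h(y) = y J(y)`, `h' = J + y J'`, `h'' = 2 J' + y J''`; the continuity of `h''` on
`y > 0` comes from the equation (`h'' = J' + (b₁² + b₂²) y J` there).
-/

set_option autoImplicit false

open Real Set Filter Topology
open Fermat.Agent.LT.H470

noncomputable section

namespace Fermat.Agent.LT.A2.H949

/-! ## Coordinates -/

/-- `p ↦ x₁` with values in `ℂ`. -/
def P1_949 : E3 →L[ℝ] ℂ := Complex.ofRealCLM.comp (ContinuousLinearMap.fst ℝ ℝ (ℝ × ℝ))
/-- `p ↦ x₂` with values in `ℂ`. -/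
def P2_949 : E3 →L[ℝ] ℂ :=
  Complex.ofRealCLM.comp ((ContinuousLinearMap.fst ℝ ℝ ℝ).comp (ContinuousLinearMap.snd ℝ ℝ (ℝ × ℝ)))
/-- `p ↦ y` with values in `ℂ`. -/
def P3_949 : E3 →L[ℝ] ℂ :=
  Complex.ofRealCLM.comp ((ContinuousLinearMap.snd ℝ ℝ ℝ).comp (ContinuousLinearMap.snd ℝ ℝ (ℝ × ℝ)))

@[simp] theorem P1_949_apply (v : E3) : P1_949 v = (v.1 : ℂ) := rfl
@[simp] theorem P2_949_apply (v : E3) : P2_949 v = (v.2.1 : ℂ) := rfl
@[simp] theorem P3_949_apply (v : E3) : P3_949 v = (v.2.2 : ℂ) := rfl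

/-- The plane wave `exp (i (b₁ x₁ + b₂ x₂))`. -/
def wave949 (b₁ b₂ : ℝ) (p : E3) : ℂ :=
  Complex.exp (Complex.I * ((b₁ : ℂ) * (p.1 : ℂ) + (b₂ : ℂ) * (p.2.1 : ℂ)))

theorem continuous_wave949 (b₁ b₂ : ℝ) : Continuous (wave949 b₁ b₂) := by
  unfold wave949
  fun_prop

theorem hasFDerivAt_wave949 (b₁ b₂ : ℝ) (p : E3) :
    HasFDerivAt (wave949 b₁ b₂)
      (wave949 b₁ b₂ p • ((Complex.I * (b₁ : ℂ)) • P1_949 + (Complex.I * (b₂ : ℂ)) • P2_949)) p := by
  set L : E3 →L[ℝ] ℂ := (Complex.I * (b₁ : ℂ)) • P1_949 + (Complex.I * (b₂ : ℂ)) • P2_949 with hL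
  have h1 : HasFDerivAt (fun q : E3 => L q) L p := L.hasFDerivAt
  have h2 := h1.cexp
  have hfun : (fun q : E3 => Complex.exp (L q)) = wave949 b₁ b₂ := by
    funext q
    unfold wave949
    congr 1
    simp only [hL, add_apply, smul_apply, P1_949_apply,
      P2_949_apply, smul_eq_mul]
    ring
  rw [hfun] at h2
  have hval : Complex.exp (L p) = wave949 b₁ b₂ p := congrFun hfun p
  rw [hval] at h2
  exact h2

/-- The derivative of a function `q ↦ h (y) * wave q`. -/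
theorem hasFDerivAt_sep949 (b₁ b₂ : ℝ) (h : ℝ → ℂ) (h' : ℂ) (p : E3)
    (hh : HasDerivAt h h' p.2.2) :
    HasFDerivAt (fun q : E3 => h q.2.2 * wave949 b₁ b₂ q)
      ((h p.2.2 * wave949 b₁ b₂ p * (Complex.I * (b₁ : ℂ))) • P1_949
        + (h p.2.2 * wave949 b₁ b₂ p * (Complex.I * (b₂ : ℂ))) • P2_949
        + (h' * wave949 b₁ b₂ p) • P3_949) p := by
  set π₃ : E3 →L[ℝ] ℝ :=
    (ContinuousLinearMap.snd ℝ ℝ ℝ).comp (ContinuousLinearMap.snd ℝ ℝ (ℝ × ℝ)) with hπ
  have h1 : HasFDerivAt (fun q : E3 => π₃ q) π₃ p := π₃.hasFDerivAt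
  have hh' : HasDerivAt h h' (π₃ p) := hh
  have h2 : HasFDerivAt (h ∘ fun q : E3 => π₃ q) _ p := hh'.hasFDerivAt.comp p h1
  have h3 := h2.mul (hasFDerivAt_wave949 b₁ b₂ p)
  refine h3.congr_fderiv (ContinuousLinearMap.ext fun v => ?_)
  simp only [add_apply, smul_apply,
    ContinuousLinearMap.comp_apply, ContinuousLinearMap.toSpanSingleton_apply,
    P1_949_apply, P2_949_apply, P3_949_apply, smul_eq_mul,
    Function.comp_apply, hπ, ContinuousLinearMap.coe_snd', Complex.real_smul]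
  ring

/-! ## The radial part `h(y) = y J(y)` -/

/-- `h(y) = y J(y)`. -/
def rad0_949 (J : ℝ → ℂ) (y : ℝ) : ℂ := (y : ℂ) * J y
/-- `h'(y) = J(y) + y J'(y)`. -/
def rad1_949 (J J1 : ℝ → ℂ) (y : ℝ) : ℂ := J y + (y : ℂ) * J1 y
/-- `h''(y) = 2 J'(y) + y J''(y)`. -/
def rad2_949 (J1 J2 : ℝ → ℂ) (y : ℝ) : ℂ := 2 * J1 y + (y : ℂ) * J2 y

theorem hasDerivAt_ofReal949 (y : ℝ) : HasDerivAt (fun s : ℝ => (s : ℂ)) 1 y := by
  simpa using (hasDerivAt_id y).ofReal_comp

theorem hasDerivAt_rad0_949 {J J1 : ℝ → ℂ} {y : ℝ} (hJ : HasDerivAt J (J1 y) y) :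
    HasDerivAt (rad0_949 J) (rad1_949 J J1 y) y := by
  have h := (hasDerivAt_ofReal949 y).mul hJ
  refine h.congr_deriv ?_
  unfold rad1_949
  ring

theorem hasDerivAt_rad1_949 {J J1 J2 : ℝ → ℂ} {y : ℝ} (hJ : HasDerivAt J (J1 y) y)
    (hJ1 : HasDerivAt J1 (J2 y) y) :
    HasDerivAt (rad1_949 J J1) (rad2_949 J1 J2 y) y := by
  have h := hJ.add ((hasDerivAt_ofReal949 y).mul hJ1)
  refine h.congr_deriv ?_
  unfold rad2_949
  ring

section Radial

variable {b₁ b₂ : ℝ} {J J1 J2 : ℝ → ℂ}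

theorem continuousOn_J949 (hJ : ∀ y : ℝ, 0 < y → HasDerivAt J (J1 y) y) :
    ContinuousOn J (Ioi 0) :=
  fun _ hy => (hJ _ hy).continuousAt.continuousWithinAt

theorem continuousOn_rad0_949 (hJ : ∀ y : ℝ, 0 < y → HasDerivAt J (J1 y) y) :
    ContinuousOn (rad0_949 J) (Ioi 0) :=
  fun _ hy => (hasDerivAt_rad0_949 (hJ _ hy)).continuousAt.continuousWithinAt

theorem continuousOn_rad1_949 (hJ : ∀ y : ℝ, 0 < y → HasDerivAt J (J1 y) y)
    (hJ1 : ∀ y : ℝ, 0 < y → HasDerivAt J1 (J2 y) y) :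
    ContinuousOn (rad1_949 J J1) (Ioi 0) :=
  fun _ hy => (hasDerivAt_rad1_949 (hJ _ hy) (hJ1 _ hy)).continuousAt.continuousWithinAt

/-- On `y > 0` the equation gives `h'' = J' + (b₁² + b₂²) y J`. -/
theorem rad2_eq949
    (hode : ∀ y : ℝ, 0 < y →
      (y : ℂ) * J2 y + J1 y - ((b₁ ^ 2 + b₂ ^ 2 : ℝ) : ℂ) * (y : ℂ) * J y = 0)
    {y : ℝ} (hy : 0 < y) :
    rad2_949 J1 J2 y = J1 y + ((b₁ ^ 2 + b₂ ^ 2 : ℝ) : ℂ) * (y : ℂ) * J y := by
  unfold rad2_949
  linear_combination hode y hy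

theorem continuousOn_rad2_949 (hJ : ∀ y : ℝ, 0 < y → HasDerivAt J (J1 y) y)
    (hJ1 : ∀ y : ℝ, 0 < y → HasDerivAt J1 (J2 y) y)
    (hode : ∀ y : ℝ, 0 < y →
      (y : ℂ) * J2 y + J1 y - ((b₁ ^ 2 + b₂ ^ 2 : ℝ) : ℂ) * (y : ℂ) * J y = 0) :
    ContinuousOn (rad2_949 J1 J2) (Ioi 0) := by
  have hcJ : ContinuousOn J (Ioi 0) := continuousOn_J949 hJ
  have hcJ1 : ContinuousOn J1 (Ioi 0) :=
    fun _ hy => (hJ1 _ hy).continuousAt.continuousWithinAt
  have hy : ContinuousOn (fun y : ℝ => (y : ℂ)) (Ioi 0) :=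
    Complex.continuous_ofReal.continuousOn
  have hc : ContinuousOn
      (fun y : ℝ => J1 y + ((b₁ ^ 2 + b₂ ^ 2 : ℝ) : ℂ) * (y : ℂ) * J y) (Ioi 0) :=
    hcJ1.add ((continuousOn_const.mul hy).mul hcJ)
  exact hc.congr fun y hy => rad2_eq949 hode hy

/-- The radial equation `y² h'' - y h' - (b₁² + b₂²) y² h + h = 0`. -/
theorem ode_rad949
    (hode : ∀ y : ℝ, 0 < y →
      (y : ℂ) * J2 y + J1 y - ((b₁ ^ 2 + b₂ ^ 2 : ℝ) : ℂ) * (y : ℂ) * J y = 0)
    {y : ℝ} (hy : 0 < y) :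
    (y : ℂ) ^ 2 * rad2_949 J1 J2 y - (y : ℂ) * rad1_949 J J1 y
      - ((b₁ ^ 2 + b₂ ^ 2 : ℝ) : ℂ) * (y : ℂ) ^ 2 * rad0_949 J y + rad0_949 J y = 0 := by
  unfold rad2_949 rad1_949 rad0_949
  linear_combination ((y : ℂ) ^ 2) * hode y hy

end Radial

/-! ## The function and its derivative fields -/

/-- `h(y) exp (i (b₁ x₁ + b₂ x₂))`. -/
def eig949 (b₁ b₂ : ℝ) (J : ℝ → ℂ) (p : E3) : ℂ := rad0_949 J p.2.2 * wave949 b₁ b₂ p

/-- `h'(y) exp (i (b₁ x₁ + b₂ x₂))`. -/
def eigY949 (b₁ b₂ : ℝ) (J J1 : ℝ → ℂ) (p : E3) : ℂ := rad1_949 J J1 p.2.2 * wave949 b₁ b₂ p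

/-- The first derivative of `eig949`. -/
def eigD1_949 (b₁ b₂ : ℝ) (J J1 : ℝ → ℂ) (p : E3) : E3 →L[ℝ] ℂ :=
  (eig949 b₁ b₂ J p * (Complex.I * (b₁ : ℂ))) • P1_949
    + (eig949 b₁ b₂ J p * (Complex.I * (b₂ : ℂ))) • P2_949
    + (eigY949 b₁ b₂ J J1 p) • P3_949

/-- The first derivative of `eigY949`. -/
def eigYD1_949 (b₁ b₂ : ℝ) (J J1 J2 : ℝ → ℂ) (p : E3) : E3 →L[ℝ] ℂ :=
  (eigY949 b₁ b₂ J J1 p * (Complex.I * (b₁ : ℂ))) • P1_949
    + (eigY949 b₁ b₂ J J1 p * (Complex.I * (b₂ : ℂ))) • P2_949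
    + (rad2_949 J1 J2 p.2.2 * wave949 b₁ b₂ p) • P3_949

/-- The second derivative of `eig949`. -/
def eigD2_949 (b₁ b₂ : ℝ) (J J1 J2 : ℝ → ℂ) (p : E3) : E3 →L[ℝ] E3 →L[ℝ] ℂ :=
  ((Complex.I * (b₁ : ℂ)) • eigD1_949 b₁ b₂ J J1 p).smulRight P1_949
    + ((Complex.I * (b₂ : ℂ)) • eigD1_949 b₁ b₂ J J1 p).smulRight P2_949
    + (eigYD1_949 b₁ b₂ J J1 J2 p).smulRight P3_949

section Fields

variable {b₁ b₂ : ℝ} {J J1 J2 : ℝ → ℂ}

theorem hasFDerivAt_eig949 (hJ : ∀ y : ℝ, 0 < y → HasDerivAt J (J1 y) y) {p : E3}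
    (hp : 0 < p.2.2) :
    HasFDerivAt (eig949 b₁ b₂ J) (eigD1_949 b₁ b₂ J J1 p) p :=
  hasFDerivAt_sep949 b₁ b₂ (rad0_949 J) _ p (hasDerivAt_rad0_949 (hJ _ hp))

theorem hasFDerivAt_eigY949 (hJ : ∀ y : ℝ, 0 < y → HasDerivAt J (J1 y) y)
    (hJ1 : ∀ y : ℝ, 0 < y → HasDerivAt J1 (J2 y) y) {p : E3} (hp : 0 < p.2.2) :
    HasFDerivAt (eigY949 b₁ b₂ J J1) (eigYD1_949 b₁ b₂ J J1 J2 p) p :=
  hasFDerivAt_sep949 b₁ b₂ (rad1_949 J J1) _ p (hasDerivAt_rad1_949 (hJ _ hp) (hJ1 _ hp))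

theorem hasFDerivAt_eigD1_949 (hJ : ∀ y : ℝ, 0 < y → HasDerivAt J (J1 y) y)
    (hJ1 : ∀ y : ℝ, 0 < y → HasDerivAt J1 (J2 y) y) {p : E3} (hp : 0 < p.2.2) :
    HasFDerivAt (eigD1_949 b₁ b₂ J J1) (eigD2_949 b₁ b₂ J J1 J2 p) p := by
  have h0 := hasFDerivAt_eig949 (b₁ := b₁) (b₂ := b₂) hJ hp
  have hY := hasFDerivAt_eigY949 (b₁ := b₁) (b₂ := b₂) hJ hJ1 hp
  have c1 := (h0.mul_const (Complex.I * (b₁ : ℂ))).smul_const P1_949
  have c2 := (h0.mul_const (Complex.I * (b₂ : ℂ))).smul_const P2_949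
  have c3 := hY.smul_const P3_949
  exact (c1.add c2).add c3

/-! ## Continuity of the second derivative -/

theorem continuousOn_coord949 {g : ℝ → ℂ} (hg : ContinuousOn g (Ioi 0)) (b₁ b₂ : ℝ) :
    ContinuousOn (fun p : E3 => g p.2.2 * wave949 b₁ b₂ p) {p : E3 | 0 < p.2.2} := by
  have h1 : ContinuousOn (fun p : E3 => g p.2.2) {p : E3 | 0 < p.2.2} :=
    hg.comp (by fun_prop) (fun p hp => hp)
  exact h1.mul (continuous_wave949 b₁ b₂).continuousOn

theorem continuousOn_eigD2_949 (hJ : ∀ y : ℝ, 0 < y → HasDerivAt J (J1 y) y)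
    (hJ1 : ∀ y : ℝ, 0 < y → HasDerivAt J1 (J2 y) y)
    (hode : ∀ y : ℝ, 0 < y →
      (y : ℂ) * J2 y + J1 y - ((b₁ ^ 2 + b₂ ^ 2 : ℝ) : ℂ) * (y : ℂ) * J y = 0) :
    ContinuousOn (eigD2_949 b₁ b₂ J J1 J2) {p : E3 | 0 < p.2.2} := by
  have h0 : ContinuousOn (eig949 b₁ b₂ J) {p : E3 | 0 < p.2.2} :=
    continuousOn_coord949 (continuousOn_rad0_949 hJ) b₁ b₂
  have hY : ContinuousOn (eigY949 b₁ b₂ J J1) {p : E3 | 0 < p.2.2} :=
    continuousOn_coord949 (continuousOn_rad1_949 hJ hJ1) b₁ b₂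
  have h2 := continuousOn_coord949 (continuousOn_rad2_949 hJ hJ1 hode) b₁ b₂
  rw [continuousOn_clm_apply]
  intro v
  rw [continuousOn_clm_apply]
  intro w
  have heq : (fun p => eigD2_949 b₁ b₂ J J1 J2 p v w)
      = fun p => (Complex.I * (b₁ : ℂ)) * ((eig949 b₁ b₂ J p * (Complex.I * (b₁ : ℂ))) * (v.1 : ℂ)
            + (eig949 b₁ b₂ J p * (Complex.I * (b₂ : ℂ))) * (v.2.1 : ℂ)
            + eigY949 b₁ b₂ J J1 p * (v.2.2 : ℂ)) * (w.1 : ℂ)
          + (Complex.I * (b₂ : ℂ)) * ((eig949 b₁ b₂ J p * (Complex.I * (b₁ : ℂ))) * (v.1 : ℂ)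
            + (eig949 b₁ b₂ J p * (Complex.I * (b₂ : ℂ))) * (v.2.1 : ℂ)
            + eigY949 b₁ b₂ J J1 p * (v.2.2 : ℂ)) * (w.2.1 : ℂ)
          + ((eigY949 b₁ b₂ J J1 p * (Complex.I * (b₁ : ℂ))) * (v.1 : ℂ)
            + (eigY949 b₁ b₂ J J1 p * (Complex.I * (b₂ : ℂ))) * (v.2.1 : ℂ)
            + (rad2_949 J1 J2 p.2.2 * wave949 b₁ b₂ p) * (v.2.2 : ℂ)) * (w.2.2 : ℂ) := by
    funext p
    simp only [eigD2_949, eigD1_949, eigYD1_949, add_apply, smul_apply,
      ContinuousLinearMap.smulRight_apply, P1_949_apply, P2_949_apply, P3_949_apply,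
      smul_eq_mul]
  rw [heq]
  exact ((continuousOn_const.mul (((h0.mul continuousOn_const).mul continuousOn_const).add
      ((h0.mul continuousOn_const).mul continuousOn_const) |>.add
      (hY.mul continuousOn_const))).mul continuousOn_const).add
    ((continuousOn_const.mul (((h0.mul continuousOn_const).mul continuousOn_const).add
      ((h0.mul continuousOn_const).mul continuousOn_const) |>.add
      (hY.mul continuousOn_const))).mul continuousOn_const) |>.add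
    ((((hY.mul continuousOn_const).mul continuousOn_const).add
      ((hY.mul continuousOn_const).mul continuousOn_const) |>.add
      (h2.mul continuousOn_const)).mul continuousOn_const)

/-! ## The equation -/

theorem pde_eig949
    (hode : ∀ y : ℝ, 0 < y →
      (y : ℂ) * J2 y + J1 y - ((b₁ ^ 2 + b₂ ^ 2 : ℝ) : ℂ) * (y : ℂ) * J y = 0)
    {p : E3} (hp : 0 < p.2.2) :
    ((p.2.2 : ℝ) : ℂ) ^ 2 * (eigD2_949 b₁ b₂ J J1 J2 p e1 e1 + eigD2_949 b₁ b₂ J J1 J2 p e2 e2
        + eigD2_949 b₁ b₂ J J1 J2 p e3 e3)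
      - ((p.2.2 : ℝ) : ℂ) * eigD1_949 b₁ b₂ J J1 p e3 = -eig949 b₁ b₂ J p := by
  have hodeC := ode_rad949 (b₁ := b₁) (b₂ := b₂) (J := J) (J1 := J1) (J2 := J2) hode hp
  have hcast : ((b₁ ^ 2 + b₂ ^ 2 : ℝ) : ℂ) = (b₁ : ℂ) ^ 2 + (b₂ : ℂ) ^ 2 := by
    push_cast
    ring
  rw [hcast] at hodeC
  simp only [eigD2_949, eigD1_949, eigYD1_949, eig949, eigY949, e1, e2, e3, add_apply,
    smul_apply, ContinuousLinearMap.smulRight_apply, P1_949_apply, P2_949_apply, P3_949_apply,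
    smul_eq_mul, Complex.ofReal_one, Complex.ofReal_zero, mul_one, mul_zero, add_zero, zero_add]
  linear_combination (wave949 b₁ b₂ p) * hodeC
    + (((p.2.2 : ℝ) : ℂ) ^ 2 * rad0_949 J p.2.2 * wave949 b₁ b₂ p
        * (((b₁ : ℂ)) ^ 2 + ((b₂ : ℂ)) ^ 2)) * Complex.I_sq

/-- **`y J(y) exp (i (b₁ x₁ + b₂ x₂))` is an eigenfunction** in the sense of helper470. -/
theorem eigenData_eig949 (hJ : ∀ y : ℝ, 0 < y → HasDerivAt J (J1 y) y)
    (hJ1 : ∀ y : ℝ, 0 < y → HasDerivAt J1 (J2 y) y)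
    (hode : ∀ y : ℝ, 0 < y →
      (y : ℂ) * J2 y + J1 y - ((b₁ ^ 2 + b₂ ^ 2 : ℝ) : ℂ) * (y : ℂ) * J y = 0) :
    EigenData470 (eig949 b₁ b₂ J) (eigD1_949 b₁ b₂ J J1) (eigD2_949 b₁ b₂ J J1 J2) where
  d1 := fun _ hp => hasFDerivAt_eig949 hJ hp
  d2 := fun _ hp => hasFDerivAt_eigD1_949 hJ hJ1 hp
  cont := continuousOn_eigD2_949 hJ hJ1 hode
  pde := fun _ hp => pde_eig949 hode hp

end Fields

/-- The function of the leaf (wave first, radial part second) is `eig949`. -/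
theorem eig949_eq (b₁ b₂ : ℝ) (J : ℝ → ℂ) :
    (fun p : E3 => Complex.exp (Complex.I * ((b₁ : ℂ) * (p.1 : ℂ) + (b₂ : ℂ) * (p.2.1 : ℂ)))
        * ((p.2.2 : ℂ) * J p.2.2)) = eig949 b₁ b₂ J := by
  funext p
  unfold eig949 rad0_949 wave949
  ring

/-- **EIGEN-ODE, core form** (the statement of `H416.EigenOdeC`, Mathlib + `H470` only). -/
theorem eigenOde_core949 (b₁ b₂ : ℝ) (J J1 J2 : ℝ → ℂ)
    (hJ : ∀ y : ℝ, 0 < y → HasDerivAt J (J1 y) y)
    (hJ1 : ∀ y : ℝ, 0 < y → HasDerivAt J1 (J2 y) y)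
    (hode : ∀ y : ℝ, 0 < y →
      (y : ℂ) * J2 y + J1 y - ((b₁ ^ 2 + b₂ ^ 2 : ℝ) : ℂ) * (y : ℂ) * J y = 0) :
    ∃ (f' : E3 → E3 →L[ℝ] ℂ) (f'' : E3 → E3 →L[ℝ] E3 →L[ℝ] ℂ),
      EigenData470
        (fun p : E3 => Complex.exp (Complex.I * ((b₁ : ℂ) * (p.1 : ℂ) + (b₂ : ℂ) * (p.2.1 : ℂ)))
          * ((p.2.2 : ℂ) * J p.2.2)) f' f'' := by
  refine ⟨eigD1_949 b₁ b₂ J J1, eigD2_949 b₁ b₂ J J1 J2, ?_⟩
  rw [eig949_eq]
  exact eigenData_eig949 hJ hJ1 hode

end Fermat.Agent.LT.A2.H949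

end

end
-- ===== PACK-END LT/A2/H949/EigenOdeCore.lean

-- ===== PACK-BEGIN LT/T3/EKSpec.lean
section


/-!
# Row LT, tower T3 (architect helper14): the cut of `EKExistC` (T3.18)

OFF-MAIN.  Definitions and frozen Props only; no `sorry`, nothing assumed.

`EKExistC K` (Spec.lean) is cut into

* `AbelSatakeC K` (T3.18a, STATION): the Abel--Satake transform pair at `S' = {v₀} ∪ S_∞`, in
  coordinates.  For every `Φ` in the span of the symmetric pure tensors on the coordinate group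
  `Coord K = ℤ² × (ℝ²)^{S_∞}` there is a test function `f_Φ` on `GL₂(𝔸_K)`, bi-invariant under
  `U(𝔫) K_∞`, supported at `S'`, such that
  (i)  `∫_{𝔸_K} f_Φ(g⁻¹ n(x) γ₀ʲ g') dx = κ(g,g') Φ(Δ(g,g') + j c₀)` for all `g, g', j`
       (`c₀` = coordinates of `γ₀ = diag(α,1)`; `κ, Δ` do not depend on `Φ`), and
  (ii) `R(f_Φ) φ = κ₀ Φ^(z₁,z₂) φ` for every `φ` spherical of parameter `0` of level `𝔫` which is
       Hecke-eigen at `v₀` with Satake parameters `z₁, z₂`.
  Content: `f_Φ = (Hecke function at v₀ with Satake transform A) ⊗ ⊗_w F_w ⊗ 1_{U^{S'}}`, `F_w` the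
  inverse Abel transform of `β_w` on `GL₂(ℂ)`:
  `F_w(x) = -∂_u β̃_w(d(x), log|det x|) / (2π sinh d(x))`, `cosh d(x) = tr(x x*) / (2 |det x|)`.
* `LeafEKAlg K` (T3.18b): `AbelSatakeC K → (scalar uniformisers exist) → EKExistC K`; pure algebra:
  `Φ = ∏_{c ∈ W'·c₀} (1 - τ_c) Φ₁` telescopes along `c₀` and has
  `Φ^(z₁,z₂) = [(1 - z₁ⁿ)(1 - z₂ⁿ)]^{2^{r₂}} Φ₁^`.

Conventions.  Coordinates of a diagonal element `a = diag(a₁, a₂)`: `m_i = v₀(a_i)` at `v₀`
(so a uniformiser has coordinate `1`), `x_w = (log |a₁|_w, log |a₂|_w)` at the complex place `w`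
(`|·|_w` the usual absolute value).  `(𝒮f)(a) = δ(a)^{-1/2} ∫_N f(na) dn`,
`δ(a) = ‖a₁/a₂‖`.  Check on `f = 1_{K diag(ϖ,1) K}`: `𝒮f = √q (δ_{(1,0)} + δ_{(0,1)})`,
`R(f)φ = T_{v₀}φ = √q (z₁ + z₂) φ` (`A0.IsHeckeEigenAt`).
-/

set_option autoImplicit false

open IsDedekindDomain NumberField MeasureTheory
open Fermat.Agent.LT.H556.A0

noncomputable section

namespace Fermat.Agent.LT.T3

variable (K : Type) [Field K] [NumberField K]

/-- The coordinate group of the torus at `S' = {v₀} ∪ S_∞` modulo its maximal compact subgroup: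
`ℤ² × (ℝ²)^{S_∞}`. -/
abbrev Coord : Type := (ℤ × ℤ) × (InfinitePlace K → ℝ × ℝ)

/-- The coordinates `c₀` of `γ₀ = diag(α, 1)` when `(α) = 𝔭_{v₀}ⁿ`:
`((n, 0), w ↦ (log |α|_w, 0))`. -/
def coordTor (n : ℕ) (α : Kˣ) : Coord K :=
  (((n : ℤ), 0), fun w => (Real.log (w (α : K)), 0))

/-- A symmetric pure tensor on `Coord K`: `Φ(m, x) = A(m) ∏_w β_w(x_w)` with `A` finitely
supported and symmetric, `β_w` smooth, compactly supported and symmetric. -/
def IsSymPure (Φ : Coord K → ℂ) : Prop :=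
  ∃ (A : ℤ × ℤ → ℂ) (β : InfinitePlace K → ℝ × ℝ → ℂ),
    (Function.support A).Finite ∧ (∀ m₁ m₂ : ℤ, A (m₁, m₂) = A (m₂, m₁)) ∧
    (∀ w : InfinitePlace K, ContDiff ℝ ((⊤ : ℕ∞) : WithTop ℕ∞) (β w) ∧
      HasCompactSupport (β w) ∧ ∀ x y : ℝ, β w (x, y) = β w (y, x)) ∧
    ∀ (m : ℤ × ℤ) (x : InfinitePlace K → ℝ × ℝ), Φ (m, x) = A m * ∏ w, β w (x w)

/-- The span of the symmetric pure tensors. -/
def SymSpan : Submodule ℂ (Coord K → ℂ) :=
  Submodule.span ℂ {Φ | IsSymPure K Φ}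

/-- The Fourier--Laplace transform of `Φ` at the character of the torus which is unramified with
Satake parameters `(z₁, z₂)` at `v₀` and trivial at the infinite places:
`Φ^(z₁,z₂) = ∑_{m ∈ ℤ²} (∫ Φ(m, x) dx) z₁^{m₁} z₂^{m₂}` (Lebesgue measure on `(ℝ²)^{S_∞}`). -/
def ftCoord (Φ : Coord K → ℂ) (z₁ z₂ : ℂ) : ℂ :=
  ∑ᶠ m : ℤ × ℤ, (∫ x : InfinitePlace K → ℝ × ℝ, Φ (m, x)) * z₁ ^ m.1 * z₂ ^ m.2

/-- **T3.18a = ABEL--SATAKE PAIR** (STATION; Satake: Cartier, Corvallis I §4, Bump §4.6;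
Abel transform on `ℍ³`: Helgason GGA Ch. IV, Lindenstrauss--Venkatesh §4; memo helper261 §0
(S1),(S2)).  See the header for the content. -/
def AbelSatakeC : Prop :=
  letI : MeasurableSpace (Adl K) := borel (Adl K)
  letI : MeasurableSpace (G K) := borel (G K)
  (∀ w : InfinitePlace K, w.IsComplex) →
  ∀ μ : Measure (G K), μ.IsHaarMeasure → ∀ ν : Measure (Adl K), ν.IsAddHaarMeasure →
  ∀ 𝔫 : Ideal (𝓞 K), 𝔫 ≠ ⊥ → ∀ v₀ : HeightOneSpectrum (𝓞 K), ¬ v₀.asIdeal ∣ 𝔫 →
  ∀ (a₀ : 𝓞 K) (n : ℕ), 0 < n → Ideal.span {a₀} = v₀.asIdeal ^ n → a₀ - 1 ∈ 𝔫 →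
  ∀ α : Kˣ, (α : K) = algebraMap (𝓞 K) K a₀ →
    ∃ (κ : G K → G K → ℂ) (Δ : G K → G K → Coord K) (κ₀ : ℂ), κ₀ ≠ 0 ∧
      ∀ Φ : Coord K → ℂ, Φ ∈ SymSpan K →
        ∃ f : G K → ℂ, Continuous f ∧ HasCompactSupport f ∧
          IsBiInv K 𝔫 f ∧ IsSuppAt K 𝔫 v₀ f ∧
          (∀ (g g' : G K) (j : ℤ),
            ∫ x, f (g⁻¹ * unip K x * torK K α ^ j * g') ∂ν
              = κ g g' * Φ (Δ g g' + j • coordTor K n α)) ∧
          ∀ φ : G K → ℂ, IsSph0Level K 𝔫 φ → ∀ a b z₁ z₂ : ℂ, IsHeckeEigenAt φ v₀ a b →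
            z₁ + z₂ = a → z₁ * z₂ = b → b ≠ 0 →
            ∀ g : G K, Rop K μ f φ g = κ₀ * ftCoord K Φ z₁ z₂ * φ g

/-- IN (part of `T1.HeckeCosetC`, DONE by helper724): scalar uniformisers exist at every finite
place. -/
def InScalarUnifC : Prop :=
  ∀ v : HeightOneSpectrum (𝓞 K), ∃ z : G K, IsScalarUniformizerAt v z

/-- **T3.18b** (pure algebra in the group algebra of `Coord K`; memo helper261 §§1--2).
`Φ₁ = δ_{(0,0)} ⊗ ⊗_w (bump ⊗ bump)`, `Φ = ∏_{c} (1 - τ_c) Φ₁` over the `2^{r₂+1}` elements `c` of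
the orbit of `c₀` under the swaps; `Φ ∈ SymSpan` (average over the swaps), `Φ = (1 - τ_{c₀}) Φ₂`
telescopes, `Φ^(z₁,z₂) = [(1 - z₁ⁿ)(1 - z₂ⁿ)]^{2^{r₂}} Φ₁^`; if `b = 0` then `φ = 0`. -/
def LeafEKAlg : Prop :=
  AbelSatakeC K → InScalarUnifC K → EKExistC K

/-- The station leaf: the inputs from T1 give the Abel--Satake pair. -/
def LeafAbelSatake : Prop :=
  InLocCompC K → InDiscreteC K → HaarScaleC K → IwasawaIntC K → AbelSatakeC K

/-- `EKExistC` from its two sub-leaves. -/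
theorem ekExist_of (h1 : AbelSatakeC K) (h2 : LeafEKAlg K) (h3 : InScalarUnifC K) :
    EKExistC K :=
  h2 h1 h3

end Fermat.Agent.LT.T3

end

end
-- ===== PACK-END LT/T3/EKSpec.lean

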