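import Mathlib
import Fermat.Agent.Pack.LT2.E2L1
import Fermat.Agent.Pack.LT2.E0L2
import Fermat.Agent.Pack.LT2.E0L1
import Fermat.Agent.Pack.LT2.E2L2
import Fermat.Agent.Pack.LT2.E3L1
import Fermat.Agent.Pack.LT2.E2L3
import Fermat.Agent.Pack.LT2.E4L2

set_option linter.all false

-- ===== PACK-BEGIN LT/T1/H619/EllipticLattice.lean
section





/-!
# Row LT, tower T1, sub-leaf T1.20 (helper619): the lattice `K[γ] ⊂ 𝔸_K[γ]`

OFF-MAIN.  For `γ ∈ M₂(K)` with irreducible characteristic polynomial: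
`VA619 K γ = 𝔸_K[γ]` (`= 𝔸_K × 𝔸_K` as a topological group), `lat619 K γ = K[γ]`, and the
hypotheses of `fujisaki_ray619` which concern the lattice:

* `lat619_mul_mem`, `lat619_exists_inv` : `K[γ]` is a field;
* `lat619_finite_inter` : `K[γ]` meets compact sets in finite sets (from `AdeleLatticeC`);
* `lat619_cover` : `𝔸_K[γ] = K[γ] + C × C` (from `AdeleLatticeC`).
-/

set_option autoImplicit false

open IsDedekindDomain NumberField MeasureTheory
open scoped MatrixGroups NNReal ENNReal Pointwise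

noncomputable section

namespace Fermat.Agent.LT.T1.H619

open Fermat.Agent.LT.H556.A0 Fermat.Agent.LT.T1

variable (K : Type) [Field K] [NumberField K]

/-- `𝔸_K[γ]`. -/
abbrev VA619 (γ : Matrix (Fin 2) (Fin 2) K) : Type :=
  QA619 (Adl K) (γ.map (algebraMap K (Adl K)))

/-- The lattice `K[γ] ⊂ 𝔸_K[γ]`. -/
def lat619 (γ : Matrix (Fin 2) (Fin 2) K) : AddSubgroup (VA619 K γ) :=
  (map619 (algebraMap K (Adl K)) γ).toAddMonoidHom.range

variable {K}

lemma mem_lat619 (γ : Matrix (Fin 2) (Fin 2) K) (x : VA619 K γ) :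
    x ∈ lat619 K γ ↔ ∃ a : QA619 K γ, map619 (algebraMap K (Adl K)) γ a = x := Iff.rfl

lemma algebraMap_Adl_injective619 : Function.Injective (algebraMap K (Adl K)) :=
  NumberField.AdeleRing.algebraMap_injective (𝓞 K) K

lemma lat619_mul_mem (γ : Matrix (Fin 2) (Fin 2) K) :
    ∀ ξ ∈ lat619 K γ, ∀ η ∈ lat619 K γ, ξ * η ∈ lat619 K γ := by
  intro ξ hξ η hη
  obtain ⟨a, rfl⟩ := (mem_lat619 γ ξ).mp hξ
  obtain ⟨b, rfl⟩ := (mem_lat619 γ η).mp hη
  exact (mem_lat619 γ _).mpr ⟨a * b, map_mul _ a b⟩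

lemma lat619_exists_inv (γ : Matrix (Fin 2) (Fin 2) K) (hγ : Irreducible γ.charpoly) :
    ∀ ξ ∈ lat619 K γ, ξ ≠ 0 → ∃ η ∈ lat619 K γ, ξ * η = 1 := by
  intro ξ hξ h0
  obtain ⟨a, rfl⟩ := (mem_lat619 γ ξ).mp hξ
  have ha : a ≠ 0 := by
    rintro rfl
    exact h0 (map_zero _)
  obtain ⟨b, hb⟩ := exists_mul_eq_one619 γ hγ a ha
  refine ⟨map619 (algebraMap K (Adl K)) γ b, (mem_lat619 γ _).mpr ⟨b, rfl⟩, ?_⟩
  rw [← map_mul, hb, map_one]

/-- A compact subset of `𝔸_K` contains finitely many principal adeles. -/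
lemma princ_finite_inter619 (hL : AdeleLatticeC K) (P : Set (Adl K)) (hP : IsCompact P) :
    (P ∩ (princ K : Set (Adl K))).Finite := by
  obtain ⟨hd, hc, -⟩ := hL
  have h1 : IsCompact (P ∩ (princ K : Set (Adl K))) := hP.inter_right hc
  have h2 : IsDiscrete (princ K : Set (Adl K)) := isDiscrete_iff_discreteTopology.mpr hd
  exact h1.finite (h2.mono Set.inter_subset_right)

lemma lat619_finite_inter (γ : Matrix (Fin 2) (Fin 2) K) (hL : AdeleLatticeC K)
    (Q : Set (VA619 K γ)) (hQ : IsCompact Q) : (Q ∩ (lat619 K γ : Set (VA619 K γ))).Finite := by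
  have hfst : Continuous fun x : VA619 K γ => (x.1 : Adl K) := continuous_fst
  have hsnd : Continuous fun x : VA619 K γ => (x.2 : Adl K) := continuous_snd
  have h1 := princ_finite_inter619 hL _ (hQ.image hfst)
  have h2 := princ_finite_inter619 hL _ (hQ.image hsnd)
  have h12 : (((fun x : VA619 K γ => (x.1 : Adl K)) '' Q ∩ (princ K : Set (Adl K))) ×ˢ
      ((fun x : VA619 K γ => (x.2 : Adl K)) '' Q ∩ (princ K : Set (Adl K)))).Finite :=
    h1.prod h2
  refine h12.subset ?_
  rintro x ⟨hxQ, hxΛ⟩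
  obtain ⟨a, rfl⟩ := (mem_lat619 γ x).mp hxΛ
  exact ⟨⟨⟨_, hxQ, rfl⟩, ⟨a.1, rfl⟩⟩, ⟨⟨_, hxQ, rfl⟩, ⟨a.2, rfl⟩⟩⟩

/-- The covering set `C × C`. -/
lemma lat619_cover (γ : Matrix (Fin 2) (Fin 2) K) (hL : AdeleLatticeC K) :
    ∃ F : Set (VA619 K γ), IsCompact F ∧ ∀ x : VA619 K γ, ∃ ξ ∈ lat619 K γ, x - ξ ∈ F := by
  obtain ⟨-, -, C, hC, hcov⟩ := hL
  refine ⟨(C ×ˢ C : Set (Adl K × Adl K)), hC.prod hC, fun x => ?_⟩
  obtain ⟨a, ha⟩ := hcov x.1
  obtain ⟨b, hb⟩ := hcov x.2
  exact ⟨map619 (algebraMap K (Adl K)) γ ((a, b) : K × K), (mem_lat619 γ _).mpr ⟨_, rfl⟩,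
    ⟨ha, hb⟩⟩

end Fermat.Agent.LT.T1.H619

end
end
-- ===== PACK-END LT/T1/H619/EllipticLattice.lean

-- ===== PACK-BEGIN LT/T1/H62/DiscModCentre.lean
section



/-!
# Row LT, tower T1, sub-leaf T1.08 `LeafDiscreteModCentre` (helper62)

OFF-MAIN.  Proves, VERBATIM against `Fermat/Agent/LT/T1/Spec.lean` (helper54):

`leafDiscreteModCentre62 K : Fermat.Agent.LT.T1.LeafDiscreteModCentre K`
(`= LocCompC K → AdeleLatticeC K → DiscreteModCentreC K`), for every number field `K`.

Method (Godement-Jacquet par. 10, coordinate form of `Ad : GL₂ → GL(M₂)`): the sixteen functions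
`g ↦ g_{ki} (g⁻¹)_{jl}` on `GL₂(𝔸_K)` are continuous, invariant under multiplication by central
elements, and take values in `K` on `GL₂(K)`.  A compact subset of `𝔸_K` contains finitely many
elements of the closed discrete subgroup `K`, so only finitely many sixteen-tuples occur; two
elements of `GL₂(K)` with the same sixteen-tuple are proportional.
No local compactness is needed: only `DiscreteTopology (princ K)` and `IsClosed (princ K)`.
-/

set_option autoImplicit false

open IsDedekindDomain NumberField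
open scoped MatrixGroups

noncomputable section

namespace Fermat.Agent.LT.T1.H62

open Fermat.Agent.LT.H556.A0 Fermat.Agent.LT.T1

variable (K : Type) [Field K] [NumberField K]

/-- Index set of the sixteen coefficient functions `(k,i),(j,l)`. -/
abbrev Idx62 : Type := (Fin 2 × Fin 2) × (Fin 2 × Fin 2)

/-- The coefficient `g_{ki} (g⁻¹)_{jl}` of `Ad g` (adelic). -/
def adCoeff62 (g : G K) (a : Idx62) : Adl K :=
  (g : Matrix (Fin 2) (Fin 2) (Adl K)) a.1.1 a.1.2 *
    ((g⁻¹ : G K) : Matrix (Fin 2) (Fin 2) (Adl K)) a.2.1 a.2.2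

/-- The coefficient `γ_{ki} (γ⁻¹)_{jl}` of `Ad γ` (rational). -/
def adCoeffRat62 (γ : GL (Fin 2) K) (a : Idx62) : K :=
  (γ : Matrix (Fin 2) (Fin 2) K) a.1.1 a.1.2 *
    ((γ⁻¹ : GL (Fin 2) K) : Matrix (Fin 2) (Fin 2) K) a.2.1 a.2.2

/-- The coefficient functions are continuous on `GL₂(𝔸_K)`. -/
theorem continuous_adCoeff62 (a : Idx62) : Continuous fun g : G K => adCoeff62 K g a := by
  unfold adCoeff62
  have h1 : Continuous fun g : G K => (g : Matrix (Fin 2) (Fin 2) (Adl K)) a.1.1 a.1.2 :=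
    (Units.continuous_val).matrix_elem a.1.1 a.1.2
  have h2 : Continuous fun g : G K =>
      ((g⁻¹ : G K) : Matrix (Fin 2) (Fin 2) (Adl K)) a.2.1 a.2.2 :=
    (Units.continuous_coe_inv).matrix_elem a.2.1 a.2.2
  exact h1.mul h2

/-- Entries of the diagonal embedding. -/
theorem ratG_apply62 (γ : GL (Fin 2) K) (i j : Fin 2) :
    ((ratG K γ : G K) : Matrix (Fin 2) (Fin 2) (Adl K)) i j
      = algebraMap K (Adl K) ((γ : Matrix (Fin 2) (Fin 2) K) i j) := rfl

/-- On `GL₂(K)` the adelic coefficients are the rational ones. -/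
theorem adCoeff62_ratG (γ : GL (Fin 2) K) (a : Idx62) :
    adCoeff62 K (ratG K γ) a = algebraMap K (Adl K) (adCoeffRat62 K γ a) := by
  unfold adCoeff62 adCoeffRat62
  rw [← map_inv, ratG_apply62, ratG_apply62, map_mul]

/-- The coefficients are invariant under left multiplication by central elements. -/
theorem adCoeff62_central_mul (z g : G K) (hz : IsCentral K z) (a : Idx62) :
    adCoeff62 K (z * g) a = adCoeff62 K g a := by
  obtain ⟨c, hc⟩ := hz
  have hW : c • ((z⁻¹ : G K) : Matrix (Fin 2) (Fin 2) (Adl K)) = 1 := by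
    have h : (z : Matrix (Fin 2) (Fin 2) (Adl K)) *
        ((z⁻¹ : G K) : Matrix (Fin 2) (Fin 2) (Adl K)) = 1 := by
      rw [← Units.val_mul, mul_inv_cancel, Units.val_one]
    rw [hc] at h
    rw [← h]
    ext i j
    simp [Matrix.diagonal_mul]
  have h1 : ((z * g : G K) : Matrix (Fin 2) (Fin 2) (Adl K))
      = c • (g : Matrix (Fin 2) (Fin 2) (Adl K)) := by
    rw [Units.val_mul, hc]
    ext i j
    simp [Matrix.diagonal_mul]
  have h2 : c • (((z * g)⁻¹ : G K) : Matrix (Fin 2) (Fin 2) (Adl K))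
      = ((g⁻¹ : G K) : Matrix (Fin 2) (Fin 2) (Adl K)) := by
    rw [mul_inv_rev, Units.val_mul, ← Matrix.mul_smul, hW, mul_one]
  unfold adCoeff62
  rw [h1, ← h2]
  simp only [Matrix.smul_apply, smul_eq_mul]
  ring

/-- A compact subset of `𝔸_K` contains only finitely many principal adeles. -/
theorem finite_rat_mem_compact62 (hd : DiscreteTopology (princ K))
    (hc : IsClosed (princ K : Set (Adl K))) {C : Set (Adl K)} (hC : IsCompact C) :
    {ξ : K | algebraMap K (Adl K) ξ ∈ C}.Finite := by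
  have hcomp : IsCompact (C ∩ (princ K : Set (Adl K))) := hC.inter_right hc
  have hdisc : IsDiscrete (C ∩ (princ K : Set (Adl K))) :=
    (isDiscrete_iff_discreteTopology.mpr
      (show DiscreteTopology ↥(princ K : Set (Adl K)) from hd)).mono Set.inter_subset_right
  have hfin : (C ∩ (princ K : Set (Adl K))).Finite := hcomp.finite hdisc
  have hpre : ((algebraMap K (Adl K)) ⁻¹' (C ∩ (princ K : Set (Adl K)))).Finite :=
    hfin.preimage ((NumberField.AdeleRing.algebraMap_injective (𝓞 K) K).injOn)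
  refine hpre.subset ?_
  intro ξ hξ
  exact ⟨hξ, ⟨ξ, rfl⟩⟩

/-- Two elements of `GL₂(K)` with the same coefficients are proportional. -/
theorem proportional_of_adCoeffRat_eq62 (γ σ : GL (Fin 2) K)
    (h : ∀ a : Idx62, adCoeffRat62 K γ a = adCoeffRat62 K σ a) :
    ∃ c : K, (γ : Matrix (Fin 2) (Fin 2) K) = c • (σ : Matrix (Fin 2) (Fin 2) K) := by
  have hne : ∃ j l : Fin 2, ((γ⁻¹ : GL (Fin 2) K) : Matrix (Fin 2) (Fin 2) K) j l ≠ 0 := by
    by_contra hcon
    simp only [not_exists, not_not] at hcon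
    have h0 : ((γ⁻¹ : GL (Fin 2) K) : Matrix (Fin 2) (Fin 2) K) = 0 := by
      ext j l
      exact hcon j l
    have h1 : (γ : Matrix (Fin 2) (Fin 2) K) *
        ((γ⁻¹ : GL (Fin 2) K) : Matrix (Fin 2) (Fin 2) K) = 1 := by
      rw [← Units.val_mul, mul_inv_cancel, Units.val_one]
    rw [h0, mul_zero] at h1
    have := congrFun (congrFun h1 0) 0
    simp at this
  obtain ⟨j, l, hjl⟩ := hne
  refine ⟨((σ⁻¹ : GL (Fin 2) K) : Matrix (Fin 2) (Fin 2) K) j l /
    ((γ⁻¹ : GL (Fin 2) K) : Matrix (Fin 2) (Fin 2) K) j l, ?_⟩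
  ext k i
  have hki := h ((k, i), (j, l))
  unfold adCoeffRat62 at hki
  simp only at hki
  rw [Matrix.smul_apply, smul_eq_mul]
  field_simp
  rw [hki]
  ring

/-- **T1.08**: `PGL₂(K)` is discrete in `PGL₂(𝔸_K)`, elementwise form; only the closed discrete
subgroup `K ⊂ 𝔸_K` is used. -/
theorem discreteModCentreC_of_lattice62 (hd : DiscreteTopology (princ K))
    (hc : IsClosed (princ K : Set (Adl K))) : DiscreteModCentreC K := by
  classical
  intro C hC
  -- the finite sets of possible values of the sixteen coefficients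
  have hF : ∀ a : Idx62,
      {ξ : K | algebraMap K (Adl K) ξ ∈ (fun g : G K => adCoeff62 K g a) '' C}.Finite :=
    fun a => finite_rat_mem_compact62 K hd hc (hC.image (continuous_adCoeff62 K a))
  have hT : (Set.univ.pi fun a : Idx62 =>
      {ξ : K | algebraMap K (Adl K) ξ ∈ (fun g : G K => adCoeff62 K g a) '' C}).Finite :=
    Set.Finite.pi hF
  let f : (Idx62 → K) → GL (Fin 2) K := fun t =>
    if h : ∃ γ : GL (Fin 2) K, adCoeffRat62 K γ = t then h.choose else 1
  refine ⟨hT.toFinset.image f, ?_⟩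
  rintro γ ⟨z, hz, hzC⟩
  have hmem : adCoeffRat62 K γ ∈ (Set.univ.pi fun a : Idx62 =>
      {ξ : K | algebraMap K (Adl K) ξ ∈ (fun g : G K => adCoeff62 K g a) '' C}) := by
    intro a _
    refine ⟨z * ratG K γ, hzC, ?_⟩
    show adCoeff62 K (z * ratG K γ) a = _
    rw [adCoeff62_central_mul K z _ hz, adCoeff62_ratG]
  have hex : ∃ γ' : GL (Fin 2) K, adCoeffRat62 K γ' = adCoeffRat62 K γ := ⟨γ, rfl⟩
  have hf : adCoeffRat62 K (f (adCoeffRat62 K γ)) = adCoeffRat62 K γ := by
    have : f (adCoeffRat62 K γ) = hex.choose := dif_pos hex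
    rw [this]
    exact hex.choose_spec
  refine ⟨f (adCoeffRat62 K γ), Finset.mem_image_of_mem _ (hT.mem_toFinset.2 hmem), ?_⟩
  exact proportional_of_adCoeffRat_eq62 K γ _ (fun a => (congrFun hf a).symm)

/-- **T1.08 `LeafDiscreteModCentre`, VERBATIM** (`T1/Spec.lean` of helper54). -/
theorem leafDiscreteModCentre62 : LeafDiscreteModCentre K :=
  fun _ hAL => discreteModCentreC_of_lattice62 K hAL.1 hAL.2.1

end Fermat.Agent.LT.T1.H62

end

end
-- ===== PACK-END LT/T1/H62/DiscModCentre.lean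

-- ===== PACK-BEGIN LT/T1/H729/AdNorm.lean
section





/-!
# Row LT, tower T1 (volunteer helper729): the module `adNorm` on ideles

OFF-MAIN.  For `T1.adNorm` of `LT/T1/Spec.lean` (helper54):

* `adNorm_pos729`, `adNorm_mul729`, `adNorm_ratUnit729` : positivity and multiplicativity on ideles,
  product formula (the first three clauses of `T1.AdNormC`);
* `adNorm_eq_one729` : `adNorm x = 1` when all components have norm one.
-/

set_option autoImplicit false

open IsDedekindDomain NumberField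
open Fermat.Agent.LT.H556.A0

noncomputable section

namespace Fermat.Agent.LT.T1.H729

set_option linter.unusedSectionVars false

variable (K : Type) [Field K] [NumberField K]

/-- The norm of an element of valuation one is one. -/
theorem norm_eq_one_of_valued_eq_one729 (v : HeightOneSpectrum (𝓞 K)) (x : v.adicCompletion K)
    (h : Valued.v x = 1) : ‖x‖ = 1 := by
  rw [NumberField.FinitePlace.norm_def, h, map_one]
  rfl

/-- The finite part of an idele is a unit of the finite adele ring. -/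
theorem isUnit_snd729 (x : (Adl K)ˣ) : IsUnit ((x : Adl K).2) :=
  (x.isUnit).map (RingHom.snd (InfiniteAdeleRing K) (FiniteAdeleRing (𝓞 K) K))

/-- The infinite components of an idele are non-zero. -/
theorem inf_ne_zero729 (x : (Adl K)ˣ) (w : InfinitePlace K) : (x : Adl K).1 w ≠ 0 :=
  ((x.isUnit).map (projInf729 w)).ne_zero

/-- The finite components of an idele are non-zero. -/
theorem fin_ne_zero729 (x : (Adl K)ˣ) (v : HeightOneSpectrum (𝓞 K)) : (x : Adl K).2 v ≠ 0 :=
  ((x.isUnit).map (projFin729 v)).ne_zero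

/-- The finite components of an idele have norm one at almost all places. -/
theorem finite_mulSupport_fin729 (x : (Adl K)ˣ) :
    (Function.mulSupport fun v : HeightOneSpectrum (𝓞 K) => ‖(x : Adl K).2 v‖).Finite := by
  have h := (FiniteAdeleRing.isUnit_iff.mp (isUnit_snd729 K x)).2
  rw [Filter.eventually_cofinite] at h
  refine h.subset ?_
  intro v hv
  simp only [Function.mem_mulSupport] at hv
  simp only [Set.mem_ofPred_eq]
  intro h1
  exact hv (norm_eq_one_of_valued_eq_one729 K v _ h1)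

/-- **Positivity** of the module on ideles. -/
theorem adNorm_pos729 (x : (Adl K)ˣ) : 0 < Fermat.Agent.LT.T1.adNorm K (x : Adl K) := by
  unfold Fermat.Agent.LT.T1.adNorm
  refine mul_pos (Finset.prod_pos fun w _ => pow_pos (norm_pos_iff.mpr (inf_ne_zero729 K x w)) _) ?_
  rw [finprod_eq_prod _ (finite_mulSupport_fin729 K x)]
  exact Finset.prod_pos fun v _ => norm_pos_iff.mpr (fin_ne_zero729 K x v)

/-- **Multiplicativity** of the module on ideles. -/
theorem adNorm_mul729 (x y : (Adl K)ˣ) :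
    Fermat.Agent.LT.T1.adNorm K ((x * y : (Adl K)ˣ) : Adl K) =
      Fermat.Agent.LT.T1.adNorm K (x : Adl K) * Fermat.Agent.LT.T1.adNorm K (y : Adl K) := by
  unfold Fermat.Agent.LT.T1.adNorm
  have hinf : ∀ w : InfinitePlace K, ‖((x * y : (Adl K)ˣ) : Adl K).1 w‖ ^ w.mult =
      ‖(x : Adl K).1 w‖ ^ w.mult * ‖(y : Adl K).1 w‖ ^ w.mult := by
    intro w
    have : ((x * y : (Adl K)ˣ) : Adl K).1 w = (x : Adl K).1 w * (y : Adl K).1 w := by
      rw [Units.val_mul]
      exact map_mul (projInf729 w) _ _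
    rw [this, norm_mul, mul_pow]
  have hfin : ∀ v : HeightOneSpectrum (𝓞 K), ‖((x * y : (Adl K)ˣ) : Adl K).2 v‖ =
      ‖(x : Adl K).2 v‖ * ‖(y : Adl K).2 v‖ := by
    intro v
    have : ((x * y : (Adl K)ˣ) : Adl K).2 v = (x : Adl K).2 v * (y : Adl K).2 v := by
      rw [Units.val_mul]
      exact map_mul (projFin729 v) _ _
    rw [this, norm_mul]
  simp_rw [hinf, hfin]
  rw [Finset.prod_mul_distrib,
    finprod_mul_distrib (finite_mulSupport_fin729 K x) (finite_mulSupport_fin729 K y)]
  ring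

/-- `adNorm x = 1` when every component of `x` has norm one. -/
theorem adNorm_eq_one729 (x : Adl K) (hinf : ∀ w : InfinitePlace K, ‖x.1 w‖ = 1)
    (hfin : ∀ v : HeightOneSpectrum (𝓞 K), ‖x.2 v‖ = 1) :
    Fermat.Agent.LT.T1.adNorm K x = 1 := by
  unfold Fermat.Agent.LT.T1.adNorm
  simp [hinf, hfin]

/-- **Product formula**: the module of a principal idele is one. -/
theorem adNorm_ratUnit729 (ξ : Kˣ) :
    Fermat.Agent.LT.T1.adNorm K ((Fermat.Agent.LT.T1.ratUnit K ξ : (Adl K)ˣ) : Adl K) = 1 := by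
  unfold Fermat.Agent.LT.T1.adNorm
  have hξ : (ξ : K) ≠ 0 := ξ.ne_zero
  have h := NumberField.prod_abs_eq_one (K := K) hξ
  have hinf : ∀ w : InfinitePlace K,
      ‖((Fermat.Agent.LT.T1.ratUnit K ξ : (Adl K)ˣ) : Adl K).1 w‖ = w (ξ : K) := by
    intro w
    change ‖((ξ : K) : w.Completion)‖ = _
    rw [InfinitePlace.Completion.norm_coe]
    rfl
  have hfin : ∀ v : HeightOneSpectrum (𝓞 K),
      ‖((Fermat.Agent.LT.T1.ratUnit K ξ : (Adl K)ˣ) : Adl K).2 v‖ =
        NumberField.FinitePlace.mk v (ξ : K) := by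
    intro v
    rfl
  simp_rw [hinf, hfin]
  rw [← h]
  congr 1
  rw [← finprod_comp_equiv (NumberField.FinitePlace.equivHeightOneSpectrum (K := K)).symm]
  refine finprod_congr fun v => ?_
  rw [NumberField.FinitePlace.equivHeightOneSpectrum_symm_apply]
  rfl

end Fermat.Agent.LT.T1.H729

end
end
-- ===== PACK-END LT/T1/H729/AdNorm.lean

-- ===== PACK-BEGIN LT/T1/H724/HeckeCoset.lean
section



/-!
# Row LT, tower T1, sub-leaf T1.19 `LeafHeckeCoset` (helper724)

OFF-MAIN.  Proof of `Fermat.Agent.LT.T1.LeafHeckeCoset K = HeckeCosetC K` for every number field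
`K`: at every finite place `v`

* a Hecke coset system (`A0.IsHeckeCosetSystem`) exists: the `q_v + 1` local elements
  `[[ϖ, r], [0, 1]]` (`r` running over representatives of `𝓞_K / 𝔭_v`) and `[[1, 0], [0, ϖ]]`;
* every Hecke coset system is a full system of representatives (pigeonhole on the map
  "image of the reduction mod `𝔭_v`" with values in `Option (𝓞_K / 𝔭_v)`);
* a scalar uniformiser exists.

Only Mathlib, `LT/H556/A0.lean` and `LT/T1/Spec.lean` are used.
-/

set_option autoImplicit false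

open IsDedekindDomain NumberField
open Fermat.Agent.LT.H556.A0

noncomputable section

namespace Fermat.Agent.LT.T1.H724

variable {K : Type} [Field K] [NumberField K]

/-! ## A. Components of adeles and of adelic matrices -/

/-- Evaluation of an adele at a finite place, as a ring homomorphism. -/
def evFin724 (v : HeightOneSpectrum (𝓞 K)) : Adl K →+* v.adicCompletion K :=
  (RestrictedProduct.evalRingHom _ v).comp (RingHom.snd _ _)

/-- Evaluation of an adele at an infinite place, as a ring homomorphism. -/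
def evInf724 (w : InfinitePlace K) : Adl K →+* w.Completion :=
  (Pi.evalRingHom _ w).comp (RingHom.fst _ _)

theorem evFin724_apply (v : HeightOneSpectrum (𝓞 K)) (x : Adl K) : evFin724 v x = x.2 v := rfl

theorem evInf724_apply (w : InfinitePlace K) (x : Adl K) : evInf724 w x = x.1 w := rfl

theorem adl_ext724 {x y : Adl K} (h1 : ∀ w, evInf724 w x = evInf724 w y)
    (h2 : ∀ v, evFin724 v x = evFin724 v y) : x = y := by
  refine Prod.ext (funext h1) ?_
  exact RestrictedProduct.ext _ _ h2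

theorem mat_ext724 {A B : Matrix (Fin 2) (Fin 2) (Adl K)}
    (h1 : ∀ w, A.map (evInf724 w) = B.map (evInf724 w))
    (h2 : ∀ v, A.map (evFin724 v) = B.map (evFin724 v)) : A = B := by
  ext i j : 2
  refine adl_ext724 (fun w => ?_) (fun v => ?_)
  · exact congrFun (congrFun (h1 w) i) j
  · exact congrFun (congrFun (h2 v) i) j

theorem finComp_eq_map724 (v : HeightOneSpectrum (𝓞 K)) (g : G K) :
    finComp v g = (g : Matrix (Fin 2) (Fin 2) (Adl K)).map (evFin724 v) := rfl

theorem finComp_mul724 (v : HeightOneSpectrum (𝓞 K)) (g h : G K) :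
    finComp v (g * h) = finComp v g * finComp v h := by
  simp only [finComp_eq_map724, Units.val_mul, Matrix.map_mul]

theorem finComp_one724 (v : HeightOneSpectrum (𝓞 K)) : finComp v (1 : G K) = 1 := by
  simp only [finComp_eq_map724, Units.val_one]
  exact Matrix.map_one _ (map_zero _) (map_one _)

theorem finComp_mul_inv724 (v : HeightOneSpectrum (𝓞 K)) (g : G K) :
    finComp v g * finComp v g⁻¹ = 1 := by
  rw [← finComp_mul724, mul_inv_cancel, finComp_one724]

theorem finComp_inv_mul724 (v : HeightOneSpectrum (𝓞 K)) (g : G K) :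
    finComp v g⁻¹ * finComp v g = 1 := by
  rw [← finComp_mul724, inv_mul_cancel, finComp_one724]

theorem finComp_inv724 (v : HeightOneSpectrum (𝓞 K)) (g : G K) :
    finComp v g⁻¹ = (finComp v g)⁻¹ :=
  (Matrix.inv_eq_right_inv (finComp_mul_inv724 v g)).symm

/-! ## B. Local elements -/

open Classical in
/-- The adele with component `x` at `v` and the components of `a` at all other places. -/
def updAd724 (a : Adl K) (v : HeightOneSpectrum (𝓞 K)) (x : v.adicCompletion K) : Adl K :=
  (a.1, ⟨Function.update (fun v' => a.2 v') v x, by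
    have h := a.2.2
    rw [Filter.eventually_cofinite] at h ⊢
    refine (h.union (Set.finite_singleton v)).subset ?_
    intro v' hv'
    by_cases hvv : v' = v
    · exact Or.inr hvv
    · refine Or.inl ?_
      have hv'' : Function.update (fun v' => a.2 v') v x v' ∉
          (v'.adicCompletionIntegers K : Set (v'.adicCompletion K)) := hv'
      rw [Function.update_of_ne hvv] at hv''
      exact hv''⟩)

theorem evFin_updAd_self724 (a : Adl K) (v : HeightOneSpectrum (𝓞 K))
    (x : v.adicCompletion K) : evFin724 v (updAd724 a v x) = x := by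
  classical
  change Function.update (fun v' => a.2 v') v x v = x
  exact Function.update_self ..

theorem evFin_updAd_ne724 (a : Adl K) {v v' : HeightOneSpectrum (𝓞 K)} (h : v' ≠ v)
    (x : v.adicCompletion K) : evFin724 v' (updAd724 a v x) = evFin724 v' a := by
  classical
  change Function.update (fun v' => a.2 v') v x v' = a.2 v'
  exact Function.update_of_ne h ..

theorem evInf_updAd724 (a : Adl K) (v : HeightOneSpectrum (𝓞 K))
    (x : v.adicCompletion K) (w : InfinitePlace K) :
    evInf724 w (updAd724 a v x) = evInf724 w a := rfl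

/-- The adelic matrix with component `M` at `v` and `1` at all other places. -/
def locMat724 (v : HeightOneSpectrum (𝓞 K)) (M : Matrix (Fin 2) (Fin 2) (v.adicCompletion K)) :
    Matrix (Fin 2) (Fin 2) (Adl K) :=
  fun i j => updAd724 ((1 : Matrix (Fin 2) (Fin 2) (Adl K)) i j) v (M i j)

theorem locMat_map_self724 (v : HeightOneSpectrum (𝓞 K))
    (M : Matrix (Fin 2) (Fin 2) (v.adicCompletion K)) :
    (locMat724 v M).map (evFin724 v) = M := by
  ext i j : 1
  exact evFin_updAd_self724 _ v _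

theorem locMat_map_ne724 {v v' : HeightOneSpectrum (𝓞 K)} (h : v' ≠ v)
    (M : Matrix (Fin 2) (Fin 2) (v.adicCompletion K)) :
    (locMat724 v M).map (evFin724 v') = 1 := by
  ext i j : 1
  rw [Matrix.map_apply, locMat724, evFin_updAd_ne724 _ h]
  rw [← Matrix.map_apply (f := evFin724 v'), Matrix.map_one _ (map_zero _) (map_one _)]

theorem locMat_map_inf724 (v : HeightOneSpectrum (𝓞 K))
    (M : Matrix (Fin 2) (Fin 2) (v.adicCompletion K)) (w : InfinitePlace K) :
    (locMat724 v M).map (evInf724 w) = 1 := by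
  ext i j : 1
  rw [Matrix.map_apply, locMat724, evInf_updAd724]
  rw [← Matrix.map_apply (f := evInf724 w), Matrix.map_one _ (map_zero _) (map_one _)]

theorem locMat_mul724 (v : HeightOneSpectrum (𝓞 K))
    (M N : Matrix (Fin 2) (Fin 2) (v.adicCompletion K)) :
    locMat724 v M * locMat724 v N = locMat724 v (M * N) := by
  refine mat_ext724 (fun w => ?_) (fun v' => ?_)
  · rw [Matrix.map_mul, locMat_map_inf724, locMat_map_inf724, locMat_map_inf724, mul_one]
  · by_cases h : v' = v
    · subst h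
      rw [Matrix.map_mul, locMat_map_self724, locMat_map_self724, locMat_map_self724]
    · rw [Matrix.map_mul, locMat_map_ne724 h, locMat_map_ne724 h, locMat_map_ne724 h, mul_one]

theorem locMat_one724 (v : HeightOneSpectrum (𝓞 K)) :
    locMat724 v (1 : Matrix (Fin 2) (Fin 2) (v.adicCompletion K)) = 1 := by
  refine mat_ext724 (fun w => ?_) (fun v' => ?_)
  · rw [locMat_map_inf724, Matrix.map_one _ (map_zero _) (map_one _)]
  · by_cases h : v' = v
    · subst h
      rw [locMat_map_self724, Matrix.map_one _ (map_zero _) (map_one _)]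
    · rw [locMat_map_ne724 h, Matrix.map_one _ (map_zero _) (map_one _)]

/-- The element of `GL₂(𝔸_K)` with component `M` at `v` (inverse `N`) and `1` elsewhere. -/
def locGL724 (v : HeightOneSpectrum (𝓞 K)) (M N : Matrix (Fin 2) (Fin 2) (v.adicCompletion K))
    (h1 : M * N = 1) (h2 : N * M = 1) : G K :=
  ⟨locMat724 v M, locMat724 v N, by rw [locMat_mul724, h1, locMat_one724],
    by rw [locMat_mul724, h2, locMat_one724]⟩

theorem finComp_locGL724 (v : HeightOneSpectrum (𝓞 K))
    (M N : Matrix (Fin 2) (Fin 2) (v.adicCompletion K)) (h1 : M * N = 1) (h2 : N * M = 1) :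
    finComp v (locGL724 v M N h1 h2) = M :=
  locMat_map_self724 v M

theorem finComp_locGL_inv724 (v : HeightOneSpectrum (𝓞 K))
    (M N : Matrix (Fin 2) (Fin 2) (v.adicCompletion K)) (h1 : M * N = 1) (h2 : N * M = 1) :
    finComp v (locGL724 v M N h1 h2)⁻¹ = N :=
  locMat_map_self724 v N

theorem isLocalAtFin_locGL724 (v : HeightOneSpectrum (𝓞 K))
    (M N : Matrix (Fin 2) (Fin 2) (v.adicCompletion K)) (h1 : M * N = 1) (h2 : N * M = 1) :
    IsLocalAtFin v (locGL724 v M N h1 h2) := by
  refine ⟨fun w i j => ?_, fun v' hv' => ?_⟩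
  · exact congrFun (congrFun (locMat_map_inf724 v M w) i) j
  · exact locMat_map_ne724 hv' M

/-! ## C. Valuations at `v` -/

theorem lt_one_iff724 (x : WithZero (Multiplicative ℤ)) : x < 1 ↔ x ≤ WithZero.exp (-1 : ℤ) := by
  have h := WithZero.lt_mul_exp_iff_le (x := x) (y := WithZero.exp (-1 : ℤ)) WithZero.exp_ne_zero
  rw [← WithZero.exp_add] at h
  simpa using h

variable (v : HeightOneSpectrum (𝓞 K))

theorem val_algebraMap724 (k : K) :
    Valued.v (algebraMap K (v.adicCompletion K) k) = v.valuation K k :=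
  HeightOneSpectrum.valuedAdicCompletion_eq_valuation' v k

theorem val_algebraMapInt724 (r : 𝓞 K) :
    Valued.v (algebraMap (𝓞 K) (v.adicCompletion K) r) = v.valuation K (algebraMap (𝓞 K) K r) :=
  HeightOneSpectrum.valuedAdicCompletion_eq_valuation' v _

theorem exists_unif724 : ∃ ϖ : v.adicCompletion K, Valued.v ϖ = WithZero.exp (-1 : ℤ) := by
  obtain ⟨π, hπ⟩ := v.valuation_exists_uniformizer K
  exact ⟨algebraMap K (v.adicCompletion K) π, by rw [val_algebraMap724, hπ]⟩

theorem val_int_lt_one_iff724 (r : 𝓞 K) :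
    Valued.v (algebraMap (𝓞 K) (v.adicCompletion K) r) < 1 ↔ r ∈ v.asIdeal := by
  rw [val_algebraMapInt724]
  exact v.valuation_lt_one_iff_mem r

theorem val_int_le_one724 (r : 𝓞 K) :
    Valued.v (algebraMap (𝓞 K) (v.adicCompletion K) r) ≤ 1 := by
  rw [val_algebraMapInt724]
  exact v.valuation_le_one r

variable {v}

/-- membership in the maximal ideal `𝔪_v` of `𝒪_v`, as a predicate on `K_v` -/
def InM724 (x : v.adicCompletion K) : Prop := Valued.v x < 1

theorem inM_add724 {x y : v.adicCompletion K} (hx : InM724 x) (hy : InM724 y) :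
    InM724 (x + y) :=
  lt_of_le_of_lt (Valuation.map_add _ _ _) (max_lt hx hy)

theorem inM_neg724 {x : v.adicCompletion K} (hx : InM724 x) : InM724 (-x) := by
  unfold InM724
  rwa [Valuation.map_neg]

theorem inM_sub724 {x y : v.adicCompletion K} (hx : InM724 x) (hy : InM724 y) :
    InM724 (x - y) := by
  rw [sub_eq_add_neg]
  exact inM_add724 hx (inM_neg724 hy)

theorem inM_mul_left724 {a x : v.adicCompletion K} (ha : Valued.v a ≤ 1) (hx : InM724 x) :
    InM724 (a * x) := by
  unfold InM724 at hx ⊢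
  rw [map_mul]
  exact mul_lt_one_of_nonneg_of_lt_one_right ha zero_le hx

theorem inM_mul_right724 {a x : v.adicCompletion K} (hx : InM724 x) (ha : Valued.v a ≤ 1) :
    InM724 (x * a) := by
  rw [mul_comm]
  exact inM_mul_left724 ha hx

theorem inM_zero724 : InM724 (0 : v.adicCompletion K) := by
  unfold InM724
  rw [map_zero]
  exact zero_lt_one

/-- cancel a unit of `𝒪_v` -/
theorem inM_of_mul_unit724 {a x : v.adicCompletion K} (ha : Valued.v a = 1)
    (hx : InM724 (a * x)) : InM724 x := by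
  unfold InM724 at hx ⊢
  rwa [map_mul, ha, one_mul] at hx

theorem not_inM_iff724 {a : v.adicCompletion K} (ha : Valued.v a ≤ 1) :
    ¬ InM724 a ↔ Valued.v a = 1 := by
  unfold InM724
  constructor
  · intro h
    exact le_antisymm ha (not_lt.1 h)
  · intro h
    rw [h]
    exact lt_irrefl _

/-! ## D. The type of an integral matrix of determinant a uniformiser -/

/-- scalar form of the key computation -/
theorem entries_none724 {a b c d a' b' c' d' : v.adicCompletion K}
    (ha : Valued.v a ≤ 1) (hb : Valued.v b ≤ 1)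
    (ha' : Valued.v a' ≤ 1) (hb' : Valued.v b' ≤ 1)
    (hc : InM724 c) (hd : InM724 d) (hc' : InM724 c') (hd' : InM724 d') :
    InM724 (d' * a + -b' * c) ∧ InM724 (d' * b + -b' * d) ∧
      InM724 (-c' * a + a' * c) ∧ InM724 (-c' * b + a' * d) := by
  have hnb' : Valued.v (-b') ≤ 1 := by rwa [Valuation.map_neg]
  refine ⟨inM_add724 (inM_mul_right724 hd' ha) (inM_mul_left724 hnb' hc),
    inM_add724 (inM_mul_right724 hd' hb) (inM_mul_left724 hnb' hd),
    inM_add724 (inM_mul_right724 (inM_neg724 hc') ha) (inM_mul_left724 ha' hc),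
    inM_add724 (inM_mul_right724 (inM_neg724 hc') hb) (inM_mul_left724 ha' hd)⟩

theorem entries_some724 {a b c d a' b' c' d' r : v.adicCompletion K}
    (hc : Valued.v c ≤ 1) (hd : Valued.v d ≤ 1)
    (hc' : Valued.v c' ≤ 1) (hd' : Valued.v d' ≤ 1)
    (h1 : InM724 (a - r * c)) (h2 : InM724 (b - r * d))
    (h1' : InM724 (a' - r * c')) (h2' : InM724 (b' - r * d')) :
    InM724 (d' * a + -b' * c) ∧ InM724 (d' * b + -b' * d) ∧
      InM724 (-c' * a + a' * c) ∧ InM724 (-c' * b + a' * d) := by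
  have e1 : d' * a + -b' * c = d' * (a - r * c) - (b' - r * d') * c := by ring
  have e2 : d' * b + -b' * d = d' * (b - r * d) - (b' - r * d') * d := by ring
  have e3 : -c' * a + a' * c = (a' - r * c') * c - c' * (a - r * c) := by ring
  have e4 : -c' * b + a' * d = (a' - r * c') * d - c' * (b - r * d) := by ring
  rw [e1, e2, e3, e4]
  exact ⟨inM_sub724 (inM_mul_left724 hd' h1) (inM_mul_right724 h2' hc),
    inM_sub724 (inM_mul_left724 hd' h2) (inM_mul_right724 h2' hd),
    inM_sub724 (inM_mul_right724 h1' hc) (inM_mul_left724 hc' h1),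
    inM_sub724 (inM_mul_right724 h1' hd) (inM_mul_left724 hc' h2)⟩

variable (v)

/-- integrality of a local matrix -/
def IsInt724 (M : Matrix (Fin 2) (Fin 2) (v.adicCompletion K)) : Prop :=
  ∀ i j, Valued.v (M i j) ≤ 1

/-- `Rel724 v M ρ`: the image of the reduction of `M` modulo `𝔪_v` is contained in the line
`ρ ∈ ℙ¹(𝓞_K / 𝔭_v)` (`none` = the line spanned by `(1, 0)`, `some r` = the line spanned by
`(r, 1)`). -/
def Rel724 (M : Matrix (Fin 2) (Fin 2) (v.adicCompletion K)) :
    Option (𝓞 K ⧸ v.asIdeal) → Prop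
  | none => InM724 (M 1 0) ∧ InM724 (M 1 1)
  | some ρ => ∃ r : 𝓞 K, Ideal.Quotient.mk v.asIdeal r = ρ ∧
      InM724 (M 0 0 - algebraMap (𝓞 K) (v.adicCompletion K) r * M 1 0) ∧
      InM724 (M 0 1 - algebraMap (𝓞 K) (v.adicCompletion K) r * M 1 1)

theorem exists_int_approx724 (x : v.adicCompletion K) (hx : Valued.v x ≤ 1) :
    ∃ r : 𝓞 K, InM724 (x - algebraMap (𝓞 K) (v.adicCompletion K) r) := by
  obtain ⟨ϖ, hϖ⟩ := exists_unif724 v
  have hopen2 : IsOpen {y : v.adicCompletion K | Valued.v ((y - x) * ϖ⁻¹) ≤ 1} := by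
    have h1 : IsOpen ((v.adicCompletionIntegers K : Set (v.adicCompletion K))) :=
      Valued.isOpen_valuationSubring _
    have h2 : Continuous (fun y : v.adicCompletion K => (y - x) * ϖ⁻¹) :=
      (continuous_id.sub continuous_const).mul continuous_const
    exact h1.preimage h2
  have hne : ({y : v.adicCompletion K | Valued.v ((y - x) * ϖ⁻¹) ≤ 1}).Nonempty :=
    ⟨x, by simp⟩
  obtain ⟨k, hk⟩ := (HeightOneSpectrum.denseRange_algebraMap K v).exists_mem_open hopen2 hne
  have hk1 : Valued.v (algebraMap K (v.adicCompletion K) k - x) ≤ WithZero.exp (-1 : ℤ) := by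
    have hk' : Valued.v ((algebraMap K (v.adicCompletion K) k - x) * ϖ⁻¹) ≤ 1 := hk
    rw [map_mul, map_inv₀, hϖ] at hk'
    rwa [mul_inv_le_iff₀ WithZero.exp_pos, one_mul] at hk'
  have hk2 : Valued.v (algebraMap K (v.adicCompletion K) k - x) < 1 := (lt_one_iff724 _).2 hk1
  have hk3 : v.valuation K k ≤ 1 := by
    rw [← val_algebraMap724]
    have : algebraMap K (v.adicCompletion K) k = (algebraMap K (v.adicCompletion K) k - x) + x := by
      ring
    rw [this]
    exact (Valuation.map_add _ _ _).trans (max_le hk2.le hx)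
  obtain ⟨a, ha⟩ := v.exists_valuation_sub_lt_of_integer hk3 1
  refine ⟨a, ?_⟩
  have ha' : Valued.v (algebraMap K (v.adicCompletion K) (algebraMap (𝓞 K) K a - k)) < 1 := by
    rw [val_algebraMap724]
    simpa using ha
  have e : x - algebraMap (𝓞 K) (v.adicCompletion K) a =
      -((algebraMap K (v.adicCompletion K) (algebraMap (𝓞 K) K a - k)) +
        (algebraMap K (v.adicCompletion K) k - x)) := by
    rw [map_sub, ← IsScalarTower.algebraMap_apply]
    ring
  unfold InM724
  rw [e, Valuation.map_neg]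
  exact lt_of_le_of_lt (Valuation.map_add _ _ _) (max_lt ha' hk2)

theorem exists_rel724 (M : Matrix (Fin 2) (Fin 2) (v.adicCompletion K)) (hM : IsInt724 v M)
    (hdet : InM724 M.det) : ∃ ρ, Rel724 v M ρ := by
  rw [Matrix.det_fin_two] at hdet
  by_cases hd : InM724 (M 1 1)
  · by_cases hc : InM724 (M 1 0)
    · exact ⟨none, hc, hd⟩
    · -- `c = M 1 0` is a unit
      have hc1 : Valued.v (M 1 0) = 1 := (not_inM_iff724 (hM 1 0)).1 hc
      have hc0 : M 1 0 ≠ 0 := by
        intro h
        rw [h, map_zero] at hc1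
        exact zero_ne_one hc1
      have hx : Valued.v (M 0 0 * (M 1 0)⁻¹) ≤ 1 := by
        rw [map_mul, map_inv₀, hc1, inv_one, mul_one]
        exact hM 0 0
      obtain ⟨r, hr⟩ := exists_int_approx724 v _ hx
      have h1 : InM724 (M 0 0 - algebraMap (𝓞 K) (v.adicCompletion K) r * M 1 0) := by
        have e : M 0 0 - algebraMap (𝓞 K) (v.adicCompletion K) r * M 1 0 =
            (M 0 0 * (M 1 0)⁻¹ - algebraMap (𝓞 K) (v.adicCompletion K) r) * M 1 0 := by
          field_simp
        rw [e]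
        exact inM_mul_right724 hr (hM 1 0)
      have h2 : InM724 (M 0 1 - algebraMap (𝓞 K) (v.adicCompletion K) r * M 1 1) := by
        refine inM_of_mul_unit724 hc1 ?_
        have e : M 1 0 * (M 0 1 - algebraMap (𝓞 K) (v.adicCompletion K) r * M 1 1) =
            M 1 1 * (M 0 0 - algebraMap (𝓞 K) (v.adicCompletion K) r * M 1 0) -
              (M 0 0 * M 1 1 - M 0 1 * M 1 0) := by ring
        rw [e]
        exact inM_sub724 (inM_mul_left724 (hM 1 1) h1) hdet
      exact ⟨some (Ideal.Quotient.mk v.asIdeal r), r, rfl, h1, h2⟩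
  · -- `d = M 1 1` is a unit
    have hd1 : Valued.v (M 1 1) = 1 := (not_inM_iff724 (hM 1 1)).1 hd
    have hd0 : M 1 1 ≠ 0 := by
      intro h
      rw [h, map_zero] at hd1
      exact zero_ne_one hd1
    have hx : Valued.v (M 0 1 * (M 1 1)⁻¹) ≤ 1 := by
      rw [map_mul, map_inv₀, hd1, inv_one, mul_one]
      exact hM 0 1
    obtain ⟨r, hr⟩ := exists_int_approx724 v _ hx
    have h2 : InM724 (M 0 1 - algebraMap (𝓞 K) (v.adicCompletion K) r * M 1 1) := by
      have e : M 0 1 - algebraMap (𝓞 K) (v.adicCompletion K) r * M 1 1 =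
          (M 0 1 * (M 1 1)⁻¹ - algebraMap (𝓞 K) (v.adicCompletion K) r) * M 1 1 := by
        field_simp
      rw [e]
      exact inM_mul_right724 hr (hM 1 1)
    have h1 : InM724 (M 0 0 - algebraMap (𝓞 K) (v.adicCompletion K) r * M 1 0) := by
      refine inM_of_mul_unit724 hd1 ?_
      have e : M 1 1 * (M 0 0 - algebraMap (𝓞 K) (v.adicCompletion K) r * M 1 0) =
          (M 0 0 * M 1 1 - M 0 1 * M 1 0) +
            M 1 0 * (M 0 1 - algebraMap (𝓞 K) (v.adicCompletion K) r * M 1 1) := by ring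
      rw [e]
      exact inM_add724 hdet (inM_mul_left724 (hM 1 0) h2)
    exact ⟨some (Ideal.Quotient.mk v.asIdeal r), r, rfl, h1, h2⟩

/-- Two integral matrices of the same type: `adj(N) * M ≡ 0 mod 𝔪_v`. -/
theorem adj_mul_of_rel724 (M N : Matrix (Fin 2) (Fin 2) (v.adicCompletion K))
    (hM : IsInt724 v M) (hN : IsInt724 v N) (ρ : Option (𝓞 K ⧸ v.asIdeal))
    (h1 : Rel724 v M ρ) (h2 : Rel724 v N ρ) :
    InM724 (N 1 1 * M 0 0 + -N 0 1 * M 1 0) ∧ InM724 (N 1 1 * M 0 1 + -N 0 1 * M 1 1) ∧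
      InM724 (-N 1 0 * M 0 0 + N 0 0 * M 1 0) ∧ InM724 (-N 1 0 * M 0 1 + N 0 0 * M 1 1) := by
  cases ρ with
  | none =>
    exact entries_none724 (hM 0 0) (hM 0 1) (hN 0 0) (hN 0 1) h1.1 h1.2 h2.1 h2.2
  | some ρ =>
    obtain ⟨r, hr, hr1, hr2⟩ := h1
    obtain ⟨r', hr', hr1', hr2'⟩ := h2
    have hrr : InM724 (algebraMap (𝓞 K) (v.adicCompletion K) (r - r')) := by
      unfold InM724
      rw [val_int_lt_one_iff724]
      rw [← Ideal.Quotient.eq, hr, hr']
    rw [map_sub] at hrr
    -- transport the congruences of `N` from `r'` to `r`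
    have k1 : InM724 (N 0 0 - algebraMap (𝓞 K) (v.adicCompletion K) r * N 1 0) := by
      have e : N 0 0 - algebraMap (𝓞 K) (v.adicCompletion K) r * N 1 0 =
          (N 0 0 - algebraMap (𝓞 K) (v.adicCompletion K) r' * N 1 0) -
            (algebraMap (𝓞 K) (v.adicCompletion K) r -
              algebraMap (𝓞 K) (v.adicCompletion K) r') * N 1 0 := by ring
      rw [e]
      exact inM_sub724 hr1' (inM_mul_right724 hrr (hN 1 0))
    have k2 : InM724 (N 0 1 - algebraMap (𝓞 K) (v.adicCompletion K) r * N 1 1) := by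
      have e : N 0 1 - algebraMap (𝓞 K) (v.adicCompletion K) r * N 1 1 =
          (N 0 1 - algebraMap (𝓞 K) (v.adicCompletion K) r' * N 1 1) -
            (algebraMap (𝓞 K) (v.adicCompletion K) r -
              algebraMap (𝓞 K) (v.adicCompletion K) r') * N 1 1 := by ring
      rw [e]
      exact inM_sub724 hr2' (inM_mul_right724 hrr (hN 1 1))
    exact entries_some724 (hM 1 0) (hM 1 1) (hN 1 0) (hN 1 1) hr1 hr2 k1 k2

/-- Same type `⇒` `N⁻¹ M` is integral (for `det N` a uniformiser). -/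
theorem inv_mul_int_of_rel724 (M N : Matrix (Fin 2) (Fin 2) (v.adicCompletion K))
    (hM : IsInt724 v M) (hN : IsInt724 v N) (hNdet : Valued.v N.det = WithZero.exp (-1 : ℤ))
    (ρ : Option (𝓞 K ⧸ v.asIdeal)) (h1 : Rel724 v M ρ) (h2 : Rel724 v N ρ) :
    IsInt724 v (N⁻¹ * M) := by
  obtain ⟨e00, e01, e10, e11⟩ := adj_mul_of_rel724 v M N hM hN ρ h1 h2
  have key : ∀ x : v.adicCompletion K, InM724 x → Valued.v ((N.det)⁻¹ * x) ≤ 1 := by
    intro x hx
    rw [map_mul, map_inv₀, hNdet, mul_comm, mul_inv_le_iff₀ WithZero.exp_pos, one_mul]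
    exact (lt_one_iff724 _).1 hx
  have hinv : N⁻¹ = (N.det)⁻¹ • N.adjugate := by
    rw [Matrix.inv_def, Ring.inverse_eq_inv']
  intro i j
  rw [hinv, Matrix.smul_mul, Matrix.smul_apply, smul_eq_mul, Matrix.adjugate_fin_two,
    Matrix.mul_apply, Fin.sum_univ_two]
  fin_cases i <;> fin_cases j
  · exact key _ e00
  · exact key _ e01
  · exact key _ e10
  · exact key _ e11

/-! ## E. Every Hecke coset system is full -/

theorem isInt_of_isIntegralAt724 {g : G K} (hg : IsIntegralAt v g) : IsInt724 v (finComp v g) :=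
  fun i j => (HeightOneSpectrum.mem_adicCompletionIntegers (𝓞 K) K v).1 (hg i j)

theorem isIntegralAt_of_isInt724 {g : G K} (hg : IsInt724 v (finComp v g)) : IsIntegralAt v g :=
  fun i j => (HeightOneSpectrum.mem_adicCompletionIntegers (𝓞 K) K v).2 (hg i j)

open Classical in
/-- The type of `g` at `v`: a point of `ℙ¹(𝓞_K / 𝔭_v)`. -/
def typ724 (g : G K) : Option (𝓞 K ⧸ v.asIdeal) :=
  if h : ∃ ρ, Rel724 v (finComp v g) ρ then h.choose else none

theorem rel_typ724 (g : G K) (hg : IsIntegralAt v g)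
    (hdet : Valued.v (finComp v g).det = WithZero.exp (-1 : ℤ)) :
    Rel724 v (finComp v g) (typ724 v g) := by
  have h : ∃ ρ, Rel724 v (finComp v g) ρ :=
    exists_rel724 v _ (isInt_of_isIntegralAt724 v hg) ((lt_one_iff724 _).2 hdet.le)
  unfold typ724
  rw [dif_pos h]
  exact h.choose_spec

theorem integral_of_typ_eq724 (g h : G K) (hg : IsIntegralAt v g)
    (hgdet : Valued.v (finComp v g).det = WithZero.exp (-1 : ℤ))
    (hh : IsIntegralAt v h) (hhdet : Valued.v (finComp v h).det = WithZero.exp (-1 : ℤ))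
    (e : typ724 v g = typ724 v h) : IsIntegralAt v (h⁻¹ * g) := by
  refine isIntegralAt_of_isInt724 v ?_
  rw [finComp_mul724, finComp_inv724]
  refine inv_mul_int_of_rel724 v _ _ (isInt_of_isIntegralAt724 v hg)
    (isInt_of_isIntegralAt724 v hh) hhdet (typ724 v h) ?_ (rel_typ724 v h hh hhdet)
  rw [← e]
  exact rel_typ724 v g hg hgdet

instance finiteQuot724 : Finite (𝓞 K ⧸ v.asIdeal) :=
  v.asIdeal.finiteQuotientOfFreeOfNeBot v.ne_bot

theorem card_option_quot724 :
    Nat.card (Option (𝓞 K ⧸ v.asIdeal)) = Ideal.absNorm v.asIdeal + 1 := by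
  rw [Ideal.absNorm_apply, Submodule.cardQuot_apply]
  have : Fintype (𝓞 K ⧸ v.asIdeal) := Fintype.ofFinite _
  rw [Nat.card_eq_fintype_card, Nat.card_eq_fintype_card, Fintype.card_option]

/-- **Fullness.**  Every Hecke coset system at `v` is a full system of representatives. -/
theorem full724 (H : Finset (G K)) (hH : IsHeckeCosetSystem v H) (g : G K)
    (hg : IsIntegralAt v g) (hgdet : Valued.v (finComp v g).det = WithZero.exp (-1 : ℤ)) :
    ∃ h ∈ H, IsIntegralAt v (h⁻¹ * g) := by
  classical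
  obtain ⟨hcard, hval, hne⟩ := hH
  have : Fintype (Option (𝓞 K ⧸ v.asIdeal)) := Fintype.ofFinite _
  have hinj : Set.InjOn (typ724 v) (H : Set (G K)) := by
    intro h hh h' hh' e
    by_contra hdiff
    exact hne h hh h' hh' hdiff
      (integral_of_typ_eq724 v h' h (hval h' hh').2.1 (hval h' hh').2.2 (hval h hh).2.1
        (hval h hh).2.2 e.symm)
  have hc : (H.image (typ724 v)).card = Fintype.card (Option (𝓞 K ⧸ v.asIdeal)) := by
    rw [Finset.card_image_of_injOn hinj, hcard, ← card_option_quot724 v,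
      Nat.card_eq_fintype_card]
  have huniv : H.image (typ724 v) = Finset.univ := Finset.eq_univ_of_card _ hc
  have hmem : typ724 v g ∈ H.image (typ724 v) := by
    rw [huniv]
    exact Finset.mem_univ _
  obtain ⟨h, hh, e⟩ := Finset.mem_image.1 hmem
  exact ⟨h, hh, integral_of_typ_eq724 v g h hg hgdet (hval h hh).2.1 (hval h hh).2.2 e.symm⟩

/-! ## F. Existence of a Hecke coset system and of a scalar uniformiser -/

/-- The representative matrices `[[1, 0], [0, ϖ]]` and `[[ϖ, r], [0, 1]]`. -/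
def repMat724 (ϖ : v.adicCompletion K) :
    Option (𝓞 K ⧸ v.asIdeal) → Matrix (Fin 2) (Fin 2) (v.adicCompletion K)
  | none => !![1, 0; 0, ϖ]
  | some ρ => !![ϖ, algebraMap (𝓞 K) (v.adicCompletion K) (Quotient.out ρ); 0, 1]

/-- The inverses of the representative matrices. -/
def repInv724 (ϖ : v.adicCompletion K) :
    Option (𝓞 K ⧸ v.asIdeal) → Matrix (Fin 2) (Fin 2) (v.adicCompletion K)
  | none => !![1, 0; 0, ϖ⁻¹]
  | some ρ => !![ϖ⁻¹, -(algebraMap (𝓞 K) (v.adicCompletion K) (Quotient.out ρ)) * ϖ⁻¹; 0, 1]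

theorem rep_mul_inv724 {ϖ : v.adicCompletion K} (hϖ : ϖ ≠ 0) (ρ : Option (𝓞 K ⧸ v.asIdeal)) :
    repMat724 v ϖ ρ * repInv724 v ϖ ρ = 1 := by
  cases ρ with
  | none =>
    simp only [repMat724, repInv724]
    ext i j : 1
    fin_cases i <;> fin_cases j <;> simp [Matrix.mul_apply, Fin.sum_univ_two, hϖ]
  | some ρ =>
    simp only [repMat724, repInv724]
    ext i j : 1
    fin_cases i <;> fin_cases j <;> simp [Matrix.mul_apply, Fin.sum_univ_two, hϖ]
    rw [mul_comm _ ϖ⁻¹, ← mul_assoc, mul_inv_cancel₀ hϖ, one_mul, neg_add_cancel]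

theorem rep_inv_mul724 {ϖ : v.adicCompletion K} (hϖ : ϖ ≠ 0) (ρ : Option (𝓞 K ⧸ v.asIdeal)) :
    repInv724 v ϖ ρ * repMat724 v ϖ ρ = 1 := by
  cases ρ with
  | none =>
    simp only [repMat724, repInv724]
    ext i j : 1
    fin_cases i <;> fin_cases j <;> simp [Matrix.mul_apply, Fin.sum_univ_two, hϖ]
  | some ρ =>
    simp only [repMat724, repInv724]
    ext i j : 1
    fin_cases i <;> fin_cases j <;> simp [Matrix.mul_apply, Fin.sum_univ_two, hϖ]
    rw [mul_comm ϖ⁻¹, add_neg_cancel]

/-- The representatives as elements of `GL₂(𝔸_K)` supported at `v`. -/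
def rep724 {ϖ : v.adicCompletion K} (hϖ : ϖ ≠ 0) (ρ : Option (𝓞 K ⧸ v.asIdeal)) : G K :=
  locGL724 v (repMat724 v ϖ ρ) (repInv724 v ϖ ρ) (rep_mul_inv724 v hϖ ρ) (rep_inv_mul724 v hϖ ρ)

theorem finComp_rep724 {ϖ : v.adicCompletion K} (hϖ : ϖ ≠ 0) (ρ : Option (𝓞 K ⧸ v.asIdeal)) :
    finComp v (rep724 v hϖ ρ) = repMat724 v ϖ ρ :=
  finComp_locGL724 v _ _ _ _

theorem finComp_rep_inv724 {ϖ : v.adicCompletion K} (hϖ : ϖ ≠ 0)
    (ρ : Option (𝓞 K ⧸ v.asIdeal)) :
    finComp v (rep724 v hϖ ρ)⁻¹ = repInv724 v ϖ ρ :=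
  finComp_locGL_inv724 v _ _ _ _

theorem isInt_repMat724 {ϖ : v.adicCompletion K} (hϖ : Valued.v ϖ = WithZero.exp (-1 : ℤ))
    (ρ : Option (𝓞 K ⧸ v.asIdeal)) : IsInt724 v (repMat724 v ϖ ρ) := by
  have h1 : Valued.v ϖ ≤ 1 := ((lt_one_iff724 _).2 hϖ.le).le
  have h0 : Valued.v (0 : v.adicCompletion K) ≤ 1 := by rw [map_zero]; exact zero_le_one
  have h11 : Valued.v (1 : v.adicCompletion K) ≤ 1 := by rw [map_one]
  cases ρ with
  | none =>
    intro i j
    fin_cases i <;> fin_cases j <;> simp [repMat724, h1]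
  | some ρ =>
    intro i j
    fin_cases i <;> fin_cases j <;> simp [repMat724, h1, val_int_le_one724]

theorem det_repMat724 (ϖ : v.adicCompletion K) (ρ : Option (𝓞 K ⧸ v.asIdeal)) :
    (repMat724 v ϖ ρ).det = ϖ := by
  cases ρ with
  | none => simp [repMat724, Matrix.det_fin_two]
  | some ρ => simp [repMat724, Matrix.det_fin_two]

theorem val_inv_unif724 {ϖ : v.adicCompletion K} (hϖ : Valued.v ϖ = WithZero.exp (-1 : ℤ)) :
    ¬ Valued.v ϖ⁻¹ ≤ 1 := by
  rw [map_inv₀, hϖ, not_le, ← WithZero.exp_neg, neg_neg, ← WithZero.exp_zero,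
    WithZero.exp_lt_exp]
  exact zero_lt_one

theorem not_int_rep724 {ϖ : v.adicCompletion K} (hϖ : Valued.v ϖ = WithZero.exp (-1 : ℤ))
    {ρ σ : Option (𝓞 K ⧸ v.asIdeal)} (hne : ρ ≠ σ) :
    ¬ IsInt724 v (repInv724 v ϖ ρ * repMat724 v ϖ σ) := by
  have hbad := val_inv_unif724 v hϖ
  intro hint
  cases ρ with
  | none =>
    cases σ with
    | none => exact hne rfl
    | some s =>
      apply hbad
      have := hint 1 1
      simpa [repMat724, repInv724, Matrix.mul_apply, Fin.sum_univ_two] using this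
  | some r =>
    cases σ with
    | none =>
      apply hbad
      have := hint 0 0
      simpa [repMat724, repInv724, Matrix.mul_apply, Fin.sum_univ_two] using this
    | some s =>
      have h01 := hint 0 1
      have e : (repInv724 v ϖ (some r) * repMat724 v ϖ (some s)) 0 1 =
          algebraMap (𝓞 K) (v.adicCompletion K) (Quotient.out s - Quotient.out r) * ϖ⁻¹ := by
        simp [repMat724, repInv724, Matrix.mul_apply, Fin.sum_univ_two]
        ring
      rw [e, map_mul] at h01
      have hu : Valued.v (algebraMap (𝓞 K) (v.adicCompletion K)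
          (Quotient.out s - Quotient.out r)) = 1 := by
        refine le_antisymm (val_int_le_one724 v _) (not_lt.1 ?_)
        rw [val_int_lt_one_iff724, ← Ideal.Quotient.eq, Ideal.Quotient.mk_out,
          Ideal.Quotient.mk_out]
        intro h
        exact hne (by rw [h])
      rw [hu, one_mul] at h01
      exact hbad h01

theorem isIntegralAt_one724 : IsIntegralAt v (1 : G K) := by
  refine isIntegralAt_of_isInt724 v ?_
  rw [finComp_one724]
  intro i j
  by_cases h : i = j
  · rw [Matrix.one_apply, if_pos h, map_one]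
  · rw [Matrix.one_apply, if_neg h, map_zero]
    exact zero_le_one

/-- **Existence.**  A Hecke coset system exists at `v`. -/
theorem exists_system724 : ∃ H : Finset (G K), IsHeckeCosetSystem v H := by
  classical
  obtain ⟨ϖ, hϖ⟩ := exists_unif724 v
  have hϖ0 : ϖ ≠ 0 := by
    intro h
    rw [h, map_zero] at hϖ
    exact WithZero.exp_ne_zero hϖ.symm
  have : Fintype (Option (𝓞 K ⧸ v.asIdeal)) := Fintype.ofFinite _
  have hnot : ∀ ρ σ : Option (𝓞 K ⧸ v.asIdeal), ρ ≠ σ →
      ¬ IsIntegralAt v ((rep724 v hϖ0 ρ)⁻¹ * rep724 v hϖ0 σ) := by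
    intro ρ σ hne hint
    have := isInt_of_isIntegralAt724 v hint
    rw [finComp_mul724, finComp_rep_inv724, finComp_rep724] at this
    exact not_int_rep724 v hϖ hne this
  have hinj : Function.Injective (rep724 v hϖ0) := by
    intro ρ σ e
    by_contra hne
    apply hnot ρ σ hne
    rw [e, inv_mul_cancel]
    exact isIntegralAt_one724 v
  refine ⟨Finset.univ.image (rep724 v hϖ0), ?_, ?_, ?_⟩
  · rw [Finset.card_image_of_injective _ hinj, Finset.card_univ, ← Nat.card_eq_fintype_card,
      card_option_quot724]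
  · intro h hh
    obtain ⟨ρ, -, rfl⟩ := Finset.mem_image.1 hh
    refine ⟨isLocalAtFin_locGL724 v _ _ _ _, isIntegralAt_of_isInt724 v ?_, ?_⟩
    · rw [finComp_rep724]
      exact isInt_repMat724 v hϖ ρ
    · rw [finComp_rep724, det_repMat724, hϖ]
  · intro h hh h' hh' hne
    obtain ⟨ρ, -, rfl⟩ := Finset.mem_image.1 hh
    obtain ⟨σ, -, rfl⟩ := Finset.mem_image.1 hh'
    exact hnot ρ σ (fun e => hne (by rw [e]))

/-- **Scalar uniformiser.** -/
theorem exists_scalar724 : ∃ z : G K, IsScalarUniformizerAt v z := by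
  obtain ⟨ϖ, hϖ⟩ := exists_unif724 v
  have hϖ0 : ϖ ≠ 0 := by
    intro h
    rw [h, map_zero] at hϖ
    exact WithZero.exp_ne_zero hϖ.symm
  have h1 : Matrix.diagonal (fun _ : Fin 2 => ϖ) * Matrix.diagonal (fun _ : Fin 2 => ϖ⁻¹) = 1 := by
    rw [Matrix.diagonal_mul_diagonal]
    simp [hϖ0]
  have h2 : Matrix.diagonal (fun _ : Fin 2 => ϖ⁻¹) * Matrix.diagonal (fun _ : Fin 2 => ϖ) = 1 := by
    rw [Matrix.diagonal_mul_diagonal]
    simp [hϖ0]
  exact ⟨locGL724 v _ _ h1 h2, isLocalAtFin_locGL724 v _ _ h1 h2, ϖ, hϖ,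
    finComp_locGL724 v _ _ h1 h2⟩

/-! ## G. The leaf -/

/-- **T1.19 `LeafHeckeCoset`** (= `HeckeCosetC K`), for every number field `K`. -/
theorem leafHeckeCoset724 (K : Type) [Field K] [NumberField K] : LeafHeckeCoset K := by
  intro v
  exact ⟨exists_system724 v, fun H hH g _ hg hdet => full724 v H hH g hg hdet,
    exists_scalar724 v⟩

end Fermat.Agent.LT.T1.H724

end
end
-- ===== PACK-END LT/T1/H724/HeckeCoset.lean

-- ===== PACK-BEGIN LT/T1/H868/HaarScaleB.lean
section





/-!
# Row LT, tower T1, shared core HAAR-SCALE, part B (helper868)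

OFF-MAIN.  The Haar measure of the boxes `{‖y_w‖ ≤ r_w at every infinite w} × 𝒪̂` of `𝔸_K`:
`μ (box r) = ∏_w r_w ^ mult w * μ (box 1)` and `0 < μ (box 1) < ∞`, for every Haar measure `μ`.
-/

set_option autoImplicit false
set_option linter.style.haveILetI false
set_option linter.unusedVariables false
set_option linter.unusedSectionVars false

open IsDedekindDomain NumberField MeasureTheory
open scoped ENNReal NNReal

noncomputable section

namespace Fermat.Agent.LT.T1.H868

open Fermat.Agent.LT.H556.A0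

/-! ## Closed balls in a space isometric to a finite dimensional real normed space -/

theorem ball_scale_of_isometry868 {X E : Type*} [NormedAddCommGroup X] [MeasurableSpace X]
    [BorelSpace X] [NormedAddCommGroup E] [NormedSpace ℝ E] [MeasurableSpace E] [BorelSpace E]
    [FiniteDimensional ℝ E] (e : X ≃ₜ+ E) (he : Isometry e) (ρ : Measure X)
    [ρ.IsAddHaarMeasure] {r : ℝ} (hr : 0 ≤ r) :
    ρ (Metric.closedBall 0 r)
        = ENNReal.ofReal (r ^ Module.finrank ℝ E) * ρ (Metric.closedBall 0 1) ∧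
      0 < ρ (Metric.closedBall 0 1) ∧ ρ (Metric.closedBall 0 1) < ⊤ := by
  haveI : (Measure.map e ρ).IsAddHaarMeasure := e.isAddHaarMeasure_map ρ
  have key : ∀ t : ℝ, Measure.map e ρ (Metric.closedBall 0 t) = ρ (Metric.closedBall 0 t) := by
    intro t
    have hc : Continuous (e : X → E) := e.continuous
    have h1 : Measure.map e ρ (Metric.closedBall 0 t) = ρ (e ⁻¹' Metric.closedBall 0 t) :=
      Measure.map_apply hc.measurable Metric.isClosed_closedBall.measurableSet
    rw [h1]
    have h0 : (0 : E) = e 0 := (map_zero e).symm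
    rw [h0, he.preimage_closedBall]
  refine ⟨?_, ?_, ?_⟩
  · rw [← key r, ← key 1]
    exact Measure.addHaar_closedBall' (Measure.map e ρ) 0 hr
  · rw [← key 1]
    exact Metric.measure_closedBall_pos _ _ one_pos
  · rw [← key 1]
    exact measure_closedBall_lt_top

variable (K : Type) [Field K] [NumberField K]

/-- Additive homeomorphism of the completion at a real place onto `ℝ`. -/
def caeReal868 {w : InfinitePlace K} (hw : w.IsReal) : w.Completion ≃ₜ+ ℝ :=
  { (InfinitePlace.Completion.ringEquivRealOfIsReal hw).toAddEquiv with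
    continuous_toFun := (InfinitePlace.Completion.isometryEquivRealOfIsReal hw).continuous
    continuous_invFun := (InfinitePlace.Completion.isometryEquivRealOfIsReal hw).symm.continuous }

/-- Additive homeomorphism of the completion at a complex place onto `ℂ`. -/
def caeComplex868 {w : InfinitePlace K} (hw : w.IsComplex) : w.Completion ≃ₜ+ ℂ :=
  { (InfinitePlace.Completion.ringEquivComplexOfIsComplex hw).toAddEquiv with
    continuous_toFun := (InfinitePlace.Completion.isometryEquivComplexOfIsComplex hw).continuous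
    continuous_invFun :=
      (InfinitePlace.Completion.isometryEquivComplexOfIsComplex hw).symm.continuous }

/-- **Closed balls in the completion at an infinite place.** -/
theorem ball_scale_inf868 (w : InfinitePlace K) [MeasurableSpace w.Completion]
    [BorelSpace w.Completion] (ρ : Measure w.Completion) [ρ.IsAddHaarMeasure] {r : ℝ}
    (hr : 0 ≤ r) :
    ρ (Metric.closedBall 0 r) = ENNReal.ofReal (r ^ w.mult) * ρ (Metric.closedBall 0 1) ∧
      0 < ρ (Metric.closedBall 0 1) ∧ ρ (Metric.closedBall 0 1) < ⊤ := by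
  by_cases hw : w.IsReal
  · have h := ball_scale_of_isometry868 (caeReal868 K hw)
      (InfinitePlace.Completion.isometryEquivRealOfIsReal hw).isometry ρ hr
    have hm : w.mult = 1 := by simp [InfinitePlace.mult, hw]
    simpa [hm] using h
  · have hc : w.IsComplex := InfinitePlace.not_isReal_iff_isComplex.1 hw
    have h := ball_scale_of_isometry868 (caeComplex868 K hc)
      (InfinitePlace.Completion.isometryEquivComplexOfIsComplex hc).isometry ρ hr
    have hm : w.mult = 2 := by simp [InfinitePlace.mult, hw]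
    rw [Complex.finrank_real_complex] at h
    simpa [hm] using h

/-! ## The boxes of `𝔸_K` -/

/-- The integral finite adeles `𝒪̂ = ∏_v 𝒪_v`. -/
def ohat868 : Set (FiniteAdeleRing (𝓞 K) K) :=
  {z | ∀ v : HeightOneSpectrum (𝓞 K), z v ∈ v.adicCompletionIntegers K}

/-- The box `{‖a_w‖ ≤ r_w at every infinite place} × 𝒪̂`. -/
def box868 (r : InfinitePlace K → ℝ) : Set (Adl K) :=
  {a | (∀ w : InfinitePlace K, ‖a.1 w‖ ≤ r w) ∧
    ∀ v : HeightOneSpectrum (𝓞 K), a.2 v ∈ v.adicCompletionIntegers K}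

theorem ohat868_eq_range :
    ohat868 K = Set.range (RestrictedProduct.structureMap
      (fun v : HeightOneSpectrum (𝓞 K) => v.adicCompletion K)
      (fun v : HeightOneSpectrum (𝓞 K) => (v.adicCompletionIntegers K : Set (v.adicCompletion K)))
      Filter.cofinite) := by
  rw [RestrictedProduct.range_structureMap]
  rfl

theorem isOpen_ohat868 : IsOpen (ohat868 K) := by
  rw [ohat868_eq_range]
  exact (RestrictedProduct.isOpenEmbedding_structureMap
    (fun v : HeightOneSpectrum (𝓞 K) => Valued.isOpen_valuationSubring _)).isOpen_range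

theorem isCompact_ohat868 : IsCompact (ohat868 K) := by
  rw [ohat868_eq_range]
  haveI hcomp : CompactSpace ((v : HeightOneSpectrum (𝓞 K)) →
      (v.adicCompletionIntegers K : Set (v.adicCompletion K))) :=
    @Pi.compactSpace _ _ _ (fun v => Fermat.Agent.LT.H11.LC.compactSpace_integers_h11 K v)
  exact @isCompact_range _ _ _ _ hcomp _ (RestrictedProduct.isOpenEmbedding_structureMap
    (fun v : HeightOneSpectrum (𝓞 K) => Valued.isOpen_valuationSubring _)).continuous

theorem ohat868_nonempty : (ohat868 K).Nonempty :=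
  ⟨0, fun v => by
    have : (0 : FiniteAdeleRing (𝓞 K) K) v = 0 := rfl
    rw [this]
    exact zero_mem _⟩

/-- The box as a product set. -/
def boxP868 (r : InfinitePlace K → ℝ) :
    Set (((w : InfinitePlace K) → w.Completion) × FiniteAdeleRing (𝓞 K) K) :=
  (Set.univ.pi fun w : InfinitePlace K => Metric.closedBall (0 : w.Completion) (r w))
    ×ˢ ohat868 K

theorem box868_eq (r : InfinitePlace K → ℝ) : box868 K r = boxP868 K r := by
  ext a
  constructor
  · rintro ⟨h1, h2⟩
    exact ⟨fun w _ => by simpa using h1 w, h2⟩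
  · rintro ⟨h1, h2⟩
    exact ⟨fun w => by simpa using h1 w (Set.mem_univ w), h2⟩

section Measure

variable {K}

/-- The measure of the boxes, on the product type with the product σ-algebra. -/
theorem measure_boxP868 [mW : ∀ w : InfinitePlace K, MeasurableSpace w.Completion]
    [∀ w : InfinitePlace K, BorelSpace w.Completion]
    [mF : MeasurableSpace (FiniteAdeleRing (𝓞 K) K)] [BorelSpace (FiniteAdeleRing (𝓞 K) K)]
    (μ : Measure (((w : InfinitePlace K) → w.Completion) × FiniteAdeleRing (𝓞 K) K))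
    [μ.IsAddHaarMeasure] :
    (0 < μ (boxP868 K fun _ => 1) ∧ μ (boxP868 K fun _ => 1) < ⊤) ∧
      ∀ r : InfinitePlace K → ℝ, (∀ w, 0 ≤ r w) →
        μ (boxP868 K r) = ENNReal.ofReal (∏ w, r w ^ w.mult) * μ (boxP868 K fun _ => 1) := by
  -- topological instances
  haveI : ∀ w : InfinitePlace K, SecondCountableTopology w.Completion :=
    fun w => Fermat.Agent.LT.H11.SC.secondCountableTopology_infCompletion_h11 K w
  haveI : SecondCountableTopology (FiniteAdeleRing (𝓞 K) K) :=
    Fermat.Agent.LT.H11.SC.secondCountableTopology_finiteAdeleRing_h11 K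
  haveI : LocallyCompactSpace (FiniteAdeleRing (𝓞 K) K) :=
    Fermat.Agent.LT.H11.LC.locallyCompactSpace_finiteAdeleRing_h11 K
  -- the reference Haar measure
  set ρw : ∀ w : InfinitePlace K, Measure w.Completion := fun w => Measure.addHaar with hρw
  set ρF : Measure (FiniteAdeleRing (𝓞 K) K) := Measure.addHaar with hρF
  set ρP : Measure ((w : InfinitePlace K) → w.Completion) := Measure.pi ρw with hρP
  set ρ : Measure (((w : InfinitePlace K) → w.Completion) × FiniteAdeleRing (𝓞 K) K) :=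
    ρP.prod ρF with hρ
  haveI : ρ.IsAddHaarMeasure := by
    rw [hρ]
    infer_instance
  have hμ : μ = μ.addHaarScalarFactor ρ • ρ := Measure.isAddLeftInvariant_eq_smul μ ρ
  have hc : 0 < μ.addHaarScalarFactor ρ :=
    Measure.addHaarScalarFactor_pos_of_isAddHaarMeasure μ ρ
  set c := μ.addHaarScalarFactor ρ with hcdef
  -- the measure of a box for the reference measure
  have hbox : ∀ r : InfinitePlace K → ℝ, μ (boxP868 K r)
      = (c : ℝ≥0∞) * ((∏ w, ρw w (Metric.closedBall 0 (r w))) * ρF (ohat868 K)) := by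
    intro r
    conv_lhs => rw [hμ]
    rw [Measure.smul_apply, hρ, boxP868, Measure.prod_prod, hρP, Measure.pi_pi]
    simp [ENNReal.smul_def]
  have hF0 : 0 < ρF (ohat868 K) := (isOpen_ohat868 K).measure_pos ρF (ohat868_nonempty K)
  have hF1 : ρF (ohat868 K) < ⊤ := (isCompact_ohat868 K).measure_lt_top
  have hb : ∀ w : InfinitePlace K, 0 < ρw w (Metric.closedBall 0 1) ∧
      ρw w (Metric.closedBall 0 1) < ⊤ :=
    fun w => (ball_scale_inf868 K w (ρw w) zero_le_one).2
  refine ⟨⟨?_, ?_⟩, ?_⟩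
  · rw [hbox]
    refine ENNReal.mul_pos (by exact_mod_cast hc.ne') (mul_ne_zero ?_ hF0.ne')
    exact Finset.prod_ne_zero_iff.2 fun w _ => (hb w).1.ne'
  · rw [hbox]
    refine ENNReal.mul_lt_top ENNReal.coe_lt_top (ENNReal.mul_lt_top ?_ hF1)
    exact ENNReal.prod_lt_top fun w _ => (hb w).2
  · intro r hr
    rw [hbox, hbox]
    have h1 : (∏ w, ρw w (Metric.closedBall 0 (r w)))
        = (∏ w : InfinitePlace K, ENNReal.ofReal (r w ^ w.mult))
          * ∏ w, ρw w (Metric.closedBall 0 1) := by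
      rw [← Finset.prod_mul_distrib]
      exact Finset.prod_congr rfl fun w _ => (ball_scale_inf868 K w (ρw w) (hr w)).1
    rw [h1, ENNReal.ofReal_prod_of_nonneg fun w _ => pow_nonneg (hr w) _]
    ring

/-- **The measure of the boxes.**  For every Haar measure `μ` of `𝔸_K`:
`0 < μ (box 1) < ∞` and `μ (box r) = ∏_w r_w ^ mult w * μ (box 1)`. -/
theorem measure_box868 [mA : MeasurableSpace (Adl K)] [BorelSpace (Adl K)]
    (μ : Measure (Adl K)) [hμ : μ.IsAddHaarMeasure] :
    (0 < μ (box868 K fun _ => 1) ∧ μ (box868 K fun _ => 1) < ⊤) ∧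
      ∀ r : InfinitePlace K → ℝ, (∀ w, 0 ≤ r w) →
        μ (box868 K r) = ENNReal.ofReal (∏ w, r w ^ w.mult) * μ (box868 K fun _ => 1) := by
  haveI : ∀ w : InfinitePlace K, SecondCountableTopology w.Completion :=
    fun w => Fermat.Agent.LT.H11.SC.secondCountableTopology_infCompletion_h11 K w
  haveI : SecondCountableTopology (FiniteAdeleRing (𝓞 K) K) :=
    Fermat.Agent.LT.H11.SC.secondCountableTopology_finiteAdeleRing_h11 K
  letI mW : ∀ w : InfinitePlace K, MeasurableSpace w.Completion := fun w => borel _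
  haveI : ∀ w : InfinitePlace K, BorelSpace w.Completion := fun w => ⟨rfl⟩
  letI mF : MeasurableSpace (FiniteAdeleRing (𝓞 K) K) := borel _
  haveI : BorelSpace (FiniteAdeleRing (𝓞 K) K) := ⟨rfl⟩
  have hm : mA = (inferInstance :
      MeasurableSpace (((w : InfinitePlace K) → w.Completion) × FiniteAdeleRing (𝓞 K) K)) := by
    have h1 : mA = borel (Adl K) := BorelSpace.measurable_eq
    rw [h1]
    exact (BorelSpace.measurable_eq
      (α := ((w : InfinitePlace K) → w.Completion) × FiniteAdeleRing (𝓞 K) K)).symm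
  subst hm
  simp only [box868_eq]
  exact @measure_boxP868 K _ _ mW _ mF _ μ hμ

end Measure

end Fermat.Agent.LT.T1.H868

end

end
-- ===== PACK-END LT/T1/H868/HaarScaleB.lean

-- ===== PACK-BEGIN LT/T2/H729/CondExists.lean
section




/-!
# Row LT, tower T2, station T2.10 (SMO_AA), sub-leaf T2.10.06 `CondExistsC` (helper729): core

OFF-MAIN.  Mathlib + `LT/H556/A0.lean` + `LT/T3/Spec.lean` (vocabulary only), byte-identical
copies.  Nothing is assumed.

`condExists729` : a continuous additive character `ψ` of `𝔸_K` which is non-degenerate has a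
CONDUCTOR EXPONENT at every finite place `v`: there is `d : ℤ` such that `ψ` is trivial on the
adeles supported at `v` with `|x_v|_v ≤ exp d` and non-trivial on some adele supported at `v` with
`|x_v|_v = exp (d + 1)`.

Proof.  (1) The inclusion `𝒪_v → 𝔸_K` is continuous (`RestrictedProduct.isEmbedding_structureMap`),
so `ψ` maps a ball `{|x_v| ≤ exp d₀}` into `{z : ‖z - 1‖ < 1/2}`; the ball is a group and the
circle has no small subgroups (`eq_one_of_pow_two_pow_near729`), so `ψ` is trivial on the ball.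
(2) `ψ` is not trivial on the adeles supported at `v` (non-degeneracy applied to the idempotent
of `v`).  (3) The set of admissible exponents is non-empty and bounded above; its maximum is the
conductor exponent (the value group is `exp ℤ`).
-/

set_option autoImplicit false

open IsDedekindDomain NumberField
open Fermat.Agent.LT.H556.A0

noncomputable section

namespace Fermat.Agent.LT.T2.H729

set_option linter.unusedSectionVars false

/-! ## The circle has no small subgroups -/

/-- A complex number all of whose `2^k`-th powers are at distance `< 1/2` from `1` is `1`. -/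
theorem eq_one_of_pow_two_pow_near729 (z : ℂ) (h : ∀ k : ℕ, ‖z ^ (2 ^ k) - 1‖ < 1 / 2) :
    z = 1 := by
  have hstep : ∀ k : ℕ, (3 / 2 : ℝ) * ‖z ^ (2 ^ k) - 1‖ ≤ ‖z ^ (2 ^ (k + 1)) - 1‖ := by
    intro k
    set w := z ^ (2 ^ k) with hw
    have hw2 : z ^ (2 ^ (k + 1)) - 1 = (w - 1) * (w + 1) := by
      rw [hw, pow_succ, pow_mul]
      ring
    rw [hw2, norm_mul]
    have h2 : (2 : ℝ) ≤ ‖w + 1‖ + ‖w - 1‖ := by
      have h3 : ‖(w + 1) - (w - 1)‖ ≤ ‖w + 1‖ + ‖w - 1‖ := norm_sub_le _ _
      have h4 : (w + 1) - (w - 1) = (2 : ℂ) := by ring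
      rw [h4] at h3
      simpa using h3
    have h5 : ‖w - 1‖ < 1 / 2 := h k
    have h6 : (3 / 2 : ℝ) ≤ ‖w + 1‖ := by linarith
    have h7 : 0 ≤ ‖w - 1‖ := norm_nonneg _
    nlinarith
  have hpow : ∀ k : ℕ, (3 / 2 : ℝ) ^ k * ‖z - 1‖ ≤ ‖z ^ (2 ^ k) - 1‖ := by
    intro k
    induction k with
    | zero => simp
    | succ k ih =>
      calc (3 / 2 : ℝ) ^ (k + 1) * ‖z - 1‖ = (3 / 2) * ((3 / 2) ^ k * ‖z - 1‖) := by ring
        _ ≤ (3 / 2) * ‖z ^ (2 ^ k) - 1‖ := by
          apply mul_le_mul_of_nonneg_left ih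
          norm_num
        _ ≤ ‖z ^ (2 ^ (k + 1)) - 1‖ := hstep k
  by_contra hz
  have hpos : 0 < ‖z - 1‖ := norm_pos_iff.mpr (sub_ne_zero.mpr hz)
  obtain ⟨n, hn⟩ := pow_unbounded_of_one_lt (1 / (2 * ‖z - 1‖)) (by norm_num : (1 : ℝ) < 3 / 2)
  have h1 : 1 / 2 < (3 / 2 : ℝ) ^ n * ‖z - 1‖ := by
    have := mul_lt_mul_of_pos_right hn hpos
    have h2 : 1 / (2 * ‖z - 1‖) * ‖z - 1‖ = 1 / 2 := by
      field_simp
    rwa [h2] at this
  have := hpow n
  have := h n
  linarith

variable {K : Type} [Field K] [NumberField K]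

/-! ## Adeles supported at a finite place -/

theorem adl_ext_cond729 {x y : Adl K} (hinf : x.1 = y.1)
    (hfin : ∀ v : HeightOneSpectrum (𝓞 K), x.2 v = y.2 v) : x = y :=
  Prod.ext hinf (FiniteAdeleRing.ext K hfin)

open Classical in
/-- The inclusion of `𝒪_v` in the adeles, at the finite place `v`. -/
def locInt729 (v : HeightOneSpectrum (𝓞 K)) (a : v.adicCompletionIntegers K) : Adl K :=
  ((0 : InfiniteAdeleRing K),
    RestrictedProduct.structureMap (fun v : HeightOneSpectrum (𝓞 K) => v.adicCompletion K)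
      (fun v : HeightOneSpectrum (𝓞 K) => (v.adicCompletionIntegers K : Set (v.adicCompletion K)))
      Filter.cofinite (Pi.single v a))

theorem locInt729_fst (v : HeightOneSpectrum (𝓞 K)) (a : v.adicCompletionIntegers K) :
    (locInt729 v a).1 = 0 := rfl

theorem locInt729_snd_self (v : HeightOneSpectrum (𝓞 K)) (a : v.adicCompletionIntegers K) :
    (locInt729 v a).2 v = (a : v.adicCompletion K) := by
  classical
  show ((Pi.single v a : ∀ v : HeightOneSpectrum (𝓞 K), v.adicCompletionIntegers K) v :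
    v.adicCompletion K) = a
  rw [Pi.single_eq_same]

theorem locInt729_snd_ne (v v' : HeightOneSpectrum (𝓞 K)) (h : v' ≠ v)
    (a : v.adicCompletionIntegers K) : (locInt729 v a).2 v' = 0 := by
  classical
  show ((Pi.single v a : ∀ v : HeightOneSpectrum (𝓞 K), v.adicCompletionIntegers K) v' :
    v'.adicCompletion K) = 0
  rw [Pi.single_eq_of_ne h]
  rfl

theorem continuous_locInt729 (v : HeightOneSpectrum (𝓞 K)) :
    Continuous (locInt729 (K := K) v) := by
  classical
  unfold locInt729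
  refine Continuous.prodMk continuous_const ?_
  refine RestrictedProduct.isEmbedding_structureMap.continuous.comp ?_
  refine continuous_pi (fun i => ?_)
  by_cases h : i = v
  · subst h
    have : (fun a : i.adicCompletionIntegers K =>
        (Pi.single i a : ∀ v : HeightOneSpectrum (𝓞 K), v.adicCompletionIntegers K) i)
        = fun a => a := by
      funext a
      rw [Pi.single_eq_same]
    exact this ▸ continuous_id
  · have : (fun a : v.adicCompletionIntegers K =>
        (Pi.single v a : ∀ v : HeightOneSpectrum (𝓞 K), v.adicCompletionIntegers K) i)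
        = fun _ => 0 := by
      funext a
      rw [Pi.single_eq_of_ne h]
    exact this ▸ continuous_const

/-- An adele supported at `v` with integral component is in the image of `locInt729`. -/
theorem eq_locInt729 (v : HeightOneSpectrum (𝓞 K)) (x : Adl K) (hx : T3.IsLocAdeleAt K v x)
    (hi : x.2 v ∈ v.adicCompletionIntegers K) : x = locInt729 v ⟨x.2 v, hi⟩ := by
  refine adl_ext_cond729 ?_ (fun v' => ?_)
  · rw [locInt729_fst]
    exact hx.1
  · by_cases h : v' = v
    · subst h
      rw [locInt729_snd_self]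
    · rw [locInt729_snd_ne v v' h]
      exact hx.2 v' h

theorem locInt729_zero (v : HeightOneSpectrum (𝓞 K)) : locInt729 (K := K) v 0 = 0 := by
  refine adl_ext_cond729 rfl (fun v' => ?_)
  by_cases h : v' = v
  · subst h
    rw [locInt729_snd_self]
    rfl
  · rw [locInt729_snd_ne v v' h]
    rfl

/-! ## The conductor exponent -/

/-- `ψ` is trivial on a small ball at `v`. -/
theorem exists_trivial_ball729 (ψ : AddChar (Adl K) Circle) (hc : Continuous ψ)
    (v : HeightOneSpectrum (𝓞 K)) :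
    ∃ d : ℤ, ∀ x : Adl K, T3.IsLocAdeleAt K v x → Valued.v (x.2 v) ≤ WithZero.exp d →
      ψ x = 1 := by
  -- a neighbourhood of `0` in `𝒪_v` is mapped near `1`
  set U : Set Circle := {z | ‖(z : ℂ) - 1‖ < 1 / 2} with hU
  have hUo : IsOpen U := by
    have hcoe : Continuous fun z : Circle => (z : ℂ) := continuous_subtype_val
    have : Continuous fun z : Circle => ‖(z : ℂ) - 1‖ :=
      (hcoe.sub continuous_const).norm
    exact isOpen_lt this continuous_const
  have hcomp : Continuous fun a : v.adicCompletionIntegers K => ψ (locInt729 v a) :=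
    hc.comp (continuous_locInt729 v)
  have h0 : (fun a : v.adicCompletionIntegers K => ψ (locInt729 v a)) 0 ∈ U := by
    show ‖((ψ (locInt729 v 0) : Circle) : ℂ) - 1‖ < 1 / 2
    rw [locInt729_zero, AddChar.map_zero_eq_one]
    simp
  have hnhds : (fun a : v.adicCompletionIntegers K => ψ (locInt729 v a)) ⁻¹' U ∈
      nhds (0 : v.adicCompletionIntegers K) :=
    hcomp.continuousAt.preimage_mem_nhds (hUo.mem_nhds h0)
  rw [mem_nhds_subtype] at hnhds
  obtain ⟨t, ht, hts⟩ := hnhds
  have ht' : t ∈ nhds (0 : v.adicCompletion K) := ht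
  rw [Valued.mem_nhds_zero] at ht'
  obtain ⟨γ₀, hγ₀⟩ := ht'
  set γ : WithZero (Multiplicative ℤ) := MonoidWithZeroHom.ValueGroup₀.embedding γ₀.1 with hγdef
  have hγ : ∀ a : v.adicCompletion K, Valued.v a < γ → a ∈ t := fun a ha =>
    hγ₀ ((Valuation.restrict_lt_iff_lt_embedding _).mpr ha)
  have hγ0 : γ ≠ 0 := by
    rw [hγdef]
    exact (map_ne_zero_iff _ MonoidWithZeroHom.ValueGroup₀.embedding_injective).mpr γ₀.ne_zero
  set m : ℤ := WithZero.log γ with hm
  have hγm : WithZero.exp m = γ := WithZero.exp_log hγ0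
  refine ⟨min (m - 1) 0, ?_⟩
  -- every adele in the ball is mapped into `U`
  have hball : ∀ x : Adl K, T3.IsLocAdeleAt K v x →
      Valued.v (x.2 v) ≤ WithZero.exp (min (m - 1) 0) → ψ x ∈ U := by
    intro x hx hv
    have hi : x.2 v ∈ v.adicCompletionIntegers K := by
      rw [HeightOneSpectrum.mem_adicCompletionIntegers]
      refine hv.trans ?_
      rw [← WithZero.exp_zero]
      exact WithZero.exp_le_exp.mpr (min_le_right _ _)
    have hlt : Valued.v (x.2 v) < γ := by
      rw [← hγm]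
      refine lt_of_le_of_lt hv ?_
      apply WithZero.exp_lt_exp.mpr
      have := min_le_left (m - 1) 0
      omega
    have hmem : (⟨x.2 v, hi⟩ : v.adicCompletionIntegers K) ∈
        (Subtype.val : v.adicCompletionIntegers K → v.adicCompletion K) ⁻¹' t := hγ _ hlt
    have := hts hmem
    rw [Set.mem_preimage, ← eq_locInt729 v x hx hi] at this
    exact this
  -- the ball is stable under doubling
  have hdouble : ∀ (k : ℕ) (x : Adl K), T3.IsLocAdeleAt K v x →
      Valued.v (x.2 v) ≤ WithZero.exp (min (m - 1) 0) →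
      T3.IsLocAdeleAt K v ((2 ^ k) • x) ∧
        Valued.v (((2 ^ k) • x).2 v) ≤ WithZero.exp (min (m - 1) 0) := by
    intro k
    induction k with
    | zero =>
      intro x hx hv
      simpa using ⟨hx, hv⟩
    | succ k ih =>
      intro x hx hv
      obtain ⟨h1, h2⟩ := ih x hx hv
      have he : (2 ^ (k + 1)) • x = (2 ^ k) • x + (2 ^ k) • x := by
        rw [pow_succ, mul_nsmul, two_nsmul]
      rw [he]
      refine ⟨⟨?_, fun v' hv' => ?_⟩, ?_⟩
      · show ((2 ^ k) • x).1 + ((2 ^ k) • x).1 = 0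
        rw [h1.1, add_zero]
      · show ((2 ^ k) • x + (2 ^ k) • x).2 v' = 0
        have : ((2 ^ k) • x + (2 ^ k) • x).2 v' = ((2 ^ k) • x).2 v' + ((2 ^ k) • x).2 v' := rfl
        rw [this, h1.2 v' hv', add_zero]
      · have : ((2 ^ k) • x + (2 ^ k) • x).2 v = ((2 ^ k) • x).2 v + ((2 ^ k) • x).2 v := rfl
        rw [this]
        exact (Valued.v.map_add _ _).trans (max_le h2 h2)
  intro x hx hv
  have hz : ((ψ x : Circle) : ℂ) = 1 := by
    apply eq_one_of_pow_two_pow_near729
    intro k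
    obtain ⟨h1, h2⟩ := hdouble k x hx hv
    have h3 := hball _ h1 h2
    have h4 : ψ ((2 ^ k) • x) = ψ x ^ (2 ^ k) := AddChar.map_nsmul_eq_pow ψ (2 ^ k) x
    rw [h4] at h3
    have h5 : ‖((ψ x ^ (2 ^ k) : Circle) : ℂ) - 1‖ < 1 / 2 := h3
    rwa [Circle.coe_pow] at h5
  exact Circle.ext (by simpa using hz)

/-- `ψ` is not trivial on the adeles supported at `v`. -/
theorem exists_nontrivial_loc729 (ψ : AddChar (Adl K) Circle)
    (hnd : ∀ x : Adl K, (∀ y : Adl K, ψ (x * y) = 1) → x = 0)
    (v : HeightOneSpectrum (𝓞 K)) :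
    ∃ x : Adl K, T3.IsLocAdeleAt K v x ∧ ψ x ≠ 1 := by
  set e : Adl K := locInt729 v 1 with he
  have he0 : e ≠ 0 := by
    intro h
    have h1 : e.2 v = (0 : Adl K).2 v := by rw [h]
    rw [he, locInt729_snd_self] at h1
    have h2 : ((1 : v.adicCompletionIntegers K) : v.adicCompletion K) = 1 := rfl
    rw [h2] at h1
    exact one_ne_zero h1
  have hex : ∃ y : Adl K, ψ (e * y) ≠ 1 := by
    by_contra hcon
    rw [not_exists] at hcon
    exact he0 (hnd e (fun y => not_not.mp (hcon y)))
  obtain ⟨y, hy⟩ := hex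
  refine ⟨e * y, ⟨?_, fun v' hv' => ?_⟩, hy⟩
  · show e.1 * y.1 = 0
    rw [he, locInt729_fst, zero_mul]
  · show e.2 v' * y.2 v' = 0
    rw [he, locInt729_snd_ne v v' hv', zero_mul]

/-- **THE CONDUCTOR EXPONENT EXISTS** at every finite place, for a continuous non-degenerate
additive character of the adeles. -/
theorem condExists729 (ψ : AddChar (Adl K) Circle) (hc : Continuous ψ)
    (hnd : ∀ x : Adl K, (∀ y : Adl K, ψ (x * y) = 1) → x = 0)
    (v : HeightOneSpectrum (𝓞 K)) :
    ∃ d : ℤ,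
      (∀ x : Adl K, T3.IsLocAdeleAt K v x → Valued.v (x.2 v) ≤ WithZero.exp d → ψ x = 1) ∧
      ∃ x : Adl K, T3.IsLocAdeleAt K v x ∧ Valued.v (x.2 v) = WithZero.exp (d + 1) ∧
        ψ x ≠ 1 := by
  classical
  obtain ⟨d₀, hd₀⟩ := exists_trivial_ball729 ψ hc v
  obtain ⟨x₁, hx₁, hψ₁⟩ := exists_nontrivial_loc729 ψ hnd v
  -- the component of `x₁` at `v` is not zero
  have hx₁v : x₁.2 v ≠ 0 := by
    intro h0
    apply hψ₁
    have : x₁ = 0 := by
      refine adl_ext_cond729 hx₁.1 (fun v' => ?_)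
      by_cases h : v' = v
      · subst h
        rw [h0]
        rfl
      · rw [hx₁.2 v' h]
        rfl
    rw [this, AddChar.map_zero_eq_one]
  have hval₁ : Valued.v (x₁.2 v) ≠ 0 := (Valuation.ne_zero_iff _).mpr hx₁v
  set m₁ : ℤ := WithZero.log (Valued.v (x₁.2 v)) with hm₁
  have hexp₁ : WithZero.exp m₁ = Valued.v (x₁.2 v) := WithZero.exp_log hval₁
  set P : ℤ → Prop := fun d =>
    ∀ x : Adl K, T3.IsLocAdeleAt K v x → Valued.v (x.2 v) ≤ WithZero.exp d → ψ x = 1 with hP
  have hbdd : ∃ b : ℤ, ∀ z : ℤ, P z → z ≤ b := by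
    refine ⟨m₁, fun z hz => ?_⟩
    by_contra hlt
    rw [not_le] at hlt
    apply hψ₁
    apply hz x₁ hx₁
    rw [← hexp₁]
    exact WithZero.exp_le_exp.mpr hlt.le
  obtain ⟨d, hdP, hdmax⟩ := Int.exists_greatest_of_bdd hbdd ⟨d₀, hd₀⟩
  refine ⟨d, hdP, ?_⟩
  have hnot : ¬ P (d + 1) := fun h => by
    have := hdmax (d + 1) h
    omega
  rw [hP] at hnot
  simp only [not_forall] at hnot
  obtain ⟨x, hx, hv, hψ⟩ := hnot
  refine ⟨x, hx, ?_, hψ⟩
  have hgt : ¬ Valued.v (x.2 v) ≤ WithZero.exp d := fun h => hψ (hdP x hx h)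
  rw [not_le] at hgt
  have hne : Valued.v (x.2 v) ≠ 0 := fun h => by
    rw [h] at hgt
    exact absurd hgt (not_lt.mpr zero_le)
  set m : ℤ := WithZero.log (Valued.v (x.2 v)) with hm
  have hexp : WithZero.exp m = Valued.v (x.2 v) := WithZero.exp_log hne
  rw [← hexp] at hgt hv ⊢
  have h1 : d < m := WithZero.exp_lt_exp.mp hgt
  have h2 : m ≤ d + 1 := WithZero.exp_le_exp.mp hv
  have : m = d + 1 := by omega
  rw [this]

end Fermat.Agent.LT.T2.H729

end

end
-- ===== PACK-END LT/T2/H729/CondExists.lean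

-- ===== PACK-BEGIN LT/T6/H305/Digits.lean
section


/-!
# Row LT, tower T6, leaf T6.10 `SatakeEigenC` (helper305) -- part 2: residue data and digits

OFF-MAIN.  A uniformiser and a residue system containing `0`; the systems of representatives
`R i` of `𝒪 / ϖ^i 𝒪` (digit expansions).
-/

set_option autoImplicit false
set_option linter.unusedSectionVars false

open scoped Matrix
open scoped Classical

noncomputable section

namespace Fermat.Agent.LT.T6.H305

open Fermat.Agent.LT.T6

variable {k : Type} [Field k] [Valued k Γ₀]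

theorem lt_one_iff_le_exp (γ : Γ₀) : γ < 1 ↔ γ ≤ WithZero.exp (-1 : ℤ) := by
  rcases eq_or_ne γ 0 with rfl | h
  · simp
  · have h1 : (1 : Γ₀) = WithZero.exp (0 : ℤ) := rfl
    rw [← WithZero.exp_log h, h1, WithZero.exp_lt_exp, WithZero.exp_le_exp]
    omega

/-- A uniformiser and a residue system containing `0`. -/
structure ResData (k : Type) [Field k] [Valued k Γ₀] where
  /-- the uniformiser -/
  ϖ : k
  hϖ : Valued.v ϖ = WithZero.exp (-1 : ℤ)
  /-- the residue system -/
  T : Finset k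
  zero_mem : (0 : k) ∈ T
  int : ∀ x ∈ T, Valued.v x ≤ 1
  sep : ∀ x ∈ T, ∀ y ∈ T, x ≠ y → Valued.v (x - y) = 1
  cov : ∀ z : k, Valued.v z ≤ 1 → ∃ x ∈ T, Valued.v (z - x) < 1

theorem exists_resData {q : ℕ} (hk : IsLocalField k q) :
    ∃ D : ResData k, D.T.card = q := by
  obtain ⟨ϖ, hϖ⟩ := hk.unif
  obtain ⟨T, hcard, hint, hsep, hcov⟩ := hk.residue
  obtain ⟨x₀, hx₀, hx₀'⟩ := hcov 0 (by simp)
  have hx₀v : Valued.v x₀ < 1 := by simpa using hx₀'
  refine ⟨⟨ϖ, hϖ, T.image (fun x => x - x₀), ?_, ?_, ?_, ?_⟩, ?_⟩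
  · exact Finset.mem_image.2 ⟨x₀, hx₀, sub_self _⟩
  · intro x hx
    obtain ⟨y, hy, rfl⟩ := Finset.mem_image.1 hx
    exact Valuation.map_sub_le _ (hint y hy) hx₀v.le
  · intro x hx y hy hxy
    obtain ⟨x', hx', rfl⟩ := Finset.mem_image.1 hx
    obtain ⟨y', hy', rfl⟩ := Finset.mem_image.1 hy
    have : x' ≠ y' := fun h => hxy (by rw [h])
    simpa using hsep x' hx' y' hy' this
  · intro z hz
    obtain ⟨x, hx, hx'⟩ := hcov (z + x₀) (Valuation.map_add_le _ hz hx₀v.le)
    refine ⟨x - x₀, Finset.mem_image.2 ⟨x, hx, rfl⟩, ?_⟩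
    have : z - (x - x₀) = z + x₀ - x := by ring
    rwa [this]
  · rw [Finset.card_image_of_injective _ (fun a b h => by simpa using h), hcard]

namespace ResData

variable (D : ResData k)

theorem ϖ_ne_zero : D.ϖ ≠ 0 := by
  intro h
  have := D.hϖ
  rw [h, map_zero] at this
  exact WithZero.exp_ne_zero this.symm

theorem val_pow (i : ℕ) : Valued.v (D.ϖ ^ i) = WithZero.exp (-(i : ℤ)) := by
  rw [map_pow, D.hϖ, ← WithZero.exp_nsmul]
  simp

theorem val_zpow (b : ℤ) : Valued.v (D.ϖ ^ b) = WithZero.exp (-b) := by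
  rw [map_zpow₀, D.hϖ, ← WithZero.exp_zsmul]
  simp

theorem val_pow_le_one (i : ℕ) : Valued.v (D.ϖ ^ i) ≤ 1 := by
  rw [D.val_pow]
  have h1 : (1 : Γ₀) = WithZero.exp (0 : ℤ) := rfl
  rw [h1, WithZero.exp_le_exp]
  omega

theorem val_ϖ_lt_one : Valued.v D.ϖ < 1 := by
  rw [lt_one_iff_le_exp, D.hϖ]

/-- An element of the residue system of valuation `< 1` is `0`. -/
theorem eq_zero_of_mem_T {d : k} (hd : d ∈ D.T) (h : Valued.v d < 1) : d = 0 := by
  by_contra hne
  have := D.sep d hd 0 D.zero_mem hne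
  rw [sub_zero] at this
  exact (ne_of_lt h) this

/-- Two elements of the residue system which are congruent are equal. -/
theorem eq_of_mem_T {d d' : k} (hd : d ∈ D.T) (hd' : d' ∈ D.T)
    (h : Valued.v (d - d') < 1) : d = d' := by
  by_contra hne
  exact (ne_of_lt h) (D.sep d hd d' hd' hne)

/-- The system of representatives of `𝒪 / ϖ^i 𝒪`: digit expansions. -/
def R : ℕ → Finset k
  | 0 => {0}
  | (i + 1) => ((R i) ×ˢ D.T).image (fun p => p.1 + D.ϖ ^ i * p.2)

theorem mem_R_zero {r : k} : r ∈ D.R 0 ↔ r = 0 := by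
  simp [R]

theorem mem_R_succ {i : ℕ} {r : k} :
    r ∈ D.R (i + 1) ↔ ∃ r' ∈ D.R i, ∃ d ∈ D.T, r = r' + D.ϖ ^ i * d := by
  simp only [R, Finset.mem_image, Finset.mem_product, Prod.exists]
  constructor
  · rintro ⟨a, b, ⟨ha, hb⟩, rfl⟩
    exact ⟨a, ha, b, hb, rfl⟩
  · rintro ⟨a, ha, b, hb, rfl⟩
    exact ⟨a, b, ⟨ha, hb⟩, rfl⟩

theorem R_int : ∀ (i : ℕ) (r : k), r ∈ D.R i → Valued.v r ≤ 1
  | 0, r, h => by rw [D.mem_R_zero.1 h]; simp
  | (i + 1), r, h => by
    obtain ⟨r', hr', d, hd, rfl⟩ := D.mem_R_succ.1 h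
    refine Valuation.map_add_le _ (R_int i r' hr') ?_
    rw [map_mul]
    exact mul_le_one' (D.val_pow_le_one i) (D.int d hd)

theorem exp_succ_le (i : ℕ) :
    WithZero.exp (-((i + 1 : ℕ) : ℤ)) ≤ (WithZero.exp (-(i : ℤ)) : Γ₀) := by
  rw [WithZero.exp_le_exp]; push_cast; omega

theorem R_sep : ∀ (i : ℕ) (r r' : k), r ∈ D.R i → r' ∈ D.R i →
    Valued.v (r - r') ≤ WithZero.exp (-(i : ℤ)) → r = r'
  | 0, r, r', h, h', _ => by rw [D.mem_R_zero.1 h, D.mem_R_zero.1 h']
  | (i + 1), r, r', h, h', hv => by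
    obtain ⟨r₁, hr₁, d, hd, rfl⟩ := D.mem_R_succ.1 h
    obtain ⟨r₂, hr₂, d', hd', rfl⟩ := D.mem_R_succ.1 h'
    have hπ : Valued.v (D.ϖ ^ i * (d - d')) ≤ WithZero.exp (-(i : ℤ)) := by
      rw [map_mul, D.val_pow]
      calc WithZero.exp (-(i : ℤ)) * Valued.v (d - d')
          ≤ WithZero.exp (-(i : ℤ)) * 1 :=
            mul_le_mul_right (Valuation.map_sub_le _ (D.int d hd) (D.int d' hd')) _
        _ = _ := mul_one _
    have e1 : r₁ - r₂ = (r₁ + D.ϖ ^ i * d - (r₂ + D.ϖ ^ i * d')) - D.ϖ ^ i * (d - d') := by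
      ring
    have h12 : r₁ = r₂ := by
      apply R_sep i r₁ r₂ hr₁ hr₂
      rw [e1]
      exact Valuation.map_sub_le _ (hv.trans (exp_succ_le i)) hπ
    subst h12
    have e2 : r₁ + D.ϖ ^ i * d - (r₁ + D.ϖ ^ i * d') = D.ϖ ^ i * (d - d') := by ring
    rw [e2, map_mul, D.val_pow] at hv
    have hdd : Valued.v (d - d') ≤ WithZero.exp (-1 : ℤ) := by
      have h0 : (WithZero.exp (-(i : ℤ)) : Γ₀) ≠ 0 := WithZero.exp_ne_zero
      have e3 : (WithZero.exp (-((i + 1 : ℕ) : ℤ)) : Γ₀)
          = WithZero.exp (-(i : ℤ)) * WithZero.exp (-1 : ℤ) := by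
        rw [← WithZero.exp_add]; congr 1; push_cast; ring
      rw [e3] at hv
      exact le_of_mul_le_mul_left hv (zero_lt_iff.2 h0)
    have : d = d' := D.eq_of_mem_T hd hd' ((lt_one_iff_le_exp _).2 hdd)
    rw [this]

theorem R_cov : ∀ (i : ℕ) (z : k), Valued.v z ≤ 1 →
    ∃ r ∈ D.R i, Valued.v (z - r) ≤ WithZero.exp (-(i : ℤ))
  | 0, z, hz => ⟨0, D.mem_R_zero.2 rfl, by simpa using hz⟩
  | (i + 1), z, hz => by
    obtain ⟨r, hr, hv⟩ := R_cov i z hz
    have hπ0 : D.ϖ ^ i ≠ 0 := pow_ne_zero _ D.ϖ_ne_zero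
    have hw : Valued.v ((z - r) / D.ϖ ^ i) ≤ 1 := by
      rw [map_div₀, D.val_pow]
      exact div_le_one_of_le₀ hv zero_le
    obtain ⟨d, hd, hdv⟩ := D.cov _ hw
    refine ⟨r + D.ϖ ^ i * d, D.mem_R_succ.2 ⟨r, hr, d, hd, rfl⟩, ?_⟩
    have e : z - (r + D.ϖ ^ i * d) = D.ϖ ^ i * ((z - r) / D.ϖ ^ i - d) := by
      field_simp
      ring
    rw [e, map_mul, D.val_pow]
    have e3 : (WithZero.exp (-((i + 1 : ℕ) : ℤ)) : Γ₀)
        = WithZero.exp (-(i : ℤ)) * WithZero.exp (-1 : ℤ) := by
      rw [← WithZero.exp_add]; congr 1; push_cast; ring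
    rw [e3]
    exact mul_le_mul_right ((lt_one_iff_le_exp _).1 hdv) _

/-- The parametrisation of `R (i+1)` by `R i × T` is injective. -/
theorem R_injOn (i : ℕ) :
    Set.InjOn (fun p : k × k => p.1 + D.ϖ ^ i * p.2) ((D.R i) ×ˢ D.T : Finset (k × k)) := by
  rintro ⟨r, d⟩ h ⟨r', d'⟩ h' heq
  simp only [Finset.coe_product, Set.mem_prod, Finset.mem_coe] at h h'
  simp only at heq
  have hπ0 : D.ϖ ^ i ≠ 0 := pow_ne_zero _ D.ϖ_ne_zero
  have e1 : r - r' = D.ϖ ^ i * (d' - d) := by linear_combination heq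
  have h12 : r = r' := by
    apply D.R_sep i r r' h.1 h'.1
    rw [e1, map_mul, D.val_pow]
    calc WithZero.exp (-(i : ℤ)) * Valued.v (d' - d)
        ≤ WithZero.exp (-(i : ℤ)) * 1 :=
          mul_le_mul_right (Valuation.map_sub_le _ (D.int d' h'.2) (D.int d h.2)) _
      _ = _ := mul_one _
  subst h12
  have : D.ϖ ^ i * d = D.ϖ ^ i * d' := by linear_combination heq
  rw [mul_right_inj' hπ0] at this
  rw [this]

/-- Sum over `R (i+1)` as a double sum. -/
theorem sum_R_succ {M : Type} [AddCommMonoid M] (i : ℕ) (f : k → M) :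
    ∑ r ∈ D.R (i + 1), f r = ∑ r ∈ D.R i, ∑ d ∈ D.T, f (r + D.ϖ ^ i * d) := by
  rw [R, Finset.sum_image (D.R_injOn i), Finset.sum_product]

/-- The elements of `R (i+1)` of valuation `< 1` are the `ϖ r'`, `r' ∈ R i`. -/
theorem mem_R_succ_small : ∀ (i : ℕ) (r : k),
    (r ∈ D.R (i + 1) ∧ Valued.v r < 1) ↔ ∃ r' ∈ D.R i, r = D.ϖ * r'
  | 0, r => by
    constructor
    · rintro ⟨h, hv⟩
      obtain ⟨r', hr', d, hd, rfl⟩ := D.mem_R_succ.1 h
      rw [D.mem_R_zero.1 hr'] at hv ⊢
      simp only [pow_zero, one_mul, zero_add] at hv ⊢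
      exact ⟨0, D.mem_R_zero.2 rfl, by rw [D.eq_zero_of_mem_T hd hv]; simp⟩
    · rintro ⟨r', hr', rfl⟩
      rw [D.mem_R_zero.1 hr']
      refine ⟨D.mem_R_succ.2 ⟨0, D.mem_R_zero.2 rfl, 0, D.zero_mem, by simp⟩, by simp⟩
  | (i + 1), r => by
    constructor
    · rintro ⟨h, hv⟩
      obtain ⟨r₁, hr₁, d, hd, rfl⟩ := D.mem_R_succ.1 h
      have hπd : Valued.v (D.ϖ ^ (i + 1) * d) < 1 := by
        rw [map_mul, pow_succ, map_mul]
        calc Valued.v (D.ϖ ^ i) * Valued.v D.ϖ * Valued.v d
            ≤ 1 * Valued.v D.ϖ * 1 := by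
              gcongr
              · exact D.val_pow_le_one i
              · exact D.int d hd
          _ = Valued.v D.ϖ := by simp
          _ < 1 := D.val_ϖ_lt_one
      have hr₁v : Valued.v r₁ < 1 := by
        have e : r₁ = (r₁ + D.ϖ ^ (i + 1) * d) - D.ϖ ^ (i + 1) * d := by ring
        rw [e]
        exact lt_of_le_of_lt (Valuation.map_sub _ _ _) (max_lt hv hπd)
      obtain ⟨r₁', hr₁', rfl⟩ := (mem_R_succ_small i r₁).1 ⟨hr₁, hr₁v⟩
      exact ⟨r₁' + D.ϖ ^ i * d, D.mem_R_succ.2 ⟨r₁', hr₁', d, hd, rfl⟩, by ring⟩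
    · rintro ⟨r', hr', rfl⟩
      obtain ⟨r₁', hr₁', d, hd, rfl⟩ := D.mem_R_succ.1 hr'
      have h1 := ((mem_R_succ_small i (D.ϖ * r₁')).2 ⟨r₁', hr₁', rfl⟩).1
      refine ⟨D.mem_R_succ.2 ⟨D.ϖ * r₁', h1, d, hd, by ring⟩, ?_⟩
      rw [map_mul]
      calc Valued.v D.ϖ * Valued.v (r₁' + D.ϖ ^ i * d)
          ≤ Valued.v D.ϖ * 1 := mul_le_mul_right (D.R_int _ _ hr') _
        _ = Valued.v D.ϖ := mul_one _
        _ < 1 := D.val_ϖ_lt_one

/-- Sum over the elements of `R (i+1)` of valuation `< 1`. -/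
theorem sum_R_succ_small {M : Type} [AddCommMonoid M] (i : ℕ) (f : k → M) :
    ∑ r ∈ (D.R (i + 1)).filter (fun r => Valued.v r < 1), f r
      = ∑ r' ∈ D.R i, f (D.ϖ * r') := by
  classical
  have h : (D.R (i + 1)).filter (fun r => Valued.v r < 1)
      = (D.R i).image (fun r' => D.ϖ * r') := by
    ext r
    rw [Finset.mem_filter, D.mem_R_succ_small i r, Finset.mem_image]
    constructor
    · rintro ⟨r', hr', rfl⟩; exact ⟨r', hr', rfl⟩
    · rintro ⟨r', hr', rfl⟩; exact ⟨r', hr', rfl⟩
  rw [h, Finset.sum_image]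
  intro a _ b _ hab
  exact mul_left_cancel₀ D.ϖ_ne_zero hab

end ResData

end Fermat.Agent.LT.T6.H305

end

end
-- ===== PACK-END LT/T6/H305/Digits.lean

-- ===== PACK-BEGIN LT/H51/MS4A.lean
section




/-!
# Row LT, tower T8 (leaf MS-EVEN), sub-leaf MS4b (helper51), part A: cutting adelic elements

OFF-MAIN.  On `A0.lean` (helper556) and `T8/H864/Local.lean` (helper864), both verbatim.

* `cut T b : G K →* G K`: the element with the components of `g` at the finite places in `T`
  (ANY set of finite places) and, if `b` holds, at the infinite places; the identity elsewhere.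
* `LocLevel 𝔫 v m`: the local condition of `A0.InLevelGroup` at the finite place `v`.
* `phi_congr`: for a function `φ` on `GL₂(𝔸_K)` which is left invariant under `GL₂(K)` and right
  invariant under the level group, `φ g' = φ g` as soon as, for some `γ ∈ GL₂(K)`, the components
  of `g'` and `γ g` agree at the infinite places and differ by the local level group at the finite
  places.
-/

set_option autoImplicit false
set_option linter.unusedSectionVars false

open IsDedekindDomain NumberField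
open scoped MatrixGroups Classical

noncomputable section

namespace Fermat.Agent.LT.H51.MS4

open Fermat.Agent.LT.H556.A0 Fermat.Agent.LT.T8.H864

variable {K : Type} [Field K] [NumberField K]

/-! ## Cutting an adelic matrix -/

/-- The finite adele with the components of `x` at the places in `T` and the `(i, j)` entry of the
identity matrix at the other places. -/
def cutFinEntry (T : Set (HeightOneSpectrum (𝓞 K))) (i j : Fin 2)
    (x : FiniteAdeleRing (𝓞 K) K) : FiniteAdeleRing (𝓞 K) K :=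
  ⟨fun v => if v ∈ T then x v else (1 : Matrix (Fin 2) (Fin 2) (v.adicCompletion K)) i j, by
    filter_upwards [x.2] with v hv
    split_ifs
    · exact hv
    · exact one_apply_mem_integers v i j⟩

theorem cutFinEntry_apply (T : Set (HeightOneSpectrum (𝓞 K))) (i j : Fin 2)
    (x : FiniteAdeleRing (𝓞 K) K) (v : HeightOneSpectrum (𝓞 K)) :
    cutFinEntry T i j x v
      = if v ∈ T then x v else (1 : Matrix (Fin 2) (Fin 2) (v.adicCompletion K)) i j := rfl

/-- The infinite adele `x` if `b` holds, the `(i, j)` entry of the identity matrix otherwise. -/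
def cutInfEntry (b : Prop) (i j : Fin 2) (x : InfiniteAdeleRing K) : InfiniteAdeleRing K :=
  fun w => if b then x w else (1 : Matrix (Fin 2) (Fin 2) w.Completion) i j

/-- The matrix over the adeles with the components of `A` at the finite places in `T` and (if `b`)
at the infinite places, the identity elsewhere. -/
def cutMat (T : Set (HeightOneSpectrum (𝓞 K))) (b : Prop)
    (A : Matrix (Fin 2) (Fin 2) (Adl K)) : Matrix (Fin 2) (Fin 2) (Adl K) :=
  Matrix.of fun i j => ((cutInfEntry b i j (A i j).1, cutFinEntry T i j (A i j).2) : Adl K)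

theorem cutMat_map_evFin (T : Set (HeightOneSpectrum (𝓞 K))) (b : Prop)
    (A : Matrix (Fin 2) (Fin 2) (Adl K)) (v : HeightOneSpectrum (𝓞 K)) :
    (cutMat T b A).map (evFin v) = if v ∈ T then A.map (evFin v) else 1 := by
  refine Matrix.ext fun i j => ?_
  by_cases h : v ∈ T
  · rw [if_pos h]
    change cutFinEntry T i j (A i j).2 v = (A i j).2 v
    rw [cutFinEntry_apply, if_pos h]
  · rw [if_neg h]
    change cutFinEntry T i j (A i j).2 v = _
    rw [cutFinEntry_apply, if_neg h]

theorem cutMat_map_evInf (T : Set (HeightOneSpectrum (𝓞 K))) (b : Prop)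
    (A : Matrix (Fin 2) (Fin 2) (Adl K)) (w : InfinitePlace K) :
    (cutMat T b A).map (evInf w) = if b then A.map (evInf w) else 1 := by
  refine Matrix.ext fun i j => ?_
  by_cases h : b
  · rw [if_pos h]
    change cutInfEntry b i j (A i j).1 w = (A i j).1 w
    unfold cutInfEntry
    rw [if_pos h]
  · rw [if_neg h]
    change cutInfEntry b i j (A i j).1 w = _
    unfold cutInfEntry
    rw [if_neg h]

theorem cutMat_one (T : Set (HeightOneSpectrum (𝓞 K))) (b : Prop) :
    cutMat (K := K) T b 1 = 1 := by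
  refine matA_ext (fun w => ?_) (fun v => ?_)
  · rw [cutMat_map_evInf]
    split_ifs
    · rfl
    · exact (Matrix.map_one _ (map_zero _) (map_one _)).symm
  · rw [cutMat_map_evFin]
    split_ifs
    · rfl
    · exact (Matrix.map_one _ (map_zero _) (map_one _)).symm

theorem cutMat_mul (T : Set (HeightOneSpectrum (𝓞 K))) (b : Prop)
    (A B : Matrix (Fin 2) (Fin 2) (Adl K)) :
    cutMat T b (A * B) = cutMat T b A * cutMat T b B := by
  refine matA_ext (fun w => ?_) (fun v => ?_)
  · rw [Matrix.map_mul, cutMat_map_evInf, cutMat_map_evInf, cutMat_map_evInf]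
    split_ifs
    · rw [Matrix.map_mul]
    · rw [one_mul]
  · rw [Matrix.map_mul, cutMat_map_evFin, cutMat_map_evFin, cutMat_map_evFin]
    split_ifs
    · rw [Matrix.map_mul]
    · rw [one_mul]

/-- `cutMat T b` as a monoid homomorphism. -/
def cutMatHom (T : Set (HeightOneSpectrum (𝓞 K))) (b : Prop) :
    Matrix (Fin 2) (Fin 2) (Adl K) →* Matrix (Fin 2) (Fin 2) (Adl K) where
  toFun := cutMat T b
  map_one' := cutMat_one T b
  map_mul' := cutMat_mul T b

/-- **Cutting**: the element of `GL₂(𝔸_K)` with the components of `g` at the finite places in `T`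
and (if `b`) at the infinite places, the identity elsewhere. -/
def cut (T : Set (HeightOneSpectrum (𝓞 K))) (b : Prop) : G K →* G K :=
  Units.map (cutMatHom T b)

theorem coe_cut (T : Set (HeightOneSpectrum (𝓞 K))) (b : Prop) (g : G K) :
    ((cut T b g : G K) : Matrix (Fin 2) (Fin 2) (Adl K)) =
      cutMat T b (g : Matrix (Fin 2) (Fin 2) (Adl K)) := rfl

theorem finCompHom_cut (T : Set (HeightOneSpectrum (𝓞 K))) (b : Prop) (g : G K)
    (v : HeightOneSpectrum (𝓞 K)) :
    finCompHom v (cut T b g) = if v ∈ T then finCompHom v g else 1 := by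
  refine Units.ext ?_
  rw [coe_finCompHom, finComp_eq_map, coe_cut, cutMat_map_evFin]
  split_ifs
  · rfl
  · rfl

theorem finCompHom_cut_of_mem {T : Set (HeightOneSpectrum (𝓞 K))} (b : Prop) (g : G K)
    {v : HeightOneSpectrum (𝓞 K)} (hv : v ∈ T) : finCompHom v (cut T b g) = finCompHom v g := by
  rw [finCompHom_cut, if_pos hv]

theorem finCompHom_cut_of_notMem {T : Set (HeightOneSpectrum (𝓞 K))} (b : Prop) (g : G K)
    {v : HeightOneSpectrum (𝓞 K)} (hv : v ∉ T) : finCompHom v (cut T b g) = 1 := by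
  rw [finCompHom_cut, if_neg hv]

theorem infCompHom_cut (T : Set (HeightOneSpectrum (𝓞 K))) (b : Prop) (g : G K)
    (w : InfinitePlace K) :
    infCompHom w (cut T b g) = if b then infCompHom w g else 1 := by
  refine Units.ext ?_
  rw [coe_infCompHom, coe_cut, cutMat_map_evInf]
  split_ifs
  · rfl
  · rfl

theorem infCompHom_cut_true (T : Set (HeightOneSpectrum (𝓞 K))) (g : G K)
    (w : InfinitePlace K) : infCompHom w (cut T True g) = infCompHom w g := by
  rw [infCompHom_cut, if_pos trivial]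

theorem infCompHom_cut_false (T : Set (HeightOneSpectrum (𝓞 K))) (g : G K)
    (w : InfinitePlace K) : infCompHom w (cut T False g) = 1 := by
  rw [infCompHom_cut, if_neg not_false]

/-! ## The local level group -/

/-- The local condition of `A0.InLevelGroup` at the finite place `v`. -/
def LocLevel (𝔫 : Ideal (𝓞 K)) (v : HeightOneSpectrum (𝓞 K))
    (m : GL (Fin 2) (v.adicCompletion K)) : Prop :=
  ∀ i j : Fin 2,
    ((m : Matrix (Fin 2) (Fin 2) (v.adicCompletion K)) - 1) i j ∈ idealClosure 𝔫 v ∧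
    (((m⁻¹ : GL (Fin 2) (v.adicCompletion K)) : Matrix (Fin 2) (Fin 2) (v.adicCompletion K)) - 1)
      i j ∈ idealClosure 𝔫 v

theorem zero_mem_idealClosure (𝔫 : Ideal (𝓞 K)) (v : HeightOneSpectrum (𝓞 K)) :
    (0 : v.adicCompletion K) ∈ idealClosure 𝔫 v := by
  apply subset_closure
  exact ⟨0, 𝔫.zero_mem, by simp⟩

theorem locLevel_one (𝔫 : Ideal (𝓞 K)) (v : HeightOneSpectrum (𝓞 K)) :
    LocLevel 𝔫 v (1 : GL (Fin 2) (v.adicCompletion K)) := by
  intro i j
  constructor
  · rw [Units.val_one, sub_self]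
    exact zero_mem_idealClosure 𝔫 v
  · rw [inv_one, Units.val_one, sub_self]
    exact zero_mem_idealClosure 𝔫 v

theorem inLevelGroup_iff (𝔫 : Ideal (𝓞 K)) (u : G K) :
    InLevelGroup 𝔫 u ↔
      (∀ w : InfinitePlace K, infCompHom w u = 1) ∧
        ∀ v : HeightOneSpectrum (𝓞 K), LocLevel 𝔫 v (finCompHom v u) := by
  unfold InLevelGroup LocLevel
  constructor
  · rintro ⟨h1, h2⟩
    refine ⟨fun w => (trivAtInf_iff_hom w u).1 (h1 w), fun v i j => ?_⟩
    have := h2 v i j
    rw [← map_inv, coe_finCompHom, coe_finCompHom]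
    exact this
  · rintro ⟨h1, h2⟩
    refine ⟨fun w => (trivAtInf_iff_hom w u).2 (h1 w), fun v i j => ?_⟩
    have := h2 v i j
    rw [← map_inv, coe_finCompHom, coe_finCompHom] at this
    exact this

/-! ## The congruence lemma -/

/-- The image of a rational matrix in `GL₂(K_v)`. -/
abbrev ratFin (v : HeightOneSpectrum (𝓞 K)) : GL (Fin 2) K →* GL (Fin 2) (v.adicCompletion K) :=
  Matrix.GeneralLinearGroup.map (algebraMap K (v.adicCompletion K))

/-- The image of a rational matrix in `GL₂(K_w)`. -/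
abbrev ratInf (w : InfinitePlace K) : GL (Fin 2) K →* GL (Fin 2) w.Completion :=
  Matrix.GeneralLinearGroup.map (algebraMap K w.Completion)

/-- **Congruence lemma.**  If the components of `g'` are those of `γ g` at the infinite places
and differ from them by the local level group at the finite places, then `φ g' = φ g`. -/
theorem phi_congr {𝔫 : Ideal (𝓞 K)} {φ : G K → ℂ}
    (hleft : ∀ (γ : GL (Fin 2) K) (g : G K),
      φ (Matrix.GeneralLinearGroup.map (algebraMap K (Adl K)) γ * g) = φ g)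
    (hlevel : ∀ u : G K, InLevelGroup 𝔫 u → ∀ g : G K, φ (g * u) = φ g)
    (γ : GL (Fin 2) K) (g g' : G K)
    (hinf : ∀ w : InfinitePlace K, infCompHom w g' = ratInf w γ * infCompHom w g)
    (hfin : ∀ v : HeightOneSpectrum (𝓞 K),
      LocLevel 𝔫 v ((finCompHom v g)⁻¹ * (ratFin v γ)⁻¹ * finCompHom v g')) :
    φ g' = φ g := by
  set u : G K := g⁻¹ * (diagG γ)⁻¹ * g' with hu
  have hg' : g' = diagG γ * (g * u) := by
    rw [hu]; group
  have hu' : InLevelGroup 𝔫 u := by
    rw [inLevelGroup_iff]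
    refine ⟨fun w => ?_, fun v => ?_⟩
    · rw [hu, map_mul, map_mul, map_inv, map_inv, infCompHom_diagG, hinf w]
      group
    · rw [hu, map_mul, map_mul, map_inv, map_inv, finCompHom_diagG]
      exact hfin v
  rw [hg']
  have := hleft γ (g * u)
  rw [diagG_apply, this, hlevel u hu' g]

end Fermat.Agent.LT.H51.MS4

end

end
-- ===== PACK-END LT/H51/MS4A.lean

-- ===== PACK-BEGIN LT/T4/Spec.lean
section




/-!
# Row LT, tower T4 (architect helper797): the (untwisted) trace identity -- SPEC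

OFF-MAIN.  Decision of the chief of T1-T7 (note of 13:17Z): **T4 := T5 at `σ = id`**.

There is ONE frame for the trace identities, the frame of `LT/T5/Spec.lean` **v4** (helper32,
origin/helper32@eb7e4c138, sha256 f2d97e70548fcdd7, byte-identical copy): a number field `K`, an
`AdelicAut K`, the fixed field as a `Subfield K`, the order `l`, the `K_∞`-type `τ`.  The untwisted trace identity over `K` (EK test functions,
regular Iwahori support at an auxiliary place: no continuous term, no singular term) is the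
instance `s = AdelicAut.id K`, `l = 1`, fixed field `⊤`.

T4 has NO sub-leaves of its own: every leaf of T5 is stated for an arbitrary `AdelicAut`, and the
owner of a T5 leaf proves it for every `s` (in particular for `AdelicAut.id K`).  The registry
rows are the rows `T5.*` of helper32.

PROVED here: `normUpTo_id`, `top` (the tower Prop of T4 from the leaves of T5 at `σ = id`);
`T5.isCyclicOfDegree_id`, `T5.autPreserves_id` are in T5 v4.

v1 (14:10Z) = v0 re-typed for T5 v4: every Prop has the `K_∞`-type `τ` after the level.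
-/

set_option autoImplicit false

open IsDedekindDomain NumberField MeasureTheory
open scoped MatrixGroups

noncomputable section

namespace Fermat.Agent.LT.T4

open Fermat.Agent.LT.H556.A0 Fermat.Agent.LT

variable (K : Type) [Field K] [NumberField K]

/-- **STF**: the trace identity over `K` for products of two Eisenstein-killing test functions
(`T5.STFsigma` at `σ = id`): `∑_i ⟨R(φ₁ ⋆ φ₂) e_i, e_i⟩ = ∫_F ∑_γ (φ₁ ⋆ φ₂)♭(x⁻¹ γ x) dx`. -/
def STF (𝔫 : Ideal (𝓞 K)) (τ : G K → ℂ) : Prop := T5.STFsigma (T5.AdelicAut.id K) 𝔫 τ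

/-- **The tower Prop of T4** at level `𝔫`: trace identity + unfolding into conjugacy classes +
regularity from regular Iwahori support (`T5.Tower` at `σ = id`, `l = 1`, fixed field `⊤`). -/
def Tower (𝔫 : Ideal (𝓞 K)) (τ : G K → ℂ) : Prop := T5.Tower (T5.AdelicAut.id K) 1 ⊤ 𝔫 τ

/-- For `σ = id` and `l = 1` the norm is the identity. -/
theorem normUpTo_id (δ : GL (Fin 2) K) : (T5.AdelicAut.id K).normUpTo 1 δ = δ := by
  show δ * (T5.AdelicAut.id K).onRat 1 = δ
  rw [map_one, mul_one]

/-- **THE TOP OF T4**: the tower Prop from the leaves of T5 at `σ = id`. -/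
theorem top (𝔫 : Ideal (𝓞 K)) (τ : G K → ℂ)
    (hA : T5.LeafAbstractTrace K) (hHS0 : T5.LeafHS0 𝔫 τ)
    (hHS : T5.LeafHS (T5.AdelicAut.id K) 𝔫 τ) (hR : T5.LeafRange 𝔫 τ)
    (hC : T5.LeafCoeff (T5.AdelicAut.id K) 𝔫 τ) (hD : T5.LeafDiag (T5.AdelicAut.id K) 𝔫 τ)
    (hfin : T5.LeafTwFinite (T5.AdelicAut.id K) 1 ⊤ 𝔫 τ)
    (hunf : T5.LeafTwUnfold (T5.AdelicAut.id K) 𝔫 τ)
    (hreg : T5.RegularOfIwahori (T5.AdelicAut.id K) 1 ⊤) : Tower K 𝔫 τ :=
  T5.top (T5.AdelicAut.id K) 1 ⊤ 𝔫 τ T5.isCyclicOfDegree_id hA hHS0 hHS hR hC hD hfin hunf hreg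

end Fermat.Agent.LT.T4

end

end
-- ===== PACK-END LT/T4/Spec.lean

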