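import Mathlib
import Fermat.Agent.Pack.LT2.E0L1
import Fermat.Agent.Pack.LT2.E2L1
import Fermat.Agent.Pack.LT2.E3L1
import Fermat.Agent.Pack.LT2.E0L2
import Fermat.Agent.Pack.LT2.E5L2
import Fermat.Agent.Pack.LT2.E5L1
import Fermat.Agent.Pack.LT2.E5L3
import Fermat.Agent.Pack.LT2.E2L2
import Fermat.Agent.Pack.LT2.E3L0
import Fermat.Agent.Pack.LT2.E0L3
import Fermat.Agent.Pack.LT2.E3L2
import Fermat.Agent.Pack.L1.E1L2
import Fermat.Agent.Pack.LT2.E2L3
import Fermat.Agent.Pack.LT2.E5L0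

set_option linter.all false

-- ===== PACK-BEGIN LT/H129/Newton.lean
section





/-!
# Row LT, tower T6, sub-leaf T6.15c2 `NewtonC` (helper129) -- OFF-MAIN

`X² - τ X + d` with `|d| = 1 < |τ|` has a root in a complete field with a valuation in `ℤᵐ⁰`.

Proof: `X = τ Y`, `Y = Y² + c`, `c = d / τ²`, `|c| < 1`; the iteration `Y₀ = 0`,
`Yₙ₊₁ = Yₙ² + c` is Cauchy (`|Yₙ₊₁ - Yₙ| ≤ |c|ⁿ⁺¹`), and the limit is a fixed point.
-/

set_option autoImplicit false

noncomputable section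

namespace Fermat.Agent.LT.H129

open Fermat.Agent.LT.T6 Fermat.Agent.LT.T6.H159

section Newton

variable {k : Type} [Field k]

/-- The Newton iteration `Y₀ = 0`, `Yₙ₊₁ = Yₙ² + c`. -/
def newtonSeq129 (c : k) : ℕ → k
  | 0 => 0
  | (n + 1) => newtonSeq129 c n ^ 2 + c

@[simp] theorem newtonSeq129_zero (c : k) : newtonSeq129 c 0 = 0 := rfl

theorem newtonSeq129_succ (c : k) (n : ℕ) :
    newtonSeq129 c (n + 1) = newtonSeq129 c n ^ 2 + c := rfl

variable [Valued k Γ₀]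

theorem newtonSeq129_le {c : k} (hc : Valued.v c < 1) (n : ℕ) :
    Valued.v (newtonSeq129 c n) ≤ Valued.v c := by
  induction n with
  | zero => simp
  | succ n ih =>
    rw [newtonSeq129_succ]
    refine le_trans (Valuation.map_add _ _ _) (max_le ?_ le_rfl)
    rw [map_pow]
    calc Valued.v (newtonSeq129 c n) ^ 2 ≤ Valued.v c ^ 2 := pow_le_pow_left' ih 2
      _ = Valued.v c * Valued.v c := sq _
      _ ≤ 1 * Valued.v c := mul_le_mul' hc.le le_rfl
      _ = Valued.v c := one_mul _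

theorem newtonSeq129_step {c : k} (hc : Valued.v c < 1) (n : ℕ) :
    Valued.v (newtonSeq129 c (n + 1) - newtonSeq129 c n) ≤ Valued.v c ^ (n + 1) := by
  induction n with
  | zero => simp [newtonSeq129_succ]
  | succ n ih =>
    have e : newtonSeq129 c (n + 1 + 1) - newtonSeq129 c (n + 1)
        = (newtonSeq129 c (n + 1) - newtonSeq129 c n)
          * (newtonSeq129 c (n + 1) + newtonSeq129 c n) := by
      rw [newtonSeq129_succ c (n + 1), newtonSeq129_succ c n]; ring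
    rw [e, map_mul, pow_succ]
    refine mul_le_mul' ih ?_
    exact le_trans (Valuation.map_add _ _ _)
      (max_le (newtonSeq129_le hc _) (newtonSeq129_le hc _))

theorem pow_anti129 {x : Γ₀} (hx : x ≤ 1) {m n : ℕ} (h : m ≤ n) : x ^ n ≤ x ^ m :=
  pow_le_pow_right_of_le_one' hx h

theorem newtonSeq129_dist {c : k} (hc : Valued.v c < 1) (n j : ℕ) :
    Valued.v (newtonSeq129 c (n + j) - newtonSeq129 c n) ≤ Valued.v c ^ (n + 1) := by
  induction j with
  | zero => simp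
  | succ j ih =>
    have e : newtonSeq129 c (n + (j + 1)) - newtonSeq129 c n
        = (newtonSeq129 c (n + j + 1) - newtonSeq129 c (n + j))
          + (newtonSeq129 c (n + j) - newtonSeq129 c n) := by
      rw [← add_assoc]; ring
    rw [e]
    refine le_trans (Valuation.map_add _ _ _) (max_le ?_ ih)
    exact le_trans (newtonSeq129_step hc _) (pow_anti129 hc.le (by omega))

theorem lt_one_le_exp129 {x : Γ₀} (hx : x < 1) : x ≤ WithZero.exp (-1 : ℤ) := by
  by_cases h0 : x = 0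
  · rw [h0]; exact zero_le
  · rw [← WithZero.log_le_iff_le_exp h0]
    have : WithZero.log x < 0 := by
      rw [WithZero.log_lt_iff_lt_exp h0]; simpa using hx
    omega

theorem pow_lt_of_lt_one129 {x : Γ₀} (hx : x < 1) {g : Γ₀} (hg : g ≠ 0) :
    ∃ N : ℕ, x ^ N < g := by
  obtain ⟨N, hN⟩ := WithZero.exists_exp_neg_natCast_lt hg
  refine ⟨N, lt_of_le_of_lt ?_ hN⟩
  calc x ^ N ≤ (WithZero.exp (-1 : ℤ)) ^ N := pow_le_pow_left' (lt_one_le_exp129 hx) N
    _ = WithZero.exp (-(N : ℤ)) := by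
      rw [← WithZero.exp_nsmul]; congr 1; simp

theorem newtonSeq129_cauchy {c : k} (hc : Valued.v c < 1) : CauchySeq (newtonSeq129 c) := by
  rw [(Valued.hasBasis_uniformity k Γ₀).cauchySeq_iff]
  intro γ _
  have hγ0 : MonoidWithZeroHom.ValueGroup₀.embedding γ.1 ≠ 0 := by
    intro h
    have h1 := (MonoidWithZeroHom.ValueGroup₀.embedding_strictMono
      (f := MonoidWithZeroHom.ofClass (Valued.v : Valuation k Γ₀))).injective
      (h.trans (map_zero _).symm)
    exact γ.ne_zero h1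
  obtain ⟨N, hN⟩ := pow_lt_of_lt_one129 hc hγ0
  have key : ∀ m n : ℕ, N ≤ m → m ≤ n →
      Valued.v (newtonSeq129 c n - newtonSeq129 c m)
        < MonoidWithZeroHom.ValueGroup₀.embedding γ.1 := by
    intro m n hm hmn
    obtain ⟨j, rfl⟩ := Nat.exists_eq_add_of_le hmn
    exact lt_of_le_of_lt (le_trans (newtonSeq129_dist hc m j)
      (pow_anti129 hc.le (by omega))) hN
  refine ⟨N, fun m hm n hn => ?_⟩
  show (Valued.v : Valuation k Γ₀).restrict (newtonSeq129 c n - newtonSeq129 c m) < γ.1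
  rw [Valuation.restrict_lt_iff_lt_embedding]
  rcases le_total m n with h | h
  · exact key m n hm h
  · have := key n m hn h
    rwa [← Valuation.map_neg, neg_sub] at this

/-- In a complete field valued in `ℤᵐ⁰`, the equation `Y = Y² + c` has a solution when
`|c| < 1`. -/
theorem exists_fixed129 [CompleteSpace k] {c : k} (hc : Valued.v c < 1) :
    ∃ Y : k, Y = Y ^ 2 + c := by
  obtain ⟨Y, hY⟩ := cauchySeq_tendsto_of_complete (newtonSeq129_cauchy hc)
  refine ⟨Y, ?_⟩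
  have h1 : Filter.Tendsto (fun n => newtonSeq129 c (n + 1)) Filter.atTop (nhds Y) :=
    hY.comp (Filter.tendsto_add_atTop_nat 1)
  have h2 : Filter.Tendsto (fun n => newtonSeq129 c (n + 1)) Filter.atTop
      (nhds (Y ^ 2 + c)) := by
    have : (fun n => newtonSeq129 c (n + 1)) = fun n => newtonSeq129 c n ^ 2 + c := by
      funext n; exact newtonSeq129_succ c n
    rw [this]
    exact (hY.pow 2).add_const c
  exact tendsto_nhds_unique h1 h2

end Newton

/-- **T6.15c2 `NewtonC`**, unconditional. -/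
theorem newtonC129 : NewtonC := by
  intro k _ _ q hk τ d hd hτ
  have := hk.complete
  have hτ0 : τ ≠ 0 := by
    intro h
    rw [h, map_zero] at hτ
    exact absurd hτ (not_lt.mpr zero_le)
  have hc : Valued.v (d / τ ^ 2) < 1 := by
    rw [map_div₀, map_pow, hd]
    have h1 : (1 : Γ₀) < Valued.v τ ^ 2 := one_lt_pow' hτ (by norm_num)
    have hpos : (0 : Γ₀) < Valued.v τ ^ 2 := lt_trans zero_lt_one h1
    rw [div_lt_one₀ hpos]
    exact h1
  obtain ⟨Y, hY⟩ := exists_fixed129 hc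
  refine ⟨τ * Y, ?_⟩
  have h2 : τ ^ 2 * (d / τ ^ 2) = d := by field_simp
  have h3 : (τ * Y) ^ 2 - τ * (τ * Y) + d = τ ^ 2 * (Y ^ 2 + d / τ ^ 2 - Y) := by
    rw [mul_sub, mul_add, h2]; ring
  rw [h3, ← hY, sub_self, mul_zero]

end Fermat.Agent.LT.H129

end

end
-- ===== PACK-END LT/H129/Newton.lean

-- ===== PACK-BEGIN LT/T1/H729/Red/Ray.lean
section





/-!
# Row LT, tower T1, leaf T1.14 (helper729): the ray idele and the open box

OFF-MAIN.

* `rayIdele729 K s hs : (Adl K)ˣ` : the idele with components of norm `s > 0` at the infinite places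
  (the image of the real number `s`) and `1` at the finite places; `adNorm = s ^ [K : ℚ]`.
* `InBox729 K s a` : `a_v ∈ 𝒪_v` at the finite places and `‖a_w‖ < s` at the infinite places.
-/

set_option autoImplicit false

open IsDedekindDomain NumberField
open Fermat.Agent.LT.H556.A0

noncomputable section

namespace Fermat.Agent.LT.T1.H729

set_option linter.unusedSectionVars false

variable (K : Type) [Field K] [NumberField K]

/-- The norm of an element of the completion at an infinite place is the absolute value of its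
image under the extension embedding. -/
theorem norm_eq_norm_extEmb729 (w : InfinitePlace K) (x : w.Completion) :
    ‖x‖ = ‖InfinitePlace.Completion.extensionEmbedding w x‖ := by
  have h := (InfinitePlace.Completion.isometry_extensionEmbedding w).norm_map_of_map_zero
    (map_zero _) x
  exact h.symm

/-- The element of the completion at `w` which is the real number `s`. -/
def realAt729 (w : InfinitePlace K) (s : ℝ) : w.Completion :=
  (exists_extEmb_eq_ofReal729 w s).choose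

theorem extEmb_realAt729 (w : InfinitePlace K) (s : ℝ) :
    InfinitePlace.Completion.extensionEmbedding w (realAt729 K w s) = (s : ℂ) :=
  (exists_extEmb_eq_ofReal729 w s).choose_spec

theorem norm_realAt729 (w : InfinitePlace K) (s : ℝ) : ‖realAt729 K w s‖ = |s| := by
  rw [norm_eq_norm_extEmb729, extEmb_realAt729, Complex.norm_real, Real.norm_eq_abs]

theorem realAt_mul729 (w : InfinitePlace K) (s t : ℝ) :
    realAt729 K w s * realAt729 K w t = realAt729 K w (s * t) := by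
  apply (InfinitePlace.Completion.extensionEmbedding w).injective
  rw [map_mul, extEmb_realAt729, extEmb_realAt729, extEmb_realAt729]
  push_cast
  rfl

theorem realAt_one729 (w : InfinitePlace K) : realAt729 K w 1 = 1 := by
  apply (InfinitePlace.Completion.extensionEmbedding w).injective
  rw [extEmb_realAt729, map_one]
  push_cast
  rfl

/-- The adele with components `s` at the infinite places and `1` at the finite places. -/
def rayAdele729 (s : ℝ) : Adl K := ((fun w => realAt729 K w s), 1)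

theorem rayAdele_mul729 (s t : ℝ) : rayAdele729 K s * rayAdele729 K t = rayAdele729 K (s * t) := by
  refine adl_ext729 (fun w => ?_) (fun v => ?_)
  · exact realAt_mul729 K w s t
  · change (1 : v.adicCompletion K) * 1 = 1
    rw [one_mul]

theorem rayAdele_one729 : rayAdele729 K 1 = 1 := by
  refine adl_ext729 (fun w => ?_) (fun v => ?_)
  · exact realAt_one729 K w
  · rfl

/-- The ray idele of parameter `s > 0`. -/
def rayIdele729 (s : ℝ) (hs : 0 < s) : (Adl K)ˣ where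
  val := rayAdele729 K s
  inv := rayAdele729 K s⁻¹
  val_inv := by rw [rayAdele_mul729, mul_inv_cancel₀ hs.ne', rayAdele_one729]
  inv_val := by rw [rayAdele_mul729, inv_mul_cancel₀ hs.ne', rayAdele_one729]

@[simp] theorem rayIdele_inf729 (s : ℝ) (hs : 0 < s) (w : InfinitePlace K) :
    ((rayIdele729 K s hs : (Adl K)ˣ) : Adl K).1 w = realAt729 K w s := rfl

@[simp] theorem rayIdele_fin729 (s : ℝ) (hs : 0 < s) (v : HeightOneSpectrum (𝓞 K)) :
    ((rayIdele729 K s hs : (Adl K)ˣ) : Adl K).2 v = 1 := rfl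

/-- The module of the ray idele. -/
theorem adNorm_rayIdele729 (s : ℝ) (hs : 0 < s) :
    Fermat.Agent.LT.T1.adNorm K ((rayIdele729 K s hs : (Adl K)ˣ) : Adl K) =
      s ^ Module.finrank ℚ K := by
  unfold Fermat.Agent.LT.T1.adNorm
  simp only [rayIdele_inf729, rayIdele_fin729, norm_realAt729, abs_of_pos hs, norm_one,
    finprod_one, mul_one]
  rw [Finset.prod_pow_eq_pow_sum, InfinitePlace.sum_mult_eq]

end Fermat.Agent.LT.T1.H729

end
end
-- ===== PACK-END LT/T1/H729/Red/Ray.lean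

-- ===== PACK-BEGIN LT/T1/H793/Iwasawa.lean
section





/-!
# Row LT, tower T1 (helper793, OFF-MAIN): interface Prop `IwasawaC`

`iwasawaC793 K : Fermat.Agent.LT.T1.IwasawaC K`, UNCONDITIONAL, for every number field `K`
(Spec.lean of helper54, v0 @424fdf719).
-/

set_option autoImplicit false

open IsDedekindDomain NumberField
open Fermat.Agent.LT.H556.A0

namespace Fermat.Agent.LT.T1.H793

/-- **`IwasawaC`**: `GL₂(𝔸_K) = B(𝔸_K) · K⁰`. -/
theorem iwasawaC793 (K : Type) [Field K] [NumberField K] : Fermat.Agent.LT.T1.IwasawaC K := by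
  intro g
  obtain ⟨b, k, hg, hb, hfin, hinf⟩ := iwasawaAdelic793 g
  exact ⟨b, k, hb, ⟨hfin, hinf⟩, hg⟩

end Fermat.Agent.LT.T1.H793

end
-- ===== PACK-END LT/T1/H793/Iwasawa.lean

-- ===== PACK-BEGIN LT/T2/H941/SmoSpec.lean
section






/-!
# Row LT, tower T2, station T2.10 `SMO_AA` (strong multiplicity one, adelic--adelic): SUB-SPEC v2

OFF-MAIN (helper941, sub-architect of registry row 874).  Definitions, sub-leaf Props, PROVED tops.
v2 = v1 with `ArchTorusC`, `ArchTorusRealC` WEAKENED (no `κ 1 = 1`, no `κ ≠ 0`); nothing else moved.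
Nothing is assumed, there is no opaque constant and no placeholder proof.
Vocabulary: `LT/H556/A0.lean` (helper556), `LT/T1/Spec.lean` (helper54), `LT/T2/Spec.lean`
(helper130), `LT/T3/Spec.lean` (helper14), byte-identical copies.

## The proof which is cut here (Casselman 1973, Miyake 1971, Piatetski-Shapiro; eigenvalue form)

`φ`, `φ'` cusp forms as in A0 for `π`, `π'`, eigenvalues equal outside a finite set; `v₀` prime to
both levels.  `S` = a finite set of finite places containing `v₀`, the places dividing the levels,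
the exceptional places and the places where the additive character `ψ` is ramified.

1. WHITTAKER COEFFICIENT `W_φ(g) = ∫_{K\𝔸} φ(n(x) g) conj ψ(x) dx` (`wh`).  A cuspidal function
   with `W(diag(α,1) g) = 0` for all `α ∈ Kˣ` vanishes at `g` (`WhitDetC`: uniqueness of Fourier
   expansion on the compact group `𝔸/K`, `T3.CompleteNDC`).
2. On the torus `diag(y,1)` the function `W_φ` is a product: at a finite place prime to the level
   the Hecke relation is a three-term recursion (`UnramTorusC`), at an infinite place the bounded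
   solution of the Bessel equation is unique (`ArchTorusC`, `ArchTorusRealC`).
3. KIRILLOV CUT-OFF (`CutoffC`): a finite combination of right translations by unipotent elements
   at `v ∈ S` cuts `W` on the torus down to one orbit `y₀ (1 + 𝔪_v)`.  After the cut-off at all
   `v ∈ S` (and a torus translation of `φ'`) the Whittaker coefficients of `Φ = ∑ cᵢ R(gᵢ) φ` and
   `Φ' = ∑ c'ⱼ R(g'ⱼ) φ'` agree on the torus and do not vanish there (`TorusMatchC`).
4. EXTENSION (`ExtendC`): a cusp function whose Whittaker coefficient vanishes on the torus is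
   zero (weak approximation at the places of the level, Iwasawa decomposition elsewhere, step 1).
   Hence `Φ = Φ' ≠ 0` (`MatchC`).
5. ORTHOGONALITY (`OrthC`): `0 ≠ ⟨Φ, Φ'⟩ = ∑ cᵢ conj c'ⱼ ⟨R(gᵢ)φ, R(g'ⱼ)φ'⟩`, the Petersson pairing is
   invariant under right translations, `K_{v₀}`-averaging turns `R(n(u))`, `u ∈ ϖ⁻¹𝒪`, into the
   Hecke operator of `K diag(ϖ², 1) K = T² - (q+1) S`, so `⟨f, f'⟩ ≠ 0` for two `K_{v₀}`-invariant
   eigenfunctions; `T* = S⁻¹ T`, `S* = S⁻¹` give `a = a'`, `b = b'`.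

Real places: the forms of A0 are `SO(2)`-invariant only, so the PARITY under `diag(-1,1)` at a real
place is an extra datum.  `ParityC` (equal parities can be arranged) is VACUOUS for a totally
complex field (`parityC_of_totCplx`, proved here) -- the only case used by the wall (`T7.FibreC`
has `TotCplx K`).  For a field with a real place `ParityC` and `ArchTorusRealC` are OPTIONAL
leaves.
-/

set_option autoImplicit false

open IsDedekindDomain NumberField MeasureTheory AutomorphicForm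
open Fermat.Agent.LT.H556.A0
open scoped MatrixGroups

noncomputable section

namespace Fermat.Agent.LT.T2.H941

variable {K : Type} [Field K] [NumberField K]

/-! ## 1. Vocabulary -/

/-- Right translation `(R(g) f)(x) = f(x g)`.  `rt g (rt h f) = rt (g * h) f`. -/
def rt (g : G K) (f : G K → ℂ) : G K → ℂ := fun x => f (x * g)

/-- A finite combination of right translates: `∑ᵢ cᵢ R(gᵢ) f`. -/
def lin {n : ℕ} (c : Fin n → ℂ) (g : Fin n → G K) (f : G K → ℂ) : G K → ℂ :=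
  fun x => ∑ i, c i * f (x * g i)

/-- The torus element `diag(y, 1)`, `y` an idele. -/
def tor (y : (Adl K)ˣ) : G K :=
  ⟨!![(y : Adl K), 0; 0, 1], !![((y⁻¹ : (Adl K)ˣ) : Adl K), 0; 0, 1],
    by ext i j; fin_cases i <;> fin_cases j <;> simp [Matrix.mul_apply, Fin.sum_univ_two],
    by ext i j; fin_cases i <;> fin_cases j <;> simp [Matrix.mul_apply, Fin.sum_univ_two]⟩

/-- The idele `y` is supported at the finite place `v`. -/
def IsIdeleAtFin (v : HeightOneSpectrum (𝓞 K)) (y : (Adl K)ˣ) : Prop :=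
  (∀ w : InfinitePlace K, (y : Adl K).1 w = 1) ∧
    ∀ v' : HeightOneSpectrum (𝓞 K), v' ≠ v → (y : Adl K).2 v' = 1

/-- The idele `y` is supported at the infinite place `w`. -/
def IsIdeleAtInf (w : InfinitePlace K) (y : (Adl K)ˣ) : Prop :=
  (∀ w' : InfinitePlace K, w' ≠ w → (y : Adl K).1 w' = 1) ∧
    ∀ v : HeightOneSpectrum (𝓞 K), (y : Adl K).2 v = 1

/-- `p` is supported at `v` and is the unipotent element `n(u) = [[1, u], [0, 1]]` there. -/
def IsUnipAt (v : HeightOneSpectrum (𝓞 K)) (p : G K) (u : v.adicCompletion K) : Prop :=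
  IsLocalAtFin v p ∧ finComp v p = !![1, u; 0, 1]

/-- ADMISSIBLE elements for the place `v₀`: `g = p q` with `p = n(u)` supported at `v₀`,
`u ∈ ϖ⁻¹ 𝒪_{v₀}`, and `q` trivial at `v₀`. -/
def IsAdm (v₀ : HeightOneSpectrum (𝓞 K)) (g : G K) : Prop :=
  ∃ (p q : G K) (u : v₀.adicCompletion K), g = p * q ∧ IsUnipAt v₀ p u ∧
    Valued.v u ≤ WithZero.exp (1 : ℤ) ∧ TrivAtFin v₀ q

/-- `f` is right invariant under `U(𝔪)`. -/
def IsLevel (𝔪 : Ideal (𝓞 K)) (f : G K → ℂ) : Prop :=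
  ∀ u : G K, InLevelGroup 𝔪 u → ∀ g : G K, f (g * u) = f g

/-- `f` is right invariant under `GL₂(𝒪_v)` (embedded at the place `v`). -/
def IsKv (v : HeightOneSpectrum (𝓞 K)) (f : G K → ℂ) : Prop :=
  ∀ k : G K, IsLocalAtFin v k → IsIntegralAt v k → IsIntegralAt v k⁻¹ →
    ∀ g : G K, f (g * k) = f g

/-- The class of functions on which the Petersson pairing of a frame is used: continuous,
bounded, left invariant under `GL₂(K)` and under the diagonal positive scalars `Z⁺` (LEFT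
invariance: the class is then visibly stable under all right translations). -/
def IsAut0 (f : G K → ℂ) : Prop :=
  Continuous f ∧ (∃ C : ℝ, ∀ g : G K, ‖f g‖ ≤ C) ∧
    (∀ (γ : GL (Fin 2) K) (g : G K), f (T1.ratG K γ * g) = f g) ∧
    ∀ z : G K, T2.IsDiagPosScalar z → ∀ g : G K, f (z * g) = f g

/-- `φ` and `φ'` have the same parity at every real place: they are eigenfunctions of the right
translation by `diag(-1, 1)` at `w` with the same eigenvalue. -/
def SameParity (φ φ' : G K → ℂ) : Prop :=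
  ∀ w : InfinitePlace K, w.IsReal → ∀ e : G K, IsLocalAtInf w e →
    infComp w e = !![-1, 0; 0, 1] →
    ∃ ε : ℂ, (∀ g : G K, φ (g * e) = ε * φ g) ∧ ∀ g : G K, φ' (g * e) = ε * φ' g

/-- WHITTAKER DATA: a non-degenerate standard character `ψ` of `𝔸_K / K` with conductor `𝒪_v` at
almost all `v` (the character of `T3.GoodCharExistsC`), a Haar measure `ν` of `𝔸_K` (Borel) and a
Borel fundamental domain `D` of `K` in `𝔸_K` of finite measure. -/
def IsWhitData (ψ : AddChar (Adl K) Circle) {m : MeasurableSpace (Adl K)}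
    (ν : Measure (Adl K)) (D : Set (Adl K)) : Prop :=
  T3.IsStdChar K ψ ∧ T3.IsNonDeg K ψ ∧ T3.IsUnramAE K ψ ∧ ν.IsAddHaarMeasure ∧
    MeasurableSet D ∧ IsAddFundamentalDomain (T1.princ K) D ν ∧ ν D < ⊤

/-- THE WHITTAKER COEFFICIENT `W_f(g) = ∫_D f(n(x) g) conj ψ(x) dν(x)`. -/
def wh (ψ : AddChar (Adl K) Circle) {m : MeasurableSpace (Adl K)} (ν : Measure (Adl K))
    (D : Set (Adl K)) (f : G K → ℂ) (g : G K) : ℂ :=
  ∫ x in D, f (T3.unip K x * g) * (starRingEnd ℂ) ((ψ x : Circle) : ℂ) ∂ν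

/-- `d` is the CONDUCTOR EXPONENT of `ψ` at `v`: `ψ_v` is trivial on `ϖ^{-d} 𝒪_v` and not on
`ϖ^{-d-1} 𝒪_v`.  (`T3.IsUnramAE`: `d = 0` at almost all `v`.) -/
def IsCondExp (ψ : AddChar (Adl K) Circle) (v : HeightOneSpectrum (𝓞 K)) (d : ℤ) : Prop :=
  (∀ x : Adl K, T3.IsLocAdeleAt K v x → Valued.v (x.2 v) ≤ WithZero.exp d → ψ x = 1) ∧
    ∃ x : Adl K, T3.IsLocAdeleAt K v x ∧ Valued.v (x.2 v) = WithZero.exp (d + 1) ∧ ψ x ≠ 1

/-- `y` lies in the orbit of `y₀` under the torus of `U(𝔪)_v`: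
`y / y₀ ≡ 1` and `y₀ / y ≡ 1` modulo `𝔪 𝒪_v` (for `v ∤ 𝔪`: `y / y₀ ∈ 𝒪_vˣ`). -/
def InOrbit (𝔪 : Ideal (𝓞 K)) (v : HeightOneSpectrum (𝓞 K)) (y y₀ : (Adl K)ˣ) : Prop :=
  ((y * y₀⁻¹ : (Adl K)ˣ) : Adl K).2 v - 1 ∈ idealClosure 𝔪 v ∧
    ((y₀ * y⁻¹ : (Adl K)ˣ) : Adl K).2 v - 1 ∈ idealClosure 𝔪 v

/-- What `ExtendC` needs of a function: a cusp function of level `U(𝔪)` (`T2.IsCuspFn`) which is
an eigenfunction of the scalar uniformisers at the places prime to `𝔪`. -/
def IsExtendable (𝔪 : Ideal (𝓞 K)) (Ψ : G K → ℂ) : Prop :=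
  T2.IsCuspFn 𝔪 Ψ ∧
    ∀ v : HeightOneSpectrum (𝓞 K), ¬ v.asIdeal ∣ 𝔪 →
      ∃ b : ℂ, ∀ z : G K, IsScalarUniformizerAt v z → ∀ g : G K, Ψ (g * z) = b * Ψ g


/-! ## 2. The three stages -/

variable (K)

/-- **STAGE 0 (parity).**  Two eigensystems of adelic cusp forms which agree almost everywhere
are the eigensystems of two forms with the same parities at the real places.  VACUOUS for a
totally complex field; OPTIONAL leaf otherwise (it is a consequence of strong multiplicity one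
with archimedean components, [Jacquet--Langlands §11], not of the argument cut here). -/
def ParityC : Prop :=
  ∀ π π' : HeckeEigensystem K ℂ, IsCuspAdelicSph0 K π → IsCuspAdelicSph0 K π' →
    HeckeEigensystem.AgreesAwayFromFinite π π' →
    ∃ φ φ' : G K → ℂ, IsSph0CuspFormFor π φ ∧ IsSph0CuspFormFor π' φ' ∧ SameParity φ φ'

/-- **STAGE A (a common vector).**  There are finite combinations of right translates of `φ` and
of `φ'`, by admissible elements for `v₀`, which are EQUAL and not zero. -/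
def MatchC : Prop :=
  ∀ (π π' : HeckeEigensystem K ℂ) (φ φ' : G K → ℂ),
    IsSph0CuspFormFor π φ → IsSph0CuspFormFor π' φ' → SameParity φ φ' →
    HeckeEigensystem.AgreesAwayFromFinite π π' →
    ∀ v₀ : HeightOneSpectrum (𝓞 K), ¬ v₀.asIdeal ∣ π.level → ¬ v₀.asIdeal ∣ π'.level →
      ∃ (n n' : ℕ) (c : Fin n → ℂ) (g : Fin n → G K) (c' : Fin n' → ℂ) (g' : Fin n' → G K),
        (∀ i, IsAdm v₀ (g i)) ∧ (∀ j, IsAdm v₀ (g' j)) ∧
        lin c g φ = lin c' g' φ' ∧ ∃ x : G K, lin c g φ x ≠ 0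

/-- **STAGE B (orthogonality).**  If finite combinations of right translates of `φ` and of `φ'`
by admissible elements for `v₀` are equal and not zero, the eigenvalues at `v₀` are equal. -/
def OrthC : Prop :=
  ∀ (π π' : HeckeEigensystem K ℂ) (φ φ' : G K → ℂ),
    IsSph0CuspFormFor π φ → IsSph0CuspFormFor π' φ' →
    ∀ v₀ : HeightOneSpectrum (𝓞 K), ¬ v₀.asIdeal ∣ π.level → ¬ v₀.asIdeal ∣ π'.level →
      ∀ (n n' : ℕ) (c : Fin n → ℂ) (g : Fin n → G K) (c' : Fin n' → ℂ) (g' : Fin n' → G K),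
        (∀ i, IsAdm v₀ (g i)) → (∀ j, IsAdm v₀ (g' j)) →
        lin c g φ = lin c' g' φ' → (∃ x : G K, lin c g φ x ≠ 0) →
        π.a v₀ = π'.a v₀ ∧ π.b v₀ = π'.b v₀

/-! ## 3. Sub-leaves of stage A -/

/-- **Whittaker data exist** (`T3.GoodCharExistsC`, `T1.LocCompC`, `T1.AddFundDomC`). -/
def WhitDataExistsC : Prop :=
  letI : MeasurableSpace (Adl K) := borel (Adl K)
  ∃ (ψ : AddChar (Adl K) Circle) (ν : Measure (Adl K)) (D : Set (Adl K)), IsWhitData ψ ν D

/-- **A.1 FOURIER UNIQUENESS along `N`.**  `Φ` continuous, left invariant under `N(K)` and under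
the rational torus `diag(α, 1)`, cuspidal: if `W_Φ(diag(α,1) g) = 0` for all `α ∈ Kˣ` then
`Φ(g) = 0`.  (`x ↦ Φ(n(x) g)` is a continuous function on the compact group `𝔸_K / K`; its
Fourier coefficient at `η ≠ 0` is `W_Φ(diag(-η, 1) g)` by the substitution `x ↦ -η⁻¹ x`
(`T3.HaarScaleC`, independence of the fundamental domain), at `η = 0` it vanishes by
cuspidality; `T3.CompleteNDC`.) -/
def WhitDetC : Prop :=
  letI : MeasurableSpace (Adl K) := borel (Adl K)
  ∀ (ψ : AddChar (Adl K) Circle) (ν : Measure (Adl K)) (D : Set (Adl K)), IsWhitData ψ ν D →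
  ∀ Φ : G K → ℂ, Continuous Φ →
    (∀ (ξ : K) (g : G K), Φ (T3.unip K (algebraMap K (Adl K) ξ) * g) = Φ g) →
    (∀ (α : Kˣ) (g : G K), Φ (T3.torK K α * g) = Φ g) → IsCuspidalFn Φ →
    ∀ g : G K, (∀ α : Kˣ, wh ψ ν D Φ (T3.torK K α * g) = 0) → Φ g = 0

/-- **A.2 WEAK APPROXIMATION for `GL₂`** at the places dividing `𝔪`:
`GL₂(𝔸_K) = GL₂(K) · {g : g_v ∈ U(𝔪)_v for all v ∣ 𝔪}`.  (`K` is dense in `∏_{v ∣ 𝔪} K_v`,
`GL₂` is open in `M₂`.)  Mathlib only. -/
def WeakApproxC : Prop :=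
  ∀ 𝔪 : Ideal (𝓞 K), 𝔪 ≠ ⊥ → ∀ g : G K, ∃ γ : GL (Fin 2) K,
    ∀ v : HeightOneSpectrum (𝓞 K), v.asIdeal ∣ 𝔪 → ∀ i j : Fin 2,
      (finComp v (T1.ratG K γ * g) - 1) i j ∈ idealClosure 𝔪 v ∧
        (finComp v (T1.ratG K γ * g)⁻¹ - 1) i j ∈ idealClosure 𝔪 v

/-- **A.3 EXTENSION.**  A cusp function of level `U(𝔪)`, eigenfunction of the scalar uniformisers
at the places prime to `𝔪`, whose Whittaker coefficient vanishes on the torus `diag(y, 1)`,
`y ∈ 𝔸_Kˣ`, is zero.  (Weak approximation: `g` may be taken trivial at `v ∣ 𝔪`; Iwasawa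
decomposition at the other places: `diag(α,1) g = n(x) diag(y,1) z k`; then `WhitDetC`.) -/
def ExtendC : Prop :=
  letI : MeasurableSpace (Adl K) := borel (Adl K)
  ∀ (ψ : AddChar (Adl K) Circle) (ν : Measure (Adl K)) (D : Set (Adl K)), IsWhitData ψ ν D →
  ∀ 𝔪 : Ideal (𝓞 K), 𝔪 ≠ ⊥ → ∀ Ψ : G K → ℂ, IsExtendable 𝔪 Ψ →
    (∀ y : (Adl K)ˣ, wh ψ ν D Ψ (tor y) = 0) → ∀ g : G K, Ψ g = 0

/-- **A.4 THE CONDUCTOR EXISTS** at every finite place (`ψ` is continuous and non-degenerate). -/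
def CondExistsC : Prop :=
  ∀ ψ : AddChar (Adl K) Circle, T3.IsStdChar K ψ → T3.IsNonDeg K ψ →
    ∀ v : HeightOneSpectrum (𝓞 K), ∃ d : ℤ, IsCondExp ψ v d

/-- **A.5 UNRAMIFIED RECURSION.**  At a finite place `v` where `Φ` is `GL₂(𝒪_v)`-invariant and a
Hecke eigenfunction with eigenvalues `(a, b)`, the Whittaker coefficient on the torus at `v` is
`λ(ord)` times its value at the conductor point, for a function `λ` which depends on `ψ`, `v`,
`a`, `b` only: with `m = ord_v(y) + d`, `λ = 0` for `m < 0`, `λ = 1` for `m = 0` and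
`q λ_{m+1} = √q a λ_m - b λ_{m-1}`.  (Evaluate `T_v` on the standard coset system
`[[ϖ, r], [0, 1]]`, `[[1, 0], [0, ϖ]]` at `diag(y,1) g`.) -/
def UnramTorusC : Prop :=
  letI : MeasurableSpace (Adl K) := borel (Adl K)
  ∀ (ψ : AddChar (Adl K) Circle) (ν : Measure (Adl K)) (D : Set (Adl K)), IsWhitData ψ ν D →
  ∀ (v : HeightOneSpectrum (𝓞 K)) (d : ℤ), IsCondExp ψ v d →
    ∃ lam : ℂ → ℂ → ℤ → ℂ, (∀ a b : ℂ, lam a b d = 1) ∧
      ∀ (Φ : G K → ℂ) (a b : ℂ), Continuous Φ → (∃ C : ℝ, ∀ g : G K, ‖Φ g‖ ≤ C) →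
        (∀ (γ : GL (Fin 2) K) (g : G K), Φ (T1.ratG K γ * g) = Φ g) →
        IsKv v Φ → IsHeckeEigenAt Φ v a b →
        ∀ y y₀ : (Adl K)ˣ, IsIdeleAtFin v y → IsIdeleAtFin v y₀ →
          Valued.v ((y₀ : Adl K).2 v) = WithZero.exp d →
          ∀ g : G K, TrivAtFin v g →
            wh ψ ν D Φ (tor y * g)
              = lam a b (WithZero.log (Valued.v ((y : Adl K).2 v))) * wh ψ ν D Φ (tor y₀ * g)

/-- **A.6 ARCHIMEDEAN UNIQUENESS, complex place.**  There is a function `κ` on `K_w`, depending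
on `ψ` and `w` only, such that for every bounded continuous automorphic function `Φ` which is right
invariant under the positive scalars and under `U(2)` at `w` and has the mean value property of
parameter `0` at `w`:
`W_Φ(diag(y,1) g) = κ(y_w) W_Φ(g)` for `y` supported at `w` and `g` trivial at `w`.
(`h ↦ W_Φ(h g)` on `GL₂(ℂ)` is `(N, ψ_w)`-equivariant, bounded, and an eigenfunction of the
Laplacian of `ℍ³` with eigenvalue `-1`: `F(r) = W(diag(r,1))` satisfies
`r² F'' - r F' + (1 - k² r²) F = 0`, whose bounded solutions are the multiples of `r K₀(k r)`.)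
v2: NO normalisation and NO non-vanishing of `κ` is claimed (the assembly does not use them), so
that `κ` need not be constructed: the leaf is the statement that the bounded solutions form a
space of dimension at most one (`u = F / r` real: `(r u u')' = r u'² + k² r u² ≥ 0`, so `u²` is
non-increasing for a bounded `F`; a bounded solution with a zero vanishes). -/
def ArchTorusC : Prop :=
  letI : MeasurableSpace (Adl K) := borel (Adl K)
  ∀ (ψ : AddChar (Adl K) Circle) (ν : Measure (Adl K)) (D : Set (Adl K)), IsWhitData ψ ν D →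
  ∀ w : InfinitePlace K, w.IsComplex →
    ∃ κ : w.Completion → ℂ,
      ∀ Φ : G K → ℂ, Continuous Φ → (∃ C : ℝ, ∀ g : G K, ‖Φ g‖ ≤ C) →
        (∀ (γ : GL (Fin 2) K) (g : G K), Φ (T1.ratG K γ * g) = Φ g) →
        (∀ z : G K, IsArchPosScalar w z → ∀ g : G K, Φ (g * z) = Φ g) →
        (∀ k : G K, IsArchCompact w k → ∀ g : G K, Φ (g * k) = Φ g) →
        MeanValueComplex Φ w →
        ∀ y : (Adl K)ˣ, IsIdeleAtInf w y → ∀ g : G K, TrivAtInf w g →
          wh ψ ν D Φ (tor y * g) = κ ((y : Adl K).1 w) * wh ψ ν D Φ g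

/-- **A.7 ARCHIMEDEAN UNIQUENESS, real place, positive part of the torus** (OPTIONAL: not needed
for a totally complex field).  `F(r) = W(diag(r,1))`, `r > 0`, is a bounded solution of
`r² F'' + (1/4 - k² r²) F = 0`, a multiple of `√r K₀(k r)`. -/
def ArchTorusRealC : Prop :=
  letI : MeasurableSpace (Adl K) := borel (Adl K)
  ∀ (ψ : AddChar (Adl K) Circle) (ν : Measure (Adl K)) (D : Set (Adl K)), IsWhitData ψ ν D →
  ∀ w : InfinitePlace K, w.IsReal →
    ∃ κ : ℝ → ℂ,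
      ∀ Φ : G K → ℂ, Continuous Φ → (∃ C : ℝ, ∀ g : G K, ‖Φ g‖ ≤ C) →
        (∀ (γ : GL (Fin 2) K) (g : G K), Φ (T1.ratG K γ * g) = Φ g) →
        (∀ z : G K, IsArchPosScalar w z → ∀ g : G K, Φ (g * z) = Φ g) →
        (∀ k : G K, IsArchCompact w k → ∀ g : G K, Φ (g * k) = Φ g) →
        MeanValueReal Φ w →
        ∀ y : (Adl K)ˣ, IsIdeleAtInf w y → ∀ r : ℝ, 0 < r →
          InfinitePlace.Completion.extensionEmbedding w ((y : Adl K).1 w) = (r : ℂ) →
          ∀ g : G K, TrivAtInf w g →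
            wh ψ ν D Φ (tor y * g) = κ r * wh ψ ν D Φ g

/-- **A.8 KIRILLOV CUT-OFF at a finite place.**  For a level `𝔪` and an idele `y₀` at `v` there
is a finite combination `A = ∑ᵢ cᵢ R(n(uᵢ))` of right translations by unipotent elements at `v`
(depending on `ψ`, `v`, `𝔪`, `y₀` only) and a level `𝔪'` (differing from `𝔪` at `v` only) such that
for every bounded continuous automorphic `Φ` of level `U(𝔪)`: `A Φ` has level `U(𝔪')` and
`W_{AΦ}(diag(y,1) g) = W_Φ(diag(y₀,1) g)` if `y ∈ y₀ (1 + 𝔪 𝒪_v)` (for `v ∤ 𝔪`: `y ∈ y₀ 𝒪_vˣ`),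
and `= 0` otherwise (`y` at `v`, `g` trivial at `v`).  If `v ∤ 𝔪` and `y₀` is the conductor point
then `uᵢ ∈ ϖ⁻¹ 𝒪_v` (`A = 1 - q⁻¹ ∑_{r mod ϖ} R(n(r / ϖ))`).
(`W(diag(y,1) g n(u)) = ψ_v(y u) W(diag(y,1) g)`; orthogonality of the characters of
`ϖ^{-L} 𝒪_v / ϖ^{M} 𝒪_v`; `W(diag(y,1) g) = 0` unless `ψ_v(y 𝔪 𝒪_v) = 1`.) -/
def CutoffC : Prop :=
  letI : MeasurableSpace (Adl K) := borel (Adl K)
  ∀ (ψ : AddChar (Adl K) Circle) (ν : Measure (Adl K)) (D : Set (Adl K)), IsWhitData ψ ν D →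
  ∀ (v : HeightOneSpectrum (𝓞 K)) (d : ℤ), IsCondExp ψ v d →
  ∀ 𝔪 : Ideal (𝓞 K), 𝔪 ≠ ⊥ → ∀ y₀ : (Adl K)ˣ, IsIdeleAtFin v y₀ →
    ∃ (n : ℕ) (c : Fin n → ℂ) (p : Fin n → G K) (𝔪' : Ideal (𝓞 K)),
      𝔪' ≠ ⊥ ∧ 𝔪' ≤ 𝔪 ∧
      (∀ v' : HeightOneSpectrum (𝓞 K), v' ≠ v → v'.asIdeal ∣ 𝔪' → v'.asIdeal ∣ 𝔪) ∧
      (∀ i, ∃ u : v.adicCompletion K, IsUnipAt v (p i) u ∧
        (¬ v.asIdeal ∣ 𝔪 → Valued.v ((y₀ : Adl K).2 v) = WithZero.exp d →
          Valued.v u ≤ WithZero.exp (1 : ℤ))) ∧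
      ∀ Φ : G K → ℂ, Continuous Φ → (∃ C : ℝ, ∀ g : G K, ‖Φ g‖ ≤ C) →
        (∀ (γ : GL (Fin 2) K) (g : G K), Φ (T1.ratG K γ * g) = Φ g) → IsLevel 𝔪 Φ →
        IsLevel 𝔪' (lin c p Φ) ∧
        ∀ y : (Adl K)ˣ, IsIdeleAtFin v y → ∀ g : G K, TrivAtFin v g →
          (InOrbit 𝔪 v y y₀ → wh ψ ν D (lin c p Φ) (tor y * g) = wh ψ ν D Φ (tor y₀ * g)) ∧
          (¬ InOrbit 𝔪 v y y₀ → wh ψ ν D (lin c p Φ) (tor y * g) = 0)

/-- **A.9 MATCHING ON THE TORUS** (assembly of A.3 -- A.8).  For Whittaker data `(ψ, ν, D)` there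
are finite combinations `Φ = ∑ cᵢ R(gᵢ) φ`, `Φ' = ∑ c'ⱼ R(g'ⱼ) φ'` by admissible elements for `v₀`
such that `Φ - Φ'` is extendable of some level, `W_Φ ≠ 0` somewhere on the torus and
`W_{Φ - Φ'} = 0` on the torus. -/
def TorusMatchC : Prop :=
  letI : MeasurableSpace (Adl K) := borel (Adl K)
  ∀ (ψ : AddChar (Adl K) Circle) (ν : Measure (Adl K)) (D : Set (Adl K)), IsWhitData ψ ν D →
  ∀ (π π' : HeckeEigensystem K ℂ) (φ φ' : G K → ℂ),
    IsSph0CuspFormFor π φ → IsSph0CuspFormFor π' φ' → SameParity φ φ' →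
    HeckeEigensystem.AgreesAwayFromFinite π π' →
    ∀ v₀ : HeightOneSpectrum (𝓞 K), ¬ v₀.asIdeal ∣ π.level → ¬ v₀.asIdeal ∣ π'.level →
      ∃ (n n' : ℕ) (c : Fin n → ℂ) (g : Fin n → G K) (c' : Fin n' → ℂ) (g' : Fin n' → G K)
        (𝔪 : Ideal (𝓞 K)), 𝔪 ≠ ⊥ ∧
        (∀ i, IsAdm v₀ (g i)) ∧ (∀ j, IsAdm v₀ (g' j)) ∧
        IsExtendable 𝔪 (fun x => lin c g φ x - lin c' g' φ' x) ∧
        (∃ y : (Adl K)ˣ, wh ψ ν D (lin c g φ) (tor y) ≠ 0) ∧
        ∀ y : (Adl K)ˣ, wh ψ ν D (fun x => lin c g φ x - lin c' g' φ' x) (tor y) = 0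

/-! ## 4. Sub-leaves of stage B -/

/-- **B.1** The forms of A0 lie in the class `IsAut0` (a diagonal positive scalar is central and
is a product of positive scalars at the infinite places). -/
def Aut0C : Prop :=
  ∀ (π : HeckeEigensystem K ℂ) (φ : G K → ℂ), IsSph0CuspFormFor π φ → IsAut0 φ

/-- **B.2 THE PETERSSON PAIRING of a frame on `IsAut0`**: additive in the first variable,
definite, invariant under ALL right translations (`T1.UnimodC`; `D g` is a fundamental domain in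
the slab `‖det g‖ ≤ ‖det‖ < 2 ‖det g‖`, which is cut and moved back into `T1.slab` by an element
of `Z⁺`; the integrand is invariant under `GL₂(K)` and `Z⁺`). -/
def PairC : Prop :=
  ∀ F : T2.Frame K,
    (∀ f₁ f₂ h : G K → ℂ, IsAut0 f₁ → IsAut0 f₂ → IsAut0 h →
      T2.pair F (fun x => f₁ x + f₂ x) h = T2.pair F f₁ h + T2.pair F f₂ h) ∧
    (∀ f : G K → ℂ, IsAut0 f → T2.pair F f f = 0 → ∀ x : G K, f x = 0) ∧
    ∀ (g : G K) (f₁ f₂ : G K → ℂ), IsAut0 f₁ → IsAut0 f₂ →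
      T2.pair F (rt g f₁) (rt g f₂) = T2.pair F f₁ f₂

/-- **B.3 THE ADJOINT OF `T_v` IS `S_v⁻¹ T_v`** on `GL₂(𝒪_v)`-invariant functions.
(`⟨R(h) f₁, f₂⟩ = ⟨f₁, R(h⁻¹) f₂⟩`, and `y ↦ ⟨f₁, R(y) f₂⟩` is constant on the double coset
`K h⁻¹ K = z⁻¹ K h' K` (`z h⁻¹` is integral of determinant a uniformiser); both sums have `q + 1`
terms.  CAUTION: `h ↦ z h⁻¹ K` is NOT a bijection of the right cosets; use the averaging.) -/
def HeckeAdjC : Prop :=
  ∀ (F : T2.Frame K) (v : HeightOneSpectrum (𝓞 K)) (f₁ f₂ : G K → ℂ),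
    IsAut0 f₁ → IsAut0 f₂ → IsKv v f₁ → IsKv v f₂ →
    ∀ H : Finset (G K), IsHeckeCosetSystem v H → ∀ z : G K, IsScalarUniformizerAt v z →
      T2.pair F (T2.heckeSum H f₁) f₂ = T2.pair F f₁ (rt z⁻¹ (T2.heckeSum H f₂))

/-- **B.4 STRIPPING A UNIPOTENT TRANSLATION.**  For `GL₂(𝒪_v)`-invariant `f`, `f₂`, `f` a Hecke
eigenfunction at `v`, and `p = n(u)`, `p' = n(u')` at `v` with `u, u' ∈ ϖ⁻¹ 𝒪_v`:
`⟨R(p) f, R(p') f₂⟩ = κ ⟨f, f₂⟩`.  (`= ⟨R(n(u - u')) f, f₂⟩`; for `u - u'` integral `κ = 1`;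
otherwise average over `K n(u - u') K = ϖ⁻¹ K diag(ϖ², 1) K`, `q² + q` cosets, and
`T_{(2,0)} = T² - (q + 1) S`: `κ = (q a² - (q + 1) b) / (b q (q + 1))`.) -/
def HeckeStripC : Prop :=
  ∀ (F : T2.Frame K) (v : HeightOneSpectrum (𝓞 K)) (f f₂ : G K → ℂ) (a b : ℂ),
    IsAut0 f → IsAut0 f₂ → IsKv v f → IsKv v f₂ → IsHeckeEigenAt f v a b →
    ∀ (p p' : G K) (u u' : v.adicCompletion K), IsUnipAt v p u → IsUnipAt v p' u' →
      Valued.v u ≤ WithZero.exp (1 : ℤ) → Valued.v u' ≤ WithZero.exp (1 : ℤ) →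
      ∃ κ : ℂ, T2.pair F (rt p f) (rt p' f₂) = κ * T2.pair F f f₂

/-- **B.5 BOOK-KEEPING** (elements supported at `v` commute with elements trivial at `v`;
`U(𝔫)_v = GL₂(𝒪_v)` for `v ∤ 𝔫`). -/
def BookC : Prop :=
  (∀ (𝔫 : Ideal (𝓞 K)) (v : HeightOneSpectrum (𝓞 K)) (f : G K → ℂ),
    ¬ v.asIdeal ∣ 𝔫 → IsLevel 𝔫 f → IsKv v f) ∧
  (∀ (v : HeightOneSpectrum (𝓞 K)) (q : G K) (f : G K → ℂ),
    TrivAtFin v q → IsKv v f → IsKv v (rt q f)) ∧
  ∀ (v : HeightOneSpectrum (𝓞 K)) (q : G K) (f : G K → ℂ) (a b : ℂ),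
    TrivAtFin v q → IsHeckeEigenAt f v a b → IsHeckeEigenAt (rt q f) v a b

/-! ## 5. The leaves in hypothesis-parametrised form (registry rows `T2.10.xx`) -/

/-- T2.10.01 (OPTIONAL; vacuous for totally complex `K`, see `parityC_of_totCplx`). -/
def Leaf01 : Prop := ParityC K
/-- T2.10.02 (≈ 0.3k). -/
def Leaf02 : Prop := T1.T1Out K → T3.GoodCharExistsC K → WhitDataExistsC K
/-- T2.10.03 (≈ 1k). -/
def Leaf03 : Prop := T1.T1Out K → T3.CompleteNDC K → T3.HaarScaleC K → WhitDetC K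
/-- T2.10.04 (≈ 0.8k, Mathlib only). -/
def Leaf04 : Prop := WeakApproxC K
/-- T2.10.05 (≈ 2.5k). -/
def Leaf05 : Prop := T1.T1Out K → WhitDetC K → WeakApproxC K → ExtendC K
/-- T2.10.06 (≈ 0.4k). -/
def Leaf06 : Prop := T1.T1Out K → CondExistsC K
/-- T2.10.07 (≈ 2k). -/
def Leaf07 : Prop := T1.T1Out K → UnramTorusC K
/-- T2.10.08 (≥ 3k, analysis; the owner splits: mean value property ⇒ smooth ⇒ Bessel equation;
bounded solutions). -/
def Leaf08 : Prop := T1.T1Out K → ArchTorusC K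
/-- T2.10.09 (OPTIONAL, as T2.10.08). -/
def Leaf09 : Prop := T1.T1Out K → ArchTorusRealC K
/-- T2.10.10 (≈ 2k). -/
def Leaf10 : Prop := T1.T1Out K → CutoffC K
/-- T2.10.11 (≈ 3k, ASSEMBLY of the torus). -/
def Leaf11 : Prop :=
  T1.T1Out K → ExtendC K → CondExistsC K → UnramTorusC K → ArchTorusC K → ArchTorusRealC K →
    CutoffC K → TorusMatchC K
/-- T2.10.12 (≈ 0.3k). -/
def Leaf12 : Prop := Aut0C K
/-- T2.10.13 (≈ 1.5k). -/
def Leaf13 : Prop := T1.T1Out K → PairC K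
/-- T2.10.14 (≈ 1k). -/
def Leaf14 : Prop := T1.T1Out K → PairC K → HeckeAdjC K
/-- T2.10.15 (≈ 2k). -/
def Leaf15 : Prop := T1.T1Out K → PairC K → HeckeStripC K
/-- T2.10.16 (≈ 0.3k). -/
def Leaf16 : Prop := BookC K


/-! ## 6. The proved tops -/

variable {K}

theorem rt_rt (g h : G K) (f : G K → ℂ) : rt g (rt h f) = rt (g * h) f := by
  funext x
  simp [rt, mul_assoc]

theorem rt_one (f : G K → ℂ) : rt (1 : G K) f = f := by
  funext x
  simp [rt]

variable (K)

/-- `ParityC` is vacuous for a totally complex field. -/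
theorem parityC_of_totCplx (h : ∀ w : InfinitePlace K, w.IsComplex) : ParityC K := by
  intro π π' hπ hπ' _
  obtain ⟨φ, hφ⟩ := hπ
  obtain ⟨φ', hφ'⟩ := hπ'
  refine ⟨φ, φ', hφ, hφ', ?_⟩
  intro w hw
  exact absurd (h w) (InfinitePlace.not_isComplex_iff_isReal.mpr hw)

/-- **STAGE A from the torus**: `TorusMatchC` and `ExtendC` give `MatchC`. -/
theorem match_of (hW : WhitDataExistsC K) (hT : TorusMatchC K) (hE : ExtendC K) : MatchC K := by
  intro π π' φ φ' hφ hφ' hpar hag v₀ hv hv'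
  obtain ⟨ψ, ν, D, hdata⟩ := hW
  obtain ⟨n, n', c, g, c', g', 𝔪, h𝔪, ha, ha', hext, ⟨y, hy⟩, hzero⟩ :=
    hT ψ ν D hdata π π' φ φ' hφ hφ' hpar hag v₀ hv hv'
  have h0 := hE ψ ν D hdata 𝔪 h𝔪 _ hext hzero
  have heq : lin c g φ = lin c' g' φ' := by
    funext x
    exact sub_eq_zero.mp (h0 x)
  refine ⟨n, n', c, g, c', g', ha, ha', heq, ?_⟩
  by_contra hcon
  simp only [not_exists, not_not] at hcon
  apply hy
  have h1 : lin c g φ = fun _ => 0 := funext hcon
  simp [wh, h1]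

/-- **THE TOP of station T2.10**: strong multiplicity one from the three stages. -/
theorem smoAA_of_stages (hP : ParityC K) (hM : MatchC K) (hO : OrthC K) : T2.SMO_AA K := by
  intro π π' hπ hπ' hag v hv hv'
  obtain ⟨φ, φ', hφ, hφ', hpar⟩ := hP π π' hπ hπ' hag
  obtain ⟨n, n', c, g, c', g', ha, ha', heq, hne⟩ := hM π π' φ φ' hφ hφ' hpar hag v hv hv'
  exact hO π π' φ φ' hφ hφ' v hv hv' n n' c g c' g' ha ha' heq hne


/-! ### Stage B from its leaves -/

variable {K}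

attribute [local instance] Fermat.Agent.LT.T2.borelG

theorem isAut0_rt (g : G K) {f : G K → ℂ} (hf : IsAut0 f) : IsAut0 (rt g f) := by
  obtain ⟨hc, ⟨C, hC⟩, hl, hz⟩ := hf
  refine ⟨hc.comp (continuous_mul_const g), ⟨C, fun x => hC _⟩, ?_, ?_⟩
  · intro γ x
    simp only [rt, mul_assoc]
    exact hl γ (x * g)
  · intro z hzz x
    simp only [rt, mul_assoc]
    exact hz z hzz (x * g)

theorem isAut0_zero : IsAut0 (fun _ : G K => (0 : ℂ)) :=
  ⟨continuous_const, ⟨0, by simp⟩, by simp, by simp⟩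

theorem isAut0_add {f₁ f₂ : G K → ℂ} (h₁ : IsAut0 f₁) (h₂ : IsAut0 f₂) :
    IsAut0 (fun x => f₁ x + f₂ x) := by
  obtain ⟨hc₁, ⟨C₁, hC₁⟩, hl₁, hz₁⟩ := h₁
  obtain ⟨hc₂, ⟨C₂, hC₂⟩, hl₂, hz₂⟩ := h₂
  refine ⟨hc₁.add hc₂, ⟨C₁ + C₂, fun x => ?_⟩, ?_, ?_⟩
  · exact (norm_add_le _ _).trans (add_le_add (hC₁ x) (hC₂ x))
  · intro γ x
    simp only [hl₁ γ x, hl₂ γ x]
  · intro z hz x
    simp only [hz₁ z hz x, hz₂ z hz x]

theorem isAut0_smul (c : ℂ) {f : G K → ℂ} (h : IsAut0 f) : IsAut0 (fun x => c * f x) := by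
  obtain ⟨hc, ⟨C, hC⟩, hl, hz⟩ := h
  refine ⟨continuous_const.mul hc, ⟨‖c‖ * C, fun x => ?_⟩, ?_, ?_⟩
  · rw [norm_mul]
    exact mul_le_mul_of_nonneg_left (hC x) (norm_nonneg c)
  · intro γ x
    simp only [hl γ x]
  · intro z hzz x
    simp only [hz z hzz x]

theorem isAut0_sum {ι : Type} (s : Finset ι) (c : ι → ℂ) (f : ι → G K → ℂ)
    (h : ∀ i, IsAut0 (f i)) : IsAut0 (fun x => ∑ i ∈ s, c i * f i x) := by
  classical
  induction s using Finset.induction_on with
  | empty => simpa using isAut0_zero (K := K)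
  | insert a s ha ih =>
    have h1 : (fun x => ∑ i ∈ insert a s, c i * f i x)
        = fun x => c a * f a x + ∑ i ∈ s, c i * f i x := by
      funext x
      rw [Finset.sum_insert ha]
    rw [h1]
    exact isAut0_add (isAut0_smul (c a) (h a)) ih

theorem pair_smul_left (F : T2.Frame K) (c : ℂ) (f h : G K → ℂ) :
    T2.pair F (fun x => c * f x) h = c * T2.pair F f h := by
  unfold T2.pair
  simp_rw [mul_assoc]
  exact MeasureTheory.integral_const_mul _ _

theorem pair_conj (F : T2.Frame K) (f h : G K → ℂ) :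
    T2.pair F h f = (starRingEnd ℂ) (T2.pair F f h) := by
  unfold T2.pair
  rw [← integral_conj]
  congr 1
  funext x
  simp [mul_comm]

theorem pair_smul_right (F : T2.Frame K) (c : ℂ) (f h : G K → ℂ) :
    T2.pair F f (fun x => c * h x) = (starRingEnd ℂ) c * T2.pair F f h := by
  rw [pair_conj, pair_smul_left, map_mul, ← pair_conj]

theorem pair_zero_right (F : T2.Frame K) (f : G K → ℂ) :
    T2.pair F f (fun _ => 0) = 0 := by
  unfold T2.pair
  simp

theorem pair_zero_left (F : T2.Frame K) (h : G K → ℂ) :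
    T2.pair F (fun _ => 0) h = 0 := by
  unfold T2.pair
  simp

theorem pair_sum_left (F : T2.Frame K)
    (hadd : ∀ f₁ f₂ h : G K → ℂ, IsAut0 f₁ → IsAut0 f₂ → IsAut0 h →
      T2.pair F (fun x => f₁ x + f₂ x) h = T2.pair F f₁ h + T2.pair F f₂ h)
    {ι : Type} (s : Finset ι) (c : ι → ℂ) (f : ι → G K → ℂ) (hf : ∀ i, IsAut0 (f i))
    (h : G K → ℂ) (hh : IsAut0 h) :
    T2.pair F (fun x => ∑ i ∈ s, c i * f i x) h = ∑ i ∈ s, c i * T2.pair F (f i) h := by
  classical
  induction s using Finset.induction_on with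
  | empty => simpa using pair_zero_left F h
  | insert a s ha ih =>
    have h1 : (fun x => ∑ i ∈ insert a s, c i * f i x)
        = fun x => c a * f a x + ∑ i ∈ s, c i * f i x := by
      funext x
      rw [Finset.sum_insert ha]
    rw [h1, hadd _ _ h (isAut0_smul (c a) (hf a)) (isAut0_sum s c f hf) hh, ih,
      pair_smul_left, Finset.sum_insert ha]

theorem pair_sum_right (F : T2.Frame K)
    (hadd : ∀ f₁ f₂ h : G K → ℂ, IsAut0 f₁ → IsAut0 f₂ → IsAut0 h →
      T2.pair F (fun x => f₁ x + f₂ x) h = T2.pair F f₁ h + T2.pair F f₂ h)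
    {ι : Type} (s : Finset ι) (c : ι → ℂ) (f : ι → G K → ℂ) (hf : ∀ i, IsAut0 (f i))
    (h : G K → ℂ) (hh : IsAut0 h) :
    T2.pair F h (fun x => ∑ i ∈ s, c i * f i x)
      = ∑ i ∈ s, (starRingEnd ℂ) (c i) * T2.pair F h (f i) := by
  rw [pair_conj, pair_sum_left F hadd s c f hf h hh, map_sum]
  refine Finset.sum_congr rfl fun i _ => ?_
  rw [map_mul, ← pair_conj]

/-- The relations between the eigenvalues of two `GL₂(𝒪_v)`-invariant Hecke eigenfunctions
which are not orthogonal: `b₁ conj b₂ = 1` and `a₁ = conj a₂ · b₁`. -/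
theorem eig_rel (F : T2.Frame K)
    (hinv : ∀ (g : G K) (f₁ f₂ : G K → ℂ), IsAut0 f₁ → IsAut0 f₂ →
      T2.pair F (rt g f₁) (rt g f₂) = T2.pair F f₁ f₂)
    (hAdj : HeckeAdjC K) (v : HeightOneSpectrum (𝓞 K))
    (H : Finset (G K)) (hH : IsHeckeCosetSystem v H) (z : G K) (hz : IsScalarUniformizerAt v z)
    (f₁ f₂ : G K → ℂ) (a₁ b₁ a₂ b₂ : ℂ) (h₁ : IsAut0 f₁) (h₂ : IsAut0 f₂)
    (k₁ : IsKv v f₁) (k₂ : IsKv v f₂)
    (e₁ : IsHeckeEigenAt f₁ v a₁ b₁) (e₂ : IsHeckeEigenAt f₂ v a₂ b₂)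
    (hne : T2.pair F f₁ f₂ ≠ 0) :
    b₁ * (starRingEnd ℂ) b₂ = 1 ∧ a₁ = (starRingEnd ℂ) a₂ * b₁ := by
  set P := T2.pair F f₁ f₂ with hP
  set sq : ℂ := ((Real.sqrt (Ideal.absNorm v.asIdeal : ℝ) : ℝ) : ℂ) with hsq
  have hsq0 : sq ≠ 0 := by
    have h0 : (Ideal.absNorm v.asIdeal : ℝ) ≠ 0 := by
      have : Ideal.absNorm v.asIdeal ≠ 0 := by
        rw [Ne, Ideal.absNorm_eq_zero_iff]
        exact v.ne_bot
      exact_mod_cast this
    have h1 : 0 < (Ideal.absNorm v.asIdeal : ℝ) :=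
      lt_of_le_of_ne (Nat.cast_nonneg _) (Ne.symm h0)
    have h2 : Real.sqrt (Ideal.absNorm v.asIdeal : ℝ) ≠ 0 := (Real.sqrt_pos.mpr h1).ne'
    rw [hsq]
    exact_mod_cast h2
  -- the shifts
  have hz₁ : rt z f₁ = fun x => b₁ * f₁ x := by
    funext x
    exact e₁.2 z hz x
  have hz₂ : f₂ = fun x => b₂ * rt z⁻¹ f₂ x := by
    funext x
    have := e₂.2 z hz (x * z⁻¹)
    simp only [rt]
    rw [← this]
    simp [mul_assoc]
  -- `S`-relation
  have hS : T2.pair F (rt z f₁) f₂ = T2.pair F f₁ (rt z⁻¹ f₂) := by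
    have := hinv z⁻¹ (rt z f₁) f₂ (isAut0_rt z h₁) h₂
    rw [rt_rt, inv_mul_cancel, rt_one] at this
    exact this.symm
  have hS1 : b₁ * P = T2.pair F f₁ (rt z⁻¹ f₂) := by
    rw [← hS, hz₁, pair_smul_left]
  have hS2 : P = (starRingEnd ℂ) b₂ * (b₁ * P) := by
    rw [hS1, ← pair_smul_right, ← hz₂]
  have hb : b₁ * (starRingEnd ℂ) b₂ = 1 := by
    have h3 : (b₁ * (starRingEnd ℂ) b₂ - 1) * P = 0 := by
      linear_combination -hS2
    rcases mul_eq_zero.mp h3 with h4 | h4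
    · exact sub_eq_zero.mp h4
    · exact absurd h4 hne
  -- `T`-relation
  have hT₁ : T2.heckeSum H f₁ = fun x => (sq * a₁) * f₁ x := by
    funext x
    exact e₁.1 H hH x
  have hT₂ : rt z⁻¹ (T2.heckeSum H f₂) = fun x => (sq * a₂) * rt z⁻¹ f₂ x := by
    funext x
    exact e₂.1 H hH (x * z⁻¹)
  have hT := hAdj F v f₁ f₂ h₁ h₂ k₁ k₂ H hH z hz
  rw [hT₁, hT₂, pair_smul_left, pair_smul_right, ← hS1] at hT
  have hsqc : (starRingEnd ℂ) sq = sq := by
    rw [hsq]
    exact Complex.conj_ofReal _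
  rw [map_mul, hsqc] at hT
  have h5 : sq * ((a₁ - (starRingEnd ℂ) a₂ * b₁) * P) = 0 := by
    linear_combination hT
  rcases mul_eq_zero.mp h5 with h6 | h6
  · exact absurd h6 hsq0
  · rcases mul_eq_zero.mp h6 with h7 | h7
    · exact ⟨hb, sub_eq_zero.mp h7⟩
    · exact absurd h7 hne

variable (K)

/-- **STAGE B from its leaves.** -/
theorem orth_of (hA : Aut0C K) (hP : PairC K) (hAdj : HeckeAdjC K) (hS : HeckeStripC K)
    (hB : BookC K) (hH : T1.HeckeCosetC K) (hF : T2.FrameExists K) : OrthC K := by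
  intro π π' φ φ' hφ hφ' v₀ hv hv' n n' c g c' g' hadm hadm' heq hne
  obtain ⟨F⟩ := hF
  obtain ⟨hadd, hdef, hinv⟩ := hP F
  obtain ⟨hB1, hB2, hB3⟩ := hB
  obtain ⟨⟨H, hH'⟩, -, ⟨z, hz⟩⟩ := hH v₀
  have haφ := hA π φ hφ
  have haφ' := hA π' φ' hφ'
  have hl : lin c g φ = fun x => ∑ i ∈ Finset.univ, c i * rt (g i) φ x := rfl
  have hl' : lin c' g' φ' = fun x => ∑ j ∈ Finset.univ, c' j * rt (g' j) φ' x := rfl
  have hΦ : IsAut0 (lin c g φ) := by
    rw [hl]
    exact isAut0_sum _ c _ fun i => isAut0_rt (g i) haφ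
  have hΦ' : IsAut0 (lin c' g' φ') := by
    rw [hl']
    exact isAut0_sum _ c' _ fun j => isAut0_rt (g' j) haφ'
  obtain ⟨x, hx⟩ := hne
  have hPne : T2.pair F (lin c g φ) (lin c' g' φ') ≠ 0 := by
    rw [← heq]
    intro h0
    exact hx (hdef _ hΦ h0 x)
  have hexp : T2.pair F (lin c g φ) (lin c' g' φ')
      = ∑ i, c i * ∑ j, (starRingEnd ℂ) (c' j) * T2.pair F (rt (g i) φ) (rt (g' j) φ') := by
    rw [hl, pair_sum_left F hadd _ c _ (fun i => isAut0_rt (g i) haφ) _ hΦ']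
    refine Finset.sum_congr rfl fun i _ => ?_
    rw [hl', pair_sum_right F hadd _ c' _ (fun j => isAut0_rt (g' j) haφ') _
      (isAut0_rt (g i) haφ)]
  rw [hexp] at hPne
  obtain ⟨i, -, hi⟩ := Finset.exists_ne_zero_of_sum_ne_zero hPne
  obtain ⟨j, -, hj⟩ := Finset.exists_ne_zero_of_sum_ne_zero (right_ne_zero_of_mul hi)
  have hij : T2.pair F (rt (g i) φ) (rt (g' j) φ') ≠ 0 := right_ne_zero_of_mul hj
  obtain ⟨p, q, u, hg, hp, hu, hq⟩ := hadm i
  obtain ⟨p', q', u', hg', hp', hu', hq'⟩ := hadm' j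
  rw [hg, hg', ← rt_rt, ← rt_rt] at hij
  have hf : IsAut0 (rt q φ) := isAut0_rt q haφ
  have hf₂ : IsAut0 (rt q' φ') := isAut0_rt q' haφ'
  have hkf : IsKv v₀ (rt q φ) := hB2 v₀ q φ hq (hB1 π.level v₀ φ hv hφ.level_inv)
  have hkf₂ : IsKv v₀ (rt q' φ') := hB2 v₀ q' φ' hq' (hB1 π'.level v₀ φ' hv' hφ'.level_inv)
  have hef : IsHeckeEigenAt (rt q φ) v₀ (π.a v₀) (π.b v₀) :=
    hB3 v₀ q φ _ _ hq (hφ.hecke v₀ hv)
  have hef₂ : IsHeckeEigenAt (rt q' φ') v₀ (π'.a v₀) (π'.b v₀) :=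
    hB3 v₀ q' φ' _ _ hq' (hφ'.hecke v₀ hv')
  obtain ⟨κ, hκ⟩ := hS F v₀ (rt q φ) (rt q' φ') _ _ hf hf₂ hkf hkf₂ hef p p' u u' hp hp' hu hu'
  have hPff : T2.pair F (rt q φ) (rt q' φ') ≠ 0 := by
    intro h0
    apply hij
    rw [hκ, h0, mul_zero]
  have hPf₂ : T2.pair F (rt q' φ') (rt q' φ') ≠ 0 := by
    intro h0
    have h1 : rt q' φ' = fun _ => 0 := funext (hdef _ hf₂ h0)
    apply hPff
    rw [h1]
    exact pair_zero_right F _
  obtain ⟨hb, ha⟩ := eig_rel F hinv hAdj v₀ H hH' z hz _ _ _ _ _ _ hf hf₂ hkf hkf₂ hef hef₂ hPff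
  obtain ⟨hb', ha'⟩ :=
    eig_rel F hinv hAdj v₀ H hH' z hz _ _ _ _ _ _ hf₂ hf₂ hkf₂ hkf₂ hef₂ hef₂ hPf₂
  have hcb : (starRingEnd ℂ) (π'.b v₀) ≠ 0 := by
    intro h0
    rw [h0, mul_zero] at hb
    exact zero_ne_one hb
  have hbb : π.b v₀ = π'.b v₀ := by
    have h2 : (π.b v₀ - π'.b v₀) * (starRingEnd ℂ) (π'.b v₀) = 0 := by
      linear_combination hb - hb'
    rcases mul_eq_zero.mp h2 with h3 | h3
    · exact sub_eq_zero.mp h3
    · exact absurd h3 hcb
  refine ⟨?_, hbb⟩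
  rw [ha, hbb]
  exact ha'.symm

/-- **THE TOP of station T2.10 from the leaves** (the inputs `T1.T1Out`, `T3.GoodCharExistsC`,
`T3.CompleteNDC`, `T3.HaarScaleC`, `T2.FrameExists` are outputs of the towers T1, T3, T2). -/
theorem top (hT1 : T1.T1Out K) (hψ : T3.GoodCharExistsC K) (hC : T3.CompleteNDC K)
    (hHS : T3.HaarScaleC K) (hF : T2.FrameExists K)
    (l01 : _root_.Fermat.Agent.LT.T2.H941.Leaf01 K) (l02 : _root_.Fermat.Agent.LT.T2.H941.Leaf02 K) (l03 : _root_.Fermat.Agent.LT.T2.H941.Leaf03 K) (l04 : _root_.Fermat.Agent.LT.T2.H941.Leaf04 K) (l05 : _root_.Fermat.Agent.LT.T2.H941.Leaf05 K)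
    (l06 : _root_.Fermat.Agent.LT.T2.H941.Leaf06 K) (l07 : _root_.Fermat.Agent.LT.T2.H941.Leaf07 K) (l08 : _root_.Fermat.Agent.LT.T2.H941.Leaf08 K) (l09 : _root_.Fermat.Agent.LT.T2.H941.Leaf09 K) (l10 : Leaf10 K)
    (l11 : Leaf11 K) (l12 : Leaf12 K) (l13 : _root_.Fermat.Agent.LT.T2.H941.Leaf13 K) (l14 : Leaf14 K) (l15 : Leaf15 K)
    (l16 : Leaf16 K) : T2.SMO_AA K := by
  have hW : WhitDataExistsC K := l02 hT1 hψ
  have hE : ExtendC K := l05 hT1 (l03 hT1 hC hHS) l04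
  have hTM : TorusMatchC K :=
    l11 hT1 hE (l06 hT1) (l07 hT1) (l08 hT1) (l09 hT1) (l10 hT1)
  have hPair : PairC K := l13 hT1
  exact smoAA_of_stages K l01 (match_of K hW hTM hE)
    (orth_of K l12 hPair (l14 hT1 hPair) (l15 hT1 hPair) l16 hT1.heckeCoset hF)

/-- The top for a TOTALLY COMPLEX field (the case of the wall): the optional leaves
`Leaf01` (parity) and `Leaf09` (real places) are not needed. -/
theorem top_totCplx (hcx : ∀ w : InfinitePlace K, w.IsComplex)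
    (hT1 : T1.T1Out K) (hψ : T3.GoodCharExistsC K) (hC : T3.CompleteNDC K)
    (hHS : T3.HaarScaleC K) (hF : T2.FrameExists K)
    (l02 : _root_.Fermat.Agent.LT.T2.H941.Leaf02 K) (l03 : _root_.Fermat.Agent.LT.T2.H941.Leaf03 K) (l04 : _root_.Fermat.Agent.LT.T2.H941.Leaf04 K) (l05 : _root_.Fermat.Agent.LT.T2.H941.Leaf05 K)
    (l06 : _root_.Fermat.Agent.LT.T2.H941.Leaf06 K) (l07 : _root_.Fermat.Agent.LT.T2.H941.Leaf07 K) (l08 : _root_.Fermat.Agent.LT.T2.H941.Leaf08 K) (l10 : Leaf10 K)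
    (l11 : Leaf11 K) (l12 : Leaf12 K) (l13 : _root_.Fermat.Agent.LT.T2.H941.Leaf13 K) (l14 : Leaf14 K) (l15 : Leaf15 K)
    (l16 : Leaf16 K) : T2.SMO_AA K := by
  refine top K hT1 hψ hC hHS hF (parityC_of_totCplx K hcx) l02 l03 l04 l05 l06 l07 l08 ?_ l10
    l11 l12 l13 l14 l15 l16
  intro _ ψ ν D _ w hw
  exact absurd (hcx w) (InfinitePlace.not_isComplex_iff_isReal.mpr hw)

end Fermat.Agent.LT.T2.H941

end


end
-- ===== PACK-END LT/T2/H941/SmoSpec.lean

-- ===== PACK-BEGIN LT/T2/H429/Loc.lean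
section





/-!
# Row LT, tower T2, leaf T2.07 (helper429): local elements of `GL₂(𝔸_K)`

OFF-MAIN.  On the assets of helper129 (`LT/H129/{Comp,Local}.lean`: components `infCompHom129`,
`finCompHom129`, extensionality `G_ext129`, local embedding `locFin129` at a finite place) and of
helper793 (`LT/T1/H793/AdeleProj.lean`: `glMk793`), byte-identical copies.

* `infMk429 : (∀ w, GL₂(K_w)) →* GL₂(𝔸_K)`, `locInf429 w : GL₂(K_w) →* GL₂(𝔸_K)`;
* `isLocalAtInf_iff429`, `eq_locInf429_of_isLocalAtInf`;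
* `commute_of_disjoint429`: elements with disjoint supports commute;
* `central_of_scalar_comp429`: an element all of whose components are scalar matrices is central.
-/

set_option autoImplicit false
set_option linter.style.haveILetI false
set_option linter.unusedSectionVars false

open IsDedekindDomain NumberField
open Fermat.Agent.LT.H556.A0
open Fermat.Agent.LT.H129
open Fermat.Agent.LT.T1.H793

noncomputable section

namespace Fermat.Agent.LT.T2.H429

variable {K : Type} [Field K] [NumberField K]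

theorem projInf_eq429 (w : InfinitePlace K) : projInf793 w = evI129 w :=
  RingHom.ext fun _ => rfl

theorem projFin_eq429 (v : HeightOneSpectrum (𝓞 K)) : projFin793 v = evF129 v :=
  RingHom.ext fun _ => rfl

theorem glInf_eq429 (w : InfinitePlace K) (g : G K) : glInf793 w g = infCompHom129 w g := by
  apply Units.ext
  rfl

theorem glFin_eq429 (v : HeightOneSpectrum (𝓞 K)) (g : G K) :
    glFin793 v g = finCompHom129 v g := by
  apply Units.ext
  rfl

theorem one_integral429 (v : HeightOneSpectrum (𝓞 K)) (i j : Fin 2) :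
    ((1 : GL (Fin 2) (v.adicCompletion K)) : Matrix (Fin 2) (Fin 2) (v.adicCompletion K)) i j
      ∈ v.adicCompletionIntegers K := by
  rw [Units.val_one]
  by_cases hij : i = j
  · subst hij
    rw [Matrix.one_apply_eq]
    exact one_mem _
  · rw [Matrix.one_apply_ne hij]
    exact zero_mem _

theorem one_inv_integral429 (v : HeightOneSpectrum (𝓞 K)) (i j : Fin 2) :
    (((1 : GL (Fin 2) (v.adicCompletion K))⁻¹ : GL (Fin 2) (v.adicCompletion K)) :
      Matrix (Fin 2) (Fin 2) (v.adicCompletion K)) i j ∈ v.adicCompletionIntegers K := by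
  rw [inv_one]
  exact one_integral429 v i j

/-- The element with prescribed components at the infinite places, trivial at the finite
places. -/
def infMkFun429 (m : ∀ w : InfinitePlace K, GL (Fin 2) w.Completion) : G K :=
  glMk793 m (fun _ => 1) (fun v i j => one_integral429 v i j)
    (fun v i j => one_inv_integral429 v i j)

theorem infCompHom_infMkFun429 (m : ∀ w : InfinitePlace K, GL (Fin 2) w.Completion)
    (w : InfinitePlace K) : infCompHom129 w (infMkFun429 m) = m w := by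
  rw [← glInf_eq429]
  exact glInf793_glMk _ _ _ _ w

theorem finCompHom_infMkFun429 (m : ∀ w : InfinitePlace K, GL (Fin 2) w.Completion)
    (v : HeightOneSpectrum (𝓞 K)) : finCompHom129 v (infMkFun429 m) = 1 := by
  rw [← glFin_eq429]
  exact glFin793_glMk _ _ _ _ v

/-- The embedding of `∏_w GL₂(K_w)` in `GL₂(𝔸_K)`. -/
def infMk429 (K : Type) [Field K] [NumberField K] :
    (∀ w : InfinitePlace K, GL (Fin 2) w.Completion) →* G K where
  toFun := infMkFun429
  map_one' := by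
    apply G_ext129
    · intro w
      rw [infCompHom_infMkFun429, map_one]
      rfl
    · intro v
      rw [finCompHom_infMkFun429, map_one]
  map_mul' m m' := by
    apply G_ext129
    · intro w
      rw [map_mul, infCompHom_infMkFun429, infCompHom_infMkFun429, infCompHom_infMkFun429]
      rfl
    · intro v
      rw [map_mul, finCompHom_infMkFun429, finCompHom_infMkFun429, finCompHom_infMkFun429,
        mul_one]

theorem infCompHom_infMk429 (m : ∀ w : InfinitePlace K, GL (Fin 2) w.Completion)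
    (w : InfinitePlace K) : infCompHom129 w (infMk429 K m) = m w :=
  infCompHom_infMkFun429 m w

theorem finCompHom_infMk429 (m : ∀ w : InfinitePlace K, GL (Fin 2) w.Completion)
    (v : HeightOneSpectrum (𝓞 K)) : finCompHom129 v (infMk429 K m) = 1 :=
  finCompHom_infMkFun429 m v

open scoped Classical in
/-- **The local embedding** `GL₂(K_w) →* GL₂(𝔸_K)` at an infinite place. -/
def locInf429 (w : InfinitePlace K) : GL (Fin 2) w.Completion →* G K :=
  (infMk429 K).comp (MonoidHom.mulSingle (fun w : InfinitePlace K => GL (Fin 2) w.Completion) w)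

open scoped Classical in
theorem infCompHom_locInf429 (w : InfinitePlace K) (x : GL (Fin 2) w.Completion) :
    infCompHom129 w (locInf429 w x) = x := by
  show infCompHom129 w (infMk429 K (Pi.mulSingle w x)) = x
  rw [infCompHom_infMk429, Pi.mulSingle_eq_same]

open scoped Classical in
theorem infCompHom_locInf429_of_ne (w : InfinitePlace K) (x : GL (Fin 2) w.Completion)
    {w' : InfinitePlace K} (h : w' ≠ w) : infCompHom129 w' (locInf429 w x) = 1 := by
  show infCompHom129 w' (infMk429 K (Pi.mulSingle w x)) = 1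
  rw [infCompHom_infMk429, Pi.mulSingle_eq_of_ne h]

theorem finCompHom_locInf429 (w : InfinitePlace K) (x : GL (Fin 2) w.Completion)
    (v : HeightOneSpectrum (𝓞 K)) : finCompHom129 v (locInf429 w x) = 1 :=
  finCompHom_infMk429 _ v

theorem isLocalAtInf_iff429 (w : InfinitePlace K) (g : G K) :
    IsLocalAtInf w g ↔ (∀ w' : InfinitePlace K, w' ≠ w → infCompHom129 w' g = 1) ∧
      ∀ v : HeightOneSpectrum (𝓞 K), finCompHom129 v g = 1 := by
  unfold IsLocalAtInf
  simp only [trivAtInf_iff129, trivAtFin_iff129]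

theorem isLocalAtInf_locInf429 (w : InfinitePlace K) (x : GL (Fin 2) w.Completion) :
    IsLocalAtInf w (locInf429 w x) := by
  rw [isLocalAtInf_iff429]
  exact ⟨fun w' h => infCompHom_locInf429_of_ne w x h, fun v => finCompHom_locInf429 w x v⟩

/-- A local element at `w` is the local embedding of its component at `w`. -/
theorem eq_locInf429_of_isLocalAtInf {w : InfinitePlace K} {g : G K}
    (hg : IsLocalAtInf w g) : g = locInf429 w (infCompHom129 w g) := by
  rw [isLocalAtInf_iff429] at hg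
  apply G_ext129
  · intro w'
    by_cases h : w' = w
    · subst h
      rw [infCompHom_locInf429]
    · rw [hg.1 w' h, infCompHom_locInf429_of_ne w _ h]
  · intro v
    rw [hg.2 v, finCompHom_locInf429]

/-- `A0.infComp` in terms of the component. -/
theorem infComp_eq429 (w : InfinitePlace K) (g : G K) :
    infComp w g = ((infCompHom129 w g : GL (Fin 2) w.Completion) :
      Matrix (Fin 2) (Fin 2) w.Completion).map (InfinitePlace.Completion.extensionEmbedding w) :=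
  rfl

theorem infComp_mul429 (w : InfinitePlace K) (g h : G K) :
    infComp w (g * h) = infComp w g * infComp w h := by
  rw [infComp_eq429, infComp_eq429, infComp_eq429, map_mul, Units.val_mul, Matrix.map_mul]

theorem infComp_one429 (w : InfinitePlace K) : infComp w (1 : G K) = 1 := by
  rw [infComp_eq429, map_one, Units.val_one, Matrix.map_one _ (map_zero _) (map_one _)]

theorem infComp_locInf429 (w : InfinitePlace K) (x : GL (Fin 2) w.Completion) :
    infComp w (locInf429 w x) = (x : Matrix (Fin 2) (Fin 2) w.Completion).map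
      (InfinitePlace.Completion.extensionEmbedding w) := by
  rw [infComp_eq429, infCompHom_locInf429]

/-- Two elements of `GL₂(K_w)` with the same image under the embedding in `M₂(ℂ)` are equal. -/
theorem gl_ext_of_map429 {w : InfinitePlace K} {x y : GL (Fin 2) w.Completion}
    (h : (x : Matrix (Fin 2) (Fin 2) w.Completion).map
        (InfinitePlace.Completion.extensionEmbedding w)
      = (y : Matrix (Fin 2) (Fin 2) w.Completion).map
        (InfinitePlace.Completion.extensionEmbedding w)) : x = y := by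
  apply Units.ext
  refine Matrix.ext fun i j => ?_
  have := congrFun (congrFun h i) j
  exact (InfinitePlace.Completion.extensionEmbedding w).injective this

/-- Two local elements at `w` with the same matrix in `M₂(ℂ)` are equal. -/
theorem eq_of_isLocalAtInf429 {w : InfinitePlace K} {g h : G K} (hg : IsLocalAtInf w g)
    (hh : IsLocalAtInf w h) (e : infComp w g = infComp w h) : g = h := by
  rw [eq_locInf429_of_isLocalAtInf hg, eq_locInf429_of_isLocalAtInf hh]
  congr 1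
  exact gl_ext_of_map429 e

theorem isLocalAtInf_mul429 {w : InfinitePlace K} {g h : G K}
    (hg : IsLocalAtInf w g) (hh : IsLocalAtInf w h) : IsLocalAtInf w (g * h) := by
  rw [isLocalAtInf_iff429] at *
  exact ⟨fun w' hw => by rw [map_mul, hg.1 w' hw, hh.1 w' hw, mul_one],
    fun v => by rw [map_mul, hg.2 v, hh.2 v, mul_one]⟩

theorem isLocalAtInf_inv429 {w : InfinitePlace K} {g : G K}
    (hg : IsLocalAtInf w g) : IsLocalAtInf w g⁻¹ := by
  rw [isLocalAtInf_iff429] at *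
  exact ⟨fun w' hw => by rw [map_inv, hg.1 w' hw, inv_one],
    fun v => by rw [map_inv, hg.2 v, inv_one]⟩

/-! ## Commutation -/

/-- Elements with disjoint supports commute. -/
theorem commute_of_disjoint429 {g h : G K}
    (hI : ∀ w : InfinitePlace K, infCompHom129 w g = 1 ∨ infCompHom129 w h = 1)
    (hF : ∀ v : HeightOneSpectrum (𝓞 K), finCompHom129 v g = 1 ∨ finCompHom129 v h = 1) :
    g * h = h * g := by
  apply G_ext129
  · intro w
    rw [map_mul, map_mul]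
    rcases hI w with e | e <;> rw [e] <;> simp
  · intro v
    rw [map_mul, map_mul]
    rcases hF v with e | e <;> rw [e] <;> simp

theorem commute_fin_inf429 {v : HeightOneSpectrum (𝓞 K)} {w : InfinitePlace K} {h k : G K}
    (hh : IsLocalAtFin v h) (hk : IsLocalAtInf w k) : h * k = k * h := by
  rw [isLocalAtFin_iff129] at hh
  rw [isLocalAtInf_iff429] at hk
  exact commute_of_disjoint429 (fun w' => Or.inl (hh.1 w')) (fun v' => Or.inr (hk.2 v'))

theorem commute_fin_fin429 {v v' : HeightOneSpectrum (𝓞 K)} (hvv : v ≠ v') {h k : G K}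
    (hh : IsLocalAtFin v h) (hk : IsLocalAtFin v' k) : h * k = k * h := by
  rw [isLocalAtFin_iff129] at hh hk
  refine commute_of_disjoint429 (fun w' => Or.inl (hh.1 w')) (fun u => ?_)
  by_cases hu : u = v
  · subst hu
    exact Or.inr (hk.2 u hvv)
  · exact Or.inl (hh.2 u hu)

theorem commute_inf_inf429 {w w' : InfinitePlace K} (hww : w ≠ w') {h k : G K}
    (hh : IsLocalAtInf w h) (hk : IsLocalAtInf w' k) : h * k = k * h := by
  rw [isLocalAtInf_iff429] at hh hk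
  refine commute_of_disjoint429 (fun u => ?_) (fun v => Or.inl (hh.2 v))
  by_cases hu : u = w
  · subst hu
    exact Or.inr (hk.1 u hww)
  · exact Or.inl (hh.1 u hu)

/-- An element of the level group commutes with the elements supported at an infinite place. -/
theorem commute_level_inf429 {𝔫 : Ideal (𝓞 K)} {w : InfinitePlace K} {u k : G K}
    (hu : InLevelGroup 𝔫 u) (hk : IsLocalAtInf w k) : u * k = k * u := by
  rw [isLocalAtInf_iff429] at hk
  refine commute_of_disjoint429 (fun w' => Or.inl ?_) (fun v => Or.inr (hk.2 v))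
  exact (trivAtInf_iff129 w' u).1 (hu.1 w')

/-! ## Central elements -/

theorem central_of_scalar429 {R : Type*} [CommRing R] {z : GL (Fin 2) R} {c : R}
    (hz : (z : Matrix (Fin 2) (Fin 2) R) = Matrix.diagonal (fun _ => c)) (g : GL (Fin 2) R) :
    g * z = z * g := by
  apply Units.ext
  rw [Units.val_mul, Units.val_mul, hz]
  have : (Matrix.diagonal (fun _ => c) : Matrix (Fin 2) (Fin 2) R) = Matrix.scalar (Fin 2) c :=
    (Matrix.scalar_apply c).symm
  rw [this]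
  exact ((Matrix.scalar_commute c (fun r => Commute.all _ _)
    (g : Matrix (Fin 2) (Fin 2) R)).eq).symm

/-- An element all of whose components are scalar matrices is central. -/
theorem central_of_scalar_comp429 {z : G K}
    (hI : ∀ w : InfinitePlace K, ∃ c : w.Completion,
      ((infCompHom129 w z : GL (Fin 2) w.Completion) : Matrix (Fin 2) (Fin 2) w.Completion)
        = Matrix.diagonal (fun _ => c))
    (hF : ∀ v : HeightOneSpectrum (𝓞 K), ∃ c : v.adicCompletion K,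
      ((finCompHom129 v z : GL (Fin 2) (v.adicCompletion K)) :
        Matrix (Fin 2) (Fin 2) (v.adicCompletion K)) = Matrix.diagonal (fun _ => c))
    (g : G K) : g * z = z * g := by
  apply G_ext129
  · intro w
    obtain ⟨c, hc⟩ := hI w
    rw [map_mul, map_mul]
    exact central_of_scalar429 hc _
  · intro v
    obtain ⟨c, hc⟩ := hF v
    rw [map_mul, map_mul]
    exact central_of_scalar429 hc _

theorem one_eq_diagonal429 {R : Type*} [CommRing R] :
    ((1 : GL (Fin 2) R) : Matrix (Fin 2) (Fin 2) R) = Matrix.diagonal (fun _ => (1 : R)) := by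
  rw [Units.val_one, Matrix.diagonal_one]

/-- A matrix over `K_w` whose image in `M₂(ℂ)` is a scalar matrix of a real number is scalar. -/
theorem scalar_of_map_scalar429 {w : InfinitePlace K} (M : Matrix (Fin 2) (Fin 2) w.Completion)
    (c : ℂ) (h : M.map (InfinitePlace.Completion.extensionEmbedding w)
      = Matrix.diagonal (fun _ => c)) : M = Matrix.diagonal (fun _ => M 0 0) := by
  have hinj := (InfinitePlace.Completion.extensionEmbedding w).injective
  have e : ∀ i j, InfinitePlace.Completion.extensionEmbedding w (M i j)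
      = (Matrix.diagonal (fun _ => c) : Matrix (Fin 2) (Fin 2) ℂ) i j :=
    fun i j => congrFun (congrFun h i) j
  refine Matrix.ext fun i j => ?_
  by_cases hij : i = j
  · subst hij
    rw [Matrix.diagonal_apply_eq]
    apply hinj
    rw [e, e, Matrix.diagonal_apply_eq, Matrix.diagonal_apply_eq]
  · rw [Matrix.diagonal_apply_ne _ hij]
    apply hinj
    rw [e, Matrix.diagonal_apply_ne _ hij, map_zero]

end Fermat.Agent.LT.T2.H429

end

end
-- ===== PACK-END LT/T2/H429/Loc.lean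

-- ===== PACK-BEGIN LT/T5/H277/Basic.lean
section




/-!
# Row LT, tower T5, leaf T5.05 `LeafCoeff` (helper277): basics

Instances and elementary facts used by the unfolding argument:
`GL₂(K)` is countable, `GL₂(𝔸_K)` is a Borel space for the local Borel σ-algebra of T5,
the ray generator `r` is central, the module of the determinant `nd277`.
OFF-MAIN.  Mathlib + the Spec files of T1 / T5 / A0 only.
-/

set_option autoImplicit false
open IsDedekindDomain NumberField MeasureTheory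
open scoped MatrixGroups ComplexConjugate
open Fermat.Agent.LT.H556.A0 Fermat.Agent.LT.T5

noncomputable section
namespace Fermat.Agent.LT.T5.H277

variable {K : Type} [Field K] [NumberField K]

attribute [local instance] Fermat.Agent.LT.T5.instMeasurableSpaceG

/-- The Borel σ-algebra of T5 makes `GL₂(𝔸_K)` a Borel space. -/
theorem borelSpaceG277 : @BorelSpace (G K) _ (instMeasurableSpaceG) := ⟨rfl⟩

/-- A number field is countable. -/
theorem countable_numberField277 (K : Type) [Field K] [NumberField K] : Countable K := by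
  classical
  have e : K ≃ₗ[ℚ] (Fin (Module.finrank ℚ K) → ℚ) := (Module.finBasis ℚ K).equivFun
  exact e.toEquiv.countable_iff.mpr inferInstance

/-- `GL₂(K)` is countable. -/
theorem countable_GL277 (K : Type) [Field K] [NumberField K] : Countable (GL (Fin 2) K) := by
  have hK : Countable K := countable_numberField277 K
  have hM : Countable (Matrix (Fin 2) (Fin 2) K) :=
    inferInstanceAs (Countable (Fin 2 → Fin 2 → K))
  have hinj : Function.Injective (fun g : GL (Fin 2) K => (g : Matrix (Fin 2) (Fin 2) K)) :=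
    Units.val_injective
  exact hinj.countable

end Fermat.Agent.LT.T5.H277
end

end
-- ===== PACK-END LT/T5/H277/Basic.lean

-- ===== PACK-BEGIN LT/H415/AutSep.lean
section



/-!
# Row LT, asset AUT-UNIQUE (helper415): separation of places by elements of `K`

OFF-MAIN.  Mathlib only.

For a field automorphism `σ` of the number field `K` and two places `P₁`, `P₂` of `K` such that
`P₂ ≠ σ P₁`, there is `x ∈ K` with `|x|_{P₁} < 1` and `|σ x|_{P₂} ≥ 1`.  Four cases
(finite/finite, finite/infinite, infinite/finite, infinite/infinite).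
-/

set_option autoImplicit false
set_option linter.unusedSectionVars false

open IsDedekindDomain NumberField Filter Topology

noncomputable section

namespace Fermat.Agent.LT.H415

variable (K : Type*) [Field K] [NumberField K]

/-- `v'` is the image of the finite place `v` under `σ` (= `T5.PlaceRel`). -/
def FinRel (σ : K ≃+* K) (v v' : HeightOneSpectrum (𝓞 K)) : Prop :=
  v'.asIdeal = Ideal.map (NumberField.RingOfIntegers.mapRingEquiv σ) v.asIdeal

/-- The image of the infinite place `w` under `σ`: `|x|_{σ w} = |σ⁻¹ x|_w`. -/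
def infImage (σ : K ≃+* K) (w : InfinitePlace K) : InfinitePlace K :=
  w.comap (σ.symm : K →+* K)

variable {K}

theorem infImage_apply (σ : K ≃+* K) (w : InfinitePlace K) (x : K) :
    infImage K σ w (σ x) = w x := by
  unfold infImage
  rw [InfinitePlace.comap_apply]
  simp

theorem norm_infCoe415 (w : InfinitePlace K) (x : K) :
    ‖(algebraMap K (AdeleRing (𝓞 K) K) x).1 w‖ = w x := by
  have := InfinitePlace.Completion.norm_coe (v := w) ((WithAbs.equiv w.1).symm x)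
  simpa using this

theorem norm_finCoe415 (v : HeightOneSpectrum (𝓞 K)) (x : K) :
    ‖(algebraMap K (AdeleRing (𝓞 K) K) x).2 v‖ = ‖FinitePlace.embedding v x‖ := rfl

/-- finite / finite -/
theorem sep_ff415 (σ : K ≃+* K) (v v' u : HeightOneSpectrum (𝓞 K)) (hv : FinRel K σ v v')
    (hu : u ≠ v') :
    ∃ x : K, ‖(algebraMap K (AdeleRing (𝓞 K) K) x).2 v‖ < 1 ∧
      ¬ ‖(algebraMap K (AdeleRing (𝓞 K) K) (σ x)).2 u‖ < 1 := by
  have hne : ¬ v'.asIdeal ≤ u.asIdeal := by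
    intro hle
    have hmax : v'.asIdeal.IsMaximal := v'.isMaximal
    rcases hmax.eq_of_le u.isPrime.ne_top hle with h
    exact hu (HeightOneSpectrum.ext h.symm)
  obtain ⟨y, hy, hyu⟩ := Set.not_subset.1 hne
  rw [SetLike.mem_coe, hv, Ideal.mem_map_of_equiv] at hy
  obtain ⟨x, hx, rfl⟩ := hy
  refine ⟨(x : K), ?_, ?_⟩
  · rw [norm_finCoe415]
    exact (FinitePlace.norm_lt_one_iff_mem K v x).2 hx
  · rw [norm_finCoe415]
    have h1 : ‖FinitePlace.embedding u
        (algebraMap (𝓞 K) K (NumberField.RingOfIntegers.mapRingEquiv σ x))‖ = 1 :=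
      (FinitePlace.norm_eq_one_iff_notMem K u _).2 hyu
    have h2 : (algebraMap (𝓞 K) K (NumberField.RingOfIntegers.mapRingEquiv σ x)) = σ (x : K) :=
      rfl
    rw [h2] at h1
    rw [h1]
    exact lt_irrefl 1

/-- finite / infinite -/
theorem sep_fi415 (σ : K ≃+* K) (v : HeightOneSpectrum (𝓞 K)) (w : InfinitePlace K) :
    ∃ x : K, ‖(algebraMap K (AdeleRing (𝓞 K) K) x).2 v‖ < 1 ∧
      ¬ ‖(algebraMap K (AdeleRing (𝓞 K) K) (σ x)).1 w‖ < 1 := by
  refine ⟨((Ideal.absNorm v.asIdeal : ℕ) : K), ?_, ?_⟩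
  · rw [norm_finCoe415]
    have h := (FinitePlace.norm_lt_one_iff_mem K v ((Ideal.absNorm v.asIdeal : ℕ) : 𝓞 K)).2
      (Ideal.absNorm_mem v.asIdeal)
    simp at h ⊢
    exact h
  · rw [norm_infCoe415, map_natCast, not_lt]
    have h1 : w ((Ideal.absNorm v.asIdeal : ℕ) : K) = (Ideal.absNorm v.asIdeal : ℝ) := by
      have := InfinitePlace.map_intCast w (Ideal.absNorm v.asIdeal : ℤ)
      simpa using this
    rw [h1]
    exact_mod_cast (HeightOneSpectrum.one_lt_absNorm v).le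

/-- infinite / finite -/
theorem sep_if415 (σ : K ≃+* K) (w : InfinitePlace K) (v : HeightOneSpectrum (𝓞 K)) :
    ∃ x : K, ‖(algebraMap K (AdeleRing (𝓞 K) K) x).1 w‖ < 1 ∧
      ¬ ‖(algebraMap K (AdeleRing (𝓞 K) K) (σ x)).2 v‖ < 1 := by
  refine ⟨(2 : K)⁻¹, ?_, ?_⟩
  · rw [norm_infCoe415, map_inv₀]
    have h1 : w (2 : K) = 2 := by
      have := InfinitePlace.map_intCast w (2 : ℤ)
      simp only [Int.cast_ofNat] at this
      rw [this, Int.norm_eq_abs]
      norm_num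
    rw [h1]
    norm_num
  · rw [map_inv₀, map_ofNat, norm_finCoe415, map_inv₀, norm_inv, not_lt]
    have h2 : ‖FinitePlace.embedding v (algebraMap (𝓞 K) K (2 : 𝓞 K))‖ ≤ 1 :=
      FinitePlace.norm_le_one K v 2
    have h3 : (algebraMap (𝓞 K) K (2 : 𝓞 K)) = (2 : K) := map_ofNat _ 2
    rw [h3] at h2
    have h4 : (0 : ℝ) < ‖FinitePlace.embedding v (2 : K)‖ := by
      rw [norm_pos_iff]
      intro h0
      have : (2 : K) = 0 := (FinitePlace.embedding v).injective (by rw [h0, map_zero])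
      exact two_ne_zero this
    exact (one_le_inv₀ h4).2 h2

/-- infinite / infinite -/
theorem sep_ii415 (σ : K ≃+* K) (w w' : InfinitePlace K) (hw : w' ≠ infImage K σ w) :
    ∃ x : K, ‖(algebraMap K (AdeleRing (𝓞 K) K) x).1 w‖ < 1 ∧
      ¬ ‖(algebraMap K (AdeleRing (𝓞 K) K) (σ x)).1 w'‖ < 1 := by
  have hne : w ≠ w'.comap (σ : K →+* K) := by
    intro h
    apply hw
    unfold infImage
    rw [h, ← InfinitePlace.comap_comp]
    have : ((σ : K →+* K).comp (σ.symm : K →+* K)) = RingHom.id K := by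
      ext x; simp
    rw [this, InfinitePlace.comap_id]
  have hneq : ¬ w.1.IsEquiv (w'.comap (σ : K →+* K)).1 :=
    fun h => hne (InfinitePlace.eq_iff_isEquiv.2 h)
  obtain ⟨x, hx1, hx2⟩ := AbsoluteValue.exists_lt_one_one_le_of_not_isEquiv w.isNontrivial hneq
  refine ⟨x, ?_, ?_⟩
  · rw [norm_infCoe415]
    exact hx1
  · rw [norm_infCoe415, not_lt]
    have : (w'.comap (σ : K →+* K)) x = w' (σ x) := InfinitePlace.comap_apply _ _ _
    rw [← this]
    exact hx2

end Fermat.Agent.LT.H415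

end
end
-- ===== PACK-END LT/H415/AutSep.lean

-- ===== PACK-BEGIN LT/T5/H599/Ray.lean
section




/-!
# Row LT, tower T5, leaf T5.06 (helper599): the discrete group `GL₂(K) × ⟨r⟩`

OFF-MAIN.  Algebra and topology of the group `GL₂(K) × ℤ` acting on `GL₂(𝔸_K)` by
`(γ, n) • z = γ z rⁿ` (`r` the generator of the discrete central ray):

* `ray_commute599`     : `r` is central;
* `nrm599`             : `‖det g‖_𝔸`, multiplicative, `= 1` on `GL₂(K)`, `= 2` at `r`;
* `iota599`            : the homomorphism `(γ, n) ↦ γ rⁿ`;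
* `existsUnique_iota_mul_mem599` : every `z` has a unique translate in the fundamental domain;
* `finite_iota_mem599` : only finitely many `γ rⁿ` lie in a compact set.

Inputs from T1 (hypotheses): `T1.AdNormC K`, `T1.DiscreteC K`.
-/

set_option autoImplicit false

open IsDedekindDomain NumberField MeasureTheory
open scoped MatrixGroups

noncomputable section

namespace Fermat.Agent.LT.T5.H599

open Fermat.Agent.LT.H556.A0 Fermat.Agent.LT.T5

attribute [local instance] Fermat.Agent.LT.T5.instMeasurableSpaceG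

variable {K : Type} [Field K] [NumberField K]

/-! ## Countability -/

/-- A number field is countable. -/
theorem countable_field599 (K : Type) [Field K] [NumberField K] : Countable K :=
  (Module.finBasis ℚ K).equivFun.toEquiv.injective.countable

/-- `GL₂(K)` is countable. -/
theorem countable_gl599 (K : Type) [Field K] [NumberField K] : Countable (GL (Fin 2) K) := by
  have := countable_field599 K
  have : Countable (Matrix (Fin 2) (Fin 2) K) := by
    unfold Matrix; infer_instance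
  exact (Units.val_injective (α := Matrix (Fin 2) (Fin 2) K)).countable

/-! ## The ray generator is a scalar matrix -/

/-- Extensionality for adeles through the component homomorphisms. -/
theorem adl_ext599 {x y : Adl K} (h1 : ∀ w : InfinitePlace K, infHom w x = infHom w y)
    (h2 : ∀ v : HeightOneSpectrum (𝓞 K), finHom v x = finHom v y) : x = y := by
  refine Prod.ext (funext fun w => ?_) (RestrictedProduct.ext _ _ fun v => ?_)
  · exact (InfinitePlace.Completion.extensionEmbedding w).injective (h1 w)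
  · exact h2 v

/-- The entries of a ray generator: off-diagonal entries vanish and the diagonal entries agree. -/
theorem ray_entries599 {r : G K} (hr : IsRayGen r) :
    (r : Matrix (Fin 2) (Fin 2) (Adl K)) 0 1 = 0 ∧ (r : Matrix (Fin 2) (Fin 2) (Adl K)) 1 0 = 0 ∧
      (r : Matrix (Fin 2) (Fin 2) (Adl K)) 0 0 = (r : Matrix (Fin 2) (Fin 2) (Adl K)) 1 1 := by
  obtain ⟨hfin, t, _, _, hinf⟩ := hr
  have hf : ∀ (v : HeightOneSpectrum (𝓞 K)) (i j : Fin 2),
      finHom v ((r : Matrix (Fin 2) (Fin 2) (Adl K)) i j)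
        = (1 : Matrix (Fin 2) (Fin 2) (v.adicCompletion K)) i j := by
    intro v i j
    have h : finComp v r = 1 := hfin v
    rw [finComp_eq_map] at h
    exact congrFun (congrFun h i) j
  have hi : ∀ (w : InfinitePlace K) (i j : Fin 2),
      infHom w ((r : Matrix (Fin 2) (Fin 2) (Adl K)) i j)
        = (Matrix.diagonal (fun _ : Fin 2 => (t : ℂ))) i j := by
    intro w i j
    have h := hinf w
    rw [infComp_eq_map] at h
    exact congrFun (congrFun h i) j
  refine ⟨adl_ext599 (fun w => ?_) (fun v => ?_), adl_ext599 (fun w => ?_) (fun v => ?_),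
    adl_ext599 (fun w => ?_) (fun v => ?_)⟩
  · rw [hi w 0 1, map_zero]; simp
  · rw [hf v 0 1, map_zero]; simp
  · rw [hi w 1 0, map_zero]; simp
  · rw [hf v 1 0, map_zero]; simp
  · rw [hi w 0 0, hi w 1 1]; simp
  · rw [hf v 0 0, hf v 1 1]; simp

/-- A ray generator is a scalar matrix. -/
theorem ray_eq_diagonal599 {r : G K} (hr : IsRayGen r) :
    (r : Matrix (Fin 2) (Fin 2) (Adl K))
      = Matrix.diagonal (fun _ => (r : Matrix (Fin 2) (Fin 2) (Adl K)) 0 0) := by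
  obtain ⟨h01, h10, h00⟩ := ray_entries599 hr
  ext i j
  fin_cases i <;> fin_cases j
  · simp
  · simpa using h01
  · simpa using h10
  · simpa using h00.symm

/-- A ray generator is central. -/
theorem ray_commute599 {r : G K} (hr : IsRayGen r) (g : G K) : r * g = g * r := by
  apply Units.ext
  rw [Units.val_mul, Units.val_mul, ray_eq_diagonal599 hr]
  ext i j
  simp [Matrix.diagonal_mul, Matrix.mul_diagonal, mul_comm]

/-! ## The module of the determinant -/

/-- `‖det g‖_𝔸`. -/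
def nrm599 (g : G K) : ℝ := adNorm (Matrix.det (g : Matrix (Fin 2) (Fin 2) (Adl K)))

theorem mem_slab_iff599 (g : G K) : g ∈ slab K ↔ 1 ≤ nrm599 g ∧ nrm599 g < 2 := Iff.rfl

theorem nrm_eq599 (g : G K) :
    nrm599 g = T1.adNorm K ((Matrix.GeneralLinearGroup.det g : (Adl K)ˣ) : Adl K) := rfl

theorem nrm_pos599 (hAN : T1.AdNormC K) (g : G K) : 0 < nrm599 g := by
  rw [nrm_eq599]
  exact hAN.1 (Matrix.GeneralLinearGroup.det g)

theorem nrm_mul599 (hAN : T1.AdNormC K) (g h : G K) :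
    nrm599 (g * h) = nrm599 g * nrm599 h := by
  rw [nrm_eq599, nrm_eq599, nrm_eq599, map_mul]
  exact hAN.2.1 (Matrix.GeneralLinearGroup.det g) (Matrix.GeneralLinearGroup.det h)

theorem nrm_one599 (hAN : T1.AdNormC K) : nrm599 (1 : G K) = 1 := by
  have h := nrm_mul599 hAN 1 1
  rw [mul_one] at h
  have hp := nrm_pos599 hAN (1 : G K)
  have h2 : nrm599 (1 : G K) * (nrm599 (1 : G K) - 1) = 0 := by linarith
  rcases mul_eq_zero.1 h2 with h3 | h3
  · exact absurd h3 hp.ne'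
  · linarith

/-- `‖det ·‖_𝔸` as a monoid homomorphism. -/
def nrmHom599 (hAN : T1.AdNormC K) : G K →* ℝ where
  toFun := nrm599
  map_one' := nrm_one599 hAN
  map_mul' := nrm_mul599 hAN

theorem nrm_zpow599 (hAN : T1.AdNormC K) (g : G K) (n : ℤ) :
    nrm599 (g ^ n) = nrm599 g ^ n :=
  map_zpow (nrmHom599 hAN) g n

theorem nrm_rat599 (hAN : T1.AdNormC K) (γ : GL (Fin 2) K) : nrm599 (ratG γ) = 1 := by
  rw [nrm_eq599]
  have h : Matrix.GeneralLinearGroup.det (ratG γ)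
      = T1.ratUnit K (Matrix.GeneralLinearGroup.det γ) := by
    unfold ratG
    rw [Matrix.GeneralLinearGroup.map_det]
    rfl
  rw [h]
  exact hAN.2.2.1 (Matrix.GeneralLinearGroup.det γ)

theorem continuous_nrm599 (hAN : T1.AdNormC K) : Continuous (nrm599 : G K → ℝ) := by
  have h : (nrm599 : G K → ℝ)
      = (fun x : (Adl K)ˣ => T1.adNorm K (x : Adl K)) ∘
          (Matrix.GeneralLinearGroup.det : G K → (Adl K)ˣ) := funext nrm_eq599
  rw [h]
  exact hAN.2.2.2.comp Matrix.GeneralLinearGroup.continuous_det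

theorem norm_inf599 (x : Adl K) (w : InfinitePlace K) : ‖x.1 w‖ = ‖infHom w x‖ :=
  ((InfinitePlace.Completion.isometry_extensionEmbedding w).norm_map_of_map_zero
    (map_zero _) _).symm

theorem nrm_ray599 {r : G K} (hr : IsRayGen r) : nrm599 r = 2 := by
  obtain ⟨h01, h10, h00⟩ := ray_entries599 hr
  obtain ⟨hfin, t, ht, ht2, hinf⟩ := hr
  have hf : ∀ v : HeightOneSpectrum (𝓞 K),
      finHom v ((r : Matrix (Fin 2) (Fin 2) (Adl K)) 0 0) = 1 := by
    intro v
    have h : finComp v r = 1 := hfin v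
    rw [finComp_eq_map] at h
    have := congrFun (congrFun h 0) 0
    simpa using this
  have hi : ∀ w : InfinitePlace K,
      infHom w ((r : Matrix (Fin 2) (Fin 2) (Adl K)) 0 0) = (t : ℂ) := by
    intro w
    have h := hinf w
    rw [infComp_eq_map] at h
    have := congrFun (congrFun h 0) 0
    simpa using this
  have hdet : Matrix.det (r : Matrix (Fin 2) (Fin 2) (Adl K))
      = (r : Matrix (Fin 2) (Fin 2) (Adl K)) 0 0 * (r : Matrix (Fin 2) (Fin 2) (Adl K)) 0 0 := by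
    rw [Matrix.det_fin_two, h01, ← h00]
    simp
  unfold nrm599 adNorm
  rw [hdet]
  set c := (r : Matrix (Fin 2) (Fin 2) (Adl K)) 0 0 with hc
  have hfinpart : ∀ v : HeightOneSpectrum (𝓞 K), ‖(c * c).2 v‖ = 1 := by
    intro v
    have : (c * c).2 v = finHom v (c * c) := rfl
    rw [this, map_mul, hf v, mul_one, norm_one]
  have hinfpart : ∀ w : InfinitePlace K, ‖(c * c).1 w‖ = t * t := by
    intro w
    rw [norm_inf599, map_mul, hi w, norm_mul]
    simp [abs_of_pos ht]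
  simp only [hfinpart, hinfpart, finprod_one, mul_one]
  rw [Finset.prod_pow_eq_pow_sum, InfinitePlace.sum_mult_eq, ← pow_two, ← pow_mul]
  exact ht2

/-! ## The homomorphism `(γ, n) ↦ γ rⁿ` -/

/-- The index group `GL₂(K) × ℤ`. -/
abbrev Gam599 (K : Type) [Field K] [NumberField K] : Type := GL (Fin 2) K × Multiplicative ℤ

theorem countable_gam599 (K : Type) [Field K] [NumberField K] : Countable (Gam599 K) := by
  have := countable_gl599 K
  infer_instance

/-- The homomorphism `(γ, n) ↦ γ rⁿ` (`r` central). -/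
def iota599 {r : G K} (hr : IsRayGen r) : Gam599 K →* G K :=
  MonoidHom.noncommCoprod ratG (zpowersHom (G K) r) (fun γ n => by
    have h : Commute r (ratG γ) := ray_commute599 hr (ratG γ)
    exact (h.zpow_left (Multiplicative.toAdd n)).symm)

theorem iota_apply599 {r : G K} (hr : IsRayGen r) (p : Gam599 K) :
    iota599 hr p = ratG p.1 * r ^ (Multiplicative.toAdd p.2) := rfl

theorem iota_mk599 {r : G K} (hr : IsRayGen r) (γ : GL (Fin 2) K) (n : ℤ) :
    iota599 hr (γ, Multiplicative.ofAdd n) = ratG γ * r ^ n := rfl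

theorem zpow_commute599 {r : G K} (hr : IsRayGen r) (n : ℤ) (g : G K) :
    r ^ n * g = g * r ^ n :=
  ((show Commute r g from ray_commute599 hr g).zpow_left n)

theorem nrm_iota599 (hAN : T1.AdNormC K) {r : G K} (hr : IsRayGen r) (p : Gam599 K) :
    nrm599 (iota599 hr p) = 2 ^ (Multiplicative.toAdd p.2) := by
  rw [iota_apply599, nrm_mul599 hAN, nrm_rat599 hAN, one_mul, nrm_zpow599 hAN, nrm_ray599 hr]

theorem ratG_injective599 : Function.Injective (ratG : GL (Fin 2) K → G K) := by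
  intro γ γ' h
  apply Matrix.GeneralLinearGroup.ext
  intro i j
  have h1 : (ratG γ : Matrix (Fin 2) (Fin 2) (Adl K)) i j
      = (ratG γ' : Matrix (Fin 2) (Fin 2) (Adl K)) i j := by rw [h]
  unfold ratG at h1
  rw [Matrix.GeneralLinearGroup.map_apply, Matrix.GeneralLinearGroup.map_apply] at h1
  exact AdeleRing.algebraMap_injective (𝓞 K) K h1

/-- Comparison of two powers of `2` which both move `a > 0` into `[1, 2)`. -/
theorem zpow_slab_unique599 {a : ℝ} (ha : 0 < a) {m n : ℤ}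
    (hm : 1 ≤ (2 : ℝ) ^ m * a ∧ (2 : ℝ) ^ m * a < 2)
    (hn : 1 ≤ (2 : ℝ) ^ n * a ∧ (2 : ℝ) ^ n * a < 2) : m = n := by
  have key : ∀ {m n : ℤ}, 1 ≤ (2 : ℝ) ^ m * a → (2 : ℝ) ^ n * a < 2 → n ≤ m := by
    intro m n h1 h2
    have h3 : (2 : ℝ) ^ n * a < (2 : ℝ) ^ (m + 1) * a := by
      rw [zpow_add_one₀ (by norm_num : (2 : ℝ) ≠ 0)]
      nlinarith
    have h4 : (2 : ℝ) ^ n < (2 : ℝ) ^ (m + 1) := lt_of_mul_lt_mul_right h3 ha.le
    have h5 : n < m + 1 := (zpow_lt_zpow_iff_right₀ (by norm_num : (1 : ℝ) < 2)).1 h4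
    omega
  exact le_antisymm (key hn.1 hm.2) (key hm.1 hn.2)

/-- Every `z` has exactly one translate `γ z rⁿ` in the fundamental domain. -/
theorem existsUnique_iota_mul_mem599 (hAN : T1.AdNormC K) {μ : Measure (G K)} {F : Set (G K)}
    (hF : IsFrame μ F) {r : G K} (hr : IsRayGen r) (z : G K) :
    ∃! p : Gam599 K, iota599 hr p * z ∈ F := by
  have hz := nrm_pos599 hAN z
  obtain ⟨n, hn1, hn2⟩ := exists_mem_Ico_zpow hz (by norm_num : (1 : ℝ) < 2)
  have h2 : (0 : ℝ) < 2 := by norm_num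
  have hslab : r ^ (-n) * z ∈ slab K := by
    rw [mem_slab_iff599, nrm_mul599 hAN, nrm_zpow599 hAN, nrm_ray599 hr, zpow_neg]
    have hpos : (0 : ℝ) < 2 ^ n := zpow_pos h2 n
    constructor
    · rw [inv_mul_eq_div, le_div_iff₀ hpos]
      simpa using hn1
    · rw [inv_mul_eq_div, div_lt_iff₀ hpos]
      rw [zpow_add_one₀ h2.ne'] at hn2
      linarith
  obtain ⟨γ, hγ, hγu⟩ := hF.strict _ hslab
  have hnrm : ∀ p : Gam599 K, nrm599 (iota599 hr p * z)
      = 2 ^ (Multiplicative.toAdd p.2) * nrm599 z := by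
    intro p
    rw [nrm_mul599 hAN, nrm_iota599 hAN]
  refine ⟨(γ, Multiplicative.ofAdd (-n)), ?_, ?_⟩
  · show iota599 hr (γ, Multiplicative.ofAdd (-n)) * z ∈ F
    rw [iota_mk599, mul_assoc]
    exact hγ
  · rintro ⟨γ', n'⟩ hp
    have hp' : iota599 hr (γ', n') * z ∈ F := hp
    have hs1 := (mem_slab_iff599 _).1 (hF.sub hp')
    rw [hnrm] at hs1
    have hs2 := (mem_slab_iff599 _).1 hslab
    rw [nrm_mul599 hAN, nrm_zpow599 hAN, nrm_ray599 hr] at hs2
    have hnn : Multiplicative.toAdd n' = -n := zpow_slab_unique599 hz hs1 hs2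
    have hn' : n' = Multiplicative.ofAdd (-n) := by
      rw [← hnn]; rfl
    subst hn'
    have hγ' : ratG γ' * (r ^ (-n) * z) ∈ F := by
      rw [← mul_assoc, ← iota_mk599 hr]
      exact hp'
    rw [hγu γ' hγ']

/-! ## Local finiteness -/

/-- Only finitely many integers `n` have `2ⁿ` in a given interval `[a, b]`, `a > 0`. -/
theorem finite_zpow_mem599 {a b : ℝ} (ha : 0 < a) :
    {n : ℤ | a ≤ (2 : ℝ) ^ n ∧ (2 : ℝ) ^ n ≤ b}.Finite := by
  obtain ⟨k, hk⟩ := pow_unbounded_of_one_lt b (by norm_num : (1 : ℝ) < 2)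
  obtain ⟨k', hk'⟩ := exists_pow_lt_of_lt_one ha (by norm_num : (1 / 2 : ℝ) < 1)
  refine (Set.finite_Icc (-(k' : ℤ)) (k : ℤ)).subset ?_
  rintro n ⟨h1, h2⟩
  have h12 : (1 : ℝ) < 2 := by norm_num
  constructor
  · have h3 : (2 : ℝ) ^ (-(k' : ℤ)) < (2 : ℝ) ^ n := by
      refine lt_of_lt_of_le ?_ h1
      rw [zpow_neg, zpow_natCast, ← inv_pow]
      simpa using hk'
    exact ((zpow_lt_zpow_iff_right₀ h12).1 h3).le
  · have h3 : (2 : ℝ) ^ n < (2 : ℝ) ^ (k : ℤ) := by
      refine lt_of_le_of_lt h2 ?_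
      rw [zpow_natCast]
      exact hk
    exact ((zpow_lt_zpow_iff_right₀ h12).1 h3).le

/-- Only finitely many elements of `GL₂(K)` lie in a compact set. -/
theorem finite_ratG_mem599 (hD : T1.DiscreteC K) {C : Set (G K)} (hC : IsCompact C) :
    {γ : GL (Fin 2) K | ratG γ ∈ C}.Finite := by
  obtain ⟨hdisc, hclosed⟩ := hD
  have hd : IsDiscrete ((T1.Gam K : Subgroup (G K)) : Set (G K)) :=
    SetLike.isDiscrete_iff_discreteTopology.2 hdisc
  have hfin : (C ∩ (T1.Gam K : Set (G K))).Finite :=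
    (hC.inter_right hclosed).finite (hd.mono Set.inter_subset_right)
  refine (hfin.preimage (ratG_injective599 (K := K)).injOn).subset ?_
  intro γ hγ
  exact ⟨hγ, ⟨γ, rfl⟩⟩

/-- **Local finiteness**: only finitely many `γ rⁿ` lie in a compact set. -/
theorem finite_iota_mem599 (hAN : T1.AdNormC K) (hD : T1.DiscreteC K) {r : G K}
    (hr : IsRayGen r) {C : Set (G K)} (hC : IsCompact C) :
    {p : Gam599 K | iota599 hr p ∈ C}.Finite := by
  rcases C.eq_empty_or_nonempty with rfl | hne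
  · simp
  obtain ⟨x₀, hx₀, hmin⟩ := hC.exists_isMinOn hne (continuous_nrm599 hAN).continuousOn
  obtain ⟨x₁, hx₁, hmax⟩ := hC.exists_isMaxOn hne (continuous_nrm599 hAN).continuousOn
  have hS := finite_zpow_mem599 (a := nrm599 x₀) (b := nrm599 x₁) (nrm_pos599 hAN x₀)
  have hγ : ∀ n : ℤ, {γ : GL (Fin 2) K | ratG γ ∈ (fun g => g * r ^ (-n)) '' C}.Finite :=
    fun n => finite_ratG_mem599 hD (hC.image (continuous_mul_const _))
  refine (hS.biUnion (fun n _ => (hγ n).prod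
    (Set.finite_singleton (Multiplicative.ofAdd n)))).subset ?_
  rintro ⟨γ, n⟩ hp
  have hp' : iota599 hr (γ, n) ∈ C := hp
  have hn := nrm_iota599 hAN hr (γ, n)
  simp only [Set.mem_iUnion, Set.mem_prod, Set.mem_ofPred_eq, Set.mem_singleton_iff]
  refine ⟨Multiplicative.toAdd n, ⟨?_, ?_⟩, ?_, rfl⟩
  · rw [← hn]; exact hmin hp'
  · rw [← hn]; exact hmax hp'
  · refine ⟨iota599 hr (γ, n), hp', ?_⟩
    show iota599 hr (γ, n) * r ^ (-(Multiplicative.toAdd n)) = ratG γ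
    rw [iota_apply599, mul_assoc, ← zpow_add]
    simp

end Fermat.Agent.LT.T5.H599

end

end
-- ===== PACK-END LT/T5/H599/Ray.lean

-- ===== PACK-BEGIN LT/T5/H379/TraceMain.lean
section



/-!
# Row LT, tower T5, leaf T5.01 (helper379): the abstract trace identity (Mathlib only)

`abstract_trace379`: for a finite measure `ν`, `K₁, K₂ ∈ L²(ν × ν)`, an orthonormal sequence `e`
in `L²(ν)` such that the range of the operator with kernel `K₁` satisfies Parseval's identity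
for `e`: `∑ᵢ ⟨K₁ K₂ eᵢ, eᵢ⟩ = ∫∫ K₁(x,z) K₂(z,x)`, the series being (absolutely) summable.
-/

set_option autoImplicit false

open MeasureTheory ComplexConjugate
open scoped ENNReal InnerProductSpace

noncomputable section

namespace Fermat.Agent.LT.T5.H379

variable {X : Type*} [MeasurableSpace X] {ν : Measure X}

/-- The coefficient functions `cᵢ(z) = ∫ K₁(x,z) conj(eᵢ(x)) dx`. -/
def cfun379 (ν : Measure X) (K₁ : X → X → ℂ) (e : ℕ → X → ℂ) (i : ℕ) : X → ℂ :=
  kop379 ν (fun z x => K₁ x z) (fun x => conj (e i x))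

section

variable [IsFiniteMeasure ν] {K₁ K₂ : X → X → ℂ} {e : ℕ → X → ℂ}

theorem memLp_cfun379 (hK₁ : MemLp (fun p : X × X => K₁ p.1 p.2) 2 (ν.prod ν))
    (he : ∀ i, MemLp (e i) 2 ν) (i : ℕ) : MemLp (cfun379 ν K₁ e i) 2 ν :=
  memLp_kop379 (memLp_transpose379 hK₁) (memLp_conj379 (he i))

theorem memLp_phi379 (hK₁ : MemLp (fun p : X × X => K₁ p.1 p.2) 2 (ν.prod ν))
    (he : ∀ i, MemLp (e i) 2 ν) (i : ℕ) :
    MemLp (fun p : X × X => cfun379 ν K₁ e i p.1 * e i p.2) 2 (ν.prod ν) :=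
  memLp_tensor379 (memLp_cfun379 hK₁ he i) (he i)

/-- `∫ cᵢ u = ∫ (K₁ u) conj(eᵢ)`. -/
theorem int_cfun_mul379 (hK₁ : MemLp (fun p : X × X => K₁ p.1 p.2) 2 (ν.prod ν))
    (he : ∀ i, MemLp (e i) 2 ν) (i : ℕ) {u : X → ℂ} (hu : MemLp u 2 ν) :
    ∫ z, cfun379 ν K₁ e i z * u z ∂ν = ∫ x, kop379 ν K₁ u x * conj (e i x) ∂ν := by
  have h1 := bil_eq_left379 (N := fun z x => K₁ x z) (memLp_transpose379 hK₁) hu (memLp_conj379 (he i))
  have h2 := bil_eq_right379 (N := fun z x => K₁ x z) (memLp_transpose379 hK₁) hu (memLp_conj379 (he i))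
  rw [h1] at h2
  have e1 : (fun z => cfun379 ν K₁ e i z * u z)
      = fun x => u x * kop379 ν (fun z x => K₁ x z) (fun x => conj (e i x)) x := by
    funext z
    rw [mul_comm]
    rfl
  have e2 : (fun x => kop379 ν K₁ u x * conj (e i x))
      = fun z => conj (e i z) * kop379 ν (fun a b => (fun z x => K₁ x z) b a) u z := by
    funext z
    rw [mul_comm]
  rw [e1, e2]
  exact h2

/-- Inner products of the `Φᵢ`. -/
theorem inner_phi_phi379 (hK₁ : MemLp (fun p : X × X => K₁ p.1 p.2) 2 (ν.prod ν))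
    (he : ∀ i, MemLp (e i) 2 ν) (i j : ℕ) :
    ⟪(memLp_phi379 hK₁ he i).toLp _, (memLp_phi379 hK₁ he j).toLp _⟫_ℂ
      = (∫ z, cfun379 ν K₁ e j z * conj (cfun379 ν K₁ e i z) ∂ν)
        * ∫ x, e j x * conj (e i x) ∂ν := by
  rw [inner_toLp379, ← integral_prod_mul]
  congr 1
  funext p
  simp only [map_mul]
  ring

/-- `⟪Φᵢ, K₁ᵗ⟫ = ∫ cᵢ conj(cᵢ)`. -/
theorem inner_phi_y379 (hK₁ : MemLp (fun p : X × X => K₁ p.1 p.2) 2 (ν.prod ν))
    (he : ∀ i, MemLp (e i) 2 ν) (i : ℕ) :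
    ⟪(memLp_phi379 hK₁ he i).toLp _, (memLp_transpose379 hK₁).toLp _⟫_ℂ
      = ∫ z, cfun379 ν K₁ e i z * conj (cfun379 ν K₁ e i z) ∂ν := by
  rw [inner_toLp379]
  have h1 := bil_eq_left379 (N := fun z x => K₁ x z) (memLp_transpose379 hK₁)
    (memLp_conj379 (memLp_cfun379 hK₁ he i)) (memLp_conj379 (he i))
  have e1 : (fun p : X × X => K₁ p.2 p.1 * conj (cfun379 ν K₁ e i p.1 * e i p.2))
      = fun p : X × X => (fun z x => K₁ x z) p.1 p.2
          * (conj (cfun379 ν K₁ e i p.1) * conj (e i p.2)) := by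
    funext p
    simp only [map_mul]
  rw [e1, h1]
  congr 1
  funext z
  rw [mul_comm]
  rfl

/-- The test vector `conj u ⊗ conj v`. -/
theorem memLp_test379 {u v : X → ℂ} (hu : MemLp u 2 ν) (hv : MemLp v 2 ν) :
    MemLp (fun p : X × X => conj (u p.1) * conj (v p.2)) 2 (ν.prod ν) :=
  memLp_tensor379 (memLp_conj379 hu) (memLp_conj379 hv)

/-- `⟪conj u ⊗ conj v, K₁ᵗ⟫ = ∫ (K₁ u) v`. -/
theorem inner_test_y379 (hK₁ : MemLp (fun p : X × X => K₁ p.1 p.2) 2 (ν.prod ν))
    {u v : X → ℂ} (hu : MemLp u 2 ν) (hv : MemLp v 2 ν) :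
    ⟪(memLp_test379 hu hv).toLp _, (memLp_transpose379 hK₁).toLp _⟫_ℂ
      = ∫ x, kop379 ν K₁ u x * v x ∂ν := by
  rw [inner_toLp379]
  have h2 := bil_eq_right379 (N := fun z x => K₁ x z) (memLp_transpose379 hK₁) hu hv
  have e1 : (fun p : X × X => K₁ p.2 p.1 * conj (conj (u p.1) * conj (v p.2)))
      = fun p : X × X => (fun z x => K₁ x z) p.1 p.2 * (u p.1 * v p.2) := by
    funext p
    simp only [map_mul, Complex.conj_conj]
  rw [e1, h2]
  congr 1
  funext z
  rw [mul_comm]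

/-- `⟪conj u ⊗ conj v, Φᵢ⟫ = (∫ (K₁ u) conj eᵢ) (∫ eᵢ v)`. -/
theorem inner_test_phi379 (hK₁ : MemLp (fun p : X × X => K₁ p.1 p.2) 2 (ν.prod ν))
    (he : ∀ i, MemLp (e i) 2 ν) (i : ℕ) {u v : X → ℂ} (hu : MemLp u 2 ν) (hv : MemLp v 2 ν) :
    ⟪(memLp_test379 hu hv).toLp _, (memLp_phi379 hK₁ he i).toLp _⟫_ℂ
      = (∫ x, kop379 ν K₁ u x * conj (e i x) ∂ν) * ∫ x, e i x * v x ∂ν := by
  rw [inner_toLp379, ← int_cfun_mul379 hK₁ he i hu, ← integral_prod_mul]
  congr 1
  funext p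
  simp only [map_mul, Complex.conj_conj]
  ring

/-- Parseval for the range of `K₁` gives the expansion of the bilinear form of `K₁`. -/
theorem expand379 (hK₁ : MemLp (fun p : X × X => K₁ p.1 p.2) 2 (ν.prod ν))
    (he : ∀ i, MemLp (e i) 2 ν)
    (hon : ∀ i j, ∫ x, e i x * conj (e j x) ∂ν = if i = j then 1 else 0)
    (hpar : ∀ f : X → ℂ, MemLp f 2 ν →
      HasSum (fun i => ‖∫ x, kop379 ν K₁ f x * conj (e i x) ∂ν‖ ^ 2)
        (∫ x, kop379 ν K₁ f x * conj (kop379 ν K₁ f x) ∂ν).re)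
    {u v : X → ℂ} (hu : MemLp u 2 ν) (hv : MemLp v 2 ν) :
    HasSum (fun i => (∫ x, kop379 ν K₁ u x * conj (e i x) ∂ν) * ∫ x, e i x * v x ∂ν)
      (∫ x, kop379 ν K₁ u x * v x ∂ν) := by
  have hG := memLp_kop379 hK₁ hu
  have hW := memLp_conj379 hv
  have hon' : ∀ i j, ⟪(he i).toLp (e i), (he j).toLp (e j)⟫_ℂ = if i = j then 1 else 0 := by
    intro i j
    rw [inner_toLp379, hon j i]
    by_cases h : i = j
    · subst h; simp
    · rw [if_neg h, if_neg (Ne.symm h)]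
  have hpar' : HasSum (fun i => ‖⟪(he i).toLp (e i), hG.toLp _⟫_ℂ‖ ^ 2)
      (‖hG.toLp (kop379 ν K₁ u)‖ ^ 2) := by
    have h1 := hpar u hu
    have e1 : (fun i => ‖⟪(he i).toLp (e i), hG.toLp _⟫_ℂ‖ ^ 2)
        = fun i => ‖∫ x, kop379 ν K₁ u x * conj (e i x) ∂ν‖ ^ 2 := by
      funext i
      rw [inner_toLp379]
    have e2 : ‖hG.toLp (kop379 ν K₁ u)‖ ^ 2
        = (∫ x, kop379 ν K₁ u x * conj (kop379 ν K₁ u x) ∂ν).re := by
      rw [← inner_toLp379 hG hG]
      exact (inner_self_eq_norm_sq (𝕜 := ℂ) _).symm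
    rw [e1, e2]
    exact h1
  have h := parseval_expand379 hon' hpar' (hW.toLp _)
  have e3 : (fun i => ⟪hW.toLp _, (he i).toLp (e i)⟫_ℂ * ⟪(he i).toLp (e i), hG.toLp _⟫_ℂ)
      = fun i => (∫ x, kop379 ν K₁ u x * conj (e i x) ∂ν) * ∫ x, e i x * v x ∂ν := by
    funext i
    rw [inner_toLp379, inner_toLp379, mul_comm]
    simp only [Complex.conj_conj]
  have e4 : ⟪hW.toLp _, hG.toLp _⟫_ℂ = ∫ x, kop379 ν K₁ u x * v x ∂ν := by
    rw [inner_toLp379]
    simp only [Complex.conj_conj]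
  rw [e3, e4] at h
  exact h

/-- **The kernel is the sum of the `Φᵢ` in `L²` of the product.** -/
theorem hasSum_phi379 (hK₁ : MemLp (fun p : X × X => K₁ p.1 p.2) 2 (ν.prod ν))
    (he : ∀ i, MemLp (e i) 2 ν)
    (hon : ∀ i j, ∫ x, e i x * conj (e j x) ∂ν = if i = j then 1 else 0)
    (hpar : ∀ f : X → ℂ, MemLp f 2 ν →
      HasSum (fun i => ‖∫ x, kop379 ν K₁ f x * conj (e i x) ∂ν‖ ^ 2)
        (∫ x, kop379 ν K₁ f x * conj (kop379 ν K₁ f x) ∂ν).re) :
    HasSum (fun i => (memLp_phi379 hK₁ he i).toLp _)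
      ((memLp_transpose379 hK₁).toLp (fun p : X × X => K₁ p.2 p.1)) := by
  have horth : ∀ i j, i ≠ j →
      ⟪(memLp_phi379 hK₁ he i).toLp _, (memLp_phi379 hK₁ he j).toLp _⟫_ℂ = 0 := by
    intro i j hij
    rw [inner_phi_phi379 hK₁ he i j, hon j i, if_neg (Ne.symm hij), mul_zero]
  have hproj : ∀ i,
      ⟪(memLp_phi379 hK₁ he i).toLp _, (memLp_transpose379 hK₁).toLp _⟫_ℂ
        = ⟪(memLp_phi379 hK₁ he i).toLp _, (memLp_phi379 hK₁ he i).toLp _⟫_ℂ := by
    intro i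
    rw [inner_phi_y379 hK₁ he i, inner_phi_phi379 hK₁ he i i, hon i i, if_pos rfl, mul_one]
  obtain ⟨g', hg'⟩ := orth_summable379 horth hproj
  have hzero : (memLp_transpose379 hK₁).toLp (fun p : X × X => K₁ p.2 p.1) - g' = 0 := by
    apply eq_zero_of_rect379
    intro S T hS hT
    rw [← L2.inner_indicatorConstLp_one (𝕜 := ℂ) (hS.prod hT) (measure_ne_top _ _)]
    have hu : MemLp (S.indicator (fun _ => (1 : ℂ))) 2 ν :=
      memLp_indicator_const 2 hS 1 (Or.inr (measure_ne_top _ _))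
    have hv : MemLp (T.indicator (fun _ => (1 : ℂ))) 2 ν :=
      memLp_indicator_const 2 hT 1 (Or.inr (measure_ne_top _ _))
    have hind : indicatorConstLp 2 (hS.prod hT) (measure_ne_top (ν.prod ν) _) (1 : ℂ)
        = (memLp_test379 hu hv).toLp _ := by
      rw [indicatorConstLp]
      apply MemLp.toLp_congr
      filter_upwards with p
      by_cases h1 : p.1 ∈ S <;> by_cases h2 : p.2 ∈ T <;> simp [Set.indicator, h1, h2]
    rw [hind, inner_sub_right, inner_test_y379 hK₁ hu hv]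
    have h3 := hasSum_inner_right379 hg' ((memLp_test379 hu hv).toLp _)
    have e5 : (fun i => ⟪(memLp_test379 hu hv).toLp _, (memLp_phi379 hK₁ he i).toLp _⟫_ℂ)
        = fun i => (∫ x, kop379 ν K₁ (S.indicator (fun _ => (1 : ℂ))) x * conj (e i x) ∂ν)
            * ∫ x, e i x * T.indicator (fun _ => (1 : ℂ)) x ∂ν :=
      funext fun i => inner_test_phi379 hK₁ he i hu hv
    rw [e5] at h3
    rw [h3.unique (expand379 hK₁ he hon hpar hu hv), sub_self]
  rw [sub_eq_zero] at hzero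
  rw [hzero]
  exact hg'

/-- The diagonal coefficient as an inner product in `L²` of the product. -/
theorem term_eq379 (hK₁ : MemLp (fun p : X × X => K₁ p.1 p.2) 2 (ν.prod ν))
    (hK₂ : MemLp (fun p : X × X => K₂ p.1 p.2) 2 (ν.prod ν))
    (he : ∀ i, MemLp (e i) 2 ν) (i : ℕ) :
    ∫ x, kop379 ν K₁ (kop379 ν K₂ (e i)) x * conj (e i x) ∂ν
      = ⟪(memLp_conj379 hK₂).toLp _, (memLp_phi379 hK₁ he i).toLp _⟫_ℂ := by
  rw [← int_cfun_mul379 hK₁ he i (memLp_kop379 hK₂ (he i)), inner_toLp379]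
  have h1 := bil_eq_left379 hK₂ (memLp_cfun379 hK₁ he i) (he i)
  rw [← h1]
  congr 1
  funext p
  simp only [Complex.conj_conj]
  ring

/-- **T5.01, abstract form.**  Trace of a product of two Hilbert–Schmidt kernel operators,
computed in an orthonormal sequence for which the range of the first operator satisfies
Parseval's identity. -/
theorem abstract_trace379 (K₁ K₂ : X → X → ℂ) (e : ℕ → X → ℂ)
    (hK₁ : MemLp (fun p : X × X => K₁ p.1 p.2) 2 (ν.prod ν))
    (hK₂ : MemLp (fun p : X × X => K₂ p.1 p.2) 2 (ν.prod ν))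
    (he : ∀ i, MemLp (e i) 2 ν)
    (hon : ∀ i j, ∫ x, e i x * conj (e j x) ∂ν = if i = j then 1 else 0)
    (hpar : ∀ f : X → ℂ, MemLp f 2 ν →
      HasSum (fun i => ‖∫ x, kop379 ν K₁ f x * conj (e i x) ∂ν‖ ^ 2)
        (∫ x, kop379 ν K₁ f x * conj (kop379 ν K₁ f x) ∂ν).re) :
    Summable (fun i => ∫ x, kop379 ν K₁ (kop379 ν K₂ (e i)) x * conj (e i x) ∂ν) ∧
      Integrable (fun x => ∫ z, K₁ x z * K₂ z x ∂ν) ν ∧
      ∑' i, ∫ x, kop379 ν K₁ (kop379 ν K₂ (e i)) x * conj (e i x) ∂ν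
        = ∫ x, ∫ z, K₁ x z * K₂ z x ∂ν ∂ν := by
  have hy := hasSum_phi379 hK₁ he hon hpar
  have hL := memLp_conj379 hK₂
  have h1 := hasSum_inner_right379 hy (hL.toLp _)
  have e1 : (fun i => ⟪hL.toLp _, (memLp_phi379 hK₁ he i).toLp _⟫_ℂ)
      = fun i => ∫ x, kop379 ν K₁ (kop379 ν K₂ (e i)) x * conj (e i x) ∂ν :=
    funext fun i => (term_eq379 hK₁ hK₂ he i).symm
  rw [e1] at h1
  have hint : Integrable (fun p : X × X => K₁ p.1 p.2 * K₂ p.2 p.1) (ν.prod ν) :=
    hK₁.integrable_mul (memLp_transpose379 hK₂)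
  have e2 : ⟪hL.toLp _, (memLp_transpose379 hK₁).toLp (fun p : X × X => K₁ p.2 p.1)⟫_ℂ
      = ∫ x, ∫ z, K₁ x z * K₂ z x ∂ν ∂ν := by
    rw [inner_toLp379]
    have h2 := integral_prod_swap (μ := ν) (ν := ν)
      (fun p : X × X => K₁ p.1 p.2 * K₂ p.2 p.1)
    have h3 := integral_prod _ hint
    rw [← h3, ← h2]
    congr 1
    funext p
    simp only [Complex.conj_conj, Prod.fst_swap, Prod.snd_swap]
  refine ⟨h1.summable, hint.integral_prod_left, ?_⟩
  rw [h1.tsum_eq, e2]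

end

end Fermat.Agent.LT.T5.H379

end
end
-- ===== PACK-END LT/T5/H379/TraceMain.lean

-- ===== PACK-BEGIN LT/T5/H807/Discrete.lean
section





/-!
# Row LT, tower T5 (helper807, OFF-MAIN): the discrete group `GL₂(K) ⟨r⟩` in `GL₂(𝔸_K)`

From `T1.DiscreteC K` and `T1.AdNormC K`:

* `nu807 g = ‖det g‖_𝔸` is a continuous positive multiplicative function on `GL₂(𝔸_K)`, trivial
  on `GL₂(K)`, with `nu807 r = 2` for the ray generator `r` (`T5.IsRayGen`);
* the ray generator is central (`rayGen_comm807`);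
* `finite_pairs807` : for every compact `C ⊆ GL₂(𝔸_K)` the set of pairs `(γ, m)`,
  `γ ∈ GL₂(K)`, `m ∈ ℤ`, with `γ r^m ∈ C` is finite.
-/

set_option autoImplicit false

open IsDedekindDomain NumberField MeasureTheory
open scoped MatrixGroups

noncomputable section

namespace Fermat.Agent.LT.T5.H807

open Fermat.Agent.LT.H556.A0 Fermat.Agent.LT

variable {K : Type} [Field K] [NumberField K]

/-- `‖det g‖_𝔸`. -/
def nu807 (g : G K) : ℝ :=
  T1.adNorm K ((Matrix.GeneralLinearGroup.det g : (Adl K)ˣ) : Adl K)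

theorem nu807_eq (g : G K) :
    nu807 g = T1.adNorm K ((Matrix.GeneralLinearGroup.det g : (Adl K)ˣ) : Adl K) := rfl

theorem nu807_eq_T5 (g : G K) :
    nu807 g = T5.adNorm (Matrix.det (g : Matrix (Fin 2) (Fin 2) (Adl K))) := rfl

theorem nu807_pos (hN : T1.AdNormC K) (g : G K) : 0 < nu807 g := by
  rw [nu807_eq]
  exact hN.1 _

theorem nu807_mul (hN : T1.AdNormC K) (g h : G K) : nu807 (g * h) = nu807 g * nu807 h := by
  rw [nu807_eq, nu807_eq, nu807_eq, map_mul]
  exact hN.2.1 _ _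

theorem nu807_one (hN : T1.AdNormC K) : nu807 (1 : G K) = 1 := by
  have h := nu807_mul hN (1 : G K) 1
  rw [mul_one] at h
  have hp := nu807_pos hN (1 : G K)
  nlinarith

theorem nu807_inv (hN : T1.AdNormC K) (g : G K) : nu807 g⁻¹ = (nu807 g)⁻¹ := by
  have h := nu807_mul hN g g⁻¹
  rw [mul_inv_cancel, nu807_one hN] at h
  exact eq_inv_of_mul_eq_one_right h.symm

/-- `‖det‖_𝔸` as a monoid homomorphism. -/
def nuHom807 (hN : T1.AdNormC K) : G K →* ℝ where
  toFun := nu807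
  map_one' := nu807_one hN
  map_mul' := nu807_mul hN

theorem nu807_zpow (hN : T1.AdNormC K) (g : G K) (m : ℤ) : nu807 (g ^ m) = nu807 g ^ m :=
  (nuHom807 hN).map_zpow' (nu807_inv hN) g m

theorem continuous_glDet807 :
    Continuous (fun g : G K => (Matrix.GeneralLinearGroup.det g : (Adl K)ˣ)) := by
  rw [Units.continuous_iff]
  constructor
  · exact (Units.continuous_val : Continuous fun g : G K =>
      (g : Matrix (Fin 2) (Fin 2) (Adl K))).matrix_det
  · have h : Continuous fun g : G K => Matrix.det ((g⁻¹ : G K) : Matrix (Fin 2) (Fin 2) (Adl K)) :=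
      (Units.continuous_coe_inv : Continuous fun g : G K =>
        ((g⁻¹ : G K) : Matrix (Fin 2) (Fin 2) (Adl K))).matrix_det
    convert h using 2 with g
    rw [← map_inv]
    rfl

theorem continuous_nu807 (hN : T1.AdNormC K) : Continuous (nu807 : G K → ℝ) := by
  have h1 : Continuous fun x : (Adl K)ˣ => T1.adNorm K (x : Adl K) := hN.2.2.2
  have h2 := h1.comp (continuous_glDet807 (K := K))
  exact h2

theorem nu807_ratG (hN : T1.AdNormC K) (γ : GL (Fin 2) K) : nu807 (T5.ratG γ) = 1 := by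
  have h := hN.2.2.1 (Matrix.GeneralLinearGroup.det γ)
  rw [nu807_eq]
  convert h using 2
  change Matrix.det ((T5.ratG γ : G K) : Matrix (Fin 2) (Fin 2) (Adl K)) = _
  change Matrix.det ((algebraMap K (Adl K)).mapMatrix (γ : Matrix (Fin 2) (Fin 2) K)) = _
  rw [← RingHom.map_det]
  rfl


/-! ## The ray generator -/

theorem adl_ext807 {x y : Adl K} (h1 : ∀ w : InfinitePlace K, x.1 w = y.1 w)
    (h2 : ∀ v : HeightOneSpectrum (𝓞 K), x.2 v = y.2 v) : x = y :=
  Prod.ext (funext h1) (RestrictedProduct.ext _ _ h2)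

omit [NumberField K] in
theorem extEmb_injective807 (w : InfinitePlace K) :
    Function.Injective (InfinitePlace.Completion.extensionEmbedding w) :=
  (InfinitePlace.Completion.extensionEmbedding w).injective

omit [NumberField K] in
theorem norm_extEmb807 (w : InfinitePlace K) (x : w.Completion) :
    ‖InfinitePlace.Completion.extensionEmbedding w x‖ = ‖x‖ :=
  (InfinitePlace.Completion.isometry_extensionEmbedding w).norm_map_of_map_zero (map_zero _) x

variable {r : G K}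

theorem rayGen_fin807 (hr : T5.IsRayGen r) (v : HeightOneSpectrum (𝓞 K)) (i j : Fin 2) :
    ((r : Matrix (Fin 2) (Fin 2) (Adl K)) i j).2 v = if i = j then 1 else 0 := by
  have h := congrFun (congrFun (hr.1 v) i) j
  rw [Matrix.one_apply] at h
  exact h

theorem rayGen_inf807 (hr : T5.IsRayGen r) :
    ∃ t : ℝ, 0 < t ∧ t ^ (2 * Module.finrank ℚ K) = 2 ∧
      ∀ (w : InfinitePlace K) (i j : Fin 2),
        InfinitePlace.Completion.extensionEmbedding w
          (((r : Matrix (Fin 2) (Fin 2) (Adl K)) i j).1 w) = if i = j then (t : ℂ) else 0 := by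
  obtain ⟨t, ht, ht2, h⟩ := hr.2
  refine ⟨t, ht, ht2, fun w i j => ?_⟩
  have h' := congrFun (congrFun (h w) i) j
  rw [Matrix.diagonal_apply] at h'
  exact h'

/-- The ray generator is a scalar matrix. -/
theorem rayGen_scalar807 (hr : T5.IsRayGen r) :
    (r : Matrix (Fin 2) (Fin 2) (Adl K))
      = Matrix.diagonal (fun _ => (r : Matrix (Fin 2) (Fin 2) (Adl K)) 0 0) := by
  obtain ⟨t, -, -, h⟩ := rayGen_inf807 hr
  ext i j
  rw [Matrix.diagonal_apply]
  by_cases hij : i = j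
  · subst hij
    rw [if_pos rfl]
    apply adl_ext807
    · intro w
      apply extEmb_injective807 w
      rw [h w i i, h w 0 0]
      simp
    · intro v
      rw [rayGen_fin807 hr v i i, rayGen_fin807 hr v 0 0]
      simp
  · rw [if_neg hij]
    apply adl_ext807
    · intro w
      apply extEmb_injective807 w
      rw [h w i j, if_neg hij]
      change (0 : ℂ) = InfinitePlace.Completion.extensionEmbedding w (0 : w.Completion)
      rw [map_zero]
    · intro v
      rw [rayGen_fin807 hr v i j, if_neg hij]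
      rfl

/-- The ray generator is central. -/
theorem rayGen_comm807 (hr : T5.IsRayGen r) (g : G K) : r * g = g * r := by
  apply Units.ext
  change (r : Matrix (Fin 2) (Fin 2) (Adl K)) * (g : Matrix (Fin 2) (Fin 2) (Adl K))
    = (g : Matrix (Fin 2) (Fin 2) (Adl K)) * (r : Matrix (Fin 2) (Fin 2) (Adl K))
  rw [rayGen_scalar807 hr]
  ext i j
  simp [Matrix.diagonal_mul, Matrix.mul_diagonal, mul_comm]

theorem rayGen_zpow_comm807 (hr : T5.IsRayGen r) (m : ℤ) (g : G K) : r ^ m * g = g * r ^ m :=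
  ((Commute.zpow_left (show Commute r g from rayGen_comm807 hr g) m)).eq

/-- `‖det r‖_𝔸 = 2`. -/
theorem nu807_rayGen (hr : T5.IsRayGen r) : nu807 r = 2 := by
  obtain ⟨t, ht, ht2, h⟩ := rayGen_inf807 hr
  rw [nu807_eq_T5]
  unfold T5.adNorm
  rw [Matrix.det_fin_two]
  have hfin : ∀ v : HeightOneSpectrum (𝓞 K),
      ‖(((r : Matrix (Fin 2) (Fin 2) (Adl K)) 0 0 * (r : Matrix (Fin 2) (Fin 2) (Adl K)) 1 1
        - (r : Matrix (Fin 2) (Fin 2) (Adl K)) 0 1
          * (r : Matrix (Fin 2) (Fin 2) (Adl K)) 1 0 : Adl K)).2 v‖ = 1 := by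
    intro v
    have e : (((r : Matrix (Fin 2) (Fin 2) (Adl K)) 0 0 * (r : Matrix (Fin 2) (Fin 2) (Adl K)) 1 1
        - (r : Matrix (Fin 2) (Fin 2) (Adl K)) 0 1
          * (r : Matrix (Fin 2) (Fin 2) (Adl K)) 1 0 : Adl K)).2 v = 1 := by
      change ((r : Matrix (Fin 2) (Fin 2) (Adl K)) 0 0).2 v
          * ((r : Matrix (Fin 2) (Fin 2) (Adl K)) 1 1).2 v
        - ((r : Matrix (Fin 2) (Fin 2) (Adl K)) 0 1).2 v
          * ((r : Matrix (Fin 2) (Fin 2) (Adl K)) 1 0).2 v = 1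
      rw [rayGen_fin807 hr v 0 0, rayGen_fin807 hr v 1 1, rayGen_fin807 hr v 0 1,
        rayGen_fin807 hr v 1 0]
      simp
    rw [e, norm_one]
  have hinf : ∀ w : InfinitePlace K,
      ‖(((r : Matrix (Fin 2) (Fin 2) (Adl K)) 0 0 * (r : Matrix (Fin 2) (Fin 2) (Adl K)) 1 1
        - (r : Matrix (Fin 2) (Fin 2) (Adl K)) 0 1
          * (r : Matrix (Fin 2) (Fin 2) (Adl K)) 1 0 : Adl K)).1 w‖ = t ^ 2 := by
    intro w
    rw [← norm_extEmb807 w]
    have e : InfinitePlace.Completion.extensionEmbedding w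
        ((((r : Matrix (Fin 2) (Fin 2) (Adl K)) 0 0 * (r : Matrix (Fin 2) (Fin 2) (Adl K)) 1 1
        - (r : Matrix (Fin 2) (Fin 2) (Adl K)) 0 1
          * (r : Matrix (Fin 2) (Fin 2) (Adl K)) 1 0 : Adl K)).1 w) = ((t : ℂ)) ^ 2 := by
      change InfinitePlace.Completion.extensionEmbedding w
        (((r : Matrix (Fin 2) (Fin 2) (Adl K)) 0 0).1 w
          * ((r : Matrix (Fin 2) (Fin 2) (Adl K)) 1 1).1 w
        - ((r : Matrix (Fin 2) (Fin 2) (Adl K)) 0 1).1 w
          * ((r : Matrix (Fin 2) (Fin 2) (Adl K)) 1 0).1 w) = _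
      rw [map_sub, map_mul, map_mul, h w 0 0, h w 1 1, h w 0 1, h w 1 0]
      simp [sq]
    rw [e, norm_pow, Complex.norm_real, Real.norm_of_nonneg ht.le]
  rw [finprod_eq_one_of_forall_eq_one hfin, mul_one]
  simp_rw [hinf]
  rw [Finset.prod_pow_eq_pow_sum, InfinitePlace.sum_mult_eq, ← pow_mul]
  exact ht2

theorem nu807_ratG_mul_zpow (hN : T1.AdNormC K) (hr : T5.IsRayGen r) (γ : GL (Fin 2) K)
    (m : ℤ) : nu807 (T5.ratG γ * r ^ m) = (2 : ℝ) ^ m := by
  rw [nu807_mul hN, nu807_ratG hN, one_mul, nu807_zpow hN, nu807_rayGen hr]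

/-! ## Finiteness -/

theorem ratG_injective807 : Function.Injective (T5.ratG : GL (Fin 2) K → G K) := by
  intro γ δ h
  apply Units.ext
  have h' : ((T5.ratG γ : G K) : Matrix (Fin 2) (Fin 2) (Adl K))
      = ((T5.ratG δ : G K) : Matrix (Fin 2) (Fin 2) (Adl K)) := by rw [h]
  change (γ : Matrix (Fin 2) (Fin 2) K).map (algebraMap K (Adl K))
    = (δ : Matrix (Fin 2) (Fin 2) K).map (algebraMap K (Adl K)) at h'
  exact Matrix.map_injective (NumberField.AdeleRing.algebraMap_injective (𝓞 K) K) h'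

/-- `GL₂(K)` meets every compact set in a finite set. -/
theorem finite_ratG_mem807 (hD : T1.DiscreteC K) {C : Set (G K)} (hC : IsCompact C) :
    {γ : GL (Fin 2) K | T5.ratG γ ∈ C}.Finite := by
  have h1 : IsCompact ((T1.Gam K : Set (G K)) ∩ C) := hC.inter_left hD.2
  have h2 : IsDiscrete ((T1.Gam K : Set (G K)) ∩ C) :=
    (isDiscrete_iff_discreteTopology.2 hD.1).mono Set.inter_subset_left
  have h3 := h1.finite h2
  have h4 : {γ : GL (Fin 2) K | T5.ratG γ ∈ C}
      ⊆ (T5.ratG : GL (Fin 2) K → G K) ⁻¹' ((T1.Gam K : Set (G K)) ∩ C) := by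
    intro γ hγ
    exact ⟨⟨γ, rfl⟩, hγ⟩
  exact (h3.preimage (ratG_injective807.injOn)).subset h4

/-- **`GL₂(K) ⟨r⟩` meets every compact set in a finite set.** -/
theorem finite_pairs807 (hD : T1.DiscreteC K) (hN : T1.AdNormC K) (hr : T5.IsRayGen r)
    {C : Set (G K)} (hC : IsCompact C) :
    {p : GL (Fin 2) K × ℤ | T5.ratG p.1 * r ^ p.2 ∈ C}.Finite := by
  rcases C.eq_empty_or_nonempty with rfl | hne
  · simp
  -- bounds for `‖det‖` on `C`
  obtain ⟨x₀, -, hmin⟩ := hC.exists_isMinOn hne (continuous_nu807 hN).continuousOn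
  obtain ⟨x₁, -, hmax⟩ := hC.exists_isMaxOn hne (continuous_nu807 hN).continuousOn
  have ha : 0 < nu807 x₀ := nu807_pos hN x₀
  obtain ⟨N₁, hN₁⟩ := pow_unbounded_of_one_lt (nu807 x₁) (one_lt_two : (1 : ℝ) < 2)
  obtain ⟨N₂, hN₂⟩ := exists_pow_lt_of_lt_one ha (by norm_num : (2 : ℝ)⁻¹ < 1)
  have hm : ∀ p : GL (Fin 2) K × ℤ, T5.ratG p.1 * r ^ p.2 ∈ C →
      p.2 ∈ Set.Ioo (-(N₂ : ℤ)) (N₁ : ℤ) := by
    intro p hp
    have e := nu807_ratG_mul_zpow hN hr p.1 p.2
    have h1 : nu807 x₀ ≤ (2 : ℝ) ^ p.2 := by rw [← e]; exact hmin hp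
    have h2 : (2 : ℝ) ^ p.2 ≤ nu807 x₁ := by rw [← e]; exact hmax hp
    constructor
    · have : (2 : ℝ) ^ (-(N₂ : ℤ)) < (2 : ℝ) ^ p.2 := by
        have e2 : (2 : ℝ) ^ (-(N₂ : ℤ)) = (2 : ℝ)⁻¹ ^ N₂ := by
          rw [zpow_neg, zpow_natCast, inv_pow]
        rw [e2]
        exact lt_of_lt_of_le hN₂ h1
      exact (zpow_lt_zpow_iff_right₀ (one_lt_two : (1 : ℝ) < 2)).1 this
    · have : (2 : ℝ) ^ p.2 < (2 : ℝ) ^ (N₁ : ℤ) := by
        rw [zpow_natCast]
        exact lt_of_le_of_lt h2 hN₁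
      exact (zpow_lt_zpow_iff_right₀ (one_lt_two : (1 : ℝ) < 2)).1 this
  have hfin : ∀ m : ℤ, {γ : GL (Fin 2) K | T5.ratG γ * r ^ m ∈ C}.Finite := by
    intro m
    have hc : IsCompact ((fun g : G K => g * (r ^ m)⁻¹) '' C) :=
      hC.image (continuous_mul_const _)
    refine (finite_ratG_mem807 hD hc).subset ?_
    intro γ hγ
    exact ⟨_, hγ, by simp [mul_assoc]⟩
  have hsub : {p : GL (Fin 2) K × ℤ | T5.ratG p.1 * r ^ p.2 ∈ C}
      ⊆ ⋃ m ∈ Set.Ioo (-(N₂ : ℤ)) (N₁ : ℤ),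
          (fun γ : GL (Fin 2) K => (γ, m)) '' {γ : GL (Fin 2) K | T5.ratG γ * r ^ m ∈ C} := by
    intro p hp
    simp only [Set.mem_iUnion, Set.mem_image, Set.mem_ofPred_eq]
    exact ⟨p.2, hm p hp, p.1, hp, rfl⟩
  exact ((Set.finite_Ioo _ _).biUnion fun m _ => (hfin m).image _).subset hsub

end Fermat.Agent.LT.T5.H807

end

end
-- ===== PACK-END LT/T5/H807/Discrete.lean

-- ===== PACK-BEGIN LT/T1/H671/HaarArch.lean
section





/-!
# Row LT, tower T1, shared prerequisite (helper671): the module at the infinite places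

OFF-MAIN.  `distribHaarChar ℝ x = ‖x‖`, `distribHaarChar ℂ z = ‖z‖ ^ 2`, the completion of a number
field at an infinite place `w` has module `‖x‖ ^ w.mult`, and the infinite adele ring has module
`∏ w, ‖x w‖ ^ w.mult`.
-/

set_option autoImplicit false

open MeasureTheory MeasureTheory.Measure TopologicalSpace NumberField
open scoped NNReal Pointwise ENNReal

namespace Fermat.Agent.LT.T1.H671

/-- The module of `ℝ`. -/
theorem distribHaarChar_real671 (x : ℝˣ) : distribHaarChar ℝ x = ‖(x : ℝ)‖₊ := by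
  obtain ⟨K₁⟩ := (inferInstance : Nonempty (PositiveCompacts ℝ))
  have hK₁ : (volume : Measure ℝ) (K₁ : Set ℝ) ≠ 0 :=
    (measure_pos_of_nonempty_interior _ K₁.interior_nonempty).ne'
  have hK₁' : (volume : Measure ℝ) (K₁ : Set ℝ) ≠ ∞ := K₁.isCompact.measure_lt_top.ne
  refine distribHaarChar_eq_of_measure_smul_eq_mul (μ := (volume : Measure ℝ))
    (s := (K₁ : Set ℝ)) hK₁ hK₁' ?_
  have h1 : x • (K₁ : Set ℝ) = (x : ℝ) • (K₁ : Set ℝ) := by
    ext z
    simp [Set.mem_smul_set, Units.smul_def]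
  rw [h1, Measure.addHaar_smul]
  congr 1
  simp only [Module.finrank_self, pow_one]
  rw [← Real.norm_eq_abs, ofReal_norm, enorm_eq_nnnorm]

/-- The module of `ℂ`. -/
theorem distribHaarChar_complex671 (z : ℂˣ) : distribHaarChar ℂ z = ‖(z : ℂ)‖₊ ^ 2 := by
  obtain ⟨K₁⟩ := (inferInstance : Nonempty (PositiveCompacts ℂ))
  have hK₁ : (volume : Measure ℂ) (K₁ : Set ℂ) ≠ 0 :=
    (measure_pos_of_nonempty_interior _ K₁.interior_nonempty).ne'
  have hK₁' : (volume : Measure ℂ) (K₁ : Set ℂ) ≠ ∞ := K₁.isCompact.measure_lt_top.ne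
  refine distribHaarChar_eq_of_measure_smul_eq_mul (μ := (volume : Measure ℂ))
    (s := (K₁ : Set ℂ)) hK₁ hK₁' ?_
  have h1 : z • (K₁ : Set ℂ) = (LinearMap.mul ℝ ℂ (z : ℂ)) '' (K₁ : Set ℂ) := by
    ext w
    simp [Set.mem_smul_set, Units.smul_def]
  rw [h1, Measure.addHaar_image_linearMap]
  congr 1
  have h2 : LinearMap.det (LinearMap.mul ℝ ℂ (z : ℂ)) = Complex.normSq (z : ℂ) := by
    rw [← Algebra.norm_complex_apply, Algebra.norm_apply]
    rfl
  rw [h2, abs_of_nonneg (Complex.normSq_nonneg _), Complex.normSq_eq_norm_sq]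
  rw [ENNReal.coe_pow, ← enorm_eq_nnnorm, ← ofReal_norm,
    ENNReal.ofReal_pow (norm_nonneg _)]

section Completion

variable {K : Type*} [Field K] [NumberField K]

/-- The module of the completion of a number field at an infinite place. -/
theorem distribHaarChar_infCompletion671 (w : InfinitePlace K) (x : (w.Completion)ˣ) :
    distribHaarChar w.Completion x = ‖(x : w.Completion)‖₊ ^ w.mult := by
  have := Fermat.Agent.LT.H11.SC.secondCountableTopology_infCompletion_h11 K w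
  rcases w.isReal_or_isComplex with hw | hw
  · rw [distribHaarChar_ringEquiv671 (InfinitePlace.Completion.ringEquivRealOfIsReal hw)
      (InfinitePlace.Completion.isometryEquivRealOfIsReal hw).continuous
      (InfinitePlace.Completion.isometryEquivRealOfIsReal hw).symm.continuous,
      distribHaarChar_real671]
    have hm : w.mult = 1 := by simp [InfinitePlace.mult, hw]
    rw [hm, pow_one]
    have := (InfinitePlace.Completion.isometryEquivRealOfIsReal hw).isometry.nnnorm_map_of_map_zero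
      (map_zero (InfinitePlace.Completion.ringEquivRealOfIsReal hw)) (x : w.Completion)
    exact this
  · rw [distribHaarChar_ringEquiv671 (InfinitePlace.Completion.ringEquivComplexOfIsComplex hw)
      (InfinitePlace.Completion.isometryEquivComplexOfIsComplex hw).continuous
      (InfinitePlace.Completion.isometryEquivComplexOfIsComplex hw).symm.continuous,
      distribHaarChar_complex671]
    have hm : w.mult = 2 := by
      simp [InfinitePlace.mult, InfinitePlace.not_isReal_iff_isComplex.2 hw]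
    rw [hm]
    congr 1
    have := (InfinitePlace.Completion.isometryEquivComplexOfIsComplex
      hw).isometry.nnnorm_map_of_map_zero
      (map_zero (InfinitePlace.Completion.ringEquivComplexOfIsComplex hw)) (x : w.Completion)
    exact this

/-- The module of the infinite adele ring. -/
theorem distribHaarChar_infiniteAdeleRing671 (x : (InfiniteAdeleRing K)ˣ) :
    distribHaarChar (InfiniteAdeleRing K) x
      = ∏ w : InfinitePlace K, ‖(x : InfiniteAdeleRing K) w‖₊ ^ w.mult := by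
  have := fun w : InfinitePlace K =>
    Fermat.Agent.LT.H11.SC.secondCountableTopology_infCompletion_h11 K w
  have h := distribHaarChar_pi671 (A := fun w : InfinitePlace K => w.Completion) x
  refine Eq.trans h ?_
  refine Finset.prod_congr rfl fun w _ => ?_
  rw [distribHaarChar_infCompletion671]
  rfl

end Completion

end Fermat.Agent.LT.T1.H671

end
-- ===== PACK-END LT/T1/H671/HaarArch.lean

-- ===== PACK-BEGIN LT/T7/H362/AbelLimit.lean
section



/-!
# Row LT, tower T7, leaf T7.14.2 (`AbelC`), part 3: the Abelian step -- helper362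

OFF-MAIN.  Mathlib only.  `abel_core362`: for a countable index set `ι`, `N : ι → ℝ`,
`c : ι → ℂ` with `c i = 0 ∨ 1 ≤ N i`, `∑ ‖c i‖ N i ^ (-s) < ∞` (`s > 1`), `G` a weight:
if `Y · ∑ c i G(Y N i) → L` as `Y → 0⁺` then `(s - 1) ∑ c i N i ^ (-s) → L / m` as `s → 1⁺`,
`m = ∫₀^∞ G > 0`.

`D(s) M(s) = ∫₀^∞ S(Y) Y^{s-1} dY` (`hasSum_mellin362`); the integral over `(0, Y₀]` is
`L Y₀^{s-1} / (s-1)` up to `ε Y₀^{s-1} / (s-1)`; the integral over `(Y₀, ∞)` is bounded
uniformly in `s ∈ (1, 1 + η/2]`; `M(s) → m` (`Wt362.mellin_tendsto`).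
-/

set_option autoImplicit false

open MeasureTheory Filter Topology Set

noncomputable section

namespace Fermat.Agent.LT.T7.H362

variable {G : ℝ → ℝ} {C η : ℝ} {ι : Type*} {N : ι → ℝ} {c : ι → ℂ}

/-- The local estimate. -/
theorem abel_local362 [Countable ι] (h : Wt362 G C η) (hcN : ∀ i, c i = 0 ∨ 1 ≤ N i)
    (hsum : ∀ s : ℝ, 1 < s → Summable fun i => ‖c i‖ * N i ^ (-s)) {L : ℂ} {ε Y₀ : ℝ}
    (hY₀ : 0 < Y₀)
    (hnear : ∀ Y ∈ Ioc 0 Y₀, ‖(Y : ℂ) * (∑' i, c i * ((G (Y * N i) : ℝ) : ℂ)) - L‖ ≤ ε)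
    {s : ℝ} (hs1 : 1 < s) (hs2 : s ≤ 1 + η / 2) :
    ‖((s - 1 : ℝ) : ℂ)
          * (∫ Y in Ioi 0, (∑' i, c i * ((G (Y * N i) : ℝ) : ℂ)) * ((Y ^ (s - 1) : ℝ) : ℂ))
        - L‖
      ≤ ε * Y₀ ^ (s - 1) + ‖L‖ * |Y₀ ^ (s - 1) - 1|
        + (s - 1) * ((C + G Y₀) * (∑' i, ‖c i‖ * N i ^ (-(1 + η)))
            * ∫ Y in Ioi Y₀, (Y ^ (-(1 + η)) + Y ^ (-(1 + η / 2)))) := by
  set S : ℝ → ℂ := fun Y => ∑' i, c i * ((G (Y * N i) : ℝ) : ℂ) with hS
  set A : ℝ := ∑' i, ‖c i‖ * N i ^ (-(1 + η)) with hA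
  have hη := h.eta_pos
  have hs0 : 0 < s - 1 := by linarith
  have hA0 : 0 ≤ A := by
    refine tsum_nonneg fun i => ?_
    rcases hcN i with hc | hn
    · simp [hc]
    · exact mul_nonneg (norm_nonneg _) (Real.rpow_nonneg (by linarith) _)
  have hC1 : 0 ≤ (C + G Y₀) * A :=
    mul_nonneg (add_nonneg h.C_nonneg (h.nonneg Y₀ hY₀)) hA0
  -- measurability
  have hmeas : AEStronglyMeasurable (fun Y : ℝ => S Y * ((Y ^ (s - 1) : ℝ) : ℂ))
      (volume.restrict (Ioi 0)) :=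
    (aesm_sum362 h hcN hsum).mul (Complex.continuous_ofReal.comp_aestronglyMeasurable
      (measurable_id.pow_const (s - 1)).aestronglyMeasurable)
  -- the tail `(Y₀, ∞)`
  have hb_int : IntegrableOn
      (fun Y : ℝ => (C + G Y₀) * A * (Y ^ (-(1 + η)) + Y ^ (-(1 + η / 2)))) (Ioi Y₀) :=
    ((integrableOn_Ioi_rpow_of_lt (by linarith) hY₀).add
      (integrableOn_Ioi_rpow_of_lt (by linarith) hY₀)).const_mul _
  have htail_bound : ∀ Y ∈ Ioi Y₀, ‖S Y * ((Y ^ (s - 1) : ℝ) : ℂ)‖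
      ≤ (C + G Y₀) * A * (Y ^ (-(1 + η)) + Y ^ (-(1 + η / 2))) := by
    intro Y hY
    have hY0 : 0 < Y := lt_trans hY₀ hY
    have h1 := norm_tsum_scale_le362 h hcN hsum hY₀ (le_of_lt hY)
    have h2 : 0 ≤ Y ^ (s - 1) := Real.rpow_nonneg hY0.le _
    have h3 : Y ^ (-(1 + η)) * Y ^ (s - 1) ≤ Y ^ (-(1 + η)) + Y ^ (-(1 + η / 2)) := by
      have hp : 0 ≤ Y ^ (-(1 + η)) := Real.rpow_nonneg hY0.le _
      have hp' : 0 ≤ Y ^ (-(1 + η / 2)) := Real.rpow_nonneg hY0.le _
      rcases le_total Y 1 with hY1 | hY1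
      · have h4 : Y ^ (s - 1) ≤ 1 := Real.rpow_le_one hY0.le hY1 (by linarith)
        nlinarith
      · have h4 : Y ^ (-(1 + η)) * Y ^ (s - 1) = Y ^ (s - 2 - η) := by
          rw [← Real.rpow_add hY0]
          congr 1
          ring
        have h5 : Y ^ (s - 2 - η) ≤ Y ^ (-(1 + η / 2)) :=
          Real.rpow_le_rpow_of_exponent_le hY1 (by linarith)
        linarith
    rw [norm_mul, Complex.norm_real, Real.norm_of_nonneg h2]
    calc ‖S Y‖ * Y ^ (s - 1) ≤ (C + G Y₀) * A * Y ^ (-(1 + η)) * Y ^ (s - 1) :=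
          mul_le_mul_of_nonneg_right h1 h2
      _ = (C + G Y₀) * A * (Y ^ (-(1 + η)) * Y ^ (s - 1)) := by ring
      _ ≤ (C + G Y₀) * A * (Y ^ (-(1 + η)) + Y ^ (-(1 + η / 2))) :=
          mul_le_mul_of_nonneg_left h3 hC1
  have htail_ae : ∀ᵐ Y ∂(volume.restrict (Ioi Y₀)), ‖S Y * ((Y ^ (s - 1) : ℝ) : ℂ)‖
      ≤ (C + G Y₀) * A * (Y ^ (-(1 + η)) + Y ^ (-(1 + η / 2))) :=
    (ae_restrict_iff' measurableSet_Ioi).mpr (Eventually.of_forall htail_bound)
  have htail_int : IntegrableOn (fun Y : ℝ => S Y * ((Y ^ (s - 1) : ℝ) : ℂ)) (Ioi Y₀) :=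
    Integrable.mono' hb_int (hmeas.mono_set (Ioi_subset_Ioi hY₀.le)) htail_ae
  have htail : ‖∫ Y in Ioi Y₀, S Y * ((Y ^ (s - 1) : ℝ) : ℂ)‖
      ≤ (C + G Y₀) * A * ∫ Y in Ioi Y₀, (Y ^ (-(1 + η)) + Y ^ (-(1 + η / 2))) := by
    rw [← integral_const_mul]
    exact norm_integral_le_of_norm_le hb_int htail_ae
  -- the head `(0, Y₀]`
  have hpow_int : IntegrableOn (fun Y : ℝ => Y ^ (s - 2)) (Ioc 0 Y₀) :=
    (intervalIntegrable_iff_integrableOn_Ioc_of_le hY₀.le).mp
      (intervalIntegral.intervalIntegrable_rpow' (by linarith))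
  have hpow_val : ∫ Y in Ioc 0 Y₀, Y ^ (s - 2) = Y₀ ^ (s - 1) / (s - 1) := by
    rw [← intervalIntegral.integral_of_le hY₀.le, integral_rpow (Or.inl (by linarith))]
    have h1 : s - 2 + 1 = s - 1 := by ring
    rw [h1, Real.zero_rpow hs0.ne', sub_zero]
  have hrew : ∀ Y ∈ Ioc 0 Y₀, S Y * ((Y ^ (s - 1) : ℝ) : ℂ)
      = ((Y : ℂ) * S Y) * ((Y ^ (s - 2) : ℝ) : ℂ) := by
    intro Y hY
    have hY0 : 0 < Y := hY.1
    have h1 : Y ^ (s - 1) = Y * Y ^ (s - 2) := by
      have h2 := Real.rpow_add hY0 1 (s - 2)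
      rw [Real.rpow_one] at h2
      rw [← h2]
      congr 1
      ring
    rw [h1, Complex.ofReal_mul]
    ring
  have hhead_bound : ∀ Y ∈ Ioc 0 Y₀, ‖S Y * ((Y ^ (s - 1) : ℝ) : ℂ)‖
      ≤ (‖L‖ + ε) * Y ^ (s - 2) := by
    intro Y hY
    rw [hrew Y hY, norm_mul, Complex.norm_real,
      Real.norm_of_nonneg (Real.rpow_nonneg hY.1.le _)]
    refine mul_le_mul_of_nonneg_right ?_ (Real.rpow_nonneg hY.1.le _)
    have h1 := hnear Y hY
    calc ‖(Y : ℂ) * S Y‖ = ‖L + ((Y : ℂ) * S Y - L)‖ := by rw [add_sub_cancel]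
      _ ≤ ‖L‖ + ‖(Y : ℂ) * S Y - L‖ := norm_add_le _ _
      _ ≤ ‖L‖ + ε := by linarith
  have hhead_int : IntegrableOn (fun Y : ℝ => S Y * ((Y ^ (s - 1) : ℝ) : ℂ)) (Ioc 0 Y₀) :=
    Integrable.mono' (Integrable.const_mul hpow_int _) (hmeas.mono_set Ioc_subset_Ioi_self)
      ((ae_restrict_iff' measurableSet_Ioc).mpr (Eventually.of_forall hhead_bound))
  have hLint : IntegrableOn (fun Y : ℝ => L * ((Y ^ (s - 2) : ℝ) : ℂ)) (Ioc 0 Y₀) :=
    Integrable.const_mul (Integrable.ofReal hpow_int) L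
  have hhead : ‖(∫ Y in Ioc 0 Y₀, S Y * ((Y ^ (s - 1) : ℝ) : ℂ))
      - L * ((Y₀ ^ (s - 1) / (s - 1) : ℝ) : ℂ)‖ ≤ ε * (Y₀ ^ (s - 1) / (s - 1)) := by
    have e1 : L * ((Y₀ ^ (s - 1) / (s - 1) : ℝ) : ℂ)
        = ∫ Y in Ioc 0 Y₀, L * ((Y ^ (s - 2) : ℝ) : ℂ) := by
      rw [integral_const_mul, integral_complex_ofReal, hpow_val]
    rw [e1, ← integral_sub hhead_int hLint, ← hpow_val, ← integral_const_mul]
    refine norm_integral_le_of_norm_le (Integrable.const_mul hpow_int ε)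
      ((ae_restrict_iff' measurableSet_Ioc).mpr (Eventually.of_forall fun Y hY => ?_))
    rw [hrew Y hY, ← sub_mul, norm_mul, Complex.norm_real,
      Real.norm_of_nonneg (Real.rpow_nonneg hY.1.le _)]
    exact mul_le_mul_of_nonneg_right (hnear Y hY) (Real.rpow_nonneg hY.1.le _)
  -- the splitting
  have hsplit : ∫ Y in Ioi 0, S Y * ((Y ^ (s - 1) : ℝ) : ℂ)
      = (∫ Y in Ioc 0 Y₀, S Y * ((Y ^ (s - 1) : ℝ) : ℂ))
        + ∫ Y in Ioi Y₀, S Y * ((Y ^ (s - 1) : ℝ) : ℂ) := by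
    rw [← Ioc_union_Ioi_eq_Ioi hY₀.le]
    exact setIntegral_union (Set.disjoint_left.mpr fun x hx hx' => not_lt.mpr hx.2 hx')
      measurableSet_Ioi hhead_int htail_int
  rw [hsplit]
  set I₁ : ℂ := ∫ Y in Ioc 0 Y₀, S Y * ((Y ^ (s - 1) : ℝ) : ℂ) with hI₁
  set I₂ : ℂ := ∫ Y in Ioi Y₀, S Y * ((Y ^ (s - 1) : ℝ) : ℂ) with hI₂
  set B : ℝ := (C + G Y₀) * A * ∫ Y in Ioi Y₀, (Y ^ (-(1 + η)) + Y ^ (-(1 + η / 2))) with hB
  have hsne : ((s - 1 : ℝ) : ℂ) ≠ 0 := by
    exact_mod_cast hs0.ne'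
  have e2 : ((s - 1 : ℝ) : ℂ) * (I₁ + I₂) - L
      = ((s - 1 : ℝ) : ℂ) * (I₁ - L * ((Y₀ ^ (s - 1) / (s - 1) : ℝ) : ℂ))
        + L * ((Y₀ ^ (s - 1) - 1 : ℝ) : ℂ) + ((s - 1 : ℝ) : ℂ) * I₂ := by
    have e3 : ((Y₀ ^ (s - 1) / (s - 1) : ℝ) : ℂ)
        = ((Y₀ ^ (s - 1) : ℝ) : ℂ) / ((s - 1 : ℝ) : ℂ) := by
      rw [Complex.ofReal_div]
    have e4 : ((Y₀ ^ (s - 1) - 1 : ℝ) : ℂ) = ((Y₀ ^ (s - 1) : ℝ) : ℂ) - 1 := by
      rw [Complex.ofReal_sub, Complex.ofReal_one]
    rw [e3, e4]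
    field_simp
    ring
  rw [e2]
  have n1 : ‖((s - 1 : ℝ) : ℂ) * (I₁ - L * ((Y₀ ^ (s - 1) / (s - 1) : ℝ) : ℂ))‖
      ≤ ε * Y₀ ^ (s - 1) := by
    rw [norm_mul, Complex.norm_real, Real.norm_of_nonneg hs0.le]
    calc (s - 1) * ‖I₁ - L * ((Y₀ ^ (s - 1) / (s - 1) : ℝ) : ℂ)‖
        ≤ (s - 1) * (ε * (Y₀ ^ (s - 1) / (s - 1))) := mul_le_mul_of_nonneg_left hhead hs0.le
      _ = ε * Y₀ ^ (s - 1) := by field_simp
  have n2 : ‖L * ((Y₀ ^ (s - 1) - 1 : ℝ) : ℂ)‖ = ‖L‖ * |Y₀ ^ (s - 1) - 1| := by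
    rw [norm_mul, Complex.norm_real, Real.norm_eq_abs]
  have n3 : ‖((s - 1 : ℝ) : ℂ) * I₂‖ ≤ (s - 1) * B := by
    rw [norm_mul, Complex.norm_real, Real.norm_of_nonneg hs0.le]
    exact mul_le_mul_of_nonneg_left htail hs0.le
  calc ‖((s - 1 : ℝ) : ℂ) * (I₁ - L * ((Y₀ ^ (s - 1) / (s - 1) : ℝ) : ℂ))
          + L * ((Y₀ ^ (s - 1) - 1 : ℝ) : ℂ) + ((s - 1 : ℝ) : ℂ) * I₂‖
      ≤ ‖((s - 1 : ℝ) : ℂ) * (I₁ - L * ((Y₀ ^ (s - 1) / (s - 1) : ℝ) : ℂ))‖
          + ‖L * ((Y₀ ^ (s - 1) - 1 : ℝ) : ℂ)‖ + ‖((s - 1 : ℝ) : ℂ) * I₂‖ := norm_add₃_le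
    _ ≤ ε * Y₀ ^ (s - 1) + ‖L‖ * |Y₀ ^ (s - 1) - 1| + (s - 1) * B := by
        rw [n2]
        linarith

/-- **The Abelian step, abstract form.** -/
theorem abel_core362 [Countable ι] (h : Wt362 G C η) (hcN : ∀ i, c i = 0 ∨ 1 ≤ N i)
    (hsum : ∀ s : ℝ, 1 < s → Summable fun i => ‖c i‖ * N i ^ (-s)) {L : ℂ}
    (hlim : Tendsto (fun Y : ℝ => (Y : ℂ) * ∑' i, c i * ((G (Y * N i) : ℝ) : ℂ))
      (𝓝[>] (0 : ℝ)) (𝓝 L)) :
    Tendsto (fun s : ℝ => ((s - 1 : ℝ) : ℂ) * ∑' i, c i * ((N i ^ (-s) : ℝ) : ℂ))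
      (𝓝[>] (1 : ℝ)) (𝓝 (L / ((∫ T in Ioi 0, G T : ℝ) : ℂ))) := by
  have hη := h.eta_pos
  have hm : 0 < ∫ T in Ioi 0, G T := h.mass_pos
  -- Step 1: `(s - 1) I(s) → L`
  have hI : Tendsto (fun s : ℝ => ((s - 1 : ℝ) : ℂ)
      * ∫ Y in Ioi 0, (∑' i, c i * ((G (Y * N i) : ℝ) : ℂ)) * ((Y ^ (s - 1) : ℝ) : ℂ))
      (𝓝[>] (1 : ℝ)) (𝓝 L) := by
    rw [Metric.tendsto_nhds]
    intro ε hε
    have hev : ∀ᶠ Y : ℝ in 𝓝[>] (0 : ℝ),
        ‖(Y : ℂ) * (∑' i, c i * ((G (Y * N i) : ℝ) : ℂ)) - L‖ ≤ ε / 2 := by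
      have h1 := (Metric.tendsto_nhds.mp hlim) (ε / 2) (by linarith)
      filter_upwards [h1] with Y hY
      rw [dist_eq_norm] at hY
      exact hY.le
    obtain ⟨u, hu, hsub⟩ := mem_nhdsGT_iff_exists_Ioo_subset.mp hev
    have hu0 : (0 : ℝ) < u := hu
    have hY₀ : 0 < u / 2 := by positivity
    have hnear : ∀ Y ∈ Ioc (0 : ℝ) (u / 2),
        ‖(Y : ℂ) * (∑' i, c i * ((G (Y * N i) : ℝ) : ℂ)) - L‖ ≤ ε / 2 :=
      fun Y hY => hsub ⟨hY.1, by linarith [hY.2]⟩
    have hb : Tendsto (fun s : ℝ => ε / 2 * (u / 2) ^ (s - 1) + ‖L‖ * |(u / 2) ^ (s - 1) - 1|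
        + (s - 1) * ((C + G (u / 2)) * (∑' i, ‖c i‖ * N i ^ (-(1 + η)))
            * ∫ Y in Ioi (u / 2), (Y ^ (-(1 + η)) + Y ^ (-(1 + η / 2))))) (𝓝 1) (𝓝 (ε / 2)) := by
      have hp : ContinuousAt (fun s : ℝ => (u / 2) ^ (s - 1)) 1 :=
        (Real.continuousAt_const_rpow hY₀.ne').comp (continuousAt_id.sub continuousAt_const)
      have hc : ContinuousAt (fun s : ℝ => ε / 2 * (u / 2) ^ (s - 1)
          + ‖L‖ * |(u / 2) ^ (s - 1) - 1|
          + (s - 1) * ((C + G (u / 2)) * (∑' i, ‖c i‖ * N i ^ (-(1 + η)))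
            * ∫ Y in Ioi (u / 2), (Y ^ (-(1 + η)) + Y ^ (-(1 + η / 2))))) 1 :=
        ((continuousAt_const.mul hp).add
          (continuousAt_const.mul (hp.sub continuousAt_const).abs)).add
          ((continuousAt_id.sub continuousAt_const).mul continuousAt_const)
      have h1 := hc.tendsto
      simpa using h1
    have hev2 : ∀ᶠ s in 𝓝[>] (1 : ℝ), ε / 2 * (u / 2) ^ (s - 1)
        + ‖L‖ * |(u / 2) ^ (s - 1) - 1|
        + (s - 1) * ((C + G (u / 2)) * (∑' i, ‖c i‖ * N i ^ (-(1 + η)))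
            * ∫ Y in Ioi (u / 2), (Y ^ (-(1 + η)) + Y ^ (-(1 + η / 2)))) < ε :=
      (tendsto_nhdsWithin_of_tendsto_nhds hb).eventually_lt_const (by linarith)
    have hev3 : ∀ᶠ s in 𝓝[>] (1 : ℝ), 1 < s ∧ s ≤ 1 + η / 2 := by
      refine eventually_mem_nhdsWithin.and ?_
      exact eventually_nhdsWithin_of_eventually_nhds (eventually_le_nhds (by linarith))
    filter_upwards [hev2, hev3] with s hs2 hs3
    rw [dist_eq_norm]
    exact lt_of_le_of_lt (abel_local362 h hcN hsum hY₀ hnear hs3.1 hs3.2) hs2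
  -- Step 2: `M(s) → m`
  have hM : Tendsto (fun s : ℝ => ((∫ T in Ioi 0, G T * T ^ (s - 1) : ℝ) : ℂ)) (𝓝[>] (1 : ℝ))
      (𝓝 ((∫ T in Ioi 0, G T : ℝ) : ℂ)) :=
    (Complex.continuous_ofReal.tendsto _).comp h.mellin_tendsto
  have hmne : ((∫ T in Ioi 0, G T : ℝ) : ℂ) ≠ 0 := by
    exact_mod_cast hm.ne'
  refine (hI.div hM hmne).congr' ?_
  have hev4 : ∀ᶠ s in 𝓝[>] (1 : ℝ), 1 < s ∧ s < 1 + η := by
    refine eventually_mem_nhdsWithin.and ?_
    exact eventually_nhdsWithin_of_eventually_nhds (eventually_lt_nhds (by linarith))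
  have hev5 : ∀ᶠ s in 𝓝[>] (1 : ℝ), ((∫ T in Ioi 0, G T * T ^ (s - 1) : ℝ) : ℂ) ≠ 0 :=
    hM.eventually_ne hmne
  filter_upwards [hev4, hev5] with s hs hne
  have hT := (hasSum_mellin362 h hcN hsum hs.1 hs.2).tsum_eq
  rw [tsum_mul_right] at hT
  simp only [Pi.div_apply]
  rw [← hT]
  field_simp

end Fermat.Agent.LT.T7.H362

end
end
-- ===== PACK-END LT/T7/H362/AbelLimit.lean

-- ===== PACK-BEGIN LT/T7/H341/ChebGrp.lean
section
set_option synthInstance.maxSize 512




/-!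
# Row LT, tower T7, leaf T7.13c `ChebFC` (helper341), part 2: `GL₂(𝔽₃)` and the lift `Ψ`

OFF-MAIN.  Mathlib + the wall vocabulary only.

* `Nsub341 = {±1}`, `Qsub341 = Q₈ = {g ∈ SL₂(𝔽₃) | tr g = 0 or g = ±1}`: normal subgroups of
  `GL₂(𝔽₃)`, `Nsub341 ≤ Qsub341 ≤ ker det`, `Nsub341.index ≤ 4 * Qsub341.index`.
* `normSq_trΨ341`: for `g ∈ SL₂(𝔽₃)` and any lift `Ψ` (`red ∘ Ψ = id`), any `ι : ℤ[√-2] →+* ℂ`:
  `‖tr Ψ g‖² = 4` on `{±1}`, `= 0` on `Q₈ ∖ {±1}`, `= 1` on `SL₂(𝔽₃) ∖ Q₈`.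

The lemmas `zsqrtd_eq_zero_of_mul341`, `liftMat_neg_one341`, `trace_liftMat_eq_zero341` are those
of helper19 (`LT/H19/ParArith.lean`), restated here to keep the import closure small.
-/

set_option autoImplicit false

open FLT.ExplicitLift
open scoped MatrixGroups

namespace Fermat.Agent.LT.T7.H341

open Fermat.Agent.LT.H130

/-! ## Brute force over `𝔽₃` -/

theorem ent_mul341 : ∀ a b c d a' b' c' d' : ZMod 3, a * d - b * c = 1 → a' * d' - b' * c' = 1 →
    (a + d = 0 ∨ (b = 0 ∧ c = 0 ∧ a = d)) → (a' + d' = 0 ∨ (b' = 0 ∧ c' = 0 ∧ a' = d')) →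
    ((a * a' + b * c') + (c * b' + d * d') = 0 ∨
      (a * b' + b * d' = 0 ∧ c * a' + d * c' = 0 ∧ a * a' + b * c' = c * b' + d * d')) := by
  decide

theorem ent_sc_mul341 : ∀ a b c d a' b' c' d' : ZMod 3,
    (b = 0 ∧ c = 0 ∧ a = d) → (b' = 0 ∧ c' = 0 ∧ a' = d') →
      (a * b' + b * d' = 0 ∧ c * a' + d * c' = 0 ∧ a * a' + b * c' = c * b' + d * d') := by
  decide

theorem ent_sq341 : ∀ a b c d : ZMod 3, a * d - b * c = 1 → a + d = 0 →
    (a * a + b * c = -1 ∧ a * b + b * d = 0 ∧ c * a + d * c = 0 ∧ c * b + d * d = -1) := by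
  decide

theorem ent_cube341 : ∀ a b c d : ZMod 3, a * d - b * c = 1 → a + d ≠ 0 →
    (((a * a + b * c) * a + (a * b + b * d) * c = 1 ∧
        (a * a + b * c) * b + (a * b + b * d) * d = 0 ∧
        (c * a + d * c) * a + (c * b + d * d) * c = 0 ∧
        (c * a + d * c) * b + (c * b + d * d) * d = 1) ∨
      ((a * a + b * c) * a + (a * b + b * d) * c = -1 ∧
        (a * a + b * c) * b + (a * b + b * d) * d = 0 ∧
        (c * a + d * c) * a + (c * b + d * d) * c = 0 ∧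
        (c * a + d * c) * b + (c * b + d * d) * d = -1)) := by
  decide

theorem ent_sc341 : ∀ a b c d : ZMod 3, a * d - b * c = 1 → (b = 0 ∧ c = 0 ∧ a = d) →
    (a = 1 ∧ b = 0 ∧ c = 0 ∧ d = 1) ∨ (a = -1 ∧ b = 0 ∧ c = 0 ∧ d = -1) := by
  decide

/-! ## Matrices -/

/-- Scalar `2 × 2` matrices. -/
def IsSc341 (M : Matrix (Fin 2) (Fin 2) (ZMod 3)) : Prop :=
  M 0 1 = 0 ∧ M 1 0 = 0 ∧ M 0 0 = M 1 1

/-- The condition defining `Q₈` inside `GL₂(𝔽₃)`. -/
def IsQm341 (M : Matrix (Fin 2) (Fin 2) (ZMod 3)) : Prop :=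
  M 0 0 * M 1 1 - M 0 1 * M 1 0 = 1 ∧ (M 0 0 + M 1 1 = 0 ∨ IsSc341 M)

/-- The condition defining `{±1}` inside `GL₂(𝔽₃)`. -/
def IsNm341 (M : Matrix (Fin 2) (Fin 2) (ZMod 3)) : Prop :=
  M 0 0 * M 1 1 - M 0 1 * M 1 0 = 1 ∧ IsSc341 M

theorem mul_entry341 (A B : Matrix (Fin 2) (Fin 2) (ZMod 3)) (i j : Fin 2) :
    (A * B) i j = A i 0 * B 0 j + A i 1 * B 1 j := by
  simp [Matrix.mul_apply, Fin.sum_univ_two]

theorem isSc_iff341 (M : Matrix (Fin 2) (Fin 2) (ZMod 3)) :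
    IsSc341 M ↔ M = M 0 0 • (1 : Matrix (Fin 2) (Fin 2) (ZMod 3)) := by
  constructor
  · rintro ⟨h1, h2, h3⟩
    ext i j
    fin_cases i <;> fin_cases j <;> simp [h1, h2, ← h3]
  · intro h
    refine ⟨?_, ?_, ?_⟩
    · have := congrFun (congrFun h 0) 1
      simpa using this
    · have := congrFun (congrFun h 1) 0
      simpa using this
    · have := congrFun (congrFun h 1) 1
      simpa using this.symm

theorem isSc_conj341 (h : GL (Fin 2) (ZMod 3)) {M : Matrix (Fin 2) (Fin 2) (ZMod 3)}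
    (hM : IsSc341 M) :
    (h : Matrix (Fin 2) (Fin 2) (ZMod 3)) * M * ((h⁻¹ : GL (Fin 2) (ZMod 3)) :
      Matrix (Fin 2) (Fin 2) (ZMod 3)) = M := by
  rw [(isSc_iff341 M).mp hM, Matrix.mul_smul, Matrix.mul_one, Matrix.smul_mul]
  congr 1
  exact h.mul_inv

theorem det_conj341 (h : GL (Fin 2) (ZMod 3)) (M : Matrix (Fin 2) (Fin 2) (ZMod 3)) :
    ((h : Matrix (Fin 2) (Fin 2) (ZMod 3)) * M * ((h⁻¹ : GL (Fin 2) (ZMod 3)) :
      Matrix (Fin 2) (Fin 2) (ZMod 3))).det = M.det :=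
  Matrix.det_units_conj h M

theorem trace_conj341 (h : GL (Fin 2) (ZMod 3)) (M : Matrix (Fin 2) (Fin 2) (ZMod 3)) :
    ((h : Matrix (Fin 2) (Fin 2) (ZMod 3)) * M * ((h⁻¹ : GL (Fin 2) (ZMod 3)) :
      Matrix (Fin 2) (Fin 2) (ZMod 3))).trace = M.trace :=
  Matrix.trace_units_conj h M

theorem isQm_conj341 (h : GL (Fin 2) (ZMod 3)) {M : Matrix (Fin 2) (Fin 2) (ZMod 3)}
    (hM : IsQm341 M) :
    IsQm341 ((h : Matrix (Fin 2) (Fin 2) (ZMod 3)) * M * ((h⁻¹ : GL (Fin 2) (ZMod 3)) :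
      Matrix (Fin 2) (Fin 2) (ZMod 3))) := by
  obtain ⟨hd, ht⟩ := hM
  rcases ht with ht | ht
  · refine ⟨?_, Or.inl ?_⟩
    · rw [← Matrix.det_fin_two, det_conj341, Matrix.det_fin_two]
      exact hd
    · rw [← Matrix.trace_fin_two, trace_conj341, Matrix.trace_fin_two]
      exact ht
  · rw [isSc_conj341 h ht]
    exact ⟨hd, Or.inr ht⟩

theorem isNm_conj341 (h : GL (Fin 2) (ZMod 3)) {M : Matrix (Fin 2) (Fin 2) (ZMod 3)}
    (hM : IsNm341 M) :
    IsNm341 ((h : Matrix (Fin 2) (Fin 2) (ZMod 3)) * M * ((h⁻¹ : GL (Fin 2) (ZMod 3)) :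
      Matrix (Fin 2) (Fin 2) (ZMod 3))) := by
  rw [isSc_conj341 h hM.2]
  exact hM

theorem isQm_mul341 {A B : Matrix (Fin 2) (Fin 2) (ZMod 3)} (hA : IsQm341 A) (hB : IsQm341 B) :
    IsQm341 (A * B) := by
  refine ⟨?_, ?_⟩
  · rw [← Matrix.det_fin_two, Matrix.det_mul, Matrix.det_fin_two, Matrix.det_fin_two, hA.1, hB.1,
      mul_one]
  · have := ent_mul341 (A 0 0) (A 0 1) (A 1 0) (A 1 1) (B 0 0) (B 0 1) (B 1 0) (B 1 1)
      hA.1 hB.1 hA.2 hB.2
    simp only [IsSc341, mul_entry341]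
    exact this

theorem isNm_mul341 {A B : Matrix (Fin 2) (Fin 2) (ZMod 3)} (hA : IsNm341 A) (hB : IsNm341 B) :
    IsNm341 (A * B) := by
  refine ⟨?_, ?_⟩
  · rw [← Matrix.det_fin_two, Matrix.det_mul, Matrix.det_fin_two, Matrix.det_fin_two, hA.1, hB.1,
      mul_one]
  · have := ent_sc_mul341 (A 0 0) (A 0 1) (A 1 0) (A 1 1) (B 0 0) (B 0 1) (B 1 0) (B 1 1)
      hA.2 hB.2
    simp only [IsSc341, mul_entry341]
    exact this

theorem isNm_one341 : IsNm341 (1 : Matrix (Fin 2) (Fin 2) (ZMod 3)) := by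
  refine ⟨?_, ?_, ?_, ?_⟩ <;> simp

/-- The inverse of a matrix of determinant one. -/
theorem inv_entries341 (g : GL (Fin 2) (ZMod 3))
    (hd : (g : Matrix (Fin 2) (Fin 2) (ZMod 3)) 0 0 * (g : Matrix (Fin 2) (Fin 2) (ZMod 3)) 1 1 -
      (g : Matrix (Fin 2) (Fin 2) (ZMod 3)) 0 1 * (g : Matrix (Fin 2) (Fin 2) (ZMod 3)) 1 0 = 1) :
    ((g⁻¹ : GL (Fin 2) (ZMod 3)) : Matrix (Fin 2) (Fin 2) (ZMod 3)) =
      !![(g : Matrix (Fin 2) (Fin 2) (ZMod 3)) 1 1, -(g : Matrix (Fin 2) (Fin 2) (ZMod 3)) 0 1;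
         -(g : Matrix (Fin 2) (Fin 2) (ZMod 3)) 1 0, (g : Matrix (Fin 2) (Fin 2) (ZMod 3)) 0 0] := by
  rw [Matrix.coe_units_inv, Matrix.inv_def, Matrix.det_fin_two, hd, Ring.inverse_one, one_smul,
    Matrix.adjugate_fin_two]

theorem isQm_inv341 (g : GL (Fin 2) (ZMod 3))
    (hg : IsQm341 (g : Matrix (Fin 2) (Fin 2) (ZMod 3))) :
    IsQm341 ((g⁻¹ : GL (Fin 2) (ZMod 3)) : Matrix (Fin 2) (Fin 2) (ZMod 3)) := by
  obtain ⟨hd, ht⟩ := hg
  rw [inv_entries341 g hd]
  refine ⟨?_, ?_⟩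
  · simp only [Matrix.of_apply, Matrix.cons_val', Matrix.cons_val_zero, Matrix.cons_val_one,
      Matrix.cons_val_fin_one]
    rw [← hd]
    ring
  · rcases ht with ht | ⟨h1, h2, h3⟩
    · left
      simp only [Matrix.of_apply, Matrix.cons_val', Matrix.cons_val_zero, Matrix.cons_val_one,
        Matrix.cons_val_fin_one]
      rw [← ht]
      ring
    · right
      refine ⟨?_, ?_, ?_⟩
      · simp [h1]
      · simp [h2]
      · simp [h3]

theorem isNm_inv341 (g : GL (Fin 2) (ZMod 3))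
    (hg : IsNm341 (g : Matrix (Fin 2) (Fin 2) (ZMod 3))) :
    IsNm341 ((g⁻¹ : GL (Fin 2) (ZMod 3)) : Matrix (Fin 2) (Fin 2) (ZMod 3)) := by
  obtain ⟨hd, h1, h2, h3⟩ := hg
  rw [inv_entries341 g hd]
  refine ⟨?_, ?_, ?_, ?_⟩
  · simp only [Matrix.of_apply, Matrix.cons_val', Matrix.cons_val_zero, Matrix.cons_val_one,
      Matrix.cons_val_fin_one]
    rw [← hd]
    ring
  · simp [h1]
  · simp [h2]
  · simp [h3]

/-! ## The subgroups -/

/-- `Q₈ ⊂ GL₂(𝔽₃)`. -/
def Qsub341 : Subgroup (GL (Fin 2) (ZMod 3)) where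
  carrier := {g | IsQm341 (g : Matrix (Fin 2) (Fin 2) (ZMod 3))}
  one_mem' := ⟨isNm_one341.1, Or.inr isNm_one341.2⟩
  mul_mem' := fun {a b} ha hb => by
    show IsQm341 ((a * b : GL (Fin 2) (ZMod 3)) : Matrix (Fin 2) (Fin 2) (ZMod 3))
    rw [Units.val_mul]
    exact isQm_mul341 ha hb
  inv_mem' := fun {a} ha => isQm_inv341 a ha

/-- `{±1} ⊂ GL₂(𝔽₃)`. -/
def Nsub341 : Subgroup (GL (Fin 2) (ZMod 3)) where
  carrier := {g | IsNm341 (g : Matrix (Fin 2) (Fin 2) (ZMod 3))}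
  one_mem' := isNm_one341
  mul_mem' := fun {a b} ha hb => by
    show IsNm341 ((a * b : GL (Fin 2) (ZMod 3)) : Matrix (Fin 2) (Fin 2) (ZMod 3))
    rw [Units.val_mul]
    exact isNm_mul341 ha hb
  inv_mem' := fun {a} ha => isNm_inv341 a ha

theorem mem_Qsub341 (g : GL (Fin 2) (ZMod 3)) :
    g ∈ Qsub341 ↔ IsQm341 (g : Matrix (Fin 2) (Fin 2) (ZMod 3)) := Iff.rfl

theorem mem_Nsub341 (g : GL (Fin 2) (ZMod 3)) :
    g ∈ Nsub341 ↔ IsNm341 (g : Matrix (Fin 2) (Fin 2) (ZMod 3)) := Iff.rfl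

instance Qsub_normal341 : Qsub341.Normal where
  conj_mem := fun n hn h => by
    show IsQm341 ((h * n * h⁻¹ : GL (Fin 2) (ZMod 3)) : Matrix (Fin 2) (Fin 2) (ZMod 3))
    rw [Units.val_mul, Units.val_mul]
    exact isQm_conj341 h hn

instance Nsub_normal341 : Nsub341.Normal where
  conj_mem := fun n hn h => by
    show IsNm341 ((h * n * h⁻¹ : GL (Fin 2) (ZMod 3)) : Matrix (Fin 2) (Fin 2) (ZMod 3))
    rw [Units.val_mul, Units.val_mul]
    exact isNm_conj341 h hn

theorem Nsub_le_Qsub341 : Nsub341 ≤ Qsub341 := fun _ hg => ⟨hg.1, Or.inr hg.2⟩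

theorem det_eq_one_iff341 (g : GL (Fin 2) (ZMod 3)) :
    Matrix.GeneralLinearGroup.det g = 1 ↔
      (g : Matrix (Fin 2) (Fin 2) (ZMod 3)) 0 0 * (g : Matrix (Fin 2) (Fin 2) (ZMod 3)) 1 1 -
        (g : Matrix (Fin 2) (Fin 2) (ZMod 3)) 0 1 * (g : Matrix (Fin 2) (Fin 2) (ZMod 3)) 1 0
        = 1 := by
  rw [← Matrix.det_fin_two, Units.ext_iff]
  rfl

theorem det_of_mem_Qsub341 {g : GL (Fin 2) (ZMod 3)} (hg : g ∈ Qsub341) :
    Matrix.GeneralLinearGroup.det g = 1 :=
  (det_eq_one_iff341 g).mpr hg.1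

/-! ## Cardinalities -/

/-- The entries of a matrix. -/
def entries341 (g : GL (Fin 2) (ZMod 3)) : ZMod 3 × ZMod 3 × ZMod 3 × ZMod 3 :=
  ((g : Matrix (Fin 2) (Fin 2) (ZMod 3)) 0 0, (g : Matrix (Fin 2) (Fin 2) (ZMod 3)) 0 1,
    (g : Matrix (Fin 2) (Fin 2) (ZMod 3)) 1 0, (g : Matrix (Fin 2) (Fin 2) (ZMod 3)) 1 1)

theorem entries_injective341 : Function.Injective entries341 := by
  intro g h hgh
  simp only [entries341, Prod.mk.injEq] at hgh
  obtain ⟨h1, h2, h3, h4⟩ := hgh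
  apply Units.ext
  ext i j
  fin_cases i <;> fin_cases j
  · exact h1
  · exact h2
  · exact h3
  · exact h4

/-- The tuples of entries of the elements of `Q₈`. -/
def qTuples341 : Finset (ZMod 3 × ZMod 3 × ZMod 3 × ZMod 3) :=
  Finset.univ.filter fun t =>
    t.1 * t.2.2.2 - t.2.1 * t.2.2.1 = 1 ∧
      (t.1 + t.2.2.2 = 0 ∨ (t.2.1 = 0 ∧ t.2.2.1 = 0 ∧ t.1 = t.2.2.2))

theorem card_qTuples341 : qTuples341.card = 8 := by decide

theorem card_Qsub_le341 : Nat.card Qsub341 ≤ 8 := by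
  have h : Nat.card Qsub341 ≤ Nat.card qTuples341 := by
    refine Nat.card_le_card_of_injective
      (fun g : Qsub341 => (⟨entries341 g.1, ?_⟩ : qTuples341)) ?_
    · rw [qTuples341, Finset.mem_filter]
      exact ⟨Finset.mem_univ _, g.2⟩
    · intro g h hgh
      have := congrArg Subtype.val hgh
      exact Subtype.ext (entries_injective341 this)
  have h8 : Nat.card qTuples341 = 8 := by
    rw [Nat.card_eq_fintype_card, Fintype.card_coe, card_qTuples341]
  rw [h8] at h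
  exact h

theorem neg_one_mem_Nsub341 : (-1 : GL (Fin 2) (ZMod 3)) ∈ Nsub341 := by
  show IsNm341 ((-1 : GL (Fin 2) (ZMod 3)) : Matrix (Fin 2) (Fin 2) (ZMod 3))
  rw [Units.val_neg, Units.val_one]
  refine ⟨?_, ?_, ?_, ?_⟩ <;> simp

theorem two_le_card_Nsub341 : 2 ≤ Nat.card Nsub341 := by
  haveI : Nontrivial Nsub341 := by
    refine ⟨⟨⟨-1, neg_one_mem_Nsub341⟩, 1, ?_⟩⟩
    intro h
    have h1 := congrArg (fun x : Nsub341 => ((x : GL (Fin 2) (ZMod 3)) :
      Matrix (Fin 2) (Fin 2) (ZMod 3)) 0 0) h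
    simp only [Subgroup.coe_one, Units.val_neg, Units.val_one, Matrix.neg_apply,
      Matrix.one_apply_eq] at h1
    revert h1
    decide
  exact Finite.one_lt_card

/-- `[GL₂(𝔽₃) : {±1}] ≤ 4 [GL₂(𝔽₃) : Q₈]`. -/
theorem index_Nsub_le341 : Nsub341.index ≤ 4 * Qsub341.index := by
  have h1 : Nsub341.relIndex Qsub341 * Qsub341.index = Nsub341.index :=
    Subgroup.relIndex_mul_index Nsub_le_Qsub341
  have h2 : Nat.card (Nsub341.subgroupOf Qsub341) * (Nsub341.subgroupOf Qsub341).index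
      = Nat.card Qsub341 := Subgroup.card_mul_index _
  have h3 : Nat.card (Nsub341.subgroupOf Qsub341) = Nat.card Nsub341 :=
    Nat.card_congr (Subgroup.subgroupOfEquivOfLe Nsub_le_Qsub341).toEquiv
  have h4 : Nsub341.relIndex Qsub341 = (Nsub341.subgroupOf Qsub341).index := rfl
  have h5 := card_Qsub_le341
  have h6 := two_le_card_Nsub341
  rw [h3, ← h4] at h2
  have h7 : Nsub341.relIndex Qsub341 ≤ 4 := by
    by_contra hc
    have hc' : 5 ≤ Nsub341.relIndex Qsub341 := by omega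
    have : 2 * 5 ≤ Nat.card Nsub341 * Nsub341.relIndex Qsub341 := Nat.mul_le_mul h6 hc'
    omega
  rw [← h1]
  exact Nat.mul_le_mul_right _ h7

end Fermat.Agent.LT.T7.H341

end
-- ===== PACK-END LT/T7/H341/ChebGrp.lean

-- ===== PACK-BEGIN LT/T7/H91/ParsevalAd.lean
section




/-!
# Row LT, tower T7, ASSIST for leaf T7.14.6a `FoldWhitC`, step (4): PARSEVAL on `𝔸_K / K` (helper91)

OFF-MAIN.  Registry row 1801.  On `T3/Spec.lean` v2 (sha256 44de320b, byte-identical copy) and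
`ParsevalAbs.lean` (Mathlib only).

* `coefAd91 ψ ν D f η = ∫_D f(x) conj ψ(η x) dν(x)`, the `η`-th Fourier coefficient (`η ∈ K`).
* `ParsevalAdC91 K` (typed Prop) and `parsevalAdC91 : T3.InLocCompC K → T3.CompleteNDC K →
  ParsevalAdC91 K`: for `ψ` standard non-degenerate, `ν` Haar, `D` a fundamental domain of finite
  measure, `f₁`, `f₂` continuous and bounded, `f₁` `K`-periodic:
  `∑_η |c_η(f₁) conj c_η(f₂)| < ∞` and `ν(D) ∫_D f₁ f̄₂ dν = ∑_{η ∈ K} c_η(f₁) conj c_η(f₂)`.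
-/

set_option autoImplicit false
set_option linter.unusedSectionVars false
set_option linter.style.haveILetI false

open IsDedekindDomain NumberField MeasureTheory ComplexConjugate
open Fermat.Agent.LT.H556.A0

noncomputable section

namespace Fermat.Agent.LT.T7.H91

open Fermat.Agent.LT.T3

variable {K : Type} [Field K] [NumberField K]

/-- The character `x ↦ conj ψ(η x)` of `𝔸_K`, `η ∈ K`. -/
def chi91 (ψ : AddChar (Adl K) Circle) (η : K) (x : Adl K) : ℂ :=
  conj ((ψ (emb K η * x) : Circle) : ℂ)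

/-- The `η`-th Fourier coefficient `∫_D f(x) conj ψ(η x) dν(x)`. -/
def coefAd91 {m : MeasurableSpace (Adl K)} (ψ : AddChar (Adl K) Circle) (ν : Measure (Adl K))
    (D : Set (Adl K)) (f : Adl K → ℂ) (η : K) : ℂ :=
  ∫ x in D, f x * conj ((ψ (emb K η * x) : Circle) : ℂ) ∂ν

theorem isChar_chi91 {ψ : AddChar (Adl K) Circle} (hψ : IsStdChar K ψ) (η : K) :
    IsChar91 ((algebraMap K (Adl K)).toAddMonoidHom.range) (chi91 ψ η) where
  cont := Complex.continuous_conj.comp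
    (continuous_subtype_val.comp (hψ.cont.comp (continuous_const.mul continuous_id)))
  add x y := by
    show conj ((ψ (emb K η * (x + y)) : Circle) : ℂ)
      = conj ((ψ (emb K η * x) : Circle) : ℂ) * conj ((ψ (emb K η * y) : Circle) : ℂ)
    rw [mul_add, AddChar.map_add_eq_mul, Circle.coe_mul, map_mul]
  norm x := by
    show ‖conj ((ψ (emb K η * x) : Circle) : ℂ)‖ = 1
    rw [RCLike.norm_conj, Circle.norm_coe]
  triv γ hγ := by
    obtain ⟨ξ, rfl⟩ := hγ
    show conj ((ψ (emb K η * emb K ξ) : Circle) : ℂ) = 1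
    rw [← map_mul, hψ.triv, Circle.coe_one, map_one]

theorem chi91_distinct {ψ : AddChar (Adl K) Circle} (hψ : IsStdChar K ψ) (η η' : K)
    (h : η ≠ η') : ∃ t : Adl K, chi91 ψ η t ≠ chi91 ψ η' t := by
  obtain ⟨y, hy⟩ := hψ.nontriv
  have hne : η - η' ≠ 0 := sub_ne_zero.mpr h
  refine ⟨emb K (η - η')⁻¹ * y, fun heq => hy ?_⟩
  have h1 : ψ (emb K η * (emb K (η - η')⁻¹ * y)) = ψ (emb K η' * (emb K (η - η')⁻¹ * y)) := by
    have h2 := (starRingEnd ℂ).injective heq
    exact Circle.coe_injective h2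
  have h3 : y = emb K η * (emb K (η - η')⁻¹ * y) + -(emb K η' * (emb K (η - η')⁻¹ * y)) := by
    have h4 : emb K (η - η') * emb K (η - η')⁻¹ = 1 := by
      rw [← map_mul, mul_inv_cancel₀ hne, map_one]
    have h5 : emb K (η - η') = emb K η - emb K η' := map_sub _ _ _
    calc y = (emb K (η - η') * emb K (η - η')⁻¹) * y := by rw [h4, one_mul]
      _ = _ := by rw [h5]; ring
  rw [h3, AddChar.map_add_eq_mul, AddChar.map_neg_eq_inv, h1, mul_inv_cancel]

variable (K)

/-- **PARSEVAL on `𝔸_K / K`** (typed form). -/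
def ParsevalAdC91 : Prop :=
  letI : MeasurableSpace (Adl K) := borel (Adl K)
  ∀ ψ : AddChar (Adl K) Circle, IsStdChar K ψ → IsNonDeg K ψ →
  ∀ (ν : Measure (Adl K)) (D : Set (Adl K)), ν.IsAddHaarMeasure →
    IsAddFundamentalDomain ((algebraMap K (Adl K)).toAddMonoidHom.range) D ν → ν D < ⊤ →
  ∀ f₁ f₂ : Adl K → ℂ, Continuous f₁ → Continuous f₂ →
    (∃ C : ℝ, ∀ x, ‖f₁ x‖ ≤ C) → (∃ C : ℝ, ∀ x, ‖f₂ x‖ ≤ C) →
    (∀ (ξ : K) (x : Adl K), f₁ (x + emb K ξ) = f₁ x) →
      Summable (fun η : K => ‖coefAd91 ψ ν D f₁ η * conj (coefAd91 ψ ν D f₂ η)‖) ∧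
      (ν.real D : ℂ) * ∫ x in D, f₁ x * conj (f₂ x) ∂ν
        = ∑' η : K, coefAd91 ψ ν D f₁ η * conj (coefAd91 ψ ν D f₂ η)

/-- **PARSEVAL on `𝔸_K / K`** from the completeness of the characters (`T3.CompleteNDC`). -/
theorem parsevalAdC91 (hLC : InLocCompC K) (hC : CompleteNDC K) : ParsevalAdC91 K := by
  letI : MeasurableSpace (Adl K) := borel (Adl K)
  haveI : BorelSpace (Adl K) := ⟨rfl⟩
  obtain ⟨⟨_, _, hsc⟩, -⟩ := hLC
  haveI := hsc
  haveI : Countable K := Finsupp.Countable.of_moduleFinite (R := ℚ) (M := K)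
  haveI : Countable ((algebraMap K (Adl K)).toAddMonoidHom.range) := by
    have h : (Set.range (algebraMap K (Adl K))).Countable := Set.countable_range _
    exact h.to_subtype
  intro ψ hψ hnd ν D hν hD hfin f₁ f₂ hc₁ hc₂ ⟨C₁, hb₁⟩ ⟨C₂, hb₂⟩ hp₁
  haveI := hν
  have hcomp : ∀ F : Adl K → ℂ, Continuous F →
      (∀ γ ∈ (algebraMap K (Adl K)).toAddMonoidHom.range, ∀ x, F (x + γ) = F x) →
      (∀ η : K, ∫ x in D, F x * chi91 ψ η x ∂ν = 0) → ∀ x, F x = 0 := by
    intro F hFc hFp hF0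
    refine hC ψ hψ hnd ν hν D hD F hFc (fun ξ x => hFp _ ⟨ξ, rfl⟩ x) (fun η => ?_)
    rw [← hF0 (-η)]
    refine integral_congr_ae (Filter.Eventually.of_forall fun x => ?_)
    show F x * ((ψ (x * emb K η) : Circle) : ℂ) = F x * conj ((ψ (emb K (-η) * x) : Circle) : ℂ)
    have : emb K (-η) * x = -(x * emb K η) := by
      rw [map_neg, neg_mul, mul_comm]
    rw [this, AddChar.map_neg_eq_inv, Circle.coe_inv_eq_conj, Complex.conj_conj]
  exact parseval_abstract91 hD hfin.ne (chi91 ψ) (isChar_chi91 hψ) (chi91_distinct hψ) hcomp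
    f₁ f₂ hc₁ hc₂ C₁ C₂ hb₁ hb₂ (fun γ hγ x => by
      obtain ⟨ξ, rfl⟩ := hγ
      exact hp₁ ξ x)

end Fermat.Agent.LT.T7.H91

end
end
-- ===== PACK-END LT/T7/H91/ParsevalAd.lean

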