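import Fermat.Agent.Pack.LT2.E2L3
import Fermat.Agent.Pack.LT2.E3L0

set_option linter.all false

-- ===== PACK-BEGIN LT/CFT/H861/Approx.lean
section


/-!
# Row LT, tower CFT, helper861 (OFF-MAIN): weak approximation at finitely many finite places

Mathlib only.

* `exists_int_approx861`  : CRT in `𝓞 K` in valuation form, with a NONZERO solution;
* `exists_approx861`      : weak approximation in `K` at a finite set of finite places, nonzero;
* `exists_coe_approx861`  : density of `K` in `K_v`, in valuation form;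
* `isOpen_ball861`        : `{y | Valued.v (y - x) ≤ exp (-M)}` is open in `K_v`;
* `exists_pr_mul_inU861`  : every idele is `(principal) * (idele ≡ 1 mod 𝔣)`.
-/

set_option autoImplicit false

open IsDedekindDomain NumberField

noncomputable section

namespace Fermat.Agent.LT.CFT.H861

variable {K : Type} [Field K] [NumberField K]

/-- CRT in `𝓞 K`, valuation form, with a nonzero solution. -/
theorem exists_int_approx861 (s : Finset (HeightOneSpectrum (𝓞 K)))
    (e : HeightOneSpectrum (𝓞 K) → ℕ) (t : HeightOneSpectrum (𝓞 K) → 𝓞 K) :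
    ∃ y : 𝓞 K, y ≠ 0 ∧ ∀ v ∈ s, v.intValuation (y - t v) ≤ WithZero.exp (-(e v : ℤ)) := by
  classical
  obtain ⟨y₀, hy₀⟩ := IsDedekindDomain.exists_forall_sub_mem_ideal
    (s := s) (fun v : HeightOneSpectrum (𝓞 K) => v.asIdeal) e
    (fun v _ => v.prime) (fun v _ w _ hvw h => hvw (HeightOneSpectrum.ext h))
    (fun v => t v.1)
  have hJ : (∏ v ∈ s, v.asIdeal ^ e v) ≠ ⊥ := by
    rw [← Ideal.zero_eq_bot, Finset.prod_ne_zero_iff]
    intro v _
    exact pow_ne_zero _ v.ne_bot
  obtain ⟨m, hmJ, hm0⟩ := Submodule.exists_mem_ne_zero_of_ne_bot hJ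
  have hm : ∀ v ∈ s, m ∈ v.asIdeal ^ e v := fun v hv =>
    Ideal.le_of_dvd (Finset.dvd_prod_of_mem (fun v : HeightOneSpectrum (𝓞 K) => v.asIdeal ^ e v) hv)
      hmJ
  by_cases h0 : y₀ = 0
  · refine ⟨m, hm0, fun v hv => ?_⟩
    rw [HeightOneSpectrum.intValuation_le_pow_iff_mem]
    have h1 := hy₀ v hv
    rw [h0] at h1
    have : m - t v = m + (0 - t v) := by ring
    rw [this]
    exact Ideal.add_mem _ (hm v hv) h1
  · exact ⟨y₀, h0, fun v hv => (HeightOneSpectrum.intValuation_le_pow_iff_mem _ _ _).2 (hy₀ v hv)⟩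

/-- Weak approximation in `K` at a finite set of finite places, with a nonzero solution. -/
theorem exists_approx861 (s : Finset (HeightOneSpectrum (𝓞 K)))
    (M : HeightOneSpectrum (𝓞 K) → ℤ) (k : HeightOneSpectrum (𝓞 K) → K) :
    ∃ γ : K, γ ≠ 0 ∧ ∀ v ∈ s, v.valuation K (γ - k v) ≤ WithZero.exp (-(M v)) := by
  classical
  obtain ⟨⟨d, hd⟩, hdk⟩ := IsLocalization.exist_integer_multiples_of_finset
    (nonZeroDivisors (𝓞 K)) (s.image k)
  have hd0 : d ≠ 0 := nonZeroDivisors.ne_zero hd
  have hdK : (algebraMap (𝓞 K) K d) ≠ 0 := by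
    simpa using hd0
  have ht : ∀ v : HeightOneSpectrum (𝓞 K), ∃ t : 𝓞 K, v ∈ s → algebraMap (𝓞 K) K t = d • k v := by
    intro v
    by_cases hv : v ∈ s
    · obtain ⟨t, ht⟩ := hdk (k v) (Finset.mem_image_of_mem k hv)
      exact ⟨t, fun _ => ht⟩
    · exact ⟨0, fun h => absurd h hv⟩
  choose t ht using ht
  have hn : ∀ v : HeightOneSpectrum (𝓞 K), ∃ n : ℕ,
      v.intValuation d = WithZero.exp (-(n : ℤ)) := fun v => ⟨_, v.intValuation_if_neg hd0⟩
  choose n hn using hn
  obtain ⟨y, hy0, hy⟩ := exists_int_approx861 s (fun v => (M v).toNat + n v) t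
  refine ⟨algebraMap (𝓞 K) K y / algebraMap (𝓞 K) K d, ?_, fun v hv => ?_⟩
  · exact div_ne_zero (by simpa using hy0) hdK
  · have e1 : algebraMap (𝓞 K) K y / algebraMap (𝓞 K) K d - k v
        = algebraMap (𝓞 K) K (y - t v) / algebraMap (𝓞 K) K d := by
      rw [map_sub, ht v hv, Algebra.smul_def]
      field_simp
    rw [e1, map_div₀, HeightOneSpectrum.valuation_of_algebraMap,
      HeightOneSpectrum.valuation_of_algebraMap, hn v]
    have h1 := hy v hv
    rw [div_le_iff₀ (by simp), ← WithZero.exp_add]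
    refine le_trans h1 ?_
    rw [WithZero.exp_le_exp]
    have := Int.self_le_toNat (M v)
    push_cast
    linarith

/-- An element of `K_v` of prescribed valuation `exp (-M)`. -/
theorem exists_val_eq_exp861 (v : HeightOneSpectrum (𝓞 K)) (M : ℤ) :
    ∃ c : v.adicCompletion K, c ≠ 0 ∧ Valued.v c = WithZero.exp (-M) := by
  obtain ⟨c, hc⟩ := HeightOneSpectrum.valuedAdicCompletion_surjective K v (WithZero.exp (-M))
  refine ⟨c, ?_, hc⟩
  intro h0
  rw [h0, map_zero] at hc
  exact WithZero.exp_ne_zero hc.symm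

/-- Closed balls of `K_v` are open. -/
theorem isOpen_ball861 (v : HeightOneSpectrum (𝓞 K)) (x : v.adicCompletion K) (M : ℤ) :
    IsOpen {y : v.adicCompletion K | Valued.v (y - x) ≤ WithZero.exp (-M)} := by
  obtain ⟨c, hc0, hc⟩ := exists_val_eq_exp861 v M
  have hcont : Continuous fun y : v.adicCompletion K => (y - x) * c⁻¹ := by fun_prop
  have hopen := (Valued.isOpen_valuationSubring (v.adicCompletion K)).preimage hcont
  convert hopen using 1
  ext y
  simp only [Set.mem_ofPred_eq, Set.mem_preimage, SetLike.mem_coe, Valuation.mem_valuationSubring_iff,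
    map_mul, map_inv₀, hc]
  rw [mul_inv_le_iff₀ (by simp), one_mul]

/-- Density of `K` in `K_v`, valuation form. -/
theorem exists_coe_approx861 (v : HeightOneSpectrum (𝓞 K)) (x : v.adicCompletion K) (M : ℤ) :
    ∃ k : K, Valued.v (((k : K) : v.adicCompletion K) - x) ≤ WithZero.exp (-M) := by
  have hne : {y : v.adicCompletion K | Valued.v (y - x) ≤ WithZero.exp (-M)}.Nonempty :=
    ⟨x, by simp⟩
  obtain ⟨k, hk⟩ := (HeightOneSpectrum.denseRange_algebraMap K v).exists_mem_open
    (isOpen_ball861 v x M) hne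
  exact ⟨k, hk⟩

end Fermat.Agent.LT.CFT.H861

end

end
-- ===== PACK-END LT/CFT/H861/Approx.lean

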