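import Mathlib
import Fermat.Agent.Pack.LT2.E3L3
import Fermat.Agent.Pack.L1B.E1L2
import Fermat.Agent.Pack.LT2.E4L0
import Fermat.Agent.Pack.LT2.E4L3
import Fermat.Agent.Pack.LT2.E4L2
import Fermat.Agent.Pack.LT2.E0L2
import Fermat.Agent.Pack.LT2.E2L1
import Fermat.Agent.Pack.LT2.E5L3
import Fermat.Agent.Pack.LT2.E5L1
import Fermat.Agent.Pack.LT2.E5L2
import Fermat.Agent.Pack.LT2.E3L0
import Fermat.Agent.Pack.LT2.E3L1
import Fermat.Agent.Pack.LT2.E0L1
import Fermat.Agent.Pack.LT2.E5L0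

set_option linter.all false

-- ===== PACK-BEGIN LT/H470/Generators.lean
section


/-!
# Row LT, tower A2, pre-leaf ARCH-MVP (helper470): the generators of the Möbius action on `ℍ³`

Mathlib only.  The maps of the upper half-space `{(x₁, x₂, y) : y > 0}`

* `affMap a₁ a₂ b₁ b₂ r` : `(z, y) ↦ (a z + b, r y)`, `a = a₁ + i a₂`, `b = b₁ + i b₂`, `r = |a| > 0`
  (the action of `[[a, b], [0, 1]]`),
* `invMap` : `(z, y) ↦ (- z̄, y) / (|z|² + y²)` (the action of `[[0, -1], [1, 0]]`),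

are `ConfMap470`, hence pull solutions of the hyperbolic Laplace equation back to solutions.
-/

set_option autoImplicit false
set_option linter.unusedTactic false
set_option linter.unreachableTactic false
set_option linter.unusedSimpArgs false

open Real

noncomputable section

namespace Fermat.Agent.LT.H470

/-! ## Directional derivatives along curves -/

theorem fderiv_apply_of_curve470 {Φ : E3 → E3} {L : E3 →L[ℝ] E3} {p : E3}
    (h : HasFDerivAt Φ L p) {c : ℝ → E3} {t₀ : ℝ} {v w : E3} (hc : HasDerivAt c v t₀)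
    (hp : c t₀ = p) (hw : HasDerivAt (fun t => Φ (c t)) w t₀) : L v = w := by
  subst hp
  exact (h.comp_hasDerivAt t₀ hc).unique hw

theorem fderiv2_apply_of_curve470 {Φ' : E3 → E3 →L[ℝ] E3} {B : E3 →L[ℝ] E3 →L[ℝ] E3} {p : E3}
    (h : HasFDerivAt Φ' B p) {c : ℝ → E3} {t₀ : ℝ} {v u w : E3} (hc : HasDerivAt c v t₀)
    (hp : c t₀ = p) {J : ℝ → E3} (hJ : ∀ᶠ t in nhds t₀, Φ' (c t) u = J t)
    (hw : HasDerivAt J w t₀) : B v u = w := by
  subst hp
  have h1 : HasDerivAt (fun t => Φ' (c t)) (B v) t₀ := h.comp_hasDerivAt t₀ hc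
  have h2 : HasDerivAt (fun t => Φ' (c t) u) (B v u + Φ' (c t₀) 0) t₀ :=
    h1.clm_apply (hasDerivAt_const t₀ u)
  rw [map_zero, add_zero] at h2
  have h3 : HasDerivAt J (B v u) t₀ := h2.congr_of_eventuallyEq (hJ.mono fun t ht => ht.symm)
  exact h3.unique hw

theorem hasDerivAt_c1_470 (x₁ x₂ y : ℝ) :
    HasDerivAt (fun t : ℝ => ((t, x₂, y) : E3)) e1 x₁ :=
  (hasDerivAt_id x₁).prodMk ((hasDerivAt_const x₁ x₂).prodMk (hasDerivAt_const x₁ y))

theorem hasDerivAt_c2_470 (x₁ x₂ y : ℝ) :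
    HasDerivAt (fun t : ℝ => ((x₁, t, y) : E3)) e2 x₂ :=
  (hasDerivAt_const x₂ x₁).prodMk ((hasDerivAt_id x₂).prodMk (hasDerivAt_const x₂ y))

theorem hasDerivAt_c3_470 (x₁ x₂ y : ℝ) :
    HasDerivAt (fun t : ℝ => ((x₁, x₂, t) : E3)) e3 y :=
  (hasDerivAt_const y x₁).prodMk ((hasDerivAt_const y x₂).prodMk (hasDerivAt_id y))

/-! ## The inversion -/

/-- `|z|² + y²`. -/
def iR (x₁ x₂ y : ℝ) : ℝ := x₁ ^ 2 + x₂ ^ 2 + y ^ 2

/-- The inversion `(z, y) ↦ (-z̄, y) / (|z|² + y²)`, i.e. the action of `[[0,-1],[1,0]]`. -/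
def invMap (p : E3) : E3 :=
  (-p.1 / iR p.1 p.2.1 p.2.2, p.2.1 / iR p.1 p.2.1 p.2.2, p.2.2 / iR p.1 p.2.1 p.2.2)

theorem iR_pos470 (x₁ x₂ y : ℝ) (hy : 0 < y) : 0 < iR x₁ x₂ y := by
  unfold iR; positivity

/-- `∂₁ invMap`. -/
def iJ1 (x₁ x₂ y : ℝ) : E3 :=
  (-1 / iR x₁ x₂ y + 2 * x₁ ^ 2 / iR x₁ x₂ y ^ 2, -2 * x₁ * x₂ / iR x₁ x₂ y ^ 2,
    -2 * x₁ * y / iR x₁ x₂ y ^ 2)
/-- `∂₂ invMap`. -/
def iJ2 (x₁ x₂ y : ℝ) : E3 :=
  (2 * x₁ * x₂ / iR x₁ x₂ y ^ 2, 1 / iR x₁ x₂ y - 2 * x₂ ^ 2 / iR x₁ x₂ y ^ 2,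
    -2 * x₂ * y / iR x₁ x₂ y ^ 2)
/-- `∂₃ invMap`. -/
def iJ3 (x₁ x₂ y : ℝ) : E3 :=
  (2 * x₁ * y / iR x₁ x₂ y ^ 2, -2 * x₂ * y / iR x₁ x₂ y ^ 2,
    1 / iR x₁ x₂ y - 2 * y ^ 2 / iR x₁ x₂ y ^ 2)
/-- `∂₁² invMap`. -/
def iH1 (x₁ x₂ y : ℝ) : E3 :=
  (6 * x₁ / iR x₁ x₂ y ^ 2 - 8 * x₁ ^ 3 / iR x₁ x₂ y ^ 3,
    -2 * x₂ / iR x₁ x₂ y ^ 2 + 8 * x₁ ^ 2 * x₂ / iR x₁ x₂ y ^ 3,
    -2 * y / iR x₁ x₂ y ^ 2 + 8 * x₁ ^ 2 * y / iR x₁ x₂ y ^ 3)
/-- `∂₂² invMap`. -/
def iH2 (x₁ x₂ y : ℝ) : E3 :=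
  (2 * x₁ / iR x₁ x₂ y ^ 2 - 8 * x₁ * x₂ ^ 2 / iR x₁ x₂ y ^ 3,
    -6 * x₂ / iR x₁ x₂ y ^ 2 + 8 * x₂ ^ 3 / iR x₁ x₂ y ^ 3,
    -2 * y / iR x₁ x₂ y ^ 2 + 8 * x₂ ^ 2 * y / iR x₁ x₂ y ^ 3)
/-- `∂₃² invMap`. -/
def iH3 (x₁ x₂ y : ℝ) : E3 :=
  (2 * x₁ / iR x₁ x₂ y ^ 2 - 8 * x₁ * y ^ 2 / iR x₁ x₂ y ^ 3,
    -2 * x₂ / iR x₁ x₂ y ^ 2 + 8 * x₂ * y ^ 2 / iR x₁ x₂ y ^ 3,
    -6 * y / iR x₁ x₂ y ^ 2 + 8 * y ^ 3 / iR x₁ x₂ y ^ 3)

section InvDeriv

variable (x₁ x₂ y : ℝ)

theorem hasDerivAt_iR1_470 : HasDerivAt (fun t => iR t x₂ y) (2 * x₁) x₁ := by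
  unfold iR
  have h := (((hasDerivAt_id x₁).pow 2).add_const (x₂ ^ 2)).add_const (y ^ 2)
  refine h.congr_deriv ?_
  simp

theorem hasDerivAt_iR2_470 : HasDerivAt (fun t => iR x₁ t y) (2 * x₂) x₂ := by
  unfold iR
  have h := (((hasDerivAt_id x₂).pow 2).const_add (x₁ ^ 2)).add_const (y ^ 2)
  refine h.congr_deriv ?_
  simp

theorem hasDerivAt_iR3_470 : HasDerivAt (fun t => iR x₁ x₂ t) (2 * y) y := by
  unfold iR
  have h := ((hasDerivAt_id y).pow 2).const_add (x₁ ^ 2 + x₂ ^ 2)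
  refine h.congr_deriv ?_
  simp

theorem hasDerivAt_iRsq1_470 :
    HasDerivAt (fun t => iR t x₂ y ^ 2) (4 * x₁ * iR x₁ x₂ y) x₁ := by
  have h := (hasDerivAt_iR1_470 x₁ x₂ y).pow 2
  refine h.congr_deriv ?_
  ring

theorem hasDerivAt_iRsq2_470 :
    HasDerivAt (fun t => iR x₁ t y ^ 2) (4 * x₂ * iR x₁ x₂ y) x₂ := by
  have h := (hasDerivAt_iR2_470 x₁ x₂ y).pow 2
  refine h.congr_deriv ?_
  ring

theorem hasDerivAt_iRsq3_470 :
    HasDerivAt (fun t => iR x₁ x₂ t ^ 2) (4 * y * iR x₁ x₂ y) y := by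
  have h := (hasDerivAt_iR3_470 x₁ x₂ y).pow 2
  refine h.congr_deriv ?_
  ring

variable {y}

theorem hasDerivAt_invMap1_470 (hy : 0 < y) :
    HasDerivAt (fun t => invMap (t, x₂, y)) (iJ1 x₁ x₂ y) x₁ := by
  have hR := hasDerivAt_iR1_470 x₁ x₂ y
  have hR0 : iR x₁ x₂ y ≠ 0 := (iR_pos470 x₁ x₂ y hy).ne'
  have h1 : HasDerivAt (fun t => -t / iR t x₂ y)
      (-1 / iR x₁ x₂ y + 2 * x₁ ^ 2 / iR x₁ x₂ y ^ 2) x₁ := by
    have h := (hasDerivAt_id x₁).neg.div hR hR0
    refine h.congr_deriv ?_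
    try simp only [id, Pi.pow_apply, Pi.neg_apply]
    first
      | (field_simp; ring)
      | field_simp
  have h2 : HasDerivAt (fun t => x₂ / iR t x₂ y) (-2 * x₁ * x₂ / iR x₁ x₂ y ^ 2) x₁ := by
    have h := (hasDerivAt_const x₁ x₂).div hR hR0
    refine h.congr_deriv ?_
    first
      | (field_simp; ring)
      | field_simp
  have h3 : HasDerivAt (fun t => y / iR t x₂ y) (-2 * x₁ * y / iR x₁ x₂ y ^ 2) x₁ := by
    have h := (hasDerivAt_const x₁ y).div hR hR0
    refine h.congr_deriv ?_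
    first
      | (field_simp; ring)
      | field_simp
  exact h1.prodMk (h2.prodMk h3)

theorem hasDerivAt_invMap2_470 (hy : 0 < y) :
    HasDerivAt (fun t => invMap (x₁, t, y)) (iJ2 x₁ x₂ y) x₂ := by
  have hR := hasDerivAt_iR2_470 x₁ x₂ y
  have hR0 : iR x₁ x₂ y ≠ 0 := (iR_pos470 x₁ x₂ y hy).ne'
  have h1 : HasDerivAt (fun t => -x₁ / iR x₁ t y) (2 * x₁ * x₂ / iR x₁ x₂ y ^ 2) x₂ := by
    have h := (hasDerivAt_const x₂ (-x₁)).div hR hR0
    refine h.congr_deriv ?_
    first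
      | (field_simp; ring)
      | field_simp
  have h2 : HasDerivAt (fun t => t / iR x₁ t y)
      (1 / iR x₁ x₂ y - 2 * x₂ ^ 2 / iR x₁ x₂ y ^ 2) x₂ := by
    have h := (hasDerivAt_id x₂).div hR hR0
    refine h.congr_deriv ?_
    try simp only [id, Pi.pow_apply, Pi.neg_apply]
    first
      | (field_simp; ring)
      | field_simp
  have h3 : HasDerivAt (fun t => y / iR x₁ t y) (-2 * x₂ * y / iR x₁ x₂ y ^ 2) x₂ := by
    have h := (hasDerivAt_const x₂ y).div hR hR0
    refine h.congr_deriv ?_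
    first
      | (field_simp; ring)
      | field_simp
  exact h1.prodMk (h2.prodMk h3)

theorem hasDerivAt_invMap3_470 (hy : 0 < y) :
    HasDerivAt (fun t => invMap (x₁, x₂, t)) (iJ3 x₁ x₂ y) y := by
  have hR := hasDerivAt_iR3_470 x₁ x₂ y
  have hR0 : iR x₁ x₂ y ≠ 0 := (iR_pos470 x₁ x₂ y hy).ne'
  have h1 : HasDerivAt (fun t => -x₁ / iR x₁ x₂ t) (2 * x₁ * y / iR x₁ x₂ y ^ 2) y := by
    have h := (hasDerivAt_const y (-x₁)).div hR hR0
    refine h.congr_deriv ?_
    first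
      | (field_simp; ring)
      | field_simp
  have h2 : HasDerivAt (fun t => x₂ / iR x₁ x₂ t) (-2 * x₂ * y / iR x₁ x₂ y ^ 2) y := by
    have h := (hasDerivAt_const y x₂).div hR hR0
    refine h.congr_deriv ?_
    first
      | (field_simp; ring)
      | field_simp
  have h3 : HasDerivAt (fun t => t / iR x₁ x₂ t)
      (1 / iR x₁ x₂ y - 2 * y ^ 2 / iR x₁ x₂ y ^ 2) y := by
    have h := (hasDerivAt_id y).div hR hR0
    refine h.congr_deriv ?_
    try simp only [id, Pi.pow_apply, Pi.neg_apply]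
    first
      | (field_simp; ring)
      | field_simp
  exact h1.prodMk (h2.prodMk h3)

theorem hasDerivAt_iJ1_470 (hy : 0 < y) :
    HasDerivAt (fun t => iJ1 t x₂ y) (iH1 x₁ x₂ y) x₁ := by
  have hR := hasDerivAt_iR1_470 x₁ x₂ y
  have hR2 := hasDerivAt_iRsq1_470 x₁ x₂ y
  have hR0 : iR x₁ x₂ y ≠ 0 := (iR_pos470 x₁ x₂ y hy).ne'
  have hR20 : iR x₁ x₂ y ^ 2 ≠ 0 := pow_ne_zero _ hR0
  have h1 : HasDerivAt (fun t => -1 / iR t x₂ y + 2 * t ^ 2 / iR t x₂ y ^ 2)
      (6 * x₁ / iR x₁ x₂ y ^ 2 - 8 * x₁ ^ 3 / iR x₁ x₂ y ^ 3) x₁ := by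
    have h := ((hasDerivAt_const x₁ (-1 : ℝ)).div hR hR0).add
      ((((hasDerivAt_id x₁).pow 2).const_mul 2).div hR2 hR20)
    refine h.congr_deriv ?_
    try simp only [id, Pi.pow_apply, Pi.neg_apply]
    first
      | (field_simp; ring)
      | field_simp
  have h2 : HasDerivAt (fun t => -2 * t * x₂ / iR t x₂ y ^ 2)
      (-2 * x₂ / iR x₁ x₂ y ^ 2 + 8 * x₁ ^ 2 * x₂ / iR x₁ x₂ y ^ 3) x₁ := by
    have h := (((hasDerivAt_id x₁).const_mul (-2)).mul_const x₂).div hR2 hR20
    refine h.congr_deriv ?_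
    try simp only [id, Pi.pow_apply, Pi.neg_apply]
    first
      | (field_simp; ring)
      | field_simp
  have h3 : HasDerivAt (fun t => -2 * t * y / iR t x₂ y ^ 2)
      (-2 * y / iR x₁ x₂ y ^ 2 + 8 * x₁ ^ 2 * y / iR x₁ x₂ y ^ 3) x₁ := by
    have h := (((hasDerivAt_id x₁).const_mul (-2)).mul_const y).div hR2 hR20
    refine h.congr_deriv ?_
    try simp only [id, Pi.pow_apply, Pi.neg_apply]
    first
      | (field_simp; ring)
      | field_simp
  exact h1.prodMk (h2.prodMk h3)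

theorem hasDerivAt_iJ2_470 (hy : 0 < y) :
    HasDerivAt (fun t => iJ2 x₁ t y) (iH2 x₁ x₂ y) x₂ := by
  have hR := hasDerivAt_iR2_470 x₁ x₂ y
  have hR2 := hasDerivAt_iRsq2_470 x₁ x₂ y
  have hR0 : iR x₁ x₂ y ≠ 0 := (iR_pos470 x₁ x₂ y hy).ne'
  have hR20 : iR x₁ x₂ y ^ 2 ≠ 0 := pow_ne_zero _ hR0
  have h1 : HasDerivAt (fun t => 2 * x₁ * t / iR x₁ t y ^ 2)
      (2 * x₁ / iR x₁ x₂ y ^ 2 - 8 * x₁ * x₂ ^ 2 / iR x₁ x₂ y ^ 3) x₂ := by
    have h := ((hasDerivAt_id x₂).const_mul (2 * x₁)).div hR2 hR20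
    refine h.congr_deriv ?_
    try simp only [id, Pi.pow_apply, Pi.neg_apply]
    first
      | (field_simp; ring)
      | field_simp
  have h2 : HasDerivAt (fun t => 1 / iR x₁ t y - 2 * t ^ 2 / iR x₁ t y ^ 2)
      (-6 * x₂ / iR x₁ x₂ y ^ 2 + 8 * x₂ ^ 3 / iR x₁ x₂ y ^ 3) x₂ := by
    have h := ((hasDerivAt_const x₂ (1 : ℝ)).div hR hR0).sub
      ((((hasDerivAt_id x₂).pow 2).const_mul 2).div hR2 hR20)
    refine h.congr_deriv ?_
    try simp only [id, Pi.pow_apply, Pi.neg_apply]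
    first
      | (field_simp; ring)
      | field_simp
  have h3 : HasDerivAt (fun t => -2 * t * y / iR x₁ t y ^ 2)
      (-2 * y / iR x₁ x₂ y ^ 2 + 8 * x₂ ^ 2 * y / iR x₁ x₂ y ^ 3) x₂ := by
    have h := (((hasDerivAt_id x₂).const_mul (-2)).mul_const y).div hR2 hR20
    refine h.congr_deriv ?_
    try simp only [id, Pi.pow_apply, Pi.neg_apply]
    first
      | (field_simp; ring)
      | field_simp
  exact h1.prodMk (h2.prodMk h3)

theorem hasDerivAt_iJ3_470 (hy : 0 < y) :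
    HasDerivAt (fun t => iJ3 x₁ x₂ t) (iH3 x₁ x₂ y) y := by
  have hR := hasDerivAt_iR3_470 x₁ x₂ y
  have hR2 := hasDerivAt_iRsq3_470 x₁ x₂ y
  have hR0 : iR x₁ x₂ y ≠ 0 := (iR_pos470 x₁ x₂ y hy).ne'
  have hR20 : iR x₁ x₂ y ^ 2 ≠ 0 := pow_ne_zero _ hR0
  have h1 : HasDerivAt (fun t => 2 * x₁ * t / iR x₁ x₂ t ^ 2)
      (2 * x₁ / iR x₁ x₂ y ^ 2 - 8 * x₁ * y ^ 2 / iR x₁ x₂ y ^ 3) y := by
    have h := ((hasDerivAt_id y).const_mul (2 * x₁)).div hR2 hR20
    refine h.congr_deriv ?_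
    try simp only [id, Pi.pow_apply, Pi.neg_apply]
    first
      | (field_simp; ring)
      | field_simp
  have h2 : HasDerivAt (fun t => -2 * x₂ * t / iR x₁ x₂ t ^ 2)
      (-2 * x₂ / iR x₁ x₂ y ^ 2 + 8 * x₂ * y ^ 2 / iR x₁ x₂ y ^ 3) y := by
    have h := ((hasDerivAt_id y).const_mul (-2 * x₂)).div hR2 hR20
    refine h.congr_deriv ?_
    try simp only [id, Pi.pow_apply, Pi.neg_apply]
    first
      | (field_simp; ring)
      | field_simp
  have h3 : HasDerivAt (fun t => 1 / iR x₁ x₂ t - 2 * t ^ 2 / iR x₁ x₂ t ^ 2)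
      (-6 * y / iR x₁ x₂ y ^ 2 + 8 * y ^ 3 / iR x₁ x₂ y ^ 3) y := by
    have h := ((hasDerivAt_const y (1 : ℝ)).div hR hR0).sub
      ((((hasDerivAt_id y).pow 2).const_mul 2).div hR2 hR20)
    refine h.congr_deriv ?_
    try simp only [id, Pi.pow_apply, Pi.neg_apply]
    first
      | (field_simp; ring)
      | field_simp
  exact h1.prodMk (h2.prodMk h3)

end InvDeriv

/-! ### `invMap` is a `ConfMap470` -/

theorem contDiffAt_invMap470 (p : E3) (hp : 0 < p.2.2) : ContDiffAt ℝ 2 invMap p := by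
  have hR : iR p.1 p.2.1 p.2.2 ≠ 0 := (iR_pos470 _ _ _ hp).ne'
  unfold invMap iR at *
  fun_prop (disch := assumption)

theorem invMap_d1_470 (p : E3) (hp : 0 < p.2.2) :
    HasFDerivAt invMap (fderiv ℝ invMap p) p :=
  ((contDiffAt_invMap470 p hp).differentiableAt (by norm_num)).hasFDerivAt

theorem invMap_d2_470 (p : E3) (hp : 0 < p.2.2) :
    HasFDerivAt (fderiv ℝ invMap) (fderiv ℝ (fderiv ℝ invMap) p) p :=
  (((contDiffAt_invMap470 p hp).fderiv_right (m := 1) (by norm_num)).differentiableAt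
    (by norm_num)).hasFDerivAt

theorem invMap_J1_470 (p : E3) (hp : 0 < p.2.2) :
    fderiv ℝ invMap p e1 = iJ1 p.1 p.2.1 p.2.2 :=
  fderiv_apply_of_curve470 (invMap_d1_470 p hp) (hasDerivAt_c1_470 p.1 p.2.1 p.2.2) rfl
    (hasDerivAt_invMap1_470 p.1 p.2.1 hp)

theorem invMap_J2_470 (p : E3) (hp : 0 < p.2.2) :
    fderiv ℝ invMap p e2 = iJ2 p.1 p.2.1 p.2.2 :=
  fderiv_apply_of_curve470 (invMap_d1_470 p hp) (hasDerivAt_c2_470 p.1 p.2.1 p.2.2) rfl
    (hasDerivAt_invMap2_470 p.1 p.2.1 hp)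

theorem invMap_J3_470 (p : E3) (hp : 0 < p.2.2) :
    fderiv ℝ invMap p e3 = iJ3 p.1 p.2.1 p.2.2 :=
  fderiv_apply_of_curve470 (invMap_d1_470 p hp) (hasDerivAt_c3_470 p.1 p.2.1 p.2.2) rfl
    (hasDerivAt_invMap3_470 p.1 p.2.1 hp)

theorem invMap_H1_470 (p : E3) (hp : 0 < p.2.2) :
    fderiv ℝ (fderiv ℝ invMap) p e1 e1 = iH1 p.1 p.2.1 p.2.2 :=
  fderiv2_apply_of_curve470 (invMap_d2_470 p hp) (hasDerivAt_c1_470 p.1 p.2.1 p.2.2) rfl
    (J := fun t => iJ1 t p.2.1 p.2.2)
    (Filter.Eventually.of_forall fun t => invMap_J1_470 (t, p.2.1, p.2.2) hp)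
    (hasDerivAt_iJ1_470 p.1 p.2.1 hp)

theorem invMap_H2_470 (p : E3) (hp : 0 < p.2.2) :
    fderiv ℝ (fderiv ℝ invMap) p e2 e2 = iH2 p.1 p.2.1 p.2.2 :=
  fderiv2_apply_of_curve470 (invMap_d2_470 p hp) (hasDerivAt_c2_470 p.1 p.2.1 p.2.2) rfl
    (J := fun t => iJ2 p.1 t p.2.2)
    (Filter.Eventually.of_forall fun t => invMap_J2_470 (p.1, t, p.2.2) hp)
    (hasDerivAt_iJ2_470 p.1 p.2.1 hp)

theorem invMap_H3_470 (p : E3) (hp : 0 < p.2.2) :
    fderiv ℝ (fderiv ℝ invMap) p e3 e3 = iH3 p.1 p.2.1 p.2.2 :=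
  fderiv2_apply_of_curve470 (invMap_d2_470 p hp) (hasDerivAt_c3_470 p.1 p.2.1 p.2.2) rfl
    (J := fun t => iJ3 p.1 p.2.1 t)
    ((eventually_gt_nhds hp).mono fun t ht => invMap_J3_470 (p.1, p.2.1, t) ht)
    (hasDerivAt_iJ3_470 p.1 p.2.1 hp)

/-- The inversion preserves the hyperbolic Laplacian. -/
theorem confMap_invMap470 :
    ConfMap470 invMap (fderiv ℝ invMap) (fderiv ℝ (fderiv ℝ invMap)) where
  maps := fun p hp => by
    simp only [invMap]
    exact div_pos hp (iR_pos470 _ _ _ hp)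
  d1 := invMap_d1_470
  d2 := invMap_d2_470
  cont := fun p hp =>
    ((((contDiffAt_invMap470 p hp).fderiv_right (m := 1) (by norm_num)).fderiv_right
      (m := 0) (by norm_num)).continuousAt).continuousWithinAt
  conf11 := fun p hp => by
    have hR : iR p.1 p.2.1 p.2.2 ≠ 0 := (iR_pos470 _ _ _ hp).ne'
    rw [invMap_J1_470 p hp, invMap_J2_470 p hp, invMap_J3_470 p hp]
    simp only [iJ1, iJ2, iJ3, invMap]
    field_simp
    unfold iR
    ring
  conf22 := fun p hp => by
    have hR : iR p.1 p.2.1 p.2.2 ≠ 0 := (iR_pos470 _ _ _ hp).ne'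
    rw [invMap_J1_470 p hp, invMap_J2_470 p hp, invMap_J3_470 p hp]
    simp only [iJ1, iJ2, iJ3, invMap]
    field_simp
    unfold iR
    ring
  conf33 := fun p hp => by
    have hR : iR p.1 p.2.1 p.2.2 ≠ 0 := (iR_pos470 _ _ _ hp).ne'
    rw [invMap_J1_470 p hp, invMap_J2_470 p hp, invMap_J3_470 p hp]
    simp only [iJ1, iJ2, iJ3, invMap]
    field_simp
    unfold iR
    ring
  conf12 := fun p hp => by
    have hR : iR p.1 p.2.1 p.2.2 ≠ 0 := (iR_pos470 _ _ _ hp).ne'
    rw [invMap_J1_470 p hp, invMap_J2_470 p hp, invMap_J3_470 p hp]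
    simp only [iJ1, iJ2, iJ3, invMap]
    field_simp
    unfold iR
    ring
  conf13 := fun p hp => by
    have hR : iR p.1 p.2.1 p.2.2 ≠ 0 := (iR_pos470 _ _ _ hp).ne'
    rw [invMap_J1_470 p hp, invMap_J2_470 p hp, invMap_J3_470 p hp]
    simp only [iJ1, iJ2, iJ3, invMap]
    field_simp
    unfold iR
    ring
  conf23 := fun p hp => by
    have hR : iR p.1 p.2.1 p.2.2 ≠ 0 := (iR_pos470 _ _ _ hp).ne'
    rw [invMap_J1_470 p hp, invMap_J2_470 p hp, invMap_J3_470 p hp]
    simp only [iJ1, iJ2, iJ3, invMap]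
    field_simp
    unfold iR
    ring
  lap1 := fun p hp => by
    have hR : iR p.1 p.2.1 p.2.2 ≠ 0 := (iR_pos470 _ _ _ hp).ne'
    rw [invMap_H1_470 p hp, invMap_H2_470 p hp, invMap_H3_470 p hp, invMap_J3_470 p hp]
    simp only [iH1, iH2, iH3, iJ3, invMap]
    field_simp
    unfold iR
    ring
  lap2 := fun p hp => by
    have hR : iR p.1 p.2.1 p.2.2 ≠ 0 := (iR_pos470 _ _ _ hp).ne'
    rw [invMap_H1_470 p hp, invMap_H2_470 p hp, invMap_H3_470 p hp, invMap_J3_470 p hp]
    simp only [iH1, iH2, iH3, iJ3, invMap]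
    field_simp
    unfold iR
    ring
  lap3 := fun p hp => by
    have hR : iR p.1 p.2.1 p.2.2 ≠ 0 := (iR_pos470 _ _ _ hp).ne'
    rw [invMap_H1_470 p hp, invMap_H2_470 p hp, invMap_H3_470 p hp, invMap_J3_470 p hp]
    simp only [iH1, iH2, iH3, iJ3, invMap]
    field_simp
    unfold iR
    ring

/-! ## Affine maps `(z, y) ↦ (a z + b, |a| y)` -/

/-- The linear part of `affMap`. -/
def affL (a₁ a₂ r : ℝ) : E3 →L[ℝ] E3 :=
  (a₁ • ContinuousLinearMap.fst ℝ ℝ (ℝ × ℝ)
      - a₂ • (ContinuousLinearMap.fst ℝ ℝ ℝ).comp (ContinuousLinearMap.snd ℝ ℝ (ℝ × ℝ))).prod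
    ((a₂ • ContinuousLinearMap.fst ℝ ℝ (ℝ × ℝ)
      + a₁ • (ContinuousLinearMap.fst ℝ ℝ ℝ).comp (ContinuousLinearMap.snd ℝ ℝ (ℝ × ℝ))).prod
      (r • (ContinuousLinearMap.snd ℝ ℝ ℝ).comp (ContinuousLinearMap.snd ℝ ℝ (ℝ × ℝ))))

/-- `(z, y) ↦ (a z + b, r y)` with `a = a₁ + i a₂`, `b = b₁ + i b₂`. -/
def affMap (a₁ a₂ b₁ b₂ r : ℝ) (p : E3) : E3 :=
  (a₁ * p.1 - a₂ * p.2.1 + b₁, a₂ * p.1 + a₁ * p.2.1 + b₂, r * p.2.2)

theorem affMap_eq470 (a₁ a₂ b₁ b₂ r : ℝ) :
    affMap a₁ a₂ b₁ b₂ r = fun p => affL a₁ a₂ r p + (b₁, b₂, 0) := by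
  funext p
  simp [affMap, affL]

theorem affL_e1_470 (a₁ a₂ r : ℝ) : affL a₁ a₂ r e1 = (a₁, a₂, 0) := by
  simp [affL, e1]

theorem affL_e2_470 (a₁ a₂ r : ℝ) : affL a₁ a₂ r e2 = (-a₂, a₁, 0) := by
  simp [affL, e2]

theorem affL_e3_470 (a₁ a₂ r : ℝ) : affL a₁ a₂ r e3 = (0, 0, r) := by
  simp [affL, e3]

/-- The affine maps `(z, y) ↦ (a z + b, |a| y)` preserve the hyperbolic Laplacian. -/
theorem confMap_affMap470 (a₁ a₂ b₁ b₂ r : ℝ) (hr : 0 < r) (hr2 : r ^ 2 = a₁ ^ 2 + a₂ ^ 2) :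
    ConfMap470 (affMap a₁ a₂ b₁ b₂ r) (fun _ => affL a₁ a₂ r) (fun _ => 0) where
  maps := fun p hp => by
    simp only [affMap]
    exact mul_pos hr hp
  d1 := fun p _ => by
    rw [affMap_eq470]
    exact (affL a₁ a₂ r).hasFDerivAt.add_const _
  d2 := fun p _ => hasFDerivAt_const _ _
  cont := continuousOn_const
  conf11 := fun p _ => by
    simp only [affL_e1_470, affL_e2_470, affL_e3_470, affMap]
    linear_combination (-(p.2.2 ^ 2)) * hr2
  conf22 := fun p _ => by
    simp only [affL_e1_470, affL_e2_470, affL_e3_470, affMap]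
    linear_combination (-(p.2.2 ^ 2)) * hr2
  conf33 := fun p _ => by
    simp only [affL_e1_470, affL_e2_470, affL_e3_470, affMap]
    ring
  conf12 := fun p _ => by
    simp only [affL_e1_470, affL_e2_470, affL_e3_470]
    ring
  conf13 := fun p _ => by
    simp only [affL_e1_470, affL_e2_470, affL_e3_470]
    ring
  conf23 := fun p _ => by
    simp only [affL_e1_470, affL_e2_470, affL_e3_470]
    ring
  lap1 := fun p _ => by
    simp [affL_e3_470]
  lap2 := fun p _ => by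
    simp [affL_e3_470]
  lap3 := fun p _ => by
    simp [affL_e3_470, affMap]
    ring

end Fermat.Agent.LT.H470

end
end
-- ===== PACK-END LT/H470/Generators.lean

-- ===== PACK-BEGIN LT/A2/H444/FrobK.lean
section


/-!
# Row LT, tower A2, leaf `FinOrdC` (helper444), part 3: Frobenius elements over a number field

OFF-MAIN.  Imports: Mathlib, Prelude, plain modules of main (`S54/FrobExists`, `Lib/Cheb/Bridge956A`).

`exists_frobAt444`: for a number field `K`, an embedding `j : K → ℚ̄` and a finite place `v` of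
`K` there are `σ ∈ Gal(ℚ̄ / j K)` and a valuation subring `A` of `ℚ̄` over `v` such that `σ` is a
Frobenius element at `A` with exponent `N(v)` (in the Prelude's sense).  Proof: the decomposition
group of a prime of `ℤ̄` in the profinite group `Gal(ℚ̄ / j K)` surjects onto the automorphism
group of the residue field extension (Mathlib, `Ideal.Quotient.stabilizerHom_surjective_of_profinite`).
-/

set_option autoImplicit false
set_option linter.unusedVariables false
set_option linter.unusedSectionVars false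
set_option linter.style.haveILetI false

open scoped Pointwise
open IsDedekindDomain NumberField

noncomputable section

namespace Fermat.Agent.LT.A2.H444

open Fermat.Agent.S54 Fermat.Agent.Lib.Cheb

local notation "Qb" => AlgebraicClosure ℚ
local notation "GQ" => (AlgebraicClosure ℚ ≃ₐ[ℚ] AlgebraicClosure ℚ)
local notation "Zb" => integralClosure ℤ (AlgebraicClosure ℚ)

variable {K : Type} [Field K] [NumberField K]

/-- The absolute Galois group of `K`, embedded in `ℚ̄` by `j` (same carrier as `CFT.galOf j`). -/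
def galK444 (j : K →+* Qb) : Subgroup GQ where
  carrier := {σ | ∀ x : K, σ (j x) = j x}
  one_mem' := fun _ => rfl
  mul_mem' := by
    intro a b ha hb x
    show a (b (j x)) = j x
    rw [hb x, ha x]
  inv_mem' := by
    intro a ha x
    have h := congrArg (a⁻¹ : GQ) (ha x)
    have h2 : (a⁻¹ : GQ) (a (j x)) = j x := AlgEquiv.symm_apply_apply a (j x)
    rw [h2] at h
    exact h.symm

theorem mem_galK444 (j : K →+* Qb) (σ : GQ) : σ ∈ galK444 j ↔ ∀ x : K, σ (j x) = j x := Iff.rfl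

/-- The image of `K` in `ℚ̄` as an intermediate field. -/
def fieldK444 (j : K →+* Qb) : IntermediateField ℚ Qb := (RingHom.toRatAlgHom j).fieldRange

theorem mem_fieldK444 (j : K →+* Qb) (y : Qb) : y ∈ fieldK444 j ↔ ∃ x : K, j x = y := Iff.rfl

theorem galK444_eq_fixingSubgroup (j : K →+* Qb) : galK444 j = (fieldK444 j).fixingSubgroup := by
  ext σ
  rw [mem_galK444, IntermediateField.mem_fixingSubgroup_iff]
  constructor
  · rintro h y ⟨x, rfl⟩
    exact h x
  · intro h x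
    exact h (j x) ⟨x, rfl⟩

theorem isClosed_galK444 (j : K →+* Qb) : IsClosed (galK444 j : Set GQ) := by
  haveI := isGalois_algebraicClosure_rat
  rw [galK444_eq_fixingSubgroup]
  exact InfiniteGalois.fixingSubgroup_isClosed _

/-- Products of elements of a valuation subring with nonunits are nonunits. -/
theorem mul_mem_nonunits444 {F : Type*} [Field F] (A : ValuationSubring F) {a b : F}
    (ha : a ∈ A) (hb : b ∈ A.nonunits) : a * b ∈ A.nonunits := by
  rw [ValuationSubring.mem_nonunits_iff] at hb ⊢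
  rw [map_mul]
  have h1 : A.valuation a ≤ 1 := (A.valuation_le_one_iff a).mpr ha
  calc A.valuation a * A.valuation b ≤ 1 * A.valuation b := by gcongr
    _ = A.valuation b := one_mul _
    _ < 1 := hb

/-! ## The profinite group `Gal(ℚ̄ / j K)` acting on `ℤ̄` -/

theorem compactSpace_galK444 (j : K →+* Qb) : CompactSpace (galK444 j) := by
  haveI := isGalois_algebraicClosure_rat
  exact isCompact_iff_compactSpace.mp (isClosed_galK444 j).isCompact

theorem totallyDisconnectedSpace_galK444 (j : K →+* Qb) :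
    TotallyDisconnectedSpace (galK444 j) := by
  haveI := isGalois_algebraicClosure_rat
  haveI : Algebra.IsAlgebraic ℚ (AlgebraicClosure ℚ) := AlgebraicClosure.isAlgebraic ℚ
  infer_instance

/-- The embedding of the integers of `K` in the ring of all algebraic integers. -/
def intEmb444 (j : K →+* Qb) : 𝓞 K →+* Zb where
  toFun x := ⟨j (algebraMap (𝓞 K) K x), by
    have h : IsIntegral ℤ (algebraMap (𝓞 K) K x) := x.2
    exact h.map (j : K →+* Qb).toIntAlgHom⟩
  map_one' := Subtype.ext (by simp)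
  map_mul' x y := Subtype.ext (by simp)
  map_zero' := Subtype.ext (by simp)
  map_add' x y := Subtype.ext (by simp)

theorem intEmb444_coe (j : K →+* Qb) (x : 𝓞 K) :
    ((intEmb444 j x : Zb) : Qb) = j (algebraMap (𝓞 K) K x) := rfl

theorem continuousSMul_galK444 (j : K →+* Qb) :
    letI : TopologicalSpace Zb := ⊥
    ContinuousSMul (galK444 j) Zb := by
  letI : TopologicalSpace Zb := ⊥
  haveI := continuousSMul_integralClosure
  refine ⟨?_⟩
  have h : Continuous (fun p : GQ × Zb => p.1 • p.2) := continuous_smul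
  exact h.comp (Continuous.prodMap continuous_subtype_val continuous_id)

theorem smul_intEmb444 (j : K →+* Qb) (g : galK444 j) (a : 𝓞 K) :
    g • intEmb444 j a = intEmb444 j a := by
  apply Subtype.ext
  exact g.2 (algebraMap (𝓞 K) K a)

theorem smulCommClass_galK444 (j : K →+* Qb) :
    letI : Algebra (𝓞 K) Zb := (intEmb444 j).toAlgebra
    SMulCommClass (galK444 j) (𝓞 K) Zb := by
  letI : Algebra (𝓞 K) Zb := (intEmb444 j).toAlgebra
  refine ⟨fun g a b => ?_⟩
  rw [Algebra.smul_def, Algebra.smul_def, smul_mul']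
  congr 1
  exact smul_intEmb444 j g a

theorem isInvariant_galK444 (j : K →+* Qb) :
    letI : Algebra (𝓞 K) Zb := (intEmb444 j).toAlgebra
    Algebra.IsInvariant (𝓞 K) Zb (galK444 j) := by
  letI : Algebra (𝓞 K) Zb := (intEmb444 j).toAlgebra
  haveI := isGalois_algebraicClosure_rat
  refine ⟨fun b hb => ?_⟩
  have hfix : (b : Qb) ∈ IntermediateField.fixedField (fieldK444 j).fixingSubgroup := by
    rintro ⟨g, hg⟩
    have hg' : g ∈ galK444 j := by rw [galK444_eq_fixingSubgroup]; exact hg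
    exact congrArg Subtype.val (hb ⟨g, hg'⟩)
  rw [InfiniteGalois.fixedField_fixingSubgroup] at hfix
  obtain ⟨x, hx⟩ := hfix
  have hx' : j x = (b : Qb) := hx
  have hint : IsIntegral ℤ x := by
    have h1 : IsIntegral ℤ (j x) := hx' ▸ b.2
    exact (isIntegral_algHom_iff (j : K →+* Qb).toIntAlgHom j.injective).mp h1
  exact ⟨⟨x, hint⟩, Subtype.ext hx'⟩

/-! ## A valuation subring over a finite place -/

/-- Above every finite place `v` of `K` there is a valuation subring of `ℚ̄`. -/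
theorem exists_valuationSubring_over444 (j : K →+* Qb) (v : HeightOneSpectrum (𝓞 K)) :
    ∃ A : ValuationSubring Qb,
      ∀ x : 𝓞 K, x ∈ v.asIdeal ↔ j (algebraMap (𝓞 K) K x) ∈ A.nonunits := by
  let ι : 𝓞 K →+* Qb := j.comp (algebraMap (𝓞 K) K)
  have hιinj : Function.Injective ι :=
    j.injective.comp RingOfIntegers.coe_injective
  let A₀ : Subring Qb := ι.range
  let ι' : 𝓞 K →+* A₀ := ι.rangeRestrict
  have hι'surj : Function.Surjective ι' := ι.rangeRestrict_surjective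
  let I : Ideal A₀ := v.asIdeal.map ι'
  have hP : v.asIdeal.IsPrime := v.isPrime
  have hI : I ≠ ⊤ := by
    intro h
    have h1 : (1 : A₀) ∈ I := by rw [h]; trivial
    obtain ⟨x, hx, hx1⟩ := (Ideal.mem_map_iff_of_surjective ι' hι'surj).mp h1
    have h2 : ι x = 1 := congrArg Subtype.val hx1
    have h3 : x = 1 := hιinj (by rw [h2, map_one])
    exact hP.ne_top ((Ideal.eq_top_iff_one _).mpr (h3 ▸ hx))
  obtain ⟨A, -, hA⟩ := Ideal.image_subset_nonunits_valuationSubring I hI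
  have hPA : ∀ y ∈ v.asIdeal, ι y ∈ A.nonunits := by
    intro y hy
    exact hA ⟨ι' y, Ideal.mem_map_of_mem _ hy, rfl⟩
  have hPmax : v.asIdeal.IsMaximal := v.isMaximal
  have hmem : ∀ y : 𝓞 K, ι y ∈ A := by
    intro y
    have h : IsIntegral ℤ (algebraMap (𝓞 K) K y) := y.2
    exact isIntegral_mem_valuationSubring A (h.map (j : K →+* Qb).toIntAlgHom)
  refine ⟨A, fun x => ⟨hPA x, fun hx => ?_⟩⟩
  by_contra hxP
  obtain ⟨y, z, hz, hyz⟩ := hPmax.exists_inv hxP
  have h1 : ι (y * x + z) = 1 := by rw [hyz, map_one]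
  rw [map_add, map_mul] at h1
  have h2 : (1 : Qb) ∈ A.nonunits := by
    rw [← h1]
    exact A.nonunits.add_mem (mul_mem_nonunits444 A (hmem y) hx) (hPA z hz)
  rw [ValuationSubring.mem_nonunits_iff] at h2
  simp at h2


/-! ## Frobenius elements with a prime power exponent -/

/-- If `σ` stabilises the prime `Q` below `A` and satisfies the congruence `σ x ≡ x ^ q mod Q` on
all algebraic integers, then `σ` is a Frobenius element at `A` with exponent `q`.
(`Lib.Cheb.isFrobeniusAt_of_primeBelow956` with an arbitrary exponent.) -/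
theorem isFrobeniusAt_of_primeBelow444 (ℓ : ℕ) (hℓ : ℓ.Prime) (q : ℕ)
    (A : ValuationSubring Qb) (hA : A.LiesOverPrime ℓ) (σ : GQ)
    (hσQ : ∀ x, σ • x ∈ primeBelow A ↔ x ∈ primeBelow A)
    (hσF : ∀ x : Zb, σ • x - x ^ q ∈ primeBelow A) :
    A.IsFrobeniusAt σ q := by
  have : Algebra.IsAlgebraic ℚ (AlgebraicClosure ℚ) := AlgebraicClosure.isAlgebraic ℚ
  have hσA : σ ∈ A.decompositionSubgroup ℚ :=
    mem_decompositionSubgroup_of_primeBelow_stable956 ℓ hℓ A hA σ hσQ
  refine ⟨hσA, ?_⟩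
  intro x
  obtain ⟨a, rfl⟩ := IsLocalRing.residue_surjective x
  obtain ⟨b, s, hb, hs, hsA, hxs⟩ := (mem_valuationSubring_iff A ℓ hℓ hA a).mp a.2
  have hbA : b ∈ A := isIntegral_mem_valuationSubring A hb
  have hsA' : s ∈ A := isIntegral_mem_valuationSubring A hs
  have hint : ∀ (y : AlgebraicClosure ℚ) (hy : IsIntegral ℤ y),
      (⟨σ, hσA⟩ : A.decompositionSubgroup ℚ) •
        IsLocalRing.residue A ⟨y, isIntegral_mem_valuationSubring A hy⟩ =
      (IsLocalRing.residue A ⟨y, isIntegral_mem_valuationSubring A hy⟩) ^ q := by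
    intro y hy
    rw [← IsLocalRing.ResidueField.residue_smul, ← map_pow, ← sub_eq_zero, ← map_sub,
      IsLocalRing.residue_eq_zero_iff, ← ValuationSubring.coe_mem_nonunits_iff]
    exact hσF ⟨y, hy⟩
  have h1 : IsLocalRing.residue A a * IsLocalRing.residue A ⟨s, hsA'⟩ =
      IsLocalRing.residue A ⟨b, hbA⟩ := by
    rw [← map_mul]
    congr 1
    exact Subtype.ext hxs
  have h2 : IsLocalRing.residue A ⟨s, hsA'⟩ ≠ 0 := by
    rw [Ne, IsLocalRing.residue_eq_zero_iff, ← ValuationSubring.coe_mem_nonunits_iff]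
    exact hsA
  have h3 := congrArg (fun z => (⟨σ, hσA⟩ : A.decompositionSubgroup ℚ) • z) h1
  simp only [smul_mul'] at h3
  rw [hint s hs, hint b hb, ← h1, mul_pow] at h3
  exact mul_right_cancel₀ (pow_ne_zero _ h2) h3

/-! ## Existence of Frobenius elements over `K` -/

/-- **Frobenius elements over a number field.**  For every finite place `v` of `K` there are
`σ ∈ Gal(ℚ̄ / j K)` and a valuation subring `A` of `ℚ̄` over `v` such that `σ` is a Frobenius
element at `A` with exponent `N(v)`. -/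
theorem exists_frobAt444 (j : K →+* Qb) (v : HeightOneSpectrum (𝓞 K)) :
    ∃ σ : GQ, (∀ x : K, σ (j x) = j x) ∧ ∃ A : ValuationSubring Qb,
      (∀ x : 𝓞 K, x ∈ v.asIdeal ↔ j (algebraMap (𝓞 K) K x) ∈ A.nonunits) ∧
      A.IsFrobeniusAt σ (Nat.card (𝓞 K ⧸ v.asIdeal)) := by
  classical
  haveI := isGalois_algebraicClosure_rat
  haveI : Algebra.IsAlgebraic ℚ (AlgebraicClosure ℚ) := AlgebraicClosure.isAlgebraic ℚ
  letI : TopologicalSpace Zb := ⊥
  haveI : DiscreteTopology Zb := ⟨rfl⟩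
  letI : Algebra (𝓞 K) Zb := (intEmb444 j).toAlgebra
  haveI := compactSpace_galK444 j
  haveI := totallyDisconnectedSpace_galK444 j
  haveI := continuousSMul_galK444 j
  haveI := smulCommClass_galK444 j
  haveI := isInvariant_galK444 j
  obtain ⟨A, hA⟩ := exists_valuationSubring_over444 j v
  -- the primes
  let P : Ideal (𝓞 K) := v.asIdeal
  haveI hPmax : P.IsMaximal := v.isMaximal
  let Q : Ideal Zb := primeBelow A
  haveI hQ : Q.IsPrime := primeBelow_isPrime A
  have hQmem : ∀ x : 𝓞 K, algebraMap (𝓞 K) Zb x ∈ Q ↔ x ∈ P := by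
    intro x
    rw [mem_primeBelow]
    exact (hA x).symm
  haveI hlies : Q.LiesOver P := by
    refine ⟨?_⟩
    ext x
    rw [Ideal.under_def, Ideal.mem_comap]
    exact (hQmem x).symm
  -- the residue field of `v`
  haveI : Finite (𝓞 K ⧸ P) := Ideal.finiteQuotientOfFreeOfNeBot P v.ne_bot
  letI : Field (𝓞 K ⧸ P) := Ideal.Quotient.field P
  letI : Fintype (𝓞 K ⧸ P) := Fintype.ofFinite _
  set q : ℕ := Nat.card (𝓞 K ⧸ P) with hq
  have hqcard : Fintype.card (𝓞 K ⧸ P) = q := by rw [hq, Nat.card_eq_fintype_card]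
  set p : ℕ := ringChar (𝓞 K ⧸ P) with hp
  haveI hcharP : CharP (𝓞 K ⧸ P) p := ringChar.charP _
  obtain ⟨n, hpprime, hcard⟩ := FiniteField.card (𝓞 K ⧸ P) p
  haveI : Fact p.Prime := ⟨hpprime⟩
  have hqpow : q = p ^ (n : ℕ) := by rw [← hqcard, hcard]
  have hqpos : 0 < q := by rw [hqpow]; exact pow_pos hpprime.pos _
  -- `p ∈ P`, `p ∈ Q`
  have hpP : (p : 𝓞 K) ∈ P := by
    rw [← Ideal.Quotient.eq_zero_iff_mem, map_natCast]
    exact CharP.cast_eq_zero _ p
  have hpQ : (p : Zb) ∈ Q := by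
    have := (hQmem (p : 𝓞 K)).mpr hpP
    rwa [map_natCast] at this
  have hAp : A.LiesOverPrime p := by
    have h1 : ((p : Zb) : Qb) ∈ A.nonunits := (mem_primeBelow A _).mp hpQ
    have h2 : ((p : Zb) : Qb) = (p : Qb) := by simp
    rw [h2] at h1
    exact h1
  -- characteristic of the big residue field
  haveI : IsDomain (Zb ⧸ Q) := Ideal.Quotient.isDomain Q
  have hzero : ((p : ℕ) : Zb ⧸ Q) = 0 := by
    have : (Ideal.Quotient.mk Q) (p : Zb) = 0 := Ideal.Quotient.eq_zero_iff_mem.mpr hpQ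
    simpa using this
  haveI hchar : CharP (Zb ⧸ Q) p := (CharP.charP_iff_prime_eq_zero hpprime).mpr hzero
  -- the `q`-Frobenius as an algebra automorphism
  let f : (Zb ⧸ Q) →ₐ[𝓞 K ⧸ P] (Zb ⧸ Q) :=
    { toRingHom := iterateFrobenius (Zb ⧸ Q) p n
      commutes' := by
        intro y
        show iterateFrobenius (Zb ⧸ Q) p n (algebraMap (𝓞 K ⧸ P) (Zb ⧸ Q) y) =
          algebraMap (𝓞 K ⧸ P) (Zb ⧸ Q) y
        rw [iterateFrobenius_def, ← map_pow, ← hqpow, ← hqcard, FiniteField.pow_card] }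
  have hf : ∀ x : Zb ⧸ Q, f x = x ^ q := by
    intro x
    show iterateFrobenius (Zb ⧸ Q) p n x = x ^ q
    rw [iterateFrobenius_def, hqpow]
  have hinj : Function.Injective f := iterateFrobenius_inj (Zb ⧸ Q) p n
  have hsurj : Function.Surjective f := by
    intro y
    obtain ⟨b, rfl⟩ := Ideal.Quotient.mk_surjective y
    obtain ⟨c, hc⟩ := IsAlgClosed.exists_pow_nat_eq (b : AlgebraicClosure ℚ) hqpos
    have hcint : IsIntegral ℤ c := by
      have hb : IsIntegral ℤ (c ^ q) := hc ▸ b.2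
      exact IsIntegral.of_pow hqpos hb
    refine ⟨Ideal.Quotient.mk Q ⟨c, hcint⟩, ?_⟩
    rw [hf, ← map_pow]
    congr 1
    exact Subtype.ext hc
  let e : (Zb ⧸ Q) ≃ₐ[𝓞 K ⧸ P] (Zb ⧸ Q) := AlgEquiv.ofBijective f ⟨hinj, hsurj⟩
  obtain ⟨σ, hσ⟩ := Ideal.Quotient.stabilizerHom_surjective_of_profinite
    (G := galK444 j) P Q e
  have hσF : ∀ x : Zb, (σ.1 : GQ) • x - x ^ q ∈ Q := by
    intro x
    have h2 := congrArg (fun t => t (Ideal.Quotient.mk Q x)) hσ
    simp only [Ideal.Quotient.stabilizerHom_apply] at h2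
    have h3 : e (Ideal.Quotient.mk Q x) = Ideal.Quotient.mk Q (x ^ q) := by
      show f (Ideal.Quotient.mk Q x) = _
      rw [hf, map_pow]
    rw [h3] at h2
    rw [← Ideal.Quotient.eq]
    exact h2
  have hσQ' : ((σ.1 : galK444 j) : GQ) • primeBelow A = primeBelow A := σ.2
  have hτK : ∀ x : K, ((σ.1 : galK444 j) : GQ) (j x) = j x := σ.1.2
  generalize ((σ.1 : galK444 j) : GQ) = τ at hσF hσQ' hτK
  have hσQ : ∀ x, τ • x ∈ primeBelow A ↔ x ∈ primeBelow A := by
    intro x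
    conv_lhs => rw [← hσQ']
    exact Ideal.smul_mem_pointwise_smul_iff
  exact ⟨τ, hτK, A, hA, isFrobeniusAt_of_primeBelow444 p hpprime q A hAp τ hσQ hσF⟩

end Fermat.Agent.LT.A2.H444

end
end
-- ===== PACK-END LT/A2/H444/FrobK.lean

-- ===== PACK-BEGIN LT/CFT/H861/Decomp.lean
section


/-!
# Row LT, tower CFT, helper861 (OFF-MAIN): `𝔸ˣ = Kˣ · U_𝔣`

Mathlib only.  `exists_pr_mul_inU861`: for a nonzero ideal `𝔣`, every idele `x` is of the form
`(principal idele of γ) * y` with `y ≡ 1 mod 𝔣` at every place dividing `𝔣`.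
-/

set_option autoImplicit false

open IsDedekindDomain NumberField

noncomputable section

namespace Fermat.Agent.LT.CFT.H861

variable {K : Type} [Field K] [NumberField K]

theorem coe_sub861 (v : HeightOneSpectrum (𝓞 K)) (a b : K) :
    (((a - b : K)) : v.adicCompletion K) = (a : v.adicCompletion K) - (b : v.adicCompletion K) := by
  have h := HeightOneSpectrum.adicCompletion.coe_add K v (a - b) b
  rw [sub_add_cancel] at h
  rw [h, add_sub_cancel_right]

theorem val_coe861 (v : HeightOneSpectrum (𝓞 K)) (a : K) :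
    Valued.v ((a : K) : v.adicCompletion K) = v.valuation K a :=
  HeightOneSpectrum.valuedAdicCompletion_eq_valuation' v a

/-- Every idele is a principal idele times an idele `≡ 1 mod 𝔣`. -/
theorem exists_pr_mul_inU861 {𝔣 : Ideal (𝓞 K)} (h𝔣 : 𝔣 ≠ ⊥) (x : (AdeleRing (𝓞 K) K)ˣ) :
    ∃ γ : Kˣ, InU861 𝔣 ((pr861 K γ)⁻¹ * x) := by
  classical
  set s : Finset (HeightOneSpectrum (𝓞 K)) := (finite_fexp861_ne_zero h𝔣).toFinset with hs
  set M : HeightOneSpectrum (𝓞 K) → ℤ := fun v => (fexp861 𝔣 v : ℤ) + ord861 v x with hM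
  have hk : ∀ v : HeightOneSpectrum (𝓞 K), ∃ k : K,
      Valued.v (((k : K) : v.adicCompletion K) - fc861 v x) ≤ WithZero.exp (-(M v)) :=
    fun v => exists_coe_approx861 v (fc861 v x) (M v)
  choose k hk using hk
  obtain ⟨γ, hγ0, hγ⟩ := exists_approx861 s M k
  refine ⟨Units.mk0 γ hγ0, fun v hv => ?_⟩
  have hvs : v ∈ s := by
    rw [hs, Set.Finite.mem_toFinset]; exact hv
  -- `γ` is close to `x_v`
  have h1 : Valued.v (((γ : K) : v.adicCompletion K) - fc861 v x) ≤ WithZero.exp (-(M v)) := by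
    have e : ((γ : K) : v.adicCompletion K) - fc861 v x
        = (((γ - k v : K)) : v.adicCompletion K) + (((k v : K) : v.adicCompletion K) - fc861 v x) := by
      rw [coe_sub861]; ring
    rw [e]
    refine le_trans (Valuation.map_add _ _ _) (max_le ?_ (hk v))
    rw [val_coe861]
    exact hγ v hvs
  have hlt : (WithZero.exp (-(M v)) : WithZero (Multiplicative ℤ)) < Valued.v (fc861 v x) := by
    rw [val_fc861_eq_exp, WithZero.exp_lt_exp, hM]
    have : 0 < (fexp861 𝔣 v : ℤ) := by exact_mod_cast Nat.pos_of_ne_zero hv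
    simp only
    linarith
  -- hence `v(γ) = v(x_v)`
  have h2 : Valued.v ((γ : K) : v.adicCompletion K) = Valued.v (fc861 v x) := by
    have h3 := Valuation.map_add_eq_of_lt_right (Valued.v : Valuation (v.adicCompletion K) _)
      (lt_of_le_of_lt h1 hlt)
    rw [sub_add_cancel] at h3
    exact h3
  have hγv : ((γ : K) : v.adicCompletion K) ≠ 0 := by
    intro h0
    rw [h0, map_zero] at h2
    exact val_fc861_ne_zero v x h2.symm
  have e2 : fc861 v ((pr861 K (Units.mk0 γ hγ0))⁻¹ * x) - 1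
      = -((((γ : K) : v.adicCompletion K) - fc861 v x) * (((γ : K) : v.adicCompletion K))⁻¹) := by
    rw [fc861_mul, fc861_inv, fc861_pr, Units.val_mk0]
    field_simp
    ring
  rw [e2, Valuation.map_neg, map_mul, map_inv₀, h2, val_fc861_eq_exp,
    mul_inv_le_iff₀ (by simp), ← WithZero.exp_add]
  refine le_trans h1 ?_
  rw [WithZero.exp_le_exp, hM]
  simp only
  linarith

end Fermat.Agent.LT.CFT.H861

end

end
-- ===== PACK-END LT/CFT/H861/Decomp.lean

-- ===== PACK-BEGIN LT/CFT/H861/FrobK2.lean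
section


/-!
# Row LT, tower CFT, helper861 (OFF-MAIN): existence of Frobenius elements of `G_K`

`exists_frob861`: for every finite place `v` of the number field `K` (embedded in `ℚ̄` by `j`)
there are `σ ∈ Gal(ℚ̄/ℚ)` fixing `j K` and a valuation subring `A` of `ℚ̄` over `v` such that
`A.IsFrobeniusAt σ #(𝓞 K ⧸ v)`.
-/

set_option autoImplicit false
set_option linter.style.haveILetI false

open IsDedekindDomain NumberField
open scoped Pointwise

noncomputable section

namespace Fermat.Agent.LT.CFT.H861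

open Fermat.Agent.S54

local notation "Qb" => AlgebraicClosure ℚ
local notation "GQ" => (AlgebraicClosure ℚ ≃ₐ[ℚ] AlgebraicClosure ℚ)

variable {K : Type} [Field K] [NumberField K] (j : K →+* Qb)

theorem coe_smul_gal861 (g : ↥(gal861 j)) (b : integralClosure ℤ Qb) :
    ((g • b : integralClosure ℤ Qb) : Qb) = (g : GQ) (b : Qb) := rfl

/-- The restricted action of `G_K` on the discrete ring of algebraic integers is continuous. -/
theorem continuousSMul_gal861 :
    letI : TopologicalSpace (integralClosure ℤ Qb) := ⊥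
    ContinuousSMul ↥(gal861 j) (integralClosure ℤ Qb) := by
  letI : TopologicalSpace (integralClosure ℤ Qb) := ⊥
  haveI := continuousSMul_integralClosure
  refine ⟨?_⟩
  have h1 : Continuous fun p : GQ × integralClosure ℤ Qb => p.1 • p.2 := continuous_smul
  have h2 : Continuous fun p : ↥(gal861 j) × integralClosure ℤ Qb =>
      (((p.1 : ↥(gal861 j)) : GQ), p.2) :=
    (continuous_subtype_val.comp continuous_fst).prodMk continuous_snd
  exact h1.comp h2

/-- A Frobenius lift in `G_K` on the ring of all algebraic integers. -/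
theorem exists_frob_lift861 (v : HeightOneSpectrum (𝓞 K)) (A : ValuationSubring Qb)
    (hA : ∀ x : 𝓞 K, x ∈ v.asIdeal ↔ j (algebraMap (𝓞 K) K x) ∈ A.nonunits)
    (p f : ℕ) (hp : p.Prime) (hpv : (p : 𝓞 K) ∈ v.asIdeal)
    (hpow : ∀ x : 𝓞 K, x ^ (p ^ f) - x ∈ v.asIdeal) :
    ∃ σ : GQ, σ ∈ gal861 j ∧
      ∀ x : integralClosure ℤ Qb, σ • x - x ^ (p ^ f) ∈ primeBelow A := by
  haveI := isGalois_algebraicClosure_rat
  haveI : Algebra.IsAlgebraic ℚ Qb := AlgebraicClosure.isAlgebraic ℚ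
  haveI : CompactSpace ↥(gal861 j) := isCompact_iff_compactSpace.1 (isClosed_gal861 j).isCompact
  haveI := primeBelow_isPrime A
  have hpQ : (p : integralClosure ℤ Qb) ∈ primeBelow A := by
    rw [mem_primeBelow]
    have h := (hA (p : 𝓞 K)).1 hpv
    simpa using h
  have hfix : ∀ a : integralClosure ℤ Qb, (∀ g : ↥(gal861 j), g • a = a) →
      a ^ (p ^ f) - a ∈ primeBelow A := by
    intro a ha
    have h1 : (a : Qb) ∈ IntermediateField.fixedField (gal861 j) := by
      rw [IntermediateField.mem_fixedField_iff]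
      intro g hg
      exact congrArg Subtype.val (ha ⟨g, hg⟩)
    rw [gal861, InfiniteGalois.fixedField_fixingSubgroup, mem_imField861] at h1
    obtain ⟨x, hx⟩ := h1
    have hxint : IsIntegral ℤ x := by
      have h2 : IsIntegral ℤ (j.toRatAlgHom.toRingHom.toIntAlgHom x) := by
        show IsIntegral ℤ (j x)
        rw [hx]; exact a.2
      exact (isIntegral_algHom_iff (j.toRatAlgHom.toRingHom.toIntAlgHom)
        (j.injective)).1 h2
    let x₀ : 𝓞 K := IsIntegralClosure.mk' (𝓞 K) x hxint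
    have hx₀ : algebraMap (𝓞 K) K x₀ = x := IsIntegralClosure.algebraMap_mk' (𝓞 K) x hxint
    have h3 := (hA (x₀ ^ (p ^ f) - x₀)).1 (hpow x₀)
    rw [mem_primeBelow]
    have e : ((a ^ (p ^ f) - a : integralClosure ℤ Qb) : Qb)
        = j (algebraMap (𝓞 K) K (x₀ ^ (p ^ f) - x₀)) := by
      rw [map_sub, map_pow, hx₀, map_sub, map_pow, hx]
      rfl
    rw [e]
    exact h3
  have hsurj : ∀ b : integralClosure ℤ Qb, ∃ c : integralClosure ℤ Qb,
      c ^ (p ^ f) - b ∈ primeBelow A := by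
    intro b
    have hpos : 0 < p ^ f := pow_pos hp.pos f
    obtain ⟨c, hc⟩ := IsAlgClosed.exists_pow_nat_eq (b : Qb) hpos
    have hcint : IsIntegral ℤ c := by
      have hb : IsIntegral ℤ (c ^ (p ^ f)) := hc ▸ b.2
      exact IsIntegral.of_pow hpos hb
    refine ⟨⟨c, hcint⟩, ?_⟩
    have : (⟨c, hcint⟩ : integralClosure ℤ Qb) ^ (p ^ f) - b = 0 := by
      rw [sub_eq_zero]
      exact Subtype.ext hc
    rw [this]
    exact Ideal.zero_mem _
  obtain ⟨σ, hσ⟩ := exists_frob_abstract861 (G := ↥(gal861 j)) (continuousSMul_gal861 j)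
    (primeBelow A) p hp hpQ f hfix hsurj
  exact ⟨(σ : GQ), σ.2, fun x => hσ x⟩

/-- **Existence of Frobenius elements of `G_K` at every finite place of `K`.** -/
theorem exists_frob861 (v : HeightOneSpectrum (𝓞 K)) :
    ∃ (σ : GQ) (A : ValuationSubring Qb), (∀ x : K, σ (j x) = j x) ∧
      (∀ x : 𝓞 K, x ∈ v.asIdeal ↔ j (algebraMap (𝓞 K) K x) ∈ A.nonunits) ∧
      A.IsFrobeniusAt σ (Nat.card (𝓞 K ⧸ v.asIdeal)) := by
  have : Algebra.IsAlgebraic ℚ Qb := AlgebraicClosure.isAlgebraic ℚ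
  obtain ⟨A, hA⟩ := exists_valuationSubring_under861 j v
  obtain ⟨p, f, hp, hpv, hcard, hpow⟩ := exists_card_eq_pow861 v
  obtain ⟨σ, hσG, hσF⟩ := exists_frob_lift861 j v A hA p f hp hpv hpow
  have hAp : A.LiesOverPrime p := by
    have h := (hA (p : 𝓞 K)).1 hpv
    simpa [ValuationSubring.LiesOverPrime] using h
  have := primeBelow_isPrime A
  have hq0 : p ^ f ≠ 0 := pow_ne_zero _ hp.ne_zero
  have hσQ : ∀ x, σ • x ∈ primeBelow A ↔ x ∈ primeBelow A := by
    intro x
    constructor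
    · intro h
      have h1 : x ^ (p ^ f) ∈ primeBelow A := by
        have h2 := Ideal.sub_mem _ h (hσF x)
        simpa using h2
      exact Ideal.IsPrime.mem_of_pow_mem inferInstance _ h1
    · intro h
      have h1 : x ^ (p ^ f) ∈ primeBelow A := Ideal.pow_mem_of_mem _ h _ (Nat.pos_of_ne_zero hq0)
      have h2 := Ideal.add_mem _ (hσF x) h1
      simpa using h2
  have hσinvQ : ∀ x, σ⁻¹ • x ∈ primeBelow A ↔ x ∈ primeBelow A := by
    intro y
    rw [← hσQ (σ⁻¹ • y)]
    simp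
  have key : ∀ τ : GQ, (∀ x, τ • x ∈ primeBelow A ↔ x ∈ primeBelow A) → ∀ x ∈ A, τ x ∈ A := by
    intro τ hτ x hx
    obtain ⟨b, s, hb, hs, hsA, hxs⟩ := (mem_valuationSubring_iff A p hp hAp x).mp hx
    refine (mem_valuationSubring_iff A p hp hAp (τ x)).mpr
      ⟨τ b, τ s, hb.map τ, hs.map τ, ?_, ?_⟩
    · exact (hτ ⟨s, hs⟩).not.mpr hsA
    · rw [← map_mul, hxs]
  have hσA : σ ∈ A.decompositionSubgroup ℚ := by
    rw [MulAction.mem_stabilizer_iff]
    ext x
    rw [ValuationSubring.mem_smul_pointwise_iff_exists]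
    constructor
    · rintro ⟨s, hs, rfl⟩
      exact key σ hσQ s hs
    · intro hx
      exact ⟨σ⁻¹ • x, key σ⁻¹ hσinvQ x hx, by simp⟩
  refine ⟨σ, A, (mem_gal861_iff j σ).1 hσG, hA, hσA, ?_⟩
  rw [hcard]
  intro x
  obtain ⟨a, rfl⟩ := IsLocalRing.residue_surjective x
  obtain ⟨b, s, hb, hs, hsA, hxs⟩ := (mem_valuationSubring_iff A p hp hAp a).mp a.2
  have hbA : b ∈ A := isIntegral_mem_valuationSubring A hb
  have hsA' : s ∈ A := isIntegral_mem_valuationSubring A hs
  have hint : ∀ (y : Qb) (hy : IsIntegral ℤ y),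
      (⟨σ, hσA⟩ : A.decompositionSubgroup ℚ) •
        IsLocalRing.residue A ⟨y, isIntegral_mem_valuationSubring A hy⟩ =
      (IsLocalRing.residue A ⟨y, isIntegral_mem_valuationSubring A hy⟩) ^ (p ^ f) := by
    intro y hy
    rw [← IsLocalRing.ResidueField.residue_smul, ← map_pow, ← sub_eq_zero, ← map_sub,
      IsLocalRing.residue_eq_zero_iff, ← ValuationSubring.coe_mem_nonunits_iff]
    exact hσF ⟨y, hy⟩
  have h1 : IsLocalRing.residue A a * IsLocalRing.residue A ⟨s, hsA'⟩ =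
      IsLocalRing.residue A ⟨b, hbA⟩ := by
    rw [← map_mul]
    congr 1
    exact Subtype.ext hxs
  have h2 : IsLocalRing.residue A ⟨s, hsA'⟩ ≠ 0 := by
    rw [Ne, IsLocalRing.residue_eq_zero_iff, ← ValuationSubring.coe_mem_nonunits_iff]
    exact hsA
  have h3 := congrArg (fun z => (⟨σ, hσA⟩ : A.decompositionSubgroup ℚ) • z) h1
  simp only [smul_mul'] at h3
  rw [hint s hs, hint b hb, ← h1, mul_pow] at h3
  exact mul_right_cancel₀ (pow_ne_zero _ h2) h3

end Fermat.Agent.LT.CFT.H861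

end

end
-- ===== PACK-END LT/CFT/H861/FrobK2.lean

-- ===== PACK-BEGIN LT/T3/H736/ASSpec.lean
section


/-!
# Row LT, tower T3, station T3.18a `AbelSatakeC` -- THE CUT (sub-architect helper736)

OFF-MAIN.  Definitions and frozen Props only (the proved top is `ASTop.lean`).  No hole, no opaque
constant, nothing assumed.  Vocabulary: `LT/H556/A0.lean`, `LT/T3/Spec.lean`, `LT/T3/EKSpec.lean`
(byte-identical copies of origin/helper14@62b2e4958).

`T3.AbelSatakeC K` (EKSpec.lean) is cut into FIVE leaves, two LOCAL (no adeles) and three GLOBAL: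

| leaf | Prop | content | size |
|---|---|---|---|
| AS.1 | `SatakeLocC K` | p-adic place `v`: for every symmetric finitely supported `A` on `ℤ²` a bi-`GL₂(𝒪_v)`-invariant `f₀` on `GL₂(K_v)` of finite support mod `GL₂(𝒪_v)` with `N`-integral `q^{-(m₁+m₂)/2} A(m₁,m₂)` and Hecke eigenvalue `∑ A(m) z₁^{m₁} z₂^{m₂}` | 3k |
| AS.2 | `AbelCplxC` | `GL₂(ℂ)`, MATHLIB ONLY (= registry T3.17): for every symmetric `β ∈ C_c^∞(ℝ²)` a continuous bi-`U(2)`-invariant `F` of compact support with `N`-integral `|c₁ c₂| β(log|c₁|, log|c₂|)` acting on the functions of parameter `0` by `κ_ℂ ∫β` | 3k |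
| AS.3 | `PureRegC K` | the pure tensor `pureFn` is continuous, of compact support, bi-invariant, supported at `S'` | 1k |
| AS.4 | `NIntC K` | adelic `N`-integral of a pure tensor = `κ(g,g') Φ(Δ(g,g') + j c₀)` (Iwasawa, module of ideles, product formula, splitting of `𝔸_K` at `S'`) | 3k |
| AS.5 | `ROpC K` | `R(pureFn) φ = κ₁ (∑ A(m) z^m) (∏_w C_w) φ` (splitting of `GL₂(𝔸_K)` at `S'`, coset sums at `v₀`, iterated integrals at the infinite places) | 3k |

`ASTop.lean`: `abelSatake_of : SatakeLocC K → AbelCplxC → PureRegC K → NIntC K → ROpC K →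
AbelSatakeC K` (PROVED there).

## Conventions (all checked against the header of EKSpec.lean)

* `ordv c = - log (Valued.v c)`: a uniformiser has `ordv = 1`.
* `upperGL c₁ c₂ x = [[c₁, x], [0, c₂]]`.
* p-adic `N`-integral, any Haar measure `ν₀` of `K_v`:
  `∫ f₀ [[c₁, x], [0, c₂]] dν₀(x) = ν₀(𝒪_v) q^{-(m₁+m₂)/2} A(m₁, m₂)`, `m_i = ordv c_i`.
  Check `f₀ = 1_{K diag(ϖ,1) K}`, `A = √q (δ_{(1,0)} + δ_{(0,1)})`: `(c₁,c₂) = (ϖ,1)`: `x ∈ 𝒪`,
  integral `ν₀(𝒪) = ν₀(𝒪) q^{-1/2} √q`; `(c₁,c₂) = (1,ϖ)`: the same.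
* complex `N`-integral, Lebesgue measure of `ℂ`:
  `∫ F [[c₁, x], [0, c₂]] dx = |c₁| |c₂| β(log |c₁|, log |c₂|)` (the module of `ℂ` is `|·|²`).
  `F(x) = F₀(d(x), log |det x|)`, `cosh d = tr(x x*) / (2 |det x|)`,
  `F₀(r, c) = - ∂_u β̃(r, c) / (2π sinh r)`, `β̃(u, c) = β((c+u)/2, (c-u)/2)` (memo helper14 §5).
* action at a complex place: `∫ Ψ(y h) F(h) dμ_ℂ(h) = κ_ℂ (∫_{ℝ²} β) Ψ(y)` for `Ψ` continuous,
  right invariant under `U(2)` and the positive scalars, with the mean value property of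
  parameter `0` (`A0.MeanValueComplex`); `κ_ℂ` depends on the Haar measure `μ_ℂ` only.
  Proof: Cartan decomposition `h = k₁ torus(d) k₂ z`, `dμ_ℂ = c sinh² d dd dk₁ dk₂ d^×z`,
  `∫_{U(2)} Ψ(y k torus d) dk = (d / sinh d) Ψ(y)` (the mean value property),
  `∫₀^∞ F₀(r,c) r sinh r dr = (1/2π) ∫₀^∞ β̃(r,c) dr` (one integration by parts),
  `∫∫ β̃ du dc = 2 ∫_{ℝ²} β`.
* product formula used by AS.4: `q^{-n/2} ∏_w |α|_w = 1` for `(α) = 𝔭_{v₀}ⁿ`, `K` totally complex.
-/

set_option autoImplicit false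

open IsDedekindDomain NumberField MeasureTheory
open Fermat.Agent.LT.H556.A0

noncomputable section

namespace Fermat.Agent.LT.T3.AS

/-! ## 0. Vocabulary -/

/-- The upper triangular matrix `[[c₁, x], [0, c₂]]`. -/
def upperGL {R : Type*} [CommRing R] (c₁ c₂ : Rˣ) (x : R) : GL (Fin 2) R :=
  ⟨!![(c₁ : R), x; 0, (c₂ : R)],
    !![((c₁⁻¹ : Rˣ) : R), -(((c₁⁻¹ : Rˣ) : R) * x * ((c₂⁻¹ : Rˣ) : R)); 0, ((c₂⁻¹ : Rˣ) : R)],
    by
      ext i j; fin_cases i <;> fin_cases j <;>
        simp [Matrix.mul_apply, Fin.sum_univ_two, mul_assoc],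
    by
      ext i j
      fin_cases i <;> fin_cases j
      · simp [Matrix.mul_apply, Fin.sum_univ_two]
      · simp only [Matrix.mul_apply, Fin.sum_univ_two]
        simp
      · simp [Matrix.mul_apply, Fin.sum_univ_two]
      · simp [Matrix.mul_apply, Fin.sum_univ_two]⟩

theorem upperGL_coe {R : Type*} [CommRing R] (c₁ c₂ : Rˣ) (x : R) :
    ((upperGL c₁ c₂ x : GL (Fin 2) R) : Matrix (Fin 2) (Fin 2) R) = !![(c₁ : R), x; 0, (c₂ : R)] :=
  rfl

variable (K : Type) [Field K] [NumberField K]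

/-- The component at the infinite place `w`, in `ℂ`. -/
def infHom (w : InfinitePlace K) : Adl K →+* ℂ :=
  (InfinitePlace.Completion.extensionEmbedding w).comp
    ((Pi.evalRingHom (fun v : InfinitePlace K => v.Completion) w).comp
      (RingHom.fst (InfiniteAdeleRing K) (FiniteAdeleRing (𝓞 K) K)))

/-- The component at the finite place `v`. -/
def finHom (v : HeightOneSpectrum (𝓞 K)) : Adl K →+* v.adicCompletion K :=
  (RestrictedProduct.evalRingHom (fun v : HeightOneSpectrum (𝓞 K) => v.adicCompletion K) v).comp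
    (RingHom.snd (InfiniteAdeleRing K) (FiniteAdeleRing (𝓞 K) K))

/-- The component of `g ∈ GL₂(𝔸_K)` at the infinite place `w`, in `GL₂(ℂ)`. -/
def infGL (w : InfinitePlace K) : G K →* GL (Fin 2) ℂ :=
  Matrix.GeneralLinearGroup.map (infHom K w)

/-- The component of `g ∈ GL₂(𝔸_K)` at the finite place `v`, in `GL₂(K_v)`. -/
def finGL (v : HeightOneSpectrum (𝓞 K)) : G K →* GL (Fin 2) (v.adicCompletion K) :=
  Matrix.GeneralLinearGroup.map (finHom K v)

theorem infGL_coe (w : InfinitePlace K) (g : G K) :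
    ((infGL K w g : GL (Fin 2) ℂ) : Matrix (Fin 2) (Fin 2) ℂ) = infComp w g := rfl

theorem finGL_coe (v : HeightOneSpectrum (𝓞 K)) (g : G K) :
    ((finGL K v g : GL (Fin 2) (v.adicCompletion K)) :
      Matrix (Fin 2) (Fin 2) (v.adicCompletion K)) = finComp v g := rfl

/-- At every finite place `v ≠ v₀` the component of `h` lies in `U(𝔫)_v`
(the condition of `T3.IsSuppAt`). -/
def OutsideU (𝔫 : Ideal (𝓞 K)) (v₀ : HeightOneSpectrum (𝓞 K)) (h : G K) : Prop :=
  ∀ v : HeightOneSpectrum (𝓞 K), v ≠ v₀ → ∀ i j : Fin 2,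
    (finComp v h - 1) i j ∈ idealClosure 𝔫 v ∧ (finComp v h⁻¹ - 1) i j ∈ idealClosure 𝔫 v

open Classical in
/-- THE PURE TENSOR `f₀ ⊗ ⊗_w F_w ⊗ 1_{U^{S'}}`, `S' = {v₀} ∪ S_∞`. -/
def pureFn (𝔫 : Ideal (𝓞 K)) (v₀ : HeightOneSpectrum (𝓞 K))
    (f₀ : GL (Fin 2) (v₀.adicCompletion K) → ℂ) (F : InfinitePlace K → GL (Fin 2) ℂ → ℂ)
    (h : G K) : ℂ :=
  if OutsideU K 𝔫 v₀ h then f₀ (finGL K v₀ h) * ∏ w : InfinitePlace K, F w (infGL K w h) else 0

/-- The pure tensor on the coordinate group: `Φ(m, x) = A(m) ∏_w β_w(x_w)`. -/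
def pureCoord (A : ℤ × ℤ → ℂ) (β : InfinitePlace K → ℝ × ℝ → ℂ) : Coord K → ℂ :=
  fun p => A p.1 * ∏ w : InfinitePlace K, β w (p.2 w)

/-- The Laurent polynomial `∑_m A(m) z₁^{m₁} z₂^{m₂}`. -/
def laurent (A : ℤ × ℤ → ℂ) (z₁ z₂ : ℂ) : ℂ :=
  ∑ᶠ m : ℤ × ℤ, A m * z₁ ^ m.1 * z₂ ^ m.2

/-- `A` is finitely supported and symmetric. -/
def IsSymFin (A : ℤ × ℤ → ℂ) : Prop :=
  (Function.support A).Finite ∧ ∀ m₁ m₂ : ℤ, A (m₁, m₂) = A (m₂, m₁)

/-- `β` is smooth, compactly supported and symmetric. -/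
def IsSymBump (β : ℝ × ℝ → ℂ) : Prop :=
  ContDiff ℝ ((⊤ : ℕ∞) : WithTop ℕ∞) β ∧ HasCompactSupport β ∧ ∀ x y : ℝ, β (x, y) = β (y, x)

/-! ## 1. The p-adic place -/

section Padic

variable {K}
variable (v : HeightOneSpectrum (𝓞 K))

/-- The additive valuation (junk value at `0`): a uniformiser has `ordv = 1`. -/
def ordv (c : v.adicCompletion K) : ℤ := - WithZero.log (Valued.v c)

/-- `g ∈ GL₂(𝒪_v)`. -/
def IsIntGL (g : GL (Fin 2) (v.adicCompletion K)) : Prop :=
  ∀ i j : Fin 2,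
    (g : Matrix (Fin 2) (Fin 2) (v.adicCompletion K)) i j ∈ v.adicCompletionIntegers K ∧
    ((g⁻¹ : GL (Fin 2) (v.adicCompletion K)) : Matrix (Fin 2) (Fin 2) (v.adicCompletion K)) i j
      ∈ v.adicCompletionIntegers K

/-- `f₀` is bi-invariant under `GL₂(𝒪_v)`. -/
def IsBiIntInv (f₀ : GL (Fin 2) (v.adicCompletion K) → ℂ) : Prop :=
  ∀ k k' g : GL (Fin 2) (v.adicCompletion K), IsIntGL v k → IsIntGL v k' →
    f₀ (k * g * k') = f₀ g

/-- `R` is a system of representatives of cosets `h GL₂(𝒪_v)` which covers the support of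
`f₀` (pairwise inequivalent; cosets on which `f₀ = 0` are allowed). -/
def IsRepSys (f₀ : GL (Fin 2) (v.adicCompletion K) → ℂ)
    (R : Finset (GL (Fin 2) (v.adicCompletion K))) : Prop :=
  (∀ h ∈ R, ∀ h' ∈ R, IsIntGL v (h⁻¹ * h') → h = h') ∧
    ∀ g : GL (Fin 2) (v.adicCompletion K), f₀ g ≠ 0 → ∃ h ∈ R, IsIntGL v (h⁻¹ * g)

/-- The local form of `A0.IsHeckeCosetSystem`: a full system of representatives of
`GL₂(𝒪_v) diag(ϖ,1) GL₂(𝒪_v) / GL₂(𝒪_v)`. -/
def IsLocCosetSys (H : Finset (GL (Fin 2) (v.adicCompletion K))) : Prop :=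
  H.card = Ideal.absNorm v.asIdeal + 1 ∧
    (∀ h ∈ H, (∀ i j : Fin 2,
        (h : Matrix (Fin 2) (Fin 2) (v.adicCompletion K)) i j ∈ v.adicCompletionIntegers K) ∧
      Valued.v (h : Matrix (Fin 2) (Fin 2) (v.adicCompletion K)).det = WithZero.exp (-1 : ℤ)) ∧
    ∀ h ∈ H, ∀ h' ∈ H, h ≠ h' → ¬ ∀ i j : Fin 2,
      ((h⁻¹ * h' : GL (Fin 2) (v.adicCompletion K)) :
        Matrix (Fin 2) (Fin 2) (v.adicCompletion K)) i j ∈ v.adicCompletionIntegers K

/-- The local form of `A0.IsHeckeEigenAt` for a right `GL₂(𝒪_v)`-invariant function on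
`GL₂(K_v)`: `T_v Φ₀ = √q a Φ₀`, `S_v Φ₀ = b Φ₀`. -/
structure IsLocEigen (Φ₀ : GL (Fin 2) (v.adicCompletion K) → ℂ) (a b : ℂ) : Prop where
  right_inv : ∀ k y : GL (Fin 2) (v.adicCompletion K), IsIntGL v k → Φ₀ (y * k) = Φ₀ y
  hecke : ∀ H : Finset (GL (Fin 2) (v.adicCompletion K)), IsLocCosetSys v H →
    ∀ y : GL (Fin 2) (v.adicCompletion K), ∑ h ∈ H, Φ₀ (y * h)
      = ((Real.sqrt (Ideal.absNorm v.asIdeal : ℝ) : ℝ) : ℂ) * a * Φ₀ y
  scalar : ∀ (z : GL (Fin 2) (v.adicCompletion K)) (c : v.adicCompletion K),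
    Valued.v c = WithZero.exp (-1 : ℤ) →
    (z : Matrix (Fin 2) (Fin 2) (v.adicCompletion K)) = Matrix.diagonal (fun _ => c) →
    ∀ y : GL (Fin 2) (v.adicCompletion K), Φ₀ (y * z) = b * Φ₀ y

/-- The `N`-integral of `f₀` is the Satake coefficient `A` (any Haar measure of `K_v`). -/
def HasSatakeN (f₀ : GL (Fin 2) (v.adicCompletion K) → ℂ) (A : ℤ × ℤ → ℂ) : Prop :=
  letI : MeasurableSpace (v.adicCompletion K) := borel (v.adicCompletion K)
  ∀ ν₀ : Measure (v.adicCompletion K), ν₀.IsAddHaarMeasure →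
    ∀ c₁ c₂ : (v.adicCompletion K)ˣ,
      ∫ x, f₀ (upperGL c₁ c₂ x) ∂ν₀
        = ((ν₀ (v.adicCompletionIntegers K : Set (v.adicCompletion K))).toReal : ℂ)
          * (((Ideal.absNorm v.asIdeal : ℝ) ^
              (-(((ordv v (c₁ : v.adicCompletion K) + ordv v (c₂ : v.adicCompletion K) : ℤ) : ℝ))
                / 2) : ℝ) : ℂ)
          * A (ordv v (c₁ : v.adicCompletion K), ordv v (c₂ : v.adicCompletion K))

/-- The Hecke eigenvalue of `f₀` is the Laurent polynomial of `A` at the Satake parameters. -/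
def HasSatakeEigen (f₀ : GL (Fin 2) (v.adicCompletion K) → ℂ) (A : ℤ × ℤ → ℂ) : Prop :=
  ∀ (Φ₀ : GL (Fin 2) (v.adicCompletion K) → ℂ) (a b z₁ z₂ : ℂ), IsLocEigen v Φ₀ a b →
    z₁ + z₂ = a → z₁ * z₂ = b → b ≠ 0 →
    ∀ R : Finset (GL (Fin 2) (v.adicCompletion K)), IsRepSys v f₀ R →
      ∀ y : GL (Fin 2) (v.adicCompletion K),
        ∑ h ∈ R, f₀ h * Φ₀ (y * h) = laurent A z₁ z₂ * Φ₀ y

/-- The local Satake pair `(f₀, A)` at `v`. -/
structure IsSatakePair (f₀ : GL (Fin 2) (v.adicCompletion K) → ℂ) (A : ℤ × ℤ → ℂ) : Prop where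
  bi_inv : IsBiIntInv v f₀
  fin_supp : ∃ R : Finset (GL (Fin 2) (v.adicCompletion K)), IsRepSys v f₀ R
  n_int : HasSatakeN v f₀ A
  eigen : HasSatakeEigen v f₀ A

end Padic

/-- **AS.1 (p-adic place; Satake).**  For every finite place `v` and every symmetric finitely
supported `A` there is a Satake pair `(f₀, A)`.
Construction: `T_{k,m} = 1{h ∈ ϖ^m M₂(𝒪) : ordv (det h) = k + 2m}` (`k ≥ 0`, `m ∈ ℤ`) has
`N`-integral `ν₀(𝒪) q^{-m}` on `{m₁, m₂ ≥ m, m₁ + m₂ = k + 2m}`, i.e.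
`A_{k,m} = q^{k/2} 1{m₁, m₂ ≥ m, m₁ + m₂ = k + 2m}`; the `A_{k,m}` span the symmetric finitely
supported functions (`A_{k,m} - q A_{k-2,m+1}` is supported on `{(m, m+k), (m+k, m)}`);
`T_{k,m}` acts by `q^{k/2} h_k(z₁,z₂) (z₁ z₂)^m` by the Hecke recursion
`T_{1,0} T_{k,0} = T_{k+1,0} + q T_{0,1} T_{k-1,0}` (`h_k` = complete homogeneous polynomial).
[Cartier, Corvallis I §4; Bump §4.6; Shimura, Introduction, Thm 3.24.] -/
def SatakeLocC : Prop :=
  ∀ (v : HeightOneSpectrum (𝓞 K)) (A : ℤ × ℤ → ℂ), IsSymFin A →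
    ∃ f₀ : GL (Fin 2) (v.adicCompletion K) → ℂ, IsSatakePair v f₀ A

/-! ## 2. The complex place (Mathlib only) -/

/-- `k ∈ U(2)`. -/
def IsUnitary2 (k : GL (Fin 2) ℂ) : Prop :=
  (k : Matrix (Fin 2) (Fin 2) ℂ) * (k : Matrix (Fin 2) (Fin 2) ℂ).conjTranspose = 1

/-- The local conditions of `T3.IsSph0Level` at a complex place, for a function on `GL₂(ℂ)`:
continuous, right invariant under `U(2)` and under the positive scalars, mean value property of
parameter `0` (`A0.MeanValueComplex`). -/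
structure IsLocSph0 (Ψ : GL (Fin 2) ℂ → ℂ) : Prop where
  cont : Continuous Ψ
  unitary : ∀ k y : GL (Fin 2) ℂ, IsUnitary2 k → Ψ (y * k) = Ψ y
  scalar : ∀ (z : GL (Fin 2) ℂ) (r : ℝ), 0 < r →
    (z : Matrix (Fin 2) (Fin 2) ℂ) = Matrix.diagonal (fun _ => (r : ℂ)) →
    ∀ y : GL (Fin 2) ℂ, Ψ (y * z) = Ψ y
  mean : ∀ d : ℝ, 0 < d → ∀ Y : ℝ → ℝ → GL (Fin 2) ℂ,
    (∀ α β : ℝ, ((Y α β : GL (Fin 2) ℂ) : Matrix (Fin 2) (Fin 2) ℂ)
      = rotZ α * rotY β * torus d) →
    ∀ y : GL (Fin 2) ℂ,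
      (∫ α in (0 : ℝ)..(2 * Real.pi), ∫ β in (0 : ℝ)..Real.pi,
          Ψ (y * Y α β) * ((Real.sin β : ℝ) : ℂ))
        = ((4 * Real.pi * (d / Real.sinh d) : ℝ) : ℂ) * Ψ y

/-- The regularity of the archimedean factor. -/
structure IsCplxTest (F : GL (Fin 2) ℂ → ℂ) : Prop where
  cont : Continuous F
  supp : HasCompactSupport F
  bi_inv : ∀ k k' g : GL (Fin 2) ℂ, IsUnitary2 k → IsUnitary2 k' → F (k * g * k') = F g

/-- The `N`-integral of `F` is `β` (Lebesgue measure of `ℂ`). -/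
def HasAbelN (F : GL (Fin 2) ℂ → ℂ) (β : ℝ × ℝ → ℂ) : Prop :=
  ∀ c₁ c₂ : ℂˣ, ∫ x : ℂ, F (upperGL c₁ c₂ x)
    = ((‖(c₁ : ℂ)‖ * ‖(c₂ : ℂ)‖ : ℝ) : ℂ) * β (Real.log ‖(c₁ : ℂ)‖, Real.log ‖(c₂ : ℂ)‖)

/-- `R(F)` acts on the functions of parameter `0` by the scalar `C`. -/
def ActsBy {m : MeasurableSpace (GL (Fin 2) ℂ)} (μc : Measure (GL (Fin 2) ℂ))
    (F : GL (Fin 2) ℂ → ℂ) (C : ℂ) : Prop :=
  ∀ Ψ : GL (Fin 2) ℂ → ℂ, IsLocSph0 Ψ → ∀ y : GL (Fin 2) ℂ, ∫ h, Ψ (y * h) * F h ∂μc = C * Ψ y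

/-- **AS.2 = T3.17 (complex place; Abel transform on `ℍ³`), MATHLIB ONLY.**
There are a Haar measure `μ_ℂ` of `GL₂(ℂ)` (e.g. `|det|⁻⁴ ·` Lebesgue; the owner chooses) and
`κ_ℂ ≠ 0` such that every symmetric `β ∈ C_c^∞(ℝ²)` is the `N`-integral of a continuous
bi-`U(2)`-invariant `F` of compact support with `R(F) Ψ = κ_ℂ (∫ β) Ψ` on the functions of
parameter `0`.  (AS.5 is stated for EVERY Haar measure `μ_ℂ`, so no uniqueness is needed here.)
Construction and proof: header of this file and memo helper14 §5; [Helgason, GGA, Ch. IV §5;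
Lindenstrauss--Venkatesh §4]. -/
def AbelCplxC : Prop :=
  letI : MeasurableSpace (GL (Fin 2) ℂ) := borel (GL (Fin 2) ℂ)
  ∃ μc : Measure (GL (Fin 2) ℂ), μc.IsHaarMeasure ∧
    ∃ κc : ℂ, κc ≠ 0 ∧ ∀ β : ℝ × ℝ → ℂ, IsSymBump β →
      ∃ F : GL (Fin 2) ℂ → ℂ, IsCplxTest F ∧ HasAbelN F β ∧
        ActsBy μc F (κc * ∫ x : ℝ × ℝ, β x)

/-! ## 3. The global leaves -/

/-- **AS.3 (regularity of the pure tensor).**  `GL₂(𝒪_v)`-cosets are open and compact, the set
`OutsideU` is open and closed, `finGL`, `infGL` are continuous; a subset of `GL₂(𝔸_K)` which is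
compact at `v₀`, compact at the infinite places and contained in `OutsideU` is relatively
compact (units topology!); `U(𝔫)_{v₀} = GL₂(𝒪_{v₀})` because `v₀ ∤ 𝔫`. -/
def PureRegC : Prop :=
  ∀ 𝔫 : Ideal (𝓞 K), 𝔫 ≠ ⊥ → ∀ v₀ : HeightOneSpectrum (𝓞 K), ¬ v₀.asIdeal ∣ 𝔫 →
  ∀ (f₀ : GL (Fin 2) (v₀.adicCompletion K) → ℂ) (F : InfinitePlace K → GL (Fin 2) ℂ → ℂ),
    IsBiIntInv v₀ f₀ → (∃ R : Finset (GL (Fin 2) (v₀.adicCompletion K)), IsRepSys v₀ f₀ R) →
    (∀ w, IsCplxTest (F w)) →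
    Continuous (pureFn K 𝔫 v₀ f₀ F) ∧ HasCompactSupport (pureFn K 𝔫 v₀ f₀ F) ∧
      IsBiInv K 𝔫 (pureFn K 𝔫 v₀ f₀ F) ∧ IsSuppAt K 𝔫 v₀ (pureFn K 𝔫 v₀ f₀ F)

/-- **AS.4 (the adelic `N`-integral of a pure tensor).**  Frame of `T3.AbelSatakeC`.  There are
`κ` and `Δ`, independent of the pure tensor, with
`∫_{𝔸_K} f(g⁻¹ n(x) γ₀ʲ g') dν(x) = κ(g,g') Φ(Δ(g,g') + j c₀)`.
Proof: header of EKSpec.lean and memo helper14 §5, item (i): Iwasawa `g = b₁ k₁`, `g' = b' k'`
(`T1.IwasawaC`), `γ₀ʲ n' = n'' γ₀ʲ`, affine substitution in `x` (module of an idele,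
`T1.H726.HaarModuleC`), splitting of `ν` at `S'`, the local `N`-integrals, `k'⁻¹ γ₀ʲ k' ∈ U(𝔫)_v`
outside `S'` (normality of `U(𝔫)_v` in `GL₂(𝒪_v)`, `α ≡ 1 mod 𝔫`), and the product formula
`q^{-n/2} ∏_w |α|_w = 1`. -/
def NIntC : Prop :=
  letI : MeasurableSpace (Adl K) := borel (Adl K)
  (∀ w : InfinitePlace K, w.IsComplex) →
  ∀ ν : Measure (Adl K), ν.IsAddHaarMeasure →
  ∀ 𝔫 : Ideal (𝓞 K), 𝔫 ≠ ⊥ → ∀ v₀ : HeightOneSpectrum (𝓞 K), ¬ v₀.asIdeal ∣ 𝔫 →
  ∀ (a₀ : 𝓞 K) (n : ℕ), 0 < n → Ideal.span {a₀} = v₀.asIdeal ^ n → a₀ - 1 ∈ 𝔫 →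
  ∀ α : Kˣ, (α : K) = algebraMap (𝓞 K) K a₀ →
    ∃ (κ : G K → G K → ℂ) (Δ : G K → G K → Coord K),
      ∀ (A : ℤ × ℤ → ℂ) (β : InfinitePlace K → ℝ × ℝ → ℂ)
        (f₀ : GL (Fin 2) (v₀.adicCompletion K) → ℂ) (F : InfinitePlace K → GL (Fin 2) ℂ → ℂ),
        IsBiIntInv v₀ f₀ → (∃ R : Finset (GL (Fin 2) (v₀.adicCompletion K)), IsRepSys v₀ f₀ R) →
        HasSatakeN v₀ f₀ A →
        (∀ w, IsCplxTest (F w)) → (∀ w, HasAbelN (F w) (β w)) →
        ∀ (g g' : G K) (j : ℤ),
          Integrable (fun x => pureFn K 𝔫 v₀ f₀ F (g⁻¹ * unip K x * torK K α ^ j * g')) ν ∧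
          ∫ x, pureFn K 𝔫 v₀ f₀ F (g⁻¹ * unip K x * torK K α ^ j * g') ∂ν
            = κ g g' * pureCoord K A β (Δ g g' + j • coordTor K n α)

/-- **AS.5 (the operator of a pure tensor).**  There is `κ₁ ≠ 0`, independent of the pure tensor,
with `R(f) φ = κ₁ (∑_m A(m) z₁^{m₁} z₂^{m₂}) (∏_w C_w) φ` whenever `f₀` has the Hecke eigenvalue
`laurent A` and `F_w` acts by `C_w`.
Proof: `f₀ = ∑_{h ∈ R} f₀(h) 1_{h GL₂(𝒪)}`, so `f = ∑_h f₀(h) L_ĥ f¹` with
`f¹ = 1_{GL₂(𝒪_{v₀})} ⊗ ⊗_w F_w ⊗ 1_{U^{S'}}` and `ĥ` the element of `GL₂(𝔸_K)` supported at `v₀`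
with component `h`; `R(L_ĥ f¹) φ (g) = R(f¹) φ (g ĥ)` (left invariance of `μ`);
`f¹` is supported in the open subgroup `G_∞ × U(𝔫)_f`, the image of the Haar measure under the
projection to `G_∞ = ∏_w GL₂(ℂ)` (compact kernel) is a Haar measure, hence `κ₁ ∏_w μ_ℂ`;
`φ` is right `U(𝔫)`-invariant; the infinite places one at a time (`ActsBy`). -/
def ROpC : Prop :=
  letI : MeasurableSpace (G K) := borel (G K)
  letI : MeasurableSpace (GL (Fin 2) ℂ) := borel (GL (Fin 2) ℂ)
  (∀ w : InfinitePlace K, w.IsComplex) →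
  ∀ μ : Measure (G K), μ.IsHaarMeasure →
  ∀ μc : Measure (GL (Fin 2) ℂ), μc.IsHaarMeasure →
  ∀ 𝔫 : Ideal (𝓞 K), 𝔫 ≠ ⊥ → ∀ v₀ : HeightOneSpectrum (𝓞 K), ¬ v₀.asIdeal ∣ 𝔫 →
    ∃ κ₁ : ℂ, κ₁ ≠ 0 ∧
      ∀ (A : ℤ × ℤ → ℂ) (C : InfinitePlace K → ℂ)
        (f₀ : GL (Fin 2) (v₀.adicCompletion K) → ℂ) (F : InfinitePlace K → GL (Fin 2) ℂ → ℂ),
        IsBiIntInv v₀ f₀ → (∃ R : Finset (GL (Fin 2) (v₀.adicCompletion K)), IsRepSys v₀ f₀ R) →
        HasSatakeEigen v₀ f₀ A →
        (∀ w, IsCplxTest (F w)) → (∀ w, ActsBy μc (F w) (C w)) →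
        ∀ φ : G K → ℂ, IsSph0Level K 𝔫 φ → ∀ a b z₁ z₂ : ℂ, IsHeckeEigenAt φ v₀ a b →
          z₁ + z₂ = a → z₁ * z₂ = b → b ≠ 0 →
          ∀ g : G K, Rop K μ (pureFn K 𝔫 v₀ f₀ F) φ g
            = κ₁ * laurent A z₁ z₂ * (∏ w : InfinitePlace K, C w) * φ g

end Fermat.Agent.LT.T3.AS

end

end
-- ===== PACK-END LT/T3/H736/ASSpec.lean

-- ===== PACK-BEGIN LT/T2/H386/GPSSpec.lean
section





/-!
# Row LT, tower T2, leaf T2.03 = `GPSCore` (owner helper386): THE CUT

OFF-MAIN.  Definitions, frozen sub-leaf Props and PROVED tops.  No hole, nothing assumed.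
Bytes typed against: `LT/H556/A0.lean` (66d3374a), `LT/T1/Spec.lean` (e8ae48d6),
`LT/T2/Spec.lean` v3 (b934629a), byte-identical copies.

## The route: ELEMENTARY (no Poisson summation, no Fourier transform, no unfolding over `N(K)\G`,
## no Iwasawa integration formula)

Notation: `n(v) = [[1, v], [0, 1]]`, `c_x(v) = x⁻¹ n(v) x`, `D` a fundamental domain of `K` in
`𝔸_K` with `0 < ν(D) < ∞`, `P θ (g) = ν(D)⁻¹ ∫_D θ(n(v) g) dν(v)` (constant term),
`(𝔄_x g)(h) = ν(D)⁻¹ ∫_D g(c_x(-v) h) dν(v)`, `R(g) θ (x) = ∫ θ(x h) g(h) dμ(h)`.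

1. `R(g)(P θ)(x) = R(𝔄_x g) θ (x)` for all `x` (Fubini and left invariance of `μ`).
2. `θ₀ = ψ - Ψ` has `P θ₀ = 0` (`Ψ` is left `N(𝔸)`-invariant), hence
   `R(f) θ₀ (x) = R((1 - 𝔄_x) f) θ₀ (x) = ... = R((1 - 𝔄_x)^M f) θ₀ (x)` for every `M`.
3. `(1 - 𝔄_x)^M f (h)` is the mean over `v₁, …, v_M ∈ D` of the `M`-th finite difference
   `Δ_{v₁} ⋯ Δ_{v_M} f (h)`, `Δ_v g (h) = g(h) - g(c_x(-v) h)`.
4. Reduction theory (`T1.SiegelCompactC`): `x = β z a ω`, `β ∈ B(K)`, `z` central, `a = diag(s,1)`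
   in the ray, `ω` in a compact set, `s^n ≍ H(x)`.  Replace `x` by `x' = diag(1/m, 1) z a ω`
   (`m` a suitable positive integer, `ψ` and `Ψ` are left `B(K)`-invariant): then
   `c_{x'}(v) = ω⁻¹ n(m v_f) ω · ω⁻¹ n(m v_∞ / s) ω`, the first factor lies in `U(𝔫)` (here
   `𝔫 ≠ 0`), and the `M`-th finite difference of the smooth function
   `t ↦ f(ω⁻¹ n(t) ω h)` of the archimedean variable with steps `m v_∞ / s` is `O(s^{-M})`.
5. `|R(f) θ₀ (x)| ≤ sup |(1 - 𝔄)^M f| · ∫_Ω |θ₀(x h)| dμ(h) ≤ C H(x)^{-N} ∫_{Ω'} |ψ(x h)| dμ(h)`.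
6. `∫_{Ω'} |ψ(x h)| dμ(h) ≤ μ(Ω')^{1/2} (∫_{x Ω'} |ψ|²)^{1/2}` and
   `∫_{x Ω'} |ψ|² ≤ (multiplicity of x Ω' over GL₂(K) Z⁺ \ G) · ‖ψ‖₂²`, multiplicity `≤ C H(x)`
   (lattice points `ξ ∈ K ∩ (compact × s · compact)`).

## The cut

* `KernelEst K 𝔫` (steps 1 - 5) and `LocalL2 K 𝔫` (step 6); PROVED top
  `gpsCore_of_kernel_local : KernelEst K 𝔫 → LocalL2 K 𝔫 → T2.GPSCore K 𝔫`.
* `FDBound K 𝔫` (step 4: the analytic core, a POINTWISE statement on `f`, no measure, no `ψ`);
  `LeafSoft1 K : T1Out → 𝔫 ≠ ⊥ → FDBound K 𝔫 → KernelEst K 𝔫` (steps 1, 2, 3, 5: measure theory).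
* `LeafFD K : T1Out → 𝔫 ≠ ⊥ → FDBound K 𝔫`, `LeafLocalL2 K : T1Out → 𝔫 ≠ ⊥ → LocalL2 K 𝔫`.
* PROVED `leaf03_of_leaves : LeafFD K → LeafSoft1 K → LeafLocalL2 K → T2.Leaf03 K`.
-/

set_option autoImplicit false

open IsDedekindDomain NumberField MeasureTheory
open Fermat.Agent.LT.H556.A0

noncomputable section

namespace Fermat.Agent.LT.T2.H386

open Fermat.Agent.LT.T2

attribute [local instance] Fermat.Agent.LT.T2.borelG

variable {K : Type} [Field K] [NumberField K]

/-! ## 1. Vocabulary -/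

/-- The upper unipotent element `n(x) = [[1, x], [0, 1]]` of `GL₂(𝔸_K)`. -/
def unip386 (x : Adl K) : G K :=
  ⟨!![1, x; 0, 1], !![1, -x; 0, 1],
    by ext i j; fin_cases i <;> fin_cases j <;> simp [Matrix.mul_apply, Fin.sum_univ_two],
    by ext i j; fin_cases i <;> fin_cases j <;> simp [Matrix.mul_apply, Fin.sum_univ_two]⟩

theorem unip386_coe (x : Adl K) :
    ((unip386 x : G K) : Matrix (Fin 2) (Fin 2) (Adl K)) = !![1, x; 0, 1] := rfl

/-- The conjugate `c_x(v) = x⁻¹ n(v) x`. -/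
def conjUnip386 (x : G K) (v : Adl K) : G K := x⁻¹ * unip386 v * x

/-- The first difference `Δ_v g (h) = g(h) - g(c_x(-v) h)`. -/
def diff386 (x : G K) (v : Adl K) (g : G K → ℂ) : G K → ℂ :=
  fun h => g h - g (conjUnip386 x (-v) * h)

/-- The iterated difference `Δ_{v₁} ⋯ Δ_{v_M} g`. -/
def fdiff386 (x : G K) : List (Adl K) → (G K → ℂ) → (G K → ℂ)
  | [], g => g
  | v :: vs, g => fdiff386 x vs (diff386 x v g)

/-! ## 2. The first cut: kernel estimate and local `L²` bound -/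

/-- **KERNEL ESTIMATE** (steps 1 - 5): `|R(f)ψ(x) - R(f)Ψ(x)| H(x)^N ≤ C ∫_Ω |ψ(x h)| dμ(h)` on
`{H ≥ c}`, `Ω` compact. -/
def KernelEst (K : Type) [Field K] [NumberField K] (𝔫 : Ideal (𝓞 K)) : Prop :=
  ∀ (F : Frame K) (f : G K → ℂ), IsTestFn 𝔫 f → ∀ N : ℕ,
    ∃ (C c : ℝ) (Ω : Set (G K)), 0 ≤ C ∧ 0 < c ∧ IsCompact Ω ∧
      ∀ ψ Ψ : G K → ℂ, IsAutFn 𝔫 ψ → IsConstTerm ψ Ψ →
        ∀ (x : G K) (t : ℝ), T1.HasHeight K x t → c ≤ t →
          ‖conv F f ψ x - conv F f Ψ x‖ * t ^ N ≤ C * ∫ h in Ω, ‖ψ (x * h)‖ ∂F.μ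

/-- **LOCAL `L²` BOUND** (step 6): `∫_Ω |ψ(x h)| dμ(h) ≤ C H(x) ‖ψ‖₂` on `{H ≥ c}`, for every
compact `Ω`.  (Cauchy--Schwarz; the multiplicity of `x Ω` over `GL₂(K) Z⁺ \ GL₂(𝔸_K)` is
`O(H(x))`: after `T1.SiegelCompactC` and `T1.SiegelSepC` it is a count of `ξ ∈ K` in
`compact × s · compact`, `s^n ≍ H(x)`.) -/
def LocalL2 (K : Type) [Field K] [NumberField K] (𝔫 : Ideal (𝓞 K)) : Prop :=
  ∀ (F : Frame K) (Ω : Set (G K)), IsCompact Ω →
    ∃ C c : ℝ, 0 < c ∧ ∀ ψ : G K → ℂ, IsAutFn 𝔫 ψ →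
      ∀ (x : G K) (t : ℝ), T1.HasHeight K x t → c ≤ t →
        ∫ h in Ω, ‖ψ (x * h)‖ ∂F.μ ≤ C * t * Real.sqrt (nsq F ψ)

/-- TOP of the first cut. -/
theorem gpsCore_of_kernel_local {𝔫 : Ideal (𝓞 K)} (h1 : KernelEst K 𝔫) (h2 : LocalL2 K 𝔫) :
    GPSCore K 𝔫 := by
  intro F f hf N
  obtain ⟨C₁, c₁, Ω, hC₁, hc₁, hΩ, hK⟩ := h1 F f hf (N + 1)
  obtain ⟨C₂, c₂, hc₂, hL⟩ := h2 F Ω hΩ
  refine ⟨C₁ * C₂, max c₁ c₂, lt_max_of_lt_left hc₁, ?_⟩
  intro ψ Ψ hψ hΨ x t hx ht
  have ht₁ : c₁ ≤ t := le_trans (le_max_left _ _) ht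
  have ht₂ : c₂ ≤ t := le_trans (le_max_right _ _) ht
  have htpos : 0 < t := lt_of_lt_of_le hc₁ ht₁
  have hA := hK ψ Ψ hψ hΨ x t hx ht₁
  have hB := hL ψ hψ x t hx ht₂
  have hC : ‖conv F f ψ x - conv F f Ψ x‖ * t ^ (N + 1)
      ≤ C₁ * (C₂ * t * Real.sqrt (nsq F ψ)) :=
    le_trans hA (mul_le_mul_of_nonneg_left hB hC₁)
  have hD : (‖conv F f ψ x - conv F f Ψ x‖ * t ^ N) * t
      ≤ (C₁ * C₂ * Real.sqrt (nsq F ψ)) * t := by
    calc (‖conv F f ψ x - conv F f Ψ x‖ * t ^ N) * t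
        = ‖conv F f ψ x - conv F f Ψ x‖ * t ^ (N + 1) := by ring
      _ ≤ C₁ * (C₂ * t * Real.sqrt (nsq F ψ)) := hC
      _ = (C₁ * C₂ * Real.sqrt (nsq F ψ)) * t := by ring
  exact le_of_mul_le_mul_right hD htpos

/-! ## 3. The second cut: the analytic core `FDBound` -/

/-- **FINITE DIFFERENCE BOUND** (step 4; the analytic core of `GPSCore`).  A POINTWISE statement
on the test function: no measure, no automorphic function.  For a compact set `𝒟` of adeles and
`N` there are `M`, `C`, `c` and a compact `W ⊆ GL₂(𝔸_K)` such that every `x` of height `t ≥ c` is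
`β x'` with `β ∈ B(K)`, all conjugates `x'⁻¹ n(v) x'`, `v ∈ 𝒟`, in `W`, and all `M`-th finite
differences of `f` along these conjugates, with steps in `𝒟`, bounded by `C t^{-N}`.

Proof: `T1.SiegelCompactC` gives `x = β₀ z a ω`; `x' = diag(1/m, 1) z a ω`,
`β = β₀ diag(m, 1)`; `c_{x'}(v) = ω⁻¹ n(m v / σ_s) ω` (`σ_s` = the idele `s` at the infinite
places, `1` at the finite places), so `W = Ω⁻¹ n(m 𝒟̃) Ω`; `m` is a positive integer such that
`ω⁻¹ n(m u) ω ∈ U(𝔫)` for `ω ∈ Ω` and `u` in the `M`-fold sum of the finite part of `𝒟`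
(compact sets of finite adeles have bounded denominators, `𝔫 ∩ ℤ ≠ 0`); `f` is left
`U(𝔫)`-invariant, so the finite parts of the steps act trivially, and the archimedean steps are
`m v_∞ / s`; the `M`-th derivative of `t ↦ f(ω⁻¹ n(t) ω h)` is bounded uniformly in
`ω ∈ Ω`, `h` (`T2.IsSmoothAtInf` with a family which also moves `ω_∞` and `h_∞`, right
`U(𝔫)`-invariance and compact support); `M = [K:ℚ] N`. -/
def FDBound (K : Type) [Field K] [NumberField K] (𝔫 : Ideal (𝓞 K)) : Prop :=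
  ∀ f : G K → ℂ, IsTestFn 𝔫 f → ∀ 𝒟 : Set (Adl K), IsCompact 𝒟 → ∀ N : ℕ,
    ∃ (C c : ℝ) (M : ℕ) (W : Set (G K)), 0 ≤ C ∧ 0 < c ∧ IsCompact W ∧
      ∀ (x : G K) (t : ℝ), T1.HasHeight K x t → c ≤ t →
        ∃ (β : GL (Fin 2) K) (x' : G K), T1.IsUpperRat K β ∧ x = T1.ratG K β * x' ∧
          (∀ v ∈ 𝒟, conjUnip386 x' v ∈ W) ∧
          ∀ vs : List (Adl K), vs.length = M → (∀ v ∈ vs, v ∈ 𝒟) →
            ∀ h : G K, ‖fdiff386 x' vs f h‖ * t ^ N ≤ C

/-! ## 4. The sub-leaves -/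

/-- **T2.03a** THE ANALYTIC CORE: `FDBound` from T1.  (≈ 3k lines; the owner splits:
(i) contraction of compact sets of finite adeles by integers, (ii) uniform bounds for the
derivatives of a test function, (iii) finite differences of a `C^M` function on `ℝ^d`.) -/
def LeafFD (K : Type) [Field K] [NumberField K] : Prop :=
  T1.T1Out K → ∀ 𝔫 : Ideal (𝓞 K), 𝔫 ≠ ⊥ → FDBound K 𝔫

/-- **T2.03b** SOFT PART: `FDBound ⇒ KernelEst` (steps 1, 2, 3, 5: Fubini, left invariance of
Haar measures, `Ψ` is left `B(K) N(𝔸)`-invariant by the quantifiers of `T2.IsConstTerm`).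
(≈ 1k lines.) -/
def LeafSoft1 (K : Type) [Field K] [NumberField K] : Prop :=
  T1.T1Out K → ∀ 𝔫 : Ideal (𝓞 K), 𝔫 ≠ ⊥ → FDBound K 𝔫 → KernelEst K 𝔫

/-- **T2.03c** LOCAL `L²` BOUND from T1.  (≈ 2k lines; the owner splits: multiplicity count and
integration over the translates of the fundamental domain.) -/
def LeafLocalL2 (K : Type) [Field K] [NumberField K] : Prop :=
  T1.T1Out K → ∀ 𝔫 : Ideal (𝓞 K), 𝔫 ≠ ⊥ → LocalL2 K 𝔫

/-- THE TOP of T2.03: the three sub-leaves give `T2.Leaf03`. -/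
theorem leaf03_of_leaves (hFD : LeafFD K) (hS : LeafSoft1 K) (hL : LeafLocalL2 K) :
    Leaf03 K := by
  intro hT1 𝔫 h𝔫
  exact gpsCore_of_kernel_local (hS hT1 𝔫 h𝔫 (hFD hT1 𝔫 h𝔫)) (hL hT1 𝔫 h𝔫)

end Fermat.Agent.LT.T2.H386

end

end
-- ===== PACK-END LT/T2/H386/GPSSpec.lean

-- ===== PACK-BEGIN LT/T1/H868/HaarScaleC.lean
section





/-!
# Row LT, tower T1, shared core HAAR-SCALE, part C (helper868)

OFF-MAIN.  The module of an idele which is a unit at every finite place.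
-/

set_option autoImplicit false
set_option linter.style.haveILetI false
set_option linter.unusedVariables false
set_option linter.unusedSectionVars false

open IsDedekindDomain NumberField MeasureTheory
open scoped ENNReal NNReal

noncomputable section

namespace Fermat.Agent.LT.T1.H868

open Fermat.Agent.LT.H556.A0

variable (K : Type) [Field K] [NumberField K]

/-! ## Components of ideles -/

theorem inf_mul_inv868 (y : (Adl K)ˣ) (w : InfinitePlace K) :
    ((y⁻¹ : (Adl K)ˣ) : Adl K).1 w * (y : Adl K).1 w = 1 := by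
  have h : ((y⁻¹ : (Adl K)ˣ) : Adl K) * (y : Adl K) = 1 := y.inv_mul
  exact congrArg (fun z : Adl K => z.1 w) h

theorem fin_mul_inv868 (y : (Adl K)ˣ) (v : HeightOneSpectrum (𝓞 K)) :
    ((y⁻¹ : (Adl K)ˣ) : Adl K).2 v * (y : Adl K).2 v = 1 := by
  have h : ((y⁻¹ : (Adl K)ˣ) : Adl K) * (y : Adl K) = 1 := y.inv_mul
  exact congrArg (fun z : Adl K => z.2 v) h

theorem inf_ne_zero868 (y : (Adl K)ˣ) (w : InfinitePlace K) : (y : Adl K).1 w ≠ 0 :=
  right_ne_zero_of_mul_eq_one (inf_mul_inv868 K y w)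

theorem fin_ne_zero868 (y : (Adl K)ˣ) (v : HeightOneSpectrum (𝓞 K)) : (y : Adl K).2 v ≠ 0 :=
  right_ne_zero_of_mul_eq_one (fin_mul_inv868 K y v)

/-- The idele `u` is a unit at every finite place. -/
def IsFinUnit868 (u : (Adl K)ˣ) : Prop :=
  ∀ v : HeightOneSpectrum (𝓞 K), Valued.v ((u : Adl K).2 v) = 1

theorem isFinUnit868_inv {u : (Adl K)ˣ} (hu : IsFinUnit868 K u) (v : HeightOneSpectrum (𝓞 K)) :
    Valued.v (((u⁻¹ : (Adl K)ˣ) : Adl K).2 v) = 1 := by
  have h := congrArg Valued.v (fin_mul_inv868 K u v)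
  rw [map_mul, hu v, mul_one, map_one] at h
  exact h

/-- Multiplication by an idele which is a unit at the finite places maps the unit box onto the
box of radii `‖u_w‖`. -/
theorem image_box868 {u : (Adl K)ˣ} (hu : IsFinUnit868 K u) :
    (fun y : Adl K => (u : Adl K) * y) '' (box868 K fun _ => 1)
      = box868 K fun w => ‖(u : Adl K).1 w‖ := by
  rw [image_mul_eq_preimage868]
  ext a
  have hI : ∀ w : InfinitePlace K, ‖(((u⁻¹ : (Adl K)ˣ) : Adl K) * a).1 w‖
      = ‖(u : Adl K).1 w‖⁻¹ * ‖a.1 w‖ := by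
    intro w
    have h1 : (((u⁻¹ : (Adl K)ˣ) : Adl K) * a).1 w
        = ((u⁻¹ : (Adl K)ˣ) : Adl K).1 w * a.1 w := rfl
    have h2 : ‖((u⁻¹ : (Adl K)ˣ) : Adl K).1 w‖ = ‖(u : Adl K).1 w‖⁻¹ := by
      have h := congrArg norm (inf_mul_inv868 K u w)
      rw [norm_mul, norm_one] at h
      exact eq_inv_of_mul_eq_one_left h
    rw [h1, norm_mul, h2]
  have hF : ∀ v : HeightOneSpectrum (𝓞 K), Valued.v ((((u⁻¹ : (Adl K)ˣ) : Adl K) * a).2 v)
      = Valued.v (a.2 v) := by
    intro v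
    have h1 : (((u⁻¹ : (Adl K)ˣ) : Adl K) * a).2 v
        = ((u⁻¹ : (Adl K)ˣ) : Adl K).2 v * a.2 v := rfl
    rw [h1, map_mul, isFinUnit868_inv K hu v, one_mul]
  simp only [Set.mem_preimage, mulCAE868_apply, box868, Set.mem_ofPred_eq,
    HeightOneSpectrum.mem_adicCompletionIntegers, hI, hF]
  refine and_congr_left fun _ => forall_congr' fun w => ?_
  have hpos : 0 < ‖(u : Adl K).1 w‖ := norm_pos_iff.mpr (inf_ne_zero868 K u w)
  rw [inv_mul_le_iff₀ hpos, mul_one]

section Measure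

variable {K}
variable [MeasurableSpace (Adl K)] [BorelSpace (Adl K)] [LocallyCompactSpace (Adl K)]
  [SecondCountableTopology (Adl K)]

/-- **(E1)** the module of an idele which is a unit at every finite place. -/
theorem modF868_of_isFinUnit (μ : Measure (Adl K)) [μ.IsAddHaarMeasure] {u : (Adl K)ˣ}
    (hu : IsFinUnit868 K u) :
    (modF868 μ u : ℝ) = ∏ w : InfinitePlace K, ‖(u : Adl K).1 w‖ ^ w.mult := by
  obtain ⟨⟨h0, h1⟩, hr⟩ := measure_box868 μ
  have hnn : 0 ≤ ∏ w : InfinitePlace K, ‖(u : Adl K).1 w‖ ^ w.mult :=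
    Finset.prod_nonneg fun w _ => pow_nonneg (norm_nonneg _) _
  have key := modF868_eq_of_test μ u (box868 K fun _ => 1) h0.ne' h1.ne
    (Real.toNNReal (∏ w : InfinitePlace K, ‖(u : Adl K).1 w‖ ^ w.mult)) (by
      rw [image_box868 K hu]
      exact hr (fun w => ‖(u : Adl K).1 w‖) (fun w => norm_nonneg _))
  rw [key, Real.coe_toNNReal _ hnn]

end Measure

end Fermat.Agent.LT.T1.H868

end

end
-- ===== PACK-END LT/T1/H868/HaarScaleC.lean

-- ===== PACK-BEGIN LT/T2/H245/Leaf01.lean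
section



/-!
# Row LT, tower T2, sub-leaf T2.01 (helper245): frames exist, the Petersson pairing is definite

OFF-MAIN.  `leaf01_245 : Fermat.Agent.LT.T2.Leaf01 K` for every number field `K`, against the
frozen bytes `LT/T2/Spec.lean` (helper130, sha256 `1b305586...`), `LT/T1/Spec.lean` (helper54,
`e8ae48d6...`), `LT/H556/A0.lean` (helper556, `66d3374a...`).

* `frameExists245`: a Haar measure of `GL₂(𝔸_K)` (`T1.LocCompC`) and the strict fundamental domain
  of `T1.FundDomC`.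
* `pairDefinite245`: a cusp function is bounded and continuous, the domain has finite measure, so
  `φ φ̄` is integrable on it; if `∫_D |φ|² = 0` then the open set `V = {φ ≠ 0}` meets `D` in a null
  set, hence (left invariance of `φ` and of `μ` under the countable group `GL₂(K)`) it meets the
  slab in a null set, hence it does not meet the OPEN slab `1 < ‖det g‖ < 2`
  (`T1.AdNormC`: the module is continuous); but every `g` is moved into the open slab by a positive
  rational scalar at one infinite place, under which `φ` is invariant; so `V = ∅`.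

By-products: `cIdele245`, `zScalar245` (the scalar `r ∈ ℚ_{>0}` at one infinite place as an idele,
resp. as an element of `GL₂(𝔸_K)`), `adNorm_cIdele245`, `detNorm245` with `detNorm245_mul`,
`detNorm245_ratG` (product formula for `det γ`), `continuous_detNorm245`, `countable_GL245`.
-/

set_option autoImplicit false
set_option linter.unusedSectionVars false

open IsDedekindDomain NumberField MeasureTheory AutomorphicForm
open Fermat.Agent.LT.H556.A0
open Fermat.Agent.LT

noncomputable section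
namespace Fermat.Agent.LT.T2.H245

variable {K : Type} [Field K] [NumberField K]

attribute [local instance] Fermat.Agent.LT.T2.borelG
attribute [local instance] Classical.propDecidable

theorem countable_K245 (K : Type) [Field K] [NumberField K] : Countable K := by
  have e := (Module.finBasis ℚ K).equivFun
  exact e.injective.countable

theorem countable_GL245 (K : Type) [Field K] [NumberField K] : Countable (GL (Fin 2) K) := by
  have := countable_K245 K
  have hinj : Function.Injective (fun g : GL (Fin 2) K => fun i j : Fin 2 =>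
      (g : Matrix (Fin 2) (Fin 2) K) i j) := by
    intro g h hgh
    apply Units.ext
    ext i j
    exact congrFun (congrFun hgh i) j
  exact hinj.countable

theorem charZero_completion245 (w : InfinitePlace K) : CharZero w.Completion :=
  (InfinitePlace.Completion.extensionEmbedding w).charZero

/-- The adele which is `r` at the infinite place `w` and `1` at every other place. -/
def cAdele245 (w : InfinitePlace K) (r : ℚ) : Adl K :=
  ((Pi.mulSingle w (r : w.Completion) : InfiniteAdeleRing K), (1 : FiniteAdeleRing (𝓞 K) K))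

theorem cAdele245_fst (w : InfinitePlace K) (r : ℚ) :
    (cAdele245 w r).1 = Pi.mulSingle w (r : w.Completion) := rfl

theorem cAdele245_snd (w : InfinitePlace K) (r : ℚ) :
    (cAdele245 w r).2 = 1 := rfl

theorem cAdele245_mul (w : InfinitePlace K) (r s : ℚ) :
    cAdele245 w r * cAdele245 w s = cAdele245 w (r * s) := by
  have := charZero_completion245 w
  apply Prod.ext
  · show Pi.mulSingle w (r : w.Completion) * Pi.mulSingle w (s : w.Completion)
      = Pi.mulSingle w ((r * s : ℚ) : w.Completion)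
    rw [← Pi.mulSingle_mul, Rat.cast_mul]
  · show (1 : FiniteAdeleRing (𝓞 K) K) * 1 = 1
    rw [one_mul]

theorem cAdele245_one (w : InfinitePlace K) : cAdele245 w 1 = 1 := by
  apply Prod.ext
  · show Pi.mulSingle w ((1 : ℚ) : w.Completion) = 1
    rw [Rat.cast_one, Pi.mulSingle_one]
  · rfl

/-- The idele which is `r ≠ 0` at the infinite place `w` and `1` at every other place. -/
def cIdele245 (w : InfinitePlace K) (r : ℚ) (hr : r ≠ 0) : (Adl K)ˣ where
  val := cAdele245 w r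
  inv := cAdele245 w r⁻¹
  val_inv := by rw [cAdele245_mul, mul_inv_cancel₀ hr, cAdele245_one]
  inv_val := by rw [cAdele245_mul, inv_mul_cancel₀ hr, cAdele245_one]

theorem norm_ratCast_completion245 (w : InfinitePlace K) (r : ℚ) :
    ‖(r : w.Completion)‖ = |(r : ℝ)| := by
  have h1 := (InfinitePlace.Completion.isometry_extensionEmbedding w).norm_map_of_map_zero
    (map_zero _) (r : w.Completion)
  rw [← h1, map_ratCast]
  simp

/-- The module of the idele `cIdele245 w r`. -/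
theorem adNorm_cIdele245 (w : InfinitePlace K) (r : ℚ) (hr : r ≠ 0) :
    T1.adNorm K ((cIdele245 w r hr : (Adl K)ˣ) : Adl K) = |(r : ℝ)| ^ w.mult := by
  show T1.adNorm K (cAdele245 w r) = _
  unfold T1.adNorm
  have hfin : (∏ᶠ v : HeightOneSpectrum (𝓞 K), ‖(cAdele245 w r).2 v‖) = 1 := by
    have : ∀ v : HeightOneSpectrum (𝓞 K), ‖(cAdele245 w r).2 v‖ = 1 := by
      intro v
      rw [cAdele245_snd]
      show ‖(1 : v.adicCompletion K)‖ = 1
      exact norm_one
    simp only [this]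
    exact finprod_one
  rw [hfin, mul_one]
  rw [Finset.prod_eq_single w]
  · rw [cAdele245_fst, Pi.mulSingle_eq_same, norm_ratCast_completion245]
  · intro w' _ hw'
    rw [cAdele245_fst, Pi.mulSingle_eq_of_ne hw', norm_one, one_pow]
  · intro h
    exact absurd (Finset.mem_univ w) h

/-- The scalar matrix `r` at the infinite place `w`, identity elsewhere. -/
def zScalar245 (w : InfinitePlace K) (r : ℚ) (hr : r ≠ 0) : G K :=
  Units.map (Matrix.scalar (Fin 2) : Adl K →+* Matrix (Fin 2) (Fin 2) (Adl K)).toMonoidHom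
    (cIdele245 w r hr)

theorem zScalar245_val (w : InfinitePlace K) (r : ℚ) (hr : r ≠ 0) :
    ((zScalar245 w r hr : G K) : Matrix (Fin 2) (Fin 2) (Adl K))
      = Matrix.diagonal (fun _ => cAdele245 w r) := rfl

theorem zScalar245_apply (w : InfinitePlace K) (r : ℚ) (hr : r ≠ 0) (i j : Fin 2) :
    ((zScalar245 w r hr : G K) : Matrix (Fin 2) (Fin 2) (Adl K)) i j
      = if i = j then cAdele245 w r else 0 := by
  rw [zScalar245_val, Matrix.diagonal_apply]

theorem zScalar245_det (w : InfinitePlace K) (r : ℚ) (hr : r ≠ 0) :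
    Matrix.GeneralLinearGroup.det (zScalar245 w r hr) = cIdele245 w r hr * cIdele245 w r hr := by
  apply Units.ext
  rw [Matrix.GeneralLinearGroup.val_det_apply, zScalar245_val, Matrix.det_diagonal,
    Fin.prod_univ_two]
  rfl

theorem isLocalAtInf_zScalar245 (w : InfinitePlace K) (r : ℚ) (hr : r ≠ 0) :
    IsLocalAtInf w (zScalar245 w r hr) := by
  refine ⟨fun w' hw' i j => ?_, fun v => ?_⟩
  · rw [zScalar245_apply]
    by_cases hij : i = j
    · rw [if_pos hij, cAdele245_fst, Pi.mulSingle_eq_of_ne hw', hij, Matrix.one_apply_eq]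
    · rw [if_neg hij, Matrix.one_apply_ne hij]
      rfl
  · show finComp v (zScalar245 w r hr) = 1
    refine Matrix.ext fun i j => ?_
    show (((zScalar245 w r hr : G K) : Matrix (Fin 2) (Fin 2) (Adl K)) i j).2 v = _
    rw [zScalar245_apply]
    by_cases hij : i = j
    · rw [if_pos hij, cAdele245_snd, hij, Matrix.one_apply_eq]
      rfl
    · rw [if_neg hij, Matrix.one_apply_ne hij]
      rfl

theorem infComp_zScalar245 (w : InfinitePlace K) (r : ℚ) (hr : r ≠ 0) :
    infComp w (zScalar245 w r hr) = Matrix.diagonal (fun _ => (((r : ℝ)) : ℂ)) := by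
  have := charZero_completion245 w
  refine Matrix.ext fun i j => ?_
  show InfinitePlace.Completion.extensionEmbedding w
    ((((zScalar245 w r hr : G K) : Matrix (Fin 2) (Fin 2) (Adl K)) i j).1 w) = _
  rw [zScalar245_apply, Matrix.diagonal_apply]
  by_cases hij : i = j
  · rw [if_pos hij, if_pos hij, cAdele245_fst, Pi.mulSingle_eq_same, map_ratCast]
    simp
  · rw [if_neg hij, if_neg hij]
    show InfinitePlace.Completion.extensionEmbedding w (0 : w.Completion) = 0
    exact map_zero _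

theorem isArchPosScalar_zScalar245 (w : InfinitePlace K) (r : ℚ) (hr : 0 < r) :
    IsArchPosScalar w (zScalar245 w r hr.ne') :=
  ⟨isLocalAtInf_zScalar245 w r hr.ne', (r : ℝ), by exact_mod_cast hr,
    infComp_zScalar245 w r hr.ne'⟩

/-- The module of the determinant, as a function on `GL₂(𝔸_K)`. -/
def detNorm245 (g : G K) : ℝ :=
  T1.adNorm K (Matrix.det (g : Matrix (Fin 2) (Fin 2) (Adl K)))

theorem detNorm245_eq (g : G K) :
    detNorm245 g = T1.adNorm K ((Matrix.GeneralLinearGroup.det g : (Adl K)ˣ) : Adl K) := by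
  rw [Matrix.GeneralLinearGroup.val_det_apply]
  rfl

theorem detNorm245_mul (hN : T1.AdNormC K) (g h : G K) :
    detNorm245 (g * h) = detNorm245 g * detNorm245 h := by
  rw [detNorm245_eq, detNorm245_eq, detNorm245_eq, map_mul]
  exact hN.2.1 _ _

theorem detNorm245_pos (hN : T1.AdNormC K) (g : G K) : 0 < detNorm245 g := by
  rw [detNorm245_eq]
  exact hN.1 _

theorem detNorm245_zScalar (hN : T1.AdNormC K) (w : InfinitePlace K) (r : ℚ) (hr : r ≠ 0) :
    detNorm245 (zScalar245 w r hr) = (|(r : ℝ)| ^ w.mult) ^ 2 := by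
  rw [detNorm245_eq, zScalar245_det, hN.2.1, adNorm_cIdele245, sq]

theorem detNorm245_ratG (hN : T1.AdNormC K) (γ : GL (Fin 2) K) :
    detNorm245 (T1.ratG K γ) = 1 := by
  rw [detNorm245_eq]
  have h := hN.2.2.1 (Matrix.GeneralLinearGroup.det γ)
  convert h using 2
  rw [Matrix.GeneralLinearGroup.val_det_apply]
  show Matrix.det ((algebraMap K (Adl K)).mapMatrix (γ : Matrix (Fin 2) (Fin 2) K)) = _
  rw [← RingHom.map_det]
  rfl

theorem continuous_detNorm245 (hN : T1.AdNormC K) : Continuous (detNorm245 (K := K)) := by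
  have hdet : Continuous (fun g : G K => (Matrix.GeneralLinearGroup.det g : (Adl K)ˣ)) := by
    rw [Units.continuous_iff]
    constructor
    · show Continuous fun g : G K => ((Matrix.GeneralLinearGroup.det g : (Adl K)ˣ) : Adl K)
      simp only [Matrix.GeneralLinearGroup.val_det_apply]
      exact (Units.continuous_val).matrix_det
    · show Continuous fun g : G K => (((Matrix.GeneralLinearGroup.det g)⁻¹ : (Adl K)ˣ) : Adl K)
      have : ∀ g : G K, (((Matrix.GeneralLinearGroup.det g)⁻¹ : (Adl K)ˣ) : Adl K)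
          = Matrix.det ((g⁻¹ : G K) : Matrix (Fin 2) (Fin 2) (Adl K)) := by
        intro g
        rw [← map_inv, Matrix.GeneralLinearGroup.val_det_apply]
      simp only [this]
      exact (Units.continuous_val.comp continuous_inv).matrix_det
  have h := hN.2.2.2.comp hdet
  have heq : (detNorm245 (K := K)) = (fun x : (Adl K)ˣ => T1.adNorm K (x : Adl K)) ∘
      (fun g : G K => (Matrix.GeneralLinearGroup.det g : (Adl K)ˣ)) := by
    funext g
    exact detNorm245_eq g
  rw [heq]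
  exact h

/-- The open slab `1 < ‖det g‖ < 2`. -/
def openSlab245 (K : Type) [Field K] [NumberField K] : Set (G K) :=
  {g | 1 < detNorm245 g ∧ detNorm245 g < 2}

theorem isOpen_openSlab245 (hN : T1.AdNormC K) : IsOpen (openSlab245 K) := by
  have h : openSlab245 K = detNorm245 ⁻¹' (Set.Ioo (1 : ℝ) 2) := rfl
  rw [h]
  exact isOpen_Ioo.preimage (continuous_detNorm245 hN)

theorem openSlab245_subset_slab : openSlab245 K ⊆ T1.slab K :=
  fun _ hg => ⟨hg.1.le, hg.2⟩

/-- A rational number whose `k`-th power lies in `(1/N, 2/N)`. -/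
theorem exists_rat_pow_between245 (N : ℝ) (hN : 0 < N) (k : ℕ) (hk : k ≠ 0) :
    ∃ r : ℚ, 0 < r ∧ 1 < N * (r : ℝ) ^ k ∧ N * (r : ℝ) ^ k < 2 := by
  have ha0 : (0 : ℝ) ≤ 1 / N := by positivity
  have hb0 : (0 : ℝ) ≤ 2 / N := by positivity
  have hab : 1 / N < 2 / N := by
    apply div_lt_div_of_pos_right _ hN
    norm_num
  have hkpos : (0 : ℝ) < (k : ℝ)⁻¹ := by
    have : (0 : ℝ) < k := by exact_mod_cast Nat.pos_of_ne_zero hk
    positivity
  have hlt : (1 / N) ^ ((k : ℝ)⁻¹) < (2 / N) ^ ((k : ℝ)⁻¹) :=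
    Real.rpow_lt_rpow ha0 hab hkpos
  obtain ⟨r, hr1, hr2⟩ := exists_rat_btwn hlt
  have hapos : (0 : ℝ) < (1 / N) ^ ((k : ℝ)⁻¹) := Real.rpow_pos_of_pos (by positivity) _
  have hrpos : (0 : ℝ) < (r : ℝ) := lt_trans hapos hr1
  refine ⟨r, by exact_mod_cast hrpos, ?_, ?_⟩
  · have h1 : ((1 / N) ^ ((k : ℝ)⁻¹)) ^ k < (r : ℝ) ^ k :=
      pow_lt_pow_left₀ hr1 hapos.le hk
    rw [Real.rpow_inv_natCast_pow ha0 hk] at h1
    have := mul_lt_mul_of_pos_left h1 hN
    rwa [mul_one_div_cancel hN.ne'] at this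
  · have h2 : (r : ℝ) ^ k < ((2 / N) ^ ((k : ℝ)⁻¹)) ^ k :=
      pow_lt_pow_left₀ hr2 hrpos.le hk
    rw [Real.rpow_inv_natCast_pow hb0 hk] at h2
    have := mul_lt_mul_of_pos_left h2 hN
    rwa [mul_div_cancel₀ _ hN.ne'] at this

/-- Every `g` can be moved into the open slab by a positive scalar at one infinite place. -/
theorem exists_scalar_openSlab245 (hN : T1.AdNormC K) (g : G K) :
    ∃ (w : InfinitePlace K) (z : G K), IsArchPosScalar w z ∧ g * z ∈ openSlab245 K := by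
  obtain ⟨w⟩ : Nonempty (InfinitePlace K) := inferInstance
  have hk : w.mult * 2 ≠ 0 := by
    have := w.mult_pos
    omega
  obtain ⟨r, hr, h1, h2⟩ := exists_rat_pow_between245 (detNorm245 g) (detNorm245_pos hN g)
    (w.mult * 2) hk
  refine ⟨w, zScalar245 w r hr.ne', isArchPosScalar_zScalar245 w r hr, ?_⟩
  have hrr : |(r : ℝ)| = (r : ℝ) := abs_of_pos (by exact_mod_cast hr)
  have hval : detNorm245 (g * zScalar245 w r hr.ne') = detNorm245 g * (r : ℝ) ^ (w.mult * 2) := by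
    rw [detNorm245_mul hN, detNorm245_zScalar hN, hrr, ← pow_mul]
  show 1 < detNorm245 (g * zScalar245 w r hr.ne') ∧ detNorm245 (g * zScalar245 w r hr.ne') < 2
  rw [hval]
  exact ⟨h1, h2⟩

/-- **T2.01, first part**: frames exist. -/
theorem frameExists245 (h : T1.T1Out K) : FrameExists K := by
  obtain ⟨-, hlc, -, -⟩ := h.locComp
  have : BorelSpace (G K) := ⟨rfl⟩
  have := hlc
  obtain ⟨F, hF, hsub, hstrict, hfin⟩ :=
    h.fundDom (Measure.haar : Measure (G K)) inferInstance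
  exact ⟨⟨Measure.haar, inferInstance, F, hF, hsub, hstrict, hfin⟩⟩

/-- **T2.01, second part**: cusp functions are square integrable on the domain and the pairing
is definite. -/
theorem pairDefinite245 (h : T1.T1Out K) (𝔫 : Ideal (𝓞 K)) : PairDefinite K 𝔫 := by
  intro F φ hφ
  have : BorelSpace (G K) := ⟨rfl⟩
  have := F.haar
  have hN := h.adNorm
  obtain ⟨C, hC⟩ := hφ.bdd
  have hcont : Continuous (fun g => φ g * (starRingEnd ℂ) (φ g)) :=
    hφ.cont.mul (Complex.continuous_conj.comp hφ.cont)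
  have hint : IntegrableOn (fun g => φ g * (starRingEnd ℂ) (φ g)) F.D F.μ := by
    refine Measure.integrableOn_of_bounded (M := C * C) F.fin.ne hcont.aestronglyMeasurable
      (Filter.Eventually.of_forall fun g => ?_)
    rw [norm_mul, RCLike.norm_conj]
    exact mul_le_mul (hC g) (hC g) (norm_nonneg _) ((norm_nonneg _).trans (hC g))
  refine ⟨hint, fun h0 => ?_⟩
  -- the real form of the pairing
  have hreal : ∀ g, φ g * (starRingEnd ℂ) (φ g) = ((Complex.normSq (φ g) : ℝ) : ℂ) :=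
    fun g => Complex.mul_conj (φ g)
  have hintR : IntegrableOn (fun g => Complex.normSq (φ g)) F.D F.μ := by
    have := hint.re
    refine this.congr (Filter.Eventually.of_forall fun g => ?_)
    show (φ g * (starRingEnd ℂ) (φ g)).re = Complex.normSq (φ g)
    rw [hreal, Complex.ofReal_re]
  have h0R : ∫ g in F.D, Complex.normSq (φ g) ∂F.μ = 0 := by
    have h1 : pair F φ φ = ((∫ g in F.D, Complex.normSq (φ g) ∂F.μ : ℝ) : ℂ) := by
      unfold pair
      simp only [hreal]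
      exact integral_ofReal
    rw [h1] at h0
    exact_mod_cast h0
  have hae : (fun g => Complex.normSq (φ g)) =ᵐ[F.μ.restrict F.D] 0 :=
    (setIntegral_eq_zero_iff_of_nonneg_ae
      (Filter.Eventually.of_forall fun g => Complex.normSq_nonneg _) hintR).1 h0R
  -- the open set where `φ ≠ 0`
  have hVopen : IsOpen {g : G K | φ g ≠ 0} := isOpen_ne_fun hφ.cont continuous_const
  have hVD : F.μ ({g : G K | φ g ≠ 0} ∩ F.D) = 0 := by
    have h2 : F.μ.restrict F.D {g : G K | φ g ≠ 0} = 0 := by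
      have h3 : ∀ᵐ g ∂(F.μ.restrict F.D), Complex.normSq (φ g) = 0 := hae
      rw [ae_iff] at h3
      have h4 : {g : G K | φ g ≠ 0} = {g : G K | ¬ Complex.normSq (φ g) = 0} := by
        ext g
        show φ g ≠ 0 ↔ ¬ Complex.normSq (φ g) = 0
        rw [Complex.normSq_eq_zero]
      rw [h4]
      exact h3
    rwa [Measure.restrict_apply hVopen.measurableSet] at h2
  -- the part of `V` in the slab is a null set
  have hVslab : F.μ ({g : G K | φ g ≠ 0} ∩ T1.slab K) = 0 := by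
    have hcnt := countable_GL245 K
    have hsub : {g : G K | φ g ≠ 0} ∩ T1.slab K ⊆
        ⋃ γ : GL (Fin 2) K, (fun g : G K => T1.ratG K γ * g) ⁻¹'
          ({g : G K | φ g ≠ 0} ∩ F.D) := by
      rintro g ⟨hg, hgs⟩
      obtain ⟨γ, hγ, -⟩ := F.strict g hgs
      refine Set.mem_iUnion.2 ⟨γ, ?_, hγ⟩
      show φ (T1.ratG K γ * g) ≠ 0
      have := hφ.left_inv γ g
      rw [show T1.ratG K γ * g
        = Matrix.GeneralLinearGroup.map (algebraMap K (Adl K)) γ * g from rfl, this]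
      exact hg
    refine measure_mono_null hsub ?_
    refine measure_iUnion_null fun γ => ?_
    rw [measure_preimage_mul]
    exact hVD
  -- hence `V` does not meet the open slab
  have hempty : {g : G K | φ g ≠ 0} ∩ openSlab245 K = ∅ := by
    have hop : IsOpen ({g : G K | φ g ≠ 0} ∩ openSlab245 K) :=
      hVopen.inter (isOpen_openSlab245 hN)
    rw [← hop.measure_eq_zero_iff F.μ]
    exact measure_mono_null (Set.inter_subset_inter_right _ openSlab245_subset_slab) hVslab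
  intro g
  by_contra hg
  obtain ⟨w, z, hz, hgz⟩ := exists_scalar_openSlab245 hN g
  have hmem : g * z ∈ {g : G K | φ g ≠ 0} ∩ openSlab245 K := by
    refine ⟨?_, hgz⟩
    show φ (g * z) ≠ 0
    rw [hφ.arch_scalar w z hz g]
    exact hg
  rw [hempty] at hmem
  exact hmem

/-- **T2.01**: frames exist and the Petersson pairing is definite on the cusp functions. -/
theorem leaf01_245 (K : Type) [Field K] [NumberField K] : Leaf01 K :=
  fun h => ⟨frameExists245 h, fun 𝔫 _ => pairDefinite245 h 𝔫⟩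


/-- Type check against the frozen Prop. -/
example (K : Type) [Field K] [NumberField K] : Fermat.Agent.LT.T2.Leaf01 K := leaf01_245 K

end Fermat.Agent.LT.T2.H245

end

end
-- ===== PACK-END LT/T2/H245/Leaf01.lean

-- ===== PACK-BEGIN LT/T3/H127/Level.lean
section




/-!
# Row LT, tower T3, leaf T3.03 (helper127): level sets and continuous characters

OFF-MAIN.  Mathlib + the adele basics of helper767 (byte-identical copies).

* `circle_eq_one_of_pow` : no small subgroups in the circle.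
* `levelSet K d` : the open compact subgroup `d 𝒪̂` of the finite adeles.
* `exists_levelSet_subset` : the level sets form a basis of neighbourhoods of `0`.
* `exists_sub_mem_levelSet` : `𝔸_f = K + d 𝒪̂`.
* `exists_level` : a continuous character of the adeles is trivial on some `0 × d 𝒪̂`.
-/

set_option autoImplicit false

open NumberField IsDedekindDomain IsDedekindDomain.HeightOneSpectrum

noncomputable section

namespace Fermat.Agent.LT.T3.H127

/-! ## No small subgroups -/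

/-- Doubling of the defect: if `Re z ≥ 0` on the unit circle then
`1 - Re (z^2) ≥ 2 (1 - Re z)`. -/
theorem circle_defect (z : Circle) (h : 0 ≤ ((z : ℂ)).re) :
    2 * (1 - ((z : ℂ)).re) ≤ 1 - (((z * z : Circle) : ℂ)).re := by
  have hn : ((z : ℂ)).re ^ 2 + ((z : ℂ)).im ^ 2 = 1 := by
    have := Circle.normSq_coe z
    rw [Complex.normSq_apply] at this
    nlinarith [this]
  have hre : (((z * z : Circle) : ℂ)).re = ((z : ℂ)).re ^ 2 - ((z : ℂ)).im ^ 2 := by
    rw [Circle.coe_mul, Complex.mul_re]; ring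
  have hle : ((z : ℂ)).re ≤ 1 := by nlinarith [sq_nonneg ((z : ℂ)).im]
  rw [hre]
  nlinarith [sq_nonneg ((z : ℂ)).im]

/-- No small subgroups: an element of the circle all of whose `2^k`-th powers have positive real
part is `1`. -/
theorem circle_eq_one_of_pow (z : Circle)
    (h : ∀ k : ℕ, 0 < (((z ^ (2 ^ k) : Circle) : ℂ)).re) : z = 1 := by
  have key : ∀ k : ℕ, 2 ^ k * (1 - ((z : ℂ)).re) ≤ 1 - (((z ^ (2 ^ k) : Circle) : ℂ)).re := by
    intro k
    induction k with
    | zero => simp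
    | succ k ih =>
      have h1 := circle_defect (z ^ (2 ^ k)) (h k).le
      have h2 : (z ^ (2 ^ k)) * (z ^ (2 ^ k)) = z ^ (2 ^ (k + 1)) := by
        rw [← pow_add, pow_succ, mul_two]
      rw [h2] at h1
      calc (2 : ℝ) ^ (k + 1) * (1 - ((z : ℂ)).re) = 2 * (2 ^ k * (1 - ((z : ℂ)).re)) := by ring
        _ ≤ 2 * (1 - (((z ^ (2 ^ k) : Circle) : ℂ)).re) := by linarith
        _ ≤ _ := h1
  have hre : 1 ≤ ((z : ℂ)).re := by
    by_contra hlt
    have hlt' : ((z : ℂ)).re < 1 := not_le.mp hlt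
    have hpos : 0 < 1 - ((z : ℂ)).re := by linarith
    obtain ⟨k, hk⟩ := pow_unbounded_of_one_lt (1 / (1 - ((z : ℂ)).re)) (one_lt_two : (1:ℝ) < 2)
    have hkey := key k
    have h3 := h k
    have : 1 < 2 ^ k * (1 - ((z : ℂ)).re) := by
      rw [div_lt_iff₀ hpos] at hk
      exact hk
    linarith
  have hn : ((z : ℂ)).re ^ 2 + ((z : ℂ)).im ^ 2 = 1 := by
    have := Circle.normSq_coe z
    rw [Complex.normSq_apply] at this
    nlinarith [this]
  have him : ((z : ℂ)).im = 0 := by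
    have h1 : ((z : ℂ)).im ^ 2 ≤ 0 := by nlinarith
    have h2 := le_antisymm h1 (sq_nonneg _)
    exact pow_eq_zero_iff (two_ne_zero) |>.mp h2
  have hre1 : ((z : ℂ)).re = 1 := by nlinarith
  apply Circle.ext
  apply Complex.ext <;> simp [hre1, him]

/-- The open right half of the circle. -/
def rightHalf : Set Circle := {z | 0 < ((z : ℂ)).re}

theorem isOpen_rightHalf : IsOpen rightHalf :=
  isOpen_lt continuous_const (Complex.continuous_re.comp continuous_subtype_val)

theorem one_mem_rightHalf : (1 : Circle) ∈ rightHalf := by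
  simp [rightHalf]

variable (K : Type) [Field K] [NumberField K]

/-! ## Local norms -/

/-- the image of `k : K` in the completion at `v`. -/
abbrev loc (v : HeightOneSpectrum (𝓞 K)) (k : K) : v.adicCompletion K :=
  algebraMap K (v.adicCompletion K) k

theorem norm_loc_int_le_one (v : HeightOneSpectrum (𝓞 K)) (a : 𝓞 K) : ‖loc K v (a : K)‖ ≤ 1 := by
  rw [Valued.toNormedField.norm_le_one_iff]
  exact Fermat.Agent.LT.H767.valued_algebraMap_int_le_one K v a

theorem loc_ne_zero (v : HeightOneSpectrum (𝓞 K)) {k : K} (hk : k ≠ 0) : loc K v k ≠ 0 := by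
  intro h
  apply hk
  have := (algebraMap K (v.adicCompletion K)).injective
  exact this (by simpa [loc] using h)

/-- for every `ε > 0` there is a non-zero integer of `K` of `v`-adic norm `< ε`. -/
theorem exists_int_norm_lt (v : HeightOneSpectrum (𝓞 K)) (ε : ℝ) (hε : 0 < ε) :
    ∃ d : 𝓞 K, d ≠ 0 ∧ ‖loc K v (d : K)‖ < ε := by
  obtain ⟨π, hπ, hπ0⟩ := Submodule.exists_mem_ne_zero_of_ne_bot v.ne_bot
  have hP1 : ‖loc K v (π : K)‖ < 1 := by
    rw [Valued.toNormedField.norm_lt_one_iff, Fermat.Agent.LT.H767.valued_algebraMap]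
    exact (v.valuation_lt_one_iff_mem π).mpr hπ
  obtain ⟨n, hn⟩ := exists_pow_lt_of_lt_one hε hP1
  refine ⟨π ^ n, pow_ne_zero n hπ0, ?_⟩
  have : loc K v ((π ^ n : 𝓞 K) : K) = (loc K v (π : K)) ^ n := by
    simp [loc]
  rw [this, norm_pow]
  exact hn

/-! ## Level sets -/

/-- The open compact subgroup `d 𝒪̂` of the finite adeles (in terms of norms). -/
def levelSet (d : 𝓞 K) : Set (FiniteAdeleRing (𝓞 K) K) :=
  {f | ∀ v : HeightOneSpectrum (𝓞 K), ‖f v‖ ≤ ‖loc K v (d : K)‖}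

theorem zero_mem_levelSet (d : 𝓞 K) : (0 : FiniteAdeleRing (𝓞 K) K) ∈ levelSet K d := by
  intro v
  have : (0 : FiniteAdeleRing (𝓞 K) K) v = 0 := rfl
  rw [this, norm_zero]
  exact norm_nonneg _

theorem mem_integers_of_mem_levelSet {d : 𝓞 K} {f : FiniteAdeleRing (𝓞 K) K}
    (hf : f ∈ levelSet K d) (v : HeightOneSpectrum (𝓞 K)) :
    f v ∈ v.adicCompletionIntegers K := by
  rw [mem_adicCompletionIntegers, ← Valued.toNormedField.norm_le_one_iff]
  exact (hf v).trans (norm_loc_int_le_one K v _)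

/-- multiplication by an integral adele preserves the level sets. -/
theorem mul_mem_levelSet {d : 𝓞 K} {f g : FiniteAdeleRing (𝓞 K) K}
    (hf : f ∈ levelSet K d) (hg : ∀ v, g v ∈ v.adicCompletionIntegers K) :
    g * f ∈ levelSet K d := by
  intro v
  have h1 : (g * f) v = g v * f v := rfl
  rw [h1, norm_mul]
  have h2 : ‖g v‖ ≤ 1 := by
    rw [Valued.toNormedField.norm_le_one_iff]
    exact (mem_adicCompletionIntegers _ _ _).mp (hg v)
  calc ‖g v‖ * ‖f v‖ ≤ 1 * ‖f v‖ := mul_le_mul_of_nonneg_right h2 (norm_nonneg _)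
    _ = ‖f v‖ := one_mul _
    _ ≤ _ := hf v

theorem nsmul_mem_levelSet {d : 𝓞 K} {f : FiniteAdeleRing (𝓞 K) K}
    (hf : f ∈ levelSet K d) (n : ℕ) : n • f ∈ levelSet K d := by
  have h : n • f = (n : FiniteAdeleRing (𝓞 K) K) * f := by
    rw [nsmul_eq_mul]
  rw [h]
  refine mul_mem_levelSet K hf fun v => ?_
  have : ((n : FiniteAdeleRing (𝓞 K) K)) v = ((n : v.adicCompletion K)) := rfl
  rw [this]
  exact natCast_mem _ n

/-- every neighbourhood of `0` in the finite adeles contains a level set. -/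
theorem exists_levelSet_subset (U : Set (FiniteAdeleRing (𝓞 K) K))
    (hU : U ∈ nhds (0 : FiniteAdeleRing (𝓞 K) K)) :
    ∃ d : 𝓞 K, d ≠ 0 ∧ levelSet K d ⊆ U := by
  classical
  have hopen : ∀ v : HeightOneSpectrum (𝓞 K),
      IsOpen ((v.adicCompletionIntegers K : Set (v.adicCompletion K))) :=
    fun v => Valued.isOpen_valuationSubring _
  have key := RestrictedProduct.nhds_zero_eq_map_structureMap
    (R := fun v : HeightOneSpectrum (𝓞 K) => v.adicCompletion K)
    (B := fun v : HeightOneSpectrum (𝓞 K) => v.adicCompletionIntegers K) hopen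
  have hU' : U ∈ Filter.map (RestrictedProduct.structureMap
      (fun v : HeightOneSpectrum (𝓞 K) => v.adicCompletion K)
      (fun v : HeightOneSpectrum (𝓞 K) => (v.adicCompletionIntegers K : Set (v.adicCompletion K)))
      Filter.cofinite) (nhds 0) := by
    rw [← key]; exact hU
  have hU2 : (RestrictedProduct.structureMap
      (fun v : HeightOneSpectrum (𝓞 K) => v.adicCompletion K)
      (fun v : HeightOneSpectrum (𝓞 K) => (v.adicCompletionIntegers K : Set (v.adicCompletion K)))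
      Filter.cofinite) ⁻¹' U ∈ nhds (0 : Π v : HeightOneSpectrum (𝓞 K), v.adicCompletionIntegers K) :=
    hU'
  rw [nhds_pi, Filter.mem_pi] at hU2
  obtain ⟨I, hI, t, ht, hsub⟩ := hU2
  -- radii
  have hε : ∀ v : HeightOneSpectrum (𝓞 K), ∃ ε : ℝ, 0 < ε ∧
      ∀ x : v.adicCompletionIntegers K, ‖(x : v.adicCompletion K)‖ < ε → x ∈ t v := by
    intro v
    have := ht v
    rw [Metric.mem_nhds_iff] at this
    obtain ⟨ε, hε, h⟩ := this
    refine ⟨ε, hε, fun x hx => h ?_⟩
    rw [Metric.mem_ball, dist_eq_norm]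
    have h0 : x - (0 : Π v : HeightOneSpectrum (𝓞 K), v.adicCompletionIntegers K) v = x := by
      simp
    rw [h0]
    exact hx
  choose ε hεpos hεt using hε
  choose δ hδ0 hδ using fun v : HeightOneSpectrum (𝓞 K) => exists_int_norm_lt K v (ε v) (hεpos v)
  refine ⟨∏ v ∈ hI.toFinset, δ v, Finset.prod_ne_zero_iff.mpr fun v _ => hδ0 v, ?_⟩
  intro f hf
  have hfint : ∀ v, f v ∈ v.adicCompletionIntegers K :=
    fun v => mem_integers_of_mem_levelSet K hf v
  have hfeq : f = RestrictedProduct.structureMap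
      (fun v : HeightOneSpectrum (𝓞 K) => v.adicCompletion K)
      (fun v : HeightOneSpectrum (𝓞 K) => (v.adicCompletionIntegers K : Set (v.adicCompletion K)))
      Filter.cofinite (fun v => ⟨f v, hfint v⟩) := by
    apply FiniteAdeleRing.ext; intro v; rfl
  rw [hfeq]
  apply hsub
  intro v hv
  apply hεt
  change ‖f v‖ < ε v
  refine lt_of_le_of_lt (hf v) (lt_of_le_of_lt ?_ (hδ v))
  -- the product is divisible by `δ v`
  have hmem : v ∈ hI.toFinset := hI.mem_toFinset.mpr hv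
  rw [← Finset.mul_prod_erase _ _ hmem]
  have : loc K v (((δ v * ∏ x ∈ hI.toFinset.erase v, δ x : 𝓞 K)) : K)
      = loc K v (δ v : K) * loc K v ((∏ x ∈ hI.toFinset.erase v, δ x : 𝓞 K) : K) := by
    simp [loc]
  rw [this, norm_mul]
  exact mul_le_of_le_one_right (norm_nonneg _) (norm_loc_int_le_one K v _)

/-- `𝔸_f = K + d 𝒪̂` (strong approximation away from infinity). -/
theorem exists_sub_mem_levelSet (a : FiniteAdeleRing (𝓞 K) K) (d : 𝓞 K) (hd : d ≠ 0) :
    ∃ k : K, a - algebraMap K (FiniteAdeleRing (𝓞 K) K) k ∈ levelSet K d := by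
  have hdK : (d : K) ≠ 0 := by simpa using hd
  obtain ⟨k, hk⟩ := Fermat.Agent.LT.H767.exists_sub_mem_integers K
    (algebraMap K (FiniteAdeleRing (𝓞 K) K) (d : K)⁻¹ * a)
  refine ⟨(d : K) * k, fun v => ?_⟩
  have h1 : (a - algebraMap K (FiniteAdeleRing (𝓞 K) K) ((d : K) * k)) v
      = loc K v (d : K) * ((algebraMap K (FiniteAdeleRing (𝓞 K) K) (d : K)⁻¹ * a) v
          - algebraMap K (v.adicCompletion K) k) := by
    have e1 : (a - algebraMap K (FiniteAdeleRing (𝓞 K) K) ((d : K) * k)) v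
        = a v - loc K v ((d : K) * k) := rfl
    have e2 : (algebraMap K (FiniteAdeleRing (𝓞 K) K) (d : K)⁻¹ * a) v
        = loc K v ((d : K)⁻¹) * a v := rfl
    rw [e1, e2]
    have e3 : loc K v ((d : K) * k) = loc K v (d : K) * loc K v k := by simp [loc]
    have e4 : loc K v (d : K) * loc K v ((d : K)⁻¹) = 1 := by
      rw [← map_mul, mul_inv_cancel₀ hdK, map_one]
    rw [e3]
    calc a v - loc K v (d : K) * loc K v k
        = (loc K v (d : K) * loc K v ((d : K)⁻¹)) * a v - loc K v (d : K) * loc K v k := by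
          rw [e4, one_mul]
      _ = _ := by ring
  rw [h1, norm_mul]
  have h2 : ‖(algebraMap K (FiniteAdeleRing (𝓞 K) K) (d : K)⁻¹ * a) v
      - algebraMap K (v.adicCompletion K) k‖ ≤ 1 := by
    rw [Valued.toNormedField.norm_le_one_iff]
    exact (mem_adicCompletionIntegers _ _ _).mp (hk v)
  exact mul_le_of_le_one_right (norm_nonneg _) h2

/-! ## Characters of the adeles -/

/-- the finite adele `f` as an adele. -/
def finA (f : FiniteAdeleRing (𝓞 K) K) : AdeleRing (𝓞 K) K := (0, f)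

/-- the infinite adele `t` as an adele. -/
def infA (t : InfiniteAdeleRing K) : AdeleRing (𝓞 K) K := (t, 0)

theorem continuous_finA : Continuous (finA K) :=
  Continuous.prodMk continuous_const continuous_id

theorem continuous_infA : Continuous (infA K) :=
  Continuous.prodMk continuous_id continuous_const

theorem finA_zero : finA K 0 = 0 := rfl

theorem infA_zero : infA K 0 = 0 := rfl

theorem finA_add (f g : FiniteAdeleRing (𝓞 K) K) : finA K (f + g) = finA K f + finA K g :=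
  Prod.ext (show (0 : InfiniteAdeleRing K) = 0 + 0 from (add_zero 0).symm) rfl

theorem infA_add (s t : InfiniteAdeleRing K) : infA K (s + t) = infA K s + infA K t :=
  Prod.ext rfl (show (0 : FiniteAdeleRing (𝓞 K) K) = 0 + 0 from (add_zero 0).symm)

theorem finA_nsmul (n : ℕ) (f : FiniteAdeleRing (𝓞 K) K) : finA K (n • f) = n • finA K f := by
  induction n with
  | zero => simp [finA_zero]
  | succ n ih => rw [succ_nsmul, succ_nsmul, finA_add, ih]

theorem infA_add_finA (x : AdeleRing (𝓞 K) K) : infA K x.1 + finA K x.2 = x :=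
  Prod.ext (show x.1 + (0 : InfiniteAdeleRing K) = x.1 from add_zero _)
    (show (0 : FiniteAdeleRing (𝓞 K) K) + x.2 = x.2 from zero_add _)

/-- **Step 0.** A continuous character of the adeles is trivial on `0 × d 𝒪̂` for some non-zero
`d`. -/
theorem exists_level (ψ : AddChar (AdeleRing (𝓞 K) K) Circle) (hc : Continuous ψ) :
    ∃ d : 𝓞 K, d ≠ 0 ∧ ∀ f ∈ levelSet K d, ψ (finA K f) = 1 := by
  have hcont : Continuous fun f : FiniteAdeleRing (𝓞 K) K => ψ (finA K f) :=
    hc.comp (continuous_finA K)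
  have hU : (fun f : FiniteAdeleRing (𝓞 K) K => ψ (finA K f)) ⁻¹' rightHalf
      ∈ nhds (0 : FiniteAdeleRing (𝓞 K) K) := by
    apply hcont.continuousAt.preimage_mem_nhds
    apply isOpen_rightHalf.mem_nhds
    rw [finA_zero, AddChar.map_zero_eq_one]
    exact one_mem_rightHalf
  obtain ⟨d, hd0, hd⟩ := exists_levelSet_subset K _ hU
  refine ⟨d, hd0, fun f hf => ?_⟩
  apply circle_eq_one_of_pow
  intro k
  have h1 : (2 ^ k) • f ∈ levelSet K d := nsmul_mem_levelSet K hf _
  have h2 := hd h1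
  have h3 : ψ (finA K ((2 ^ k) • f)) = ψ (finA K f) ^ (2 ^ k) := by
    rw [finA_nsmul, AddChar.map_nsmul_eq_pow]
  change ψ (finA K ((2 ^ k) • f)) ∈ rightHalf at h2
  rw [h3] at h2
  exact h2

end Fermat.Agent.LT.T3.H127

end
end
-- ===== PACK-END LT/T3/H127/Level.lean

-- ===== PACK-BEGIN LT/T1/H309/AdNorm.lean
section



/-!
# Row LT, tower T1, leaf `AdNormC` (helper309)

OFF-MAIN.  The module `adNorm` of `T1/Spec.lean` on the ideles of a number field `K`:
positive, multiplicative, trivial on `Kˣ` (product formula, from Mathlib's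
`NumberField.prod_abs_eq_one`), continuous for the unit topology of `(𝔸_K)ˣ`.

`adNormC309 K : Fermat.Agent.LT.T1.AdNormC K` and `leafAdNorm309 K : LeafAdNorm K` (leaf T1.05),
unconditional, every number field `K`.
-/

set_option autoImplicit false

open IsDedekindDomain NumberField
open Fermat.Agent.LT.H556.A0 Fermat.Agent.LT.T1

noncomputable section

namespace Fermat.Agent.LT.T1.H309

variable (K : Type) [Field K] [NumberField K]

/-! ## Components of an idele -/

theorem fin_isUnit309 (x : (Adl K)ˣ) : IsUnit ((x : Adl K).2) :=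
  (Prod.isUnit_iff.mp x.isUnit).2

theorem inf_ne_zero309 (x : (Adl K)ˣ) (w : InfinitePlace K) : (x : Adl K).1 w ≠ 0 :=
  (Pi.isUnit_iff.mp (Prod.isUnit_iff.mp x.isUnit).1 w).ne_zero

theorem fin_ne_zero309 (x : (Adl K)ˣ) (v : HeightOneSpectrum (𝓞 K)) : (x : Adl K).2 v ≠ 0 :=
  (FiniteAdeleRing.isUnit_iff.mp (fin_isUnit309 K x)).1 v

theorem norm_eq_one_iff309 (v : HeightOneSpectrum (𝓞 K)) (y : v.adicCompletion K) :
    ‖y‖ = 1 ↔ Valued.v y = 1 := by
  rw [le_antisymm_iff, le_antisymm_iff, Valued.toNormedField.norm_le_one_iff,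
    Valued.toNormedField.one_le_norm_iff]

theorem hasFiniteMulSupport309 (x : (Adl K)ˣ) :
    Function.HasFiniteMulSupport fun v : HeightOneSpectrum (𝓞 K) => ‖(x : Adl K).2 v‖ := by
  have h := (FiniteAdeleRing.isUnit_iff.mp (fin_isUnit309 K x)).2
  rw [Filter.eventually_cofinite] at h
  refine h.subset fun v hv => ?_
  simp only [Function.mem_mulSupport] at hv
  simp only [Set.mem_ofPred_eq]
  exact fun h1 => hv ((norm_eq_one_iff309 K v _).mpr h1)

/-! ## Positivity and multiplicativity -/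

theorem adNorm_pos309 (x : (Adl K)ˣ) : 0 < adNorm K (x : Adl K) := by
  unfold adNorm
  refine mul_pos (Finset.prod_pos fun w _ => pow_pos (norm_pos_iff.mpr (inf_ne_zero309 K x w)) _) ?_
  exact finprod_induction (fun r : ℝ => 0 < r) one_pos (fun _ _ => mul_pos)
    fun v => norm_pos_iff.mpr (fin_ne_zero309 K x v)

theorem adNorm_mul309 (x y : (Adl K)ˣ) :
    adNorm K ((x * y : (Adl K)ˣ) : Adl K) = adNorm K (x : Adl K) * adNorm K (y : Adl K) := by
  unfold adNorm
  have h1 : ∀ w : InfinitePlace K, ‖((x * y : (Adl K)ˣ) : Adl K).1 w‖ ^ w.mult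
      = ‖(x : Adl K).1 w‖ ^ w.mult * ‖(y : Adl K).1 w‖ ^ w.mult := fun w => by
    rw [← mul_pow, ← norm_mul]; rfl
  have h2 : ∀ v : HeightOneSpectrum (𝓞 K), ‖((x * y : (Adl K)ˣ) : Adl K).2 v‖
      = ‖(x : Adl K).2 v‖ * ‖(y : Adl K).2 v‖ := fun v => by
    rw [← norm_mul]; rfl
  simp only [h1, h2, Finset.prod_mul_distrib]
  rw [finprod_mul_distrib (hasFiniteMulSupport309 K x) (hasFiniteMulSupport309 K y)]
  ring

/-! ## Product formula -/

theorem infNorm309 (ξ : K) (w : InfinitePlace K) :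
    ‖(algebraMap K (Adl K) ξ).1 w‖ = w ξ := by
  have := InfinitePlace.Completion.norm_coe w ((WithAbs.equiv w.1).symm ξ)
  simpa using this

theorem finNorm309 (ξ : K) (v : HeightOneSpectrum (𝓞 K)) :
    ‖(algebraMap K (Adl K) ξ).2 v‖ = (FinitePlace.equivHeightOneSpectrum.symm v) ξ := rfl

theorem adNorm_algebraMap309 (ξ : K) (hξ : ξ ≠ 0) :
    adNorm K (algebraMap K (Adl K) ξ) = 1 := by
  unfold adNorm
  simp only [infNorm309, finNorm309]
  rw [finprod_eq_of_bijective (f := fun v : HeightOneSpectrum (𝓞 K) =>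
      (FinitePlace.equivHeightOneSpectrum.symm v) ξ) (g := fun w : FinitePlace K => w ξ)
      FinitePlace.equivHeightOneSpectrum.symm FinitePlace.equivHeightOneSpectrum.symm.bijective
      (fun _ => rfl)]
  exact prod_abs_eq_one hξ

theorem adNorm_ratUnit309 (ξ : Kˣ) : adNorm K (ratUnit K ξ : Adl K) = 1 :=
  adNorm_algebraMap309 K (ξ : K) ξ.ne_zero

/-! ## Continuity -/

theorem continuous_fst309 : Continuous fun y : (Adl K)ˣ => (y : Adl K).1 :=
  continuous_fst.comp Units.continuous_val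

theorem continuous_snd309 : Continuous fun y : (Adl K)ˣ => (y : Adl K).2 :=
  continuous_snd.comp Units.continuous_val

theorem continuous_snd_inv309 : Continuous fun y : (Adl K)ˣ => ((y⁻¹ : (Adl K)ˣ) : Adl K).2 :=
  (continuous_snd309 K).comp continuous_inv

theorem fin_mul_inv309 (y : (Adl K)ˣ) (v : HeightOneSpectrum (𝓞 K)) :
    (y : Adl K).2 v * ((y⁻¹ : (Adl K)ˣ) : Adl K).2 v = 1 := by
  have h : (y : Adl K) * ((y⁻¹ : (Adl K)ˣ) : Adl K) = 1 := y.mul_inv
  have h2 := congrArg (fun z : Adl K => z.2 v) h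
  exact h2

theorem continuous_adNorm309 : Continuous fun x : (Adl K)ˣ => adNorm K (x : Adl K) := by
  rw [continuous_iff_continuousAt]
  intro x0
  have hfin : {v : HeightOneSpectrum (𝓞 K) | ¬ Valued.v ((x0 : Adl K).2 v) = 1}.Finite := by
    have h := (FiniteAdeleRing.isUnit_iff.mp (fin_isUnit309 K x0)).2
    rwa [Filter.eventually_cofinite] at h
  set S : Finset (HeightOneSpectrum (𝓞 K)) := hfin.toFinset with hS
  let U : Set (FiniteAdeleRing (𝓞 K) K) :=
    {f | ∀ v : HeightOneSpectrum (𝓞 K), v ∉ S → f v ∈ v.adicCompletionIntegers K}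
  have hU : IsOpen U :=
    RestrictedProduct.isOpen_forall_imp_mem
      (A := fun v : HeightOneSpectrum (𝓞 K) => (v.adicCompletionIntegers K : Set (v.adicCompletion K)))
      (fun v => Valued.isOpen_valuationSubring _) (p := fun v => v ∉ S)
  let V : Set (Adl K)ˣ := {y | (y : Adl K).2 ∈ U ∧ ((y⁻¹ : (Adl K)ˣ) : Adl K).2 ∈ U}
  have hV : IsOpen V :=
    (hU.preimage (continuous_snd309 K)).inter (hU.preimage (continuous_snd_inv309 K))
  have hval : ∀ (y : (Adl K)ˣ) (v : HeightOneSpectrum (𝓞 K)),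
      Valued.v ((y : Adl K).2 v) * Valued.v (((y⁻¹ : (Adl K)ˣ) : Adl K).2 v) = 1 := by
    intro y v
    rw [← map_mul, fin_mul_inv309, map_one]
  have hx0 : x0 ∈ V := by
    refine ⟨fun v hv => ?_, fun v hv => ?_⟩
    · have h1 : Valued.v ((x0 : Adl K).2 v) = 1 := by
        by_contra h; exact hv (by simpa [hS] using h)
      rw [HeightOneSpectrum.mem_adicCompletionIntegers]
      exact h1.le
    · have h1 : Valued.v ((x0 : Adl K).2 v) = 1 := by
        by_contra h; exact hv (by simpa [hS] using h)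
      have h2 := hval x0 v
      rw [h1, one_mul] at h2
      rw [HeightOneSpectrum.mem_adicCompletionIntegers]
      exact h2.le
  have hEq : ∀ y ∈ V, adNorm K (y : Adl K)
      = (∏ w : InfinitePlace K, ‖(y : Adl K).1 w‖ ^ w.mult) * ∏ v ∈ S, ‖(y : Adl K).2 v‖ := by
    intro y hy
    unfold adNorm
    congr 1
    apply finprod_eq_prod_of_mulSupport_subset
    intro v hv
    by_contra hvS
    have hvS' : v ∉ S := fun h => hvS (by simpa using h)
    have h1 := hy.1 v hvS'
    have h2 := hy.2 v hvS'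
    rw [HeightOneSpectrum.mem_adicCompletionIntegers,
      ← Valued.toNormedField.norm_le_one_iff] at h1 h2
    have h3 : ‖(y : Adl K).2 v‖ * ‖((y⁻¹ : (Adl K)ˣ) : Adl K).2 v‖ = 1 := by
      rw [← norm_mul, fin_mul_inv309, norm_one]
    have h4 : ‖(y : Adl K).2 v‖ = 1 := by
      refine le_antisymm h1 ?_
      calc (1 : ℝ) = ‖(y : Adl K).2 v‖ * ‖((y⁻¹ : (Adl K)ˣ) : Adl K).2 v‖ := h3.symm
        _ ≤ ‖(y : Adl K).2 v‖ * 1 := mul_le_mul_of_nonneg_left h2 (norm_nonneg _)
        _ = ‖(y : Adl K).2 v‖ := mul_one _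
    exact hv h4
  have hcont : Continuous fun y : (Adl K)ˣ =>
      (∏ w : InfinitePlace K, ‖(y : Adl K).1 w‖ ^ w.mult) * ∏ v ∈ S, ‖(y : Adl K).2 v‖ := by
    refine Continuous.mul (continuous_finsetProd _ fun w _ => ?_)
      (continuous_finsetProd _ fun v _ => ?_)
    · exact (continuous_norm.comp ((continuous_apply w).comp (continuous_fst309 K))).pow _
    · exact continuous_norm.comp
        ((RestrictedProduct.continuous_eval v).comp (continuous_snd309 K))
  exact hcont.continuousAt.congr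
    (Filter.eventuallyEq_of_mem (hV.mem_nhds hx0) fun y hy => (hEq y hy).symm)

/-! ## The leaf -/

theorem adNormC309 : AdNormC K :=
  ⟨adNorm_pos309 K, adNorm_mul309 K, adNorm_ratUnit309 K, continuous_adNorm309 K⟩

/-- Leaf T1.05 of `T1/Spec.lean` v1. -/
theorem leafAdNorm309 : LeafAdNorm K := adNormC309 K

end Fermat.Agent.LT.T1.H309

end

end
-- ===== PACK-END LT/T1/H309/AdNorm.lean

-- ===== PACK-BEGIN LT/T5/H62/FrameExists.lean
section




/-!
# Row LT, adapter T1 → T5 (helper62): a frame exists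

OFF-MAIN.  The tower Prop `T5.Tower` (and `T5.STFsigma`, `T5.GeomUnfold`) quantifies over frames
`(μ, F, r)` with `T5.IsFrame μ F`, `T5.IsRayGen r`, `T5.AutPreserves s 𝔫 μ r`.  The consumer
(T4 / T7) has to instantiate them.  This file produces a frame from the interface Props of tower
T1, in the vocabulary of `T5/Spec.lean` (helper32) and `T1/Spec.lean` (helper54), both VERBATIM.

* `isInvInvariant_of_rightInvariant62` : (Mathlib only) on a second countable locally compact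
  group, a Haar measure which is right invariant is invariant under inversion.
* `exists_rayGen62` : a generator `r` of the discrete central ray exists.
* `autPreserves_id62` : `AutPreserves (AdelicAut.id K) 𝔫 μ r` for every `μ`, `r`, `𝔫`.
* `isFrame_of_T1_62` : a Haar measure `μ` + `T1.UnimodC` + the fundamental domain of
  `T1.FundDomC` for `μ` give `T5.IsFrame μ F`.
* `frame_exists62` : `T1.LocCompC K → T1.UnimodC K → T1.FundDomC K →
  ∃ μ F r, IsFrame μ F ∧ IsRayGen r ∧ AutPreserves (AdelicAut.id K) 𝔫 μ r`.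
-/

set_option autoImplicit false

open IsDedekindDomain NumberField MeasureTheory
open scoped MatrixGroups

noncomputable section

namespace Fermat.Agent.LT.T5.H62

open Fermat.Agent.LT.H556.A0

/-! ## 1. Unimodular ⇒ inversion invariant (Mathlib only) -/

/-- On a second countable locally compact group, a right invariant Haar measure is invariant
under inversion.  (Mathlib has this for commutative groups only.) -/
theorem isInvInvariant_of_rightInvariant62 {G : Type*} [Group G] [TopologicalSpace G]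
    [IsTopologicalGroup G] [MeasurableSpace G] [BorelSpace G] [LocallyCompactSpace G]
    [SecondCountableTopology G] (μ : Measure G) [μ.IsHaarMeasure] [μ.IsMulRightInvariant] :
    μ.IsInvInvariant := by
  constructor
  let c : NNReal := Measure.haarScalarFactor μ.inv μ
  have hc : μ.inv = c • μ := Measure.isMulLeftInvariant_eq_smul μ.inv μ
  have h2 : Measure.map Inv.inv (Measure.map Inv.inv μ) = (c * c) • μ := by
    rw [← Measure.inv_def μ, hc, Measure.map_smul, ← Measure.inv_def μ, hc, smul_smul]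
  have μeq : μ = (c * c) • μ := by
    rw [Measure.map_map continuous_inv.measurable continuous_inv.measurable] at h2
    simpa only [inv_involutive, Function.Involutive.comp_self, Measure.map_id] using h2
  have K : TopologicalSpace.PositiveCompacts G := Classical.arbitrary _
  have hK0 : μ K ≠ 0 := (Measure.measure_pos_of_nonempty_interior _ K.interior_nonempty).ne'
  have hKt : μ K ≠ ⊤ := K.isCompact.measure_lt_top.ne
  have h3 : ((c * c : NNReal) : ENNReal) * μ K = 1 * μ K := by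
    conv_rhs => rw [μeq]
    simp
  have h4 : ((c * c : NNReal) : ENNReal) = 1 := (ENNReal.mul_left_inj hK0 hKt).1 h3
  have h5 : c * c = 1 := by exact_mod_cast h4
  have h6 : c = 1 := by
    have h7 : (c : ℝ) * (c : ℝ) = 1 := by exact_mod_cast h5
    have h8 : (0 : ℝ) ≤ c := c.2
    have h9 : (c : ℝ) = 1 := by nlinarith
    exact_mod_cast h9
  rw [hc, h6, one_smul]

/-! ## 2. The ray generator -/

variable {K : Type} [Field K] [NumberField K]

omit [NumberField K] in
/-- Every real number is the image of an element of the completion at an infinite place. -/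
theorem exists_completion_eq_ofReal62 (w : InfinitePlace K) (t : ℝ) :
    ∃ c : w.Completion, InfinitePlace.Completion.extensionEmbedding w c = (t : ℂ) := by
  rcases InfinitePlace.isReal_or_isComplex w with hw | hw
  · obtain ⟨c, hc⟩ := InfinitePlace.Completion.surjective_extensionEmbeddingOfIsReal hw t
    refine ⟨c, ?_⟩
    rw [← InfinitePlace.Completion.extensionEmbeddingOfIsReal_apply hw, hc]
  · exact InfinitePlace.Completion.surjective_extensionEmbedding_of_isComplex hw (t : ℂ)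

/-- A central element of `GL₂(𝔸_K)` which is `1` at the finite places and the real scalar `t ≠ 0`
at every infinite place. -/
theorem exists_centralRay62 (t : ℝ) (ht : t ≠ 0) :
    ∃ r : G K, (∀ v : HeightOneSpectrum (𝓞 K), TrivAtFin v r) ∧
      ∀ w : InfinitePlace K, infComp w r = Matrix.diagonal (fun _ => (t : ℂ)) := by
  classical
  choose c hc using fun w : InfinitePlace K => exists_completion_eq_ofReal62 w t
  choose c' hc' using fun w : InfinitePlace K => exists_completion_eq_ofReal62 w t⁻¹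
  have hcc : ∀ w, c w * c' w = 1 := by
    intro w
    apply (InfinitePlace.Completion.extensionEmbedding w).injective
    rw [map_mul, hc, hc', map_one, ← Complex.ofReal_mul, mul_inv_cancel₀ ht, Complex.ofReal_one]
  let x : Adl K := (fun w => c w, 1)
  let x' : Adl K := (fun w => c' w, 1)
  have hxx : x * x' = 1 := by
    refine Prod.ext ?_ ?_
    · funext w
      exact hcc w
    · show (1 : FiniteAdeleRing (𝓞 K) K) * 1 = 1
      rw [mul_one]
  let u : (Adl K)ˣ := ⟨x, x', hxx, by rw [mul_comm]; exact hxx⟩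
  let r : G K := Units.map (Matrix.scalar (Fin 2)).toMonoidHom u
  have hr : (r : Matrix (Fin 2) (Fin 2) (Adl K)) = Matrix.diagonal (fun _ => x) := rfl
  refine ⟨r, ?_, ?_⟩
  · intro v
    show finComp v r = 1
    apply Matrix.ext
    intro i j
    show ((r : Matrix (Fin 2) (Fin 2) (Adl K)) i j).2 v = _
    rw [hr]
    by_cases hij : i = j
    · subst hij
      rw [Matrix.diagonal_apply_eq, Matrix.one_apply_eq]
      rfl
    · rw [Matrix.diagonal_apply_ne _ hij, Matrix.one_apply_ne hij]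
      rfl
  · intro w
    apply Matrix.ext
    intro i j
    show InfinitePlace.Completion.extensionEmbedding w
      (((r : Matrix (Fin 2) (Fin 2) (Adl K)) i j).1 w) = _
    rw [hr]
    by_cases hij : i = j
    · subst hij
      rw [Matrix.diagonal_apply_eq, Matrix.diagonal_apply_eq]
      exact hc w
    · rw [Matrix.diagonal_apply_ne _ hij, Matrix.diagonal_apply_ne _ hij]
      exact map_zero _

/-- **A generator of the discrete central ray exists.** -/
theorem exists_rayGen62 (K : Type) [Field K] [NumberField K] : ∃ r : G K, IsRayGen r := by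
  have hn : 2 * Module.finrank ℚ K ≠ 0 :=
    Nat.mul_ne_zero two_ne_zero (Module.finrank_pos (R := ℚ) (M := K)).ne'
  set t : ℝ := (2 : ℝ) ^ (((2 * Module.finrank ℚ K : ℕ) : ℝ)⁻¹) with ht
  have htpos : 0 < t := Real.rpow_pos_of_pos two_pos _
  have htpow : t ^ (2 * Module.finrank ℚ K) = 2 :=
    Real.rpow_inv_natCast_pow (by norm_num : (0 : ℝ) ≤ 2) hn
  obtain ⟨r, hfin, hinf⟩ := exists_centralRay62 (K := K) t htpos.ne'
  exact ⟨r, hfin, t, htpos, htpow, hinf⟩

/-! ## 3. The trivial automorphism preserves every frame -/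

attribute [local instance] Fermat.Agent.LT.T5.instMeasurableSpaceG

theorem onG_id62 (g : G K) : (AdelicAut.id K).onG g = g := by
  apply Units.ext
  ext i j
  rfl

theorem onGinv_id62 (g : G K) : (AdelicAut.id K).onGinv g = g := by
  apply Units.ext
  ext i j
  rfl

theorem onRat_id62 (γ : GL (Fin 2) K) : (AdelicAut.id K).onRat γ = γ := by
  apply Units.ext
  ext i j
  rfl

/-- `AutPreserves` holds for the trivial automorphism (the frame of T4). -/
theorem autPreserves_id62 (𝔫 : Ideal (𝓞 K)) (μ : Measure (G K)) (r : G K) :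
    AutPreserves (AdelicAut.id K) 𝔫 μ r where
  left_inverse g := by rw [onG_id62, onGinv_id62]
  right_inverse g := by rw [onGinv_id62, onG_id62]
  rat γ := by rw [onG_id62, onRat_id62]
  cont := by
    have : ((AdelicAut.id K).onG : G K → G K) = id := funext onG_id62
    rw [this]
    exact continuous_id
  measure A _ := by
    have : ((AdelicAut.id K).onG : G K → G K) = id := funext onG_id62
    rw [this, Set.preimage_id]
  ray := onG_id62 r
  slab g := by rw [onG_id62]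
  level u := by rw [onG_id62]
  arch k := by rw [onG_id62]

/-! ## 4. The frame -/

theorem slab_eq62 (K : Type) [Field K] [NumberField K] :
    Fermat.Agent.LT.T5.slab K = Fermat.Agent.LT.T1.slab K := rfl

theorem ratG_eq62 (K : Type) [Field K] [NumberField K] :
    (Fermat.Agent.LT.T5.ratG : GL (Fin 2) K →* G K) = Fermat.Agent.LT.T1.ratG K := rfl

/-- A Haar measure which is right invariant, together with a strict fundamental domain of finite
measure in the slab (the shape of `T1.FundDomC`), is a frame. -/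
theorem isFrame_of_haar62 [LocallyCompactSpace (G K)] [SecondCountableTopology (G K)]
    (μ : Measure (G K)) [μ.IsHaarMeasure] [μ.IsMulRightInvariant] (F : Set (G K))
    (hmeas : MeasurableSet F) (hsub : F ⊆ Fermat.Agent.LT.T1.slab K)
    (hstrict : ∀ g ∈ Fermat.Agent.LT.T1.slab K,
      ∃! γ : GL (Fin 2) K, Fermat.Agent.LT.T1.ratG K γ * g ∈ F)
    (hfin : μ F < ⊤) : IsFrame μ F := by
  have : BorelSpace (G K) := ⟨rfl⟩
  have : μ.IsInvInvariant := isInvInvariant_of_rightInvariant62 μ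
  exact
    { haar := inferInstance
      right_inv := fun g A _ => measure_preimage_mul_right μ g A
      inv_inv := fun A _ => Measure.measure_preimage_inv μ A
      meas := hmeas
      sub := hsub
      strict := hstrict
      finite := hfin }

/-- For EVERY Haar measure `μ` of `GL₂(𝔸_K)` there is `F` with `IsFrame μ F`. -/
theorem exists_isFrame62 (K : Type) [Field K] [NumberField K]
    (hLC : Fermat.Agent.LT.T1.LocCompC K) (hU : Fermat.Agent.LT.T1.UnimodC K)
    (hFD : Fermat.Agent.LT.T1.FundDomC K) (μ : Measure (G K)) (hμ : μ.IsHaarMeasure) :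
    ∃ F : Set (G K), IsFrame μ F := by
  have : LocallyCompactSpace (G K) := hLC.2.1
  have : SecondCountableTopology (G K) := hLC.2.2.2
  have : μ.IsMulRightInvariant := hU μ hμ
  obtain ⟨F, hmeas, hsub, hstrict, hfin⟩ := hFD μ hμ
  exact ⟨F, isFrame_of_haar62 μ F hmeas hsub hstrict hfin⟩

/-- **A frame exists** (T1 ⇒ the frame of T5, for the trivial automorphism = the frame of T4). -/
theorem frame_exists62 (K : Type) [Field K] [NumberField K] (𝔫 : Ideal (𝓞 K))
    (hLC : Fermat.Agent.LT.T1.LocCompC K) (hU : Fermat.Agent.LT.T1.UnimodC K)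
    (hFD : Fermat.Agent.LT.T1.FundDomC K) :
    ∃ (μ : Measure (G K)) (F : Set (G K)) (r : G K),
      IsFrame μ F ∧ IsRayGen r ∧ AutPreserves (AdelicAut.id K) 𝔫 μ r := by
  have : LocallyCompactSpace (G K) := hLC.2.1
  have : SecondCountableTopology (G K) := hLC.2.2.2
  have : BorelSpace (G K) := ⟨rfl⟩
  let K0 : TopologicalSpace.PositiveCompacts (G K) := Classical.arbitrary _
  let μ : Measure (G K) := Measure.haarMeasure K0
  have : μ.IsHaarMeasure := inferInstance
  have : μ.IsMulRightInvariant := hU μ inferInstance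
  obtain ⟨F, hmeas, hsub, hstrict, hfin⟩ := hFD μ inferInstance
  obtain ⟨r, hr⟩ := exists_rayGen62 K
  exact ⟨μ, F, r, isFrame_of_haar62 μ F hmeas hsub hstrict hfin, hr, autPreserves_id62 𝔫 μ r⟩

/-- The same from the output structure of tower T1. -/
theorem frame_exists_of_T1Out62 (K : Type) [Field K] [NumberField K] (𝔫 : Ideal (𝓞 K))
    (h : Fermat.Agent.LT.T1.T1Out K) :
    ∃ (μ : Measure (G K)) (F : Set (G K)) (r : G K),
      IsFrame μ F ∧ IsRayGen r ∧ AutPreserves (AdelicAut.id K) 𝔫 μ r :=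
  frame_exists62 K 𝔫 h.locComp h.unimod h.fundDom

end Fermat.Agent.LT.T5.H62

end

end
-- ===== PACK-END LT/T5/H62/FrameExists.lean

-- ===== PACK-BEGIN LT/T5/H74/RangeAut.lean
section


/-!
# Row LT, tower T5, leaf T5.04 `LeafRange` (helper74): the AUTOMORPHY part

OFF-MAIN (Spec v4, `K_∞`-type `τ`).  The function `h x = ∫_F K_φ(x, z) f(z) dz` is left
invariant under `GL₂(K)`, right invariant under `U(𝔫)` and under the generator `r` of the
discrete ray, and of type `τ` under the maximal compact subgroups at infinity.  Pure re-indexing of the (unconditional) sums `∑'`: no summability, no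
integrability and no measurability is used.
-/

set_option autoImplicit false

open IsDedekindDomain NumberField MeasureTheory
open scoped MatrixGroups ComplexConjugate

noncomputable section

namespace Fermat.Agent.LT.T5.H74

open Fermat.Agent.LT.H556.A0 Fermat.Agent.LT.T5

attribute [local instance] Fermat.Agent.LT.T5.instMeasurableSpaceG

variable {K : Type} [Field K] [NumberField K]

/-! ## The kernel: re-indexing -/

/-- `K_φ(γ₀ x, z) = K_φ(x, z)` for `γ₀ ∈ GL₂(K)`. -/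
theorem ker0_ratG_mul_left74 (r : G K) (φ : G K → ℂ) (γ₀ : GL (Fin 2) K) (x z : G K) :
    ker0 r φ (ratG γ₀ * x) z = ker0 r φ x z := by
  unfold ker0
  have h : ∀ γ : GL (Fin 2) K,
      flat r φ ((ratG γ₀ * x)⁻¹ * ratG γ * z)
        = (fun γ' : GL (Fin 2) K => flat r φ (x⁻¹ * ratG γ' * z)) (Equiv.mulLeft γ₀⁻¹ γ) := by
    intro γ
    simp only [Equiv.coe_mulLeft, mul_inv_rev, map_mul, map_inv, mul_assoc]
  rw [tsum_congr h]
  exact (Equiv.mulLeft γ₀⁻¹).tsum_eq (fun γ' : GL (Fin 2) K => flat r φ (x⁻¹ * ratG γ' * z))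

/-- `K_φ(x u, z) = K_φ(x, z)` if `φ` is left invariant under `u⁻¹`. -/
theorem ker0_mul_right_of_left_inv74 (r : G K) (φ : G K → ℂ) (u : G K)
    (hu : ∀ g : G K, φ (u⁻¹ * g) = φ g) (x z : G K) :
    ker0 r φ (x * u) z = ker0 r φ x z := by
  unfold ker0 flat
  refine tsum_congr fun γ => tsum_congr fun m => ?_
  have : (x * u)⁻¹ * ratG γ * z * r ^ m = u⁻¹ * (x⁻¹ * ratG γ * z * r ^ m) := by
    simp only [mul_inv_rev, mul_assoc]
  rw [this, hu]

/-- `φ♭(c g) = φ♭(g c)`-type re-indexing: for a CENTRAL `r`, `φ♭(r⁻¹ g) = φ♭(g)`. -/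
theorem flat_inv_mul_of_central74 (r : G K) (hr : ∀ g : G K, r * g = g * r) (φ : G K → ℂ)
    (g : G K) : flat r φ (r⁻¹ * g) = flat r φ g := by
  unfold flat
  have hc : ∀ g : G K, r⁻¹ * g = g * r⁻¹ := by
    intro g
    have := hr (r⁻¹ * g * r⁻¹)
    calc r⁻¹ * g = r⁻¹ * g * r⁻¹ * r := by simp [mul_assoc]
      _ = r * (r⁻¹ * g * r⁻¹) := (hr _).symm
      _ = g * r⁻¹ := by simp [mul_assoc]
  have h : ∀ m : ℤ, φ (r⁻¹ * g * r ^ m)
      = (fun m' : ℤ => φ (g * r ^ m')) (Equiv.addRight (-1 : ℤ) m) := by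
    intro m
    simp only [Equiv.coe_addRight]
    congr 1
    rw [hc g, mul_assoc, zpow_add, zpow_neg_one]
    congr 1
    exact (Commute.zpow_right (Commute.refl r).inv_left m).eq
  rw [tsum_congr h]
  exact (Equiv.addRight (-1 : ℤ)).tsum_eq (fun m' : ℤ => φ (g * r ^ m'))

/-- `K_φ(x r, z) = K_φ(x, z)` for a central `r`. -/
theorem ker0_mul_ray74 (r : G K) (hr : ∀ g : G K, r * g = g * r) (φ : G K → ℂ) (x z : G K) :
    ker0 r φ (x * r) z = ker0 r φ x z := by
  unfold ker0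
  refine tsum_congr fun γ => ?_
  have : (x * r)⁻¹ * ratG γ * z = r⁻¹ * (x⁻¹ * ratG γ * z) := by
    simp only [mul_inv_rev, mul_assoc]
  rw [this, flat_inv_mul_of_central74 r hr]

/-! ## Components of inverses -/

/-- A ring homomorphism which maps the matrix of `g` to `1` maps the matrix of `g⁻¹` to `1`. -/
theorem map_inv_eq_one74 {S : Type*} [CommRing S] (ρ : Adl K →+* S) (g : G K)
    (h : (g : Matrix (Fin 2) (Fin 2) (Adl K)).map ρ = 1) :
    ((g⁻¹ : G K) : Matrix (Fin 2) (Fin 2) (Adl K)).map ρ = 1 := by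
  have h1 : ((g⁻¹ : G K) : Matrix (Fin 2) (Fin 2) (Adl K))
      * (g : Matrix (Fin 2) (Fin 2) (Adl K)) = 1 := by
    rw [← Units.val_mul, inv_mul_cancel, Units.val_one]
  have h2 := congrArg (fun M : Matrix (Fin 2) (Fin 2) (Adl K) => M.map ρ) h1
  simp only [Matrix.map_mul, h, mul_one] at h2
  rw [h2]
  ext i j
  simp [Matrix.map_apply, Matrix.one_apply]

/-- The component at the infinite place `w`, in the completion. -/
def evInf74 (w : InfinitePlace K) : Adl K →+* w.Completion :=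
  (Pi.evalRingHom (fun v : InfinitePlace K => v.Completion) w).comp
    (RingHom.fst (InfiniteAdeleRing K) (FiniteAdeleRing (𝓞 K) K))

theorem trivAtInf_iff74 (w : InfinitePlace K) (g : G K) :
    TrivAtInf w g ↔ (g : Matrix (Fin 2) (Fin 2) (Adl K)).map (evInf74 w) = 1 := by
  constructor
  · intro h
    exact Matrix.ext fun i j => h i j
  · intro h i j
    exact congrFun (congrFun h i) j

theorem trivAtFin_iff74 (v : HeightOneSpectrum (𝓞 K)) (g : G K) :
    TrivAtFin v g ↔ (g : Matrix (Fin 2) (Fin 2) (Adl K)).map (finHom v) = 1 := Iff.rfl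

theorem trivAtInf_inv74 (w : InfinitePlace K) (g : G K) (h : TrivAtInf w g) :
    TrivAtInf w g⁻¹ :=
  (trivAtInf_iff74 w g⁻¹).2 (map_inv_eq_one74 _ g ((trivAtInf_iff74 w g).1 h))

theorem trivAtFin_inv74 (v : HeightOneSpectrum (𝓞 K)) (g : G K) (h : TrivAtFin v g) :
    TrivAtFin v g⁻¹ :=
  (trivAtFin_iff74 v g⁻¹).2 (map_inv_eq_one74 _ g ((trivAtFin_iff74 v g).1 h))

/-- The level group is stable under inversion. -/
theorem inLevelGroup_inv74 (𝔫 : Ideal (𝓞 K)) (u : G K) (h : InLevelGroup 𝔫 u) :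
    InLevelGroup 𝔫 u⁻¹ := by
  refine ⟨fun w => trivAtInf_inv74 w u (h.1 w), fun v i j => ?_⟩
  rw [inv_inv]
  exact ⟨(h.2 v i j).2, (h.2 v i j).1⟩

/-- The maximal compact subgroups at infinity are stable under inversion. -/
theorem isArchCompact_inv74 (w : InfinitePlace K) (k : G K) (h : IsArchCompact w k) :
    IsArchCompact w k⁻¹ := by
  obtain ⟨⟨h1, h2⟩, h3, h4⟩ := h
  have hA : infComp w k⁻¹ * infComp w k = 1 := by
    rw [infComp_eq_map, infComp_eq_map, ← Matrix.map_mul, ← Units.val_mul, inv_mul_cancel,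
      Units.val_one]
    ext i j
    simp [Matrix.map_apply, Matrix.one_apply]
  have hB : infComp w k⁻¹ = (infComp w k).conjTranspose := by
    calc infComp w k⁻¹ = infComp w k⁻¹ * (infComp w k * (infComp w k).conjTranspose) := by
          rw [h3, mul_one]
      _ = (infComp w k).conjTranspose := by rw [← mul_assoc, hA, one_mul]
  refine ⟨⟨fun w' hw' => trivAtInf_inv74 w' k (h1 w' hw'), fun v => trivAtFin_inv74 v k (h2 v)⟩,
    ?_, fun hw => ?_⟩
  · rw [hB, Matrix.conjTranspose_conjTranspose]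
    exact mul_eq_one_comm.1 h3
  · have hd := congrArg Matrix.det hA
    rw [Matrix.det_mul, h4 hw, mul_one, Matrix.det_one] at hd
    exact hd

/-! ## The generator of the ray is central -/

/-- Two adeles with the same components are equal. -/
theorem adele_ext74 {a b : Adl K} (h1 : ∀ w : InfinitePlace K, a.1 w = b.1 w)
    (h2 : ∀ v : HeightOneSpectrum (𝓞 K), a.2 v = b.2 v) : a = b := by
  apply Prod.ext
  · funext w
    exact h1 w
  · apply RestrictedProduct.ext
    intro v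
    exact h2 v

theorem fst_zero74 (w : InfinitePlace K) : ((0 : Adl K).1 w) = 0 := rfl

theorem snd_zero74 (v : HeightOneSpectrum (𝓞 K)) : ((0 : Adl K).2 v) = 0 := rfl

/-- The generator of the discrete ray is a scalar matrix, hence central. -/
theorem isRayGen_central74 (r : G K) (hr : IsRayGen r) : ∀ g : G K, r * g = g * r := by
  obtain ⟨hfin, t, -, -, hinf⟩ := hr
  have hfin' : ∀ (v : HeightOneSpectrum (𝓞 K)) (i j : Fin 2),
      ((r : Matrix (Fin 2) (Fin 2) (Adl K)) i j).2 v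
        = (1 : Matrix (Fin 2) (Fin 2) (v.adicCompletion K)) i j :=
    fun v i j => congrFun (congrFun (hfin v) i) j
  have hinf' : ∀ (w : InfinitePlace K) (i j : Fin 2),
      InfinitePlace.Completion.extensionEmbedding w
          (((r : Matrix (Fin 2) (Fin 2) (Adl K)) i j).1 w)
        = (Matrix.diagonal (fun _ : Fin 2 => (t : ℂ))) i j :=
    fun w i j => congrFun (congrFun (hinf w) i) j
  have hinj : ∀ w : InfinitePlace K,
      Function.Injective (InfinitePlace.Completion.extensionEmbedding w) :=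
    fun w => (InfinitePlace.Completion.extensionEmbedding w).injective
  have h01 : (r : Matrix (Fin 2) (Fin 2) (Adl K)) 0 1 = 0 := by
    apply adele_ext74
    · intro w
      apply hinj w
      rw [hinf' w 0 1, fst_zero74, map_zero]
      simp
    · intro v
      rw [hfin' v 0 1, snd_zero74]
      simp
  have h10 : (r : Matrix (Fin 2) (Fin 2) (Adl K)) 1 0 = 0 := by
    apply adele_ext74
    · intro w
      apply hinj w
      rw [hinf' w 1 0, fst_zero74, map_zero]
      simp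
    · intro v
      rw [hfin' v 1 0, snd_zero74]
      simp
  have h00 : (r : Matrix (Fin 2) (Fin 2) (Adl K)) 0 0
      = (r : Matrix (Fin 2) (Fin 2) (Adl K)) 1 1 := by
    apply adele_ext74
    · intro w
      apply hinj w
      rw [hinf' w 0 0, hinf' w 1 1]
      simp
    · intro v
      rw [hfin' v 0 0, hfin' v 1 1]
      simp
  intro g
  apply Units.ext
  rw [Units.val_mul, Units.val_mul]
  ext i j
  fin_cases i <;> fin_cases j <;>
    simp [Matrix.mul_apply, Fin.sum_univ_two, h01, h10, h00, mul_comm]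

/-! ## The `K_∞`-type -/

/-- `K_φ(x u, z) = c K_φ(x, z)` if `φ(u⁻¹ g) = c φ(g)`. -/
theorem ker0_mul_right_of_left_smul74 (r : G K) (φ : G K → ℂ) (u : G K) (c : ℂ)
    (hu : ∀ g : G K, φ (u⁻¹ * g) = c * φ g) (x z : G K) :
    ker0 r φ (x * u) z = c * ker0 r φ x z := by
  unfold ker0 flat
  rw [← tsum_mul_left]
  refine tsum_congr fun γ => ?_
  rw [← tsum_mul_left]
  refine tsum_congr fun m => ?_
  have : (x * u)⁻¹ * ratG γ * z * r ^ m = u⁻¹ * (x⁻¹ * ratG γ * z * r ^ m) := by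
    simp only [mul_inv_rev, mul_assoc]
  rw [this, hu]

theorem infComp_one74 (w : InfinitePlace K) : infComp w (1 : G K) = 1 := by
  rw [infComp_eq_map, Units.val_one, Matrix.map_one _ (map_zero _) (map_one _)]

theorem trivAtInf_one74 (w : InfinitePlace K) : TrivAtInf w (1 : G K) := by
  rw [trivAtInf_iff74, Units.val_one, Matrix.map_one _ (map_zero _) (map_one _)]

theorem trivAtFin_one74 (v : HeightOneSpectrum (𝓞 K)) : TrivAtFin v (1 : G K) := by
  rw [trivAtFin_iff74, Units.val_one, Matrix.map_one _ (map_zero _) (map_one _)]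

/-- The identity lies in every maximal compact subgroup at infinity. -/
theorem isArchCompact_one74 (w : InfinitePlace K) : IsArchCompact w (1 : G K) := by
  refine ⟨⟨fun w' _ => trivAtInf_one74 w', fun v => trivAtFin_one74 v⟩, ?_, fun _ => ?_⟩
  · rw [infComp_one74, Matrix.conjTranspose_one, mul_one]
  · rw [infComp_one74, Matrix.det_one]

/-- A `K_∞`-type is `1` at the identity. -/
theorem ktype_one74 (τ : G K → ℂ) (hτ : IsKType τ) (w : InfinitePlace K) : τ 1 = 1 := by
  have h1 : ‖τ 1‖ = 1 := hτ.norm_one w 1 (isArchCompact_one74 w)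
  have h2 : τ (1 * 1) = τ 1 * τ 1 :=
    hτ.mul w 1 1 (isArchCompact_one74 w) (isArchCompact_one74 w)
  rw [mul_one] at h2
  have h0 : τ 1 ≠ 0 := by
    intro h
    rw [h, norm_zero] at h1
    exact zero_ne_one h1
  exact (mul_right_cancel₀ h0 (by rw [one_mul]; exact h2)).symm

/-- `τ(k⁻¹)⁻¹ = τ(k)` on the maximal compact subgroups at infinity. -/
theorem ktype_inv74 (τ : G K → ℂ) (hτ : IsKType τ) (w : InfinitePlace K) (k : G K)
    (hk : IsArchCompact w k) : (τ k⁻¹)⁻¹ = τ k := by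
  have h : τ (k * k⁻¹) = τ k * τ k⁻¹ := hτ.mul w k k⁻¹ hk (isArchCompact_inv74 w k hk)
  rw [mul_inv_cancel, ktype_one74 τ hτ w] at h
  exact (eq_inv_of_mul_eq_one_left h.symm).symm

/-! ## The automorphy of the range -/

/-- **T5.04, automorphy part (unconditional).**  For a test function `φ` of type `τ` and ANY
`f`, the function `x ↦ ∫_F K_φ(x, z) f(z) dz` is automorphic of level `𝔫` and type `τ`, and
invariant under the ray. -/
theorem isAutomorphicFn_range74 (𝔫 : Ideal (𝓞 K)) (τ : G K → ℂ) (μ : Measure (G K))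
    (F : Set (G K)) (r : G K) (hr : IsRayGen r) (φ : G K → ℂ) (hφ : IsTestFn 𝔫 τ φ)
    (f : G K → ℂ) :
    IsAutomorphicFn 𝔫 τ r (fun x => ∫ z in F, ker0 r φ x z * f z ∂μ) where
  left_inv := fun γ g => by
    simp only [ker0_ratG_mul_left74]
  level_inv := fun u hu g => by
    have h := fun z => ker0_mul_right_of_left_inv74 r φ u
      (hφ.inv.level_left u⁻¹ (inLevelGroup_inv74 𝔫 u hu)) g z
    simp only [h]
  arch_compact := fun w k hk g => by
    have h := fun z => ker0_mul_right_of_left_smul74 r φ k (τ k)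
      (fun g' => by
        rw [hφ.inv.arch_left w k⁻¹ (isArchCompact_inv74 w k hk) g',
          ktype_inv74 τ hφ.ktype w k hk]) g z
    simp only [h, mul_assoc]
    exact integral_const_mul _ _
  ray := fun g => by
    have h := fun z => ker0_mul_ray74 r (isRayGen_central74 r hr) φ g z
    simp only [h]

end Fermat.Agent.LT.T5.H74

end

end
-- ===== PACK-END LT/T5/H74/RangeAut.lean

-- ===== PACK-BEGIN LT/T5/H904/Box904.lean
section




/-!
# Row LT, tower T5: the module is bounded on the ideles of a compact set of adeles (helper904)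

OFF-MAIN.  COPY (declarations renamed with the suffix `B904`, imports reduced to Mathlib + A0 +
T1/Spec, the statement of the last theorem written out) of `LT/T5/H472/Box.lean` of helper472
(origin/helper472@5dab580a8, sub-leaf T5.07c `BoxC`); the proofs are helper472's.  The copy exists
because the original imports `T5/Spec.lean` at another version than `T5/H40/HS0Core.lean` does.

`boxCB904 K : ∀ Q, IsCompact Q → ∃ B, ∀ u : (Adl K)ˣ, (u : Adl K) ∈ Q → T1.adNorm K u ≤ B`.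
-/

set_option autoImplicit false

open IsDedekindDomain NumberField
open scoped RestrictedProduct

noncomputable section

namespace Fermat.Agent.LT.T5.H904

open Fermat.Agent.LT.H556.A0 Fermat.Agent.LT

variable {K : Type} [Field K] [NumberField K]

/-- The box `U (S, n)`. -/
def boxB904 (K : Type) [Field K] [NumberField K]
    (p : Finset (HeightOneSpectrum (𝓞 K)) × ℕ) : Set (Adl K) :=
  {x | (∀ w : InfinitePlace K, ‖x.1 w‖ < (p.2 : ℝ) + 2) ∧
    (∀ v : HeightOneSpectrum (𝓞 K), v ∉ p.1 → x.2 v ∈ v.adicCompletionIntegers K) ∧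
    ∀ v ∈ p.1, ‖x.2 v‖ < (p.2 : ℝ) + 2}

theorem continuous_infB904 (w : InfinitePlace K) : Continuous fun x : Adl K => ‖x.1 w‖ :=
  continuous_norm.comp ((continuous_apply w).comp continuous_fst)

theorem continuous_finB904 (v : HeightOneSpectrum (𝓞 K)) :
    Continuous fun x : Adl K => ‖x.2 v‖ :=
  continuous_norm.comp
    ((RestrictedProduct.continuous_eval (R := fun v : HeightOneSpectrum (𝓞 K) =>
      v.adicCompletion K) (A := fun v => (v.adicCompletionIntegers K : Set (v.adicCompletion K)))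
      v).comp continuous_snd)

theorem isOpen_boxB904 (p : Finset (HeightOneSpectrum (𝓞 K)) × ℕ) : IsOpen (boxB904 K p) := by
  have h1 : IsOpen {x : Adl K | ∀ w : InfinitePlace K, ‖x.1 w‖ < (p.2 : ℝ) + 2} := by
    have : {x : Adl K | ∀ w : InfinitePlace K, ‖x.1 w‖ < (p.2 : ℝ) + 2}
        = ⋂ w : InfinitePlace K, {x : Adl K | ‖x.1 w‖ < (p.2 : ℝ) + 2} := by
      ext x; simp
    rw [this]
    exact isOpen_iInter_of_finite fun w => isOpen_lt (continuous_infB904 w) continuous_const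
  have h2 : IsOpen {x : Adl K | ∀ v : HeightOneSpectrum (𝓞 K), v ∉ p.1 →
      x.2 v ∈ v.adicCompletionIntegers K} := by
    have hopen : ∀ v : HeightOneSpectrum (𝓞 K),
        IsOpen (v.adicCompletionIntegers K : Set (v.adicCompletion K)) :=
      fun v => Valued.isOpen_valuationSubring _
    have := RestrictedProduct.isOpen_forall_imp_mem
      (R := fun v : HeightOneSpectrum (𝓞 K) => v.adicCompletion K)
      (A := fun v => (v.adicCompletionIntegers K : Set (v.adicCompletion K))) hopen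
      (p := fun v => v ∉ p.1)
    exact this.preimage continuous_snd
  have h3 : IsOpen {x : Adl K | ∀ v ∈ p.1, ‖x.2 v‖ < (p.2 : ℝ) + 2} := by
    have : {x : Adl K | ∀ v ∈ p.1, ‖x.2 v‖ < (p.2 : ℝ) + 2}
        = ⋂ v ∈ p.1, {x : Adl K | ‖x.2 v‖ < (p.2 : ℝ) + 2} := by
      ext x; simp
    rw [this]
    exact isOpen_biInter_finset fun v _ => isOpen_lt (continuous_finB904 v) continuous_const
  exact (h1.inter (h2.inter h3))

/-- Integral elements have norm at most one. -/
theorem norm_le_one_of_memB904 (v : HeightOneSpectrum (𝓞 K)) {y : v.adicCompletion K}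
    (hy : y ∈ v.adicCompletionIntegers K) : ‖y‖ ≤ 1 := by
  rw [Valued.toNormedField.norm_le_one_iff]
  exact (HeightOneSpectrum.mem_adicCompletionIntegers (𝓞 K) K v).1 hy

/-- The boxes cover the adele ring. -/
theorem exists_boxB904 (x : Adl K) : ∃ p, x ∈ boxB904 K p := by
  classical
  have hfin : {v : HeightOneSpectrum (𝓞 K) | x.2 v ∉ v.adicCompletionIntegers K}.Finite := by
    have := x.2.2
    rwa [Filter.eventually_cofinite] at this
  set S : Finset (HeightOneSpectrum (𝓞 K)) := hfin.toFinset with hS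
  set c : ℝ := (∑ w : InfinitePlace K, ‖x.1 w‖) + ∑ v ∈ S, ‖x.2 v‖ with hc
  have h1 : 0 ≤ ∑ w : InfinitePlace K, ‖x.1 w‖ := Finset.sum_nonneg fun _ _ => norm_nonneg _
  have h2 : 0 ≤ ∑ v ∈ S, ‖x.2 v‖ := Finset.sum_nonneg fun _ _ => norm_nonneg _
  have hn : c ≤ (⌈c⌉₊ : ℝ) := Nat.le_ceil c
  refine ⟨(S, ⌈c⌉₊), ?_, ?_, ?_⟩
  · intro w
    have : ‖x.1 w‖ ≤ ∑ w : InfinitePlace K, ‖x.1 w‖ :=
      Finset.single_le_sum (f := fun w : InfinitePlace K => ‖x.1 w‖)
        (fun _ _ => norm_nonneg _) (Finset.mem_univ w)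
    show ‖x.1 w‖ < (⌈c⌉₊ : ℝ) + 2
    linarith
  · intro v hv
    by_contra h
    exact hv (hfin.mem_toFinset.2 h)
  · intro v hv
    have : ‖x.2 v‖ ≤ ∑ v ∈ S, ‖x.2 v‖ :=
      Finset.single_le_sum (f := fun v : HeightOneSpectrum (𝓞 K) => ‖x.2 v‖)
        (fun _ _ => norm_nonneg _) hv
    show ‖x.2 v‖ < (⌈c⌉₊ : ℝ) + 2
    linarith

/-- The boxes are directed. -/
theorem directed_boxB904 : Directed (· ⊆ ·) (boxB904 K) := by
  classical
  intro p q
  have key : ∀ p q : Finset (HeightOneSpectrum (𝓞 K)) × ℕ,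
      boxB904 K p ⊆ boxB904 K (p.1 ∪ q.1, max p.2 q.2) := by
    intro p q x hx
    have hle : (p.2 : ℝ) ≤ ((max p.2 q.2 : ℕ) : ℝ) := by exact_mod_cast le_max_left _ _
    have h0 : (0 : ℝ) ≤ ((max p.2 q.2 : ℕ) : ℝ) := Nat.cast_nonneg _
    refine ⟨fun w => ?_, fun v hv => ?_, fun v hv => ?_⟩
    · have := hx.1 w
      show ‖x.1 w‖ < ((max p.2 q.2 : ℕ) : ℝ) + 2
      linarith
    · exact hx.2.1 v fun h => hv (Finset.mem_union_left _ h)
    · show ‖x.2 v‖ < ((max p.2 q.2 : ℕ) : ℝ) + 2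
      by_cases h : v ∈ p.1
      · have := hx.2.2 v h
        linarith
      · have := norm_le_one_of_memB904 v (hx.2.1 v h)
        linarith
  refine ⟨(p.1 ∪ q.1, max p.2 q.2), key p q, ?_⟩
  have := key q p
  rwa [Finset.union_comm, max_comm] at this

/-- The bound of the box `(S, n)`. -/
def boxBoundB904 (K : Type) [Field K] [NumberField K]
    (p : Finset (HeightOneSpectrum (𝓞 K)) × ℕ) : ℝ :=
  (∏ w : InfinitePlace K, ((p.2 : ℝ) + 2) ^ w.mult) * ((p.2 : ℝ) + 2) ^ p.1.card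

/-- The finite components of an idele are units of norm one at almost all places. -/
theorem finite_norm_ne_oneB904 (u : (Adl K)ˣ) :
    {v : HeightOneSpectrum (𝓞 K) | ‖(u : Adl K).2 v‖ ≠ 1}.Finite := by
  have h1 : {v : HeightOneSpectrum (𝓞 K) |
      (u : Adl K).2 v ∉ v.adicCompletionIntegers K}.Finite := by
    have := (u : Adl K).2.2
    rwa [Filter.eventually_cofinite] at this
  have h2 : {v : HeightOneSpectrum (𝓞 K) |
      ((u⁻¹ : (Adl K)ˣ) : Adl K).2 v ∉ v.adicCompletionIntegers K}.Finite := by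
    have := ((u⁻¹ : (Adl K)ˣ) : Adl K).2.2
    rwa [Filter.eventually_cofinite] at this
  refine (h1.union h2).subset fun v hv => ?_
  by_contra hcon
  simp only [Set.mem_union, Set.mem_ofPred_eq, not_or, not_not] at hcon
  obtain ⟨ha, hb⟩ := hcon
  apply hv
  have hmul : (u : Adl K).2 v * ((u⁻¹ : (Adl K)ˣ) : Adl K).2 v = 1 := by
    have h : (u : Adl K) * ((u⁻¹ : (Adl K)ˣ) : Adl K) = 1 := u.mul_inv
    have h' := congrArg (fun x : Adl K => x.2 v) h
    exact h'
  have hn : ‖(u : Adl K).2 v‖ * ‖((u⁻¹ : (Adl K)ˣ) : Adl K).2 v‖ = 1 := by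
    rw [← norm_mul, hmul, norm_one]
  have ha' := norm_le_one_of_memB904 v ha
  have hb' := norm_le_one_of_memB904 v hb
  have hpos : 0 < ‖(u : Adl K).2 v‖ := by
    rcases (norm_nonneg ((u : Adl K).2 v)).lt_or_eq with h | h
    · exact h
    · rw [← h, zero_mul] at hn
      exact absurd hn (by norm_num)
  nlinarith [norm_nonneg (((u⁻¹ : (Adl K)ˣ) : Adl K).2 v)]

/-- The module of an idele in the box `p` is at most `boxBoundB904 K p`. -/
theorem adNorm_le_of_mem_boxB904 (p : Finset (HeightOneSpectrum (𝓞 K)) × ℕ) (u : (Adl K)ˣ)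
    (hu : (u : Adl K) ∈ boxB904 K p) : T1.adNorm K (u : Adl K) ≤ boxBoundB904 K p := by
  classical
  have hc : (0 : ℝ) ≤ (p.2 : ℝ) + 2 := by positivity
  unfold T1.adNorm boxBoundB904
  refine mul_le_mul ?_ ?_ (finprod_nonneg fun _ => norm_nonneg _)
    (Finset.prod_nonneg fun _ _ => pow_nonneg hc _)
  · exact Finset.prod_le_prod (fun _ _ => pow_nonneg (norm_nonneg _) _)
      fun w _ => pow_le_pow_left₀ (norm_nonneg _) (hu.1 w).le _
  · have hT := finite_norm_ne_oneB904 u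
    set T : Finset (HeightOneSpectrum (𝓞 K)) := hT.toFinset with hTdef
    have hsupp : Function.mulSupport (fun v : HeightOneSpectrum (𝓞 K) => ‖(u : Adl K).2 v‖)
        ⊆ ((T ∪ p.1 : Finset (HeightOneSpectrum (𝓞 K))) : Set (HeightOneSpectrum (𝓞 K))) := by
      intro v hv
      rw [Finset.coe_union]
      exact Or.inl (by simpa [hTdef] using hv)
    rw [finprod_eq_prod_of_mulSupport_subset _ hsupp]
    calc ∏ v ∈ T ∪ p.1, ‖(u : Adl K).2 v‖
        ≤ ∏ v ∈ T ∪ p.1, (if v ∈ p.1 then (p.2 : ℝ) + 2 else 1) := by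
          refine Finset.prod_le_prod (fun _ _ => norm_nonneg _) fun v _ => ?_
          split_ifs with h
          · exact (hu.2.2 v h).le
          · exact norm_le_one_of_memB904 v (hu.2.1 v h)
      _ = ∏ v ∈ p.1, (if v ∈ p.1 then (p.2 : ℝ) + 2 else 1) := by
          refine (Finset.prod_subset Finset.subset_union_right fun v _ hv => ?_).symm
          rw [if_neg hv]
      _ = ((p.2 : ℝ) + 2) ^ p.1.card := by
          rw [Finset.prod_congr rfl fun v hv => if_pos hv, Finset.prod_const]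

/-- The module is bounded above on the ideles which lie in a compact subset of the adele ring. -/
theorem boxCB904 (K : Type) [Field K] [NumberField K] :
    ∀ Q : Set (Adl K), IsCompact Q →
      ∃ B : ℝ, ∀ u : (Adl K)ˣ, (u : Adl K) ∈ Q → T1.adNorm K (u : Adl K) ≤ B := by
  intro Q hQ
  obtain ⟨p, hp⟩ := hQ.elim_directed_cover (boxB904 K) isOpen_boxB904
    (fun x _ => Set.mem_iUnion.2 (exists_boxB904 x)) directed_boxB904
  exact ⟨boxBoundB904 K p, fun u hu => adNorm_le_of_mem_boxB904 p u (hp hu)⟩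

end Fermat.Agent.LT.T5.H904

end

end
-- ===== PACK-END LT/T5/H904/Box904.lean

-- ===== PACK-BEGIN LT/T7/H32/GeomAlg.lean
section





/-!
# Row LT, tower T7, leaf T7.G1 `GeomC` (SPARE of helper32): the algebra

OFF-MAIN.  Mathlib + `T5/Spec.lean` v4 (f2d97e70) + `T6/Spec.lean` v3 (8c5f2ae7) only.

* `twNorm_eq_normUpTo32`: the norms of T5 and T6 agree;
* `isCyclicData32`: `T5.IsCyclicOfDegree` + "the fixed field is the image of `K`" give
  `T6.IsCyclicData`;
* `normUpTo_twConj32`: `N(g⁻¹ δ σ(g)) = g⁻¹ N(δ) g`;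
* `no_root_of_isEllRegOver32`: an elliptic regular element has no eigenvalue in the subfield;
* `isEll_of_no_root32`: no eigenvalue in `K` ⇒ `T6.IsEll` (characteristic `≠ 2`);
* `conj_of_no_root32` (companion matrix): two elements of `GL₂(K)` with the same trace and
  determinant and without eigenvalue in `K` are conjugate in `GL₂(K)`.
-/

set_option autoImplicit false

open IsDedekindDomain NumberField

noncomputable section

namespace Fermat.Agent.LT.T7.H32

open Fermat.Agent.LT Fermat.Agent.LT.H556.A0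

/-! ## 1. The norm -/

section Norm

variable {K : Type} [Field K] [NumberField K]

theorem twNorm_eq_normUpTo32 (s : T5.AdelicAut K) (n : ℕ) (δ : GL (Fin 2) K) :
    T6.twNorm s.σ n δ = s.normUpTo n δ := by
  induction n with
  | zero => rfl
  | succ n ih =>
    show δ * T6.glAut s.σ (T6.twNorm s.σ n δ) = δ * s.onRat (s.normUpTo n δ)
    rw [ih]
    rfl

theorem isTwConj_iff32 (s : T5.AdelicAut K) (δ δ' : GL (Fin 2) K) :
    T6.IsTwConj s.σ δ δ' ↔ T5.TwConj s δ δ' := Iff.rfl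

/-- The iterates of `σ` on `GL₂(K)`. -/
theorem normUpTo_twConj_aux32 (s : T5.AdelicAut K) (g δ : GL (Fin 2) K) (n : ℕ) :
    s.normUpTo n (g⁻¹ * δ * s.onRat g) = g⁻¹ * s.normUpTo n δ * (s.onRat^[n]) g := by
  induction n with
  | zero => simp [T5.AdelicAut.normUpTo]
  | succ n ih =>
    show (g⁻¹ * δ * s.onRat g) * s.onRat (s.normUpTo n (g⁻¹ * δ * s.onRat g))
      = g⁻¹ * (δ * s.onRat (s.normUpTo n δ)) * (s.onRat^[n + 1]) g
    rw [ih, Function.iterate_succ_apply', map_mul, map_mul, map_inv]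
    group

theorem onRat_iterate_apply32 (s : T5.AdelicAut K) (n : ℕ) (g : GL (Fin 2) K) (i j : Fin 2) :
    ((s.onRat^[n]) g : Matrix (Fin 2) (Fin 2) K) i j
      = (s.σ ^ n) ((g : Matrix (Fin 2) (Fin 2) K) i j) := by
  induction n with
  | zero => simp
  | succ n ih =>
    rw [Function.iterate_succ_apply', pow_succ']
    show s.σ (((s.onRat^[n]) g : Matrix (Fin 2) (Fin 2) K) i j) = _
    rw [ih]
    rfl

theorem onRat_iterate_eq32 (s : T5.AdelicAut K) (l : ℕ) (h : ∀ x : K, (s.σ ^ l) x = x)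
    (g : GL (Fin 2) K) : (s.onRat^[l]) g = g := by
  apply Units.ext
  ext i j
  rw [onRat_iterate_apply32, h]

/-- `N(g⁻¹ δ σ(g)) = g⁻¹ N(δ) g`. -/
theorem normUpTo_twConj32 (s : T5.AdelicAut K) (l : ℕ) (h : ∀ x : K, (s.σ ^ l) x = x)
    (g δ : GL (Fin 2) K) :
    s.normUpTo l (g⁻¹ * δ * s.onRat g) = g⁻¹ * s.normUpTo l δ * g := by
  rw [normUpTo_twConj_aux32, onRat_iterate_eq32 s l h]

/-- The norms of two `σ`-conjugate elements are conjugate. -/
theorem isConj_normUpTo32 (s : T5.AdelicAut K) (l : ℕ) (h : ∀ x : K, (s.σ ^ l) x = x)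
    {δ δ' : GL (Fin 2) K} (hc : T5.TwConj s δ δ') :
    IsConj (s.normUpTo l δ) (s.normUpTo l δ') := by
  obtain ⟨g, rfl⟩ := hc
  rw [normUpTo_twConj32 s l h, isConj_iff]
  exact ⟨g⁻¹, by group⟩

end Norm

/-! ## 2. Cyclic data -/

section Cyc

variable {K K' : Type} [Field K] [NumberField K] [Field K'] [NumberField K'] [Algebra K K']

theorem isCyclicData32 {s : T5.AdelicAut K'} {l : ℕ} {k : Subfield K'}
    (hc : T5.IsCyclicOfDegree s l k)
    (hb : ∀ x : K', x ∈ k ↔ ∃ y : K, algebraMap K K' y = x) :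
    T6.IsCyclicData K K' l (algebraMap K K') s.σ where
  pos := hc.pos
  fix_i := fun x => (hc.fixed _).1 ((hb _).2 ⟨x, rfl⟩)
  fixed := fun y hy => (hb y).1 ((hc.fixed y).2 hy)
  order := hc.pow_eq
  faithful := hc.faithful

end Cyc

/-! ## 3. Elliptic elements -/

section Ell

variable {K : Type} [Field K]

/-- An elliptic regular element over `k` has no eigenvalue in `k`. -/
theorem no_root_of_isEllRegOver32 (k : Subfield K) (γ : GL (Fin 2) K)
    (h : T5.IsEllRegOver k γ) (x : K) (hx : x ∈ k) :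
    x ^ 2 - (γ : Matrix (Fin 2) (Fin 2) K).trace * x
      + (γ : Matrix (Fin 2) (Fin 2) K).det ≠ 0 := by
  obtain ⟨Q, hQ, hmap⟩ := h
  intro h0
  have hdeg : Q.natDegree = 2 := by
    have h1 : (Q.map (algebraMap k K)).natDegree = 2 := by
      rw [hmap, Matrix.charpoly_natDegree_eq_dim]
      simp
    rwa [Polynomial.natDegree_map] at h1
  have hroot : Polynomial.eval (⟨x, hx⟩ : k) Q = 0 := by
    have h1 : Polynomial.eval x (Q.map (algebraMap k K)) = 0 := by
      rw [hmap, Matrix.charpoly_fin_two]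
      simp only [Polynomial.eval_add, Polynomial.eval_sub, Polynomial.eval_pow,
        Polynomial.eval_X, Polynomial.eval_mul, Polynomial.eval_C]
      exact h0
    have h2 : Polynomial.eval (algebraMap k K (⟨x, hx⟩ : k)) (Q.map (algebraMap k K)) = 0 := h1
    rw [Polynomial.eval_map, Polynomial.eval₂_at_apply] at h2
    exact (map_eq_zero_iff _ (algebraMap k K).injective).1 h2
  have hd1 := Polynomial.natDegree_eq_of_degree_eq_some
    (Polynomial.degree_eq_one_of_irreducible_of_root hQ hroot)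
  rw [hdeg] at hd1
  norm_num at hd1

/-- No eigenvalue in `K` ⇒ elliptic in the sense of T6 (characteristic `≠ 2`). -/
theorem isEll_of_no_root32 (h2 : (2 : K) ≠ 0) (γ : GL (Fin 2) K)
    (h : ∀ x : K, x ^ 2 - (γ : Matrix (Fin 2) (Fin 2) K).trace * x
      + (γ : Matrix (Fin 2) (Fin 2) K).det ≠ 0) : T6.IsEll γ := by
  refine ⟨?_, h⟩
  unfold T6.IsReg T6.disc
  rw [isUnit_iff_ne_zero]
  intro h0
  apply h ((γ : Matrix (Fin 2) (Fin 2) K).trace / 2)
  field_simp
  linear_combination -h0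

/-- The lower left entry of a matrix without eigenvalue is not zero. -/
theorem lower_ne_zero32 (A : Matrix (Fin 2) (Fin 2) K)
    (h : ∀ x : K, x ^ 2 - A.trace * x + A.det ≠ 0) : A 1 0 ≠ 0 := by
  intro h0
  apply h (A 0 0)
  rw [Matrix.trace_fin_two, Matrix.det_fin_two, h0]
  ring

/-- **Companion matrix.**  Two elements of `GL₂(K)` with the same trace and determinant, one of
them without eigenvalue in `K`, are conjugate in `GL₂(K)`: `γ₂ = g⁻¹ γ₁ g`. -/
theorem conj_of_no_root32 (γ₁ γ₂ : GL (Fin 2) K)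
    (ht : (γ₁ : Matrix (Fin 2) (Fin 2) K).trace = (γ₂ : Matrix (Fin 2) (Fin 2) K).trace)
    (hd : (γ₁ : Matrix (Fin 2) (Fin 2) K).det = (γ₂ : Matrix (Fin 2) (Fin 2) K).det)
    (h : ∀ x : K, x ^ 2 - (γ₁ : Matrix (Fin 2) (Fin 2) K).trace * x
      + (γ₁ : Matrix (Fin 2) (Fin 2) K).det ≠ 0) :
    ∃ g : GL (Fin 2) K, γ₂ = g⁻¹ * γ₁ * g := by
  set A : Matrix (Fin 2) (Fin 2) K := (γ₁ : Matrix (Fin 2) (Fin 2) K) with hA
  set B : Matrix (Fin 2) (Fin 2) K := (γ₂ : Matrix (Fin 2) (Fin 2) K) with hB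
  have hA10 : A 1 0 ≠ 0 := lower_ne_zero32 A h
  have hB10 : B 1 0 ≠ 0 := lower_ne_zero32 B (by rw [← ht, ← hd]; exact h)
  set M : Matrix (Fin 2) (Fin 2) K := !![B 1 0, A 0 0 - B 0 0; 0, A 1 0] with hM
  have hdet : M.det ≠ 0 := by
    rw [hM, Matrix.det_fin_two_of]
    simpa using mul_ne_zero hB10 hA10
  have ht' : A 0 0 + A 1 1 = B 0 0 + B 1 1 := by
    have := ht
    rwa [Matrix.trace_fin_two, Matrix.trace_fin_two] at this
  have hd' : A 0 0 * A 1 1 - A 0 1 * A 1 0 = B 0 0 * B 1 1 - B 0 1 * B 1 0 := by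
    have := hd
    rwa [Matrix.det_fin_two, Matrix.det_fin_two] at this
  have hAM : A * M = M * B := by
    ext i j
    fin_cases i <;> fin_cases j
    · simp only [hM, Matrix.mul_apply, Fin.sum_univ_two, Fin.zero_eta, Fin.isValue,
        Matrix.of_apply, Matrix.cons_val', Matrix.cons_val_zero, Matrix.cons_val_one,
        Matrix.cons_val_fin_one, Fin.mk_one]
      ring
    · simp only [hM, Matrix.mul_apply, Fin.sum_univ_two, Fin.zero_eta, Fin.isValue,
        Matrix.of_apply, Matrix.cons_val', Matrix.cons_val_zero, Matrix.cons_val_one,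
        Matrix.cons_val_fin_one, Fin.mk_one]
      linear_combination (A 0 0) * ht' - hd'
    · simp only [hM, Matrix.mul_apply, Fin.sum_univ_two, Fin.zero_eta, Fin.isValue,
        Matrix.of_apply, Matrix.cons_val', Matrix.cons_val_zero, Matrix.cons_val_one,
        Matrix.cons_val_fin_one, Fin.mk_one]
      ring
    · simp only [hM, Matrix.mul_apply, Fin.sum_univ_two, Fin.zero_eta, Fin.isValue,
        Matrix.of_apply, Matrix.cons_val', Matrix.cons_val_zero, Matrix.cons_val_one,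
        Matrix.cons_val_fin_one, Fin.mk_one]
      linear_combination (A 1 0) * ht'
  refine ⟨Matrix.GeneralLinearGroup.mkOfDetNeZero M hdet, ?_⟩
  have hmul : γ₁ * Matrix.GeneralLinearGroup.mkOfDetNeZero M hdet
      = Matrix.GeneralLinearGroup.mkOfDetNeZero M hdet * γ₂ := by
    apply Units.ext
    exact hAM
  rw [mul_assoc, hmul, inv_mul_cancel_left]

end Ell

/-! ## 4. Trace and determinant of conjugates and of rational points -/

section TrDet

variable {K K' : Type} [Field K] [Field K']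

theorem trace_of_isConj32 {a b : GL (Fin 2) K} (h : IsConj a b) :
    (a : Matrix (Fin 2) (Fin 2) K).trace = (b : Matrix (Fin 2) (Fin 2) K).trace := by
  obtain ⟨c, hc⟩ := isConj_iff.1 h
  rw [← hc]
  show _ = ((c : Matrix (Fin 2) (Fin 2) K) * (a : Matrix (Fin 2) (Fin 2) K)
    * ((c⁻¹ : GL (Fin 2) K) : Matrix (Fin 2) (Fin 2) K)).trace
  rw [Matrix.trace_mul_cycle, ← Units.val_mul, inv_mul_cancel, Units.val_one, Matrix.one_mul]

theorem det_of_isConj32 {a b : GL (Fin 2) K} (h : IsConj a b) :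
    (a : Matrix (Fin 2) (Fin 2) K).det = (b : Matrix (Fin 2) (Fin 2) K).det := by
  obtain ⟨c, hc⟩ := isConj_iff.1 h
  rw [← hc]
  show _ = ((c : Matrix (Fin 2) (Fin 2) K) * (a : Matrix (Fin 2) (Fin 2) K)
    * ((c⁻¹ : GL (Fin 2) K) : Matrix (Fin 2) (Fin 2) K)).det
  rw [Matrix.det_mul, Matrix.det_mul, mul_comm, ← mul_assoc, ← Matrix.det_mul, ← Units.val_mul,
    inv_mul_cancel, Units.val_one, Matrix.det_one, one_mul]

theorem trace_map32 (i : K →+* K') (γ : GL (Fin 2) K) :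
    ((Matrix.GeneralLinearGroup.map i γ : GL (Fin 2) K') : Matrix (Fin 2) (Fin 2) K').trace
      = i (γ : Matrix (Fin 2) (Fin 2) K).trace := by
  rw [Matrix.trace_fin_two, Matrix.trace_fin_two, map_add]
  rfl

theorem det_map32 (i : K →+* K') (γ : GL (Fin 2) K) :
    ((Matrix.GeneralLinearGroup.map i γ : GL (Fin 2) K') : Matrix (Fin 2) (Fin 2) K').det
      = i (γ : Matrix (Fin 2) (Fin 2) K).det := by
  rw [Matrix.det_fin_two, Matrix.det_fin_two, map_sub, map_mul, map_mul]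
  rfl

end TrDet

end Fermat.Agent.LT.T7.H32

end

end
-- ===== PACK-END LT/T7/H32/GeomAlg.lean

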