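import Mathlib
import Fermat.Agent.Pack.L1.E1L2
import Fermat.Agent.Pack.LT2.E2L1
import Fermat.Agent.Pack.LT2.E0L2
import Fermat.Agent.Pack.LT2.E3L2
import Fermat.Agent.Pack.LT2.E3L0
import Fermat.Agent.Pack.LT2.E3L3
import Fermat.Agent.Pack.LT2.E4L3
import Fermat.Agent.Pack.LT2.E0L1
import Fermat.Agent.Pack.LT2.E5L2
import Fermat.Agent.Pack.LT2.E5L3
import Fermat.Agent.Pack.LT2.E5L1
import Fermat.Agent.Pack.LT2.E2L2
import Fermat.Agent.Pack.LT2.E3L1
import Fermat.Agent.Pack.L1B.E0L1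

set_option linter.all false

-- ===== PACK-BEGIN LT/A2/Spec.lean
section






/-!
# Row LT, tower A2 (the DIHEDRAL SEED over `E`) -- frozen interfaces

Architect helper950, co-architect helper38.  OFF-MAIN.  Board: `origin/helper17:coord/LT-board2.md`.
Tower Prop (VERBATIM): `Fermat.Agent.LT.H556.WT.A2_556` (`LT/H556/WallTop.lean`, helper556).
Memo with routes, references and sizes: `origin/helper950:coord/LT-A2-tower.md`.

## Level 1 (this file, section `Level1`)

    A2_556  ⟸  ThetaC  +  GalSeedC                      (`a2_of_theta_galSeed`, `Top.lean`)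

* `ThetaC` (AUTOMORPHIC INDUCTION, Hecke--Maass--Weil--Shalika--Tanaka, JL §12): `K` a totally
  complex number field, `L / K` quadratic, `χ` an idele class character of `L` of finite order
  which is not invariant under `Gal(L/K)`: there is a cusp form on `GL₂(𝔸_K)`, spherical of
  parameter `0` at the (complex) infinite places, with `a_v = χ(ϖ_{w₁}) + χ(ϖ_{w₂})`,
  `b_v = χ(ϖ_{w₁}) χ(ϖ_{w₂})` at the split places `v = w₁ w₂` and `a_v = 0`, `b_v = - χ(ϖ_w)` at the
  inert places, for all `v ∤ π.level`.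
* `GalSeedC` (GALOIS SIDE, needs tower CFT): for `ρ` as in `LTB.Hyp` the field `E = fieldE ρ` is a
  totally complex number field, and there are a quadratic extension `L / E` (the fixed field of
  `ρ⁻¹⟨g₀⟩`, `g₀ = [[0,-1],[1,0]]`) and an idele class character `χ` of `L` of order `4`
  (`χ = θ ∘ Artin`, `θ(g₀) = i`) as in `ThetaC`, such that every eigensystem with the induced
  data has the data `SeedData` of `Ψ ∘ ρ`.

## Level 2

* `ThetaC ⟸ KernelC + CuspOfWhitC + MeanOfWhitC + NeZeroOfWhitC` (`theta_of_leaves`; the Hecke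
  eigen-property of the sum is proved in `Top.lean`).  `KernelC` is the theta-kernel
  construction (Weil representation), cut further in `Kernel.lean`.
* `GalSeedC`: cut by helper38 (`LT/A2/H38/`), interface with tower CFT (helper53).

Definitions only in this file (no `sorry`, nothing assumed).
-/

set_option autoImplicit false

open IsDedekindDomain NumberField AutomorphicForm
open scoped MatrixGroups

noncomputable section

namespace Fermat.Agent.LT.A2

open Fermat.Agent.LT.H130 Fermat.Agent.LT.H556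

local notation "Γℚ" => (AlgebraicClosure ℚ ≃ₐ[ℚ] AlgebraicClosure ℚ)

/-! ## Ideles and idele class characters -/

section Ideles

variable {L : Type} [Field L] [NumberField L]

/-- `z` is an idele of `L` supported at the finite place `w` (component `1` at every other
place, finite or infinite). -/
def IsIdeleAt (w : HeightOneSpectrum (𝓞 L)) (z : (A0.Adl L)ˣ) : Prop :=
  (∀ u : InfinitePlace L, (z : A0.Adl L).1 u = 1) ∧
    ∀ w' : HeightOneSpectrum (𝓞 L), w' ≠ w → (z : A0.Adl L).2 w' = 1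

/-- `z` is an idele supported at `w` whose component at `w` is a uniformiser. -/
def IsUnifIdeleAt (w : HeightOneSpectrum (𝓞 L)) (z : (A0.Adl L)ˣ) : Prop :=
  IsIdeleAt w z ∧ Valued.v ((z : A0.Adl L).2 w) = WithZero.exp (-1 : ℤ)

/-- `z` is an idele supported at `w` whose component at `w` is a unit. -/
def IsUnitIdeleAt (w : HeightOneSpectrum (𝓞 L)) (z : (A0.Adl L)ˣ) : Prop :=
  IsIdeleAt w z ∧ Valued.v ((z : A0.Adl L).2 w) = 1

/-- An IDELE CLASS CHARACTER of `L`: a continuous character of the idele group (units of the adele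
ring, units topology), trivial on the principal ideles. -/
structure IsIdeleClassChar (χ : (A0.Adl L)ˣ →* ℂˣ) : Prop where
  cont : Continuous χ
  triv : ∀ x : Lˣ, χ (Units.map (algebraMap L (A0.Adl L)).toMonoidHom x) = 1

/-- `χ` has finite order. -/
def IsFiniteOrder (χ : (A0.Adl L)ˣ →* ℂˣ) : Prop :=
  ∃ n : ℕ, 0 < n ∧ ∀ z : (A0.Adl L)ˣ, χ z ^ n = 1

/-- `χ` is unramified at `w`: trivial on the local units at `w`. -/
def UnramAt (χ : (A0.Adl L)ˣ →* ℂˣ) (w : HeightOneSpectrum (𝓞 L)) : Prop :=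
  ∀ z : (A0.Adl L)ˣ, IsUnitIdeleAt w z → χ z = 1

end Ideles

/-! ## The induced data -/

section Induced

variable (K : Type) [Field K] [NumberField K] {L : Type} [Field L] [NumberField L] [Algebra K L]

/-- The place `w` of `L` lies over the place `v` of `K`. -/
def LiesOverPl (w : HeightOneSpectrum (𝓞 L)) (v : HeightOneSpectrum (𝓞 K)) : Prop :=
  w.asIdeal.comap (algebraMap (𝓞 K) (𝓞 L)) = v.asIdeal

variable {K}

/-- The data of the automorphic induction of `χ` at the place `v` of `K`: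
* two places `w₁ ≠ w₂` over `v` (split): `a = χ(ϖ_{w₁}) + χ(ϖ_{w₂})`, `b = χ(ϖ_{w₁}) χ(ϖ_{w₂})`;
* one place `w` over `v` (inert, `v` being unramified): `a = 0`, `b = - χ(ϖ_w)`. -/
def InducedAt (χ : (A0.Adl L)ˣ →* ℂˣ) (v : HeightOneSpectrum (𝓞 K)) (a b : ℂ) : Prop :=
  (∀ w₁ w₂ : HeightOneSpectrum (𝓞 L), w₁ ≠ w₂ → LiesOverPl K w₁ v → LiesOverPl K w₂ v →
      ∀ z₁ z₂ : (A0.Adl L)ˣ, IsUnifIdeleAt w₁ z₁ → IsUnifIdeleAt w₂ z₂ →
        a = (χ z₁ : ℂ) + (χ z₂ : ℂ) ∧ b = (χ z₁ : ℂ) * (χ z₂ : ℂ)) ∧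
    ∀ w : HeightOneSpectrum (𝓞 L), LiesOverPl K w v →
      (∀ w' : HeightOneSpectrum (𝓞 L), LiesOverPl K w' v → w' = w) →
      ∀ z : (A0.Adl L)ˣ, IsUnifIdeleAt w z → a = 0 ∧ b = -(χ z : ℂ)

/-- The eigensystem `π` over `K` has the data of the automorphic induction of `χ` at every place
not dividing its level. -/
def InducedData (χ : (A0.Adl L)ˣ →* ℂˣ) (π : HeckeEigensystem K ℂ) : Prop :=
  ∀ v : HeightOneSpectrum (𝓞 K), ¬ v.asIdeal ∣ π.level → InducedAt χ v (π.a v) (π.b v)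

variable (K)

/-- `χ` is NOT invariant under `Gal(L/K)`, with a witness: a place `v` of `K` which splits in `L`,
`v = w₁ w₂`, `χ` unramified at `w₁`, `w₂`, and `χ(ϖ_{w₁}) ≠ χ(ϖ_{w₂})`. -/
def NotGaloisInvariant (χ : (A0.Adl L)ˣ →* ℂˣ) : Prop :=
  ∃ (v : HeightOneSpectrum (𝓞 K)) (w₁ w₂ : HeightOneSpectrum (𝓞 L)) (z₁ z₂ : (A0.Adl L)ˣ),
    w₁ ≠ w₂ ∧ LiesOverPl K w₁ v ∧ LiesOverPl K w₂ v ∧ UnramAt χ w₁ ∧ UnramAt χ w₂ ∧
      IsUnifIdeleAt w₁ z₁ ∧ IsUnifIdeleAt w₂ z₂ ∧ χ z₁ ≠ χ z₂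

end Induced

/-! ## Level 1: the two Props -/

section Level1

/-- **THETA (automorphic induction from a quadratic extension, totally complex base).**
Hecke 1926 / Maass 1949 (classical), Weil 1964 + Shalika--Tanaka 1969 (theta kernel),
Jacquet--Langlands §12, Thm 12.2; Bump, *Automorphic forms and representations*, §4.8.
At a complex place `u` of `K` both places of `L` over `u` are complex and `χ` (finite order) is
trivial on the connected groups `L_w^× = ℂ^×`: the component at `u` is `π(1,1)`, spherical of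
parameter `0`. -/
def ThetaC : Prop :=
  ∀ (K L : Type) [Field K] [NumberField K] [Field L] [NumberField L] [Algebra K L],
    Module.finrank K L = 2 → (∀ u : InfinitePlace K, u.IsComplex) →
    ∀ χ : (A0.Adl L)ˣ →* ℂˣ, IsIdeleClassChar χ → IsFiniteOrder χ → NotGaloisInvariant K χ →
      ∃ π : HeckeEigensystem K ℂ, A0.IsCuspAdelicSph0 K π ∧ InducedData χ π

/-- **GALSEED (the Galois side of the seed).**  `E = fieldE ρ` is a totally complex number field;
`L = E'` is the fixed field of `ρ⁻¹⟨g₀⟩` (`[L : E] = 2`); `χ = θ ∘ Art_{M/L}`, `θ(g₀) = i`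
(tower CFT: Artin reciprocity for the cyclic quartic extension `M / L`, `M` the fixed field of
`ker ρ`); `χ^σ = χ⁻¹ ≠ χ` with a witness from Chebotarev over `ℚ` (on main);
`tr Ψ(h) = θ(h) + θ(h)⁻¹` on `⟨g₀⟩`, `= 0` on `Q8 ∖ ⟨g₀⟩`, `det = 1`. -/
def GalSeedC : Prop :=
  ∀ (ρ : Γℚ →* GL (Fin 2) (ZMod 3)) (Ψ : GL (Fin 2) (ZMod 3) →* GL (Fin 2) (ℤ√(-2))),
    LTB.Hyp ρ Ψ →
    ∃ (ι : ℤ√(-2) →+* ℂ) (_ : NumberField (fieldE ρ))
      (L : Type) (_ : Field L) (_ : NumberField L) (_ : Algebra (fieldE ρ) L)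
      (χ : (A0.Adl L)ˣ →* ℂˣ),
      Module.finrank (fieldE ρ) L = 2 ∧ (∀ u : InfinitePlace (fieldE ρ), u.IsComplex) ∧
      IsIdeleClassChar χ ∧ IsFiniteOrder χ ∧ NotGaloisInvariant (fieldE ρ) χ ∧
      ∀ π : HeckeEigensystem (fieldE ρ) ℂ, InducedData χ π → SeedData (fieldE ρ) ρ Ψ ι π

end Level1

end Fermat.Agent.LT.A2

end

end
-- ===== PACK-END LT/A2/Spec.lean

-- ===== PACK-BEGIN LT/H129/HeckeA0.lean
section




/-!
# Row LT, helper129: Hecke coset systems of A0 are complete; the Hecke sum is well defined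

OFF-MAIN.  On `LT/H556/A0.lean` (helper556, byte-identical copy).  General number field `K`.

* `heckeCosetSystem_complete129` : if `A0.IsHeckeCosetSystem v H`, then every `g : G K` that is
  integral at `v` with `v(det g_v) = exp (-1)` has exactly one `h ∈ H` with `h⁻¹ g` integral at
  `v`; moreover `g⁻¹ h` is integral at `v` as well.
* `heckeSum_indep129` : for a function `φ` that is right invariant under the elements supported
  at `v` lying in `GL₂(𝒪_v)`, the sum `∑ h ∈ H, φ (g * h)` does not depend on the coset system `H`.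
-/

set_option autoImplicit false

open IsDedekindDomain NumberField
open Fermat.Agent.LT.H556.A0

noncomputable section

namespace Fermat.Agent.LT.H129

variable {K : Type} [Field K] [NumberField K] (v : HeightOneSpectrum (𝓞 K))

theorem valuation_lt_one_iff_valued129 (x : v.adicCompletion K) :
    (v.adicCompletionIntegers K).valuation x < 1 ↔ Valued.v x < 1 :=
  ((Valuation.isEquiv_valuation_valuationSubring
    (Valued.v : Valuation (v.adicCompletion K) _)).lt_one_iff_lt_one).symm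

theorem valuation_le_iff_valued129 (x y : v.adicCompletion K) :
    (v.adicCompletionIntegers K).valuation x ≤ (v.adicCompletionIntegers K).valuation y
      ↔ Valued.v x ≤ Valued.v y :=
  ((Valuation.isEquiv_valuation_valuationSubring
    (Valued.v : Valuation (v.adicCompletion K) _)) x y).symm

theorem withZero_le_exp_neg_one129 {y : WithZero (Multiplicative ℤ)} (hy : y < 1) :
    y ≤ WithZero.exp (-1 : ℤ) := by
  rw [← WithZero.lt_mul_exp_iff_le (by simp), ← WithZero.exp_add]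
  simpa using hy

theorem isUnif129_of_valued_eq {x : v.adicCompletion K}
    (hx : Valued.v x = WithZero.exp (-1 : ℤ)) : IsUnif129 (v.adicCompletionIntegers K) x := by
  constructor
  · rw [valuation_lt_one_iff_valued129, hx, ← WithZero.exp_zero, WithZero.exp_lt_exp]
    norm_num
  · intro y hy
    rw [valuation_lt_one_iff_valued129] at hy
    rw [valuation_le_iff_valued129, hx]
    exact withZero_le_exp_neg_one129 hy

theorem isInt129_finCompHom_iff (g : G K) :
    IsInt129 (v.adicCompletionIntegers K) (finCompHom129 v g) ↔ IsIntegralAt v g :=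
  Iff.rfl

theorem isHeckeElt129_finCompHom {g : G K} (hg : IsIntegralAt v g)
    (hdet : Valued.v (finComp v g).det = WithZero.exp (-1 : ℤ)) :
    IsHeckeElt129 (v.adicCompletionIntegers K) (finCompHom129 v g) :=
  ⟨(isInt129_finCompHom_iff v g).mpr hg, isUnif129_of_valued_eq v hdet⟩

variable {v}

/-- **Completeness of the Hecke coset systems of A0.** -/
theorem heckeCosetSystem_complete129 {H : Finset (G K)} (hH : IsHeckeCosetSystem v H)
    {g : G K} (hg : IsIntegralAt v g)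
    (hdet : Valued.v (finComp v g).det = WithZero.exp (-1 : ℤ)) :
    ∃ h ∈ H, IsIntegralAt v (h⁻¹ * g) ∧ IsIntegralAt v (g⁻¹ * h) ∧
      ∀ h' ∈ H, IsIntegralAt v (h'⁻¹ * g) → h' = h := by
  classical
  obtain ⟨hcard, hmem, hne⟩ := hH
  haveI : Finite (IsLocalRing.ResidueField (v.adicCompletionIntegers K)) :=
    finite_residueField129 K v
  have hE : ∀ h : {h // h ∈ H},
      IsHeckeElt129 (v.adicCompletionIntegers K) (finCompHom129 v h.1) :=
    fun h => isHeckeElt129_finCompHom v (hmem h.1 h.2).2.1 (hmem h.1 h.2).2.2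
  have hgE := isHeckeElt129_finCompHom v hg hdet
  obtain ⟨i, hi, huniq⟩ := hecke_complete_fam129 (v.adicCompletionIntegers K)
    (fun h : {h // h ∈ H} => finCompHom129 v h.1)
    (by rw [Fintype.card_coe, hcard, card_residueField129]) hE
    (by
      intro i j hij hint
      apply hne i.1 i.2 j.1 j.2 (fun e => hij (Subtype.ext e))
      rw [← isInt129_finCompHom_iff, map_mul, map_inv]
      exact hint)
    (finCompHom129 v g) hgE
  refine ⟨i.1, i.2, ?_, ?_, ?_⟩
  · rw [← isInt129_finCompHom_iff, map_mul, map_inv]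
    exact hi
  · rw [← isInt129_finCompHom_iff, map_mul, map_inv]
    exact isInt_inv_mul_symm129 (hE i) hgE hi
  · intro h' hh' hint
    have := huniq ⟨h', hh'⟩ (by
      rw [← isInt129_finCompHom_iff, map_mul, map_inv] at hint
      exact hint)
    exact congrArg Subtype.val this

/-- The elements of `G K` supported at `v` and lying in `GL₂(𝒪_v)`. -/
def IsLocalMaxCptAt129 (v : HeightOneSpectrum (𝓞 K)) (u : G K) : Prop :=
  IsLocalAtFin v u ∧ IsIntegralAt v u ∧ IsIntegralAt v u⁻¹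

/-- **The Hecke sum does not depend on the coset system.** -/
theorem heckeSum_indep129 {H H' : Finset (G K)} (hH : IsHeckeCosetSystem v H)
    (hH' : IsHeckeCosetSystem v H') {M : Type*} [AddCommMonoid M] (φ : G K → M)
    (hφ : ∀ u : G K, IsLocalMaxCptAt129 v u → ∀ g : G K, φ (g * u) = φ g) (g : G K) :
    ∑ h ∈ H, φ (g * h) = ∑ h ∈ H', φ (g * h) := by
  classical
  -- the bijection `H → H'`
  have key : ∀ {A B : Finset (G K)}, IsHeckeCosetSystem v A → IsHeckeCosetSystem v B →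
      ∀ h ∈ A, ∃ h' ∈ B, IsIntegralAt v (h'⁻¹ * h) ∧ IsIntegralAt v (h⁻¹ * h') ∧
        ∀ h'' ∈ B, IsIntegralAt v (h''⁻¹ * h) → h'' = h' := by
    intro A B hA hB h hh
    exact heckeCosetSystem_complete129 hB (hA.2.1 h hh).2.1 (hA.2.1 h hh).2.2
  choose! σ hσ using key hH hH'
  choose! τ hτ using key hH' hH
  refine Finset.sum_nbij' σ τ (fun h hh => (hσ h hh).1) (fun h hh => (hτ h hh).1) ?_ ?_ ?_
  · intro h hh
    -- `τ (σ h) = h` by uniqueness
    exact ((hτ (σ h) (hσ h hh).1).2.2.2 h hh (hσ h hh).2.2.1).symm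
  · intro h hh
    exact ((hσ (τ h) (hτ h hh).1).2.2.2 h hh (hτ h hh).2.2.1).symm
  · intro h hh
    -- `φ (g h) = φ (g σ(h) (σ(h)⁻¹ h))`
    have hu : IsLocalMaxCptAt129 v ((σ h)⁻¹ * h) := by
      refine ⟨isLocalAtFin_mul129 (isLocalAtFin_inv129 (hH'.2.1 _ (hσ h hh).1).1)
        (hH.2.1 h hh).1, (hσ h hh).2.1, ?_⟩
      have e : ((σ h)⁻¹ * h)⁻¹ = h⁻¹ * σ h := by group
      rw [e]
      exact (hσ h hh).2.2.1
    have := hφ _ hu (g * σ h)
    rw [← this]
    congr 1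
    group

end Fermat.Agent.LT.H129

end

end
-- ===== PACK-END LT/H129/HeckeA0.lean

-- ===== PACK-BEGIN LT/H556/T0/ArchIwasawa.lean
section


/-!
# Row LT, tower T0 (helper556): Iwasawa decomposition in `SL₂(ℂ)` and the mean-value property in
upper-half-space coordinates

For `M ∈ GL₂(ℂ)` with `det M = 1` and second row `(C, D)`:
`M = [[y, x], [0, 1]] · ρ · u`, `ρ = √(|C|² + |D|²)`, `y = 1 / ρ²`, `x = (A C̄ + B D̄) / ρ²`,
`u` unitary.  Hence a function on `GL₂(𝔸_K)` which is right invariant under the positive scalars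
and under `U(2)` at a complex place `w` takes at `g · (element of matrix M at w)` the value at
`g · b_w(x, y)`.  OFF-MAIN.
-/

set_option autoImplicit false
set_option linter.unusedSectionVars false

open IsDedekindDomain NumberField

noncomputable section

namespace Fermat.Agent.LT.H556.T0

open Fermat.Agent.LT.H556.A0 Fermat.Agent.LT.T8.H864

/-! ## Linear algebra in `GL₂(ℂ)` -/

/-- `|C|² + |D|²` for the second row `(C, D)` of `M`. -/
def iwR (M : Matrix (Fin 2) (Fin 2) ℂ) : ℝ := Complex.normSq (M 1 0) + Complex.normSq (M 1 1)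

/-- The height `y = 1 / (|C|² + |D|²)` of `M · o` in `ℍ³` (for `det M = 1`). -/
def iwY (M : Matrix (Fin 2) (Fin 2) ℂ) : ℝ := (iwR M)⁻¹

/-- The coordinate `x = (A C̄ + B D̄) / (|C|² + |D|²)` of `M · o` in `ℍ³`. -/
def iwX (M : Matrix (Fin 2) (Fin 2) ℂ) : ℂ :=
  (M 0 0 * star (M 1 0) + M 0 1 * star (M 1 1)) / (iwR M : ℂ)

theorem iwR_pos {M : Matrix (Fin 2) (Fin 2) ℂ} (h : M.det = 1) : 0 < iwR M := by
  unfold iwR
  by_contra hneg
  have h0 : Complex.normSq (M 1 0) + Complex.normSq (M 1 1) = 0 :=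
    le_antisymm (not_lt.1 hneg) (add_nonneg (Complex.normSq_nonneg _) (Complex.normSq_nonneg _))
  have h1 : Complex.normSq (M 1 0) = 0 := by
    have := Complex.normSq_nonneg (M 1 0)
    have := Complex.normSq_nonneg (M 1 1)
    linarith
  have h2 : Complex.normSq (M 1 1) = 0 := by
    have := Complex.normSq_nonneg (M 1 0)
    linarith
  rw [Complex.normSq_eq_zero] at h1 h2
  rw [Matrix.det_fin_two, h1, h2] at h
  simp at h

/-- The upper triangular matrix `[[y, x], [0, 1]]`, `y ≠ 0`. -/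
def upperU (x : ℂ) (y : ℝ) (hy : y ≠ 0) : GL (Fin 2) ℂ :=
  Matrix.GeneralLinearGroup.mkOfDetNeZero !![(y : ℂ), x; 0, 1]
    (by rw [Matrix.det_fin_two_of]; simpa using hy)

theorem coe_upperU (x : ℂ) (y : ℝ) (hy : y ≠ 0) :
    ((upperU x y hy : GL (Fin 2) ℂ) : Matrix (Fin 2) (Fin 2) ℂ) = !![(y : ℂ), x; 0, 1] := rfl

/-- The scalar matrix `ρ`, `ρ ≠ 0`. -/
def scalarU (ρ : ℝ) (hρ : ρ ≠ 0) : GL (Fin 2) ℂ :=
  Matrix.GeneralLinearGroup.mkOfDetNeZero (Matrix.diagonal (fun _ => (ρ : ℂ)))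
    (by rw [Matrix.det_diagonal]; simpa using hρ)

theorem coe_scalarU (ρ : ℝ) (hρ : ρ ≠ 0) :
    ((scalarU ρ hρ : GL (Fin 2) ℂ) : Matrix (Fin 2) (Fin 2) ℂ)
      = Matrix.diagonal (fun _ => (ρ : ℂ)) := rfl

/-- Entrywise form of the Lagrange identity used for the Iwasawa decomposition. -/
theorem lagrange_entries (A B C D x σ y R : ℂ) (xb Ab Bb Cb Db : ℂ)
    (hR : R = C * Cb + D * Db) (hR0 : R ≠ 0) (hσ : σ * σ = R) (hy : y = R⁻¹)
    (hx : x = (A * Cb + B * Db) / R) (hxb : xb = (Ab * C + Bb * D) / R)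
    (hdet : A * D - B * C = 1) (hdetb : Ab * Db - Bb * Cb = 1) :
    A * Ab + B * Bb = σ * y * (σ * y) + σ * x * (σ * xb) ∧
    A * Cb + B * Db = σ * x * σ ∧
    C * Ab + D * Bb = σ * (σ * xb) ∧
    C * Cb + D * Db = σ * σ := by
  refine ⟨?_, ?_, ?_, ?_⟩
  · have h1 : σ * y * (σ * y) + σ * x * (σ * xb) = (σ * σ) * (y * y + x * xb) := by ring
    rw [h1, hσ, hy, hx, hxb]
    field_simp
    have key : (A * Ab + B * Bb) * (C * Cb + D * Db) - (A * Cb + B * Db) * (Ab * C + Bb * D)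
        = (A * D - B * C) * (Ab * Db - Bb * Cb) := by ring
    rw [hdet, hdetb] at key
    rw [hR]
    linear_combination key
  · have h1 : σ * x * σ = (σ * σ) * x := by ring
    rw [h1, hσ, hx]
    field_simp
  · have h1 : σ * (σ * xb) = (σ * σ) * xb := by ring
    rw [h1, hσ, hxb]
    field_simp
  · rw [hσ, hR]

/-- The matrix `B = [[y, x], [0, 1]] · ρ` of the Iwasawa decomposition of `M`. -/
def iwB (M : Matrix (Fin 2) (Fin 2) ℂ) : Matrix (Fin 2) (Fin 2) ℂ :=
  !![(iwY M : ℂ), iwX M; 0, 1] * Matrix.diagonal (fun _ => ((Real.sqrt (iwR M) : ℝ) : ℂ))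

theorem iwB_eq (M : Matrix (Fin 2) (Fin 2) ℂ) :
    iwB M = !![((Real.sqrt (iwR M) : ℝ) : ℂ) * (iwY M : ℂ), ((Real.sqrt (iwR M) : ℝ) : ℂ) * iwX M;
      0, ((Real.sqrt (iwR M) : ℝ) : ℂ)] := by
  unfold iwB
  ext i j
  fin_cases i <;> fin_cases j <;>
    simp [Matrix.mul_apply, Matrix.diagonal_apply, mul_comm]

/-- `M Mᴴ = B Bᴴ` for `B = [[y, x], [0, 1]] · ρ`: the Lagrange identity. -/
theorem mul_conjTranspose_eq {M : Matrix (Fin 2) (Fin 2) ℂ} (h : M.det = 1) :
    M * M.conjTranspose = iwB M * (iwB M).conjTranspose := by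
  have hR := iwR_pos h
  have hRc : ((iwR M : ℝ) : ℂ) ≠ 0 := Complex.ofReal_ne_zero.2 hR.ne'
  have hsq : ((Real.sqrt (iwR M) : ℝ) : ℂ) * ((Real.sqrt (iwR M) : ℝ) : ℂ) = (iwR M : ℂ) := by
    rw [← Complex.ofReal_mul, Real.mul_self_sqrt hR.le]
  have hRdef : ((iwR M : ℝ) : ℂ) = M 1 0 * star (M 1 0) + M 1 1 * star (M 1 1) := by
    unfold iwR
    rw [Complex.ofReal_add, Complex.normSq_eq_conj_mul_self, Complex.normSq_eq_conj_mul_self]
    simp only [Complex.star_def]
    ring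
  have hdet : M 0 0 * M 1 1 - M 0 1 * M 1 0 = 1 := by rw [← Matrix.det_fin_two]; exact h
  have hdet' : star (M 0 0) * star (M 1 1) - star (M 0 1) * star (M 1 0) = 1 := by
    have := congrArg star hdet
    simpa using this
  have hsr : star ((Real.sqrt (iwR M) : ℝ) : ℂ) = ((Real.sqrt (iwR M) : ℝ) : ℂ) :=
    Complex.conj_ofReal _
  have hsy : star ((iwY M : ℝ) : ℂ) = ((iwY M : ℝ) : ℂ) := Complex.conj_ofReal _
  have hsR : star ((iwR M : ℝ) : ℂ) = ((iwR M : ℝ) : ℂ) := Complex.conj_ofReal _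
  have hy : ((iwY M : ℝ) : ℂ) = ((iwR M : ℝ) : ℂ)⁻¹ := by
    unfold iwY
    rw [Complex.ofReal_inv]
  have hxb : star (iwX M) = (star (M 0 0) * M 1 0 + star (M 0 1) * M 1 1) / ((iwR M : ℝ) : ℂ) := by
    unfold iwX
    rw [star_div₀, hsR, star_add, star_mul', star_mul', star_star, star_star]
  obtain ⟨e00, e01, e10, e11⟩ := lagrange_entries (M 0 0) (M 0 1) (M 1 0) (M 1 1) (iwX M)
    ((Real.sqrt (iwR M) : ℝ) : ℂ) ((iwY M : ℝ) : ℂ) ((iwR M : ℝ) : ℂ) (star (iwX M))
    (star (M 0 0)) (star (M 0 1)) (star (M 1 0)) (star (M 1 1)) hRdef hRc hsq hy rfl hxb hdet hdet'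
  rw [iwB_eq]
  ext i j
  fin_cases i <;> fin_cases j
  · simpa [Matrix.mul_apply, Fin.sum_univ_two, Matrix.conjTranspose_apply, hsr, hsy] using e00
  · simpa [Matrix.mul_apply, Fin.sum_univ_two, Matrix.conjTranspose_apply, hsr, hsy] using e01
  · simpa [Matrix.mul_apply, Fin.sum_univ_two, Matrix.conjTranspose_apply, hsr, hsy] using e10
  · simpa [Matrix.mul_apply, Fin.sum_univ_two, Matrix.conjTranspose_apply, hsr, hsy] using e11

theorem iwY_ne_zero {M : Matrix (Fin 2) (Fin 2) ℂ} (h : M.det = 1) : iwY M ≠ 0 :=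
  inv_ne_zero (iwR_pos h).ne'

theorem sqrt_iwR_pos {M : Matrix (Fin 2) (Fin 2) ℂ} (h : M.det = 1) : 0 < Real.sqrt (iwR M) :=
  Real.sqrt_pos.2 (iwR_pos h)

/-- The upper triangular factor of the Iwasawa decomposition, as an element of `GL₂(ℂ)`. -/
def iwUpper (M : GL (Fin 2) ℂ) (h : (M : Matrix (Fin 2) (Fin 2) ℂ).det = 1) : GL (Fin 2) ℂ :=
  upperU (iwX (M : Matrix (Fin 2) (Fin 2) ℂ)) (iwY (M : Matrix (Fin 2) (Fin 2) ℂ)) (iwY_ne_zero h)

/-- The scalar factor of the Iwasawa decomposition. -/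
def iwScalar (M : GL (Fin 2) ℂ) (h : (M : Matrix (Fin 2) (Fin 2) ℂ).det = 1) : GL (Fin 2) ℂ :=
  scalarU (Real.sqrt (iwR (M : Matrix (Fin 2) (Fin 2) ℂ))) (sqrt_iwR_pos h).ne'

/-- The unitary factor of the Iwasawa decomposition. -/
def iwUnitary (M : GL (Fin 2) ℂ) (h : (M : Matrix (Fin 2) (Fin 2) ℂ).det = 1) : GL (Fin 2) ℂ :=
  (iwUpper M h * iwScalar M h)⁻¹ * M

theorem iwasawa_eq (M : GL (Fin 2) ℂ) (h : (M : Matrix (Fin 2) (Fin 2) ℂ).det = 1) :
    M = iwUpper M h * iwScalar M h * iwUnitary M h := by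
  unfold iwUnitary
  rw [mul_inv_cancel_left]

theorem coe_iwUpper_mul_iwScalar (M : GL (Fin 2) ℂ)
    (h : (M : Matrix (Fin 2) (Fin 2) ℂ).det = 1) :
    ((iwUpper M h * iwScalar M h : GL (Fin 2) ℂ) : Matrix (Fin 2) (Fin 2) ℂ)
      = iwB (M : Matrix (Fin 2) (Fin 2) ℂ) := rfl

/-- The third factor of the Iwasawa decomposition is unitary. -/
theorem iwUnitary_unitary (M : GL (Fin 2) ℂ) (h : (M : Matrix (Fin 2) (Fin 2) ℂ).det = 1) :
    (iwUnitary M h : Matrix (Fin 2) (Fin 2) ℂ) *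
      (iwUnitary M h : Matrix (Fin 2) (Fin 2) ℂ).conjTranspose = 1 := by
  set Bu : GL (Fin 2) ℂ := iwUpper M h * iwScalar M h with hBu
  have hB : (Bu : Matrix (Fin 2) (Fin 2) ℂ) = iwB (M : Matrix (Fin 2) (Fin 2) ℂ) :=
    coe_iwUpper_mul_iwScalar M h
  have hu : (iwUnitary M h : Matrix (Fin 2) (Fin 2) ℂ)
      = ((Bu⁻¹ : GL (Fin 2) ℂ) : Matrix (Fin 2) (Fin 2) ℂ) * (M : Matrix (Fin 2) (Fin 2) ℂ) := rfl
  have hinv : ((Bu⁻¹ : GL (Fin 2) ℂ) : Matrix (Fin 2) (Fin 2) ℂ) * (Bu : Matrix (Fin 2) (Fin 2) ℂ)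
      = 1 := by
    rw [← Matrix.GeneralLinearGroup.coe_mul, inv_mul_cancel]
    rfl
  rw [hu, Matrix.conjTranspose_mul, ← Matrix.mul_assoc,
    Matrix.mul_assoc ((Bu⁻¹ : GL (Fin 2) ℂ) : Matrix (Fin 2) (Fin 2) ℂ), mul_conjTranspose_eq h,
    ← hB, ← Matrix.mul_assoc, hinv, Matrix.one_mul, ← Matrix.conjTranspose_mul, hinv,
    Matrix.conjTranspose_one]

/-! ## The adelic statement -/

variable {K : Type} [Field K] [NumberField K]

/-- **Iwasawa reduction at a complex place.**  If `φ` is right invariant under the positive scalars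
and under `U(2)` at the complex place `w`, and `h` is supported at `w` with a complex matrix `M` of
determinant one, then `φ (g h) = φ (g b)`, `b = [[y, x], [0, 1]]` at `w`,
`y = iwY M`, `x = iwX M`. -/
theorem apply_mul_eq_upper {w : InfinitePlace K} (hw : w.IsComplex) {φ : G K → ℂ}
    (hs : ∀ z : G K, IsArchPosScalar w z → ∀ g : G K, φ (g * z) = φ g)
    (hk : ∀ k : G K, IsArchCompact w k → ∀ g : G K, φ (g * k) = φ g)
    (M : GL (Fin 2) ℂ) (hM : (M : Matrix (Fin 2) (Fin 2) ℂ).det = 1)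
    {h : G K} (hloc : IsLocalAtInf w h) (hcomp : infComp w h = (M : Matrix (Fin 2) (Fin 2) ℂ))
    (g : G K) : φ (g * h) = φ (g * locInfComplex hw (iwUpper M hM)) := by
  have e1 : h = locInfComplex hw M := eq_locInfComplex hw hloc M hcomp
  have e2 : locInfComplex hw M = locInfComplex hw (iwUpper M hM) *
      locInfComplex hw (iwScalar M hM) * locInfComplex hw (iwUnitary M hM) := by
    rw [← map_mul, ← map_mul, ← iwasawa_eq M hM]
  rw [e1, e2, ← mul_assoc, ← mul_assoc,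
    hk _ (isArchCompact_locInfComplex hw _ (iwUnitary_unitary M hM)),
    hs _ (isArchPosScalar_locInfComplex hw _ _ (sqrt_iwR_pos hM) rfl)]

/-! ## The Euler elements of `A0.MeanValueComplex` -/

/-- The matrix `rotZ α * rotY β * torus d` of `A0.MeanValueComplex`. -/
def eulerMat (α β d : ℝ) : Matrix (Fin 2) (Fin 2) ℂ := rotZ α * rotY β * torus d

theorem det_rotZ (α : ℝ) : (rotZ α).det = 1 := by
  unfold rotZ
  rw [Matrix.det_fin_two_of, mul_zero, sub_zero, ← Complex.exp_add, add_neg_cancel,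
    Complex.exp_zero]

theorem det_rotY (β : ℝ) : (rotY β).det = 1 := by
  unfold rotY
  rw [Matrix.det_fin_two_of]
  have h := Real.cos_sq_add_sin_sq (β / 2)
  have h' : ((Real.cos (β / 2) : ℝ) : ℂ) * ((Real.cos (β / 2) : ℝ) : ℂ)
      + ((Real.sin (β / 2) : ℝ) : ℂ) * ((Real.sin (β / 2) : ℝ) : ℂ) = 1 := by
    rw [← Complex.ofReal_mul, ← Complex.ofReal_mul, ← Complex.ofReal_add]
    have : Real.cos (β / 2) * Real.cos (β / 2) + Real.sin (β / 2) * Real.sin (β / 2) = 1 := by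
      nlinarith [h]
    rw [this, Complex.ofReal_one]
  linear_combination h'

theorem det_torus (d : ℝ) : (torus d).det = 1 := by
  unfold torus
  rw [Matrix.det_fin_two_of, mul_zero, sub_zero, ← Complex.ofReal_mul, ← Real.exp_add,
    add_neg_cancel, Real.exp_zero, Complex.ofReal_one]

theorem det_eulerMat (α β d : ℝ) : (eulerMat α β d).det = 1 := by
  unfold eulerMat
  rw [Matrix.det_mul, Matrix.det_mul, det_rotZ, det_rotY, det_torus, one_mul, one_mul]

/-- The Euler element as an element of `GL₂(ℂ)`. -/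
def eulerU (α β d : ℝ) : GL (Fin 2) ℂ :=
  Matrix.GeneralLinearGroup.mkOfDetNeZero (eulerMat α β d)
    (by rw [det_eulerMat]; exact one_ne_zero)

theorem coe_eulerU (α β d : ℝ) :
    ((eulerU α β d : GL (Fin 2) ℂ) : Matrix (Fin 2) (Fin 2) ℂ) = eulerMat α β d := rfl

theorem det_coe_eulerU (α β d : ℝ) :
    ((eulerU α β d : GL (Fin 2) ℂ) : Matrix (Fin 2) (Fin 2) ℂ).det = 1 := det_eulerMat α β d

/-- The point `k(α, β) a_d · o` of `ℍ³` in upper-half-space coordinates, as an element of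
`GL₂(𝔸_K)` supported at the complex place `w`: `[[y, x], [0, 1]]_w`. -/
def h3G {w : InfinitePlace K} (hw : w.IsComplex) (α β d : ℝ) : G K :=
  locInfComplex hw (iwUpper (eulerU α β d) (det_coe_eulerU α β d))

/-- The mean-value property of parameter `0` in upper-half-space coordinates. -/
def MeanValueUpper {w : InfinitePlace K} (hw : w.IsComplex) (φ : G K → ℂ) : Prop :=
  ∀ d : ℝ, 0 < d → ∀ g : G K,
    (∫ α in (0 : ℝ)..(2 * Real.pi), ∫ β in (0 : ℝ)..Real.pi,
        φ (g * h3G hw α β d) * ((Real.sin β : ℝ) : ℂ))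
      = ((4 * Real.pi * (d / Real.sinh d) : ℝ) : ℂ) * φ g

/-- **Bridge.**  For a function which is right invariant under the positive scalars and under
`U(2)` at the complex place `w`, `A0.MeanValueComplex` is the mean-value property in
upper-half-space coordinates. -/
theorem meanValueComplex_iff_upper {w : InfinitePlace K} (hw : w.IsComplex) {φ : G K → ℂ}
    (hs : ∀ z : G K, IsArchPosScalar w z → ∀ g : G K, φ (g * z) = φ g)
    (hk : ∀ k : G K, IsArchCompact w k → ∀ g : G K, φ (g * k) = φ g) :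
    MeanValueComplex φ w ↔ MeanValueUpper hw φ := by
  constructor
  · intro hm d hd g
    have h := hm d hd (fun α β => locInfComplex hw (eulerU α β d))
      (fun α β => ⟨isLocalAtInf_locInfComplex hw _, by
        rw [infComp_locInfComplex, coe_eulerU]; rfl⟩) g
    rw [← h]
    congr 1
    funext α
    congr 1
    funext β
    rw [apply_mul_eq_upper hw hs hk (eulerU α β d) (det_coe_eulerU α β d)
      (isLocalAtInf_locInfComplex hw _) (infComp_locInfComplex hw _) g]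
    rfl
  · intro hm d hd Y hY g
    rw [← hm d hd g]
    congr 1
    funext α
    congr 1
    funext β
    rw [apply_mul_eq_upper hw hs hk (eulerU α β d) (det_coe_eulerU α β d) (hY α β).1
      ((hY α β).2.trans (coe_eulerU α β d).symm) g]
    rfl

end Fermat.Agent.LT.H556.T0

end

end
-- ===== PACK-END LT/H556/T0/ArchIwasawa.lean

-- ===== PACK-BEGIN LT/H556/Inst670.lean
section



/-!
# Row LT, WALL: the abstract WALL-TOP of helper670 instantiated at `A0.notion556` (helper556)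

`Fermat/Agent/LT/H670/WallTop.lean` + `WallDepl.lean` (helper670 @09d8e8546, byte-identical copies)
prove `wall_of_leaves'` for an ARBITRARY `notion : CuspidalityNotion ℂ`.  At `notion556` the seven
remaining leaves are TRUE statements (audit: `coord/LT-A0-helper556.md` par.6):

* `TowerC`, `SplitC`: no notion involved (elementary).
* `SeedC notion556`, `Desc3C notion556`: the forms live in the first alternative
  (`A0.IsCuspAdelicSph0`), `E` and `F` being totally complex.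
* `Desc2C notion556`: the descent to `ℚ` of a form of type `π(1,1)` over `F` is of type `π(1,1)`,
  `π(sgn,sgn)` (first alternative) or `π(1,sgn)` (second alternative, `A0.IsCuspHolQ`).
* `ParC notion556`: central character `χ₋₃` (mass count for the even alternative).
* `DictC notion556`: first alternative + central character `χ₋₃` is contradictory (the central
  character of an `SO(2)`-invariant form is even); second alternative: unfold `A0.IsCuspHolQ`.
-/

set_option autoImplicit false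

open AutomorphicForm

noncomputable section

namespace Fermat.Agent.LT.H556.I670

open Fermat.Agent.LT.H670 Fermat.Agent.LT.H556

/-- `LTB.WallC` from the leaves of helper670's WALL-TOP at the notion of block A0. -/
theorem wallC_of_leaves_notion556
    (hT : TowerC) (hSeed : SeedC A0.notion556) (h3 : Desc3C A0.notion556)
    (h2 : Desc2C A0.notion556) (hSplit : SplitC) (hPar : ParC A0.notion556)
    (hDict : DictC A0.notion556) : LTB.WallC :=
  wall_of_leaves' A0.notion556 hT hSeed h3 h2 hSplit hPar hDict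

/-- The half of `DictC notion556` that carries all the content of the dictionary: with the second
alternative the classical form is part of the datum. -/
def DictHolC : Prop :=
  ∀ π : HeckeEigensystem ℚ ℂ, A0.IsCuspHolQ ℚ π → ClassicalFor π

/-- The other half: a form over `ℚ` which is spherical of parameter `0` at the real place has an
EVEN central character, so it cannot have central character `χ₋₃`. -/
def DictEvenC : Prop :=
  ∀ π : HeckeEigensystem ℚ ℂ, A0.IsCuspAdelicSph0 ℚ π → ¬ HasCentralCharChi π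

theorem dictC_of_halves (h1 : DictHolC) (h2 : DictEvenC) : DictC A0.notion556 := by
  intro π hπ hχ
  rcases hπ with hs | hh
  · exact absurd hχ (h2 π hs)
  · exact h1 π hh

end Fermat.Agent.LT.H556.I670

end

end
-- ===== PACK-END LT/H556/Inst670.lean

-- ===== PACK-BEGIN LT/T1/H919/SiegelTools.lean
section






/-!
# Row LT, tower T1 (helper919, OFF-MAIN): tools for `SiegelCompactC`

* `realTo919 w : ℝ →+* w.Completion` : the real numbers in the completion at an infinite place,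
  `extensionEmbedding w (realTo919 w s) = s`, isometric;
* `rayAdl919 K : ℝ →* 𝔸_K` : `s ↦ (s at every infinite place, 1 at every finite place)`, continuous,
  `adNorm K (rayAdl919 K s) = |s| ^ [K : ℚ]`;
* `up919 y u = [[y, u], [0, 1]]` in `GL₂(R)`, multiplication rule, functoriality, continuity over
  the adeles;
* `scalarG919 c` : the scalar matrix of a unit, central.
-/

set_option autoImplicit false

open IsDedekindDomain NumberField
open Fermat.Agent.LT.H556.A0
open Fermat.Agent.LT.T1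
open Fermat.Agent.LT.T1.H793

noncomputable section

namespace Fermat.Agent.LT.T1.H919

/-! ## Upper triangular matrices `[[y, u], [0, 1]]` -/

section Up

variable {R : Type*} [CommRing R]

/-- The matrix `[[y, u], [0, 1]]` as an element of `GL₂(R)`. -/
def up919 (y : Rˣ) (u : R) : GL (Fin 2) R where
  val := !![(y : R), u; 0, 1]
  inv := !![((y⁻¹ : Rˣ) : R), -(((y⁻¹ : Rˣ) : R) * u); 0, 1]
  val_inv := by
    rw [Matrix.mul_fin_two, Matrix.one_fin_two]
    congr 1
    simp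
  inv_val := by
    rw [Matrix.mul_fin_two, Matrix.one_fin_two]
    congr 1
    simp

@[simp] lemma up919_val (y : Rˣ) (u : R) :
    ((up919 y u : GL (Fin 2) R) : Matrix (Fin 2) (Fin 2) R) = !![(y : R), u; 0, 1] := rfl

lemma up919_inv_val (y : Rˣ) (u : R) :
    (((up919 y u)⁻¹ : GL (Fin 2) R) : Matrix (Fin 2) (Fin 2) R)
      = !![((y⁻¹ : Rˣ) : R), -(((y⁻¹ : Rˣ) : R) * u); 0, 1] := rfl

lemma up919_mul (y y' : Rˣ) (u u' : R) :
    up919 y u * up919 y' u' = up919 (y * y') ((y : R) * u' + u) := by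
  apply Units.ext
  rw [Units.val_mul, up919_val, up919_val, up919_val, Matrix.mul_fin_two]
  congr 1
  simp

lemma map_up919 {S : Type*} [CommRing S] (f : R →+* S) (y : Rˣ) (u : R) :
    Matrix.GeneralLinearGroup.map f (up919 y u) = up919 (Units.map f.toMonoidHom y) (f u) := by
  apply Units.ext
  ext i j
  fin_cases i <;> fin_cases j <;> simp [Matrix.GeneralLinearGroup.map]

/-- The scalar matrix of a unit. -/
def scalarG919 (c : Rˣ) : GL (Fin 2) R :=
  Units.map (Matrix.scalar (Fin 2) : R →+* Matrix (Fin 2) (Fin 2) R).toMonoidHom c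

lemma scalarG919_val (c : Rˣ) :
    ((scalarG919 c : GL (Fin 2) R) : Matrix (Fin 2) (Fin 2) R)
      = Matrix.diagonal (fun _ => (c : R)) := by
  show Matrix.scalar (Fin 2) (c : R) = _
  rw [Matrix.scalar_apply]

lemma scalarG919_comm (c : Rˣ) (g : GL (Fin 2) R) : scalarG919 c * g = g * scalarG919 c := by
  apply Units.ext
  rw [Units.val_mul, Units.val_mul]
  exact (Matrix.scalar_commute (c : R) (fun r => Commute.all _ _)
    (g : Matrix (Fin 2) (Fin 2) R)).eq

/-- An upper triangular matrix is the product of the scalar matrix of its lower right entry and a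
matrix `[[y, u], [0, 1]]`. -/
lemma upper_eq_scalar_mul_up919 (b : GL (Fin 2) R)
    (hb : (b : Matrix (Fin 2) (Fin 2) R) 1 0 = 0) (a1 a2 : Rˣ)
    (h1 : (a1 : R) = (b : Matrix (Fin 2) (Fin 2) R) 0 0)
    (h2 : (a2 : R) = (b : Matrix (Fin 2) (Fin 2) R) 1 1) :
    b = scalarG919 a2 * up919 (a1 * a2⁻¹) ((b : Matrix (Fin 2) (Fin 2) R) 0 1 * ((a2⁻¹ : Rˣ) : R)) := by
  apply Units.ext
  rw [Units.val_mul, scalarG919_val, up919_val]
  conv_lhs => rw [Matrix.eta_fin_two (b : Matrix (Fin 2) (Fin 2) R)]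
  rw [hb, ← h1, ← h2]
  ext i j
  fin_cases i <;> fin_cases j <;>
    simp [Matrix.diagonal_mul, Units.val_mul, mul_comm, mul_left_comm]

end Up

variable {K : Type} [Field K] [NumberField K]

/-! ## The real numbers in the completion at an infinite place -/

open scoped Classical in
/-- The embedding of `ℝ` in the completion at the infinite place `w`. -/
def realTo919 (w : InfinitePlace K) : ℝ →+* w.Completion :=
  if hw : w.IsReal then
    ((InfinitePlace.Completion.ringEquivRealOfIsReal hw).symm : ℝ →+* w.Completion)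
  else
    ((InfinitePlace.Completion.ringEquivComplexOfIsComplex
      (InfinitePlace.not_isReal_iff_isComplex.mp hw)).symm : ℂ →+* w.Completion).comp
      Complex.ofRealHom

omit [NumberField K] in
lemma extensionEmbedding_realTo919 (w : InfinitePlace K) (s : ℝ) :
    InfinitePlace.Completion.extensionEmbedding w (realTo919 w s) = (s : ℂ) := by
  unfold realTo919
  by_cases hw : w.IsReal
  · rw [dif_pos hw, ← InfinitePlace.Completion.extensionEmbeddingOfIsReal_apply hw]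
    congr 1
    exact (InfinitePlace.Completion.ringEquivRealOfIsReal hw).apply_symm_apply s
  · rw [dif_neg hw]
    exact (InfinitePlace.Completion.ringEquivComplexOfIsComplex
      (InfinitePlace.not_isReal_iff_isComplex.mp hw)).apply_symm_apply (s : ℂ)

omit [NumberField K] in
lemma norm_realTo919 (w : InfinitePlace K) (s : ℝ) : ‖realTo919 w s‖ = |s| := by
  rw [← norm_extensionEmbedding793, extensionEmbedding_realTo919, Complex.norm_real,
    Real.norm_eq_abs]

omit [NumberField K] in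
lemma continuous_realTo919 (w : InfinitePlace K) : Continuous (realTo919 w) :=
  (AddMonoidHomClass.isometry_of_norm (realTo919 w)
    (fun s => by rw [norm_realTo919, Real.norm_eq_abs])).continuous

/-! ## The ray -/

/-- The ray: `s` at every infinite place, `1` at every finite place. -/
def rayAdl919 (K : Type) [Field K] [NumberField K] : ℝ →* Adl K where
  toFun s := ((fun w => realTo919 w s), 1)
  map_one' := by
    refine Prod.ext (funext fun w => ?_) rfl
    exact map_one (realTo919 w)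
  map_mul' s t := by
    refine Prod.ext (funext fun w => ?_) (mul_one 1).symm
    exact map_mul (realTo919 w) s t

lemma rayAdl919_inf (s : ℝ) (w : InfinitePlace K) : (rayAdl919 K s).1 w = realTo919 w s := rfl

lemma rayAdl919_fin (s : ℝ) (v : HeightOneSpectrum (𝓞 K)) :
    (rayAdl919 K s).2 v = 1 := rfl

lemma continuous_rayAdl919 : Continuous (rayAdl919 K) :=
  Continuous.prodMk (continuous_pi fun w => continuous_realTo919 w) continuous_const

/-- The module of the ray element. -/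
lemma adNorm_rayAdl919 (s : ℝ) : adNorm K (rayAdl919 K s) = |s| ^ Module.finrank ℚ K := by
  unfold adNorm
  have h1 : ∏ᶠ v : HeightOneSpectrum (𝓞 K), ‖(rayAdl919 K s).2 v‖ = 1 :=
    finprod_eq_one_of_forall_eq_one (fun v => by rw [rayAdl919_fin, norm_one])
  rw [h1, mul_one]
  simp only [rayAdl919_inf, norm_realTo919]
  rw [Finset.prod_pow_eq_pow_sum, InfinitePlace.sum_mult_eq]

/-- The ray element of `GL₂(𝔸_K)`: `diag(s, 1)` at the infinite places, `1` at the finite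
places. -/
def rayG919 (K : Type) [Field K] [NumberField K] (s : ℝˣ) : G K :=
  up919 (Units.map (rayAdl919 K) s) 0

lemma isRay_rayG919 (s : ℝˣ) : IsRay K (rayG919 K s) (s : ℝ) := by
  refine ⟨fun v => ?_, fun w => ?_⟩
  · show finComp v (rayG919 K s) = 1
    refine Matrix.ext fun i j => ?_
    fin_cases i <;> fin_cases j
    · show (rayAdl919 K (s : ℝ)).2 v = 1
      rfl
    · show (0 : Adl K).2 v = 0
      rfl
    · show (0 : Adl K).2 v = 0
      rfl
    · show (1 : Adl K).2 v = 1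
      rfl
  · refine Matrix.ext fun i j => ?_
    fin_cases i <;> fin_cases j
    · show InfinitePlace.Completion.extensionEmbedding w ((rayAdl919 K (s : ℝ)).1 w) = (s : ℂ)
      rw [rayAdl919_inf, extensionEmbedding_realTo919]
    · show InfinitePlace.Completion.extensionEmbedding w ((0 : Adl K).1 w) = 0
      exact map_zero _
    · show InfinitePlace.Completion.extensionEmbedding w ((0 : Adl K).1 w) = 0
      exact map_zero _
    · show InfinitePlace.Completion.extensionEmbedding w ((1 : Adl K).1 w) = 1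
      exact map_one _

/-! ## Continuity of `up919` over the adeles -/

lemma continuous_up919 :
    Continuous (fun p : (Adl K)ˣ × Adl K => (up919 p.1 p.2 : G K)) := by
  rw [Units.continuous_iff]
  constructor
  · refine continuous_matrix (fun i j => ?_)
    fin_cases i <;> fin_cases j
    · exact Units.continuous_val.comp continuous_fst
    · exact continuous_snd
    · exact continuous_const
    · exact continuous_const
  · refine continuous_matrix (fun i j => ?_)
    fin_cases i <;> fin_cases j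
    · exact Units.continuous_coe_inv.comp continuous_fst
    · exact ((Units.continuous_coe_inv.comp continuous_fst).mul continuous_snd).neg
    · exact continuous_const
    · exact continuous_const

end Fermat.Agent.LT.T1.H919

end

end
-- ===== PACK-END LT/T1/H919/SiegelTools.lean

-- ===== PACK-BEGIN LT/T1/H629/Fujisaki.lean
section





/-!
# Row LT, tower T1, leaf T1.06 `LeafFujisaki` (helper629), part 2: compactness and assembly

OFF-MAIN.  The box `Wset629 K r` is compact; Fujisaki's lemma by the argument of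
Cassels–Fröhlich II §16 from idelic Minkowski (`exists_minkowski_idele629`).
-/

set_option autoImplicit false

open IsDedekindDomain NumberField HeightOneSpectrum
open scoped WithZero NNReal ENNReal nonZeroDivisors RestrictedProduct Pointwise

noncomputable section

namespace Fermat.Agent.LT.T1.H629

open Fermat.Agent.LT.H556.A0

variable (K : Type) [Field K] [NumberField K]

omit [NumberField K] in
/-- Closed balls of the completion at an infinite place are compact. -/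
theorem isCompact_closedBall_completion629 (w : InfinitePlace K) (r : ℝ) :
    IsCompact {x : w.Completion | ‖x‖ ≤ r} := by
  have hiso := InfinitePlace.Completion.isometry_extensionEmbedding w
  have hce : Topology.IsClosedEmbedding (InfinitePlace.Completion.extensionEmbedding w) :=
    hiso.isClosedEmbedding
  have hset : {x : w.Completion | ‖x‖ ≤ r}
      = (InfinitePlace.Completion.extensionEmbedding w) ⁻¹' (Metric.closedBall (0 : ℂ) r) := by
    ext x
    rw [Set.mem_preimage, mem_closedBall_zero_iff, hiso.norm_map_of_map_zero (map_zero _) x]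
    rfl
  rw [hset]
  exact hce.isCompact_preimage (isCompact_closedBall _ _)

omit [NumberField K] in
/-- The infinite part of the box is compact. -/
theorem isCompact_infBox629 (r : ℝ) :
    IsCompact {x : InfiniteAdeleRing K | ∀ w : InfinitePlace K, ‖x w‖ ≤ r} := by
  have h := isCompact_univ_pi (fun w : InfinitePlace K => isCompact_closedBall_completion629 K w r)
  have hset : {x : InfiniteAdeleRing K | ∀ w : InfinitePlace K, ‖x w‖ ≤ r}
      = Set.pi Set.univ (fun w : InfinitePlace K => {x : w.Completion | ‖x‖ ≤ r}) := by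
    ext x
    exact ⟨fun hx w _ => hx w, fun hx w => hx w (Set.mem_univ w)⟩
  rw [hset]
  exact h

/-- The integral finite adeles are compact. -/
theorem isCompact_finBox629 :
    IsCompact {x : FiniteAdeleRing (𝓞 K) K | ∀ v : HeightOneSpectrum (𝓞 K), Valued.v (x v) ≤ 1} := by
  have hc : ∀ v : HeightOneSpectrum (𝓞 K),
      CompactSpace ((v.adicCompletionIntegers K : Set (v.adicCompletion K))) := fun v =>
    isCompact_iff_compactSpace.1 (Fermat.Agent.LT.H11.LC.isCompact_integers_h11 K v)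
  have hrange := RestrictedProduct.range_structureMap
    (fun v : HeightOneSpectrum (𝓞 K) => v.adicCompletion K)
    (fun v : HeightOneSpectrum (𝓞 K) => (v.adicCompletionIntegers K : Set (v.adicCompletion K)))
    (𝓕 := Filter.cofinite)
  have hcont := (RestrictedProduct.isEmbedding_structureMap
    (R := fun v : HeightOneSpectrum (𝓞 K) => v.adicCompletion K)
    (A := fun v : HeightOneSpectrum (𝓞 K) => (v.adicCompletionIntegers K : Set (v.adicCompletion K)))
    (𝓕 := Filter.cofinite)).continuous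
  have h := isCompact_range hcont
  rw [hrange] at h
  exact h

/-- The box is compact. -/
theorem isCompact_Wset629 (r : ℝ) : IsCompact (Wset629 K r) := by
  have h := (isCompact_infBox629 K r).prod (isCompact_finBox629 K)
  have hset : Wset629 K r = ({x : InfiniteAdeleRing K | ∀ w : InfinitePlace K, ‖x w‖ ≤ r} ×ˢ
      {x : FiniteAdeleRing (𝓞 K) K | ∀ v : HeightOneSpectrum (𝓞 K), Valued.v (x v) ≤ 1} :
        Set (InfiniteAdeleRing K × FiniteAdeleRing (𝓞 K) K)) := by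
    ext x
    rfl
  rw [hset]
  exact h

/-- Only finitely many elements of `K` lie in a compact subset of `𝔸_K`. -/
theorem finite_principal_in_compact629 (hAL : AdeleLatticeC K) (C : Set (Adl K))
    (hC : IsCompact C) : {k : K | algebraMap K (Adl K) k ∈ C}.Finite := by
  obtain ⟨hdisc, hclosed, -⟩ := hAL
  have hT : IsCompact ((princ K : Set (Adl K)) ∩ C) := hC.inter_left hclosed
  have hd : IsDiscrete (princ K : Set (Adl K)) := isDiscrete_iff_discreteTopology.mpr hdisc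
  have hTd : IsDiscrete ((princ K : Set (Adl K)) ∩ C) := hd.mono Set.inter_subset_left
  have hfin : ((princ K : Set (Adl K)) ∩ C).Finite := hT.finite hTd
  have hinj : Function.Injective (algebraMap K (Adl K)) := AdeleRing.algebraMap_injective (𝓞 K) K
  refine (hfin.preimage (Set.injOn_of_injective hinj)).subset ?_
  intro k hk
  exact ⟨⟨k, rfl⟩, hk⟩

theorem adNorm_one629 (hN : AdNormC K) : adNorm K ((1 : (Adl K)ˣ) : Adl K) = 1 := by
  have := hN.2.2.1 1
  rwa [map_one] at this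

theorem adNorm_inv629 (hN : AdNormC K) (x : (Adl K)ˣ) (hx : adNorm K (x : Adl K) = 1) :
    adNorm K ((x⁻¹ : (Adl K)ˣ) : Adl K) = 1 := by
  have h := hN.2.1 x x⁻¹
  rw [mul_inv_cancel, adNorm_one629 K hN, hx, one_mul] at h
  exact h.symm

/-- **Fujisaki's lemma** from the lattice property of `K ⊂ 𝔸_K` and the properties of the module.
-/
theorem fujisakiC629 (hAL : AdeleLatticeC K) (hN : AdNormC K) : FujisakiC K := by
  classical
  obtain ⟨r, -, hM⟩ := exists_minkowski_idele629 K hN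
  have : T2Space (Adl K) := Fermat.Agent.LT.H11.LC.t2Space_adeleRing_h11 K
  have hW : IsCompact (Wset629 K r) := isCompact_Wset629 K r
  have hWW : IsCompact (Wset629 K r * Wset629 K r) := hW.mul hW
  have hZ : {k : K | algebraMap K (Adl K) k ∈ Wset629 K r * Wset629 K r}.Finite :=
    finite_principal_in_compact629 K hAL _ hWW
  set Z' : Set (Adl K) := (fun k : K => algebraMap K (Adl K) k⁻¹) ''
    {k : K | algebraMap K (Adl K) k ∈ Wset629 K r * Wset629 K r} with hZ'def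
  have hZ' : Z'.Finite := hZ.image _
  have hW' : IsCompact (Wset629 K r * Z') := hW.mul hZ'.isCompact
  have hprod : IsCompact ((Wset629 K r) ×ˢ (MulOpposite.op '' (Wset629 K r * Z')) :
      Set (Adl K × (Adl K)ᵐᵒᵖ)) :=
    hW.prod (hW'.image MulOpposite.continuous_op)
  have hce : Topology.IsClosedEmbedding (Units.embedProduct (Adl K)) :=
    Units.isClosedEmbedding_embedProduct
  refine ⟨(Units.embedProduct (Adl K)) ⁻¹'
    ((Wset629 K r) ×ˢ (MulOpposite.op '' (Wset629 K r * Z'))), hce.isCompact_preimage hprod, ?_⟩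
  intro x hx
  obtain ⟨η, hη⟩ := hM x⁻¹ (adNorm_inv629 K hN x hx)
  obtain ⟨θ, hθ⟩ := hM x hx
  rw [inv_inv] at hη
  refine ⟨η⁻¹, ?_⟩
  rw [map_inv, inv_inv]
  have e1 : (ratUnit K η * x) * (ratUnit K θ * x⁻¹) = ratUnit K (η * θ) := by
    rw [mul_mul_mul_comm, mul_inv_cancel, mul_one, map_mul]
  have hηθ : algebraMap K (Adl K) ((η * θ : Kˣ) : K) ∈ Wset629 K r * Wset629 K r := by
    have h := Set.mul_mem_mul hη hθ
    rw [← Units.val_mul, e1] at h
    exact h
  have e2 : (ratUnit K η * x)⁻¹ = (ratUnit K θ * x⁻¹) * ratUnit K (η * θ)⁻¹ := by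
    refine inv_eq_of_mul_eq_one_right ?_
    rw [← mul_assoc, e1, ← map_mul, mul_inv_cancel, map_one]
  refine ⟨hη, ?_⟩
  refine ⟨((ratUnit K θ * x⁻¹ : (Adl K)ˣ) : Adl K) * algebraMap K (Adl K) (((η * θ : Kˣ) : K))⁻¹,
    Set.mul_mem_mul hθ ⟨((η * θ : Kˣ) : K), hηθ, rfl⟩, ?_⟩
  change MulOpposite.op _ = MulOpposite.op (((ratUnit K η * x)⁻¹ : (Adl K)ˣ) : Adl K)
  refine congrArg MulOpposite.op ?_
  rw [e2, Units.val_mul (ratUnit K θ * x⁻¹) (ratUnit K (η * θ)⁻¹), ratUnit_val629 K (η * θ)⁻¹,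
    Units.val_inv_eq_inv_val]

/-- **T1.06**. -/
theorem leafFujisaki629 : LeafFujisaki K :=
  fun _ hAL _ hN => fujisakiC629 K hAL hN

end Fermat.Agent.LT.T1.H629

end
end
-- ===== PACK-END LT/T1/H629/Fujisaki.lean

-- ===== PACK-BEGIN LT/T1/H729/AdNormCont.lean
section





/-!
# Row LT, tower T1 (volunteer helper729): continuity of the module, `T1.AdNormC` VERBATIM

OFF-MAIN.  `adNormC729 K : Fermat.Agent.LT.T1.AdNormC K`.
-/

set_option autoImplicit false

open IsDedekindDomain NumberField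
open Fermat.Agent.LT.H556.A0

noncomputable section

namespace Fermat.Agent.LT.T1.H729

set_option linter.unusedSectionVars false

variable (K : Type) [Field K] [NumberField K]

/-- An element of `𝒪_v` whose inverse is in `𝒪_v` has norm one. -/
theorem norm_eq_one_of_mem_of_inv_mem729 (v : HeightOneSpectrum (𝓞 K))
    (a b : v.adicCompletion K) (ha : a ∈ v.adicCompletionIntegers K)
    (hb : b ∈ v.adicCompletionIntegers K) (hab : a * b = 1) : ‖a‖ = 1 := by
  apply norm_eq_one_of_valued_eq_one729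
  rw [HeightOneSpectrum.mem_adicCompletionIntegers] at ha hb
  have h1 : Valued.v a * Valued.v b = 1 := by rw [← map_mul, hab, map_one]
  rcases ha.lt_or_eq with hlt | heq
  · exfalso
    have hb0 : Valued.v b ≠ 0 := by
      intro h0
      rw [h0, mul_zero] at h1
      exact zero_ne_one h1
    have : Valued.v a * Valued.v b < 1 * Valued.v b :=
      mul_lt_mul_of_pos_right hlt (zero_lt_iff.mpr hb0)
    rw [h1, one_mul] at this
    exact absurd hb (not_le.mpr this)
  · exact heq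

/-- The open set of ideles which are units of `𝒪_v` outside the finite set `S`. -/
def unitsOutside729 (S : Set (HeightOneSpectrum (𝓞 K))) : Set (Adl K)ˣ :=
  {x | (∀ v, v ∉ S → (x : Adl K).2 v ∈ v.adicCompletionIntegers K) ∧
    ∀ v, v ∉ S → ((x⁻¹ : (Adl K)ˣ) : Adl K).2 v ∈ v.adicCompletionIntegers K}

theorem isOpen_unitsOutside729 (S : Set (HeightOneSpectrum (𝓞 K))) :
    IsOpen (unitsOutside729 K S) := by
  have hopen : IsOpen {f : FiniteAdeleRing (𝓞 K) K |
      ∀ v : HeightOneSpectrum (𝓞 K), v ∉ S → f v ∈ v.adicCompletionIntegers K} :=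
    RestrictedProduct.isOpen_forall_imp_mem (fun v => Valued.isOpen_valuationSubring _)
  have h1 : Continuous fun x : (Adl K)ˣ => (x : Adl K).2 :=
    continuous_snd.comp Units.continuous_val
  have h2 : Continuous fun x : (Adl K)ˣ => ((x⁻¹ : (Adl K)ˣ) : Adl K).2 :=
    continuous_snd.comp Units.continuous_coe_inv
  exact (hopen.preimage h1).inter (hopen.preimage h2)

/-- **Continuity** of the module on the idele group. -/
theorem continuous_adNorm729 :
    Continuous fun x : (Adl K)ˣ => Fermat.Agent.LT.T1.adNorm K (x : Adl K) := by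
  classical
  rw [continuous_iff_continuousAt]
  intro x₀
  set S : Set (HeightOneSpectrum (𝓞 K)) :=
    {v | ¬ ((x₀ : Adl K).2 v ∈ v.adicCompletionIntegers K ∧
      ((x₀⁻¹ : (Adl K)ˣ) : Adl K).2 v ∈ v.adicCompletionIntegers K)} with hSdef
  have hS : S.Finite := by
    have h1 : ∀ᶠ v in Filter.cofinite, (x₀ : Adl K).2 v ∈ v.adicCompletionIntegers K :=
      ((x₀ : Adl K).2).2
    have h2 : ∀ᶠ v in Filter.cofinite,
        ((x₀⁻¹ : (Adl K)ˣ) : Adl K).2 v ∈ v.adicCompletionIntegers K :=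
      (((x₀⁻¹ : (Adl K)ˣ) : Adl K).2).2
    exact Filter.eventually_cofinite.mp (h1.and h2)
  have hx₀ : x₀ ∈ unitsOutside729 K S :=
    ⟨fun v hv => (not_not.mp hv).1, fun v hv => (not_not.mp hv).2⟩
  set F : (Adl K)ˣ → ℝ := fun x =>
    (∏ w : InfinitePlace K, ‖(x : Adl K).1 w‖ ^ w.mult) *
      ∏ v ∈ hS.toFinset, ‖(x : Adl K).2 v‖ with hFdef
  have hval1 : ∀ w : InfinitePlace K, Continuous fun x : (Adl K)ˣ => (x : Adl K).1 w :=
    fun w => (continuous_apply w).comp (continuous_fst.comp Units.continuous_val)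
  have hval2 : ∀ v : HeightOneSpectrum (𝓞 K), Continuous fun x : (Adl K)ˣ => (x : Adl K).2 v :=
    fun v => (RestrictedProduct.continuous_eval v).comp
      (continuous_snd.comp Units.continuous_val)
  have hF : Continuous F := by
    refine Continuous.mul ?_ ?_
    · exact continuous_finsetProd _ fun w _ => (continuous_norm.comp (hval1 w)).pow _
    · exact continuous_finsetProd _ fun v _ => continuous_norm.comp (hval2 v)
  have heq : ∀ x ∈ unitsOutside729 K S, Fermat.Agent.LT.T1.adNorm K (x : Adl K) = F x := by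
    intro x hx
    unfold Fermat.Agent.LT.T1.adNorm
    rw [hFdef]
    congr 1
    apply finprod_eq_prod_of_mulSupport_subset
    intro v hv
    rw [Function.mem_mulSupport] at hv
    rw [Finset.mem_coe, Set.Finite.mem_toFinset]
    by_contra hvS
    refine hv (norm_eq_one_of_mem_of_inv_mem729 K v _ _ (hx.1 v hvS) (hx.2 v hvS) ?_)
    have : (x : Adl K) * ((x⁻¹ : (Adl K)ˣ) : Adl K) = 1 := by
      rw [← Units.val_mul, mul_inv_cancel, Units.val_one]
    have h3 := congrArg (projFin729 v) this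
    rw [map_mul, map_one] at h3
    exact h3
  exact hF.continuousAt.congr
    (Filter.eventuallyEq_of_mem ((isOpen_unitsOutside729 K S).mem_nhds hx₀)
      (fun x hx => (heq x hx).symm))

/-- **`T1.AdNormC`**, verbatim. -/
theorem adNormC729 : Fermat.Agent.LT.T1.AdNormC K :=
  ⟨adNorm_pos729 K, adNorm_mul729 K, adNorm_ratUnit729 K, continuous_adNorm729 K⟩

end Fermat.Agent.LT.T1.H729

end
end
-- ===== PACK-END LT/T1/H729/AdNormCont.lean

-- ===== PACK-BEGIN LT/T2/SpecTau.lean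
section





/-!
# Row LT, tower T2: the SAME Props for the class of T5 (helper130, architect)

OFF-MAIN.  ADDITIVE to `LT/T2/Spec.lean` v3 (sha256 b934629a), which is not changed.
Definitions written out, Props, PROVED `top_cuspSpecT`, `top_gpsT`, `gps_of_gpsT`.

`LT/T2/Spec.lean` treats the class of A0: trivial `K_∞`-type, invariant under the positive scalars
at EVERY infinite place.  The trace formula of T5 (helper32, Spec v3) lives on the larger class

* level `U(𝔫)`, `K_∞`-TYPE `τ` (`ψ(g k) = τ(k) ψ(g)`; `IsKType` = `T5.IsKType` verbatim),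
* invariant under the generator `r` of the discrete ray only (`IsRayGen` = `T5.IsRayGen`
  verbatim): functions on `GL₂(K) ⟨r⟩ \ GL₂(𝔸_K)`, for which `pair F` IS the `L²` product
  (the slab is a fundamental domain of `⟨r⟩`).

`IsAutT`, `IsCuspT` are `T5.IsAutomorphicFn`, `T5.IsCuspFn` (same fields); `IsTestT` is
`T5.IsTestFn` without the field `ktype`.  New operators: the central shifts at the infinite
places and the `τ`-twisted circle mean at the real places (the sphere mean at a complex place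
needs no twist: a character of `U(2)` is trivial on `SU(2)`).  `IsCuspBasisT` carries the
characters `c j` of the central shifts: the A0 class is `τ = trivType`, `c j = 1`.

Every leaf `T2.0x` of `Spec.lean` has its `T`-form here (`LeafT0x`, SAME proof with `τ` and `r`
as parameters); owners are asked to prove the `T`-form; `LeafT14`, `LeafT15` bring it back to the
A0 class.
-/

set_option autoImplicit false

open IsDedekindDomain NumberField MeasureTheory AutomorphicForm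
open Fermat.Agent.LT.H556.A0
open scoped ContDiff

noncomputable section

namespace Fermat.Agent.LT.T2

variable {K : Type} [Field K] [NumberField K]

attribute [local instance] borelG

/-! ## 1. The class -/

/-- A `K_∞`-type: a unitary character of each group `K_w` (`SO(2)` at a real place, `U(2)` at a
complex place), given as a function on `GL₂(𝔸_K)` of which only the values on the elements of the
groups `K_w` matter.  (`T5.IsKType` verbatim.) -/
structure IsKType (τ : G K → ℂ) : Prop where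
  norm_one : ∀ (w : InfinitePlace K) (k : G K), IsArchCompact w k → ‖τ k‖ = 1
  mul : ∀ (w : InfinitePlace K) (k k' : G K), IsArchCompact w k → IsArchCompact w k' →
    τ (k * k') = τ k * τ k'
  cont : ∀ w : InfinitePlace K, ContinuousOn τ {k : G K | IsArchCompact w k}

/-- The trivial `K_∞`-type. -/
def trivType : G K → ℂ := fun _ => 1

/-- `r` is the generator of the discrete ray: the positive scalar `t`, the same at every infinite
place, with `‖det r‖_𝔸 = t^{2 [K:ℚ]} = 2`; trivial at the finite places.  (`T5.IsRayGen`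
verbatim.) -/
def IsRayGen (r : G K) : Prop :=
  (∀ v : HeightOneSpectrum (𝓞 K), TrivAtFin v r) ∧
    ∃ t : ℝ, 0 < t ∧ t ^ (2 * Module.finrank ℚ K) = 2 ∧
      ∀ w : InfinitePlace K, infComp w r = Matrix.diagonal (fun _ => (t : ℂ))

/-- A frame with the ray generator. -/
structure FrameR (K : Type) [Field K] [NumberField K] where
  F : Frame K
  r : G K
  ray : IsRayGen r

/-- A bounded continuous automorphic function of level `U(𝔫)` and type `τ`, invariant under the
ray generator `r`. -/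
structure IsAutT (𝔫 : Ideal (𝓞 K)) (τ : G K → ℂ) (r : G K) (ψ : G K → ℂ) : Prop where
  cont : Continuous ψ
  bdd : ∃ C : ℝ, ∀ g : G K, ‖ψ g‖ ≤ C
  left_inv : ∀ (γ : GL (Fin 2) K) (g : G K),
    ψ (Matrix.GeneralLinearGroup.map (algebraMap K (Adl K)) γ * g) = ψ g
  level_inv : ∀ u : G K, InLevelGroup 𝔫 u → ∀ g : G K, ψ (g * u) = ψ g
  arch_compact : ∀ (w : InfinitePlace K) (k : G K), IsArchCompact w k →
    ∀ g : G K, ψ (g * k) = τ k * ψ g
  ray : ∀ g : G K, ψ (g * r) = ψ g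

/-- A cusp function of level `U(𝔫)` and type `τ`, invariant under `r`. -/
structure IsCuspT (𝔫 : Ideal (𝓞 K)) (τ : G K → ℂ) (r : G K) (φ : G K → ℂ) : Prop where
  aut : IsAutT 𝔫 τ r φ
  cuspidal : IsCuspidalFn φ

/-- A test function of level `U(𝔫)` and type `τ`:
`f(k₁ g k₂) = τ(k₁)⁻¹ τ(k₂)⁻¹ f(g)` (so that `conv F f` preserves the functions of type `τ`). -/
structure IsTestT (𝔫 : Ideal (𝓞 K)) (τ : G K → ℂ) (f : G K → ℂ) : Prop where
  cont : Continuous f
  smooth : IsSmoothAtInf f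
  cpt : HasCompactSupport f
  level_right : ∀ u : G K, InLevelGroup 𝔫 u → ∀ g : G K, f (g * u) = f g
  level_left : ∀ u : G K, InLevelGroup 𝔫 u → ∀ g : G K, f (u * g) = f g
  arch_right : ∀ (w : InfinitePlace K) (k : G K), IsArchCompact w k →
    ∀ g : G K, f (g * k) = (τ k)⁻¹ * f g
  arch_left : ∀ (w : InfinitePlace K) (k : G K), IsArchCompact w k →
    ∀ g : G K, f (k * g) = (τ k)⁻¹ * f g

/-- A spherical test function of type `τ`. -/
structure IsSphTestT (𝔫 : Ideal (𝓞 K)) (τ : G K → ℂ) (f : G K → ℂ) : Prop where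
  test : IsTestT 𝔫 τ f
  bad_unit : ∀ g : G K, f g ≠ 0 → ∀ v : HeightOneSpectrum (𝓞 K), v.asIdeal ∣ 𝔫 →
    ∀ i j : Fin 2, (finComp v g - 1) i j ∈ idealClosure 𝔫 v ∧
      (finComp v g⁻¹ - 1) i j ∈ idealClosure 𝔫 v

/-- `k` parametrises the rotations at the real place `w` (`rotY θ` = rotation of angle `θ/2`). -/
def IsRotAt (w : InfinitePlace K) (k : ℝ → G K) : Prop :=
  ∀ θ : ℝ, IsLocalAtInf w (k θ) ∧ infComp w (k θ) = rotY θ

/-- `a` is the torus element `diag(e^{t/2}, e^{-t/2})` at the place `w`. -/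
def IsTorusAt (w : InfinitePlace K) (t : ℝ) (a : G K) : Prop :=
  IsLocalAtInf w a ∧ infComp w a = torus t

/-- The `τ`-twisted circle mean at a real place:
`(M φ)(g) = ∫₀^{2π} τ(k_θ)⁻¹ φ(g k_θ a) dθ`. -/
def circleMeanT (τ : G K → ℂ) (k : ℝ → G K) (a : G K) (φ : G K → ℂ) : G K → ℂ :=
  fun g => ∫ θ in (0 : ℝ)..(2 * Real.pi), (τ (k θ))⁻¹ * φ (g * k θ * a)

/-- `φ` is an eigenfunction of the `τ`-twisted circle means at the real place `w`. -/
def MeanEigRT (τ : G K → ℂ) (φ : G K → ℂ) (w : InfinitePlace K) (m : ℝ → ℂ) : Prop :=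
  ∀ t : ℝ, 0 < t → ∀ (k : ℝ → G K) (a : G K), IsRotAt w k → IsTorusAt w t a →
    ∀ g : G K, circleMeanT τ k a φ g = m t * φ g

/-- The operators of the class: those of `IsOp` (circle means `τ`-twisted) and the central shifts
at the infinite places. -/
inductive IsOpT (𝔫 : Ideal (𝓞 K)) (τ : G K → ℂ) (F : Frame K) :
    ((G K → ℂ) → (G K → ℂ)) → Prop
  | conv (f : G K → ℂ) (hf : IsSphTestT 𝔫 τ f) : IsOpT 𝔫 τ F (conv F f)
  | hecke (v : HeightOneSpectrum (𝓞 K)) (hv : ¬ v.asIdeal ∣ 𝔫) (H : Finset (G K))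
      (hH : IsHeckeCosetSystem v H) : IsOpT 𝔫 τ F (heckeSum H)
  | shift (v : HeightOneSpectrum (𝓞 K)) (hv : ¬ v.asIdeal ∣ 𝔫) (z : G K)
      (hz : IsScalarUniformizerAt v z) : IsOpT 𝔫 τ F (shift z)
  | shiftInv (v : HeightOneSpectrum (𝓞 K)) (hv : ¬ v.asIdeal ∣ 𝔫) (z : G K)
      (hz : IsScalarUniformizerAt v z) : IsOpT 𝔫 τ F (shift z⁻¹)
  | central (w : InfinitePlace K) (z : G K) (hz : IsArchPosScalar w z) : IsOpT 𝔫 τ F (shift z)
  | centralInv (w : InfinitePlace K) (z : G K) (hz : IsArchPosScalar w z) :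
      IsOpT 𝔫 τ F (shift z⁻¹)
  | sphere (w : InfinitePlace K) (hw : w.IsComplex) (d : ℝ) (hd : 0 < d) (Y : ℝ → ℝ → G K)
      (hY : IsSphereAt w d Y) : IsOpT 𝔫 τ F (sphereMean Y)
  | circle (w : InfinitePlace K) (hw : w.IsReal) (t : ℝ) (ht : 0 < t) (k : ℝ → G K) (a : G K)
      (hk : IsRotAt w k) (ha : IsTorusAt w t a) : IsOpT 𝔫 τ F (circleMeanT τ k a)
  | comp (S T : (G K → ℂ) → (G K → ℂ)) (hS : IsOpT 𝔫 τ F S) (hT : IsOpT 𝔫 τ F T) :
      IsOpT 𝔫 τ F (fun φ => S (T φ))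

/-! ## 2. The tower Props for the class -/

/-- An orthonormal, complete family of joint eigen-cusp-functions of the class `(𝔫, τ, r)`;
`c j z` is the eigenvalue of the central shift by `z` (`z` a positive scalar at one infinite
place). -/
structure IsCuspBasisT (𝔫 : Ideal (𝓞 K)) (τ : G K → ℂ) (R : FrameR K) {ι : Type}
    (u : ι → G K → ℂ) (m : ι → InfinitePlace K → ℝ → ℂ)
    (a b : ι → HeightOneSpectrum (𝓞 K) → ℂ) (c : ι → G K → ℂ) : Prop where
  cusp : ∀ j, IsCuspT 𝔫 τ R.r (u j)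
  norm_one : ∀ j, pair R.F (u j) (u j) = 1
  orth : ∀ i j, i ≠ j → pair R.F (u i) (u j) = 0
  eig_complex : ∀ j (w : InfinitePlace K), w.IsComplex → MeanEigC (u j) w (m j w)
  eig_real : ∀ j (w : InfinitePlace K), w.IsReal → MeanEigRT τ (u j) w (m j w)
  hecke : ∀ j (v : HeightOneSpectrum (𝓞 K)), ¬ v.asIdeal ∣ 𝔫 →
    IsHeckeEigenAt (u j) v (a j v) (b j v)
  central : ∀ j (w : InfinitePlace K) (z : G K), IsArchPosScalar w z →
    ∀ g : G K, u j (g * z) = c j z * u j g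
  unit_c : ∀ j (w : InfinitePlace K) (z : G K), IsArchPosScalar w z → ‖c j z‖ = 1
  unit_b : ∀ j (v : HeightOneSpectrum (𝓞 K)), ¬ v.asIdeal ∣ 𝔫 → ‖b j v‖ = 1
  conj_a : ∀ j (v : HeightOneSpectrum (𝓞 K)), ¬ v.asIdeal ∣ 𝔫 →
    (starRingEnd ℂ) (a j v) = a j v * (starRingEnd ℂ) (b j v)
  bound_a : ∀ j (v : HeightOneSpectrum (𝓞 K)), ¬ v.asIdeal ∣ 𝔫 →
    ‖a j v‖ * Real.sqrt (Ideal.absNorm v.asIdeal : ℝ) ≤ (Ideal.absNorm v.asIdeal : ℝ) + 1
  real_m : ∀ j (w : InfinitePlace K) (d : ℝ), 0 < d → (m j w d).im = 0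
  parseval : ∀ φ : G K → ℂ, IsCuspT 𝔫 τ R.r φ →
    HasSum (fun j => ‖pair R.F φ (u j)‖ ^ 2) (nsq R.F φ)

/-- **TOWER PROP 1, class of T5** (= `T5.CuspONBExistsC` with an arbitrary index type, plus the
eigen-properties). -/
def CuspSpecT (K : Type) [Field K] [NumberField K] (𝔫 : Ideal (𝓞 K)) (τ : G K → ℂ) : Prop :=
  ∀ R : FrameR K, ∃ (ι : Type) (u : ι → G K → ℂ) (m : ι → InfinitePlace K → ℝ → ℂ)
    (a b : ι → HeightOneSpectrum (𝓞 K) → ℂ) (c : ι → G K → ℂ), IsCuspBasisT 𝔫 τ R u m a b c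

/-- `PairDefinite` for the class. -/
def PairDefiniteT (K : Type) [Field K] [NumberField K] (𝔫 : Ideal (𝓞 K)) (τ : G K → ℂ) : Prop :=
  ∀ (R : FrameR K) (φ : G K → ℂ), IsCuspT 𝔫 τ R.r φ →
    IntegrableOn (fun g => φ g * (starRingEnd ℂ) (φ g)) R.F.D R.F.μ ∧
      (pair R.F φ φ = 0 → ∀ g : G K, φ g = 0)

/-- `ConvCusp` for the class. -/
def ConvCuspT (K : Type) [Field K] [NumberField K] (𝔫 : Ideal (𝓞 K)) (τ : G K → ℂ) : Prop :=
  ∀ R : FrameR K,
    (∀ f : G K → ℂ, IsTestT 𝔫 τ f → IsTestT 𝔫 τ (adj f)) ∧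
    (∀ f : G K → ℂ, IsSphTestT 𝔫 τ f → IsSphTestT 𝔫 τ (adj f)) ∧
    (∀ f φ : G K → ℂ, IsTestT 𝔫 τ f → IsCuspT 𝔫 τ R.r φ → IsCuspT 𝔫 τ R.r (conv R.F f φ)) ∧
    (∀ f ψ : G K → ℂ, IsTestT 𝔫 τ f → IsAutT 𝔫 τ R.r ψ → IsAutT 𝔫 τ R.r (conv R.F f ψ)) ∧
    (∀ f φ ψ : G K → ℂ, IsTestT 𝔫 τ f → IsAutT 𝔫 τ R.r φ → IsAutT 𝔫 τ R.r ψ →
      pair R.F (conv R.F f φ) ψ = pair R.F φ (conv R.F (adj f) ψ)) ∧
    (∀ f₁ f₂ ψ : G K → ℂ, IsSphTestT 𝔫 τ f₁ → IsSphTestT 𝔫 τ f₂ → IsAutT 𝔫 τ R.r ψ →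
      conv R.F f₁ (conv R.F f₂ ψ) = conv R.F f₂ (conv R.F f₁ ψ))

/-- `GPSCore` for the class. -/
def GPSCoreT (K : Type) [Field K] [NumberField K] (𝔫 : Ideal (𝓞 K)) (τ : G K → ℂ) : Prop :=
  ∀ (R : FrameR K) (f : G K → ℂ), IsTestT 𝔫 τ f → ∀ N : ℕ,
    ∃ C c : ℝ, 0 < c ∧ ∀ ψ Ψ : G K → ℂ, IsAutT 𝔫 τ R.r ψ → IsConstTerm ψ Ψ →
      ∀ (x : G K) (t : ℝ), T1.HasHeight K x t → c ≤ t →
        ‖conv R.F f ψ x - conv R.F f Ψ x‖ * t ^ N ≤ C * Real.sqrt (nsq R.F ψ)

/-- `GPS` for the class. -/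
def GPST (K : Type) [Field K] [NumberField K] (𝔫 : Ideal (𝓞 K)) (τ : G K → ℂ) : Prop :=
  ∀ (R : FrameR K) (f : G K → ℂ), IsTestT 𝔫 τ f →
    ∃ C : ℝ, ∀ φ : G K → ℂ, IsCuspT 𝔫 τ R.r φ →
      ∀ x : G K, ‖conv R.F f φ x‖ ≤ C * Real.sqrt (nsq R.F φ)

/-- `KillsConstTerms` for the class. -/
def KillsConstTermsT (𝔫 : Ideal (𝓞 K)) (τ : G K → ℂ) (R : FrameR K) (f : G K → ℂ) : Prop :=
  ∀ ψ Ψ : G K → ℂ, IsAutT 𝔫 τ R.r ψ → IsConstTerm ψ Ψ → ∀ x : G K, conv R.F f Ψ x = 0

/-- `GPSKill` for the class. -/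
def GPSKillT (K : Type) [Field K] [NumberField K] (𝔫 : Ideal (𝓞 K)) (τ : G K → ℂ) : Prop :=
  ∀ (R : FrameR K) (f : G K → ℂ), IsTestT 𝔫 τ f → KillsConstTermsT 𝔫 τ R f →
    ∃ C : ℝ, ∀ ψ : G K → ℂ, IsAutT 𝔫 τ R.r ψ →
      ∀ x : G K, ‖conv R.F f ψ x‖ ≤ C * Real.sqrt (nsq R.F ψ)

/-- `HSBound` for the class. -/
def HSBoundT (K : Type) [Field K] [NumberField K] (𝔫 : Ideal (𝓞 K)) (τ : G K → ℂ) : Prop :=
  ∀ (R : FrameR K) (f : G K → ℂ), IsTestT 𝔫 τ f →
    ∃ C : ℝ, ∀ (n : ℕ) (φ : Fin n → G K → ℂ), (∀ i, IsCuspT 𝔫 τ R.r (φ i)) →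
      (∀ i j, pair R.F (φ i) (φ j) = if i = j then 1 else 0) →
      ∑ i, nsq R.F (conv R.F f (φ i)) ≤ C

/-- `HSKill` for the class (= `EK_HilbertSchmidt` of the T5 interface). -/
def HSKillT (K : Type) [Field K] [NumberField K] (𝔫 : Ideal (𝓞 K)) (τ : G K → ℂ) : Prop :=
  ∀ (R : FrameR K) (f : G K → ℂ), IsTestT 𝔫 τ f → KillsConstTermsT 𝔫 τ R f →
    ∃ C : ℝ, ∀ (n : ℕ) (ψ : Fin n → G K → ℂ), (∀ i, IsAutT 𝔫 τ R.r (ψ i)) →
      (∀ i j, pair R.F (ψ i) (ψ j) = if i = j then 1 else 0) →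
      ∑ i, nsq R.F (conv R.F f (ψ i)) ≤ C

/-- `ConvRegular` for the class. -/
def ConvRegularT (K : Type) [Field K] [NumberField K] (𝔫 : Ideal (𝓞 K)) (τ : G K → ℂ) : Prop :=
  ∀ (R : FrameR K) (f : G K → ℂ), IsTestT 𝔫 τ f →
    ∀ φ : ℕ → G K → ℂ, (∀ k, IsCuspT 𝔫 τ R.r (φ k)) →
      (∀ ε : ℝ, 0 < ε → ∃ N : ℕ, ∀ k ≥ N, ∀ l ≥ N,
        nsq R.F (fun g => φ k g - φ l g) < ε) →
      ∃ ψ : G K → ℂ, IsCuspT 𝔫 τ R.r ψ ∧
        Filter.Tendsto (fun k => nsq R.F (fun g => conv R.F f (φ k) g - ψ g)) Filter.atTop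
          (nhds 0)

/-- `ApproxId` for the class. -/
def ApproxIdT (K : Type) [Field K] [NumberField K] (𝔫 : Ideal (𝓞 K)) (τ : G K → ℂ) : Prop :=
  ∀ (R : FrameR K) (φ : G K → ℂ), IsCuspT 𝔫 τ R.r φ → ∀ ε : ℝ, 0 < ε →
    ∃ f : G K → ℂ, IsSphTestT 𝔫 τ f ∧ adj f = f ∧
      nsq R.F (fun g => conv R.F f φ g - φ g) < ε

/-- `OpsGood` for the class. -/
def OpsGoodT (K : Type) [Field K] [NumberField K] (𝔫 : Ideal (𝓞 K)) (τ : G K → ℂ) : Prop :=
  ∀ R : FrameR K,
    (∀ T, IsOpT 𝔫 τ R.F T → ∀ φ : G K → ℂ, IsCuspT 𝔫 τ R.r φ → IsCuspT 𝔫 τ R.r (T φ)) ∧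
    (∀ T, IsOpT 𝔫 τ R.F T → ∀ (φ ψ : G K → ℂ) (c : ℂ), IsCuspT 𝔫 τ R.r φ →
      IsCuspT 𝔫 τ R.r ψ → T (fun g => φ g + c * ψ g) = fun g => T φ g + c * T ψ g) ∧
    (∀ T, IsOpT 𝔫 τ R.F T → ∃ C : ℝ, ∀ φ : G K → ℂ, IsCuspT 𝔫 τ R.r φ →
      nsq R.F (T φ) ≤ C * nsq R.F φ) ∧
    (∀ S T, IsOpT 𝔫 τ R.F S → IsOpT 𝔫 τ R.F T → ∀ φ : G K → ℂ, IsCuspT 𝔫 τ R.r φ →
      S (T φ) = T (S φ)) ∧
    (∀ T, IsOpT 𝔫 τ R.F T → ∃ T', IsOpT 𝔫 τ R.F T' ∧ ∀ φ ψ : G K → ℂ,
      IsCuspT 𝔫 τ R.r φ → IsCuspT 𝔫 τ R.r ψ → pair R.F (T φ) ψ = pair R.F φ (T' ψ))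

/-- `OpsAdj` for the class: explicit adjoints, the central shifts included. -/
def OpsAdjT (K : Type) [Field K] [NumberField K] (𝔫 : Ideal (𝓞 K)) (τ : G K → ℂ) : Prop :=
  ∀ R : FrameR K,
    (∀ v : HeightOneSpectrum (𝓞 K), ¬ v.asIdeal ∣ 𝔫 → ∀ z : G K, IsScalarUniformizerAt v z →
      ∀ φ ψ : G K → ℂ, IsCuspT 𝔫 τ R.r φ → IsCuspT 𝔫 τ R.r ψ →
        pair R.F (shift z φ) (shift z ψ) = pair R.F φ ψ) ∧
    (∀ (w : InfinitePlace K) (z : G K), IsArchPosScalar w z →
      ∀ φ ψ : G K → ℂ, IsCuspT 𝔫 τ R.r φ → IsCuspT 𝔫 τ R.r ψ →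
        pair R.F (shift z φ) (shift z ψ) = pair R.F φ ψ) ∧
    (∀ v : HeightOneSpectrum (𝓞 K), ¬ v.asIdeal ∣ 𝔫 → ∀ (H : Finset (G K)) (z : G K),
      IsHeckeCosetSystem v H → IsScalarUniformizerAt v z →
      ∀ φ ψ : G K → ℂ, IsCuspT 𝔫 τ R.r φ → IsCuspT 𝔫 τ R.r ψ →
        pair R.F (heckeSum H φ) ψ = pair R.F φ (shift z⁻¹ (heckeSum H ψ))) ∧
    (∀ w : InfinitePlace K, w.IsComplex → ∀ d : ℝ, 0 < d → ∀ Y : ℝ → ℝ → G K, IsSphereAt w d Y →
      ∀ φ ψ : G K → ℂ, IsCuspT 𝔫 τ R.r φ → IsCuspT 𝔫 τ R.r ψ →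
        pair R.F (sphereMean Y φ) ψ = pair R.F φ (sphereMean Y ψ)) ∧
    (∀ w : InfinitePlace K, w.IsReal → ∀ t : ℝ, 0 < t → ∀ (k : ℝ → G K) (a : G K),
      IsRotAt w k → IsTorusAt w t a →
      ∀ φ ψ : G K → ℂ, IsCuspT 𝔫 τ R.r φ → IsCuspT 𝔫 τ R.r ψ →
        pair R.F (circleMeanT τ k a φ) ψ = pair R.F φ (circleMeanT τ k a ψ))

/-! ## 3. The leaves for the class (registry `T2.21` -- `T2.35`) and the top -/

/-- Ray generators exist and frames exist. -/
def FrameRExists (K : Type) [Field K] [NumberField K] : Prop := Nonempty (FrameR K)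

/-- **T2.21** (`T`-form of T2.01). -/
def LeafT01 (K : Type) [Field K] [NumberField K] : Prop :=
  T1.T1Out K → FrameRExists K ∧
    ∀ (𝔫 : Ideal (𝓞 K)) (τ : G K → ℂ), 𝔫 ≠ ⊥ → IsKType τ → PairDefiniteT K 𝔫 τ

/-- **T2.22** (`T`-form of T2.02). -/
def LeafT02 (K : Type) [Field K] [NumberField K] : Prop :=
  T1.T1Out K → ∀ (𝔫 : Ideal (𝓞 K)) (τ : G K → ℂ), 𝔫 ≠ ⊥ → IsKType τ → ConvCuspT K 𝔫 τ

/-- **T2.23** (`T`-form of T2.03): THE ESTIMATE. -/
def LeafT03 (K : Type) [Field K] [NumberField K] : Prop :=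
  T1.T1Out K → ∀ (𝔫 : Ideal (𝓞 K)) (τ : G K → ℂ), 𝔫 ≠ ⊥ → IsKType τ → GPSCoreT K 𝔫 τ

/-- **T2.33** (`T`-form of T2.13). -/
def LeafT13 (K : Type) [Field K] [NumberField K] : Prop :=
  T1.T1Out K → ∀ (𝔫 : Ideal (𝓞 K)) (τ : G K → ℂ), 𝔫 ≠ ⊥ → IsKType τ →
    GPSCoreT K 𝔫 τ → GPST K 𝔫 τ ∧ GPSKillT K 𝔫 τ

/-- **T2.24** (`T`-form of T2.04). -/
def LeafT04 (K : Type) [Field K] [NumberField K] : Prop :=
  T1.T1Out K → ∀ (𝔫 : Ideal (𝓞 K)) (τ : G K → ℂ), 𝔫 ≠ ⊥ → IsKType τ →
    (GPST K 𝔫 τ → HSBoundT K 𝔫 τ) ∧ (GPSKillT K 𝔫 τ → HSKillT K 𝔫 τ)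

/-- **T2.25** (`T`-form of T2.05). -/
def LeafT05 (K : Type) [Field K] [NumberField K] : Prop :=
  T1.T1Out K → ∀ (𝔫 : Ideal (𝓞 K)) (τ : G K → ℂ), 𝔫 ≠ ⊥ → IsKType τ →
    PairDefiniteT K 𝔫 τ → ConvCuspT K 𝔫 τ → GPST K 𝔫 τ → ConvRegularT K 𝔫 τ

/-- **T2.26** (`T`-form of T2.06). -/
def LeafT06 (K : Type) [Field K] [NumberField K] : Prop :=
  T1.T1Out K → ∀ (𝔫 : Ideal (𝓞 K)) (τ : G K → ℂ), 𝔫 ≠ ⊥ → IsKType τ →
    PairDefiniteT K 𝔫 τ → ConvCuspT K 𝔫 τ → ApproxIdT K 𝔫 τ

/-- **T2.27** (`T`-form of T2.07). -/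
def LeafT07 (K : Type) [Field K] [NumberField K] : Prop :=
  T1.T1Out K → ∀ (𝔫 : Ideal (𝓞 K)) (τ : G K → ℂ), 𝔫 ≠ ⊥ → IsKType τ →
    PairDefiniteT K 𝔫 τ → ConvCuspT K 𝔫 τ → OpsGoodT K 𝔫 τ ∧ OpsAdjT K 𝔫 τ

/-- **T2.29** (`T`-form of T2.09): assembly. -/
def LeafT09 (K : Type) [Field K] [NumberField K] : Prop :=
  T1.T1Out K → AbstractSpectral → ∀ (𝔫 : Ideal (𝓞 K)) (τ : G K → ℂ), 𝔫 ≠ ⊥ → IsKType τ →
    PairDefiniteT K 𝔫 τ → ConvCuspT K 𝔫 τ → HSBoundT K 𝔫 τ → ConvRegularT K 𝔫 τ →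
    ApproxIdT K 𝔫 τ → OpsGoodT K 𝔫 τ → OpsAdjT K 𝔫 τ → CuspSpecT K 𝔫 τ

/-- The invariance of A0 (positive scalars at every infinite place) implies the invariance under
the ray generator: `r` is the product of its local components. -/
def RayOfArch (K : Type) [Field K] [NumberField K] : Prop :=
  ∀ φ : G K → ℂ,
    (∀ (w : InfinitePlace K) (z : G K), IsArchPosScalar w z → ∀ g : G K, φ (g * z) = φ g) →
    ∀ r : G K, IsRayGen r → ∀ g : G K, φ (g * r) = φ g

/-- **T2.34** the ray generator exists and is a product of local scalars.  (≈ 0.4k lines; assets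
helper849 `locInf849`, helper729 `rayIdele729`.) -/
def LeafT14 (K : Type) [Field K] [NumberField K] : Prop :=
  (∃ r : G K, IsRayGen r) ∧ RayOfArch K

/-- **T2.35** back to the A0 class: the members of a basis of the class `(𝔫, trivType, r)` with
trivial central characters form a basis of the class of `Spec.lean`.  (≈ 0.8k lines.) -/
def LeafT15 (K : Type) [Field K] [NumberField K] : Prop :=
  T1.T1Out K → LeafT14 K → ∀ 𝔫 : Ideal (𝓞 K), 𝔫 ≠ ⊥ → OpsAdjT K 𝔫 trivType →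
    CuspSpecT K 𝔫 trivType → CuspSpec K 𝔫

/-- ALL SUB-LEAVES of `CuspSpecT`. -/
structure LeavesT (K : Type) [Field K] [NumberField K] : Prop where
  l01 : LeafT01 K
  l02 : LeafT02 K
  l03 : LeafT03 K
  l04 : LeafT04 K
  l05 : LeafT05 K
  l06 : LeafT06 K
  l07 : LeafT07 K
  l08 : Leaf08
  l09 : LeafT09 K
  l13 : LeafT13 K

/-- **TOP, class of T5**: the discreteness of the cuspidal spectrum from the leaves. -/
theorem top_cuspSpecT (K : Type) [Field K] [NumberField K] (L : LeavesT K) (hT1 : T1.T1Out K)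
    (𝔫 : Ideal (𝓞 K)) (τ : G K → ℂ) (h𝔫 : 𝔫 ≠ ⊥) (hτ : IsKType τ) : CuspSpecT K 𝔫 τ := by
  have hP : PairDefiniteT K 𝔫 τ := (L.l01 hT1).2 𝔫 τ h𝔫 hτ
  have hC : ConvCuspT K 𝔫 τ := L.l02 hT1 𝔫 τ h𝔫 hτ
  have hG : GPST K 𝔫 τ := (L.l13 hT1 𝔫 τ h𝔫 hτ (L.l03 hT1 𝔫 τ h𝔫 hτ)).1
  have hO := L.l07 hT1 𝔫 τ h𝔫 hτ hP hC
  exact L.l09 hT1 L.l08 𝔫 τ h𝔫 hτ hP hC ((L.l04 hT1 𝔫 τ h𝔫 hτ).1 hG)
    (L.l05 hT1 𝔫 τ h𝔫 hτ hP hC hG) (L.l06 hT1 𝔫 τ h𝔫 hτ hP hC) hO.1 hO.2

/-- **TOP, class of T5**: the estimates. -/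
theorem top_gpsT (K : Type) [Field K] [NumberField K] (L : LeavesT K) (hT1 : T1.T1Out K)
    (𝔫 : Ideal (𝓞 K)) (τ : G K → ℂ) (h𝔫 : 𝔫 ≠ ⊥) (hτ : IsKType τ) :
    FrameRExists K ∧ PairDefiniteT K 𝔫 τ ∧ ConvCuspT K 𝔫 τ ∧ GPSCoreT K 𝔫 τ ∧ GPST K 𝔫 τ ∧
      HSBoundT K 𝔫 τ ∧ ConvRegularT K 𝔫 τ ∧ GPSKillT K 𝔫 τ ∧ HSKillT K 𝔫 τ := by
  have hP : PairDefiniteT K 𝔫 τ := (L.l01 hT1).2 𝔫 τ h𝔫 hτ
  have hC : ConvCuspT K 𝔫 τ := L.l02 hT1 𝔫 τ h𝔫 hτ
  have hCore : GPSCoreT K 𝔫 τ := L.l03 hT1 𝔫 τ h𝔫 hτ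
  have hG := L.l13 hT1 𝔫 τ h𝔫 hτ hCore
  have h4 := L.l04 hT1 𝔫 τ h𝔫 hτ
  exact ⟨(L.l01 hT1).1, hP, hC, hCore, hG.1, h4.1 hG.1, L.l05 hT1 𝔫 τ h𝔫 hτ hP hC hG.1, hG.2,
    h4.2 hG.2⟩

/-! ## 4. Back to the A0 class (PROVED reductions) -/

theorem isKType_triv : IsKType (trivType : G K → ℂ) :=
  ⟨fun _ _ _ => by simp [trivType], fun _ _ _ _ _ => by simp [trivType],
    fun _ => continuousOn_const⟩

/-- A cusp function of `Spec.lean` is a cusp function of the class `(𝔫, trivType, r)`. -/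
theorem isCuspT_of_isCuspFn (hray : RayOfArch K) {𝔫 : Ideal (𝓞 K)} {φ : G K → ℂ}
    (h : IsCuspFn 𝔫 φ) {r : G K} (hr : IsRayGen r) : IsCuspT 𝔫 trivType r φ :=
  ⟨⟨h.cont, h.bdd, h.left_inv, h.level_inv,
      fun w k hk g => by simpa [trivType] using h.arch_compact w k hk g,
      hray φ h.arch_scalar r hr⟩, h.cuspidal⟩

/-- A test function of `Spec.lean` is a test function of trivial type. -/
theorem isTestT_of_isTestFn {𝔫 : Ideal (𝓞 K)} {f : G K → ℂ} (h : IsTestFn 𝔫 f) :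
    IsTestT 𝔫 trivType f :=
  ⟨h.cont, h.smooth, h.cpt, h.level_right, h.level_left,
    fun w k hk g => by simpa [trivType] using h.arch_right w k hk g,
    fun w k hk g => by simpa [trivType] using h.arch_left w k hk g⟩

/-- `GPS` of `Spec.lean` from `GPST` at the trivial type. -/
theorem gps_of_gpsT (h14 : LeafT14 K) {𝔫 : Ideal (𝓞 K)} (h : GPST K 𝔫 trivType) :
    GPS K 𝔫 := by
  intro F f hf
  obtain ⟨r, hr⟩ := h14.1
  obtain ⟨C, hC⟩ := h ⟨F, r, hr⟩ f (isTestT_of_isTestFn hf)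
  exact ⟨C, fun φ hφ x => hC φ (isCuspT_of_isCuspFn h14.2 hφ hr) x⟩

/-- `HSBound` of `Spec.lean` from `HSBoundT` at the trivial type. -/
theorem hsBound_of_hsBoundT (h14 : LeafT14 K) {𝔫 : Ideal (𝓞 K)} (h : HSBoundT K 𝔫 trivType) :
    HSBound K 𝔫 := by
  intro F f hf
  obtain ⟨r, hr⟩ := h14.1
  obtain ⟨C, hC⟩ := h ⟨F, r, hr⟩ f (isTestT_of_isTestFn hf)
  exact ⟨C, fun n φ hφ ho => hC n φ (fun i => isCuspT_of_isCuspFn h14.2 (hφ i) hr) ho⟩

end Fermat.Agent.LT.T2

end

end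
-- ===== PACK-END LT/T2/SpecTau.lean

-- ===== PACK-BEGIN LT/T2/H627/Meas.lean
section






/-!
# Row LT, tower T2, leaf T2.13 (helper627): integrals over compact sets against the frame

For a compact `Q ⊆ GL₂(𝔸_K)` there is `M` with `∫_Q h ≤ M ∫_D h` for every measurable `h ≥ 0`
which is left `GL₂(K)`-invariant and right `Z⁺`-invariant.  OFF-MAIN.
-/

set_option autoImplicit false
set_option linter.unusedSectionVars false

open IsDedekindDomain NumberField MeasureTheory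
open Fermat.Agent.LT.H556.A0
open scoped Classical ENNReal Pointwise

noncomputable section

namespace Fermat.Agent.LT.T2.H627

variable {K : Type} [Field K] [NumberField K]

attribute [local instance] Fermat.Agent.LT.T2.borelG

/-- The Borel space structure of `G K` (for the local instance `T2.borelG`). -/
theorem borelSpaceG627 : BorelSpace (G K) := ⟨rfl⟩

attribute [local instance] borelSpaceG627

example : IsTopologicalGroup (G K) := inferInstance
example : MeasurableMul (G K) := inferInstance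
example : MeasurableInv (G K) := inferInstance

theorem countable_K627 : Countable K := by
  have : Module.Finite ℚ K := inferInstance
  let b := Module.finBasis ℚ K
  exact b.equivFun.toEquiv.injective.countable

theorem countable_GL627 : Countable (GL (Fin 2) K) := by
  have := countable_K627 (K := K)
  have : Countable (Matrix (Fin 2) (Fin 2) K) := (inferInstance : Countable (Fin 2 → Fin 2 → K))
  exact Function.Injective.countable (f := fun g : GL (Fin 2) K => (g : Matrix (Fin 2) (Fin 2) K))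
    (fun _ _ h => Units.ext h)

theorem ratG_injective627 : Function.Injective (T1.ratG K) := by
  intro a b h
  apply Units.ext
  refine Matrix.ext fun i j => ?_
  have h1 := congrArg (fun g : G K => (g : Matrix (Fin 2) (Fin 2) (Adl K)) i j) h
  exact NumberField.AdeleRing.algebraMap_injective (𝓞 K) K h1

theorem finite_rat_inter627 (hD : T1.DiscreteC K) {C : Set (G K)} (hC : IsCompact C) :
    {γ : GL (Fin 2) K | T1.ratG K γ ∈ C}.Finite := by
  have hcl : IsClosed (T1.Gam K : Set (G K)) := hD.2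
  have hdisc : DiscreteTopology (T1.Gam K : Set (G K)) := hD.1
  have h1 : IsCompact ((T1.Gam K : Set (G K)) ∩ C) := hC.inter_left hcl
  have h2 : IsDiscrete ((T1.Gam K : Set (G K)) ∩ C : Set (G K)) :=
    (isDiscrete_iff_discreteTopology.mpr hdisc).mono Set.inter_subset_left
  have h3 : ((T1.Gam K : Set (G K)) ∩ C).Finite := h1.finite h2
  have h4 : {γ : GL (Fin 2) K | T1.ratG K γ ∈ C} ⊆ (T1.ratG K) ⁻¹' ((T1.Gam K : Set (G K)) ∩ C) :=
    fun γ hγ => ⟨⟨γ, rfl⟩, hγ⟩
  exact (h3.preimage (Set.injOn_of_injective ratG_injective627)).subset h4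

/-- Change of variables `y = γ g` in one piece. -/
theorem piece_gen627 (F : Frame K) {Q E : Set (G K)} (hQm : MeasurableSet Q)
    (hEm : MeasurableSet E) (h : G K → ℝ≥0∞)
    (a : G K) (hinv : ∀ g : G K, h (a * g) = h g) :
    ∫⁻ g in Q ∩ (fun g => a * g) ⁻¹' E, h g ∂F.μ =
      ∫⁻ y in E, ((fun y => a⁻¹ * y) ⁻¹' Q).indicator h y ∂F.μ := by
  have := F.haar
  have hAm : MeasurableSet (Q ∩ (fun g => a * g) ⁻¹' E) :=
    hQm.inter ((measurable_const_mul a) hEm)
  rw [← lintegral_indicator hAm, ← lintegral_indicator hEm,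
    ← lintegral_mul_left_eq_self (E.indicator (((fun y => a⁻¹ * y) ⁻¹' Q).indicator h)) a]
  refine lintegral_congr fun g => ?_
  have e1 : (a * g ∈ (fun y => a⁻¹ * y) ⁻¹' Q) ↔ g ∈ Q := by
    rw [Set.mem_preimage, inv_mul_cancel_left]
  by_cases hg1 : g ∈ Q <;> by_cases hg2 : a * g ∈ E
  · rw [Set.indicator_of_mem (show g ∈ Q ∩ (fun g => a * g) ⁻¹' E from ⟨hg1, hg2⟩),
      Set.indicator_of_mem hg2, Set.indicator_of_mem (e1.mpr hg1), hinv]
  · rw [Set.indicator_of_notMem (fun hh' : g ∈ Q ∩ (fun g => a * g) ⁻¹' E => hg2 hh'.2),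
      Set.indicator_of_notMem hg2]
  · rw [Set.indicator_of_notMem (fun hh' : g ∈ Q ∩ (fun g => a * g) ⁻¹' E => hg1 hh'.1),
      Set.indicator_of_mem hg2, Set.indicator_of_notMem (fun hh' => hg1 (e1.mp hh'))]
  · rw [Set.indicator_of_notMem (fun hh' : g ∈ Q ∩ (fun g => a * g) ⁻¹' E => hg2 hh'.2),
      Set.indicator_of_notMem hg2]

theorem piece_eq627 (F : Frame K) {Q : Set (G K)} (hQm : MeasurableSet Q) (h : G K → ℝ≥0∞)
    (a : G K) (hinv : ∀ g : G K, h (a * g) = h g) :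
    ∫⁻ g in Q ∩ (fun g => a * g) ⁻¹' F.D, h g ∂F.μ =
      ∫⁻ y in F.D, ((fun y => a⁻¹ * y) ⁻¹' Q).indicator h y ∂F.μ :=
  piece_gen627 F hQm F.meas h a hinv

/-- The multiplicity of the translates of a compact set. -/
theorem mult_le627 {Q : Set (G K)} (hfin : {δ : GL (Fin 2) K | T1.ratG K δ ∈ Q * Q⁻¹}.Finite)
    (h : G K → ℝ≥0∞) (y : G K) :
    ∑' γ : GL (Fin 2) K, ((fun y => (T1.ratG K γ)⁻¹ * y) ⁻¹' Q).indicator h y ≤
      (hfin.toFinset.card : ℝ≥0∞) * h y := by
  by_cases hy : ∃ γ₀ : GL (Fin 2) K, (T1.ratG K γ₀)⁻¹ * y ∈ Q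
  · obtain ⟨γ₀, hγ₀⟩ := hy
    have hsupp : ∀ γ ∉ hfin.toFinset.image (fun δ => γ₀ * δ⁻¹),
        ((fun y => (T1.ratG K γ)⁻¹ * y) ⁻¹' Q).indicator h y = 0 := by
      intro γ hγ
      by_contra hne
      have hyB : (T1.ratG K γ)⁻¹ * y ∈ Q := by
        by_contra hyn
        exact hne (Set.indicator_of_notMem
          (show y ∉ (fun y => (T1.ratG K γ)⁻¹ * y) ⁻¹' Q from hyn) h)
      apply hγ
      rw [Finset.mem_image]
      refine ⟨γ⁻¹ * γ₀, ?_, ?_⟩
      · rw [Set.Finite.mem_toFinset]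
        show T1.ratG K (γ⁻¹ * γ₀) ∈ Q * Q⁻¹
        rw [map_mul, map_inv]
        refine ⟨(T1.ratG K γ)⁻¹ * y, hyB, ((T1.ratG K γ₀)⁻¹ * y)⁻¹, Set.inv_mem_inv.mpr hγ₀, ?_⟩
        show (T1.ratG K γ)⁻¹ * y * ((T1.ratG K γ₀)⁻¹ * y)⁻¹ = (T1.ratG K γ)⁻¹ * T1.ratG K γ₀
        rw [mul_inv_rev, inv_inv, mul_assoc, ← mul_assoc y, mul_inv_cancel, one_mul]
      · show γ₀ * (γ⁻¹ * γ₀)⁻¹ = γ
        rw [mul_inv_rev, inv_inv, ← mul_assoc, mul_inv_cancel, one_mul]
    rw [tsum_eq_sum hsupp]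
    calc ∑ γ ∈ hfin.toFinset.image (fun δ => γ₀ * δ⁻¹),
          ((fun y => (T1.ratG K γ)⁻¹ * y) ⁻¹' Q).indicator h y
          ≤ ∑ _γ ∈ hfin.toFinset.image (fun δ => γ₀ * δ⁻¹), h y :=
          Finset.sum_le_sum fun γ _ => Set.indicator_le_self _ _ _
      _ = ((hfin.toFinset.image (fun δ => γ₀ * δ⁻¹)).card : ℝ≥0∞) * h y := by
          rw [Finset.sum_const, nsmul_eq_mul]
      _ ≤ (hfin.toFinset.card : ℝ≥0∞) * h y := by
          have hc : ((hfin.toFinset.image (fun δ => γ₀ * δ⁻¹)).card : ℝ≥0∞) ≤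
              hfin.toFinset.card := by
            exact_mod_cast Finset.card_image_le
          exact mul_le_mul' hc le_rfl
  · have : ∀ γ : GL (Fin 2) K, ((fun y => (T1.ratG K γ)⁻¹ * y) ⁻¹' Q).indicator h y = 0 :=
      fun γ => Set.indicator_of_notMem
        (show y ∉ (fun y => (T1.ratG K γ)⁻¹ * y) ⁻¹' Q from fun hγ => hy ⟨γ, hγ⟩) h
    simp [this]

/-- **Step A**: the part of a compact set inside the slab. -/
theorem lintegral_slab_le627 (F : Frame K) (hT2 : T2Space (G K)) (hD : T1.DiscreteC K)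
    {Q : Set (G K)} (hQ : IsCompact Q) :
    ∃ M : ℕ, ∀ h : G K → ℝ≥0∞, Measurable h →
      (∀ (γ : GL (Fin 2) K) (g : G K), h (T1.ratG K γ * g) = h g) →
      ∫⁻ g in Q ∩ T1.slab K, h g ∂F.μ ≤ M * ∫⁻ g in F.D, h g ∂F.μ := by
  have := countable_GL627 (K := K)
  have hQm : MeasurableSet Q := hQ.isClosed.measurableSet
  have hfin : {δ : GL (Fin 2) K | T1.ratG K δ ∈ Q * Q⁻¹}.Finite :=
    finite_rat_inter627 hD (hQ.mul hQ.inv)
  refine ⟨hfin.toFinset.card, fun h hh hinv => ?_⟩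
  have hcov : Q ∩ T1.slab K ⊆ ⋃ γ : GL (Fin 2) K, Q ∩ (fun g => T1.ratG K γ * g) ⁻¹' F.D := by
    rintro g ⟨hgQ, hgs⟩
    obtain ⟨γ, hγ, -⟩ := F.strict g hgs
    exact Set.mem_iUnion.mpr ⟨γ, hgQ, hγ⟩
  have h1 : ∫⁻ g in Q ∩ T1.slab K, h g ∂F.μ ≤
      ∑' γ : GL (Fin 2) K, ∫⁻ g in Q ∩ (fun g => T1.ratG K γ * g) ⁻¹' F.D, h g ∂F.μ :=
    (lintegral_mono_set hcov).trans (lintegral_iUnion_le _ _)
  have h3 : ∑' γ : GL (Fin 2) K,
      ∫⁻ y in F.D, ((fun y => (T1.ratG K γ)⁻¹ * y) ⁻¹' Q).indicator h y ∂F.μ =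
      ∫⁻ y in F.D, ∑' γ : GL (Fin 2) K,
        ((fun y => (T1.ratG K γ)⁻¹ * y) ⁻¹' Q).indicator h y ∂F.μ := by
    rw [lintegral_tsum]
    exact fun γ => (hh.indicator ((measurable_const_mul _) hQm)).aemeasurable
  calc ∫⁻ g in Q ∩ T1.slab K, h g ∂F.μ
      ≤ ∑' γ : GL (Fin 2) K, ∫⁻ g in Q ∩ (fun g => T1.ratG K γ * g) ⁻¹' F.D, h g ∂F.μ := h1
    _ = ∑' γ : GL (Fin 2) K,
          ∫⁻ y in F.D, ((fun y => (T1.ratG K γ)⁻¹ * y) ⁻¹' Q).indicator h y ∂F.μ :=
        tsum_congr fun γ => piece_eq627 F hQm h _ (hinv γ)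
    _ = ∫⁻ y in F.D, ∑' γ : GL (Fin 2) K,
          ((fun y => (T1.ratG K γ)⁻¹ * y) ⁻¹' Q).indicator h y ∂F.μ := h3
    _ ≤ ∫⁻ y in F.D, (hfin.toFinset.card : ℝ≥0∞) * h y ∂F.μ :=
        lintegral_mono (mult_le627 hfin h)
    _ = (hfin.toFinset.card : ℝ≥0∞) * ∫⁻ y in F.D, h y ∂F.μ := by
        rw [lintegral_const_mul _ hh]

theorem measurableSet_slab627 (hN : T1.AdNormC K) : MeasurableSet (T1.slab K) := by
  have h : T1.slab K = nd627 ⁻¹' Set.Ico 1 2 := rfl
  rw [h]
  exact (continuous_nd627 hN).measurable measurableSet_Ico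

/-- The shift into the slab `2^k ≤ ‖det‖ < 2^(k+1)`. -/
def shift627 (K : Type) [Field K] [NumberField K] (k : ℤ) : G K :=
  zpos627 (-(k * Real.log 2) / (2 * Module.finrank ℚ K))

theorem nd627_shift (hN : T1.AdNormC K) (k : ℤ) : nd627 (shift627 K k) = ((2 : ℝ) ^ k)⁻¹ := by
  unfold shift627
  rw [nd627_zpos hN]
  have hn : (0 : ℝ) < Module.finrank ℚ K := by exact_mod_cast Module.finrank_pos
  have e : 2 * (Module.finrank ℚ K : ℝ) * (-(k * Real.log 2) / (2 * Module.finrank ℚ K)) =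
      -(k * Real.log 2) := by
    field_simp
  rw [e, Real.exp_neg, mul_comm, Real.exp_mul, Real.exp_log (by norm_num), Real.rpow_intCast]

/-- One shifted slab. -/
theorem lintegral_shift_le627 (F : Frame K) (hT2 : T2Space (G K)) (hD : T1.DiscreteC K)
    (hN : T1.AdNormC K) {Q : Set (G K)} (hQ : IsCompact Q) (a : G K) :
    ∃ M : ℕ, ∀ h : G K → ℝ≥0∞, Measurable h →
      (∀ (γ : GL (Fin 2) K) (g : G K), h (T1.ratG K γ * g) = h g) →
      (∀ g : G K, h (a * g) = h g) →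
      ∫⁻ g in Q ∩ (fun g => a * g) ⁻¹' T1.slab K, h g ∂F.μ ≤ M * ∫⁻ g in F.D, h g ∂F.μ := by
  have hQm : MeasurableSet Q := hQ.isClosed.measurableSet
  have hQ' : IsCompact ((fun y => a⁻¹ * y) ⁻¹' Q) := by
    have e : (fun y => a⁻¹ * y) ⁻¹' Q = (fun g => a * g) '' Q := by
      ext y
      constructor
      · intro hy
        exact ⟨a⁻¹ * y, hy, mul_inv_cancel_left a y⟩
      · rintro ⟨g, hg, rfl⟩
        show a⁻¹ * (a * g) ∈ Q
        rwa [inv_mul_cancel_left]
    rw [e]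
    exact hQ.image (continuous_const_mul a)
  have hQ'm : MeasurableSet ((fun y => a⁻¹ * y) ⁻¹' Q) := hQ'.isClosed.measurableSet
  obtain ⟨M, hM⟩ := lintegral_slab_le627 F hT2 hD hQ'
  refine ⟨M, fun h hh hinv ha => ?_⟩
  rw [piece_gen627 F hQm (measurableSet_slab627 hN) h a ha, lintegral_indicator hQ'm,
    Measure.restrict_restrict hQ'm]
  exact hM h hh hinv

theorem lintegral_biUnion_finset_le627 {α ι : Type*} [MeasurableSpace α] (μ : Measure α)
    (t : Finset ι) (s : ι → Set α) (f : α → ℝ≥0∞) :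
    ∫⁻ a in ⋃ i ∈ t, s i, f a ∂μ ≤ ∑ i ∈ t, ∫⁻ a in s i, f a ∂μ := by
  induction t using Finset.induction_on with
  | empty => simp
  | insert a t ha ih =>
    rw [Finset.set_biUnion_insert, Finset.sum_insert ha]
    exact (lintegral_union_le f _ _).trans (add_le_add le_rfl ih)

/-- **Step B**: a compact set against the frame. -/
theorem lintegral_compact_le627 (F : Frame K) (hT2 : T2Space (G K)) (hD : T1.DiscreteC K)
    (hN : T1.AdNormC K) {Q : Set (G K)} (hQ : IsCompact Q) :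
    ∃ M : ℕ, ∀ h : G K → ℝ≥0∞, Measurable h →
      (∀ (γ : GL (Fin 2) K) (g : G K), h (T1.ratG K γ * g) = h g) →
      (∀ (t : ℝ) (g : G K), h (g * zpos627 t) = h g) →
      ∫⁻ g in Q, h g ∂F.μ ≤ M * ∫⁻ g in F.D, h g ∂F.μ := by
  have hUo : ∀ k : ℤ, IsOpen (nd627 (K := K) ⁻¹' Set.Ioo ((2 : ℝ) ^ (k - 1)) ((2 : ℝ) ^ (k + 1))) :=
    fun k => (continuous_nd627 hN).isOpen_preimage _ isOpen_Ioo
  have hcov : Q ⊆ ⋃ k : ℤ, nd627 (K := K) ⁻¹' Set.Ioo ((2 : ℝ) ^ (k - 1)) ((2 : ℝ) ^ (k + 1)) := by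
    intro g _
    obtain ⟨k, hk⟩ := exists_mem_Ico_zpow (nd627_pos hN g) (by norm_num : (1 : ℝ) < 2)
    refine Set.mem_iUnion.mpr ⟨k, ?_, hk.2⟩
    exact lt_of_lt_of_le (zpow_lt_zpow_right₀ (by norm_num) (by omega)) hk.1
  obtain ⟨t, ht⟩ := hQ.elim_finite_subcover _ hUo hcov
  have hmem : ∀ (k : ℤ) (g : G K), (2 : ℝ) ^ k ≤ nd627 g → nd627 g < (2 : ℝ) ^ (k + 1) →
      shift627 K k * g ∈ T1.slab K := by
    intro k g h1 h2
    have hpos : (0 : ℝ) < 2 ^ k := zpow_pos (by norm_num) k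
    rw [mem_slab_iff627, nd627_mul hN, nd627_shift hN]
    constructor
    · rw [le_inv_mul_iff₀ hpos, mul_one]; exact h1
    · rw [inv_mul_lt_iff₀ hpos, ← zpow_add_one₀ (by norm_num : (2 : ℝ) ≠ 0)]; exact h2
  have hW : ∀ k : ℤ, Q ∩ nd627 (K := K) ⁻¹' Set.Ioo ((2 : ℝ) ^ (k - 1)) ((2 : ℝ) ^ (k + 1)) ⊆
      (Q ∩ (fun g => shift627 K (k - 1) * g) ⁻¹' T1.slab K) ∪
        (Q ∩ (fun g => shift627 K k * g) ⁻¹' T1.slab K) := by
    rintro k g ⟨hgQ, hg1, hg2⟩
    by_cases hc : nd627 g < (2 : ℝ) ^ k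
    · left
      refine ⟨hgQ, hmem (k - 1) g hg1.le ?_⟩
      rw [sub_add_cancel]; exact hc
    · right
      exact ⟨hgQ, hmem k g (not_lt.mp hc) hg2⟩
  choose M hM using fun k : ℤ => lintegral_shift_le627 F hT2 hD hN hQ (shift627 K k)
  refine ⟨∑ k ∈ t, (M (k - 1) + M k), fun h hh hinv hz => ?_⟩
  have hsh : ∀ (k : ℤ) (g : G K), h (shift627 K k * g) = h g := by
    intro k g
    unfold shift627
    rw [zpos627_comm]
    exact hz _ g
  have hsub : Q ⊆ ⋃ k ∈ t, ((Q ∩ (fun g => shift627 K (k - 1) * g) ⁻¹' T1.slab K) ∪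
        (Q ∩ (fun g => shift627 K k * g) ⁻¹' T1.slab K)) := by
    intro g hg
    obtain ⟨k, hk, hgk⟩ := Set.mem_iUnion₂.mp (ht hg)
    exact Set.mem_iUnion₂.mpr ⟨k, hk, hW k ⟨hg, hgk⟩⟩
  calc ∫⁻ g in Q, h g ∂F.μ
      ≤ ∫⁻ g in ⋃ k ∈ t, ((Q ∩ (fun g => shift627 K (k - 1) * g) ⁻¹' T1.slab K) ∪
        (Q ∩ (fun g => shift627 K k * g) ⁻¹' T1.slab K)), h g ∂F.μ := lintegral_mono_set hsub
    _ ≤ ∑ k ∈ t, ∫⁻ g in ((Q ∩ (fun g => shift627 K (k - 1) * g) ⁻¹' T1.slab K) ∪
        (Q ∩ (fun g => shift627 K k * g) ⁻¹' T1.slab K)), h g ∂F.μ :=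
        lintegral_biUnion_finset_le627 _ _ _ _
    _ ≤ ∑ k ∈ t, ((M (k - 1) : ℝ≥0∞) * ∫⁻ g in F.D, h g ∂F.μ +
          (M k : ℝ≥0∞) * ∫⁻ g in F.D, h g ∂F.μ) := by
        refine Finset.sum_le_sum fun k _ => ?_
        exact (lintegral_union_le h _ _).trans
          (add_le_add (hM (k - 1) h hh hinv (hsh (k - 1))) (hM k h hh hinv (hsh k)))
    _ = ((∑ k ∈ t, (M (k - 1) + M k) : ℕ) : ℝ≥0∞) * ∫⁻ g in F.D, h g ∂F.μ := by
        push_cast
        rw [Finset.sum_mul]
        refine Finset.sum_congr rfl fun k _ => ?_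
        rw [add_mul]

end Fermat.Agent.LT.T2.H627

end

end
-- ===== PACK-END LT/T2/H627/Meas.lean

-- ===== PACK-BEGIN LT/T3/H276/GoodChar.lean
section




/-!
# Row LT, tower T3, leaf T3.01 (v2) `GoodCharExistsC` (helper276)

OFF-MAIN.  `goodCharExists276 : GoodCharExistsC K` for every number field `K`, unconditional:
the standard character `psi276 K` of `StdChar.lean` is NON-DEGENERATE and has conductor `𝒪_v` at
almost all finite places.

* `exists_den276`: the trace dual of `𝒪_K` has bounded denominators (`FractionalIdeal.dual`).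
* `exists_bad_trace276`: if `exp(-N) < v(D)` there is `ξ ∈ K`, integral away from `v`,
  `v(ξ) ≤ exp N`, with `Tr ξ ∉ ℤ` (partial fractions `exists_partial276` with principal part
  `π⁻ᴺ` at `v`).
* non-degeneracy at the infinite places: `y_w = 4⁻¹ x_w⁻¹`; at the finite places:
  `y_v = ξ x_v⁻¹`.
-/

set_option autoImplicit false
set_option linter.unusedSectionVars false

open IsDedekindDomain NumberField
open Fermat.Agent.LT.H556.A0
open scoped WithZero

noncomputable section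

namespace Fermat.Agent.LT.T3.H276

variable (K : Type) [Field K] [NumberField K]

/-! ## `e(t) = 1 ↔ t ∈ ℤ` -/

theorem fourierChar_eq_one_iff276 (t : ℝ) : Real.fourierChar t = 1 ↔ ∃ n : ℤ, t = n := by
  rw [Real.fourierChar_apply', Circle.exp_eq_one]
  have hpi : (2 * Real.pi) ≠ 0 := by positivity
  constructor
  · rintro ⟨n, hn⟩
    refine ⟨n, ?_⟩
    have : (2 * Real.pi) * t = (2 * Real.pi) * n := by rw [hn]; ring
    exact mul_left_cancel₀ hpi this
  · rintro ⟨n, rfl⟩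
    exact ⟨n, by ring⟩

/-! ## Bounded denominators of the trace dual -/

theorem exists_den276 : ∃ D : 𝓞 K, D ≠ 0 ∧ ∀ ξ : K,
    (∀ a : 𝓞 K, ∃ n : ℤ, Algebra.trace ℚ K (ξ * algebraMap (𝓞 K) K a) = (n : ℚ)) →
    ∃ r : 𝓞 K, algebraMap (𝓞 K) K D * ξ = algebraMap (𝓞 K) K r := by
  have h1 : (1 : FractionalIdeal (nonZeroDivisors (𝓞 K)) K) ≠ 0 := one_ne_zero
  obtain ⟨D, hD, hint⟩ :=
    (FractionalIdeal.dual ℤ ℚ (1 : FractionalIdeal (nonZeroDivisors (𝓞 K)) K)).isFractional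
  refine ⟨D, nonZeroDivisors.ne_zero hD, fun ξ hξ => ?_⟩
  have hmem : ξ ∈ FractionalIdeal.dual ℤ ℚ (1 : FractionalIdeal (nonZeroDivisors (𝓞 K)) K) := by
    rw [FractionalIdeal.mem_dual h1]
    intro a ha
    obtain ⟨a', rfl⟩ := (FractionalIdeal.mem_one_iff _).1 ha
    obtain ⟨n, hn⟩ := hξ a'
    exact ⟨n, by rw [Algebra.traceForm_apply, hn]; simp⟩
  obtain ⟨r, hr⟩ := hint ξ hmem
  exact ⟨r, by rw [hr, Algebra.smul_def]⟩

open IsDedekindDomain.HeightOneSpectrum in
theorem exists_bad_trace276 (D : 𝓞 K)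
    (hD : ∀ ξ : K,
      (∀ a : 𝓞 K, ∃ n : ℤ, Algebra.trace ℚ K (ξ * algebraMap (𝓞 K) K a) = (n : ℚ)) →
      ∃ r : 𝓞 K, algebraMap (𝓞 K) K D * ξ = algebraMap (𝓞 K) K r)
    (v : HeightOneSpectrum (𝓞 K)) (N : ℕ)
    (hN : WithZero.exp (-(N : ℤ)) < v.intValuation D) :
    ∃ ξ : K, v.valuation K ξ ≤ WithZero.exp (N : ℤ) ∧
      (∀ v' : HeightOneSpectrum (𝓞 K), v' ≠ v → v'.valuation K ξ ≤ 1) ∧
      ¬ ∃ n : ℤ, Algebra.trace ℚ K ξ = (n : ℚ) := by
  classical
  obtain ⟨π, hπ⟩ := v.valuation_exists_uniformizer K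
  have hy : v.valuation K ((π⁻¹) ^ N) = WithZero.exp (N : ℤ) := by
    rw [map_pow, map_inv₀, hπ, ← WithZero.exp_neg, neg_neg, ← WithZero.exp_nsmul]
    simp
  obtain ⟨ξ₀, h1, h2⟩ := exists_partial276 K {v} (fun _ => (π⁻¹) ^ N)
  have h1v := h1 v (Finset.mem_singleton_self v)
  have hNpos : (1 : ℤᵐ⁰) < WithZero.exp (N : ℤ) := by
    have h3 : v.intValuation D ≤ 1 := v.intValuation_le_one D
    have h4 : WithZero.exp (-(N : ℤ)) < WithZero.exp (0 : ℤ) := by
      rw [WithZero.exp_zero]; exact lt_of_lt_of_le hN h3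
    have h5 : (-(N : ℤ)) < 0 := WithZero.exp_lt_exp.1 h4
    rw [← WithZero.exp_zero, WithZero.exp_lt_exp]
    omega
  have hξ₀ : v.valuation K ξ₀ = WithZero.exp (N : ℤ) := by
    have h6 : v.valuation K (ξ₀ - (π⁻¹) ^ N) < v.valuation K ((π⁻¹) ^ N) := by
      rw [hy]; exact lt_of_le_of_lt h1v hNpos
    have h7 := Valuation.map_add_eq_of_lt_left (v.valuation K) h6
    rw [add_comm, sub_add_cancel] at h7
    rw [h7, hy]
  have hbig : (1 : ℤᵐ⁰) < v.valuation K (algebraMap (𝓞 K) K D * ξ₀) := by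
    rw [map_mul, valuation_of_algebraMap, hξ₀]
    have h8 : WithZero.exp (-(N : ℤ)) * WithZero.exp (N : ℤ) = 1 := by
      rw [← WithZero.exp_add]; simp
    rw [← h8]
    exact mul_lt_mul_of_pos_right hN (by simp)
  have hnot : ¬ ∀ a : 𝓞 K, ∃ n : ℤ,
      Algebra.trace ℚ K (ξ₀ * algebraMap (𝓞 K) K a) = (n : ℚ) := by
    intro hall
    obtain ⟨r, hr⟩ := hD ξ₀ hall
    rw [hr, valuation_of_algebraMap] at hbig
    exact absurd (v.intValuation_le_one r) (not_le.2 hbig)
  push Not at hnot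
  obtain ⟨a, ha⟩ := hnot
  refine ⟨ξ₀ * algebraMap (𝓞 K) K a, ?_, fun v' hv' => ?_, fun ⟨n, hn⟩ => ha n hn⟩
  · rw [map_mul, hξ₀]
    exact mul_le_of_le_one_right' (v.valuation_le_one a)
  · rw [map_mul]
    exact mul_le_one' (h2 v' (by simpa using hv')) (v'.valuation_le_one a)


/-! ## Local adeles -/

/-- The finite adele supported at `v` with component `t`. -/
def locFin276 (v : HeightOneSpectrum (𝓞 K)) (t : v.adicCompletion K) :
    FiniteAdeleRing (𝓞 K) K := by
  classical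
  exact ⟨Pi.single v t, by
    rw [Filter.eventually_cofinite]
    refine (Set.finite_singleton v).subset fun v' hv' => ?_
    by_contra hne
    apply hv'
    simp only [Set.mem_singleton_iff] at hne
    rw [Pi.single_eq_of_ne hne]
    exact zero_mem _⟩

theorem locFin_same276 (v : HeightOneSpectrum (𝓞 K)) (t : v.adicCompletion K) :
    locFin276 K v t v = t := by
  classical
  show (Pi.single v t : ∀ v' : HeightOneSpectrum (𝓞 K), v'.adicCompletion K) v = t
  exact Pi.single_eq_same v t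

theorem locFin_ne276 (v : HeightOneSpectrum (𝓞 K)) (t : v.adicCompletion K)
    (v' : HeightOneSpectrum (𝓞 K)) (h : v' ≠ v) : locFin276 K v t v' = 0 := by
  classical
  show (Pi.single v t : ∀ v' : HeightOneSpectrum (𝓞 K), v'.adicCompletion K) v' = 0
  exact Pi.single_eq_of_ne h t

theorem fin_mul_apply276 (x y : FiniteAdeleRing (𝓞 K) K) (v : HeightOneSpectrum (𝓞 K)) :
    (x * y) v = x v * y v := rfl

open IsDedekindDomain.HeightOneSpectrum in
theorem psiFin_locFin276 (v : HeightOneSpectrum (𝓞 K)) (ξ : K)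
    (hξ : ∀ v' : HeightOneSpectrum (𝓞 K), v' ≠ v → v'.valuation K ξ ≤ 1) :
    psiFin276 K (locFin276 K v (algebraMap K (v.adicCompletion K) ξ))
      = Real.fourierChar (((Algebra.trace ℚ K ξ : ℚ) : ℝ)) := by
  rw [psiFin_apply276]
  refine psiFinFun_eq276 K _ ξ (fun v' => ?_)
  by_cases h : v' = v
  · subst h
    rw [locFin_same276, sub_self]
    exact zero_mem _
  · rw [locFin_ne276 K v _ v' h, zero_sub]
    exact neg_mem ((algebraMap_mem_integers_iff276 K v' ξ).2 (hξ v' h))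

/-- The adele with infinite part `a` and finite part `b`. -/
def mkAdl276 (a : InfiniteAdeleRing K) (b : FiniteAdeleRing (𝓞 K) K) : Adl K :=
  (show InfiniteAdeleRing K × FiniteAdeleRing (𝓞 K) K from (a, b))

theorem mkAdl_fst276 (a : InfiniteAdeleRing K) (b : FiniteAdeleRing (𝓞 K) K) :
    (mkAdl276 K a b).1 = a := rfl

theorem mkAdl_snd276 (a : InfiniteAdeleRing K) (b : FiniteAdeleRing (𝓞 K) K) :
    (mkAdl276 K a b).2 = b := rfl

theorem adl_mul_fst276 (x y : Adl K) : (x * y).1 = x.1 * y.1 := rfl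

theorem adl_mul_snd276 (x y : Adl K) : (x * y).2 = x.2 * y.2 := rfl

theorem inf_mul_apply276 (y z : InfiniteAdeleRing K) (w : InfinitePlace K) :
    (y * z) w = y w * z w := rfl

/-! ## Non-degeneracy -/

open IsDedekindDomain.HeightOneSpectrum in
theorem psi_nonDeg276 : IsNonDeg K (psi276 K) := by
  classical
  intro x hx
  have hinf : x.1 = 0 := by
    funext w
    by_contra hw
    have hw' : x.1 w ≠ 0 := hw
    let yInf : InfiniteAdeleRing K := Pi.single w ((4 : w.Completion)⁻¹ * (x.1 w)⁻¹)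
    have hy := hx (mkAdl276 K yInf 0)
    rw [psi_apply276, adl_mul_fst276, adl_mul_snd276, mkAdl_fst276, mkAdl_snd276, mul_zero,
      AddChar.map_zero_eq_one, mul_one, psiInf_apply276, fourierChar_eq_one_iff276] at hy
    obtain ⟨n, hn⟩ := hy
    have htr : trInf276 K (x.1 * yInf) = (w.mult : ℝ) * 4⁻¹ := by
      unfold trInf276
      rw [Finset.sum_eq_single w]
      · have h1 : (x.1 * yInf) w = (4 : w.Completion)⁻¹ := by
          rw [inf_mul_apply276]
          simp only [yInf, Pi.single_eq_same]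
          field_simp
        rw [h1, map_inv₀, map_ofNat]
        norm_num
      · intro w' _ hw'
        have h1 : (x.1 * yInf) w' = 0 := by
          rw [inf_mul_apply276]
          simp only [yInf, Pi.single_eq_of_ne hw', mul_zero]
        rw [h1, map_zero, Complex.zero_re, mul_zero]
      · intro h
        exact absurd (Finset.mem_univ w) h
    rw [htr] at hn
    have hm : w.mult = 1 ∨ w.mult = 2 := by
      unfold InfinitePlace.mult
      split_ifs <;> simp
    have h4 : ((w.mult : ℤ) : ℝ) = ((-4 * n : ℤ) : ℝ) := by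
      push_cast
      linarith
    have h5 : (w.mult : ℤ) = -4 * n := by exact_mod_cast h4
    rcases hm with hm | hm <;> rw [hm] at h5 <;> omega
  have hfin : x.2 = 0 := by
    apply FiniteAdeleRing.ext
    intro v
    by_contra hv
    have hv' : x.2 v ≠ 0 := hv
    obtain ⟨D, hD0, hD⟩ := exists_den276 K
    obtain ⟨N, hN⟩ : ∃ N : ℕ, WithZero.exp (-(N : ℤ)) < v.intValuation D := by
      rw [v.intValuation_eq_exp_neg_multiplicity hD0]
      refine ⟨multiplicity v.asIdeal (Ideal.span {D}) + 1, ?_⟩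
      rw [WithZero.exp_lt_exp]
      push_cast
      omega
    obtain ⟨ξ, hξ1, hξ2, hξ3⟩ := exists_bad_trace276 K D hD v N hN
    have e3 : x.2 * locFin276 K v (algebraMap K (v.adicCompletion K) ξ * (x.2 v)⁻¹)
        = locFin276 K v (algebraMap K (v.adicCompletion K) ξ) := by
      apply FiniteAdeleRing.ext
      intro v'
      rw [fin_mul_apply276]
      by_cases h : v' = v
      · subst h
        rw [locFin_same276, locFin_same276]
        field_simp
      · rw [locFin_ne276 K v _ v' h, locFin_ne276 K v _ v' h, mul_zero]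
    have hy := hx (mkAdl276 K 0
      (locFin276 K v (algebraMap K (v.adicCompletion K) ξ * (x.2 v)⁻¹)))
    rw [psi_apply276, adl_mul_fst276, adl_mul_snd276, mkAdl_fst276, mkAdl_snd276, mul_zero,
      AddChar.map_zero_eq_one, one_mul, e3, psiFin_locFin276 K v ξ hξ2,
      fourierChar_eq_one_iff276] at hy
    obtain ⟨n, hn⟩ := hy
    exact hξ3 ⟨n, by exact_mod_cast hn⟩
  exact Prod.ext hinf hfin

/-! ## Conductors -/

theorem le_one_of_lt_exp_one276 (a : ℤᵐ⁰) (h : a < WithZero.exp (1 : ℤ)) : a ≤ 1 := by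
  rcases eq_or_ne a 0 with rfl | ha
  · exact zero_le_one
  · rw [← WithZero.exp_log ha] at h ⊢
    rw [WithZero.exp_lt_exp] at h
    rw [← WithZero.exp_zero, WithZero.exp_le_exp]
    omega

open IsDedekindDomain.HeightOneSpectrum in
theorem psi_unramAE276 : IsUnramAE K (psi276 K) := by
  classical
  obtain ⟨D, hD0, hD⟩ := exists_den276 K
  have hfin : {v : HeightOneSpectrum (𝓞 K) | v.asIdeal ∣ Ideal.span {D}}.Finite :=
    Ideal.finite_factors (by simpa [Ideal.span_singleton_eq_bot] using hD0)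
  refine ⟨hfin.toFinset, fun v hv => ⟨fun x hx hxv => ?_, ?_⟩⟩
  · rw [psi_apply276, hx.1, AddChar.map_zero_eq_one, one_mul]
    refine psiFin_of_integral276 K _ (fun v' => ?_)
    by_cases h : v' = v
    · subst h
      exact hxv
    · rw [hx.2 v' h]
      exact zero_mem _
  · have hvD : v.intValuation D = 1 := by
      have h4 : ¬ v.asIdeal ∣ Ideal.span {D} := fun h => hv (by simpa using h)
      rw [← v.intValuation_lt_one_iff_dvd, not_lt] at h4
      exact le_antisymm (v.intValuation_le_one D) h4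
    have hN : WithZero.exp (-((1 : ℕ) : ℤ)) < v.intValuation D := by
      rw [hvD, ← WithZero.exp_zero, WithZero.exp_lt_exp]
      simp
    obtain ⟨ξ, hξ1, hξ2, hξ3⟩ := exists_bad_trace276 K D hD v 1 hN
    have hξv : v.valuation K ξ = WithZero.exp (1 : ℤ) := by
      refine le_antisymm (by simpa using hξ1) ?_
      by_contra hlt
      rw [not_le] at hlt
      have hle : v.valuation K ξ ≤ 1 := le_one_of_lt_exp_one276 _ hlt
      have hall : ∀ v' : HeightOneSpectrum (𝓞 K), v'.valuation K ξ ≤ 1 := fun v' => by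
        by_cases h : v' = v
        · subst h
          exact hle
        · exact hξ2 v' h
      have h1 := fourierChar_trace_eq_one276 K ξ hall
      rw [fourierChar_eq_one_iff276] at h1
      obtain ⟨n, hn⟩ := h1
      exact hξ3 ⟨n, by exact_mod_cast hn⟩
    refine ⟨mkAdl276 K 0 (locFin276 K v (algebraMap K (v.adicCompletion K) ξ)),
      ⟨rfl, fun v' h => locFin_ne276 K v _ v' h⟩, ?_, ?_⟩
    · rw [mkAdl_snd276, locFin_same276]
      exact (valuedAdicCompletion_eq_valuation' v ξ).trans hξv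
    · rw [psi_apply276, mkAdl_fst276, mkAdl_snd276, AddChar.map_zero_eq_one, one_mul,
        psiFin_locFin276 K v ξ hξ2, Ne, fourierChar_eq_one_iff276]
      rintro ⟨n, hn⟩
      exact hξ3 ⟨n, by exact_mod_cast hn⟩

/-! ## The leaf -/

theorem psi_isStdChar276 : IsStdChar K (psi276 K) :=
  ⟨continuous_psi276 K, psi_algebraMap276 K, psi_nontrivial276 K⟩

/-- **T3.01 (v2)** `GoodCharExistsC K`, unconditional. -/
theorem goodCharExists276 : GoodCharExistsC K :=
  ⟨psi276 K, psi_isStdChar276 K, psi_nonDeg276 K, psi_unramAE276 K⟩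

/-- The leaf in the shape of `Leaves.goodChar`. -/
theorem leaf_goodChar276 : InLocCompC K → GoodCharExistsC K :=
  fun _ => goodCharExists276 K

end Fermat.Agent.LT.T3.H276

end

end
-- ===== PACK-END LT/T3/H276/GoodChar.lean

-- ===== PACK-BEGIN LT/T5/H29/TwSpec.lean
section





/-!
# Row LT, tower T5, leaf T5.07 `LeafTwFinite` (owner helper29): SUB-SPEC — OFF-MAIN

Bytes: `T5/Spec.lean` = v4 FREEZE helper32@eb7e4c138 (sha256 f2d97e70), `T1/Spec.lean` =
helper54 v1 (sha256 e8ae48d6), `H556/A0.lean` (sha256 66d3374a), byte-identical copies.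

v2 of this file (port to T5/Spec v4): the Props `RayBoundC`, `SiegelTwC`, `TwBoundC` take
`HasCompactSupport φ` in place of `IsTestFn 𝔫 φ` (the only field which the proofs use), so they
do not depend on the `K_∞`-type `τ`.  `UpperNotRegC`, `BoxC`, `MahlerC`, `RatFiniteC`, `RaySlabC`
are UNCHANGED (same bytes as in v1, sha256 08555f0f).

## Route (NO twisted centraliser, NO `EllipticCompactC`, NO norm map of T6)

The diagonal of the twisted kernel of `|φ|` is BOUNDED on `GL₂(𝔸_K)`, with finitely many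
contributing `δ` up to σ-conjugacy, by reduction theory:

1. `RayBoundC`   : `φ(x⁻¹ δ σ(x) rᵐ) ≠ 0 ⇒ |m| ≤ M` (module of the determinant).
2. `SiegelTwC`   : if `x` has height `> c₁` then only upper triangular `δ` contribute
                   (the lower left entry of `b⁻¹ δ σ(b) rᵐ` is an idele of module `≥ t/2·2^{-M/2}`,
                   and lies in a compact set: `BoxC`).
3. `UpperNotRegC`: the norm of an upper triangular `δ` has its eigenvalues in the fixed field, so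
                   it is not elliptic regular: by σ-regularity NOTHING contributes at height `> c₁`.
4. `MahlerC`     : the part of the slab of height in `[c₀, c₁]` is `GL₂(K) · Ω`, `Ω` compact.
5. `RatFiniteC`  : `GL₂(K)` meets a compact set in a finite set (`T1.DiscreteC`).

`twBound_of_leaves` (PROVED here) : the leaves give `TwBoundC`: a finite set `S ⊂ GL₂(K)` and
`M` such that for every `x` there is `γ₀` with: every contributing pair `(δ, m)` at `x` has
`|m| ≤ M` and `γ₀⁻¹ δ σ(γ₀) ∈ S`.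

The passage `TwBoundC ⇒ T5.LeafTwFinite` (finiteness of the classes; integrability on every
strict fundamental domain of the σ-centraliser, by the orbit unfolding `LT/H29/Unfold.lean` and
`μ F < ∞`) is `LT/T5/H29/TwFinite.lean`.
-/

set_option autoImplicit false

open IsDedekindDomain NumberField MeasureTheory
open scoped MatrixGroups Pointwise

noncomputable section

namespace Fermat.Agent.LT.T5.H29

open Fermat.Agent.LT.H556.A0 Fermat.Agent.LT.T5 Fermat.Agent.LT

attribute [local instance] Fermat.Agent.LT.T5.instMeasurableSpaceG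

variable {K : Type} [Field K] [NumberField K]

/-! ## The sub-leaves -/

/-- **T5.07a (ray bound).**  `f = ‖det ·‖_𝔸` is continuous and positive on `GL₂(𝔸_K)`
(`T1.AdNormC`), so bounded above and below on the compact support of `φ`;
`f(x⁻¹ δ σ(x) rᵐ) = f(σ x) / f(x) · 2ᵐ` and `f(σ x)/f(x) ∈ (1/2, 2)` by `AutPreserves.slab`,
`AutPreserves.ray` (move `x` into the slab by a power of `r`).  ≈ 250 lines. -/
def RayBoundC (s : AdelicAut K) (𝔫 : Ideal (𝓞 K)) : Prop :=
  T1.AdNormC K → ∀ (μ : Measure (G K)) (r : G K), IsRayGen r → AutPreserves s 𝔫 μ r →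
    ∀ φ : G K → ℂ, HasCompactSupport φ →
      ∃ M : ℕ, ∀ (x : G K) (δ : GL (Fin 2) K) (m : ℤ),
        φ (x⁻¹ * ratG δ * s.onG x * r ^ m) ≠ 0 → m.natAbs ≤ M

/-- **T5.07b (upper triangular elements are not σ-regular).**  For upper triangular `δ` the norm
`δ σ(δ) ⋯ σ^{l-1}(δ)` is upper triangular with diagonal entries `N(a), N(d)` fixed by `σ`
(`σ^l = 1`), i.e. in `k`; a polynomial of degree `2` over `k` with a root in `k` is not
irreducible.  Pure algebra, ≈ 150 lines. -/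
def UpperNotRegC (s : AdelicAut K) (l : ℕ) (k : Subfield K) : Prop :=
  IsCyclicOfDegree s l k → ∀ δ : GL (Fin 2) K, (δ : Matrix (Fin 2) (Fin 2) K) 1 0 = 0 →
    ¬ IsEllRegOver k (s.normUpTo l δ)

/-- **T5.07c (box).**  The module is bounded above on the ideles which lie in a compact subset
of the ADELE ring.  (A compact subset of `𝔸_K` lies in a box `∏ {|x_v| ≤ B_v}`, `B_v = 1` for
almost all `v`; or: `μ(u S) = ‖u‖ μ(S)` and `u S ⊆ Q S`.)  ≈ 200 lines. -/
def BoxC (K : Type) [Field K] [NumberField K] : Prop :=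
  ∀ Q : Set (Adl K), IsCompact Q →
    ∃ B : ℝ, ∀ u : (Adl K)ˣ, (u : Adl K) ∈ Q → T1.adNorm K (u : Adl K) ≤ B

/-- **T5.07d (twisted Siegel estimate).**  `y = b k` (Iwasawa, `T1.HasHeight`), so
`b⁻¹ δ σ(b) rᵐ ∈ K⁰ · supp φ · σ(K⁰)⁻¹` (compact: `K⁰` is compact, helper919
`isCompact_stdCompact919`); its lower left entry is `δ₂₁ σ(b₁₁) b₂₂⁻¹ ρᵐ`, an idele of module
`≥ t / 2 · 2^{-M/2}` if `δ₂₁ ≠ 0` (product formula; `‖σ u‖ ≥ ‖u‖ / 2` from
`AutPreserves.slab`); `BoxC` bounds it.  ≈ 500 lines. -/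
def SiegelTwC (s : AdelicAut K) (𝔫 : Ideal (𝓞 K)) : Prop :=
  T1.T1Out K → BoxC K → ∀ (μ : Measure (G K)) (r : G K), IsRayGen r → AutPreserves s 𝔫 μ r →
    ∀ φ : G K → ℂ, HasCompactSupport φ → ∀ M : ℕ,
      ∃ c₁ : ℝ, ∀ (y : G K) (t : ℝ), T1.HasHeight K y t → c₁ < t →
        ∀ (δ : GL (Fin 2) K) (m : ℤ), m.natAbs ≤ M →
          φ (y⁻¹ * ratG δ * s.onG y * r ^ m) ≠ 0 → (δ : Matrix (Fin 2) (Fin 2) K) 1 0 = 0

/-- **T5.07e (Mahler compactness).**  The part of the slab of height in `[c₀, c₁]` is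
`GL₂(K) · Ω` with `Ω` compact: `T1.SiegelCompactC` (`y = β z a ω`, `s` in a compact interval),
`‖det y‖ ∈ [1, 2)` bounds the module of the central `z`, and `T1.FujisakiC` makes
`z ∈ Z(K) · ray · compact`.  Tools: helper919 `SiegelTools.lean` (`rayAdl919`, `scalarG919`).
≈ 400 lines. -/
def MahlerC (K : Type) [Field K] [NumberField K] : Prop :=
  T1.T1Out K → ∀ c₀ c₁ : ℝ, 0 < c₀ →
    ∃ Ω : Set (G K), IsCompact Ω ∧
      ∀ y ∈ slab K, ∀ t : ℝ, T1.HasHeight K y t → c₀ ≤ t → t ≤ c₁ →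
        ∃ γ : GL (Fin 2) K, ratG γ * y ∈ Ω

/-- **T5.07f (rational points in a compact set).**  `T1.DiscreteC`: a closed discrete subset
meets a compact set in a finite set; `ratG` is injective.  ≈ 60 lines. -/
def RatFiniteC (K : Type) [Field K] [NumberField K] : Prop :=
  T1.DiscreteC K → ∀ C : Set (G K), IsCompact C → {δ : GL (Fin 2) K | ratG δ ∈ C}.Finite

/-- **T5.07g (the ray and the slab).**  The generator `r` of the discrete ray is central, its
powers lie on the central ray, every element can be moved into the slab by a power of `r`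
(`‖det r‖_𝔸 = 2`), and the slab is invariant under `GL₂(K)` (product formula).  ≈ 250 lines. -/
def RaySlabC (K : Type) [Field K] [NumberField K] : Prop :=
  T1.AdNormC K →
    (∀ r : G K, IsRayGen r → (∀ g : G K, g * r = r * g) ∧ (∀ m : ℤ, IsCentralRay (r ^ m)) ∧
      ∀ x : G K, ∃ j : ℤ, x * r ^ j ∈ slab K) ∧
    ∀ (γ : GL (Fin 2) K) (x : G K), x ∈ slab K → ratG γ * x ∈ slab K

/-- All sub-leaves of T5.07. -/
structure TwLeaves (s : AdelicAut K) (l : ℕ) (k : Subfield K) (𝔫 : Ideal (𝓞 K)) : Prop where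
  rayBound : RayBoundC s 𝔫
  upperNotReg : UpperNotRegC s l k
  box : BoxC K
  siegelTw : SiegelTwC s 𝔫
  mahler : MahlerC K
  ratFinite : RatFiniteC K
  raySlab : RaySlabC K

/-! ## The uniform bound -/

/-- **The uniform bound on the diagonal.**  There are a finite set `S ⊂ GL₂(K)` and `M` such
that for every `x` there is `γ₀ ∈ GL₂(K)` with: every pair `(δ, m)` which contributes to the
diagonal of the twisted kernel at `x` has `|m| ≤ M` and `γ₀⁻¹ δ σ(γ₀) ∈ S`. -/
def TwBoundC (s : AdelicAut K) (l : ℕ) (k : Subfield K) (𝔫 : Ideal (𝓞 K)) : Prop :=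
  IsCyclicOfDegree s l k →
  ∀ (μ : Measure (G K)) (r : G K), IsRayGen r → AutPreserves s 𝔫 μ r →
    ∀ φ : G K → ℂ, HasCompactSupport φ → IsTwRegular s l k φ →
      ∃ (S : Finset (GL (Fin 2) K)) (M : ℕ), ∀ x : G K, ∃ γ₀ : GL (Fin 2) K,
        ∀ (δ : GL (Fin 2) K) (m : ℤ), φ (x⁻¹ * ratG δ * s.onG x * r ^ m) ≠ 0 →
          m.natAbs ≤ M ∧ γ₀⁻¹ * δ * s.onRat γ₀ ∈ S

/-! ## The top: the leaves give the uniform bound -/

section Top

variable (s : AdelicAut K) (r : G K)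

/-- The argument of `φ` on the diagonal. -/
def twArg (x : G K) (δ : GL (Fin 2) K) (m : ℤ) : G K :=
  x⁻¹ * ratG δ * s.onG x * r ^ m

variable {s r}

theorem twArg_def29 (x : G K) (δ : GL (Fin 2) K) (m : ℤ) :
    twArg s r x δ m = x⁻¹ * ratG δ * s.onG x * r ^ m := rfl

/-- Change of `x` by a rational element. -/
theorem twArg_rat29 {𝔫 : Ideal (𝓞 K)} {μ : Measure (G K)} (hP : AutPreserves s 𝔫 μ r)
    (γ : GL (Fin 2) K) (x : G K) (δ : GL (Fin 2) K) (m : ℤ) :
    twArg s r (ratG γ * x) (γ * δ * (s.onRat γ)⁻¹) m = twArg s r x δ m := by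
  simp only [twArg, map_mul, map_inv, mul_inv_rev, hP.rat]
  simp only [mul_assoc, inv_mul_cancel_left]

/-- Change of `x` by a power of the central, `σ`-fixed `r`. -/
theorem twArg_ray29 {𝔫 : Ideal (𝓞 K)} {μ : Measure (G K)} (hP : AutPreserves s 𝔫 μ r)
    (hrc : ∀ g : G K, g * r = r * g) (x : G K) (j : ℤ) (δ : GL (Fin 2) K) (m : ℤ) :
    twArg s r (x * r ^ j) δ m = twArg s r x δ m := by
  have hc : ∀ g : G K, Commute g (r ^ j) := fun g => (show Commute g r from hrc g).zpow_right j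
  have hc' : ∀ g : G K, Commute (r ^ j)⁻¹ g := fun g => ((hc g).symm).inv_left
  simp only [twArg, map_mul, map_zpow, hP.ray, mul_inv_rev]
  calc (r ^ j)⁻¹ * x⁻¹ * ratG δ * (s.onG x * r ^ j) * r ^ m
      = (r ^ j)⁻¹ * ((x⁻¹ * ratG δ * s.onG x) * r ^ j) * r ^ m := by simp only [mul_assoc]
    _ = (r ^ j)⁻¹ * (r ^ j * (x⁻¹ * ratG δ * s.onG x)) * r ^ m := by
        rw [(hc (x⁻¹ * ratG δ * s.onG x)).eq]
    _ = x⁻¹ * ratG δ * s.onG x * r ^ m := by rw [inv_mul_cancel_left]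

/-- Recovering `δ` from the argument. -/
theorem ratG_eq_of_twArg29 (x : G K) (δ : GL (Fin 2) K) (m : ℤ) :
    ratG δ = x * twArg s r x δ m * r ^ (-m) * (s.onG x)⁻¹ := by
  simp only [twArg, zpow_neg, mul_assoc, mul_inv_cancel, mul_one, mul_inv_cancel_left]

end Top

/-- **THE UNIFORM BOUND from the sub-leaves** (and the output of tower T1). -/
theorem twBound_of_leaves (s : AdelicAut K) (l : ℕ) (k : Subfield K) (𝔫 : Ideal (𝓞 K))
    (hT : T1.T1Out K) (L : TwLeaves s l k 𝔫) : TwBoundC s l k 𝔫 := by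
  intro hcyc μ r hr hP φ ht hreg
  obtain ⟨M, hM⟩ := L.rayBound hT.adNorm μ r hr hP φ ht
  obtain ⟨c₁, hc₁⟩ := L.siegelTw hT L.box μ r hr hP φ ht M
  obtain ⟨c₀, hc₀pos, hred⟩ := hT.reduction
  obtain ⟨Ω, hΩ, hΩcov⟩ := L.mahler hT c₀ c₁ hc₀pos
  obtain ⟨hray, hslabinv⟩ := L.raySlab hT.adNorm
  obtain ⟨hrc, hrcr, hrslab⟩ := hray r hr
  -- the compact set which contains all the relevant rational points
  have hC : IsCompact (tsupport φ) := ht
  have hRfin : {m : ℤ | m.natAbs ≤ M}.Finite := by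
    refine (Set.finite_Icc (-(M : ℤ)) (M : ℤ)).subset fun m hm => ?_
    simp only [Set.mem_ofPred_eq] at hm
    rw [Set.mem_Icc]
    constructor <;> omega
  have hR : IsCompact ((fun m : ℤ => r ^ (-m)) '' {m : ℤ | m.natAbs ≤ M}) :=
    (hRfin.image _).isCompact
  have hT2 : T2Space (G K) := hT.locComp.2.2.1
  have hΩ' : IsCompact (s.onG '' Ω)⁻¹ := (hΩ.image hP.cont).inv
  have hC₂ : IsCompact
      (Ω * tsupport φ * ((fun m : ℤ => r ^ (-m)) '' {m : ℤ | m.natAbs ≤ M}) * (s.onG '' Ω)⁻¹) :=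
    ((hΩ.mul hC).mul hR).mul hΩ'
  have hfin := L.ratFinite hT.discrete _ hC₂
  refine ⟨hfin.toFinset, M, fun x => ?_⟩
  by_cases hx : ∃ (δ : GL (Fin 2) K) (m : ℤ), φ (x⁻¹ * ratG δ * s.onG x * r ^ m) ≠ 0
  · obtain ⟨δ₁, m₁, h₁⟩ := hx
    obtain ⟨j, hj⟩ := hrslab x
    obtain ⟨γ, t, hht, hct⟩ := hred (x * r ^ j)
    -- the key identity
    have key : ∀ (γ' : GL (Fin 2) K) (δ : GL (Fin 2) K) (m : ℤ),
        twArg s r (ratG γ' * (x * r ^ j)) (γ' * δ * (s.onRat γ')⁻¹) m = twArg s r x δ m :=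
      fun γ' δ m => (twArg_rat29 hP γ' (x * r ^ j) δ m).trans (twArg_ray29 hP hrc x j δ m)
    have htc : t ≤ c₁ := by
      by_contra hlt
      push Not at hlt
      have h2 := hc₁ (T1.ratG K γ * (x * r ^ j)) t hht hlt (γ * δ₁ * (s.onRat γ)⁻¹) m₁
        (hM x δ₁ m₁ h₁) (by
          have := key γ δ₁ m₁
          rw [twArg_def29, twArg_def29] at this
          show φ ((ratG γ * (x * r ^ j))⁻¹ * ratG (γ * δ₁ * (s.onRat γ)⁻¹) *
            s.onG (ratG γ * (x * r ^ j)) * r ^ m₁) ≠ 0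
          rw [this]
          exact h₁)
      have h3 := hreg (ratG γ * (x * r ^ j)) (γ * δ₁ * (s.onRat γ)⁻¹) (r ^ m₁) (hrcr m₁) (by
          have := key γ δ₁ m₁
          rw [twArg_def29, twArg_def29] at this
          rw [this]
          exact h₁)
      exact L.upperNotReg hcyc _ h2 h3
    have hyslab : ratG γ * (x * r ^ j) ∈ slab K := hslabinv γ _ hj
    obtain ⟨γ', hγ'⟩ := hΩcov (ratG γ * (x * r ^ j)) hyslab t hht hct htc
    have hω : ratG (γ' * γ) * (x * r ^ j) ∈ Ω := by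
      rw [map_mul, mul_assoc]
      exact hγ'
    refine ⟨(γ' * γ)⁻¹, fun δ m hδ => ⟨hM x δ m hδ, ?_⟩⟩
    rw [Set.Finite.mem_toFinset, Set.mem_ofPred_eq]
    have hg : twArg s r x δ m ∈ tsupport φ := subset_tsupport _ hδ
    have e1 : ratG ((γ' * γ)⁻¹⁻¹ * δ * s.onRat (γ' * γ)⁻¹)
        = ratG (γ' * γ) * (x * r ^ j)
          * twArg s r (ratG (γ' * γ) * (x * r ^ j)) ((γ' * γ) * δ * (s.onRat (γ' * γ))⁻¹) m
          * r ^ (-m) * (s.onG (ratG (γ' * γ) * (x * r ^ j)))⁻¹ := by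
      rw [← ratG_eq_of_twArg29, inv_inv, map_inv]
    rw [e1, key]
    exact Set.mul_mem_mul (Set.mul_mem_mul (Set.mul_mem_mul hω hg)
      (Set.mem_image_of_mem _ (hM x δ m hδ)))
      (Set.inv_mem_inv.2 (Set.mem_image_of_mem _ hω))
  · push Not at hx
    exact ⟨1, fun δ m h => absurd (hx δ m) h⟩

end Fermat.Agent.LT.T5.H29

end

end
-- ===== PACK-END LT/T5/H29/TwSpec.lean

-- ===== PACK-BEGIN LT/T1/H132/DiscreteC.lean
section




/-!
# Row LT, tower T1 — helper132: the interface Prop `T1.DiscreteC K` PROVED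

OFF-MAIN.  `GL₂(K)` is discrete and closed in `GL₂(𝔸_K)`, verbatim against
`LT/T1/Spec.lean` (origin/helper54@424fdf719).  On `LT/H132/GLDiscrete.lean` and
`LT/H767/AdeleDiscrete.lean` (helper767: `K` discrete in `𝔸_K`).
-/

set_option autoImplicit false

noncomputable section

namespace Fermat.Agent.LT.T1.H132

/-- **`T1.DiscreteC K`**: `GL₂(K)` is discrete and closed in `GL₂(𝔸_K)`. -/
theorem discreteC_132 (K : Type) [Field K] [NumberField K] : Fermat.Agent.LT.T1.DiscreteC K :=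
  ⟨Fermat.Agent.LT.H132.discreteTopology_glRange K (Fin 2),
    Fermat.Agent.LT.H132.isClosed_glRange K (Fin 2)⟩

end Fermat.Agent.LT.T1.H132

end
end
-- ===== PACK-END LT/T1/H132/DiscreteC.lean

-- ===== PACK-BEGIN LT/T5/H71/TwUnfold.lean
section




/-!
# Row LT, tower T5, leaf T5.08 `LeafTwUnfold` (helper71)

OFF-MAIN.  Unfolding of the diagonal integral of the twisted kernel into the sum over the
σ-conjugacy classes.

Spec v3 (FREEZE, helper32@c970d419b, sha256 d6f8b00ae5f1).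

* `leafTwUnfold_of_slab71` : if `GL₂(K)` preserves the slab, then `LeafTwUnfold s 𝔫 τ`;
* `leafTwUnfold_of71 : T1.AdNormC K → LeafTwUnfold s 𝔫 τ` (the slab is preserved by the product
  formula, which is part of `T1.AdNormC`).

The hypotheses `IsTestFn`, `IsRayGen` and the finite volume of `F` are not used.

No discreteness, no summability of the kernel is used: the measure theory is
`hasSum_integral_of_summable_integral_norm` for the family `(c, g) ↦ 1_{F ∩ g⁻¹ F_c} · f_c ∘ g`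
and the reindexing of the sum over `δ` is `tsum_eq_tsum_of_ne_zero_bij`.
-/

set_option autoImplicit false

open IsDedekindDomain NumberField MeasureTheory
open scoped MatrixGroups ComplexConjugate

noncomputable section

namespace Fermat.Agent.LT.T5.H71


section abstract71

variable {X : Type*} [Group X] {Γ : Type*} [Group Γ] {E : Type*} [NormedAddCommGroup E]

/-- The piece `D ∩ g F` of `D`. -/
def piece71 (ι : Γ →* X) (F D : Set X) (g : Γ) : Set X :=
  D ∩ (fun y => ι g⁻¹ * y) ⁻¹' F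

/-- The function `x ↦ f (g x)` cut off to `F ∩ g⁻¹ D`. -/
def wfun71 (ι : Γ →* X) (F D : Set X) (f : X → E) (g : Γ) : X → E :=
  fun x => (F ∩ (fun x => ι g * x) ⁻¹' D).indicator (fun x => f (ι g * x)) x

theorem wfun71_eq_comp (ι : Γ →* X) (F D : Set X) (f : X → E) (g : Γ) :
    wfun71 ι F D f g = ((piece71 ι F D g).indicator f) ∘ (fun x => ι g * x) := by
  funext x
  by_cases h : x ∈ F ∧ ι g * x ∈ D
  · have h1 : x ∈ F ∩ (fun x => ι g * x) ⁻¹' D := ⟨h.1, h.2⟩
    have h2 : ι g * x ∈ piece71 ι F D g := by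
      refine ⟨h.2, ?_⟩
      simp only [Set.mem_preimage, map_inv, inv_mul_cancel_left]
      exact h.1
    simp only [wfun71, Function.comp, Set.indicator_of_mem h1, Set.indicator_of_mem h2]
  · have h1 : x ∉ F ∩ (fun x => ι g * x) ⁻¹' D := fun hx => h ⟨hx.1, hx.2⟩
    have h2 : ι g * x ∉ piece71 ι F D g := by
      intro hx
      refine h ⟨?_, hx.1⟩
      have := hx.2
      simpa only [Set.mem_preimage, map_inv, inv_mul_cancel_left] using this
    simp only [wfun71, Function.comp, Set.indicator_of_notMem h1, Set.indicator_of_notMem h2]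

theorem wfun71_of_notMem (ι : Γ →* X) (F D : Set X) (f : X → E) (g : Γ) {x : X}
    (hx : x ∉ F) : wfun71 ι F D f g x = 0 := by
  unfold wfun71
  exact Set.indicator_of_notMem (fun h => hx h.1) _

theorem wfun71_of_ne_zero (ι : Γ →* X) (F D : Set X) (f : X → E) (g : Γ) {x : X}
    (hx : wfun71 ι F D f g x ≠ 0) :
    x ∈ F ∧ ι g * x ∈ D ∧ wfun71 ι F D f g x = f (ι g * x) := by
  unfold wfun71 at hx ⊢
  have h1 : x ∈ F ∩ (fun x => ι g * x) ⁻¹' D := by
    by_contra h
    exact hx (Set.indicator_of_notMem h _)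
  exact ⟨h1.1, h1.2, Set.indicator_of_mem h1 _⟩

theorem wfun71_of_mem (ι : Γ →* X) (F D : Set X) (f : X → E) (g : Γ) {x : X}
    (hx : x ∈ F) (hgx : ι g * x ∈ D) : wfun71 ι F D f g x = f (ι g * x) := by
  unfold wfun71
  have h1 : x ∈ F ∩ (fun x => ι g * x) ⁻¹' D := ⟨hx, hgx⟩
  exact Set.indicator_of_mem h1 _

variable [MeasurableSpace X] [MeasurableMul X]

theorem measurableSet_piece71 (ι : Γ →* X) {F D : Set X} (hF : MeasurableSet F)
    (hD : MeasurableSet D) (g : Γ) : MeasurableSet (piece71 ι F D g) :=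
  hD.inter ((measurable_const_mul (ι g⁻¹)) hF)

omit [MeasurableSpace X] [MeasurableMul X] in
theorem pairwise_disjoint_piece71 (ι : Γ →* X) {F D : Set X}
    (hcov : ∀ y ∈ D, ∃! γ : Γ, ι γ * y ∈ F) :
    Pairwise (Function.onFun Disjoint (piece71 ι F D)) := by
  intro g g' hgg'
  rw [Function.onFun, Set.disjoint_left]
  intro y hy hy'
  apply hgg'
  have := (hcov y hy.1).unique hy.2 hy'.2
  exact inv_injective this

omit [MeasurableSpace X] [MeasurableMul X] in
theorem iUnion_piece71 (ι : Γ →* X) {F D : Set X}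
    (hcov : ∀ y ∈ D, ∃! γ : Γ, ι γ * y ∈ F) :
    ⋃ g, piece71 ι F D g = D := by
  ext y
  simp only [Set.mem_iUnion]
  constructor
  · rintro ⟨g, hg⟩
    exact hg.1
  · intro hy
    obtain ⟨γ, hγ, -⟩ := hcov y hy
    refine ⟨γ⁻¹, hy, ?_⟩
    simpa only [Set.mem_preimage, inv_inv] using hγ

variable [NormedSpace ℝ E] (μ : Measure X) [μ.IsMulLeftInvariant]

omit [NormedSpace ℝ E] in
theorem integrable_wfun71 (ι : Γ →* X) {F D : Set X} (hF : MeasurableSet F)
    (hD : MeasurableSet D) {f : X → E} (hf : IntegrableOn f D μ) (g : Γ) :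
    Integrable (wfun71 ι F D f g) μ := by
  rw [wfun71_eq_comp]
  refine ((measurePreserving_mul_left μ (ι g)).integrable_comp_emb
    (MeasurableEquiv.mulLeft (ι g)).measurableEmbedding).2 ?_
  exact (hf.mono_set Set.inter_subset_left).integrable_indicator (measurableSet_piece71 ι hF hD g)

theorem integral_wfun71 (ι : Γ →* X) {F D : Set X} (hF : MeasurableSet F)
    (hD : MeasurableSet D) (f : X → E) (g : Γ) :
    ∫ x, wfun71 ι F D f g x ∂μ = ∫ x in piece71 ι F D g, f x ∂μ := by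
  rw [wfun71_eq_comp]
  have := (measurePreserving_mul_left μ (ι g)).integral_comp
    (MeasurableEquiv.mulLeft (ι g)).measurableEmbedding ((piece71 ι F D g).indicator f)
  simp only [Function.comp]
  rw [this, integral_indicator (measurableSet_piece71 ι hF hD g)]

omit [NormedSpace ℝ E] in
theorem integral_norm_wfun71 (ι : Γ →* X) {F D : Set X} (hF : MeasurableSet F)
    (hD : MeasurableSet D) (f : X → E) (g : Γ) :
    ∫ x, ‖wfun71 ι F D f g x‖ ∂μ = ∫ x in piece71 ι F D g, ‖f x‖ ∂μ := by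
  rw [wfun71_eq_comp]
  have := (measurePreserving_mul_left μ (ι g)).integral_comp
    (MeasurableEquiv.mulLeft (ι g)).measurableEmbedding
    (fun y => ‖(piece71 ι F D g).indicator f y‖)
  simp only [Function.comp]
  rw [this]
  simp only [norm_indicator_eq_indicator_norm]
  rw [integral_indicator (measurableSet_piece71 ι hF hD g)]

variable [Countable Γ]

theorem hasSum_integral_wfun71 (ι : Γ →* X) {F D : Set X} (hF : MeasurableSet F)
    (hD : MeasurableSet D) (hcov : ∀ y ∈ D, ∃! γ : Γ, ι γ * y ∈ F)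
    {f : X → E} (hf : IntegrableOn f D μ) :
    HasSum (fun g => ∫ x, wfun71 ι F D f g x ∂μ) (∫ x in D, f x ∂μ) := by
  have h := hasSum_integral_iUnion (μ := μ) (f := f) (measurableSet_piece71 ι hF hD)
    (pairwise_disjoint_piece71 ι hcov) (by rw [iUnion_piece71 ι hcov]; exact hf)
  rw [iUnion_piece71 ι hcov] at h
  simpa only [integral_wfun71 μ ι hF hD] using h

omit [NormedSpace ℝ E] in
theorem summable_integral_norm_wfun71 (ι : Γ →* X) {F D : Set X} (hF : MeasurableSet F)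
    (hD : MeasurableSet D) (hcov : ∀ y ∈ D, ∃! γ : Γ, ι γ * y ∈ F)
    {f : X → E} (hf : IntegrableOn f D μ) :
    Summable (fun g => ∫ x, ‖wfun71 ι F D f g x‖ ∂μ) := by
  have h := hasSum_integral_iUnion (μ := μ) (f := fun x => ‖f x‖)
    (measurableSet_piece71 ι hF hD)
    (pairwise_disjoint_piece71 ι hcov) (by rw [iUnion_piece71 ι hcov]; exact hf.norm)
  simpa only [integral_norm_wfun71 μ ι hF hD] using h.summable

end abstract71


section concrete71

open Fermat.Agent.LT.H556.A0 Fermat.Agent.LT.T5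

attribute [local instance] Fermat.Agent.LT.T5.instMeasurableSpaceG

variable {K : Type} [Field K] [NumberField K]

theorem countable_field71 (K : Type) [Field K] [NumberField K] : Countable K :=
  (Module.finBasis ℚ K).equivFun.injective.countable

theorem countable_gl71 (K : Type) [Field K] [NumberField K] : Countable (GL (Fin 2) K) := by
  have h1 := countable_field71 K
  have h2 : Countable (Matrix (Fin 2) (Fin 2) K) := by
    show Countable (Fin 2 → Fin 2 → K)
    infer_instance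
  exact (Units.val_injective (α := Matrix (Fin 2) (Fin 2) K)).countable

/-- `f_{g⁻¹ δ σ(g)}(x) = f_δ(g x)`. -/
theorem twTerm_tw71 (r : G K) (s : AdelicAut K) (φ : G K → ℂ)
    (hrat : ∀ γ : GL (Fin 2) K, s.onG (ratG γ) = ratG (s.onRat γ))
    (δ g : GL (Fin 2) K) (x : G K) :
    twTerm r s φ (g⁻¹ * δ * s.onRat g) x = twTerm r s φ δ (ratG g * x) := by
  unfold twTerm
  congr 1
  rw [map_mul s.onG, hrat]
  simp only [map_mul, map_inv, mul_inv_rev, mul_assoc]

/-- The module of the determinant is invariant under `GL₂(K)` (product formula). -/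
theorem adNorm_det_ratG_mul71 (h : Fermat.Agent.LT.T1.AdNormC K) (γ : GL (Fin 2) K) (g : G K) :
    adNorm (Matrix.det ((ratG γ * g : G K) : Matrix (Fin 2) (Fin 2) (Adl K)))
      = adNorm (Matrix.det (g : Matrix (Fin 2) (Fin 2) (Adl K))) := by
  obtain ⟨-, hmul, hrat, -⟩ := h
  have e1 : Matrix.det ((ratG γ * g : G K) : Matrix (Fin 2) (Fin 2) (Adl K))
      = ((Fermat.Agent.LT.T1.ratUnit K (Matrix.GeneralLinearGroup.det γ)
          * Matrix.GeneralLinearGroup.det g : (Adl K)ˣ) : Adl K) := by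
    simp [ratG, Fermat.Agent.LT.T1.ratUnit, Matrix.det_mul, RingHom.map_det]
  have e2 : Matrix.det (g : Matrix (Fin 2) (Fin 2) (Adl K))
      = ((Matrix.GeneralLinearGroup.det g : (Adl K)ˣ) : Adl K) := rfl
  have e3 : ∀ x : Adl K, adNorm x = Fermat.Agent.LT.T1.adNorm K x := fun _ => rfl
  rw [e1, e3, hmul, hrat, one_mul, e3, e2]

/-- `GL₂(K)` preserves the slab. -/
theorem slab_ratG_mul71 (h : Fermat.Agent.LT.T1.AdNormC K) (γ : GL (Fin 2) K) (g : G K)
    (hg : g ∈ slab K) : ratG γ * g ∈ slab K := by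
  have hg' : 1 ≤ adNorm (Matrix.det (g : Matrix (Fin 2) (Fin 2) (Adl K))) ∧
      adNorm (Matrix.det (g : Matrix (Fin 2) (Fin 2) (Adl K))) < 2 := hg
  show 1 ≤ adNorm (Matrix.det ((ratG γ * g : G K) : Matrix (Fin 2) (Fin 2) (Adl K))) ∧
      adNorm (Matrix.det ((ratG γ * g : G K) : Matrix (Fin 2) (Fin 2) (Adl K))) < 2
  rw [adNorm_det_ratG_mul71 h γ g]
  exact hg'

/-- The family indexed by the pairs (class meeting the diagonal, element of `GL₂(K)`). -/
def Wfam71 (r : G K) (s : AdelicAut K) (φ : G K → ℂ) (F : Set (G K))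
    (C₀ : Finset (TwClass s)) (rep : TwClass s → GL (Fin 2) K) (Fc : TwClass s → Set (G K))
    (p : ↥C₀ × GL (Fin 2) K) : G K → ℂ :=
  wfun71 ratG F (Fc p.1) (twTerm r s φ (rep p.1)) p.2

theorem mk_tw71 (s : AdelicAut K) (δ g : GL (Fin 2) K) :
    Quotient.mk (twSetoid s) (g⁻¹ * δ * s.onRat g) = Quotient.mk (twSetoid s) δ :=
  Quotient.sound (twConj_symm s ⟨g, rfl⟩)

/-- The sum over `δ` is the sum over the pairs, pointwise on `F`. -/
theorem tsum_twTerm_eq71 (r : G K) (s : AdelicAut K) (φ : G K → ℂ) (F : Set (G K))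
    (C₀ : Finset (TwClass s)) (rep : TwClass s → GL (Fin 2) K) (Fc : TwClass s → Set (G K))
    (hrat : ∀ γ : GL (Fin 2) K, s.onG (ratG γ) = ratG (s.onRat γ))
    (hslab : ∀ (γ : GL (Fin 2) K) (g : G K), g ∈ slab K → ratG γ * g ∈ slab K)
    (hFsub : F ⊆ slab K)
    (hC₀ : ∀ (δ : GL (Fin 2) K) (x : G K), twTerm r s φ δ x ≠ 0 →
      Quotient.mk (twSetoid s) δ ∈ C₀)
    (hrep : ∀ c, Quotient.mk (twSetoid s) (rep c) = c)
    (hFc : ∀ c, IsTwDomain s (rep c) (Fc c))
    (x : G K) (hx : x ∈ F) :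
    ∑' δ : GL (Fin 2) K, twTerm r s φ δ x
      = ∑' p : ↥C₀ × GL (Fin 2) K, Wfam71 r s φ F C₀ rep Fc p x := by
  refine tsum_eq_tsum_of_ne_zero_bij
    (fun p => (p.1.2)⁻¹ * rep p.1.1 * s.onRat p.1.2) ?_ ?_ ?_
  · -- injectivity
    rintro ⟨⟨c, g⟩, hp⟩ ⟨⟨c', g'⟩, hp'⟩ h
    simp only at h
    rw [Function.mem_support] at hp hp'
    obtain ⟨-, hgx, -⟩ := wfun71_of_ne_zero ratG F (Fc c) (twTerm r s φ (rep c)) g hp
    obtain ⟨-, hgx', -⟩ := wfun71_of_ne_zero ratG F (Fc c') (twTerm r s φ (rep c')) g' hp'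
    have hcc : (c : TwClass s) = c' := by
      have e1 := mk_tw71 s (rep c) g
      have e2 := mk_tw71 s (rep c') g'
      rw [hrep] at e1 e2
      rw [← e1, ← e2, h]
    have hcc' : c = c' := Subtype.ext hcc
    subst hcc'
    have hη : g' * g⁻¹ ∈ twStab s (rep c) := by
      show (g' * g⁻¹)⁻¹ * rep c * s.onRat (g' * g⁻¹) = rep c
      calc (g' * g⁻¹)⁻¹ * rep c * s.onRat (g' * g⁻¹)
          = g * (g'⁻¹ * rep c * s.onRat g') * (s.onRat g)⁻¹ := by
            simp only [map_mul, map_inv, mul_inv_rev, inv_inv, mul_assoc]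
        _ = g * (g⁻¹ * rep c * s.onRat g) * (s.onRat g)⁻¹ := by rw [h]
        _ = rep c := by simp only [mul_assoc, mul_inv_cancel_left, mul_inv_cancel, mul_one]
    have hy : ratG g * x ∈ slab K := (hFc c).sub hgx
    have huniq := (hFc c).strict _ hy
    have h1 : ratG ((1 : twStab s (rep c)) : GL (Fin 2) K) * (ratG g * x) ∈ Fc c := by
      simpa only [OneMemClass.coe_one, map_one, one_mul] using hgx
    have h2 : ratG ((⟨g' * g⁻¹, hη⟩ : twStab s (rep c)) : GL (Fin 2) K) * (ratG g * x)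
        ∈ Fc c := by
      simpa only [map_mul, map_inv, mul_assoc, inv_mul_cancel_left] using hgx'
    have h3 := huniq.unique h2 h1
    have h4 : g' * g⁻¹ = 1 := congrArg Subtype.val h3
    have h5 : g' = g := by rwa [mul_inv_eq_one] at h4
    subst h5
    rfl
  · -- surjectivity onto the support
    intro δ hδ
    rw [Function.mem_support] at hδ
    have hc := hC₀ δ x hδ
    have hconj : TwConj s (rep (Quotient.mk (twSetoid s) δ)) δ :=
      Quotient.exact (hrep (Quotient.mk (twSetoid s) δ))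
    obtain ⟨g₀, hg₀⟩ := hconj
    have hy₀ : ratG g₀ * x ∈ slab K := hslab g₀ x (hFsub hx)
    obtain ⟨η, hη, -⟩ := (hFc (Quotient.mk (twSetoid s) δ)).strict _ hy₀
    have hη' : ((η : GL (Fin 2) K))⁻¹ * rep (Quotient.mk (twSetoid s) δ)
        * s.onRat (η : GL (Fin 2) K) = rep (Quotient.mk (twSetoid s) δ) := η.2
    have himg : ((η : GL (Fin 2) K) * g₀)⁻¹ * rep (Quotient.mk (twSetoid s) δ)
        * s.onRat ((η : GL (Fin 2) K) * g₀) = δ := by
      calc ((η : GL (Fin 2) K) * g₀)⁻¹ * rep (Quotient.mk (twSetoid s) δ)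
            * s.onRat ((η : GL (Fin 2) K) * g₀)
          = g₀⁻¹ * (((η : GL (Fin 2) K))⁻¹ * rep (Quotient.mk (twSetoid s) δ)
              * s.onRat (η : GL (Fin 2) K)) * s.onRat g₀ := by
            simp only [map_mul, mul_inv_rev, mul_assoc]
        _ = g₀⁻¹ * rep (Quotient.mk (twSetoid s) δ) * s.onRat g₀ := by rw [hη']
        _ = δ := hg₀.symm
    have hmem : ratG ((η : GL (Fin 2) K) * g₀) * x ∈ Fc (Quotient.mk (twSetoid s) δ) := by
      simpa only [map_mul, mul_assoc] using hη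
    have hval : Wfam71 r s φ F C₀ rep Fc (⟨Quotient.mk (twSetoid s) δ, hc⟩,
        (η : GL (Fin 2) K) * g₀) x = twTerm r s φ δ x := by
      unfold Wfam71
      rw [wfun71_of_mem ratG F _ _ _ hx hmem, ← twTerm_tw71 r s φ hrat, himg]
    refine ⟨⟨(⟨Quotient.mk (twSetoid s) δ, hc⟩, (η : GL (Fin 2) K) * g₀), ?_⟩, himg⟩
    rw [Function.mem_support, hval]
    exact hδ
  · -- values
    rintro ⟨⟨c, g⟩, hp⟩
    rw [Function.mem_support] at hp
    obtain ⟨-, -, hval⟩ := wfun71_of_ne_zero ratG F (Fc c) (twTerm r s φ (rep c)) g hp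
    show twTerm r s φ (g⁻¹ * rep c * s.onRat g) x = Wfam71 r s φ F C₀ rep Fc (c, g) x
    unfold Wfam71
    rw [hval, twTerm_tw71 r s φ hrat]

/-- **T5.08**, from the invariance of the slab under `GL₂(K)`. -/
theorem leafTwUnfold_of_slab71 (s : AdelicAut K) (𝔫 : Ideal (𝓞 K)) (τ : G K → ℂ)
    (hslab : ∀ (γ : GL (Fin 2) K) (g : G K), g ∈ slab K → ratG γ * g ∈ slab K) :
    LeafTwUnfold s 𝔫 τ := by
  intro μ F r hF hr hP φ hφ hfin hint rep Fc hrep hFc
  have hB : BorelSpace (G K) := ⟨rfl⟩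
  have hH := hF.haar
  have hCt := countable_gl71 K
  obtain ⟨C₀, hC₀⟩ : ∃ C₀ : Finset (TwClass s), ∀ (δ : GL (Fin 2) K) (x : G K),
      twTerm r s φ δ x ≠ 0 → Quotient.mk (twSetoid s) δ ∈ C₀ := by
    refine ⟨hfin.toFinset, fun δ x h => ?_⟩
    rw [Set.Finite.mem_toFinset]
    exact ⟨δ, rfl, x, h⟩
  clear hfin
  have hcov : ∀ c, ∀ y ∈ Fc c, ∃! γ : GL (Fin 2) K, ratG γ * y ∈ F :=
    fun c y hy => hF.strict y ((hFc c).sub hy)
  have hWint : ∀ p, Integrable (Wfam71 r s φ F C₀ rep Fc p) μ := by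
    intro p
    have h := integrable_wfun71 (E := ℂ) μ (ratG (K := K)) (F := F) (D := Fc p.1)
      (f := twTerm r s φ (rep p.1)) hF.meas (hFc p.1).meas (hint (rep p.1) (Fc p.1) (hFc p.1)) p.2
    exact h
  have hclass : ∀ c : ↥C₀,
      HasSum (fun g => ∫ x, Wfam71 r s φ F C₀ rep Fc (c, g) x ∂μ)
        (∫ x in Fc c, twTerm r s φ (rep c) x ∂μ) := by
    intro c
    have h := hasSum_integral_wfun71 (E := ℂ) μ (ratG (K := K)) (F := F) (D := Fc c)
      (f := twTerm r s φ (rep c)) hF.meas (hFc c).meas (hcov c) (hint _ _ (hFc c))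
    exact h
  have hclassN : ∀ c : ↥C₀,
      Summable (fun g => ∫ x, ‖Wfam71 r s φ F C₀ rep Fc (c, g) x‖ ∂μ) := by
    intro c
    have h := summable_integral_norm_wfun71 (E := ℂ) μ (ratG (K := K)) (F := F) (D := Fc c)
      (f := twTerm r s φ (rep c)) hF.meas (hFc c).meas (hcov c) (hint _ _ (hFc c))
    exact h
  have hsumN : Summable (fun p => ∫ x, ‖Wfam71 r s φ F C₀ rep Fc p x‖ ∂μ) := by
    rw [summable_prod_of_nonneg (fun p => integral_nonneg (fun x => norm_nonneg _))]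
    exact ⟨hclassN, Summable.of_finite⟩
  have hHS := hasSum_integral_of_summable_integral_norm hWint hsumN
  have e1 : ∫ x in F, twKer r s φ x x ∂μ
      = ∫ x in F, ∑' p, Wfam71 r s φ F C₀ rep Fc p x ∂μ :=
    setIntegral_congr_fun hF.meas (fun x hx =>
      tsum_twTerm_eq71 r s φ F C₀ rep Fc hP.rat hslab hF.sub hC₀ hrep hFc x hx)
  have e2 : ∫ x in F, ∑' p, Wfam71 r s φ F C₀ rep Fc p x ∂μ
      = ∫ x, ∑' p, Wfam71 r s φ F C₀ rep Fc p x ∂μ := by
    refine setIntegral_eq_integral_of_forall_compl_eq_zero (fun x hx => ?_)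
    have : ∀ p, Wfam71 r s φ F C₀ rep Fc p x = 0 := fun p =>
      wfun71_of_notMem ratG F _ _ _ hx
    simp only [this, tsum_zero]
  have e3 : ∫ x, ∑' p, Wfam71 r s φ F C₀ rep Fc p x ∂μ
      = ∑' p, ∫ x, Wfam71 r s φ F C₀ rep Fc p x ∂μ := hHS.tsum_eq.symm
  have e4 : ∑' p, ∫ x, Wfam71 r s φ F C₀ rep Fc p x ∂μ
      = ∑' c : ↥C₀, ∑' g, ∫ x, Wfam71 r s φ F C₀ rep Fc (c, g) x ∂μ :=
    hHS.summable.tsum_prod' (fun c => (hclass c).summable)
  have e5 : ∑' c : ↥C₀, ∑' g,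
        ∫ x, Wfam71 r s φ F C₀ rep Fc (c, g) x ∂μ
      = ∑ c : ↥C₀, ∫ x in Fc c, twTerm r s φ (rep c) x ∂μ := by
    rw [tsum_fintype]
    exact Finset.sum_congr rfl (fun c _ => (hclass c).tsum_eq)
  have e6 : ∑ᶠ c : TwClass s, ∫ x in Fc c, twTerm r s φ (rep c) x ∂μ
      = ∑ c ∈ C₀, ∫ x in Fc c, twTerm r s φ (rep c) x ∂μ := by
    refine finsum_eq_sum_of_support_subset _ (fun c hc => ?_)
    rw [Function.mem_support] at hc
    by_contra hcn
    apply hc
    have hz : ∀ x, twTerm r s φ (rep c) x = 0 := by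
      intro x
      by_contra hx
      apply hcn
      have := hC₀ (rep c) x hx
      rwa [hrep c] at this
    simp only [hz, integral_zero]
  rw [e1, e2, e3, e4, e5, e6,
    Finset.sum_coe_sort C₀ (fun c => ∫ x in Fc c, twTerm r s φ (rep c) x ∂μ)]

/-- **T5.08**, from the product formula (`T1.AdNormC`, closed in tower T1). -/
theorem leafTwUnfold_of71 (s : AdelicAut K) (𝔫 : Ideal (𝓞 K)) (τ : G K → ℂ)
    (h : Fermat.Agent.LT.T1.AdNormC K) : LeafTwUnfold s 𝔫 τ :=
  leafTwUnfold_of_slab71 s 𝔫 τ (slab_ratG_mul71 h)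

end concrete71

end Fermat.Agent.LT.T5.H71

end

end
-- ===== PACK-END LT/T5/H71/TwUnfold.lean

-- ===== PACK-BEGIN LT/H19/ParDensity.lean
section


/-!
# Row LT, end PAR (parity), piece PA4 (helper19): the abstract mass count

`false_of_two_sets`: a Rankin bound with constant `1` contradicts two sets of primes of lower
Dirichlet densities `d₁ ≥ 1/2`, `d₂ > 0` on which `‖a p‖² ≥ 2`, resp. `‖a p‖² ≥ 4`.
(Inequality version of `S48.H488.false_of_density`; no disjointness needed.)  OFF-MAIN.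
-/

set_option autoImplicit false

namespace Fermat.Agent.LT.H19

open Fermat.Agent.Lib.Cheb.SpecQ

theorem false_of_two_sets (a : ℕ → ℂ) (N : ℕ) (C : ℝ)
    (hup : ∀ s : ℝ, 1 < s → s ≤ 2 → ∀ P : Finset ℕ, (∀ p ∈ P, p.Prime ∧ ¬ p ∣ N) →
      ∑ p ∈ P, ‖a p‖ ^ 2 * (p : ℝ) ^ (-s) ≤ Real.log (1 / (s - 1)) + C)
    (X₁ X₂ : Set ℕ) (d₁ d₂ : ℝ)
    (h₁ : HasLowerDensity X₁ d₁) (h₂ : HasLowerDensity X₂ d₂)
    (hX₁ : ∀ p ∈ X₁, p.Prime ∧ ¬ p ∣ N ∧ 2 ≤ ‖a p‖ ^ 2)
    (hX₂ : ∀ p ∈ X₂, p.Prime ∧ ¬ p ∣ N ∧ 4 ≤ ‖a p‖ ^ 2)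
    (hd₁ : 1 ≤ 2 * d₁) (hd₂ : 0 < d₂) : False := by
  classical
  set ε : ℝ := d₂ / 4 with hε
  have hεpos : 0 < ε := by positivity
  obtain ⟨δ₁, hδ₁, hs₁⟩ := h₁ ε hεpos
  obtain ⟨δ₂, hδ₂, hs₂⟩ := h₂ ε hεpos
  set M : ℝ := |C| / d₂ + 1 with hM
  have hM1 : 1 ≤ M := by
    have : 0 ≤ |C| / d₂ := by positivity
    linarith
  set u : ℝ := min (min (δ₁ / 2) (δ₂ / 2)) (min 1 (Real.exp (-M))) with hu
  have hu0 : 0 < u := by
    refine lt_min (lt_min (by positivity) (by positivity)) (lt_min one_pos (Real.exp_pos _))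
  have hu1 : u ≤ 1 := (min_le_right _ _).trans (min_le_left _ _)
  have hue : u ≤ Real.exp (-M) := (min_le_right _ _).trans (min_le_right _ _)
  have huδ₁ : u < δ₁ := by
    have : u ≤ δ₁ / 2 := (min_le_left _ _).trans (min_le_left _ _)
    linarith
  have huδ₂ : u < δ₂ := by
    have : u ≤ δ₂ / 2 := (min_le_left _ _).trans (min_le_right _ _)
    linarith
  have hs1 : 1 < 1 + u := by linarith
  have hs2 : 1 + u ≤ 2 := by linarith
  have hsu : (1 + u) - 1 = u := by ring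
  set Lg : ℝ := Real.log (1 / ((1 + u) - 1)) with hLgdef
  have hLg : M ≤ Lg := by
    rw [hLgdef, hsu, one_div, Real.log_inv]
    have := Real.log_le_log hu0 hue
    rw [Real.log_exp] at this
    linarith
  have hLgpos : 0 < Lg := by linarith
  obtain ⟨T₁, hT₁, hsum₁⟩ := hs₁ (1 + u) hs1 (by linarith)
  obtain ⟨T₂, hT₂, hsum₂⟩ := hs₂ (1 + u) hs1 (by linarith)
  have hw : ∀ p : ℕ, 0 ≤ (p : ℝ) ^ (-(1 + u)) := fun p =>
    Real.rpow_nonneg (Nat.cast_nonneg p) _
  have hT : ∀ p ∈ T₁ ∪ T₂, p.Prime ∧ ¬ p ∣ N := by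
    intro p hp
    rcases Finset.mem_union.mp hp with h | h
    · exact ⟨(hX₁ p (hT₁ p h)).1, (hX₁ p (hT₁ p h)).2.1⟩
    · exact ⟨(hX₂ p (hT₂ p h)).1, (hX₂ p (hT₂ p h)).2.1⟩
  have hupper := hup (1 + u) hs1 hs2 (T₁ ∪ T₂) hT
  -- the lower bound
  have hlow : 2 * ∑ p ∈ T₁, (p : ℝ) ^ (-(1 + u)) + 2 * ∑ p ∈ T₂, (p : ℝ) ^ (-(1 + u)) ≤
      ∑ p ∈ T₁ ∪ T₂, ‖a p‖ ^ 2 * (p : ℝ) ^ (-(1 + u)) := by
    have e1 : ∑ p ∈ T₁, (p : ℝ) ^ (-(1 + u)) =
        ∑ p ∈ T₁ ∪ T₂, (if p ∈ T₁ then (p : ℝ) ^ (-(1 + u)) else 0) := by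
      rw [← Finset.sum_filter]
      congr 1
      ext p
      simp only [Finset.mem_filter, Finset.mem_union]
      tauto
    have e2 : ∑ p ∈ T₂, (p : ℝ) ^ (-(1 + u)) =
        ∑ p ∈ T₁ ∪ T₂, (if p ∈ T₂ then (p : ℝ) ^ (-(1 + u)) else 0) := by
      rw [← Finset.sum_filter]
      congr 1
      ext p
      simp only [Finset.mem_filter, Finset.mem_union]
      tauto
    rw [e1, e2, Finset.mul_sum, Finset.mul_sum, ← Finset.sum_add_distrib]
    apply Finset.sum_le_sum
    intro p hp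
    have hwp := hw p
    by_cases hp2 : p ∈ T₂
    · have h4 := (hX₂ p (hT₂ p hp2)).2.2
      by_cases hp1 : p ∈ T₁
      · simp only [hp1, hp2, if_true]
        nlinarith
      · simp only [hp1, hp2, if_true, if_false]
        nlinarith
    · have hp1 : p ∈ T₁ := by
        rcases Finset.mem_union.mp hp with h | h
        · exact h
        · exact absurd h hp2
      have h2 := (hX₁ p (hT₁ p hp1)).2.2
      simp only [hp1, hp2, if_true, if_false]
      nlinarith
  have hmain : (2 * (d₁ - ε) + 2 * (d₂ - ε)) * Lg ≤ Lg + C := by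
    calc (2 * (d₁ - ε) + 2 * (d₂ - ε)) * Lg
        = 2 * ((d₁ - ε) * Lg) + 2 * ((d₂ - ε) * Lg) := by ring
      _ ≤ 2 * ∑ p ∈ T₁, (p : ℝ) ^ (-(1 + u)) + 2 * ∑ p ∈ T₂, (p : ℝ) ^ (-(1 + u)) := by
          linarith
      _ ≤ _ := hlow
      _ ≤ _ := hupper
  have h3 : d₂ * Lg ≤ |C| := by
    have hC := le_abs_self C
    have h4 : (2 * (d₁ - ε) + 2 * (d₂ - ε)) * Lg = (2 * d₁ - 1) * Lg + Lg + d₂ * Lg := by
      rw [hε]; ring
    have h5 : 0 ≤ (2 * d₁ - 1) * Lg := mul_nonneg (by linarith) hLgpos.le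
    linarith
  have h6 : d₂ * M ≤ d₂ * Lg := mul_le_mul_of_nonneg_left hLg hd₂.le
  have h7 : d₂ * M = |C| + d₂ := by
    rw [hM]
    field_simp
  linarith

end Fermat.Agent.LT.H19

end
-- ===== PACK-END LT/H19/ParDensity.lean

-- ===== PACK-BEGIN LT/T8/H468/Pred.lean
section


/-!
# Row LT, tower T8, sub-leaf P-A: the predicates of `A0` on scalar ideles (helper468, OFF-MAIN)
-/

set_option autoImplicit false

open IsDedekindDomain NumberField AutomorphicForm
open scoped MatrixGroups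

noncomputable section

namespace Fermat.Agent.LT.T8.H468

open Fermat.Agent.LT.H556.A0
open scoped Classical

/-! ## The closure of an ideal in a completion -/

theorem valued_algebraMap468 (v : HeightOneSpectrum (𝓞 ℚ)) (q : ℚ) :
    Valued.v (algebraMap ℚ (v.adicCompletion ℚ) q) = v.valuation ℚ q :=
  HeightOneSpectrum.valuedAdicCompletion_eq_valuation' v q

theorem zero_mem_idealClosure468 (𝔫 : Ideal (𝓞 ℚ)) (v : HeightOneSpectrum (𝓞 ℚ)) :
    (0 : v.adicCompletion ℚ) ∈ idealClosure 𝔫 v := by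
  apply subset_closure
  exact ⟨0, 𝔫.zero_mem, by simp⟩

/-- `n₀ x` lies in the closure of `𝔫` when `n₀ ∈ 𝔫` and `x` is `v`-integral. -/
theorem mem_idealClosure468 (𝔫 : Ideal (𝓞 ℚ)) (v : HeightOneSpectrum (𝓞 ℚ)) (n₀ : 𝓞 ℚ)
    (hn₀ : n₀ ∈ 𝔫) (x : ℚ) (hx : v.valuation ℚ x ≤ 1) :
    algebraMap ℚ (v.adicCompletion ℚ) (algebraMap (𝓞 ℚ) ℚ n₀ * x) ∈ idealClosure 𝔫 v := by
  unfold idealClosure
  rw [mem_closure_iff_nhds]
  intro t ht
  obtain ⟨γ, hγ⟩ := Valued.mem_nhds.1 ht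
  have hne : MonoidWithZeroHom.ValueGroup₀.embedding γ.1 ≠ 0 :=
    (map_ne_zero _).2 γ.ne_zero
  obtain ⟨a, ha⟩ := HeightOneSpectrum.exists_valuation_sub_lt_of_integer v hx (Units.mk0 _ hne)
  rw [Units.val_mk0] at ha
  refine ⟨algebraMap ℚ (v.adicCompletion ℚ) (algebraMap (𝓞 ℚ) ℚ (n₀ * a)), hγ ?_,
    ⟨n₀ * a, 𝔫.mul_mem_right a hn₀, rfl⟩⟩
  show Valued.v.restrict _ < γ.1
  rw [Valuation.restrict_lt_iff_lt_embedding, ← map_sub, valued_algebraMap468]
  have h1 : algebraMap (𝓞 ℚ) ℚ (n₀ * a) - algebraMap (𝓞 ℚ) ℚ n₀ * x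
      = algebraMap (𝓞 ℚ) ℚ n₀ * (algebraMap (𝓞 ℚ) ℚ a - x) := by
    rw [map_mul]; ring
  rw [h1, map_mul]
  calc v.valuation ℚ (algebraMap (𝓞 ℚ) ℚ n₀) * v.valuation ℚ (algebraMap (𝓞 ℚ) ℚ a - x)
      ≤ 1 * v.valuation ℚ (algebraMap (𝓞 ℚ) ℚ a - x) :=
        mul_le_mul_left (HeightOneSpectrum.valuation_le_one v n₀) _
    _ = v.valuation ℚ (algebraMap (𝓞 ℚ) ℚ a - x) := one_mul _
    _ < _ := ha

/-! ## Valuations of integers at the places of `ℚ` -/

open Rat.HeightOneSpectrum in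
theorem natCast_mem_asIdeal_iff468 (v : HeightOneSpectrum (𝓞 ℚ)) (n : ℕ) :
    ((n : ℕ) : 𝓞 ℚ) ∈ v.asIdeal ↔ natGenerator v ∣ n := by
  rw [natGenerator_dvd_iff,
    ← Ideal.apply_mem_of_equiv_iff (f := Rat.IsIntegralClosure.intEquiv (𝓞 ℚ)), map_natCast]

open Rat.HeightOneSpectrum in
theorem intCast_mem_asIdeal_iff468 (v : HeightOneSpectrum (𝓞 ℚ)) (n : ℤ) :
    ((n : ℤ) : 𝓞 ℚ) ∈ v.asIdeal ↔ (natGenerator v : ℤ) ∣ n := by
  rw [← Ideal.apply_mem_of_equiv_iff (f := Rat.IsIntegralClosure.intEquiv (𝓞 ℚ)), map_intCast,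
    ← span_natGenerator, Ideal.mem_span_singleton]
  simp

theorem valuation_intCast_le_one468 (v : HeightOneSpectrum (𝓞 ℚ)) (n : ℤ) :
    v.valuation ℚ (n : ℚ) ≤ 1 := by
  have h := HeightOneSpectrum.valuation_le_one (K := ℚ) v ((n : ℤ) : 𝓞 ℚ)
  simpa using h

open Rat.HeightOneSpectrum in
theorem valuation_intCast_eq_one468 (v : HeightOneSpectrum (𝓞 ℚ)) (n : ℤ)
    (h : ¬ (natGenerator v : ℤ) ∣ n) : v.valuation ℚ (n : ℚ) = 1 := by
  have h1 : v.valuation ℚ (algebraMap (𝓞 ℚ) ℚ ((n : ℤ) : 𝓞 ℚ)) = 1 :=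
    (HeightOneSpectrum.valuation_eq_one_iff_notMem v).2
      (fun hm => h ((intCast_mem_asIdeal_iff468 v n).1 hm))
  rwa [map_intCast] at h1

open Rat.HeightOneSpectrum in
theorem valuation_natCast_eq_one468 (v : HeightOneSpectrum (𝓞 ℚ)) (n : ℕ)
    (h : ¬ natGenerator v ∣ n) : v.valuation ℚ (n : ℚ) = 1 := by
  have := valuation_intCast_eq_one468 v (n : ℤ) (fun hd => h (Int.natCast_dvd_natCast.1 hd))
  simpa using this

open Rat.HeightOneSpectrum in
theorem asIdeal_eq_span468 (v : HeightOneSpectrum (𝓞 ℚ)) :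
    v.asIdeal = Ideal.span {((natGenerator v : ℕ) : 𝓞 ℚ)} := by
  apply le_antisymm
  · intro x hx
    rw [Ideal.mem_span_singleton]
    have h1 : Rat.IsIntegralClosure.intEquiv (𝓞 ℚ) x ∈
        Ideal.map (Rat.IsIntegralClosure.intEquiv (𝓞 ℚ)) v.asIdeal :=
      Ideal.apply_mem_of_equiv_iff.2 hx
    rw [← span_natGenerator, Ideal.mem_span_singleton] at h1
    obtain ⟨c, hc⟩ := h1
    refine ⟨(Rat.IsIntegralClosure.intEquiv (𝓞 ℚ)).symm c, ?_⟩
    apply (Rat.IsIntegralClosure.intEquiv (𝓞 ℚ)).injective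
    rw [hc, map_mul, RingEquiv.apply_symm_apply, map_natCast]
  · rw [Ideal.span_singleton_le_iff_mem]
    exact (natCast_mem_asIdeal_iff468 v _).2 dvd_rfl

open Rat.HeightOneSpectrum in
theorem valuation_natGenerator468 (v : HeightOneSpectrum (𝓞 ℚ)) :
    v.valuation ℚ ((natGenerator v : ℕ) : ℚ) = WithZero.exp (-1 : ℤ) := by
  have hne : ((natGenerator v : ℕ) : 𝓞 ℚ) ≠ 0 := by
    have := (prime_natGenerator v).ne_zero
    exact_mod_cast this
  have h := HeightOneSpectrum.intValuation_singleton v hne (asIdeal_eq_span468 v)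
  rw [← HeightOneSpectrum.valuation_of_algebraMap (K := ℚ)] at h
  simpa using h

/-! ## The predicates -/

open Rat.HeightOneSpectrum in
/-- The scalar idele `ℓ_v` at `v` (`ℓ` the prime under `v`) is a scalar uniformiser at `v`. -/
theorem isScalarUniformizerAt468 (v : HeightOneSpectrum (𝓞 ℚ)) (h0 : ((natGenerator v : ℕ) : ℚ) ≠ 0) :
    IsScalarUniformizerAt v (sc468 (locIdele468 v ((natGenerator v : ℕ) : ℚ) h0)) := by
  refine ⟨⟨fun w => trivAtInf_sc468 w _ ?_, fun v' hv' => trivAtFin_sc468 v' _ ?_⟩,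
    algebraMap ℚ (v.adicCompletion ℚ) ((natGenerator v : ℕ) : ℚ), ?_, ?_⟩
  · rw [locIdele468_val, locPart468_fst]
  · rw [locIdele468_val, locPart468_snd_ne _ _ _ hv']
  · rw [valued_algebraMap468, valuation_natGenerator468]
  · rw [finComp_sc468, locIdele468_val, locPart468_snd_same]

theorem isLocalAtInf_sc468 (w : InfinitePlace ℚ) (a : (Adl ℚ)ˣ)
    (h : ∀ v : HeightOneSpectrum (𝓞 ℚ), (a : Adl ℚ).2 v = 1) : IsLocalAtInf w (sc468 a) := by
  refine ⟨fun w' hw' => absurd (Subsingleton.elim w' w) hw', fun v => trivAtFin_sc468 v a (h v)⟩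

theorem extensionEmbedding_algebraMap468 (w : InfinitePlace ℚ) (q : ℚ) :
    InfinitePlace.Completion.extensionEmbedding w (algebraMap ℚ w.Completion q) = (q : ℂ) := by
  have := InfinitePlace.Completion.extensionEmbedding_coe w q
  simp

/-- Positive rational scalars at the real place. -/
theorem isArchPosScalar468 (w : InfinitePlace ℚ) (r : ℚ) (hr : 0 < r) :
    IsArchPosScalar w (sc468 (infIdele468 r hr.ne')) := by
  refine ⟨isLocalAtInf_sc468 w _ (fun v => ?_), (r : ℝ), by exact_mod_cast hr, ?_⟩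
  · rw [infIdele468_val, infPart468_snd]
  · rw [infComp_sc468, infIdele468_val, infPart468_fst, extensionEmbedding_algebraMap468]
    simp

/-- `-1` at the real place lies in `SO(2)`. -/
theorem isArchCompact_neg_one468 (w : InfinitePlace ℚ) :
    IsArchCompact w (sc468 (infIdele468 (-1) (by norm_num))) := by
  have hc : infComp w (sc468 (infIdele468 (-1) (by norm_num)))
      = Matrix.diagonal (fun _ => (-1 : ℂ)) := by
    rw [infComp_sc468, infIdele468_val, infPart468_fst, extensionEmbedding_algebraMap468]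
    simp
  refine ⟨isLocalAtInf_sc468 w _ (fun v => ?_), ?_, fun _ => ?_⟩
  · rw [infIdele468_val, infPart468_snd]
  · rw [hc, Matrix.diagonal_conjTranspose, Matrix.diagonal_mul_diagonal]
    simp
  · rw [hc, Matrix.det_diagonal]
    simp

/-- Level group membership of a scalar idele. -/
theorem inLevelGroup_sc468 (𝔫 : Ideal (𝓞 ℚ)) (u : (Adl ℚ)ˣ)
    (h1 : ∀ w : InfinitePlace ℚ, (u : Adl ℚ).1 w = 1)
    (h2 : ∀ v : HeightOneSpectrum (𝓞 ℚ), (u : Adl ℚ).2 v - 1 ∈ idealClosure 𝔫 v)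
    (h3 : ∀ v : HeightOneSpectrum (𝓞 ℚ),
      ((u⁻¹ : (Adl ℚ)ˣ) : Adl ℚ).2 v - 1 ∈ idealClosure 𝔫 v) :
    InLevelGroup 𝔫 (sc468 u) := by
  refine ⟨fun w => trivAtInf_sc468 w u (h1 w), fun v i j => ⟨?_, ?_⟩⟩
  · rw [finComp_sc468, Matrix.sub_apply, Matrix.diagonal_apply, Matrix.one_apply]
    split_ifs
    · exact h2 v
    · rw [sub_zero]; exact zero_mem_idealClosure468 𝔫 v
  · rw [← map_inv, finComp_sc468, Matrix.sub_apply, Matrix.diagonal_apply, Matrix.one_apply]
    split_ifs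
    · exact h3 v
    · rw [sub_zero]; exact zero_mem_idealClosure468 𝔫 v

end Fermat.Agent.LT.T8.H468

end

end
-- ===== PACK-END LT/T8/H468/Pred.lean

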