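import Mathlib
import Fermat.Agent.Pack.LT2.E6L2
import Fermat.Agent.Pack.LT2.E5L3
import Fermat.Agent.Pack.LT2.E2L1
import Fermat.Agent.Pack.LT2.E1L3
import Fermat.Agent.Pack.LT2.E4L2
import Fermat.Agent.Pack.LT2.E0L2
import Fermat.Agent.Pack.LT2.E3L1
import Fermat.Agent.Pack.LT2.E5L1
import Fermat.Agent.Pack.LT2.E6L1
import Fermat.Agent.Pack.LT2.E6L0
import Fermat.Agent.Pack.LT2.E3L0

set_option linter.all false

-- ===== PACK-BEGIN LT/A2/Theta.lean
section


/-!
# Row LT, tower A2, block THETA -- level 2: frozen interfaces (helper950)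

    ThetaC  ⟸  KernelC + AdeleQuotC + CuspOfWhitC + MeanOfWhitC + NeZeroOfWhitC
                                                      (`theta_of_leaves`, `ThetaTop.lean`)

The cut is along the FOURIER--WHITTAKER EXPANSION  `φ(g) = ∑_{α ∈ K^×} W(diag(α,1) g)`:

* `KernelC` (the construction): the theta lift `φ` of `χ` with its Whittaker function `W`
  (an orbital integral of the Weil representation over the norm-one torus); everything which is
  LOCAL is a property of `W` (Hecke eigen-property at `v ∤ 𝔫`, mean-value property at the complex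
  places, non-vanishing), everything which is GLOBAL and does not follow from the expansion is a
  property of `φ` (continuity, boundedness, automorphy, level).
* the `…OfWhitC` leaves transfer the local properties from `W` to `φ` through the expansion
  (abstract harmonic analysis on the compact group `𝔸_K / K`; no Weil representation).
* `AdeleQuotC` is an INTERFACE with towers T1 / T3 (Tate's thesis): `K` is a lattice of finite
  covolume in `𝔸_K`.

Definitions only (no `sorry`, nothing assumed).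
-/

set_option autoImplicit false

open IsDedekindDomain NumberField AutomorphicForm
open scoped MatrixGroups

noncomputable section

namespace Fermat.Agent.LT.A2

open Fermat.Agent.LT.H130 Fermat.Agent.LT.H556

section Whittaker

variable {K : Type} [Field K] [NumberField K]

/-- `n` is the upper unipotent parametrisation `x ↦ [[1, x], [0, 1]]` of `GL₂(𝔸_K)`
(relational, as in `A0.IsCuspidalFn`). -/
def IsUpperUnip (n : A0.Adl K → A0.G K) : Prop :=
  ∀ x : A0.Adl K, (n x : Matrix (Fin 2) (Fin 2) (A0.Adl K)) = !![1, x; 0, 1]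

/-- `d` is the rational diagonal parametrisation `α ↦ diag(α, 1)`, `α ∈ K^×`. -/
def IsRatDiag (d : Kˣ → A0.G K) : Prop :=
  ∀ α : Kˣ, (d α : Matrix (Fin 2) (Fin 2) (A0.Adl K))
    = !![algebraMap K (A0.Adl K) (α : K), 0; 0, 1]

/-- `ψ` is a nontrivial continuous unitary character of `𝔸_K`, trivial on `K`. -/
structure IsAdeleChar (ψ : A0.Adl K → ℂ) : Prop where
  cont : Continuous ψ
  map_add : ∀ x y : A0.Adl K, ψ (x + y) = ψ x * ψ y
  norm_one : ∀ x : A0.Adl K, ‖ψ x‖ = 1
  triv : ∀ k : K, ψ (algebraMap K (A0.Adl K) k) = 1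
  nontriv : ∃ x : A0.Adl K, ψ x ≠ 1

/-- **The Fourier--Whittaker expansion** of `φ` with Whittaker function `W` (character `ψ`):
`W(n(x) g) = ψ(x) W(g)`, the series `∑_{α ∈ K^×} W(diag(α,1) g)` is normally convergent on the
compact subsets of `GL₂(𝔸_K)`, and its sum is `φ(g)`. -/
structure IsWhitExp (ψ : A0.Adl K → ℂ) (φ W : A0.G K → ℂ) : Prop where
  equiv : ∀ n : A0.Adl K → A0.G K, IsUpperUnip n →
    ∀ (x : A0.Adl K) (g : A0.G K), W (n x * g) = ψ x * W g
  loc_summable : ∀ C : Set (A0.G K), IsCompact C → ∃ b : Kˣ → ℝ, Summable b ∧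
    ∀ d : Kˣ → A0.G K, IsRatDiag d → ∀ (α : Kˣ) (g : A0.G K), g ∈ C → ‖W (d α * g)‖ ≤ b α
  expansion : ∀ d : Kˣ → A0.G K, IsRatDiag d → ∀ g : A0.G K, φ g = ∑' α : Kˣ, W (d α * g)

/-- **The station after the construction**: an automorphic function `φ` of level `π.level`,
right invariant under `ℝ_{>0}` and the maximal compact subgroups at the infinite places,
continuous and bounded, with a Fourier--Whittaker expansion whose Whittaker function `W` is
continuous, not identically zero, has the mean-value property of parameter `0` at the complex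
places and is a Hecke eigenfunction with the eigenvalues of `π` at the places `v ∤ π.level`. -/
structure PreCusp (π : HeckeEigensystem K ℂ) (ψ : A0.Adl K → ℂ) (φ W : A0.G K → ℂ) : Prop where
  char : IsAdeleChar ψ
  cont : Continuous φ
  bdd : ∃ C : ℝ, ∀ g : A0.G K, ‖φ g‖ ≤ C
  left_inv : ∀ (γ : GL (Fin 2) K) (g : A0.G K),
    φ (Matrix.GeneralLinearGroup.map (algebraMap K (A0.Adl K)) γ * g) = φ g
  level_inv : ∀ u : A0.G K, A0.InLevelGroup π.level u → ∀ g : A0.G K, φ (g * u) = φ g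
  arch_scalar : ∀ (w : InfinitePlace K) (z : A0.G K), A0.IsArchPosScalar w z →
    ∀ g : A0.G K, φ (g * z) = φ g
  arch_compact : ∀ (w : InfinitePlace K) (k : A0.G K), A0.IsArchCompact w k →
    ∀ g : A0.G K, φ (g * k) = φ g
  whit : IsWhitExp ψ φ W
  W_cont : Continuous W
  W_ne : ∃ g : A0.G K, W g ≠ 0
  W_mean : ∀ w : InfinitePlace K, w.IsComplex → A0.MeanValueComplex W w
  W_hecke : ∀ v : HeightOneSpectrum (𝓞 K), ¬ v.asIdeal ∣ π.level →
    A0.IsHeckeEigenAt W v (π.a v) (π.b v)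

end Whittaker

/-! ## The leaves of level 2 -/

section Leaves

/-- **KERNEL (the theta lift and its Whittaker function).**  For `K`, `L`, `χ` as in `ThetaC`
there are an eigensystem `π` with the induced data and `ψ`, `φ`, `W` as in `PreCusp`.
`φ(g) = ∫_{T¹(K)\T¹(𝔸)} Θ_Φ(g, h h_g) χ(h h_g) dh` on `GL₂(K) GL₂(𝔸)⁺`, `0` elsewhere;
`W(g) = ∫_{T¹(𝔸)} (r(g, h h_g) Φ)(1) χ(h h_g) dh`.  Weil 1964 (§§ 13--16, 39--41),
Shalika--Tanaka 1969 §2, Jacquet--Langlands §1, §4 (Thm 4.6), §12 (Prop. 12.1), Bump §4.8.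
Cut further in `Kernel.lean`. -/
def KernelC : Prop :=
  ∀ (K L : Type) [Field K] [NumberField K] [Field L] [NumberField L] [Algebra K L],
    Module.finrank K L = 2 → (∀ u : InfinitePlace K, u.IsComplex) →
    ∀ χ : (A0.Adl L)ˣ →* ℂˣ, IsIdeleClassChar χ → IsFiniteOrder χ → NotGaloisInvariant K χ →
      ∃ (π : HeckeEigensystem K ℂ) (ψ : A0.Adl K → ℂ) (φ W : A0.G K → ℂ),
        PreCusp π ψ φ W ∧ InducedData χ π

/-- **ADELE-QUOT (interface with towers T1 / T3).**  `K` is a lattice of finite covolume in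
`𝔸_K`: every fundamental domain has finite Haar measure, and there is one (Borel σ-algebra).
Tate's thesis Thm 4.1.3; Cassels--Fröhlich II §14; Weil, *Basic number theory* IV §2 Thm 2. -/
def AdeleQuotC : Prop :=
  ∀ (K : Type) [Field K] [NumberField K],
    letI : MeasurableSpace (A0.Adl K) := borel (A0.Adl K)
    (∀ μ : MeasureTheory.Measure (A0.Adl K), μ.IsAddHaarMeasure →
      ∀ D : Set (A0.Adl K),
        MeasureTheory.IsAddFundamentalDomain
          ((algebraMap K (A0.Adl K)).toAddMonoidHom.range) D μ → μ D < ⊤) ∧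
    ∃ (μ : MeasureTheory.Measure (A0.Adl K)) (D : Set (A0.Adl K)), μ.IsAddHaarMeasure ∧
      MeasureTheory.IsAddFundamentalDomain
        ((algebraMap K (A0.Adl K)).toAddMonoidHom.range) D μ

/-- **CUSP-OF-WHIT.**  A function with a Fourier--Whittaker expansion (no constant term) is
cuspidal: `∫_D φ(n(x) g) dx = ∑_α W(diag(α,1) g) ∫_D ψ(α x) dx = 0`, the characters `x ↦ ψ(α x)`,
`α ≠ 0`, of `𝔸_K / K` being nontrivial.  (If `x ↦ φ(n(x) g)` is not integrable on `D` the
integral is `0` by convention.) -/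
def CuspOfWhitC : Prop :=
  AdeleQuotC →
  ∀ (K : Type) [Field K] [NumberField K] (π : HeckeEigensystem K ℂ) (ψ : A0.Adl K → ℂ)
    (φ W : A0.G K → ℂ), PreCusp π ψ φ W → A0.IsCuspidalFn φ

/-- **MEAN-OF-WHIT.**  The mean-value property at a complex place passes from `W` to the sum of
the expansion (the sphere is compact: normal convergence, dominated convergence). -/
def MeanOfWhitC : Prop :=
  ∀ (K : Type) [Field K] [NumberField K] (π : HeckeEigensystem K ℂ) (ψ : A0.Adl K → ℂ)
    (φ W : A0.G K → ℂ), PreCusp π ψ φ W →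
    ∀ w : InfinitePlace K, w.IsComplex → A0.MeanValueComplex φ w

/-- **NEZERO-OF-WHIT.**  `W(g) = vol(D)⁻¹ ∫_D φ(n(x) g) ψ(-x) dx` (orthogonality of the characters
of `𝔸_K / K`), hence `φ ≠ 0` because `W ≠ 0`. -/
def NeZeroOfWhitC : Prop :=
  AdeleQuotC →
  ∀ (K : Type) [Field K] [NumberField K] (π : HeckeEigensystem K ℂ) (ψ : A0.Adl K → ℂ)
    (φ W : A0.G K → ℂ), PreCusp π ψ φ W → ∃ g : A0.G K, φ g ≠ 0

end Leaves

end Fermat.Agent.LT.A2

end

end
-- ===== PACK-END LT/A2/Theta.lean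

-- ===== PACK-BEGIN LT/H129/HeckeExists.lean
section


/-!
# Row LT, helper129: existence of Hecke coset systems and scalar uniformisers (A0 vocabulary)

OFF-MAIN.  General number field `K`, finite place `v`.

* `exists_heckeCosetSystem129 v : ∃ H, A0.IsHeckeCosetSystem v H` — the standard system
  `[[ϖ, r], [0, 1]]` (`r` running over representatives of `𝓞 K ⧸ v`), `[[1, 0], [0, ϖ]]`;
* `exists_scalarUniformizer129 v : ∃ z, A0.IsScalarUniformizerAt v z`.
-/

set_option autoImplicit false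

open IsDedekindDomain NumberField IsDedekindDomain.HeightOneSpectrum
open Fermat.Agent.LT.H556.A0

noncomputable section

namespace Fermat.Agent.LT.H129

section Generic

variable {F : Type*} [Field F]

theorem upper_inv_mul_upper129 {π : F} (hπ : π ≠ 0) (r r' : F) :
    (((mkGL129 π r 0 1 (by simpa using hπ))⁻¹ * mkGL129 π r' 0 1 (by simpa using hπ) :
      GL (Fin 2) F) : Matrix (Fin 2) (Fin 2) F) 0 1 = (r' - r) / π := by
  rw [inv_mul_apply129]
  simp only [coe_mkGL129, Matrix.adjugate_fin_two_of, Matrix.det_fin_two_of, Matrix.mul_apply,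
    Fin.sum_univ_two, Matrix.of_apply, Matrix.cons_val', Matrix.cons_val_zero,
    Matrix.cons_val_one, Matrix.cons_val_fin_one]
  simp only [mul_one, mul_zero, sub_zero, one_mul]
  ring

theorem upper_inv_mul_lower129 {π : F} (hπ : π ≠ 0) (r : F) :
    (((mkGL129 π r 0 1 (by simpa using hπ))⁻¹ * mkGL129 1 0 0 π (by simpa using hπ) :
      GL (Fin 2) F) : Matrix (Fin 2) (Fin 2) F) 0 0 = π⁻¹ := by
  rw [inv_mul_apply129]
  simp only [coe_mkGL129, Matrix.adjugate_fin_two_of, Matrix.det_fin_two_of, Matrix.mul_apply,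
    Fin.sum_univ_two, Matrix.of_apply, Matrix.cons_val', Matrix.cons_val_zero,
    Matrix.cons_val_one, Matrix.cons_val_fin_one]
  simp only [mul_one, mul_zero, sub_zero, add_zero]
  rw [one_div]

theorem lower_inv_mul_upper129 {π : F} (hπ : π ≠ 0) (r : F) :
    (((mkGL129 1 0 0 π (by simpa using hπ))⁻¹ * mkGL129 π r 0 1 (by simpa using hπ) :
      GL (Fin 2) F) : Matrix (Fin 2) (Fin 2) F) 1 1 = π⁻¹ := by
  rw [inv_mul_apply129]
  simp only [coe_mkGL129, Matrix.adjugate_fin_two_of, Matrix.det_fin_two_of, Matrix.mul_apply,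
    Fin.sum_univ_two, Matrix.of_apply, Matrix.cons_val', Matrix.cons_val_zero,
    Matrix.cons_val_one, Matrix.cons_val_fin_one]
  simp only [mul_one, mul_zero, sub_zero, one_mul, neg_zero, zero_mul, zero_add]
  rw [one_div]

end Generic

variable {K : Type} [Field K] [NumberField K] (v : HeightOneSpectrum (𝓞 K))

/-- A uniformiser of `K_v` coming from `K`. -/
theorem exists_unif129 : ∃ π : v.adicCompletion K, Valued.v π = WithZero.exp (-1 : ℤ) := by
  obtain ⟨π, hπ⟩ := v.valuation_exists_uniformizer K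
  exact ⟨(π : v.adicCompletion K), by rw [valuedAdicCompletion_eq_valuation', hπ]⟩

theorem unif_ne_zero129 {π : v.adicCompletion K} (hπ : Valued.v π = WithZero.exp (-1 : ℤ)) :
    π ≠ 0 := by
  intro h
  rw [h, map_zero] at hπ
  exact WithZero.exp_ne_zero.symm hπ

theorem unif_mem129 {π : v.adicCompletion K} (hπ : Valued.v π = WithZero.exp (-1 : ℤ)) :
    π ∈ v.adicCompletionIntegers K := by
  rw [mem_adicCompletionIntegers, hπ, ← WithZero.exp_zero, WithZero.exp_le_exp]
  norm_num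

theorem unif_inv_not_mem129 {π : v.adicCompletion K} (hπ : Valued.v π = WithZero.exp (-1 : ℤ)) :
    π⁻¹ ∉ v.adicCompletionIntegers K := by
  rw [mem_adicCompletionIntegers, map_inv₀, hπ, ← WithZero.exp_neg, ← WithZero.exp_zero,
    WithZero.exp_le_exp]
  norm_num

/-- The representative in `K_v` of a residue class of `𝓞 K ⧸ v`. -/
def rep129 (c : 𝓞 K ⧸ v.asIdeal) : v.adicCompletion K :=
  ((algebraMap (𝓞 K) K (Quotient.out c) : K) : v.adicCompletion K)

theorem rep129_mem (c : 𝓞 K ⧸ v.asIdeal) : rep129 v c ∈ v.adicCompletionIntegers K :=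
  coe_mem_adicCompletionIntegers v _

theorem valued_rep129_sub {c c' : 𝓞 K ⧸ v.asIdeal} (h : c ≠ c') :
    Valued.v (rep129 v c' - rep129 v c) = 1 := by
  have e : rep129 v c' - rep129 v c
      = ((algebraMap (𝓞 K) K (Quotient.out c' - Quotient.out c) : K) : v.adicCompletion K) := by
    unfold rep129
    rw [map_sub]
    exact (map_sub (algebraMap K (v.adicCompletion K)) _ _).symm
  rw [e, valuedAdicCompletion_eq_valuation']
  rw [valuation_eq_one_iff_notMem]
  intro hmem
  apply h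
  have : (Ideal.Quotient.mk v.asIdeal) (Quotient.out c') = (Ideal.Quotient.mk v.asIdeal)
      (Quotient.out c) := by
    rw [Ideal.Quotient.eq]
    exact hmem
  have h1 : (Ideal.Quotient.mk v.asIdeal) (Quotient.out c) = c := Quotient.out_eq c
  have h2 : (Ideal.Quotient.mk v.asIdeal) (Quotient.out c') = c' := Quotient.out_eq c'
  rw [h1, h2] at this
  exact this.symm

/-- The standard Hecke coset representatives, indexed by `ℙ¹(𝓞 K ⧸ v) = Option (𝓞 K ⧸ v)`. -/
def stdHecke129 (π : v.adicCompletion K) (hπ : π ≠ 0) : Option (𝓞 K ⧸ v.asIdeal) → G K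
  | some c => locFin129 v (mkGL129 π (rep129 v c) 0 1 (by simpa using hπ))
  | none => locFin129 v (mkGL129 1 0 0 π (by simpa using hπ))

theorem stdHecke129_props {π : v.adicCompletion K} (hπ : Valued.v π = WithZero.exp (-1 : ℤ))
    (a : Option (𝓞 K ⧸ v.asIdeal)) :
    IsLocalAtFin v (stdHecke129 v π (unif_ne_zero129 v hπ) a) ∧
      IsIntegralAt v (stdHecke129 v π (unif_ne_zero129 v hπ) a) ∧
      Valued.v (finComp v (stdHecke129 v π (unif_ne_zero129 v hπ) a)).det
        = WithZero.exp (-1 : ℤ) := by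
  have h1 : (1 : v.adicCompletion K) ∈ v.adicCompletionIntegers K :=
    (v.adicCompletionIntegers K).one_mem
  have h0 : (0 : v.adicCompletion K) ∈ v.adicCompletionIntegers K :=
    (v.adicCompletionIntegers K).zero_mem
  cases a with
  | none =>
    refine ⟨isLocalAtFin_locFin129 v _, ?_, ?_⟩
    · rw [← isInt129_finCompHom_iff]
      simp only [stdHecke129, finCompHom129_locFin129]
      exact isInt129_mkGL _ h1 h0 h0 (unif_mem129 v hπ)
    · simp only [stdHecke129, finComp_locFin129, coe_mkGL129, Matrix.det_fin_two_of]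
      simpa using hπ
  | some c =>
    refine ⟨isLocalAtFin_locFin129 v _, ?_, ?_⟩
    · rw [← isInt129_finCompHom_iff]
      simp only [stdHecke129, finCompHom129_locFin129]
      exact isInt129_mkGL _ (unif_mem129 v hπ) (rep129_mem v c) h0 h1
    · simp only [stdHecke129, finComp_locFin129, coe_mkGL129, Matrix.det_fin_two_of]
      simpa using hπ

theorem stdHecke129_not_int {π : v.adicCompletion K} (hπ : Valued.v π = WithZero.exp (-1 : ℤ))
    {a b : Option (𝓞 K ⧸ v.asIdeal)} (hab : a ≠ b) :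
    ¬ IsIntegralAt v ((stdHecke129 v π (unif_ne_zero129 v hπ) a)⁻¹
      * stdHecke129 v π (unif_ne_zero129 v hπ) b) := by
  have hπ0 := unif_ne_zero129 v hπ
  intro hint
  rw [← isInt129_finCompHom_iff, map_mul, map_inv] at hint
  cases a with
  | none =>
    cases b with
    | none => exact hab rfl
    | some c =>
      simp only [stdHecke129, finCompHom129_locFin129] at hint
      have := hint 1 1
      rw [lower_inv_mul_upper129 hπ0] at this
      exact unif_inv_not_mem129 v hπ this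
  | some c =>
    cases b with
    | none =>
      simp only [stdHecke129, finCompHom129_locFin129] at hint
      have := hint 0 0
      rw [upper_inv_mul_lower129 hπ0] at this
      exact unif_inv_not_mem129 v hπ this
    | some c' =>
      have hcc : c ≠ c' := fun h => hab (by rw [h])
      simp only [stdHecke129, finCompHom129_locFin129] at hint
      have := hint 0 1
      rw [upper_inv_mul_upper129 hπ0, mem_adicCompletionIntegers, map_div₀,
        valued_rep129_sub v hcc, hπ, one_div, ← WithZero.exp_neg, ← WithZero.exp_zero,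
        WithZero.exp_le_exp] at this
      norm_num at this

/-- **Hecke coset systems exist.** -/
theorem exists_heckeCosetSystem129 : ∃ H : Finset (G K), IsHeckeCosetSystem v H := by
  classical
  obtain ⟨π, hπ⟩ := exists_unif129 v
  haveI : Finite (𝓞 K ⧸ v.asIdeal) := by
    apply Nat.finite_of_card_ne_zero
    rw [← Submodule.cardQuot_apply, ← Ideal.absNorm_apply]
    exact ne_of_gt (lt_trans Nat.zero_lt_one (NumberField.HeightOneSpectrum.one_lt_absNorm v))
  letI : Fintype (𝓞 K ⧸ v.asIdeal) := Fintype.ofFinite _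
  have hinj : Function.Injective (stdHecke129 v π (unif_ne_zero129 v hπ)) := by
    intro a b hab
    by_contra hne
    apply stdHecke129_not_int v hπ hne
    rw [hab, inv_mul_cancel]
    intro i j
    have : finComp v (1 : G K) = 1 := by
      rw [← coe_finCompHom129, map_one]; rfl
    rw [this]
    by_cases hij : i = j
    · subst hij; simpa using (v.adicCompletionIntegers K).one_mem
    · simpa [hij] using (v.adicCompletionIntegers K).zero_mem
  refine ⟨Finset.univ.image (stdHecke129 v π (unif_ne_zero129 v hπ)), ?_, ?_, ?_⟩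
  · rw [Finset.card_image_of_injective _ hinj, Finset.card_univ, Fintype.card_option,
      Ideal.absNorm_apply, Submodule.cardQuot_apply, Nat.card_eq_fintype_card]
  · intro h hh
    obtain ⟨a, -, rfl⟩ := Finset.mem_image.mp hh
    exact stdHecke129_props v hπ a
  · intro h hh h' hh' hne
    obtain ⟨a, -, rfl⟩ := Finset.mem_image.mp hh
    obtain ⟨b, -, rfl⟩ := Finset.mem_image.mp hh'
    exact stdHecke129_not_int v hπ (fun e => hne (by rw [e]))

/-- **Scalar uniformisers exist.** -/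
theorem exists_scalarUniformizer129 : ∃ z : G K, IsScalarUniformizerAt v z := by
  obtain ⟨π, hπ⟩ := exists_unif129 v
  have hπ0 := unif_ne_zero129 v hπ
  refine ⟨locFin129 v (mkGL129 π 0 0 π (by simpa using hπ0)), isLocalAtFin_locFin129 v _,
    π, hπ, ?_⟩
  rw [finComp_locFin129, coe_mkGL129]
  ext i j
  fin_cases i <;> fin_cases j <;> simp

end Fermat.Agent.LT.H129

end

end
-- ===== PACK-END LT/H129/HeckeExists.lean

-- ===== PACK-BEGIN LT/T3/H904/EKStarT1.lean
section




/-!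
# Row LT, tower T3, sub-leaf T3.15 `EKStarC` from the interface of tower T1 (helper904)

OFF-MAIN.

* `scaleInv_of` : `T1.LocCompC K → T1.AddFundDomC K → ScaleInvC K` -- the product formula in
  measure form (Weil's proof: `x ↦ ξ x` is an automorphism of `𝔸_K` which maps the lattice `K`
  onto itself, hence maps a fundamental domain to a fundamental domain, hence has module `1`).
* `ekStar_of` : `T1.LocCompC K → T1.AddFundDomC K → T3.EKStarC K`.
-/

set_option autoImplicit false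
set_option linter.style.haveILetI false

open IsDedekindDomain NumberField MeasureTheory
open Fermat.Agent.LT.H556.A0

noncomputable section

namespace Fermat.Agent.LT.T3.H904

variable (K : Type) [Field K] [NumberField K]

/-! ## The product formula in measure form, from the lattice `K ⊂ 𝔸_K` -/

/-- Multiplication by a unit of `𝔸_K` as a continuous additive automorphism. -/
def mulCAE (c : (Adl K)ˣ) : Adl K ≃ₜ+ Adl K :=
  { mulHomeo K c with
    map_add' := fun x y => by simp [mul_add] }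

@[simp] theorem mulCAE_apply (c : (Adl K)ˣ) (x : Adl K) : mulCAE K c x = (c : Adl K) * x := rfl

theorem countable_princ : Countable (T1.princ K) := by
  haveI : Countable K := Finsupp.Countable.of_moduleFinite (R := ℚ) (M := K)
  have : (T1.princ K : Set (Adl K)) = Set.range (algebraMap K (Adl K)) := by
    ext x
    simp [T1.princ]
  have hc : (T1.princ K : Set (Adl K)).Countable := by
    rw [this]
    exact Set.countable_range _
  exact hc.to_subtype

/-- Multiplication by `ξ⁻¹` on the principal adeles. -/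
def princScale (ξ : Kˣ) : T1.princ K → T1.princ K := fun g =>
  ⟨emb K ((ξ⁻¹ : Kˣ) : K) * (g : Adl K), by
    obtain ⟨η, hη⟩ := g.2
    refine ⟨((ξ⁻¹ : Kˣ) : K) * η, ?_⟩
    simp only [RingHom.toAddMonoidHom_eq_coe, AddMonoidHom.coe_coe] at hη ⊢
    rw [map_mul, hη]⟩

theorem princScale_bijective (ξ : Kˣ) : Function.Bijective (princScale K ξ) := by
  refine Function.bijective_iff_has_inverse.mpr ⟨princScale K ξ⁻¹, ?_, ?_⟩
  · intro g
    apply Subtype.ext
    simp only [princScale, inv_inv]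
    rw [← mul_assoc, ← map_mul]
    simp
  · intro g
    apply Subtype.ext
    simp only [princScale, inv_inv]
    rw [← mul_assoc, ← map_mul]
    simp

/-- **The product formula in measure form** from local compactness and the existence of a
fundamental domain of finite positive measure for `K` in `𝔸_K`. -/
theorem scaleInv_of (hLC : T1.LocCompC K) (hFD : T1.AddFundDomC K) : ScaleInvC K := by
  letI : MeasurableSpace (Adl K) := borel (Adl K)
  haveI : BorelSpace (Adl K) := ⟨rfl⟩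
  obtain ⟨⟨hlc, ht2, hsc⟩, -⟩ := hLC
  haveI := hlc
  haveI := ht2
  haveI := hsc
  haveI := countable_princ K
  intro ν hν ξ
  haveI := hν
  set φ : Adl K ≃ₜ+ Adl K := mulCAE K (embU K ξ) with hφ
  have hφfun : (fun x : Adl K => emb K (ξ : K) * x) = φ := rfl
  rw [hφfun]
  haveI hν' : (Measure.map φ ν).IsAddHaarMeasure := φ.isAddHaarMeasure_map ν
  have hsm : Measure.map φ ν = Measure.addHaarScalarFactor (Measure.map φ ν) ν • ν :=
    Measure.isAddLeftInvariant_eq_smul (Measure.map φ ν) ν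
  set s := Measure.addHaarScalarFactor (Measure.map φ ν) ν with hs
  obtain ⟨D, hDm, hD, -, hpos, hfin⟩ := hFD ν hν
  have hqmp : Measure.QuasiMeasurePreserving φ ν ν := by
    refine ⟨φ.continuous.measurable, ?_⟩
    rw [hsm]
    exact Measure.smul_absolutelyContinuous
  have hD' : IsAddFundamentalDomain (T1.princ K) (φ ⁻¹' D) ν := by
    refine hD.preimage_of_equiv hqmp (princScale_bijective K ξ) ?_
    intro g x
    change φ (princScale K ξ g +ᵥ x) = g +ᵥ φ x
    simp only [hφ, mulCAE_apply, embU_coe, princScale, AddSubgroup.vadd_def, vadd_eq_add, mul_add]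
    rw [← mul_assoc, ← map_mul]
    simp
  have hmeas : ν (φ ⁻¹' D) = ν D := hD'.measure_eq hD
  have h1 : Measure.map φ ν D = ν D := by
    rw [Measure.map_apply hqmp.measurable hDm]
    exact hmeas
  have h2 : (s : ENNReal) * ν D = ν D := by
    have := h1
    rw [hsm] at this
    simpa using this
  have hs1 : (s : ENNReal) = 1 := by
    have h3 : (s : ENNReal) * ν D = 1 * ν D := by rw [h2, one_mul]
    exact (ENNReal.mul_left_inj hpos.ne' hfin.ne).mp h3
  rw [hsm]
  have : s = 1 := by exact_mod_cast hs1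
  rw [this, one_smul]

/-- **T3.15 `EKStarC`** from the interface Props of tower T1. -/
theorem ekStar_of (hLC : T1.LocCompC K) (hFD : T1.AddFundDomC K) : EKStarC K :=
  ekStar_of_scaleInv K (scaleInv_of K hLC hFD)

end Fermat.Agent.LT.T3.H904

end

end
-- ===== PACK-END LT/T3/H904/EKStarT1.lean

-- ===== PACK-BEGIN LT/T3/H984/WhitneyTop.lean
section




/-!
# Row LT, tower T3, station T3.18a, leaf AS.2w `WhitneySinhC` (helper984): PROVED

Adapter: the Mathlib-only theorem `whitneySinh984` (`LT/T3/H984/Whitney.lean`) is the frozen Prop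
`AS.WhitneySinhC` of `LT/T3/H736/ASWhitney.lean` (helper736) verbatim; also the one-variable form
`AS.WhitneySinh1C`.  OFF-MAIN.
-/

set_option autoImplicit false

namespace Fermat.Agent.LT.T3.H984

theorem whitneySinhC_984 : Fermat.Agent.LT.T3.AS.WhitneySinhC :=
  fun E hE hev => whitneySinh984 E hE hev

theorem whitneySinh1C_984 : Fermat.Agent.LT.T3.AS.WhitneySinh1C :=
  fun E hE hev => whitneySinh1_984 E hE hev

end Fermat.Agent.LT.T3.H984

end
-- ===== PACK-END LT/T3/H984/WhitneyTop.lean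

-- ===== PACK-BEGIN LT/T3/OpSpec.lean
section


/-!
# Row LT, tower T3 (architect helper14): OPERATOR FORM of the EK output (interface to T5/T4/T7)

OFF-MAIN.  `Spec.lean` (v2, sha256 44de320b8621) and `EKSpec.lean` are FROZEN; this file only adds
the operator form consumed by `T5/Spec.lean` (helper32: `T5.IsEK`, `T5.IsBorelInvariantFn`) and
the proved bridges.  No `sorry`, nothing assumed.

* `IsBorelInv Ψ`  = `T5.IsBorelInvariantFn Ψ`: continuous, left invariant under `N(𝔸_K)` and under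
  the rational diagonal matrices.
* `IsEKop μ f`    = `T5.IsEK μ f`: `R(f)` kills every `IsBorelInv` function.  NO right invariance
  of `Ψ` is assumed (in particular no invariance under the positive scalars at the infinite
  places: for `K = E` the frame of T5 is invariant under the one-dimensional ray only, so the
  central translations at infinity must be carried by the test function; `T3.IsEK` does that).
* `ekOp_of_int`   : `EKKillC K → T3.IsEK ν f α → IsEKop μ f` (PROVED).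
* `T3OutOp K`     = what T5/T7 take: good character, Poisson, `EKCuspOpC`, `EKOpExistC`.
* `topOp`         : `T3Out K → EKKillC K → ConstTermTC K → T3OutOp K` (PROVED).
-/

set_option autoImplicit false

open IsDedekindDomain NumberField MeasureTheory
open Fermat.Agent.LT.H556.A0

noncomputable section

namespace Fermat.Agent.LT.T3

variable (K : Type) [Field K] [NumberField K]

/-- Continuous functions on `GL₂(𝔸_K)`, left invariant under `N(𝔸_K)` and under the diagonal
matrices of `GL₂(K)` (the shape of a constant term; `= T5.IsBorelInvariantFn`). -/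
structure IsBorelInv (Ψ : G K → ℂ) : Prop where
  cont : Continuous Ψ
  unip : ∀ (x : Adl K) (g : G K), Ψ (unip K x * g) = Ψ g
  torus : ∀ (t : GL (Fin 2) K) (a b : K), (t : Matrix (Fin 2) (Fin 2) K) = !![a, 0; 0, b] →
    ∀ g : G K, Ψ (Matrix.GeneralLinearGroup.map (algebraMap K (Adl K)) t * g) = Ψ g

/-- Eisenstein-killing, OPERATOR FORM (`= T5.IsEK`). -/
def IsEKop {m : MeasurableSpace (G K)} (μ : Measure (G K)) (f : G K → ℂ) : Prop :=
  ∀ Ψ : G K → ℂ, IsBorelInv K Ψ → ∀ g : G K, Rop K μ f Ψ g = 0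

/-- `diag(α, 1) ∈ GL₂(K)`. -/
def torRat (α : Kˣ) : GL (Fin 2) K :=
  ⟨!![(α : K), 0; 0, 1], !![((α⁻¹ : Kˣ) : K), 0; 0, 1],
    by ext i j; fin_cases i <;> fin_cases j <;> simp [Matrix.mul_apply, Fin.sum_univ_two],
    by ext i j; fin_cases i <;> fin_cases j <;> simp [Matrix.mul_apply, Fin.sum_univ_two]⟩

theorem torK_eq_map (α : Kˣ) :
    torK K α = Matrix.GeneralLinearGroup.map (algebraMap K (Adl K)) (torRat K α) := by
  apply Units.ext
  ext i j
  fin_cases i <;> fin_cases j <;>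
    simp [torK, torRat, Matrix.GeneralLinearGroup.map, Matrix.map_apply]

/-- **T3.12'** (constant term, full rational torus; same proof as `ConstTermC`, the centre of
`GL₂(K)` commutes with `n(x)`).  The constant term of `R(f)ψ` is `R(f)Ψ` with `Ψ` of the shape
`IsBorelInv`. -/
def ConstTermTC : Prop :=
  letI : MeasurableSpace (Adl K) := borel (Adl K)
  letI : MeasurableSpace (G K) := borel (G K)
  ∀ μ : Measure (G K), μ.IsHaarMeasure →
  ∀ f : G K → ℂ, Continuous f → HasCompactSupport f →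
  ∀ ψ : G K → ℂ, IsAutFn K ψ →
  ∀ μ' : Measure (Adl K), μ'.IsAddHaarMeasure →
  ∀ D : Set (Adl K), IsAddFundamentalDomain ((algebraMap K (Adl K)).toAddMonoidHom.range) D μ' →
    ∃ Ψ : G K → ℂ, IsBorelInv K Ψ ∧
      ∀ g : G K, ∫ x in D, Rop K μ f ψ (unip K x * g) ∂μ' = Rop K μ f Ψ g

/-- **COROLLARY 1, operator form** (tower Prop).  `IsEKop μ f` implies that `R(f)ψ` is cuspidal
for every bounded continuous automorphic `ψ`. -/
def EKCuspOpC : Prop :=
  letI : MeasurableSpace (G K) := borel (G K)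
  ∀ μ : Measure (G K), μ.IsHaarMeasure →
  ∀ f : G K → ℂ, Continuous f → HasCompactSupport f → IsEKop K μ f →
  ∀ ψ : G K → ℂ, IsAutFn K ψ → IsCuspidalFn (Rop K μ f ψ)

/-- **EXISTENCE, operator form** (tower Prop): as `EKExistC`, with `IsEKop` for `f` and for
`f^*` in place of `T3.IsEK`. -/
def EKOpExistC : Prop :=
  letI : MeasurableSpace (G K) := borel (G K)
  (∀ w : InfinitePlace K, w.IsComplex) →
  ∀ μ : Measure (G K), μ.IsHaarMeasure →
  ∀ 𝔫 : Ideal (𝓞 K), 𝔫 ≠ ⊥ → ∀ v₀ : HeightOneSpectrum (𝓞 K), ¬ v₀.asIdeal ∣ 𝔫 →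
  ∀ (a₀ : 𝓞 K) (n : ℕ), 0 < n → Ideal.span {a₀} = v₀.asIdeal ^ n → a₀ - 1 ∈ 𝔫 →
    ∃ f : G K → ℂ, Continuous f ∧ HasCompactSupport f ∧
      IsEKop K μ f ∧ IsEKop K μ (starG K f) ∧
      IsBiInv K 𝔫 f ∧ IsSuppAt K 𝔫 v₀ f ∧
      ∃ c : ℂ → ℂ → ℂ,
        (∀ a b z₁ z₂ : ℂ, z₁ + z₂ = a → z₁ * z₂ = b → z₁ ^ n ≠ 1 → z₂ ^ n ≠ 1 → c a b ≠ 0) ∧
        ∀ φ : G K → ℂ, IsSph0Level K 𝔫 φ → ∀ a b : ℂ, IsHeckeEigenAt φ v₀ a b →
          ∀ g : G K, Rop K μ f φ g = c a b * φ g

/-- THE TOWER PROP of T3 in operator form (consumed by T5, T4, T7 and A2). -/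
def T3OutOp : Prop :=
  GoodCharExistsC K ∧ PoissonNDC K ∧ EKCuspOpC K ∧ EKOpExistC K

/-- FACT 1 turns the integral form into the operator form. -/
theorem ekOp_of_int (h : EKKillC K)
    {μ : @Measure (G K) (borel (G K))} (hμ : @Measure.IsHaarMeasure (G K) _ _ (borel (G K)) μ)
    {ν : @Measure (Adl K) (borel (Adl K))}
    (hν : @Measure.IsAddHaarMeasure (Adl K) _ _ (borel (Adl K)) ν)
    {α : Kˣ} {f : G K → ℂ} (hf : Continuous f) (hfc : HasCompactSupport f)
    (hEK : IsEK K ν f α) : IsEKop K μ f := by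
  intro Ψ hΨ g
  refine h μ hμ ν hν α f hf hfc hEK Ψ hΨ.cont hΨ.unip ?_ g
  intro g'
  rw [torK_eq_map]
  exact hΨ.torus (torRat K α) (α : K) 1 rfl g'

/-- COROLLARY 1 in operator form from the constant-term leaf. -/
theorem ekCuspOp_of (h2 : ConstTermTC K) : EKCuspOpC K := by
  intro μ hμ f hf hfc hEK ψ hψ μ' hμ' D hD n hn g
  have hn' : n = unip K := by
    funext x
    apply Units.ext
    rw [hn x, unip_coe]
  subst hn'
  obtain ⟨Ψ, hΨ, hΨe⟩ := h2 μ hμ f hf hfc ψ hψ μ' hμ' D hD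
  rw [hΨe g]
  exact hEK Ψ hΨ g

/-- A Haar measure of `𝔸_K` exists as soon as `𝔸_K` is locally compact (input `InLocCompC`). -/
def InAddHaarC : Prop :=
  letI : MeasurableSpace (Adl K) := borel (Adl K)
  ∃ ν : Measure (Adl K), ν.IsAddHaarMeasure

/-- Existence in operator form from existence in integral form, FACT 1 and the adjoint leaf. -/
theorem ekOpExist_of (h1 : EKKillC K) (h5 : EKStarC K) (h8 : EKExistC K) (hν : InAddHaarC K) :
    EKOpExistC K := by
  intro hK μ hμ 𝔫 h𝔫 v₀ hv₀ a₀ n hn hspan hmem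
  obtain ⟨ν, hνH⟩ := hν
  have ha₀ : algebraMap (𝓞 K) K a₀ ≠ 0 := by
    intro h0
    have h0' : a₀ = 0 := by
      have := (map_eq_zero_iff (algebraMap (𝓞 K) K)
        (FaithfulSMul.algebraMap_injective (𝓞 K) K)).1 h0
      exact this
    rw [h0'] at hspan
    have hbot : (v₀.asIdeal ^ n) = ⊥ := by rw [← hspan]; simp
    exact v₀.ne_bot (pow_eq_zero_iff (Nat.pos_iff_ne_zero.1 hn) |>.1 hbot)
  obtain ⟨f, hf, hfc, hEK, hbi, hsupp, c, hc, hact⟩ :=
    h8 hK μ hμ ν hνH 𝔫 h𝔫 v₀ hv₀ a₀ n hn hspan hmem (Units.mk0 _ ha₀) rfl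
  refine ⟨f, hf, hfc, ekOp_of_int K h1 hμ hνH hf hfc hEK, ?_, hbi, hsupp, c, hc, hact⟩
  have hstar : IsEK K ν (starG K f) (Units.mk0 _ ha₀) := h5 ν hνH _ f hf hfc hEK
  have hsc : Continuous (starG K f) := by
    unfold starG
    exact (Complex.continuous_conj).comp (hf.comp continuous_inv)
  have hscc : HasCompactSupport (starG K f) := by
    unfold starG
    have h1 : HasCompactSupport (fun h : G K => f h⁻¹) := by
      have := hfc.comp_homeomorph (Homeomorph.inv (G K))
      simpa [Function.comp_def] using this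
    exact h1.comp_left (g := (starRingEnd ℂ)) (map_zero _)
  exact ekOp_of_int K h1 hμ hνH hsc hscc hstar

/-- THE TOP in operator form. -/
theorem topOp (h : T3Out K) (h1 : EKKillC K) (h2 : ConstTermTC K) (hν : InAddHaarC K) :
    T3OutOp K :=
  ⟨h.1, h.2.1, ekCuspOp_of K h2, ekOpExist_of K h1 h.2.2.2.2.1 h.2.2.2.2.2 hν⟩

end Fermat.Agent.LT.T3

end

end
-- ===== PACK-END LT/T3/OpSpec.lean

-- ===== PACK-BEGIN LT/T5/H787/UpperNotReg.lean
section






/-!
# Row LT, tower T5, sub-leaf T5.07b `UpperNotRegC` (owner helper787) — OFF-MAIN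

Bytes typed against: `T5/H29/TwSpec.lean` helper29@dedb60878 (sha256 08555f0f), `T5/Spec.lean`
(sha256 0d469f71), `T1/Spec.lean` (sha256 e8ae48d6), `H556/A0.lean` (sha256 66d3374a),
byte-identical copies.

`upperNotRegC787 : T5.H29.UpperNotRegC s l k` (VERBATIM, unconditional): for an upper triangular
`δ ∈ GL₂(K)` the norm `δ σ(δ) ⋯ σ^{l-1}(δ)` is upper triangular, its upper left entry `A`
satisfies `a σ(A) = A σ^l(a) = A a` with `a = δ₀₀ ≠ 0`, so `A` lies in the fixed field `k` and is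
a root of the characteristic polynomial; a polynomial over `k` of degree `2` with a root in `k`
is not irreducible.

Pure algebra: only `IsCyclicOfDegree.pow_eq` and `IsCyclicOfDegree.fixed` are used.
-/

set_option autoImplicit false

open IsDedekindDomain NumberField Polynomial

noncomputable section

namespace Fermat.Agent.LT.T5.H787

open Fermat.Agent.LT.H556.A0 Fermat.Agent.LT.T5 Fermat.Agent.LT

variable {K : Type} [Field K] [NumberField K]

/-- The entries of `σ(g)`. -/
theorem onRat_apply787 (s : AdelicAut K) (g : GL (Fin 2) K) (i j : Fin 2) :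
    (s.onRat g : Matrix (Fin 2) (Fin 2) K) i j = s.σ ((g : Matrix (Fin 2) (Fin 2) K) i j) :=
  rfl

/-- The entries of the next partial norm. -/
theorem normUpTo_succ_apply787 (s : AdelicAut K) (n : ℕ) (δ : GL (Fin 2) K) (i j : Fin 2) :
    (s.normUpTo (n + 1) δ : Matrix (Fin 2) (Fin 2) K) i j
      = (δ : Matrix (Fin 2) (Fin 2) K) i 0
          * s.σ ((s.normUpTo n δ : Matrix (Fin 2) (Fin 2) K) 0 j)
        + (δ : Matrix (Fin 2) (Fin 2) K) i 1
          * s.σ ((s.normUpTo n δ : Matrix (Fin 2) (Fin 2) K) 1 j) := by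
  show ((δ * s.onRat (s.normUpTo n δ) : GL (Fin 2) K) : Matrix (Fin 2) (Fin 2) K) i j = _
  rw [Matrix.GeneralLinearGroup.coe_mul, Matrix.mul_apply, Fin.sum_univ_two,
    onRat_apply787, onRat_apply787]

/-- The partial norms of an upper triangular element are upper triangular, and their diagonal
entries are the partial norms of the diagonal entries (in the multiplicative form
`a σ(Aₙ) = Aₙ σⁿ(a)`). -/
theorem normUpTo_upper787 (s : AdelicAut K) (δ : GL (Fin 2) K)
    (hδ : (δ : Matrix (Fin 2) (Fin 2) K) 1 0 = 0) (n : ℕ) :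
    (s.normUpTo n δ : Matrix (Fin 2) (Fin 2) K) 1 0 = 0 ∧
      (δ : Matrix (Fin 2) (Fin 2) K) 0 0
          * s.σ ((s.normUpTo n δ : Matrix (Fin 2) (Fin 2) K) 0 0)
        = (s.normUpTo n δ : Matrix (Fin 2) (Fin 2) K) 0 0
          * (s.σ ^ n) ((δ : Matrix (Fin 2) (Fin 2) K) 0 0) := by
  induction n with
  | zero =>
    have h1 : (s.normUpTo 0 δ : Matrix (Fin 2) (Fin 2) K) = 1 := rfl
    rw [h1]
    simp
  | succ n ih =>
    obtain ⟨ih0, ih1⟩ := ih
    have e10 : (s.normUpTo (n + 1) δ : Matrix (Fin 2) (Fin 2) K) 1 0 = 0 := by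
      rw [normUpTo_succ_apply787, hδ, ih0]
      simp
    have e00 : (s.normUpTo (n + 1) δ : Matrix (Fin 2) (Fin 2) K) 0 0
        = (δ : Matrix (Fin 2) (Fin 2) K) 0 0
          * s.σ ((s.normUpTo n δ : Matrix (Fin 2) (Fin 2) K) 0 0) := by
      rw [normUpTo_succ_apply787, ih0]
      simp
    refine ⟨e10, ?_⟩
    have hpow : (s.σ ^ (n + 1)) ((δ : Matrix (Fin 2) (Fin 2) K) 0 0)
        = s.σ ((s.σ ^ n) ((δ : Matrix (Fin 2) (Fin 2) K) 0 0)) := by
      rw [pow_succ']
      rfl
    rw [hpow, e00]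
    calc (δ : Matrix (Fin 2) (Fin 2) K) 0 0
          * s.σ ((δ : Matrix (Fin 2) (Fin 2) K) 0 0
            * s.σ ((s.normUpTo n δ : Matrix (Fin 2) (Fin 2) K) 0 0))
        = (δ : Matrix (Fin 2) (Fin 2) K) 0 0
          * s.σ ((s.normUpTo n δ : Matrix (Fin 2) (Fin 2) K) 0 0
            * (s.σ ^ n) ((δ : Matrix (Fin 2) (Fin 2) K) 0 0)) := by rw [ih1]
      _ = (δ : Matrix (Fin 2) (Fin 2) K) 0 0
          * s.σ ((s.normUpTo n δ : Matrix (Fin 2) (Fin 2) K) 0 0)
          * s.σ ((s.σ ^ n) ((δ : Matrix (Fin 2) (Fin 2) K) 0 0)) := by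
        rw [map_mul, mul_assoc]

omit [NumberField K] in
/-- The upper left entry of an invertible upper triangular matrix is not zero. -/
theorem upper_left_ne_zero787 (δ : GL (Fin 2) K)
    (hδ : (δ : Matrix (Fin 2) (Fin 2) K) 1 0 = 0) :
    (δ : Matrix (Fin 2) (Fin 2) K) 0 0 ≠ 0 := by
  intro h0
  have hdet : (δ : Matrix (Fin 2) (Fin 2) K).det ≠ 0 :=
    (Matrix.isUnit_iff_isUnit_det _).1 δ.isUnit |>.ne_zero
  apply hdet
  rw [Matrix.det_fin_two, h0, hδ]
  simp

omit [NumberField K] in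
/-- An upper triangular `2 × 2` matrix has its upper left entry as a root of its characteristic
polynomial. -/
theorem charpoly_eval_upper_left787 (N : Matrix (Fin 2) (Fin 2) K) (hN : N 1 0 = 0) :
    N.charpoly.eval (N 0 0) = 0 := by
  rw [Matrix.charpoly_fin_two, Matrix.trace_fin_two, Matrix.det_fin_two, hN]
  simp only [eval_add, eval_sub, eval_mul, eval_pow, eval_X, eval_C]
  ring

/-- **T5.07b `UpperNotRegC`** (VERBATIM, unconditional). -/
theorem upperNotRegC787 (s : AdelicAut K) (l : ℕ) (k : Subfield K) :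
    Fermat.Agent.LT.T5.H29.UpperNotRegC s l k := by
  intro hcyc δ hδ hreg
  obtain ⟨Q, hQirr, hQ⟩ := hreg
  obtain ⟨hN10, hNA⟩ := normUpTo_upper787 s δ hδ l
  set N : Matrix (Fin 2) (Fin 2) K := (s.normUpTo l δ : Matrix (Fin 2) (Fin 2) K) with hNdef
  have ha : (δ : Matrix (Fin 2) (Fin 2) K) 0 0 ≠ 0 := upper_left_ne_zero787 δ hδ
  -- the upper left entry of the norm is fixed by `σ`
  have hfix : s.σ (N 0 0) = N 0 0 := by
    rw [hcyc.pow_eq, mul_comm (N 0 0)] at hNA
    exact mul_left_cancel₀ ha hNA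
  have hmem : N 0 0 ∈ k := (hcyc.fixed _).2 hfix
  -- it is a root of `Q`
  have hroot : Q.IsRoot ⟨N 0 0, hmem⟩ := by
    have h1 : (Q.map (algebraMap k K)).eval (algebraMap k K ⟨N 0 0, hmem⟩)
        = algebraMap k K (Q.eval ⟨N 0 0, hmem⟩) := by
      rw [eval_map, ← eval₂_hom]
    have h2 : (Q.map (algebraMap k K)).eval (algebraMap k K ⟨N 0 0, hmem⟩) = 0 := by
      rw [hQ]
      exact charpoly_eval_upper_left787 N hN10
    rw [h1] at h2
    exact (map_eq_zero (algebraMap k K)).1 h2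
  -- so `Q` has degree one, but the characteristic polynomial has degree two
  have hdeg1 : Q.degree = 1 := degree_eq_one_of_irreducible_of_root hQirr hroot
  have hdeg2 : (Q.map (algebraMap k K)).degree = 2 := by
    rw [hQ, Matrix.charpoly_degree_eq_dim]
    simp
  rw [degree_map, hdeg1] at hdeg2
  exact absurd hdeg2 (by norm_num)

end Fermat.Agent.LT.T5.H787

end

end
-- ===== PACK-END LT/T5/H787/UpperNotReg.lean

-- ===== PACK-BEGIN LT/T5/H472/Box.lean
section






/-!
# Row LT, tower T5, sub-leaf T5.07c `BoxC` (helper472) -- OFF-MAIN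

`boxC472 : T5.H29.BoxC K`, UNCONDITIONAL: the module `‖·‖_𝔸` is bounded above on the ideles
which lie in a compact subset `Q` of the adele ring.

Route 1 of the registry row: the sets

    U (S, n) = {x | ‖x_w‖ < n + 2 (w ∣ ∞),  x_v ∈ 𝒪_v (v ∉ S),  ‖x_v‖ < n + 2 (v ∈ S)}

(`S` a finite set of finite places, `n` a natural number) are open, cover `𝔸_K` and are directed;
so `Q` lies in one of them, and on the ideles of `U (S, n)` the module is at most
`(∏_w (n+2)^{mult w}) (n+2)^{#S}`.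
-/

set_option autoImplicit false

open IsDedekindDomain NumberField
open scoped RestrictedProduct

noncomputable section

namespace Fermat.Agent.LT.T5.H472

open Fermat.Agent.LT.H556.A0 Fermat.Agent.LT

variable {K : Type} [Field K] [NumberField K]

/-- The box `U (S, n)`. -/
def box472 (K : Type) [Field K] [NumberField K]
    (p : Finset (HeightOneSpectrum (𝓞 K)) × ℕ) : Set (Adl K) :=
  {x | (∀ w : InfinitePlace K, ‖x.1 w‖ < (p.2 : ℝ) + 2) ∧
    (∀ v : HeightOneSpectrum (𝓞 K), v ∉ p.1 → x.2 v ∈ v.adicCompletionIntegers K) ∧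
    ∀ v ∈ p.1, ‖x.2 v‖ < (p.2 : ℝ) + 2}

theorem continuous_inf472 (w : InfinitePlace K) : Continuous fun x : Adl K => ‖x.1 w‖ :=
  continuous_norm.comp ((continuous_apply w).comp continuous_fst)

theorem continuous_fin472 (v : HeightOneSpectrum (𝓞 K)) :
    Continuous fun x : Adl K => ‖x.2 v‖ :=
  continuous_norm.comp
    ((RestrictedProduct.continuous_eval (R := fun v : HeightOneSpectrum (𝓞 K) =>
      v.adicCompletion K) (A := fun v => (v.adicCompletionIntegers K : Set (v.adicCompletion K)))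
      v).comp continuous_snd)

theorem isOpen_box472 (p : Finset (HeightOneSpectrum (𝓞 K)) × ℕ) : IsOpen (box472 K p) := by
  have h1 : IsOpen {x : Adl K | ∀ w : InfinitePlace K, ‖x.1 w‖ < (p.2 : ℝ) + 2} := by
    have : {x : Adl K | ∀ w : InfinitePlace K, ‖x.1 w‖ < (p.2 : ℝ) + 2}
        = ⋂ w : InfinitePlace K, {x : Adl K | ‖x.1 w‖ < (p.2 : ℝ) + 2} := by
      ext x; simp
    rw [this]
    exact isOpen_iInter_of_finite fun w => isOpen_lt (continuous_inf472 w) continuous_const
  have h2 : IsOpen {x : Adl K | ∀ v : HeightOneSpectrum (𝓞 K), v ∉ p.1 →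
      x.2 v ∈ v.adicCompletionIntegers K} := by
    have hopen : ∀ v : HeightOneSpectrum (𝓞 K),
        IsOpen (v.adicCompletionIntegers K : Set (v.adicCompletion K)) :=
      fun v => Valued.isOpen_valuationSubring _
    have := RestrictedProduct.isOpen_forall_imp_mem
      (R := fun v : HeightOneSpectrum (𝓞 K) => v.adicCompletion K)
      (A := fun v => (v.adicCompletionIntegers K : Set (v.adicCompletion K))) hopen
      (p := fun v => v ∉ p.1)
    exact this.preimage continuous_snd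
  have h3 : IsOpen {x : Adl K | ∀ v ∈ p.1, ‖x.2 v‖ < (p.2 : ℝ) + 2} := by
    have : {x : Adl K | ∀ v ∈ p.1, ‖x.2 v‖ < (p.2 : ℝ) + 2}
        = ⋂ v ∈ p.1, {x : Adl K | ‖x.2 v‖ < (p.2 : ℝ) + 2} := by
      ext x; simp
    rw [this]
    exact isOpen_biInter_finset fun v _ => isOpen_lt (continuous_fin472 v) continuous_const
  exact (h1.inter (h2.inter h3))

/-- Integral elements have norm at most one. -/
theorem norm_le_one_of_mem472 (v : HeightOneSpectrum (𝓞 K)) {y : v.adicCompletion K}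
    (hy : y ∈ v.adicCompletionIntegers K) : ‖y‖ ≤ 1 := by
  rw [Valued.toNormedField.norm_le_one_iff]
  exact (HeightOneSpectrum.mem_adicCompletionIntegers (𝓞 K) K v).1 hy

/-- The boxes cover the adele ring. -/
theorem exists_box472 (x : Adl K) : ∃ p, x ∈ box472 K p := by
  classical
  have hfin : {v : HeightOneSpectrum (𝓞 K) | x.2 v ∉ v.adicCompletionIntegers K}.Finite := by
    have := x.2.2
    rwa [Filter.eventually_cofinite] at this
  set S : Finset (HeightOneSpectrum (𝓞 K)) := hfin.toFinset with hS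
  set c : ℝ := (∑ w : InfinitePlace K, ‖x.1 w‖) + ∑ v ∈ S, ‖x.2 v‖ with hc
  have h1 : 0 ≤ ∑ w : InfinitePlace K, ‖x.1 w‖ := Finset.sum_nonneg fun _ _ => norm_nonneg _
  have h2 : 0 ≤ ∑ v ∈ S, ‖x.2 v‖ := Finset.sum_nonneg fun _ _ => norm_nonneg _
  have hn : c ≤ (⌈c⌉₊ : ℝ) := Nat.le_ceil c
  refine ⟨(S, ⌈c⌉₊), ?_, ?_, ?_⟩
  · intro w
    have : ‖x.1 w‖ ≤ ∑ w : InfinitePlace K, ‖x.1 w‖ :=
      Finset.single_le_sum (f := fun w : InfinitePlace K => ‖x.1 w‖)
        (fun _ _ => norm_nonneg _) (Finset.mem_univ w)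
    show ‖x.1 w‖ < (⌈c⌉₊ : ℝ) + 2
    linarith
  · intro v hv
    by_contra h
    exact hv (hfin.mem_toFinset.2 h)
  · intro v hv
    have : ‖x.2 v‖ ≤ ∑ v ∈ S, ‖x.2 v‖ :=
      Finset.single_le_sum (f := fun v : HeightOneSpectrum (𝓞 K) => ‖x.2 v‖)
        (fun _ _ => norm_nonneg _) hv
    show ‖x.2 v‖ < (⌈c⌉₊ : ℝ) + 2
    linarith

/-- The boxes are directed. -/
theorem directed_box472 : Directed (· ⊆ ·) (box472 K) := by
  classical
  intro p q
  have key : ∀ p q : Finset (HeightOneSpectrum (𝓞 K)) × ℕ,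
      box472 K p ⊆ box472 K (p.1 ∪ q.1, max p.2 q.2) := by
    intro p q x hx
    have hle : (p.2 : ℝ) ≤ ((max p.2 q.2 : ℕ) : ℝ) := by exact_mod_cast le_max_left _ _
    have h0 : (0 : ℝ) ≤ ((max p.2 q.2 : ℕ) : ℝ) := Nat.cast_nonneg _
    refine ⟨fun w => ?_, fun v hv => ?_, fun v hv => ?_⟩
    · have := hx.1 w
      show ‖x.1 w‖ < ((max p.2 q.2 : ℕ) : ℝ) + 2
      linarith
    · exact hx.2.1 v fun h => hv (Finset.mem_union_left _ h)
    · show ‖x.2 v‖ < ((max p.2 q.2 : ℕ) : ℝ) + 2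
      by_cases h : v ∈ p.1
      · have := hx.2.2 v h
        linarith
      · have := norm_le_one_of_mem472 v (hx.2.1 v h)
        linarith
  refine ⟨(p.1 ∪ q.1, max p.2 q.2), key p q, ?_⟩
  have := key q p
  rwa [Finset.union_comm, max_comm] at this

/-- The bound of the box `(S, n)`. -/
def boxBound472 (K : Type) [Field K] [NumberField K]
    (p : Finset (HeightOneSpectrum (𝓞 K)) × ℕ) : ℝ :=
  (∏ w : InfinitePlace K, ((p.2 : ℝ) + 2) ^ w.mult) * ((p.2 : ℝ) + 2) ^ p.1.card

/-- The finite components of an idele are units of norm one at almost all places. -/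
theorem finite_norm_ne_one472 (u : (Adl K)ˣ) :
    {v : HeightOneSpectrum (𝓞 K) | ‖(u : Adl K).2 v‖ ≠ 1}.Finite := by
  have h1 : {v : HeightOneSpectrum (𝓞 K) |
      (u : Adl K).2 v ∉ v.adicCompletionIntegers K}.Finite := by
    have := (u : Adl K).2.2
    rwa [Filter.eventually_cofinite] at this
  have h2 : {v : HeightOneSpectrum (𝓞 K) |
      ((u⁻¹ : (Adl K)ˣ) : Adl K).2 v ∉ v.adicCompletionIntegers K}.Finite := by
    have := ((u⁻¹ : (Adl K)ˣ) : Adl K).2.2
    rwa [Filter.eventually_cofinite] at this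
  refine (h1.union h2).subset fun v hv => ?_
  by_contra hcon
  simp only [Set.mem_union, Set.mem_ofPred_eq, not_or, not_not] at hcon
  obtain ⟨ha, hb⟩ := hcon
  apply hv
  have hmul : (u : Adl K).2 v * ((u⁻¹ : (Adl K)ˣ) : Adl K).2 v = 1 := by
    have h : (u : Adl K) * ((u⁻¹ : (Adl K)ˣ) : Adl K) = 1 := u.mul_inv
    have h' := congrArg (fun x : Adl K => x.2 v) h
    exact h'
  have hn : ‖(u : Adl K).2 v‖ * ‖((u⁻¹ : (Adl K)ˣ) : Adl K).2 v‖ = 1 := by
    rw [← norm_mul, hmul, norm_one]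
  have ha' := norm_le_one_of_mem472 v ha
  have hb' := norm_le_one_of_mem472 v hb
  have hpos : 0 < ‖(u : Adl K).2 v‖ := by
    rcases (norm_nonneg ((u : Adl K).2 v)).lt_or_eq with h | h
    · exact h
    · rw [← h, zero_mul] at hn
      exact absurd hn (by norm_num)
  nlinarith [norm_nonneg (((u⁻¹ : (Adl K)ˣ) : Adl K).2 v)]

/-- The module of an idele in the box `p` is at most `boxBound472 K p`. -/
theorem adNorm_le_of_mem_box472 (p : Finset (HeightOneSpectrum (𝓞 K)) × ℕ) (u : (Adl K)ˣ)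
    (hu : (u : Adl K) ∈ box472 K p) : T1.adNorm K (u : Adl K) ≤ boxBound472 K p := by
  classical
  have hc : (0 : ℝ) ≤ (p.2 : ℝ) + 2 := by positivity
  unfold T1.adNorm boxBound472
  refine mul_le_mul ?_ ?_ (finprod_nonneg fun _ => norm_nonneg _)
    (Finset.prod_nonneg fun _ _ => pow_nonneg hc _)
  · exact Finset.prod_le_prod (fun _ _ => pow_nonneg (norm_nonneg _) _)
      fun w _ => pow_le_pow_left₀ (norm_nonneg _) (hu.1 w).le _
  · have hT := finite_norm_ne_one472 u
    set T : Finset (HeightOneSpectrum (𝓞 K)) := hT.toFinset with hTdef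
    have hsupp : Function.mulSupport (fun v : HeightOneSpectrum (𝓞 K) => ‖(u : Adl K).2 v‖)
        ⊆ ((T ∪ p.1 : Finset (HeightOneSpectrum (𝓞 K))) : Set (HeightOneSpectrum (𝓞 K))) := by
      intro v hv
      rw [Finset.coe_union]
      exact Or.inl (by simpa [hTdef] using hv)
    rw [finprod_eq_prod_of_mulSupport_subset _ hsupp]
    calc ∏ v ∈ T ∪ p.1, ‖(u : Adl K).2 v‖
        ≤ ∏ v ∈ T ∪ p.1, (if v ∈ p.1 then (p.2 : ℝ) + 2 else 1) := by
          refine Finset.prod_le_prod (fun _ _ => norm_nonneg _) fun v _ => ?_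
          split_ifs with h
          · exact (hu.2.2 v h).le
          · exact norm_le_one_of_mem472 v (hu.2.1 v h)
      _ = ∏ v ∈ p.1, (if v ∈ p.1 then (p.2 : ℝ) + 2 else 1) := by
          refine (Finset.prod_subset Finset.subset_union_right fun v _ hv => ?_).symm
          rw [if_neg hv]
      _ = ((p.2 : ℝ) + 2) ^ p.1.card := by
          rw [Finset.prod_congr rfl fun v hv => if_pos hv, Finset.prod_const]

/-- **T5.07c BoxC**, unconditional. -/
theorem boxC472 (K : Type) [Field K] [NumberField K] : T5.H29.BoxC K := by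
  intro Q hQ
  obtain ⟨p, hp⟩ := hQ.elim_directed_cover (box472 K) isOpen_box472
    (fun x _ => Set.mem_iUnion.2 (exists_box472 x)) directed_box472
  exact ⟨boxBound472 K p, fun u hu => adNorm_le_of_mem_box472 p u (hp hu)⟩

end Fermat.Agent.LT.T5.H472

end

end
-- ===== PACK-END LT/T5/H472/Box.lean

-- ===== PACK-BEGIN LT/T5/H409/AdjTest.lean
section


/-!
# Row LT, tower T5, leaf T5.02c `AdjTestC` (registry 1188; helper409, OFF-MAIN)

`adjTestC409 K 𝔫 τ : Fermat.Agent.LT.T5.H40.AdjTestC K 𝔫 τ`, VERBATIM against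
`LT/T5/H40/HS0Spec.lean` (helper40@08c177f1b, sha256 de8bb55ac72c) on `LT/T5/Spec.lean` v3
(helper32, sha256 d6f8b00ae5f1).

The adjoint `φ*(g) = conj φ(g⁻¹)` of a test function is a test function:
* continuity, compact support: inversion is a homeomorphism of `GL₂(𝔸_K)`;
* bi-invariance: the level group and the groups `K_w` are stable under inversion, and
  `τ(k⁻¹) = conj τ(k)` (`|τ| = 1`, `τ(1) = 1`);
* smoothness at infinity: `φ*(g h(t)) = conj φ(g⁻¹ · (g h(t)⁻¹ g⁻¹))`, and the family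
  `g h(t)⁻¹ g⁻¹` is trivial at the finite places with smooth entries at the infinite places
  (inverse of a `2 × 2` matrix = adjugate / determinant).
-/

set_option autoImplicit false
set_option linter.style.haveILetI false

open IsDedekindDomain NumberField MeasureTheory
open scoped MatrixGroups ComplexConjugate ContDiff

noncomputable section

namespace Fermat.Agent.LT.T5.H409

open Fermat.Agent.LT.H556.A0 Fermat.Agent.LT.T5

variable {K : Type} [Field K] [NumberField K]

/-! ## Components are multiplicative -/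

/-- The raw component at the infinite place `w` (in the completion). -/
def rawInfHom409 (w : InfinitePlace K) : Adl K →+* w.Completion :=
  (Pi.evalRingHom (fun v : InfinitePlace K => v.Completion) w).comp
    (RingHom.fst (InfiniteAdeleRing K) (FiniteAdeleRing (𝓞 K) K))

/-- The matrix of raw components at `w`. -/
def rawInf409 (w : InfinitePlace K) (g : G K) : Matrix (Fin 2) (Fin 2) w.Completion :=
  (g : Matrix (Fin 2) (Fin 2) (Adl K)).map (rawInfHom409 w)

theorem trivAtInf_iff409 (w : InfinitePlace K) (g : G K) :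
    TrivAtInf w g ↔ rawInf409 w g = 1 := by
  constructor
  · intro h
    exact Matrix.ext fun i j => h i j
  · intro h i j
    have := congrFun (congrFun h i) j
    exact this

theorem rawInf_mul409 (w : InfinitePlace K) (g h : G K) :
    rawInf409 w (g * h) = rawInf409 w g * rawInf409 w h := by
  unfold rawInf409
  rw [Units.val_mul, Matrix.map_mul]

theorem rawInf_one409 (w : InfinitePlace K) : rawInf409 w (1 : G K) = 1 := by
  unfold rawInf409
  rw [Units.val_one, Matrix.map_one _ (map_zero _) (map_one _)]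

theorem infComp_mul409 (w : InfinitePlace K) (g h : G K) :
    infComp w (g * h) = infComp w g * infComp w h := by
  rw [infComp_eq_map, infComp_eq_map, infComp_eq_map, Units.val_mul, Matrix.map_mul]

theorem infComp_one409 (w : InfinitePlace K) : infComp w (1 : G K) = 1 := by
  rw [infComp_eq_map, Units.val_one, Matrix.map_one _ (map_zero _) (map_one _)]

theorem finComp_mul409 (v : HeightOneSpectrum (𝓞 K)) (g h : G K) :
    finComp v (g * h) = finComp v g * finComp v h := by
  rw [finComp_eq_map, finComp_eq_map, finComp_eq_map, Units.val_mul, Matrix.map_mul]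

theorem finComp_one409 (v : HeightOneSpectrum (𝓞 K)) : finComp v (1 : G K) = 1 := by
  rw [finComp_eq_map, Units.val_one, Matrix.map_one _ (map_zero _) (map_one _)]

theorem infComp_mul_inv409 (w : InfinitePlace K) (g : G K) :
    infComp w g * infComp w g⁻¹ = 1 := by
  rw [← infComp_mul409, mul_inv_cancel, infComp_one409]

theorem infComp_inv_mul409 (w : InfinitePlace K) (g : G K) :
    infComp w g⁻¹ * infComp w g = 1 := by
  rw [← infComp_mul409, inv_mul_cancel, infComp_one409]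

theorem trivAtInf_inv409 (w : InfinitePlace K) (g : G K) (h : TrivAtInf w g) :
    TrivAtInf w g⁻¹ := by
  rw [trivAtInf_iff409] at h ⊢
  have h1 : rawInf409 w g * rawInf409 w g⁻¹ = 1 := by
    rw [← rawInf_mul409, mul_inv_cancel, rawInf_one409]
  rw [h, one_mul] at h1
  exact h1

theorem trivAtFin_inv409 (v : HeightOneSpectrum (𝓞 K)) (g : G K) (h : TrivAtFin v g) :
    TrivAtFin v g⁻¹ := by
  unfold TrivAtFin at h ⊢
  have h1 : finComp v g * finComp v g⁻¹ = 1 := by
    rw [← finComp_mul409, mul_inv_cancel, finComp_one409]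
  rw [h, one_mul] at h1
  exact h1

theorem trivAtFin_mul409 (v : HeightOneSpectrum (𝓞 K)) (g h : G K) (hg : TrivAtFin v g)
    (hh : TrivAtFin v h) : TrivAtFin v (g * h) := by
  unfold TrivAtFin at hg hh ⊢
  rw [finComp_mul409, hg, hh, one_mul]

/-- Conjugation does not change triviality at a finite place. -/
theorem trivAtFin_conj409 (v : HeightOneSpectrum (𝓞 K)) (g h : G K) (hh : TrivAtFin v h) :
    TrivAtFin v (g * h * g⁻¹) := by
  unfold TrivAtFin at hh ⊢
  rw [finComp_mul409, finComp_mul409, hh, mul_one, ← finComp_mul409, mul_inv_cancel,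
    finComp_one409]

/-! ## The groups are stable under inversion -/

theorem inLevelGroup_inv409 (𝔫 : Ideal (𝓞 K)) (u : G K) (h : InLevelGroup 𝔫 u) :
    InLevelGroup 𝔫 u⁻¹ := by
  refine ⟨fun w => trivAtInf_inv409 w u (h.1 w), fun v i j => ?_⟩
  rw [inv_inv]
  exact ⟨(h.2 v i j).2, (h.2 v i j).1⟩

theorem isLocalAtInf_inv409 (w : InfinitePlace K) (k : G K) (h : IsLocalAtInf w k) :
    IsLocalAtInf w k⁻¹ :=
  ⟨fun w' hw' => trivAtInf_inv409 w' k (h.1 w' hw'), fun v => trivAtFin_inv409 v k (h.2 v)⟩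

theorem isArchCompact_inv409 (w : InfinitePlace K) (k : G K) (h : IsArchCompact w k) :
    IsArchCompact w k⁻¹ := by
  obtain ⟨hloc, hU, hdet⟩ := h
  have hinv : infComp w k⁻¹ = (infComp w k).conjTranspose := by
    have h1 : infComp w k⁻¹ * infComp w k = 1 := infComp_inv_mul409 w k
    calc infComp w k⁻¹ = infComp w k⁻¹ * (infComp w k * (infComp w k).conjTranspose) := by
          rw [hU, mul_one]
      _ = (infComp w k⁻¹ * infComp w k) * (infComp w k).conjTranspose := by
          rw [Matrix.mul_assoc]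
      _ = (infComp w k).conjTranspose := by rw [h1, Matrix.one_mul]
  refine ⟨isLocalAtInf_inv409 w k hloc, ?_, ?_⟩
  · rw [hinv, Matrix.conjTranspose_conjTranspose]
    exact mul_eq_one_comm.mp hU
  · intro hw
    have h1 : (infComp w k⁻¹ * infComp w k).det = 1 := by
      rw [infComp_inv_mul409, Matrix.det_one]
    rw [Matrix.det_mul, hdet hw, mul_one] at h1
    exact h1

theorem isArchCompact_one409 (w : InfinitePlace K) : IsArchCompact w (1 : G K) := by
  refine ⟨⟨fun w' _ => ?_, fun v => finComp_one409 v⟩, ?_, fun _ => ?_⟩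
  · rw [trivAtInf_iff409]
    exact rawInf_one409 w'
  · rw [infComp_one409, Matrix.conjTranspose_one, Matrix.one_mul]
  · rw [infComp_one409, Matrix.det_one]

/-! ## The `K_∞`-type on inverses -/

theorem ktype_one409 {τ : G K → ℂ} (hτ : IsKType τ) : τ 1 = 1 := by
  obtain ⟨w⟩ : Nonempty (InfinitePlace K) := inferInstance
  have h1 := hτ.mul w 1 1 (isArchCompact_one409 w) (isArchCompact_one409 w)
  rw [mul_one] at h1
  have hn := hτ.norm_one w 1 (isArchCompact_one409 w)
  have hne : τ 1 ≠ 0 := by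
    intro h0
    rw [h0, norm_zero] at hn
    exact zero_ne_one hn
  have h2 : τ 1 * 1 = τ 1 * τ 1 := by rw [mul_one]; exact h1
  exact (mul_left_cancel₀ hne h2).symm

theorem ktype_inv409 {τ : G K → ℂ} (hτ : IsKType τ) (w : InfinitePlace K) (k : G K)
    (hk : IsArchCompact w k) : τ k⁻¹ = conj (τ k) := by
  have h1 := hτ.mul w k k⁻¹ hk (isArchCompact_inv409 w k hk)
  rw [mul_inv_cancel, ktype_one409 hτ] at h1
  have hn := hτ.norm_one w k hk
  have h2 : τ k * conj (τ k) = 1 := by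
    rw [Complex.mul_conj, Complex.normSq_eq_norm_sq, hn]
    norm_num
  have hne : τ k ≠ 0 := by
    intro h0
    rw [h0, norm_zero] at hn
    exact zero_ne_one hn
  apply mul_left_cancel₀ hne
  rw [← h1, h2]

/-! ## Smoothness of the inverse family -/

/-- The component at `w` of the inverse is the inverse matrix. -/
theorem infComp_inv409 (w : InfinitePlace K) (g : G K) :
    infComp w g⁻¹ = (infComp w g)⁻¹ :=
  (Matrix.inv_eq_right_inv (infComp_mul_inv409 w g)).symm

theorem det_infComp_ne_zero409 (w : InfinitePlace K) (g : G K) : (infComp w g).det ≠ 0 := by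
  intro h0
  have h1 : (infComp w g * infComp w g⁻¹).det = 1 := by
    rw [infComp_mul_inv409, Matrix.det_one]
  rw [Matrix.det_mul, h0, zero_mul] at h1
  exact zero_ne_one h1

/-- The entries of the inverse of a `2 × 2` complex matrix. -/
theorem inv_apply_fin_two409 (A : Matrix (Fin 2) (Fin 2) ℂ) (_hA : A.det ≠ 0) (a b : Fin 2) :
    A⁻¹ a b = (A 0 0 * A 1 1 - A 0 1 * A 1 0)⁻¹ * (Matrix.adjugate A) a b := by
  rw [Matrix.inv_def, Ring.inverse_eq_inv', Matrix.smul_apply, smul_eq_mul, Matrix.det_fin_two]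

theorem contDiff_inv_entry409 {n : ℕ} (H : (Fin n → ℝ) → Matrix (Fin 2) (Fin 2) ℂ)
    (hH : ∀ i j : Fin 2, ContDiff ℝ ∞ (fun t => H t i j)) (hdet : ∀ t, (H t).det ≠ 0)
    (a b : Fin 2) : ContDiff ℝ ∞ (fun t => (H t)⁻¹ a b) := by
  have hd : ContDiff ℝ ∞ (fun t => (H t 0 0 * H t 1 1 - H t 0 1 * H t 1 0)⁻¹) := by
    refine ContDiff.inv (((hH 0 0).mul (hH 1 1)).sub ((hH 0 1).mul (hH 1 0))) ?_
    intro t
    have := hdet t
    rwa [Matrix.det_fin_two] at this
  have hadj : ContDiff ℝ ∞ (fun t => (Matrix.adjugate (H t)) a b) := by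
    simp only [Matrix.adjugate_fin_two]
    fin_cases a <;> fin_cases b
    · simpa using hH 1 1
    · simpa using (hH 0 1).neg
    · simpa using (hH 1 0).neg
    · simpa using hH 0 0
  have : (fun t => (H t)⁻¹ a b)
      = fun t => (H t 0 0 * H t 1 1 - H t 0 1 * H t 1 0)⁻¹ * (Matrix.adjugate (H t)) a b :=
    funext fun t => inv_apply_fin_two409 (H t) (hdet t) a b
  rw [this]
  exact hd.mul hadj

/-- The entries of `A * X(t) * B` are smooth if those of `X(t)` are. -/
theorem contDiff_conj_entry409 {n : ℕ} (A B : Matrix (Fin 2) (Fin 2) ℂ)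
    (X : (Fin n → ℝ) → Matrix (Fin 2) (Fin 2) ℂ)
    (hX : ∀ i j : Fin 2, ContDiff ℝ ∞ (fun t => X t i j)) (i j : Fin 2) :
    ContDiff ℝ ∞ (fun t => (A * X t * B) i j) := by
  simp only [Matrix.mul_apply, Fin.sum_univ_two]
  exact ((((contDiff_const.mul (hX 0 0)).add (contDiff_const.mul (hX 1 0))).mul contDiff_const).add
    (((contDiff_const.mul (hX 0 1)).add (contDiff_const.mul (hX 1 1))).mul contDiff_const))

/-! ## The leaf -/

theorem adjointFn_apply409 (φ : G K → ℂ) (g : G K) : adjointFn φ g = conj (φ g⁻¹) := rfl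

/-- **T5.02c.**  The adjoint of a test function is a test function. -/
theorem adjTestC409 (K : Type) [Field K] [NumberField K] (𝔫 : Ideal (𝓞 K)) (τ : G K → ℂ) :
    Fermat.Agent.LT.T5.H40.AdjTestC K 𝔫 τ := by
  intro φ hφ
  refine ⟨hφ.ktype, ?_, ?_, ?_, ?_⟩
  · -- continuity
    exact Complex.continuous_conj.comp (hφ.cont.comp continuous_inv)
  · -- compact support
    have h1 : HasCompactSupport (φ ∘ (Homeomorph.inv (G K))) :=
      hφ.supp.comp_homeomorph (Homeomorph.inv (G K))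
    exact h1.comp_left (g := fun z : ℂ => conj z) (map_zero _)
  · -- smoothness at infinity
    intro n h hfin hinf g
    have hfin' : ∀ (t : Fin n → ℝ) (v : HeightOneSpectrum (𝓞 K)),
        TrivAtFin v (g * (h t)⁻¹ * g⁻¹) :=
      fun t v => trivAtFin_conj409 v g (h t)⁻¹ (trivAtFin_inv409 v (h t) (hfin t v))
    have hinf' : ∀ (w : InfinitePlace K) (i j : Fin 2),
        ContDiff ℝ ∞ (fun t => infComp w (g * (h t)⁻¹ * g⁻¹) i j) := by
      intro w i j
      have e : (fun t => infComp w (g * (h t)⁻¹ * g⁻¹) i j)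
          = fun t => (infComp w g * (infComp w (h t))⁻¹ * infComp w g⁻¹) i j := by
        funext t
        rw [infComp_mul409, infComp_mul409, infComp_inv409 w (h t)]
      rw [e]
      exact contDiff_conj_entry409 _ _ _
        (fun a b => contDiff_inv_entry409 (fun t => infComp w (h t)) (hinf w)
          (fun t => det_infComp_ne_zero409 w (h t)) a b) i j
    have hs := hφ.smooth n (fun t => g * (h t)⁻¹ * g⁻¹) hfin' hinf' g⁻¹
    have e : (fun t => adjointFn φ (g * h t))
        = fun t => Complex.conjCLE (φ (g⁻¹ * (g * (h t)⁻¹ * g⁻¹))) := by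
      funext t
      rw [adjointFn_apply409, Complex.conjCLE_apply]
      congr 2
      group
    rw [e]
    exact Complex.conjCLE.contDiff.comp hs
  · -- bi-invariance
    have hinv := hφ.inv
    refine ⟨?_, ?_, ?_, ?_⟩
    · intro u hu g
      rw [adjointFn_apply409, adjointFn_apply409, mul_inv_rev,
        hinv.level_left u⁻¹ (inLevelGroup_inv409 𝔫 u hu)]
    · intro u hu g
      rw [adjointFn_apply409, adjointFn_apply409, mul_inv_rev,
        hinv.level_right u⁻¹ (inLevelGroup_inv409 𝔫 u hu)]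
    · intro w k hk g
      rw [adjointFn_apply409, adjointFn_apply409, mul_inv_rev,
        hinv.arch_left w k⁻¹ (isArchCompact_inv409 w k hk), ktype_inv409 hφ.ktype w k hk,
        map_mul, map_inv₀, Complex.conj_conj]
    · intro w k hk g
      rw [adjointFn_apply409, adjointFn_apply409, mul_inv_rev,
        hinv.arch_right w k⁻¹ (isArchCompact_inv409 w k hk), ktype_inv409 hφ.ktype w k hk,
        map_mul, map_inv₀, Complex.conj_conj]

end Fermat.Agent.LT.T5.H409

end

end
-- ===== PACK-END LT/T5/H409/AdjTest.lean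

-- ===== PACK-BEGIN LT/T5/H71/TwUnfoldClosed.lean
section




/-!
# Row LT, tower T5, leaf T5.08 `LeafTwUnfold`, closed form (helper71)

OFF-MAIN.  Spec v3 (FREEZE, helper32@c970d419b).  `leafTwUnfold71 s 𝔫 τ : LeafTwUnfold s 𝔫 τ`,
unconditional, every number field `K`, every `AdelicAut K`, every level, every `τ`: `leafTwUnfold_of71` (this seat) applied to the product formula
`adNormC309` (helper309, leaf T1.05; byte-identical copy of the file integrated on
origin/helper54).
-/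

set_option autoImplicit false

open IsDedekindDomain NumberField

noncomputable section

namespace Fermat.Agent.LT.T5.H71

open Fermat.Agent.LT.H556.A0 Fermat.Agent.LT.T5

/-- **T5.08 `LeafTwUnfold`**, unconditional. -/
theorem leafTwUnfold71 {K : Type} [Field K] [NumberField K] (s : AdelicAut K)
    (𝔫 : Ideal (𝓞 K)) (τ : G K → ℂ) : LeafTwUnfold s 𝔫 τ :=
  leafTwUnfold_of71 s 𝔫 τ (Fermat.Agent.LT.T1.H309.adNormC309 K)

end Fermat.Agent.LT.T5.H71

end

end
-- ===== PACK-END LT/T5/H71/TwUnfoldClosed.lean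

-- ===== PACK-BEGIN LT/T5/H800/AbstractTrace.lean
section




/-!
# Row LT, tower T5, leaf T5.01 `LeafAbstractTrace`, Spec v4 form (helper800), OFF-MAIN

`leafAbstractTrace800 : T5.LeafAbstractTrace K` for every number field `K`, against
`Fermat/Agent/LT/T5/Spec.lean` v4 (architect helper32@eb7e4c138, sha256 f2d97e70548f,
byte-identical copy).  In v4 the sequence `e` is ORTHOGONAL and every `e i` has norm `1` OR
vanishes identically (zero vectors allowed).

The measure-theoretic dictionary is the one of helper379 (`LT/T5/H379/{HilbAbs,TraceAbs,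
TraceMain}.lean`, byte-identical copies, Mathlib only); the four statements which used
orthonormality are re-proved here with zero vectors allowed:

* `parseval_expand800` : Parseval for `g` in an orthogonal sequence of vectors of norm `1` or `0`
  gives `⟪w, g⟫ = ∑ ⟪w, e i⟫ ⟪e i, g⟫`;
* `expand800`, `hasSum_phi800`, `abstract_trace800` : the abstract trace identity on a finite
  measure space;
* `leafAbstractTrace800` : the leaf.  Also `leafAbstractTraceStrict800` (the v3 statement), as a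
  corollary.
-/

set_option autoImplicit false

open MeasureTheory ComplexConjugate
open scoped ENNReal InnerProductSpace

noncomputable section

namespace Fermat.Agent.LT.T5.H800

open Fermat.Agent.LT.T5.H379

/-! ## Hilbert space -/

section Hilbert

variable {E : Type*} [NormedAddCommGroup E] [InnerProductSpace ℂ E] [CompleteSpace E]

/-- **Parseval gives the expansion**, zero vectors allowed. -/
theorem parseval_expand800 {e : ℕ → E} {g : E}
    (horth0 : ∀ i j, i ≠ j → ⟪e i, e j⟫_ℂ = 0)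
    (hnorm0 : ∀ i, ⟪e i, e i⟫_ℂ = 1 ∨ e i = 0)
    (hpar : HasSum (fun i => ‖⟪e i, g⟫_ℂ‖ ^ 2) (‖g‖ ^ 2)) (w : E) :
    HasSum (fun i => ⟪w, e i⟫_ℂ * ⟪e i, g⟫_ℂ) ⟪w, g⟫_ℂ := by
  set φ : ℕ → E := fun i => ⟪e i, g⟫_ℂ • e i with hφ
  have horth : ∀ i j, i ≠ j → ⟪φ i, φ j⟫_ℂ = 0 := by
    intro i j hij
    simp only [hφ, inner_smul_left, inner_smul_right, horth0 i j hij, mul_zero]
  have hself : ∀ i, ⟪φ i, φ i⟫_ℂ = conj ⟪e i, g⟫_ℂ * ⟪e i, g⟫_ℂ := by
    intro i
    rcases hnorm0 i with h1 | h0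
    · simp only [hφ, inner_smul_left, inner_smul_right, h1, mul_one]
      ring
    · simp only [hφ, h0, inner_zero_left, smul_zero, mul_zero]
  have hproj : ∀ i, ⟪φ i, g⟫_ℂ = ⟪φ i, φ i⟫_ℂ := by
    intro i
    rw [hself i]
    simp only [hφ, inner_smul_left]
  have hsum : Summable φ := orth_summable379 horth hproj
  obtain ⟨g', hg'⟩ := hsum
  have hrem := orth_rem379 hg' horth hproj
  have hn := orth_norm_sq379 hg' horth
  have hnorm : ∀ i, ‖φ i‖ ^ 2 = ‖⟪e i, g⟫_ℂ‖ ^ 2 := by
    intro i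
    rcases hnorm0 i with h1' | h0
    · have h1 : ‖e i‖ = 1 := by
        have := h1'
        rw [inner_self_eq_norm_sq_to_K] at this
        have h2 : (‖e i‖ : ℂ) ^ 2 = 1 := this
        have h3 : ‖e i‖ ^ 2 = 1 := by exact_mod_cast h2
        exact (pow_eq_one_iff_of_nonneg (norm_nonneg _) two_ne_zero).1 h3
      simp only [hφ, norm_smul, h1, mul_one]
    · simp only [hφ, h0, inner_zero_left, smul_zero, norm_zero]
  have hn' : HasSum (fun i => ‖⟪e i, g⟫_ℂ‖ ^ 2) (‖g'‖ ^ 2) := by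
    have : (fun i => ‖φ i‖ ^ 2) = fun i => ‖⟪e i, g⟫_ℂ‖ ^ 2 := funext hnorm
    rw [← this]; exact hn
  have heq : ‖g'‖ ^ 2 = ‖g‖ ^ 2 := hn'.unique hpar
  have hpyth : ‖g' + (g - g')‖ * ‖g' + (g - g')‖ = ‖g'‖ * ‖g'‖ + ‖g - g'‖ * ‖g - g'‖ :=
    norm_add_sq_eq_norm_sq_add_norm_sq_of_inner_eq_zero (𝕜 := ℂ) g' (g - g') hrem
  have hz : ‖g - g'‖ = 0 := by
    have h1 : g' + (g - g') = g := by abel
    rw [h1] at hpyth
    have h2 : ‖g - g'‖ * ‖g - g'‖ = 0 := by nlinarith [heq]
    exact mul_self_eq_zero.1 h2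
  have hgg : g = g' := by
    have := norm_eq_zero.1 hz
    exact sub_eq_zero.1 this
  rw [← hgg] at hg'
  have h3 := hasSum_inner_right379 hg' w
  have h4 : (fun i => ⟪w, φ i⟫_ℂ) = fun i => ⟪w, e i⟫_ℂ * ⟪e i, g⟫_ℂ := by
    funext i
    simp only [hφ, inner_smul_right]
    ring
  rw [h4] at h3
  exact h3

end Hilbert

/-! ## The abstract trace identity, zero vectors allowed -/

section Trace

variable {X : Type*} [MeasurableSpace X] {ν : Measure X} [IsFiniteMeasure ν]
  {K₁ K₂ : X → X → ℂ} {e : ℕ → X → ℂ}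

omit [IsFiniteMeasure ν] in
/-- A function which vanishes identically is `0` in `L²`. -/
theorem toLp_eq_zero800 {f : X → ℂ} (hf : MemLp f 2 ν) (h0 : ∀ x, f x = 0) :
    hf.toLp f = 0 := by
  have h1 : f = 0 := funext h0
  subst h1
  exact MemLp.toLp_zero hf

omit [IsFiniteMeasure ν] in
/-- The coefficient function of a vanishing `e i` vanishes. -/
theorem cfun_eq_zero800 {i : ℕ} (h0 : ∀ x, e i x = 0) (z : X) : cfun379 ν K₁ e i z = 0 := by
  unfold cfun379 kop379
  simp only [h0, map_zero, mul_zero, integral_zero]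

/-- Parseval for the range of `K₁` gives the expansion of the bilinear form of `K₁`. -/
theorem expand800 (hK₁ : MemLp (fun p : X × X => K₁ p.1 p.2) 2 (ν.prod ν))
    (he : ∀ i, MemLp (e i) 2 ν)
    (horth : ∀ i j, i ≠ j → ∫ x, e i x * conj (e j x) ∂ν = 0)
    (hnorm : ∀ i, ∫ x, e i x * conj (e i x) ∂ν = 1 ∨ ∀ x, e i x = 0)
    (hpar : ∀ f : X → ℂ, MemLp f 2 ν →
      HasSum (fun i => ‖∫ x, kop379 ν K₁ f x * conj (e i x) ∂ν‖ ^ 2)
        (∫ x, kop379 ν K₁ f x * conj (kop379 ν K₁ f x) ∂ν).re)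
    {u v : X → ℂ} (hu : MemLp u 2 ν) (hv : MemLp v 2 ν) :
    HasSum (fun i => (∫ x, kop379 ν K₁ u x * conj (e i x) ∂ν) * ∫ x, e i x * v x ∂ν)
      (∫ x, kop379 ν K₁ u x * v x ∂ν) := by
  have hG := memLp_kop379 hK₁ hu
  have hW := memLp_conj379 hv
  have horth' : ∀ i j, i ≠ j → ⟪(he i).toLp (e i), (he j).toLp (e j)⟫_ℂ = 0 := by
    intro i j hij
    rw [inner_toLp379, horth j i (Ne.symm hij)]
  have hnorm' : ∀ i, ⟪(he i).toLp (e i), (he i).toLp (e i)⟫_ℂ = 1 ∨ (he i).toLp (e i) = 0 := by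
    intro i
    rcases hnorm i with h1 | h0
    · left
      rw [inner_toLp379, h1]
    · right
      exact toLp_eq_zero800 (he i) h0
  have hpar' : HasSum (fun i => ‖⟪(he i).toLp (e i), hG.toLp _⟫_ℂ‖ ^ 2)
      (‖hG.toLp (kop379 ν K₁ u)‖ ^ 2) := by
    have h1 := hpar u hu
    have e1 : (fun i => ‖⟪(he i).toLp (e i), hG.toLp _⟫_ℂ‖ ^ 2)
        = fun i => ‖∫ x, kop379 ν K₁ u x * conj (e i x) ∂ν‖ ^ 2 := by
      funext i
      rw [inner_toLp379]
    have e2 : ‖hG.toLp (kop379 ν K₁ u)‖ ^ 2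
        = (∫ x, kop379 ν K₁ u x * conj (kop379 ν K₁ u x) ∂ν).re := by
      rw [← inner_toLp379 hG hG]
      exact (inner_self_eq_norm_sq (𝕜 := ℂ) _).symm
    rw [e1, e2]
    exact h1
  have h := parseval_expand800 horth' hnorm' hpar' (hW.toLp _)
  have e3 : (fun i => ⟪hW.toLp _, (he i).toLp (e i)⟫_ℂ * ⟪(he i).toLp (e i), hG.toLp _⟫_ℂ)
      = fun i => (∫ x, kop379 ν K₁ u x * conj (e i x) ∂ν) * ∫ x, e i x * v x ∂ν := by
    funext i
    rw [inner_toLp379, inner_toLp379, mul_comm]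
    simp only [Complex.conj_conj]
  have e4 : ⟪hW.toLp _, hG.toLp _⟫_ℂ = ∫ x, kop379 ν K₁ u x * v x ∂ν := by
    rw [inner_toLp379]
    simp only [Complex.conj_conj]
  rw [e3, e4] at h
  exact h

/-- **The kernel is the sum of the `Φᵢ` in `L²` of the product**, zero vectors allowed. -/
theorem hasSum_phi800 (hK₁ : MemLp (fun p : X × X => K₁ p.1 p.2) 2 (ν.prod ν))
    (he : ∀ i, MemLp (e i) 2 ν)
    (horth0 : ∀ i j, i ≠ j → ∫ x, e i x * conj (e j x) ∂ν = 0)
    (hnorm0 : ∀ i, ∫ x, e i x * conj (e i x) ∂ν = 1 ∨ ∀ x, e i x = 0)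
    (hpar : ∀ f : X → ℂ, MemLp f 2 ν →
      HasSum (fun i => ‖∫ x, kop379 ν K₁ f x * conj (e i x) ∂ν‖ ^ 2)
        (∫ x, kop379 ν K₁ f x * conj (kop379 ν K₁ f x) ∂ν).re) :
    HasSum (fun i => (memLp_phi379 hK₁ he i).toLp _)
      ((memLp_transpose379 hK₁).toLp (fun p : X × X => K₁ p.2 p.1)) := by
  have horth : ∀ i j, i ≠ j →
      ⟪(memLp_phi379 hK₁ he i).toLp _, (memLp_phi379 hK₁ he j).toLp _⟫_ℂ = 0 := by
    intro i j hij
    rw [inner_phi_phi379 hK₁ he i j, horth0 j i (Ne.symm hij), mul_zero]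
  have hproj : ∀ i,
      ⟪(memLp_phi379 hK₁ he i).toLp _, (memLp_transpose379 hK₁).toLp _⟫_ℂ
        = ⟪(memLp_phi379 hK₁ he i).toLp _, (memLp_phi379 hK₁ he i).toLp _⟫_ℂ := by
    intro i
    rw [inner_phi_y379 hK₁ he i, inner_phi_phi379 hK₁ he i i]
    rcases hnorm0 i with h1 | h0
    · rw [h1, mul_one]
    · have hc : (fun z => cfun379 ν K₁ e i z * conj (cfun379 ν K₁ e i z)) = fun _ => 0 := by
        funext z
        rw [cfun_eq_zero800 h0 z, zero_mul]
      rw [hc, integral_zero, zero_mul]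
  obtain ⟨g', hg'⟩ := orth_summable379 horth hproj
  have hzero : (memLp_transpose379 hK₁).toLp (fun p : X × X => K₁ p.2 p.1) - g' = 0 := by
    apply eq_zero_of_rect379
    intro S T hS hT
    rw [← L2.inner_indicatorConstLp_one (𝕜 := ℂ) (hS.prod hT) (measure_ne_top _ _)]
    have hu : MemLp (S.indicator (fun _ => (1 : ℂ))) 2 ν :=
      memLp_indicator_const 2 hS 1 (Or.inr (measure_ne_top _ _))
    have hv : MemLp (T.indicator (fun _ => (1 : ℂ))) 2 ν :=
      memLp_indicator_const 2 hT 1 (Or.inr (measure_ne_top _ _))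
    have hind : indicatorConstLp 2 (hS.prod hT) (measure_ne_top (ν.prod ν) _) (1 : ℂ)
        = (memLp_test379 hu hv).toLp _ := by
      rw [indicatorConstLp]
      apply MemLp.toLp_congr
      filter_upwards with p
      by_cases h1 : p.1 ∈ S <;> by_cases h2 : p.2 ∈ T <;> simp [Set.indicator, h1, h2]
    rw [hind, inner_sub_right, inner_test_y379 hK₁ hu hv]
    have h3 := hasSum_inner_right379 hg' ((memLp_test379 hu hv).toLp _)
    have e5 : (fun i => ⟪(memLp_test379 hu hv).toLp _, (memLp_phi379 hK₁ he i).toLp _⟫_ℂ)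
        = fun i => (∫ x, kop379 ν K₁ (S.indicator (fun _ => (1 : ℂ))) x * conj (e i x) ∂ν)
            * ∫ x, e i x * T.indicator (fun _ => (1 : ℂ)) x ∂ν :=
      funext fun i => inner_test_phi379 hK₁ he i hu hv
    rw [e5] at h3
    rw [h3.unique (expand800 hK₁ he horth0 hnorm0 hpar hu hv), sub_self]
  rw [sub_eq_zero] at hzero
  rw [hzero]
  exact hg'

/-- **T5.01, abstract form, zero vectors allowed.**  Trace of a product of two Hilbert–Schmidt
kernel operators, computed in an orthogonal sequence of functions of norm `1` or identically `0`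
for which the range of the first operator satisfies Parseval's identity. -/
theorem abstract_trace800 (K₁ K₂ : X → X → ℂ) (e : ℕ → X → ℂ)
    (hK₁ : MemLp (fun p : X × X => K₁ p.1 p.2) 2 (ν.prod ν))
    (hK₂ : MemLp (fun p : X × X => K₂ p.1 p.2) 2 (ν.prod ν))
    (he : ∀ i, MemLp (e i) 2 ν)
    (horth : ∀ i j, i ≠ j → ∫ x, e i x * conj (e j x) ∂ν = 0)
    (hnorm : ∀ i, ∫ x, e i x * conj (e i x) ∂ν = 1 ∨ ∀ x, e i x = 0)
    (hpar : ∀ f : X → ℂ, MemLp f 2 ν →
      HasSum (fun i => ‖∫ x, kop379 ν K₁ f x * conj (e i x) ∂ν‖ ^ 2)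
        (∫ x, kop379 ν K₁ f x * conj (kop379 ν K₁ f x) ∂ν).re) :
    Summable (fun i => ∫ x, kop379 ν K₁ (kop379 ν K₂ (e i)) x * conj (e i x) ∂ν) ∧
      Integrable (fun x => ∫ z, K₁ x z * K₂ z x ∂ν) ν ∧
      ∑' i, ∫ x, kop379 ν K₁ (kop379 ν K₂ (e i)) x * conj (e i x) ∂ν
        = ∫ x, ∫ z, K₁ x z * K₂ z x ∂ν ∂ν := by
  have hy := hasSum_phi800 hK₁ he horth hnorm hpar
  have hL := memLp_conj379 hK₂
  have h1 := hasSum_inner_right379 hy (hL.toLp _)
  have e1 : (fun i => ⟪hL.toLp _, (memLp_phi379 hK₁ he i).toLp _⟫_ℂ)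
      = fun i => ∫ x, kop379 ν K₁ (kop379 ν K₂ (e i)) x * conj (e i x) ∂ν :=
    funext fun i => (term_eq379 hK₁ hK₂ he i).symm
  rw [e1] at h1
  have hint : Integrable (fun p : X × X => K₁ p.1 p.2 * K₂ p.2 p.1) (ν.prod ν) :=
    hK₁.integrable_mul (memLp_transpose379 hK₂)
  have e2 : ⟪hL.toLp _, (memLp_transpose379 hK₁).toLp (fun p : X × X => K₁ p.2 p.1)⟫_ℂ
      = ∫ x, ∫ z, K₁ x z * K₂ z x ∂ν ∂ν := by
    rw [inner_toLp379]
    have h2 := integral_prod_swap (μ := ν) (ν := ν)
      (fun p : X × X => K₁ p.1 p.2 * K₂ p.2 p.1)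
    have h3 := integral_prod _ hint
    rw [← h3, ← h2]
    congr 1
    funext p
    simp only [Complex.conj_conj, Prod.fst_swap, Prod.snd_swap]
  refine ⟨h1.summable, hint.integral_prod_left, ?_⟩
  rw [h1.tsum_eq, e2]

end Trace

/-! ## The leaf -/

open Fermat.Agent.LT.H556.A0 Fermat.Agent.LT.T5

attribute [local instance] Fermat.Agent.LT.T5.instMeasurableSpaceG

/-- **T5.01 (Spec v4).**  The trace of a product of two Hilbert–Schmidt kernel operators, computed
in an orthogonal sequence (norm `1` or identically `0`) for which the range of the first operator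
satisfies Parseval. -/
theorem leafAbstractTrace800 (K : Type) [Field K] [NumberField K] : LeafAbstractTrace K := by
  intro μ F hF K₁ K₂ e horth hnorm hcb hK₁ hK₂ hpar
  have : IsFiniteMeasure (μ.restrict F) :=
    ⟨by rw [Measure.restrict_apply_univ]; exact hF⟩
  have : BorelSpace (G K) := ⟨rfl⟩
  have he : ∀ i, MemLp (e i) 2 (μ.restrict F) := by
    intro i
    obtain ⟨hc, C, hC⟩ := hcb i
    exact memLp_of_bdd379 hc.aestronglyMeasurable hC
  exact abstract_trace800 (ν := μ.restrict F) K₁ K₂ e hK₁ hK₂ he horth hnorm hpar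

/-- The v3 statement (strictly orthonormal sequence) is a special case. -/
theorem leafAbstractTraceStrict800 (K : Type) [Field K] [NumberField K] :
    LeafAbstractTraceStrict K := by
  intro μ F hF K₁ K₂ e hon hcb hK₁ hK₂ hpar
  refine leafAbstractTrace800 K μ F hF K₁ K₂ e (fun i j hij => ?_) (fun i => Or.inl ?_)
    hcb hK₁ hK₂ hpar
  · rw [hon i j, if_neg hij]
  · rw [hon i i, if_pos rfl]

end Fermat.Agent.LT.T5.H800

end
end
-- ===== PACK-END LT/T5/H800/AbstractTrace.lean

-- ===== PACK-BEGIN LT/T5/H807/HS0OfRange.lean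
section







/-!
# Row LT, tower T5 (helper807, OFF-MAIN): `T5.04 LeafRange ⇒ T5.02 LeafHS0`

`leafHS0_of_range807 : T1.LocCompC K → T1.DiscreteC K → T1.AdNormC K →
    T5.LeafRange 𝔫 τ → T5.LeafHS0 𝔫 τ`   (T5/Spec.lean v4 sha256 f2d97e70; also builds vs v3)

The kernel `K_φ(x, y) = ∑_γ φ♭(x⁻¹ γ y)` is a locally finite sum (`GL₂(K) ⟨r⟩` is discrete and
`φ` has compact support), hence continuous on `GL₂(𝔸_K) × GL₂(𝔸_K)`, and every section
`K_φ(x, ·)` is bounded.  By `LeafRange` the functionals `f ↦ ∫_F K_φ(x, z) f(z) dz`, `x ∈ G`,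
are pointwise bounded on `L²(F)`; by the Banach--Steinhaus theorem their norms
`‖K_φ(x, ·)‖_{L²(F)}` are uniformly bounded, and `μ(F) < ∞` gives `K_φ ∈ L²(F × F)`.
So the Gelfand--Piatetski-Shapiro estimate is needed ONCE (in the sup form of `LeafRange`).
-/

set_option autoImplicit false

open IsDedekindDomain NumberField MeasureTheory
open scoped MatrixGroups Pointwise

noncomputable section

namespace Fermat.Agent.LT.T5.H807

open Fermat.Agent.LT.H556.A0 Fermat.Agent.LT

attribute [local instance] Fermat.Agent.LT.T5.instMeasurableSpaceG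

/-! ## Nested sums with finite support -/

theorem tsum_tsum_eq_sum807 {α β : Type*} (f : α → β → ℂ) (T : Finset (α × β))
    (hT : ∀ a b, (a, b) ∉ T → f a b = 0) :
    ∑' a, ∑' b, f a b = ∑ p ∈ T, f p.1 p.2 := by
  classical
  have h1 : ∀ a, ∑' b, f a b = ∑ b ∈ T.image Prod.snd, f a b := by
    intro a
    apply tsum_eq_sum
    intro b hb
    apply hT
    intro hab
    exact hb (Finset.mem_image.2 ⟨(a, b), hab, rfl⟩)
  simp_rw [h1]
  have h2 : ∑' a, ∑ b ∈ T.image Prod.snd, f a b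
      = ∑ a ∈ T.image Prod.fst, ∑ b ∈ T.image Prod.snd, f a b := by
    apply tsum_eq_sum
    intro a ha
    apply Finset.sum_eq_zero
    intro b _
    apply hT
    intro hab
    exact ha (Finset.mem_image.2 ⟨(a, b), hab, rfl⟩)
  rw [h2, ← Finset.sum_product']
  symm
  apply Finset.sum_subset
  · intro p hp
    exact Finset.mem_product.2
      ⟨Finset.mem_image.2 ⟨p, hp, rfl⟩, Finset.mem_image.2 ⟨p, hp, rfl⟩⟩
  · intro p _ hp
    exact hT p.1 p.2 hp

variable {K : Type} [Field K] [NumberField K]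

theorem ker0_eq807 (r : G K) (φ : G K → ℂ) (x y : G K) :
    T5.ker0 r φ x y = ∑' γ : GL (Fin 2) K, ∑' m : ℤ, φ (x⁻¹ * T5.ratG γ * y * r ^ m) := rfl

/-- The kernel as a finite sum. -/
theorem ker0_eq_sum807 (r : G K) (φ : G K → ℂ) (x y : G K) (T : Finset (GL (Fin 2) K × ℤ))
    (hT : ∀ (γ : GL (Fin 2) K) (m : ℤ), (γ, m) ∉ T → φ (x⁻¹ * T5.ratG γ * y * r ^ m) = 0) :
    T5.ker0 r φ x y = ∑ p ∈ T, φ (x⁻¹ * T5.ratG p.1 * y * r ^ p.2) := by
  rw [ker0_eq807]
  exact tsum_tsum_eq_sum807 (fun γ m => φ (x⁻¹ * T5.ratG γ * y * r ^ m)) T hT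


/-! ## Explicit continuity lemmas (no automation: `G K` is a heavy type) -/

theorem continuous_arg807 (r : G K) (q : GL (Fin 2) K × ℤ) :
    Continuous (fun p : G K × G K => p.1⁻¹ * T5.ratG q.1 * p.2 * r ^ q.2) :=
  (((continuous_fst.inv).mul continuous_const).mul continuous_snd).mul continuous_const

theorem continuous_conj807 (x : G K) :
    Continuous (fun p : G K × G K => x * p.1 * p.2⁻¹ * x⁻¹) :=
  ((continuous_const.mul continuous_fst).mul continuous_snd.inv).mul continuous_const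

theorem continuous_triple807 :
    Continuous (fun p : G K × G K × G K => p.1 * p.2.1 * p.2.2⁻¹) :=
  (continuous_fst.mul (continuous_fst.comp continuous_snd)).mul
    (continuous_snd.comp continuous_snd).inv

theorem continuous_summand807 (r : G K) (φ : G K → ℂ) (hc : Continuous φ)
    (q : GL (Fin 2) K × ℤ) :
    Continuous (fun p : G K × G K => φ (p.1⁻¹ * T5.ratG q.1 * p.2 * r ^ q.2)) :=
  hc.comp (continuous_arg807 r q)

theorem continuous_finsum807 (r : G K) (φ : G K → ℂ) (hc : Continuous φ)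
    (T : Finset (GL (Fin 2) K × ℤ)) :
    Continuous (fun p : G K × G K => ∑ q ∈ T, φ (p.1⁻¹ * T5.ratG q.1 * p.2 * r ^ q.2)) := by
  apply continuous_finsetSum
  intro q _
  exact continuous_summand807 r φ hc q

theorem continuous_section807 (r : G K) (φ : G K → ℂ) (x : G K)
    (hcont : Continuous (fun p : G K × G K => T5.ker0 r φ p.1 p.2)) :
    Continuous (fun z : G K => T5.ker0 r φ x z) :=
  hcont.comp (f := fun z : G K => (x, z)) (continuous_const.prodMk continuous_id)

/-! ## Local finiteness -/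

variable {r : G K} {φ : G K → ℂ}

/-- If `φ(x⁻¹ γ y rᵐ) ≠ 0` then `γ rᵐ ∈ x · supp φ · y⁻¹`. -/
theorem mem_of_ne_zero807 (hr : T5.IsRayGen r) {x y : G K} {γ : GL (Fin 2) K} {m : ℤ}
    (h : φ (x⁻¹ * T5.ratG γ * y * r ^ m) ≠ 0) :
    ∃ s ∈ tsupport φ, T5.ratG γ * r ^ m = x * s * y⁻¹ := by
  refine ⟨x⁻¹ * T5.ratG γ * y * r ^ m, subset_tsupport _ h, ?_⟩
  have hc : y * r ^ m = r ^ m * y := (rayGen_zpow_comm807 hr m y).symm
  calc T5.ratG γ * r ^ m = x * (x⁻¹ * T5.ratG γ * (r ^ m * y)) * y⁻¹ := by group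
    _ = x * (x⁻¹ * T5.ratG γ * y * r ^ m) * y⁻¹ := by rw [← hc]; group

/-- Local finiteness on a product of compact sets. -/
theorem exists_finset_local807 (hD : T1.DiscreteC K) (hN : T1.AdNormC K) (hr : T5.IsRayGen r)
    (hφ : HasCompactSupport φ) {V₁ V₂ : Set (G K)} (h₁ : IsCompact V₁) (h₂ : IsCompact V₂) :
    ∃ T : Finset (GL (Fin 2) K × ℤ), ∀ x ∈ V₁, ∀ y ∈ V₂, ∀ (γ : GL (Fin 2) K) (m : ℤ),
      (γ, m) ∉ T → φ (x⁻¹ * T5.ratG γ * y * r ^ m) = 0 := by
  have hS : IsCompact (tsupport φ) := hφ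
  have hC : IsCompact ((fun p : G K × G K × G K => p.1 * p.2.1 * p.2.2⁻¹) ''
      (V₁ ×ˢ (tsupport φ ×ˢ V₂))) :=
    (h₁.prod (hS.prod h₂)).image continuous_triple807
  have hfin := finite_pairs807 hD hN hr hC
  refine ⟨hfin.toFinset, fun x hx y hy γ m hγ => ?_⟩
  by_contra hne
  apply hγ
  rw [Set.Finite.mem_toFinset]
  obtain ⟨s, hs, e⟩ := mem_of_ne_zero807 hr hne
  exact ⟨(x, s, y), ⟨hx, hs, hy⟩, e.symm⟩

/-- **The kernel is continuous** on `GL₂(𝔸_K) × GL₂(𝔸_K)`. -/
theorem continuous_ker0_807 [LocallyCompactSpace (G K)] (hD : T1.DiscreteC K)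
    (hN : T1.AdNormC K) (hr : T5.IsRayGen r) (hc : Continuous φ) (hφ : HasCompactSupport φ) :
    Continuous (fun p : G K × G K => T5.ker0 r φ p.1 p.2) := by
  rw [continuous_iff_continuousAt]
  rintro ⟨x₀, y₀⟩
  obtain ⟨V₁, h₁, hx₀⟩ := exists_compact_mem_nhds x₀
  obtain ⟨V₂, h₂, hy₀⟩ := exists_compact_mem_nhds y₀
  obtain ⟨T, hT⟩ := exists_finset_local807 hD hN hr hφ h₁ h₂
  have hF := continuous_finsum807 r φ hc T
  refine hF.continuousAt.congr ?_
  have hnhd : V₁ ×ˢ V₂ ∈ nhds (x₀, y₀) := prod_mem_nhds hx₀ hy₀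
  filter_upwards [hnhd] with p hp
  exact (ker0_eq_sum807 r φ p.1 p.2 T (hT p.1 hp.1 p.2 hp.2)).symm

/-- **Every section of the kernel is bounded.** -/
theorem exists_bound_ker0_807 (hD : T1.DiscreteC K) (hN : T1.AdNormC K) (hr : T5.IsRayGen r)
    (hc : Continuous φ) (hφ : HasCompactSupport φ) (x : G K) :
    ∃ C : ℝ, ∀ y : G K, ‖T5.ker0 r φ x y‖ ≤ C := by
  classical
  obtain ⟨M, hM⟩ := hc.bounded_above_of_compact_support hφ
  have hM0 : 0 ≤ M := le_trans (norm_nonneg _) (hM 1)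
  have hS : IsCompact (tsupport φ) := hφ
  have hC : IsCompact ((fun p : G K × G K => x * p.1 * p.2⁻¹ * x⁻¹) ''
      (tsupport φ ×ˢ tsupport φ)) :=
    (hS.prod hS).image (continuous_conj807 x)
  have hfin := finite_pairs807 hD hN hr hC
  refine ⟨hfin.toFinset.card * M, fun y => ?_⟩
  by_cases hex : ∃ (γ₀ : GL (Fin 2) K) (m₀ : ℤ), φ (x⁻¹ * T5.ratG γ₀ * y * r ^ m₀) ≠ 0
  · obtain ⟨γ₀, m₀, h₀⟩ := hex
    obtain ⟨s₀, hs₀, e₀⟩ := mem_of_ne_zero807 hr h₀
    let T : Finset (GL (Fin 2) K × ℤ) :=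
      hfin.toFinset.image (fun q => (q.1 * γ₀, q.2 + m₀))
    have hT : ∀ (γ : GL (Fin 2) K) (m : ℤ), (γ, m) ∉ T →
        φ (x⁻¹ * T5.ratG γ * y * r ^ m) = 0 := by
      intro γ m hγ
      by_contra hne
      apply hγ
      obtain ⟨s, hs, e⟩ := mem_of_ne_zero807 hr hne
      refine Finset.mem_image.2 ⟨(γ * γ₀⁻¹, m - m₀), ?_, ?_⟩
      · rw [Set.Finite.mem_toFinset]
        refine ⟨(s, s₀), ⟨hs, hs₀⟩, ?_⟩
        change x * s * s₀⁻¹ * x⁻¹ = T5.ratG (γ * γ₀⁻¹) * r ^ (m - m₀)
        have hcomm : r ^ m₀ * (T5.ratG γ₀)⁻¹ = (T5.ratG γ₀)⁻¹ * r ^ m₀ :=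
          rayGen_zpow_comm807 hr m₀ _
        have e1 : x * s * y⁻¹ * (x * s₀ * y⁻¹)⁻¹ = x * s * s₀⁻¹ * x⁻¹ := by group
        rw [← e1, ← e, ← e₀, map_mul, map_inv, zpow_sub]
        have e2 : (T5.ratG γ₀ * r ^ m₀)⁻¹ = (r ^ m₀)⁻¹ * (T5.ratG γ₀)⁻¹ := mul_inv_rev _ _
        rw [e2]
        have hcomm2 : (r ^ m₀)⁻¹ * (T5.ratG γ₀)⁻¹ = (T5.ratG γ₀)⁻¹ * (r ^ m₀)⁻¹ := by
          have := rayGen_zpow_comm807 hr (-m₀) (T5.ratG γ₀)⁻¹
          rwa [zpow_neg] at this
        have hcomm3 : r ^ m * (T5.ratG γ₀)⁻¹ = (T5.ratG γ₀)⁻¹ * r ^ m :=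
          rayGen_zpow_comm807 hr m _
        calc T5.ratG γ * r ^ m * ((r ^ m₀)⁻¹ * (T5.ratG γ₀)⁻¹)
            = T5.ratG γ * r ^ m * ((T5.ratG γ₀)⁻¹ * (r ^ m₀)⁻¹) := by rw [hcomm2]
          _ = T5.ratG γ * (r ^ m * (T5.ratG γ₀)⁻¹) * (r ^ m₀)⁻¹ := by group
          _ = T5.ratG γ * ((T5.ratG γ₀)⁻¹ * r ^ m) * (r ^ m₀)⁻¹ := by rw [hcomm3]
          _ = T5.ratG γ * (T5.ratG γ₀)⁻¹ * (r ^ m * (r ^ m₀)⁻¹) := by group
      · simp
    rw [ker0_eq_sum807 r φ x y T hT]
    calc ‖∑ p ∈ T, φ (x⁻¹ * T5.ratG p.1 * y * r ^ p.2)‖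
        ≤ ∑ p ∈ T, ‖φ (x⁻¹ * T5.ratG p.1 * y * r ^ p.2)‖ := norm_sum_le _ _
      _ ≤ ∑ _p ∈ T, M := Finset.sum_le_sum fun p _ => hM _
      _ = T.card * M := by rw [Finset.sum_const, nsmul_eq_mul]
      _ ≤ hfin.toFinset.card * M := by
          apply mul_le_mul_of_nonneg_right _ hM0
          exact_mod_cast Finset.card_image_le
  · have hT : ∀ (γ : GL (Fin 2) K) (m : ℤ), (γ, m) ∉ (∅ : Finset (GL (Fin 2) K × ℤ)) →
        φ (x⁻¹ * T5.ratG γ * y * r ^ m) = 0 := by
      intro γ m _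
      by_contra hne
      exact hex ⟨γ, m, hne⟩
    rw [ker0_eq_sum807 r φ x y ∅ hT, Finset.sum_empty, norm_zero]
    exact mul_nonneg (Nat.cast_nonneg _) hM0

/-! ## The theorem -/

/-- **`T5.04 LeafRange ⇒ T5.02 LeafHS0`** (Banach--Steinhaus). -/
theorem leafHS0_of_range807 (hLC : T1.LocCompC K) (hD : T1.DiscreteC K) (hN : T1.AdNormC K)
    (𝔫 : Ideal (𝓞 K)) (τ : G K → ℂ) (hR : T5.LeafRange 𝔫 τ) : T5.LeafHS0 𝔫 τ := by
  intro μ F r hF hr φ hφ hek hek'
  have : LocallyCompactSpace (G K) := hLC.2.1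
  have : SecondCountableTopology (G K) := hLC.2.2.2
  have : BorelSpace (G K) := ⟨rfl⟩
  have : IsFiniteMeasure (μ.restrict F) :=
    ⟨by rw [Measure.restrict_apply_univ]; exact hF.finite⟩
  have hcont := continuous_ker0_807 hD hN hr hφ.cont hφ.supp
  refine memLp_two_prod_of_pointwise807 (fun p : G K × G K => T5.ker0 r φ p.1 p.2)
    hcont.aestronglyMeasurable ?_ ?_
  · intro x
    obtain ⟨C, hC⟩ := exists_bound_ker0_807 hD hN hr hφ.cont hφ.supp x
    have hcx := continuous_section807 r φ x hcont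
    exact MemLp.of_bound hcx.aestronglyMeasurable C (Filter.Eventually.of_forall hC)
  · intro f hf
    obtain ⟨C, hC⟩ := (hR μ F r hF hr φ hφ hek hek' f hf).bdd
    exact ⟨C, hC⟩

end Fermat.Agent.LT.T5.H807

end

end
-- ===== PACK-END LT/T5/H807/HS0OfRange.lean

-- ===== PACK-BEGIN LT/T7/H231/Gal.lean
section




/-!
# Row LT, tower T7, leaf T7.04 (helper231): group theory in `GL₂(𝔽₃)` and the fields `F ⊂ E`

OFF-MAIN.  Mathlib + `H130/Wall.lean` + `A2/H230/FieldE.lean` (helper230@fcbe7a695,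
byte-identical copy).

* `inQ8_of_sq231`, `inQ8_cube231`, `inQ8_sq_of_det_ne231` : `SL₂(𝔽₃)/Q8` has order `3`,
  `GL₂(𝔽₃)/SL₂(𝔽₃)` has order `2` and the elements of determinant `-1` have square in `Q8`;
* `ord_cases231` : `ordQ8 (g ^ ordSL g) = 1`, or `det g = 1`, `g ∉ Q8` and
  `ordQ8 (g ^ ordSL g) = 3`;
* `normal_fixedField231` : the fixed field of a normal subgroup is normal;
* `inQ8_of_fixes231`, `fixes_of_inQ8_231`, `fixes_fieldF_of_det231` : the dictionary between
  `ρ σ` and the action of `σ` on `E`, `F`.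
-/

set_option autoImplicit false
set_option linter.unusedSectionVars false
set_option linter.style.haveILetI false

open scoped MatrixGroups
open NumberField

noncomputable section

namespace Fermat.Agent.LT.T7.H231

open Fermat.Agent.LT.H130 Fermat.Agent.LT.A2.H230

local notation "Γℚ" => (AlgebraicClosure ℚ ≃ₐ[ℚ] AlgebraicClosure ℚ)

/-! ## Entries -/

theorem sq_entries231 : ∀ a b c d : ZMod 3, a * d - b * c = 1 →
    Q8E230 (a * a + b * c) (a * b + b * d) (c * a + d * c) (c * b + d * d) → Q8E230 a b c d := by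
  decide

theorem cube_entries231 : ∀ a b c d : ZMod 3, a * d - b * c = 1 →
    Q8E230 ((a * a + b * c) * a + (a * b + b * d) * c) ((a * a + b * c) * b + (a * b + b * d) * d)
      ((c * a + d * c) * a + (c * b + d * d) * c) ((c * a + d * c) * b + (c * b + d * d) * d) := by
  decide

theorem sq_entries_neg231 : ∀ a b c d : ZMod 3, a * d - b * c ≠ 0 → a * d - b * c ≠ 1 →
    Q8E230 (a * a + b * c) (a * b + b * d) (c * a + d * c) (c * b + d * d) := by
  decide

/-! ## Elements of `GL₂(𝔽₃)` -/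

theorem det_eq_one_iff231 (g : GL (Fin 2) (ZMod 3)) :
    Matrix.GeneralLinearGroup.det g = 1 ↔
      (g : Matrix (Fin 2) (Fin 2) (ZMod 3)) 0 0 * (g : Matrix (Fin 2) (Fin 2) (ZMod 3)) 1 1
        - (g : Matrix (Fin 2) (Fin 2) (ZMod 3)) 0 1 * (g : Matrix (Fin 2) (Fin 2) (ZMod 3)) 1 0
        = 1 := by
  rw [Units.ext_iff, Matrix.GeneralLinearGroup.val_det_apply, Matrix.det_fin_two]
  rfl

theorem det_entries_ne_zero231 (g : GL (Fin 2) (ZMod 3)) :
    (g : Matrix (Fin 2) (Fin 2) (ZMod 3)) 0 0 * (g : Matrix (Fin 2) (Fin 2) (ZMod 3)) 1 1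
        - (g : Matrix (Fin 2) (Fin 2) (ZMod 3)) 0 1 * (g : Matrix (Fin 2) (Fin 2) (ZMod 3)) 1 0
        ≠ 0 := by
  have h : IsUnit (g : Matrix (Fin 2) (Fin 2) (ZMod 3)).det :=
    (Matrix.isUnit_iff_isUnit_det _).mp g.isUnit
  rw [Matrix.det_fin_two] at h
  exact h.ne_zero

theorem hasEntries_sq231 (P : ZMod 3 → ZMod 3 → ZMod 3 → ZMod 3 → Prop)
    (g : GL (Fin 2) (ZMod 3)) :
    HasEntries230 P (g ^ 2) ↔
      P ((g : Matrix (Fin 2) (Fin 2) (ZMod 3)) 0 0 * (g : Matrix (Fin 2) (Fin 2) (ZMod 3)) 0 0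
          + (g : Matrix (Fin 2) (Fin 2) (ZMod 3)) 0 1 * (g : Matrix (Fin 2) (Fin 2) (ZMod 3)) 1 0)
        ((g : Matrix (Fin 2) (Fin 2) (ZMod 3)) 0 0 * (g : Matrix (Fin 2) (Fin 2) (ZMod 3)) 0 1
          + (g : Matrix (Fin 2) (Fin 2) (ZMod 3)) 0 1 * (g : Matrix (Fin 2) (Fin 2) (ZMod 3)) 1 1)
        ((g : Matrix (Fin 2) (Fin 2) (ZMod 3)) 1 0 * (g : Matrix (Fin 2) (Fin 2) (ZMod 3)) 0 0
          + (g : Matrix (Fin 2) (Fin 2) (ZMod 3)) 1 1 * (g : Matrix (Fin 2) (Fin 2) (ZMod 3)) 1 0)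
        ((g : Matrix (Fin 2) (Fin 2) (ZMod 3)) 1 0 * (g : Matrix (Fin 2) (Fin 2) (ZMod 3)) 0 1
          + (g : Matrix (Fin 2) (Fin 2) (ZMod 3)) 1 1 * (g : Matrix (Fin 2) (Fin 2) (ZMod 3)) 1 1)
      := by
  unfold HasEntries230
  simp [pow_two, Matrix.mul_apply, Fin.sum_univ_two]

theorem hasEntries_cube231 (P : ZMod 3 → ZMod 3 → ZMod 3 → ZMod 3 → Prop)
    (g : GL (Fin 2) (ZMod 3)) :
    HasEntries230 P (g ^ 3) ↔
      P (((g : Matrix (Fin 2) (Fin 2) (ZMod 3)) 0 0 * (g : Matrix (Fin 2) (Fin 2) (ZMod 3)) 0 0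
            + (g : Matrix (Fin 2) (Fin 2) (ZMod 3)) 0 1 * (g : Matrix (Fin 2) (Fin 2) (ZMod 3)) 1 0)
            * (g : Matrix (Fin 2) (Fin 2) (ZMod 3)) 0 0
          + ((g : Matrix (Fin 2) (Fin 2) (ZMod 3)) 0 0 * (g : Matrix (Fin 2) (Fin 2) (ZMod 3)) 0 1
            + (g : Matrix (Fin 2) (Fin 2) (ZMod 3)) 0 1 * (g : Matrix (Fin 2) (Fin 2) (ZMod 3)) 1 1)
            * (g : Matrix (Fin 2) (Fin 2) (ZMod 3)) 1 0)
        (((g : Matrix (Fin 2) (Fin 2) (ZMod 3)) 0 0 * (g : Matrix (Fin 2) (Fin 2) (ZMod 3)) 0 0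
            + (g : Matrix (Fin 2) (Fin 2) (ZMod 3)) 0 1 * (g : Matrix (Fin 2) (Fin 2) (ZMod 3)) 1 0)
            * (g : Matrix (Fin 2) (Fin 2) (ZMod 3)) 0 1
          + ((g : Matrix (Fin 2) (Fin 2) (ZMod 3)) 0 0 * (g : Matrix (Fin 2) (Fin 2) (ZMod 3)) 0 1
            + (g : Matrix (Fin 2) (Fin 2) (ZMod 3)) 0 1 * (g : Matrix (Fin 2) (Fin 2) (ZMod 3)) 1 1)
            * (g : Matrix (Fin 2) (Fin 2) (ZMod 3)) 1 1)
        (((g : Matrix (Fin 2) (Fin 2) (ZMod 3)) 1 0 * (g : Matrix (Fin 2) (Fin 2) (ZMod 3)) 0 0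
            + (g : Matrix (Fin 2) (Fin 2) (ZMod 3)) 1 1 * (g : Matrix (Fin 2) (Fin 2) (ZMod 3)) 1 0)
            * (g : Matrix (Fin 2) (Fin 2) (ZMod 3)) 0 0
          + ((g : Matrix (Fin 2) (Fin 2) (ZMod 3)) 1 0 * (g : Matrix (Fin 2) (Fin 2) (ZMod 3)) 0 1
            + (g : Matrix (Fin 2) (Fin 2) (ZMod 3)) 1 1 * (g : Matrix (Fin 2) (Fin 2) (ZMod 3)) 1 1)
            * (g : Matrix (Fin 2) (Fin 2) (ZMod 3)) 1 0)
        (((g : Matrix (Fin 2) (Fin 2) (ZMod 3)) 1 0 * (g : Matrix (Fin 2) (Fin 2) (ZMod 3)) 0 0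
            + (g : Matrix (Fin 2) (Fin 2) (ZMod 3)) 1 1 * (g : Matrix (Fin 2) (Fin 2) (ZMod 3)) 1 0)
            * (g : Matrix (Fin 2) (Fin 2) (ZMod 3)) 0 1
          + ((g : Matrix (Fin 2) (Fin 2) (ZMod 3)) 1 0 * (g : Matrix (Fin 2) (Fin 2) (ZMod 3)) 0 1
            + (g : Matrix (Fin 2) (Fin 2) (ZMod 3)) 1 1 * (g : Matrix (Fin 2) (Fin 2) (ZMod 3)) 1 1)
            * (g : Matrix (Fin 2) (Fin 2) (ZMod 3)) 1 1) := by
  unfold HasEntries230
  simp [pow_succ, Matrix.mul_apply, Fin.sum_univ_two]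

/-- `g ∈ SL₂(𝔽₃)`, `g² ∈ Q8` ⟹ `g ∈ Q8`. -/
theorem inQ8_of_sq231 {g : GL (Fin 2) (ZMod 3)} (hdet : Matrix.GeneralLinearGroup.det g = 1)
    (h : InQ8 (g ^ 2)) : InQ8 g := by
  rw [inQ8_iff230] at h ⊢
  rw [hasEntries_sq231] at h
  exact sq_entries231 _ _ _ _ ((det_eq_one_iff231 g).mp hdet) h

/-- `g ∈ SL₂(𝔽₃)` ⟹ `g³ ∈ Q8`. -/
theorem inQ8_cube231 {g : GL (Fin 2) (ZMod 3)} (hdet : Matrix.GeneralLinearGroup.det g = 1) :
    InQ8 (g ^ 3) := by
  rw [inQ8_iff230, hasEntries_cube231]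
  exact cube_entries231 _ _ _ _ ((det_eq_one_iff231 g).mp hdet)

/-- `det g ≠ 1` ⟹ `g² ∈ Q8`. -/
theorem inQ8_sq_of_det_ne231 {g : GL (Fin 2) (ZMod 3)}
    (hdet : Matrix.GeneralLinearGroup.det g ≠ 1) : InQ8 (g ^ 2) := by
  rw [inQ8_iff230, hasEntries_sq231]
  exact sq_entries_neg231 _ _ _ _ (det_entries_ne_zero231 g)
    (fun h => hdet ((det_eq_one_iff231 g).mpr h))

/-- The residue degree in `E/F`: `ordQ8 (g ^ ordSL g)` is `1`, or it is `3` and then `det g = 1`,
`g ∉ Q8`. -/
theorem ord_cases231 (g : GL (Fin 2) (ZMod 3)) :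
    ordQ8 (g ^ ordSL g) = 1 ∨
      (Matrix.GeneralLinearGroup.det g = 1 ∧ ¬ InQ8 g ∧ ordQ8 (g ^ ordSL g) = 3) := by
  classical
  by_cases hdet : Matrix.GeneralLinearGroup.det g = 1
  · have h1 : ordSL g = 1 := by unfold ordSL; rw [if_pos hdet]
    rw [h1, pow_one]
    by_cases hq : InQ8 g
    · left
      unfold ordQ8
      rw [if_pos hq]
    · right
      refine ⟨hdet, hq, ?_⟩
      have hq2 : ¬ InQ8 (g ^ 2) := fun h => hq (inQ8_of_sq231 hdet h)
      unfold ordQ8
      rw [if_neg hq, if_neg hq2]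
  · left
    have h1 : ordSL g = 2 := by unfold ordSL; rw [if_neg hdet]
    rw [h1]
    unfold ordQ8
    rw [if_pos (inQ8_sq_of_det_ne231 hdet)]

/-! ## The fields -/

/-- The fixed field of a normal subgroup of `Gal(ℚ̄/ℚ)` is normal over `ℚ`. -/
theorem normal_fixedField231 (H : Subgroup Γℚ) [hH : H.Normal] :
    Normal ℚ (IntermediateField.fixedField H) := by
  haveI := isGalois_Qbar230
  have key : @Normal ℚ (IntermediateField.fixedField H) _ _
      (IntermediateField.algebra' (IntermediateField.fixedField H)) := by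
    rw [IntermediateField.normal_iff_forall_map_le']
    intro σ x hx
    rw [IntermediateField.mem_map] at hx
    obtain ⟨y, hy, rfl⟩ := hx
    rw [IntermediateField.mem_fixedField_iff] at hy ⊢
    intro h hh
    have h1 : σ⁻¹ * h * σ ∈ H := by
      have := hH.conj_mem h hh σ⁻¹
      simpa using this
    have h2 := hy _ h1
    have h3 : h (σ y) = σ ((σ⁻¹ * h * σ) y) := by
      simp [AlgEquiv.mul_apply]
    show h (σ y) = σ y
    rw [h3, h2]
  convert key
  exact Subsingleton.elim _ _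

instance normal_Q8grp231 : Q8grp230.Normal where
  conj_mem := by
    intro g hg h
    rw [mem_Q8grp230] at hg ⊢
    refine ⟨?_, ?_⟩
    · rw [map_mul, map_mul, map_inv, mul_comm, ← mul_assoc, inv_mul_cancel, one_mul]
      exact hg.1
    · rw [conj_pow, hg.2, mul_one, mul_inv_cancel]

theorem normal_fieldE231 (ρ : Γℚ →* GL (Fin 2) (ZMod 3)) : Normal ℚ (fieldE ρ) := by
  haveI : (subQ8 ρ).Normal := by
    rw [subQ8_eq_comap230]
    exact Subgroup.Normal.comap inferInstance ρ
  exact normal_fixedField231 (subQ8 ρ)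

theorem normal_fieldF231 (ρ : Γℚ →* GL (Fin 2) (ZMod 3)) : Normal ℚ (fieldF ρ) := by
  haveI : (subSL ρ).Normal := by
    unfold subSL
    infer_instance
  exact normal_fixedField231 (subSL ρ)

/-- If `σ` fixes `E` pointwise, then `ρ σ ∈ Q8`. -/
theorem inQ8_of_fixes231 {ρ : Γℚ →* GL (Fin 2) (ZMod 3)} (hρ : Continuous ρ) {σ : Γℚ}
    (h : ∀ x : fieldE ρ, σ (x : AlgebraicClosure ℚ) = (x : AlgebraicClosure ℚ)) :
    InQ8 (ρ σ) := by
  have h1 : σ ∈ (fieldE ρ).fixingSubgroup := by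
    rw [IntermediateField.mem_fixingSubgroup_iff]
    intro x hx
    exact h ⟨x, hx⟩
  rw [fixingSubgroup_fieldE230 hρ, subQ8_eq_comap230] at h1
  exact h1

/-- If `ρ σ ∈ Q8`, then `σ` fixes `E` pointwise. -/
theorem fixes_of_inQ8_231 {ρ : Γℚ →* GL (Fin 2) (ZMod 3)} {σ : Γℚ} (h : InQ8 (ρ σ))
    (x : fieldE ρ) : σ (x : AlgebraicClosure ℚ) = (x : AlgebraicClosure ℚ) := by
  have h1 : σ ∈ subQ8 ρ := Subgroup.subset_closure h
  have h2 := x.2
  unfold fieldE at h2
  rw [IntermediateField.mem_fixedField_iff] at h2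
  exact h2 σ h1

/-- If `det (ρ σ) = 1`, then `σ` fixes `F` pointwise. -/
theorem fixes_fieldF_of_det231 {ρ : Γℚ →* GL (Fin 2) (ZMod 3)} {σ : Γℚ}
    (h : Matrix.GeneralLinearGroup.det (ρ σ) = 1)
    (x : fieldF ρ) : σ (x : AlgebraicClosure ℚ) = (x : AlgebraicClosure ℚ) := by
  have h1 : σ ∈ subSL ρ := by
    unfold subSL
    rw [MonoidHom.mem_ker]
    exact h
  have h2 := x.2
  unfold fieldF at h2
  rw [IntermediateField.mem_fixedField_iff] at h2
  exact h2 σ h1

end Fermat.Agent.LT.T7.H231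

end

end
-- ===== PACK-END LT/T7/H231/Gal.lean

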