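import Mathlib
import Fermat.Prelude.Def_LanglandsTunnell_WeightOneRealizationCarriers
import Fermat.Agent.Pack.LT2.E2L1
import Fermat.Agent.Pack.LT2.E0L2
import Fermat.Agent.Pack.LT2.E3L0
import Fermat.Agent.Pack.LT2.E3L2
import Fermat.Agent.Pack.LT2.E2L3
import Fermat.Agent.Pack.S43GC.G0E5L2
import Fermat.Agent.Pack.LT2.E0L1
import Fermat.Agent.Pack.LT2.E4L3
import Fermat.Agent.Pack.LT2.E0L3
import Fermat.Agent.Pack.LT2.E3L3
import Fermat.Agent.Pack.LT2.E5L2
import Fermat.Agent.Pack.LT2.E5L3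
import Fermat.Agent.Pack.LT2.E3L1
import Fermat.Agent.Pack.LT2.E1L3
import Fermat.Agent.Pack.LT2.E1L0

set_option linter.all false

-- ===== PACK-BEGIN LT/T1/H767/AdeleLattice.lean
section




/-!
# Row LT, tower T1 — helper767: `LeafAdeleCocompact K` and `AdeleLatticeC K`, verbatim

OFF-MAIN.  For every number field `K` (`T1/Spec.lean` of helper54, `A0.lean` of helper556):

* `leafAdeleCocompact767 K : Fermat.Agent.LT.T1.LeafAdeleCocompact K` (leaf T1.03, unconditional
  proof: the hypothesis `LocCompC K` is not used);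
* `adeleLatticeC767 K : Fermat.Agent.LT.T1.AdeleLatticeC K`: `K` is discrete, closed and
  cocompact in `𝔸_K`.
-/

set_option autoImplicit false

open NumberField IsDedekindDomain IsDedekindDomain.HeightOneSpectrum

noncomputable section

namespace Fermat.Agent.LT.H767

open Fermat.Agent.LT.H556.A0 Fermat.Agent.LT.T1

variable (K : Type) [Field K] [NumberField K]

/-- The adele ring is Hausdorff. -/
theorem t2Space_adeleRing767 : T2Space (AdeleRing (𝓞 K) K) := by
  have h1 : T2Space (InfiniteAdeleRing K) := by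
    change T2Space ((v : InfinitePlace K) → v.Completion)
    infer_instance
  have h2 : T2Space (FiniteAdeleRing (𝓞 K) K) := by
    change T2Space (RestrictedProduct (fun v : HeightOneSpectrum (𝓞 K) => v.adicCompletion K)
      (fun v : HeightOneSpectrum (𝓞 K) => (v.adicCompletionIntegers K : Set (v.adicCompletion K)))
      Filter.cofinite)
    infer_instance
  change T2Space (InfiniteAdeleRing K × FiniteAdeleRing (𝓞 K) K)
  infer_instance

/-- The subgroup `princ K` of `T1/Spec.lean` is Mathlib's `principalSubgroup`. -/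
theorem princ_eq_principalSubgroup767 :
    princ K = AdeleRing.principalSubgroup (𝓞 K) K := by
  ext x
  constructor
  · rintro ⟨k, rfl⟩; exact ⟨k, rfl⟩
  · rintro ⟨k, rfl⟩; exact ⟨k, rfl⟩

/-- `princ K` is discrete. -/
theorem discreteTopology_princ767 : DiscreteTopology (princ K) := by
  rw [princ_eq_principalSubgroup767]
  exact discreteTopology_principal K

/-- `princ K` is closed. -/
theorem isClosed_princ767 : IsClosed (princ K : Set (Adl K)) := by
  have := t2Space_adeleRing767 K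
  have := discreteTopology_princ767 K
  exact AddSubgroup.isClosed_of_discrete

/-- **Leaf T1.03** (`T1.LeafAdeleCocompact`, verbatim): `𝔸_K = K + (compact)`. -/
theorem leafAdeleCocompact767 : LeafAdeleCocompact K :=
  fun _ => ⟨adeleBox K, isCompact_adeleBox K, fun x => exists_sub_mem_adeleBox K x⟩

/-- **`K` is a lattice in `𝔸_K`** (`T1.AdeleLatticeC`, verbatim). -/
theorem adeleLatticeC767 : AdeleLatticeC K :=
  ⟨discreteTopology_princ767 K, isClosed_princ767 K, adeleBox K, isCompact_adeleBox K,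
    fun x => exists_sub_mem_adeleBox K x⟩

end Fermat.Agent.LT.H767

end
end
-- ===== PACK-END LT/T1/H767/AdeleLattice.lean

-- ===== PACK-BEGIN LT/A2/H820/LocalAlgGen.lean
section



/-!
# Row LT, tower A2, leaf A2.03.8.4 `LocalAlgC`, part 1 (seat helper820, OFF-MAIN)

Generic local algebra: `F` a field, `O` a valuation subring (Mathlib + `LT/H129` only).

* matrix identities in `GL₂(F)` between `diag129`, `upperU129`, `mkGL129`;
* `isHeckeElt_mul_left820` : `GL₂(O) ·` Hecke element is a Hecke element;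
* `heckeSum_maxCpt820` : for a right `GL₂(O)`-invariant function `w` and a complete family `f` of
  Hecke representatives, `∑ i, w (x k f_i) = ∑ i, w (x f_i)` for `k ∈ GL₂(O)` (the Hecke operator
  preserves right `GL₂(O)`-invariance).
-/

set_option autoImplicit false

open Matrix

namespace Fermat.Agent.LT.A2.H820

open Fermat.Agent.LT.H129

variable {F : Type*} [Field F]

/-! ## Matrix identities -/

theorem coe_diag820 (x y : F) (hx : x ≠ 0) (hy : y ≠ 0) :
    ((diag129 x y hx hy : GL (Fin 2) F) : Matrix (Fin 2) (Fin 2) F) = !![x, 0; 0, y] := rfl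

theorem coe_upperU820 (x : F) :
    ((upperU129 x : GL (Fin 2) F) : Matrix (Fin 2) (Fin 2) F) = !![1, x; 0, 1] := rfl

/-- `diag(x, y) diag(x', y') = diag(x x', y y')`. -/
theorem diag_mul_diag820 (x y x' y' : F) (hx : x ≠ 0) (hy : y ≠ 0) (hx' : x' ≠ 0)
    (hy' : y' ≠ 0) :
    diag129 x y hx hy * diag129 x' y' hx' hy'
      = diag129 (x * x') (y * y') (mul_ne_zero hx hx') (mul_ne_zero hy hy') := by
  apply ext_mat129
  rw [Matrix.GeneralLinearGroup.coe_mul, coe_diag820, coe_diag820, coe_diag820]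
  ext i j
  fin_cases i <;> fin_cases j <;> simp [Matrix.mul_apply, Fin.sum_univ_two]

theorem diag_congr820 {x y x' y' : F} (hx : x ≠ 0) (hy : y ≠ 0) (ex : x = x') (ey : y = y') :
    diag129 x y hx hy = diag129 x' y' (ex ▸ hx) (ey ▸ hy) := by
  subst ex; subst ey; rfl

/-- `diag(t, 1) n(u) = n(t u) diag(t, 1)`. -/
theorem diag_mul_upper820 (t u : F) (ht : t ≠ 0) :
    diag129 t 1 ht one_ne_zero * upperU129 u = upperU129 (t * u) * diag129 t 1 ht one_ne_zero := by
  apply ext_mat129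
  rw [Matrix.GeneralLinearGroup.coe_mul, Matrix.GeneralLinearGroup.coe_mul, coe_diag820,
    coe_upperU820, coe_upperU820]
  ext i j
  fin_cases i <;> fin_cases j <;> simp [Matrix.mul_apply, Fin.sum_univ_two]

/-- `diag(t, 1) [[ϖ, r], [0, 1]] = n(t r) diag(t ϖ, 1)`. -/
theorem diag_mul_stdSome820 (t ϖ r : F) (ht : t ≠ 0) (hϖ : ϖ ≠ 0) :
    diag129 t 1 ht one_ne_zero * mkGL129 ϖ r 0 1 (by simpa using hϖ)
      = upperU129 (t * r) * diag129 (t * ϖ) 1 (mul_ne_zero ht hϖ) one_ne_zero := by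
  apply ext_mat129
  rw [Matrix.GeneralLinearGroup.coe_mul, Matrix.GeneralLinearGroup.coe_mul, coe_diag820,
    coe_upperU820, coe_diag820, coe_mkGL129]
  ext i j
  fin_cases i <;> fin_cases j <;> simp [Matrix.mul_apply, Fin.sum_univ_two]

/-- `diag(t ϖ, 1) [[1, 0], [0, ϖ]] = diag(t, 1) diag(ϖ, ϖ)`. -/
theorem diag_mul_stdNone820 (t ϖ : F) (ht : t ≠ 0) (hϖ : ϖ ≠ 0) :
    diag129 (t * ϖ) 1 (mul_ne_zero ht hϖ) one_ne_zero * mkGL129 1 0 0 ϖ (by simpa using hϖ)
      = diag129 t 1 ht one_ne_zero * diag129 ϖ ϖ hϖ hϖ := by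
  apply ext_mat129
  rw [Matrix.GeneralLinearGroup.coe_mul, Matrix.GeneralLinearGroup.coe_mul, coe_diag820,
    coe_diag820, coe_diag820, coe_mkGL129]
  ext i j
  fin_cases i <;> fin_cases j <;> simp [Matrix.mul_apply, Fin.sum_univ_two]

/-- A scalar matrix is central. -/
theorem scalar_comm820 (s : F) (hs : s ≠ 0) (g : GL (Fin 2) F) :
    diag129 s s hs hs * g = g * diag129 s s hs hs := by
  apply ext_mat129
  rw [Matrix.GeneralLinearGroup.coe_mul, Matrix.GeneralLinearGroup.coe_mul, coe_diag820,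
    eta129 g]
  ext i j
  fin_cases i <;> fin_cases j <;> simp [Matrix.mul_apply, Fin.sum_univ_two, mul_comm]

/-- An upper triangular matrix is `n(y) diag(y₁, y₂)`. -/
theorem upper_eq820 (g : GL (Fin 2) F) (hg : IsUpper129 g) :
    ∃ (y y₁ y₂ : F) (h₁ : y₁ ≠ 0) (h₂ : y₂ ≠ 0), g = upperU129 y * diag129 y₁ y₂ h₁ h₂ := by
  have hdet := det_ne_zero129 g
  unfold IsUpper129 at hg
  rw [hg, mul_zero, sub_zero] at hdet
  have h₁ : (g : Matrix (Fin 2) (Fin 2) F) 0 0 ≠ 0 := left_ne_zero_of_mul hdet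
  have h₂ : (g : Matrix (Fin 2) (Fin 2) F) 1 1 ≠ 0 := right_ne_zero_of_mul hdet
  refine ⟨(g : Matrix (Fin 2) (Fin 2) F) 0 1 / (g : Matrix (Fin 2) (Fin 2) F) 1 1, _, _, h₁, h₂,
    ?_⟩
  apply ext_mat129
  rw [Matrix.GeneralLinearGroup.coe_mul, coe_diag820, coe_upperU820]
  conv_lhs => rw [eta129 g, hg]
  ext i j
  fin_cases i <;> fin_cases j <;> simp [Matrix.mul_apply, Fin.sum_univ_two, h₂]

/-! ## `GL₂(O)` and Hecke elements -/

/-- The determinant of an element of `GL₂(O)` has valuation `1`. -/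
theorem valuation_det_maxCpt820 {O : ValuationSubring F} {k : GL (Fin 2) F}
    (hk : IsMaxCpt129 O k) : O.valuation (k : Matrix (Fin 2) (Fin 2) F).det = 1 := by
  have h1 : O.valuation (k : Matrix (Fin 2) (Fin 2) F).det ≤ 1 :=
    (ValuationSubring.valuation_le_one_iff O _).2 (det_mem_of_isInt129 hk.1)
  have h2 : O.valuation ((k⁻¹ : GL (Fin 2) F) : Matrix (Fin 2) (Fin 2) F).det ≤ 1 :=
    (ValuationSubring.valuation_le_one_iff O _).2 (det_mem_of_isInt129 hk.2)
  have hmul : (k : Matrix (Fin 2) (Fin 2) F).det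
      * ((k⁻¹ : GL (Fin 2) F) : Matrix (Fin 2) (Fin 2) F).det = 1 := by
    rw [← Matrix.det_mul, ← Matrix.GeneralLinearGroup.coe_mul, mul_inv_cancel]
    simp
  have hv : O.valuation (k : Matrix (Fin 2) (Fin 2) F).det
      * O.valuation ((k⁻¹ : GL (Fin 2) F) : Matrix (Fin 2) (Fin 2) F).det = 1 := by
    rw [← map_mul, hmul, map_one]
  apply le_antisymm h1
  calc (1 : O.ValueGroup) = O.valuation (k : Matrix (Fin 2) (Fin 2) F).det
        * O.valuation ((k⁻¹ : GL (Fin 2) F) : Matrix (Fin 2) (Fin 2) F).det := hv.symm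
    _ ≤ O.valuation (k : Matrix (Fin 2) (Fin 2) F).det := mul_le_of_le_one_right' h2

/-- `GL₂(O) ·` Hecke element is a Hecke element. -/
theorem isHeckeElt_mul_left820 {O : ValuationSubring F} {k g : GL (Fin 2) F}
    (hk : IsMaxCpt129 O k) (hg : IsHeckeElt129 O g) : IsHeckeElt129 O (k * g) := by
  refine ⟨isInt129_mul hk.1 hg.1, ?_⟩
  have e : O.valuation ((k * g : GL (Fin 2) F) : Matrix (Fin 2) (Fin 2) F).det
      = O.valuation (g : Matrix (Fin 2) (Fin 2) F).det := by
    rw [Matrix.GeneralLinearGroup.coe_mul, Matrix.det_mul, map_mul, valuation_det_maxCpt820 hk,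
      one_mul]
  unfold IsUnif129
  rw [e]
  exact hg.2

/-- **The Hecke operator preserves right `GL₂(O)`-invariance.** -/
theorem heckeSum_maxCpt820 (O : ValuationSubring F) [Finite (IsLocalRing.ResidueField O)]
    {ι : Type*} [Fintype ι] (f : ι → GL (Fin 2) F)
    (hcard : Fintype.card ι = Nat.card (IsLocalRing.ResidueField O) + 1)
    (hH : ∀ i, IsHeckeElt129 O (f i))
    (hne : ∀ i j, i ≠ j → ¬ IsInt129 O ((f i)⁻¹ * f j))
    {M : Type*} [AddCommMonoid M] (w : GL (Fin 2) F → M)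
    (hw : ∀ k : GL (Fin 2) F, IsMaxCpt129 O k → ∀ x : GL (Fin 2) F, w (x * k) = w x)
    (k : GL (Fin 2) F) (hk : IsMaxCpt129 O k) (x : GL (Fin 2) F) :
    ∑ i, w (x * k * f i) = ∑ i, w (x * f i) := by
  classical
  have key : ∀ i, ∃ j, IsInt129 O ((f j)⁻¹ * (k * f i)) :=
    fun i => (hecke_complete_fam129 O f hcard hH hne (k * f i)
      (isHeckeElt_mul_left820 hk (hH i))).imp fun j hj => hj.1
  choose σ hσ using key
  have hσ' : ∀ i, IsMaxCpt129 O ((f (σ i))⁻¹ * (k * f i)) := by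
    intro i
    refine ⟨hσ i, ?_⟩
    have e : ((f (σ i))⁻¹ * (k * f i))⁻¹ = (k * f i)⁻¹ * f (σ i) := by group
    rw [e]
    exact isInt_inv_mul_symm129 (hH (σ i)) (isHeckeElt_mul_left820 hk (hH i)) (hσ i)
  have hinj : Function.Injective σ := by
    intro i j hij
    by_contra hcon
    apply hne i j hcon
    have e : (f i)⁻¹ * f j
        = ((f (σ i))⁻¹ * (k * f i))⁻¹ * ((f (σ j))⁻¹ * (k * f j)) := by
      rw [hij]; group
    rw [e]
    exact isInt129_mul (isMaxCpt129_inv (hσ' i)).1 (hσ j)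
  have hbij : Function.Bijective σ := Finite.injective_iff_bijective.mp hinj
  have hterm : ∀ i, w (x * k * f i) = w (x * f (σ i)) := by
    intro i
    rw [← hw _ (hσ' i) (x * f (σ i))]
    congr 1
    group
  rw [Finset.sum_congr rfl fun i _ => hterm i]
  exact Function.Bijective.sum_comp hbij fun j => w (x * f j)

end Fermat.Agent.LT.A2.H820

end
-- ===== PACK-END LT/A2/H820/LocalAlgGen.lean

-- ===== PACK-BEGIN LT/CFT/H49/HasseSpec.lean
section



/-!
# Row LT, tower CFT, leaf CFT.12 `HasseOfVanishC` (helper49), OFF-MAIN: the two outsourced bricks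

`HasseOfVanishC : CycVanishC → HasseNormC` (Spec of helper53, `LT/CFT/SpecH.lean`) is assembled in
`LT/CFT/H49/HasseTop.lean` from

* `HasseWAC`   (MATHLIB ONLY) : weak approximation.  If `x ∈ Kˣ` is a local norm at every finite
  prime (approximation form, hypothesis written out), then for every `P ≥ 1` and `M` there is
  `y ∈ Lˣ` with `x / N(y) = 1 + P ^ M · c / b`, `c ∈ 𝓞 K`, `b ∈ ℕ` prime to `P`
  (`x / N(y) ≡ 1 mod P ^ M` at all primes dividing `P`).
* `HasseSetC`  (Mathlib + main `S55/G/Defs`, `Spec`) : for `x ∈ Lˣ` there is a finite nonempty set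
  `S` of rational primes with `L/K` unramified outside `S` (in the sense `IsUnramOut` of S55
  layer G) and `x` an `S`-unit (`ordHom S L x = 0`).
* the chase in `0 → Lˣ → J_S × Div^S → C_S → 0` and the semi-local step (`HasseTop.lean`, mine).

Route of `HasseWAC` (memo `coord/LT-CFT12-helper49.md`): valuations of `L` only.
(A) hypothesis at `v` ⇒ `w(x / N(y_v) - 1) ≤ exp(-N)` for all `w | v`;
(B) weak approximation in `L` (CRT): `y` with `w(y / y_{v(w)} - 1) ≤ exp(-N)` for all `w | P`;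
(C) `N(y / y_v) = ∏ σ(y / y_v)`, the `σ` permute the `w | v` ⇒ `w(x / N(y) - 1) ≤ exp(-N)`;
(D) `t = (x / N(y) - 1) / P ^ M` is integral at all `w | P`; write a denominator of `t` as
`b · b'`, `b` prime to `P`, `b'` a product of primes dividing `P`: then `b t` is integral at every
prime of `L` (`mem_integers_of_valuation_le_one`), and lies in `K`.
-/

set_option autoImplicit false

open IsDedekindDomain NumberField
open Fermat.Agent.S55.G

noncomputable section

namespace Fermat.Agent.LT.CFT.H49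

/-- **Brick WA (Mathlib only).**  Weak approximation for local norms. -/
def HasseWAC : Prop :=
  ∀ (K L : Type) [Field K] [NumberField K] [Field L] [NumberField L] [Algebra K L]
    [IsGalois K L] (x : K), x ≠ 0 →
    (∀ (v : HeightOneSpectrum (𝓞 K)) (N : ℕ), ∃ (y : L) (a b : 𝓞 K), y ≠ 0 ∧ b ∉ v.asIdeal ∧
      a - b ∈ v.asIdeal ^ N ∧ x * (b : K) = Algebra.norm K y * (a : K)) →
    ∀ P M : ℕ, 0 < P →
      ∃ (y : L) (b : ℕ) (c : 𝓞 K), y ≠ 0 ∧ b ≠ 0 ∧ Nat.Coprime b P ∧
        (b : K) * x = Algebra.norm K y * ((b : K) + (P : K) ^ M * (c : K))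

/-- **Brick SET.**  A finite set of primes outside of which `L/K` is unramified and `x` is a
unit. -/
def HasseSetC : Prop :=
  ∀ (K L : Type) [Field K] [NumberField K] [Field L] [NumberField L] [Algebra K L]
    [IsGalois K L] (x : Lˣ),
    ∃ S : Finset Nat.Primes, S.Nonempty ∧ IsUnramOut S (L ≃ₐ[K] L) L ∧
      ordHom S L (Additive.ofMul x) = 0

end Fermat.Agent.LT.CFT.H49

end

end
-- ===== PACK-END LT/CFT/H49/HasseSpec.lean

-- ===== PACK-BEGIN LT/T1/H919/K0Compact.lean
section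







/-!
# Row LT, tower T1 (helper919, OFF-MAIN): the standard compact subgroup `K⁰` is compact

* `isCompact_box919 R`   : the box `{x ∈ 𝔸_K : ‖x_w‖ ≤ R (w ∣ ∞), x_v ∈ 𝒪_v (v finite)}` is compact;
* `isCompact_stdCompact919` : `{k ∈ GL₂(𝔸_K) : IsStdCompact K k}` is compact in the units topology
  (a closed subset of the compact set `{g : g, g⁻¹ have all entries in the box of radius 1}`).

No definition of the tower is re-defined; `Adl`, `G`, `infComp`, `finComp` are those of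
`LT/H556/A0.lean`, `IsStdCompact` is that of `LT/T1/Spec.lean`.
-/

set_option autoImplicit false

open IsDedekindDomain NumberField
open scoped RestrictedProduct
open Fermat.Agent.LT.H556.A0
open Fermat.Agent.LT.T1
open Fermat.Agent.LT.T1.H793

noncomputable section

namespace Fermat.Agent.LT.T1.H919

variable {K : Type} [Field K] [NumberField K]

/-! ## Compact boxes in the adele ring -/

omit [NumberField K] in
/-- Closed balls of the completion at an infinite place are compact. -/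
lemma isCompact_closedBall_infCompletion919 (w : InfinitePlace K) (R : ℝ) :
    IsCompact {x : w.Completion | ‖x‖ ≤ R} := by
  have h : {x : w.Completion | ‖x‖ ≤ R}
      = (InfinitePlace.Completion.extensionEmbedding w) ⁻¹' (Metric.closedBall 0 R) := by
    ext x
    show ‖x‖ ≤ R ↔ InfinitePlace.Completion.extensionEmbedding w x ∈ Metric.closedBall 0 R
    rw [Metric.mem_closedBall, dist_zero_right, norm_extensionEmbedding793]
  rw [h]
  exact (InfinitePlace.Completion.isometry_extensionEmbedding w).isClosedEmbedding.isCompact_preimage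
    (isCompact_closedBall 0 R)

/-- The box of radius `R`: archimedean components of norm `≤ R`, integral finite components. -/
def box919 (K : Type) [Field K] [NumberField K] (R : ℝ) : Set (Adl K) :=
  {x | (∀ w : InfinitePlace K, ‖x.1 w‖ ≤ R) ∧
    ∀ v : HeightOneSpectrum (𝓞 K), x.2 v ∈ v.adicCompletionIntegers K}

omit [NumberField K] in
lemma isCompact_infBox919 (R : ℝ) :
    IsCompact {f : InfiniteAdeleRing K | ∀ w : InfinitePlace K, ‖f w‖ ≤ R} := by
  have h := isCompact_univ_pi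
    (fun w : InfinitePlace K => isCompact_closedBall_infCompletion919 w R)
  have e : {f : InfiniteAdeleRing K | ∀ w : InfinitePlace K, ‖f w‖ ≤ R}
      = Set.pi Set.univ (fun w : InfinitePlace K => {x : w.Completion | ‖x‖ ≤ R}) := by
    ext f
    constructor
    · intro hf w _
      exact hf w
    · intro hf w
      exact hf w (Set.mem_univ w)
  rw [e]
  exact h

lemma isCompact_finBox919 :
    IsCompact {f : FiniteAdeleRing (𝓞 K) K |
      ∀ v : HeightOneSpectrum (𝓞 K), f v ∈ v.adicCompletionIntegers K} := by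
  have : ∀ v : HeightOneSpectrum (𝓞 K), CompactSpace (v.adicCompletionIntegers K) :=
    fun v => Fermat.Agent.LT.H11.LC.compactSpace_integers_h11 K v
  have h := isCompact_range
    (RestrictedProduct.isEmbedding_structureMap
      (R := fun v : HeightOneSpectrum (𝓞 K) => v.adicCompletion K)
      (A := fun v : HeightOneSpectrum (𝓞 K) =>
        (v.adicCompletionIntegers K : Set (v.adicCompletion K)))
      (𝓕 := Filter.cofinite)).continuous
  rw [RestrictedProduct.range_structureMap] at h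
  exact h

theorem isCompact_box919 (R : ℝ) : IsCompact (box919 K R) := by
  have h := (isCompact_infBox919 (K := K) R).prod (isCompact_finBox919 (K := K))
  have e : box919 K R
      = {f : InfiniteAdeleRing K | ∀ w : InfinitePlace K, ‖f w‖ ≤ R} ×ˢ
        {f : FiniteAdeleRing (𝓞 K) K |
          ∀ v : HeightOneSpectrum (𝓞 K), f v ∈ v.adicCompletionIntegers K} := by
    ext x
    rfl
  rw [e]
  exact h

/-! ## Continuity of the local components -/

lemma continuous_projInf919 (w : InfinitePlace K) : Continuous (fun x : Adl K => x.1 w) :=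
  (continuous_apply w).comp continuous_fst

lemma continuous_projFin919 (v : HeightOneSpectrum (𝓞 K)) :
    Continuous (fun x : Adl K => x.2 v) :=
  (RestrictedProduct.continuous_eval v).comp continuous_snd

lemma continuous_entry919 (i j : Fin 2) :
    Continuous (fun g : G K => (g : Matrix (Fin 2) (Fin 2) (Adl K)) i j) :=
  Units.continuous_val.matrix_elem i j

lemma continuous_finComp919 (v : HeightOneSpectrum (𝓞 K)) (i j : Fin 2) :
    Continuous (fun g : G K => finComp v g i j) :=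
  (continuous_projFin919 v).comp (continuous_entry919 i j)

lemma continuous_infComp_entry919 (w : InfinitePlace K) (i j : Fin 2) :
    Continuous (fun g : G K => infComp w g i j) :=
  (InfinitePlace.Completion.isometry_extensionEmbedding w).continuous.comp
    ((continuous_projInf919 w).comp (continuous_entry919 i j))

lemma continuous_infComp919 (w : InfinitePlace K) :
    Continuous (fun g : G K => infComp w g) :=
  continuous_matrix (fun i j => continuous_infComp_entry919 w i j)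

/-! ## `K⁰` is closed -/

lemma isClosed_isIntegralAt919 (v : HeightOneSpectrum (𝓞 K)) :
    IsClosed {g : G K | IsIntegralAt v g} := by
  have e : {g : G K | IsIntegralAt v g}
      = ⋂ i : Fin 2, ⋂ j : Fin 2,
        (fun g : G K => finComp v g i j) ⁻¹'
          (v.adicCompletionIntegers K : Set (v.adicCompletion K)) := by
    ext g
    simp only [Set.mem_iInter, Set.mem_preimage, SetLike.mem_coe]
    rfl
  rw [e]
  exact isClosed_iInter fun i => isClosed_iInter fun j =>
    (Valued.isClosed_valuationSubring (v.adicCompletion K)).preimage (continuous_finComp919 v i j)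

theorem isClosed_stdCompact919 : IsClosed {k : G K | IsStdCompact K k} := by
  have e : {k : G K | IsStdCompact K k}
      = (⋂ v : HeightOneSpectrum (𝓞 K),
          ({g : G K | IsIntegralAt v g} ∩ (fun g : G K => g⁻¹) ⁻¹' {g : G K | IsIntegralAt v g}))
        ∩ ⋂ w : InfinitePlace K,
          ({g : G K | infComp w g * (infComp w g).conjTranspose = 1} ∩
            {g : G K | w.IsReal → (infComp w g).det = 1}) := by
    ext k
    simp only [Set.mem_inter_iff, Set.mem_iInter, Set.mem_preimage]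
    rfl
  rw [e]
  refine IsClosed.inter (isClosed_iInter fun v => ?_) (isClosed_iInter fun w => ?_)
  · exact (isClosed_isIntegralAt919 v).inter ((isClosed_isIntegralAt919 v).preimage continuous_inv)
  · refine IsClosed.inter ?_ ?_
    · exact isClosed_eq
        ((continuous_infComp919 w).mul (continuous_infComp919 w).matrix_conjTranspose)
        continuous_const
    · by_cases hw : w.IsReal
      · have e2 : {g : G K | w.IsReal → (infComp w g).det = 1}
            = {g : G K | (infComp w g).det = 1} := by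
          ext g
          exact ⟨fun h => h hw, fun h _ => h⟩
        rw [e2]
        exact isClosed_eq (continuous_infComp919 w).matrix_det continuous_const
      · have e2 : {g : G K | w.IsReal → (infComp w g).det = 1} = Set.univ := by
          ext g
          exact ⟨fun _ => Set.mem_univ g, fun _ h => absurd h hw⟩
        rw [e2]
        exact isClosed_univ

/-! ## `K⁰` is compact -/

/-- Matrices with all entries in the box of radius `1`. -/
def boxM919 (K : Type) [Field K] [NumberField K] : Set (Matrix (Fin 2) (Fin 2) (Adl K)) :=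
  {M | ∀ i j, M i j ∈ box919 K 1}

lemma isCompact_boxM919 : IsCompact (boxM919 K) := by
  have h : IsCompact (Set.pi Set.univ (fun _ : Fin 2 =>
      Set.pi Set.univ (fun _ : Fin 2 => box919 K 1))) :=
    isCompact_univ_pi (fun _ => isCompact_univ_pi (fun _ => isCompact_box919 1))
  have e : boxM919 K = Set.pi Set.univ (fun _ : Fin 2 =>
      Set.pi Set.univ (fun _ : Fin 2 => box919 K 1)) := by
    ext M
    constructor
    · intro hM i _ j _
      exact hM i j
    · intro hM i j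
      exact hM i (Set.mem_univ i) j (Set.mem_univ j)
  rw [e]
  exact h

/-- Entries of an element of `K⁰` lie in the box of radius `1`. -/
lemma entry_mem_box_of_std919 {k : G K} (hk : IsStdCompact K k) (i j : Fin 2) :
    (k : Matrix (Fin 2) (Fin 2) (Adl K)) i j ∈ box919 K 1 := by
  refine ⟨fun w => ?_, fun v => (hk.1 v).1 i j⟩
  rw [← norm_extensionEmbedding793]
  have hU : infComp w k ∈ Matrix.unitaryGroup (Fin 2) ℂ := by
    rw [Matrix.mem_unitaryGroup_iff]
    exact (hk.2 w).1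
  exact entry_norm_bound_of_unitary hU i j

/-- **The standard compact subgroup `K⁰` of `GL₂(𝔸_K)` is compact.** -/
theorem isCompact_stdCompact919 : IsCompact {k : G K | IsStdCompact K k} := by
  have : T2Space (Adl K) := Fermat.Agent.LT.H11.LC.t2Space_adeleRing_h11 K
  have : T2Space (Matrix (Fin 2) (Fin 2) (Adl K)) :=
    Fermat.Agent.LT.H11.LC.t2Space_matrix_h11 (Fin 2) (Adl K)
  have hop : IsCompact (MulOpposite.unop ⁻¹' (boxM919 K) :
      Set (Matrix (Fin 2) (Fin 2) (Adl K))ᵐᵒᵖ) := by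
    have := (isCompact_boxM919 (K := K)).image (MulOpposite.continuous_op)
    convert this using 1
    ext x
    simp only [Set.mem_preimage, Set.mem_image]
    constructor
    · intro hx
      exact ⟨x.unop, hx, MulOpposite.op_unop x⟩
    · rintro ⟨y, hy, rfl⟩
      exact hy
  have hS : IsCompact ((Units.embedProduct (Matrix (Fin 2) (Fin 2) (Adl K))) ⁻¹'
      ((boxM919 K) ×ˢ (MulOpposite.unop ⁻¹' (boxM919 K)))) :=
    Units.isClosedEmbedding_embedProduct.isCompact_preimage (isCompact_boxM919.prod hop)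
  refine hS.of_isClosed_subset isClosed_stdCompact919 ?_
  intro k hk
  refine ⟨fun i j => entry_mem_box_of_std919 hk i j, fun i j => ?_⟩
  exact entry_mem_box_of_std919 (isStdCompact_inv793 hk) i j

end Fermat.Agent.LT.T1.H919

end

end
-- ===== PACK-END LT/T1/H919/K0Compact.lean

-- ===== PACK-BEGIN LT/H701/Eigen.lean
section




/-!
# Row LT, block IDENT (helper701): integrality, twist and depletion

`eigen_h701`: a weight-one form `f` on `Γ₁(N)` with `a₁ = 1`, the Hecke relations for `ε` at the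
primes `p ∤ N`, `ε(p) = χ₋₃(p)` and `a_p(f) = w(p) ι(t p)` at the primes `p ∤ 3N`, where
`w(p) = 1` for `p ≡ 1 mod 3` and `w(p) = s ∈ {1, -1}` otherwise, gives a formal eigensystem
`c : ℕ → ℤ[√-2]` of character `χ₋₃` away from `N' = N (3N)²`, realized in weight one on
`Γ₁(N')`, with `c p = t p` at all primes `p ∤ 3N`.
-/

set_option autoImplicit false

open EisensteinWeightOne CongruenceSubgroup ModularFormClass

noncomputable section

namespace Fermat.Agent.LT.H701

theorem chiNegThree_mul_h701 (a b : ℕ) :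
    chiNegThree (a * b) = chiNegThree a * chiNegThree b := by
  unfold chiNegThree
  have ha : a % 3 < 3 := Nat.mod_lt _ (by norm_num)
  have hb : b % 3 < 3 := Nat.mod_lt _ (by norm_num)
  rw [Nat.mul_mod]
  interval_cases h1 : a % 3 <;> interval_cases h2 : b % 3 <;> simp

theorem chiNegThree_sq_h701 {a : ℕ} (h : ¬ 3 ∣ a) : chiNegThree a * chiNegThree a = 1 := by
  unfold chiNegThree
  have ha : a % 3 < 3 := Nat.mod_lt _ (by norm_num)
  have h0 : a % 3 ≠ 0 := fun h' => h (Nat.dvd_of_mod_eq_zero h')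
  interval_cases h1 : a % 3 <;> simp at h0 ⊢

theorem chiNegThree_one_h701 : chiNegThree 1 = 1 := by decide

/-- The multiplier: the trivial character or `χ₋₃`, depleted at the primes dividing `3N`. -/
def mult_h701 (N : ℕ) (s : ℂ) (n : ℕ) : ℂ :=
  if n.Coprime (3 * N) then (if s = 1 then 1 else ((chiNegThree n : ℤ) : ℂ)) else 0

theorem mult_of_not_coprime_h701 (N : ℕ) (s : ℂ) {n : ℕ} (h : ¬ n.Coprime (3 * N)) :
    mult_h701 N s n = 0 := if_neg h

theorem mult_one_h701 (N : ℕ) (s : ℂ) : mult_h701 N s 1 = 1 := by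
  unfold mult_h701
  rw [if_pos (Nat.coprime_one_left _)]
  split_ifs
  · rfl
  · rw [chiNegThree_one_h701]; simp

theorem mult_mul_h701 (N : ℕ) (s : ℂ) (a b : ℕ) :
    mult_h701 N s (a * b) = mult_h701 N s a * mult_h701 N s b := by
  unfold mult_h701
  by_cases ha : a.Coprime (3 * N)
  · by_cases hb : b.Coprime (3 * N)
    · rw [if_pos ha, if_pos hb, if_pos (Nat.Coprime.mul_left ha hb)]
      split_ifs
      · simp
      · rw [chiNegThree_mul_h701]; push_cast; rfl
    · rw [if_neg hb, if_neg (fun h => hb (Nat.Coprime.coprime_mul_left h)), mul_zero]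
  · rw [if_neg ha, if_neg (fun h => ha (Nat.Coprime.coprime_mul_right h)), zero_mul]

theorem not_three_dvd_of_coprime_h701 {N n : ℕ} (h : n.Coprime (3 * N)) : ¬ 3 ∣ n := by
  intro h3
  have : (3 : ℕ) ∣ Nat.gcd n (3 * N) := Nat.dvd_gcd h3 (dvd_mul_right 3 N)
  rw [Nat.Coprime] at h
  rw [h] at this
  exact absurd this (by norm_num)

theorem mult_sq_h701 (N : ℕ) (s : ℂ) {n : ℕ} (h : n.Coprime (3 * N)) :
    mult_h701 N s n * mult_h701 N s n = 1 := by
  unfold mult_h701
  rw [if_pos h]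
  split_ifs
  · simp
  · have := chiNegThree_sq_h701 (not_three_dvd_of_coprime_h701 h)
    have h2 : (((chiNegThree n * chiNegThree n : ℤ)) : ℂ) = 1 := by rw [this]; simp
    push_cast at h2
    exact h2

/-- The weight `w(p)`. -/
def wt_h701 (s : ℂ) (p : ℕ) : ℂ := if p % 3 = 1 then 1 else s

theorem mult_mul_wt_h701 (N : ℕ) (s : ℂ) (hs : s = 1 ∨ s = -1) {p : ℕ}
    (h : p.Coprime (3 * N)) : mult_h701 N s p * wt_h701 s p = 1 := by
  unfold mult_h701 wt_h701
  rw [if_pos h]
  have h3 := not_three_dvd_of_coprime_h701 h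
  have hp : p % 3 < 3 := Nat.mod_lt _ (by norm_num)
  have h0 : p % 3 ≠ 0 := fun h' => h3 (Nat.dvd_of_mod_eq_zero h')
  by_cases hs1 : s = 1
  · rw [if_pos hs1, hs1]
    split_ifs <;> simp
  · rw [if_neg hs1]
    have hs' : s = -1 := hs.resolve_left hs1
    unfold chiNegThree
    interval_cases h1 : p % 3
    · exact absurd rfl h0
    · simp
    · simp [hs']

theorem coprime_of_prime_not_dvd_h701 {N p : ℕ} (hp : p.Prime) (h : ¬ p ∣ 3 * N) :
    p.Coprime (3 * N) := (Nat.Prime.coprime_iff_not_dvd hp).mpr h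

theorem prime_dvd_level_iff_h701 {N p : ℕ} (hp : p.Prime) :
    p ∣ N * (3 * N) ^ 2 ↔ p ∣ 3 * N := by
  constructor
  · intro h
    rcases (Nat.Prime.dvd_mul hp).mp h with h | h
    · exact Dvd.dvd.mul_left h 3
    · exact hp.dvd_of_dvd_pow h
  · intro h
    exact Dvd.dvd.mul_left (dvd_pow h two_ne_zero) N

/-- **Integrality, twist and depletion.** -/
theorem eigen_h701 (N : ℕ) [NeZero N] (ε : DirichletCharacter ℂ N) (f : CuspForm (Gamma1 N) 1)
    (ι : ℤ√(-2) →+* ℂ) (hf₁ : qCoeff f 1 = 1)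
    (hT : ∀ p : ℕ, p.Prime → ¬ p ∣ N → ∀ n : ℕ,
      qCoeff f (p * n) + ε (p : ZMod N) * (if p ∣ n then qCoeff f (n / p) else 0) =
        qCoeff f p * qCoeff f n)
    (s : ℂ) (hs : s = 1 ∨ s = -1) (t : ℕ → ℤ√(-2))
    (ht : ∀ p : ℕ, p.Prime → ¬ p ∣ 3 * N →
      qCoeff f p = wt_h701 s p * ι (t p) ∧ ε (p : ZMod N) = ((chiNegThree p : ℤ) : ℂ)) :
    ∃ c : ℕ → ℤ√(-2),
      FormalHecke.IsEigensystem
        (fun ℓ => if ℓ ∣ N * (3 * N) ^ 2 then 0 else ((chiNegThree ℓ : ℤ) : ℤ√(-2))) c ∧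
      CuspForm.IsWeightOneChiNegThreeRealized (N * (3 * N) ^ 2) c ∧
      ∀ p : ℕ, p.Prime → ¬ p ∣ 3 * N → c p = t p := by
  classical
  have hι := iota_injective_h701 ι
  have h3N : NeZero (3 * N) := ⟨mul_ne_zero (by norm_num) (NeZero.ne N)⟩
  -- the twisted and depleted coefficients
  set b : ℕ → ℂ := fun n => mult_h701 N s n * qCoeff f n with hb
  have hb_prime : ∀ p : ℕ, p.Prime → ¬ p ∣ 3 * N → b p = ι (t p) := by
    intro p hp hpN
    rw [hb]
    beta_reduce
    rw [(ht p hp hpN).1, ← mul_assoc,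
      mult_mul_wt_h701 N s hs (coprime_of_prime_not_dvd_h701 hp hpN), one_mul]
  have hb_zero : ∀ n : ℕ, ¬ n.Coprime (3 * N) → b n = 0 := by
    intro n hn
    rw [hb]
    beta_reduce
    rw [mult_of_not_coprime_h701 N s hn, zero_mul]
  have hb_one : b 1 = 1 := by
    rw [hb]
    beta_reduce
    rw [mult_one_h701, hf₁, one_mul]
  -- Hecke relation at the good primes
  have hb_hecke : ∀ ℓ : ℕ, ℓ.Prime → ¬ ℓ ∣ 3 * N → ∀ n : ℕ,
      b (ℓ * n) + ((chiNegThree ℓ : ℤ) : ℂ) * (if ℓ ∣ n then b (n / ℓ) else 0) = b ℓ * b n := by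
    intro ℓ hℓ hℓN n
    have hℓN' : ¬ ℓ ∣ N := fun h => hℓN (Dvd.dvd.mul_left h 3)
    have key := hT ℓ hℓ hℓN' n
    rw [(ht ℓ hℓ hℓN).2] at key
    have hcop := coprime_of_prime_not_dvd_h701 hℓ hℓN
    rw [hb]
    beta_reduce
    by_cases hd : ℓ ∣ n
    · rw [if_pos hd] at key ⊢
      obtain ⟨k, rfl⟩ := hd
      rw [Nat.mul_div_cancel_left k hℓ.pos] at key ⊢
      rw [mult_mul_h701 N s ℓ (ℓ * k), mult_mul_h701 N s ℓ k]
      have hsq := mult_sq_h701 N s hcop
      linear_combination (mult_h701 N s ℓ * mult_h701 N s ℓ * mult_h701 N s k) * key -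
        ((chiNegThree ℓ : ℤ) : ℂ) * mult_h701 N s k * qCoeff f k * hsq
    · rw [if_neg hd] at key ⊢
      rw [mult_mul_h701 N s ℓ n]
      linear_combination (mult_h701 N s ℓ * mult_h701 N s n) * key
  -- Hecke relation at the bad primes
  have hb_bad : ∀ ℓ : ℕ, ℓ.Prime → ℓ ∣ 3 * N → ∀ n : ℕ, b (ℓ * n) = b ℓ * b n := by
    intro ℓ hℓ hℓN n
    have h1 : ¬ ℓ.Coprime (3 * N) := fun hc =>
      hℓ.one_lt.ne' (Nat.eq_one_of_dvd_coprimes hc dvd_rfl hℓN)
    have h2 : ¬ (ℓ * n).Coprime (3 * N) := fun hc =>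
      hℓ.one_lt.ne' (Nat.eq_one_of_dvd_coprimes hc (dvd_mul_right ℓ n) hℓN)
    rw [hb_zero _ h1, hb_zero _ h2, zero_mul]
  -- integrality
  have hint : ∀ n : ℕ, ∃ x : ℤ√(-2), ι x = b n := by
    intro n
    induction n using Nat.strong_induction_on with
    | _ n ih =>
      rcases Nat.lt_or_ge n 2 with hn | hn
      · interval_cases n
        · refine ⟨0, ?_⟩
          rw [map_zero, hb_zero]
          intro hc
          rw [Nat.coprime_zero_left] at hc
          have : 3 ∣ 1 := hc ▸ dvd_mul_right 3 N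
          exact absurd this (by norm_num)
        · exact ⟨1, by rw [map_one, hb_one]⟩
      · obtain ⟨ℓ, hℓ, k, hk⟩ : ∃ ℓ : ℕ, ℓ.Prime ∧ ∃ k, n = ℓ * k :=
          ⟨n.minFac, Nat.minFac_prime (by omega), Nat.minFac_dvd n⟩
        have hkpos : 0 < k := by
          rcases Nat.eq_zero_or_pos k with h | h
          · rw [h, mul_zero] at hk; omega
          · exact h
        have hklt : k < n := by
          rw [hk]
          exact lt_mul_of_one_lt_left hkpos hℓ.one_lt
        by_cases hbad : ℓ ∣ 3 * N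
        · refine ⟨0, ?_⟩
          rw [map_zero, hk, hb_bad _ hℓ hbad, hb_zero ℓ, zero_mul]
          exact fun hc => hℓ.one_lt.ne' (Nat.eq_one_of_dvd_coprimes hc dvd_rfl hbad)
        · have key := hb_hecke _ hℓ hbad k
          obtain ⟨xk, hxk⟩ := ih k hklt
          by_cases hd : ℓ ∣ k
          · rw [if_pos hd] at key
            have hlt : k / ℓ < n :=
              lt_of_le_of_lt (Nat.div_le_self _ _) hklt
            obtain ⟨y, hy⟩ := ih _ hlt
            refine ⟨t ℓ * xk - ((chiNegThree ℓ : ℤ) : ℤ√(-2)) * y, ?_⟩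
            rw [map_sub, map_mul, map_mul, map_intCast, hxk, hy, ← hb_prime _ hℓ hbad, hk]
            linear_combination -key
          · rw [if_neg hd, mul_zero, add_zero] at key
            refine ⟨t ℓ * xk, ?_⟩
            rw [map_mul, hxk, ← hb_prime _ hℓ hbad, hk]
            exact key.symm
  choose c hc using hint
  refine ⟨c, ⟨?_, ?_⟩, ?_, ?_⟩
  · apply hι
    rw [hc, hb_one, map_one]
  · intro ℓ hℓ n
    beta_reduce
    apply hι
    by_cases hbad : ℓ ∣ 3 * N
    · rw [if_pos ((prime_dvd_level_iff_h701 hℓ).mpr hbad), zero_mul, add_zero, map_mul, hc, hc,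
        hc]
      exact hb_bad ℓ hℓ hbad n
    · rw [if_neg (fun h => hbad ((prime_dvd_level_iff_h701 hℓ).mp h)), map_add, map_mul,
        map_intCast, map_mul, hc, hc, hc]
      have key := hb_hecke ℓ hℓ hbad n
      by_cases hd : ℓ ∣ n
      · rw [if_pos hd] at key ⊢
        rw [hc]
        exact key
      · rw [if_neg hd] at key ⊢
        rw [map_zero]
        exact key
  · -- realization
    obtain ⟨g, hg⟩ := Fermat.Agent.LT.H670.exists_twist_Gamma1 N (3 * N) 1 f
      (fun x => if IsUnit x then (if s = 1 then 1 else ((chiNegThree x.val : ℤ) : ℂ)) else 0)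
    refine ⟨ι, g, fun n => ?_⟩
    rw [hg n, hc, hb]
    beta_reduce
    congr 1
    unfold mult_h701
    by_cases hn : n.Coprime (3 * N)
    · rw [if_pos hn, if_pos ((ZMod.isUnit_iff_coprime n (3 * N)).mpr hn)]
      by_cases hs1 : s = 1
      · rw [if_pos hs1, if_pos hs1]
      · rw [if_neg hs1, if_neg hs1, ZMod.val_natCast]
        have : chiNegThree (n % (3 * N)) = chiNegThree n := by
          unfold chiNegThree
          rw [Nat.mod_mod_of_dvd n (dvd_mul_right 3 N)]
        rw [this]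
    · rw [if_neg hn, if_neg (fun hu => hn ((ZMod.isUnit_iff_coprime n (3 * N)).mp hu))]
  · intro p hp hpN
    apply hι
    rw [hc, hb_prime p hp hpN]

end Fermat.Agent.LT.H701

end

end
-- ===== PACK-END LT/H701/Eigen.lean

-- ===== PACK-BEGIN LT/T1/H793/SiegelSep.lean
section






/-!
# Row LT, tower T1 (helper793, OFF-MAIN): interface Prop `SiegelSepC`

`siegelSepC793 K : AdNormC K → SiegelSepC K` (Spec.lean of helper54): for `γ ∈ GL₂(K)` not upper
triangular, `H(g) · H(γ g) ≤ 1`.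

Proof.  Let `g = b k`, `γ g = b' k'`, so `γ b = b' u` with `u = k' k⁻¹ ∈ K⁰`.  The lower left
entries give `c · b₁₁ = b'₂₂ · u₂₁` (`c = γ₂₁ ∈ Kˣ`), hence `‖b₁₁‖ ≤ ‖b'₂₂‖` because every local
norm of an entry of an element of `K⁰` is `≤ 1`; the determinants give
`‖b₁₁‖ ‖b₂₂‖ = ‖b'₁₁‖ ‖b'₂₂‖` because `‖det u‖ = 1` and by the product formula.  No measure theory.
-/

set_option autoImplicit false

open IsDedekindDomain NumberField
open Fermat.Agent.LT.H556.A0
open Fermat.Agent.LT.T1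

noncomputable section

namespace Fermat.Agent.LT.T1.H793

variable {K : Type} [Field K] [NumberField K]

/-- The adelic norm is `≤ 1` as soon as every local norm is. -/
lemma adNorm_le_one_of793 {x : Adl K} (h1 : ∀ w : InfinitePlace K, ‖x.1 w‖ ≤ 1)
    (h2 : ∀ v : HeightOneSpectrum (𝓞 K), ‖x.2 v‖ ≤ 1) : adNorm K x ≤ 1 := by
  unfold adNorm
  have hA : ∏ w : InfinitePlace K, ‖x.1 w‖ ^ w.mult ≤ 1 :=
    Finset.prod_le_one (fun w _ => by positivity)
      (fun w _ => pow_le_one₀ (norm_nonneg _) (h1 w))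
  have hA0 : 0 ≤ ∏ w : InfinitePlace K, ‖x.1 w‖ ^ w.mult :=
    Finset.prod_nonneg (fun w _ => by positivity)
  have hB0 : 0 ≤ ∏ᶠ v : HeightOneSpectrum (𝓞 K), ‖x.2 v‖ :=
    finprod_nonneg (fun v => norm_nonneg _)
  have hB : ∏ᶠ v : HeightOneSpectrum (𝓞 K), ‖x.2 v‖ ≤ 1 := by
    by_cases hfin : (Function.mulSupport fun v : HeightOneSpectrum (𝓞 K) => ‖x.2 v‖).Finite
    · rw [finprod_eq_prod _ hfin]
      exact Finset.prod_le_one (fun v _ => norm_nonneg _) (fun v _ => h2 v)
    · rw [finprod_of_infinite_mulSupport hfin]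
  calc (∏ w : InfinitePlace K, ‖x.1 w‖ ^ w.mult) * ∏ᶠ v : HeightOneSpectrum (𝓞 K), ‖x.2 v‖
      ≤ 1 * 1 := mul_le_mul hA hB hB0 zero_le_one
    _ = 1 := one_mul 1

/-- Every local norm of an entry of an element of `K⁰` is `≤ 1`. -/
lemma adNorm_entry_le_one793 {u : G K} (hk : IsStdCompact K u) (i j : Fin 2) :
    adNorm K ((u : Matrix (Fin 2) (Fin 2) (Adl K)) i j) ≤ 1 := by
  refine adNorm_le_one_of793 (fun w => ?_) (fun v => ?_)
  · rw [← norm_extensionEmbedding793]
    have hU := (hk.2 w).1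
    have e := congrFun (congrFun hU i) i
    rw [Matrix.mul_apply, Fin.sum_univ_two] at e
    simp only [Matrix.conjTranspose_apply, Matrix.one_apply_eq] at e
    have h0 : ∀ l : Fin 2, infComp w u i l * star (infComp w u i l)
        = ((‖infComp w u i l‖ ^ 2 : ℝ) : ℂ) := by
      intro l
      rw [Complex.star_def, Complex.mul_conj, Complex.normSq_eq_norm_sq]
    rw [h0 0, h0 1] at e
    have e' : ‖infComp w u i 0‖ ^ 2 + ‖infComp w u i 1‖ ^ 2 = 1 := by exact_mod_cast e
    have hij : ‖infComp w u i j‖ ^ 2 ≤ 1 := by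
      fin_cases j
      · have := sq_nonneg ‖infComp w u i 1‖
        simp only [Fin.zero_eta]
        linarith
      · have := sq_nonneg ‖infComp w u i 0‖
        simp only [Fin.mk_one]
        linarith
    have hn : 0 ≤ ‖infComp w u i j‖ := norm_nonneg _
    show ‖infComp w u i j‖ ≤ 1
    nlinarith
  · exact Valued.toNormedField.norm_le_one_iff.mpr
      ((HeightOneSpectrum.mem_adicCompletionIntegers (𝓞 K) K v).mp ((hk.1 v).1 i j))

/-- The determinant of an element of `K⁰` has adelic norm `1`. -/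
lemma adNorm_det_std793 {u : G K} (hk : IsStdCompact K u) :
    adNorm K (u : Matrix (Fin 2) (Fin 2) (Adl K)).det = 1 := by
  have hdet : (u : Matrix (Fin 2) (Fin 2) (Adl K)).det
      * ((u⁻¹ : G K) : Matrix (Fin 2) (Fin 2) (Adl K)).det = 1 := by
    rw [← Matrix.det_mul, ← Units.val_mul, mul_inv_cancel, Units.val_one, Matrix.det_one]
  refine adNorm_eq_one_of793 (fun w => ?_) (fun v => ?_)
  · rw [← norm_extensionEmbedding793]
    have h1 : InfinitePlace.Completion.extensionEmbedding w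
        ((u : Matrix (Fin 2) (Fin 2) (Adl K)).det.1 w) = (infComp w u).det := by
      rw [Matrix.det_fin_two, Matrix.det_fin_two]
      simp only [infComp]
      show InfinitePlace.Completion.extensionEmbedding w
        (projInf793 w ((u : Matrix (Fin 2) (Fin 2) (Adl K)) 0 0
            * (u : Matrix (Fin 2) (Fin 2) (Adl K)) 1 1
          - (u : Matrix (Fin 2) (Fin 2) (Adl K)) 0 1
            * (u : Matrix (Fin 2) (Fin 2) (Adl K)) 1 0)) = _
      simp only [map_sub, map_mul, projInf793_apply]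
    rw [h1]
    have hU := congrArg Matrix.det (hk.2 w).1
    rw [Matrix.det_mul, Matrix.det_conjTranspose, Matrix.det_one] at hU
    have h := congrArg norm hU
    rw [norm_mul, norm_star, norm_one] at h
    have h0 : 0 ≤ ‖(infComp w u).det‖ := norm_nonneg _
    nlinarith
  · have hint : ∀ {g : G K}, IsIntegralAt v g →
        (g : Matrix (Fin 2) (Fin 2) (Adl K)).det.2 v ∈ v.adicCompletionIntegers K := by
      intro g hg
      have : (g : Matrix (Fin 2) (Fin 2) (Adl K)).det.2 v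
          = finComp v g 0 0 * finComp v g 1 1 - finComp v g 0 1 * finComp v g 1 0 := by
        rw [Matrix.det_fin_two]
        rfl
      rw [this]
      exact sub_mem (mul_mem (hg 0 0) (hg 1 1)) (mul_mem (hg 0 1) (hg 1 0))
    refine norm_eq_one_of_mul793 v (hint (hk.1 v).1) (hint (hk.1 v).2) ?_
    have := congrArg (projFin793 v) hdet
    rwa [map_mul, map_one] at this

/-- **`SiegelSepC`** from the algebraic parts of `AdNormC`. -/
theorem siegelSepC793 (K : Type) [Field K] [NumberField K] (hN : AdNormC K) :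
    SiegelSepC K := by
  rintro γ hγ g t t' ⟨b, k, hb, hk, hg, ht⟩ ⟨b', k', hb', hk', hg', ht'⟩
  have hc : (γ : Matrix (Fin 2) (Fin 2) K) 1 0 ≠ 0 := hγ
  set u : G K := k' * k⁻¹ with hu
  have hkU : IsStdCompact K u := isStdCompact_mul793 hk' (isStdCompact_inv793 hk)
  -- `γ b = b' u`
  have hmain : ratG K γ * b = b' * u := by
    have h1 : ratG K γ * (b * k) = b' * k' := by rw [← hg, ← hg']
    calc ratG K γ * b = ratG K γ * (b * k) * k⁻¹ := by group
      _ = b' * k' * k⁻¹ := by rw [h1]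
      _ = b' * u := by rw [hu, mul_assoc]
  have hb10 : (b : Matrix (Fin 2) (Fin 2) (Adl K)) 1 0 = 0 := hb
  have hb'10 : (b' : Matrix (Fin 2) (Fin 2) (Adl K)) 1 0 = 0 := hb'
  have hd := isUnit_diag793 hb
  have hd' := isUnit_diag793 hb'
  -- lower left entries
  have hentry : algebraMap K (Adl K) ((γ : Matrix (Fin 2) (Fin 2) K) 1 0)
      * (b : Matrix (Fin 2) (Fin 2) (Adl K)) 0 0
      = (b' : Matrix (Fin 2) (Fin 2) (Adl K)) 1 1 * (u : Matrix (Fin 2) (Fin 2) (Adl K)) 1 0 := by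
    have h := congrArg (fun x : G K => (x : Matrix (Fin 2) (Fin 2) (Adl K)) 1 0) hmain
    simp only [Units.val_mul, Matrix.mul_apply, Fin.sum_univ_two, hb10, hb'10, mul_zero,
      zero_mul, add_zero, zero_add] at h
    exact h
  have hcu : IsUnit (algebraMap K (Adl K) ((γ : Matrix (Fin 2) (Fin 2) K) 1 0)) :=
    (IsUnit.mk0 _ hc).map (algebraMap K (Adl K))
  have hu10 : IsUnit ((u : Matrix (Fin 2) (Fin 2) (Adl K)) 1 0) := by
    have h : IsUnit ((b' : Matrix (Fin 2) (Fin 2) (Adl K)) 1 1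
        * (u : Matrix (Fin 2) (Fin 2) (Adl K)) 1 0) := hentry ▸ hcu.mul hd.1
    exact isUnit_of_mul_isUnit_right h
  have hA : 0 < adNorm K ((b : Matrix (Fin 2) (Fin 2) (Adl K)) 0 0) := adNorm_pos793 hN hd.1
  have hB : 0 < adNorm K ((b : Matrix (Fin 2) (Fin 2) (Adl K)) 1 1) := adNorm_pos793 hN hd.2
  have hA' : 0 < adNorm K ((b' : Matrix (Fin 2) (Fin 2) (Adl K)) 0 0) :=
    adNorm_pos793 hN hd'.1
  have hB' : 0 < adNorm K ((b' : Matrix (Fin 2) (Fin 2) (Adl K)) 1 1) :=
    adNorm_pos793 hN hd'.2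
  -- (1) `‖b₁₁‖ ≤ ‖b'₂₂‖`
  have h1 : adNorm K ((b : Matrix (Fin 2) (Fin 2) (Adl K)) 0 0)
      ≤ adNorm K ((b' : Matrix (Fin 2) (Fin 2) (Adl K)) 1 1) := by
    have e := congrArg (adNorm K) hentry
    rw [adNorm_mul793 hN hcu hd.1, adNorm_algebraMap793 hN hc, one_mul,
      adNorm_mul793 hN hd'.2 hu10] at e
    rw [e]
    calc adNorm K ((b' : Matrix (Fin 2) (Fin 2) (Adl K)) 1 1)
          * adNorm K ((u : Matrix (Fin 2) (Fin 2) (Adl K)) 1 0)
        ≤ adNorm K ((b' : Matrix (Fin 2) (Fin 2) (Adl K)) 1 1) * 1 :=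
          mul_le_mul_of_nonneg_left (adNorm_entry_le_one793 hkU 1 0) hB'.le
      _ = _ := mul_one _
  -- (2) determinants
  have h2 : adNorm K ((b : Matrix (Fin 2) (Fin 2) (Adl K)) 0 0)
        * adNorm K ((b : Matrix (Fin 2) (Fin 2) (Adl K)) 1 1)
      = adNorm K ((b' : Matrix (Fin 2) (Fin 2) (Adl K)) 0 0)
        * adNorm K ((b' : Matrix (Fin 2) (Fin 2) (Adl K)) 1 1) := by
    have hdetγ : ((ratG K γ : G K) : Matrix (Fin 2) (Fin 2) (Adl K)).det
        = algebraMap K (Adl K) (γ : Matrix (Fin 2) (Fin 2) K).det := by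
      rw [RingHom.map_det]
      rfl
    have hdγ0 : (γ : Matrix (Fin 2) (Fin 2) K).det ≠ 0 := by
      have := (Matrix.GeneralLinearGroup.det γ).ne_zero
      simpa using this
    have e := congrArg (fun x : G K => (x : Matrix (Fin 2) (Fin 2) (Adl K)).det) hmain
    simp only [Units.val_mul, Matrix.det_mul] at e
    rw [hdetγ, det_upper793 hb, det_upper793 hb'] at e
    have e' := congrArg (adNorm K) e
    have hdu : IsUnit (u : Matrix (Fin 2) (Fin 2) (Adl K)).det := Matrix.isUnits_det_units u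
    rw [adNorm_mul793 hN ((IsUnit.mk0 _ hdγ0).map (algebraMap K (Adl K))) (hd.1.mul hd.2),
      adNorm_algebraMap793 hN hdγ0, one_mul, adNorm_mul793 hN hd.1 hd.2,
      adNorm_mul793 hN (hd'.1.mul hd'.2) hdu, adNorm_det_std793 hkU, mul_one,
      adNorm_mul793 hN hd'.1 hd'.2] at e'
    exact e'
  -- conclusion
  rw [ht, ht', div_mul_div_comm, div_le_one (mul_pos hB hB')]
  calc adNorm K ((b : Matrix (Fin 2) (Fin 2) (Adl K)) 0 0)
        * adNorm K ((b' : Matrix (Fin 2) (Fin 2) (Adl K)) 0 0)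
      ≤ adNorm K ((b' : Matrix (Fin 2) (Fin 2) (Adl K)) 1 1)
        * adNorm K ((b' : Matrix (Fin 2) (Fin 2) (Adl K)) 0 0) :=
        mul_le_mul_of_nonneg_right h1 hA'.le
    _ = adNorm K ((b : Matrix (Fin 2) (Fin 2) (Adl K)) 0 0)
        * adNorm K ((b : Matrix (Fin 2) (Fin 2) (Adl K)) 1 1) := by rw [h2, mul_comm]
    _ ≤ adNorm K ((b' : Matrix (Fin 2) (Fin 2) (Adl K)) 1 1)
        * adNorm K ((b : Matrix (Fin 2) (Fin 2) (Adl K)) 1 1) :=
        mul_le_mul_of_nonneg_right h1 hB.le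
    _ = _ := mul_comm _ _

end Fermat.Agent.LT.T1.H793

end

end
-- ===== PACK-END LT/T1/H793/SiegelSep.lean

-- ===== PACK-BEGIN LT/T1/H619/EllipticModule.lean
section






/-!
# Row LT, tower T1, sub-leaf T1.20 (helper619): an idele of module `< 1`

OFF-MAIN.  `halfIdele619 K` is the idele `(1/2 at the infinite places, 1 at the finite places)`;
as a scalar of `𝔸_K[γ]` its module is `< 1` (`distribHaarChar_half_lt_one619`): it maps the open
relatively compact box `U = (B × W)²` (`B` = open unit box at infinity, `W` = interior of a compact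
neighbourhood of `0` in the finite adeles) into two disjoint translates inside `U`.
-/

set_option autoImplicit false

open IsDedekindDomain NumberField MeasureTheory
open scoped MatrixGroups NNReal ENNReal Pointwise

noncomputable section

namespace Fermat.Agent.LT.T1.H619

open Fermat.Agent.LT.H556.A0 Fermat.Agent.LT.T1

variable (K : Type) [Field K] [NumberField K]

/-- `1/2` in the infinite adeles. -/
def halfInf619 : InfiniteAdeleRing K := algebraMap K (InfiniteAdeleRing K) 2⁻¹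

lemma halfInf619_mul_two : halfInf619 K * 2 = 1 := by
  have h : (2 : InfiniteAdeleRing K) = algebraMap K (InfiniteAdeleRing K) 2 := (map_ofNat _ 2).symm
  rw [halfInf619, h, ← map_mul, inv_mul_cancel₀ two_ne_zero, map_one]

/-- The idele `(1/2 at the infinite places, 1 at the finite places)`. -/
def halfIdele619 : (Adl K)ˣ where
  val := ((halfInf619 K, 1) : InfiniteAdeleRing K × FiniteAdeleRing (𝓞 K) K)
  inv := ((2, 1) : InfiniteAdeleRing K × FiniteAdeleRing (𝓞 K) K)
  val_inv := by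
    refine Prod.ext ?_ ?_
    · change halfInf619 K * 2 = 1
      exact halfInf619_mul_two K
    · change (1 : FiniteAdeleRing (𝓞 K) K) * 1 = 1
      exact one_mul 1
  inv_val := by
    refine Prod.ext ?_ ?_
    · change 2 * halfInf619 K = 1
      rw [mul_comm]; exact halfInf619_mul_two K
    · change (1 : FiniteAdeleRing (𝓞 K) K) * 1 = 1
      exact one_mul 1

variable {K}

/-- The absolute value of the `w`-component of an adele. -/
def nrm619 (w : InfinitePlace K) (x : Adl K) : ℝ :=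
  ‖InfinitePlace.Completion.extensionEmbedding w (x.1 w)‖

lemma continuous_nrm619 (w : InfinitePlace K) : Continuous (nrm619 w) := by
  have h1 : Continuous fun x : Adl K => (x.1 : InfiniteAdeleRing K) := continuous_fst
  have h2 : Continuous fun x : InfiniteAdeleRing K => x w := continuous_apply w
  exact continuous_norm.comp
    ((InfinitePlace.Completion.isometry_extensionEmbedding w).continuous.comp (h2.comp h1))

lemma extensionEmbedding_halfInf619 (w : InfinitePlace K) :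
    InfinitePlace.Completion.extensionEmbedding w (halfInf619 K w) = (2 : ℂ)⁻¹ := by
  have h := congrFun (halfInf619_mul_two K) w
  have h' : halfInf619 K w * (2 : w.Completion) = 1 := h
  have h2 := congrArg (InfinitePlace.Completion.extensionEmbedding w) h'
  rw [map_mul, map_ofNat, map_one] at h2
  exact eq_inv_of_mul_eq_one_left h2

lemma nrm619_add (w : InfinitePlace K) (x y : Adl K) :
    nrm619 w (x + y) ≤ nrm619 w x + nrm619 w y := by
  have e : (x + y).1 w = x.1 w + y.1 w := rfl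
  rw [nrm619, e, map_add]
  exact norm_add_le _ _

lemma nrm619_half_mul (w : InfinitePlace K) (x : Adl K) :
    nrm619 w ((halfIdele619 K : Adl K) * x) = 2⁻¹ * nrm619 w x := by
  have e : ((halfIdele619 K : Adl K) * x).1 w = halfInf619 K w * x.1 w := rfl
  rw [nrm619, e, map_mul, extensionEmbedding_halfInf619, norm_mul, norm_inv]
  simp [nrm619]

lemma snd_half_mul (x : Adl K) : ((halfIdele619 K : Adl K) * x).2 = x.2 := by
  change (1 : FiniteAdeleRing (𝓞 K) K) * x.2 = x.2
  exact one_mul _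

/-- The translation vector `(1/2 at infinity, 0 at the finite places)`. -/
def halfVec619 (K : Type) [Field K] [NumberField K] : Adl K :=
  ((halfInf619 K, 0) : InfiniteAdeleRing K × FiniteAdeleRing (𝓞 K) K)

lemma nrm619_halfVec (w : InfinitePlace K) : nrm619 w (halfVec619 K) = 2⁻¹ := by
  have e : (halfVec619 K).1 w = halfInf619 K w := rfl
  rw [nrm619, e, extensionEmbedding_halfInf619, norm_inv]
  simp

lemma nrm619_neg (w : InfinitePlace K) (x : Adl K) : nrm619 w (-x) = nrm619 w x := by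
  have e : (-x).1 w = -(x.1 w) := rfl
  rw [nrm619, e, map_neg, norm_neg, nrm619]

/-- The open box in `𝔸_K`. -/
def boxO619 (W : Set (FiniteAdeleRing (𝓞 K) K)) : Set (Adl K) :=
  {x | (∀ w : InfinitePlace K, nrm619 w x < 1) ∧ x.2 ∈ W}

/-- The compact box in `𝔸_K`. -/
def boxC619 (W : Set (FiniteAdeleRing (𝓞 K) K)) : Set (Adl K) :=
  ((Set.univ.pi fun w : InfinitePlace K =>
      (InfinitePlace.Completion.extensionEmbedding w) ⁻¹' Metric.closedBall (0 : ℂ) 1) ×ˢ W :
    Set (InfiniteAdeleRing K × FiniteAdeleRing (𝓞 K) K))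

lemma isOpen_boxO619 {W : Set (FiniteAdeleRing (𝓞 K) K)} (hW : IsOpen W) :
    IsOpen (boxO619 W) := by
  have h1 : IsOpen {x : Adl K | ∀ w : InfinitePlace K, nrm619 w x < 1} := by
    have : {x : Adl K | ∀ w : InfinitePlace K, nrm619 w x < 1}
        = ⋂ w : InfinitePlace K, (nrm619 w) ⁻¹' Set.Iio 1 := by
      ext x; simp
    rw [this]
    exact isOpen_iInter_of_finite fun w => isOpen_Iio.preimage (continuous_nrm619 w)
  have h2 : IsOpen {x : Adl K | x.2 ∈ W} := hW.preimage continuous_snd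
  exact h1.inter h2

lemma isCompact_boxC619 {W : Set (FiniteAdeleRing (𝓞 K) K)} (hW : IsCompact W) :
    IsCompact (boxC619 W) := by
  refine IsCompact.prod (isCompact_univ_pi fun w => ?_) hW
  exact (InfinitePlace.Completion.isometry_extensionEmbedding w).isClosedEmbedding.isCompact_preimage
    (isCompact_closedBall (0 : ℂ) 1)

lemma boxO619_subset_boxC619 {W W₀ : Set (FiniteAdeleRing (𝓞 K) K)} (h : W ⊆ W₀) :
    boxO619 W ⊆ boxC619 W₀ := by
  rintro x ⟨hx1, hx2⟩
  refine ⟨fun w _ => ?_, h hx2⟩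
  change InfinitePlace.Completion.extensionEmbedding w (x.1 w) ∈ Metric.closedBall (0 : ℂ) 1
  rw [mem_closedBall_zero_iff]
  exact (hx1 w).le

lemma zero_mem_boxO619 {W : Set (FiniteAdeleRing (𝓞 K) K)} (h : (0 : FiniteAdeleRing (𝓞 K) K) ∈ W) :
    (0 : Adl K) ∈ boxO619 W := by
  refine ⟨fun w => ?_, h⟩
  have e : (0 : Adl K).1 w = 0 := rfl
  rw [nrm619, e, map_zero, norm_zero]
  exact one_pos

/-- A compact neighbourhood of `0` in the finite adeles, from local compactness of `𝔸_K`. -/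
lemma exists_compact_nhds_fin619 [LocallyCompactSpace (Adl K)] :
    ∃ W₀ : Set (FiniteAdeleRing (𝓞 K) K), IsCompact W₀ ∧ W₀ ∈ nhds 0 := by
  obtain ⟨N, hN, hN0⟩ := exists_compact_mem_nhds (0 : Adl K)
  have hsnd : Continuous fun x : Adl K => (x.2 : FiniteAdeleRing (𝓞 K) K) := continuous_snd
  have hopen : IsOpenMap fun x : Adl K => (x.2 : FiniteAdeleRing (𝓞 K) K) := isOpenMap_snd
  exact ⟨_, hN.image hsnd, hopen.image_mem_nhds hN0⟩

end Fermat.Agent.LT.T1.H619

namespace Fermat.Agent.LT.T1.H619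

open Fermat.Agent.LT.H556.A0 Fermat.Agent.LT.T1

variable {K : Type} [Field K] [NumberField K]

lemma nrm619_halfVec_add_halfVec (w : InfinitePlace K) :
    nrm619 w (halfVec619 K + halfVec619 K) = 1 := by
  have e : (halfVec619 K + halfVec619 K).1 w = halfInf619 K w + halfInf619 K w := rfl
  rw [nrm619, e, map_add, extensionEmbedding_halfInf619]
  norm_num

lemma snd_halfVec619 : (halfVec619 K).2 = 0 := rfl

/-- `x ↦ ±1/2 + x/2` maps the open box into itself. -/
lemma halfVec_add_mem_boxO619 {W : Set (FiniteAdeleRing (𝓞 K) K)} (x : Adl K)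
    (hx : x ∈ boxO619 W) :
    halfVec619 K + (halfIdele619 K : Adl K) * x ∈ boxO619 W ∧
    -halfVec619 K + (halfIdele619 K : Adl K) * x ∈ boxO619 W ∧
    0 + (halfIdele619 K : Adl K) * x ∈ boxO619 W := by
  obtain ⟨hx1, hx2⟩ := hx
  have hb : ∀ w : InfinitePlace K, 2⁻¹ + 2⁻¹ * nrm619 w x < 1 := fun w => by
    have := hx1 w
    linarith
  have hnn : ∀ w : InfinitePlace K, 0 ≤ nrm619 w x := fun w => norm_nonneg _
  refine ⟨⟨fun w => ?_, ?_⟩, ⟨fun w => ?_, ?_⟩, ⟨fun w => ?_, ?_⟩⟩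
  · calc nrm619 w (halfVec619 K + (halfIdele619 K : Adl K) * x)
        ≤ nrm619 w (halfVec619 K) + nrm619 w ((halfIdele619 K : Adl K) * x) := nrm619_add w _ _
      _ = 2⁻¹ + 2⁻¹ * nrm619 w x := by rw [nrm619_halfVec, nrm619_half_mul]
      _ < 1 := hb w
  · change (halfVec619 K).2 + ((halfIdele619 K : Adl K) * x).2 ∈ W
    rw [snd_halfVec619, snd_half_mul, zero_add]
    exact hx2
  · calc nrm619 w (-halfVec619 K + (halfIdele619 K : Adl K) * x)
        ≤ nrm619 w (-halfVec619 K) + nrm619 w ((halfIdele619 K : Adl K) * x) := nrm619_add w _ _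
      _ = 2⁻¹ + 2⁻¹ * nrm619 w x := by rw [nrm619_neg, nrm619_halfVec, nrm619_half_mul]
      _ < 1 := hb w
  · change -(halfVec619 K).2 + ((halfIdele619 K : Adl K) * x).2 ∈ W
    rw [snd_halfVec619, snd_half_mul, neg_zero, zero_add]
    exact hx2
  · rw [zero_add, nrm619_half_mul]
    have := hx1 w
    have := hnn w
    linarith
  · rw [zero_add, snd_half_mul]
    exact hx2

/-- The two translates are disjoint. -/
lemma halfVec_add_ne619 [Nonempty (InfinitePlace K)] {W : Set (FiniteAdeleRing (𝓞 K) K)}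
    (x y : Adl K) (hx : x ∈ boxO619 W) (hy : y ∈ boxO619 W) :
    halfVec619 K + (halfIdele619 K : Adl K) * x ≠
      -halfVec619 K + (halfIdele619 K : Adl K) * y := by
  intro h
  obtain ⟨w⟩ := ‹Nonempty (InfinitePlace K)›
  have e : halfVec619 K + halfVec619 K
      = (halfIdele619 K : Adl K) * y + -((halfIdele619 K : Adl K) * x) := by
    linear_combination h
  have h1 := nrm619_halfVec_add_halfVec (K := K) w
  rw [e] at h1
  have h2 := nrm619_add w ((halfIdele619 K : Adl K) * y) (-((halfIdele619 K : Adl K) * x))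
  rw [nrm619_neg, nrm619_half_mul, nrm619_half_mul, h1] at h2
  have := hx.1 w
  have := hy.1 w
  linarith

section Module

variable (γ : Matrix (Fin 2) (Fin 2) K)

/-- The scalar `1/2` (at the infinite places) of `𝔸_K[γ]`. -/
def halfUnit619 : (VA619 K γ)ˣ :=
  Units.map (scal619 (γ.map (algebraMap K (Adl K)))).toMonoidHom (halfIdele619 K)

lemma halfUnit619_mul_fst (x : VA619 K γ) :
    (((halfUnit619 γ : (VA619 K γ)ˣ) : VA619 K γ) * x).1 = (halfIdele619 K : Adl K) * x.1 := by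
  change (halfIdele619 K : Adl K) * x.1 - 0 * x.2 * _ = _
  ring

lemma halfUnit619_mul_snd (x : VA619 K γ) :
    (((halfUnit619 γ : (VA619 K γ)ˣ) : VA619 K γ) * x).2 = (halfIdele619 K : Adl K) * x.2 := by
  change (halfIdele619 K : Adl K) * x.2 + 0 * x.1 + 0 * x.2 * _ = _
  ring

/-- **The module of the scalar `1/2` is `< 1`.** -/
lemma distribHaarChar_half_lt_one619 [LocallyCompactSpace (Adl K)]
    [MeasurableSpace (VA619 K γ)] [BorelSpace (VA619 K γ)] :
    distribHaarChar (VA619 K γ) (halfUnit619 γ) < 1 := by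
  obtain ⟨W₀, hW₀c, hW₀n⟩ := exists_compact_nhds_fin619 (K := K)
  set W : Set (FiniteAdeleRing (𝓞 K) K) := interior W₀ with hW
  have hWo : IsOpen W := isOpen_interior
  have hW0 : (0 : FiniteAdeleRing (𝓞 K) K) ∈ W := mem_interior_iff_mem_nhds.mpr hW₀n
  set U : Set (VA619 K γ) := (boxO619 W ×ˢ boxO619 W : Set (Adl K × Adl K)) with hU
  set N : Set (VA619 K γ) := (boxC619 W₀ ×ˢ boxC619 W₀ : Set (Adl K × Adl K)) with hNdef
  have hUo : IsOpen U := (isOpen_boxO619 hWo).prod (isOpen_boxO619 hWo)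
  have hUne : U.Nonempty := ⟨0, zero_mem_boxO619 hW0, zero_mem_boxO619 hW0⟩
  have hN : IsCompact N := (isCompact_boxC619 hW₀c).prod (isCompact_boxC619 hW₀c)
  have hUN : U ⊆ N :=
    Set.prod_mono (boxO619_subset_boxC619 interior_subset)
      (boxO619_subset_boxC619 interior_subset)
  set v₁ : VA619 K γ := ((halfVec619 K, 0) : Adl K × Adl K) with hv₁
  set v₂ : VA619 K γ := ((-halfVec619 K, 0) : Adl K × Adl K) with hv₂
  refine distribHaarChar_lt_one619 (halfUnit619 γ) hUo hUne hN hUN v₁ v₂ ?_ ?_ ?_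
  · rintro x ⟨hx1, hx2⟩
    refine ⟨?_, ?_⟩
    · change halfVec619 K + (((halfUnit619 γ : (VA619 K γ)ˣ) : VA619 K γ) * x).1 ∈ boxO619 W
      rw [halfUnit619_mul_fst]
      exact (halfVec_add_mem_boxO619 x.1 hx1).1
    · change 0 + (((halfUnit619 γ : (VA619 K γ)ˣ) : VA619 K γ) * x).2 ∈ boxO619 W
      rw [halfUnit619_mul_snd]
      exact (halfVec_add_mem_boxO619 x.2 hx2).2.2
  · rintro x ⟨hx1, hx2⟩
    refine ⟨?_, ?_⟩
    · change -halfVec619 K + (((halfUnit619 γ : (VA619 K γ)ˣ) : VA619 K γ) * x).1 ∈ boxO619 W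
      rw [halfUnit619_mul_fst]
      exact (halfVec_add_mem_boxO619 x.1 hx1).2.1
    · change 0 + (((halfUnit619 γ : (VA619 K γ)ˣ) : VA619 K γ) * x).2 ∈ boxO619 W
      rw [halfUnit619_mul_snd]
      exact (halfVec_add_mem_boxO619 x.2 hx2).2.2
  · rintro x ⟨hx1, -⟩ y ⟨hy1, -⟩ h
    have h' := congrArg Prod.fst h
    change halfVec619 K + (((halfUnit619 γ : (VA619 K γ)ˣ) : VA619 K γ) * x).1
      = -halfVec619 K + (((halfUnit619 γ : (VA619 K γ)ˣ) : VA619 K γ) * y).1 at h'
    rw [halfUnit619_mul_fst, halfUnit619_mul_fst] at h'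
    exact halfVec_add_ne619 x.1 y.1 hx1 hy1 h'

end Module

end Fermat.Agent.LT.T1.H619

end
end
-- ===== PACK-END LT/T1/H619/EllipticModule.lean

-- ===== PACK-BEGIN LT/T2/H724/CommSpec.lean
section



/-!
# Row LT, tower T2, leaf T2.02d (`ConvComm`: convolutions by spherical test functions commute):
# CUT into sub-leaves (helper724, owner of registry row 976)

OFF-MAIN.  Vocabulary: `LT/T2/Spec.lean` (helper130, v3, sha256 b934629a), `LT/T1/Spec.lean`
(helper54, e8ae48d6), `LT/H556/A0.lean` (66d3374a), byte-identical copies.  Definitions, Props and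
the PROVED top `convComm_of_leaves724`; nothing is assumed.

Gelfand's trick with the anti-involution `ι(g) = adjugate g = det g • g⁻¹` of `GL₂(𝔸_K)`:

* `ConvKerC724`   (FUBINI)  `R(f₁) R(f₂) φ (x) = ∫ φ(x g) (f₁ ⋆ f₂)(g) dg`,
                            `(f₁ ⋆ f₂)(g) = ∫ f₁(h) f₂(h⁻¹ g) dh`  (`convKer724`);
* `ConvShapeC724` (SHAPE)   `f₁ ⋆ f₂` is bi-invariant under `U(𝔫)` and the `K_w`, and supported in
                            `U(𝔫)_v` at the places `v ∣ 𝔫` (`IsSphShape724`);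
* `AdjMeasC724`   (MEASURE) every Haar measure of `GL₂(𝔸_K)` is invariant under `ι`
                            (`ι ∘ inv` is an involutive automorphism, so its modulus is `1`;
                            `T1.UnimodC` for `inv`);
* `ConvSwapC724`  (SWAP)    `(f₁ ⋆ f₂)(ι g) = ((f₂ ∘ ι) ⋆ (f₁ ∘ ι))(g)`;
* `DoubleCosetC724` (ALGEBRA) `ι(g) ∈ 𝒦 g 𝒦` for every `g` which lies in `U(𝔫)_v` at the places
                            `v ∣ 𝔫`; `𝒦 = kGroup724 𝔫` is the subgroup GENERATED by `U(𝔫)` and the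
                            `K_w` (`w ∣ ∞`).  It is cut into `LocFinC724` (valuation rings),
                            `LocCpxC724` (`U(2)`), `LocRealC724` (`SO(2)`), all three over
                            Mathlib only, and `GlueC724` (adelic elements from local components).

    convComm_of_leaves724 :
      ConvKerC724 K → ConvShapeC724 K → AdjMeasC724 K → ConvSwapC724 K →
      LocFinC724 K → LocCpxC724 → LocRealC724 → GlueC724 K →
        (T1.T1Out K → ∀ 𝔫 ≠ ⊥, ∀ F f₁ f₂ φ, IsSphTestFn 𝔫 f₁ → IsSphTestFn 𝔫 f₂ → IsCuspFn 𝔫 φ →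
          conv F f₁ (conv F f₂ φ) = conv F f₂ (conv F f₁ φ))

which is the last clause of `T2.ConvCusp` (= `ConvComm228` of helper228's cut of T2.02).
-/

set_option autoImplicit false

open IsDedekindDomain NumberField MeasureTheory AutomorphicForm
open Fermat.Agent.LT.H556.A0

noncomputable section

namespace Fermat.Agent.LT.T2.H724

open Fermat.Agent.LT.T2

variable {K : Type} [Field K] [NumberField K]

attribute [local instance] Fermat.Agent.LT.T2.borelG

/-! ## 1. Vocabulary -/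

/-- The anti-involution `ι(g) = adjugate g` (`= det g • g⁻¹`) of `GL₂(𝔸_K)`. -/
def adjG724 (g : G K) : G K :=
  ⟨(g : Matrix (Fin 2) (Fin 2) (Adl K)).adjugate,
    ((g⁻¹ : G K) : Matrix (Fin 2) (Fin 2) (Adl K)).adjugate,
    by rw [← Matrix.adjugate_mul_distrib, ← Units.val_mul, inv_mul_cancel, Units.val_one,
      Matrix.adjugate_one],
    by rw [← Matrix.adjugate_mul_distrib, ← Units.val_mul, mul_inv_cancel, Units.val_one,
      Matrix.adjugate_one]⟩

theorem adjG724_val (g : G K) :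
    ((adjG724 g : G K) : Matrix (Fin 2) (Fin 2) (Adl K))
      = (g : Matrix (Fin 2) (Fin 2) (Adl K)).adjugate := rfl

/-- `ι` is an anti-homomorphism. -/
theorem adjG724_mul (g h : G K) : adjG724 (g * h) = adjG724 h * adjG724 g := by
  apply Units.ext
  rw [Units.val_mul, adjG724_val, adjG724_val, adjG724_val, Units.val_mul,
    Matrix.adjugate_mul_distrib]

/-- `ι` is an involution (`2 × 2` matrices). -/
theorem adjG724_adjG724 (g : G K) : adjG724 (adjG724 g) = g := by
  apply Units.ext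
  rw [adjG724_val, adjG724_val, Matrix.adjugate_adjugate _ (by simp)]
  simp

theorem adjG724_one : adjG724 (1 : G K) = 1 := by
  apply Units.ext
  rw [adjG724_val, Units.val_one, Matrix.adjugate_one]

theorem adjG724_inv (g : G K) : adjG724 g⁻¹ = (adjG724 g)⁻¹ := by
  rw [eq_inv_iff_mul_eq_one, ← adjG724_mul, mul_inv_cancel, adjG724_one]

/-- `g` lies in `U(𝔫)_v` at every place `v ∣ 𝔫` (the support condition of `T2.IsSphTestFn`). -/
def IsBadUnit724 (𝔫 : Ideal (𝓞 K)) (g : G K) : Prop :=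
  ∀ v : HeightOneSpectrum (𝓞 K), v.asIdeal ∣ 𝔫 →
    ∀ i j : Fin 2, (finComp v g - 1) i j ∈ idealClosure 𝔫 v ∧
      (finComp v g⁻¹ - 1) i j ∈ idealClosure 𝔫 v

/-- The SHAPE of a spherical test function: bi-invariance under `U(𝔫)` and the compact groups at
the infinite places, support in `U(𝔫)_v` at the places `v ∣ 𝔫`.  No regularity. -/
structure IsSphShape724 (𝔫 : Ideal (𝓞 K)) (f : G K → ℂ) : Prop where
  level_right : ∀ u : G K, InLevelGroup 𝔫 u → ∀ g : G K, f (g * u) = f g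
  level_left : ∀ u : G K, InLevelGroup 𝔫 u → ∀ g : G K, f (u * g) = f g
  arch_right : ∀ (w : InfinitePlace K) (k : G K), IsArchCompact w k → ∀ g : G K, f (g * k) = f g
  arch_left : ∀ (w : InfinitePlace K) (k : G K), IsArchCompact w k → ∀ g : G K, f (k * g) = f g
  bad_unit : ∀ g : G K, f g ≠ 0 → IsBadUnit724 𝔫 g

theorem shape_of_sphTest724 {𝔫 : Ideal (𝓞 K)} {f : G K → ℂ} (h : IsSphTestFn 𝔫 f) :
    IsSphShape724 𝔫 f :=
  ⟨h.test.level_right, h.test.level_left, h.test.arch_right, h.test.arch_left, h.bad_unit⟩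

/-- The subgroup `𝒦` of `GL₂(𝔸_K)` generated by `U(𝔫)` and the compact groups `K_w`, `w ∣ ∞`. -/
def kGroup724 (𝔫 : Ideal (𝓞 K)) : Subgroup (G K) :=
  Subgroup.closure ({u | InLevelGroup 𝔫 u} ∪ {k | ∃ w : InfinitePlace K, IsArchCompact w k})

/-- The convolution kernel `(f₁ ⋆ f₂)(g) = ∫ f₁(h) f₂(h⁻¹ g) dμ(h)`. -/
def convKer724 (F : Frame K) (f₁ f₂ : G K → ℂ) (g : G K) : ℂ :=
  ∫ h, f₁ h * f₂ (h⁻¹ * g) ∂F.μ

/-! ## 2. The sub-leaves -/

variable (K)

/-- **T2.02d.1 FUBINI.**  `R(f₁) R(f₂) φ (x) = ∫ φ(x g) (f₁ ⋆ f₂)(g) dg` for continuous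
compactly supported `f₁`, `f₂` and bounded continuous `φ` (left invariance of the Haar measure,
Fubini on `G K × G K`; `G K` is locally compact and second countable by `T1.LocCompC`). -/
def ConvKerC724 : Prop :=
  T1.LocCompC K → ∀ (F : Frame K) (f₁ f₂ φ : G K → ℂ),
    Continuous f₁ → HasCompactSupport f₁ → Continuous f₂ → HasCompactSupport f₂ →
    Continuous φ → (∃ C : ℝ, ∀ g : G K, ‖φ g‖ ≤ C) →
    ∀ x : G K, conv F f₁ (conv F f₂ φ) x = ∫ g, φ (x * g) * convKer724 F f₁ f₂ g ∂F.μ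

/-- **T2.02d.2 SHAPE.**  The convolution kernel of two functions of spherical shape has
spherical shape (left invariance of the Haar measure; `U(𝔫)_v` is a group: `idealClosure 𝔫 v` is
closed under addition and multiplication). -/
def ConvShapeC724 : Prop :=
  T1.LocCompC K → ∀ (𝔫 : Ideal (𝓞 K)) (F : Frame K) (f₁ f₂ : G K → ℂ),
    IsSphShape724 𝔫 f₁ → IsSphShape724 𝔫 f₂ → IsSphShape724 𝔫 (convKer724 F f₁ f₂)

/-- **T2.02d.3 MEASURE.**  Every Haar measure of `GL₂(𝔸_K)` is invariant under `ι`: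
`ι = τ ∘ inv`, `τ(g) = (det g)⁻¹ • g` is a continuous involutive automorphism, so its modulus
`c` satisfies `c² = 1` (Mathlib `mulEquivHaarChar_trans`); `inv` preserves the Haar measures of
a unimodular group (`T1.UnimodC`). -/
def AdjMeasC724 : Prop :=
  T1.LocCompC K → T1.UnimodC K → ∀ μ : Measure (G K), μ.IsHaarMeasure →
    MeasurePreserving (adjG724 (K := K)) μ μ

/-- **T2.02d.4 SWAP.**  If the Haar measure is invariant under `ι` and under `inv`, then
`(f₁ ⋆ f₂)(ι g) = ((f₂ ∘ ι) ⋆ (f₁ ∘ ι))(g)` for ALL functions `f₁`, `f₂` (two changes of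
variables: `h ↦ ι h` and `h ↦ g h⁻¹`; no integrability is needed, `ι` is a homeomorphism). -/
def ConvSwapC724 : Prop :=
  T1.LocCompC K → T1.UnimodC K → ∀ F : Frame K, MeasurePreserving (adjG724 (K := K)) F.μ F.μ →
    ∀ (f₁ f₂ : G K → ℂ) (g : G K),
      convKer724 F f₁ f₂ (adjG724 g)
        = convKer724 F (fun h => f₂ (adjG724 h)) (fun h => f₁ (adjG724 h)) g

/-- **T2.02d.5 DOUBLE COSETS.**  `ι(g) ∈ 𝒦 g 𝒦` for every `g` which lies in `U(𝔫)_v` at the
places `v ∣ 𝔫`.  (`adjugate M = J Mᵀ J⁻¹`, `J = [[0,1],[-1,0]]`; at `v ∤ 𝔫`: `M = L D U` after a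
permutation, `L`, `U` in `GL₂(𝒪_v)`; at a complex place: singular value decomposition; at a real
place: `GL₂(ℝ) = SO(2) A SO(2)`, `A` the diagonal matrices; at `v ∣ 𝔫`: `ι(g_v) g_v⁻¹ ∈ U(𝔫)_v`;
then glue: almost all `g_v` are in `GL₂(𝒪_v)`, where `k₁ = ι(g_v) g_v⁻¹`, `k₂ = 1`.) -/
def DoubleCosetC724 : Prop :=
  ∀ 𝔫 : Ideal (𝓞 K), 𝔫 ≠ ⊥ → ∀ g : G K, IsBadUnit724 𝔫 g →
    ∃ a ∈ kGroup724 𝔫, ∃ b ∈ kGroup724 𝔫, adjG724 g = a * g * b

/-- **T2.02d.5a LOCAL, finite places** (valued fields only): for `M ∈ GL₂(K_v)` there are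
`A, B ∈ GL₂(𝒪_v)` with `adjugate M = A M B`.  (`adjugate M = J Mᵀ J⁻¹`; after a permutation the
entry of largest valuation is `M 0 0`, then `M = L D U` with `L`, `U` unipotent integral and
`Mᵀ = (Uᵀ L⁻¹) M (U⁻¹ Lᵀ)`.) -/
def LocFinC724 : Prop :=
  ∀ (v : HeightOneSpectrum (𝓞 K)) (M : Matrix (Fin 2) (Fin 2) (v.adicCompletion K)),
    M.det ≠ 0 →
    ∃ A A' B B' : Matrix (Fin 2) (Fin 2) (v.adicCompletion K),
      A * A' = 1 ∧ B * B' = 1 ∧
      (∀ i j, Valued.v (A i j) ≤ 1) ∧ (∀ i j, Valued.v (A' i j) ≤ 1) ∧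
      (∀ i j, Valued.v (B i j) ≤ 1) ∧ (∀ i j, Valued.v (B' i j) ≤ 1) ∧
      M.adjugate = A * M * B

/-- **T2.02d.5b LOCAL, complex places** (Mathlib only): for `M ∈ GL₂(ℂ)` there are
`A, B ∈ U(2)` with `adjugate M = A M B` (singular value decomposition). -/
def LocCpxC724 : Prop :=
  ∀ M : Matrix (Fin 2) (Fin 2) ℂ, M.det ≠ 0 →
    ∃ A B : Matrix (Fin 2) (Fin 2) ℂ,
      A * A.conjTranspose = 1 ∧ B * B.conjTranspose = 1 ∧ M.adjugate = A * M * B

/-- **T2.02d.5c LOCAL, real places** (Mathlib only): for `M ∈ GL₂(ℝ)` there are `A, B ∈ SO(2)`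
with `adjugate M = A M B` (`GL₂(ℝ) = SO(2) A SO(2)`, `A` = ALL invertible diagonal matrices;
`adjugate (diag (a, b)) = w diag (a, b) w⁻¹`, `w` the rotation by `π/2`). -/
def LocRealC724 : Prop :=
  ∀ M : Matrix (Fin 2) (Fin 2) ℝ, M.det ≠ 0 →
    ∃ A B : Matrix (Fin 2) (Fin 2) ℝ,
      A * A.transpose = 1 ∧ A.det = 1 ∧ B * B.transpose = 1 ∧ B.det = 1 ∧
        M.adjugate = A * M * B

/-- **T2.02d.5d GLUE**: the adelic double coset statement from the local ones (adelic elements
with prescribed local components; `idealClosure 𝔫 v = 𝒪_v` at `v ∤ 𝔫`; at `v ∣ 𝔫` the element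
`ι(g_v) g_v⁻¹` lies in `U(𝔫)_v`; the completion at a real place is `ℝ`, at a complex place `ℂ`;
at almost all `v` the components of `g` are in `GL₂(𝒪_v)`, take `a_v = ι(g_v) g_v⁻¹`, `b_v = 1`). -/
def GlueC724 : Prop :=
  LocFinC724 K → LocCpxC724 → LocRealC724 → DoubleCosetC724 K

variable {K}

/-! ## 3. Consequences -/

/-- A function of spherical shape is bi-invariant under the generated group `𝒦`. -/
theorem kGroup_inv724 {𝔫 : Ideal (𝓞 K)} {f : G K → ℂ} (hf : IsSphShape724 𝔫 f)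
    {a b : G K} (ha : a ∈ kGroup724 𝔫) (hb : b ∈ kGroup724 𝔫) (g : G K) :
    f (a * g * b) = f g := by
  have hR : ∀ b ∈ kGroup724 𝔫, ∀ g : G K, f (g * b) = f g := by
    intro b hb
    refine Subgroup.closure_induction (p := fun b _ => ∀ g : G K, f (g * b) = f g)
      ?_ ?_ ?_ ?_ hb
    · rintro u (hu | ⟨w, hw⟩) g
      · exact hf.level_right u hu g
      · exact hf.arch_right w u hw g
    · intro g; rw [mul_one]
    · intro x y _ _ hx hy g
      rw [← mul_assoc, hy, hx]
    · intro x _ hx g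
      have := hx (g * x⁻¹)
      rw [inv_mul_cancel_right] at this
      exact this.symm
  have hL : ∀ a ∈ kGroup724 𝔫, ∀ g : G K, f (a * g) = f g := by
    intro a ha
    refine Subgroup.closure_induction (p := fun a _ => ∀ g : G K, f (a * g) = f g)
      ?_ ?_ ?_ ?_ ha
    · rintro u (hu | ⟨w, hw⟩) g
      · exact hf.level_left u hu g
      · exact hf.arch_left w u hw g
    · intro g; rw [one_mul]
    · intro x y _ _ hx hy g
      rw [mul_assoc, hx, hy]
    · intro x _ hx g
      have := hx (x⁻¹ * g)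
      rw [mul_inv_cancel_left] at this
      exact this.symm
  rw [hR b hb, hL a ha]

/-- `ι` preserves the support condition at the places dividing the level
(from the double coset statement: `𝒦 ⊆ {bad units}`; here only the formal part). -/
theorem sphInv_of_doubleCoset724 (hDC : DoubleCosetC724 K) {𝔫 : Ideal (𝓞 K)} (h𝔫 : 𝔫 ≠ ⊥)
    {f : G K → ℂ} (hf : IsSphShape724 𝔫 f) (g : G K) : f (adjG724 g) = f g := by
  by_cases hg : IsBadUnit724 𝔫 g
  · obtain ⟨a, ha, b, hb, e⟩ := hDC 𝔫 h𝔫 g hg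
    rw [e, kGroup_inv724 hf ha hb]
  · by_cases hg' : IsBadUnit724 𝔫 (adjG724 g)
    · obtain ⟨a, ha, b, hb, e⟩ := hDC 𝔫 h𝔫 (adjG724 g) hg'
      rw [adjG724_adjG724] at e
      have h1 : f g = f (adjG724 g) := by
        conv_lhs => rw [e]
        exact kGroup_inv724 hf ha hb _
      exact h1.symm
    · have h1 : f g = 0 := by
        by_contra h
        exact hg (hf.bad_unit g h)
      have h2 : f (adjG724 g) = 0 := by
        by_contra h
        exact hg' (hf.bad_unit _ h)
      rw [h1, h2]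

/-- **TOP of T2.02d**: convolutions by spherical test functions commute. -/
theorem convComm_of_doubleCoset724 (hKer : ConvKerC724 K) (hShape : ConvShapeC724 K)
    (hMeas : AdjMeasC724 K) (hSwap : ConvSwapC724 K) (hDC : DoubleCosetC724 K)
    (hT1 : T1.T1Out K) (𝔫 : Ideal (𝓞 K)) (h𝔫 : 𝔫 ≠ ⊥) (F : Frame K) (f₁ f₂ φ : G K → ℂ)
    (h₁ : IsSphTestFn 𝔫 f₁) (h₂ : IsSphTestFn 𝔫 f₂) (hφ : IsCuspFn 𝔫 φ) :
    conv F f₁ (conv F f₂ φ) = conv F f₂ (conv F f₁ φ) := by
  funext x
  have hLC := hT1.locComp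
  have hμ : MeasurePreserving (adjG724 (K := K)) F.μ F.μ := hMeas hLC hT1.unimod F.μ F.haar
  rw [hKer hLC F f₁ f₂ φ h₁.test.cont h₁.test.cpt h₂.test.cont h₂.test.cpt hφ.cont hφ.bdd x,
    hKer hLC F f₂ f₁ φ h₂.test.cont h₂.test.cpt h₁.test.cont h₁.test.cpt hφ.cont hφ.bdd x]
  have hker : ∀ g : G K, convKer724 F f₁ f₂ g = convKer724 F f₂ f₁ g := by
    intro g
    have s12 : IsSphShape724 𝔫 (convKer724 F f₁ f₂) :=
      hShape hLC 𝔫 F f₁ f₂ (shape_of_sphTest724 h₁) (shape_of_sphTest724 h₂)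
    have e1 : (fun h => f₂ (adjG724 h)) = f₂ :=
      funext fun h => sphInv_of_doubleCoset724 hDC h𝔫 (shape_of_sphTest724 h₂) h
    have e2 : (fun h => f₁ (adjG724 h)) = f₁ :=
      funext fun h => sphInv_of_doubleCoset724 hDC h𝔫 (shape_of_sphTest724 h₁) h
    rw [← sphInv_of_doubleCoset724 hDC h𝔫 s12 g, hSwap hLC hT1.unimod F hμ f₁ f₂ g, e1, e2]
  simp_rw [hker]

/-- **TOP of T2.02d, from the eight sub-leaves.** -/
theorem convComm_of_leaves724 (hKer : ConvKerC724 K) (hShape : ConvShapeC724 K)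
    (hMeas : AdjMeasC724 K) (hSwap : ConvSwapC724 K)
    (hFin : LocFinC724 K) (hCpx : LocCpxC724) (hReal : LocRealC724) (hGlue : GlueC724 K)
    (hT1 : T1.T1Out K) (𝔫 : Ideal (𝓞 K)) (h𝔫 : 𝔫 ≠ ⊥) (F : Frame K) (f₁ f₂ φ : G K → ℂ)
    (h₁ : IsSphTestFn 𝔫 f₁) (h₂ : IsSphTestFn 𝔫 f₂) (hφ : IsCuspFn 𝔫 φ) :
    conv F f₁ (conv F f₂ φ) = conv F f₂ (conv F f₁ φ) :=
  convComm_of_doubleCoset724 hKer hShape hMeas hSwap (hGlue hFin hCpx hReal) hT1 𝔫 h𝔫 F f₁ f₂ φ
    h₁ h₂ hφ

end Fermat.Agent.LT.T2.H724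

end
end
-- ===== PACK-END LT/T2/H724/CommSpec.lean

-- ===== PACK-BEGIN LT/T6/H305/Mat.lean
section


/-!
# Row LT, tower T6, leaf T6.10 `SatakeEigenC` (helper305) -- part 3: matrices and Cartan invariant

OFF-MAIN.  The matrices `um i j r = [[ϖ^i, r], [0, ϖ^j]]`, the scalars `sc b = ϖ^b`, the
unipotents `nm c`; the Cartan invariant of `um` and its behaviour under `GL₂(𝒪)` and scalars.
-/

set_option autoImplicit false
set_option linter.unusedSectionVars false

open scoped Matrix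
open scoped Classical

noncomputable section

namespace Fermat.Agent.LT.T6.H305

open Fermat.Agent.LT.T6

variable {k : Type} [Field k] [Valued k Γ₀]

/-- `[[1, c], [0, 1]]`. -/
def nm (c : k) : GL (Fin 2) k := mk2 1 c 0 1 (by simp)

theorem inK_nm {c : k} (hc : Valued.v c ≤ 1) : InK (nm c) := by
  rw [inK_iff]
  refine ⟨fun i j => ?_, ?_⟩
  · fin_cases i <;> fin_cases j <;> simp [nm, hc]
  · simp [nm, Matrix.det_fin_two_of]

theorem le_entryMax (g : GL (Fin 2) k) (i j : Fin 2) :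
    Valued.v ((g : Matrix (Fin 2) (Fin 2) k) i j) ≤ entryMax g :=
  Finset.le_sup' (fun p : Fin 2 × Fin 2 => Valued.v ((g : Matrix (Fin 2) (Fin 2) k) p.1 p.2))
    (Finset.mem_univ (i, j))

theorem entryMax_le_iff (g : GL (Fin 2) k) (c : Γ₀) :
    entryMax g ≤ c ↔ ∀ i j, Valued.v ((g : Matrix (Fin 2) (Fin 2) k) i j) ≤ c := by
  unfold entryMax
  rw [Finset.sup'_le_iff]
  constructor
  · intro h i j; exact h (i, j) (Finset.mem_univ _)
  · intro h p _; exact h p.1 p.2

theorem exists_entryMax (g : GL (Fin 2) k) :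
    ∃ i j, entryMax g = Valued.v ((g : Matrix (Fin 2) (Fin 2) k) i j) := by
  obtain ⟨p, _, hp⟩ := Finset.exists_mem_eq_sup' Finset.univ_nonempty
    (fun p : Fin 2 × Fin 2 => Valued.v ((g : Matrix (Fin 2) (Fin 2) k) p.1 p.2))
  exact ⟨p.1, p.2, hp⟩

theorem entryMax_ne_zero (g : GL (Fin 2) k) : entryMax g ≠ 0 := by
  intro h
  have h0 : ∀ i j, (g : Matrix (Fin 2) (Fin 2) k) i j = 0 := by
    intro i j
    have := le_entryMax g i j
    rw [h] at this
    simpa using this
  apply det_ne_zero g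
  rw [Matrix.det_fin_two]
  simp [h0]

theorem val_det_ne_zero (g : GL (Fin 2) k) :
    Valued.v (g : Matrix (Fin 2) (Fin 2) k).det ≠ 0 := by
  simpa using det_ne_zero g

theorem entryMax_mul_le (g κ : GL (Fin 2) k) (hκ : InK κ) : entryMax (g * κ) ≤ entryMax g := by
  rw [entryMax_le_iff]
  intro i j
  rw [Units.val_mul, Matrix.mul_apply]
  refine Valuation.map_sum_le _ (fun l _ => ?_)
  rw [map_mul]
  calc Valued.v ((g : Matrix (Fin 2) (Fin 2) k) i l) * Valued.v ((κ : Matrix (Fin 2) (Fin 2) k) l j)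
      ≤ entryMax g * 1 := mul_le_mul' (le_entryMax g i l) (hκ.1 l j)
    _ = entryMax g := mul_one _

theorem entryMax_mul (g κ : GL (Fin 2) k) (hκ : InK κ) : entryMax (g * κ) = entryMax g := by
  refine le_antisymm (entryMax_mul_le g κ hκ) ?_
  have := entryMax_mul_le (g * κ) κ⁻¹ (inK_inv hκ)
  simpa using this

theorem val_det_mul (g κ : GL (Fin 2) k) (hκ : InK κ) :
    Valued.v ((g * κ : GL (Fin 2) k) : Matrix (Fin 2) (Fin 2) k).det
      = Valued.v (g : Matrix (Fin 2) (Fin 2) k).det := by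
  rw [Units.val_mul, Matrix.det_mul, map_mul, ((inK_iff κ).1 hκ).2, mul_one]

theorem cartan_eq_nat_iff (g : GL (Fin 2) k) (n : ℕ) :
    cartan g = ((n : ℤ), 0) ↔
      entryMax g = 1 ∧ Valued.v (g : Matrix (Fin 2) (Fin 2) k).det = WithZero.exp (-(n : ℤ)) := by
  unfold cartan
  rw [Prod.mk.injEq]
  constructor
  · rintro ⟨h1, h2⟩
    have hm : WithZero.log (entryMax g) = 0 := by omega
    have hm' : entryMax g = 1 := by
      rw [← WithZero.exp_log (entryMax_ne_zero g), hm]; rfl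
    refine ⟨hm', ?_⟩
    rw [← WithZero.exp_log (val_det_ne_zero g)]
    congr 1
    omega
  · rintro ⟨h1, h2⟩
    rw [h1, h2]
    simp

/-- The matrix `um i j r` is primitive (some entry is a unit). -/
def Prim (i j : ℕ) (r : k) : Prop := i = 0 ∨ j = 0 ∨ Valued.v r = 1

namespace ResData

variable (D : ResData k)

/-- `[[ϖ^i, r], [0, ϖ^j]]`. -/
def um (i j : ℕ) (r : k) : GL (Fin 2) k :=
  mk2 (D.ϖ ^ i) r 0 (D.ϖ ^ j) (by simp [D.ϖ_ne_zero])

/-- The scalar matrix `ϖ^b`. -/
def sc (b : ℤ) : GL (Fin 2) k :=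
  mk2 (D.ϖ ^ b) 0 0 (D.ϖ ^ b) (by simp [D.ϖ_ne_zero, zpow_ne_zero])

@[simp] theorem um_val (i j : ℕ) (r : k) :
    ((D.um i j r : GL (Fin 2) k) : Matrix (Fin 2) (Fin 2) k) = !![D.ϖ ^ i, r; 0, D.ϖ ^ j] := rfl

@[simp] theorem sc_val (b : ℤ) :
    ((D.sc b : GL (Fin 2) k) : Matrix (Fin 2) (Fin 2) k) = !![D.ϖ ^ b, 0; 0, D.ϖ ^ b] := rfl

theorem um_zero : D.um 0 0 0 = 1 := by
  apply Units.ext
  simp [Matrix.one_fin_two]

theorem sc_zero : D.sc 0 = 1 := by
  apply Units.ext
  simp [Matrix.one_fin_two]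

theorem sc_add (b c : ℤ) : D.sc (b + c) = D.sc b * D.sc c := by
  apply Units.ext
  simp [Matrix.mul_fin_two, zpow_add₀ D.ϖ_ne_zero]

theorem sc_comm (b : ℤ) (g : GL (Fin 2) k) : D.sc b * g = g * D.sc b := by
  apply Units.ext
  rw [Units.val_mul, Units.val_mul]
  ext a b
  fin_cases a <;> fin_cases b <;> simp [Matrix.mul_apply, Fin.sum_univ_two, mul_comm]

theorem sc_inv (b : ℤ) : (D.sc b)⁻¹ = D.sc (-b) := by
  rw [inv_eq_iff_mul_eq_one, ← sc_add]
  simp [sc_zero]

theorem um_mul_um_one (i j : ℕ) (r d : k) :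
    D.um i j r * D.um 1 0 d = D.um (i + 1) j (r + D.ϖ ^ i * d) := by
  apply Units.ext
  simp [Matrix.mul_fin_two, pow_succ, add_comm]

theorem um_zero_mul (j : ℕ) : D.um 0 j 0 * D.um 0 1 0 = D.um 0 (j + 1) 0 := by
  apply Units.ext
  simp [Matrix.mul_fin_two, pow_succ]

theorem um_succ_mul (i j : ℕ) (r d : k) :
    D.um (i + 1) j (r + D.ϖ ^ i * d) * D.um 0 1 0 = D.um i j r * D.sc 1 * nm d := by
  apply Units.ext
  simp only [Units.val_mul, um_val, sc_val, nm, mk2_val, Matrix.mul_fin_two]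
  ext a b
  fin_cases a <;> fin_cases b <;> simp [pow_succ] <;> ring

theorem um_succ_succ (i j : ℕ) (r : k) :
    D.um (i + 1) (j + 1) (D.ϖ * r) = D.um i j r * D.sc 1 := by
  apply Units.ext
  simp only [Units.val_mul, um_val, sc_val, Matrix.mul_fin_two]
  ext a b
  fin_cases a <;> fin_cases b <;> simp [pow_succ] <;> ring

theorem val_det_um (i j : ℕ) (r : k) :
    Valued.v (D.um i j r : Matrix (Fin 2) (Fin 2) k).det = WithZero.exp (-((i + j : ℕ) : ℤ)) := by
  rw [um_val, Matrix.det_fin_two_of, mul_zero, sub_zero, ← pow_add, D.val_pow]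

theorem entryMax_um_le (i j : ℕ) (r : k) (hr : Valued.v r ≤ 1) : entryMax (D.um i j r) ≤ 1 := by
  rw [entryMax_le_iff]
  intro a b
  fin_cases a <;> fin_cases b
  · exact D.val_pow_le_one i
  · exact hr
  · show Valued.v (0 : k) ≤ 1
    simp
  · exact D.val_pow_le_one j

theorem entryMax_um_eq_one_iff (i j : ℕ) (r : k) (hr : Valued.v r ≤ 1) :
    entryMax (D.um i j r) = 1 ↔ Prim i j r := by
  constructor
  · intro h
    obtain ⟨a, b, hab⟩ := exists_entryMax (D.um i j r)
    rw [h] at hab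
    have h1 : (1 : Γ₀) = WithZero.exp (0 : ℤ) := rfl
    fin_cases a <;> fin_cases b
    · left
      change (1 : Γ₀) = Valued.v (D.ϖ ^ i) at hab
      rw [D.val_pow, h1, WithZero.exp_inj] at hab
      omega
    · right; right
      exact hab.symm
    · exfalso
      change (1 : Γ₀) = Valued.v (0 : k) at hab
      simp at hab
    · right; left
      change (1 : Γ₀) = Valued.v (D.ϖ ^ j) at hab
      rw [D.val_pow, h1, WithZero.exp_inj] at hab
      omega
  · intro h
    refine le_antisymm (D.entryMax_um_le i j r hr) ?_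
    rcases h with h | h | h
    · subst h
      have := le_entryMax (D.um 0 j r) 0 0
      simpa using this
    · subst h
      have := le_entryMax (D.um i 0 r) 1 1
      simpa using this
    · have := le_entryMax (D.um i j r) 0 1
      simpa [h] using this

theorem cartan_um (i j : ℕ) (r : k) (hr : Valued.v r ≤ 1) (hp : Prim i j r) :
    cartan (D.um i j r) = (((i + j : ℕ) : ℤ), 0) := by
  rw [cartan_eq_nat_iff]
  exact ⟨(D.entryMax_um_eq_one_iff i j r hr).2 hp, D.val_det_um i j r⟩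

theorem entryMax_sc_mul (b : ℤ) (g : GL (Fin 2) k) :
    entryMax (D.sc b * g) = WithZero.exp (-b) * entryMax g := by
  have hent : ∀ i j, ((D.sc b * g : GL (Fin 2) k) : Matrix (Fin 2) (Fin 2) k) i j
      = D.ϖ ^ b * (g : Matrix (Fin 2) (Fin 2) k) i j := by
    intro i j
    rw [Units.val_mul, sc_val, Matrix.mul_apply, Fin.sum_univ_two]
    fin_cases i <;> simp
  apply le_antisymm
  · rw [entryMax_le_iff]
    intro i j
    rw [hent, map_mul, D.val_zpow]
    exact mul_le_mul_right (le_entryMax g i j) _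
  · obtain ⟨i, j, hij⟩ := exists_entryMax g
    rw [hij, ← D.val_zpow, ← map_mul, ← hent]
    exact le_entryMax _ i j

theorem cartan_sc_mul (b : ℤ) (g : GL (Fin 2) k) :
    cartan (D.sc b * g) = ((cartan g).1 + b, (cartan g).2 + b) := by
  unfold cartan
  have hdet : Valued.v ((D.sc b * g : GL (Fin 2) k) : Matrix (Fin 2) (Fin 2) k).det
      = WithZero.exp (-(2 * b)) * Valued.v (g : Matrix (Fin 2) (Fin 2) k).det := by
    rw [Units.val_mul, Matrix.det_mul, map_mul, sc_val, Matrix.det_fin_two_of, mul_zero, sub_zero,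
      ← zpow_add₀ D.ϖ_ne_zero, D.val_zpow]
    congr 2
    ring
  rw [hdet, D.entryMax_sc_mul, WithZero.log_mul WithZero.exp_ne_zero (entryMax_ne_zero g),
    WithZero.log_mul WithZero.exp_ne_zero (val_det_ne_zero g), WithZero.log_exp, WithZero.log_exp]
  simp only [Prod.mk.injEq]
  constructor <;> ring

end ResData

end Fermat.Agent.LT.T6.H305

end

end
-- ===== PACK-END LT/T6/H305/Mat.lean

-- ===== PACK-BEGIN LT/T5/H873/HS0Spec.lean
section



/-!
# Row LT, tower T5, leaf T5.02 `LeafHS0`: CUT (helper873, sub-architect of the leaf)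

OFF-MAIN.  Vocabulary: `Fermat/Agent/LT/T5/Spec.lean` v3 (helper32, sha256 d6f8b00ae5f14ad1),
byte-identical copy.  Definitions of four sub-leaf Props and the PROVED top
`leafHS0_of_cut873 : SupBoundC 𝔫 τ → KerRepC 𝔫 τ → KerAutC 𝔫 τ → KerMeasC 𝔫 τ → LeafHS0 𝔫 τ`.

## The route (Gelfand--Piatetski-Shapiro: sup bound ⟹ Hilbert--Schmidt; Godement, Boulder, §3)

Fix `x`.  The function `e_x(y) = conj K_φ(x, y)` is a bounded continuous automorphic function of
type `τ` (`KerAutC`), and `R(φ) e_x (x) = ∫_F K_φ(x,y) e_x(y) dy = ∫_F |K_φ(x,y)|² dy =: I_x`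
(`KerRepC`).  The sup bound `|R(φ) e (x)| ≤ C ‖e‖_{L²(F)}` (`SupBoundC`, = `T2.GPSKill` in the
frame of T5) gives `I_x ≤ C √I_x`, hence `I_x ≤ C²` for EVERY `x`, and
`∬_{F×F} |K_φ|² ≤ C² μ(F) < ∞` by Tonelli (`KerMeasC` for the joint measurability).

Only `IsEK μ φ` is used (not the adjoint); the analysis is entirely in `SupBoundC`.

## Sub-leaves

* T5.02a `SupBoundC`  — THE ESTIMATE (= `T2.GPSKill` for the class of T5: functions invariant
  under the discrete ray only, `K_∞`-type `τ`).  Equivalent to `sup_x ∫_F |K_φ(x,y)|² dy < ∞`.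
* T5.02b `KerRepC`    — the operator is the kernel operator (unfolding over `GL₂(K)` and `⟨r⟩`).
* T5.02c `KerAutC`    — for fixed `x` the kernel is continuous, bounded and automorphic in `y`
  (local finiteness: `GL₂(K)⟨r⟩` is discrete and closed in `GL₂(𝔸_K)`).
* T5.02d `KerMeasC`   — joint measurability of the kernel on `F × F`.
-/

set_option autoImplicit false

open IsDedekindDomain NumberField MeasureTheory
open scoped MatrixGroups ComplexConjugate ContDiff ENNReal

noncomputable section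

namespace Fermat.Agent.LT.T5.H873

open Fermat.Agent.LT.H556.A0 Fermat.Agent.LT.T5

attribute [local instance] Fermat.Agent.LT.T5.instMeasurableSpaceG

variable {K : Type} [Field K] [NumberField K]

/-- **T5.02a (THE ESTIMATE, Eisenstein-killing form; = `T2.GPSKill` in the frame of T5).**
For an Eisenstein-killing test function `φ` (smooth at infinity) there is a constant `C` with
`|R(φ) e (x)| ≤ C ‖e‖_{L²(F)}` for every `x` and every bounded continuous automorphic function
`e` of level `𝔫` and type `τ` (invariant under the ray generator `r`).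
Proof ([LV] §3, [Go] §3, Bump §3.3): `R(φ)e(x) = ∫_{N(K)\G} ∑_{ξ ∈ K} φ(x⁻¹ n(ξ) y) e(y) dy`,
Poisson summation over `K ⊂ 𝔸_K`; the term `ξ = 0` is `R(φ)` of the constant term of `e`, which
is continuous and left invariant under `N(𝔸_K) T(K)`, hence killed (`IsEK`); the terms `ξ ≠ 0`
are rapidly decreasing in the height of `x` (smoothness at infinity, local constancy at the
finite places); on the complement of a Siegel set the kernel is bounded
(`T1.ReductionC`, `T1.SiegelCompactC`). -/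
def SupBoundC (𝔫 : Ideal (𝓞 K)) (τ : G K → ℂ) : Prop :=
  ∀ (μ : Measure (G K)) (F : Set (G K)) (r : G K), IsFrame μ F → IsRayGen r →
    ∀ φ : G K → ℂ, IsTestFn 𝔫 τ φ → IsEK μ φ →
      ∃ C : ℝ, ∀ e : G K → ℂ, Continuous e → (∃ B : ℝ, ∀ g : G K, ‖e g‖ ≤ B) →
        IsAutomorphicFn 𝔫 τ r e →
        ∀ x : G K, ‖Rconv μ φ e x‖ ≤ C * Real.sqrt (∫ y in F, ‖e y‖ ^ 2 ∂μ)

/-- **T5.02b (the operator is the kernel operator).**  For a test function `φ` and a bounded
continuous automorphic function `e`: `R(φ) e (x) = ∫_F K_φ(x, y) e(y) dy`.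
Proof: `∫_G φ(y) e(xy) dy = ∫_G φ(x⁻¹ y) e(y) dy` (left invariance of `μ`),
`G = ⨆_{γ, m} γ F rᵐ` (strictness of `F` in the slab, `‖det r‖_𝔸 = 2`, product formula),
`e(γ y rᵐ) = e(y)`, and the sum is exchanged with the integral because `φ` is integrable. -/
def KerRepC (𝔫 : Ideal (𝓞 K)) (τ : G K → ℂ) : Prop :=
  ∀ (μ : Measure (G K)) (F : Set (G K)) (r : G K), IsFrame μ F → IsRayGen r →
    ∀ φ : G K → ℂ, IsTestFn 𝔫 τ φ →
      ∀ e : G K → ℂ, Continuous e → (∃ B : ℝ, ∀ g : G K, ‖e g‖ ≤ B) →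
        IsAutomorphicFn 𝔫 τ r e →
        ∀ x : G K, Rconv μ φ e x = ∫ y in F, ker0 r φ x y * e y ∂μ

/-- **T5.02c (the kernel in the second variable).**  For a test function `φ` and every `x` the
function `y ↦ K_φ(x, y)` is continuous and bounded, and its complex conjugate is an automorphic
function of level `𝔫` and type `τ`.
Proof: the family `(γ, m) ↦ φ(x⁻¹ γ y rᵐ)` is locally finite in `y` and has at most
`#(Γ ∩ x C C⁻¹ x⁻¹)` non-zero terms for every `y` (`Γ = GL₂(K)⟨r⟩` is discrete and closed,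
`C = supp φ` compact); the invariances are re-indexings of the sum, `r` is central, and
`conj (τ k)⁻¹ = τ k` because `|τ k| = 1`. -/
def KerAutC (𝔫 : Ideal (𝓞 K)) (τ : G K → ℂ) : Prop :=
  ∀ (μ : Measure (G K)) (F : Set (G K)) (r : G K), IsFrame μ F → IsRayGen r →
    ∀ φ : G K → ℂ, IsTestFn 𝔫 τ φ →
      ∀ x : G K, Continuous (fun y => ker0 r φ x y) ∧
        (∃ B : ℝ, ∀ y : G K, ‖ker0 r φ x y‖ ≤ B) ∧
        IsAutomorphicFn 𝔫 τ r (fun y => conj (ker0 r φ x y))

/-- **T5.02d (joint measurability).**  The kernel of a test function is almost everywhere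
strongly measurable on `F × F` (it is continuous on `G × G`, and `G` is second countable). -/
def KerMeasC (𝔫 : Ideal (𝓞 K)) (τ : G K → ℂ) : Prop :=
  ∀ (μ : Measure (G K)) (F : Set (G K)) (r : G K), IsFrame μ F → IsRayGen r →
    ∀ φ : G K → ℂ, IsTestFn 𝔫 τ φ →
      AEStronglyMeasurable (fun p : G K × G K => ker0 r φ p.1 p.2)
        ((μ.restrict F).prod (μ.restrict F))

/-- The Borel structure of `G K` for the local instance of T5. -/
theorem borelSpace_G873 : BorelSpace (G K) := ⟨rfl⟩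

/-- `I ≤ C √I` and `0 ≤ I` imply `I ≤ C²`. -/
theorem le_sq_of_le_mul_sqrt873 {I C : ℝ} (hI : 0 ≤ I) (h : I ≤ C * Real.sqrt I) :
    I ≤ C ^ 2 := by
  rcases eq_or_lt_of_le (Real.sqrt_nonneg I) with h0 | hpos
  · have : I = 0 := (Real.sqrt_eq_zero hI).mp h0.symm
    rw [this]
    positivity
  · have h1 : Real.sqrt I * Real.sqrt I = I := Real.mul_self_sqrt hI
    have h2 : Real.sqrt I ≤ C := by
      by_contra hc
      rw [not_le] at hc
      have : C * Real.sqrt I < Real.sqrt I * Real.sqrt I :=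
        mul_lt_mul_of_pos_right hc hpos
      linarith
    calc I = Real.sqrt I * Real.sqrt I := h1.symm
      _ ≤ C * C := mul_le_mul h2 h2 (Real.sqrt_nonneg I) (le_trans (Real.sqrt_nonneg I) h2)
      _ = C ^ 2 := by ring

/-- **The pointwise Hilbert--Schmidt bound**: `∫_F |K_φ(x,y)|² dy ≤ C²` for every `x`. -/
theorem section_bound873 (𝔫 : Ideal (𝓞 K)) (τ : G K → ℂ)
    (hB : KerRepC 𝔫 τ) (hC : KerAutC 𝔫 τ)
    (μ : Measure (G K)) (F : Set (G K)) (r : G K) (hF : IsFrame μ F) (hr : IsRayGen r)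
    (φ : G K → ℂ) (ht : IsTestFn 𝔫 τ φ) (C : ℝ)
    (hCb : ∀ e : G K → ℂ, Continuous e → (∃ B : ℝ, ∀ g : G K, ‖e g‖ ≤ B) →
        IsAutomorphicFn 𝔫 τ r e →
        ∀ x : G K, ‖Rconv μ φ e x‖ ≤ C * Real.sqrt (∫ y in F, ‖e y‖ ^ 2 ∂μ))
    (x : G K) : ∫ y in F, ‖ker0 r φ x y‖ ^ 2 ∂μ ≤ C ^ 2 := by
  obtain ⟨hc, ⟨B, hBd⟩, haut⟩ := hC μ F r hF hr φ ht x
  have he_c : Continuous (fun y => conj (ker0 r φ x y)) := Complex.continuous_conj.comp hc
  have he_b : ∃ B : ℝ, ∀ g : G K, ‖conj (ker0 r φ x g)‖ ≤ B :=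
    ⟨B, fun g => by rw [RCLike.norm_conj]; exact hBd g⟩
  have h1 := hCb _ he_c he_b haut x
  have h2 := hB μ F r hF hr φ ht _ he_c he_b haut x
  have h3 : ∫ y in F, ker0 r φ x y * conj (ker0 r φ x y) ∂μ
      = ((∫ y in F, ‖ker0 r φ x y‖ ^ 2 ∂μ : ℝ) : ℂ) := by
    rw [← integral_complex_ofReal]
    refine integral_congr_ae (Filter.Eventually.of_forall fun y => ?_)
    simp only
    rw [Complex.mul_conj, Complex.normSq_eq_norm_sq]
  have h4 : ∫ y in F, ‖conj (ker0 r φ x y)‖ ^ 2 ∂μ = ∫ y in F, ‖ker0 r φ x y‖ ^ 2 ∂μ := by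
    refine integral_congr_ae (Filter.Eventually.of_forall fun y => ?_)
    simp only
    rw [RCLike.norm_conj]
  have hI0 : 0 ≤ ∫ y in F, ‖ker0 r φ x y‖ ^ 2 ∂μ :=
    integral_nonneg (fun _ => by positivity)
  rw [h2, h3, h4, Complex.norm_real, Real.norm_of_nonneg hI0] at h1
  exact le_sq_of_le_mul_sqrt873 hI0 h1

/-- **T5.02 from its cut.** -/
theorem leafHS0_of_cut873 (𝔫 : Ideal (𝓞 K)) (τ : G K → ℂ)
    (hA : SupBoundC 𝔫 τ) (hB : KerRepC 𝔫 τ) (hC : KerAutC 𝔫 τ) (hD : KerMeasC 𝔫 τ) :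
    LeafHS0 𝔫 τ := by
  intro μ F r hF hr φ ht hek _
  have : BorelSpace (G K) := borelSpace_G873
  obtain ⟨C, hCb⟩ := hA μ F r hF hr φ ht hek
  have hfin : IsFiniteMeasure (μ.restrict F) :=
    ⟨by rw [Measure.restrict_apply_univ]; exact hF.finite⟩
  have key := section_bound873 𝔫 τ hB hC μ F r hF hr φ ht C hCb
  have hmeas := hD μ F r hF hr φ ht
  refine ⟨hmeas, ?_⟩
  rw [eLpNorm_lt_top_iff_lintegral_rpow_enorm_lt_top (by norm_num) (by norm_num)]
  simp only [ENNReal.toReal_ofNat]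
  have hae : AEMeasurable (fun p : G K × G K => ‖ker0 r φ p.1 p.2‖ₑ ^ (2 : ℝ))
      ((μ.restrict F).prod (μ.restrict F)) :=
    (hmeas.enorm).pow_const _
  rw [lintegral_prod _ hae]
  have hsec : ∀ x : G K, ∫⁻ y, ‖ker0 r φ x y‖ₑ ^ (2 : ℝ) ∂(μ.restrict F)
      ≤ ENNReal.ofReal (C ^ 2) := by
    intro x
    obtain ⟨hc, ⟨B, hBd⟩, -⟩ := hC μ F r hF hr φ ht x
    have hint : Integrable (fun y => ‖ker0 r φ x y‖ ^ 2) (μ.restrict F) := by
      refine Integrable.of_bound (C := B ^ 2) ?_ (Filter.Eventually.of_forall fun y => ?_)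
      · exact ((hc.norm).pow 2).aestronglyMeasurable
      · rw [Real.norm_of_nonneg (by positivity)]
        exact pow_le_pow_left₀ (norm_nonneg _) (hBd y) 2
    have heq : ∫⁻ y, ‖ker0 r φ x y‖ₑ ^ (2 : ℝ) ∂(μ.restrict F)
        = ENNReal.ofReal (∫ y in F, ‖ker0 r φ x y‖ ^ 2 ∂μ) := by
      rw [ofReal_integral_eq_lintegral_ofReal hint
        (Filter.Eventually.of_forall fun y => by positivity)]
      refine lintegral_congr fun y => ?_
      rw [← ofReal_norm, ENNReal.ofReal_rpow_of_nonneg (norm_nonneg _) (by norm_num)]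
      congr 1
      exact Real.rpow_two _
    rw [heq]
    exact ENNReal.ofReal_le_ofReal (key x)
  calc ∫⁻ x, ∫⁻ y, ‖ker0 r φ (x, y).1 (x, y).2‖ₑ ^ (2 : ℝ) ∂(μ.restrict F) ∂(μ.restrict F)
      ≤ ∫⁻ _x, ENNReal.ofReal (C ^ 2) ∂(μ.restrict F) := lintegral_mono hsec
    _ = ENNReal.ofReal (C ^ 2) * μ F := by
        rw [lintegral_const, Measure.restrict_apply_univ]
    _ < ⊤ := ENNReal.mul_lt_top ENNReal.ofReal_lt_top hF.finite

end Fermat.Agent.LT.T5.H873

end

end
-- ===== PACK-END LT/T5/H873/HS0Spec.lean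

-- ===== PACK-BEGIN LT/T5/SpecZ.lean
section




/-!
# Row LT, tower T5 (architect helper32): regular Iwahori support UP TO A SCALAR at the regular
# place -- ADDITIVE to `Spec.lean` v4 (FROZEN, sha256 f2d97e70548fcdd7)

OFF-MAIN.  Request of the chief of T1-T7 (helper797, note of 14:40Z, `T7/Reg.lean`): the regular
test functions of the descent carry a CENTRAL SHIFT at the regular place `u = o 0`
(support `ϖ_u^k · I diag(ϖ^m, 1) I`, all `k ∈ ℤ`), needed to separate the central character at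
`u`.  σ-regularity for them is the same product-formula argument: the invariant `tr² / det` does
not see scalars.

New names only; nothing of `Spec.lean` changes.

* `InIwahoriCosetZ w m g`: the component of `g` at `w` is `k₁ · diag(c, d) · k₂` with `k₁, k₂` in
  the Iwahori subgroup, `d ≠ 0` and `|c| = q^{-m} |d|`, i.e. it lies in
  `K_w^× · I_w diag(ϖ^m, 1) I_w` (ANY scalar of `K_w^×`, in particular `ϖ^k`, `k ∈ ℤ`).
  A purely local condition on the matrix `finComp w g`.
* `HasRegularSupportZ l o m C φ`: `HasRegularSupport` with `InIwahoriCosetZ` at `o 0`.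
* `RegularOfIwahoriZ s l k` (LEAF T5.09Z): `RegularOfIwahori` for `HasRegularSupportZ`.

PROVED here: `inIwahoriCosetZ_of_coset`, `inIwahoriCosetZ_of_smul` (a scalar multiple at `w` of an
element of the double coset), `hasRegularSupportZ_of_regular`, `regularOfIwahori_of_Z`
(the leaf T5.09Z implies T5.09).
-/

set_option autoImplicit false

open IsDedekindDomain NumberField

noncomputable section

namespace Fermat.Agent.LT.T5

open Fermat.Agent.LT.H556.A0

variable {K : Type} [Field K] [NumberField K]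

/-- The component of `g` at `w` lies in `K_w^× · I_w diag(ϖ^m, 1) I_w`: it is
`k₁ · diag(c, d) · k₂` with `k₁, k₂` in the Iwahori subgroup, `d ≠ 0`, `|c| = q^{-m} |d|`. -/
def InIwahoriCosetZ (w : HeightOneSpectrum (𝓞 K)) (m : ℕ) (g : G K) : Prop :=
  ∃ (k₁ k₂ : G K) (c d : w.adicCompletion K),
    InIwahori w k₁ ∧ InIwahori w k₂ ∧ d ≠ 0 ∧
    Valued.v c = WithZero.exp (-(m : ℤ)) * Valued.v d ∧
    finComp w g = finComp w k₁ * !![c, 0; 0, d] * finComp w k₂

/-- The support of `φ` is regular of depth `m` along the `σ`-orbit `o 0, …, o (l-1)` UP TO A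
SCALAR AT `o 0`: every point of the support lies in `K_w^× · I diag(ϖ^m,1) I` at `w = o 0`, in the
Iwahori subgroup at the other places of the orbit, and agrees outside the orbit with an element
of the compact set `C`. -/
def HasRegularSupportZ (l : ℕ) (o : ℕ → HeightOneSpectrum (𝓞 K)) (m : ℕ) (C : Set (G K))
    (φ : G K → ℂ) : Prop :=
  ∀ g : G K, φ g ≠ 0 →
    InIwahoriCosetZ (o 0) m g ∧ (∀ j : ℕ, 0 < j → j < l → InIwahori (o j) g) ∧
      ∃ h ∈ C, AgreeOutside {v | ∃ j < l, v = o j} g h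

/-- **LEAF T5.09Z: regular Iwahori support up to a scalar at the regular place gives
σ-regularity.**  Same proof as T5.09 (`RegularOfIwahori`): the norm `N(g)` has at `o 0` the
component `d · (k₁ diag(c/d, 1) k₂')` with `k₂'` Iwahori, and `tr² / det` does not see `d`. -/
def RegularOfIwahoriZ (s : AdelicAut K) (l : ℕ) (k : Subfield K) : Prop :=
  IsCyclicOfDegree s l k →
  ∀ (o : ℕ → HeightOneSpectrum (𝓞 K)) (C : Set (G K)), IsCompact C →
    (∀ j : ℕ, PlaceRel s (o j) (o (j + 1))) → (∀ j : ℕ, 0 < j → j < l → o j ≠ o 0) →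
    ∃ m₀ : ℕ, ∀ m : ℕ, m₀ ≤ m → ∀ φ : G K → ℂ,
      HasRegularSupportZ l o m C φ → IsTwRegular s l k φ

/-! ## Proved: the relation with `Spec.lean` -/

theorem finComp_mulZ (v : HeightOneSpectrum (𝓞 K)) (g h : G K) :
    finComp v (g * h) = finComp v g * finComp v h := by
  rw [finComp_eq_map, finComp_eq_map, finComp_eq_map, Units.val_mul, Matrix.map_mul]

/-- An element of the double coset is an element of the double coset up to a scalar. -/
theorem inIwahoriCosetZ_of_coset {w : HeightOneSpectrum (𝓞 K)} {m : ℕ} {g : G K}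
    (h : InIwahoriCoset w m g) : InIwahoriCosetZ w m g := by
  obtain ⟨k₁, k₂, t, c, hk₁, hk₂, hc, ht, hg⟩ := h
  refine ⟨k₁, k₂, c, 1, hk₁, hk₂, one_ne_zero, ?_, ?_⟩
  · rw [hc, map_one, mul_one]
  · rw [hg, finComp_mulZ, finComp_mulZ, ht]

/-- A scalar multiple at `w` of an element of the double coset (e.g. the central shift by
`ϖ_w^k`, `k ∈ ℤ`). -/
theorem inIwahoriCosetZ_of_smul {w : HeightOneSpectrum (𝓞 K)} {m : ℕ} {g g' : G K}
    {a : w.adicCompletion K} (ha : a ≠ 0) (hg' : InIwahoriCoset w m g')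
    (h : finComp w g = a • finComp w g') : InIwahoriCosetZ w m g := by
  obtain ⟨k₁, k₂, t, c, hk₁, hk₂, hc, ht, hg⟩ := hg'
  refine ⟨k₁, k₂, a * c, a, hk₁, hk₂, ha, ?_, ?_⟩
  · rw [map_mul, hc, mul_comm]
  · rw [h, hg, finComp_mulZ, finComp_mulZ, ht, ← Matrix.smul_mul, ← Matrix.mul_smul]
    congr 2
    ext i j
    fin_cases i <;> fin_cases j <;> simp

theorem hasRegularSupportZ_of_regular {l : ℕ} {o : ℕ → HeightOneSpectrum (𝓞 K)} {m : ℕ}
    {C : Set (G K)} {φ : G K → ℂ} (h : HasRegularSupport l o m C φ) :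
    HasRegularSupportZ l o m C φ := fun g hg =>
  ⟨inIwahoriCosetZ_of_coset (h g hg).1, (h g hg).2⟩

/-- T5.09Z implies T5.09. -/
theorem regularOfIwahori_of_Z {s : AdelicAut K} {l : ℕ} {k : Subfield K}
    (h : RegularOfIwahoriZ s l k) : RegularOfIwahori s l k := by
  intro hc o C hC ho hne
  obtain ⟨m₀, hm₀⟩ := h hc o C hC ho hne
  exact ⟨m₀, fun m hm φ hφ => hm₀ m hm φ (hasRegularSupportZ_of_regular hφ)⟩

end Fermat.Agent.LT.T5

end

end
-- ===== PACK-END LT/T5/SpecZ.lean

-- ===== PACK-BEGIN LT/H942/RegularAdelic.lean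
section






/-!
# Row LT, towers T4/T5 — regular ⇒ elliptic, ADELIC form (helper942)

OFF-MAIN.  Imports Mathlib, the frozen vocabulary `LT/H556/A0.lean` and my own
`AdelicComp`, `RegularCore`, `RegularLocal`.

`γ ∈ GL₂(K)`, `g ∈ GL₂(𝔸_K)`, `h = g⁻¹ γ g` (the argument of a test function in the kernel
`∑_γ f(g⁻¹ γ g)`).  If the local components of `h` satisfy

* `‖tr h_v‖² ≤ ‖det h_v‖` at the finite places `v ∉ S ∪ {u}` (e.g. `h_v ∈ GL₂(𝒪_v)`:
  `regular_adelic_of_integral942`),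
* `‖tr h_v‖² ≤ B ‖det h_v‖` at the places of the finite set `S` and at the infinite places
  (`h` in a compact set),
* `‖tr h_u‖² > (B + 3) ^ ([K:ℚ] + #S) ‖det h_u‖` at the auxiliary place `u` (a sufficiently
  regular Iwahori double coset `I diag(c, 1) I`, `‖c‖_u` small: `regular_adelic_of_iwahori942`),

then `γ` has no eigenvalue in `K` (`regular_adelic_no_eigenvalue942`): `γ` is elliptic, `K[γ]` is
a quadratic field extension of `K`.  This is the statement "`f(g⁻¹ γ g) ≠ 0 ⇒ γ` elliptic regular"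
for Flicker's regular test functions (Flicker, *Regular trace formula and base change lifting*,
§1), in the vocabulary of A0.
-/

set_option autoImplicit false

open IsDedekindDomain NumberField

noncomputable section

namespace Fermat.Agent.LT.H942

open Fermat.Agent.LT.H556.A0

variable {K : Type} [Field K] [NumberField K]

/-- The invariant `t = tr² / det` of `γ`, seen at the finite place `v`, in terms of the
`v`-component of any conjugate `g⁻¹ γ g`. -/
theorem finitePlace_ratio_eq942 (v : HeightOneSpectrum (𝓞 K)) (γ : GL (Fin 2) K) (g : G K) :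
    FinitePlace.mk v ((γ : Matrix (Fin 2) (Fin 2) K).trace ^ 2 /
        (γ : Matrix (Fin 2) (Fin 2) K).det) =
      ‖(finComp v (g⁻¹ * rat942 γ * g)).trace‖ ^ 2 / ‖(finComp v (g⁻¹ * rat942 γ * g)).det‖ := by
  rw [trace_finComp_conj942, det_finComp_conj942, norm_algebraMap_fin942, norm_algebraMap_fin942,
    map_div₀, map_pow]

/-- The invariant `t = tr² / det` of `γ`, seen at the infinite place `w`. -/
theorem infinitePlace_ratio_eq942 (w : InfinitePlace K) (γ : GL (Fin 2) K) (g : G K) :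
    w ((γ : Matrix (Fin 2) (Fin 2) K).trace ^ 2 / (γ : Matrix (Fin 2) (Fin 2) K).det) =
      ‖(infComp w (g⁻¹ * rat942 γ * g)).trace‖ ^ 2 / ‖(infComp w (g⁻¹ * rat942 γ * g)).det‖ := by
  rw [trace_infComp_conj942, det_infComp_conj942, norm_embedding_inf942, norm_embedding_inf942,
    map_div₀, map_pow]

theorem norm_det_finComp_pos942 (v : HeightOneSpectrum (𝓞 K)) (g : G K) :
    0 < ‖(finComp v g).det‖ :=
  norm_pos_iff.2 (det_finComp_ne_zero942 v g)

theorem norm_det_infComp_pos942 (w : InfinitePlace K) (g : G K) :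
    0 < ‖(infComp w g).det‖ :=
  norm_pos_iff.2 (det_infComp_ne_zero942 w g)

/-- **Regular ⇒ elliptic, adelic form.** -/
theorem regular_adelic_no_eigenvalue942 (u : HeightOneSpectrum (𝓞 K))
    (S : Finset (HeightOneSpectrum (𝓞 K))) {B : ℝ} (hB : 1 ≤ B) (γ : GL (Fin 2) K) (g : G K)
    (hout : ∀ v : HeightOneSpectrum (𝓞 K), v ≠ u → v ∉ S →
      ‖(finComp v (g⁻¹ * rat942 γ * g)).trace‖ ^ 2 ≤ ‖(finComp v (g⁻¹ * rat942 γ * g)).det‖)
    (hS : ∀ v ∈ S, v ≠ u →
      ‖(finComp v (g⁻¹ * rat942 γ * g)).trace‖ ^ 2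
        ≤ B * ‖(finComp v (g⁻¹ * rat942 γ * g)).det‖)
    (hinf : ∀ w : InfinitePlace K,
      ‖(infComp w (g⁻¹ * rat942 γ * g)).trace‖ ^ 2
        ≤ B * ‖(infComp w (g⁻¹ * rat942 γ * g)).det‖)
    (hu : (B + 3) ^ (Module.finrank ℚ K + S.card) * ‖(finComp u (g⁻¹ * rat942 γ * g)).det‖
      < ‖(finComp u (g⁻¹ * rat942 γ * g)).trace‖ ^ 2) :
    ∀ x : K, ((γ : Matrix (Fin 2) (Fin 2) K) - Matrix.scalar (Fin 2) x).det ≠ 0 := by
  classical
  have hδ : (γ : Matrix (Fin 2) (Fin 2) K).det ≠ 0 := by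
    have := (Matrix.isUnits_det_units γ).ne_zero
    exact this
  have hcard : (S.image FinitePlace.mk).card = S.card :=
    Finset.card_image_of_injective S fun a b hab => FinitePlace.mk_eq_iff.1 hab
  have key := regular_matrix_no_eigenvalue (K := K) (FinitePlace.mk u) (S.image FinitePlace.mk) hB
    (γ : Matrix (Fin 2) (Fin 2) K) hδ ?_ ?_ ?_ ?_
  · exact key
  · intro v' hv'u hv'S
    obtain ⟨v, rfl⟩ : ∃ v, FinitePlace.mk v = v' := ⟨v'.maximalIdeal, FinitePlace.mk_maximalIdeal v'⟩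
    have hvu : v ≠ u := fun h => hv'u (by rw [h])
    have hvS : v ∉ S := fun h => hv'S (Finset.mem_image_of_mem _ h)
    rw [finitePlace_ratio_eq942 v γ g, div_le_one (norm_det_finComp_pos942 v _)]
    exact hout v hvu hvS
  · intro v' hv'S hv'u
    obtain ⟨v, hvS, rfl⟩ := Finset.mem_image.1 hv'S
    have hvu : v ≠ u := fun h => hv'u (by rw [h])
    rw [finitePlace_ratio_eq942 v γ g, div_le_iff₀ (norm_det_finComp_pos942 v _)]
    exact hS v hvS hvu
  · intro w
    rw [infinitePlace_ratio_eq942 w γ g, div_le_iff₀ (norm_det_infComp_pos942 w _)]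
    exact hinf w
  · rw [hcard, finitePlace_ratio_eq942 u γ g, lt_div_iff₀ (norm_det_finComp_pos942 u _)]
    exact hu

/-- The unramified condition: `h_v ∈ GL₂(𝒪_v)` gives `‖tr h_v‖² ≤ ‖det h_v‖`. -/
theorem regular_adelic_of_integral942 (v : HeightOneSpectrum (𝓞 K)) (h : G K)
    (h1 : IsIntegralAt v h) (h2 : IsIntegralAt v h⁻¹) :
    ‖(finComp v h).trace‖ ^ 2 ≤ ‖(finComp v h).det‖ := by
  rw [norm_det_eq_one_of_integral942 v h h1 h2]
  exact pow_le_one₀ (norm_nonneg _) (norm_trace_le_one_of_integral942 v h h1)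

/-- The regular condition at `u`: if `h_u = k₁ diag(c, 1) k₂` with `k₁, k₂` in the Iwahori
subgroup and `‖c‖ < 1`, then `‖tr h_u‖² = 1` and `‖det h_u‖ = ‖c‖`. -/
theorem regular_adelic_of_iwahori942 (u : HeightOneSpectrum (𝓞 K)) (h : G K)
    {k₁ k₂ : Matrix (Fin 2) (Fin 2) (u.adicCompletion K)}
    (hk₁ : IsIwahoriMat (Valued.v : Valuation (u.adicCompletion K) _) k₁)
    (hk₂ : IsIwahoriMat (Valued.v : Valuation (u.adicCompletion K) _) k₂)
    {c : u.adicCompletion K} (hc : ‖c‖ < 1)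
    (hh : finComp u h = k₁ * Matrix.diagonal ![c, 1] * k₂) :
    ‖(finComp u h).trace‖ = 1 ∧ ‖(finComp u h).det‖ = ‖c‖ := by
  have hc' : Valued.v c < 1 := Valued.toNormedField.norm_lt_one_iff.1 hc
  refine ⟨?_, ?_⟩
  · rw [hh, norm_eq_one_iff_valued942]
    exact iwahori_regular_trace hk₁ hk₂ hc'
  · rw [hh, Matrix.det_mul, Matrix.det_mul, Matrix.det_diagonal, norm_mul, norm_mul,
      (norm_eq_one_iff_valued942 u _).2 hk₁.det, (norm_eq_one_iff_valued942 u _).2 hk₂.det]
    simp [Fin.prod_univ_two]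

/-- **Regular ⇒ elliptic for Flicker's regular elements**: `h = g⁻¹ γ g` is in `GL₂(𝒪_v)` outside
`S ∪ {u}`, bounded at `S` and at the infinite places, and in the regular Iwahori double coset
`I diag(c, 1) I` at `u` with `‖c‖_u⁻¹ > (B + 3) ^ ([K:ℚ] + #S)`.  Then `γ` has no eigenvalue
in `K`. -/
theorem regular_iwahori_elliptic942 (u : HeightOneSpectrum (𝓞 K))
    (S : Finset (HeightOneSpectrum (𝓞 K))) {B : ℝ} (hB : 1 ≤ B) (γ : GL (Fin 2) K) (g : G K)
    (hout : ∀ v : HeightOneSpectrum (𝓞 K), v ≠ u → v ∉ S →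
      IsIntegralAt v (g⁻¹ * rat942 γ * g) ∧ IsIntegralAt v (g⁻¹ * rat942 γ * g)⁻¹)
    (hS : ∀ v ∈ S, v ≠ u →
      ‖(finComp v (g⁻¹ * rat942 γ * g)).trace‖ ^ 2
        ≤ B * ‖(finComp v (g⁻¹ * rat942 γ * g)).det‖)
    (hinf : ∀ w : InfinitePlace K,
      ‖(infComp w (g⁻¹ * rat942 γ * g)).trace‖ ^ 2
        ≤ B * ‖(infComp w (g⁻¹ * rat942 γ * g)).det‖)
    {k₁ k₂ : Matrix (Fin 2) (Fin 2) (u.adicCompletion K)}
    (hk₁ : IsIwahoriMat (Valued.v : Valuation (u.adicCompletion K) _) k₁)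
    (hk₂ : IsIwahoriMat (Valued.v : Valuation (u.adicCompletion K) _) k₂)
    {c : u.adicCompletion K}
    (hc : (B + 3) ^ (Module.finrank ℚ K + S.card) * ‖c‖ < 1)
    (hh : finComp u (g⁻¹ * rat942 γ * g) = k₁ * Matrix.diagonal ![c, 1] * k₂) :
    ∀ x : K, ((γ : Matrix (Fin 2) (Fin 2) K) - Matrix.scalar (Fin 2) x).det ≠ 0 := by
  have hB3 : (1 : ℝ) ≤ (B + 3) ^ (Module.finrank ℚ K + S.card) :=
    one_le_pow₀ (by linarith)
  have hc1 : ‖c‖ < 1 := by
    refine lt_of_le_of_lt ?_ hc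
    calc ‖c‖ = 1 * ‖c‖ := (one_mul _).symm
      _ ≤ (B + 3) ^ (Module.finrank ℚ K + S.card) * ‖c‖ :=
        mul_le_mul_of_nonneg_right hB3 (norm_nonneg _)
  obtain ⟨htr, hdet⟩ := regular_adelic_of_iwahori942 u _ hk₁ hk₂ hc1 hh
  refine regular_adelic_no_eigenvalue942 u S hB γ g ?_ hS hinf ?_
  · intro v hvu hvS
    exact regular_adelic_of_integral942 v _ (hout v hvu hvS).1 (hout v hvu hvS).2
  · rw [htr, hdet]
    simpa using hc

end Fermat.Agent.LT.H942

end

end
-- ===== PACK-END LT/H942/RegularAdelic.lean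

-- ===== PACK-BEGIN LT/T5/H372/LeafHS.lean
section




/-!
# Row LT, tower T5, leaf T5.03 (helper372): `LeafHS0 𝔫 τ → LeafHS s 𝔫 τ`

OFF-MAIN.  Spec = `LT/T5/Spec.lean` v3 FREEZE of helper32 (origin/helper32@c970d419b, sha256
d6f8b00ae5f1, byte-identical copy),
vocabulary `LT/H556/A0.lean` (byte-identical copy).

The twisted kernel is the untwisted kernel composed with `σ` in the second variable,
`K^σ_φ(x, y) = K_φ(x, σ y)`, and `K_φ` is left `GL₂(K)`-invariant in the second variable.  For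
`y ∈ F` let `γ(y) ∈ GL₂(K)` be the unique element with `γ(y) σ(y) ∈ F` (strictness of `F`, `σ`
preserves the slab).  The map `τ(y) = γ(y) σ(y)` is Borel, maps `F` to `F` and preserves
`μ|_F`; hence `K^σ_φ = K_φ ∘ (id × τ)` is in `L²(F × F)` as soon as `K_φ` is.

No input from T1 is needed: only `IsFrame` and `AutPreserves` (hypotheses of the leaf).
-/

set_option autoImplicit false

open IsDedekindDomain NumberField MeasureTheory
open scoped MatrixGroups ComplexConjugate

noncomputable section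

namespace Fermat.Agent.LT.T5.H372

open Fermat.Agent.LT.H556.A0 Fermat.Agent.LT.T5

variable {K : Type} [Field K] [NumberField K]

attribute [local instance] Fermat.Agent.LT.T5.instMeasurableSpaceG

/-- `GL₂(𝔸_K)` with its Borel σ-algebra is a Borel space (local instance of this file). -/
local instance instBorelSpaceG372 : BorelSpace (G K) := ⟨rfl⟩

/-! ## 1. Countability of `GL₂(K)` -/

theorem countable_field372 (K : Type) [Field K] [NumberField K] : Countable K := by
  have e : K ≃ (Fin (Module.finrank ℚ K) → ℚ) := (Module.finBasis ℚ K).equivFun.toEquiv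
  exact e.injective.countable

theorem countable_GL372 (K : Type) [Field K] [NumberField K] : Countable (GL (Fin 2) K) := by
  have := countable_field372 K
  have h : Function.Injective
      (fun (g : GL (Fin 2) K) (i j : Fin 2) => (g : Matrix (Fin 2) (Fin 2) K) i j) := by
    intro a b hab
    apply Units.ext
    ext i j
    exact congrFun (congrFun hab i) j
  exact h.countable

/-! ## 2. The inverse of `σ` on `GL₂(K)` -/

/-- `σ⁻¹` on `GL₂(K)`. -/
def onRatInv372 (s : AdelicAut K) : GL (Fin 2) K →* GL (Fin 2) K :=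
  Matrix.GeneralLinearGroup.map (s.σ.symm : K →+* K)

theorem onRat_onRatInv372 (s : AdelicAut K) (δ : GL (Fin 2) K) :
    s.onRat (onRatInv372 s δ) = δ := by
  apply Units.ext
  ext i j
  simp [AdelicAut.onRat, onRatInv372, Matrix.GeneralLinearGroup.map_apply]

theorem onRatInv_onRat372 (s : AdelicAut K) (δ : GL (Fin 2) K) :
    onRatInv372 s (s.onRat δ) = δ := by
  apply Units.ext
  ext i j
  simp [AdelicAut.onRat, onRatInv372, Matrix.GeneralLinearGroup.map_apply]

variable {s : AdelicAut K} {𝔫 : Ideal (𝓞 K)} {μ : Measure (G K)} {F : Set (G K)} {r : G K}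

theorem onGinv_ratG372 (hP : AutPreserves s 𝔫 μ r) (δ : GL (Fin 2) K) :
    s.onGinv (ratG δ) = ratG (onRatInv372 s δ) := by
  have h := hP.rat (onRatInv372 s δ)
  rw [onRat_onRatInv372] at h
  rw [← h, hP.left_inverse]

/-! ## 3. Invariance of the untwisted kernel -/

theorem ker0_ratG_mul372 (r : G K) (φ : G K → ℂ) (x y : G K) (γ' : GL (Fin 2) K) :
    ker0 r φ x (ratG γ' * y) = ker0 r φ x y := by
  unfold ker0
  have h := (Equiv.mulRight γ').tsum_eq (fun γ : GL (Fin 2) K => flat r φ (x⁻¹ * ratG γ * y))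
  rw [← h]
  refine tsum_congr fun γ => ?_
  simp [mul_assoc]

theorem twKer_eq_ker0_372 (r : G K) (s : AdelicAut K) (φ : G K → ℂ) (x y : G K) :
    twKer r s φ x y = ker0 r φ x (s.onG y) := rfl

/-! ## 4. The map `τ` -/

open Classical in
/-- The rational element moving `σ(y)` into `F` (for `y ∈ F`); `1` outside `F`. -/
def gam372 (s : AdelicAut K) (F : Set (G K)) (y : G K) : GL (Fin 2) K :=
  if h : ∃ γ : GL (Fin 2) K, y ∈ F ∧ ratG γ * s.onG y ∈ F then h.choose else 1

/-- `τ(y) = γ(y) σ(y)`. -/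
def tau372 (s : AdelicAut K) (F : Set (G K)) (y : G K) : G K :=
  ratG (gam372 s F y) * s.onG y

theorem twKer_eq_tau372 (r : G K) (s : AdelicAut K) (F : Set (G K)) (φ : G K → ℂ) (x y : G K) :
    twKer r s φ x y = ker0 r φ x (tau372 s F y) := by
  rw [tau372, ker0_ratG_mul372, twKer_eq_ker0_372]

theorem gam_of_not_mem372 {y : G K} (hy : y ∉ F) : gam372 s F y = 1 := by
  unfold gam372
  rw [dif_neg]
  rintro ⟨γ, h, -⟩
  exact hy h

theorem exists_gam372 (hF : IsFrame μ F) (hP : AutPreserves s 𝔫 μ r) {y : G K} (hy : y ∈ F) :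
    ∃ γ : GL (Fin 2) K, y ∈ F ∧ ratG γ * s.onG y ∈ F := by
  obtain ⟨γ, hγ, -⟩ := hF.strict (s.onG y) ((hP.slab y).1 (hF.sub hy))
  exact ⟨γ, hy, hγ⟩

theorem gam_spec372 (hF : IsFrame μ F) (hP : AutPreserves s 𝔫 μ r) {y : G K} (hy : y ∈ F) :
    ratG (gam372 s F y) * s.onG y ∈ F := by
  have h := exists_gam372 hF hP hy
  unfold gam372
  rw [dif_pos h]
  exact h.choose_spec.2

theorem gam_eq_iff372 (hF : IsFrame μ F) (hP : AutPreserves s 𝔫 μ r) {y : G K} (hy : y ∈ F)
    (γ : GL (Fin 2) K) : gam372 s F y = γ ↔ ratG γ * s.onG y ∈ F := by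
  constructor
  · rintro rfl
    exact gam_spec372 hF hP hy
  · intro h
    obtain ⟨γ₀, -, huniq⟩ := hF.strict (s.onG y) ((hP.slab y).1 (hF.sub hy))
    rw [huniq γ h, huniq _ (gam_spec372 hF hP hy)]

theorem measurable_shift372 (hP : AutPreserves s 𝔫 μ r) (γ : GL (Fin 2) K) :
    Measurable (fun y : G K => ratG γ * s.onG y) :=
  (continuous_const.mul hP.cont).measurable

theorem measurableSet_gam_fiber372 (hF : IsFrame μ F) (hP : AutPreserves s 𝔫 μ r)
    (γ : GL (Fin 2) K) : MeasurableSet {y : G K | gam372 s F y = γ} := by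
  have h : {y : G K | gam372 s F y = γ}
      = (F ∩ (fun y : G K => ratG γ * s.onG y) ⁻¹' F) ∪ (Fᶜ ∩ {_y : G K | (1 : GL (Fin 2) K) = γ}) := by
    ext y
    by_cases hy : y ∈ F
    · simp [hy, gam_eq_iff372 hF hP hy]
    · simp [hy, gam_of_not_mem372 hy]
  rw [h]
  exact (hF.meas.inter (measurable_shift372 hP γ hF.meas)).union
    (hF.meas.compl.inter (MeasurableSet.const _))

theorem measurable_tau372 (hF : IsFrame μ F) (hP : AutPreserves s 𝔫 μ r) :
    Measurable (tau372 s F) := by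
  have := countable_GL372 K
  intro A hA
  have h : tau372 s F ⁻¹' A = ⋃ γ : GL (Fin 2) K,
      ({y : G K | gam372 s F y = γ} ∩ (fun y : G K => ratG γ * s.onG y) ⁻¹' A) := by
    ext y
    simp only [Set.mem_preimage, Set.mem_iUnion, Set.mem_inter_iff, Set.mem_ofPred_eq, tau372]
    constructor
    · intro h
      exact ⟨gam372 s F y, rfl, h⟩
    · rintro ⟨γ, rfl, h⟩
      exact h
  rw [h]
  exact MeasurableSet.iUnion fun γ =>
    (measurableSet_gam_fiber372 hF hP γ).inter (measurable_shift372 hP γ hA)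

/-! ## 5. `τ` preserves `μ|_F` -/

theorem measure_preimage_shift372 (hF : IsFrame μ F) (hP : AutPreserves s 𝔫 μ r)
    (γ : GL (Fin 2) K) {B : Set (G K)} (hB : MeasurableSet B) :
    μ ((fun y : G K => ratG γ * s.onG y) ⁻¹' B) = μ B := by
  have := hF.haar
  have h1 : (fun y : G K => ratG γ * s.onG y) ⁻¹' B
      = s.onG ⁻¹' ((fun h : G K => ratG γ * h) ⁻¹' B) := rfl
  rw [h1, hP.measure _ (measurable_const_mul (ratG γ) hB), measure_preimage_mul]

/-- The piece of `F ∩ A` reached from `F` through `γ σ`. -/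
def pieceQ372 (s : AdelicAut K) (F : Set (G K)) (A : Set (G K)) (γ : GL (Fin 2) K) : Set (G K) :=
  (F ∩ A) ∩ (fun z : G K => s.onGinv ((ratG γ)⁻¹ * z)) ⁻¹' F

theorem preimage_pieceQ372 (hP : AutPreserves s 𝔫 μ r) (A : Set (G K)) (γ : GL (Fin 2) K) :
    (fun y : G K => ratG γ * s.onG y) ⁻¹' (pieceQ372 s F A γ)
      = F ∩ (fun y : G K => ratG γ * s.onG y) ⁻¹' (F ∩ A) := by
  ext y
  simp only [pieceQ372, Set.mem_preimage, Set.mem_inter_iff, inv_mul_cancel_left,
    hP.left_inverse]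
  tauto

theorem continuous_onGinv372 (s : AdelicAut K) : Continuous (s.onGinv : G K → G K) := by
  have h : Continuous ((RingHom.mapMatrix (s.σA.symm : Adl K →+* Adl K)).toMonoidHom :
      Matrix (Fin 2) (Fin 2) (Adl K) → Matrix (Fin 2) (Fin 2) (Adl K)) :=
    Continuous.matrix_map continuous_id s.continuous_symm
  exact Continuous.units_map _ h

theorem measurableSet_pieceQ372 (hF : IsFrame μ F) {A : Set (G K)} (hA : MeasurableSet A)
    (γ : GL (Fin 2) K) : MeasurableSet (pieceQ372 s F A γ) :=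
  (hF.meas.inter hA).inter
    (((continuous_onGinv372 s).comp (continuous_const.mul continuous_id)).measurable hF.meas)

theorem mem_slab_onGinv372 (hF : IsFrame μ F) (hP : AutPreserves s 𝔫 μ r) {z : G K}
    (hz : z ∈ F) : s.onGinv z ∈ slab K := by
  rw [hP.slab, hP.right_inverse]
  exact hF.sub hz

theorem iUnion_pieceQ372 (hF : IsFrame μ F) (hP : AutPreserves s 𝔫 μ r) (A : Set (G K)) :
    ⋃ γ : GL (Fin 2) K, pieceQ372 s F A γ = F ∩ A := by
  ext z
  simp only [Set.mem_iUnion, pieceQ372, Set.mem_inter_iff, Set.mem_preimage]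
  constructor
  · rintro ⟨γ, h, -⟩
    exact h
  · intro h
    obtain ⟨γ₀, hγ₀, -⟩ := hF.strict (s.onGinv z) (mem_slab_onGinv372 hF hP h.1)
    refine ⟨s.onRat γ₀⁻¹, h, ?_⟩
    have e : s.onGinv ((ratG (s.onRat γ₀⁻¹))⁻¹ * z) = ratG γ₀ * s.onGinv z := by
      rw [map_mul, map_inv, ← hP.rat, hP.left_inverse, map_inv, inv_inv]
    rw [e]
    exact hγ₀

theorem pairwise_disjoint_pieceQ372 (hF : IsFrame μ F) (hP : AutPreserves s 𝔫 μ r)
    (A : Set (G K)) : Pairwise (Function.onFun Disjoint (pieceQ372 s F A)) := by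
  intro γ γ' hne
  rw [Function.onFun, Set.disjoint_left]
  rintro z ⟨hz, h1⟩ ⟨-, h2⟩
  apply hne
  simp only [Set.mem_preimage] at h1 h2
  rw [map_mul, map_inv, onGinv_ratG372 hP, ← map_inv] at h1 h2
  obtain ⟨γ₀, -, huniq⟩ := hF.strict (s.onGinv z) (mem_slab_onGinv372 hF hP hz.1)
  have e := (huniq _ h1).trans (huniq _ h2).symm
  have e' := congrArg s.onRat e
  rw [map_inv, map_inv, onRat_onRatInv372, onRat_onRatInv372] at e'
  exact inv_injective e'

/-- The piece of `F` mapped by `γ σ` into `F ∩ A`. -/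
def pieceP372 (s : AdelicAut K) (F : Set (G K)) (A : Set (G K)) (γ : GL (Fin 2) K) : Set (G K) :=
  F ∩ (fun y : G K => ratG γ * s.onG y) ⁻¹' (F ∩ A)

theorem measurableSet_pieceP372 (hF : IsFrame μ F) (hP : AutPreserves s 𝔫 μ r) {A : Set (G K)}
    (hA : MeasurableSet A) (γ : GL (Fin 2) K) : MeasurableSet (pieceP372 s F A γ) :=
  hF.meas.inter (measurable_shift372 hP γ (hF.meas.inter hA))

theorem pairwise_disjoint_pieceP372 (hF : IsFrame μ F) (hP : AutPreserves s 𝔫 μ r)
    (A : Set (G K)) : Pairwise (Function.onFun Disjoint (pieceP372 s F A)) := by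
  intro γ γ' hne
  rw [Function.onFun, Set.disjoint_left]
  rintro y ⟨hy, h1⟩ ⟨-, h2⟩
  apply hne
  rw [← (gam_eq_iff372 hF hP hy γ).2 h1.1, ← (gam_eq_iff372 hF hP hy γ').2 h2.1]

theorem preimage_tau_inter372 (hF : IsFrame μ F) (hP : AutPreserves s 𝔫 μ r) (A : Set (G K)) :
    tau372 s F ⁻¹' A ∩ F = ⋃ γ : GL (Fin 2) K, pieceP372 s F A γ := by
  ext y
  simp only [Set.mem_iUnion, pieceP372, Set.mem_inter_iff, Set.mem_preimage, tau372]
  constructor
  · rintro ⟨h, hy⟩
    exact ⟨gam372 s F y, hy, gam_spec372 hF hP hy, h⟩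
  · rintro ⟨γ, hy, h1, h2⟩
    rw [(gam_eq_iff372 hF hP hy γ).2 h1]
    exact ⟨h2, hy⟩

theorem measure_pieceP372 (hF : IsFrame μ F) (hP : AutPreserves s 𝔫 μ r) {A : Set (G K)}
    (hA : MeasurableSet A) (γ : GL (Fin 2) K) :
    μ (pieceP372 s F A γ) = μ (pieceQ372 s F A γ) := by
  rw [pieceP372, ← preimage_pieceQ372 hP A γ,
    measure_preimage_shift372 hF hP γ (measurableSet_pieceQ372 hF hA γ)]

theorem measurePreserving_tau372 (hF : IsFrame μ F) (hP : AutPreserves s 𝔫 μ r) :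
    MeasurePreserving (tau372 s F) (μ.restrict F) (μ.restrict F) := by
  have := countable_GL372 K
  refine ⟨measurable_tau372 hF hP, Measure.ext fun A hA => ?_⟩
  rw [Measure.map_apply (measurable_tau372 hF hP) hA,
    Measure.restrict_apply (measurable_tau372 hF hP hA), Measure.restrict_apply hA,
    preimage_tau_inter372 hF hP A,
    measure_iUnion (pairwise_disjoint_pieceP372 hF hP A)
      (fun γ => measurableSet_pieceP372 hF hP hA γ),
    Set.inter_comm A F, ← iUnion_pieceQ372 hF hP A,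
    measure_iUnion (pairwise_disjoint_pieceQ372 hF hP A)
      (fun γ => measurableSet_pieceQ372 hF hA γ)]
  exact tsum_congr fun γ => measure_pieceP372 hF hP hA γ

/-! ## 6. The leaf -/

/-- **T5.03** (`LeafHS`) from T5.02 (`LeafHS0`): the twisted kernel is Hilbert–Schmidt as soon as
the untwisted kernel is. -/
theorem leafHS_of372 (s : AdelicAut K) (𝔫 : Ideal (𝓞 K)) (τ : G K → ℂ) (h0 : LeafHS0 𝔫 τ) :
    LeafHS s 𝔫 τ := by
  intro μ F r hF hr hP φ t ek ek'
  have h := h0 μ F r hF hr φ t ek ek'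
  have : IsFiniteMeasure (μ.restrict F) :=
    ⟨by rw [Measure.restrict_apply_univ]; exact hF.finite⟩
  have hτ := measurePreserving_tau372 hF hP
  have hprod := (MeasurePreserving.id (μ.restrict F)).prod hτ
  have h2 := h.comp_measurePreserving hprod
  have e : (fun p : G K × G K => twKer r s φ p.1 p.2)
      = (fun p : G K × G K => ker0 r φ p.1 p.2) ∘ Prod.map id (tau372 s F) := by
    funext p
    simp only [Function.comp_apply, Prod.map_fst, Prod.map_snd, id_eq]
    exact twKer_eq_tau372 r s F φ p.1 p.2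
  rw [e]
  exact h2

end Fermat.Agent.LT.T5.H372

end
end
-- ===== PACK-END LT/T5/H372/LeafHS.lean

-- ===== PACK-BEGIN LT/T8/H864/Coset.lean
section




/-!
# Row LT, tower T8 (leaf MS-EVEN), sub-leaf MS3 (helper864): the explicit Hecke coset system

OFF-MAIN.  On `Fermat/Agent/LT/H556/A0.lean` (helper556) verbatim.

For a finite place `v` of a number field `K`, a uniformizer `ϖ ∈ K` at `v` and a finite set
`R ⊂ K` of `v`-integral elements, pairwise incongruent modulo `v`, with `#R = N(v)`: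

  `heckeSet v ϖ R = {[[ϖ, r], [0, 1]]_v : r ∈ R} ∪ {[[1, 0], [0, ϖ]]_v}`

is an `A0.IsHeckeCosetSystem v` (`isHeckeCosetSystem_heckeSet`), and `[[ϖ, 0], [0, ϖ]]_v` is an
`A0.IsScalarUniformizerAt v` (`isScalarUniformizerAt_scAd`).
-/

set_option autoImplicit false
set_option linter.unusedSectionVars false

open IsDedekindDomain NumberField
open scoped MatrixGroups Classical

noncomputable section

namespace Fermat.Agent.LT.T8.H864

open Fermat.Agent.LT.H556.A0

variable {K : Type} [Field K] [NumberField K]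

/-! ## The matrices over `K` -/

/-- `[[a, b], [0, d]]` over `K`. -/
def triMat (a b d : K) : Matrix (Fin 2) (Fin 2) K := !![a, b; 0, d]

theorem det_triMat (a b d : K) : (triMat a b d).det = a * d := by
  simp [triMat, Matrix.det_fin_two]

/-- `[[a, b], [0, d]]` as an element of `GL₂(K)` (the identity if `a d = 0`). -/
def triGL (a b d : K) : GL (Fin 2) K :=
  if h : a * d = 0 then 1
  else Matrix.GeneralLinearGroup.mkOfDetNeZero (triMat a b d) (by rw [det_triMat]; exact h)

theorem coe_triGL {a d : K} (b : K) (h : a * d ≠ 0) :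
    ((triGL a b d : GL (Fin 2) K) : Matrix (Fin 2) (Fin 2) K) = triMat a b d := by
  simp [triGL, h, Matrix.GeneralLinearGroup.mkOfDetNeZero]

theorem triGL_mul {a d a' d' : K} (b b' : K) (h : a * d ≠ 0) (h' : a' * d' ≠ 0) :
    triGL a b d * triGL a' b' d' = triGL (a * a') (a * b' + b * d') (d * d') := by
  have h2 : a * a' * (d * d') ≠ 0 := by
    have : a * a' * (d * d') = a * d * (a' * d') := by ring
    rw [this]; exact mul_ne_zero h h'
  refine Units.ext ?_
  rw [Matrix.GeneralLinearGroup.coe_mul, coe_triGL b h, coe_triGL b' h', coe_triGL _ h2]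
  ext i j
  fin_cases i <;> fin_cases j <;> simp [triMat, Matrix.mul_apply, Fin.sum_univ_two]

theorem triGL_one : triGL (1 : K) 0 1 = 1 := by
  refine Units.ext ?_
  rw [coe_triGL 0 (by simp)]
  ext i j
  fin_cases i <;> fin_cases j <;> simp [triMat]

theorem triGL_inv {a d : K} (b : K) (h : a * d ≠ 0) :
    (triGL a b d)⁻¹ = triGL a⁻¹ (-(b / (a * d))) d⁻¹ := by
  have ha : a ≠ 0 := left_ne_zero_of_mul h
  have hd : d ≠ 0 := right_ne_zero_of_mul h
  rw [inv_eq_iff_mul_eq_one, triGL_mul b _ h (mul_ne_zero (inv_ne_zero ha) (inv_ne_zero hd))]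
  have e1 : a * a⁻¹ = 1 := mul_inv_cancel₀ ha
  have e2 : d * d⁻¹ = 1 := mul_inv_cancel₀ hd
  have e3 : a * -(b / (a * d)) + b * d⁻¹ = 0 := by field_simp; ring
  rw [e1, e2, e3, triGL_one]

/-- `(u r)⁻¹ u r' = [[1, (r' - r)/ϖ], [0, 1]]` for `u r = [[ϖ, r], [0, 1]]`. -/
theorem up_inv_mul_up {ϖ : K} (hϖ : ϖ ≠ 0) (r r' : K) :
    (triGL ϖ r 1)⁻¹ * triGL ϖ r' 1 = triGL 1 ((r' - r) / ϖ) 1 := by
  have h : ϖ * 1 ≠ 0 := by simpa using hϖ
  rw [triGL_inv r h, triGL_mul _ r' (by simpa using hϖ) h]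
  have e1 : ϖ⁻¹ * ϖ = 1 := inv_mul_cancel₀ hϖ
  have e2 : ϖ⁻¹ * r' + -(r / (ϖ * 1)) * 1 = (r' - r) / ϖ := by field_simp; ring
  rw [e1, e2]
  simp

/-- `(u r)⁻¹ l = [[1/ϖ, -r], [0, ϖ]]` for `u r = [[ϖ, r], [0, 1]]`, `l = [[1, 0], [0, ϖ]]`. -/
theorem up_inv_mul_lo {ϖ : K} (hϖ : ϖ ≠ 0) (r : K) :
    (triGL ϖ r 1)⁻¹ * triGL 1 0 ϖ = triGL ϖ⁻¹ (-r) ϖ := by
  have h : ϖ * 1 ≠ 0 := by simpa using hϖ
  rw [triGL_inv r h, triGL_mul _ 0 (by simpa using hϖ) (by simpa using hϖ)]
  have e2 : ϖ⁻¹ * 0 + -(r / (ϖ * 1)) * ϖ = -r := by field_simp; ring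
  rw [e2]
  simp

/-- `l⁻¹ (u r) = [[ϖ, r], [0, 1/ϖ]]`. -/
theorem lo_inv_mul_up {ϖ : K} (hϖ : ϖ ≠ 0) (r : K) :
    (triGL 1 0 ϖ)⁻¹ * triGL ϖ r 1 = triGL ϖ r ϖ⁻¹ := by
  have h : (1 : K) * ϖ ≠ 0 := by simpa using hϖ
  rw [triGL_inv 0 h, triGL_mul _ r (by simpa using hϖ) (by simpa using hϖ)]
  simp

/-! ## The adelic elements -/

/-- `[[a, b], [0, d]]_v`: the element of `GL₂(𝔸_K)` with component `[[a, b], [0, d]]` at `v` and
the identity elsewhere. -/
def triAd (v : HeightOneSpectrum (𝓞 K)) (a b d : K) : G K := locFinK v (triGL a b d)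

theorem isLocalAtFin_triAd (v : HeightOneSpectrum (𝓞 K)) (a b d : K) :
    IsLocalAtFin v (triAd v a b d) := isLocalAtFin_locFinK v _

theorem finComp_triAd (v : HeightOneSpectrum (𝓞 K)) {a d : K} (b : K) (h : a * d ≠ 0) :
    finComp v (triAd v a b d) =
      !![algebraMap K (v.adicCompletion K) a, algebraMap K (v.adicCompletion K) b;
         0, algebraMap K (v.adicCompletion K) d] := by
  rw [triAd, finComp_locFinK_self, coe_triGL b h]
  ext i j
  fin_cases i <;> fin_cases j <;> simp [triMat]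

theorem valued_algebraMap (v : HeightOneSpectrum (𝓞 K)) (k : K) :
    Valued.v (algebraMap K (v.adicCompletion K) k) = v.valuation K k :=
  HeightOneSpectrum.valuedAdicCompletion_eq_valuation' v k

theorem isIntegralAt_triAd (v : HeightOneSpectrum (𝓞 K)) {a b d : K} (h : a * d ≠ 0)
    (ha : v.valuation K a ≤ 1) (hb : v.valuation K b ≤ 1) (hd : v.valuation K d ≤ 1) :
    IsIntegralAt v (triAd v a b d) := by
  intro i j
  rw [finComp_triAd v b h, HeightOneSpectrum.mem_adicCompletionIntegers]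
  fin_cases i <;> fin_cases j <;> simp [valued_algebraMap, ha, hb, hd]

theorem not_isIntegralAt_triAd_of_left (v : HeightOneSpectrum (𝓞 K)) {a d : K} (b : K)
    (h : a * d ≠ 0) (ha : 1 < v.valuation K a) : ¬ IsIntegralAt v (triAd v a b d) := by
  intro hint
  have := hint 0 0
  rw [finComp_triAd v b h, HeightOneSpectrum.mem_adicCompletionIntegers] at this
  simp only [Matrix.of_apply, Matrix.cons_val', Matrix.cons_val_zero, Matrix.cons_val_fin_one,
    valued_algebraMap] at this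
  exact absurd this (not_le.2 ha)

theorem not_isIntegralAt_triAd_of_mid (v : HeightOneSpectrum (𝓞 K)) {a d : K} (b : K)
    (h : a * d ≠ 0) (hb : 1 < v.valuation K b) : ¬ IsIntegralAt v (triAd v a b d) := by
  intro hint
  have := hint 0 1
  rw [finComp_triAd v b h, HeightOneSpectrum.mem_adicCompletionIntegers] at this
  simp only [Matrix.of_apply, Matrix.cons_val', Matrix.cons_val_zero, Matrix.cons_val_one,
    Matrix.cons_val_fin_one, valued_algebraMap] at this
  exact absurd this (not_le.2 hb)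

theorem not_isIntegralAt_triAd_of_right (v : HeightOneSpectrum (𝓞 K)) {a d : K} (b : K)
    (h : a * d ≠ 0) (hd : 1 < v.valuation K d) : ¬ IsIntegralAt v (triAd v a b d) := by
  intro hint
  have := hint 1 1
  rw [finComp_triAd v b h, HeightOneSpectrum.mem_adicCompletionIntegers] at this
  simp only [Matrix.of_apply, Matrix.cons_val', Matrix.cons_val_one, Matrix.cons_val_fin_one,
    valued_algebraMap] at this
  exact absurd this (not_le.2 hd)

theorem valued_det_finComp_triAd (v : HeightOneSpectrum (𝓞 K)) {a d : K} (b : K)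
    (h : a * d ≠ 0) :
    Valued.v (finComp v (triAd v a b d)).det = v.valuation K a * v.valuation K d := by
  rw [finComp_triAd v b h, Matrix.det_fin_two]
  simp [valued_algebraMap]


/-! ## The coset system -/

theorem triAd_inv_mul (v : HeightOneSpectrum (𝓞 K)) (a b d a' b' d' : K) :
    (triAd v a b d)⁻¹ * triAd v a' b' d' = locFinK v ((triGL a b d)⁻¹ * triGL a' b' d') := by
  rw [triAd, triAd, map_mul, map_inv]

theorem exp_neg_one_lt_one : (WithZero.exp (-1 : ℤ) : WithZero (Multiplicative ℤ)) < 1 := by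
  rw [← WithZero.exp_zero, WithZero.exp_lt_exp]; norm_num

theorem one_lt_inv_of_unif {x : WithZero (Multiplicative ℤ)} (hx : x = WithZero.exp (-1 : ℤ)) :
    1 < x⁻¹ := by
  rw [hx, ← WithZero.exp_neg, ← WithZero.exp_zero, WithZero.exp_lt_exp]; norm_num

theorem ne_zero_of_unif (v : HeightOneSpectrum (𝓞 K)) {ϖ : K}
    (hϖ : v.valuation K ϖ = WithZero.exp (-1 : ℤ)) : ϖ ≠ 0 := by
  rintro rfl
  rw [map_zero] at hϖ
  exact WithZero.exp_ne_zero hϖ.symm

theorem triAd_injective_mid (v : HeightOneSpectrum (𝓞 K)) {a d : K} (h : a * d ≠ 0) :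
    Function.Injective fun b : K => triAd v a b d := by
  intro b b' hbb
  have h1 := congrArg (fun g => finComp v g 0 1) hbb
  simp only [finComp_triAd v _ h] at h1
  simpa using h1

/-- **The explicit Hecke coset system** `{[[ϖ, r], [0, 1]]_v : r ∈ R} ∪ {[[1, 0], [0, ϖ]]_v}`. -/
def heckeSet (v : HeightOneSpectrum (𝓞 K)) (ϖ : K) (R : Finset K) : Finset (G K) :=
  insert (triAd v 1 0 ϖ) (R.image fun r => triAd v ϖ r 1)

theorem mem_heckeSet (v : HeightOneSpectrum (𝓞 K)) (ϖ : K) (R : Finset K) (h : G K) :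
    h ∈ heckeSet v ϖ R ↔ h = triAd v 1 0 ϖ ∨ ∃ r ∈ R, h = triAd v ϖ r 1 := by
  simp only [heckeSet, Finset.mem_insert, Finset.mem_image]
  constructor
  · rintro (h1 | ⟨r, hr, rfl⟩)
    · exact Or.inl h1
    · exact Or.inr ⟨r, hr, rfl⟩
  · rintro (h1 | ⟨r, hr, rfl⟩)
    · exact Or.inl h1
    · exact Or.inr ⟨r, hr, rfl⟩

theorem lo_ne_up (v : HeightOneSpectrum (𝓞 K)) {ϖ : K}
    (hϖ : v.valuation K ϖ = WithZero.exp (-1 : ℤ)) (r : K) :
    triAd v 1 0 ϖ ≠ triAd v ϖ r 1 := by
  have h0 := ne_zero_of_unif v hϖ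
  intro hbb
  have h1 := congrArg (fun g => finComp v g 0 0) hbb
  simp only [finComp_triAd v _ (show (1 : K) * ϖ ≠ 0 by simpa using h0),
    finComp_triAd v _ (show ϖ * (1 : K) ≠ 0 by simpa using h0)] at h1
  have h2 : (1 : K) = ϖ := by
    apply (algebraMap K (v.adicCompletion K)).injective
    simpa using h1
  rw [← h2, map_one] at hϖ
  exact absurd hϖ (ne_of_gt exp_neg_one_lt_one)

theorem card_heckeSet (v : HeightOneSpectrum (𝓞 K)) {ϖ : K}
    (hϖ : v.valuation K ϖ = WithZero.exp (-1 : ℤ)) (R : Finset K) :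
    (heckeSet v ϖ R).card = R.card + 1 := by
  have h0 := ne_zero_of_unif v hϖ
  rw [heckeSet, Finset.card_insert_of_notMem, Finset.card_image_of_injective]
  · exact triAd_injective_mid v (show ϖ * (1 : K) ≠ 0 by simpa using h0)
  · intro hmem
    obtain ⟨r, -, hr⟩ := Finset.mem_image.1 hmem
    exact lo_ne_up v hϖ r hr.symm

/-- **MS3.**  The explicit set is a Hecke coset system in the sense of `A0`. -/
theorem isHeckeCosetSystem_heckeSet (v : HeightOneSpectrum (𝓞 K)) {ϖ : K}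
    (hϖ : v.valuation K ϖ = WithZero.exp (-1 : ℤ)) {R : Finset K}
    (hint : ∀ r ∈ R, v.valuation K r ≤ 1)
    (hcard : R.card = Ideal.absNorm v.asIdeal)
    (hdist : ∀ r ∈ R, ∀ r' ∈ R, r ≠ r' → v.valuation K (r' - r) = 1) :
    IsHeckeCosetSystem v (heckeSet v ϖ R) := by
  have h0 := ne_zero_of_unif v hϖ
  have hu : ϖ * (1 : K) ≠ 0 := by simpa using h0
  have hl : (1 : K) * ϖ ≠ 0 := by simpa using h0
  have hϖle : v.valuation K ϖ ≤ 1 := by rw [hϖ]; exact le_of_lt exp_neg_one_lt_one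
  have hinv : 1 < v.valuation K ϖ⁻¹ := by rw [map_inv₀]; exact one_lt_inv_of_unif hϖ
  refine ⟨by rw [card_heckeSet v hϖ, hcard], ?_, ?_⟩
  · intro h hh
    rcases (mem_heckeSet v ϖ R h).1 hh with rfl | ⟨r, hr, rfl⟩
    · refine ⟨isLocalAtFin_triAd v _ _ _, isIntegralAt_triAd v hl ?_ ?_ hϖle, ?_⟩
      · simp
      · simp
      · rw [valued_det_finComp_triAd v 0 hl, map_one, one_mul, hϖ]
    · refine ⟨isLocalAtFin_triAd v _ _ _, isIntegralAt_triAd v hu hϖle (hint r hr) ?_, ?_⟩
      · simp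
      · rw [valued_det_finComp_triAd v r hu, map_one, mul_one, hϖ]
  · intro h hh h' hh' hne
    rcases (mem_heckeSet v ϖ R h).1 hh with rfl | ⟨r, hr, rfl⟩
    · rcases (mem_heckeSet v ϖ R h').1 hh' with rfl | ⟨r', hr', rfl⟩
      · exact absurd rfl hne
      · rw [triAd_inv_mul, lo_inv_mul_up h0]
        have hne0 : ϖ * ϖ⁻¹ ≠ 0 := mul_ne_zero h0 (inv_ne_zero h0)
        exact not_isIntegralAt_triAd_of_right v r' hne0 hinv
    · rcases (mem_heckeSet v ϖ R h').1 hh' with rfl | ⟨r', hr', rfl⟩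
      · rw [triAd_inv_mul, up_inv_mul_lo h0]
        have hne0 : ϖ⁻¹ * ϖ ≠ 0 := mul_ne_zero (inv_ne_zero h0) h0
        exact not_isIntegralAt_triAd_of_left v (-r) hne0 hinv
      · have hrr : r ≠ r' := by
          rintro rfl
          exact hne rfl
        rw [triAd_inv_mul, up_inv_mul_up h0]
        refine not_isIntegralAt_triAd_of_mid v _ (by simp) ?_
        rw [map_div₀, hdist r hr r' hr' hrr, one_div, ← map_inv₀]
        exact hinv

/-- The scalar uniformizer `[[ϖ, 0], [0, ϖ]]_v`. -/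
theorem isScalarUniformizerAt_triAd (v : HeightOneSpectrum (𝓞 K)) {ϖ : K}
    (hϖ : v.valuation K ϖ = WithZero.exp (-1 : ℤ)) :
    IsScalarUniformizerAt v (triAd v ϖ 0 ϖ) := by
  have h0 := ne_zero_of_unif v hϖ
  refine ⟨isLocalAtFin_triAd v _ _ _, algebraMap K (v.adicCompletion K) ϖ, ?_, ?_⟩
  · rw [valued_algebraMap, hϖ]
  · rw [finComp_triAd v 0 (mul_ne_zero h0 h0)]
    ext i j
    fin_cases i <;> fin_cases j <;> simp


/-! ## The case `K = ℚ`: integer representatives -/

section Rat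

variable (v : HeightOneSpectrum (𝓞 ℚ))

theorem finrank_int_ringOfIntegers_rat : Module.finrank ℤ (𝓞 ℚ) = 1 := by
  rw [RingOfIntegers.rank, Module.finrank_self]

theorem norm_intCast_rat (n : ℤ) : Algebra.norm ℤ ((n : ℤ) : 𝓞 ℚ) = n := by
  rw [← map_intCast (algebraMap ℤ (𝓞 ℚ)), Algebra.norm_algebraMap,
    finrank_int_ringOfIntegers_rat, pow_one, Int.cast_id]

/-- An integer lies in the prime `v` of `𝓞 ℚ` iff it is divisible by `N(v)`. -/
theorem intCast_mem_asIdeal_iff (n : ℤ) :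
    ((n : ℤ) : 𝓞 ℚ) ∈ v.asIdeal ↔ ((Ideal.absNorm v.asIdeal : ℕ) : ℤ) ∣ n := by
  constructor
  · intro h
    have h1 := Ideal.absNorm_dvd_norm_of_mem h
    rwa [norm_intCast_rat] at h1
  · rintro ⟨k, rfl⟩
    have h1 : (((Ideal.absNorm v.asIdeal : ℕ) : ℤ) : 𝓞 ℚ) ∈ v.asIdeal := by
      have := Ideal.absNorm_mem v.asIdeal
      simpa using this
    rw [Int.cast_mul]
    exact Ideal.mul_mem_right _ _ h1

theorem exists_intCast_eq (x : 𝓞 ℚ) : ∃ n : ℤ, x = ((n : ℤ) : 𝓞 ℚ) :=
  ⟨Rat.ringOfIntegersEquiv x, by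
    rw [← eq_intCast Rat.ringOfIntegersEquiv.symm, RingEquiv.symm_apply_apply]⟩

theorem absNorm_ne_zero_rat : Ideal.absNorm v.asIdeal ≠ 0 := by
  rw [Ne, Ideal.absNorm_eq_zero_iff]
  exact v.ne_bot

/-- The prime `v` of `𝓞 ℚ` is generated by its norm. -/
theorem asIdeal_eq_span_absNorm :
    v.asIdeal = Ideal.span {((Ideal.absNorm v.asIdeal : ℕ) : 𝓞 ℚ)} := by
  apply le_antisymm
  · intro x hx
    obtain ⟨n, rfl⟩ := exists_intCast_eq x
    obtain ⟨k, hk⟩ := (intCast_mem_asIdeal_iff v n).1 hx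
    rw [Ideal.mem_span_singleton]
    exact ⟨((k : ℤ) : 𝓞 ℚ), by rw [hk]; push_cast; ring⟩
  · rw [Ideal.span_singleton_le_iff_mem]
    exact Ideal.absNorm_mem v.asIdeal

theorem valuation_intCast_le_one (n : ℤ) : v.valuation ℚ ((n : ℤ) : ℚ) ≤ 1 := by
  have h : ((n : ℤ) : ℚ) = algebraMap (𝓞 ℚ) ℚ ((n : ℤ) : 𝓞 ℚ) := by simp
  rw [h, HeightOneSpectrum.valuation_of_algebraMap]
  exact v.intValuation_le_one _

theorem valuation_intCast_eq_one_iff (n : ℤ) :
    v.valuation ℚ ((n : ℤ) : ℚ) = 1 ↔ ¬ ((Ideal.absNorm v.asIdeal : ℕ) : ℤ) ∣ n := by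
  have h : ((n : ℤ) : ℚ) = algebraMap (𝓞 ℚ) ℚ ((n : ℤ) : 𝓞 ℚ) := by simp
  rw [h, HeightOneSpectrum.valuation_of_algebraMap, HeightOneSpectrum.intValuation_eq_one_iff,
    intCast_mem_asIdeal_iff]

/-- `N(v)` is a uniformizer at `v`. -/
theorem valuation_absNorm_rat :
    v.valuation ℚ ((Ideal.absNorm v.asIdeal : ℕ) : ℚ) = WithZero.exp (-1 : ℤ) := by
  have h : ((Ideal.absNorm v.asIdeal : ℕ) : ℚ) =
      algebraMap (𝓞 ℚ) ℚ ((Ideal.absNorm v.asIdeal : ℕ) : 𝓞 ℚ) := by simp
  rw [h, HeightOneSpectrum.valuation_of_algebraMap]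
  refine HeightOneSpectrum.intValuation_singleton v ?_ (asIdeal_eq_span_absNorm v)
  have h0 := absNorm_ne_zero_rat v
  intro h1
  apply h0
  have h2 : (((Ideal.absNorm v.asIdeal : ℕ) : 𝓞 ℚ) : ℚ) = 0 := by rw [h1]; simp
  have h3 : ((Ideal.absNorm v.asIdeal : ℕ) : ℚ) = 0 := by simpa using h2
  exact_mod_cast h3

/-- The residue system `{M j : 0 ≤ j < N(v)}` for an integer `M` prime to `N(v)`. -/
def resSet (M : ℤ) : Finset ℚ :=
  (Finset.range (Ideal.absNorm v.asIdeal)).image fun j : ℕ => ((M * (j : ℤ) : ℤ) : ℚ)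

theorem mem_resSet (M : ℤ) (r : ℚ) :
    r ∈ resSet v M ↔ ∃ j : ℕ, j < Ideal.absNorm v.asIdeal ∧ r = ((M * (j : ℤ) : ℤ) : ℚ) := by
  simp only [resSet, Finset.mem_image, Finset.mem_range]
  constructor
  · rintro ⟨j, hj, rfl⟩; exact ⟨j, hj, rfl⟩
  · rintro ⟨j, hj, rfl⟩; exact ⟨j, hj, rfl⟩

theorem card_resSet {M : ℤ} (hM : M ≠ 0) : (resSet v M).card = Ideal.absNorm v.asIdeal := by
  rw [resSet, Finset.card_image_of_injective, Finset.card_range]
  intro j j' h
  have h0 : ((M * (j : ℤ) : ℤ) : ℚ) = ((M * (j' : ℤ) : ℤ) : ℚ) := h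
  have h1 : M * (j : ℤ) = M * (j' : ℤ) := by exact_mod_cast h0
  exact_mod_cast mul_left_cancel₀ hM h1

/-- **MS3 over `ℚ`.**  For an integer `M` prime to `N(v)` the set
`{[[q, M j], [0, 1]]_v : 0 ≤ j < q} ∪ {[[1, 0], [0, q]]_v}`, `q = N(v)`, is a Hecke coset system. -/
theorem isHeckeCosetSystem_rat {M : ℤ}
    (hM : IsCoprime M ((Ideal.absNorm v.asIdeal : ℕ) : ℤ)) :
    IsHeckeCosetSystem v
      (heckeSet v ((Ideal.absNorm v.asIdeal : ℕ) : ℚ) (resSet v M)) := by
  have hq0 := absNorm_ne_zero_rat v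
  have hq1 : Ideal.absNorm v.asIdeal ≠ 1 := by
    rw [Ne, Ideal.absNorm_eq_one_iff]
    exact v.isPrime.ne_top
  have hM0 : M ≠ 0 := by
    rintro rfl
    have := hM.isUnit_of_dvd' (dvd_zero _) dvd_rfl
    rw [Int.isUnit_iff] at this
    rcases this with h | h
    · exact hq1 (by exact_mod_cast h)
    · have : (0 : ℤ) ≤ ((Ideal.absNorm v.asIdeal : ℕ) : ℤ) := Int.natCast_nonneg _
      omega
  refine isHeckeCosetSystem_heckeSet v (valuation_absNorm_rat v) ?_ (card_resSet v hM0) ?_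
  · intro r hr
    obtain ⟨j, -, rfl⟩ := (mem_resSet v M r).1 hr
    exact valuation_intCast_le_one v _
  · intro r hr r' hr' hne
    obtain ⟨j, hj, rfl⟩ := (mem_resSet v M r).1 hr
    obtain ⟨j', hj', rfl⟩ := (mem_resSet v M r').1 hr'
    have hjj : j ≠ j' := by
      rintro rfl
      exact hne rfl
    have e : (((M * (j' : ℤ) : ℤ) : ℚ) - ((M * (j : ℤ) : ℤ) : ℚ)) =
        ((M * ((j' : ℤ) - (j : ℤ)) : ℤ) : ℚ) := by push_cast; ring
    rw [e, valuation_intCast_eq_one_iff]
    intro hdvd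
    have h1 : ((Ideal.absNorm v.asIdeal : ℕ) : ℤ) ∣ (j' : ℤ) - (j : ℤ) :=
      hM.symm.dvd_of_dvd_mul_left hdvd
    have h2 : ((j' : ℤ) - (j : ℤ)) = 0 := by
      apply Int.eq_zero_of_abs_lt_dvd h1
      rw [abs_lt]
      constructor <;> omega
    omega

end Rat

end Fermat.Agent.LT.T8.H864

end

end
-- ===== PACK-END LT/T8/H864/Coset.lean

-- ===== PACK-BEGIN LT/T7/H71/TailLat.lean
section




/-!
# Row LT, tower T7, node T7.14, leaf T7.14.3j `TailC`: lattice part (helper71), OFF-MAIN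

Mathlib + `H671/ConeCount`, `H671/ConeOrbit` only.  Nothing assumed.

* `finite_coneSet71`   : a discrete subgroup has finitely many points in the cone with gauge `≤ B`;
* `exists_coneBound71` : for a `ℤ`-lattice `L` of `(K_∞)²` there is `C ≥ 0` with
  `#{p ∈ L ∩ cone : gauge p ≤ B} ≤ C B²` for EVERY real `B`;
* `ncard_mulK_le71`    : if `L` is stable under the units, then for `l ∈ Kˣ`
  `#{p ∈ l L ∩ cone : gauge p ≤ B} ≤ #{p ∈ L ∩ cone : gauge p ≤ B / |N l|}`.
-/

set_option autoImplicit false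
set_option linter.unusedSectionVars false

open NumberField NumberField.mixedEmbedding NumberField.InfinitePlace NumberField.Units
  MeasureTheory Filter Topology Bornology Module

noncomputable section

namespace Fermat.Agent.LT.T7.H71

open Fermat.Agent.LT.T7.H671

variable {K : Type} [Field K] [NumberField K]

/-- The points of the set `L` in the cone with gauge `≤ B`. -/
def coneSet71 (L : Set (Pair671 K)) (B : ℝ) : Set (Pair671 K) :=
  {p | p ∈ pairCone671 K ∧ pairGauge671 p ≤ B ∧ p ∈ L}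

theorem coneSet71_mono (L : Set (Pair671 K)) {B B' : ℝ} (h : B ≤ B') :
    coneSet71 L B ⊆ coneSet71 L B' :=
  fun _ hp => ⟨hp.1, hp.2.1.trans h, hp.2.2⟩

theorem pairGauge671_pos_of_mem_cone71 {p : Pair671 K} (hp : p ∈ pairCone671 K) :
    0 < pairGauge671 p :=
  lt_of_le_of_ne (pairGauge671_nonneg p) (pairGauge671_ne_zero_of_mem_cone hp).symm

theorem coneSet71_eq_empty (L : Set (Pair671 K)) {B : ℝ} (hB : B ≤ 0) : coneSet71 L B = ∅ := by
  refine Set.eq_empty_of_forall_notMem fun p hp => ?_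
  exact absurd (lt_of_lt_of_le (pairGauge671_pos_of_mem_cone71 hp.1) hp.2.1) (not_lt.mpr hB)

/-- The part of the cone with gauge `≤ B` is bounded. -/
theorem isBounded_coneGauge71 (B : ℝ) :
    IsBounded {p : Pair671 K | p ∈ pairCone671 K ∧ pairGauge671 p ≤ B} := by
  classical
  rcases le_or_gt B 0 with hB | hB
  · have : {p : Pair671 K | p ∈ pairCone671 K ∧ pairGauge671 p ≤ B} = ∅ := by
      refine Set.eq_empty_of_forall_notMem fun p hp => ?_
      exact absurd (lt_of_lt_of_le (pairGauge671_pos_of_mem_cone71 hp.1) hp.2) (not_lt.mpr hB)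
    rw [this]; exact isBounded_empty
  · have hd : finrank ℚ K ≠ 0 := (Module.finrank_pos (R := ℚ) (M := K)).ne'
    set r : ℝ := B ^ ((finrank ℚ K : ℝ)⁻¹) with hr
    have hr0 : 0 < r := Real.rpow_pos_of_pos hB _
    have hrd : r ^ finrank ℚ K = B := Real.rpow_inv_natCast_pow hB.le hd
    obtain ⟨C, hC⟩ := (isBounded_iff_forall_norm_le (E := Pair671 K)).mp (isBounded_pairBody671 K)
    refine isBounded_iff_forall_norm_le.mpr ⟨r * C, fun p hp => ?_⟩
    have hmem : r⁻¹ • p ∈ pairBody671 K := by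
      refine ⟨smul_mem_pairCone671 hp.1 (inv_pos.mpr hr0), ?_⟩
      rw [pairGauge671_smul, abs_of_pos (inv_pos.mpr hr0), inv_pow, hrd]
      have h1 : B⁻¹ * pairGauge671 p ≤ 1 := by
        rw [inv_mul_le_iff₀ hB, mul_one]; exact hp.2
      have h0 : 0 ≤ B⁻¹ * pairGauge671 p :=
        mul_nonneg (inv_nonneg.mpr hB.le) (pairGauge671_nonneg p)
      calc (B⁻¹ * pairGauge671 p) ^ 2 ≤ 1 ^ 2 := pow_le_pow_left₀ h0 h1 2
        _ = 1 := one_pow 2
    have h2 := hC _ hmem
    rw [_root_.norm_smul, Real.norm_of_nonneg (inv_pos.mpr hr0).le, inv_mul_le_iff₀ hr0] at h2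
    exact h2

/-- A discrete subgroup has finitely many points in the cone with gauge `≤ B`. -/
theorem finite_coneSet71 (L : Submodule ℤ (Pair671 K)) [DiscreteTopology L] (B : ℝ) :
    (coneSet71 (L : Set (Pair671 K)) B).Finite := by
  classical
  have hcl : IsClosed (L : Set (Pair671 K)) := by
    have : DiscreteTopology L.toAddSubgroup := inferInstanceAs (DiscreteTopology L)
    exact AddSubgroup.isClosed_of_discrete (H := L.toAddSubgroup)
  have hdisc : IsDiscrete (L : Set (Pair671 K)) :=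
    isDiscrete_iff_discreteTopology.mpr (inferInstanceAs (DiscreteTopology L))
  have h := Metric.finite_isBounded_inter_isClosed (α := Pair671 K) hdisc
    (isBounded_coneGauge71 (K := K) B) hcl
  exact h.subset fun p hp => ⟨⟨hp.1, hp.2.1⟩, hp.2.2⟩

open scoped Classical in
/-- **Uniform bound for one lattice.**  `#{p ∈ L ∩ cone : gauge p ≤ B} ≤ C B²` for every real
`B` (large `B`: the limit of `tendsto_card_pairCone671`; small `B`: no point; in between:
monotonicity). -/
theorem exists_coneBound71 (L : Submodule ℤ (Pair671 K)) [DiscreteTopology L]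
    [IsZLattice ℝ L] :
    ∃ C : ℝ, 0 ≤ C ∧ ∀ B : ℝ, ((coneSet71 (L : Set (Pair671 K)) B).ncard : ℝ) ≤ C * B ^ 2 := by
  have hfin := finite_coneSet71 L
  have hHaar := haarPair671 K
  have hBorel := borelPair671 K
  -- large `B`
  have hlim := tendsto_card_pairCone671 (K := K) L
  set ℓ : ℝ := (volume (pairBody671 K)).toReal / ZLattice.covolume L volume with hℓ
  have hℓ0 : 0 ≤ ℓ := div_nonneg ENNReal.toReal_nonneg (ZLattice.covolume_pos L volume).le
  have hcard : ∀ B : ℝ,
      (Nat.card {x : Pair671 K // x ∈ pairCone671 K ∧ pairGauge671 x ≤ B ∧ x ∈ L} : ℝ)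
        = ((coneSet71 (L : Set (Pair671 K)) B).ncard : ℝ) := fun B => by
    rw [← Nat.card_coe_set_eq]
    rfl
  have hev : ∀ᶠ B : ℝ in atTop,
      ((coneSet71 (L : Set (Pair671 K)) B).ncard : ℝ) / B ^ 2 < ℓ + 1 := by
    have h1 := hlim.eventually_lt_const (lt_add_one ℓ)
    filter_upwards [h1] with B hB
    rw [← hcard]; exact hB
  obtain ⟨B₁, hB₁one, hB₁⟩ : ∃ B₁ : ℝ, 1 ≤ B₁ ∧ ∀ B ≥ B₁,
      ((coneSet71 (L : Set (Pair671 K)) B).ncard : ℝ) / B ^ 2 < ℓ + 1 := by
    obtain ⟨b, hb⟩ := eventually_atTop.mp hev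
    exact ⟨max b 1, le_max_right _ _, fun B hB => hb B ((le_max_left _ _).trans hB)⟩
  have hM : 0 < ℓ + 1 := by linarith
  have hlarge : ∀ B ≥ B₁, ((coneSet71 (L : Set (Pair671 K)) B).ncard : ℝ) ≤ (ℓ + 1) * B ^ 2 := by
    intro B hB
    have hBpos : 0 < B ^ 2 := by
      have : 0 < B := lt_of_lt_of_le one_pos (hB₁one.trans hB)
      positivity
    exact ((div_lt_iff₀ hBpos).mp (hB₁ B hB)).le
  -- small `B`
  obtain ⟨B₀, hB₀pos, hB₀one, hB₀⟩ : ∃ B₀ : ℝ, 0 < B₀ ∧ B₀ ≤ 1 ∧
      ∀ B < B₀, coneSet71 (L : Set (Pair671 K)) B = ∅ := by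
    rcases (coneSet71 (L : Set (Pair671 K)) 1).eq_empty_or_nonempty with hemp | hne
    · refine ⟨1, one_pos, le_rfl, fun B hB => ?_⟩
      exact Set.subset_eq_empty (coneSet71_mono _ hB.le) hemp
    · obtain ⟨a, ha, hmin⟩ := Set.exists_min_image _ pairGauge671 (hfin 1) hne
      have hapos := pairGauge671_pos_of_mem_cone71 ha.1
      refine ⟨pairGauge671 a, hapos, ha.2.1, fun B hB => ?_⟩
      refine Set.eq_empty_of_forall_notMem fun p hp => ?_
      have hp1 : p ∈ coneSet71 (L : Set (Pair671 K)) 1 :=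
        coneSet71_mono _ (hB.le.trans ha.2.1) hp
      exact absurd (lt_of_le_of_lt ((hmin p hp1).trans hp.2.1) hB) (lt_irrefl _)
  have hB₀sq : 0 < B₀ ^ 2 := by positivity
  have hB₁pos : 0 < B₁ := lt_of_lt_of_le one_pos hB₁one
  refine ⟨(ℓ + 1) * B₁ ^ 2 / B₀ ^ 2, by positivity, fun B => ?_⟩
  rcases lt_or_ge B B₀ with h | h
  · rw [hB₀ B h, Set.ncard_empty, Nat.cast_zero]
    positivity
  · have hBpos : 0 < B := lt_of_lt_of_le hB₀pos h
    have hratio : B₀ ^ 2 ≤ B ^ 2 := pow_le_pow_left₀ hB₀pos.le h 2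
    rcases le_or_gt B₁ B with h1 | h1
    · refine (hlarge B h1).trans ?_
      have h2 : B₀ ^ 2 ≤ B₁ ^ 2 := pow_le_pow_left₀ hB₀pos.le (hB₀one.trans hB₁one) 2
      rw [div_mul_eq_mul_div, le_div_iff₀ hB₀sq]
      have h3 : 0 ≤ (ℓ + 1) * B ^ 2 := by positivity
      nlinarith
    · have hmono : (coneSet71 (L : Set (Pair671 K)) B).ncard
          ≤ (coneSet71 (L : Set (Pair671 K)) B₁).ncard :=
        Set.ncard_le_ncard (coneSet71_mono _ h1.le) (hfin B₁)
      have h2 : ((coneSet71 (L : Set (Pair671 K)) B).ncard : ℝ) ≤ (ℓ + 1) * B₁ ^ 2 :=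
        (Nat.cast_le.mpr hmono).trans (hlarge B₁ le_rfl)
      refine h2.trans ?_
      rw [div_mul_eq_mul_div, le_div_iff₀ hB₀sq]
      have h3 : 0 ≤ (ℓ + 1) * B₁ ^ 2 := by positivity
      nlinarith

/-! ## Multiplication by `l ∈ Kˣ` and the cone -/

/-- Multiplication of both components by the image of `l ∈ K`. -/
def mulK71 (l : K) (p : Pair671 K) : Pair671 K :=
  (mixedEmbedding K l * p.1, mixedEmbedding K l * p.2)

theorem unitPair671_eq_mulK71 (u : (𝓞 K)ˣ) (p : Pair671 K) :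
    unitPair671 u p = mulK71 ((u : 𝓞 K) : K) p := rfl

theorem mulK71_mul (l l' : K) (p : Pair671 K) : mulK71 (l * l') p = mulK71 l (mulK71 l' p) := by
  unfold mulK71
  rw [map_mul, mul_assoc, mul_assoc]

theorem mulK71_one (p : Pair671 K) : mulK71 (1 : K) p = p := by
  unfold mulK71
  rw [map_one, one_mul, one_mul]

theorem mulK71_comm (l l' : K) (p : Pair671 K) :
    mulK71 l (mulK71 l' p) = mulK71 l' (mulK71 l p) := by
  rw [← mulK71_mul, ← mulK71_mul, mul_comm]

theorem mulK71_inv_cancel {l : K} (hl : l ≠ 0) (p : Pair671 K) :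
    mulK71 l (mulK71 l⁻¹ p) = p := by
  rw [← mulK71_mul, mul_inv_cancel₀ hl, mulK71_one]

theorem mulK71_cancel_inv {l : K} (hl : l ≠ 0) (p : Pair671 K) :
    mulK71 l⁻¹ (mulK71 l p) = p := by
  rw [← mulK71_mul, inv_mul_cancel₀ hl, mulK71_one]

theorem mulK71_injective {l : K} (hl : l ≠ 0) : Function.Injective (mulK71 (K := K) l) :=
  fun p q h => by
    rw [← mulK71_cancel_inv hl p, h, mulK71_cancel_inv hl q]

theorem unit_ne_zero71 (u : (𝓞 K)ˣ) : (((u : 𝓞 K) : K)) ≠ 0 :=
  fun h => u.ne_zero (RingOfIntegers.coe_eq_zero_iff.mp h)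

/-- `∏_{w ∣ ∞} |l|_w ^ [K_w : ℝ]` (`= |N l|`). -/
def nrm71 (l : K) : ℝ := ∏ w : InfinitePlace K, w l ^ w.mult

theorem nrm71_pos {l : K} (hl : l ≠ 0) : 0 < nrm71 l :=
  Finset.prod_pos fun w _ => pow_pos (w.pos_iff.mpr hl) _

theorem nrm71_inv (l : K) : nrm71 l⁻¹ = (nrm71 l)⁻¹ := by
  unfold nrm71
  rw [← Finset.prod_inv_distrib]
  exact Finset.prod_congr rfl fun w _ => by rw [map_inv₀, inv_pow]

theorem pairGauge671_mulK71 (l : K) (p : Pair671 K) :
    pairGauge671 (mulK71 l p) = nrm71 l * pairGauge671 p := by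
  unfold nrm71
  rw [pairGauge671_eq_prod, pairGauge671_eq_prod, ← Finset.prod_mul_distrib]
  refine Finset.prod_congr rfl fun w _ => ?_
  unfold mulK71
  rw [pairNorm671_mul, normAtPlace_apply, mul_pow]

/-- The cone is stable under the roots of unity, in both directions. -/
theorem torsion_smul_mem_cone_iff71 {ζ : (𝓞 K)ˣ} (hζ : ζ ∈ torsion K) (z : Pair671 K) :
    unitPair671 ζ z ∈ pairCone671 K ↔ z ∈ pairCone671 K := by
  constructor
  · intro h
    have h1 := (unit_smul_mem_pairCone671_iff h ζ⁻¹).mpr (inv_mem hζ)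
    rwa [← unitPair671_mul, inv_mul_cancel, unitPair671_one] at h1
  · intro h
    exact (unit_smul_mem_pairCone671_iff h ζ).mpr hζ

open scoped Classical in
/-- A choice of an element in a set of units (`1` if the set is empty). -/
def selUnit71 (s : Set (𝓞 K)ˣ) : (𝓞 K)ˣ := if h : s.Nonempty then h.some else 1

theorem selUnit71_mem {s : Set (𝓞 K)ˣ} (h : s.Nonempty) : selUnit71 s ∈ s := by
  unfold selUnit71
  rw [dif_pos h]
  exact h.some_mem

/-- The units which move `l⁻¹ p` into the cone. -/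
def coneUnits71 (l : K) (p : Pair671 K) : Set (𝓞 K)ˣ :=
  {u | unitPair671 u (mulK71 l⁻¹ p) ∈ pairCone671 K}

/-- `p ↦` the chosen representative in the cone of the orbit of `l⁻¹ p`. -/
def coneMap71 (l : K) (p : Pair671 K) : Pair671 K :=
  unitPair671 (selUnit71 (coneUnits71 l p)) (mulK71 l⁻¹ p)

theorem coneUnits71_nonempty {l : K} (hl : l ≠ 0) {p : Pair671 K} (hp : p ∈ pairCone671 K) :
    (coneUnits71 l p).Nonempty := by
  have h1 : pairGauge671 (mulK71 l⁻¹ p) ≠ 0 := by
    rw [pairGauge671_mulK71]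
    exact mul_ne_zero (nrm71_pos (inv_ne_zero hl)).ne' (pairGauge671_ne_zero_of_mem_cone hp)
  exact exists_unit_smul_mem_pairCone671 h1

theorem coneMap71_mem_cone {l : K} (hl : l ≠ 0) {p : Pair671 K} (hp : p ∈ pairCone671 K) :
    coneMap71 l p ∈ pairCone671 K :=
  selUnit71_mem (coneUnits71_nonempty hl hp)

theorem pairGauge671_coneMap71 (l : K) (p : Pair671 K) :
    pairGauge671 (coneMap71 l p) = pairGauge671 p / nrm71 l := by
  unfold coneMap71
  rw [pairGauge671_unit_smul, pairGauge671_mulK71, nrm71_inv, inv_mul_eq_div]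

theorem coneMap71_injOn {l : K} (hl : l ≠ 0) :
    Set.InjOn (coneMap71 (K := K) l) (pairCone671 K) := by
  intro p hp q hq hpq
  set u := selUnit71 (coneUnits71 l p) with hu
  set v := selUnit71 (coneUnits71 l q) with hv
  have hpq' : unitPair671 u (mulK71 l⁻¹ p) = unitPair671 v (mulK71 l⁻¹ q) := hpq
  -- `p = (u⁻¹ v) q`
  have h1 : unitPair671 (u⁻¹ * v) q = p := by
    have h2 : unitPair671 v q = unitPair671 u p := by
      have h3 := congrArg (mulK71 l) hpq'
      rw [unitPair671_eq_mulK71, unitPair671_eq_mulK71, mulK71_comm l, mulK71_comm l (v : K),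
        mulK71_inv_cancel hl, mulK71_inv_cancel hl] at h3
      exact h3.symm
    rw [unitPair671_mul, h2, ← unitPair671_mul, inv_mul_cancel, unitPair671_one]
  have hζ : u⁻¹ * v ∈ torsion K :=
    (unit_smul_mem_pairCone671_iff hq (u⁻¹ * v)).mp (by rw [h1]; exact hp)
  -- the two sets of units agree
  have hsets : coneUnits71 l p = coneUnits71 l q := by
    ext w
    unfold coneUnits71
    rw [Set.mem_ofPred_eq, Set.mem_ofPred_eq, ← h1]
    have h4 : unitPair671 w (mulK71 l⁻¹ (unitPair671 (u⁻¹ * v) q))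
        = unitPair671 (u⁻¹ * v) (unitPair671 w (mulK71 l⁻¹ q)) := by
      simp only [unitPair671_eq_mulK71]
      rw [mulK71_comm l⁻¹, mulK71_comm ((w : 𝓞 K) : K)]
    rw [h4]
    exact torsion_smul_mem_cone_iff71 hζ _
  have huv : u = v := by rw [hu, hv, hsets]
  rw [huv] at hpq'
  have h5 : mulK71 l⁻¹ p = mulK71 l⁻¹ q := by
    have := congrArg (unitPair671 v⁻¹) hpq'
    rwa [← unitPair671_mul, ← unitPair671_mul, inv_mul_cancel, unitPair671_one,
      unitPair671_one] at this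
  exact mulK71_injective (inv_ne_zero hl) h5

/-- **Change of the lattice by `l ∈ Kˣ`.**  If `L` is stable under the units, the points `p` of
the cone with gauge `≤ B` and `l⁻¹ p ∈ L` inject into the points of `L` in the cone with gauge
`≤ B / |N l|`. -/
theorem ncard_mulK_le71 (L : Set (Pair671 K))
    (hL : ∀ (u : (𝓞 K)ˣ) (p : Pair671 K), p ∈ L → unitPair671 u p ∈ L)
    {l : K} (hl : l ≠ 0) (B : ℝ) (S : Set (Pair671 K))
    (hS : ∀ p ∈ S, p ∈ pairCone671 K ∧ pairGauge671 p ≤ B ∧ mulK71 l⁻¹ p ∈ L)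
    (hfin : (coneSet71 L (B / nrm71 l)).Finite) :
    S.ncard ≤ (coneSet71 L (B / nrm71 l)).ncard := by
  have hN : 0 < nrm71 l := nrm71_pos hl
  refine Set.ncard_le_ncard_of_injOn (coneMap71 l) (fun p hp => ?_)
    ((coneMap71_injOn hl).mono fun p hp => (hS p hp).1) hfin
  refine ⟨coneMap71_mem_cone hl (hS p hp).1, ?_, hL _ _ (hS p hp).2.2⟩
  rw [pairGauge671_coneMap71]
  exact div_le_div_of_nonneg_right (hS p hp).2.1 hN.le

end Fermat.Agent.LT.T7.H71

end

end
-- ===== PACK-END LT/T7/H71/TailLat.lean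

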