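import Mathlib
import Fermat.Agent.Pack.LT2.E6L2
import Fermat.Agent.Pack.LT2.E6L1
import Fermat.Agent.Pack.LT2.E3L2
import Fermat.Agent.Pack.LT2.E2L2
import Fermat.Agent.Pack.LT2.E5L1
import Fermat.Agent.Pack.LT2.E0L2
import Fermat.Agent.Pack.LT2.E0L1
import Fermat.Agent.Pack.LT2.E2L1
import Fermat.Agent.Pack.LT2.E4L3
import Fermat.Agent.Pack.LT2.E5L3
import Fermat.Agent.Pack.LT2.E4L2
import Fermat.Agent.Pack.LT2.E1L2
import Fermat.Agent.Pack.LT2.E6L0
import Fermat.Agent.Pack.LT2.E3L1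
import Fermat.Agent.Pack.LT2.E6L3

set_option linter.all false

-- ===== PACK-BEGIN LT/A2/Top.lean
section


/-!
# Row LT, tower A2 -- the PROVED tops (helper950)

* `a2_of_theta_galSeed : ThetaC → GalSeedC → A2_556` (level 1).
-/

set_option autoImplicit false

open IsDedekindDomain NumberField AutomorphicForm

noncomputable section

namespace Fermat.Agent.LT.A2

open Fermat.Agent.LT.H130 Fermat.Agent.LT.H556

/-- **Tower A2, level 1**: the wall leaf `A2_556` (VERBATIM, helper556) from `ThetaC` and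
`GalSeedC`. -/
theorem a2_of_theta_galSeed (hθ : ThetaC) (hg : GalSeedC) : WT.A2_556 := by
  intro ρ Ψ hyp
  obtain ⟨ι, hNF, L, hF, hNL, hAlg, χ, h2, hcx, hχ, hfin, hns, hmatch⟩ := hg ρ Ψ hyp
  obtain ⟨π, hcusp, hind⟩ := hθ (fieldE ρ) L h2 hcx χ hχ hfin hns
  exact ⟨ι, hNF, π, hcusp, hmatch π hind⟩

end Fermat.Agent.LT.A2

end

end
-- ===== PACK-END LT/A2/Top.lean

-- ===== PACK-BEGIN LT/H470/Mobius.lean
section



/-!
# Row LT, tower A2, pre-leaf ARCH-MVP (helper470): the mean-value property in every frame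

Mathlib only.  `jpt m = m • j` is the point of `ℍ³` attached to `m ∈ GL₂(ℂ)` (`j = (0,0,1)`;
`jpt (n(z) diag(y, 1) k) = (z, y)` for `k ∈ U(2)`, `y > 0`).

**Theorem** (`frameMVP470`).  For every solution `f` of the hyperbolic Laplace equation on the upper
half-space (`EigenData470`), every `γ` with `det γ ≠ 0` and every `d > 0`

    ∫ α in 0..2π, ∫ β in 0..π, f (jpt (γ * (rotZ α * rotY β * torus d))) * sin β
      = 4π (d / sinh d) * f (jpt γ).

So `g ↦ f (jpt g)` has the mean-value property of `Fermat.Agent.LT.H556.A0.MeanValueComplex`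
(spherical parameter `0`) on `GL₂(ℂ)`; `rotZ470`, `rotY470`, `torus470` are the matrices
`A0.rotZ`, `A0.rotY`, `A0.torus` verbatim.

Proof: `mvp_H3_470` (frame `γ = 1`), invariance of the equation under the generators
(`Generators.lean`), Bruhat decomposition.
-/

set_option autoImplicit false
set_option linter.unusedSimpArgs false
set_option linter.unnecessarySeqFocus false

open Real ComplexConjugate

noncomputable section

namespace Fermat.Agent.LT.H470

/-- `|c|² + |e|²`. -/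
def jN (c e : ℂ) : ℝ := Complex.normSq c + Complex.normSq e

/-- The point `[[a, b], [c, e]] • j` of `ℍ³`, `j = (0, 0, 1)`. -/
def jptE (a b c e : ℂ) : E3 :=
  (((b * conj e + a * conj c) / (jN c e : ℂ)).re, ((b * conj e + a * conj c) / (jN c e : ℂ)).im,
    ‖a * e - b * c‖ / jN c e)

theorem jN_pos470 {c e : ℂ} (h : c ≠ 0 ∨ e ≠ 0) : 0 < jN c e := by
  unfold jN
  rcases h with h | h
  · have := Complex.normSq_pos.mpr h
    have := Complex.normSq_nonneg e
    linarith
  · have := Complex.normSq_pos.mpr h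
    have := Complex.normSq_nonneg c
    linarith

theorem jptE_upper470 (a' b' a b c e : ℂ) (h : c ≠ 0 ∨ e ≠ 0) :
    jptE (a' * a + b' * c) (a' * b + b' * e) c e
      = affMap a'.re a'.im b'.re b'.im ‖a'‖ (jptE a b c e) := by
  have hN := (jN_pos470 h).ne'
  have hNc : ((jN c e : ℝ) : ℂ) ≠ 0 := by exact_mod_cast hN
  have hz : ((a' * b + b' * e) * conj e + (a' * a + b' * c) * conj c) / (jN c e : ℂ)
      = a' * ((b * conj e + a * conj c) / (jN c e : ℂ)) + b' := by
    have h1 : (jN c e : ℂ) = c * conj c + e * conj e := by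
      unfold jN
      rw [Complex.mul_conj, Complex.mul_conj]
      push_cast; ring
    field_simp
    rw [h1]
    ring
  have hy : ‖(a' * a + b' * c) * e - (a' * b + b' * e) * c‖ = ‖a'‖ * ‖a * e - b * c‖ := by
    rw [← norm_mul]
    congr 1
    ring
  unfold jptE affMap
  rw [hz, hy]
  simp only [Complex.add_re, Complex.mul_re, Complex.add_im, Complex.mul_im]
  refine Prod.ext ?_ (Prod.ext ?_ ?_)
  · simp
  · simp; ring
  · simp; ring

theorem ne_of_det_ne470 {a b c e : ℂ} (h : a * e - b * c ≠ 0) :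
    (a ≠ 0 ∨ b ≠ 0) ∧ (c ≠ 0 ∨ e ≠ 0) := by
  constructor
  · by_contra hh
    rw [not_or, not_not, not_not] at hh
    apply h; rw [hh.1, hh.2]; ring
  · by_contra hh
    rw [not_or, not_not, not_not] at hh
    apply h; rw [hh.1, hh.2]; ring

theorem jptE_inv470 (a b c e : ℂ) (h : a * e - b * c ≠ 0) :
    jptE (-c) (-e) a b = invMap (jptE a b c e) := by
  obtain ⟨hab, hce⟩ := ne_of_det_ne470 h
  have hN := (jN_pos470 hce).ne'
  have hN' := (jN_pos470 hab).ne'
  have hNd : jN c e = c.re ^ 2 + c.im ^ 2 + e.re ^ 2 + e.im ^ 2 := by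
    simp only [jN, Complex.normSq_apply]; ring
  have hN'd : jN a b = a.re ^ 2 + a.im ^ 2 + b.re ^ 2 + b.im ^ 2 := by
    simp only [jN, Complex.normSq_apply]; ring
  have hdet1 : ‖-c * b - -e * a‖ = ‖a * e - b * c‖ := by
    congr 1; ring
  have hD : ‖a * e - b * c‖ ^ 2
      = (a.re * e.re - a.im * e.im - (b.re * c.re - b.im * c.im)) ^ 2
        + (a.re * e.im + a.im * e.re - (b.re * c.im + b.im * c.re)) ^ 2 := by
    rw [Complex.sq_norm, Complex.normSq_apply]
    simp only [Complex.sub_re, Complex.mul_re, Complex.sub_im, Complex.mul_im]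
    ring
  have hQre : (b * conj e + a * conj c).re
      = b.re * e.re + b.im * e.im + (a.re * c.re + a.im * c.im) := by
    simp only [Complex.add_re, Complex.mul_re, Complex.conj_re, Complex.conj_im]
    ring
  have hQim : (b * conj e + a * conj c).im
      = b.im * e.re - b.re * e.im + (a.im * c.re - a.re * c.im) := by
    simp only [Complex.add_im, Complex.mul_im, Complex.conj_re, Complex.conj_im]
    ring
  have hQ're : (-e * conj b + -c * conj a).re
      = -(b.re * e.re + b.im * e.im + (a.re * c.re + a.im * c.im)) := by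
    simp only [Complex.add_re, Complex.mul_re, Complex.conj_re, Complex.conj_im,
      Complex.neg_re, Complex.neg_im]
    ring
  have hQ'im : (-e * conj b + -c * conj a).im
      = b.im * e.re - b.re * e.im + (a.im * c.re - a.re * c.im) := by
    simp only [Complex.add_im, Complex.mul_im, Complex.conj_re, Complex.conj_im,
      Complex.neg_re, Complex.neg_im]
    ring
  have hL : (b.re * e.re + b.im * e.im + (a.re * c.re + a.im * c.im)) ^ 2
      + (b.im * e.re - b.re * e.im + (a.im * c.re - a.re * c.im)) ^ 2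
      + ‖a * e - b * c‖ ^ 2 = jN c e * jN a b := by
    rw [hD, hNd, hN'd]; ring
  have hR : iR ((b * conj e + a * conj c) / (jN c e : ℂ)).re
      ((b * conj e + a * conj c) / (jN c e : ℂ)).im (‖a * e - b * c‖ / jN c e)
      = jN a b / jN c e := by
    unfold iR
    rw [Complex.div_ofReal_re, Complex.div_ofReal_im, hQre, hQim]
    field_simp
    linear_combination hL
  unfold jptE invMap
  simp only [hR, hdet1]
  rw [Complex.div_ofReal_re, Complex.div_ofReal_im, Complex.div_ofReal_re, Complex.div_ofReal_im,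
    hQre, hQim, hQ're, hQ'im]
  refine Prod.ext ?_ (Prod.ext ?_ ?_)
  · simp only; field_simp
  · simp only; field_simp
  · simp only; field_simp

theorem jptE_smul470 (l a b c e : ℂ) (hl : l ≠ 0) (h : c ≠ 0 ∨ e ≠ 0) :
    jptE (l * a) (l * b) (l * c) (l * e) = jptE a b c e := by
  have hN := (jN_pos470 h).ne'
  have hl' : Complex.normSq l ≠ 0 := (Complex.normSq_pos.mpr hl).ne'
  have hNl : jN (l * c) (l * e) = Complex.normSq l * jN c e := by
    simp only [jN, Complex.normSq_mul]; ring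
  have hdet : ‖l * a * (l * e) - l * b * (l * c)‖ = Complex.normSq l * ‖a * e - b * c‖ := by
    have : l * a * (l * e) - l * b * (l * c) = l * l * (a * e - b * c) := by ring
    rw [this, norm_mul, norm_mul, Complex.normSq_eq_norm_sq]
    ring
  have hz : (l * b * conj (l * e) + l * a * conj (l * c)) / ((jN (l * c) (l * e) : ℝ) : ℂ)
      = (b * conj e + a * conj c) / ((jN c e : ℝ) : ℂ) := by
    have hNc : ((jN c e : ℝ) : ℂ) ≠ 0 := by exact_mod_cast hN
    have hlc : ((Complex.normSq l : ℝ) : ℂ) ≠ 0 := by exact_mod_cast hl'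
    rw [hNl]
    push_cast
    rw [map_mul, map_mul]
    have hll : l * conj l = (Complex.normSq l : ℂ) := Complex.mul_conj l
    field_simp
    linear_combination ((b * conj e + a * conj c)) * hll
  unfold jptE
  rw [hz, hdet, hNl]
  refine Prod.ext rfl (Prod.ext rfl ?_)
  simp only
  field_simp

/-- `diag(e^{iα/2}, e^{-iα/2})` (same matrix as `A0.rotZ`). -/
def rotZ470 (α : ℝ) : Matrix (Fin 2) (Fin 2) ℂ :=
  !![Complex.exp (Complex.I * ((α / 2 : ℝ) : ℂ)), 0;
     0, Complex.exp (-(Complex.I * ((α / 2 : ℝ) : ℂ)))]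

/-- The rotation matrix of angle `β / 2` (same matrix as `A0.rotY`). -/
def rotY470 (β : ℝ) : Matrix (Fin 2) (Fin 2) ℂ :=
  !![((Real.cos (β / 2) : ℝ) : ℂ), -((Real.sin (β / 2) : ℝ) : ℂ);
     ((Real.sin (β / 2) : ℝ) : ℂ), ((Real.cos (β / 2) : ℝ) : ℂ)]

/-- `diag(e^{d/2}, e^{-d/2})` (same matrix as `A0.torus`). -/
def torus470 (d : ℝ) : Matrix (Fin 2) (Fin 2) ℂ :=
  !![((Real.exp (d / 2) : ℝ) : ℂ), 0;
     0, ((Real.exp (-(d / 2)) : ℝ) : ℂ)]

/-- The frame matrix. -/
def Rm470 (α β d : ℝ) : Matrix (Fin 2) (Fin 2) ℂ := rotZ470 α * rotY470 β * torus470 d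

theorem Rm_entries470 (α β d : ℝ) :
    Rm470 α β d =
      !![Complex.exp (Complex.I * ((α / 2 : ℝ) : ℂ)) * ((Real.cos (β / 2) : ℝ) : ℂ)
            * ((Real.exp (d / 2) : ℝ) : ℂ),
          -(Complex.exp (Complex.I * ((α / 2 : ℝ) : ℂ)) * ((Real.sin (β / 2) : ℝ) : ℂ)
            * ((Real.exp (-(d / 2)) : ℝ) : ℂ));
         Complex.exp (-(Complex.I * ((α / 2 : ℝ) : ℂ))) * ((Real.sin (β / 2) : ℝ) : ℂ)
            * ((Real.exp (d / 2) : ℝ) : ℂ),
          Complex.exp (-(Complex.I * ((α / 2 : ℝ) : ℂ))) * ((Real.cos (β / 2) : ℝ) : ℂ)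
            * ((Real.exp (-(d / 2)) : ℝ) : ℂ)] := by
  unfold Rm470 rotZ470 rotY470 torus470
  ext i j
  fin_cases i <;> fin_cases j <;> simp [Matrix.mul_apply, Fin.sum_univ_two]

theorem jptE_rot470 (α β d : ℝ) :
    jptE (Complex.exp (Complex.I * ((α / 2 : ℝ) : ℂ)) * ((Real.cos (β / 2) : ℝ) : ℂ)
            * ((Real.exp (d / 2) : ℝ) : ℂ))
        (-(Complex.exp (Complex.I * ((α / 2 : ℝ) : ℂ)) * ((Real.sin (β / 2) : ℝ) : ℂ)
            * ((Real.exp (-(d / 2)) : ℝ) : ℂ)))
        (Complex.exp (-(Complex.I * ((α / 2 : ℝ) : ℂ))) * ((Real.sin (β / 2) : ℝ) : ℂ)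
            * ((Real.exp (d / 2) : ℝ) : ℂ))
        (Complex.exp (-(Complex.I * ((α / 2 : ℝ) : ℂ))) * ((Real.cos (β / 2) : ℝ) : ℂ)
            * ((Real.exp (-(d / 2)) : ℝ) : ℂ))
      = polarPt d β α := by
  set u : ℂ := Complex.exp (Complex.I * ((α / 2 : ℝ) : ℂ)) with hu
  set u' : ℂ := Complex.exp (-(Complex.I * ((α / 2 : ℝ) : ℂ))) with hu'
  set C : ℝ := Real.cos (β / 2) with hC
  set S : ℝ := Real.sin (β / 2) with hS
  set E : ℝ := Real.exp (d / 2) with hE
  set E' : ℝ := Real.exp (-(d / 2)) with hE'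
  have f1 : conj u' = u := by
    rw [hu', hu, ← Complex.exp_conj]
    congr 1
    rw [map_neg, map_mul, Complex.conj_I, Complex.conj_ofReal]
    ring
  have f4 : u * u' = 1 := by
    rw [hu, hu', ← Complex.exp_add, add_neg_cancel, Complex.exp_zero]
  have f2 : Complex.normSq u' = 1 := by
    rw [Complex.normSq_eq_norm_sq, hu', Complex.norm_exp]
    simp
  have f3 : u * u = ((Real.cos α : ℝ) : ℂ) + ((Real.sin α : ℝ) : ℂ) * Complex.I := by
    rw [hu, ← Complex.exp_add]
    have : Complex.I * ((α / 2 : ℝ) : ℂ) + Complex.I * ((α / 2 : ℝ) : ℂ) = (α : ℂ) * Complex.I := by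
      push_cast; ring
    rw [this, Complex.exp_mul_I]
    push_cast
    rfl
  have hCS : C ^ 2 + S ^ 2 = 1 := by
    rw [hC, hS]; exact Real.cos_sq_add_sin_sq (β / 2)
  have hcosb : Real.cos β = C ^ 2 - S ^ 2 := by
    have h2 := Real.cos_two_mul (β / 2)
    rw [show 2 * (β / 2) = β by ring] at h2
    rw [h2, hC, hS]
    have := Real.cos_sq_add_sin_sq (β / 2)
    linarith
  have hsinb : Real.sin β = 2 * S * C := by
    have h2 := Real.sin_two_mul (β / 2)
    rw [show 2 * (β / 2) = β by ring] at h2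
    rw [h2]
  have hEE : E ^ 2 = Real.exp d := by
    rw [hE, sq, ← Real.exp_add]; congr 1; ring
  have hEE' : E' ^ 2 = Real.exp (-d) := by
    rw [hE', sq, ← Real.exp_add]; congr 1; ring
  have hEE1 : E * E' = 1 := by
    rw [hE, hE', ← Real.exp_add, add_neg_cancel, Real.exp_zero]
  have hcosh : Real.cosh d = (E ^ 2 + E' ^ 2) / 2 := by
    rw [Real.cosh_eq, hEE, hEE']
  have hsinh : Real.sinh d = (E ^ 2 - E' ^ 2) / 2 := by
    rw [Real.sinh_eq, hEE, hEE']
  have hN : jN (u' * (S : ℂ) * (E : ℂ)) (u' * (C : ℂ) * (E' : ℂ)) = pden d β := by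
    unfold jN pden
    simp only [Complex.normSq_mul, f2, Complex.normSq_ofReal, one_mul]
    rw [hcosh, hsinh, hcosb]
    linear_combination ((E ^ 2 + E' ^ 2) / 2) * hCS
  have hQ : -(u * (S : ℂ) * (E' : ℂ)) * conj (u' * (C : ℂ) * (E' : ℂ))
      + u * (C : ℂ) * (E : ℂ) * conj (u' * (S : ℂ) * (E : ℂ))
      = (((Real.cos α : ℝ) : ℂ) + ((Real.sin α : ℝ) : ℂ) * Complex.I)
        * ((Real.sinh d * Real.sin β : ℝ) : ℂ) := by
    simp only [map_mul, f1, Complex.conj_ofReal]
    rw [← f3, hsinh, hsinb]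
    push_cast
    ring
  have hdet : u * (C : ℂ) * (E : ℂ) * (u' * (C : ℂ) * (E' : ℂ))
      - -(u * (S : ℂ) * (E' : ℂ)) * (u' * (S : ℂ) * (E : ℂ)) = 1 := by
    have h1 : ((E : ℂ)) * (E' : ℂ) = 1 := by exact_mod_cast hEE1
    have h2 : ((C : ℂ)) ^ 2 + (S : ℂ) ^ 2 = 1 := by exact_mod_cast hCS
    linear_combination ((C : ℂ) ^ 2 * (E : ℂ) * (E' : ℂ) + (S : ℂ) ^ 2 * (E : ℂ) * (E' : ℂ)) * f4
      + ((C : ℂ) ^ 2 + (S : ℂ) ^ 2) * h1 + h2
  unfold jptE
  rw [hN, hQ, hdet]
  unfold polarPt PX1 PX2 PY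
  refine Prod.ext ?_ (Prod.ext ?_ ?_)
  · simp only [Complex.div_ofReal_re]
    simp only [Complex.mul_re, Complex.add_re, Complex.add_im, Complex.ofReal_re,
      Complex.ofReal_im, Complex.mul_im, Complex.I_re, Complex.I_im]
    ring
  · simp only [Complex.div_ofReal_im]
    simp only [Complex.mul_re, Complex.add_re, Complex.add_im, Complex.ofReal_re,
      Complex.ofReal_im, Complex.mul_im, Complex.I_re, Complex.I_im]
    ring
  · simp


/-! ## Matrices -/

/-- The point `m • j` of `ℍ³`. -/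
def jpt (m : Matrix (Fin 2) (Fin 2) ℂ) : E3 := jptE (m 0 0) (m 0 1) (m 1 0) (m 1 1)

theorem jpt_Rm470 (α β d : ℝ) : jpt (Rm470 α β d) = polarPt d β α := by
  rw [Rm_entries470]
  exact jptE_rot470 α β d

theorem jpt_one470 : jpt (1 : Matrix (Fin 2) (Fin 2) ℂ) = (0, 0, 1) := by
  simp [jpt, jptE, jN]

theorem det_Rm470 (α β d : ℝ) : (Rm470 α β d).det = 1 := by
  unfold Rm470 rotZ470 rotY470 torus470
  rw [Matrix.det_mul, Matrix.det_mul, Matrix.det_fin_two_of, Matrix.det_fin_two_of,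
    Matrix.det_fin_two_of]
  have h1 : Complex.exp (Complex.I * ((α / 2 : ℝ) : ℂ))
      * Complex.exp (-(Complex.I * ((α / 2 : ℝ) : ℂ))) = 1 := by
    rw [← Complex.exp_add, add_neg_cancel, Complex.exp_zero]
  have h2 : ((Real.cos (β / 2) : ℝ) : ℂ) * ((Real.cos (β / 2) : ℝ) : ℂ)
      + ((Real.sin (β / 2) : ℝ) : ℂ) * ((Real.sin (β / 2) : ℝ) : ℂ) = 1 := by
    rw [← Complex.ofReal_mul, ← Complex.ofReal_mul, ← Complex.ofReal_add]
    have : Real.cos (β / 2) * Real.cos (β / 2) + Real.sin (β / 2) * Real.sin (β / 2) = 1 := by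
      have := Real.cos_sq_add_sin_sq (β / 2)
      linear_combination this
    rw [this, Complex.ofReal_one]
  have h3 : ((Real.exp (d / 2) : ℝ) : ℂ) * ((Real.exp (-(d / 2)) : ℝ) : ℂ) = 1 := by
    have : Real.exp (d / 2) * Real.exp (-(d / 2)) = 1 := by
      rw [← Real.exp_add, add_neg_cancel, Real.exp_zero]
    exact_mod_cast this
  linear_combination (((Real.cos (β / 2) : ℝ) : ℂ) * ((Real.cos (β / 2) : ℝ) : ℂ)
      + ((Real.sin (β / 2) : ℝ) : ℂ) * ((Real.sin (β / 2) : ℝ) : ℂ))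
      * ((Real.exp (d / 2) : ℝ) : ℂ) * ((Real.exp (-(d / 2)) : ℝ) : ℂ) * h1
    + ((Real.exp (d / 2) : ℝ) : ℂ) * ((Real.exp (-(d / 2)) : ℝ) : ℂ) * h2 + h3

theorem row_ne_of_det_ne470 {m : Matrix (Fin 2) (Fin 2) ℂ} (h : m.det ≠ 0) :
    m 1 0 ≠ 0 ∨ m 1 1 ≠ 0 := by
  rw [Matrix.det_fin_two] at h
  exact (ne_of_det_ne470 h).2

theorem jpt_upper470 (a b : ℂ) {m : Matrix (Fin 2) (Fin 2) ℂ} (h : m.det ≠ 0) :
    jpt (!![a, b; 0, 1] * m) = affMap a.re a.im b.re b.im ‖a‖ (jpt m) := by
  have := jptE_upper470 a b (m 0 0) (m 0 1) (m 1 0) (m 1 1) (row_ne_of_det_ne470 h)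
  unfold jpt
  rw [← this]
  simp [Matrix.mul_apply, Fin.sum_univ_two]

theorem jpt_inv470 {m : Matrix (Fin 2) (Fin 2) ℂ} (h : m.det ≠ 0) :
    jpt (!![0, -1; 1, 0] * m) = invMap (jpt m) := by
  rw [Matrix.det_fin_two] at h
  have := jptE_inv470 (m 0 0) (m 0 1) (m 1 0) (m 1 1) h
  unfold jpt
  rw [← this]
  simp [Matrix.mul_apply, Fin.sum_univ_two]

theorem jpt_smul470 (l : ℂ) (hl : l ≠ 0) {m : Matrix (Fin 2) (Fin 2) ℂ} (h : m.det ≠ 0) :
    jpt (l • m) = jpt m := by
  have := jptE_smul470 l (m 0 0) (m 0 1) (m 1 0) (m 1 1) hl (row_ne_of_det_ne470 h)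
  unfold jpt
  rw [← this]
  simp [Matrix.smul_apply]

/-! ## The mean-value property in the frame `γ` -/

/-- The mean-value property (spherical parameter `0`) of all solutions in the frame `γ`. -/
def FrameMVP470 (γ : Matrix (Fin 2) (Fin 2) ℂ) : Prop :=
  ∀ (f : E3 → ℂ) (f' : E3 → E3 →L[ℝ] ℂ) (f'' : E3 → E3 →L[ℝ] E3 →L[ℝ] ℂ),
    EigenData470 f f' f'' → ∀ d : ℝ, 0 < d →
      ∫ α in (0 : ℝ)..(2 * π), ∫ β in (0 : ℝ)..π,
          f (jpt (γ * Rm470 α β d)) * ((sin β : ℝ) : ℂ)
        = ((4 * π * (d / sinh d) : ℝ) : ℂ) * f (jpt γ)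

/-- Invariant of the Bruhat induction. -/
def Good470 (γ : Matrix (Fin 2) (Fin 2) ℂ) : Prop := γ.det ≠ 0 ∧ FrameMVP470 γ

theorem good_one470 : Good470 1 := by
  refine ⟨by simp, ?_⟩
  intro f f' f'' h d hd
  simp only [one_mul, jpt_Rm470, jpt_one470]
  exact mvp_H3_470 h hd

theorem det_mul_Rm470 {γ : Matrix (Fin 2) (Fin 2) ℂ} (hγ : γ.det ≠ 0) (α β d : ℝ) :
    (γ * Rm470 α β d).det ≠ 0 := by
  rw [Matrix.det_mul, det_Rm470, mul_one]
  exact hγ

theorem good_upper470 {γ : Matrix (Fin 2) (Fin 2) ℂ} (h : Good470 γ) (a b : ℂ) (ha : a ≠ 0) :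
    Good470 (!![a, b; 0, 1] * γ) := by
  refine ⟨?_, ?_⟩
  · rw [Matrix.det_mul, Matrix.det_fin_two_of]
    simpa using mul_ne_zero ha h.1
  · intro f f' f'' hf d hd
    have hr : 0 < ‖a‖ := norm_pos_iff.mpr ha
    have hr2 : ‖a‖ ^ 2 = a.re ^ 2 + a.im ^ 2 := by
      rw [Complex.sq_norm, Complex.normSq_apply]; ring
    have hg := hf.pullback (confMap_affMap470 a.re a.im b.re b.im ‖a‖ hr hr2)
    have key := h.2 _ _ _ hg d hd
    simp only [Function.comp_apply] at key
    rw [← jpt_upper470 a b h.1] at key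
    rw [← key]
    congr 1
    funext α
    congr 1
    funext β
    rw [Matrix.mul_assoc, jpt_upper470 a b (det_mul_Rm470 h.1 α β d)]

theorem good_inv470 {γ : Matrix (Fin 2) (Fin 2) ℂ} (h : Good470 γ) :
    Good470 (!![0, -1; 1, 0] * γ) := by
  refine ⟨?_, ?_⟩
  · rw [Matrix.det_mul, Matrix.det_fin_two_of]
    simpa using h.1
  · intro f f' f'' hf d hd
    have hg := hf.pullback confMap_invMap470
    have key := h.2 _ _ _ hg d hd
    simp only [Function.comp_apply] at key
    rw [← jpt_inv470 h.1] at key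
    rw [← key]
    congr 1
    funext α
    congr 1
    funext β
    rw [Matrix.mul_assoc, jpt_inv470 (det_mul_Rm470 h.1 α β d)]

theorem good_smul470 {γ : Matrix (Fin 2) (Fin 2) ℂ} (h : Good470 γ) (l : ℂ) (hl : l ≠ 0) :
    Good470 (l • γ) := by
  refine ⟨?_, ?_⟩
  · rw [Matrix.det_smul]
    simpa using mul_ne_zero (pow_ne_zero 2 hl) h.1
  · intro f f' f'' hf d hd
    have key := h.2 _ _ _ hf d hd
    rw [jpt_smul470 l hl h.1, ← key]
    congr 1
    funext α
    congr 1
    funext β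
    rw [Matrix.smul_mul, jpt_smul470 l hl (det_mul_Rm470 h.1 α β d)]

/-- **The mean-value property in every frame.** -/
theorem frameMVP470 (γ : Matrix (Fin 2) (Fin 2) ℂ) (hγ : γ.det ≠ 0) : FrameMVP470 γ := by
  have hdet := hγ
  rw [Matrix.det_fin_two] at hdet
  by_cases hc : γ 1 0 = 0
  · -- upper triangular
    have he : γ 1 1 ≠ 0 := by
      intro he; apply hdet; rw [hc, he]; ring
    have ha : γ 0 0 ≠ 0 := by
      intro ha; apply hdet; rw [hc, ha]; ring
    have hG := good_smul470 (good_upper470 good_one470 (γ 0 0 / γ 1 1) (γ 0 1 / γ 1 1)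
      (div_ne_zero ha he)) (γ 1 1) he
    have heq : γ 1 1 • (!![γ 0 0 / γ 1 1, γ 0 1 / γ 1 1; 0, 1]
        * (1 : Matrix (Fin 2) (Fin 2) ℂ)) = γ := by
      ext i j
      fin_cases i <;> fin_cases j <;> simp [hc] <;> field_simp
    rw [heq] at hG
    exact hG.2
  · -- big cell
    have hδ : (γ 0 0 * γ 1 1 - γ 0 1 * γ 1 0) / γ 1 0 ^ 2 ≠ 0 :=
      div_ne_zero hdet (pow_ne_zero 2 hc)
    have hG := good_smul470 (good_upper470 (good_upper470 (good_inv470
      (good_upper470 good_one470 1 (γ 1 1 / γ 1 0) one_ne_zero))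
      ((γ 0 0 * γ 1 1 - γ 0 1 * γ 1 0) / γ 1 0 ^ 2) 0 hδ) 1 (γ 0 0 / γ 1 0) one_ne_zero)
      (γ 1 0) hc
    have heq : γ 1 0 • (!![1, γ 0 0 / γ 1 0; 0, 1]
        * (!![(γ 0 0 * γ 1 1 - γ 0 1 * γ 1 0) / γ 1 0 ^ 2, 0; 0, 1]
          * (!![0, -1; 1, 0] * (!![1, γ 1 1 / γ 1 0; 0, 1]
            * (1 : Matrix (Fin 2) (Fin 2) ℂ))))) = γ := by
      ext i j
      fin_cases i <;> fin_cases j <;>
        simp [Matrix.mul_apply, Fin.sum_univ_two] <;> field_simp <;> ring
    rw [heq] at hG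
    exact hG.2

end Fermat.Agent.LT.H470

end
end
-- ===== PACK-END LT/H470/Mobius.lean

-- ===== PACK-BEGIN LT/T3/H465/EKMix.lean
section




/-!
# Row LT, tower T3, leaf T3.14 (`EKIdealC`), part 2: the mixed sum (helper465), OFF-MAIN

`hasSum_mix465`: for `f` EK with respect to `α`, a test function `w` and continuous maps
`a, b : G → G`,

  `∑_j ∫_x ∫_y w(y) f(a(y)⁻¹ n(x) γʲ b(y)) dμ(y) dν(x) = 0`   (`HasSum` over `j ∈ ℤ`).

Inputs: Fubini on `𝔸_K × GL₂(𝔸_K)` and the finiteness of `{ξ ∈ K : ξ ∈ C}` for compact `C ⊂ 𝔸_K`.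
-/

set_option autoImplicit false

open IsDedekindDomain NumberField MeasureTheory
open Fermat.Agent.LT.H556.A0
open scoped Pointwise

noncomputable section

namespace Fermat.Agent.LT.T3.H465

open Fermat.Agent.LT.T3

variable {K : Type} [Field K] [NumberField K]

/-- The integrand of the mixed EK sum. -/
def mix465 (f w : G K → ℂ) (a b : G K → G K) (γ : G K) (p : Adl K × G K) : ℂ :=
  w p.2 * f ((a p.2)⁻¹ * unip K p.1 * γ * b p.2)

theorem continuous_mix465 {f w : G K → ℂ} {a b : G K → G K} (hf : Continuous f)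
    (hw : Continuous w) (ha : Continuous a) (hb : Continuous b) (γ : G K) :
    Continuous (mix465 f w a b γ) := by
  unfold mix465
  have hu := continuous_unip465 K
  have h1 : Continuous fun p : Adl K × G K => (a p.2)⁻¹ * unip K p.1 * γ * b p.2 :=
    ((((ha.comp continuous_snd).inv).mul (hu.comp continuous_fst)).mul continuous_const).mul
      (hb.comp continuous_snd)
  exact (hw.comp continuous_snd).mul (hf.comp h1)

/-- The compact set which contains `n(x) γ` as soon as the integrand does not vanish. -/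
def mixSet465 (f w : G K → ℂ) (a b : G K → G K) : Set (G K) :=
  (a '' tsupport w) * tsupport f * (b '' tsupport w)⁻¹

theorem isCompact_mixSet465 {f w : G K → ℂ} {a b : G K → G K}
    (hf : HasCompactSupport f) (hw : HasCompactSupport w) (ha : Continuous a)
    (hb : Continuous b) : IsCompact (mixSet465 f w a b) :=
  ((IsCompact.image hw ha).mul hf).mul (IsCompact.image hw hb).inv

theorem mem_mixSet465 {f w : G K → ℂ} {a b : G K → G K} {γ : G K} {x : Adl K} {y : G K}
    (hw0 : w y ≠ 0) (hf0 : f ((a y)⁻¹ * unip K x * γ * b y) ≠ 0) :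
    unip K x * γ ∈ mixSet465 f w a b := by
  have hy : y ∈ tsupport w := subset_tsupport _ hw0
  have h1 : a y * ((a y)⁻¹ * unip K x * γ * b y) * (b y)⁻¹ ∈ mixSet465 f w a b :=
    Set.mul_mem_mul (Set.mul_mem_mul ⟨y, hy, rfl⟩ (subset_tsupport _ hf0))
      (Set.inv_mem_inv.mpr ⟨y, hy, rfl⟩)
  have h2 : a y * ((a y)⁻¹ * unip K x * γ * b y) * (b y)⁻¹ = unip K x * γ := by group
  rwa [h2] at h1

theorem hasCompactSupport_mix465 [T2Space (Adl K)] [T2Space (G K)] {f w : G K → ℂ}
    {a b : G K → G K} (hf : HasCompactSupport f) (hw : HasCompactSupport w)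
    (ha : Continuous a) (hb : Continuous b) (γ : G K) :
    HasCompactSupport (mix465 f w a b γ) := by
  have hC : IsCompact (mixSet465 f w a b * {γ⁻¹}) :=
    (isCompact_mixSet465 hf hw ha hb).mul isCompact_singleton
  have hCx : IsCompact ((fun g : G K => (g : Matrix (Fin 2) (Fin 2) (Adl K)) 0 1) ''
      (mixSet465 f w a b * {γ⁻¹})) := hC.image (continuous_entry465 K 0 1)
  refine HasCompactSupport.intro (hCx.prod hw) ?_
  rintro ⟨x, y⟩ hxy
  by_contra h0
  apply hxy
  have hw0 : w y ≠ 0 := left_ne_zero_of_mul h0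
  have hf0 : f ((a y)⁻¹ * unip K x * γ * b y) ≠ 0 := right_ne_zero_of_mul h0
  refine ⟨⟨unip K x, ?_, unip_entry01_465 K x⟩, subset_tsupport _ hw0⟩
  have h1 := Set.mul_mem_mul (mem_mixSet465 hw0 hf0) (Set.mem_singleton γ⁻¹)
  rwa [mul_inv_cancel_right] at h1

/-- Finiteness of the set of exponents, `α` of infinite order. -/
theorem finite_exponents465
    (hfin : ∀ C₁ : Set (Adl K), IsCompact C₁ → {ξ : K | emb K ξ ∈ C₁}.Finite)
    {α : Kˣ} (hα : ¬ IsOfFinOrder α) {C : Set (G K)} (hC : IsCompact C) :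
    {j : ℤ | ∃ x : Adl K, unip K x * torK K α ^ j ∈ C}.Finite := by
  have hC₁ : IsCompact ((fun g : G K => (g : Matrix (Fin 2) (Fin 2) (Adl K)) 0 0) '' C) :=
    hC.image (continuous_entry465 K 0 0)
  have hΞ := hfin _ hC₁
  have hinj : Function.Injective (fun j : ℤ => ((α ^ j : Kˣ) : K)) :=
    Units.val_injective.comp (injective_zpow_iff_not_isOfFinOrder.mpr hα)
  refine (hΞ.preimage (hinj.injOn)).subset ?_
  rintro j ⟨x, hx⟩
  refine ⟨unip K x * torK K α ^ j, hx, ?_⟩
  show ((unip K x * torK K α ^ j : G K) : Matrix (Fin 2) (Fin 2) (Adl K)) 0 0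
    = emb K ((α ^ j : Kˣ) : K)
  rw [torK_zpow465, unip_mul_torK_entry465]

end Fermat.Agent.LT.T3.H465

end

end
-- ===== PACK-END LT/T3/H465/EKMix.lean

-- ===== PACK-BEGIN LT/T1/H793/K0Compact.lean
section







/-!
# Row LT, tower T1 (helper793, OFF-MAIN): the standard compact subgroup `K⁰` is compact

* `isCompact_box793`     : the box `{x ∈ 𝔸_K : |x_w| ≤ 1, x_v ∈ 𝒪_v}` is compact;
* `continuous_entry793`, `continuous_entry_inv793`, `continuous_infComp793`,
  `continuous_finComp_entry793` : continuity of the coordinates of `GL₂(𝔸_K)`;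
* `isClosed_stdCompact793` : `K⁰ = {k | IsStdCompact K k}` is closed in `GL₂(𝔸_K)`;
* `isCompact_stdCompact793` : `K⁰` is compact.

Uses `LT/H11/LC.lean` of helper11 (byte-identical copy): `𝒪_v` compact, `𝔸_K` Hausdorff.
-/

set_option autoImplicit false

open IsDedekindDomain NumberField Topology
open Fermat.Agent.LT.H556.A0
open Fermat.Agent.LT.T1
open Fermat.Agent.LT.H11.LC
open scoped RestrictedProduct

noncomputable section

namespace Fermat.Agent.LT.T1.H793

variable {K : Type} [Field K] [NumberField K]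

/-! ## Continuity of the coordinates -/

lemma continuous_projInf793 (w : InfinitePlace K) :
    Continuous (fun x : Adl K => x.1 w) :=
  (continuous_apply w).comp continuous_fst

lemma continuous_projFin793 (v : HeightOneSpectrum (𝓞 K)) :
    Continuous (fun x : Adl K => x.2 v) :=
  (RestrictedProduct.continuous_eval v).comp continuous_snd

lemma continuous_entry793 (i j : Fin 2) :
    Continuous (fun g : G K => (g : Matrix (Fin 2) (Fin 2) (Adl K)) i j) := by
  have h : Continuous (fun g : G K => (g : Matrix (Fin 2) (Fin 2) (Adl K))) :=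
    Units.continuous_val
  exact h.matrix_elem i j

lemma continuous_entry_inv793 (i j : Fin 2) :
    Continuous (fun g : G K => ((g⁻¹ : G K) : Matrix (Fin 2) (Fin 2) (Adl K)) i j) := by
  have h : Continuous (fun g : G K => ((g⁻¹ : G K) : Matrix (Fin 2) (Fin 2) (Adl K))) :=
    Units.continuous_coe_inv
  exact h.matrix_elem i j

lemma continuous_finComp_entry793 (v : HeightOneSpectrum (𝓞 K)) (i j : Fin 2) :
    Continuous (fun g : G K => finComp v g i j) :=
  (continuous_projFin793 v).comp (continuous_entry793 i j)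

lemma continuous_finComp_inv_entry793 (v : HeightOneSpectrum (𝓞 K)) (i j : Fin 2) :
    Continuous (fun g : G K => finComp v g⁻¹ i j) :=
  (continuous_projFin793 v).comp (continuous_entry_inv793 i j)

lemma continuous_infComp793 (w : InfinitePlace K) :
    Continuous (fun g : G K => infComp w g) := by
  refine continuous_pi fun i => continuous_pi fun j => ?_
  exact (InfinitePlace.Completion.isometry_extensionEmbedding w).continuous.comp
    ((continuous_projInf793 w).comp (continuous_entry793 i j))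

/-! ## `K⁰` is closed -/

lemma isClosed_stdCompact793 : IsClosed {k : G K | IsStdCompact K k} := by
  have hset : {k : G K | IsStdCompact K k}
      = (⋂ v : HeightOneSpectrum (𝓞 K), ⋂ i : Fin 2, ⋂ j : Fin 2,
          ({k : G K | finComp v k i j ∈ v.adicCompletionIntegers K}
            ∩ {k : G K | finComp v k⁻¹ i j ∈ v.adicCompletionIntegers K}))
        ∩ ⋂ w : InfinitePlace K,
          ({k : G K | infComp w k * (infComp w k).conjTranspose = 1}
            ∩ {k : G K | w.IsReal → (infComp w k).det = 1}) := by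
    ext k
    simp only [Set.mem_inter_iff, Set.mem_iInter]
    show IsStdCompact K k ↔ _
    unfold IsStdCompact IsIntegralAt
    constructor
    · rintro ⟨h1, h2⟩
      exact ⟨fun v i j => ⟨(h1 v).1 i j, (h1 v).2 i j⟩, h2⟩
    · rintro ⟨h1, h2⟩
      exact ⟨fun v => ⟨fun i j => (h1 v i j).1, fun i j => (h1 v i j).2⟩, h2⟩
  rw [hset]
  refine IsClosed.inter ?_ ?_
  · refine isClosed_iInter fun v => isClosed_iInter fun i => isClosed_iInter fun j => ?_
    have hO : IsClosed (v.adicCompletionIntegers K : Set (v.adicCompletion K)) :=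
      Valued.isClosed_valuationSubring _
    exact (hO.preimage (continuous_finComp_entry793 v i j)).inter
      (hO.preimage (continuous_finComp_inv_entry793 v i j))
  · refine isClosed_iInter fun w => IsClosed.inter ?_ ?_
    · have hc := continuous_infComp793 (K := K) w
      exact isClosed_eq (hc.matrix_mul hc.matrix_conjTranspose) continuous_const
    · by_cases hw : w.IsReal
      · have : {k : G K | w.IsReal → (infComp w k).det = 1}
            = {k : G K | (infComp w k).det = 1} := by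
          ext k; simp [hw]
        rw [this]
        exact isClosed_eq (continuous_infComp793 (K := K) w).matrix_det continuous_const
      · have : {k : G K | w.IsReal → (infComp w k).det = 1} = Set.univ := by
          ext k; simp [hw]
        rw [this]
        exact isClosed_univ

/-! ## The compact box -/

/-- The box `{x ∈ 𝔸_K : |x_w| ≤ 1 for all w ∣ ∞, x_v ∈ 𝒪_v for all v}`. -/
def box793 (K : Type) [Field K] [NumberField K] : Set (Adl K) :=
  {x | (∀ w : InfinitePlace K, ‖x.1 w‖ ≤ 1) ∧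
    ∀ v : HeightOneSpectrum (𝓞 K), x.2 v ∈ v.adicCompletionIntegers K}

omit [NumberField K] in
lemma isCompact_unitBall_inf793 (w : InfinitePlace K) :
    IsCompact {x : w.Completion | ‖x‖ ≤ 1} := by
  have hemb : IsClosedEmbedding (InfinitePlace.Completion.extensionEmbedding w) :=
    (InfinitePlace.Completion.isometry_extensionEmbedding w).isClosedEmbedding
  have hc : IsCompact (Metric.closedBall (0 : ℂ) 1) := isCompact_closedBall 0 1
  have := hemb.isCompact_preimage hc
  have hset : (InfinitePlace.Completion.extensionEmbedding w) ⁻¹' Metric.closedBall (0 : ℂ) 1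
      = {x : w.Completion | ‖x‖ ≤ 1} := by
    ext x
    simp only [Set.mem_preimage, Metric.mem_closedBall, dist_zero_right]
    rw [norm_extensionEmbedding793]
    exact Iff.rfl
  rwa [hset] at this

omit [NumberField K] in
lemma isCompact_boxInf793 :
    IsCompact {x : InfiniteAdeleRing K | ∀ w : InfinitePlace K, ‖x w‖ ≤ 1} := by
  have h := isCompact_univ_pi (fun w : InfinitePlace K => isCompact_unitBall_inf793 w)
  have hset : (Set.univ.pi fun w : InfinitePlace K => {x : w.Completion | ‖x‖ ≤ 1})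
      = {x : InfiniteAdeleRing K | ∀ w : InfinitePlace K, ‖x w‖ ≤ 1} := by
    ext x
    simp only [Set.mem_pi, Set.mem_univ, true_implies]
    exact Iff.rfl
  rw [← hset]
  exact h

lemma isCompact_boxFin793 :
    IsCompact {x : FiniteAdeleRing (𝓞 K) K |
      ∀ v : HeightOneSpectrum (𝓞 K), x v ∈ v.adicCompletionIntegers K} := by
  have : ∀ v : HeightOneSpectrum (𝓞 K),
      CompactSpace ((v.adicCompletionIntegers K : Set (v.adicCompletion K))) :=
    fun v => isCompact_iff_compactSpace.mp (isCompact_integers_h11 K v)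
  have hcont : Continuous (RestrictedProduct.structureMap
      (fun v : HeightOneSpectrum (𝓞 K) => v.adicCompletion K)
      (fun v : HeightOneSpectrum (𝓞 K) =>
        (v.adicCompletionIntegers K : Set (v.adicCompletion K))) Filter.cofinite) :=
    RestrictedProduct.isEmbedding_structureMap.continuous
  have h := isCompact_range hcont
  rw [RestrictedProduct.range_structureMap] at h
  exact h

lemma isCompact_box793 : IsCompact (box793 K) := by
  have h := (isCompact_boxInf793 (K := K)).prod (isCompact_boxFin793 (K := K))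
  have hset : box793 K
      = ({x : InfiniteAdeleRing K | ∀ w : InfinitePlace K, ‖x w‖ ≤ 1} ×ˢ
          {x : FiniteAdeleRing (𝓞 K) K |
            ∀ v : HeightOneSpectrum (𝓞 K), x v ∈ v.adicCompletionIntegers K} :
          Set (InfiniteAdeleRing K × FiniteAdeleRing (𝓞 K) K)) := by
    ext x
    rfl
  rw [hset]
  exact h

/-- The matrices with all entries in the box. -/
def matBox793 (K : Type) [Field K] [NumberField K] : Set (Matrix (Fin 2) (Fin 2) (Adl K)) :=
  {M | ∀ i j, M i j ∈ box793 K}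

lemma isCompact_matBox793 : IsCompact (matBox793 K) := by
  have h : IsCompact (Set.univ.pi fun _ : Fin 2 => Set.univ.pi fun _ : Fin 2 => box793 K) :=
    isCompact_univ_pi fun _ => isCompact_univ_pi fun _ => isCompact_box793
  have hset : (Set.univ.pi fun _ : Fin 2 => Set.univ.pi fun _ : Fin 2 => box793 K)
      = matBox793 K := by
    ext M
    simp only [Set.mem_pi, Set.mem_univ, true_implies]
    exact Iff.rfl
  rw [← hset]
  exact h

/-! ## Entries of `K⁰` lie in the box -/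

lemma norm_entry_inf_le_one793 {u : G K} (hk : IsStdCompact K u) (w : InfinitePlace K)
    (i j : Fin 2) : ‖((u : Matrix (Fin 2) (Fin 2) (Adl K)) i j).1 w‖ ≤ 1 := by
  rw [← norm_extensionEmbedding793]
  have hU := (hk.2 w).1
  have e := congrFun (congrFun hU i) i
  rw [Matrix.mul_apply, Fin.sum_univ_two] at e
  simp only [Matrix.conjTranspose_apply, Matrix.one_apply_eq] at e
  have h0 : ∀ l : Fin 2, infComp w u i l * star (infComp w u i l)
      = ((‖infComp w u i l‖ ^ 2 : ℝ) : ℂ) := by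
    intro l
    rw [Complex.star_def, Complex.mul_conj, Complex.normSq_eq_norm_sq]
  rw [h0 0, h0 1] at e
  have e' : ‖infComp w u i 0‖ ^ 2 + ‖infComp w u i 1‖ ^ 2 = 1 := by exact_mod_cast e
  have hij : ‖infComp w u i j‖ ^ 2 ≤ 1 := by
    fin_cases j
    · have := sq_nonneg ‖infComp w u i 1‖
      simp only [Fin.zero_eta]
      linarith
    · have := sq_nonneg ‖infComp w u i 0‖
      simp only [Fin.mk_one]
      linarith
  have hn : 0 ≤ ‖infComp w u i j‖ := norm_nonneg _
  show ‖infComp w u i j‖ ≤ 1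
  nlinarith

lemma stdCompact_mem_matBox793 {u : G K} (hk : IsStdCompact K u) :
    (u : Matrix (Fin 2) (Fin 2) (Adl K)) ∈ matBox793 K :=
  fun i j => ⟨fun w => norm_entry_inf_le_one793 hk w i j, fun v => (hk.1 v).1 i j⟩

/-! ## `K⁰` is compact -/

/-- **The standard compact subgroup `K⁰` of `GL₂(𝔸_K)` is compact.** -/
theorem isCompact_stdCompact793 (K : Type) [Field K] [NumberField K] :
    IsCompact {k : G K | IsStdCompact K k} := by
  have : T2Space (Adl K) := t2Space_adeleRing_h11 K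
  have : T2Space (Matrix (Fin 2) (Fin 2) (Adl K)) := t2Space_matrix_h11 (Fin 2) (Adl K)
  have hemb : IsClosedEmbedding (Units.embedProduct (Matrix (Fin 2) (Fin 2) (Adl K))) :=
    Units.isClosedEmbedding_embedProduct
  have hC : IsCompact ((matBox793 K) ×ˢ (MulOpposite.unop ⁻¹' (matBox793 K)) :
      Set (Matrix (Fin 2) (Fin 2) (Adl K) × (Matrix (Fin 2) (Fin 2) (Adl K))ᵐᵒᵖ)) := by
    refine isCompact_matBox793.prod ?_
    have : MulOpposite.unop ⁻¹' (matBox793 K)
        = MulOpposite.opHomeomorph '' (matBox793 K) := by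
      ext x
      constructor
      · intro hx
        exact ⟨MulOpposite.unop x, hx, rfl⟩
      · rintro ⟨y, hy, rfl⟩
        exact hy
    rw [this]
    exact isCompact_matBox793.image MulOpposite.opHomeomorph.continuous
  have hpre := hemb.isCompact_preimage hC
  refine hpre.of_isClosed_subset isClosed_stdCompact793 ?_
  intro k hk
  exact ⟨stdCompact_mem_matBox793 hk, stdCompact_mem_matBox793 (isStdCompact_inv793 hk)⟩

end Fermat.Agent.LT.T1.H793

end

end
-- ===== PACK-END LT/T1/H793/K0Compact.lean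

-- ===== PACK-BEGIN LT/T3/H893/EKKillAux.lean
section




/-!
# Row LT, tower T3, leaf T3.11 (helper893): auxiliary lemmas for `EKKillC`

OFF-MAIN.  Orbital integrals over `N(𝔸_K)`: finiteness, positivity; invariance of a function under
`γ^ℤ`; the EK sum of an element `α` of finite order.
-/

set_option autoImplicit false
set_option linter.style.haveILetI false

open MeasureTheory NumberField
open scoped ENNReal
open Fermat.Agent.LT.H556.A0

noncomputable section

namespace Fermat.Agent.LT.T3.H893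

variable (K : Type) [Field K] [NumberField K]

theorem continuous_unip_mul893 {E : Type*} [TopologicalSpace E] (F : G K → E)
    (hF : Continuous F) (b : G K) : Continuous fun x : Adl K => F (unip K x * b) :=
  hF.comp ((continuous_unip893 K).mul continuous_const)

theorem hasCompactSupport_unip_mul893 [T2Space (Adl K)] {E : Type*} [Zero E] (F : G K → E)
    (hF : HasCompactSupport F) (b : G K) :
    HasCompactSupport fun x : Adl K => F (unip K x * b) := by
  have h := hasCompactSupport_comp_unip893 K F hF 1 b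
  simpa only [one_mul] using h

/-- The orbital integral of a compactly supported continuous weight over `N(𝔸_K)` is finite. -/
theorem lintegral_unip_lt_top893 [MeasurableSpace (Adl K)] [BorelSpace (Adl K)] [T2Space (Adl K)]
    (ν : Measure (Adl K)) [IsFiniteMeasureOnCompacts ν] (ρ : G K → ℝ) (hρ : Continuous ρ)
    (hρc : HasCompactSupport ρ) (b : G K) :
    ∫⁻ x, ENNReal.ofReal (ρ (unip K x * b)) ∂ν < ∞ :=
  ((continuous_unip_mul893 K ρ hρ b).integrable_of_hasCompactSupport
    (hasCompactSupport_unip_mul893 K ρ hρc b)).lintegral_lt_top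

/-- The orbital integral over `N(𝔸_K)` of a continuous weight is positive where the weight is. -/
theorem lintegral_unip_pos893 [MeasurableSpace (Adl K)] [BorelSpace (Adl K)]
    (ν : Measure (Adl K)) [ν.IsOpenPosMeasure] (ρ : G K → ℝ) (hρ : Continuous ρ)
    (b : G K) (hb : 0 < ρ b) :
    0 < ∫⁻ x, ENNReal.ofReal (ρ (unip K x * b)) ∂ν := by
  have h2 : Continuous fun x : Adl K => ρ (unip K x * b) := continuous_unip_mul893 K ρ hρ b
  rw [lintegral_pos_iff_support h2.measurable.ennreal_ofReal]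
  have hopen : IsOpen {x : Adl K | 0 < ρ (unip K x * b)} := isOpen_lt continuous_const h2
  have hne : ({x : Adl K | 0 < ρ (unip K x * b)}).Nonempty :=
    ⟨0, by simpa [unip_zero893] using hb⟩
  refine lt_of_lt_of_le (hopen.measure_pos ν hne) (measure_mono ?_)
  intro x hx
  simp only [Function.mem_support, ne_eq, ENNReal.ofReal_eq_zero, not_le]
  exact hx

/-- Invariance under `γ` gives invariance under `γ ^ j`, `j ∈ ℤ`. -/
theorem inv_zpow893 {H E : Type*} [Group H] (Ψ : H → E) (γ : H) (h : ∀ g, Ψ (γ * g) = Ψ g)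
    (j : ℤ) : ∀ g : H, Ψ (γ ^ j * g) = Ψ g := by
  induction j using Int.induction_on with
  | zero => intro g; simp
  | succ i ih =>
    intro g
    rw [zpow_add_one, mul_assoc, ih, h]
  | pred i ih =>
    intro g
    rw [zpow_sub_one, mul_assoc, ih]
    have := h (γ⁻¹ * g)
    rw [mul_inv_cancel_left] at this
    exact this.symm

/-- If `α` has finite order, every term of an EK sum vanishes. -/
theorem ek_term_zero_of_finOrder893 [MeasurableSpace (Adl K)] (ν : Measure (Adl K))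
    (α : Kˣ) (hfo : IsOfFinOrder α) (f : G K → ℂ) (hEK : IsEK K ν f α) (g g' : G K) :
    ∫ x, f (g⁻¹ * unip K x * g') ∂ν = 0 := by
  obtain ⟨n, hn, hαn⟩ := isOfFinOrder_iff_pow_eq_one.1 hfo
  set T : ℤ → ℂ := fun j => ∫ x, f (g⁻¹ * unip K x * torK K α ^ j * g') ∂ν with hT
  have hsum : HasSum T 0 := hEK g g'
  have hper : ∀ k : ℤ, T ((n : ℤ) * k) = T 0 := by
    intro k
    simp only [hT]
    have h1 : torK K α ^ n = 1 := by
      have := torK_zpow893 K α (n : ℤ)
      rw [zpow_natCast, zpow_natCast] at this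
      rw [this, hαn, torK_one893]
    have : torK K α ^ ((n : ℤ) * k) = 1 := by
      rw [zpow_mul, zpow_natCast, h1, one_zpow]
    rw [this, zpow_zero]
  have hT0 : T 0 = ∫ x, f (g⁻¹ * unip K x * g') ∂ν := by
    simp only [hT, zpow_zero, mul_one]
  rw [← hT0]
  by_contra hne
  have hpos : 0 < ‖T 0‖ := norm_pos_iff.mpr hne
  have htend := hsum.summable.tendsto_cofinite_zero
  have hev : ∀ᶠ j in Filter.cofinite, T j ∈ Metric.ball (0 : ℂ) ‖T 0‖ :=
    htend (Metric.ball_mem_nhds 0 hpos)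
  have hfin : {j : ℤ | ¬ T j ∈ Metric.ball (0 : ℂ) ‖T 0‖}.Finite :=
    Filter.eventually_cofinite.1 hev
  have hsub : Set.range (fun k : ℤ => (n : ℤ) * k)
      ⊆ {j : ℤ | ¬ T j ∈ Metric.ball (0 : ℂ) ‖T 0‖} := by
    rintro _ ⟨k, rfl⟩
    simp only [Set.mem_ofPred_eq, hper k, Metric.mem_ball, dist_zero_right, lt_self_iff_false,
      not_false_eq_true]
  have hinf : (Set.range (fun k : ℤ => (n : ℤ) * k)).Infinite := by
    apply Set.infinite_range_of_injective
    intro a b hab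
    have hn0 : (n : ℤ) ≠ 0 := by exact_mod_cast hn.ne'
    exact mul_left_cancel₀ hn0 hab
  exact hinf (hfin.subset hsub)

end Fermat.Agent.LT.T3.H893

end

end
-- ===== PACK-END LT/T3/H893/EKKillAux.lean

-- ===== PACK-BEGIN LT/T3/H732/EKAlg.lean
section



/-!
# Row LT, tower T3, leaf T3.18b (helper732): `LeafEKAlg K` PROVED

OFF-MAIN.  `leafEKAlg732 (K) : T3.LeafEKAlg K`, i.e. `AbelSatakeC K → InScalarUnifC K → EKExistC K`
VERBATIM (Spec = origin/helper14@62b2e4958 `LT/T3/{Spec,EKSpec}.lean`, byte-identical copies).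
Complete proofs, nothing assumed.

Proof.  `Φ` = the function of `exists_ekPhi732` (`EKCore.lean`) for `ι = InfinitePlace K`,
`ℓ_w = log |α|_w`; `f` = the test function of `AbelSatakeC` for `Φ`.
* `IsEK`: by (i) the EK sum is `κ(g,g') ∑_j Φ(Δ(g,g') + j c₀) = 0`.
* `c(a,b) = κ₀ Φ^(z₁,z₂)` for a chosen pair of roots `z₁, z₂` of `X² - aX + b` when `b ≠ 0`,
  `c(a,0) = 1`.  Any other pair of roots is the chosen one up to order and the non-vanishing
  criterion is symmetric, so `c(a,b) ≠ 0` when `z₁ⁿ ≠ 1 ≠ z₂ⁿ`.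
* `b = 0`: `φ(g) = φ(g z⁻¹ z) = b φ(g z⁻¹) = 0` for a scalar uniformiser `z`, so both sides vanish.
-/

set_option autoImplicit false

open IsDedekindDomain NumberField MeasureTheory
open Fermat.Agent.LT.H556.A0

noncomputable section

namespace Fermat.Agent.LT.T3.H732

open Fermat.Agent.LT.T3

variable (K : Type) [Field K] [NumberField K]

/-- The symmetric pure tensors of the Spec are those of the core. -/
lemma isSymPure_iff732 (Φ : Coord K → ℂ) :
    IsSymPure K Φ ↔ IsSymPure732 (InfinitePlace K) Φ := Iff.rfl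

lemma symSpan_eq732 :
    SymSpan K = Submodule.span ℂ {Φ : Coord K → ℂ | IsSymPure732 (InfinitePlace K) Φ} := rfl

/-- A pair of roots of `X² - aX + b`. -/
lemma exists_roots732 (a b : ℂ) : ∃ z₁ z₂ : ℂ, z₁ + z₂ = a ∧ z₁ * z₂ = b := by
  obtain ⟨s, hs⟩ := IsAlgClosed.exists_eq_mul_self (a ^ 2 - 4 * b)
  refine ⟨(a + s) / 2, (a - s) / 2, by ring, ?_⟩
  have : (a + s) / 2 * ((a - s) / 2) = (a ^ 2 - s * s) / 4 := by ring
  rw [this, ← hs]
  ring

/-- The first chosen root of `X² - aX + b`. -/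
def root1_732 (a b : ℂ) : ℂ := Classical.choose (exists_roots732 a b)

/-- The second chosen root of `X² - aX + b`. -/
def root2_732 (a b : ℂ) : ℂ := Classical.choose (Classical.choose_spec (exists_roots732 a b))

lemma roots_spec732 (a b : ℂ) :
    root1_732 a b + root2_732 a b = a ∧ root1_732 a b * root2_732 a b = b :=
  Classical.choose_spec (Classical.choose_spec (exists_roots732 a b))

/-- Two pairs with the same sum and product agree up to order. -/
lemma roots_unique732 {z₁ z₂ r₁ r₂ : ℂ} (hs : z₁ + z₂ = r₁ + r₂) (hp : z₁ * z₂ = r₁ * r₂) :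
    (r₁ = z₁ ∧ r₂ = z₂) ∨ (r₁ = z₂ ∧ r₂ = z₁) := by
  have h : (r₁ - z₁) * (r₁ - z₂) = 0 := by
    have : (r₁ - z₁) * (r₁ - z₂) = r₁ * r₁ - (z₁ + z₂) * r₁ + z₁ * z₂ := by ring
    rw [this, hs, hp]
    ring
  rcases mul_eq_zero.mp h with h1 | h1
  · left
    have h1' : r₁ = z₁ := sub_eq_zero.mp h1
    refine ⟨h1', ?_⟩
    have := hs
    rw [h1'] at this
    exact (add_left_cancel this).symm
  · right
    have h1' : r₁ = z₂ := sub_eq_zero.mp h1
    refine ⟨h1', ?_⟩
    have := hs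
    rw [h1', add_comm] at this
    exact (add_left_cancel this).symm

/-- A function with Hecke eigenvalue `b = 0` for the scalar uniformisers vanishes. -/
lemma eq_zero_of_b_eq_zero732 (h3 : InScalarUnifC K) {φ : G K → ℂ}
    {v₀ : HeightOneSpectrum (𝓞 K)} {a : ℂ} (hφ : IsHeckeEigenAt φ v₀ a 0) (g : G K) :
    φ g = 0 := by
  obtain ⟨z, hz⟩ := h3 v₀
  have := hφ.2 z hz (g * z⁻¹)
  rwa [inv_mul_cancel_right, zero_mul] at this

/-- **Leaf T3.18b.** -/
theorem leafEKAlg732 : LeafEKAlg K := by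
  intro hAS hSU
  unfold EKExistC
  intro hcplx μ hμ ν hν 𝔫 h𝔫 v₀ hv₀ a₀ n hn hspan ha₀ α hα
  obtain ⟨κ, Δ, κ₀, hκ₀, hΦall⟩ := hAS hcplx μ hμ ν hν 𝔫 h𝔫 v₀ hv₀ a₀ n hn hspan ha₀ α hα
  obtain ⟨Φ, hΦmem, hΦsum, hΦft⟩ :=
    exists_ekPhi732 (InfinitePlace K) n hn (fun w => Real.log (w (α : K)))
  obtain ⟨f, hfc, hfs, hfbi, hfsupp, hfi, hfii⟩ := hΦall Φ hΦmem
  refine ⟨f, hfc, hfs, ?_, hfbi, hfsupp, ?_⟩
  · -- `IsEK`
    intro g g'
    have h1 : (fun j : ℤ => ∫ x, f (g⁻¹ * unip K x * torK K α ^ j * g') ∂ν)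
        = fun j : ℤ => κ g g' * Φ (Δ g g' + j • coordTor K n α) := by
      funext j
      exact hfi g g' j
    rw [h1]
    have h2 := (hΦsum (Δ g g')).mul_left (κ g g')
    rw [mul_zero] at h2
    exact h2
  · -- the eigenvalue
    classical
    refine ⟨fun a b => if b = 0 then 1 else
      κ₀ * ftCoord K Φ (root1_732 a b) (root2_732 a b), ?_, ?_⟩
    · intro a b z₁ z₂ hs hp hz₁ hz₂
      by_cases hb : b = 0
      · simp only [if_pos hb]
        exact one_ne_zero
      · simp only [if_neg hb]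
        obtain ⟨hrs, hrp⟩ := roots_spec732 a b
        have hr₁ : root1_732 a b ≠ 0 := fun h => hb (by rw [← hrp, h, zero_mul])
        have hr₂ : root2_732 a b ≠ 0 := fun h => hb (by rw [← hrp, h, mul_zero])
        refine mul_ne_zero hκ₀ ?_
        rcases roots_unique732 (hs.trans hrs.symm) (hp.trans hrp.symm) with ⟨e1, e2⟩ | ⟨e1, e2⟩
        · exact hΦft _ _ hr₁ hr₂ (by rw [e1]; exact hz₁) (by rw [e2]; exact hz₂)
        · exact hΦft _ _ hr₁ hr₂ (by rw [e1]; exact hz₂) (by rw [e2]; exact hz₁)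
    · intro φ hφ a b hecke g
      by_cases hb : b = 0
      · simp only [if_pos hb, one_mul]
        subst hb
        have hzero : ∀ g : G K, φ g = 0 := eq_zero_of_b_eq_zero732 K hSU hecke
        rw [hzero g]
        unfold Rop
        simp only [hzero, zero_mul, integral_zero]
      · simp only [if_neg hb]
        obtain ⟨hrs, hrp⟩ := roots_spec732 a b
        exact hfii φ hφ a b _ _ hecke hrs hrp hb g

end Fermat.Agent.LT.T3.H732

end

end
-- ===== PACK-END LT/T3/H732/EKAlg.lean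

-- ===== PACK-BEGIN LT/T5/H277/Ray.lean
section


/-!
# Row LT, tower T5, leaf T5.05 `LeafCoeff` (helper277): the discrete ray and the tiling

`GL₂(𝔸_K) = ⨆_{(γ,m)} γ σ(F) rᵐ` (disjoint), from `T1.AdNormC` (module of ideles: positive,
multiplicative, product formula), the frame and `AutPreserves`.  OFF-MAIN.
-/

set_option autoImplicit false
open IsDedekindDomain NumberField MeasureTheory
open scoped MatrixGroups ComplexConjugate
open Fermat.Agent.LT.H556.A0 Fermat.Agent.LT.T5

noncomputable section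
namespace Fermat.Agent.LT.T5.H277

variable {K : Type} [Field K] [NumberField K]

attribute [local instance] Fermat.Agent.LT.T5.instMeasurableSpaceG

/-- The module of the determinant. -/
def nd277 (g : G K) : ℝ := T5.adNorm (Matrix.det (g : Matrix (Fin 2) (Fin 2) (Adl K)))

theorem mem_slab_iff277 (g : G K) : g ∈ slab K ↔ 1 ≤ nd277 g ∧ nd277 g < 2 := Iff.rfl

theorem nd277_eq (g : G K) :
    nd277 g = T1.adNorm K ((Matrix.GeneralLinearGroup.det g : (Adl K)ˣ) : Adl K) := rfl

theorem nd277_pos (hN : T1.AdNormC K) (g : G K) : 0 < nd277 g := by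
  rw [nd277_eq]; exact hN.1 _

theorem nd277_mul (hN : T1.AdNormC K) (g h : G K) : nd277 (g * h) = nd277 g * nd277 h := by
  rw [nd277_eq, nd277_eq, nd277_eq, map_mul]; exact hN.2.1 _ _

theorem nd277_one (hN : T1.AdNormC K) : nd277 (1 : G K) = 1 := by
  have h := nd277_mul hN (1 : G K) 1
  rw [mul_one] at h
  have hp := nd277_pos hN (1 : G K)
  have : nd277 (1 : G K) * (nd277 (1 : G K) - 1) = 0 := by linarith
  rcases mul_eq_zero.mp this with h0 | h0
  · exact absurd h0 hp.ne'
  · linarith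

theorem nd277_inv (hN : T1.AdNormC K) (g : G K) : nd277 g⁻¹ = (nd277 g)⁻¹ := by
  have h := nd277_mul hN g g⁻¹
  rw [mul_inv_cancel, nd277_one hN] at h
  exact eq_inv_of_mul_eq_one_right h.symm

theorem nd277_ratG (hN : T1.AdNormC K) (γ : GL (Fin 2) K) : nd277 (ratG γ : G K) = 1 := by
  have h := hN.2.2.1 (Matrix.GeneralLinearGroup.det γ)
  rw [nd277_eq]
  convert h using 2
  simp [T1.ratUnit, ratG, Matrix.GeneralLinearGroup.map, RingHom.map_det]

/-! ## The ray generator -/

theorem infHom_apply277 (w : InfinitePlace K) (x : Adl K) :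
    infHom w x = InfinitePlace.Completion.extensionEmbedding w (x.1 w) := rfl

theorem finHom_apply277 (v : HeightOneSpectrum (𝓞 K)) (x : Adl K) : finHom v x = x.2 v := rfl

theorem infHom_det277 (w : InfinitePlace K) (g : G K) :
    infHom w (Matrix.det (g : Matrix (Fin 2) (Fin 2) (Adl K))) = (infComp w g).det := by
  rw [RingHom.map_det]; rfl

theorem finHom_det277 (v : HeightOneSpectrum (𝓞 K)) (g : G K) :
    finHom v (Matrix.det (g : Matrix (Fin 2) (Fin 2) (Adl K))) = (finComp v g).det := by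
  rw [RingHom.map_det]; rfl

theorem norm_inf277 (w : InfinitePlace K) (x : Adl K) : ‖x.1 w‖ = ‖infHom w x‖ := by
  rw [infHom_apply277]
  exact ((InfinitePlace.Completion.isometry_extensionEmbedding w).norm_map_of_map_zero
    (map_zero _) _).symm

/-- The module of the determinant of the ray generator is `2`. -/
theorem nd277_ray {r : G K} (hr : IsRayGen r) : nd277 r = 2 := by
  obtain ⟨hfin, t, ht, ht2, hinf⟩ := hr
  unfold nd277 T5.adNorm
  have h1 : ∀ w : InfinitePlace K,
      ‖(Matrix.det (r : Matrix (Fin 2) (Fin 2) (Adl K))).1 w‖ = t * t := by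
    intro w
    rw [norm_inf277, infHom_det277, hinf w, Matrix.det_diagonal]
    simp [abs_of_pos ht, pow_two]
  have h2 : ∀ v : HeightOneSpectrum (𝓞 K),
      ‖(Matrix.det (r : Matrix (Fin 2) (Fin 2) (Adl K))).2 v‖ = 1 := by
    intro v
    have := finHom_det277 v r
    rw [finHom_apply277] at this
    rw [this, hfin v, Matrix.det_one, norm_one]
  simp only [h1, h2, finprod_one, mul_one]
  rw [Finset.prod_pow_eq_pow_sum, InfinitePlace.sum_mult_eq, ← pow_two, ← pow_mul]
  exact ht2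

theorem adl_ext277 {x y : Adl K} (h1 : ∀ w : InfinitePlace K, infHom w x = infHom w y)
    (h2 : ∀ v : HeightOneSpectrum (𝓞 K), finHom v x = finHom v y) : x = y := by
  refine Prod.ext ?_ ?_
  · funext w
    exact (InfinitePlace.Completion.extensionEmbedding w).injective (h1 w)
  · exact RestrictedProduct.ext _ _ (fun v => h2 v)

/-- The ray generator is a scalar matrix. -/
theorem ray_scalar277 {r : G K} (hr : IsRayGen r) :
    ∃ c : Adl K, (r : Matrix (Fin 2) (Fin 2) (Adl K)) = !![c, 0; 0, c] := by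
  obtain ⟨hfin, t, -, -, hinf⟩ := hr
  have hi : ∀ (w : InfinitePlace K) (i j : Fin 2),
      infHom w ((r : Matrix (Fin 2) (Fin 2) (Adl K)) i j)
        = (Matrix.diagonal (fun _ => (t : ℂ)) : Matrix (Fin 2) (Fin 2) ℂ) i j := by
    intro w i j
    have := congrFun (congrFun (hinf w) i) j
    exact this
  have hf : ∀ (v : HeightOneSpectrum (𝓞 K)) (i j : Fin 2),
      finHom v ((r : Matrix (Fin 2) (Fin 2) (Adl K)) i j)
        = (1 : Matrix (Fin 2) (Fin 2) (v.adicCompletion K)) i j := by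
    intro v i j
    have := congrFun (congrFun (hfin v) i) j
    exact this
  refine ⟨(r : Matrix (Fin 2) (Fin 2) (Adl K)) 0 0, ?_⟩
  ext i j
  fin_cases i <;> fin_cases j
  · rfl
  · show (r : Matrix (Fin 2) (Fin 2) (Adl K)) 0 1 = 0
    apply adl_ext277
    · intro w; rw [hi w 0 1]; simp
    · intro v; rw [hf v 0 1]; simp
  · show (r : Matrix (Fin 2) (Fin 2) (Adl K)) 1 0 = 0
    apply adl_ext277
    · intro w; rw [hi w 1 0]; simp
    · intro v; rw [hf v 1 0]; simp
  · show (r : Matrix (Fin 2) (Fin 2) (Adl K)) 1 1 = (r : Matrix (Fin 2) (Fin 2) (Adl K)) 0 0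
    apply adl_ext277
    · intro w; rw [hi w 1 1, hi w 0 0]; simp
    · intro v; rw [hf v 1 1, hf v 0 0]; simp

/-- The ray generator is central. -/
theorem ray_comm277 {r : G K} (hr : IsRayGen r) (g : G K) : r * g = g * r := by
  obtain ⟨c, hc⟩ := ray_scalar277 hr
  apply Units.ext
  show (r : Matrix (Fin 2) (Fin 2) (Adl K)) * (g : Matrix (Fin 2) (Fin 2) (Adl K))
      = (g : Matrix (Fin 2) (Fin 2) (Adl K)) * (r : Matrix (Fin 2) (Fin 2) (Adl K))
  rw [hc]
  ext i j
  fin_cases i <;> fin_cases j <;> simp [Matrix.mul_apply, Fin.sum_univ_two, mul_comm]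

theorem ray_zpow_comm277 {r : G K} (hr : IsRayGen r) (g : G K) (m : ℤ) :
    r ^ m * g = g * r ^ m :=
  ((Commute.zpow_left (ray_comm277 hr g : Commute r g)) m).eq

theorem nd277_zpow (hN : T1.AdNormC K) {r : G K} (hr : IsRayGen r) (m : ℤ) :
    nd277 (r ^ m) = (2 : ℝ) ^ m := by
  have hpos : ∀ n : ℕ, nd277 (r ^ n) = (2 : ℝ) ^ n := by
    intro n
    induction n with
    | zero => simpa using nd277_one hN
    | succ n ih => rw [pow_succ, nd277_mul hN, ih, nd277_ray hr, pow_succ]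
  cases m with
  | ofNat n => simpa using hpos n
  | negSucc n =>
    rw [zpow_negSucc, nd277_inv hN, hpos, zpow_negSucc]

/-! ## The discrete ray and the slab -/

theorem exists_zpow_mem_slab277 (hN : T1.AdNormC K) {r : G K} (hr : IsRayGen r) (g : G K) :
    ∃ m : ℤ, g * r ^ m ∈ slab K := by
  have ha := nd277_pos hN g
  refine ⟨-Int.log 2 (nd277 g), ?_⟩
  rw [mem_slab_iff277, nd277_mul hN, nd277_zpow hN hr]
  have h1 : ((2 : ℕ) : ℝ) ^ Int.log 2 (nd277 g) ≤ nd277 g :=
    Int.zpow_log_le_self (by norm_num) ha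
  have h2 : nd277 g < ((2 : ℕ) : ℝ) ^ (Int.log 2 (nd277 g) + 1) :=
    Int.lt_zpow_succ_log_self (by norm_num) _
  have hp : (0 : ℝ) < (2 : ℝ) ^ Int.log 2 (nd277 g) := zpow_pos (by norm_num) _
  rw [zpow_neg]
  push_cast at h1 h2
  rw [zpow_add_one₀ (by norm_num : (2 : ℝ) ≠ 0)] at h2
  constructor
  · rw [le_mul_inv_iff₀ hp]; linarith
  · rw [mul_inv_lt_iff₀ hp]; linarith

theorem zpow_eq_of_mem_slab277 (hN : T1.AdNormC K) {r : G K} (hr : IsRayGen r)
    {h₁ h₂ : G K} (m₁ m₂ : ℤ) (hs₁ : h₁ ∈ slab K) (hs₂ : h₂ ∈ slab K)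
    (he : h₁ * r ^ m₁ = h₂ * r ^ m₂) : m₁ = m₂ := by
  have e := congrArg nd277 he
  rw [nd277_mul hN, nd277_mul hN, nd277_zpow hN hr, nd277_zpow hN hr] at e
  rw [mem_slab_iff277] at hs₁ hs₂
  -- wlog on the order
  have key : ∀ (a b : ℝ) (m n : ℤ), 1 ≤ a → a < 2 → 1 ≤ b → b < 2 →
      a * (2 : ℝ) ^ m = b * (2 : ℝ) ^ n → ¬ m < n := by
    intro a b m n ha1 ha2 hb1 hb2 hab hmn
    have hm : (0 : ℝ) < (2 : ℝ) ^ m := zpow_pos (by norm_num) _
    have hle : (2 : ℝ) ^ (m + 1) ≤ (2 : ℝ) ^ n :=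
      zpow_le_zpow_right₀ (by norm_num) (by omega)
    rw [zpow_add_one₀ (by norm_num : (2 : ℝ) ≠ 0)] at hle
    have : b * (2 : ℝ) ^ n ≥ 1 * ((2 : ℝ) ^ m * 2) :=
      mul_le_mul hb1 hle (by positivity) (by linarith)
    nlinarith
  rcases lt_trichotomy m₁ m₂ with h | h | h
  · exact absurd h (key _ _ _ _ hs₁.1 hs₁.2 hs₂.1 hs₂.2 e)
  · exact h
  · exact absurd h (key _ _ _ _ hs₂.1 hs₂.2 hs₁.1 hs₁.2 e.symm)

/-! ## The automorphism -/

/-- The inverse of `onRat`. -/
def onRatInv277 (s : AdelicAut K) : GL (Fin 2) K →* GL (Fin 2) K :=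
  Matrix.GeneralLinearGroup.map (s.σ.symm : K →+* K)

theorem onRat_onRatInv277 (s : AdelicAut K) (γ : GL (Fin 2) K) :
    s.onRat (onRatInv277 s γ) = γ := by
  apply Units.ext
  ext i j
  simp [AdelicAut.onRat, onRatInv277, Matrix.GeneralLinearGroup.map]

theorem onRatInv_onRat277 (s : AdelicAut K) (γ : GL (Fin 2) K) :
    onRatInv277 s (s.onRat γ) = γ := by
  apply Units.ext
  ext i j
  simp [AdelicAut.onRat, onRatInv277, Matrix.GeneralLinearGroup.map]

variable {s : AdelicAut K} {𝔫 : Ideal (𝓞 K)} {μ : Measure (G K)} {r : G K}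

theorem onGinv_ratG277 (hP : AutPreserves s 𝔫 μ r) (γ : GL (Fin 2) K) :
    s.onGinv (ratG γ) = ratG (onRatInv277 s γ) := by
  have h := hP.rat (onRatInv277 s γ)
  rw [onRat_onRatInv277] at h
  rw [← h, hP.left_inverse]

theorem onGinv_ray277 (hP : AutPreserves s 𝔫 μ r) : s.onGinv r = r := by
  conv_lhs => rw [← hP.ray]
  exact hP.left_inverse r

theorem onGinv_mem_slab277 (hP : AutPreserves s 𝔫 μ r) (g : G K) :
    s.onGinv g ∈ slab K ↔ g ∈ slab K := by
  rw [hP.slab (s.onGinv g), hP.right_inverse]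

/-! ## The tiling of `GL₂(𝔸_K)` -/

/-- The tile map `y ↦ γ σ(y) rᵐ`. -/
def tile277 (s : AdelicAut K) (r : G K) (i : GL (Fin 2) K × ℤ) (y : G K) : G K :=
  ratG i.1 * s.onG y * r ^ i.2

theorem tile_cover277 (hN : T1.AdNormC K) {F : Set (G K)} (hF : IsFrame μ F)
    (hr : IsRayGen r) (hP : AutPreserves s 𝔫 μ r) (g : G K) :
    ∃ i : GL (Fin 2) K × ℤ, ∃ y ∈ F, tile277 s r i y = g := by
  obtain ⟨m, hm⟩ := exists_zpow_mem_slab277 hN hr g
  have h1 : s.onGinv (g * r ^ m) ∈ slab K := (onGinv_mem_slab277 hP _).mpr hm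
  obtain ⟨γ, hγ, -⟩ := hF.strict _ h1
  refine ⟨((s.onRat γ)⁻¹, -m), ratG γ * s.onGinv (g * r ^ m), hγ, ?_⟩
  unfold tile277
  simp only [map_mul, hP.rat, hP.right_inverse, map_inv]
  group

theorem tile_unique277 (hN : T1.AdNormC K) {F : Set (G K)} (hF : IsFrame μ F)
    (hr : IsRayGen r) (hP : AutPreserves s 𝔫 μ r) {i i' : GL (Fin 2) K × ℤ} {y y' : G K}
    (hy : y ∈ F) (hy' : y' ∈ F) (he : tile277 s r i y = tile277 s r i' y') : i = i' := by
  unfold tile277 at he
  have hs : ∀ (γ : GL (Fin 2) K) (z : G K), z ∈ F → ratG γ * s.onG z ∈ slab K := by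
    intro γ z hz
    have hz' : s.onG z ∈ slab K := (hP.slab z).mp (hF.sub hz)
    rw [mem_slab_iff277] at hz' ⊢
    rwa [nd277_mul hN, nd277_ratG hN, one_mul]
  have hm : i.2 = i'.2 := zpow_eq_of_mem_slab277 hN hr _ _ (hs _ _ hy) (hs _ _ hy') he
  rw [hm] at he
  have he2 : ratG i.1 * s.onG y = ratG i'.1 * s.onG y' := mul_right_cancel he
  have he3 : y' = ratG (onRatInv277 s (i'.1⁻¹ * i.1)) * y := by
    have := congrArg s.onGinv he2
    simp only [map_mul, hP.left_inverse, onGinv_ratG277 hP] at this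
    rw [map_mul, map_mul, map_inv, map_inv, mul_assoc, this]
    group
  obtain ⟨γ₀, -, huniq⟩ := hF.strict y (hF.sub hy)
  have e1 : (1 : GL (Fin 2) K) = γ₀ := huniq 1 (by show ratG (1 : GL (Fin 2) K) * y ∈ F; simpa using hy)
  have e2 : onRatInv277 s (i'.1⁻¹ * i.1) = γ₀ := huniq _ (by show ratG (onRatInv277 s (i'.1⁻¹ * i.1)) * y ∈ F; rw [← he3]; exact hy')
  have e3 : onRatInv277 s (i'.1⁻¹ * i.1) = 1 := by rw [e2, ← e1]
  have e4 : i'.1⁻¹ * i.1 = 1 := by
    have := congrArg s.onRat e3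
    rwa [onRat_onRatInv277, map_one] at this
  have e5 : i.1 = i'.1 := by
    have := congrArg (fun x => i'.1 * x) e4
    simpa using this
  exact Prod.ext e5 hm

end Fermat.Agent.LT.T5.H277
end

end
-- ===== PACK-END LT/T5/H277/Ray.lean

-- ===== PACK-BEGIN LT/T5/H29/V4/RayBound675.lean
section






/-
PATCHED COPY (helper29) of helper675@39a99ea98 Fermat/Agent/LT/T5/H675/RayBound.lean (sha256 6c89b107)
for T5/Spec v4 + TwSpec v2: ONE token changed (`ht.supp` -> `ht`, the hypothesis is now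
`HasCompactSupport φ`), namespace renamed to `Fermat.Agent.LT.T5.H29.V4.H675`.  Proof: helper675.
-/

/-!
# Row LT, tower T5, sub-leaf T5.07a `RayBoundC` (helper675) — OFF-MAIN

Proves `T5.H29.RayBoundC s 𝔫` VERBATIM (sub-spec helper29@dedb60878 `LT/T5/H29/TwSpec.lean`,
sha256 08555f0f; on `T5/Spec.lean` 0d469f71, `T1/Spec.lean` e8ae48d6, `H556/A0.lean` 66d3374a).

`f = ‖det ·‖_𝔸 : GL₂(𝔸_K) → ℝ` is a continuous positive homomorphism (`T1.AdNormC`), trivial on
`GL₂(K)` (product formula), `f r = 2`; by `AutPreserves.slab` and `AutPreserves.ray`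
`f(σ x) / f(x) ∈ (1/2, 2)`; `f` and `1/f` are bounded on the compact support of `φ`.
-/

set_option autoImplicit false

open IsDedekindDomain NumberField MeasureTheory
open scoped MatrixGroups

noncomputable section

namespace Fermat.Agent.LT.T5.H29.V4.H675

open Fermat.Agent.LT.H556.A0 Fermat.Agent.LT.T5 Fermat.Agent.LT

attribute [local instance] Fermat.Agent.LT.T5.instMeasurableSpaceG

variable {K : Type} [Field K] [NumberField K]

/-- The module as a monoid homomorphism on the ideles (given `T1.AdNormC`). -/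
def normHom675 (h : T1.AdNormC K) : (Adl K)ˣ →* ℝ where
  toFun u := T1.adNorm K (u : Adl K)
  map_one' := by
    have h1 := h.2.1 1 1
    have h0 := h.1 1
    rw [mul_one] at h1
    have h2 : T1.adNorm K ((1 : (Adl K)ˣ) : Adl K) * 1
        = T1.adNorm K ((1 : (Adl K)ˣ) : Adl K) * T1.adNorm K ((1 : (Adl K)ˣ) : Adl K) := by
      rw [mul_one]; exact h1
    exact (mul_left_cancel₀ h0.ne' h2).symm
  map_mul' := h.2.1

/-- `g ↦ ‖det g‖_𝔸` as a monoid homomorphism. -/
def detNorm675 (h : T1.AdNormC K) : G K →* ℝ :=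
  (normHom675 h).comp Matrix.GeneralLinearGroup.det

theorem detNorm675_apply (h : T1.AdNormC K) (g : G K) :
    detNorm675 h g = T1.adNorm K (Matrix.det (g : Matrix (Fin 2) (Fin 2) (Adl K))) := rfl

theorem detNorm675_apply' (h : T1.AdNormC K) (g : G K) :
    detNorm675 h g = T5.adNorm (Matrix.det (g : Matrix (Fin 2) (Fin 2) (Adl K))) := rfl

theorem detNorm675_pos (h : T1.AdNormC K) (g : G K) : 0 < detNorm675 h g :=
  h.1 (Matrix.GeneralLinearGroup.det g)

theorem continuous_detNorm675 (h : T1.AdNormC K) : Continuous (detNorm675 h) :=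
  h.2.2.2.comp Matrix.GeneralLinearGroup.continuous_det

theorem mem_slab_iff675 (h : T1.AdNormC K) (g : G K) :
    g ∈ slab K ↔ 1 ≤ detNorm675 h g ∧ detNorm675 h g < 2 := Iff.rfl

/-- Product formula: the module of the determinant is trivial on `GL₂(K)`. -/
theorem detNorm675_ratG (h : T1.AdNormC K) (δ : GL (Fin 2) K) :
    detNorm675 h (ratG δ) = 1 := by
  have h1 := h.2.2.1 (Matrix.GeneralLinearGroup.det δ)
  have h2 : Matrix.GeneralLinearGroup.det (ratG δ)
      = T1.ratUnit K (Matrix.GeneralLinearGroup.det δ) := by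
    ext
    simp only [ratG, T1.ratUnit, Matrix.GeneralLinearGroup.map_det, Units.coe_map]
    rfl
  show T1.adNorm K ((Matrix.GeneralLinearGroup.det (ratG δ) : (Adl K)ˣ) : Adl K) = 1
  rw [h2]
  exact h1

theorem infHom_det675 (w : InfinitePlace K) (g : G K) :
    infHom w (Matrix.det (g : Matrix (Fin 2) (Fin 2) (Adl K))) = Matrix.det (infComp w g) := by
  rw [infComp_eq_map, RingHom.map_det]
  rfl

theorem finHom_det675 (v : HeightOneSpectrum (𝓞 K)) (g : G K) :
    finHom v (Matrix.det (g : Matrix (Fin 2) (Fin 2) (Adl K))) = Matrix.det (finComp v g) := by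
  rw [finComp_eq_map, RingHom.map_det]
  rfl

theorem infHom_apply675 (w : InfinitePlace K) (x : Adl K) :
    infHom w x = InfinitePlace.Completion.extensionEmbedding w (x.1 w) := rfl

theorem finHom_apply675 (v : HeightOneSpectrum (𝓞 K)) (x : Adl K) :
    finHom v x = x.2 v := rfl

theorem norm_inf_det675 (w : InfinitePlace K) (g : G K) :
    ‖(Matrix.det (g : Matrix (Fin 2) (Fin 2) (Adl K))).1 w‖ = ‖Matrix.det (infComp w g)‖ := by
  rw [← infHom_det675, infHom_apply675]
  exact ((InfinitePlace.Completion.isometry_extensionEmbedding w).norm_map_of_map_zero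
    (map_zero _) _).symm

/-- The module of the determinant of the generator of the discrete ray is `2`. -/
theorem detNorm675_rayGen (h : T1.AdNormC K) {r : G K} (hr : IsRayGen r) :
    detNorm675 h r = 2 := by
  obtain ⟨hfin, t, ht, ht2, hinf⟩ := hr
  rw [detNorm675_apply]
  unfold T1.adNorm
  have hI : ∀ w : InfinitePlace K,
      ‖(Matrix.det (r : Matrix (Fin 2) (Fin 2) (Adl K))).1 w‖ = t ^ 2 := by
    intro w
    rw [norm_inf_det675, hinf w, Matrix.det_diagonal]
    simp only [Finset.prod_const, Finset.card_univ, Fintype.card_fin, norm_pow,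
      Complex.norm_real, Real.norm_eq_abs, abs_of_pos ht]
  have hF : ∀ v : HeightOneSpectrum (𝓞 K),
      ‖(Matrix.det (r : Matrix (Fin 2) (Fin 2) (Adl K))).2 v‖ = 1 := by
    intro v
    rw [← finHom_apply675, finHom_det675, show finComp v r = 1 from hfin v, Matrix.det_one,
      norm_one]
  simp only [hI, hF, finprod_one, mul_one]
  rw [Finset.prod_pow_eq_pow_sum, InfinitePlace.sum_mult_eq, ← pow_mul]
  exact ht2

/-- Every element can be moved into the slab by a power of the ray generator. -/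
theorem exists_zpow_mem_slab675 (h : T1.AdNormC K) {r : G K} (hr : IsRayGen r) (x : G K) :
    ∃ j : ℤ, x * r ^ j ∈ slab K := by
  obtain ⟨n, hn1, hn2⟩ := exists_mem_Ico_zpow (detNorm675_pos h x) (one_lt_two : (1 : ℝ) < 2)
  refine ⟨-n, ?_⟩
  rw [mem_slab_iff675 h, map_mul, map_zpow, detNorm675_rayGen h hr, zpow_neg]
  have h2 : (0 : ℝ) < 2 ^ n := zpow_pos (by norm_num) n
  constructor
  · rw [← div_eq_mul_inv, le_div_iff₀ h2, one_mul]
    exact hn1
  · rw [← div_eq_mul_inv, div_lt_iff₀ h2]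
    rw [zpow_add_one₀ (by norm_num : (2 : ℝ) ≠ 0)] at hn2
    linarith

/-- `‖det σ(x)‖ / ‖det x‖ ∈ (1/2, 2)`. -/
theorem detNorm675_onG (h : T1.AdNormC K) {s : AdelicAut K} {𝔫 : Ideal (𝓞 K)}
    {μ : Measure (G K)} {r : G K} (hr : IsRayGen r) (hP : AutPreserves s 𝔫 μ r) (x : G K) :
    detNorm675 h (s.onG x) < 2 * detNorm675 h x ∧
      detNorm675 h x < 2 * detNorm675 h (s.onG x) := by
  obtain ⟨j, hj⟩ := exists_zpow_mem_slab675 h hr x
  have hj' : s.onG (x * r ^ j) ∈ slab K := (hP.slab _).1 hj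
  rw [map_mul, map_zpow, hP.ray] at hj'
  rw [mem_slab_iff675 h, map_mul, map_zpow, detNorm675_rayGen h hr] at hj hj'
  have h2 : (0 : ℝ) < 2 ^ j := zpow_pos (by norm_num) j
  constructor
  · have : detNorm675 h (s.onG x) * 2 ^ j < (2 * detNorm675 h x) * 2 ^ j := by nlinarith [hj.1, hj'.2]
    exact lt_of_mul_lt_mul_right this h2.le
  · have : detNorm675 h x * 2 ^ j < (2 * detNorm675 h (s.onG x)) * 2 ^ j := by
      nlinarith [hj'.1, hj.2]
    exact lt_of_mul_lt_mul_right this h2.le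

/-- `f` and `1 / f` are bounded on compact sets. -/
theorem detNorm675_bdd (h : T1.AdNormC K) {C : Set (G K)} (hC : IsCompact C) :
    ∃ b : ℝ, ∀ g ∈ C, detNorm675 h g ≤ b ∧ (detNorm675 h g)⁻¹ ≤ b := by
  obtain ⟨b₁, hb₁⟩ := (hC.image (continuous_detNorm675 h)).bddAbove
  have hc : Continuous fun g : G K => (detNorm675 h g)⁻¹ :=
    (continuous_detNorm675 h).inv₀ fun g => (detNorm675_pos h g).ne'
  obtain ⟨b₂, hb₂⟩ := (hC.image hc).bddAbove
  refine ⟨max b₁ b₂, fun g hg => ⟨?_, ?_⟩⟩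
  · exact le_max_of_le_left (hb₁ (Set.mem_image_of_mem _ hg))
  · exact le_max_of_le_right (hb₂ (Set.mem_image_of_mem (fun g : G K => (detNorm675 h g)⁻¹) hg))

/-- **T5.07a (ray bound).** -/
theorem rayBound675 (s : AdelicAut K) (𝔫 : Ideal (𝓞 K)) : H29.RayBoundC s 𝔫 := by
  intro h μ r hr hP φ ht
  obtain ⟨b, hb⟩ := detNorm675_bdd h ht
  obtain ⟨N, hN⟩ := pow_unbounded_of_one_lt (2 * b) (one_lt_two : (1 : ℝ) < 2)
  refine ⟨N, fun x δ m hφ => ?_⟩
  have hmem : x⁻¹ * ratG δ * s.onG x * r ^ m ∈ tsupport φ := subset_tsupport _ hφ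
  obtain ⟨hb1, hb2⟩ := hb _ hmem
  rw [map_mul, map_mul, map_mul, map_inv, map_zpow, detNorm675_ratG, detNorm675_rayGen h hr,
    mul_one] at hb1 hb2
  obtain ⟨hs1, hs2⟩ := detNorm675_onG h hr hP x
  have hx := detNorm675_pos h x
  have hsx := detNorm675_pos h (s.onG x)
  have h2m : (0 : ℝ) < 2 ^ m := zpow_pos (by norm_num) m
  set a := detNorm675 h x with ha
  set c := detNorm675 h (s.onG x) with hc
  -- 2^m < 2 b
  have e1 : (2 : ℝ) ^ m < 2 ^ (N : ℤ) := by
    have : (2 : ℝ) ^ m < 2 * b := by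
      have h3 : a⁻¹ * c * 2 ^ m ≤ b := hb1
      have h4 : (1 : ℝ) / 2 < a⁻¹ * c := by
        rw [inv_mul_eq_div, div_lt_div_iff₀ (by norm_num) hx]
        linarith
      nlinarith
    rw [zpow_natCast]
    exact this.trans hN
  have e2 : (2 : ℝ) ^ (-m) < 2 ^ (N : ℤ) := by
    have : (2 : ℝ) ^ (-m) < 2 * b := by
      have h3 : (a⁻¹ * c * 2 ^ m)⁻¹ ≤ b := hb2
      rw [mul_inv, mul_inv, inv_inv, ← zpow_neg] at h3
      have h2m' : (0 : ℝ) < 2 ^ (-m) := zpow_pos (by norm_num) (-m)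
      have h4 : (1 : ℝ) / 2 < a * c⁻¹ := by
        rw [← div_eq_mul_inv, div_lt_div_iff₀ (by norm_num) hsx]
        linarith
      nlinarith
    rw [zpow_natCast]
    exact this.trans hN
  rw [zpow_lt_zpow_iff_right₀ (one_lt_two : (1 : ℝ) < 2)] at e1 e2
  omega

end Fermat.Agent.LT.T5.H29.V4.H675

end

end
-- ===== PACK-END LT/T5/H29/V4/RayBound675.lean

-- ===== PACK-BEGIN LT/T5/H655/RaySlab.lean
section






/-!
# Row LT, tower T5, sub-leaf T5.07g `RaySlabC` (helper655) — OFF-MAIN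

Spec bytes: `T5/H29/TwSpec.lean` = helper29@dedb60878 (sha256 08555f0f), `T5/Spec.lean`
(sha256 0d469f71), `T1/Spec.lean` (sha256 e8ae48d6), `H556/A0.lean` (sha256 66d3374a).

PROVED here: `raySlabC655 : T5.H29.RaySlabC K` for every number field `K`, VERBATIM.

* the generator `r` of the discrete ray is a scalar matrix (`rayGen_eq_diagonal655`), hence central;
* its powers lie on the central ray (`isCentralRay_zpow655`);
* `‖det r‖_𝔸 = t^{2 [K:ℚ]} = 2` (`detNorm_rayGen655`), so a power of `r` moves every element into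
  the slab;
* the slab is `GL₂(K)`-invariant by the product formula (third clause of `T1.AdNormC`).
-/

set_option autoImplicit false

open IsDedekindDomain NumberField
open scoped MatrixGroups

noncomputable section

namespace Fermat.Agent.LT.T5.H655

open Fermat.Agent.LT.H556.A0 Fermat.Agent.LT.T5 Fermat.Agent.LT

variable {K : Type} [Field K] [NumberField K]

/-! ## Components -/

/-- Two adeles with the same components are equal. -/
theorem adl_ext655 {x y : Adl K} (hinf : ∀ w : InfinitePlace K, infHom w x = infHom w y)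
    (hfin : ∀ v : HeightOneSpectrum (𝓞 K), finHom v x = finHom v y) : x = y := by
  refine Prod.ext ?_ ?_
  · funext w
    exact (InfinitePlace.Completion.extensionEmbedding w).injective (hinf w)
  · exact RestrictedProduct.ext _ _ hfin

theorem infHom_entry655 (w : InfinitePlace K) (g : G K) (i j : Fin 2) :
    infHom w ((g : Matrix (Fin 2) (Fin 2) (Adl K)) i j) = infComp w g i j := rfl

theorem finHom_entry655 (v : HeightOneSpectrum (𝓞 K)) (g : G K) (i j : Fin 2) :
    finHom v ((g : Matrix (Fin 2) (Fin 2) (Adl K)) i j) = finComp v g i j := rfl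

theorem infHom_det655 (w : InfinitePlace K) (g : G K) :
    infHom w (Matrix.det (g : Matrix (Fin 2) (Fin 2) (Adl K))) = (infComp w g).det := by
  rw [infComp_eq_map, RingHom.map_det]
  rfl

theorem finHom_det655 (v : HeightOneSpectrum (𝓞 K)) (g : G K) :
    finHom v (Matrix.det (g : Matrix (Fin 2) (Fin 2) (Adl K))) = (finComp v g).det := by
  rw [finComp_eq_map, RingHom.map_det]
  rfl

theorem norm_inf655 (w : InfinitePlace K) (x : Adl K) : ‖x.1 w‖ = ‖infHom w x‖ :=
  ((InfinitePlace.Completion.isometry_extensionEmbedding w).norm_map_of_map_zero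
    (map_zero _) (x.1 w)).symm


/-! ## The generator of the ray is a scalar matrix -/

/-- A matrix which is `1` at every finite place and the scalar `t` at every infinite place is a
scalar matrix. -/
theorem eq_diagonal_of_comp655 {r : G K} {t : ℝ}
    (hfin : ∀ v : HeightOneSpectrum (𝓞 K), TrivAtFin v r)
    (hinf : ∀ w : InfinitePlace K, infComp w r = Matrix.diagonal (fun _ => (t : ℂ))) :
    (r : Matrix (Fin 2) (Fin 2) (Adl K))
      = Matrix.diagonal (fun _ => (r : Matrix (Fin 2) (Fin 2) (Adl K)) 0 0) := by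
  have hI : ∀ (w : InfinitePlace K) (i j : Fin 2),
      infHom w ((r : Matrix (Fin 2) (Fin 2) (Adl K)) i j)
        = (Matrix.diagonal (fun _ => (t : ℂ)) : Matrix (Fin 2) (Fin 2) ℂ) i j := by
    intro w i j
    rw [infHom_entry655, hinf w]
  have hF : ∀ (v : HeightOneSpectrum (𝓞 K)) (i j : Fin 2),
      finHom v ((r : Matrix (Fin 2) (Fin 2) (Adl K)) i j)
        = (1 : Matrix (Fin 2) (Fin 2) (v.adicCompletion K)) i j := by
    intro v i j
    rw [finHom_entry655, hfin v]
  ext i j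
  by_cases hij : i = j
  · subst hij
    rw [Matrix.diagonal_apply_eq]
    refine adl_ext655 (fun w => ?_) (fun v => ?_)
    · rw [hI, hI, Matrix.diagonal_apply_eq, Matrix.diagonal_apply_eq]
    · rw [hF, hF, Matrix.one_apply_eq, Matrix.one_apply_eq]
  · rw [Matrix.diagonal_apply_ne _ hij]
    refine adl_ext655 (fun w => ?_) (fun v => ?_)
    · rw [hI, Matrix.diagonal_apply_ne _ hij, map_zero]
    · rw [hF, Matrix.one_apply_ne hij, map_zero]

/-- A scalar matrix is central in `GL₂(𝔸_K)`. -/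
theorem central_of_diagonal655 {r : G K} {c : Adl K}
    (hr : (r : Matrix (Fin 2) (Fin 2) (Adl K)) = Matrix.diagonal (fun _ => c)) (g : G K) :
    g * r = r * g := by
  apply Units.ext
  have h := (Matrix.scalar_commute (n := Fin 2) c (fun r' => Commute.all c r')
    (g : Matrix (Fin 2) (Fin 2) (Adl K))).eq
  rw [Units.val_mul, Units.val_mul]
  change (g : Matrix (Fin 2) (Fin 2) (Adl K)) * (r : Matrix (Fin 2) (Fin 2) (Adl K))
    = (r : Matrix (Fin 2) (Fin 2) (Adl K)) * (g : Matrix (Fin 2) (Fin 2) (Adl K))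
  rw [hr]
  exact h.symm

/-! ## Powers of a point of the central ray -/

/-- The component maps as group homomorphisms. -/
def infGL655 (w : InfinitePlace K) : G K →* GL (Fin 2) ℂ :=
  Matrix.GeneralLinearGroup.map (infHom w)

/-- The component maps as group homomorphisms. -/
def finGL655 (v : HeightOneSpectrum (𝓞 K)) : G K →* GL (Fin 2) (v.adicCompletion K) :=
  Matrix.GeneralLinearGroup.map (finHom v)

theorem infGL_val655 (w : InfinitePlace K) (g : G K) :
    ((infGL655 w g : GL (Fin 2) ℂ) : Matrix (Fin 2) (Fin 2) ℂ) = infComp w g := rfl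

theorem finGL_val655 (v : HeightOneSpectrum (𝓞 K)) (g : G K) :
    ((finGL655 v g : GL (Fin 2) (v.adicCompletion K)) :
      Matrix (Fin 2) (Fin 2) (v.adicCompletion K)) = finComp v g := rfl

/-- The scalar matrices of `GL₂(ℂ)`. -/
def scalGL655 : ℂˣ →* GL (Fin 2) ℂ :=
  Units.map (Matrix.scalar (Fin 2) : ℂ →+* Matrix (Fin 2) (Fin 2) ℂ).toMonoidHom

theorem scalGL_val655 (u : ℂˣ) :
    ((scalGL655 u : GL (Fin 2) ℂ) : Matrix (Fin 2) (Fin 2) ℂ)
      = Matrix.diagonal (fun _ => (u : ℂ)) := rfl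

/-- Powers of a point of the central ray lie on the central ray. -/
theorem isCentralRay_zpow_of_comp655 {r : G K} {t : ℝ} (ht : 0 < t)
    (hfin : ∀ v : HeightOneSpectrum (𝓞 K), TrivAtFin v r)
    (hinf : ∀ w : InfinitePlace K, infComp w r = Matrix.diagonal (fun _ => (t : ℂ)))
    (m : ℤ) : IsCentralRay (r ^ m) := by
  have htC : (t : ℂ) ≠ 0 := Complex.ofReal_ne_zero.2 ht.ne'
  refine ⟨fun v => ?_, t ^ m, zpow_pos ht m, fun w => ?_⟩
  · have h1 : finGL655 v r = 1 := by
      apply Units.ext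
      rw [finGL_val655]
      exact hfin v
    show finComp v (r ^ m) = 1
    rw [← finGL_val655, map_zpow, h1, one_zpow]
    rfl
  · have h1 : infGL655 w r = scalGL655 (Units.mk0 (t : ℂ) htC) := by
      apply Units.ext
      rw [infGL_val655, scalGL_val655, hinf w]
      rfl
    rw [← infGL_val655, map_zpow, h1, ← map_zpow, scalGL_val655]
    congr 1
    funext _
    rw [Units.val_zpow_eq_zpow_val, Units.val_mk0, Complex.ofReal_zpow]


/-! ## The module of the determinant -/

theorem adNorm_eq655 (x : Adl K) : T5.adNorm x = T1.adNorm K x := rfl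

theorem adNorm_def655 (x : Adl K) :
    T1.adNorm K x = (∏ w : InfinitePlace K, ‖infHom w x‖ ^ w.mult)
      * ∏ᶠ v : HeightOneSpectrum (𝓞 K), ‖finHom v x‖ := by
  unfold T1.adNorm
  congr 1
  exact Finset.prod_congr rfl fun w _ => by rw [norm_inf655]

/-- The module as a monoid homomorphism on the ideles. -/
def normHom655 (hN : T1.AdNormC K) : (Adl K)ˣ →* ℝ where
  toFun u := T1.adNorm K (u : Adl K)
  map_one' := by
    have h := hN.2.1 1 1
    have hp := hN.1 1
    rw [mul_one] at h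
    have h2 : T1.adNorm K ((1 : (Adl K)ˣ) : Adl K) * (T1.adNorm K ((1 : (Adl K)ˣ) : Adl K) - 1)
        = 0 := by
      rw [mul_sub, mul_one, ← h, sub_self]
    rcases mul_eq_zero.1 h2 with h3 | h3
    · exact absurd h3 hp.ne'
    · exact sub_eq_zero.1 h3
  map_mul' := hN.2.1

theorem normHom_apply655 (hN : T1.AdNormC K) (u : (Adl K)ˣ) :
    normHom655 hN u = T1.adNorm K (u : Adl K) := rfl

theorem normHom_pos655 (hN : T1.AdNormC K) (u : (Adl K)ˣ) : 0 < normHom655 hN u := hN.1 u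

theorem normHom_inv655 (hN : T1.AdNormC K) (u : (Adl K)ˣ) :
    normHom655 hN u⁻¹ = (normHom655 hN u)⁻¹ := by
  have h : normHom655 hN u⁻¹ * normHom655 hN u = 1 := by
    rw [← map_mul, inv_mul_cancel, map_one]
  exact eq_inv_of_mul_eq_one_left h

theorem normHom_zpow655 (hN : T1.AdNormC K) (u : (Adl K)ˣ) (m : ℤ) :
    normHom655 hN (u ^ m) = normHom655 hN u ^ m :=
  map_zpow' (normHom655 hN) (normHom_inv655 hN) u m

/-- The module of the determinant, as a monoid homomorphism on `GL₂(𝔸_K)`. -/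
def detNorm655 (hN : T1.AdNormC K) : G K →* ℝ :=
  (normHom655 hN).comp Matrix.GeneralLinearGroup.det

theorem detNorm_apply655 (hN : T1.AdNormC K) (g : G K) :
    detNorm655 hN g = T5.adNorm (Matrix.det (g : Matrix (Fin 2) (Fin 2) (Adl K))) := rfl

theorem detNorm_zpow655 (hN : T1.AdNormC K) (g : G K) (m : ℤ) :
    detNorm655 hN (g ^ m) = detNorm655 hN g ^ m := by
  unfold detNorm655
  rw [MonoidHom.comp_apply, map_zpow, normHom_zpow655, MonoidHom.comp_apply]

theorem mem_slab_iff655 (hN : T1.AdNormC K) (g : G K) :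
    g ∈ slab K ↔ 1 ≤ detNorm655 hN g ∧ detNorm655 hN g < 2 := Iff.rfl

/-- Product formula: the module of the determinant is `1` on `GL₂(K)`. -/
theorem detNorm_ratG655 (hN : T1.AdNormC K) (γ : GL (Fin 2) K) :
    detNorm655 hN (ratG γ) = 1 := by
  have h := hN.2.2.1 (Matrix.GeneralLinearGroup.det γ)
  have e : Matrix.GeneralLinearGroup.det (ratG γ : G K)
      = T1.ratUnit K (Matrix.GeneralLinearGroup.det γ) := by
    apply Units.ext
    show Matrix.det ((γ : Matrix (Fin 2) (Fin 2) K).map (algebraMap K (Adl K)))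
      = algebraMap K (Adl K) (Matrix.det (γ : Matrix (Fin 2) (Fin 2) K))
    exact ((algebraMap K (Adl K)).map_det _).symm
  unfold detNorm655
  rw [MonoidHom.comp_apply, e, normHom_apply655]
  exact h

/-- `‖det r‖_𝔸 = t^{2 [K : ℚ]}` for the scalar `t` at the infinite places. -/
theorem detNorm_of_comp655 (hN : T1.AdNormC K) {r : G K} {t : ℝ} (ht : 0 < t)
    (hfin : ∀ v : HeightOneSpectrum (𝓞 K), TrivAtFin v r)
    (hinf : ∀ w : InfinitePlace K, infComp w r = Matrix.diagonal (fun _ => (t : ℂ))) :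
    detNorm655 hN r = t ^ (2 * Module.finrank ℚ K) := by
  rw [detNorm_apply655, adNorm_eq655, adNorm_def655]
  have h1 : ∀ v : HeightOneSpectrum (𝓞 K),
      ‖finHom v (Matrix.det (r : Matrix (Fin 2) (Fin 2) (Adl K)))‖ = 1 := by
    intro v
    rw [finHom_det655, hfin v, Matrix.det_one, norm_one]
  have h2 : ∀ w : InfinitePlace K,
      ‖infHom w (Matrix.det (r : Matrix (Fin 2) (Fin 2) (Adl K)))‖ = t ^ 2 := by
    intro w
    rw [infHom_det655, hinf w, Matrix.det_diagonal, Fin.prod_univ_two, norm_mul,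
      Complex.norm_real, Real.norm_of_nonneg ht.le, sq]
  rw [finprod_eq_one_of_forall_eq_one h1, mul_one]
  simp only [h2]
  rw [Finset.prod_pow_eq_pow_sum, ← pow_mul, InfinitePlace.sum_mult_eq]


/-! ## The leaf -/

/-- Every element is moved into the slab by a power of an element of module `2`. -/
theorem exists_zpow_mem_slab655 (hN : T1.AdNormC K) {r : G K} (hr : detNorm655 hN r = 2)
    (x : G K) : ∃ j : ℤ, x * r ^ j ∈ slab K := by
  have hx : 0 < detNorm655 hN x := normHom_pos655 hN _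
  obtain ⟨n, hn1, hn2⟩ := exists_mem_Ico_zpow hx (one_lt_two : (1 : ℝ) < 2)
  have h2n : (0 : ℝ) < 2 ^ n := zpow_pos two_pos n
  refine ⟨-n, ?_⟩
  rw [mem_slab_iff655 hN, map_mul, detNorm_zpow655, hr, zpow_neg]
  constructor
  · rw [← div_eq_mul_inv, le_div_iff₀ h2n, one_mul]
    exact hn1
  · rw [← div_eq_mul_inv, div_lt_iff₀ h2n]
    calc detNorm655 hN x < 2 ^ (n + 1) := hn2
      _ = 2 * 2 ^ n := by rw [zpow_add_one₀ (two_ne_zero : (2 : ℝ) ≠ 0), mul_comm]

/-- **T5.07g `RaySlabC`**, VERBATIM. -/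
theorem raySlabC655 (K : Type) [Field K] [NumberField K] : T5.H29.RaySlabC K := by
  intro hN
  refine ⟨fun r hr => ?_, fun γ x hx => ?_⟩
  · obtain ⟨hfin, t, ht, ht2, hinf⟩ := hr
    refine ⟨fun g => central_of_diagonal655 (eq_diagonal_of_comp655 hfin hinf) g,
      fun m => isCentralRay_zpow_of_comp655 ht hfin hinf m,
      fun x => exists_zpow_mem_slab655 hN ?_ x⟩
    rw [detNorm_of_comp655 hN ht hfin hinf, ht2]
  · rw [mem_slab_iff655 hN] at hx ⊢
    rw [map_mul, detNorm_ratG655, one_mul]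
    exact hx

end Fermat.Agent.LT.T5.H655

end

end
-- ===== PACK-END LT/T5/H655/RaySlab.lean

-- ===== PACK-BEGIN LT/H942/CompactBounds.lean
section





/-!
# Row LT, towers T4/T5 — compact subsets of `GL₂(𝔸_K)` and regular test functions (helper942)

OFF-MAIN.  Imports Mathlib, the frozen vocabulary `LT/H556/A0.lean` and my own files.

* `continuous_finComp942`, `continuous_infComp942`: the local components are continuous on
  `GL₂(𝔸_K)`;
* `isOpen_integralOutside942`: `{h | h_v ∈ GL₂(𝒪_v) for all v ∉ S}` is open;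
* `exists_finset_integral_of_compact942`: a compact subset of `GL₂(𝔸_K)` lies in
  `∏_{v ∈ S} GL₂(K_v) × ∏_{v ∉ S} GL₂(𝒪_v) × GL₂(K_∞)` for a finite set `S`;
* `exists_bound_of_compact942`: … and `‖tr h_v‖² ≤ B ‖det h_v‖` at all places, uniformly;
* `regular_support_elliptic942`: **regular ⇒ elliptic for a compact support**.  For `C` compact
  and a finite place `u` there is `ε > 0` such that: if `h = g⁻¹ γ g` (`γ ∈ GL₂(K)`) agrees
  outside `u` with an element of `C` and `h_u ∈ I diag(c, 1) I` with `‖c‖_u < ε`, then `γ` has no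
  eigenvalue in `K`.  (Flicker, *Regular trace formula and base change lifting*, §1.)
-/

set_option autoImplicit false

open IsDedekindDomain NumberField
open scoped RestrictedProduct

noncomputable section

namespace Fermat.Agent.LT.H942

open Fermat.Agent.LT.H556.A0

variable {K : Type} [Field K] [NumberField K]

/-! ## Continuity of the local components -/

theorem continuous_finProj942 (v : HeightOneSpectrum (𝓞 K)) :
    Continuous (finProj942 v : Adl K → v.adicCompletion K) :=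
  (RestrictedProduct.continuous_eval v).comp continuous_snd

theorem continuous_infProj942 (w : InfinitePlace K) :
    Continuous (infProj942 w : Adl K → ℂ) :=
  (InfinitePlace.Completion.isometry_extensionEmbedding w).continuous.comp
    ((continuous_apply w).comp continuous_fst)

theorem continuous_entry942 (i j : Fin 2) :
    Continuous fun g : G K => (g : Matrix (Fin 2) (Fin 2) (Adl K)) i j :=
  Continuous.matrix_elem Units.continuous_val i j

theorem continuous_entry_inv942 (i j : Fin 2) :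
    Continuous fun g : G K => ((g⁻¹ : G K) : Matrix (Fin 2) (Fin 2) (Adl K)) i j :=
  (continuous_entry942 i j).comp continuous_inv

theorem continuous_finComp942 (v : HeightOneSpectrum (𝓞 K)) (i j : Fin 2) :
    Continuous fun g : G K => finComp v g i j :=
  (continuous_finProj942 v).comp (continuous_entry942 i j)

theorem continuous_infComp942 (w : InfinitePlace K) (i j : Fin 2) :
    Continuous fun g : G K => infComp w g i j :=
  (continuous_infProj942 w).comp (continuous_entry942 i j)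

theorem continuous_trace_finComp942 (v : HeightOneSpectrum (𝓞 K)) :
    Continuous fun g : G K => (finComp v g).trace := by
  simp only [Matrix.trace_fin_two]
  exact (continuous_finComp942 v 0 0).add (continuous_finComp942 v 1 1)

theorem continuous_det_finComp942 (v : HeightOneSpectrum (𝓞 K)) :
    Continuous fun g : G K => (finComp v g).det := by
  simp only [Matrix.det_fin_two]
  exact ((continuous_finComp942 v 0 0).mul (continuous_finComp942 v 1 1)).sub
    ((continuous_finComp942 v 0 1).mul (continuous_finComp942 v 1 0))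

theorem continuous_trace_infComp942 (w : InfinitePlace K) :
    Continuous fun g : G K => (infComp w g).trace := by
  simp only [Matrix.trace_fin_two]
  exact (continuous_infComp942 w 0 0).add (continuous_infComp942 w 1 1)

theorem continuous_det_infComp942 (w : InfinitePlace K) :
    Continuous fun g : G K => (infComp w g).det := by
  simp only [Matrix.det_fin_two]
  exact ((continuous_infComp942 w 0 0).mul (continuous_infComp942 w 1 1)).sub
    ((continuous_infComp942 w 0 1).mul (continuous_infComp942 w 1 0))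

/-- The local invariant `‖tr h_v‖² / ‖det h_v‖` is continuous. -/
theorem continuous_ratio_fin942 (v : HeightOneSpectrum (𝓞 K)) :
    Continuous fun g : G K => ‖(finComp v g).trace‖ ^ 2 / ‖(finComp v g).det‖ :=
  ((continuous_trace_finComp942 v).norm.pow 2).div (continuous_det_finComp942 v).norm
    fun g => (norm_det_finComp_pos942 v g).ne'

theorem continuous_ratio_inf942 (w : InfinitePlace K) :
    Continuous fun g : G K => ‖(infComp w g).trace‖ ^ 2 / ‖(infComp w g).det‖ :=
  ((continuous_trace_infComp942 w).norm.pow 2).div (continuous_det_infComp942 w).norm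
    fun g => (norm_det_infComp_pos942 w g).ne'

/-! ## Integrality outside a finite set is an open condition -/

/-- The finite adeles which are integral outside `S` form an open set. -/
theorem isOpen_adele_integralOutside942 (S : Finset (HeightOneSpectrum (𝓞 K))) :
    IsOpen {a : Adl K | ∀ v : HeightOneSpectrum (𝓞 K), v ∉ S →
      a.2 v ∈ v.adicCompletionIntegers K} := by
  have h1 : IsOpen {f : Πʳ v : HeightOneSpectrum (𝓞 K),
      [v.adicCompletion K, v.adicCompletionIntegers K] | ∀ v : HeightOneSpectrum (𝓞 K), v ∉ S →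
      f.1 v ∈ (v.adicCompletionIntegers K : Set (v.adicCompletion K))} :=
    RestrictedProduct.isOpen_forall_imp_mem
      (fun v => Valued.isOpen_valuationSubring _) (p := fun v => v ∉ S)
  exact h1.preimage (continuous_snd : Continuous fun a : Adl K => a.2)

theorem isOpen_integralOutside942 (S : Finset (HeightOneSpectrum (𝓞 K))) :
    IsOpen {h : G K | ∀ v : HeightOneSpectrum (𝓞 K), v ∉ S →
      IsIntegralAt v h ∧ IsIntegralAt v h⁻¹} := by
  have hset : {h : G K | ∀ v : HeightOneSpectrum (𝓞 K), v ∉ S →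
      IsIntegralAt v h ∧ IsIntegralAt v h⁻¹} =
      ⋂ i : Fin 2, ⋂ j : Fin 2,
        ((fun g : G K => (g : Matrix (Fin 2) (Fin 2) (Adl K)) i j) ⁻¹'
          {a : Adl K | ∀ v : HeightOneSpectrum (𝓞 K), v ∉ S →
            a.2 v ∈ v.adicCompletionIntegers K}) ∩
        ((fun g : G K => ((g⁻¹ : G K) : Matrix (Fin 2) (Fin 2) (Adl K)) i j) ⁻¹'
          {a : Adl K | ∀ v : HeightOneSpectrum (𝓞 K), v ∉ S →
            a.2 v ∈ v.adicCompletionIntegers K}) := by
    ext h
    simp only [Set.mem_setOf_eq, Set.mem_iInter, Set.mem_inter_iff, Set.mem_preimage]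
    constructor
    · intro H i j
      exact ⟨fun v hv => (H v hv).1 i j, fun v hv => (H v hv).2 i j⟩
    · intro H v hv
      exact ⟨fun i j => (H i j).1 v hv, fun i j => (H i j).2 v hv⟩
  rw [hset]
  refine isOpen_iInter_of_finite fun i => isOpen_iInter_of_finite fun j => ?_
  exact ((isOpen_adele_integralOutside942 S).preimage (continuous_entry942 i j)).inter
    ((isOpen_adele_integralOutside942 S).preimage (continuous_entry_inv942 i j))

/-- Every adele is integral outside a finite set. -/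
theorem exists_finset_adele_integral942 (a : Adl K) :
    ∃ S : Finset (HeightOneSpectrum (𝓞 K)), ∀ v : HeightOneSpectrum (𝓞 K), v ∉ S →
      a.2 v ∈ v.adicCompletionIntegers K := by
  have h := a.2.2
  rw [Filter.eventually_cofinite] at h
  refine ⟨h.toFinset, fun v hv => ?_⟩
  by_contra hv'
  exact hv (h.mem_toFinset.2 hv')

/-- Every element of `GL₂(𝔸_K)` is in `GL₂(𝒪_v)` outside a finite set. -/
theorem exists_finset_integral942 (h : G K) :
    ∃ S : Finset (HeightOneSpectrum (𝓞 K)), ∀ v : HeightOneSpectrum (𝓞 K), v ∉ S →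
      IsIntegralAt v h ∧ IsIntegralAt v h⁻¹ := by
  classical
  choose S hS using fun (p : Fin 2 × Fin 2) =>
    exists_finset_adele_integral942 ((h : Matrix (Fin 2) (Fin 2) (Adl K)) p.1 p.2)
  choose S' hS' using fun (p : Fin 2 × Fin 2) =>
    exists_finset_adele_integral942 (((h⁻¹ : G K) : Matrix (Fin 2) (Fin 2) (Adl K)) p.1 p.2)
  refine ⟨Finset.univ.biUnion S ∪ Finset.univ.biUnion S', fun v hv => ⟨fun i j => ?_, fun i j => ?_⟩⟩
  · refine hS (i, j) v fun hmem => hv ?_
    exact Finset.mem_union_left _ (Finset.mem_biUnion.2 ⟨(i, j), Finset.mem_univ _, hmem⟩)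
  · refine hS' (i, j) v fun hmem => hv ?_
    exact Finset.mem_union_right _ (Finset.mem_biUnion.2 ⟨(i, j), Finset.mem_univ _, hmem⟩)

/-- A compact subset of `GL₂(𝔸_K)` is contained in `GL₂(𝒪_v)` at all places outside a finite
set. -/
theorem exists_finset_integral_of_compact942 {C : Set (G K)} (hC : IsCompact C) :
    ∃ S : Finset (HeightOneSpectrum (𝓞 K)), ∀ h ∈ C, ∀ v : HeightOneSpectrum (𝓞 K), v ∉ S →
      IsIntegralAt v h ∧ IsIntegralAt v h⁻¹ := by
  classical
  obtain ⟨S, hS⟩ := hC.elim_directed_cover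
    (fun S : Finset (HeightOneSpectrum (𝓞 K)) =>
      {h : G K | ∀ v : HeightOneSpectrum (𝓞 K), v ∉ S → IsIntegralAt v h ∧ IsIntegralAt v h⁻¹})
    (fun S => isOpen_integralOutside942 S)
    (fun h _ => by
      obtain ⟨S, hS⟩ := exists_finset_integral942 h
      exact Set.mem_iUnion.2 ⟨S, hS⟩)
    (fun S T => ⟨S ∪ T,
      fun h hh v hv => hh v fun hvS => hv (Finset.mem_union_left _ hvS),
      fun h hh v hv => hh v fun hvT => hv (Finset.mem_union_right _ hvT)⟩)
  exact ⟨S, fun h hh => hS hh⟩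

/-- **Uniform local bounds on a compact set.** -/
theorem exists_bound_of_compact942 {C : Set (G K)} (hC : IsCompact C) :
    ∃ (S : Finset (HeightOneSpectrum (𝓞 K))) (B : ℝ), 1 ≤ B ∧ ∀ h ∈ C,
      (∀ v : HeightOneSpectrum (𝓞 K), v ∉ S → IsIntegralAt v h ∧ IsIntegralAt v h⁻¹) ∧
      (∀ v : HeightOneSpectrum (𝓞 K), ‖(finComp v h).trace‖ ^ 2 ≤ B * ‖(finComp v h).det‖) ∧
      ∀ w : InfinitePlace K, ‖(infComp w h).trace‖ ^ 2 ≤ B * ‖(infComp w h).det‖ := by
  classical
  obtain ⟨S, hS⟩ := exists_finset_integral_of_compact942 hC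
  -- bounds at the places of `S`
  have hbf : ∀ v : HeightOneSpectrum (𝓞 K), ∃ b : ℝ, ∀ h ∈ C,
      ‖(finComp v h).trace‖ ^ 2 / ‖(finComp v h).det‖ ≤ b := by
    intro v
    obtain ⟨b, hb⟩ := (hC.image (continuous_ratio_fin942 v)).bddAbove
    exact ⟨b, fun h hh => hb (Set.mem_image_of_mem _ hh)⟩
  have hbi : ∀ w : InfinitePlace K, ∃ b : ℝ, ∀ h ∈ C,
      ‖(infComp w h).trace‖ ^ 2 / ‖(infComp w h).det‖ ≤ b := by
    intro w
    obtain ⟨b, hb⟩ := (hC.image (continuous_ratio_inf942 w)).bddAbove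
    exact ⟨b, fun h hh => hb (Set.mem_image_of_mem _ hh)⟩
  choose bf hbf using hbf
  choose bi hbi using hbi
  set B : ℝ := 1 + ∑ v ∈ S, |bf v| + ∑ w : InfinitePlace K, |bi w| with hBdef
  have hsum1 : 0 ≤ ∑ v ∈ S, |bf v| := Finset.sum_nonneg fun _ _ => abs_nonneg _
  have hsum2 : 0 ≤ ∑ w : InfinitePlace K, |bi w| := Finset.sum_nonneg fun _ _ => abs_nonneg _
  have hB1 : 1 ≤ B := by rw [hBdef]; linarith
  refine ⟨S, B, hB1, fun h hh => ⟨hS h hh, fun v => ?_, fun w => ?_⟩⟩
  · by_cases hv : v ∈ S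
    · have h1 := hbf v h hh
      rw [div_le_iff₀ (norm_det_finComp_pos942 v h)] at h1
      refine le_trans h1 (mul_le_mul_of_nonneg_right ?_ (norm_nonneg _))
      have h2 : |bf v| ≤ ∑ v ∈ S, |bf v| :=
        Finset.single_le_sum (f := fun v => |bf v|) (fun _ _ => abs_nonneg _) hv
      rw [hBdef]
      linarith [le_abs_self (bf v)]
    · have h1 := regular_adelic_of_integral942 v h (hS h hh v hv).1 (hS h hh v hv).2
      refine le_trans h1 ?_
      calc ‖(finComp v h).det‖ = 1 * ‖(finComp v h).det‖ := (one_mul _).symm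
        _ ≤ B * ‖(finComp v h).det‖ := mul_le_mul_of_nonneg_right hB1 (norm_nonneg _)
  · have h1 := hbi w h hh
    rw [div_le_iff₀ (norm_det_infComp_pos942 w h)] at h1
    refine le_trans h1 (mul_le_mul_of_nonneg_right ?_ (norm_nonneg _))
    have h2 : |bi w| ≤ ∑ w : InfinitePlace K, |bi w| :=
      Finset.single_le_sum (f := fun w => |bi w|) (fun _ _ => abs_nonneg _) (Finset.mem_univ w)
    rw [hBdef]
    linarith [le_abs_self (bi w)]

/-- **Regular ⇒ elliptic for a compact support.**  `C ⊂ GL₂(𝔸_K)` compact, `u` a finite place.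
There is `ε > 0` such that for `γ ∈ GL₂(K)`, `g ∈ GL₂(𝔸_K)`: if `h = g⁻¹ γ g` has the same
components as some `c ∈ C` at all places other than `u`, and `h_u = k₁ diag(c₀, 1) k₂` with
`k₁, k₂` in the Iwahori subgroup and `‖c₀‖_u < ε`, then `γ` has no eigenvalue in `K`. -/
theorem regular_support_elliptic942 {C : Set (G K)} (hC : IsCompact C)
    (u : HeightOneSpectrum (𝓞 K)) :
    ∃ ε : ℝ, 0 < ε ∧ ∀ (γ : GL (Fin 2) K) (g : G K),
      (∃ c ∈ C, (∀ v : HeightOneSpectrum (𝓞 K), v ≠ u →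
          finComp v (g⁻¹ * rat942 γ * g) = finComp v c) ∧
        ∀ w : InfinitePlace K, infComp w (g⁻¹ * rat942 γ * g) = infComp w c) →
      (∃ (k₁ k₂ : Matrix (Fin 2) (Fin 2) (u.adicCompletion K)) (c₀ : u.adicCompletion K),
        IsIwahoriMat (Valued.v : Valuation (u.adicCompletion K) _) k₁ ∧
        IsIwahoriMat (Valued.v : Valuation (u.adicCompletion K) _) k₂ ∧ ‖c₀‖ < ε ∧
        finComp u (g⁻¹ * rat942 γ * g) = k₁ * Matrix.diagonal ![c₀, 1] * k₂) →
      ∀ x : K, ((γ : Matrix (Fin 2) (Fin 2) K) - Matrix.scalar (Fin 2) x).det ≠ 0 := by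
  obtain ⟨S, B, hB, hSB⟩ := exists_bound_of_compact942 hC
  have hpos : 0 < (B + 3) ^ (Module.finrank ℚ K + S.card) := pow_pos (by linarith) _
  refine ⟨((B + 3) ^ (Module.finrank ℚ K + S.card))⁻¹, inv_pos.2 hpos, ?_⟩
  rintro γ g ⟨c, hc, hfin, hinf⟩ ⟨k₁, k₂, c₀, hk₁, hk₂, hc₀, hh⟩
  obtain ⟨hint, hbf, hbi⟩ := hSB c hc
  have hB3 : (1 : ℝ) ≤ (B + 3) ^ (Module.finrank ℚ K + S.card) :=
    one_le_pow₀ (by linarith)
  have hc1 : ‖c₀‖ < 1 :=
    lt_of_lt_of_le hc₀ (inv_le_one_of_one_le₀ hB3)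
  obtain ⟨htr, hdet⟩ := regular_adelic_of_iwahori942 u _ hk₁ hk₂ hc1 hh
  refine regular_adelic_no_eigenvalue942 u S hB γ g ?_ ?_ ?_ ?_
  · intro v hvu hvS
    rw [hfin v hvu]
    exact regular_adelic_of_integral942 v c (hint v hvS).1 (hint v hvS).2
  · intro v _ hvu
    rw [hfin v hvu]
    exact hbf v
  · intro w
    rw [hinf w]
    exact hbi w
  · rw [htr, hdet]
    calc (B + 3) ^ (Module.finrank ℚ K + S.card) * ‖c₀‖
        < (B + 3) ^ (Module.finrank ℚ K + S.card) *
            ((B + 3) ^ (Module.finrank ℚ K + S.card))⁻¹ := mul_lt_mul_of_pos_left hc₀ hpos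
      _ = 1 := mul_inv_cancel₀ hpos.ne'
      _ = 1 ^ 2 := (one_pow 2).symm

end Fermat.Agent.LT.H942

end

end
-- ===== PACK-END LT/H942/CompactBounds.lean

-- ===== PACK-BEGIN LT/T5/H40/HS0Core.lean
section



/-!
# Row LT, tower T5, leaf T5.02f `BorelSumBddC` (THE ESTIMATE): SUB-SPEC of the cut (helper40)

OFF-MAIN.  Definitions + frozen Props; the PROVED assembly
`borelSumBdd_of_core40 : EKPointC → TorusCountC → PoissonTailC → … → BorelSumBddC` is in
`HS0Asm.lean`.  Vocabulary: `T3.unip K u = n(u)`, `T3.IsCovolOne` (T3/Spec, helper14, sha256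
`44de320b8621…`), `T1.HasHeight`.  Typed on `T5/Spec` v4 (`f2d97e70548f…`).

## The cut

`B(K) = N(K) ⋊ T(K)`: `β = n(ν) d(a,b)`, `ν ∈ K`, `a, b ∈ Kˣ`.  For fixed `x, y`

  `∑_{β ∈ B(K)} φ♭(x⁻¹ β y) = ∑_{(a,b,m)} ∑_{ν ∈ K} φ(x⁻¹ n(ν) d(a,b) y rᵐ)`,

a finite sum.  For every `(a,b,m)` write, with `g = d(a,b) y rᵐ`,

  `∑_{ν ∈ K} φ(x⁻¹ n(ν) g) = ∫_𝔸 φ(x⁻¹ n(u) g) du + E(x, g)`   (`vol(𝔸/K) = 1`).

* `EKPointC`     (T5.02f1): `∑_{(a,b,m)} ∫_𝔸 φ(x⁻¹ n(u) d(a,b) g rᵐ) du = 0` for ALL `x, g`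
                 (pointwise form of the operator condition `T5.IsEK` of Spec v4; v2 of this
                 file: periodised along the ray).
* `TorusCountC`  (T5.02f2): at most `N₀` triples `(a,b,m)` have a non-zero term, for ALL `x, y`.
* `PoissonTailC` (T5.02f3): `|E(x, g)| ≤ B₀` for `x` high in the cusp and ALL `g`
                 (smooth lattice Riemann sums / Poisson summation; level `𝔫 ≠ 0`).

Then `|∑_{β} φ♭(x⁻¹ β y)| = |∑_{(a,b,m)} E(x, d(a,b) y rᵐ)| ≤ N₀ B₀`.
-/

set_option autoImplicit false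

open IsDedekindDomain NumberField MeasureTheory
open scoped MatrixGroups ComplexConjugate

noncomputable section

namespace Fermat.Agent.LT.T5.H40

open Fermat.Agent.LT.H556.A0 Fermat.Agent.LT.T5

attribute [local instance] Fermat.Agent.LT.T5.instMeasurableSpaceG

variable (K : Type) [Field K] [NumberField K]

/-- The rational unipotent matrix `n(ν) = [[1, ν], [0, 1]]`. -/
def nRat (ν : K) : GL (Fin 2) K :=
  ⟨!![1, ν; 0, 1], !![1, -ν; 0, 1],
    by ext i j; fin_cases i <;> fin_cases j <;> simp [Matrix.mul_apply, Fin.sum_univ_two],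
    by ext i j; fin_cases i <;> fin_cases j <;> simp [Matrix.mul_apply, Fin.sum_univ_two]⟩

/-- The rational diagonal matrix `d(a, b) = diag(a, b)`. -/
def dRat (a b : Kˣ) : GL (Fin 2) K :=
  ⟨!![(a : K), 0; 0, (b : K)], !![((a⁻¹ : Kˣ) : K), 0; 0, ((b⁻¹ : Kˣ) : K)],
    by ext i j; fin_cases i <;> fin_cases j <;> simp [Matrix.mul_apply, Fin.sum_univ_two],
    by ext i j; fin_cases i <;> fin_cases j <;> simp [Matrix.mul_apply, Fin.sum_univ_two]⟩

/-- There is a Haar measure of `𝔸_K` for which `𝔸_K / K` has volume `1`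
(`T1.LocCompC` + `T1.AddFundDomC`). -/
def CovolOneC : Prop :=
  letI : MeasurableSpace (Adl K) := borel (Adl K)
  ∃ lam : Measure (Adl K), lam.IsAddHaarMeasure ∧ T3.IsCovolOne K lam

/-- **T5.02f1 (Eisenstein-killing, POINTWISE form; v2 = PERIODISED along the ray, for
`T5/Spec` v4).**  If `R(φ)` kills every continuous function which is left invariant under
`N(𝔸_K) T(K)` and right invariant under the ray generator `r` (`T5.IsEK`, Spec v4), then for all
`x, g`
`∑_{(a,b,m) ∈ Kˣ × Kˣ × ℤ} ∫_{𝔸_K} φ(x⁻¹ n(u) d(a,b) g rᵐ) du = 0` (a finite sum).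
(The unperiodised identity is FALSE on Spec v4: referee helper739 #16314, witness
`φ = η - η(· r)`.)

Proof without quotient measures.  Fix `x`, put `A(g) =` the left side: `A` is continuous, left
invariant under `N(𝔸_K)` (translation of `u`) and `T(K)` (re-indexing; `u ↦ (a/b) u` preserves
the Haar measure: product formula, `T3.HaarScaleC`) and right invariant under `r` (re-indexing
of `m`).  For `η ∈ C_c(G)` and `Ψ` continuous with the same invariances, Fubini and the
invariance of `μ` (`r` is central) give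
`∫_G η A Ψ dμ = ∫_G φ(x⁻¹ g) η̃(g) Ψ(g) dμ(g) = R(φ)(η̃ Ψ)(x) = 0`, where
`η̃(g) = ∑_{(a,b,m)} ∫ η(d(a,b)⁻¹ n(-u) g r⁻ᵐ) du` is again continuous with the same
invariances.  With `Ψ = conj A`: `∫ η |A|² dμ = 0` for all `η ≥ 0`, hence `A = 0`. -/
def EKPointC : Prop :=
  letI : MeasurableSpace (Adl K) := borel (Adl K)
  ∀ μ : Measure (G K), μ.IsHaarMeasure → ∀ lam : Measure (Adl K), lam.IsAddHaarMeasure →
    ∀ r : G K, IsRayGen r →
    ∀ φ : G K → ℂ, Continuous φ → HasCompactSupport φ → IsEK μ φ →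
      ∀ x g : G K,
        ∑' i : Kˣ × Kˣ × ℤ,
          ∫ u, φ (x⁻¹ * T3.unip K u * ratG (dRat K i.1 i.2.1) * g * r ^ i.2.2) ∂lam = 0

/-- **T5.02f2 (the torus count).**  For a function of compact support there is `N₀` such that for
ALL `x, y` at most `N₀` triples `(a, b, m) ∈ Kˣ × Kˣ × ℤ` admit a `u ∈ 𝔸_K` with
`φ(x⁻¹ n(u) d(a,b) y rᵐ) ≠ 0`.

Proof.  If `(a,b,m)` and `(a',b',m')` both do, then `x⁻¹ n(u') δ n(-u) x ∈ C C⁻¹`
(`C = supp φ`, `δ = d(a'/a, b'/b) r^{m'-m}`, `r` central); trace and determinant are invariant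
under conjugation, so `δ₁ + δ₂` and `δ₁ δ₂` lie in fixed compact sets of `𝔸_K`, `𝔸_Kˣ`;
`‖δ₁ δ₂‖ = 2^{m'-m}` bounds `m' - m` (`T1.AdNormC`), and `K` is discrete in `𝔸_K`
(`T1.AdeleLatticeC`): finitely many `(a'/a, b'/b, m' - m)`, independently of `x, y`. -/
def TorusCountC : Prop :=
  ∀ r : G K, IsRayGen r → ∀ φ : G K → ℂ, Continuous φ → HasCompactSupport φ →
    ∃ N₀ : ℕ, ∀ x y : G K, ∃ S : Finset (Kˣ × Kˣ × ℤ), S.card ≤ N₀ ∧
      ∀ i : Kˣ × Kˣ × ℤ, i ∉ S → ∀ u : Adl K,
        φ (x⁻¹ * T3.unip K u * ratG (dRat K i.1 i.2.1) * y * r ^ i.2.2) = 0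

/-- **T5.02f3 (THE ANALYTIC CORE: the Poisson tail / lattice Riemann sum error is bounded).**
For a test function `φ` of level `𝔫 ≠ 0` (smooth at infinity, invariant under the open group
`U(𝔫)`) and the Haar measure of covolume one on `𝔸_K`: for `x` high in the cusp and ALL `g`,
`|∑_{ν ∈ K} φ(x⁻¹ n(ν) g) - ∫_{𝔸_K} φ(x⁻¹ n(u) g) du| ≤ B₀`.

Proof.  `x = β z a ω` (`T1.SiegelCompactC`), `β ∈ B(K)`, `z` central, `a = diag(s, 1)` at the
infinite places, `ω ∈ Ω` compact, `s^{[K:ℚ]} ≍ H(x)`.  Sum and integral are unchanged when `x` is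
replaced by `a ω` and `g` by `z⁻¹ β⁻¹ g` (`β⁻¹ n(u) β = n(c u + ν₀)`, `c ∈ Kˣ`, `ν₀ ∈ K`; product
formula).  `a⁻¹ n(u) a = n(s⁻¹ u_∞, u_f)`, so the function is `u ↦ Φ(s⁻¹ u_∞, u_f)` with
`Φ(u) = φ(ω⁻¹ n(u) g')`; if `Φ ≠ 0` then `g' = n(-u₀) ω c₀`, `c₀ ∈ supp φ`, and `Φ` is a
translate of a member of the COMPACT family `Φ⁰_{ω,c₀}(u) = φ(ω⁻¹ n(u) ω c₀)`, which is smooth in
`u_∞` with uniformly bounded derivatives and invariant under a fixed open compact subgroup of the
finite adeles (`U(𝔫)` open, `Ω` compact).  The sum over `K` is a finite sum of sums over shifted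
ideal lattices in `K_∞ = ℝⁿ` of `s`-dilated smooth functions: the difference to `sⁿ ∫` is
`O(s^{n-k})` for every `k` (helper42 `ARS-CORE`; or `T3.PoissonNDC` + integration by parts). -/
def PoissonTailC (𝔫 : Ideal (𝓞 K)) (τ : G K → ℂ) : Prop :=
  letI : MeasurableSpace (Adl K) := borel (Adl K)
  𝔫 ≠ ⊥ → ∀ lam : Measure (Adl K), lam.IsAddHaarMeasure → T3.IsCovolOne K lam →
    ∀ φ : G K → ℂ, IsTestFn 𝔫 τ φ →
      ∃ T₂ B₀ : ℝ, ∀ (x : G K) (tx : ℝ), T1.HasHeight K x tx → T₂ ≤ tx → ∀ g : G K,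
        ‖(∑' ν : K, φ (x⁻¹ * ratG (nRat K ν) * g)) - ∫ u, φ (x⁻¹ * T3.unip K u * g) ∂lam‖ ≤ B₀

/-- **Height distortion** (sub-leaf of T5.02e): right multiplication by an element of a compact
set changes the height by a bounded factor.  (`g = b k`, `k ω = b' k'` with `k ω` in the compact
set `K⁰ C`; `H(g ω) = H(b) H(b')`, and the height is continuous and positive.) -/
def HeightDistC : Prop :=
  ∀ C : Set (G K), IsCompact C → ∃ D : ℝ, 0 < D ∧ ∀ (g ω : G K) (t t' : ℝ), ω ∈ C →
    T1.HasHeight K g t → T1.HasHeight K (g * ω) t' → t ≤ D * t'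

/-- ALL SUB-LEAVES of T5.02f. -/
structure CoreLeaves (𝔫 : Ideal (𝓞 K)) (τ : G K → ℂ) : Prop where
  ekPoint : EKPointC K
  torusCount : TorusCountC K
  poissonTail : PoissonTailC K 𝔫 τ

end Fermat.Agent.LT.T5.H40

end

end
-- ===== PACK-END LT/T5/H40/HS0Core.lean

-- ===== PACK-BEGIN LT/T7/H341/ChebTr.lean
section


/-!
# Row LT, tower T7, leaf T7.13c `ChebFC` (helper341), part 3: the values of `|tr Ψ|²` on `SL₂(𝔽₃)`

OFF-MAIN.  For any lift `Ψ : GL₂(𝔽₃) →* GL₂(ℤ[√-2])` (`red ∘ Ψ = id`) and any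
`ι : ℤ[√-2] →+* ℂ`: `‖tr Ψ g‖² = 4` on `{±1}`, `= 0` on `Q₈ ∖ {±1}`, `= 1` on `SL₂(𝔽₃) ∖ Q₈`.
-/

set_option autoImplicit false

open FLT.ExplicitLift
open scoped MatrixGroups

namespace Fermat.Agent.LT.T7.H341

open Fermat.Agent.LT.H130

/-! ## Arithmetic of `ℤ[√-2]` (helper19) -/

/-- `ℤ[√-2]` has no zero divisors. -/
theorem zsqrtd_eq_zero_of_mul341 {x y : ℤ√(-2)} (h : x * y = 0) (hx : x ≠ 0) : y = 0 := by
  have hn : (x * y).norm = 0 := by rw [h]; simp [Zsqrtd.norm]
  rw [Zsqrtd.norm_mul] at hn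
  rcases mul_eq_zero.mp hn with h1 | h1
  · exact absurd ((Zsqrtd.norm_eq_zero_iff (by norm_num) x).mp h1) hx
  · exact (Zsqrtd.norm_eq_zero_iff (by norm_num) y).mp h1

/-- `-1` is not a square in `ℤ[√-2]`. -/
theorem zsqrtd_sq_ne_neg_one341 (x : ℤ√(-2)) : x * x ≠ -1 := by
  intro h
  have h1 := congrArg Zsqrtd.re h
  have h2 := congrArg Zsqrtd.im h
  simp only [Zsqrtd.re_mul, Zsqrtd.im_mul, Zsqrtd.re_neg, Zsqrtd.im_neg, Zsqrtd.re_one,
    Zsqrtd.im_one] at h1 h2
  have h3 : x.re * x.im = 0 := by linarith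
  rcases mul_eq_zero.mp h3 with h0 | h0
  · rw [h0] at h1
    have : 2 * (x.im * x.im) = 1 := by linarith
    omega
  · rw [h0] at h1
    nlinarith [mul_self_nonneg x.re]

/-! ## The lift `Ψ` -/

section Lift

variable (Ψ : GL (Fin 2) (ZMod 3) →* GL (Fin 2) (ℤ√(-2)))

/-- The matrix of `Ψ g`. -/
def liftMat341 (g : GL (Fin 2) (ZMod 3)) : Matrix (Fin 2) (Fin 2) (ℤ√(-2)) :=
  ((Ψ g : GL (Fin 2) (ℤ√(-2))) : Matrix (Fin 2) (Fin 2) (ℤ√(-2)))

theorem liftMat_one341 : liftMat341 Ψ 1 = 1 := by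
  simp [liftMat341]

theorem liftMat_mul341 (g h : GL (Fin 2) (ZMod 3)) :
    liftMat341 Ψ (g * h) = liftMat341 Ψ g * liftMat341 Ψ h := by
  simp [liftMat341]

variable {Ψ}

theorem red_liftMat341 (hΨ : ∀ g, Matrix.GeneralLinearGroup.map red (Ψ g) = g)
    (g : GL (Fin 2) (ZMod 3)) (i j : Fin 2) :
    red (liftMat341 Ψ g i j) = (g : Matrix (Fin 2) (Fin 2) (ZMod 3)) i j := by
  have h2 := congrArg
    (fun x : GL (Fin 2) (ZMod 3) => (x : Matrix (Fin 2) (Fin 2) (ZMod 3)) i j) (hΨ g)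
  simpa [liftMat341] using h2

/-- `Ψ (-1) = -1`: an involution congruent to `-1` modulo a prime above `3` is `-1`. -/
theorem liftMat_neg_one341 (hΨ : ∀ g, Matrix.GeneralLinearGroup.map red (Ψ g) = g) :
    liftMat341 Ψ (-1) = -1 := by
  set T := liftMat341 Ψ (-1) with hT
  have hTT : T * T = 1 := by
    rw [hT, ← liftMat_mul341]
    have : (-1 : GL (Fin 2) (ZMod 3)) * (-1) = 1 := by simp
    rw [this, liftMat_one341]
  have hr : ∀ i j, red (T i j) = (-1 : Matrix (Fin 2) (Fin 2) (ZMod 3)) i j := by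
    intro i j
    rw [hT, red_liftMat341 hΨ]
    simp
  have h00 : red (T 0 0) = -1 := by simpa using hr 0 0
  have h01 : red (T 0 1) = 0 := by simpa using hr 0 1
  have h10 : red (T 1 0) = 0 := by simpa using hr 1 0
  have h11 : red (T 1 1) = -1 := by simpa using hr 1 1
  set U : Matrix (Fin 2) (Fin 2) (ℤ√(-2)) := T - 1 with hU
  have hdet : U.det ≠ 0 := by
    intro h0
    have h1 : red U.det = 0 := by rw [h0, map_zero]
    rw [Matrix.det_fin_two] at h1
    simp only [hU, Matrix.sub_apply, Matrix.one_apply_eq, map_sub, map_mul, map_one,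
      h00, h01, h10, h11] at h1
    revert h1
    decide
  have hUV : U * (T + 1) = 0 := by
    rw [hU, Matrix.sub_mul, Matrix.mul_add, Matrix.mul_add, hTT]
    simp only [Matrix.mul_one, Matrix.one_mul]
    abel
  have hz : U.det • (T + 1) = 0 := by
    have h1 : U.adjugate * (U * (T + 1)) = 0 := by rw [hUV, Matrix.mul_zero]
    rw [← Matrix.mul_assoc, Matrix.adjugate_mul, Matrix.smul_mul, Matrix.one_mul] at h1
    exact h1
  have hent : ∀ i j, (T + 1) i j = 0 := by
    intro i j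
    have h1 := congrFun (congrFun hz i) j
    simp only [Matrix.smul_apply, smul_eq_mul, Matrix.zero_apply] at h1
    exact zsqrtd_eq_zero_of_mul341 h1 hdet
  have : T + 1 = 0 := Matrix.ext hent
  exact eq_neg_of_add_eq_zero_left this

/-- If `h * h = -1` in `GL₂(𝔽₃)` then `Ψ h` has trace `0`. -/
theorem trace_liftMat_eq_zero341 (hΨ : ∀ g, Matrix.GeneralLinearGroup.map red (Ψ g) = g)
    (h : GL (Fin 2) (ZMod 3)) (hh : h * h = -1) : (liftMat341 Ψ h).trace = 0 := by
  set T := liftMat341 Ψ h with hT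
  have hTT : T * T = -1 := by
    rw [hT, ← liftMat_mul341, hh, liftMat_neg_one341 hΨ]
  have e00 : T 0 0 * T 0 0 + T 0 1 * T 1 0 = -1 := by
    have := congrFun (congrFun hTT 0) 0
    simpa [Matrix.mul_apply, Fin.sum_univ_two] using this
  have e01 : T 0 0 * T 0 1 + T 0 1 * T 1 1 = 0 := by
    have := congrFun (congrFun hTT 0) 1
    simpa [Matrix.mul_apply, Fin.sum_univ_two] using this
  rw [Matrix.trace_fin_two]
  by_contra ht
  have h1 : (T 0 0 + T 1 1) * T 0 1 = 0 := by
    rw [← e01]; ring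
  have h2 : T 0 1 = 0 := zsqrtd_eq_zero_of_mul341 h1 ht
  rw [h2, zero_mul, add_zero] at e00
  exact zsqrtd_sq_ne_neg_one341 _ e00

theorem mul_entryZ341 (A B : Matrix (Fin 2) (Fin 2) (ℤ√(-2))) (i j : Fin 2) :
    (A * B) i j = A i 0 * B 0 j + A i 1 * B 1 j := by
  simp [Matrix.mul_apply, Fin.sum_univ_two]

/-- If `A³ = ε` (`ε = ±1`) and `A` is not scalar, then `(tr A)³ = -ε`. -/
theorem trace_cube341 (A : Matrix (Fin 2) (Fin 2) (ℤ√(-2))) (ε : ℤ√(-2))
    (hA : A * A * A = ε • (1 : Matrix (Fin 2) (Fin 2) (ℤ√(-2))))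
    (hns : ¬ (A 0 1 = 0 ∧ A 1 0 = 0 ∧ A 0 0 = A 1 1)) :
    A.trace ^ 3 = -ε := by
  have h00 : (A 0 0 * A 0 0 + A 0 1 * A 1 0) * A 0 0 + (A 0 0 * A 0 1 + A 0 1 * A 1 1) * A 1 0
      = ε := by
    have := congrFun (congrFun hA 0) 0
    simpa [mul_entryZ341] using this
  have h01 : (A 0 0 * A 0 0 + A 0 1 * A 1 0) * A 0 1 + (A 0 0 * A 0 1 + A 0 1 * A 1 1) * A 1 1
      = 0 := by
    have := congrFun (congrFun hA 0) 1
    simpa [mul_entryZ341] using this
  have h10 : (A 1 0 * A 0 0 + A 1 1 * A 1 0) * A 0 0 + (A 1 0 * A 0 1 + A 1 1 * A 1 1) * A 1 0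
      = 0 := by
    have := congrFun (congrFun hA 1) 0
    simpa [mul_entryZ341] using this
  have h11 : (A 1 0 * A 0 0 + A 1 1 * A 1 0) * A 0 1 + (A 1 0 * A 0 1 + A 1 1 * A 1 1) * A 1 1
      = ε := by
    have := congrFun (congrFun hA 1) 1
    simpa [mul_entryZ341] using this
  set X : ℤ√(-2) := (A 0 0 + A 1 1) ^ 2 - (A 0 0 * A 1 1 - A 0 1 * A 1 0) with hX
  have hz : X = 0 := by
    by_contra hX0
    apply hns
    refine ⟨?_, ?_, ?_⟩
    · refine zsqrtd_eq_zero_of_mul341 (x := X) ?_ hX0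
      rw [hX]
      linear_combination h01
    · refine zsqrtd_eq_zero_of_mul341 (x := X) ?_ hX0
      rw [hX]
      linear_combination h10
    · have : A 0 0 - A 1 1 = 0 := by
        refine zsqrtd_eq_zero_of_mul341 (x := X) ?_ hX0
        rw [hX]
        linear_combination h00 - h11
      exact sub_eq_zero.mp this
  rw [Matrix.trace_fin_two]
  rw [hX] at hz
  linear_combination (2 * A 0 0 + A 1 1) * hz - h00

end Lift

/-! ## From entries to `GL₂(𝔽₃)` -/

theorem eq_of_entries341 (g h : GL (Fin 2) (ZMod 3))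
    (h00 : (g : Matrix (Fin 2) (Fin 2) (ZMod 3)) 0 0 = (h : Matrix (Fin 2) (Fin 2) (ZMod 3)) 0 0)
    (h01 : (g : Matrix (Fin 2) (Fin 2) (ZMod 3)) 0 1 = (h : Matrix (Fin 2) (Fin 2) (ZMod 3)) 0 1)
    (h10 : (g : Matrix (Fin 2) (Fin 2) (ZMod 3)) 1 0 = (h : Matrix (Fin 2) (Fin 2) (ZMod 3)) 1 0)
    (h11 : (g : Matrix (Fin 2) (Fin 2) (ZMod 3)) 1 1 = (h : Matrix (Fin 2) (Fin 2) (ZMod 3)) 1 1) :
    g = h := by
  apply entries_injective341
  simp only [entries341, h00, h01, h10, h11]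

theorem neg_one_entry341 (i j : Fin 2) :
    ((-1 : GL (Fin 2) (ZMod 3)) : Matrix (Fin 2) (Fin 2) (ZMod 3)) i j =
      -((1 : Matrix (Fin 2) (Fin 2) (ZMod 3)) i j) := by
  rw [Units.val_neg, Units.val_one, Matrix.neg_apply]

theorem eq_one_or_neg_one_of_mem_Nsub341 {g : GL (Fin 2) (ZMod 3)} (hg : g ∈ Nsub341) :
    g = 1 ∨ g = -1 := by
  rcases ent_sc341 _ _ _ _ hg.1 hg.2 with ⟨h1, h2, h3, h4⟩ | ⟨h1, h2, h3, h4⟩
  · left
    refine eq_of_entries341 g 1 ?_ ?_ ?_ ?_
    · rw [h1]; simp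
    · rw [h2]; simp
    · rw [h3]; simp
    · rw [h4]; simp
  · right
    refine eq_of_entries341 g (-1) ?_ ?_ ?_ ?_
    · rw [h1, neg_one_entry341]; simp
    · rw [h2, neg_one_entry341]; simp
    · rw [h3, neg_one_entry341]; simp
    · rw [h4, neg_one_entry341]; simp

theorem sq_eq_neg_one341 {g : GL (Fin 2) (ZMod 3)} (hg : g ∈ Qsub341) (hn : g ∉ Nsub341) :
    g * g = -1 := by
  obtain ⟨hd, ht⟩ := hg
  have ht' : (g : Matrix (Fin 2) (Fin 2) (ZMod 3)) 0 0 +
      (g : Matrix (Fin 2) (Fin 2) (ZMod 3)) 1 1 = 0 := by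
    rcases ht with ht | ht
    · exact ht
    · exact absurd ⟨hd, ht⟩ hn
  obtain ⟨h1, h2, h3, h4⟩ := ent_sq341 _ _ _ _ hd ht'
  refine eq_of_entries341 (g * g) (-1) ?_ ?_ ?_ ?_
  · rw [Units.val_mul, mul_entry341, h1, neg_one_entry341]; simp
  · rw [Units.val_mul, mul_entry341, h2, neg_one_entry341]; simp
  · rw [Units.val_mul, mul_entry341, h3, neg_one_entry341]; simp
  · rw [Units.val_mul, mul_entry341, h4, neg_one_entry341]; simp

theorem cube_eq341 {g : GL (Fin 2) (ZMod 3)}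
    (hd : Matrix.GeneralLinearGroup.det g = 1) (hn : g ∉ Qsub341) :
    g * g * g = 1 ∨ g * g * g = -1 := by
  have hd' := (det_eq_one_iff341 g).mp hd
  have ht : (g : Matrix (Fin 2) (Fin 2) (ZMod 3)) 0 0 +
      (g : Matrix (Fin 2) (Fin 2) (ZMod 3)) 1 1 ≠ 0 := fun h => hn ⟨hd', Or.inl h⟩
  rcases ent_cube341 _ _ _ _ hd' ht with ⟨h1, h2, h3, h4⟩ | ⟨h1, h2, h3, h4⟩
  · left
    refine eq_of_entries341 (g * g * g) 1 ?_ ?_ ?_ ?_
    · rw [Units.val_mul, Units.val_mul, mul_entry341, mul_entry341, mul_entry341, h1]; simp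
    · rw [Units.val_mul, Units.val_mul, mul_entry341, mul_entry341, mul_entry341, h2]; simp
    · rw [Units.val_mul, Units.val_mul, mul_entry341, mul_entry341, mul_entry341, h3]; simp
    · rw [Units.val_mul, Units.val_mul, mul_entry341, mul_entry341, mul_entry341, h4]; simp
  · right
    refine eq_of_entries341 (g * g * g) (-1) ?_ ?_ ?_ ?_
    · rw [Units.val_mul, Units.val_mul, mul_entry341, mul_entry341, mul_entry341, h1,
        neg_one_entry341]; simp
    · rw [Units.val_mul, Units.val_mul, mul_entry341, mul_entry341, mul_entry341, h2,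
        neg_one_entry341]; simp
    · rw [Units.val_mul, Units.val_mul, mul_entry341, mul_entry341, mul_entry341, h3,
        neg_one_entry341]; simp
    · rw [Units.val_mul, Units.val_mul, mul_entry341, mul_entry341, mul_entry341, h4,
        neg_one_entry341]; simp

/-! ## The values of `‖tr Ψ g‖²` -/

section Values

variable {Ψ : GL (Fin 2) (ZMod 3) →* GL (Fin 2) (ℤ√(-2))} (ι : ℤ√(-2) →+* ℂ)

theorem trΨ_eq341 (g : GL (Fin 2) (ZMod 3)) : trΨ Ψ ι g = ι (liftMat341 Ψ g).trace := rfl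

/-- On `{±1}`: `‖tr Ψ g‖² = 4`. -/
theorem normSq_trΨ_N341 (hΨ : ∀ g, Matrix.GeneralLinearGroup.map red (Ψ g) = g)
    {g : GL (Fin 2) (ZMod 3)} (hg : g ∈ Nsub341) : ‖trΨ Ψ ι g‖ ^ 2 = 4 := by
  rw [trΨ_eq341]
  rcases eq_one_or_neg_one_of_mem_Nsub341 hg with rfl | rfl
  · rw [liftMat_one341, Matrix.trace_one, Fintype.card_fin, map_natCast]
    norm_num
  · rw [liftMat_neg_one341 hΨ, Matrix.trace_neg, Matrix.trace_one, Fintype.card_fin, map_neg,
      map_natCast, norm_neg]
    norm_num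

/-- On `Q₈ ∖ {±1}`: `‖tr Ψ g‖² = 0`. -/
theorem normSq_trΨ_Q341 (hΨ : ∀ g, Matrix.GeneralLinearGroup.map red (Ψ g) = g)
    {g : GL (Fin 2) (ZMod 3)} (hg : g ∈ Qsub341) (hn : g ∉ Nsub341) : ‖trΨ Ψ ι g‖ ^ 2 = 0 := by
  rw [trΨ_eq341, trace_liftMat_eq_zero341 hΨ g (sq_eq_neg_one341 hg hn), map_zero, norm_zero]
  norm_num

/-- On `SL₂(𝔽₃) ∖ Q₈`: `‖tr Ψ g‖² = 1`. -/
theorem normSq_trΨ_SL341 (hΨ : ∀ g, Matrix.GeneralLinearGroup.map red (Ψ g) = g)
    {g : GL (Fin 2) (ZMod 3)} (hd : Matrix.GeneralLinearGroup.det g = 1) (hn : g ∉ Qsub341) :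
    ‖trΨ Ψ ι g‖ ^ 2 = 1 := by
  rw [trΨ_eq341]
  have hd' := (det_eq_one_iff341 g).mp hd
  have hns : ¬ ((liftMat341 Ψ g) 0 1 = 0 ∧ (liftMat341 Ψ g) 1 0 = 0 ∧
      (liftMat341 Ψ g) 0 0 = (liftMat341 Ψ g) 1 1) := by
    rintro ⟨h1, h2, h3⟩
    apply hn
    refine ⟨hd', Or.inr ⟨?_, ?_, ?_⟩⟩
    · rw [← red_liftMat341 hΨ, h1, map_zero]
    · rw [← red_liftMat341 hΨ, h2, map_zero]
    · rw [← red_liftMat341 hΨ, ← red_liftMat341 hΨ, h3]
  have hcube : ∃ ε : ℤ√(-2), (ε = 1 ∨ ε = -1) ∧ (liftMat341 Ψ g).trace ^ 3 = -ε := by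
    rcases cube_eq341 hd hn with h | h
    · refine ⟨1, Or.inl rfl, trace_cube341 _ 1 ?_ hns⟩
      rw [← liftMat_mul341, ← liftMat_mul341, h, liftMat_one341, one_smul]
    · refine ⟨-1, Or.inr rfl, trace_cube341 _ (-1) ?_ hns⟩
      rw [← liftMat_mul341, ← liftMat_mul341, h, liftMat_neg_one341 hΨ, neg_smul, one_smul]
  obtain ⟨ε, hε, hT⟩ := hcube
  have h3 : ‖ι (liftMat341 Ψ g).trace‖ ^ 3 = 1 := by
    rw [← norm_pow, ← map_pow, hT]
    rcases hε with rfl | rfl
    · rw [map_neg, map_one, norm_neg, norm_one]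
    · rw [neg_neg, map_one, norm_one]
  have h1 : ‖ι (liftMat341 Ψ g).trace‖ = 1 :=
    (pow_eq_one_iff_of_nonneg (norm_nonneg _) (by norm_num)).mp h3
  rw [h1]
  norm_num

end Values

end Fermat.Agent.LT.T7.H341

end
-- ===== PACK-END LT/T7/H341/ChebTr.lean

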