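import Mathlib
import Fermat.Agent.Pack.LT2.E6L0
import Fermat.Agent.Pack.LT2.E6L2
import Fermat.Agent.Pack.LT2.E6L1
import Fermat.Agent.Pack.LT2.E2L1
import Fermat.Agent.Pack.LT2.E0L2
import Fermat.Agent.Pack.LT2.E1L2
import Fermat.Agent.Pack.LT2.E4L3
import Fermat.Agent.Pack.LT2.E6L3
import Fermat.Agent.Pack.LT2.E5L1
import Fermat.Agent.Pack.LT2.E5L2
import Fermat.Agent.Pack.LT2.E5L3
import Fermat.Agent.Pack.LT2.E2L2
import Fermat.Agent.Pack.LT2.E7L2
import Fermat.Agent.Pack.LT2.E1L3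
import Fermat.Agent.Pack.LT2.E7L0

set_option linter.all false

-- ===== PACK-BEGIN LT/H129/HenselQuad.lean
section



/-!
# Row LT, tower T6 -- asset (helper129, OFF-MAIN): Hensel's lemma for quadratics

In a complete field `k` valued in `ℤᵐ⁰`:

* `exists_fixed_small129`: for `|c| < 1` the equation `Y = Y² + c` has a solution with `|Y| ≤ |c|`;
* `hensel_quad129`: if `|f(x₀)| < |f'(x₀)|²` for `f = X² - tX + d`, then `f` has a root `x` with
  `|x - x₀| ≤ |f(x₀)| / |f'(x₀)|`;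
* `hensel_quad_unit129`: the usual form (`x₀` a simple root modulo the maximal ideal).
-/

set_option autoImplicit false

noncomputable section

namespace Fermat.Agent.LT.H129

open Fermat.Agent.LT.T6

variable {k : Type} [Field k] [Valued k Γ₀]

/-- For `|c| < 1` the equation `Y = Y² + c` has a solution with `|Y| ≤ |c|` (and the sequence
`newtonSeq129 c` converges to it). -/
theorem exists_fixed_small129 [CompleteSpace k] {c : k} (hc : Valued.v c < 1) :
    ∃ Y : k, Y = Y ^ 2 + c ∧ Valued.v Y ≤ Valued.v c := by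
  obtain ⟨Y, hY⟩ := cauchySeq_tendsto_of_complete (newtonSeq129_cauchy hc)
  have h1 : Filter.Tendsto (fun n => newtonSeq129 c (n + 1)) Filter.atTop (nhds Y) :=
    hY.comp (Filter.tendsto_add_atTop_nat 1)
  have h2 : Filter.Tendsto (fun n => newtonSeq129 c (n + 1)) Filter.atTop
      (nhds (Y ^ 2 + c)) := by
    have : (fun n => newtonSeq129 c (n + 1)) = fun n => newtonSeq129 c n ^ 2 + c := by
      funext n; exact newtonSeq129_succ c n
    rw [this]
    exact (hY.pow 2).add_const c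
  refine ⟨Y, tendsto_nhds_unique h1 h2, ?_⟩
  by_contra hlt
  rw [not_le] at hlt
  have hY0 : Valued.v Y ≠ 0 := fun h => by rw [h] at hlt; exact absurd hlt (not_lt.mpr zero_le)
  have hmem : {y : k | Valued.v y = Valued.v Y} ∈ nhds Y := Valued.locally_const hY0
  obtain ⟨n, hn⟩ := (hY.eventually hmem).exists
  have hn' : Valued.v (newtonSeq129 c n) = Valued.v Y := hn
  exact absurd (newtonSeq129_le hc n) (not_le.mpr (hn' ▸ hlt))

/-- **Hensel's lemma for a quadratic polynomial** `f = X² - tX + d` in a complete field valued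
in `ℤᵐ⁰`: an approximate root `x₀` with `|f(x₀)| < |f'(x₀)|²` is close to an exact root. -/
theorem hensel_quad129 [CompleteSpace k] (t d x₀ : k)
    (h : Valued.v (x₀ ^ 2 - t * x₀ + d) < Valued.v (2 * x₀ - t) ^ 2) :
    ∃ x : k, x ^ 2 - t * x + d = 0 ∧
      Valued.v (x - x₀) * Valued.v (2 * x₀ - t) ≤ Valued.v (x₀ ^ 2 - t * x₀ + d) := by
  set e : k := x₀ ^ 2 - t * x₀ + d with he
  set u : k := 2 * x₀ - t with hu
  have hu0 : Valued.v u ≠ 0 := by
    intro h0
    rw [h0] at h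
    simp at h
  have hune : u ≠ 0 := fun h0 => hu0 (by rw [h0, map_zero])
  have hpos : (0 : Γ₀) < Valued.v u ^ 2 :=
    zero_lt_iff.mpr (pow_ne_zero 2 hu0)
  have hc : Valued.v (e / u ^ 2) < 1 := by
    rw [map_div₀, map_pow, div_lt_one₀ hpos]; exact h
  obtain ⟨Y, hY, hYle⟩ := exists_fixed_small129 hc
  refine ⟨x₀ - u * Y, ?_, ?_⟩
  · have h2 : u ^ 2 * (e / u ^ 2) = e := by field_simp
    have h3 : (x₀ - u * Y) ^ 2 - t * (x₀ - u * Y) + d
        = u ^ 2 * (Y ^ 2 + e / u ^ 2 - Y) := by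
      have h4 : u ^ 2 * (Y ^ 2 + e / u ^ 2 - Y) = u ^ 2 * Y ^ 2 + u ^ 2 * (e / u ^ 2) - u ^ 2 * Y := by
        ring
      rw [h4, h2, he, hu]; ring
    rw [h3, ← hY, sub_self, mul_zero]
  · have e1 : x₀ - u * Y - x₀ = -(u * Y) := by ring
    rw [e1, Valuation.map_neg, map_mul]
    have hY' : Valued.v Y ≤ Valued.v e / Valued.v u ^ 2 := by
      simpa [map_div₀, map_pow] using hYle
    calc Valued.v u * Valued.v Y * Valued.v u
        ≤ Valued.v u * (Valued.v e / Valued.v u ^ 2) * Valued.v u :=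
          mul_le_mul' (mul_le_mul' le_rfl hY') le_rfl
      _ = Valued.v e := by
          field_simp

/-- Hensel's lemma for `f = X² - tX + d`, usual form: `t, d, x₀` integral, `|f(x₀)| < 1` and
`f'(x₀)` a unit.  The exact root `x` is integral and congruent to `x₀`. -/
theorem hensel_quad_unit129 [CompleteSpace k] (t d x₀ : k)
    (h : Valued.v (x₀ ^ 2 - t * x₀ + d) < 1) (hu : Valued.v (2 * x₀ - t) = 1) :
    ∃ x : k, x ^ 2 - t * x + d = 0 ∧ Valued.v (x - x₀) < 1 := by
  obtain ⟨x, hx, hle⟩ := hensel_quad129 t d x₀ (by rw [hu, one_pow]; exact h)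
  refine ⟨x, hx, ?_⟩
  rw [hu, mul_one] at hle
  exact lt_of_le_of_lt hle h

end Fermat.Agent.LT.H129

end

end
-- ===== PACK-END LT/H129/HenselQuad.lean

-- ===== PACK-BEGIN LT/A2/H772/QuadLocal.lean
section



/-!
# Row LT, tower A2, pre-leaf QUAD (local part) for A2.02 `TorusCharC` (helper772), OFF-MAIN

Mathlib + A0 + A2/Spec only.  No definitions.

* `exists_approx_integer772` : every element of `𝒪_v` is congruent modulo the maximal ideal to an
  integer of `K` (proof of helper11, `LT/H11/LC.lean`, specialised).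
* `valued_algebraMap_lt_one_iff772` : `|r|_v < 1 ↔ r ∈ v` for `r ∈ 𝓞_K`.
* `lt_one_iff_le_exp772` : in `ℤᵐ⁰`, `x < 1 ↔ x ≤ exp (-1)`.
* `normForm_ne_unif772` : if `X² - tX + n` has no root modulo `v`, then
  `|a² + t a b + n b²|_v ≠ exp (-1)` for `a, b ∈ 𝒪_v`.
-/

set_option autoImplicit false
set_option linter.deprecated false
set_option linter.style.haveILetI false
set_option linter.unusedSectionVars false

open IsDedekindDomain NumberField

noncomputable section
namespace Fermat.Agent.LT.A2.H772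
open Fermat.Agent.LT.H556 Fermat.Agent.LT.A2

variable {K : Type} [Field K] [NumberField K]

/-- In `ℤᵐ⁰`: `x < 1 ↔ x ≤ exp (-1)`. -/
theorem lt_one_iff_le_exp772 (x : WithZero (Multiplicative ℤ)) :
    x < 1 ↔ x ≤ WithZero.exp (-1 : ℤ) := by
  have h := WithZero.lt_mul_exp_iff_le (x := x) (y := WithZero.exp (-1 : ℤ)) WithZero.exp_ne_zero
  rw [← WithZero.exp_add] at h
  simpa using h

/-- The valuation of an integer of `K` in the completion at `v`. -/
theorem valued_algebraMap_lt_one_iff772 (v : HeightOneSpectrum (𝓞 K)) (r : 𝓞 K) :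
    Valued.v (algebraMap (𝓞 K) (v.adicCompletion K) r) < 1 ↔ r ∈ v.asIdeal := by
  have h2 : Valued.v (algebraMap (𝓞 K) (v.adicCompletion K) r)
      = v.valuation K (algebraMap (𝓞 K) K r) :=
    HeightOneSpectrum.valuedAdicCompletion_eq_valuation (K := K) v r
  rw [h2, HeightOneSpectrum.valuation_of_algebraMap]
  exact HeightOneSpectrum.intValuation_lt_one_iff_mem v r

theorem valued_algebraMap_le_one772 (v : HeightOneSpectrum (𝓞 K)) (r : 𝓞 K) :
    Valued.v (algebraMap (𝓞 K) (v.adicCompletion K) r) ≤ 1 := by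
  have h2 : Valued.v (algebraMap (𝓞 K) (v.adicCompletion K) r)
      = v.valuation K (algebraMap (𝓞 K) K r) :=
    HeightOneSpectrum.valuedAdicCompletion_eq_valuation (K := K) v r
  rw [h2]
  exact HeightOneSpectrum.valuation_le_one v r

/-- Every element of `𝒪_v` is congruent modulo the maximal ideal to an integer of `K`
(same proof as `exists_valued_sub_algebraMap_lt_one_h11` of helper11). -/
theorem exists_approx_integer772 (v : HeightOneSpectrum (𝓞 K)) (x : v.adicCompletion K)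
    (hx : Valued.v x ≤ 1) :
    ∃ r : 𝓞 K, Valued.v (x - algebraMap (𝓞 K) (v.adicCompletion K) r) < 1 := by
  have hball : IsOpen {z : v.adicCompletion K | Valued.v z < 1} := by
    have := Valued.isOpen_ball (v.adicCompletion K) (1 : _)
    simpa only [Valuation.restrict_lt_one_iff] using this
  have hopen : IsOpen {y : v.adicCompletion K | Valued.v (x - y) < 1} := by
    have h1 : {y : v.adicCompletion K | Valued.v (x - y) < 1}
        = (fun y => x - y) ⁻¹' {z | Valued.v z < 1} := rfl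
    rw [h1]
    exact IsOpen.preimage (by fun_prop) hball
  have hne : ({y : v.adicCompletion K | Valued.v (x - y) < 1}).Nonempty :=
    ⟨x, by simp⟩
  obtain ⟨k, hk⟩ := (HeightOneSpectrum.denseRange_algebraMap K v).exists_mem_open hopen hne
  replace hk : Valued.v (x - algebraMap K (v.adicCompletion K) k) < 1 := hk
  have hk1 : Valued.v (algebraMap K (v.adicCompletion K) k) ≤ 1 := by
    have : algebraMap K (v.adicCompletion K) k = x - (x - algebraMap K (v.adicCompletion K) k) := by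
      ring
    rw [this]
    exact le_trans (Valuation.map_sub _ _ _) (max_le hx hk.le)
  have key : ∀ y : K, Valued.v (algebraMap K (v.adicCompletion K) y) = v.valuation K y :=
    fun y => HeightOneSpectrum.valuedAdicCompletion_eq_valuation' v y
  have hk2 : v.valuation K k ≤ 1 := by
    rw [← key]
    exact hk1
  obtain ⟨a, ha⟩ := HeightOneSpectrum.exists_valuation_sub_lt_of_integer v hk2 1
  refine ⟨a, ?_⟩
  have ha' : Valued.v (algebraMap K (v.adicCompletion K) k
      - algebraMap (𝓞 K) (v.adicCompletion K) a) < 1 := by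
    have e : algebraMap K (v.adicCompletion K) k - algebraMap (𝓞 K) (v.adicCompletion K) a
        = algebraMap K (v.adicCompletion K) (k - algebraMap (𝓞 K) K a) := by
      rw [map_sub, ← IsScalarTower.algebraMap_apply]
    rw [e, key]
    rw [Valuation.map_sub_swap] at ha
    simpa using ha
  have : x - algebraMap (𝓞 K) (v.adicCompletion K) a
      = (x - algebraMap K (v.adicCompletion K) k)
        + (algebraMap K (v.adicCompletion K) k - algebraMap (𝓞 K) (v.adicCompletion K) a) := by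
    ring
  rw [this]
  exact lt_of_le_of_lt (Valuation.map_add _ _ _) (max_lt hk ha')

/-- **(b), local part.**  If `X² - tX + n` has no root modulo `v`, the norm form
`a² + t a b + n b²` never takes a value of valuation `exp (-1)` on `𝒪_v × 𝒪_v`. -/
theorem normForm_ne_unif772 (v : HeightOneSpectrum (𝓞 K)) (t n : 𝓞 K)
    (hroot : ∀ r : 𝓞 K, r ^ 2 - t * r + n ∉ v.asIdeal)
    (a b : v.adicCompletion K) (ha : Valued.v a ≤ 1) (hb : Valued.v b ≤ 1) :
    Valued.v (a ^ 2 + algebraMap (𝓞 K) (v.adicCompletion K) t * a * b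
      + algebraMap (𝓞 K) (v.adicCompletion K) n * b ^ 2) ≠ WithZero.exp (-1 : ℤ) := by
  intro hQ
  set ι := algebraMap (𝓞 K) (v.adicCompletion K) with hι
  have hQlt : Valued.v (a ^ 2 + ι t * a * b + ι n * b ^ 2) < 1 := by
    rw [hQ, lt_one_iff_le_exp772]
  obtain ⟨a₀, ha₀⟩ := exists_approx_integer772 v a ha
  obtain ⟨b₀, hb₀⟩ := exists_approx_integer772 v b hb
  have hιle : ∀ r : 𝓞 K, Valued.v (ι r) ≤ 1 := valued_algebraMap_le_one772 v
  have mul_lt_l : ∀ x y : v.adicCompletion K, Valued.v x < 1 → Valued.v y ≤ 1 →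
      Valued.v (x * y) < 1 := by
    intro x y hx hy
    rw [map_mul]
    calc Valued.v x * Valued.v y ≤ Valued.v x * 1 := mul_le_mul_right hy _
      _ = Valued.v x := mul_one _
      _ < 1 := hx
  have add_lt : ∀ x y : v.adicCompletion K, Valued.v x < 1 → Valued.v y < 1 →
      Valued.v (x + y) < 1 := fun x y hx hy =>
    lt_of_le_of_lt (Valuation.map_add _ _ _) (max_lt hx hy)
  have add_le : ∀ x y : v.adicCompletion K, Valued.v x ≤ 1 → Valued.v y ≤ 1 →
      Valued.v (x + y) ≤ 1 := fun x y hx hy =>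
    le_trans (Valuation.map_add _ _ _) (max_le hx hy)
  have mul_le : ∀ x y : v.adicCompletion K, Valued.v x ≤ 1 → Valued.v y ≤ 1 →
      Valued.v (x * y) ≤ 1 := by
    intro x y hx hy
    rw [map_mul]
    exact mul_le_one' hx hy
  -- `Q₀ ∈ v`
  have hda : Valued.v (ι a₀ - a) < 1 := by rw [Valuation.map_sub_swap]; exact ha₀
  have hdb : Valued.v (ι b₀ - b) < 1 := by rw [Valuation.map_sub_swap]; exact hb₀
  have hQ₀ : a₀ ^ 2 + t * a₀ * b₀ + n * b₀ ^ 2 ∈ v.asIdeal := by
    rw [← valued_algebraMap_lt_one_iff772]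
    have e : ι (a₀ ^ 2 + t * a₀ * b₀ + n * b₀ ^ 2)
        = (a ^ 2 + ι t * a * b + ι n * b ^ 2)
          + ((ι a₀ - a) * (ι a₀ + a + ι t * ι b₀)
            + (ι b₀ - b) * (ι t * a + ι n * (ι b₀ + b))) := by
      simp only [map_add, map_mul, map_pow]
      ring
    rw [e]
    refine add_lt _ _ hQlt (add_lt _ _ (mul_lt_l _ _ hda ?_) (mul_lt_l _ _ hdb ?_))
    · exact add_le _ _ (add_le _ _ (hιle _) ha) (mul_le _ _ (hιle _) (hιle _))
    · exact add_le _ _ (mul_le _ _ (hιle _) ha) (mul_le _ _ (hιle _) (add_le _ _ (hιle _) hb))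
  by_cases hb₀v : b₀ ∈ v.asIdeal
  · -- then `a₀ ∈ v`, and `a, b` are in the maximal ideal
    have ha₀v : a₀ ∈ v.asIdeal := by
      have h1 : a₀ ^ 2 ∈ v.asIdeal := by
        have : a₀ ^ 2 = (a₀ ^ 2 + t * a₀ * b₀ + n * b₀ ^ 2) - (t * a₀ + n * b₀) * b₀ := by ring
        rw [this]
        exact sub_mem hQ₀ (Ideal.mul_mem_left _ _ hb₀v)
      exact v.isPrime.mem_of_pow_mem 2 h1
    have hav : Valued.v a < 1 := by
      have : a = ι a₀ + (a - ι a₀) := by ring
      rw [this]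
      exact add_lt _ _ ((valued_algebraMap_lt_one_iff772 v a₀).mpr ha₀v) ha₀
    have hbv : Valued.v b < 1 := by
      have : b = ι b₀ + (b - ι b₀) := by ring
      rw [this]
      exact add_lt _ _ ((valued_algebraMap_lt_one_iff772 v b₀).mpr hb₀v) hb₀
    rw [lt_one_iff_le_exp772] at hav hbv
    have h2 : ∀ x y : v.adicCompletion K, Valued.v x ≤ WithZero.exp (-1 : ℤ) →
        Valued.v y ≤ WithZero.exp (-1 : ℤ) → Valued.v (x * y) ≤ WithZero.exp (-2 : ℤ) := by
      intro x y hx hy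
      rw [map_mul]
      calc Valued.v x * Valued.v y ≤ WithZero.exp (-1 : ℤ) * WithZero.exp (-1 : ℤ) :=
            mul_le_mul' hx hy
        _ = WithZero.exp (-2 : ℤ) := by rw [← WithZero.exp_add]; norm_num
    have h3 : ∀ x y : v.adicCompletion K, Valued.v x ≤ 1 →
        Valued.v y ≤ WithZero.exp (-2 : ℤ) → Valued.v (x * y) ≤ WithZero.exp (-2 : ℤ) := by
      intro x y hx hy
      rw [map_mul]
      calc Valued.v x * Valued.v y ≤ 1 * WithZero.exp (-2 : ℤ) := mul_le_mul' hx hy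
        _ = WithZero.exp (-2 : ℤ) := one_mul _
    have hQle : Valued.v (a ^ 2 + ι t * a * b + ι n * b ^ 2) ≤ WithZero.exp (-2 : ℤ) := by
      have e1 : a ^ 2 = a * a := pow_two a
      have e2 : ι t * a * b = ι t * (a * b) := mul_assoc _ _ _
      have e3 : b ^ 2 = b * b := pow_two b
      rw [e1, e2, e3]
      refine le_trans (Valuation.map_add _ _ _) (max_le
        (le_trans (Valuation.map_add _ _ _) (max_le (h2 _ _ hav hav) ?_)) ?_)
      · exact h3 _ _ (hιle _) (h2 _ _ hav hbv)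
      · exact h3 _ _ (hιle _) (h2 _ _ hbv hbv)
    rw [hQ, WithZero.exp_le_exp] at hQle
    omega
  · -- `r = - a₀ / b₀` is a root modulo `v`
    obtain ⟨b', hb'⟩ : ∃ b' : 𝓞 K, b₀ * b' - 1 ∈ v.asIdeal := by
      obtain ⟨y, i, hi, hyi⟩ := v.isMaximal.exists_inv hb₀v
      refine ⟨y, ?_⟩
      have : b₀ * y - 1 = -i := by linear_combination hyi
      rw [this]
      exact neg_mem hi
    apply hroot (-(a₀ * b'))
    have h1 : b₀ ^ 2 * ((-(a₀ * b')) ^ 2 - t * (-(a₀ * b')) + n) ∈ v.asIdeal := by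
      have : b₀ ^ 2 * ((-(a₀ * b')) ^ 2 - t * (-(a₀ * b')) + n)
          = (a₀ ^ 2 + t * a₀ * b₀ + n * b₀ ^ 2)
            + (a₀ ^ 2 * (b₀ * b' + 1) + t * a₀ * b₀) * (b₀ * b' - 1) := by ring
      rw [this]
      exact add_mem hQ₀ (Ideal.mul_mem_left _ _ hb')
    rcases v.isPrime.mem_or_mem h1 with h | h
    · exact absurd (v.isPrime.mem_of_pow_mem 2 h) hb₀v
    · exact h

end Fermat.Agent.LT.A2.H772

end
end
-- ===== PACK-END LT/A2/H772/QuadLocal.lean

-- ===== PACK-BEGIN LT/T3/H893/NIntSpec.lean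
section



/-!
# Row LT, tower T3, leaf T3.18a.4 = AS.4 `NIntC`: A CUT INTO EIGHT SUB-LEAVES
(helper893, HELPER for the owner of AS.4; use or ignore)

OFF-MAIN.  Definitions and frozen Props only; the PROVED top is `NIntTop.lean`:
`nIntC_of893 : IwasawaFormC K → PureUpperC K → OutsideCosetC K → AffineC K → SplitC K →
LocValFinC K → LocValInfC K → ProdFormC K → AS.NIntC K` (`AS.NIntC` VERBATIM, ASSpec of helper736,
sha256 `a661c778`).  Vocabulary: `A0.lean` (helper556), `T3/Spec.lean`, `T3/EKSpec.lean`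
(helper14), `T3/H736/ASSpec.lean` (helper736), `T1/Spec.lean` (helper54), byte-identical copies.
Every leaf may be delivered in the form `T1.T1Out K → Leaf` (tower T1 is closed).

## The proof of `NIntC` (memo helper14 §5 (i), memo helper736 AS.4)

`g⁻¹ n(x) γ₀ʲ g' = k₁ [[c₁ αʲ, a x + r_j], [0, c₂]] k'` with `k₁, k' ∈ K⁰` (**N.1**, Iwasawa).
The pure tensor at this point is
`1[OutsideU] · f₀([[c₁ αʲ, X], [0, c₂]]_{v₀}) · ∏_w F_w([[c₁ αʲ, X], [0, c₂]]_w)`, `X = a x + r_j`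
(**N.2**, bi-invariance at `v₀` and at the infinite places).  The condition `OutsideU` does not
depend on `j` and cuts out the empty set or a coset `X₀ + E₀` of the open subgroup
`E₀ = {X : X_v ∈ 𝔫 𝒪_v for all finite v ≠ v₀}` (**N.3**: `U(𝔫)_v` is normal in `GL₂(𝒪_v)`,
`α ≡ 1 mod 𝔫` is a unit outside `v₀`).  Affine substitution `X = a x + r` (**N.4**, uniqueness of
the Haar measure), splitting of the Haar measure of `𝔸_K` at `S' = {v₀} ∪ S_∞` on `E₀` (**N.5**,
uniqueness of the Haar measure of `K_{v₀} × ∏_w ℂ`), the local `N`-integrals (**N.6**, **N.7**)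
and the product formula `q^{-n/2} ∏_w |α|_w = 1` (**N.8**).
-/

set_option autoImplicit false
set_option linter.style.haveILetI false

open IsDedekindDomain NumberField MeasureTheory
open Fermat.Agent.LT.H556.A0

noncomputable section

namespace Fermat.Agent.LT.T3.AS.N893

variable (K : Type) [Field K] [NumberField K]

/-! ## Vocabulary -/

/-- The component of an idele at the finite place `v`. -/
def finU (v : HeightOneSpectrum (𝓞 K)) : (Adl K)ˣ →* (v.adicCompletion K)ˣ :=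
  Units.map (finHom K v).toMonoidHom

/-- The component of an idele at the infinite place `w`, in `ℂ`. -/
def infU (w : InfinitePlace K) : (Adl K)ˣ →* ℂˣ :=
  Units.map (infHom K w).toMonoidHom

theorem finU_coe (v : HeightOneSpectrum (𝓞 K)) (c : (Adl K)ˣ) :
    ((finU K v c : (v.adicCompletion K)ˣ) : v.adicCompletion K) = finHom K v (c : Adl K) := rfl

theorem infU_coe (w : InfinitePlace K) (c : (Adl K)ˣ) :
    ((infU K w c : ℂˣ) : ℂ) = infHom K w (c : Adl K) := rfl

/-- The order at `v₀` of an idele. -/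
def ordA (v₀ : HeightOneSpectrum (𝓞 K)) (c : (Adl K)ˣ) : ℤ :=
  ordv v₀ ((finU K v₀ c : (v₀.adicCompletion K)ˣ) : v₀.adicCompletion K)

/-- The open subgroup `E₀ = {X : X_v ∈ 𝔫 𝒪_v for all finite v ≠ v₀}` of `𝔸_K`. -/
def outGrp (𝔫 : Ideal (𝓞 K)) (v₀ : HeightOneSpectrum (𝓞 K)) : Set (Adl K) :=
  {X | ∀ v : HeightOneSpectrum (𝓞 K), v ≠ v₀ → finHom K v X ∈ idealClosure 𝔫 v}

/-- The hypotheses of `AS.NIntC` on `(𝔫, v₀, a₀, n, α)`. -/
structure Frame (𝔫 : Ideal (𝓞 K)) (v₀ : HeightOneSpectrum (𝓞 K)) (a₀ : 𝓞 K) (n : ℕ)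
    (α : Kˣ) : Prop where
  level : 𝔫 ≠ ⊥
  prime : ¬ v₀.asIdeal ∣ 𝔫
  pos : 0 < n
  span : Ideal.span {a₀} = v₀.asIdeal ^ n
  cong : a₀ - 1 ∈ 𝔫
  coe : (α : K) = algebraMap (𝓞 K) K a₀

/-! ## The eight sub-leaves -/

/-- **N.1 (Iwasawa form; pure algebra from `T1.IwasawaC`).**  `g = b₁ κ₁`, `g' = b' κ'`:
`k₁ = κ₁⁻¹`, `k' = κ'`, `c₁ = s₁⁻¹ s'`, `c₂ = t₁⁻¹ t'`, `a = s₁⁻¹ t'`,
`r_j = s₁⁻¹ αʲ y' - s₁⁻¹ y₁ t₁⁻¹ t'` for `b₁ = [[s₁, y₁], [0, t₁]]`, `b' = [[s', y'], [0, t']]`. -/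
def IwasawaFormC : Prop :=
  ∀ (α : Kˣ) (g g' : G K), ∃ (k₁ k' : G K) (c₁ c₂ a : (Adl K)ˣ),
    T1.IsStdCompact K k₁ ∧ T1.IsStdCompact K k' ∧
    ∀ j : ℤ, ∃ r : Adl K, ∀ x : Adl K,
      g⁻¹ * unip K x * torK K α ^ j * g'
        = k₁ * upperGL (c₁ * T1.ratUnit K α ^ j) c₂ ((a : Adl K) * x + r) * k'

open Classical in
/-- **N.2 (the pure tensor on `K⁰ B K⁰`).**  Bi-invariance of `f₀` under `GL₂(𝒪_{v₀})` and of
`F_w` under `U(2)`; `finGL`, `infGL` are multiplicative and map `upperGL` to `upperGL`. -/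
def PureUpperC : Prop :=
  ∀ (𝔫 : Ideal (𝓞 K)) (v₀ : HeightOneSpectrum (𝓞 K))
    (f₀ : GL (Fin 2) (v₀.adicCompletion K) → ℂ) (F : InfinitePlace K → GL (Fin 2) ℂ → ℂ),
    IsBiIntInv v₀ f₀ → (∀ w, IsCplxTest (F w)) →
    ∀ (k₁ k' : G K), T1.IsStdCompact K k₁ → T1.IsStdCompact K k' →
    ∀ (c₁ c₂ : (Adl K)ˣ) (X : Adl K),
      pureFn K 𝔫 v₀ f₀ F (k₁ * upperGL c₁ c₂ X * k')
        = (if OutsideU K 𝔫 v₀ (k₁ * upperGL c₁ c₂ X * k') then (1 : ℂ) else 0)
          * f₀ (upperGL (finU K v₀ c₁) (finU K v₀ c₂) (finHom K v₀ X))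
          * ∏ w : InfinitePlace K, F w (upperGL (infU K w c₁) (infU K w c₂) (infHom K w X))

/-- **N.3 (the condition outside `S'`).**  If `OutsideU` holds at `(j, X)`, then it holds at
`(j', X')` iff `X' - X ∈ E₀`.  (`h' = h · k'⁻¹ (m⁻¹ m') k'`,
`m⁻¹ m' = [[α^{j'-j}, (c₁ αʲ)⁻¹ (X' - X)], [0, 1]]`; `U(𝔫)_v` is normal in `GL₂(𝒪_v)`; `α` is a
unit at `v ≠ v₀` and `α ≡ 1 mod 𝔫`; `(c₁ αʲ)_v` is a unit of `𝒪_v` because `m_v ∈ GL₂(𝒪_v)`.) -/
def OutsideCosetC : Prop :=
  ∀ (𝔫 : Ideal (𝓞 K)) (v₀ : HeightOneSpectrum (𝓞 K)) (a₀ : 𝓞 K) (n : ℕ) (α : Kˣ),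
    Frame K 𝔫 v₀ a₀ n α →
    ∀ (k₁ k' : G K), T1.IsStdCompact K k₁ → T1.IsStdCompact K k' →
    ∀ (c₁ c₂ : (Adl K)ˣ) (j j' : ℤ) (X X' : Adl K),
      OutsideU K 𝔫 v₀ (k₁ * upperGL (c₁ * T1.ratUnit K α ^ j) c₂ X * k') →
      (OutsideU K 𝔫 v₀ (k₁ * upperGL (c₁ * T1.ratUnit K α ^ j') c₂ X' * k')
        ↔ X' - X ∈ outGrp K 𝔫 v₀)

/-- **N.4 (affine substitution).**  `x ↦ a x + r` multiplies the Haar integral by a constant
`c(a)` (the image of a Haar measure under a topological automorphism is a Haar measure;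
uniqueness; the value `c(a) = ‖a‖⁻¹` is not needed). -/
def AffineC : Prop :=
  letI : MeasurableSpace (Adl K) := borel (Adl K)
  ∀ ν : Measure (Adl K), ν.IsAddHaarMeasure → ∀ a : (Adl K)ˣ, ∃ c : ℂ,
    ∀ (r : Adl K) (Q : Adl K → ℂ), Integrable Q ν →
      Integrable (fun x : Adl K => Q ((a : Adl K) * x + r)) ν ∧
        ∫ x, Q ((a : Adl K) * x + r) ∂ν = c * ∫ X, Q X ∂ν

/-- **N.5 (splitting of the Haar measure at `S' = {v₀} ∪ S_∞`).**  `E₀` is an open subgroup of
`𝔸_K`, `E₀ = ∏_w K_w × K_{v₀} × ∏_{v ≠ v₀} 𝔫 𝒪_v`; the image of `ν|_{E₀}` under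
`X ↦ (X_{v₀}, (X_w)_w)` is a Haar measure of `K_{v₀} × ∏_w ℂ` (finite on compact sets because
`∏_{v ≠ v₀} 𝔫 𝒪_v` is compact), hence a multiple of `ν₀ × ∏_w (Lebesgue)`; Fubini. -/
def SplitC : Prop :=
  letI : MeasurableSpace (Adl K) := borel (Adl K)
  (∀ w : InfinitePlace K, w.IsComplex) →
  ∀ ν : Measure (Adl K), ν.IsAddHaarMeasure →
  ∀ 𝔫 : Ideal (𝓞 K), 𝔫 ≠ ⊥ → ∀ v₀ : HeightOneSpectrum (𝓞 K),
    letI : MeasurableSpace (v₀.adicCompletion K) := borel (v₀.adicCompletion K)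
    ∃ ν₀ : Measure (v₀.adicCompletion K), ν₀.IsAddHaarMeasure ∧ ∃ c₀ : ℂ,
      ∀ (φ₀ : v₀.adicCompletion K → ℂ) (φ : InfinitePlace K → ℂ → ℂ),
        Continuous φ₀ → HasCompactSupport φ₀ →
        (∀ w, Continuous (φ w)) → (∀ w, HasCompactSupport (φ w)) →
        Integrable (fun X : Adl K => (outGrp K 𝔫 v₀).indicator (fun _ => (1 : ℂ)) X
          * φ₀ (finHom K v₀ X) * ∏ w : InfinitePlace K, φ w (infHom K w X)) ν ∧
        ∫ X, (outGrp K 𝔫 v₀).indicator (fun _ => (1 : ℂ)) X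
            * φ₀ (finHom K v₀ X) * ∏ w : InfinitePlace K, φ w (infHom K w X) ∂ν
          = c₀ * (∫ x, φ₀ x ∂ν₀) * ∏ w : InfinitePlace K, ∫ z : ℂ, φ w z

/-- **N.6 (the local `N`-integral at `v₀`).**  `HasSatakeN` at `c₁' = (c₁ αʲ)_{v₀}`, `c₂' =
(c₂)_{v₀}`; `ordv` is additive and `ordv α = n`; invariance of `ν₀` under the translation by `t`;
`x ↦ f₀ [[c₁', x], [0, c₂']]` is locally constant (`f₀` is right `GL₂(𝒪)`-invariant) of compact
support (finitely many cosets). -/
def LocValFinC : Prop :=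
  ∀ (𝔫 : Ideal (𝓞 K)) (v₀ : HeightOneSpectrum (𝓞 K)) (a₀ : 𝓞 K) (n : ℕ) (α : Kˣ),
    Frame K 𝔫 v₀ a₀ n α →
    letI : MeasurableSpace (v₀.adicCompletion K) := borel (v₀.adicCompletion K)
    ∀ ν₀ : Measure (v₀.adicCompletion K), ν₀.IsAddHaarMeasure →
    ∀ (f₀ : GL (Fin 2) (v₀.adicCompletion K) → ℂ) (A : ℤ × ℤ → ℂ),
      IsBiIntInv v₀ f₀ → (∃ R : Finset (GL (Fin 2) (v₀.adicCompletion K)), IsRepSys v₀ f₀ R) →
      HasSatakeN v₀ f₀ A →
      ∀ (c₁ c₂ : (Adl K)ˣ) (j : ℤ) (t : v₀.adicCompletion K),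
        Continuous (fun x : v₀.adicCompletion K =>
          f₀ (upperGL (finU K v₀ (c₁ * T1.ratUnit K α ^ j)) (finU K v₀ c₂) (x + t))) ∧
        HasCompactSupport (fun x : v₀.adicCompletion K =>
          f₀ (upperGL (finU K v₀ (c₁ * T1.ratUnit K α ^ j)) (finU K v₀ c₂) (x + t))) ∧
        ∫ x, f₀ (upperGL (finU K v₀ (c₁ * T1.ratUnit K α ^ j)) (finU K v₀ c₂) (x + t)) ∂ν₀
          = ((ν₀ (v₀.adicCompletionIntegers K : Set (v₀.adicCompletion K))).toReal : ℂ)
            * (((Ideal.absNorm v₀.asIdeal : ℝ) ^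
                (-(((ordA K v₀ c₁ + ordA K v₀ c₂ : ℤ) : ℝ)) / 2) : ℝ) : ℂ)
            * ((((Ideal.absNorm v₀.asIdeal : ℝ) ^ (-(n : ℝ) / 2)) ^ j : ℝ) : ℂ)
            * A (ordA K v₀ c₁ + j * n, ordA K v₀ c₂)

/-- **N.7 (the local `N`-integral at a complex place).**  `HasAbelN` at `c₁' = (c₁ αʲ)_w`,
`c₂' = (c₂)_w`; `‖α_w‖ = w α` (`extensionEmbedding` is isometric); translation by `t`;
`z ↦ F [[c₁', z], [0, c₂']]` is continuous of compact support. -/
def LocValInfC : Prop :=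
  ∀ (α : Kˣ) (w : InfinitePlace K) (F : GL (Fin 2) ℂ → ℂ) (β : ℝ × ℝ → ℂ),
    IsCplxTest F → HasAbelN F β →
    ∀ (c₁ c₂ : (Adl K)ˣ) (j : ℤ) (t : ℂ),
      Continuous (fun z : ℂ =>
        F (upperGL (infU K w (c₁ * T1.ratUnit K α ^ j)) (infU K w c₂) (z + t))) ∧
      HasCompactSupport (fun z : ℂ =>
        F (upperGL (infU K w (c₁ * T1.ratUnit K α ^ j)) (infU K w c₂) (z + t))) ∧
      ∫ z : ℂ, F (upperGL (infU K w (c₁ * T1.ratUnit K α ^ j)) (infU K w c₂) (z + t))
        = ((‖((infU K w c₁ : ℂˣ) : ℂ)‖ * ‖((infU K w c₂ : ℂˣ) : ℂ)‖ * (w (α : K)) ^ j : ℝ) : ℂ)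
          * β (Real.log ‖((infU K w c₁ : ℂˣ) : ℂ)‖ + j * Real.log (w (α : K)),
              Real.log ‖((infU K w c₂ : ℂˣ) : ℂ)‖)

/-- **N.8 (product formula).**  `∏_w (w α)² = |N_{K/ℚ} α| = N(𝔭_{v₀})ⁿ` for a totally complex
field (`NumberField.InfinitePlace.prod_eq_abs_norm`, `Ideal.absNorm_span_singleton`). -/
def ProdFormC : Prop :=
  (∀ w : InfinitePlace K, w.IsComplex) →
  ∀ (𝔫 : Ideal (𝓞 K)) (v₀ : HeightOneSpectrum (𝓞 K)) (a₀ : 𝓞 K) (n : ℕ) (α : Kˣ),
    Frame K 𝔫 v₀ a₀ n α →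
    ((Ideal.absNorm v₀.asIdeal : ℝ) ^ (-(n : ℝ) / 2)) * ∏ w : InfinitePlace K, w (α : K) = 1

end Fermat.Agent.LT.T3.AS.N893

end

end
-- ===== PACK-END LT/T3/H893/NIntSpec.lean

-- ===== PACK-BEGIN LT/T1/H793/Leaves.lean
section








/-!
# Row LT, tower T1 (helper793, OFF-MAIN): sub-leaves of `T1/Spec.lean` v1 (helper54@675fbadd3)

VERBATIM against the sub-leaf Props of the Spec:

* `leafIwasawaFin793 K  : LeafIwasawaFin K`   (T1.10)
* `leafIwasawaInf793    : LeafIwasawaInf`     (T1.11)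
* `leafIwasawaGlue793 K : LeafIwasawaGlue K`  (T1.12)
* `leafHeight793 K      : LeafHeight K`       (T1.13)
* `leafSiegelSep793 K   : LeafSiegelSep K`    (T1.15)
-/

set_option autoImplicit false

open IsDedekindDomain NumberField
open Fermat.Agent.LT.H556.A0
open Fermat.Agent.LT.T1

noncomputable section

namespace Fermat.Agent.LT.T1.H793

/-- **T1.10** `LeafIwasawaFin`. -/
theorem leafIwasawaFin793 (K : Type) [Field K] [NumberField K] : LeafIwasawaFin K := by
  intro v g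
  obtain ⟨b, k, hg, hb, hk, hk'⟩ := iwasawaVal793 (v.adicCompletionIntegers K) g
  exact ⟨b, k, hb, hk, hk', hg⟩

/-- **T1.11** `LeafIwasawaInf`: Gram–Schmidt on the bottom row, real matrices stay real. -/
theorem leafIwasawaInf793 : LeafIwasawaInf := by
  intro g
  set c := (g : Matrix (Fin 2) (Fin 2) ℂ) 1 0 with hc0
  set d := (g : Matrix (Fin 2) (Fin 2) ℂ) 1 1 with hd
  have hpos : 0 < Complex.normSq c + Complex.normSq d := by
    rcases bottom_ne_zero793 g with h | h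
    · have : 0 < Complex.normSq c := Complex.normSq_pos.mpr h
      linarith [Complex.normSq_nonneg d]
    · have : 0 < Complex.normSq d := Complex.normSq_pos.mpr h
      linarith [Complex.normSq_nonneg c]
  set r := Real.sqrt (Complex.normSq c + Complex.normSq d) with hr
  have hr0 : 0 < r := Real.sqrt_pos.mpr hpos
  have hr2 : r ^ 2 = Complex.normSq c + Complex.normSq d := Real.sq_sqrt hpos.le
  have hrne : (r : ℂ) ≠ 0 := by exact_mod_cast hr0.ne'
  have hcc : c * (starRingEnd ℂ) c = (Complex.normSq c : ℂ) := Complex.mul_conj c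
  have hdd : d * (starRingEnd ℂ) d = (Complex.normSq d : ℂ) := Complex.mul_conj d
  have hsum : c * (starRingEnd ℂ) c + d * (starRingEnd ℂ) d = (r : ℂ) ^ 2 := by
    rw [hcc, hdd]; exact_mod_cast hr2.symm
  let k : GL (Fin 2) ℂ :=
    ⟨!![(starRingEnd ℂ) d / r, -(starRingEnd ℂ) c / r; c / r, d / r],
      !![d / r, (starRingEnd ℂ) c / r; -c / r, (starRingEnd ℂ) d / r],
      by
        ext i j
        fin_cases i <;> fin_cases j <;>
          simp [Matrix.mul_apply, Fin.sum_univ_two] <;> field_simp <;>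
          first | ring1 | linear_combination hsum
      ,
      by
        ext i j
        fin_cases i <;> fin_cases j <;>
          simp [Matrix.mul_apply, Fin.sum_univ_two] <;> field_simp <;>
          first | ring1 | linear_combination hsum⟩
  have hk : (k : Matrix (Fin 2) (Fin 2) ℂ)
      = !![(starRingEnd ℂ) d / r, -(starRingEnd ℂ) c / r; c / r, d / r] := rfl
  have hkinv : ((k⁻¹ : GL (Fin 2) ℂ) : Matrix (Fin 2) (Fin 2) ℂ)
      = !![d / r, (starRingEnd ℂ) c / r; -c / r, (starRingEnd ℂ) d / r] := rfl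
  refine ⟨g * k⁻¹, k, ?_, ?_, by group, ?_⟩
  · rw [Units.val_mul, hkinv]
    simp only [Matrix.mul_apply, Fin.sum_univ_two, Matrix.of_apply, Matrix.cons_val',
      Matrix.cons_val_zero, Matrix.cons_val_one, Matrix.cons_val_fin_one]
    rw [← hc0, ← hd]
    field_simp
    ring
  · rw [hk]
    ext i j
    fin_cases i <;> fin_cases j <;>
      simp [Matrix.mul_apply, Fin.sum_univ_two, Matrix.conjTranspose_apply] <;> field_simp <;>
      first | ring1 | linear_combination hsum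
  · intro hreal
    have hcim : c.im = 0 := hreal 1 0
    have hdim : d.im = 0 := hreal 1 1
    have hmul : ∀ z w : ℂ, z.im = 0 → w.im = 0 → (z * w).im = 0 := by
      intro z w hz hw
      rw [Complex.mul_im, hz, hw]; ring
    have hdivr : ∀ z : ℂ, z.im = 0 → (z / (r : ℂ)).im = 0 := by
      intro z hz
      rw [Complex.div_ofReal_im, hz, zero_div]
    have hconj : ∀ z : ℂ, z.im = 0 → ((starRingEnd ℂ) z).im = 0 := by
      intro z hz
      rw [Complex.conj_im, hz, neg_zero]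
    have hneg : ∀ z : ℂ, z.im = 0 → (-z).im = 0 := by
      intro z hz
      rw [Complex.neg_im, hz, neg_zero]
    have hkinv_im : ∀ i j, (((k⁻¹ : GL (Fin 2) ℂ) : Matrix (Fin 2) (Fin 2) ℂ) i j).im = 0 := by
      intro i j
      rw [hkinv]
      fin_cases i <;> fin_cases j
      · exact hdivr _ hdim
      · exact hdivr _ (hconj _ hcim)
      · exact hdivr _ (hneg _ hcim)
      · exact hdivr _ (hconj _ hdim)
    refine ⟨?_, ?_, ?_⟩
    · intro i j
      rw [Units.val_mul, Matrix.mul_apply, Fin.sum_univ_two, Complex.add_im,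
        hmul _ _ (hreal i 0) (hkinv_im 0 j), hmul _ _ (hreal i 1) (hkinv_im 1 j), add_zero]
    · intro i j
      rw [hk]
      fin_cases i <;> fin_cases j
      · exact hdivr _ (hconj _ hdim)
      · exact hdivr _ (hneg _ (hconj _ hcim))
      · exact hdivr _ hcim
      · exact hdivr _ hdim
    · rw [hk, Matrix.det_fin_two]
      simp only [Matrix.of_apply, Matrix.cons_val', Matrix.cons_val_zero, Matrix.cons_val_one,
        Matrix.cons_val_fin_one]
      field_simp
      linear_combination hsum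

/-- **T1.12** `LeafIwasawaGlue` (the hypotheses are not needed: `iwasawaC793` is
unconditional). -/
theorem leafIwasawaGlue793 (K : Type) [Field K] [NumberField K] : LeafIwasawaGlue K :=
  fun _ _ => iwasawaC793 K

/-- **T1.13** `LeafHeight`. -/
theorem leafHeight793 (K : Type) [Field K] [NumberField K] : LeafHeight K :=
  heightC793 K

/-- **T1.15** `LeafSiegelSep` (`IwasawaC`, `HeightC` are not needed). -/
theorem leafSiegelSep793 (K : Type) [Field K] [NumberField K] : LeafSiegelSep K :=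
  fun hN _ _ => siegelSepC793 K hN

end Fermat.Agent.LT.T1.H793

end

end
-- ===== PACK-END LT/T1/H793/Leaves.lean

-- ===== PACK-BEGIN LT/T1/H868/HaarScale.lean
section







/-!
# Row LT, tower T1, shared core HAAR-SCALE (helper868): the module of an idele is `adNorm`

OFF-MAIN.  Vocabulary: `LT/H556/A0.lean` (66d3374a) and `LT/T1/Spec.lean` (e8ae48d6), byte-identical.

`haarScale868 : LocCompC K → AddFundDomC K → AdNormC K → HaarScaleC K`, where `HaarScaleC K` says:
for every additive Haar measure `μ` of `𝔸_K`, every idele `x` and EVERY set `S`,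
`μ (x S) = ‖x‖_𝔸 · μ S`.   (Weil, Basic Number Theory, IV §4; Cassels–Fröhlich II §16.)

Needed by T1.06 (Fujisaki), T1.14 (reduction), T1.17 (Siegel volume), T1.20 (elliptic tori).

Route (no index computation):
* (A) the module `modF868 μ x` exists, is multiplicative, is `1` on `Kˣ` (lattice argument);
* (B) boxes `{‖a_w‖ ≤ r_w} × 𝒪̂` have measure `∏ r_w^{mult w} · μ(unit box)` (uniqueness of Haar
  measure on `∏_w K_w × 𝔸_f`, `Measure.pi`, closed balls of `ℝ` and `ℂ`);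
* (C) hence the module of an idele which is a unit at all finite places is `∏_w ‖u_w‖^{mult w}`;
* (D) finiteness of the class group: `x ^ h = ξ · u`, `ξ ∈ Kˣ`, `u` a unit at all finite places;
* (E) `mod(x)^h = mod(u) = ‖u‖ = ‖x‖^h`.
-/

set_option autoImplicit false
set_option linter.style.haveILetI false
set_option linter.unusedVariables false
set_option linter.unusedSectionVars false

open IsDedekindDomain NumberField MeasureTheory
open scoped ENNReal NNReal

noncomputable section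

namespace Fermat.Agent.LT.T1.H868

open Fermat.Agent.LT.H556.A0

variable (K : Type) [Field K] [NumberField K]

/-- **HAAR-SCALE**: the module of the automorphism `y ↦ x y` of `𝔸_K` is `‖x‖_𝔸`. -/
def HaarScaleC : Prop :=
  letI : MeasurableSpace (Adl K) := borel (Adl K)
  ∀ μ : Measure (Adl K), μ.IsAddHaarMeasure → ∀ (x : (Adl K)ˣ) (S : Set (Adl K)),
    μ ((fun y : Adl K => (x : Adl K) * y) '' S) = ENNReal.ofReal (adNorm K (x : Adl K)) * μ S

/-- The component at a finite place as a ring homomorphism. -/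
def finHom868 (v : HeightOneSpectrum (𝓞 K)) : Adl K →+* v.adicCompletion K :=
  (RestrictedProduct.evalRingHom (fun v : HeightOneSpectrum (𝓞 K) => v.adicCompletion K) v).comp
    (RingHom.snd (InfiniteAdeleRing K) (FiniteAdeleRing (𝓞 K) K))

theorem finHom868_apply (v : HeightOneSpectrum (𝓞 K)) (a : Adl K) : finHom868 K v a = a.2 v := rfl

theorem norm_fin_eq_one868 (v : HeightOneSpectrum (𝓞 K)) (y : v.adicCompletion K)
    (hy : Valued.v y = 1) : ‖y‖ = 1 := by
  rw [le_antisymm_iff, Valued.toNormedField.norm_le_one_iff,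
    Valued.toNormedField.one_le_norm_iff, hy]
  exact ⟨le_rfl, le_rfl⟩

/-- `adNorm` of an idele which is a unit at the finite places. -/
theorem adNorm_of_isFinUnit868 {u : (Adl K)ˣ} (hu : IsFinUnit868 K u) :
    adNorm K (u : Adl K) = ∏ w : InfinitePlace K, ‖(u : Adl K).1 w‖ ^ w.mult := by
  unfold adNorm
  have h1 : (fun v : HeightOneSpectrum (𝓞 K) => ‖(u : Adl K).2 v‖) = fun _ => 1 :=
    funext fun v => norm_fin_eq_one868 K v _ (hu v)
  rw [h1, finprod_one, mul_one]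

variable {K}

theorem adNorm_one868 (hN : AdNormC K) : adNorm K ((1 : (Adl K)ˣ) : Adl K) = 1 := by
  have h := hN.2.1 1 1
  rw [mul_one] at h
  have hp := hN.1 1
  have h2 : adNorm K ((1 : (Adl K)ˣ) : Adl K) * (adNorm K ((1 : (Adl K)ˣ) : Adl K) - 1) = 0 := by
    rw [mul_sub, mul_one, ← h, sub_self]
  rcases mul_eq_zero.mp h2 with h3 | h3
  · exact absurd h3 hp.ne'
  · linarith

theorem adNorm_pow868 (hN : AdNormC K) (x : (Adl K)ˣ) (n : ℕ) :
    adNorm K ((x ^ n : (Adl K)ˣ) : Adl K) = adNorm K (x : Adl K) ^ n := by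
  induction n with
  | zero => simpa using adNorm_one868 hN
  | succ n ih => rw [pow_succ, hN.2.1, ih, pow_succ]

/-- **HAAR-SCALE.** -/
theorem haarScale868 (hLC : LocCompC K) (hFD : AddFundDomC K) (hN : AdNormC K) :
    HaarScaleC K := by
  letI : MeasurableSpace (Adl K) := borel (Adl K)
  haveI : BorelSpace (Adl K) := ⟨rfl⟩
  obtain ⟨⟨hlc, ht2, hsc⟩, -⟩ := hLC
  haveI := hlc
  haveI := ht2
  haveI := hsc
  intro μ hμ x S
  haveI := hμ
  rw [measure_image_mul868]
  congr 1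
  -- the class group
  obtain ⟨h, ξ, hpos, hv⟩ := exists_pow_eq_principal868 K x
  set u : (Adl K)ˣ := x ^ h * (ratUnit K ξ)⁻¹ with hu
  have hxu : x ^ h = u * ratUnit K ξ := by simp [hu]
  have hfu : IsFinUnit868 K u := by
    intro v
    have e1 : ((u : (Adl K)ˣ) : Adl K).2 v
        = (finHom868 K v (x : Adl K)) ^ h * finHom868 K v (((ratUnit K ξ)⁻¹ : (Adl K)ˣ) : Adl K) := by
      rw [← map_pow, ← map_mul]
      simp [hu, finHom868_apply]
    have e2 : Valued.v (finHom868 K v (((ratUnit K ξ)⁻¹ : (Adl K)ˣ) : Adl K))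
        * Valued.v ((ratUnit K ξ : Adl K).2 v) = 1 := by
      rw [← map_mul]
      have := fin_mul_inv868 K (ratUnit K ξ) v
      rw [finHom868_apply, this, map_one]
    rw [e1, map_mul, map_pow, finHom868_apply, hv v]
    rw [mul_comm]
    exact e2
  -- the fundamental domain
  obtain ⟨D, hDm, hD, -, hD0, hD1⟩ := hFD μ hμ
  have hξ1 : modF868 μ (ratUnit K ξ) = 1 := modF868_ratUnit μ D hDm hD hD0 hD1 ξ
  -- modules
  have hm : (modF868 μ x : ℝ) ^ h = adNorm K (x : Adl K) ^ h := by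
    have a1 : modF868 μ x ^ h = modF868 μ u := by
      rw [← modF868_pow, hxu, modF868_mul, hξ1, mul_one]
    have a2 : (modF868 μ u : ℝ) = adNorm K (u : Adl K) := by
      rw [modF868_of_isFinUnit μ hfu, adNorm_of_isFinUnit868 K hfu]
    have a3 : adNorm K (u : Adl K) * adNorm K (ratUnit K ξ : Adl K)
        = adNorm K (x : Adl K) ^ h := by
      rw [← hN.2.1, ← hxu, adNorm_pow868 hN]
    rw [hN.2.2.1 ξ, mul_one] at a3
    rw [← a3, ← a2, ← a1]
    push_cast
    rfl
  have hx : (modF868 μ x : ℝ) = adNorm K (x : Adl K) :=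
    (pow_left_inj₀ (NNReal.coe_nonneg _) (hN.1 x).le hpos.ne').mp hm
  rw [← hx, ENNReal.ofReal_coe_nnreal]

/-- The same for `Measure.map`. -/
theorem map_mul_eq868 (hLC : LocCompC K) (hFD : AddFundDomC K) (hN : AdNormC K) :
    letI : MeasurableSpace (Adl K) := borel (Adl K)
    ∀ μ : Measure (Adl K), μ.IsAddHaarMeasure → ∀ (x : (Adl K)ˣ),
      Measure.map (fun y : Adl K => (x : Adl K) * y) μ
        = ENNReal.ofReal (adNorm K ((x⁻¹ : (Adl K)ˣ) : Adl K)) • μ := by
  letI : MeasurableSpace (Adl K) := borel (Adl K)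
  haveI : BorelSpace (Adl K) := ⟨rfl⟩
  intro μ hμ x
  ext S hS
  have h1 : Measure.map (fun y : Adl K => (x : Adl K) * y) μ S
      = μ ((mulCAE868 K x) ⁻¹' S) :=
    (mulCAE868 K x).toHomeomorph.toMeasurableEquiv.map_apply S
  rw [h1, Measure.smul_apply, smul_eq_mul, ← haarScale868 hLC hFD hN μ hμ x⁻¹ S,
    image_mul_eq_preimage868, inv_inv]

end Fermat.Agent.LT.T1.H868

end

end
-- ===== PACK-END LT/T1/H868/HaarScale.lean

-- ===== PACK-BEGIN LT/T2/H627/ConstTerm.lean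
section







/-!
# Row LT, tower T2, leaf T2.13 (helper627): constant terms exist

Every function on `GL₂(𝔸_K)` which is left invariant under the rational upper unipotent
matrices has a constant term in the sense of `T2.IsConstTerm`.  OFF-MAIN.
-/

set_option autoImplicit false
set_option linter.unusedSectionVars false
set_option linter.style.haveILetI false

open IsDedekindDomain NumberField MeasureTheory
open Fermat.Agent.LT.H556.A0
open scoped Classical ENNReal Pointwise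

noncomputable section

namespace Fermat.Agent.LT.T2.H627

variable {K : Type} [Field K] [NumberField K]

/-- The upper unipotent matrix `[[1, x], [0, 1]]`. -/
def nn627 (x : Adl K) : G K := Matrix.GeneralLinearGroup.upperRightHom x

theorem nn627_val (x : Adl K) :
    ((nn627 x : G K) : Matrix (Fin 2) (Fin 2) (Adl K)) = !![1, x; 0, 1] := rfl

theorem nn627_add (x y : Adl K) : nn627 (x + y) = nn627 x * nn627 y :=
  Matrix.GeneralLinearGroup.upperRightHom.map_add_eq_mul x y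

theorem nn627_rat (ξ : K) :
    nn627 (algebraMap K (Adl K) ξ) = T1.ratG K (Matrix.GeneralLinearGroup.upperRightHom ξ) := by
  apply Units.ext
  refine Matrix.ext fun i j => ?_
  show (!![1, algebraMap K (Adl K) ξ; 0, 1] : Matrix (Fin 2) (Fin 2) (Adl K)) i j =
    algebraMap K (Adl K) ((!![1, ξ; 0, 1] : Matrix (Fin 2) (Fin 2) K) i j)
  fin_cases i <;> fin_cases j <;> simp

theorem countable_princ627 :
    Countable ((algebraMap K (Adl K)).toAddMonoidHom.range) := by
  have := countable_K627 (K := K)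
  have hs : Function.Surjective
      (fun ξ : K => (⟨algebraMap K (Adl K) ξ, ⟨ξ, rfl⟩⟩ :
        (algebraMap K (Adl K)).toAddMonoidHom.range)) := by
    rintro ⟨_, ξ, rfl⟩
    exact ⟨ξ, rfl⟩
  exact hs.countable

/-- **Existence of the constant term.** -/
theorem exists_constTerm627 (hLC : T1.LocCompC K) (hFD : T1.AddFundDomC K) (ψ : G K → ℂ)
    (hinv : ∀ (γ : GL (Fin 2) K) (g : G K), ψ (T1.ratG K γ * g) = ψ g) :
    ∃ Ψ : G K → ℂ, IsConstTerm ψ Ψ := by
  letI : MeasurableSpace (Adl K) := borel (Adl K)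
  haveI : BorelSpace (Adl K) := ⟨rfl⟩
  haveI : LocallyCompactSpace (Adl K) := hLC.1.1
  haveI : T2Space (Adl K) := hLC.1.2.1
  haveI : SecondCountableTopology (Adl K) := hLC.1.2.2
  haveI := countable_princ627 (K := K)
  -- the reference measure and domain
  set μ₀ : Measure (Adl K) := Measure.addHaar with hμ₀
  obtain ⟨D₀, hD₀m, hD₀, -, hD₀pos, hD₀fin⟩ := hFD μ₀ inferInstance
  refine ⟨fun g => (((μ₀ D₀).toReal : ℝ) : ℂ)⁻¹ * ∫ x in D₀, ψ (nn627 x * g) ∂μ₀, ?_⟩
  intro μ hμ D hD n hn g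
  haveI := hμ
  have hn' : ∀ x, n x = nn627 x := fun x => Units.ext ((hn x).trans (nn627_val x).symm)
  simp_rw [hn']
  -- invariance of the integrand
  have hper : ∀ (ξ : (algebraMap K (Adl K)).toAddMonoidHom.range) (x : Adl K),
      ψ (nn627 (ξ +ᵥ x) * g) = ψ (nn627 x * g) := by
    rintro ⟨_, ξ, rfl⟩ x
    show ψ (nn627 (algebraMap K (Adl K) ξ + x) * g) = _
    rw [nn627_add, nn627_rat, mul_assoc, hinv]
  -- comparison of the measures
  have hc : μ = Measure.addHaarScalarFactor μ μ₀ • μ₀ := Measure.isAddLeftInvariant_eq_smul μ μ₀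
  have hcpos : 0 < Measure.addHaarScalarFactor μ μ₀ :=
    Measure.addHaarScalarFactor_pos_of_isAddHaarMeasure μ μ₀
  set c := Measure.addHaarScalarFactor μ μ₀ with hcdef
  have hcne : (c : ℝ≥0∞) ≠ 0 := by exact_mod_cast hcpos.ne'
  have hac : μ₀ ≪ μ := by
    have h := Measure.absolutelyContinuous_smul (μ := μ₀) hcne
    have e : (c : ℝ≥0∞) • μ₀ = μ := by rw [hc]; rfl
    rwa [e] at h
  have hD' : IsAddFundamentalDomain ((algebraMap K (Adl K)).toAddMonoidHom.range) D μ₀ :=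
    hD.mono hac
  have h1 : ∫ x in D, ψ (nn627 x * g) ∂μ₀ = ∫ x in D₀, ψ (nn627 x * g) ∂μ₀ :=
    hD'.setIntegral_eq hD₀ hper
  have h2 : μ₀ D = μ₀ D₀ := hD'.measure_eq hD₀
  have h3 : ∫ x in D, ψ (nn627 x * g) ∂μ = (c : ℝ) • ∫ x in D, ψ (nn627 x * g) ∂μ₀ := by
    conv_lhs => rw [hc]
    rw [Measure.restrict_smul, integral_smul_nnreal_measure]
    rfl
  have h4 : (μ D).toReal = (c : ℝ) * (μ₀ D₀).toReal := by
    conv_lhs => rw [hc]
    rw [Measure.smul_apply, ← h2]
    simp [ENNReal.toReal_mul]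
  have hne : ((μ₀ D₀).toReal : ℂ) ≠ 0 := by
    have : (μ₀ D₀).toReal ≠ 0 := (ENNReal.toReal_pos hD₀pos.ne' hD₀fin.ne).ne'
    exact_mod_cast this
  rw [h3, h1, h4]
  show (c : ℝ) • ∫ x in D₀, ψ (nn627 x * g) ∂μ₀ =
    (((c : ℝ) * (μ₀ D₀).toReal : ℝ) : ℂ) *
      ((((μ₀ D₀).toReal : ℝ) : ℂ)⁻¹ * ∫ x in D₀, ψ (nn627 x * g) ∂μ₀)
  rw [Complex.real_smul]
  push_cast
  field_simp

end Fermat.Agent.LT.T2.H627

end

end
-- ===== PACK-END LT/T2/H627/ConstTerm.lean

-- ===== PACK-BEGIN LT/T2/H729/CondExistsLeaf.lean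
section







/-!
# Row LT, tower T2, station T2.10 (SMO_AA), sub-leaf T2.10.06 (helper729): the leaf, VERBATIM

OFF-MAIN.  `leaf06_729 K : H941.Leaf06 K` (= `T1.T1Out K → H941.CondExistsC K`) and
`condExistsC729 K : H941.CondExistsC K` (unconditional), against `LT/T2/H941/SmoSpec.lean`
(helper941, sha256 41255efa).  The proof is `condExists729` of `CondExists.lean`, which depends
on Mathlib, `A0` and `T3/Spec` only.
-/

set_option autoImplicit false

open IsDedekindDomain NumberField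
open Fermat.Agent.LT.H556.A0

namespace Fermat.Agent.LT.T2.H729

variable (K : Type) [Field K] [NumberField K]

/-- **T2.10.06, unconditional.** -/
theorem condExistsC729 : Fermat.Agent.LT.T2.H941.CondExistsC K :=
  fun ψ hψ hnd v => condExists729 ψ hψ.cont hnd v

/-- **T2.10.06, the leaf VERBATIM.** -/
theorem leaf06_729 : Fermat.Agent.LT.T2.H941.Leaf06 K :=
  fun _ => condExistsC729 K

end Fermat.Agent.LT.T2.H729

end
-- ===== PACK-END LT/T2/H729/CondExistsLeaf.lean

-- ===== PACK-BEGIN LT/T2/H439/Mult.lean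
section



/-!
# Row LT, tower T2, leaf T2.10.05 `ExtendC`, part 1 (helper439, OFF-MAIN)

Vocabulary: `LT/T2/H941/SmoSpec.lean` v2 (helper941@3ff5e4e6b, sha256 14c4d13ef051), byte-identical
copy.

* `multGrp439 Ψ` : the SUBGROUP of the right multipliers of `Ψ`, i.e. of the `u ∈ GL₂(𝔸_K)` with
  `Ψ(g u) = c Ψ(g)` for a constant `c` (if `c = 0` then `Ψ = 0`, so the set is stable under
  inverses).
* `wh_mul_right439` : the vanishing of the Whittaker coefficient at `h` passes to `h u` for a right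
  multiplier `u`.
* `wh_unip439` : `W(n(a) g) = ψ(a) W(g)` (the argument of helper8 `LT/T2/H8/WhEquiv.lean`, copied
  with new names so that this file depends on `SmoSpec` only).
-/

set_option autoImplicit false
set_option linter.style.haveILetI false

open IsDedekindDomain NumberField MeasureTheory AutomorphicForm
open Fermat.Agent.LT.H556.A0
open scoped ComplexConjugate

noncomputable section

namespace Fermat.Agent.LT.T2.H439

open Fermat.Agent.LT
open Fermat.Agent.LT.T2.H941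

variable {K : Type} [Field K] [NumberField K]

/-! ## The group of right multipliers -/

/-- The right multipliers of `Ψ`: `Ψ(g u) = c Ψ(g)` for all `g`, with a constant `c`. -/
def multGrp439 (Ψ : G K → ℂ) : Subgroup (G K) where
  carrier := {u | ∃ c : ℂ, ∀ g : G K, Ψ (g * u) = c * Ψ g}
  one_mem' := ⟨1, fun g => by rw [mul_one, one_mul]⟩
  mul_mem' := by
    rintro u u' ⟨c, hc⟩ ⟨c', hc'⟩
    exact ⟨c' * c, fun g => by rw [← mul_assoc, hc', hc, mul_assoc]⟩
  inv_mem' := by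
    rintro u ⟨c, hc⟩
    by_cases h0 : c = 0
    · refine ⟨0, fun g => ?_⟩
      have hz : ∀ x : G K, Ψ x = 0 := fun x => by
        have h := hc (x * u⁻¹)
        rw [inv_mul_cancel_right, h0, zero_mul] at h
        exact h
      rw [hz, zero_mul]
    · refine ⟨c⁻¹, fun g => ?_⟩
      have h := hc (g * u⁻¹)
      rw [inv_mul_cancel_right] at h
      rw [h, ← mul_assoc, inv_mul_cancel₀ h0, one_mul]

theorem mem_multGrp439 {Ψ : G K → ℂ} {u : G K} :
    u ∈ multGrp439 Ψ ↔ ∃ c : ℂ, ∀ g : G K, Ψ (g * u) = c * Ψ g := Iff.rfl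

/-- An element under which `Ψ` is right invariant is a right multiplier. -/
theorem mem_multGrp_of_inv439 {Ψ : G K → ℂ} {u : G K} (h : ∀ g : G K, Ψ (g * u) = Ψ g) :
    u ∈ multGrp439 Ψ :=
  ⟨1, fun g => by rw [h, one_mul]⟩

/-! ## The Whittaker coefficient -/

/-- The vanishing of the Whittaker coefficient passes from `h` to `h u`, `u` a right
multiplier. -/
theorem wh_mul_right439 (ψ : AddChar (Adl K) Circle) {m : MeasurableSpace (Adl K)}
    (ν : Measure (Adl K)) (D : Set (Adl K)) (Ψ : G K → ℂ) {u : G K} (hu : u ∈ multGrp439 Ψ)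
    (h : G K) (hz : wh ψ ν D Ψ h = 0) : wh ψ ν D Ψ (h * u) = 0 := by
  obtain ⟨c, hc⟩ := hu
  have e : ∀ x : Adl K, Ψ (T3.unip K x * (h * u)) * conj ((ψ x : Circle) : ℂ)
      = c * (Ψ (T3.unip K x * h) * conj ((ψ x : Circle) : ℂ)) := by
    intro x
    rw [← mul_assoc, hc, mul_assoc]
  unfold wh at hz ⊢
  rw [integral_congr_ae (Filter.Eventually.of_forall e), integral_const_mul, hz, mul_zero]

/-- The rational unipotent element `n(ξ) = [[1, ξ], [0, 1]]` of `GL₂(K)`. -/
def unipK439 (ξ : K) : GL (Fin 2) K :=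
  ⟨!![1, ξ; 0, 1], !![1, -ξ; 0, 1],
    by ext i j; fin_cases i <;> fin_cases j <;> simp [Matrix.mul_apply, Fin.sum_univ_two],
    by ext i j; fin_cases i <;> fin_cases j <;> simp [Matrix.mul_apply, Fin.sum_univ_two]⟩

/-- `n(emb ξ)` is the image of the rational unipotent element. -/
theorem ratG_unipK439 (ξ : K) : T1.ratG K (unipK439 ξ) = T3.unip K (T3.emb K ξ) := by
  apply Units.ext
  ext i j
  fin_cases i <;> fin_cases j <;>
    simp [T1.ratG, T3.unip, unipK439, Matrix.GeneralLinearGroup.map]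

/-- `n(x + y) = n(x) n(y)`. -/
theorem unip_add439 (x y : Adl K) : T3.unip K (x + y) = T3.unip K x * T3.unip K y := by
  apply Units.ext
  ext i j
  fin_cases i <;> fin_cases j <;>
    simp [T3.unip, Matrix.mul_apply, Fin.sum_univ_two, add_comm]

/-- The integrand of the Whittaker coefficient is `K`-periodic. -/
theorem whIntegrand_periodic439 (ψ : AddChar (Adl K) Circle) (hψ : T3.IsStdChar K ψ)
    (Φ : G K → ℂ) (hΦ : ∀ (γ : GL (Fin 2) K) (g : G K), Φ (T1.ratG K γ * g) = Φ g) (g : G K)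
    (ξ : T1.princ K) (x : Adl K) :
    Φ (T3.unip K (ξ +ᵥ x) * g) * conj ((ψ (ξ +ᵥ x) : Circle) : ℂ)
      = Φ (T3.unip K x * g) * conj ((ψ x : Circle) : ℂ) := by
  obtain ⟨ξ, k, rfl⟩ := ξ
  have h1 : (⟨(algebraMap K (Adl K)).toAddMonoidHom k, ⟨k, rfl⟩⟩ : T1.princ K) +ᵥ x
      = T3.emb K k + x := rfl
  rw [h1, unip_add439, ← ratG_unipK439, mul_assoc, hΦ, AddChar.map_add_eq_mul, hψ.triv k,
    one_mul]

/-- `W(n(a) g) = ψ(a) W(g)` for a left `GL₂(K)`-invariant function. -/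
theorem wh_unip439 (ψ : AddChar (Adl K) Circle) (ν : @Measure (Adl K) (borel (Adl K)))
    (D : Set (Adl K)) (hW : @IsWhitData K _ _ ψ (borel (Adl K)) ν D) (Φ : G K → ℂ)
    (hΦ : ∀ (γ : GL (Fin 2) K) (g : G K), Φ (T1.ratG K γ * g) = Φ g) (a : Adl K) (g : G K) :
    @wh K _ _ ψ (borel (Adl K)) ν D Φ (T3.unip K a * g)
      = ((ψ a : Circle) : ℂ) * @wh K _ _ ψ (borel (Adl K)) ν D Φ g := by
  letI : MeasurableSpace (Adl K) := borel (Adl K)
  haveI : BorelSpace (Adl K) := ⟨rfl⟩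
  obtain ⟨hψ, -, -, hν, -, hD, -⟩ := hW
  haveI := hν
  haveI : Countable (T1.princ K) := by
    have : Countable K := Finsupp.Countable.of_moduleFinite (R := ℚ) (M := K)
    exact (AddMonoidHom.rangeRestrict_surjective
      ((algebraMap K (Adl K)).toAddMonoidHom)).countable
  set F : Adl K → ℂ := fun x => Φ (T3.unip K x * g) * conj ((ψ x : Circle) : ℂ) with hF
  have hFper : ∀ (ξ : T1.princ K) (x : Adl K), F (ξ +ᵥ x) = F x := fun ξ x =>
    whIntegrand_periodic439 ψ hψ Φ hΦ g ξ x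
  have hint : ∀ x : Adl K,
      Φ (T3.unip K x * (T3.unip K a * g)) * conj ((ψ x : Circle) : ℂ)
        = ((ψ a : Circle) : ℂ) * F (x + a) := by
    intro x
    have hn : ((ψ a : Circle) : ℂ) * conj ((ψ a : Circle) : ℂ) = 1 := by
      rw [Complex.mul_conj, Complex.normSq_eq_norm_sq, Circle.norm_coe]
      simp
    simp only [hF]
    rw [unip_add439, mul_assoc, AddChar.map_add_eq_mul, Circle.coe_mul, map_mul]
    calc Φ (T3.unip K x * (T3.unip K a * g)) * conj ((ψ x : Circle) : ℂ)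
        = Φ (T3.unip K x * (T3.unip K a * g)) * conj ((ψ x : Circle) : ℂ)
            * (((ψ a : Circle) : ℂ) * conj ((ψ a : Circle) : ℂ)) := by rw [hn, mul_one]
      _ = ((ψ a : Circle) : ℂ) * (Φ (T3.unip K x * (T3.unip K a * g))
            * (conj ((ψ x : Circle) : ℂ) * conj ((ψ a : Circle) : ℂ))) := by ring
  have hmp : MeasurePreserving (fun y : Adl K => y + (-a)) ν ν :=
    measurePreserving_add_right ν (-a)
  have hD' : IsAddFundamentalDomain (T1.princ K) ((fun y : Adl K => y + (-a)) ⁻¹' D) ν := by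
    refine hD.preimage_of_equiv hmp.quasiMeasurePreserving (e := id) Function.bijective_id ?_
    intro ξ y
    change ((ξ : Adl K) + y) + (-a) = (ξ : Adl K) + (y + (-a))
    rw [add_assoc]
  have hemb : MeasurableEmbedding (fun y : Adl K => y + (-a)) :=
    (MeasurableEquiv.addRight (-a)).measurableEmbedding
  have hcv : ∫ y in D, F (y + a) ∂ν
      = ∫ x in (fun y : Adl K => y + (-a)) ⁻¹' D, F x ∂ν := by
    have h := hmp.setIntegral_preimage_emb hemb (fun y => F (y + a)) D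
    simp only [neg_add_cancel_right] at h
    exact h.symm
  unfold wh
  calc ∫ x in D, Φ (T3.unip K x * (T3.unip K a * g)) * conj ((ψ x : Circle) : ℂ) ∂ν
      = ∫ x in D, ((ψ a : Circle) : ℂ) * F (x + a) ∂ν :=
        integral_congr_ae (Filter.Eventually.of_forall hint)
    _ = ((ψ a : Circle) : ℂ) * ∫ x in D, F (x + a) ∂ν := integral_const_mul _ _
    _ = ((ψ a : Circle) : ℂ) * ∫ x in (fun y : Adl K => y + (-a)) ⁻¹' D, F x ∂ν := by rw [hcv]
    _ = ((ψ a : Circle) : ℂ) * ∫ x in D, F x ∂ν := by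
        rw [hD'.setIntegral_eq hD hFper]

end Fermat.Agent.LT.T2.H439

end

end
-- ===== PACK-END LT/T2/H439/Mult.lean

-- ===== PACK-BEGIN LT/T3/H315/AbelCut.lean
section



/-!
# Row LT, tower T3, leaf AS.2 `AbelCplxC` (registry 1021) -- THE CUT (helper315)

OFF-MAIN.  Definitions, frozen sub-leaf Props and the PROVED top
`abelCplx_of315 : RegC → NIntC → SphContC → AvgC → IwaC → CalcC → AS.AbelCplxC`.
No hole, nothing assumed.  MATHLIB ONLY (no adeles): imports the byte-identical copies of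
`LT/T3/H736/ASSpec.lean` (helper736@a78c5beca, sha256 a661c778: the frozen Prop `AS.AbelCplxC`) and
of `LT/T3/H614/AbelCalc.lean` (helper614@bc549c9f6, sha256 2e11bd46: the one-variable Abel
calculus `abelInv614`, `chD614`, `abel_unipotent`, `spherical_zero`).

## The route: NO polar Jacobian

`G = GL₂(ℂ)`, `K = U(2)`, `μ` any Haar measure of `G`.

* the test function is FORCED: `abelFn β h = abelInv614 (E_c) (chD614 h)`, `c = log |det h|`,
  `E_c(u) = β((c+u)/2, (c-u)/2)` (`sliceE`), i.e. `F₀(r, c) = -∂_u β̃(r, c) / (2π sinh r)`;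
* `AvgC` (K-AVERAGE): for `Ψ` of parameter `0` and `f` left `K`-invariant,
  `∫ Ψ(y h) f(h) dμ = Ψ(y) ∫ φ₀(h) f(h) dμ`, `φ₀ = sph0 ∘ chD614` (`d / sinh d`).
  Proof: `∫ Ψ(y h) f(h) dμ = ∫ (∫_K Ψ(y k h) dk) f(h) dμ` (left invariance of `μ`, `f(k h) = f(h)`,
  Fubini) and `∫_K Ψ(y k h) dk = φ₀(h) Ψ(y)`: Cartan decomposition `h = k₁ torus(d) z k₂`
  (`CartanC`), right invariance of the Haar measure of the compact group `K` (`UnitaryHaarC`) and
  the mean value property of `Ψ` at the points `y k`, averaged over `k ∈ K`.  The Haar measure of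
  `K` is NOT needed in Euler angles.
* `IwaC` (IWASAWA, abstract): `∫_G Φ dμ = c ∫_{ℝ²} ∫_ℂ Φ(diag(e^{s₁}, e^{s₂}) n(x)) dx ds` for `Φ`
  right `K`-invariant.  Proof: `P = {upper triangular, positive diagonal}`, `G = P K`,
  `P ∩ K = 1`; the image of `μ` under `G → P` is a left Haar measure of `P`; Lebesgue measure in
  the coordinates `(s, x) ↦ diag(e^{s₁}, e^{s₂}) n(x)` is a left Haar measure of `P` (left
  translations are shears: `MeasurePreserving.skew_product`); uniqueness of the Haar measure.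
* `CalcC` (CALCULUS): `∫_{ℝ²} ∫_ℂ φ₀ F = ∫ β`: `chD614 = cosh u + (e^u / 2) |x|²`, `u = s₁ - s₂`,
  `integral_complex_affine_sq614`, `φ₀(cosh r) sinh r = r`, Fubini in `(u, r)`,
  `spherical_zero` of helper614, `(u, c) ↦ ((c+u)/2, (c-u)/2)` has Jacobian `1/2`.
* `NIntC` : `abel_unipotent` of helper614 and `x ↦ x / c₂`.
* `RegC`, `SphContC` : regularity (joint continuity in `(c, chD)`, compact support).
-/

set_option autoImplicit false
set_option linter.style.haveILetI false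

open MeasureTheory
open Fermat.Agent.LT.H556.A0 Fermat.Agent.LT.T3.AS Fermat.Agent.LT.T3.H614

noncomputable section

namespace Fermat.Agent.LT.T3.H315

/-! ## Definitions -/

/-- `E_c(u) = β((c+u)/2, (c-u)/2)`: the restriction of `β` to the line `x + y = c`. -/
def sliceE (β : ℝ × ℝ → ℂ) (c u : ℝ) : ℂ := β ((c + u) / 2, (c - u) / 2)

/-- THE TEST FUNCTION `F(h) = F₀(d(h), log |det h|)`, `F₀(r, c) = -∂_u β̃(r, c) / (2π sinh r)`. -/
def abelFn (β : ℝ × ℝ → ℂ) (h : GL (Fin 2) ℂ) : ℂ :=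
  abelInv614 (sliceE β (Real.log ‖(h : Matrix (Fin 2) (Fin 2) ℂ).det‖))
    (chD614 (h : Matrix (Fin 2) (Fin 2) ℂ))

/-- The spherical function of parameter `0` on `ℍ³` as a function of `X = cosh d`:
`d / sinh d`. -/
def sph0 (X : ℝ) : ℝ := if X ≤ 1 then 1 else Real.arcosh X / Real.sqrt (X ^ 2 - 1)

/-- The unit `e^t` of `ℂ`. -/
def expU (t : ℝ) : ℂˣ := Units.mk0 ((Real.exp t : ℝ) : ℂ) (by exact_mod_cast (Real.exp_pos t).ne')

/-- THE IWASAWA CHART `(s, x) ↦ diag(e^{s₁}, e^{s₂}) n(x) = [[e^{s₁}, e^{s₁} x], [0, e^{s₂}]]`. -/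
def iwa (s : ℝ × ℝ) (x : ℂ) : GL (Fin 2) ℂ :=
  upperGL (expU s.1) (expU s.2) (((Real.exp s.1 : ℝ) : ℂ) * x)

theorem iwa_coe (s : ℝ × ℝ) (x : ℂ) :
    ((iwa s x : GL (Fin 2) ℂ) : Matrix (Fin 2) (Fin 2) ℂ)
      = !![((Real.exp s.1 : ℝ) : ℂ), ((Real.exp s.1 : ℝ) : ℂ) * x; 0, ((Real.exp s.2 : ℝ) : ℂ)] :=
  rfl

/-! ## The sub-leaves -/

/-- **AS.2.1 REG.**  The test function is continuous, of compact support, bi-`U(2)`-invariant. -/
def RegC : Prop := ∀ β : ℝ × ℝ → ℂ, IsSymBump β → IsCplxTest (abelFn β)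

/-- **AS.2.2 NINT.**  The `N`-integral of the test function is `β`. -/
def NIntC : Prop := ∀ β : ℝ × ℝ → ℂ, IsSymBump β → HasAbelN (abelFn β) β

/-- **AS.2.3 SPHCONT.**  `h ↦ φ₀(h) = d(h) / sinh d(h)` is continuous on `GL₂(ℂ)`. -/
def SphContC : Prop :=
  Continuous fun h : GL (Fin 2) ℂ => ((sph0 (chD614 (h : Matrix (Fin 2) (Fin 2) ℂ)) : ℝ) : ℂ)

/-- **AS.2.4 AVG (K-average).**  For every Haar measure, every `Ψ` of parameter `0` and every
continuous `f` of compact support which is LEFT invariant under `U(2)`: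
`∫ Ψ(y h) f(h) dμ(h) = Ψ(y) ∫ φ₀(h) f(h) dμ(h)`. -/
def AvgC : Prop :=
  letI : MeasurableSpace (GL (Fin 2) ℂ) := borel (GL (Fin 2) ℂ)
  ∀ μ : Measure (GL (Fin 2) ℂ), μ.IsHaarMeasure →
  ∀ Ψ : GL (Fin 2) ℂ → ℂ, IsLocSph0 Ψ →
  ∀ f : GL (Fin 2) ℂ → ℂ, Continuous f → HasCompactSupport f →
    (∀ k h : GL (Fin 2) ℂ, IsUnitary2 k → f (k * h) = f h) →
    ∀ y : GL (Fin 2) ℂ, ∫ h, Ψ (y * h) * f h ∂μ
      = Ψ y * ∫ h, ((sph0 (chD614 (h : Matrix (Fin 2) (Fin 2) ℂ)) : ℝ) : ℂ) * f h ∂μ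

/-- **AS.2.5 IWA (Iwasawa integration formula, abstract form).**  There is a Haar measure `μ` of
`GL₂(ℂ)` and `c > 0` with `∫ Φ dμ = c ∫_{ℝ²} ∫_ℂ Φ(diag(e^{s₁}, e^{s₂}) n(x)) dx ds` for every
continuous `Φ` of compact support which is RIGHT invariant under `U(2)`. -/
def IwaC : Prop :=
  letI : MeasurableSpace (GL (Fin 2) ℂ) := borel (GL (Fin 2) ℂ)
  ∃ μ : Measure (GL (Fin 2) ℂ), μ.IsHaarMeasure ∧ ∃ c : ℝ, 0 < c ∧
    ∀ Φ : GL (Fin 2) ℂ → ℂ, Continuous Φ → HasCompactSupport Φ →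
      (∀ k h : GL (Fin 2) ℂ, IsUnitary2 k → Φ (h * k) = Φ h) →
      ∫ h, Φ h ∂μ = (c : ℂ) * ∫ s : ℝ × ℝ, ∫ x : ℂ, Φ (iwa s x)

/-- **AS.2.6 CALC.**  `∫_{ℝ²} ∫_ℂ φ₀(b) F(b) dx ds = ∫_{ℝ²} β`, `b = diag(e^{s₁}, e^{s₂}) n(x)`. -/
def CalcC : Prop :=
  ∀ β : ℝ × ℝ → ℂ, IsSymBump β →
    ∫ s : ℝ × ℝ, ∫ x : ℂ,
        ((sph0 (chD614 ((iwa s x : GL (Fin 2) ℂ) : Matrix (Fin 2) (Fin 2) ℂ)) : ℝ) : ℂ)
          * abelFn β (iwa s x)
      = ∫ p : ℝ × ℝ, β p

/-! ### The cut of AVG -/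

/-- **AS.2.4a CARTAN** (singular values of a `2 × 2` matrix).  Every `h ∈ GL₂(ℂ)` is
`k₁ · torus(d) · (r · 1) · k₂` with `k₁, k₂ ∈ U(2)`, `r > 0`, `d ≥ 0`, `cosh d = chD614 h`. -/
def CartanC : Prop :=
  ∀ h : GL (Fin 2) ℂ, ∃ (k₁ k₂ t z : GL (Fin 2) ℂ) (d r : ℝ), IsUnitary2 k₁ ∧ IsUnitary2 k₂ ∧
    0 ≤ d ∧ 0 < r ∧ Real.cosh d = chD614 (h : Matrix (Fin 2) (Fin 2) ℂ) ∧
    (t : Matrix (Fin 2) (Fin 2) ℂ) = torus d ∧
    (z : Matrix (Fin 2) (Fin 2) ℂ) = Matrix.diagonal (fun _ => (r : ℂ)) ∧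
    h = k₁ * t * z * k₂

/-- **AS.2.4b UHAAR** (the Haar measure of the compact group `U(2)`, as a measure on `GL₂(ℂ)`).
`U(2)` is compact in `GL₂(ℂ)` and there is a probability measure on `GL₂(ℂ)`, carried by `U(2)`,
invariant under left and right translations by `U(2)`. -/
def UnitaryHaarC : Prop :=
  letI : MeasurableSpace (GL (Fin 2) ℂ) := borel (GL (Fin 2) ℂ)
  IsCompact {k : GL (Fin 2) ℂ | IsUnitary2 k} ∧
  ∃ m : Measure (GL (Fin 2) ℂ), IsProbabilityMeasure m ∧
    (∀ᵐ k ∂m, IsUnitary2 k) ∧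
    ∀ k₀ : GL (Fin 2) ℂ, IsUnitary2 k₀ →
      Measure.map (fun k => k₀ * k) m = m ∧ Measure.map (fun k => k * k₀) m = m

/-- **AS.2.4c AVGCORE.**  `CartanC → UnitaryHaarC → AvgC`. -/
def AvgCoreC : Prop := CartanC → UnitaryHaarC → AvgC

/-! ## The top (PROVED) -/

theorem isUnitary2_one315 : IsUnitary2 (1 : GL (Fin 2) ℂ) := by
  unfold IsUnitary2
  simp

/-- **THE TOP of AS.2**: the frozen Prop `AS.AbelCplxC` from the six sub-leaves. -/
theorem abelCplx_of315 (hreg : RegC) (hn : _root_.Fermat.Agent.LT.T3.H315.NIntC) (hs : SphContC) (ha : AvgC) (hi : IwaC)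
    (hc : CalcC) : AbelCplxC := by
  letI : MeasurableSpace (GL (Fin 2) ℂ) := borel (GL (Fin 2) ℂ)
  obtain ⟨μ, hμ, c, hc0, hiwa⟩ := hi
  refine ⟨μ, hμ, (c : ℂ), by exact_mod_cast hc0.ne', ?_⟩
  intro β hβ
  have hF := hreg β hβ
  refine ⟨abelFn β, hF, hn β hβ, ?_⟩
  intro Ψ hΨ y
  have hleft : ∀ k h : GL (Fin 2) ℂ, IsUnitary2 k → abelFn β (k * h) = abelFn β h := by
    intro k h hk
    have := hF.bi_inv k 1 h hk isUnitary2_one315
    simpa using this
  have hright : ∀ k h : GL (Fin 2) ℂ, IsUnitary2 k → abelFn β (h * k) = abelFn β h := by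
    intro k h hk
    have := hF.bi_inv 1 k h isUnitary2_one315 hk
    simpa using this
  rw [ha μ hμ Ψ hΨ (abelFn β) hF.cont hF.supp hleft y]
  have hΦc : Continuous fun h : GL (Fin 2) ℂ =>
      ((sph0 (chD614 (h : Matrix (Fin 2) (Fin 2) ℂ)) : ℝ) : ℂ) * abelFn β h := hs.mul hF.cont
  have hΦs : HasCompactSupport fun h : GL (Fin 2) ℂ =>
      ((sph0 (chD614 (h : Matrix (Fin 2) (Fin 2) ℂ)) : ℝ) : ℂ) * abelFn β h :=
    hF.supp.mul_left
  have hΦk : ∀ k h : GL (Fin 2) ℂ, IsUnitary2 k →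
      ((sph0 (chD614 ((h * k : GL (Fin 2) ℂ) : Matrix (Fin 2) (Fin 2) ℂ)) : ℝ) : ℂ)
          * abelFn β (h * k)
        = ((sph0 (chD614 (h : Matrix (Fin 2) (Fin 2) ℂ)) : ℝ) : ℂ) * abelFn β h := by
    intro k h hk
    have hk' : (k : Matrix (Fin 2) (Fin 2) ℂ) * (k : Matrix (Fin 2) (Fin 2) ℂ).conjTranspose = 1 :=
      hk
    rw [hright k h hk, Units.val_mul, chD614_mul_unitary_right _ _ hk']
  have hΦ : ∫ h, ((sph0 (chD614 (h : Matrix (Fin 2) (Fin 2) ℂ)) : ℝ) : ℂ) * abelFn β h ∂μ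
      = (c : ℂ) * ∫ p : ℝ × ℝ, β p := by
    rw [hiwa (fun h : GL (Fin 2) ℂ =>
      ((sph0 (chD614 (h : Matrix (Fin 2) (Fin 2) ℂ)) : ℝ) : ℂ) * abelFn β h) hΦc hΦs hΦk,
      hc β hβ]
  rw [hΦ]
  ring

/-- `AvgC` from its cut. -/
theorem avg_of315 (h1 : CartanC) (h2 : UnitaryHaarC) (h3 : AvgCoreC) : AvgC := h3 h1 h2

end Fermat.Agent.LT.T3.H315

end

end
-- ===== PACK-END LT/T3/H315/AbelCut.lean

-- ===== PACK-BEGIN LT/T3/H465/EKIdeal.lean
section





/-!
# Row LT, tower T3, leaf T3.14 (`EKIdealC`), part 3: the leaf (helper465), OFF-MAIN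

`ekIdealC_of465 : (local compactness, Hausdorff, second countability of 𝔸_K and GL₂(𝔸_K)) →
  (finiteness of K ∩ C for compact C ⊂ 𝔸_K) → T3.EKIdealC K`.

Proof.  `(f₁ ⋆ f)(g⁻¹ n(x) γʲ g') = ∫ f₁(y) f((g y)⁻¹ n(x) γʲ g') dy` and, by left invariance,
`(f ⋆ f₁)(g⁻¹ n(x) γʲ g') = ∫ f₁(u⁻¹) f(g⁻¹ n(x) γʲ (g' u)) du`; both are instances of the mixed
sum `hasSum_mix465`, which is Fubini + the EK property of `f` at the points `(a(y), b(y))` + the
finiteness of the set of exponents `j` that contribute (if `α` has infinite order) resp. the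
vanishing of every term (if `α` is a root of unity).
-/

set_option autoImplicit false
set_option linter.style.haveILetI false

open IsDedekindDomain NumberField MeasureTheory Filter
open Fermat.Agent.LT.H556.A0
open scoped Pointwise

noncomputable section

namespace Fermat.Agent.LT.T3.H465

open Fermat.Agent.LT.T3

variable {K : Type} [Field K] [NumberField K]

/-- The inner integral over `x`. -/
def innerS465 {m : MeasurableSpace (Adl K)} (ν : Measure (Adl K)) (f : G K → ℂ)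
    (a b : G K → G K) (γ : G K) (y : G K) : ℂ :=
  ∫ x, f ((a y)⁻¹ * unip K x * γ * b y) ∂ν

/-- If `α` is a root of unity, every term of the EK sum vanishes. -/
theorem term_eq_zero_of_finOrder465 {m : MeasurableSpace (Adl K)} {ν : Measure (Adl K)}
    {f : G K → ℂ} {α : Kˣ} (hEK : IsEK K ν f α) (hα : IsOfFinOrder α) (g g' : G K) (j : ℤ) :
    ∫ x, f (g⁻¹ * unip K x * torK K α ^ j * g') ∂ν = 0 := by
  obtain ⟨n, hn, hαn⟩ := isOfFinOrder_iff_pow_eq_one.mp hα
  have hs := (hEK g g').summable.tendsto_cofinite_zero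
  have hinj : Function.Injective (fun k : ℕ => j + (n : ℤ) * (k : ℤ)) := by
    intro k k' h
    have h1 : (n : ℤ) * (k : ℤ) = (n : ℤ) * (k' : ℤ) := by
      have := h
      simp only at this
      linarith
    have hn0 : (n : ℤ) ≠ 0 := by exact_mod_cast hn.ne'
    exact_mod_cast mul_left_cancel₀ hn0 h1
  have h2 := hs.comp hinj.tendsto_cofinite
  have hpow : ∀ k : ℕ, torK K α ^ (j + (n : ℤ) * (k : ℤ)) = torK K α ^ j := by
    intro k
    have h1 : α ^ ((n : ℤ) * (k : ℤ)) = 1 := by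
      rw [zpow_mul, zpow_natCast, zpow_natCast, hαn, one_pow]
    rw [zpow_add, zpow_mul]
    have h2 : (torK K α ^ (n : ℤ)) ^ (k : ℤ) = 1 := by
      rw [← zpow_mul, torK_zpow465, h1, torK_one465]
    rw [h2, mul_one]
  have h3 : Tendsto (fun _ : ℕ => ∫ x, f (g⁻¹ * unip K x * torK K α ^ j * g') ∂ν) cofinite
      (nhds 0) := by
    refine h2.congr (fun k => ?_)
    simp only [Function.comp_def, hpow k]
  exact tendsto_nhds_unique tendsto_const_nhds h3

section core

set_option linter.unusedSectionVars false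

variable [MeasurableSpace (Adl K)] [BorelSpace (Adl K)] [MeasurableSpace (G K)]
  [BorelSpace (G K)] [LocallyCompactSpace (Adl K)] [T2Space (Adl K)]
  [SecondCountableTopology (Adl K)] [LocallyCompactSpace (G K)] [T2Space (G K)]
  [SecondCountableTopology (G K)]

theorem integrable_mix465 (μ : Measure (G K)) [μ.IsHaarMeasure] (ν : Measure (Adl K))
    [ν.IsAddHaarMeasure] {f w : G K → ℂ} {a b : G K → G K} (hf : Continuous f)
    (hfc : HasCompactSupport f) (hw : Continuous w) (hwc : HasCompactSupport w)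
    (ha : Continuous a) (hb : Continuous b) (γ : G K) :
    Integrable (mix465 f w a b γ) (ν.prod μ) :=
  (continuous_mix465 hf hw ha hb γ).integrable_of_hasCompactSupport
    (hasCompactSupport_mix465 hfc hwc ha hb γ)

theorem swap_mix465 (μ : Measure (G K)) [μ.IsHaarMeasure] (ν : Measure (Adl K))
    [ν.IsAddHaarMeasure] {f w : G K → ℂ} {a b : G K → G K} (hf : Continuous f)
    (hfc : HasCompactSupport f) (hw : Continuous w) (hwc : HasCompactSupport w)
    (ha : Continuous a) (hb : Continuous b) (γ : G K) :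
    ∫ x, ∫ y, mix465 f w a b γ (x, y) ∂μ ∂ν = ∫ y, w y * innerS465 ν f a b γ y ∂μ := by
  have hint := integrable_mix465 μ ν hf hfc hw hwc ha hb γ
  have h := integral_integral_swap (f := fun x y => mix465 f w a b γ (x, y)) hint
  rw [h]
  refine integral_congr_ae (Eventually.of_forall fun y => ?_)
  simp only [mix465, innerS465]
  exact integral_const_mul _ _

theorem integrable_inner465 (μ : Measure (G K)) [μ.IsHaarMeasure] (ν : Measure (Adl K))
    [ν.IsAddHaarMeasure] {f w : G K → ℂ} {a b : G K → G K} (hf : Continuous f)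
    (hfc : HasCompactSupport f) (hw : Continuous w) (hwc : HasCompactSupport w)
    (ha : Continuous a) (hb : Continuous b) (γ : G K) :
    Integrable (fun y => w y * innerS465 ν f a b γ y) μ := by
  have hint := (integrable_mix465 μ ν hf hfc hw hwc ha hb γ).integral_prod_right
  refine hint.congr (Eventually.of_forall fun y => ?_)
  simp only [mix465, innerS465]
  exact integral_const_mul _ _

/-- **The mixed EK sum vanishes.** -/
theorem hasSum_mix465
    (hfin : ∀ C₁ : Set (Adl K), IsCompact C₁ → {ξ : K | emb K ξ ∈ C₁}.Finite)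
    (μ : Measure (G K)) [μ.IsHaarMeasure] (ν : Measure (Adl K)) [ν.IsAddHaarMeasure]
    {α : Kˣ} {f : G K → ℂ} (hf : Continuous f) (hfc : HasCompactSupport f)
    (hEK : IsEK K ν f α) {w : G K → ℂ} (hw : Continuous w) (hwc : HasCompactSupport w)
    {a b : G K → G K} (ha : Continuous a) (hb : Continuous b) :
    HasSum (fun j : ℤ => ∫ x, ∫ y, mix465 f w a b (torK K α ^ j) (x, y) ∂μ ∂ν) 0 := by
  have hterm : (fun j : ℤ => ∫ x, ∫ y, mix465 f w a b (torK K α ^ j) (x, y) ∂μ ∂ν)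
      = fun j : ℤ => ∫ y, w y * innerS465 ν f a b (torK K α ^ j) y ∂μ := by
    funext j
    exact swap_mix465 μ ν hf hfc hw hwc ha hb _
  rw [hterm]
  have hpt : ∀ y, HasSum (fun j : ℤ => innerS465 ν f a b (torK K α ^ j) y) 0 :=
    fun y => hEK (a y) (b y)
  obtain ⟨J, hJ⟩ : ∃ J : Finset ℤ, ∀ j ∉ J, ∀ y, w y ≠ 0 →
      innerS465 ν f a b (torK K α ^ j) y = 0 := by
    by_cases hα : IsOfFinOrder α
    · exact ⟨∅, fun j _ y _ => term_eq_zero_of_finOrder465 hEK hα (a y) (b y) j⟩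
    · have hfinJ := finite_exponents465 hfin hα (isCompact_mixSet465 hfc hwc ha hb)
      refine ⟨hfinJ.toFinset, fun j hj y hwy => ?_⟩
      have hj' : ¬ ∃ x, unip K x * torK K α ^ j ∈ mixSet465 f w a b := by
        simpa using hj
      have h0 : ∀ x, f ((a y)⁻¹ * unip K x * torK K α ^ j * b y) = 0 := by
        intro x
        by_contra h
        exact hj' ⟨x, mem_mixSet465 hwy h⟩
      simp only [innerS465, h0, integral_zero]
  have hzero : ∀ j ∉ J, ∫ y, w y * innerS465 ν f a b (torK K α ^ j) y ∂μ = 0 := by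
    intro j hj
    have h0 : ∀ y, w y * innerS465 ν f a b (torK K α ^ j) y = 0 := by
      intro y
      by_cases hwy : w y = 0
      · rw [hwy, zero_mul]
      · rw [hJ j hj y hwy, mul_zero]
    simp only [h0, integral_zero]
  have hsum : HasSum (fun j : ℤ => ∫ y, w y * innerS465 ν f a b (torK K α ^ j) y ∂μ)
      (∑ j ∈ J, ∫ y, w y * innerS465 ν f a b (torK K α ^ j) y ∂μ) :=
    hasSum_sum_of_ne_finset_zero hzero
  have hfinsum : ∑ j ∈ J, ∫ y, w y * innerS465 ν f a b (torK K α ^ j) y ∂μ = 0 := by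
    rw [← integral_finsetSum J
      (fun j _ => integrable_inner465 μ ν hf hfc hw hwc ha hb (torK K α ^ j))]
    have h0 : ∀ y, ∑ j ∈ J, w y * innerS465 ν f a b (torK K α ^ j) y = 0 := by
      intro y
      rw [← Finset.mul_sum]
      by_cases hwy : w y = 0
      · rw [hwy, zero_mul]
      · have h1 : HasSum (fun j : ℤ => innerS465 ν f a b (torK K α ^ j) y)
            (∑ j ∈ J, innerS465 ν f a b (torK K α ^ j) y) :=
          hasSum_sum_of_ne_finset_zero (fun j hj => hJ j hj y hwy)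
        rw [h1.unique (hpt y), mul_zero]
    simp only [h0, integral_zero]
  rwa [hfinsum] at hsum

/-- `f₁ ⋆ f` is EK. -/
theorem isEK_conv_right465
    (hfin : ∀ C₁ : Set (Adl K), IsCompact C₁ → {ξ : K | emb K ξ ∈ C₁}.Finite)
    (μ : Measure (G K)) [μ.IsHaarMeasure] (ν : Measure (Adl K)) [ν.IsAddHaarMeasure]
    {α : Kˣ} {f : G K → ℂ} (hf : Continuous f) (hfc : HasCompactSupport f)
    (hEK : IsEK K ν f α) {f₁ : G K → ℂ} (hf₁ : Continuous f₁) (hf₁c : HasCompactSupport f₁) :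
    IsEK K ν (convG K μ f₁ f) α := by
  intro g g'
  have h := hasSum_mix465 hfin μ ν hf hfc hEK hf₁ hf₁c (a := fun y => g * y)
    (b := fun _ => g') (continuous_const.mul continuous_id) continuous_const
  have he : (fun j : ℤ => ∫ x, convG K μ f₁ f (g⁻¹ * unip K x * torK K α ^ j * g') ∂ν)
      = fun j : ℤ => ∫ x, ∫ y, mix465 f f₁ (fun y => g * y) (fun _ => g')
          (torK K α ^ j) (x, y) ∂μ ∂ν := by
    funext j
    refine integral_congr_ae (Eventually.of_forall fun x => ?_)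
    simp only [convG, mix465]
    refine integral_congr_ae (Eventually.of_forall fun y => ?_)
    simp only [mul_inv_rev, mul_assoc]
  rw [he]
  exact h

/-- `f ⋆ f₁` is EK. -/
theorem isEK_conv_left465
    (hfin : ∀ C₁ : Set (Adl K), IsCompact C₁ → {ξ : K | emb K ξ ∈ C₁}.Finite)
    (μ : Measure (G K)) [μ.IsHaarMeasure] (ν : Measure (Adl K)) [ν.IsAddHaarMeasure]
    {α : Kˣ} {f : G K → ℂ} (hf : Continuous f) (hfc : HasCompactSupport f)
    (hEK : IsEK K ν f α) {f₁ : G K → ℂ} (hf₁ : Continuous f₁) (hf₁c : HasCompactSupport f₁) :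
    IsEK K ν (convG K μ f f₁) α := by
  intro g g'
  have hw : Continuous (fun u : G K => f₁ u⁻¹) := hf₁.comp continuous_inv
  have hwc : HasCompactSupport (fun u : G K => f₁ u⁻¹) :=
    hf₁c.comp_isClosedEmbedding (Homeomorph.inv (G K)).isClosedEmbedding
  have h := hasSum_mix465 hfin μ ν hf hfc hEK hw hwc (a := fun _ => g)
    (b := fun u => g' * u) continuous_const (continuous_const.mul continuous_id)
  have he : (fun j : ℤ => ∫ x, convG K μ f f₁ (g⁻¹ * unip K x * torK K α ^ j * g') ∂ν)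
      = fun j : ℤ => ∫ x, ∫ y, mix465 f (fun u : G K => f₁ u⁻¹) (fun _ => g)
          (fun u => g' * u) (torK K α ^ j) (x, y) ∂μ ∂ν := by
    funext j
    refine integral_congr_ae (Eventually.of_forall fun x => ?_)
    simp only [convG, mix465]
    rw [← integral_mul_left_eq_self
      (fun y => f y * f₁ (y⁻¹ * (g⁻¹ * unip K x * torK K α ^ j * g')))
      (g⁻¹ * unip K x * torK K α ^ j * g')]
    refine integral_congr_ae (Eventually.of_forall fun u => ?_)
    simp only [mul_inv_rev, mul_assoc, inv_mul_cancel_left, inv_mul_cancel, mul_one]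
    rw [mul_comm]
  rw [he]
  exact h

end core

/-- **T3.14** from local compactness etc. and the finiteness of `K ∩ C`. -/
theorem ekIdealC_of465
    (hA : LocallyCompactSpace (Adl K) ∧ T2Space (Adl K) ∧ SecondCountableTopology (Adl K))
    (hG : LocallyCompactSpace (G K) ∧ T2Space (G K) ∧ SecondCountableTopology (G K))
    (hfin : ∀ C₁ : Set (Adl K), IsCompact C₁ → {ξ : K | emb K ξ ∈ C₁}.Finite) :
    EKIdealC K := by
  obtain ⟨hA1, hA2, hA3⟩ := hA
  obtain ⟨hG1, hG2, hG3⟩ := hG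
  letI : MeasurableSpace (Adl K) := borel (Adl K)
  haveI : BorelSpace (Adl K) := ⟨rfl⟩
  letI : MeasurableSpace (G K) := borel (G K)
  haveI : BorelSpace (G K) := ⟨rfl⟩
  intro μ hμ ν hν α f hf hfc hEK f₁ hf₁ hf₁c
  haveI := hμ
  haveI := hν
  exact ⟨isEK_conv_left465 hfin μ ν hf hfc hEK hf₁ hf₁c,
    isEK_conv_right465 hfin μ ν hf hfc hEK hf₁ hf₁c⟩

end Fermat.Agent.LT.T3.H465

end

end
-- ===== PACK-END LT/T3/H465/EKIdeal.lean

-- ===== PACK-BEGIN LT/T3/H57/ROpTop.lean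
section





/-!
# Row LT, tower T3, station T3.18a, leaf AS.5 `ROpC` (helper57, OFF-MAIN): topology

* `secondCountable_GL2C57`, `locallyCompact_GL2C57` : `GL₂(ℂ)` (units topology);
* `integers_subset_closure57` : `𝓞 K` is dense in `𝒪_v`;
* `idealClosure_subset57`, `mul_mem_idealClosure57`, `isOpen_idealClosure57`,
  `idealClosure_eq57` (`v ∤ 𝔫`), `finite_bad57`;
* `isOpen_inU057` : the subgroup `G_∞ × U(𝔫)_f` of `GL₂(𝔸_K)` is open.
-/

set_option autoImplicit false

open IsDedekindDomain NumberField Topology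
open Fermat.Agent.LT.H556.A0
open Fermat.Agent.LT.T1.H724 Fermat.Agent.LT.T1.H793
open scoped RestrictedProduct

noncomputable section

namespace Fermat.Agent.LT.T3.H57

/-! ## `GL₂(ℂ)` -/

theorem secondCountable_mat57 : SecondCountableTopology (Matrix (Fin 2) (Fin 2) ℂ) :=
  inferInstanceAs (SecondCountableTopology (Fin 2 → Fin 2 → ℂ))

theorem locallyCompact_mat57 : LocallyCompactSpace (Matrix (Fin 2) (Fin 2) ℂ) :=
  inferInstanceAs (LocallyCompactSpace (Fin 2 → Fin 2 → ℂ))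

theorem secondCountable_GL2C57 : SecondCountableTopology (GL (Fin 2) ℂ) := by
  have := secondCountable_mat57
  have : SecondCountableTopology (Matrix (Fin 2) (Fin 2) ℂ)ᵐᵒᵖ :=
    MulOpposite.opHomeomorph.symm.secondCountableTopology
  exact (Units.isEmbedding_embedProduct (M := Matrix (Fin 2) (Fin 2) ℂ)).secondCountableTopology

theorem locallyCompact_GL2C57 : LocallyCompactSpace (GL (Fin 2) ℂ) := by
  have := locallyCompact_mat57
  exact (Units.isClosedEmbedding_embedProduct (α := Matrix (Fin 2) (Fin 2) ℂ)).locallyCompactSpace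

/-! ## The closure of an ideal in a completion -/

variable {K : Type} [Field K] [NumberField K]

theorem exists_ball57 (v : HeightOneSpectrum (𝓞 K)) (x : v.adicCompletion K)
    (s : Set (v.adicCompletion K)) (hs : s ∈ 𝓝 x) :
    ∃ (γ : WithZero (Multiplicative ℤ)) (B : Set (v.adicCompletion K)), γ ≠ 0 ∧ B ∈ 𝓝 x ∧
      B ⊆ s ∧ ∀ y, y ∈ B ↔ Valued.v (y - x) < γ := by
  have hs' := hs
  rw [Valued.mem_nhds] at hs'
  obtain ⟨γ, hγ⟩ := hs'
  refine ⟨MonoidWithZeroHom.ValueGroup₀.embedding γ.1,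
    {y | Valued.v.restrict (y - x) < γ.1}, ?_, ?_, hγ, ?_⟩
  · exact (map_ne_zero _).2 γ.ne_zero
  · rw [Valued.mem_nhds]
    exact ⟨γ, subset_rfl⟩
  · intro y
    exact Valuation.restrict_lt_iff_lt_embedding _

/-- `𝓞 K` is dense in `𝒪_v`. -/
theorem integers_subset_closure57 (v : HeightOneSpectrum (𝓞 K)) :
    (v.adicCompletionIntegers K : Set (v.adicCompletion K))
      ⊆ closure (Set.range fun r : 𝓞 K =>
          algebraMap K (v.adicCompletion K) (algebraMap (𝓞 K) K r)) := by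
  intro x hx
  rw [mem_closure_iff_nhds]
  intro t ht
  have hO : (v.adicCompletionIntegers K : Set (v.adicCompletion K)) ∈ 𝓝 x :=
    (Valued.isOpen_valuationSubring _).mem_nhds hx
  obtain ⟨γ, B, hγ, hB, hBs, hBiff⟩ := exists_ball57 v x _ (Filter.inter_mem ht hO)
  have hd := HeightOneSpectrum.denseRange_algebraMap K v x
  rw [mem_closure_iff_nhds] at hd
  obtain ⟨_, hkB, k, rfl⟩ := hd B hB
  have hkO : algebraMap K (v.adicCompletion K) k ∈ v.adicCompletionIntegers K := (hBs hkB).2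
  have hk1 : v.valuation K k ≤ 1 := by
    rw [← val_algebraMap724]
    exact hkO
  obtain ⟨a, ha⟩ := v.exists_valuation_sub_lt_of_integer hk1 (Units.mk0 γ hγ)
  have ha' : Valued.v (algebraMap K (v.adicCompletion K) (algebraMap (𝓞 K) K a - k)) < γ := by
    rw [val_algebraMap724]
    exact ha
  have hkx : Valued.v (algebraMap K (v.adicCompletion K) k - x) < γ := (hBiff _).1 hkB
  refine ⟨algebraMap K (v.adicCompletion K) (algebraMap (𝓞 K) K a), ?_, a, rfl⟩
  refine (hBs ((hBiff _).2 ?_)).1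
  have e : algebraMap K (v.adicCompletion K) (algebraMap (𝓞 K) K a) - x
      = algebraMap K (v.adicCompletion K) (algebraMap (𝓞 K) K a - k)
        + (algebraMap K (v.adicCompletion K) k - x) := by
    rw [map_sub]; ring
  rw [e]
  exact lt_of_le_of_lt (Valuation.map_add _ _ _) (max_lt ha' hkx)

theorem idealClosure_subset57 (𝔫 : Ideal (𝓞 K)) (v : HeightOneSpectrum (𝓞 K)) :
    idealClosure 𝔫 v ⊆ (v.adicCompletionIntegers K : Set (v.adicCompletion K)) := by
  refine closure_minimal ?_ (Valued.isClosed_valuationSubring _)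
  rintro _ ⟨r, _, rfl⟩
  exact val_int_le_one724 v r

theorem zero_mem_idealClosure57 (𝔫 : Ideal (𝓞 K)) (v : HeightOneSpectrum (𝓞 K)) :
    (0 : v.adicCompletion K) ∈ idealClosure 𝔫 v :=
  subset_closure ⟨0, 𝔫.zero_mem, by simp⟩

theorem add_mem_idealClosure57 (𝔫 : Ideal (𝓞 K)) (v : HeightOneSpectrum (𝓞 K))
    {x y : v.adicCompletion K} (hx : x ∈ idealClosure 𝔫 v) (hy : y ∈ idealClosure 𝔫 v) :
    x + y ∈ idealClosure 𝔫 v := by
  have h : Continuous fun p : v.adicCompletion K × v.adicCompletion K => p.1 + p.2 :=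
    continuous_add
  refine map_mem_closure₂ h hx hy ?_
  rintro _ ⟨a, ha, rfl⟩ _ ⟨b, hb, rfl⟩
  exact ⟨a + b, 𝔫.add_mem ha hb, by simp⟩

/-- `a 𝒪_v ⊆ closure of 𝔫` for `a ∈ 𝔫`. -/
theorem mul_mem_idealClosure57 (𝔫 : Ideal (𝓞 K)) (v : HeightOneSpectrum (𝓞 K)) {a : 𝓞 K}
    (ha : a ∈ 𝔫) {x : v.adicCompletion K} (hx : x ∈ v.adicCompletionIntegers K) :
    algebraMap K (v.adicCompletion K) (algebraMap (𝓞 K) K a) * x ∈ idealClosure 𝔫 v := by
  have hc : Continuous fun y : v.adicCompletion K =>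
      algebraMap K (v.adicCompletion K) (algebraMap (𝓞 K) K a) * y := continuous_const.mul continuous_id
  refine map_mem_closure hc (integers_subset_closure57 v hx) ?_
  rintro _ ⟨r, rfl⟩
  exact ⟨a * r, 𝔫.mul_mem_right r ha, by simp⟩

/-- `v ∤ 𝔫`: the closure of `𝔫` is `𝒪_v`. -/
theorem idealClosure_eq57 (𝔫 : Ideal (𝓞 K)) (v : HeightOneSpectrum (𝓞 K))
    (hv : ¬ v.asIdeal ∣ 𝔫) :
    idealClosure 𝔫 v = (v.adicCompletionIntegers K : Set (v.adicCompletion K)) := by
  refine Set.Subset.antisymm (idealClosure_subset57 𝔫 v) ?_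
  intro x hx
  have hle : ¬ 𝔫 ≤ v.asIdeal := fun h => hv (Ideal.dvd_iff_le.2 h)
  obtain ⟨a, ha, hav⟩ := Set.not_subset.1 hle
  set a' : v.adicCompletion K := algebraMap K (v.adicCompletion K) (algebraMap (𝓞 K) K a) with ha'
  have hval : Valued.v a' = 1 := by
    have h1 : Valued.v a' ≤ 1 := val_int_le_one724 v a
    have h2 : ¬ Valued.v a' < 1 := fun h => hav ((val_int_lt_one_iff724 v a).1 h)
    exact le_antisymm h1 (not_lt.1 h2)
  have hne : a' ≠ 0 := by
    intro h0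
    rw [h0, map_zero] at hval
    exact zero_ne_one hval
  have hx' : a'⁻¹ * x ∈ v.adicCompletionIntegers K := by
    change Valued.v (a'⁻¹ * x) ≤ 1
    rw [map_mul, map_inv₀, hval, inv_one, one_mul]
    exact hx
  have := mul_mem_idealClosure57 𝔫 v ha hx'
  rwa [← ha', mul_inv_cancel_left₀ hne] at this

/-- The closure of a nonzero ideal is open. -/
theorem isOpen_idealClosure57 (𝔫 : Ideal (𝓞 K)) (h𝔫 : 𝔫 ≠ ⊥) (v : HeightOneSpectrum (𝓞 K)) :
    IsOpen (idealClosure 𝔫 v) := by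
  obtain ⟨a, ha, ha0⟩ := Submodule.exists_mem_ne_zero_of_ne_bot h𝔫
  set a' : v.adicCompletion K := algebraMap K (v.adicCompletion K) (algebraMap (𝓞 K) K a) with ha'
  have hne : a' ≠ 0 := by
    rw [ha', ← IsScalarTower.algebraMap_apply]
    intro h0
    have hinj : Function.Injective (algebraMap (𝓞 K) (v.adicCompletion K)) := by
      rw [IsScalarTower.algebraMap_eq (𝓞 K) K (v.adicCompletion K)]
      exact (algebraMap K (v.adicCompletion K)).injective.comp
        (IsFractionRing.injective (𝓞 K) K)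
    exact ha0 (hinj (by rw [h0, map_zero]))
  rw [isOpen_iff_mem_nhds]
  intro y hy
  have hopen : IsOpen {z : v.adicCompletion K | a'⁻¹ * (z - y) ∈ v.adicCompletionIntegers K} :=
    (Valued.isOpen_valuationSubring _).preimage
      (continuous_const.mul (continuous_id.sub continuous_const))
  refine Filter.mem_of_superset (hopen.mem_nhds ?_) ?_
  · change a'⁻¹ * (y - y) ∈ v.adicCompletionIntegers K
    rw [sub_self, mul_zero]
    exact zero_mem _
  · intro z hz
    have h1 := mul_mem_idealClosure57 𝔫 v ha hz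
    rw [← ha', mul_inv_cancel_left₀ hne] at h1
    have := add_mem_idealClosure57 𝔫 v h1 hy
    rwa [sub_add_cancel] at this

/-- For almost all `v` the closure of `𝔫` is `𝒪_v`. -/
theorem finite_bad57 (𝔫 : Ideal (𝓞 K)) (h𝔫 : 𝔫 ≠ ⊥) :
    {v : HeightOneSpectrum (𝓞 K) | v.asIdeal ∣ 𝔫}.Finite :=
  Ideal.finite_factors h𝔫

/-! ## The open subgroup `G_∞ × U(𝔫)_f` -/

/-- `x_v ∈ U(𝔫)_v` for every finite place `v`. -/
def InU057 (𝔫 : Ideal (𝓞 K)) (x : G K) : Prop :=
  ∀ (v : HeightOneSpectrum (𝓞 K)) (i j : Fin 2),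
    (finComp v x - 1) i j ∈ idealClosure 𝔫 v ∧ (finComp v x⁻¹ - 1) i j ∈ idealClosure 𝔫 v

/-- The adeles `a` with `a_v - δ ∈ closure of 𝔫` for all `v`. -/
def adlNbhd57 (𝔫 : Ideal (𝓞 K)) (δ : ℤ) : Set (Adl K) :=
  {a | ∀ v : HeightOneSpectrum (𝓞 K), a.2 v - (δ : v.adicCompletion K) ∈ idealClosure 𝔫 v}

theorem isOpen_adlNbhd57 (𝔫 : Ideal (𝓞 K)) (h𝔫 : 𝔫 ≠ ⊥) (δ : ℤ) :
    IsOpen (adlNbhd57 𝔫 δ : Set (Adl K)) := by
  classical
  have hfin := finite_bad57 𝔫 h𝔫
  have hδ : ∀ v : HeightOneSpectrum (𝓞 K),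
      ((δ : v.adicCompletion K)) ∈ v.adicCompletionIntegers K := fun v => by
    exact intCast_mem _ δ
  -- the finite adeles which are integral outside the bad set
  have h1 : IsOpen {f : FiniteAdeleRing (𝓞 K) K |
      ∀ v : HeightOneSpectrum (𝓞 K), ¬ v.asIdeal ∣ 𝔫 →
        f v ∈ (v.adicCompletionIntegers K : Set (v.adicCompletion K))} :=
    RestrictedProduct.isOpen_forall_imp_mem
      (fun v => Valued.isOpen_valuationSubring (v.adicCompletion K))
  have h2 : ∀ v : HeightOneSpectrum (𝓞 K), IsOpen {f : FiniteAdeleRing (𝓞 K) K |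
      f v - (δ : v.adicCompletion K) ∈ idealClosure 𝔫 v} := fun v =>
    (isOpen_idealClosure57 𝔫 h𝔫 v).preimage
      ((RestrictedProduct.continuous_eval v).sub continuous_const)
  have h3 : IsOpen (⋂ v ∈ {v : HeightOneSpectrum (𝓞 K) | v.asIdeal ∣ 𝔫},
      {f : FiniteAdeleRing (𝓞 K) K | f v - (δ : v.adicCompletion K) ∈ idealClosure 𝔫 v}) :=
    hfin.isOpen_biInter fun v _ => h2 v
  have hset : (adlNbhd57 𝔫 δ : Set (Adl K)) = Prod.snd ⁻¹'
      ({f : FiniteAdeleRing (𝓞 K) K | ∀ v : HeightOneSpectrum (𝓞 K), ¬ v.asIdeal ∣ 𝔫 →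
        f v ∈ (v.adicCompletionIntegers K : Set (v.adicCompletion K))} ∩
      ⋂ v ∈ {v : HeightOneSpectrum (𝓞 K) | v.asIdeal ∣ 𝔫},
      {f : FiniteAdeleRing (𝓞 K) K | f v - (δ : v.adicCompletion K) ∈ idealClosure 𝔫 v}) := by
    ext a
    constructor
    · intro h
      refine ⟨fun v _ => ?_, ?_⟩
      · have := sub_mem (idealClosure_subset57 𝔫 v (h v)) (neg_mem (hδ v))
        simpa using this
      · exact Set.mem_iInter₂.2 fun v _ => h v
    · rintro ⟨hA, hB⟩ v
      by_cases hv : v.asIdeal ∣ 𝔫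
      · exact Set.mem_iInter₂.1 hB v hv
      · rw [idealClosure_eq57 𝔫 v hv]
        exact sub_mem (hA v hv) (hδ v)
  rw [hset]
  exact (h1.inter h3).preimage continuous_snd

theorem one_apply_eq57 (v : HeightOneSpectrum (𝓞 K)) (i j : Fin 2) :
    (1 : Matrix (Fin 2) (Fin 2) (v.adicCompletion K)) i j
      = (((if i = j then 1 else 0 : ℤ)) : v.adicCompletion K) := by
  rw [Matrix.one_apply]
  split_ifs <;> simp

theorem inU0_iff57 (𝔫 : Ideal (𝓞 K)) (x : G K) :
    InU057 𝔫 x ↔ ∀ i j : Fin 2,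
      (x : Matrix (Fin 2) (Fin 2) (Adl K)) i j ∈ adlNbhd57 𝔫 (if i = j then 1 else 0) ∧
      ((x⁻¹ : G K) : Matrix (Fin 2) (Fin 2) (Adl K)) i j ∈ adlNbhd57 𝔫 (if i = j then 1 else 0) := by
  constructor
  · intro h i j
    refine ⟨fun v => ?_, fun v => ?_⟩
    · have := (h v i j).1
      rwa [Matrix.sub_apply, one_apply_eq57] at this
    · have := (h v i j).2
      rwa [Matrix.sub_apply, one_apply_eq57] at this
  · intro h v i j
    refine ⟨?_, ?_⟩
    · rw [Matrix.sub_apply, one_apply_eq57]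
      exact (h i j).1 v
    · rw [Matrix.sub_apply, one_apply_eq57]
      exact (h i j).2 v

/-- `G_∞ × U(𝔫)_f` is open in `GL₂(𝔸_K)`. -/
theorem isOpen_inU057 (𝔫 : Ideal (𝓞 K)) (h𝔫 : 𝔫 ≠ ⊥) : IsOpen {x : G K | InU057 𝔫 x} := by
  have hset : {x : G K | InU057 𝔫 x} = ⋂ i : Fin 2, ⋂ j : Fin 2,
      ((fun g : G K => (g : Matrix (Fin 2) (Fin 2) (Adl K)) i j) ⁻¹'
          adlNbhd57 𝔫 (if i = j then 1 else 0)) ∩
        ((fun g : G K => ((g⁻¹ : G K) : Matrix (Fin 2) (Fin 2) (Adl K)) i j) ⁻¹'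
          adlNbhd57 𝔫 (if i = j then 1 else 0)) := by
    ext x
    rw [Set.mem_iInter]
    constructor
    · intro h i
      rw [Set.mem_iInter]
      exact fun j => (inU0_iff57 𝔫 x).1 h i j
    · intro h
      refine (inU0_iff57 𝔫 x).2 fun i j => ?_
      exact Set.mem_iInter.1 (h i) j
  rw [hset]
  refine isOpen_iInter_of_finite fun i => isOpen_iInter_of_finite fun j => ?_
  exact ((isOpen_adlNbhd57 𝔫 h𝔫 _).preimage (continuous_entry793 i j)).inter
    ((isOpen_adlNbhd57 𝔫 h𝔫 _).preimage (continuous_entry_inv793 i j))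

end Fermat.Agent.LT.T3.H57

end

end
-- ===== PACK-END LT/T3/H57/ROpTop.lean

-- ===== PACK-BEGIN LT/T3/H893/EKKillA.lean
section




/-!
# Row LT, tower T3, leaf T3.11 (helper893): `EKKillC`, the common frame and the case of finite order

OFF-MAIN.
-/

set_option autoImplicit false
set_option linter.style.haveILetI false

open MeasureTheory NumberField
open scoped ENNReal
open Fermat.Agent.LT.H556.A0

noncomputable section

namespace Fermat.Agent.LT.T3.H893

variable (K : Type) [Field K] [NumberField K]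

/-- The frame of the proof: `R(f)Ψ(g) = ∫ Ψ(y) f(g⁻¹ y) dy`. -/
theorem rop_eq893 [MeasurableSpace (G K)] [BorelSpace (G K)] [SecondCountableTopology (G K)]
    (μ : Measure (G K)) [μ.IsMulLeftInvariant] (f Ψ : G K → ℂ) (g : G K) :
    Rop K μ f Ψ g = ∫ y, Ψ y * f (g⁻¹ * y) ∂μ := by
  have h := integral_mul_left_eq_self (μ := μ) (fun y => Ψ y * f (g⁻¹ * y)) g
  simp only [inv_mul_cancel_left] at h
  change ∫ h, Ψ (g * h) * f h ∂μ = ∫ y, Ψ y * f (g⁻¹ * y) ∂μ
  exact h

/-- **EK-kill, case of finite order** (only the invariance under `N(𝔸_K)` is used). -/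
theorem ekKill_finOrder893 [MeasurableSpace (Adl K)] [BorelSpace (Adl K)]
    [MeasurableSpace (G K)] [BorelSpace (G K)]
    [LocallyCompactSpace (Adl K)] [T2Space (Adl K)] [SecondCountableTopology (Adl K)]
    [LocallyCompactSpace (G K)] [T2Space (G K)] [SecondCountableTopology (G K)]
    (μ : Measure (G K)) [μ.IsHaarMeasure] (ν : Measure (Adl K)) [ν.IsAddHaarMeasure]
    (f : G K → ℂ) (hf : Continuous f) (hfc : HasCompactSupport f)
    (hvan : ∀ g g' : G K, ∫ x, f (g⁻¹ * unip K x * g') ∂ν = 0)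
    (Ψ : G K → ℂ) (hΨ : Continuous Ψ) (hΨN : ∀ (x : Adl K) (g : G K), Ψ (unip K x * g) = Ψ g)
    (g : G K) : Rop K μ f Ψ g = 0 := by
  rw [rop_eq893]
  set φ : G K → ℂ := fun y => f (g⁻¹ * y) with hφ
  have hφc : Continuous φ := hf.comp (continuous_const.mul continuous_id)
  have hφs : HasCompactSupport φ := hfc.comp_homeomorph (Homeomorph.mulLeft g⁻¹)
  -- the weight
  obtain ⟨ρ, hρ1, -, hρc, hρ01⟩ := exists_continuous_one_zero_of_isCompact
    (s := tsupport φ) (t := (∅ : Set (G K))) hφs isClosed_empty (Set.disjoint_empty _)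
  have hρpos : ∀ y, φ y ≠ 0 → 0 < ρ y := by
    intro y hy
    have := hρ1 (subset_tsupport φ hy)
    simp only [Pi.one_apply] at this
    rw [this]
    exact one_pos
  refine integral_eq_zero_of_orbital893 μ ν (unip K) (continuous_unip893 K).measurable φ Ψ
    hφc.measurable hΨ.measurable ?_ ρ ρ.continuous.measurable (fun y => (hρ01 y).1)
    (fun x y => hΨN x y) ?_ ?_ ?_ ?_
  · -- integrability
    refine (hΨ.mul hφc).integrable_of_hasCompactSupport ?_
    exact hφs.mul_left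
  · -- invariance of the orbital integral of the weight
    intro x y
    have h := lintegral_add_right_eq_self (μ := ν)
      (fun x' => ENNReal.ofReal (ρ (unip K x' * y))) x
    rw [← h]
    congr 1
    funext x'
    rw [unip_add893, mul_assoc]
  · intro y hy
    exact (lintegral_unip_pos893 K ν ρ ρ.continuous y (hρpos y hy)).ne'
  · intro y _
    exact (lintegral_unip_lt_top893 K ν ρ ρ.continuous hρc y).ne
  · intro y _
    simp only [hφ]
    have h := integral_neg_eq_self (fun x => f (g⁻¹ * (unip K x * y))) ν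
    simp only [unip_inv893]
    rw [h]
    have := hvan g y
    simpa only [mul_assoc] using this

end Fermat.Agent.LT.T3.H893

end

end
-- ===== PACK-END LT/T3/H893/EKKillA.lean

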