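import Mathlib
import Fermat.Agent.Pack.LT2.E5L2
import Fermat.Agent.Pack.LT2.E5L1
import Fermat.Agent.Pack.LT2.E6L2
import Fermat.Agent.Pack.LT2.E6L0
import Fermat.Agent.Pack.LT2.E6L1
import Fermat.Agent.Pack.L1.E1L2
import Fermat.Agent.Pack.LT2.E2L1
import Fermat.Agent.Pack.LT2.E0L2
import Fermat.Agent.Pack.LT2.E3L2
import Fermat.Agent.Pack.LT2.E0L1
import Fermat.Agent.Pack.LT2.E2L2
import Fermat.Agent.Pack.LT2.E0L3
import Fermat.Agent.Pack.LT2.E3L3
import Fermat.Agent.Pack.LT2.E3L1
import Fermat.Agent.Pack.L1B.E1L1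
import Fermat.Agent.Pack.L1B.E0L1
import Fermat.Agent.Pack.LT2.E6L3

set_option linter.all false

-- ===== PACK-BEGIN LT/H51/MS4B.lean
section



set_option autoImplicit false

open IsDedekindDomain NumberField
open scoped MatrixGroups Classical WithZero

noncomputable section

namespace Fermat.Agent.LT.H51.MS4

open Fermat.Agent.LT.H556.A0 Fermat.Agent.LT.T8.H864

variable {K : Type} [Field K] [NumberField K]

theorem algebraMap_eq_coe (v : HeightOneSpectrum (𝓞 K)) (k : K) :
    algebraMap K (v.adicCompletion K) k = (k : v.adicCompletion K) := by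
  rw [HeightOneSpectrum.algebraMap_adicCompletion]
  rfl

theorem valued_algebraMap (v : HeightOneSpectrum (𝓞 K)) (k : K) :
    Valued.v (algebraMap K (v.adicCompletion K) k) = v.valuation K k := by
  rw [algebraMap_eq_coe, HeightOneSpectrum.valuedAdicCompletion_eq_valuation']

/-- **Closure lemma**: `n₀ 𝒪_v ⊆ closure 𝔫` for `n₀ ∈ 𝔫`. -/
theorem mem_idealClosure_of_le {𝔫 : Ideal (𝓞 K)} (v : HeightOneSpectrum (𝓞 K)) {n₀ : 𝓞 K}
    (hn₀ : n₀ ∈ 𝔫) {x : v.adicCompletion K}
    (hx : Valued.v x ≤ v.valuation K (algebraMap (𝓞 K) K n₀)) : x ∈ idealClosure 𝔫 v := by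
  rcases eq_or_ne n₀ 0 with h0 | h0
  · rw [h0, map_zero, map_zero, le_zero_iff, map_eq_zero] at hx
    rw [hx]
    exact zero_mem_idealClosure 𝔫 v
  have hk0 : (algebraMap (𝓞 K) K n₀) ≠ 0 := by
    rw [Ne, FaithfulSMul.algebraMap_eq_zero_iff]
    exact h0
  have hv0 : v.valuation K (algebraMap (𝓞 K) K n₀) ≠ 0 := by
    rw [Ne, map_eq_zero]
    exact hk0
  unfold idealClosure
  rw [mem_closure_iff_nhds]
  intro t ht
  obtain ⟨γ, hγ⟩ := Valued.mem_nhds.1 ht
  set γ' : ℤᵐ⁰ := MonoidWithZeroHom.ValueGroup₀.embedding γ.1 with hγ'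
  have hγ'0 : γ' ≠ 0 := by
    rw [hγ']
    intro h
    have := MonoidWithZeroHom.ValueGroup₀.embedding_injective (h.trans (map_zero _).symm)
    exact γ.ne_zero this
  have hsub : ∀ y : v.adicCompletion K, Valued.v (y - x) < γ' → y ∈ t := by
    intro y hy
    apply hγ
    exact (Valuation.restrict_lt_iff_lt_embedding _).2 hy
  -- approximate `x` by `k ∈ K`
  have hU1 : {y : v.adicCompletion K | Valued.v (y - x) < γ'} ∈ nhds x := by
    rw [Valued.mem_nhds]
    exact ⟨γ, fun y hy => (Valuation.restrict_lt_iff_lt_embedding _).1 hy⟩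
  have hn₀' : (Valued.v : Valuation (v.adicCompletion K) ℤᵐ⁰).restrict
      (algebraMap K (v.adicCompletion K) (algebraMap (𝓞 K) K n₀)) ≠ 0 := by
    rw [Ne, map_eq_zero, map_eq_zero]
    exact hk0
  have hU2 : {y : v.adicCompletion K | Valued.v (y - x) <
      Valued.v (algebraMap K (v.adicCompletion K) (algebraMap (𝓞 K) K n₀))} ∈ nhds x := by
    rw [Valued.mem_nhds]
    refine ⟨Units.mk0 _ hn₀', fun y hy => ?_⟩
    rw [Units.val_mk0] at hy
    exact (Valuation.restrict_lt_iff _).1 hy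
  obtain ⟨k, hk⟩ := (HeightOneSpectrum.denseRange_algebraMap K v).mem_nhds
    (Filter.inter_mem hU1 hU2)
  have hk1 : Valued.v (algebraMap K (v.adicCompletion K) k - x) < γ' := hk.1
  have hk2 : Valued.v (algebraMap K (v.adicCompletion K) k - x) <
      v.valuation K (algebraMap (𝓞 K) K n₀) := by
    have := hk.2
    rw [Set.mem_ofPred_eq, _root_.Fermat.Agent.LT.H51.MS4.valued_algebraMap] at this
    exact this
  have hkv : v.valuation K k ≤ v.valuation K (algebraMap (𝓞 K) K n₀) := by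
    rw [← _root_.Fermat.Agent.LT.H51.MS4.valued_algebraMap]
    have : algebraMap K (v.adicCompletion K) k = (algebraMap K (v.adicCompletion K) k - x) + x := by
      ring
    rw [this]
    exact (Valuation.map_add _ _ _).trans (max_le hk2.le hx)
  -- approximate `k / n₀` by an integer `a`
  have hq : v.valuation K (k / algebraMap (𝓞 K) K n₀) ≤ 1 := by
    rw [map_div₀]
    exact div_le_one_of_le₀ hkv zero_le
  set γ₂ : ℤᵐ⁰ := γ' / v.valuation K (algebraMap (𝓞 K) K n₀) with hγ₂
  have hγ₂0 : γ₂ ≠ 0 := div_ne_zero hγ'0 hv0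
  obtain ⟨a, ha⟩ := HeightOneSpectrum.exists_valuation_sub_lt_of_integer v hq (Units.mk0 γ₂ hγ₂0)
  rw [Units.val_mk0] at ha
  have ha' : v.valuation K (algebraMap (𝓞 K) K (n₀ * a) - k) < γ' := by
    have e : algebraMap (𝓞 K) K (n₀ * a) - k
        = algebraMap (𝓞 K) K n₀ * (algebraMap (𝓞 K) K a - k / algebraMap (𝓞 K) K n₀) := by
      rw [map_mul]
      field_simp
    rw [e, map_mul]
    calc v.valuation K (algebraMap (𝓞 K) K n₀) *
          v.valuation K (algebraMap (𝓞 K) K a - k / algebraMap (𝓞 K) K n₀)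
        < v.valuation K (algebraMap (𝓞 K) K n₀) * γ₂ :=
          mul_lt_mul_of_pos_left ha (zero_lt_iff.mpr hv0)
      _ = γ' := by rw [hγ₂, mul_div_cancel₀ _ hv0]
  refine ⟨algebraMap K (v.adicCompletion K) (algebraMap (𝓞 K) K (n₀ * a)), ?_, ?_⟩
  · apply hsub
    have e : algebraMap K (v.adicCompletion K) (algebraMap (𝓞 K) K (n₀ * a)) - x
        = algebraMap K (v.adicCompletion K) (algebraMap (𝓞 K) K (n₀ * a) - k)
          + (algebraMap K (v.adicCompletion K) k - x) := by
      rw [map_sub]; ring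
    rw [e]
    refine lt_of_le_of_lt (Valuation.map_add _ _ _) (max_lt ?_ ?_)
    · rw [_root_.Fermat.Agent.LT.H51.MS4.valued_algebraMap]
      exact ha'
    · exact hk1
  · exact ⟨n₀ * a, 𝔫.mul_mem_right a hn₀, rfl⟩

/-! ## Nearness to the identity and conjugation -/

/-- `Y ≡ 1` and `Y⁻¹ ≡ 1` modulo the elements of valuation `≤ c`. -/
def Near (v : HeightOneSpectrum (𝓞 K)) (c : ℤᵐ⁰) (Y : GL (Fin 2) (v.adicCompletion K)) : Prop :=
  ∀ i j : Fin 2,
    Valued.v (((Y : Matrix (Fin 2) (Fin 2) (v.adicCompletion K)) - 1) i j) ≤ c ∧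
    Valued.v ((((Y⁻¹ : GL (Fin 2) (v.adicCompletion K)) :
      Matrix (Fin 2) (Fin 2) (v.adicCompletion K)) - 1) i j) ≤ c

theorem near_one (v : HeightOneSpectrum (𝓞 K)) (c : ℤᵐ⁰) :
    Near v c (1 : GL (Fin 2) (v.adicCompletion K)) := by
  intro i j
  constructor
  · rw [Units.val_one, sub_self, Matrix.zero_apply, map_zero]
    exact zero_le
  · rw [inv_one, Units.val_one, sub_self, Matrix.zero_apply, map_zero]
    exact zero_le

theorem Near.mono {v : HeightOneSpectrum (𝓞 K)} {c c' : ℤᵐ⁰} (h : c ≤ c')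
    {Y : GL (Fin 2) (v.adicCompletion K)} (hY : Near v c Y) : Near v c' Y :=
  fun i j => ⟨(hY i j).1.trans h, (hY i j).2.trans h⟩

theorem Near.inv {v : HeightOneSpectrum (𝓞 K)} {c : ℤᵐ⁰}
    {Y : GL (Fin 2) (v.adicCompletion K)} (hY : Near v c Y) : Near v c Y⁻¹ := by
  intro i j
  refine ⟨(hY i j).2, ?_⟩
  rw [inv_inv]
  exact (hY i j).1

/-- The local level group contains the matrices near the identity. -/
theorem locLevel_of_near {𝔫 : Ideal (𝓞 K)} (v : HeightOneSpectrum (𝓞 K)) {n₀ : 𝓞 K}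
    (hn₀ : n₀ ∈ 𝔫) {Y : GL (Fin 2) (v.adicCompletion K)}
    (hY : Near v (v.valuation K (algebraMap (𝓞 K) K n₀)) Y) : LocLevel 𝔫 v Y :=
  fun i j => ⟨mem_idealClosure_of_le v hn₀ (hY i j).1, mem_idealClosure_of_le v hn₀ (hY i j).2⟩

/-- Ultrametric bound for the entries of a product of three matrices. -/
theorem valued_mul_mul_le {v : HeightOneSpectrum (𝓞 K)}
    (P Y Q : Matrix (Fin 2) (Fin 2) (v.adicCompletion K)) {A c B : ℤᵐ⁰}
    (hP : ∀ i j, Valued.v (P i j) ≤ A) (hY : ∀ i j, Valued.v (Y i j) ≤ c)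
    (hQ : ∀ i j, Valued.v (Q i j) ≤ B) (i j : Fin 2) :
    Valued.v ((P * Y * Q) i j) ≤ A * c * B := by
  rw [Matrix.mul_apply]
  refine Valuation.map_sum_le _ (fun l _ => ?_)
  rw [map_mul]
  refine mul_le_mul' ?_ (hQ l j)
  rw [Matrix.mul_apply]
  refine Valuation.map_sum_le _ (fun k _ => ?_)
  rw [map_mul]
  exact mul_le_mul' (hP i k) (hY k l)

/-- A common bound for the entries of a matrix. -/
theorem exists_entry_bound {v : HeightOneSpectrum (𝓞 K)}
    (P : Matrix (Fin 2) (Fin 2) (v.adicCompletion K)) :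
    ∃ A : ℤᵐ⁰, 1 ≤ A ∧ ∀ i j, Valued.v (P i j) ≤ A := by
  obtain ⟨A₀, hA₀⟩ :=
    (Set.finite_range (fun ij : Fin 2 × Fin 2 => Valued.v (P ij.1 ij.2))).bddAbove
  refine ⟨max 1 A₀, le_max_left _ _, fun i j => le_max_of_le_right ?_⟩
  exact hA₀ ⟨(i, j), rfl⟩

theorem conj_sub_one {v : HeightOneSpectrum (𝓞 K)} (m Y : GL (Fin 2) (v.adicCompletion K)) :
    ((m⁻¹ * Y * m : GL (Fin 2) (v.adicCompletion K)) :
        Matrix (Fin 2) (Fin 2) (v.adicCompletion K)) - 1
      = ((m⁻¹ : GL (Fin 2) (v.adicCompletion K)) : Matrix (Fin 2) (Fin 2) (v.adicCompletion K))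
        * ((Y : Matrix (Fin 2) (Fin 2) (v.adicCompletion K)) - 1)
        * (m : Matrix (Fin 2) (Fin 2) (v.adicCompletion K)) := by
  have h1 : ((m⁻¹ * Y * m : GL (Fin 2) (v.adicCompletion K)) :
        Matrix (Fin 2) (Fin 2) (v.adicCompletion K))
      = ((m⁻¹ : GL (Fin 2) (v.adicCompletion K)) : Matrix (Fin 2) (Fin 2) (v.adicCompletion K))
        * (Y : Matrix (Fin 2) (Fin 2) (v.adicCompletion K))
        * (m : Matrix (Fin 2) (Fin 2) (v.adicCompletion K)) := rfl
  have h2 : ((m⁻¹ : GL (Fin 2) (v.adicCompletion K)) :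
        Matrix (Fin 2) (Fin 2) (v.adicCompletion K))
        * (m : Matrix (Fin 2) (Fin 2) (v.adicCompletion K)) = 1 := by
    rw [← Units.val_mul, inv_mul_cancel, Units.val_one]
  rw [h1, Matrix.mul_sub, Matrix.sub_mul, Matrix.mul_one, h2]

/-- Conjugation by `m` maps a small neighbourhood of the identity into a given one. -/
theorem exists_near_conj (v : HeightOneSpectrum (𝓞 K)) (m : GL (Fin 2) (v.adicCompletion K))
    {c₀ : ℤᵐ⁰} (hc₀ : c₀ ≠ 0) :
    ∃ c : ℤᵐ⁰, c ≠ 0 ∧ c ≤ c₀ ∧
      ∀ Y : GL (Fin 2) (v.adicCompletion K), Near v c Y → Near v c₀ (m⁻¹ * Y * m) := by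
  obtain ⟨A, hA1, hA⟩ := exists_entry_bound
    ((m⁻¹ : GL (Fin 2) (v.adicCompletion K)) : Matrix (Fin 2) (Fin 2) (v.adicCompletion K))
  obtain ⟨B, hB1, hB⟩ := exists_entry_bound
    (m : Matrix (Fin 2) (Fin 2) (v.adicCompletion K))
  have hA0 : A ≠ 0 := (lt_of_lt_of_le zero_lt_one hA1).ne'
  have hB0 : B ≠ 0 := (lt_of_lt_of_le zero_lt_one hB1).ne'
  have hAB1 : 1 ≤ A * B := one_le_mul_of_one_le_of_one_le hA1 hB1
  refine ⟨c₀ / (A * B), div_ne_zero hc₀ (mul_ne_zero hA0 hB0), ?_, fun Y hY => ?_⟩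
  · rw [div_le_iff₀ (lt_of_lt_of_le zero_lt_one hAB1)]
    exact le_mul_of_one_le_right' hAB1
  · have key : A * (c₀ / (A * B)) * B = c₀ := by
      field_simp
    intro i j
    constructor
    · rw [conj_sub_one]
      exact (valued_mul_mul_le _ _ _ hA (fun i j => (hY i j).1) hB i j).trans key.le
    · have e : (m⁻¹ * Y * m)⁻¹ = m⁻¹ * Y⁻¹ * m := by group
      rw [e, conj_sub_one]
      exact (valued_mul_mul_le _ _ _ hA (fun i j => (hY i j).2) hB i j).trans key.le

end Fermat.Agent.LT.H51.MS4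
end

end
-- ===== PACK-END LT/H51/MS4B.lean

-- ===== PACK-BEGIN LT/T5/H40/HS0Top.lean
section


/-!
# Row LT, tower T5, leaf T5.02 `LeafHS0`: the PROVED top (helper40)

OFF-MAIN.  `leafHS0_of_leaves : HS0Leaves K 𝔫 τ → T1.ReductionC K → T1.LocCompC K → 𝔫 ≠ ⊥ →
LeafHS0 𝔫 τ`.

Steps (all formal):
* `ker0_rat_inv40`   : `K_φ(γ₁ x, γ₂ y) = K_φ(x, y)`;
* `ker0_adjoint40`   : `K_{φ*}(y, x) = conj K_φ(x, y)` (the ray generator is central);
* `ker0_eq_borelSum40` : if only `B(K)` contributes, `K_φ(x, y) = borelSum`;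
* `kerBdd_of_leaves40` : the kernel is bounded (`KerBddC`);
* `leafHS0_of_leaves`  : a bounded continuous kernel is in `L²(F × F)`, `μ(F) < ∞`.
-/

set_option autoImplicit false

open IsDedekindDomain NumberField MeasureTheory
open scoped MatrixGroups ComplexConjugate

noncomputable section

namespace Fermat.Agent.LT.T5.H40

open Fermat.Agent.LT.H556.A0 Fermat.Agent.LT.T5

attribute [local instance] Fermat.Agent.LT.T5.instMeasurableSpaceG

variable {K : Type} [Field K] [NumberField K]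

/-- The kernel is invariant under `GL₂(K)` acting on the left on both variables. -/
theorem ker0_rat_inv40 (r : G K) (φ : G K → ℂ) (γ₁ γ₂ : GL (Fin 2) K) (x y : G K) :
    ker0 r φ (ratG γ₁ * x) (ratG γ₂ * y) = ker0 r φ x y := by
  unfold ker0
  have h : ∀ γ : GL (Fin 2) K, (ratG γ₁ * x)⁻¹ * ratG γ * (ratG γ₂ * y)
      = x⁻¹ * ratG (((Equiv.mulLeft γ₁⁻¹).trans (Equiv.mulRight γ₂)) γ) * y := by
    intro γ
    simp [mul_assoc]
  simp_rw [h]
  exact Equiv.tsum_eq ((Equiv.mulLeft γ₁⁻¹).trans (Equiv.mulRight γ₂))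
    (fun γ => flat r φ (x⁻¹ * ratG γ * y))

/-- The periodisation of the adjoint. -/
theorem flat_adjoint40 (r : G K) (hc : ∀ g : G K, g * r = r * g) (φ : G K → ℂ) (g : G K) :
    flat r (adjointFn φ) g = conj (flat r φ g⁻¹) := by
  unfold flat adjointFn
  rw [Complex.conj_tsum]
  rw [← Equiv.tsum_eq (Equiv.neg ℤ) (fun m => conj (φ (g⁻¹ * r ^ m)))]
  refine tsum_congr fun m => ?_
  have hcm : Commute g⁻¹ (r ^ (-m)) := ((show Commute g r from hc g).inv_left).zpow_right _
  have : (g * r ^ m)⁻¹ = g⁻¹ * r ^ (-m) := by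
    rw [mul_inv_rev, ← zpow_neg]
    exact hcm.eq.symm
  simp only [Equiv.neg_apply]
  rw [this]

/-- The kernel of the adjoint is the adjoint kernel. -/
theorem ker0_adjoint40 (r : G K) (hc : ∀ g : G K, g * r = r * g) (φ : G K → ℂ) (x y : G K) :
    ker0 r (adjointFn φ) y x = conj (ker0 r φ x y) := by
  unfold ker0
  rw [Complex.conj_tsum]
  rw [← Equiv.tsum_eq (Equiv.inv (GL (Fin 2) K))
    (fun γ => conj (flat r φ (x⁻¹ * ratG γ * y)))]
  refine tsum_congr fun γ => ?_
  rw [flat_adjoint40 r hc]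
  simp [mul_assoc]

/-- If only the rational upper triangular matrices contribute, the kernel is the Borel sum. -/
theorem ker0_eq_borelSum40 (r : G K) (φ : G K → ℂ) (x y : G K)
    (h : ∀ γ : GL (Fin 2) K, ¬ T1.IsUpperRat K γ → flat r φ (x⁻¹ * ratG γ * y) = 0) :
    ker0 r φ x y = borelSum r φ x y := by
  unfold ker0 borelSum
  have hs : Function.support (fun γ : GL (Fin 2) K => flat r φ (x⁻¹ * ratG γ * y))
      ⊆ {γ | T1.IsUpperRat K γ} := by
    intro γ hγ
    by_contra hn
    exact hγ (h γ hn)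
  exact (tsum_subtype_eq_of_support_subset hs).symm

/-- **The kernel of an Eisenstein-killing test function is bounded** (from the sub-leaves). -/
theorem kerBdd_of_leaves40 (𝔫 : Ideal (𝓞 K)) (τ : G K → ℂ) (L : HS0Leaves K 𝔫 τ)
    (hR : T1.ReductionC K) (h𝔫 : 𝔫 ≠ ⊥) : KerBddC K 𝔫 τ := by
  intro μ F r hF hr φ hφ hek hek'
  obtain ⟨c, hc0, hred⟩ := hR
  have hcen := L.rayCentral r hr
  have hφ' : IsTestFn 𝔫 τ (adjointFn φ) := L.adjTest φ hφ
  obtain ⟨T₁, hT₁⟩ := L.onlyBorel r hr φ hφ.cont hφ.supp c hc0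
  obtain ⟨T₂, B₁, hB₁⟩ := L.borelSumBdd h𝔫 μ F r hF hr φ hφ hek
  obtain ⟨T₁', hT₁'⟩ := L.onlyBorel r hr (adjointFn φ) hφ'.cont hφ'.supp c hc0
  obtain ⟨T₂', B₁', hB₁'⟩ := L.borelSumBdd h𝔫 μ F r hF hr (adjointFn φ) hφ' hek'
  obtain ⟨B₂, hB₂⟩ := L.lowBdd r hr φ hφ.cont hφ.supp c (max (max T₁ T₂) (max T₁' T₂')) hc0
  refine ⟨max B₁ (max B₁' B₂), fun x y => ?_⟩
  obtain ⟨γx, tx, hx, hcx⟩ := hred x
  obtain ⟨γy, ty, hy, hcy⟩ := hred y
  have hx' : T1.HasHeight K (ratG γx * x) tx := hx
  have hy' : T1.HasHeight K (ratG γy * y) ty := hy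
  rw [← ker0_rat_inv40 r φ γx γy x y]
  by_cases h1 : max T₁ T₂ ≤ tx
  · have e := ker0_eq_borelSum40 r φ (ratG γx * x) (ratG γy * y)
      (hT₁ _ _ tx ty hx' hy' (le_trans (le_max_left _ _) h1) hcy)
    rw [e]
    exact le_trans (hB₁ _ tx hx' (le_trans (le_max_right _ _) h1) _) (le_max_left _ _)
  · by_cases h2 : max T₁' T₂' ≤ ty
    · have e := ker0_eq_borelSum40 r (adjointFn φ) (ratG γy * y) (ratG γx * x)
        (hT₁' _ _ ty tx hy' hx' (le_trans (le_max_left _ _) h2) hcx)
      have e' := ker0_adjoint40 r hcen φ (ratG γx * x) (ratG γy * y)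
      have e'' : ‖ker0 r φ (ratG γx * x) (ratG γy * y)‖
          = ‖borelSum r (adjointFn φ) (ratG γy * y) (ratG γx * x)‖ := by
        rw [← e, e', RCLike.norm_conj]
      rw [e'']
      exact le_trans (hB₁' _ ty hy' (le_trans (le_max_right _ _) h2) _)
        (le_trans (le_max_left _ _) (le_max_right _ _))
    · have h1' : tx ≤ max (max T₁ T₂) (max T₁' T₂') :=
        le_trans (le_of_not_ge h1) (le_max_left _ _)
      have h2' : ty ≤ max (max T₁ T₂) (max T₁' T₂') :=
        le_trans (le_of_not_ge h2) (le_max_right _ _)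
      exact le_trans (hB₂ _ _ tx ty hx' hy' hcx h1' hcy h2')
        (le_trans (le_max_right _ _) (le_max_right _ _))

/-- **T5.02 from its sub-leaves**: a bounded continuous kernel is square-integrable on
`F × F`, `μ(F) < ∞`. -/
theorem leafHS0_of_leaves (𝔫 : Ideal (𝓞 K)) (τ : G K → ℂ) (L : HS0Leaves K 𝔫 τ)
    (hR : T1.ReductionC K) (hLC : T1.LocCompC K) (h𝔫 : 𝔫 ≠ ⊥) : LeafHS0 𝔫 τ := by
  intro μ F r hF hr φ hφ hek hek'
  obtain ⟨B, hB⟩ := kerBdd_of_leaves40 𝔫 τ L hR h𝔫 μ F r hF hr φ hφ hek hek'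
  have hcont := L.kerCont r hr φ hφ.cont hφ.supp
  have : SecondCountableTopology (G K) := hLC.2.2.2
  have : BorelSpace (G K) := ⟨rfl⟩
  have : IsFiniteMeasure (μ.restrict F) :=
    ⟨by rw [Measure.restrict_apply_univ]; exact hF.finite⟩
  exact MemLp.of_bound hcont.aestronglyMeasurable B (Filter.Eventually.of_forall fun p => hB p.1 p.2)

end Fermat.Agent.LT.T5.H40

end

end
-- ===== PACK-END LT/T5/H40/HS0Top.lean

-- ===== PACK-BEGIN LT/T5/H965/RatFinite.lean
section



/-!
# Row LT, tower T5, sub-leaf T5.07f `RatFiniteC` (helper965) — OFF-MAIN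

`ratFiniteC965 K : T5.H29.RatFiniteC K`, VERBATIM against `LT/T5/H29/TwSpec.lean`
(helper29@dedb60878, sha256 08555f0f, byte-identical copy; on `T5/Spec.lean` 0d469f71,
`T1/Spec.lean` e8ae48d6, `H556/A0.lean` 66d3374a).

`GL₂(K)` is closed and discrete in `GL₂(𝔸_K)` (`T1.DiscreteC`), so it meets a compact set in a
compact discrete, hence finite, set; `ratG` is injective because `K → 𝔸_K` is.
-/

set_option autoImplicit false

open IsDedekindDomain NumberField

noncomputable section

namespace Fermat.Agent.LT.T5.H965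

open Fermat.Agent.LT.H556.A0 Fermat.Agent.LT.T5 Fermat.Agent.LT

variable (K : Type) [Field K] [NumberField K]

/-- The diagonal embedding `GL₂(K) → GL₂(𝔸_K)` is injective. -/
theorem ratG_injective965 : Function.Injective (ratG : GL (Fin 2) K →* G K) := by
  intro a b hab
  have hinj : Function.Injective (algebraMap K (Adl K)) :=
    NumberField.AdeleRing.algebraMap_injective (𝓞 K) K
  apply Units.ext
  ext i j
  have h1 : ((ratG a : G K) : Matrix (Fin 2) (Fin 2) (Adl K)) i j =
      ((ratG b : G K) : Matrix (Fin 2) (Fin 2) (Adl K)) i j := by rw [hab]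
  exact hinj h1

/-- The two diagonal embeddings (of `T1/Spec.lean` and of `T5/Spec.lean`) agree. -/
theorem ratG_eq_T1_965 : (ratG : GL (Fin 2) K →* G K) = T1.ratG K := rfl

/-- A closed discrete subset of a topological space meets a compact set in a finite set. -/
theorem finite_inter_of_discrete965 {X : Type*} [TopologicalSpace X] {S C : Set X}
    (hS : DiscreteTopology S) (hcl : IsClosed S) (hC : IsCompact C) : (S ∩ C).Finite := by
  have hcomp : IsCompact (S ∩ C) := hC.inter_left hcl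
  have hdisc : DiscreteTopology ↥(S ∩ C) := DiscreteTopology.of_subset hS Set.inter_subset_left
  exact hcomp.finite ⟨hdisc⟩

/-- **T5.07f**: `GL₂(K)` meets a compact subset of `GL₂(𝔸_K)` in a finite set. -/
theorem ratFiniteC965 : H29.RatFiniteC K := by
  intro hD C hC
  obtain ⟨hdisc, hclosed⟩ := hD
  have hfin : ((T1.Gam K : Set (G K)) ∩ C).Finite :=
    finite_inter_of_discrete965 hdisc hclosed hC
  have hpre : ((ratG : GL (Fin 2) K →* G K) ⁻¹' ((T1.Gam K : Set (G K)) ∩ C)).Finite :=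
    hfin.preimage (Set.injOn_of_injective (ratG_injective965 K))
  refine hpre.subset fun δ hδ => ?_
  exact ⟨⟨δ, rfl⟩, hδ⟩

end Fermat.Agent.LT.T5.H965

end

end
-- ===== PACK-END LT/T5/H965/RatFinite.lean

-- ===== PACK-BEGIN LT/H415/AutUnique.lean
section



/-!
# Row LT, asset AUT-UNIQUE (helper415): continuous automorphisms of the adele ring

OFF-MAIN.  Mathlib only.  `𝔸 = NumberField.AdeleRing (𝓞 K) K` (= `A0.Adl K`).

Let `σ : K ≃+* K` and let `τ : 𝔸 →+* 𝔸` be a continuous injective ring homomorphism with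
`τ ∘ algebraMap = algebraMap ∘ σ`.

* `fin_transport415` : if `v' = σ v` (`FinRel`, = `T5.PlaceRel`) then
  `(τ a).2 v' = ψ (a.2 v)` for the continuous ring homomorphism `ψ = finLocal415`;
* `inf_transport415` : `(τ a).1 (σ w) = ψ (a.1 w)`, `σ w = infImage K σ w`;
* `adele_endo_eq_id415` : if `σ = id`, then `τ = id`;
* `adele_aut_unique415` : two continuous ring automorphisms of `𝔸` which agree on `K` are equal;
* `adele_aut_iterate415` : if `σ ^ l = 1` then `τ^[l] = id`.
-/

set_option autoImplicit false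
set_option linter.unusedSectionVars false

open IsDedekindDomain NumberField Filter Topology

noncomputable section

namespace Fermat.Agent.LT.H415

variable {K : Type*} [Field K] [NumberField K]

section Cross

variable (σ : K ≃+* K) (τ : AdeleRing (𝓞 K) K →+* AdeleRing (𝓞 K) K) (hτ : Continuous τ)
  (hτσ : ∀ x : K, τ (algebraMap K (AdeleRing (𝓞 K) K) x) = algebraMap K (AdeleRing (𝓞 K) K) (σ x))

include hτ hτσ

theorem fin_fin_zero415 (v v' u : HeightOneSpectrum (𝓞 K)) (hv : FinRel K σ v v')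
    (hu : u ≠ v') : (finPlace K u).pr (τ (finPlace K v).idem) = 0 := by
  obtain ⟨x, hx1, hx2⟩ := sep_ff415 σ v v' u hv hu
  exact PlaceDatum.pr_tau_idem_eq_zero (finPlace K v) (finPlace K u)
    (algebraMap K (AdeleRing (𝓞 K) K)) σ τ hτ hτσ x
    (tendsto_pow_atTop_nhds_zero_iff_norm_lt_one.2 hx1)
    (fun h => hx2 (tendsto_pow_atTop_nhds_zero_iff_norm_lt_one.1 h))

theorem fin_inf_zero415 (v : HeightOneSpectrum (𝓞 K)) (w : InfinitePlace K) :
    (infPlace K w).pr (τ (finPlace K v).idem) = 0 := by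
  obtain ⟨x, hx1, hx2⟩ := sep_fi415 σ v w
  exact PlaceDatum.pr_tau_idem_eq_zero (finPlace K v) (infPlace K w)
    (algebraMap K (AdeleRing (𝓞 K) K)) σ τ hτ hτσ x
    (tendsto_pow_atTop_nhds_zero_iff_norm_lt_one.2 hx1)
    (fun h => hx2 (tendsto_pow_atTop_nhds_zero_iff_norm_lt_one.1 h))

theorem inf_fin_zero415 (w : InfinitePlace K) (v : HeightOneSpectrum (𝓞 K)) :
    (finPlace K v).pr (τ (infPlace K w).idem) = 0 := by
  obtain ⟨x, hx1, hx2⟩ := sep_if415 σ w v
  exact PlaceDatum.pr_tau_idem_eq_zero (infPlace K w) (finPlace K v)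
    (algebraMap K (AdeleRing (𝓞 K) K)) σ τ hτ hτσ x
    (tendsto_pow_atTop_nhds_zero_iff_norm_lt_one.2 hx1)
    (fun h => hx2 (tendsto_pow_atTop_nhds_zero_iff_norm_lt_one.1 h))

theorem inf_inf_zero415 (w w' : InfinitePlace K) (hw : w' ≠ infImage K σ w) :
    (infPlace K w').pr (τ (infPlace K w).idem) = 0 := by
  obtain ⟨x, hx1, hx2⟩ := sep_ii415 σ w w' hw
  exact PlaceDatum.pr_tau_idem_eq_zero (infPlace K w) (infPlace K w')
    (algebraMap K (AdeleRing (𝓞 K) K)) σ τ hτ hτσ x
    (tendsto_pow_atTop_nhds_zero_iff_norm_lt_one.2 hx1)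
    (fun h => hx2 (tendsto_pow_atTop_nhds_zero_iff_norm_lt_one.1 h))

variable (hinj : Function.Injective τ)

include hinj

/-- The idempotent of `v` goes to the idempotent of `σ v`. -/
theorem fin_one415 (v v' : HeightOneSpectrum (𝓞 K)) (hv : FinRel K σ v v') :
    (finPlace K v').pr (τ (finPlace K v).idem) = 1 := by
  rcases PlaceDatum.pr_map_idem (finPlace K v) (finPlace K v') τ with h | h
  · exfalso
    have h0 : τ (finPlace K v).idem = 0 := by
      refine adele_ext415 K (fun u => ?_) (fun w => ?_)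
      · rw [map_zero]
        by_cases hu : u = v'
        · rw [hu]; exact h
        · exact fin_fin_zero415 σ τ hτ hτσ v v' u hv hu
      · rw [map_zero]
        exact fin_inf_zero415 σ τ hτ hτσ v w
    exact (finPlace K v).idem_ne_zero (hinj (by rw [h0, map_zero]))
  · exact h

/-- The idempotent of `w` goes to the idempotent of `σ w`. -/
theorem inf_one415 (w : InfinitePlace K) :
    (infPlace K (infImage K σ w)).pr (τ (infPlace K w).idem) = 1 := by
  rcases PlaceDatum.pr_map_idem (infPlace K w) (infPlace K (infImage K σ w)) τ with h | h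
  · exfalso
    have h0 : τ (infPlace K w).idem = 0 := by
      refine adele_ext415 K (fun u => ?_) (fun w' => ?_)
      · rw [map_zero]
        exact inf_fin_zero415 σ τ hτ hτσ w u
      · rw [map_zero]
        by_cases hw : w' = infImage K σ w
        · rw [hw]; exact h
        · exact inf_inf_zero415 σ τ hτ hτσ w w' hw
    exact (infPlace K w).idem_ne_zero (hinj (by rw [h0, map_zero]))
  · exact h

/-- The local homomorphism `K_v → K_{σ v}` of `τ`. -/
def finLocal415 (v v' : HeightOneSpectrum (𝓞 K)) (hv : FinRel K σ v v') :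
    v.adicCompletion K →+* v'.adicCompletion K :=
  PlaceDatum.localHom (finPlace K v) (finPlace K v') τ (fin_one415 σ τ hτ hτσ hinj v v' hv)

/-- The local homomorphism `K_w → K_{σ w}` of `τ`. -/
def infLocal415 (w : InfinitePlace K) : w.Completion →+* (infImage K σ w).Completion :=
  PlaceDatum.localHom (infPlace K w) (infPlace K (infImage K σ w)) τ
    (inf_one415 σ τ hτ hτσ hinj w)

theorem continuous_finLocal415 (v v' : HeightOneSpectrum (𝓞 K)) (hv : FinRel K σ v v') :
    Continuous (finLocal415 σ τ hτ hτσ hinj v v' hv) :=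
  PlaceDatum.continuous_localMap (finPlace K v) (finPlace K v') τ hτ

theorem continuous_infLocal415 (w : InfinitePlace K) :
    Continuous (infLocal415 σ τ hτ hτσ hinj w) :=
  PlaceDatum.continuous_localMap (infPlace K w) (infPlace K (infImage K σ w)) τ hτ

/-- **Transport at a finite place.** -/
theorem fin_transport415 (v v' : HeightOneSpectrum (𝓞 K)) (hv : FinRel K σ v v')
    (a : AdeleRing (𝓞 K) K) :
    (τ a).2 v' = finLocal415 σ τ hτ hτσ hinj v v' hv (a.2 v) :=
  PlaceDatum.pr_tau_eq (finPlace K v) (finPlace K v') τ (fin_one415 σ τ hτ hτσ hinj v v' hv) a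

/-- **Transport at an infinite place.** -/
theorem inf_transport415 (w : InfinitePlace K) (a : AdeleRing (𝓞 K) K) :
    (τ a).1 (infImage K σ w) = infLocal415 σ τ hτ hτσ hinj w (a.1 w) :=
  PlaceDatum.pr_tau_eq (infPlace K w) (infPlace K (infImage K σ w)) τ
    (inf_one415 σ τ hτ hτσ hinj w) a

theorem finLocal415_coe (v v' : HeightOneSpectrum (𝓞 K)) (hv : FinRel K σ v v') (x : K) :
    finLocal415 σ τ hτ hτσ hinj v v' hv (x : v.adicCompletion K)
      = ((σ x : K) : v'.adicCompletion K) :=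
  PlaceDatum.localMap_of_field (finPlace K v) (finPlace K v')
    (algebraMap K (AdeleRing (𝓞 K) K)) σ τ hτσ (fin_one415 σ τ hτ hτσ hinj v v' hv) x

theorem infLocal415_coe (w : InfinitePlace K) (x : K) :
    infLocal415 σ τ hτ hτσ hinj w (x : w.Completion)
      = ((σ x : K) : (infImage K σ w).Completion) :=
  PlaceDatum.localMap_of_field (infPlace K w) (infPlace K (infImage K σ w))
    (algebraMap K (AdeleRing (𝓞 K) K)) σ τ hτσ (inf_one415 σ τ hτ hτσ hinj w) x

end Cross

/-! ## Uniqueness -/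

theorem finRel_refl415 (v : HeightOneSpectrum (𝓞 K)) : FinRel K (RingEquiv.refl K) v v := by
  unfold FinRel
  ext y
  rw [Ideal.mem_map_of_equiv]
  constructor
  · intro hy
    exact ⟨y, hy, rfl⟩
  · rintro ⟨x, hx, rfl⟩
    exact hx

theorem infImage_refl415 (w : InfinitePlace K) : infImage K (RingEquiv.refl K) w = w := by
  refine InfinitePlace.ext _ _ fun x => ?_
  have := infImage_apply (RingEquiv.refl K) w x
  simpa using this

theorem denseRange_fin415 (v : HeightOneSpectrum (𝓞 K)) :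
    DenseRange fun x : K => (finPlace K v).pr (algebraMap K (AdeleRing (𝓞 K) K) x) := by
  have h := HeightOneSpectrum.denseRange_algebraMap K v
  exact h

theorem denseRange_inf415 (w : InfinitePlace K) :
    DenseRange fun x : K => (infPlace K w).pr (algebraMap K (AdeleRing (𝓞 K) K) x) := by
  have h1 : DenseRange (algebraMap K (InfiniteAdeleRing K)) :=
    InfiniteAdeleRing.denseRange_algebraMap K
  have h2 : DenseRange (fun f : InfiniteAdeleRing K => f w) :=
    (Function.surjective_eval w).denseRange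
  exact h2.comp h1 (continuous_apply w)

/-- **A continuous injective ring endomorphism of the adele ring which fixes `K` is the
identity.** -/
theorem adele_endo_eq_id415 (τ : AdeleRing (𝓞 K) K →+* AdeleRing (𝓞 K) K) (hτ : Continuous τ)
    (hinj : Function.Injective τ)
    (hfix : ∀ x : K, τ (algebraMap K (AdeleRing (𝓞 K) K) x) = algebraMap K (AdeleRing (𝓞 K) K) x)
    (a : AdeleRing (𝓞 K) K) : τ a = a := by
  have hfix' : ∀ x : K, τ (algebraMap K (AdeleRing (𝓞 K) K) x)
      = algebraMap K (AdeleRing (𝓞 K) K) ((RingEquiv.refl K) x) := hfix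
  refine adele_ext415 K (fun v => ?_) (fun w => ?_)
  · exact PlaceDatum.pr_tau_eq_self (finPlace K v) (algebraMap K (AdeleRing (𝓞 K) K)) τ hτ hfix
      (denseRange_fin415 v)
      (fin_one415 (RingEquiv.refl K) τ hτ hfix' hinj v v (finRel_refl415 v)) a
  · have h1 := inf_one415 (RingEquiv.refl K) τ hτ hfix' hinj w
    rw [infImage_refl415] at h1
    exact PlaceDatum.pr_tau_eq_self (infPlace K w) (algebraMap K (AdeleRing (𝓞 K) K)) τ hτ hfix
      (denseRange_inf415 w) h1 a

/-- **Two continuous ring automorphisms of the adele ring which agree on `K` are equal.** -/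
theorem adele_aut_unique415 (τ₁ τ₂ : AdeleRing (𝓞 K) K ≃+* AdeleRing (𝓞 K) K)
    (h₁ : Continuous τ₁.symm) (h₂ : Continuous τ₂)
    (h : ∀ x : K, τ₁ (algebraMap K (AdeleRing (𝓞 K) K) x)
      = τ₂ (algebraMap K (AdeleRing (𝓞 K) K) x)) : τ₁ = τ₂ := by
  ext1 a
  have key := adele_endo_eq_id415 ((τ₁.symm : AdeleRing (𝓞 K) K →+* AdeleRing (𝓞 K) K).comp
      (τ₂ : AdeleRing (𝓞 K) K →+* AdeleRing (𝓞 K) K)) (h₁.comp h₂)
      (τ₁.symm.injective.comp τ₂.injective)
      (fun x => by
        change τ₁.symm (τ₂ (algebraMap K (AdeleRing (𝓞 K) K) x)) = _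
        rw [← h x, RingEquiv.symm_apply_apply]) a
  have key' : τ₁.symm (τ₂ a) = a := key
  rw [← key', RingEquiv.apply_symm_apply]
  exact (congrArg τ₂ key').symm

/-- **If `σ ^ l = 1`, then `τ ^ l = 1`.** -/
theorem adele_aut_iterate415 (σ : K ≃+* K)
    (τ : AdeleRing (𝓞 K) K →+* AdeleRing (𝓞 K) K) (hτ : Continuous τ)
    (hinj : Function.Injective τ)
    (hτσ : ∀ x : K, τ (algebraMap K (AdeleRing (𝓞 K) K) x)
      = algebraMap K (AdeleRing (𝓞 K) K) (σ x))
    (l : ℕ) (hl : ∀ x : K, (σ ^ l) x = x) (a : AdeleRing (𝓞 K) K) : (⇑τ)^[l] a = a := by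
  have hpow : ∀ n : ℕ, ∀ x : K, (⇑τ)^[n] (algebraMap K (AdeleRing (𝓞 K) K) x)
      = algebraMap K (AdeleRing (𝓞 K) K) ((σ ^ n) x) := by
    intro n
    induction n with
    | zero => intro x; simp
    | succ n ih =>
      intro x
      rw [Function.iterate_succ_apply', ih, hτσ, pow_succ']
      rfl
  have hcoe : ∀ n : ℕ, ⇑(τ ^ n) = (⇑τ)^[n] := by
    intro n
    induction n with
    | zero => rfl
    | succ n ih =>
      funext y
      rw [pow_succ', Function.iterate_succ_apply', ← ih]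
      rfl
  have h := adele_endo_eq_id415 (τ ^ l) (by rw [hcoe]; exact hτ.iterate l)
    (by rw [hcoe]; exact hinj.iterate l)
    (fun x => by rw [hcoe, hpow, hl]) a
  rw [hcoe] at h
  exact h

end Fermat.Agent.LT.H415

end
end
-- ===== PACK-END LT/H415/AutUnique.lean

-- ===== PACK-BEGIN LT/T5/H599/Diag.lean
section



/-!
# Row LT, tower T5, leaf T5.06 `LeafDiag` (helper599)

OFF-MAIN.  Composition of kernels on the diagonal:
`∑_δ (φ₁ ⋆ φ₂)♭(x⁻¹ δ σ(x)) = ∫_F K_{φ₁}(x,z) K^σ_{φ₂}(z,x) dz` for every `x`.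

`leafDiag_of599 : T1.AdNormC K → T1.DiscreteC K → T5.LeafDiag s 𝔫 τ` (Spec v3 = FREEZE,
sha256 d6f8b00a; the two hypotheses are interface Props of tower T1, both closed by T1;
the `K_∞`-type `τ` and the invariance properties of the test functions play no role).

Proof: the countable group `GL₂(K) × ℤ` acts on `GL₂(𝔸_K)` by `(γ, n) • z = γ rⁿ z`
(`r` central), `F` is a strict fundamental domain for this action, the kernel sums are locally
finite (`finite_iota_mem599`), and Mathlib's unfolding for fundamental domains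
(`IsFundamentalDomain.integral_eq_tsum''`) does the rest.
-/

set_option autoImplicit false

open IsDedekindDomain NumberField MeasureTheory
open scoped MatrixGroups Pointwise

noncomputable section

namespace Fermat.Agent.LT.T5.H599

open Fermat.Agent.LT.H556.A0 Fermat.Agent.LT.T5

attribute [local instance] Fermat.Agent.LT.T5.instMeasurableSpaceG

variable {K : Type} [Field K] [NumberField K]

/-- The σ-algebra of the tower is the Borel σ-algebra. -/
theorem borelSpaceG599 (K : Type) [Field K] [NumberField K] : BorelSpace (G K) := ⟨rfl⟩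

attribute [local instance] borelSpaceG599

/-! ## Locally finite sums over `GL₂(K) × ℤ` -/

/-- The summand `p ↦ f (a · γ rⁿ · b)` has finite support when `f` vanishes off a compact set. -/
theorem finite_support599 (hAN : T1.AdNormC K) (hD : T1.DiscreteC K) {r : G K}
    (hr : IsRayGen r) {f : G K → ℂ} {C : Set (G K)} (hC : IsCompact C)
    (hf : ∀ g, f g ≠ 0 → g ∈ C) (a b : G K) :
    (Function.support fun p : Gam599 K => f (a * iota599 hr p * b)).Finite := by
  have hC' : IsCompact ((fun g => a⁻¹ * g * b⁻¹) '' C) :=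
    hC.image ((continuous_const_mul a⁻¹).mul continuous_const)
  refine (finite_iota_mem599 hAN hD hr hC').subset ?_
  intro p hp
  refine ⟨a * iota599 hr p * b, hf _ hp, ?_⟩
  simp [mul_assoc]

/-- The nested sum over `GL₂(K)` and the ray is the sum over `GL₂(K) × ℤ`. -/
theorem tsum_flat_eq599 (hAN : T1.AdNormC K) (hD : T1.DiscreteC K) {r : G K}
    (hr : IsRayGen r) {f : G K → ℂ} {C : Set (G K)} (hC : IsCompact C)
    (hf : ∀ g, f g ≠ 0 → g ∈ C) (a b : G K) :
    (∑' δ : GL (Fin 2) K, flat r f (a * ratG δ * b))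
      = ∑' p : Gam599 K, f (a * iota599 hr p * b) := by
  have hfin := finite_support599 hAN hD hr hC hf a b
  have hsum : Summable (fun p : Gam599 K => f (a * iota599 hr p * b)) :=
    summable_of_hasFiniteSupport hfin
  rw [hsum.tsum_prod]
  refine tsum_congr fun δ => ?_
  unfold flat
  rw [← Equiv.tsum_eq Multiplicative.ofAdd
    (fun c : Multiplicative ℤ => f (a * iota599 hr (δ, c) * b))]
  refine tsum_congr fun m => ?_
  have e : a * ratG δ * b * r ^ m = a * (ratG δ * r ^ m) * b := by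
    rw [mul_assoc (a * ratG δ) b (r ^ m), ← zpow_commute599 hr m b]
    simp only [mul_assoc]
  rw [iota_mk599, e]

/-! ## The convolution -/

/-- The convolution vanishes off the product of the supports. -/
theorem conv_ne_zero599 (μ : Measure (G K)) (φ₁ φ₂ : G K → ℂ) (g : G K)
    (h : conv μ φ₁ φ₂ g ≠ 0) : g ∈ tsupport φ₁ * tsupport φ₂ := by
  by_contra hg
  apply h
  unfold conv
  have h0 : ∀ y : G K, φ₁ y * φ₂ (y⁻¹ * g) = 0 := by
    intro y
    by_contra hy
    have h1 : φ₁ y ≠ 0 := fun h1 => hy (by rw [h1, zero_mul])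
    have h2 : φ₂ (y⁻¹ * g) ≠ 0 := fun h2 => hy (by rw [h2, mul_zero])
    apply hg
    refine ⟨y, subset_tsupport _ h1, y⁻¹ * g, subset_tsupport _ h2, ?_⟩
    simp
  simp [h0]

/-- Left translation in the convolution integral. -/
theorem conv_shift599 (μ : Measure (G K)) [μ.IsMulLeftInvariant] (φ₁ φ₂ : G K → ℂ)
    (x g : G K) :
    conv μ φ₁ φ₂ (x⁻¹ * g) = ∫ z, φ₁ (x⁻¹ * z) * φ₂ (z⁻¹ * g) ∂μ := by
  unfold conv
  rw [← integral_mul_left_eq_self (fun y => φ₁ y * φ₂ (y⁻¹ * (x⁻¹ * g))) x⁻¹]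
  refine integral_congr_ae (Filter.Eventually.of_forall fun z => ?_)
  simp [mul_assoc]

/-! ## The action and the unfolding -/

/-- The action `(γ, n) • z = γ rⁿ z` of `GL₂(K) × ℤ` on `GL₂(𝔸_K)`. -/
@[reducible] def act599 {r : G K} (hr : IsRayGen r) : MulAction (Gam599 K) (G K) :=
  MulAction.compHom (G K) (iota599 hr)

/-- `F` is a fundamental domain for `GL₂(K) × ℤ`. -/
theorem isFundamentalDomain599 (hAN : T1.AdNormC K) {μ : Measure (G K)} {F : Set (G K)}
    (hF : IsFrame μ F) {r : G K} (hr : IsRayGen r) :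
    @IsFundamentalDomain (Gam599 K) (G K) _ (act599 hr).toSMul _ F μ :=
  letI := act599 hr
  IsFundamentalDomain.mk' hF.meas.nullMeasurableSet
    (fun z => existsUnique_iota_mul_mem599 hAN hF hr z)

theorem measurableConstSMul599 {r : G K} (hr : IsRayGen r) :
    @MeasurableConstSMul (Gam599 K) (G K) (act599 hr).toSMul _ :=
  letI := act599 hr
  ⟨fun c => (continuous_const_mul (iota599 hr c)).measurable⟩

theorem smulInvariantMeasure599 (μ : Measure (G K)) [μ.IsMulLeftInvariant] {r : G K}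
    (hr : IsRayGen r) :
    @SMulInvariantMeasure (Gam599 K) (G K) (act599 hr).toSMul _ μ :=
  letI := act599 hr
  ⟨fun c _ _ => measure_preimage_mul μ (iota599 hr c) _⟩

/-- Unfolding of an integral over `GL₂(𝔸_K)`. -/
theorem integral_unfold599 (hAN : T1.AdNormC K) {μ : Measure (G K)} {F : Set (G K)}
    (hF : IsFrame μ F) {r : G K} (hr : IsRayGen r) (h : G K → ℂ) (hh : Integrable h μ) :
    ∫ z, h z ∂μ = ∑' p : Gam599 K, ∫ z in F, h (iota599 hr p * z) ∂μ := by
  have := hF.haar
  have := countable_gam599 K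
  let _ := act599 hr
  have := measurableConstSMul599 hr
  have := smulInvariantMeasure599 μ hr
  exact (isFundamentalDomain599 hAN hF hr).integral_eq_tsum'' h hh

/-- Unfolding of a lower integral over `GL₂(𝔸_K)`. -/
theorem lintegral_unfold599 (hAN : T1.AdNormC K) {μ : Measure (G K)} {F : Set (G K)}
    (hF : IsFrame μ F) {r : G K} (hr : IsRayGen r) (f : G K → ENNReal) :
    ∫⁻ z, f z ∂μ = ∑' p : Gam599 K, ∫⁻ z in F, f (iota599 hr p * z) ∂μ := by
  have := hF.haar
  have := countable_gam599 K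
  let _ := act599 hr
  have := measurableConstSMul599 hr
  have := smulInvariantMeasure599 μ hr
  exact (isFundamentalDomain599 hAN hF hr).lintegral_eq_tsum'' f

/-! ## The identity -/

/-- **The core identity**, for an arbitrary second point `y` (the leaf is the case
`y = σ(x)`):
`∑_δ (φ₁ ⋆ φ₂)♭(x⁻¹ δ y) = ∫_F K_{φ₁}(x,z) ∑_δ φ₂♭(z⁻¹ δ y) dz`. -/
theorem diag_core599 (hAN : T1.AdNormC K) (hD : T1.DiscreteC K)
    {μ : Measure (G K)} {F : Set (G K)} (hF : IsFrame μ F) {r : G K} (hr : IsRayGen r)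
    {φ₁ φ₂ : G K → ℂ} (c₁ : Continuous φ₁) (s₁ : HasCompactSupport φ₁)
    (c₂ : Continuous φ₂) (s₂ : HasCompactSupport φ₂) (x y : G K) :
    (∑' δ : GL (Fin 2) K, flat r (conv μ φ₁ φ₂) (x⁻¹ * ratG δ * y))
      = ∫ z in F, ker0 r φ₁ x z *
          (∑' δ : GL (Fin 2) K, flat r φ₂ (z⁻¹ * ratG δ * y)) ∂μ := by
  have := hF.haar
  have := countable_gam599 K
  have hC₁c : IsCompact (tsupport φ₁) := s₁
  have hC₂c : IsCompact (tsupport φ₂) := s₂
  have hCc : IsCompact (tsupport φ₁ * tsupport φ₂) := hC₁c.mul hC₂c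
  have hφ₁ : ∀ g, φ₁ g ≠ 0 → g ∈ tsupport φ₁ := fun g hg => subset_tsupport _ hg
  have hφ₂ : ∀ g, φ₂ g ≠ 0 → g ∈ tsupport φ₂ := fun g hg => subset_tsupport _ hg
  -- the summands
  let k : Gam599 K → G K → ℂ := fun p z => φ₁ (x⁻¹ * z) * φ₂ (z⁻¹ * iota599 hr p * y)
  -- the finite set of indices which matter
  have hP : {p : Gam599 K |
      iota599 hr p ∈ (fun g => x * g * y⁻¹) '' (tsupport φ₁ * tsupport φ₂)}.Finite :=
    finite_iota_mem599 hAN hD hr
      (hCc.image ((continuous_const_mul x).mul continuous_const))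
  let P₀ : Finset (Gam599 K) := hP.toFinset
  have hk0 : ∀ p, p ∉ P₀ → ∀ z, k p z = 0 := by
    intro p hp z
    by_contra hne
    apply hp
    have h1 : φ₁ (x⁻¹ * z) ≠ 0 := fun h1 => hne (by simp only [k]; rw [h1, zero_mul])
    have h2 : φ₂ (z⁻¹ * iota599 hr p * y) ≠ 0 :=
      fun h2 => hne (by simp only [k]; rw [h2, mul_zero])
    rw [Set.Finite.mem_toFinset]
    refine ⟨(x⁻¹ * z) * (z⁻¹ * iota599 hr p * y), ⟨_, hφ₁ _ h1, _, hφ₂ _ h2, rfl⟩, ?_⟩
    simp [mul_assoc]
  have hkc : ∀ p, Continuous (k p) := fun p =>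
    (c₁.comp (continuous_const_mul x⁻¹)).mul
      (c₂.comp ((continuous_inv.mul continuous_const).mul continuous_const))
  have hks : ∀ p, HasCompactSupport (k p) := fun p =>
    (s₁.comp_homeomorph (Homeomorph.mulLeft x⁻¹)).mul_right
      (f' := fun z => φ₂ (z⁻¹ * iota599 hr p * y))
  have hki : ∀ p, Integrable (k p) μ := fun p =>
    (hkc p).integrable_of_hasCompactSupport (hks p)
  -- the unfolded integrand
  let h : G K → ℂ := fun z => ∑ p ∈ P₀, k p z
  have hhi : Integrable h μ := integrable_finsetSum _ (fun p _ => hki p)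
  have hhc : Continuous h := continuous_finsetSum _ (fun p _ => hkc p)
  let Φ : G K → ℂ := fun z => ∑' p : Gam599 K, φ₂ (z⁻¹ * iota599 hr p * y)
  have hh : ∀ z, h z = φ₁ (x⁻¹ * z) * Φ z := by
    intro z
    have e1 : ∑' p : Gam599 K, k p z = ∑ p ∈ P₀, k p z :=
      tsum_eq_sum (fun p hp => hk0 p hp z)
    show ∑ p ∈ P₀, k p z = _
    rw [← e1]
    exact tsum_mul_left
  have hΦinv : ∀ (q : Gam599 K) (z : G K), Φ (iota599 hr q * z) = Φ z := by
    intro q z
    show ∑' p : Gam599 K, φ₂ ((iota599 hr q * z)⁻¹ * iota599 hr p * y)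
      = ∑' p : Gam599 K, φ₂ (z⁻¹ * iota599 hr p * y)
    rw [← Equiv.tsum_eq (Equiv.mulLeft q)
      (fun p => φ₂ ((iota599 hr q * z)⁻¹ * iota599 hr p * y))]
    refine tsum_congr fun p => ?_
    simp [mul_assoc]
  -- the left hand side
  have hL : (∑' δ : GL (Fin 2) K, flat r (conv μ φ₁ φ₂) (x⁻¹ * ratG δ * y))
      = ∫ z, h z ∂μ := by
    rw [tsum_flat_eq599 hAN hD hr hCc (conv_ne_zero599 μ φ₁ φ₂) x⁻¹ y]
    have e : ∀ p : Gam599 K,
        conv μ φ₁ φ₂ (x⁻¹ * iota599 hr p * y) = ∫ z, k p z ∂μ := by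
      intro p
      rw [mul_assoc, conv_shift599]
      refine integral_congr_ae (Filter.Eventually.of_forall fun z => ?_)
      simp [k, mul_assoc]
    simp_rw [e]
    rw [tsum_eq_sum (s := P₀) (fun p hp => by simp [hk0 p hp])]
    rw [integral_finsetSum _ (fun p _ => hki p)]
  -- the right hand side, pointwise
  have hR : ∀ z, ker0 r φ₁ x z * (∑' δ : GL (Fin 2) K, flat r φ₂ (z⁻¹ * ratG δ * y))
      = ∑' q : Gam599 K, h (iota599 hr q * z) := by
    intro z
    unfold ker0
    rw [tsum_flat_eq599 hAN hD hr hC₁c hφ₁ x⁻¹ z, tsum_flat_eq599 hAN hD hr hC₂c hφ₂ z⁻¹ y]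
    rw [← tsum_mul_right]
    refine tsum_congr fun q => ?_
    rw [hh, hΦinv, mul_assoc]
  simp_rw [hR]
  rw [hL, integral_unfold599 hAN hF hr h hhi]
  symm
  apply integral_tsum
  · intro q
    exact (hhc.comp (continuous_const_mul _)).aestronglyMeasurable
  · rw [← lintegral_unfold599 hAN hF hr (fun z => ‖h z‖ₑ)]
    exact hhi.hasFiniteIntegral.ne

/-- **T5.06 `LeafDiag`**, conditional on the interface Props `AdNormC`, `DiscreteC` of tower
T1 (both closed by T1). -/
theorem leafDiag_of599 (s : AdelicAut K) (𝔫 : Ideal (𝓞 K)) (τ : G K → ℂ)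
    (hAN : T1.AdNormC K) (hD : T1.DiscreteC K) : LeafDiag s 𝔫 τ := by
  intro μ F r hF hr _ φ₁ φ₂ t₁ t₂ x
  exact diag_core599 hAN hD hF hr t₁.cont t₁.supp t₂.cont t₂.supp x (s.onG x)

end Fermat.Agent.LT.T5.H599

end

end
-- ===== PACK-END LT/T5/H599/Diag.lean

-- ===== PACK-BEGIN LT/T5/H74/RangeFin.lean
section


/-!
# Row LT, tower T5, leaf T5.04 `LeafRange` (helper74): LOCAL FINITENESS of the kernel

OFF-MAIN.  INPUT `LocFin74 r` (a compact set of `GL₂(𝔸_K)` contains finitely many elements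
`γ rᵐ`, `γ ∈ GL₂(K)`, `m ∈ ℤ`: discreteness of `GL₂(K) ⟨r⟩`, output of T1).  Consequences for a
continuous `φ` of compact support and a CENTRAL `r`:

* `ker0_eq_sum74`      : on `U × U'` (`U, U'` compact) the kernel `K_φ(x, z)` is ONE finite sum;
* `continuous_ker0_74` : `(x, z) ↦ K_φ(x, z)` is continuous;
* `norm_ker0_le74`     : `‖K_φ(x, z)‖ ≤ M` for `x ∈ U` (`U` compact) and ALL `z`.
-/

set_option autoImplicit false

open IsDedekindDomain NumberField MeasureTheory
open scoped MatrixGroups ComplexConjugate Pointwise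

noncomputable section

namespace Fermat.Agent.LT.T5.H74

open Fermat.Agent.LT.H556.A0 Fermat.Agent.LT.T5

variable {K : Type} [Field K] [NumberField K]

/-- **INPUT (T1: `GL₂(K) ⟨r⟩` is discrete and closed in `GL₂(𝔸_K)`).**  A compact set contains
finitely many elements `γ rᵐ`. -/
def LocFin74 (r : G K) : Prop :=
  ∀ C : Set (G K), IsCompact C → {p : GL (Fin 2) K × ℤ | ratG p.1 * r ^ p.2 ∈ C}.Finite

/-- The summand of the kernel. -/
def term74 (r : G K) (φ : G K → ℂ) (x z : G K) (p : GL (Fin 2) K × ℤ) : ℂ :=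
  φ (x⁻¹ * ratG p.1 * z * r ^ p.2)

theorem central_zpow74 (r : G K) (hr : ∀ g : G K, r * g = g * r) (m : ℤ) (g : G K) :
    r ^ m * g = g * r ^ m :=
  ((Commute.zpow_left (show Commute r g from hr g) m)).eq

/-- If the summand does not vanish, `γ rᵐ ∈ x S z⁻¹`, `S` the support of `φ`. -/
theorem mem_of_term_ne_zero74 (r : G K) (hr : ∀ g : G K, r * g = g * r) (φ : G K → ℂ)
    (x z : G K) (p : GL (Fin 2) K × ℤ) (h : term74 r φ x z p ≠ 0) :
    ∃ s ∈ tsupport φ, ratG p.1 * r ^ p.2 = x * s * z⁻¹ := by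
  refine ⟨x⁻¹ * ratG p.1 * z * r ^ p.2, subset_tsupport _ h, ?_⟩
  have h1 : x⁻¹ * ratG p.1 * z * r ^ p.2 = x⁻¹ * (ratG p.1 * r ^ p.2) * z := by
    rw [mul_assoc (x⁻¹ * ratG p.1) z, ← central_zpow74 r hr p.2 z]
    simp only [mul_assoc]
  rw [h1]
  simp only [mul_assoc, mul_inv_cancel_left, mul_inv_cancel, mul_one]

/-- The compact set `U S U'⁻¹`. -/
def box74 (U S U' : Set (G K)) : Set (G K) :=
  (fun t : G K × G K × G K => t.1 * t.2.1 * t.2.2⁻¹) '' (U ×ˢ S ×ˢ U')

theorem isCompact_box74 {U S U' : Set (G K)} (hU : IsCompact U) (hS : IsCompact S)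
    (hU' : IsCompact U') : IsCompact (box74 U S U') := by
  apply (hU.prod (hS.prod hU')).image
  exact (continuous_fst.mul (continuous_fst.comp continuous_snd)).mul
    (continuous_snd.comp continuous_snd).inv

/-- The finite set of indices which can contribute on `U × U'`. -/
def idx74 (r : G K) (hfin : LocFin74 r) (φ : G K → ℂ) (hφ : HasCompactSupport φ)
    (U U' : Set (G K)) (hU : IsCompact U) (hU' : IsCompact U') : Finset (GL (Fin 2) K × ℤ) :=
  (hfin _ (isCompact_box74 hU hφ hU')).toFinset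

theorem term_eq_zero_of_not_mem74 (r : G K) (hr : ∀ g : G K, r * g = g * r)
    (hfin : LocFin74 r) (φ : G K → ℂ) (hφ : HasCompactSupport φ)
    (U U' : Set (G K)) (hU : IsCompact U) (hU' : IsCompact U') {x z : G K} (hx : x ∈ U)
    (hz : z ∈ U') {p : GL (Fin 2) K × ℤ} (hp : p ∉ idx74 r hfin φ hφ U U' hU hU') :
    term74 r φ x z p = 0 := by
  by_contra h
  apply hp
  obtain ⟨s, hs, hs'⟩ := mem_of_term_ne_zero74 r hr φ x z p h
  rw [idx74, Set.Finite.mem_toFinset, Set.mem_ofPred_eq, hs']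
  exact ⟨(x, s, z), ⟨hx, hs, hz⟩, rfl⟩

/-- The kernel is the sum of its terms over any finite set outside of which they vanish. -/
theorem ker0_eq_sum_of74 (r : G K) (φ : G K → ℂ) (x z : G K)
    (s : Finset (GL (Fin 2) K × ℤ)) (hs : ∀ p ∉ s, term74 r φ x z p = 0) :
    ker0 r φ x z = ∑ p ∈ s, term74 r φ x z p := by
  have hsupp : Function.HasFiniteSupport (term74 r φ x z) := by
    apply Set.Finite.subset s.finite_toSet
    intro p hp
    by_contra hps
    exact hp (hs p hps)
  have hsum : Summable (term74 r φ x z) := summable_of_hasFiniteSupport hsupp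
  have hsum' : ∀ γ : GL (Fin 2) K, Summable fun m : ℤ => term74 r φ x z (γ, m) := by
    intro γ
    apply summable_of_hasFiniteSupport
    apply Set.Finite.subset (hsupp.preimage (f := fun m : ℤ => (γ, m))
      (fun a _ b _ hab => (Prod.mk.inj hab).2))
    intro m hm
    exact hm
  have e1 : ∑' p, term74 r φ x z p = ∑ p ∈ s, term74 r φ x z p := tsum_eq_sum hs
  rw [← e1, hsum.tsum_prod' hsum']
  rfl

/-- On `U × U'` the kernel is ONE finite sum. -/
theorem ker0_eq_sum74 (r : G K) (hr : ∀ g : G K, r * g = g * r)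
    (hfin : LocFin74 r) (φ : G K → ℂ) (hφ : HasCompactSupport φ)
    (U U' : Set (G K)) (hU : IsCompact U) (hU' : IsCompact U') {x z : G K} (hx : x ∈ U)
    (hz : z ∈ U') :
    ker0 r φ x z = ∑ p ∈ idx74 r hfin φ hφ U U' hU hU', term74 r φ x z p :=
  ker0_eq_sum_of74 r φ x z _
    (fun _ hp => term_eq_zero_of_not_mem74 r hr hfin φ hφ U U' hU hU' hx hz hp)

/-- Each summand is continuous. -/
theorem continuous_term74 (r : G K) (φ : G K → ℂ) (hc : Continuous φ)
    (p : GL (Fin 2) K × ℤ) : Continuous fun q : G K × G K => term74 r φ q.1 q.2 p := by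
  unfold term74
  exact hc.comp (((continuous_fst.inv.mul continuous_const).mul continuous_snd).mul
    continuous_const)

/-- **The kernel is continuous** on `GL₂(𝔸_K) × GL₂(𝔸_K)`. -/
theorem continuous_ker0_74 [LocallyCompactSpace (G K)] (r : G K)
    (hr : ∀ g : G K, r * g = g * r) (hfin : LocFin74 r) (φ : G K → ℂ) (hc : Continuous φ)
    (hφ : HasCompactSupport φ) :
    Continuous fun q : G K × G K => ker0 r φ q.1 q.2 := by
  rw [continuous_iff_continuousAt]
  rintro ⟨x₀, z₀⟩
  obtain ⟨U, hU, hxU⟩ := exists_compact_mem_nhds x₀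
  obtain ⟨U', hU', hzU'⟩ := exists_compact_mem_nhds z₀
  have hcont : Continuous fun q : G K × G K =>
      ∑ p ∈ idx74 r hfin φ hφ U U' hU hU', term74 r φ q.1 q.2 p := by
    apply continuous_finsetSum
    intro p _
    exact continuous_term74 r φ hc p
  refine hcont.continuousAt.congr ?_
  have hnhds : U ×ˢ U' ∈ nhds (x₀, z₀) := prod_mem_nhds hxU hzU'
  filter_upwards [hnhds] with q hq
  exact (ker0_eq_sum74 r hr hfin φ hφ U U' hU hU' hq.1 hq.2).symm

/-- A continuous function of compact support is bounded. -/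
theorem exists_norm_le74 (φ : G K → ℂ) (hc : Continuous φ) (hφ : HasCompactSupport φ) :
    ∃ B : ℝ, 0 ≤ B ∧ ∀ g : G K, ‖φ g‖ ≤ B := by
  obtain ⟨B, hB⟩ := hc.norm.bddAbove_range_of_hasCompactSupport hφ.norm
  refine ⟨B, le_trans (norm_nonneg (φ 1)) (hB ⟨1, rfl⟩), fun g => hB ⟨g, rfl⟩⟩

/-- `γ rᵐ (γ₀ rᵐ⁰)⁻¹ = (γ γ₀⁻¹) r^{m - m₀}`. -/
theorem ratG_mul_zpow_div74 (r : G K) (hr : ∀ g : G K, r * g = g * r)
    (p p₀ : GL (Fin 2) K × ℤ) :
    ratG (p.1 * p₀.1⁻¹) * r ^ (p.2 - p₀.2)
      = ratG p.1 * r ^ p.2 * (ratG p₀.1 * r ^ p₀.2)⁻¹ := by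
  rw [map_mul, map_inv, zpow_sub, mul_inv_rev]
  have h1 : r ^ p.2 * ((r ^ p₀.2)⁻¹ * (ratG p₀.1)⁻¹)
      = (ratG p₀.1)⁻¹ * (r ^ p.2 * (r ^ p₀.2)⁻¹) := by
    rw [← mul_assoc, ← zpow_neg, ← zpow_add, central_zpow74 r hr, zpow_add, zpow_neg]
  rw [mul_assoc (ratG p.1) (r ^ p.2), h1]
  simp only [mul_assoc]

/-- **Uniform bound of the kernel in the second variable.**  For `x` in a compact set and ALL
`z`: the number of non-vanishing terms of `K_φ(x, z)` is bounded by the number of `γ rᵐ` in the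
compact set `U S S⁻¹ U⁻¹`. -/
theorem norm_ker0_le74 (r : G K) (hr : ∀ g : G K, r * g = g * r) (hfin : LocFin74 r)
    (φ : G K → ℂ) (hc : Continuous φ) (hφ : HasCompactSupport φ) (U : Set (G K))
    (hU : IsCompact U) :
    ∃ M : ℝ, 0 ≤ M ∧ ∀ x ∈ U, ∀ z : G K, ‖ker0 r φ x z‖ ≤ M := by
  obtain ⟨B, hB0, hB⟩ := exists_norm_le74 φ hc hφ
  have hcomp : IsCompact (box74 (box74 U (tsupport φ) (tsupport φ)) ({1} : Set (G K)) U) :=
    isCompact_box74 (isCompact_box74 hU hφ hφ) isCompact_singleton hU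
  set T : Finset (GL (Fin 2) K × ℤ) := (hfin _ hcomp).toFinset with hT
  refine ⟨T.card * B, mul_nonneg (Nat.cast_nonneg _) hB0, ?_⟩
  intro x hx z
  -- the set of contributing indices
  set A : Set (GL (Fin 2) K × ℤ) := {p | term74 r φ x z p ≠ 0} with hA
  by_cases hne : A.Nonempty
  · obtain ⟨p₀, hp₀⟩ := hne
    set g : GL (Fin 2) K × ℤ → GL (Fin 2) K × ℤ := fun p => (p.1 * p₀.1⁻¹, p.2 - p₀.2) with hg
    have hinj : Set.InjOn g A := by
      intro a _ b _ hab
      have h1 : a.1 * p₀.1⁻¹ = b.1 * p₀.1⁻¹ := congrArg Prod.fst hab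
      have h2 : a.2 - p₀.2 = b.2 - p₀.2 := congrArg Prod.snd hab
      exact Prod.ext (mul_right_cancel h1) (sub_left_inj.mp h2)
    have hmaps : Set.MapsTo g A (T : Set (GL (Fin 2) K × ℤ)) := by
      intro p hp
      obtain ⟨s, hs, hs'⟩ := mem_of_term_ne_zero74 r hr φ x z p hp
      obtain ⟨s₀, hs₀, hs₀'⟩ := mem_of_term_ne_zero74 r hr φ x z p₀ hp₀
      rw [hT, Set.Finite.coe_toFinset, Set.mem_ofPred_eq]
      show ratG (p.1 * p₀.1⁻¹) * r ^ (p.2 - p₀.2) ∈ _
      rw [ratG_mul_zpow_div74 r hr p p₀, hs', hs₀']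
      refine ⟨(x * s * s₀⁻¹, 1, x), ⟨⟨(x, s, s₀), ⟨hx, hs, hs₀⟩, rfl⟩, rfl, hx⟩, ?_⟩
      simp only [mul_inv_rev, inv_inv, mul_assoc, inv_mul_cancel_left, mul_one]
    have hAfin : A.Finite := Set.Finite.of_injOn hmaps hinj T.finite_toSet
    have hcard : hAfin.toFinset.card ≤ T.card := by
      apply Finset.card_le_card_of_injOn g
      · intro p hp
        exact hmaps (by simpa using hp)
      · intro a ha b hb hab
        exact hinj (by simpa using ha) (by simpa using hb) hab
    rw [ker0_eq_sum_of74 r φ x z hAfin.toFinset (fun p hp => by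
      by_contra h
      exact hp ((Set.Finite.mem_toFinset hAfin).mpr h))]
    calc ‖∑ p ∈ hAfin.toFinset, term74 r φ x z p‖
        ≤ ∑ p ∈ hAfin.toFinset, ‖term74 r φ x z p‖ := norm_sum_le _ _
      _ ≤ hAfin.toFinset.card • B := Finset.sum_le_card_nsmul _ _ _ (fun p _ => hB _)
      _ = hAfin.toFinset.card * B := by rw [nsmul_eq_mul]
      _ ≤ T.card * B := by
          apply mul_le_mul_of_nonneg_right _ hB0
          exact_mod_cast hcard
  · rw [Set.not_nonempty_iff_eq_empty] at hne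
    rw [ker0_eq_sum_of74 r φ x z ∅ (fun p _ => by
      by_contra h
      have : p ∈ A := h
      rw [hne] at this
      exact this)]
    simp only [Finset.sum_empty, norm_zero]
    exact mul_nonneg (Nat.cast_nonneg _) hB0

end Fermat.Agent.LT.T5.H74

end

end
-- ===== PACK-END LT/T5/H74/RangeFin.lean

-- ===== PACK-BEGIN LT/T7/Spec.lean
section






/-!
# Row LT, tower T7 (architect helper797): comparison, descent, fibres -- SPEC v1.2

OFF-MAIN.  Definitions, frozen Props, PROVED top.  No `sorry`, no opaque constant, nothing assumed.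

Vocabulary: `LT/H556/A0.lean` (notion), `LT/H130/Wall.lean` (fields, stations, Frobenius data),
`LT/H556/WallTop.lean` (the frozen leaves `A3c_556`, `A3q_556`), all byte-identical copies of
origin/helper556@0fa0be5a0.

## What T7 delivers

`top : ... → WT.A3c_556 ∧ WT.A3q_556` (both VERBATIM the leaves of the frozen wall).

## Shape of the tower

```
A3c_556  ⇐  DictEFC  +  DescTrivAll
A3q_556  ⇐  DictFQC  +  SqrtC  +  MidStableC  +  DescQ3All
DescTrivAll ⇐ DescAll + TwistAll                      (leaf  DescTrivFromC, elementary)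
MidStableC  ⇐ MidUniqueC + ConjAll                    (leaf  MidStableFromUniqueC, elementary)
MidUniqueC  ⇐ ThinC + RigidAll                        (leaf  MidUniqueFromC, elementary)
DescAll, DescQ3All     NODES: comparison of the trace identities of T4/T5 through the matching
                       of T6, separation, non-vanishing, archimedean type (`T7/Comparison.lean`)
ThinC                  NODE: mass bound over `F` (the method of tower T8, over `ℚ(√-3)`)
RigidAll               NODE: Rankin--Selberg rigidity (Jacquet--Shalika) -- NOT a consequence of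
                       the comparison of trace formulas, see `FibreC`
TwistAll, ConjAll, DictEFC, DictFQC                   (LEAVES, no trace formula)
```

WHY `ThinC + RigidAll` (v1).  The station `F` of the frozen wall carries `MidData` only, and
`MidData` determines `a_v` at the places inert in `E/F` only up to the finite ambiguity
`a_v³ - 3 a_v = ± 2`, i.e. `a_v ∈ {true value ∓ 1, degenerate value ± 2}`.  The quadratic descent
needs `π_F ≅ π_F ∘ s` for the conjugation `s` of `F`, hence the UNIQUENESS of the form with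
`MidData` (`MidUniqueC`).  This is the fibre theorem of base change ([L] §2 (d)), and it CANNOT be
extracted from the comparison of trace formulas: at an inert unramified place every function `f_v`
with a matching `φ_w` has a trace on `I(α, β)` which depends on `(α^ℓ, β^ℓ)` only (its hyperbolic
orbital integrals are supported on norms, and the characters of the principal series vanish on
the elliptic set), so `I(ζ, ζ̄)` and `I(1, 1)` are not separated.  In the literature the fibres are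
obtained from `L(s, π × π̃')` ([L] §11, Arthur--Clozel III.3, [JS]).  Here: `ThinC` (the degenerate
places form a thin set: the elementary mass bound) and `RigidAll` (two cuspidal representations
which agree outside a thin set are equal).

All Props are statements about Hecke eigensystems `AutomorphicForm.HeckeEigensystem K ℂ`
(Prelude) in the UNITARY normalisation of A0 (`a_v = α_v + β_v`, `b_v = α_v β_v`).

## The traps respected (memo `coord/LT-A3-helper797.md` §1)

* the base change relation at a place of residue degree `f` is the SATAKE POWER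
  `a_w = satakePow f a_v b_v`, `b_w = b_v ^ f` -- at the inert places `a_v` itself is NOT
  determined by the data upstairs;
* every relation holds outside a FINITE set of places only, nothing is claimed at the bad places;
* the station `F` does not carry Galois stability: `A3q_556` CONTAINS the fibre theorem for
  `E/F` (`MidStableC`);
* `FibreC` is stated for TRIVIAL central characters and ODD degree (then the fibre is a point);
  it is NOT a consequence of the comparison of trace formulas (see below);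
* no parity claim in the quadratic descent: `DescQC` ends in the TWO alternatives of
  `A0.notion556` (Maass form of eigenvalue `1/4`, or holomorphic of weight one);
* degree, Galois property and the type of the infinite places are carried explicitly.

References: [L] R. P. Langlands, *Base change for GL(2)*, Ann. of Math. Studies 96 (1980);
[GJ] Gelbart--Jacquet, *Forms of GL(2) from the analytic point of view*, Proc. Symp. Pure Math. 33
(1979); [F] Y. Flicker, *Regular trace formula and base change lifting*, Amer. J. Math. 110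
(1988); [LV] Lindenstrauss--Venkatesh, GAFA 17 (2007) §§3-4 (memo of helper261); [JS]
Jacquet--Shalika, *On Euler products and the classification of automorphic representations I*,
Amer. J. Math. 103 (1981) (strong multiplicity one); [C] Casselman, *On some results of Atkin and
Lehner*, Math. Ann. 201 (1973).
-/

set_option autoImplicit false

open AutomorphicForm FLT.ExplicitLift EisensteinWeightOne
open WeierstrassCurve CongruenceSubgroup
open IsDedekindDomain NumberField
open scoped MatrixGroups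

noncomputable section

namespace Fermat.Agent.LT.T7

open Fermat.Agent.LT.H130 Fermat.Agent.LT.H556

local notation "Γℚ" => (AlgebraicClosure ℚ ≃ₐ[ℚ] AlgebraicClosure ℚ)

/-! ## 1. Vocabulary: places, residue degrees, base change of eigensystems -/

section Relative

variable (K K' : Type) [Field K] [NumberField K] [Field K'] [NumberField K'] [Algebra K K']

/-- `K'/K` is a Galois extension of prime degree `ℓ` (hence cyclic). -/
structure IsCycExt (ℓ : ℕ) : Prop where
  prime : ℓ.Prime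
  galois : IsGalois K K'
  degree : Module.finrank K K' = ℓ

/-- The finite place `w` of `K'` lies over the finite place `v` of `K`
(`w ∩ 𝓞_K = v`, written without any algebra structure on the rings of integers). -/
def PlaceOver (v : HeightOneSpectrum (𝓞 K)) (w : HeightOneSpectrum (𝓞 K')) : Prop :=
  ∀ (x : 𝓞 K) (y : 𝓞 K'), (y : K') = algebraMap K K' (x : K) →
    (x ∈ v.asIdeal ↔ y ∈ w.asIdeal)

/-- `w` lies over `v` with residue degree `f`: `N w = (N v) ^ f`. -/
def HasResDeg (v : HeightOneSpectrum (𝓞 K)) (w : HeightOneSpectrum (𝓞 K')) (f : ℕ) : Prop :=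
  PlaceOver K K' v w ∧ Ideal.absNorm w.asIdeal = Ideal.absNorm v.asIdeal ^ f

variable {K K'}

/-- **Base change relation** between an eigensystem `π` over `K` and an eigensystem `Φ` over
`K'`, outside a finite set of places of `K'`: at `w ∣ v` of residue degree `f` the Satake
parameter of `Φ_w` is the `f`-th power of the one of `π_v`:
`a_w = α_v^f + β_v^f = satakePow f a_v b_v`, `b_w = b_v^f`.  ([L] §2 (ii): local lifting of
unramified representations; at a split place `f = 1` and `Φ_w = π_v`.) -/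
def IsBC (π : HeckeEigensystem K ℂ) (Φ : HeckeEigensystem K' ℂ) : Prop :=
  ∃ S : Finset (HeightOneSpectrum (𝓞 K')), ∀ w : HeightOneSpectrum (𝓞 K'), w ∉ S →
    ∀ (v : HeightOneSpectrum (𝓞 K)) (f : ℕ), HasResDeg K K' v w f →
      Φ.a w = satakePow f (π.a v) (π.b v) ∧ Φ.b w = π.b v ^ f

/-- `π` and `π'` (over `K`) have the same base change data to `K'` outside a finite set. -/
def SameBC (K' : Type) [Field K'] [NumberField K'] [Algebra K K']
    (π π' : HeckeEigensystem K ℂ) : Prop :=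
  ∃ S : Finset (HeightOneSpectrum (𝓞 K')), ∀ w : HeightOneSpectrum (𝓞 K'), w ∉ S →
    ∀ (v : HeightOneSpectrum (𝓞 K)) (f : ℕ), HasResDeg K K' v w f →
      satakePow f (π.a v) (π.b v) = satakePow f (π'.a v) (π'.b v) ∧ π.b v ^ f = π'.b v ^ f

/-- The eigensystem `Φ` over `K'` is constant on the fibres of `w ↦ w ∩ K`, outside a finite
set: the eigensystem form of `Φ ∘ σ ≅ Φ` for all `σ ∈ Gal(K'/K)` (the Galois group permutes the
places over `v` transitively). -/
def ConstOnFibres (K : Type) [Field K] [NumberField K] [Algebra K K']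
    (Φ : HeckeEigensystem K' ℂ) : Prop :=
  ∃ S : Finset (HeightOneSpectrum (𝓞 K')), ∀ w : HeightOneSpectrum (𝓞 K'), w ∉ S →
    ∀ w' : HeightOneSpectrum (𝓞 K'), w' ∉ S → ∀ v : HeightOneSpectrum (𝓞 K),
      PlaceOver K K' v w → PlaceOver K K' v w' → Φ.a w = Φ.a w' ∧ Φ.b w = Φ.b w'

end Relative

section Absolute

variable (K : Type) [Field K] [NumberField K]

/-- `K` is totally complex. -/
def TotCplx : Prop := ∀ w : InfinitePlace K, w.IsComplex

/-- `K` is an imaginary quadratic field: one infinite place, and it is complex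
(`r₁ + 2 r₂ = [K : ℚ]`; stated without the `ℚ`-algebra structure of `K`). -/
def IsImagQuad : Prop := Nat.card (InfinitePlace K) = 1 ∧ TotCplx K

variable {K}

/-- The central character of `π` is trivial at almost all places. -/
def TrivCentral (π : HeckeEigensystem K ℂ) : Prop :=
  ∃ S : Finset (HeightOneSpectrum (𝓞 K)), ∀ v : HeightOneSpectrum (𝓞 K), v ∉ S → π.b v = 1

/-- `π` and `π'` agree at almost all places. -/
def AEq (π π' : HeckeEigensystem K ℂ) : Prop :=
  ∃ S : Finset (HeightOneSpectrum (𝓞 K)), ∀ v : HeightOneSpectrum (𝓞 K), v ∉ S →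
    π.a v = π'.a v ∧ π.b v = π'.b v

/-- The finite place `v'` is the image of `v` under the automorphism `s` of `K`. -/
def PlaceImage (s : K ≃+* K) (v v' : HeightOneSpectrum (𝓞 K)) : Prop :=
  ∀ x y : 𝓞 K, (y : K) = s (x : K) → (x ∈ v.asIdeal ↔ y ∈ v'.asIdeal)

/-- **Base change relation for `F/ℚ`**, in the vocabulary of `H130.AlmostAllFrob` (places of `ℚ`
and of `F` over the prime number `p`; no `ℚ`-algebra structure of `F` is used): at `w ∣ p` of
residue degree `f` (`N w = p ^ f`), `a_w = satakePow f a_p b_p` and `b_w = b_p ^ f`. -/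
def IsBCQ (π : HeckeEigensystem ℚ ℂ) (Φ : HeckeEigensystem K ℂ) : Prop :=
  ∃ S : Finset ℕ, ∀ p : ℕ, p.Prime → p ∉ S →
    ∀ v : HeightOneSpectrum (𝓞 ℚ), ((p : ℕ) : 𝓞 ℚ) ∈ v.asIdeal →
    ∀ (w : HeightOneSpectrum (𝓞 K)) (f : ℕ), ((p : ℕ) : 𝓞 K) ∈ w.asIdeal →
      Ideal.absNorm w.asIdeal = p ^ f →
      Φ.a w = satakePow f (π.a v) (π.b v) ∧ Φ.b w = π.b v ^ f

/-- `Φ` (over `K`) takes the same values at the places over the same prime number, for almost
all primes: the eigensystem form of `Φ ∘ σ ≅ Φ` for all `σ ∈ Gal(K/ℚ)`, `K/ℚ` Galois. -/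
def ConstOnFibresQ (Φ : HeckeEigensystem K ℂ) : Prop :=
  ∃ S : Finset ℕ, ∀ p : ℕ, p.Prime → p ∉ S →
    ∀ w w' : HeightOneSpectrum (𝓞 K), ((p : ℕ) : 𝓞 K) ∈ w.asIdeal →
      ((p : ℕ) : 𝓞 K) ∈ w'.asIdeal → Φ.a w = Φ.a w' ∧ Φ.b w = Φ.b w'

end Absolute

/-! ## 2. The NODES: cyclic base change for `GL₂` in the vocabulary of A0

Each of the three Props is a theorem of Langlands for the cuspidal automorphic representation
generated by the cusp form of `A0.IsSph0CuspFormFor`.  (A function `φ` as in A0 is bounded,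
cuspidal and an eigenfunction of the centre, of the Laplacians and of almost all Hecke operators,
hence a cusp form in `L²`; by strong multiplicity one [JS], [C] it lies in ONE irreducible
cuspidal representation `Φ`, and `Φ_w = π(1,1)` at the complex places, `Φ_w ∈ {π(1,1),
π(sgn,sgn)}` at the real places.)  They are NODES of the tower, not leaves: their splitting into
leaves `≤ 3k` lines (trace identities of T4/T5, matching of T6, separation, non-vanishing,
archimedean type) is `T7/Comparison.lean`. -/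

section Nodes

variable (K K' : Type) [Field K] [NumberField K] [Field K'] [NumberField K'] [Algebra K K']

/-- **NODE DESC (cyclic descent, odd prime degree, totally complex base).**
[L] §2 Property (iii)/(c) and §11: for `K'/K` cyclic of prime degree, a cuspidal `Φ` with
`Φ^σ ≅ Φ` is the lifting of a cuspidal `π`.  All infinite places of `K` are complex, hence split
in `K'`, so `π_v = Φ_w = π(1,1)` at infinity: the descent is again spherical of parameter `0`.
The level of `π` is NOT controlled. -/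
def DescC : Prop :=
  ∀ ℓ : ℕ, IsCycExt K K' ℓ → ℓ ≠ 2 → TotCplx K →
    ∀ Φ : HeckeEigensystem K' ℂ, A0.IsCuspAdelicSph0 K' Φ → ConstOnFibres K Φ →
      ∃ π : HeckeEigensystem K ℂ, A0.IsCuspAdelicSph0 K π ∧ IsBC π Φ

/-- **FIBRE (fibres of base change, odd prime degree, trivial central characters)** -- TRUE,
recorded for reference, NOT used by `top` (v1 uses `MidUniqueC`).
[L] §2 Property (iv)/(d): two cuspidal representations of `GL₂(𝔸_K)` with the same lifting to
`K'` (cuspidal, because `ℓ` is odd) differ by a power `ω^j` of a character `ω` of order `ℓ`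
attached to `K'/K`; the central characters differ by `ω^{2j}`, so for trivial central characters
and `ℓ` odd, `ω^j = 1` and `π' ≅ π`.
FALSE for `ℓ = 2` (`π ⊗ ω` has the same central character) -- hence `ℓ ≠ 2`.
FALSE without the central characters (the three descents) -- hence `TrivCentral`. -/
def FibreC : Prop :=
  ∀ ℓ : ℕ, IsCycExt K K' ℓ → ℓ ≠ 2 → TotCplx K →
    ∀ π π' : HeckeEigensystem K ℂ, A0.IsCuspAdelicSph0 K π → A0.IsCuspAdelicSph0 K π' →
      TrivCentral π → TrivCentral π' → SameBC K' π π' → AEq π π'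

end Nodes

/-- **NODE DESCQ (quadratic descent to `ℚ` from an imaginary quadratic field).**
[L] §2 (c) for `ℓ = 2`: a cuspidal `Φ` over `F` with `Φ^σ ≅ Φ` is the lifting of a cuspidal `π`
over `ℚ`.  At infinity `BC_{ℂ/ℝ}(π_∞) = π(1,1)`, i.e. the parameter of `π_∞` is trivial on
`W_ℂ = ℂˣ`, so it is a sum of two characters of `W_ℝ / ℂˣ = ℤ/2`:
`π_∞ ∈ {π(1,1), π(sgn,sgn)}` (first alternative of `A0.notion556`: a Maass form of eigenvalue
`1/4`, invariant under `SO(2)`) or `π_∞ = π(1,sgn)` (second alternative: the newform of `π` is a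
classical holomorphic cusp form of weight one on `Γ₁(N)`, `a_p = α_p + β_p`, `ε(p) = α_p β_p`;
[GJ] §4, Gelbart, *Automorphic forms on adele groups*, §5.C for the dictionary).
NO parity claim. -/
def DescQC (F : Type) [Field F] [NumberField F] : Prop :=
  IsImagQuad F →
    ∀ Φ : HeckeEigensystem F ℂ, A0.IsCuspAdelicSph0 F Φ → ConstOnFibresQ Φ →
      ∃ π : HeckeEigensystem ℚ ℂ, A0.notion556.IsCusp ℚ π ∧ IsBCQ π Φ

/-- `F` contains a square root of `-3` (so an imaginary quadratic `F` is `ℚ(√-3)`). -/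
def HasSqrtNegThree (F : Type) [Field F] : Prop := ∃ x : F, x * x = -3

/-- **NODE DESCQ3** = `DescQC` for `F = ℚ(√-3)` only (request of the architect of T6, helper22:
the class field theory input of the comparison, `T6.NormImageQC`, is available for
`ℚ(√-3)/ℚ` only; the wall needs nothing else).  This is the node USED by `top`. -/
def DescQ3C (F : Type) [Field F] [NumberField F] : Prop :=
  HasSqrtNegThree F → DescQC F

/-! ## 3. The LEAVES without trace formula -/

/-- **LEAF TWIST (twist by the central character).**  For a cusp form `φ` as in A0 the centre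
`Z(𝔸_K)` acts on `φ` by a character `ω` of finite order (`φ` is invariant under `Kˣ`, under
`Z(𝔸_K) ∩ U(𝔫)`, under `K_wˣ` at every infinite place, and `φ(g ϖ_v) = b_v φ(g)`), unramified
outside `𝔫`, `ω(ϖ_v) = b_v`; then `g ↦ ω(det g) φ(g)` is a cusp form as in A0 with eigenvalues
`(b_v a_v, b_v³)`.  Elementary (no trace formula): weak approximation for ideles + A0. -/
def TwistC (K : Type) [Field K] [NumberField K] : Prop :=
  ∀ π : HeckeEigensystem K ℂ, A0.IsCuspAdelicSph0 K π →
    ∃ π' : HeckeEigensystem K ℂ, A0.IsCuspAdelicSph0 K π' ∧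
      ∃ S : Finset (HeightOneSpectrum (𝓞 K)), ∀ v : HeightOneSpectrum (𝓞 K), v ∉ S →
        π'.a v = π.b v * π.a v ∧ π'.b v = π.b v ^ 3

/-- **LEAF CONJ (transport by an automorphism of the field).**  `s : K ≃+* K` extends to a
topological automorphism of `𝔸_K` permuting the places; `φ ∘ s⁻¹` is a cusp form as in A0 for the
level `s(𝔫)` with eigenvalues `a_{s v}' = a_v`, `b_{s v}' = b_v`.  (At a complex place the local
isomorphism may be conjugate-linear: `conj (rotZ α) = rotZ (-α) = - rotZ (2π - α)` and `-1` is a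
central element of `U(2)`, so the mean value property is preserved.)  Elementary. -/
def ConjC (K : Type) [Field K] [NumberField K] : Prop :=
  ∀ (s : K ≃+* K) (π : HeckeEigensystem K ℂ), A0.IsCuspAdelicSph0 K π →
    ∃ π' : HeckeEigensystem K ℂ, A0.IsCuspAdelicSph0 K π' ∧
      ∃ S : Finset (HeightOneSpectrum (𝓞 K)), ∀ v : HeightOneSpectrum (𝓞 K), v ∉ S →
        ∀ v' : HeightOneSpectrum (𝓞 K), PlaceImage s v v' →
          π'.a v' = π.a v ∧ π'.b v' = π.b v

/-- `DescC` for all cyclic extensions. -/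
def DescAll : Prop :=
  ∀ (K K' : Type) [Field K] [NumberField K] [Field K'] [NumberField K'] [Algebra K K'],
    DescC K K'

/-- `FibreC` for all cyclic extensions (not used by `top`). -/
def FibreAll : Prop :=
  ∀ (K K' : Type) [Field K] [NumberField K] [Field K'] [NumberField K'] [Algebra K K'],
    FibreC K K'

/-- `DescQC` for all imaginary quadratic fields. -/
def DescQAll : Prop := ∀ (F : Type) [Field F] [NumberField F], DescQC F

/-- `DescQ3C` for all number fields (i.e. for `ℚ(√-3)`). -/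
def DescQ3All : Prop := ∀ (F : Type) [Field F] [NumberField F], DescQ3C F

/-- `TwistC` for all number fields. -/
def TwistAll : Prop := ∀ (K : Type) [Field K] [NumberField K], TwistC K

/-- `ConjC` for all number fields. -/
def ConjAll : Prop := ∀ (K : Type) [Field K] [NumberField K], ConjC K

/-- **Descent with trivial central character** (odd prime degree): a `Gal(K'/K)`-stable cuspidal
`Φ` with trivial central character has a descent with trivial central character.
(From `DescC`: `b_v ^ f = 1` a.e., `f ∈ {1, ℓ}`, so `b_v ^ ℓ = 1`; twist the descent by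
`ω_π ^ ((ℓ - 1) / 2)`: `b` becomes `b ^ ℓ = 1`, and the base change does not move because
`ω_π ∘ N_{K'/K} = 1`.) -/
def DescTrivAll : Prop :=
  ∀ (K K' : Type) [Field K] [NumberField K] [Field K'] [NumberField K'] [Algebra K K'],
    IsCycExt K K' 3 → TotCplx K →
    ∀ Φ : HeckeEigensystem K' ℂ, A0.IsCuspAdelicSph0 K' Φ → ConstOnFibres K Φ →
      TrivCentral Φ →
      ∃ π : HeckeEigensystem K ℂ, A0.IsCuspAdelicSph0 K π ∧ IsBC π Φ ∧ TrivCentral π

/-- **LEAF T7.03 (elementary).**  `DescAll + TwistAll ⇒ DescTrivAll` for `ℓ = 3`: with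
`π' = ` the twist of `TwistC`, `b' = b³ = 1` a.e. (`b ^ f = 1`, `f ∣ 3`), at the split places
`b = 1` and `a' = a`, at the inert places `satakePow 3 (b a) (b³) = a³ - 3 a b = satakePow 3 a b`
(`b³ = 1`).  Needs: a place of `K'` lies over a unique place of `K` and has residue degree
`1` or `3`; finitely many places over a finite set. -/
def DescTrivFromC : Prop := DescAll → TwistAll → DescTrivAll

/-! ## 4. The dictionary leaves (fields `F ⊂ E` of the wall, Frobenius data) -/

/-- **LEAF DICT(E/F).**  Under `LTB.Hyp`: `F = fieldF ρ = ℚ(√-3)` is a number field, totally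
complex, `F ⊂ E = fieldE ρ`, `E/F` is Galois of degree `3` (group `SL₂(𝔽₃)/Q8`), and for the
inclusion as algebra structure:
* an eigensystem over `E` with the data `SeedData` is constant on the fibres over `F` and has
  trivial central character (its values at `w ∣ p` depend only on `ρ(Frob_p)`; a Frobenius
  element exists for every `p`);
* if `π` over `F` has trivial central character and base change `Φ` with `SeedData`, then `π`
  has `MidData` (for `p` unramified in `E`, `g = ρ(Frob_p)`: the residue degree of `v ∣ p` in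
  `F/ℚ` is `ordSL g`, the one of `w ∣ v` in `E/F` is `ordQ8 (g ^ ordSL g)`, and
  `ordQ8 g = ordSL g * ordQ8 (g ^ ordSL g)` because `GL₂(𝔽₃)/Q8 ≅ S₃`).
Galois theory of `ρ` + decomposition groups; no automorphic input. -/
def DictEFC : Prop :=
  ∀ (ρ : Γℚ →* GL (Fin 2) (ZMod 3)) (Ψ : GL (Fin 2) (ZMod 3) →* GL (Fin 2) (ℤ√(-2)))
    (ι : ℤ√(-2) →+* ℂ), LTB.Hyp ρ Ψ → ∀ (_ : NumberField (fieldE ρ)),
    ∃ (_ : NumberField (fieldF ρ)) (_ : Algebra (fieldF ρ) (fieldE ρ)),
      (∀ x : fieldF ρ, ((algebraMap (fieldF ρ) (fieldE ρ) x : fieldE ρ) : AlgebraicClosure ℚ)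
        = (x : AlgebraicClosure ℚ)) ∧
      IsCycExt (fieldF ρ) (fieldE ρ) 3 ∧ TotCplx (fieldF ρ) ∧
      ∀ Φ : HeckeEigensystem (fieldE ρ) ℂ, SeedData (fieldE ρ) ρ Ψ ι Φ →
        ConstOnFibres (fieldF ρ) Φ ∧ TrivCentral Φ ∧
        ∀ π : HeckeEigensystem (fieldF ρ) ℂ, IsBC π Φ → TrivCentral π →
          MidData (fieldF ρ) ρ Ψ ι π

/-- **LEAF DICT(F/ℚ).**  Under `LTB.Hyp`: `F = fieldF ρ` is imaginary quadratic, and if `π` over
`ℚ` has base change `πF` (relation `IsBCQ`) with `MidData`, then `π` has `BotData` (the residue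
degree of `v ∣ p` in `F/ℚ` is `ordSL (ρ Frob_p)`).  No automorphic input. -/
def DictFQC : Prop :=
  ∀ (ρ : Γℚ →* GL (Fin 2) (ZMod 3)) (Ψ : GL (Fin 2) (ZMod 3) →* GL (Fin 2) (ℤ√(-2)))
    (ι : ℤ√(-2) →+* ℂ), LTB.Hyp ρ Ψ → ∀ (_ : NumberField (fieldF ρ)),
    IsImagQuad (fieldF ρ) ∧
      ∀ πF : HeckeEigensystem (fieldF ρ) ℂ, MidData (fieldF ρ) ρ Ψ ι πF →
        ∀ π : HeckeEigensystem ℚ ℂ, IsBCQ π πF → BotData ρ Ψ ι π

/-- **LEAF T7.09 (elementary).**  Under `LTB.Hyp` the field `fieldF ρ` contains a square root of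
`-3`: `det ∘ ρ` is the cyclotomic character modulo `3`, so `fieldF ρ` is the fixed field of the
stabiliser of the cube roots of unity, and `(2 ζ₃ + 1)² = -3`. -/
def SqrtC : Prop :=
  ∀ (ρ : Γℚ →* GL (Fin 2) (ZMod 3)) (Ψ : GL (Fin 2) (ZMod 3) →* GL (Fin 2) (ℤ√(-2))),
    LTB.Hyp ρ Ψ → HasSqrtNegThree (fieldF ρ)

/-! ## 4b. Uniqueness at the station `F` (the fibre theorem in the form used by the wall) -/

/-- A set of prime numbers is THIN: `∑_{p ∈ A} 1/p < ∞`. -/
def IsThin (A : Set ℕ) : Prop := Summable fun p : A => ((p : ℕ) : ℝ)⁻¹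

/-- A set of finite places of `K` is THIN: `∑_{v ∈ A} 1/N v < ∞`. -/
def IsThinPlaces {K : Type} [Field K] [NumberField K] (A : Set (HeightOneSpectrum (𝓞 K))) :
    Prop :=
  Summable fun v : A => ((Ideal.absNorm (v : HeightOneSpectrum (𝓞 K)).asIdeal : ℕ) : ℝ)⁻¹

/-- `H130.AlmostAllFrob` with a THIN exceptional set of primes instead of a finite one. -/
def ThinFrob (K : Type) [Field K] [NumberField K] (ρ : Γℚ →* GL (Fin 2) (ZMod 3))
    (P : HeightOneSpectrum (𝓞 K) → GL (Fin 2) (ZMod 3) → Prop) : Prop :=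
  ∃ A : Set ℕ, IsThin A ∧ ∀ p : ℕ, p.Prime → p ∉ A →
    ∀ V : ValuationSubring (AlgebraicClosure ℚ), V.LiesOverPrime p →
      ∀ σ : Γℚ, V.IsFrobeniusAt σ p →
        ∀ w : HeightOneSpectrum (𝓞 K), ((p : ℕ) : 𝓞 K) ∈ w.asIdeal → P w (ρ σ)

/-- TRUE DATA over `F`, outside a thin set: `a_v = tr Ψ (Frob_v)`, `Frob_v = g ^ ordSL g`
(`tr Ψ` is a class function on `GL₂(𝔽₃)`, so the value does not depend on the place over `p`),
and `b_v = 1`. -/
def MidTrue (K : Type) [Field K] [NumberField K] (ρ : Γℚ →* GL (Fin 2) (ZMod 3))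
    (Ψ : GL (Fin 2) (ZMod 3) →* GL (Fin 2) (ℤ√(-2))) (ι : ℤ√(-2) →+* ℂ)
    (π : HeckeEigensystem K ℂ) : Prop :=
  ThinFrob K ρ fun v g => π.a v = trΨ Ψ ι (g ^ ordSL g) ∧ π.b v = 1

/-- **NODE THIN (mass bound over `F`).**  A cusp form over `F = ℚ(√-3)` with the data `MidData`
has the TRUE data outside a thin set of primes.
Proof plan.  (1) `MidData` gives, at `v ∣ p`, `p` split in `F`, `τ = ρ(Frob_p) ∈ SL₂(𝔽₃)`:
`a_v = tr Ψ τ` if `τ ∈ Q8`, and `a_v³ - 3 a_v = tr Ψ (τ³) = ± 2` otherwise, so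
`a_v ∈ {tr Ψ τ = ∓ 1, ± 2}` (`x³ - 3x ∓ 2 = (x ∓ 2)(x ± 1)²`); at `p` inert in `F`, `Frob_v ∈ Q8`
and `a_v = tr Ψ (Frob_v)`.  (2) ELEMENTARY MASS BOUND (the method of tower T8, helper19 /
helper51, over `F`; `F` has class number one): `φ` bounded ⇒ `∑_{N 𝔞 ≤ X} |a_𝔞|² = O(X)` ⇒
`∑_v |a_v|² N v^{-s} ≤ log (1/(s-1)) + O(1)` as `s → 1⁺` (Euler product, `|a_v| ≤ 2`).
(3) Chebotarev for `ρ` in the form `∑_{Frob_v ∈ C} N v^{-s} = (|C|/|G|) log (1/(s-1)) + O(1)`
and `⟨tr Ψ|_{SL₂}, tr Ψ|_{SL₂}⟩ = 1`: `∑_v |tr Ψ Frob_v|² N v^{-s} = log (1/(s-1)) + O(1)`.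
(4) Each degenerate place contributes `4 - 1 = 3`: `3 ∑_{v degenerate} N v^{-s} ≤ O(1)`.
NO Rankin--Selberg integral (upper bound only). -/
def ThinC : Prop :=
  ∀ (ρ : Γℚ →* GL (Fin 2) (ZMod 3)) (Ψ : GL (Fin 2) (ZMod 3) →* GL (Fin 2) (ℤ√(-2)))
    (ι : ℤ√(-2) →+* ℂ), LTB.Hyp ρ Ψ → ∀ (_ : NumberField (fieldF ρ))
    (π : HeckeEigensystem (fieldF ρ) ℂ), A0.IsCuspAdelicSph0 (fieldF ρ) π →
      MidData (fieldF ρ) ρ Ψ ι π → MidTrue (fieldF ρ) ρ Ψ ι π

/-- **NODE RIGID (strong multiplicity one outside a thin set).**  Two cusp forms over `K`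
(totally complex), spherical of parameter `0`, with trivial central characters and `|a_v| ≤ 2`
almost everywhere, which have the same eigenvalues outside a THIN set of places, have the same
eigenvalues almost everywhere.
[JS] Jacquet--Shalika (Thm 4.8 and its proof): `L^S(s, π × π̃')` is holomorphic at `s = 1` unless
`π' ≅ π`, and `L^S(s, π × π̃)` has a pole at `s = 1`; for tempered parameters
`log L^S(s, π × π̃') = ∑_v a_v ā'_v N v^{-s} + O(1)` and the thin set changes the sum by `O(1)`.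
(Also a special case of Ramakrishnan, *A refinement of the strong multiplicity one theorem for
GL(2)*, Invent. Math. 116 (1994): density `< 1/8`.)
Inputs: the Eisenstein series `E(g, s)` of `GL₂(𝔸_K)` induced from the trivial character near
`s = 1` (Epstein zeta function, Poisson summation `T3.PoissonC`), unfolding, the unramified
computation; the Whittaker function of parameter `0` at the complex places. -/
def RigidC (K : Type) [Field K] [NumberField K] : Prop :=
  TotCplx K →
  ∀ π π' : HeckeEigensystem K ℂ, A0.IsCuspAdelicSph0 K π → A0.IsCuspAdelicSph0 K π' →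
    TrivCentral π → TrivCentral π' →
    (∃ S : Finset (HeightOneSpectrum (𝓞 K)), ∀ v : HeightOneSpectrum (𝓞 K), v ∉ S →
      ‖π.a v‖ ≤ 2 ∧ ‖π'.a v‖ ≤ 2) →
    (∃ A : Set (HeightOneSpectrum (𝓞 K)), IsThinPlaces A ∧
      ∀ v : HeightOneSpectrum (𝓞 K), v ∉ A → π.a v = π'.a v) →
    AEq π π'

/-- `RigidC` for all number fields. -/
def RigidAll : Prop := ∀ (K : Type) [Field K] [NumberField K], RigidC K

/-- **Uniqueness at the station `F`.**  Two cusp forms over `F` with the data `MidData` (same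
`ρ`, `Ψ`, `ι`) have the same eigenvalues almost everywhere. -/
def MidUniqueC : Prop :=
  ∀ (ρ : Γℚ →* GL (Fin 2) (ZMod 3)) (Ψ : GL (Fin 2) (ZMod 3) →* GL (Fin 2) (ℤ√(-2)))
    (ι : ℤ√(-2) →+* ℂ), LTB.Hyp ρ Ψ → ∀ (_ : NumberField (fieldF ρ))
    (π π' : HeckeEigensystem (fieldF ρ) ℂ), A0.IsCuspAdelicSph0 (fieldF ρ) π →
      A0.IsCuspAdelicSph0 (fieldF ρ) π' →
      MidData (fieldF ρ) ρ Ψ ι π → MidData (fieldF ρ) ρ Ψ ι π' → AEq π π'

/-- **LEAF T7.07 (elementary).**  `ThinC + RigidAll ⇒ MidUniqueC`: both forms have the true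
data outside a thin set of primes, hence agree outside a thin set of places (at most two places
of `F` over a prime, `N v ≥ p`); `b = 1` and `|a_v| ≤ 2` almost everywhere by `MidData`
(`a_v = tr Ψ τ`, `τ ∈ Q8`, or `a_v³ - 3 a_v = ± 2`); `F` is totally complex. -/
def MidUniqueFromC : Prop := ThinC → RigidAll → MidUniqueC

/-- **Galois stability of the station `F`.**  A cusp form over `F` with the data `MidData` is
`Gal(F/ℚ)`-stable: its conjugate (`ConjC`) has the data `MidData` (`MidData` at `v` and at `s v`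
is the SAME identity), hence is equal to it almost everywhere by `MidUniqueC`. -/
def MidStableC : Prop :=
  ∀ (ρ : Γℚ →* GL (Fin 2) (ZMod 3)) (Ψ : GL (Fin 2) (ZMod 3) →* GL (Fin 2) (ℤ√(-2)))
    (ι : ℤ√(-2) →+* ℂ), LTB.Hyp ρ Ψ → ∀ (_ : NumberField (fieldF ρ))
    (πF : HeckeEigensystem (fieldF ρ) ℂ), A0.IsCuspAdelicSph0 (fieldF ρ) πF →
      MidData (fieldF ρ) ρ Ψ ι πF → ConstOnFibresQ πF

/-- **LEAF T7.04 (elementary; statement of v0, UNCHANGED).**
`FibreAll + ConjAll + DictEFC ⇒ MidStableC`.  Needs: `E` is a number field under `LTB.Hyp`; the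
non-trivial automorphism of `F`; at a prime `p` split in `F` the two places over `p` are exchanged
by it, at an inert prime there is one place.  (Not used by `top` since v1; used by `top'`.) -/
def MidStableFromC : Prop := FibreAll → ConjAll → DictEFC → MidStableC

/-- **LEAF T7.08 (elementary).**  `MidUniqueC + ConjAll ⇒ MidStableC`.  Needs: `F/ℚ` is Galois of
degree `2` under `LTB.Hyp` (the non-trivial automorphism `s` of `F`); the places of `F` over `p`
are `v` and `s v`; `MidData` is stable under `s` (same identity at `v` and at `s v`). -/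
def MidStableFromUniqueC : Prop := MidUniqueC → ConjAll → MidStableC

/-! ## 5. The top (PROVED) -/

/-- `A3c_556` from the dictionary and the descent with trivial central character. -/
theorem a3c_of (hD : DictEFC) (hT : DescTrivAll) : WT.A3c_556 := by
  intro ρ Ψ ι hyp hseed
  obtain ⟨nfE, Φ, hΦ, hdata⟩ := hseed
  obtain ⟨nfF, alg, -, hcyc, hcplx, hdict⟩ := hD ρ Ψ ι hyp nfE
  obtain ⟨hconst, htriv, hmid⟩ := hdict Φ hdata
  obtain ⟨π, hπ, hbc, hb⟩ := hT (fieldF ρ) (fieldE ρ) hcyc hcplx Φ hΦ hconst htriv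
  exact ⟨nfF, π, hπ, hmid π hbc hb⟩

/-- `A3q_556` from the dictionary, the Galois stability of the station `F` and the quadratic
descent. -/
theorem a3q_of (hD : DictFQC) (hS : MidStableC) (hQ : DescQAll) : WT.A3q_556 := by
  intro ρ Ψ ι hyp hmidAt
  obtain ⟨nfF, πF, hπF, hdata⟩ := hmidAt
  obtain ⟨hquad, hdict⟩ := hD ρ Ψ ι hyp nfF
  have hst := hS ρ Ψ ι hyp nfF πF hπF hdata
  have hQ' : DescQC (fieldF ρ) := hQ (fieldF ρ)
  unfold DescQC at hQ'
  obtain ⟨π, hπ, hbc⟩ := hQ' hquad πF hπF hst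
  exact ⟨π, hπ, hdict πF hdata π hbc⟩

/-- `A3q_556` from the dictionary, the Galois stability of the station `F` and the quadratic
descent for `ℚ(√-3)`. -/
theorem a3q_of3 (hD : DictFQC) (hR : SqrtC) (hS : MidStableC) (hQ : DescQ3All) : WT.A3q_556 := by
  intro ρ Ψ ι hyp hmidAt
  obtain ⟨nfF, πF, hπF, hdata⟩ := hmidAt
  obtain ⟨hquad, hdict⟩ := hD ρ Ψ ι hyp nfF
  have hst := hS ρ Ψ ι hyp nfF πF hπF hdata
  have hQ' : DescQ3C (fieldF ρ) := hQ (fieldF ρ)
  unfold DescQ3C DescQC at hQ'
  obtain ⟨π, hπ, hbc⟩ := hQ' (hR ρ Ψ hyp) hquad πF hπF hst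
  exact ⟨π, hπ, hdict πF hdata π hbc⟩

/-- **THE TOP OF TOWER T7**: the two descent leaves of the frozen wall, VERBATIM, from the four
nodes (`DescAll`, `DescQ3All`, `ThinC`, `RigidAll`) and the eight leaves without trace formula. -/
theorem top (hDesc : DescAll) (hDescQ : DescQ3All) (hThin : ThinC) (hRigid : RigidAll)
    (hTw : TwistAll) (hConj : ConjAll)
    (hDT : DescTrivFromC) (hMU : MidUniqueFromC) (hMS : MidStableFromUniqueC)
    (hEF : DictEFC) (hFQ : DictFQC) (hR : SqrtC) : WT.A3c_556 ∧ WT.A3q_556 :=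
  ⟨a3c_of hEF (hDT hDesc hTw), a3q_of3 hFQ hR (hMS (hMU hThin hRigid) hConj) hDescQ⟩

/-- The top of v0 (through the general fibre theorem `FibreAll`), kept: every leaf of v0 is
still a leaf. -/
theorem top' (hDesc : DescAll) (hFib : FibreAll) (hDescQ : DescQAll)
    (hTw : TwistAll) (hConj : ConjAll)
    (hDT : DescTrivFromC) (hMS : MidStableFromC)
    (hEF : DictEFC) (hFQ : DictFQC) : WT.A3c_556 ∧ WT.A3q_556 :=
  ⟨a3c_of hEF (hDT hDesc hTw), a3q_of hFQ (hMS hFib hConj hEF) hDescQ⟩

end Fermat.Agent.LT.T7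

end

end
-- ===== PACK-END LT/T7/Spec.lean

-- ===== PACK-BEGIN LT/T1/H671/HaarScale.lean
section








/-!
# Row LT, tower T1, shared prerequisite (helper671): the module of an idele is `adNorm`

OFF-MAIN.  NOT a leaf of `T1/Spec.lean`; a prerequisite shared by the leaves T1.06 (Fujisaki),
T1.14 (reduction), T1.17 (Siegel volume), T1.20 (elliptic tori) and T3.11.

* `adele_module671 : (distribHaarChar (Adl K) x : ℝ) = adNorm K x` for every idele `x`;
* `HaarScaleC K` / `haarScaleC671` : for every Haar measure `μ` on `𝔸_K` (Borel σ-algebra), every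
  idele `x` and EVERY set `X`: `μ (x X) = ‖x‖_𝔸 · μ X`;
* `haarScale_smul671` : the same with `x • X`;
* `haarScale_of_adNorm_eq_one671` : ideles of module one preserve Haar measure.
-/

set_option autoImplicit false

open MeasureTheory MeasureTheory.Measure TopologicalSpace NumberField IsDedekindDomain
open scoped NNReal Pointwise ENNReal

noncomputable section

namespace Fermat.Agent.LT.T1.H671

open Fermat.Agent.LT.H556.A0 Fermat.Agent.LT.T1

variable (K : Type) [Field K] [NumberField K]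

theorem locallyCompact_adele671 : LocallyCompactSpace (Adl K) :=
  Fermat.Agent.LT.H11.LC.locallyCompactSpace_adeleRing_h11 K

theorem secondCountable_adele671 : SecondCountableTopology (Adl K) :=
  Fermat.Agent.LT.H11.SC.secondCountableTopology_adeleRing_h11 K

attribute [local instance] locallyCompact_adele671 secondCountable_adele671
  locallyCompact_finiteAdele671 secondCountable_finiteAdele671

theorem secondCountable_infiniteAdele671 : SecondCountableTopology (InfiniteAdeleRing K) :=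
  Fermat.Agent.LT.H11.SC.secondCountableTopology_infiniteAdeleRing_h11 K

attribute [local instance] secondCountable_infiniteAdele671

variable {K}

/-- **The module of an idele is its adelic norm.** -/
theorem adele_module671 (x : (Adl K)ˣ) :
    (distribHaarChar (Adl K) x : ℝ) = adNorm K (x : Adl K) := by
  have h := distribHaarChar_prod671 (A := InfiniteAdeleRing K) (B := FiniteAdeleRing (𝓞 K) K) x
  have h' : distribHaarChar (Adl K) x
      = distribHaarChar (InfiniteAdeleRing K)
          (Units.map (RingHom.fst (InfiniteAdeleRing K) (FiniteAdeleRing (𝓞 K) K)).toMonoidHom x)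
        * distribHaarChar (FiniteAdeleRing (𝓞 K) K)
          (Units.map (RingHom.snd (InfiniteAdeleRing K) (FiniteAdeleRing (𝓞 K) K)).toMonoidHom x) :=
    h
  rw [h', NNReal.coe_mul, finiteAdele_module671, distribHaarChar_infiniteAdeleRing671]
  rw [adNorm]
  push_cast
  rfl

theorem adNorm_nonneg_of_unit671 (x : (Adl K)ˣ) : 0 ≤ adNorm K (x : Adl K) := by
  rw [← adele_module671]
  exact NNReal.coe_nonneg _

theorem adNorm_pos_of_unit671 (x : (Adl K)ˣ) : 0 < adNorm K (x : Adl K) := by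
  rw [← adele_module671]
  exact_mod_cast distribHaarChar_pos (A := Adl K) (g := x)

variable (K)

/-- **Scaling of Haar measure on the adeles** (frozen form): for every Haar measure `μ` on `𝔸_K`
(Borel σ-algebra), every idele `x` and every set `X`: `μ (x X) = ‖x‖_𝔸 · μ X`.
Weil BNT IV §4 (the module of an idele); Cassels–Fröhlich II §16. -/
def HaarScaleC : Prop :=
  letI : MeasurableSpace (Adl K) := borel (Adl K)
  ∀ μ : Measure (Adl K), μ.IsAddHaarMeasure → ∀ (x : (Adl K)ˣ) (X : Set (Adl K)),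
    μ ((fun y : Adl K => (x : Adl K) * y) '' X) = ENNReal.ofReal (adNorm K (x : Adl K)) * μ X

variable {K}

/-- The same with the pointwise action `x • X`. -/
theorem haarScale_smul671 [MeasurableSpace (Adl K)] [BorelSpace (Adl K)] (μ : Measure (Adl K))
    [μ.IsAddHaarMeasure] (x : (Adl K)ˣ) (X : Set (Adl K)) :
    μ (x • X) = ENNReal.ofReal (adNorm K (x : Adl K)) * μ X := by
  rw [← distribHaarChar_mul μ x X, ← adele_module671, ENNReal.ofReal_coe_nnreal]

variable (K)

/-- **`HaarScaleC` holds.** -/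
theorem haarScaleC671 : HaarScaleC K := by
  let _ : MeasurableSpace (Adl K) := borel (Adl K)
  have : BorelSpace (Adl K) := ⟨rfl⟩
  intro μ hμ x X
  have h := haarScale_smul671 μ x X
  have h2 : x • X = (fun y : Adl K => (x : Adl K) * y) '' X := by
    ext z
    simp [Set.mem_smul_set, Units.smul_def]
  rw [← h2]
  exact h

/-- Ideles of module one preserve every Haar measure of `𝔸_K`. -/
theorem haarScale_of_adNorm_eq_one671 :
    letI : MeasurableSpace (Adl K) := borel (Adl K)
    ∀ μ : Measure (Adl K), μ.IsAddHaarMeasure → ∀ (x : (Adl K)ˣ) (X : Set (Adl K)),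
      adNorm K (x : Adl K) = 1 → μ ((fun y : Adl K => (x : Adl K) * y) '' X) = μ X := by
  intro μ hμ x X hx
  have h := haarScaleC671 K μ hμ x X
  rw [hx, ENNReal.ofReal_one, one_mul] at h
  exact h

end Fermat.Agent.LT.T1.H671

end

end
-- ===== PACK-END LT/T1/H671/HaarScale.lean

-- ===== PACK-BEGIN LT/T7/H32/GeomDom.lean
section






/-!
# Row LT, tower T7, leaf T7.G1 `GeomC` (SPARE of helper32): fundamental domains of the twisted
# centralisers

OFF-MAIN.  `exists_isTwDomain32`: for a frame `(μ, F)` and every `δ ∈ GL₂(K)` the twisted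
centraliser `G^σ_δ(K)` has a strict Borel fundamental domain in the slab:

    F_δ = ⋃_{t ∈ T} (ratG t)⁻¹ F,    T = representatives of the left cosets `γ G^σ_δ(K)`.
-/

set_option autoImplicit false

open IsDedekindDomain NumberField MeasureTheory

noncomputable section

namespace Fermat.Agent.LT.T7.H32

open Fermat.Agent.LT Fermat.Agent.LT.H556.A0 Fermat.Agent.LT.T5

attribute [local instance] Fermat.Agent.LT.T5.instMeasurableSpaceG

variable {K : Type} [Field K] [NumberField K]

/-- The fundamental domain of a subgroup `H` of `GL₂(K)` built from the fundamental domain `F`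
of `GL₂(K)`. -/
def subDom32 (H : Subgroup (GL (Fin 2) K)) (F : Set (G K)) : Set (G K) :=
  ⋃ q : GL (Fin 2) K ⧸ H, (fun g : G K => ratG (Quotient.out q) * g) ⁻¹' F

theorem mem_subDom32 (H : Subgroup (GL (Fin 2) K)) (F : Set (G K)) (g : G K) :
    g ∈ subDom32 H F ↔ ∃ q : GL (Fin 2) K ⧸ H, ratG (Quotient.out q) * g ∈ F := by
  simp [subDom32]

theorem measurableSet_subDom32 (H : Subgroup (GL (Fin 2) K)) {F : Set (G K)}
    (hF : MeasurableSet F) : MeasurableSet (subDom32 H F) := by
  haveI : BorelSpace (G K) := ⟨rfl⟩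
  haveI : Countable (GL (Fin 2) K) := H71.countable_gl71 K
  haveI : Countable (GL (Fin 2) K ⧸ H) :=
    (QuotientGroup.mk_surjective (s := H)).countable
  refine MeasurableSet.iUnion fun q => ?_
  exact (continuous_const_mul (ratG (Quotient.out q))).measurable hF

theorem subDom_sub_slab32 (hN : T1.AdNormC K) (H : Subgroup (GL (Fin 2) K)) {F : Set (G K)}
    (hF : F ⊆ slab K) : subDom32 H F ⊆ slab K := by
  intro g hg
  obtain ⟨q, hq⟩ := (mem_subDom32 H F g).1 hg
  have h := H71.slab_ratG_mul71 hN (Quotient.out q)⁻¹ _ (hF hq)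
  rwa [← mul_assoc, ← map_mul, inv_mul_cancel, map_one, one_mul] at h

theorem subDom_strict32 (H : Subgroup (GL (Fin 2) K)) {F : Set (G K)}
    (hF : ∀ g ∈ slab K, ∃! γ : GL (Fin 2) K, ratG γ * g ∈ F) (g : G K) (hg : g ∈ slab K) :
    ∃! h : H, ratG (h : GL (Fin 2) K) * g ∈ subDom32 H F := by
  obtain ⟨γ₀, hγ₀, huniq⟩ := hF g hg
  set q₀ : GL (Fin 2) K ⧸ H := QuotientGroup.mk γ₀ with hq₀
  have hmem : (Quotient.out q₀)⁻¹ * γ₀ ∈ H := by
    rw [← QuotientGroup.eq]
    exact Quotient.out_eq q₀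
  refine ⟨⟨(Quotient.out q₀)⁻¹ * γ₀, hmem⟩, ?_, ?_⟩
  · show ratG ((Quotient.out q₀)⁻¹ * γ₀) * g ∈ subDom32 H F
    rw [mem_subDom32]
    refine ⟨q₀, ?_⟩
    rw [← mul_assoc, ← map_mul, mul_inv_cancel_left]
    exact hγ₀
  · rintro ⟨h, hh⟩ hmem'
    have hmem'' : ratG h * g ∈ subDom32 H F := hmem'
    rw [mem_subDom32] at hmem''
    obtain ⟨q, hq⟩ := hmem''
    rw [← mul_assoc, ← map_mul] at hq
    have e := huniq _ hq
    -- `q.out * h = γ₀`
    have hq' : q = q₀ := by
      rw [hq₀, ← Quotient.out_eq q]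
      show QuotientGroup.mk (Quotient.out q) = QuotientGroup.mk γ₀
      rw [QuotientGroup.eq, ← e, inv_mul_cancel_left]
      exact hh
    apply Subtype.ext
    show h = (Quotient.out q₀)⁻¹ * γ₀
    rw [← e, hq', inv_mul_cancel_left]

/-- **Fundamental domains of the twisted centralisers exist.** -/
theorem exists_isTwDomain32 (hN : T1.AdNormC K) {μ : Measure (G K)} {F : Set (G K)}
    (hF : IsFrame μ F) (s : AdelicAut K) (δ : GL (Fin 2) K) :
    ∃ Fδ : Set (G K), IsTwDomain s δ Fδ :=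
  ⟨subDom32 (twStab s δ) F,
    ⟨measurableSet_subDom32 _ hF.meas, subDom_sub_slab32 hN _ hF.sub,
      fun g hg => subDom_strict32 (twStab s δ) hF.strict g hg⟩⟩

end Fermat.Agent.LT.T7.H32

end

end
-- ===== PACK-END LT/T7/H32/GeomDom.lean

-- ===== PACK-BEGIN LT/H19/ParRankin.lean
section



/-!
# Row LT, end PAR (parity), piece PA2 (helper19): the abstract Rankin bound from a mean square bound

`rankin_of_msBound`: for ANY sequence `a : ℕ → ℂ` with `a 1 = 1`, the Hecke relations with trivial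
character at the primes `p ∤ N` and a mean square bound `∑_{n ≤ x} ‖a n‖² ≤ C x`,

  `∑_{p ∈ P} ‖a p‖² p^{-s} ≤ log (1 / (s - 1)) + C'`     (`1 < s ≤ 2`, `P` primes not dividing `N`).

No automorphic input: this is the abstract engine of the landed S48 (`S48.H308.rankin_abs`,
`S48.H648.sum_mul_rpow_neg_le`).  OFF-MAIN.
-/

set_option autoImplicit false

namespace Fermat.Agent.LT.H19

/-- Mean square bound `∑_{n ≤ x} ‖a n‖² ≤ C x`. -/
def MSBound (a : ℕ → ℂ) : Prop :=
  ∃ C : ℝ, 0 ≤ C ∧ ∀ x : ℕ, 1 ≤ x → ∑ n ∈ Finset.range (x + 1), ‖a n‖ ^ 2 ≤ C * (x : ℝ)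

/-- Bound for the Dirichlet series `∑ ‖a n‖² n^{-s}` on `(1, 2]`. -/
theorem dirichlet_of_msBound (a : ℕ → ℂ) (hMS : MSBound a) :
    ∃ C : ℝ, 0 < C ∧ ∀ s : ℝ, 1 < s → s ≤ 2 → ∀ F : Finset ℕ,
      ∑ n ∈ F, ‖a n‖ ^ 2 * (n : ℝ) ^ (-s) ≤ C / (s - 1) := by
  obtain ⟨C, hC, h⟩ := hMS
  refine ⟨4 * C + 1, by positivity, fun s hs hs2 F => ?_⟩
  classical
  have hsplit : ∑ n ∈ F, ‖a n‖ ^ 2 * (n : ℝ) ^ (-s) =
      ∑ n ∈ F.filter (fun n => 1 ≤ n), ‖a n‖ ^ 2 * (n : ℝ) ^ (-s) := by
    rw [Finset.sum_filter]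
    refine Finset.sum_congr rfl fun n _ => ?_
    split_ifs with hn
    · rfl
    · have hn0 : n = 0 := by omega
      subst hn0
      rw [Nat.cast_zero, Real.zero_rpow (by linarith), mul_zero]
  rw [hsplit]
  have key := Fermat.Agent.S48.H648.sum_mul_rpow_neg_le
    (b := fun n => ‖a n‖ ^ 2) (fun n => by positivity) hC
    (κ := 1) zero_le_one
    (fun x hx => by simpa using h x hx) (σ := s) hs (by linarith)
    (F.filter (fun n => 1 ≤ n)) (fun n hn => (Finset.mem_filter.mp hn).2)
  refine key.trans ?_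
  have hs0 : 0 < s - 1 := by linarith
  have e : (2 : ℝ) ^ ((1 : ℝ) + 1) = 4 := by
    rw [Real.rpow_add (by norm_num), Real.rpow_one]; norm_num
  rw [e]
  gcongr
  linarith

/-- **Abstract Rankin bound** for a Hecke eigensystem with trivial character and a mean square
bound. -/
theorem rankin_of_msBound (N : ℕ) (a : ℕ → ℂ) (h1 : a 1 = 1)
    (hT : ∀ p : ℕ, p.Prime → ¬ p ∣ N → ∀ n : ℕ,
      a (p * n) + (if p ∣ n then a (n / p) else 0) = a p * a n)
    (hMS : MSBound a) :
    ∃ C : ℝ, ∀ s : ℝ, 1 < s → s ≤ 2 → ∀ P : Finset ℕ, (∀ p ∈ P, p.Prime ∧ ¬ p ∣ N) →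
      ∑ p ∈ P, ‖a p‖ ^ 2 * (p : ℝ) ^ (-s) ≤ Real.log (1 / (s - 1)) + C := by
  obtain ⟨C, hC, h⟩ := dirichlet_of_msBound a hMS
  refine ⟨Real.log C + 2, fun s hs hs2 P hP => ?_⟩
  have hT' : ∀ p : ℕ, p.Prime → ¬ p ∣ N → ∀ n : ℕ,
      a (p * n) + (fun _ : ℕ => (1 : ℂ)) p * (if p ∣ n then a (n / p) else 0) = a p * a n := by
    intro p hp hpN n
    simpa using hT p hp hpN n
  have key := Fermat.Agent.S48.H308.rankin_abs N a (fun _ : ℕ => (1 : ℂ)) h1 hT'
    (fun _ _ _ => by simp) s hs (C / (s - 1)) (h s hs hs2) P hP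
  have hs0 : 0 < s - 1 := by linarith
  have hlog : Real.log (C / (s - 1)) = Real.log (1 / (s - 1)) + Real.log C := by
    rw [div_eq_mul_one_div, Real.log_mul hC.ne' (one_div_pos.mpr hs0).ne']
    ring
  rw [hlog] at key
  linarith

end Fermat.Agent.LT.H19

end
-- ===== PACK-END LT/H19/ParRankin.lean

-- ===== PACK-BEGIN LT/T8/H468/Core.lean
section


/-!
# Row LT, tower T8, sub-leaf P-A: the relation `∏ b(p) = 1` (helper468, OFF-MAIN)

For a cusp form `φ` in the sense of `A0.IsSph0CuspFormFor π φ`, a natural number `N ≠ 0` in the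
level and a list `L` of primes not dividing `N` with `± ∏ L ≡ 1 mod N`:
`∏_{p ∈ L} π.b (place over p) = 1`.

Proof: the rational scalar `q = ± ∏ L` acts trivially on the left; as an idele
`q = q_∞ · ∏_{p ∈ L} p_p · u`, `u` in the level group; `q_∞` acts trivially (positive scalars and
`-1 ∈ SO(2)`), `p_p` acts by `π.b`.
-/

set_option autoImplicit false

open IsDedekindDomain NumberField AutomorphicForm
open scoped MatrixGroups

noncomputable section

namespace Fermat.Agent.LT.T8.H468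

open Fermat.Agent.LT.H556.A0
open Rat.HeightOneSpectrum
open scoped Classical

/-! ## Places over primes -/

/-- The place of `ℚ` over `p` (a default place when `p` is not prime). -/
def plc468 (p : ℕ) : HeightOneSpectrum (𝓞 ℚ) :=
  if h : p.Prime then (primesEquiv (R := 𝓞 ℚ)).symm ⟨p, h⟩
  else (primesEquiv (R := 𝓞 ℚ)).symm ⟨2, Nat.prime_two⟩

theorem natGenerator_plc468 {p : ℕ} (hp : p.Prime) : natGenerator (plc468 p) = p := by
  unfold plc468
  rw [dif_pos hp]
  exact congrArg Subtype.val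
    (Equiv.apply_symm_apply (primesEquiv (R := 𝓞 ℚ)) ⟨p, hp⟩)

theorem plc468_natGenerator (v : HeightOneSpectrum (𝓞 ℚ)) : plc468 (natGenerator v) = v := by
  unfold plc468
  rw [dif_pos (prime_natGenerator v)]
  exact (primesEquiv (R := 𝓞 ℚ)).symm_apply_apply v

theorem eq_plc468_of_mem {p : ℕ} (hp : p.Prime) (w : HeightOneSpectrum (𝓞 ℚ))
    (hw : ((p : ℕ) : 𝓞 ℚ) ∈ w.asIdeal) : w = plc468 p := by
  have h1 : natGenerator w ∣ p := (natCast_mem_asIdeal_iff468 w p).1 hw
  have h2 : natGenerator w = p :=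
    (Nat.prime_dvd_prime_iff_eq (prime_natGenerator w) hp).1 h1
  rw [← h2, plc468_natGenerator]

theorem plc468_eq_iff {p : ℕ} (hp : p.Prime) (v : HeightOneSpectrum (𝓞 ℚ)) :
    plc468 p = v ↔ p = natGenerator v := by
  constructor
  · intro h
    rw [← h, natGenerator_plc468 hp]
  · intro h
    rw [h, plc468_natGenerator]

theorem natGenerator_ne_zero468 (v : HeightOneSpectrum (𝓞 ℚ)) :
    ((natGenerator v : ℕ) : ℚ) ≠ 0 := by
  have := (prime_natGenerator v).ne_zero
  exact_mod_cast this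

/-- The local idele `p_p`. -/
def loc468 (p : ℕ) : (Adl ℚ)ˣ :=
  locIdele468 (plc468 p) ((natGenerator (plc468 p) : ℕ) : ℚ) (natGenerator_ne_zero468 _)

theorem isScalarUniformizerAt_loc468 (p : ℕ) :
    IsScalarUniformizerAt (plc468 p) (sc468 (loc468 p)) :=
  isScalarUniformizerAt468 (plc468 p) (natGenerator_ne_zero468 _)

/-- A place over a prime not dividing `N` does not divide the level. -/
theorem not_dvd_level468 (𝔫 : Ideal (𝓞 ℚ)) (N : ℕ) (hN : ((N : ℕ) : 𝓞 ℚ) ∈ 𝔫) {p : ℕ}
    (hp : p.Prime) (hpN : ¬ p ∣ N) : ¬ (plc468 p).asIdeal ∣ 𝔫 := by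
  intro hd
  have h1 : ((N : ℕ) : 𝓞 ℚ) ∈ (plc468 p).asIdeal := Ideal.le_of_dvd hd hN
  have h2 := (natCast_mem_asIdeal_iff468 _ N).1 h1
  rw [natGenerator_plc468 hp] at h2
  exact hpN h2

/-! ## Components of inverses -/

theorem inv_snd468 (u : (Adl ℚ)ˣ) (v : HeightOneSpectrum (𝓞 ℚ)) :
    ((u⁻¹ : (Adl ℚ)ˣ) : Adl ℚ).2 v = ((u : Adl ℚ).2 v)⁻¹ := by
  have h : ((u⁻¹ : (Adl ℚ)ˣ) : Adl ℚ).2 v * (u : Adl ℚ).2 v = 1 := by
    rw [← mul_snd468, Units.inv_mul, one_snd468]
  exact eq_inv_of_mul_eq_one_left h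

theorem inv_fst468 (u : (Adl ℚ)ˣ) (w : InfinitePlace ℚ) :
    ((u⁻¹ : (Adl ℚ)ˣ) : Adl ℚ).1 w = ((u : Adl ℚ).1 w)⁻¹ := by
  have h : ((u⁻¹ : (Adl ℚ)ˣ) : Adl ℚ).1 w * (u : Adl ℚ).1 w = 1 := by
    rw [← mul_fst468, Units.inv_mul, one_fst468]
  exact eq_inv_of_mul_eq_one_left h

/-! ## Components of the product of the local ideles of a list -/

/-- The part of `∏ L` at `v`. -/
def tv468 (v : HeightOneSpectrum (𝓞 ℚ)) : List ℕ → ℕ
  | [] => 1
  | p :: L => (if plc468 p = v then natGenerator v else 1) * tv468 v L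

/-- The part of `∏ L` prime to `v`. -/
def tq468 (v : HeightOneSpectrum (𝓞 ℚ)) : List ℕ → ℕ
  | [] => 1
  | p :: L => (if plc468 p = v then 1 else p) * tq468 v L

theorem tv468_mul_tq468 (v : HeightOneSpectrum (𝓞 ℚ)) (L : List ℕ) (hL : ∀ p ∈ L, p.Prime) :
    tv468 v L * tq468 v L = L.prod := by
  induction L with
  | nil => simp [tv468, tq468]
  | cons p L ih =>
    have hp : p.Prime := hL p (List.mem_cons_self)
    have ih' := ih (fun r hr => hL r (List.mem_cons_of_mem _ hr))
    simp only [tv468, tq468, List.prod_cons]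
    by_cases h : plc468 p = v
    · rw [if_pos h, if_pos h, one_mul, mul_assoc, ih', ← (plc468_eq_iff hp v).1 h]
    · rw [if_neg h, if_neg h, one_mul, mul_left_comm, ih']

theorem tv468_ne_zero (v : HeightOneSpectrum (𝓞 ℚ)) (L : List ℕ) : tv468 v L ≠ 0 := by
  induction L with
  | nil => simp [tv468]
  | cons p L ih =>
    simp only [tv468]
    refine mul_ne_zero ?_ ih
    split_ifs
    · exact (prime_natGenerator v).ne_zero
    · exact one_ne_zero

theorem not_dvd_tq468 (v : HeightOneSpectrum (𝓞 ℚ)) (L : List ℕ) (hL : ∀ p ∈ L, p.Prime) :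
    ¬ natGenerator v ∣ tq468 v L := by
  induction L with
  | nil =>
    simp only [tq468]
    exact (prime_natGenerator v).one_lt.ne' ∘ Nat.dvd_one.1
  | cons p L ih =>
    have hp : p.Prime := hL p (List.mem_cons_self)
    have ih' := ih (fun r hr => hL r (List.mem_cons_of_mem _ hr))
    simp only [tq468]
    intro hd
    rcases (prime_natGenerator v).dvd_mul.1 hd with h | h
    · by_cases hpv : plc468 p = v
      · rw [if_pos hpv] at h
        exact (prime_natGenerator v).one_lt.ne' (Nat.dvd_one.1 h)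
      · rw [if_neg hpv] at h
        exact hpv ((plc468_eq_iff hp v).2
          ((Nat.prime_dvd_prime_iff_eq (prime_natGenerator v) hp).1 h).symm)
    · exact ih' h

/-- If the prime under `v` divides `N` and no prime of `L` divides `N`, then `tq = ∏ L`. -/
theorem tq468_eq_prod (v : HeightOneSpectrum (𝓞 ℚ)) (N : ℕ) (hv : natGenerator v ∣ N)
    (L : List ℕ) (hL : ∀ p ∈ L, p.Prime ∧ ¬ p ∣ N) : tq468 v L = L.prod := by
  induction L with
  | nil => simp [tq468]
  | cons p L ih =>
    have hp := hL p (List.mem_cons_self)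
    have ih' := ih (fun r hr => hL r (List.mem_cons_of_mem _ hr))
    simp only [tq468, List.prod_cons]
    have hne : ¬ plc468 p = v := by
      intro h
      have := (plc468_eq_iff hp.1 v).1 h
      exact hp.2 (this ▸ hv)
    rw [if_neg hne, ih']

/-- The product of the local ideles of a list. -/
def tprod468 (L : List ℕ) : (Adl ℚ)ˣ := (L.map loc468).prod

theorem tprod468_nil : tprod468 [] = 1 := rfl

theorem tprod468_cons (p : ℕ) (L : List ℕ) : tprod468 (p :: L) = loc468 p * tprod468 L := by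
  unfold tprod468
  rw [List.map_cons, List.prod_cons]

theorem tprod468_fst (L : List ℕ) (w : InfinitePlace ℚ) :
    ((tprod468 L : (Adl ℚ)ˣ) : Adl ℚ).1 w = 1 := by
  induction L with
  | nil => rw [tprod468_nil, Units.val_one, one_fst468]
  | cons p L ih =>
    rw [tprod468_cons, Units.val_mul, mul_fst468, ih, mul_one]
    unfold loc468
    rw [locIdele468_val, locPart468_fst]

theorem tprod468_snd (L : List ℕ) (v : HeightOneSpectrum (𝓞 ℚ)) :
    ((tprod468 L : (Adl ℚ)ˣ) : Adl ℚ).2 v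
      = algebraMap ℚ (v.adicCompletion ℚ) ((tv468 v L : ℕ) : ℚ) := by
  induction L with
  | nil =>
    rw [tprod468_nil, Units.val_one, one_snd468]
    simp [tv468]
  | cons p L ih =>
    rw [tprod468_cons, Units.val_mul, mul_snd468, ih]
    unfold loc468
    rw [locIdele468_val]
    simp only [tv468]
    by_cases h : plc468 p = v
    · subst h
      rw [locPart468_snd_same, if_pos rfl, ← map_mul]
      push_cast
      rfl
    · rw [locPart468_snd_ne _ _ _ (Ne.symm h), if_neg h, one_mul, one_mul]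

/-! ## The level condition for an integer unit at `v` -/

/-- For an integer `z` prime to `v` with `v ∤ N` or `N ∣ z - 1`: `z - 1` and `z⁻¹ - 1` lie in the
closure of the level at `v`. -/
theorem level_cond468 (𝔫 : Ideal (𝓞 ℚ)) (N : ℕ) (hN0 : N ≠ 0) (hN : ((N : ℕ) : 𝓞 ℚ) ∈ 𝔫)
    (v : HeightOneSpectrum (𝓞 ℚ)) (z : ℤ) (hz : ¬ (natGenerator v : ℤ) ∣ z)
    (h : ¬ natGenerator v ∣ N ∨ (N : ℤ) ∣ z - 1) :
    algebraMap ℚ (v.adicCompletion ℚ) (z : ℚ) - 1 ∈ idealClosure 𝔫 v ∧
      algebraMap ℚ (v.adicCompletion ℚ) ((z : ℚ)⁻¹) - 1 ∈ idealClosure 𝔫 v := by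
  have hNq : ((N : ℕ) : ℚ) ≠ 0 := by exact_mod_cast hN0
  have hz0 : (z : ℚ) ≠ 0 := by
    intro h0
    have : z = 0 := by exact_mod_cast h0
    exact hz (this ▸ dvd_zero _)
  have hvz : v.valuation ℚ (z : ℚ) = 1 := valuation_intCast_eq_one468 v z hz
  -- the key: `x = (z - 1) / N` is `v`-integral
  have hx : v.valuation ℚ (((z : ℚ) - 1) / (N : ℚ)) ≤ 1 := by
    rcases h with h | h
    · have hvN : v.valuation ℚ ((N : ℕ) : ℚ) = 1 := valuation_natCast_eq_one468 v N h
      rw [map_div₀, hvN, div_one]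
      have := valuation_intCast_le_one468 v (z - 1)
      simpa using this
    · obtain ⟨k, hk⟩ := h
      have : ((z : ℚ) - 1) / (N : ℚ) = (k : ℚ) := by
        have hk' : (z : ℚ) - 1 = (N : ℚ) * (k : ℚ) := by exact_mod_cast hk
        rw [hk']
        field_simp
      rw [this]
      exact valuation_intCast_le_one468 v k
  have hx' : v.valuation ℚ (-(((z : ℚ) - 1) / (N : ℚ)) / (z : ℚ)) ≤ 1 := by
    rw [map_div₀, hvz, div_one, Valuation.map_neg]
    exact hx
  have hmap : algebraMap (𝓞 ℚ) ℚ ((N : ℕ) : 𝓞 ℚ) = ((N : ℕ) : ℚ) := map_natCast _ N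
  constructor
  · have h1 := mem_idealClosure468 𝔫 v ((N : ℕ) : 𝓞 ℚ) hN _ hx
    rw [hmap] at h1
    have h2 : ((N : ℕ) : ℚ) * (((z : ℚ) - 1) / (N : ℚ)) = (z : ℚ) - 1 := by
      field_simp
    rw [h2, map_sub, map_one] at h1
    exact h1
  · have h1 := mem_idealClosure468 𝔫 v ((N : ℕ) : 𝓞 ℚ) hN _ hx'
    rw [hmap] at h1
    have h2 : ((N : ℕ) : ℚ) * (-(((z : ℚ) - 1) / (N : ℚ)) / (z : ℚ)) = (z : ℚ)⁻¹ - 1 := by
      field_simp
      ring
    rw [h2, map_sub, map_one] at h1
    exact h1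

/-! ## The Hecke relation along a list -/

/-- The product of the `S_p`-eigenvalues along a list. -/
def bprod468 (π : HeckeEigensystem ℚ ℂ) (L : List ℕ) : ℂ := (L.map (fun p => π.b (plc468 p))).prod

theorem bprod468_nil (π : HeckeEigensystem ℚ ℂ) : bprod468 π [] = 1 := rfl

theorem bprod468_cons (π : HeckeEigensystem ℚ ℂ) (p : ℕ) (L : List ℕ) :
    bprod468 π (p :: L) = π.b (plc468 p) * bprod468 π L := by
  unfold bprod468
  rw [List.map_cons, List.prod_cons]

theorem hecke_list468 (π : HeckeEigensystem ℚ ℂ) (φ : G ℚ → ℂ) (hφ : IsSph0CuspFormFor π φ)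
    (L : List ℕ) (hL : ∀ p ∈ L, ¬ (plc468 p).asIdeal ∣ π.level) (g : G ℚ) :
    φ (g * sc468 (tprod468 L)) = bprod468 π L * φ g := by
  induction L generalizing g with
  | nil => rw [tprod468_nil, map_one, mul_one, bprod468_nil, one_mul]
  | cons p L ih =>
    have hp := hL p (List.mem_cons_self)
    have ih' := ih (fun r hr => hL r (List.mem_cons_of_mem _ hr))
    rw [tprod468_cons, map_mul, ← mul_assoc, ih', bprod468_cons,
      (hφ.hecke (plc468 p) hp).2 _ (isScalarUniformizerAt_loc468 p) g]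
    ring

/-! ## Invariance under the infinite part of a rational scalar -/

theorem arch_inv468 (π : HeckeEigensystem ℚ ℂ) (φ : G ℚ → ℂ) (hφ : IsSph0CuspFormFor π φ)
    (q : ℚ) (hq : q ≠ 0) (g : G ℚ) : φ (g * sc468 (infIdele468 q hq)) = φ g := by
  rcases lt_or_gt_of_ne hq with h | h
  · -- `q < 0`: `q = (-1) * (-q)`
    have hnq : (0 : ℚ) < -q := neg_pos.2 h
    have hsplit : infIdele468 q hq
        = infIdele468 (-1) (by norm_num) * infIdele468 (-q) hnq.ne' := by
      apply Units.ext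
      rw [Units.val_mul, infIdele468_val, infIdele468_val, infIdele468_val, ← infPart468_mul]
      congr 1
      ring
    rw [hsplit, map_mul, ← mul_assoc,
      hφ.arch_scalar Rat.infinitePlace _ (isArchPosScalar468 _ (-q) hnq),
      hφ.arch_compact Rat.infinitePlace _ (isArchCompact_neg_one468 _)]
  · exact hφ.arch_scalar Rat.infinitePlace _ (isArchPosScalar468 _ q h) g

/-! ## The main relation -/

/-- The rational scalar matrix `q` in `GL₂(ℚ)`. -/
def gsc468 (q : ℚ) (hq : q ≠ 0) : GL (Fin 2) ℚ :=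
  Units.map (Matrix.scalar (Fin 2) : ℚ →+* Matrix (Fin 2) (Fin 2) ℚ).toMonoidHom (Units.mk0 q hq)

theorem gsc468_coe (q : ℚ) (hq : q ≠ 0) :
    ((gsc468 q hq : GL (Fin 2) ℚ) : Matrix (Fin 2) (Fin 2) ℚ) = Matrix.scalar (Fin 2) q := rfl

/-- **The relation.**  `N ≠ 0` in the level, `L` a list of primes not dividing `N`,
`ε ∏ L ≡ 1 mod N` with `ε = ± 1`: then `∏_{p ∈ L} b_p = 1`. -/
theorem bprod468_eq_one (π : HeckeEigensystem ℚ ℂ) (φ : G ℚ → ℂ) (hφ : IsSph0CuspFormFor π φ)
    (N : ℕ) (hN0 : N ≠ 0) (hN : ((N : ℕ) : 𝓞 ℚ) ∈ π.level)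
    (L : List ℕ) (hL : ∀ p ∈ L, p.Prime ∧ ¬ p ∣ N)
    (ε : ℤ) (hε : ε = 1 ∨ ε = -1) (hcong : (N : ℤ) ∣ ε * (L.prod : ℕ) - 1) :
    bprod468 π L = 1 := by
  obtain ⟨g₀, hg₀⟩ := hφ.ne_zero
  have hLp : ∀ p ∈ L, p.Prime := fun p hp => (hL p hp).1
  have hprod0 : L.prod ≠ 0 := by
    rw [← tv468_mul_tq468 (plc468 2) L hLp]
    exact mul_ne_zero (tv468_ne_zero _ _)
      (fun h0 => not_dvd_tq468 (plc468 2) L hLp (h0 ▸ dvd_zero _))
  have hε0 : (ε : ℚ) ≠ 0 := by
    rcases hε with h | h <;> rw [h] <;> norm_num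
  set q : ℚ := (ε : ℚ) * ((L.prod : ℕ) : ℚ) with hqdef
  have hq : q ≠ 0 := mul_ne_zero hε0 (by exact_mod_cast hprod0)
  -- the unit part
  set u : (Adl ℚ)ˣ := finIdele468 q hq * (tprod468 L)⁻¹ with hudef
  have hdecomp : infIdele468 q hq * finIdele468 q hq
      = infIdele468 q hq * tprod468 L * u := by
    rw [hudef, mul_assoc, mul_comm (finIdele468 q hq), mul_inv_cancel_left]
  -- components of `u`
  have hu1 : ∀ w : InfinitePlace ℚ, (u : Adl ℚ).1 w = 1 := by
    intro w
    rw [hudef, Units.val_mul, mul_fst468, inv_fst468, tprod468_fst, finIdele468_val,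
      finPart468_fst, inv_one, mul_one]
  have hz : ∀ v : HeightOneSpectrum (𝓞 ℚ),
      q / ((tv468 v L : ℕ) : ℚ) = ((ε * (tq468 v L : ℕ) : ℤ) : ℚ) := by
    intro v
    have h1 : ((tv468 v L : ℕ) : ℚ) ≠ 0 := by exact_mod_cast tv468_ne_zero v L
    have h2 : ((L.prod : ℕ) : ℚ) = ((tv468 v L : ℕ) : ℚ) * ((tq468 v L : ℕ) : ℚ) := by
      exact_mod_cast (tv468_mul_tq468 v L hLp).symm
    rw [hqdef, h2]
    push_cast
    field_simp
  have hu2 : ∀ v : HeightOneSpectrum (𝓞 ℚ), (u : Adl ℚ).2 v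
      = algebraMap ℚ (v.adicCompletion ℚ) ((ε * (tq468 v L : ℕ) : ℤ) : ℚ) := by
    intro v
    rw [hudef, Units.val_mul, mul_snd468, inv_snd468, tprod468_snd, finIdele468_val,
      finPart468_snd, ← map_inv₀, ← map_mul, ← div_eq_mul_inv, hz v]
  have hu3 : ∀ v : HeightOneSpectrum (𝓞 ℚ), ((u⁻¹ : (Adl ℚ)ˣ) : Adl ℚ).2 v
      = algebraMap ℚ (v.adicCompletion ℚ) (((ε * (tq468 v L : ℕ) : ℤ) : ℚ)⁻¹) := by
    intro v
    rw [inv_snd468, hu2 v, map_inv₀]
  -- the level condition
  have hcond : ∀ v : HeightOneSpectrum (𝓞 ℚ),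
      algebraMap ℚ (v.adicCompletion ℚ) ((ε * (tq468 v L : ℕ) : ℤ) : ℚ) - 1
          ∈ idealClosure π.level v ∧
        algebraMap ℚ (v.adicCompletion ℚ) (((ε * (tq468 v L : ℕ) : ℤ) : ℚ)⁻¹) - 1
          ∈ idealClosure π.level v := by
    intro v
    apply level_cond468 π.level N hN0 hN v
    · intro hd
      have hd' : (natGenerator v : ℤ) ∣ (tq468 v L : ℕ) := by
        rcases hε with h | h
        · rw [h, one_mul] at hd
          exact hd
        · rw [h, neg_one_mul, dvd_neg] at hd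
          exact hd
      exact not_dvd_tq468 v L hLp (Int.natCast_dvd_natCast.1 hd')
    · by_cases hvN : natGenerator v ∣ N
      · right
        rw [tq468_eq_prod v N hvN L hL]
        exact hcong
      · left
        exact hvN
  have hlevel : InLevelGroup π.level (sc468 u) :=
    inLevelGroup_sc468 π.level u hu1 (fun v => by rw [hu2 v]; exact (hcond v).1)
      (fun v => by rw [hu3 v]; exact (hcond v).2)
  -- the chain of invariances
  have hgood : ∀ p ∈ L, ¬ (plc468 p).asIdeal ∣ π.level := fun p hp =>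
    not_dvd_level468 π.level N hN (hL p hp).1 (hL p hp).2
  have h1 : φ (Matrix.GeneralLinearGroup.map (algebraMap ℚ (Adl ℚ)) (gsc468 q hq) * g₀) = φ g₀ :=
    hφ.left_inv (gsc468 q hq) g₀
  rw [map_scalar468 q hq (gsc468 q hq) (gsc468_coe q hq), sc468_comm, hdecomp, map_mul, map_mul,
    ← mul_assoc, ← mul_assoc, hφ.level_inv _ hlevel, hecke_list468 π φ hφ L hgood,
    arch_inv468 π φ hφ q hq] at h1
  have h2 : (bprod468 π L - 1) * φ g₀ = 0 := by
    rw [sub_mul, one_mul, h1, sub_self]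
  rcases mul_eq_zero.1 h2 with h | h
  · exact sub_eq_zero.1 h
  · exact absurd h hg₀

end Fermat.Agent.LT.T8.H468

end

end
-- ===== PACK-END LT/T8/H468/Core.lean

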