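import Mathlib
import Fermat.Agent.Pack.L1.E1L2
import Fermat.Agent.Pack.LT2.E2L1
import Fermat.Agent.Pack.LT2.E0L2
import Fermat.Agent.Pack.LT2.E3L2
import Fermat.Agent.Pack.LT2.E6L2
import Fermat.Agent.Pack.S43GC.G0E1L1
import Fermat.Agent.Pack.LT2.E6L3
import Fermat.Agent.Pack.LT2.E5L3
import Fermat.Agent.Pack.LT2.E6L1
import Fermat.Agent.Pack.LT2.E6L0
import Fermat.Agent.Pack.LT2.E2L3
import Fermat.Agent.Pack.LT2.E2L2
import Fermat.Agent.Pack.LT2.E0L1
import Fermat.Agent.Pack.LT2.E7L2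
import Fermat.Agent.Pack.LT2.E7L3

set_option linter.all false

-- ===== PACK-BEGIN LT/A2/H38/GalSeedSpec.lean
section







/-!
# Row LT, tower A2, branch GALSEED (co-architect helper38) -- frozen interfaces, level 2

OFF-MAIN.  Trunk of the tower: `Fermat/Agent/LT/A2/Spec.lean` (helper950), Prop `A2.GalSeedC`
(VERBATIM there).  Board: `origin/helper17:coord/LT-board2.md`.
Memo (routes, references, sizes, falsity audit): `origin/helper38:coord/LT-A2-GalSeed-helper38.md`.

## Objects (all explicit, nothing assumed)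

* `g0 = [[0,-1],[1,0]] ∈ SL₂(𝔽₃)` (order `4`), `C4 = ⟨g0⟩ ⊂ Q8`.
* `subC4 ρ = ρ⁻¹ C4`, `fieldL ρ` = its fixed field (`E = fieldE ρ ⊂ L = fieldL ρ ⊂ ℚ̄`),
  `algEL ρ` = the inclusion `E → L` as an algebra structure.
* `PlaceUnder K A w` : the finite place `w` of `K ⊂ ℚ̄` is the one cut out by the valuation
  subring `A` of `ℚ̄`.
* `thetaVal : C4 → ℂ`, `g0 ^ k ↦ i ^ k` (value `0` outside `C4`).
* `IsArtinOf ρ χ` : the idele class character `χ` of `L` is `θ ∘ Art_{M/L}` away from a finite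
  set of primes, IN TERMS OF `ρ` ONLY: for almost all `p`, every `A | p`, every Frobenius `σ` at
  `A`, the place `w = A ∩ L`: `χ` is unramified at `w`, and `χ(ϖ_w) = θ(ρ(σ)^f)`, `f` the least
  positive exponent with `ρ(σ)^f ∈ C4` (`= f(w | p)`, and `ρ(σ)^f = ρ(Frob_w)`).

## Level 2 (this file)

    GalSeedC ⟸ IotaC + NumFieldsC + TotCplxC + DegTwoC + ArtinSeedC + NonInvC + MatchC
                                                              (`galSeedC_of_leaves`, PROVED here)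

| leaf | content | reference | size |
|---|---|---|---|
| `IotaC` | a ring embedding `ℤ[√-2] → ℂ` | `Zsqrtd.lift` | 20 lines |
| `NumFieldsC` | `E`, `L` are number fields | Krull topology: `InfiniteGalois.isOpen_iff_finite` | 150 |
| `TotCplxC` | `E` is totally complex | `ζ₃ ∈ F ⊂ E` by `det ρ = ω̄` | 300 |
| `DegTwoC` | `[L : E] = 2` | Galois correspondence + `[Q8 : C4] = 2` + `ρ` onto | 500 |
| `ArtinSeedC` | `∃ χ`, idele class character of finite order, `IsArtinOf ρ χ` | ARTIN RECIPROCITY for the cyclic quartic `M / L` (tower CFT, helper53) + transport | tower |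
| `NonInvC` | `IsArtinOf ρ χ → NotGaloisInvariant E χ` | Chebotarev over `ℚ` (ON MAIN: `Lib/Cheb/Chebotarev.lean`) at `g0`; `χ(ϖ_{τ w}) = θ(g0⁻¹) = -i ≠ i` | 1500 |
| `MatchC` | `IsArtinOf ρ χ → InducedData χ π → SeedData E ρ Ψ ι π` | decomposition groups (Neukirch ANT I §9), `tr Ψ` on `Q8` | 3000 |

Every Prop is a TRUE statement of mathematics under the stated hypotheses (audit in the memo).
Definitions and the top only in this file (no `sorry`, nothing assumed).
-/

set_option autoImplicit false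

open IsDedekindDomain NumberField AutomorphicForm
open scoped MatrixGroups

noncomputable section

namespace Fermat.Agent.LT.A2.H38

open Fermat.Agent.LT.H130 Fermat.Agent.LT.H556 Fermat.Agent.LT.A2

local notation "Γℚ" => (AlgebraicClosure ℚ ≃ₐ[ℚ] AlgebraicClosure ℚ)

/-! ## The cyclic subgroup `C4 = ⟨g0⟩` and the field `L` -/

/-- `g0 = [[0,-1],[1,0]]`. -/
def g0 : GL (Fin 2) (ZMod 3) := ⟨!![0, 2; 1, 0], !![0, 1; 2, 0], by decide, by decide⟩

theorem det_g0 : Matrix.GeneralLinearGroup.det g0 = 1 := Units.ext (by decide)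

theorem g0_pow_four : g0 ^ 4 = 1 := Units.ext (by decide)

/-- `C4 = ⟨g0⟩`. -/
def C4 : Subgroup (GL (Fin 2) (ZMod 3)) := Subgroup.zpowers g0

/-- `ρ⁻¹(C4)`. -/
def subC4 (ρ : Γℚ →* GL (Fin 2) (ZMod 3)) : Subgroup Γℚ := C4.comap ρ

/-- `L`, the fixed field of `ρ⁻¹(C4)`: a quadratic extension of `E = fieldE ρ`. -/
def fieldL (ρ : Γℚ →* GL (Fin 2) (ZMod 3)) : IntermediateField ℚ (AlgebraicClosure ℚ) :=
  IntermediateField.fixedField (subC4 ρ)

theorem subC4_le_subQ8 (ρ : Γℚ →* GL (Fin 2) (ZMod 3)) : subC4 ρ ≤ subQ8 ρ := by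
  intro σ hσ
  obtain ⟨k, hk⟩ := Subgroup.mem_zpowers_iff.mp (Subgroup.mem_comap.mp hσ)
  refine Subgroup.subset_closure ⟨?_, ?_⟩
  · rw [← hk, map_zpow, det_g0, one_zpow]
  · rw [← hk, ← zpow_natCast, ← zpow_mul, mul_comm, zpow_mul, zpow_natCast, g0_pow_four,
      one_zpow]

theorem fieldE_le_fieldL (ρ : Γℚ →* GL (Fin 2) (ZMod 3)) : fieldE ρ ≤ fieldL ρ :=
  IntermediateField.fixedField_le (subC4_le_subQ8 ρ)

/-- The inclusion `E ⊂ L` as an algebra structure. -/
@[reducible] def algEL (ρ : Γℚ →* GL (Fin 2) (ZMod 3)) : Algebra (fieldE ρ) (fieldL ρ) :=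
  (IntermediateField.inclusion (fieldE_le_fieldL ρ)).toRingHom.toAlgebra

/-! ## Places under a valuation subring of `ℚ̄`; the character `θ` -/

/-- The finite place `w` of `K ⊂ ℚ̄` is the one cut out by the valuation subring `A` of `ℚ̄`:
`w = 𝔪_A ∩ 𝓞 K`. -/
def PlaceUnder (K : IntermediateField ℚ (AlgebraicClosure ℚ))
    (A : ValuationSubring (AlgebraicClosure ℚ)) (w : HeightOneSpectrum (𝓞 K)) : Prop :=
  ∀ x : 𝓞 K, x ∈ w.asIdeal ↔ (((x : K) : AlgebraicClosure ℚ)) ∈ A.nonunits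

/-- `θ : C4 → ℂ`, `θ(g0 ^ k) = i ^ k`; value `0` outside `C4`. -/
def thetaVal (h : GL (Fin 2) (ZMod 3)) : ℂ :=
  if h = 1 then 1 else if h = g0 then Complex.I else if h = g0 ^ 2 then -1
    else if h = g0 ^ 3 then -Complex.I else 0

/-- `f` is the least positive exponent with `g ^ f ∈ C4`. -/
def IsLeastPowC4 (g : GL (Fin 2) (ZMod 3)) (f : ℕ) : Prop :=
  0 < f ∧ g ^ f ∈ C4 ∧ ∀ k : ℕ, 0 < k → k < f → g ^ k ∉ C4

/-- **`χ = θ ∘ Art_{M/L}` away from a finite set of primes**, in terms of `ρ` only. -/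
def IsArtinOf (ρ : Γℚ →* GL (Fin 2) (ZMod 3)) [NumberField (fieldL ρ)]
    (χ : (A0.Adl (fieldL ρ))ˣ →* ℂˣ) : Prop :=
  ∃ S : Finset ℕ, ∀ p : ℕ, p.Prime → p ∉ S →
    ∀ A : ValuationSubring (AlgebraicClosure ℚ), A.LiesOverPrime p →
      ∀ σ : Γℚ, A.IsFrobeniusAt σ p →
        ∀ w : HeightOneSpectrum (𝓞 (fieldL ρ)), PlaceUnder (fieldL ρ) A w →
          UnramAt χ w ∧
          ∀ f : ℕ, IsLeastPowC4 (ρ σ) f →
            ∀ z : (A0.Adl (fieldL ρ))ˣ, IsUnifIdeleAt w z → (χ z : ℂ) = thetaVal (ρ σ ^ f)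

/-! ## Level 2: the leaves -/

/-- **IOTA.**  There is a ring homomorphism `ℤ[√-2] → ℂ`. -/
def IotaC : Prop := Nonempty (ℤ√(-2) →+* ℂ)

/-- **NUMFIELDS.**  `E` and `L` are number fields (`ρ` is continuous, so `ρ⁻¹(Q8)` and `ρ⁻¹(C4)`
are open subgroups; Krull topology, `InfiniteGalois.isOpen_iff_finite`). -/
def NumFieldsC : Prop :=
  ∀ (ρ : Γℚ →* GL (Fin 2) (ZMod 3)) (Ψ : GL (Fin 2) (ZMod 3) →* GL (Fin 2) (ℤ√(-2))),
    LTB.Hyp ρ Ψ → NumberField (fieldE ρ) ∧ NumberField (fieldL ρ)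

/-- **TOTCPLX.**  `E` is totally complex: `E ⊃ F = ℚ(ζ₃)` because `det ρ` is the cyclotomic
character modulo `3` and `Q8 ⊂ SL₂(𝔽₃)`. -/
def TotCplxC : Prop :=
  ∀ (ρ : Γℚ →* GL (Fin 2) (ZMod 3)) (Ψ : GL (Fin 2) (ZMod 3) →* GL (Fin 2) (ℤ√(-2))),
    LTB.Hyp ρ Ψ → ∀ u : InfinitePlace (fieldE ρ), u.IsComplex

/-- **DEGTWO.**  `[L : E] = 2` (`ρ` is onto and `[Q8 : C4] = 2`). -/
def DegTwoC : Prop :=
  ∀ (ρ : Γℚ →* GL (Fin 2) (ZMod 3)) (Ψ : GL (Fin 2) (ZMod 3) →* GL (Fin 2) (ℤ√(-2))),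
    LTB.Hyp ρ Ψ →
      letI := algEL ρ
      Module.finrank (fieldE ρ) (fieldL ρ) = 2

/-- **ARTINSEED (interface with tower CFT).**  Artin reciprocity for the cyclic quartic extension
`M / L` (`M` the fixed field of `ker ρ`, `Gal(M/L) = C4` via `ρ`): the character `θ ∘ Art_{M/L}`
of the idele class group of `L`.  Neukirch, *Algebraic Number Theory*, VI (5.5), (7.1);
Cassels--Fröhlich VII §5. -/
def ArtinSeedC : Prop :=
  ∀ (ρ : Γℚ →* GL (Fin 2) (ZMod 3)) (Ψ : GL (Fin 2) (ZMod 3) →* GL (Fin 2) (ℤ√(-2))),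
    LTB.Hyp ρ Ψ → ∀ [NumberField (fieldL ρ)],
      ∃ χ : (A0.Adl (fieldL ρ))ˣ →* ℂˣ, IsIdeleClassChar χ ∧ IsFiniteOrder χ ∧ IsArtinOf ρ χ

/-- **NONINV.**  `χ ≠ χ^τ`: by Chebotarev over `ℚ` (on main) there are `p`, `A | p` and a
Frobenius `σ` at `A` with `ρ σ = g0`; with `τ ∈ ρ⁻¹(Q8 ∖ C4)` the places `w₁ = A ∩ L`,
`w₂ = τ A ∩ L` lie over the same place of `E`, and `χ(ϖ_{w₁}) = i`, `χ(ϖ_{w₂}) = θ(g0⁻¹) = -i`. -/
def NonInvC : Prop :=
  ∀ (ρ : Γℚ →* GL (Fin 2) (ZMod 3)) (Ψ : GL (Fin 2) (ZMod 3) →* GL (Fin 2) (ℤ√(-2))),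
    LTB.Hyp ρ Ψ → ∀ [NumberField (fieldE ρ)] [NumberField (fieldL ρ)],
      ∀ χ : (A0.Adl (fieldL ρ))ˣ →* ℂˣ, IsArtinOf ρ χ →
        letI := algEL ρ
        NotGaloisInvariant (fieldE ρ) χ

/-- **MATCH.**  The induced data of `χ` are the data `SeedData` of `Ψ ∘ ρ`: at a place `w` of `E`
over `p` (unramified, `w ∤ π.level`), `h = ρ(Frob_w) = g ^ ordQ8 g ∈ Q8`;
`h ∈ C4`: `w` splits in `L`, `a = θ(h) + θ(h)⁻¹ = tr Ψ h`, `b = 1`;
`h ∉ C4`: `w` is inert, `a = 0 = tr Ψ h`, `b = - θ(h²) = - θ(-1) = 1`. -/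
def MatchC : Prop :=
  ∀ (ρ : Γℚ →* GL (Fin 2) (ZMod 3)) (Ψ : GL (Fin 2) (ZMod 3) →* GL (Fin 2) (ℤ√(-2))),
    LTB.Hyp ρ Ψ → ∀ (ι : ℤ√(-2) →+* ℂ) [NumberField (fieldE ρ)] [NumberField (fieldL ρ)],
      ∀ χ : (A0.Adl (fieldL ρ))ˣ →* ℂˣ, IsArtinOf ρ χ →
        letI := algEL ρ
        ∀ π : HeckeEigensystem (fieldE ρ) ℂ, InducedData χ π → SeedData (fieldE ρ) ρ Ψ ι π

/-! ## The top of level 2 -/

/-- **GALSEED from its leaves.** -/
theorem galSeedC_of_leaves (hι : IotaC) (hN : NumFieldsC) (hT : TotCplxC) (hD : DegTwoC)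
    (hA : ArtinSeedC) (hI : NonInvC) (hM : MatchC) : GalSeedC := by
  intro ρ Ψ hyp
  obtain ⟨ι⟩ := hι
  obtain ⟨hNE, hNL⟩ := hN ρ Ψ hyp
  obtain ⟨χ, hχ, hfin, hart⟩ := @hA ρ Ψ hyp hNL
  exact ⟨ι, hNE, fieldL ρ, inferInstance, hNL, algEL ρ, χ, hD ρ Ψ hyp, hT ρ Ψ hyp, hχ, hfin,
    @hI ρ Ψ hyp hNE hNL χ hart, @hM ρ Ψ hyp ι hNE hNL χ hart⟩

end Fermat.Agent.LT.A2.H38

end

end
-- ===== PACK-END LT/A2/H38/GalSeedSpec.lean

-- ===== PACK-BEGIN LT/CFT/H49/HasseWA.lean
section




/-!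
# Row LT, tower CFT, brick CFT.12.1 `HasseWAC` (helper49), OFF-MAIN

Weak approximation for local norms.  Mathlib + main `S55/G/Defs` (Galois action on the primes).
-/

set_option autoImplicit false
set_option linter.unusedSectionVars false
set_option linter.unusedVariables false

open IsDedekindDomain NumberField
open Fermat.Agent.S55.G

noncomputable section

namespace Fermat.Agent.LT.CFT.H49

/-! ## Arithmetic: splitting an integer -/

/-- Every `d ≠ 0` is `b * b'` with `b` prime to `P` and `b' ∣ P ^ k`. -/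
theorem exists_split49 (P : ℕ) : ∀ d : ℕ, d ≠ 0 →
    ∃ b b' k : ℕ, d = b * b' ∧ Nat.Coprime b P ∧ b' ∣ P ^ k := by
  intro d
  induction d using Nat.strong_induction_on with
  | _ d ih =>
    intro hd
    by_cases hc : Nat.Coprime d P
    · exact ⟨d, 1, 0, by simp, hc, by simp⟩
    · have hg1 : Nat.gcd d P ≠ 1 := hc
      have hgpos : 0 < Nat.gcd d P := Nat.gcd_pos_of_pos_left _ (Nat.pos_of_ne_zero hd)
      have hg2 : 2 ≤ Nat.gcd d P := by omega
      obtain ⟨d', hd'⟩ := Nat.gcd_dvd_left d P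
      have hd'0 : d' ≠ 0 := by
        rintro rfl
        rw [mul_zero] at hd'
        exact hd hd'
      have hlt : d' < d := by
        rw [hd']
        calc d' = 1 * d' := (one_mul _).symm
          _ < Nat.gcd d P * d' := Nat.mul_lt_mul_of_pos_right (by omega) (Nat.pos_of_ne_zero hd'0)
      obtain ⟨b, b', k, h1, h2, h3⟩ := ih d' hlt hd'0
      refine ⟨b, Nat.gcd d P * b', k + 1, ?_, h2, ?_⟩
      · calc d = Nat.gcd d P * d' := hd'
          _ = Nat.gcd d P * (b * b') := by rw [h1]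
          _ = b * (Nat.gcd d P * b') := by ring
      · rw [pow_succ, mul_comm (P ^ k)]
        exact Nat.mul_dvd_mul (Nat.gcd_dvd_right d P) h3

/-! ## Valuations: elements close to `1` -/

section Close

variable {L : Type} [Field L] [NumberField L]

theorem close_mul49 (w : HeightOneSpectrum (𝓞 L)) (N : ℕ) {s t : L}
    (hs : w.valuation L (s - 1) ≤ WithZero.exp (-(N : ℤ)))
    (ht : w.valuation L (t - 1) ≤ WithZero.exp (-(N : ℤ))) :
    w.valuation L (s * t - 1) ≤ WithZero.exp (-(N : ℤ)) := by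
  have hle1 : WithZero.exp (-(N : ℤ)) ≤ (1 : WithZero (Multiplicative ℤ)) := by
    rw [← WithZero.exp_zero, WithZero.exp_le_exp]
    omega
  have ht1 : w.valuation L t ≤ 1 := by
    have : t = (t - 1) + 1 := by ring
    rw [this]
    refine le_trans (Valuation.map_add _ _ _) (max_le (ht.trans hle1) ?_)
    rw [map_one]
  have e : s * t - 1 = (s - 1) * t + (t - 1) := by ring
  rw [e]
  refine le_trans (Valuation.map_add _ _ _) (max_le ?_ ht)
  rw [map_mul]
  calc w.valuation L (s - 1) * w.valuation L t ≤ w.valuation L (s - 1) * 1 :=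
        mul_le_mul' le_rfl ht1
    _ = w.valuation L (s - 1) := mul_one _
    _ ≤ _ := hs

theorem close_val_eq_one49 (w : HeightOneSpectrum (𝓞 L)) (N : ℕ) (hN : 0 < N) {s : L}
    (hs : w.valuation L (s - 1) ≤ WithZero.exp (-(N : ℤ))) : w.valuation L s = 1 := by
  have hlt : w.valuation L (s - 1) < 1 := by
    refine lt_of_le_of_lt hs ?_
    rw [← WithZero.exp_zero, WithZero.exp_lt_exp]
    omega
  have : s = 1 + (s - 1) := by ring
  rw [this]
  have h1 : w.valuation L (1 : L) = 1 := map_one _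
  rw [Valuation.map_add_eq_of_lt_left _ (by rw [h1]; exact hlt), h1]

theorem close_inv49 (w : HeightOneSpectrum (𝓞 L)) (N : ℕ) (hN : 0 < N) {s : L}
    (hs : w.valuation L (s - 1) ≤ WithZero.exp (-(N : ℤ))) :
    w.valuation L (s⁻¹ - 1) ≤ WithZero.exp (-(N : ℤ)) := by
  have h1 := close_val_eq_one49 w N hN hs
  have hs0 : s ≠ 0 := by
    rintro rfl
    rw [map_zero] at h1
    exact zero_ne_one h1
  have e : s⁻¹ - 1 = -(s - 1) * s⁻¹ := by field_simp; ring
  rw [e, map_mul, map_inv₀, h1, inv_one, mul_one, Valuation.map_neg]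
  exact hs

theorem close_one49 (w : HeightOneSpectrum (𝓞 L)) (N : ℕ) :
    w.valuation L ((1 : L) - 1) ≤ WithZero.exp (-(N : ℤ)) := by
  rw [sub_self, map_zero]
  exact zero_le

theorem close_prod49 (w : HeightOneSpectrum (𝓞 L)) (N : ℕ) {ι : Type*} (s : Finset ι)
    (f : ι → L) (h : ∀ i ∈ s, w.valuation L (f i - 1) ≤ WithZero.exp (-(N : ℤ))) :
    w.valuation L (∏ i ∈ s, f i - 1) ≤ WithZero.exp (-(N : ℤ)) := by
  classical
  induction s using Finset.induction_on with
  | empty => rw [Finset.prod_empty]; exact close_one49 w N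
  | insert a s ha ih =>
    rw [Finset.prod_insert ha]
    exact close_mul49 w N (h a (Finset.mem_insert_self a s))
      (ih fun i hi => h i (Finset.mem_insert_of_mem hi))

end Close

/-! ## Weak approximation in `L` (CRT) -/

section Approx

variable {L : Type} [Field L] [NumberField L]

/-- CRT in `𝓞 L`, valuation form, with a nonzero solution. -/
theorem exists_int_approx49 (s : Finset (HeightOneSpectrum (𝓞 L)))
    (e : HeightOneSpectrum (𝓞 L) → ℕ) (t : HeightOneSpectrum (𝓞 L) → 𝓞 L) :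
    ∃ y : 𝓞 L, y ≠ 0 ∧ ∀ v ∈ s, v.intValuation (y - t v) ≤ WithZero.exp (-(e v : ℤ)) := by
  classical
  obtain ⟨y₀, hy₀⟩ := IsDedekindDomain.exists_forall_sub_mem_ideal
    (s := s) (fun v : HeightOneSpectrum (𝓞 L) => v.asIdeal) e
    (fun v _ => v.prime) (fun v _ w _ hvw h => hvw (HeightOneSpectrum.ext h))
    (fun v => t v.1)
  have hJ : (∏ v ∈ s, v.asIdeal ^ e v) ≠ ⊥ := by
    rw [← Ideal.zero_eq_bot, Finset.prod_ne_zero_iff]
    intro v _
    exact pow_ne_zero _ v.ne_bot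
  obtain ⟨m, hmJ, hm0⟩ := Submodule.exists_mem_ne_zero_of_ne_bot hJ
  have hm : ∀ v ∈ s, m ∈ v.asIdeal ^ e v := fun v hv =>
    Ideal.le_of_dvd (Finset.dvd_prod_of_mem (fun v : HeightOneSpectrum (𝓞 L) => v.asIdeal ^ e v) hv)
      hmJ
  by_cases h0 : y₀ = 0
  · refine ⟨m, hm0, fun v hv => ?_⟩
    rw [HeightOneSpectrum.intValuation_le_pow_iff_mem]
    have h1 := hy₀ v hv
    rw [h0] at h1
    have : m - t v = m + (0 - t v) := by ring
    rw [this]
    exact Ideal.add_mem _ (hm v hv) h1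
  · exact ⟨y₀, h0, fun v hv => (HeightOneSpectrum.intValuation_le_pow_iff_mem _ _ _).2 (hy₀ v hv)⟩

/-- Weak approximation in `L` at a finite set of finite places, with a nonzero solution. -/
theorem exists_approx49 (s : Finset (HeightOneSpectrum (𝓞 L)))
    (M : HeightOneSpectrum (𝓞 L) → ℤ) (k : HeightOneSpectrum (𝓞 L) → L) :
    ∃ γ : L, γ ≠ 0 ∧ ∀ v ∈ s, v.valuation L (γ - k v) ≤ WithZero.exp (-(M v)) := by
  classical
  obtain ⟨⟨d, hd⟩, hdk⟩ := IsLocalization.exist_integer_multiples_of_finset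
    (nonZeroDivisors (𝓞 L)) (s.image k)
  have hd0 : d ≠ 0 := nonZeroDivisors.ne_zero hd
  have hdK : (algebraMap (𝓞 L) L d) ≠ 0 := by
    simpa using hd0
  have ht : ∀ v : HeightOneSpectrum (𝓞 L), ∃ t : 𝓞 L, v ∈ s → algebraMap (𝓞 L) L t = d • k v := by
    intro v
    by_cases hv : v ∈ s
    · obtain ⟨t, ht⟩ := hdk (k v) (Finset.mem_image_of_mem k hv)
      exact ⟨t, fun _ => ht⟩
    · exact ⟨0, fun h => absurd h hv⟩
  choose t ht using ht
  have hn : ∀ v : HeightOneSpectrum (𝓞 L), ∃ n : ℕ,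
      v.intValuation d = WithZero.exp (-(n : ℤ)) := fun v => ⟨_, v.intValuation_if_neg hd0⟩
  choose n hn using hn
  obtain ⟨y, hy0, hy⟩ := exists_int_approx49 s (fun v => (M v).toNat + n v) t
  refine ⟨algebraMap (𝓞 L) L y / algebraMap (𝓞 L) L d, ?_, fun v hv => ?_⟩
  · exact div_ne_zero (by simpa using hy0) hdK
  · have e1 : algebraMap (𝓞 L) L y / algebraMap (𝓞 L) L d - k v
        = algebraMap (𝓞 L) L (y - t v) / algebraMap (𝓞 L) L d := by
      rw [map_sub, ht v hv, Algebra.smul_def]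
      field_simp
    rw [e1, map_div₀, HeightOneSpectrum.valuation_of_algebraMap,
      HeightOneSpectrum.valuation_of_algebraMap, hn v]
    have h1 := hy v hv
    rw [div_le_iff₀ (by simp), ← WithZero.exp_add]
    refine le_trans h1 ?_
    rw [WithZero.exp_le_exp]
    have := Int.self_le_toNat (M v)
    push_cast
    linarith

/-- Multiplicative weak approximation: `y / k_w ≡ 1 mod w ^ N` for all `w ∈ s`. -/
theorem exists_mul_approx49 (s : Finset (HeightOneSpectrum (𝓞 L))) (N : ℕ)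
    (k : HeightOneSpectrum (𝓞 L) → L) (hk : ∀ w, k w ≠ 0) :
    ∃ y : L, y ≠ 0 ∧ ∀ w ∈ s, w.valuation L (y / k w - 1) ≤ WithZero.exp (-(N : ℤ)) := by
  obtain ⟨y, hy0, hy⟩ := exists_approx49 s
    (fun w => (N : ℤ) - WithZero.log (w.valuation L (k w))) k
  refine ⟨y, hy0, fun w hw => ?_⟩
  have hkw : w.valuation L (k w) ≠ 0 := (Valuation.ne_zero_iff _).2 (hk w)
  have e : y / k w - 1 = (y - k w) / k w := by
    field_simp [hk w]
  rw [e, map_div₀, div_le_iff₀ (zero_lt_iff.2 hkw)]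
  refine le_trans (hy w hw) ?_
  have h2 : w.valuation L (k w) = WithZero.exp (WithZero.log (w.valuation L (k w))) :=
    (WithZero.exp_log hkw).symm
  conv_rhs => rw [h2]
  rw [← WithZero.exp_add, WithZero.exp_le_exp]
  omega

end Approx

/-! ## Fractions, Galois action, norms -/

section Frac

variable {K L : Type} [Field K] [NumberField K] [Field L] [NumberField L] [Algebra K L]

theorem close_of_frac49 (w : HeightOneSpectrum (𝓞 L)) (N : ℕ) (a b : 𝓞 K)
    (hb : b ∉ (w.under (𝓞 K)).asIdeal) (hab : a - b ∈ (w.under (𝓞 K)).asIdeal ^ N) :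
    w.valuation L (algebraMap K L (algebraMap (𝓞 K) K a / algebraMap (𝓞 K) K b) - 1)
      ≤ WithZero.exp (-(N : ℤ)) := by
  set α : 𝓞 L := algebraMap (𝓞 K) (𝓞 L) a with hα
  set β : 𝓞 L := algebraMap (𝓞 K) (𝓞 L) b with hβ
  have hα' : algebraMap K L (algebraMap (𝓞 K) K a) = algebraMap (𝓞 L) L α := by
    rw [hα, ← IsScalarTower.algebraMap_apply, ← IsScalarTower.algebraMap_apply]
  have hβ' : algebraMap K L (algebraMap (𝓞 K) K b) = algebraMap (𝓞 L) L β := by
    rw [hβ, ← IsScalarTower.algebraMap_apply, ← IsScalarTower.algebraMap_apply]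
  have hβw : β ∉ w.asIdeal := fun h => hb (Ideal.mem_comap.2 h)
  have hβ1 : w.valuation L (algebraMap (𝓞 L) L β) = 1 :=
    (HeightOneSpectrum.valuation_eq_one_iff_notMem w).2 hβw
  have hαβ : α - β ∈ w.asIdeal ^ N := by
    have h1 : algebraMap (𝓞 K) (𝓞 L) (a - b) ∈
        Ideal.map (algebraMap (𝓞 K) (𝓞 L)) ((w.under (𝓞 K)).asIdeal ^ N) :=
      Ideal.mem_map_of_mem _ hab
    rw [Ideal.map_pow, map_sub] at h1
    have h2 : Ideal.map (algebraMap (𝓞 K) (𝓞 L)) (w.under (𝓞 K)).asIdeal ≤ w.asIdeal :=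
      Ideal.map_comap_le
    exact Ideal.pow_right_mono h2 N h1
  have hval : w.valuation L (algebraMap (𝓞 L) L (α - β)) ≤ WithZero.exp (-(N : ℤ)) := by
    rw [HeightOneSpectrum.valuation_of_algebraMap]
    exact (HeightOneSpectrum.intValuation_le_pow_iff_mem _ _ _).2 hαβ
  have hβ0 : algebraMap (𝓞 L) L β ≠ 0 := by
    intro h
    rw [h, map_zero] at hβ1
    exact zero_ne_one hβ1
  have e : algebraMap K L (algebraMap (𝓞 K) K a / algebraMap (𝓞 K) K b) - 1
      = algebraMap (𝓞 L) L (α - β) / algebraMap (𝓞 L) L β := by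
    rw [map_div₀, hα', hβ', map_sub]
    field_simp
  rw [e, map_div₀, hβ1, div_one]
  exact hval

/-- The Galois group permutes the primes over a given prime of `K`. -/
theorem under_primeSMul49 (σ : L ≃ₐ[K] L) (w : HeightOneSpectrum (𝓞 L)) :
    (primeSMul (L ≃ₐ[K] L) σ w).under (𝓞 K) = w.under (𝓞 K) := by
  apply HeightOneSpectrum.ext
  ext x
  change algebraMap (𝓞 K) (𝓞 L) x ∈ (primeSMul (L ≃ₐ[K] L) σ w).asIdeal
    ↔ algebraMap (𝓞 K) (𝓞 L) x ∈ w.asIdeal
  rw [mem_primeSMul_iff]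
  have : σ⁻¹ • algebraMap (𝓞 K) (𝓞 L) x = algebraMap (𝓞 K) (𝓞 L) x := by
    apply Subtype.ext
    change σ⁻¹ • ((algebraMap (𝓞 K) (𝓞 L) x : 𝓞 L) : L) = _
    have h1 : ((algebraMap (𝓞 K) (𝓞 L) x : 𝓞 L) : L) = algebraMap K L (algebraMap (𝓞 K) K x) := by
      change algebraMap (𝓞 L) L (algebraMap (𝓞 K) (𝓞 L) x) = _
      rw [← IsScalarTower.algebraMap_apply, ← IsScalarTower.algebraMap_apply]
    rw [h1]
    exact (σ⁻¹).commutes _
  rw [this]

theorem primeSMul_inv49 (σ : L ≃ₐ[K] L) (w : HeightOneSpectrum (𝓞 L)) :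
    primeSMul (L ≃ₐ[K] L) σ (primeSMul (L ≃ₐ[K] L) σ⁻¹ w) = w := by
  have := (primeAction (L ≃ₐ[K] L) L).mul_smul σ σ⁻¹ w
  rw [mul_inv_cancel] at this
  have h1 := (primeAction (L ≃ₐ[K] L) L).one_smul w
  exact this.symm.trans h1

variable [IsGalois K L]

theorem close_norm49 (v : HeightOneSpectrum (𝓞 K)) (N : ℕ) (s : L)
    (hs : ∀ w : HeightOneSpectrum (𝓞 L), w.under (𝓞 K) = v →
      w.valuation L (s - 1) ≤ WithZero.exp (-(N : ℤ)))
    (w : HeightOneSpectrum (𝓞 L)) (hw : w.under (𝓞 K) = v) :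
    w.valuation L (algebraMap K L (Algebra.norm K s) - 1) ≤ WithZero.exp (-(N : ℤ)) := by
  rw [Algebra.norm_eq_prod_automorphisms]
  apply close_prod49
  intro σ _
  have h1 := valuation_primeSMul (L ≃ₐ[K] L) σ (primeSMul (L ≃ₐ[K] L) σ⁻¹ w) (s - 1)
  rw [primeSMul_inv49] at h1
  have h3 : σ • (s - 1) = σ s - 1 := by
    rw [AlgEquiv.smul_def, map_sub, map_one]
  rw [h3] at h1
  rw [h1]
  exact hs _ (by rw [under_primeSMul49, hw])

end Frac

/-! ## Integrality away from the denominators -/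

section Conv

variable {L : Type} [Field L] [NumberField L]

theorem valuation_le_one_of_isIntegral49 (w : HeightOneSpectrum (𝓞 L)) {z : L}
    (hz : IsIntegral ℤ z) : w.valuation L z ≤ 1 := by
  have : z ∈ (algebraMap (𝓞 L) L).range := ⟨⟨z, hz⟩, rfl⟩
  obtain ⟨r, rfl⟩ := this
  exact HeightOneSpectrum.valuation_le_one w r

theorem exists_coprime_integral49 (P : ℕ) (t : L)
    (ht : ∀ w : HeightOneSpectrum (𝓞 L), ((P : ℕ) : 𝓞 L) ∈ w.asIdeal → w.valuation L t ≤ 1) :
    ∃ b : ℕ, b ≠ 0 ∧ Nat.Coprime b P ∧ IsIntegral ℤ ((b : L) * t) := by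
  have halg : IsAlgebraic ℤ t :=
    (IsFractionRing.isAlgebraic_iff ℤ ℚ L).2 (Algebra.IsAlgebraic.isAlgebraic (R := ℚ) t)
  obtain ⟨d, hd0, hd⟩ := halg.exists_integral_multiple
  obtain ⟨n, hn⟩ : ∃ n : ℕ, n ≠ 0 ∧ IsIntegral ℤ (((n : ℕ) : L) * t) := by
    obtain ⟨n, h | h⟩ := Int.eq_nat_or_neg d
    · refine ⟨n, ?_, ?_⟩
      · rintro rfl
        exact hd0 (by simpa using h)
      · have e : ((n : ℕ) : L) * t = d • t := by
          rw [zsmul_eq_mul, h]
          push_cast
          rfl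
        rw [e]; exact hd
    · refine ⟨n, ?_, ?_⟩
      · rintro rfl
        exact hd0 (by simpa using h)
      · have e : ((n : ℕ) : L) * t = -(d • t) := by
          rw [zsmul_eq_mul, h]
          push_cast
          ring
        rw [e]; exact hd.neg
  obtain ⟨hn0, hn⟩ := hn
  obtain ⟨b, b', k, hsplit, hcop, hdvd⟩ := exists_split49 P n hn0
  have hb0 : b ≠ 0 := by
    rintro rfl
    rw [zero_mul] at hsplit
    exact hn0 hsplit
  refine ⟨b, hb0, hcop, ?_⟩
  have hmem : (b : L) * t ∈ (algebraMap (𝓞 L) L).range := by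
    apply HeightOneSpectrum.mem_integers_of_valuation_le_one
    intro w
    have hbw : w.valuation L ((b : ℕ) : L) ≤ 1 := by
      have : ((b : ℕ) : L) = algebraMap (𝓞 L) L ((b : ℕ) : 𝓞 L) := (map_natCast _ b).symm
      rw [this]
      exact HeightOneSpectrum.valuation_le_one w _
    by_cases hPw : ((P : ℕ) : 𝓞 L) ∈ w.asIdeal
    · rw [map_mul]
      exact mul_le_one' hbw (ht w hPw)
    · -- `w(b') = 1`
      have hb'w : ((b' : ℕ) : 𝓞 L) ∉ w.asIdeal := by
        intro hmem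
        obtain ⟨e, he⟩ := hdvd
        have : ((P : ℕ) : 𝓞 L) ^ k ∈ w.asIdeal := by
          have h1 : ((P : ℕ) : 𝓞 L) ^ k = ((b' : ℕ) : 𝓞 L) * ((e : ℕ) : 𝓞 L) := by
            rw [← Nat.cast_pow, he, Nat.cast_mul]
          rw [h1]
          exact Ideal.mul_mem_right _ _ hmem
        exact hPw (w.isPrime.mem_of_pow_mem k this)
      have hb'1 : w.valuation L ((b' : ℕ) : L) = 1 := by
        have : ((b' : ℕ) : L) = algebraMap (𝓞 L) L ((b' : ℕ) : 𝓞 L) := (map_natCast _ b').symm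
        rw [this]
        exact (HeightOneSpectrum.valuation_eq_one_iff_notMem w).2 hb'w
      have e : (b : L) * t = (((b' : ℕ) : L))⁻¹ * (((n : ℕ) : L) * t) := by
        have hb'0 : ((b' : ℕ) : L) ≠ 0 := by
          intro h
          rw [h, map_zero] at hb'1
          exact zero_ne_one hb'1
        rw [hsplit]
        push_cast
        field_simp
      rw [e, map_mul, map_inv₀, hb'1, inv_one, one_mul]
      exact valuation_le_one_of_isIntegral49 w hn
  obtain ⟨r, hr⟩ := hmem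
  rw [← hr]
  exact r.2

end Conv

/-! ## The brick -/

/-- **Brick WA**: weak approximation for local norms. -/
theorem hasseWA49 : HasseWAC := by
  intro K L _ _ _ _ _ _ x hx hloc P M hP
  classical
  -- the primes of `L` dividing `P`
  have hP0 : ((P : ℕ) : 𝓞 L) ≠ 0 := by
    rw [Nat.cast_ne_zero]; omega
  have hfin : {w : HeightOneSpectrum (𝓞 L) | ((P : ℕ) : 𝓞 L) ∈ w.asIdeal}.Finite := by
    have h1 := Ideal.finite_factors (I := Ideal.span {((P : ℕ) : 𝓞 L)})
      (by simpa using hP0)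
    refine h1.subset fun w hw => ?_
    exact Ideal.dvd_span_singleton.2 hw
  set T : Finset (HeightOneSpectrum (𝓞 L)) := hfin.toFinset with hT
  have hmemT : ∀ w : HeightOneSpectrum (𝓞 L), w ∈ T ↔ ((P : ℕ) : 𝓞 L) ∈ w.asIdeal := by
    intro w
    rw [hT, Set.Finite.mem_toFinset]
    rfl
  -- the precision
  have hPM0 : ((P : ℕ) : 𝓞 L) ^ M ≠ 0 := pow_ne_zero _ hP0
  have hm : ∀ w : HeightOneSpectrum (𝓞 L), ∃ m : ℕ,
      w.intValuation (((P : ℕ) : 𝓞 L) ^ M) = WithZero.exp (-(m : ℤ)) :=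
    fun w => ⟨_, w.intValuation_if_neg hPM0⟩
  choose m hm using hm
  set N : ℕ := (∑ w ∈ T, m w) + 1 with hN
  have hNpos : 0 < N := by omega
  have hmN : ∀ w ∈ T, m w ≤ N := by
    intro w hw
    have := Finset.single_le_sum (f := m) (fun i _ => Nat.zero_le _) hw
    omega
  -- local data
  choose Y A B hY hB hAB hxY using fun v => hloc v N
  -- weak approximation
  obtain ⟨y, hy0, hy⟩ := exists_mul_approx49 T N (fun w => Y (w.under (𝓞 K)))
    (fun w => hY _)
  have hNy : Algebra.norm K y ≠ 0 := Algebra.norm_ne_zero_iff.2 hy0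
  -- closeness of `x / N(y)` at every `w ∈ T`
  have hclose : ∀ w ∈ T, w.valuation L (algebraMap K L (x / Algebra.norm K y) - 1)
      ≤ WithZero.exp (-(N : ℤ)) := by
    intro w hw
    set v := w.under (𝓞 K) with hv
    have hBv0 : algebraMap (𝓞 K) K (B v) ≠ 0 := by
      intro h
      have : B v = 0 := by
        have h2 : algebraMap (𝓞 K) K (B v) = algebraMap (𝓞 K) K 0 := by rw [h, map_zero]
        exact FaithfulSMul.algebraMap_injective (𝓞 K) K h2
      exact hB v (this ▸ Ideal.zero_mem _)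
    have hNYv : Algebra.norm K (Y v) ≠ 0 := Algebra.norm_ne_zero_iff.2 (hY v)
    -- `x / N(y) = (A / B) * (N(y / Y v))⁻¹`
    have e1 : x / Algebra.norm K y
        = (algebraMap (𝓞 K) K (A v) / algebraMap (𝓞 K) K (B v))
          * (Algebra.norm K (y / Y v))⁻¹ := by
      have hx' : x * algebraMap (𝓞 K) K (B v) = Algebra.norm K (Y v) * algebraMap (𝓞 K) K (A v) :=
        hxY v
      have hnq : Algebra.norm K (y / Y v) * Algebra.norm K (Y v) = Algebra.norm K y := by
        rw [← map_mul, div_mul_cancel₀ _ (hY v)]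
      have hnq0 : Algebra.norm K (y / Y v) ≠ 0 :=
        Algebra.norm_ne_zero_iff.2 (div_ne_zero hy0 (hY v))
      rw [← hnq]
      field_simp
      linear_combination hx'
    rw [e1, map_mul, map_inv₀]
    refine close_mul49 w N (close_of_frac49 w N (A v) (B v) (hB v) (hAB v)) ?_
    refine close_inv49 w N hNpos ?_
    refine close_norm49 v N (y / Y v) ?_ w rfl
    intro w' hw'
    have hw'T : w' ∈ T := by
      rw [hmemT] at hw ⊢
      have h1 : ((P : ℕ) : 𝓞 K) ∈ v.asIdeal := by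
        change algebraMap (𝓞 K) (𝓞 L) ((P : ℕ) : 𝓞 K) ∈ w.asIdeal
        rw [map_natCast]
        exact hw
      rw [← hw'] at h1
      have h2 : algebraMap (𝓞 K) (𝓞 L) ((P : ℕ) : 𝓞 K) ∈ w'.asIdeal := h1
      rwa [map_natCast] at h2
    have := hy w' hw'T
    rwa [hw'] at this
  -- integrality of `t = (x / N(y) - 1) / P ^ M` at the primes dividing `P`
  set tK : K := (x / Algebra.norm K y - 1) / ((P : ℕ) : K) ^ M with htK
  have hPK0 : ((P : ℕ) : K) ≠ 0 := by
    rw [Nat.cast_ne_zero]; omega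
  have hPL0 : ((P : ℕ) : L) ≠ 0 := by
    rw [Nat.cast_ne_zero]; omega
  have htw : ∀ w : HeightOneSpectrum (𝓞 L), ((P : ℕ) : 𝓞 L) ∈ w.asIdeal →
      w.valuation L (algebraMap K L tK) ≤ 1 := by
    intro w hw
    have hwT : w ∈ T := (hmemT w).2 hw
    have e : algebraMap K L tK
        = (algebraMap K L (x / Algebra.norm K y) - 1) / algebraMap (𝓞 L) L (((P : ℕ) : 𝓞 L) ^ M) := by
      rw [htK, map_div₀, map_sub, map_one, map_pow, map_pow, map_natCast, map_natCast]
    rw [e, map_div₀, HeightOneSpectrum.valuation_of_algebraMap, hm w]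
    rw [div_le_iff₀ (by simp), one_mul]
    refine le_trans (hclose w hwT) ?_
    rw [WithZero.exp_le_exp]
    have := hmN w hwT
    omega
  obtain ⟨b, hb0, hbP, hbint⟩ := exists_coprime_integral49 P (algebraMap K L tK) htw
  have hbint' : IsIntegral ℤ ((b : K) * tK) := by
    have e : (b : L) * algebraMap K L tK = algebraMap K L ((b : K) * tK) := by
      rw [map_mul, map_natCast]
    rw [e] at hbint
    exact (isIntegral_algebraMap_iff (algebraMap K L).injective).1 hbint
  refine ⟨y, b, ⟨(b : K) * tK, hbint'⟩, hy0, hb0, hbP, ?_⟩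
  change (b : K) * x = Algebra.norm K y * ((b : K) + ((P : ℕ) : K) ^ M * ((b : K) * tK))
  rw [htK]
  field_simp
  ring

end Fermat.Agent.LT.CFT.H49

end

end
-- ===== PACK-END LT/CFT/H49/HasseWA.lean

-- ===== PACK-BEGIN LT/H556/DictHol.lean
section


/-!
# Row LT, WALL: the holomorphic half of the dictionary is PROVED (helper556)

`dictHolC : DictHolC`, with `absNorm_ratPrime`, `natCast_mem_ratPrime_iff`.  OFF-MAIN.
-/


set_option autoImplicit false

open AutomorphicForm IsDedekindDomain NumberField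

noncomputable section

namespace Fermat.Agent.LT.H556.I670

open Fermat.Agent.LT.H670 Fermat.Agent.LT.H556

theorem natGenerator_ratPrime (p : Nat.Primes) :
    Rat.HeightOneSpectrum.natGenerator (ratPrime p) = (p : ℕ) :=
  congrArg Subtype.val
    (Equiv.apply_symm_apply (Rat.HeightOneSpectrum.primesEquiv (R := 𝓞 ℚ)) p)

theorem mem_ratPrime_iff (p : Nat.Primes) (x : 𝓞 ℚ) :
    x ∈ (ratPrime p).asIdeal ↔ ((p : ℕ) : 𝓞 ℚ) ∣ x := by
  have h1 : x ∈ (ratPrime p).asIdeal ↔
      Rat.IsIntegralClosure.intEquiv (𝓞 ℚ) x ∈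
        (ratPrime p).asIdeal.map (Rat.IsIntegralClosure.intEquiv (𝓞 ℚ)) :=
    (Ideal.apply_mem_of_equiv_iff (f := Rat.IsIntegralClosure.intEquiv (𝓞 ℚ))).symm
  rw [h1, ← Rat.HeightOneSpectrum.span_natGenerator, natGenerator_ratPrime,
    Ideal.mem_span_singleton]
  constructor
  · intro h
    have h2 := map_dvd (Rat.IsIntegralClosure.intEquiv (𝓞 ℚ)).symm h
    rw [RingEquiv.symm_apply_apply, map_natCast] at h2
    exact h2
  · intro h
    have h2 := map_dvd (Rat.IsIntegralClosure.intEquiv (𝓞 ℚ)) h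
    rw [map_natCast] at h2
    exact h2

theorem ratPrime_asIdeal (p : Nat.Primes) :
    (ratPrime p).asIdeal = Ideal.span {((p : ℕ) : 𝓞 ℚ)} := by
  ext x
  rw [mem_ratPrime_iff, Ideal.mem_span_singleton]

theorem natCast_mem_ratPrime_iff (p : Nat.Primes) (n : ℕ) :
    (n : 𝓞 ℚ) ∈ (ratPrime p).asIdeal ↔ (p : ℕ) ∣ n := by
  have h1 : (n : 𝓞 ℚ) ∈ (ratPrime p).asIdeal ↔
      Rat.IsIntegralClosure.intEquiv (𝓞 ℚ) (n : 𝓞 ℚ) ∈
        (ratPrime p).asIdeal.map (Rat.IsIntegralClosure.intEquiv (𝓞 ℚ)) :=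
    (Ideal.apply_mem_of_equiv_iff (f := Rat.IsIntegralClosure.intEquiv (𝓞 ℚ))).symm
  rw [h1, map_natCast, ← Rat.HeightOneSpectrum.natGenerator_dvd_iff, natGenerator_ratPrime]

theorem absNorm_ratPrime (p : Nat.Primes) :
    Ideal.absNorm (ratPrime p).asIdeal = (p : ℕ) := by
  rw [ratPrime_asIdeal, Ideal.absNorm_span_singleton, Algebra.norm_natCast,
    NumberField.RingOfIntegers.rank, Module.finrank_self]
  simp

/-- **DICT, holomorphic half: PROVED.**  With the second alternative of `A0.notion556` the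
dictionary is an unfolding. -/
theorem dictHolC : DictHolC := by
  intro π hπ
  obtain ⟨-, N, hN, ε, f, ⟨hf1, hrel⟩, -, hmatch⟩ := hπ
  refine ⟨N, hN, ε, f, hf1, hrel, Finset.range (N + 1), ?_⟩
  intro p hp
  have hpN : ¬ (p : ℕ) ∣ N := by
    intro hdvd
    have hle := Nat.le_of_dvd (Nat.pos_of_ne_zero (NeZero.ne N)) hdvd
    exact hp (Finset.mem_range.2 (Nat.lt_succ_of_le hle))
  have hnot : (N : 𝓞 ℚ) ∉ (ratPrime p).asIdeal := by
    rw [natCast_mem_ratPrime_iff]
    exact hpN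
  have := (hmatch (ratPrime p) hnot).1
  rw [this, absNorm_ratPrime]

end Fermat.Agent.LT.H556.I670
end

end
-- ===== PACK-END LT/H556/DictHol.lean

-- ===== PACK-BEGIN LT/T2/H767/LocalL2Spec.lean
section






/-!
# Row LT, tower T2, leaf T2.03c = `LeafLocalL2` (owner helper767): THE CUT

OFF-MAIN.  Definitions, two frozen sub-leaf Props and the PROVED top.  Nothing assumed.
Typed against `LT/H556/A0.lean` (66d3374a), `LT/T1/Spec.lean` (e8ae48d6), `LT/T2/Spec.lean` v3
(b934629a), `LT/T2/H386/GPSSpec.lean` (fb5aa9e8), byte-identical copies.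

## The route

`∫_Ω |ψ(x h)| dμ(h) ≤ μ(Ω)^{1/2} (∫_{xΩ} |ψ|²)^{1/2}` (Cauchy--Schwarz, left invariance), and
`∫_{xΩ} |ψ|² ≤ #Q₀ · (multiplicity) · ∫_D |ψ|²`:

* NO tiling of `G` by the translates of the slab is used (no real scalar has to be constructed):
  after a rational positive scalar at one infinite place (`ψ` and the height do not change) `x`
  lies in the open slab; the values of `‖det‖` on `xΩ` lie in a fixed compact interval, so a FINITE
  set `Q₀` of rational scalars `z_q` moves every point of `xΩ` into the slab; on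
  `A_q = {g ∈ xΩ : g z_q ∈ slab}` the translates `P_γ = {g : γ g z_q ∈ D}` cover (`Frame.strict`),
  `∫_{A_q ∩ P_γ} |ψ|² = ∫_{D ∩ γ A_q z_q} |ψ|²` (`μ` is left and right invariant, `ψ` is invariant)
  and `∑_γ 1_{γ A_q z_q}(h) = #{γ : γ⁻¹ h z_q⁻¹ ∈ xΩ} ≤ #(GL₂(K) ∩ x (Ω Ω⁻¹) x⁻¹)`.
* THE COUNT `CountC`: `#(GL₂(K) ∩ x C x⁻¹) ≤ B · H(x)` on `{H ≥ c}`, for every compact `C`.

## The cut

* `LeafCount K : T1Out K → CountC K`  (number theory: reduction theory + lattice points).
* `LeafInt K : T1Out K → CountC K → ∀ 𝔫 ≠ ⊥, LocalL2 K 𝔫`  (measure theory).  OWNER helper767.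
* PROVED `leafLocalL2_of_leaves : LeafCount K → LeafInt K → H386.LeafLocalL2 K`.
-/

set_option autoImplicit false

open IsDedekindDomain NumberField MeasureTheory
open Fermat.Agent.LT.H556.A0

noncomputable section

namespace Fermat.Agent.LT.T2.H767

open Fermat.Agent.LT.T2

variable (K : Type) [Field K] [NumberField K]

/-- **THE COUNT.**  For a compact set `C ⊆ GL₂(𝔸_K)` the number of `δ ∈ GL₂(K)` with
`δ ∈ x C x⁻¹` (written `δ x = x ω`, `ω ∈ C`) is `≤ B · H(x)` on `{H ≥ c}`.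

Proof.  `T1.SiegelCompactC` (with `c = 1`): `x = β z a ω₀`, `β ∈ B(K)`, `z` central,
`a = diag(s, 1)` at the infinite places and `1` at the finite places, `ω₀ ∈ Ω₀` compact,
`m t ≤ s^n ≤ M t`.  Then `δ' = β⁻¹ δ β ∈ GL₂(K)` has `a⁻¹ δ' a ∈ C₁ = Ω₀ C Ω₀⁻¹` (compact), and
`a⁻¹ [[p, q], [r, u]] a = [[p, q/σ], [σ r, u]]`, `σ` = the idele `s` at the infinite places, `1` at
the finite places.  The entries of the elements of `C₁` lie in a compact set `E ⊆ 𝔸_K`,
`E ⊆ {‖y_w‖ ≤ R, d y_v ∈ 𝒪_v}`.  So `p, u ∈ K ∩ E` (finite: `T1.AdeleLatticeC`),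
`r ∈ K`, `d r ∈ 𝓞 K`, `|r|_w ≤ R / s ≤ R / s₀` (finitely many, `s₀ = (m c)^{1/n}`), and
`q ∈ K`, `d q ∈ 𝓞 K`, `|q|_w ≤ R s`: at most `C₂ s^n ≤ C₂ M t` points (packing of the translates
of a bounded fundamental domain of `𝓞 K` in `K_∞`, Mathlib `ZSpan.fundamentalDomain`,
`Measure.addHaar_closedBall`). -/
def CountC : Prop :=
  ∀ C : Set (G K), IsCompact C →
    ∃ B c : ℝ, 0 < c ∧
      ∀ (x : G K) (t : ℝ), T1.HasHeight K x t → c ≤ t →
        ∀ T : Finset (GL (Fin 2) K),
          (∀ δ ∈ T, ∃ ω ∈ C, T1.ratG K δ * x = x * ω) → (T.card : ℝ) ≤ B * t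

/-- **T2.03c.1** THE COUNT from T1.  (≈ 1.2k lines.) -/
def LeafCount : Prop := T1.T1Out K → CountC K

/-- **T2.03c.2** INTEGRATION: the count gives the local `L²` bound.  (≈ 0.8k lines; owner
helper767.) -/
def LeafInt : Prop :=
  T1.T1Out K → CountC K → ∀ 𝔫 : Ideal (𝓞 K), 𝔫 ≠ ⊥ → H386.LocalL2 K 𝔫

variable {K}

/-- THE TOP of T2.03c. -/
theorem leafLocalL2_of_leaves (h1 : LeafCount K) (h2 : LeafInt K) : H386.LeafLocalL2 K :=
  fun hT 𝔫 h𝔫 => h2 hT (h1 hT) 𝔫 h𝔫

end Fermat.Agent.LT.T2.H767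

end

end
-- ===== PACK-END LT/T2/H767/LocalL2Spec.lean

-- ===== PACK-BEGIN LT/T2/H386/Soft1A.lean
section






/-!
# Row LT, T2.03b (helper386): algebra and topology of the unipotent conjugates

OFF-MAIN.  `unip386` is a continuous homomorphism `𝔸_K → GL₂(𝔸_K)`, so is every conjugate
`conjUnip386 x`; a number field is countable; the constant term of an automorphic function is
left invariant under `N(𝔸_K)` (from the quantifiers of `T2.IsConstTerm`).
-/

set_option autoImplicit false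

open IsDedekindDomain NumberField MeasureTheory
open Fermat.Agent.LT.H556.A0

noncomputable section

namespace Fermat.Agent.LT.T2.H386

open Fermat.Agent.LT.T2

variable {K : Type} [Field K] [NumberField K]

/-! ## 1. `unip386` -/

theorem unip386_add (u v : Adl K) : unip386 (u + v) = unip386 u * unip386 v := by
  apply Units.ext
  rw [Units.val_mul, unip386_coe, unip386_coe, unip386_coe]
  ext i j
  fin_cases i <;> fin_cases j <;> simp [Matrix.mul_apply, Fin.sum_univ_two, add_comm]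

theorem unip386_zero : unip386 (0 : Adl K) = 1 := by
  apply Units.ext
  rw [unip386_coe]
  ext i j
  fin_cases i <;> fin_cases j <;> simp

theorem unip386_neg (v : Adl K) : unip386 (-v) = (unip386 v)⁻¹ := by
  rw [eq_inv_iff_mul_eq_one, ← unip386_add, neg_add_cancel, unip386_zero]

theorem continuous_unip386 : Continuous (unip386 : Adl K → G K) := by
  rw [Units.continuous_iff]
  constructor
  · show Continuous fun x : Adl K => (!![1, x; 0, 1] : Matrix (Fin 2) (Fin 2) (Adl K))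
    refine continuous_matrix fun i j => ?_
    fin_cases i <;> fin_cases j <;> simp <;> fun_prop
  · show Continuous fun x : Adl K => (!![1, -x; 0, 1] : Matrix (Fin 2) (Fin 2) (Adl K))
    refine continuous_matrix fun i j => ?_
    fin_cases i <;> fin_cases j <;> simp <;> fun_prop

/-! ## 2. The conjugates -/

theorem conjUnip386_add (x : G K) (u v : Adl K) :
    conjUnip386 x (u + v) = conjUnip386 x u * conjUnip386 x v := by
  unfold conjUnip386
  rw [unip386_add]
  group

theorem conjUnip386_zero (x : G K) : conjUnip386 x 0 = 1 := by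
  unfold conjUnip386
  rw [unip386_zero]
  group

theorem conjUnip386_neg (x : G K) (v : Adl K) : conjUnip386 x (-v) = (conjUnip386 x v)⁻¹ := by
  rw [eq_inv_iff_mul_eq_one, ← conjUnip386_add, neg_add_cancel, conjUnip386_zero]

theorem conjUnip386_comm (x : G K) (u v : Adl K) :
    conjUnip386 x u * conjUnip386 x v = conjUnip386 x v * conjUnip386 x u := by
  rw [← conjUnip386_add, ← conjUnip386_add, add_comm]

theorem unip386_mul (x : G K) (v : Adl K) : unip386 v * x = x * conjUnip386 x v := by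
  unfold conjUnip386
  group

theorem continuous_conjUnip386 (x : G K) : Continuous (conjUnip386 x) := by
  unfold conjUnip386
  exact (continuous_const.mul continuous_unip386).mul continuous_const

/-! ## 3. Countability -/

theorem countable_numberField386 (K : Type) [Field K] [NumberField K] : Countable K :=
  Function.Injective.countable (Module.finBasis ℚ K).equivFun.injective

theorem countable_princ386 (K : Type) [Field K] [NumberField K] :
    Countable (T1.princ K) := by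
  haveI := countable_numberField386 K
  have h : Function.Surjective
      (fun ξ : K => (⟨algebraMap K (Adl K) ξ, ⟨ξ, rfl⟩⟩ : T1.princ K)) := by
    rintro ⟨y, ξ, rfl⟩
    exact ⟨ξ, rfl⟩
  exact h.countable

end Fermat.Agent.LT.T2.H386

end

end
-- ===== PACK-END LT/T2/H386/Soft1A.lean

-- ===== PACK-BEGIN LT/T2/H952/Aut0.lean
section



/-!
# Row LT, tower T2, station T2.10 (SMO_AA), leaf T2.10.12 `Aut0C` (helper952)

OFF-MAIN.  `aut0C952 : Fermat.Agent.LT.T2.H941.Aut0C K` for every number field `K`: the forms of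
A0 are left invariant under the diagonal positive scalars `Z⁺`.

Proof.  A diagonal positive scalar `z` is the scalar matrix of the idele `y` with components
`ρ_w = z₀₀ at w` at the infinite places and `1` at the finite places (the embedding of the
completion at `w` into `ℂ` is injective).  Hence `z` is central, and `z = ∏_w z_w` where `z_w` is
the scalar matrix of the idele supported at `w` with component `ρ_w` (`Finset.univ_prod_mulSingle`);
`z_w` is a positive scalar at `w` in the sense of `A0.IsArchPosScalar`, and the form is right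
invariant under each `z_w`.
-/

set_option autoImplicit false
set_option linter.unusedSectionVars false
set_option linter.style.haveILetI false

open IsDedekindDomain NumberField AutomorphicForm
open Fermat.Agent.LT.H556.A0

noncomputable section

namespace Fermat.Agent.LT.T2.H952

variable {K : Type} [Field K] [NumberField K]

/-- The scalar matrix of an idele. -/
def sc952 : (Adl K)ˣ →* G K :=
  Units.map (Matrix.scalar (Fin 2) : Adl K →+* Matrix (Fin 2) (Fin 2) (Adl K)).toMonoidHom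

theorem sc_apply952 (y : (Adl K)ˣ) (i j : Fin 2) :
    ((sc952 y : G K) : Matrix (Fin 2) (Fin 2) (Adl K)) i j = if i = j then (y : Adl K) else 0 := by
  show (Matrix.scalar (Fin 2) (y : Adl K)) i j = _
  rw [Matrix.scalar_apply, Matrix.diagonal_apply]

/-- Scalar matrices are central. -/
theorem sc_comm952 (y : (Adl K)ˣ) (g : G K) : sc952 y * g = g * sc952 y := by
  apply Units.ext
  show (Matrix.scalar (Fin 2) (y : Adl K)) * (g : Matrix (Fin 2) (Fin 2) (Adl K)) =
    (g : Matrix (Fin 2) (Fin 2) (Adl K)) * (Matrix.scalar (Fin 2) (y : Adl K))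
  exact (Matrix.scalar_commute (y : Adl K) (fun r => Commute.all _ r) _).eq

/-- The idele with given unit components at the infinite places and `1` at the finite places. -/
def idl952 : ((w : InfinitePlace K) → (w.Completion)ˣ) →* (Adl K)ˣ :=
  (MulEquiv.prodUnits (M := InfiniteAdeleRing K) (N := FiniteAdeleRing (𝓞 K) K)).symm.toMonoidHom.comp
    ((MonoidHom.inl _ _).comp
      (MulEquiv.piUnits (M := fun w : InfinitePlace K => w.Completion)).symm.toMonoidHom)

theorem idl_fst952 (u : (w : InfinitePlace K) → (w.Completion)ˣ) (w : InfinitePlace K) :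
    ((idl952 u : (Adl K)ˣ) : Adl K).1 w = (u w : w.Completion) := rfl

theorem idl_snd952 (u : (w : InfinitePlace K) → (w.Completion)ˣ) :
    ((idl952 u : (Adl K)ˣ) : Adl K).2 = 1 := rfl

theorem sc_entry_fst952 (y : (Adl K)ˣ) (i j : Fin 2) (w : InfinitePlace K) :
    (((sc952 y : G K) : Matrix (Fin 2) (Fin 2) (Adl K)) i j).1 w =
      if i = j then (y : Adl K).1 w else 0 := by
  rw [sc_apply952]
  split_ifs <;> rfl

theorem sc_entry_snd952 (y : (Adl K)ˣ) (i j : Fin 2) (v : HeightOneSpectrum (𝓞 K)) :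
    (((sc952 y : G K) : Matrix (Fin 2) (Fin 2) (Adl K)) i j).2 v =
      if i = j then (y : Adl K).2 v else 0 := by
  rw [sc_apply952]
  split_ifs <;> rfl

open scoped Classical in
/-- The scalar matrix of an idele supported at `w` whose component is a positive real number is
a positive scalar at `w`. -/
theorem isArchPosScalar_sc952 (w : InfinitePlace K) (ρ : (w.Completion)ˣ) (r : ℝ) (hr : 0 < r)
    (hρ : InfinitePlace.Completion.extensionEmbedding w (ρ : w.Completion) = (r : ℂ)) :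
    IsArchPosScalar w (sc952 (idl952 (Pi.mulSingle w ρ))) := by
  classical
  refine ⟨⟨?_, ?_⟩, r, hr, ?_⟩
  · intro w' hw' i j
    rw [sc_entry_fst952, idl_fst952, Pi.mulSingle_eq_of_ne hw', Matrix.one_apply]
    rfl
  · intro v
    refine Matrix.ext fun i j => ?_
    show (((sc952 (idl952 (Pi.mulSingle w ρ)) : G K) : Matrix (Fin 2) (Fin 2) (Adl K)) i j).2 v = _
    rw [sc_entry_snd952, idl_snd952, Matrix.one_apply]
    rfl
  · refine Matrix.ext fun i j => ?_
    show InfinitePlace.Completion.extensionEmbedding w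
      ((((sc952 (idl952 (Pi.mulSingle w ρ)) : G K) : Matrix (Fin 2) (Fin 2) (Adl K)) i j).1 w) = _
    rw [sc_entry_fst952, idl_fst952, Pi.mulSingle_eq_same, Matrix.diagonal_apply]
    split_ifs
    · exact hρ
    · exact map_zero _

/-- A diagonal positive scalar is the scalar matrix of an idele at infinity with positive real
components. -/
theorem exists_idl952 {z : G K} (hz : T2.IsDiagPosScalar z) :
    ∃ (u : (w : InfinitePlace K) → (w.Completion)ˣ) (r : ℝ), 0 < r ∧
      (∀ w, InfinitePlace.Completion.extensionEmbedding w (u w : w.Completion) = (r : ℂ)) ∧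
      z = sc952 (idl952 u) := by
  obtain ⟨hfin, r, hr, hinf⟩ := hz
  have hinj : ∀ w : InfinitePlace K,
      Function.Injective (InfinitePlace.Completion.extensionEmbedding w) :=
    fun w => (InfinitePlace.Completion.extensionEmbedding w).injective
  have hentry : ∀ (w : InfinitePlace K) (i j : Fin 2),
      InfinitePlace.Completion.extensionEmbedding w
        (((z : Matrix (Fin 2) (Fin 2) (Adl K)) i j).1 w) = if i = j then (r : ℂ) else 0 := by
    intro w i j
    have := congrFun (congrFun (hinf w) i) j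
    rw [Matrix.diagonal_apply] at this
    exact this
  have h00 : ∀ w : InfinitePlace K, ((z : Matrix (Fin 2) (Fin 2) (Adl K)) 0 0).1 w ≠ 0 := by
    intro w h0
    have := hentry w 0 0
    rw [h0, map_zero, if_pos rfl] at this
    exact hr.ne' (by exact_mod_cast this.symm)
  refine ⟨fun w => Units.mk0 _ (h00 w), r, hr, fun w => ?_, ?_⟩
  · have := hentry w 0 0
    rwa [if_pos rfl] at this
  · apply Units.ext
    refine Matrix.ext fun i j => ?_
    refine Prod.ext ?_ ?_
    · funext w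
      rw [sc_entry_fst952, idl_fst952]
      apply hinj w
      rw [hentry w i j]
      split_ifs
      · exact (by have := hentry w 0 0; rwa [if_pos rfl] at this : _ = (r : ℂ)).symm
      · exact (map_zero _).symm
    · apply RestrictedProduct.ext
      intro v
      have e1 := sc_entry_snd952 (idl952 fun w => Units.mk0 _ (h00 w)) i j v
      have e2 : (((z : Matrix (Fin 2) (Fin 2) (Adl K)) i j).2 v) = if i = j then 1 else 0 := by
        have := congrFun (congrFun (hfin v) i) j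
        rw [Matrix.one_apply] at this
        exact this
      refine e2.trans (e1.trans ?_).symm
      rw [idl_snd952]
      split_ifs <;> rfl

/-- **Leaf T2.10.12** (registry row 1105). -/
theorem aut0C952 (K : Type) [Field K] [NumberField K] : H941.Aut0C K := by
  classical
  intro π φ h
  refine ⟨h.cont, h.bdd, fun γ g => h.left_inv γ g, ?_⟩
  intro z hz g
  obtain ⟨u, r, hr, hu, rfl⟩ := exists_idl952 hz
  rw [sc_comm952]
  have hprod : ∀ (s : Finset (InfinitePlace K)) (x : G K),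
      φ (x * sc952 (idl952 (∏ w ∈ s, Pi.mulSingle w (u w)))) = φ x := by
    intro s
    induction s using Finset.induction_on with
    | empty => intro x; rw [Finset.prod_empty, map_one, map_one, mul_one]
    | insert a s ha ih =>
      intro x
      rw [Finset.prod_insert ha, map_mul, map_mul, ← mul_assoc, ih]
      exact h.arch_scalar a _ (isArchPosScalar_sc952 a (u a) r hr (hu a)) x
  have hu' : u = ∏ w, Pi.mulSingle w (u w) := (Finset.univ_prod_mulSingle u).symm
  have h3 := hprod Finset.univ g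
  rw [← hu'] at h3
  exact h3

end Fermat.Agent.LT.T2.H952

end

end
-- ===== PACK-END LT/T2/H952/Aut0.lean

-- ===== PACK-BEGIN LT/H886/DoubleCoset.lean
section



/-!
# Row LT, helper886: the double coset of the Hecke operator `T_v` is stable under `h ↦ z h⁻¹`

OFF-MAIN.  Imports (byte-identical copies of helper129's files): `LT/H129/Cartan.lean`,
`LT/H129/HeckeA0.lean` (and their imports; vocabulary `LT/H556/A0.lean`).

* `exists_diag_unif886` : over a field `k` with a valuation in `ℤᵐ⁰`, an integral `g ∈ GL₂(k)`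
  whose determinant has valuation `exp (-1)` lies in `GL₂(O) · diag(1, c) · GL₂(O)` for every
  `c` of valuation `exp (-1)`;
* `inv_mem_doubleCoset886` : for two such `g`, `g'`: `g⁻¹ ∈ GL₂(O) · (c⁻¹ g') · GL₂(O)`;
* `exists_localMaxCpt_inv886` : the adelic form, in the vocabulary of A0: for `h`, `h'` local at
  `v`, integral, with determinant a uniformiser, and `z` a scalar uniformiser at `v`:
  `h⁻¹ = u₁ * (z⁻¹ * h') * u₂` with `u₁`, `u₂` local at `v` and in `GL₂(𝒪_v)`.
  (Used with `h' = h`: the adjoint of `T_v` is `S_v⁻¹ T_v`.)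
-/

set_option autoImplicit false

open Matrix

noncomputable section

namespace Fermat.Agent.LT.H886

open Fermat.Agent.LT.H129

section Field

variable {k : Type*} [Field k] [Valued k (WithZero (Multiplicative ℤ))]

/-- The valuation ring of `k`. -/
abbrev vO886 (k : Type*) [Field k] [Valued k (WithZero (Multiplicative ℤ))] :
    ValuationSubring k :=
  (Valued.v : Valuation k (WithZero (Multiplicative ℤ))).valuationSubring

theorem mem_vO886 (x : k) : x ∈ vO886 k ↔ Valued.v x ≤ 1 := Iff.rfl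

omit [Valued k (WithZero (Multiplicative ℤ))] in
theorem diag129_inv886 (x y : k) (hx : x ≠ 0) (hy : y ≠ 0) :
    (diag129 x y hx hy)⁻¹ = diag129 x⁻¹ y⁻¹ (inv_ne_zero hx) (inv_ne_zero hy) := by
  rw [inv_eq_iff_mul_eq_one]
  apply ext_mat129
  simp [diag129, Matrix.one_fin_two, hx, hy]

omit [Valued k (WithZero (Multiplicative ℤ))] in
theorem diag129_mul886 (x y x' y' : k) (hx : x ≠ 0) (hy : y ≠ 0) (hx' : x' ≠ 0) (hy' : y' ≠ 0) :
    diag129 x y hx hy * diag129 x' y' hx' hy'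
      = diag129 (x * x') (y * y') (mul_ne_zero hx hx') (mul_ne_zero hy hy') := by
  apply ext_mat129
  simp [diag129]

/-- A diagonal matrix with unit entries lies in `GL₂(O)`. -/
theorem isMaxCpt129_diag886 {x y : k} (hx : Valued.v x = 1) (hy : Valued.v y = 1)
    (hx0 : x ≠ 0) (hy0 : y ≠ 0) : IsMaxCpt129 (vO886 k) (diag129 x y hx0 hy0) := by
  have hxi : Valued.v x⁻¹ = 1 := by rw [map_inv₀, hx, inv_one]
  have hyi : Valued.v y⁻¹ = 1 := by rw [map_inv₀, hy, inv_one]
  refine ⟨isInt129_mkGL _ ?_ (vO886 k).zero_mem (vO886 k).zero_mem ?_, ?_⟩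
  · exact (mem_vO886 x).mpr hx.le
  · exact (mem_vO886 y).mpr hy.le
  · rw [diag129_inv886]
    exact isInt129_mkGL _ ((mem_vO886 _).mpr hxi.le) (vO886 k).zero_mem (vO886 k).zero_mem
      ((mem_vO886 _).mpr hyi.le)

/-- The determinant of an element of `GL₂(O)` is a unit. -/
theorem valued_det_of_isMaxCpt886 {u : GL (Fin 2) k} (hu : IsMaxCpt129 (vO886 k) u) :
    Valued.v (u : Matrix (Fin 2) (Fin 2) k).det = 1 := by
  have h1 : Valued.v (u : Matrix (Fin 2) (Fin 2) k).det ≤ 1 := det_mem_of_isInt129 hu.1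
  have h2 : Valued.v ((u⁻¹ : GL (Fin 2) k) : Matrix (Fin 2) (Fin 2) k).det ≤ 1 :=
    det_mem_of_isInt129 hu.2
  have h3 : (u : Matrix (Fin 2) (Fin 2) k).det
      * ((u⁻¹ : GL (Fin 2) k) : Matrix (Fin 2) (Fin 2) k).det = 1 := by
    rw [← Matrix.det_mul, ← Matrix.GeneralLinearGroup.coe_mul, mul_inv_cancel]
    simp
  have h4 : Valued.v (u : Matrix (Fin 2) (Fin 2) k).det
      * Valued.v ((u⁻¹ : GL (Fin 2) k) : Matrix (Fin 2) (Fin 2) k).det = 1 := by
    rw [← map_mul, h3, map_one]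
  refine le_antisymm h1 ?_
  calc (1 : WithZero (Multiplicative ℤ))
      = Valued.v (u : Matrix (Fin 2) (Fin 2) k).det
        * Valued.v ((u⁻¹ : GL (Fin 2) k) : Matrix (Fin 2) (Fin 2) k).det := h4.symm
    _ ≤ Valued.v (u : Matrix (Fin 2) (Fin 2) k).det * 1 := mul_le_mul' le_rfl h2
    _ = Valued.v (u : Matrix (Fin 2) (Fin 2) k).det := mul_one _

/-- **Normal form**: an integral matrix whose determinant has valuation `exp (-1)` lies in the
double coset of `diag(1, c)`, for every `c` of valuation `exp (-1)`. -/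
theorem exists_diag_unif886 (g : GL (Fin 2) k) (hg : IsInt129 (vO886 k) g)
    (hdet : Valued.v (g : Matrix (Fin 2) (Fin 2) k).det = WithZero.exp (-1 : ℤ))
    (c : k) (hc : Valued.v c = WithZero.exp (-1 : ℤ)) (hc0 : c ≠ 0) :
    ∃ k₁ k₂ : GL (Fin 2) k, IsMaxCpt129 (vO886 k) k₁ ∧ IsMaxCpt129 (vO886 k) k₂ ∧
      g = k₁ * diag129 1 c one_ne_zero hc0 * k₂ := by
  obtain ⟨k₁, k₂, x, y, hx, hy, h1, h2, hxy, hgk⟩ := cartan129 (vO886 k) g
  -- the diagonal part is integral
  have hD : diag129 x y hx hy = k₁⁻¹ * g * k₂⁻¹ := by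
    rw [hgk]; group
  have hDint : IsInt129 (vO886 k) (diag129 x y hx hy) := by
    rw [hD]
    exact isInt129_mul (isInt129_mul h1.2 hg) h2.2
  have hx1 : Valued.v x ≤ 1 := by
    have := hDint 0 0
    simpa [diag129] using this
  have hy1 : Valued.v y ≤ 1 := by
    have := hDint 1 1
    simpa [diag129] using this
  have hyx : Valued.v y ≤ Valued.v x := by
    have h := (mem_vO886 (y / x)).mp hxy
    rw [map_div₀] at h
    have hvx : (0 : WithZero (Multiplicative ℤ)) < Valued.v x :=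
      zero_lt_iff.mpr (by rwa [ne_eq, map_eq_zero])
    exact (div_le_one₀ hvx).mp h
  -- the determinant
  have hdetD : Valued.v x * Valued.v y = WithZero.exp (-1 : ℤ) := by
    have e : (g : Matrix (Fin 2) (Fin 2) k).det
        = (k₁ : Matrix (Fin 2) (Fin 2) k).det * (x * y) * (k₂ : Matrix (Fin 2) (Fin 2) k).det := by
      rw [hgk, Matrix.GeneralLinearGroup.coe_mul, Matrix.GeneralLinearGroup.coe_mul,
        Matrix.det_mul, Matrix.det_mul]
      congr 2
      simp [diag129, Matrix.det_fin_two_of]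
    rw [e, map_mul, map_mul, valued_det_of_isMaxCpt886 h1, valued_det_of_isMaxCpt886 h2, one_mul,
      mul_one, map_mul] at hdet
    exact hdet
  -- `x` is a unit
  have hxu : Valued.v x = 1 := by
    by_contra hne
    have hlt : Valued.v x < 1 := lt_of_le_of_ne hx1 hne
    have hx' : Valued.v x ≤ WithZero.exp (-1 : ℤ) := withZero_le_exp_neg_one129 hlt
    have hy' : Valued.v y ≤ WithZero.exp (-1 : ℤ) := le_trans hyx hx'
    have hprod : Valued.v x * Valued.v y ≤ WithZero.exp (-1 : ℤ) * WithZero.exp (-1 : ℤ) :=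
      mul_le_mul' hx' hy'
    rw [hdetD, ← WithZero.exp_add] at hprod
    have : (-1 : ℤ) ≤ -1 + -1 := WithZero.exp_le_exp.mp hprod
    omega
  have hyu : Valued.v y = WithZero.exp (-1 : ℤ) := by
    rw [hxu, one_mul] at hdetD
    exact hdetD
  -- `diag(x, y) = diag(x, y / c) * diag(1, c)`
  have hyc0 : y / c ≠ 0 := div_ne_zero hy hc0
  have hyc : Valued.v (y / c) = 1 := by
    rw [map_div₀, hyu, hc]
    exact div_self (by simp)
  have hsplit : diag129 x y hx hy = diag129 x (y / c) hx hyc0 * diag129 1 c one_ne_zero hc0 := by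
    rw [diag129_mul886]
    apply ext_mat129
    simp only [diag129, coe_mkGL129]
    rw [mul_one, div_mul_cancel₀ _ hc0]
  refine ⟨k₁ * diag129 x (y / c) hx hyc0, k₂,
    isMaxCpt129_mul h1 (isMaxCpt129_diag886 hxu hyc hx hyc0), h2, ?_⟩
  rw [hgk, hsplit]
  group

/-- **The double coset of `T_v` is stable under `g ↦ c g⁻¹`**: for integral `g`, `g'` with
determinants of valuation `exp (-1)` and `c` of valuation `exp (-1)`:
`g⁻¹ ∈ GL₂(O) · (c⁻¹ g') · GL₂(O)`. -/
theorem inv_mem_doubleCoset886 (g g' : GL (Fin 2) k) (hg : IsInt129 (vO886 k) g)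
    (hdet : Valued.v (g : Matrix (Fin 2) (Fin 2) k).det = WithZero.exp (-1 : ℤ))
    (hg' : IsInt129 (vO886 k) g')
    (hdet' : Valued.v (g' : Matrix (Fin 2) (Fin 2) k).det = WithZero.exp (-1 : ℤ))
    (c : k) (hc : Valued.v c = WithZero.exp (-1 : ℤ)) (hc0 : c ≠ 0) :
    ∃ κ₁ κ₂ : GL (Fin 2) k, IsMaxCpt129 (vO886 k) κ₁ ∧ IsMaxCpt129 (vO886 k) κ₂ ∧
      g⁻¹ = κ₁ * ((diag129 c c hc0 hc0)⁻¹ * g') * κ₂ := by
  obtain ⟨k₁, k₂, h1, h2, e⟩ := exists_diag_unif886 g hg hdet c hc hc0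
  obtain ⟨k₁', k₂', h1', h2', e'⟩ := exists_diag_unif886 g' hg' hdet' c hc hc0
  have hw := isMaxCpt129_weyl (F := k) (vO886 k)
  -- `diag(1, c)⁻¹ = w (c⁻¹ diag(1, c)) w`
  have eD : (diag129 1 c one_ne_zero hc0)⁻¹
      = weyl129 * ((diag129 c c hc0 hc0)⁻¹ * diag129 1 c one_ne_zero hc0) * weyl129 := by
    rw [diag129_inv886, diag129_inv886, diag129_mul886]
    apply ext_mat129
    rw [Matrix.GeneralLinearGroup.coe_mul, coe_weyl129_mul]
    simp [diag129, weyl129, hc0]
  -- scalars are central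
  have eS : ∀ a : GL (Fin 2) k, (diag129 c c hc0 hc0)⁻¹ * a = a * (diag129 c c hc0 hc0)⁻¹ := by
    intro a
    rw [diag129_inv886]
    apply ext_mat129
    rw [Matrix.GeneralLinearGroup.coe_mul, Matrix.GeneralLinearGroup.coe_mul]
    conv_lhs => rw [eta129 a]
    conv_rhs => rw [eta129 a]
    simp [diag129, mul_comm]
  refine ⟨k₂⁻¹ * weyl129 * k₁'⁻¹, k₂'⁻¹ * weyl129 * k₁⁻¹,
    isMaxCpt129_mul (isMaxCpt129_mul (isMaxCpt129_inv h2) hw) (isMaxCpt129_inv h1'),
    isMaxCpt129_mul (isMaxCpt129_mul (isMaxCpt129_inv h2') hw) (isMaxCpt129_inv h1), ?_⟩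
  have e3 : (diag129 c c hc0 hc0)⁻¹ * g'
      = k₁' * ((diag129 c c hc0 hc0)⁻¹ * diag129 1 c one_ne_zero hc0) * k₂' := by
    rw [e', ← mul_assoc, ← mul_assoc, eS k₁']
    group
  rw [e3]
  have e4 : g⁻¹ = k₂⁻¹ * (diag129 1 c one_ne_zero hc0)⁻¹ * k₁⁻¹ := by
    rw [e]; group
  rw [e4, eD]
  group

end Field

section Adelic

open IsDedekindDomain NumberField Fermat.Agent.LT.H556.A0

variable {K : Type} [Field K] [NumberField K] {v : HeightOneSpectrum (𝓞 K)}

/-- The local embedding of an element of `GL₂(𝒪_v)` is local at `v` and lies in `GL₂(𝒪_v)`. -/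
theorem isLocalMaxCptAt129_locFin886 {κ : GL (Fin 2) (v.adicCompletion K)}
    (h : IsMaxCpt129 (v.adicCompletionIntegers K) κ) : IsLocalMaxCptAt129 v (locFin129 v κ) := by
  refine ⟨isLocalAtFin_locFin129 v κ, ?_, ?_⟩
  · intro i j
    rw [finComp_locFin129]
    exact h.1 i j
  · intro i j
    rw [← map_inv, finComp_locFin129]
    exact h.2 i j

/-- **Adelic form.**  For `h`, `h'` supported at `v`, integral, with determinant a uniformiser,
and `z` a scalar uniformiser at `v`: `h⁻¹ ∈ GL₂(𝒪_v) · (z⁻¹ h') · GL₂(𝒪_v)`. -/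
theorem exists_localMaxCpt_inv886 {h h' z : G K}
    (hl : IsLocalAtFin v h) (hi : IsIntegralAt v h)
    (hd : Valued.v (finComp v h).det = WithZero.exp (-1 : ℤ))
    (hl' : IsLocalAtFin v h') (hi' : IsIntegralAt v h')
    (hd' : Valued.v (finComp v h').det = WithZero.exp (-1 : ℤ))
    (hz : IsScalarUniformizerAt v z) :
    ∃ u₁ u₂ : G K, IsLocalMaxCptAt129 v u₁ ∧ IsLocalMaxCptAt129 v u₂ ∧
      h⁻¹ = u₁ * (z⁻¹ * h') * u₂ := by
  obtain ⟨hzl, c, hc, hzc⟩ := hz
  have hc0 : c ≠ 0 := by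
    intro h0
    rw [h0, map_zero] at hc
    exact WithZero.exp_ne_zero hc.symm
  obtain ⟨κ₁, κ₂, m1, m2, e⟩ := inv_mem_doubleCoset886 (k := v.adicCompletion K)
    (finCompHom129 v h) (finCompHom129 v h') hi hd hi' hd' c hc hc0
  have ez : finCompHom129 v z = diag129 c c hc0 hc0 := by
    apply ext_mat129
    rw [coe_finCompHom129, hzc]
    ext i j
    fin_cases i <;> fin_cases j <;> simp [diag129]
  refine ⟨locFin129 v κ₁, locFin129 v κ₂, isLocalMaxCptAt129_locFin886 m1,
    isLocalMaxCptAt129_locFin886 m2, ?_⟩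
  have e1 : h⁻¹ = locFin129 v (finCompHom129 v h)⁻¹ := by
    rw [map_inv, ← eq_locFin129_of_isLocalAtFin hl]
  rw [e1, e, map_mul, map_mul, map_mul, map_inv, ← ez, ← eq_locFin129_of_isLocalAtFin hzl,
    ← eq_locFin129_of_isLocalAtFin hl']

end Adelic

end Fermat.Agent.LT.H886

end
end
-- ===== PACK-END LT/H886/DoubleCoset.lean

-- ===== PACK-BEGIN LT/T2/H973/ArchSpec.lean
section







/-!
# Row LT, tower T2, leaf T2.10.08 `ArchTorusC` (complex place): SUB-SPEC (helper973)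

OFF-MAIN.  Owner and sub-architect of registry row 1101 (`H941.Leaf08 K : T1.T1Out K → ArchTorusC K`,
`LT/T2/H941/SmoSpec.lean` of helper941, sha256 41255efa7193).  Definitions and sub-leaf Props only
in this file (no placeholder proof, nothing assumed); the PROVED tops are in `ArchTop.lean`.

## The cut

ADELIC PART (`K`, the place `w`, the Whittaker coefficient `W = wh ψ ν D Φ`):
* A1 `WhEquivC`  : `W(n(a) g) = ψ(a) W(g)`                      (independence of the fundamental domain)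
* A2 `WhContC`   : `W` is continuous and bounded                (dominated convergence, `ν D < ∞`)
* A3 `WhMeanC`   : the mean value property passes from `Φ` to `W` (Fubini)
* A4 `LocEmbC`   : the embedding `j : GL₂(ℂ) → GL₂(𝔸_K)` at a complex place `w`
With these, `h ↦ W(j(h) g)` (`g` trivial at `w`) is a LOCAL WHITTAKER FUNCTION of parameter `0`
(`IsLocWhit`) for the character `χ = ψ ∘ ι` of `ℂ`.

LOCAL PART (functions on `GL₂(ℂ)`, Mathlib only): `LocUniqC` = a local Whittaker function of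
parameter `0` is determined on the torus by its value at `1`, through a universal `κ` without zeros.
* L1 `CharClassC`  : a continuous character of `ℂ` is `x ↦ exp(i Re(c̄ x))`
* R1 `SphereCoordC`: Iwasawa coordinates of the geodesic sphere:
                     `f(t(eˢ) k(α,β) a_d) = χ(eˢ e^{iα} sin β sinh d / D) f(t(eˢ / D))`,
                     `D = cosh d - cos β sinh d`
* R2 `BetaFormC`   : the mean value property in the coordinate `β` (`IsBetaSol`), kernel
                     `J(z) = (2π)⁻¹ ∫₀^{2π} exp(i z cos α) dα` (`besJ`)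
* R3 `SubstC`      : substitution `D = e^{-t}`: `IsBetaSol k F → IsRadSol k (e^{-s} F)`;
                     `IsRadSol k H`: `∫_{-d}^{d} J(k eˢ √(2 eᵗ (cosh d - cosh t))) H(s+t) dt = 2 d H(s)`
* L4a `GenLaplC`   : `IsRadSol k H` ⟹ the generalised second derivative of `H`
                     (`lim_{d→0} 6 d⁻² (mean of H over [s-d,s+d] - H(s))`) is `k² e^{2s} H(s)`
* L4b `GenSecondC` : a continuous function with continuous generalised second derivative `φ` is
                     `C²` with `H'' = φ` (Blaschke--Privalov in dimension one, maximum principle)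
* L5 `OdeUniqC`    : a solution of `h'' = k² e^{2s} h` which tends to `0` at `+∞` and has a zero is `0`
                     (`(h')' = k² e^{2s} h`: `h > 0, h' ≥ 0` at one point forces `h` increasing)
No Bessel function is constructed: `κ` is the quotient `F₀(|y|) / F₀(1)` of ANY non-zero bounded
real solution `F₀(r) = r h₀(log r)` (and `κ = 1` if there is none, in which case every `W` vanishes
on the torus); the boundedness of `Φ` gives `h(s) = e^{-s} F(eˢ) → 0`.
-/

set_option autoImplicit false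

open IsDedekindDomain NumberField MeasureTheory AutomorphicForm
open Fermat.Agent.LT.H556.A0
open scoped ComplexConjugate

noncomputable section

namespace Fermat.Agent.LT.T2.H973

open Fermat.Agent.LT.T2.H941

/-! ## 1. Local vocabulary: `GL₂(ℂ)` -/

/-- The unipotent element `n(x) = [[1, x], [0, 1]]` of `GL₂(ℂ)`. -/
def nC (x : ℂ) : GL (Fin 2) ℂ :=
  ⟨!![1, x; 0, 1], !![1, -x; 0, 1],
    by ext i j; fin_cases i <;> fin_cases j <;> simp [Matrix.mul_apply, Fin.sum_univ_two],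
    by ext i j; fin_cases i <;> fin_cases j <;> simp [Matrix.mul_apply, Fin.sum_univ_two]⟩

/-- The torus element `t(y) = diag(y, 1)` of `GL₂(ℂ)`. -/
def tC (y : ℂˣ) : GL (Fin 2) ℂ :=
  ⟨!![(y : ℂ), 0; 0, 1], !![((y⁻¹ : ℂˣ) : ℂ), 0; 0, 1],
    by ext i j; fin_cases i <;> fin_cases j <;> simp [Matrix.mul_apply, Fin.sum_univ_two],
    by ext i j; fin_cases i <;> fin_cases j <;> simp [Matrix.mul_apply, Fin.sum_univ_two]⟩

/-- The unit `eˢ` of `ℂ`. -/
def expU (s : ℝ) : ℂˣ := Units.mk0 ((Real.exp s : ℝ) : ℂ) (by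
  rw [Ne, Complex.ofReal_eq_zero]; exact (Real.exp_pos s).ne')

/-- The torus element `t(eˢ) = diag(eˢ, 1)`. -/
def tE (s : ℝ) : GL (Fin 2) ℂ := tC (expU s)

/-- The character `x ↦ exp(i Re(c̄ x))` of `ℂ`, as a function. -/
def chiOf (c : ℂ) (x : ℂ) : ℂ := Complex.exp (Complex.I * (((conj c * x).re : ℝ) : ℂ))

/-- The kernel `J(z) = (2π)⁻¹ ∫₀^{2π} exp(i z cos α) dα` (the Bessel function `J₀`). -/
def besJ (z : ℝ) : ℂ :=
  ((2 * Real.pi : ℝ) : ℂ)⁻¹ *
    ∫ α in (0 : ℝ)..(2 * Real.pi), Complex.exp (Complex.I * ((z * Real.cos α : ℝ) : ℂ))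

/-- The denominator `D(β, d) = cosh d - cos β sinh d` (`> 0`). -/
def sphD (β d : ℝ) : ℝ := Real.cosh d - Real.cos β * Real.sinh d

/-- A LOCAL WHITTAKER FUNCTION of parameter `0` on `GL₂(ℂ)` for the character `χ`: continuous,
bounded, `(N, χ)`-equivariant on the left, invariant under `U(2)` and the positive scalars on the
right, with the mean value property of `A0.MeanValueComplex`. -/
structure IsLocWhit (χ : AddChar ℂ Circle) (f : GL (Fin 2) ℂ → ℂ) : Prop where
  cont : Continuous f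
  bdd : ∃ C : ℝ, ∀ h : GL (Fin 2) ℂ, ‖f h‖ ≤ C
  equiv : ∀ (x : ℂ) (h : GL (Fin 2) ℂ), f (nC x * h) = ((χ x : Circle) : ℂ) * f h
  unitary : ∀ u h : GL (Fin 2) ℂ,
    (u : Matrix (Fin 2) (Fin 2) ℂ) * (u : Matrix (Fin 2) (Fin 2) ℂ).conjTranspose = 1 →
      f (h * u) = f h
  scalar : ∀ (z h : GL (Fin 2) ℂ) (r : ℝ), 0 < r →
    (z : Matrix (Fin 2) (Fin 2) ℂ) = Matrix.diagonal (fun _ => (r : ℂ)) → f (h * z) = f h
  mean : ∀ d : ℝ, 0 < d → ∀ Y : ℝ → ℝ → GL (Fin 2) ℂ,
    (∀ α β : ℝ, (Y α β : Matrix (Fin 2) (Fin 2) ℂ) = rotZ α * rotY β * torus d) →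
    ∀ h : GL (Fin 2) ℂ,
      (∫ α in (0 : ℝ)..(2 * Real.pi), ∫ β in (0 : ℝ)..Real.pi,
          f (h * Y α β) * ((Real.sin β : ℝ) : ℂ))
        = ((4 * Real.pi * (d / Real.sinh d) : ℝ) : ℂ) * f h

/-- **LOCAL UNIQUENESS.**  For a continuous character `χ` of `ℂ` there is `κ : ℂ → ℂ`, `κ 1 = 1`,
without zeros on `ℂˣ`, with `f(t(y)) = κ(y) f(1)` for every local Whittaker function `f` of
parameter `0`. -/
def LocUniqC : Prop :=
  ∀ χ : AddChar ℂ Circle, Continuous χ →
    ∃ κ : ℂ → ℂ, κ 1 = 1 ∧ (∀ t : ℂ, t ≠ 0 → κ t ≠ 0) ∧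
      ∀ f : GL (Fin 2) ℂ → ℂ, IsLocWhit χ f → ∀ y : ℂˣ, f (tC y) = κ (y : ℂ) * f 1

/-! ## 2. The local sub-leaves (Mathlib only) -/

/-- **L1.**  A continuous character of `ℂ` is `x ↦ exp(i Re(c̄ x))`.
(`c₀ = ∫₀^δ χ ≠ 0` for small `δ`, `χ(x) c₀ = ∫_x^{x+δ} χ` is differentiable, `χ' = χ'(0) χ`; apply
to the restrictions to `ℝ` and `iℝ`.) -/
def CharClassC : Prop :=
  ∀ χ : AddChar ℂ Circle, Continuous χ → ∃ c : ℂ, ∀ x : ℂ, ((χ x : Circle) : ℂ) = chiOf c x

/-- **R1.**  Iwasawa coordinates of the geodesic sphere of radius `d` around `t(eˢ)`: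
`t(eˢ) k(α,β) a_d = n(x) t(eˢ / D) z u` with `x = eˢ e^{iα} sin β sinh d / D`,
`D = cosh d - cos β sinh d`, `z = √D` scalar, `u` unitary
(`M M* = [[cosh d + cos β sinh d, e^{iα} sin β sinh d], [*, D]]` for `M = k(α,β) a_d`).  Only the
three invariance properties of `f` are used. -/
def SphereCoordC : Prop :=
  ∀ (χ : AddChar ℂ Circle) (f : GL (Fin 2) ℂ → ℂ),
    (∀ (x : ℂ) (h : GL (Fin 2) ℂ), f (nC x * h) = ((χ x : Circle) : ℂ) * f h) →
    (∀ u h : GL (Fin 2) ℂ,
      (u : Matrix (Fin 2) (Fin 2) ℂ) * (u : Matrix (Fin 2) (Fin 2) ℂ).conjTranspose = 1 →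
        f (h * u) = f h) →
    (∀ (z h : GL (Fin 2) ℂ) (r : ℝ), 0 < r →
      (z : Matrix (Fin 2) (Fin 2) ℂ) = Matrix.diagonal (fun _ => (r : ℂ)) → f (h * z) = f h) →
    ∀ (s α β d : ℝ) (Y : GL (Fin 2) ℂ),
      (Y : Matrix (Fin 2) (Fin 2) ℂ) = rotZ α * rotY β * torus d →
      f (tE s * Y)
        = ((χ (((Real.exp s * Real.sin β * Real.sinh d / sphD β d : ℝ) : ℂ)
              * Complex.exp (Complex.I * (α : ℂ))) : Circle) : ℂ)
          * f (tE (s - Real.log (sphD β d)))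

/-- The mean value property in the coordinate `β`, for `F(s) = f(t(eˢ))`. -/
def IsBetaSol (k : ℝ) (F : ℝ → ℂ) : Prop :=
  Continuous F ∧ ∀ s d : ℝ, 0 < d →
    (∫ β in (0 : ℝ)..Real.pi,
        besJ (k * Real.exp s * Real.sin β * Real.sinh d / sphD β d)
          * F (s - Real.log (sphD β d)) * ((Real.sin β : ℝ) : ℂ))
      = ((2 * (d / Real.sinh d) : ℝ) : ℂ) * F s

/-- **R2.**  The mean value property of a local Whittaker function for the character
`exp(i Re(c̄ x))`, restricted to the torus, in the coordinate `β`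
(R1, Fubini on the rectangle, `∫₀^{2π} χ(ρ e^{iα}) dα = 2π J(|c| ρ)`). -/
def BetaFormC : Prop :=
  SphereCoordC →
    ∀ (c : ℂ) (χ : AddChar ℂ Circle) (f : GL (Fin 2) ℂ → ℂ),
      (∀ x : ℂ, ((χ x : Circle) : ℂ) = chiOf c x) → IsLocWhit χ f →
        IsBetaSol ‖c‖ (fun s => f (tE s))

/-- The radial integral equation, for `H(s) = e^{-s} f(t(eˢ))`. -/
def IsRadSol (k : ℝ) (H : ℝ → ℂ) : Prop :=
  Continuous H ∧ ∀ s d : ℝ, 0 < d →
    (∫ t in (-d)..d,
        besJ (k * Real.exp s * Real.sqrt (2 * Real.exp t * (Real.cosh d - Real.cosh t)))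
          * H (s + t))
      = ((2 * d : ℝ) : ℂ) * H s

/-- **R3.**  Substitution `D = e^{-t}` (`cos β = (cosh d - e^{-t}) / sinh d`,
`sin β dβ = e^{-t} dt / sinh d`, `sin² β sinh² d / D² = 2 eᵗ (cosh d - cosh t)`). -/
def SubstC : Prop :=
  ∀ (k : ℝ) (F : ℝ → ℂ), 0 ≤ k → IsBetaSol k F →
    IsRadSol k (fun s => ((Real.exp (-s) : ℝ) : ℂ) * F s)

/-- The generalised second derivative of `H` at `s` is `a`:
`(mean of H over [s - d, s + d]) - H(s) = (a / 6) d² + o(d²)` as `d → 0+`. -/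
def HasGenSecond (H : ℝ → ℂ) (s : ℝ) (a : ℂ) : Prop :=
  Filter.Tendsto
    (fun d : ℝ => (((2 * d : ℝ) : ℂ)⁻¹ * (∫ t in (-d)..d, H (s + t)) - H s) / ((d ^ 2 : ℝ) : ℂ))
    (nhdsWithin 0 (Set.Ioi 0)) (nhds (a / 6))

/-- **L4a.**  The radial integral equation gives the generalised second derivative
(`J(z) = 1 - z²/4 + O(z⁴)`, `∫_{-d}^{d} (cosh d - cosh t) dt = (2/3) d³ + O(d⁵)`, `H` continuous). -/
def GenLaplC : Prop :=
  ∀ (k : ℝ) (H : ℝ → ℂ), IsRadSol k H →
    ∀ s : ℝ, HasGenSecond H s (((k ^ 2 * Real.exp (2 * s) : ℝ) : ℂ) * H s)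

/-- **L4b** (Blaschke--Privalov in dimension one).  A continuous function with continuous
generalised second derivative `φ` is twice differentiable with `H'' = φ`.
(Subtract a `C²` function `P` with `P'' = φ`; a continuous real function whose generalised second
derivative vanishes identically is affine: `q ± ε s²` has no interior maximum against chords.) -/
def GenSecondC : Prop :=
  ∀ H φ : ℝ → ℂ, Continuous H → Continuous φ → (∀ s : ℝ, HasGenSecond H s (φ s)) →
    ∃ H' : ℝ → ℂ, (∀ s : ℝ, HasDerivAt H (H' s) s) ∧ ∀ s : ℝ, HasDerivAt H' (φ s) s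

/-- A real solution of `h'' = k² e^{2s} h` which tends to `0` at `+∞`. -/
def IsDecSol (k : ℝ) (h : ℝ → ℝ) : Prop :=
  (∃ h' : ℝ → ℝ, (∀ s : ℝ, HasDerivAt h (h' s) s) ∧
      ∀ s : ℝ, HasDerivAt h' (k ^ 2 * Real.exp (2 * s) * h s) s) ∧
    Filter.Tendsto h Filter.atTop (nhds 0)

/-- **L5.**  A decaying solution with a zero vanishes identically.
(At a zero `s₀` of `h ≠ 0`: `h'(s₀) ≠ 0` by uniqueness of the initial value problem; just after
`s₀`, `h h' > 0`; but `h > 0`, `h' > 0` at one point forces `h' ` increasing, `h ≥ h(s₁) > 0` for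
ever, since `(h')' = k² e^{2s} h ≥ 0` as long as `h ≥ 0`.) -/
def OdeUniqC : Prop :=
  ∀ (k : ℝ) (h : ℝ → ℝ), IsDecSol k h → (∃ s : ℝ, h s = 0) → ∀ s : ℝ, h s = 0

/-! ## 3. The adelic sub-leaves -/

section Adelic

variable (K : Type) [Field K] [NumberField K]

/-- **A1.**  `W(n(a) g) = ψ(a) W(g)`.
(`x ↦ Φ(n(x) g) conj ψ(x)` is `K`-periodic; `D + a` is a fundamental domain;
`IsAddFundamentalDomain.setIntegral_eq`.) -/
def WhEquivC : Prop :=
  letI : MeasurableSpace (Adl K) := borel (Adl K)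
  T1.LocCompC K →
  ∀ (ψ : AddChar (Adl K) Circle) (ν : Measure (Adl K)) (D : Set (Adl K)), IsWhitData ψ ν D →
    ∀ Φ : G K → ℂ, Continuous Φ → (∃ C : ℝ, ∀ g : G K, ‖Φ g‖ ≤ C) →
      (∀ (γ : GL (Fin 2) K) (g : G K), Φ (T1.ratG K γ * g) = Φ g) →
      ∀ (a : Adl K) (g : G K),
        wh ψ ν D Φ (T3.unip K a * g) = ((ψ a : Circle) : ℂ) * wh ψ ν D Φ g

/-- **A2.**  `W` is continuous and bounded (dominated convergence, `ν D < ∞`). -/
def WhContC : Prop :=
  letI : MeasurableSpace (Adl K) := borel (Adl K)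
  T1.LocCompC K →
  ∀ (ψ : AddChar (Adl K) Circle) (ν : Measure (Adl K)) (D : Set (Adl K)), IsWhitData ψ ν D →
    ∀ Φ : G K → ℂ, Continuous Φ → (∃ C : ℝ, ∀ g : G K, ‖Φ g‖ ≤ C) →
      Continuous (wh ψ ν D Φ) ∧ ∃ C : ℝ, ∀ g : G K, ‖wh ψ ν D Φ g‖ ≤ C

/-- **A3.**  The mean value property passes from `Φ` to `W` (Fubini on
`D × [0, 2π] × [0, π]`; the family `Y` is continuous by `locCont472` of helper472). -/
def WhMeanC : Prop :=
  letI : MeasurableSpace (Adl K) := borel (Adl K)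
  T1.LocCompC K →
  ∀ (ψ : AddChar (Adl K) Circle) (ν : Measure (Adl K)) (D : Set (Adl K)), IsWhitData ψ ν D →
    ∀ Φ : G K → ℂ, Continuous Φ → (∃ C : ℝ, ∀ g : G K, ‖Φ g‖ ≤ C) →
      ∀ w : InfinitePlace K, MeanValueComplex Φ w → MeanValueComplex (wh ψ ν D Φ) w

variable {K}

/-- The embedding of `GL₂(ℂ)` and of `ℂ` at the complex place `w`. -/
structure IsLocEmb (w : InfinitePlace K) (j : GL (Fin 2) ℂ →* G K) (ι : ℂ →+ Adl K) : Prop where
  cont : Continuous j
  contAdd : Continuous ι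
  loc : ∀ h : GL (Fin 2) ℂ, IsLocalAtInf w (j h)
  comp : ∀ h : GL (Fin 2) ℂ, infComp w (j h) = (h : Matrix (Fin 2) (Fin 2) ℂ)
  unip : ∀ x : ℂ, j (nC x) = T3.unip K (ι x)
  tor : ∀ y : (Adl K)ˣ, IsIdeleAtInf w y → ∀ yc : ℂˣ,
    (yc : ℂ) = InfinitePlace.Completion.extensionEmbedding w ((y : Adl K).1 w) →
      tor y = j (tC yc)
  comm : ∀ (h : GL (Fin 2) ℂ) (g : G K), TrivAtInf w g → j h * g = g * j h

variable (K)

/-- **A4.**  The local embedding exists at every complex place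
(`InfinitePlace.Completion.ringEquivComplexOfIsComplex`; elements with prescribed components:
`glMk793` of helper793; continuity: `locCont472` of helper472). -/
def LocEmbC : Prop :=
  ∀ w : InfinitePlace K, w.IsComplex →
    ∃ (j : GL (Fin 2) ℂ →* G K) (ι : ℂ →+ Adl K), IsLocEmb w j ι

end Adelic

end Fermat.Agent.LT.T2.H973

end

end
-- ===== PACK-END LT/T2/H973/ArchSpec.lean

-- ===== PACK-BEGIN LT/T3/H245/PureRegA.lean
section



/-!
# Row LT, tower T3, leaf T3.18a.3 `PureRegC` (helper245), part A: local facts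

OFF-MAIN.  Density of `𝓞 K` in `𝒪_v`, the closure `𝔫 𝒪_v` of an ideal (closed, open, an ideal of
`𝒪_v`, equal to `𝒪_v` when `v ∤ 𝔫`), clearing of denominators in `K_v`.
-/

set_option autoImplicit false

open IsDedekindDomain NumberField MeasureTheory
open Fermat.Agent.LT.H556.A0
open scoped RestrictedProduct

noncomputable section

namespace Fermat.Agent.LT.T3.H245

variable (K : Type) [Field K] [NumberField K]

/-- The map `𝓞 K → K_v`. -/
abbrev toCompl245 (v : HeightOneSpectrum (𝓞 K)) (x : 𝓞 K) : v.adicCompletion K :=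
  algebraMap K (v.adicCompletion K) (algebraMap (𝓞 K) K x)

theorem valued_algebraMap245 (v : HeightOneSpectrum (𝓞 K)) (y : K) :
    Valued.v (algebraMap K (v.adicCompletion K) y) = v.valuation K y :=
  HeightOneSpectrum.valuedAdicCompletion_eq_valuation' v y

theorem valued_toCompl245 (v : HeightOneSpectrum (𝓞 K)) (x : 𝓞 K) :
    Valued.v (toCompl245 K v x) = v.intValuation x := by
  rw [toCompl245, valued_algebraMap245, HeightOneSpectrum.valuation_of_algebraMap]

theorem toCompl245_mem_integers (v : HeightOneSpectrum (𝓞 K)) (x : 𝓞 K) :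
    toCompl245 K v x ∈ v.adicCompletionIntegers K := by
  rw [HeightOneSpectrum.mem_adicCompletionIntegers, valued_toCompl245]
  exact v.intValuation_le_one x

/-- `𝓞 K` is dense in `𝒪_v`. -/
theorem integers_subset_closure245 (v : HeightOneSpectrum (𝓞 K)) :
    (v.adicCompletionIntegers K : Set (v.adicCompletion K))
      ⊆ closure (Set.range (toCompl245 K v)) := by
  intro x hx
  rw [mem_closure_iff]
  intro U hU hxU
  have hO : IsOpen (v.adicCompletionIntegers K : Set (v.adicCompletion K)) :=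
    Valued.isOpen_valuationSubring _
  obtain ⟨k, hk⟩ := (HeightOneSpectrum.denseRange_algebraMap K v).exists_mem_open
    (hU.inter hO) ⟨x, hxU, hx⟩
  have hkU : algebraMap K (v.adicCompletion K) k ∈ U := hk.1
  have hk1 : v.valuation K k ≤ 1 := by
    rw [← valued_algebraMap245]
    exact (HeightOneSpectrum.mem_adicCompletionIntegers (𝓞 K) K v).1 hk.2
  obtain ⟨γ, hγ⟩ := (Valued.mem_nhds (R := v.adicCompletion K)).1 (hU.mem_nhds hkU)
  have hγ0 : MonoidWithZeroHom.ValueGroup₀.embedding γ.1 ≠ 0 := by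
    simp
  obtain ⟨a, ha⟩ := HeightOneSpectrum.exists_valuation_sub_lt_of_integer v hk1
    (Units.mk0 _ hγ0)
  refine ⟨toCompl245 K v a, hγ ?_, a, rfl⟩
  show (Valued.v : Valuation (v.adicCompletion K) _).restrict
    (toCompl245 K v a - algebraMap K (v.adicCompletion K) k) < γ.1
  rw [Valuation.restrict_lt_iff_lt_embedding]
  have e : toCompl245 K v a - algebraMap K (v.adicCompletion K) k
      = algebraMap K (v.adicCompletion K) (algebraMap (𝓞 K) K a - k) := by
    rw [map_sub]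
  rw [e, valued_algebraMap245]
  exact ha

variable {K}
variable (𝔫 : Ideal (𝓞 K)) (v : HeightOneSpectrum (𝓞 K))

theorem idealClosure_eq245 :
    idealClosure 𝔫 v = closure (toCompl245 K v '' (𝔫 : Set (𝓞 K))) := rfl

theorem isClosed_idealClosure245 : IsClosed (idealClosure 𝔫 v) := isClosed_closure

theorem idealClosure_subset245 :
    idealClosure 𝔫 v ⊆ (v.adicCompletionIntegers K : Set (v.adicCompletion K)) := by
  refine closure_minimal ?_ (Valued.isClosed_valuationSubring _)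
  rintro _ ⟨x, -, rfl⟩
  exact toCompl245_mem_integers K v x

theorem toCompl245_mem_idealClosure {a : 𝓞 K} (ha : a ∈ 𝔫) :
    toCompl245 K v a ∈ idealClosure 𝔫 v :=
  subset_closure ⟨a, ha, rfl⟩

theorem zero_mem_idealClosure245 : (0 : v.adicCompletion K) ∈ idealClosure 𝔫 v := by
  have := toCompl245_mem_idealClosure 𝔫 v (zero_mem 𝔫)
  simpa [toCompl245] using this

theorem add_mem_idealClosure245 {x y : v.adicCompletion K} (hx : x ∈ idealClosure 𝔫 v)
    (hy : y ∈ idealClosure 𝔫 v) : x + y ∈ idealClosure 𝔫 v := by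
  refine map_mem_closure₂ continuous_add hx hy ?_
  rintro _ ⟨a, ha, rfl⟩ _ ⟨b, hb, rfl⟩
  exact ⟨a + b, 𝔫.add_mem ha hb, by simp⟩

theorem neg_mem_idealClosure245 {x : v.adicCompletion K} (hx : x ∈ idealClosure 𝔫 v) :
    -x ∈ idealClosure 𝔫 v := by
  refine map_mem_closure continuous_neg hx ?_
  rintro _ ⟨a, ha, rfl⟩
  exact ⟨-a, 𝔫.neg_mem ha, by simp⟩

theorem mul_mem_idealClosure245 {x y : v.adicCompletion K}
    (hx : x ∈ v.adicCompletionIntegers K) (hy : y ∈ idealClosure 𝔫 v) :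
    x * y ∈ idealClosure 𝔫 v := by
  refine map_mem_closure₂ continuous_mul (integers_subset_closure245 K v hx) hy ?_
  rintro _ ⟨a, rfl⟩ _ ⟨b, hb, rfl⟩
  exact ⟨a * b, 𝔫.mul_mem_left a hb, by simp [toCompl245]⟩

theorem mul_mem_idealClosure245' {x y : v.adicCompletion K}
    (hx : x ∈ idealClosure 𝔫 v) (hy : y ∈ idealClosure 𝔫 v) :
    x * y ∈ idealClosure 𝔫 v :=
  mul_mem_idealClosure245 𝔫 v (idealClosure_subset245 𝔫 v hx) hy

/-- The closure of `𝔫` as an additive subgroup of `K_v`. -/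
def idealClosureAdd245 : AddSubgroup (v.adicCompletion K) where
  carrier := idealClosure 𝔫 v
  add_mem' := add_mem_idealClosure245 𝔫 v
  zero_mem' := zero_mem_idealClosure245 𝔫 v
  neg_mem' := neg_mem_idealClosure245 𝔫 v

theorem toCompl245_ne_zero {a : 𝓞 K} (ha : a ≠ 0) : toCompl245 K v a ≠ 0 := by
  intro h
  apply ha
  have h1 : algebraMap (𝓞 K) K a = 0 :=
    (map_eq_zero_iff _ (algebraMap K (v.adicCompletion K)).injective).1 h
  exact (map_eq_zero_iff _ (IsFractionRing.injective (𝓞 K) K)).1 h1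

/-- `𝔫 𝒪_v` is open when `𝔫 ≠ 0`. -/
theorem isOpen_idealClosure245 (h𝔫 : 𝔫 ≠ ⊥) : IsOpen (idealClosure 𝔫 v) := by
  obtain ⟨a, ha, ha0⟩ := Submodule.exists_mem_ne_zero_of_ne_bot h𝔫
  have h0 := toCompl245_ne_zero v ha0
  have hopen : IsOpen ((fun x => toCompl245 K v a * x) ''
      (v.adicCompletionIntegers K : Set (v.adicCompletion K))) :=
    (Homeomorph.mulLeft₀ _ h0).isOpenMap _ (Valued.isOpen_valuationSubring _)
  have hsub : ((fun x => toCompl245 K v a * x) ''
      (v.adicCompletionIntegers K : Set (v.adicCompletion K))) ⊆ idealClosure 𝔫 v := by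
    rintro _ ⟨x, hx, rfl⟩
    show toCompl245 K v a * x ∈ idealClosure 𝔫 v
    rw [mul_comm]
    exact mul_mem_idealClosure245 𝔫 v hx (toCompl245_mem_idealClosure 𝔫 v ha)
  have hmem : idealClosure 𝔫 v ∈ nhds (0 : v.adicCompletion K) :=
    Filter.mem_of_superset (hopen.mem_nhds ⟨0, zero_mem _, by simp⟩) hsub
  exact AddSubgroup.isOpen_of_mem_nhds (idealClosureAdd245 𝔫 v) hmem

/-- `𝔫 𝒪_v = 𝒪_v` when `v ∤ 𝔫`. -/
theorem idealClosure_eq_integers245 (hv : ¬ v.asIdeal ∣ 𝔫) :
    idealClosure 𝔫 v = (v.adicCompletionIntegers K : Set (v.adicCompletion K)) := by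
  refine Set.Subset.antisymm (idealClosure_subset245 𝔫 v) ?_
  have hle : ¬ 𝔫 ≤ v.asIdeal := fun h => hv (Ideal.dvd_iff_le.2 h)
  obtain ⟨a, ha, hav⟩ := Set.not_subset.1 hle
  have h1 : Valued.v (toCompl245 K v a) = 1 := by
    rw [valued_toCompl245]
    exact HeightOneSpectrum.intValuation_eq_one_iff.2 hav
  have h0 : toCompl245 K v a ≠ 0 := by
    intro h
    rw [h, map_zero] at h1
    exact zero_ne_one h1
  intro x hx
  have hx' : (toCompl245 K v a)⁻¹ * x ∈ v.adicCompletionIntegers K := by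
    have hx1 : Valued.v x ≤ 1 := (HeightOneSpectrum.mem_adicCompletionIntegers (𝓞 K) K v).1 hx
    rw [HeightOneSpectrum.mem_adicCompletionIntegers, map_mul, map_inv₀, h1, inv_one, one_mul]
    exact hx1
  have := mul_mem_idealClosure245 𝔫 v hx' (toCompl245_mem_idealClosure 𝔫 v ha)
  rwa [mul_comm, ← mul_assoc, mul_inv_cancel₀ h0, one_mul] at this


/-! ## Clearing denominators -/

theorem toCompl245_mul (a b : 𝓞 K) :
    toCompl245 K v (a * b) = toCompl245 K v a * toCompl245 K v b := by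
  simp [toCompl245]

/-- Every element of `K_v` has a nonzero global denominator. -/
theorem exists_denom245 (y : v.adicCompletion K) :
    ∃ a : 𝓞 K, a ≠ 0 ∧ toCompl245 K v a * y ∈ v.adicCompletionIntegers K := by
  have hO : IsOpen (v.adicCompletionIntegers K : Set (v.adicCompletion K)) :=
    Valued.isOpen_valuationSubring _
  have hopen : IsOpen {z : v.adicCompletion K | y - z ∈ v.adicCompletionIntegers K} :=
    hO.preimage (continuous_const.sub continuous_id)
  obtain ⟨k, hk⟩ := (HeightOneSpectrum.denseRange_algebraMap K v).exists_mem_open hopen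
    ⟨y, by simp [zero_mem]⟩
  replace hk : y - algebraMap K (v.adicCompletion K) k ∈ v.adicCompletionIntegers K := hk
  obtain ⟨n, d, hd, hnd⟩ := IsFractionRing.div_surjective (A := 𝓞 K) k
  have hd0 : d ≠ 0 := nonZeroDivisors.ne_zero hd
  have hdK : algebraMap (𝓞 K) K d ≠ 0 := by
    intro h
    exact hd0 ((map_eq_zero_iff _ (IsFractionRing.injective (𝓞 K) K)).1 h)
  refine ⟨d, hd0, ?_⟩
  have e : toCompl245 K v d * y
      = toCompl245 K v d * (y - algebraMap K (v.adicCompletion K) k) + toCompl245 K v n := by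
    have : toCompl245 K v d * algebraMap K (v.adicCompletion K) k = toCompl245 K v n := by
      rw [toCompl245, ← map_mul, ← hnd, mul_div_cancel₀ _ hdK]
    rw [mul_sub, this]
    ring
  rw [e]
  exact add_mem (mul_mem (toCompl245_mem_integers K v d) hk) (toCompl245_mem_integers K v n)

open Classical in
/-- A finite subset of `K_v` has a common nonzero global denominator. -/
theorem exists_common_denom245 (Y : Finset (v.adicCompletion K)) :
    ∃ a : 𝓞 K, a ≠ 0 ∧ ∀ y ∈ Y, toCompl245 K v a * y ∈ v.adicCompletionIntegers K := by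
  induction Y using Finset.induction_on with
  | empty => exact ⟨1, one_ne_zero, by simp⟩
  | insert y Y _ ih =>
    obtain ⟨a, ha0, ha⟩ := ih
    obtain ⟨b, hb0, hb⟩ := exists_denom245 v y
    refine ⟨a * b, mul_ne_zero ha0 hb0, ?_⟩
    intro z hz
    rw [toCompl245_mul]
    rcases Finset.mem_insert.1 hz with rfl | hz
    · rw [mul_assoc]
      exact mul_mem (toCompl245_mem_integers K v a) hb
    · rw [mul_comm (toCompl245 K v a), mul_assoc]
      exact mul_mem (toCompl245_mem_integers K v b) (ha z hz)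

end Fermat.Agent.LT.T3.H245

end
end
-- ===== PACK-END LT/T3/H245/PureRegA.lean

-- ===== PACK-BEGIN LT/T6/H305/Hnf.lean
section


/-!
# Row LT, tower T6, leaf T6.10 `SatakeEigenC` (helper305) -- part 4: Hermite normal form

OFF-MAIN.  Every integral `g ∈ GL₂(k)` is `um i j r · κ⁻¹` with `κ ∈ GL₂(𝒪)`, `r ∈ R i`
(existence), and the `um i j r` with `i + j` fixed are pairwise inequivalent modulo `GL₂(𝒪)`.
-/

set_option autoImplicit false
set_option linter.unusedSectionVars false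
set_option linter.unusedSimpArgs false
set_option linter.unnecessarySeqFocus false

open scoped Matrix
open scoped Classical

noncomputable section

namespace Fermat.Agent.LT.T6.H305

open Fermat.Agent.LT.T6

variable {k : Type} [Field k] [Valued k Γ₀]

theorem exists_nat_val {x : k} (hx : x ≠ 0) (hi : Valued.v x ≤ 1) :
    ∃ n : ℕ, Valued.v x = WithZero.exp (-(n : ℤ)) := by
  have h0 : Valued.v x ≠ 0 := by simpa using hx
  have h1 : (1 : Γ₀) = WithZero.exp (0 : ℤ) := rfl
  have hlog : WithZero.log (Valued.v x) ≤ 0 := by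
    rw [WithZero.log_le_iff_le_exp h0, ← h1]; exact hi
  refine ⟨(-WithZero.log (Valued.v x)).toNat, ?_⟩
  rw [Int.toNat_of_nonneg (by omega), neg_neg, WithZero.exp_log h0]

theorem exists_lower_zero (g : GL (Fin 2) k) :
    ∃ κ : GL (Fin 2) k, InK κ ∧
      ((g * κ : GL (Fin 2) k) : Matrix (Fin 2) (Fin 2) k) 1 0 = 0 := by
  have hcd : (g : Matrix (Fin 2) (Fin 2) k) 1 0 ≠ 0 ∨ (g : Matrix (Fin 2) (Fin 2) k) 1 1 ≠ 0 := by
    by_contra h
    rw [not_or, not_not, not_not] at h
    apply det_ne_zero g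
    rw [Matrix.det_fin_two]
    simp [h.1, h.2]
  by_cases h : Valued.v ((g : Matrix (Fin 2) (Fin 2) k) 1 0)
      ≤ Valued.v ((g : Matrix (Fin 2) (Fin 2) k) 1 1)
  · have hd0 : (g : Matrix (Fin 2) (Fin 2) k) 1 1 ≠ 0 := by
      rcases hcd with h' | h'
      · intro hd0
        rw [hd0, map_zero] at h
        exact h' (by simpa using h)
      · exact h'
    have hv0 : (0 : Γ₀) < Valued.v ((g : Matrix (Fin 2) (Fin 2) k) 1 1) := by
      rw [zero_lt_iff]; simpa using hd0
    refine ⟨mk2 1 0 (-(g : Matrix (Fin 2) (Fin 2) k) 1 0 / (g : Matrix (Fin 2) (Fin 2) k) 1 1) 1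
      (by simp), ?_, ?_⟩
    · rw [inK_iff]
      refine ⟨fun i j => ?_, ?_⟩
      · fin_cases i <;> fin_cases j
        · show Valued.v (1 : k) ≤ 1
          simp
        · show Valued.v (0 : k) ≤ 1
          simp
        · show Valued.v (-(g : Matrix (Fin 2) (Fin 2) k) 1 0
            / (g : Matrix (Fin 2) (Fin 2) k) 1 1) ≤ 1
          rw [map_div₀, Valuation.map_neg]
          exact (div_le_one₀ hv0).2 h
        · show Valued.v (1 : k) ≤ 1
          simp
      · simp [Matrix.det_fin_two_of]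
    · rw [Units.val_mul, mk2_val, Matrix.mul_apply, Fin.sum_univ_two]
      simp only [Matrix.of_apply, Matrix.cons_val', Matrix.cons_val_zero, Matrix.cons_val_one,
        Matrix.cons_val_fin_one]
      field_simp
      ring
  · rw [not_le] at h
    have hc0 : (g : Matrix (Fin 2) (Fin 2) k) 1 0 ≠ 0 := by
      intro h0
      rw [h0, map_zero] at h
      exact not_lt_zero h
    have hv0 : (0 : Γ₀) < Valued.v ((g : Matrix (Fin 2) (Fin 2) k) 1 0) := by
      rw [zero_lt_iff]; simpa using hc0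
    refine ⟨mk2 (-(g : Matrix (Fin 2) (Fin 2) k) 1 1 / (g : Matrix (Fin 2) (Fin 2) k) 1 0) 1 1 0
      (by simp), ?_, ?_⟩
    · rw [inK_iff]
      refine ⟨fun i j => ?_, ?_⟩
      · fin_cases i <;> fin_cases j
        · show Valued.v (-(g : Matrix (Fin 2) (Fin 2) k) 1 1
            / (g : Matrix (Fin 2) (Fin 2) k) 1 0) ≤ 1
          rw [map_div₀, Valuation.map_neg]
          exact (div_le_one₀ hv0).2 h.le
        · show Valued.v (1 : k) ≤ 1
          simp
        · show Valued.v (1 : k) ≤ 1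
          simp
        · show Valued.v (0 : k) ≤ 1
          simp
      · simp [Matrix.det_fin_two_of]
    · rw [Units.val_mul, mk2_val, Matrix.mul_apply, Fin.sum_univ_two]
      simp only [Matrix.of_apply, Matrix.cons_val', Matrix.cons_val_zero, Matrix.cons_val_one,
        Matrix.cons_val_fin_one]
      field_simp
      ring

namespace ResData

variable (D : ResData k)

/-- Hermite normal form of an upper triangular integral matrix. -/
theorem hnf_upper (g : GL (Fin 2) k)
    (hint : ∀ i j, Valued.v ((g : Matrix (Fin 2) (Fin 2) k) i j) ≤ 1)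
    (h10 : (g : Matrix (Fin 2) (Fin 2) k) 1 0 = 0) :
    ∃ (i j : ℕ) (r : k), r ∈ D.R i ∧ ∃ κ : GL (Fin 2) k, InK κ ∧ g * κ = D.um i j r := by
  have hdet := det_ne_zero g
  rw [Matrix.det_fin_two, h10, mul_zero, sub_zero] at hdet
  have ha0 : (g : Matrix (Fin 2) (Fin 2) k) 0 0 ≠ 0 := left_ne_zero_of_mul hdet
  have hd0 : (g : Matrix (Fin 2) (Fin 2) k) 1 1 ≠ 0 := right_ne_zero_of_mul hdet
  obtain ⟨i, hi⟩ := exists_nat_val ha0 (hint 0 0)
  obtain ⟨j, hj⟩ := exists_nat_val hd0 (hint 1 1)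
  have hπi : D.ϖ ^ i ≠ 0 := pow_ne_zero _ D.ϖ_ne_zero
  have hπj : D.ϖ ^ j ≠ 0 := pow_ne_zero _ D.ϖ_ne_zero
  have hx : Valued.v (D.ϖ ^ i / (g : Matrix (Fin 2) (Fin 2) k) 0 0) = 1 := by
    rw [map_div₀, D.val_pow, hi]
    exact div_self WithZero.exp_ne_zero
  have hw : Valued.v (D.ϖ ^ j / (g : Matrix (Fin 2) (Fin 2) k) 1 1) = 1 := by
    rw [map_div₀, D.val_pow, hj]
    exact div_self WithZero.exp_ne_zero
  have hbw : Valued.v ((g : Matrix (Fin 2) (Fin 2) k) 0 1
      * (D.ϖ ^ j / (g : Matrix (Fin 2) (Fin 2) k) 1 1)) ≤ 1 := by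
    rw [map_mul, hw, mul_one]
    exact hint 0 1
  obtain ⟨r, hr, hrv⟩ := D.R_cov i _ hbw
  have hy : Valued.v ((r - (g : Matrix (Fin 2) (Fin 2) k) 0 1
      * (D.ϖ ^ j / (g : Matrix (Fin 2) (Fin 2) k) 1 1)) / (g : Matrix (Fin 2) (Fin 2) k) 0 0)
      ≤ 1 := by
    rw [map_div₀, hi, Valuation.map_sub_swap]
    exact (div_le_one₀ (zero_lt_iff.2 WithZero.exp_ne_zero)).2 hrv
  have hxw : D.ϖ ^ i / (g : Matrix (Fin 2) (Fin 2) k) 0 0
      * (D.ϖ ^ j / (g : Matrix (Fin 2) (Fin 2) k) 1 1)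
      - (r - (g : Matrix (Fin 2) (Fin 2) k) 0 1
      * (D.ϖ ^ j / (g : Matrix (Fin 2) (Fin 2) k) 1 1)) / (g : Matrix (Fin 2) (Fin 2) k) 0 0 * 0
      ≠ 0 := by
    rw [mul_zero, sub_zero]
    exact mul_ne_zero (div_ne_zero hπi ha0) (div_ne_zero hπj hd0)
  refine ⟨i, j, r, hr, mk2 _ _ 0 _ hxw, ?_, ?_⟩
  · rw [inK_iff]
    refine ⟨fun a b => ?_, ?_⟩
    · fin_cases a <;> fin_cases b
      · exact hx.le
      · exact hy
      · show Valued.v (0 : k) ≤ 1
        simp
      · exact hw.le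
    · rw [mk2_val, Matrix.det_fin_two_of, mul_zero, sub_zero, map_mul, hx, hw, mul_one]
  · apply Units.ext
    rw [Units.val_mul, mk2_val, um_val]
    ext a b
    fin_cases a <;> fin_cases b
    all_goals
      simp only [Matrix.mul_apply, Fin.sum_univ_two, Matrix.of_apply, Matrix.cons_val',
        Matrix.cons_val_zero, Matrix.cons_val_one, Matrix.cons_val_fin_one, Fin.zero_eta,
        Fin.mk_one, h10, mul_zero, add_zero, zero_mul, zero_add]
      try field_simp
      try ring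

/-- Hermite normal form of an integral matrix. -/
theorem hnf (g : GL (Fin 2) k)
    (hint : ∀ i j, Valued.v ((g : Matrix (Fin 2) (Fin 2) k) i j) ≤ 1) :
    ∃ (i j : ℕ) (r : k), r ∈ D.R i ∧ ∃ κ : GL (Fin 2) k, InK κ ∧ g * κ = D.um i j r := by
  obtain ⟨κ₁, hκ₁, h10⟩ := exists_lower_zero g
  have hint' : ∀ i j, Valued.v (((g * κ₁ : GL (Fin 2) k) : Matrix (Fin 2) (Fin 2) k) i j) ≤ 1 := by
    intro i j
    rw [Units.val_mul]
    exact val_mul_apply_le hint hκ₁.1 i j
  obtain ⟨i, j, r, hr, κ₂, hκ₂, h⟩ := D.hnf_upper (g * κ₁) hint' h10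
  exact ⟨i, j, r, hr, κ₁ * κ₂, inK_mul hκ₁ hκ₂, by rw [← mul_assoc, h]⟩

/-- Every `g` of Cartan type `(n, 0)` is equivalent to a primitive `um i j r`, `i + j = n`. -/
theorem cover (g : GL (Fin 2) k) (n : ℕ) (hg : cartan g = ((n : ℤ), 0)) :
    ∃ (i j : ℕ) (r : k), i + j = n ∧ r ∈ D.R i ∧ Prim i j r ∧ InK ((D.um i j r)⁻¹ * g) := by
  obtain ⟨hmax, hdet⟩ := (cartan_eq_nat_iff g n).1 hg
  have hint : ∀ i j, Valued.v ((g : Matrix (Fin 2) (Fin 2) k) i j) ≤ 1 :=
    (entryMax_le_iff g 1).1 hmax.le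
  obtain ⟨i, j, r, hr, κ, hκ, h⟩ := D.hnf g hint
  have h1 : i + j = n := by
    have := D.val_det_um i j r
    rw [← h, val_det_mul g κ hκ, hdet, WithZero.exp_inj] at this
    omega
  have h2 : Prim i j r := by
    rw [← D.entryMax_um_eq_one_iff i j r (D.R_int i r hr), ← h, entryMax_mul g κ hκ, hmax]
  refine ⟨i, j, r, h1, hr, h2, ?_⟩
  have : (D.um i j r)⁻¹ * g = κ⁻¹ := by
    rw [← h]
    group
  rw [this]
  exact inK_inv hκ

/-- The `um i j r` with `i + j` fixed, `r ∈ R i`, are pairwise inequivalent. -/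
theorem um_inj {i j i' j' : ℕ} {r r' : k} (hsum : i + j = i' + j') (hr : r ∈ D.R i)
    (hr' : r' ∈ D.R i') (h : InK ((D.um i j r)⁻¹ * D.um i' j' r')) :
    i = i' ∧ j = j' ∧ r = r' := by
  obtain ⟨κ, hκ⟩ : ∃ κ, κ = (D.um i j r)⁻¹ * D.um i' j' r' := ⟨_, rfl⟩
  rw [← hκ] at h
  have e : D.um i j r * κ = D.um i' j' r' := by
    rw [hκ]
    group
  have e' := congrArg (fun u : GL (Fin 2) k => (u : Matrix (Fin 2) (Fin 2) k)) e
  simp only [Units.val_mul, um_val] at e'
  have e00 := congrFun (congrFun e' 0) 0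
  have e01 := congrFun (congrFun e' 0) 1
  have e10 := congrFun (congrFun e' 1) 0
  have e11 := congrFun (congrFun e' 1) 1
  simp only [Matrix.mul_apply, Fin.sum_univ_two, Matrix.of_apply, Matrix.cons_val',
    Matrix.cons_val_zero, Matrix.cons_val_one, Matrix.cons_val_fin_one, zero_mul, zero_add]
    at e00 e01 e10 e11
  have hπj : D.ϖ ^ j ≠ 0 := pow_ne_zero _ D.ϖ_ne_zero
  have hπi : D.ϖ ^ i ≠ 0 := pow_ne_zero _ D.ϖ_ne_zero
  have k10 : (κ : Matrix (Fin 2) (Fin 2) k) 1 0 = 0 := by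
    rcases mul_eq_zero.1 e10 with h' | h'
    · exact absurd h' hπj
    · exact h'
  rw [k10, mul_zero, add_zero] at e00
  have hj : j ≤ j' := by
    have := congrArg Valued.v e11
    rw [map_mul, D.val_pow, D.val_pow] at this
    have h2 : (WithZero.exp (-(j' : ℤ)) : Γ₀) ≤ WithZero.exp (-(j : ℤ)) := by
      rw [← this]
      calc WithZero.exp (-(j : ℤ)) * Valued.v ((κ : Matrix (Fin 2) (Fin 2) k) 1 1)
          ≤ WithZero.exp (-(j : ℤ)) * 1 := mul_le_mul_right (h.1 1 1) _
        _ = _ := mul_one _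
    rw [WithZero.exp_le_exp] at h2
    omega
  have hi : i ≤ i' := by
    have := congrArg Valued.v e00
    rw [map_mul, D.val_pow, D.val_pow] at this
    have h2 : (WithZero.exp (-(i' : ℤ)) : Γ₀) ≤ WithZero.exp (-(i : ℤ)) := by
      rw [← this]
      calc WithZero.exp (-(i : ℤ)) * Valued.v ((κ : Matrix (Fin 2) (Fin 2) k) 0 0)
          ≤ WithZero.exp (-(i : ℤ)) * 1 := mul_le_mul_right (h.1 0 0) _
        _ = _ := mul_one _
    rw [WithZero.exp_le_exp] at h2
    omega
  have hii : i = i' := by omega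
  have hjj : j = j' := by omega
  subst hii
  subst hjj
  refine ⟨rfl, rfl, ?_⟩
  have k11 : (κ : Matrix (Fin 2) (Fin 2) k) 1 1 = 1 := by
    have : D.ϖ ^ j * (κ : Matrix (Fin 2) (Fin 2) k) 1 1 = D.ϖ ^ j * 1 := by rw [e11, mul_one]
    exact mul_left_cancel₀ hπj this
  rw [k11, mul_one] at e01
  symm
  apply D.R_sep i r' r hr' hr
  have : r' - r = D.ϖ ^ i * (κ : Matrix (Fin 2) (Fin 2) k) 0 1 := by rw [← e01]; ring
  rw [this, map_mul, D.val_pow]
  calc WithZero.exp (-(i : ℤ)) * Valued.v ((κ : Matrix (Fin 2) (Fin 2) k) 0 1)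
      ≤ WithZero.exp (-(i : ℤ)) * 1 := mul_le_mul_right (h.1 0 1) _
    _ = _ := mul_one _

end ResData

end Fermat.Agent.LT.T6.H305

end

end
-- ===== PACK-END LT/T6/H305/Hnf.lean

-- ===== PACK-BEGIN LT/T3/H922/LocalU.lean
section



/-!
# Row LT, tower T3, leaf T3.18a.4.3 (helper922): abstract local algebra of the level group

OFF-MAIN.  `R` a commutative ring, `O` a subring, `I` an ideal of `O` (as a subset of `R`).

* `InU922 I g` : `g - 1` and `g⁻¹ - 1` have entries in `I` (`g ∈ GL₂(R)`);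
* `InGLO922 O g` : `g` and `g⁻¹` have entries in `O`;
* `InU922` is closed under products and inverses and stable under conjugation by `GL₂(O)`
  (`inU_mul922`, `inU_inv922`, `inU_conj922`);
* `upperGL_mul922` : product of two upper triangular matrices;
* `inU_upper_iff922` : `[[a, y], [0, 1]] ∈ U(I) ↔ y ∈ I` when `a ≡ 1`, `a⁻¹ ≡ 1` modulo `I`;
* `inU_coset922` : THE LOCAL STATEMENT of the leaf.
-/

set_option autoImplicit false
set_option linter.style.haveILetI false

open scoped MatrixGroups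

namespace Fermat.Agent.LT.T3.H922

open Fermat.Agent.LT.T3.AS

variable {R : Type*} [CommRing R]

/-- `I` is an ideal of the subring `O` of `R`. -/
structure IsIdl922 (O : Subring R) (I : Set R) : Prop where
  zero : (0 : R) ∈ I
  add : ∀ {a b : R}, a ∈ I → b ∈ I → a + b ∈ I
  smul : ∀ {a b : R}, a ∈ O → b ∈ I → a * b ∈ I
  sub : ∀ {a : R}, a ∈ I → a ∈ O

theorem IsIdl922.neg {O : Subring R} {I : Set R} (h : IsIdl922 O I) {a : R} (ha : a ∈ I) :
    -a ∈ I := by
  have h1 := h.smul (O.neg_mem O.one_mem) ha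
  simpa using h1

theorem IsIdl922.sub_mem {O : Subring R} {I : Set R} (h : IsIdl922 O I) {a b : R} (ha : a ∈ I)
    (hb : b ∈ I) : a - b ∈ I := by
  rw [sub_eq_add_neg]
  exact h.add ha (h.neg hb)

theorem IsIdl922.smul' {O : Subring R} {I : Set R} (h : IsIdl922 O I) {a b : R} (ha : a ∈ I)
    (hb : b ∈ O) : a * b ∈ I := by
  rw [mul_comm]
  exact h.smul hb ha

/-- All entries of the matrix lie in the set. -/
def EntIn922 (S : Set R) (M : Matrix (Fin 2) (Fin 2) R) : Prop := ∀ i j : Fin 2, M i j ∈ S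

theorem entIn_one922 (O : Subring R) : EntIn922 (O : Set R) (1 : Matrix (Fin 2) (Fin 2) R) := by
  intro i j
  by_cases h : i = j
  · subst h
    rw [Matrix.one_apply_eq]
    exact O.one_mem
  · rw [Matrix.one_apply_ne h]
    exact O.zero_mem

theorem entIn_mul_O922 (O : Subring R) {A B : Matrix (Fin 2) (Fin 2) R}
    (hA : EntIn922 (O : Set R) A) (hB : EntIn922 (O : Set R) B) :
    EntIn922 (O : Set R) (A * B) := by
  intro i j
  rw [Matrix.mul_apply, Fin.sum_univ_two]
  exact O.add_mem (O.mul_mem (hA i 0) (hB 0 j)) (O.mul_mem (hA i 1) (hB 1 j))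

theorem entIn_mul_left922 {O : Subring R} {I : Set R} (h : IsIdl922 O I)
    {A B : Matrix (Fin 2) (Fin 2) R} (hA : EntIn922 (O : Set R) A) (hB : EntIn922 I B) :
    EntIn922 I (A * B) := by
  intro i j
  rw [Matrix.mul_apply, Fin.sum_univ_two]
  exact h.add (h.smul (hA i 0) (hB 0 j)) (h.smul (hA i 1) (hB 1 j))

theorem entIn_mul_right922 {O : Subring R} {I : Set R} (h : IsIdl922 O I)
    {A B : Matrix (Fin 2) (Fin 2) R} (hA : EntIn922 I A) (hB : EntIn922 (O : Set R) B) :
    EntIn922 I (A * B) := by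
  intro i j
  rw [Matrix.mul_apply, Fin.sum_univ_two]
  exact h.add (h.smul' (hA i 0) (hB 0 j)) (h.smul' (hA i 1) (hB 1 j))

theorem entIn_add922 {O : Subring R} {I : Set R} (h : IsIdl922 O I)
    {A B : Matrix (Fin 2) (Fin 2) R} (hA : EntIn922 I A) (hB : EntIn922 I B) :
    EntIn922 I (A + B) := fun i j => h.add (hA i j) (hB i j)

theorem entIn_O_of_sub_one922 {O : Subring R} {I : Set R} (h : IsIdl922 O I)
    {A : Matrix (Fin 2) (Fin 2) R} (hA : EntIn922 I (A - 1)) : EntIn922 (O : Set R) A := by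
  intro i j
  have h1 : A i j = (A - 1) i j + (1 : Matrix (Fin 2) (Fin 2) R) i j := by
    rw [Matrix.sub_apply]
    ring
  rw [h1]
  exact O.add_mem (h.sub (hA i j)) (entIn_one922 O i j)

/-- `g ∈ U(I)`. -/
def InU922 (I : Set R) (g : GL (Fin 2) R) : Prop :=
  EntIn922 I ((g : Matrix (Fin 2) (Fin 2) R) - 1) ∧
    EntIn922 I (((g⁻¹ : GL (Fin 2) R) : Matrix (Fin 2) (Fin 2) R) - 1)

/-- `g ∈ GL₂(O)`. -/
def InGLO922 (O : Subring R) (g : GL (Fin 2) R) : Prop :=
  EntIn922 (O : Set R) (g : Matrix (Fin 2) (Fin 2) R) ∧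
    EntIn922 (O : Set R) ((g⁻¹ : GL (Fin 2) R) : Matrix (Fin 2) (Fin 2) R)

theorem InGLO922.inv {O : Subring R} {g : GL (Fin 2) R} (h : InGLO922 O g) : InGLO922 O g⁻¹ :=
  ⟨h.2, by rw [inv_inv]; exact h.1⟩

theorem InGLO922.mul {O : Subring R} {g g' : GL (Fin 2) R} (h : InGLO922 O g)
    (h' : InGLO922 O g') : InGLO922 O (g * g') := by
  refine ⟨?_, ?_⟩
  · rw [Units.val_mul]
    exact entIn_mul_O922 O h.1 h'.1
  · rw [mul_inv_rev, Units.val_mul]
    exact entIn_mul_O922 O h'.2 h.2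

theorem InU922.inGLO {O : Subring R} {I : Set R} (hI : IsIdl922 O I) {g : GL (Fin 2) R}
    (h : InU922 I g) : InGLO922 O g :=
  ⟨entIn_O_of_sub_one922 hI h.1, entIn_O_of_sub_one922 hI h.2⟩

theorem InU922.inv {I : Set R} {g : GL (Fin 2) R} (h : InU922 I g) : InU922 I g⁻¹ :=
  ⟨h.2, by rw [inv_inv]; exact h.1⟩

theorem mul_sub_one922 (A B : Matrix (Fin 2) (Fin 2) R) :
    A * B - 1 = (A - 1) * B + (B - 1) := by
  rw [sub_mul, one_mul]
  abel

theorem InU922.mul {O : Subring R} {I : Set R} (hI : IsIdl922 O I) {g g' : GL (Fin 2) R}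
    (h : InU922 I g) (h' : InU922 I g') : InU922 I (g * g') := by
  refine ⟨?_, ?_⟩
  · rw [Units.val_mul, mul_sub_one922]
    exact entIn_add922 hI (entIn_mul_right922 hI h.1 (entIn_O_of_sub_one922 hI h'.1)) h'.1
  · rw [mul_inv_rev, Units.val_mul, mul_sub_one922]
    exact entIn_add922 hI (entIn_mul_right922 hI h'.2 (entIn_O_of_sub_one922 hI h.2)) h.2

theorem conj_sub_one922 (k u : GL (Fin 2) R) :
    ((k * u * k⁻¹ : GL (Fin 2) R) : Matrix (Fin 2) (Fin 2) R) - 1
      = (k : Matrix (Fin 2) (Fin 2) R) * ((u : Matrix (Fin 2) (Fin 2) R) - 1)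
          * ((k⁻¹ : GL (Fin 2) R) : Matrix (Fin 2) (Fin 2) R) := by
  have h1 : (k : Matrix (Fin 2) (Fin 2) R) * ((k⁻¹ : GL (Fin 2) R) : Matrix (Fin 2) (Fin 2) R)
      = 1 := by
    rw [← Units.val_mul, mul_inv_cancel, Units.val_one]
  rw [Units.val_mul, Units.val_mul, mul_sub, sub_mul, mul_one, h1]

/-- `U(I)` is stable under conjugation by `GL₂(O)`. -/
theorem InU922.conj {O : Subring R} {I : Set R} (hI : IsIdl922 O I) {k u : GL (Fin 2) R}
    (hk : InGLO922 O k) (hu : InU922 I u) : InU922 I (k * u * k⁻¹) := by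
  refine ⟨?_, ?_⟩
  · rw [conj_sub_one922]
    exact entIn_mul_right922 hI (entIn_mul_left922 hI hk.1 hu.1) hk.2
  · have h1 : (k * u * k⁻¹)⁻¹ = k * u⁻¹ * k⁻¹ := by group
    rw [h1, conj_sub_one922]
    exact entIn_mul_right922 hI (entIn_mul_left922 hI hk.1 hu.2) hk.2

theorem inU_conj_iff922 {O : Subring R} {I : Set R} (hI : IsIdl922 O I) {k u : GL (Fin 2) R}
    (hk : InGLO922 O k) : InU922 I (k⁻¹ * u * k) ↔ InU922 I u := by
  constructor
  · intro h
    have h1 := InU922.conj hI hk h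
    have h2 : k * (k⁻¹ * u * k) * k⁻¹ = u := by group
    rwa [h2] at h1
  · intro h
    have h1 := InU922.conj hI hk.inv h
    rwa [inv_inv] at h1

theorem inU_mul_iff922 {O : Subring R} {I : Set R} (hI : IsIdl922 O I) {g g' : GL (Fin 2) R}
    (hg : InU922 I g) : InU922 I (g * g') ↔ InU922 I g' := by
  constructor
  · intro h
    have h1 := InU922.mul hI hg.inv h
    rwa [inv_mul_cancel_left] at h1
  · exact fun h => InU922.mul hI hg h

/-! ## Upper triangular matrices -/

theorem coe_upperGL922 (c₁ c₂ : Rˣ) (x : R) :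
    ((upperGL c₁ c₂ x : GL (Fin 2) R) : Matrix (Fin 2) (Fin 2) R)
      = !![(c₁ : R), x; 0, (c₂ : R)] := rfl

theorem coe_inv_upperGL922 (c₁ c₂ : Rˣ) (x : R) :
    (((upperGL c₁ c₂ x)⁻¹ : GL (Fin 2) R) : Matrix (Fin 2) (Fin 2) R)
      = !![((c₁⁻¹ : Rˣ) : R), -(((c₁⁻¹ : Rˣ) : R) * x * ((c₂⁻¹ : Rˣ) : R)); 0,
          ((c₂⁻¹ : Rˣ) : R)] := rfl

theorem upperGL_mul922 (c₁ c₂ d₁ d₂ : Rˣ) (x y : R) :
    upperGL c₁ c₂ x * upperGL d₁ d₂ y
      = upperGL (c₁ * d₁) (c₂ * d₂) ((c₁ : R) * y + x * (d₂ : R)) := by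
  apply Units.ext
  rw [Units.val_mul, coe_upperGL922, coe_upperGL922, coe_upperGL922]
  ext i j
  fin_cases i <;> fin_cases j <;> simp [Matrix.mul_apply, Fin.sum_univ_two]

/-- `[[a, y], [0, 1]] ∈ U(I) ↔ y ∈ I`, when `a - 1 ∈ I` and `a⁻¹ - 1 ∈ I`. -/
theorem inU_upper_iff922 {O : Subring R} {I : Set R} (hI : IsIdl922 O I) (a : Rˣ) (y : R)
    (ha : (a : R) - 1 ∈ I) (ha' : ((a⁻¹ : Rˣ) : R) - 1 ∈ I) :
    InU922 I (upperGL a 1 y) ↔ y ∈ I := by
  have haO : ((a⁻¹ : Rˣ) : R) ∈ O := by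
    have h1 : ((a⁻¹ : Rˣ) : R) = (((a⁻¹ : Rˣ) : R) - 1) + 1 := by ring
    rw [h1]
    exact O.add_mem (hI.sub ha') O.one_mem
  constructor
  · intro h
    have h1 := h.1 0 1
    rw [coe_upperGL922] at h1
    simpa using h1
  · intro hy
    refine ⟨?_, ?_⟩
    · rw [coe_upperGL922]
      intro i j
      fin_cases i <;> fin_cases j
      · simpa using ha
      · simpa using hy
      · simpa using hI.zero
      · simpa using hI.zero
    · rw [coe_inv_upperGL922]
      intro i j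
      fin_cases i <;> fin_cases j
      · simpa using ha'
      · have h2 : -(((a⁻¹ : Rˣ) : R) * y) ∈ I := hI.neg (hI.smul haO hy)
        simpa using h2
      · simpa using hI.zero
      · simpa using hI.zero

/-- **THE LOCAL STATEMENT.**  `k₁, k' ∈ GL₂(O)`, `a ≡ 1`, `a⁻¹ ≡ 1` modulo `I`, and
`k₁ [[c, X], [0, c₂]] k' ∈ U(I)`.  Then
`k₁ [[c a, X'], [0, c₂]] k' ∈ U(I) ↔ X' - X ∈ I`. -/
theorem inU_coset922 {O : Subring R} {I : Set R} (hI : IsIdl922 O I) {k₁ k' : GL (Fin 2) R}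
    (hk₁ : InGLO922 O k₁) (hk' : InGLO922 O k') (c c₂ a : Rˣ) (X X' : R)
    (ha : (a : R) - 1 ∈ I) (ha' : ((a⁻¹ : Rˣ) : R) - 1 ∈ I)
    (h : InU922 I (k₁ * upperGL c c₂ X * k')) :
    InU922 I (k₁ * upperGL (c * a) c₂ X' * k') ↔ X' - X ∈ I := by
  -- `c` and `c⁻¹` lie in `O`
  have hm : InGLO922 O (upperGL c c₂ X) := by
    have h1 := (hk₁.inv.mul (h.inGLO hI)).mul hk'.inv
    have h2 : k₁⁻¹ * (k₁ * upperGL c c₂ X * k') * k'⁻¹ = upperGL c c₂ X := by group
    rwa [h2] at h1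
  have hc : (c : R) ∈ O := by
    have h1 := hm.1 0 0
    rw [coe_upperGL922] at h1
    simpa using h1
  have hc' : ((c⁻¹ : Rˣ) : R) ∈ O := by
    have h1 := hm.2 0 0
    rw [coe_inv_upperGL922] at h1
    simpa using h1
  -- the factorisation
  have hfac : upperGL (c * a) c₂ X'
      = upperGL c c₂ X * upperGL a 1 (((c⁻¹ : Rˣ) : R) * (X' - X)) := by
    rw [upperGL_mul922]
    congr 1
    · rw [mul_one]
    · rw [Units.val_one, mul_one, ← mul_assoc, Units.mul_inv, one_mul]
      ring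
  have hfac2 : k₁ * upperGL (c * a) c₂ X' * k'
      = (k₁ * upperGL c c₂ X * k')
          * (k'⁻¹ * upperGL a 1 (((c⁻¹ : Rˣ) : R) * (X' - X)) * k') := by
    rw [hfac]
    group
  rw [hfac2, inU_mul_iff922 hI h, inU_conj_iff922 hI hk', inU_upper_iff922 hI a _ ha ha']
  constructor
  · intro h1
    have h2 := hI.smul hc h1
    rwa [← mul_assoc, Units.mul_inv, one_mul] at h2
  · intro h1
    exact hI.smul hc' h1

/-! ## The group `{a : a ≡ 1, a⁻¹ ≡ 1 mod I}` of units -/

/-- The units congruent to `1` modulo `I` together with their inverse. -/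
def unitsOne922 {O : Subring R} {I : Set R} (hI : IsIdl922 O I) : Subgroup Rˣ where
  carrier := {a | (a : R) - 1 ∈ I ∧ ((a⁻¹ : Rˣ) : R) - 1 ∈ I}
  one_mem' := by
    refine ⟨?_, ?_⟩
    · simpa using hI.zero
    · simpa using hI.zero
  mul_mem' := by
    rintro a b ⟨ha, ha'⟩ ⟨hb, hb'⟩
    have haO : (a : R) ∈ O := by
      have h1 : (a : R) = ((a : R) - 1) + 1 := by ring
      rw [h1]
      exact O.add_mem (hI.sub ha) O.one_mem
    have hbO : ((b⁻¹ : Rˣ) : R) ∈ O := by
      have h1 : ((b⁻¹ : Rˣ) : R) = (((b⁻¹ : Rˣ) : R) - 1) + 1 := by ring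
      rw [h1]
      exact O.add_mem (hI.sub hb') O.one_mem
    refine ⟨?_, ?_⟩
    · have h1 : ((a * b : Rˣ) : R) - 1 = (a : R) * ((b : R) - 1) + ((a : R) - 1) := by
        rw [Units.val_mul]
        ring
      rw [h1]
      exact hI.add (hI.smul haO hb) ha
    · have h1 : (((a * b)⁻¹ : Rˣ) : R) - 1
          = ((b⁻¹ : Rˣ) : R) * (((a⁻¹ : Rˣ) : R) - 1) + (((b⁻¹ : Rˣ) : R) - 1) := by
        rw [mul_inv_rev, Units.val_mul]
        ring
      rw [h1]
      exact hI.add (hI.smul hbO ha') hb'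
  inv_mem' := by
    rintro a ⟨ha, ha'⟩
    exact ⟨ha', by rw [inv_inv]; exact ha⟩

theorem mem_unitsOne922 {O : Subring R} {I : Set R} (hI : IsIdl922 O I) (a : Rˣ) :
    a ∈ unitsOne922 hI ↔ (a : R) - 1 ∈ I ∧ ((a⁻¹ : Rˣ) : R) - 1 ∈ I := Iff.rfl

end Fermat.Agent.LT.T3.H922

end
-- ===== PACK-END LT/T3/H922/LocalU.lean

-- ===== PACK-BEGIN LT/T5/H277/Unfold.lean
section


/-!
# Row LT, tower T5, leaf T5.05 `LeafCoeff` (helper277): unfolding

The tile maps `y ↦ γ σ(y) rᵐ` are measure preserving homeomorphisms; unfolding of an integral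
over `GL₂(𝔸_K)` into the integral over the fundamental domain `F` of the sum over the tiles.
OFF-MAIN.
-/

set_option autoImplicit false
open IsDedekindDomain NumberField MeasureTheory
open scoped MatrixGroups ComplexConjugate
open Fermat.Agent.LT.H556.A0 Fermat.Agent.LT.T5

noncomputable section
namespace Fermat.Agent.LT.T5.H277

variable {K : Type} [Field K] [NumberField K]

attribute [local instance] Fermat.Agent.LT.T5.instMeasurableSpaceG

variable {s : AdelicAut K} {𝔫 : Ideal (𝓞 K)} {μ : Measure (G K)} {r : G K} {F : Set (G K)}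

/-! ## Continuity of the inverse automorphism -/

theorem continuous_GLmap277 {R S : Type*} [CommRing R] [CommRing S] [TopologicalSpace R]
    [TopologicalSpace S] [IsTopologicalRing R] [IsTopologicalRing S] (f : R →+* S)
    (hf : Continuous f) :
    Continuous (Matrix.GeneralLinearGroup.map (n := Fin 2) f) := by
  rw [Units.continuous_iff]
  constructor
  · have : (Units.val ∘ (Matrix.GeneralLinearGroup.map (n := Fin 2) f))
        = fun g : GL (Fin 2) R => (g : Matrix (Fin 2) (Fin 2) R).map f := by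
      funext g; rfl
    rw [this]
    exact Continuous.matrix_map Units.continuous_val hf
  · have : (fun g : GL (Fin 2) R => ((Matrix.GeneralLinearGroup.map (n := Fin 2) f g)⁻¹ :
          GL (Fin 2) S).val)
        = fun g : GL (Fin 2) R => ((g⁻¹ : GL (Fin 2) R) : Matrix (Fin 2) (Fin 2) R).map f := by
      funext g
      rw [← map_inv]; rfl
    rw [this]
    exact Continuous.matrix_map Units.continuous_coe_inv hf

theorem continuous_onGinv277 (s : AdelicAut K) : Continuous s.onGinv :=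
  continuous_GLmap277 _ s.continuous_symm

/-! ## The tile maps are measure preserving measurable embeddings -/

/-- The automorphism as a homeomorphism. -/
def onGHomeo277 (s : AdelicAut K) (hP : AutPreserves s 𝔫 μ r) : G K ≃ₜ G K where
  toFun := s.onG
  invFun := s.onGinv
  left_inv := hP.left_inverse
  right_inv := hP.right_inverse
  continuous_toFun := hP.cont
  continuous_invFun := continuous_onGinv277 s

/-- The tile map as a homeomorphism. -/
def tileHomeo277 (s : AdelicAut K) (hP : AutPreserves s 𝔫 μ r) (i : GL (Fin 2) K × ℤ) :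
    G K ≃ₜ G K :=
  ((onGHomeo277 s hP).trans (Homeomorph.mulLeft (ratG i.1))).trans (Homeomorph.mulRight (r ^ i.2))

theorem tileHomeo_apply277 (hP : AutPreserves s 𝔫 μ r) (i : GL (Fin 2) K × ℤ) (y : G K) :
    tileHomeo277 s hP i y = tile277 s r i y := rfl

theorem tile_emb277 (hP : AutPreserves s 𝔫 μ r) (i : GL (Fin 2) K × ℤ) :
    MeasurableEmbedding (tile277 s r i) := by
  have : BorelSpace (G K) := borelSpaceG277
  exact (tileHomeo277 s hP i).measurableEmbedding

theorem tile_mp277 (hF : IsFrame μ F) (hP : AutPreserves s 𝔫 μ r) (i : GL (Fin 2) K × ℤ) :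
    MeasurePreserving (tile277 s r i) μ μ := by
  have : BorelSpace (G K) := borelSpaceG277
  have := hF.haar
  have h1 : MeasurePreserving s.onG μ μ := by
    refine ⟨hP.cont.measurable, ?_⟩
    ext A hA
    rw [Measure.map_apply hP.cont.measurable hA]
    exact hP.measure A hA
  have h2 : MeasurePreserving (fun x : G K => ratG i.1 * x) μ μ :=
    measurePreserving_mul_left μ _
  have h3 : MeasurePreserving (fun x : G K => x * r ^ i.2) μ μ := by
    have hm : Measurable (fun x : G K => x * r ^ i.2) := (continuous_mul_const _).measurable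
    refine ⟨hm, ?_⟩
    ext A hA
    rw [Measure.map_apply hm hA]
    exact hF.right_inv _ A hA
  exact h3.comp (h2.comp h1)

/-! ## Unfolding -/

theorem tile_image_measurable277 (hF : IsFrame μ F) (hP : AutPreserves s 𝔫 μ r)
    (i : GL (Fin 2) K × ℤ) : MeasurableSet (tile277 s r i '' F) :=
  (tile_emb277 hP i).measurableSet_image.mpr hF.meas

theorem tile_iUnion277 (hN : T1.AdNormC K) (hF : IsFrame μ F) (hr : IsRayGen r)
    (hP : AutPreserves s 𝔫 μ r) : (⋃ i : GL (Fin 2) K × ℤ, tile277 s r i '' F) = Set.univ := by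
  apply Set.eq_univ_of_forall
  intro g
  obtain ⟨i, y, hy, he⟩ := tile_cover277 hN hF hr hP g
  exact Set.mem_iUnion.mpr ⟨i, y, hy, he⟩

theorem tile_disjoint277 (hN : T1.AdNormC K) (hF : IsFrame μ F) (hr : IsRayGen r)
    (hP : AutPreserves s 𝔫 μ r) :
    Pairwise (Function.onFun Disjoint fun i : GL (Fin 2) K × ℤ => tile277 s r i '' F) := by
  intro i j hij
  rw [Function.onFun, Set.disjoint_left]
  rintro g ⟨y, hy, rfl⟩ ⟨y', hy', he⟩
  exact hij (tile_unique277 hN hF hr hP hy hy' he.symm)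

/-- The integral over `GL₂(𝔸_K)` is the sum of the integrals over the tiles. -/
theorem integral_eq_tsum_tile277 (hN : T1.AdNormC K) (hF : IsFrame μ F) (hr : IsRayGen r)
    (hP : AutPreserves s 𝔫 μ r) {Φ : G K → ℂ} (hΦ : Integrable Φ μ) :
    ∫ g, Φ g ∂μ = ∑' i : GL (Fin 2) K × ℤ, ∫ y in F, Φ (tile277 s r i y) ∂μ := by
  have : Countable (GL (Fin 2) K) := countable_GL277 K
  have h := integral_iUnion (μ := μ) (f := Φ) (fun i => tile_image_measurable277 hF hP i)
    (tile_disjoint277 hN hF hr hP) hΦ.integrableOn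
  rw [tile_iUnion277 hN hF hr hP, setIntegral_univ] at h
  rw [h]
  congr 1
  funext i
  exact (tile_mp277 hF hP i).setIntegral_image_emb (tile_emb277 hP i) Φ F

/-- The same for the lower integral of the norm. -/
theorem lintegral_eq_tsum_tile277 (hN : T1.AdNormC K) (hF : IsFrame μ F) (hr : IsRayGen r)
    (hP : AutPreserves s 𝔫 μ r) (Φ : G K → ℂ) :
    ∑' i : GL (Fin 2) K × ℤ, ∫⁻ y in F, ‖Φ (tile277 s r i y)‖ₑ ∂μ = ∫⁻ g, ‖Φ g‖ₑ ∂μ := by
  have : Countable (GL (Fin 2) K) := countable_GL277 K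
  have h := lintegral_iUnion (μ := μ) (fun i => tile_image_measurable277 hF hP i)
    (tile_disjoint277 hN hF hr hP) (fun g => ‖Φ g‖ₑ)
  rw [tile_iUnion277 hN hF hr hP, setLIntegral_univ] at h
  rw [h]
  congr 1
  funext i
  exact (tile_mp277 hF hP i).setLIntegral_comp_emb (tile_emb277 hP i) (fun g => ‖Φ g‖ₑ) F

/-- For almost every `y ∈ F` the family `Φ (γ σ(y) rᵐ)` is summable. -/
theorem ae_summable_tile277 (hN : T1.AdNormC K) (hF : IsFrame μ F) (hr : IsRayGen r)
    (hP : AutPreserves s 𝔫 μ r) {Φ : G K → ℂ} (hΦc : Continuous Φ) (hΦ : Integrable Φ μ) :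
    ∀ᵐ y ∂(μ.restrict F), Summable fun i : GL (Fin 2) K × ℤ => Φ (tile277 s r i y) := by
  have : BorelSpace (G K) := borelSpaceG277
  have : Countable (GL (Fin 2) K) := countable_GL277 K
  have hmeas : ∀ i : GL (Fin 2) K × ℤ,
      AEMeasurable (fun y => ‖Φ (tile277 s r i y)‖ₑ) (μ.restrict F) := fun i =>
    ((hΦc.comp (tileHomeo277 s hP i).continuous).measurable.enorm).aemeasurable
  have h1 : ∫⁻ y in F, ∑' i : GL (Fin 2) K × ℤ, ‖Φ (tile277 s r i y)‖ₑ ∂μ ≠ ⊤ := by
    rw [lintegral_tsum hmeas, lintegral_eq_tsum_tile277 hN hF hr hP Φ]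
    exact hΦ.2.ne
  have h2 := ae_lt_top' (AEMeasurable.tsum hmeas) h1
  filter_upwards [h2] with y hy
  apply Summable.of_nnnorm
  rw [← ENNReal.tsum_coe_ne_top_iff_summable]
  simpa [enorm_eq_nnnorm] using hy.ne

/-- **Unfolding**, nested form. -/
theorem integral_tsum_tile277 (hN : T1.AdNormC K) (hF : IsFrame μ F) (hr : IsRayGen r)
    (hP : AutPreserves s 𝔫 μ r) {Φ : G K → ℂ} (hΦc : Continuous Φ) (hΦ : Integrable Φ μ) :
    ∫ y in F, (∑' γ : GL (Fin 2) K, ∑' m : ℤ, Φ (tile277 s r (γ, m) y)) ∂μ = ∫ g, Φ g ∂μ := by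
  have : BorelSpace (G K) := borelSpaceG277
  have : Countable (GL (Fin 2) K) := countable_GL277 K
  have hae := ae_summable_tile277 hN hF hr hP hΦc hΦ
  have hcongr : ∫ y in F, (∑' γ : GL (Fin 2) K, ∑' m : ℤ, Φ (tile277 s r (γ, m) y)) ∂μ
      = ∫ y in F, (∑' i : GL (Fin 2) K × ℤ, Φ (tile277 s r i y)) ∂μ := by
    apply integral_congr_ae
    filter_upwards [hae] with y hy
    exact (hy.tsum_prod).symm
  rw [hcongr, integral_eq_tsum_tile277 hN hF hr hP hΦ]
  apply integral_tsum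
  · intro i
    exact ((hΦc.comp (tileHomeo277 s hP i).continuous).measurable).aestronglyMeasurable
  · rw [lintegral_eq_tsum_tile277 hN hF hr hP Φ]
    exact hΦ.2.ne

end Fermat.Agent.LT.T5.H277
end

end
-- ===== PACK-END LT/T5/H277/Unfold.lean

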