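import Mathlib
import Fermat.Agent.Pack.LT2.E7L1
import Fermat.Agent.Pack.LT2.E7L3
import Fermat.Agent.Pack.LT2.E7L2
import Fermat.Agent.Pack.LT2.E6L1
import Fermat.Agent.Pack.LT2.E6L2
import Fermat.Agent.Pack.LT2.E0L2
import Fermat.Agent.Pack.S43MC.G0E11L0
import Fermat.Agent.Pack.S44C.G0E6L2
import Fermat.Agent.Pack.LT2.E2L1
import Fermat.Agent.Pack.LT2.E0L1
import Fermat.Agent.Pack.LT2.E2L2
import Fermat.Agent.Pack.LT2.E1L2
import Fermat.Agent.Pack.LT2.E0L3
import Fermat.Agent.Pack.LT2.E8L2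

set_option linter.all false

-- ===== PACK-BEGIN LT/A2/Kernel.lean
section


/-!
# Row LT, tower A2, block THETA -- level 3: the cut of `KernelC` (helper950)

    KernelC  ⟸  TorusCharC + KernelTC                                  (`kernel_of_leaves`)
    KernelTC ⟸  WeilLocalC + Poisson2C + HasseNormC + ThetaInvC + LiftExC + WhitExC + ExpC + InvC
                                                                        (`kernelT_of_leaves`)

Everything is written in COORDINATES: `L = K ⊕ K ω`, `ω² - t ω + n = 0`, so that the quadratic space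
`(L, N_{L/K})` becomes `(K², Q)`, `Q(x, y) = x² + t x y + n y²`, its adelic points are `𝔸_K × 𝔸_K`,
and the torus `T = Res_{L/K} 𝔾_m` is the group of the matrices `a + b M_ω = [[a, -n b], [b, a + t b]]`
inside `GL₂`.  No adele ring of `L` occurs after `TorusCharC`.

## The Weil representation, in function form

A WEIL FAMILY is a function `F g m ξ` (`= (r(g, m) Φ₀)(ξ)`), defined on the ADMISSIBLE pairs
`(g, m)`, `g ∈ GL₂(𝔸_K)`, `m ∈ T(𝔸_K)`, `det g = det m`, and `ξ ∈ 𝔸_K²`, with
(`r(g, m) = L(m) r(d(det g)⁻¹ g)`, `d(a) = diag(1, a)`, `L(m) Φ(ξ) = |det m|^{-1/2} Φ(m⁻¹ ξ)`):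

    F (n(x) g) m ξ = ψ(x Q(ξ)) F g m ξ                                   (unip)
    F (w g) m ξ    = ∫ F g m y ψ(B(ξ, y)) dy                             (weyl; global Weil index 1)
    F (t(a) g) m ξ = F g m (a ξ),        a ∈ K^×                          (diagK; η(a) |a| = 1)
    F (d(det μ) g) (μ m) ξ = F g m (μ⁻¹ ξ),   μ ∈ T(K)                    (torK; |det μ| = 1)
    F g (m' m) ξ   = F g m (m'⁻¹ ξ),     m' ∈ T¹(𝔸)                       (tor1)

Weil 1964 §§ 13--16; Jacquet--Langlands §1 (Prop. 1.3, 1.5); Shalika--Tanaka §1; Bump §4.8.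

Definitions only (no `sorry`, nothing assumed).
-/

set_option autoImplicit false

open IsDedekindDomain NumberField AutomorphicForm MeasureTheory
open scoped MatrixGroups

noncomputable section

namespace Fermat.Agent.LT.A2

open Fermat.Agent.LT.H130 Fermat.Agent.LT.H556

/-! ## Coordinates -/

section Coord

variable {K : Type} [Field K] [NumberField K]

/-- `Q(x, y) = x² + t x y + n y²` on `𝔸_K²`. -/
def qf (t n : K) (ξ : A0.Adl K × A0.Adl K) : A0.Adl K :=
  ξ.1 ^ 2 + algebraMap K (A0.Adl K) t * ξ.1 * ξ.2 + algebraMap K (A0.Adl K) n * ξ.2 ^ 2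

/-- `B(ξ, y) = Q(ξ + y) - Q(ξ) - Q(y)`. -/
def bf (t n : K) (ξ y : A0.Adl K × A0.Adl K) : A0.Adl K :=
  qf t n (ξ + y) - qf t n ξ - qf t n y

/-- The matrix of the multiplication by `a + b ω` in the basis `1, ω`. -/
def torMat {R : Type*} [CommRing R] (t n a b : R) : Matrix (Fin 2) (Fin 2) R :=
  !![a, -(n * b); b, a + t * b]

/-- `m ∈ T(𝔸_K)`. -/
def InTorus (t n : K) (m : A0.G K) : Prop :=
  ∃ a b : A0.Adl K, (m : Matrix (Fin 2) (Fin 2) (A0.Adl K))
    = torMat (algebraMap K (A0.Adl K) t) (algebraMap K (A0.Adl K) n) a b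

/-- `m ∈ T(K)`. -/
def InTorusRat (t n : K) (m : A0.G K) : Prop :=
  ∃ a b : K, (m : Matrix (Fin 2) (Fin 2) (A0.Adl K))
    = torMat (algebraMap K (A0.Adl K) t) (algebraMap K (A0.Adl K) n)
        (algebraMap K (A0.Adl K) a) (algebraMap K (A0.Adl K) b)

/-- `m ∈ T¹(𝔸_K)`: the norm-one torus. -/
def InTorus1 (t n : K) (m : A0.G K) : Prop :=
  InTorus t n m ∧ Matrix.GeneralLinearGroup.det m = 1

/-- The pair `(g, m)` is ADMISSIBLE: `m ∈ T(𝔸_K)` and `det g = det m`. -/
def Adm (t n : K) (g m : A0.G K) : Prop :=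
  InTorus t n m ∧ Matrix.GeneralLinearGroup.det g = Matrix.GeneralLinearGroup.det m

/-- `g ∈ GL₂(𝔸_K)⁺`: `det g` is a norm from the torus. -/
def InGPlus (t n : K) (g : A0.G K) : Prop := ∃ m : A0.G K, Adm t n g m

/-- The natural action of `GL₂(𝔸_K)` on `𝔸_K²` (column vectors). -/
def actV (m : A0.G K) (ξ : A0.Adl K × A0.Adl K) : A0.Adl K × A0.Adl K :=
  ((m : Matrix (Fin 2) (Fin 2) (A0.Adl K)) 0 0 * ξ.1
      + (m : Matrix (Fin 2) (Fin 2) (A0.Adl K)) 0 1 * ξ.2,
    (m : Matrix (Fin 2) (Fin 2) (A0.Adl K)) 1 0 * ξ.1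
      + (m : Matrix (Fin 2) (Fin 2) (A0.Adl K)) 1 1 * ξ.2)

/-- The rational vector `(x, y) ∈ K²` in `𝔸_K²`. -/
def ratV (ξ : K × K) : A0.Adl K × A0.Adl K :=
  (algebraMap K (A0.Adl K) ξ.1, algebraMap K (A0.Adl K) ξ.2)

/-- `g` is the image of `γ ∈ GL₂(K)`. -/
def ratG (γ : GL (Fin 2) K) : A0.G K :=
  Matrix.GeneralLinearGroup.map (algebraMap K (A0.Adl K)) γ

/-- `w` is the Weyl element `[[0, 1], [-1, 0]]`. -/
def IsWeyl (w : A0.G K) : Prop :=
  (w : Matrix (Fin 2) (Fin 2) (A0.Adl K)) = !![0, 1; -1, 0]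

/-- `d` is `diag(1, a)`, `a ∈ K^×`. -/
def IsDiagOne (d : A0.G K) (a : K) : Prop :=
  (d : Matrix (Fin 2) (Fin 2) (A0.Adl K)) = !![1, 0; 0, algebraMap K (A0.Adl K) a]

/-- `s` is `diag(a, a⁻¹)`, `a ∈ K^×`. -/
def IsDiagSL (s : A0.G K) (a : K) : Prop :=
  (s : Matrix (Fin 2) (Fin 2) (A0.Adl K))
    = !![algebraMap K (A0.Adl K) a, 0; 0, algebraMap K (A0.Adl K) a⁻¹]

end Coord

/-! ## The torus character -/

section TorusChar

variable {K : Type} [Field K] [NumberField K]

/-- `χT` is an automorphic character of finite order of the torus `T(𝔸_K) ⊂ GL₂(𝔸_K)`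
(only its values on `T(𝔸_K)` matter), NOT trivial on the norm-one torus. -/
structure IsTorusChar (t n : K) (χT : A0.G K → ℂ) : Prop where
  irred : ∀ x : K, x ^ 2 - t * x + n ≠ 0
  mul : ∀ m m' : A0.G K, InTorus t n m → InTorus t n m' → χT (m * m') = χT m * χT m'
  one : χT 1 = 1
  cont : ContinuousOn χT {m | InTorus t n m}
  rat : ∀ m : A0.G K, InTorusRat t n m → χT m = 1
  fin_order : ∃ k : ℕ, 0 < k ∧ ∀ m : A0.G K, InTorus t n m → χT m ^ k = 1
  nontriv : ∃ m : A0.G K, InTorus1 t n m ∧ χT m ≠ 1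

/-- The induced data in torus coordinates at the place `v`: if `m₁`, `m₂` are integral elements of
`T(K_v)` with determinant a uniformiser, inequivalent modulo `T(𝒪_v)`, then
`a = χT(m₁) + χT(m₂)`, `b = χT(m₁) χT(m₂)`; if there is no integral element of `T(K_v)` with
determinant a uniformiser (`v` inert), then `a = 0` and `b = - χT(ϖ_v)`. -/
def InducedAtT (t n : K) (χT : A0.G K → ℂ) (v : HeightOneSpectrum (𝓞 K)) (a b : ℂ) : Prop :=
  (∀ m₁ m₂ : A0.G K, InTorus t n m₁ → InTorus t n m₂ →
      A0.IsLocalAtFin v m₁ → A0.IsLocalAtFin v m₂ → A0.IsIntegralAt v m₁ → A0.IsIntegralAt v m₂ →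
      Valued.v (A0.finComp v m₁).det = WithZero.exp (-1 : ℤ) →
      Valued.v (A0.finComp v m₂).det = WithZero.exp (-1 : ℤ) →
      ¬ A0.IsIntegralAt v (m₁⁻¹ * m₂) →
      a = χT m₁ + χT m₂ ∧ b = χT m₁ * χT m₂) ∧
    ((∀ m : A0.G K, InTorus t n m → A0.IsLocalAtFin v m → A0.IsIntegralAt v m →
        Valued.v (A0.finComp v m).det ≠ WithZero.exp (-1 : ℤ)) →
      ∀ z : A0.G K, A0.IsScalarUniformizerAt v z → a = 0 ∧ b = -χT z)

/-- The eigensystem `π` has the induced data of `χT` at the places not dividing its level. -/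
def InducedDataT (t n : K) (χT : A0.G K → ℂ) (π : HeckeEigensystem K ℂ) : Prop :=
  ∀ v : HeightOneSpectrum (𝓞 K), ¬ v.asIdeal ∣ π.level → InducedAtT t n χT v (π.a v) (π.b v)

end TorusChar

/-! ## Weil families, theta kernel, lift, Whittaker function -/

section Weil

variable (K : Type) [Field K] [NumberField K]

/-- `μ` is the Haar measure of `𝔸_K` of covolume `1` (Borel σ-algebra): every fundamental domain
of `K` has measure `1`. -/
def IsCovolOne {K : Type} [Field K] [NumberField K]
    (μ : @Measure (A0.Adl K) (borel (A0.Adl K))) : Prop :=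
  letI : MeasurableSpace (A0.Adl K) := borel (A0.Adl K)
  μ.IsAddHaarMeasure ∧ ∀ S : Set (A0.Adl K),
    IsAddFundamentalDomain ((algebraMap K (A0.Adl K)).toAddMonoidHom.range) S μ → μ S = 1

/-- Integrability on `𝔸_K²` for the product measure `μ × μ` (product of the Borel σ-algebras). -/
def Integrable2 {K : Type} [Field K] [NumberField K]
    (μ : @Measure (A0.Adl K) (borel (A0.Adl K))) (f : A0.Adl K × A0.Adl K → ℂ) : Prop :=
  letI : MeasurableSpace (A0.Adl K) := borel (A0.Adl K)
  Integrable f (μ.prod μ)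

/-- The integral over `𝔸_K²` for the product measure `μ × μ`. -/
def integral2 {K : Type} [Field K] [NumberField K]
    (μ : @Measure (A0.Adl K) (borel (A0.Adl K))) (f : A0.Adl K × A0.Adl K → ℂ) : ℂ :=
  letI : MeasurableSpace (A0.Adl K) := borel (A0.Adl K)
  ∫ y, f y ∂(μ.prod μ)

/-- **The data of the theta construction** (coordinates `t`, `n`; torus character `χT`; additive
character `ψ`; Haar measure `μ` of `𝔸_K`; Haar measure `μT` of the norm-one torus `T¹(𝔸_K)`, as a
measure on `GL₂(𝔸_K)` carried by `T¹(𝔸_K)`; fundamental domain `DT` of `T¹(K)` in `T¹(𝔸_K)`;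
Weil family `F`; eigensystem `π`). -/
structure KData where
  t : K
  n : K
  χT : A0.G K → ℂ
  ψ : A0.Adl K → ℂ
  μ : @Measure (A0.Adl K) (borel (A0.Adl K))
  μT : @Measure (A0.G K) (borel (A0.G K))
  DT : Set (A0.G K)
  F : A0.G K → A0.G K → A0.Adl K × A0.Adl K → ℂ
  π : HeckeEigensystem K ℂ

variable {K}

/-- The integral over `𝔸_K²` for the product measure `μ × μ` (Borel σ-algebras). -/
def KData.int2 (D : KData K) (f : A0.Adl K × A0.Adl K → ℂ) : ℂ :=
  integral2 D.μ f

/-- The integral over the subset `S` of `GL₂(𝔸_K)` for the torus measure `μT`. -/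
def KData.intT (D : KData K) (S : Set (A0.G K)) (f : A0.G K → ℂ) : ℂ :=
  letI : MeasurableSpace (A0.G K) := borel (A0.G K)
  ∫ m in S, f m ∂D.μT

/-- **The axioms of a WEIL FAMILY** (see the header). -/
structure KData.IsWeil (D : KData K) : Prop where
  unip : ∀ nU : A0.Adl K → A0.G K, IsUpperUnip nU →
    ∀ (x : A0.Adl K) (g m : A0.G K) (ξ : A0.Adl K × A0.Adl K), Adm D.t D.n g m →
      D.F (nU x * g) m ξ = D.ψ (x * qf D.t D.n ξ) * D.F g m ξ
  weyl : ∀ w : A0.G K, IsWeyl w →
    ∀ (g m : A0.G K) (ξ : A0.Adl K × A0.Adl K), Adm D.t D.n g m →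
      D.F (w * g) m ξ = D.int2 fun y => D.F g m y * D.ψ (bf D.t D.n ξ y)
  diagK : ∀ (s : A0.G K) (a : K), a ≠ 0 → IsDiagSL s a →
    ∀ (g m : A0.G K) (ξ : A0.Adl K × A0.Adl K), Adm D.t D.n g m →
      D.F (s * g) m ξ = D.F g m (algebraMap K (A0.Adl K) a • ξ)
  torK : ∀ (μ' d : A0.G K) (a : K), InTorusRat D.t D.n μ' →
    ((Matrix.GeneralLinearGroup.det μ' : (A0.Adl K)ˣ) : A0.Adl K) = algebraMap K (A0.Adl K) a →
    IsDiagOne d a →
    ∀ (g m : A0.G K) (ξ : A0.Adl K × A0.Adl K), Adm D.t D.n g m →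
      D.F (d * g) (μ' * m) ξ = D.F g m (actV μ'⁻¹ ξ)
  tor1 : ∀ m' : A0.G K, InTorus1 D.t D.n m' →
    ∀ (g m : A0.G K) (ξ : A0.Adl K × A0.Adl K), Adm D.t D.n g m →
      D.F g (m' * m) ξ = D.F g m (actV m'⁻¹ ξ)

/-- **Regularity** of the family: the hypotheses of the Poisson summation formula for every
`F g m`, and continuity and normal convergence on the compact sets of admissible pairs. -/
structure KData.IsRegular (D : KData K) : Prop where
  cont : ∀ g m : A0.G K, Adm D.t D.n g m → Continuous (D.F g m)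
  integrable : ∀ g m : A0.G K, Adm D.t D.n g m → Integrable2 D.μ (D.F g m)
  shift_summable : ∀ g m : A0.G K, Adm D.t D.n g m →
    ∀ C : Set (A0.Adl K × A0.Adl K), IsCompact C → ∃ b : K × K → ℝ, Summable b ∧
      ∀ (ξ : K × K) (x : A0.Adl K × A0.Adl K), x ∈ C → ‖D.F g m (x + ratV ξ)‖ ≤ b ξ
  cont_pair : ∀ ξ : A0.Adl K × A0.Adl K,
    ContinuousOn (fun p : A0.G K × A0.G K => D.F p.1 p.2 ξ) {p | Adm D.t D.n p.1 p.2}
  loc_summable : ∀ C : Set (A0.G K × A0.G K), IsCompact C → ∃ b : K × K → ℝ, Summable b ∧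
    ∀ (ξ : K × K) (p : A0.G K × A0.G K), p ∈ C → Adm D.t D.n p.1 p.2 →
      ‖D.F p.1 p.2 (ratV ξ)‖ ≤ b ξ

/-- **The measures**: `μ` is the Haar measure of `𝔸_K` of covolume `1`; `μT` is a Haar measure of
`T¹(𝔸_K)` (carried by `T¹`, invariant under translation by `T¹`, finite on compact sets, positive
on the open sets which meet `T¹`), `DT ⊆ T¹(𝔸_K)` is a relatively compact Borel fundamental
domain of `T¹(K)`. -/
structure KData.IsMeasured (D : KData K) : Prop where
  covol : IsCovolOne D.μ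
  carried : D.μT {m | ¬ InTorus1 D.t D.n m} = 0
  inv : ∀ m' : A0.G K, InTorus1 D.t D.n m' → ∀ S : Set (A0.G K),
    D.μT ((fun m => m' * m) '' S) = D.μT S
  compact_lt : ∀ C : Set (A0.G K), IsCompact C → D.μT C < ⊤
  open_pos : ∀ U : Set (A0.G K), IsOpen U → (∃ m, m ∈ U ∧ InTorus1 D.t D.n m) → 0 < D.μT U
  dom_sub : ∀ m ∈ D.DT, InTorus1 D.t D.n m
  dom_meas : @MeasurableSet (A0.G K) (borel (A0.G K)) D.DT
  dom_compact : ∃ C : Set (A0.G K), IsCompact C ∧ D.DT ⊆ C
  dom_fund : ∀ m : A0.G K, InTorus1 D.t D.n m →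
    ∃! y : A0.G K, InTorusRat D.t D.n y ∧ InTorus1 D.t D.n y ∧ y * m ∈ D.DT

/-- **Right invariance** of the family under the level group, the positive real scalars and the
maximal compact subgroups at the infinite places: for such `u` there is `κ ∈ T(𝔸_K)` with
`det κ = det u`, `χT κ = 1`, `F (g u) (m κ) = F g m`. -/
structure KData.IsRightInv (D : KData K) : Prop where
  level : ∀ u : A0.G K, A0.InLevelGroup D.π.level u →
    ∃ κ : A0.G K, Adm D.t D.n u κ ∧ D.χT κ = 1 ∧
      ∀ (g m : A0.G K) (ξ : A0.Adl K × A0.Adl K), Adm D.t D.n g m →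
        D.F (g * u) (m * κ) ξ = D.F g m ξ
  arch_scalar : ∀ (w : InfinitePlace K) (z : A0.G K), A0.IsArchPosScalar w z →
    ∃ κ : A0.G K, Adm D.t D.n z κ ∧ D.χT κ = 1 ∧
      ∀ (g m : A0.G K) (ξ : A0.Adl K × A0.Adl K), Adm D.t D.n g m →
        D.F (g * z) (m * κ) ξ = D.F g m ξ
  arch_compact : ∀ (w : InfinitePlace K) (k : A0.G K), A0.IsArchCompact w k →
    ∃ κ : A0.G K, Adm D.t D.n k κ ∧ D.χT κ = 1 ∧
      ∀ (g m : A0.G K) (ξ : A0.Adl K × A0.Adl K), Adm D.t D.n g m →
        D.F (g * k) (m * κ) ξ = D.F g m ξ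

/-- **The data are GOOD.** -/
structure KData.Good (D : KData K) : Prop where
  torus : IsTorusChar D.t D.n D.χT
  char : IsAdeleChar D.ψ
  measured : D.IsMeasured
  weil : D.IsWeil
  regular : D.IsRegular
  right_inv : D.IsRightInv

/-- **The theta kernel** `Θ(g, m) = ∑_{ξ ∈ K²} F g m ξ`. -/
def KData.theta (D : KData K) (g m : A0.G K) : ℂ := ∑' ξ : K × K, D.F g m (ratV ξ)

/-- **Invariance of the theta kernel** under the rational admissible pairs. -/
def KData.ThetaInv (D : KData K) : Prop :=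
  ∀ (γ : GL (Fin 2) K) (y g m : A0.G K), InTorusRat D.t D.n y →
    Matrix.GeneralLinearGroup.det (ratG γ) = Matrix.GeneralLinearGroup.det y →
    Adm D.t D.n g m → D.theta (ratG γ * g) (y * m) = D.theta g m

/-- `φ` is **the theta lift** of `χT`: `φ(g) = ∫_{DT} Θ(g, m m_g) χT(m m_g) dm` for every `m_g`
with `(g, m_g)` admissible; `φ` is left invariant under `GL₂(K)`; `φ = 0` outside
`GL₂(K) GL₂(𝔸_K)⁺`. -/
structure KData.IsLift (D : KData K) (φ : A0.G K → ℂ) : Prop where
  formula : ∀ g mg : A0.G K, Adm D.t D.n g mg →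
    φ g = D.intT D.DT fun m => D.theta g (m * mg) * D.χT (m * mg)
  left_inv : ∀ (γ : GL (Fin 2) K) (g : A0.G K), φ (ratG γ * g) = φ g
  off : ∀ g : A0.G K, (∀ γ : GL (Fin 2) K, ¬ InGPlus D.t D.n (ratG γ * g)) → φ g = 0

/-- `W` is **the Whittaker function** of the lift: the orbital integral
`W(g) = ∫_{T¹(𝔸)} F g (m m_g) (1, 0) χT(m m_g) dm`; `W = 0` outside `GL₂(𝔸_K)⁺`. -/
structure KData.IsWhit (D : KData K) (W : A0.G K → ℂ) : Prop where
  formula : ∀ g mg : A0.G K, Adm D.t D.n g mg →
    W g = D.intT {m | InTorus1 D.t D.n m} fun m => D.F g (m * mg) (1, 0) * D.χT (m * mg)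
  off : ∀ g : A0.G K, ¬ InGPlus D.t D.n g → W g = 0

end Weil

/-! ## The leaves of level 3 -/

section Leaves

/-- **TORUS-CHAR (dictionary).**  For `K`, `L`, `χ` as in `ThetaC`: `L = K(ω)`,
`ω² - t ω + n = 0`, and the transport `χT` of `χ` to the torus `T(𝔸_K) = (L ⊗ 𝔸_K)^× ≅ 𝔸_L^×` in
the coordinates `1, ω` is a torus character, not trivial on `T¹` (Hilbert 90: `χ|_{T¹} = 1` iff
`χ = χ^σ`), whose induced data are those of `χ` (at almost all `v`: `𝒪_v[ω] = 𝒪_{L,v}`, the two
classes of integral elements of norm a uniformiser are the two places over `v`).  The level of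
`π` is enlarged by the finitely many places where the dictionary is not available.
Needs the base change `𝔸_K ⊗_K L ≅ 𝔸_L` (Cassels--Fröhlich II §14, Weil BNT IV §1). -/
def TorusCharC : Prop :=
  ∀ (K L : Type) [Field K] [NumberField K] [Field L] [NumberField L] [Algebra K L],
    Module.finrank K L = 2 → (∀ u : InfinitePlace K, u.IsComplex) →
    ∀ χ : (A0.Adl L)ˣ →* ℂˣ, IsIdeleClassChar χ → IsFiniteOrder χ → NotGaloisInvariant K χ →
      ∃ (t n : K) (χT : A0.G K → ℂ) (𝔡 : Ideal (𝓞 K)), 𝔡 ≠ ⊥ ∧ IsTorusChar t n χT ∧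
        ∀ π : HeckeEigensystem K ℂ, InducedDataT t n χT π → π.level ≤ 𝔡 → InducedData χ π

/-- **WEIL-LOCAL (existence of the Weil family, local and analytic properties).**  For a torus
character `χT` over a totally complex field there are GOOD data with torus character `χT`, whose
eigensystem has the induced data and a level contained in any prescribed nonzero ideal, such that
every theta lift is continuous and bounded and every Whittaker function is continuous, not
identically zero, normally summable over `diag(α, 1)`, `α ∈ K^×`, on the compact sets, has the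
mean-value property of parameter `0` at the complex places and the Hecke eigenvalues of `π` at
`v ∤ π.level`.
`F g m = ⊗_v r_v(g_v, m_v) Φ_v`, `Φ_v = 1_{𝒪_v²}` at almost all `v`, `Φ_u` = the Gaussian
`exp(-2π (|ξ₁|² + |ξ₂|²))` in the split coordinates at the complex places.
Weil 1964 §§ 13--16, 39--41; JL §1, Thm 4.6, Lemma 4.? (unramified vector), §5 (complex places);
Shalika--Tanaka §1--2; Bump §4.8; boundedness: reduction theory of tower T1. -/
def WeilLocalC : Prop :=
  ∀ (K : Type) [Field K] [NumberField K] (t n : K) (χT : A0.G K → ℂ),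
    IsTorusChar t n χT → (∀ u : InfinitePlace K, u.IsComplex) →
    ∀ 𝔡 : Ideal (𝓞 K), 𝔡 ≠ ⊥ →
    ∃ D : KData K, D.t = t ∧ D.n = n ∧ D.χT = χT ∧ D.π.level ≤ 𝔡 ∧ D.Good ∧
      InducedDataT t n χT D.π ∧
      (∀ φ : A0.G K → ℂ, D.IsLift φ → Continuous φ ∧ ∃ C : ℝ, ∀ g : A0.G K, ‖φ g‖ ≤ C) ∧
      ∀ W : A0.G K → ℂ, D.IsWhit W →
        Continuous W ∧ (∃ g : A0.G K, W g ≠ 0) ∧
        (∀ C : Set (A0.G K), IsCompact C → ∃ b : Kˣ → ℝ, Summable b ∧
          ∀ d : Kˣ → A0.G K, IsRatDiag d → ∀ (α : Kˣ) (g : A0.G K), g ∈ C →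
            ‖W (d α * g)‖ ≤ b α) ∧
        (∀ w : InfinitePlace K, w.IsComplex → A0.MeanValueComplex W w) ∧
        ∀ v : HeightOneSpectrum (𝓞 K), ¬ v.asIdeal ∣ D.π.level →
          A0.IsHeckeEigenAt W v (D.π.a v) (D.π.b v)

/-- **POISSON-2 (interface with tower T3).**  Poisson summation on `𝔸_K²` for the pairing
`ψ ∘ B`, `B` the bilinear form of a nondegenerate `K`-rational binary quadratic form, and the
product of the Haar measures of covolume `1`:  `∑_{ξ ∈ K²} Φ(ξ) = ∑_{ξ ∈ K²} Φ̂(ξ)`,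
`Φ̂(ξ) = ∫ Φ(y) ψ(B(ξ, y)) dy`, for `Φ` continuous, integrable, with `∑ Φ(x + ξ)` normally
convergent on compact sets and `∑ |Φ̂(ξ)| < ∞`.  Tate's thesis Thm 4.2.1 (twice) and the change
of variables `ξ ↦ S ξ`, `S ∈ GL₂(K)`, `|det S|_𝔸 = 1`. -/
def Poisson2C : Prop :=
  ∀ (K : Type) [Field K] [NumberField K] (t n : K), t ^ 2 - 4 * n ≠ 0 →
    ∀ (ψ : A0.Adl K → ℂ), IsAdeleChar ψ →
    ∀ (μ : @Measure (A0.Adl K) (borel (A0.Adl K))), IsCovolOne μ →
    ∀ Φ : A0.Adl K × A0.Adl K → ℂ, Continuous Φ → Integrable2 μ Φ →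
      (∀ C : Set (A0.Adl K × A0.Adl K), IsCompact C → ∃ b : K × K → ℝ, Summable b ∧
        ∀ (ξ : K × K) (x : A0.Adl K × A0.Adl K), x ∈ C → ‖Φ (x + ratV ξ)‖ ≤ b ξ) →
      (Summable fun ξ : K × K => ‖integral2 μ fun y => Φ y * ψ (bf t n (ratV ξ) y)‖) →
      ∑' ξ : K × K, Φ (ratV ξ)
        = ∑' ξ : K × K, integral2 μ fun y => Φ y * ψ (bf t n (ratV ξ) y)

/-- **HASSE-NORM (interface with tower CFT).**  Hasse's norm theorem for the quadratic extension
`K[X]/(X² - tX + n)`, in coordinates: an element of `K^×` which is the determinant of an element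
of `T(𝔸_K)` is the determinant of an element of `T(K)`.  Hasse 1931; Cassels--Fröhlich VII §9.6;
Lang ANT IX §3 (quadratic case: Hasse--Minkowski for ternary forms). -/
def HasseNormC : Prop :=
  ∀ (K : Type) [Field K] [NumberField K] (t n : K), (∀ x : K, x ^ 2 - t * x + n ≠ 0) →
    ∀ (a : K) (m : A0.G K), InTorus t n m →
      ((Matrix.GeneralLinearGroup.det m : (A0.Adl K)ˣ) : A0.Adl K) = algebraMap K (A0.Adl K) a →
      ∃ y : A0.G K, InTorusRat t n y ∧
        ((Matrix.GeneralLinearGroup.det y : (A0.Adl K)ˣ) : A0.Adl K) = algebraMap K (A0.Adl K) a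

/-- **THETA-INV.**  The theta kernel of good data is invariant under the rational admissible
pairs: `SL₂(K)` is generated by `n(b)` and `w` (`unip`: `ψ(b Q(ξ)) = 1`; `weyl`: Poisson), and the
pairs `(d(det y), y)`, `y ∈ T(K)`, permute `K²` (`torK`). -/
def ThetaInvC : Prop :=
  Poisson2C → ∀ (K : Type) [Field K] [NumberField K] (D : KData K), D.Good → D.ThetaInv

/-- **LIFT-EX.**  The theta lift exists: the integral does not depend on `m_g` (`Θ(g, ·) χT` is
`T¹(K)`-invariant, `DT` is a fundamental domain, `μT` is invariant), it is invariant under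
`GL₂(K) ∩ GL₂(𝔸_K)⁺ = {det ∈ N(L^×)}` (Hasse), and is extended by `GL₂(K)`-invariance and `0`. -/
def LiftExC : Prop :=
  HasseNormC → ∀ (K : Type) [Field K] [NumberField K] (D : KData K), D.Good → D.ThetaInv →
    ∃ φ : A0.G K → ℂ, D.IsLift φ

/-- **WHIT-EX.**  The orbital integral does not depend on `m_g` (invariance of `μT`). -/
def WhitExC : Prop :=
  ∀ (K : Type) [Field K] [NumberField K] (D : KData K), D.Good →
    ∃ W : A0.G K → ℂ, D.IsWhit W

/-- **EXP (unfolding).**  `W(n(x) g) = ψ(x) W(g)` and `φ(g) = ∑_{α ∈ K^×} W(diag(α, 1) g)`: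
the term `ξ = 0` of the kernel is killed by `∫_{DT} χT = 0` (`χT|_{T¹} ≠ 1`), `Q` is anisotropic,
the `ξ` with `Q(ξ) = α` form one orbit of `T¹(K)` or none, `diag(α, 1) = d(α) t(α)`
(`torK`, `diagK`), and `W(diag(α, 1) g) = 0` if `α` is not a norm (Hasse). -/
def ExpC : Prop :=
  HasseNormC → ∀ (K : Type) [Field K] [NumberField K] (D : KData K), D.Good → D.ThetaInv →
    ∀ φ W : A0.G K → ℂ, D.IsLift φ → D.IsWhit W →
      (∀ nU : A0.Adl K → A0.G K, IsUpperUnip nU →
        ∀ (x : A0.Adl K) (g : A0.G K), W (nU x * g) = D.ψ x * W g) ∧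
      ∀ d : Kˣ → A0.G K, IsRatDiag d → ∀ g : A0.G K, φ g = ∑' α : Kˣ, W (d α * g)

/-- **INV.**  Right invariance of the lift under the level group, the positive real scalars and
the maximal compact subgroups at the infinite places (from `IsRightInv`; `T` is commutative). -/
def InvC : Prop :=
  ∀ (K : Type) [Field K] [NumberField K] (D : KData K), D.Good →
    ∀ φ : A0.G K → ℂ, D.IsLift φ →
      (∀ u : A0.G K, A0.InLevelGroup D.π.level u → ∀ g : A0.G K, φ (g * u) = φ g) ∧
      (∀ (w : InfinitePlace K) (z : A0.G K), A0.IsArchPosScalar w z →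
        ∀ g : A0.G K, φ (g * z) = φ g) ∧
      ∀ (w : InfinitePlace K) (k : A0.G K), A0.IsArchCompact w k →
        ∀ g : A0.G K, φ (g * k) = φ g

/-- **KERNEL-T (the kernel in torus coordinates).** -/
def KernelTC : Prop :=
  ∀ (K : Type) [Field K] [NumberField K] (t n : K) (χT : A0.G K → ℂ),
    IsTorusChar t n χT → (∀ u : InfinitePlace K, u.IsComplex) →
    ∀ 𝔡 : Ideal (𝓞 K), 𝔡 ≠ ⊥ →
    ∃ (π : HeckeEigensystem K ℂ) (ψ : A0.Adl K → ℂ) (φ W : A0.G K → ℂ),
      PreCusp π ψ φ W ∧ InducedDataT t n χT π ∧ π.level ≤ 𝔡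

end Leaves

end Fermat.Agent.LT.A2

end

end
-- ===== PACK-END LT/A2/Kernel.lean

-- ===== PACK-BEGIN LT/H415/AutVal.lean
section



/-!
# Row LT, asset AUT-UNIQUE (helper415): the local maps preserve the valuations

OFF-MAIN.  Mathlib only.

* `valuation_sigma415` : `v' = σ v` ⟹ `v'.valuation (σ x) = v.valuation x` for `x ∈ K`;
* `valued_local415` : a continuous ring homomorphism `ψ : K_v → K_{v'}` which is `σ` on `K`
  preserves `Valued.v`;
* `valued_tau_fin415` : `Valued.v ((τ a).2 v') = Valued.v (a.2 v)`;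
* `finRel_exists415`, `infImage_surjective415` : `σ` permutes the places.
-/

set_option autoImplicit false
set_option linter.unusedSectionVars false

open IsDedekindDomain NumberField Filter Topology WithZero

noncomputable section

namespace Fermat.Agent.LT.H415

variable {K : Type*} [Field K] [NumberField K]

theorem mem_pow_iff415 (e : 𝓞 K ≃+* 𝓞 K) (v v' : HeightOneSpectrum (𝓞 K))
    (hv : v'.asIdeal = Ideal.map e v.asIdeal) (r : 𝓞 K) (n : ℕ) :
    e r ∈ v'.asIdeal ^ n ↔ r ∈ v.asIdeal ^ n := by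
  rw [hv, ← Ideal.map_pow, Ideal.mem_map_of_equiv]
  constructor
  · rintro ⟨x, hx, hxr⟩
    rw [← e.injective hxr]
    exact hx
  · intro h
    exact ⟨r, h, rfl⟩

theorem intValuation_equiv415 (e : 𝓞 K ≃+* 𝓞 K) (v v' : HeightOneSpectrum (𝓞 K))
    (hv : v'.asIdeal = Ideal.map e v.asIdeal) (r : 𝓞 K) :
    v'.intValuation (e r) = v.intValuation r := by
  rcases eq_or_ne r 0 with rfl | hr
  · simp
  have her : e r ≠ 0 := fun h => hr (e.injective (by rw [h, map_zero]))
  have key : ∀ n : ℕ, v'.intValuation (e r) ≤ exp (-(n : ℤ)) ↔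
      v.intValuation r ≤ exp (-(n : ℤ)) := by
    intro n
    rw [HeightOneSpectrum.intValuation_le_pow_iff_mem, HeightOneSpectrum.intValuation_le_pow_iff_mem]
    exact mem_pow_iff415 e v v' hv r n
  have hA := v'.intValuation_eq_exp_neg_multiplicity her
  have hB := v.intValuation_eq_exp_neg_multiplicity hr
  apply le_antisymm
  · have h := (key _).2 hB.le
    rw [← hB] at h
    exact h
  · have h := (key _).1 hA.le
    rw [← hA] at h
    exact h

/-- `v' = σ v` ⟹ `|σ x|_{v'} = |x|_v`. -/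
theorem valuation_sigma415 (σ : K ≃+* K) (v v' : HeightOneSpectrum (𝓞 K))
    (hv : FinRel K σ v v') (x : K) : v'.valuation K (σ x) = v.valuation K x := by
  obtain ⟨r, s, hs, rfl⟩ := IsFractionRing.div_surjective (A := 𝓞 K) x
  have h1 : σ (algebraMap (𝓞 K) K r / algebraMap (𝓞 K) K s)
      = algebraMap (𝓞 K) K (NumberField.RingOfIntegers.mapRingEquiv σ r)
        / algebraMap (𝓞 K) K (NumberField.RingOfIntegers.mapRingEquiv σ s) := by
    rw [map_div₀]
    rfl
  rw [h1, map_div₀, map_div₀, HeightOneSpectrum.valuation_of_algebraMap,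
    HeightOneSpectrum.valuation_of_algebraMap, HeightOneSpectrum.valuation_of_algebraMap,
    HeightOneSpectrum.valuation_of_algebraMap, intValuation_equiv415 _ v v' hv,
    intValuation_equiv415 _ v v' hv]

/-- A continuous ring homomorphism `K_v → K_{v'}` which is `σ` on `K` preserves the valuation. -/
theorem valued_local415 (σ : K ≃+* K) (v v' : HeightOneSpectrum (𝓞 K)) (hv : FinRel K σ v v')
    (ψ : v.adicCompletion K →+* v'.adicCompletion K) (hψ : Continuous ψ)
    (hψσ : ∀ x : K, ψ (x : v.adicCompletion K) = ((σ x : K) : v'.adicCompletion K))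
    (a : v.adicCompletion K) : Valued.v (ψ a) = Valued.v a := by
  rcases eq_or_ne a 0 with rfl | ha
  · simp
  have hψa : ψ a ≠ 0 := (map_ne_zero ψ).2 ha
  have hU : {b : v.adicCompletion K | Valued.v b = Valued.v a} ∈ 𝓝 a :=
    Valued.locally_const ((Valuation.ne_zero_iff _).2 ha)
  have hV : {c : v'.adicCompletion K | Valued.v c = Valued.v (ψ a)} ∈ 𝓝 (ψ a) :=
    Valued.locally_const ((Valuation.ne_zero_iff _).2 hψa)
  have hV' : ψ ⁻¹' {c : v'.adicCompletion K | Valued.v c = Valued.v (ψ a)} ∈ 𝓝 a :=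
    hψ.continuousAt hV
  have hd : DenseRange (algebraMap K (v.adicCompletion K)) :=
    HeightOneSpectrum.denseRange_algebraMap K v
  obtain ⟨b, ⟨x, rfl⟩, hb1, hb2⟩ := hd.inter_nhds_nonempty (Filter.inter_mem hU hV')
  have h1 : Valued.v (algebraMap K (v.adicCompletion K) x) = Valued.v a := hb1
  have h2 : Valued.v (ψ (algebraMap K (v.adicCompletion K) x)) = Valued.v (ψ a) := hb2
  have h3 : ψ (algebraMap K (v.adicCompletion K) x) = ((σ x : K) : v'.adicCompletion K) :=
    hψσ x
  have h4 : Valued.v (algebraMap K (v.adicCompletion K) x) = v.valuation K x :=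
    HeightOneSpectrum.valuedAdicCompletion_eq_valuation' v x
  have h5 : Valued.v (((σ x : K) : v'.adicCompletion K)) = v'.valuation K (σ x) :=
    HeightOneSpectrum.valuedAdicCompletion_eq_valuation' v' (σ x)
  rw [← h2, h3, h5, valuation_sigma415 σ v v' hv, ← h4, h1]

section Tau

variable (σ : K ≃+* K) (τ : AdeleRing (𝓞 K) K →+* AdeleRing (𝓞 K) K) (hτ : Continuous τ)
  (hτσ : ∀ x : K, τ (algebraMap K (AdeleRing (𝓞 K) K) x) = algebraMap K (AdeleRing (𝓞 K) K) (σ x))
  (hinj : Function.Injective τ)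

include hτ hτσ hinj

/-- **`τ` preserves the valuations of the components at corresponding finite places.** -/
theorem valued_tau_fin415 (v v' : HeightOneSpectrum (𝓞 K)) (hv : FinRel K σ v v')
    (a : AdeleRing (𝓞 K) K) : Valued.v ((τ a).2 v') = Valued.v (a.2 v) := by
  rw [fin_transport415 σ τ hτ hτσ hinj v v' hv a]
  exact valued_local415 σ v v' hv _ (continuous_finLocal415 σ τ hτ hτσ hinj v v' hv)
    (finLocal415_coe σ τ hτ hτσ hinj v v' hv) _

/-- Components at `σ v` of `τ a` only depend on the component of `a` at `v`. -/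
theorem tau_fin_congr415 (v v' : HeightOneSpectrum (𝓞 K)) (hv : FinRel K σ v v')
    (a b : AdeleRing (𝓞 K) K) (h : a.2 v = b.2 v) : (τ a).2 v' = (τ b).2 v' := by
  rw [fin_transport415 σ τ hτ hτσ hinj v v' hv a, fin_transport415 σ τ hτ hτσ hinj v v' hv b, h]

/-- Components at `σ w` of `τ a` only depend on the component of `a` at `w`. -/
theorem tau_inf_congr415 (w : InfinitePlace K) (a b : AdeleRing (𝓞 K) K) (h : a.1 w = b.1 w) :
    (τ a).1 (infImage K σ w) = (τ b).1 (infImage K σ w) := by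
  rw [inf_transport415 σ τ hτ hτσ hinj w a, inf_transport415 σ τ hτ hτσ hinj w b, h]

end Tau

/-! ## `σ` permutes the places -/

/-- Every finite place has an image under `σ`. -/
theorem finRel_exists_image415 (σ : K ≃+* K) (v : HeightOneSpectrum (𝓞 K)) :
    ∃ v' : HeightOneSpectrum (𝓞 K), FinRel K σ v v' := by
  refine ⟨HeightOneSpectrum.equivOfRingEquiv (NumberField.RingOfIntegers.mapRingEquiv σ) v, ?_⟩
  unfold FinRel
  ext y
  rw [Ideal.mem_map_of_equiv]
  change (NumberField.RingOfIntegers.mapRingEquiv σ).symm y ∈ v.asIdeal ↔ _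
  constructor
  · intro hy
    exact ⟨_, hy, by simp⟩
  · rintro ⟨x, hx, rfl⟩
    simpa using hx

theorem finRel_symm415 (σ : K ≃+* K) (v v' : HeightOneSpectrum (𝓞 K)) (h : FinRel K σ v v') :
    FinRel K σ.symm v' v := by
  unfold FinRel at h ⊢
  ext y
  rw [Ideal.mem_map_of_equiv]
  constructor
  · intro hy
    refine ⟨NumberField.RingOfIntegers.mapRingEquiv σ y, ?_, ?_⟩
    · rw [h, Ideal.mem_map_of_equiv]
      exact ⟨y, hy, rfl⟩
    · ext
      simp [NumberField.RingOfIntegers.mapRingEquiv_apply]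
  · rintro ⟨x, hx, rfl⟩
    rw [h, Ideal.mem_map_of_equiv] at hx
    obtain ⟨z, hz, rfl⟩ := hx
    have : (NumberField.RingOfIntegers.mapRingEquiv σ.symm)
        ((NumberField.RingOfIntegers.mapRingEquiv σ) z) = z := by
      ext
      simp [NumberField.RingOfIntegers.mapRingEquiv_apply]
    rw [this]
    exact hz

/-- Every finite place is the image of a finite place under `σ`. -/
theorem finRel_exists_preimage415 (σ : K ≃+* K) (v' : HeightOneSpectrum (𝓞 K)) :
    ∃ v : HeightOneSpectrum (𝓞 K), FinRel K σ v v' := by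
  obtain ⟨v, hv⟩ := finRel_exists_image415 σ.symm v'
  refine ⟨v, ?_⟩
  have := finRel_symm415 σ.symm v' v hv
  simpa using this

/-- The image is unique. -/
theorem finRel_unique415 (σ : K ≃+* K) (v v₁ v₂ : HeightOneSpectrum (𝓞 K))
    (h₁ : FinRel K σ v v₁) (h₂ : FinRel K σ v v₂) : v₁ = v₂ :=
  HeightOneSpectrum.ext (h₁.trans h₂.symm)

/-- The preimage is unique. -/
theorem finRel_inj415 (σ : K ≃+* K) (v₁ v₂ v' : HeightOneSpectrum (𝓞 K))
    (h₁ : FinRel K σ v₁ v') (h₂ : FinRel K σ v₂ v') : v₁ = v₂ :=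
  finRel_unique415 σ.symm v' v₁ v₂ (finRel_symm415 σ v₁ v' h₁) (finRel_symm415 σ v₂ v' h₂)

theorem infImage_symm415 (σ : K ≃+* K) (w : InfinitePlace K) :
    infImage K σ (infImage K σ.symm w) = w := by
  refine InfinitePlace.ext _ _ fun x => ?_
  have h1 := infImage_apply σ (infImage K σ.symm w) (σ.symm x)
  have h2 := infImage_apply σ.symm w x
  rw [RingEquiv.apply_symm_apply] at h1
  rw [h1, h2]

/-- Every infinite place is the image of an infinite place under `σ`. -/
theorem infImage_surjective415 (σ : K ≃+* K) : Function.Surjective (infImage K σ) :=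
  fun w => ⟨infImage K σ.symm w, infImage_symm415 σ w⟩

end Fermat.Agent.LT.H415

end
end
-- ===== PACK-END LT/H415/AutVal.lean

-- ===== PACK-BEGIN LT/T5/H392/OnlyBorel.lean
section


/-!
# Row LT, tower T5, sub-leaf T5.02e `OnlyBorelC` (helper392, registry row 1190) — OFF-MAIN

`onlyBorel392 : HeightDistC K → T1.SiegelSepC K → T1.HeightC K → T1.IwasawaC K → T1.AdNormC K →
  T5.H40.OnlyBorelC K`, VERBATIM against `T5/H40/HS0Spec.lean` (sha256 `de8bb55ac72c…`) and
`T5/H40/HS0Core.lean` (sha256 `1e21981c997b…`) of helper40@08c177f1b, on `T5/Spec.lean`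
`d6f8b00ae5f1…`, `T1/Spec.lean` `e8ae48d6010e…`, `T3/Spec.lean` `44de320b8621…`,
`H556/A0.lean` `66d3374a79ca…` (byte-identical copies).

Proof.  Let `C = tsupport φ` (compact) and `D` the constant of `HeightDistC` for `C`; put
`T₁ = D / c + 1`.  If `φ(x⁻¹ γ y rᵐ) ≠ 0` then `ω = x⁻¹ γ y rᵐ ∈ C` and `x ω = rᵐ (γ y)` (the ray
generator is a scalar matrix: an adele is determined by its components).  `γ y` has a height `t'`
(`IwasawaC`), which is also a height of `rᵐ (γ y)` (`HeightC`, central invariance), so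
`H(x) ≤ D t'` (`HeightDistC`), and `H(y) t' ≤ 1` (`SiegelSepC`, `γ ∉ B(K)`).  Hence
`H(x) ≤ D t' ≤ D / c < T₁`.  The hypothesis `T1.AdNormC K` is not used.
-/

set_option autoImplicit false

open IsDedekindDomain NumberField MeasureTheory
open scoped MatrixGroups

noncomputable section

namespace Fermat.Agent.LT.T5.H392

open Fermat.Agent.LT.H556.A0 Fermat.Agent.LT.T5

variable {K : Type} [Field K] [NumberField K]

/-- Two adeles with the same components at all places are equal. -/
theorem adl_ext392 {x y : Adl K} (h1 : ∀ w : InfinitePlace K, infHom w x = infHom w y)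
    (h2 : ∀ v : HeightOneSpectrum (𝓞 K), finHom v x = finHom v y) : x = y := by
  refine Prod.ext ?_ ?_
  · funext w
    exact (InfinitePlace.Completion.extensionEmbedding w).injective (h1 w)
  · exact RestrictedProduct.ext _ _ (fun v => h2 v)

/-- The ray generator is a scalar matrix. -/
theorem ray_scalar392 {r : G K} (hr : IsRayGen r) :
    (r : Matrix (Fin 2) (Fin 2) (Adl K))
      = Matrix.diagonal (fun _ => (r : Matrix (Fin 2) (Fin 2) (Adl K)) 0 0) := by
  obtain ⟨hfin, t, -, -, hinf⟩ := hr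
  have hi : ∀ (w : InfinitePlace K) (i j : Fin 2),
      infHom w ((r : Matrix (Fin 2) (Fin 2) (Adl K)) i j)
        = (Matrix.diagonal (fun _ => (t : ℂ)) : Matrix (Fin 2) (Fin 2) ℂ) i j :=
    fun w i j => congrFun (congrFun (hinf w) i) j
  have hf : ∀ (v : HeightOneSpectrum (𝓞 K)) (i j : Fin 2),
      finHom v ((r : Matrix (Fin 2) (Fin 2) (Adl K)) i j)
        = (1 : Matrix (Fin 2) (Fin 2) (v.adicCompletion K)) i j :=
    fun v i j => congrFun (congrFun (hfin v) i) j
  ext i j
  fin_cases i <;> fin_cases j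
  · simp
  · show (r : Matrix (Fin 2) (Fin 2) (Adl K)) 0 1 = _
    rw [Matrix.diagonal_apply_ne _ (by decide)]
    apply adl_ext392
    · intro w; rw [hi w 0 1]; simp
    · intro v; rw [hf v 0 1]; simp
  · show (r : Matrix (Fin 2) (Fin 2) (Adl K)) 1 0 = _
    rw [Matrix.diagonal_apply_ne _ (by decide)]
    apply adl_ext392
    · intro w; rw [hi w 1 0]; simp
    · intro v; rw [hf v 1 0]; simp
  · show (r : Matrix (Fin 2) (Fin 2) (Adl K)) 1 1 = _
    rw [Matrix.diagonal_apply_eq]
    apply adl_ext392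
    · intro w; rw [hi w 1 1, hi w 0 0]; simp
    · intro v; rw [hf v 1 1, hf v 0 0]; simp

/-- The scalar matrices, as a homomorphism from the ideles. -/
def scal392 (K : Type) [Field K] [NumberField K] : (Adl K)ˣ →* G K :=
  Units.map ((Matrix.scalar (Fin 2)).toMonoidHom : Adl K →* Matrix (Fin 2) (Fin 2) (Adl K))

theorem scal392_coe (u : (Adl K)ˣ) :
    ((scal392 K u : G K) : Matrix (Fin 2) (Fin 2) (Adl K))
      = Matrix.diagonal (fun _ => (u : Adl K)) := rfl

theorem isCentral_scal392 (u : (Adl K)ˣ) : T1.IsCentral K (scal392 K u) :=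
  ⟨(u : Adl K), scal392_coe u⟩

/-- The ray generator is the scalar matrix of an idele. -/
theorem ray_eq_scal392 {r : G K} (hr : IsRayGen r) : ∃ u : (Adl K)ˣ, r = scal392 K u := by
  have hs := ray_scalar392 hr
  set c : Adl K := (r : Matrix (Fin 2) (Fin 2) (Adl K)) 0 0 with hc
  have hdet : c * c = ((Matrix.GeneralLinearGroup.det r : (Adl K)ˣ) : Adl K) := by
    have h : ((Matrix.GeneralLinearGroup.det r : (Adl K)ˣ) : Adl K)
        = Matrix.det (r : Matrix (Fin 2) (Fin 2) (Adl K)) := rfl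
    rw [h, hs, Matrix.det_diagonal, Fin.prod_univ_two]
  have hu : IsUnit c := by
    have : IsUnit (c * c) := by rw [hdet]; exact Units.isUnit _
    exact isUnit_of_mul_isUnit_left this
  obtain ⟨u, hu'⟩ := hu
  refine ⟨u, Units.ext ?_⟩
  rw [scal392_coe, hu']
  exact hs

/-- Every power of the ray generator is central. -/
theorem isCentral_zpow392 {r : G K} (hr : IsRayGen r) (m : ℤ) : T1.IsCentral K (r ^ m) := by
  obtain ⟨u, rfl⟩ := ray_eq_scal392 hr
  rw [← map_zpow]
  exact isCentral_scal392 _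

/-- Central elements commute with everything. -/
theorem central_comm392 {z : G K} (hz : T1.IsCentral K z) (g : G K) : z * g = g * z := by
  obtain ⟨c, hc⟩ := hz
  apply Units.ext
  show (z : Matrix (Fin 2) (Fin 2) (Adl K)) * (g : Matrix (Fin 2) (Fin 2) (Adl K))
      = (g : Matrix (Fin 2) (Fin 2) (Adl K)) * (z : Matrix (Fin 2) (Fin 2) (Adl K))
  rw [hc]
  ext i j
  fin_cases i <;> fin_cases j <;> simp [Matrix.mul_apply, Fin.sum_univ_two, mul_comm]

/-- **T5.02e `OnlyBorelC`** from the height distortion under a compact set and the separation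
property of Siegel sets. -/
theorem onlyBorel392 (K : Type) [Field K] [NumberField K]
    (hD : H40.HeightDistC K) (hS : T1.SiegelSepC K) (hH : T1.HeightC K) (hI : T1.IwasawaC K)
    (_hN : T1.AdNormC K) : H40.OnlyBorelC K := by
  intro r hr φ _hφc hφs c hc
  obtain ⟨D, hD0, hDist⟩ := hD (tsupport φ) hφs
  refine ⟨D / c + 1, ?_⟩
  intro x y tx ty hx hy hT hcy γ hγ
  have key : ∀ m : ℤ, φ (x⁻¹ * ratG γ * y * r ^ m) = 0 := by
    intro m
    by_contra hne
    have hω : x⁻¹ * ratG γ * y * r ^ m ∈ tsupport φ := subset_tsupport φ hne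
    obtain ⟨b, k, hb, hk, hbk⟩ := hI (T1.ratG K γ * y)
    have h1 : T1.HasHeight K (T1.ratG K γ * y)
        (T1.adNorm K ((b : Matrix (Fin 2) (Fin 2) (Adl K)) 0 0) /
          T1.adNorm K ((b : Matrix (Fin 2) (Fin 2) (Adl K)) 1 1)) :=
      ⟨b, k, hb, hk, hbk, rfl⟩
    generalize T1.adNorm K ((b : Matrix (Fin 2) (Fin 2) (Adl K)) 0 0) /
      T1.adNorm K ((b : Matrix (Fin 2) (Fin 2) (Adl K)) 1 1) = t' at h1
    have h2 : T1.HasHeight K (r ^ m * (T1.ratG K γ * y)) t' :=
      hH.2.2.1 _ (isCentral_zpow392 hr m) _ _ h1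
    have h3 : x * (x⁻¹ * ratG γ * y * r ^ m) = r ^ m * (T1.ratG K γ * y) := by
      rw [central_comm392 (isCentral_zpow392 hr m) (T1.ratG K γ * y)]
      show x * (x⁻¹ * T1.ratG K γ * y * r ^ m) = T1.ratG K γ * y * r ^ m
      simp only [mul_assoc, mul_inv_cancel_left]
    have h4 : tx ≤ D * t' := hDist x _ tx t' hω hx (h3 ▸ h2)
    have h5 : ty * t' ≤ 1 := hS γ hγ y ty t' hy h1
    have hDc : 0 < D / c := div_pos hD0 hc
    have htx : 0 < tx := by linarith
    have ht'pos : 0 < t' := by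
      by_contra h
      have h' : t' ≤ 0 := not_lt.mp h
      have : D * t' ≤ 0 := mul_nonpos_of_nonneg_of_nonpos hD0.le h'
      linarith
    have h6 : c * t' ≤ 1 := le_trans (mul_le_mul_of_nonneg_right hcy ht'pos.le) h5
    have h7 : t' ≤ 1 / c := by
      rw [le_div_iff₀ hc]
      linarith [mul_comm c t']
    have h8 : D * t' ≤ D / c := by
      calc D * t' ≤ D * (1 / c) := mul_le_mul_of_nonneg_left h7 hD0.le
        _ = D / c := by ring
    linarith
  show (∑' m : ℤ, φ (x⁻¹ * ratG γ * y * r ^ m)) = 0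
  simp only [key, tsum_zero]

end Fermat.Agent.LT.T5.H392

end

end
-- ===== PACK-END LT/T5/H392/OnlyBorel.lean

-- ===== PACK-BEGIN LT/T5/H599/DiagClosed.lean
section





/-!
# Row LT, tower T5, leaf T5.06 `LeafDiag` (helper599): UNCONDITIONAL form

OFF-MAIN.  `leafDiag599 : T5.LeafDiag s 𝔫 τ` (Spec v3 = FREEZE, sha256 d6f8b00a), from `leafDiag_of599` (`Diag.lean`) and the closed
leaves of tower T1 (byte-identical copies from origin/helper54@84501b8a7):
`T1.H309.leafAdNorm309` (helper309) and `T1.H132.discreteC_132` (helper132, over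
`LT/H132/GLDiscrete.lean` and `LT/H767/AdeleDiscrete.lean`).
-/

set_option autoImplicit false

open IsDedekindDomain NumberField

noncomputable section

namespace Fermat.Agent.LT.T5.H599

open Fermat.Agent.LT.H556.A0 Fermat.Agent.LT.T5

variable {K : Type} [Field K] [NumberField K]

/-- **T5.06 `LeafDiag`**, unconditional. -/
theorem leafDiag599 (s : AdelicAut K) (𝔫 : Ideal (𝓞 K)) (τ : G K → ℂ) : LeafDiag s 𝔫 τ :=
  leafDiag_of599 s 𝔫 τ (Fermat.Agent.LT.T1.H309.leafAdNorm309 K)
    (Fermat.Agent.LT.T1.H132.discreteC_132 K)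

end Fermat.Agent.LT.T5.H599

end

end
-- ===== PACK-END LT/T5/H599/DiagClosed.lean

-- ===== PACK-BEGIN LT/T5/H74/RangeCont.lean
section


/-!
# Row LT, tower T5, leaf T5.04 `LeafRange` (helper74): CONTINUITY of `x ↦ ∫_F K_φ(x,z) f(z) dz`

OFF-MAIN.  Dominated convergence: for `x` in a compact neighbourhood `U` the kernel is bounded
uniformly in `z` (`norm_ker0_le74`), `f ∈ L²(F) ⊆ L¹(F)` because `μ(F) < ∞`, and the kernel is
continuous (`continuous_ker0_74`).
-/

set_option autoImplicit false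

open IsDedekindDomain NumberField MeasureTheory
open scoped MatrixGroups ComplexConjugate Pointwise

noncomputable section

namespace Fermat.Agent.LT.T5.H74

open Fermat.Agent.LT.H556.A0 Fermat.Agent.LT.T5

attribute [local instance] Fermat.Agent.LT.T5.instMeasurableSpaceG

variable {K : Type} [Field K] [NumberField K]

/-- The σ-algebra of T5 is the Borel σ-algebra. -/
theorem borelSpaceG74 : BorelSpace (G K) := ⟨rfl⟩

/-- The restriction of `μ` to a set of finite measure is a finite measure. -/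
theorem isFiniteMeasure_restrict74 (μ : Measure (G K)) (F : Set (G K)) (hF : μ F < ⊤) :
    IsFiniteMeasure (μ.restrict F) :=
  ⟨by rw [Measure.restrict_apply_univ]; exact hF⟩

theorem continuous_ker0_left74 [LocallyCompactSpace (G K)] (r : G K)
    (hr : ∀ g : G K, r * g = g * r) (hfin : LocFin74 r) (φ : G K → ℂ) (hc : Continuous φ)
    (hφ : HasCompactSupport φ) (z : G K) : Continuous fun x : G K => ker0 r φ x z := by
  have h := continuous_ker0_74 r hr hfin φ hc hφ
  have h2 : Continuous fun x : G K => ((x, z) : G K × G K) :=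
    Continuous.prodMk continuous_id continuous_const
  show Continuous ((fun q : G K × G K => ker0 r φ q.1 q.2) ∘ fun x : G K => ((x, z) : G K × G K))
  exact Continuous.comp h h2

theorem continuous_ker0_right74 [LocallyCompactSpace (G K)] (r : G K)
    (hr : ∀ g : G K, r * g = g * r) (hfin : LocFin74 r) (φ : G K → ℂ) (hc : Continuous φ)
    (hφ : HasCompactSupport φ) (x : G K) : Continuous fun z : G K => ker0 r φ x z := by
  have h := continuous_ker0_74 r hr hfin φ hc hφ
  have h2 : Continuous fun z : G K => ((x, z) : G K × G K) :=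
    Continuous.prodMk continuous_const continuous_id
  show Continuous ((fun q : G K × G K => ker0 r φ q.1 q.2) ∘ fun z : G K => ((x, z) : G K × G K))
  exact Continuous.comp h h2

/-- The integrand `z ↦ K_φ(x, z) f(z)` is measurable. -/
theorem aestronglyMeasurable_integrand74 [LocallyCompactSpace (G K)] (μ : Measure (G K))
    (F : Set (G K)) (r : G K) (hr : ∀ g : G K, r * g = g * r) (hfin : LocFin74 r)
    (φ : G K → ℂ) (hc : Continuous φ) (hφ : HasCompactSupport φ) (f : G K → ℂ)
    (hf : AEStronglyMeasurable f (μ.restrict F)) (x : G K) :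
    AEStronglyMeasurable (fun z => ker0 r φ x z * f z) (μ.restrict F) := by
  have : BorelSpace (G K) := borelSpaceG74
  exact (continuous_ker0_right74 r hr hfin φ hc hφ x).aestronglyMeasurable.mul hf

/-- **Continuity** of `x ↦ ∫_F K_φ(x, z) f(z) dz`, `f ∈ L²(F)`, `μ(F) < ∞`. -/
theorem continuous_range74 [LocallyCompactSpace (G K)] [FirstCountableTopology (G K)]
    (μ : Measure (G K)) (F : Set (G K)) (hF : μ F < ⊤) (r : G K)
    (hr : ∀ g : G K, r * g = g * r) (hfin : LocFin74 r) (φ : G K → ℂ) (hc : Continuous φ)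
    (hφ : HasCompactSupport φ) (f : G K → ℂ) (hf : MemLp f 2 (μ.restrict F)) :
    Continuous fun x => ∫ z in F, ker0 r φ x z * f z ∂μ := by
  have : IsFiniteMeasure (μ.restrict F) := isFiniteMeasure_restrict74 μ F hF
  have hf1 : Integrable f (μ.restrict F) := hf.integrable one_le_two
  rw [continuous_iff_continuousAt]
  intro x₀
  obtain ⟨U, hU, hxU⟩ := exists_compact_mem_nhds x₀
  obtain ⟨M, _, hM⟩ := norm_ker0_le74 r hr hfin φ hc hφ U hU
  refine continuousAt_of_dominated (bound := fun z => M * ‖f z‖) ?_ ?_ ?_ ?_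
  · exact Filter.Eventually.of_forall
      (fun x => aestronglyMeasurable_integrand74 μ F r hr hfin φ hc hφ f hf.1 x)
  · filter_upwards [hxU] with x hx
    refine Filter.Eventually.of_forall (fun z => ?_)
    rw [norm_mul]
    exact mul_le_mul_of_nonneg_right (hM x hx z) (norm_nonneg _)
  · exact hf1.norm.const_mul M
  · refine Filter.Eventually.of_forall (fun z => ?_)
    exact ((continuous_ker0_left74 r hr hfin φ hc hφ z).mul continuous_const).continuousAt

end Fermat.Agent.LT.T5.H74

end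

end
-- ===== PACK-END LT/T5/H74/RangeCont.lean

-- ===== PACK-BEGIN LT/T7/H62/RigidSpec.lean
section



/-!
# Row LT, tower T7, NODE T7.14 `RigidC` -- SUB-SPEC (sub-architect helper62)

OFF-MAIN.  Definitions, frozen Props, PROVED top.  No `sorry`, nothing assumed.
Vocabulary: `LT/T7/Spec.lean` v1.2 (helper797@d4e07e123, sha256 76a196044a64, byte-identical copy;
`RigidC` is byte-unchanged since v1.1) on `LT/H556/A0.lean` (sha256 66d3374a79ca).

## Level 1 (this file)

```
T7.RigidC K  ⇐  PlaceSumC K + RSLowerC K + RSCrossC K          (`rigidC_of`, PROVED here)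
```

* `PlaceSumC K`  : `∑_v N v ^ (-s) < ∞` for `s > 1` (Mathlib only; at most `[K:ℚ]` places over a
  rational prime, `N v ≥ p`).
* `RSLowerC K`   : for a cusp form as in A0 with trivial central character, tempered outside the
  finite set `S`: `∑_{v ∉ S} |a_v|² N v ^ (-s) ≥ log (1/(s-1)) - C` for `1 < s < 2`.
  (`L^S(s, π × π̃)` has a pole at `s = 1`; only the LOWER bound is used.)
* `RSCrossC K`   : for two such forms which are not equal almost everywhere:
  `∑_{v ∉ S} Re (a_v conj a'_v) N v ^ (-s) - log (1/(s-1)) → -∞` as `s → 1⁺`.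
  (`(s - 1) L^S(s, π × π̃') → 0`; holomorphy at `s = 1` is NOT needed.)

All sums are sums over ALL finite places with the summand set to `0` on `S`
(`Set.indicator`), so that no decidability and no subtype enters.

## Level 2

`RigidPkg.lean` (same directory): `RSLowerC`, `RSCrossC` from the elementary Rankin--Selberg
package (strip identity, Parseval on `N(K) \ N(𝔸)`, Hecke recursion, depletion, orthogonality,
Abelian step).
-/

set_option autoImplicit false

open AutomorphicForm IsDedekindDomain NumberField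
open scoped ComplexConjugate

noncomputable section

namespace Fermat.Agent.LT.T7.Rigid

open Fermat.Agent.LT.H556 Fermat.Agent.LT.T7

variable (K : Type) [Field K] [NumberField K]

/-- The absolute norm of a finite place, as a real number. -/
def nv {K : Type} [Field K] [NumberField K] (v : HeightOneSpectrum (𝓞 K)) : ℝ :=
  (Ideal.absNorm v.asIdeal : ℝ)

/-- `∑_{v ∉ S} f v · N v ^ (-s)`, as a sum over all places (summand `0` on `S`). -/
def wSum {K : Type} [Field K] [NumberField K] (S : Set (HeightOneSpectrum (𝓞 K)))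
    (f : HeightOneSpectrum (𝓞 K) → ℝ) (s : ℝ) : ℝ :=
  ∑' v : HeightOneSpectrum (𝓞 K), Sᶜ.indicator (fun v => f v * nv v ^ (-s)) v

/-- **R0 (Mathlib only).**  `∑_v N v ^ (-s)` converges for `s > 1`. -/
def PlaceSumC : Prop :=
  ∀ s : ℝ, 1 < s → Summable fun v : HeightOneSpectrum (𝓞 K) => nv v ^ (-s)

/-- **NODE RS-LOWER.**  Lower bound for the mass of a cusp form: for `π` as in A0 over the
totally complex field `K`, with trivial central character and `|a_v| ≤ 2` outside the finite set
`S`, `∑_{v ∉ S} |a_v|² N v ^ (-s) ≥ log (1 / (s - 1)) - C` for `1 < s < 2`. -/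
def RSLowerC : Prop :=
  TotCplx K →
  ∀ π : HeckeEigensystem K ℂ, A0.IsCuspAdelicSph0 K π → TrivCentral π →
    ∀ S : Finset (HeightOneSpectrum (𝓞 K)),
      (∀ v : HeightOneSpectrum (𝓞 K), v ∉ S → ‖π.a v‖ ≤ 2) →
      ∃ C : ℝ, ∀ s : ℝ, 1 < s → s < 2 →
        Real.log (1 / (s - 1)) - C ≤
          wSum (S : Set (HeightOneSpectrum (𝓞 K))) (fun v => ‖π.a v‖ ^ 2) s

/-- **NODE RS-CROSS.**  For two cusp forms as in A0 over the totally complex field `K`, with
trivial central characters, tempered outside the finite set `S`, which are NOT equal almost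
everywhere: `∑_{v ∉ S} Re (a_v conj a'_v) N v ^ (-s) ≤ log (1 / (s - 1)) - M` for `s` close to
`1` (every `M`). -/
def RSCrossC : Prop :=
  TotCplx K →
  ∀ π π' : HeckeEigensystem K ℂ, A0.IsCuspAdelicSph0 K π → A0.IsCuspAdelicSph0 K π' →
    TrivCentral π → TrivCentral π' → ¬ AEq π π' →
    ∀ S : Finset (HeightOneSpectrum (𝓞 K)),
      (∀ v : HeightOneSpectrum (𝓞 K), v ∉ S → ‖π.a v‖ ≤ 2 ∧ ‖π'.a v‖ ≤ 2) →
      ∀ M : ℝ, ∃ δ : ℝ, 0 < δ ∧ ∀ s : ℝ, 1 < s → s < 1 + δ →
        wSum (S : Set (HeightOneSpectrum (𝓞 K)))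
            (fun v => (π.a v * conj (π'.a v)).re) s
          ≤ Real.log (1 / (s - 1)) - M

variable {K}

theorem one_le_nv (v : HeightOneSpectrum (𝓞 K)) : 1 ≤ nv v := by
  unfold nv
  have h : Ideal.absNorm v.asIdeal ≠ 0 := by
    rw [Ne, Ideal.absNorm_eq_zero_iff]
    exact v.ne_bot
  exact_mod_cast Nat.one_le_iff_ne_zero.mpr h

theorem nv_rpow_nonneg (v : HeightOneSpectrum (𝓞 K)) (s : ℝ) : 0 ≤ nv v ^ (-s) :=
  Real.rpow_nonneg (le_trans zero_le_one (one_le_nv v)) _

theorem nv_rpow_le_inv (v : HeightOneSpectrum (𝓞 K)) {s : ℝ} (hs : 1 ≤ s) :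
    nv v ^ (-s) ≤ (nv v)⁻¹ := by
  have h1 : nv v ^ (-s) ≤ nv v ^ (-(1 : ℝ)) :=
    Real.rpow_le_rpow_of_exponent_le (one_le_nv v) (by linarith)
  rwa [Real.rpow_neg_one] at h1

/-- Summability of a weighted sum with bounded weights. -/
theorem summable_indicator_of_bound (hP : PlaceSumC K) (S : Set (HeightOneSpectrum (𝓞 K)))
    (f : HeightOneSpectrum (𝓞 K) → ℝ) (B : ℝ) (hB : ∀ v, v ∉ S → |f v| ≤ B) {s : ℝ}
    (hs : 1 < s) :
    Summable fun v : HeightOneSpectrum (𝓞 K) => Sᶜ.indicator (fun v => f v * nv v ^ (-s)) v := by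
  have hsum : Summable fun v : HeightOneSpectrum (𝓞 K) => |B| * nv v ^ (-s) :=
    (hP s hs).mul_left _
  refine Summable.of_norm_bounded hsum ?_
  intro v
  by_cases hv : v ∈ S
  · have : v ∉ Sᶜ := fun h => h hv
    rw [Set.indicator_of_notMem this, norm_zero]
    exact mul_nonneg (abs_nonneg _) (nv_rpow_nonneg v s)
  · have : v ∈ Sᶜ := hv
    rw [Set.indicator_of_mem this, Real.norm_eq_abs, abs_mul, abs_of_nonneg (nv_rpow_nonneg v s)]
    exact mul_le_mul_of_nonneg_right ((hB v hv).trans (le_abs_self B)) (nv_rpow_nonneg v s)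

/-- **TOP of the node (level 1)**: `T7.RigidC K` from the three Props of this file. -/
theorem rigidC_of (hP : PlaceSumC K) (hL : RSLowerC K) (hX : RSCrossC K) : RigidC K := by
  intro hcplx π π' hπ hπ' ht ht' hS hA
  obtain ⟨S, hS⟩ := hS
  obtain ⟨A, hAthin, hAeq⟩ := hA
  by_contra hne
  obtain ⟨C, hC⟩ := hL hcplx π hπ ht S (fun v hv => (hS v hv).1)
  have hAsum : Summable (A.indicator fun v : HeightOneSpectrum (𝓞 K) => (nv v)⁻¹) :=
    summable_subtype_iff_indicator.mp hAthin
  set T : ℝ := ∑' v : HeightOneSpectrum (𝓞 K), A.indicator (fun v => (nv v)⁻¹) v with hT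
  obtain ⟨δ, hδ, hX'⟩ := hX hcplx π π' hπ hπ' ht ht' hne S hS (C + 8 * T + 1)
  -- a point `s` close to `1`
  set s : ℝ := 1 + min δ 1 / 2 with hs
  have hmin : 0 < min δ 1 := lt_min hδ one_pos
  have hs1 : 1 < s := by rw [hs]; linarith
  have hs2 : s < 2 := by
    have : min δ 1 ≤ 1 := min_le_right _ _
    rw [hs]; linarith
  have hsδ : s < 1 + δ := by
    have : min δ 1 ≤ δ := min_le_left _ _
    rw [hs]; linarith
  have h1 := hC s hs1 hs2
  have h2 := hX' s hs1 hsδ
  -- the three families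
  have hsum1 := summable_indicator_of_bound hP (S : Set (HeightOneSpectrum (𝓞 K)))
    (fun v => ‖π.a v‖ ^ 2) 4 (fun v hv => by
      have h := (hS v (by simpa using hv)).1
      rw [abs_of_nonneg (sq_nonneg _)]
      nlinarith [norm_nonneg (π.a v)]) hs1
  have hsum3 := summable_indicator_of_bound hP (S : Set (HeightOneSpectrum (𝓞 K)))
    (fun v => (π.a v * conj (π'.a v)).re) 4 (fun v hv => by
      have h := hS v (by simpa using hv)
      have h3 : |(π.a v * conj (π'.a v)).re| ≤ ‖π.a v * conj (π'.a v)‖ :=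
        Complex.abs_re_le_norm _
      have h4 : ‖π.a v * conj (π'.a v)‖ = ‖π.a v‖ * ‖π'.a v‖ := by
        rw [norm_mul, RCLike.norm_conj]
      rw [h4] at h3
      nlinarith [norm_nonneg (π.a v), norm_nonneg (π'.a v), h.1, h.2]) hs1
  -- termwise comparison
  have hterm : ∀ v : HeightOneSpectrum (𝓞 K),
      (S : Set (HeightOneSpectrum (𝓞 K)))ᶜ.indicator (fun v => ‖π.a v‖ ^ 2 * nv v ^ (-s)) v
        - 8 * A.indicator (fun v => (nv v)⁻¹) v
      ≤ (S : Set (HeightOneSpectrum (𝓞 K)))ᶜ.indicator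
          (fun v => (π.a v * conj (π'.a v)).re * nv v ^ (-s)) v := by
    intro v
    have hA0 : 0 ≤ A.indicator (fun v : HeightOneSpectrum (𝓞 K) => (nv v)⁻¹) v :=
      Set.indicator_nonneg (fun v _ => inv_nonneg.mpr (le_trans zero_le_one (one_le_nv v))) v
    by_cases hv : v ∈ (S : Set (HeightOneSpectrum (𝓞 K)))
    · have hv' : v ∉ (S : Set (HeightOneSpectrum (𝓞 K)))ᶜ := fun h => h hv
      rw [Set.indicator_of_notMem hv', Set.indicator_of_notMem hv']
      linarith
    · have hv' : v ∈ (S : Set (HeightOneSpectrum (𝓞 K)))ᶜ := hv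
      rw [Set.indicator_of_mem hv', Set.indicator_of_mem hv']
      have hb := hS v (by simpa using hv)
      have hn0 := nv_rpow_nonneg v s
      by_cases hvA : v ∈ A
      · rw [Set.indicator_of_mem hvA]
        have hle := nv_rpow_le_inv v hs1.le
        have h3 : |(π.a v * conj (π'.a v)).re| ≤ ‖π.a v * conj (π'.a v)‖ :=
          Complex.abs_re_le_norm _
        have h4 : ‖π.a v * conj (π'.a v)‖ = ‖π.a v‖ * ‖π'.a v‖ := by
          rw [norm_mul, RCLike.norm_conj]
        rw [h4] at h3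
        have h5 : -4 ≤ (π.a v * conj (π'.a v)).re := by
          have := neg_abs_le ((π.a v * conj (π'.a v)).re)
          nlinarith [norm_nonneg (π.a v), norm_nonneg (π'.a v), hb.1, hb.2]
        have h6 : ‖π.a v‖ ^ 2 ≤ 4 := by nlinarith [norm_nonneg (π.a v), hb.1]
        nlinarith
      · rw [Set.indicator_of_notMem hvA]
        have heq : π.a v = π'.a v := hAeq v hvA
        have h7 : (π.a v * conj (π'.a v)).re = ‖π.a v‖ ^ 2 := by
          rw [← heq, Complex.mul_conj, Complex.ofReal_re, Complex.normSq_eq_norm_sq]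
        rw [h7]
        linarith
  have hsumL : Summable fun v : HeightOneSpectrum (𝓞 K) =>
      (S : Set (HeightOneSpectrum (𝓞 K)))ᶜ.indicator (fun v => ‖π.a v‖ ^ 2 * nv v ^ (-s)) v
        - 8 * A.indicator (fun v => (nv v)⁻¹) v :=
    hsum1.sub (hAsum.mul_left 8)
  have hkey := hsumL.tsum_le_tsum hterm hsum3
  rw [hsum1.tsum_sub (hAsum.mul_left 8), tsum_mul_left] at hkey
  have hw1 : wSum (S : Set (HeightOneSpectrum (𝓞 K))) (fun v => ‖π.a v‖ ^ 2) s
      = ∑' v : HeightOneSpectrum (𝓞 K),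
          (S : Set (HeightOneSpectrum (𝓞 K)))ᶜ.indicator
            (fun v => ‖π.a v‖ ^ 2 * nv v ^ (-s)) v := rfl
  have hw3 : wSum (S : Set (HeightOneSpectrum (𝓞 K)))
        (fun v => (π.a v * conj (π'.a v)).re) s
      = ∑' v : HeightOneSpectrum (𝓞 K),
          (S : Set (HeightOneSpectrum (𝓞 K)))ᶜ.indicator
            (fun v => (π.a v * conj (π'.a v)).re * nv v ^ (-s)) v := rfl
  rw [hw1] at h1
  rw [hw3] at h2
  linarith

/-- `T7.RigidAll` from the three Props for every number field. -/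
theorem rigidAll_of
    (hP : ∀ (K : Type) [Field K] [NumberField K], PlaceSumC K)
    (hL : ∀ (K : Type) [Field K] [NumberField K], RSLowerC K)
    (hX : ∀ (K : Type) [Field K] [NumberField K], RSCrossC K) : RigidAll :=
  fun K _ _ => rigidC_of (hP K) (hL K) (hX K)

end Fermat.Agent.LT.T7.Rigid

end

end
-- ===== PACK-END LT/T7/H62/RigidSpec.lean

-- ===== PACK-BEGIN LT/T7/Comparison.lean
section




/-!
# Row LT, tower T7 (architect helper797): the comparison layer -- first split of the nodes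

OFF-MAIN.  Definitions, frozen Props, PROVED tops.  No `sorry`, nothing assumed.
Imports `T7/Spec.lean` (v1.2) only; the vocabulary is A0 + Prelude.

## What is proved here

    descAll_of   : TraceWordsAll  → SepAll → T7.DescAll
    descQ3All_of : TraceWordsQAll → SepAll → T7.DescQ3All

## The interface between the trace identities (T4, T5, T6) and the descent (T7)

The comparison of the trace identities is consumed by T7 in ONE form, the TRACE IDENTITY FOR
WORDS.  Upstairs (over `K'`) and downstairs (over `K`) there are orthonormal families of joint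
eigen-cusp-functions (`T2.IsCuspBasis`), with joint eigen-data `C_j` (upstairs) and `c_i`
(downstairs), and diagonal coefficients

    y_j = ⟨R(φ) R(σ) e'_j, e'_j⟩,      x_i = const · ⟨R(f) e_i, e_i⟩

of ONE matched pair `(φ, f)` of test functions.  For every WORD `X` in the commuting operators at
the places outside `S'` (Hecke operators `T_w`, `S_w`, `S_w⁻¹` at the finite places, sphere means
of radius `d` at the infinite places) the pair `(φ ⋆ X, f ⋆ b(X))` is again matched, `X` acts on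
`e'_j` by the scalar `X(C_j)` and `b(X)` acts on `e_i` by the scalar `X(Ĉ_i)`, `Ĉ_i` = the base
change of the parameters of `e_i`.  Hence

    ∑_i X(Ĉ_i) x_i  =  ∑_j X(C_j) y_j          for all words `X`.                    (★)

`TraceWordsC` asserts the existence of such data with (★), with a NON-ZERO total coefficient on
the class of the given `Π`, and with the realisation of every `c_i` whose base change is spherical
of parameter `0` at infinity by a cusp form as in A0.  `SepC` (Stone--Weierstrass on the compact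
space of unitary parameters; asset `LT/H907/HeckeSeparation.lean` of helper907) turns (★) into the
identity class by class.  The two together give the descent: `descAll_of`.

`TraceWordsC` is a NODE; its split (C0 bases, C1 operators on test functions, C2 geometric
comparison, C3 assembly of (★), C5 non-vanishing) is described in `coord/LT-T7-helper797.md` §C
and is the next file of this tower.
-/

set_option autoImplicit false

open AutomorphicForm IsDedekindDomain NumberField
open scoped ComplexConjugate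

noncomputable section

namespace Fermat.Agent.LT.T7

open Fermat.Agent.LT.H556

/-! ## 1. Joint eigen-data, words -/

/-- The eigenvalue function of the sphere means of parameter `0` at a complex place:
`d ↦ 4π d / sinh d` (the constant of `A0.MeanValueComplex`; equal to `T2.sph0C`). -/
def sph0 : ℝ → ℂ := fun d => ((4 * Real.pi * (d / Real.sinh d) : ℝ) : ℂ)

/-- Joint eigen-data over `K`: eigenvalues of `T_v` (unitary normalisation) and `S_v` at the
finite places, eigenvalue functions of the sphere means at the infinite places. -/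
structure EigData (K : Type) [Field K] [NumberField K] where
  /-- eigenvalue of `T_v / √q_v` -/
  a : HeightOneSpectrum (𝓞 K) → ℂ
  /-- eigenvalue of `S_v` -/
  b : HeightOneSpectrum (𝓞 K) → ℂ
  /-- eigenvalue of the sphere mean of radius `d` at `w` -/
  m : InfinitePlace K → ℝ → ℂ

/-- The eigen-data of an eigensystem which is spherical of parameter `0` at infinity. -/
def eigOf {K : Type} [Field K] [NumberField K] (π : HeckeEigensystem K ℂ) : EigData K :=
  ⟨π.a, π.b, fun _ => sph0⟩

/-- The generators of the commutative algebra of operators: `T_w`, `S_w`, `S_w⁻¹` at a finite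
place, the sphere mean of radius `d` at an infinite place. -/
inductive Gen (K : Type) [Field K] [NumberField K] : Type
  | T (w : HeightOneSpectrum (𝓞 K)) : Gen K
  | S (w : HeightOneSpectrum (𝓞 K)) : Gen K
  | Sinv (w : HeightOneSpectrum (𝓞 K)) : Gen K
  | M (w : InfinitePlace K) (d : ℝ) : Gen K

section Words

variable {K : Type} [Field K] [NumberField K]

/-- The eigenvalue of a generator on joint eigen-data. -/
def Gen.ev : Gen K → EigData K → ℂ
  | Gen.T w, D => D.a w
  | Gen.S w, D => D.b w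
  | Gen.Sinv w, D => (D.b w)⁻¹
  | Gen.M w d, D => D.m w d

/-- The generator lives outside the finite set `S` of finite places (and has positive radius). -/
def Gen.Out (S : Finset (HeightOneSpectrum (𝓞 K))) : Gen K → Prop
  | Gen.T w => w ∉ S
  | Gen.S w => w ∉ S
  | Gen.Sinv w => w ∉ S
  | Gen.M _ d => 0 < d

/-- The eigenvalue of a word (a product of generators). -/
def wordEv (X : List (Gen K)) (D : EigData K) : ℂ := (X.map fun g => g.ev D).prod

/-- Two eigen-data agree outside `S` (and at all positive radii). -/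
def EigData.AgreeOut (S : Finset (HeightOneSpectrum (𝓞 K))) (D D' : EigData K) : Prop :=
  (∀ w : HeightOneSpectrum (𝓞 K), w ∉ S → D.a w = D'.a w ∧ D.b w = D'.b w) ∧
    ∀ (w : InfinitePlace K) (d : ℝ), 0 < d → D.m w d = D'.m w d

/-- The eigen-data are UNITARY outside `S`: `|b_w| = 1`, `conj a_w = a_w conj b_w`
(`T_w* = S_w⁻¹ T_w`), `√q_w |a_w| ≤ q_w + 1`, the sphere means are self-adjoint of norm `≤ 4π`. -/
def EigData.IsUnitaryOut (S : Finset (HeightOneSpectrum (𝓞 K))) (D : EigData K) : Prop :=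
  (∀ w : HeightOneSpectrum (𝓞 K), w ∉ S →
      ‖D.b w‖ = 1 ∧ conj (D.a w) = D.a w * conj (D.b w) ∧
      ‖D.a w‖ * Real.sqrt (Ideal.absNorm w.asIdeal : ℝ) ≤ (Ideal.absNorm w.asIdeal : ℝ) + 1) ∧
    ∀ (w : InfinitePlace K) (d : ℝ), 0 < d → (D.m w d).im = 0 ∧ ‖D.m w d‖ ≤ 4 * Real.pi

/-- `D` is spherical of parameter `0` at every infinite place. -/
def EigData.IsSph0 (D : EigData K) : Prop :=
  ∀ (w : InfinitePlace K) (d : ℝ), 0 < d → D.m w d = sph0 d

end Words

/-! ## 2. The separation leaf -/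

/-- **LEAF T7.C4 = SEP (separation of joint eigen-data).**  Two absolutely summable families of
atoms on the compact space of unitary parameters outside `S` which have the same integral
against every word have the same mass at every point.
Proof: the words span a subalgebra of the continuous functions on the compact space
`X₀ = {unitary parameters}` (a closed subset of a product of discs and intervals) which contains
the constants, separates the points and is closed under conjugation (`conj a_w = a_w b_w⁻¹`,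
`conj b_w = b_w⁻¹`, `m` real); Stone--Weierstrass; an atomic measure with summable weights is
determined by its integrals against continuous functions.  Asset: helper907,
`LT/H907/HeckeSeparation.lean` (`hecke_atoms_eq_zero`, `sum_atoms_eq_zero_of_generators`).
Mathlib only. -/
def SepC (K : Type) [Field K] [NumberField K] : Prop :=
  ∀ (S : Finset (HeightOneSpectrum (𝓞 K))) (ι ι' : Type) (A : ι → EigData K)
    (B : ι' → EigData K) (x : ι → ℂ) (y : ι' → ℂ),
    Summable (fun i => ‖x i‖) → Summable (fun j => ‖y j‖) →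
    (∀ i, (A i).IsUnitaryOut S) → (∀ j, (B j).IsUnitaryOut S) →
    (∀ X : List (Gen K), (∀ g ∈ X, g.Out S) →
      ∑' i, wordEv X (A i) * x i = ∑' j, wordEv X (B j) * y j) →
    ∀ D₀ : EigData K,
      ∑' i : {i : ι // (A i).AgreeOut S D₀}, x i = ∑' j : {j : ι' // (B j).AgreeOut S D₀}, y j

/-- `SepC` for all number fields. -/
def SepAll : Prop := ∀ (K : Type) [Field K] [NumberField K], SepC K

/-! ## 3. The trace identity for words: cyclic extension, totally complex base -/

section Cyclic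

variable (K K' : Type) [Field K] [NumberField K] [Field K'] [NumberField K'] [Algebra K K']

/-- The finite part of `Ĉ` (over `K'`) is the base change of the eigensystem `c` (over `K`)
outside `S'`. -/
def IsBCEig (c : HeckeEigensystem K ℂ) (C : EigData K')
    (S' : Finset (HeightOneSpectrum (𝓞 K'))) : Prop :=
  ∀ w : HeightOneSpectrum (𝓞 K'), w ∉ S' →
    ∀ (v : HeightOneSpectrum (𝓞 K)) (f : ℕ), HasResDeg K K' v w f →
      C.a w = satakePow f (c.a v) (c.b v) ∧ C.b w = c.b v ^ f

/-- **NODE T7.C3 = TRACE IDENTITY FOR WORDS** (`K'/K` cyclic of odd prime degree, `K` totally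
complex, `Π` a `Gal(K'/K)`-stable cusp form over `K'`).  There are a finite set `S'` of places of
`K'`, families of eigensystems `c i` over `K` with base changes `Ĉ i`, of joint eigen-data `C j`
over `K'`, and absolutely summable coefficients `x i`, `y j` such that
* (★) holds for every word outside `S'`;
* the total coefficient of the class of `Π` upstairs is NOT zero;
* every `c i` whose base change is spherical of parameter `0` at infinity is the eigensystem of a
  cusp form as in A0.
Source: `T5.STFsigma` for `(K', σ)` and for `(K, id)` (= T4) applied to a matched pair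
`(φ₁♮ ⋆ φ₂♮, f₁♮ ⋆ f₂♮)` (rulings R1-R3 of `coord/LT-T7-helper797.md`), `T5.GeomUnfold`,
`T5.RegularOfIwahori`, the local matching of T6 (`FundLemmaC`, `SplitMatchC`, `SplitInt3C`,
`BadMatchC`, `NormClassC`, `NormInjC`, `TwCentC`, `NormImageTCC`), the bases of `T2.CuspSpec`, the
EK functions of T3 (`EKExistC`, with `Frob_{v₀}` of eigenvalues `≠ 1`: tower CFT) and multiplicity
one (non-vanishing of the twisted trace on the class of `Π`).  [L] §§4-6, 8, 10, 11; [F] §§1-2;
[LV] §§3-4. -/
def TraceWordsC : Prop :=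
  ∀ ℓ : ℕ, IsCycExt K K' ℓ → ℓ ≠ 2 → TotCplx K →
    ∀ Φ : HeckeEigensystem K' ℂ, A0.IsCuspAdelicSph0 K' Φ → ConstOnFibres K Φ →
      ∃ (S' : Finset (HeightOneSpectrum (𝓞 K'))) (ι ι' : Type)
        (c : ι → HeckeEigensystem K ℂ) (Ch : ι → EigData K') (C : ι' → EigData K')
        (x : ι → ℂ) (y : ι' → ℂ),
        Summable (fun i => ‖x i‖) ∧ Summable (fun j => ‖y j‖) ∧
        (∀ i, (Ch i).IsUnitaryOut S') ∧ (∀ j, (C j).IsUnitaryOut S') ∧
        (∀ i, IsBCEig K K' (c i) (Ch i) S') ∧
        (∀ X : List (Gen K'), (∀ g ∈ X, g.Out S') →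
          ∑' i, wordEv X (Ch i) * x i = ∑' j, wordEv X (C j) * y j) ∧
        (∑' j : {j : ι' // (C j).AgreeOut S' (eigOf Φ)}, y j) ≠ 0 ∧
        ∀ i, (Ch i).IsSph0 → A0.IsCuspAdelicSph0 K (c i)

end Cyclic

/-- `TraceWordsC` for all cyclic extensions. -/
def TraceWordsAll : Prop :=
  ∀ (K K' : Type) [Field K] [NumberField K] [Field K'] [NumberField K'] [Algebra K K'],
    TraceWordsC K K'

/-! ## 4. The trace identity for words: `ℚ(√-3) / ℚ` -/

/-- The finite part of `Ĉ` (over `F`) is the base change of the eigensystem `c` over `ℚ` outside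
the primes of `S` (vocabulary of `T7.IsBCQ`). -/
def IsBCEigQ (F : Type) [Field F] [NumberField F] (c : HeckeEigensystem ℚ ℂ) (C : EigData F)
    (S : Finset ℕ) : Prop :=
  ∀ p : ℕ, p.Prime → p ∉ S →
    ∀ v : HeightOneSpectrum (𝓞 ℚ), ((p : ℕ) : 𝓞 ℚ) ∈ v.asIdeal →
    ∀ (w : HeightOneSpectrum (𝓞 F)) (f : ℕ), ((p : ℕ) : 𝓞 F) ∈ w.asIdeal →
      Ideal.absNorm w.asIdeal = p ^ f →
      C.a w = satakePow f (c.a v) (c.b v) ∧ C.b w = c.b v ^ f

/-- **NODE T7.C3Q = TRACE IDENTITY FOR WORDS, `F = ℚ(√-3)` over `ℚ`.**  As `TraceWordsC`; the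
infinite place of `ℚ` does not split in `F`, the forms downstairs have a `K_∞`-type (ruling R6),
and `Ĉ i` carries the sphere-mean eigenvalues of the base change `BC_{ℂ/ℝ}` of the archimedean
parameter of the `i`-th form.  Realisation: if that base change is spherical of parameter `0`,
the archimedean component downstairs is `π(1,1)`, `π(sgn,sgn)` or `π(1,sgn)`, and `c i` is
cuspidal in the sense of `A0.notion556` (Maass form of eigenvalue `1/4`, or classical holomorphic
form of weight one; dictionary: rows `T7.Q.*`).  Archimedean matching: T6 `P7`. -/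
def TraceWordsQC (F : Type) [Field F] [NumberField F] : Prop :=
  HasSqrtNegThree F → IsImagQuad F →
    ∀ Φ : HeckeEigensystem F ℂ, A0.IsCuspAdelicSph0 F Φ → ConstOnFibresQ Φ →
      ∃ (S : Finset ℕ) (S' : Finset (HeightOneSpectrum (𝓞 F))) (ι ι' : Type)
        (c : ι → HeckeEigensystem ℚ ℂ) (Ch : ι → EigData F) (C : ι' → EigData F)
        (x : ι → ℂ) (y : ι' → ℂ),
        (∀ p : ℕ, p.Prime → ∀ w : HeightOneSpectrum (𝓞 F), ((p : ℕ) : 𝓞 F) ∈ w.asIdeal →
          w ∈ S' → p ∈ S) ∧
        Summable (fun i => ‖x i‖) ∧ Summable (fun j => ‖y j‖) ∧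
        (∀ i, (Ch i).IsUnitaryOut S') ∧ (∀ j, (C j).IsUnitaryOut S') ∧
        (∀ i, IsBCEigQ F (c i) (Ch i) S) ∧
        (∀ X : List (Gen F), (∀ g ∈ X, g.Out S') →
          ∑' i, wordEv X (Ch i) * x i = ∑' j, wordEv X (C j) * y j) ∧
        (∑' j : {j : ι' // (C j).AgreeOut S' (eigOf Φ)}, y j) ≠ 0 ∧
        ∀ i, (Ch i).IsSph0 → A0.notion556.IsCusp ℚ (c i)

/-- `TraceWordsQC` for all number fields (i.e. for `ℚ(√-3)`). -/
def TraceWordsQAll : Prop := ∀ (F : Type) [Field F] [NumberField F], TraceWordsQC F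

/-! ## 5. The tops (PROVED) -/

section Tops

variable {K : Type} [Field K] [NumberField K]

/-- A sum over an empty index set vanishes: a non-zero sum has an index. -/
theorem exists_index_of_tsum_ne_zero {ι : Type} {P : ι → Prop} {x : ι → ℂ}
    (h : (∑' i : {i : ι // P i}, x i) ≠ 0) : ∃ i, P i := by
  by_contra hne
  apply h
  have : IsEmpty {i : ι // P i} := ⟨fun i => hne ⟨i.1, i.2⟩⟩
  exact tsum_empty

theorem isSph0_of_agreeOut {S : Finset (HeightOneSpectrum (𝓞 K))} {D : EigData K}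
    {π : HeckeEigensystem K ℂ} (h : D.AgreeOut S (eigOf π)) : D.IsSph0 :=
  fun w d hd => h.2 w d hd

end Tops

/-- **The cyclic descent from the trace identity for words and the separation.** -/
theorem descC_of (K K' : Type) [Field K] [NumberField K] [Field K'] [NumberField K']
    [Algebra K K'] (hT : TraceWordsC K K') (hS : SepC K') : DescC K K' := by
  intro ℓ hcyc hℓ hcplx Φ hΦ hconst
  obtain ⟨S', ι, ι', c, Ch, C, x, y, hx, hy, hUA, hUB, hbc, hword, hne, hreal⟩ :=
    hT ℓ hcyc hℓ hcplx Φ hΦ hconst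
  have hsep := hS S' ι ι' Ch C x y hx hy hUA hUB hword (eigOf Φ)
  rw [← hsep] at hne
  obtain ⟨i, hi⟩ := exists_index_of_tsum_ne_zero hne
  refine ⟨c i, hreal i (isSph0_of_agreeOut hi), S', ?_⟩
  intro w hw v f hvw
  obtain ⟨ha, hb⟩ := hbc i w hw v f hvw
  obtain ⟨ha', hb'⟩ := hi.1 w hw
  exact ⟨by rw [← ha, ha']; rfl, by rw [← hb, hb']; rfl⟩

/-- **`DescAll` from the two Props of the comparison layer.** -/
theorem descAll_of (hT : TraceWordsAll) (hS : SepAll) : DescAll :=
  fun K K' _ _ _ _ _ => descC_of K K' (hT K K') (hS K')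

/-- **The quadratic descent to `ℚ` from the trace identity for words and the separation.** -/
theorem descQ3C_of (F : Type) [Field F] [NumberField F] (hT : TraceWordsQC F) (hS : SepC F) :
    DescQ3C F := by
  intro h3 hquad Φ hΦ hconst
  obtain ⟨S, S', ι, ι', c, Ch, C, x, y, hSS', hx, hy, hUA, hUB, hbc, hword, hne, hreal⟩ :=
    hT h3 hquad Φ hΦ hconst
  have hsep := hS S' ι ι' Ch C x y hx hy hUA hUB hword (eigOf Φ)
  rw [← hsep] at hne
  obtain ⟨i, hi⟩ := exists_index_of_tsum_ne_zero hne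
  refine ⟨c i, hreal i (isSph0_of_agreeOut hi), S, ?_⟩
  intro p hp hpS v hv w f hw hf
  have hwS' : w ∉ S' := fun hmem => hpS (hSS' p hp w hw hmem)
  obtain ⟨ha, hb⟩ := hbc i p hp hpS v hv w f hw hf
  obtain ⟨ha', hb'⟩ := hi.1 w hwS'
  exact ⟨by rw [← ha, ha']; rfl, by rw [← hb, hb']; rfl⟩

/-- **`DescQ3All` from the two Props of the comparison layer.** -/
theorem descQ3All_of (hT : TraceWordsQAll) (hS : SepAll) : DescQ3All :=
  fun F _ _ => descQ3C_of F (hT F) (hS F)

/-! ## Appendix (v0.1, additive): the equation lemmas of `Gen.ev`, `Gen.Out` are realised HERE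

`Gen.ev` and `Gen.Out` are defined by pattern matching.  Their equation lemmas (`eq_1`, …,
`eq_def`) are generated on demand, in the module which first uses `simp [Gen.ev]`,
`unfold Gen.ev`, `rw [Gen.ev]`; copies generated in two different modules DIFFER (they mention
private auxiliary names) and the kernel checker of the grader rejects a closure which contains
both (helper8, helper112).  Citing them here generates them once, upstream of every user.
No statement of this file is changed. -/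

section Realise

variable {K : Type} [Field K] [NumberField K]

theorem Gen.ev_T797 (w : HeightOneSpectrum (𝓞 K)) (D : EigData K) : (Gen.T w).ev D = D.a w :=
  rfl

theorem Gen.ev_S797 (w : HeightOneSpectrum (𝓞 K)) (D : EigData K) : (Gen.S w).ev D = D.b w :=
  rfl

theorem Gen.ev_Sinv797 (w : HeightOneSpectrum (𝓞 K)) (D : EigData K) :
    (Gen.Sinv w).ev D = (D.b w)⁻¹ :=
  rfl

theorem Gen.ev_M797 (w : InfinitePlace K) (d : ℝ) (D : EigData K) : (Gen.M w d).ev D = D.m w d :=
  rfl

theorem Gen.out_T797 (S : Finset (HeightOneSpectrum (𝓞 K))) (w : HeightOneSpectrum (𝓞 K)) :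
    (Gen.T w).Out S = (w ∉ S) :=
  rfl

theorem Gen.out_S797 (S : Finset (HeightOneSpectrum (𝓞 K))) (w : HeightOneSpectrum (𝓞 K)) :
    (Gen.S w).Out S = (w ∉ S) :=
  rfl

theorem Gen.out_Sinv797 (S : Finset (HeightOneSpectrum (𝓞 K))) (w : HeightOneSpectrum (𝓞 K)) :
    (Gen.Sinv w).Out S = (w ∉ S) :=
  rfl

theorem Gen.out_M797 (S : Finset (HeightOneSpectrum (𝓞 K))) (w : InfinitePlace K) (d : ℝ) :
    (Gen.M w d).Out S = (0 < d) :=
  rfl

theorem Gen.eqns_realised797 : True := by
  have _e1 := @Gen.ev.eq_1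
  have _e2 := @Gen.ev.eq_2
  have _e3 := @Gen.ev.eq_3
  have _e4 := @Gen.ev.eq_4
  have _o1 := @Gen.Out.eq_1
  have _o2 := @Gen.Out.eq_2
  have _o3 := @Gen.Out.eq_3
  have _o4 := @Gen.Out.eq_4
  have _h1 := @Gen.ev.eq_def
  have _h2 := @Gen.Out.eq_def
  have _h3 := @Gen.ev.eq_unfold
  have _h4 := @Gen.Out.eq_unfold
  have _h5 := @wordEv.eq_1
  have _h6 := @wordEv.eq_def
  have _h7 := @wordEv.eq_unfold
  trivial

end Realise

end Fermat.Agent.LT.T7

end

end
-- ===== PACK-END LT/T7/Comparison.lean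

-- ===== PACK-BEGIN LT/H51/MS4C.lean
section



set_option autoImplicit false

open IsDedekindDomain NumberField
open scoped MatrixGroups Classical WithZero

noncomputable section

namespace Fermat.Agent.LT.H51.MS4

open Fermat.Agent.LT.H556.A0 Fermat.Agent.LT.T8.H864

variable {K : Type} [Field K] [NumberField K]

/-! ## Integrality at almost all places -/

/-- `m` and `m⁻¹` have integral entries. -/
def IntegralBoth (v : HeightOneSpectrum (𝓞 K)) (m : GL (Fin 2) (v.adicCompletion K)) : Prop :=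
  ∀ i j : Fin 2,
    Valued.v ((m : Matrix (Fin 2) (Fin 2) (v.adicCompletion K)) i j) ≤ 1 ∧
    Valued.v (((m⁻¹ : GL (Fin 2) (v.adicCompletion K)) :
      Matrix (Fin 2) (Fin 2) (v.adicCompletion K)) i j) ≤ 1

theorem integralBoth_one (v : HeightOneSpectrum (𝓞 K)) :
    IntegralBoth v (1 : GL (Fin 2) (v.adicCompletion K)) := by
  intro i j
  have h : Valued.v ((1 : Matrix (Fin 2) (Fin 2) (v.adicCompletion K)) i j) ≤ 1 :=
    (HeightOneSpectrum.mem_adicCompletionIntegers (R := 𝓞 K) (K := K) (v := v)).1 (one_apply_mem_integers v i j)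
  refine ⟨?_, ?_⟩
  · rw [Units.val_one]; exact h
  · rw [inv_one, Units.val_one]; exact h

/-- The components of an element of `GL₂(𝔸_K)` are integral, with integral inverse, at almost all
finite places. -/
theorem finite_not_integralBoth (g : G K) :
    {v : HeightOneSpectrum (𝓞 K) | ¬ IntegralBoth v (finCompHom v g)}.Finite := by
  have h1 : ∀ i j : Fin 2, ∀ᶠ v : HeightOneSpectrum (𝓞 K) in Filter.cofinite,
      ((g : Matrix (Fin 2) (Fin 2) (Adl K)) i j).2 v ∈ v.adicCompletionIntegers K :=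
    fun i j => ((g : Matrix (Fin 2) (Fin 2) (Adl K)) i j).2.2
  have h2 : ∀ i j : Fin 2, ∀ᶠ v : HeightOneSpectrum (𝓞 K) in Filter.cofinite,
      (((g⁻¹ : G K) : Matrix (Fin 2) (Fin 2) (Adl K)) i j).2 v ∈ v.adicCompletionIntegers K :=
    fun i j => (((g⁻¹ : G K) : Matrix (Fin 2) (Fin 2) (Adl K)) i j).2.2
  have h3 : ∀ᶠ v : HeightOneSpectrum (𝓞 K) in Filter.cofinite,
      ∀ i j : Fin 2,
        ((g : Matrix (Fin 2) (Fin 2) (Adl K)) i j).2 v ∈ v.adicCompletionIntegers K ∧
        (((g⁻¹ : G K) : Matrix (Fin 2) (Fin 2) (Adl K)) i j).2 v ∈ v.adicCompletionIntegers K := by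
    rw [Filter.eventually_all]
    intro i
    rw [Filter.eventually_all]
    intro j
    exact (h1 i j).and (h2 i j)
  rw [Filter.eventually_cofinite] at h3
  refine h3.subset fun v hv => ?_
  intro hall
  apply hv
  intro i j
  have := hall i j
  refine ⟨(HeightOneSpectrum.mem_adicCompletionIntegers (R := 𝓞 K) (K := K) (v := v)).1 this.1, ?_⟩
  rw [← map_inv]
  exact (HeightOneSpectrum.mem_adicCompletionIntegers (R := 𝓞 K) (K := K) (v := v)).1 this.2

/-- Conjugation by an integral matrix with integral inverse preserves nearness. -/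
theorem near_conj_of_integralBoth {v : HeightOneSpectrum (𝓞 K)}
    {m : GL (Fin 2) (v.adicCompletion K)} (hm : IntegralBoth v m) {c : ℤᵐ⁰}
    {Y : GL (Fin 2) (v.adicCompletion K)} (hY : Near v c Y) : Near v c (m⁻¹ * Y * m) := by
  intro i j
  constructor
  · rw [conj_sub_one]
    refine (valued_mul_mul_le _ _ _ (fun i j => (hm i j).2) (fun i j => (hY i j).1)
      (fun i j => (hm i j).1) i j).trans ?_
    rw [one_mul, mul_one]
  · have e : (m⁻¹ * Y * m)⁻¹ = m⁻¹ * Y⁻¹ * m := by group
    rw [e, conj_sub_one]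
    refine (valued_mul_mul_le _ _ _ (fun i j => (hm i j).2) (fun i j => (hY i j).2)
      (fun i j => (hm i j).1) i j).trans ?_
    rw [one_mul, mul_one]

/-! ## Valuations of natural numbers -/

theorem valuation_natCast_le_one (v : HeightOneSpectrum (𝓞 K)) (n : ℕ) :
    v.valuation K (n : K) ≤ 1 := by
  have : (n : K) = algebraMap (𝓞 K) K (n : 𝓞 K) := by simp
  rw [this]
  exact v.valuation_le_one _

theorem valuation_intCast_le_one (v : HeightOneSpectrum (𝓞 K)) (n : ℤ) :
    v.valuation K (n : K) ≤ 1 := by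
  have : (n : K) = algebraMap (𝓞 K) K (n : 𝓞 K) := by simp
  rw [this]
  exact v.valuation_le_one _

theorem valuation_natCast_lt_one_iff (v : HeightOneSpectrum (𝓞 K)) (n : ℕ) :
    v.valuation K (n : K) < 1 ↔ (n : 𝓞 K) ∈ v.asIdeal := by
  have : (n : K) = algebraMap (𝓞 K) K (n : 𝓞 K) := by simp
  rw [this]
  exact v.valuation_lt_one_iff_mem _

theorem valuation_natCast_ne_zero (v : HeightOneSpectrum (𝓞 K)) {n : ℕ} (hn : n ≠ 0) :
    v.valuation K (n : K) ≠ 0 := by
  rw [Ne, map_eq_zero]
  exact_mod_cast hn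

/-- A nonzero natural number in `v`. -/
theorem exists_nat_mem (v : HeightOneSpectrum (𝓞 K)) :
    ∃ u : ℕ, u ≠ 0 ∧ v.valuation K (u : K) < 1 := by
  refine ⟨Ideal.absNorm v.asIdeal, ?_, ?_⟩
  · rw [Ne, Ideal.absNorm_eq_zero_iff]
    exact v.ne_bot
  · rw [valuation_natCast_lt_one_iff]
    exact Ideal.absNorm_mem v.asIdeal

/-- Powers of an element of valuation `< 1` become arbitrarily small. -/
theorem exists_pow_le {x c : ℤᵐ⁰} (hx : x < 1) (hc : c ≠ 0) : ∃ e : ℕ, x ^ e ≤ c := by
  rcases eq_or_ne x 0 with h0 | h0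
  · exact ⟨1, by rw [h0, pow_one]; exact zero_le⟩
  obtain ⟨k, hk⟩ := WithZero.exists_exp_neg_natCast_lt hc
  refine ⟨k, le_trans ?_ hk.le⟩
  -- `x ≤ exp (-1)`
  have hx1 : x ≤ WithZero.exp (-1 : ℤ) := by
    rw [← WithZero.exp_log h0] at hx ⊢
    rw [← WithZero.exp_zero, WithZero.exp_lt_exp] at hx
    rw [WithZero.exp_le_exp]
    omega
  calc x ^ k ≤ (WithZero.exp (-1 : ℤ)) ^ k := pow_le_pow_left₀ zero_le hx1 k
    _ = WithZero.exp (-(k : ℤ)) := by
        rw [← WithZero.exp_nsmul]
        simp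

/-! ## The level of a base point -/

theorem natCast_absNorm_mem (𝔫 : Ideal (𝓞 K)) : ((Ideal.absNorm 𝔫 : ℕ) : 𝓞 K) ∈ 𝔫 :=
  Ideal.absNorm_mem 𝔫

theorem locLevel_of_near_nat {𝔫 : Ideal (𝓞 K)} (v : HeightOneSpectrum (𝓞 K))
    {Y : GL (Fin 2) (v.adicCompletion K)}
    (hY : Near v (v.valuation K ((Ideal.absNorm 𝔫 : ℕ) : K)) Y) : LocLevel 𝔫 v Y := by
  refine locLevel_of_near v (natCast_absNorm_mem 𝔫) ?_
  rw [map_natCast]
  exact hY

theorem valuation_le_of_dvd (v : HeightOneSpectrum (𝓞 K)) {a b : ℕ} (h : a ∣ b) :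
    v.valuation K (b : K) ≤ v.valuation K (a : K) := by
  obtain ⟨c, rfl⟩ := h
  rw [Nat.cast_mul, map_mul]
  exact mul_le_of_le_one_right' (valuation_natCast_le_one v c)

/-- **The level of a base point** `g`: a nonzero natural number `M`, divisible by the norm of `𝔫`,
such that `g` is integral outside `M` and conjugation by the components of `g` maps the matrices
which are `≡ 1 mod M` into the local level groups. -/
theorem exists_level (𝔫 : Ideal (𝓞 K)) (h𝔫 : 𝔫 ≠ ⊥) (g : G K) :
    ∃ M : ℕ, M ≠ 0 ∧ Ideal.absNorm 𝔫 ∣ M ∧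
      (∀ v : HeightOneSpectrum (𝓞 K), v.valuation K (M : K) = 1 →
        IntegralBoth v (finCompHom v g)) ∧
      ∀ (v : HeightOneSpectrum (𝓞 K)) (Y : GL (Fin 2) (v.adicCompletion K)),
        Near v (v.valuation K (M : K)) Y →
          LocLevel 𝔫 v ((finCompHom v g)⁻¹ * Y * finCompHom v g) := by
  set n₀ : ℕ := Ideal.absNorm 𝔫 with hn₀
  have hn₀0 : n₀ ≠ 0 := by
    rw [hn₀, Ne, Ideal.absNorm_eq_zero_iff]
    exact h𝔫
  have hc : ∀ v : HeightOneSpectrum (𝓞 K), ∃ c : ℤᵐ⁰, c ≠ 0 ∧ c ≤ v.valuation K (n₀ : K) ∧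
      ∀ Y : GL (Fin 2) (v.adicCompletion K), Near v c Y →
        Near v (v.valuation K (n₀ : K)) ((finCompHom v g)⁻¹ * Y * finCompHom v g) :=
    fun v => exists_near_conj v (finCompHom v g) (valuation_natCast_ne_zero v hn₀0)
  choose c hc0 hcle hcY using hc
  have key : ∀ B : Finset (HeightOneSpectrum (𝓞 K)), ∃ M : ℕ, M ≠ 0 ∧ n₀ ∣ M ∧
      ∀ v ∈ B, v.valuation K (M : K) ≤ c v ∧ v.valuation K (M : K) < 1 := by
    intro B
    induction B using Finset.induction_on with
    | empty => exact ⟨n₀, hn₀0, dvd_rfl, fun v hv => absurd hv (Finset.notMem_empty v)⟩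
    | insert v B hvB ih =>
      obtain ⟨M, hM0, hdvd, hM⟩ := ih
      obtain ⟨u, hu0, hu⟩ := exists_nat_mem v
      obtain ⟨e, he⟩ := exists_pow_le hu (hc0 v)
      refine ⟨M * u ^ (e + 1), mul_ne_zero hM0 (pow_ne_zero _ hu0), dvd_mul_of_dvd_left hdvd _,
        fun v' hv' => ?_⟩
      have hcast : ((M * u ^ (e + 1) : ℕ) : K) = (M : K) * (u : K) ^ (e + 1) := by
        push_cast; ring
      rw [hcast, map_mul, map_pow]
      rcases Finset.mem_insert.1 hv' with rfl | hv'B
      · have h1 : v'.valuation K (M : K) * v'.valuation K (u : K) ^ (e + 1)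
            ≤ v'.valuation K (u : K) ^ (e + 1) :=
          mul_le_of_le_one_left' (valuation_natCast_le_one v' M)
        have h2 : v'.valuation K (u : K) ^ (e + 1) ≤ v'.valuation K (u : K) ^ e := by
          rw [pow_succ]
          exact mul_le_of_le_one_right' hu.le
        have h3 : v'.valuation K (u : K) ^ (e + 1) ≤ v'.valuation K (u : K) := by
          rw [pow_succ']
          exact mul_le_of_le_one_right' (pow_le_one₀ zero_le hu.le)
        exact ⟨h1.trans (h2.trans he), lt_of_le_of_lt (h1.trans h3) hu⟩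
      · have h1 : v'.valuation K (M : K) * v'.valuation K (u : K) ^ (e + 1)
            ≤ v'.valuation K (M : K) :=
          mul_le_of_le_one_right' (pow_le_one₀ zero_le (valuation_natCast_le_one v' u))
        exact ⟨h1.trans (hM v' hv'B).1, lt_of_le_of_lt h1 (hM v' hv'B).2⟩
  obtain ⟨M, hM0, hdvd, hM⟩ := key (finite_not_integralBoth g).toFinset
  refine ⟨M, hM0, hdvd, fun v hv1 => ?_, fun v Y hY => ?_⟩
  · by_contra hbad
    have hv : v ∈ (finite_not_integralBoth g).toFinset := by
      rw [Set.Finite.mem_toFinset]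
      exact hbad
    exact (hM v hv).2.ne hv1
  · apply locLevel_of_near_nat
    by_cases hv : v ∈ (finite_not_integralBoth g).toFinset
    · exact hcY v Y (hY.mono (hM v hv).1)
    · have hint : IntegralBoth v (finCompHom v g) := by
        rw [Set.Finite.mem_toFinset] at hv
        by_contra h
        exact hv h
      exact near_conj_of_integralBoth hint (hY.mono (valuation_le_of_dvd v hdvd))

end Fermat.Agent.LT.H51.MS4
end

end
-- ===== PACK-END LT/H51/MS4C.lean

-- ===== PACK-BEGIN LT/T7/H341/ChebSplit.lean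
section




/-!
# Row LT, tower T7, leaf T7.13c `ChebFC` (helper341), part 1: splitting in Galois number fields

OFF-MAIN.  For a finite Galois extension `K ⊆ ℚ̄` of `ℚ`, a prime number `p` not dividing
`H943.badNat K`, and ANY Frobenius element `(A, σ)` at `p` in the Prelude's sense:

* `primeCount_of_fix341` : if `σ` fixes `K` pointwise, then `K` has exactly `[K : ℚ]` primes of
  norm `p`;
* `primeCount_of_not_fix341` : otherwise `K` has no prime of norm `p`.

Also the Galois dictionary `galois_of_open_normal341` for open normal subgroups of `Gal(ℚ̄/ℚ)`.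
Inputs (all on main): `Lib.Cheb.H943` (Bridge, Frob), `Lib.Cheb.H764` (Orbit, Count).
-/

set_option autoImplicit false
set_option linter.unusedSectionVars false
set_option linter.unusedVariables false
set_option linter.style.haveILetI false

open NumberField Ideal MulAction
open scoped Pointwise

namespace Fermat.Agent.LT.T7.H341

open Fermat.Agent.Lib.Cheb Fermat.Agent.Lib.Cheb.Spec

/-! ## The Galois dictionary -/

/-- For an open normal subgroup `H` of `Gal(ℚ̄/ℚ)`: the fixed field is a finite Galois extension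
of `ℚ` of degree `[G : H]`, and `σ` fixes it pointwise iff `σ ∈ H`. -/
theorem isGalois_Qb341 : IsGalois ℚ Qb := by
  haveI : Algebra.IsAlgebraic ℚ Qb := AlgebraicClosure.isAlgebraic ℚ
  haveI : IsAlgClosure ℚ Qb := ⟨inferInstance, inferInstance⟩
  haveI : Normal ℚ Qb := IsAlgClosure.normal ℚ Qb
  exact ⟨⟩

theorem galois_of_open_normal341 (H : Subgroup GQ) (hH : IsOpen (H : Set GQ)) [hN : H.Normal] :
    FiniteDimensional ℚ (IntermediateField.fixedField H) ∧
      IsGalois ℚ (IntermediateField.fixedField H) ∧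
      (∀ σ : GQ, (∀ x ∈ IntermediateField.fixedField H, σ x = x) ↔ σ ∈ H) ∧
      Module.finrank ℚ (IntermediateField.fixedField H) = H.index := by
  haveI := isGalois_Qb341
  have hcl : IsClosed (H : Set GQ) := Subgroup.isClosed_of_isOpen H hH
  have hfix : (IntermediateField.fixedField H).fixingSubgroup = H :=
    InfiniteGalois.fixingSubgroup_fixedField (k := ℚ) (K := Qb) ⟨H, hcl⟩
  refine ⟨?_, ?_, ?_, ?_⟩
  · rw [← InfiniteGalois.isOpen_iff_finite]
    show IsOpen ((IntermediateField.fixedField H).fixingSubgroup : Set GQ)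
    rw [hfix]
    exact hH
  · have h : (IntermediateField.fixedField H).fixingSubgroup.Normal := by
      rw [hfix]
      exact hN
    have h2 := (InfiniteGalois.normal_iff_isGalois (IntermediateField.fixedField H)).mp h
    convert h2 using 1
    exact Subsingleton.elim _ _
  · intro σ
    constructor
    · intro h
      have h1 : σ ∈ (IntermediateField.fixedField H).fixingSubgroup :=
        (IntermediateField.mem_fixingSubgroup_iff _ σ).mpr h
      rwa [hfix] at h1
    · intro h x hx
      have h1 : σ ∈ (IntermediateField.fixedField H).fixingSubgroup := by rwa [hfix]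
      exact (IntermediateField.mem_fixingSubgroup_iff _ σ).mp h1 x hx
  · rw [IntermediateField.finrank_eq_fixingSubgroup_index, hfix]

/-! ## The prime of `𝓞 K` below a valuation subring of `ℚ̄` -/

section Below

variable (K : IntermediateField ℚ Qb)

/-- The prime of `𝓞 K` below the valuation subring `A` of `ℚ̄`. -/
noncomputable def below341 (A : ValuationSubring Qb) : Ideal (𝓞 K) :=
  Ideal.comap (H943.embInt K) (Fermat.Agent.S54.primeBelow A)

theorem mem_below341 (A : ValuationSubring Qb) (x : 𝓞 K) :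
    x ∈ below341 K A ↔ H943.emb K x ∈ A.nonunits := Iff.rfl

theorem below341_isPrime (A : ValuationSubring Qb) : (below341 K A).IsPrime := by
  haveI := Fermat.Agent.S54.primeBelow_isPrime A
  exact Ideal.comap_isPrime _ _

theorem natCast_mem_below341 {A : ValuationSubring Qb} {p : ℕ} (hA : A.LiesOverPrime p) :
    (p : 𝓞 K) ∈ below341 K A := by
  rw [mem_below341]
  have h : H943.emb K (p : 𝓞 K) = (p : Qb) := map_natCast (H943.emb K) p
  rw [h]
  exact hA

end Below

/-! ## Splitting -/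

section Split

variable (K : IntermediateField ℚ Qb) [NumberField K] [IsGalois ℚ K]

/-- The restriction of `σ` to `K` is trivial iff `σ` fixes `K` pointwise. -/
theorem restrict_eq_one_iff341 (σ : GQ) :
    AlgEquiv.restrictNormalHom K σ = 1 ↔ ∀ x ∈ K, σ x = x := by
  constructor
  · intro h x hx
    have h1 := AlgEquiv.restrictNormal_commutes σ K ⟨x, hx⟩
    have h2 : σ.restrictNormal K = 1 := h
    rw [h2] at h1
    exact h1.symm
  · intro h
    apply AlgEquiv.ext
    intro x
    apply Subtype.ext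
    have h1 := AlgEquiv.restrictNormal_commutes σ K x
    exact h1.trans (h _ x.2)

/-- Core facts at a good prime. -/
theorem split_core341 {p : ℕ} (hp : p.Prime) (hpB : ¬ p ∣ H943.badNat K)
    (A : ValuationSubring Qb) (hA : A.LiesOverPrime p) (σ : GQ) (hσ : A.IsFrobeniusAt σ p) :
    ((Ideal.span {(p : ℤ)}).primesOver (𝓞 K)).ncard *
        (below341 K A).inertiaDeg ℤ = Module.finrank ℚ K ∧
      ((below341 K A).inertiaDeg ℤ = 1 ↔ ∀ x ∈ K, σ x = x) ∧
      ∀ Q : Ideal (𝓞 K), Q.IsPrime → (p : 𝓞 K) ∈ Q →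
        Q.inertiaDeg ℤ = (below341 K A).inertiaDeg ℤ := by
  classical
  haveI hP : (below341 K A).IsPrime := below341_isPrime K A
  have hpP : (p : 𝓞 K) ∈ below341 K A := natCast_mem_below341 K hA
  have hne : below341 K A ≠ ⊥ := H943.prime_ne_bot hp hpP
  haveI hmax : (below341 K A).IsMaximal := Ideal.IsPrime.isMaximal hP hne
  have hτ : IsArithFrobAt ℤ (AlgEquiv.restrictNormalHom K σ) (below341 K A) :=
    H943.isArithFrobAt_restrict K hp hmax hpP (fun x hx => hx) hσ
  obtain ⟨hU, hI, -⟩ := H943.frob_of_not_dvd_badNat hp hpB (below341 K A) hP hpP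
  haveI := hU
  have hdec : Spec.decomp K (below341 K A) = Subgroup.zpowers (AlgEquiv.restrictNormalHom K σ) :=
    H943.decomp_eq_zpowers hp hpP hI hτ
  haveI hsp : (Ideal.span {(p : ℤ)}).IsPrime := H764.span_isPrime hp
  haveI hlo : (below341 K A).LiesOver (Ideal.span {(p : ℤ)}) :=
    H764.liesOver_of_mem hp (below341 K A) hpP
  have he : (below341 K A).ramificationIdx ℤ = 1 :=
    Ideal.ramificationIdx_eq_one_of_isUnramifiedAt
  have hcard : Nat.card (stabilizer (K ≃ₐ[ℚ] K) (below341 K A)) = (below341 K A).inertiaDeg ℤ := by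
    rw [H764.card_stabilizer_eq_mul (G := K ≃ₐ[ℚ] K) (Ideal.span {(p : ℤ)}) (below341 K A), he,
      one_mul]
  have horb := H764.ncard_primesOver_mul_card_stabilizer_aux (G := K ≃ₐ[ℚ] K)
    (Ideal.span {(p : ℤ)}) (below341 K A)
  rw [hcard, IsGalois.card_aut_eq_finrank] at horb
  refine ⟨horb, ?_, ?_⟩
  · rw [← hcard, ← restrict_eq_one_iff341 K σ]
    have hd : stabilizer (K ≃ₐ[ℚ] K) (below341 K A) =
        Subgroup.zpowers (AlgEquiv.restrictNormalHom K σ) := hdec
    rw [hd, Subgroup.card_eq_one, Subgroup.zpowers_eq_bot]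
  · intro Q hQ hpQ
    haveI := hQ
    haveI : Q.LiesOver (Ideal.span {(p : ℤ)}) := H764.liesOver_of_mem hp Q hpQ
    exact Ideal.inertiaDeg_eq_of_isGaloisGroup (Ideal.span {(p : ℤ)}) Q (below341 K A)
      (K ≃ₐ[ℚ] K)

/-- The primes of norm `p` are the primes over `p` of residue degree one. -/
theorem absNorm_eq_iff341 {p : ℕ} (hp : p.Prime) (Q : Ideal (𝓞 K)) (hQ : Q.IsPrime) :
    Ideal.absNorm Q = p ↔ (p : 𝓞 K) ∈ Q ∧ Q.inertiaDeg ℤ = 1 := by
  haveI := hQ
  constructor
  · intro h
    have hmem : (p : 𝓞 K) ∈ Q := by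
      have := Ideal.absNorm_mem Q
      rwa [h] at this
    haveI : Q.LiesOver (Ideal.span {(p : ℤ)}) := H764.liesOver_of_mem hp Q hmem
    refine ⟨hmem, ?_⟩
    have h1 := Ideal.pow_inertiaDeg p Q
    rw [h] at h1
    exact Nat.pow_right_injective hp.two_le (by simpa using h1)
  · rintro ⟨hmem, hf⟩
    haveI : Q.LiesOver (Ideal.span {(p : ℤ)}) := H764.liesOver_of_mem hp Q hmem
    have h1 := Ideal.pow_inertiaDeg p Q
    rw [hf, pow_one] at h1
    exact h1.symm

/-- **Splitting, case 1**: if a Frobenius element at the good prime `p` fixes `K` pointwise, then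
`K` has exactly `[K : ℚ]` primes of norm `p`. -/
theorem primeCount_of_fix341 {p : ℕ} (hp : p.Prime) (hpB : ¬ p ∣ H943.badNat K)
    (A : ValuationSubring Qb) (hA : A.LiesOverPrime p) (σ : GQ) (hσ : A.IsFrobeniusAt σ p)
    (hfix : ∀ x ∈ K, σ x = x) : primeCount K p = Module.finrank ℚ K := by
  obtain ⟨h1, h2, h3⟩ := split_core341 K hp hpB A hA σ hσ
  have hf : (below341 K A).inertiaDeg ℤ = 1 := h2.mpr hfix
  rw [hf, mul_one] at h1
  rw [← h1]
  unfold primeCount
  rw [← Nat.card_coe_set_eq]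
  refine Nat.card_congr (Equiv.subtypeEquivRight fun Q => ?_)
  constructor
  · rintro ⟨hQ, hn⟩
    obtain ⟨hmem, -⟩ := (absNorm_eq_iff341 K hp Q hQ).mp hn
    haveI := hQ
    exact ⟨hQ, H764.liesOver_of_mem hp Q hmem⟩
  · rintro ⟨hQ, hlo⟩
    haveI := hQ
    haveI := hlo
    have hmem : (p : 𝓞 K) ∈ Q := H764.mem_of_liesOver hp Q
    exact ⟨hQ, (absNorm_eq_iff341 K hp Q hQ).mpr ⟨hmem, (h3 Q hQ hmem).trans hf⟩⟩

/-- **Splitting, case 2**: if a Frobenius element at the good prime `p` does not fix `K`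
pointwise, then `K` has no prime of norm `p`. -/
theorem primeCount_of_not_fix341 {p : ℕ} (hp : p.Prime) (hpB : ¬ p ∣ H943.badNat K)
    (A : ValuationSubring Qb) (hA : A.LiesOverPrime p) (σ : GQ) (hσ : A.IsFrobeniusAt σ p)
    (hfix : ¬ ∀ x ∈ K, σ x = x) : primeCount K p = 0 := by
  obtain ⟨h1, h2, h3⟩ := split_core341 K hp hpB A hA σ hσ
  unfold primeCount
  rw [Nat.card_eq_zero]
  left
  refine ⟨fun Q => ?_⟩
  obtain ⟨hmem, hf⟩ := (absNorm_eq_iff341 K hp Q.1 Q.2.1).mp Q.2.2
  exact hfix (h2.mp ((h3 Q.1 Q.2.1 hmem).symm.trans hf))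

end Split

end Fermat.Agent.LT.T7.H341

end
-- ===== PACK-END LT/T7/H341/ChebSplit.lean

-- ===== PACK-BEGIN LT/T1/H671/HaarGL2.lean
section








/-!
# Row LT, tower T1, shared prerequisite (helper671): `GL₂(𝔸_K)` scales the Haar measure of `𝔸_K²`
by `‖det g‖_𝔸`

OFF-MAIN.  NOT a leaf of `T1/Spec.lean`; prerequisite of T1.14 (adelic Minkowski for the lattice
`K² g ⊂ 𝔸_K²`), T1.17, T1.20.

* `distribHaarChar_GL2_671` : over a locally compact second countable commutative topological ring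
  `R` of stable range one (helper849), the module of `g ∈ GL₂(R)` acting on `R²` is the module of
  `det g` acting on `R`.
* `haarScale_GL2_mulVec671`, `haarScale_GL2_vecMul671` : for every Haar measure `μ` on
  `Fin 2 → 𝔸_K` (Borel σ-algebra), `g ∈ GL₂(𝔸_K)` and EVERY set `X`:
  `μ (g X) = ‖det g‖_𝔸 · μ X` (column vectors `g *ᵥ v`, resp. row vectors `v ᵥ* g`).
-/

set_option autoImplicit false

open MeasureTheory MeasureTheory.Measure TopologicalSpace NumberField IsDedekindDomain Matrix
open scoped NNReal Pointwise ENNReal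

noncomputable section

namespace Fermat.Agent.LT.T1.H671

open Fermat.Agent.LT.T1.H849

section General

variable {R : Type*} [CommRing R] [TopologicalSpace R] [IsTopologicalRing R]

theorem continuousConstSMul_GL2_671 : ContinuousConstSMul (GL (Fin 2) R) (Fin 2 → R) :=
  ⟨fun g => by
    show Continuous fun v : Fin 2 → R => (g : Matrix (Fin 2) (Fin 2) R) *ᵥ v
    exact Continuous.matrix_mulVec continuous_const continuous_id⟩

attribute [local instance] continuousConstSMul_GL2_671

omit [TopologicalSpace R] [IsTopologicalRing R] in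
theorem GL2_smul_set_eq671 (g : GL (Fin 2) R) (s : Set (Fin 2 → R)) :
    g • s = (fun v : Fin 2 → R => (g : Matrix (Fin 2) (Fin 2) R) *ᵥ v) '' s := by
  ext z
  simp only [Set.mem_smul_set, Set.mem_image]
  rfl

variable [LocallyCompactSpace R] [SecondCountableTopology R]

/-- The unit of `R²` with components `u`, `v`. -/
def piUnit671 (u v : Rˣ) : (Fin 2 → R)ˣ :=
  MulEquiv.piUnits.symm ![u, v]

omit [TopologicalSpace R] [IsTopologicalRing R] [LocallyCompactSpace R]
  [SecondCountableTopology R] in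
theorem piUnit_apply671 (u v : Rˣ) (i : Fin 2) :
    ((piUnit671 u v : (Fin 2 → R)ˣ) : Fin 2 → R) i = ((![u, v] i : Rˣ) : R) := rfl

omit [TopologicalSpace R] [IsTopologicalRing R] [LocallyCompactSpace R]
  [SecondCountableTopology R] in
theorem dg_smul_set671 (u v : Rˣ) (s : Set (Fin 2 → R)) :
    dg849 u v • s = piUnit671 u v • s := by
  rw [GL2_smul_set_eq671]
  ext z
  simp only [Set.mem_smul_set, Set.mem_image, Units.smul_def, smul_eq_mul]
  have key : ∀ w : Fin 2 → R, ((dg849 u v : GL (Fin 2) R) : Matrix (Fin 2) (Fin 2) R) *ᵥ w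
      = ((piUnit671 u v : (Fin 2 → R)ˣ) : Fin 2 → R) * w := by
    intro w
    ext i
    fin_cases i
    · simp [piUnit_apply671, Matrix.mulVec, dotProduct, Fin.sum_univ_two]
    · simp [piUnit_apply671, Matrix.mulVec, dotProduct, Fin.sum_univ_two]
  constructor
  · rintro ⟨w, hw, rfl⟩
    exact ⟨w, hw, (key w).symm⟩
  · rintro ⟨w, hw, rfl⟩
    exact ⟨w, hw, key w⟩

/-- The module of `diag(u, v)` on `R²`. -/
theorem distribHaarChar_dg671 (u v : Rˣ) :
    distribHaarChar (Fin 2 → R) (dg849 u v) = distribHaarChar R u * distribHaarChar R v := by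
  borelize (Fin 2 → R)
  let μ : Measure (Fin 2 → R) := addHaar
  obtain ⟨K₁⟩ := (inferInstance : Nonempty (PositiveCompacts (Fin 2 → R)))
  have hK₁ : μ (K₁ : Set (Fin 2 → R)) ≠ 0 :=
    (measure_pos_of_nonempty_interior μ K₁.interior_nonempty).ne'
  have hK₁' : μ (K₁ : Set (Fin 2 → R)) ≠ ∞ := K₁.isCompact.measure_lt_top.ne
  refine distribHaarChar_eq_of_measure_smul_eq_mul (μ := μ) (s := (K₁ : Set (Fin 2 → R)))
    hK₁ hK₁' ?_
  rw [dg_smul_set671, ← distribHaarChar_mul μ (piUnit671 u v),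
    distribHaarChar_pi671 (A := fun _ : Fin 2 => R) (piUnit671 u v), Fin.prod_univ_two]
  congr 3

/-- **The module of `g ∈ GL₂(R)` on `R²` is the module of `det g` on `R`** (stable range one). -/
theorem distribHaarChar_GL2_671 (hsr : StableRangeOne849 R) (g : GL (Fin 2) R) :
    distribHaarChar (Fin 2 → R) g = distribHaarChar R (Matrix.GeneralLinearGroup.det g) := by
  have hdet : ((Matrix.GeneralLinearGroup.det g : Rˣ) : R) = g 0 0 * g 1 1 - g 0 1 * g 1 0 := by
    simp [Matrix.det_fin_two]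
  have hinv : (((Matrix.GeneralLinearGroup.det g)⁻¹ : Rˣ) : R)
      * (g 0 0 * g 1 1 - g 0 1 * g 1 0) = 1 := by
    rw [← hdet]; exact Units.inv_mul _
  obtain ⟨x, hx⟩ := hsr (g 0 0) (g 1 0)
    ((((Matrix.GeneralLinearGroup.det g)⁻¹ : Rˣ) : R) * g 1 1)
    (-((((Matrix.GeneralLinearGroup.det g)⁻¹ : Rˣ) : R) * g 0 1))
    (by linear_combination hinv)
  obtain ⟨a', ha'⟩ := hx
  have key := congrArg (distribHaarChar (Fin 2 → R)) (gauss849 g x a' ha')
  rw [map_mul, map_mul, map_mul, hom_loT849 _ nnreal_no_two_torsion849,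
    hom_upT849 _ nnreal_no_two_torsion849, hom_upT849 _ nnreal_no_two_torsion849, one_mul,
    one_mul, mul_one, distribHaarChar_dg671, ← map_mul, mul_inv_cancel_left] at key
  exact key

/-- The transpose of an element of `GL₂(R)`. -/
def transposeGL671 (g : GL (Fin 2) R) : GL (Fin 2) R :=
  ⟨(g : Matrix (Fin 2) (Fin 2) R)ᵀ, ((g⁻¹ : GL (Fin 2) R) : Matrix (Fin 2) (Fin 2) R)ᵀ,
    by rw [← Matrix.transpose_mul, ← Units.val_mul, inv_mul_cancel, Units.val_one,
      Matrix.transpose_one],
    by rw [← Matrix.transpose_mul, ← Units.val_mul, mul_inv_cancel, Units.val_one,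
      Matrix.transpose_one]⟩

omit [TopologicalSpace R] [IsTopologicalRing R] [LocallyCompactSpace R]
  [SecondCountableTopology R] in
theorem det_transposeGL671 (g : GL (Fin 2) R) :
    Matrix.GeneralLinearGroup.det (transposeGL671 g) = Matrix.GeneralLinearGroup.det g := by
  apply Units.ext
  show ((g : Matrix (Fin 2) (Fin 2) R)ᵀ).det = (g : Matrix (Fin 2) (Fin 2) R).det
  exact Matrix.det_transpose _

end General

section Adele

open Fermat.Agent.LT.H556.A0 Fermat.Agent.LT.T1

variable (K : Type) [Field K] [NumberField K]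

attribute [local instance] locallyCompact_adele671 secondCountable_adele671
  continuousConstSMul_GL2_671

variable {K}

/-- **The module of `g ∈ GL₂(𝔸_K)` on `𝔸_K²` is `‖det g‖_𝔸`.** -/
theorem adele2_module671 (g : G K) :
    (distribHaarChar (Fin 2 → Adl K) g : ℝ)
      = adNorm K (Matrix.det (g : Matrix (Fin 2) (Fin 2) (Adl K))) := by
  rw [distribHaarChar_GL2_671 (stableRangeOne_adele849 K) g, adele_module671]
  rfl

/-- **Scaling of the Haar measure of `𝔸_K²` under `GL₂(𝔸_K)`, column vectors.** -/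
theorem haarScale_GL2_mulVec671 [MeasurableSpace (Fin 2 → Adl K)] [BorelSpace (Fin 2 → Adl K)]
    (μ : Measure (Fin 2 → Adl K)) [μ.IsAddHaarMeasure] (g : G K) (X : Set (Fin 2 → Adl K)) :
    μ ((fun v : Fin 2 → Adl K => (g : Matrix (Fin 2) (Fin 2) (Adl K)) *ᵥ v) '' X)
      = ENNReal.ofReal (adNorm K (Matrix.det (g : Matrix (Fin 2) (Fin 2) (Adl K)))) * μ X := by
  rw [← GL2_smul_set_eq671, ← distribHaarChar_mul μ g X, ← adele2_module671,
    ENNReal.ofReal_coe_nnreal]

/-- **Scaling of the Haar measure of `𝔸_K²` under `GL₂(𝔸_K)`, row vectors.** -/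
theorem haarScale_GL2_vecMul671 [MeasurableSpace (Fin 2 → Adl K)] [BorelSpace (Fin 2 → Adl K)]
    (μ : Measure (Fin 2 → Adl K)) [μ.IsAddHaarMeasure] (g : G K) (X : Set (Fin 2 → Adl K)) :
    μ ((fun v : Fin 2 → Adl K => v ᵥ* (g : Matrix (Fin 2) (Fin 2) (Adl K))) '' X)
      = ENNReal.ofReal (adNorm K (Matrix.det (g : Matrix (Fin 2) (Fin 2) (Adl K)))) * μ X := by
  have h := haarScale_GL2_mulVec671 μ (transposeGL671 g) X
  have h1 : (fun v : Fin 2 → Adl K =>
      ((transposeGL671 g : G K) : Matrix (Fin 2) (Fin 2) (Adl K)) *ᵥ v)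
      = fun v : Fin 2 → Adl K => v ᵥ* (g : Matrix (Fin 2) (Fin 2) (Adl K)) := by
    funext v
    exact Matrix.mulVec_transpose _ _
  have h2 : Matrix.det ((transposeGL671 g : G K) : Matrix (Fin 2) (Fin 2) (Adl K))
      = Matrix.det (g : Matrix (Fin 2) (Fin 2) (Adl K)) := Matrix.det_transpose _
  rw [h1, h2] at h
  exact h

/-- Elements of `GL₂(𝔸_K)` with `‖det g‖_𝔸 = 1` preserve every Haar measure of `𝔸_K²`. -/
theorem haarScale_GL2_of_adNorm_det_eq_one671 [MeasurableSpace (Fin 2 → Adl K)]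
    [BorelSpace (Fin 2 → Adl K)] (μ : Measure (Fin 2 → Adl K)) [μ.IsAddHaarMeasure] (g : G K)
    (hg : adNorm K (Matrix.det (g : Matrix (Fin 2) (Fin 2) (Adl K))) = 1)
    (X : Set (Fin 2 → Adl K)) :
    μ ((fun v : Fin 2 → Adl K => v ᵥ* (g : Matrix (Fin 2) (Fin 2) (Adl K))) '' X) = μ X := by
  rw [haarScale_GL2_vecMul671, hg, ENNReal.ofReal_one, one_mul]

end Adele

end Fermat.Agent.LT.T1.H671

end

end
-- ===== PACK-END LT/T1/H671/HaarGL2.lean

-- ===== PACK-BEGIN LT/T7/H820/Places.lean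
section



/-!
# Row LT, tower T7, seat helper820: places of a Galois number field over `ℚ` (OFF-MAIN)

General lemmas for the leaves T7.08 `MidStableFromUniqueC` and T7.04 `MidStableFromC`
(vocabulary of `T7/Spec.lean` v1.1, helper797@db78af04c):

* `placeMap820 s v` : the image of the finite place `v` under the automorphism `s` of `K`;
  `placeImage_placeMap820`, `placeImage_unique820`;
* `prime_unique820`, `exists_primesBelow820` : a place contains one prime number; the primes below
  a finite set of places form a finite set;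
* `exists_placeImage_of_isGalois820` : for `K/ℚ` Galois the places over `p` are conjugate;
* `isGalois_fieldF820` : `fieldF ρ / ℚ` is Galois (`subSL ρ` is a normal subgroup).
-/

set_option autoImplicit false

open AutomorphicForm
open IsDedekindDomain NumberField

noncomputable section

namespace Fermat.Agent.LT.T7.H820

open Fermat.Agent.LT.H130 Fermat.Agent.LT.H556 Fermat.Agent.LT.T7

local notation "Γℚ" => (AlgebraicClosure ℚ ≃ₐ[ℚ] AlgebraicClosure ℚ)

section Places

set_option linter.unusedSectionVars false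

variable {K : Type} [Field K] [NumberField K]

/-- The image of the finite place `v` under the automorphism `s` of `K`. -/
def placeMap820 (s : K ≃+* K) (v : HeightOneSpectrum (𝓞 K)) : HeightOneSpectrum (𝓞 K) :=
  HeightOneSpectrum.equivOfRingEquiv (RingOfIntegers.mapRingEquiv s) v

theorem mem_placeMap820 (s : K ≃+* K) (v : HeightOneSpectrum (𝓞 K)) (y : 𝓞 K) :
    y ∈ (placeMap820 s v).asIdeal ↔ (RingOfIntegers.mapRingEquiv s).symm y ∈ v.asIdeal :=
  Iff.rfl

theorem placeImage_placeMap820 (s : K ≃+* K) (v : HeightOneSpectrum (𝓞 K)) :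
    PlaceImage s v (placeMap820 s v) := by
  intro x y hxy
  rw [mem_placeMap820]
  have : (RingOfIntegers.mapRingEquiv s).symm y = x := by
    apply RingOfIntegers.ext
    rw [RingOfIntegers.mapRingEquiv_symm_apply, hxy]
    exact s.symm_apply_apply _
  rw [this]

theorem placeImage_unique820 (s : K ≃+* K) (v v' : HeightOneSpectrum (𝓞 K))
    (h : PlaceImage s v v') : v' = placeMap820 s v := by
  apply HeightOneSpectrum.ext
  ext y
  rw [mem_placeMap820]
  have hy : ((y : 𝓞 K) : K) = s (((RingOfIntegers.mapRingEquiv s).symm y : 𝓞 K) : K) := by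
    rw [RingOfIntegers.mapRingEquiv_symm_apply]
    exact (s.apply_symm_apply _).symm
  exact (h _ y hy).symm

/-- A natural number is fixed by every automorphism: `p ∈ v ↔ p ∈ s v`. -/
theorem natCast_mem_of_placeImage820 (s : K ≃+* K) (v v' : HeightOneSpectrum (𝓞 K))
    (h : PlaceImage s v v') (p : ℕ) :
    ((p : ℕ) : 𝓞 K) ∈ v.asIdeal ↔ ((p : ℕ) : 𝓞 K) ∈ v'.asIdeal := by
  apply h
  simp

/-- Every place is the image of a place. -/
theorem exists_placeImage820 (s : K ≃+* K) (v' : HeightOneSpectrum (𝓞 K)) :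
    ∃ v : HeightOneSpectrum (𝓞 K), PlaceImage s v v' := by
  refine ⟨placeMap820 s.symm v', ?_⟩
  intro x y hxy
  rw [mem_placeMap820]
  have : (RingOfIntegers.mapRingEquiv s.symm).symm x = y := by
    apply RingOfIntegers.ext
    rw [RingOfIntegers.mapRingEquiv_symm_apply, hxy]
    rfl
  rw [this]

/-- Two distinct prime numbers do not lie in the same place. -/
theorem prime_unique820 (v : HeightOneSpectrum (𝓞 K)) {p q : ℕ} (hp : p.Prime) (hq : q.Prime)
    (hpv : ((p : ℕ) : 𝓞 K) ∈ v.asIdeal) (hqv : ((q : ℕ) : 𝓞 K) ∈ v.asIdeal) : p = q := by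
  by_contra hne
  have hcop : Nat.Coprime p q := (Nat.coprime_primes hp hq).2 hne
  have hiso : IsCoprime (p : ℤ) (q : ℤ) := Nat.isCoprime_iff_coprime.2 hcop
  obtain ⟨a, b, hab⟩ := hiso
  have h1 : ((a : 𝓞 K) * ((p : ℕ) : 𝓞 K) + (b : 𝓞 K) * ((q : ℕ) : 𝓞 K)) ∈ v.asIdeal :=
    v.asIdeal.add_mem (v.asIdeal.mul_mem_left _ hpv) (v.asIdeal.mul_mem_left _ hqv)
  have h2 : ((a : 𝓞 K) * ((p : ℕ) : 𝓞 K) + (b : 𝓞 K) * ((q : ℕ) : 𝓞 K)) = 1 := by
    have := congrArg (fun z : ℤ => (z : 𝓞 K)) hab
    simpa using this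
  rw [h2] at h1
  exact v.isPrime.ne_top ((Ideal.eq_top_iff_one _).2 h1)

open scoped Classical in
/-- The prime numbers below a finite set of places form a finite set. -/
theorem exists_primesBelow820 (S : Finset (HeightOneSpectrum (𝓞 K))) :
    ∃ T : Finset ℕ, ∀ p : ℕ, p.Prime → ∀ v ∈ S, ((p : ℕ) : 𝓞 K) ∈ v.asIdeal → p ∈ T := by
  refine ⟨S.image fun v => if h : ∃ q : ℕ, q.Prime ∧ ((q : ℕ) : 𝓞 K) ∈ v.asIdeal
    then h.choose else 0, ?_⟩
  intro p hp v hv hpv
  rw [Finset.mem_image]
  refine ⟨v, hv, ?_⟩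
  have h : ∃ q : ℕ, q.Prime ∧ ((q : ℕ) : 𝓞 K) ∈ v.asIdeal := ⟨p, hp, hpv⟩
  rw [dif_pos h]
  exact prime_unique820 v h.choose_spec.1 hp h.choose_spec.2 hpv

end Places

section Galois

variable {K : Type} [Field K] [NumberField K]

/-- For `K/ℚ` Galois, two places over the same prime number are conjugate. -/
theorem exists_placeImage_of_isGalois820 [IsGalois ℚ K] {p : ℕ} (hp : p.Prime)
    (w w' : HeightOneSpectrum (𝓞 K)) (hw : ((p : ℕ) : 𝓞 K) ∈ w.asIdeal)
    (hw' : ((p : ℕ) : 𝓞 K) ∈ w'.asIdeal) :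
    ∃ s : K ≃ₐ[ℚ] K, PlaceImage s.toRingEquiv w w' := by
  have hmax : (Ideal.span {(p : ℤ)}).IsMaximal :=
    (Ideal.isPrime_of_prime (Ideal.prime_span_singleton_iff.mpr
      (Nat.prime_iff_prime_int.mp hp))).isMaximal (by simp [hp.ne_zero])
  have hover : ∀ u : HeightOneSpectrum (𝓞 K), ((p : ℕ) : 𝓞 K) ∈ u.asIdeal →
      u.asIdeal.LiesOver (Ideal.span {(p : ℤ)}) := by
    intro u hu
    refine ⟨?_⟩
    apply hmax.eq_of_le
    · exact (Ideal.comap_ne_top _ u.isPrime.ne_top)
    · rw [Ideal.span_singleton_le_iff_mem, Ideal.mem_comap]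
      simpa using hu
  have := hover w hw
  have := hover w' hw'
  obtain ⟨σ, hσ⟩ := Ideal.exists_smul_eq_of_isGaloisGroup (Ideal.span ({(p : ℤ)} : Set ℤ))
    w.asIdeal w'.asIdeal (K ≃ₐ[ℚ] K)
  refine ⟨σ, ?_⟩
  intro x y hxy
  have hy : y = σ • x := by
    apply RingOfIntegers.ext
    rw [hxy]
    rfl
  rw [hy, ← hσ, Ideal.smul_mem_pointwise_smul_iff]

end Galois

section FieldF

/-- `subSL ρ` is a normal subgroup. -/
instance subSL_normal820 (ρ : Γℚ →* GL (Fin 2) (ZMod 3)) : (subSL ρ).Normal := by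
  unfold subSL
  infer_instance

/-- `fieldF ρ / ℚ` is Galois. -/
theorem isGalois_fieldF820 (ρ : Γℚ →* GL (Fin 2) (ZMod 3)) : IsGalois ℚ (fieldF ρ) := by
  have : Algebra.IsAlgebraic ℚ (AlgebraicClosure ℚ) := AlgebraicClosure.isAlgebraic ℚ
  have : IsAlgClosure ℚ (AlgebraicClosure ℚ) := ⟨inferInstance, inferInstance⟩
  have : IsGalois ℚ (AlgebraicClosure ℚ) := IsAlgClosure.isGalois ℚ _
  exact IsGalois.of_fixedField_normal_subgroup (subSL ρ)

end FieldF

end Fermat.Agent.LT.T7.H820

end

end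
-- ===== PACK-END LT/T7/H820/Places.lean

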