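import Mathlib
import Fermat.Agent.Pack.LT2.E8L2
import Fermat.Agent.Pack.LT2.E7L1
import Fermat.Agent.Pack.S43GC.G0E10L1
import Fermat.Agent.Pack.S43GC.G0E10L2
import Fermat.Agent.Pack.LT2.E0L2
import Fermat.Agent.Pack.LT2.E2L1
import Fermat.Agent.Pack.LT2.E5L3
import Fermat.Agent.Pack.LT2.E6L2
import Fermat.Agent.Pack.LT2.E6L1
import Fermat.Agent.Pack.LT2.E8L3
import Fermat.Agent.Pack.LT2.E3L3
import Fermat.Agent.Pack.LT2.E1L2
import Fermat.Agent.Pack.LT2.E6L0
import Fermat.Agent.Pack.LT2.E8L1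
import Fermat.Agent.Pack.LT2.E8L0
import Fermat.Agent.Pack.LT2.E3L1
import Fermat.Agent.Pack.LT2.E9L2
import Fermat.Agent.Pack.LT2.E9L0

set_option linter.all false

-- ===== PACK-BEGIN LT/A2/H38/Iota.lean
section



/-!
# Row LT, tower A2, branch GALSEED: leaf `IotaC` (helper38), PROVED

A ring homomorphism `ℤ[√-2] → ℂ` (`√-2 ↦ i √2`).
-/

set_option autoImplicit false

noncomputable section

namespace Fermat.Agent.LT.A2.H38

theorem sqrtNegTwo_mul_self :
    (Complex.I * (Real.sqrt 2 : ℂ)) * (Complex.I * (Real.sqrt 2 : ℂ)) = ((-2 : ℤ) : ℂ) := by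
  have h : ((Real.sqrt 2 : ℝ) : ℂ) * ((Real.sqrt 2 : ℝ) : ℂ) = 2 := by
    rw [← Complex.ofReal_mul, Real.mul_self_sqrt (by norm_num)]
    norm_num
  have hI : Complex.I * Complex.I = -1 := Complex.I_mul_I
  calc (Complex.I * (Real.sqrt 2 : ℂ)) * (Complex.I * (Real.sqrt 2 : ℂ))
      = (Complex.I * Complex.I) * (((Real.sqrt 2 : ℝ) : ℂ) * ((Real.sqrt 2 : ℝ) : ℂ)) := by ring
    _ = ((-2 : ℤ) : ℂ) := by rw [hI, h]; norm_num

/-- The embedding `ℤ[√-2] → ℂ`, `√-2 ↦ i √2`. -/
def iota38 : ℤ√(-2) →+* ℂ :=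
  Zsqrtd.lift ⟨Complex.I * (Real.sqrt 2 : ℂ), sqrtNegTwo_mul_self⟩

/-- **Leaf `IotaC`.** -/
theorem iotaC : IotaC := ⟨iota38⟩

end Fermat.Agent.LT.A2.H38

end

end
-- ===== PACK-END LT/A2/H38/Iota.lean

-- ===== PACK-BEGIN LT/A2/H409/CuspOfWhit.lean
section


/-!
# Row LT, tower A2, leaf A2.12 `CuspOfWhitC` (helper409)

OFF-MAIN.  `cuspOfWhitC409 : Fermat.Agent.LT.A2.CuspOfWhitC`.

A function `φ` on `GL₂(𝔸_K)` with a Fourier--Whittaker expansion
`φ(g) = ∑_{α ∈ K^×} W(diag(α,1) g)` (normally convergent on compacta, `W(n(x) g) = ψ(x) W(g)`)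
is cuspidal:

    ∫_D φ(n(x) g) dx = ∑_α W(diag(α,1) g) ∫_D ψ(α x) dx = 0 ,

because `x ↦ ψ(α x)` is a nontrivial character of `𝔸_K` which is trivial on `K`
(orthogonality: translate the fundamental domain `D` by `a` with `ψ(α a) ≠ 1`).
The interchange of `∑` and `∫` is dominated convergence on the finite measure space `D`
(`AdeleQuotC`), with the summable majorant of `IsWhitExp.loc_summable` on the compact `{g}`.
-/

set_option autoImplicit false
set_option linter.style.haveILetI false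

open IsDedekindDomain NumberField AutomorphicForm MeasureTheory
open scoped MatrixGroups Pointwise

noncomputable section

namespace Fermat.Agent.LT.A2.H409

open Fermat.Agent.LT.H130 Fermat.Agent.LT.H556

variable {K : Type} [Field K] [NumberField K]

/-! ## Countability -/

theorem countableField409 (K : Type) [Field K] [NumberField K] : Countable K :=
  Finsupp.Countable.of_moduleFinite (R := ℚ) (M := K)

theorem countableUnits409 (K : Type) [Field K] [NumberField K] : Countable Kˣ :=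
  have := countableField409 K
  Function.Injective.countable (f := fun u : Kˣ => (u : K)) Units.val_injective

theorem countableRange409 (K : Type) [Field K] [NumberField K] :
    Countable ((algebraMap K (A0.Adl K)).toAddMonoidHom.range) := by
  have := countableField409 K
  have h : ((algebraMap K (A0.Adl K)).toAddMonoidHom.range : Set (A0.Adl K)) =
      Set.range (algebraMap K (A0.Adl K)) := by
    ext x
    simp
  have h2 : (Set.range (algebraMap K (A0.Adl K))).Countable := Set.countable_range _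
  rw [← h] at h2
  exact h2.to_subtype

/-! ## The explicit parametrisations -/

/-- The upper unipotent `[[1, x], [0, 1]]`. -/
def nU409 (x : A0.Adl K) : A0.G K :=
  ⟨!![1, x; 0, 1], !![1, -x; 0, 1],
    by ext i j; fin_cases i <;> fin_cases j <;> simp [Matrix.mul_apply, Fin.sum_univ_two],
    by ext i j; fin_cases i <;> fin_cases j <;> simp [Matrix.mul_apply, Fin.sum_univ_two]⟩

/-- The rational diagonal `diag(α, 1)`. -/
def dR409 (α : Kˣ) : A0.G K :=
  ⟨!![algebraMap K (A0.Adl K) (α : K), 0; 0, 1],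
    !![algebraMap K (A0.Adl K) ((α⁻¹ : Kˣ) : K), 0; 0, 1],
    by
      ext i j
      fin_cases i <;> fin_cases j <;>
        simp [Matrix.mul_apply, Fin.sum_univ_two, ← map_mul],
    by
      ext i j
      fin_cases i <;> fin_cases j <;>
        simp [Matrix.mul_apply, Fin.sum_univ_two, ← map_mul]⟩

theorem isUpperUnip_nU409 : IsUpperUnip (nU409 (K := K)) := fun _ => rfl

theorem isRatDiag_dR409 : IsRatDiag (dR409 (K := K)) := fun _ => rfl

theorem eq_nU409 (n : A0.Adl K → A0.G K)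
    (hn : ∀ x : A0.Adl K, (n x : Matrix (Fin 2) (Fin 2) (A0.Adl K)) = !![1, x; 0, 1]) :
    n = nU409 := by
  funext x
  apply Units.ext
  rw [hn x]
  rfl

theorem dR_mul_nU409 (α : Kˣ) (x : A0.Adl K) :
    dR409 α * nU409 x = nU409 (algebraMap K (A0.Adl K) (α : K) * x) * dR409 α := by
  apply Units.ext
  show (!![algebraMap K (A0.Adl K) (α : K), 0; 0, 1] : Matrix (Fin 2) (Fin 2) (A0.Adl K))
      * !![1, x; 0, 1]
    = !![1, algebraMap K (A0.Adl K) (α : K) * x; 0, 1]
      * !![algebraMap K (A0.Adl K) (α : K), 0; 0, 1]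
  ext i j
  fin_cases i <;> fin_cases j <;> simp [Matrix.mul_apply, Fin.sum_univ_two]

/-! ## Orthogonality of the characters of `𝔸_K / K` -/

section Orth

variable [MeasurableSpace (A0.Adl K)] [BorelSpace (A0.Adl K)]

/-- A nontrivial "character" of `𝔸_K`, trivial on `K`, has integral `0` on every fundamental
domain of `K` in `𝔸_K`. -/
theorem setIntegral_char_eq_zero409
    (μ : Measure (A0.Adl K)) [μ.IsAddHaarMeasure] (D : Set (A0.Adl K))
    (hD : IsAddFundamentalDomain ((algebraMap K (A0.Adl K)).toAddMonoidHom.range) D μ)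
    (χ : A0.Adl K → ℂ) (hadd : ∀ x y : A0.Adl K, χ (x + y) = χ x * χ y)
    (htriv : ∀ k : K, χ (algebraMap K (A0.Adl K) k) = 1)
    (a : A0.Adl K) (ha : χ a ≠ 1) :
    ∫ x in D, χ x ∂μ = 0 := by
  have := countableRange409 K
  have hinv : ∀ (γ : (algebraMap K (A0.Adl K)).toAddMonoidHom.range) (x : A0.Adl K),
      χ (γ +ᵥ x) = χ x := by
    rintro ⟨y, k, rfl⟩ x
    show χ ((algebraMap K (A0.Adl K)) k + x) = χ x
    rw [hadd, htriv, one_mul]
  have hD' : IsAddFundamentalDomain ((algebraMap K (A0.Adl K)).toAddMonoidHom.range)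
      (a +ᵥ D) μ := hD.vadd_of_comm a
  have e1 : ∫ x in a +ᵥ D, χ x ∂μ = ∫ x in D, χ x ∂μ := hD'.setIntegral_eq hD hinv
  have e2 : ∫ x in a +ᵥ D, χ x ∂μ = ∫ x in D, χ (a + x) ∂μ := by
    have := (measurePreserving_add_left μ a).setIntegral_image_emb
      (MeasurableEquiv.addLeft a).measurableEmbedding χ D
    rw [← this]
    rfl
  have e3 : ∫ x in D, χ (a + x) ∂μ = χ a * ∫ x in D, χ x ∂μ := by
    simp_rw [hadd a]
    exact integral_const_mul _ _
  have e4 : (χ a - 1) * ∫ x in D, χ x ∂μ = 0 := by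
    rw [sub_mul, one_mul, ← e3, ← e2, e1, sub_self]
  rcases mul_eq_zero.mp e4 with h | h
  · exact absurd (sub_eq_zero.mp h) ha
  · exact h

end Orth

/-! ## The leaf -/

/-- **A2.12 CUSP-OF-WHIT.**  A function with a Fourier--Whittaker expansion is cuspidal. -/
theorem cuspOfWhitC409 : Fermat.Agent.LT.A2.CuspOfWhitC := by
  intro hAQ K _ _ π ψ φ W hP
  letI : MeasurableSpace (A0.Adl K) := borel (A0.Adl K)
  haveI : BorelSpace (A0.Adl K) := ⟨rfl⟩
  intro μ hμ D hD n hn g
  haveI := hμ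
  have hcK := countableUnits409 K
  have hfin : μ D < ⊤ := (hAQ K).1 μ hμ D hD
  haveI : IsFiniteMeasure (μ.restrict D) := ⟨by rwa [Measure.restrict_apply_univ]⟩
  obtain rfl := eq_nU409 n hn
  -- the terms of the expansion of `x ↦ φ (n x * g)`
  have hexp : ∀ x : A0.Adl K, φ (nU409 x * g)
      = ∑' α : Kˣ, ψ (algebraMap K (A0.Adl K) (α : K) * x) * W (dR409 α * g) := by
    intro x
    rw [hP.whit.expansion dR409 isRatDiag_dR409 (nU409 x * g)]
    congr 1
    funext α
    rw [← mul_assoc, dR_mul_nU409, mul_assoc, hP.whit.equiv nU409 isUpperUnip_nU409]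
  -- the summable majorant
  obtain ⟨b, hb, hbW⟩ := hP.whit.loc_summable {g} isCompact_singleton
  have hWb : ∀ α : Kˣ, ‖W (dR409 α * g)‖ ≤ b α :=
    fun α => hbW dR409 isRatDiag_dR409 α g rfl
  have hnorm : ∀ (α : Kˣ) (x : A0.Adl K),
      ‖ψ (algebraMap K (A0.Adl K) (α : K) * x) * W (dR409 α * g)‖ = ‖W (dR409 α * g)‖ := by
    intro α x
    rw [norm_mul, hP.char.norm_one, one_mul]
  have hint : ∀ α : Kˣ, Integrable
      (fun x : A0.Adl K => ψ (algebraMap K (A0.Adl K) (α : K) * x) * W (dR409 α * g))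
      (μ.restrict D) := by
    intro α
    refine Integrable.mono' (integrable_const (b α)) ?_ (ae_of_all _ fun x => ?_)
    · have h1 : Continuous fun x : A0.Adl K => ψ (algebraMap K (A0.Adl K) (α : K) * x) :=
        hP.char.cont.comp (continuous_const.mul continuous_id)
      exact (h1.mul continuous_const).aestronglyMeasurable
    · rw [hnorm]
      exact hWb α
  have hsum : Summable fun α : Kˣ =>
      ∫ x, ‖ψ (algebraMap K (A0.Adl K) (α : K) * x) * W (dR409 α * g)‖ ∂(μ.restrict D) := by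
    simp_rw [hnorm, integral_const, smul_eq_mul]
    exact (Summable.of_nonneg_of_le (fun α => norm_nonneg _) hWb hb).mul_left _
  have hzero : ∀ α : Kˣ,
      ∫ x, ψ (algebraMap K (A0.Adl K) (α : K) * x) * W (dR409 α * g) ∂(μ.restrict D) = 0 := by
    intro α
    rw [integral_mul_const]
    obtain ⟨x₀, hx₀⟩ := hP.char.nontriv
    have h0 : ∫ x in D, ψ (algebraMap K (A0.Adl K) (α : K) * x) ∂μ = 0 := by
      refine setIntegral_char_eq_zero409 μ D hD
        (fun x => ψ (algebraMap K (A0.Adl K) (α : K) * x)) ?_ ?_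
        (algebraMap K (A0.Adl K) ((α⁻¹ : Kˣ) : K) * x₀) ?_
      · intro x y
        show ψ (algebraMap K (A0.Adl K) (α : K) * (x + y)) = _
        rw [mul_add, hP.char.map_add]
      · intro k
        show ψ (algebraMap K (A0.Adl K) (α : K) * algebraMap K (A0.Adl K) k) = 1
        rw [← map_mul, hP.char.triv]
      · show ψ (algebraMap K (A0.Adl K) (α : K)
            * (algebraMap K (A0.Adl K) ((α⁻¹ : Kˣ) : K) * x₀)) ≠ 1
        rw [← mul_assoc, ← map_mul, Units.mul_inv, map_one, one_mul]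
        exact hx₀
    rw [h0, zero_mul]
  have key := (hasSum_integral_of_summable_integral_norm hint hsum).tsum_eq
  simp_rw [hexp]
  rw [← key]
  simp only [hzero, tsum_zero]

end Fermat.Agent.LT.A2.H409

end

end
-- ===== PACK-END LT/A2/H409/CuspOfWhit.lean

-- ===== PACK-BEGIN LT/CFT/H119/UpGen.lean
section



/-!
# Row LT, tower CFT (architect helper53), leaf UP-GEN (helper119): G-UP and G-CYC for EVERY prime

The landed layer G of S55 (`Fermat/Agent/S55/G`) proves the class-module property of the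
`S`-idèle class group `C_S(L)` for `p`-groups with `p` ODD.  In the dévissage `G-UP`
(`S55/G/UpH119`) the oddness of `p` is only passed through to the cyclic layer.  Here the same
dévissage is proved for an arbitrary prime `p` (so `p = 2` is allowed) and an arbitrary
SIDE CONDITION `Adm G L` on the pair (group, field) which is stable under subgroups and under
quotient layers:

* `cyclicLayerGen_of119` : first + second inequality ⟹ cyclic layer;
* `pClassUpperGen_of119` : cyclic layer + Galois descent (`S55.G.DescentSpec`, landed, no `p`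
  inside) ⟹ for every subgroup `H` of a `p`-group `G`: `H¹(H, C_S(L)) = 0` and
  `|H²(H, C_S(L))|` divides `|H|`.

Instances of the side condition are in `AdmTC.lean` (the base field `L^G` is totally complex)
and below (`fun _ _ => True`, which gives back the landed `PClassUpperSpec` for odd `p`).

Imports: Mathlib + plain files on main only.
-/

set_option autoImplicit false
set_option linter.style.haveILetI false
set_option linter.unusedSectionVars false

open scoped NumberField TensorProduct Pointwise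
open IsDedekindDomain CategoryTheory groupCohomology
open Fermat.Agent.S55 Fermat.Agent.S55.G Fermat.Agent.S55.G.UpH119

noncomputable section

namespace Fermat.Agent.LT.CFT.H119

/-- A side condition on a pair (group acting on a number field). -/
abbrev SideCond119 : Type 1 :=
  ∀ (G L : Type) [Group G] [Field L] [NumberField L] [MulSemiringAction G L], Prop

/-- Stability of a side condition under subgroups (same field) and under quotient layers
(`G ⧸ N` acting on the fixed field `L^N`). -/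
structure IsStable119 (Adm : SideCond119) : Prop where
  sub : ∀ (G L : Type) [Group G] [Field L] [NumberField L] [MulSemiringAction G L]
    (H : Subgroup G), Adm G L → Adm H L
  quot : ∀ (G L : Type) [Group G] [Field L] [NumberField L] [MulSemiringAction G L]
    (N : Subgroup G) [N.Normal], Adm G L →
    @Adm (G ⧸ N) (FixN G L N) _ _ _ (quotAct G L N)

/-! ## The generic Specs (shape of `S55/G/Spec.lean`, `p ≠ 2` replaced by `Adm G L`) -/

/-- First inequality, generic side condition. -/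
def FirstIneqGen119 (p : ℕ) (Adm : SideCond119) : Prop :=
  ∀ (S : Finset Nat.Primes) (G L : Type) [Group G] [Finite G] [Field L] [NumberField L]
    [MulSemiringAction G L] [FaithfulSMul G L],
    Adm G L → S.Nonempty → Nat.card G = p →
    Finite (groupCohomology (CRep S G L) 1) ∧ Finite (groupCohomology (CRep S G L) 2) ∧
    Nat.card (groupCohomology (CRep S G L) 2) = p * Nat.card (groupCohomology (CRep S G L) 1)

/-- Second inequality, generic side condition. -/
def SecondIneqGen119 (p : ℕ) [hp : Fact p.Prime] (Adm : SideCond119) : Prop :=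
  ∀ (S : Finset Nat.Primes) (G L : Type) [Group G] [Finite G] [Field L] [NumberField L]
    [MulSemiringAction G L] [FaithfulSMul G L],
    Adm G L → (⟨p, hp.out⟩ : Nat.Primes) ∈ S → Nat.card G = p → IsUnramOut S G L →
    HasFixedRootOfUnity p G L →
    T.CardDvd (groupCohomology (CRep S G L) 2) p

/-- Cyclic layer of degree `p`, generic side condition. -/
def CyclicLayerGen119 (p : ℕ) [hp : Fact p.Prime] (Adm : SideCond119) : Prop :=
  ∀ (S : Finset Nat.Primes) (G L : Type) [Group G] [Finite G] [Field L] [NumberField L]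
    [MulSemiringAction G L] [FaithfulSMul G L],
    Adm G L → (⟨p, hp.out⟩ : Nat.Primes) ∈ S → Nat.card G = p → IsUnramOut S G L →
    HasFixedRootOfUnity p G L →
    Limits.IsZero (groupCohomology (CRep S G L) 1) ∧
      Nat.card (groupCohomology (CRep S G L) 2) = p

/-- The upper bound for `p`-groups, generic side condition. -/
def PClassUpperGen119 (p : ℕ) [hp : Fact p.Prime] (Adm : SideCond119) : Prop :=
  ∀ (S : Finset Nat.Primes) (G L : Type) [Group G] [Finite G] [Field L] [NumberField L]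
    [MulSemiringAction G L] [FaithfulSMul G L],
    Adm G L → (⟨p, hp.out⟩ : Nat.Primes) ∈ S → IsPGroup p G → IsUnramOut S G L →
    HasFixedRootOfUnity p G L →
    ∀ H : Subgroup G,
      Limits.IsZero (groupCohomology (T.resSub (CRep S G L) H) 1) ∧
      T.CardDvd (groupCohomology (T.resSub (CRep S G L) H) 2) (Nat.card H)

/-! ## G-CYC -/

/-- **G-CYC, generic**: the cyclic layer from the two inequalities. -/
theorem cyclicLayerGen_of119 (p : ℕ) [hp : Fact p.Prime] (Adm : SideCond119)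
    (hFI : FirstIneqGen119 p Adm) (hSI : SecondIneqGen119 p Adm) :
    CyclicLayerGen119 p Adm := by
  intro S G L _ _ _ _ _ _ hA hpS hcard hunr hζ
  have hS : S.Nonempty := ⟨_, hpS⟩
  obtain ⟨hf1, hf2, hc⟩ := hFI S G L hA hS hcard
  obtain ⟨_, hd⟩ := hSI S G L hA hpS hcard hunr hζ
  have hpos1 : 0 < Nat.card (groupCohomology (CRep S G L) 1) := Nat.card_pos
  rw [hc] at hd
  have h1 : Nat.card (groupCohomology (CRep S G L) 1) = 1 := by
    have hle : p * Nat.card (groupCohomology (CRep S G L) 1) ≤ p :=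
      Nat.le_of_dvd hp.out.pos hd
    have : Nat.card (groupCohomology (CRep S G L) 1) ≤ 1 := by
      by_contra hcon
      rw [not_le] at hcon
      have : p * 2 ≤ p * Nat.card (groupCohomology (CRep S G L) 1) :=
        Nat.mul_le_mul_left p hcon
      have hp0 := hp.out.pos
      omega
    omega
  refine ⟨?_, ?_⟩
  · rw [ModuleCat.isZero_iff_subsingleton]
    exact (Nat.card_eq_one_iff_unique.1 h1).1
  · rw [hc, h1, mul_one]

/-! ## G-UP -/

section Layer

variable (S : Finset Nat.Primes) (G L : Type) [Group G] [Finite G] [Field L] [NumberField L]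
  [MulSemiringAction G L] [FaithfulSMul G L] (N : Subgroup G) [N.Normal]

/-- The cyclic layer `G ⧸ N` of order `p`: `H¹(G ⧸ N, C_S(L)^N) = 0` and
`|H²(G ⧸ N, C_S(L)^N)|` divides `p`. -/
theorem quot_layerGen119 (p : ℕ) [hp : Fact p.Prime] (Adm : SideCond119)
    (hst : IsStable119 Adm) (hC : CyclicLayerGen119 p Adm) (hD : DescentSpec)
    (hA : Adm G L) (hpS : (⟨p, hp.out⟩ : Nat.Primes) ∈ S) (hunr : IsUnramOut S G L)
    (hζ : HasFixedRootOfUnity p G L) (hcard : Nat.card (G ⧸ N) = p) :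
    Limits.IsZero (groupCohomology ((CRep S G L).quotientToInvariants N) 1) ∧
    T.CardDvd (groupCohomology ((CRep S G L).quotientToInvariants N) 2) p := by
  letI := quotAct G L N
  haveI := faithfulSMul_quot G L N
  obtain ⟨h1, h2⟩ := hC S (G ⧸ N) (FixN G L N) (hst.quot G L N hA) hpS hcard
    (isUnramOut_quot S G L N hunr) (hasFixedRootOfUnity_quot G L N p hζ)
  obtain ⟨e1⟩ := nonempty_iso_quot S G L N hD ⟨_, hpS⟩ hunr 1
  obtain ⟨e2⟩ := nonempty_iso_quot S G L N hD ⟨_, hpS⟩ hunr 2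
  refine ⟨Limits.IsZero.of_iso h1 e1.symm, ?_⟩
  have hfin : Finite (groupCohomology (CRep S (G ⧸ N) (FixN G L N)) 2) :=
    Nat.finite_of_card_ne_zero (by rw [h2]; exact hp.out.ne_zero)
  exact T.H954.cardDvd_of_iso e2.symm ⟨hfin, by rw [h2]⟩

end Layer

section Induction

variable (S : Finset Nat.Primes) (L : Type) [Field L] [NumberField L]

/-- `H¹(G, C_S(L)) = 0` for `p`-groups, by induction on the order. -/
theorem h1_isZeroGen119 (p : ℕ) [hp : Fact p.Prime] (Adm : SideCond119)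
    (hst : IsStable119 Adm) (hC : CyclicLayerGen119 p Adm) (hD : DescentSpec)
    (hpS : (⟨p, hp.out⟩ : Nat.Primes) ∈ S) :
    ∀ (n : ℕ) (G : Type) [Group G] [Finite G] [MulSemiringAction G L] [FaithfulSMul G L],
      Adm G L → Nat.card G = p ^ n → IsUnramOut S G L → HasFixedRootOfUnity p G L →
      Limits.IsZero (groupCohomology (CRep S G L) 1) := by
  intro n
  induction n with
  | zero =>
    intro G _ _ _ _ _ hG _ _
    rw [pow_zero] at hG
    rw [ModuleCat.isZero_iff_subsingleton]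
    exact ⟨fun a b => (Fermat.Agent.S55.H954.H1_eq_zero_of_card_eq_one (CRep S G L) hG a).trans
      (Fermat.Agent.S55.H954.H1_eq_zero_of_card_eq_one (CRep S G L) hG b).symm⟩
  | succ n ih =>
    intro G _ _ _ _ hA hG hunr hζ
    obtain ⟨K, hK⟩ := Sylow.exists_subgroup_card_pow_prime (G := G) p (n := n)
      (by rw [hG]; exact pow_dvd_pow p (Nat.le_succ n))
    have hidx : K.index = p := by
      have h := K.card_mul_index
      rw [hK, hG, pow_succ] at h
      exact Nat.eq_of_mul_eq_mul_left (pow_pos hp.out.pos n) h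
    haveI hKn : K.Normal := Subgroup.normal_of_index_eq_minFac_card (by
      rw [hidx, hG, Nat.pow_minFac (Nat.succ_ne_zero n), hp.out.minFac_eq])
    have hq : Nat.card (G ⧸ K) = p := by rw [← Subgroup.index_eq_card]; exact hidx
    have hKz : Limits.IsZero (groupCohomology (CRep S K L) 1) :=
      ih K (hst.sub G L K hA) hK (fun w hw g hg x => hunr w hw (g : G) hg x)
        (by obtain ⟨ζ, h1, h2⟩ := hζ; exact ⟨ζ, h1, fun g => h2 (g : G)⟩)
    have hQz := (quot_layerGen119 S G L K p Adm hst hC hD hA hpS hunr hζ hq).1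
    have hK0 : ∀ x : H1 (Rep.res K.subtype (CRep S G L)), x = 0 := fun x =>
      (ModuleCat.isZero_iff_subsingleton.1 hKz).elim x 0
    have hQ0 : ∀ x : H1 ((CRep S G L).quotientToInvariants K), x = 0 := fun x =>
      (ModuleCat.isZero_iff_subsingleton.1 hQz).elim x 0
    rw [ModuleCat.isZero_iff_subsingleton]
    exact ⟨fun a b =>
      (Fermat.Agent.S55.H954.H1_eq_zero_of_normal (CRep S G L) K hK0 hQ0 a).trans
        (Fermat.Agent.S55.H954.H1_eq_zero_of_normal (CRep S G L) K hK0 hQ0 b).symm⟩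

end Induction

/-- **G-UP, generic** (every prime `p`, side condition `Adm` stable under subgroups and
quotient layers): from the cyclic layer and Galois descent. -/
theorem pClassUpperGen_of119 (p : ℕ) [hp : Fact p.Prime] (Adm : SideCond119)
    (hst : IsStable119 Adm) (hC : CyclicLayerGen119 p Adm) (hD : DescentSpec) :
    PClassUpperGen119 p Adm := by
  intro S G L _ _ _ _ _ _ hA hpS hG hunr hζ
  have hsub : ∀ H : Subgroup G, ∃ n, Nat.card H = p ^ n := fun H =>
    IsPGroup.iff_card.1 (hG.to_subgroup H)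
  have hunrH : ∀ H : Subgroup G, IsUnramOut S H L := fun H w hw g hg x =>
    hunr w hw (g : G) hg x
  have hζH : ∀ H : Subgroup G, HasFixedRootOfUnity p H L := fun H => by
    obtain ⟨ζ, h1, h2⟩ := hζ
    exact ⟨ζ, h1, fun g => h2 (g : G)⟩
  have hAH : ∀ H : Subgroup G, Adm H L := fun H => hst.sub G L H hA
  have h1 : ∀ H : Subgroup G,
      Limits.IsZero (groupCohomology (T.resSub (CRep S G L) H) 1) := by
    intro H
    obtain ⟨n, hn⟩ := hsub H
    exact h1_isZeroGen119 S L p Adm hst hC hD hpS n H (hAH H) hn (hunrH H) (hζH H)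
  have h2 : ∀ (H : Subgroup G) (K : Subgroup H) [K.Normal], (Nat.card (H ⧸ K)).Prime →
      T.CardDvd (groupCohomology ((T.resSub (CRep S G L) H).quotientToInvariants K) 2)
        (Nat.card (H ⧸ K)) := by
    intro H K _ hprime
    obtain ⟨n, hn⟩ := hsub H
    have hdvd : Nat.card (H ⧸ K) ∣ p ^ n := by
      rw [← hn, ← Subgroup.index_eq_card]
      exact K.index_dvd_card
    have hqp : Nat.card (H ⧸ K) = p :=
      (Nat.prime_dvd_prime_iff_eq hprime hp.out).1 (hprime.dvd_of_dvd_pow hdvd)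
    rw [hqp]
    exact (quot_layerGen119 S H L K p Adm hst hC hD (hAH H) hpS (hunrH H) (hζH H) hqp).2
  have hugly := T.H954.ugly ℤ G (CRep S G L) h1 h2
  exact fun H => ⟨h1 H, hugly H⟩

/-- **G-UP, generic**, from the two inequalities and descent. -/
theorem pClassUpperGen_of_inequalities119 (p : ℕ) [hp : Fact p.Prime] (Adm : SideCond119)
    (hst : IsStable119 Adm) (hFI : FirstIneqGen119 p Adm) (hSI : SecondIneqGen119 p Adm)
    (hD : DescentSpec) : PClassUpperGen119 p Adm :=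
  pClassUpperGen_of119 p Adm hst (cyclicLayerGen_of119 p Adm hFI hSI) hD

/-! ## Sanity: the trivial side condition gives back the landed Specs for odd `p` -/

/-- The trivial side condition. -/
def admTrue119 : SideCond119 := fun _ _ _ _ _ _ => True

theorem isStable_admTrue119 : IsStable119 admTrue119 :=
  ⟨fun _ _ _ _ _ _ _ _ => trivial, fun _ _ _ _ _ _ _ _ _ => trivial⟩

/-- The landed `CyclicLayerSpec` is the generic one with the trivial side condition at every odd
prime. -/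
theorem cyclicLayerGen_of_spec119 (hC : CyclicLayerSpec) (p : ℕ) [hp : Fact p.Prime]
    (hp2 : p ≠ 2) : CyclicLayerGen119 p admTrue119 :=
  fun S G L _ _ _ _ _ _ _ hpS hcard hunr hζ => hC p hp2 S G L hpS hcard hunr hζ

/-- The generic upper bound with the trivial side condition at every odd prime is the landed
`PClassUpperSpec`. -/
theorem pClassUpperSpec_of_gen119
    (h : ∀ (p : ℕ) [Fact p.Prime], p ≠ 2 → PClassUpperGen119 p admTrue119) :
    PClassUpperSpec :=
  fun p _ hp2 S G L _ _ _ _ _ _ hpS hG hunr hζ => h p hp2 S G L trivial hpS hG hunr hζ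

end Fermat.Agent.LT.CFT.H119

end
end
-- ===== PACK-END LT/CFT/H119/UpGen.lean

-- ===== PACK-BEGIN LT/T2/H465/GPSCoreCut.lean
section








/-!
# Row LT, tower T2, leaf T2.23 = `LeafT03` (`GPSCoreT`, class of T5), owner helper465: THE CUT

OFF-MAIN.  Definitions, frozen sub-leaf Props and PROVED tops.  No hole, nothing assumed.
Typed against byte-identical copies of `LT/H556/A0.lean` (66d3374a), `LT/T1/Spec.lean`
(e8ae48d6), `LT/T2/Spec.lean` v3 (b934629a), `LT/T2/SpecTau.lean` (4d2b0fc2),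
`LT/T2/H386/GPSSpec.lean` (fb5aa9e8), `LT/T2/H767/LocalL2Spec.lean` (50e6aa79).

## The point

The elementary route of helper386 to `GPSCore` (finite differences of the test function along
the conjugates `x⁻¹ n(v) x`, no Poisson summation) and the route of helper767 to `LocalL2`
(Cauchy--Schwarz and THE COUNT `H767.CountC`) use of the class of functions ONLY

* for the test function `f`: continuity, smoothness at infinity, compact support, left and right
  invariance under `U(𝔫)`  (`IsTestCore`; NO condition on `K_∞`);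
* for the automorphic function `ψ`: continuity, boundedness, left invariance under `GL₂(K)`
  (`IsAutCore`; NO level, NO `K_∞`-type), and for `LocalL2` the invariance under ONE central
  element `r` with `‖det r‖ = 2` (`T2.IsRayGen`).

So the SAME three proofs give the estimate in the class of A0 (`T2.GPSCore`) and in the class of
T5 (`T2.GPSCoreT`).  This file states the three sub-leaves in the CORE form and proves:

* `fdBound_of_core : FDBoundCore K 𝔫 → H386.FDBound K 𝔫`,
* `kernelEst_of_core : KernelEstCore K 𝔫 → H386.KernelEst K 𝔫`,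
* `gpsCoreT_of_core : KernelEstCore K 𝔫 → LocalL2Core K → T2.GPSCoreT K 𝔫 τ`,
* `gpsCore_of_core : T2.LeafT14 K → KernelEstCore K 𝔫 → LocalL2Core K → T2.GPSCore K 𝔫`,
* `leafT03_of_core : LeafFDCore K → LeafSoft1Core K → H767.LeafCount K → LeafIntCore K →
    T2.LeafT03 K`   (THE TOP of T2.23),
* `leaf03_of_core` (the same leaves give `T2.Leaf03`, with `T2.LeafT14`).

`H767.CountC` is independent of the class and is used as it is.
-/

set_option autoImplicit false

open IsDedekindDomain NumberField MeasureTheory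
open Fermat.Agent.LT.H556.A0

noncomputable section

namespace Fermat.Agent.LT.T2.H465

open Fermat.Agent.LT.T2

attribute [local instance] Fermat.Agent.LT.T2.borelG

variable {K : Type} [Field K] [NumberField K]

/-! ## 1. The core classes -/

/-- The hypotheses on a test function which the estimate uses: no condition at `K_∞`. -/
structure IsTestCore (𝔫 : Ideal (𝓞 K)) (f : G K → ℂ) : Prop where
  cont : Continuous f
  smooth : IsSmoothAtInf f
  cpt : HasCompactSupport f
  level_right : ∀ u : G K, InLevelGroup 𝔫 u → ∀ g : G K, f (g * u) = f g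
  level_left : ∀ u : G K, InLevelGroup 𝔫 u → ∀ g : G K, f (u * g) = f g

/-- The hypotheses on an automorphic function which the estimate uses: no level, no `K_∞`-type,
no invariance under scalars. -/
structure IsAutCore (ψ : G K → ℂ) : Prop where
  cont : Continuous ψ
  bdd : ∃ C : ℝ, ∀ g : G K, ‖ψ g‖ ≤ C
  left_inv : ∀ (γ : GL (Fin 2) K) (g : G K),
    ψ (Matrix.GeneralLinearGroup.map (algebraMap K (Adl K)) γ * g) = ψ g

theorem isTestCore_of_isTestFn {𝔫 : Ideal (𝓞 K)} {f : G K → ℂ} (h : IsTestFn 𝔫 f) :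
    IsTestCore 𝔫 f :=
  ⟨h.cont, h.smooth, h.cpt, h.level_right, h.level_left⟩

theorem isTestCore_of_isTestT {𝔫 : Ideal (𝓞 K)} {τ : G K → ℂ} {f : G K → ℂ}
    (h : IsTestT 𝔫 τ f) : IsTestCore 𝔫 f :=
  ⟨h.cont, h.smooth, h.cpt, h.level_right, h.level_left⟩

theorem isAutCore_of_isAutFn {𝔫 : Ideal (𝓞 K)} {ψ : G K → ℂ} (h : IsAutFn 𝔫 ψ) :
    IsAutCore ψ :=
  ⟨h.cont, h.bdd, h.left_inv⟩

theorem isAutCore_of_isAutT {𝔫 : Ideal (𝓞 K)} {τ : G K → ℂ} {r : G K} {ψ : G K → ℂ}
    (h : IsAutT 𝔫 τ r ψ) : IsAutCore ψ :=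
  ⟨h.cont, h.bdd, h.left_inv⟩

/-! ## 2. The three Props in the core form -/

/-- `H386.FDBound` for the core class of test functions (same statement, fewer hypotheses on
`f`). -/
def FDBoundCore (K : Type) [Field K] [NumberField K] (𝔫 : Ideal (𝓞 K)) : Prop :=
  ∀ f : G K → ℂ, IsTestCore 𝔫 f → ∀ 𝒟 : Set (Adl K), IsCompact 𝒟 → ∀ N : ℕ,
    ∃ (C c : ℝ) (M : ℕ) (W : Set (G K)), 0 ≤ C ∧ 0 < c ∧ IsCompact W ∧
      ∀ (x : G K) (t : ℝ), T1.HasHeight K x t → c ≤ t →
        ∃ (β : GL (Fin 2) K) (x' : G K), T1.IsUpperRat K β ∧ x = T1.ratG K β * x' ∧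
          (∀ v ∈ 𝒟, H386.conjUnip386 x' v ∈ W) ∧
          ∀ vs : List (Adl K), vs.length = M → (∀ v ∈ vs, v ∈ 𝒟) →
            ∀ h : G K, ‖H386.fdiff386 x' vs f h‖ * t ^ N ≤ C

/-- `H386.KernelEst` for the core classes. -/
def KernelEstCore (K : Type) [Field K] [NumberField K] (𝔫 : Ideal (𝓞 K)) : Prop :=
  ∀ (F : Frame K) (f : G K → ℂ), IsTestCore 𝔫 f → ∀ N : ℕ,
    ∃ (C c : ℝ) (Ω : Set (G K)), 0 ≤ C ∧ 0 < c ∧ IsCompact Ω ∧
      ∀ ψ Ψ : G K → ℂ, IsAutCore ψ → IsConstTerm ψ Ψ →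
        ∀ (x : G K) (t : ℝ), T1.HasHeight K x t → c ≤ t →
          ‖conv F f ψ x - conv F f Ψ x‖ * t ^ N ≤ C * ∫ h in Ω, ‖ψ (x * h)‖ ∂F.μ

/-- `H386.LocalL2` for the core class: `ψ` continuous, bounded, left `GL₂(K)`-invariant and
invariant under the ray generator of the frame. -/
def LocalL2Core (K : Type) [Field K] [NumberField K] : Prop :=
  ∀ (R : FrameR K) (Ω : Set (G K)), IsCompact Ω →
    ∃ C c : ℝ, 0 < c ∧ ∀ ψ : G K → ℂ, IsAutCore ψ → (∀ g : G K, ψ (g * R.r) = ψ g) →
      ∀ (x : G K) (t : ℝ), T1.HasHeight K x t → c ≤ t →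
        ∫ h in Ω, ‖ψ (x * h)‖ ∂(R.F.μ) ≤ C * t * Real.sqrt (nsq R.F ψ)

/-! ## 3. PROVED: the core forms give the forms of the two classes -/

theorem fdBound_of_core {𝔫 : Ideal (𝓞 K)} (h : FDBoundCore K 𝔫) : H386.FDBound K 𝔫 :=
  fun f hf => h f (isTestCore_of_isTestFn hf)

theorem kernelEst_of_core {𝔫 : Ideal (𝓞 K)} (h : KernelEstCore K 𝔫) : H386.KernelEst K 𝔫 := by
  intro F f hf N
  obtain ⟨C, c, Ω, hC, hc, hΩ, hK⟩ := h F f (isTestCore_of_isTestFn hf) N
  exact ⟨C, c, Ω, hC, hc, hΩ, fun ψ Ψ hψ hΨ => hK ψ Ψ (isAutCore_of_isAutFn hψ) hΨ⟩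

/-- The estimate for the core classes. -/
def GPSCoreCore (K : Type) [Field K] [NumberField K] (𝔫 : Ideal (𝓞 K)) : Prop :=
  ∀ (R : FrameR K) (f : G K → ℂ), IsTestCore 𝔫 f → ∀ N : ℕ,
    ∃ C c : ℝ, 0 < c ∧ ∀ ψ Ψ : G K → ℂ, IsAutCore ψ → (∀ g : G K, ψ (g * R.r) = ψ g) →
      IsConstTerm ψ Ψ →
      ∀ (x : G K) (t : ℝ), T1.HasHeight K x t → c ≤ t →
        ‖conv R.F f ψ x - conv R.F f Ψ x‖ * t ^ N ≤ C * Real.sqrt (nsq R.F ψ)

/-- TOP of the first cut, core form (the computation of `H386.gpsCore_of_kernel_local`). -/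
theorem gpsCoreCore_of_core {𝔫 : Ideal (𝓞 K)} (h1 : KernelEstCore K 𝔫) (h2 : LocalL2Core K) :
    GPSCoreCore K 𝔫 := by
  intro R f hf N
  obtain ⟨C₁, c₁, Ω, hC₁, hc₁, hΩ, hK⟩ := h1 R.F f hf (N + 1)
  obtain ⟨C₂, c₂, hc₂, hL⟩ := h2 R Ω hΩ
  refine ⟨C₁ * C₂, max c₁ c₂, lt_max_of_lt_left hc₁, ?_⟩
  intro ψ Ψ hψ hr hΨ x t hx ht
  have ht₁ : c₁ ≤ t := le_trans (le_max_left _ _) ht
  have ht₂ : c₂ ≤ t := le_trans (le_max_right _ _) ht
  have htpos : 0 < t := lt_of_lt_of_le hc₁ ht₁
  have hA := hK ψ Ψ hψ hΨ x t hx ht₁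
  have hB := hL ψ hψ hr x t hx ht₂
  have hC : ‖conv R.F f ψ x - conv R.F f Ψ x‖ * t ^ (N + 1)
      ≤ C₁ * (C₂ * t * Real.sqrt (nsq R.F ψ)) :=
    le_trans hA (mul_le_mul_of_nonneg_left hB hC₁)
  have hD : (‖conv R.F f ψ x - conv R.F f Ψ x‖ * t ^ N) * t
      ≤ (C₁ * C₂ * Real.sqrt (nsq R.F ψ)) * t := by
    calc (‖conv R.F f ψ x - conv R.F f Ψ x‖ * t ^ N) * t
        = ‖conv R.F f ψ x - conv R.F f Ψ x‖ * t ^ (N + 1) := by ring
      _ ≤ C₁ * (C₂ * t * Real.sqrt (nsq R.F ψ)) := hC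
      _ = (C₁ * C₂ * Real.sqrt (nsq R.F ψ)) * t := by ring
  exact le_of_mul_le_mul_right hD htpos

/-- The estimate in the class of T5. -/
theorem gpsCoreT_of_gpsCoreCore {𝔫 : Ideal (𝓞 K)} (τ : G K → ℂ) (h : GPSCoreCore K 𝔫) :
    GPSCoreT K 𝔫 τ := by
  intro R f hf N
  obtain ⟨C, c, hc, hE⟩ := h R f (isTestCore_of_isTestT hf) N
  exact ⟨C, c, hc, fun ψ Ψ hψ hΨ => hE ψ Ψ (isAutCore_of_isAutT hψ) hψ.ray hΨ⟩

theorem gpsCoreT_of_core {𝔫 : Ideal (𝓞 K)} (τ : G K → ℂ) (h1 : KernelEstCore K 𝔫)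
    (h2 : LocalL2Core K) : GPSCoreT K 𝔫 τ :=
  gpsCoreT_of_gpsCoreCore τ (gpsCoreCore_of_core h1 h2)

/-- The estimate in the class of A0 (`T2.LeafT14`: a ray generator exists and the functions of
the class of A0 are invariant under it). -/
theorem gpsCore_of_gpsCoreCore (h14 : LeafT14 K) {𝔫 : Ideal (𝓞 K)} (h : GPSCoreCore K 𝔫) :
    GPSCore K 𝔫 := by
  intro F f hf N
  obtain ⟨r, hr⟩ := h14.1
  obtain ⟨C, c, hc, hE⟩ := h ⟨F, r, hr⟩ f (isTestCore_of_isTestFn hf) N
  refine ⟨C, c, hc, fun ψ Ψ hψ hΨ => hE ψ Ψ (isAutCore_of_isAutFn hψ) ?_ hΨ⟩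
  intro g
  exact h14.2 ψ hψ.arch_scalar r hr g

theorem gpsCore_of_core (h14 : LeafT14 K) {𝔫 : Ideal (𝓞 K)} (h1 : KernelEstCore K 𝔫)
    (h2 : LocalL2Core K) : GPSCore K 𝔫 :=
  gpsCore_of_gpsCoreCore h14 (gpsCoreCore_of_core h1 h2)

/-- `H386.LocalL2` (class of A0) from the core form. -/
theorem localL2_of_core (h14 : LeafT14 K) {𝔫 : Ideal (𝓞 K)} (h : LocalL2Core K) :
    H386.LocalL2 K 𝔫 := by
  intro F Ω hΩ
  obtain ⟨r, hr⟩ := h14.1
  obtain ⟨C, c, hc, hE⟩ := h ⟨F, r, hr⟩ Ω hΩ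
  refine ⟨C, c, hc, fun ψ hψ => hE ψ (isAutCore_of_isAutFn hψ) ?_⟩
  intro g
  exact h14.2 ψ hψ.arch_scalar r hr g

/-! ## 4. The sub-leaves of T2.23 -/

/-- **T2.23a** = T2.03a in the core form: THE ANALYTIC CORE.  The proof of `H386.LeafFD`
(helper386 memo, steps (i) - (iv)) uses of `IsTestFn` the fields `cont`, `smooth`, `cpt`,
`level_right`, `level_left` only. -/
def LeafFDCore (K : Type) [Field K] [NumberField K] : Prop :=
  T1.T1Out K → ∀ 𝔫 : Ideal (𝓞 K), 𝔫 ≠ ⊥ → FDBoundCore K 𝔫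

/-- **T2.23b** = T2.03b in the core form: the proof of `H386.LeafSoft1` uses of `IsAutFn` the
fields `cont`, `bdd`, `left_inv` only (upper triangular `γ`). -/
def LeafSoft1Core (K : Type) [Field K] [NumberField K] : Prop :=
  T1.T1Out K → ∀ 𝔫 : Ideal (𝓞 K), 𝔫 ≠ ⊥ → FDBoundCore K 𝔫 → KernelEstCore K 𝔫

/-- **T2.23c** INTEGRATION in the core form: THE COUNT gives the local `L²` bound for the
functions invariant under the ray generator (tiling of `GL₂(𝔸_K)` by the translates
`γ⁻¹ D r^j` of the fundamental domain of the frame).  OWNER helper465. -/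
def LeafIntCore (K : Type) [Field K] [NumberField K] : Prop :=
  T1.T1Out K → H767.CountC K → LocalL2Core K

/-- **THE TOP of T2.23**: `T2.LeafT03` from the core leaves and THE COUNT. -/
theorem leafT03_of_core (hFD : LeafFDCore K) (hS : LeafSoft1Core K) (hCount : H767.LeafCount K)
    (hInt : LeafIntCore K) : LeafT03 K := by
  intro hT1 𝔫 τ h𝔫 _
  exact gpsCoreT_of_core τ (hS hT1 𝔫 h𝔫 (hFD hT1 𝔫 h𝔫)) (hInt hT1 (hCount hT1))

/-- The same leaves give T2.03 (class of A0), with `T2.LeafT14`. -/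
theorem leaf03_of_core (h14 : LeafT14 K) (hFD : LeafFDCore K) (hS : LeafSoft1Core K)
    (hCount : H767.LeafCount K) (hInt : LeafIntCore K) : Leaf03 K := by
  intro hT1 𝔫 h𝔫
  exact gpsCore_of_core h14 (hS hT1 𝔫 h𝔫 (hFD hT1 𝔫 h𝔫)) (hInt hT1 (hCount hT1))

/-- The leaves of helper386 and helper767 follow from the core leaves. -/
theorem leafFD_of_core (h : LeafFDCore K) : H386.LeafFD K :=
  fun hT1 𝔫 h𝔫 => fdBound_of_core (h hT1 𝔫 h𝔫)

theorem leafLocalL2_of_core (h14 : LeafT14 K) (hCount : H767.LeafCount K)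
    (hInt : LeafIntCore K) : H386.LeafLocalL2 K :=
  fun hT1 _ _ => localL2_of_core h14 (hInt hT1 (hCount hT1))

end Fermat.Agent.LT.T2.H465

end

end
-- ===== PACK-END LT/T2/H465/GPSCoreCut.lean

-- ===== PACK-BEGIN LT/T2/H729/ContrLeaf.lean
section








/-!
# Row LT, tower T2, leaf T2.03a, sub-leaf T2.03a.1 (helper729): the leaf, VERBATIM

OFF-MAIN.  `leafContr729 K : H511.LeafContr K` (= `T1.T1Out K → ∀ 𝔫 ≠ ⊥, H511.ContrC K 𝔫`) and
`contrC729 : H511.ContrC K 𝔫` (without `T1.T1Out`), against `LT/T2/H511/FDSpec.lean` (helper511,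
sha256 ad79b18a) and `LT/T2/H386/GPSSpec.lean` (helper386, sha256 fb5aa9e8).  The proof is
`contr729` of `Contr.lean`, which depends on Mathlib and `A0` only.
-/

set_option autoImplicit false

open IsDedekindDomain NumberField
open Fermat.Agent.LT.H556.A0

namespace Fermat.Agent.LT.T2.H729

variable (K : Type) [Field K] [NumberField K]

/-- **T2.03a.1 CONTR**, without hypotheses on the tower T1. -/
theorem contrC729 (𝔫 : Ideal (𝓞 K)) (h𝔫 : 𝔫 ≠ ⊥) : Fermat.Agent.LT.T2.H511.ContrC K 𝔫 := by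
  intro Ω hΩ C hC
  obtain ⟨m, hm, h⟩ := contr729 𝔫 h𝔫 Ω hΩ C hC
  exact ⟨m, hm, fun ω hω u hu =>
    h ω hω u hu (Fermat.Agent.LT.T2.H386.unip386
      (Fermat.Agent.LT.T2.H511.finPart511 ((m : Adl K) * u))) rfl rfl⟩

/-- **T2.03a.1, the leaf VERBATIM.** -/
theorem leafContr729 : Fermat.Agent.LT.T2.H511.LeafContr K :=
  fun _ 𝔫 h𝔫 => contrC729 K 𝔫 h𝔫

end Fermat.Agent.LT.T2.H729

end
-- ===== PACK-END LT/T2/H729/ContrLeaf.lean

-- ===== PACK-BEGIN LT/T2/H386/Soft1B.lean
section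







/-!
# Row LT, T2.03b (helper386): the constant term

OFF-MAIN.  From the quantifiers of `T2.IsConstTerm`: the constant term `Ψ` of an automorphic
function `ψ` is left invariant under `N(𝔸_K)` and under the upper triangular rational matrices,
it is bounded and continuous.
-/

set_option autoImplicit false

open IsDedekindDomain NumberField MeasureTheory
open scoped Pointwise
open Fermat.Agent.LT.H556.A0

noncomputable section

namespace Fermat.Agent.LT.T2.H386

open Fermat.Agent.LT.T2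

attribute [local instance] Fermat.Agent.LT.T2.borelG

variable {K : Type} [Field K] [NumberField K]

/-- The Borel `σ`-algebra of the adeles (local instance of the files of helper386). -/
local instance borelAdl386 : MeasurableSpace (Adl K) := borel (Adl K)

local instance borelSpaceAdl386 : BorelSpace (Adl K) := ⟨rfl⟩

local instance borelSpaceG386 : BorelSpace (G K) := ⟨rfl⟩

/-- The defining equation of the constant term, for `unip386`. -/
theorem constTerm_eq386 {ψ Ψ : G K → ℂ} (h : IsConstTerm ψ Ψ) (ν : Measure (Adl K))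
    (hν : ν.IsAddHaarMeasure) (D : Set (Adl K))
    (hD : IsAddFundamentalDomain (T1.princ K) D ν) (g : G K) :
    ∫ x in D, ψ (unip386 x * g) ∂ν = (((ν D).toReal : ℝ) : ℂ) * Ψ g :=
  h ν hν D hD unip386 unip386_coe g

/-- `Ψ` is left invariant under `N(𝔸_K)`. -/
theorem constTerm_unip386 {ψ Ψ : G K → ℂ} (h : IsConstTerm ψ Ψ) (ν : Measure (Adl K))
    (hν : ν.IsAddHaarMeasure) (D : Set (Adl K))
    (hD : IsAddFundamentalDomain (T1.princ K) D ν) (hD0 : ν D ≠ 0) (hDtop : ν D ≠ ⊤)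
    (u : Adl K) (g : G K) : Ψ (unip386 u * g) = Ψ g := by
  have := hν
  have hD' : IsAddFundamentalDomain (T1.princ K) (u +ᵥ D) ν := hD.vadd_of_comm u
  have h1 := constTerm_eq386 h ν hν (u +ᵥ D) hD' g
  have h2 := constTerm_eq386 h ν hν D hD (unip386 u * g)
  have h3 : ∫ x in u +ᵥ D, ψ (unip386 x * g) ∂ν
      = ∫ y in D, ψ (unip386 y * (unip386 u * g)) ∂ν := by
    have himg : u +ᵥ D = (fun y => u + y) '' D := rfl
    rw [himg, (measurePreserving_add_left ν u).setIntegral_image_emb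
      (MeasurableEquiv.addLeft u).measurableEmbedding]
    refine setIntegral_congr_fun₀ hD.nullMeasurableSet ?_
    intro y _
    show ψ (unip386 (u + y) * g) = ψ (unip386 y * (unip386 u * g))
    rw [add_comm, unip386_add, mul_assoc]
  have h4 : ν (u +ᵥ D) = ν D := measure_vadd ν u D
  rw [h3, h2, h4] at h1
  have hne : (((ν D).toReal : ℝ) : ℂ) ≠ 0 := by
    have : (ν D).toReal ≠ 0 := ENNReal.toReal_ne_zero.mpr ⟨hD0, hDtop⟩
    exact_mod_cast this
  exact mul_left_cancel₀ hne h1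

/-! ## Invariance under the upper triangular rational matrices -/

/-- Multiplication by a nonzero element of `K` as a homeomorphism of `𝔸_K`. -/
def scaleHomeo386 (κ : K) (hκ : κ ≠ 0) : Adl K ≃ₜ Adl K where
  toFun x := algebraMap K (Adl K) κ * x
  invFun x := algebraMap K (Adl K) κ⁻¹ * x
  left_inv x := by
    show algebraMap K (Adl K) κ⁻¹ * (algebraMap K (Adl K) κ * x) = x
    rw [← mul_assoc, ← map_mul, inv_mul_cancel₀ hκ, map_one, one_mul]
  right_inv x := by
    show algebraMap K (Adl K) κ * (algebraMap K (Adl K) κ⁻¹ * x) = x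
    rw [← mul_assoc, ← map_mul, mul_inv_cancel₀ hκ, map_one, one_mul]
  continuous_toFun := continuous_const.mul continuous_id
  continuous_invFun := continuous_const.mul continuous_id

theorem scaleHomeo386_apply (κ : K) (hκ : κ ≠ 0) (x : Adl K) :
    scaleHomeo386 κ hκ x = algebraMap K (Adl K) κ * x := rfl

/-- The same map as an additive equivalence. -/
def scaleAddEquiv386 (κ : K) (hκ : κ ≠ 0) : Adl K ≃+ Adl K :=
  { (scaleHomeo386 κ hκ).toEquiv with
    map_add' := fun x y => by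
      show algebraMap K (Adl K) κ * (x + y)
        = algebraMap K (Adl K) κ * x + algebraMap K (Adl K) κ * y
      rw [mul_add] }

/-- Multiplication by `κ⁻¹` on the principal adeles. -/
def scalePrinc386 (κ : K) (hκ : κ ≠ 0) : T1.princ K ≃ T1.princ K where
  toFun g := ⟨algebraMap K (Adl K) κ⁻¹ * (g : Adl K), by
    obtain ⟨ξ, hξ⟩ := g.2
    exact ⟨κ⁻¹ * ξ, by
      show algebraMap K (Adl K) (κ⁻¹ * ξ) = algebraMap K (Adl K) κ⁻¹ * (g : Adl K)
      rw [map_mul]
      congr 1⟩⟩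
  invFun g := ⟨algebraMap K (Adl K) κ * (g : Adl K), by
    obtain ⟨ξ, hξ⟩ := g.2
    exact ⟨κ * ξ, by
      show algebraMap K (Adl K) (κ * ξ) = algebraMap K (Adl K) κ * (g : Adl K)
      rw [map_mul]
      congr 1⟩⟩
  left_inv g := by
    apply Subtype.ext
    show algebraMap K (Adl K) κ * (algebraMap K (Adl K) κ⁻¹ * (g : Adl K)) = g
    rw [← mul_assoc, ← map_mul, mul_inv_cancel₀ hκ, map_one, one_mul]
  right_inv g := by
    apply Subtype.ext
    show algebraMap K (Adl K) κ⁻¹ * (algebraMap K (Adl K) κ * (g : Adl K)) = g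
    rw [← mul_assoc, ← map_mul, inv_mul_cancel₀ hκ, map_one, one_mul]

/-- The image of a fundamental domain under multiplication by `κ ∈ Kˣ` is a fundamental domain
for the image measure. -/
theorem isAddFundamentalDomain_scale386 (ν : Measure (Adl K)) (D : Set (Adl K))
    (hD : IsAddFundamentalDomain (T1.princ K) D ν) (κ : K) (hκ : κ ≠ 0) :
    IsAddFundamentalDomain (T1.princ K) ((scaleHomeo386 κ hκ) '' D)
      (Measure.map (scaleHomeo386 κ hκ) ν) := by
  have hqmp : Measure.QuasiMeasurePreserving (scaleHomeo386 κ hκ).toEquiv.symm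
      (Measure.map (scaleHomeo386 κ hκ) ν) ν := by
    have hmp : MeasurePreserving (scaleHomeo386 κ hκ).toMeasurableEquiv ν
        (Measure.map (scaleHomeo386 κ hκ) ν) :=
      ⟨(scaleHomeo386 κ hκ).toMeasurableEquiv.measurable, rfl⟩
    exact (hmp.symm _).quasiMeasurePreserving
  refine hD.image_of_equiv (scaleHomeo386 κ hκ).toEquiv hqmp (scalePrinc386 κ hκ) ?_
  intro g x
  show algebraMap K (Adl K) κ * (algebraMap K (Adl K) κ⁻¹ * (g : Adl K) + x)
    = (g : Adl K) + algebraMap K (Adl K) κ * x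
  rw [mul_add, ← mul_assoc, ← map_mul, mul_inv_cancel₀ hκ, map_one, one_mul]

/-- Commutation of `n(v)` with an upper triangular rational matrix. -/
theorem unip386_mul_ratG (β : GL (Fin 2) K) (hβ : T1.IsUpperRat K β) (κ : K)
    (hκ : (β : Matrix (Fin 2) (Fin 2) K) 0 0 * κ = (β : Matrix (Fin 2) (Fin 2) K) 1 1)
    (v : Adl K) :
    unip386 v * T1.ratG K β = T1.ratG K β * unip386 (algebraMap K (Adl K) κ * v) := by
  have h10 : (β : Matrix (Fin 2) (Fin 2) K) 1 0 = 0 := hβ
  apply Units.ext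
  rw [Units.val_mul, Units.val_mul, unip386_coe, unip386_coe]
  have hcoe : ((T1.ratG K β : G K) : Matrix (Fin 2) (Fin 2) (Adl K))
      = (β : Matrix (Fin 2) (Fin 2) K).map (algebraMap K (Adl K)) := rfl
  rw [hcoe]
  have hκ' : algebraMap K (Adl K) ((β : Matrix (Fin 2) (Fin 2) K) 0 0) * algebraMap K (Adl K) κ
      = algebraMap K (Adl K) ((β : Matrix (Fin 2) (Fin 2) K) 1 1) := by
    rw [← map_mul, hκ]
  ext i j
  fin_cases i <;> fin_cases j
  · simp [Matrix.mul_apply, Fin.sum_univ_two, h10]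
  · simp only [Fin.zero_eta, Fin.isValue, Fin.mk_one, Matrix.mul_apply, Fin.sum_univ_two,
      Matrix.of_apply, Matrix.cons_val', Matrix.cons_val_zero, Matrix.cons_val_fin_one,
      Matrix.cons_val_one, Matrix.map_apply, one_mul, mul_one]
    rw [← mul_assoc, hκ']
    ring
  · simp [Matrix.mul_apply, Fin.sum_univ_two, h10]
  · simp [Matrix.mul_apply, Fin.sum_univ_two, h10]

/-- The ratio `κ = d / a` of the diagonal entries of an upper triangular rational matrix. -/
theorem exists_ratio386 (β : GL (Fin 2) K) (hβ : T1.IsUpperRat K β) :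
    ∃ κ : K, κ ≠ 0 ∧
      (β : Matrix (Fin 2) (Fin 2) K) 0 0 * κ = (β : Matrix (Fin 2) (Fin 2) K) 1 1 := by
  have h10 : (β : Matrix (Fin 2) (Fin 2) K) 1 0 = 0 := hβ
  have hdet : (β : Matrix (Fin 2) (Fin 2) K).det ≠ 0 :=
    ((Matrix.isUnit_iff_isUnit_det _).mp β.isUnit).ne_zero
  rw [Matrix.det_fin_two, h10, mul_zero, sub_zero] at hdet
  have ha : (β : Matrix (Fin 2) (Fin 2) K) 0 0 ≠ 0 := left_ne_zero_of_mul hdet
  have hd : (β : Matrix (Fin 2) (Fin 2) K) 1 1 ≠ 0 := right_ne_zero_of_mul hdet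
  exact ⟨(β : Matrix (Fin 2) (Fin 2) K) 1 1 / (β : Matrix (Fin 2) (Fin 2) K) 0 0,
    div_ne_zero hd ha, mul_div_cancel₀ _ ha⟩

/-- `Ψ` is left invariant under the upper triangular rational matrices. -/
theorem constTerm_ratG386 {𝔫 : Ideal (𝓞 K)} {ψ Ψ : G K → ℂ} (hψ : IsAutFn 𝔫 ψ)
    (h : IsConstTerm ψ Ψ) (ν : Measure (Adl K))
    (hν : ν.IsAddHaarMeasure) (D : Set (Adl K))
    (hD : IsAddFundamentalDomain (T1.princ K) D ν) (hD0 : ν D ≠ 0) (hDtop : ν D ≠ ⊤)
    (β : GL (Fin 2) K) (hβ : T1.IsUpperRat K β) (g : G K) :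
    Ψ (T1.ratG K β * g) = Ψ g := by
  have := hν
  obtain ⟨κ, hκ0, hκ⟩ := exists_ratio386 β hβ
  set e := scaleHomeo386 κ hκ0 with he
  have hν' : (Measure.map e ν).IsAddHaarMeasure :=
    AddEquiv.isAddHaarMeasure_map ν (scaleAddEquiv386 κ hκ0) e.continuous e.symm.continuous
  have hD' := isAddFundamentalDomain_scale386 ν D hD κ hκ0
  have h1 := constTerm_eq386 h (Measure.map e ν) hν' (e '' D) hD' g
  have h2 := constTerm_eq386 h ν hν D hD (T1.ratG K β * g)
  have h3 : ∫ x in e '' D, ψ (unip386 x * g) ∂(Measure.map e ν)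
      = ∫ v in D, ψ (unip386 v * (T1.ratG K β * g)) ∂ν := by
    have hmap : Measure.map e ν = Measure.map e.toMeasurableEquiv ν := rfl
    rw [hmap, setIntegral_map_equiv]
    have hpre : e.toMeasurableEquiv ⁻¹' (e '' D) = D := Set.preimage_image_eq _ e.injective
    rw [hpre]
    refine setIntegral_congr_fun₀ hD.nullMeasurableSet ?_
    intro v _
    show ψ (unip386 (algebraMap K (Adl K) κ * v) * g) = ψ (unip386 v * (T1.ratG K β * g))
    rw [← mul_assoc (unip386 v), unip386_mul_ratG β hβ κ hκ v, mul_assoc]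
    exact (hψ.left_inv β _).symm
  have h4 : (Measure.map e ν) (e '' D) = ν D := by
    have hmap : Measure.map e ν = Measure.map e.toMeasurableEquiv ν := rfl
    rw [hmap, MeasurableEquiv.map_apply]
    congr 1
    exact Set.preimage_image_eq _ e.injective
  rw [h3, h2, h4] at h1
  have hne : (((ν D).toReal : ℝ) : ℂ) ≠ 0 := by
    have : (ν D).toReal ≠ 0 := ENNReal.toReal_ne_zero.mpr ⟨hD0, hDtop⟩
    exact_mod_cast this
  exact mul_left_cancel₀ hne h1

end Fermat.Agent.LT.T2.H386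

end

end
-- ===== PACK-END LT/T2/H386/Soft1B.lean

-- ===== PACK-BEGIN LT/T2/H655/GenLapl.lean
section



/-!
# Row LT, tower T2, sub-leaf T2.10.08.09 `GenLaplC` (helper655) — OFF-MAIN

Spec bytes: `T2/H973/ArchSpec.lean` = helper973@1d2e30d90 (sha256 6e234a4a), byte-identical copy
(with its imports `T2/H941/SmoSpec.lean` v2 14c4d13e (v1 41255efa also compiles), `T2/Spec.lean`
1b305586, `T3/Spec.lean` 44de320b, `T1/Spec.lean` e8ae48d6, `H556/A0.lean` 66d3374a).

PROVED here: `genLaplC655 : T2.H973.GenLaplC`, VERBATIM: the radial integral equation gives the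
generalised second derivative `k² e^{2s} H(s)`.

* `besJ_bound655`: `‖J(z) - (1 - z²/4)‖ ≤ (2/9) |z|³` for `|z| ≤ 1` (`Complex.exp_bound`, `n = 3`);
* `cosh_bound655`: `|cosh x - 1 - x²/2| ≤ (5/96) x⁴` for `|x| ≤ 1` (`Real.exp_bound`, `n = 4`);
* pointwise: `1 - J(z(t,d)) = (A/4)(d² - t²) + O(d³)` for `|t| ≤ d`, `A = k² e^{2s}`;
* `∫_{-d}^{d} (d² - t²) dt = (4/3) d³`, `H` continuous at `s`.
-/

set_option autoImplicit false

open MeasureTheory
open Fermat.Agent.LT.T2.H973

noncomputable section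

namespace Fermat.Agent.LT.T2.H655

/-! ## The kernel `J` -/

theorem continuous_besJ655 : Continuous besJ := by
  unfold besJ
  refine continuous_const.mul ?_
  apply intervalIntegral.continuous_parametric_intervalIntegral_of_continuous'
  fun_prop

/-- `‖J(z) - (1 - z²/4)‖ ≤ (2/9) |z|³` for `|z| ≤ 1`. -/
theorem besJ_bound655 {z : ℝ} (hz : |z| ≤ 1) :
    ‖besJ z - (1 - ((z ^ 2 / 4 : ℝ) : ℂ))‖ ≤ 2 / 9 * |z| ^ 3 := by
  have hpi : (0 : ℝ) < 2 * Real.pi := by positivity
  -- the Taylor polynomial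
  set p : ℝ → ℂ := fun α => 1 + Complex.I * ((z * Real.cos α : ℝ) : ℂ)
    - ((z ^ 2 / 2 * Real.cos α ^ 2 : ℝ) : ℂ) with hp
  set g : ℝ → ℂ := fun α => Complex.exp (Complex.I * ((z * Real.cos α : ℝ) : ℂ)) with hg
  have hgc : Continuous g := by rw [hg]; fun_prop
  have hpc : Continuous p := by rw [hp]; fun_prop
  have hpt : ∀ α : ℝ, ‖g α - p α‖ ≤ 2 / 9 * |z| ^ 3 := by
    intro α
    have hx : ‖Complex.I * ((z * Real.cos α : ℝ) : ℂ)‖ ≤ |z| := by
      rw [norm_mul, Complex.norm_I, one_mul, Complex.norm_real, Real.norm_eq_abs, abs_mul]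
      calc |z| * |Real.cos α| ≤ |z| * 1 :=
            mul_le_mul_of_nonneg_left (Real.abs_cos_le_one α) (abs_nonneg z)
        _ = |z| := mul_one _
    have h := Complex.exp_bound (x := Complex.I * ((z * Real.cos α : ℝ) : ℂ))
      (hx.trans hz) (n := 3) (by norm_num)
    have e : (∑ m ∈ Finset.range 3, (Complex.I * ((z * Real.cos α : ℝ) : ℂ)) ^ m
        / (m.factorial : ℂ)) = p α := by
      rw [hp]
      simp only [Finset.sum_range_succ, Finset.sum_range_zero, Nat.factorial]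
      push_cast
      have hI : Complex.I ^ 2 = -1 := Complex.I_sq
      ring_nf
      rw [hI]
      ring
    rw [e] at h
    refine h.trans ?_
    have h3 : ‖Complex.I * ((z * Real.cos α : ℝ) : ℂ)‖ ^ 3 ≤ |z| ^ 3 :=
      pow_le_pow_left₀ (norm_nonneg _) hx 3
    calc ‖Complex.I * ((z * Real.cos α : ℝ) : ℂ)‖ ^ 3
          * (((3 : ℕ).succ : ℝ) * (((3 : ℕ).factorial : ℝ) * ((3 : ℕ) : ℝ))⁻¹)
        ≤ |z| ^ 3 * (((3 : ℕ).succ : ℝ) * (((3 : ℕ).factorial : ℝ) * ((3 : ℕ) : ℝ))⁻¹) :=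
          mul_le_mul_of_nonneg_right h3 (by positivity)
      _ = 2 / 9 * |z| ^ 3 := by
          simp only [Nat.factorial, Nat.succ_eq_add_one]
          push_cast
          ring
  -- the integral of the Taylor polynomial
  have hpint : ∫ α in (0 : ℝ)..(2 * Real.pi), p α
      = ((2 * Real.pi : ℝ) : ℂ) * (1 - ((z ^ 2 / 4 : ℝ) : ℂ)) := by
    have h1 : ∫ α in (0 : ℝ)..(2 * Real.pi), Real.cos α = 0 := by
      rw [integral_cos]; simp
    have h2 : ∫ α in (0 : ℝ)..(2 * Real.pi), Real.cos α ^ 2 = Real.pi := by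
      rw [integral_cos_sq]; simp
    have e : p = fun α => ((1 + (-(z ^ 2 / 2)) * Real.cos α ^ 2 : ℝ) : ℂ)
        + (Complex.I * (z : ℂ)) * ((Real.cos α : ℝ) : ℂ) := by
      funext α
      rw [hp]
      push_cast
      ring
    have c1 : Continuous fun α : ℝ => ((1 + (-(z ^ 2 / 2)) * Real.cos α ^ 2 : ℝ) : ℂ) := by
      fun_prop
    have c2 : Continuous fun α : ℝ => (Complex.I * (z : ℂ)) * ((Real.cos α : ℝ) : ℂ) := by
      fun_prop
    have c3 : Continuous fun α : ℝ => (-(z ^ 2 / 2)) * Real.cos α ^ 2 := by fun_prop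
    rw [e, intervalIntegral.integral_add (c1.intervalIntegrable _ _) (c2.intervalIntegrable _ _),
      intervalIntegral.integral_const_mul, intervalIntegral.integral_ofReal,
      intervalIntegral.integral_ofReal, h1,
      intervalIntegral.integral_add (continuous_const.intervalIntegrable _ _)
        (c3.intervalIntegrable _ _),
      intervalIntegral.integral_const_mul, h2]
    simp only [intervalIntegral.integral_const, sub_zero, smul_eq_mul, mul_one]
    push_cast
    ring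
  have hcpi : ((2 * Real.pi : ℝ) : ℂ) ≠ 0 := Complex.ofReal_ne_zero.2 hpi.ne'
  have key : besJ z - (1 - ((z ^ 2 / 4 : ℝ) : ℂ))
      = ((2 * Real.pi : ℝ) : ℂ)⁻¹ * ∫ α in (0 : ℝ)..(2 * Real.pi), (g α - p α) := by
    rw [intervalIntegral.integral_sub (hgc.intervalIntegrable _ _) (hpc.intervalIntegrable _ _),
      hpint, mul_sub, ← mul_assoc, inv_mul_cancel₀ hcpi, one_mul]
    rfl
  rw [key, norm_mul, norm_inv, Complex.norm_real, Real.norm_eq_abs, abs_of_pos hpi]
  have hb := intervalIntegral.norm_integral_le_of_norm_le_const (a := 0) (b := 2 * Real.pi)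
    (f := fun α => g α - p α) (C := 2 / 9 * |z| ^ 3) (fun α _ => hpt α)
  rw [sub_zero, abs_of_pos hpi] at hb
  calc (2 * Real.pi)⁻¹ * ‖∫ α in (0 : ℝ)..(2 * Real.pi), (g α - p α)‖
      ≤ (2 * Real.pi)⁻¹ * (2 / 9 * |z| ^ 3 * (2 * Real.pi)) :=
        mul_le_mul_of_nonneg_left hb (by positivity)
    _ = 2 / 9 * |z| ^ 3 := by field_simp

/-! ## Elementary bounds -/

/-- `|cosh x - 1 - x²/2| ≤ (5/96) x⁴` for `|x| ≤ 1`. -/
theorem cosh_bound655 {x : ℝ} (hx : |x| ≤ 1) :
    |Real.cosh x - 1 - x ^ 2 / 2| ≤ 5 / 96 * x ^ 4 := by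
  have h1 := Real.exp_bound hx (n := 4) (by norm_num)
  have hx' : |(-x)| ≤ 1 := by rwa [abs_neg]
  have h2 := Real.exp_bound hx' (n := 4) (by norm_num)
  simp only [Finset.sum_range_succ, Finset.sum_range_zero, Nat.factorial, Nat.succ_eq_add_one]
    at h1 h2
  rw [abs_neg] at h2
  have hx4 : |x| ^ 4 = x ^ 4 := by
    rw [show (4 : ℕ) = 2 * 2 by norm_num, pow_mul, sq_abs, ← pow_mul]
  rw [hx4] at h1 h2
  rw [Real.cosh_eq]
  rw [abs_le] at h1 h2 ⊢
  norm_num at h1 h2
  constructor <;> nlinarith [h1.1, h1.2, h2.1, h2.2]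

/-- For `|t| ≤ d ≤ 1`: `0 ≤ cosh d - cosh t ≤ d²` and
`|cosh d - cosh t - (d² - t²)/2| ≤ d³`. -/
theorem c_bounds655 {t d : ℝ} (hd0 : 0 < d) (hd1 : d ≤ 1) (ht : |t| ≤ d) :
    0 ≤ Real.cosh d - Real.cosh t ∧ Real.cosh d - Real.cosh t ≤ d ^ 2 ∧
      |Real.cosh d - Real.cosh t - (d ^ 2 - t ^ 2) / 2| ≤ d ^ 3 := by
  have hdabs : |d| = d := abs_of_pos hd0
  have ht1 : |t| ≤ 1 := ht.trans hd1
  have hcd := cosh_bound655 (x := d) (by rw [hdabs]; exact hd1)
  have hct := cosh_bound655 (x := t) ht1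
  have h0 : Real.cosh t ≤ Real.cosh d := by
    rw [Real.cosh_le_cosh, hdabs]; exact ht
  have h1 : 1 ≤ Real.cosh t := Real.one_le_cosh t
  have hd2 : d ^ 2 ≤ 1 := by nlinarith
  have hd3 : d ^ 4 ≤ d ^ 3 := by
    have : 0 ≤ d ^ 3 := by positivity
    nlinarith
  have hd4 : d ^ 4 ≤ d ^ 2 := by
    have : 0 ≤ d ^ 2 := by positivity
    nlinarith
  have ht2 : t ^ 2 ≤ d ^ 2 := by
    rw [← sq_abs t]; exact pow_le_pow_left₀ (abs_nonneg t) ht 2
  have ht4 : t ^ 4 ≤ d ^ 4 := by
    have e1 : t ^ 4 = (t ^ 2) ^ 2 := by ring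
    have e2 : d ^ 4 = (d ^ 2) ^ 2 := by ring
    rw [e1, e2]
    exact pow_le_pow_left₀ (sq_nonneg t) ht2 2
  have ht40 : 0 ≤ t ^ 4 := by positivity
  rw [abs_le] at hcd hct
  refine ⟨by linarith, by linarith [hcd.2], ?_⟩
  rw [abs_le]
  constructor <;> linarith [hcd.1, hcd.2, hct.1, hct.2]

/-- The argument of the kernel. -/
def zf655 (k s d t : ℝ) : ℝ :=
  k * Real.exp s * Real.sqrt (2 * Real.exp t * (Real.cosh d - Real.cosh t))

theorem continuous_zf655 (k s d : ℝ) : Continuous (zf655 k s d) := by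
  unfold zf655
  fun_prop

/-- The pointwise expansion `1 - J(z(t,d)) = (A/4)(d² - t²) + O(d³)`, `A = k² e^{2s}`. -/
theorem rho_bound655 (k s : ℝ) {t d : ℝ} (hd0 : 0 < d) (hd1 : d ≤ 1)
    (hdB : d * (6 * (k ^ 2 * Real.exp (2 * s)) + 1) ≤ 1) (ht : |t| ≤ d) :
    ‖1 - besJ (zf655 k s d t)
        - (((k ^ 2 * Real.exp (2 * s)) / 4 * (d ^ 2 - t ^ 2) : ℝ) : ℂ)‖
      ≤ (2 / 9 * (6 * (k ^ 2 * Real.exp (2 * s)) + 1) ^ 3
          + 3 * (k ^ 2 * Real.exp (2 * s)) / 2) * d ^ 3 := by
  set A : ℝ := k ^ 2 * Real.exp (2 * s) with hA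
  have hA0 : 0 ≤ A := by positivity
  set B : ℝ := 6 * A + 1 with hB
  have hB1 : 1 ≤ B := by linarith
  obtain ⟨hc0, hc2, hc3⟩ := c_bounds655 hd0 hd1 ht
  set c : ℝ := Real.cosh d - Real.cosh t with hc
  set z : ℝ := zf655 k s d t with hz
  have ht1 : |t| ≤ 1 := ht.trans hd1
  have het0 : 0 < Real.exp t := Real.exp_pos t
  have het3 : Real.exp t ≤ 3 := by
    have h1 : Real.exp t ≤ Real.exp 1 := Real.exp_le_exp.2 ((le_abs_self t).trans ht1)
    exact h1.trans Real.exp_one_lt_three.le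
  have het1 : |Real.exp t - 1| ≤ 2 * d :=
    (Real.abs_exp_sub_one_le ht1).trans (by linarith)
  -- `z² = 2 A eᵗ c`
  have hz2 : z ^ 2 = 2 * A * Real.exp t * c := by
    rw [hz, zf655, mul_pow, mul_pow, Real.sq_sqrt (by positivity), hA]
    have : Real.exp (2 * s) = Real.exp s ^ 2 := by
      rw [two_mul, Real.exp_add]; ring
    rw [this]; ring
  have hz2le : z ^ 2 ≤ B * d ^ 2 := by
    rw [hz2]
    have h1 : Real.exp t * c ≤ 3 * d ^ 2 :=
      mul_le_mul het3 hc2 hc0 (by norm_num)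
    have hd2 : 0 ≤ d ^ 2 := by positivity
    nlinarith
  have hzabs : |z| ≤ B * d := by
    apply abs_le_of_sq_le_sq _ (by positivity)
    have hd2 : 0 ≤ d ^ 2 := by positivity
    have : B * d ^ 2 ≤ B ^ 2 * d ^ 2 := by
      apply mul_le_mul_of_nonneg_right _ hd2
      nlinarith
    rw [mul_pow]
    exact hz2le.trans this
  have hz1 : |z| ≤ 1 := hzabs.trans (by rw [mul_comm]; exact hdB)
  have hJ := besJ_bound655 hz1
  have hz3 : |z| ^ 3 ≤ B ^ 3 * d ^ 3 := by
    rw [← mul_pow]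
    exact pow_le_pow_left₀ (abs_nonneg z) hzabs 3
  -- the algebraic part
  have halg : |z ^ 2 / 4 - A / 4 * (d ^ 2 - t ^ 2)| ≤ 3 * A / 2 * d ^ 3 := by
    have e : z ^ 2 / 4 - A / 4 * (d ^ 2 - t ^ 2)
        = A / 2 * ((Real.exp t - 1) * c + (c - (d ^ 2 - t ^ 2) / 2)) := by
      rw [hz2]; ring
    rw [e, abs_mul, abs_of_nonneg (by positivity : (0 : ℝ) ≤ A / 2)]
    have h1 : |(Real.exp t - 1) * c| ≤ 2 * d * d ^ 2 := by
      rw [abs_mul, abs_of_nonneg hc0]
      exact mul_le_mul het1 hc2 hc0 (by positivity)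
    have h2 : |(Real.exp t - 1) * c + (c - (d ^ 2 - t ^ 2) / 2)| ≤ 3 * d ^ 3 :=
      (abs_add_le _ _).trans (by linarith)
    calc A / 2 * |(Real.exp t - 1) * c + (c - (d ^ 2 - t ^ 2) / 2)|
        ≤ A / 2 * (3 * d ^ 3) := mul_le_mul_of_nonneg_left h2 (by positivity)
      _ = 3 * A / 2 * d ^ 3 := by ring
  have e : 1 - besJ z - ((A / 4 * (d ^ 2 - t ^ 2) : ℝ) : ℂ)
      = -(besJ z - (1 - ((z ^ 2 / 4 : ℝ) : ℂ)))
        + ((z ^ 2 / 4 - A / 4 * (d ^ 2 - t ^ 2) : ℝ) : ℂ) := by
    push_cast; ring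
  rw [e]
  refine (norm_add_le _ _).trans ?_
  rw [norm_neg, Complex.norm_real, Real.norm_eq_abs]
  have : 2 / 9 * |z| ^ 3 ≤ 2 / 9 * (B ^ 3 * d ^ 3) :=
    mul_le_mul_of_nonneg_left hz3 (by norm_num)
  calc ‖besJ z - (1 - ((z ^ 2 / 4 : ℝ) : ℂ))‖ + |z ^ 2 / 4 - A / 4 * (d ^ 2 - t ^ 2)|
      ≤ 2 / 9 * (B ^ 3 * d ^ 3) + 3 * A / 2 * d ^ 3 := add_le_add (hJ.trans this) halg
    _ = (2 / 9 * B ^ 3 + 3 * A / 2) * d ^ 3 := by ring

/-- `∫_{-d}^{d} (A/4)(d² - t²) dt = (A/3) d³`. -/
theorem integral_quad655 (A d : ℝ) :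
    ∫ t in (-d)..d, (A / 4 * (d ^ 2 - t ^ 2)) = A / 3 * d ^ 3 := by
  have c1 : Continuous fun _ : ℝ => d ^ 2 := continuous_const
  have c2 : Continuous fun t : ℝ => t ^ 2 := by fun_prop
  rw [intervalIntegral.integral_const_mul,
    intervalIntegral.integral_sub (c1.intervalIntegrable _ _) (c2.intervalIntegrable _ _),
    intervalIntegral.integral_const, integral_pow]
  simp only [smul_eq_mul]
  norm_num
  ring

/-! ## The sub-leaf -/

/-- **T2.10.08.09 `GenLaplC`**, VERBATIM. -/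
theorem genLaplC655 : GenLaplC := by
  intro k H hH s
  obtain ⟨hHc, hHeq⟩ := hH
  set A : ℝ := k ^ 2 * Real.exp (2 * s) with hA
  have hA0 : 0 ≤ A := by positivity
  set B : ℝ := 6 * A + 1 with hB
  have hB1 : 1 ≤ B := by linarith
  set C : ℝ := 2 / 9 * B ^ 3 + 3 * A / 2 with hC
  have hC0 : 0 ≤ C := by positivity
  unfold HasGenSecond
  rw [Metric.tendsto_nhdsWithin_nhds]
  intro ε hε
  set ε' : ℝ := ε / (A + 1) with hε'
  have hε'0 : 0 < ε' := by positivity
  obtain ⟨δ₀, hδ₀, hcont⟩ := Metric.continuous_iff.1 hHc s ε' hε'0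
  set M : ℝ := ‖H s‖ + ε' with hM
  have hM0 : 0 ≤ M := by positivity
  have hCM : 0 < 2 * (C * M + 1) := by positivity
  refine ⟨min (min 1 δ₀) (min (1 / B) (ε / (2 * (C * M + 1)))),
    lt_min (lt_min one_pos hδ₀) (lt_min (by positivity) (by positivity)), ?_⟩
  intro d hd hdδ
  have hd0 : 0 < d := hd
  rw [Real.dist_eq, sub_zero, abs_of_pos hd0] at hdδ
  have hd1 : d < 1 := hdδ.trans_le ((min_le_left _ _).trans (min_le_left _ _))
  have hdδ₀ : d < δ₀ := hdδ.trans_le ((min_le_left _ _).trans (min_le_right _ _))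
  have hdB : d < 1 / B := hdδ.trans_le ((min_le_right _ _).trans (min_le_left _ _))
  have hdε : d < ε / (2 * (C * M + 1)) :=
    hdδ.trans_le ((min_le_right _ _).trans (min_le_right _ _))
  have hdB' : d * B ≤ 1 := by
    rw [lt_div_iff₀ (by linarith)] at hdB; exact hdB.le
  -- the integrand
  set F : ℝ → ℂ := fun t => (1 - besJ (zf655 k s d t)) * H (s + t)
      - ((A / 4 * (d ^ 2 - t ^ 2) : ℝ) : ℂ) * H s with hF
  -- pointwise bound
  have hFb : ∀ t ∈ Set.uIoc (-d) d, ‖F t‖ ≤ A / 4 * d ^ 2 * ε' + C * d ^ 3 * M := by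
    intro t ht
    rw [Set.uIoc_of_le (by linarith)] at ht
    have htd : |t| ≤ d := abs_le.2 ⟨ht.1.le, ht.2⟩
    have hρ := rho_bound655 k s hd0 hd1.le hdB' htd
    have hH1 : ‖H (s + t) - H s‖ ≤ ε' := by
      have := hcont (s + t) (by rw [Real.dist_eq]; simpa using htd.trans_lt hdδ₀)
      rw [dist_eq_norm] at this
      exact this.le
    have hH2 : ‖H (s + t)‖ ≤ M := by
      have e : H (s + t) = H s + (H (s + t) - H s) := by ring
      rw [e]
      exact (norm_add_le _ _).trans (by linarith)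
    have e : F t = ((A / 4 * (d ^ 2 - t ^ 2) : ℝ) : ℂ) * (H (s + t) - H s)
        + (1 - besJ (zf655 k s d t) - ((A / 4 * (d ^ 2 - t ^ 2) : ℝ) : ℂ)) * H (s + t) := by
      rw [hF]; ring
    rw [e]
    refine (norm_add_le _ _).trans ?_
    rw [norm_mul, norm_mul, Complex.norm_real, Real.norm_eq_abs]
    have ht2 : t ^ 2 ≤ d ^ 2 := by
      rw [← sq_abs t]; exact pow_le_pow_left₀ (abs_nonneg t) htd 2
    have h1 : |A / 4 * (d ^ 2 - t ^ 2)| ≤ A / 4 * d ^ 2 := by
      rw [abs_of_nonneg (mul_nonneg (by positivity) (by linarith))]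
      nlinarith [sq_nonneg t]
    exact add_le_add (mul_le_mul h1 hH1 (norm_nonneg _) (by positivity))
      (mul_le_mul hρ hH2 (norm_nonneg _) (by positivity))
  have hint := intervalIntegral.norm_integral_le_of_norm_le_const hFb
  -- the integral of `F`
  have hI : ∫ t in (-d)..d, F t
      = (∫ t in (-d)..d, H (s + t)) - ((2 * d : ℝ) : ℂ) * H s
        - ((A / 3 * d ^ 3 : ℝ) : ℂ) * H s := by
    have c1 : Continuous fun t => H (s + t) := hHc.comp (continuous_const_add s)
    have c2 : Continuous fun t => besJ (zf655 k s d t) * H (s + t) :=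
      (continuous_besJ655.comp (continuous_zf655 k s d)).mul c1
    have c3 : Continuous fun t : ℝ => ((A / 4 * (d ^ 2 - t ^ 2) : ℝ) : ℂ) * H s := by
      fun_prop
    have c12 : Continuous fun t => H (s + t) - besJ (zf655 k s d t) * H (s + t) := c1.sub c2
    have h2 : ∫ t in (-d)..d, besJ (zf655 k s d t) * H (s + t) = ((2 * d : ℝ) : ℂ) * H s :=
      hHeq s d hd0
    calc ∫ t in (-d)..d, F t
        = ∫ t in (-d)..d, ((H (s + t) - besJ (zf655 k s d t) * H (s + t))
            - ((A / 4 * (d ^ 2 - t ^ 2) : ℝ) : ℂ) * H s) := by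
          refine intervalIntegral.integral_congr fun t _ => ?_
          simp only [hF]; ring
      _ = (∫ t in (-d)..d, (H (s + t) - besJ (zf655 k s d t) * H (s + t)))
            - ∫ t in (-d)..d, ((A / 4 * (d ^ 2 - t ^ 2) : ℝ) : ℂ) * H s :=
          intervalIntegral.integral_sub (c12.intervalIntegrable _ _)
            (c3.intervalIntegrable _ _)
      _ = ((∫ t in (-d)..d, H (s + t)) - ∫ t in (-d)..d, besJ (zf655 k s d t) * H (s + t))
            - ∫ t in (-d)..d, ((A / 4 * (d ^ 2 - t ^ 2) : ℝ) : ℂ) * H s := by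
          rw [intervalIntegral.integral_sub (c1.intervalIntegrable _ _)
            (c2.intervalIntegrable _ _)]
      _ = (∫ t in (-d)..d, H (s + t)) - ((2 * d : ℝ) : ℂ) * H s
            - ((A / 3 * d ^ 3 : ℝ) : ℂ) * H s := by
          rw [h2, intervalIntegral.integral_mul_const, intervalIntegral.integral_ofReal,
            integral_quad655]
  have hdc : ((d : ℝ) : ℂ) ≠ 0 := Complex.ofReal_ne_zero.2 hd0.ne'
  have key : (((2 * d : ℝ) : ℂ)⁻¹ * (∫ t in (-d)..d, H (s + t)) - H s) / ((d ^ 2 : ℝ) : ℂ)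
      - ((A : ℝ) : ℂ) * H s / 6 = (∫ t in (-d)..d, F t) / ((2 * d ^ 3 : ℝ) : ℂ) := by
    rw [hI]
    push_cast
    field_simp
    ring
  rw [dist_eq_norm, key, norm_div, Complex.norm_real, Real.norm_eq_abs,
    abs_of_pos (by positivity : (0 : ℝ) < 2 * d ^ 3), div_lt_iff₀ (by positivity)]
  have hdd : |d - -d| = 2 * d := by
    rw [sub_neg_eq_add, abs_of_pos (by linarith)]; ring
  rw [hdd] at hint
  refine hint.trans_lt ?_
  have h1 : A / 4 * ε' ≤ ε / 4 := by
    rw [hε']
    rw [show A / 4 * (ε / (A + 1)) = ε / 4 * (A / (A + 1)) by ring]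
    have : A / (A + 1) ≤ 1 := by
      rw [div_le_one (by linarith)]; linarith
    nlinarith
  have h2 : C * M * d < ε / 2 := by
    rw [lt_div_iff₀ hCM] at hdε
    nlinarith [mul_nonneg hC0 hM0]
  have hd3 : 0 < d ^ 3 := by positivity
  have e : (A / 4 * d ^ 2 * ε' + C * d ^ 3 * M) * (2 * d)
      = (A / 4 * ε' + C * M * d) * (2 * d ^ 3) := by ring
  rw [e]
  exact mul_lt_mul_of_pos_right (by linarith) (by positivity)

end Fermat.Agent.LT.T2.H655

end

end
-- ===== PACK-END LT/T2/H655/GenLapl.lean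

-- ===== PACK-BEGIN LT/T2/H708/GenSecond.lean
section



/-!
# Row LT, tower T2, leaf T2.10.08.10 `GenSecondC` (L4b), registry row 1208 (helper708)

`genSecondC708 : H973.GenSecondC`, VERBATIM against `LT/T2/H973/ArchSpec.lean`
(sha256 6e234a4a0ea7, origin/helper973@1d2e30d90).  The proof is the Mathlib-only core
`genSecond_core708` of `GenSecondCore.lean` (Blaschke--Privalov in dimension one).
-/

set_option autoImplicit false

namespace Fermat.Agent.LT.T2.H708

/-- **L4b.**  A continuous function with continuous generalised second derivative `φ` is twice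
differentiable with `H'' = φ`. -/
theorem genSecondC708 : Fermat.Agent.LT.T2.H973.GenSecondC :=
  fun H φ hH hφ h => genSecond_core708 H φ hH hφ h

end Fermat.Agent.LT.T2.H708

end
-- ===== PACK-END LT/T2/H708/GenSecond.lean

-- ===== PACK-BEGIN LT/T2/H23/Idele.lean
section





/-!
# Row LT, tower T2, station T2.10, leaf T2.10.11 `TorusMatchC` (helper23) -- part 1: ideles

OFF-MAIN.  Idele calculus for the assembly of the torus: component homomorphisms `cF23 v`,
`cI23 w`, the local embeddings `iF23 v`, `iI23 w`, extensionality, the torus `tor` as a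
homomorphism, finite products of local ideles, the unit part of an idele.

Imports (byte-identical copies): `LT/T2/H941/SmoSpec.lean` (helper941), `LT/T2/H333/Book.lean`
(helper333), `LT/A2/H743/SingleAdele.lean` (helper743).
-/

set_option autoImplicit false
set_option linter.unusedSectionVars false
set_option linter.style.haveILetI false

open IsDedekindDomain NumberField IsDedekindDomain.HeightOneSpectrum
open Fermat.Agent.LT.H556.A0
open scoped MatrixGroups

noncomputable section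

namespace Fermat.Agent.LT.T2.H23

open Fermat.Agent.LT.T2.H941 Fermat.Agent.LT.T2 Fermat.Agent.LT.A2

variable {K : Type} [Field K] [NumberField K]

/-! ## 1. Components -/

/-- The component of an idele at the finite place `v`. -/
def cF23 (v : HeightOneSpectrum (𝓞 K)) : (Adl K)ˣ →* (v.adicCompletion K)ˣ :=
  Units.map (H333.evF333 v).toMonoidHom

/-- The component of an idele at the infinite place `w`. -/
def cI23 (w : InfinitePlace K) : (Adl K)ˣ →* (w.Completion)ˣ :=
  Units.map (H333.evI333 w).toMonoidHom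

theorem cF23_val23 (v : HeightOneSpectrum (𝓞 K)) (y : (Adl K)ˣ) :
    ((cF23 v y : (v.adicCompletion K)ˣ) : v.adicCompletion K) = (y : Adl K).2 v := rfl

theorem cI23_val23 (w : InfinitePlace K) (y : (Adl K)ˣ) :
    ((cI23 w y : (w.Completion)ˣ) : w.Completion) = (y : Adl K).1 w := rfl

theorem cF23_eq_one_iff23 (v : HeightOneSpectrum (𝓞 K)) (y : (Adl K)ˣ) :
    cF23 v y = 1 ↔ (y : Adl K).2 v = 1 := by
  rw [← Units.val_inj, cF23_val23, Units.val_one]

theorem cI23_eq_one_iff23 (w : InfinitePlace K) (y : (Adl K)ˣ) :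
    cI23 w y = 1 ↔ (y : Adl K).1 w = 1 := by
  rw [← Units.val_inj, cI23_val23, Units.val_one]

/-- An idele is determined by its components. -/
theorem idele_ext23 {y y' : (Adl K)ˣ} (hF : ∀ v : HeightOneSpectrum (𝓞 K), cF23 v y = cF23 v y')
    (hI : ∀ w : InfinitePlace K, cI23 w y = cI23 w y') : y = y' := by
  apply Units.ext
  apply H333.adele_ext333
  · intro w
    have := congrArg Units.val (hI w)
    exact this
  · intro v
    have := congrArg Units.val (hF v)
    exact this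

/-! ## 2. Local embeddings -/

/-- The idele with component `s` at the finite place `v` and `1` elsewhere. -/
def iF23 (v : HeightOneSpectrum (𝓞 K)) : (v.adicCompletion K)ˣ →* (Adl K)ˣ where
  toFun s := H743.ideleAt743 v (s : v.adicCompletion K) s.ne_zero
  map_one' := Units.ext (H743.adAt1_one743 v)
  map_mul' s t := Units.ext (H743.adAt1_mul743 v s t).symm

theorem iF23_val_same23 (v : HeightOneSpectrum (𝓞 K)) (s : (v.adicCompletion K)ˣ) :
    ((iF23 v s : (Adl K)ˣ) : Adl K).2 v = s := H743.adAt1_same743 v _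

theorem iF23_val_ne23 (v : HeightOneSpectrum (𝓞 K)) (s : (v.adicCompletion K)ˣ)
    {v' : HeightOneSpectrum (𝓞 K)} (h : v' ≠ v) : ((iF23 v s : (Adl K)ˣ) : Adl K).2 v' = 1 :=
  H743.adAt1_ne743 v _ h

theorem iF23_val_inf23 (v : HeightOneSpectrum (𝓞 K)) (s : (v.adicCompletion K)ˣ)
    (w : InfinitePlace K) : ((iF23 v s : (Adl K)ˣ) : Adl K).1 w = 1 := rfl

@[simp] theorem cF23_iF23_same23 (v : HeightOneSpectrum (𝓞 K)) (s : (v.adicCompletion K)ˣ) :
    cF23 v (iF23 v s) = s := Units.ext (iF23_val_same23 v s)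

theorem cF23_iF23_ne23 (v : HeightOneSpectrum (𝓞 K)) (s : (v.adicCompletion K)ˣ)
    {v' : HeightOneSpectrum (𝓞 K)} (h : v' ≠ v) : cF23 v' (iF23 v s) = 1 :=
  Units.ext (iF23_val_ne23 v s h)

@[simp] theorem cI23_iF23 (v : HeightOneSpectrum (𝓞 K)) (s : (v.adicCompletion K)ˣ)
    (w : InfinitePlace K) : cI23 w (iF23 v s) = 1 := Units.ext (iF23_val_inf23 v s w)

open Classical in
/-- The adele with component `t` at the infinite place `w` and `1` elsewhere. -/
def adI23 (w : InfinitePlace K) (t : w.Completion) : Adl K :=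
  ((Pi.mulSingle w t : (w' : InfinitePlace K) → w'.Completion), (1 : FiniteAdeleRing (𝓞 K) K))

open Classical in
theorem adI23_same23 (w : InfinitePlace K) (t : w.Completion) : (adI23 w t).1 w = t :=
  Pi.mulSingle_eq_same w t

open Classical in
theorem adI23_ne23 (w : InfinitePlace K) (t : w.Completion) {w' : InfinitePlace K} (h : w' ≠ w) :
    (adI23 w t).1 w' = 1 := Pi.mulSingle_eq_of_ne h t

theorem adI23_fin23 (w : InfinitePlace K) (t : w.Completion) (v : HeightOneSpectrum (𝓞 K)) :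
    (adI23 w t).2 v = 1 := rfl

theorem adI23_mul23 (w : InfinitePlace K) (t t' : w.Completion) :
    adI23 w t * adI23 w t' = adI23 w (t * t') := by
  refine H333.adele_ext333 (fun w' => ?_) (fun v => ?_)
  · by_cases h : w' = w
    · subst h
      rw [H743.fst_mul743, adI23_same23, adI23_same23, adI23_same23]
    · rw [H743.fst_mul743, adI23_ne23 w t h, adI23_ne23 w t' h, adI23_ne23 w _ h, one_mul]
  · rw [H743.snd_mul743, adI23_fin23, adI23_fin23, adI23_fin23, one_mul]

theorem adI23_one23 (w : InfinitePlace K) : adI23 w (1 : w.Completion) = 1 := by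
  refine H333.adele_ext333 (fun w' => ?_) (fun v => rfl)
  by_cases h : w' = w
  · subst h
    rw [adI23_same23, H743.fst_one743]
  · rw [adI23_ne23 w _ h, H743.fst_one743]

/-- The idele with component `t` at the infinite place `w` and `1` elsewhere. -/
def iI23 (w : InfinitePlace K) : (w.Completion)ˣ →* (Adl K)ˣ where
  toFun t :=
    { val := adI23 w (t : w.Completion)
      inv := adI23 w ((t⁻¹ : (w.Completion)ˣ) : w.Completion)
      val_inv := by rw [adI23_mul23, Units.mul_inv, adI23_one23]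
      inv_val := by rw [adI23_mul23, Units.inv_mul, adI23_one23] }
  map_one' := Units.ext (adI23_one23 w)
  map_mul' s t := Units.ext (adI23_mul23 w s t).symm

theorem iI23_val23 (w : InfinitePlace K) (t : (w.Completion)ˣ) :
    ((iI23 w t : (Adl K)ˣ) : Adl K) = adI23 w (t : w.Completion) := rfl

@[simp] theorem cI23_iI23_same23 (w : InfinitePlace K) (t : (w.Completion)ˣ) :
    cI23 w (iI23 w t) = t := Units.ext (adI23_same23 w _)

theorem cI23_iI23_ne23 (w : InfinitePlace K) (t : (w.Completion)ˣ) {w' : InfinitePlace K}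
    (h : w' ≠ w) : cI23 w' (iI23 w t) = 1 := Units.ext (adI23_ne23 w _ h)

@[simp] theorem cF23_iI23 (w : InfinitePlace K) (t : (w.Completion)ˣ)
    (v : HeightOneSpectrum (𝓞 K)) : cF23 v (iI23 w t) = 1 :=
  Units.ext (adI23_fin23 w (t : w.Completion) v)

theorem isIdeleAtFin_iF23 (v : HeightOneSpectrum (𝓞 K)) (s : (v.adicCompletion K)ˣ) :
    IsIdeleAtFin v (iF23 v s) :=
  ⟨fun w => iF23_val_inf23 v s w, fun _ h => iF23_val_ne23 v s h⟩

theorem isIdeleAtInf_iI23 (w : InfinitePlace K) (t : (w.Completion)ˣ) :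
    IsIdeleAtInf w (iI23 w t) :=
  ⟨fun _ h => adI23_ne23 w _ h, fun v => adI23_fin23 w _ v⟩

/-- An idele supported at `v` is the local idele of its component. -/
theorem eq_iF23_of_isIdeleAtFin23 {v : HeightOneSpectrum (𝓞 K)} {y : (Adl K)ˣ}
    (hy : IsIdeleAtFin v y) : y = iF23 v (cF23 v y) := by
  refine idele_ext23 (fun v' => ?_) (fun w => ?_)
  · by_cases h : v' = v
    · subst h
      rw [cF23_iF23_same23]
    · rw [cF23_iF23_ne23 v _ h, cF23_eq_one_iff23]
      exact hy.2 v' h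
  · rw [cI23_iF23, cI23_eq_one_iff23]
    exact hy.1 w

/-- An idele supported at `w` is the local idele of its component. -/
theorem eq_iI23_of_isIdeleAtInf23 {w : InfinitePlace K} {y : (Adl K)ˣ}
    (hy : IsIdeleAtInf w y) : y = iI23 w (cI23 w y) := by
  refine idele_ext23 (fun v => ?_) (fun w' => ?_)
  · rw [cF23_iI23, cF23_eq_one_iff23]
    exact hy.2 v
  · by_cases h : w' = w
    · subst h
      rw [cI23_iI23_same23]
    · rw [cI23_iI23_ne23 w _ h, cI23_eq_one_iff23]
      exact hy.1 w' h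

/-! ## 3. The torus -/

theorem tor_val23 (y : (Adl K)ˣ) :
    ((tor y : G K) : Matrix (Fin 2) (Fin 2) (Adl K)) = !![(y : Adl K), 0; 0, 1] := rfl

theorem tor_mul23 (y y' : (Adl K)ˣ) : tor (y * y') = tor y * tor y' := by
  apply Units.ext
  rw [Units.val_mul, tor_val23, tor_val23, tor_val23]
  ext i j
  fin_cases i <;> fin_cases j <;> simp [Matrix.mul_apply, Fin.sum_univ_two]

theorem tor_one23 : tor (1 : (Adl K)ˣ) = 1 := by
  apply Units.ext
  rw [tor_val23, Units.val_one, Units.val_one]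
  ext i j
  fin_cases i <;> fin_cases j <;> simp

theorem tor_inv23 (y : (Adl K)ˣ) : tor y⁻¹ = (tor y)⁻¹ := by
  rw [eq_inv_iff_mul_eq_one, ← tor_mul23, inv_mul_cancel, tor_one23]

theorem tor_comm23 (y y' : (Adl K)ˣ) : tor y * tor y' = tor y' * tor y := by
  rw [← tor_mul23, ← tor_mul23, mul_comm]

theorem finComp_tor23 (v : HeightOneSpectrum (𝓞 K)) (y : (Adl K)ˣ) :
    finComp v (tor y) = !![(y : Adl K).2 v, 0; 0, 1] := by
  ext i j
  fin_cases i <;> fin_cases j <;> simp [finComp, tor_val23] <;> rfl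

theorem trivAtFin_tor23 {v : HeightOneSpectrum (𝓞 K)} {y : (Adl K)ˣ} (h : cF23 v y = 1) :
    TrivAtFin v (tor y) := by
  unfold TrivAtFin
  rw [finComp_tor23, (cF23_eq_one_iff23 v y).mp h]
  exact Matrix.one_fin_two.symm

theorem trivAtInf_tor23 {w : InfinitePlace K} {y : (Adl K)ˣ} (h : cI23 w y = 1) :
    TrivAtInf w (tor y) := by
  intro i j
  have h1 := (cI23_eq_one_iff23 w y).mp h
  fin_cases i <;> fin_cases j <;> simp [tor_val23, h1] <;> rfl

/-! ## 4. Finite products of local ideles -/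

/-- The idele with components `s v` at `v ∈ T` and `1` elsewhere. -/
def pF23 (T : Finset (HeightOneSpectrum (𝓞 K)))
    (s : ∀ v : HeightOneSpectrum (𝓞 K), (v.adicCompletion K)ˣ) : (Adl K)ˣ :=
  ∏ v ∈ T, iF23 v (s v)

theorem cF23_pF23_of_mem23 {T : Finset (HeightOneSpectrum (𝓞 K))}
    (s : ∀ v : HeightOneSpectrum (𝓞 K), (v.adicCompletion K)ˣ) {v : HeightOneSpectrum (𝓞 K)}
    (h : v ∈ T) : cF23 v (pF23 T s) = s v := by
  unfold pF23
  rw [map_prod, Finset.prod_eq_single v]
  · exact cF23_iF23_same23 v (s v)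
  · intro v' _ hne
    exact cF23_iF23_ne23 v' (s v') hne.symm
  · intro hn
    exact absurd h hn

theorem cF23_pF23_of_notMem23 {T : Finset (HeightOneSpectrum (𝓞 K))}
    (s : ∀ v : HeightOneSpectrum (𝓞 K), (v.adicCompletion K)ˣ) {v : HeightOneSpectrum (𝓞 K)}
    (h : v ∉ T) : cF23 v (pF23 T s) = 1 := by
  unfold pF23
  rw [map_prod]
  refine Finset.prod_eq_one fun v' hv' => ?_
  exact cF23_iF23_ne23 v' (s v') (fun e => h (e ▸ hv'))

theorem cI23_pF23 (T : Finset (HeightOneSpectrum (𝓞 K)))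
    (s : ∀ v : HeightOneSpectrum (𝓞 K), (v.adicCompletion K)ˣ) (w : InfinitePlace K) :
    cI23 w (pF23 T s) = 1 := by
  unfold pF23
  rw [map_prod]
  exact Finset.prod_eq_one fun v' _ => cI23_iF23 v' (s v') w

theorem pF23_insert23 [DecidableEq (HeightOneSpectrum (𝓞 K))]
    {T : Finset (HeightOneSpectrum (𝓞 K))}
    (s : ∀ v : HeightOneSpectrum (𝓞 K), (v.adicCompletion K)ˣ) {a : HeightOneSpectrum (𝓞 K)}
    (h : a ∉ T) : pF23 (insert a T) s = iF23 a (s a) * pF23 T s := by
  unfold pF23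
  rw [Finset.prod_insert h]

theorem pF23_empty23 (s : ∀ v : HeightOneSpectrum (𝓞 K), (v.adicCompletion K)ˣ) :
    pF23 (∅ : Finset (HeightOneSpectrum (𝓞 K))) s = 1 := by
  unfold pF23
  rw [Finset.prod_empty]

/-- The idele with components `t w` at `w ∈ R` and `1` elsewhere. -/
def pI23 (R : Finset (InfinitePlace K)) (t : ∀ w : InfinitePlace K, (w.Completion)ˣ) :
    (Adl K)ˣ :=
  ∏ w ∈ R, iI23 w (t w)

theorem cI23_pI23_of_mem23 {R : Finset (InfinitePlace K)}
    (t : ∀ w : InfinitePlace K, (w.Completion)ˣ) {w : InfinitePlace K} (h : w ∈ R) :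
    cI23 w (pI23 R t) = t w := by
  unfold pI23
  rw [map_prod, Finset.prod_eq_single w]
  · exact cI23_iI23_same23 w (t w)
  · intro w' _ hne
    exact cI23_iI23_ne23 w' (t w') hne.symm
  · intro hn
    exact absurd h hn

theorem cI23_pI23_of_notMem23 {R : Finset (InfinitePlace K)}
    (t : ∀ w : InfinitePlace K, (w.Completion)ˣ) {w : InfinitePlace K} (h : w ∉ R) :
    cI23 w (pI23 R t) = 1 := by
  unfold pI23
  rw [map_prod]
  refine Finset.prod_eq_one fun w' hw' => ?_
  exact cI23_iI23_ne23 w' (t w') (fun e => h (e ▸ hw'))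

theorem cF23_pI23 (R : Finset (InfinitePlace K)) (t : ∀ w : InfinitePlace K, (w.Completion)ˣ)
    (v : HeightOneSpectrum (𝓞 K)) : cF23 v (pI23 R t) = 1 := by
  unfold pI23
  rw [map_prod]
  exact Finset.prod_eq_one fun w' _ => cF23_iI23 w' (t w') v

theorem pI23_insert23 [DecidableEq (InfinitePlace K)] {R : Finset (InfinitePlace K)}
    (t : ∀ w : InfinitePlace K, (w.Completion)ˣ) {a : InfinitePlace K} (h : a ∉ R) :
    pI23 (insert a R) t = iI23 a (t a) * pI23 R t := by
  unfold pI23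
  rw [Finset.prod_insert h]

theorem pI23_empty23 (t : ∀ w : InfinitePlace K, (w.Completion)ˣ) :
    pI23 (∅ : Finset (InfinitePlace K)) t = 1 := by
  unfold pI23
  rw [Finset.prod_empty]

/-! ## 5. Almost all components of an idele are units -/

theorem val_cF23_mul_inv23 (v : HeightOneSpectrum (𝓞 K)) (y : (Adl K)ˣ) :
    Valued.v ((y : Adl K).2 v) * Valued.v (((y⁻¹ : (Adl K)ˣ) : Adl K).2 v) = 1 := by
  rw [← map_mul, ← H743.snd_mul743, Units.mul_inv, H743.snd_one743, map_one]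

theorem finite_nonunit23 (y : (Adl K)ˣ) :
    {v : HeightOneSpectrum (𝓞 K) | Valued.v ((y : Adl K).2 v) ≠ 1}.Finite := by
  have h1 := (y : Adl K).2.2
  have h2 := ((y⁻¹ : (Adl K)ˣ) : Adl K).2.2
  have h3 := Filter.eventually_cofinite.1 (h1.and h2)
  refine h3.subset fun v hv => ?_
  simp only [Set.mem_ofPred_eq] at hv ⊢
  intro hh
  apply hv
  have e1 : Valued.v ((y : Adl K).2 v) ≤ 1 :=
    (HeightOneSpectrum.mem_adicCompletionIntegers (𝓞 K) K v).1 hh.1
  have e2 : Valued.v (((y⁻¹ : (Adl K)ˣ) : Adl K).2 v) ≤ 1 :=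
    (HeightOneSpectrum.mem_adicCompletionIntegers (𝓞 K) K v).1 hh.2
  have e3 := val_cF23_mul_inv23 v y
  rcases lt_or_eq_of_le e1 with e4 | e4
  · exfalso
    have e5 : Valued.v ((y : Adl K).2 v) * Valued.v (((y⁻¹ : (Adl K)ˣ) : Adl K).2 v) < 1 := by
      calc Valued.v ((y : Adl K).2 v) * Valued.v (((y⁻¹ : (Adl K)ˣ) : Adl K).2 v)
          ≤ Valued.v ((y : Adl K).2 v) * 1 := by gcongr
        _ < 1 := by rw [mul_one]; exact e4
    rw [e3] at e5
    exact lt_irrefl _ e5
  · exact e4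

/-! ## 6. Commutation and triviality -/

/-- Two elements such that at every place one of them is trivial commute. -/
theorem comm_of_disj23 {a b : G K}
    (hF : ∀ v : HeightOneSpectrum (𝓞 K), TrivAtFin v a ∨ TrivAtFin v b)
    (hI : ∀ w : InfinitePlace K, TrivAtInf w a ∨ TrivAtInf w b) : a * b = b * a := by
  apply Units.ext
  rw [Units.val_mul, Units.val_mul]
  apply H333.adeleMatrix_ext333
  · intro w
    rw [Matrix.map_mul, Matrix.map_mul]
    rcases hI w with h | h
    · rw [(H333.trivAtInf_iff333 w a).1 h, one_mul, mul_one]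
    · rw [(H333.trivAtInf_iff333 w b).1 h, one_mul, mul_one]
  · intro v
    rw [Matrix.map_mul, Matrix.map_mul]
    rcases hF v with h | h
    · rw [(H333.trivAtFin_iff333 v a).1 h, one_mul, mul_one]
    · rw [(H333.trivAtFin_iff333 v b).1 h, one_mul, mul_one]

theorem trivAtFin_mul23 {v : HeightOneSpectrum (𝓞 K)} {a b : G K} (ha : TrivAtFin v a)
    (hb : TrivAtFin v b) : TrivAtFin v (a * b) := by
  unfold TrivAtFin at ha hb ⊢
  rw [H333.finComp_mul333, ha, hb, one_mul]

theorem trivAtFin_one23 (v : HeightOneSpectrum (𝓞 K)) : TrivAtFin v (1 : G K) :=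
  H333.finComp_one333 v

theorem trivAtInf_mul23 {w : InfinitePlace K} {a b : G K} (ha : TrivAtInf w a)
    (hb : TrivAtInf w b) : TrivAtInf w (a * b) := by
  rw [H333.trivAtInf_iff333] at ha hb ⊢
  rw [Units.val_mul, Matrix.map_mul, ha, hb, one_mul]

theorem trivAtInf_one23 (w : InfinitePlace K) : TrivAtInf w (1 : G K) := by
  rw [H333.trivAtInf_iff333, Units.val_one]
  exact Matrix.map_one _ (map_zero _) (map_one _)

theorem trivAtInf_inv23 {w : InfinitePlace K} {g : G K} (h : TrivAtInf w g) :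
    TrivAtInf w g⁻¹ := by
  rw [H333.trivAtInf_iff333] at h ⊢
  have h1 : ((g * g⁻¹ : G K) : Matrix (Fin 2) (Fin 2) (Adl K)).map (H333.evI333 w) = 1 := by
    rw [mul_inv_cancel, Units.val_one]
    exact Matrix.map_one _ (map_zero _) (map_one _)
  rw [Units.val_mul, Matrix.map_mul, h, one_mul] at h1
  exact h1

/-! ## 7. Unit ideles and the level group -/

/-- The torus element of an idele which is trivial at the infinite places and at the places
dividing `𝔫` and a unit everywhere lies in `U(𝔫)`. -/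
theorem inLevelGroup_tor23 {𝔫 : Ideal (𝓞 K)} {U : (Adl K)ˣ}
    (hI : ∀ w : InfinitePlace K, cI23 w U = 1)
    (hS : ∀ v : HeightOneSpectrum (𝓞 K), v.asIdeal ∣ 𝔫 → cF23 v U = 1)
    (hU : ∀ v : HeightOneSpectrum (𝓞 K), Valued.v ((U : Adl K).2 v) = 1) :
    InLevelGroup 𝔫 (tor U) := by
  have key : ∀ (V : (Adl K)ˣ), (∀ v : HeightOneSpectrum (𝓞 K), v.asIdeal ∣ 𝔫 → cF23 v V = 1) →
      (∀ v : HeightOneSpectrum (𝓞 K), Valued.v ((V : Adl K).2 v) = 1) →
      ∀ (v : HeightOneSpectrum (𝓞 K)) (i j : Fin 2),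
        (finComp v (tor V) - 1) i j ∈ idealClosure 𝔫 v := by
    intro V hVS hVU v i j
    rw [finComp_tor23]
    have h00 : (V : Adl K).2 v - 1 ∈ idealClosure 𝔫 v := by
      by_cases hv : v.asIdeal ∣ 𝔫
      · rw [(cF23_eq_one_iff23 v V).mp (hVS v hv), sub_self]
        exact H333.zero_mem_idealClosure333 𝔫 v
      · apply H333.mem_idealClosure_of_int333 hv
        refine le_trans (Valuation.map_sub _ _ _) (max_le (hVU v).le ?_)
        rw [map_one]
    fin_cases i <;> fin_cases j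
    · simpa using h00
    · simpa using H333.zero_mem_idealClosure333 𝔫 v
    · simpa using H333.zero_mem_idealClosure333 𝔫 v
    · simpa using H333.zero_mem_idealClosure333 𝔫 v
  refine ⟨fun w => trivAtInf_tor23 (hI w), fun v i j => ⟨key U hS hU v i j, ?_⟩⟩
  rw [← tor_inv23]
  refine key U⁻¹ (fun v' hv' => ?_) (fun v' => ?_) v i j
  · rw [map_inv, hS v' hv', inv_one]
  · have h1 := val_cF23_mul_inv23 v' U
    rw [hU v', one_mul] at h1
    exact h1

end Fermat.Agent.LT.T2.H23

end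

end
-- ===== PACK-END LT/T2/H23/Idele.lean

-- ===== PACK-BEGIN LT/T3/H157/NInt.lean
section


/-!
# Row LT, tower T3, leaf T3.18a.2.2 `NIntC` (AS.2 cut of helper315) -- helper157, OFF-MAIN

`nIntC157 : H315.NIntC`: the `N`-integral of the test function `abelFn β` is `β`.
Spec: byte copy of `LT/T3/H315/AbelCut.lean` (helper315@4ea336ee2, sha256 446d055e).

Proof: on `[[c₁, x], [0, c₂]]` the determinant is `c₁ c₂` (constant in `x`) and
`chD614 = cosh (log |c₁| - log |c₂|) + |x|² / (2 |c₁| |c₂|)`; then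
`integral_complex_affine_sq614` and `IsEvenTest614.abel_transform` of helper614 for the slice
`E = sliceE β (log |c₁ c₂|)`, which is an even `C²` function of compact support.
-/

set_option autoImplicit false

open MeasureTheory
open Fermat.Agent.LT.T3.AS Fermat.Agent.LT.T3.H614 Fermat.Agent.LT.T3.H315

noncomputable section

namespace Fermat.Agent.LT.T3.H157

/-- The slice of a symmetric bump function is an even test function. -/
theorem sliceE_isEvenTest157 (β : ℝ × ℝ → ℂ) (hβ : IsSymBump β) (c : ℝ) :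
    ∃ R : ℝ, IsEvenTest614 (sliceE β c) R := by
  obtain ⟨hsm, hsupp, hsym⟩ := hβ
  obtain ⟨M, hM⟩ : ∃ M : ℝ, ∀ p : ℝ × ℝ, β p ≠ 0 → ‖p‖ ≤ M := by
    obtain ⟨M, hM⟩ := hsupp.isCompact.isBounded.exists_norm_le
    exact ⟨M, fun p hp => hM p (subset_tsupport _ hp)⟩
  refine ⟨2 * M + 1, ?_, ?_, ?_⟩
  · have h1 : ContDiff ℝ 2 (fun u : ℝ => (((c + u) / 2, (c - u) / 2) : ℝ × ℝ)) := by
      fun_prop
    have h2 : ContDiff ℝ 2 β :=
      hsm.of_le (show (2 : WithTop ℕ∞) ≤ ((⊤ : ℕ∞) : WithTop ℕ∞) from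
        (WithTop.coe_le_coe.2 le_top : ((2 : ℕ∞) : WithTop ℕ∞) ≤ ((⊤ : ℕ∞) : WithTop ℕ∞)))
    exact h2.comp h1
  · intro u
    unfold sliceE
    rw [hsym]
    congr 2
    ring
  · intro u hu
    by_contra h
    have h3 : ‖(((c + u) / 2, (c - u) / 2) : ℝ × ℝ)‖ ≤ M := hM _ h
    rw [Prod.norm_def] at h3
    have h4 : |(c + u) / 2| ≤ M := (le_max_left _ _).trans h3
    have h5 : |(c - u) / 2| ≤ M := (le_max_right _ _).trans h3
    have h6 : |u| ≤ 2 * M := by
      have e : u = (c + u) / 2 - (c - u) / 2 := by ring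
      calc |u| = |(c + u) / 2 - (c - u) / 2| := by rw [← e]
        _ ≤ |(c + u) / 2| + |(c - u) / 2| := abs_sub _ _
        _ ≤ 2 * M := by linarith
    linarith

/-- The value of `chD614` on `[[c₁, x], [0, c₂]]`. -/
theorem chD614_upperGL157 (c₁ c₂ : ℂˣ) (x : ℂ) :
    chD614 ((upperGL c₁ c₂ x : GL (Fin 2) ℂ) : Matrix (Fin 2) (Fin 2) ℂ)
      = Real.cosh (Real.log ‖(c₁ : ℂ)‖ - Real.log ‖(c₂ : ℂ)‖)
        + (1 / (2 * ‖(c₁ : ℂ)‖ * ‖(c₂ : ℂ)‖)) * ‖x‖ ^ 2 := by
  have n1 : 0 < ‖(c₁ : ℂ)‖ := norm_pos_iff.2 c₁.ne_zero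
  have n2 : 0 < ‖(c₂ : ℂ)‖ := norm_pos_iff.2 c₂.ne_zero
  have hm : ((upperGL c₁ c₂ x : GL (Fin 2) ℂ) : Matrix (Fin 2) (Fin 2) ℂ)
      = !![(c₁ : ℂ), x; 0, (c₂ : ℂ)] := rfl
  rw [hm]
  unfold chD614 hsq614
  rw [Matrix.det_fin_two_of]
  simp only [Matrix.of_apply, Matrix.cons_val', Matrix.cons_val_zero, Matrix.cons_val_one,
    Matrix.cons_val_fin_one, mul_zero, sub_zero, norm_mul, norm_zero]
  rw [Real.cosh_eq, Real.exp_sub, Real.exp_log n1, Real.exp_log n2, neg_sub, Real.exp_sub,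
    Real.exp_log n1, Real.exp_log n2]
  field_simp
  ring

/-- The determinant of `[[c₁, x], [0, c₂]]`. -/
theorem det_upperGL157 (c₁ c₂ : ℂˣ) (x : ℂ) :
    ((upperGL c₁ c₂ x : GL (Fin 2) ℂ) : Matrix (Fin 2) (Fin 2) ℂ).det = (c₁ : ℂ) * (c₂ : ℂ) := by
  have hm : ((upperGL c₁ c₂ x : GL (Fin 2) ℂ) : Matrix (Fin 2) (Fin 2) ℂ)
      = !![(c₁ : ℂ), x; 0, (c₂ : ℂ)] := rfl
  rw [hm, Matrix.det_fin_two_of]
  ring

/-- **AS.2.2 `NIntC`.**  The `N`-integral of the test function `abelFn β` is `β`. -/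
theorem nIntC157 : _root_.Fermat.Agent.LT.T3.H315.NIntC := by
  intro β hβ c₁ c₂
  have n1 : 0 < ‖(c₁ : ℂ)‖ := norm_pos_iff.2 c₁.ne_zero
  have n2 : 0 < ‖(c₂ : ℂ)‖ := norm_pos_iff.2 c₂.ne_zero
  obtain ⟨R, hE⟩ :=
    sliceE_isEvenTest157 β hβ (Real.log ‖(c₁ : ℂ)‖ + Real.log ‖(c₂ : ℂ)‖)
  have hpt : ∀ x : ℂ, abelFn β (upperGL c₁ c₂ x)
      = abelInv614 (sliceE β (Real.log ‖(c₁ : ℂ)‖ + Real.log ‖(c₂ : ℂ)‖))
          (Real.cosh (Real.log ‖(c₁ : ℂ)‖ - Real.log ‖(c₂ : ℂ)‖)
            + (1 / (2 * ‖(c₁ : ℂ)‖ * ‖(c₂ : ℂ)‖)) * ‖x‖ ^ 2) := by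
    intro x
    unfold abelFn
    rw [det_upperGL157, chD614_upperGL157, norm_mul, Real.log_mul n1.ne' n2.ne']
  simp_rw [hpt]
  rw [integral_complex_affine_sq614 _ _
    (by positivity : 0 < 1 / (2 * ‖(c₁ : ℂ)‖ * ‖(c₂ : ℂ)‖))]
  have hab := hE.abel_transform (Real.log ‖(c₁ : ℂ)‖ - Real.log ‖(c₂ : ℂ)‖)
  have hval : sliceE β (Real.log ‖(c₁ : ℂ)‖ + Real.log ‖(c₂ : ℂ)‖)
      (Real.log ‖(c₁ : ℂ)‖ - Real.log ‖(c₂ : ℂ)‖)
      = β (Real.log ‖(c₁ : ℂ)‖, Real.log ‖(c₂ : ℂ)‖) := by
    unfold sliceE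
    congr 2 <;> ring
  rw [hval] at hab
  rw [← hab, ← Complex.real_smul, smul_smul]
  congr 1
  field_simp

end Fermat.Agent.LT.T3.H157

end

end
-- ===== PACK-END LT/T3/H157/NInt.lean

-- ===== PACK-BEGIN LT/T3/H694/AvgCore.lean
section


/-!
# Row LT, tower T3, leaf AS.2.4c `AvgCoreC` (registry 1174) -- helper694

OFF-MAIN.  `avgCoreC694 : H315.AvgCoreC`, i.e. `CartanC → UnitaryHaarC → AvgC`
(frozen Props of `LT/T3/H315/AbelCut.lean`, helper315@4ea336ee2, sha256 446d055e, byte-identical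
copy).  MATHLIB ONLY.

Proof.  `m` = the invariant probability measure carried by `U(2)`, `μ` a Haar measure of
`GL₂(ℂ)`, `f` continuous of compact support, left `U(2)`-invariant.

1. `∫ Ψ(y h) f(h) dμ = ∫ Ψ(y k h) f(h) dμ` for unitary `k` (left invariance of `μ`); integrate over
   `m` and use Fubini on `m × μ|_{supp f}` (finite measures, bounded continuous integrand).
2. `∫ Ψ(y k h) dm(k) = sph0(chD h) Ψ(y)`: Cartan decomposition `h = k₁ t z k₂`, right invariance of
   `Ψ` under `U(2)` and the positive scalars, right invariance of `m` under `k₁`; for `d > 0` the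
   mean value identity of `Ψ` at the points `y k`, integrated over `m` (Fubini on
   `m × [0, 2π] × [0, π]`), right invariance of `m` under `rotZ α · rotY β`, `∫ sin = 2`.
-/

set_option autoImplicit false
set_option linter.style.haveILetI false

open MeasureTheory
open Fermat.Agent.LT.H556.A0 Fermat.Agent.LT.T3.AS Fermat.Agent.LT.T3.H614
open Fermat.Agent.LT.T3.H315

noncomputable section

namespace Fermat.Agent.LT.T3.H694

/-! ## Topology of `GL₂(ℂ)` -/

theorem secondCountable_mat694 : SecondCountableTopology (Matrix (Fin 2) (Fin 2) ℂ) :=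
  inferInstanceAs (SecondCountableTopology (Fin 2 → Fin 2 → ℂ))

theorem secondCountable_GL694 : SecondCountableTopology (GL (Fin 2) ℂ) := by
  haveI := secondCountable_mat694
  haveI : SecondCountableTopology (Matrix (Fin 2) (Fin 2) ℂ)ᵐᵒᵖ :=
    MulOpposite.opHomeomorph.symm.secondCountableTopology
  exact Units.isEmbedding_embedProduct.secondCountableTopology

/-! ## The unitary matrices `rotZ α * rotY β` as elements of `GL₂(ℂ)` -/

theorem diag_unitary694 (z w : ℂ) (hz : z * (starRingEnd ℂ) z = 1)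
    (hw : w * (starRingEnd ℂ) w = 1) :
    (!![z, 0; 0, w] : Matrix (Fin 2) (Fin 2) ℂ) * (!![z, 0; 0, w]).conjTranspose = 1 := by
  ext i j
  fin_cases i <;> fin_cases j <;>
    simp [Matrix.mul_apply, Fin.sum_univ_two, Matrix.conjTranspose_apply, hz, hw]

theorem rot_unitary694 (c s : ℝ) (h : c ^ 2 + s ^ 2 = 1) :
    (!![(c : ℂ), -(s : ℂ); (s : ℂ), (c : ℂ)] : Matrix (Fin 2) (Fin 2) ℂ)
      * (!![(c : ℂ), -(s : ℂ); (s : ℂ), (c : ℂ)]).conjTranspose = 1 := by
  have hcs : ((c : ℂ)) * (c : ℂ) + (s : ℂ) * (s : ℂ) = 1 := by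
    have h2 : (((c ^ 2 + s ^ 2 : ℝ)) : ℂ) = 1 := by
      rw [h]; simp
    rw [← h2]
    push_cast
    ring
  ext i j
  fin_cases i <;> fin_cases j
  · simp only [Matrix.mul_apply, Fin.sum_univ_two, Matrix.conjTranspose_apply]
    simp
    linear_combination hcs
  · simp only [Matrix.mul_apply, Fin.sum_univ_two, Matrix.conjTranspose_apply]
    simp
    ring
  · simp only [Matrix.mul_apply, Fin.sum_univ_two, Matrix.conjTranspose_apply]
    simp
    ring
  · simp only [Matrix.mul_apply, Fin.sum_univ_two, Matrix.conjTranspose_apply]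
    simp
    linear_combination hcs

theorem exp_I_mul_conj694 (a : ℝ) :
    Complex.exp (Complex.I * (a : ℂ)) * (starRingEnd ℂ) (Complex.exp (Complex.I * (a : ℂ))) = 1 := by
  rw [Complex.mul_conj, Complex.normSq_eq_norm_sq, Complex.norm_exp_I_mul_ofReal]
  simp

theorem exp_neg_I_mul_conj694 (a : ℝ) :
    Complex.exp (-(Complex.I * (a : ℂ)))
      * (starRingEnd ℂ) (Complex.exp (-(Complex.I * (a : ℂ)))) = 1 := by
  have h : -(Complex.I * (a : ℂ)) = Complex.I * ((-a : ℝ) : ℂ) := by push_cast; ring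
  rw [h]
  exact exp_I_mul_conj694 (-a)

theorem rotZ_mul_conjTranspose694 (α : ℝ) : rotZ α * (rotZ α).conjTranspose = 1 :=
  diag_unitary694 _ _ (exp_I_mul_conj694 (α / 2)) (exp_neg_I_mul_conj694 (α / 2))

theorem rotY_mul_conjTranspose694 (β : ℝ) : rotY β * (rotY β).conjTranspose = 1 :=
  rot_unitary694 _ _ (Real.cos_sq_add_sin_sq (β / 2))

/-- The matrix `rotZ α * rotY β`. -/
def eulerMat694 (α β : ℝ) : Matrix (Fin 2) (Fin 2) ℂ := rotZ α * rotY β

theorem eulerMat_mul_conjTranspose694 (α β : ℝ) :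
    eulerMat694 α β * (eulerMat694 α β).conjTranspose = 1 := by
  unfold eulerMat694
  rw [Matrix.conjTranspose_mul, Matrix.mul_assoc, ← Matrix.mul_assoc (rotY β),
    rotY_mul_conjTranspose694, Matrix.one_mul, rotZ_mul_conjTranspose694]

theorem eulerMat_conjTranspose_mul694 (α β : ℝ) :
    (eulerMat694 α β).conjTranspose * eulerMat694 α β = 1 :=
  mul_eq_one_comm.mp (eulerMat_mul_conjTranspose694 α β)

/-- `rotZ α * rotY β` as an element of `GL₂(ℂ)`. -/
def eulerGL694 (α β : ℝ) : GL (Fin 2) ℂ :=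
  ⟨eulerMat694 α β, (eulerMat694 α β).conjTranspose, eulerMat_mul_conjTranspose694 α β,
    eulerMat_conjTranspose_mul694 α β⟩

theorem eulerGL_coe694 (α β : ℝ) :
    ((eulerGL694 α β : GL (Fin 2) ℂ) : Matrix (Fin 2) (Fin 2) ℂ) = rotZ α * rotY β := rfl

theorem eulerGL_unitary694 (α β : ℝ) : IsUnitary2 (eulerGL694 α β) :=
  eulerMat_mul_conjTranspose694 α β

theorem continuous_eulerMat694 : Continuous fun p : ℝ × ℝ => eulerMat694 p.1 p.2 := by
  unfold eulerMat694
  refine Continuous.matrix_mul ?_ ?_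
  · refine continuous_matrix fun i j => ?_
    fin_cases i <;> fin_cases j <;> simp [rotZ] <;> fun_prop
  · refine continuous_matrix fun i j => ?_
    fin_cases i <;> fin_cases j <;> simp [rotY] <;> fun_prop

theorem continuous_eulerGL694 : Continuous fun p : ℝ × ℝ => eulerGL694 p.1 p.2 := by
  rw [Units.continuous_iff]
  refine ⟨continuous_eulerMat694, ?_⟩
  exact continuous_eulerMat694.matrix_conjTranspose


/-! ## Measure theory -/

section Core

local instance borelGL694 : MeasurableSpace (GL (Fin 2) ℂ) := borel (GL (Fin 2) ℂ)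

local instance borelSpaceGL694 : BorelSpace (GL (Fin 2) ℂ) := ⟨rfl⟩

local instance sctGL694 : SecondCountableTopology (GL (Fin 2) ℂ) := secondCountable_GL694

/-- A function on a product of finite measure spaces which is a.e. strongly measurable and bounded
on a product set of full measure is integrable. -/
theorem integrable_prod_of_bound694 {α β : Type*} [MeasurableSpace α] [MeasurableSpace β]
    {μ : Measure α} {ν : Measure β} [IsFiniteMeasure μ] [IsFiniteMeasure ν]
    {F : α × β → ℂ} (hF : AEStronglyMeasurable F (μ.prod ν)) (C : ℝ) {A : Set α} {B : Set β}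
    (hAm : MeasurableSet A) (hBm : MeasurableSet B)
    (hA : ∀ᵐ a ∂μ, a ∈ A) (hB : ∀ᵐ b ∂ν, b ∈ B)
    (hb : ∀ a ∈ A, ∀ b ∈ B, ‖F (a, b)‖ ≤ C) : Integrable F (μ.prod ν) := by
  refine Integrable.of_bound hF C ?_
  have hmeas : MeasurableSet {z : α × β | z.1 ∈ A ∧ z.2 ∈ B} := hAm.prod hBm
  have hae : ∀ᵐ z ∂μ.prod ν, z.1 ∈ A ∧ z.2 ∈ B := by
    rw [Measure.ae_prod_iff_ae_ae hmeas]
    filter_upwards [hA] with a ha
    filter_upwards [hB] with b hb'
    exact ⟨ha, hb'⟩
  filter_upwards [hae] with z hz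
  exact hb z.1 hz.1 z.2 hz.2

/-- Right invariance of the integral with respect to `m`. -/
theorem integral_mul_right_unitary694 {m : Measure (GL (Fin 2) ℂ)}
    (hminv : ∀ k₀ : GL (Fin 2) ℂ, IsUnitary2 k₀ →
      Measure.map (fun k => k₀ * k) m = m ∧ Measure.map (fun k => k * k₀) m = m)
    (g : GL (Fin 2) ℂ → ℂ) (hg : Continuous g) (k₀ : GL (Fin 2) ℂ) (hk₀ : IsUnitary2 k₀) :
    ∫ k, g (k * k₀) ∂m = ∫ k, g k ∂m := by
  have h2 := (hminv k₀ hk₀).2
  calc ∫ k, g (k * k₀) ∂m
      = ∫ k, g k ∂(Measure.map (fun k => k * k₀) m) :=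
        (integral_map (measurable_mul_const k₀).aemeasurable hg.aestronglyMeasurable).symm
    _ = ∫ k, g k ∂m := by rw [h2]

theorem integral_sin_rect694 :
    ∫ p : ℝ × ℝ, ((Real.sin p.2 : ℝ) : ℂ)
      ∂((volume.restrict (Set.Ioc (0 : ℝ) (2 * Real.pi))).prod
        (volume.restrict (Set.Ioc (0 : ℝ) Real.pi)))
      = ((4 * Real.pi : ℝ) : ℂ) := by
  have hint : Integrable (fun p : ℝ × ℝ => ((Real.sin p.2 : ℝ) : ℂ))
      ((volume.restrict (Set.Ioc (0 : ℝ) (2 * Real.pi))).prod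
        (volume.restrict (Set.Ioc (0 : ℝ) Real.pi))) := by
    refine Integrable.of_bound ?_ 1 ?_
    · exact (Complex.continuous_ofReal.comp (Real.continuous_sin.comp continuous_snd)).aestronglyMeasurable
    · refine Filter.Eventually.of_forall fun p => ?_
      simp only [Complex.norm_real, Real.norm_eq_abs]
      exact Real.abs_sin_le_one _
  rw [integral_prod _ hint]
  have hinner : ∫ y in Set.Ioc (0 : ℝ) Real.pi, ((Real.sin y : ℝ) : ℂ) = ((2 : ℝ) : ℂ) := by
    rw [← intervalIntegral.integral_of_le Real.pi_pos.le, intervalIntegral.integral_ofReal,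
      integral_sin]
    simp
    norm_num
  simp only [hinner, integral_const]
  rw [Measure.real, Measure.restrict_apply_univ, Real.volume_Ioc,
    ENNReal.toReal_ofReal (by linarith [Real.pi_pos]), Complex.real_smul]
  push_cast
  ring

/-- The rectangle measure of the Euler angles. -/
def rectMeas694 : Measure (ℝ × ℝ) :=
  (volume.restrict (Set.Ioc (0 : ℝ) (2 * Real.pi))).prod
    (volume.restrict (Set.Ioc (0 : ℝ) Real.pi))

instance isFiniteMeasure_rectMeas694 : IsFiniteMeasure rectMeas694 := by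
  unfold rectMeas694
  infer_instance

theorem ae_mem_rect694 :
    ∀ᵐ p ∂rectMeas694, p ∈ Set.Icc (0 : ℝ) (2 * Real.pi) ×ˢ Set.Icc (0 : ℝ) Real.pi := by
  unfold rectMeas694
  rw [Measure.prod_restrict]
  have h := ae_restrict_mem (μ := (volume : Measure ℝ).prod (volume : Measure ℝ))
    ((measurableSet_Ioc (a := (0 : ℝ)) (b := 2 * Real.pi)).prod
      (measurableSet_Ioc (a := (0 : ℝ)) (b := Real.pi)))
  filter_upwards [h] with p hp
  exact ⟨Set.Ioc_subset_Icc_self hp.1, Set.Ioc_subset_Icc_self hp.2⟩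

/-- Integrability on the rectangle of a continuous function. -/
theorem integrable_rect_of_continuous694 (g : ℝ × ℝ → ℂ) (hg : Continuous g) :
    Integrable g rectMeas694 := by
  obtain ⟨C, hC⟩ := (isCompact_Icc.prod isCompact_Icc :
    IsCompact (Set.Icc (0 : ℝ) (2 * Real.pi) ×ˢ Set.Icc (0 : ℝ) Real.pi)).exists_bound_of_continuousOn
      hg.continuousOn
  refine Integrable.of_bound hg.aestronglyMeasurable C ?_
  filter_upwards [ae_mem_rect694] with p hp
  exact hC p hp

/-- The double interval integral of the mean value property as an integral over the rectangle. -/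
theorem rect_integral_eq694 (g : ℝ × ℝ → ℂ) (hg : Continuous g) :
    ∫ p, g p ∂rectMeas694
      = ∫ α in (0 : ℝ)..(2 * Real.pi), ∫ β in (0 : ℝ)..Real.pi, g (α, β) := by
  have h := integral_prod g (integrable_rect_of_continuous694 g hg)
  unfold rectMeas694 at h ⊢
  rw [h, intervalIntegral.integral_of_le (by linarith [Real.pi_pos])]
  refine integral_congr_ae (Filter.Eventually.of_forall fun α => ?_)
  simp only
  rw [intervalIntegral.integral_of_le Real.pi_pos.le]

theorem integral_sin_rectMeas694 :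
    ∫ p : ℝ × ℝ, ((Real.sin p.2 : ℝ) : ℂ) ∂rectMeas694 = ((4 * Real.pi : ℝ) : ℂ) :=
  integral_sin_rect694

/-- **The torus step**: the `m`-average of `Ψ(y k torus(d))` is `(d / sinh d) Ψ(y)`. -/
theorem avg_torus694 {m : Measure (GL (Fin 2) ℂ)} [IsProbabilityMeasure m]
    (hKc : IsCompact {k : GL (Fin 2) ℂ | IsUnitary2 k})
    (hmK : ∀ᵐ k ∂m, IsUnitary2 k)
    (hminv : ∀ k₀ : GL (Fin 2) ℂ, IsUnitary2 k₀ →
      Measure.map (fun k => k₀ * k) m = m ∧ Measure.map (fun k => k * k₀) m = m)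
    {Ψ : GL (Fin 2) ℂ → ℂ} (hΨ : IsLocSph0 Ψ) (y t : GL (Fin 2) ℂ) (d : ℝ) (hd : 0 < d)
    (ht : (t : Matrix (Fin 2) (Fin 2) ℂ) = torus d) :
    ∫ k, Ψ (y * k * t) ∂m = ((d / Real.sinh d : ℝ) : ℂ) * Ψ y := by
  have hKm : MeasurableSet {k : GL (Fin 2) ℂ | IsUnitary2 k} := hKc.isClosed.measurableSet
  let Gf : GL (Fin 2) ℂ → ℝ × ℝ → ℂ := fun k p =>
    Ψ (y * k * (eulerGL694 p.1 p.2 * t)) * ((Real.sin p.2 : ℝ) : ℂ)
  have hmap : Continuous fun z : GL (Fin 2) ℂ × (ℝ × ℝ) =>
      y * z.1 * (eulerGL694 z.2.1 z.2.2 * t) := by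
    have he : Continuous fun z : GL (Fin 2) ℂ × (ℝ × ℝ) => eulerGL694 z.2.1 z.2.2 :=
      continuous_eulerGL694.comp continuous_snd
    exact (continuous_const.mul continuous_fst).mul (he.mul continuous_const)
  have hGcont : Continuous (Function.uncurry Gf) := by
    have h1 : Continuous fun z : GL (Fin 2) ℂ × (ℝ × ℝ) =>
        Ψ (y * z.1 * (eulerGL694 z.2.1 z.2.2 * t)) := hΨ.cont.comp hmap
    have h2 : Continuous fun z : GL (Fin 2) ℂ × (ℝ × ℝ) => ((Real.sin z.2.2 : ℝ) : ℂ) :=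
      Complex.continuous_ofReal.comp
        (Real.continuous_sin.comp (continuous_snd.comp continuous_snd))
    exact h1.mul h2
  have hGk : ∀ k, Continuous (Gf k) := fun k => hGcont.uncurry_left k
  obtain ⟨C, hC⟩ := (hKc.prod (isCompact_Icc.prod isCompact_Icc :
    IsCompact (Set.Icc (0 : ℝ) (2 * Real.pi) ×ˢ Set.Icc (0 : ℝ) Real.pi))).exists_bound_of_continuousOn
      hGcont.continuousOn
  have hint : Integrable (Function.uncurry Gf) (m.prod rectMeas694) :=
    integrable_prod_of_bound694 hGcont.aestronglyMeasurable C hKm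
      (measurableSet_Icc.prod measurableSet_Icc) hmK ae_mem_rect694
      (fun a ha b hb => hC (a, b) ⟨ha, hb⟩)
  -- the mean value property at the points `y k`
  have hmvp : ∀ k, IsUnitary2 k →
      ∫ p, Gf k p ∂rectMeas694 = ((4 * Real.pi * (d / Real.sinh d) : ℝ) : ℂ) * Ψ y := by
    intro k hk
    have hY := hΨ.mean d hd (fun α β => eulerGL694 α β * t)
      (by intro α β; rw [Units.val_mul, eulerGL_coe694, ht]) (y * k)
    rw [hΨ.unitary k y hk] at hY
    rw [rect_integral_eq694 (Gf k) (hGk k)]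
    exact hY
  have h1 : ∫ k, ∫ p, Gf k p ∂rectMeas694 ∂m
      = ((4 * Real.pi * (d / Real.sinh d) : ℝ) : ℂ) * Ψ y := by
    rw [integral_congr_ae (hmK.mono fun k hk => hmvp k hk)]
    simp
  have h2 : ∫ k, ∫ p, Gf k p ∂rectMeas694 ∂m = ∫ p, ∫ k, Gf k p ∂m ∂rectMeas694 :=
    integral_integral_swap hint
  have hcont0 : Continuous fun k : GL (Fin 2) ℂ => Ψ (y * k * t) :=
    hΨ.cont.comp ((continuous_const.mul continuous_id).mul continuous_const)
  have h3 : ∀ p : ℝ × ℝ, ∫ k, Gf k p ∂m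
      = (∫ k, Ψ (y * k * t) ∂m) * ((Real.sin p.2 : ℝ) : ℂ) := by
    intro p
    have hr := integral_mul_right_unitary694 hminv (fun k => Ψ (y * k * t)) hcont0
      (eulerGL694 p.1 p.2) (eulerGL_unitary694 p.1 p.2)
    simp only [Gf]
    rw [integral_mul_const, ← hr]
    congr 1
    refine integral_congr_ae (Filter.Eventually.of_forall fun k => ?_)
    simp only [mul_assoc]
  rw [h2] at h1
  simp_rw [h3] at h1
  rw [integral_const_mul, integral_sin_rectMeas694] at h1
  have hpi : ((4 * Real.pi : ℝ) : ℂ) ≠ 0 := by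
    exact_mod_cast (by positivity : (4 * Real.pi : ℝ) ≠ 0)
  have h4 : (∫ k, Ψ (y * k * t) ∂m) * ((4 * Real.pi : ℝ) : ℂ)
      = (((d / Real.sinh d : ℝ) : ℂ) * Ψ y) * ((4 * Real.pi : ℝ) : ℂ) := by
    rw [h1]
    push_cast
    ring
  exact mul_right_cancel₀ hpi h4

theorem sph0_cosh_zero694 : sph0 (Real.cosh 0) = 1 := by
  unfold sph0
  rw [if_pos (by simp)]

theorem sph0_cosh_pos694 {d : ℝ} (hd : 0 < d) : sph0 (Real.cosh d) = d / Real.sinh d := by
  unfold sph0
  have h1 : 1 < Real.cosh d := Real.one_lt_cosh.mpr hd.ne'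
  rw [if_neg (not_le.mpr h1), Real.arcosh_cosh hd.le]
  have h2 : Real.cosh d ^ 2 - 1 = Real.sinh d ^ 2 := by
    rw [Real.cosh_sq]; ring
  rw [h2, Real.sqrt_sq (Real.sinh_nonneg_iff.mpr hd.le)]

theorem torus_zero694 : torus 0 = (1 : Matrix (Fin 2) (Fin 2) ℂ) := by
  ext i j
  fin_cases i <;> fin_cases j <;> simp [torus]

/-- **The `K`-average**: `∫ Ψ(y k h) dm(k) = sph0(chD h) Ψ(y)`. -/
theorem avg_point694 (hCartan : CartanC) {m : Measure (GL (Fin 2) ℂ)} [IsProbabilityMeasure m]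
    (hKc : IsCompact {k : GL (Fin 2) ℂ | IsUnitary2 k})
    (hmK : ∀ᵐ k ∂m, IsUnitary2 k)
    (hminv : ∀ k₀ : GL (Fin 2) ℂ, IsUnitary2 k₀ →
      Measure.map (fun k => k₀ * k) m = m ∧ Measure.map (fun k => k * k₀) m = m)
    {Ψ : GL (Fin 2) ℂ → ℂ} (hΨ : IsLocSph0 Ψ) (y h : GL (Fin 2) ℂ) :
    ∫ k, Ψ (y * k * h) ∂m
      = ((sph0 (chD614 (h : Matrix (Fin 2) (Fin 2) ℂ)) : ℝ) : ℂ) * Ψ y := by
  obtain ⟨k₁, k₂, t, z, d, r, hk₁, hk₂, hd, hr, hch, ht, hz, hh⟩ := hCartan h
  -- remove `k₂` and `z`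
  have hstep1 : ∀ k : GL (Fin 2) ℂ, Ψ (y * k * h) = Ψ (y * (k * k₁) * t) := by
    intro k
    have e1 : y * k * h = (y * (k * k₁) * t * z) * k₂ := by
      rw [hh]; simp only [mul_assoc]
    rw [e1, hΨ.unitary k₂ _ hk₂, hΨ.scalar z r hr hz]
  have hcont0 : Continuous fun k : GL (Fin 2) ℂ => Ψ (y * k * t) :=
    hΨ.cont.comp ((continuous_const.mul continuous_id).mul continuous_const)
  have hstep2 : ∫ k, Ψ (y * k * h) ∂m = ∫ k, Ψ (y * k * t) ∂m := by
    rw [← integral_mul_right_unitary694 hminv (fun k => Ψ (y * k * t)) hcont0 k₁ hk₁]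
    exact integral_congr_ae (Filter.Eventually.of_forall hstep1)
  rw [hstep2, ← hch]
  rcases hd.eq_or_lt with h0 | hpos
  · -- `d = 0`
    subst h0
    have ht1 : t = 1 := by
      apply Units.ext
      rw [ht, torus_zero694]; rfl
    subst ht1
    rw [sph0_cosh_zero694]
    have : ∀ᵐ k ∂m, Ψ (y * k * 1) = Ψ y := by
      filter_upwards [hmK] with k hk
      rw [mul_one, hΨ.unitary k y hk]
    rw [integral_congr_ae this]
    simp
  · rw [sph0_cosh_pos694 hpos]
    exact avg_torus694 hKc hmK hminv hΨ y t d hpos ht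

/-- **`AvgCoreC`** (registry 1174): `CartanC → UnitaryHaarC → AvgC`. -/
theorem avgCoreC694 : AvgCoreC := by
  intro hCartan hU
  obtain ⟨hKc, m, hm, hmK, hminv⟩ := hU
  intro μ hμ Ψ hΨ f hf hfs hfK y
  haveI := hm
  haveI := hμ
  have hKm : MeasurableSet {k : GL (Fin 2) ℂ | IsUnitary2 k} := hKc.isClosed.measurableSet
  -- the support of `f`
  have hS : IsCompact (tsupport f) := hfs
  have hSm : MeasurableSet (tsupport f) := (isClosed_tsupport f).measurableSet
  haveI : IsFiniteMeasure (μ.restrict (tsupport f)) :=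
    ⟨by rw [Measure.restrict_apply_univ]; exact hS.measure_lt_top⟩
  have hsupp : ∀ g : GL (Fin 2) ℂ → ℂ,
      ∫ h in tsupport f, g h * f h ∂μ = ∫ h, g h * f h ∂μ := by
    intro g
    refine setIntegral_eq_integral_of_forall_compl_eq_zero fun h hh => ?_
    rw [image_eq_zero_of_notMem_tsupport hh, mul_zero]
  -- step 1: translation by a unitary `k`
  have htrans : ∀ k : GL (Fin 2) ℂ, IsUnitary2 k →
      ∫ h in tsupport f, Ψ (y * k * h) * f h ∂μ = ∫ h, Ψ (y * h) * f h ∂μ := by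
    intro k hk
    rw [hsupp (fun h => Ψ (y * k * h))]
    have h1 := integral_mul_left_eq_self (μ := μ) (fun h => Ψ (y * h) * f h) k
    rw [← h1]
    refine integral_congr_ae (Filter.Eventually.of_forall fun h => ?_)
    simp only [hfK k h hk, mul_assoc]
  -- step 2: Fubini
  let Ff : GL (Fin 2) ℂ → GL (Fin 2) ℂ → ℂ := fun k h => Ψ (y * k * h) * f h
  have hFcont : Continuous (Function.uncurry Ff) := by
    have h1 : Continuous fun z : GL (Fin 2) ℂ × GL (Fin 2) ℂ => Ψ (y * z.1 * z.2) :=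
      hΨ.cont.comp ((continuous_const.mul continuous_fst).mul continuous_snd)
    exact h1.mul (hf.comp continuous_snd)
  obtain ⟨C, hC⟩ := (hKc.prod hS).exists_bound_of_continuousOn hFcont.continuousOn
  have hint : Integrable (Function.uncurry Ff) (m.prod (μ.restrict (tsupport f))) :=
    integrable_prod_of_bound694 hFcont.aestronglyMeasurable C hKm hSm hmK
      (ae_restrict_mem hSm) (fun a ha b hb => hC (a, b) ⟨ha, hb⟩)
  have hswap : ∫ k, ∫ h, Ff k h ∂(μ.restrict (tsupport f)) ∂m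
      = ∫ h, ∫ k, Ff k h ∂m ∂(μ.restrict (tsupport f)) := integral_integral_swap hint
  have hleft : ∫ k, ∫ h, Ff k h ∂(μ.restrict (tsupport f)) ∂m = ∫ h, Ψ (y * h) * f h ∂μ := by
    rw [integral_congr_ae (hmK.mono fun k hk => htrans k hk)]
    simp
  have hright : ∀ h : GL (Fin 2) ℂ, ∫ k, Ff k h ∂m
      = (((sph0 (chD614 (h : Matrix (Fin 2) (Fin 2) ℂ)) : ℝ) : ℂ) * Ψ y) * f h := by
    intro h
    simp only [Ff]
    rw [integral_mul_const, avg_point694 hCartan hKc hmK hminv hΨ y h]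
  rw [← hleft, hswap]
  simp_rw [hright]
  rw [hsupp (fun h => ((sph0 (chD614 (h : Matrix (Fin 2) (Fin 2) ℂ)) : ℝ) : ℂ) * Ψ y),
    ← integral_const_mul]
  refine integral_congr_ae (Filter.Eventually.of_forall fun h => ?_)
  simp only
  ring

end Core

end Fermat.Agent.LT.T3.H694

end

end
-- ===== PACK-END LT/T3/H694/AvgCore.lean

-- ===== PACK-BEGIN LT/T3/H543/IwasawaForm.lean
section


/-!
# Row LT, tower T3, leaf T3.18a.4.1 = N.1 `IwasawaFormC` (helper543)

OFF-MAIN.  `iwasawaFormC_of_h543 : T1.IwasawaC K → AS.N893.IwasawaFormC K`, VERBATIM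
(`LT/T3/H893/NIntSpec.lean`, helper893; `T1.IwasawaC` of `LT/T1/Spec.lean`, helper54), and
`iwasawaFormC_of_T1Out_h543 : T1.T1Out K → IwasawaFormC K`.

Proof (pure algebra).  `g = b₁ κ₁`, `g' = b' κ'` (Iwasawa), `b₁ = [[s₁, y₁], [0, t₁]]`,
`b' = [[s', y'], [0, t']]` (the diagonal entries of an upper triangular element of `GL₂` are
units).  With `k₁ = κ₁⁻¹`, `k' = κ'`, `c₁ = s₁⁻¹ s'`, `c₂ = t₁⁻¹ t'`, `a = s₁⁻¹ t'`,
`r_j = s₁⁻¹ αʲ y' - s₁⁻¹ y₁ t₁⁻¹ t'`:

    b₁ · [[c₁ αʲ, a x + r_j], [0, c₂]] = n(x) · diag(αʲ, 1) · b'.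
-/

set_option autoImplicit false
set_option linter.style.haveILetI false
set_option linter.unusedSectionVars false

open IsDedekindDomain NumberField
open Fermat.Agent.LT.H556.A0 Fermat.Agent.LT.T3 Fermat.Agent.LT.T3.AS
open Fermat.Agent.LT.T3.AS.N893

noncomputable section

namespace Fermat.Agent.LT.T3.H543

/-! ## Upper triangular elements of `GL₂(R)` -/

section Ring

variable {R : Type*} [CommRing R]

theorem upperGL_coe543 (c₁ c₂ : Rˣ) (x : R) :
    ((upperGL c₁ c₂ x : GL (Fin 2) R) : Matrix (Fin 2) (Fin 2) R)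
      = !![(c₁ : R), x; 0, (c₂ : R)] := rfl

/-- An upper triangular element of `GL₂(R)` is `[[s, y], [0, t]]` with units `s`, `t`. -/
theorem exists_upperGL543 (b : GL (Fin 2) R)
    (hb : (b : Matrix (Fin 2) (Fin 2) R) 1 0 = 0) :
    ∃ (s t : Rˣ) (y : R), b = upperGL s t y := by
  have hdet : IsUnit ((b : Matrix (Fin 2) (Fin 2) R) 0 0 * (b : Matrix (Fin 2) (Fin 2) R) 1 1) := by
    have h1 : IsUnit (b : Matrix (Fin 2) (Fin 2) R).det :=
      (Matrix.isUnit_iff_isUnit_det _).mp b.isUnit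
    rw [Matrix.det_fin_two, hb, mul_zero, sub_zero] at h1
    exact h1
  obtain ⟨s, hs⟩ := isUnit_of_mul_isUnit_left hdet
  obtain ⟨t, ht⟩ := isUnit_of_mul_isUnit_right hdet
  refine ⟨s, t, (b : Matrix (Fin 2) (Fin 2) R) 0 1, ?_⟩
  apply Units.ext
  rw [upperGL_coe543]
  ext i j
  fin_cases i <;> fin_cases j
  · exact hs.symm
  · rfl
  · exact hb
  · exact ht.symm

end Ring

/-! ## The torus `diag(α, 1)` -/

section Field

variable (K : Type) [Field K] [NumberField K]

/-- `α ↦ diag(α, 1)` as a homomorphism. -/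
def torHom543 : Kˣ →* G K where
  toFun := torK K
  map_one' := by
    apply Units.ext
    rw [torK_coe]
    ext i j
    fin_cases i <;> fin_cases j <;> simp [emb]
  map_mul' := fun α β => by
    apply Units.ext
    rw [Units.val_mul, torK_coe, torK_coe, torK_coe]
    ext i j
    fin_cases i <;> fin_cases j <;> simp [Matrix.mul_apply, Fin.sum_univ_two, emb]

theorem torK_zpow543 (α : Kˣ) (j : ℤ) : torK K α ^ j = torK K (α ^ j) :=
  (map_zpow (torHom543 K) α j).symm

theorem ratUnit_zpow_coe543 (α : Kˣ) (j : ℤ) :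
    ((T1.ratUnit K α ^ j : (Adl K)ˣ) : Adl K) = emb K ((α ^ j : Kˣ) : K) := by
  rw [← map_zpow]
  rfl

/-! ## `K⁰` is stable under inverse -/

theorem isStdCompact_inv543 {k : G K} (hk : T1.IsStdCompact K k) : T1.IsStdCompact K k⁻¹ := by
  obtain ⟨h1, h2⟩ := hk
  refine ⟨fun v => ⟨(h1 v).2, by rw [inv_inv]; exact (h1 v).1⟩, fun w => ?_⟩
  obtain ⟨hu, hd⟩ := h2 w
  rw [← infGL_coe] at hu hd
  rw [← infGL_coe, map_inv]
  set U : GL (Fin 2) ℂ := infGL K w k with hU
  have hinv : ((U⁻¹ : GL (Fin 2) ℂ) : Matrix (Fin 2) (Fin 2) ℂ)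
      = (U : Matrix (Fin 2) (Fin 2) ℂ).conjTranspose := by
    calc ((U⁻¹ : GL (Fin 2) ℂ) : Matrix (Fin 2) (Fin 2) ℂ)
        = ((U⁻¹ : GL (Fin 2) ℂ) : Matrix (Fin 2) (Fin 2) ℂ)
            * ((U : Matrix (Fin 2) (Fin 2) ℂ) * (U : Matrix (Fin 2) (Fin 2) ℂ).conjTranspose) := by
          rw [hu, mul_one]
      _ = (((U⁻¹ * U : GL (Fin 2) ℂ)) : Matrix (Fin 2) (Fin 2) ℂ)
            * (U : Matrix (Fin 2) (Fin 2) ℂ).conjTranspose := by
          rw [Units.val_mul, mul_assoc]
      _ = (U : Matrix (Fin 2) (Fin 2) ℂ).conjTranspose := by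
          rw [inv_mul_cancel, Units.val_one, one_mul]
  refine ⟨?_, fun hw => ?_⟩
  · rw [hinv, Matrix.conjTranspose_conjTranspose]
    exact mul_eq_one_comm.mp hu
  · have h3 : ((U⁻¹ : GL (Fin 2) ℂ) : Matrix (Fin 2) (Fin 2) ℂ).det
        * (U : Matrix (Fin 2) (Fin 2) ℂ).det = 1 := by
      rw [← Matrix.det_mul, ← Units.val_mul, inv_mul_cancel, Units.val_one, Matrix.det_one]
    rw [hd hw, mul_one] at h3
    exact h3

/-! ## The leaf -/

/-- The matrix identity behind N.1. -/
theorem upper_identity543 (α : Kˣ) (j : ℤ) (s₁ t₁ s' t' : (Adl K)ˣ) (y₁ y' x : Adl K) :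
    upperGL s₁ t₁ y₁
        * upperGL (s₁⁻¹ * s' * T1.ratUnit K α ^ j) (t₁⁻¹ * t')
            (((s₁⁻¹ * t' : (Adl K)ˣ) : Adl K) * x
              + (((s₁⁻¹ : (Adl K)ˣ) : Adl K) * emb K ((α ^ j : Kˣ) : K) * y'
                - ((s₁⁻¹ : (Adl K)ˣ) : Adl K) * y₁ * ((t₁⁻¹ : (Adl K)ˣ) : Adl K) * (t' : Adl K)))
      = unip K x * torK K α ^ j * upperGL s' t' y' := by
  rw [torK_zpow543]
  apply Units.ext
  simp only [Units.val_mul, upperGL_coe543, torK_coe, unip_coe, ratUnit_zpow_coe543]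
  ext i k
  fin_cases i <;> fin_cases k
  · simp only [Fin.zero_eta, Fin.isValue, Matrix.mul_apply, Fin.sum_univ_two, Matrix.of_apply,
      Matrix.cons_val', Matrix.cons_val_zero, Matrix.cons_val_fin_one, Matrix.cons_val_one]
    have h := s₁.mul_inv
    linear_combination ((s' : Adl K) * emb K ((α ^ j : Kˣ) : K)) * h
  · simp only [Fin.zero_eta, Fin.isValue, Fin.mk_one, Matrix.mul_apply, Fin.sum_univ_two,
      Matrix.of_apply, Matrix.cons_val', Matrix.cons_val_zero, Matrix.cons_val_fin_one,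
      Matrix.cons_val_one]
    have h := s₁.mul_inv
    linear_combination ((t' : Adl K) * x + emb K ((α ^ j : Kˣ) : K) * y'
      - y₁ * ((t₁⁻¹ : (Adl K)ˣ) : Adl K) * (t' : Adl K)) * h
  · simp [Matrix.mul_apply, Fin.sum_univ_two]
  · simp only [Fin.mk_one, Fin.isValue, Matrix.mul_apply, Fin.sum_univ_two, Matrix.of_apply,
      Matrix.cons_val', Matrix.cons_val_zero, Matrix.cons_val_fin_one, Matrix.cons_val_one]
    have h := t₁.mul_inv
    linear_combination (t' : Adl K) * h

/-- **N.1 = IWASAWA FORM**, from the Iwasawa decomposition of tower T1. -/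
theorem iwasawaFormC_of_h543 (hI : T1.IwasawaC K) : IwasawaFormC K := by
  intro α g g'
  obtain ⟨b₁, κ₁, hb₁, hκ₁, hg⟩ := hI g
  obtain ⟨b', κ', hb', hκ', hg'⟩ := hI g'
  obtain ⟨s₁, t₁, y₁, rfl⟩ := exists_upperGL543 b₁ hb₁
  obtain ⟨s', t', y', rfl⟩ := exists_upperGL543 b' hb'
  refine ⟨κ₁⁻¹, κ', s₁⁻¹ * s', t₁⁻¹ * t', s₁⁻¹ * t', isStdCompact_inv543 K hκ₁, hκ', fun j => ?_⟩
  refine ⟨((s₁⁻¹ : (Adl K)ˣ) : Adl K) * emb K ((α ^ j : Kˣ) : K) * y'
      - ((s₁⁻¹ : (Adl K)ˣ) : Adl K) * y₁ * ((t₁⁻¹ : (Adl K)ˣ) : Adl K) * (t' : Adl K),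
    fun x => ?_⟩
  have h := upper_identity543 K α j s₁ t₁ s' t' y₁ y' x
  rw [hg, hg', mul_inv_rev]
  calc κ₁⁻¹ * (upperGL s₁ t₁ y₁)⁻¹ * unip K x * torK K α ^ j * (upperGL s' t' y' * κ')
      = κ₁⁻¹ * ((upperGL s₁ t₁ y₁)⁻¹ * (unip K x * torK K α ^ j * upperGL s' t' y')) * κ' := by
        group
    _ = _ := by rw [← h, inv_mul_cancel_left]

/-- **N.1** from the output of tower T1. -/
theorem iwasawaFormC_of_T1Out_h543 (h : T1.T1Out K) : IwasawaFormC K :=
  iwasawaFormC_of_h543 K h.iwasawa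

end Field

end Fermat.Agent.LT.T3.H543

end

end
-- ===== PACK-END LT/T3/H543/IwasawaForm.lean

-- ===== PACK-BEGIN LT/T5/H277/Coeff.lean
section


/-!
# Row LT, tower T5, leaf T5.05 `LeafCoeff` (helper277)

`leafCoeff277 : T1.AdNormC K → T5.LeafCoeff s 𝔫 τ` (Spec v3, any `K_∞`-type `τ`):
`⟨R(φ₁ ⋆ φ₂) R(σ) e, e⟩ = ⟨K_{φ₁} K^σ_{φ₂} e, e⟩` for test functions `φ₁, φ₂` and a cusp function
`e`, pointwise in `x` before the inner product.  Proof: unfolding over `GL₂(K)` and the discrete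
ray (file `Unfold`), left invariance of the Haar measure, Fubini for continuous functions with
compact support.  Only input from other towers: `T1.AdNormC`.  OFF-MAIN.
-/

set_option autoImplicit false
open IsDedekindDomain NumberField MeasureTheory
open scoped MatrixGroups ComplexConjugate Pointwise
open Fermat.Agent.LT.H556.A0 Fermat.Agent.LT.T5

noncomputable section
namespace Fermat.Agent.LT.T5.H277

variable {K : Type} [Field K] [NumberField K]

attribute [local instance] Fermat.Agent.LT.T5.instMeasurableSpaceG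

variable {s : AdelicAut K} {𝔫 : Ideal (𝓞 K)} {μ : Measure (G K)} {r : G K} {F : Set (G K)}

/-! ## The kernel operator is the convolution operator -/

/-- **Core lemma.**  If `W (γ σ(y) rᵐ) = v y`, then
`∫_F K^σ_φ(z,y) v(y) dy = ∫ φ(u) W(z u) du`. -/
theorem twKer_integral277 (hN : T1.AdNormC K) (hF : IsFrame μ F) (hr : IsRayGen r)
    (hP : AutPreserves s 𝔫 μ r) {φ W v : G K → ℂ} (hφc : Continuous φ)
    (hφs : HasCompactSupport φ) (hWc : Continuous W)
    (hWv : ∀ (i : GL (Fin 2) K × ℤ) (y : G K), W (tile277 s r i y) = v y) (z : G K) :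
    ∫ y in F, twKer r s φ z y * v y ∂μ = Rconv μ φ W z := by
  have : BorelSpace (G K) := borelSpaceG277
  have := hF.haar
  set Φ : G K → ℂ := fun g => φ (z⁻¹ * g) * W g with hΦdef
  have hΦc : Continuous Φ := by
    apply Continuous.mul
    · exact hφc.comp (continuous_const_mul z⁻¹)
    · exact hWc
  have hΦs : HasCompactSupport Φ := by
    have h1 : HasCompactSupport (fun g => φ (z⁻¹ * g)) :=
      hφs.comp_homeomorph (Homeomorph.mulLeft z⁻¹)
    exact h1.mul_right
  have hΦi : Integrable Φ μ := hΦc.integrable_of_hasCompactSupport hΦs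
  have hpt : ∀ y : G K, twKer r s φ z y * v y
      = ∑' γ : GL (Fin 2) K, ∑' m : ℤ, Φ (tile277 s r (γ, m) y) := by
    intro y
    unfold twKer flat
    rw [← tsum_mul_right]
    congr 1
    funext γ
    rw [← tsum_mul_right]
    congr 1
    funext m
    simp only [hΦdef, tile277]
    rw [show z⁻¹ * (ratG γ * s.onG y * r ^ m) = z⁻¹ * ratG γ * s.onG y * r ^ m by
      simp only [mul_assoc]]
    rw [← hWv (γ, m) y]
    rfl
  simp_rw [hpt]
  rw [integral_tsum_tile277 hN hF hr hP hΦc hΦi]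
  unfold Rconv
  have h := integral_mul_left_eq_self (μ := μ) Φ z
  rw [← h]
  congr 1
  funext x
  simp only [hΦdef]
  rw [inv_mul_cancel_left]

/-! ## `R(φ₁) R(φ₂) = R(φ₁ ⋆ φ₂)` -/

theorem Rconv_Rconv277 (hF : IsFrame μ F) {φ₁ φ₂ ψ : G K → ℂ} (h₁c : Continuous φ₁)
    (h₁s : HasCompactSupport φ₁) (h₂c : Continuous φ₂) (h₂s : HasCompactSupport φ₂)
    (hψ : Continuous ψ) (x : G K) :
    Rconv μ φ₁ (Rconv μ φ₂ ψ) x = Rconv μ (conv μ φ₁ φ₂) ψ x := by
  have : BorelSpace (G K) := borelSpaceG277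
  have := hF.haar
  unfold Rconv conv
  -- substitute `u = y⁻¹ g` in the inner integral
  have hin : ∀ y : G K, ∫ u, φ₂ u * ψ (x * y * u) ∂μ = ∫ g, φ₂ (y⁻¹ * g) * ψ (x * g) ∂μ := by
    intro y
    have h := integral_mul_left_eq_self (μ := μ) (fun g => φ₂ (y⁻¹ * g) * ψ (x * g)) y
    rw [← h]
    congr 1
    funext u
    simp only [inv_mul_cancel_left, mul_assoc]
  simp_rw [hin]
  simp_rw [← integral_const_mul]
  -- Fubini for continuous functions with compact support
  have hswap := integral_integral_swap_of_hasCompactSupport (μ := μ) (ν := μ)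
    (f := fun y g => φ₁ y * (φ₂ (y⁻¹ * g) * ψ (x * g))) ?_ ?_
  · rw [hswap]
    congr 1
    funext g
    rw [← integral_mul_const]
    congr 1
    funext y
    ring
  · -- continuity
    have c1 : Continuous fun p : G K × G K => φ₁ p.1 := h₁c.comp continuous_fst
    have c2 : Continuous fun p : G K × G K => φ₂ (p.1⁻¹ * p.2) :=
      h₂c.comp ((continuous_inv.comp continuous_fst).mul continuous_snd)
    have c3 : Continuous fun p : G K × G K => ψ (x * p.2) :=
      hψ.comp (continuous_const.mul continuous_snd)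
    exact c1.mul (c2.mul c3)
  · -- compact support
    have hK : IsCompact (tsupport φ₁ ×ˢ (tsupport φ₁ * tsupport φ₂)) :=
      h₁s.isCompact.prod (h₁s.isCompact.mul h₂s.isCompact)
    refine HasCompactSupport.intro hK ?_
    rintro ⟨y, g⟩ hyg
    simp only [Function.uncurry_apply_pair]
    by_cases hy : y ∈ tsupport φ₁
    · have hg : y⁻¹ * g ∉ tsupport φ₂ := by
        intro hmem
        apply hyg
        refine ⟨hy, ?_⟩
        exact ⟨y, hy, y⁻¹ * g, hmem, by simp⟩
      rw [image_eq_zero_of_notMem_tsupport hg]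
      simp
    · rw [image_eq_zero_of_notMem_tsupport hy]
      simp

/-- Continuity of `R(φ) ψ`. -/
theorem continuous_Rconv277 (hF : IsFrame μ F) {φ ψ : G K → ℂ} (hφc : Continuous φ)
    (hφs : HasCompactSupport φ) (hψ : Continuous ψ) : Continuous (Rconv μ φ ψ) := by
  have : BorelSpace (G K) := borelSpaceG277
  have := hF.haar
  rw [← continuousOn_univ]
  unfold Rconv
  apply continuousOn_integral_of_compact_support (k := tsupport φ) hφs.isCompact
  · apply Continuous.continuousOn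
    have c1 : Continuous fun p : G K × G K => φ p.2 := hφc.comp continuous_snd
    have c2 : Continuous fun p : G K × G K => ψ (p.1 * p.2) :=
      hψ.comp (continuous_fst.mul continuous_snd)
    exact c1.mul c2
  · intro p y _ hy
    rw [image_eq_zero_of_notMem_tsupport hy]
    simp

/-! ## Invariance -/

theorem ray_zpow_inv277 {e : G K → ℂ} (he : ∀ g : G K, e (g * r) = e g) (g : G K) (m : ℤ) :
    e (g * r ^ m) = e g := by
  have hnat : ∀ (n : ℕ) (g : G K), e (g * r ^ n) = e g := by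
    intro n
    induction n with
    | zero => intro g; simp
    | succ n ih =>
      intro g
      rw [pow_succ, ← mul_assoc, he, ih]
  cases m with
  | ofNat n => simpa using hnat n g
  | negSucc n =>
    have h := hnat (n + 1) (g * r ^ (Int.negSucc n))
    rw [← h]
    congr 1
    rw [mul_assoc, zpow_negSucc]
    simp

/-- The function `R(σ) e` is invariant along the tiles. -/
theorem Rsig_tile277 (hP : AutPreserves s 𝔫 μ r) {e : G K → ℂ}
    (hl : ∀ (γ : GL (Fin 2) K) (g : G K), e (ratG γ * g) = e g)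
    (hray : ∀ g : G K, e (g * r) = e g) (i : GL (Fin 2) K × ℤ) (y : G K) :
    Rsig s e (tile277 s r i y) = e y := by
  unfold Rsig tile277
  rw [map_mul, map_mul, map_zpow, hP.left_inverse, onGinv_ray277 hP, onGinv_ratG277 hP,
    ray_zpow_inv277 hray, hl]

theorem continuous_Rsig277 (s : AdelicAut K) {e : G K → ℂ} (he : Continuous e) :
    Continuous (Rsig s e) :=
  he.comp (continuous_onGinv277 s)

/-! ## The trivial automorphism -/

theorem id_onG277 (g : G K) : (AdelicAut.id K).onG g = g := by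
  apply Units.ext
  ext i j
  rfl

theorem id_onGinv277 (g : G K) : (AdelicAut.id K).onGinv g = g := by
  apply Units.ext
  ext i j
  rfl

theorem id_onRat277 (γ : GL (Fin 2) K) : (AdelicAut.id K).onRat γ = γ := by
  apply Units.ext
  ext i j
  rfl

theorem autPreserves_id277 (𝔫 : Ideal (𝓞 K)) (μ : Measure (G K)) (r : G K) :
    AutPreserves (AdelicAut.id K) 𝔫 μ r where
  left_inverse := fun g => by rw [id_onG277, id_onGinv277]
  right_inverse := fun g => by rw [id_onGinv277, id_onG277]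
  rat := fun γ => by rw [id_onG277, id_onRat277]
  cont := by
    have : ((AdelicAut.id K).onG : G K → G K) = id := funext id_onG277
    rw [this]; exact continuous_id
  measure := fun A _ => by
    have : ((AdelicAut.id K).onG : G K → G K) = id := funext id_onG277
    rw [this]; rfl
  ray := id_onG277 r
  slab := fun g => by rw [id_onG277]
  level := fun u => by rw [id_onG277]
  arch := fun k => by rw [id_onG277]

theorem ker0_eq_twKer277 (r : G K) (φ : G K → ℂ) (x y : G K) :
    ker0 r φ x y = twKer r (AdelicAut.id K) φ x y := by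
  unfold ker0 twKer
  rw [id_onG277]

/-! ## T5.05 -/

/-- **T5.05 `LeafCoeff`**, conditional on the interface Prop `T1.AdNormC` of tower T1
(module of ideles: positive, multiplicative, product formula). -/
theorem leafCoeff277 (hN : T1.AdNormC K) (s : AdelicAut K) (𝔫 : Ideal (𝓞 K)) (τ : G K → ℂ) :
    LeafCoeff s 𝔫 τ := by
  intro μ F r hF hr hP φ₁ φ₂ t₁ t₂ e he
  -- ψ = R(σ) e, ψ₂ = R(φ₂) ψ
  have hψc : Continuous (Rsig s e) := continuous_Rsig277 s he.cont
  have hψt : ∀ (i : GL (Fin 2) K × ℤ) (y : G K), Rsig s e (tile277 s r i y) = e y :=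
    Rsig_tile277 hP he.aut.left_inv he.aut.ray
  have hψ₂c : Continuous (Rconv μ φ₂ (Rsig s e)) :=
    continuous_Rconv277 hF t₂.cont t₂.supp hψc
  -- invariance of ψ along the tiles, in the form needed for ψ₂
  have hψinv : ∀ (γ : GL (Fin 2) K) (m : ℤ) (h : G K),
      Rsig s e (ratG γ * h * r ^ m) = Rsig s e h := by
    intro γ m h
    have h1 := hψt (γ, m) (s.onGinv h)
    unfold tile277 at h1
    rw [hP.right_inverse] at h1
    rw [h1]
    rfl
  have hψ₂t : ∀ (i : GL (Fin 2) K × ℤ) (z : G K),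
      Rconv μ φ₂ (Rsig s e) (tile277 (AdelicAut.id K) r i z) = Rconv μ φ₂ (Rsig s e) z := by
    intro i z
    unfold Rconv tile277
    congr 1
    funext u
    rw [id_onG277]
    congr 1
    rw [show ratG i.1 * z * r ^ i.2 * u = ratG i.1 * (z * u) * r ^ i.2 by
      rw [mul_assoc (ratG i.1 * z), ray_zpow_comm277 hr u i.2]; simp only [mul_assoc]]
    exact hψinv i.1 i.2 (z * u)
  -- inner integral
  have hinner : ∀ z : G K, ∫ y in F, twKer r s φ₂ z y * e y ∂μ = Rconv μ φ₂ (Rsig s e) z :=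
    fun z => twKer_integral277 hN hF hr hP t₂.cont t₂.supp hψc hψt z
  -- outer integral
  have houter : ∀ x : G K,
      ∫ z in F, ker0 r φ₁ x z * Rconv μ φ₂ (Rsig s e) z ∂μ
        = Rconv μ φ₁ (Rconv μ φ₂ (Rsig s e)) x := by
    intro x
    simp_rw [ker0_eq_twKer277]
    exact twKer_integral277 hN hF hr (autPreserves_id277 𝔫 μ r) t₁.cont t₁.supp hψ₂c hψ₂t x
  unfold diagCoeff
  congr 1
  funext x
  simp_rw [hinner]
  rw [houter x, Rconv_Rconv277 hF t₁.cont t₁.supp t₂.cont t₂.supp hψc x]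

end Fermat.Agent.LT.T5.H277
end

end
-- ===== PACK-END LT/T5/H277/Coeff.lean

-- ===== PACK-BEGIN LT/T5/H415/AutT5.lean
section




/-!
# Row LT, tower T5, asset AUT-UNIQUE (helper415): every `AdelicAut` is the canonical one

OFF-MAIN.  Vocabulary of `LT/T5/Spec.lean` (v3, helper32@c970d419b) and `LT/H556/A0.lean`.
For an ARBITRARY `s : T5.AdelicAut K`:

* `adelicAut_ext415`      : `s.σ = s'.σ → s.σA = s'.σA` (the continuous extension is unique);
* `sigmaA_iterate415`     : `IsCyclicOfDegree s l k → s.σA^[l] = id`, `onG_iterate415` on `GL₂`;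
* `valued_onG415`         : `PlaceRel s v v' → Valued.v (finComp v' (s.onG g) i j)
                              = Valued.v (finComp v g i j)`;
* `isIntegralAt_onG415`, `inIwahori_onG415` : integrality / Iwahori at `v` ↔ at `σ v`;
* `finComp_onG_congr415`, `infComp_onG_congr415`, `agreeOutside_onG415` : locality;
* `orbit_closed415`       : the set `{o j | j < l}` of `T5.RegularOfIwahori` is `σ`-stable.
-/

set_option autoImplicit false
set_option linter.unusedSectionVars false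

open IsDedekindDomain NumberField

noncomputable section

namespace Fermat.Agent.LT.T5.H415

open Fermat.Agent.LT.H556.A0 Fermat.Agent.LT.T5 Fermat.Agent.LT.H415

variable {K : Type} [Field K] [NumberField K]

/-- The ring homomorphism underlying `s.σA`. -/
abbrev hom415 (s : AdelicAut K) : Adl K →+* Adl K := (s.σA : Adl K →+* Adl K)

theorem continuous_hom415 (s : AdelicAut K) : Continuous (hom415 s) := s.continuous_σA

theorem injective_hom415 (s : AdelicAut K) : Function.Injective (hom415 s) := s.σA.injective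

theorem compat_hom415 (s : AdelicAut K) (x : K) :
    hom415 s (algebraMap K (Adl K) x) = algebraMap K (Adl K) (s.σ x) := s.compat x

/-- **The continuous extension of `σ` to the adeles is unique.** -/
theorem adelicAut_ext415 (s s' : AdelicAut K) (h : s.σ = s'.σ) : s.σA = s'.σA :=
  adele_aut_unique415 s.σA s'.σA s.continuous_symm s'.continuous_σA
    (fun x => by rw [s.compat, s'.compat, h])

/-- **`σ^l = 1` on `K` implies `σ^l = 1` on the adeles.** -/
theorem sigmaA_iterate415 (s : AdelicAut K) (l : ℕ) (k : Subfield K)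
    (hc : IsCyclicOfDegree s l k) (a : Adl K) : (⇑s.σA)^[l] a = a :=
  adele_aut_iterate415 s.σ (hom415 s) (continuous_hom415 s) (injective_hom415 s)
    (compat_hom415 s) l hc.pow_eq a

theorem onG_coe415 (s : AdelicAut K) (g : G K) (i j : Fin 2) :
    (s.onG g : Matrix (Fin 2) (Fin 2) (Adl K)) i j
      = s.σA ((g : Matrix (Fin 2) (Fin 2) (Adl K)) i j) := rfl

theorem onG_iterate_coe415 (s : AdelicAut K) (n : ℕ) (g : G K) (i j : Fin 2) :
    (((⇑s.onG)^[n] g : G K) : Matrix (Fin 2) (Fin 2) (Adl K)) i j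
      = (⇑s.σA)^[n] ((g : Matrix (Fin 2) (Fin 2) (Adl K)) i j) := by
  induction n with
  | zero => rfl
  | succ n ih =>
    rw [Function.iterate_succ_apply', Function.iterate_succ_apply', onG_coe415, ih]

/-- **`σ^l = 1` on `GL₂(𝔸_K)`.** -/
theorem onG_iterate415 (s : AdelicAut K) (l : ℕ) (k : Subfield K)
    (hc : IsCyclicOfDegree s l k) (g : G K) : (⇑s.onG)^[l] g = g := by
  apply Units.ext
  ext i j
  have h := onG_iterate_coe415 s l g i j
  rw [sigmaA_iterate415 s l k hc] at h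
  exact h

theorem placeRel_iff415 (s : AdelicAut K) (v v' : HeightOneSpectrum (𝓞 K)) :
    PlaceRel s v v' ↔ FinRel K s.σ v v' := Iff.rfl

theorem finComp_onG415 (s : AdelicAut K) (v' : HeightOneSpectrum (𝓞 K)) (g : G K)
    (i j : Fin 2) :
    finComp v' (s.onG g) i j = (s.σA ((g : Matrix (Fin 2) (Fin 2) (Adl K)) i j)).2 v' := rfl

/-- **The valuations of the entries at `σ v` of `σ g` are those of `g` at `v`.** -/
theorem valued_onG415 (s : AdelicAut K) (v v' : HeightOneSpectrum (𝓞 K))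
    (h : PlaceRel s v v') (g : G K) (i j : Fin 2) :
    Valued.v (finComp v' (s.onG g) i j) = Valued.v (finComp v g i j) :=
  valued_tau_fin415 s.σ (hom415 s) (continuous_hom415 s) (compat_hom415 s)
    (injective_hom415 s) v v' h _

theorem isIntegralAt_onG415 (s : AdelicAut K) (v v' : HeightOneSpectrum (𝓞 K))
    (h : PlaceRel s v v') (g : G K) : IsIntegralAt v' (s.onG g) ↔ IsIntegralAt v g := by
  unfold IsIntegralAt
  simp only [HeightOneSpectrum.mem_adicCompletionIntegers, valued_onG415 s v v' h]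

theorem inIwahori_onG415 (s : AdelicAut K) (v v' : HeightOneSpectrum (𝓞 K))
    (h : PlaceRel s v v') (g : G K) : InIwahori v' (s.onG g) ↔ InIwahori v g := by
  unfold InIwahori
  rw [isIntegralAt_onG415 s v v' h, ← map_inv, isIntegralAt_onG415 s v v' h,
    valued_onG415 s v v' h]

/-- Locality at the finite places. -/
theorem finComp_onG_congr415 (s : AdelicAut K) (v v' : HeightOneSpectrum (𝓞 K))
    (h : PlaceRel s v v') (g g' : G K) (hg : finComp v g = finComp v g') :
    finComp v' (s.onG g) = finComp v' (s.onG g') := by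
  funext i j
  exact tau_fin_congr415 s.σ (hom415 s) (continuous_hom415 s) (compat_hom415 s)
    (injective_hom415 s) v v' h _ _ (congrFun (congrFun hg i) j)

theorem infComp_eq_iff415 (w : InfinitePlace K) (g g' : G K) :
    infComp w g = infComp w g' ↔
      ∀ i j, ((g : Matrix (Fin 2) (Fin 2) (Adl K)) i j).1 w
        = ((g' : Matrix (Fin 2) (Fin 2) (Adl K)) i j).1 w := by
  constructor
  · intro h i j
    have := congrFun (congrFun h i) j
    exact (InfinitePlace.Completion.extensionEmbedding w).injective this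
  · intro h
    ext i j
    exact congrArg (InfinitePlace.Completion.extensionEmbedding w) (h i j)

/-- Locality at the infinite places. -/
theorem infComp_onG_congr415 (s : AdelicAut K) (w : InfinitePlace K) (g g' : G K)
    (hg : infComp w g = infComp w g') :
    infComp (infImage K s.σ w) (s.onG g) = infComp (infImage K s.σ w) (s.onG g') := by
  rw [infComp_eq_iff415] at hg ⊢
  intro i j
  exact tau_inf_congr415 s.σ (hom415 s) (continuous_hom415 s) (compat_hom415 s)
    (injective_hom415 s) w _ _ (hg i j)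

/-- **`σ` preserves agreement outside a `σ`-stable set of finite places.** -/
theorem agreeOutside_onG415 (s : AdelicAut K) (O : Set (HeightOneSpectrum (𝓞 K)))
    (hO : ∀ v v' : HeightOneSpectrum (𝓞 K), PlaceRel s v v' → v' ∉ O → v ∉ O)
    (g g' : G K) (h : AgreeOutside O g g') : AgreeOutside O (s.onG g) (s.onG g') := by
  refine ⟨fun w' => ?_, fun v' hv' => ?_⟩
  · obtain ⟨w, rfl⟩ := infImage_surjective415 s.σ w'
    exact infComp_onG_congr415 s w g g' (h.1 w)
  · obtain ⟨v, hv⟩ := finRel_exists_preimage415 s.σ v'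
    exact finComp_onG_congr415 s v v' hv g g' (h.2 v (hO v v' hv hv'))

/-! ## The orbit of `T5.RegularOfIwahori` -/

theorem finRel_pow415 (σ : K ≃+* K) (o : ℕ → HeightOneSpectrum (𝓞 K))
    (ho : ∀ j : ℕ, FinRel K σ (o j) (o (j + 1))) (n : ℕ) : FinRel K (σ ^ n) (o 0) (o n) := by
  induction n with
  | zero =>
    rw [pow_zero]
    exact finRel_refl415 (o 0)
  | succ n ih =>
    unfold FinRel at ih ⊢
    rw [ho n, ih]
    ext y
    simp only [Ideal.mem_map_of_equiv]
    have hmul : ∀ z : 𝓞 K, NumberField.RingOfIntegers.mapRingEquiv σ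
        (NumberField.RingOfIntegers.mapRingEquiv (σ ^ n) z)
          = NumberField.RingOfIntegers.mapRingEquiv (σ ^ (n + 1)) z := by
      intro z
      ext
      rw [NumberField.RingOfIntegers.mapRingEquiv_apply,
        NumberField.RingOfIntegers.mapRingEquiv_apply,
        NumberField.RingOfIntegers.mapRingEquiv_apply, pow_succ']
      rfl
    constructor
    · rintro ⟨x, ⟨z, hz, rfl⟩, rfl⟩
      exact ⟨z, hz, (hmul z).symm⟩
    · rintro ⟨z, hz, rfl⟩
      exact ⟨NumberField.RingOfIntegers.mapRingEquiv (σ ^ n) z, ⟨z, hz, rfl⟩, hmul z⟩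

/-- `o l = o 0`. -/
theorem orbit_period415 (s : AdelicAut K) (l : ℕ) (k : Subfield K)
    (hc : IsCyclicOfDegree s l k) (o : ℕ → HeightOneSpectrum (𝓞 K))
    (ho : ∀ j : ℕ, PlaceRel s (o j) (o (j + 1))) : o l = o 0 := by
  have h1 := finRel_pow415 s.σ o ho l
  have h2 : s.σ ^ l = RingEquiv.refl K := by
    ext x
    exact hc.pow_eq x
  rw [h2] at h1
  exact finRel_unique415 (RingEquiv.refl K) (o 0) (o l) (o 0) h1 (finRel_refl415 (o 0))

/-- **The orbit `{o j | j < l}` is stable under `σ⁻¹`** (the hypothesis of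
`agreeOutside_onG415`). -/
theorem orbit_closed415 (s : AdelicAut K) (l : ℕ) (k : Subfield K)
    (hc : IsCyclicOfDegree s l k) (o : ℕ → HeightOneSpectrum (𝓞 K))
    (ho : ∀ j : ℕ, PlaceRel s (o j) (o (j + 1)))
    (v v' : HeightOneSpectrum (𝓞 K)) (hv : PlaceRel s v v')
    (hv' : v' ∉ {u : HeightOneSpectrum (𝓞 K) | ∃ j < l, u = o j}) :
    v ∉ {u : HeightOneSpectrum (𝓞 K) | ∃ j < l, u = o j} := by
  rintro ⟨j, hj, rfl⟩
  apply hv'
  have h1 : v' = o (j + 1) := finRel_unique415 s.σ (o j) v' (o (j + 1)) hv (ho j)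
  rcases Nat.lt_or_ge (j + 1) l with h | h
  · exact ⟨j + 1, h, h1⟩
  · have h2 : j + 1 = l := le_antisymm hj h
    refine ⟨0, hc.pos, ?_⟩
    rw [h1, h2]
    exact orbit_period415 s l k hc o ho

/-- The orbit is also stable under `σ`. -/
theorem orbit_closed_fwd415 (s : AdelicAut K) (l : ℕ) (k : Subfield K)
    (hc : IsCyclicOfDegree s l k) (o : ℕ → HeightOneSpectrum (𝓞 K))
    (ho : ∀ j : ℕ, PlaceRel s (o j) (o (j + 1)))
    (v v' : HeightOneSpectrum (𝓞 K)) (hv : PlaceRel s v v')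
    (hvO : v ∉ {u : HeightOneSpectrum (𝓞 K) | ∃ j < l, u = o j}) :
    v' ∉ {u : HeightOneSpectrum (𝓞 K) | ∃ j < l, u = o j} := by
  rintro ⟨j, hj, rfl⟩
  apply hvO
  rcases Nat.eq_zero_or_pos j with h0 | hpos
  · subst h0
    refine ⟨l - 1, Nat.sub_lt hc.pos Nat.one_pos, ?_⟩
    have h1 : PlaceRel s (o (l - 1)) (o 0) := by
      have := ho (l - 1)
      rw [Nat.sub_add_cancel hc.pos, orbit_period415 s l k hc o ho] at this
      exact this
    exact finRel_inj415 s.σ v (o (l - 1)) (o 0) hv h1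
  · refine ⟨j - 1, lt_of_le_of_lt (Nat.sub_le j 1) hj, ?_⟩
    have h1 : PlaceRel s (o (j - 1)) (o j) := by
      have := ho (j - 1)
      rw [Nat.sub_add_cancel hpos] at this
      exact this
    exact finRel_inj415 s.σ v (o (j - 1)) (o j) hv h1

end Fermat.Agent.LT.T5.H415

end
end
-- ===== PACK-END LT/T5/H415/AutT5.lean

-- ===== PACK-BEGIN LT/T5/H74/RangeBdd.lean
section


/-!
# Row LT, tower T5, leaf T5.04 `LeafRange` (helper74): BOUNDEDNESS of `x ↦ ∫_F K_φ(x,z) f(z) dz`

OFF-MAIN.  INPUT `RowBound74 μ F r φ`: the rows `K_φ(x, ·)` of the kernel are bounded in `L²(F)`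
uniformly in `x` (this is what the proof of T5.02 gives for an Eisenstein-killing `φ`: on a
Siegel set the kernel is `O(height⁻ᴺ)`; it does NOT follow from the statement `LeafHS0` alone,
which only controls almost every row).  Cauchy–Schwarz then gives `‖h‖_∞ ≤ C ‖f‖_{L²(F)}`.
-/

set_option autoImplicit false

open IsDedekindDomain NumberField MeasureTheory
open scoped MatrixGroups ComplexConjugate Pointwise ENNReal

noncomputable section

namespace Fermat.Agent.LT.T5.H74

open Fermat.Agent.LT.H556.A0 Fermat.Agent.LT.T5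

attribute [local instance] Fermat.Agent.LT.T5.instMeasurableSpaceG

variable {K : Type} [Field K] [NumberField K]

/-- **INPUT (uniform row bound).**  `sup_x ‖K_φ(x, ·)‖_{L²(F)} < ∞`. -/
def RowBound74 (μ : Measure (G K)) (F : Set (G K)) (r : G K) (φ : G K → ℂ) : Prop :=
  ∃ C : ℝ≥0∞, C < ⊤ ∧ ∀ x : G K, eLpNorm (fun z => ker0 r φ x z) 2 (μ.restrict F) ≤ C

/-- A uniformly bounded kernel satisfies the row bound (`μ(F) < ∞`). -/
theorem rowBound_of_bounded74 (μ : Measure (G K)) (F : Set (G K)) (hF : μ F < ⊤) (r : G K)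
    (φ : G K → ℂ) (h : ∃ M : ℝ, ∀ x z : G K, ‖ker0 r φ x z‖ ≤ M) : RowBound74 μ F r φ := by
  obtain ⟨M, hM⟩ := h
  have : IsFiniteMeasure (μ.restrict F) := isFiniteMeasure_restrict74 μ F hF
  refine ⟨(μ.restrict F) Set.univ ^ (2 : ℝ≥0∞).toReal⁻¹ * ENNReal.ofReal M, ?_, fun x => ?_⟩
  · refine ENNReal.mul_lt_top (ENNReal.rpow_lt_top_of_nonneg (by positivity) ?_)
      ENNReal.ofReal_lt_top
    exact (measure_lt_top _ _).ne
  · exact eLpNorm_le_of_ae_bound (Filter.Eventually.of_forall (fun z => hM x z))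

/-- **Boundedness** of `x ↦ ∫_F K_φ(x, z) f(z) dz` for `f ∈ L²(F)`. -/
theorem bounded_range74 (μ : Measure (G K)) (F : Set (G K)) (r : G K) (φ : G K → ℂ)
    (hrow : RowBound74 μ F r φ)
    (hmeas : ∀ x : G K, AEStronglyMeasurable (fun z => ker0 r φ x z) (μ.restrict F))
    (f : G K → ℂ) (hf : MemLp f 2 (μ.restrict F)) :
    ∃ C : ℝ, ∀ x : G K, ‖∫ z in F, ker0 r φ x z * f z ∂μ‖ ≤ C := by
  obtain ⟨C, hC, hrow⟩ := hrow
  have hf2 : eLpNorm f 2 (μ.restrict F) < ⊤ := hf.eLpNorm_lt_top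
  have hfin : C * eLpNorm f 2 (μ.restrict F) < ⊤ := ENNReal.mul_lt_top hC hf2
  refine ⟨(C * eLpNorm f 2 (μ.restrict F)).toReal, fun x => ?_⟩
  have h1 : ‖∫ z in F, ker0 r φ x z * f z ∂μ‖ₑ ≤ C * eLpNorm f 2 (μ.restrict F) := by
    calc ‖∫ z in F, ker0 r φ x z * f z ∂μ‖ₑ
        ≤ ∫⁻ z in F, ‖ker0 r φ x z * f z‖ₑ ∂μ := enorm_integral_le_lintegral_enorm _
      _ = eLpNorm ((fun z => ker0 r φ x z) • f) 1 (μ.restrict F) := by
          rw [eLpNorm_one_eq_lintegral_enorm]
          rfl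
      _ ≤ eLpNorm (fun z => ker0 r φ x z) 2 (μ.restrict F) * eLpNorm f 2 (μ.restrict F) :=
          eLpNorm_smul_le_mul_eLpNorm hf.1 (hmeas x)
      _ ≤ C * eLpNorm f 2 (μ.restrict F) := by gcongr; exact hrow x
  rw [← toReal_enorm]
  exact ENNReal.toReal_mono hfin.ne h1

end Fermat.Agent.LT.T5.H74

end

end
-- ===== PACK-END LT/T5/H74/RangeBdd.lean

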