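import Mathlib
import Fermat.Agent.Pack.LT2.E0L2
import Fermat.Agent.Pack.LT2.E2L1
import Fermat.Agent.Pack.LT2.E4L3
import Fermat.Agent.Pack.LT2.E6L3
import Fermat.Agent.Pack.LT2.E6L2
import Fermat.Agent.Pack.LT2.E6L0
import Fermat.Agent.Pack.LT2.E6L1
import Fermat.Agent.Pack.LT2.E5L3
import Fermat.Agent.Pack.LT2.E5L1
import Fermat.Agent.Pack.LT2.E4L2
import Fermat.Agent.Pack.LT2.E3L1
import Fermat.Agent.Pack.LT2.E7L1

set_option linter.all false

-- ===== PACK-BEGIN LT/T1/H54/SVTools.lean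
section








/-!
# Row LT, tower T1, leaf T1.17 (helper54): tools for the volume of Siegel sets

OFF-MAIN.  On the libraries of helper793 (`AdeleProj`, `Height`) and helper919 (`K0Compact`,
`SiegelTools`), byte-identical copies.

* `pMap54 z y u k = scalarG919 z * up919 y u * k` : the parametrisation `Z(𝔸) × A × N × K⁰ → G`;
* `unipCoord54` : the invariant `(M Mᴴ)₀₁ / (M Mᴴ)₁₁` of a complex matrix, invariant under right
  multiplication by unitary matrices, which reads off the unipotent coordinate at an infinite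
  place: `infCoord_pMap54`;
* `tAdl54 θ` : the adele `θ` at every infinite place, `0` at the finite places.
-/

set_option autoImplicit false

open IsDedekindDomain NumberField MeasureTheory
open scoped MatrixGroups

noncomputable section

namespace Fermat.Agent.LT.T1.H54

open Fermat.Agent.LT.H556.A0 Fermat.Agent.LT.T1 Fermat.Agent.LT.T1.H793 Fermat.Agent.LT.T1.H919

variable {K : Type} [Field K] [NumberField K]

/-! ## The parametrisation -/

/-- `scalar(z) · [[y, u], [0, 1]] · k`. -/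
def pMap54 (z y : (Adl K)ˣ) (u : Adl K) (k : G K) : G K :=
  scalarG919 z * up919 y u * k

lemma scalarG54_inv (z : (Adl K)ˣ) : (scalarG919 z : G K)⁻¹ = scalarG919 z⁻¹ := by
  unfold scalarG919
  exact (map_inv _ _).symm

lemma continuous_scalarG54 : Continuous (fun z : (Adl K)ˣ => (scalarG919 z : G K)) := by
  rw [Units.continuous_iff]
  constructor
  · have : (Units.val ∘ fun z : (Adl K)ˣ => (scalarG919 z : G K))
        = fun z : (Adl K)ˣ => Matrix.diagonal (fun _ : Fin 2 => ((z : (Adl K)ˣ) : Adl K)) := by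
      funext z; exact scalarG919_val z
    rw [this]
    refine continuous_matrix (fun i j => ?_)
    fin_cases i <;> fin_cases j
    · simpa using Units.continuous_val
    · simpa using (continuous_const : Continuous fun _ : (Adl K)ˣ => (0 : Adl K))
    · simpa using (continuous_const : Continuous fun _ : (Adl K)ˣ => (0 : Adl K))
    · simpa using Units.continuous_val
  · have : (fun z : (Adl K)ˣ => (((scalarG919 z : G K)⁻¹ : G K) : Matrix (Fin 2) (Fin 2) (Adl K)))
        = fun z : (Adl K)ˣ =>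
            Matrix.diagonal (fun _ : Fin 2 => ((z⁻¹ : (Adl K)ˣ) : Adl K)) := by
      funext z
      rw [scalarG54_inv]
      exact scalarG919_val z⁻¹
    rw [this]
    refine continuous_matrix (fun i j => ?_)
    fin_cases i <;> fin_cases j
    · simpa using Units.continuous_coe_inv
    · simpa using (continuous_const : Continuous fun _ : (Adl K)ˣ => (0 : Adl K))
    · simpa using (continuous_const : Continuous fun _ : (Adl K)ˣ => (0 : Adl K))
    · simpa using Units.continuous_coe_inv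

lemma continuous_pMap54 :
    Continuous (fun p : (Adl K)ˣ × (Adl K)ˣ × Adl K × G K =>
      pMap54 p.1 p.2.1 p.2.2.1 p.2.2.2) := by
  unfold pMap54
  have h1 : Continuous (fun p : (Adl K)ˣ × (Adl K)ˣ × Adl K × G K => (scalarG919 p.1 : G K)) :=
    continuous_scalarG54.comp continuous_fst
  have h2 : Continuous (fun p : (Adl K)ˣ × (Adl K)ˣ × Adl K × G K =>
      (up919 p.2.1 p.2.2.1 : G K)) :=
    continuous_up919.comp ((continuous_fst.comp continuous_snd).prodMk
      (continuous_fst.comp (continuous_snd.comp continuous_snd)))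
  have h3 : Continuous (fun p : (Adl K)ˣ × (Adl K)ˣ × Adl K × G K => p.2.2.2) :=
    continuous_snd.comp (continuous_snd.comp continuous_snd)
  exact (h1.mul h2).mul h3

/-- Left translation by the unipotent `n(t)` shifts the unipotent coordinate. -/
lemma up_one_mul_pMap54 (t : Adl K) (z y : (Adl K)ˣ) (u : Adl K) (k : G K) :
    up919 (1 : (Adl K)ˣ) t * pMap54 z y u k = pMap54 z y (u + t) k := by
  unfold pMap54
  rw [← mul_assoc, ← mul_assoc, ← scalarG919_comm, mul_assoc (scalarG919 z), up919_mul]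
  simp

/-! ## The unipotent coordinate at an infinite place -/

/-- The invariant `(M Mᴴ)₀₁ / (M Mᴴ)₁₁`. -/
def unipCoord54 (M : Matrix (Fin 2) (Fin 2) ℂ) : ℂ :=
  (M * M.conjTranspose) 0 1 / (M * M.conjTranspose) 1 1

lemma unipCoord54_mul_unitary (M U : Matrix (Fin 2) (Fin 2) ℂ) (hU : U * U.conjTranspose = 1) :
    unipCoord54 (M * U) = unipCoord54 M := by
  unfold unipCoord54
  have : M * U * (M * U).conjTranspose = M * M.conjTranspose := by
    rw [Matrix.conjTranspose_mul, Matrix.mul_assoc, ← Matrix.mul_assoc U, hU, Matrix.one_mul]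
  rw [this]

lemma infComp_scalar_up54 (w : InfinitePlace K) (z y : (Adl K)ˣ) (u : Adl K) :
    infComp w (scalarG919 z * up919 y u) =
      !![InfinitePlace.Completion.extensionEmbedding w (((z : Adl K) * (y : Adl K)).1 w),
         InfinitePlace.Completion.extensionEmbedding w (((z : Adl K) * u).1 w);
         0, InfinitePlace.Completion.extensionEmbedding w ((z : Adl K).1 w)] := by
  have hm : ((scalarG919 z * up919 y u : G K) : Matrix (Fin 2) (Fin 2) (Adl K))
      = !![(z : Adl K) * (y : Adl K), (z : Adl K) * u; 0, (z : Adl K)] := by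
    rw [Units.val_mul, scalarG919_val, up919_val]
    ext i j
    fin_cases i <;> fin_cases j <;> simp [Matrix.diagonal_mul]
  ext i j
  unfold infComp
  rw [hm]
  fin_cases i <;> fin_cases j
  · rfl
  · rfl
  · show InfinitePlace.Completion.extensionEmbedding w ((0 : Adl K).1 w) = 0
    exact map_zero _
  · rfl

/-- The unipotent coordinate of `pMap54 z y u k` at the infinite place `w` is `u_w`. -/
lemma unipCoord_pMap54 (w : InfinitePlace K) (z y : (Adl K)ˣ) (u : Adl K) (k : G K)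
    (hk : IsStdCompact K k) :
    unipCoord54 (infComp w (pMap54 z y u k)) =
      InfinitePlace.Completion.extensionEmbedding w (u.1 w) := by
  unfold pMap54
  rw [infComp_mul793, unipCoord54_mul_unitary _ _ (hk.2 w).1, infComp_scalar_up54]
  unfold unipCoord54
  set ζ : ℂ := InfinitePlace.Completion.extensionEmbedding w ((z : Adl K).1 w) with hζ
  have hζ0 : ζ ≠ 0 := by
    rw [hζ]
    intro h
    have hz : (z : Adl K).1 w ≠ 0 := by
      intro h0
      have h1 : ((z : Adl K) * ((z⁻¹ : (Adl K)ˣ) : Adl K)).1 w = (1 : Adl K).1 w := by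
        rw [← Units.val_mul, mul_inv_cancel, Units.val_one]
      have h2 : ((z : Adl K) * ((z⁻¹ : (Adl K)ˣ) : Adl K)).1 w
          = (z : Adl K).1 w * (((z⁻¹ : (Adl K)ˣ) : Adl K)).1 w := rfl
      rw [h2, h0, zero_mul] at h1
      exact zero_ne_one h1
    exact hz ((map_eq_zero _).1 h)
  have hzu : InfinitePlace.Completion.extensionEmbedding w (((z : Adl K) * u).1 w)
      = ζ * InfinitePlace.Completion.extensionEmbedding w (u.1 w) := by
    have : ((z : Adl K) * u).1 w = (z : Adl K).1 w * u.1 w := rfl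
    rw [this, map_mul]
  rw [hzu]
  simp only [Matrix.mul_apply, Fin.sum_univ_two, Matrix.conjTranspose_apply, Matrix.of_apply,
    Matrix.cons_val', Matrix.cons_val_zero, Matrix.cons_val_one, Matrix.cons_val_fin_one,
    star_zero, mul_zero, zero_add]
  have hs : star ζ ≠ 0 := star_ne_zero.mpr hζ0
  field_simp

/-- **Disjointness**: the infinite components of the unipotent coordinate are determined by the
group element. -/
lemma inf_coord_eq_of_pMap_eq54 {z y z' y' : (Adl K)ˣ} {u u' : Adl K} {k k' : G K}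
    (hk : IsStdCompact K k) (hk' : IsStdCompact K k')
    (h : pMap54 z y u k = pMap54 z' y' u' k') (w : InfinitePlace K) : u.1 w = u'.1 w := by
  have h1 := unipCoord_pMap54 w z y u k hk
  have h2 := unipCoord_pMap54 w z' y' u' k' hk'
  rw [h, h2] at h1
  exact ((InfinitePlace.Completion.extensionEmbedding w).injective h1).symm

/-! ## The adele `θ` at infinity, `0` at the finite places -/

/-- `θ` at every infinite place, `0` at every finite place. -/
def tAdl54 (K : Type) [Field K] [NumberField K] (θ : ℝ) : Adl K :=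
  ((fun w => realTo919 w θ), 0)

lemma tAdl54_inf (θ : ℝ) (w : InfinitePlace K) : (tAdl54 K θ).1 w = realTo919 w θ := rfl

lemma continuous_tAdl54 : Continuous (tAdl54 K) :=
  Continuous.prodMk (continuous_pi fun w => continuous_realTo919 w) continuous_const

end Fermat.Agent.LT.T1.H54

end

end
-- ===== PACK-END LT/T1/H54/SVTools.lean

-- ===== PACK-BEGIN LT/T1/H729/Red/StdCompact.lean
section






/-!
# Row LT, tower T1, leaf T1.14 (helper729): the standard compact subgroup `K⁰`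

OFF-MAIN.  For `T1.IsStdCompact` of `LT/T1/Spec.lean`:

* `finComp_mul729`, `infComp_mul729` : local components are multiplicative;
* `isStdCompact_mul729`, `isStdCompact_inv729` : `K⁰` is a subgroup;
* `norm_entry_fin_le_one729`, `norm_entry_inf_le_one729` : entries of `k ∈ K⁰` have norm `≤ 1`;
* `adNorm_det_stdCompact729` : `‖det k‖ = 1`.
-/

set_option autoImplicit false

open IsDedekindDomain NumberField
open Fermat.Agent.LT.H556.A0

noncomputable section

namespace Fermat.Agent.LT.T1.H729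

set_option linter.unusedSectionVars false

variable (K : Type) [Field K] [NumberField K]

/-- The component at an infinite place, with values in `ℂ`, as a ring homomorphism. -/
def projInfC729 (w : InfinitePlace K) : Adl K →+* ℂ :=
  (InfinitePlace.Completion.extensionEmbedding w).comp (projInf729 w)

theorem finComp_eq_map729 (v : HeightOneSpectrum (𝓞 K)) (g : G K) :
    finComp v g = (projFin729 v).mapMatrix (g : Matrix (Fin 2) (Fin 2) (Adl K)) := rfl

theorem infComp_eq_map729 (w : InfinitePlace K) (g : G K) :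
    infComp w g = (projInfC729 K w).mapMatrix (g : Matrix (Fin 2) (Fin 2) (Adl K)) := rfl

theorem finComp_mul729 (v : HeightOneSpectrum (𝓞 K)) (g h : G K) :
    finComp v (g * h) = finComp v g * finComp v h := by
  rw [finComp_eq_map729, finComp_eq_map729, finComp_eq_map729, Units.val_mul, map_mul]

theorem infComp_mul729 (w : InfinitePlace K) (g h : G K) :
    infComp w (g * h) = infComp w g * infComp w h := by
  rw [infComp_eq_map729, infComp_eq_map729, infComp_eq_map729, Units.val_mul, map_mul]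

theorem finComp_one729 (v : HeightOneSpectrum (𝓞 K)) : finComp v (1 : G K) = 1 := by
  rw [finComp_eq_map729, Units.val_one, map_one]

theorem infComp_one729 (w : InfinitePlace K) : infComp w (1 : G K) = 1 := by
  rw [infComp_eq_map729, Units.val_one, map_one]

theorem infComp_mul_inv729 (w : InfinitePlace K) (g : G K) :
    infComp w g * infComp w g⁻¹ = 1 := by
  rw [← infComp_mul729, mul_inv_cancel, infComp_one729]

theorem finComp_mul_inv729 (v : HeightOneSpectrum (𝓞 K)) (g : G K) :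
    finComp v g * finComp v g⁻¹ = 1 := by
  rw [← finComp_mul729, mul_inv_cancel, finComp_one729]

/-- Products of integral matrices are integral. -/
theorem isIntegralAt_mul729 (v : HeightOneSpectrum (𝓞 K)) {g h : G K}
    (hg : IsIntegralAt v g) (hh : IsIntegralAt v h) : IsIntegralAt v (g * h) := by
  intro i j
  rw [finComp_mul729, Matrix.mul_apply]
  exact sum_mem fun l _ => mul_mem (hg i l) (hh l j)

/-- `K⁰` is closed under inversion. -/
theorem isStdCompact_inv729 {k : G K} (hk : Fermat.Agent.LT.T1.IsStdCompact K k) :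
    Fermat.Agent.LT.T1.IsStdCompact K k⁻¹ := by
  refine ⟨fun v => ⟨(hk.1 v).2, by rw [inv_inv]; exact (hk.1 v).1⟩, fun w => ?_⟩
  obtain ⟨hU, hD⟩ := hk.2 w
  have hinv : infComp w k⁻¹ = (infComp w k).conjTranspose := by
    have h1 := infComp_mul_inv729 K w k
    -- `U * X = 1` and `U * Uᴴ = 1` give `X = Uᴴ`
    have h2 : (infComp w k).conjTranspose * infComp w k = 1 := mul_eq_one_comm.mp hU
    calc infComp w k⁻¹ = ((infComp w k).conjTranspose * infComp w k) * infComp w k⁻¹ := by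
          rw [h2, one_mul]
      _ = (infComp w k).conjTranspose * (infComp w k * infComp w k⁻¹) := by rw [mul_assoc]
      _ = (infComp w k).conjTranspose := by rw [h1, mul_one]
  refine ⟨?_, fun hw => ?_⟩
  · rw [hinv, Matrix.conjTranspose_conjTranspose]
    exact mul_eq_one_comm.mp hU
  · have h1 := congrArg Matrix.det (infComp_mul_inv729 K w k)
    rw [Matrix.det_mul, hD hw, one_mul, Matrix.det_one] at h1
    exact h1

/-- `K⁰` is closed under multiplication. -/
theorem isStdCompact_mul729 {k k' : G K} (hk : Fermat.Agent.LT.T1.IsStdCompact K k)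
    (hk' : Fermat.Agent.LT.T1.IsStdCompact K k') :
    Fermat.Agent.LT.T1.IsStdCompact K (k * k') := by
  refine ⟨fun v => ⟨isIntegralAt_mul729 K v (hk.1 v).1 (hk'.1 v).1, ?_⟩, fun w => ⟨?_, fun hw => ?_⟩⟩
  · rw [mul_inv_rev]
    exact isIntegralAt_mul729 K v (hk'.1 v).2 (hk.1 v).2
  · rw [infComp_mul729, Matrix.conjTranspose_mul, mul_assoc,
      ← mul_assoc (infComp w k') _ _, (hk'.2 w).1, one_mul, (hk.2 w).1]
  · rw [infComp_mul729, Matrix.det_mul, (hk.2 w).2 hw, (hk'.2 w).2 hw, one_mul]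

/-- Integral elements have norm at most one. -/
theorem norm_fin_le_one729 (v : HeightOneSpectrum (𝓞 K)) (x : v.adicCompletion K)
    (h : x ∈ v.adicCompletionIntegers K) : ‖x‖ ≤ 1 := by
  rw [HeightOneSpectrum.mem_adicCompletionIntegers] at h
  exact Valued.toNormedField.norm_le_one_iff.mpr h

/-- Entries of a unitary matrix have absolute value at most one. -/
theorem norm_entry_unitary_le_one729 (U : Matrix (Fin 2) (Fin 2) ℂ)
    (hU : U * U.conjTranspose = 1) (i j : Fin 2) : ‖U i j‖ ≤ 1 := by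
  have h := congrFun (congrFun hU i) i
  rw [Matrix.mul_apply, Fin.sum_univ_two, Matrix.one_apply_eq] at h
  simp only [Matrix.conjTranspose_apply, Complex.star_def, Complex.mul_conj] at h
  have h' : Complex.normSq (U i 0) + Complex.normSq (U i 1) = 1 := by exact_mod_cast h
  have h0 := Complex.normSq_nonneg (U i 0)
  have h1 := Complex.normSq_nonneg (U i 1)
  have hle : Complex.normSq (U i j) ≤ 1 := by
    fin_cases j
    · change Complex.normSq (U i 0) ≤ 1
      linarith
    · change Complex.normSq (U i 1) ≤ 1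
      linarith
  rw [Complex.normSq_eq_norm_sq] at hle
  have hn := norm_nonneg (U i j)
  nlinarith

/-- The determinant of a unitary matrix has absolute value one. -/
theorem norm_det_unitary729 (U : Matrix (Fin 2) (Fin 2) ℂ) (hU : U * U.conjTranspose = 1) :
    ‖U.det‖ = 1 := by
  have h := congrArg Matrix.det hU
  rw [Matrix.det_mul, Matrix.det_conjTranspose, Matrix.det_one, Complex.star_def,
    Complex.mul_conj] at h
  have h' : Complex.normSq U.det = 1 := by exact_mod_cast h
  rw [Complex.normSq_eq_norm_sq] at h'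
  have hn := norm_nonneg U.det
  nlinarith

/-- The module of the determinant of an element of `K⁰` is one. -/
theorem adNorm_det_stdCompact729 {k : G K} (hk : Fermat.Agent.LT.T1.IsStdCompact K k) :
    Fermat.Agent.LT.T1.adNorm K (Matrix.det (k : Matrix (Fin 2) (Fin 2) (Adl K))) = 1 := by
  apply adNorm_eq_one729
  · intro w
    rw [norm_eq_norm_extEmb729]
    have h1 : InfinitePlace.Completion.extensionEmbedding w
        ((Matrix.det (k : Matrix (Fin 2) (Fin 2) (Adl K))).1 w) = (infComp w k).det := by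
      rw [infComp_eq_map729]
      change (projInfC729 K w) (Matrix.det (k : Matrix (Fin 2) (Fin 2) (Adl K))) = _
      rw [RingHom.map_det]
    rw [h1]
    exact norm_det_unitary729 _ (hk.2 w).1
  · intro v
    have h1 : (Matrix.det (k : Matrix (Fin 2) (Fin 2) (Adl K))).2 v = (finComp v k).det := by
      rw [finComp_eq_map729]
      change (projFin729 v) (Matrix.det (k : Matrix (Fin 2) (Fin 2) (Adl K))) = _
      rw [RingHom.map_det]
    rw [h1]
    have hdet_mem : ∀ M : Matrix (Fin 2) (Fin 2) (v.adicCompletion K),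
        (∀ i j, M i j ∈ v.adicCompletionIntegers K) → M.det ∈ v.adicCompletionIntegers K := by
      intro M hM
      rw [Matrix.det_fin_two]
      exact sub_mem (mul_mem (hM 0 0) (hM 1 1)) (mul_mem (hM 0 1) (hM 1 0))
    refine norm_eq_one_of_mem_of_inv_mem729 K v _ (finComp v k⁻¹).det
      (hdet_mem _ (hk.1 v).1) (hdet_mem _ (hk.1 v).2) ?_
    rw [← Matrix.det_mul, finComp_mul_inv729, Matrix.det_one]

end Fermat.Agent.LT.T1.H729

end
end
-- ===== PACK-END LT/T1/H729/Red/StdCompact.lean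

-- ===== PACK-BEGIN LT/T2/H465/Ray.lean
section




/-!
# Row LT, tower T2, leaf T2.23c (`LeafIntCore`), part 2: the ray generator (helper465)

OFF-MAIN.  A ray generator `r` (`T2.IsRayGen`) is a scalar matrix, hence central, and
`‖det r‖_𝔸 = 2`; the translates `slab · r^j` cover `GL₂(𝔸_K)`.
-/

set_option autoImplicit false

open IsDedekindDomain NumberField MeasureTheory
open Fermat.Agent.LT.H556.A0

noncomputable section

namespace Fermat.Agent.LT.T2.H465

open Fermat.Agent.LT.T2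

variable {K : Type} [Field K] [NumberField K]

theorem adl_ext465 {x y : Adl K} (h1 : ∀ w : InfinitePlace K, x.1 w = y.1 w)
    (h2 : ∀ v : HeightOneSpectrum (𝓞 K), x.2 v = y.2 v) : x = y := by
  refine Prod.ext (funext h1) ?_
  exact RestrictedProduct.ext _ _ h2

/-- The infinite components of the entries of a ray generator. -/
theorem rayGen_inf465 {r : G K} {t : ℝ}
    (ht : ∀ w : InfinitePlace K, infComp w r = Matrix.diagonal (fun _ => (t : ℂ)))
    (w : InfinitePlace K) (i j : Fin 2) :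
    InfinitePlace.Completion.extensionEmbedding w
      (((r : Matrix (Fin 2) (Fin 2) (Adl K)) i j).1 w) = if i = j then (t : ℂ) else 0 := by
  have h := congrFun (congrFun (ht w) i) j
  rw [Matrix.diagonal_apply] at h
  exact h

/-- The finite components of the entries of a ray generator. -/
theorem rayGen_fin465 {r : G K} (hr : IsRayGen r) (v : HeightOneSpectrum (𝓞 K)) (i j : Fin 2) :
    ((r : Matrix (Fin 2) (Fin 2) (Adl K)) i j).2 v = if i = j then 1 else 0 := by
  have h := congrFun (congrFun (hr.1 v) i) j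
  rw [Matrix.one_apply] at h
  exact h

/-- A ray generator is a scalar matrix. -/
theorem rayGen_entries465 {r : G K} (hr : IsRayGen r) :
    (r : Matrix (Fin 2) (Fin 2) (Adl K)) 0 1 = 0 ∧ (r : Matrix (Fin 2) (Fin 2) (Adl K)) 1 0 = 0 ∧
      (r : Matrix (Fin 2) (Fin 2) (Adl K)) 0 0 = (r : Matrix (Fin 2) (Fin 2) (Adl K)) 1 1 := by
  obtain ⟨t, -, -, ht⟩ := hr.2
  refine ⟨adl_ext465 (fun w => ?_) (fun v => ?_), adl_ext465 (fun w => ?_) (fun v => ?_),
    adl_ext465 (fun w => ?_) (fun v => ?_)⟩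
  · apply (InfinitePlace.Completion.extensionEmbedding w).injective
    rw [rayGen_inf465 ht w 0 1, if_neg (by decide)]
    exact (map_zero _).symm
  · rw [rayGen_fin465 hr v 0 1, if_neg (by decide)]
    rfl
  · apply (InfinitePlace.Completion.extensionEmbedding w).injective
    rw [rayGen_inf465 ht w 1 0, if_neg (by decide)]
    exact (map_zero _).symm
  · rw [rayGen_fin465 hr v 1 0, if_neg (by decide)]
    rfl
  · apply (InfinitePlace.Completion.extensionEmbedding w).injective
    rw [rayGen_inf465 ht w 0 0, rayGen_inf465 ht w 1 1, if_pos rfl, if_pos rfl]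
  · rw [rayGen_fin465 hr v 0 0, rayGen_fin465 hr v 1 1, if_pos rfl, if_pos rfl]

/-- A ray generator is central. -/
theorem rayGen_comm465 {r : G K} (hr : IsRayGen r) (g : G K) : g * r = r * g := by
  obtain ⟨h01, h10, h00⟩ := rayGen_entries465 hr
  apply Units.ext
  ext i j
  rw [Units.val_mul, Units.val_mul, Matrix.mul_apply, Matrix.mul_apply, Fin.sum_univ_two,
    Fin.sum_univ_two]
  fin_cases i <;> fin_cases j <;> simp [h01, h10, h00, mul_comm]

theorem rayGen_zpow_comm465 {r : G K} (hr : IsRayGen r) (j : ℤ) (g : G K) :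
    g * r ^ j = r ^ j * g :=
  ((Commute.zpow_right (rayGen_comm465 hr g) j)).eq

/-- `‖det r‖_𝔸 = 2`. -/
theorem detNorm_rayGen465 {r : G K} (hr : IsRayGen r) : H245.detNorm245 r = 2 := by
  obtain ⟨h01, h10, h00⟩ := rayGen_entries465 hr
  obtain ⟨t, ht0, ht2, ht⟩ := hr.2
  unfold H245.detNorm245
  rw [Matrix.det_fin_two, h01, h10, h00, mul_zero, sub_zero]
  unfold T1.adNorm
  have hfin : (∏ᶠ v : HeightOneSpectrum (𝓞 K),
      ‖((r : Matrix (Fin 2) (Fin 2) (Adl K)) 1 1 * (r : Matrix (Fin 2) (Fin 2) (Adl K)) 1 1).2 v‖)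
      = 1 := by
    have : ∀ v : HeightOneSpectrum (𝓞 K),
        ‖((r : Matrix (Fin 2) (Fin 2) (Adl K)) 1 1
          * (r : Matrix (Fin 2) (Fin 2) (Adl K)) 1 1).2 v‖ = 1 := by
      intro v
      have h1 : ((r : Matrix (Fin 2) (Fin 2) (Adl K)) 1 1
          * (r : Matrix (Fin 2) (Fin 2) (Adl K)) 1 1).2 v
          = ((r : Matrix (Fin 2) (Fin 2) (Adl K)) 1 1).2 v
            * ((r : Matrix (Fin 2) (Fin 2) (Adl K)) 1 1).2 v := rfl
      rw [h1, rayGen_fin465 hr v 1 1, if_pos rfl, mul_one]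
      exact norm_one
    simp only [this]
    exact finprod_one
  rw [hfin, mul_one]
  have hinf : ∀ w : InfinitePlace K,
      ‖((r : Matrix (Fin 2) (Fin 2) (Adl K)) 1 1
        * (r : Matrix (Fin 2) (Fin 2) (Adl K)) 1 1).1 w‖ = t ^ 2 := by
    intro w
    have h1 : ((r : Matrix (Fin 2) (Fin 2) (Adl K)) 1 1
        * (r : Matrix (Fin 2) (Fin 2) (Adl K)) 1 1).1 w
        = ((r : Matrix (Fin 2) (Fin 2) (Adl K)) 1 1).1 w
          * ((r : Matrix (Fin 2) (Fin 2) (Adl K)) 1 1).1 w := rfl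
    have h2 : ‖((r : Matrix (Fin 2) (Fin 2) (Adl K)) 1 1).1 w‖ = t := by
      have h3 := (InfinitePlace.Completion.isometry_extensionEmbedding w).norm_map_of_map_zero
        (map_zero _) (((r : Matrix (Fin 2) (Fin 2) (Adl K)) 1 1).1 w)
      rw [← h3, rayGen_inf465 ht w 1 1, if_pos rfl, Complex.norm_real, Real.norm_eq_abs,
        abs_of_pos ht0]
    rw [h1, norm_mul, h2, sq]
  simp only [hinf]
  rw [Finset.prod_pow_eq_pow_sum, InfinitePlace.sum_mult_eq, ← pow_mul]
  exact ht2

theorem detNorm_one465 (hN : T1.AdNormC K) : H245.detNorm245 (1 : G K) = 1 := by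
  have h3 : H245.detNorm245 ((1 : G K) * (1 : G K))
      = H245.detNorm245 (1 : G K) * H245.detNorm245 (1 : G K) :=
    H245.detNorm245_mul hN _ _
  rw [mul_one] at h3
  have hpos := H245.detNorm245_pos hN (1 : G K)
  have h4 : H245.detNorm245 (1 : G K) * 1
      = H245.detNorm245 (1 : G K) * H245.detNorm245 (1 : G K) := by
    rw [mul_one]; exact h3
  exact (mul_left_cancel₀ hpos.ne' h4).symm

/-- `‖det‖_𝔸` of the inverse. -/
theorem detNorm_inv465 (hN : T1.AdNormC K) (g : G K) :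
    H245.detNorm245 g⁻¹ = (H245.detNorm245 g)⁻¹ := by
  have h1 : H245.detNorm245 (g⁻¹ * g) = H245.detNorm245 g⁻¹ * H245.detNorm245 g :=
    H245.detNorm245_mul hN _ _
  rw [inv_mul_cancel, detNorm_one465 hN] at h1
  exact eq_inv_of_mul_eq_one_left h1.symm

/-- `‖det‖_𝔸` as a monoid homomorphism. -/
def detNormHom465 (hN : T1.AdNormC K) : G K →* ℝ where
  toFun := H245.detNorm245
  map_one' := detNorm_one465 hN
  map_mul' := H245.detNorm245_mul hN

/-- `‖det r^j‖_𝔸 = 2^j`. -/
theorem detNorm_rayGen_zpow465 (hN : T1.AdNormC K) {r : G K} (hr : IsRayGen r) (j : ℤ) :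
    H245.detNorm245 (r ^ j) = (2 : ℝ) ^ j := by
  have h := map_zpow' (detNormHom465 hN) (fun g => detNorm_inv465 hN g) r j
  have h2 : detNormHom465 hN r = 2 := detNorm_rayGen465 hr
  rw [h2] at h
  exact h

/-- The translates `slab · r^j` cover: every `g` has `g r^j` in the slab for some `j`, and `j` is
controlled by `‖det g‖_𝔸`. -/
theorem exists_zpow_mem_slab465 (hN : T1.AdNormC K) {r : G K} (hr : IsRayGen r) (g : G K)
    (n : ℤ) (J : ℕ) (h1 : (2 : ℝ) ^ n ≤ H245.detNorm245 g)
    (h2 : H245.detNorm245 g < (2 : ℝ) ^ (n + 1 + J)) :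
    ∃ j ∈ Finset.Icc (-n - J) (-n), g * r ^ j ∈ T1.slab K := by
  have hpos := H245.detNorm245_pos hN g
  obtain ⟨m, hm1, hm2⟩ := exists_mem_Ico_zpow hpos (one_lt_two : (1 : ℝ) < 2)
  have hnm : n ≤ m := by
    have : (2 : ℝ) ^ n < (2 : ℝ) ^ (m + 1) := lt_of_le_of_lt h1 hm2
    have := (zpow_lt_zpow_iff_right₀ (one_lt_two : (1 : ℝ) < 2)).1 this
    omega
  have hmn : m ≤ n + J := by
    have : (2 : ℝ) ^ m < (2 : ℝ) ^ (n + 1 + J) := lt_of_le_of_lt hm1 h2
    have := (zpow_lt_zpow_iff_right₀ (one_lt_two : (1 : ℝ) < 2)).1 this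
    omega
  refine ⟨-m, Finset.mem_Icc.2 ⟨by omega, by omega⟩, ?_⟩
  have hd : H245.detNorm245 (g * r ^ (-m)) = H245.detNorm245 g * ((2 : ℝ) ^ m)⁻¹ := by
    rw [H245.detNorm245_mul hN, detNorm_rayGen_zpow465 hN hr, zpow_neg]
  have h2m : (0 : ℝ) < (2 : ℝ) ^ m := zpow_pos (by norm_num) m
  show 1 ≤ H245.detNorm245 (g * r ^ (-m)) ∧ H245.detNorm245 (g * r ^ (-m)) < 2
  rw [hd]
  constructor
  · rw [le_mul_inv_iff₀ h2m, one_mul]
    exact hm1
  · rw [mul_inv_lt_iff₀ h2m]
    have : (2 : ℝ) ^ (m + 1) = 2 * (2 : ℝ) ^ m := by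
      rw [zpow_add₀ (by norm_num : (2 : ℝ) ≠ 0), zpow_one, mul_comm]
    rw [← this]
    exact hm2

end Fermat.Agent.LT.T2.H465

end

end
-- ===== PACK-END LT/T2/H465/Ray.lean

-- ===== PACK-BEGIN LT/T2/H627/Conv.lean
section







/-!
# Row LT, tower T2, leaf T2.13 (helper627): the convolution on a compact set

`|R(f)ψ(x)| ≤ C ‖ψ‖₂` for `x` in a compact set, `ψ` automorphic.  OFF-MAIN.
-/

set_option autoImplicit false
set_option linter.unusedSectionVars false

open IsDedekindDomain NumberField MeasureTheory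
open Fermat.Agent.LT.H556.A0
open scoped Classical ENNReal Pointwise

noncomputable section

namespace Fermat.Agent.LT.T2.H627

variable {K : Type} [Field K] [NumberField K]

attribute [local instance] Fermat.Agent.LT.T2.borelG
attribute [local instance] borelSpaceG627

theorem nsq_eq627 (F : Frame K) (ψ : G K → ℂ) (hψ : Continuous ψ) :
    nsq F ψ = (∫⁻ g in F.D, ‖ψ g‖ₑ ^ 2 ∂F.μ).toReal := by
  unfold nsq pair
  have e : ∀ g, ψ g * (starRingEnd ℂ) (ψ g) = ((‖ψ g‖ ^ 2 : ℝ) : ℂ) := by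
    intro g
    rw [Complex.mul_conj, Complex.normSq_eq_norm_sq]
  simp_rw [e]
  have hm : AEStronglyMeasurable (fun g => ‖ψ g‖ ^ 2) (F.μ.restrict F.D) :=
    (hψ.norm.pow 2).aestronglyMeasurable
  rw [integral_complex_ofReal, Complex.ofReal_re,
    integral_eq_lintegral_of_nonneg_ae (Filter.Eventually.of_forall fun g => by positivity) hm]
  congr 1
  refine lintegral_congr fun g => ?_
  rw [ENNReal.ofReal_pow (norm_nonneg _), ofReal_norm]

theorem nsq_nonneg627 (F : Frame K) (ψ : G K → ℂ) (hψ : Continuous ψ) : 0 ≤ nsq F ψ := by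
  rw [nsq_eq627 F ψ hψ]; exact ENNReal.toReal_nonneg

theorem lintegral_D_lt_top627 (F : Frame K) (ψ : G K → ℂ) (hb : ∃ C : ℝ, ∀ g, ‖ψ g‖ ≤ C) :
    ∫⁻ g in F.D, ‖ψ g‖ₑ ^ 2 ∂F.μ < ⊤ := by
  obtain ⟨C, hC⟩ := hb
  have h1 : ∀ g, ‖ψ g‖ₑ ^ 2 ≤ ENNReal.ofReal C ^ 2 := by
    intro g
    have : ‖ψ g‖ₑ ≤ ENNReal.ofReal C := by
      rw [← ofReal_norm]; exact ENNReal.ofReal_le_ofReal (hC g)
    exact pow_le_pow_left' this 2
  calc ∫⁻ g in F.D, ‖ψ g‖ₑ ^ 2 ∂F.μ ≤ ∫⁻ _g in F.D, ENNReal.ofReal C ^ 2 ∂F.μ :=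
        lintegral_mono h1
    _ = ENNReal.ofReal C ^ 2 * F.μ F.D := by rw [setLIntegral_const]
    _ < ⊤ := ENNReal.mul_lt_top (ENNReal.pow_lt_top ENNReal.ofReal_lt_top) F.fin

theorem lintegral_sq_lt_top627 (F : Frame K) (f : G K → ℂ) (hf : Continuous f)
    (hc : HasCompactSupport f) : ∫⁻ g, ‖f g‖ₑ ^ 2 ∂F.μ < ⊤ := by
  have := F.haar
  obtain ⟨C, hC⟩ := hf.bounded_above_of_compact_support hc
  have hS : IsCompact (tsupport f) := hc
  have h1 : ∀ g, ‖f g‖ₑ ^ 2 ≤ (tsupport f).indicator (fun _ => ENNReal.ofReal C ^ 2) g := by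
    intro g
    by_cases hg : g ∈ tsupport f
    · rw [Set.indicator_of_mem hg]
      have : ‖f g‖ₑ ≤ ENNReal.ofReal C := by
        rw [← ofReal_norm]; exact ENNReal.ofReal_le_ofReal (hC g)
      exact pow_le_pow_left' this 2
    · rw [Set.indicator_of_notMem hg, image_eq_zero_of_notMem_tsupport hg]
      simp
  calc ∫⁻ g, ‖f g‖ₑ ^ 2 ∂F.μ
      ≤ ∫⁻ g, (tsupport f).indicator (fun _ => ENNReal.ofReal C ^ 2) g ∂F.μ := lintegral_mono h1
    _ = ENNReal.ofReal C ^ 2 * F.μ (tsupport f) := by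
        rw [lintegral_indicator (isClosed_tsupport f).measurableSet, setLIntegral_const]
    _ < ⊤ := ENNReal.mul_lt_top (ENNReal.pow_lt_top ENNReal.ofReal_lt_top) hS.measure_lt_top

/-- Cauchy--Schwarz for the convolution. -/
theorem enorm_conv_le627 (F : Frame K) (f ψ : G K → ℂ) (hf : Continuous f) (hψ : Continuous ψ)
    (x : G K) :
    ‖conv F f ψ x‖ₑ ≤
      (∫⁻ y in (fun y => x⁻¹ * y) ⁻¹' tsupport f, ‖ψ y‖ₑ ^ 2 ∂F.μ) ^ (1 / 2 : ℝ) *
        (∫⁻ h, ‖f h‖ₑ ^ 2 ∂F.μ) ^ (1 / 2 : ℝ) := by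
  have := F.haar
  have hSm : MeasurableSet (tsupport f) := (isClosed_tsupport f).measurableSet
  have hS'm : MeasurableSet ((fun y => x⁻¹ * y) ⁻¹' tsupport f) := (measurable_const_mul _) hSm
  have hψx : Measurable fun h => ‖ψ (x * h)‖ₑ :=
    (hψ.comp (continuous_const_mul x)).measurable.enorm
  have h1 : ‖conv F f ψ x‖ₑ ≤ ∫⁻ h, ‖ψ (x * h) * f h‖ₑ ∂F.μ :=
    enorm_integral_le_lintegral_enorm _
  have h2 : ∀ h, ‖ψ (x * h) * f h‖ₑ =
      (((tsupport f).indicator fun h => ‖ψ (x * h)‖ₑ) * fun h => ‖f h‖ₑ) h := by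
    intro h
    rw [Pi.mul_apply, enorm_mul]
    by_cases hh : h ∈ tsupport f
    · rw [Set.indicator_of_mem hh]
    · rw [Set.indicator_of_notMem hh, image_eq_zero_of_notMem_tsupport hh]
      simp
  have h3 := ENNReal.lintegral_mul_le_Lp_mul_Lq F.μ Real.HolderConjugate.two_two
    (f := (tsupport f).indicator fun h => ‖ψ (x * h)‖ₑ) (g := fun h => ‖f h‖ₑ)
    (hψx.indicator hSm).aemeasurable hf.measurable.enorm.aemeasurable
  have h4 : ∫⁻ h, ((tsupport f).indicator (fun h => ‖ψ (x * h)‖ₑ) h) ^ (2 : ℝ) ∂F.μ =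
      ∫⁻ y in (fun y => x⁻¹ * y) ⁻¹' tsupport f, ‖ψ y‖ₑ ^ 2 ∂F.μ := by
    rw [← lintegral_indicator hS'm,
      ← lintegral_mul_left_eq_self
        (((fun y => x⁻¹ * y) ⁻¹' tsupport f).indicator fun y => ‖ψ y‖ₑ ^ 2) x]
    refine lintegral_congr fun h => ?_
    have e1 : (x * h ∈ (fun y => x⁻¹ * y) ⁻¹' tsupport f) ↔ h ∈ tsupport f := by
      rw [Set.mem_preimage, inv_mul_cancel_left]
    by_cases hh : h ∈ tsupport f
    · rw [Set.indicator_of_mem hh, Set.indicator_of_mem (e1.mpr hh), ENNReal.rpow_two]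
    · rw [Set.indicator_of_notMem hh, Set.indicator_of_notMem (fun h' => hh (e1.mp h'))]
      simp
  have h5 : ∫⁻ h, ‖f h‖ₑ ^ (2 : ℝ) ∂F.μ = ∫⁻ h, ‖f h‖ₑ ^ 2 ∂F.μ := by
    refine lintegral_congr fun h => ?_
    rw [ENNReal.rpow_two]
  rw [h4, h5] at h3
  calc ‖conv F f ψ x‖ₑ ≤ ∫⁻ h, ‖ψ (x * h) * f h‖ₑ ∂F.μ := h1
    _ = ∫⁻ h, (((tsupport f).indicator fun h => ‖ψ (x * h)‖ₑ) * fun h => ‖f h‖ₑ) h ∂F.μ :=
        lintegral_congr h2
    _ ≤ _ := h3

/-- **The estimate on a compact set.** -/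
theorem conv_compact_le627 (F : Frame K) (hT2 : T2Space (G K)) (hD : T1.DiscreteC K)
    (hN : T1.AdNormC K) (𝔫 : Ideal (𝓞 K)) (f : G K → ℂ) (hf : Continuous f)
    (hc : HasCompactSupport f) {Ω : Set (G K)} (hΩ : IsCompact Ω) :
    ∃ C : ℝ, 0 ≤ C ∧ ∀ ψ : G K → ℂ, IsAutFn 𝔫 ψ →
      ∀ x ∈ Ω, ‖conv F f ψ x‖ ≤ C * Real.sqrt (nsq F ψ) := by
  have hQ : IsCompact (Ω * tsupport f) := hΩ.mul hc
  obtain ⟨M, hM⟩ := lintegral_compact_le627 F hT2 hD hN hQ
  set J : ℝ≥0∞ := ∫⁻ h, ‖f h‖ₑ ^ 2 ∂F.μ with hJ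
  have hJfin : J < ⊤ := lintegral_sq_lt_top627 F f hf hc
  refine ⟨Real.sqrt M * Real.sqrt J.toReal, by positivity, fun ψ hψ x hx => ?_⟩
  set I : ℝ≥0∞ := ∫⁻ g in F.D, ‖ψ g‖ₑ ^ 2 ∂F.μ with hI
  have hIfin : I < ⊤ := lintegral_D_lt_top627 F ψ hψ.bdd
  have hmeas : Measurable fun g => ‖ψ g‖ₑ ^ 2 := hψ.cont.measurable.enorm.pow_const 2
  have hinv1 : ∀ (γ : GL (Fin 2) K) (g : G K), ‖ψ (T1.ratG K γ * g)‖ₑ ^ 2 = ‖ψ g‖ₑ ^ 2 := by
    intro γ g
    have := hψ.left_inv γ g
    unfold T1.ratG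
    rw [this]
  have hinv2 : ∀ (t : ℝ) (g : G K), ‖ψ (g * zpos627 t)‖ₑ ^ 2 = ‖ψ g‖ₑ ^ 2 := by
    intro t g
    rw [inv_zpos627 hψ.arch_scalar]
  have h1 := enorm_conv_le627 F f ψ hf hψ.cont x
  have hsub : (fun y => x⁻¹ * y) ⁻¹' tsupport f ⊆ Ω * tsupport f := by
    intro y hy
    exact ⟨x, hx, x⁻¹ * y, hy, mul_inv_cancel_left x y⟩
  have h2 : ∫⁻ y in (fun y => x⁻¹ * y) ⁻¹' tsupport f, ‖ψ y‖ₑ ^ 2 ∂F.μ ≤ M * I :=
    (lintegral_mono_set hsub).trans (hM _ hmeas hinv1 hinv2)
  have h3 : ‖conv F f ψ x‖ₑ ≤ ((M : ℝ≥0∞) * I) ^ (1 / 2 : ℝ) * J ^ (1 / 2 : ℝ) :=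
    h1.trans (mul_le_mul' (ENNReal.rpow_le_rpow h2 (by norm_num)) le_rfl)
  have hfin : ((M : ℝ≥0∞) * I) ^ (1 / 2 : ℝ) * J ^ (1 / 2 : ℝ) ≠ ⊤ := by
    refine ENNReal.mul_ne_top (ENNReal.rpow_ne_top_of_nonneg (by norm_num) ?_)
      (ENNReal.rpow_ne_top_of_nonneg (by norm_num) hJfin.ne)
    exact ENNReal.mul_ne_top (ENNReal.natCast_ne_top M) hIfin.ne
  have h4 := ENNReal.toReal_mono hfin h3
  rw [toReal_enorm, ENNReal.toReal_mul, ← ENNReal.toReal_rpow, ← ENNReal.toReal_rpow,
    ENNReal.toReal_mul, ENNReal.toReal_natCast, ← Real.sqrt_eq_rpow, ← Real.sqrt_eq_rpow,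
    Real.sqrt_mul (Nat.cast_nonneg M), ← nsq_eq627 F ψ hψ.cont] at h4
  calc ‖conv F f ψ x‖ ≤ Real.sqrt M * Real.sqrt (nsq F ψ) * Real.sqrt J.toReal := h4
    _ = Real.sqrt M * Real.sqrt J.toReal * Real.sqrt (nsq F ψ) := by ring

end Fermat.Agent.LT.T2.H627

end

end
-- ===== PACK-END LT/T2/H627/Conv.lean

-- ===== PACK-BEGIN LT/T2/H131/WeakApproxLeaf.lean
section



/-!
# Row LT, tower T2, leaf T2.10.04: adapter to `H941.Leaf04` (helper131, OFF-MAIN)

Spec: `Fermat/Agent/LT/T2/H941/SmoSpec.lean` (helper941@8afa9067a, sha256 41255efa7193).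
`H941.Leaf04 K = H941.WeakApproxC K` is `weakApproxGL2_h131 K` verbatim.
-/

set_option autoImplicit false

namespace Fermat.Agent.LT.T2.H131

/-- **T2.10.04** `H941.Leaf04 K` (`= H941.WeakApproxC K`). -/
theorem leaf04_h131 (K : Type) [Field K] [NumberField K] : H941.Leaf04 K :=
  weakApproxGL2_h131 K

end Fermat.Agent.LT.T2.H131

end
-- ===== PACK-END LT/T2/H131/WeakApproxLeaf.lean

-- ===== PACK-BEGIN LT/T2/H250/PairC.lean
section



/-!
# Row LT, tower T2, station T2.10 (SMO_AA), sub-leaf T2.10.13 `PairC` (helper250)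

OFF-MAIN.  `leaf13_250 : Fermat.Agent.LT.T2.H941.Leaf13 K` for every number field `K`, against the
bytes `LT/T2/H941/SmoSpec.lean` (helper941, sha256 `41255efa7193…`), `LT/T2/Spec.lean` (helper130,
`1b305586…`), `LT/T1/Spec.lean` (helper54, `e8ae48d6…`), `LT/H556/A0.lean` (`66d3374a…`).

The Petersson pairing `T2.pair F` of a frame on the class `IsAut0` is additive in the first
variable, definite, and invariant under ALL right translations.
-/

set_option autoImplicit false
set_option linter.unusedSectionVars false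

open IsDedekindDomain NumberField MeasureTheory AutomorphicForm
open Fermat.Agent.LT.H556.A0
open Fermat.Agent.LT

noncomputable section
namespace Fermat.Agent.LT.T2.H250

variable {K : Type} [Field K] [NumberField K]

attribute [local instance] Fermat.Agent.LT.T2.borelG
attribute [local instance] Classical.propDecidable

/-! ## 1. Real scalars at the infinite places -/

/-- Every real number is in the image of the completion at an infinite place. -/
theorem exists_real_completion250 (w : InfinitePlace K) (r : ℝ) :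
    ∃ x : w.Completion, InfinitePlace.Completion.extensionEmbedding w x = (r : ℂ) := by
  have hcl : IsClosed (Set.range (InfinitePlace.Completion.extensionEmbedding w)) :=
    (InfinitePlace.Completion.isometry_extensionEmbedding w).isClosedEmbedding.isClosed_range
  have hsub : Set.range (fun q : ℚ => ((q : ℝ) : ℂ))
      ⊆ Set.range (InfinitePlace.Completion.extensionEmbedding w) := by
    rintro _ ⟨q, rfl⟩
    refine ⟨(q : w.Completion), ?_⟩
    rw [map_ratCast]
    simp
  have h1 : r ∈ closure (Set.range ((↑) : ℚ → ℝ)) := Rat.denseRange_cast r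
  have h2 : (r : ℂ) ∈ closure (Set.range (fun q : ℚ => ((q : ℝ) : ℂ))) := by
    have h3 := map_mem_closure Complex.continuous_ofReal h1
      (t := Set.range (fun q : ℚ => ((q : ℝ) : ℂ))) (by
        rintro _ ⟨q, rfl⟩
        exact ⟨q, rfl⟩)
    exact h3
  exact closure_minimal hsub hcl h2

/-- The element `r` of the completion at `w`. -/
def rComp250 (w : InfinitePlace K) (r : ℝ) : w.Completion :=
  Classical.choose (exists_real_completion250 w r)

theorem ext_rComp250 (w : InfinitePlace K) (r : ℝ) :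
    InfinitePlace.Completion.extensionEmbedding w (rComp250 w r) = (r : ℂ) :=
  Classical.choose_spec (exists_real_completion250 w r)

theorem rComp250_mul (w : InfinitePlace K) (r s : ℝ) :
    rComp250 w (r * s) = rComp250 w r * rComp250 w s := by
  apply (InfinitePlace.Completion.extensionEmbedding w).injective
  rw [map_mul, ext_rComp250, ext_rComp250, ext_rComp250, Complex.ofReal_mul]

theorem rComp250_one (w : InfinitePlace K) : rComp250 w 1 = 1 := by
  apply (InfinitePlace.Completion.extensionEmbedding w).injective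
  rw [map_one, ext_rComp250, Complex.ofReal_one]

theorem norm_rComp250 (w : InfinitePlace K) (r : ℝ) : ‖rComp250 w r‖ = |r| := by
  have h1 := (InfinitePlace.Completion.isometry_extensionEmbedding w).norm_map_of_map_zero
    (map_zero _) (rComp250 w r)
  rw [← h1, ext_rComp250]
  simp

/-- The adele which is `r` at every infinite place and `1` at every finite place. -/
def rAdele250 (r : ℝ) : Adl K :=
  ((fun w => rComp250 w r : InfiniteAdeleRing K), (1 : FiniteAdeleRing (𝓞 K) K))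

theorem rAdele250_fst (r : ℝ) (w : InfinitePlace K) : (rAdele250 (K := K) r).1 w = rComp250 w r :=
  rfl

theorem rAdele250_snd (r : ℝ) : (rAdele250 (K := K) r).2 = 1 := rfl

theorem rAdele250_mul (r s : ℝ) :
    rAdele250 (K := K) r * rAdele250 s = rAdele250 (r * s) := by
  apply Prod.ext
  · funext w
    show rComp250 w r * rComp250 w s = rComp250 w (r * s)
    rw [rComp250_mul]
  · show (1 : FiniteAdeleRing (𝓞 K) K) * 1 = 1
    rw [one_mul]

theorem rAdele250_one : rAdele250 (K := K) 1 = 1 := by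
  apply Prod.ext
  · funext w
    show rComp250 w 1 = 1
    rw [rComp250_one]
  · rfl

/-- The idele which is `r ≠ 0` at every infinite place and `1` at every finite place. -/
def rIdele250 (r : ℝ) (hr : r ≠ 0) : (Adl K)ˣ where
  val := rAdele250 r
  inv := rAdele250 r⁻¹
  val_inv := by rw [rAdele250_mul, mul_inv_cancel₀ hr, rAdele250_one]
  inv_val := by rw [rAdele250_mul, inv_mul_cancel₀ hr, rAdele250_one]

/-- The module of the idele `rIdele250 r`. -/
theorem adNorm_rIdele250 (r : ℝ) (hr : r ≠ 0) :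
    T1.adNorm K ((rIdele250 (K := K) r hr : (Adl K)ˣ) : Adl K)
      = |r| ^ Module.finrank ℚ K := by
  show T1.adNorm K (rAdele250 r) = _
  unfold T1.adNorm
  have hfin : (∏ᶠ v : HeightOneSpectrum (𝓞 K), ‖(rAdele250 (K := K) r).2 v‖) = 1 := by
    have : ∀ v : HeightOneSpectrum (𝓞 K), ‖(rAdele250 (K := K) r).2 v‖ = 1 := by
      intro v
      rw [rAdele250_snd]
      show ‖(1 : v.adicCompletion K)‖ = 1
      exact norm_one
    simp only [this]
    exact finprod_one
  rw [hfin, mul_one]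
  simp only [rAdele250_fst, norm_rComp250]
  rw [Finset.prod_pow_eq_pow_sum, InfinitePlace.sum_mult_eq]

theorem rIdele250_mul (r s : ℝ) (hr : r ≠ 0) (hs : s ≠ 0) :
    rIdele250 (K := K) r hr * rIdele250 s hs = rIdele250 (r * s) (mul_ne_zero hr hs) := by
  apply Units.ext
  show rAdele250 (K := K) r * rAdele250 s = rAdele250 (r * s)
  exact rAdele250_mul r s

/-- The scalar matrix `r` at every infinite place, identity at the finite places. -/
def zR250 (r : ℝ) (hr : r ≠ 0) : G K :=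
  Units.map (Matrix.scalar (Fin 2) : Adl K →+* Matrix (Fin 2) (Fin 2) (Adl K)).toMonoidHom
    (rIdele250 r hr)

theorem zR250_val (r : ℝ) (hr : r ≠ 0) :
    ((zR250 (K := K) r hr : G K) : Matrix (Fin 2) (Fin 2) (Adl K))
      = Matrix.diagonal (fun _ => rAdele250 r) := rfl

theorem zR250_apply (r : ℝ) (hr : r ≠ 0) (i j : Fin 2) :
    ((zR250 (K := K) r hr : G K) : Matrix (Fin 2) (Fin 2) (Adl K)) i j
      = if i = j then rAdele250 r else 0 := by
  rw [zR250_val, Matrix.diagonal_apply]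

theorem zR250_congr {r s : ℝ} (h : r = s) (hr : r ≠ 0) (hs : s ≠ 0) :
    zR250 (K := K) r hr = zR250 s hs := by
  subst h
  rfl

theorem zR250_mul (r s : ℝ) (hr : r ≠ 0) (hs : s ≠ 0) :
    zR250 (K := K) r hr * zR250 s hs = zR250 (r * s) (mul_ne_zero hr hs) := by
  unfold zR250
  rw [← map_mul, rIdele250_mul]

theorem zR250_one : zR250 (K := K) 1 one_ne_zero = 1 := by
  apply Units.ext
  rw [zR250_val, rAdele250_one]
  exact Matrix.diagonal_one

theorem zR250_det (r : ℝ) (hr : r ≠ 0) :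
    Matrix.GeneralLinearGroup.det (zR250 (K := K) r hr) = rIdele250 r hr * rIdele250 r hr := by
  apply Units.ext
  rw [Matrix.GeneralLinearGroup.val_det_apply, zR250_val, Matrix.det_diagonal,
    Fin.prod_univ_two]
  rfl

/-- The scalars are central. -/
theorem zR250_comm (r : ℝ) (hr : r ≠ 0) (g : G K) :
    zR250 r hr * g = g * zR250 r hr := by
  apply Units.ext
  rw [Units.val_mul, Units.val_mul]
  exact (Matrix.scalar_commute (rAdele250 r) (fun _ => Commute.all _ _) _).eq

theorem trivAtFin_zR250 (r : ℝ) (hr : r ≠ 0) (v : HeightOneSpectrum (𝓞 K)) :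
    TrivAtFin v (zR250 (K := K) r hr) := by
  show finComp v (zR250 r hr) = 1
  refine Matrix.ext fun i j => ?_
  show (((zR250 r hr : G K) : Matrix (Fin 2) (Fin 2) (Adl K)) i j).2 v = _
  rw [zR250_apply]
  by_cases hij : i = j
  · rw [if_pos hij, rAdele250_snd, hij, Matrix.one_apply_eq]
    rfl
  · rw [if_neg hij, Matrix.one_apply_ne hij]
    rfl

theorem infComp_zR250 (r : ℝ) (hr : r ≠ 0) (w : InfinitePlace K) :
    infComp w (zR250 (K := K) r hr) = Matrix.diagonal (fun _ => (r : ℂ)) := by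
  refine Matrix.ext fun i j => ?_
  show InfinitePlace.Completion.extensionEmbedding w
    ((((zR250 r hr : G K) : Matrix (Fin 2) (Fin 2) (Adl K)) i j).1 w) = _
  rw [zR250_apply, Matrix.diagonal_apply]
  by_cases hij : i = j
  · rw [if_pos hij, if_pos hij, rAdele250_fst, ext_rComp250]
  · rw [if_neg hij, if_neg hij]
    show InfinitePlace.Completion.extensionEmbedding w (0 : w.Completion) = 0
    exact map_zero _

theorem isDiagPosScalar_zR250 (r : ℝ) (hr : 0 < r) :
    T2.IsDiagPosScalar (zR250 (K := K) r hr.ne') :=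
  ⟨fun v => trivAtFin_zR250 r hr.ne' v, r, hr, fun w => infComp_zR250 r hr.ne' w⟩

/-! ## 2. The module of the determinant -/

theorem countable_K250 (K : Type) [Field K] [NumberField K] : Countable K := by
  have e := (Module.finBasis ℚ K).equivFun
  exact e.injective.countable

theorem countable_GL250 (K : Type) [Field K] [NumberField K] : Countable (GL (Fin 2) K) := by
  have := countable_K250 K
  have hinj : Function.Injective (fun g : GL (Fin 2) K => fun i j : Fin 2 =>
      (g : Matrix (Fin 2) (Fin 2) K) i j) := by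
    intro g h hgh
    apply Units.ext
    ext i j
    exact congrFun (congrFun hgh i) j
  exact hinj.countable

/-- The module of the determinant, as a function on `GL₂(𝔸_K)`. -/
def detNorm250 (g : G K) : ℝ :=
  T1.adNorm K (Matrix.det (g : Matrix (Fin 2) (Fin 2) (Adl K)))

theorem detNorm250_eq (g : G K) :
    detNorm250 g = T1.adNorm K ((Matrix.GeneralLinearGroup.det g : (Adl K)ˣ) : Adl K) := by
  rw [Matrix.GeneralLinearGroup.val_det_apply]
  rfl

theorem mem_slab_iff250 (g : G K) : g ∈ T1.slab K ↔ 1 ≤ detNorm250 g ∧ detNorm250 g < 2 :=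
  Iff.rfl

theorem detNorm250_mul (hN : T1.AdNormC K) (g h : G K) :
    detNorm250 (g * h) = detNorm250 g * detNorm250 h := by
  rw [detNorm250_eq, detNorm250_eq, detNorm250_eq, map_mul]
  exact hN.2.1 _ _

theorem detNorm250_pos (hN : T1.AdNormC K) (g : G K) : 0 < detNorm250 g := by
  rw [detNorm250_eq]
  exact hN.1 _

theorem detNorm250_zR (hN : T1.AdNormC K) (r : ℝ) (hr : r ≠ 0) :
    detNorm250 (zR250 (K := K) r hr) = (|r| ^ Module.finrank ℚ K) ^ 2 := by
  rw [detNorm250_eq, zR250_det, hN.2.1, adNorm_rIdele250, sq]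

theorem detNorm250_ratG (hN : T1.AdNormC K) (γ : GL (Fin 2) K) :
    detNorm250 (T1.ratG K γ) = 1 := by
  rw [detNorm250_eq]
  have h := hN.2.2.1 (Matrix.GeneralLinearGroup.det γ)
  convert h using 2
  rw [Matrix.GeneralLinearGroup.val_det_apply]
  show Matrix.det ((algebraMap K (Adl K)).mapMatrix (γ : Matrix (Fin 2) (Fin 2) K)) = _
  rw [← RingHom.map_det]
  rfl

theorem continuous_detNorm250 (hN : T1.AdNormC K) : Continuous (detNorm250 (K := K)) := by
  have hdet : Continuous (fun g : G K => (Matrix.GeneralLinearGroup.det g : (Adl K)ˣ)) := by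
    rw [Units.continuous_iff]
    constructor
    · show Continuous fun g : G K => ((Matrix.GeneralLinearGroup.det g : (Adl K)ˣ) : Adl K)
      simp only [Matrix.GeneralLinearGroup.val_det_apply]
      exact (Units.continuous_val).matrix_det
    · show Continuous fun g : G K => (((Matrix.GeneralLinearGroup.det g)⁻¹ : (Adl K)ˣ) : Adl K)
      have : ∀ g : G K, (((Matrix.GeneralLinearGroup.det g)⁻¹ : (Adl K)ˣ) : Adl K)
          = Matrix.det ((g⁻¹ : G K) : Matrix (Fin 2) (Fin 2) (Adl K)) := by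
        intro g
        rw [← map_inv, Matrix.GeneralLinearGroup.val_det_apply]
      simp only [this]
      exact (Units.continuous_val.comp continuous_inv).matrix_det
  have h := hN.2.2.2.comp hdet
  have heq : (detNorm250 (K := K)) = (fun x : (Adl K)ˣ => T1.adNorm K (x : Adl K)) ∘
      (fun g : G K => (Matrix.GeneralLinearGroup.det g : (Adl K)ˣ)) := by
    funext g
    exact detNorm250_eq g
  rw [heq]
  exact h

/-- The open slab `1 < ‖det g‖ < 2`. -/
def openSlab250 (K : Type) [Field K] [NumberField K] : Set (G K) :=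
  {g | 1 < detNorm250 g ∧ detNorm250 g < 2}

theorem isOpen_openSlab250 (hN : T1.AdNormC K) : IsOpen (openSlab250 K) := by
  have h : openSlab250 K = detNorm250 ⁻¹' (Set.Ioo (1 : ℝ) 2) := rfl
  rw [h]
  exact isOpen_Ioo.preimage (continuous_detNorm250 hN)

theorem openSlab250_subset_slab : openSlab250 K ⊆ T1.slab K :=
  fun _ hg => ⟨hg.1.le, hg.2⟩

theorem finrank_pos250 (K : Type) [Field K] [NumberField K] : 0 < Module.finrank ℚ K :=
  Module.finrank_pos

/-- A positive real scalar with prescribed module of the determinant. -/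
theorem exists_scalar_detNorm250 (hN : T1.AdNormC K) (t : ℝ) (ht : 0 < t) :
    ∃ r : ℝ, ∃ hr : 0 < r, detNorm250 (zR250 (K := K) r hr.ne') = t := by
  have hn : Module.finrank ℚ K * 2 ≠ 0 := by
    have := finrank_pos250 K
    omega
  refine ⟨t ^ (((Module.finrank ℚ K * 2 : ℕ) : ℝ)⁻¹), Real.rpow_pos_of_pos ht _, ?_⟩
  rw [detNorm250_zR hN, abs_of_pos (Real.rpow_pos_of_pos ht _), ← pow_mul,
    Real.rpow_inv_natCast_pow ht.le hn]

/-! ## 3. The lattice `GL₂(K) × ζ^ℤ` -/

/-- The positive real number with `ρ ^ (2 [K : ℚ]) = 2`. -/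
def rho250 (K : Type) [Field K] [NumberField K] : ℝ :=
  (2 : ℝ) ^ (((Module.finrank ℚ K * 2 : ℕ) : ℝ)⁻¹)

theorem rho250_pos (K : Type) [Field K] [NumberField K] : 0 < rho250 K :=
  Real.rpow_pos_of_pos (by norm_num) _

theorem rho250_pow (K : Type) [Field K] [NumberField K] :
    rho250 K ^ (Module.finrank ℚ K * 2) = 2 := by
  have hn : Module.finrank ℚ K * 2 ≠ 0 := by
    have := finrank_pos250 K
    omega
  exact Real.rpow_inv_natCast_pow (by norm_num) hn

/-- `ζ_m`: the diagonal positive scalar `ρ ^ m`; the module of its determinant is `2 ^ m`. -/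
def zeta250 (m : ℤ) : G K :=
  zR250 (rho250 K ^ m) (zpow_ne_zero m (rho250_pos K).ne')

theorem zeta250_add (m m' : ℤ) :
    zeta250 (K := K) (m + m') = zeta250 m * zeta250 m' := by
  unfold zeta250
  rw [zR250_mul]
  exact zR250_congr (zpow_add₀ (rho250_pos K).ne' m m') _ _

theorem zeta250_zero : zeta250 (K := K) 0 = 1 := by
  unfold zeta250
  rw [← zR250_one]
  exact zR250_congr (zpow_zero _) _ _

theorem isDiagPosScalar_zeta250 (m : ℤ) : T2.IsDiagPosScalar (zeta250 (K := K) m) :=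
  isDiagPosScalar_zR250 _ (zpow_pos (rho250_pos K) m)

theorem detNorm250_zeta (hN : T1.AdNormC K) (m : ℤ) :
    detNorm250 (zeta250 (K := K) m) = (2 : ℝ) ^ m := by
  unfold zeta250
  rw [detNorm250_zR hN, abs_of_pos (zpow_pos (rho250_pos K) m), ← pow_mul,
    ← zpow_natCast, ← zpow_mul, mul_comm, zpow_mul, zpow_natCast, rho250_pow]

theorem zeta250_comm (m : ℤ) (g : G K) : zeta250 m * g = g * zeta250 m :=
  zR250_comm _ _ g

/-- The homomorphism `m ↦ ζ_m`. -/
def zetaHom250 (K : Type) [Field K] [NumberField K] : Multiplicative ℤ →* G K where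
  toFun m := zeta250 (Multiplicative.toAdd m)
  map_one' := zeta250_zero
  map_mul' _ _ := zeta250_add _ _

/-- The homomorphism `(γ, m) ↦ γ ζ_m`. -/
def phi250 (K : Type) [Field K] [NumberField K] : GL (Fin 2) K × Multiplicative ℤ →* G K :=
  MonoidHom.noncommCoprod (T1.ratG K) (zetaHom250 K)
    (fun γ m => (zeta250_comm (Multiplicative.toAdd m) (T1.ratG K γ)).symm)

theorem phi250_apply (γ : GL (Fin 2) K) (m : Multiplicative ℤ) :
    phi250 K (γ, m) = T1.ratG K γ * zeta250 (Multiplicative.toAdd m) := rfl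

/-- The lattice `Λ = GL₂(K) · ζ^ℤ`. -/
def Lam250 (K : Type) [Field K] [NumberField K] : Subgroup (G K) := (phi250 K).range

theorem countable_Lam250 (K : Type) [Field K] [NumberField K] : Countable (Lam250 K) := by
  have := countable_GL250 K
  exact (phi250 K).rangeRestrict_surjective.countable

theorem exists_zpow_slab250 (t : ℝ) (ht : 0 < t) :
    ∃ m : ℤ, 1 ≤ (2 : ℝ) ^ m * t ∧ (2 : ℝ) ^ m * t < 2 := by
  obtain ⟨k, hk1, hk2⟩ := exists_mem_Ico_zpow ht (one_lt_two (α := ℝ))
  have h2k : (0 : ℝ) < 2 ^ k := zpow_pos (by norm_num) k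
  refine ⟨-k, ?_, ?_⟩
  · rw [zpow_neg, ← div_eq_inv_mul, le_div_iff₀ h2k, one_mul]
    exact hk1
  · rw [zpow_neg, ← div_eq_inv_mul, div_lt_iff₀ h2k, mul_comm, ← zpow_add_one₀ (by norm_num)]
    exact hk2

theorem zpow_slab_unique250 (t : ℝ) (ht : 0 < t) (m m' : ℤ)
    (h1 : 1 ≤ (2 : ℝ) ^ m * t) (h2 : (2 : ℝ) ^ m * t < 2)
    (h1' : 1 ≤ (2 : ℝ) ^ m' * t) (h2' : (2 : ℝ) ^ m' * t < 2) : m = m' := by
  have key : ∀ a b : ℤ, 1 ≤ (2 : ℝ) ^ a * t → (2 : ℝ) ^ b * t < 2 → b ≤ a := by
    intro a b ha hb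
    by_contra hlt
    rw [not_le] at hlt
    have h3 : (2 : ℝ) ^ (a + 1) ≤ 2 ^ b := zpow_le_zpow_right₀ (by norm_num) (by omega)
    have h4 : (2 : ℝ) ^ (a + 1) * t ≤ 2 ^ b * t := mul_le_mul_of_nonneg_right h3 ht.le
    rw [zpow_add_one₀ (by norm_num)] at h4
    nlinarith
  exact le_antisymm (key m' m h1' h2) (key m m' h1 h2')

/-- Every element has exactly one translate under `Λ` in the fundamental domain of a frame. -/
theorem existsUnique_Lam250 (hN : T1.AdNormC K) (F : T2.Frame K) (y : G K) :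
    ∃! l : Lam250 K, l • y ∈ F.D := by
  obtain ⟨m, hm1, hm2⟩ := exists_zpow_slab250 (detNorm250 y) (detNorm250_pos hN y)
  have hslab : zeta250 m * y ∈ T1.slab K := by
    rw [mem_slab_iff250, detNorm250_mul hN, detNorm250_zeta hN]
    exact ⟨hm1, hm2⟩
  obtain ⟨γ, hγ, hγu⟩ := F.strict _ hslab
  refine ⟨⟨phi250 K (γ, Multiplicative.ofAdd m), ⟨(γ, Multiplicative.ofAdd m), rfl⟩⟩, ?_, ?_⟩
  · show phi250 K (γ, Multiplicative.ofAdd m) * y ∈ F.D
    rw [phi250_apply, mul_assoc]
    exact hγ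
  · rintro ⟨l, ⟨γ', m'⟩, rfl⟩ hl
    have hl' : T1.ratG K γ' * (zeta250 (Multiplicative.toAdd m') * y) ∈ F.D := by
      have : phi250 K (γ', m') * y ∈ F.D := hl
      rwa [phi250_apply, mul_assoc] at this
    have hs := F.sub hl'
    rw [mem_slab_iff250, detNorm250_mul hN, detNorm250_ratG hN, one_mul, detNorm250_mul hN,
      detNorm250_zeta hN] at hs
    have hmm : Multiplicative.toAdd m' = m :=
      zpow_slab_unique250 _ (detNorm250_pos hN y) _ _ hs.1 hs.2 hm1 hm2
    have hm'eq : m' = Multiplicative.ofAdd m := by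
      rw [← hmm]
      rfl
    subst hm'eq
    have hγ' : γ' = γ := hγu γ' hl'
    subst hγ'
    rfl

/-- Functions of the class `IsAut0` are invariant under `Λ`. -/
theorem isAut0_Lam250 {f : G K → ℂ} (hf : H941.IsAut0 f) (l : Lam250 K) (y : G K) :
    f (l • y) = f y := by
  obtain ⟨l, ⟨γ, m⟩, rfl⟩ := l
  show f (phi250 K (γ, m) * y) = f y
  rw [phi250_apply, mul_assoc, hf.2.2.1 γ, hf.2.2.2 _ (isDiagPosScalar_zeta250 _)]

/-! ## 4. The three properties of the pairing -/

/-- The integrand of the pairing is integrable on the domain of a frame. -/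
theorem integrableOn_pair250 (F : T2.Frame K) {f₁ f₂ : G K → ℂ} (h₁ : H941.IsAut0 f₁)
    (h₂ : H941.IsAut0 f₂) :
    IntegrableOn (fun g => f₁ g * (starRingEnd ℂ) (f₂ g)) F.D F.μ := by
  have : BorelSpace (G K) := ⟨rfl⟩
  obtain ⟨C₁, hC₁⟩ := h₁.2.1
  obtain ⟨C₂, hC₂⟩ := h₂.2.1
  have hcont : Continuous (fun g => f₁ g * (starRingEnd ℂ) (f₂ g)) :=
    h₁.1.mul (Complex.continuous_conj.comp h₂.1)
  refine Measure.integrableOn_of_bounded (M := C₁ * C₂) F.fin.ne hcont.aestronglyMeasurable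
    (Filter.Eventually.of_forall fun g => ?_)
  rw [norm_mul, RCLike.norm_conj]
  exact mul_le_mul (hC₁ g) (hC₂ g) (norm_nonneg _) ((norm_nonneg _).trans (hC₁ g))

/-- Additivity in the first variable. -/
theorem pair_add250 (F : T2.Frame K) {f₁ f₂ h : G K → ℂ} (h₁ : H941.IsAut0 f₁)
    (h₂ : H941.IsAut0 f₂) (hh : H941.IsAut0 h) :
    T2.pair F (fun x => f₁ x + f₂ x) h = T2.pair F f₁ h + T2.pair F f₂ h := by
  unfold T2.pair
  rw [← integral_add (integrableOn_pair250 F h₁ hh) (integrableOn_pair250 F h₂ hh)]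
  refine integral_congr_ae (Filter.Eventually.of_forall fun g => ?_)
  show (f₁ g + f₂ g) * (starRingEnd ℂ) (h g) = _
  rw [add_mul]

/-- Definiteness. -/
theorem pair_definite250 (hT : T1.T1Out K) (F : T2.Frame K) {f : G K → ℂ}
    (hf : H941.IsAut0 f) (h0 : T2.pair F f f = 0) : ∀ x : G K, f x = 0 := by
  have : BorelSpace (G K) := ⟨rfl⟩
  have := F.haar
  have hN := hT.adNorm
  have hint := integrableOn_pair250 F hf hf
  have hreal : ∀ g, f g * (starRingEnd ℂ) (f g) = ((Complex.normSq (f g) : ℝ) : ℂ) :=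
    fun g => Complex.mul_conj (f g)
  have hintR : IntegrableOn (fun g => Complex.normSq (f g)) F.D F.μ := by
    have := hint.re
    refine this.congr (Filter.Eventually.of_forall fun g => ?_)
    show (f g * (starRingEnd ℂ) (f g)).re = Complex.normSq (f g)
    rw [hreal, Complex.ofReal_re]
  have h0R : ∫ g in F.D, Complex.normSq (f g) ∂F.μ = 0 := by
    have h1 : T2.pair F f f = ((∫ g in F.D, Complex.normSq (f g) ∂F.μ : ℝ) : ℂ) := by
      unfold T2.pair
      simp only [hreal]
      exact integral_ofReal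
    rw [h1] at h0
    exact_mod_cast h0
  have hae : (fun g => Complex.normSq (f g)) =ᵐ[F.μ.restrict F.D] 0 :=
    (setIntegral_eq_zero_iff_of_nonneg_ae
      (Filter.Eventually.of_forall fun g => Complex.normSq_nonneg _) hintR).1 h0R
  have hVopen : IsOpen {g : G K | f g ≠ 0} := isOpen_ne_fun hf.1 continuous_const
  have hVD : F.μ ({g : G K | f g ≠ 0} ∩ F.D) = 0 := by
    have h2 : F.μ.restrict F.D {g : G K | f g ≠ 0} = 0 := by
      have h3 : ∀ᵐ g ∂(F.μ.restrict F.D), Complex.normSq (f g) = 0 := hae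
      rw [ae_iff] at h3
      have h4 : {g : G K | f g ≠ 0} = {g : G K | ¬ Complex.normSq (f g) = 0} := by
        ext g
        show f g ≠ 0 ↔ ¬ Complex.normSq (f g) = 0
        rw [Complex.normSq_eq_zero]
      rw [h4]
      exact h3
    rwa [Measure.restrict_apply hVopen.measurableSet] at h2
  have hVslab : F.μ ({g : G K | f g ≠ 0} ∩ T1.slab K) = 0 := by
    have hcnt := countable_GL250 K
    have hsub : {g : G K | f g ≠ 0} ∩ T1.slab K ⊆
        ⋃ γ : GL (Fin 2) K, (fun g : G K => T1.ratG K γ * g) ⁻¹'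
          ({g : G K | f g ≠ 0} ∩ F.D) := by
      rintro g ⟨hg, hgs⟩
      obtain ⟨γ, hγ, -⟩ := F.strict g hgs
      refine Set.mem_iUnion.2 ⟨γ, ?_, hγ⟩
      show f (T1.ratG K γ * g) ≠ 0
      rw [hf.2.2.1 γ g]
      exact hg
    refine measure_mono_null hsub ?_
    refine measure_iUnion_null fun γ => ?_
    rw [measure_preimage_mul]
    exact hVD
  have hempty : {g : G K | f g ≠ 0} ∩ openSlab250 K = ∅ := by
    have hop : IsOpen ({g : G K | f g ≠ 0} ∩ openSlab250 K) :=
      hVopen.inter (isOpen_openSlab250 hN)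
    rw [← hop.measure_eq_zero_iff F.μ]
    exact measure_mono_null (Set.inter_subset_inter_right _ openSlab250_subset_slab) hVslab
  intro g
  by_contra hg
  have hpos : 0 < (3 / 2 : ℝ) / detNorm250 g := div_pos (by norm_num) (detNorm250_pos hN g)
  obtain ⟨r, hr, hrn⟩ := exists_scalar_detNorm250 hN _ hpos
  have hval : detNorm250 (zR250 r hr.ne' * g) = 3 / 2 := by
    rw [detNorm250_mul hN, hrn, div_mul_cancel₀ _ (detNorm250_pos hN g).ne']
  have hmem : zR250 r hr.ne' * g ∈ {g : G K | f g ≠ 0} ∩ openSlab250 K := by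
    refine ⟨?_, ?_⟩
    · show f (zR250 r hr.ne' * g) ≠ 0
      rw [hf.2.2.2 _ (isDiagPosScalar_zR250 r hr) g]
      exact hg
    · show 1 < detNorm250 (zR250 r hr.ne' * g) ∧ detNorm250 (zR250 r hr.ne' * g) < 2
      rw [hval]
      constructor <;> norm_num
  rw [hempty] at hmem
  exact hmem

/-- Invariance under all right translations. -/
theorem pair_rt250 (hT : T1.T1Out K) (F : T2.Frame K) (g : G K) {f₁ f₂ : G K → ℂ}
    (h₁ : H941.IsAut0 f₁) (h₂ : H941.IsAut0 f₂) :
    T2.pair F (H941.rt g f₁) (H941.rt g f₂) = T2.pair F f₁ f₂ := by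
  have : BorelSpace (G K) := ⟨rfl⟩
  have := F.haar
  have hN := hT.adNorm
  have hR : F.μ.IsMulRightInvariant := hT.unimod F.μ F.haar
  have hcnt := countable_Lam250 K
  have : SMulInvariantMeasure (Lam250 K) (G K) F.μ :=
    ⟨fun ⟨x, _⟩ _ h => Measure.IsMulLeftInvariant.smulInvariantMeasure.1 x h⟩
  -- the two fundamental domains of `Λ`
  have hD : IsFundamentalDomain (Lam250 K) F.D F.μ :=
    IsFundamentalDomain.mk' F.meas.nullMeasurableSet (existsUnique_Lam250 hN F)
  have hmeas : MeasurableSet ((fun x : G K => x * g⁻¹) ⁻¹' F.D) :=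
    (measurable_mul_const g⁻¹) F.meas
  have hDg : IsFundamentalDomain (Lam250 K) ((fun x : G K => x * g⁻¹) ⁻¹' F.D) F.μ := by
    refine IsFundamentalDomain.mk' hmeas.nullMeasurableSet fun y => ?_
    have h := existsUnique_Lam250 hN F (y * g⁻¹)
    have heq : ∀ l : Lam250 K, (l • y ∈ (fun x : G K => x * g⁻¹) ⁻¹' F.D)
        ↔ l • (y * g⁻¹) ∈ F.D := by
      intro l
      show ((l : G K) * y) * g⁻¹ ∈ F.D ↔ (l : G K) * (y * g⁻¹) ∈ F.D
      rw [mul_assoc]
    simpa only [heq] using h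
  -- the invariant function
  have hinv : ∀ (l : Lam250 K) (y : G K),
      (fun x => f₁ x * (starRingEnd ℂ) (f₂ x)) (l • y)
        = (fun x => f₁ x * (starRingEnd ℂ) (f₂ x)) y := by
    intro l y
    show f₁ (l • y) * (starRingEnd ℂ) (f₂ (l • y)) = f₁ y * (starRingEnd ℂ) (f₂ y)
    rw [isAut0_Lam250 h₁, isAut0_Lam250 h₂]
  have hkey := hD.setIntegral_eq hDg (f := fun x => f₁ x * (starRingEnd ℂ) (f₂ x)) hinv
  -- change of variables
  have hcv := (measurePreserving_mul_right F.μ g).setIntegral_preimage_emb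
    (measurableEmbedding_mulRight g) (fun x => f₁ x * (starRingEnd ℂ) (f₂ x))
    ((fun x : G K => x * g⁻¹) ⁻¹' F.D)
  have hpre : (fun x : G K => x * g) ⁻¹' ((fun x : G K => x * g⁻¹) ⁻¹' F.D) = F.D := by
    ext x
    show x * g * g⁻¹ ∈ F.D ↔ x ∈ F.D
    rw [mul_assoc, mul_inv_cancel, mul_one]
  rw [hpre] at hcv
  unfold T2.pair H941.rt
  rw [hkey]
  exact hcv

/-- **T2.10.13**: the Petersson pairing on the class `IsAut0`. -/
theorem pairC250 (hT : T1.T1Out K) : H941.PairC K := fun F =>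
  ⟨fun _ _ _ h₁ h₂ hh => pair_add250 F h₁ h₂ hh,
    fun _ hf h0 => pair_definite250 hT F hf h0,
    fun g _ _ h₁ h₂ => pair_rt250 hT F g h₁ h₂⟩

/-- **T2.10.13** (`Leaf13` of `LT/T2/H941/SmoSpec.lean`). -/
theorem leaf13_250 (K : Type) [Field K] [NumberField K] : H941.Leaf13 K :=
  fun hT => pairC250 hT

/-- Type check against the frozen Prop. -/
example (K : Type) [Field K] [NumberField K] : Fermat.Agent.LT.T2.H941.Leaf13 K := leaf13_250 K

end Fermat.Agent.LT.T2.H250

end

end
-- ===== PACK-END LT/T2/H250/PairC.lean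

-- ===== PACK-BEGIN LT/T2/H333/Book.lean
section


/-!
# Row LT, tower T2, station T2.10 (`SMO_AA`), leaf T2.10.16 `BookC` (helper333), OFF-MAIN

Registry row 1109.  Proves `Fermat.Agent.LT.T2.H941.BookC K` (= `Leaf16 K`) VERBATIM against
`LT/T2/H941/SmoSpec.lean` (helper941@8afa9067a, sha256 41255efa7193), for every number field `K`.

* `comm_of_local_triv333` : an element supported at the finite place `v` commutes with an element
  which is trivial at `v`;
* `mem_idealClosure_of_int333` : for `v ∤ 𝔫` the closure of `𝔫` in `K_v` contains `𝒪_v`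
  (route of helper129 `dense_ideal129`, re-proved here so that the closure is Mathlib + Spec only);
* `bookC333 : BookC K`, `leaf16_333 : Leaf16 K`.
-/

set_option autoImplicit false

open IsDedekindDomain NumberField IsDedekindDomain.HeightOneSpectrum
open Fermat.Agent.LT.H556.A0

noncomputable section

namespace Fermat.Agent.LT.T2.H333

open Fermat.Agent.LT.T2.H941

variable {K : Type} [Field K] [NumberField K]

/-! ## 1. Components -/

/-- The component at the finite place `v`. -/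
def evF333 (v : HeightOneSpectrum (𝓞 K)) : Adl K →+* v.adicCompletion K :=
  (RestrictedProduct.evalRingHom (fun v : HeightOneSpectrum (𝓞 K) => v.adicCompletion K) v).comp
    (RingHom.snd _ _)

/-- The component at the infinite place `w`. -/
def evI333 (w : InfinitePlace K) : Adl K →+* w.Completion :=
  (Pi.evalRingHom (fun w : InfinitePlace K => w.Completion) w).comp (RingHom.fst _ _)

theorem evF333_apply (v : HeightOneSpectrum (𝓞 K)) (x : Adl K) : evF333 v x = x.2 v := rfl

theorem evI333_apply (w : InfinitePlace K) (x : Adl K) : evI333 w x = x.1 w := rfl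

/-- An adele is determined by its components. -/
theorem adele_ext333 {x y : Adl K} (hI : ∀ w : InfinitePlace K, x.1 w = y.1 w)
    (hF : ∀ v : HeightOneSpectrum (𝓞 K), x.2 v = y.2 v) : x = y :=
  Prod.ext (funext hI) (RestrictedProduct.ext _ _ hF)

/-- A matrix over the adeles is determined by its components. -/
theorem adeleMatrix_ext333 {A B : Matrix (Fin 2) (Fin 2) (Adl K)}
    (hI : ∀ w : InfinitePlace K, A.map (evI333 w) = B.map (evI333 w))
    (hF : ∀ v : HeightOneSpectrum (𝓞 K), A.map (evF333 v) = B.map (evF333 v)) : A = B := by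
  refine Matrix.ext fun i j => adele_ext333 (fun w => ?_) (fun v => ?_)
  · exact congrFun (congrFun (hI w) i) j
  · exact congrFun (congrFun (hF v) i) j

theorem finComp_eq_map333 (v : HeightOneSpectrum (𝓞 K)) (g : G K) :
    finComp v g = (g : Matrix (Fin 2) (Fin 2) (Adl K)).map (evF333 v) := rfl

theorem finComp_mul333 (v : HeightOneSpectrum (𝓞 K)) (g h : G K) :
    finComp v (g * h) = finComp v g * finComp v h := by
  rw [finComp_eq_map333, finComp_eq_map333, finComp_eq_map333, Units.val_mul, Matrix.map_mul]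

theorem finComp_one333 (v : HeightOneSpectrum (𝓞 K)) : finComp v (1 : G K) = 1 := by
  rw [finComp_eq_map333, Units.val_one]
  exact Matrix.map_one _ (map_zero _) (map_one _)

theorem trivAtInf_iff333 (w : InfinitePlace K) (g : G K) :
    TrivAtInf w g ↔ (g : Matrix (Fin 2) (Fin 2) (Adl K)).map (evI333 w) = 1 := by
  unfold TrivAtInf
  constructor
  · intro h
    exact Matrix.ext fun i j => h i j
  · intro h i j
    exact congrFun (congrFun h i) j

theorem trivAtFin_iff333 (v : HeightOneSpectrum (𝓞 K)) (g : G K) :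
    TrivAtFin v g ↔ (g : Matrix (Fin 2) (Fin 2) (Adl K)).map (evF333 v) = 1 :=
  Iff.rfl

/-- The inverse of an element which is trivial at `v` is trivial at `v`. -/
theorem trivAtFin_inv333 {v : HeightOneSpectrum (𝓞 K)} {g : G K} (h : TrivAtFin v g) :
    TrivAtFin v g⁻¹ := by
  have h1 : finComp v (g * g⁻¹) = finComp v g * finComp v g⁻¹ := finComp_mul333 v g g⁻¹
  rw [mul_inv_cancel, finComp_one333] at h1
  unfold TrivAtFin at h ⊢
  rw [h, one_mul] at h1
  exact h1.symm

/-! ## 2. Local elements commute with elements trivial at the place -/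

/-- An element supported at the finite place `v` commutes with an element trivial at `v`. -/
theorem comm_of_local_triv333 {v : HeightOneSpectrum (𝓞 K)} {k q : G K}
    (hk : IsLocalAtFin v k) (hq : TrivAtFin v q) : k * q = q * k := by
  apply Units.ext
  rw [Units.val_mul, Units.val_mul]
  apply adeleMatrix_ext333
  · intro w
    rw [Matrix.map_mul, Matrix.map_mul, (trivAtInf_iff333 w k).1 (hk.1 w), one_mul, mul_one]
  · intro v'
    rw [Matrix.map_mul, Matrix.map_mul]
    by_cases h : v' = v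
    · subst h
      rw [(trivAtFin_iff333 v' q).1 hq, one_mul, mul_one]
    · rw [(trivAtFin_iff333 v' k).1 (hk.2 v' h), one_mul, mul_one]

/-! ## 3. For `v ∤ 𝔫` the closure of `𝔫` in `K_v` contains `𝒪_v` -/

/-- `𝓞 K` is dense in `𝒪_v`: every neighbourhood of an element of `𝒪_v` contains a global
integer. -/
theorem exists_int_mem_nhds333 (v : HeightOneSpectrum (𝓞 K)) {x : v.adicCompletion K}
    (hx : Valued.v x ≤ 1) {t : Set (v.adicCompletion K)} (ht : t ∈ nhds x) :
    ∃ a : 𝓞 K, ((algebraMap (𝓞 K) K a : K) : v.adicCompletion K) ∈ t := by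
  -- the unit ball around `x`
  have hB : {z : v.adicCompletion K | Valued.v (z - x) < 1} ∈ nhds x := by
    rw [Valued.mem_nhds]
    refine ⟨1, fun w hw => ?_⟩
    simpa using hw
  have hint : interior t ∩ {z : v.adicCompletion K | Valued.v (z - x) < 1} ∈ nhds x :=
    Filter.inter_mem (interior_mem_nhds.mpr ht) hB
  have hx' : x ∈ closure (Set.range (algebraMap K (v.adicCompletion K))) := by
    rw [(denseRange_algebraMap (K := K) v).closure_range]; exact Set.mem_univ x
  obtain ⟨_, ⟨hkt, hkB⟩, ⟨k, rfl⟩⟩ := mem_closure_iff_nhds.mp hx' _ hint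
  have hk' : Valued.v (algebraMap K (v.adicCompletion K) k - x) < 1 := hkB
  have hk1 : v.valuation K k ≤ 1 := by
    rw [← valuedAdicCompletion_eq_valuation']
    have : ((k : K) : v.adicCompletion K) = (algebraMap K (v.adicCompletion K) k - x) + x := by
      have h1 : ((k : K) : v.adicCompletion K) = algebraMap K (v.adicCompletion K) k := rfl
      rw [h1]; ring
    rw [this]
    exact le_trans (Valuation.map_add _ _ _) (max_le hk'.le hx)
  -- a ball around `k` inside `interior t`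
  have htk : interior t ∈ nhds (algebraMap K (v.adicCompletion K) k) :=
    isOpen_interior.mem_nhds hkt
  rw [Valued.mem_nhds] at htk
  obtain ⟨γ, hγ⟩ := htk
  have hγ0 : MonoidWithZeroHom.ValueGroup₀.embedding γ.1 ≠ 0 := by
    intro h
    have h1 := (MonoidWithZeroHom.ValueGroup₀.embedding_strictMono
      (f := MonoidWithZeroHom.ofClass (Valued.v : Valuation (v.adicCompletion K) _))).injective
      (h.trans (map_zero _).symm)
    exact γ.ne_zero h1
  obtain ⟨a, ha⟩ := exists_valuation_sub_lt_of_integer v hk1 (Units.mk0 _ hγ0)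
  refine ⟨a, interior_subset (hγ ?_)⟩
  show (Valued.v : Valuation (v.adicCompletion K) _).restrict
    (((algebraMap (𝓞 K) K a : K) : v.adicCompletion K) - algebraMap K (v.adicCompletion K) k)
      < γ.1
  rw [Valuation.restrict_lt_iff_lt_embedding]
  have e : ((algebraMap (𝓞 K) K a : K) : v.adicCompletion K)
      - algebraMap K (v.adicCompletion K) k
      = ((algebraMap (𝓞 K) K a - k : K) : v.adicCompletion K) :=
    (map_sub (algebraMap K (v.adicCompletion K)) _ _).symm
  rw [e, valuedAdicCompletion_eq_valuation']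
  simpa using ha

/-- For `v ∤ 𝔫` the ideal `𝔫` is dense in `𝒪_v`. -/
theorem mem_idealClosure_of_int333 {𝔫 : Ideal (𝓞 K)} {v : HeightOneSpectrum (𝓞 K)}
    (hv : ¬ v.asIdeal ∣ 𝔫) {x : v.adicCompletion K} (hx : Valued.v x ≤ 1) :
    x ∈ idealClosure 𝔫 v := by
  -- an element `s ∈ 𝔫` which is a unit at `v`
  have hnle : ¬ 𝔫 ≤ v.asIdeal := fun h => hv (Ideal.dvd_iff_le.mpr h)
  obtain ⟨s, hs𝔫, hsv⟩ := Set.not_subset.mp hnle
  have hsval : Valued.v (((algebraMap (𝓞 K) K s : K) : v.adicCompletion K)) = 1 := by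
    rw [valuedAdicCompletion_eq_valuation', valuation_eq_one_iff_notMem]
    exact hsv
  set S : v.adicCompletion K := ((algebraMap (𝓞 K) K s : K) : v.adicCompletion K) with hS
  have hS0 : S ≠ 0 := by
    intro h
    rw [h, map_zero] at hsval
    exact zero_ne_one hsval
  unfold idealClosure
  rw [mem_closure_iff_nhds]
  intro t ht
  have hxs : Valued.v (x / S) ≤ 1 := by
    rw [map_div₀, hsval, div_one]; exact hx
  -- continuity of `z ↦ z * S` at `x / S`
  have hcont : Filter.Tendsto (fun z : v.adicCompletion K => z * S) (nhds (x / S)) (nhds x) := by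
    have h1 : Continuous (fun z : v.adicCompletion K => z * S) := continuous_mul_const S
    have h2 := h1.tendsto (x / S)
    rwa [div_mul_cancel₀ x hS0] at h2
  obtain ⟨a, ha⟩ := exists_int_mem_nhds333 v hxs (hcont ht)
  refine ⟨((algebraMap (𝓞 K) K a : K) : v.adicCompletion K) * S, ha, a * s,
    𝔫.mul_mem_left a hs𝔫, ?_⟩
  show algebraMap K (v.adicCompletion K) (algebraMap (𝓞 K) K (a * s))
    = algebraMap K (v.adicCompletion K) (algebraMap (𝓞 K) K a)
      * algebraMap K (v.adicCompletion K) (algebraMap (𝓞 K) K s)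
  rw [map_mul, map_mul]

theorem zero_mem_idealClosure333 (𝔫 : Ideal (𝓞 K)) (v : HeightOneSpectrum (𝓞 K)) :
    (0 : v.adicCompletion K) ∈ idealClosure 𝔫 v := by
  apply subset_closure
  refine ⟨0, 𝔫.zero_mem, ?_⟩
  simp

theorem val_one_entry_le333 (v : HeightOneSpectrum (𝓞 K)) (i j : Fin 2) :
    Valued.v ((1 : Matrix (Fin 2) (Fin 2) (v.adicCompletion K)) i j) ≤ 1 := by
  by_cases hij : i = j
  · subst hij; simp
  · simp [hij]

/-- An element supported at `v ∤ 𝔫`, integral with integral inverse at `v`, lies in `U(𝔫)`. -/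
theorem inLevelGroup_of_local_int333 {𝔫 : Ideal (𝓞 K)} {v : HeightOneSpectrum (𝓞 K)}
    (hv : ¬ v.asIdeal ∣ 𝔫) {k : G K} (hloc : IsLocalAtFin v k) (hint : IsIntegralAt v k)
    (hint' : IsIntegralAt v k⁻¹) : InLevelGroup 𝔫 k := by
  refine ⟨hloc.1, ?_⟩
  intro v' i j
  by_cases h : v' = v
  · subst h
    constructor
    · apply mem_idealClosure_of_int333 hv
      rw [Matrix.sub_apply]
      exact le_trans (Valuation.map_sub _ _ _) (max_le (hint i j) (val_one_entry_le333 v' i j))
    · apply mem_idealClosure_of_int333 hv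
      rw [Matrix.sub_apply]
      exact le_trans (Valuation.map_sub _ _ _) (max_le (hint' i j) (val_one_entry_le333 v' i j))
  · have e1 : finComp v' k = 1 := hloc.2 v' h
    have e2 : finComp v' k⁻¹ = 1 := trivAtFin_inv333 (hloc.2 v' h)
    rw [e1, e2, sub_self]
    exact ⟨zero_mem_idealClosure333 𝔫 v', zero_mem_idealClosure333 𝔫 v'⟩

/-! ## 4. The leaf -/

/-- (i) right invariance under `U(𝔫)` gives right invariance under `GL₂(𝒪_v)` for `v ∤ 𝔫`. -/
theorem isKv_of_isLevel333 (𝔫 : Ideal (𝓞 K)) (v : HeightOneSpectrum (𝓞 K)) (f : G K → ℂ)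
    (hv : ¬ v.asIdeal ∣ 𝔫) (hf : IsLevel 𝔫 f) : IsKv v f :=
  fun k hloc hint hint' g => hf k (inLevelGroup_of_local_int333 hv hloc hint hint') g

/-- (ii) right translation by an element trivial at `v` preserves `IsKv v`. -/
theorem isKv_rt333 (v : HeightOneSpectrum (𝓞 K)) (q : G K) (f : G K → ℂ)
    (hq : TrivAtFin v q) (hf : IsKv v f) : IsKv v (rt q f) := by
  intro k hloc hint hint' g
  show f (g * k * q) = f (g * q)
  rw [mul_assoc, comm_of_local_triv333 hloc hq, ← mul_assoc]
  exact hf k hloc hint hint' (g * q)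

/-- (iii) right translation by an element trivial at `v` preserves `IsHeckeEigenAt` at `v`. -/
theorem isHeckeEigenAt_rt333 (v : HeightOneSpectrum (𝓞 K)) (q : G K) (f : G K → ℂ) (a b : ℂ)
    (hq : TrivAtFin v q) (hf : IsHeckeEigenAt f v a b) : IsHeckeEigenAt (rt q f) v a b := by
  refine ⟨fun H hH g => ?_, fun z hz g => ?_⟩
  · have e : ∀ h ∈ H, rt q f (g * h) = f (g * q * h) := by
      intro h hh
      show f (g * h * q) = f (g * q * h)
      rw [mul_assoc, comm_of_local_triv333 (hH.2.1 h hh).1 hq, ← mul_assoc]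
    rw [Finset.sum_congr rfl e]
    exact hf.1 H hH (g * q)
  · show f (g * z * q) = b * f (g * q)
    rw [mul_assoc, comm_of_local_triv333 hz.1 hq, ← mul_assoc]
    exact hf.2 z hz (g * q)

/-- **T2.10.16 = B.5 BOOK-KEEPING**, for every number field. -/
theorem bookC333 (K : Type) [Field K] [NumberField K] : BookC K :=
  ⟨isKv_of_isLevel333, isKv_rt333, isHeckeEigenAt_rt333⟩

/-- The registry leaf, verbatim. -/
theorem leaf16_333 (K : Type) [Field K] [NumberField K] : Leaf16 K := bookC333 K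

end Fermat.Agent.LT.T2.H333

end

end
-- ===== PACK-END LT/T2/H333/Book.lean

-- ===== PACK-BEGIN LT/T2/H255/WhitEquiv.lean
section


/-!
# Row LT, tower T2, station T2.10 (SMO): the Whittaker coefficient, basic calculus (helper255)

OFF-MAIN.  Shared asset for the leaves `UnramTorusC`, `CutoffC`, `WhitDetC`, `ExtendC` of
`LT/T2/H941/SmoSpec.lean` (helper941, byte-identical copy).  Everything is stated with the
vocabulary of that file (`wh`, `IsWhitData`, `T3.unip`, `T1.ratG`).

* `wh_unip_mul255` : `W_Φ(n(s) x) = ψ(s) W_Φ(x)` for `Φ` left invariant under `GL₂(K)`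
  (translation of the fundamental domain; two fundamental domains give the same integral);
* `integrableOn_whIntegrand255` : the integrand of `wh` is integrable on `D` for `Φ` bounded and
  continuous;
* `wh_sum255`, `wh_const_mul255`, `wh_rt255` : linearity and right translations.
-/

set_option autoImplicit false

open IsDedekindDomain NumberField MeasureTheory AutomorphicForm
open Fermat.Agent.LT.H556.A0
open scoped MatrixGroups Pointwise

noncomputable section

namespace Fermat.Agent.LT.T2.H255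

open Fermat.Agent.LT Fermat.Agent.LT.T2.H941

variable {K : Type} [Field K] [NumberField K]

/-! ## 1. Countability -/

/-- A number field is countable. -/
theorem countable_numberField255 (K : Type) [Field K] [NumberField K] : Countable K := by
  have e := (Module.finBasis ℚ K).equivFun
  exact e.toEquiv.injective.countable

/-- The principal adeles are countable. -/
theorem countable_princ255 (K : Type) [Field K] [NumberField K] : Countable (T1.princ K) := by
  haveI := countable_numberField255 K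
  have h : Function.Surjective
      (fun ξ : K => (⟨algebraMap K (Adl K) ξ, ⟨ξ, rfl⟩⟩ : T1.princ K)) := by
    rintro ⟨x, ξ, rfl⟩
    exact ⟨ξ, rfl⟩
  exact h.countable

/-! ## 2. Unipotent elements -/

theorem coe_unip255 (s : Adl K) :
    ((T3.unip K s : G K) : Matrix (Fin 2) (Fin 2) (Adl K)) = !![1, s; 0, 1] := rfl

theorem unip_add255 (s t : Adl K) : T3.unip K (s + t) = T3.unip K s * T3.unip K t := by
  apply Units.ext
  rw [Units.val_mul, coe_unip255, coe_unip255, coe_unip255]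
  ext i j
  fin_cases i <;> fin_cases j <;> simp [Matrix.mul_apply, Fin.sum_univ_two, add_comm]

theorem unip_zero255 : T3.unip K (0 : Adl K) = 1 := by
  apply Units.ext
  rw [coe_unip255]
  ext i j
  fin_cases i <;> fin_cases j <;> simp

/-- The rational unipotent element `[[1, ξ], [0, 1]]`. -/
def unipRat255 (ξ : K) : GL (Fin 2) K :=
  ⟨!![1, ξ; 0, 1], !![1, -ξ; 0, 1],
    by ext i j; fin_cases i <;> fin_cases j <;> simp [Matrix.mul_apply, Fin.sum_univ_two],
    by ext i j; fin_cases i <;> fin_cases j <;> simp [Matrix.mul_apply, Fin.sum_univ_two]⟩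

theorem ratG_unipRat255 (ξ : K) :
    T1.ratG K (unipRat255 ξ) = T3.unip K (algebraMap K (Adl K) ξ) := by
  apply Units.ext
  rw [coe_unip255]
  ext i j
  fin_cases i <;> fin_cases j <;>
    simp [T1.ratG, unipRat255, Matrix.GeneralLinearGroup.map]

/-- `t ↦ n(t)` is continuous. -/
theorem continuous_unip255 : Continuous (fun t : Adl K => T3.unip K t) := by
  rw [Units.continuous_iff]
  constructor
  · show Continuous fun t : Adl K => (!![1, t; 0, 1] : Matrix (Fin 2) (Fin 2) (Adl K))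
    refine continuous_matrix fun i j => ?_
    fin_cases i <;> fin_cases j <;> simp <;> fun_prop
  · show Continuous fun t : Adl K => (!![1, -t; 0, 1] : Matrix (Fin 2) (Fin 2) (Adl K))
    refine continuous_matrix fun i j => ?_
    fin_cases i <;> fin_cases j <;> simp <;> fun_prop

/-! ## 3. The integrand -/

/-- The integrand of the Whittaker coefficient. -/
def whInt255 (ψ : AddChar (Adl K) Circle) (Φ : G K → ℂ) (x : G K) (t : Adl K) : ℂ :=
  Φ (T3.unip K t * x) * (starRingEnd ℂ) ((ψ t : Circle) : ℂ)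

theorem wh_eq255 (ψ : AddChar (Adl K) Circle) {m : MeasurableSpace (Adl K)}
    (ν : Measure (Adl K)) (D : Set (Adl K)) (Φ : G K → ℂ) (x : G K) :
    wh ψ ν D Φ x = ∫ t in D, whInt255 ψ Φ x t ∂ν := rfl

theorem norm_psi255 (ψ : AddChar (Adl K) Circle) (t : Adl K) : ‖((ψ t : Circle) : ℂ)‖ = 1 :=
  Circle.norm_coe _

theorem conj_psi_mul255 (ψ : AddChar (Adl K) Circle) (t : Adl K) :
    (starRingEnd ℂ) ((ψ t : Circle) : ℂ) * ((ψ t : Circle) : ℂ) = 1 := by
  rw [mul_comm, Complex.mul_conj, Complex.normSq_eq_norm_sq, norm_psi255]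
  simp

theorem psi_add255 (ψ : AddChar (Adl K) Circle) (s t : Adl K) :
    ((ψ (s + t) : Circle) : ℂ) = ((ψ s : Circle) : ℂ) * ((ψ t : Circle) : ℂ) := by
  rw [AddChar.map_add_eq_mul, Circle.coe_mul]

/-- The integrand is periodic under `K` when `Φ` is left invariant under `GL₂(K)` and `ψ` is
trivial on `K`. -/
theorem whInt_add_rat255 {ψ : AddChar (Adl K) Circle} (hψ : T3.IsStdChar K ψ) {Φ : G K → ℂ}
    (hl : ∀ (γ : GL (Fin 2) K) (g : G K), Φ (T1.ratG K γ * g) = Φ g) (x : G K) (ξ : K)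
    (t : Adl K) : whInt255 ψ Φ x (algebraMap K (Adl K) ξ + t) = whInt255 ψ Φ x t := by
  unfold whInt255
  rw [unip_add255, mul_assoc, ← ratG_unipRat255, hl, psi_add255]
  have h1 : ψ (algebraMap K (Adl K) ξ) = 1 := hψ.triv ξ
  rw [h1]
  simp

/-- Shifting the variable of the integrand. -/
theorem whInt_shift255 (ψ : AddChar (Adl K) Circle) (Φ : G K → ℂ) (x : G K) (s t : Adl K) :
    whInt255 ψ Φ (T3.unip K s * x) t = ((ψ s : Circle) : ℂ) * whInt255 ψ Φ x (s + t) := by
  unfold whInt255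
  rw [← mul_assoc, ← unip_add255, add_comm t s, psi_add255, map_mul]
  have := conj_psi_mul255 ψ s
  calc Φ (T3.unip K (s + t) * x) * (starRingEnd ℂ) ((ψ t : Circle) : ℂ)
      = Φ (T3.unip K (s + t) * x) * (((starRingEnd ℂ) ((ψ s : Circle) : ℂ) * ((ψ s : Circle) : ℂ))
          * (starRingEnd ℂ) ((ψ t : Circle) : ℂ)) := by rw [this, one_mul]
    _ = _ := by ring

/-! ## 4. Equivariance of the Whittaker coefficient -/

/-- The Borel σ-algebra of the adeles (the one of `SmoSpec`). -/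
local instance borelAdl255 : MeasurableSpace (Adl K) := borel (Adl K)

local instance borelSpaceAdl255 : BorelSpace (Adl K) := ⟨rfl⟩

/-- **Equivariance**: `W_Φ(n(s) x) = ψ(s) W_Φ(x)`. -/
theorem wh_unip_mul255 {ψ : AddChar (Adl K) Circle} {ν : Measure (Adl K)} {D : Set (Adl K)}
    (h : IsWhitData ψ ν D) {Φ : G K → ℂ}
    (hl : ∀ (γ : GL (Fin 2) K) (g : G K), Φ (T1.ratG K γ * g) = Φ g) (s : Adl K) (x : G K) :
    wh ψ ν D Φ (T3.unip K s * x) = ((ψ s : Circle) : ℂ) * wh ψ ν D Φ x := by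
  obtain ⟨hψ, -, -, hν, -, hD, -⟩ := h
  haveI := hν
  haveI := countable_princ255 K
  rw [wh_eq255, wh_eq255]
  simp_rw [whInt_shift255]
  rw [MeasureTheory.integral_const_mul]
  congr 1
  have hD' : IsAddFundamentalDomain (T1.princ K) (s +ᵥ D) ν := hD.vadd_of_comm s
  have himg : ∫ y in (fun t => s + t) '' D, whInt255 ψ Φ x y ∂ν
      = ∫ t in D, whInt255 ψ Φ x (s + t) ∂ν :=
    (measurePreserving_add_left ν s).setIntegral_image_emb (measurableEmbedding_addLeft s) _ D
  rw [← himg]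
  have hset : (fun t => s + t) '' D = s +ᵥ D := by
    ext y
    rw [Set.mem_vadd_set]
    simp only [Set.mem_image, vadd_eq_add]
  rw [hset]
  refine hD'.setIntegral_eq hD ?_
  rintro ⟨a, ξ, rfl⟩ t
  exact whInt_add_rat255 hψ hl x ξ t

/-! ## 5. Integrability and linearity -/

theorem continuous_whInt255 {ψ : AddChar (Adl K) Circle} (hψ : T3.IsStdChar K ψ) {Φ : G K → ℂ}
    (hc : Continuous Φ) (x : G K) : Continuous (whInt255 ψ Φ x) := by
  unfold whInt255
  refine Continuous.mul ?_ ?_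
  · exact hc.comp ((continuous_unip255).mul continuous_const)
  · exact Complex.continuous_conj.comp (continuous_subtype_val.comp hψ.cont)

theorem norm_whInt_le255 (ψ : AddChar (Adl K) Circle) {Φ : G K → ℂ} {C : ℝ}
    (hb : ∀ g : G K, ‖Φ g‖ ≤ C) (x : G K) (t : Adl K) : ‖whInt255 ψ Φ x t‖ ≤ C := by
  unfold whInt255
  rw [norm_mul, RCLike.norm_conj, norm_psi255, mul_one]
  exact hb _

/-- The integrand of `wh` is integrable on `D`. -/
theorem integrableOn_whInt255 {ψ : AddChar (Adl K) Circle} {ν : Measure (Adl K)}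
    {D : Set (Adl K)} (h : IsWhitData ψ ν D) {Φ : G K → ℂ} (hc : Continuous Φ)
    (hb : ∃ C : ℝ, ∀ g : G K, ‖Φ g‖ ≤ C) (x : G K) :
    IntegrableOn (whInt255 ψ Φ x) D ν := by
  obtain ⟨hψ, -, -, -, -, -, hfin⟩ := h
  obtain ⟨C, hC⟩ := hb
  have hm : AEStronglyMeasurable (whInt255 ψ Φ x) (ν.restrict D) :=
    (continuous_whInt255 hψ hc x).aestronglyMeasurable
  haveI : IsFiniteMeasure (ν.restrict D) := ⟨by rw [Measure.restrict_apply_univ]; exact hfin⟩
  exact Integrable.of_bound hm C (Filter.Eventually.of_forall fun t => norm_whInt_le255 ψ hC x t)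

/-- Right translations. -/
theorem wh_rt255 (ψ : AddChar (Adl K) Circle) (ν : Measure (Adl K)) (D : Set (Adl K))
    (Φ : G K → ℂ) (g x : G K) : wh ψ ν D (rt g Φ) x = wh ψ ν D Φ (x * g) := by
  unfold wh rt
  simp only [mul_assoc]

/-- Scalars. -/
theorem wh_const_mul255 (ψ : AddChar (Adl K) Circle) (ν : Measure (Adl K)) (D : Set (Adl K))
    (c : ℂ) (Φ : G K → ℂ) (x : G K) :
    wh ψ ν D (fun y => c * Φ y) x = c * wh ψ ν D Φ x := by
  unfold wh
  simp only [mul_assoc]
  exact MeasureTheory.integral_const_mul _ _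

/-- Finite sums of right translates. -/
theorem wh_sum_rt255 {ψ : AddChar (Adl K) Circle} {ν : Measure (Adl K)} {D : Set (Adl K)}
    (h : IsWhitData ψ ν D) {Φ : G K → ℂ} (hc : Continuous Φ)
    (hb : ∃ C : ℝ, ∀ g : G K, ‖Φ g‖ ≤ C) {ι : Type} (s : Finset ι) (c : ι → ℂ) (g : ι → G K)
    (x : G K) :
    wh ψ ν D (fun y => ∑ i ∈ s, c i * Φ (y * g i)) x = ∑ i ∈ s, c i * wh ψ ν D Φ (x * g i) := by
  have hint : ∀ i ∈ s, Integrable (fun t => c i * whInt255 ψ Φ (x * g i) t) (ν.restrict D) :=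
    fun i _ => (integrableOn_whInt255 h hc hb (x * g i)).const_mul (c i)
  calc wh ψ ν D (fun y => ∑ i ∈ s, c i * Φ (y * g i)) x
      = ∫ t in D, ∑ i ∈ s, c i * whInt255 ψ Φ (x * g i) t ∂ν := by
        unfold wh whInt255
        congr 1
        funext t
        rw [Finset.sum_mul]
        refine Finset.sum_congr rfl fun i _ => ?_
        rw [mul_assoc, mul_assoc]
    _ = ∑ i ∈ s, ∫ t in D, c i * whInt255 ψ Φ (x * g i) t ∂ν :=
        MeasureTheory.integral_finsetSum s hint
    _ = ∑ i ∈ s, c i * wh ψ ν D Φ (x * g i) := by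
        refine Finset.sum_congr rfl fun i _ => ?_
        rw [MeasureTheory.integral_const_mul, wh_eq255]

/-- The Whittaker coefficient of `lin`. -/
theorem wh_lin255 {ψ : AddChar (Adl K) Circle} {ν : Measure (Adl K)} {D : Set (Adl K)}
    (h : IsWhitData ψ ν D) {Φ : G K → ℂ} (hc : Continuous Φ)
    (hb : ∃ C : ℝ, ∀ g : G K, ‖Φ g‖ ≤ C) {n : ℕ} (c : Fin n → ℂ) (g : Fin n → G K) (x : G K) :
    wh ψ ν D (lin c g Φ) x = ∑ i, c i * wh ψ ν D Φ (x * g i) :=
  wh_sum_rt255 h hc hb Finset.univ c g x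

end Fermat.Agent.LT.T2.H255

end

end
-- ===== PACK-END LT/T2/H255/WhitEquiv.lean

-- ===== PACK-BEGIN LT/A2/H743/SingleAdele.lean
section



/-!
# Row LT, tower A2: adeles and ideles supported at one finite place

OFF-MAIN (helper743).  Pre-leaf for `A2.02 TorusCharC`.  Mathlib + the vocabulary of
`LT/A2/Spec.lean`, `LT/H556/A0.lean`.

* `adele_ext743` : two adeles with the same components are equal; `evInf743`, `evFin743`.
* `adAt1_743 v c`, `adAt0_743 v c` : the adele with component `c` at `v` and `1` (resp. `0`) at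
  every other place, finite or infinite.
* `ideleAt743 v c hc` : the idele with component `c ≠ 0` at `v` and `1` elsewhere;
  `isIdeleAt_ideleAt743`, `ideleAt_mul743`, `eq_ideleAt743` (an idele supported at `v` is
  `ideleAt743 v` of its component), `isUnitIdeleAt_ideleAt743`, `isUnifIdeleAt_ideleAt743`,
  `exists_unit_of_unif743` (two uniformiser ideles at `v` differ by a unit idele at `v`).
-/

set_option autoImplicit false
set_option linter.unusedSectionVars false

open IsDedekindDomain NumberField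
open scoped MatrixGroups

noncomputable section

namespace Fermat.Agent.LT.A2.H743

open Fermat.Agent.LT.H556 Fermat.Agent.LT.A2

variable {K : Type} [Field K] [NumberField K]

/-! ## Components -/

theorem adele_ext743 {a b : A0.Adl K} (h1 : ∀ u : InfinitePlace K, a.1 u = b.1 u)
    (h2 : ∀ v : HeightOneSpectrum (𝓞 K), a.2 v = b.2 v) : a = b :=
  Prod.ext (funext h1) (FiniteAdeleRing.ext (R := 𝓞 K) (K := K) h2)

/-- The component at the infinite place `u`, as a ring homomorphism. -/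
def evInf743 (u : InfinitePlace K) : A0.Adl K →+* u.Completion :=
  (Pi.evalRingHom (fun u : InfinitePlace K => u.Completion) u).comp
    (RingHom.fst (InfiniteAdeleRing K) (FiniteAdeleRing (𝓞 K) K))

/-- The component at the finite place `v`, as a ring homomorphism. -/
def evFin743 (v : HeightOneSpectrum (𝓞 K)) : A0.Adl K →+* v.adicCompletion K :=
  (RestrictedProduct.evalRingHom (fun v : HeightOneSpectrum (𝓞 K) => v.adicCompletion K) v).comp
    (RingHom.snd (InfiniteAdeleRing K) (FiniteAdeleRing (𝓞 K) K))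

@[simp] theorem evInf_apply743 (u : InfinitePlace K) (a : A0.Adl K) : evInf743 u a = a.1 u := rfl

@[simp] theorem evFin_apply743 (v : HeightOneSpectrum (𝓞 K)) (a : A0.Adl K) :
    evFin743 v a = a.2 v := rfl

theorem fst_mul743 (a b : A0.Adl K) (u : InfinitePlace K) : (a * b).1 u = a.1 u * b.1 u := rfl
theorem snd_mul743 (a b : A0.Adl K) (v : HeightOneSpectrum (𝓞 K)) :
    (a * b).2 v = a.2 v * b.2 v := rfl
theorem fst_add743 (a b : A0.Adl K) (u : InfinitePlace K) : (a + b).1 u = a.1 u + b.1 u := rfl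
theorem snd_add743 (a b : A0.Adl K) (v : HeightOneSpectrum (𝓞 K)) :
    (a + b).2 v = a.2 v + b.2 v := rfl
theorem fst_one743 (u : InfinitePlace K) : (1 : A0.Adl K).1 u = 1 := rfl
theorem snd_one743 (v : HeightOneSpectrum (𝓞 K)) : (1 : A0.Adl K).2 v = 1 := rfl
theorem fst_zero743 (u : InfinitePlace K) : (0 : A0.Adl K).1 u = 0 := rfl
theorem snd_zero743 (v : HeightOneSpectrum (𝓞 K)) : (0 : A0.Adl K).2 v = 0 := rfl

/-! ## Adeles supported at one finite place -/

open Classical in
/-- The finite adele with component `c` at `v` and `1` at every other finite place. -/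
def finAt1_743 (v : HeightOneSpectrum (𝓞 K)) (c : v.adicCompletion K) :
    FiniteAdeleRing (𝓞 K) K :=
  ⟨Pi.mulSingle v c, Filter.eventually_cofinite.2 ((Set.finite_singleton v).subset fun v' hv' => by
    by_contra h
    apply hv'
    rw [Pi.mulSingle_eq_of_ne h]
    exact one_mem _)⟩

open Classical in
/-- The finite adele with component `c` at `v` and `0` at every other finite place. -/
def finAt0_743 (v : HeightOneSpectrum (𝓞 K)) (c : v.adicCompletion K) :
    FiniteAdeleRing (𝓞 K) K :=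
  ⟨Pi.single v c, Filter.eventually_cofinite.2 ((Set.finite_singleton v).subset fun v' hv' => by
    by_contra h
    apply hv'
    rw [Pi.single_eq_of_ne h]
    exact zero_mem _)⟩

/-- The adele with component `c` at `v` and `1` at every other place. -/
def adAt1_743 (v : HeightOneSpectrum (𝓞 K)) (c : v.adicCompletion K) : A0.Adl K :=
  ((1 : InfiniteAdeleRing K), finAt1_743 v c)

/-- The adele with component `c` at `v` and `0` at every other place. -/
def adAt0_743 (v : HeightOneSpectrum (𝓞 K)) (c : v.adicCompletion K) : A0.Adl K :=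
  ((0 : InfiniteAdeleRing K), finAt0_743 v c)

open Classical in
@[simp] theorem adAt1_same743 (v : HeightOneSpectrum (𝓞 K)) (c : v.adicCompletion K) :
    (adAt1_743 v c).2 v = c := Pi.mulSingle_eq_same v c

open Classical in
theorem adAt1_ne743 (v : HeightOneSpectrum (𝓞 K)) (c : v.adicCompletion K)
    {v' : HeightOneSpectrum (𝓞 K)} (h : v' ≠ v) : (adAt1_743 v c).2 v' = 1 :=
  Pi.mulSingle_eq_of_ne h c

@[simp] theorem adAt1_inf743 (v : HeightOneSpectrum (𝓞 K)) (c : v.adicCompletion K)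
    (u : InfinitePlace K) : (adAt1_743 v c).1 u = 1 := rfl

open Classical in
@[simp] theorem adAt0_same743 (v : HeightOneSpectrum (𝓞 K)) (c : v.adicCompletion K) :
    (adAt0_743 v c).2 v = c := Pi.single_eq_same v c

open Classical in
theorem adAt0_ne743 (v : HeightOneSpectrum (𝓞 K)) (c : v.adicCompletion K)
    {v' : HeightOneSpectrum (𝓞 K)} (h : v' ≠ v) : (adAt0_743 v c).2 v' = 0 :=
  Pi.single_eq_of_ne h c

@[simp] theorem adAt0_inf743 (v : HeightOneSpectrum (𝓞 K)) (c : v.adicCompletion K)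
    (u : InfinitePlace K) : (adAt0_743 v c).1 u = 0 := rfl

theorem adAt1_mul743 (v : HeightOneSpectrum (𝓞 K)) (c c' : v.adicCompletion K) :
    adAt1_743 v c * adAt1_743 v c' = adAt1_743 v (c * c') := by
  refine adele_ext743 (fun u => ?_) (fun v' => ?_)
  · rw [fst_mul743, adAt1_inf743, adAt1_inf743, adAt1_inf743, one_mul]
  · by_cases h : v' = v
    · subst h
      rw [snd_mul743, adAt1_same743, adAt1_same743, adAt1_same743]
    · rw [snd_mul743, adAt1_ne743 v c h, adAt1_ne743 v c' h, adAt1_ne743 v _ h, one_mul]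

theorem adAt1_one743 (v : HeightOneSpectrum (𝓞 K)) :
    adAt1_743 v (1 : v.adicCompletion K) = 1 := by
  refine adele_ext743 (fun u => rfl) (fun v' => ?_)
  by_cases h : v' = v
  · subst h
    rw [adAt1_same743, snd_one743]
  · rw [adAt1_ne743 v _ h, snd_one743]

/-! ## Ideles supported at one finite place -/

/-- The idele with component `c ≠ 0` at `v` and `1` at every other place. -/
def ideleAt743 (v : HeightOneSpectrum (𝓞 K)) (c : v.adicCompletion K) (hc : c ≠ 0) :
    (A0.Adl K)ˣ where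
  val := adAt1_743 v c
  inv := adAt1_743 v c⁻¹
  val_inv := by rw [adAt1_mul743, mul_inv_cancel₀ hc, adAt1_one743]
  inv_val := by rw [adAt1_mul743, inv_mul_cancel₀ hc, adAt1_one743]

@[simp] theorem ideleAt_val743 (v : HeightOneSpectrum (𝓞 K)) (c : v.adicCompletion K)
    (hc : c ≠ 0) : ((ideleAt743 v c hc : (A0.Adl K)ˣ) : A0.Adl K) = adAt1_743 v c := rfl

theorem isIdeleAt_ideleAt743 (v : HeightOneSpectrum (𝓞 K)) (c : v.adicCompletion K)
    (hc : c ≠ 0) : IsIdeleAt v (ideleAt743 v c hc) :=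
  ⟨fun _ => rfl, fun _ h => adAt1_ne743 v c h⟩

theorem isUnitIdeleAt_ideleAt743 (v : HeightOneSpectrum (𝓞 K)) (c : v.adicCompletion K)
    (hc : c ≠ 0) (h : Valued.v c = 1) : IsUnitIdeleAt v (ideleAt743 v c hc) :=
  ⟨isIdeleAt_ideleAt743 v c hc, by rw [ideleAt_val743, adAt1_same743]; exact h⟩

theorem isUnifIdeleAt_ideleAt743 (v : HeightOneSpectrum (𝓞 K)) (c : v.adicCompletion K)
    (hc : c ≠ 0) (h : Valued.v c = WithZero.exp (-1 : ℤ)) :
    IsUnifIdeleAt v (ideleAt743 v c hc) :=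
  ⟨isIdeleAt_ideleAt743 v c hc, by rw [ideleAt_val743, adAt1_same743]; exact h⟩

theorem ideleAt_mul743 (v : HeightOneSpectrum (𝓞 K)) (c c' : v.adicCompletion K)
    (hc : c ≠ 0) (hc' : c' ≠ 0) :
    ideleAt743 v c hc * ideleAt743 v c' hc' = ideleAt743 v (c * c') (mul_ne_zero hc hc') :=
  Units.ext (adAt1_mul743 v c c')

/-- The component at `v` of an idele is not zero. -/
theorem idele_snd_ne_zero743 (z : (A0.Adl K)ˣ) (v : HeightOneSpectrum (𝓞 K)) :
    (z : A0.Adl K).2 v ≠ 0 := by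
  intro h
  have h1 : ((z : A0.Adl K) * ((z⁻¹ : (A0.Adl K)ˣ) : A0.Adl K)).2 v = 1 := by
    rw [Units.mul_inv, snd_one743]
  rw [snd_mul743, h, zero_mul] at h1
  exact zero_ne_one h1

/-- An idele supported at `v` is `ideleAt743 v` of its component at `v`. -/
theorem eq_ideleAt743 {v : HeightOneSpectrum (𝓞 K)} {z : (A0.Adl K)ˣ} (hz : IsIdeleAt v z) :
    z = ideleAt743 v ((z : A0.Adl K).2 v) (idele_snd_ne_zero743 z v) := by
  refine Units.ext (adele_ext743 (fun u => ?_) (fun v' => ?_))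
  · rw [ideleAt_val743, adAt1_inf743]
    exact hz.1 u
  · by_cases h : v' = v
    · subst h
      rw [ideleAt_val743, adAt1_same743]
    · rw [ideleAt_val743, adAt1_ne743 v _ h]
      exact hz.2 v' h

/-- Two uniformiser ideles at `v` differ by a unit idele at `v`. -/
theorem exists_unit_of_unif743 {v : HeightOneSpectrum (𝓞 K)} {z z' : (A0.Adl K)ˣ}
    (hz : IsUnifIdeleAt v z) (hz' : IsUnifIdeleAt v z') :
    ∃ y : (A0.Adl K)ˣ, IsUnitIdeleAt v y ∧ z' = z * y := by
  have hc := idele_snd_ne_zero743 z v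
  have hc' := idele_snd_ne_zero743 z' v
  refine ⟨ideleAt743 v (((z : A0.Adl K).2 v)⁻¹ * (z' : A0.Adl K).2 v)
    (mul_ne_zero (inv_ne_zero hc) hc'), isUnitIdeleAt_ideleAt743 v _ _ ?_, ?_⟩
  · rw [map_mul, map_inv₀, hz.2, hz'.2]
    exact inv_mul_cancel₀ WithZero.exp_ne_zero
  · refine Units.ext (adele_ext743 (fun u => ?_) (fun v' => ?_))
    · rw [Units.val_mul, fst_mul743, ideleAt_val743, adAt1_inf743, mul_one, hz'.1.1 u, hz.1.1 u]
    · by_cases h : v' = v
      · subst h
        rw [Units.val_mul, snd_mul743, ideleAt_val743, adAt1_same743, ← mul_assoc,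
          mul_inv_cancel₀ hc, one_mul]
      · rw [Units.val_mul, snd_mul743, ideleAt_val743, adAt1_ne743 v _ h, mul_one,
          hz'.1.2 v' h, hz.1.2 v' h]

end Fermat.Agent.LT.A2.H743

end
end
-- ===== PACK-END LT/A2/H743/SingleAdele.lean

-- ===== PACK-BEGIN LT/T3/H127/Inf.lean
section



/-!
# Row LT, tower T3, leaf T3.03 (helper127): the archimedean part of a character

OFF-MAIN.

* `exists_radius` : a continuous character of the adeles maps a small box at the infinite places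
  into a given neighbourhood of `1`.
* `dyadic_descent` : if `ψ (t) = 1` and the dyadic fractions of `t` stay in a box which is mapped
  to the right half circle, then `ψ (t / 2 ^ k) = 1` for all `k`.
-/

set_option autoImplicit false

open NumberField IsDedekindDomain IsDedekindDomain.HeightOneSpectrum

noncomputable section

namespace Fermat.Agent.LT.T3.H127

theorem eq_one_of_sq_of_mem_rightHalf (z : Circle) (h2 : z * z = 1) (hz : z ∈ rightHalf) :
    z = 1 := by
  apply circle_eq_one_of_pow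
  intro k
  cases k with
  | zero =>
    have hz' : 0 < ((z : ℂ)).re := hz
    simpa using hz'
  | succ k =>
    have : z ^ (2 ^ (k + 1)) = 1 := by
      rw [pow_succ, pow_mul', pow_two, h2, one_pow]
    rw [this]
    simp

variable (K : Type) [Field K] [NumberField K]

/-- The open box of radius `r` at the infinite places. -/
def infBox (r : ℝ) : Set (InfiniteAdeleRing K) := {t | ∀ w : InfinitePlace K, ‖t w‖ < r}

/-- the boxes form a basis of neighbourhoods of `0` in `K_∞`. -/
theorem exists_infBox_subset (U : Set (InfiniteAdeleRing K))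
    (hU : U ∈ nhds (0 : InfiniteAdeleRing K)) : ∃ r : ℝ, 0 < r ∧ infBox K r ⊆ U := by
  classical
  obtain ⟨I, hI, t, ht, hsub⟩ : ∃ I : Set (InfinitePlace K), I.Finite ∧
      ∃ t : ∀ w : InfinitePlace K, Set w.Completion, (∀ w, t w ∈ nhds (0 : w.Completion)) ∧
        ∀ x : InfiniteAdeleRing K, (∀ w ∈ I, x w ∈ t w) → x ∈ U := by
    have hU2 : (show Set (Π w : InfinitePlace K, w.Completion) from U)
        ∈ nhds (0 : Π w : InfinitePlace K, w.Completion) := hU
    rw [nhds_pi, Filter.mem_pi] at hU2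
    obtain ⟨I, hI, t, ht, hsub⟩ := hU2
    exact ⟨I, hI, t, ht, fun x hx => hsub hx⟩
  have hε : ∀ w : InfinitePlace K, ∃ ε : ℝ, 0 < ε ∧ Metric.ball (0 : w.Completion) ε ⊆ t w := by
    intro w
    exact Metric.mem_nhds_iff.mp (ht w)
  choose ε hεpos hεt using hε
  have hne : (Finset.univ : Finset (InfinitePlace K)).Nonempty := Finset.univ_nonempty
  refine ⟨Finset.univ.inf' hne ε, (Finset.lt_inf'_iff hne).mpr (fun w _ => hεpos w), ?_⟩
  · intro x hx
    apply hsub
    intro w _
    apply hεt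
    rw [Metric.mem_ball, dist_eq_norm, sub_zero]
    exact lt_of_lt_of_le (hx w) (Finset.inf'_le _ (Finset.mem_univ w))

/-- A continuous character maps a small box at infinity into a given neighbourhood of `1`. -/
theorem exists_radius (ψ : AddChar (AdeleRing (𝓞 K) K) Circle) (hc : Continuous ψ)
    (V : Set Circle) (hV : V ∈ nhds (1 : Circle)) :
    ∃ r : ℝ, 0 < r ∧ ∀ t ∈ infBox K r, ψ (infA K t) ∈ V := by
  have hcont : Continuous fun t : InfiniteAdeleRing K => ψ (infA K t) :=
    hc.comp (continuous_infA K)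
  have hU : (fun t : InfiniteAdeleRing K => ψ (infA K t)) ⁻¹' V
      ∈ nhds (0 : InfiniteAdeleRing K) := by
    apply hcont.continuousAt.preimage_mem_nhds
    rw [infA_zero, AddChar.map_zero_eq_one]
    exact hV
  obtain ⟨r, hr, h⟩ := exists_infBox_subset K _ hU
  exact ⟨r, hr, fun t ht => h ht⟩

end Fermat.Agent.LT.T3.H127

end
end
-- ===== PACK-END LT/T3/H127/Inf.lean

-- ===== PACK-BEGIN LT/T3/H736/ASTop.lean
section


/-!
# Row LT, tower T3, station T3.18a `AbelSatakeC` -- THE PROVED TOP (sub-architect helper736)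

OFF-MAIN.  `abelSatake_of : SatakeLocC K → AbelCplxC → PureRegC K → NIntC K → ROpC K →
AbelSatakeC K`, without any hole.

Proof.  `κ, Δ` come from `NIntC`, `κ₀ = κ₁ κ_ℂ^{r₂}` (`κ₁` from `ROpC` for the Haar measure `μ_ℂ`
of `AbelCplxC`).  For a symmetric pure tensor `Φ = A ⊗ ⊗_w β_w` the test function is the pure
tensor `pureFn f₀ F` (`f₀` from `SatakeLocC`, `F_w` from `AbelCplxC`); then the span, by linearity
(integrability is carried along the induction).
-/

set_option autoImplicit false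

open IsDedekindDomain NumberField MeasureTheory
open Fermat.Agent.LT.H556.A0

noncomputable section

namespace Fermat.Agent.LT.T3.AS

variable (K : Type) [Field K] [NumberField K]

/-- The induction predicate: `f` is a test function for `Φ` (with the integrability needed for
linearity). -/
structure IsASPair {mG : MeasurableSpace (G K)} {mA : MeasurableSpace (Adl K)}
    (μ : Measure (G K)) (ν : Measure (Adl K)) (𝔫 : Ideal (𝓞 K)) (v₀ : HeightOneSpectrum (𝓞 K))
    (n : ℕ) (α : Kˣ) (κ : G K → G K → ℂ) (Δ : G K → G K → Coord K) (κ₀ : ℂ)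
    (Φ : Coord K → ℂ) (f : G K → ℂ) : Prop where
  fin_m : ∃ M : Finset (ℤ × ℤ), ∀ m : ℤ × ℤ, m ∉ M →
    ∀ x : InfinitePlace K → ℝ × ℝ, Φ (m, x) = 0
  int_x : ∀ m : ℤ × ℤ, Integrable (fun x : InfinitePlace K → ℝ × ℝ => Φ (m, x))
  cont : Continuous f
  supp : HasCompactSupport f
  bi_inv : IsBiInv K 𝔫 f
  supp_at : IsSuppAt K 𝔫 v₀ f
  n_integrable : ∀ (g g' : G K) (j : ℤ),
    Integrable (fun x => f (g⁻¹ * unip K x * torK K α ^ j * g')) ν
  n_int : ∀ (g g' : G K) (j : ℤ),
    ∫ x, f (g⁻¹ * unip K x * torK K α ^ j * g') ∂ν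
      = κ g g' * Φ (Δ g g' + j • coordTor K n α)
  op : ∀ φ : G K → ℂ, IsSph0Level K 𝔫 φ → ∀ a b z₁ z₂ : ℂ, IsHeckeEigenAt φ v₀ a b →
    z₁ + z₂ = a → z₁ * z₂ = b → b ≠ 0 →
    ∀ g : G K, Rop K μ f φ g = κ₀ * ftCoord K Φ z₁ z₂ * φ g

variable {K}

/-- The summand of `ftCoord` has finite support. -/
theorem ftCoord_summand_finite {Φ : Coord K → ℂ}
    (h : ∃ M : Finset (ℤ × ℤ), ∀ m : ℤ × ℤ, m ∉ M →
      ∀ x : InfinitePlace K → ℝ × ℝ, Φ (m, x) = 0) (z₁ z₂ : ℂ) :
    (Function.support fun m : ℤ × ℤ =>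
      (∫ x : InfinitePlace K → ℝ × ℝ, Φ (m, x)) * z₁ ^ m.1 * z₂ ^ m.2).Finite := by
  obtain ⟨M, hM⟩ := h
  refine M.finite_toSet.subset fun m hm => ?_
  by_contra hmM
  apply hm
  have : (fun x : InfinitePlace K → ℝ × ℝ => Φ (m, x)) = fun _ => 0 := funext (hM m hmM)
  simp [this]

theorem ftCoord_zero (z₁ z₂ : ℂ) : ftCoord K (0 : Coord K → ℂ) z₁ z₂ = 0 := by
  simp [ftCoord]

theorem ftCoord_add {Φ₁ Φ₂ : Coord K → ℂ}
    (h₁ : ∃ M : Finset (ℤ × ℤ), ∀ m : ℤ × ℤ, m ∉ M →
      ∀ x : InfinitePlace K → ℝ × ℝ, Φ₁ (m, x) = 0)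
    (h₂ : ∃ M : Finset (ℤ × ℤ), ∀ m : ℤ × ℤ, m ∉ M →
      ∀ x : InfinitePlace K → ℝ × ℝ, Φ₂ (m, x) = 0)
    (i₁ : ∀ m : ℤ × ℤ, Integrable (fun x : InfinitePlace K → ℝ × ℝ => Φ₁ (m, x)))
    (i₂ : ∀ m : ℤ × ℤ, Integrable (fun x : InfinitePlace K → ℝ × ℝ => Φ₂ (m, x)))
    (z₁ z₂ : ℂ) :
    ftCoord K (Φ₁ + Φ₂) z₁ z₂ = ftCoord K Φ₁ z₁ z₂ + ftCoord K Φ₂ z₁ z₂ := by
  unfold ftCoord
  rw [← finsum_add_distrib (ftCoord_summand_finite h₁ z₁ z₂) (ftCoord_summand_finite h₂ z₁ z₂)]
  refine finsum_congr fun m => ?_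
  simp only [Pi.add_apply]
  rw [integral_add (i₁ m) (i₂ m)]
  ring

theorem ftCoord_smul (c : ℂ) (Φ : Coord K → ℂ) (z₁ z₂ : ℂ) :
    ftCoord K (c • Φ) z₁ z₂ = c * ftCoord K Φ z₁ z₂ := by
  unfold ftCoord
  rw [mul_finsum]
  refine finsum_congr fun m => ?_
  simp only [Pi.smul_apply, smul_eq_mul]
  rw [integral_const_mul]
  ring

/-- `ftCoord` of a pure tensor. -/
theorem ftCoord_pure (A : ℤ × ℤ → ℂ) (β : InfinitePlace K → ℝ × ℝ → ℂ) (z₁ z₂ : ℂ) :
    ftCoord K (pureCoord K A β) z₁ z₂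
      = laurent A z₁ z₂ * ∏ w : InfinitePlace K, ∫ x : ℝ × ℝ, β w x := by
  unfold ftCoord laurent
  rw [finsum_mul]
  refine finsum_congr fun m => ?_
  have : (fun x : InfinitePlace K → ℝ × ℝ => pureCoord K A β (m, x))
      = fun x => A m * ∏ w : InfinitePlace K, β w (x w) := rfl
  rw [this, integral_const_mul, integral_fintype_prod_volume_eq_prod]
  ring


/-- The integrand of `Rop` is integrable. -/
theorem rop_integrable {mG : MeasurableSpace (G K)} [OpensMeasurableSpace (G K)]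
    (μ : Measure (G K)) [IsFiniteMeasureOnCompacts μ] {f φ : G K → ℂ} (hφ : Continuous φ)
    (hf : Continuous f) (hs : HasCompactSupport f) (g : G K) :
    Integrable (fun h => φ (g * h) * f h) μ := by
  refine Continuous.integrable_of_hasCompactSupport ?_ ?_
  · exact (hφ.comp (continuous_const.mul continuous_id)).mul hf
  · exact HasCompactSupport.mul_left (f := fun h => φ (g * h)) hs

section Linear

variable {mG : MeasurableSpace (G K)} {mA : MeasurableSpace (Adl K)}
  {μ : Measure (G K)} {ν : Measure (Adl K)} {𝔫 : Ideal (𝓞 K)} {v₀ : HeightOneSpectrum (𝓞 K)}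
  {n : ℕ} {α : Kˣ} {κ : G K → G K → ℂ} {Δ : G K → G K → Coord K} {κ₀ : ℂ}

theorem IsASPair.zero : IsASPair K μ ν 𝔫 v₀ n α κ Δ κ₀ 0 0 where
  fin_m := ⟨∅, fun _ _ _ => rfl⟩
  int_x := fun m => by
    have : (fun x : InfinitePlace K → ℝ × ℝ => (0 : Coord K → ℂ) (m, x)) = fun _ => 0 := rfl
    rw [this]
    exact integrable_zero _ _ _
  cont := continuous_const
  supp := HasCompactSupport.zero
  bi_inv := ⟨fun _ _ _ => ⟨rfl, rfl⟩, fun _ _ _ _ => ⟨rfl, rfl⟩⟩
  supp_at := fun _ hh => absurd rfl hh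
  n_integrable := fun g g' j => by
    have : (fun x => (0 : G K → ℂ) (g⁻¹ * unip K x * torK K α ^ j * g')) = fun _ => 0 := rfl
    rw [this]
    exact integrable_zero _ _ _
  n_int := fun g g' j => by simp
  op := fun φ _ a b z₁ z₂ _ _ _ _ g => by simp [Rop, ftCoord_zero]

theorem IsASPair.add [OpensMeasurableSpace (G K)] [IsFiniteMeasureOnCompacts μ]
    {Φ₁ Φ₂ : Coord K → ℂ} {f₁ f₂ : G K → ℂ}
    (h₁ : IsASPair K μ ν 𝔫 v₀ n α κ Δ κ₀ Φ₁ f₁) (h₂ : IsASPair K μ ν 𝔫 v₀ n α κ Δ κ₀ Φ₂ f₂) :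
    IsASPair K μ ν 𝔫 v₀ n α κ Δ κ₀ (Φ₁ + Φ₂) (f₁ + f₂) where
  fin_m := by
    classical
    obtain ⟨M₁, hM₁⟩ := h₁.fin_m
    obtain ⟨M₂, hM₂⟩ := h₂.fin_m
    refine ⟨M₁ ∪ M₂, fun m hm x => ?_⟩
    rw [Finset.mem_union, not_or] at hm
    simp [hM₁ m hm.1 x, hM₂ m hm.2 x]
  int_x := fun m => (h₁.int_x m).add (h₂.int_x m)
  cont := h₁.cont.add h₂.cont
  supp := h₁.supp.add h₂.supp
  bi_inv := by
    refine ⟨fun u hu h => ⟨?_, ?_⟩, fun w k hk h => ⟨?_, ?_⟩⟩
    · simp only [Pi.add_apply, (h₁.bi_inv.1 u hu h).1, (h₂.bi_inv.1 u hu h).1]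
    · simp only [Pi.add_apply, (h₁.bi_inv.1 u hu h).2, (h₂.bi_inv.1 u hu h).2]
    · simp only [Pi.add_apply, (h₁.bi_inv.2 w k hk h).1, (h₂.bi_inv.2 w k hk h).1]
    · simp only [Pi.add_apply, (h₁.bi_inv.2 w k hk h).2, (h₂.bi_inv.2 w k hk h).2]
  supp_at := fun h hh v hv i j => by
    by_cases h1 : f₁ h = 0
    · have h2 : f₂ h ≠ 0 := fun h2 => hh (by simp [h1, h2])
      exact h₂.supp_at h h2 v hv i j
    · exact h₁.supp_at h h1 v hv i j
  n_integrable := fun g g' j => (h₁.n_integrable g g' j).add (h₂.n_integrable g g' j)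
  n_int := fun g g' j => by
    simp only [Pi.add_apply]
    rw [integral_add (h₁.n_integrable g g' j) (h₂.n_integrable g g' j), h₁.n_int, h₂.n_int]
    ring
  op := fun φ hφ a b z₁ z₂ he hz₁ hz₂ hb g => by
    have e₁ := h₁.op φ hφ a b z₁ z₂ he hz₁ hz₂ hb g
    have e₂ := h₂.op φ hφ a b z₁ z₂ he hz₁ hz₂ hb g
    unfold Rop at e₁ e₂ ⊢
    have : (fun h => φ (g * h) * (f₁ + f₂) h)
        = fun h => φ (g * h) * f₁ h + φ (g * h) * f₂ h := by
      funext h
      simp only [Pi.add_apply]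
      ring
    rw [this, integral_add (rop_integrable μ hφ.cont h₁.cont h₁.supp g)
      (rop_integrable μ hφ.cont h₂.cont h₂.supp g), e₁, e₂,
      ftCoord_add h₁.fin_m h₂.fin_m h₁.int_x h₂.int_x]
    ring

theorem IsASPair.smul {Φ : Coord K → ℂ} {f : G K → ℂ}
    (h : IsASPair K μ ν 𝔫 v₀ n α κ Δ κ₀ Φ f) (c : ℂ) :
    IsASPair K μ ν 𝔫 v₀ n α κ Δ κ₀ (c • Φ) (c • f) where
  fin_m := by
    obtain ⟨M, hM⟩ := h.fin_m
    exact ⟨M, fun m hm x => by simp [hM m hm x]⟩
  int_x := fun m => (h.int_x m).const_mul c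
  cont := h.cont.const_smul c
  supp := h.supp.mono fun x hx => by
    rw [Function.mem_support] at hx ⊢
    intro h0
    exact hx (by simp [h0])
  bi_inv := by
    refine ⟨fun u hu y => ⟨?_, ?_⟩, fun w k hk y => ⟨?_, ?_⟩⟩
    · simp only [Pi.smul_apply, (h.bi_inv.1 u hu y).1]
    · simp only [Pi.smul_apply, (h.bi_inv.1 u hu y).2]
    · simp only [Pi.smul_apply, (h.bi_inv.2 w k hk y).1]
    · simp only [Pi.smul_apply, (h.bi_inv.2 w k hk y).2]
  supp_at := fun y hy v hv i j => by
    have h1 : f y ≠ 0 := fun h1 => hy (by simp [h1])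
    exact h.supp_at y h1 v hv i j
  n_integrable := fun g g' j => (h.n_integrable g g' j).const_mul c
  n_int := fun g g' j => by
    simp only [Pi.smul_apply, smul_eq_mul]
    rw [integral_const_mul, h.n_int]
    ring
  op := fun φ hφ a b z₁ z₂ he hz₁ hz₂ hb g => by
    have e := h.op φ hφ a b z₁ z₂ he hz₁ hz₂ hb g
    unfold Rop at e ⊢
    have : (fun y => φ (g * y) * (c • f) y) = fun y => c * (φ (g * y) * f y) := by
      funext y
      simp only [Pi.smul_apply, smul_eq_mul]
      ring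
    rw [this, integral_const_mul, e, ftCoord_smul]
    ring

end Linear

variable (K)

/-- **T3.18a, the top.**  The five leaves of `ASSpec.lean` give the Abel--Satake pair. -/
theorem abelSatake_of (h1 : SatakeLocC K) (h2 : AbelCplxC) (h3 : PureRegC K) (h4 : NIntC K)
    (h5 : ROpC K) : AbelSatakeC K := by
  let _ : MeasurableSpace (Adl K) := borel (Adl K)
  let _ : MeasurableSpace (G K) := borel (G K)
  let _ : MeasurableSpace (GL (Fin 2) ℂ) := borel (GL (Fin 2) ℂ)
  have _ : BorelSpace (G K) := ⟨rfl⟩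
  intro hcx μ hμ ν hν 𝔫 h𝔫 v₀ hv₀ a₀ n hn hspan hcong α hα
  obtain ⟨μc, hμc, κc, hκc, hAbel⟩ := h2
  obtain ⟨κ, Δ, hN⟩ := h4 hcx ν hν 𝔫 h𝔫 v₀ hv₀ a₀ n hn hspan hcong α hα
  obtain ⟨κ₁, hκ₁, hR⟩ := h5 hcx μ hμ μc hμc 𝔫 h𝔫 v₀ hv₀
  refine ⟨κ, Δ, κ₁ * κc ^ Fintype.card (InfinitePlace K),
    mul_ne_zero hκ₁ (pow_ne_zero _ hκc), ?_⟩
  intro Φ hΦ
  suffices h : ∃ f : G K → ℂ,
      IsASPair K μ ν 𝔫 v₀ n α κ Δ (κ₁ * κc ^ Fintype.card (InfinitePlace K)) Φ f by
    obtain ⟨f, hf⟩ := h
    exact ⟨f, hf.cont, hf.supp, hf.bi_inv, hf.supp_at, hf.n_int, hf.op⟩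
  induction hΦ using Submodule.span_induction with
  | zero => exact ⟨0, IsASPair.zero⟩
  | add Φ₁ Φ₂ _ _ ih₁ ih₂ =>
    obtain ⟨f₁, hf₁⟩ := ih₁
    obtain ⟨f₂, hf₂⟩ := ih₂
    exact ⟨f₁ + f₂, hf₁.add hf₂⟩
  | smul c Φ _ ih =>
    obtain ⟨f, hf⟩ := ih
    exact ⟨c • f, hf.smul c⟩
  | mem Φ hΦ =>
    obtain ⟨A, β, hAfin, hAsym, hβ, hΦ⟩ := hΦ
    have hΦ' : Φ = pureCoord K A β := funext fun p => hΦ p.1 p.2
    subst hΦ'
    obtain ⟨f₀, hpair⟩ := h1 v₀ A ⟨hAfin, hAsym⟩
    choose F hF1 hF2 hF3 using fun w : InfinitePlace K => hAbel (β w) (hβ w)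
    obtain ⟨r1, r2, r3, r4⟩ := h3 𝔫 h𝔫 v₀ hv₀ f₀ F hpair.bi_inv hpair.fin_supp hF1
    have hNN := hN A β f₀ F hpair.bi_inv hpair.fin_supp hpair.n_int hF1 hF2
    refine ⟨pureFn K 𝔫 v₀ f₀ F, ?_⟩
    refine
      { fin_m := ⟨hAfin.toFinset, fun m hm x => ?_⟩
        int_x := fun m => ?_
        cont := r1
        supp := r2
        bi_inv := r3
        supp_at := r4
        n_integrable := fun g g' j => (hNN g g' j).1
        n_int := fun g g' j => (hNN g g' j).2
        op := fun φ hφ a b z₁ z₂ he hz₁ hz₂ hb g => ?_ }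
    · rw [Set.Finite.mem_toFinset, Function.mem_support, not_not] at hm
      simp [pureCoord, hm]
    · have : (fun x : InfinitePlace K → ℝ × ℝ => pureCoord K A β (m, x))
          = fun x => A m * ∏ w : InfinitePlace K, β w (x w) := rfl
      rw [this]
      refine Integrable.const_mul ?_ _
      exact Integrable.fintype_prod (f := β) (μ := fun _ => volume) fun w =>
        (hβ w).1.continuous.integrable_of_hasCompactSupport (hβ w).2.1
    · rw [hR A (fun w => κc * ∫ x : ℝ × ℝ, β w x) f₀ F hpair.bi_inv hpair.fin_supp hpair.eigen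
        hF1 hF3 φ hφ a b z₁ z₂ he hz₁ hz₂ hb g, ftCoord_pure, Finset.prod_mul_distrib,
        Finset.prod_const, Finset.card_univ]
      ring

end Fermat.Agent.LT.T3.AS

end

end
-- ===== PACK-END LT/T3/H736/ASTop.lean

-- ===== PACK-BEGIN LT/T5/H29/V4/SiegelTw151.lean
section










/-
PATCHED COPY (helper29) of helper151@572b7a9e6 Fermat/Agent/LT/T5/H151/SiegelTw.lean (sha256 7eec32a2)
for T5/Spec v4 + TwSpec v2: ONE token changed (`ht.supp` -> `ht`, the hypothesis is now
`HasCompactSupport φ`), namespace renamed to `Fermat.Agent.LT.T5.H29.V4.H151`.  Proof: helper151.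
-/

/-!
# Row LT, tower T5, sub-leaf T5.07d `SiegelTwC` (helper151) — OFF-MAIN

`siegelTwC151 s 𝔫 : T5.H29.SiegelTwC s 𝔫` (Prop of helper29 `T5/H29/TwSpec.lean`, sha256 08555f0f,
VERBATIM): the twisted Siegel estimate.  If `y = b k` has height `t > c₁` and
`φ(y⁻¹ δ σ(y) rᵐ) ≠ 0`, `|m| ≤ M`, then `δ` is upper triangular.

Proof.  `h = k g σ(k)⁻¹ = b⁻¹ δ σ(b) rᵐ` lies in the compact set `K⁰ · supp φ · σ(K⁰)⁻¹`; its lower
left entry is `b₂₂⁻¹ δ₂₁ σ(b₁₁) ρᵐ` (`r = ρ · 1`).  If `δ₂₁ ≠ 0` this is an idele of module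
`‖σ b₁₁‖ / ‖b₂₂‖ · 2^{m/2} > t / 2 · 2^{-M/2}` (product formula; `‖σ u‖ > ‖u‖ / 2` because `σ`
preserves the slab and the ray), and `BoxC` bounds it.

Tools: helper793 `AdeleProj`, `Height`; helper919 `K0Compact` (`isCompact_stdCompact919`),
`SiegelTools` (`rayAdl919`, `scalarG919`, `up919`), byte-identical copies.
-/

set_option autoImplicit false

open IsDedekindDomain NumberField MeasureTheory
open scoped MatrixGroups Pointwise

noncomputable section

namespace Fermat.Agent.LT.T5.H29.V4.H151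

open Fermat.Agent.LT.H556.A0 Fermat.Agent.LT.T5 Fermat.Agent.LT
open Fermat.Agent.LT.T1.H793 Fermat.Agent.LT.T1.H919

attribute [local instance] Fermat.Agent.LT.T5.instMeasurableSpaceG

variable {K : Type} [Field K] [NumberField K]

/-! ## The generator of the ray is a scalar matrix -/

/-- The generator of the discrete ray is the scalar matrix of an idele `ρ` with `‖ρ‖² = 2`. -/
lemma rayGen_eq_scalar151 {r : G K} (hr : IsRayGen r) :
    ∃ ρ : (Adl K)ˣ, r = scalarG919 ρ ∧ 0 < T1.adNorm K (ρ : Adl K) ∧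
      T1.adNorm K (ρ : Adl K) ^ 2 = 2 := by
  obtain ⟨hfin, t, ht0, ht2, hinf⟩ := hr
  refine ⟨Units.map (rayAdl919 K : ℝ →* Adl K) (Units.mk0 t ht0.ne'), ?_, ?_, ?_⟩
  · apply Units.ext
    rw [scalarG919_val]
    ext i j
    refine adl_ext793 (fun w => ?_) (fun v => ?_)
    · apply (InfinitePlace.Completion.extensionEmbedding w).injective
      have h1 : infComp w r i j = (Matrix.diagonal (fun _ => (t : ℂ)) : Matrix (Fin 2) (Fin 2) ℂ) i j := by
        rw [hinf w]
      have h2 : infComp w r i j = InfinitePlace.Completion.extensionEmbedding w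
          (projInf793 w ((r : Matrix (Fin 2) (Fin 2) (Adl K)) i j)) := rfl
      rw [← h2, h1]
      by_cases hij : i = j
      · subst hij
        rw [Matrix.diagonal_apply_eq, Matrix.diagonal_apply_eq]
        show (t : ℂ) = InfinitePlace.Completion.extensionEmbedding w (realTo919 w t)
        rw [extensionEmbedding_realTo919]
      · rw [Matrix.diagonal_apply_ne _ hij, Matrix.diagonal_apply_ne _ hij]
        show (0 : ℂ) = InfinitePlace.Completion.extensionEmbedding w ((0 : Adl K).1 w)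
        exact (map_zero _).symm
    · have h1 : finComp v r i j = (1 : Matrix (Fin 2) (Fin 2) (v.adicCompletion K)) i j := by
        rw [show finComp v r = 1 from hfin v]
      have h2 : finComp v r i j = projFin793 v ((r : Matrix (Fin 2) (Fin 2) (Adl K)) i j) := rfl
      rw [← h2, h1]
      by_cases hij : i = j
      · subst hij
        rw [Matrix.one_apply_eq, Matrix.diagonal_apply_eq]
        rfl
      · rw [Matrix.one_apply_ne hij, Matrix.diagonal_apply_ne _ hij]
        rfl
  · show 0 < T1.adNorm K (rayAdl919 K t)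
    rw [adNorm_rayAdl919, abs_of_pos ht0]
    exact pow_pos ht0 _
  · show T1.adNorm K (rayAdl919 K t) ^ 2 = 2
    rw [adNorm_rayAdl919, abs_of_pos ht0, ← pow_mul, mul_comm]
    exact ht2

/-! ## The module as a homomorphism on the ideles -/

/-- The module `‖·‖_𝔸` as a monoid homomorphism on the ideles. -/
def adNormHom151 (hN : T1.AdNormC K) : (Adl K)ˣ →* ℝ where
  toFun x := T1.adNorm K (x : Adl K)
  map_one' := by
    have h1 := hN.2.1 1 1
    have h0 := hN.1 (1 : (Adl K)ˣ)
    rw [mul_one] at h1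
    have h2 : T1.adNorm K ((1 : (Adl K)ˣ) : Adl K) * (T1.adNorm K ((1 : (Adl K)ˣ) : Adl K) - 1) = 0 := by
      linear_combination -h1
    rcases mul_eq_zero.mp h2 with h | h
    · exact absurd h h0.ne'
    · linarith
  map_mul' := hN.2.1

lemma adNormHom151_apply (hN : T1.AdNormC K) (x : (Adl K)ˣ) :
    adNormHom151 hN x = T1.adNorm K (x : Adl K) := rfl

lemma adNormHom151_pos (hN : T1.AdNormC K) (x : (Adl K)ˣ) : 0 < adNormHom151 hN x := hN.1 x

/-- The determinant of `diag(x, 1) · ρ^j` as an idele. -/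
lemma det_up_scalar151 (x ρ : (Adl K)ˣ) (j : ℤ) :
    Matrix.det ((up919 x 0 * scalarG919 (ρ ^ j) : G K) : Matrix (Fin 2) (Fin 2) (Adl K))
      = ((x * (ρ ^ j) ^ 2 : (Adl K)ˣ) : Adl K) := by
  rw [Units.val_mul, Matrix.det_mul, up919_val, scalarG919_val, Matrix.det_fin_two_of,
    Matrix.det_diagonal]
  simp only [Fin.prod_univ_two, Units.val_mul, Units.val_pow_eq_pow_val]
  ring

/-- The module of the determinant of `diag(x, 1) · ρ^j`. -/
lemma adNorm_det_up_scalar151 (hN : T1.AdNormC K) (x ρ : (Adl K)ˣ) (j : ℤ) :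
    T1.adNorm K (Matrix.det ((up919 x 0 * scalarG919 (ρ ^ j) : G K) :
        Matrix (Fin 2) (Fin 2) (Adl K)))
      = adNormHom151 hN x * (adNormHom151 hN ρ ^ 2) ^ j := by
  rw [det_up_scalar151, ← adNormHom151_apply hN, map_mul, map_pow, map_zpow]
  congr 1
  rw [← zpow_natCast, ← zpow_natCast, ← zpow_mul, ← zpow_mul, mul_comm]

/-! ## The automorphism almost preserves the module -/

/-- `‖x‖ < 2 ‖σ x‖` for every idele `x`: `σ` preserves the slab and fixes the ray. -/
lemma adNorm_sigma_gt151 (hN : T1.AdNormC K) {s : AdelicAut K} {𝔫 : Ideal (𝓞 K)}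
    {μ : Measure (G K)} {r : G K} (hr : IsRayGen r) (hP : AutPreserves s 𝔫 μ r)
    (x : (Adl K)ˣ) :
    T1.adNorm K (x : Adl K) < 2 * T1.adNorm K (s.σA (x : Adl K)) := by
  obtain ⟨ρ, hrρ, hρ0, hρ2⟩ := rayGen_eq_scalar151 hr
  have hρ2' : adNormHom151 hN ρ ^ 2 = 2 := hρ2
  have ha : 0 < adNormHom151 hN x := adNormHom151_pos hN x
  obtain ⟨n, hn1, hn2⟩ := exists_mem_Ico_zpow (x := adNormHom151 hN x) (y := (2 : ℝ)) ha
    (by norm_num)
  -- the element of the slab
  have hrj : r ^ (-n) = scalarG919 (ρ ^ (-n)) := by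
    rw [hrρ]
    exact (map_zpow (Units.map (Matrix.scalar (Fin 2) :
      Adl K →+* Matrix (Fin 2) (Fin 2) (Adl K)).toMonoidHom) ρ (-n)).symm
  have h2n : (0 : ℝ) < 2 ^ n := zpow_pos (by norm_num) n
  have hg : up919 x 0 * r ^ (-n) ∈ slab K := by
    rw [hrj]
    show 1 ≤ T1.adNorm K _ ∧ T1.adNorm K _ < 2
    rw [adNorm_det_up_scalar151 hN, hρ2', zpow_neg]
    constructor
    · rw [le_mul_inv_iff₀ h2n, one_mul]
      exact hn1
    · rw [mul_inv_lt_iff₀ h2n]
      rw [zpow_add_one₀ (by norm_num : (2 : ℝ) ≠ 0), mul_comm] at hn2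
      exact hn2
  have hg' := (hP.slab _).mp hg
  have hσ : s.onG (up919 x 0 * r ^ (-n))
      = up919 (Units.map (s.σA : Adl K →+* Adl K).toMonoidHom x) 0 * scalarG919 (ρ ^ (-n)) := by
    rw [map_mul, map_zpow, hP.ray, hrj]
    congr 1
    have := map_up919 (s.σA : Adl K →+* Adl K) x 0
    rw [map_zero] at this
    exact this
  rw [hσ] at hg'
  have hg'' : 1 ≤ T1.adNorm K (Matrix.det ((up919 (Units.map (s.σA : Adl K →+* Adl K).toMonoidHom x) 0
      * scalarG919 (ρ ^ (-n)) : G K) : Matrix (Fin 2) (Fin 2) (Adl K))) := hg'.1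
  rw [adNorm_det_up_scalar151 hN, hρ2', zpow_neg, le_mul_inv_iff₀ h2n, one_mul] at hg''
  have hσx : adNormHom151 hN (Units.map (s.σA : Adl K →+* Adl K).toMonoidHom x)
      = T1.adNorm K (s.σA (x : Adl K)) := rfl
  rw [hσx] at hg''
  rw [zpow_add_one₀ (by norm_num : (2 : ℝ) ≠ 0)] at hn2
  have : adNormHom151 hN x = T1.adNorm K (x : Adl K) := rfl
  rw [this] at hn2
  linarith

/-! ## Entries -/

lemma onG_apply151 (s : AdelicAut K) (g : G K) (i j : Fin 2) :
    ((s.onG g : G K) : Matrix (Fin 2) (Fin 2) (Adl K)) i j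
      = s.σA ((g : Matrix (Fin 2) (Fin 2) (Adl K)) i j) := rfl

lemma ratG_apply151 (δ : GL (Fin 2) K) (i j : Fin 2) :
    ((ratG δ : G K) : Matrix (Fin 2) (Fin 2) (Adl K)) i j
      = algebraMap K (Adl K) ((δ : Matrix (Fin 2) (Fin 2) K) i j) := rfl

/-- The lower left entry of `b' δ σ(b) ρᵐ` for upper triangular `b'`, `b`. -/
lemma entry_one_zero151 (s : AdelicAut K) {b' b : G K} (hb' : T1.IsUpper K b')
    (hb : T1.IsUpper K b) (δ : GL (Fin 2) K) (c : (Adl K)ˣ) :
    ((b' * ratG δ * s.onG b * scalarG919 c : G K) : Matrix (Fin 2) (Fin 2) (Adl K)) 1 0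
      = (b' : Matrix (Fin 2) (Fin 2) (Adl K)) 1 1
        * algebraMap K (Adl K) ((δ : Matrix (Fin 2) (Fin 2) K) 1 0)
        * s.σA ((b : Matrix (Fin 2) (Fin 2) (Adl K)) 0 0) * (c : Adl K) := by
  have h1 : (b' : Matrix (Fin 2) (Fin 2) (Adl K)) 1 0 = 0 := hb'
  have h2 : (b : Matrix (Fin 2) (Fin 2) (Adl K)) 1 0 = 0 := hb
  have h3 : (Matrix.diagonal (fun _ => (c : Adl K)) : Matrix (Fin 2) (Fin 2) (Adl K)) 1 0 = 0 :=
    Matrix.diagonal_apply_ne _ (by decide)
  have h4 : (Matrix.diagonal (fun _ => (c : Adl K)) : Matrix (Fin 2) (Fin 2) (Adl K)) 0 0 = c :=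
    Matrix.diagonal_apply_eq _ _
  simp only [Units.val_mul, scalarG919_val, Matrix.mul_apply,
    Fin.sum_univ_two, h1, h2, h3, h4, ratG_apply151, onG_apply151, map_zero]
  ring

/-! ## The leaf -/

/-- **T5.07d, the twisted Siegel estimate** (Prop of helper29, VERBATIM). -/
theorem siegelTwC151 (s : AdelicAut K) (𝔫 : Ideal (𝓞 K)) : H29.SiegelTwC s 𝔫 := by
  intro hT hBox μ r hr hP φ ht M
  have hN := hT.adNorm
  obtain ⟨ρ, hrρ, hρ0, hρ2⟩ := rayGen_eq_scalar151 hr
  -- the compact set of lower left entries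
  have hK0 : IsCompact {k : G K | T1.IsStdCompact K k} := isCompact_stdCompact919
  have hC : IsCompact (tsupport φ) := ht
  have hQ0 : IsCompact ({k : G K | T1.IsStdCompact K k} * tsupport φ
      * (s.onG '' {k : G K | T1.IsStdCompact K k})⁻¹) :=
    (hK0.mul hC).mul (hK0.image hP.cont).inv
  have hQ := hQ0.image (continuous_entry919 (K := K) 1 0)
  obtain ⟨B, hB⟩ := hBox _ hQ
  have ha0 : 0 < adNormHom151 hN ρ := hρ0
  have ha2 : adNormHom151 hN ρ ^ 2 = 2 := hρ2
  have ha1 : 1 ≤ adNormHom151 hN ρ := by nlinarith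
  refine ⟨2 * |B| * adNormHom151 hN ρ ^ M, ?_⟩
  intro y t hht hct δ m hm hφ
  by_contra hγ
  obtain ⟨b, k, hb, hk, hy, htb⟩ := hht
  have hb' : T1.IsUpper K b⁻¹ := isUpper_inv793 hb
  -- the element of the compact set
  have hgC : y⁻¹ * ratG δ * s.onG y * r ^ m ∈ tsupport φ := subset_tsupport _ hφ
  have hrm : r ^ m = scalarG919 (ρ ^ m) := by
    rw [hrρ]
    exact (map_zpow (Units.map (Matrix.scalar (Fin 2) :
      Adl K →+* Matrix (Fin 2) (Fin 2) (Adl K)).toMonoidHom) ρ m).symm
  have hc : scalarG919 (ρ ^ m) * (s.onG k)⁻¹ = (s.onG k)⁻¹ * scalarG919 (ρ ^ m) :=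
    scalarG919_comm _ _
  have hh : k * (y⁻¹ * ratG δ * s.onG y * r ^ m) * (s.onG k)⁻¹
      = b⁻¹ * ratG δ * s.onG b * scalarG919 (ρ ^ m) := by
    rw [hy, map_mul, hrm]
    calc k * ((b * k)⁻¹ * ratG δ * (s.onG b * s.onG k) * scalarG919 (ρ ^ m)) * (s.onG k)⁻¹
        = b⁻¹ * ratG δ * s.onG b * (s.onG k * (scalarG919 (ρ ^ m) * (s.onG k)⁻¹)) := by
          simp only [mul_inv_rev, mul_assoc, mul_inv_cancel_left]
      _ = b⁻¹ * ratG δ * s.onG b * scalarG919 (ρ ^ m) := by rw [hc, mul_inv_cancel_left]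
  have hmem : b⁻¹ * ratG δ * s.onG b * scalarG919 (ρ ^ m)
      ∈ {k : G K | T1.IsStdCompact K k} * tsupport φ
        * (s.onG '' {k : G K | T1.IsStdCompact K k})⁻¹ := by
    rw [← hh]
    exact Set.mul_mem_mul (Set.mul_mem_mul hk hgC) (Set.inv_mem_inv.2 (Set.mem_image_of_mem _ hk))
  -- the units
  obtain ⟨ub0, hub0⟩ := (isUnit_diag793 hb).1
  obtain ⟨ub1, hub1⟩ := (isUnit_diag793 hb).2
  have hinv11 : ((b⁻¹ : G K) : Matrix (Fin 2) (Fin 2) (Adl K)) 1 1 = ((ub1⁻¹ : (Adl K)ˣ) : Adl K) := by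
    apply Units.eq_inv_of_mul_eq_one_left
    rw [hub1, ← mul_apply_one_one793 hb, mul_inv_cancel]
    simp
  -- the idele in the box
  have hentry := entry_one_zero151 s hb' hb δ (ρ ^ m)
  rw [hinv11, ← hub0] at hentry
  have hu : ((ub1⁻¹ * T1.ratUnit K (Units.mk0 _ hγ)
      * Units.map (s.σA : Adl K →+* Adl K).toMonoidHom ub0 * ρ ^ m : (Adl K)ˣ) : Adl K)
      = ((b⁻¹ * ratG δ * s.onG b * scalarG919 (ρ ^ m) : G K) :
          Matrix (Fin 2) (Fin 2) (Adl K)) 1 0 := by
    rw [hentry]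
    rfl
  have hbound := hB (ub1⁻¹ * T1.ratUnit K (Units.mk0 _ hγ)
      * Units.map (s.σA : Adl K →+* Adl K).toMonoidHom ub0 * ρ ^ m)
    (by rw [hu]; exact Set.mem_image_of_mem _ hmem)
  -- the module of the idele
  have hmod : T1.adNorm K ((ub1⁻¹ * T1.ratUnit K (Units.mk0 _ hγ)
      * Units.map (s.σA : Adl K →+* Adl K).toMonoidHom ub0 * ρ ^ m : (Adl K)ˣ) : Adl K)
      = (adNormHom151 hN ub1)⁻¹ * T1.adNorm K (s.σA (ub0 : Adl K)) * adNormHom151 hN ρ ^ m := by
    rw [← adNormHom151_apply hN, map_mul, map_mul, map_mul, map_inv, map_zpow]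
    have h1 : adNormHom151 hN (T1.ratUnit K (Units.mk0 _ hγ)) = 1 := hN.2.2.1 _
    rw [h1, mul_one]
    rfl
  rw [hmod] at hbound
  -- the estimate
  have h0 : 0 < adNormHom151 hN ub0 := adNormHom151_pos hN ub0
  have h1 : 0 < adNormHom151 hN ub1 := adNormHom151_pos hN ub1
  have hσ := adNorm_sigma_gt151 hN hr hP ub0
  have hσ' : adNormHom151 hN ub0 < 2 * T1.adNorm K (s.σA (ub0 : Adl K)) := hσ
  have ht' : t = adNormHom151 hN ub0 / adNormHom151 hN ub1 := by
    rw [htb, ← hub0, ← hub1]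
    rfl
  have hmM : -(M : ℤ) ≤ m := by omega
  have hpow : adNormHom151 hN ρ ^ (-(M : ℤ)) ≤ adNormHom151 hN ρ ^ m :=
    zpow_le_zpow_right₀ ha1 hmM
  have haM : 0 < adNormHom151 hN ρ ^ M := pow_pos ha0 M
  have hpow' : (adNormHom151 hN ρ ^ M)⁻¹ ≤ adNormHom151 hN ρ ^ m := by
    rw [zpow_neg, zpow_natCast] at hpow
    exact hpow
  have hB' : B ≤ |B| := le_abs_self B
  have hB0 : 0 ≤ |B| := abs_nonneg B
  -- t / 2 < ‖σ b₁₁‖ / ‖b₂₂‖
  have hkey : t / 2 < (adNormHom151 hN ub1)⁻¹ * T1.adNorm K (s.σA (ub0 : Adl K)) := by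
    rw [ht', div_div, div_lt_iff₀ (by positivity)]
    have : (adNormHom151 hN ub1)⁻¹ * T1.adNorm K (s.σA (ub0 : Adl K))
        * (adNormHom151 hN ub1 * 2) = 2 * T1.adNorm K (s.σA (ub0 : Adl K)) := by
      field_simp
    rw [this]
    exact hσ'
  have ht0 : 0 < t := by
    rw [ht']
    positivity
  have hlow : |B| < t / 2 * (adNormHom151 hN ρ ^ M)⁻¹ := by
    rw [lt_mul_inv_iff₀ haM]
    linarith
  have h3 : t / 2 * (adNormHom151 hN ρ ^ M)⁻¹
      ≤ (adNormHom151 hN ub1)⁻¹ * T1.adNorm K (s.σA (ub0 : Adl K)) * adNormHom151 hN ρ ^ m :=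
    mul_le_mul hkey.le hpow' (inv_nonneg.2 haM.le) (le_trans (by positivity) hkey.le)
  linarith

end Fermat.Agent.LT.T5.H29.V4.H151

end

end
-- ===== PACK-END LT/T5/H29/V4/SiegelTw151.lean

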