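import Mathlib
import Fermat.Agent.Pack.LT2.E7L1
import Fermat.Agent.Pack.LT2.E5L1
import Fermat.Agent.Pack.LT2.E7L2
import Fermat.Agent.Pack.S43MC.G0E11L0
import Fermat.Agent.Pack.S44C.G0E6L2
import Fermat.Agent.Pack.LT2.E7L3
import Fermat.Agent.Pack.LT2.E3L3
import Fermat.Agent.Pack.LT2.E1L3
import Fermat.Agent.Pack.LT2.E8L1

set_option linter.all false

-- ===== PACK-BEGIN LT/T3/H315/ConstTermT.lean
section




/-!
# Row LT, tower T3, sub-leaf T3.12b `ConstTermTC` (helper315) -- OFF-MAIN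

Registry row 955.  Spec files (byte-identical copies): `LT/T3/Spec.lean` v2 (helper14, sha256
44de320b8621), `LT/T3/EKSpec.lean` (sha256 d0ed12cc9599), `LT/T3/OpSpec.lean` (sha256
2a49d64e4190), `LT/H556/A0.lean` (helper556, sha256 66d3374a79ca).  Lemma file (byte-identical
copy): `LT/T3/H237/ConstTerm.lean` (helper237@27ada8482, sha256 3a7a14109e30).

* `constTermT315 : InLocCompC K → InLatticeC K → InFundDomC K → HaarScaleC K → ConstTermTC K`
  = the leaf in the shape announced in the registry;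
* `constTermTC_of315 : InLocCompC K → InLatticeC K → ConstTermTC K` (the last two hypotheses are
  not used: the product formula in measure form is `H237.measurePreserving_mulK237`).

The constant term `Ψ(g) = ∫_D ψ(n(x) g) dμ'(x)` of a bounded continuous automorphic `ψ` over a
fundamental domain `D` of `K` in `𝔸_K` is continuous, left invariant under `N(𝔸_K)` and under EVERY
rational diagonal matrix `t = diag(a, b)`:
`n(x) t = t n(a⁻¹ b x)`, `ψ` is left invariant under `t`, and `x ↦ (a b⁻¹)⁻¹ x` preserves the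
integral of a `K`-periodic function over `D`.  The constant term of `R(f)ψ` is `R(f)Ψ` (Fubini).
-/

set_option autoImplicit false
set_option linter.unusedSectionVars false
set_option linter.style.haveILetI false

open IsDedekindDomain NumberField MeasureTheory
open Fermat.Agent.LT.H556.A0

noncomputable section

namespace Fermat.Agent.LT.T3.H315

open Fermat.Agent.LT.T3.H237

variable (K : Type) [Field K] [NumberField K]

/-- The entries of a rational diagonal matrix of `GL₂(K)` are not zero. -/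
theorem diag_entries_ne_zero315 (t : GL (Fin 2) K) (a b : K)
    (ht : (t : Matrix (Fin 2) (Fin 2) K) = !![a, 0; 0, b]) : a ≠ 0 ∧ b ≠ 0 := by
  have hdet : IsUnit (t : Matrix (Fin 2) (Fin 2) K).det :=
    (Matrix.isUnit_iff_isUnit_det _).1 ⟨t, rfl⟩
  rw [ht, Matrix.det_fin_two_of] at hdet
  have hne : a * b - 0 * 0 ≠ 0 := hdet.ne_zero
  have hab : a * b ≠ 0 := by simpa using hne
  exact ⟨left_ne_zero_of_mul hab, right_ne_zero_of_mul hab⟩

/-- The matrix of the image of a rational diagonal matrix in `GL₂(𝔸_K)`. -/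
theorem map_diag_coe315 (t : GL (Fin 2) K) (a b : K)
    (ht : (t : Matrix (Fin 2) (Fin 2) K) = !![a, 0; 0, b]) :
    ((Matrix.GeneralLinearGroup.map (algebraMap K (Adl K)) t : G K) :
      Matrix (Fin 2) (Fin 2) (Adl K))
      = !![algebraMap K (Adl K) a, 0; 0, algebraMap K (Adl K) b] := by
  have h : ((Matrix.GeneralLinearGroup.map (algebraMap K (Adl K)) t : G K) :
      Matrix (Fin 2) (Fin 2) (Adl K))
      = (t : Matrix (Fin 2) (Fin 2) K).map (algebraMap K (Adl K)) := rfl
  rw [h, ht]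
  ext i j
  fin_cases i <;> fin_cases j <;> simp [Matrix.map_apply]

/-- `n(x) · diag(a, b) = diag(a, b) · n(a⁻¹ b x)`. -/
theorem unip_mul_diag315 (t : GL (Fin 2) K) (a b : K)
    (ht : (t : Matrix (Fin 2) (Fin 2) K) = !![a, 0; 0, b]) (x : Adl K) :
    unip K x * Matrix.GeneralLinearGroup.map (algebraMap K (Adl K)) t
      = Matrix.GeneralLinearGroup.map (algebraMap K (Adl K)) t
          * unip K (algebraMap K (Adl K) (a⁻¹ * b) * x) := by
  obtain ⟨ha, _⟩ := diag_entries_ne_zero315 K t a b ht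
  have hkey : algebraMap K (Adl K) a * (algebraMap K (Adl K) (a⁻¹ * b) * x)
      = x * algebraMap K (Adl K) b := by
    rw [← mul_assoc, ← map_mul, ← mul_assoc, mul_inv_cancel₀ ha, one_mul, mul_comm]
  apply Units.ext
  rw [Units.val_mul, Units.val_mul, map_diag_coe315 K t a b ht, unip_coe, unip_coe]
  ext i j
  fin_cases i <;> fin_cases j <;> simp [Matrix.mul_apply, Fin.sum_univ_two]
  rw [← map_mul]
  exact hkey.symm

section Main

variable [MeasurableSpace (Adl K)] [BorelSpace (Adl K)] [MeasurableSpace (G K)] [BorelSpace (G K)]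
  [LocallyCompactSpace (Adl K)] [SecondCountableTopology (Adl K)]
  [LocallyCompactSpace (G K)] [SecondCountableTopology (G K)]

/-- The constant term leaf for the full rational torus, with the topological facts as
instances. -/
theorem constTermT_aux315
    (hcoc : ∃ C : Set (Adl K), IsCompact C ∧ ∀ x : Adl K, ∃ ξ : K, x - algebraMap K (Adl K) ξ ∈ C)
    (μ : Measure (G K)) [μ.IsHaarMeasure]
    (f : G K → ℂ) (hf : Continuous f) (hfc : HasCompactSupport f)
    (ψ : G K → ℂ) (hψ : IsAutFn K ψ)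
    (μ' : Measure (Adl K)) [μ'.IsAddHaarMeasure]
    (D : Set (Adl K)) (hD : IsAddFundamentalDomain (princ237 K) D μ') :
    ∃ Ψ : G K → ℂ, IsBorelInv K Ψ ∧
      ∀ g : G K, ∫ x in D, Rop K μ f ψ (unip K x * g) ∂μ' = Rop K μ f Ψ g := by
  obtain ⟨C, hC⟩ := hψ.bdd
  have hDfin : μ' D < ⊤ := measure_fundDom_lt_top237 K μ' hcoc D hD
  haveI : IsFiniteMeasure (μ'.restrict D) := ⟨by simpa using hDfin⟩
  -- periodicity of `x ↦ ψ (n(x) g)`
  have hper : ∀ g : G K, IsPer237 K (fun x => ψ (unip K x * g)) := by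
    intro g ξ x
    show ψ (unip K (x + algebraMap K (Adl K) ξ) * g) = ψ (unip K x * g)
    rw [add_comm, unip_add237, unip_emb237, mul_assoc]
    exact hψ.left_inv _ _
  refine ⟨fun g => ∫ x in D, ψ (unip K x * g) ∂μ', ⟨?_, ?_, ?_⟩, ?_⟩
  · -- continuity
    refine continuous_of_dominated (bound := fun _ => C) ?_ ?_ ?_ ?_
    · intro g
      exact (hψ.cont.comp ((continuous_unip237 K).mul continuous_const)).aestronglyMeasurable
    · intro g
      exact Filter.Eventually.of_forall fun x => hC _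
    · exact integrable_const _
    · exact Filter.Eventually.of_forall fun x =>
        hψ.cont.comp (continuous_const.mul continuous_id)
  · -- invariance under `N(𝔸_K)`
    intro y g
    show ∫ x in D, ψ (unip K x * (unip K y * g)) ∂μ' = ∫ x in D, ψ (unip K x * g) ∂μ'
    have h := setIntegral_add_right237 K μ' D hD _ (hper g) y
    rw [← h]
    refine integral_congr_ae (Filter.Eventually.of_forall fun x => ?_)
    show ψ (unip K x * (unip K y * g)) = ψ (unip K (x + y) * g)
    rw [unip_add237, mul_assoc]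
  · -- invariance under the rational diagonal matrices
    intro t a b ht g
    obtain ⟨ha, hb⟩ := diag_entries_ne_zero315 K t a b ht
    have hab : a * b⁻¹ ≠ 0 := mul_ne_zero ha (inv_ne_zero hb)
    have hinv : (((Units.mk0 (a * b⁻¹) hab)⁻¹ : Kˣ) : K) = a⁻¹ * b := by
      rw [Units.val_inv_eq_inv_val, Units.val_mk0, mul_inv, inv_inv]
    show ∫ x in D, ψ (unip K x * (Matrix.GeneralLinearGroup.map (algebraMap K (Adl K)) t * g)) ∂μ'
      = ∫ x in D, ψ (unip K x * g) ∂μ'
    have h := setIntegral_mulK237 K μ' hcoc D hD _ (hper g) (Units.mk0 (a * b⁻¹) hab)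
    rw [← h]
    refine integral_congr_ae (Filter.Eventually.of_forall fun x => ?_)
    show ψ (unip K x * (Matrix.GeneralLinearGroup.map (algebraMap K (Adl K)) t * g))
      = ψ (unip K (algebraMap K (Adl K) (((Units.mk0 (a * b⁻¹) hab)⁻¹ : Kˣ) : K) * x) * g)
    rw [hinv, ← mul_assoc, unip_mul_diag315 K t a b ht, mul_assoc]
    exact hψ.left_inv _ _
  · -- Fubini
    intro g
    unfold Rop
    have hfi : Integrable f μ := hf.integrable_of_hasCompactSupport hfc
    have hb : Integrable (fun z : Adl K × G K => (fun _ : Adl K => C) z.1 * (fun h => ‖f h‖) z.2)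
        ((μ'.restrict D).prod μ) :=
      Integrable.mul_prod (integrable_const C) hfi.norm
    have hcont : Continuous (Function.uncurry fun (x : Adl K) (h : G K) =>
        ψ (unip K x * g * h) * f h) := by
      refine Continuous.mul (hψ.cont.comp ?_) (hf.comp continuous_snd)
      exact (((continuous_unip237 K).comp continuous_fst).mul continuous_const).mul continuous_snd
    have hint : Integrable (Function.uncurry fun (x : Adl K) (h : G K) =>
        ψ (unip K x * g * h) * f h) ((μ'.restrict D).prod μ) := by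
      refine hb.mono' hcont.aestronglyMeasurable (Filter.Eventually.of_forall ?_)
      rintro ⟨x, h⟩
      show ‖ψ (unip K x * g * h) * f h‖ ≤ C * ‖f h‖
      rw [norm_mul]
      exact mul_le_mul_of_nonneg_right (hC _) (norm_nonneg _)
    rw [integral_integral_swap hint]
    refine integral_congr_ae (Filter.Eventually.of_forall fun h => ?_)
    show ∫ x in D, ψ (unip K x * g * h) * f h ∂μ'
      = (∫ x in D, ψ (unip K x * (g * h)) ∂μ') * f h
    rw [integral_mul_const]
    simp only [mul_assoc]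

end Main

/-- **T3.12b = `ConstTermTC`**, from local compactness and cocompactness only. -/
theorem constTermTC_of315 (hLC : InLocCompC K) (hLat : InLatticeC K) : ConstTermTC K := by
  obtain ⟨⟨hA1, _, hA3⟩, hG1, _, hG3⟩ := hLC
  obtain ⟨_, _, hcoc⟩ := hLat
  intro μ hμ f hf hfc ψ hψ μ' hμ' D hD
  letI : MeasurableSpace (Adl K) := borel (Adl K)
  letI : MeasurableSpace (G K) := borel (G K)
  haveI : BorelSpace (Adl K) := ⟨rfl⟩
  haveI : BorelSpace (G K) := ⟨rfl⟩
  exact constTermT_aux315 K hcoc μ f hf hfc ψ hψ μ' D hD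

/-- **T3.12b**, in the leaf shape of the registry (row 955):
`InLocCompC K → InLatticeC K → InFundDomC K → HaarScaleC K → ConstTermTC K`. -/
theorem constTermT315 :
    InLocCompC K → InLatticeC K → InFundDomC K → HaarScaleC K → ConstTermTC K :=
  fun hLC hLat _ _ => constTermTC_of315 K hLC hLat

/-- By-product: the operator form of COROLLARY 1 (`OpSpec.ekCuspOp_of`) from the inputs of T1. -/
theorem ekCuspOpC_of315 (hLC : InLocCompC K) (hLat : InLatticeC K) : EKCuspOpC K :=
  ekCuspOp_of K (constTermTC_of315 K hLC hLat)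

end Fermat.Agent.LT.T3.H315

end

end
-- ===== PACK-END LT/T3/H315/ConstTermT.lean

-- ===== PACK-BEGIN LT/T5/H855/CovolOne.lean
section


/-!
# Row LT, tower T5, leaf T5.02g `CovolOneC` (helper855; registry row 1195)

OFF-MAIN.  `T1.LocCompC K → T1.AddFundDomC K → T5.H40.CovolOneC K`: there is a Haar measure of
the adeles of `K` for which the quotient by the principal adeles has volume `1`.

Proof: take any additive Haar measure `μ` of the locally compact group `𝔸_K`, a fundamental
domain `D` with `0 < μ D < ∞` (`T1.AddFundDomC`) and rescale by `(μ D)⁻¹`; a fundamental domain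
stays one for an absolutely continuous measure.
-/

set_option autoImplicit false
set_option linter.style.haveILetI false

open IsDedekindDomain NumberField MeasureTheory
open scoped MatrixGroups ENNReal

noncomputable section

namespace Fermat.Agent.LT.T5.H855

open Fermat.Agent.LT.H556.A0 Fermat.Agent.LT

variable (K : Type) [Field K] [NumberField K]

/-- **T5.02g.**  A Haar measure of covolume one on the adeles. -/
theorem covolOneC855 (hLC : T1.LocCompC K) (hFD : T1.AddFundDomC K) : T5.H40.CovolOneC K := by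
  obtain ⟨⟨hlc, ht2, hsc⟩, -⟩ := hLC
  unfold T5.H40.CovolOneC
  unfold T1.AddFundDomC at hFD
  letI : MeasurableSpace (Adl K) := borel (Adl K)
  haveI : BorelSpace (Adl K) := ⟨rfl⟩
  haveI := hlc
  haveI := ht2
  haveI := hsc
  obtain ⟨D, -, hD, -, hpos, hfin⟩ := hFD (Measure.addHaar : Measure (Adl K)) inferInstance
  set μ : Measure (Adl K) := Measure.addHaar with hμ
  have hc0 : (μ D)⁻¹ ≠ 0 := ENNReal.inv_ne_zero.2 hfin.ne
  have hct : (μ D)⁻¹ ≠ ∞ := ENNReal.inv_ne_top.2 hpos.ne'
  refine ⟨(μ D)⁻¹ • μ, Measure.IsAddHaarMeasure.smul μ hc0 hct, D, ?_, ?_⟩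
  · exact hD.mono (Measure.AbsolutelyContinuous.rfl.smul_left _)
  · rw [Measure.smul_apply, smul_eq_mul]
    exact ENNReal.inv_mul_cancel hpos.ne' hfin.ne

/-- The leaf in the form of the registry row (VERBATIM). -/
theorem leafCovolOne855 : T1.LocCompC K → T1.AddFundDomC K → T5.H40.CovolOneC K :=
  covolOneC855 K

end Fermat.Agent.LT.T5.H855

end

end
-- ===== PACK-END LT/T5/H855/CovolOne.lean

-- ===== PACK-BEGIN LT/T7/H231/Frob.lean
section




/-!
# Row LT, tower T7, leaf T7.04 (helper231): Frobenius elements and norms of primes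

OFF-MAIN.  On the landed library `Lib/Cheb/H943` (plain modules on main).

For a finite normal extension `L₀ ⊆ ℚ̄` of `ℚ`, a maximal ideal `P` of `𝓞 L₀` over the prime `p`,
a valuation subring `A` of `ℚ̄` over `P` and a Frobenius element `τ` at `A`:

* `absNorm_le_of_pow_fixes231` : if `τ ^ j` fixes `L₀` pointwise, then `N P ≤ p ^ j`;
* `pow_fixes_of_absNorm231` : if the inertia group of `P` is trivial and `N P = p ^ k`, then
  `τ ^ k` fixes `L₀` pointwise.
-/

set_option autoImplicit false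
set_option linter.unusedSectionVars false
set_option linter.style.haveILetI false

open NumberField
open scoped Pointwise

namespace Fermat.Agent.LT.T7.H231

open Fermat.Agent.Lib.Cheb.Spec Fermat.Agent.Lib.Cheb.H943

section Residue

variable {A : ValuationSubring Qb} {τ : GQ} {p : ℕ}

/-- The iterates of a Frobenius element act on the residue field of `A` as the iterates of the
`p`-th power map. -/
theorem residue_pow_smul231 (hτ : A.IsFrobeniusAt τ p) (k : ℕ) (a : A) :
    IsLocalRing.residue A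
        ((⟨τ, hτ.mem_decompositionSubgroup⟩ : A.decompositionSubgroup ℚ) ^ k • a)
      = (IsLocalRing.residue A a) ^ (p ^ k) := by
  induction k generalizing a with
  | zero => simp
  | succ k ih =>
    rw [pow_succ', mul_smul, IsLocalRing.ResidueField.residue_smul, hτ.smul_residue_eq, ih,
      ← pow_mul, pow_succ]

/-- The value of `t ^ k • a` in `ℚ̄`. -/
theorem coe_pow_smul231 (hτd : τ ∈ A.decompositionSubgroup ℚ) (k : ℕ) (a : A) :
    (((⟨τ, hτd⟩ : A.decompositionSubgroup ℚ) ^ k • a : A) : Qb) = (τ ^ k) (a : Qb) := by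
  induction k generalizing a with
  | zero => simp
  | succ k ih =>
    rw [pow_succ', mul_smul, pow_succ', AlgEquiv.mul_apply, ← ih]
    rfl

/-- `τ ^ k y - y ^ (p ^ k)` lies in the maximal ideal of `A`, for `y ∈ A`. -/
theorem pow_sub_pow_mem_nonunits231 (hτ : A.IsFrobeniusAt τ p) (k : ℕ) {y : Qb} (hy : y ∈ A) :
    (τ ^ k) y - y ^ (p ^ k) ∈ A.nonunits := by
  have h1 := residue_pow_smul231 hτ k ⟨y, hy⟩
  rw [← map_pow, ← sub_eq_zero, ← map_sub, IsLocalRing.residue_eq_zero_iff,
    ← ValuationSubring.coe_mem_nonunits_iff] at h1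
  have h2 : ((((⟨τ, hτ.mem_decompositionSubgroup⟩ : A.decompositionSubgroup ℚ) ^ k •
      (⟨y, hy⟩ : A) - (⟨y, hy⟩ : A) ^ (p ^ k) : A)) : Qb) = (τ ^ k) y - y ^ (p ^ k) := by
    push_cast
    rw [coe_pow_smul231 hτ.mem_decompositionSubgroup k ⟨y, hy⟩]
  rw [← h2]
  exact h1

end Residue

section Field

variable (L₀ : IntermediateField ℚ Qb)

/-- A maximal ideal of `𝓞 L₀` is not `⊥`. -/
theorem ne_bot_of_isMaximal231 [NumberField L₀] {P : Ideal (𝓞 L₀)} (hP : P.IsMaximal) : P ≠ ⊥ :=
  Ring.ne_bot_of_isMaximal_of_not_isField hP (RingOfIntegers.not_isField L₀)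

/-- If `x ^ n - x ∈ P` for all `x`, then `N P ≤ n` (`P` maximal, `1 < n`). -/
theorem absNorm_le_of_forall_pow_sub_mem231 [NumberField L₀] {P : Ideal (𝓞 L₀)}
    (hP : P.IsMaximal) {n : ℕ} (hn : 1 < n) (h : ∀ x : 𝓞 L₀, x ^ n - x ∈ P) :
    Ideal.absNorm P ≤ n := by
  classical
  letI : Field (𝓞 L₀ ⧸ P) := Ideal.Quotient.field P
  haveI : Finite (𝓞 L₀ ⧸ P) := Ideal.finiteQuotientOfFreeOfNeBot P (ne_bot_of_isMaximal231 L₀ hP)
  haveI : Fintype (𝓞 L₀ ⧸ P) := Fintype.ofFinite _
  have hroot : ∀ y : 𝓞 L₀ ⧸ P, y ^ n - y = 0 := by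
    intro y
    obtain ⟨x, rfl⟩ := Ideal.Quotient.mk_surjective y
    rw [← map_pow, ← map_sub]
    exact Ideal.Quotient.eq_zero_iff_mem.mpr (h x)
  set f : Polynomial (𝓞 L₀ ⧸ P) := Polynomial.X ^ n - Polynomial.X with hf
  have hdeg : f.natDegree = n := by
    rw [hf]
    exact FiniteField.X_pow_card_sub_X_natDegree_eq _ hn
  have hf0 : f ≠ 0 := by
    intro h0
    rw [h0, Polynomial.natDegree_zero] at hdeg
    omega
  have hsub : (Finset.univ : Finset (𝓞 L₀ ⧸ P)) ⊆ f.roots.toFinset := by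
    intro y _
    rw [Multiset.mem_toFinset, Polynomial.mem_roots hf0, Polynomial.IsRoot.def, hf]
    simpa using hroot y
  have hcard : Fintype.card (𝓞 L₀ ⧸ P) ≤ n := by
    calc Fintype.card (𝓞 L₀ ⧸ P) = (Finset.univ : Finset (𝓞 L₀ ⧸ P)).card := rfl
      _ ≤ f.roots.toFinset.card := Finset.card_le_card hsub
      _ ≤ Multiset.card f.roots := Multiset.toFinset_card_le _
      _ ≤ f.natDegree := Polynomial.card_roots' f
      _ = n := hdeg
  have habs : Ideal.absNorm P = Nat.card (𝓞 L₀ ⧸ P) := by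
    rw [Ideal.absNorm_apply]
    rfl
  rw [habs, Nat.card_eq_fintype_card]
  exact hcard

variable {L₀}

/-- `x ^ N P - x ∈ P` (Fermat's little theorem in the residue field). -/
theorem pow_absNorm_sub_mem231 [NumberField L₀] {P : Ideal (𝓞 L₀)} (hP : P.IsMaximal)
    (hP0 : P ≠ ⊥) (x : 𝓞 L₀) : x ^ Ideal.absNorm P - x ∈ P := by
  classical
  letI : Field (𝓞 L₀ ⧸ P) := Ideal.Quotient.field P
  haveI : Finite (𝓞 L₀ ⧸ P) := Ideal.finiteQuotientOfFreeOfNeBot P hP0
  haveI : Fintype (𝓞 L₀ ⧸ P) := Fintype.ofFinite _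
  have habs : Ideal.absNorm P = Fintype.card (𝓞 L₀ ⧸ P) := by
    rw [Ideal.absNorm_apply, ← Nat.card_eq_fintype_card]
    rfl
  rw [← Ideal.Quotient.eq_zero_iff_mem, map_sub, map_pow, habs, FiniteField.pow_card, sub_self]

variable [NumberField L₀] [Normal ℚ L₀]

/-- **(b)** If `τ ^ j` fixes `L₀` pointwise, then `N P ≤ p ^ j`. -/
theorem absNorm_le_of_pow_fixes231 {p : ℕ} (hp : p.Prime) {P : Ideal (𝓞 L₀)} (hP : P.IsMaximal)
    {A : ValuationSubring Qb} (hA : ∀ x ∈ P, emb L₀ x ∈ A.nonunits)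
    {τ : GQ} (hτ : A.IsFrobeniusAt τ p) {j : ℕ} (hj : 0 < j)
    (hfix : ∀ x : L₀, (τ ^ j) (x : Qb) = (x : Qb)) : Ideal.absNorm P ≤ p ^ j := by
  refine absNorm_le_of_forall_pow_sub_mem231 L₀ hP (Nat.one_lt_pow hj.ne' hp.one_lt) fun x => ?_
  apply mem_of_emb_mem_nonunits L₀ hP hA
  have h1 := pow_sub_pow_mem_nonunits231 hτ j (emb_mem L₀ A x)
  rw [emb_apply, hfix] at h1
  have h2 : emb L₀ (x ^ p ^ j - x) = -(((x : L₀) : Qb) - ((x : L₀) : Qb) ^ p ^ j) := by
    rw [map_sub, map_pow, emb_apply]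
    ring
  rw [h2]
  exact neg_mem h1

/-- **(a)** If the inertia group of `P` is trivial and `N P = p ^ k`, then `τ ^ k` fixes `L₀`
pointwise. -/
theorem pow_fixes_of_absNorm231 {p : ℕ} {P : Ideal (𝓞 L₀)} (hP : P.IsMaximal)
    {A : ValuationSubring Qb} (hA : ∀ x ∈ P, emb L₀ x ∈ A.nonunits)
    {τ : GQ} (hτ : A.IsFrobeniusAt τ p) (hI : InertiaTrivial L₀ P) {k : ℕ}
    (hk : Ideal.absNorm P = p ^ k) (x : L₀) : (τ ^ k) (x : Qb) = (x : Qb) := by
  have hmem : ∀ y : 𝓞 L₀, (AlgEquiv.restrictNormalHom L₀ (τ ^ k)) • y - y ∈ P := by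
    intro y
    apply mem_of_emb_mem_nonunits L₀ hP hA
    have h1 := pow_sub_pow_mem_nonunits231 hτ k (emb_mem L₀ A y)
    have h2 : emb L₀ (y ^ (p ^ k) - y) ∈ A.nonunits := by
      apply hA
      rw [← hk]
      exact pow_absNorm_sub_mem231 hP (ne_bot_of_isMaximal231 L₀ hP) y
    have h3 : emb L₀ ((AlgEquiv.restrictNormalHom L₀ (τ ^ k)) • y - y)
        = ((τ ^ k) (emb L₀ y) - (emb L₀ y) ^ (p ^ k)) + emb L₀ (y ^ (p ^ k) - y) := by
      rw [map_sub, emb_restrict_smul, map_sub, map_pow]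
      ring
    rw [h3]
    exact add_mem h1 h2
  have hone : AlgEquiv.restrictNormalHom L₀ (τ ^ k) = 1 := hI _ hmem
  have h4 := AlgEquiv.restrictNormal_commutes (τ ^ k) L₀ x
  have h5 : (AlgEquiv.restrictNormal (τ ^ k) L₀) x = x := by
    have : AlgEquiv.restrictNormal (τ ^ k) L₀ = AlgEquiv.restrictNormalHom L₀ (τ ^ k) := rfl
    rw [this, hone]
    rfl
  rw [h5] at h4
  exact h4.symm

end Field

end Fermat.Agent.LT.T7.H231

end
-- ===== PACK-END LT/T7/H231/Frob.lean

-- ===== PACK-BEGIN LT/T7/H231/Places.lean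
section



/-!
# Row LT, tower T7, leaf T7.04 (helper231): places of a number field over prime numbers

OFF-MAIN.  Mathlib + `T7/Spec.lean` (for `PlaceImage`).

* `exists_prime_mem231` / `prime_unique231` : the prime number under a finite place;
* `overSet231`, `overSet_finite231` : the places over a finite set of prime numbers;
* `placeMap231` : the image of a place under a ring automorphism, `placeImage_placeMap231`,
  `placeImage_unique231`, `placeImage_prime231`;
* `absNorm_eq_prime_pow231` : `N v = p ^ k`, `0 < k`.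
-/

set_option autoImplicit false
set_option linter.unusedSectionVars false
set_option linter.style.haveILetI false

open IsDedekindDomain NumberField

namespace Fermat.Agent.LT.T7.H231

open Fermat.Agent.LT.T7

section Places

variable {K : Type} [Field K] [NumberField K]

/-- Two different prime numbers do not lie in the same place. -/
theorem prime_unique231 (v : HeightOneSpectrum (𝓞 K)) {p q : ℕ} (hp : p.Prime) (hq : q.Prime)
    (hpv : ((p : ℕ) : 𝓞 K) ∈ v.asIdeal) (hqv : ((q : ℕ) : 𝓞 K) ∈ v.asIdeal) : p = q := by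
  by_contra hne
  have hcop : Nat.Coprime p q := (Nat.coprime_primes hp hq).mpr hne
  have h1 : ((Nat.gcd p q : ℤ) : 𝓞 K) ∈ v.asIdeal := by
    rw [Nat.gcd_eq_gcd_ab]
    push_cast
    exact v.asIdeal.add_mem (v.asIdeal.mul_mem_right _ hpv) (v.asIdeal.mul_mem_right _ hqv)
  rw [hcop] at h1
  simp only [Nat.cast_one, Int.cast_one] at h1
  exact v.isPrime.ne_top ((Ideal.eq_top_iff_one _).mpr h1)

/-- Every finite place lies over a prime number. -/
theorem exists_prime_mem231 (v : HeightOneSpectrum (𝓞 K)) :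
    ∃ p : ℕ, p.Prime ∧ ((p : ℕ) : 𝓞 K) ∈ v.asIdeal := by
  have hmem : ((Ideal.absNorm v.asIdeal : ℕ) : 𝓞 K) ∈ v.asIdeal := Ideal.absNorm_mem v.asIdeal
  have hne1 : Ideal.absNorm v.asIdeal ≠ 1 := by
    rw [Ne, Ideal.absNorm_eq_one_iff]
    exact v.isPrime.ne_top
  have hne0 : Ideal.absNorm v.asIdeal ≠ 0 := by
    rw [Ne, Ideal.absNorm_eq_zero_iff]
    exact v.ne_bot
  -- a prime ideal containing a natural number `n ≥ 2` contains a prime number
  have key : ∀ n : ℕ, 2 ≤ n → ((n : ℕ) : 𝓞 K) ∈ v.asIdeal →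
      ∃ p : ℕ, p.Prime ∧ ((p : ℕ) : 𝓞 K) ∈ v.asIdeal := by
    intro n
    induction n using Nat.strong_induction_on with
    | _ n ih =>
      intro hn2 hn
      obtain ⟨p, hp, m, hm⟩ := Nat.exists_prime_and_dvd (show n ≠ 1 by omega)
      have hmem' : ((p : ℕ) : 𝓞 K) * ((m : ℕ) : 𝓞 K) ∈ v.asIdeal := by
        rw [← Nat.cast_mul, ← hm]
        exact hn
      rcases v.isPrime.mem_or_mem hmem' with h | h
      · exact ⟨p, hp, h⟩
      · have hm0 : m ≠ 0 := by
          rintro rfl
          rw [mul_zero] at hm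
          omega
        have hm1 : m ≠ 1 := by
          rintro rfl
          simp only [Nat.cast_one] at h
          exact v.isPrime.ne_top ((Ideal.eq_top_iff_one _).mpr h)
        have hlt : m < n := by
          rw [hm]
          exact lt_mul_of_one_lt_left (Nat.pos_of_ne_zero hm0) hp.one_lt
        exact ih m hlt (by omega) h
  exact key _ (by omega) hmem

/-- The norm of a place over `p` is a positive power of `p`. -/
theorem absNorm_eq_prime_pow231 (v : HeightOneSpectrum (𝓞 K)) {p : ℕ} (hp : p.Prime)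
    (hpv : ((p : ℕ) : 𝓞 K) ∈ v.asIdeal) :
    ∃ k : ℕ, 0 < k ∧ Ideal.absNorm v.asIdeal = p ^ k := by
  have hle : Ideal.span {((p : ℕ) : 𝓞 K)} ≤ v.asIdeal := by
    rw [Ideal.span_le, Set.singleton_subset_iff]
    exact hpv
  have hdvd : Ideal.absNorm v.asIdeal ∣ Ideal.absNorm (Ideal.span {((p : ℕ) : 𝓞 K)}) :=
    Ideal.absNorm_dvd_absNorm_of_le hle
  have hnorm : Ideal.absNorm (Ideal.span {((p : ℕ) : 𝓞 K)}) = p ^ Module.finrank ℚ K := by
    rw [Ideal.absNorm_span_singleton]
    have h1 : ((p : ℕ) : 𝓞 K) = algebraMap ℤ (𝓞 K) (p : ℤ) := by simp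
    rw [h1, Algebra.norm_algebraMap_of_basis (RingOfIntegers.basis K)]
    rw [Int.natAbs_pow, Int.natAbs_natCast, ← RingOfIntegers.rank K,
      Module.finrank_eq_card_basis (RingOfIntegers.basis K)]
  rw [hnorm] at hdvd
  obtain ⟨k, -, hk⟩ := (Nat.dvd_prime_pow hp).mp hdvd
  refine ⟨k, ?_, hk⟩
  rcases Nat.eq_zero_or_pos k with h0 | h0
  · exfalso
    rw [h0, pow_zero, Ideal.absNorm_eq_one_iff] at hk
    exact v.isPrime.ne_top hk
  · exact h0

/-- The places over a finite set of prime numbers. -/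
def overSet231 (K : Type) [Field K] [NumberField K] (S : Finset ℕ) :
    Set (HeightOneSpectrum (𝓞 K)) :=
  {v | ∃ p ∈ S, p.Prime ∧ ((p : ℕ) : 𝓞 K) ∈ v.asIdeal}

theorem overSet_finite231 (S : Finset ℕ) : (overSet231 K S).Finite := by
  have h : overSet231 K S ⊆ ⋃ p ∈ (S.filter Nat.Prime : Finset ℕ),
      {v : HeightOneSpectrum (𝓞 K) | v.asIdeal ∣ Ideal.span {((p : ℕ) : 𝓞 K)}} := by
    rintro v ⟨p, hpS, hp, hpv⟩
    simp only [Set.mem_iUnion]
    refine ⟨p, Finset.mem_filter.mpr ⟨hpS, hp⟩, ?_⟩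
    show v.asIdeal ∣ Ideal.span {((p : ℕ) : 𝓞 K)}
    rw [Ideal.dvd_iff_le, Ideal.span_le, Set.singleton_subset_iff]
    exact hpv
  refine Set.Finite.subset ?_ h
  refine Set.Finite.biUnion (Finset.finite_toSet _) fun p hp => ?_
  have hp' : p.Prime := (Finset.mem_filter.mp hp).2
  refine Ideal.finite_factors ?_
  rw [Ne, Ideal.zero_eq_bot, Ideal.span_singleton_eq_bot]
  exact_mod_cast hp'.ne_zero

/-- A finite set of places containing all places over `S`. -/
noncomputable def overFinset231 (K : Type) [Field K] [NumberField K] (S : Finset ℕ) :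
    Finset (HeightOneSpectrum (𝓞 K)) :=
  (overSet_finite231 (K := K) S).toFinset

theorem mem_overFinset231 {S : Finset ℕ} {v : HeightOneSpectrum (𝓞 K)} :
    v ∈ overFinset231 K S ↔ ∃ p ∈ S, p.Prime ∧ ((p : ℕ) : 𝓞 K) ∈ v.asIdeal := by
  unfold overFinset231
  rw [Set.Finite.mem_toFinset]
  rfl

/-- A prime number under a place (a choice). -/
noncomputable def primeOf231 (v : HeightOneSpectrum (𝓞 K)) : ℕ :=
  (exists_prime_mem231 v).choose

theorem primeOf_prime231 (v : HeightOneSpectrum (𝓞 K)) : (primeOf231 v).Prime :=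
  (exists_prime_mem231 v).choose_spec.1

theorem primeOf_mem231 (v : HeightOneSpectrum (𝓞 K)) :
    ((primeOf231 v : ℕ) : 𝓞 K) ∈ v.asIdeal :=
  (exists_prime_mem231 v).choose_spec.2

theorem primeOf_eq231 (v : HeightOneSpectrum (𝓞 K)) {p : ℕ} (hp : p.Prime)
    (hpv : ((p : ℕ) : 𝓞 K) ∈ v.asIdeal) : primeOf231 v = p :=
  prime_unique231 v (primeOf_prime231 v) hp (primeOf_mem231 v) hpv

/-- If `p` is not the prime under any place of `T`, no place over `p` lies in `T`. -/
theorem not_mem_of_prime_not_mem_image231 [DecidableEq ℕ]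
    {T : Finset (HeightOneSpectrum (𝓞 K))}
    {p : ℕ} (hp : p.Prime) (hpT : p ∉ T.image primeOf231) {v : HeightOneSpectrum (𝓞 K)}
    (hpv : ((p : ℕ) : 𝓞 K) ∈ v.asIdeal) : v ∉ T := by
  intro hv
  apply hpT
  rw [Finset.mem_image]
  exact ⟨v, hv, primeOf_eq231 v hp hpv⟩

/-! ### The image of a place under an automorphism -/

/-- The image `e(v)` of the place `v` under the ring automorphism `e` of `K`. -/
noncomputable def placeMap231 (e : K ≃+* K) (v : HeightOneSpectrum (𝓞 K)) :
    HeightOneSpectrum (𝓞 K) where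
  asIdeal := v.asIdeal.comap (RingOfIntegers.mapRingEquiv e.symm : 𝓞 K →+* 𝓞 K)
  isPrime := Ideal.comap_isPrime _ _
  ne_bot := by
    intro h
    apply v.ne_bot
    rw [eq_bot_iff]
    intro x hx
    have h1 : RingOfIntegers.mapRingEquiv e x ∈
        v.asIdeal.comap (RingOfIntegers.mapRingEquiv e.symm : 𝓞 K →+* 𝓞 K) := by
      rw [Ideal.mem_comap]
      have : (RingOfIntegers.mapRingEquiv e.symm : 𝓞 K →+* 𝓞 K) (RingOfIntegers.mapRingEquiv e x)
          = x := by
        apply RingOfIntegers.ext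
        simp
      rw [this]
      exact hx
    rw [h, Ideal.mem_bot] at h1
    have h2 : x = 0 := by
      have := congrArg (RingOfIntegers.mapRingEquiv e).symm h1
      simpa using this
    rw [h2]
    exact Ideal.zero_mem _

theorem mem_placeMap231 (e : K ≃+* K) (v : HeightOneSpectrum (𝓞 K)) (y : 𝓞 K) :
    y ∈ (placeMap231 e v).asIdeal ↔ RingOfIntegers.mapRingEquiv e.symm y ∈ v.asIdeal :=
  Iff.rfl

theorem placeImage_placeMap231 (e : K ≃+* K) (v : HeightOneSpectrum (𝓞 K)) :
    PlaceImage e v (placeMap231 e v) := by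
  intro x y hxy
  rw [mem_placeMap231]
  have : RingOfIntegers.mapRingEquiv e.symm y = x := by
    apply RingOfIntegers.ext
    simp [hxy]
  rw [this]

theorem placeImage_unique231 {e : K ≃+* K} {v v' : HeightOneSpectrum (𝓞 K)}
    (h : PlaceImage e v v') : v' = placeMap231 e v := by
  apply HeightOneSpectrum.ext
  ext y
  rw [mem_placeMap231]
  have hy : (y : K) = e ((RingOfIntegers.mapRingEquiv e.symm y : 𝓞 K) : K) := by simp
  exact (h _ y hy).symm

/-- Every place is the image of a place. -/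
theorem exists_placeImage231 (e : K ≃+* K) (v' : HeightOneSpectrum (𝓞 K)) :
    ∃ v : HeightOneSpectrum (𝓞 K), PlaceImage e v v' := by
  refine ⟨placeMap231 e.symm v', ?_⟩
  intro x y hxy
  rw [mem_placeMap231]
  have : RingOfIntegers.mapRingEquiv e.symm.symm x = y := by
    apply RingOfIntegers.ext
    simp [hxy]
  rw [this]

/-- A place and its image lie over the same prime number. -/
theorem placeImage_prime231 {e : K ≃+* K} {v v' : HeightOneSpectrum (𝓞 K)}
    (h : PlaceImage e v v') (p : ℕ) :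
    ((p : ℕ) : 𝓞 K) ∈ v.asIdeal ↔ ((p : ℕ) : 𝓞 K) ∈ v'.asIdeal := by
  apply h
  simp

end Places

end Fermat.Agent.LT.T7.H231

end
-- ===== PACK-END LT/T7/H231/Places.lean

-- ===== PACK-BEGIN LT/T7/H176/Places.lean
section



/-!
# Row LT, tower T7, leaf T7.07 (helper176), OFF-MAIN: places of a number field over primes

Elementary facts (Mathlib only + the vocabulary of `T7/Spec.lean`):
every finite place contains exactly one prime number `p`, `N v ≥ p`, at most `[K : ℚ]` places
contain `p`, the places over a finite set of primes form a finite set, and the places over a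
THIN set of primes form a thin set of places.
-/

set_option autoImplicit false
set_option linter.deprecated false

open IsDedekindDomain NumberField

noncomputable section

namespace Fermat.Agent.LT.T7.H176

variable {K : Type} [Field K] [NumberField K]

/-- A natural number `n ≠ 0` whose image lies in a prime ideal `I ≠ ⊤` has a prime factor whose
image lies in `I`. -/
theorem exists_prime_dvd_mem176 {R : Type*} [CommRing R] (I : Ideal R) [hI : I.IsPrime] :
    ∀ n : ℕ, n ≠ 0 → ((n : ℕ) : R) ∈ I → ∃ p : ℕ, p.Prime ∧ p ∣ n ∧ ((p : ℕ) : R) ∈ I := by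
  intro n
  induction n using Nat.recOnMul with
  | zero => intro h; exact absurd rfl h
  | one =>
    intro _ h
    exfalso
    apply hI.ne_top
    rw [Ideal.eq_top_iff_one]
    simpa using h
  | prime p hp => intro _ h; exact ⟨p, hp, dvd_rfl, h⟩
  | mul a b iha ihb =>
    intro hab h
    have ha : a ≠ 0 := left_ne_zero_of_mul hab
    have hb : b ≠ 0 := right_ne_zero_of_mul hab
    rw [Nat.cast_mul] at h
    rcases hI.mem_or_mem h with h1 | h1
    · obtain ⟨p, hp, hd, hm⟩ := iha ha h1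
      exact ⟨p, hp, hd.mul_right b, hm⟩
    · obtain ⟨p, hp, hd, hm⟩ := ihb hb h1
      exact ⟨p, hp, hd.mul_left a, hm⟩

theorem absNorm_ne_zero176 (v : HeightOneSpectrum (𝓞 K)) : Ideal.absNorm v.asIdeal ≠ 0 := by
  rw [Ne, Ideal.absNorm_eq_zero_iff]
  exact v.ne_bot

/-- Every finite place contains a prime number dividing its norm. -/
theorem exists_prime_dvd_absNorm176 (v : HeightOneSpectrum (𝓞 K)) :
    ∃ p : ℕ, p.Prime ∧ p ∣ Ideal.absNorm v.asIdeal ∧ ((p : ℕ) : 𝓞 K) ∈ v.asIdeal := by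
  haveI := v.isPrime
  exact exists_prime_dvd_mem176 v.asIdeal _ (absNorm_ne_zero176 v) (Ideal.absNorm_mem v.asIdeal)

/-- Every finite place contains a prime number. -/
theorem exists_prime_mem176 (v : HeightOneSpectrum (𝓞 K)) :
    ∃ p : ℕ, p.Prime ∧ ((p : ℕ) : 𝓞 K) ∈ v.asIdeal := by
  obtain ⟨p, hp, -, hm⟩ := exists_prime_dvd_absNorm176 v
  exact ⟨p, hp, hm⟩

/-- A finite place contains at most one prime number. -/
theorem prime_unique176 (v : HeightOneSpectrum (𝓞 K)) {p q : ℕ} (hp : p.Prime) (hq : q.Prime)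
    (hpv : ((p : ℕ) : 𝓞 K) ∈ v.asIdeal) (hqv : ((q : ℕ) : 𝓞 K) ∈ v.asIdeal) : p = q := by
  by_contra hne
  have hcop : Nat.Coprime p q := (Nat.coprime_primes hp hq).mpr hne
  have hb : (p : ℤ) * Nat.gcdA p q + (q : ℤ) * Nat.gcdB p q = 1 := by
    have := Nat.gcd_eq_gcd_ab p q
    rw [hcop] at this
    simpa using this.symm
  have h1 : ((1 : ℤ) : 𝓞 K) ∈ v.asIdeal := by
    rw [← hb]
    push_cast
    exact v.asIdeal.add_mem (v.asIdeal.mul_mem_right _ hpv) (v.asIdeal.mul_mem_right _ hqv)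
  apply v.isPrime.ne_top
  rw [Ideal.eq_top_iff_one]
  simpa using h1

/-- `p ≤ N v` for a place `v` containing the prime `p`. -/
theorem le_absNorm176 (v : HeightOneSpectrum (𝓞 K)) {p : ℕ} (hp : p.Prime)
    (hpv : ((p : ℕ) : 𝓞 K) ∈ v.asIdeal) : p ≤ Ideal.absNorm v.asIdeal := by
  obtain ⟨q, hq, hd, hqv⟩ := exists_prime_dvd_absNorm176 v
  have := prime_unique176 v hp hq hpv hqv
  subst this
  exact Nat.le_of_dvd (Nat.pos_of_ne_zero (absNorm_ne_zero176 v)) hd

/-- The ideal of a place containing `p` lies over `(p)`. -/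
theorem mem_primesOverFinset176 (v : HeightOneSpectrum (𝓞 K)) {p : ℕ} (hp : p.Prime)
    (hpv : ((p : ℕ) : 𝓞 K) ∈ v.asIdeal) :
    v.asIdeal ∈ IsDedekindDomain.primesOverFinset (Ideal.span {(p : ℤ)}) (𝓞 K) := by
  have hmax : (Ideal.span {(p : ℤ)}).IsMaximal :=
    PrincipalIdealRing.isMaximal_of_irreducible (Nat.prime_iff_prime_int.mp hp).irreducible
  have hp0 : Ideal.span {(p : ℤ)} ≠ ⊥ := by
    rw [Ne, Ideal.span_singleton_eq_bot]
    exact_mod_cast hp.ne_zero
  rw [IsDedekindDomain.mem_primesOverFinset_iff hp0]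
  refine ⟨v.isPrime, ⟨?_⟩⟩
  have hle : Ideal.span {(p : ℤ)} ≤ v.asIdeal.under ℤ := by
    rw [Ideal.span_singleton_le_iff_mem, Ideal.under_def, Ideal.mem_comap]
    simpa using hpv
  have hne : v.asIdeal.under ℤ ≠ ⊤ := by
    haveI := v.isPrime
    exact (Ideal.IsPrime.under ℤ v.asIdeal).ne_top
  exact hmax.eq_of_le hne hle

/-- At most `[K : ℚ]` places contain a given prime number. -/
theorem card_le_finrank176 {p : ℕ} (hp : p.Prime) (T : Finset (HeightOneSpectrum (𝓞 K)))
    (hT : ∀ v ∈ T, ((p : ℕ) : 𝓞 K) ∈ v.asIdeal) : T.card ≤ Module.finrank ℚ K := by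
  classical
  have hmax : (Ideal.span {(p : ℤ)}).IsMaximal :=
    PrincipalIdealRing.isMaximal_of_irreducible (Nat.prime_iff_prime_int.mp hp).irreducible
  have hp0 : Ideal.span {(p : ℤ)} ≠ ⊥ := by
    rw [Ne, Ideal.span_singleton_eq_bot]
    exact_mod_cast hp.ne_zero
  have h1 : T.card ≤ (IsDedekindDomain.primesOverFinset (Ideal.span {(p : ℤ)}) (𝓞 K)).card := by
    apply Finset.card_le_card_of_injOn (fun v => v.asIdeal)
    · intro v hv
      exact mem_primesOverFinset176 v hp (hT v hv)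
    · intro v _ w _ h
      exact HeightOneSpectrum.ext h
  exact h1.trans (Ideal.card_primesOverFinset_le_finrank (𝓞 K) ℚ K hp0)

/-- The places containing a given prime number form a finite set. -/
theorem finite_over176 {p : ℕ} (hp : p.Prime) :
    {v : HeightOneSpectrum (𝓞 K) | ((p : ℕ) : 𝓞 K) ∈ v.asIdeal}.Finite := by
  classical
  have hinj : Set.InjOn (fun v : HeightOneSpectrum (𝓞 K) => v.asIdeal)
      {v : HeightOneSpectrum (𝓞 K) | ((p : ℕ) : 𝓞 K) ∈ v.asIdeal} := by
    intro v _ w _ h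
    exact HeightOneSpectrum.ext h
  refine Set.Finite.of_finite_image ?_ hinj
  refine Set.Finite.subset
    (IsDedekindDomain.primesOverFinset (Ideal.span {(p : ℤ)}) (𝓞 K)).finite_toSet ?_
  rintro I ⟨v, hv, rfl⟩
  exact mem_primesOverFinset176 v hp hv

/-- The places over a finite set of primes form a finite set. -/
theorem finite_over_finset176 (S : Finset ℕ) :
    {v : HeightOneSpectrum (𝓞 K) | ∃ p ∈ S, p.Prime ∧ ((p : ℕ) : 𝓞 K) ∈ v.asIdeal}.Finite := by
  have h : {v : HeightOneSpectrum (𝓞 K) | ∃ p ∈ S, p.Prime ∧ ((p : ℕ) : 𝓞 K) ∈ v.asIdeal}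
      ⊆ ⋃ p ∈ {p ∈ S | p.Prime},
        {v : HeightOneSpectrum (𝓞 K) | ((p : ℕ) : 𝓞 K) ∈ v.asIdeal} := by
    rintro v ⟨p, hpS, hp, hv⟩
    simp only [Set.mem_iUnion]
    exact ⟨p, by simp [hpS, hp], hv⟩
  refine Set.Finite.subset ?_ h
  apply Set.Finite.biUnion (Finset.finite_toSet _)
  intro p hp
  have hp' : p.Prime := by
    have : p ∈ {p ∈ S | p.Prime} := hp
    simp at this
    exact this.2
  exact finite_over176 hp'

end Fermat.Agent.LT.T7.H176

end

end
-- ===== PACK-END LT/T7/H176/Places.lean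

-- ===== PACK-BEGIN LT/T7/H176/Bound.lean
section




/-!
# Row LT, tower T7, leaf T7.07 (helper176), OFF-MAIN: `|a_v| ≤ 2` from `MidData`

The identity of `H130.MidData` at a place, `satakePow d a 1 = tr Ψ (τ ^ d)` with
`τ = g ^ ordSL g`, `d = ordQ8 τ`, forces `‖a‖ ≤ 2`:

* `d = 1`: `a = tr Ψ τ`, `τ ^ 4 = 1`, a trace of a complex matrix of finite order;
* `d = 2`: `a² - 2 = tr Ψ (τ²)`, `(τ²)⁴ = 1`, so `‖a‖² ≤ 4`;
* `d = 3`: `τ ∈ SL₂(𝔽₃)`, `τ ∉ Q8`, so `τ³ = ± 1` (brute force), `Ψ (-1) = -1` (helper701), and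
  `a³ - 3 a = ± 2 = (a ∓ 2)(a ± 1)²`.

Imports: `T7/Spec.lean` and `LT/H701/Psi.lean` (helper701, IDENT block; byte-identical copies of
origin/helper17, the master closure).
-/

set_option autoImplicit false

open Matrix FLT.ExplicitLift

noncomputable section

namespace Fermat.Agent.LT.T7.H176

open Fermat.Agent.LT.H130 Fermat.Agent.LT.H701

/-! ## Traces of complex matrices of finite order -/

/-- The trace of a complex `2 × 2` matrix of finite order has norm at most `2`. -/
theorem norm_trace_le_two176 (M : Matrix (Fin 2) (Fin 2) ℂ) (n : ℕ) (hn : 0 < n)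
    (hM : M ^ n = 1) : ‖M.trace‖ ≤ 2 := by
  -- a root `x` of the characteristic polynomial
  obtain ⟨w, hw⟩ := IsAlgClosed.exists_pow_nat_eq (M.trace ^ 2 - 4 * M.det) (n := 2) (by norm_num)
  set x : ℂ := (M.trace + w) / 2 with hx
  set y : ℂ := (M.trace - w) / 2 with hy
  have hxroot : (M - x • (1 : Matrix (Fin 2) (Fin 2) ℂ)).det = 0 := by
    rw [det_sub_smul_one_h701, hx]
    linear_combination (1 / 4 : ℂ) * hw
  have hyroot : (M - y • (1 : Matrix (Fin 2) (Fin 2) ℂ)).det = 0 := by
    rw [det_sub_smul_one_h701, hy]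
    linear_combination (1 / 4 : ℂ) * hw
  have hxn : x ^ n = 1 := pow_eq_one_of_det_h701 M n hM x hxroot
  have hyn : y ^ n = 1 := pow_eq_one_of_det_h701 M n hM y hyroot
  have hxnorm : ‖x‖ = 1 := by
    have h := congrArg norm hxn
    rw [norm_pow, norm_one] at h
    exact (pow_eq_one_iff_of_nonneg (norm_nonneg x) hn.ne').mp h
  have hynorm : ‖y‖ = 1 := by
    have h := congrArg norm hyn
    rw [norm_pow, norm_one] at h
    exact (pow_eq_one_iff_of_nonneg (norm_nonneg y) hn.ne').mp h
  have hsum : M.trace = x + y := by rw [hx, hy]; ring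
  calc ‖M.trace‖ = ‖x + y‖ := by rw [hsum]
    _ ≤ ‖x‖ + ‖y‖ := norm_add_le x y
    _ = 2 := by rw [hxnorm, hynorm]; norm_num

/-! ## The complex representation `R = ι ∘ Ψ` -/

section Psi

variable (Ψ : GL (Fin 2) (ZMod 3) →* GL (Fin 2) (ℤ√(-2))) (ι : ℤ√(-2) →+* ℂ)

theorem trΨ_eq176 (g : GL (Fin 2) (ZMod 3)) :
    trΨ Ψ ι g = (rhom_h701 ι Ψ g).val.trace := by
  rw [trace_rhom_h701]
  rfl

/-- `‖tr Ψ g‖ ≤ 2` for `g` of finite order. -/
theorem norm_trΨ_le_two176 (g : GL (Fin 2) (ZMod 3)) (n : ℕ) (hn : 0 < n) (hg : g ^ n = 1) :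
    ‖trΨ Ψ ι g‖ ≤ 2 := by
  rw [trΨ_eq176]
  apply norm_trace_le_two176 _ n hn
  rw [← Units.val_pow_eq_pow_val, ← map_pow, hg, map_one]
  rfl

theorem trΨ_one176 : trΨ Ψ ι 1 = 2 := by
  rw [trΨ_eq176, map_one]
  simp [Matrix.trace]

theorem trΨ_neg_one176 (hΨ : ∀ g, Matrix.GeneralLinearGroup.map red (Ψ g) = g) :
    trΨ Ψ ι (-1) = -2 := by
  rw [trΨ_eq176, rhom_neg_one_h701 Ψ hΨ ι]
  simp [Matrix.trace]

end Psi

/-! ## Brute force in `SL₂(𝔽₃)` -/

theorem bf_cube176 : ∀ a b c e : ZMod 3, a * e - b * c = 1 →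
    (!![a, b; c, e] : Matrix (Fin 2) (Fin 2) (ZMod 3)) ^ 4 = 1 ∨
    (!![a, b; c, e] : Matrix (Fin 2) (Fin 2) (ZMod 3)) ^ 3 = 1 ∨
    (!![a, b; c, e] : Matrix (Fin 2) (Fin 2) (ZMod 3)) ^ 3 = -1 := by
  decide

/-- An element of `SL₂(𝔽₃)` lies in `Q8` or its cube is `± 1`. -/
theorem cube_cases176 (g : GL (Fin 2) (ZMod 3)) (hdet : Matrix.GeneralLinearGroup.det g = 1) :
    g ^ 4 = 1 ∨ g ^ 3 = 1 ∨ g ^ 3 = -1 := by
  have key := bf_cube176 _ _ _ _ (by linear_combination det_val_h701 g hdet :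
    g.val 0 0 * g.val 1 1 - g.val 0 1 * g.val 1 0 = 1)
  rw [← val_eq_of_h701] at key
  rcases key with h | h | h
  · left
    apply Units.ext
    rw [Units.val_pow_eq_pow_val, h]
    rfl
  · right; left
    apply Units.ext
    rw [Units.val_pow_eq_pow_val, h]
    rfl
  · right; right
    apply Units.ext
    rw [Units.val_pow_eq_pow_val, h]
    rfl

/-- `det (g ^ ordSL g) = 1`. -/
theorem det_pow_ordSL176 (g : GL (Fin 2) (ZMod 3)) :
    Matrix.GeneralLinearGroup.det (g ^ ordSL g) = 1 := by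
  unfold ordSL
  by_cases h : Matrix.GeneralLinearGroup.det g = 1
  · rw [if_pos h, pow_one, h]
  · rw [if_neg h, map_pow]
    have : ∀ x : (ZMod 3)ˣ, x ^ 2 = 1 := by decide
    exact this _

/-! ## The cubic -/

theorem norm_le_two_of_cubic_pos176 (a : ℂ) (h : a ^ 3 - 3 * a = 2) : ‖a‖ ≤ 2 := by
  have hf : (a - 2) * ((a + 1) * (a + 1)) = 0 := by linear_combination h
  rcases mul_eq_zero.mp hf with h1 | h1
  · rw [sub_eq_zero.mp h1]; norm_num
  · have h2 : a + 1 = 0 := by
      rcases mul_eq_zero.mp h1 with h2 | h2 <;> exact h2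
    rw [eq_neg_of_add_eq_zero_left h2]; norm_num

theorem norm_le_two_of_cubic_neg176 (a : ℂ) (h : a ^ 3 - 3 * a = -2) : ‖a‖ ≤ 2 := by
  have hf : (a + 2) * ((a - 1) * (a - 1)) = 0 := by linear_combination h
  rcases mul_eq_zero.mp hf with h1 | h1
  · rw [eq_neg_of_add_eq_zero_left h1]; norm_num
  · have h2 : a - 1 = 0 := by
      rcases mul_eq_zero.mp h1 with h2 | h2 <;> exact h2
    rw [sub_eq_zero.mp h2]; norm_num

/-! ## The bound -/

/-- **The identity of `MidData` (with `b = 1`) forces `‖a‖ ≤ 2`.** -/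
theorem norm_le_two_of_mid176 (Ψ : GL (Fin 2) (ZMod 3) →* GL (Fin 2) (ℤ√(-2)))
    (hΨ : ∀ g, Matrix.GeneralLinearGroup.map red (Ψ g) = g) (ι : ℤ√(-2) →+* ℂ)
    (g : GL (Fin 2) (ZMod 3)) (a : ℂ)
    (h : AutomorphicForm.satakePow (ordQ8 (g ^ ordSL g)) a 1
      = trΨ Ψ ι ((g ^ ordSL g) ^ ordQ8 (g ^ ordSL g))) : ‖a‖ ≤ 2 := by
  classical
  set τ : GL (Fin 2) (ZMod 3) := g ^ ordSL g with hτ
  have hdet : Matrix.GeneralLinearGroup.det τ = 1 := det_pow_ordSL176 g
  by_cases h1 : InQ8 τ
  · -- `d = 1`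
    have hd : ordQ8 τ = 1 := by unfold ordQ8; rw [if_pos h1]
    rw [hd, pow_one, AutomorphicForm.satakePow_one] at h
    rw [h]
    exact norm_trΨ_le_two176 Ψ ι τ 4 (by norm_num) h1.2
  · by_cases h2 : InQ8 (τ ^ 2)
    · -- `d = 2`
      have hd : ordQ8 τ = 2 := by unfold ordQ8; rw [if_neg h1, if_pos h2]
      rw [hd] at h
      have hs : AutomorphicForm.satakePow 2 a 1 = a * a - 2 := by
        rw [show (2 : ℕ) = 0 + 2 from rfl, AutomorphicForm.satakePow_add_two]
        simp
      rw [hs] at h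
      have ht : ‖trΨ Ψ ι (τ ^ 2)‖ ≤ 2 := norm_trΨ_le_two176 Ψ ι (τ ^ 2) 4 (by norm_num) h2.2
      have haa : a * a = 2 + trΨ Ψ ι (τ ^ 2) := by linear_combination h
      have hn : ‖a‖ * ‖a‖ ≤ 2 * 2 := by
        rw [← norm_mul, haa]
        calc ‖(2 : ℂ) + trΨ Ψ ι (τ ^ 2)‖ ≤ ‖(2 : ℂ)‖ + ‖trΨ Ψ ι (τ ^ 2)‖ := norm_add_le _ _
          _ ≤ 2 + 2 := by
              have : ‖(2 : ℂ)‖ = 2 := by norm_num
              rw [this]; linarith
          _ = 2 * 2 := by norm_num
      by_contra hcon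
      have hlt : (2 : ℝ) < ‖a‖ := not_le.mp hcon
      nlinarith [norm_nonneg a]
    · -- `d = 3`
      have hd : ordQ8 τ = 3 := by unfold ordQ8; rw [if_neg h1, if_neg h2]
      rw [hd] at h
      have hs : AutomorphicForm.satakePow 3 a 1 = a ^ 3 - 3 * a := by
        rw [show (3 : ℕ) = 1 + 2 from rfl, AutomorphicForm.satakePow_add_two,
          show (1 + 1 : ℕ) = 0 + 2 from rfl, AutomorphicForm.satakePow_add_two]
        simp
        ring
      rw [hs] at h
      rcases cube_cases176 τ hdet with h4 | h3 | h3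
      · exact absurd ⟨hdet, h4⟩ h1
      · rw [h3, trΨ_one176] at h
        exact norm_le_two_of_cubic_pos176 a h
      · rw [h3, trΨ_neg_one176 Ψ ι hΨ] at h
        exact norm_le_two_of_cubic_neg176 a h

end Fermat.Agent.LT.T7.H176

end

end
-- ===== PACK-END LT/T7/H176/Bound.lean

-- ===== PACK-BEGIN LT/T7/H176/TotCplx.lean
section



/-!
# Row LT, tower T7, leaf T7.07 (helper176), OFF-MAIN: the station `F` is totally complex

`F = fieldF ρ` is the fixed field of `ρ⁻¹(SL₂(𝔽₃)) = ker (det ∘ ρ) = ker χ₃` (hypothesis `det` of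
`LTB.Hyp`), so it contains a primitive cube root of unity `ζ` of `ℚ̄` (`σ ζ = ζ ^ χ₃(σ)`).  The
image of `ζ` under an embedding `F → ℂ` is a root of `x² + x + 1`, hence not real.
-/

set_option autoImplicit false

open IsDedekindDomain NumberField WeierstrassCurve

noncomputable section

namespace Fermat.Agent.LT.T7.H176

open Fermat.Agent.LT.H130 Fermat.Agent.LT.T7

local notation "Γℚ" => (AlgebraicClosure ℚ ≃ₐ[ℚ] AlgebraicClosure ℚ)

/-- A primitive cube root of unity of `ℚ̄`. -/
theorem exists_zeta176 : ∃ ζ : AlgebraicClosure ℚ, IsPrimitiveRoot ζ 3 :=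
  HasEnoughRootsOfUnity.exists_primitiveRoot (AlgebraicClosure ℚ) 3

/-- An element of the kernel of the mod-3 cyclotomic character fixes the cube roots of unity. -/
theorem fix_of_char_eq_one176 (σ : Γℚ) (hσ : modThreeCyclotomicChar σ = 1)
    (ζ : AlgebraicClosure ℚ) (hζ : IsPrimitiveRoot ζ 3) : σ ζ = ζ := by
  have hunit : IsUnit ζ := hζ.isUnit (by norm_num)
  obtain ⟨t, rfl⟩ := hunit
  have ht : t ∈ rootsOfUnity 3 (AlgebraicClosure ℚ) := by
    rw [mem_rootsOfUnity]
    apply Units.ext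
    rw [Units.val_pow_eq_pow_val]
    exact hζ.pow_eq_one
  have h := modularCyclotomicCharacter.spec (L := AlgebraicClosure ℚ)
    (IsAlgClosed.card_rootsOfUnity_eq (AlgebraicClosure ℚ) 3)
    (σ : AlgebraicClosure ℚ ≃+* AlgebraicClosure ℚ) ht
  rw [modThreeCyclotomicChar_apply] at hσ
  rw [hσ] at h
  have hval : ((1 : (ZMod 3)ˣ) : ZMod 3).val = 1 := by decide
  rw [hval, pow_one] at h
  exact h

/-- The cube roots of unity lie in `F`. -/
theorem zeta_mem_fieldF176 (ρ : Γℚ →* GL (Fin 2) (ZMod 3))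
    (hdet : ∀ σ : Γℚ, Matrix.GeneralLinearGroup.det (ρ σ) = modThreeCyclotomicChar σ)
    (ζ : AlgebraicClosure ℚ) (hζ : IsPrimitiveRoot ζ 3) : ζ ∈ fieldF ρ := by
  unfold fieldF
  rw [IntermediateField.mem_fixedField_iff]
  intro σ hσ
  have h1 : Matrix.GeneralLinearGroup.det (ρ σ) = 1 := by
    have : σ ∈ (Matrix.GeneralLinearGroup.det.comp ρ).ker := hσ
    rw [MonoidHom.mem_ker] at this
    exact this
  rw [hdet σ] at h1
  exact fix_of_char_eq_one176 σ h1 ζ hζ

/-- A complex number with `z² + z + 1 = 0` is not fixed by complex conjugation. -/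
theorem conj_ne_of_root176 (z : ℂ) (hz : z ^ 2 + z + 1 = 0) : (starRingEnd ℂ) z ≠ z := by
  intro h
  have him : z.im = 0 := Complex.conj_eq_iff_im.mp h
  have hre := congrArg Complex.re hz
  simp only [Complex.add_re, Complex.one_re, Complex.zero_re, pow_two, Complex.mul_re, him,
    mul_zero, sub_zero] at hre
  nlinarith [sq_nonneg (z.re + 1 / 2)]

/-- **The station `F = fieldF ρ` is totally complex.** -/
theorem totCplx_fieldF176 (ρ : Γℚ →* GL (Fin 2) (ZMod 3))
    (hdet : ∀ σ : Γℚ, Matrix.GeneralLinearGroup.det (ρ σ) = modThreeCyclotomicChar σ)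
    (nf : NumberField (fieldF ρ)) : TotCplx (fieldF ρ) := by
  intro w
  rw [← InfinitePlace.not_isReal_iff_isComplex]
  intro hw
  obtain ⟨ζ, hζ⟩ := exists_zeta176
  have hmem := zeta_mem_fieldF176 ρ hdet ζ hζ
  set x : fieldF ρ := ⟨ζ, hmem⟩ with hx
  have hpoly : x ^ 2 + x + 1 = 0 := by
    apply Subtype.ext
    have h3 : ζ ^ 3 = 1 := hζ.pow_eq_one
    have h1 : ζ ≠ 1 := hζ.ne_one (by norm_num)
    have hf : (ζ - 1) * (ζ ^ 2 + ζ + 1) = 0 := by linear_combination h3
    rcases mul_eq_zero.mp hf with h | h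
    · exact absurd (sub_eq_zero.mp h) h1
    · simpa [hx] using h
  have hreal : NumberField.ComplexEmbedding.IsReal w.embedding :=
    InfinitePlace.isReal_iff.mp hw
  have hconj : (starRingEnd ℂ) (w.embedding x) = w.embedding x := by
    have := NumberField.ComplexEmbedding.isReal_iff.mp hreal
    have h2 := congrArg (fun φ : (fieldF ρ) →+* ℂ => φ x) this
    simpa [NumberField.ComplexEmbedding.conjugate_coe_eq] using h2
  have hz : (w.embedding x) ^ 2 + w.embedding x + 1 = 0 := by
    rw [← map_pow, ← map_add, ← map_one w.embedding, ← map_add, hpoly, map_zero]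
  exact conj_ne_of_root176 _ hz hconj

end Fermat.Agent.LT.T7.H176

end

end
-- ===== PACK-END LT/T7/H176/TotCplx.lean

-- ===== PACK-BEGIN LT/T7/H496/TwistBasic.lean
section


/-!
# Row LT, tower T7, leaf T7.01 `TwistC` (helper496), OFF-MAIN: basic vocabulary

The twist map `tw496 : g ↦ g · (det g)` (scalar matrix of the idele `det g`) is a continuous
group endomorphism of `GL₂(𝔸_K)`; components of adelic matrices as ring homomorphisms.
-/

set_option autoImplicit false

open IsDedekindDomain NumberField AutomorphicForm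
open scoped MatrixGroups

noncomputable section

namespace Fermat.Agent.LT.T7.H496

open Fermat.Agent.LT.H556 Fermat.Agent.LT.H556.A0

variable {K : Type} [Field K] [NumberField K]

/-! ## Evaluation maps -/

/-- Evaluation of an adele at a finite place. -/
def evF496 (v : HeightOneSpectrum (𝓞 K)) : Adl K →+* v.adicCompletion K :=
  (RestrictedProduct.evalRingHom _ v).comp (RingHom.snd _ _)

/-- Evaluation of an adele at an infinite place. -/
def evI496 (w : InfinitePlace K) : Adl K →+* w.Completion :=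
  (Pi.evalRingHom _ w).comp (RingHom.fst _ _)

/-- Evaluation of an adele at an infinite place, read in `ℂ`. -/
def evC496 (w : InfinitePlace K) : Adl K →+* ℂ :=
  (InfinitePlace.Completion.extensionEmbedding w).comp (evI496 w)

theorem evF496_apply (v : HeightOneSpectrum (𝓞 K)) (x : Adl K) : evF496 v x = x.2 v := rfl

theorem evI496_apply (w : InfinitePlace K) (x : Adl K) : evI496 w x = x.1 w := rfl

theorem evC496_apply (w : InfinitePlace K) (x : Adl K) :
    evC496 w x = InfinitePlace.Completion.extensionEmbedding w (evI496 w x) := rfl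

/-- Two adeles with the same components are equal. -/
theorem adl_ext496 {x y : Adl K} (hI : ∀ w : InfinitePlace K, evI496 w x = evI496 w y)
    (hF : ∀ v : HeightOneSpectrum (𝓞 K), evF496 v x = evF496 v y) : x = y := by
  refine Prod.ext (funext hI) ?_
  exact RestrictedProduct.ext _ _ hF

/-- The raw matrix of `g` at the infinite place `w` (entries in the completion). -/
def rawInf496 (w : InfinitePlace K) (g : G K) : Matrix (Fin 2) (Fin 2) w.Completion :=
  (g : Matrix (Fin 2) (Fin 2) (Adl K)).map (evI496 w)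

theorem finComp_eq_map496 (v : HeightOneSpectrum (𝓞 K)) (g : G K) :
    finComp v g = (g : Matrix (Fin 2) (Fin 2) (Adl K)).map (evF496 v) := rfl

theorem infComp_eq_map496 (w : InfinitePlace K) (g : G K) :
    infComp w g = (g : Matrix (Fin 2) (Fin 2) (Adl K)).map (evC496 w) := rfl

theorem infComp_eq_rawInf496 (w : InfinitePlace K) (g : G K) :
    infComp w g = (rawInf496 w g).map (InfinitePlace.Completion.extensionEmbedding w) := rfl

theorem trivAtInf_iff496 (w : InfinitePlace K) (g : G K) :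
    TrivAtInf w g ↔ rawInf496 w g = 1 := by
  constructor
  · intro h
    exact Matrix.ext fun i j => h i j
  · intro h i j
    have := congrFun (congrFun h i) j
    exact this

theorem trivAtFin_iff496 (v : HeightOneSpectrum (𝓞 K)) (g : G K) :
    TrivAtFin v g ↔ finComp v g = 1 := Iff.rfl

/-- Extensionality for adelic matrices. -/
theorem g_ext496 {g h : G K} (hI : ∀ w : InfinitePlace K, rawInf496 w g = rawInf496 w h)
    (hF : ∀ v : HeightOneSpectrum (𝓞 K), finComp v g = finComp v h) : g = h := by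
  apply Units.ext
  refine Matrix.ext fun i j => ?_
  refine adl_ext496 (fun w => ?_) (fun v => ?_)
  · exact congrFun (congrFun (hI w) i) j
  · exact congrFun (congrFun (hF v) i) j

theorem finComp_mul496 (v : HeightOneSpectrum (𝓞 K)) (g h : G K) :
    finComp v (g * h) = finComp v g * finComp v h := by
  rw [finComp_eq_map496, finComp_eq_map496, finComp_eq_map496, Units.val_mul, Matrix.map_mul]

theorem infComp_mul496 (w : InfinitePlace K) (g h : G K) :
    infComp w (g * h) = infComp w g * infComp w h := by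
  rw [infComp_eq_map496, infComp_eq_map496, infComp_eq_map496, Units.val_mul, Matrix.map_mul]

theorem rawInf_mul496 (w : InfinitePlace K) (g h : G K) :
    rawInf496 w (g * h) = rawInf496 w g * rawInf496 w h := by
  unfold rawInf496
  rw [Units.val_mul, Matrix.map_mul]

theorem finComp_one496 (v : HeightOneSpectrum (𝓞 K)) : finComp v (1 : G K) = 1 := by
  rw [finComp_eq_map496, Units.val_one, Matrix.map_one _ (map_zero _) (map_one _)]

theorem infComp_one496 (w : InfinitePlace K) : infComp w (1 : G K) = 1 := by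
  rw [infComp_eq_map496, Units.val_one, Matrix.map_one _ (map_zero _) (map_one _)]

theorem rawInf_one496 (w : InfinitePlace K) : rawInf496 w (1 : G K) = 1 := by
  unfold rawInf496
  rw [Units.val_one, Matrix.map_one _ (map_zero _) (map_one _)]

theorem infComp_of_rawInf_one496 (w : InfinitePlace K) (g : G K) (h : rawInf496 w g = 1) :
    infComp w g = 1 := by
  rw [infComp_eq_rawInf496, h, Matrix.map_one _ (map_zero _) (map_one _)]

theorem finComp_det496 (v : HeightOneSpectrum (𝓞 K)) (g : G K) :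
    evF496 v ((Matrix.GeneralLinearGroup.det g : (Adl K)ˣ) : Adl K) = (finComp v g).det := by
  rw [finComp_eq_map496]
  exact RingHom.map_det (evF496 v) _

theorem infComp_det496 (w : InfinitePlace K) (g : G K) :
    evC496 w ((Matrix.GeneralLinearGroup.det g : (Adl K)ˣ) : Adl K) = (infComp w g).det := by
  rw [infComp_eq_map496]
  exact RingHom.map_det (evC496 w) _

theorem rawInf_det496 (w : InfinitePlace K) (g : G K) :
    evI496 w ((Matrix.GeneralLinearGroup.det g : (Adl K)ˣ) : Adl K) = (rawInf496 w g).det := by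
  unfold rawInf496
  exact RingHom.map_det (evI496 w) _

/-! ## Scalar matrices and the twist map -/

/-- The scalar matrix of an idele. -/
abbrev sc496 : (Adl K)ˣ →* G K := Matrix.GeneralLinearGroup.scalar (Fin 2)

theorem sc496_coe (x : (Adl K)ˣ) :
    ((sc496 x : G K) : Matrix (Fin 2) (Fin 2) (Adl K)) = Matrix.diagonal fun _ => (x : Adl K) :=
  rfl

theorem finComp_sc496 (v : HeightOneSpectrum (𝓞 K)) (x : (Adl K)ˣ) :
    finComp v (sc496 x) = Matrix.diagonal fun _ => evF496 v (x : Adl K) := by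
  rw [finComp_eq_map496, sc496_coe, Matrix.diagonal_map (map_zero _)]

theorem infComp_sc496 (w : InfinitePlace K) (x : (Adl K)ˣ) :
    infComp w (sc496 x) = Matrix.diagonal fun _ => evC496 w (x : Adl K) := by
  rw [infComp_eq_map496, sc496_coe, Matrix.diagonal_map (map_zero _)]

theorem rawInf_sc496 (w : InfinitePlace K) (x : (Adl K)ˣ) :
    rawInf496 w (sc496 x) = Matrix.diagonal fun _ => evI496 w (x : Adl K) := by
  unfold rawInf496
  rw [sc496_coe, Matrix.diagonal_map (map_zero _)]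

theorem sc496_comm (x : (Adl K)ˣ) (g : G K) : sc496 x * g = g * sc496 x :=
  Matrix.GeneralLinearGroup.scalar_commute x g

/-- The scalar matrix of the determinant. -/
def sd496 (g : G K) : G K := sc496 (Matrix.GeneralLinearGroup.det g)

theorem finComp_sd496 (v : HeightOneSpectrum (𝓞 K)) (g : G K) :
    finComp v (sd496 g) = Matrix.diagonal fun _ => (finComp v g).det := by
  unfold sd496
  rw [finComp_sc496, finComp_det496]

theorem infComp_sd496 (w : InfinitePlace K) (g : G K) :
    infComp w (sd496 g) = Matrix.diagonal fun _ => (infComp w g).det := by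
  unfold sd496
  rw [infComp_sc496, infComp_det496]

theorem rawInf_sd496 (w : InfinitePlace K) (g : G K) :
    rawInf496 w (sd496 g) = Matrix.diagonal fun _ => (rawInf496 w g).det := by
  unfold sd496
  rw [rawInf_sc496, rawInf_det496]

theorem sd496_mul (g h : G K) : sd496 (g * h) = sd496 g * sd496 h := by
  unfold sd496
  rw [map_mul, map_mul]

theorem sd496_inv (g : G K) : sd496 g⁻¹ = (sd496 g)⁻¹ := by
  unfold sd496
  rw [map_inv, map_inv]

theorem sd496_comm (g h : G K) : sd496 g * h = h * sd496 g := sc496_comm _ h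

/-- The twist map `g ↦ g · (det g)`, a group endomorphism of `GL₂(𝔸_K)`. -/
def tw496 : G K →* G K where
  toFun g := g * sd496 g
  map_one' := by
    unfold sd496
    simp
  map_mul' a b := by
    rw [sd496_mul]
    calc a * b * (sd496 a * sd496 b) = a * (b * sd496 a) * sd496 b := by
          simp only [mul_assoc]
      _ = a * (sd496 a * b) * sd496 b := by rw [sd496_comm a b]
      _ = _ := by simp only [mul_assoc]

theorem tw496_apply (g : G K) : tw496 g = g * sd496 g := rfl

theorem continuous_det496 :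
    Continuous (Matrix.GeneralLinearGroup.det : G K → (Adl K)ˣ) := by
  have h0 : Continuous (Matrix.detMonoidHom : Matrix (Fin 2) (Fin 2) (Adl K) →* Adl K) := by
    show Continuous fun x : Matrix (Fin 2) (Fin 2) (Adl K) => x.det
    exact continuous_id.matrix_det
  exact Continuous.units_map _ h0

theorem continuous_sc496 : Continuous (sc496 : (Adl K)ˣ → G K) := by
  have h0 : Continuous
      ((Matrix.scalar (Fin 2)).toMonoidHom : Adl K →* Matrix (Fin 2) (Fin 2) (Adl K)) := by
    show Continuous fun x : Adl K => Matrix.scalar (Fin 2) x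
    exact Continuous.matrix_diagonal (continuous_pi fun _ => continuous_id)
  exact Continuous.units_map _ h0

theorem continuous_tw496 : Continuous (tw496 : G K → G K) := by
  show Continuous fun g : G K => g * sc496 (Matrix.GeneralLinearGroup.det g)
  exact continuous_id.mul (continuous_sc496.comp continuous_det496)

/-! ## Components of the twist -/

theorem finComp_tw496 (v : HeightOneSpectrum (𝓞 K)) (g : G K) :
    finComp v (tw496 g) = finComp v g * Matrix.diagonal fun _ => (finComp v g).det := by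
  rw [tw496_apply, finComp_mul496, finComp_sd496]

theorem infComp_tw496 (w : InfinitePlace K) (g : G K) :
    infComp w (tw496 g) = infComp w g * Matrix.diagonal fun _ => (infComp w g).det := by
  rw [tw496_apply, infComp_mul496, infComp_sd496]

theorem rawInf_tw496 (w : InfinitePlace K) (g : G K) :
    rawInf496 w (tw496 g) = rawInf496 w g * Matrix.diagonal fun _ => (rawInf496 w g).det := by
  rw [tw496_apply, rawInf_mul496, rawInf_sd496]

theorem trivAtInf_sd496 {w : InfinitePlace K} {g : G K} (h : TrivAtInf w g) :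
    TrivAtInf w (sd496 g) := by
  rw [trivAtInf_iff496] at h ⊢
  rw [rawInf_sd496, h, Matrix.det_one]
  exact Matrix.diagonal_one

theorem trivAtFin_sd496 {v : HeightOneSpectrum (𝓞 K)} {g : G K} (h : TrivAtFin v g) :
    TrivAtFin v (sd496 g) := by
  rw [trivAtFin_iff496] at h ⊢
  rw [finComp_sd496, h, Matrix.det_one]
  exact Matrix.diagonal_one

theorem trivAtInf_mul496 {w : InfinitePlace K} {g h : G K} (hg : TrivAtInf w g)
    (hh : TrivAtInf w h) : TrivAtInf w (g * h) := by
  rw [trivAtInf_iff496] at hg hh ⊢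
  rw [rawInf_mul496, hg, hh, one_mul]

theorem trivAtFin_mul496 {v : HeightOneSpectrum (𝓞 K)} {g h : G K} (hg : TrivAtFin v g)
    (hh : TrivAtFin v h) : TrivAtFin v (g * h) := by
  rw [trivAtFin_iff496] at hg hh ⊢
  rw [finComp_mul496, hg, hh, one_mul]

theorem trivAtInf_tw496 {w : InfinitePlace K} {g : G K} (h : TrivAtInf w g) :
    TrivAtInf w (tw496 g) :=
  trivAtInf_mul496 h (trivAtInf_sd496 h)

theorem trivAtFin_tw496 {v : HeightOneSpectrum (𝓞 K)} {g : G K} (h : TrivAtFin v g) :
    TrivAtFin v (tw496 g) :=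
  trivAtFin_mul496 h (trivAtFin_sd496 h)

theorem isLocalAtInf_sd496 {w : InfinitePlace K} {g : G K} (h : IsLocalAtInf w g) :
    IsLocalAtInf w (sd496 g) :=
  ⟨fun w' hw' => trivAtInf_sd496 (h.1 w' hw'), fun v => trivAtFin_sd496 (h.2 v)⟩

theorem isLocalAtInf_tw496 {w : InfinitePlace K} {g : G K} (h : IsLocalAtInf w g) :
    IsLocalAtInf w (tw496 g) :=
  ⟨fun w' hw' => trivAtInf_tw496 (h.1 w' hw'), fun v => trivAtFin_tw496 (h.2 v)⟩

theorem isLocalAtFin_sd496 {v : HeightOneSpectrum (𝓞 K)} {g : G K} (h : IsLocalAtFin v g) :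
    IsLocalAtFin v (sd496 g) :=
  ⟨fun w => trivAtInf_sd496 (h.1 w), fun v' hv' => trivAtFin_sd496 (h.2 v' hv')⟩

theorem isLocalAtFin_mul496 {v : HeightOneSpectrum (𝓞 K)} {g h : G K} (hg : IsLocalAtFin v g)
    (hh : IsLocalAtFin v h) : IsLocalAtFin v (g * h) :=
  ⟨fun w => trivAtInf_mul496 (hg.1 w) (hh.1 w),
    fun v' hv' => trivAtFin_mul496 (hg.2 v' hv') (hh.2 v' hv')⟩

end Fermat.Agent.LT.T7.H496

end

end
-- ===== PACK-END LT/T7/H496/TwistBasic.lean

-- ===== PACK-BEGIN LT/T7/H231/DictEFFields.lean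
section




/-!
# Row LT, tower T7, leaf T7.05 `DictEFC` (helper231, spare): the fields `F ⊂ E`

OFF-MAIN.

* group theory of `GL₂(𝔽₃) ⊃ SL₂(𝔽₃) ⊃ Q8`: `[SL₂(𝔽₃) : Q8] = 3` (`relIndex_Q8_SL231`: the
  quotient has exponent `3`, its order divides `48` and it is not trivial),
  `ordQ8 g = ordSL g * ordQ8 (g ^ ordSL g)` (`ordQ8_eq_mul231`), `ordQ8 g` is the least `k ≥ 1`
  with `g ^ k ∈ Q8` (`inQ8_pow_ordQ8_231`, `ordQ8_min231`);
* `F = fieldF ρ ⊆ E = fieldE ρ` (`fieldF_le_fieldE231`), the algebra structure of the inclusion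
  (`algFE231`), `E / F` is Galois of degree `3` for `ρ` continuous and surjective
  (`isCycExt_FE231`).
-/

set_option autoImplicit false
set_option linter.unusedSectionVars false
set_option linter.style.haveILetI false

open scoped MatrixGroups
open NumberField

noncomputable section

namespace Fermat.Agent.LT.T7.H231

open Fermat.Agent.LT.H130 Fermat.Agent.LT.A2.H230 Fermat.Agent.LT.T7

local notation "Γℚ" => (AlgebraicClosure ℚ ≃ₐ[ℚ] AlgebraicClosure ℚ)

/-! ## Group theory -/

/-- `g ^ ordQ8 g ∈ Q8`. -/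
theorem inQ8_pow_ordQ8_231 (g : GL (Fin 2) (ZMod 3)) : InQ8 (g ^ ordQ8 g) := by
  classical
  unfold ordQ8
  by_cases h1 : InQ8 g
  · rw [if_pos h1, pow_one]
    exact h1
  · rw [if_neg h1]
    by_cases h2 : InQ8 (g ^ 2)
    · rw [if_pos h2]
      exact h2
    · rw [if_neg h2]
      by_cases hdet : Matrix.GeneralLinearGroup.det g = 1
      · exact inQ8_cube231 hdet
      · exact absurd (inQ8_sq_of_det_ne231 hdet) h2

theorem ordQ8_pos231 (g : GL (Fin 2) (ZMod 3)) : 0 < ordQ8 g := by
  classical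
  unfold ordQ8
  split_ifs <;> norm_num

theorem ordQ8_le_three231 (g : GL (Fin 2) (ZMod 3)) : ordQ8 g ≤ 3 := by
  classical
  unfold ordQ8
  split_ifs <;> norm_num

/-- `ordQ8 g` is the least positive exponent `k` with `g ^ k ∈ Q8`. -/
theorem ordQ8_min231 {g : GL (Fin 2) (ZMod 3)} {k : ℕ} (hk : 0 < k) (hle : k ≤ ordQ8 g)
    (h : InQ8 (g ^ k)) : k = ordQ8 g := by
  classical
  unfold ordQ8 at hle ⊢
  by_cases h1 : InQ8 g
  · rw [if_pos h1] at hle ⊢
    omega
  · rw [if_neg h1] at hle ⊢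
    by_cases h2 : InQ8 (g ^ 2)
    · rw [if_pos h2] at hle ⊢
      have hcases : k = 1 ∨ k = 2 := by omega
      rcases hcases with rfl | rfl
      · rw [pow_one] at h
        exact absurd h h1
      · rfl
    · rw [if_neg h2] at hle ⊢
      have hcases : k = 1 ∨ k = 2 ∨ k = 3 := by omega
      rcases hcases with rfl | rfl | rfl
      · rw [pow_one] at h
        exact absurd h h1
      · exact absurd h h2
      · rfl

/-- `ordQ8 g = ordSL g * ordQ8 (g ^ ordSL g)` (`GL₂(𝔽₃) / Q8 ≅ S₃`). -/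
theorem ordQ8_eq_mul231 (g : GL (Fin 2) (ZMod 3)) :
    ordQ8 g = ordSL g * ordQ8 (g ^ ordSL g) := by
  classical
  by_cases hdet : Matrix.GeneralLinearGroup.det g = 1
  · have h1 : ordSL g = 1 := by unfold ordSL; rw [if_pos hdet]
    rw [h1, pow_one, one_mul]
  · have h1 : ordSL g = 2 := by unfold ordSL; rw [if_neg hdet]
    have h2 : InQ8 (g ^ 2) := inQ8_sq_of_det_ne231 hdet
    have h3 : ¬ InQ8 g := fun h => hdet h.1
    have h4 : ordQ8 (g ^ 2) = 1 := by unfold ordQ8; rw [if_pos h2]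
    have h5 : ordQ8 g = 2 := by unfold ordQ8; rw [if_neg h3, if_pos h2]
    rw [h1, h4, h5]

/-- `g ^ ordQ8 g = (g ^ ordSL g) ^ ordQ8 (g ^ ordSL g)`. -/
theorem pow_ordQ8_eq231 (g : GL (Fin 2) (ZMod 3)) :
    g ^ ordQ8 g = (g ^ ordSL g) ^ ordQ8 (g ^ ordSL g) := by
  rw [← pow_mul, ← ordQ8_eq_mul231]

/-- `SL₂(𝔽₃)` as a subgroup of `GL₂(𝔽₃)`. -/
def SLgrp231 : Subgroup (GL (Fin 2) (ZMod 3)) :=
  (Matrix.GeneralLinearGroup.det : GL (Fin 2) (ZMod 3) →* (ZMod 3)ˣ).ker

theorem mem_SLgrp231 {g : GL (Fin 2) (ZMod 3)} :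
    g ∈ SLgrp231 ↔ Matrix.GeneralLinearGroup.det g = 1 := MonoidHom.mem_ker

theorem Q8grp_le_SLgrp231 : Q8grp230 ≤ SLgrp231 := fun _ hg => mem_SLgrp231.mpr hg.1

/-- The unipotent element `[1, 1; 0, 1]`. -/
def u231 : GL (Fin 2) (ZMod 3) :=
  Matrix.GeneralLinearGroup.mkOfDetNeZero !![1, 1; 0, 1] (by decide)

theorem u_mem_SLgrp231 : u231 ∈ SLgrp231 := by
  rw [mem_SLgrp231, det_eq_one_iff231]
  decide

theorem u_not_inQ8_231 : ¬ InQ8 u231 := by
  rw [inQ8_iff230]
  unfold HasEntries230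
  decide

theorem card_GL231 : Nat.card (GL (Fin 2) (ZMod 3)) = 48 := by
  rw [Matrix.card_GL_field]
  simp [Fin.prod_univ_two, ZMod.card]

/-- `[SL₂(𝔽₃) : Q8] = 3`. -/
theorem relIndex_Q8_SL231 : Q8grp230.relIndex SLgrp231 = 3 := by
  classical
  haveI hfin : Finite (GL (Fin 2) (ZMod 3)) := Nat.finite_of_card_ne_zero (by rw [card_GL231]; norm_num)
  haveI hN : (Q8grp230.subgroupOf SLgrp231).Normal := Subgroup.normal_subgroupOf
  -- the quotient is a `3`-group
  have hP : IsPGroup 3 (SLgrp231 ⧸ Q8grp230.subgroupOf SLgrp231) := by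
    intro x
    refine ⟨1, ?_⟩
    obtain ⟨g, rfl⟩ := QuotientGroup.mk_surjective x
    rw [pow_one, ← QuotientGroup.mk_pow, QuotientGroup.eq_one_iff, Subgroup.mem_subgroupOf]
    show InQ8 (((g ^ 3 : SLgrp231) : GL (Fin 2) (ZMod 3)))
    rw [Subgroup.coe_pow]
    exact inQ8_cube231 (mem_SLgrp231.mp g.2)
  haveI : Fact (Nat.Prime 3) := ⟨Nat.prime_three⟩
  obtain ⟨n, hn⟩ := (IsPGroup.iff_card (p := 3)).mp hP
  have hrel : Q8grp230.relIndex SLgrp231 = 3 ^ n := by
    rw [← hn]
    rfl
  -- it divides `48`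
  have hdvd : 3 ^ n ∣ 48 := by
    rw [← hrel, ← card_GL231]
    exact (Subgroup.relIndex_dvd_card _ _).trans (Subgroup.card_subgroup_dvd_card _)
  have hn1 : n ≤ 1 := by
    by_contra hcon
    have h2 : 2 ≤ n := by omega
    have h9 : 3 ^ 2 ∣ 48 := (pow_dvd_pow 3 h2).trans hdvd
    norm_num at h9
  -- it is not `1`
  have hn0 : n ≠ 0 := by
    intro h0
    rw [h0, pow_zero] at hrel
    have hle : SLgrp231 ≤ Q8grp230 := Subgroup.relIndex_eq_one.mp hrel
    exact u_not_inQ8_231 (hle u_mem_SLgrp231)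
  have : n = 1 := by omega
  rw [hrel, this, pow_one]

/-! ## The subgroups of `Gal(ℚ̄/ℚ)` -/

variable (ρ : Γℚ →* GL (Fin 2) (ZMod 3))

theorem subSL_eq_comap231 : subSL ρ = SLgrp231.comap ρ := by
  unfold subSL SLgrp231
  exact (MonoidHom.comap_ker _ _).symm

theorem subQ8_le_subSL231 : subQ8 ρ ≤ subSL ρ := by
  rw [subQ8_eq_comap230, subSL_eq_comap231]
  exact Subgroup.comap_mono Q8grp_le_SLgrp231

theorem ker_le_subSL231 : ρ.ker ≤ subSL ρ := (ker_le_subQ8_230 ρ).trans (subQ8_le_subSL231 ρ)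

variable {ρ}

theorem isOpen_subSL231 (hρ : Continuous ρ) : IsOpen ((subSL ρ : Subgroup Γℚ) : Set Γℚ) :=
  Subgroup.isOpen_mono (ker_le_subSL231 ρ) (isOpen_ker230 hρ)

/-- `[ρ⁻¹(SL₂) : ρ⁻¹(Q8)] = 3`. -/
theorem relIndex_subQ8_subSL231 (hsurj : Function.Surjective ρ) :
    (subQ8 ρ).relIndex (subSL ρ) = 3 := by
  rw [subQ8_eq_comap230, subSL_eq_comap231, Subgroup.relIndex_comap,
    Subgroup.map_comap_eq_self_of_surjective hsurj]
  exact relIndex_Q8_SL231

theorem finiteDimensional_fieldF231 (hρ : Continuous ρ) : FiniteDimensional ℚ (fieldF ρ) :=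
  finiteDimensional_fixedField_of_isOpen230 _ (isOpen_subSL231 hρ)

/-- `F = fieldF ρ` is a number field. -/
theorem numberField_fieldF231 (hρ : Continuous ρ) : NumberField (fieldF ρ) :=
  haveI := finiteDimensional_fieldF231 hρ
  { to_charZero := inferInstance, to_finiteDimensional := inferInstance }

/-- `[E : ℚ] = 3 [F : ℚ]`. -/
theorem finrank_fieldE_eq231 (hρ : Continuous ρ) (hsurj : Function.Surjective ρ) :
    Module.finrank ℚ (fieldE ρ) = 3 * Module.finrank ℚ (fieldF ρ) := by
  unfold fieldE fieldF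
  rw [finrank_fixedField_of_isOpen230 _ (isOpen_subQ8_230 hρ),
    finrank_fixedField_of_isOpen230 _ (isOpen_subSL231 hρ),
    ← Subgroup.relIndex_mul_index (subQ8_le_subSL231 ρ), relIndex_subQ8_subSL231 hsurj]

variable (ρ)

/-- `F ⊆ E`. -/
theorem fieldF_le_fieldE231 : fieldF ρ ≤ fieldE ρ :=
  IntermediateField.fixedField_le (subQ8_le_subSL231 ρ)

/-- The algebra structure of the inclusion `F ⊆ E`. -/
@[reducible] def algFE231 : Algebra (fieldF ρ) (fieldE ρ) :=
  (IntermediateField.inclusion (fieldF_le_fieldE231 ρ)).toRingHom.toAlgebra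

theorem algFE_coe231 (x : fieldF ρ) :
    (((algFE231 ρ).algebraMap x : fieldE ρ) : AlgebraicClosure ℚ) = (x : AlgebraicClosure ℚ) :=
  rfl

theorem isScalarTower_FE231 :
    letI := algFE231 ρ
    IsScalarTower ℚ (fieldF ρ) (fieldE ρ) := by
  letI := algFE231 ρ
  refine IsScalarTower.of_algebraMap_eq fun q => ?_
  exact ((IntermediateField.inclusion (fieldF_le_fieldE231 ρ)).commutes q).symm

variable {ρ}

/-- **`E / F` is Galois of degree `3`.** -/
theorem isCycExt_FE231 (hρ : Continuous ρ) (hsurj : Function.Surjective ρ)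
    [NumberField (fieldF ρ)] [NumberField (fieldE ρ)] :
    letI := algFE231 ρ
    IsCycExt (fieldF ρ) (fieldE ρ) 3 := by
  letI := algFE231 ρ
  haveI := isScalarTower_FE231 ρ
  haveI nE := normal_fieldE231 ρ
  haveI gE : IsGalois ℚ (fieldE ρ) := isGalois_iff.mpr ⟨inferInstance, nE⟩
  refine ⟨Nat.prime_three, IsGalois.tower_top_of_isGalois ℚ (fieldF ρ) (fieldE ρ), ?_⟩
  have h1 := Module.finrank_mul_finrank ℚ (fieldF ρ) (fieldE ρ)
  rw [finrank_fieldE_eq231 hρ hsurj] at h1
  have h2 : 0 < Module.finrank ℚ (fieldF ρ) := Module.finrank_pos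
  have h3 : Module.finrank ℚ (fieldF ρ) * Module.finrank (fieldF ρ) (fieldE ρ)
      = Module.finrank ℚ (fieldF ρ) * 3 := by rw [h1, mul_comm]
  exact Nat.eq_of_mul_eq_mul_left h2 h3

end Fermat.Agent.LT.T7.H231

end

end
-- ===== PACK-END LT/T7/H231/DictEFFields.lean

-- ===== PACK-BEGIN LT/T7/H621/ConjSpec.lean
section




/-!
# Row LT, tower T7, leaf T7.02 `ConjC` (owner helper621) -- the CUT, frozen interfaces

OFF-MAIN.  Definitions, frozen sub-leaf Props, PROVED top.  No `sorry`, nothing assumed.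

Vocabulary: `LT/T7/Spec.lean` (helper797@31d807178, byte-identical), `LT/H556/A0.lean`
(helper556@0fa0be5a0, byte-identical), `LT/T1/H930/AdeleAut.lean` (helper930@55cec4b4d,
byte-identical: the adelic isomorphism `adeleEquiv930 s` of a field isomorphism `s`, with its
components `finMapEquiv930`, `infMapHom930` and the pulled back places `finPull930`, `infPull930`).

## Objects (all explicit)

* `conjG621 s : GL₂(𝔸_K) →* GL₂(𝔸_K)` : `adeleEquiv930 s` entrywise.
* `conjFn621 s φ = φ ∘ conjG621 s⁻¹` : the transported function.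
* `conjSys621 s π` : level `s(𝔫)`, `a_{v'} = a_{s⁻¹ v'}`, `b_{v'} = b_{s⁻¹ v'}`
  (`s⁻¹ v' = finPull930 s v'`).

## The cut

    T7.ConjC K  ⟸  ConjPlaceC621 + ConjLevelC621 + ConjArchC621 + ConjMeanC621 + ConjCuspC621
                     + ConjHeckeC621                        (`conjC_of_leaves621`, PROVED here)

| leaf | content | size |
|---|---|---|
| `ConjPlaceC621` | `PlaceImage s v v' → v = finPull930 s v'`; `v' ∤ s(𝔫) → s⁻¹ v' ∤ 𝔫`; `w ↦ w ∘ s` keeps real / complex | 100 |
| `ConjLevelC621` | `u ∈ U(s 𝔫) → s⁻¹ u ∈ U(𝔫)` (closure of the ideal in `K_v`, continuity of the local map) | 200 |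
| `ConjArchC621` | positive scalars and `U(2)` / `SO(2)` at `w` go to the same at `w ∘ s`; the local map at an infinite place is the identity or the complex conjugation through the embeddings | 300 |
| `ConjMeanC621` | the mean value properties at `w ∘ s` for `φ` give them at `w` for `φ ∘ s⁻¹`; conjugate case: `conj (rotZ α) = rotZ (-α)`, `rotZ (α + 2π) = - rotZ α`, `-1 ∈ U(2)`, periodicity | 400 |
| `ConjCuspC621` | vanishing constant term is transported (`s` maps Haar measures to Haar measures and fundamental domains of `K` to fundamental domains of `K`) | 250 |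
| `ConjHeckeC621` | Hecke coset systems and scalar uniformisers at `v'` go to the same at `s⁻¹ v'`; `N(s⁻¹ v') = N(v')` | 350 |

Every Prop is a TRUE statement of mathematics (checked by the owner; the proofs are transport of
structure along `adeleEquiv930 s.symm`).
-/

set_option autoImplicit false

open IsDedekindDomain NumberField AutomorphicForm
open scoped MatrixGroups

noncomputable section

namespace Fermat.Agent.LT.T7.H621

open Fermat.Agent.LT.H556 Fermat.Agent.LT.H556.A0 Fermat.Agent.LT.T1.H930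

variable {K : Type} [Field K] [NumberField K]

/-! ## The objects -/

/-- The automorphism of `GL₂(𝔸_K)` induced by the automorphism `s` of `K`. -/
def conjG621 (s : K ≃+* K) : G K →* G K :=
  Matrix.GeneralLinearGroup.map ((adeleEquiv930 s : Adl K ≃+* Adl K) : Adl K →+* Adl K)

theorem conjG621_apply (s : K ≃+* K) (g : G K) (i j : Fin 2) :
    (conjG621 s g : Matrix (Fin 2) (Fin 2) (Adl K)) i j
      = adeleEquiv930 s ((g : Matrix (Fin 2) (Fin 2) (Adl K)) i j) :=
  rfl

theorem continuous_conjG621 (s : K ≃+* K) : Continuous (conjG621 (K := K) s) :=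
  Continuous.generalLinearGroup_map
    (f := ((adeleEquiv930 s : Adl K ≃+* Adl K) : Adl K →+* Adl K)) (continuous_adeleEquiv930 s)

theorem conjG621_symm_conjG621 (s : K ≃+* K) (g : G K) :
    conjG621 s.symm (conjG621 s g) = g := by
  apply Units.ext
  ext i j
  rw [conjG621_apply, conjG621_apply]
  exact adeleEquiv930_symm_apply_apply s _

theorem conjG621_conjG621_symm (s : K ≃+* K) (g : G K) :
    conjG621 s (conjG621 s.symm g) = g := by
  apply Units.ext
  ext i j
  rw [conjG621_apply, conjG621_apply]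
  exact adeleEquiv930_apply_symm_apply s _

theorem conjG621_rat (s : K ≃+* K) (γ : GL (Fin 2) K) :
    conjG621 s (Matrix.GeneralLinearGroup.map (algebraMap K (Adl K)) γ)
      = Matrix.GeneralLinearGroup.map (algebraMap K (Adl K))
          (Matrix.GeneralLinearGroup.map (s : K →+* K) γ) := by
  apply Units.ext
  ext i j
  rw [conjG621_apply]
  exact adeleEquiv930_algebraMap s _

/-- The transported function `φ ∘ s⁻¹`. -/
def conjFn621 (s : K ≃+* K) (φ : G K → ℂ) : G K → ℂ := fun g => φ (conjG621 s.symm g)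

theorem conjFn621_apply (s : K ≃+* K) (φ : G K → ℂ) (g : G K) :
    conjFn621 s φ g = φ (conjG621 s.symm g) := rfl

/-- The ideal `s(𝔫)`. -/
def conjLevel621 (s : K ≃+* K) (𝔫 : Ideal (𝓞 K)) : Ideal (𝓞 K) :=
  𝔫.comap ((RingOfIntegers.mapRingEquiv s.symm : 𝓞 K ≃+* 𝓞 K) : 𝓞 K →+* 𝓞 K)

omit [NumberField K] in
theorem mem_conjLevel621 (s : K ≃+* K) (𝔫 : Ideal (𝓞 K)) (y : 𝓞 K) :
    y ∈ conjLevel621 s 𝔫 ↔ RingOfIntegers.mapRingEquiv s.symm y ∈ 𝔫 := Iff.rfl

omit [NumberField K] in
theorem conjLevel621_ne_bot (s : K ≃+* K) (𝔫 : Ideal (𝓞 K)) (h : 𝔫 ≠ ⊥) :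
    conjLevel621 s 𝔫 ≠ ⊥ := by
  intro h0
  apply h
  rw [eq_bot_iff]
  intro x hx
  have hy : RingOfIntegers.mapRingEquiv s x ∈ conjLevel621 s 𝔫 := by
    rw [mem_conjLevel621]
    have : RingOfIntegers.mapRingEquiv s.symm (RingOfIntegers.mapRingEquiv s x) = x := by
      apply RingOfIntegers.ext
      show s.symm (s (x : K)) = x
      exact s.symm_apply_apply _
    rw [this]
    exact hx
  rw [h0, Ideal.mem_bot] at hy
  rw [Ideal.mem_bot]
  exact (RingOfIntegers.mapRingEquiv s).injective (by rw [hy, map_zero])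

/-- The transported eigensystem: level `s(𝔫)`, values at `v'` = values at `s⁻¹ v'`. -/
def conjSys621 (s : K ≃+* K) (π : HeckeEigensystem K ℂ) : HeckeEigensystem K ℂ where
  level := conjLevel621 s π.level
  level_ne_bot := conjLevel621_ne_bot s π.level π.level_ne_bot
  a := fun v' => π.a (finPull930 s v')
  b := fun v' => π.b (finPull930 s v')

/-! ## The sub-leaves -/

/-- **T7.02.1 PLACE.**  (1) `PlaceImage s v v'` means `v = s⁻¹ v' = finPull930 s v'`;
(2) `s⁻¹ v' ∣ 𝔫 → v' ∣ s(𝔫)`; (3) `w ↦ w ∘ s` preserves the type of an infinite place. -/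
def ConjPlaceC621 (K : Type) [Field K] [NumberField K] : Prop :=
  ∀ s : K ≃+* K,
    (∀ v v' : HeightOneSpectrum (𝓞 K), T7.PlaceImage s v v' → v = finPull930 s v') ∧
    (∀ (𝔫 : Ideal (𝓞 K)) (v' : HeightOneSpectrum (𝓞 K)),
      ¬ v'.asIdeal ∣ conjLevel621 s 𝔫 → ¬ (finPull930 s v').asIdeal ∣ 𝔫) ∧
    ∀ w : InfinitePlace K,
      (w.IsComplex → (infPull930 s w).IsComplex) ∧ (w.IsReal → (infPull930 s w).IsReal)

/-- **T7.02.2 LEVEL.**  `u ∈ U(s(𝔫)) → s⁻¹(u) ∈ U(𝔫)`. -/
def ConjLevelC621 (K : Type) [Field K] [NumberField K] : Prop :=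
  ∀ (s : K ≃+* K) (𝔫 : Ideal (𝓞 K)) (u : G K),
    InLevelGroup (conjLevel621 s 𝔫) u → InLevelGroup 𝔫 (conjG621 s.symm u)

/-- **T7.02.3 ARCH.**  Positive real scalars and the maximal connected compact subgroup at `w` go
to the same at `w ∘ s` under `s⁻¹`. -/
def ConjArchC621 (K : Type) [Field K] [NumberField K] : Prop :=
  ∀ (s : K ≃+* K) (w : InfinitePlace K) (z : G K),
    (IsArchPosScalar w z → IsArchPosScalar (infPull930 s w) (conjG621 s.symm z)) ∧
    (IsArchCompact w z → IsArchCompact (infPull930 s w) (conjG621 s.symm z))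

/-- **T7.02.4 MEAN.**  For `φ` right invariant under the compact subgroups at infinity: the
mean value property of `φ` at `w ∘ s` gives the one of `φ ∘ s⁻¹` at `w` (complex and real
places). -/
def ConjMeanC621 (K : Type) [Field K] [NumberField K] : Prop :=
  ∀ (s : K ≃+* K) (φ : G K → ℂ),
    (∀ (w : InfinitePlace K) (k : G K), IsArchCompact w k → ∀ g : G K, φ (g * k) = φ g) →
    ∀ w : InfinitePlace K,
      (w.IsComplex → MeanValueComplex φ (infPull930 s w) → MeanValueComplex (conjFn621 s φ) w) ∧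
      (w.IsReal → MeanValueReal φ (infPull930 s w) → MeanValueReal (conjFn621 s φ) w)

/-- **T7.02.5 CUSP.**  The vanishing of the constant term is transported. -/
def ConjCuspC621 (K : Type) [Field K] [NumberField K] : Prop :=
  ∀ (s : K ≃+* K) (φ : G K → ℂ), IsCuspidalFn φ → IsCuspidalFn (conjFn621 s φ)

/-- **T7.02.6 HECKE.**  The Hecke eigen-property at `s⁻¹ v'` for `φ` gives the one at `v'` for
`φ ∘ s⁻¹`, with the same eigenvalues. -/
def ConjHeckeC621 (K : Type) [Field K] [NumberField K] : Prop :=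
  ∀ (s : K ≃+* K) (φ : G K → ℂ) (v' : HeightOneSpectrum (𝓞 K)) (a b : ℂ),
    IsHeckeEigenAt φ (finPull930 s v') a b → IsHeckeEigenAt (conjFn621 s φ) v' a b

/-! ## The top -/

/-- The transported function is a cusp form as in A0 for the transported eigensystem. -/
theorem isSph0CuspFormFor_conj621 (hP : ConjPlaceC621 K) (hL : ConjLevelC621 K)
    (hA : ConjArchC621 K) (hM : ConjMeanC621 K) (hCu : ConjCuspC621 K) (hH : ConjHeckeC621 K)
    (s : K ≃+* K) (π : HeckeEigensystem K ℂ) (φ : G K → ℂ) (hφ : IsSph0CuspFormFor π φ) :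
    IsSph0CuspFormFor (conjSys621 s π) (conjFn621 s φ) where
  cont := hφ.cont.comp (continuous_conjG621 s.symm)
  bdd := by
    obtain ⟨C, hC⟩ := hφ.bdd
    exact ⟨C, fun g => hC _⟩
  ne_zero := by
    obtain ⟨g, hg⟩ := hφ.ne_zero
    refine ⟨conjG621 s g, ?_⟩
    rw [conjFn621_apply, conjG621_symm_conjG621]
    exact hg
  left_inv := fun γ g => by
    rw [conjFn621_apply, conjFn621_apply, map_mul, conjG621_rat]
    exact hφ.left_inv _ _
  level_inv := fun u hu g => by
    rw [conjFn621_apply, conjFn621_apply, map_mul]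
    exact hφ.level_inv _ (hL s π.level u hu) _
  arch_scalar := fun w z hz g => by
    rw [conjFn621_apply, conjFn621_apply, map_mul]
    exact hφ.arch_scalar _ _ ((hA s w z).1 hz) _
  arch_compact := fun w k hk g => by
    rw [conjFn621_apply, conjFn621_apply, map_mul]
    exact hφ.arch_compact _ _ ((hA s w k).2 hk) _
  mean_complex := fun w hw =>
    (hM s φ hφ.arch_compact w).1 hw (hφ.mean_complex _ (((hP s).2.2 w).1 hw))
  mean_real := fun w hw =>
    (hM s φ hφ.arch_compact w).2 hw (hφ.mean_real _ (((hP s).2.2 w).2 hw))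
  cuspidal := hCu s φ hφ.cuspidal
  hecke := fun v' hv' =>
    hH s φ v' _ _ (hφ.hecke _ ((hP s).2.1 π.level v' hv'))

/-- **T7.02 `ConjC` from its sub-leaves.** -/
theorem conjC_of_leaves621 (hP : ConjPlaceC621 K) (hL : ConjLevelC621 K)
    (hA : ConjArchC621 K) (hM : ConjMeanC621 K) (hCu : ConjCuspC621 K) (hH : ConjHeckeC621 K) :
    T7.ConjC K := by
  intro s π hπ
  obtain ⟨φ, hφ⟩ := hπ
  refine ⟨conjSys621 s π, ⟨conjFn621 s φ, isSph0CuspFormFor_conj621 hP hL hA hM hCu hH s π φ hφ⟩,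
    ∅, fun v _ v' hvv' => ?_⟩
  have hv : v = finPull930 s v' := (hP s).1 v v' hvv'
  subst hv
  exact ⟨rfl, rfl⟩

/-- **T7.02 `ConjAll` from its sub-leaves.** -/
theorem conjAll_of_leaves621
    (hP : ∀ (K : Type) [Field K] [NumberField K], ConjPlaceC621 K)
    (hL : ∀ (K : Type) [Field K] [NumberField K], ConjLevelC621 K)
    (hA : ∀ (K : Type) [Field K] [NumberField K], ConjArchC621 K)
    (hM : ∀ (K : Type) [Field K] [NumberField K], ConjMeanC621 K)
    (hCu : ∀ (K : Type) [Field K] [NumberField K], ConjCuspC621 K)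
    (hH : ∀ (K : Type) [Field K] [NumberField K], ConjHeckeC621 K) : T7.ConjAll :=
  fun K _ _ => conjC_of_leaves621 (hP K) (hL K) (hA K) (hM K) (hCu K) (hH K)

end Fermat.Agent.LT.T7.H621

end

end
-- ===== PACK-END LT/T7/H621/ConjSpec.lean

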