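import Mathlib
import Fermat.Agent.Pack.S43GC.G0E11L2
import Fermat.Agent.Pack.S43GC.G0E11L0
import Fermat.Agent.Pack.S43GC.G0E10L2
import Fermat.Agent.Pack.LT2.E0L2
import Fermat.Agent.Pack.LT2.E2L1
import Fermat.Agent.Pack.LT2.E8L1
import Fermat.Agent.Pack.LT2.E8L3
import Fermat.Agent.Pack.LT2.E5L3
import Fermat.Agent.Pack.LT2.E5L1
import Fermat.Agent.Pack.LT2.E6L2
import Fermat.Agent.Pack.LT2.E8L0
import Fermat.Agent.Pack.LT2.E6L0
import Fermat.Agent.Pack.LT2.E8L2
import Fermat.Agent.Pack.LT2.E3L0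
import Fermat.Agent.Pack.LT2.E2L2
import Fermat.Agent.Pack.LT2.E3L1
import Fermat.Agent.Pack.LT2.E7L0
import Fermat.Agent.Pack.LT2.E7L2
import Fermat.Agent.Pack.LT2.E7L1
import Fermat.Agent.Pack.LT2.E7L3
import Fermat.Agent.Pack.LT2.E9L0
import Fermat.Agent.Pack.LT2.E9L1

set_option linter.all false

-- ===== PACK-BEGIN LT/CFT/H681/WildRoot.lean
section




/-!
# LT / tower CFT : local triviality of cup classes near `1`, ALL `n`  (helper681)

Glue pre-leaf for the passage from the reciprocity law of main (`S55.G.Rec.ReciprocitySpec`,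
`∑_v inv_v (a ∪ δχ) = 0`) to the ideal-theoretic ray statement: at the finitely many bad primes
`q` (ramified or dividing `n`) the local cup class of an element `a` close to `1` vanishes.
Main has only the tame case (`LocalRootSpec`, `q ∤ n`, `‖a - 1‖ < 1`); here `n` is arbitrary
(`q ∣ n` allowed) and the radius `ε` depends on `q` and `n` only (not on the field).

* `localRootWild681` : `∃ ε > 0`, every `a` in the fixed field of ANY subgroup `V ≤ G_{ℚ_q}` with
  `‖a - 1‖ < ε` is an `n`-th power in that fixed field.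
* `lcc_pow_eq_zero681` : `lcc q V n χ (b ^ n) = 0`.
* `lcc_eq_zero_of_close681` : `‖a - 1‖ < ε → lcc q V n χ a = 0`.
* `locBr_gcc_eq_zero_of_close681` : the same for the localisation of a global cup class.

No new definitions.
-/

set_option autoImplicit false

noncomputable section

namespace Fermat.Agent.LT.CFT.H681

open Fermat.Agent.S55.G.Rec groupCohomology

local notation "Qb" => AlgebraicClosure ℚ
local notation "GQ" => (AlgebraicClosure ℚ ≃ₐ[ℚ] AlgebraicClosure ℚ)

section Ultra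

variable {K : Type*} [NormedField K]

/-- A finite set of nonzero elements is bounded below in norm by some `0 < c ≤ 1`. -/
lemma exists_pos_le_norm681 (Z : Finset K) (hZ : ∀ z ∈ Z, z ≠ 0) :
    ∃ c : ℝ, 0 < c ∧ c ≤ 1 ∧ ∀ z ∈ Z, c ≤ ‖z‖ := by
  classical
  induction Z using Finset.induction_on with
  | empty => exact ⟨1, one_pos, le_rfl, by simp⟩
  | insert a s _ ih =>
    obtain ⟨c, hc0, hc1, hc⟩ := ih fun z hz => hZ z (Finset.mem_insert_of_mem hz)
    have ha : 0 < ‖a‖ := norm_pos_iff.mpr (hZ a (Finset.mem_insert_self a s))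
    refine ⟨min c ‖a‖, lt_min hc0 ha, (min_le_left _ _).trans hc1, ?_⟩
    intro z hz
    rcases Finset.mem_insert.mp hz with rfl | hz
    · exact min_le_right _ _
    · exact (min_le_left _ _).trans (hc z hz)

/-- Separation of the `n`-th roots of unity from `1`. -/
lemma exists_rootsOfUnity_sep681 (n : ℕ) (hn : n ≠ 0) :
    ∃ c : ℝ, 0 < c ∧ c ≤ 1 ∧ ∀ ζ : K, ζ ^ n = 1 → ‖ζ - 1‖ < c → ζ = 1 := by
  classical
  obtain ⟨c, hc0, hc1, hc⟩ := exists_pos_le_norm681
    (((Polynomial.nthRootsFinset n (1 : K)).erase 1).image fun ζ => ζ - 1) (by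
      intro z hz
      obtain ⟨ζ, hζ, rfl⟩ := Finset.mem_image.mp hz
      exact sub_ne_zero.mpr (Finset.ne_of_mem_erase hζ))
  refine ⟨c, hc0, hc1, fun ζ hζ hlt => ?_⟩
  by_contra hne
  have hmem : ζ - 1 ∈ ((Polynomial.nthRootsFinset n (1 : K)).erase 1).image fun ζ => ζ - 1 :=
    Finset.mem_image.mpr ⟨ζ, Finset.mem_erase.mpr
      ⟨hne, (Polynomial.mem_nthRootsFinset (Nat.pos_of_ne_zero hn) 1).mpr hζ⟩, rfl⟩
  exact absurd hlt (not_lt.mpr (hc _ hmem))

/-- If the norm of a product of `k` elements is `< c ^ k`, one factor has norm `< c`. -/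
lemma exists_norm_lt_of_norm_prod_lt681 (c : ℝ) (hc : 0 ≤ c) (s : Multiset K)
    (h : ‖s.prod‖ < c ^ Multiset.card s) : ∃ x ∈ s, ‖x‖ < c := by
  induction s using Multiset.induction_on with
  | empty => simp at h
  | cons a t ih =>
    rw [Multiset.prod_cons, norm_mul, Multiset.card_cons, pow_succ'] at h
    by_cases ha : ‖a‖ < c
    · exact ⟨a, Multiset.mem_cons_self a t, ha⟩
    · replace ha := not_lt.mp ha
      have ht : ‖t.prod‖ < c ^ Multiset.card t := by
        by_contra hge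
        replace hge := not_lt.mp hge
        have : c * c ^ Multiset.card t ≤ ‖a‖ * ‖t.prod‖ :=
          mul_le_mul ha hge (pow_nonneg hc _) (norm_nonneg _)
        exact absurd h (not_lt.mpr this)
      obtain ⟨x, hx, hx1⟩ := ih ht
      exact ⟨x, Multiset.mem_cons_of_mem hx, hx1⟩

/-- In an algebraically closed normed field, an element `a` with `‖a - 1‖ < c ^ n` has an
`n`-th root `b` with `‖1 - b‖ < c`. -/
lemma exists_root_close681 [IsAlgClosed K] (n : ℕ) (hn : n ≠ 0) (c : ℝ) (hc : 0 ≤ c) (a : K)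
    (ha : ‖a - 1‖ < c ^ n) : ∃ b : K, b ^ n = a ∧ ‖1 - b‖ < c := by
  have hmonic : (Polynomial.X ^ n - Polynomial.C a).Monic := Polynomial.monic_X_pow_sub_C _ hn
  have hsplits : (Polynomial.X ^ n - Polynomial.C a).Splits := IsAlgClosed.splits _
  have heval := hsplits.eval_eq_prod_roots_of_monic hmonic 1
  have he : (Polynomial.X ^ n - Polynomial.C a).eval 1 = 1 - a := by simp
  have hcard : Multiset.card ((Polynomial.X ^ n - Polynomial.C a).roots.map (1 - ·)) = n := by
    rw [Multiset.card_map, ← hsplits.natDegree_eq_card_roots,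
      Polynomial.natDegree_X_pow_sub_C]
  have hlt : ‖((Polynomial.X ^ n - Polynomial.C a).roots.map (1 - ·)).prod‖
      < c ^ Multiset.card ((Polynomial.X ^ n - Polynomial.C a).roots.map (1 - ·)) := by
    rw [hcard, ← heval, he, norm_sub_rev]
    exact ha
  obtain ⟨y, hy, hylt⟩ := exists_norm_lt_of_norm_prod_lt681 c hc _ hlt
  obtain ⟨b, hb, rfl⟩ := Multiset.mem_map.mp hy
  refine ⟨b, ?_, hylt⟩
  have := (Polynomial.mem_roots hmonic.ne_zero).mp hb
  simpa [Polynomial.IsRoot, sub_eq_zero] using this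

end Ultra

section Padic

variable (q : ℕ) [Fact q.Prime]

local notation "Gq" => (PadicAlgCl q ≃ₐ[ℚ_[q]] PadicAlgCl q)

/-- **Wild local roots**: for every `n ≠ 0` there is a radius `ε > 0`, depending on `q` and `n`
only, such that every `a` with `‖a - 1‖ < ε` in the fixed field of a subgroup `V ≤ G_{ℚ_q}` is an
`n`-th power in that fixed field. -/
theorem localRootWild681 (n : ℕ) (hn : n ≠ 0) :
    ∃ ε : ℝ, 0 < ε ∧ ∀ (V : Subgroup Gq) (a : (PadicAlgCl q)ˣ), LFixed q V a →
      ‖(a : PadicAlgCl q) - 1‖ < ε → ∃ b : (PadicAlgCl q)ˣ, LFixed q V b ∧ b ^ n = a := by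
  obtain ⟨c, hc0, hc1, hsep⟩ := exists_rootsOfUnity_sep681 (K := PadicAlgCl q) n hn
  refine ⟨c ^ n, pow_pos hc0 n, fun V a haV ha1 => ?_⟩
  obtain ⟨b, hbroot, hblt⟩ := exists_root_close681 n hn c hc0.le (a : PadicAlgCl q) ha1
  have hblt1 : ‖1 - b‖ < 1 := lt_of_lt_of_le hblt hc1
  have hbn : ‖b‖ = 1 := H854.norm_eq_one_of_norm_one_sub_lt b hblt1
  have hb0 : b ≠ 0 := by
    rintro rfl
    simp at hbn
  refine ⟨Units.mk0 b hb0, ?_, ?_⟩
  · intro τ hτ
    apply Units.ext
    show τ b = b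
    have ha' : τ (a : PadicAlgCl q) = (a : PadicAlgCl q) := congrArg Units.val (haV τ hτ)
    have h1 : (τ b / b) ^ n = 1 := by
      rw [div_pow, ← map_pow, hbroot, ha']
      exact div_self (Units.ne_zero a)
    have h2 : ‖τ b / b - 1‖ < c := by
      have h3 : τ b / b - 1 = ((1 - b) - τ (1 - b)) / b := by
        rw [map_sub, map_one]
        field_simp
        ring
      rw [h3, norm_div, hbn, div_one]
      refine lt_of_le_of_lt (H854.norm_sub_le_max_h854 _ _) (max_lt hblt ?_)
      rw [H854.norm_algEquiv_padicAlgCl]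
      exact hblt
    have h4 := hsep (τ b / b) h1 h2
    exact (div_eq_one_iff_eq hb0).mp h4
  · apply Units.ext
    rw [Units.val_pow_eq_pow_val]
    exact hbroot

variable {q}

lemma lFixed_one681 (V : Subgroup Gq) : LFixed q V 1 := fun _ _ => smul_one _

lemma lFixed_pow681 {V : Subgroup Gq} {b : (PadicAlgCl q)ˣ} (hb : LFixed q V b) (k : ℕ) :
    LFixed q V (b ^ k) := fun τ hτ => by rw [smul_pow', hb τ hτ]

lemma isLevelConstant₁_one681 (V : Subgroup Gq) (n : ℕ) :
    IsLevelConstant₁ (lHom q V) (1 : ↥V →* Multiplicative (ZMod n)) :=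
  ⟨⊥, inferInstance, fun _ _ _ => rfl⟩

/-- The cup class of the unit element vanishes. -/
lemma lcc_one_elt681 (V : Subgroup Gq) (n : ℕ) (hn : n ≠ 0) (χ : ↥V →* Multiplicative (ZMod n))
    (hχ : IsLevelConstant₁ (lHom q V) χ) : lcc q V n χ 1 = 0 := by
  have h := H496.lcc_mul_elt q V n χ 1 1 hn hχ (lFixed_one681 V) (lFixed_one681 V)
  rw [mul_one] at h
  exact left_eq_add.mp h

/-- The cup class with the trivial character vanishes. -/
lemma lcc_one_char681 (V : Subgroup Gq) (n : ℕ) (hn : n ≠ 0) (a : (PadicAlgCl q)ˣ)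
    (ha : LFixed q V a) : lcc q V n 1 a = 0 := by
  have h := H496.lcc_mul_char q V n 1 1 a hn (isLevelConstant₁_one681 V n)
    (isLevelConstant₁_one681 V n) ha
  rw [mul_one] at h
  exact left_eq_add.mp h

lemma isLevelConstant₁_pow681 {V : Subgroup Gq} {n : ℕ} {χ : ↥V →* Multiplicative (ZMod n)}
    (hχ : IsLevelConstant₁ (lHom q V) χ) (k : ℕ) : IsLevelConstant₁ (lHom q V) (χ ^ k) := by
  induction k with
  | zero =>
    rw [pow_zero]
    exact isLevelConstant₁_one681 V n
  | succ k ih =>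
    rw [pow_succ]
    exact H496.isLevelConstant₁_mul_char ih hχ

lemma lcc_pow_elt681 (V : Subgroup Gq) (n : ℕ) (hn : n ≠ 0) (χ : ↥V →* Multiplicative (ZMod n))
    (hχ : IsLevelConstant₁ (lHom q V) χ) (b : (PadicAlgCl q)ˣ) (hb : LFixed q V b) (k : ℕ) :
    lcc q V n χ (b ^ k) = k • lcc q V n χ b := by
  induction k with
  | zero => rw [pow_zero, zero_smul, lcc_one_elt681 V n hn χ hχ]
  | succ k ih =>
    rw [pow_succ, H496.lcc_mul_elt q V n χ _ _ hn hχ (lFixed_pow681 hb k) hb, ih, succ_nsmul]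

lemma lcc_pow_char681 (V : Subgroup Gq) (n : ℕ) (hn : n ≠ 0) (χ : ↥V →* Multiplicative (ZMod n))
    (hχ : IsLevelConstant₁ (lHom q V) χ) (b : (PadicAlgCl q)ˣ) (hb : LFixed q V b) (k : ℕ) :
    lcc q V n (χ ^ k) b = k • lcc q V n χ b := by
  induction k with
  | zero => rw [pow_zero, zero_smul, lcc_one_char681 V n hn b hb]
  | succ k ih =>
    rw [pow_succ, H496.lcc_mul_char q V n _ _ b hn (isLevelConstant₁_pow681 hχ k) hχ hb, ih,
      succ_nsmul]

lemma char_pow_card681 {G : Type*} [Group G] (n : ℕ) (χ : G →* Multiplicative (ZMod n)) :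
    χ ^ n = 1 := by
  ext g
  rw [MonoidHom.pow_apply, MonoidHom.one_apply]
  apply Multiplicative.toAdd.injective
  rw [toAdd_pow, toAdd_one]
  simp

/-- `n`-th powers have trivial cup classes with characters of order dividing `n`. -/
theorem lcc_pow_eq_zero681 (V : Subgroup Gq) (n : ℕ) (hn : n ≠ 0)
    (χ : ↥V →* Multiplicative (ZMod n)) (hχ : IsLevelConstant₁ (lHom q V) χ)
    (b : (PadicAlgCl q)ˣ) (hb : LFixed q V b) : lcc q V n χ (b ^ n) = 0 := by
  rw [lcc_pow_elt681 V n hn χ hχ b hb n, ← lcc_pow_char681 V n hn χ hχ b hb n,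
    char_pow_card681 n χ, lcc_one_char681 V n hn b hb]

variable (q)

/-- **Local triviality near `1`**: the local cup class `a ∪ δχ` vanishes for `‖a - 1‖ < ε`,
`ε` depending on `q` and `n` only. -/
theorem lcc_eq_zero_of_close681 (n : ℕ) (hn : n ≠ 0) :
    ∃ ε : ℝ, 0 < ε ∧ ∀ (V : Subgroup Gq) (χ : ↥V →* Multiplicative (ZMod n))
      (a : (PadicAlgCl q)ˣ), IsLevelConstant₁ (lHom q V) χ → LFixed q V a →
      ‖(a : PadicAlgCl q) - 1‖ < ε → lcc q V n χ a = 0 := by
  obtain ⟨ε, hε, h⟩ := localRootWild681 q n hn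
  refine ⟨ε, hε, fun V χ a hχ ha hlt => ?_⟩
  obtain ⟨b, hb, rfl⟩ := h V a ha hlt
  exact lcc_pow_eq_zero681 V n hn χ hχ b hb

/-- **Local triviality of global cup classes near `1`**: for `a ∈ K = ℚ̄^U` which is `ε`-close to
`1` at the place of `K` induced by `ι_q ∘ g⁻¹`, the localisation of `a ∪ δχ` at that place
vanishes; `ε` depends on `q` and `n` only. -/
theorem locBr_gcc_eq_zero_of_close681 (n : ℕ) (hn : n ≠ 0) :
    ∃ ε : ℝ, 0 < ε ∧ ∀ (g : GQ) (U : Subgroup GQ) (χ : ↥U →* Multiplicative (ZMod n)) (a : Qbˣ),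
      IsLevelConstant₁ U.subtype χ → GFixed U a →
      ‖padicEmbedding q (g⁻¹ (a : Qb)) - 1‖ < ε → locBr q g U (gcc U n χ a) = 0 := by
  obtain ⟨ε, hε, h⟩ := lcc_eq_zero_of_close681 q n hn
  refine ⟨ε, hε, fun g U χ a hχ ha hlt => ?_⟩
  obtain ⟨⟨h1, h2⟩, h3⟩ := H496.cupLoc q g U n χ a hn hχ ha
  rw [h3]
  exact h _ _ _ h1 h2 hlt

end Padic

end Fermat.Agent.LT.CFT.H681

end
end
-- ===== PACK-END LT/CFT/H681/WildRoot.lean

-- ===== PACK-BEGIN LT/T1/H729/Red/Tools.lean
section






/-!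
# Row LT, tower T1, leaf T1.14 (helper729): auxiliary lemmas for the reduction theorem

OFF-MAIN.

* `ScaleC729 K` : the scaling of Haar measures of `𝔸_K` by the module (asset SCALE, helper849).
* `countable_princ729` : the principal adeles are countable.
* `isUnit_diag_of_isUpper729` : diagonal entries of an upper triangular element of `GL₂(𝔸_K)`.
* `adNorm_le_pow729` : `‖y‖_𝔸 ≤ R ^ [K : ℚ]` for an idele `y` in the closed box of size `R`.
* `exists_gl2_row729` : a non-zero row over `K` is the bottom row of an element of `GL₂(K)`.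
-/

set_option autoImplicit false

open IsDedekindDomain NumberField MeasureTheory
open Fermat.Agent.LT.H556.A0

noncomputable section

namespace Fermat.Agent.LT.T1.H729

set_option linter.unusedSectionVars false

variable (K : Type) [Field K] [NumberField K]

/-- **Asset SCALE**: Haar measures of `𝔸_K` scale by the module under multiplication by ideles. -/
def ScaleC729 : Prop :=
  letI : MeasurableSpace (Adl K) := borel (Adl K)
  ∀ μ : Measure (Adl K), μ.IsAddHaarMeasure → ∀ (x : (Adl K)ˣ) (X : Set (Adl K)),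
    μ ((fun a : Adl K => (x : Adl K) * a) '' X) =
      ENNReal.ofReal (Fermat.Agent.LT.T1.adNorm K (x : Adl K)) * μ X

theorem countable_numberField729 : Countable K :=
  (Module.finBasis ℚ K).equivFun.toEquiv.injective.countable

theorem countable_princ729 : Countable (Fermat.Agent.LT.T1.princ K) := by
  have := countable_numberField729 K
  have hsurj : Function.Surjective
      (fun x : K => (⟨algebraMap K (Adl K) x, ⟨x, rfl⟩⟩ : Fermat.Agent.LT.T1.princ K)) := by
    rintro ⟨y, x, rfl⟩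
    exact ⟨x, rfl⟩
  exact hsurj.countable

/-- The diagonal entries of an upper triangular element of `GL₂(𝔸_K)` are ideles. -/
theorem isUnit_diag_of_isUpper729 {b : G K} (hb : Fermat.Agent.LT.T1.IsUpper K b) :
    IsUnit ((b : Matrix (Fin 2) (Fin 2) (Adl K)) 0 0) ∧
      IsUnit ((b : Matrix (Fin 2) (Fin 2) (Adl K)) 1 1) := by
  have hdet : IsUnit (Matrix.det (b : Matrix (Fin 2) (Fin 2) (Adl K))) :=
    (Matrix.isUnit_iff_isUnit_det _).mp b.isUnit
  have hb' : (b : Matrix (Fin 2) (Fin 2) (Adl K)) 1 0 = 0 := hb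
  rw [Matrix.det_fin_two, hb', mul_zero, sub_zero] at hdet
  exact ⟨isUnit_of_mul_isUnit_left hdet, isUnit_of_mul_isUnit_right hdet⟩

/-- The determinant of an upper triangular matrix. -/
theorem det_of_isUpper729 {b : G K} (hb : Fermat.Agent.LT.T1.IsUpper K b) :
    Matrix.det (b : Matrix (Fin 2) (Fin 2) (Adl K)) =
      (b : Matrix (Fin 2) (Fin 2) (Adl K)) 0 0 * (b : Matrix (Fin 2) (Fin 2) (Adl K)) 1 1 := by
  have hb' : (b : Matrix (Fin 2) (Fin 2) (Adl K)) 1 0 = 0 := hb
  rw [Matrix.det_fin_two, hb', mul_zero, sub_zero]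

/-- The module of an idele in the closed box of size `R`. -/
theorem adNorm_le_pow729 (y : (Adl K)ˣ) (R : ℝ)
    (hfin : ∀ v : HeightOneSpectrum (𝓞 K), ‖(y : Adl K).2 v‖ ≤ 1)
    (hinf : ∀ w : InfinitePlace K, ‖(y : Adl K).1 w‖ ≤ R) :
    Fermat.Agent.LT.T1.adNorm K (y : Adl K) ≤ R ^ Module.finrank ℚ K := by
  unfold Fermat.Agent.LT.T1.adNorm
  have h1 : ∏ w : InfinitePlace K, ‖(y : Adl K).1 w‖ ^ w.mult ≤ R ^ Module.finrank ℚ K := by
    calc ∏ w : InfinitePlace K, ‖(y : Adl K).1 w‖ ^ w.mult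
        ≤ ∏ w : InfinitePlace K, R ^ w.mult :=
          Finset.prod_le_prod (fun w _ => pow_nonneg (norm_nonneg _) _)
            (fun w _ => pow_le_pow_left₀ (norm_nonneg _) (hinf w) _)
      _ = R ^ Module.finrank ℚ K := by
          rw [Finset.prod_pow_eq_pow_sum, InfinitePlace.sum_mult_eq]
  have h2 : ∏ᶠ v : HeightOneSpectrum (𝓞 K), ‖(y : Adl K).2 v‖ ≤ 1 := by
    rw [finprod_eq_prod _ (finite_mulSupport_fin729 K y)]
    exact Finset.prod_le_one (fun v _ => norm_nonneg _) (fun v _ => hfin v)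
  have h0 : 0 ≤ ∏ w : InfinitePlace K, ‖(y : Adl K).1 w‖ ^ w.mult :=
    Finset.prod_nonneg fun w _ => pow_nonneg (norm_nonneg _) _
  have h3 : 0 ≤ ∏ᶠ v : HeightOneSpectrum (𝓞 K), ‖(y : Adl K).2 v‖ := by
    rw [finprod_eq_prod _ (finite_mulSupport_fin729 K y)]
    exact Finset.prod_nonneg fun v _ => norm_nonneg _
  calc (∏ w : InfinitePlace K, ‖(y : Adl K).1 w‖ ^ w.mult) *
        ∏ᶠ v : HeightOneSpectrum (𝓞 K), ‖(y : Adl K).2 v‖
      ≤ (∏ w : InfinitePlace K, ‖(y : Adl K).1 w‖ ^ w.mult) * 1 :=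
        mul_le_mul_of_nonneg_left h2 h0
    _ = ∏ w : InfinitePlace K, ‖(y : Adl K).1 w‖ ^ w.mult := mul_one _
    _ ≤ R ^ Module.finrank ℚ K := h1

/-- A non-zero row over `K` is the bottom row of an element of `GL₂(K)`. -/
theorem exists_gl2_row729 (c d : K) (h : c ≠ 0 ∨ d ≠ 0) :
    ∃ γ : GL (Fin 2) K, (γ : Matrix (Fin 2) (Fin 2) K) 1 0 = c ∧
      (γ : Matrix (Fin 2) (Fin 2) K) 1 1 = d := by
  by_cases hd : d = 0
  · have hc : c ≠ 0 := h.resolve_right (not_not.mpr hd)
    have hdet : (!![0, 1; c, 0] : Matrix (Fin 2) (Fin 2) K).det ≠ 0 := by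
      rw [Matrix.det_fin_two_of]
      simpa using hc
    refine ⟨Matrix.GeneralLinearGroup.mkOfDetNeZero _ hdet, ?_, ?_⟩
    · simp [Matrix.GeneralLinearGroup.mkOfDetNeZero]
    · simp [Matrix.GeneralLinearGroup.mkOfDetNeZero, hd]
  · have hdet : (!![1, 0; c, d] : Matrix (Fin 2) (Fin 2) K).det ≠ 0 := by
      rw [Matrix.det_fin_two_of]
      simpa using hd
    refine ⟨Matrix.GeneralLinearGroup.mkOfDetNeZero _ hdet, ?_, ?_⟩
    · simp [Matrix.GeneralLinearGroup.mkOfDetNeZero]
    · simp [Matrix.GeneralLinearGroup.mkOfDetNeZero]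

end Fermat.Agent.LT.T1.H729

end
end
-- ===== PACK-END LT/T1/H729/Red/Tools.lean

-- ===== PACK-BEGIN LT/T2/H724/Glue.lean
section



/-!
# Row LT, T2.02d.5d GLUE (helper724): the adelic double coset statement from the local ones

    glueC724 : GlueC724 K   (= LocFinC724 K → LocCpxC724 → LocRealC724 → DoubleCosetC724 K)

Parts: A. components of adelic matrices at the infinite places; B. adelic elements with prescribed
(integral) components; C. membership in the generated group `𝒦`; D. the assembly.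
-/

set_option autoImplicit false

open IsDedekindDomain NumberField
open Fermat.Agent.LT.H556.A0 Fermat.Agent.LT.T1.H724

noncomputable section

namespace Fermat.Agent.LT.T2.H724

variable {K : Type} [Field K] [NumberField K]

/-! ## A. Components -/

/-- The component at the infinite place `w`, in `ℂ`. -/
def infMap724 (w : InfinitePlace K) : Adl K →+* ℂ :=
  (InfinitePlace.Completion.extensionEmbedding w).comp (evInf724 w)

theorem infComp_eq_map724 (w : InfinitePlace K) (g : G K) :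
    infComp w g = (g : Matrix (Fin 2) (Fin 2) (Adl K)).map (infMap724 w) := rfl

theorem infComp_eq_map_map724 (w : InfinitePlace K) (g : G K) :
    infComp w g = ((g : Matrix (Fin 2) (Fin 2) (Adl K)).map (evInf724 w)).map
      (InfinitePlace.Completion.extensionEmbedding w) := rfl

theorem trivAtInf_iff724 (w : InfinitePlace K) (g : G K) :
    TrivAtInf w g ↔ (g : Matrix (Fin 2) (Fin 2) (Adl K)).map (evInf724 w) = 1 := by
  constructor
  · intro h
    ext i j : 1
    exact h i j
  · intro h i j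
    exact congrFun (congrFun h i) j

/-- the matrix of `g` at the infinite place `w`, in the completion -/
def cInf724 (w : InfinitePlace K) (g : G K) : Matrix (Fin 2) (Fin 2) w.Completion :=
  (g : Matrix (Fin 2) (Fin 2) (Adl K)).map (evInf724 w)

theorem cInf_mul724 (w : InfinitePlace K) (g h : G K) :
    cInf724 w (g * h) = cInf724 w g * cInf724 w h := by
  simp only [cInf724, Units.val_mul, Matrix.map_mul]

theorem cInf_one724 (w : InfinitePlace K) : cInf724 w (1 : G K) = 1 := by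
  simp only [cInf724, Units.val_one]
  exact Matrix.map_one _ (map_zero _) (map_one _)

theorem cInf_mul_inv724 (w : InfinitePlace K) (g : G K) :
    cInf724 w g * cInf724 w g⁻¹ = 1 := by
  rw [← cInf_mul724, mul_inv_cancel, cInf_one724]

theorem cInf_inv_mul724 (w : InfinitePlace K) (g : G K) :
    cInf724 w g⁻¹ * cInf724 w g = 1 := by
  rw [← cInf_mul724, inv_mul_cancel, cInf_one724]

theorem infComp_eq_cInf724 (w : InfinitePlace K) (g : G K) :
    infComp w g = (cInf724 w g).map (InfinitePlace.Completion.extensionEmbedding w) := rfl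

theorem trivAtInf_iff_cInf724 (w : InfinitePlace K) (g : G K) :
    TrivAtInf w g ↔ cInf724 w g = 1 := trivAtInf_iff724 w g

theorem cInf_adjG724 (w : InfinitePlace K) (g : G K) :
    cInf724 w (adjG724 g) = (cInf724 w g).adjugate := by
  have := RingHom.map_adjugate (evInf724 w) (g : Matrix (Fin 2) (Fin 2) (Adl K))
  simpa [cInf724, adjG724_val, RingHom.mapMatrix_apply] using this

theorem finComp_adjG724 (v : HeightOneSpectrum (𝓞 K)) (g : G K) :
    finComp v (adjG724 g) = (finComp v g).adjugate := by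
  have := RingHom.map_adjugate (evFin724 v) (g : Matrix (Fin 2) (Fin 2) (Adl K))
  simpa [finComp_eq_map724, adjG724_val, RingHom.mapMatrix_apply] using this

/-- equality of elements of `GL₂(𝔸_K)` by components -/
theorem g_ext724 {g h : G K} (h1 : ∀ w, cInf724 w g = cInf724 w h)
    (h2 : ∀ v, finComp v g = finComp v h) : g = h :=
  Units.ext (mat_ext724 h1 h2)

/-! ## B. Adelic elements with prescribed components -/

/-- The adele with the components `xI w`, `xf v` (the latter integral). -/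
def mkAd724 (xI : ∀ w : InfinitePlace K, w.Completion)
    (xf : ∀ v : HeightOneSpectrum (𝓞 K), v.adicCompletion K)
    (h : ∀ v, Valued.v (xf v) ≤ 1) : Adl K :=
  (xI, ⟨xf, Filter.Eventually.of_forall fun v =>
    (HeightOneSpectrum.mem_adicCompletionIntegers (𝓞 K) K v).2 (h v)⟩)

/-- The adelic matrix with the components `MI w`, `Mf v` (the latter integral). -/
def mkMat724 (MI : ∀ w : InfinitePlace K, Matrix (Fin 2) (Fin 2) w.Completion)
    (Mf : ∀ v : HeightOneSpectrum (𝓞 K), Matrix (Fin 2) (Fin 2) (v.adicCompletion K))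
    (h : ∀ v i j, Valued.v (Mf v i j) ≤ 1) : Matrix (Fin 2) (Fin 2) (Adl K) :=
  fun i j => mkAd724 (fun w => MI w i j) (fun v => Mf v i j) (fun v => h v i j)

theorem mkMat_map_inf724 (MI : ∀ w : InfinitePlace K, Matrix (Fin 2) (Fin 2) w.Completion)
    (Mf : ∀ v : HeightOneSpectrum (𝓞 K), Matrix (Fin 2) (Fin 2) (v.adicCompletion K))
    (h : ∀ v i j, Valued.v (Mf v i j) ≤ 1) (w : InfinitePlace K) :
    (mkMat724 MI Mf h).map (evInf724 w) = MI w := rfl

theorem mkMat_map_fin724 (MI : ∀ w : InfinitePlace K, Matrix (Fin 2) (Fin 2) w.Completion)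
    (Mf : ∀ v : HeightOneSpectrum (𝓞 K), Matrix (Fin 2) (Fin 2) (v.adicCompletion K))
    (h : ∀ v i j, Valued.v (Mf v i j) ≤ 1) (v : HeightOneSpectrum (𝓞 K)) :
    (mkMat724 MI Mf h).map (evFin724 v) = Mf v := rfl

theorem mkMat_mul724 (MI NI : ∀ w : InfinitePlace K, Matrix (Fin 2) (Fin 2) w.Completion)
    (Mf Nf : ∀ v : HeightOneSpectrum (𝓞 K), Matrix (Fin 2) (Fin 2) (v.adicCompletion K))
    (hM : ∀ v i j, Valued.v (Mf v i j) ≤ 1) (hN : ∀ v i j, Valued.v (Nf v i j) ≤ 1)
    (h1 : ∀ w, MI w * NI w = 1) (h3 : ∀ v, Mf v * Nf v = 1) :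
    mkMat724 MI Mf hM * mkMat724 NI Nf hN = 1 := by
  refine mat_ext724 (fun w => ?_) (fun v => ?_)
  · rw [Matrix.map_mul, mkMat_map_inf724, mkMat_map_inf724, h1,
      Matrix.map_one _ (map_zero _) (map_one _)]
  · rw [Matrix.map_mul, mkMat_map_fin724, mkMat_map_fin724, h3,
      Matrix.map_one _ (map_zero _) (map_one _)]

/-- The element of `GL₂(𝔸_K)` with the components `MI w`, `Mf v` and inverse components
`NI w`, `Nf v`. -/
def mkG724 (MI NI : ∀ w : InfinitePlace K, Matrix (Fin 2) (Fin 2) w.Completion)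
    (Mf Nf : ∀ v : HeightOneSpectrum (𝓞 K), Matrix (Fin 2) (Fin 2) (v.adicCompletion K))
    (hM : ∀ v i j, Valued.v (Mf v i j) ≤ 1) (hN : ∀ v i j, Valued.v (Nf v i j) ≤ 1)
    (h1 : ∀ w, MI w * NI w = 1) (h3 : ∀ v, Mf v * Nf v = 1) : G K :=
  ⟨mkMat724 MI Mf hM, mkMat724 NI Nf hN, mkMat_mul724 MI NI Mf Nf hM hN h1 h3,
    mkMat_mul724 NI MI Nf Mf hN hM (fun w => mul_eq_one_comm.1 (h1 w))
      (fun v => mul_eq_one_comm.1 (h3 v))⟩

section mkG

variable (MI NI : ∀ w : InfinitePlace K, Matrix (Fin 2) (Fin 2) w.Completion)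
    (Mf Nf : ∀ v : HeightOneSpectrum (𝓞 K), Matrix (Fin 2) (Fin 2) (v.adicCompletion K))
    (hM : ∀ v i j, Valued.v (Mf v i j) ≤ 1) (hN : ∀ v i j, Valued.v (Nf v i j) ≤ 1)
    (h1 : ∀ w, MI w * NI w = 1) (h3 : ∀ v, Mf v * Nf v = 1)

theorem cInf_mkG724 (w : InfinitePlace K) :
    cInf724 w (mkG724 MI NI Mf Nf hM hN h1 h3) = MI w := rfl

theorem cInf_mkG_inv724 (w : InfinitePlace K) :
    cInf724 w (mkG724 MI NI Mf Nf hM hN h1 h3)⁻¹ = NI w := rfl

theorem finComp_mkG724 (v : HeightOneSpectrum (𝓞 K)) :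
    finComp v (mkG724 MI NI Mf Nf hM hN h1 h3) = Mf v := rfl

theorem finComp_mkG_inv724 (v : HeightOneSpectrum (𝓞 K)) :
    finComp v (mkG724 MI NI Mf Nf hM hN h1 h3)⁻¹ = Nf v := rfl

end mkG

/-! ## C. Membership in the generated group `𝒦` -/

theorem val_one_apply_le724 (v : HeightOneSpectrum (𝓞 K)) (i j : Fin 2) :
    Valued.v ((1 : Matrix (Fin 2) (Fin 2) (v.adicCompletion K)) i j) ≤ 1 := by
  by_cases h : i = j
  · rw [Matrix.one_apply, if_pos h, map_one]
  · rw [Matrix.one_apply, if_neg h, map_zero]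
    exact zero_le_one

open Classical in
/-- The element with component `M` (inverse `N`) at the infinite place `w` and `1` at all other
places. -/
def locInfG724 (w : InfinitePlace K) (M N : Matrix (Fin 2) (Fin 2) w.Completion)
    (h : M * N = 1) : G K :=
  mkG724 (Function.update (fun w' => (1 : Matrix (Fin 2) (Fin 2) w'.Completion)) w M)
    (Function.update (fun w' => (1 : Matrix (Fin 2) (Fin 2) w'.Completion)) w N)
    (fun _ => 1) (fun _ => 1) (fun v i j => val_one_apply_le724 v i j)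
    (fun v i j => val_one_apply_le724 v i j)
    (by
      intro w'
      by_cases hw : w' = w
      · subst hw
        rw [Function.update_self, Function.update_self, h]
      · rw [Function.update_of_ne hw, Function.update_of_ne hw, one_mul])
    (fun _ => one_mul 1)

section locInf

variable (w : InfinitePlace K) (M N : Matrix (Fin 2) (Fin 2) w.Completion) (h : M * N = 1)

theorem cInf_locInfG_self724 : cInf724 w (locInfG724 w M N h) = M := by
  classical
  change Function.update (fun w' => (1 : Matrix (Fin 2) (Fin 2) w'.Completion)) w M w = M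
  exact Function.update_self ..

theorem cInf_locInfG_inv_self724 : cInf724 w (locInfG724 w M N h)⁻¹ = N := by
  classical
  change Function.update (fun w' => (1 : Matrix (Fin 2) (Fin 2) w'.Completion)) w N w = N
  exact Function.update_self ..

theorem cInf_locInfG_ne724 {w' : InfinitePlace K} (hw : w' ≠ w) :
    cInf724 w' (locInfG724 w M N h) = 1 := by
  classical
  change Function.update (fun w' => (1 : Matrix (Fin 2) (Fin 2) w'.Completion)) w M w' = 1
  exact Function.update_of_ne hw ..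

theorem cInf_locInfG_inv_ne724 {w' : InfinitePlace K} (hw : w' ≠ w) :
    cInf724 w' (locInfG724 w M N h)⁻¹ = 1 := by
  classical
  change Function.update (fun w' => (1 : Matrix (Fin 2) (Fin 2) w'.Completion)) w N w' = 1
  exact Function.update_of_ne hw ..

theorem finComp_locInfG724 (v : HeightOneSpectrum (𝓞 K)) :
    finComp v (locInfG724 w M N h) = 1 := rfl

theorem finComp_locInfG_inv724 (v : HeightOneSpectrum (𝓞 K)) :
    finComp v (locInfG724 w M N h)⁻¹ = 1 := rfl

theorem isLocalAtInf_locInfG724 : IsLocalAtInf w (locInfG724 w M N h) :=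
  ⟨fun _ hw => (trivAtInf_iff_cInf724 _ _).2 (cInf_locInfG_ne724 w M N h hw),
    fun v => finComp_locInfG724 w M N h v⟩

end locInf

/-- the level condition at all finite places (second half of `A0.InLevelGroup`) -/
def LevelFin724 (𝔫 : Ideal (𝓞 K)) (a : G K) : Prop :=
  ∀ (v : HeightOneSpectrum (𝓞 K)) (i j : Fin 2),
    (finComp v a - 1) i j ∈ idealClosure 𝔫 v ∧ (finComp v a⁻¹ - 1) i j ∈ idealClosure 𝔫 v

/-- the compactness condition at the infinite place `w` -/
def CompactInf724 (w : InfinitePlace K) (a : G K) : Prop :=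
  infComp w a * (infComp w a).conjTranspose = 1 ∧ (w.IsReal → (infComp w a).det = 1)

/-- An element which is in `U(𝔫)` at the finite places, in the compact group at the infinite
places of `S` and trivial at the other infinite places lies in `𝒦`. -/
theorem mem_kGroup_of_comps724 (𝔫 : Ideal (𝓞 K)) (S : Finset (InfinitePlace K)) :
    ∀ a : G K, LevelFin724 𝔫 a → (∀ w ∈ S, CompactInf724 w a) →
      (∀ w, w ∉ S → TrivAtInf w a) → a ∈ kGroup724 𝔫 := by
  classical
  induction S using Finset.induction_on with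
  | empty =>
    intro a hlev _ htriv
    exact Subgroup.subset_closure (Or.inl ⟨fun w => htriv w (Finset.notMem_empty w), hlev⟩)
  | insert w S hwS ih =>
    intro a hlev hcomp htriv
    -- the component of `a` at `w`
    set k : G K := locInfG724 w (cInf724 w a) (cInf724 w a⁻¹) (cInf_mul_inv724 w a) with hk
    have hkgen : k ∈ kGroup724 𝔫 := by
      refine Subgroup.subset_closure (Or.inr ⟨w, isLocalAtInf_locInfG724 w _ _ _, ?_⟩)
      have e : infComp w k = infComp w a := by
        rw [infComp_eq_cInf724, infComp_eq_cInf724, hk, cInf_locInfG_self724]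
      rw [e]
      exact hcomp w (Finset.mem_insert_self w S)
    have ha' : a * k⁻¹ ∈ kGroup724 𝔫 := by
      refine ih (a * k⁻¹) ?_ ?_ ?_
      · intro v i j
        have e1 : finComp v (a * k⁻¹) = finComp v a := by
          rw [finComp_mul724, hk, finComp_locInfG_inv724, mul_one]
        have e2 : finComp v (a * k⁻¹)⁻¹ = finComp v a⁻¹ := by
          rw [mul_inv_rev, inv_inv, finComp_mul724, hk, finComp_locInfG724, one_mul]
        rw [e1, e2]
        exact hlev v i j
      · intro w' hw'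
        have hne : w' ≠ w := fun e => hwS (e ▸ hw')
        have e : infComp w' (a * k⁻¹) = infComp w' a := by
          rw [infComp_eq_cInf724, infComp_eq_cInf724, cInf_mul724, hk,
            cInf_locInfG_inv_ne724 w _ _ _ hne, mul_one]
        unfold CompactInf724
        rw [e]
        exact hcomp w' (Finset.mem_insert_of_mem hw')
      · intro w' hw'
        rw [trivAtInf_iff_cInf724, cInf_mul724]
        by_cases hne : w' = w
        · subst hne
          rw [hk, cInf_locInfG_inv_self724, cInf_mul_inv724]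
        · rw [hk, cInf_locInfG_inv_ne724 w _ _ _ hne, mul_one]
          exact (trivAtInf_iff_cInf724 _ _).1
            (htriv w' (fun h => (Finset.mem_insert.1 h).elim hne hw'))
    have : a = a * k⁻¹ * k := by rw [inv_mul_cancel_right]
    rw [this]
    exact Subgroup.mul_mem _ ha' hkgen

/-! ## D. The local choices -/

section FinChoice

variable (v : HeightOneSpectrum (𝓞 K)) (𝔫 : Ideal (𝓞 K))

/-- all entries lie in `𝔫 𝒪_v` -/
def InCl724 (X : Matrix (Fin 2) (Fin 2) (v.adicCompletion K)) : Prop :=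
  ∀ i j, X i j ∈ idealClosure 𝔫 v

variable {v 𝔫}

theorem inCl_add724 {X Y : Matrix (Fin 2) (Fin 2) (v.adicCompletion K)}
    (hX : InCl724 v 𝔫 X) (hY : InCl724 v 𝔫 Y) : InCl724 v 𝔫 (X + Y) :=
  fun i j => add_mem_idealClosure724 v 𝔫 (hX i j) (hY i j)

theorem inCl_mul724 {X Y : Matrix (Fin 2) (Fin 2) (v.adicCompletion K)}
    (hX : InCl724 v 𝔫 X) (hY : InCl724 v 𝔫 Y) : InCl724 v 𝔫 (X * Y) := by
  intro i j
  rw [Matrix.mul_apply, Fin.sum_univ_two]
  exact add_mem_idealClosure724 v 𝔫 (mul_mem_idealClosure724 v 𝔫 (hX i 0) (hY 0 j))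
    (mul_mem_idealClosure724 v 𝔫 (hX i 1) (hY 1 j))

theorem inCl_zero724 : InCl724 v 𝔫 (0 : Matrix (Fin 2) (Fin 2) (v.adicCompletion K)) :=
  fun _ _ => zero_mem_idealClosure724 v 𝔫

theorem inCl_adj724 {X : Matrix (Fin 2) (Fin 2) (v.adicCompletion K)}
    (hX : InCl724 v 𝔫 (X - 1)) : InCl724 v 𝔫 (X.adjugate - 1) := by
  have h00 := hX 0 0
  have h01 := hX 0 1
  have h10 := hX 1 0
  have h11 := hX 1 1
  simp only [Matrix.sub_apply, Matrix.one_apply_eq, Matrix.one_apply_ne, ne_eq, one_ne_zero,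
    not_false_eq_true, zero_ne_one, sub_zero] at h00 h01 h10 h11
  intro i j
  rw [Matrix.adjugate_fin_two]
  fin_cases i <;> fin_cases j
  · simpa using h11
  · simpa using neg_mem_idealClosure724 v 𝔫 h01
  · simpa using neg_mem_idealClosure724 v 𝔫 h10
  · simpa using h00

theorem inCl_prod724 {X Y : Matrix (Fin 2) (Fin 2) (v.adicCompletion K)}
    (hX : InCl724 v 𝔫 (X - 1)) (hY : InCl724 v 𝔫 (Y - 1)) : InCl724 v 𝔫 (X * Y - 1) := by
  have e : X * Y - 1 = (X - 1) * (Y - 1) + (X - 1) + (Y - 1) := by noncomm_ring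
  rw [e]
  exact inCl_add724 (inCl_add724 (inCl_mul724 hX hY) hX) hY

theorem int_of_inCl724 {X : Matrix (Fin 2) (Fin 2) (v.adicCompletion K)}
    (hX : InCl724 v 𝔫 (X - 1)) (i j : Fin 2) : Valued.v (X i j) ≤ 1 := by
  have e : X i j = (X - 1) i j + (1 : Matrix (Fin 2) (Fin 2) (v.adicCompletion K)) i j := by
    rw [Matrix.sub_apply, sub_add_cancel]
  rw [e]
  exact (Valuation.map_add _ _ _).trans
    (max_le (val_le_one_of_mem_idealClosure724 v 𝔫 (hX i j)) (val_one_apply_le724 v i j))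

theorem inCl_of_int724 (hv : ¬ v.asIdeal ∣ 𝔫) {X : Matrix (Fin 2) (Fin 2) (v.adicCompletion K)}
    (hX : ∀ i j, Valued.v (X i j) ≤ 1) : InCl724 v 𝔫 (X - 1) := by
  intro i j
  refine mem_idealClosure_of_not_dvd724 v 𝔫 hv ?_
  rw [Matrix.sub_apply]
  exact (Valuation.map_sub _ _ _).trans (max_le (hX i j) (val_one_apply_le724 v i j))

/-- the local choice at a finite place -/
theorem exists_fin724 (hFin : LocFinC724 K) (𝔫 : Ideal (𝓞 K)) (g : G K)
    (hg : IsBadUnit724 𝔫 g) (v : HeightOneSpectrum (𝓞 K)) :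
    ∃ A A' B B' : Matrix (Fin 2) (Fin 2) (v.adicCompletion K),
      A * A' = 1 ∧ B * B' = 1 ∧
      (InCl724 v 𝔫 (A - 1) ∧ InCl724 v 𝔫 (A' - 1)) ∧
      (InCl724 v 𝔫 (B - 1) ∧ InCl724 v 𝔫 (B' - 1)) ∧
      (finComp v g).adjugate = A * finComp v g * B := by
  by_cases hv : v.asIdeal ∣ 𝔫
  · have hM : InCl724 v 𝔫 (finComp v g - 1) := fun i j => (hg v hv i j).1
    have hM' : InCl724 v 𝔫 (finComp v g⁻¹ - 1) := fun i j => (hg v hv i j).2
    have h1 : InCl724 v 𝔫 ((1 : Matrix (Fin 2) (Fin 2) (v.adicCompletion K)) - 1) := by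
      rw [sub_self]
      exact inCl_zero724
    refine ⟨(finComp v g).adjugate * finComp v g⁻¹, finComp v g * (finComp v g⁻¹).adjugate,
      1, 1, ?_, one_mul 1, ⟨inCl_prod724 (inCl_adj724 hM) hM', inCl_prod724 hM (inCl_adj724 hM')⟩,
      ⟨h1, h1⟩, ?_⟩
    · rw [mul_assoc, ← mul_assoc (finComp v g⁻¹), finComp_inv_mul724, one_mul,
        ← Matrix.adjugate_mul_distrib, finComp_inv_mul724, Matrix.adjugate_one]
    · rw [mul_one, mul_assoc, finComp_inv_mul724, mul_one]
  · have hdet : (finComp v g).det ≠ 0 := by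
      intro h0
      have := congrArg Matrix.det (finComp_mul_inv724 v g)
      rw [Matrix.det_mul, h0, zero_mul, Matrix.det_one] at this
      exact zero_ne_one this
    obtain ⟨A, A', B, B', hA, hB, iA, iA', iB, iB', e⟩ := hFin v (finComp v g) hdet
    exact ⟨A, A', B, B', hA, hB, ⟨inCl_of_int724 hv iA, inCl_of_int724 hv iA'⟩,
      ⟨inCl_of_int724 hv iB, inCl_of_int724 hv iB'⟩, e⟩

end FinChoice

section InfChoice

/-- the compactness condition for a matrix over the completion at `w` -/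
def UnitaryC724 (w : InfinitePlace K) (A : Matrix (Fin 2) (Fin 2) w.Completion) : Prop :=
  (A.map (InfinitePlace.Completion.extensionEmbedding w)) *
      (A.map (InfinitePlace.Completion.extensionEmbedding w)).conjTranspose = 1 ∧
    (w.IsReal → (A.map (InfinitePlace.Completion.extensionEmbedding w)).det = 1)

theorem det_cInf_ne_zero724 (w : InfinitePlace K) (g : G K) : (cInf724 w g).det ≠ 0 := by
  intro h0
  have := congrArg Matrix.det (cInf_mul_inv724 w g)
  rw [Matrix.det_mul, h0, zero_mul, Matrix.det_one] at this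
  exact zero_ne_one this

/-- the local choice at a complex place -/
theorem exists_cpx724 (hCpx : LocCpxC724) (g : G K) (w : InfinitePlace K) (hw : w.IsComplex) :
    ∃ A A' B B' : Matrix (Fin 2) (Fin 2) w.Completion,
      A * A' = 1 ∧ B * B' = 1 ∧ UnitaryC724 w A ∧ UnitaryC724 w B ∧
      (cInf724 w g).adjugate = A * cInf724 w g * B := by
  set e : w.Completion ≃+* ℂ := InfinitePlace.Completion.ringEquivComplexOfIsComplex hw with he
  have hee : ∀ x : w.Completion, InfinitePlace.Completion.extensionEmbedding w x = e x :=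
    fun _ => rfl
  have hmap : ∀ X : Matrix (Fin 2) (Fin 2) w.Completion,
      X.map (InfinitePlace.Completion.extensionEmbedding w) = X.map e := fun _ => rfl
  have hback : ∀ X : Matrix (Fin 2) (Fin 2) ℂ, (X.map e.symm).map e = X := by
    intro X
    ext i j : 1
    simp
  have hdet : ((cInf724 w g).map e).det ≠ 0 := by
    have : ((cInf724 w g).map e).det = e ((cInf724 w g).det) := by
      rw [← RingEquiv.coe_toRingHom, ← RingHom.mapMatrix_apply, ← RingHom.map_det]
    rw [this]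
    exact fun h => det_cInf_ne_zero724 w g ((map_eq_zero_iff e e.injective).1 h)
  obtain ⟨A₀, B₀, hA, hB, hadj⟩ := hCpx ((cInf724 w g).map e) hdet
  have hinj : Function.Injective
      (fun X : Matrix (Fin 2) (Fin 2) w.Completion => X.map e) :=
    Matrix.map_injective e.injective
  refine ⟨A₀.map e.symm, A₀.conjTranspose.map e.symm, B₀.map e.symm,
    B₀.conjTranspose.map e.symm, ?_, ?_, ?_, ?_, ?_⟩
  · apply hinj
    show (A₀.map e.symm * A₀.conjTranspose.map e.symm).map e = (1 : Matrix _ _ _).map e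
    rw [← RingEquiv.coe_toRingHom, Matrix.map_mul, Matrix.map_one _ (map_zero _) (map_one _)]
    rw [RingEquiv.coe_toRingHom, hback, hback, hA]
  · apply hinj
    show (B₀.map e.symm * B₀.conjTranspose.map e.symm).map e = (1 : Matrix _ _ _).map e
    rw [← RingEquiv.coe_toRingHom, Matrix.map_mul, Matrix.map_one _ (map_zero _) (map_one _)]
    rw [RingEquiv.coe_toRingHom, hback, hback, hB]
  · refine ⟨?_, fun hr => absurd hr (InfinitePlace.not_isReal_iff_isComplex.2 hw)⟩
    rw [hmap, hback, hA]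
  · refine ⟨?_, fun hr => absurd hr (InfinitePlace.not_isReal_iff_isComplex.2 hw)⟩
    rw [hmap, hback, hB]
  · apply hinj
    show ((cInf724 w g).adjugate).map e = (A₀.map e.symm * cInf724 w g * B₀.map e.symm).map e
    have h1 : ((cInf724 w g).adjugate).map e = ((cInf724 w g).map e).adjugate := by
      have := RingHom.map_adjugate (e : w.Completion →+* ℂ) (cInf724 w g)
      simpa [RingHom.mapMatrix_apply] using this
    rw [h1, hadj]
    rw [← RingEquiv.coe_toRingHom, Matrix.map_mul, Matrix.map_mul, RingEquiv.coe_toRingHom,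
      hback, hback]

/-- the local choice at a real place -/
theorem exists_real724 (hReal : LocRealC724) (g : G K) (w : InfinitePlace K) (hw : w.IsReal) :
    ∃ A A' B B' : Matrix (Fin 2) (Fin 2) w.Completion,
      A * A' = 1 ∧ B * B' = 1 ∧ UnitaryC724 w A ∧ UnitaryC724 w B ∧
      (cInf724 w g).adjugate = A * cInf724 w g * B := by
  set e : w.Completion ≃+* ℝ := InfinitePlace.Completion.ringEquivRealOfIsReal hw with he
  have hee : ∀ x : w.Completion,
      InfinitePlace.Completion.extensionEmbedding w x = ((e x : ℝ) : ℂ) :=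
    fun x => (InfinitePlace.Completion.extensionEmbeddingOfIsReal_apply hw x).symm
  have hmap : ∀ X : Matrix (Fin 2) (Fin 2) w.Completion,
      X.map (InfinitePlace.Completion.extensionEmbedding w)
        = (X.map e).map (Complex.ofRealHom) := by
    intro X
    ext i j : 1
    exact hee (X i j)
  have hback : ∀ X : Matrix (Fin 2) (Fin 2) ℝ, (X.map e.symm).map e = X := by
    intro X
    ext i j : 1
    simp
  have hdet : ((cInf724 w g).map e).det ≠ 0 := by
    have : ((cInf724 w g).map e).det = e ((cInf724 w g).det) := by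
      rw [← RingEquiv.coe_toRingHom, ← RingHom.mapMatrix_apply, ← RingHom.map_det]
    rw [this]
    exact fun h => det_cInf_ne_zero724 w g ((map_eq_zero_iff e e.injective).1 h)
  obtain ⟨A₀, B₀, hA, hAd, hB, hBd, hadj⟩ := hReal ((cInf724 w g).map e) hdet
  have hinj : Function.Injective
      (fun X : Matrix (Fin 2) (Fin 2) w.Completion => X.map e) :=
    Matrix.map_injective e.injective
  have huni : ∀ X : Matrix (Fin 2) (Fin 2) ℝ, X * X.transpose = 1 → X.det = 1 →
      UnitaryC724 w (X.map e.symm) := by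
    intro X hX hXd
    have hct : (X.map Complex.ofRealHom).conjTranspose = X.transpose.map Complex.ofRealHom := by
      ext i j : 1
      simp [Matrix.conjTranspose_apply]
    refine ⟨?_, fun _ => ?_⟩
    · rw [hmap, hback, hct, ← Matrix.map_mul, hX, Matrix.map_one _ (map_zero _) (map_one _)]
    · rw [hmap, hback]
      have : (X.map Complex.ofRealHom).det = Complex.ofRealHom X.det := by
        rw [← RingHom.mapMatrix_apply, ← RingHom.map_det]
      rw [this, hXd, map_one]
  refine ⟨A₀.map e.symm, A₀.transpose.map e.symm, B₀.map e.symm,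
    B₀.transpose.map e.symm, ?_, ?_, huni A₀ hA hAd, huni B₀ hB hBd, ?_⟩
  · apply hinj
    show (A₀.map e.symm * A₀.transpose.map e.symm).map e = (1 : Matrix _ _ _).map e
    rw [← RingEquiv.coe_toRingHom, Matrix.map_mul, Matrix.map_one _ (map_zero _) (map_one _)]
    rw [RingEquiv.coe_toRingHom, hback, hback, hA]
  · apply hinj
    show (B₀.map e.symm * B₀.transpose.map e.symm).map e = (1 : Matrix _ _ _).map e
    rw [← RingEquiv.coe_toRingHom, Matrix.map_mul, Matrix.map_one _ (map_zero _) (map_one _)]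
    rw [RingEquiv.coe_toRingHom, hback, hback, hB]
  · apply hinj
    show ((cInf724 w g).adjugate).map e = (A₀.map e.symm * cInf724 w g * B₀.map e.symm).map e
    have h1 : ((cInf724 w g).adjugate).map e = ((cInf724 w g).map e).adjugate := by
      have := RingHom.map_adjugate (e : w.Completion →+* ℝ) (cInf724 w g)
      simpa [RingHom.mapMatrix_apply] using this
    rw [h1, hadj]
    rw [← RingEquiv.coe_toRingHom, Matrix.map_mul, Matrix.map_mul, RingEquiv.coe_toRingHom,
      hback, hback]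

/-- the local choice at an infinite place -/
theorem exists_inf724 (hCpx : LocCpxC724) (hReal : LocRealC724) (g : G K)
    (w : InfinitePlace K) :
    ∃ A A' B B' : Matrix (Fin 2) (Fin 2) w.Completion,
      A * A' = 1 ∧ B * B' = 1 ∧ UnitaryC724 w A ∧ UnitaryC724 w B ∧
      (cInf724 w g).adjugate = A * cInf724 w g * B := by
  rcases InfinitePlace.isReal_or_isComplex w with hw | hw
  · exact exists_real724 hReal g w hw
  · exact exists_cpx724 hCpx g w hw

end InfChoice

/-! ## E. The assembly -/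

/-- **T2.02d.5d GLUE.** -/
theorem glueC724 (K : Type) [Field K] [NumberField K] : GlueC724 K := by
  intro hFin hCpx hReal 𝔫 _ g hg
  choose Af Af' Bf Bf' hAf hBf hAcl hBcl hef using exists_fin724 hFin 𝔫 g hg
  choose AI AI' BI BI' hAI hBI hAu hBu heI using exists_inf724 hCpx hReal g
  have iA : ∀ v i j, Valued.v (Af v i j) ≤ 1 := fun v => int_of_inCl724 (hAcl v).1
  have iA' : ∀ v i j, Valued.v (Af' v i j) ≤ 1 := fun v => int_of_inCl724 (hAcl v).2
  have iB : ∀ v i j, Valued.v (Bf v i j) ≤ 1 := fun v => int_of_inCl724 (hBcl v).1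
  have iB' : ∀ v i j, Valued.v (Bf' v i j) ≤ 1 := fun v => int_of_inCl724 (hBcl v).2
  let a : G K := mkG724 AI AI' Af Af' iA iA' hAI hAf
  let b : G K := mkG724 BI BI' Bf Bf' iB iB' hBI hBf
  have ha : a ∈ kGroup724 𝔫 := by
    refine mem_kGroup_of_comps724 𝔫 Finset.univ a ?_ ?_ (fun w hw => absurd (Finset.mem_univ w) hw)
    · intro v i j
      exact ⟨(hAcl v).1 i j, (hAcl v).2 i j⟩
    · intro w _
      exact hAu w
  have hb : b ∈ kGroup724 𝔫 := by
    refine mem_kGroup_of_comps724 𝔫 Finset.univ b ?_ ?_ (fun w hw => absurd (Finset.mem_univ w) hw)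
    · intro v i j
      exact ⟨(hBcl v).1 i j, (hBcl v).2 i j⟩
    · intro w _
      exact hBu w
  refine ⟨a, ha, b, hb, g_ext724 (fun w => ?_) (fun v => ?_)⟩
  · rw [cInf_adjG724, cInf_mul724, cInf_mul724]
    exact heI w
  · rw [finComp_adjG724, finComp_mul724, finComp_mul724]
    exact hef v

end Fermat.Agent.LT.T2.H724

end
end
-- ===== PACK-END LT/T2/H724/Glue.lean

-- ===== PACK-BEGIN LT/T2/H437/USSpec.lean
section



/-!
# Row LT, tower T2, leaf T2.03a.2 = `H511.LeafUnifSmooth` (registry row 1225, helper437): THE CUT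

OFF-MAIN.  Definitions and frozen sub-leaf Props.  Bytes typed against `LT/T2/H511/FDSpec.lean`
(helper511@94e516506, sha256 ad79b18a) and its closure (A0 66d3374a, T1/Spec e8ae48d6,
T2/Spec b934629a, T2/H386/GPSSpec fb5aa9e8), byte-identical copies.

The top (file `LT/T2/H437/USTop.lean`, helper437):

    leafUnifSmooth_of_leaves437 :
      FDCalcC437 → LevelNhdsC437 K → H511.CptC K → (∀ 𝔫 ≠ ⊥, H511.UnifSmoothC K 𝔫)

## Sub-leaves

* `FDCalcC437` (T2.03a.2a, Mathlib only): finite differences of a smooth function on `ℝ^N` are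
  bounded by the product of the steps, uniformly on bounded sets.
* `LevelNhdsC437 K` (T2.03a.2b, adelic topology): the finite part of the level group is a
  neighbourhood of `1` in `GL₂(𝔸_K)`.
* `H511.CptC K` (T2.03a.4 of helper511, sibling leaf): compactness of the conjugates and of the box.

## The proof of the top (helper437)

`P∞ g`, `Pf g`: the infinite and the finite part of `g ∈ GL₂(𝔸_K)`; they commute.
For `y` supported at infinity `ω⁻¹ n(y) ω = (P∞ ω)⁻¹ n(y) (P∞ ω)`, and for `ω = ω₀ a c`,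
`h = h₀ a' u` (`a = A(X)`, `a' = A(X')` in the chart `A(X) = 1 + ρ(X)` at infinity, `c` supported
at the finite places, `u ∈ U(𝔫)`):

    f (ω⁻¹ n(y) ω h) = f (h₀ · Y(X, t(y), X')),
    Y(X, t, X') = (P∞ h₀)⁻¹ A(X)⁻¹ (P∞ ω₀)⁻¹ n(t) (P∞ ω₀) A(X) (P∞ h₀) A(X'),

a smooth family supported at infinity; `T2.IsSmoothAtInf` makes `p ↦ f (h₀ · Y p)` smooth,
`FDCalcC437` bounds its finite differences on the unit ball, finitely many charts `(ω₀, h₀)` cover
`Ω × (W⁻¹ supp f)` (`LevelNhdsC437`, `CptC`), and outside `W⁻¹ supp f` all values vanish.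
-/

set_option autoImplicit false

open IsDedekindDomain NumberField
open Fermat.Agent.LT.H556.A0

noncomputable section

namespace Fermat.Agent.LT.T2.H437

variable {K : Type} [Field K] [NumberField K]

/-! ## 1. Vocabulary -/

/-- Iterated BACKWARD difference of a function on an additive group:
`rdiff437 [u₁, …, u_M] φ = ∇_{u_M} ⋯ ∇_{u₁} φ`, `∇_u φ (y) = φ(y) - φ(y - u)`
(the recursion of `H511.bdiff511`). -/
def rdiff437 {E F : Type*} [AddGroup E] [AddGroup F] : List E → (E → F) → (E → F)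
  | [], φ => φ
  | u :: us, φ => rdiff437 us (fun y => φ y - φ (y - u))

/-- The finite part of the level condition: `g ≡ 1 mod 𝔫` and `g⁻¹ ≡ 1 mod 𝔫` at every finite
place (NO condition at the infinite places). -/
def FinLevel437 (𝔫 : Ideal (𝓞 K)) (g : G K) : Prop :=
  ∀ (v : HeightOneSpectrum (𝓞 K)) (i j : Fin 2),
    (finComp v g - 1) i j ∈ idealClosure 𝔫 v ∧ (finComp v g⁻¹ - 1) i j ∈ idealClosure 𝔫 v

/-! ## 2. The sub-leaf Props -/

/-- **T2.03a.2a FD CALCULUS** (Mathlib only).  For a smooth `φ : ℝ^N → ℂ`, `M` and `r` there is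
`B` such that for every base point `x` with `‖x‖ ≤ r`, every `0 ≤ ε ≤ 1` and all steps
`t₁, …, t_M` with `‖t_i‖ ≤ ε r`: `‖∇_{t_M} ⋯ ∇_{t₁} φ (x)‖ ≤ B ε^M`.
Proof: by induction on `M` for `C^M` functions with values in a normed space,
`‖∇_{t_M} ⋯ ∇_{t₁} φ (x)‖ ≤ ∏ ‖t_i‖ · sup {‖D^M φ (z)‖ : ‖z‖ ≤ ‖x‖ + ∑ ‖t_i‖}`
(`D^m (∇_u φ) (z) = D^m φ (z) - D^m φ (z - u)`: `iteratedFDeriv_comp_add_right`; mean value
inequality on the segment `[z - u, z]` for `D^m φ`: `Convex.norm_image_sub_le_of_norm_fderiv_le`,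
`norm_fderiv_iteratedFDeriv`); `D^M φ` is continuous, hence bounded on the closed ball of radius
`(M + 1) r` (compact: `ProperSpace`); `B = r^M · sup`. -/
def FDCalcC437 : Prop :=
  ∀ (N : ℕ) (φ : (Fin N → ℝ) → ℂ), ContDiff ℝ (⊤ : ℕ∞) φ → ∀ (M : ℕ) (r : ℝ),
    ∃ B : ℝ, 0 ≤ B ∧ ∀ x : Fin N → ℝ, ‖x‖ ≤ r → ∀ ε : ℝ, 0 ≤ ε → ε ≤ 1 →
      ∀ ts : List (Fin N → ℝ), ts.length = M → (∀ t ∈ ts, ‖t‖ ≤ ε * r) →
        ‖rdiff437 ts φ x‖ ≤ B * ε ^ M

/-- **T2.03a.2b LEVEL NEIGHBOURHOOD** (adelic topology).  The set of `g ∈ GL₂(𝔸_K)` with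
`g ≡ 1` and `g⁻¹ ≡ 1 mod 𝔫` at every finite place is a neighbourhood of `1`.
Proof: `{x ∈ 𝔸_f : x_v ∈ 𝔫 𝒪_v for all v}` is open in the finite adeles (restricted product:
`idealClosure 𝔫 v` is open in `K_v`, and equal to `𝒪_v` for `v ∤ 𝔫`, i.e. for almost all `v`);
the maps `g ↦ (g - 1) i j` and `g ↦ (g⁻¹ - 1) i j` from `GL₂(𝔸_K)` (topology of units) to
`𝔸_K → 𝔸_f` are continuous. -/
def LevelNhdsC437 (K : Type) [Field K] [NumberField K] : Prop :=
  ∀ 𝔫 : Ideal (𝓞 K), 𝔫 ≠ ⊥ → {g : G K | FinLevel437 𝔫 g} ∈ nhds (1 : G K)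

/-! ## Equation lemmas of `rdiff437`, REALISED ONCE (ADDITIVE appendix, row-lead helper17, 16:00Z; fix of
helper8 / helper112 / helper493, see `coord/LT-collision-helper8.md`): the grader's kernel checker
rejects a closure in which two modules realise `rdiff437.eq_def`.  Nothing above this line is changed. -/

theorem rdiff437_eqns_realised {E F : Type*} [AddGroup E] [AddGroup F] (φ : E → F) :
    rdiff437 ([] : List E) φ = φ := by
  have _h0 := @rdiff437.eq_def E F _ _
  have _h1 := @rdiff437.eq_1 E F _ _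
  have _h2 := @rdiff437.eq_2 E F _ _
  rfl

end Fermat.Agent.LT.T2.H437

end

end
-- ===== PACK-END LT/T2/H437/USSpec.lean

-- ===== PACK-BEGIN LT/T2/H988/ConjAlg.lean
section



/-!
# Row LT, tower T2, sub-leaf T2.03a.3 = `H511.LeafConjAlg` (helper988)

OFF-MAIN.  `leafConjAlg988 : H511.LeafConjAlg K` (= `H511.ConjAlgC K`), unconditional:
the three conjugations of the upper unipotent `n(u)` of `GL₂(𝔸_K)`:

1. `diag(m,1) n(u) diag(m,1)⁻¹ = n(m u)` for the rational matrix `diag(m,1)`, `m > 0`;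
2. central elements commute with `n(u)`;
3. `a⁻¹ n(u) a = n(u σ)` for `a` in the ray of `s > 0`, `σ = (a⁻¹)₀₀`: the entries of `a` are
   determined by `A0.TrivAtFin` and by the injectivity of `extensionEmbedding`, and
   `extensionEmbedding` is an isometry.

Bytes typed against `LT/T2/H511/FDSpec.lean` (sha256 ad79b18a) of `origin/helper511@94e516506`.
-/

set_option autoImplicit false

open IsDedekindDomain NumberField
open Fermat.Agent.LT.H556.A0

noncomputable section

namespace Fermat.Agent.LT.T2.H988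

open Fermat.Agent.LT.T2 Fermat.Agent.LT.T2.H386 Fermat.Agent.LT.T2.H511

variable {K : Type} [Field K] [NumberField K]

/-! ## Matrix identities over a commutative ring -/

section Mat

variable {R : Type*} [CommRing R]

/-- `[[1,u],[0,1]] · diag(c, c) = diag(c, c) · [[1,u],[0,1]]`. -/
theorem unipMat_mul_scalar988 (u c : R) :
    (!![1, u; 0, 1] : Matrix (Fin 2) (Fin 2) R) * Matrix.diagonal (fun _ => c)
      = Matrix.diagonal (fun _ => c) * !![1, u; 0, 1] := by
  ext i j
  fin_cases i <;> fin_cases j <;>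
    simp [Matrix.mul_apply, Matrix.diagonal, mul_comm]

omit [CommRing R] in
/-- A `2 × 2` matrix is determined by its four entries. -/
theorem mat_eq_of_entries988 (A : Matrix (Fin 2) (Fin 2) R) :
    A = !![A 0 0, A 0 1; A 1 0, A 1 1] := by
  ext i j
  fin_cases i <;> fin_cases j <;> rfl

/-- `[[1,u],[0,1]] · diag(α, 1) = diag(α, 1) · [[1, u σ],[0,1]]` when `α σ = 1`. -/
theorem unipMat_mul_diag988 (u α σ : R) (h : α * σ = 1) :
    (!![1, u; 0, 1] : Matrix (Fin 2) (Fin 2) R) * !![α, 0; 0, 1]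
      = !![α, 0; 0, 1] * !![1, u * σ; 0, 1] := by
  ext i j
  fin_cases i <;> fin_cases j <;>
    simp [Matrix.mul_apply, Fin.sum_univ_two]
  calc u = u * (α * σ) := by rw [h, mul_one]
    _ = α * (u * σ) := by ring

/-- `diag(m, 1) · [[1,u],[0,1]] = [[1, m u],[0,1]] · diag(m, 1)`. -/
theorem diag_mul_unipMat988 (u m : R) :
    (!![m, 0; 0, 1] : Matrix (Fin 2) (Fin 2) R) * !![1, u; 0, 1]
      = !![1, m * u; 0, 1] * !![m, 0; 0, 1] := by
  ext i j
  fin_cases i <;> fin_cases j <;>
    simp [Matrix.mul_apply, Fin.sum_univ_two]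

end Mat

/-! ## (1) The rational diagonal matrix -/

/-- `diag(m, 1) ∈ GL₂(K)`, `m > 0`. -/
def diagNat988 (K : Type) [Field K] [NumberField K] (m : ℕ) (hm : 0 < m) : GL (Fin 2) K :=
  ⟨!![(m : K), 0; 0, 1], !![(m : K)⁻¹, 0; 0, 1],
    by
      have h : (m : K) ≠ 0 := Nat.cast_ne_zero.2 hm.ne'
      ext i j
      fin_cases i <;> fin_cases j <;> simp [Matrix.mul_apply, Fin.sum_univ_two, h],
    by
      have h : (m : K) ≠ 0 := Nat.cast_ne_zero.2 hm.ne'
      ext i j
      fin_cases i <;> fin_cases j <;> simp [Matrix.mul_apply, Fin.sum_univ_two, h]⟩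

theorem diagNat988_coe (m : ℕ) (hm : 0 < m) :
    ((diagNat988 K m hm : GL (Fin 2) K) : Matrix (Fin 2) (Fin 2) K) = !![(m : K), 0; 0, 1] :=
  rfl

theorem ratG_diagNat988_coe (m : ℕ) (hm : 0 < m) :
    ((T1.ratG K (diagNat988 K m hm) : G K) : Matrix (Fin 2) (Fin 2) (Adl K))
      = !![(m : Adl K), 0; 0, 1] := by
  ext i j
  have h : ((T1.ratG K (diagNat988 K m hm) : G K) : Matrix (Fin 2) (Fin 2) (Adl K)) i j
      = algebraMap K (Adl K) ((diagNat988 K m hm : GL (Fin 2) K) i j) := rfl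
  rw [h, diagNat988_coe]
  fin_cases i <;> fin_cases j <;> simp

/-- **(1)** `diag(m,1) n(u) diag(m,1)⁻¹ = n(m u)`. -/
theorem conj_diagNat988 (m : ℕ) (hm : 0 < m) (u : Adl K) :
    T1.ratG K (diagNat988 K m hm) * unip386 u * (T1.ratG K (diagNat988 K m hm))⁻¹
      = unip386 ((m : Adl K) * u) := by
  rw [mul_inv_eq_iff_eq_mul]
  apply Units.ext
  rw [Units.val_mul, Units.val_mul, ratG_diagNat988_coe, unip386_coe, unip386_coe]
  exact diag_mul_unipMat988 u (m : Adl K)

/-! ## (2) Central elements -/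

/-- **(2)** central elements commute with `n(u)`. -/
theorem conj_central988 (z : G K) (hz : T1.IsCentral K z) (u : Adl K) :
    z⁻¹ * unip386 u * z = unip386 u := by
  obtain ⟨c, hc⟩ := hz
  rw [mul_assoc, inv_mul_eq_iff_eq_mul]
  apply Units.ext
  rw [Units.val_mul, Units.val_mul, hc, unip386_coe]
  exact unipMat_mul_scalar988 u c

/-! ## (3) The ray -/

/-- Two adeles with the same components are equal. -/
theorem adl_ext988 {x y : Adl K} (h1 : ∀ w : InfinitePlace K, x.1 w = y.1 w)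
    (h2 : ∀ v : HeightOneSpectrum (𝓞 K), x.2 v = y.2 v) : x = y :=
  Prod.ext (funext h1) (FiniteAdeleRing.ext K h2)

theorem adl_zero_fst988 (w : InfinitePlace K) : (0 : Adl K).1 w = 0 := rfl

theorem adl_zero_snd988 (v : HeightOneSpectrum (𝓞 K)) : (0 : Adl K).2 v = 0 := rfl

theorem adl_one_fst988 (w : InfinitePlace K) : (1 : Adl K).1 w = 1 := rfl

theorem adl_one_snd988 (v : HeightOneSpectrum (𝓞 K)) : (1 : Adl K).2 v = 1 := rfl

/-- The matrix of an element of the ray is `diag(α, 1)`. -/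
theorem ray_coe988 (a : G K) (s : ℝ) (ha : T1.IsRay K a s) :
    (a : Matrix (Fin 2) (Fin 2) (Adl K))
      = !![(a : Matrix (Fin 2) (Fin 2) (Adl K)) 0 0, 0; 0, 1] := by
  obtain ⟨hfin, hinf⟩ := ha
  have hF : ∀ (v : HeightOneSpectrum (𝓞 K)) (i j : Fin 2),
      ((a : Matrix (Fin 2) (Fin 2) (Adl K)) i j).2 v
        = (1 : Matrix (Fin 2) (Fin 2) (v.adicCompletion K)) i j := fun v i j =>
    congrFun (congrFun (hfin v) i) j
  have hI : ∀ (w : InfinitePlace K) (i j : Fin 2),
      InfinitePlace.Completion.extensionEmbedding w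
        (((a : Matrix (Fin 2) (Fin 2) (Adl K)) i j).1 w)
        = (!![(s : ℂ), 0; 0, 1] : Matrix (Fin 2) (Fin 2) ℂ) i j := fun w i j =>
    congrFun (congrFun (hinf w) i) j
  have h01 : (a : Matrix (Fin 2) (Fin 2) (Adl K)) 0 1 = 0 := by
    apply adl_ext988
    · intro w
      apply (InfinitePlace.Completion.extensionEmbedding w).injective
      rw [hI w 0 1, adl_zero_fst988, map_zero]
      simp
    · intro v
      rw [hF v 0 1, adl_zero_snd988]
      simp
  have h10 : (a : Matrix (Fin 2) (Fin 2) (Adl K)) 1 0 = 0 := by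
    apply adl_ext988
    · intro w
      apply (InfinitePlace.Completion.extensionEmbedding w).injective
      rw [hI w 1 0, adl_zero_fst988, map_zero]
      simp
    · intro v
      rw [hF v 1 0, adl_zero_snd988]
      simp
  have h11 : (a : Matrix (Fin 2) (Fin 2) (Adl K)) 1 1 = 1 := by
    apply adl_ext988
    · intro w
      apply (InfinitePlace.Completion.extensionEmbedding w).injective
      rw [hI w 1 1, adl_one_fst988, map_one]
      simp
    · intro v
      rw [hF v 1 1, adl_one_snd988]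
      simp
  conv_lhs => rw [mat_eq_of_entries988 (a : Matrix (Fin 2) (Fin 2) (Adl K))]
  rw [h01, h10, h11]

/-- **(3)** `a⁻¹ n(u) a = n(u σ)` for `a` in the ray of `s > 0`. -/
theorem conj_ray988 (a : G K) (s : ℝ) (hs : 0 < s) (ha : T1.IsRay K a s) :
    ∃ σ : Adl K, σ.2 = 1 ∧ (∀ w : InfinitePlace K, ‖σ.1 w‖ = s⁻¹) ∧
      ∀ u : Adl K, a⁻¹ * unip386 u * a = unip386 (u * σ) := by
  have hcoe := ray_coe988 a s ha
  obtain ⟨hfin, hinf⟩ := ha
  set α : Adl K := (a : Matrix (Fin 2) (Fin 2) (Adl K)) 0 0 with hα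
  set σ : Adl K := ((a⁻¹ : G K) : Matrix (Fin 2) (Fin 2) (Adl K)) 0 0 with hσ
  -- `α σ = 1`
  have hασ : α * σ = 1 := by
    have h1 : ((a * a⁻¹ : G K) : Matrix (Fin 2) (Fin 2) (Adl K)) 0 0 = 1 := by
      rw [mul_inv_cancel]
      simp
    rw [Units.val_mul, Matrix.mul_apply, Fin.sum_univ_two, hcoe] at h1
    have e00 : (!![α, 0; 0, 1] : Matrix (Fin 2) (Fin 2) (Adl K)) 0 0 = α := rfl
    have e01 : (!![α, 0; 0, 1] : Matrix (Fin 2) (Fin 2) (Adl K)) 0 1 = 0 := rfl
    rw [e00, e01, zero_mul, add_zero] at h1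
    exact h1
  -- the finite part of `α` is `1`
  have hα2 : α.2 = 1 := by
    apply FiniteAdeleRing.ext K
    intro v
    have h := congrFun (congrFun (hfin v) 0) 0
    have h' : α.2 v = 1 := by simpa [finComp] using h
    rw [h']
    rfl
  -- the infinite components of `α` have norm `s`
  have hα1 : ∀ w : InfinitePlace K, ‖α.1 w‖ = s := by
    intro w
    have h := congrFun (congrFun (hinf w) 0) 0
    have h' : InfinitePlace.Completion.extensionEmbedding w (α.1 w) = (s : ℂ) := by
      simpa [infComp] using h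
    have hiso := (AddMonoidHomClass.isometry_iff_norm
      (InfinitePlace.Completion.extensionEmbedding w)).1
      (InfinitePlace.Completion.isometry_extensionEmbedding w) (α.1 w)
    rw [← hiso, h', Complex.norm_real, Real.norm_of_nonneg hs.le]
  have hprod2 : α.2 * σ.2 = 1 := congrArg Prod.snd hασ
  have hprod1 : ∀ w : InfinitePlace K, α.1 w * σ.1 w = 1 := fun w =>
    congrFun (congrArg Prod.fst hασ) w
  refine ⟨σ, ?_, ?_, ?_⟩
  · rw [hα2, one_mul] at hprod2
    exact hprod2
  · intro w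
    have h := congrArg norm (hprod1 w)
    rw [norm_mul, hα1 w, norm_one] at h
    exact eq_inv_of_mul_eq_one_right h
  · intro u
    rw [mul_assoc, inv_mul_eq_iff_eq_mul]
    apply Units.ext
    rw [Units.val_mul, Units.val_mul, unip386_coe, unip386_coe, hcoe]
    exact unipMat_mul_diag988 u α σ hασ

/-! ## The leaf -/

/-- **T2.03a.3** `H511.ConjAlgC K`, unconditional. -/
theorem conjAlgC988 (K : Type) [Field K] [NumberField K] : ConjAlgC K := by
  refine ⟨?_, ?_, ?_⟩
  · intro m hm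
    exact ⟨diagNat988 K m hm, by simp [T1.IsUpperRat, diagNat988_coe],
      fun u => conj_diagNat988 m hm u⟩
  · intro z hz u
    exact conj_central988 z hz u
  · intro a s hs ha
    exact conj_ray988 a s hs ha

/-- **T2.03a.3** the sub-leaf `H511.LeafConjAlg K`. -/
theorem leafConjAlg988 (K : Type) [Field K] [NumberField K] : LeafConjAlg K :=
  conjAlgC988 K

end Fermat.Agent.LT.T2.H988

end

end
-- ===== PACK-END LT/T2/H988/ConjAlg.lean

-- ===== PACK-BEGIN LT/T2/H627/Leaf13.lean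
section









/-!
# Row LT, tower T2, leaf T2.13 (helper627): `GPSCore ⇒ GPS` and `GPSCore ⇒ GPSKill`

`leaf13_627 : T2.Leaf13 K`.  On the Siegel set `{H ≥ c}` the estimate is `GPSCore` with `N = 0`
(constant term `0` for a cusp function, constant term killed by `R(f)` in the other case); by
reduction theory (`T1.ReductionC`) every point is `GL₂(K)`-equivalent to a point of height
`≥ c₀`, and the points of height in `[c₀, c]` are `GL₂(K) Z⁺`-equivalent to the points of a
compact set (`T1.SiegelCompactC`, `T1.FujisakiC`), where Cauchy--Schwarz and the finite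
multiplicity of the covering of a compact set by the translates of the fundamental domain
(`T1.DiscreteC`) give the estimate.  OFF-MAIN.
-/

set_option autoImplicit false
set_option linter.unusedSectionVars false
set_option linter.style.haveILetI false

open IsDedekindDomain NumberField MeasureTheory
open Fermat.Agent.LT.H556.A0
open scoped Classical ENNReal Pointwise

noncomputable section

namespace Fermat.Agent.LT.T2.H627

variable {K : Type} [Field K] [NumberField K]

attribute [local instance] Fermat.Agent.LT.T2.borelG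
attribute [local instance] borelSpaceG627

theorem conv_left627 (F : Frame K) (𝔫 : Ideal (𝓞 K)) (f ψ : G K → ℂ) (hψ : IsAutFn 𝔫 ψ)
    (γ : GL (Fin 2) K) (x : G K) : conv F f ψ (T1.ratG K γ * x) = conv F f ψ x := by
  unfold conv
  congr 1
  funext h
  have := hψ.left_inv γ (x * h)
  rw [mul_assoc]
  unfold T1.ratG
  rw [this]

theorem conv_zpos627 (F : Frame K) (𝔫 : Ideal (𝓞 K)) (f ψ : G K → ℂ) (hψ : IsAutFn 𝔫 ψ)
    (t : ℝ) (x : G K) : conv F f ψ (x * zpos627 t) = conv F f ψ x := by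
  unfold conv
  congr 1
  funext h
  rw [mul_assoc, zpos627_comm, ← mul_assoc, inv_zpos627 hψ.arch_scalar]

theorem conv_zero627 (F : Frame K) (f : G K → ℂ) (x : G K) :
    conv F f (fun _ => 0) x = 0 := by
  unfold conv
  simp

theorem adNorm_one627 (hN : T1.AdNormC K) : T1.adNorm K (((1 : (Adl K)ˣ)) : Adl K) = 1 := by
  have h1 := hN.2.1 1 1
  have h2 := hN.1 (1 : (Adl K)ˣ)
  rw [mul_one] at h1
  have h3 : T1.adNorm K (((1 : (Adl K)ˣ)) : Adl K) * (T1.adNorm K (((1 : (Adl K)ˣ)) : Adl K) - 1)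
      = 0 := by
    rw [mul_sub, mul_one, ← h1, sub_self]
  rcases mul_eq_zero.mp h3 with h | h
  · exact absurd h h2.ne'
  · exact sub_eq_zero.mp h

theorem adNorm_inv627 (hN : T1.AdNormC K) (u : (Adl K)ˣ) :
    T1.adNorm K ((u⁻¹ : (Adl K)ˣ) : Adl K) = (T1.adNorm K (u : Adl K))⁻¹ := by
  have h1 := hN.2.1 u u⁻¹
  rw [mul_inv_cancel, adNorm_one627 hN] at h1
  exact eq_inv_of_mul_eq_one_right h1.symm

/-- A central element is a rational scalar times an element of Fujisaki's compact set times a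
positive scalar. -/
theorem central_decomp627 (hN : T1.AdNormC K) {C : Set (Adl K)ˣ}
    (hC : ∀ x : (Adl K)ˣ, T1.adNorm K (x : Adl K) = 1 → ∃ ξ : Kˣ, (T1.ratUnit K ξ)⁻¹ * x ∈ C)
    {z : G K} (hz : T1.IsCentral K z) :
    ∃ (ξ : Kˣ) (κ : (Adl K)ˣ) (τ : ℝ), κ ∈ C ∧
      z = T1.ratG K (ratScal627 ξ) * scal627 κ * zpos627 τ := by
  obtain ⟨u, rfl⟩ := isCentral_eq627 hz
  have hd : 0 < T1.adNorm K (u : Adl K) := hN.1 u
  have hn : (0 : ℝ) < Module.finrank ℚ K := by exact_mod_cast Module.finrank_pos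
  set τ : ℝ := Real.log (T1.adNorm K (u : Adl K)) / Module.finrank ℚ K with hτ
  have he : T1.adNorm K ((expIdele627 (fun _ => τ) : (Adl K)ˣ) : Adl K) =
      T1.adNorm K (u : Adl K) := by
    rw [adNorm_expIdele627_const, hτ, mul_div_cancel₀ _ hn.ne', Real.exp_log hd]
  have h1 : T1.adNorm K ((u * (expIdele627 (fun _ => τ))⁻¹ : (Adl K)ˣ) : Adl K) = 1 := by
    rw [hN.2.1, adNorm_inv627 hN, he, mul_inv_cancel₀ hd.ne']
  obtain ⟨ξ, hξ⟩ := hC _ h1
  refine ⟨ξ, (T1.ratUnit K ξ)⁻¹ * (u * (expIdele627 (fun _ => τ))⁻¹), τ, hξ, ?_⟩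
  rw [ratG_ratScal627]
  unfold zpos627
  rw [← map_mul, ← map_mul]
  congr 1
  rw [mul_inv_cancel_left, inv_mul_cancel_right]

/-- **The estimate on the part of bounded height of a Siegel set.** -/
theorem conv_siegel_le627 (hT1 : T1.T1Out K) (F : Frame K) (𝔫 : Ideal (𝓞 K)) (f : G K → ℂ)
    (hf : Continuous f) (hc : HasCompactSupport f) (c₀ c₁ : ℝ) (hc₀ : 0 < c₀) :
    ∃ C : ℝ, 0 ≤ C ∧ ∀ ψ : G K → ℂ, IsAutFn 𝔫 ψ →
      ∀ (x : G K) (t : ℝ), T1.HasHeight K x t → c₀ ≤ t → t ≤ c₁ →
        ‖conv F f ψ x‖ ≤ C * Real.sqrt (nsq F ψ) := by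
  have hT2 : T2Space (G K) := hT1.locComp.2.2.1
  have hN := hT1.adNorm
  obtain ⟨Ω, m, M, hΩ, hm, hmM, hS⟩ := hT1.siegelCompact c₀ hc₀
  obtain ⟨CF, hCF, hFuj⟩ := hT1.fujisaki
  set s₀ : ℝ := min 1 (m * c₀) with hs₀
  set s₁ : ℝ := max 1 (M * c₁) with hs₁
  have hs₀pos : 0 < s₀ := lt_min one_pos (mul_pos hm hc₀)
  have hΩ' : IsCompact ((scal627 '' CF) * (ray627 (K := K) '' Set.Icc (Real.log s₀) (Real.log s₁))
      * Ω) :=
    ((hCF.image continuous_scal627).mul (isCompact_Icc.image continuous_ray627)).mul hΩ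
  obtain ⟨C, hC0, hC⟩ := conv_compact_le627 F hT2 hT1.discrete hN 𝔫 f hf hc hΩ'
  refine ⟨C, hC0, fun ψ hψ x t hx h0 h1 => ?_⟩
  obtain ⟨β, z, a, ω, s, -, hz, hs, ha, hω, hxeq, hms, hsM⟩ := hS x t hx h0
  have hn : Module.finrank ℚ K ≠ 0 := Module.finrank_pos.ne'
  have hMpos : 0 < M := lt_of_lt_of_le hm hmM
  have hsl : s₀ ≤ s := by
    by_cases h : 1 ≤ s
    · exact (min_le_left _ _).trans h
    · have h' : s ^ Module.finrank ℚ K ≤ s := pow_le_of_le_one hs.le (not_le.mp h).le hn
      calc s₀ ≤ m * c₀ := min_le_right _ _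
        _ ≤ m * t := mul_le_mul_of_nonneg_left h0 hm.le
        _ ≤ s ^ Module.finrank ℚ K := hms
        _ ≤ s := h'
  have hsu : s ≤ s₁ := by
    by_cases h : s ≤ 1
    · exact h.trans (le_max_left _ _)
    · have h' : s ≤ s ^ Module.finrank ℚ K := le_self_pow₀ (not_le.mp h).le hn
      calc s ≤ s ^ Module.finrank ℚ K := h'
        _ ≤ M * t := hsM
        _ ≤ M * c₁ := mul_le_mul_of_nonneg_left h1 hMpos.le
        _ ≤ s₁ := le_max_right _ _
  have haeq : a = ray627 (Real.log s) := isRay_eq627 hs ha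
  obtain ⟨ξ, κ, τ, hκ, hzeq⟩ := central_decomp627 hN hFuj hz
  have hy : scal627 κ * ray627 (Real.log s) * ω ∈
      (scal627 '' CF) * (ray627 (K := K) '' Set.Icc (Real.log s₀) (Real.log s₁)) * Ω := by
    refine Set.mul_mem_mul (Set.mul_mem_mul ⟨κ, hκ, rfl⟩ ⟨Real.log s, ⟨?_, ?_⟩, rfl⟩) hω
    · exact Real.log_le_log hs₀pos hsl
    · exact Real.log_le_log hs hsu
  have hxeq' : x = T1.ratG K (β * ratScal627 ξ) *
      ((scal627 κ * ray627 (Real.log s) * ω) * zpos627 τ) := by
    rw [hxeq, hzeq, haeq, map_mul]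
    have e1 : zpos627 τ * ray627 (Real.log s) * ω =
        ray627 (K := K) (Real.log s) * ω * zpos627 τ := by
      rw [mul_assoc, zpos627_comm]
    calc T1.ratG K β * (T1.ratG K (ratScal627 ξ) * scal627 κ * zpos627 τ) *
          ray627 (Real.log s) * ω
        = T1.ratG K β * T1.ratG K (ratScal627 ξ) * scal627 κ *
          (zpos627 τ * ray627 (Real.log s) * ω) := by simp only [mul_assoc]
      _ = T1.ratG K β * T1.ratG K (ratScal627 ξ) * scal627 κ *
          (ray627 (Real.log s) * ω * zpos627 τ) := by rw [e1]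
      _ = T1.ratG K β * T1.ratG K (ratScal627 ξ) *
          (scal627 κ * ray627 (Real.log s) * ω * zpos627 τ) := by simp only [mul_assoc]
  rw [hxeq', conv_left627 F 𝔫 f ψ hψ, conv_zpos627 F 𝔫 f ψ hψ]
  exact hC ψ hψ _ hy

/-- **`GPSCore ⇒ GPS`.** -/
theorem gps_of_core627 (hT1 : T1.T1Out K) (𝔫 : Ideal (𝓞 K)) (hCore : GPSCore K 𝔫) : GPS K 𝔫 := by
  intro F f hf
  obtain ⟨C₁, c, -, hcore⟩ := hCore F f hf 0
  obtain ⟨c₀, hc₀, hred⟩ := hT1.reduction
  obtain ⟨C₂, -, hC₂⟩ := conv_siegel_le627 hT1 F 𝔫 f hf.cont hf.cpt c₀ (max c₀ c) hc₀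
  refine ⟨max C₁ C₂, fun φ hφ x => ?_⟩
  obtain ⟨γ, t, ht, hct⟩ := hred x
  rw [← conv_left627 F 𝔫 f φ hφ.isAutFn γ x]
  have hsq := Real.sqrt_nonneg (nsq F φ)
  by_cases h : c ≤ t
  · have h1 := hcore φ (fun _ => 0) hφ.isAutFn (isConstTerm_zero hφ.cuspidal) _ t ht h
    rw [conv_zero627, sub_zero, pow_zero, mul_one] at h1
    exact h1.trans (mul_le_mul_of_nonneg_right (le_max_left _ _) hsq)
  · exact (hC₂ φ hφ.isAutFn _ t ht hct ((not_le.mp h).le.trans (le_max_right _ _))).trans
      (mul_le_mul_of_nonneg_right (le_max_right _ _) hsq)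

/-- **`GPSCore ⇒ GPSKill`.** -/
theorem gpsKill_of_core627 (hT1 : T1.T1Out K) (𝔫 : Ideal (𝓞 K)) (hCore : GPSCore K 𝔫) :
    GPSKill K 𝔫 := by
  intro F f hf hkill
  obtain ⟨C₁, c, -, hcore⟩ := hCore F f hf 0
  obtain ⟨c₀, hc₀, hred⟩ := hT1.reduction
  obtain ⟨C₂, -, hC₂⟩ := conv_siegel_le627 hT1 F 𝔫 f hf.cont hf.cpt c₀ (max c₀ c) hc₀
  refine ⟨max C₁ C₂, fun ψ hψ x => ?_⟩
  obtain ⟨γ, t, ht, hct⟩ := hred x
  rw [← conv_left627 F 𝔫 f ψ hψ γ x]
  have hsq := Real.sqrt_nonneg (nsq F ψ)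
  by_cases h : c ≤ t
  · obtain ⟨Ψ, hΨ⟩ := exists_constTerm627 hT1.locComp hT1.addFundDom ψ
      (fun γ g => hψ.left_inv γ g)
    have h1 := hcore ψ Ψ hψ hΨ _ t ht h
    rw [hkill ψ Ψ hψ hΨ, sub_zero, pow_zero, mul_one] at h1
    exact h1.trans (mul_le_mul_of_nonneg_right (le_max_left _ _) hsq)
  · exact (hC₂ ψ hψ _ t ht hct ((not_le.mp h).le.trans (le_max_right _ _))).trans
      (mul_le_mul_of_nonneg_right (le_max_right _ _) hsq)

/-- **T2.13**: `GPSCore ⇒ GPS` and `GPSCore ⇒ GPSKill`. -/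
theorem leaf13_627 (K : Type) [Field K] [NumberField K] : Leaf13 K :=
  fun hT1 𝔫 _ hCore => ⟨gps_of_core627 hT1 𝔫 hCore, gpsKill_of_core627 hT1 𝔫 hCore⟩

end Fermat.Agent.LT.T2.H627

end

end
-- ===== PACK-END LT/T2/H627/Leaf13.lean

-- ===== PACK-BEGIN LT/T2/H886/HeckeAdj.lean
section



/-!
# Row LT, tower T2, station T2.10 (SMO), leaf T2.10.14 `HeckeAdjC` (helper886, registry 1107)

OFF-MAIN.  Imports (byte-identical copies): `LT/T2/H941/SmoSpec.lean` (helper941@8afa9067a,
sha256 41255efa...; with A0 66d3374a, T1/Spec e8ae48d6, T2/Spec 1b305586, T3/Spec 44de320b) and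
`LT/H886/DoubleCoset.lean` (mine; on helper129's `LT/H129/{Cartan,HeckeA0}.lean`).

**The adjoint of `T_v` is `S_v⁻¹ T_v`** on `GL₂(𝒪_v)`-invariant functions of the class `IsAut0`:

* `heckeAdjC_of_pairC886 : H941.PairC K → H941.HeckeAdjC K`,
* `leaf14_886 : H941.Leaf14 K` (VERBATIM; the hypothesis `T1.T1Out K` is not used).

Proof.  `⟨R(h) f₁, f₂⟩ = ⟨f₁, R(h⁻¹) f₂⟩` (invariance of the pairing), and for EVERY `h` of the
coset system `h⁻¹ = u₁ (z⁻¹ h) u₂` with `u₁, u₂ ∈ GL₂(𝒪_v)` (`exists_localMaxCpt_inv886`: Cartan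
decomposition), so that `⟨f₁, R(h⁻¹) f₂⟩ = ⟨R(u₁⁻¹) f₁, R(z⁻¹ h) R(u₂) f₂⟩ = ⟨f₁, R(z⁻¹ h) f₂⟩`:
the two sums agree TERM BY TERM (no bijection of cosets, no counting).
-/

set_option autoImplicit false

open IsDedekindDomain NumberField MeasureTheory AutomorphicForm
open Fermat.Agent.LT.H556.A0

noncomputable section

namespace Fermat.Agent.LT.T2.H886

open Fermat.Agent.LT.T2.H941 Fermat.Agent.LT.H129 Fermat.Agent.LT.H886

variable {K : Type} [Field K] [NumberField K]

/-- A `GL₂(𝒪_v)`-invariant function is fixed by the right translations by `GL₂(𝒪_v)`. -/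
theorem rt_eq_self_of_isKv886 {v : HeightOneSpectrum (𝓞 K)} {f : G K → ℂ} (hf : IsKv v f)
    {u : G K} (hu : IsLocalMaxCptAt129 v u) : rt u f = f := by
  funext x
  exact hf u hu.1 hu.2.1 hu.2.2 x

/-- `y ↦ ⟨f₁, R(y) f₂⟩` is bi-invariant under `GL₂(𝒪_v)`. -/
theorem pair_rt_biinv886 (F : T2.Frame K)
    (hinv : ∀ (g : G K) (f₁ f₂ : G K → ℂ), IsAut0 f₁ → IsAut0 f₂ →
      T2.pair F (rt g f₁) (rt g f₂) = T2.pair F f₁ f₂)
    {v : HeightOneSpectrum (𝓞 K)} {f₁ f₂ : G K → ℂ} (ha₁ : IsAut0 f₁) (ha₂ : IsAut0 f₂)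
    (hk₁ : IsKv v f₁) (hk₂ : IsKv v f₂) {u₁ u₂ : G K} (hu₁ : IsLocalMaxCptAt129 v u₁)
    (hu₂ : IsLocalMaxCptAt129 v u₂) (y : G K) :
    T2.pair F f₁ (rt (u₁ * y * u₂) f₂) = T2.pair F f₁ (rt y f₂) := by
  have e1 : rt (u₁ * y * u₂) f₂ = rt u₁ (rt y f₂) := by
    rw [← rt_rt, rt_eq_self_of_isKv886 hk₂ hu₂, ← rt_rt]
  rw [e1]
  have e2 := hinv u₁ f₁ (rt y f₂) ha₁ (isAut0_rt y ha₂)
  rw [rt_eq_self_of_isKv886 hk₁ hu₁] at e2
  exact e2

/-- **T2.10.14**: the adjoint of `T_v` is `S_v⁻¹ T_v`. -/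
theorem heckeAdjC_of_pairC886 (hP : PairC K) : HeckeAdjC K := by
  intro F v f₁ f₂ ha₁ ha₂ hk₁ hk₂ H hH z hz
  obtain ⟨hadd, -, hinv⟩ := hP F
  -- the left side
  have eL : T2.heckeSum H f₁ = fun x => ∑ h ∈ H, (1 : ℂ) * rt h f₁ x := by
    funext x
    simp [T2.heckeSum, rt]
  have eR : rt z⁻¹ (T2.heckeSum H f₂) = fun x => ∑ h ∈ H, (1 : ℂ) * rt (z⁻¹ * h) f₂ x := by
    funext x
    simp [T2.heckeSum, rt, mul_assoc]
  rw [eL, eR, pair_sum_left F hadd H (fun _ => 1) (fun h => rt h f₁) (fun h => isAut0_rt h ha₁)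
      f₂ ha₂,
    pair_sum_right F hadd H (fun _ => 1) (fun h => rt (z⁻¹ * h) f₂)
      (fun h => isAut0_rt (z⁻¹ * h) ha₂) f₁ ha₁]
  refine Finset.sum_congr rfl fun h hh => ?_
  rw [map_one]
  congr 1
  -- `⟨R(h) f₁, f₂⟩ = ⟨f₁, R(h⁻¹) f₂⟩`
  have e1 : T2.pair F (rt h f₁) f₂ = T2.pair F f₁ (rt h⁻¹ f₂) := by
    have := hinv h⁻¹ (rt h f₁) f₂ (isAut0_rt h ha₁) ha₂
    rw [rt_rt, inv_mul_cancel, rt_one] at this
    exact this.symm
  -- `h⁻¹ ∈ GL₂(𝒪_v) (z⁻¹ h) GL₂(𝒪_v)`
  obtain ⟨hl, hi, hd⟩ := hH.2.1 h hh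
  obtain ⟨u₁, u₂, hu₁, hu₂, e⟩ := exists_localMaxCpt_inv886 hl hi hd hl hi hd hz
  rw [e1, e]
  exact pair_rt_biinv886 F hinv ha₁ ha₂ hk₁ hk₂ hu₁ hu₂ (z⁻¹ * h)

variable (K)

/-- **Leaf T2.10.14** of station T2.10 (helper941 `SmoSpec.lean`), VERBATIM. -/
theorem leaf14_886 : Leaf14 K := fun _ hP => heckeAdjC_of_pairC886 hP

end Fermat.Agent.LT.T2.H886

end
end
-- ===== PACK-END LT/T2/H886/HeckeAdj.lean

-- ===== PACK-BEGIN LT/T2/H600/WhMean.lean
section




/-!
# Row LT, tower T2, sub-leaf T2.10.08.03 `WhMeanC` (helper600) -- OFF-MAIN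

The mean value property of `A0.MeanValueComplex` passes from a bounded continuous `Φ` to its
Whittaker coefficient `W = wh ψ ν D Φ` (Fubini on `D × [0, 2π] × [0, π]`).
Spec: `LT/T2/H973/ArchSpec.lean` of helper973 (sha256 6e234a4a0ea7), registry row 1201.
-/

set_option autoImplicit false

open IsDedekindDomain NumberField MeasureTheory AutomorphicForm
open Fermat.Agent.LT.H556.A0
open scoped ComplexConjugate

noncomputable section

namespace Fermat.Agent.LT.T2.H600

open Fermat.Agent.LT.T2.H941 Fermat.Agent.LT.T2.H973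

/-! ## 1. An abstract Fubini lemma -/

/-- Fubini for a bounded continuous function on `X × ℝ × ℝ`, finite measure on `X`, rectangle
in `ℝ × ℝ`. -/
theorem fubini_rect600 {X : Type} [TopologicalSpace X] [MeasurableSpace X]
    [OpensMeasurableSpace X] (μ : Measure X) [IsFiniteMeasure μ]
    (F : X → ℝ → ℝ → ℂ)
    (hF : Continuous fun q : (ℝ × ℝ) × X => F q.2 q.1.1 q.1.2)
    (C : ℝ) (hC : ∀ x a b, ‖F x a b‖ ≤ C) {a₁ a₂ b₁ b₂ : ℝ} (ha : a₁ ≤ a₂) (hb : b₁ ≤ b₂) :
    (∫ α in a₁..a₂, ∫ β in b₁..b₂, ∫ x, F x α β ∂μ)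
      = ∫ x, (∫ α in a₁..a₂, ∫ β in b₁..b₂, F x α β) ∂μ := by
  set μα : Measure ℝ := volume.restrict (Set.Ioc a₁ a₂) with hμα
  set μβ : Measure ℝ := volume.restrict (Set.Ioc b₁ b₂) with hμβ
  have : IsFiniteMeasure μα := ⟨by rw [hμα, Measure.restrict_apply_univ]; simp⟩
  have : IsFiniteMeasure μβ := ⟨by rw [hμβ, Measure.restrict_apply_univ]; simp⟩
  -- integrability on the triple product
  have hmeas : AEStronglyMeasurable (fun q : (ℝ × ℝ) × X => F q.2 q.1.1 q.1.2)
      ((μα.prod μβ).prod μ) := hF.aestronglyMeasurable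
  have hint : Integrable (fun q : (ℝ × ℝ) × X => F q.2 q.1.1 q.1.2) ((μα.prod μβ).prod μ) :=
    Integrable.of_bound hmeas C (Filter.Eventually.of_forall fun q => hC _ _ _)
  -- integrability of the slices
  have hslice : ∀ x : X, Integrable (fun p : ℝ × ℝ => F x p.1 p.2) (μα.prod μβ) := by
    intro x
    have hc : Continuous fun p : ℝ × ℝ => F x p.1 p.2 :=
      hF.comp (Continuous.prodMk continuous_id continuous_const)
    exact Integrable.of_bound hc.aestronglyMeasurable C
      (Filter.Eventually.of_forall fun p => hC _ _ _)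
  have hI : Integrable (fun p : ℝ × ℝ => ∫ x, F x p.1 p.2 ∂μ) (μα.prod μβ) :=
    hint.integral_prod_left
  calc (∫ α in a₁..a₂, ∫ β in b₁..b₂, ∫ x, F x α β ∂μ)
      = ∫ α, ∫ β, (∫ x, F x α β ∂μ) ∂μβ ∂μα := by
        rw [intervalIntegral.integral_of_le ha]
        refine integral_congr_ae (Filter.Eventually.of_forall fun α => ?_)
        exact intervalIntegral.integral_of_le hb
    _ = ∫ p, (∫ x, F x p.1 p.2 ∂μ) ∂(μα.prod μβ) := (integral_prod _ hI).symm
    _ = ∫ x, (∫ p, F x p.1 p.2 ∂(μα.prod μβ)) ∂μ :=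
        integral_integral_swap (f := fun (p : ℝ × ℝ) (x : X) => F x p.1 p.2) hint
    _ = ∫ x, (∫ α in a₁..a₂, ∫ β in b₁..b₂, F x α β) ∂μ := by
        refine integral_congr_ae (Filter.Eventually.of_forall fun x => ?_)
        show (∫ p, F x p.1 p.2 ∂(μα.prod μβ)) = ∫ α in a₁..a₂, ∫ β in b₁..b₂, F x α β
        rw [integral_prod _ (hslice x), intervalIntegral.integral_of_le ha]
        refine integral_congr_ae (Filter.Eventually.of_forall fun α => ?_)
        exact (intervalIntegral.integral_of_le hb).symm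

/-! ## 2. Continuity of the pieces -/

variable {K : Type} [Field K] [NumberField K]

/-- `x ↦ n(x)` is continuous. -/
theorem continuous_unip600 : Continuous (T3.unip K) := by
  rw [Units.continuous_iff]
  constructor
  · refine continuous_matrix fun i j => ?_
    fin_cases i <;> fin_cases j
    · exact continuous_const
    · exact continuous_id
    · exact continuous_const
    · exact continuous_const
  · refine continuous_matrix fun i j => ?_
    fin_cases i <;> fin_cases j
    · exact continuous_const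
    · exact continuous_neg
    · exact continuous_const
    · exact continuous_const

theorem continuous_rotZ600 : Continuous rotZ := by
  refine continuous_matrix fun i j => ?_
  fin_cases i <;> fin_cases j <;> simp [rotZ] <;> fun_prop

theorem continuous_rotY600 : Continuous rotY := by
  refine continuous_matrix fun i j => ?_
  fin_cases i <;> fin_cases j <;> simp [rotY] <;> fun_prop

/-- The family `Y` of `A0.MeanValueComplex` is jointly continuous. -/
theorem continuous_family600 (w : InfinitePlace K) (d : ℝ) (Y : ℝ → ℝ → G K)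
    (hY : ∀ α β : ℝ, IsLocalAtInf w (Y α β) ∧ infComp w (Y α β) = rotZ α * rotY β * torus d) :
    Continuous fun p : ℝ × ℝ => Y p.1 p.2 := by
  refine H472.locCont472 K w (ℝ × ℝ) (fun p => Y p.1 p.2) (fun p => (hY p.1 p.2).1) ?_
  intro i j
  have h1 : Continuous fun p : ℝ × ℝ => rotZ p.1 * rotY p.2 * torus d :=
    ((continuous_rotZ600.comp continuous_fst).matrix_mul
      (continuous_rotY600.comp continuous_snd)).matrix_mul continuous_const
  have h2 : (fun p : ℝ × ℝ => infComp w (Y p.1 p.2) i j)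
      = fun p : ℝ × ℝ => (rotZ p.1 * rotY p.2 * torus d) i j := by
    funext p
    rw [(hY p.1 p.2).2]
  rw [h2]
  exact h1.matrix_elem i j

/-! ## 3. The leaf -/

/-- **T2.10.08.03 `WhMeanC`.** -/
theorem whMeanC600 (K : Type) [Field K] [NumberField K] : WhMeanC K := by
  let _ : MeasurableSpace (Adl K) := borel (Adl K)
  have : BorelSpace (Adl K) := ⟨rfl⟩
  intro _hLC ψ ν D hWD Φ hΦc hΦb w hMV
  obtain ⟨hstd, -, -, -, -, -, hfin⟩ := hWD
  obtain ⟨C, hC⟩ := hΦb
  intro d hd Y hY g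
  have : IsFiniteMeasure (ν.restrict D) := ⟨by rw [Measure.restrict_apply_univ]; exact hfin⟩
  have hYc := continuous_family600 w d Y hY
  have hψc : Continuous fun x : Adl K => ((ψ x : Circle) : ℂ) :=
    continuous_subtype_val.comp hstd.cont
  -- the integrand
  set F : Adl K → ℝ → ℝ → ℂ := fun x α β =>
    Φ (T3.unip K x * (g * Y α β)) * (starRingEnd ℂ) ((ψ x : Circle) : ℂ)
      * ((Real.sin β : ℝ) : ℂ) with hFdef
  have hFc : Continuous fun q : (ℝ × ℝ) × Adl K => F q.2 q.1.1 q.1.2 := by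
    have h1 : Continuous fun q : (ℝ × ℝ) × Adl K => T3.unip K q.2 * (g * Y q.1.1 q.1.2) :=
      (continuous_unip600.comp continuous_snd).mul
        (continuous_const.mul (hYc.comp continuous_fst))
    have h2 : Continuous fun q : (ℝ × ℝ) × Adl K =>
        (starRingEnd ℂ) ((ψ q.2 : Circle) : ℂ) :=
      Complex.continuous_conj.comp (hψc.comp continuous_snd)
    have h3 : Continuous fun q : (ℝ × ℝ) × Adl K => ((Real.sin q.1.2 : ℝ) : ℂ) :=
      Complex.continuous_ofReal.comp
        (Real.continuous_sin.comp (continuous_snd.comp continuous_fst))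
    exact ((hΦc.comp h1).mul h2).mul h3
  have hFb : ∀ x a b, ‖F x a b‖ ≤ |C| := by
    intro x a b
    simp only [hFdef, norm_mul, RCLike.norm_conj, Circle.norm_coe, mul_one,
      Complex.norm_real, Real.norm_eq_abs]
    calc ‖Φ (T3.unip K x * (g * Y a b))‖ * |Real.sin b|
        ≤ |C| * 1 := by
          refine mul_le_mul ((hC _).trans (le_abs_self C)) (Real.abs_sin_le_one b)
            (abs_nonneg _) (abs_nonneg _)
      _ = |C| := mul_one _
  have hswap := fubini_rect600 (ν.restrict D) F hFc |C| hFb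
    (a₁ := 0) (a₂ := 2 * Real.pi) (b₁ := 0) (b₂ := Real.pi)
    (by positivity) Real.pi_pos.le
  -- left-hand side
  have hL : (∫ α in (0 : ℝ)..(2 * Real.pi), ∫ β in (0 : ℝ)..Real.pi,
        wh ψ ν D Φ (g * Y α β) * ((Real.sin β : ℝ) : ℂ))
      = ∫ α in (0 : ℝ)..(2 * Real.pi), ∫ β in (0 : ℝ)..Real.pi,
          ∫ x, F x α β ∂(ν.restrict D) := by
    refine intervalIntegral.integral_congr fun α _ => ?_
    refine intervalIntegral.integral_congr fun β _ => ?_
    show wh ψ ν D Φ (g * Y α β) * ((Real.sin β : ℝ) : ℂ) = ∫ x, F x α β ∂(ν.restrict D)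
    rw [wh, ← integral_mul_const]
  -- right-hand side
  have hR : ∀ x : Adl K, (∫ α in (0 : ℝ)..(2 * Real.pi), ∫ β in (0 : ℝ)..Real.pi, F x α β)
      = ((4 * Real.pi * (d / Real.sinh d) : ℝ) : ℂ)
          * (Φ (T3.unip K x * g) * (starRingEnd ℂ) ((ψ x : Circle) : ℂ)) := by
    intro x
    have h := hMV d hd Y hY (T3.unip K x * g)
    have h' : (∫ α in (0 : ℝ)..(2 * Real.pi), ∫ β in (0 : ℝ)..Real.pi, F x α β)
        = (∫ α in (0 : ℝ)..(2 * Real.pi), ∫ β in (0 : ℝ)..Real.pi,
            Φ (T3.unip K x * g * Y α β) * ((Real.sin β : ℝ) : ℂ))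
          * (starRingEnd ℂ) ((ψ x : Circle) : ℂ) := by
      rw [← intervalIntegral.integral_mul_const]
      refine intervalIntegral.integral_congr fun α _ => ?_
      show (∫ β in (0 : ℝ)..Real.pi, F x α β) = _
      rw [← intervalIntegral.integral_mul_const]
      refine intervalIntegral.integral_congr fun β _ => ?_
      show F x α β = _
      simp only [hFdef, mul_assoc]
      ring
    rw [h', h]
    ring
  rw [hL, hswap]
  simp only [hR]
  rw [integral_const_mul]
  rfl

end Fermat.Agent.LT.T2.H600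

end

end
-- ===== PACK-END LT/T2/H600/WhMean.lean

-- ===== PACK-BEGIN LT/T2/H973/H546/LocEmb.lean
section




/-!
# Row LT, tower T2, leaf T2.10.08.04 `LocEmbC` (A4; helper546), OFF-MAIN

The embedding `j : GL₂(ℂ) →* GL₂(𝔸_K)` and `ι : ℂ →+ 𝔸_K` at a complex place `w`
(`IsLocEmb w j ι`, 7 fields).  `j h` has the component `σ⁻¹(h)` at `w`
(`σ = ringEquivComplexOfIsComplex`) and `1` at every other place; `ι x` has the component
`σ⁻¹(x)` at `w` and `0` elsewhere.

Imports: `T2/H973/ArchSpec.lean` (helper973), `T1/H793/AdeleProj.lean` (helper793: `glMk793`,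
`gl_ext793`), `T2/H472/LocCont.lean` (helper472: `locCont472`), byte-identical copies.
-/

set_option autoImplicit false
set_option linter.unusedSectionVars false

open IsDedekindDomain NumberField
open Fermat.Agent.LT.H556.A0
open Fermat.Agent.LT.T2 Fermat.Agent.LT.T2.H941 Fermat.Agent.LT.T2.H973
open Fermat.Agent.LT.T1.H793 Fermat.Agent.LT.T2.H472

noncomputable section

namespace Fermat.Agent.LT.T2.H973.H546

variable {K : Type} [Field K] [NumberField K]

open scoped Classical

/-! ## The components -/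

theorem one_int_h546 (v : HeightOneSpectrum (𝓞 K)) (i j : Fin 2) :
    ((1 : GL (Fin 2) (v.adicCompletion K)) : Matrix (Fin 2) (Fin 2) (v.adicCompletion K)) i j
      ∈ v.adicCompletionIntegers K := by
  rw [Units.val_one, Matrix.one_apply]
  split_ifs
  · exact one_mem _
  · exact zero_mem _

theorem one_inv_int_h546 (v : HeightOneSpectrum (𝓞 K)) (i j : Fin 2) :
    (((1 : GL (Fin 2) (v.adicCompletion K))⁻¹ : GL (Fin 2) (v.adicCompletion K)) :
      Matrix (Fin 2) (Fin 2) (v.adicCompletion K)) i j ∈ v.adicCompletionIntegers K := by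
  rw [inv_one]
  exact one_int_h546 v i j

/-- The family of components at the infinite places: `σ⁻¹(h)` at `w`, `1` elsewhere. -/
def kwFam_h546 {w : InfinitePlace K} (hw : w.IsComplex) (h : GL (Fin 2) ℂ) :
    ∀ w' : InfinitePlace K, GL (Fin 2) w'.Completion :=
  Pi.mulSingle w (Matrix.GeneralLinearGroup.map
    ((InfinitePlace.Completion.ringEquivComplexOfIsComplex hw).symm : ℂ →+* w.Completion) h)

theorem kwFam_same_h546 {w : InfinitePlace K} (hw : w.IsComplex) (h : GL (Fin 2) ℂ) :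
    kwFam_h546 hw h w = Matrix.GeneralLinearGroup.map
      ((InfinitePlace.Completion.ringEquivComplexOfIsComplex hw).symm : ℂ →+* w.Completion) h := by
  unfold kwFam_h546
  exact Pi.mulSingle_eq_same _ _

theorem kwFam_ne_h546 {w : InfinitePlace K} (hw : w.IsComplex) (h : GL (Fin 2) ℂ)
    {w' : InfinitePlace K} (hne : w' ≠ w) : kwFam_h546 hw h w' = 1 := by
  unfold kwFam_h546
  exact Pi.mulSingle_eq_of_ne hne _

theorem kwFam_one_h546 {w : InfinitePlace K} (hw : w.IsComplex) :
    kwFam_h546 hw (1 : GL (Fin 2) ℂ) = 1 := by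
  unfold kwFam_h546
  rw [map_one, Pi.mulSingle_one]

theorem kwFam_mul_h546 {w : InfinitePlace K} (hw : w.IsComplex) (a b : GL (Fin 2) ℂ) :
    kwFam_h546 hw (a * b) = kwFam_h546 hw a * kwFam_h546 hw b := by
  unfold kwFam_h546
  rw [map_mul, Pi.mulSingle_mul]

/-- The element `j h` of `GL₂(𝔸_K)`. -/
def jFun_h546 {w : InfinitePlace K} (hw : w.IsComplex) (h : GL (Fin 2) ℂ) : G K :=
  glMk793 (kwFam_h546 hw h) (fun _ => 1) (fun v i j => one_int_h546 v i j)
    (fun v i j => one_inv_int_h546 v i j)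

theorem glInf_jFun_h546 {w : InfinitePlace K} (hw : w.IsComplex) (h : GL (Fin 2) ℂ)
    (w' : InfinitePlace K) : glInf793 w' (jFun_h546 hw h) = kwFam_h546 hw h w' :=
  glInf793_glMk _ _ _ _ w'

theorem glFin_jFun_h546 {w : InfinitePlace K} (hw : w.IsComplex) (h : GL (Fin 2) ℂ)
    (v : HeightOneSpectrum (𝓞 K)) : glFin793 v (jFun_h546 hw h) = 1 :=
  glFin793_glMk _ _ _ _ v

/-- **The embedding `j`.** -/
def jHom_h546 {w : InfinitePlace K} (hw : w.IsComplex) : GL (Fin 2) ℂ →* G K where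
  toFun := jFun_h546 hw
  map_one' := by
    apply gl_ext793
    · intro w'
      rw [glInf_jFun_h546, map_one, kwFam_one_h546]
      rfl
    · intro v
      rw [glFin_jFun_h546, map_one]
  map_mul' a b := by
    apply gl_ext793
    · intro w'
      rw [map_mul, glInf_jFun_h546, glInf_jFun_h546, glInf_jFun_h546, kwFam_mul_h546]
      rfl
    · intro v
      rw [map_mul, glFin_jFun_h546, glFin_jFun_h546, glFin_jFun_h546, one_mul]

theorem jHom_apply_h546 {w : InfinitePlace K} (hw : w.IsComplex) (h : GL (Fin 2) ℂ) :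
    jHom_h546 hw h = jFun_h546 hw h := rfl

/-- The entries of `j h`, infinite part. -/
theorem jFun_entry_inf_h546 {w : InfinitePlace K} (hw : w.IsComplex) (h : GL (Fin 2) ℂ)
    (w' : InfinitePlace K) (i j : Fin 2) :
    ((jFun_h546 hw h : Matrix (Fin 2) (Fin 2) (Adl K)) i j).1 w'
      = ((kwFam_h546 hw h w' : GL (Fin 2) w'.Completion) :
          Matrix (Fin 2) (Fin 2) w'.Completion) i j := rfl

/-- The entries of `j h`, finite part. -/
theorem jFun_entry_fin_h546 {w : InfinitePlace K} (hw : w.IsComplex) (h : GL (Fin 2) ℂ)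
    (v : HeightOneSpectrum (𝓞 K)) (i j : Fin 2) :
    ((jFun_h546 hw h : Matrix (Fin 2) (Fin 2) (Adl K)) i j).2 v
      = (1 : Matrix (Fin 2) (Fin 2) (v.adicCompletion K)) i j := rfl

theorem jFun_entry_same_h546 {w : InfinitePlace K} (hw : w.IsComplex) (h : GL (Fin 2) ℂ)
    (i j : Fin 2) :
    ((jFun_h546 hw h : Matrix (Fin 2) (Fin 2) (Adl K)) i j).1 w
      = (InfinitePlace.Completion.ringEquivComplexOfIsComplex hw).symm
          ((h : Matrix (Fin 2) (Fin 2) ℂ) i j) := by
  rw [jFun_entry_inf_h546, kwFam_same_h546]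
  rfl

theorem jFun_entry_ne_h546 {w : InfinitePlace K} (hw : w.IsComplex) (h : GL (Fin 2) ℂ)
    {w' : InfinitePlace K} (hne : w' ≠ w) (i j : Fin 2) :
    ((jFun_h546 hw h : Matrix (Fin 2) (Fin 2) (Adl K)) i j).1 w'
      = (1 : Matrix (Fin 2) (Fin 2) w'.Completion) i j := by
  rw [jFun_entry_inf_h546, kwFam_ne_h546 hw h hne]
  rfl

/-! ## The additive embedding -/

/-- **The embedding `ι`**: `σ⁻¹(x)` at `w`, `0` elsewhere. -/
def iotaHom_h546 {w : InfinitePlace K} (hw : w.IsComplex) : ℂ →+ Adl K where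
  toFun x := ((Pi.single w ((InfinitePlace.Completion.ringEquivComplexOfIsComplex hw).symm x) :
    InfiniteAdeleRing K), (0 : FiniteAdeleRing (𝓞 K) K))
  map_zero' := by
    rw [map_zero, Pi.single_zero]
    rfl
  map_add' x y := by
    rw [map_add, Pi.single_add]
    refine Prod.ext rfl ?_
    show (0 : FiniteAdeleRing (𝓞 K) K) = 0 + 0
    rw [add_zero]

theorem iota_same_h546 {w : InfinitePlace K} (hw : w.IsComplex) (x : ℂ) :
    (iotaHom_h546 hw x).1 w
      = (InfinitePlace.Completion.ringEquivComplexOfIsComplex hw).symm x := by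
  show (Pi.single w ((InfinitePlace.Completion.ringEquivComplexOfIsComplex hw).symm x) :
    InfiniteAdeleRing K) w = _
  exact Pi.single_eq_same _ _

theorem iota_ne_h546 {w : InfinitePlace K} (hw : w.IsComplex) (x : ℂ)
    {w' : InfinitePlace K} (hne : w' ≠ w) : (iotaHom_h546 hw x).1 w' = 0 := by
  show (Pi.single w ((InfinitePlace.Completion.ringEquivComplexOfIsComplex hw).symm x) :
    InfiniteAdeleRing K) w' = _
  exact Pi.single_eq_of_ne hne _

theorem iota_fin_h546 {w : InfinitePlace K} (hw : w.IsComplex) (x : ℂ) :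
    (iotaHom_h546 hw x).2 = 0 := rfl

theorem continuous_iota_h546 {w : InfinitePlace K} (hw : w.IsComplex) :
    Continuous (iotaHom_h546 hw : ℂ → Adl K) := by
  have h1 : Continuous fun x : ℂ =>
      (InfinitePlace.Completion.ringEquivComplexOfIsComplex hw).symm x :=
    (InfinitePlace.Completion.isometryEquivComplexOfIsComplex hw).symm.continuous
  have h2 : Continuous fun x : ℂ =>
      (Pi.single w ((InfinitePlace.Completion.ringEquivComplexOfIsComplex hw).symm x) :
        InfiniteAdeleRing K) := (continuous_single w).comp h1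
  exact h2.prodMk continuous_const

/-! ## The seven fields -/

theorem jHom_loc_h546 {w : InfinitePlace K} (hw : w.IsComplex) (h : GL (Fin 2) ℂ) :
    IsLocalAtInf w (jHom_h546 hw h) := by
  refine ⟨fun w' hne i j => jFun_entry_ne_h546 hw h hne i j, fun v => ?_⟩
  show finComp v (jFun_h546 hw h) = 1
  exact Matrix.ext fun i j => jFun_entry_fin_h546 hw h v i j

theorem jHom_comp_h546 {w : InfinitePlace K} (hw : w.IsComplex) (h : GL (Fin 2) ℂ) :
    infComp w (jHom_h546 hw h) = (h : Matrix (Fin 2) (Fin 2) ℂ) := by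
  refine Matrix.ext fun i j => ?_
  show InfinitePlace.Completion.extensionEmbedding w
    (((jFun_h546 hw h : Matrix (Fin 2) (Fin 2) (Adl K)) i j).1 w) = _
  rw [jFun_entry_same_h546, ← InfinitePlace.Completion.ringEquivComplexOfIsComplex_apply hw,
    RingEquiv.apply_symm_apply]

theorem jHom_cont_h546 {w : InfinitePlace K} (hw : w.IsComplex) :
    Continuous (jHom_h546 hw : GL (Fin 2) ℂ → G K) := by
  apply locCont472 K w (GL (Fin 2) ℂ) (jHom_h546 hw) (jHom_loc_h546 hw)
  intro i j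
  have : (fun h : GL (Fin 2) ℂ => infComp w (jHom_h546 hw h) i j)
      = fun h : GL (Fin 2) ℂ => (h : Matrix (Fin 2) (Fin 2) ℂ) i j := by
    funext h
    rw [jHom_comp_h546]
  rw [this]
  exact Units.continuous_val.matrix_elem i j

/-- Equality of two elements of `GL₂(𝔸_K)`, entrywise and componentwise. -/
theorem g_ext_h546 {g g' : G K}
    (h1 : ∀ (w' : InfinitePlace K) (i j : Fin 2),
      ((g : Matrix (Fin 2) (Fin 2) (Adl K)) i j).1 w'
        = ((g' : Matrix (Fin 2) (Fin 2) (Adl K)) i j).1 w')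
    (h2 : ∀ (v : HeightOneSpectrum (𝓞 K)) (i j : Fin 2),
      ((g : Matrix (Fin 2) (Fin 2) (Adl K)) i j).2 v
        = ((g' : Matrix (Fin 2) (Fin 2) (Adl K)) i j).2 v) : g = g' := by
  apply Units.ext
  exact Matrix.ext fun i j => adl_ext793 (fun w' => h1 w' i j) (fun v => h2 v i j)

theorem jHom_unip_h546 {w : InfinitePlace K} (hw : w.IsComplex) (x : ℂ) :
    jHom_h546 hw (nC x) = T3.unip K (iotaHom_h546 hw x) := by
  apply g_ext_h546
  · intro w' i j
    rw [jHom_apply_h546]
    by_cases hne : w' = w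
    · subst hne
      rw [jFun_entry_same_h546]
      have hu : ((T3.unip K (iotaHom_h546 hw x) : G K) : Matrix (Fin 2) (Fin 2) (Adl K))
          = !![1, iotaHom_h546 hw x; 0, 1] := rfl
      have hn : ((nC x : GL (Fin 2) ℂ) : Matrix (Fin 2) (Fin 2) ℂ) = !![1, x; 0, 1] := rfl
      rw [hu, hn]
      fin_cases i <;> fin_cases j
      · simp
        rfl
      · simp
        exact (iota_same_h546 hw x).symm
      · simp
        rfl
      · simp
        rfl
    · rw [jFun_entry_ne_h546 hw _ hne]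
      have hu : ((T3.unip K (iotaHom_h546 hw x) : G K) : Matrix (Fin 2) (Fin 2) (Adl K))
          = !![1, iotaHom_h546 hw x; 0, 1] := rfl
      rw [hu]
      fin_cases i <;> fin_cases j
      · simp
        rfl
      · simp
        exact (iota_ne_h546 hw x hne).symm
      · simp
        rfl
      · simp
        rfl
  · intro v i j
    rw [jHom_apply_h546, jFun_entry_fin_h546]
    have hu : ((T3.unip K (iotaHom_h546 hw x) : G K) : Matrix (Fin 2) (Fin 2) (Adl K))
        = !![1, iotaHom_h546 hw x; 0, 1] := rfl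
    rw [hu]
    fin_cases i <;> fin_cases j
    · simp
      rfl
    · simp
      rfl
    · simp
      rfl
    · simp
      rfl

theorem jHom_tor_h546 {w : InfinitePlace K} (hw : w.IsComplex) (y : (Adl K)ˣ)
    (hy : IsIdeleAtInf w y) (yc : ℂˣ)
    (hyc : (yc : ℂ) = InfinitePlace.Completion.extensionEmbedding w ((y : Adl K).1 w)) :
    tor y = jHom_h546 hw (tC yc) := by
  have ht : ((tor y : G K) : Matrix (Fin 2) (Fin 2) (Adl K)) = !![(y : Adl K), 0; 0, 1] := rfl
  have hc : ((tC yc : GL (Fin 2) ℂ) : Matrix (Fin 2) (Fin 2) ℂ) = !![(yc : ℂ), 0; 0, 1] := rfl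
  have hsymm : (InfinitePlace.Completion.ringEquivComplexOfIsComplex hw).symm (yc : ℂ)
      = (y : Adl K).1 w := by
    rw [hyc, ← InfinitePlace.Completion.ringEquivComplexOfIsComplex_apply hw,
      RingEquiv.symm_apply_apply]
  apply g_ext_h546
  · intro w' i j
    rw [jHom_apply_h546, ht]
    by_cases hne : w' = w
    · subst hne
      rw [jFun_entry_same_h546, hc]
      fin_cases i <;> fin_cases j
      · simp
        exact hsymm.symm
      · simp
        rfl
      · simp
        rfl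
      · simp
        rfl
    · rw [jFun_entry_ne_h546 hw _ hne]
      fin_cases i <;> fin_cases j
      · simp
        exact hy.1 w' hne
      · simp
        rfl
      · simp
        rfl
      · simp
        rfl
  · intro v i j
    rw [jHom_apply_h546, jFun_entry_fin_h546, ht]
    fin_cases i <;> fin_cases j
    · simp
      exact hy.2 v
    · simp
      rfl
    · simp
      rfl
    · simp
      rfl

theorem glInf_eq_one_of_triv_h546 {w : InfinitePlace K} {g : G K} (hg : TrivAtInf w g) :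
    glInf793 w g = 1 := by
  apply Units.ext
  exact Matrix.ext fun i j => hg i j

theorem jHom_comm_h546 {w : InfinitePlace K} (hw : w.IsComplex) (h : GL (Fin 2) ℂ) (g : G K)
    (hg : TrivAtInf w g) : jHom_h546 hw h * g = g * jHom_h546 hw h := by
  apply gl_ext793
  · intro w'
    rw [map_mul, map_mul, jHom_apply_h546, glInf_jFun_h546]
    by_cases hne : w' = w
    · subst hne
      rw [glInf_eq_one_of_triv_h546 hg, mul_one, one_mul]
    · rw [kwFam_ne_h546 hw h hne, mul_one, one_mul]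
  · intro v
    rw [map_mul, map_mul, jHom_apply_h546, glFin_jFun_h546, mul_one, one_mul]

/-- **T2.10.08.04 (A4) `LocEmbC`.** -/
theorem locEmbC_h546 (K : Type) [Field K] [NumberField K] : LocEmbC K := by
  intro w hw
  exact ⟨jHom_h546 hw, iotaHom_h546 hw,
    { cont := jHom_cont_h546 hw
      contAdd := continuous_iota_h546 hw
      loc := jHom_loc_h546 hw
      comp := jHom_comp_h546 hw
      unip := jHom_unip_h546 hw
      tor := jHom_tor_h546 hw
      comm := jHom_comm_h546 hw }⟩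

end Fermat.Agent.LT.T2.H973.H546

end

end
-- ===== PACK-END LT/T2/H973/H546/LocEmb.lean

-- ===== PACK-BEGIN LT/T3/H127/Mink.lean
section



/-!
# Row LT, tower T3, leaf T3.03 (helper127): small elements (Minkowski)

OFF-MAIN.

* `exists_int_small_away` : a non-zero integer of `K`, small at all infinite places but one.
* `exists_small_away_fin` : a non-zero element of `K`, small at all infinite places and integral at
  all finite places but one.
-/

set_option autoImplicit false

open NumberField IsDedekindDomain IsDedekindDomain.HeightOneSpectrum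
open NumberField.mixedEmbedding NNReal ENNReal MeasureTheory Module
open scoped nonZeroDivisors

noncomputable section

namespace Fermat.Agent.LT.T3.H127

variable (K : Type) [Field K] [NumberField K]

/-- Minkowski: a non-zero integer which is small at all infinite places but one. -/
theorem exists_int_small_away (w₁ : InfinitePlace K) (ε : ℝ) (hε : 0 < ε) :
    ∃ a : 𝓞 K, a ≠ 0 ∧ ∀ w : InfinitePlace K, w ≠ w₁ → w (a : K) < ε := by
  classical
  obtain ⟨B, hB⟩ : ∃ B : ℕ, minkowskiBound K 1 < (convexBodyLTFactor K) * B := by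
    conv => congr; ext; rw [mul_comm]
    exact ENNReal.exists_nat_mul_gt (ENNReal.coe_ne_zero.mpr (convexBodyLTFactor_ne_zero K))
      (ne_of_lt (minkowskiBound_lt_top K 1))
  let f : InfinitePlace K → ℝ≥0 := fun _ => ⟨ε, hε.le⟩
  have hf : ∀ w, w ≠ w₁ → f w ≠ 0 := by
    intro w _ h
    have : (f w : ℝ) = 0 := by rw [h]; rfl
    exact hε.ne' this
  obtain ⟨g, h_geqf, h_gprod⟩ := adjust_f K B hf
  obtain ⟨y, h_ynz, h_yle⟩ := exists_ne_zero_mem_ringOfIntegers_lt K (f := g)
      (by rw [convexBodyLT_volume]; convert hB; exact congr_arg ((↑) : NNReal → ENNReal) h_gprod)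
  refine ⟨y, h_ynz, fun w hw => ?_⟩
  have := h_yle w
  rw [h_geqf w hw] at this
  exact this

/-- an element of `𝔭₀ ^ m` which is a unit at `v ≠ v₀`. -/
theorem exists_mem_pow_not_mem (v₀ v : HeightOneSpectrum (𝓞 K)) (hv : v ≠ v₀) (m : ℕ) :
    ∃ c : 𝓞 K, c ∈ v₀.asIdeal ^ m ∧ c ∉ v.asIdeal := by
  by_contra h
  have hle : v₀.asIdeal ^ m ≤ v.asIdeal := by
    intro c hc
    by_contra hcv
    exact h ⟨c, hc, hcv⟩
  have h1 : v₀.asIdeal ≤ v.asIdeal := v.isPrime.le_of_pow_le hle
  have h2 : v₀.asIdeal = v.asIdeal := v₀.isMaximal.eq_of_le v.isPrime.ne_top h1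
  exact hv (HeightOneSpectrum.ext h2.symm)

/-- the norm at `v` of an integer outside `𝔭_v` is one. -/
theorem norm_loc_eq_one_of_not_mem (v : HeightOneSpectrum (𝓞 K)) (c : 𝓞 K) (hc : c ∉ v.asIdeal) :
    ‖loc K v (c : K)‖ = 1 := by
  apply le_antisymm (norm_loc_int_le_one K v c)
  by_contra hlt
  have hlt' : ‖loc K v (c : K)‖ < 1 := not_le.mp hlt
  rw [Valued.toNormedField.norm_lt_one_iff, Fermat.Agent.LT.H767.valued_algebraMap] at hlt'
  exact hc ((v.valuation_lt_one_iff_mem c).mp hlt')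

/-- Minkowski: a non-zero element of `K` which is small at all infinite places and integral at all
finite places but one. -/
theorem exists_small_away_fin (v₀ : HeightOneSpectrum (𝓞 K)) (ε : ℝ) (hε : 0 < ε) :
    ∃ a : K, a ≠ 0 ∧ (∀ w : InfinitePlace K, w a < ε) ∧
      ∀ v : HeightOneSpectrum (𝓞 K), v ≠ v₀ → ‖loc K v a‖ ≤ 1 := by
  classical
  let f : InfinitePlace K → ℝ≥0 := fun _ => ⟨ε, hε.le⟩
  -- the volume of the convex body is positive
  have hvol : volume (convexBodyLT K f) ≠ 0 := by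
    rw [convexBodyLT_volume]
    refine mul_ne_zero (ENNReal.coe_ne_zero.mpr (convexBodyLTFactor_ne_zero K)) ?_
    rw [ENNReal.coe_ne_zero, Finset.prod_ne_zero_iff]
    intro w _
    apply pow_ne_zero
    intro h
    have : (f w : ℝ) = 0 := by rw [h]; rfl
    exact hε.ne' this
  obtain ⟨n, hn⟩ : ∃ n : ℕ, minkowskiBound K 1 < n * volume (convexBodyLT K f) :=
    ENNReal.exists_nat_mul_gt hvol (ne_of_lt (minkowskiBound_lt_top K 1))
  -- the fractional ideal `𝔭₀ ^ (-n)`
  set P : FractionalIdeal (𝓞 K)⁰ K := (v₀.asIdeal : FractionalIdeal (𝓞 K)⁰ K) with hP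
  have hP0 : P ≠ 0 := FractionalIdeal.coeIdeal_ne_zero.mpr v₀.ne_bot
  let I : (FractionalIdeal (𝓞 K)⁰ K)ˣ := Units.mk0 ((P ^ n)⁻¹) (inv_ne_zero (pow_ne_zero n hP0))
  have hI : (I : FractionalIdeal (𝓞 K)⁰ K) = (P ^ n)⁻¹ := rfl
  have hMB : minkowskiBound K I
      = ENNReal.ofReal (FractionalIdeal.absNorm (I : FractionalIdeal (𝓞 K)⁰ K))
          * minkowskiBound K 1 := by
    unfold minkowskiBound
    rw [volume_fundamentalDomain_fractionalIdealLatticeBasis,
      volume_fundamentalDomain_fractionalIdealLatticeBasis]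
    simp [mul_assoc]
  have hN2 : (2 : ℝ) ≤ (Ideal.absNorm v₀.asIdeal : ℝ) := by
    have h1 : Ideal.absNorm v₀.asIdeal ≠ 0 := by
      rw [Ne, Ideal.absNorm_eq_zero_iff]; exact v₀.ne_bot
    have h2 : Ideal.absNorm v₀.asIdeal ≠ 1 := by
      rw [Ne, Ideal.absNorm_eq_one_iff]; exact v₀.isPrime.ne_top
    have : 2 ≤ Ideal.absNorm v₀.asIdeal := by omega
    exact_mod_cast this
  have habs : ((FractionalIdeal.absNorm (I : FractionalIdeal (𝓞 K)⁰ K) : ℚ) : ℝ)
      = ((Ideal.absNorm v₀.asIdeal : ℝ) ^ n)⁻¹ := by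
    rw [hI, map_inv₀, map_pow, hP, FractionalIdeal.coeIdeal_absNorm]
    push_cast
    rfl
  have hNn : (n : ℝ) ≤ (Ideal.absNorm v₀.asIdeal : ℝ) ^ n := by
    calc (n : ℝ) ≤ (2 : ℝ) ^ n := by exact_mod_cast (Nat.lt_two_pow_self (n := n)).le
      _ ≤ _ := pow_le_pow_left₀ (by norm_num) hN2 n
  have hNpos : (0 : ℝ) < (Ideal.absNorm v₀.asIdeal : ℝ) ^ n := by positivity
  have hlt : minkowskiBound K I < volume (convexBodyLT K f) := by
    rw [hMB, habs]
    set x : ℝ≥0∞ := ENNReal.ofReal (((Ideal.absNorm v₀.asIdeal : ℝ) ^ n)⁻¹) with hx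
    have hxpos : x ≠ 0 := by
      rw [hx, Ne, ENNReal.ofReal_eq_zero, not_le]
      positivity
    have hxtop : x ≠ ⊤ := ENNReal.ofReal_ne_top
    have hxn : x * n ≤ 1 := by
      have : (n : ℝ≥0∞) = ENNReal.ofReal (n : ℝ) := by simp
      rw [hx, this, ← ENNReal.ofReal_mul (by positivity), ← ENNReal.ofReal_one]
      apply ENNReal.ofReal_le_ofReal
      rw [inv_mul_le_iff₀ hNpos, mul_one]
      exact hNn
    calc x * minkowskiBound K 1 < x * (n * volume (convexBodyLT K f)) :=
          (ENNReal.mul_lt_mul_iff_right hxpos hxtop).mpr hn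
      _ = (x * n) * volume (convexBodyLT K f) := by rw [mul_assoc]
      _ ≤ 1 * volume (convexBodyLT K f) := by gcongr
      _ = _ := one_mul _
  obtain ⟨a, haI, ha0, haw⟩ := exists_ne_zero_mem_ideal_lt K I hlt
  refine ⟨a, ha0, fun w => haw w, fun v hv => ?_⟩
  obtain ⟨c, hc, hcv⟩ := exists_mem_pow_not_mem K v₀ v hv n
  have hcP : (c : K) ∈ P ^ n := by
    rw [hP, ← FractionalIdeal.coeIdeal_pow, FractionalIdeal.mem_coeIdeal]
    exact ⟨c, hc, rfl⟩
  have hac : a * (c : K) ∈ (P ^ n)⁻¹ * P ^ n := FractionalIdeal.mul_mem_mul haI hcP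
  rw [inv_mul_cancel₀ (pow_ne_zero n hP0), FractionalIdeal.mem_one_iff] at hac
  obtain ⟨b, hb⟩ := hac
  have h1 : ‖loc K v a‖ * ‖loc K v (c : K)‖ = ‖loc K v (b : K)‖ := by
    rw [← norm_mul]
    congr 1
    simp only [loc]
    rw [← map_mul, ← hb]
  rw [norm_loc_eq_one_of_not_mem K v c hcv, mul_one] at h1
  rw [h1]
  exact norm_loc_int_le_one K v b

end Fermat.Agent.LT.T3.H127

end
end
-- ===== PACK-END LT/T3/H127/Mink.lean

-- ===== PACK-BEGIN LT/T3/H166/SphCont.lean
section



/-!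
# Row LT, tower T3, leaf AS.2.3 `SphContC` (registry 1171; helper166) -- OFF-MAIN

`sphContC166 : Fermat.Agent.LT.T3.H315.SphContC`, VERBATIM against
`LT/T3/H315/AbelCut.lean` (origin/helper315@4ea336ee2, sha256 446d055e477cbe77): the spherical
function of parameter `0`, `h ↦ d(h) / sinh d(h)`, is continuous on `GL₂(ℂ)`.

Proof: `sph0 X = (dslope sinh 0 (arcosh (max X 1)))⁻¹` (`sph0_eq166`), the divided difference
`dslope sinh 0` (`= sinh d / d`, value `cosh 0 = 1` at `d = 0`) is continuous and never zero,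
`arcosh` is continuous on `[1, ∞)`, and `chD614` is continuous on `GL₂(ℂ)` (`det ≠ 0`).
-/

set_option autoImplicit false

open Filter Topology

namespace Fermat.Agent.LT.T3.H166

open Fermat.Agent.LT.T3.H315 Fermat.Agent.LT.T3.H614

/-- `dslope sinh 0` is continuous. -/
theorem continuous_dslope_sinh166 : Continuous (dslope Real.sinh 0) := by
  rw [continuous_iff_continuousAt]
  intro d
  by_cases hd : d = 0
  · subst hd
    exact continuousAt_dslope_same.mpr (Real.hasDerivAt_sinh 0).differentiableAt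
  · exact (continuousAt_dslope_of_ne hd).mpr Real.continuous_sinh.continuousAt

theorem dslope_sinh_zero166 : dslope Real.sinh 0 0 = 1 := by
  rw [dslope_same, (Real.hasDerivAt_sinh 0).deriv, Real.cosh_zero]

theorem dslope_sinh_of_ne166 {d : ℝ} (hd : d ≠ 0) : dslope Real.sinh 0 d = Real.sinh d / d := by
  rw [dslope_of_ne _ hd, slope_def_field, Real.sinh_zero, sub_zero, sub_zero]

theorem dslope_sinh_ne_zero166 (d : ℝ) : dslope Real.sinh 0 d ≠ 0 := by
  by_cases hd : d = 0
  · subst hd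
    rw [dslope_sinh_zero166]
    exact one_ne_zero
  · rw [dslope_sinh_of_ne166 hd]
    have hs : Real.sinh d ≠ 0 := fun h => hd (Real.sinh_eq_zero.mp h)
    exact div_ne_zero hs hd

/-- `sph0` through the divided difference of `sinh`. -/
theorem sph0_eq166 (X : ℝ) : sph0 X = (dslope Real.sinh 0 (Real.arcosh (max X 1)))⁻¹ := by
  unfold sph0
  by_cases hX : X ≤ 1
  · rw [if_pos hX, max_eq_right hX, Real.arcosh_zero, dslope_sinh_zero166, inv_one]
  · rw [if_neg hX]
    have hX' : 1 < X := not_le.mp hX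
    have hpos : 0 < Real.arcosh X := Real.arcosh_pos hX'
    rw [max_eq_left hX'.le, dslope_sinh_of_ne166 hpos.ne', Real.sinh_arcosh hX'.le, inv_div]

/-- `sph0` is continuous. -/
theorem continuous_sph0_166 : Continuous sph0 := by
  have h1 : Continuous fun X : ℝ => Real.arcosh (max X 1) :=
    Real.continuousOn_arcosh.comp_continuous (continuous_id.max continuous_const)
      (fun X => le_max_right X 1)
  have h2 : Continuous fun X : ℝ => (dslope Real.sinh 0 (Real.arcosh (max X 1)))⁻¹ :=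
    (continuous_dslope_sinh166.comp h1).inv₀ (fun X => dslope_sinh_ne_zero166 _)
  have e : sph0 = fun X : ℝ => (dslope Real.sinh 0 (Real.arcosh (max X 1)))⁻¹ :=
    funext sph0_eq166
  rw [e]
  exact h2

/-- `chD614` is continuous on `GL₂(ℂ)`. -/
theorem continuous_chD166 :
    Continuous fun h : GL (Fin 2) ℂ => chD614 (h : Matrix (Fin 2) (Fin 2) ℂ) := by
  have hval : Continuous fun h : GL (Fin 2) ℂ => (h : Matrix (Fin 2) (Fin 2) ℂ) :=
    Units.continuous_val
  have hent : ∀ i j : Fin 2,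
      Continuous fun h : GL (Fin 2) ℂ => ‖(h : Matrix (Fin 2) (Fin 2) ℂ) i j‖ ^ 2 :=
    fun i j => ((hval.matrix_elem i j).norm).pow 2
  have hdet : Continuous fun h : GL (Fin 2) ℂ => 2 * ‖(h : Matrix (Fin 2) (Fin 2) ℂ).det‖ :=
    continuous_const.mul hval.matrix_det.norm
  have hne : ∀ h : GL (Fin 2) ℂ, 2 * ‖(h : Matrix (Fin 2) (Fin 2) ℂ).det‖ ≠ 0 := by
    intro h
    have h1 : (h : Matrix (Fin 2) (Fin 2) ℂ).det ≠ 0 :=
      ((Matrix.isUnit_iff_isUnit_det _).mp h.isUnit).ne_zero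
    exact mul_ne_zero two_ne_zero (norm_ne_zero_iff.mpr h1)
  unfold chD614 hsq614
  exact ((((hent 0 0).add (hent 0 1)).add (hent 1 0)).add (hent 1 1)).div hdet hne

/-- **AS.2.3 `SphContC`.** -/
theorem sphContC166 : SphContC :=
  Complex.continuous_ofReal.comp (continuous_sph0_166.comp continuous_chD166)

end Fermat.Agent.LT.T3.H166

end
-- ===== PACK-END LT/T3/H166/SphCont.lean

-- ===== PACK-BEGIN LT/T6/H305/Sys.lean
section


/-!
# Row LT, tower T6, leaf T6.10 `SatakeEigenC` (helper305) -- part 5: coset systems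

OFF-MAIN.  Sums of a right `GL₂(𝒪)`-invariant function over two systems of representatives of
the same cosets agree; the explicit system `sc b · um i j r` (`i + j = n`, `r ∈ R i`, primitive)
of the double coset of Cartan type `(n + b, b)`.
-/

set_option autoImplicit false
set_option linter.unusedSectionVars false
set_option linter.unusedSimpArgs false
set_option linter.unnecessarySeqFocus false

open scoped Matrix
open scoped Classical

noncomputable section

namespace Fermat.Agent.LT.T6.H305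

open Fermat.Agent.LT.T6

variable {k : Type} [Field k] [Valued k Γ₀]

/-- Sums of a right-invariant function over two systems of representatives of the same cosets. -/
theorem sum_eq_of_systems {α β : Type} (A : Finset α) (B : Finset β)
    (f : α → GL (Fin 2) k) (f' : β → GL (Fin 2) k) (Ψ : GL (Fin 2) k → ℂ)
    (hΨ : ∀ u g : GL (Fin 2) k, InK u → Ψ (g * u) = Ψ g)
    (hAB : ∀ a ∈ A, ∃ b ∈ B, InK ((f' b)⁻¹ * f a))
    (hBA : ∀ b ∈ B, ∃ a ∈ A, InK ((f a)⁻¹ * f' b))
    (hA : ∀ a ∈ A, ∀ a' ∈ A, InK ((f a)⁻¹ * f a') → a = a')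
    (hB : ∀ b ∈ B, ∀ b' ∈ B, InK ((f' b)⁻¹ * f' b') → b = b') :
    ∑ a ∈ A, Ψ (f a) = ∑ b ∈ B, Ψ (f' b) := by
  refine Finset.sum_bij (fun a ha => Classical.choose (hAB a ha)) ?_ ?_ ?_ ?_
  · intro a ha
    exact (Classical.choose_spec (hAB a ha)).1
  · intro a₁ ha₁ a₂ ha₂ heq
    have h1 := (Classical.choose_spec (hAB a₁ ha₁)).2
    have h2 := (Classical.choose_spec (hAB a₂ ha₂)).2
    rw [heq] at h1
    apply hA a₁ ha₁ a₂ ha₂
    have : (f a₁)⁻¹ * f a₂
        = ((f' (Classical.choose (hAB a₂ ha₂)))⁻¹ * f a₁)⁻¹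
          * ((f' (Classical.choose (hAB a₂ ha₂)))⁻¹ * f a₂) := by group
    rw [this]
    exact inK_mul (inK_inv h1) h2
  · intro b hb
    obtain ⟨a, ha, hab⟩ := hBA b hb
    refine ⟨a, ha, ?_⟩
    have h1 := (Classical.choose_spec (hAB a ha)).2
    apply hB _ (Classical.choose_spec (hAB a ha)).1 b hb
    have : (f' (Classical.choose (hAB a ha)))⁻¹ * f' b
        = ((f' (Classical.choose (hAB a ha)))⁻¹ * f a) * ((f a)⁻¹ * f' b) := by group
    rw [this]
    exact inK_mul h1 hab
  · intro a ha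
    have h1 := (Classical.choose_spec (hAB a ha)).2
    have e := hΨ _ (f' (Classical.choose (hAB a ha))) h1
    rw [mul_inv_cancel_left] at e
    exact e

namespace ResData

variable (D : ResData k)

/-- The index set of the explicit system of representatives. -/
def Idx (n : ℕ) : Finset (Σ _ : ℕ × ℕ, k) :=
  (Finset.HasAntidiagonal.antidiagonal n).sigma (fun p => (D.R p.1).filter (fun r => Prim p.1 p.2 r))

/-- The explicit representatives `ϖ^b · [[ϖ^i, r], [0, ϖ^j]]`. -/
def fam (b : ℤ) (x : Σ _ : ℕ × ℕ, k) : GL (Fin 2) k := D.sc b * D.um x.1.1 x.1.2 x.2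

theorem mem_Idx {n : ℕ} {x : Σ _ : ℕ × ℕ, k} :
    x ∈ D.Idx n ↔ x.1.1 + x.1.2 = n ∧ x.2 ∈ D.R x.1.1 ∧ Prim x.1.1 x.1.2 x.2 := by
  simp [Idx, Finset.mem_sigma, Finset.mem_filter, Finset.mem_antidiagonal]

theorem cartan_fam (b : ℤ) {n : ℕ} {x : Σ _ : ℕ × ℕ, k} (hx : x ∈ D.Idx n) :
    cartan (D.fam b x) = ((n : ℤ) + b, b) := by
  obtain ⟨h1, h2, h3⟩ := D.mem_Idx.1 hx
  rw [fam, D.cartan_sc_mul, D.cartan_um _ _ _ (D.R_int _ _ h2) h3, h1]
  simp

theorem fam_inv_mul (b : ℤ) (x : Σ _ : ℕ × ℕ, k) (g : GL (Fin 2) k) :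
    (D.fam b x)⁻¹ * g = (D.um x.1.1 x.1.2 x.2)⁻¹ * (D.sc (-b) * g) := by
  rw [fam, mul_inv_rev, D.sc_inv, mul_assoc]

theorem fam_inj (b : ℤ) {n : ℕ} {x y : Σ _ : ℕ × ℕ, k} (hx : x ∈ D.Idx n) (hy : y ∈ D.Idx n)
    (h : InK ((D.fam b x)⁻¹ * D.fam b y)) : x = y := by
  obtain ⟨h1, h2, _⟩ := D.mem_Idx.1 hx
  obtain ⟨h1', h2', _⟩ := D.mem_Idx.1 hy
  have e : (D.fam b x)⁻¹ * D.fam b y = (D.um x.1.1 x.1.2 x.2)⁻¹ * D.um y.1.1 y.1.2 y.2 := by
    rw [D.fam_inv_mul, fam, ← mul_assoc (D.sc (-b)), ← D.sc_add]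
    simp [D.sc_zero]
  rw [e] at h
  obtain ⟨e1, e2, e3⟩ := D.um_inj (by omega) h2 h2' h
  obtain ⟨⟨i, j⟩, r⟩ := x
  obtain ⟨⟨i', j'⟩, r'⟩ := y
  simp only at e1 e2 e3
  subst e1
  subst e2
  subst e3
  rfl

theorem fam_cover (b : ℤ) (n : ℕ) (g : GL (Fin 2) k) (hg : cartan g = ((n : ℤ) + b, b)) :
    ∃ x ∈ D.Idx n, InK ((D.fam b x)⁻¹ * g) := by
  have h1 : cartan (D.sc (-b) * g) = ((n : ℤ), 0) := by
    rw [D.cartan_sc_mul, hg]
    simp
  obtain ⟨i, j, r, hij, hr, hp, hK⟩ := D.cover _ n h1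
  refine ⟨⟨(i, j), r⟩, D.mem_Idx.2 ⟨hij, hr, hp⟩, ?_⟩
  rw [D.fam_inv_mul]
  exact hK

/-- The sum of a right-invariant function over ANY coset system of Cartan type `(n + b, b)` is
the sum over the explicit system. -/
theorem sum_cosetSys (b : ℤ) (n : ℕ) (lam : ℤ × ℤ) (hlam : lam = ((n : ℤ) + b, b))
    (H : Finset (GL (Fin 2) k)) (hH : IsCosetSys lam H) (Ψ : GL (Fin 2) k → ℂ)
    (hΨ : ∀ u g : GL (Fin 2) k, InK u → Ψ (g * u) = Ψ g) :
    ∑ h ∈ H, Ψ h = ∑ x ∈ D.Idx n, Ψ (D.fam b x) := by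
  subst hlam
  obtain ⟨hH1, hH2, hH3⟩ := hH
  refine sum_eq_of_systems H (D.Idx n) id (D.fam b) Ψ hΨ ?_ ?_ ?_ ?_
  · intro h hh
    exact D.fam_cover b n h (hH1 h hh)
  · intro x hx
    obtain ⟨h, hh, hK⟩ := hH3 (D.fam b x) (D.cartan_fam b hx)
    exact ⟨h, hh, (inU_zero_iff _).1 hK⟩
  · intro h hh h' hh' hK
    exact hH2 h hh h' hh' ((inU_zero_iff _).2 hK)
  · intro x hx y hy hK
    exact D.fam_inj b hx hy hK

/-- The explicit system is a coset system. -/
theorem isCosetSys_image (b : ℤ) (n : ℕ) (lam : ℤ × ℤ) (hlam : lam = ((n : ℤ) + b, b)) :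
    IsCosetSys lam ((D.Idx n).image (D.fam b)) := by
  subst hlam
  refine ⟨?_, ?_, ?_⟩
  · intro h hh
    obtain ⟨x, hx, rfl⟩ := Finset.mem_image.1 hh
    exact D.cartan_fam b hx
  · intro h hh h' hh' hK
    obtain ⟨x, hx, rfl⟩ := Finset.mem_image.1 hh
    obtain ⟨y, hy, rfl⟩ := Finset.mem_image.1 hh'
    rw [D.fam_inj b hx hy ((inU_zero_iff _).1 hK)]
  · intro g hg
    obtain ⟨x, hx, hK⟩ := D.fam_cover b n g hg
    exact ⟨D.fam b x, Finset.mem_image.2 ⟨x, hx, rfl⟩, (inU_zero_iff _).2 hK⟩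

theorem sum_image_fam (b : ℤ) (n : ℕ) (Ψ : GL (Fin 2) k → ℂ) :
    ∑ h ∈ (D.Idx n).image (D.fam b), Ψ h = ∑ x ∈ D.Idx n, Ψ (D.fam b x) := by
  rw [Finset.sum_image]
  intro x hx y hy hxy
  apply D.fam_inj b hx hy
  rw [hxy, inv_mul_cancel]
  exact inK_one

/-- The sum over the explicit system as a double sum. -/
theorem sum_Idx (n : ℕ) (F : (Σ _ : ℕ × ℕ, k) → ℂ) :
    ∑ x ∈ D.Idx n, F x
      = ∑ p ∈ Finset.HasAntidiagonal.antidiagonal n,
          ∑ r ∈ (D.R p.1).filter (fun r => Prim p.1 p.2 r), F ⟨p, r⟩ := by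
  rw [Idx, Finset.sum_sigma]

end ResData

end Fermat.Agent.LT.T6.H305

end

end
-- ===== PACK-END LT/T6/H305/Sys.lean

-- ===== PACK-BEGIN LT/T3/H203/Cartan.lean
section


/-!
# Row LT, tower T3, sub-leaf AS.2.4a `CartanC` (registry 1172) -- helper203

OFF-MAIN.  `cartanC203 : Fermat.Agent.LT.T3.H315.CartanC` (VERBATIM the Prop of
`LT/T3/H315/AbelCut.lean`, helper315@4ea336ee2, sha256 446d055e): every `h ∈ GL₂(ℂ)` is
`k₁ · torus(d) · (r · 1) · k₂` with `k₁, k₂ ∈ U(2)`, `d ≥ 0`, `r > 0`, `cosh d = chD614 h`.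

Proof: singular value decomposition from the spectral theorem of Mathlib for `hᴴ h`
(`Matrix.IsHermitian.spectral_theorem`), ordering of the two singular values by the swap matrix.
-/

set_option autoImplicit false

open Matrix
open scoped ComplexOrder
open Fermat.Agent.LT.H556.A0 Fermat.Agent.LT.T3.AS Fermat.Agent.LT.T3.H614
open Fermat.Agent.LT.T3.H315

noncomputable section

namespace Fermat.Agent.LT.T3.H203

/-- Singular value decomposition of an invertible `2 × 2` complex matrix (unordered). -/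
theorem exists_svd203 (M : Matrix (Fin 2) (Fin 2) ℂ) (hM : M.det ≠ 0) :
    ∃ (W V : Matrix (Fin 2) (Fin 2) ℂ) (s : Fin 2 → ℝ), W * Wᴴ = 1 ∧ V * Vᴴ = 1 ∧
      (∀ i, 0 < s i) ∧ M = W * diagonal (fun i => ((s i : ℝ) : ℂ)) * V := by
  classical
  have hunit : IsUnit M := (Matrix.isUnit_iff_isUnit_det M).2 (isUnit_iff_ne_zero.2 hM)
  have hinj : Function.Injective M.mulVec := Matrix.mulVec_injective_iff_isUnit.2 hunit
  have hpd : (Mᴴ * M).PosDef := Matrix.PosDef.conjTranspose_mul_self M hinj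
  have hA : (Mᴴ * M).IsHermitian := hpd.1
  set U : Matrix (Fin 2) (Fin 2) ℂ := (hA.eigenvectorUnitary : Matrix (Fin 2) (Fin 2) ℂ) with hU
  have hUU : U * star U = 1 := Unitary.coe_mul_star_self hA.eigenvectorUnitary
  have hUU' : star U * U = 1 := Unitary.coe_star_mul_self hA.eigenvectorUnitary
  have hspec : Mᴴ * M = U * diagonal (fun i => ((hA.eigenvalues i : ℝ) : ℂ)) * star U := by
    have := hA.spectral_theorem
    rw [Unitary.conjStarAlgAut_apply] at this
    exact this
  have hpos : ∀ i, 0 < hA.eigenvalues i := fun i => hpd.eigenvalues_pos i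
  set s : Fin 2 → ℝ := fun i => Real.sqrt (hA.eigenvalues i) with hs
  have hspos : ∀ i, 0 < s i := fun i => Real.sqrt_pos.2 (hpos i)
  have hsne : ∀ i, ((s i : ℝ) : ℂ) ≠ 0 := fun i => by exact_mod_cast (hspos i).ne'
  have hssq : ∀ i, ((s i : ℝ) : ℂ) * ((s i : ℝ) : ℂ) = ((hA.eigenvalues i : ℝ) : ℂ) := by
    intro i
    have : s i * s i = hA.eigenvalues i := Real.mul_self_sqrt (hpos i).le
    exact_mod_cast this
  set S : Matrix (Fin 2) (Fin 2) ℂ := diagonal (fun i => ((s i : ℝ) : ℂ)) with hS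
  set Si : Matrix (Fin 2) (Fin 2) ℂ := diagonal (fun i => (((s i : ℝ) : ℂ))⁻¹) with hSi
  have hSiS : Si * S = 1 := by
    rw [hSi, hS, diagonal_mul_diagonal]
    rw [← diagonal_one]
    congr 1
    funext i
    exact inv_mul_cancel₀ (hsne i)
  have hSiDSi : Si * diagonal (fun i => ((hA.eigenvalues i : ℝ) : ℂ)) * Si = 1 := by
    rw [hSi, diagonal_mul_diagonal, diagonal_mul_diagonal, ← diagonal_one]
    congr 1
    funext i
    rw [← hssq i]
    field_simp [hsne i]
  have hSistar : Siᴴ = Si := by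
    rw [hSi, diagonal_conjTranspose]
    congr 1
    funext i
    simp
  refine ⟨M * U * Si, star U, s, ?_, ?_, hspos, ?_⟩
  · -- unitarity of `W = M U S⁻¹`
    have h1 : (M * U * Si)ᴴ * (M * U * Si) = 1 := by
      rw [conjTranspose_mul, conjTranspose_mul, hSistar]
      have : Si * (Uᴴ * Mᴴ) * (M * U * Si) = Si * (Uᴴ * (Mᴴ * M) * U) * Si := by
        simp only [Matrix.mul_assoc]
      rw [this, hspec]
      have h2 : Uᴴ * (U * diagonal (fun i => ((hA.eigenvalues i : ℝ) : ℂ)) * star U) * U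
          = diagonal (fun i => ((hA.eigenvalues i : ℝ) : ℂ)) := by
        have e1 : Uᴴ = star U := rfl
        rw [e1]
        calc star U * (U * diagonal (fun i => ((hA.eigenvalues i : ℝ) : ℂ)) * star U) * U
            = (star U * U) * diagonal (fun i => ((hA.eigenvalues i : ℝ) : ℂ)) * (star U * U) := by
              simp only [Matrix.mul_assoc]
          _ = diagonal (fun i => ((hA.eigenvalues i : ℝ) : ℂ)) := by
              rw [hUU', Matrix.one_mul, Matrix.mul_one]
      rw [h2]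
      exact hSiDSi
    exact mul_eq_one_comm.1 h1
  · -- unitarity of `V = Uᴴ`
    have e1 : (star U)ᴴ = U := by
      change star (star U) = U
      exact star_star U
    rw [e1]
    exact hUU'
  · calc M = M * (U * star U) := by rw [hUU, Matrix.mul_one]
      _ = M * U * (Si * S) * star U := by rw [hSiS]; simp only [Matrix.mul_assoc, Matrix.one_mul]
      _ = M * U * Si * S * star U := by simp only [Matrix.mul_assoc]

/-- The swap matrix. -/
def swapM203 : Matrix (Fin 2) (Fin 2) ℂ := !![0, 1; 1, 0]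

theorem swapM203_unitary : swapM203 * swapM203ᴴ = 1 := by
  ext i j
  fin_cases i <;> fin_cases j <;>
    simp [swapM203, Matrix.mul_apply, Fin.sum_univ_two, Matrix.conjTranspose_apply]

theorem diag_eq_of203 (a b : ℂ) : diagonal ![a, b] = !![a, 0; 0, b] := by
  ext i j
  fin_cases i <;> fin_cases j <;> simp

theorem swap_diag_swap203 (a b : ℂ) :
    swapM203 * diagonal ![b, a] * swapM203 = diagonal ![a, b] := by
  rw [diag_eq_of203, diag_eq_of203]
  unfold swapM203
  rw [Matrix.mul_fin_two, Matrix.mul_fin_two]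
  simp

theorem unitary_mul203 {A B : Matrix (Fin 2) (Fin 2) ℂ} (hA : A * Aᴴ = 1) (hB : B * Bᴴ = 1) :
    (A * B) * (A * B)ᴴ = 1 := by
  rw [conjTranspose_mul]
  calc A * B * (Bᴴ * Aᴴ) = A * (B * Bᴴ) * Aᴴ := by simp only [Matrix.mul_assoc]
    _ = 1 := by rw [hB, Matrix.mul_one, hA]

/-- Ordered singular value decomposition. -/
theorem exists_svd_ordered203 (M : Matrix (Fin 2) (Fin 2) ℂ) (hM : M.det ≠ 0) :
    ∃ (W V : Matrix (Fin 2) (Fin 2) ℂ) (a b : ℝ), W * Wᴴ = 1 ∧ V * Vᴴ = 1 ∧
      0 < b ∧ b ≤ a ∧ M = W * diagonal ![((a : ℝ) : ℂ), ((b : ℝ) : ℂ)] * V := by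
  obtain ⟨W, V, s, hW, hV, hs, hMeq⟩ := exists_svd203 M hM
  have hdiag : diagonal (fun i => ((s i : ℝ) : ℂ)) = diagonal ![((s 0 : ℝ) : ℂ), ((s 1 : ℝ) : ℂ)] := by
    congr 1
    funext i
    fin_cases i <;> simp
  rw [hdiag] at hMeq
  rcases le_total (s 1) (s 0) with h | h
  · exact ⟨W, V, s 0, s 1, hW, hV, hs 1, h, hMeq⟩
  · refine ⟨W * swapM203, swapM203 * V, s 1, s 0, unitary_mul203 hW swapM203_unitary,
      unitary_mul203 swapM203_unitary hV, hs 0, h, ?_⟩
    rw [hMeq, ← swap_diag_swap203 ((s 0 : ℝ) : ℂ) ((s 1 : ℝ) : ℂ)]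
    simp only [Matrix.mul_assoc]

theorem torus_eq_diag203 (d : ℝ) :
    torus d = diagonal ![((Real.exp (d / 2) : ℝ) : ℂ), ((Real.exp (-(d / 2)) : ℝ) : ℂ)] := by
  rw [diag_eq_of203]
  rfl

theorem diag_mul_diag203 (a b c e : ℂ) :
    diagonal ![a, b] * diagonal ![c, e] = diagonal ![a * c, b * e] := by
  rw [diagonal_mul_diagonal]
  congr 1
  funext i
  fin_cases i <;> rfl

theorem diag_one203 : diagonal ![(1 : ℂ), 1] = 1 := by
  rw [← diagonal_one]
  congr 1
  funext i
  fin_cases i <;> rfl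

theorem torus_mul_torus_neg203 (d : ℝ) : torus d * torus (-d) = 1 := by
  rw [torus_eq_diag203, torus_eq_diag203, diag_mul_diag203, ← diag_one203]
  have h1 : ((Real.exp (d / 2) : ℝ) : ℂ) * ((Real.exp (-d / 2) : ℝ) : ℂ) = 1 := by
    rw [← Complex.ofReal_mul, ← Real.exp_add]
    have : d / 2 + -d / 2 = 0 := by ring
    rw [this, Real.exp_zero, Complex.ofReal_one]
  have h2 : ((Real.exp (-(d / 2)) : ℝ) : ℂ) * ((Real.exp (-(-d / 2)) : ℝ) : ℂ) = 1 := by
    rw [← Complex.ofReal_mul, ← Real.exp_add]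
    have : -(d / 2) + -(-d / 2) = 0 := by ring
    rw [this, Real.exp_zero, Complex.ofReal_one]
  rw [h1, h2]

theorem scalar_eq_diag203 (r : ℂ) : diagonal (fun _ : Fin 2 => r) = diagonal ![r, r] := by
  congr 1
  funext i
  fin_cases i <;> rfl

theorem torus_mul_scalar203 (a b : ℝ) (ha : 0 < a) (hb : 0 < b) :
    torus (Real.log a - Real.log b)
        * diagonal (fun _ : Fin 2 => ((Real.exp ((Real.log a + Real.log b) / 2) : ℝ) : ℂ))
      = diagonal ![((a : ℝ) : ℂ), ((b : ℝ) : ℂ)] := by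
  have h1 : Real.exp ((Real.log a - Real.log b) / 2) * Real.exp ((Real.log a + Real.log b) / 2)
      = a := by
    rw [← Real.exp_add]
    have : (Real.log a - Real.log b) / 2 + (Real.log a + Real.log b) / 2 = Real.log a := by ring
    rw [this, Real.exp_log ha]
  have h2 : Real.exp (-((Real.log a - Real.log b) / 2)) * Real.exp ((Real.log a + Real.log b) / 2)
      = b := by
    rw [← Real.exp_add]
    have : -((Real.log a - Real.log b) / 2) + (Real.log a + Real.log b) / 2 = Real.log b := by ring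
    rw [this, Real.exp_log hb]
  rw [torus_eq_diag203, scalar_eq_diag203, diag_mul_diag203, ← Complex.ofReal_mul,
    ← Complex.ofReal_mul, h1, h2]

theorem chD614_diag203 (a b : ℝ) (ha : 0 < a) (hb : 0 < b) :
    chD614 (diagonal ![((a : ℝ) : ℂ), ((b : ℝ) : ℂ)]) = Real.cosh (Real.log a - Real.log b) := by
  have hdet : (diagonal ![((a : ℝ) : ℂ), ((b : ℝ) : ℂ)]).det = ((a * b : ℝ) : ℂ) := by
    rw [det_diagonal, Fin.prod_univ_two]
    simp
  unfold chD614 hsq614
  rw [hdet]
  simp only [Matrix.diagonal_apply]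
  have hna : ‖((a : ℝ) : ℂ)‖ = a := by rw [Complex.norm_real, Real.norm_of_nonneg ha.le]
  have hnb : ‖((b : ℝ) : ℂ)‖ = b := by rw [Complex.norm_real, Real.norm_of_nonneg hb.le]
  have hnab : ‖((a * b : ℝ) : ℂ)‖ = a * b := by
    rw [Complex.norm_real, Real.norm_of_nonneg (mul_pos ha hb).le]
  simp only [Matrix.cons_val_zero, Matrix.cons_val_one, if_true, Fin.isValue]
  rw [hnab]
  have h01 : ((0 : Fin 2) = 1) = False := by simp
  have h10 : ((1 : Fin 2) = 0) = False := by simp
  simp only [h01, h10, if_false, norm_zero, hna, hnb]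
  rw [Real.cosh_eq, Real.exp_sub, Real.exp_log ha, Real.exp_log hb, neg_sub, Real.exp_sub,
    Real.exp_log ha, Real.exp_log hb]
  field_simp
  ring

/-- **AS.2.4a CARTAN**, VERBATIM the Prop `H315.CartanC`. -/
theorem cartanC203 : CartanC := by
  intro h
  have hdet : ((h : Matrix (Fin 2) (Fin 2) ℂ)).det ≠ 0 := by
    have := (Matrix.isUnit_iff_isUnit_det (h : Matrix (Fin 2) (Fin 2) ℂ)).1 h.isUnit
    exact this.ne_zero
  obtain ⟨W, V, a, b, hW, hV, hb, hab, hMeq⟩ := exists_svd_ordered203 _ hdet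
  have ha : 0 < a := lt_of_lt_of_le hb hab
  set d : ℝ := Real.log a - Real.log b with hd
  set r : ℝ := Real.exp ((Real.log a + Real.log b) / 2) with hr
  have hr0 : 0 < r := Real.exp_pos _
  have hrne : ((r : ℝ) : ℂ) ≠ 0 := by exact_mod_cast hr0.ne'
  have hW' : Wᴴ * W = 1 := mul_eq_one_comm.1 hW
  have hV' : Vᴴ * V = 1 := mul_eq_one_comm.1 hV
  let k₁ : GL (Fin 2) ℂ := ⟨W, Wᴴ, hW, hW'⟩
  let k₂ : GL (Fin 2) ℂ := ⟨V, Vᴴ, hV, hV'⟩
  have ht1 : torus d * torus (-d) = 1 := torus_mul_torus_neg203 d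
  have ht2 : torus (-d) * torus d = 1 := by
    have := torus_mul_torus_neg203 (-d)
    rwa [neg_neg] at this
  let t : GL (Fin 2) ℂ := ⟨torus d, torus (-d), ht1, ht2⟩
  have hz1 : diagonal (fun _ : Fin 2 => ((r : ℝ) : ℂ)) * diagonal (fun _ : Fin 2 => (((r : ℝ) : ℂ))⁻¹)
      = 1 := by
    rw [diagonal_mul_diagonal, ← diagonal_one]
    congr 1
    funext i
    exact mul_inv_cancel₀ hrne
  have hz2 : diagonal (fun _ : Fin 2 => (((r : ℝ) : ℂ))⁻¹) * diagonal (fun _ : Fin 2 => ((r : ℝ) : ℂ))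
      = 1 := by
    rw [diagonal_mul_diagonal, ← diagonal_one]
    congr 1
    funext i
    exact inv_mul_cancel₀ hrne
  let z : GL (Fin 2) ℂ := ⟨diagonal (fun _ : Fin 2 => ((r : ℝ) : ℂ)),
    diagonal (fun _ : Fin 2 => (((r : ℝ) : ℂ))⁻¹), hz1, hz2⟩
  have htz : torus d * diagonal (fun _ : Fin 2 => ((r : ℝ) : ℂ))
      = diagonal ![((a : ℝ) : ℂ), ((b : ℝ) : ℂ)] := torus_mul_scalar203 a b ha hb
  have hd0 : 0 ≤ d := by
    rw [hd, sub_nonneg]
    exact Real.log_le_log hb hab
  refine ⟨k₁, k₂, t, z, d, r, hW, hV, hd0, hr0, ?_, rfl, rfl, ?_⟩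
  · -- `cosh d = chD614 h`
    rw [hMeq, chD614_mul_unitary_right _ _ hV, chD614_mul_unitary_left _ _ hW,
      chD614_diag203 a b ha hb]
  · apply Units.ext
    change (h : Matrix (Fin 2) (Fin 2) ℂ)
      = W * torus d * diagonal (fun _ : Fin 2 => ((r : ℝ) : ℂ)) * V
    rw [hMeq, ← htz]
    simp only [Matrix.mul_assoc]

end Fermat.Agent.LT.T3.H203

end

end
-- ===== PACK-END LT/T3/H203/Cartan.lean

-- ===== PACK-BEGIN LT/T3/H572/UnitaryHaar.lean
section


/-!
# Row LT, tower T3, sub-leaf T3.18a.2.4b `UnitaryHaarC` (registry 1173; helper572) — CLOSED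

OFF-MAIN.  `unitaryHaarC572 : Fermat.Agent.LT.T3.H315.UnitaryHaarC`, verbatim against
`Fermat/Agent/LT/T3/H315/AbelCut.lean` (helper315@4ea336ee2, sha256 446d055e), byte-identical copies
of its import closure.

* `U(2) ⊆ GL₂(ℂ)` is compact in the units topology: its image under `k ↦ (k, k⁻¹)` is the image of
  the closed bounded set of unitary matrices under `A ↦ (A, Aᴴ)`.
* `U(2)` is a compact topological group; its Haar probability measure is left invariant, and
  right invariant by the uniqueness of the Haar measure of a compact group (the total masses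
  agree); the measure `m` is its image in `GL₂(ℂ)`.
-/

set_option autoImplicit false

open MeasureTheory Topology
open scoped Matrix

noncomputable section

namespace Fermat.Agent.LT.T3.H572

/-- The set of unitary `2 × 2` matrices. -/
def unitaryMat572 : Set (Matrix (Fin 2) (Fin 2) ℂ) := {A | A * A.conjTranspose = 1}

theorem isClosed_unitaryMat572 : IsClosed unitaryMat572 := by
  have h : Continuous fun A : Matrix (Fin 2) (Fin 2) ℂ => A * A.conjTranspose :=
    continuous_id.matrix_mul continuous_id.matrix_conjTranspose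
  exact isClosed_eq h continuous_const

theorem isCompact_unitaryMat572 : IsCompact unitaryMat572 := by
  have hbox : IsCompact {A : Matrix (Fin 2) (Fin 2) ℂ | ∀ i j, ‖A i j‖ ≤ 1} := by
    have h0 : IsCompact (Set.pi Set.univ fun _ : Fin 2 =>
        Set.pi Set.univ fun _ : Fin 2 => Metric.closedBall (0 : ℂ) 1) :=
      isCompact_univ_pi fun _ => isCompact_univ_pi fun _ => isCompact_closedBall 0 1
    have heq : {A : Matrix (Fin 2) (Fin 2) ℂ | ∀ i j, ‖A i j‖ ≤ 1}
        = (Set.pi Set.univ fun _ : Fin 2 =>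
            Set.pi Set.univ fun _ : Fin 2 => Metric.closedBall (0 : ℂ) 1) := by
      ext A
      constructor
      · intro h i _ j _
        rw [mem_closedBall_zero_iff]
        exact h i j
      · intro h i j
        have := h i (Set.mem_univ i) j (Set.mem_univ j)
        rwa [mem_closedBall_zero_iff] at this
    rw [heq]
    exact h0
  refine hbox.of_isClosed_subset isClosed_unitaryMat572 ?_
  intro A hA i j
  exact entry_norm_bound_of_unitary (Matrix.mem_unitaryGroup_iff.2 hA) i j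

/-- The inverse of a unitary element of `GL₂(ℂ)` is its conjugate transpose. -/
theorem inv_val_of_unitary572 {k : GL (Fin 2) ℂ}
    (hk : (k : Matrix (Fin 2) (Fin 2) ℂ) * (k : Matrix (Fin 2) (Fin 2) ℂ).conjTranspose = 1) :
    ((k⁻¹ : GL (Fin 2) ℂ) : Matrix (Fin 2) (Fin 2) ℂ)
      = (k : Matrix (Fin 2) (Fin 2) ℂ).conjTranspose :=
  Units.inv_eq_of_mul_eq_one_right hk

/-- `U(2)` as a subset of `GL₂(ℂ)`. -/
def unitarySet572 : Set (GL (Fin 2) ℂ) :=
  {k | (k : Matrix (Fin 2) (Fin 2) ℂ) * (k : Matrix (Fin 2) (Fin 2) ℂ).conjTranspose = 1}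

/-- **`U(2)` is compact in `GL₂(ℂ)`.** -/
theorem isCompact_unitarySet572 : IsCompact unitarySet572 := by
  rw [Units.isEmbedding_embedProduct.isCompact_iff]
  have hg : Continuous fun A : Matrix (Fin 2) (Fin 2) ℂ =>
      ((A, MulOpposite.op A.conjTranspose) :
        Matrix (Fin 2) (Fin 2) ℂ × (Matrix (Fin 2) (Fin 2) ℂ)ᵐᵒᵖ) :=
    continuous_id.prodMk (MulOpposite.continuous_op.comp continuous_id.matrix_conjTranspose)
  have himg := isCompact_unitaryMat572.image hg
  convert himg using 1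
  ext p
  constructor
  · rintro ⟨k, hk, rfl⟩
    refine ⟨(k : Matrix (Fin 2) (Fin 2) ℂ), hk, ?_⟩
    simp only [Units.embedProduct_apply]
    rw [inv_val_of_unitary572 hk]
  · rintro ⟨A, hA, rfl⟩
    have hA2 : A.conjTranspose * A = 1 := mul_eq_one_comm.1 hA
    refine ⟨⟨A, A.conjTranspose, hA, hA2⟩, hA, ?_⟩
    simp only [Units.embedProduct_apply]
    rfl

/-- `U(2)` as a subgroup of `GL₂(ℂ)`. -/
def unitarySub572 : Subgroup (GL (Fin 2) ℂ) where
  carrier := unitarySet572
  mul_mem' := by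
    intro a b ha hb
    change ((a * b : GL (Fin 2) ℂ) : Matrix (Fin 2) (Fin 2) ℂ)
      * ((a * b : GL (Fin 2) ℂ) : Matrix (Fin 2) (Fin 2) ℂ).conjTranspose = 1
    have ha' : (a : Matrix (Fin 2) (Fin 2) ℂ) * (a : Matrix (Fin 2) (Fin 2) ℂ).conjTranspose = 1 :=
      ha
    have hb' : (b : Matrix (Fin 2) (Fin 2) ℂ) * (b : Matrix (Fin 2) (Fin 2) ℂ).conjTranspose = 1 :=
      hb
    rw [Units.val_mul, Matrix.conjTranspose_mul, Matrix.mul_assoc,
      ← Matrix.mul_assoc (b : Matrix (Fin 2) (Fin 2) ℂ), hb', Matrix.one_mul, ha']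
  one_mem' := by
    change ((1 : GL (Fin 2) ℂ) : Matrix (Fin 2) (Fin 2) ℂ)
      * ((1 : GL (Fin 2) ℂ) : Matrix (Fin 2) (Fin 2) ℂ).conjTranspose = 1
    simp
  inv_mem' := by
    intro a ha
    have ha' : (a : Matrix (Fin 2) (Fin 2) ℂ) * (a : Matrix (Fin 2) (Fin 2) ℂ).conjTranspose = 1 :=
      ha
    change ((a⁻¹ : GL (Fin 2) ℂ) : Matrix (Fin 2) (Fin 2) ℂ)
      * ((a⁻¹ : GL (Fin 2) ℂ) : Matrix (Fin 2) (Fin 2) ℂ).conjTranspose = 1
    rw [inv_val_of_unitary572 ha', Matrix.conjTranspose_conjTranspose]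
    exact mul_eq_one_comm.1 ha'

theorem mem_unitarySub572 (k : GL (Fin 2) ℂ) :
    k ∈ unitarySub572 ↔
      (k : Matrix (Fin 2) (Fin 2) ℂ) * (k : Matrix (Fin 2) (Fin 2) ℂ).conjTranspose = 1 :=
  Iff.rfl

instance compactSpace_unitarySub572 : CompactSpace unitarySub572 :=
  isCompact_iff_compactSpace.1 isCompact_unitarySet572

/-- On a compact group, a left invariant probability measure which is a Haar measure is right
invariant (uniqueness of the Haar measure; the total masses agree). -/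
theorem map_mul_right_eq_self_of_compact572 {S : Type*} [Group S] [TopologicalSpace S]
    [IsTopologicalGroup S] [CompactSpace S] [MeasurableSpace S] [BorelSpace S]
    (μ : Measure S) [μ.IsHaarMeasure] [IsProbabilityMeasure μ] (s₀ : S) :
    Measure.map (fun s => s * s₀) μ = μ := by
  have hmr : Measurable (fun s : S => s * s₀) := (continuous_mul_const s₀).measurable
  have : IsProbabilityMeasure (Measure.map (fun s => s * s₀) μ) :=
    Measure.isProbabilityMeasure_map hmr.aemeasurable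
  have : (Measure.map (fun s => s * s₀) μ).IsMulLeftInvariant := ⟨fun g => by
    have hml : Measurable (fun s : S => g * s) := (continuous_const_mul g).measurable
    rw [Measure.map_map hml hmr]
    have e : (fun s => g * s) ∘ (fun s => s * s₀) = (fun s => s * s₀) ∘ (fun s : S => g * s) := by
      funext s
      simp [mul_assoc]
    rw [e, ← Measure.map_map hmr hml, map_mul_left_eq_self]⟩
  have h := Measure.isMulInvariant_eq_smul_of_compactSpace (Measure.map (fun s => s * s₀) μ) μ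
  have h1 : (Measure.map (fun s => s * s₀) μ) Set.univ
      = ((Measure.haarScalarFactor (Measure.map (fun s => s * s₀) μ) μ • μ : Measure S)) Set.univ := by
    rw [← h]
  rw [measure_univ, Measure.smul_apply, measure_univ] at h1
  have hc : Measure.haarScalarFactor (Measure.map (fun s => s * s₀) μ) μ = 1 := by
    have h2 : ((Measure.haarScalarFactor (Measure.map (fun s => s * s₀) μ) μ : NNReal) : ENNReal)
        = 1 := by
      simpa using h1.symm
    exact_mod_cast h2
  rw [h, hc, one_smul]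

/-- **T3.18a.2.4b `UnitaryHaarC`.** -/
theorem unitaryHaarC572 : Fermat.Agent.LT.T3.H315.UnitaryHaarC := by
  let : MeasurableSpace (GL (Fin 2) ℂ) := borel (GL (Fin 2) ℂ)
  have : BorelSpace (GL (Fin 2) ℂ) := ⟨rfl⟩
  refine ⟨isCompact_unitarySet572, ?_⟩
  have : BorelSpace unitarySub572 := Subtype.borelSpace _
  let μS : Measure unitarySub572 := Measure.haarMeasure ⊤
  have hμS1 : μS Set.univ = 1 := by
    have h := Measure.haarMeasure_self (K₀ := (⊤ : TopologicalSpace.PositiveCompacts unitarySub572))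
    simpa using h
  have : IsProbabilityMeasure μS := ⟨hμS1⟩
  have hval : Measurable (Subtype.val : unitarySub572 → GL (Fin 2) ℂ) :=
    continuous_subtype_val.measurable
  refine ⟨Measure.map Subtype.val μS, Measure.isProbabilityMeasure_map hval.aemeasurable, ?_, ?_⟩
  · have hmeas : MeasurableSet {k : GL (Fin 2) ℂ | Fermat.Agent.LT.T3.AS.IsUnitary2 k} :=
      isCompact_unitarySet572.isClosed.measurableSet
    rw [ae_map_iff hval.aemeasurable hmeas]
    exact Filter.Eventually.of_forall fun s => s.2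
  · intro k₀ hk₀
    let s₀ : unitarySub572 := ⟨k₀, hk₀⟩
    constructor
    · rw [Measure.map_map (continuous_const_mul k₀).measurable hval]
      have e : (fun k => k₀ * k) ∘ (Subtype.val : unitarySub572 → GL (Fin 2) ℂ)
          = Subtype.val ∘ (fun s : unitarySub572 => s₀ * s) := rfl
      rw [e, ← Measure.map_map hval (continuous_const_mul s₀).measurable, map_mul_left_eq_self]
    · rw [Measure.map_map (continuous_mul_const k₀).measurable hval]
      have e : (fun k => k * k₀) ∘ (Subtype.val : unitarySub572 → GL (Fin 2) ℂ)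
          = Subtype.val ∘ (fun s : unitarySub572 => s * s₀) := rfl
      rw [e, ← Measure.map_map hval (continuous_mul_const s₀).measurable,
        map_mul_right_eq_self_of_compact572 μS s₀]

end Fermat.Agent.LT.T3.H572

end

end
-- ===== PACK-END LT/T3/H572/UnitaryHaar.lean

-- ===== PACK-BEGIN LT/T3/H465/EKIdealT1.lean
section





/-!
# Row LT, tower T3, leaf T3.14 (`EKIdealC`), adapter to the interface of tower T1 (helper465)

`ekIdealC_of_T1_465 : T1.LocCompC K → DiscreteTopology (T1.princ K) → T3.EKIdealC K`.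
OFF-MAIN.
-/

set_option autoImplicit false
set_option linter.style.haveILetI false

open IsDedekindDomain NumberField MeasureTheory
open Fermat.Agent.LT.H556.A0

noncomputable section

namespace Fermat.Agent.LT.T3.H465

open Fermat.Agent.LT.T3

variable (K : Type) [Field K] [NumberField K]

/-- A discrete subgroup of `𝔸_K` meets a compact set in a finite set. -/
theorem finite_rational_of_discrete465 [T2Space (Adl K)]
    (hd : DiscreteTopology (Fermat.Agent.LT.T1.princ K)) (C₁ : Set (Adl K))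
    (hC₁ : IsCompact C₁) : {ξ : K | emb K ξ ∈ C₁}.Finite := by
  have hcl : IsClosed ((Fermat.Agent.LT.T1.princ K : AddSubgroup (Adl K)) : Set (Adl K)) :=
    AddSubgroup.isClosed_of_discrete
  have hS : IsCompact (((Fermat.Agent.LT.T1.princ K : AddSubgroup (Adl K)) : Set (Adl K)) ∩ C₁) :=
    hC₁.inter_left hcl
  have hSd : DiscreteTopology
      ↥(((Fermat.Agent.LT.T1.princ K : AddSubgroup (Adl K)) : Set (Adl K)) ∩ C₁) :=
    DiscreteTopology.of_subset hd Set.inter_subset_left
  have hfin : (((Fermat.Agent.LT.T1.princ K : AddSubgroup (Adl K)) : Set (Adl K)) ∩ C₁).Finite :=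
    hS.finite ⟨hSd⟩
  have hinj : Function.Injective (emb K) := NumberField.AdeleRing.algebraMap_injective (𝓞 K) K
  refine (hfin.preimage hinj.injOn).subset ?_
  intro ξ hξ
  exact ⟨⟨ξ, rfl⟩, hξ⟩

/-- **T3.14** from the interface Props of tower T1. -/
theorem ekIdealC_of_T1_465 (hLC : Fermat.Agent.LT.T1.LocCompC K)
    (hd : DiscreteTopology (Fermat.Agent.LT.T1.princ K)) : EKIdealC K := by
  obtain ⟨hA, hG⟩ := hLC
  haveI := hA.2.1
  exact ekIdealC_of465 hA hG (finite_rational_of_discrete465 K hd)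

/-- **T3.14** from `T1.LocCompC` and `T1.AdeleLatticeC`. -/
theorem ekIdealC_of_T1Out_465 (hLC : Fermat.Agent.LT.T1.LocCompC K)
    (hAL : Fermat.Agent.LT.T1.AdeleLatticeC K) : EKIdealC K :=
  ekIdealC_of_T1_465 K hLC hAL.1

end Fermat.Agent.LT.T3.H465

end

end
-- ===== PACK-END LT/T3/H465/EKIdealT1.lean

-- ===== PACK-BEGIN LT/T3/H893/EKKillB.lean
section



/-!
# Row LT, tower T3, leaf T3.11 (helper893): `EKKillC`, the case of infinite order

OFF-MAIN.  `B = ℤ × 𝔸_K` with the measure `count × ν`, `p (j, x) = n(x) diag(α^j, 1)`.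
-/

set_option autoImplicit false
set_option linter.style.haveILetI false

open MeasureTheory NumberField
open scoped ENNReal
open Fermat.Agent.LT.H556.A0

noncomputable section

namespace Fermat.Agent.LT.T3.H893

variable (K : Type) [Field K] [NumberField K]

/-- The parametrisation of `N(𝔸_K) ⋊ γ₀^ℤ`. -/
def pB893 (α : Kˣ) (b : ℤ × Adl K) : G K := unip K b.2 * torK K (α ^ b.1)

theorem pB893_apply (α : Kˣ) (j : ℤ) (x : Adl K) :
    pB893 K α (j, x) = unip K x * torK K (α ^ j) := rfl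

theorem continuous_pB893 (α : Kˣ) (j : ℤ) : Continuous fun x : Adl K => pB893 K α (j, x) := by
  change Continuous fun x : Adl K => unip K x * torK K (α ^ j)
  exact (continuous_unip893 K).mul continuous_const

theorem measurable_pB893 [MeasurableSpace (Adl K)] [BorelSpace (Adl K)]
    [MeasurableSpace (G K)] [BorelSpace (G K)] (α : Kˣ) : Measurable (pB893 K α) :=
  measurable_from_prod_countable_right fun j => (continuous_pB893 K α j).measurable

/-- The group law in the coordinates `(j, x)`. -/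
theorem pB893_mul (α : Kˣ) (j' j : ℤ) (x' x : Adl K) :
    pB893 K α (j', x') * pB893 K α (j, x)
      = pB893 K α (j' + j, x' + emb K ((α ^ j' : Kˣ) : K) * x) := by
  rw [pB893_apply, pB893_apply, pB893_apply, unip_torK_mul893, zpow_add]

/-- The inverse in the coordinates `(j, x)`. -/
theorem pB893_inv (α : Kˣ) (j : ℤ) (x : Adl K) :
    (pB893 K α (j, x))⁻¹
      = unip K (-(emb K ((α ^ (-j) : Kˣ) : K) * x)) * torK K α ^ (-j) := by
  rw [pB893_apply, unip_mul_torK_inv893, torK_zpow893, zpow_neg]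

/-- Integrals of nonnegative functions over `count × ν`. -/
theorem lintegral_count_prod893 [MeasurableSpace (Adl K)] (ν : Measure (Adl K)) [SFinite ν]
    (F : ℤ × Adl K → ℝ≥0∞) (hF : Measurable F) :
    ∫⁻ b, F b ∂((Measure.count : Measure ℤ).prod ν) = ∑' j : ℤ, ∫⁻ x, F (j, x) ∂ν := by
  rw [lintegral_prod _ hF.aemeasurable, lintegral_count]

/-- Multiplication by a principal idele as a measurable equivalence. -/
def mulRatEquiv893 [MeasurableSpace (Adl K)] [BorelSpace (Adl K)] (β : Kˣ) :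
    Adl K ≃ᵐ Adl K where
  toEquiv := (mulRat893 K β).toEquiv
  measurable_toFun := (continuous_mulRat893 K β).measurable
  measurable_invFun := (continuous_mulRat893_symm K β).measurable

theorem mulRatEquiv893_apply [MeasurableSpace (Adl K)] [BorelSpace (Adl K)] (β : Kˣ)
    (x : Adl K) : mulRatEquiv893 K β x = emb K (β : K) * x := rfl

/-- **EK-kill, case of infinite order.** -/
theorem ekKill_infOrder893 [MeasurableSpace (Adl K)] [BorelSpace (Adl K)]
    [MeasurableSpace (G K)] [BorelSpace (G K)]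
    [LocallyCompactSpace (Adl K)] [T2Space (Adl K)] [SecondCountableTopology (Adl K)]
    [LocallyCompactSpace (G K)] [T2Space (G K)] [SecondCountableTopology (G K)]
    (hdisc : DiscreteTopology (T1.princ K)) (hclosed : IsClosed (T1.princ K : Set (Adl K)))
    (μ : Measure (G K)) [μ.IsHaarMeasure] (ν : Measure (Adl K)) [ν.IsAddHaarMeasure]
    (hPF : ∀ β : Kˣ, MeasurePreserving (fun x : Adl K => emb K (β : K) * x) ν ν)
    (α : Kˣ) (hα : ¬ IsOfFinOrder α)
    (f : G K → ℂ) (hf : Continuous f) (hfc : HasCompactSupport f) (hEK : IsEK K ν f α)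
    (Ψ : G K → ℂ) (hΨ : Continuous Ψ) (hΨN : ∀ (x : Adl K) (g : G K), Ψ (unip K x * g) = Ψ g)
    (hΨT : ∀ g : G K, Ψ (torK K α * g) = Ψ g)
    (g : G K) : Rop K μ f Ψ g = 0 := by
  rw [rop_eq893]
  set φ : G K → ℂ := fun y => f (g⁻¹ * y) with hφ
  have hφc : Continuous φ := hf.comp (continuous_const.mul continuous_id)
  have hφs : HasCompactSupport φ := hfc.comp_homeomorph (Homeomorph.mulLeft g⁻¹)
  -- the weight
  obtain ⟨ρ, hρ1, -, hρc, hρ01⟩ := exists_continuous_one_zero_of_isCompact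
    (s := tsupport φ) (t := (∅ : Set (G K))) hφs isClosed_empty (Set.disjoint_empty _)
  have hρpos : ∀ y, φ y ≠ 0 → 0 < ρ y := by
    intro y hy
    have := hρ1 (subset_tsupport φ hy)
    simp only [Pi.one_apply] at this
    rw [this]
    exact one_pos
  have hinj : Function.Injective fun j : ℤ => α ^ j :=
    injective_zpow_iff_not_isOfFinOrder.2 hα
  have hpm : Measurable (pB893 K α) := measurable_pB893 K α
  -- measurability of the weight along the orbit
  have hFm : ∀ y : G K, Measurable fun b : ℤ × Adl K => ENNReal.ofReal (ρ (pB893 K α b * y)) :=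
    fun y => (ρ.continuous.measurable.comp (hpm.mul_const y)).ennreal_ofReal
  refine integral_eq_zero_of_orbital893 μ ((Measure.count : Measure ℤ).prod ν) (pB893 K α) hpm
    φ Ψ hφc.measurable hΨ.measurable ?_ ρ ρ.continuous.measurable (fun y => (hρ01 y).1)
    ?_ ?_ ?_ ?_ ?_
  · -- integrability
    refine (hΨ.mul hφc).integrable_of_hasCompactSupport ?_
    exact hφs.mul_left
  · -- invariance of `Ψ`
    rintro ⟨j, x⟩ y
    rw [pB893_apply, mul_assoc, hΨN, ← torK_zpow893]
    exact inv_zpow893 Ψ (torK K α) hΨT j y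
  · -- invariance of the orbital integral of the weight
    rintro ⟨j, x⟩ y
    set σ : ℤ × Adl K → ℤ × Adl K :=
      fun b' => (b'.1 + j, b'.2 + emb K ((α ^ b'.1 : Kˣ) : K) * x) with hσ
    have hσmp : MeasurePreserving σ ((Measure.count : Measure ℤ).prod ν)
        ((Measure.count : Measure ℤ).prod ν) := by
      refine MeasurePreserving.skew_product (f := fun j' : ℤ => j' + j)
        (measurePreserving_add_right (Measure.count : Measure ℤ) j)
        (g := fun (j' : ℤ) (x' : Adl K) => x' + emb K ((α ^ j' : Kˣ) : K) * x) ?_ ?_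
      · refine measurable_from_prod_countable_right fun j' => ?_
        change Measurable fun x' : Adl K => x' + emb K ((α ^ j' : Kˣ) : K) * x
        exact (Continuous.add (continuous_id (X := Adl K)) continuous_const).measurable
      · exact Filter.Eventually.of_forall fun j' => map_add_right_eq_self ν _
    have h := hσmp.lintegral_comp (hFm y)
    rw [← h]
    congr 1
    funext b'
    obtain ⟨j', x'⟩ := b'
    rw [← mul_assoc, pB893_mul]
  · -- positivity
    intro y hy
    rw [lintegral_count_prod893 K ν _ (hFm y)]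
    have h0 := lintegral_unip_pos893 K ν ρ ρ.continuous y (hρpos y hy)
    have h1 : ∫⁻ x, ENNReal.ofReal (ρ (unip K x * y)) ∂ν
        = ∫⁻ x, ENNReal.ofReal (ρ (pB893 K α (0, x) * y)) ∂ν := by
      simp only [pB893_apply, zpow_zero, torK_one893, mul_one]
    rw [h1] at h0
    exact (lt_of_lt_of_le h0
      (ENNReal.le_tsum (f := fun j : ℤ => ∫⁻ x, ENNReal.ofReal (ρ (pB893 K α (j, x) * y)) ∂ν)
        0)).ne'
  · -- finiteness
    intro y _
    rw [lintegral_count_prod893 K ν _ (hFm y)]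
    have hfinβ := finite_torK_of893 K hdisc hclosed (tsupport ρ) hρc y
    have hfinj : {j : ℤ | ∃ x : Adl K, unip K x * torK K (α ^ j) * y ∈ tsupport ρ}.Finite :=
      Set.Finite.preimage (f := fun j : ℤ => α ^ j) hinj.injOn hfinβ
    have hzero : ∀ j ∉ hfinj.toFinset,
        ∫⁻ x, ENNReal.ofReal (ρ (pB893 K α (j, x) * y)) ∂ν = 0 := by
      intro j hj
      have hj' : ¬ ∃ x : Adl K, unip K x * torK K (α ^ j) * y ∈ tsupport ρ := by
        simpa using hj
      have : ∀ x : Adl K, ENNReal.ofReal (ρ (pB893 K α (j, x) * y)) = 0 := by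
        intro x
        have hx : ρ (pB893 K α (j, x) * y) = 0 := by
          by_contra hne
          exact hj' ⟨x, subset_tsupport ρ hne⟩
        rw [hx, ENNReal.ofReal_zero]
      simp only [this, lintegral_zero]
    rw [tsum_eq_sum hzero]
    refine (ENNReal.sum_lt_top.2 fun j _ => ?_).ne
    have := lintegral_unip_lt_top893 K ν ρ ρ.continuous hρc (torK K (α ^ j) * y)
    simpa only [pB893_apply, mul_assoc] using this
  · -- the orbital integrals of `φ` vanish
    intro y hint
    rw [integral_prod _ hint, integral_countable hint.integral_prod_left]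
    set T : ℤ → ℂ := fun j => ∫ x, f (g⁻¹ * unip K x * torK K α ^ j * y) ∂ν with hT
    have hterm : ∀ j : ℤ, (Measure.count : Measure ℤ).real {j} •
        ∫ x, φ ((pB893 K α (j, x))⁻¹ * y) ∂ν = T (-j) := by
      intro j
      rw [measureReal_def, Measure.count_singleton, ENNReal.toReal_one, one_smul]
      simp only [hφ, hT, pB893_inv]
      set β' : Kˣ := α ^ (-j) with hβ'
      -- change of variables `x ↦ -(β' x)`
      have h2 := (hPF β').integral_comp (mulRatEquiv893 K β').measurableEmbedding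
        (fun x => f (g⁻¹ * (unip K (-x) * torK K α ^ (-j) * y)))
      have h1 := integral_neg_eq_self
        (fun x => f (g⁻¹ * (unip K x * torK K α ^ (-j) * y))) ν
      rw [h2, h1]
      simp only [mul_assoc]
    simp only [hterm]
    have hneg := (Equiv.neg ℤ).tsum_eq T
    simp only [Equiv.neg_apply] at hneg
    rw [hneg]
    exact (hEK g y).tsum_eq

end Fermat.Agent.LT.T3.H893

end

end
-- ===== PACK-END LT/T3/H893/EKKillB.lean

-- ===== PACK-BEGIN LT/T5/H29/TwClosed.lean
section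














/-!
# Row LT, tower T5, leaf T5.07 `LeafTwFinite` (owner helper29): INTEGRATION — OFF-MAIN

On T5/Spec v4 FREEZE (helper32@eb7e4c138, sha256 f2d97e70), T1/Spec v1 (e8ae48d6), A0 (66d3374a).

Sub-leaves, all proved: T5.07a `RayBoundC` helper675 (patched copy, one token), T5.07b
`UpperNotRegC` helper787, T5.07c `BoxC` helper472, T5.07d `SiegelTwC` helper151 (patched copy,
one token), T5.07f `RatFiniteC` helper965, T5.07g `RaySlabC` helper655, T5.07h assembly helper29.
T5.07e `MahlerC` helper501.  NOTHING OPEN.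

`leafTwFinite29 : T1.T1Out K → T5.LeafTwFinite s l k 𝔫 τ` (every `s`, `l`, `k`, `𝔫`, `τ`).
-/

set_option autoImplicit false

open IsDedekindDomain NumberField MeasureTheory
open scoped MatrixGroups

noncomputable section

namespace Fermat.Agent.LT.T5.H29

open Fermat.Agent.LT.H556.A0 Fermat.Agent.LT.T5 Fermat.Agent.LT

attribute [local instance] Fermat.Agent.LT.T5.instMeasurableSpaceG

variable {K : Type} [Field K] [NumberField K]

/-- The sub-leaves of T5.07, `MahlerC` excepted. -/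
theorem twLeaves_of_mahler29 (s : AdelicAut K) (l : ℕ) (k : Subfield K) (𝔫 : Ideal (𝓞 K))
    (hMah : MahlerC K) : TwLeaves s l k 𝔫 where
  rayBound := V4.H675.rayBound675 s 𝔫
  upperNotReg := H787.upperNotRegC787 s l k
  box := H472.boxC472 K
  siegelTw := V4.H151.siegelTwC151 s 𝔫
  mahler := hMah
  ratFinite := H965.ratFiniteC965 K
  raySlab := H655.raySlabC655 K

/-- **T5.07 `LeafTwFinite`** from the output of tower T1 and `MahlerC`. -/
theorem leafTwFinite_of_mahler29 (s : AdelicAut K) (l : ℕ) (k : Subfield K) (𝔫 : Ideal (𝓞 K))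
    (τ : G K → ℂ) (hT : T1.T1Out K) (hMah : MahlerC K) : LeafTwFinite s l k 𝔫 τ :=
  leafTwFinite_of_leaves s l k 𝔫 τ hT (twLeaves_of_mahler29 s l k 𝔫 hMah)

/-- **T5.07 `LeafTwFinite`, CLOSED modulo the output of tower T1.** -/
theorem leafTwFinite29 (s : AdelicAut K) (l : ℕ) (k : Subfield K) (𝔫 : Ideal (𝓞 K))
    (τ : G K → ℂ) (hT : T1.T1Out K) : LeafTwFinite s l k 𝔫 τ :=
  leafTwFinite_of_mahler29 s l k 𝔫 τ hT (Fermat.Agent.LT.H501.mahlerC501 K)

end Fermat.Agent.LT.T5.H29

end

end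
-- ===== PACK-END LT/T5/H29/TwClosed.lean

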