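import Mathlib
import Fermat.Agent.Pack.LT2.E3L0
import Fermat.Agent.Pack.LT2.E8L2
import Fermat.Agent.Pack.LT2.E8L3
import Fermat.Agent.Pack.S43GC.G0E8L2
import Fermat.Agent.Pack.S43GC.G0E10L1
import Fermat.Agent.Pack.LT2.E8L0
import Fermat.Agent.Pack.LT2.E3L2
import Fermat.Agent.Pack.LT2.E8L1
import Fermat.Agent.Pack.LT2.E2L3
import Fermat.Agent.Pack.LT2.E7L1
import Fermat.Agent.Pack.LT2.E6L0
import Fermat.Agent.Pack.LT2.E5L1
import Fermat.Agent.Pack.LT2.E3L3
import Fermat.Agent.Pack.LT2.E0L1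
import Fermat.Agent.Pack.LT2.E6L3
import Fermat.Agent.Pack.LT2.E6L2
import Fermat.Agent.Pack.LT2.E9L1
import Fermat.Agent.Pack.LT2.E9L2

set_option linter.all false

-- ===== PACK-BEGIN LT/A2/H230/GalSeedFields.lean
section




/-!
# Row LT, tower A2, branch GALSEED: leaves A2.01.02 `NumFieldsC`, A2.01.03 `TotCplxC`,
# A2.01.04 `DegTwoC` (helper230), VERBATIM against `LT/A2/H38/GalSeedSpec.lean` (helper38)

OFF-MAIN.  Registry rows 810, 811, 812.

* `numFieldsC230 : H38.NumFieldsC`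
* `totCplxC230   : H38.TotCplxC`
* `degTwoC230    : H38.DegTwoC`

The work is in `FieldE.lean`; here: `H38.C4 = ⟨g0⟩` is the subgroup `C4grp230 = {±1, ±g0}` given
on the entries, and the tower law for the algebra structure `H38.algEL ρ`.
-/

set_option autoImplicit false
set_option linter.style.haveILetI false

open scoped MatrixGroups
open NumberField WeierstrassCurve

noncomputable section

namespace Fermat.Agent.LT.A2.H230

open Fermat.Agent.LT.H130 Fermat.Agent.LT.A2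

local notation "Γℚ" => (AlgebraicClosure ℚ ≃ₐ[ℚ] AlgebraicClosure ℚ)

/-! ## `⟨g0⟩ = {±1, ±g0}` -/

theorem g0_mem_C4grp230 : H38.g0 ∈ C4grp230 := by
  rw [mem_C4grp230]
  unfold HasEntries230 H38.g0
  show C4E230 _ _ _ _
  simp only [Matrix.of_apply, Matrix.cons_val', Matrix.cons_val_zero, Matrix.cons_val_one,
    Matrix.cons_val_fin_one]
  decide

theorem unit_cases230 : ∀ x : ZMod 3, x ≠ 0 → x = 1 ∨ x = 2 := by decide

theorem neg_cases230 : (-(1 : ZMod 3) = 2) ∧ (-(2 : ZMod 3) = 1) := by decide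

theorem g0_sq_val230 :
    ((H38.g0 ^ 2 : GL (Fin 2) (ZMod 3)) : Matrix (Fin 2) (Fin 2) (ZMod 3)) = !![2, 0; 0, 2] := by
  rw [Units.val_pow_eq_pow_val]
  show (!![0, 2; 1, 0] : Matrix (Fin 2) (Fin 2) (ZMod 3)) ^ 2 = _
  decide

theorem g0_cube_val230 :
    ((H38.g0 ^ 3 : GL (Fin 2) (ZMod 3)) : Matrix (Fin 2) (Fin 2) (ZMod 3)) = !![0, 1; 2, 0] := by
  rw [Units.val_pow_eq_pow_val]
  show (!![0, 2; 1, 0] : Matrix (Fin 2) (Fin 2) (ZMod 3)) ^ 3 = _
  decide

theorem mem_zpowers_of_entries230 {g : GL (Fin 2) (ZMod 3)} (hg : HasEntries230 C4E230 g) :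
    g ∈ Subgroup.zpowers H38.g0 := by
  unfold HasEntries230 C4E230 at hg
  have heta := Matrix.eta_fin_two (g : Matrix (Fin 2) (Fin 2) (ZMod 3))
  rcases hg with ⟨hb, hc, had, ha⟩ | ⟨ha, hd, hbc, hc⟩
  · rcases unit_cases230 _ ha with h1 | h2
    · -- g = 1
      have : g = 1 := by
        apply Units.ext
        rw [heta, hb, hc, ← had, h1, Units.val_one]
        exact (Matrix.one_fin_two).symm
      rw [this]
      exact Subgroup.one_mem _
    · -- g = g0 ^ 2
      have : g = H38.g0 ^ 2 := by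
        apply Units.ext
        rw [g0_sq_val230, heta, hb, hc, ← had, h2]
      rw [this]
      exact Subgroup.pow_mem _ (Subgroup.mem_zpowers _) 2
  · rcases unit_cases230 _ hc with h1 | h2
    · -- g = g0
      have : g = H38.g0 := by
        apply Units.ext
        rw [heta, ha, hd, hbc, h1, neg_cases230.1]
        rfl
      rw [this]
      exact Subgroup.mem_zpowers _
    · -- g = g0 ^ 3
      have : g = H38.g0 ^ 3 := by
        apply Units.ext
        rw [g0_cube_val230, heta, ha, hd, hbc, h2, neg_cases230.2]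
      rw [this]
      exact Subgroup.pow_mem _ (Subgroup.mem_zpowers _) 3

/-- `H38.C4 = ⟨g0⟩` is the subgroup `{±1, ±g0}` of `FieldE.lean`. -/
theorem C4_eq230 : H38.C4 = C4grp230 := by
  apply le_antisymm
  · unfold H38.C4
    rw [Subgroup.zpowers_le]
    exact g0_mem_C4grp230
  · intro g hg
    exact mem_zpowers_of_entries230 hg

theorem subC4_eq230 (ρ : Γℚ →* GL (Fin 2) (ZMod 3)) : H38.subC4 ρ = subC4_230 ρ := by
  unfold H38.subC4 subC4_230
  rw [C4_eq230]

theorem fieldL_eq230 (ρ : Γℚ →* GL (Fin 2) (ZMod 3)) : H38.fieldL ρ = fieldL230 ρ := by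
  unfold H38.fieldL fieldL230
  rw [subC4_eq230]

/-! ## The three leaves -/

theorem numberField_H38fieldL230 {ρ : Γℚ →* GL (Fin 2) (ZMod 3)} (hρ : Continuous ρ) :
    NumberField (H38.fieldL ρ) := by
  rw [fieldL_eq230]
  exact numberField_fieldL230 hρ

/-- **A2.01.02 `NumFieldsC`.** -/
theorem numFieldsC230 : H38.NumFieldsC := fun _ _ h =>
  ⟨numberField_fieldE230 h.cont, numberField_H38fieldL230 h.cont⟩

/-- **A2.01.03 `TotCplxC`.** -/
theorem totCplxC230 : H38.TotCplxC := fun _ _ h u => isComplex_fieldE230 h.cont h.det u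

theorem finrank_H38fieldL230 {ρ : Γℚ →* GL (Fin 2) (ZMod 3)} (hcont : Continuous ρ)
    (hsurj : Function.Surjective ρ) :
    Module.finrank ℚ (H38.fieldL ρ) = 2 * Module.finrank ℚ (fieldE ρ) := by
  rw [fieldL_eq230]
  exact finrank_fieldL_eq230 hcont hsurj

/-- **A2.01.04 `DegTwoC`.** -/
theorem degTwoC230 : H38.DegTwoC := by
  intro ρ Ψ h
  letI := H38.algEL ρ
  show Module.finrank (fieldE ρ) (H38.fieldL ρ) = 2
  haveI : IsScalarTower ℚ (fieldE ρ) (H38.fieldL ρ) :=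
    IsScalarTower.of_algebraMap_eq fun x => by
      show algebraMap ℚ (H38.fieldL ρ) x
        = IntermediateField.inclusion (H38.fieldE_le_fieldL ρ) (algebraMap ℚ (fieldE ρ) x)
      exact ((IntermediateField.inclusion (H38.fieldE_le_fieldL ρ)).commutes x).symm
  haveI := finiteDimensional_fieldE230 h.cont
  have h1 := Module.finrank_mul_finrank ℚ (fieldE ρ) (H38.fieldL ρ)
  rw [finrank_H38fieldL230 h.cont h.surj] at h1
  have hpos : 0 < Module.finrank ℚ (fieldE ρ) := Module.finrank_pos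
  have h2 : Module.finrank ℚ (fieldE ρ) * Module.finrank (fieldE ρ) (H38.fieldL ρ)
      = Module.finrank ℚ (fieldE ρ) * 2 := by
    rw [mul_comm _ 2]
    exact h1
  exact Nat.eq_of_mul_eq_mul_left hpos h2

end Fermat.Agent.LT.A2.H230

end

end
-- ===== PACK-END LT/A2/H230/GalSeedFields.lean

-- ===== PACK-BEGIN LT/CFT/H861/RayChar.lean
section


/-!
# Row LT, tower CFT, helper861 (OFF-MAIN): RAY ⇒ IDELE

Mathlib only.  The passage from an ideal-theoretic ray class character to an idele class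
character of `𝔸ˣ`, `𝔸 = NumberField.AdeleRing (𝓞 K) K` (= `A0.Adl K` of `LT/H556/A0.lean`).

`K` is ANY number field (no condition at the infinite places is needed: the ray condition
`IsRay861 𝔣 ω` has no sign condition, so the character is trivial on `K_∞ˣ`; for Artin symbols
such an `𝔣` exists when `K` is totally complex).

Main results (`A` any commutative group; topology only for the continuity statement):

* `chi861 h𝔣 ω hray : 𝔸ˣ →* A`;
* `chi861_pr`        : trivial on the principal ideles;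
* `chi861_of_inU`    : equal to the content `∏ᶠ v, ω v ^ ord_v x` on the ideles `≡ 1 mod 𝔣`;
* `chi861_at`        : for `v ∤ 𝔣` and an idele `z` whose finite components away from `v` are `1`:
  `χ z = ω v ^ ord_v z`; in particular `chi861_unit` (`= 1` on local units) and `chi861_unif`
  (`= ω v` on local uniformisers);
* `chi861_pow`       : `χ ^ n = 1` if `ω ^ n = 1`;
* `continuous_chi861`: `χ` is continuous (it is trivial on an open subgroup);
* `exists_ideleClassChar861` : the summary.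
-/

set_option autoImplicit false

open IsDedekindDomain NumberField

noncomputable section

namespace Fermat.Agent.LT.CFT.H861

variable {K : Type} [Field K] [NumberField K]
variable {A : Type*} [CommGroup A]

/-- A chosen `γ ∈ Kˣ` with `γ⁻¹ x ≡ 1 mod 𝔣`. -/
def gam861 {𝔣 : Ideal (𝓞 K)} (h𝔣 : 𝔣 ≠ ⊥) (x : (AdeleRing (𝓞 K) K)ˣ) : Kˣ :=
  Classical.choose (exists_pr_mul_inU861 h𝔣 x)

theorem gam861_spec {𝔣 : Ideal (𝓞 K)} (h𝔣 : 𝔣 ≠ ⊥) (x : (AdeleRing (𝓞 K) K)ˣ) :
    InU861 𝔣 ((pr861 K (gam861 h𝔣 x))⁻¹ * x) :=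
  Classical.choose_spec (exists_pr_mul_inU861 h𝔣 x)

/-- The underlying function of the idele class character. -/
def chiFun861 {𝔣 : Ideal (𝓞 K)} (h𝔣 : 𝔣 ≠ ⊥) (ω : HeightOneSpectrum (𝓞 K) → A)
    (x : (AdeleRing (𝓞 K) K)ˣ) : A :=
  cont861 ω ((pr861 K (gam861 h𝔣 x))⁻¹ * x)

theorem chiFun861_eq {𝔣 : Ideal (𝓞 K)} (h𝔣 : 𝔣 ≠ ⊥) {ω : HeightOneSpectrum (𝓞 K) → A}
    (hray : IsRay861 𝔣 ω) (x : (AdeleRing (𝓞 K) K)ˣ) (γ : Kˣ)
    (hγ : InU861 𝔣 ((pr861 K γ)⁻¹ * x)) :
    chiFun861 h𝔣 ω x = cont861 ω ((pr861 K γ)⁻¹ * x) := by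
  have h0 := gam861_spec h𝔣 x
  have e : (pr861 K (gam861 h𝔣 x))⁻¹ * x
      = pr861 K ((gam861 h𝔣 x)⁻¹ * γ) * ((pr861 K γ)⁻¹ * x) := by
    rw [map_mul, map_inv]
    rw [mul_assoc, mul_inv_cancel_left]
  have hU : InU861 𝔣 (pr861 K ((gam861 h𝔣 x)⁻¹ * γ)) := by
    have h1 := h0.mul hγ.inv
    have e2 : (pr861 K (gam861 h𝔣 x))⁻¹ * x * ((pr861 K γ)⁻¹ * x)⁻¹
        = pr861 K ((gam861 h𝔣 x)⁻¹ * γ) := by
      rw [map_mul, map_inv, mul_inv, inv_inv]
      rw [mul_mul_mul_comm, mul_inv_cancel, mul_one]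
    rwa [e2] at h1
  rw [chiFun861, e, map_mul, cont861_pr_eq_one_of_inU h𝔣 hray _ hU, one_mul]

/-- **The idele class character of the ray class character `ω` modulo `𝔣`.** -/
def chi861 {𝔣 : Ideal (𝓞 K)} (h𝔣 : 𝔣 ≠ ⊥) (ω : HeightOneSpectrum (𝓞 K) → A)
    (hray : IsRay861 𝔣 ω) : (AdeleRing (𝓞 K) K)ˣ →* A where
  toFun := chiFun861 h𝔣 ω
  map_one' := by
    have h1 : InU861 𝔣 ((pr861 K (1 : Kˣ))⁻¹ * (1 : (AdeleRing (𝓞 K) K)ˣ)) := by
      rw [map_one, inv_one, one_mul]; exact inU861_one 𝔣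
    rw [chiFun861_eq h𝔣 hray 1 1 h1, map_one, inv_one, one_mul, map_one]
  map_mul' x y := by
    have hx := gam861_spec h𝔣 x
    have hy := gam861_spec h𝔣 y
    have e : (pr861 K (gam861 h𝔣 x * gam861 h𝔣 y))⁻¹ * (x * y)
        = ((pr861 K (gam861 h𝔣 x))⁻¹ * x) * ((pr861 K (gam861 h𝔣 y))⁻¹ * y) := by
      rw [map_mul, mul_inv, mul_mul_mul_comm]
    have hxy : InU861 𝔣 ((pr861 K (gam861 h𝔣 x * gam861 h𝔣 y))⁻¹ * (x * y)) := by
      rw [e]; exact hx.mul hy
    rw [chiFun861_eq h𝔣 hray (x * y) _ hxy, e, map_mul]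
    rfl

theorem chi861_apply_of {𝔣 : Ideal (𝓞 K)} (h𝔣 : 𝔣 ≠ ⊥) {ω : HeightOneSpectrum (𝓞 K) → A}
    (hray : IsRay861 𝔣 ω) (x : (AdeleRing (𝓞 K) K)ˣ) (γ : Kˣ)
    (hγ : InU861 𝔣 ((pr861 K γ)⁻¹ * x)) :
    chi861 h𝔣 ω hray x = cont861 ω ((pr861 K γ)⁻¹ * x) :=
  chiFun861_eq h𝔣 hray x γ hγ

/-- `χ` is trivial on the principal ideles. -/
theorem chi861_pr {𝔣 : Ideal (𝓞 K)} (h𝔣 : 𝔣 ≠ ⊥) {ω : HeightOneSpectrum (𝓞 K) → A}
    (hray : IsRay861 𝔣 ω) (γ : Kˣ) : chi861 h𝔣 ω hray (pr861 K γ) = 1 := by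
  have h1 : InU861 𝔣 ((pr861 K γ)⁻¹ * pr861 K γ) := by
    rw [inv_mul_cancel]; exact inU861_one 𝔣
  rw [chi861_apply_of h𝔣 hray _ γ h1, inv_mul_cancel, map_one]

/-- On the ideles `≡ 1 mod 𝔣`, `χ` is the content character. -/
theorem chi861_of_inU {𝔣 : Ideal (𝓞 K)} (h𝔣 : 𝔣 ≠ ⊥) {ω : HeightOneSpectrum (𝓞 K) → A}
    (hray : IsRay861 𝔣 ω) (x : (AdeleRing (𝓞 K) K)ˣ) (hx : InU861 𝔣 x) :
    chi861 h𝔣 ω hray x = cont861 ω x := by
  have h1 : InU861 𝔣 ((pr861 K (1 : Kˣ))⁻¹ * x) := by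
    rw [map_one, inv_one, one_mul]; exact hx
  rw [chi861_apply_of h𝔣 hray _ 1 h1, map_one, inv_one, one_mul]

theorem ord861_eq_zero_of_fc_eq_one (w : HeightOneSpectrum (𝓞 K)) (z : (AdeleRing (𝓞 K) K)ˣ)
    (h : fc861 w z = 1) : ord861 w z = 0 := by
  rw [ord861_eq_zero_iff, h, map_one]

/-- The value of `χ` on an idele supported at one place `v ∤ 𝔣`. -/
theorem chi861_at {𝔣 : Ideal (𝓞 K)} (h𝔣 : 𝔣 ≠ ⊥) {ω : HeightOneSpectrum (𝓞 K) → A}
    (hray : IsRay861 𝔣 ω) (v : HeightOneSpectrum (𝓞 K)) (hv : ¬ v.asIdeal ∣ 𝔣)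
    (z : (AdeleRing (𝓞 K) K)ˣ) (hz : ∀ w : HeightOneSpectrum (𝓞 K), w ≠ v → fc861 w z = 1) :
    chi861 h𝔣 ω hray z = ω v ^ ord861 v z := by
  have hU : InU861 𝔣 z := by
    intro w hw
    have hwv : w ≠ v := by
      rintro rfl
      exact hv ((fexp861_ne_zero_iff h𝔣 w).1 hw)
    rw [hz w hwv, sub_self, map_zero]
    exact zero_le
  rw [chi861_of_inU h𝔣 hray z hU]
  exact cont861_eq_single ω z v fun w hw => ord861_eq_zero_of_fc_eq_one w z (hz w hw)

/-- `χ` is unramified at `v ∤ 𝔣`. -/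
theorem chi861_unit {𝔣 : Ideal (𝓞 K)} (h𝔣 : 𝔣 ≠ ⊥) {ω : HeightOneSpectrum (𝓞 K) → A}
    (hray : IsRay861 𝔣 ω) (v : HeightOneSpectrum (𝓞 K)) (hv : ¬ v.asIdeal ∣ 𝔣)
    (z : (AdeleRing (𝓞 K) K)ˣ) (hz : ∀ w : HeightOneSpectrum (𝓞 K), w ≠ v → fc861 w z = 1)
    (hzv : Valued.v (fc861 v z) = 1) : chi861 h𝔣 ω hray z = 1 := by
  rw [chi861_at h𝔣 hray v hv z hz, (ord861_eq_zero_iff v z).2 hzv, zpow_zero]

/-- `χ (ϖ_v) = ω v` at `v ∤ 𝔣`. -/
theorem chi861_unif {𝔣 : Ideal (𝓞 K)} (h𝔣 : 𝔣 ≠ ⊥) {ω : HeightOneSpectrum (𝓞 K) → A}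
    (hray : IsRay861 𝔣 ω) (v : HeightOneSpectrum (𝓞 K)) (hv : ¬ v.asIdeal ∣ 𝔣)
    (z : (AdeleRing (𝓞 K) K)ˣ) (hz : ∀ w : HeightOneSpectrum (𝓞 K), w ≠ v → fc861 w z = 1)
    (hzv : Valued.v (fc861 v z) = WithZero.exp (-1 : ℤ)) : chi861 h𝔣 ω hray z = ω v := by
  rw [chi861_at h𝔣 hray v hv z hz, ord861_eq_of_val v z 1 hzv, zpow_one]

/-- The content character has exponent `n` if `ω` has. -/
theorem cont861_pow (ω : HeightOneSpectrum (𝓞 K) → A) (n : ℕ) (hω : ∀ v, ω v ^ n = 1)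
    (x : (AdeleRing (𝓞 K) K)ˣ) : cont861 ω x ^ n = 1 := by
  rw [cont861_apply, finprod_pow (hasFiniteMulSupport_zpow_ord861 ω x)]
  have : ∀ v : HeightOneSpectrum (𝓞 K), (ω v ^ ord861 v x) ^ n = 1 := fun v => by
    rw [← zpow_natCast, ← zpow_mul, mul_comm, zpow_mul, zpow_natCast, hω v, one_zpow]
  simp [this]

/-- `χ` has exponent `n` if `ω` has. -/
theorem chi861_pow {𝔣 : Ideal (𝓞 K)} (h𝔣 : 𝔣 ≠ ⊥) {ω : HeightOneSpectrum (𝓞 K) → A}
    (hray : IsRay861 𝔣 ω) (n : ℕ) (hω : ∀ v, ω v ^ n = 1) (x : (AdeleRing (𝓞 K) K)ˣ) :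
    chi861 h𝔣 ω hray x ^ n = 1 := by
  rw [chi861_apply_of h𝔣 hray x _ (gam861_spec h𝔣 x)]
  exact cont861_pow ω n hω _

/-! ### Continuity -/

/-- The open subgroup of the ideles on which `χ` is trivial (as a set). -/
def openU861 (𝔣 : Ideal (𝓞 K)) : Set (AdeleRing (𝓞 K) K)ˣ :=
  {x | (∀ v : HeightOneSpectrum (𝓞 K), Valued.v (fc861 v x) ≤ 1) ∧
    (∀ v : HeightOneSpectrum (𝓞 K), Valued.v (fc861 v x⁻¹) ≤ 1) ∧
    ∀ v : HeightOneSpectrum (𝓞 K), fexp861 𝔣 v ≠ 0 →
      Valued.v (fc861 v x - 1) ≤ WithZero.exp (-(fexp861 𝔣 v : ℤ))}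

theorem one_mem_openU861 (𝔣 : Ideal (𝓞 K)) : (1 : (AdeleRing (𝓞 K) K)ˣ) ∈ openU861 𝔣 := by
  refine ⟨fun v => ?_, fun v => ?_, fun v _ => ?_⟩
  · rw [fc861_one, map_one]
  · rw [inv_one, fc861_one, map_one]
  · rw [fc861_one, sub_self, map_zero]; exact zero_le

theorem continuous_snd_val861 :
    Continuous fun x : (AdeleRing (𝓞 K) K)ˣ => ((x : AdeleRing (𝓞 K) K)).2 :=
  continuous_snd.comp Units.continuous_val

theorem continuous_snd_inv861 :
    Continuous fun x : (AdeleRing (𝓞 K) K)ˣ =>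
      (((x⁻¹ : (AdeleRing (𝓞 K) K)ˣ) : AdeleRing (𝓞 K) K)).2 :=
  continuous_snd.comp Units.continuous_coe_inv

theorem isOpen_integral861 :
    IsOpen {f : FiniteAdeleRing (𝓞 K) K | ∀ v : HeightOneSpectrum (𝓞 K), Valued.v (f v) ≤ 1} :=
  RestrictedProduct.isOpen_forall_mem
    (A := fun v : HeightOneSpectrum (𝓞 K) => ((v.adicCompletionIntegers K : Set (v.adicCompletion K))))
    (fun v => Valued.isOpen_valuationSubring (v.adicCompletion K))

theorem isOpen_openU861 {𝔣 : Ideal (𝓞 K)} (h𝔣 : 𝔣 ≠ ⊥) : IsOpen (openU861 𝔣) := by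
  have h1 : IsOpen {x : (AdeleRing (𝓞 K) K)ˣ |
      ∀ v : HeightOneSpectrum (𝓞 K), Valued.v (fc861 v x) ≤ 1} :=
    isOpen_integral861.preimage continuous_snd_val861
  have h2 : IsOpen {x : (AdeleRing (𝓞 K) K)ˣ |
      ∀ v : HeightOneSpectrum (𝓞 K), Valued.v (fc861 v x⁻¹) ≤ 1} :=
    isOpen_integral861.preimage continuous_snd_inv861
  have h3 : IsOpen {x : (AdeleRing (𝓞 K) K)ˣ | ∀ v : HeightOneSpectrum (𝓞 K), fexp861 𝔣 v ≠ 0 →
      Valued.v (fc861 v x - 1) ≤ WithZero.exp (-(fexp861 𝔣 v : ℤ))} := by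
    have e : {x : (AdeleRing (𝓞 K) K)ˣ | ∀ v : HeightOneSpectrum (𝓞 K), fexp861 𝔣 v ≠ 0 →
        Valued.v (fc861 v x - 1) ≤ WithZero.exp (-(fexp861 𝔣 v : ℤ))}
        = ⋂ v ∈ {v : HeightOneSpectrum (𝓞 K) | fexp861 𝔣 v ≠ 0},
          {x : (AdeleRing (𝓞 K) K)ˣ |
            Valued.v (fc861 v x - 1) ≤ WithZero.exp (-(fexp861 𝔣 v : ℤ))} := by
      ext x; simp
    rw [e]
    refine (finite_fexp861_ne_zero h𝔣).isOpen_biInter fun v _ => ?_
    have hc : Continuous fun x : (AdeleRing (𝓞 K) K)ˣ => fc861 v x :=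
      (RestrictedProduct.continuous_eval v).comp continuous_snd_val861
    exact (isOpen_ball861 v 1 (fexp861 𝔣 v : ℤ)).preimage hc
  exact h1.inter (h2.inter h3)

theorem chi861_eq_one_of_mem_openU {𝔣 : Ideal (𝓞 K)} (h𝔣 : 𝔣 ≠ ⊥)
    {ω : HeightOneSpectrum (𝓞 K) → A} (hray : IsRay861 𝔣 ω) (x : (AdeleRing (𝓞 K) K)ˣ)
    (hx : x ∈ openU861 𝔣) : chi861 h𝔣 ω hray x = 1 := by
  obtain ⟨h1, h2, h3⟩ := hx
  rw [chi861_of_inU h𝔣 hray x h3]
  refine cont861_eq_one_of_ord ω x fun v => ?_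
  rw [ord861_eq_zero_iff]
  refine le_antisymm (h1 v) ?_
  have h4 := h2 v
  rw [fc861_inv, map_inv₀] at h4
  have hne := val_fc861_ne_zero v x
  rwa [inv_le_one₀ (zero_lt_iff.2 hne)] at h4

/-- `χ` is continuous. -/
theorem continuous_chi861 [TopologicalSpace A] [ContinuousMul A] {𝔣 : Ideal (𝓞 K)}
    (h𝔣 : 𝔣 ≠ ⊥) {ω : HeightOneSpectrum (𝓞 K) → A} (hray : IsRay861 𝔣 ω) :
    Continuous (chi861 h𝔣 ω hray) := by
  apply continuous_of_continuousAt_one
  have hev : (fun _ : (AdeleRing (𝓞 K) K)ˣ => (1 : A)) =ᶠ[nhds 1] chi861 h𝔣 ω hray :=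
    Filter.mem_of_superset ((isOpen_openU861 h𝔣).mem_nhds (one_mem_openU861 𝔣))
      fun x hx => (chi861_eq_one_of_mem_openU h𝔣 hray x hx).symm
  exact continuousAt_const.congr hev

/-- **RAY ⇒ IDELE, summary.**  A function `ω` on the finite places satisfying the ray condition
modulo `𝔣 ≠ ⊥` is the restriction to the places `v ∤ 𝔣` of a continuous idele class character. -/
theorem exists_ideleClassChar861 [TopologicalSpace A] [ContinuousMul A]
    (𝔣 : Ideal (𝓞 K)) (h𝔣 : 𝔣 ≠ ⊥) (ω : HeightOneSpectrum (𝓞 K) → A) (hray : IsRay861 𝔣 ω) :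
    ∃ χ : (AdeleRing (𝓞 K) K)ˣ →* A, Continuous χ ∧
      (∀ γ : Kˣ, χ (Units.map (algebraMap K (AdeleRing (𝓞 K) K)).toMonoidHom γ) = 1) ∧
      (∀ n : ℕ, (∀ v, ω v ^ n = 1) → ∀ x, χ x ^ n = 1) ∧
      ∀ v : HeightOneSpectrum (𝓞 K), ¬ v.asIdeal ∣ 𝔣 → ∀ z : (AdeleRing (𝓞 K) K)ˣ,
        (∀ w : HeightOneSpectrum (𝓞 K), w ≠ v → (z : AdeleRing (𝓞 K) K).2 w = 1) →
        (Valued.v ((z : AdeleRing (𝓞 K) K).2 v) = 1 → χ z = 1) ∧
        (Valued.v ((z : AdeleRing (𝓞 K) K).2 v) = WithZero.exp (-1 : ℤ) → χ z = ω v) :=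
  ⟨chi861 h𝔣 ω hray, continuous_chi861 h𝔣 hray, fun γ => chi861_pr h𝔣 hray γ,
    fun n hω x => chi861_pow h𝔣 hray n hω x,
    fun v hv z hz => ⟨fun h => chi861_unit h𝔣 hray v hv z hz h,
      fun h => chi861_unif h𝔣 hray v hv z hz h⟩⟩

end Fermat.Agent.LT.CFT.H861

end

end
-- ===== PACK-END LT/CFT/H861/RayChar.lean

-- ===== PACK-BEGIN LT/CFT/H1/Spec.lean
section



/-!
# Row LT, tower CFT, sub-tower REC2 (sub-architect helper1), OFF-MAIN : FROZEN INTERFACE

The reciprocity law `∑_v inv_v (x_v) = 0` for the `2`-PRIMARY part of `Br(K)`, `K = ℚ̄^U` a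
TOTALLY COMPLEX number field.  This is block REC of S55 layer G (on main,
`Fermat/Agent/S55/G/Rec`, norm route, blueprint `origin/helper1:coord/S55-G-REC.md`) with
"`p ≠ 2` / `Odd n`" replaced by "`K` has no real place".

## The hypothesis
`IsTC U` : no embedding `φ : ℚ̄ → ℂ` is real on the fixed field of `U`.  (EMBEDDING shape: for a
number field `K ⊆ ℚ̄` with `U = Gal(ℚ̄/K)` it is literally "every infinite place of `K` is
complex"; no Artin-Schreier theorem is needed to use it.  It is stable under passing to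
subgroups, `IsTC.mono`.)

## What changes with respect to main (p odd)
* STEP A (`CycloSumTCSpec`) : the sign `χ(-1)` disappears because `N_{K/ℚ}(a) > 0`
  (`NormPosSpec`, new leaf G6) and because the local norms from subfields of `ℚ_ℓ(μ_{ℓ^e})` are
  known WITHOUT sign (`LocalCycloNormSharpSpec`, new leaf L5', all primes `ℓ`, `2` included).
* STEP B (`TrivAbove2Spec`) : the character is the SQUARE of the cyclotomic character mod `2^N`
  (values in the cyclic group of squares of `(ℤ/2^N)ˣ`); input `HassePrinciple2Spec` (from G2).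
* STEP C (`KillAbove2Spec`) : auxiliary primes `r` with `ord_r(2) = 2^N` (divisors of Fermat
  numbers; main `H897.exists_prime_orderOf_eq_prime_pow'` holds for every prime `p`).

All Props below are TRUE statements (consequences of global class field theory).

PROVED here: `reciprocityTC_of` (final assembly) and `reciprocityTC_of_leaves` (the wall).
-/

set_option autoImplicit false

noncomputable section

namespace Fermat.Agent.LT.CFT.H1

open Fermat.Agent.S55.G.Rec groupCohomology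

local notation "Qb" => AlgebraicClosure ℚ
local notation "GQ" => (AlgebraicClosure ℚ ≃ₐ[ℚ] AlgebraicClosure ℚ)

/-! ## The totally complex hypothesis -/

/-- The fixed field of `U` is TOTALLY COMPLEX: no embedding `φ : ℚ̄ → ℂ` is real on it. -/
def IsTC (U : Subgroup GQ) : Prop :=
  ∀ φ : Qb →+* ℂ, ∃ a : Qb, (∀ u ∈ U, u a = a) ∧ (starRingEnd ℂ) (φ a) ≠ φ a

/-- `IsTC` passes to subgroups (= to extension fields). -/
theorem IsTC.mono {U U' : Subgroup GQ} (h : U' ≤ U) (hU : IsTC U) : IsTC U' := by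
  intro φ
  obtain ⟨a, ha, hne⟩ := hU φ
  exact ⟨a, fun u hu => ha u (h hu), hne⟩

/-- `IsTC` is invariant under conjugation (= under `K ↦ g K`). -/
theorem IsTC.conj {U : Subgroup GQ} (hU : IsTC U) (g : GQ) :
    IsTC (U.map (MulAut.conj g).toMonoidHom) := by
  intro φ
  obtain ⟨a, ha, hne⟩ := hU (φ.comp (g : Qb →+* Qb))
  refine ⟨g a, ?_, hne⟩
  rintro _ ⟨u, hu, rfl⟩
  show (g * u * g⁻¹) (g a) = g a
  have h1 : (g⁻¹ : GQ) (g a) = a := AlgEquiv.symm_apply_apply g a
  show g (u ((g⁻¹ : GQ) (g a))) = g a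
  rw [h1, ha u hu]

/-! ## IN : from the sub-tower G2 (inequalities at `p = 2`) -/

/-- **Hasse principle**, `2`-primary part, totally complex fields: a class of `2`-power order in
`Br(K)` which is trivial at all finite places is trivial.
(= main `HassePrincipleSpec 2` restricted to `IsTC U`.) -/
def HassePrinciple2Spec : Prop :=
  ∀ (U : Subgroup GQ), IsOpenQ U → IsTC U → ∀ x : gBr U, (∃ k : ℕ, 2 ^ k • x = 0) →
    (∀ (q : ℕ) [Fact q.Prime] (g : GQ), locBr q g U x = 0) → x = 0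

/-! ## New leaves -/

/-- (L5') NORMS FROM LOCAL CYCLOTOMIC FIELDS, SHARP FORM (no sign, every prime `ℓ`): `m = ℓ ^ e`,
`W ≤ G_{ℚ_ℓ}` a subgroup containing the group of `ℚ̄_ℓ/ℚ_ℓ(μ_m)`, `b` in the fixed field `E` of
`W`.  Then `N_{E/ℚ_ℓ}(b) = ℓ^k · u` with `u ≡ t mod m`, where `t` is the cyclotomic value of some
`τ ∈ W`.  (Local class field theory: `N(Eˣ) = ℓ^ℤ × {u ∈ ℤ_ℓˣ | u mod m ∈ c(W)}`.  Elementary
proof: approximate `b` by `β` in the global field `E₀ = ℚ(μ_m)^{c(W)}`; every prime `𝔮 ∤ ℓ` of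
`E₀` has norm `q^f` with `q^f mod m ∈ c(W)`; `N(β) > 0` if `E₀` is totally complex and
`-1 ∈ c(W)` otherwise.) -/
def LocalCycloNormSharpSpec : Prop :=
  ∀ (ℓ : ℕ) [Fact ℓ.Prime] (e : ℕ), 0 < e →
    ∀ W : Subgroup (PadicAlgCl ℓ ≃ₐ[ℚ_[ℓ]] PadicAlgCl ℓ),
    (∀ τ : PadicAlgCl ℓ ≃ₐ[ℚ_[ℓ]] PadicAlgCl ℓ,
      (∀ ζ : PadicAlgCl ℓ, ζ ^ (ℓ ^ e) = 1 → τ ζ = ζ) → τ ∈ W) →
    ∀ b : (PadicAlgCl ℓ)ˣ, LFixed ℓ W b →
      ∃ (k : ℤ) (t : ℕ) (τ : PadicAlgCl ℓ ≃ₐ[ℚ_[ℓ]] PadicAlgCl ℓ), τ ∈ W ∧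
        (∀ ζ : PadicAlgCl ℓ, ζ ^ (ℓ ^ e) = 1 → τ ζ = ζ ^ t) ∧
        ‖((relNorm W b : (PadicAlgCl ℓ)ˣ) : PadicAlgCl ℓ) -
            (ℓ : PadicAlgCl ℓ) ^ k * (t : PadicAlgCl ℓ)‖
          ≤ ‖(ℓ : PadicAlgCl ℓ)‖ ^ (k + e)

/-- (G6) POSITIVITY OF NORMS: for `K = ℚ̄^U` totally complex, `N_{K/ℚ}(a) > 0`.
(`relNorm U a = ∏_{t ∈ G_ℚ/U} t • a` is rational by main `OrbitNormSpec`.) -/
def NormPosSpec : Prop :=
  ∀ (U : Subgroup GQ), IsOpenQ U → IsTC U → ∀ a : Qbˣ, GFixed U a →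
    ∀ y : ℚˣ, ((relNorm U a : Qbˣ) : Qb) = algebraMap ℚ Qb (y : ℚ) → 0 < (y : ℚ)

/-! ## The three steps -/

/-- (STEP A') cyclotomic sum formula over totally complex fields: for a cup class with a
character of ANY order `n` which is cyclotomic mod `m = ℓ ^ e` (ANY prime `ℓ`), locally trivial
at all places above `ℓ`, the sum of the local invariants vanishes. -/
def CycloSumTCSpec (I : LocalInvSystem) : Prop :=
  ∀ (U : Subgroup GQ), IsOpenQ U → IsTC U → ∀ (ℓ : ℕ) [Fact ℓ.Prime] (e : ℕ), 0 < e →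
    ∀ (n : ℕ), n ≠ 0 → ∀ (χ : ↥U →* Multiplicative (ZMod n)),
    IsLevelConstant₁ U.subtype χ → IsCycloChar U (ℓ ^ e) χ →
    ∀ a : Qbˣ, GFixed U a →
    (∀ g : GQ, locBr ℓ g U (gcc U n χ a) = 0) →
    ∀ R : Nat.Primes → Finset GQ, IsPlaceReps U R → I.sumInv U R (gcc U n χ a) = 0

/-- (STEP B') classes of `2`-power order which are trivial at the places above `2`. -/
def TrivAbove2Spec (I : LocalInvSystem) : Prop :=
  ∀ (U : Subgroup GQ), IsOpenQ U → IsTC U → ∀ x : gBr U, (∃ k : ℕ, 2 ^ k • x = 0) →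
    (∀ g : GQ, locBr 2 g U x = 0) →
    ∀ R : Nat.Primes → Finset GQ, IsPlaceReps U R → I.sumInv U R x = 0

/-- (STEP C') killing the components above `2` by a cup class with vanishing sum. -/
def KillAbove2Spec (I : LocalInvSystem) : Prop :=
  ∀ (U : Subgroup GQ), IsOpenQ U → IsTC U → ∀ x : gBr U, (∃ k : ℕ, 2 ^ k • x = 0) →
    ∃ y : gBr U, (∃ k : ℕ, 2 ^ k • y = 0) ∧ (∀ g : GQ, locBr 2 g U (x - y) = 0) ∧
      ∀ R : Nat.Primes → Finset GQ, IsPlaceReps U R → I.sumInv U R y = 0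

/-! ## OUT : the deliverable -/

/-- **REC2**: the reciprocity law for the `2`-primary part of `Br(K)`, `K = ℚ̄^U` totally
complex: almost all local invariants vanish and their sum is `0`. -/
def ReciprocityTCSpec (I : LocalInvSystem) : Prop :=
  ∀ (U : Subgroup GQ), IsOpenQ U → IsTC U →
    ∀ x : gBr U, (∃ k : ℕ, 2 ^ k • x = 0) →
      ∀ R : Nat.Primes → Finset GQ, IsPlaceReps U R →
        (Function.support fun q : Nat.Primes => ∑ r ∈ R q, I.invAt q r U x).Finite ∧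
          I.sumInv U R x = 0

/-! ## The reductions (sub-leaves SA2, SB2, SC2; the other inputs are proved leaves of main) -/

/-- (SA2) STEP A' from the two new leaves.  (Copy of main `H511.cycloSum_of` with `S = 1`.) -/
def StepA2Spec : Prop :=
  LocalCycloNormSharpSpec → NormPosSpec → ∀ I : LocalInvSystem, CycloSumTCSpec I

/-- (SB2) STEP B' from the Hasse principle and STEP A'.  (Copy of main `H415.trivAboveP_of`
with the character `σ ↦ c(σ)²`, `c` the cyclotomic character mod `2^N`.) -/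
def StepB2Spec : Prop :=
  HassePrinciple2Spec → ∀ I : LocalInvSystem, CycloSumTCSpec I → TrivAbove2Spec I

/-- (SC2) STEP C' from STEP A'.  (Copy of main `H174.killAboveP_core`.) -/
def StepC2Spec : Prop :=
  ∀ I : LocalInvSystem, CycloSumTCSpec I → KillAbove2Spec I

/-! ## Final assembly (PROVED) -/

/-- **FIN2**: the reciprocity law from STEP B', STEP C' and finiteness of supports. -/
theorem reciprocityTC_of (I : LocalInvSystem)
    (hB : TrivAbove2Spec I) (hC : KillAbove2Spec I) (hS : SupportFiniteSpec) :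
    ReciprocityTCSpec I := by
  intro U hU hTC x hx R hR
  refine ⟨I.support_finite hS U hU R x, ?_⟩
  obtain ⟨y, hy, hloc, hsum⟩ := hC U hU hTC x hx
  have hxy : ∃ k : ℕ, 2 ^ k • (x - y) = 0 := by
    obtain ⟨k, hk⟩ := hx
    obtain ⟨k', hk'⟩ := hy
    refine ⟨k + k', ?_⟩
    have e1 : 2 ^ (k + k') • x = 2 ^ k' • (2 ^ k • x) := by
      rw [← mul_smul, pow_add, mul_comm]
    have e2 : 2 ^ (k + k') • y = 2 ^ k • (2 ^ k' • y) := by
      rw [← mul_smul, pow_add]
    rw [smul_sub, e1, e2, hk, hk', smul_zero, smul_zero, sub_zero]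
  have h1 : I.sumInv U R (x - y) = 0 := hB U hU hTC (x - y) hxy hloc R hR
  have h2 : I.sumInv U R y = 0 := hsum R hR
  have h3 : I.sumInv U R x = I.sumInv U R (x - y) + I.sumInv U R y := by
    rw [← I.sumInv_add hS U hU R, sub_add_cancel]
  rw [h3, h1, h2, add_zero]

/-- **THE WALL of REC2**: the reciprocity law at `p = 2` over totally complex fields from the
two new leaves (L5', G6), the input of G2 (HP2), the three reductions (SA2, SB2, SC2) and the
proved leaf G4 of main. -/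
theorem reciprocityTC_of_leaves (hL5 : LocalCycloNormSharpSpec) (hG6 : NormPosSpec)
    (hHP : HassePrinciple2Spec) (hA : StepA2Spec) (hB : StepB2Spec) (hC : StepC2Spec)
    (hS : SupportFiniteSpec) (I : LocalInvSystem) : ReciprocityTCSpec I :=
  reciprocityTC_of I (hB hHP I (hA hL5 hG6 I)) (hC I (hA hL5 hG6 I)) hS

end Fermat.Agent.LT.CFT.H1

end
end
-- ===== PACK-END LT/CFT/H1/Spec.lean

-- ===== PACK-BEGIN LT/H129/SplitSpec.lean
section


/-!
# Row LT, tower T3, leaf T3.18a.4.5 `N893.SplitC` (owner helper129): THE CUT -- OFF-MAIN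

Definitions only (frozen sub-leaf Props).  The top

    N893.SplitC K ⟸ SplitHaarC129 K + ProdHaarC129      (`splitC_of_leaves129`)
    SplitHaarC129 K ⟸ SplitOpenC129 K + SplitSectionC129 K + SplitBoxC129 K   (leaf S4)

is proved in `LT/H129/SplitTop.lean`.

## The proof of `SplitC`

`E₀ = outGrp K 𝔫 v₀ = {X : X_v ∈ 𝔫 𝒪_v for all finite v ≠ v₀}`, `H = K_{v₀} × (S_∞ → ℂ)`,
`p = splitProj129 : 𝔸_K → H`, `X ↦ (X_{v₀}, (X_w)_w)`.

* **S1** `E₀` is open (finitely many open conditions at the `v ∣ 𝔫`, integrality elsewhere: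
  `idealClosure 𝔫 v = 𝒪_v` for `v ∤ 𝔫`, asset `H129.dense_ideal129`).
* **S2** `p : E₀ → H` is onto (the adele with the given components at `v₀` and at the infinite
  places and `0` elsewhere; all infinite places are complex).
* **S3** `E₀ ∩ p⁻¹(𝒪_{v₀} × unit balls)` lies in a compact set (`T1.H919.box919 K 1`).
* **S4** `μ = p_* (ν|_{E₀})` is a Haar measure of `H`: it is invariant (S2: `p (X_h + X) = h + p X`,
  `X_h + E₀ = E₀`, `ν` invariant), positive and finite on the compact neighbourhood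
  `𝒪_{v₀} × unit balls` of `0` (S1, S3) -- `Measure.isAddHaarMeasure_of_isCompact_nonempty_interior`.
* **M2** (no number fields) a Haar measure of `A × (ι → ℂ)` is a multiple of `ν₀ × Lebesgue`
  (uniqueness of the Haar measure), and the integral of a pure tensor is the product of the
  integrals (`integral_prod_mul`, `integral_fintype_prod_eq_prod`).
* top: `∫ 1_{E₀} · (f ∘ p) dν = ∫ f dμ` (`integral_map`).
-/

set_option autoImplicit false
set_option linter.style.haveILetI false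

open IsDedekindDomain NumberField MeasureTheory
open Fermat.Agent.LT.H556.A0 Fermat.Agent.LT.T3.AS Fermat.Agent.LT.T3.AS.N893

noncomputable section

namespace Fermat.Agent.LT.H129

variable (K : Type) [Field K] [NumberField K]

/-- The projection `X ↦ (X_{v₀}, (X_w)_w)` of `𝔸_K` onto `K_{v₀} × (S_∞ → ℂ)`. -/
def splitProj129 (v₀ : HeightOneSpectrum (𝓞 K)) (X : Adl K) :
    v₀.adicCompletion K × (InfinitePlace K → ℂ) :=
  (finHom K v₀ X, fun w => infHom K w X)

/-- **S1.**  `E₀` is open in `𝔸_K`. -/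
def SplitOpenC129 : Prop :=
  ∀ 𝔫 : Ideal (𝓞 K), 𝔫 ≠ ⊥ → ∀ v₀ : HeightOneSpectrum (𝓞 K), IsOpen (outGrp K 𝔫 v₀)

/-- **S2.**  Every element of `K_{v₀} × (S_∞ → ℂ)` is the projection of an element of `E₀`
(`K` totally complex). -/
def SplitSectionC129 : Prop :=
  (∀ w : InfinitePlace K, w.IsComplex) →
  ∀ (𝔫 : Ideal (𝓞 K)) (v₀ : HeightOneSpectrum (𝓞 K)) (x₀ : v₀.adicCompletion K)
    (z : InfinitePlace K → ℂ),
    ∃ X : Adl K, X ∈ outGrp K 𝔫 v₀ ∧ finHom K v₀ X = x₀ ∧ ∀ w, infHom K w X = z w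

/-- **S3.**  The elements of `E₀` which are integral at `v₀` and of norm `≤ 1` at the infinite
places lie in a compact set. -/
def SplitBoxC129 : Prop :=
  ∀ (𝔫 : Ideal (𝓞 K)) (v₀ : HeightOneSpectrum (𝓞 K)),
    ∃ D : Set (Adl K), IsCompact D ∧ ∀ X ∈ outGrp K 𝔫 v₀,
      Valued.v (finHom K v₀ X) ≤ 1 → (∀ w : InfinitePlace K, ‖infHom K w X‖ ≤ 1) → X ∈ D

/-- **S4.**  The image of `ν|_{E₀}` under the projection is a Haar measure of
`K_{v₀} × (S_∞ → ℂ)` (Borel σ-algebra on `𝔸_K` and on `K_{v₀}`, the standard one on `ℂ`). -/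
def SplitHaarC129 : Prop :=
  letI : MeasurableSpace (Adl K) := borel (Adl K)
  (∀ w : InfinitePlace K, w.IsComplex) →
  ∀ ν : Measure (Adl K), ν.IsAddHaarMeasure →
  ∀ 𝔫 : Ideal (𝓞 K), 𝔫 ≠ ⊥ → ∀ v₀ : HeightOneSpectrum (𝓞 K),
    letI : MeasurableSpace (v₀.adicCompletion K) := borel (v₀.adicCompletion K)
    (Measure.map (splitProj129 K v₀) (ν.restrict (outGrp K 𝔫 v₀))).IsAddHaarMeasure

/-- **M2 (no number fields).**  A Haar measure of `A × (ι → ℂ)` (`A` a locally compact,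
second countable, Hausdorff commutative topological group with its Borel σ-algebra, `ι` finite)
integrates pure tensors of continuous functions with compact support to the product of the
integrals, up to a constant. -/
def ProdHaarC129 : Prop :=
  ∀ (A : Type) [AddCommGroup A] [TopologicalSpace A] [IsTopologicalAddGroup A]
    [LocallyCompactSpace A] [T2Space A] [SecondCountableTopology A] (ι : Type) [Fintype ι],
    letI : MeasurableSpace A := borel A
    ∀ μ : Measure (A × (ι → ℂ)), μ.IsAddHaarMeasure →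
      ∃ ν₀ : Measure A, ν₀.IsAddHaarMeasure ∧ ∃ c₀ : ℂ,
        ∀ (φ₀ : A → ℂ) (φ : ι → ℂ → ℂ), Continuous φ₀ → HasCompactSupport φ₀ →
          (∀ w, Continuous (φ w)) → (∀ w, HasCompactSupport (φ w)) →
          Integrable (fun h : A × (ι → ℂ) => φ₀ h.1 * ∏ w : ι, φ w (h.2 w)) μ ∧
          ∫ h, φ₀ h.1 * ∏ w : ι, φ w (h.2 w) ∂μ
            = c₀ * (∫ x, φ₀ x ∂ν₀) * ∏ w : ι, ∫ z : ℂ, φ w z

end Fermat.Agent.LT.H129

end

end
-- ===== PACK-END LT/H129/SplitSpec.lean

-- ===== PACK-BEGIN LT/H556/A6.lean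
section



/-!
# Row LT, WALL: leaf `A6_556` is PROVED (helper556)

`a6_556 : WT.A6_556` (unfold `A0.IsCuspHolQ`, read `BotData` at the primes whose Frobenius lies in
`Q8`, absorb the exceptional primes by helper670's `deplWC`), hence
`wall_of_four556 : A2_556 → A3c_556 → A3q_556 → PAR556 → LTB.WallC`.  OFF-MAIN.
-/

set_option autoImplicit false

open AutomorphicForm IsDedekindDomain NumberField

noncomputable section

namespace Fermat.Agent.LT.H556.WT

open Fermat.Agent.LT.H130 Fermat.Agent.LT.H670 Fermat.Agent.LT.H556 Fermat.Agent.LT.H556.I670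

local notation "Γℚ" => (AlgebraicClosure ℚ ≃ₐ[ℚ] AlgebraicClosure ℚ)

/-- **A6: PROVED.** -/
theorem a6_556 : A6_556 := by
  classical
  intro ρ Ψ ι _ hHol
  obtain ⟨π, ⟨-, N, hN, ε, f, ⟨hf1, hrel⟩, -, hmatch⟩, S, hS⟩ := hHol
  apply deplWC ρ Ψ
  refine ⟨N, hN, ε, f, ι, S ∪ Finset.range (N + 1), hf1, hrel, ?_⟩
  intro p hp hpS A hA σ hσ hdet h4
  rw [Finset.mem_union, not_or] at hpS
  have hpN : ¬ p ∣ N := by
    intro hdvd
    have hle := Nat.le_of_dvd (Nat.pos_of_ne_zero (NeZero.ne N)) hdvd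
    exact hpS.2 (Finset.mem_range.2 (Nat.lt_succ_of_le hle))
  have hmem : ((p : ℕ) : 𝓞 ℚ) ∈ (ratPrime ⟨p, hp⟩).asIdeal := by
    rw [natCast_mem_ratPrime_iff]
  have hnot : (N : 𝓞 ℚ) ∉ (ratPrime ⟨p, hp⟩).asIdeal := by
    rw [natCast_mem_ratPrime_iff]
    exact hpN
  have hdata := (hS p hp hpS.1 A hA σ hσ (ratPrime ⟨p, hp⟩) hmem).1
  have hQ8 : InQ8 (ρ σ) := ⟨hdet, h4⟩
  have hSL : ordSL (ρ σ) = 1 := by
    unfold ordSL
    rw [if_pos hdet]
  have hO : ordQ8 (ρ σ) = 1 := by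
    unfold ordQ8
    rw [if_pos hQ8]
  rw [hSL, pow_one, hO, pow_one, satakePow_one, satakePow_one] at hdata
  have ha := (hmatch (ratPrime ⟨p, hp⟩) hnot).1
  rw [absNorm_ratPrime] at ha
  rw [← ha, hdata, pow_one]
  rfl

/-- **THE WALL from FOUR leaves** (archimedean type tracked; dictionary proved). -/
theorem wall_of_four556 (h2 : A2_556) (h3c : A3c_556) (h3q : A3q_556) (hpar : PAR556) :
    LTB.WallC :=
  wall_of_leaves556 h2 h3c h3q hpar a6_556

end Fermat.Agent.LT.H556.WT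

end

end
-- ===== PACK-END LT/H556/A6.lean

-- ===== PACK-BEGIN LT/T1/H54/SVMeasure.lean
section



/-!
# Row LT, tower T1, leaf T1.17 (helper54): the measure of a Siegel set, by dyadic tiling

OFF-MAIN.  No Iwasawa integration formula, no Fubini: only left invariance of the Haar measure,
finiteness on compact sets and the disjointness lemma `inf_coord_eq_of_pMap_eq54`.

`siegelSet54 e Zc Yc D = ⋃ j, e j · P(Zc, Yc, D · ray(4^{-j}), K⁰)` is Borel of finite Haar measure,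
for ANY sequence `e j` of group elements and compact `Zc, Yc ⊂ 𝔸ˣ`, `D ⊂ 𝔸`.
-/

set_option autoImplicit false

open IsDedekindDomain NumberField MeasureTheory
open scoped MatrixGroups ENNReal

noncomputable section

namespace Fermat.Agent.LT.T1.H54

open Fermat.Agent.LT.H556.A0 Fermat.Agent.LT.T1 Fermat.Agent.LT.T1.H793 Fermat.Agent.LT.T1.H919

variable {K : Type} [Field K] [NumberField K]

/-- The piece `P(Zc, Yc, D · ray(4^{-j}), K⁰)`. -/
def piece54 (Zc Yc : Set (Adl K)ˣ) (D : Set (Adl K)) (j : ℕ) : Set (G K) :=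
  (fun p : (Adl K)ˣ × (Adl K)ˣ × Adl K × G K => pMap54 p.1 p.2.1 p.2.2.1 p.2.2.2) ''
    (Zc ×ˢ Yc ×ˢ ((fun d : Adl K => d * rayAdl919 K (((4 : ℝ) ^ j)⁻¹)) '' D) ×ˢ
      {k : G K | IsStdCompact K k})

/-- The Siegel set `⋃ j, e j · piece j`. -/
def siegelSet54 (e : ℕ → G K) (Zc Yc : Set (Adl K)ˣ) (D : Set (Adl K)) : Set (G K) :=
  ⋃ j : ℕ, (fun h : G K => e j * h) '' piece54 Zc Yc D j

lemma isCompact_piece54 {Zc Yc : Set (Adl K)ˣ} {D : Set (Adl K)} (hZ : IsCompact Zc)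
    (hY : IsCompact Yc) (hD : IsCompact D) (j : ℕ) : IsCompact (piece54 Zc Yc D j) := by
  unfold piece54
  refine IsCompact.image ?_ continuous_pMap54
  refine hZ.prod (hY.prod (IsCompact.prod ?_ isCompact_stdCompact919))
  exact hD.image (continuous_id.mul continuous_const)

/-- A bound for the infinite components on a compact set of adeles. -/
lemma exists_bound54 {D : Set (Adl K)} (hD : IsCompact D) :
    ∃ R : ℝ, 0 < R ∧ ∀ d ∈ D, ∀ w : InfinitePlace K, ‖d.1 w‖ ≤ R := by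
  have hc : Continuous (fun d : Adl K => ∑ w : InfinitePlace K, ‖d.1 w‖) :=
    continuous_finsetSum _ (fun w _ => (continuous_projInf919 w).norm)
  obtain ⟨C, hC⟩ := hD.exists_bound_of_continuousOn hc.continuousOn
  refine ⟨max C 1, lt_of_lt_of_le one_pos (le_max_right _ _), fun d hd w => ?_⟩
  have h1 : ‖d.1 w‖ ≤ ∑ w' : InfinitePlace K, ‖d.1 w'‖ :=
    Finset.single_le_sum (f := fun w' : InfinitePlace K => ‖d.1 w'‖)
      (fun _ _ => norm_nonneg _) (Finset.mem_univ w)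
  have h2 := hC d hd
  rw [Real.norm_eq_abs] at h2
  exact le_trans h1 (le_trans (le_trans (le_abs_self _) h2) (le_max_left _ _))

lemma tAdl54_sub (θ θ' : ℝ) (w : InfinitePlace K) :
    (tAdl54 K θ).1 w - (tAdl54 K θ').1 w = realTo919 w (θ - θ') := by
  rw [tAdl54_inf, tAdl54_inf, map_sub]

/-- THE TILING ESTIMATE. -/
theorem measure_piece_le54 [MeasurableSpace (G K)] [BorelSpace (G K)]
    (μ : Measure (G K)) [μ.IsHaarMeasure] [T2Space (G K)]
    {Zc Yc : Set (Adl K)ˣ} {D : Set (Adl K)} (hZ : IsCompact Zc) (hY : IsCompact Yc)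
    (hD : IsCompact D) :
    ∃ M : ℝ≥0∞, M < ⊤ ∧ ∀ j : ℕ, μ (piece54 Zc Yc D j) ≤ ((4 : ℝ≥0∞)⁻¹) ^ j * M := by
  obtain ⟨R, hR, hRD⟩ := exists_bound54 hD
  -- the big compact set
  set D' : Set (Adl K) :=
    (fun p : Adl K × ℝ × ℝ => p.1 * rayAdl919 K p.2.1 + tAdl54 K p.2.2) ''
      (D ×ˢ Set.Icc (0 : ℝ) 1 ×ˢ Set.Icc (0 : ℝ) (3 * R)) with hD'
  have hD'c : IsCompact D' := by
    refine (hD.prod (isCompact_Icc.prod isCompact_Icc)).image ?_
    exact (continuous_fst.mul (continuous_rayAdl919.comp (continuous_fst.comp continuous_snd))).add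
      (continuous_tAdl54.comp (continuous_snd.comp continuous_snd))
  set Y' : Set (G K) :=
    (fun p : (Adl K)ˣ × (Adl K)ˣ × Adl K × G K => pMap54 p.1 p.2.1 p.2.2.1 p.2.2.2) ''
      (Zc ×ˢ Yc ×ˢ D' ×ˢ {k : G K | IsStdCompact K k}) with hY'
  have hY'c : IsCompact Y' :=
    (hZ.prod (hY.prod (hD'c.prod isCompact_stdCompact919))).image continuous_pMap54
  refine ⟨μ Y', hY'c.measure_lt_top, fun j => ?_⟩
  -- the translates
  have h4 : (0 : ℝ) < (4 : ℝ) ^ j := by positivity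
  set θ : ℕ → ℝ := fun i => 3 * R * i / (4 : ℝ) ^ j with hθ
  set T : ℕ → Set (G K) := fun i =>
    (fun h : G K => up919 (1 : (Adl K)ˣ) (tAdl54 K (θ i)) * h) '' piece54 Zc Yc D j with hT
  have hTc : ∀ i, IsCompact (T i) := fun i =>
    (isCompact_piece54 hZ hY hD j).image (continuous_const.mul continuous_id)
  have hTm : ∀ i, μ (T i) = μ (piece54 Zc Yc D j) := by
    intro i
    rw [hT]
    simp only
    rw [Set.image_mul_left, measure_preimage_mul]
  have hTsub : ∀ i ∈ Finset.range (4 ^ j), T i ⊆ Y' := by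
    intro i hi
    rintro _ ⟨_, ⟨⟨z, y, u, k⟩, ⟨hz, hy, ⟨d, hd, rfl⟩, hk⟩, rfl⟩, rfl⟩
    simp only
    rw [up_one_mul_pMap54]
    refine ⟨(z, y, d * rayAdl919 K (((4 : ℝ) ^ j)⁻¹) + tAdl54 K (θ i), k),
      ⟨hz, hy, ⟨(d, ((4 : ℝ) ^ j)⁻¹, θ i), ⟨hd, ⟨?_, ?_⟩, ⟨?_, ?_⟩⟩, rfl⟩, hk⟩, rfl⟩
    · exact inv_nonneg.2 h4.le
    · exact inv_le_one_of_one_le₀ (one_le_pow₀ (by norm_num))
    · rw [hθ]; positivity
    · rw [hθ]
      simp only
      rw [div_le_iff₀ h4]
      have hi' : (i : ℝ) ≤ (4 : ℝ) ^ j := by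
        have := (Finset.mem_range.1 hi).le
        exact_mod_cast this
      nlinarith
  have hTdisj : ((Finset.range (4 ^ j) : Finset ℕ) : Set ℕ).PairwiseDisjoint T := by
    intro i _ i' _ hii'
    rw [Function.onFun, Set.disjoint_left]
    rintro _ ⟨_, ⟨⟨z, y, u, k⟩, ⟨-, -, ⟨d, hd, rfl⟩, hk⟩, rfl⟩, rfl⟩
      ⟨_, ⟨⟨z', y', u', k'⟩, ⟨-, -, ⟨d', hd', rfl⟩, hk'⟩, rfl⟩, hEq⟩
    simp only at hEq
    rw [up_one_mul_pMap54, up_one_mul_pMap54] at hEq
    obtain ⟨w⟩ : Nonempty (InfinitePlace K) := inferInstance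
    have hw := inf_coord_eq_of_pMap_eq54 hk' hk hEq w
    -- compare the norms
    have e1 : ∀ (a : Adl K) (τ : ℝ), (a * rayAdl919 K τ + tAdl54 K (θ i)).1 w
        = a.1 w * realTo919 w τ + (tAdl54 K (θ i)).1 w := fun _ _ => rfl
    have e2 : ∀ (a : Adl K) (τ : ℝ), (a * rayAdl919 K τ + tAdl54 K (θ i')).1 w
        = a.1 w * realTo919 w τ + (tAdl54 K (θ i')).1 w := fun _ _ => rfl
    rw [e2, e1] at hw
    have hdiff : realTo919 w (θ i' - θ i)
        = d.1 w * realTo919 w (((4 : ℝ) ^ j)⁻¹) - d'.1 w * realTo919 w (((4 : ℝ) ^ j)⁻¹) := by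
      rw [← tAdl54_sub]
      linear_combination hw
    have hn : ‖realTo919 w (θ i' - θ i)‖ = ‖d.1 w * realTo919 w (((4 : ℝ) ^ j)⁻¹)
        - d'.1 w * realTo919 w (((4 : ℝ) ^ j)⁻¹)‖ := by rw [hdiff]
    rw [norm_realTo919] at hn
    have hb : ‖d.1 w * realTo919 w (((4 : ℝ) ^ j)⁻¹) - d'.1 w * realTo919 w (((4 : ℝ) ^ j)⁻¹)‖
        ≤ 2 * R * ((4 : ℝ) ^ j)⁻¹ := by
      refine le_trans (norm_sub_le _ _) ?_
      rw [norm_mul, norm_mul, norm_realTo919, abs_of_pos (inv_pos.2 h4)]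
      have := hRD d hd w
      have := hRD d' hd' w
      have h4i : 0 ≤ ((4 : ℝ) ^ j)⁻¹ := inv_nonneg.2 h4.le
      nlinarith
    have hθd : θ i' - θ i = 3 * R * ((i' : ℝ) - i) * ((4 : ℝ) ^ j)⁻¹ := by
      rw [hθ]; field_simp
    have hge : 3 * R * ((4 : ℝ) ^ j)⁻¹ ≤ |θ i' - θ i| := by
      rw [hθd, abs_mul, abs_mul, abs_of_pos (inv_pos.2 h4), abs_of_pos (by positivity : 0 < 3 * R)]
      have hi1 : (1 : ℝ) ≤ |(i' : ℝ) - i| := by
        have : (i' : ℤ) - i ≠ 0 := by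
          intro h
          apply hii'
          omega
        have h1 : (1 : ℤ) ≤ |(i' : ℤ) - i| := Int.one_le_abs this
        have h2 : ((|(i' : ℤ) - i| : ℤ) : ℝ) = |(i' : ℝ) - i| := by push_cast; rfl
        rw [← h2]
        exact_mod_cast h1
      have h4i : 0 < ((4 : ℝ) ^ j)⁻¹ := inv_pos.2 h4
      calc 3 * R * ((4 : ℝ) ^ j)⁻¹ = 3 * R * 1 * ((4 : ℝ) ^ j)⁻¹ := by ring
        _ ≤ 3 * R * |(i' : ℝ) - i| * ((4 : ℝ) ^ j)⁻¹ := by gcongr
    have h4i : 0 < ((4 : ℝ) ^ j)⁻¹ := inv_pos.2 h4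
    rw [hn] at hge
    have hRi : 0 < R * ((4 : ℝ) ^ j)⁻¹ := mul_pos hR h4i
    nlinarith
  have hsum : μ (⋃ i ∈ Finset.range (4 ^ j), T i)
      = ∑ i ∈ Finset.range (4 ^ j), μ (T i) :=
    measure_biUnion_finset hTdisj (fun i _ => (hTc i).isClosed.measurableSet)
  have hle : μ (⋃ i ∈ Finset.range (4 ^ j), T i) ≤ μ Y' :=
    measure_mono (Set.iUnion₂_subset hTsub)
  rw [hsum, Finset.sum_congr rfl (fun i _ => hTm i), Finset.sum_const, Finset.card_range,
    nsmul_eq_mul] at hle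
  have h4ne : ((4 : ℝ≥0∞) ^ j) ≠ 0 := by positivity
  have h4top : ((4 : ℝ≥0∞) ^ j) ≠ ⊤ := ENNReal.pow_ne_top (by norm_num)
  have hcast : ((4 ^ j : ℕ) : ℝ≥0∞) = (4 : ℝ≥0∞) ^ j := by push_cast; rfl
  rw [hcast] at hle
  calc μ (piece54 Zc Yc D j)
      = ((4 : ℝ≥0∞) ^ j)⁻¹ * ((4 : ℝ≥0∞) ^ j * μ (piece54 Zc Yc D j)) := by
        rw [← mul_assoc, ENNReal.inv_mul_cancel h4ne h4top, one_mul]
    _ ≤ ((4 : ℝ≥0∞) ^ j)⁻¹ * μ Y' := by gcongr
    _ = ((4 : ℝ≥0∞)⁻¹) ^ j * μ Y' := by rw [ENNReal.inv_pow]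

/-- The Siegel set is Borel of finite measure. -/
theorem siegelSet_finite54 [MeasurableSpace (G K)] [BorelSpace (G K)]
    (μ : Measure (G K)) [μ.IsHaarMeasure] [T2Space (G K)]
    (e : ℕ → G K) {Zc Yc : Set (Adl K)ˣ} {D : Set (Adl K)} (hZ : IsCompact Zc)
    (hY : IsCompact Yc) (hD : IsCompact D) :
    MeasurableSet (siegelSet54 e Zc Yc D) ∧ μ (siegelSet54 e Zc Yc D) < ⊤ := by
  constructor
  · refine MeasurableSet.iUnion (fun j => ?_)
    exact ((isCompact_piece54 hZ hY hD j).image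
      (continuous_const.mul continuous_id)).isClosed.measurableSet
  · obtain ⟨M, hM, hle⟩ := measure_piece_le54 μ hZ hY hD
    have h1 : ∀ j, μ ((fun h : G K => e j * h) '' piece54 Zc Yc D j)
        ≤ ((4 : ℝ≥0∞)⁻¹) ^ j * M := by
      intro j
      rw [Set.image_mul_left, measure_preimage_mul]
      exact hle j
    calc μ (siegelSet54 e Zc Yc D)
        ≤ ∑' j, μ ((fun h : G K => e j * h) '' piece54 Zc Yc D j) := measure_iUnion_le _
      _ ≤ ∑' j : ℕ, ((4 : ℝ≥0∞)⁻¹) ^ j * M := ENNReal.tsum_le_tsum h1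
      _ = (1 - (4 : ℝ≥0∞)⁻¹)⁻¹ * M := by rw [ENNReal.tsum_mul_right, ENNReal.tsum_geometric]
      _ < ⊤ := by
        refine ENNReal.mul_lt_top ?_ hM
        rw [ENNReal.inv_lt_top, tsub_pos_iff_lt]
        exact ENNReal.inv_lt_one.2 (by norm_num)

end Fermat.Agent.LT.T1.H54

end

end
-- ===== PACK-END LT/T1/H54/SVMeasure.lean

-- ===== PACK-BEGIN LT/T2/H793/Cpt.lean
section



/-!
# Row LT, tower T2, leaf T2.03a.4 `LeafCpt` (helper793, OFF-MAIN)

Four compactness facts in `𝔸_K` and `GL₂(𝔸_K)`: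
`leafCpt793 K : H511.LeafCpt K`, VERBATIM vs `LT/T2/H511/FDSpec.lean`
(helper511@94e516506, sha256 ad79b18a).  Topology only; the hypothesis `T1.T1Out K` is not used.
-/

set_option autoImplicit false

open IsDedekindDomain NumberField Topology
open Fermat.Agent.LT.H556.A0
open Fermat.Agent.LT.T2 Fermat.Agent.LT.T2.H386 Fermat.Agent.LT.T2.H511

noncomputable section

namespace Fermat.Agent.LT.T2.H793

variable {K : Type} [Field K] [NumberField K]

/-! ## (1) conjugates -/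

/-- `u ↦ n(u)` is continuous into `GL₂(𝔸_K)`. -/
lemma continuous_unip386_793 : Continuous (unip386 : Adl K → G K) := by
  rw [Units.continuous_iff]
  constructor
  · have h : (Units.val ∘ (unip386 : Adl K → G K))
        = fun u : Adl K => (!![1, u; 0, 1] : Matrix (Fin 2) (Fin 2) (Adl K)) := rfl
    rw [h]
    refine continuous_matrix (fun i j => ?_)
    fin_cases i <;> fin_cases j
    · exact continuous_const
    · exact continuous_id
    · exact continuous_const
    · exact continuous_const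
  · have h : (fun u : Adl K => (((unip386 u : G K)⁻¹ : G K) :
          Matrix (Fin 2) (Fin 2) (Adl K)))
        = fun u : Adl K => (!![1, -u; 0, 1] : Matrix (Fin 2) (Fin 2) (Adl K)) := rfl
    rw [h]
    refine continuous_matrix (fun i j => ?_)
    fin_cases i <;> fin_cases j
    · exact continuous_const
    · exact continuous_neg
    · exact continuous_const
    · exact continuous_const

lemma isCompact_conjSet793 (Ω : Set (G K)) (hΩ : IsCompact Ω) (𝒰 : Set (Adl K))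
    (h𝒰 : IsCompact 𝒰) : IsCompact (conjSet511 Ω 𝒰) := by
  have hcont : Continuous (fun p : G K × Adl K => p.1⁻¹ * unip386 p.2 * p.1) :=
    ((continuous_fst.inv).mul (continuous_unip386_793.comp continuous_snd)).mul continuous_fst
  have himg := (hΩ.prod h𝒰).image hcont
  have hset : (fun p : G K × Adl K => p.1⁻¹ * unip386 p.2 * p.1) '' (Ω ×ˢ 𝒰)
      = conjSet511 Ω 𝒰 := by
    ext g
    constructor
    · rintro ⟨⟨ω, u⟩, ⟨hω, hu⟩, rfl⟩
      exact ⟨ω, hω, u, hu, rfl⟩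
    · rintro ⟨ω, hω, u, hu, rfl⟩
      exact ⟨(ω, u), ⟨hω, hu⟩, rfl⟩
  rw [← hset]
  exact himg

/-! ## (2) boundedness at infinity -/

lemma bounded_inf793 (𝒟 : Set (Adl K)) (h𝒟 : IsCompact 𝒟) :
    ∃ R : ℝ, 0 ≤ R ∧ ∀ v ∈ 𝒟, ∀ w : InfinitePlace K, ‖v.1 w‖ ≤ R := by
  have h : ∀ w : InfinitePlace K, ∃ C : ℝ, ∀ v ∈ 𝒟, ‖v.1 w‖ ≤ C := by
    intro w
    have hc : Continuous (fun v : Adl K => v.1 w) := (continuous_apply w).comp continuous_fst
    exact h𝒟.exists_bound_of_continuousOn hc.continuousOn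
  choose C hC using h
  refine ⟨∑ w : InfinitePlace K, |C w|, Finset.sum_nonneg (fun w _ => abs_nonneg _), ?_⟩
  intro v hv w
  calc ‖v.1 w‖ ≤ C w := hC w v hv
    _ ≤ |C w| := le_abs_self _
    _ ≤ ∑ w : InfinitePlace K, |C w| :=
      Finset.single_le_sum (f := fun w => |C w|) (fun w _ => abs_nonneg _) (Finset.mem_univ w)

/-! ## (3) the box -/

omit [NumberField K] in
lemma isCompact_ballInf793 (w : InfinitePlace K) (R : ℝ) :
    IsCompact {x : w.Completion | ‖x‖ ≤ R} := by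
  have hiso := InfinitePlace.Completion.isometry_extensionEmbedding w
  have hemb : IsClosedEmbedding (InfinitePlace.Completion.extensionEmbedding w) :=
    hiso.isClosedEmbedding
  have hc : IsCompact (Metric.closedBall (0 : ℂ) R) := isCompact_closedBall 0 R
  have := hemb.isCompact_preimage hc
  have hset : (InfinitePlace.Completion.extensionEmbedding w) ⁻¹' Metric.closedBall (0 : ℂ) R
      = {x : w.Completion | ‖x‖ ≤ R} := by
    ext x
    simp only [Set.mem_preimage, Metric.mem_closedBall, dist_zero_right]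
    have hn : ‖InfinitePlace.Completion.extensionEmbedding w x‖ = ‖x‖ := by
      have := hiso.dist_eq x 0
      rwa [map_zero, dist_zero_right, dist_zero_right] at this
    rw [hn]
    exact Iff.rfl
  rwa [hset] at this

omit [NumberField K] in
lemma isCompact_piBallInf793 (R : ℝ) :
    IsCompact {x : InfiniteAdeleRing K | ∀ w : InfinitePlace K, ‖x w‖ ≤ R} := by
  have h := isCompact_univ_pi (fun w : InfinitePlace K => isCompact_ballInf793 w R)
  have hset : (Set.univ.pi fun w : InfinitePlace K => {x : w.Completion | ‖x‖ ≤ R})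
      = {x : InfiniteAdeleRing K | ∀ w : InfinitePlace K, ‖x w‖ ≤ R} := by
    ext x
    simp only [Set.mem_pi, Set.mem_univ, true_implies]
    exact Iff.rfl
  rw [← hset]
  exact h

lemma isCompact_box511_793 (𝒟 : Set (Adl K)) (h𝒟 : IsCompact 𝒟) (R : ℝ) (m : ℕ) :
    IsCompact (box511 𝒟 R m) := by
  have hc : Continuous (fun v : Adl K => ((m : Adl K) * v).2) :=
    continuous_snd.comp (continuous_const.mul continuous_id)
  have h2 := h𝒟.image hc
  have h := (isCompact_piBallInf793 (K := K) R).prod h2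
  have hset : box511 𝒟 R m
      = ({x : InfiniteAdeleRing K | ∀ w : InfinitePlace K, ‖x w‖ ≤ R} ×ˢ
          ((fun v : Adl K => ((m : Adl K) * v).2) '' 𝒟) :
          Set (InfiniteAdeleRing K × FiniteAdeleRing (𝓞 K) K)) := by
    ext u
    constructor
    · rintro ⟨h1, v, hv, h2⟩
      exact ⟨h1, v, hv, h2.symm⟩
    · rintro ⟨h1, v, hv, h2⟩
      exact ⟨h1, v, hv, h2.symm⟩
  rw [hset]
  exact h

/-! ## (4) sums -/

lemma sumsLE_zero793 (𝒟 : Set (Adl K)) : sumsLE511 𝒟 0 = {0} := by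
  ext y
  constructor
  · rintro ⟨l, hl, -, rfl⟩
    have : l = [] := List.length_eq_zero_iff.1 (Nat.le_zero.1 hl)
    subst this
    simp
  · intro hy
    rw [Set.mem_singleton_iff] at hy
    subst hy
    exact ⟨[], le_rfl, fun v hv => absurd hv (List.not_mem_nil), rfl⟩

lemma sumsLE_succ793 (𝒟 : Set (Adl K)) (M : ℕ) :
    sumsLE511 𝒟 (M + 1)
      = sumsLE511 𝒟 M ∪ (fun p : Adl K × Adl K => p.1 + p.2) '' (𝒟 ×ˢ sumsLE511 𝒟 M) := by
  ext y
  constructor
  · rintro ⟨l, hl, hmem, rfl⟩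
    rcases l with _ | ⟨a, l'⟩
    · left
      exact ⟨[], Nat.zero_le _, fun v hv => absurd hv (List.not_mem_nil), rfl⟩
    · right
      refine ⟨(a, l'.sum), ⟨hmem a (List.mem_cons_self), l', ?_, ?_, rfl⟩, ?_⟩
      · simpa using hl
      · intro v hv
        exact hmem v (List.mem_cons_of_mem _ hv)
      · simp
  · rintro (⟨l, hl, hmem, rfl⟩ | ⟨⟨a, b⟩, ⟨ha, l, hl, hmem, hb⟩, rfl⟩)
    · exact ⟨l, Nat.le_succ_of_le hl, hmem, rfl⟩
    · simp only at hb
      subst hb
      refine ⟨a :: l, by simpa using hl, ?_, by simp⟩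
      intro v hv
      rcases List.mem_cons.1 hv with rfl | hv'
      · exact ha
      · exact hmem v hv'

lemma isCompact_sumsLE793 (𝒟 : Set (Adl K)) (h𝒟 : IsCompact 𝒟) (M : ℕ) :
    IsCompact (sumsLE511 𝒟 M) := by
  induction M with
  | zero =>
    rw [sumsLE_zero793]
    exact isCompact_singleton
  | succ M ih =>
    rw [sumsLE_succ793]
    exact ih.union ((h𝒟.prod ih).image (continuous_fst.add continuous_snd))

/-! ## The leaf -/

/-- The four compactness facts. -/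
theorem cptC793 (K : Type) [Field K] [NumberField K] : CptC K :=
  ⟨fun Ω hΩ 𝒰 h𝒰 => isCompact_conjSet793 Ω hΩ 𝒰 h𝒰,
    fun 𝒟 h𝒟 => bounded_inf793 𝒟 h𝒟,
    fun 𝒟 h𝒟 R m => isCompact_box511_793 𝒟 h𝒟 R m,
    fun 𝒟 h𝒟 M => isCompact_sumsLE793 𝒟 h𝒟 M⟩

/-- **T2.03a.4 = `LeafCpt`**, verbatim. -/
theorem leafCpt793 (K : Type) [Field K] [NumberField K] : LeafCpt K :=
  fun _ => cptC793 K

end Fermat.Agent.LT.T2.H793

end

end
-- ===== PACK-END LT/T2/H793/Cpt.lean

-- ===== PACK-BEGIN LT/T2/H879/StripLocal.lean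
section




/-!
# Row LT, tower T2, sub-leaf T2.10.15 `HeckeStripC` (helper879): LOCAL ALGEBRA, OFF-MAIN

Elementary divisors of integral matrices of `GL₂(K_v)` whose determinant has valuation
`exp (-1)` or `exp (-2)`, from the Cartan decomposition `cartan129` of helper129
(byte-identical copies of `LT/H129/*.lean`, helper129@6c248c692).
-/

set_option autoImplicit false

open IsDedekindDomain NumberField
open Fermat.Agent.LT.H556.A0 Fermat.Agent.LT.H129

noncomputable section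

namespace Fermat.Agent.LT.T2.H879

variable {K : Type} [Field K] [NumberField K] {v : HeightOneSpectrum (𝓞 K)}

theorem mem_int_iff879 {x : v.adicCompletion K} :
    x ∈ v.adicCompletionIntegers K ↔ Valued.v x ≤ 1 :=
  HeightOneSpectrum.mem_adicCompletionIntegers (𝓞 K) K v

/-- In a linearly ordered commutative group with zero: `a ≤ 1`, `b ≤ 1`, `a b = 1` give `a = 1`. -/
theorem eq_one_of_mul_eq_one879 {a b : WithZero (Multiplicative ℤ)} (ha : a ≤ 1) (hb : b ≤ 1)
    (hab : a * b = 1) : a = 1 := by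
  refine le_antisymm ha ?_
  calc (1 : WithZero (Multiplicative ℤ)) = a * b := hab.symm
    _ ≤ a * 1 := mul_le_mul' le_rfl hb
    _ = a := mul_one a

/-- The determinant of an element of `GL₂(𝒪_v)` is a unit. -/
theorem val_det_maxCpt879 {k : GL (Fin 2) (v.adicCompletion K)}
    (hk : IsMaxCpt129 (v.adicCompletionIntegers K) k) :
    Valued.v (k : Matrix (Fin 2) (Fin 2) (v.adicCompletion K)).det = 1 := by
  have h1 := mem_int_iff879.mp (det_mem_of_isInt129 hk.1)
  have h2 := mem_int_iff879.mp (det_mem_of_isInt129 hk.2)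
  have h3 : (k : Matrix (Fin 2) (Fin 2) (v.adicCompletion K)).det
      * ((k⁻¹ : GL (Fin 2) (v.adicCompletion K)) :
          Matrix (Fin 2) (Fin 2) (v.adicCompletion K)).det = 1 := by
    rw [← Matrix.det_mul, ← Matrix.GeneralLinearGroup.coe_mul, mul_inv_cancel]
    simp
  have h4 := congrArg (Valued.v : v.adicCompletion K → WithZero (Multiplicative ℤ)) h3
  rw [map_mul, map_one] at h4
  exact eq_one_of_mul_eq_one879 h1 h2 h4

theorem coe_diag129_879 {F : Type*} [Field F] (x y : F) (hx : x ≠ 0) (hy : y ≠ 0) :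
    ((diag129 x y hx hy : GL (Fin 2) F) : Matrix (Fin 2) (Fin 2) F) = !![x, 0; 0, y] := rfl

theorem det_diag129_879 {F : Type*} [Field F] (x y : F) (hx : x ≠ 0) (hy : y ≠ 0) :
    ((diag129 x y hx hy : GL (Fin 2) F) : Matrix (Fin 2) (Fin 2) F).det = x * y := by
  rw [coe_diag129_879, Matrix.det_fin_two_of]
  ring

theorem diag129_mul879 {F : Type*} [Field F] (x y x' y' : F) (hx : x ≠ 0) (hy : y ≠ 0)
    (hx' : x' ≠ 0) (hy' : y' ≠ 0) :
    diag129 x y hx hy * diag129 x' y' hx' hy'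
      = diag129 (x * x') (y * y') (mul_ne_zero hx hx') (mul_ne_zero hy hy') := by
  apply ext_mat129
  rw [Matrix.GeneralLinearGroup.coe_mul, coe_diag129_879, coe_diag129_879, coe_diag129_879]
  ext i j
  fin_cases i <;> fin_cases j <;> simp [Matrix.mul_apply, Fin.sum_univ_two]

theorem diag129_inv879 {F : Type*} [Field F] (x y : F) (hx : x ≠ 0) (hy : y ≠ 0) :
    (diag129 x y hx hy)⁻¹ = diag129 x⁻¹ y⁻¹ (inv_ne_zero hx) (inv_ne_zero hy) := by
  rw [inv_eq_iff_mul_eq_one, diag129_mul879]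
  apply ext_mat129
  rw [coe_diag129_879]
  ext i j
  fin_cases i <;> fin_cases j <;> simp [hx, hy]

/-- A diagonal matrix with unit entries lies in `GL₂(𝒪_v)`. -/
theorem isMaxCpt_diag879 {x y : v.adicCompletion K} (hx : x ≠ 0) (hy : y ≠ 0)
    (vx : Valued.v x = 1) (vy : Valued.v y = 1) :
    IsMaxCpt129 (v.adicCompletionIntegers K) (diag129 x y hx hy) := by
  have key : ∀ (a b : v.adicCompletion K) (ha : a ≠ 0) (hb : b ≠ 0), Valued.v a = 1 →
      Valued.v b = 1 → IsInt129 (v.adicCompletionIntegers K) (diag129 a b ha hb) := by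
    intro a b ha hb va vb
    exact isInt129_mkGL _ (mem_int_iff879.mpr va.le) (zero_mem _) (zero_mem _)
      (mem_int_iff879.mpr vb.le)
  refine ⟨key x y hx hy vx vy, ?_⟩
  rw [diag129_inv879]
  exact key _ _ _ _ (by rw [map_inv₀, vx, inv_one]) (by rw [map_inv₀, vy, inv_one])

/-- Cartan decomposition of an integral matrix, with the valuations of the diagonal entries. -/
theorem cartan_val879 (g : GL (Fin 2) (v.adicCompletion K))
    (hg : IsInt129 (v.adicCompletionIntegers K) g) :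
    ∃ (k₁ k₂ : GL (Fin 2) (v.adicCompletion K)) (x y : v.adicCompletion K)
      (hx : x ≠ 0) (hy : y ≠ 0),
      IsMaxCpt129 (v.adicCompletionIntegers K) k₁ ∧
      IsMaxCpt129 (v.adicCompletionIntegers K) k₂ ∧
      Valued.v y ≤ Valued.v x ∧ Valued.v x ≤ 1 ∧
      Valued.v x * Valued.v y
        = Valued.v (g : Matrix (Fin 2) (Fin 2) (v.adicCompletion K)).det ∧
      g = k₁ * diag129 x y hx hy * k₂ := by
  obtain ⟨k₁, k₂, x, y, hx, hy, h1, h2, hxy, hgd⟩ := cartan129 (v.adicCompletionIntegers K) g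
  refine ⟨k₁, k₂, x, y, hx, hy, h1, h2, ?_, ?_, ?_, hgd⟩
  · have := mem_int_iff879.mp hxy
    rw [map_div₀] at this
    have hvx : Valued.v x ≠ 0 := by simpa using hx
    exact (div_le_one₀ (zero_lt_iff.mpr hvx)).mp this
  · -- `diag(x, y) = k₁⁻¹ g k₂⁻¹` is integral
    have hd : diag129 x y hx hy = k₁⁻¹ * g * k₂⁻¹ := by
      rw [hgd]; group
    have hint : IsInt129 (v.adicCompletionIntegers K) (diag129 x y hx hy) := by
      rw [hd]
      exact isInt129_mul (isInt129_mul h1.2 hg) h2.2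
    have := hint 0 0
    rw [coe_diag129_879] at this
    exact mem_int_iff879.mp (by simpa using this)
  · have hdet : (g : Matrix (Fin 2) (Fin 2) (v.adicCompletion K)).det
        = (k₁ : Matrix (Fin 2) (Fin 2) (v.adicCompletion K)).det * (x * y)
          * (k₂ : Matrix (Fin 2) (Fin 2) (v.adicCompletion K)).det := by
      conv_lhs => rw [hgd]
      rw [Matrix.GeneralLinearGroup.coe_mul, Matrix.GeneralLinearGroup.coe_mul, Matrix.det_mul,
        Matrix.det_mul, det_diag129_879]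
    rw [hdet, map_mul, map_mul, map_mul, val_det_maxCpt879 h1, val_det_maxCpt879 h2, one_mul,
      mul_one]

/-- `g` has elementary divisors of valuations `exp i ≥ exp j`. -/
def IsType879 (v : HeightOneSpectrum (𝓞 K)) (i j : ℤ) (g : GL (Fin 2) (v.adicCompletion K)) :
    Prop :=
  ∃ (k₁ k₂ : GL (Fin 2) (v.adicCompletion K)) (x y : v.adicCompletion K)
    (hx : x ≠ 0) (hy : y ≠ 0),
    IsMaxCpt129 (v.adicCompletionIntegers K) k₁ ∧
    IsMaxCpt129 (v.adicCompletionIntegers K) k₂ ∧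
    Valued.v x = WithZero.exp i ∧ Valued.v y = WithZero.exp j ∧
    g = k₁ * diag129 x y hx hy * k₂

/-- Two matrices of the same type are equivalent under `GL₂(𝒪_v)` on both sides. -/
theorem equiv_of_type879 {i j : ℤ} {g g' : GL (Fin 2) (v.adicCompletion K)}
    (hg : IsType879 v i j g) (hg' : IsType879 v i j g') :
    ∃ k₁ k₂ : GL (Fin 2) (v.adicCompletion K),
      IsMaxCpt129 (v.adicCompletionIntegers K) k₁ ∧
      IsMaxCpt129 (v.adicCompletionIntegers K) k₂ ∧ g' = k₁ * g * k₂ := by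
  obtain ⟨a₁, a₂, x, y, hx, hy, ha₁, ha₂, vx, vy, hgd⟩ := hg
  obtain ⟨b₁, b₂, x', y', hx', hy', hb₁, hb₂, vx', vy', hgd'⟩ := hg'
  have hu : IsMaxCpt129 (v.adicCompletionIntegers K)
      (diag129 (x' * x⁻¹) (y' * y⁻¹) (mul_ne_zero hx' (inv_ne_zero hx))
        (mul_ne_zero hy' (inv_ne_zero hy))) := by
    apply isMaxCpt_diag879
    · rw [map_mul, map_inv₀, vx, vx']
      exact mul_inv_cancel₀ (by simp)
    · rw [map_mul, map_inv₀, vy, vy']
      exact mul_inv_cancel₀ (by simp)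
  have hdd : diag129 x' y' hx' hy'
      = diag129 (x' * x⁻¹) (y' * y⁻¹) (mul_ne_zero hx' (inv_ne_zero hx))
          (mul_ne_zero hy' (inv_ne_zero hy)) * diag129 x y hx hy := by
    rw [diag129_mul879]
    apply ext_mat129
    rw [coe_diag129_879, coe_diag129_879]
    ext i j
    fin_cases i <;> fin_cases j <;> simp [hx, hy]
  refine ⟨b₁ * diag129 (x' * x⁻¹) (y' * y⁻¹) (mul_ne_zero hx' (inv_ne_zero hx))
      (mul_ne_zero hy' (inv_ne_zero hy)) * a₁⁻¹, a₂⁻¹ * b₂,
    isMaxCpt129_mul (isMaxCpt129_mul hb₁ hu) (isMaxCpt129_inv ha₁),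
    isMaxCpt129_mul (isMaxCpt129_inv ha₂) hb₂, ?_⟩
  rw [hgd', hdd, hgd]
  group

/-- Arithmetic in the value group: the possible valuations of the elementary divisors. -/
theorem val_split879 {a b : WithZero (Multiplicative ℤ)} {n : ℤ} (hba : b ≤ a) (ha : a ≤ 1)
    (hab : a * b = WithZero.exp n) :
    ∃ i j : ℤ, a = WithZero.exp i ∧ b = WithZero.exp j ∧ j ≤ i ∧ i ≤ 0 ∧ i + j = n := by
  have ha0 : a ≠ 0 := by
    rintro rfl
    rw [zero_mul] at hab
    exact WithZero.exp_ne_zero hab.symm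
  have hb0 : b ≠ 0 := by
    rintro rfl
    rw [mul_zero] at hab
    exact WithZero.exp_ne_zero hab.symm
  refine ⟨a.log, b.log, (WithZero.exp_log ha0).symm, (WithZero.exp_log hb0).symm, ?_, ?_, ?_⟩
  · exact (WithZero.log_le_log hb0 ha0).mpr hba
  · have := (WithZero.log_le_log ha0 one_ne_zero).mpr ha
    simpa using this
  · have := congrArg WithZero.log hab
    rw [WithZero.log_mul ha0 hb0, WithZero.log_exp] at this
    exact this

/-- An integral matrix with determinant of valuation `exp (-1)` has type `(0, -1)`. -/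
theorem type_one879 {g : GL (Fin 2) (v.adicCompletion K)}
    (hg : IsInt129 (v.adicCompletionIntegers K) g)
    (hdet : Valued.v (g : Matrix (Fin 2) (Fin 2) (v.adicCompletion K)).det
      = WithZero.exp (-1 : ℤ)) : IsType879 v 0 (-1) g := by
  obtain ⟨k₁, k₂, x, y, hx, hy, h1, h2, hyx, hx1, hprod, hgd⟩ := cartan_val879 g hg
  rw [hdet] at hprod
  obtain ⟨i, j, hi, hj, hji, hi0, hij⟩ := val_split879 hyx hx1 hprod
  have hi' : i = 0 := by omega
  have hj' : j = -1 := by omega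
  subst hi' hj'
  exact ⟨k₁, k₂, x, y, hx, hy, h1, h2, hi, hj, hgd⟩

/-- An integral matrix with determinant of valuation `exp (-2)` has type `(0, -2)` or
`(-1, -1)`. -/
theorem type_two879 {g : GL (Fin 2) (v.adicCompletion K)}
    (hg : IsInt129 (v.adicCompletionIntegers K) g)
    (hdet : Valued.v (g : Matrix (Fin 2) (Fin 2) (v.adicCompletion K)).det
      = WithZero.exp (-2 : ℤ)) : IsType879 v 0 (-2) g ∨ IsType879 v (-1) (-1) g := by
  obtain ⟨k₁, k₂, x, y, hx, hy, h1, h2, hyx, hx1, hprod, hgd⟩ := cartan_val879 g hg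
  rw [hdet] at hprod
  obtain ⟨i, j, hi, hj, hji, hi0, hij⟩ := val_split879 hyx hx1 hprod
  have hcases : (i = 0 ∧ j = -2) ∨ (i = -1 ∧ j = -1) := by omega
  rcases hcases with ⟨rfl, rfl⟩ | ⟨rfl, rfl⟩
  · exact Or.inl ⟨k₁, k₂, x, y, hx, hy, h1, h2, hi, hj, hgd⟩
  · exact Or.inr ⟨k₁, k₂, x, y, hx, hy, h1, h2, hi, hj, hgd⟩

/-- A scalar matrix is central in `GL₂`. -/
theorem scalar_central879 {F : Type*} [Field F] {ζ : GL (Fin 2) F} {c : F}
    (hζ : (ζ : Matrix (Fin 2) (Fin 2) F) = Matrix.diagonal (fun _ => c)) (g : GL (Fin 2) F) :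
    ζ * g = g * ζ := by
  apply ext_mat129
  rw [Matrix.GeneralLinearGroup.coe_mul, Matrix.GeneralLinearGroup.coe_mul, hζ]
  ext i j
  fin_cases i <;> fin_cases j <;> simp [Matrix.mul_apply, Fin.sum_univ_two, mul_comm]

/-- A matrix of type `(-1, -1)` is a scalar uniformiser times an element of `GL₂(𝒪_v)`. -/
theorem type_scalar879 {g ζ : GL (Fin 2) (v.adicCompletion K)} {c : v.adicCompletion K}
    (hc : Valued.v c = WithZero.exp (-1 : ℤ))
    (hζ : (ζ : Matrix (Fin 2) (Fin 2) (v.adicCompletion K)) = Matrix.diagonal (fun _ => c))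
    (hg : IsType879 v (-1) (-1) g) :
    ∃ k : GL (Fin 2) (v.adicCompletion K),
      IsMaxCpt129 (v.adicCompletionIntegers K) k ∧ g = k * ζ := by
  obtain ⟨k₁, k₂, x, y, hx, hy, h1, h2, vx, vy, hgd⟩ := hg
  have hc0 : c ≠ 0 := by
    intro h
    rw [h, map_zero] at hc
    exact WithZero.exp_ne_zero hc.symm
  have hu : IsMaxCpt129 (v.adicCompletionIntegers K)
      (diag129 (x * c⁻¹) (y * c⁻¹) (mul_ne_zero hx (inv_ne_zero hc0))
        (mul_ne_zero hy (inv_ne_zero hc0))) := by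
    apply isMaxCpt_diag879
    · rw [map_mul, map_inv₀, vx, hc]
      exact mul_inv_cancel₀ (by simp)
    · rw [map_mul, map_inv₀, vy, hc]
      exact mul_inv_cancel₀ (by simp)
  have hdd : diag129 x y hx hy
      = diag129 (x * c⁻¹) (y * c⁻¹) (mul_ne_zero hx (inv_ne_zero hc0))
          (mul_ne_zero hy (inv_ne_zero hc0)) * ζ := by
    apply ext_mat129
    rw [Matrix.GeneralLinearGroup.coe_mul, coe_diag129_879, coe_diag129_879, hζ]
    ext i j
    fin_cases i <;> fin_cases j <;> simp [Matrix.mul_apply, Fin.sum_univ_two, hc0]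
  refine ⟨k₁ * diag129 (x * c⁻¹) (y * c⁻¹) (mul_ne_zero hx (inv_ne_zero hc0))
      (mul_ne_zero hy (inv_ne_zero hc0)) * k₂, isMaxCpt129_mul (isMaxCpt129_mul h1 hu) h2, ?_⟩
  rw [hgd, hdd]
  simp only [mul_assoc]
  rw [scalar_central879 hζ k₂]

end Fermat.Agent.LT.T2.H879

end
end
-- ===== PACK-END LT/T2/H879/StripLocal.lean

-- ===== PACK-BEGIN LT/T2/H557/CutLoc.lean
section





/-!
# Row LT, tower T2, station T2.10 (`SMO_AA`), leaf T2.10.10 `CutoffC` (helper557), OFF-MAIN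

Part 2 (the adele supported at one finite place, the local component of a character).
On `LT/T2/H941/SmoSpec.lean` (helper941), `LT/T2/H333/Book.lean` (helper333),
`LT/T3/H237/ConstTerm.lean` (helper237), byte-identical copies.
-/

set_option autoImplicit false

open IsDedekindDomain NumberField MeasureTheory
open Fermat.Agent.LT.H556.A0
open Fermat.Agent.LT.T2.H941 Fermat.Agent.LT.T2.H333

noncomputable section

namespace Fermat.Agent.LT.T2.H557

variable {K : Type} [Field K] [NumberField K]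

open scoped Classical in
/-- The adele supported at the finite place `v` with component `t`. -/
def loc557 (v : HeightOneSpectrum (𝓞 K)) (t : v.adicCompletion K) : Adl K :=
  (0, ⟨Function.update (fun v' : HeightOneSpectrum (𝓞 K) => (0 : v'.adicCompletion K)) v t, by
    rw [Filter.eventually_cofinite]
    refine (Set.finite_singleton v).subset fun v' hv' => ?_
    by_contra hne
    apply hv'
    have hne' : v' ≠ v := hne
    simp only [Function.update_of_ne hne']
    exact zero_mem _⟩)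

theorem evI333_loc557 (v : HeightOneSpectrum (𝓞 K)) (t : v.adicCompletion K)
    (w : InfinitePlace K) : evI333 w (loc557 v t) = 0 := rfl

open scoped Classical in
theorem evF333_loc557_self (v : HeightOneSpectrum (𝓞 K)) (t : v.adicCompletion K) :
    evF333 v (loc557 v t) = t :=
  Function.update_self v t (fun v' : HeightOneSpectrum (𝓞 K) => (0 : v'.adicCompletion K))

open scoped Classical in
theorem evF333_loc557_ne {v v' : HeightOneSpectrum (𝓞 K)} (h : v' ≠ v)
    (t : v.adicCompletion K) : evF333 v' (loc557 v t) = 0 :=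
  Function.update_of_ne h t (fun v' : HeightOneSpectrum (𝓞 K) => (0 : v'.adicCompletion K))

theorem loc557_self (v : HeightOneSpectrum (𝓞 K)) (t : v.adicCompletion K) :
    (loc557 v t).2 v = t := evF333_loc557_self v t

theorem loc557_ne {v v' : HeightOneSpectrum (𝓞 K)} (h : v' ≠ v) (t : v.adicCompletion K) :
    (loc557 v t).2 v' = 0 := evF333_loc557_ne h t

theorem isLocAdeleAt_loc557 (v : HeightOneSpectrum (𝓞 K)) (t : v.adicCompletion K) :
    T3.IsLocAdeleAt K v (loc557 v t) :=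
  ⟨rfl, fun _ h => loc557_ne h t⟩

/-- An adele is determined by its components (in terms of the evaluation homomorphisms). -/
theorem adele_ext557 {x y : Adl K} (hI : ∀ w : InfinitePlace K, evI333 w x = evI333 w y)
    (hF : ∀ v : HeightOneSpectrum (𝓞 K), evF333 v x = evF333 v y) : x = y :=
  adele_ext333 hI hF

theorem eq_loc557 {v : HeightOneSpectrum (𝓞 K)} {x : Adl K} (hx : T3.IsLocAdeleAt K v x) :
    x = loc557 v (x.2 v) := by
  refine adele_ext557 (fun w => ?_) (fun v' => ?_)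
  · rw [evI333_loc557]
    show x.1 w = 0
    rw [hx.1]
    rfl
  · by_cases h : v' = v
    · subst h
      rw [evF333_loc557_self]
      rfl
    · rw [evF333_loc557_ne h]
      exact hx.2 v' h

theorem mul_loc557 (v : HeightOneSpectrum (𝓞 K)) (y : Adl K) (t : v.adicCompletion K) :
    y * loc557 v t = loc557 v (evF333 v y * t) := by
  refine adele_ext557 (fun w => ?_) (fun v' => ?_)
  · rw [map_mul, evI333_loc557, evI333_loc557, mul_zero]
  · by_cases h : v' = v
    · subst h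
      rw [map_mul, evF333_loc557_self, evF333_loc557_self]
    · rw [map_mul, evF333_loc557_ne h, evF333_loc557_ne h, mul_zero]

theorem loc557_add (v : HeightOneSpectrum (𝓞 K)) (s t : v.adicCompletion K) :
    loc557 v (s + t) = loc557 v s + loc557 v t := by
  refine adele_ext557 (fun w => ?_) (fun v' => ?_)
  · rw [map_add, evI333_loc557, evI333_loc557, evI333_loc557, add_zero]
  · by_cases h : v' = v
    · subst h
      rw [map_add, evF333_loc557_self, evF333_loc557_self, evF333_loc557_self]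
    · rw [map_add, evF333_loc557_ne h, evF333_loc557_ne h, evF333_loc557_ne h, add_zero]

theorem loc557_zero (v : HeightOneSpectrum (𝓞 K)) : loc557 v (0 : v.adicCompletion K) = 0 := by
  refine adele_ext557 (fun w => ?_) (fun v' => ?_)
  · rw [map_zero, evI333_loc557]
  · by_cases h : v' = v
    · subst h
      rw [map_zero, evF333_loc557_self]
    · rw [map_zero, evF333_loc557_ne h]

theorem loc557_neg (v : HeightOneSpectrum (𝓞 K)) (t : v.adicCompletion K) :
    loc557 v (-t) = -loc557 v t := by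
  have h := loc557_add v t (-t)
  rw [add_neg_cancel, loc557_zero] at h
  exact (neg_eq_of_add_eq_zero_right h.symm).symm

/-- The local component of an adelic character. -/
def locChar557 (ψ : AddChar (Adl K) Circle) (v : HeightOneSpectrum (𝓞 K)) :
    AddChar (v.adicCompletion K) Circle where
  toFun t := ψ (loc557 v t)
  map_zero_eq_one' := by rw [loc557_zero]; exact ψ.map_zero_eq_one
  map_add_eq_mul' := fun a b => by rw [loc557_add]; exact ψ.map_add_eq_mul _ _

theorem locChar557_apply (ψ : AddChar (Adl K) Circle) (v : HeightOneSpectrum (𝓞 K))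
    (t : v.adicCompletion K) : locChar557 ψ v t = ψ (loc557 v t) := rfl

theorem locChar557_cond {ψ : AddChar (Adl K) Circle} {v : HeightOneSpectrum (𝓞 K)} {d : ℤ}
    (h : IsCondExp ψ v d) :
    (∀ x : v.adicCompletion K, Valued.v x ≤ WithZero.exp d → locChar557 ψ v x = 1) ∧
      ∃ x : v.adicCompletion K, Valued.v x = WithZero.exp (d + 1) ∧ locChar557 ψ v x ≠ 1 := by
  obtain ⟨h1, x, hx, hxv, hxψ⟩ := h
  refine ⟨fun t ht => ?_, x.2 v, hxv, ?_⟩
  · rw [locChar557_apply]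
    refine h1 _ (isLocAdeleAt_loc557 v t) ?_
    rw [loc557_self]
    exact ht
  · rw [locChar557_apply, ← eq_loc557 hx]
    exact hxψ

end Fermat.Agent.LT.T2.H557

end

end
-- ===== PACK-END LT/T2/H557/CutLoc.lean

-- ===== PACK-BEGIN LT/T2/H8/WhEquiv.lean
section



/-!
# Row LT, tower T2, leaf T2.10.08.01 `WhEquivC` (A1) — helper8, OFF-MAIN

`whEquivC_h8 : H973.WhEquivC K`, verbatim against `LT/T2/H973/ArchSpec.lean` (helper973@1d2e30d90,
sha256 6e234a4a0ea7): the Whittaker coefficient `W = wh ψ ν D Φ` of a left `GL₂(K)`-invariant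
function satisfies `W(n(a) g) = ψ(a) W(g)`.

Proof: `F(x) = Φ(n(x) g) conj ψ(x)` is `K`-periodic (`n(ξ) = ratG (n_K(ξ))`, `ψ` trivial on `K`);
`Φ(n(x) n(a) g) conj ψ(x) = ψ(a) F(x + a)`; `{y | y - a ∈ D}` is a fundamental domain
(`IsAddFundamentalDomain.preimage_of_equiv`) and the integral of a periodic function does not depend
on the fundamental domain (`IsAddFundamentalDomain.setIntegral_eq`).  Neither the continuity nor
the boundedness of `Φ` is used, and of `LocCompC` nothing is used.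
-/

set_option autoImplicit false
set_option linter.style.haveILetI false

open IsDedekindDomain NumberField MeasureTheory AutomorphicForm
open Fermat.Agent.LT.H556.A0
open scoped ComplexConjugate

noncomputable section

namespace Fermat.Agent.LT.T2.H8

open Fermat.Agent.LT
open Fermat.Agent.LT.T2.H941

variable {K : Type} [Field K] [NumberField K]

/-- The rational unipotent element `n(ξ) = [[1, ξ], [0, 1]]` of `GL₂(K)`. -/
def unipK8 (ξ : K) : GL (Fin 2) K :=
  ⟨!![1, ξ; 0, 1], !![1, -ξ; 0, 1],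
    by ext i j; fin_cases i <;> fin_cases j <;> simp [Matrix.mul_apply, Fin.sum_univ_two],
    by ext i j; fin_cases i <;> fin_cases j <;> simp [Matrix.mul_apply, Fin.sum_univ_two]⟩

/-- `n(emb ξ)` is the image of the rational unipotent element. -/
theorem ratG_unipK8 (ξ : K) : T1.ratG K (unipK8 ξ) = T3.unip K (T3.emb K ξ) := by
  apply Units.ext
  ext i j
  fin_cases i <;> fin_cases j <;>
    simp [T1.ratG, T3.unip, unipK8, Matrix.GeneralLinearGroup.map]

/-- `n(x + y) = n(x) n(y)`. -/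
theorem unip_add8 (x y : Adl K) : T3.unip K (x + y) = T3.unip K x * T3.unip K y := by
  apply Units.ext
  ext i j
  fin_cases i <;> fin_cases j <;>
    simp [T3.unip, Matrix.mul_apply, Fin.sum_univ_two, add_comm]

/-- The integrand of the Whittaker coefficient is `K`-periodic. -/
theorem whIntegrand_periodic8 (ψ : AddChar (Adl K) Circle) (hψ : T3.IsStdChar K ψ)
    (Φ : G K → ℂ) (hΦ : ∀ (γ : GL (Fin 2) K) (g : G K), Φ (T1.ratG K γ * g) = Φ g) (g : G K)
    (ξ : T1.princ K) (x : Adl K) :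
    Φ (T3.unip K (ξ +ᵥ x) * g) * conj ((ψ (ξ +ᵥ x) : Circle) : ℂ)
      = Φ (T3.unip K x * g) * conj ((ψ x : Circle) : ℂ) := by
  obtain ⟨ξ, k, rfl⟩ := ξ
  have h1 : (⟨(algebraMap K (Adl K)).toAddMonoidHom k, ⟨k, rfl⟩⟩ : T1.princ K) +ᵥ x
      = T3.emb K k + x := rfl
  rw [h1, unip_add8, ← ratG_unipK8, mul_assoc, hΦ, AddChar.map_add_eq_mul, hψ.triv k, one_mul]

/-- **T2.10.08.01 (A1).**  `W(n(a) g) = ψ(a) W(g)`. -/
theorem whEquivC_h8 (K : Type) [Field K] [NumberField K] : H973.WhEquivC K := by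
  letI : MeasurableSpace (Adl K) := borel (Adl K)
  haveI : BorelSpace (Adl K) := ⟨rfl⟩
  intro _ ψ ν D hW Φ _ _ hΦ a g
  obtain ⟨hψ, -, -, hν, -, hD, -⟩ := hW
  haveI := hν
  haveI : Countable (T1.princ K) := by
    have : Countable K := Finsupp.Countable.of_moduleFinite (R := ℚ) (M := K)
    exact (AddMonoidHom.rangeRestrict_surjective
      ((algebraMap K (Adl K)).toAddMonoidHom)).countable
  -- the periodic integrand
  set F : Adl K → ℂ := fun x => Φ (T3.unip K x * g) * conj ((ψ x : Circle) : ℂ) with hF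
  have hFper : ∀ (ξ : T1.princ K) (x : Adl K), F (ξ +ᵥ x) = F x := fun ξ x =>
    whIntegrand_periodic8 ψ hψ Φ hΦ g ξ x
  -- the integrand of `W(n(a) g)`
  have hint : ∀ x : Adl K,
      Φ (T3.unip K x * (T3.unip K a * g)) * conj ((ψ x : Circle) : ℂ)
        = ((ψ a : Circle) : ℂ) * F (x + a) := by
    intro x
    have hn : ((ψ a : Circle) : ℂ) * conj ((ψ a : Circle) : ℂ) = 1 := by
      rw [Complex.mul_conj, Complex.normSq_eq_norm_sq, Circle.norm_coe]
      simp
    simp only [hF]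
    rw [unip_add8, mul_assoc, AddChar.map_add_eq_mul, Circle.coe_mul, map_mul]
    calc Φ (T3.unip K x * (T3.unip K a * g)) * conj ((ψ x : Circle) : ℂ)
        = Φ (T3.unip K x * (T3.unip K a * g)) * conj ((ψ x : Circle) : ℂ)
            * (((ψ a : Circle) : ℂ) * conj ((ψ a : Circle) : ℂ)) := by rw [hn, mul_one]
      _ = ((ψ a : Circle) : ℂ) * (Φ (T3.unip K x * (T3.unip K a * g))
            * (conj ((ψ x : Circle) : ℂ) * conj ((ψ a : Circle) : ℂ))) := by ring
  -- the translate of the fundamental domain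
  have hmp : MeasurePreserving (fun y : Adl K => y + (-a)) ν ν :=
    measurePreserving_add_right ν (-a)
  have hD' : IsAddFundamentalDomain (T1.princ K) ((fun y : Adl K => y + (-a)) ⁻¹' D) ν := by
    refine hD.preimage_of_equiv hmp.quasiMeasurePreserving (e := id) Function.bijective_id ?_
    intro ξ y
    change ((ξ : Adl K) + y) + (-a) = (ξ : Adl K) + (y + (-a))
    rw [add_assoc]
  have hemb : MeasurableEmbedding (fun y : Adl K => y + (-a)) :=
    (MeasurableEquiv.addRight (-a)).measurableEmbedding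
  have hcv : ∫ y in D, F (y + a) ∂ν
      = ∫ x in (fun y : Adl K => y + (-a)) ⁻¹' D, F x ∂ν := by
    have h := hmp.setIntegral_preimage_emb hemb (fun y => F (y + a)) D
    simp only [neg_add_cancel_right] at h
    exact h.symm
  unfold wh
  calc ∫ x in D, Φ (T3.unip K x * (T3.unip K a * g)) * conj ((ψ x : Circle) : ℂ) ∂ν
      = ∫ x in D, ((ψ a : Circle) : ℂ) * F (x + a) ∂ν :=
        integral_congr_ae (Filter.Eventually.of_forall hint)
    _ = ((ψ a : Circle) : ℂ) * ∫ x in D, F (x + a) ∂ν := integral_const_mul _ _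
    _ = ((ψ a : Circle) : ℂ) * ∫ x in (fun y : Adl K => y + (-a)) ⁻¹' D, F x ∂ν := by rw [hcv]
    _ = ((ψ a : Circle) : ℂ) * ∫ x in D, F x ∂ν := by
        rw [hD'.setIntegral_eq hD hFper]

end Fermat.Agent.LT.T2.H8

end

end
-- ===== PACK-END LT/T2/H8/WhEquiv.lean

-- ===== PACK-BEGIN LT/T2/H59/Subst.lean
section



/-!
# Row LT, tower T2, leaf T2.10.08.08 = R3 `SubstC` (helper59), OFF-MAIN

`substC59 : H973.SubstC` VERBATIM (sub-spec of helper973, `LT/T2/H973/ArchSpec.lean`).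

Substitution `t = -log D(β)`, `D(β) = cosh d - cos β sinh d`, on `[0, π]`:
`t(0) = d`, `t(π) = -d`, `t'(β) = -(sin β sinh d) / D`, `e^{-t} = D`,
`√(2 eᵗ (cosh d - cosh t)) = sin β sinh d / D` (`sin β ≥ 0`), hence
`∫₀^π J(k eˢ sin β sinh d / D) F(s - log D) sin β dβ
    = (sinh d)⁻¹ ∫_{-d}^{d} J(k eˢ √(2 eᵗ (cosh d - cosh t))) F(s + t) e^{-t} dt`.
The hypothesis `0 ≤ k` is not used.
-/

set_option autoImplicit false

open MeasureTheory

noncomputable section

namespace Fermat.Agent.LT.T2.H59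

open Fermat.Agent.LT.T2.H973

/-- `besJ` is continuous. -/
theorem continuous_besJ59 : Continuous besJ := by
  unfold besJ
  refine continuous_const.mul ?_
  refine intervalIntegral.continuous_parametric_intervalIntegral_of_continuous'
    (f := fun (z : ℝ) (α : ℝ) => Complex.exp (Complex.I * ((z * Real.cos α : ℝ) : ℂ))) ?_ 0
      (2 * Real.pi)
  have h1 : Continuous fun p : ℝ × ℝ => ((p.1 * Real.cos p.2 : ℝ) : ℂ) :=
    Complex.continuous_ofReal.comp (continuous_fst.mul (Real.continuous_cos.comp continuous_snd))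
  exact Complex.continuous_exp.comp (continuous_const.mul h1)

/-- `D(β, d) > 0`. -/
theorem sphD_pos59 (β d : ℝ) : 0 < sphD β d := by
  unfold sphD
  rw [Real.cosh_eq, Real.sinh_eq]
  have h1 := Real.exp_pos d
  have h2 := Real.exp_pos (-d)
  have h3 := Real.neg_one_le_cos β
  have h4 := Real.cos_le_one β
  nlinarith [mul_nonneg (sub_nonneg.mpr h4) h1.le,
    mul_nonneg (by linarith : (0 : ℝ) ≤ 1 + Real.cos β) h2.le, mul_pos h1 h2]

theorem sphD_zero59 (d : ℝ) : sphD 0 d = Real.exp (-d) := by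
  unfold sphD
  rw [Real.cos_zero, one_mul, Real.cosh_sub_sinh]

theorem sphD_pi59 (d : ℝ) : sphD Real.pi d = Real.exp d := by
  unfold sphD
  rw [Real.cos_pi, neg_one_mul, sub_neg_eq_add, Real.cosh_add_sinh]

theorem continuous_sphD59 (d : ℝ) : Continuous fun β : ℝ => sphD β d := by
  unfold sphD
  exact continuous_const.sub (Real.continuous_cos.mul continuous_const)

theorem hasDerivAt_sphD59 (d β : ℝ) :
    HasDerivAt (fun β : ℝ => sphD β d) (Real.sin β * Real.sinh d) β := by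
  unfold sphD
  have h := ((Real.hasDerivAt_cos β).mul_const (Real.sinh d)).const_sub (Real.cosh d)
  have e : -(-Real.sin β * Real.sinh d) = Real.sin β * Real.sinh d := by ring
  rw [e] at h
  exact h

/-- The substitution `t(β) = -log D(β)`. -/
def tau59 (d β : ℝ) : ℝ := -Real.log (sphD β d)

theorem hasDerivAt_tau59 (d β : ℝ) :
    HasDerivAt (tau59 d) (-(Real.sin β * Real.sinh d / sphD β d)) β := by
  unfold tau59
  exact ((hasDerivAt_sphD59 d β).log (sphD_pos59 β d).ne').neg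

theorem tau_zero59 (d : ℝ) : tau59 d 0 = d := by
  unfold tau59
  rw [sphD_zero59, Real.log_exp, neg_neg]

theorem tau_pi59 (d : ℝ) : tau59 d Real.pi = -d := by
  unfold tau59
  rw [sphD_pi59, Real.log_exp]

theorem exp_neg_tau59 (d β : ℝ) : Real.exp (-tau59 d β) = sphD β d := by
  unfold tau59
  rw [neg_neg, Real.exp_log (sphD_pos59 β d)]

theorem exp_tau59 (d β : ℝ) : Real.exp (tau59 d β) = (sphD β d)⁻¹ := by
  unfold tau59
  rw [Real.exp_neg, Real.exp_log (sphD_pos59 β d)]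

/-- `sin² β sinh² d = 2 D cosh d - D² - 1`. -/
theorem sin_sq_mul59 (β d : ℝ) :
    (Real.sin β * Real.sinh d) ^ 2
      = 2 * sphD β d * Real.cosh d - sphD β d ^ 2 - 1 := by
  unfold sphD
  have h1 := Real.cosh_sq d
  have h2 := Real.sin_sq_add_cos_sq β
  have h3 : Real.sin β ^ 2 = 1 - Real.cos β ^ 2 := by linarith
  have h4 : (Real.sin β * Real.sinh d) ^ 2 = (1 - Real.cos β ^ 2) * Real.sinh d ^ 2 := by
    rw [mul_pow, h3]
  rw [h4]
  nlinarith [h1]

/-- The radial argument: `√(2 eᵗ (cosh d - cosh t)) = sin β sinh d / D` at `t = t(β)`,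
`0 ≤ β ≤ π`, `0 < d`. -/
theorem sqrt_tau59 (d β : ℝ) (hd : 0 < d) (h0 : 0 ≤ β) (hπ : β ≤ Real.pi) :
    Real.sqrt (2 * Real.exp (tau59 d β) * (Real.cosh d - Real.cosh (tau59 d β)))
      = Real.sin β * Real.sinh d / sphD β d := by
  have hD := sphD_pos59 β d
  have hsin : 0 ≤ Real.sin β := Real.sin_nonneg_of_nonneg_of_le_pi h0 hπ
  have hsinh : 0 < Real.sinh d := Real.sinh_pos_iff.mpr hd
  have hx : 0 ≤ Real.sin β * Real.sinh d / sphD β d :=
    div_nonneg (mul_nonneg hsin hsinh.le) hD.le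
  have hcosh : Real.cosh (tau59 d β) = ((sphD β d)⁻¹ + sphD β d) / 2 := by
    rw [Real.cosh_eq, exp_tau59, exp_neg_tau59]
  have key : 2 * Real.exp (tau59 d β) * (Real.cosh d - Real.cosh (tau59 d β))
      = (Real.sin β * Real.sinh d / sphD β d) ^ 2 := by
    rw [hcosh, exp_tau59, div_pow, sin_sq_mul59]
    field_simp
    ring
  rw [key, Real.sqrt_sq hx]

/-- **R3 `SubstC`**, VERBATIM. -/
theorem substC59 : SubstC := by
  intro k F _ hF
  obtain ⟨hFc, hF⟩ := hF
  have hexpc : Continuous fun s : ℝ => ((Real.exp (-s) : ℝ) : ℂ) :=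
    Complex.continuous_ofReal.comp (Real.continuous_exp.comp continuous_neg)
  refine ⟨hexpc.mul hFc, ?_⟩
  intro s d hd
  have hsinh : 0 < Real.sinh d := Real.sinh_pos_iff.mpr hd
  -- the integrand in the variable `t`
  set g : ℝ → ℂ := fun t =>
    besJ (k * Real.exp s * Real.sqrt (2 * Real.exp t * (Real.cosh d - Real.cosh t)))
      * F (s + t) * ((Real.exp (-t) : ℝ) : ℂ) with hg
  have hgc : Continuous g := by
    have h1 : Continuous fun t : ℝ =>
        k * Real.exp s * Real.sqrt (2 * Real.exp t * (Real.cosh d - Real.cosh t)) :=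
      continuous_const.mul (Real.continuous_sqrt.comp
        ((continuous_const.mul Real.continuous_exp).mul
          (continuous_const.sub Real.continuous_cosh)))
    exact ((continuous_besJ59.comp h1).mul
      (hFc.comp (continuous_const.add continuous_id))).mul hexpc
  -- change of variables
  have hcv : (∫ β in (0 : ℝ)..Real.pi,
      (-(Real.sin β * Real.sinh d / sphD β d)) • (g ∘ tau59 d) β)
        = ∫ t in tau59 d 0..tau59 d Real.pi, g t := by
    refine intervalIntegral.integral_deriv_smul_comp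
      (fun β _ => hasDerivAt_tau59 d β) ?_ hgc
    refine Continuous.continuousOn ?_
    exact ((Real.continuous_sin.mul continuous_const).div (continuous_sphD59 d)
      (fun β => (sphD_pos59 β d).ne')).neg
  rw [tau_zero59, tau_pi59, intervalIntegral.integral_symm (-d) d] at hcv
  -- the left side is `- sinh d` times the `β`-integral
  have hL : (∫ β in (0 : ℝ)..Real.pi,
      (-(Real.sin β * Real.sinh d / sphD β d)) • (g ∘ tau59 d) β)
        = -((Real.sinh d : ℝ) : ℂ) * ∫ β in (0 : ℝ)..Real.pi,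
            besJ (k * Real.exp s * Real.sin β * Real.sinh d / sphD β d)
              * F (s - Real.log (sphD β d)) * ((Real.sin β : ℝ) : ℂ) := by
    rw [← intervalIntegral.integral_const_mul]
    refine intervalIntegral.integral_congr ?_
    intro β hβ
    rw [Set.uIcc_of_le Real.pi_pos.le] at hβ
    have hD := sphD_pos59 β d
    have hsq := sqrt_tau59 d β hd hβ.1 hβ.2
    have harg : k * Real.exp s * Real.sqrt
        (2 * Real.exp (tau59 d β) * (Real.cosh d - Real.cosh (tau59 d β)))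
          = k * Real.exp s * Real.sin β * Real.sinh d / sphD β d := by
      rw [hsq]; ring
    have hst : s + tau59 d β = s - Real.log (sphD β d) := by
      unfold tau59; ring
    simp only [Function.comp_apply, hg, harg, hst, exp_neg_tau59, Complex.real_smul]
    have hDc : ((sphD β d : ℝ) : ℂ) ≠ 0 := Complex.ofReal_ne_zero.mpr hD.ne'
    push_cast
    field_simp
  rw [hL, hF s d hd] at hcv
  -- conclude
  have hsc : ((Real.sinh d : ℝ) : ℂ) ≠ 0 := Complex.ofReal_ne_zero.mpr hsinh.ne'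
  have hG : (∫ t in (-d)..d, g t) = ((2 * d : ℝ) : ℂ) * F s := by
    have h2 : -((Real.sinh d : ℝ) : ℂ) * (((2 * (d / Real.sinh d) : ℝ) : ℂ) * F s)
        = -(((2 * d : ℝ) : ℂ) * F s) := by
      have e1 : ((2 * (d / Real.sinh d) : ℝ) : ℂ)
          = 2 * ((d : ℝ) : ℂ) / ((Real.sinh d : ℝ) : ℂ) := by
        rw [Complex.ofReal_mul, Complex.ofReal_div, Complex.ofReal_ofNat, mul_div_assoc]
      have e2 : ((2 * d : ℝ) : ℂ) = 2 * ((d : ℝ) : ℂ) := by
        rw [Complex.ofReal_mul, Complex.ofReal_ofNat]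
      rw [e1, e2]
      field_simp
    rw [h2] at hcv
    exact (neg_injective hcv).symm
  have hR : (∫ t in (-d)..d,
      besJ (k * Real.exp s * Real.sqrt (2 * Real.exp t * (Real.cosh d - Real.cosh t)))
        * (fun s => ((Real.exp (-s) : ℝ) : ℂ) * F s) (s + t))
        = ((Real.exp (-s) : ℝ) : ℂ) * ∫ t in (-d)..d, g t := by
    rw [← intervalIntegral.integral_const_mul]
    refine intervalIntegral.integral_congr ?_
    intro t _
    simp only [hg]
    have : Real.exp (-(s + t)) = Real.exp (-s) * Real.exp (-t) := by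
      rw [← Real.exp_add]; congr 1; ring
    rw [this]
    push_cast
    ring
  rw [hR, hG]
  ring

end Fermat.Agent.LT.T2.H59

end

end
-- ===== PACK-END LT/T2/H59/Subst.lean

-- ===== PACK-BEGIN LT/T3/H162/Affine.lean
section



/-!
# Row LT, tower T3, leaf T3.18a.4.4 `N893.AffineC` (helper162) -- OFF-MAIN

`affineC162 K : T1.LocCompC K → AffineC K`, the Prop `AffineC` VERBATIM from
`LT/T3/H893/NIntSpec.lean` (helper893, sha256 1ddb5c4572c4; byte-identical copies of A0,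
T1/Spec, T3/Spec, T3/EKSpec, T3/H736/ASSpec).

General form (`affine_integral162`): `R` a topological ring, locally compact and second
countable, with its Borel σ-algebra, `ν` an additive Haar measure, `a` a unit: there is a
constant `c` with `∫ Q (a x + r) dν = c ∫ Q dν` for all `r` and all integrable `Q`, and
`x ↦ Q (a x + r)` is integrable.  (`x ↦ a x` is a topological automorphism of the additive
group, the image of `ν` is an additive Haar measure, uniqueness of the Haar measure;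
translation invariance.)
-/

set_option autoImplicit false
set_option linter.style.haveILetI false

open MeasureTheory

noncomputable section

namespace Fermat.Agent.LT.T3.H162

/-- Left multiplication by a unit of a topological ring, as a topological automorphism of the
additive group. -/
def mulLeftEquiv162 {R : Type*} [Ring R] [TopologicalSpace R] [IsTopologicalRing R] (a : Rˣ) :
    R ≃ₜ+ R where
  toFun x := (a : R) * x
  invFun x := ((a⁻¹ : Rˣ) : R) * x
  left_inv x := by simp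
  right_inv x := by simp
  map_add' x y := mul_add _ _ _
  continuous_toFun := continuous_const.mul continuous_id
  continuous_invFun := continuous_const.mul continuous_id

@[simp] theorem mulLeftEquiv162_apply {R : Type*} [Ring R] [TopologicalSpace R]
    [IsTopologicalRing R] (a : Rˣ) (x : R) : mulLeftEquiv162 a x = (a : R) * x := rfl

/-- **Affine substitution in a Haar integral.** -/
theorem affine_integral162 {R : Type*} [Ring R] [TopologicalSpace R] [IsTopologicalRing R]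
    [LocallyCompactSpace R] [SecondCountableTopology R] [MeasurableSpace R] [BorelSpace R]
    (ν : Measure R) [ν.IsAddHaarMeasure] (a : Rˣ) :
    ∃ c : ℂ, ∀ (r : R) (Q : R → ℂ), Integrable Q ν →
      Integrable (fun x : R => Q ((a : R) * x + r)) ν ∧
        ∫ x, Q ((a : R) * x + r) ∂ν = c * ∫ X, Q X ∂ν := by
  -- the image measure
  set e : R ≃ₜ+ R := mulLeftEquiv162 a with he
  have hmeas : Measurable (e : R → R) := e.continuous.measurable
  haveI : (ν.map e).IsAddHaarMeasure := ContinuousAddEquiv.isAddHaarMeasure_map ν e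
  have hmap : ν.map e = Measure.addHaarScalarFactor (ν.map e) ν • ν :=
    Measure.isAddLeftInvariant_eq_smul (ν.map e) ν
  set κ := Measure.addHaarScalarFactor (ν.map e) ν with hκ
  refine ⟨((κ : ℝ) : ℂ), fun r Q hQ => ?_⟩
  -- the measurable embedding
  have hemb : MeasurableEmbedding (e : R → R) := e.toHomeomorph.measurableEmbedding
  -- `Q` is integrable for the image measure
  have hQ' : Integrable Q (ν.map e) := by
    rw [hmap]
    exact hQ.smul_measure (by simp)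
  -- `Q ∘ e` is integrable
  have hQe : Integrable (fun x : R => Q ((a : R) * x)) ν := by
    have := (hemb.integrable_map_iff (μ := ν) (g := Q)).mp hQ'
    exact this
  -- translation: `a x + r = a (x + a⁻¹ r)`
  have htr : ∀ x : R, (a : R) * x + r = (a : R) * (x + ((a⁻¹ : Rˣ) : R) * r) := by
    intro x
    rw [mul_add, ← mul_assoc, Units.mul_inv, one_mul]
  have hfun : (fun x : R => Q ((a : R) * x + r))
      = fun x : R => (fun y : R => Q ((a : R) * y)) (x + ((a⁻¹ : Rˣ) : R) * r) := by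
    funext x
    rw [htr x]
  constructor
  · rw [hfun]
    exact hQe.comp_add_right _
  · rw [hfun, integral_add_right_eq_self (fun y : R => Q ((a : R) * y))]
    have h1 : ∫ y, Q ((a : R) * y) ∂ν = ∫ X, Q X ∂(ν.map e) :=
      (hemb.integral_map (μ := ν) Q).symm
    rw [h1, hmap, integral_smul_nnreal_measure]
    simp [NNReal.smul_def]

open Fermat.Agent.LT.H556.A0 Fermat.Agent.LT

/-- **T3.18a.4.4 `N893.AffineC`** from local compactness (tower T1). -/
theorem affineC162 (K : Type) [Field K] [NumberField K] (h : T1.LocCompC K) :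
    T3.AS.N893.AffineC K := by
  obtain ⟨⟨hlc, -, hsc⟩, -⟩ := h
  haveI := hlc
  haveI := hsc
  letI : MeasurableSpace (Adl K) := borel (Adl K)
  haveI : BorelSpace (Adl K) := ⟨rfl⟩
  intro ν hν a
  haveI := hν
  exact affine_integral162 ν a

end Fermat.Agent.LT.T3.H162

end

end
-- ===== PACK-END LT/T3/H162/Affine.lean

-- ===== PACK-BEGIN LT/T3/H315/IwaAlg.lean
section


/-!
# Row LT, tower T3, leaf AS.2.5 `IwaC` (registry 1176, helper315) -- part 1: algebra

OFF-MAIN.  Mathlib only (plus the definitions of `AbelCut.lean`).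

* `Pc` : the group `P` of upper triangular matrices with positive diagonal, in the coordinates
  `(s, x) ↦ iwa s x = diag(e^{s₁}, e^{s₂}) n(x)`; group law
  `(s', x') * (s, x) = (s' + s, x + e^{s₂ - s₁} x')`;
* `iwaP : Pc → GL₂(ℂ)` is multiplicative (`iwaP_mul`);
* `rhoP : GL₂(ℂ) → Pc` the Iwasawa projection, `rhoP (iwaP b * h) = b * rhoP h` (`rhoP_mul`),
  `rhoP (iwaP p) = p`, and `h = iwaP (rhoP h) * k` with `k ∈ U(2)` (`exists_unitary_rhoP`).
-/

set_option autoImplicit false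
set_option linter.unusedSimpArgs false
set_option linter.unusedTactic false
set_option linter.unreachableTactic false

open Fermat.Agent.LT.H556.A0 Fermat.Agent.LT.T3.AS Fermat.Agent.LT.T3.H614
open scoped ComplexConjugate

noncomputable section

namespace Fermat.Agent.LT.T3.H315

/-- The coordinates `(s, x)` of the group `P`. -/
def Pc : Type := (ℝ × ℝ) × ℂ

namespace Pc

instance : TopologicalSpace Pc := inferInstanceAs (TopologicalSpace ((ℝ × ℝ) × ℂ))
instance : T2Space Pc := inferInstanceAs (T2Space ((ℝ × ℝ) × ℂ))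
instance : LocallyCompactSpace Pc := inferInstanceAs (LocallyCompactSpace ((ℝ × ℝ) × ℂ))
instance : SecondCountableTopology Pc :=
  inferInstanceAs (SecondCountableTopology ((ℝ × ℝ) × ℂ))
instance : MeasurableSpace Pc := inferInstanceAs (MeasurableSpace ((ℝ × ℝ) × ℂ))
instance : BorelSpace Pc := inferInstanceAs (BorelSpace ((ℝ × ℝ) × ℂ))

/-- Constructor. -/
def mk (s₁ s₂ : ℝ) (x : ℂ) : Pc := ((s₁, s₂), x)

/-- First exponent. -/
def s1 (p : Pc) : ℝ := (p : (ℝ × ℝ) × ℂ).1.1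
/-- Second exponent. -/
def s2 (p : Pc) : ℝ := (p : (ℝ × ℝ) × ℂ).1.2
/-- Unipotent coordinate. -/
def xc (p : Pc) : ℂ := (p : (ℝ × ℝ) × ℂ).2

@[ext] theorem ext {p q : Pc} (h1 : p.s1 = q.s1) (h2 : p.s2 = q.s2) (h3 : p.xc = q.xc) : p = q :=
  Prod.ext (Prod.ext h1 h2) h3

@[simp] theorem s1_mk (s₁ s₂ : ℝ) (x : ℂ) : (mk s₁ s₂ x).s1 = s₁ := rfl
@[simp] theorem s2_mk (s₁ s₂ : ℝ) (x : ℂ) : (mk s₁ s₂ x).s2 = s₂ := rfl
@[simp] theorem xc_mk (s₁ s₂ : ℝ) (x : ℂ) : (mk s₁ s₂ x).xc = x := rfl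

instance : Mul Pc :=
  ⟨fun p q => mk (p.s1 + q.s1) (p.s2 + q.s2) (q.xc + ((Real.exp (q.s2 - q.s1) : ℝ) : ℂ) * p.xc)⟩
instance : One Pc := ⟨mk 0 0 0⟩
instance : Inv Pc :=
  ⟨fun p => mk (-p.s1) (-p.s2) (-(((Real.exp (p.s1 - p.s2) : ℝ) : ℂ) * p.xc))⟩

@[simp] theorem s1_mul (p q : Pc) : (p * q).s1 = p.s1 + q.s1 := rfl
@[simp] theorem s2_mul (p q : Pc) : (p * q).s2 = p.s2 + q.s2 := rfl
@[simp] theorem xc_mul (p q : Pc) :
    (p * q).xc = q.xc + ((Real.exp (q.s2 - q.s1) : ℝ) : ℂ) * p.xc := rfl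
@[simp] theorem s1_one : (1 : Pc).s1 = 0 := rfl
@[simp] theorem s2_one : (1 : Pc).s2 = 0 := rfl
@[simp] theorem xc_one : (1 : Pc).xc = 0 := rfl
@[simp] theorem s1_inv (p : Pc) : (p⁻¹).s1 = -p.s1 := rfl
@[simp] theorem s2_inv (p : Pc) : (p⁻¹).s2 = -p.s2 := rfl
@[simp] theorem xc_inv (p : Pc) :
    (p⁻¹).xc = -(((Real.exp (p.s1 - p.s2) : ℝ) : ℂ) * p.xc) := rfl

instance : Group Pc :=
  Group.ofLeftAxioms
    (by
      intro p q r
      ext
      · simp [add_assoc]
      · simp [add_assoc]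
      · simp only [xc_mul, s1_mul, s2_mul]
        have : Real.exp (q.s2 + r.s2 - (q.s1 + r.s1))
            = Real.exp (r.s2 - r.s1) * Real.exp (q.s2 - q.s1) := by
          rw [← Real.exp_add]; congr 1; ring
        rw [this]
        push_cast
        ring)
    (by
      intro p
      ext <;> simp)
    (by
      intro p
      ext
      · simp
      · simp
      · simp only [xc_mul, xc_inv, xc_one]
        have : ((Real.exp (p.s2 - p.s1) : ℝ) : ℂ) * ((Real.exp (p.s1 - p.s2) : ℝ) : ℂ) = 1 := by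
          rw [← Complex.ofReal_mul, ← Real.exp_add]
          simp
        linear_combination -(p.xc) * this)

end Pc

/-- The chart `Pc → GL₂(ℂ)`. -/
def iwaP (p : Pc) : GL (Fin 2) ℂ := iwa (p.s1, p.s2) p.xc

theorem iwaP_coe (p : Pc) :
    ((iwaP p : GL (Fin 2) ℂ) : Matrix (Fin 2) (Fin 2) ℂ)
      = !![((Real.exp p.s1 : ℝ) : ℂ), ((Real.exp p.s1 : ℝ) : ℂ) * p.xc;
          0, ((Real.exp p.s2 : ℝ) : ℂ)] :=
  rfl

theorem iwaP_mul (p q : Pc) : iwaP (p * q) = iwaP p * iwaP q := by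
  apply Units.ext
  rw [Units.val_mul, iwaP_coe, iwaP_coe, iwaP_coe]
  ext i j
  fin_cases i <;> fin_cases j <;>
    simp [Matrix.mul_apply, Fin.sum_univ_two, Real.exp_add, Real.exp_sub]
  have h1 : Complex.exp (q.s1 : ℂ) ≠ 0 := Complex.exp_ne_zero _
  field_simp

/-! ## The Iwasawa projection -/

/-- The norm of the bottom row. -/
def botN (h : Matrix (Fin 2) (Fin 2) ℂ) : ℝ := Real.sqrt (‖h 1 0‖ ^ 2 + ‖h 1 1‖ ^ 2)

/-- The Iwasawa projection `GL₂(ℂ) → P`, in coordinates: for `h = [[a, b], [c, e]]`,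
`e^{s₂} = √(|c|² + |e|²)`, `e^{s₁} = |det h| / e^{s₂}`, `x = (a c̄ + b ē) / |det h|`. -/
def rhoP (h : GL (Fin 2) ℂ) : Pc :=
  Pc.mk (Real.log ‖(h : Matrix (Fin 2) (Fin 2) ℂ).det‖
        - Real.log (botN (h : Matrix (Fin 2) (Fin 2) ℂ)))
    (Real.log (botN (h : Matrix (Fin 2) (Fin 2) ℂ)))
    (((h : Matrix (Fin 2) (Fin 2) ℂ) 0 0 * conj ((h : Matrix (Fin 2) (Fin 2) ℂ) 1 0)
        + (h : Matrix (Fin 2) (Fin 2) ℂ) 0 1 * conj ((h : Matrix (Fin 2) (Fin 2) ℂ) 1 1))
      / ((‖(h : Matrix (Fin 2) (Fin 2) ℂ).det‖ : ℝ) : ℂ))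

theorem det_ne_zero315 (h : GL (Fin 2) ℂ) : (h : Matrix (Fin 2) (Fin 2) ℂ).det ≠ 0 := by
  have hdet : IsUnit (h : Matrix (Fin 2) (Fin 2) ℂ).det :=
    (Matrix.isUnit_iff_isUnit_det _).1 ⟨h, rfl⟩
  exact hdet.ne_zero

theorem norm_det_pos315 (h : GL (Fin 2) ℂ) : 0 < ‖(h : Matrix (Fin 2) (Fin 2) ℂ).det‖ :=
  norm_pos_iff.2 (det_ne_zero315 h)

theorem botN_sq_pos315 (h : GL (Fin 2) ℂ) :
    0 < ‖(h : Matrix (Fin 2) (Fin 2) ℂ) 1 0‖ ^ 2 + ‖(h : Matrix (Fin 2) (Fin 2) ℂ) 1 1‖ ^ 2 := by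
  by_contra hcon
  have h0 : ‖(h : Matrix (Fin 2) (Fin 2) ℂ) 1 0‖ ^ 2 + ‖(h : Matrix (Fin 2) (Fin 2) ℂ) 1 1‖ ^ 2
      = 0 := le_antisymm (not_lt.1 hcon) (by positivity)
  have h1 : ‖(h : Matrix (Fin 2) (Fin 2) ℂ) 1 0‖ = 0 := by
    nlinarith [norm_nonneg ((h : Matrix (Fin 2) (Fin 2) ℂ) 1 0),
      norm_nonneg ((h : Matrix (Fin 2) (Fin 2) ℂ) 1 1)]
  have h2 : ‖(h : Matrix (Fin 2) (Fin 2) ℂ) 1 1‖ = 0 := by
    nlinarith [norm_nonneg ((h : Matrix (Fin 2) (Fin 2) ℂ) 1 0),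
      norm_nonneg ((h : Matrix (Fin 2) (Fin 2) ℂ) 1 1)]
  apply det_ne_zero315 h
  rw [Matrix.det_fin_two, norm_eq_zero.1 h1, norm_eq_zero.1 h2]
  simp

theorem botN_pos315 (h : GL (Fin 2) ℂ) : 0 < botN (h : Matrix (Fin 2) (Fin 2) ℂ) :=
  Real.sqrt_pos.2 (botN_sq_pos315 h)

theorem botN_sq315 (h : Matrix (Fin 2) (Fin 2) ℂ) : botN h ^ 2 = ‖h 1 0‖ ^ 2 + ‖h 1 1‖ ^ 2 :=
  Real.sq_sqrt (by positivity)

@[simp] theorem exp_s2_rhoP (h : GL (Fin 2) ℂ) :
    Real.exp (rhoP h).s2 = botN (h : Matrix (Fin 2) (Fin 2) ℂ) := by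
  simp [rhoP, Real.exp_log (botN_pos315 h)]

@[simp] theorem exp_s1_rhoP (h : GL (Fin 2) ℂ) :
    Real.exp (rhoP h).s1
      = ‖(h : Matrix (Fin 2) (Fin 2) ℂ).det‖ / botN (h : Matrix (Fin 2) (Fin 2) ℂ) := by
  simp [rhoP, Real.exp_sub, Real.exp_log (botN_pos315 h), Real.exp_log (norm_det_pos315 h)]

/-- The entries of `iwaP b * h`. -/
theorem iwaP_mul_coe (b : Pc) (h : GL (Fin 2) ℂ) :
    ((iwaP b * h : GL (Fin 2) ℂ) : Matrix (Fin 2) (Fin 2) ℂ)
      = !![((Real.exp b.s1 : ℝ) : ℂ) * ((h : Matrix (Fin 2) (Fin 2) ℂ) 0 0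
              + b.xc * (h : Matrix (Fin 2) (Fin 2) ℂ) 1 0),
            ((Real.exp b.s1 : ℝ) : ℂ) * ((h : Matrix (Fin 2) (Fin 2) ℂ) 0 1
              + b.xc * (h : Matrix (Fin 2) (Fin 2) ℂ) 1 1);
          ((Real.exp b.s2 : ℝ) : ℂ) * (h : Matrix (Fin 2) (Fin 2) ℂ) 1 0,
            ((Real.exp b.s2 : ℝ) : ℂ) * (h : Matrix (Fin 2) (Fin 2) ℂ) 1 1] := by
  rw [Units.val_mul, iwaP_coe]
  ext i j
  fin_cases i <;> fin_cases j <;> simp [Matrix.mul_apply, Fin.sum_univ_two] <;> ring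

theorem norm_det_iwaP_mul (b : Pc) (h : GL (Fin 2) ℂ) :
    ‖((iwaP b * h : GL (Fin 2) ℂ) : Matrix (Fin 2) (Fin 2) ℂ).det‖
      = Real.exp b.s1 * Real.exp b.s2 * ‖(h : Matrix (Fin 2) (Fin 2) ℂ).det‖ := by
  rw [Units.val_mul, Matrix.det_mul, iwaP_coe, Matrix.det_fin_two_of, norm_mul]
  congr 1
  rw [mul_zero, sub_zero, norm_mul, Complex.norm_real, Complex.norm_real, Real.norm_eq_abs,
    Real.norm_eq_abs, abs_of_pos (Real.exp_pos _), abs_of_pos (Real.exp_pos _)]

theorem botN_iwaP_mul (b : Pc) (h : GL (Fin 2) ℂ) :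
    botN ((iwaP b * h : GL (Fin 2) ℂ) : Matrix (Fin 2) (Fin 2) ℂ)
      = Real.exp b.s2 * botN (h : Matrix (Fin 2) (Fin 2) ℂ) := by
  rw [iwaP_mul_coe]
  unfold botN
  simp only [Matrix.of_apply, Matrix.cons_val', Matrix.cons_val_zero, Matrix.cons_val_one,
    Matrix.cons_val_fin_one, norm_mul, Complex.norm_real, Real.norm_eq_abs,
    abs_of_pos (Real.exp_pos _)]
  rw [show (Real.exp b.s2 * ‖(h : Matrix (Fin 2) (Fin 2) ℂ) 1 0‖) ^ 2
      + (Real.exp b.s2 * ‖(h : Matrix (Fin 2) (Fin 2) ℂ) 1 1‖) ^ 2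
      = Real.exp b.s2 ^ 2 * (‖(h : Matrix (Fin 2) (Fin 2) ℂ) 1 0‖ ^ 2
        + ‖(h : Matrix (Fin 2) (Fin 2) ℂ) 1 1‖ ^ 2) by ring]
  rw [Real.sqrt_mul (sq_nonneg _), Real.sqrt_sq (Real.exp_pos _).le]

/-- **Equivariance of the Iwasawa projection.** -/
theorem rhoP_mul (b : Pc) (h : GL (Fin 2) ℂ) : rhoP (iwaP b * h) = b * rhoP h := by
  have hd := norm_det_pos315 h
  have hn := botN_pos315 h
  have e1 := Real.exp_pos b.s1
  have e2 := Real.exp_pos b.s2
  ext
  · show Real.log ‖((iwaP b * h : GL (Fin 2) ℂ) : Matrix (Fin 2) (Fin 2) ℂ).det‖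
        - Real.log (botN ((iwaP b * h : GL (Fin 2) ℂ) : Matrix (Fin 2) (Fin 2) ℂ))
      = b.s1 + (Real.log ‖(h : Matrix (Fin 2) (Fin 2) ℂ).det‖
        - Real.log (botN (h : Matrix (Fin 2) (Fin 2) ℂ)))
    rw [norm_det_iwaP_mul, botN_iwaP_mul, Real.log_mul (by positivity) hd.ne',
      Real.log_mul e1.ne' e2.ne', Real.log_mul e2.ne' hn.ne', Real.log_exp, Real.log_exp]
    ring
  · show Real.log (botN ((iwaP b * h : GL (Fin 2) ℂ) : Matrix (Fin 2) (Fin 2) ℂ))
      = b.s2 + Real.log (botN (h : Matrix (Fin 2) (Fin 2) ℂ))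
    rw [botN_iwaP_mul, Real.log_mul e2.ne' hn.ne', Real.log_exp]
  · rw [Pc.xc_mul, Real.exp_sub, exp_s2_rhoP, exp_s1_rhoP]
    show (((iwaP b * h : GL (Fin 2) ℂ) : Matrix (Fin 2) (Fin 2) ℂ) 0 0
          * conj (((iwaP b * h : GL (Fin 2) ℂ) : Matrix (Fin 2) (Fin 2) ℂ) 1 0)
        + ((iwaP b * h : GL (Fin 2) ℂ) : Matrix (Fin 2) (Fin 2) ℂ) 0 1
          * conj (((iwaP b * h : GL (Fin 2) ℂ) : Matrix (Fin 2) (Fin 2) ℂ) 1 1))
        / ((‖((iwaP b * h : GL (Fin 2) ℂ) : Matrix (Fin 2) (Fin 2) ℂ).det‖ : ℝ) : ℂ)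
      = ((h : Matrix (Fin 2) (Fin 2) ℂ) 0 0 * conj ((h : Matrix (Fin 2) (Fin 2) ℂ) 1 0)
          + (h : Matrix (Fin 2) (Fin 2) ℂ) 0 1 * conj ((h : Matrix (Fin 2) (Fin 2) ℂ) 1 1))
          / ((‖(h : Matrix (Fin 2) (Fin 2) ℂ).det‖ : ℝ) : ℂ)
        + ((botN (h : Matrix (Fin 2) (Fin 2) ℂ)
            / (‖(h : Matrix (Fin 2) (Fin 2) ℂ).det‖ / botN (h : Matrix (Fin 2) (Fin 2) ℂ)) : ℝ) : ℂ)
          * b.xc
    rw [norm_det_iwaP_mul, iwaP_mul_coe]
    simp only [Matrix.of_apply, Matrix.cons_val', Matrix.cons_val_zero, Matrix.cons_val_one,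
      Matrix.cons_val_fin_one, map_mul, Complex.conj_ofReal]
    have hN : ((botN (h : Matrix (Fin 2) (Fin 2) ℂ) : ℝ) : ℂ)
          * ((botN (h : Matrix (Fin 2) (Fin 2) ℂ) : ℝ) : ℂ)
        = (h : Matrix (Fin 2) (Fin 2) ℂ) 1 0 * conj ((h : Matrix (Fin 2) (Fin 2) ℂ) 1 0)
          + (h : Matrix (Fin 2) (Fin 2) ℂ) 1 1 * conj ((h : Matrix (Fin 2) (Fin 2) ℂ) 1 1) := by
      rw [Complex.mul_conj, Complex.mul_conj, Complex.normSq_eq_norm_sq,
        Complex.normSq_eq_norm_sq, ← Complex.ofReal_mul, ← Complex.ofReal_add, ← botN_sq315]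
      ring_nf
    have hdC : ((‖(h : Matrix (Fin 2) (Fin 2) ℂ).det‖ : ℝ) : ℂ) ≠ 0 := by
      exact_mod_cast hd.ne'
    have hnC : ((botN (h : Matrix (Fin 2) (Fin 2) ℂ) : ℝ) : ℂ) ≠ 0 := by
      exact_mod_cast hn.ne'
    have e1C : ((Real.exp b.s1 : ℝ) : ℂ) ≠ 0 := by exact_mod_cast e1.ne'
    have e2C : ((Real.exp b.s2 : ℝ) : ℂ) ≠ 0 := by exact_mod_cast e2.ne'
    push_cast
    field_simp
    linear_combination (-b.xc) * hN

theorem botN_mul_self_C315 (h : Matrix (Fin 2) (Fin 2) ℂ) :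
    ((botN h : ℝ) : ℂ) * ((botN h : ℝ) : ℂ) = h 1 0 * conj (h 1 0) + h 1 1 * conj (h 1 1) := by
  rw [Complex.mul_conj, Complex.mul_conj, Complex.normSq_eq_norm_sq,
    Complex.normSq_eq_norm_sq, ← Complex.ofReal_mul, ← Complex.ofReal_add, ← botN_sq315]
  ring_nf

theorem norm_det_mul_self_C315 (h : Matrix (Fin 2) (Fin 2) ℂ) :
    ((‖h.det‖ : ℝ) : ℂ) * ((‖h.det‖ : ℝ) : ℂ)
      = (h 0 0 * h 1 1 - h 0 1 * h 1 0) * (conj (h 0 0) * conj (h 1 1) - conj (h 0 1) * conj (h 1 0)) := by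
  have : (h 0 0 * h 1 1 - h 0 1 * h 1 0) * (conj (h 0 0) * conj (h 1 1) - conj (h 0 1) * conj (h 1 0))
      = h.det * conj h.det := by
    rw [Matrix.det_fin_two]
    simp only [map_sub, map_mul]
  rw [this, Complex.mul_conj, Complex.normSq_eq_norm_sq, ← Complex.ofReal_mul]
  ring_nf

/-- **The Gram matrices of `h` and of its Iwasawa projection agree.** -/
theorem gram_rhoP (h : GL (Fin 2) ℂ) :
    (h : Matrix (Fin 2) (Fin 2) ℂ) * (h : Matrix (Fin 2) (Fin 2) ℂ).conjTranspose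
      = (iwaP (rhoP h) : Matrix (Fin 2) (Fin 2) ℂ)
        * (iwaP (rhoP h) : Matrix (Fin 2) (Fin 2) ℂ).conjTranspose := by
  have hd := norm_det_pos315 h
  have hn := botN_pos315 h
  have hN := botN_mul_self_C315 (h : Matrix (Fin 2) (Fin 2) ℂ)
  have hD := norm_det_mul_self_C315 (h : Matrix (Fin 2) (Fin 2) ℂ)
  have hdC : ((‖(h : Matrix (Fin 2) (Fin 2) ℂ).det‖ : ℝ) : ℂ) ≠ 0 := by
    exact_mod_cast hd.ne'
  have hnC : ((botN (h : Matrix (Fin 2) (Fin 2) ℂ) : ℝ) : ℂ) ≠ 0 := by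
    exact_mod_cast hn.ne'
  have hx : (rhoP h).xc
      = ((h : Matrix (Fin 2) (Fin 2) ℂ) 0 0 * conj ((h : Matrix (Fin 2) (Fin 2) ℂ) 1 0)
        + (h : Matrix (Fin 2) (Fin 2) ℂ) 0 1 * conj ((h : Matrix (Fin 2) (Fin 2) ℂ) 1 1))
      / ((‖(h : Matrix (Fin 2) (Fin 2) ℂ).det‖ : ℝ) : ℂ) := rfl
  rw [iwaP_coe, exp_s1_rhoP, exp_s2_rhoP, hx]
  generalize (h : Matrix (Fin 2) (Fin 2) ℂ) = M at *
  ext i j
  fin_cases i <;> fin_cases j
  · simp only [Matrix.mul_apply, Matrix.conjTranspose_apply, Fin.sum_univ_two, Matrix.of_apply,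
      Matrix.cons_val', Matrix.cons_val_zero, Matrix.cons_val_one, Matrix.cons_val_fin_one,
      Fin.zero_eta, Fin.isValue, Complex.star_def, map_mul, map_div₀, map_add,
      Complex.conj_ofReal, Complex.conj_conj]
    push_cast
    field_simp
    linear_combination (M 0 0 * conj (M 0 0) + M 0 1 * conj (M 0 1)) * hN - hD
  · simp only [Matrix.mul_apply, Matrix.conjTranspose_apply, Fin.sum_univ_two, Matrix.of_apply,
      Matrix.cons_val', Matrix.cons_val_zero, Matrix.cons_val_one, Matrix.cons_val_fin_one,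
      Fin.zero_eta, Fin.mk_one, Fin.isValue, Complex.star_def, map_mul, map_div₀, map_add,
      Complex.conj_ofReal, Complex.conj_conj, map_zero, mul_zero, zero_add]
    push_cast
    field_simp
  · simp only [Matrix.mul_apply, Matrix.conjTranspose_apply, Fin.sum_univ_two, Matrix.of_apply,
      Matrix.cons_val', Matrix.cons_val_zero, Matrix.cons_val_one, Matrix.cons_val_fin_one,
      Fin.zero_eta, Fin.mk_one, Fin.isValue, Complex.star_def, map_mul, map_div₀, map_add,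
      Complex.conj_ofReal, Complex.conj_conj, map_zero, mul_zero, zero_add, zero_mul]
    push_cast
    field_simp
  · simp only [Matrix.mul_apply, Matrix.conjTranspose_apply, Fin.sum_univ_two, Matrix.of_apply,
      Matrix.cons_val', Matrix.cons_val_zero, Matrix.cons_val_one, Matrix.cons_val_fin_one,
      Fin.mk_one, Fin.isValue, Complex.star_def, map_mul, map_div₀, map_add,
      Complex.conj_ofReal, Complex.conj_conj, map_zero, mul_zero, zero_add, zero_mul]
    linear_combination -hN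

/-- **Iwasawa decomposition**: `h = iwaP (rhoP h) * k` with `k ∈ U(2)`. -/
theorem exists_unitary_rhoP (h : GL (Fin 2) ℂ) :
    ∃ k : GL (Fin 2) ℂ, IsUnitary2 k ∧ h = iwaP (rhoP h) * k := by
  refine ⟨(iwaP (rhoP h))⁻¹ * h, ?_, by group⟩
  unfold IsUnitary2
  have hp1 : (((iwaP (rhoP h))⁻¹ : GL (Fin 2) ℂ) : Matrix (Fin 2) (Fin 2) ℂ)
      * (iwaP (rhoP h) : Matrix (Fin 2) (Fin 2) ℂ) = 1 := by
    rw [← Units.val_mul, inv_mul_cancel, Units.val_one]
  rw [Units.val_mul, Matrix.conjTranspose_mul]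
  calc (((iwaP (rhoP h))⁻¹ : GL (Fin 2) ℂ) : Matrix (Fin 2) (Fin 2) ℂ)
        * (h : Matrix (Fin 2) (Fin 2) ℂ)
        * ((h : Matrix (Fin 2) (Fin 2) ℂ).conjTranspose
          * (((iwaP (rhoP h))⁻¹ : GL (Fin 2) ℂ) : Matrix (Fin 2) (Fin 2) ℂ).conjTranspose)
      = (((iwaP (rhoP h))⁻¹ : GL (Fin 2) ℂ) : Matrix (Fin 2) (Fin 2) ℂ)
        * ((h : Matrix (Fin 2) (Fin 2) ℂ) * (h : Matrix (Fin 2) (Fin 2) ℂ).conjTranspose)
        * (((iwaP (rhoP h))⁻¹ : GL (Fin 2) ℂ) : Matrix (Fin 2) (Fin 2) ℂ).conjTranspose := by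
        simp only [Matrix.mul_assoc]
    _ = ((((iwaP (rhoP h))⁻¹ : GL (Fin 2) ℂ) : Matrix (Fin 2) (Fin 2) ℂ)
          * (iwaP (rhoP h) : Matrix (Fin 2) (Fin 2) ℂ))
        * ((((iwaP (rhoP h))⁻¹ : GL (Fin 2) ℂ) : Matrix (Fin 2) (Fin 2) ℂ)
          * (iwaP (rhoP h) : Matrix (Fin 2) (Fin 2) ℂ)).conjTranspose := by
        rw [gram_rhoP h, Matrix.conjTranspose_mul]
        simp only [Matrix.mul_assoc]
    _ = 1 := by rw [hp1]; simp

/-- A right `U(2)`-invariant function factors through the Iwasawa projection. -/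
theorem eq_comp_rhoP {α : Type*} (Φ : GL (Fin 2) ℂ → α)
    (hΦ : ∀ k h : GL (Fin 2) ℂ, IsUnitary2 k → Φ (h * k) = Φ h) (h : GL (Fin 2) ℂ) :
    Φ h = Φ (iwaP (rhoP h)) := by
  obtain ⟨k, hk, hh⟩ := exists_unitary_rhoP h
  conv_lhs => rw [hh]
  exact hΦ k _ hk

theorem rhoP_one : rhoP 1 = 1 := by
  ext
  · simp [rhoP, botN]
  · simp [rhoP, botN]
  · simp [rhoP]

theorem rhoP_iwaP (p : Pc) : rhoP (iwaP p) = p := by
  have := rhoP_mul p 1
  rwa [mul_one, rhoP_one, mul_one] at this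

end Fermat.Agent.LT.T3.H315

end

end
-- ===== PACK-END LT/T3/H315/IwaAlg.lean

-- ===== PACK-BEGIN LT/T3/H846/PureUpper.lean
section


/-!
# Row LT, tower T3, sub-leaf T3.18a.4.2 = N.2 `PureUpperC` (helper846)

OFF-MAIN.  `pureUpperC846 : AS.N893.PureUpperC K` VERBATIM (NIntSpec of helper893,
sha256 `1ddb5c45`, byte-identical copy; closure: A0 `66d3374a`, T1/Spec `e8ae48d6`, T3/Spec
`44de320b`, T3/EKSpec `d0ed12cc`, ASSpec `a661c778`).

The pure tensor on `K⁰ B K⁰`: `finGL`, `infGL` are monoid homomorphisms and map `upperGL` to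
`upperGL`; the components of an element of `K⁰` lie in `GL₂(𝒪_{v₀})` resp. in `U(2)`;
bi-invariance of `f₀` and of the `F_w`.
-/

set_option autoImplicit false
set_option linter.style.haveILetI false
set_option linter.unusedSectionVars false

open IsDedekindDomain NumberField MeasureTheory
open Fermat.Agent.LT.H556.A0

noncomputable section

namespace Fermat.Agent.LT.T3.AS.N893.H846

variable (K : Type) [Field K] [NumberField K]

/-- `finGL` maps `upperGL` to `upperGL`. -/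
theorem finGL_upperGL846 (v : HeightOneSpectrum (𝓞 K)) (c₁ c₂ : (Adl K)ˣ) (X : Adl K) :
    finGL K v (upperGL c₁ c₂ X) = upperGL (finU K v c₁) (finU K v c₂) (finHom K v X) := by
  apply Units.ext
  ext i j
  fin_cases i <;> fin_cases j <;>
    simp [finGL, upperGL, finU, Matrix.GeneralLinearGroup.map]

/-- `infGL` maps `upperGL` to `upperGL`. -/
theorem infGL_upperGL846 (w : InfinitePlace K) (c₁ c₂ : (Adl K)ˣ) (X : Adl K) :
    infGL K w (upperGL c₁ c₂ X) = upperGL (infU K w c₁) (infU K w c₂) (infHom K w X) := by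
  apply Units.ext
  ext i j
  fin_cases i <;> fin_cases j <;>
    simp [infGL, upperGL, infU, Matrix.GeneralLinearGroup.map]

/-- The component at `v` of an element of `K⁰` lies in `GL₂(𝒪_v)`. -/
theorem isIntGL_finGL846 (v : HeightOneSpectrum (𝓞 K)) (k : G K) (hk : T1.IsStdCompact K k) :
    IsIntGL v (finGL K v k) := by
  intro i j
  refine ⟨(hk.1 v).1 i j, ?_⟩
  have h : (finGL K v k)⁻¹ = finGL K v k⁻¹ := (map_inv (finGL K v) k).symm
  rw [h]
  exact (hk.1 v).2 i j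

/-- The component at `w` of an element of `K⁰` lies in `U(2)`. -/
theorem isUnitary2_infGL846 (w : InfinitePlace K) (k : G K) (hk : T1.IsStdCompact K k) :
    IsUnitary2 (infGL K w k) :=
  (hk.2 w).1

/-- **N.2 (the pure tensor on `K⁰ B K⁰`).** -/
theorem pureUpperC846 : PureUpperC K := by
  intro 𝔫 v₀ f₀ F hf₀ hF k₁ k' hk₁ hk' c₁ c₂ X
  have h0 : f₀ (finGL K v₀ (k₁ * upperGL c₁ c₂ X * k'))
      = f₀ (upperGL (finU K v₀ c₁) (finU K v₀ c₂) (finHom K v₀ X)) := by
    rw [map_mul, map_mul, finGL_upperGL846]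
    exact hf₀ _ _ _ (isIntGL_finGL846 K v₀ k₁ hk₁) (isIntGL_finGL846 K v₀ k' hk')
  have hw : ∀ w : InfinitePlace K, F w (infGL K w (k₁ * upperGL c₁ c₂ X * k'))
      = F w (upperGL (infU K w c₁) (infU K w c₂) (infHom K w X)) := by
    intro w
    rw [map_mul, map_mul, infGL_upperGL846]
    exact (hF w).bi_inv _ _ _ (isUnitary2_infGL846 K w k₁ hk₁) (isUnitary2_infGL846 K w k' hk')
  unfold pureFn
  by_cases h : OutsideU K 𝔫 v₀ (k₁ * upperGL c₁ c₂ X * k')
  · rw [if_pos h, if_pos h, one_mul, h0]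
    congr 1
    exact Finset.prod_congr rfl (fun w _ => hw w)
  · rw [if_neg h, if_neg h, zero_mul, zero_mul]

example : PureUpperC K := pureUpperC846 K

end Fermat.Agent.LT.T3.AS.N893.H846

end

end
-- ===== PACK-END LT/T3/H846/PureUpper.lean

-- ===== PACK-BEGIN LT/T3/H848/LocValFin.lean
section




/-!
# Row LT, tower T3, sub-leaf T3.18a.4.6 `N893.LocValFinC` (helper848)

OFF-MAIN.  Imports: Mathlib and byte-identical copies of `LT/T3/H893/NIntSpec.lean`
(sha256 1ddb5c45) with its closure, and of `LT/H11/LC.lean` (helper11, sha256 8ca09ef8, Mathlib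
only: `𝒪_v` is compact).

* `x ↦ f₀ [[c₁, x + t], [0, c₂]]` is invariant under the translations by the open subgroup
  `c₁ 𝒪_v` (right invariance of `f₀` under `[[1, u], [0, 1]]`), hence locally constant;
* its support lies in the union over the representatives `h` of the compact sets
  `h₀₀ 𝒪_v + h₀₁ 𝒪_v - t`;
* the integral: translation invariance of `ν₀`, `HasSatakeN`, `ordv` is additive on the units,
  `ordv α = n` from `(a₀) = 𝔭ⁿ`.
-/

set_option autoImplicit false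
set_option linter.style.haveILetI false

open IsDedekindDomain NumberField MeasureTheory
open Fermat.Agent.LT.H556.A0

noncomputable section

namespace Fermat.Agent.LT.T3.H848

open Fermat.Agent.LT.T3 Fermat.Agent.LT.T3.AS Fermat.Agent.LT.T3.AS.N893

variable {K : Type} [Field K] [NumberField K]

/-! ## The order -/

theorem ordv_mul848 (v : HeightOneSpectrum (𝓞 K)) {a b : v.adicCompletion K} (ha : a ≠ 0)
    (hb : b ≠ 0) : ordv v (a * b) = ordv v a + ordv v b := by
  unfold ordv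
  rw [map_mul, WithZero.log_mul ((map_ne_zero _).mpr ha) ((map_ne_zero _).mpr hb)]
  ring

theorem ordv_zpow848 (v : HeightOneSpectrum (𝓞 K)) (a : v.adicCompletion K) (j : ℤ) :
    ordv v (a ^ j) = j * ordv v a := by
  unfold ordv
  rw [map_zpow₀, WithZero.log_zpow]
  simp

/-- `ordv a₀ = n` when `(a₀) = 𝔭ⁿ`. -/
theorem ordv_of_span848 (v : HeightOneSpectrum (𝓞 K)) (a₀ : 𝓞 K) (n : ℕ)
    (h : Ideal.span {a₀} = v.asIdeal ^ n) :
    ordv v ((algebraMap (𝓞 K) K a₀ : K) : v.adicCompletion K) = n := by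
  classical
  have ha : a₀ ≠ 0 := by
    intro h0
    rw [h0, Ideal.span_singleton_eq_bot.mpr rfl] at h
    exact pow_ne_zero n v.ne_bot h.symm
  unfold ordv
  rw [HeightOneSpectrum.valuedAdicCompletion_eq_valuation', HeightOneSpectrum.valuation_of_algebraMap,
    HeightOneSpectrum.intValuation_if_neg v ha, WithZero.log_exp, neg_neg, h,
    Associates.mk_pow,
    Associates.count_pow (Associates.mk_ne_zero.mpr v.ne_bot) v.associates_irreducible,
    Associates.count_self v.associates_irreducible, mul_one]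

/-- The order of the component at `v₀` of `c₁ αʲ`. -/
theorem ordA_mul_zpow848 {𝔫 : Ideal (𝓞 K)} {v₀ : HeightOneSpectrum (𝓞 K)} {a₀ : 𝓞 K} {n : ℕ}
    {α : Kˣ} (hF : Frame K 𝔫 v₀ a₀ n α) (c₁ : (Adl K)ˣ) (j : ℤ) :
    ordv v₀ ((finU K v₀ (c₁ * T1.ratUnit K α ^ j) : (v₀.adicCompletion K)ˣ) :
      v₀.adicCompletion K) = ordA K v₀ c₁ + j * n := by
  rw [map_mul, map_zpow, Units.val_mul, Units.val_zpow_eq_zpow_val,
    ordv_mul848 v₀ (Units.ne_zero _) (zpow_ne_zero _ (Units.ne_zero _)), ordv_zpow848]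
  have h1 : ((finU K v₀ (T1.ratUnit K α) : (v₀.adicCompletion K)ˣ) : v₀.adicCompletion K)
      = ((algebraMap (𝓞 K) K a₀ : K) : v₀.adicCompletion K) := by
    rw [← hF.coe]
    rfl
  rw [h1, ordv_of_span848 v₀ a₀ n hF.span]
  rfl

/-! ## The powers of `q` -/

theorem rpow_split848 {q : ℝ} (hq : 0 < q) (o₁ o₂ j : ℤ) (n : ℕ) :
    q ^ (-(((o₁ + j * n + o₂ : ℤ) : ℝ)) / 2)
      = q ^ (-(((o₁ + o₂ : ℤ) : ℝ)) / 2) * (q ^ (-(n : ℝ) / 2)) ^ j := by
  rw [← Real.rpow_intCast, ← Real.rpow_mul hq.le, ← Real.rpow_add hq]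
  congr 1
  push_cast
  ring

/-! ## The unipotent translations -/

variable (v : HeightOneSpectrum (𝓞 K))

/-- `[[1, u], [0, 1]] ∈ GL₂(𝒪_v)` for `u ∈ 𝒪_v`. -/
theorem isIntGL_unip848 {u : v.adicCompletion K} (hu : u ∈ v.adicCompletionIntegers K) :
    IsIntGL v (upperGL (1 : (v.adicCompletion K)ˣ) 1 u) := by
  have h0 : (0 : v.adicCompletion K) ∈ v.adicCompletionIntegers K := zero_mem _
  have h1 : (1 : v.adicCompletion K) ∈ v.adicCompletionIntegers K := one_mem _
  have hn : -u ∈ v.adicCompletionIntegers K := neg_mem hu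
  intro i j
  constructor
  · rw [upperGL_coe]
    fin_cases i <;> fin_cases j <;> simp [h0, h1, hu]
  · have : ((upperGL (1 : (v.adicCompletion K)ˣ) 1 u)⁻¹ : GL (Fin 2) (v.adicCompletion K))
        = upperGL 1 1 (-u) := by
      rw [inv_eq_iff_mul_eq_one]
      apply Units.ext
      rw [Units.val_mul, upperGL_coe, upperGL_coe]
      ext a b
      fin_cases a <;> fin_cases b <;> simp [Matrix.mul_apply, Fin.sum_univ_two]
    rw [this, upperGL_coe]
    fin_cases i <;> fin_cases j <;> simp [h0, h1, hn]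

theorem isIntGL_one848 : IsIntGL v (1 : GL (Fin 2) (v.adicCompletion K)) := by
  have h := isIntGL_unip848 v (zero_mem (v.adicCompletionIntegers K))
  have : upperGL (1 : (v.adicCompletion K)ˣ) 1 (0 : v.adicCompletion K) = 1 := by
    apply Units.ext
    rw [upperGL_coe]
    ext a b
    fin_cases a <;> fin_cases b <;> simp
  rwa [this] at h

/-- `[[c₁, X + c₁ u], [0, c₂]] = [[c₁, X], [0, c₂]] [[1, u], [0, 1]]`. -/
theorem upperGL_add848 (c₁ c₂ : (v.adicCompletion K)ˣ) (X u : v.adicCompletion K) :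
    upperGL c₁ c₂ (X + (c₁ : v.adicCompletion K) * u) = upperGL c₁ c₂ X * upperGL 1 1 u := by
  apply Units.ext
  rw [Units.val_mul, upperGL_coe, upperGL_coe, upperGL_coe]
  ext a b
  fin_cases a <;> fin_cases b <;> simp [Matrix.mul_apply, Fin.sum_univ_two, add_comm]

/-- Invariance under the translations by `c₁ 𝒪_v`. -/
theorem f_transl848 {f₀ : GL (Fin 2) (v.adicCompletion K) → ℂ} (hbi : IsBiIntInv v f₀)
    (c₁ c₂ : (v.adicCompletion K)ˣ) (X y : v.adicCompletion K)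
    (hy : ((c₁⁻¹ : (v.adicCompletion K)ˣ) : v.adicCompletion K) * y
      ∈ v.adicCompletionIntegers K) :
    f₀ (upperGL c₁ c₂ (X + y)) = f₀ (upperGL c₁ c₂ X) := by
  have hy' : y = (c₁ : v.adicCompletion K)
      * (((c₁⁻¹ : (v.adicCompletion K)ˣ) : v.adicCompletion K) * y) := by
    rw [← mul_assoc, Units.mul_inv, one_mul]
  rw [hy', upperGL_add848]
  have h := hbi 1 (upperGL 1 1 (((c₁⁻¹ : (v.adicCompletion K)ˣ) : v.adicCompletion K) * y))
    (upperGL c₁ c₂ X) (isIntGL_one848 v) (isIntGL_unip848 v hy)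
  rwa [one_mul] at h

/-- The function is continuous (locally constant). -/
theorem continuous_f848 {f₀ : GL (Fin 2) (v.adicCompletion K) → ℂ} (hbi : IsBiIntInv v f₀)
    (c₁ c₂ : (v.adicCompletion K)ˣ) (t : v.adicCompletion K) :
    Continuous fun x : v.adicCompletion K => f₀ (upperGL c₁ c₂ (x + t)) := by
  apply IsLocallyConstant.continuous
  rw [IsLocallyConstant.iff_exists_open]
  intro x
  refine ⟨{x' | ((c₁⁻¹ : (v.adicCompletion K)ˣ) : v.adicCompletion K) * (x' - x)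
      ∈ (v.adicCompletionIntegers K : Set (v.adicCompletion K))}, ?_, ?_, ?_⟩
  · have hc : Continuous fun x' : v.adicCompletion K =>
        ((c₁⁻¹ : (v.adicCompletion K)ˣ) : v.adicCompletion K) * (x' - x) :=
      continuous_const.mul (continuous_id.sub continuous_const)
    exact (Valued.isOpen_valuationSubring (v.adicCompletion K)).preimage hc
  · show ((c₁⁻¹ : (v.adicCompletion K)ˣ) : v.adicCompletion K) * (x - x)
      ∈ (v.adicCompletionIntegers K : Set (v.adicCompletion K))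
    rw [sub_self, mul_zero]
    exact zero_mem (v.adicCompletionIntegers K)
  · intro x' hx'
    have h := f_transl848 v hbi c₁ c₂ (x + t) (x' - x) hx'
    have e : x + t + (x' - x) = x' + t := by ring
    rwa [e] at h

/-- The function has compact support. -/
theorem hasCompactSupport_f848 {f₀ : GL (Fin 2) (v.adicCompletion K) → ℂ}
    {R : Finset (GL (Fin 2) (v.adicCompletion K))} (hR : IsRepSys v f₀ R)
    (c₁ c₂ : (v.adicCompletion K)ˣ) (t : v.adicCompletion K) :
    HasCompactSupport fun x : v.adicCompletion K => f₀ (upperGL c₁ c₂ (x + t)) := by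
  classical
  have hO : IsCompact (v.adicCompletionIntegers K : Set (v.adicCompletion K)) :=
    Fermat.Agent.LT.H11.LC.isCompact_integers_h11 K v
  let Kh : GL (Fin 2) (v.adicCompletion K) → Set (v.adicCompletion K) := fun h =>
    (fun p : v.adicCompletion K × v.adicCompletion K =>
      (h : Matrix (Fin 2) (Fin 2) (v.adicCompletion K)) 0 0 * p.1
        + (h : Matrix (Fin 2) (Fin 2) (v.adicCompletion K)) 0 1 * p.2 - t) ''
      ((v.adicCompletionIntegers K : Set (v.adicCompletion K)) ×ˢ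
        (v.adicCompletionIntegers K : Set (v.adicCompletion K)))
  have hKh : ∀ h, IsCompact (Kh h) := by
    intro h
    refine (hO.prod hO).image ?_
    exact (((continuous_const.mul continuous_fst).add (continuous_const.mul continuous_snd)).sub
      continuous_const)
  have hU : IsCompact (⋃ h ∈ R, Kh h) := R.isCompact_biUnion fun h _ => hKh h
  refine HasCompactSupport.intro hU ?_
  intro x hx
  by_contra hne
  apply hx
  obtain ⟨h, hhR, hint⟩ := hR.2 _ hne
  refine Set.mem_biUnion hhR ?_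
  set g := upperGL c₁ c₂ (x + t) with hg
  set κ := h⁻¹ * g with hκ
  have hgk : g = h * κ := by rw [hκ, mul_inv_cancel_left]
  have h01 : (g : Matrix (Fin 2) (Fin 2) (v.adicCompletion K)) 0 1
      = (h : Matrix (Fin 2) (Fin 2) (v.adicCompletion K)) 0 0
          * (κ : Matrix (Fin 2) (Fin 2) (v.adicCompletion K)) 0 1
        + (h : Matrix (Fin 2) (Fin 2) (v.adicCompletion K)) 0 1
          * (κ : Matrix (Fin 2) (Fin 2) (v.adicCompletion K)) 1 1 := by
    rw [hgk, Units.val_mul, Matrix.mul_apply, Fin.sum_univ_two]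
  have hx01 : (g : Matrix (Fin 2) (Fin 2) (v.adicCompletion K)) 0 1 = x + t := by
    rw [hg, upperGL_coe]
    simp
  refine ⟨((κ : Matrix (Fin 2) (Fin 2) (v.adicCompletion K)) 0 1,
    (κ : Matrix (Fin 2) (Fin 2) (v.adicCompletion K)) 1 1), ⟨(hint 0 1).1, (hint 1 1).1⟩, ?_⟩
  show (h : Matrix (Fin 2) (Fin 2) (v.adicCompletion K)) 0 0
      * (κ : Matrix (Fin 2) (Fin 2) (v.adicCompletion K)) 0 1
    + (h : Matrix (Fin 2) (Fin 2) (v.adicCompletion K)) 0 1
      * (κ : Matrix (Fin 2) (Fin 2) (v.adicCompletion K)) 1 1 - t = x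
  rw [← h01, hx01]
  ring

/-! ## The leaf -/

/-- **T3.18a.4.6** -/
theorem locValFinC848 : LocValFinC K := by
  intro 𝔫 v₀ a₀ n α hF ν₀ hν₀ f₀ A hbi hRex hSat c₁ c₂ j t
  obtain ⟨R, hR⟩ := hRex
  refine ⟨continuous_f848 v₀ hbi _ _ t, hasCompactSupport_f848 v₀ hR _ _ t, ?_⟩
  letI : MeasurableSpace (v₀.adicCompletion K) := borel (v₀.adicCompletion K)
  haveI : BorelSpace (v₀.adicCompletion K) := ⟨rfl⟩
  haveI : ν₀.IsAddHaarMeasure := hν₀
  have hq : (0 : ℝ) < (Ideal.absNorm v₀.asIdeal : ℝ) := by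
    have : Ideal.absNorm v₀.asIdeal ≠ 0 := fun h => v₀.ne_bot (Ideal.absNorm_eq_zero_iff.mp h)
    exact_mod_cast Nat.pos_of_ne_zero this
  have h1 := integral_add_right_eq_self (μ := ν₀)
    (fun x : v₀.adicCompletion K =>
      f₀ (upperGL (finU K v₀ (c₁ * T1.ratUnit K α ^ j)) (finU K v₀ c₂) x)) t
  have h2 := hSat ν₀ hν₀ (finU K v₀ (c₁ * T1.ratUnit K α ^ j)) (finU K v₀ c₂)
  rw [ordA_mul_zpow848 hF c₁ j] at h2
  have h3 : ordv v₀ ((finU K v₀ c₂ : (v₀.adicCompletion K)ˣ) : v₀.adicCompletion K)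
      = ordA K v₀ c₂ := rfl
  rw [h3] at h2
  rw [h1, h2, rpow_split848 hq]
  push_cast
  ring

example : LocValFinC K := locValFinC848

end Fermat.Agent.LT.T3.H848

end

end
-- ===== PACK-END LT/T3/H848/LocValFin.lean

-- ===== PACK-BEGIN LT/T3/H915/ProdForm.lean
section


/-!
# Row LT, tower T3, leaf T3.18a.4.8 `AS.N893.ProdFormC` (helper915)

OFF-MAIN.  On `LT/T3/H893/NIntSpec.lean` (helper893, byte-identical copy, sha256 1ddb5c45...).
No hole, nothing assumed.

    prodFormC915 (K) : Fermat.Agent.LT.T3.AS.N893.ProdFormC K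

For a totally complex field `∏_w (w α)² = |N_{K/ℚ} α|` (`InfinitePlace.prod_eq_abs_norm`,
`mult w = 2`), and `|N_{K/ℚ} α| = N((a₀)) = N(𝔭_{v₀})ⁿ` (`Ideal.absNorm_span_singleton`), hence
`∏_w w α = N(𝔭_{v₀})^{n/2}`.
-/

set_option autoImplicit false

open IsDedekindDomain NumberField

noncomputable section

namespace Fermat.Agent.LT.T3.H915

open Fermat.Agent.LT.T3.AS.N893

/-- `∏_w (w x)² = |N_{K/ℚ} x|` for a totally complex field. -/
theorem prod_sq_eq_abs_norm915 (K : Type) [Field K] [NumberField K]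
    (hcpx : ∀ w : InfinitePlace K, w.IsComplex) (x : K) :
    (∏ w : InfinitePlace K, w x) ^ 2 = ((|Algebra.norm ℚ x| : ℚ) : ℝ) := by
  rw [← Finset.prod_pow, ← InfinitePlace.prod_eq_abs_norm]
  refine Finset.prod_congr rfl fun w _ => ?_
  have hm : w.mult = 2 := by
    unfold InfinitePlace.mult
    rw [if_neg (InfinitePlace.not_isReal_iff_isComplex.mpr (hcpx w))]
  rw [hm]

/-- `|N_{K/ℚ} a₀| = N(𝔭)ⁿ` if `(a₀) = 𝔭ⁿ`. -/
theorem abs_norm_eq_pow915 (K : Type) [Field K] [NumberField K] (I : Ideal (𝓞 K)) (a₀ : 𝓞 K)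
    (n : ℕ) (hspan : Ideal.span {a₀} = I ^ n) :
    ((|Algebra.norm ℚ (algebraMap (𝓞 K) K a₀)| : ℚ) : ℝ) = (Ideal.absNorm I : ℝ) ^ n := by
  have h1 : Ideal.absNorm (Ideal.span {a₀}) = Ideal.absNorm I ^ n := by
    rw [hspan, map_pow]
  rw [Ideal.absNorm_span_singleton] at h1
  have h2 : (Algebra.norm ℚ (algebraMap (𝓞 K) K a₀) : ℚ) = ((Algebra.norm ℤ a₀ : ℤ) : ℚ) :=
    (Algebra.coe_norm_int a₀).symm
  have h3 : (|Algebra.norm ℤ a₀| : ℤ) = ((Ideal.absNorm I ^ n : ℕ) : ℤ) := by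
    rw [← h1]
    exact (Int.natCast_natAbs _).symm
  rw [h2, ← Int.cast_abs, h3]
  push_cast
  rfl

/-- **T3.18a.4.8 (N.8, product formula).** -/
theorem prodFormC915 (K : Type) [Field K] [NumberField K] : ProdFormC K := by
  intro hcpx 𝔫 v₀ a₀ n α hF
  have hq0 : Ideal.absNorm v₀.asIdeal ≠ 0 := by
    intro h
    exact v₀.ne_bot (Ideal.absNorm_eq_zero_iff.mp h)
  have hq : (0 : ℝ) < (Ideal.absNorm v₀.asIdeal : ℝ) := by
    exact_mod_cast Nat.pos_of_ne_zero hq0
  have hP0 : 0 ≤ ∏ w : InfinitePlace K, w (α : K) :=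
    Finset.prod_nonneg fun w _ => apply_nonneg w _
  have hsq : (∏ w : InfinitePlace K, w (α : K)) ^ 2 = (Ideal.absNorm v₀.asIdeal : ℝ) ^ n := by
    rw [prod_sq_eq_abs_norm915 K hcpx, hF.coe, abs_norm_eq_pow915 K v₀.asIdeal a₀ n hF.span]
  have hP : ∏ w : InfinitePlace K, w (α : K) = (Ideal.absNorm v₀.asIdeal : ℝ) ^ ((n : ℝ) / 2) := by
    have h1 : ((Ideal.absNorm v₀.asIdeal : ℝ) ^ ((n : ℝ) / 2)) ^ 2
        = (Ideal.absNorm v₀.asIdeal : ℝ) ^ n := by
      rw [← Real.rpow_natCast, ← Real.rpow_mul hq.le]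
      have : (n : ℝ) / 2 * ((2 : ℕ) : ℝ) = (n : ℝ) := by push_cast; ring
      rw [this, Real.rpow_natCast]
    have h2 : 0 ≤ (Ideal.absNorm v₀.asIdeal : ℝ) ^ ((n : ℝ) / 2) := Real.rpow_nonneg hq.le _
    exact (pow_left_inj₀ hP0 h2 two_ne_zero).mp (hsq.trans h1.symm)
  rw [hP, ← Real.rpow_add hq]
  have : -(n : ℝ) / 2 + (n : ℝ) / 2 = 0 := by ring
  rw [this, Real.rpow_zero]

end Fermat.Agent.LT.T3.H915

end

end
-- ===== PACK-END LT/T3/H915/ProdForm.lean

-- ===== PACK-BEGIN LT/T5/H873/SupOfT2.lean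
section





/-!
# Row LT, towers T2 → T5: ADAPTER `T2.GPSKillT → SupBoundC` (helper873)

OFF-MAIN.  `supBoundC_of_gpsKillT873 : T1.LocCompC K → T1.AdeleLatticeC K → T1.AddFundDomC K →
  T2.GPSKillT K 𝔫 τ → SupBoundC 𝔫 τ`, on `T2/SpecTau.lean` (helper130, sha256 4d2b0fc2),
`T5/Spec.lean` v4 (helper32, sha256 f2d97e70) and the constant-term toolbox of helper237 /
helper315 (byte-identical copies).

The only content is `KillsConstTermsT` from `T5.IsEK`: a constant term `Ψ` (`T2.IsConstTerm ψ Ψ`)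
of a bounded continuous automorphic `ψ`, invariant under the ray generator, is continuous, left
invariant under `N(𝔸_K)` and under the rational diagonal matrices and right invariant under the
ray generator, i.e. `T5.IsBorelInvariantFn Ψ` (v4).
-/

set_option autoImplicit false

open IsDedekindDomain NumberField MeasureTheory
open scoped MatrixGroups ComplexConjugate ContDiff Topology

noncomputable section

namespace Fermat.Agent.LT.T5.H873

open Fermat.Agent.LT.H556.A0 Fermat.Agent.LT.T5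

attribute [local instance] Fermat.Agent.LT.T5.instMeasurableSpaceG

variable {K : Type} [Field K] [NumberField K]

section ConstTerm

variable [MeasurableSpace (Adl K)] [BorelSpace (Adl K)]
  [LocallyCompactSpace (Adl K)] [SecondCountableTopology (Adl K)]
  [SecondCountableTopology (G K)]

/-- The integral `g ↦ ∫_D ψ(n(x) g) dx` is Borel-invariant. -/
theorem borelInv_integral873
    (hcoc : ∃ C : Set (Adl K), IsCompact C ∧ ∀ x : Adl K, ∃ ξ : K, x - algebraMap K (Adl K) ξ ∈ C)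
    (μ' : Measure (Adl K)) [μ'.IsAddHaarMeasure]
    (D : Set (Adl K)) (hD : IsAddFundamentalDomain (T3.H237.princ237 K) D μ')
    {r : G K} (hr : IsRayGen r) {ψ : G K → ℂ} (hc : Continuous ψ)
    (hb : ∃ C : ℝ, ∀ g : G K, ‖ψ g‖ ≤ C)
    (hl : ∀ (γ : GL (Fin 2) K) (g : G K), ψ (ratG γ * g) = ψ g)
    (hray : ∀ g : G K, ψ (g * r) = ψ g) (c : ℂ) :
    IsBorelInvariantFn (fun g => c * ∫ x in D, ψ (T3.unip K x * g) ∂μ') := by
  have : BorelSpace (G K) := ⟨rfl⟩
  obtain ⟨C, hC⟩ := hb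
  have hDfin : μ' D < ⊤ := T3.H237.measure_fundDom_lt_top237 K μ' hcoc D hD
  have : IsFiniteMeasure (μ'.restrict D) := ⟨by simpa using hDfin⟩
  have hper : ∀ g : G K, T3.H237.IsPer237 K (fun x => ψ (T3.unip K x * g)) := by
    intro g ξ x
    show ψ (T3.unip K (x + algebraMap K (Adl K) ξ) * g) = ψ (T3.unip K x * g)
    rw [add_comm, T3.H237.unip_add237, T3.H237.unip_emb237, mul_assoc]
    exact hl _ _
  refine ⟨?_, ?_, ?_, ?_⟩
  · -- continuity
    refine continuous_const.mul ?_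
    refine continuous_of_dominated (bound := fun _ => C) ?_ ?_ ?_ ?_
    · intro g
      exact (hc.comp ((T3.H237.continuous_unip237 K).mul continuous_const)).aestronglyMeasurable
    · intro g
      exact Filter.Eventually.of_forall fun x => hC _
    · exact integrable_const _
    · exact Filter.Eventually.of_forall fun x =>
        hc.comp (continuous_const.mul continuous_id)
  · -- invariance under `N(𝔸_K)`
    intro n y hn g
    have hny : n = T3.unip K y := by
      apply Units.ext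
      rw [hn, T3.unip_coe]
    subst hny
    show c * ∫ x in D, ψ (T3.unip K x * (T3.unip K y * g)) ∂μ'
      = c * ∫ x in D, ψ (T3.unip K x * g) ∂μ'
    congr 1
    have h := T3.H237.setIntegral_add_right237 K μ' D hD _ (hper g) y
    rw [← h]
    refine integral_congr_ae (Filter.Eventually.of_forall fun x => ?_)
    show ψ (T3.unip K x * (T3.unip K y * g)) = ψ (T3.unip K (x + y) * g)
    rw [T3.H237.unip_add237, mul_assoc]
  · -- invariance under the rational diagonal matrices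
    intro t a b ht g
    obtain ⟨ha, hb'⟩ := T3.H315.diag_entries_ne_zero315 K t a b ht
    have hab : a * b⁻¹ ≠ 0 := mul_ne_zero ha (inv_ne_zero hb')
    have hinv : (((Units.mk0 (a * b⁻¹) hab)⁻¹ : Kˣ) : K) = a⁻¹ * b := by
      rw [Units.val_inv_eq_inv_val, Units.val_mk0, mul_inv, inv_inv]
    show c * ∫ x in D, ψ (T3.unip K x * (ratG t * g)) ∂μ'
      = c * ∫ x in D, ψ (T3.unip K x * g) ∂μ'
    congr 1
    have h := T3.H237.setIntegral_mulK237 K μ' hcoc D hD _ (hper g) (Units.mk0 (a * b⁻¹) hab)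
    rw [← h]
    refine integral_congr_ae (Filter.Eventually.of_forall fun x => ?_)
    show ψ (T3.unip K x * (Matrix.GeneralLinearGroup.map (algebraMap K (Adl K)) t * g))
      = ψ (T3.unip K (algebraMap K (Adl K) (((Units.mk0 (a * b⁻¹) hab)⁻¹ : Kˣ) : K) * x) * g)
    rw [hinv, ← mul_assoc, T3.H315.unip_mul_diag315 K t a b ht, mul_assoc]
    exact hl _ _
  · -- invariance under the ray generator
    refine ⟨r, hr, fun g => ?_⟩
    show c * ∫ x in D, ψ (T3.unip K x * (g * r)) ∂μ' = c * ∫ x in D, ψ (T3.unip K x * g) ∂μ'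
    congr 1
    refine integral_congr_ae (Filter.Eventually.of_forall fun x => ?_)
    show ψ (T3.unip K x * (g * r)) = ψ (T3.unip K x * g)
    rw [← mul_assoc]
    exact hray _

end ConstTerm

/-- **The constant term of an automorphic function of the frame is Borel-invariant (v4).** -/
theorem borelInv_of_constTerm873 (hL : T1.LocCompC K) (hLat : T1.AdeleLatticeC K)
    (hFD : T1.AddFundDomC K) {r : G K} (hr : IsRayGen r) {ψ Ψ : G K → ℂ} (hc : Continuous ψ)
    (hb : ∃ C : ℝ, ∀ g : G K, ‖ψ g‖ ≤ C)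
    (hl : ∀ (γ : GL (Fin 2) K) (g : G K), ψ (ratG γ * g) = ψ g)
    (hray : ∀ g : G K, ψ (g * r) = ψ g) (hΨ : T2.IsConstTerm ψ Ψ) :
    IsBorelInvariantFn Ψ := by
  let _ : MeasurableSpace (Adl K) := borel (Adl K)
  have : BorelSpace (Adl K) := ⟨rfl⟩
  obtain ⟨⟨h1, h2, h3⟩, -, -, h4⟩ := hL
  obtain ⟨-, -, hcoc⟩ := hLat
  obtain ⟨D, -, hD, -, hpos, hfin⟩ := hFD Measure.addHaar inferInstance
  have hvol : (((Measure.addHaar (G := Adl K) D).toReal : ℝ) : ℂ) ≠ 0 := by
    have : 0 < (Measure.addHaar (G := Adl K) D).toReal := ENNReal.toReal_pos hpos.ne' hfin.ne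
    exact_mod_cast this.ne'
  have hΨeq : Ψ = fun g => (((Measure.addHaar (G := Adl K) D).toReal : ℝ) : ℂ)⁻¹ *
      ∫ x in D, ψ (T3.unip K x * g) ∂(Measure.addHaar (G := Adl K)) := by
    funext g
    have h := hΨ Measure.addHaar inferInstance D hD (T3.unip K) (fun x => T3.unip_coe K x) g
    rw [h, ← mul_assoc, inv_mul_cancel₀ hvol, one_mul]
  rw [hΨeq]
  exact borelInv_integral873 hcoc Measure.addHaar D hD hr hc hb hl hray _

/-- The frame of T2 attached to a frame of T5. -/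
def frameR873 {μ : Measure (G K)} {F : Set (G K)} {r : G K} (hF : IsFrame μ F)
    (hr : IsRayGen r) : T2.FrameR K where
  F := { μ := μ, haar := hF.haar, D := F, meas := hF.meas, sub := hF.sub,
         strict := hF.strict, fin := hF.finite }
  r := r
  ray := hr

/-- **ADAPTER T2 → T5: the sup bound from `T2.GPSKillT`.** -/
theorem supBoundC_of_gpsKillT873 (hL : T1.LocCompC K) (hLat : T1.AdeleLatticeC K)
    (hFD : T1.AddFundDomC K) (𝔫 : Ideal (𝓞 K)) (τ : G K → ℂ) (h : T2.GPSKillT K 𝔫 τ) :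
    SupBoundC 𝔫 τ := by
  intro μ F r hF hr φ ht hek
  have hT : T2.IsTestT 𝔫 τ φ :=
    ⟨ht.cont, ht.smooth, ht.supp, ht.inv.level_right, ht.inv.level_left, ht.inv.arch_right,
      ht.inv.arch_left⟩
  have hK : T2.KillsConstTermsT 𝔫 τ (frameR873 hF hr) φ := by
    intro ψ Ψ hψ hΨ x
    have hB : IsBorelInvariantFn Ψ :=
      borelInv_of_constTerm873 hL hLat hFD hr hψ.cont hψ.bdd hψ.left_inv hψ.ray hΨ
    have h0 := hek Ψ hB x
    have : T2.conv (frameR873 hF hr).F φ Ψ x = Rconv μ φ Ψ x := by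
      show ∫ h, Ψ (x * h) * φ h ∂μ = ∫ y, φ y * Ψ (x * y) ∂μ
      refine integral_congr_ae (Filter.Eventually.of_forall fun y => ?_)
      exact mul_comm _ _
    rw [this, h0]
  obtain ⟨C, hC⟩ := h (frameR873 hF hr) φ hT hK
  refine ⟨C, fun e hec heb hea x => ?_⟩
  have hψ : T2.IsAutT 𝔫 τ r e :=
    ⟨hec, heb, hea.left_inv, hea.level_inv, hea.arch_compact, hea.ray⟩
  have h1 := hC e hψ x
  have h2 : T2.conv (frameR873 hF hr).F φ e x = Rconv μ φ e x := by
    show ∫ h, e (x * h) * φ h ∂μ = ∫ y, φ y * e (x * y) ∂μ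
    refine integral_congr_ae (Filter.Eventually.of_forall fun y => ?_)
    exact mul_comm _ _
  have h3 : T2.nsq (frameR873 hF hr).F e = ∫ y in F, ‖e y‖ ^ 2 ∂μ := by
    show (∫ g in F, e g * (starRingEnd ℂ) (e g) ∂μ).re = ∫ y in F, ‖e y‖ ^ 2 ∂μ
    have : ∫ g in F, e g * (starRingEnd ℂ) (e g) ∂μ
        = ((∫ y in F, ‖e y‖ ^ 2 ∂μ : ℝ) : ℂ) := by
      rw [← integral_complex_ofReal]
      refine integral_congr_ae (Filter.Eventually.of_forall fun y => ?_)
      simp only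
      rw [Complex.mul_conj, Complex.normSq_eq_norm_sq]
    rw [this, Complex.ofReal_re]
  rw [h2, h3] at h1
  exact h1

end Fermat.Agent.LT.T5.H873

end

end
-- ===== PACK-END LT/T5/H873/SupOfT2.lean

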