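import Mathlib
import Fermat.Agent.Pack.LT2.E7L1
import Fermat.Agent.Pack.LT2.E7L2
import Fermat.Agent.Pack.LT2.E0L0
import Fermat.Agent.Pack.LT2.E8L3
import Fermat.Agent.Pack.LT2.E8L0
import Fermat.Agent.Pack.LT2.E8L2
import Fermat.Agent.Pack.LT2.E6L3
import Fermat.Agent.Pack.LT2.E6L1
import Fermat.Agent.Pack.LT2.E7L3
import Fermat.Agent.Pack.S44C.G0E13L3
import Fermat.Agent.Pack.LT2.E9L0

set_option linter.all false

-- ===== PACK-BEGIN LT/A2/ThetaTop.lean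
section


/-!
# Row LT, tower A2, block THETA -- the PROVED top of level 2 (helper950)

* `hecke_of_whit` : the Hecke eigen-property passes from `W` to the sum of the expansion (formal).
* `theta_of_leaves : KernelC → AdeleQuotC → CuspOfWhitC → MeanOfWhitC → NeZeroOfWhitC → ThetaC`.
-/

set_option autoImplicit false

open IsDedekindDomain NumberField AutomorphicForm
open scoped MatrixGroups

noncomputable section

namespace Fermat.Agent.LT.A2

open Fermat.Agent.LT.H130 Fermat.Agent.LT.H556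

section Hecke

variable {K : Type} [Field K] [NumberField K]

/-- `diag(α, 1)`, `α ∈ K^×`, in `GL₂(𝔸_K)`. -/
def ratDiag950 (α : Kˣ) : A0.G K :=
  Matrix.GeneralLinearGroup.map (algebraMap K (A0.Adl K))
    (Matrix.GeneralLinearGroup.mkOfDetNeZero !![(α : K), 0; 0, 1]
      (by simp [Matrix.det_fin_two]))

theorem isRatDiag_ratDiag950 : IsRatDiag (ratDiag950 (K := K)) := by
  intro α
  ext i j
  fin_cases i <;> fin_cases j <;> simp [ratDiag950, Matrix.GeneralLinearGroup.mkOfDetNeZero]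

theorem summable_whit950 {ψ : A0.Adl K → ℂ} {φ W : A0.G K → ℂ} (h : IsWhitExp ψ φ W)
    (g : A0.G K) : Summable fun α : Kˣ => W (ratDiag950 α * g) := by
  obtain ⟨b, hb, hle⟩ := h.loc_summable {g} isCompact_singleton
  exact Summable.of_norm_bounded hb fun α => hle _ isRatDiag_ratDiag950 α g rfl

/-- The Hecke eigen-property passes from the Whittaker function to the sum of the expansion. -/
theorem hecke_of_whit950 {π : HeckeEigensystem K ℂ} {ψ : A0.Adl K → ℂ} {φ W : A0.G K → ℂ}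
    (h : PreCusp π ψ φ W) (v : HeightOneSpectrum (𝓞 K)) (hv : ¬ v.asIdeal ∣ π.level) :
    A0.IsHeckeEigenAt φ v (π.a v) (π.b v) := by
  obtain ⟨hT, hS⟩ := h.W_hecke v hv
  have hexp := h.whit.expansion _ isRatDiag_ratDiag950
  refine ⟨fun H hH g => ?_, fun z hz g => ?_⟩
  · have h1 : ∀ x ∈ H, φ (g * x) = ∑' α : Kˣ, W (ratDiag950 α * g * x) := by
      intro x _
      rw [hexp (g * x)]
      simp only [mul_assoc]
    rw [Finset.sum_congr rfl h1]
    rw [← Summable.tsum_finsetSum]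
    · rw [hexp g, ← tsum_mul_left]
      exact tsum_congr fun α => hT H hH (ratDiag950 α * g)
    · intro x _
      have := summable_whit950 h.whit (g * x)
      simpa only [mul_assoc] using this
  · rw [hexp (g * z), hexp g, ← tsum_mul_left]
    refine tsum_congr fun α => ?_
    rw [← mul_assoc]
    exact hS z hz (ratDiag950 α * g)

end Hecke

/-- **Block THETA, level 2**: `ThetaC` from its leaves. -/
theorem theta_of_leaves (hK : KernelC) (hQ : AdeleQuotC) (hC : CuspOfWhitC) (hM : MeanOfWhitC)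
    (hN : NeZeroOfWhitC) : ThetaC := by
  intro K L _ _ _ _ _ h2 hcx χ hχ hfin hns
  obtain ⟨π, ψ, φ, W, hpre, hind⟩ := hK K L h2 hcx χ hχ hfin hns
  refine ⟨π, ⟨φ, ?_⟩, hind⟩
  exact
    { cont := hpre.cont
      bdd := hpre.bdd
      ne_zero := hN hQ K π ψ φ W hpre
      left_inv := hpre.left_inv
      level_inv := hpre.level_inv
      arch_scalar := hpre.arch_scalar
      arch_compact := hpre.arch_compact
      mean_complex := hM K π ψ φ W hpre
      mean_real := fun w hw =>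
        absurd (hcx w) (InfinitePlace.not_isComplex_iff_isReal.mpr hw)
      cuspidal := hC hQ K π ψ φ W hpre
      hecke := fun v hv => hecke_of_whit950 hpre v hv }

end Fermat.Agent.LT.A2

end

end
-- ===== PACK-END LT/A2/ThetaTop.lean

-- ===== PACK-BEGIN LT/H129/HeckeLevel.lean
section


/-!
# Row LT, helper129: `A0.IsHeckeEigenAt` can be checked on ONE coset system (A0 vocabulary)

OFF-MAIN.  On `LT/H556/A0.lean` (helper556, byte-identical copy).  General number field `K`.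

* `dense_ideal129` : for `v ∤ 𝔫` every element of `𝒪_v` lies in `A0.idealClosure 𝔫 v`;
* `inLevelGroup_of_localMaxCpt129` : an element supported at `v ∤ 𝔫` and lying in `GL₂(𝒪_v)`
  belongs to the level group `U(𝔫)`;
* `heckeSum_indep_level129` : for a right `U(𝔫)`-invariant `φ` and `v ∤ 𝔫` the Hecke sum does not
  depend on the coset system;
* `isHeckeEigenAt_of_one129` : `A0.IsHeckeEigenAt φ v a b` follows from the eigen-equations for ONE
  coset system and ONE scalar uniformiser.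
-/

set_option autoImplicit false

open IsDedekindDomain NumberField IsDedekindDomain.HeightOneSpectrum
open Fermat.Agent.LT.H556.A0

noncomputable section

namespace Fermat.Agent.LT.H129

variable {K : Type} [Field K] [NumberField K]

/-- `𝓞 K` is dense in `𝒪_v`: every neighbourhood of an element of `𝒪_v` contains a global
integer. -/
theorem exists_int_mem_nhds129 (v : HeightOneSpectrum (𝓞 K)) {x : v.adicCompletion K}
    (hx : Valued.v x ≤ 1) {t : Set (v.adicCompletion K)} (ht : t ∈ nhds x) :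
    ∃ a : 𝓞 K, ((algebraMap (𝓞 K) K a : K) : v.adicCompletion K) ∈ t := by
  -- the unit ball around `x`
  have hB : {z : v.adicCompletion K | Valued.v (z - x) < 1} ∈ nhds x := by
    rw [Valued.mem_nhds]
    refine ⟨1, fun w hw => ?_⟩
    simpa using hw
  have hint : interior t ∩ {z : v.adicCompletion K | Valued.v (z - x) < 1} ∈ nhds x :=
    Filter.inter_mem (interior_mem_nhds.mpr ht) hB
  have hx' : x ∈ closure (Set.range (algebraMap K (v.adicCompletion K))) := by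
    rw [(denseRange_algebraMap (K := K) v).closure_range]; exact Set.mem_univ x
  obtain ⟨_, ⟨hkt, hkB⟩, ⟨k, rfl⟩⟩ := mem_closure_iff_nhds.mp hx' _ hint
  have hk' : Valued.v (algebraMap K (v.adicCompletion K) k - x) < 1 := hkB
  have hk1 : v.valuation K k ≤ 1 := by
    rw [← valuedAdicCompletion_eq_valuation']
    have : ((k : K) : v.adicCompletion K) = (algebraMap K (v.adicCompletion K) k - x) + x := by
      have h1 : ((k : K) : v.adicCompletion K) = algebraMap K (v.adicCompletion K) k := rfl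
      rw [h1]; ring
    rw [this]
    exact le_trans (Valuation.map_add _ _ _) (max_le hk'.le hx)
  -- a ball around `k` inside `interior t`
  have htk : interior t ∈ nhds (algebraMap K (v.adicCompletion K) k) :=
    isOpen_interior.mem_nhds hkt
  rw [Valued.mem_nhds] at htk
  obtain ⟨γ, hγ⟩ := htk
  have hγ0 : MonoidWithZeroHom.ValueGroup₀.embedding γ.1 ≠ 0 := by
    intro h
    have h1 := (MonoidWithZeroHom.ValueGroup₀.embedding_strictMono
      (f := MonoidWithZeroHom.ofClass (Valued.v : Valuation (v.adicCompletion K) _))).injective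
      (h.trans (map_zero _).symm)
    exact γ.ne_zero h1
  obtain ⟨a, ha⟩ := exists_valuation_sub_lt_of_integer v hk1 (Units.mk0 _ hγ0)
  refine ⟨a, interior_subset (hγ ?_)⟩
  show (Valued.v : Valuation (v.adicCompletion K) _).restrict
    (((algebraMap (𝓞 K) K a : K) : v.adicCompletion K) - algebraMap K (v.adicCompletion K) k)
      < γ.1
  rw [Valuation.restrict_lt_iff_lt_embedding]
  have e : ((algebraMap (𝓞 K) K a : K) : v.adicCompletion K)
      - algebraMap K (v.adicCompletion K) k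
      = ((algebraMap (𝓞 K) K a - k : K) : v.adicCompletion K) :=
    (map_sub (algebraMap K (v.adicCompletion K)) _ _).symm
  rw [e, valuedAdicCompletion_eq_valuation']
  simpa using ha

/-- For `v ∤ 𝔫` the ideal `𝔫` is dense in `𝒪_v`. -/
theorem dense_ideal129 {𝔫 : Ideal (𝓞 K)} {v : HeightOneSpectrum (𝓞 K)}
    (hv : ¬ v.asIdeal ∣ 𝔫) {x : v.adicCompletion K} (hx : Valued.v x ≤ 1) :
    x ∈ idealClosure 𝔫 v := by
  -- an element `s ∈ 𝔫` which is a unit at `v`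
  have hnle : ¬ 𝔫 ≤ v.asIdeal := fun h => hv (Ideal.dvd_iff_le.mpr h)
  obtain ⟨s, hs𝔫, hsv⟩ := Set.not_subset.mp hnle
  have hsval : Valued.v (((algebraMap (𝓞 K) K s : K) : v.adicCompletion K)) = 1 := by
    rw [valuedAdicCompletion_eq_valuation', valuation_eq_one_iff_notMem]
    exact hsv
  set S : v.adicCompletion K := ((algebraMap (𝓞 K) K s : K) : v.adicCompletion K) with hS
  have hS0 : S ≠ 0 := by
    intro h
    rw [h, map_zero] at hsval
    exact zero_ne_one hsval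
  unfold idealClosure
  rw [mem_closure_iff_nhds]
  intro t ht
  have hxs : Valued.v (x / S) ≤ 1 := by
    rw [map_div₀, hsval, div_one]; exact hx
  -- continuity of `z ↦ z * S` at `x / S`
  have hcont : Filter.Tendsto (fun z : v.adicCompletion K => z * S) (nhds (x / S)) (nhds x) := by
    have h1 : Continuous (fun z : v.adicCompletion K => z * S) := continuous_mul_const S
    have h2 := h1.tendsto (x / S)
    rwa [div_mul_cancel₀ x hS0] at h2
  obtain ⟨a, ha⟩ := exists_int_mem_nhds129 v hxs (hcont ht)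
  refine ⟨((algebraMap (𝓞 K) K a : K) : v.adicCompletion K) * S, ha, a * s,
    𝔫.mul_mem_left a hs𝔫, ?_⟩
  show algebraMap K (v.adicCompletion K) (algebraMap (𝓞 K) K (a * s))
    = algebraMap K (v.adicCompletion K) (algebraMap (𝓞 K) K a)
      * algebraMap K (v.adicCompletion K) (algebraMap (𝓞 K) K s)
  rw [map_mul, map_mul]

theorem zero_mem_idealClosure129 (𝔫 : Ideal (𝓞 K)) (v : HeightOneSpectrum (𝓞 K)) :
    (0 : v.adicCompletion K) ∈ idealClosure 𝔫 v := by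
  apply subset_closure
  refine ⟨0, 𝔫.zero_mem, ?_⟩
  simp

/-- An element supported at `v ∤ 𝔫` and lying in `GL₂(𝒪_v)` belongs to the level group. -/
theorem inLevelGroup_of_localMaxCpt129 {𝔫 : Ideal (𝓞 K)} {v : HeightOneSpectrum (𝓞 K)}
    (hv : ¬ v.asIdeal ∣ 𝔫) {u : G K} (hu : IsLocalMaxCptAt129 v u) : InLevelGroup 𝔫 u := by
  obtain ⟨hloc, hint, hint'⟩ := hu
  have hloc' := isLocalAtFin_inv129 hloc
  refine ⟨hloc.1, ?_⟩
  intro v' i j
  have h1 : ∀ i j : Fin 2, Valued.v ((1 : Matrix (Fin 2) (Fin 2) (v.adicCompletion K)) i j) ≤ 1 := by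
    intro i j
    by_cases hij : i = j
    · subst hij; simp
    · simp [hij]
  by_cases h : v' = v
  · subst h
    constructor
    · apply dense_ideal129 hv
      rw [Matrix.sub_apply]
      exact le_trans (Valuation.map_sub _ _ _) (max_le (hint i j) (h1 i j))
    · apply dense_ideal129 hv
      rw [Matrix.sub_apply]
      exact le_trans (Valuation.map_sub _ _ _) (max_le (hint' i j) (h1 i j))
  · have e1 : finComp v' u = 1 := hloc.2 v' h
    have e2 : finComp v' u⁻¹ = 1 := hloc'.2 v' h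
    rw [e1, e2, sub_self]
    exact ⟨zero_mem_idealClosure129 𝔫 v', zero_mem_idealClosure129 𝔫 v'⟩

/-- For a right `U(𝔫)`-invariant function and `v ∤ 𝔫` the Hecke sum does not depend on the
coset system. -/
theorem heckeSum_indep_level129 {𝔫 : Ideal (𝓞 K)} {v : HeightOneSpectrum (𝓞 K)}
    (hv : ¬ v.asIdeal ∣ 𝔫) {H H' : Finset (G K)} (hH : IsHeckeCosetSystem v H)
    (hH' : IsHeckeCosetSystem v H') {M : Type*} [AddCommMonoid M] (φ : G K → M)
    (hφ : ∀ u : G K, InLevelGroup 𝔫 u → ∀ g : G K, φ (g * u) = φ g) (g : G K) :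
    ∑ h ∈ H, φ (g * h) = ∑ h ∈ H', φ (g * h) :=
  heckeSum_indep129 hH hH' φ (fun u hu => hφ u (inLevelGroup_of_localMaxCpt129 hv hu)) g

/-- Two scalar uniformisers at `v` differ by an element of the level group (`v ∤ 𝔫`). -/
theorem scalarUnif_quot129 {𝔫 : Ideal (𝓞 K)} {v : HeightOneSpectrum (𝓞 K)}
    (hv : ¬ v.asIdeal ∣ 𝔫) {z z₀ : G K} (hz : IsScalarUniformizerAt v z)
    (hz₀ : IsScalarUniformizerAt v z₀) : InLevelGroup 𝔫 (z₀⁻¹ * z) := by
  apply inLevelGroup_of_localMaxCpt129 hv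
  obtain ⟨hloc, c, hc, hzc⟩ := hz
  obtain ⟨hloc₀, c₀, hc₀, hzc₀⟩ := hz₀
  have hc0 : c ≠ 0 := unif_ne_zero129 v hc
  have hc₀0 : c₀ ≠ 0 := unif_ne_zero129 v hc₀
  have key : ∀ {a b : v.adicCompletion K} {x y : G K}, Valued.v a = WithZero.exp (-1 : ℤ) →
      Valued.v b = WithZero.exp (-1 : ℤ) → finComp v x = Matrix.diagonal (fun _ => a) →
      finComp v y = Matrix.diagonal (fun _ => b) → IsIntegralAt v (y⁻¹ * x) := by
    intro a b x y ha hb hx hy
    have hb0 : b ≠ 0 := unif_ne_zero129 v hb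
    have hx' : ((finCompHom129 v x : GL (Fin 2) (v.adicCompletion K)) :
        Matrix (Fin 2) (Fin 2) (v.adicCompletion K)) = Matrix.diagonal (fun _ => a) := hx
    have hy' : ((finCompHom129 v y : GL (Fin 2) (v.adicCompletion K)) :
        Matrix (Fin 2) (Fin 2) (v.adicCompletion K)) = Matrix.diagonal (fun _ => b) := hy
    rw [← isInt129_finCompHom_iff, map_mul, map_inv]
    intro i j
    rw [inv_mul_apply129, hx', hy']
    have hdet : (Matrix.diagonal (fun _ : Fin 2 => b)).det = b * b := by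
      rw [Matrix.det_diagonal, Fin.prod_univ_two]
    have hadj : Matrix.adjugate (Matrix.diagonal (fun _ : Fin 2 => b))
        = Matrix.diagonal (fun _ : Fin 2 => b) := by
      rw [Matrix.adjugate_fin_two]
      ext i j
      fin_cases i <;> fin_cases j <;> simp
    rw [hdet, hadj, Matrix.diagonal_mul_diagonal]
    have hval : Valued.v (b * a / (b * b)) = 1 := by
      rw [map_div₀, map_mul, map_mul, ha, hb]
      exact div_self (mul_ne_zero WithZero.exp_ne_zero WithZero.exp_ne_zero)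
    by_cases hij : i = j
    · subst hij
      rw [Matrix.diagonal_apply_eq, mem_adicCompletionIntegers, hval]
    · rw [Matrix.diagonal_apply_ne _ hij, zero_div]
      exact (v.adicCompletionIntegers K).zero_mem
  refine ⟨isLocalAtFin_mul129 (isLocalAtFin_inv129 hloc₀) hloc, key hc hc₀ hzc hzc₀, ?_⟩
  have e : (z₀⁻¹ * z)⁻¹ = z⁻¹ * z₀ := by group
  rw [e]
  exact key hc₀ hc hzc₀ hzc

/-- **`A0.IsHeckeEigenAt` from ONE coset system and ONE scalar uniformiser.**  Scalar matrices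
are central, so `φ (g z) = φ (g z₀ (z₀⁻¹ z)) = φ (g z₀)`. -/
theorem isHeckeEigenAt_of_one129 {𝔫 : Ideal (𝓞 K)} {v : HeightOneSpectrum (𝓞 K)}
    (hv : ¬ v.asIdeal ∣ 𝔫) (φ : G K → ℂ)
    (hφ : ∀ u : G K, InLevelGroup 𝔫 u → ∀ g : G K, φ (g * u) = φ g) (a b : ℂ)
    {H₀ : Finset (G K)} (hH₀ : IsHeckeCosetSystem v H₀)
    (hT : ∀ g : G K, ∑ h ∈ H₀, φ (g * h)
      = ((Real.sqrt (Ideal.absNorm v.asIdeal : ℝ) : ℝ) : ℂ) * a * φ g)
    {z₀ : G K} (hz₀ : IsScalarUniformizerAt v z₀) (hS : ∀ g : G K, φ (g * z₀) = b * φ g) :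
    IsHeckeEigenAt φ v a b := by
  refine ⟨fun H hH g => ?_, fun z hz g => ?_⟩
  · rw [heckeSum_indep_level129 hv hH hH₀ φ hφ g, hT g]
  · have := hφ _ (scalarUnif_quot129 hv hz hz₀) (g * z₀)
    rw [← hS g, ← this]
    congr 1
    group

end Fermat.Agent.LT.H129

end

end
-- ===== PACK-END LT/H129/HeckeLevel.lean

-- ===== PACK-BEGIN LT/H470/Frame.lean
section


/-!
# Row LT, tower A2, pre-leaf ARCH-MVP (helper470): the mean-value property in Iwasawa coordinates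

Mathlib only.  Consumer forms of `frameMVP470`, in the shape of the bridge
`Fermat.Agent.LT.H556.T0.meanValueComplex_iff_upper` (helper556): the Euler element
`E = rotZ α * rotY β * torus d` is replaced by the upper triangular factor `[[y, x], [0, 1]]` of
its Iwasawa decomposition, `y = 1 / (|E₁₀|² + |E₁₁|²)`, `x = (E₀₀ E̅₁₀ + E₀₁ E̅₁₁) / (|E₁₀|² + |E₁₁|²)`
(`= T0.iwY E`, `T0.iwX E`).

* `jpt_mul_congr470` : `jpt (γ * M)` depends only on `jpt M`;
* `frameMVP_upper470` : for `Ψ M = f (jpt M)`, `f` a solution (`EigenData470`), `det γ ≠ 0`, `d > 0`: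
  `∫ α in 0..2π, ∫ β in 0..π, Ψ (γ * [[y, x], [0, 1]]) * sin β = 4π (d / sinh d) * Ψ γ`.
-/

set_option autoImplicit false
set_option linter.unusedSimpArgs false
set_option linter.unnecessarySeqFocus false

open Real ComplexConjugate

noncomputable section

namespace Fermat.Agent.LT.H470

/-- `jpt (γ * M)` depends only on `jpt M`. -/
def Congr470 (γ : Matrix (Fin 2) (Fin 2) ℂ) : Prop :=
  γ.det ≠ 0 ∧ ∀ M M' : Matrix (Fin 2) (Fin 2) ℂ, M.det ≠ 0 → M'.det ≠ 0 → jpt M = jpt M' →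
    jpt (γ * M) = jpt (γ * M')

theorem det_mul_ne470 {γ M : Matrix (Fin 2) (Fin 2) ℂ} (hγ : γ.det ≠ 0) (hM : M.det ≠ 0) :
    (γ * M).det ≠ 0 := by
  rw [Matrix.det_mul]
  exact mul_ne_zero hγ hM

theorem congr_one470 : Congr470 1 :=
  ⟨by simp, fun M M' _ _ h => by simpa using h⟩

theorem congr_upper470 {γ : Matrix (Fin 2) (Fin 2) ℂ} (h : Congr470 γ) (a b : ℂ) (ha : a ≠ 0) :
    Congr470 (!![a, b; 0, 1] * γ) := by
  refine ⟨?_, ?_⟩
  · rw [Matrix.det_mul, Matrix.det_fin_two_of]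
    simpa using mul_ne_zero ha h.1
  · intro M M' hM hM' hjj
    rw [Matrix.mul_assoc, Matrix.mul_assoc, jpt_upper470 a b (det_mul_ne470 h.1 hM),
      jpt_upper470 a b (det_mul_ne470 h.1 hM'), h.2 M M' hM hM' hjj]

theorem congr_inv470 {γ : Matrix (Fin 2) (Fin 2) ℂ} (h : Congr470 γ) :
    Congr470 (!![0, -1; 1, 0] * γ) := by
  refine ⟨?_, ?_⟩
  · rw [Matrix.det_mul, Matrix.det_fin_two_of]
    simpa using h.1
  · intro M M' hM hM' hjj
    rw [Matrix.mul_assoc, Matrix.mul_assoc, jpt_inv470 (det_mul_ne470 h.1 hM),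
      jpt_inv470 (det_mul_ne470 h.1 hM'), h.2 M M' hM hM' hjj]

theorem congr_smul470 {γ : Matrix (Fin 2) (Fin 2) ℂ} (h : Congr470 γ) (l : ℂ) (hl : l ≠ 0) :
    Congr470 (l • γ) := by
  refine ⟨?_, ?_⟩
  · rw [Matrix.det_smul]
    simpa using mul_ne_zero (pow_ne_zero 2 hl) h.1
  · intro M M' hM hM' hjj
    rw [Matrix.smul_mul, Matrix.smul_mul, jpt_smul470 l hl (det_mul_ne470 h.1 hM),
      jpt_smul470 l hl (det_mul_ne470 h.1 hM'), h.2 M M' hM hM' hjj]

/-- **`jpt (γ * M)` depends only on `jpt M`** (the Möbius action of `γ` on `ℍ³`). -/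
theorem jpt_mul_congr470 {γ M M' : Matrix (Fin 2) (Fin 2) ℂ} (hγ : γ.det ≠ 0) (hM : M.det ≠ 0)
    (hM' : M'.det ≠ 0) (h : jpt M = jpt M') : jpt (γ * M) = jpt (γ * M') := by
  have hdet := hγ
  rw [Matrix.det_fin_two] at hdet
  suffices hC : Congr470 γ from hC.2 M M' hM hM' h
  by_cases hc : γ 1 0 = 0
  · have he : γ 1 1 ≠ 0 := by
      intro he; apply hdet; rw [hc, he]; ring
    have ha : γ 0 0 ≠ 0 := by
      intro ha; apply hdet; rw [hc, ha]; ring
    have hG := congr_smul470 (congr_upper470 congr_one470 (γ 0 0 / γ 1 1) (γ 0 1 / γ 1 1)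
      (div_ne_zero ha he)) (γ 1 1) he
    have heq : γ 1 1 • (!![γ 0 0 / γ 1 1, γ 0 1 / γ 1 1; 0, 1]
        * (1 : Matrix (Fin 2) (Fin 2) ℂ)) = γ := by
      ext i j
      fin_cases i <;> fin_cases j <;> simp [hc] <;> field_simp
    rw [heq] at hG
    exact hG
  · have hδ : (γ 0 0 * γ 1 1 - γ 0 1 * γ 1 0) / γ 1 0 ^ 2 ≠ 0 :=
      div_ne_zero hdet (pow_ne_zero 2 hc)
    have hG := congr_smul470 (congr_upper470 (congr_upper470 (congr_inv470
      (congr_upper470 congr_one470 1 (γ 1 1 / γ 1 0) one_ne_zero))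
      ((γ 0 0 * γ 1 1 - γ 0 1 * γ 1 0) / γ 1 0 ^ 2) 0 hδ) 1 (γ 0 0 / γ 1 0) one_ne_zero)
      (γ 1 0) hc
    have heq : γ 1 0 • (!![1, γ 0 0 / γ 1 0; 0, 1]
        * (!![(γ 0 0 * γ 1 1 - γ 0 1 * γ 1 0) / γ 1 0 ^ 2, 0; 0, 1]
          * (!![0, -1; 1, 0] * (!![1, γ 1 1 / γ 1 0; 0, 1]
            * (1 : Matrix (Fin 2) (Fin 2) ℂ))))) = γ := by
      ext i j
      fin_cases i <;> fin_cases j <;>
        simp [Matrix.mul_apply, Fin.sum_univ_two] <;> field_simp <;> ring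
    rw [heq] at hG
    exact hG

/-! ## Upper triangular representatives -/

/-- `[[y, x], [0, 1]] • j = (x, y)` for `y > 0`. -/
theorem jpt_upperMat470 (x : ℂ) {y : ℝ} (hy : 0 < y) :
    jpt !![(y : ℂ), x; 0, 1] = (x.re, x.im, y) := by
  simp [jpt, jptE, jN, abs_of_pos hy]

theorem det_upperMat470 (x : ℂ) {y : ℝ} (hy : 0 < y) :
    (!![(y : ℂ), x; 0, 1] : Matrix (Fin 2) (Fin 2) ℂ).det ≠ 0 := by
  rw [Matrix.det_fin_two_of]
  simpa using hy.ne'

/-- The Iwasawa coordinate `x` of the Euler element (`= T0.iwX (rotZ α * rotY β * torus d)`). -/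
def eulerX470 (α β d : ℝ) : ℂ :=
  (Rm470 α β d 0 0 * star (Rm470 α β d 1 0) + Rm470 α β d 0 1 * star (Rm470 α β d 1 1))
    / ((Complex.normSq (Rm470 α β d 1 0) + Complex.normSq (Rm470 α β d 1 1) : ℝ) : ℂ)

/-- The Iwasawa coordinate `y` of the Euler element (`= T0.iwY (rotZ α * rotY β * torus d)`). -/
def eulerY470 (α β d : ℝ) : ℝ :=
  (Complex.normSq (Rm470 α β d 1 0) + Complex.normSq (Rm470 α β d 1 1))⁻¹

theorem euler_eq_polar470 (α β d : ℝ) :
    ((eulerX470 α β d).re, (eulerX470 α β d).im, eulerY470 α β d) = polarPt d β α := by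
  have h := jpt_Rm470 α β d
  have hdet : Rm470 α β d 0 0 * Rm470 α β d 1 1 - Rm470 α β d 0 1 * Rm470 α β d 1 0 = 1 := by
    rw [← Matrix.det_fin_two]; exact det_Rm470 α β d
  rw [← h]
  unfold jpt jptE eulerX470 eulerY470 jN
  rw [hdet]
  simp only [Complex.star_def, norm_one, one_div]
  rw [add_comm (Rm470 α β d 0 0 * _)]

theorem eulerY_pos470 (α β d : ℝ) : 0 < eulerY470 α β d := by
  have h := congrArg (fun p : E3 => p.2.2) (euler_eq_polar470 α β d)
  simp only at h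
  rw [h]
  exact polarPt_height_pos470 d β α

/-- **The mean-value property in Iwasawa coordinates**, for a function `Ψ` on `GL₂(ℂ)` of the form
`Ψ M = f (M • j)`, `f` a solution of the hyperbolic Laplace equation. -/
theorem frameMVP_upper470 {f : E3 → ℂ} {f' : E3 → E3 →L[ℝ] ℂ} {f'' : E3 → E3 →L[ℝ] E3 →L[ℝ] ℂ}
    (hf : EigenData470 f f' f'') (Ψ : Matrix (Fin 2) (Fin 2) ℂ → ℂ)
    (hΨ : ∀ M : Matrix (Fin 2) (Fin 2) ℂ, M.det ≠ 0 → Ψ M = f (jpt M))
    (γ : Matrix (Fin 2) (Fin 2) ℂ) (hγ : γ.det ≠ 0) {d : ℝ} (hd : 0 < d) :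
    ∫ α in (0 : ℝ)..(2 * π), ∫ β in (0 : ℝ)..π,
        Ψ (γ * !![((eulerY470 α β d : ℝ) : ℂ), eulerX470 α β d; 0, 1]) * ((sin β : ℝ) : ℂ)
      = ((4 * π * (d / sinh d) : ℝ) : ℂ) * Ψ γ := by
  rw [hΨ γ hγ, ← frameMVP470 γ hγ f f' f'' hf d hd]
  congr 1
  funext α
  congr 1
  funext β
  have hU := det_upperMat470 (eulerX470 α β d) (eulerY_pos470 α β d)
  have hR : (Rm470 α β d).det ≠ 0 := by rw [det_Rm470]; exact one_ne_zero
  rw [hΨ _ (det_mul_ne470 hγ hU)]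
  congr 2
  apply jpt_mul_congr470 hγ hU hR
  rw [jpt_upperMat470 _ (eulerY_pos470 α β d), euler_eq_polar470, jpt_Rm470]

/-- The same with the Euler elements themselves. -/
theorem frameMVP_euler470 {f : E3 → ℂ} {f' : E3 → E3 →L[ℝ] ℂ} {f'' : E3 → E3 →L[ℝ] E3 →L[ℝ] ℂ}
    (hf : EigenData470 f f' f'') (Ψ : Matrix (Fin 2) (Fin 2) ℂ → ℂ)
    (hΨ : ∀ M : Matrix (Fin 2) (Fin 2) ℂ, M.det ≠ 0 → Ψ M = f (jpt M))
    (γ : Matrix (Fin 2) (Fin 2) ℂ) (hγ : γ.det ≠ 0) {d : ℝ} (hd : 0 < d) :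
    ∫ α in (0 : ℝ)..(2 * π), ∫ β in (0 : ℝ)..π,
        Ψ (γ * (rotZ470 α * rotY470 β * torus470 d)) * ((sin β : ℝ) : ℂ)
      = ((4 * π * (d / sinh d) : ℝ) : ℂ) * Ψ γ := by
  rw [hΨ γ hγ, ← frameMVP470 γ hγ f f' f'' hf d hd]
  congr 1
  funext α
  congr 1
  funext β
  have hR : (Rm470 α β d).det ≠ 0 := by rw [det_Rm470]; exact one_ne_zero
  have h := hΨ _ (det_mul_ne470 hγ hR)
  unfold Rm470 at h ⊢
  rw [h]

/-! ## A constructor of `EigenData470` -/

theorem isOpen_upper470 : IsOpen {p : E3 | 0 < p.2.2} :=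
  isOpen_lt continuous_const (continuous_snd.comp continuous_snd)

/-- A `C²` function on the upper half-space which satisfies the hyperbolic Laplace equation (with
`fderiv`) is an `EigenData470`. -/
theorem eigenData_of_contDiffOn470 {f : E3 → ℂ} (hf : ContDiffOn ℝ 2 f {p : E3 | 0 < p.2.2})
    (hpde : ∀ p : E3, 0 < p.2.2 →
      ((p.2.2 : ℝ) : ℂ) ^ 2 * (fderiv ℝ (fderiv ℝ f) p e1 e1 + fderiv ℝ (fderiv ℝ f) p e2 e2
        + fderiv ℝ (fderiv ℝ f) p e3 e3) - ((p.2.2 : ℝ) : ℂ) * fderiv ℝ f p e3 = -f p) :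
    EigenData470 f (fderiv ℝ f) (fderiv ℝ (fderiv ℝ f)) where
  d1 := fun p hp =>
    ((hf.contDiffAt (isOpen_upper470.mem_nhds hp)).differentiableAt (by norm_num)).hasFDerivAt
  d2 := fun p hp =>
    (((hf.contDiffAt (isOpen_upper470.mem_nhds hp)).fderiv_right (m := 1)
      (by norm_num)).differentiableAt (by norm_num)).hasFDerivAt
  cont := fun p hp =>
    ((((hf.contDiffAt (isOpen_upper470.mem_nhds hp)).fderiv_right (m := 1)
      (by norm_num)).fderiv_right (m := 0) (by norm_num)).continuousAt).continuousWithinAt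
  pde := hpde

end Fermat.Agent.LT.H470

end
end
-- ===== PACK-END LT/H470/Frame.lean

-- ===== PACK-BEGIN LT/A2/H231/NeZero.lean
section




/-!
# Row LT, tower A2, leaf A2.14 `NeZeroOfWhitC` (helper231)

OFF-MAIN.  Spec: `Fermat/Agent/LT/A2/Theta.lean` (origin/helper950@c68f91cb0, byte-identical copy).

`neZeroOfWhitC231 : NeZeroOfWhitC`.  The hypothesis `AdeleQuotC` is NOT used: instead of the
orthogonality relations on the compact group `𝔸_K / K` we use the elementary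
`coeff_eq_zero_of_tsum_eq_zero231` (`ℓ¹`-independence of unitary characters, `CharIndep.lean`).

Proof.  Assume `φ = 0`, and let `W g₀ ≠ 0`.  With `c α = W(diag(α,1) g₀)` (absolutely summable by
`loc_summable` for the compact set `{g₀}`) the expansion at `n(x) g₀` reads
`0 = ∑_α ψ(α x) c α`, because `diag(α,1) n(x) = n(α x) diag(α,1)`.  Multiplying by `ψ(x)⁻¹` we get
`∑_α c α ψ((α - 1) x) = 0` for all `x`; the characters `x ↦ ψ((α - 1) x)`, `α ≠ 1`, are
nontrivial (`ψ` is nontrivial and `α - 1` is invertible), so `c 1 = W g₀ = 0`: contradiction.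
-/

set_option autoImplicit false

open IsDedekindDomain NumberField AutomorphicForm
open scoped MatrixGroups

noncomputable section

namespace Fermat.Agent.LT.A2.H231

open Fermat.Agent.LT.H130 Fermat.Agent.LT.H556

section Param

variable (K : Type) [Field K] [NumberField K]

/-- The upper unipotent element `[[1, x], [0, 1]]` of `GL₂(𝔸_K)`. -/
def nUnip231 (x : A0.Adl K) : A0.G K :=
  Matrix.GeneralLinearGroup.mk'' !![1, x; 0, 1] (by simp [Matrix.det_fin_two_of])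

theorem coe_nUnip231 (x : A0.Adl K) :
    (nUnip231 K x : Matrix (Fin 2) (Fin 2) (A0.Adl K)) = !![1, x; 0, 1] := rfl

theorem isUpperUnip_nUnip231 : IsUpperUnip (nUnip231 K) := fun x => coe_nUnip231 K x

/-- The rational diagonal element `diag(α, 1)` of `GL₂(𝔸_K)`. -/
def dRat231 (α : Kˣ) : A0.G K :=
  Matrix.GeneralLinearGroup.mk'' !![algebraMap K (A0.Adl K) (α : K), 0; 0, 1]
    (by
      have h : IsUnit (algebraMap K (A0.Adl K) (α : K)) := α.isUnit.map (algebraMap K (A0.Adl K))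
      simpa [Matrix.det_fin_two_of] using h)

theorem coe_dRat231 (α : Kˣ) :
    (dRat231 K α : Matrix (Fin 2) (Fin 2) (A0.Adl K))
      = !![algebraMap K (A0.Adl K) (α : K), 0; 0, 1] := rfl

theorem isRatDiag_dRat231 : IsRatDiag (dRat231 K) := fun α => coe_dRat231 K α

theorem dRat231_one : dRat231 K 1 = 1 := by
  apply Units.ext
  rw [coe_dRat231]
  simp [Matrix.one_fin_two]

/-- `diag(α,1) n(x) = n(α x) diag(α,1)`. -/
theorem dRat231_mul_nUnip231 (α : Kˣ) (x : A0.Adl K) :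
    dRat231 K α * nUnip231 K x
      = nUnip231 K (algebraMap K (A0.Adl K) (α : K) * x) * dRat231 K α := by
  apply Units.ext
  rw [Units.val_mul, Units.val_mul, coe_dRat231, coe_nUnip231, coe_nUnip231]
  generalize algebraMap K (A0.Adl K) (α : K) = a
  simp

end Param

section Main

variable {K : Type} [Field K] [NumberField K]

/-- **Leaf A2.14, for one field.**  A function with a Fourier--Whittaker expansion whose
Whittaker function is not identically zero is not identically zero. -/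
theorem neZero_of_preCusp231 {π : HeckeEigensystem K ℂ} {ψ : A0.Adl K → ℂ} {φ W : A0.G K → ℂ}
    (h : PreCusp π ψ φ W) : ∃ g : A0.G K, φ g ≠ 0 := by
  by_contra hcon0
  have hcon : ∀ g : A0.G K, φ g = 0 := fun g => by_contra fun hg => hcon0 ⟨g, hg⟩
  obtain ⟨g₀, hg₀⟩ := h.W_ne
  obtain ⟨b, hb, hbW⟩ := h.whit.loc_summable {g₀} isCompact_singleton
  -- the coefficients
  set c : Kˣ → ℂ := fun α => W (dRat231 K α * g₀) with hc_def
  have hc : Summable fun α => ‖c α‖ :=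
    Summable.of_nonneg_of_le (fun _ => norm_nonneg _)
      (fun α => hbW _ (isRatDiag_dRat231 K) α g₀ rfl) hb
  -- `ψ` is a unitary character
  have hψ : IsUChar231 ψ := ⟨h.char.map_add, h.char.norm_one⟩
  -- the characters
  set η : Kˣ → A0.Adl K → ℂ :=
    fun α x => ψ (algebraMap K (A0.Adl K) ((α : K) - 1) * x) with hη_def
  have hη : ∀ α, IsUChar231 (η α) := by
    intro α
    refine ⟨fun x y => ?_, fun x => h.char.norm_one _⟩
    simp only [hη_def]
    rw [mul_add, h.char.map_add]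
  have h₀ : ∀ x, η 1 x = 1 := by
    intro x
    simp only [hη_def]
    rw [Units.val_one, sub_self, map_zero, zero_mul]
    exact hψ.map_zero
  have hsep : ∀ α : Kˣ, α ≠ 1 → ∃ y, η α y ≠ 1 := by
    intro α hα
    obtain ⟨x₀, hx₀⟩ := h.char.nontriv
    have hne : (α : K) - 1 ≠ 0 := sub_ne_zero.mpr fun h1 => hα (Units.ext h1)
    refine ⟨algebraMap K (A0.Adl K) ((α : K) - 1)⁻¹ * x₀, ?_⟩
    simp only [hη_def]
    rw [← mul_assoc, ← map_mul, mul_inv_cancel₀ hne, map_one, one_mul]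
    exact hx₀
  have hsum : ∀ x, ∑' α, c α * η α x = 0 := by
    intro x
    have h1 : φ (nUnip231 K x * g₀) = ∑' α, W (dRat231 K α * (nUnip231 K x * g₀)) :=
      h.whit.expansion _ (isRatDiag_dRat231 K) _
    rw [hcon] at h1
    have h2 : ∀ α : Kˣ, W (dRat231 K α * (nUnip231 K x * g₀)) = c α * η α x * ψ x := by
      intro α
      rw [← mul_assoc, dRat231_mul_nUnip231, mul_assoc,
        h.whit.equiv _ (isUpperUnip_nUnip231 K)]
      have h3 : ψ (algebraMap K (A0.Adl K) (α : K) * x) = η α x * ψ x := by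
        simp only [hη_def]
        rw [← h.char.map_add]
        congr 1
        rw [map_sub, map_one]
        ring
      rw [h3]
      ring
    have h4 : (∑' α, c α * η α x) * ψ x = 0 := by
      rw [← tsum_mul_right]
      rw [h1]
      exact tsum_congr fun α => (h2 α).symm
    exact (mul_eq_zero.mp h4).resolve_right (hψ.ne_zero x)
  have hzero := coeff_eq_zero_of_tsum_eq_zero231 η hη c hc 1 h₀ hsep hsum
  apply hg₀
  have h5 : c 1 = W g₀ := by
    simp only [hc_def]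
    rw [dRat231_one, one_mul]
  rw [← h5]
  exact hzero

end Main

/-- **Leaf A2.14 `NeZeroOfWhitC`** (the hypothesis `AdeleQuotC` is not used). -/
theorem neZeroOfWhitC231 : NeZeroOfWhitC := by
  intro _ K _ _ π ψ φ W h
  exact neZero_of_preCusp231 h

end Fermat.Agent.LT.A2.H231

end

end
-- ===== PACK-END LT/A2/H231/NeZero.lean

-- ===== PACK-BEGIN LT/A2/H293/Val.lean
section




/-!
# Row LT, tower A2, leaf A2.03.1.1.09 `LocBadOfRepC` (helper293) -- part 3: valuation lemmas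

OFF-MAIN.  A field `k` valued in `ℤᵐ⁰`: the balls `ϖ^N 𝒪`, no small subgroups (characters are
trivial on a small ball), square roots near `1` (Hensel), compact sets are bounded.
-/

set_option autoImplicit false

open Filter Topology

noncomputable section

namespace Fermat.Agent.LT.A2.H293

open Fermat.Agent.LT.T6 Fermat.Agent.LT.H129

variable {k : Type} [Field k] [Valued k Γ₀]

/-- The ball `{x : |x| ≤ exp j}`. -/
def ballZ293 (k : Type) [Field k] [Valued k Γ₀] (j : ℤ) : Set k :=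
  {x | Valued.v x ≤ WithZero.exp j}

/-- The ball `ϖ^N 𝒪 = {x : |x| ≤ exp (-N)}`. -/
def ball293 (k : Type) [Field k] [Valued k Γ₀] (N : ℕ) : Set k := ballZ293 k (-(N : ℤ))

theorem mem_ball293 {N : ℕ} {x : k} :
    x ∈ ball293 k N ↔ Valued.v x ≤ WithZero.exp (-(N : ℤ)) := Iff.rfl

theorem exp_neg_le_one293 (N : ℕ) : (WithZero.exp (-(N : ℤ)) : Γ₀) ≤ 1 := by
  rw [← WithZero.exp_zero, WithZero.exp_le_exp]
  omega

theorem exp_neg_lt_one293 {N : ℕ} (h : 1 ≤ N) : (WithZero.exp (-(N : ℤ)) : Γ₀) < 1 := by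
  rw [← WithZero.exp_zero, WithZero.exp_lt_exp]
  omega

theorem exp_neg_anti293 {N N' : ℕ} (h : N ≤ N') :
    (WithZero.exp (-(N' : ℤ)) : Γ₀) ≤ WithZero.exp (-(N : ℤ)) := by
  rw [WithZero.exp_le_exp]
  omega

theorem ball_anti293 {N N' : ℕ} (h : N ≤ N') : ball293 k N' ⊆ ball293 k N :=
  fun _ hx => le_trans hx (exp_neg_anti293 h)

theorem zero_mem_ball293 (N : ℕ) : (0 : k) ∈ ball293 k N := by
  rw [mem_ball293, map_zero]
  exact zero_le

theorem add_mem_ball293 {N : ℕ} {x y : k} (hx : x ∈ ball293 k N) (hy : y ∈ ball293 k N) :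
    x + y ∈ ball293 k N := by
  rw [mem_ball293] at hx hy ⊢
  exact le_trans (Valuation.map_add _ _ _) (max_le hx hy)

theorem neg_mem_ball293 {N : ℕ} {x : k} (hx : x ∈ ball293 k N) : -x ∈ ball293 k N := by
  rw [mem_ball293, Valuation.map_neg]
  exact hx

theorem sub_mem_ball293 {N : ℕ} {x y : k} (hx : x ∈ ball293 k N) (hy : y ∈ ball293 k N) :
    x - y ∈ ball293 k N := by
  rw [sub_eq_add_neg]
  exact add_mem_ball293 hx (neg_mem_ball293 hy)

theorem mul_mem_ball293 {N : ℕ} {a x : k} (ha : Valued.v a ≤ 1) (hx : x ∈ ball293 k N) :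
    a * x ∈ ball293 k N := by
  rw [mem_ball293, map_mul]
  calc Valued.v a * Valued.v x ≤ 1 * WithZero.exp (-(N : ℤ)) := mul_le_mul' ha hx
    _ = WithZero.exp (-(N : ℤ)) := one_mul _

theorem mul_mem_ball293' {N : ℕ} {a x : k} (hx : x ∈ ball293 k N) (ha : Valued.v a ≤ 1) :
    x * a ∈ ball293 k N := by
  rw [mul_comm]
  exact mul_mem_ball293 ha hx

theorem val_le_one_of_mem293 {N : ℕ} {x : k} (hx : x ∈ ball293 k N) : Valued.v x ≤ 1 :=
  le_trans hx (exp_neg_le_one293 N)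

/-- `|t| ≤ exp e`, `b ∈ ϖ^{M+e} 𝒪`  ⟹  `t b ∈ ϖ^M 𝒪`. -/
theorem scale_mem_ball293 {M e : ℕ} {t b : k} (ht : Valued.v t ≤ WithZero.exp (e : ℤ))
    (hb : b ∈ ball293 k (M + e)) : t * b ∈ ball293 k M := by
  rw [mem_ball293, map_mul]
  calc Valued.v t * Valued.v b
      ≤ WithZero.exp (e : ℤ) * WithZero.exp (-((M + e : ℕ) : ℤ)) := mul_le_mul' ht hb
    _ = WithZero.exp (-(M : ℤ)) := by
        rw [← WithZero.exp_add]
        congr 1
        push_cast
        ring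

theorem val_le_one_of_sub293 {N : ℕ} {a : k} (h : a - 1 ∈ ball293 k N) : Valued.v a ≤ 1 := by
  have : a = (a - 1) + 1 := by ring
  rw [this]
  refine le_trans (Valuation.map_add _ _ _) (max_le (val_le_one_of_mem293 h) ?_)
  rw [map_one]

theorem val_eq_one_of_sub293 {N : ℕ} (hN : 1 ≤ N) {a : k} (h : a - 1 ∈ ball293 k N) :
    Valued.v a = 1 := by
  have h1 : Valued.v (a - 1) < 1 := lt_of_le_of_lt h (exp_neg_lt_one293 hN)
  have : a = 1 + (a - 1) := by ring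
  rw [this]
  exact Valuation.map_one_add_of_lt _ h1

theorem ne_zero_of_sub293 {N : ℕ} (hN : 1 ≤ N) {a : k} (h : a - 1 ∈ ball293 k N) : a ≠ 0 := by
  intro h0
  have := val_eq_one_of_sub293 hN h
  rw [h0, map_zero] at this
  exact zero_ne_one this

theorem inv_sub_one_mem293 {N : ℕ} (hN : 1 ≤ N) {a : k} (h : a - 1 ∈ ball293 k N) :
    a⁻¹ - 1 ∈ ball293 k N := by
  have ha : a ≠ 0 := ne_zero_of_sub293 hN h
  have e : a⁻¹ - 1 = -(a - 1) * a⁻¹ := by field_simp; ring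
  rw [e]
  refine mul_mem_ball293' (neg_mem_ball293 h) ?_
  rw [map_inv₀, val_eq_one_of_sub293 hN h, inv_one]

theorem isOpen_ballZ293 (j : ℤ) : IsOpen (ballZ293 k j) := by
  rw [isOpen_iff_mem_nhds]
  intro x hx
  have hne : (WithZero.exp j : Γ₀) ≠ 0 := WithZero.exp_ne_zero
  refine Filter.mem_of_superset (ball_mem_nhds129 x hne) ?_
  intro y hy
  have hy' : Valued.v (y - x) < WithZero.exp j := hy
  have : y = (y - x) + x := by ring
  show Valued.v y ≤ WithZero.exp j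
  rw [this]
  exact le_trans (Valuation.map_add _ _ _) (max_le hy'.le hx)

theorem isClosed_ballZ293 (j : ℤ) : IsClosed (ballZ293 k j) := by
  rw [← isOpen_compl_iff, isOpen_iff_mem_nhds]
  intro x hx
  have hx' : WithZero.exp j < Valued.v x := not_le.mp hx
  have hne : Valued.v x ≠ 0 := fun h => by
    rw [h] at hx'
    exact absurd hx' (not_lt.mpr zero_le)
  refine Filter.mem_of_superset (Valued.locally_const hne) ?_
  intro y hy
  have hy' : Valued.v y = Valued.v x := hy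
  show ¬ Valued.v y ≤ WithZero.exp j
  rw [hy']
  exact not_le.mpr hx'

theorem isOpen_ball293 (N : ℕ) : IsOpen (ball293 k N) := isOpen_ballZ293 _

theorem isClosed_ball293 (N : ℕ) : IsClosed (ball293 k N) := isClosed_ballZ293 _

theorem exists_exp_lt293 {g : Γ₀} (hg : g ≠ 0) :
    ∃ N₀ : ℕ, ∀ N : ℕ, N₀ ≤ N → (WithZero.exp (-(N : ℤ)) : Γ₀) < g := by
  obtain ⟨N₀, hN₀⟩ := WithZero.exists_exp_neg_natCast_lt hg
  exact ⟨N₀, fun N hN => lt_of_le_of_lt (exp_neg_anti293 hN) hN₀⟩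

/-- The balls `ϖ^N 𝒪` form a basis of neighbourhoods of `0`. -/
theorem exists_ball_subset293 {W : Set k} (hW : W ∈ 𝓝 (0 : k)) : ∃ N : ℕ, ball293 k N ⊆ W := by
  rw [Valued.mem_nhds] at hW
  obtain ⟨γ, hγ⟩ := hW
  obtain ⟨N, hN⟩ := WithZero.exists_exp_neg_natCast_lt (embedding_ne_zero129 γ)
  refine ⟨N, fun x hx => hγ ?_⟩
  show (Valued.v : Valuation k Γ₀).restrict (x - 0) < γ.1
  rw [Valuation.restrict_lt_iff_lt_embedding, sub_zero]
  exact lt_of_le_of_lt hx hN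

theorem exists_ball_subset_at293 {W : Set k} (a : k) (hW : W ∈ 𝓝 a) :
    ∃ N : ℕ, ∀ x : k, x - a ∈ ball293 k N → x ∈ W := by
  have hc : Continuous fun y : k => y + a := continuous_id.add continuous_const
  have h0 : (fun y : k => y + a) ⁻¹' W ∈ 𝓝 (0 : k) := by
    apply hc.continuousAt
    simpa using hW
  obtain ⟨N, hN⟩ := exists_ball_subset293 h0
  refine ⟨N, fun x hx => ?_⟩
  have := hN hx
  simpa using this

/-- No small subgroups in the circle: a complex number of absolute value `1` all of whose powers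
are at distance `< 1` from `1` is `1`. -/
theorem eq_one_of_pow_near_one293 {z : ℂ} (hz : ‖z‖ = 1) (h : ∀ j : ℕ, ‖z ^ j - 1‖ < 1) :
    z = 1 := by
  by_contra hne
  have hre : ∀ j : ℕ, (1 : ℝ) / 2 < (z ^ j).re := by
    intro j
    have h1 : ‖z ^ j‖ = 1 := by rw [norm_pow, hz, one_pow]
    have h2 : ‖z ^ j - 1‖ ^ 2 < 1 := by
      have := h j
      have h0 : 0 ≤ ‖z ^ j - 1‖ := norm_nonneg _
      nlinarith
    have h3 : ‖z ^ j - 1‖ ^ 2 = 2 - 2 * (z ^ j).re := by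
      have e1 : ‖z ^ j - 1‖ ^ 2 = (z ^ j - 1).re ^ 2 + (z ^ j - 1).im ^ 2 := by
        rw [← Complex.normSq_eq_norm_sq, Complex.normSq_apply]; ring
      have e2 : ‖z ^ j‖ ^ 2 = (z ^ j).re ^ 2 + (z ^ j).im ^ 2 := by
        rw [← Complex.normSq_eq_norm_sq, Complex.normSq_apply]; ring
      rw [h1] at e2
      rw [e1]
      simp only [Complex.sub_re, Complex.sub_im, Complex.one_re, Complex.one_im, sub_zero]
      nlinarith
    rw [h3] at h2
    linarith
  have hz1 : z - 1 ≠ 0 := sub_ne_zero.mpr hne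
  have hpos : 0 < ‖z - 1‖ := norm_pos_iff.mpr hz1
  obtain ⟨n, hn⟩ := exists_nat_gt (4 / ‖z - 1‖)
  have hsum : (∑ j ∈ Finset.range n, z ^ j) = (z ^ n - 1) / (z - 1) := geom_sum_eq hne n
  have hbig : (n : ℝ) / 2 ≤ (∑ j ∈ Finset.range n, z ^ j).re := by
    rw [Complex.re_sum]
    have : ∑ j ∈ Finset.range n, (1 : ℝ) / 2 ≤ ∑ j ∈ Finset.range n, (z ^ j).re :=
      Finset.sum_le_sum fun j _ => (hre j).le
    simpa [Finset.sum_const, div_eq_mul_inv] using this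
  have hsmall : ‖∑ j ∈ Finset.range n, z ^ j‖ ≤ 2 / ‖z - 1‖ := by
    rw [hsum, norm_div]
    apply div_le_div_of_nonneg_right _ hpos.le
    calc ‖z ^ n - 1‖ ≤ ‖z ^ n‖ + ‖(1 : ℂ)‖ := norm_sub_le _ _
      _ = 2 := by rw [norm_pow, hz, one_pow, norm_one]; norm_num
  have hle : (∑ j ∈ Finset.range n, z ^ j).re ≤ ‖∑ j ∈ Finset.range n, z ^ j‖ :=
    Complex.re_le_norm _
  have : (n : ℝ) / 2 ≤ 2 / ‖z - 1‖ := hbig.trans (hle.trans hsmall)
  have h4 : 4 / ‖z - 1‖ = 2 * (2 / ‖z - 1‖) := by ring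
  rw [h4] at hn
  linarith

/-- A continuous unitary additive character of `k` is trivial on a small ball. -/
theorem psi_small293 {ψ : k → ℂ} (hc : Continuous ψ) (hadd : ∀ x y : k, ψ (x + y) = ψ x * ψ y)
    (hn : ∀ x : k, ‖ψ x‖ = 1) : ∃ N : ℕ, ∀ x ∈ ball293 k N, ψ x = 1 := by
  have hne : ∀ x : k, ψ x ≠ 0 := fun x h => by
    have := hn x
    rw [h, norm_zero] at this
    exact zero_ne_one this
  have h0 : ψ 0 = 1 := by
    have := hadd 0 0
    rw [add_zero] at this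
    exact (mul_eq_left₀ (hne 0)).mp this.symm
  have hW : ψ ⁻¹' Metric.ball (1 : ℂ) 1 ∈ 𝓝 (0 : k) := by
    apply hc.continuousAt
    rw [h0]
    exact Metric.ball_mem_nhds _ one_pos
  obtain ⟨N, hN⟩ := exists_ball_subset293 hW
  refine ⟨N, fun x hx => ?_⟩
  have hpow : ∀ j : ℕ, (j : k) * x ∈ ball293 k N ∧ ψ ((j : k) * x) = ψ x ^ j := by
    intro j
    induction j with
    | zero => simp [zero_mem_ball293, h0]
    | succ j ih =>
      have e : ((j + 1 : ℕ) : k) * x = (j : k) * x + x := by push_cast; ring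
      rw [e]
      exact ⟨add_mem_ball293 ih.1 hx, by rw [hadd, ih.2, pow_succ]⟩
  refine eq_one_of_pow_near_one293 (hn x) fun j => ?_
  have := hN (hpow j).1
  rw [Set.mem_preimage, Metric.mem_ball, dist_eq_norm, (hpow j).2] at this
  exact this

/-- A continuous function `η` with values `±1` and `η 1 = 1` is `1` on a small ball around
`1`. -/
theorem eta_small293 {η : k → ℂ} (hcont : ContinuousOn η {a | a ≠ 0}) (h1 : η 1 = 1)
    (hsq : ∀ a : k, a ≠ 0 → η a = 1 ∨ η a = -1) :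
    ∃ N : ℕ, 1 ≤ N ∧ ∀ a : k, a - 1 ∈ ball293 k N → η a = 1 := by
  have hopen : IsOpen {a : k | a ≠ 0} := isOpen_ne
  have hat : ContinuousAt η 1 :=
    (hcont 1 one_ne_zero).continuousAt (hopen.mem_nhds one_ne_zero)
  have hW : η ⁻¹' Metric.ball (1 : ℂ) 1 ∈ 𝓝 (1 : k) := by
    apply hat
    rw [h1]
    exact Metric.ball_mem_nhds _ one_pos
  obtain ⟨N, hN⟩ := exists_ball_subset_at293 1 hW
  refine ⟨max N 1, le_max_right _ _, fun a ha => ?_⟩
  have ha' : a - 1 ∈ ball293 k N := ball_anti293 (le_max_left _ _) ha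
  have hne : a ≠ 0 := ne_zero_of_sub293 (le_max_right N 1) ha
  have := hN a ha'
  rw [Set.mem_preimage, Metric.mem_ball, dist_eq_norm] at this
  rcases hsq a hne with h | h
  · exact h
  · exfalso
    rw [h] at this
    have e : ‖(-1 : ℂ) - 1‖ = 2 := by
      have : (-1 : ℂ) - 1 = -2 := by ring
      rw [this, norm_neg]
      simp
    rw [e] at this
    linarith

/-- Compact sets are bounded. -/
theorem compact_bounded293 {X : Type} [TopologicalSpace X] {C : Set X} (hC : IsCompact C)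
    {f : X → k} (hf : Continuous f) :
    ∃ B : ℕ, ∀ ξ ∈ C, Valued.v (f ξ) ≤ WithZero.exp (B : ℤ) := by
  have hcov : C ⊆ ⋃ B : ℕ, f ⁻¹' ballZ293 k (B : ℤ) := by
    intro ξ _
    rw [Set.mem_iUnion]
    by_cases h0 : Valued.v (f ξ) = 0
    · refine ⟨0, ?_⟩
      show Valued.v (f ξ) ≤ _
      rw [h0]
      exact zero_le
    · refine ⟨(WithZero.log (Valued.v (f ξ))).toNat, ?_⟩
      show Valued.v (f ξ) ≤ _
      rw [← WithZero.log_le_iff_le_exp h0]
      exact Int.self_le_toNat _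
  have hdir : Directed (· ⊆ ·) fun B : ℕ => f ⁻¹' ballZ293 k (B : ℤ) := by
    intro a b
    refine ⟨max a b, ?_, ?_⟩
    · intro ξ hξ
      have h : Valued.v (f ξ) ≤ WithZero.exp (a : ℤ) := hξ
      show Valued.v (f ξ) ≤ _
      refine le_trans h ?_
      rw [WithZero.exp_le_exp]
      exact_mod_cast le_max_left a b
    · intro ξ hξ
      have h : Valued.v (f ξ) ≤ WithZero.exp (b : ℤ) := hξ
      show Valued.v (f ξ) ≤ _
      refine le_trans h ?_
      rw [WithZero.exp_le_exp]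
      exact_mod_cast le_max_right a b
  obtain ⟨B, hB⟩ := hC.elim_directed_cover (fun B : ℕ => f ⁻¹' ballZ293 k (B : ℤ))
    (fun B => (isOpen_ballZ293 (B : ℤ)).preimage hf) hcov hdir
  exact ⟨B, fun ξ hξ => hB hξ⟩

/-- Square roots near `1` (Hensel). -/
theorem sqrt_near_one293 [CompleteSpace k] (h2 : (2 : k) ≠ 0) (M : ℕ) :
    ∃ N₀ : ℕ, ∀ a : k, a - 1 ∈ ball293 k N₀ → ∃ x : k, x - 1 ∈ ball293 k M ∧ x ^ 2 = a := by
  have hv2 : Valued.v (2 : k) ≠ 0 := (Valuation.ne_zero_iff _).mpr h2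
  obtain ⟨N₁, hN₁⟩ := exists_exp_lt293 (pow_ne_zero 2 hv2)
  obtain ⟨N₂, hN₂⟩ := exists_exp_lt293
    (mul_ne_zero (WithZero.exp_ne_zero (a := -(M : ℤ))) hv2)
  refine ⟨max N₁ N₂, fun a ha => ?_⟩
  have ha1 : Valued.v (a - 1) < Valued.v (2 : k) ^ 2 :=
    lt_of_le_of_lt ha (hN₁ _ (le_max_left _ _))
  have ha2 : Valued.v (a - 1) < WithZero.exp (-(M : ℤ)) * Valued.v (2 : k) :=
    lt_of_le_of_lt ha (hN₂ _ (le_max_right _ _))
  have e1 : (1 : k) ^ 2 - 0 * 1 + -a = -(a - 1) := by ring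
  have e2 : (2 : k) * 1 - 0 = 2 := by ring
  obtain ⟨x, hx, hle⟩ := hensel_quad129 (0 : k) (-a) 1 (by
    rw [e1, e2, Valuation.map_neg]
    exact ha1)
  rw [e1, e2, Valuation.map_neg] at hle
  refine ⟨x, ?_, ?_⟩
  · rw [mem_ball293]
    by_contra hcon
    rw [not_le] at hcon
    have : WithZero.exp (-(M : ℤ)) * Valued.v (2 : k) ≤ Valued.v (x - 1) * Valued.v (2 : k) :=
      mul_le_mul' hcon.le le_rfl
    exact absurd (lt_of_le_of_lt (this.trans hle) ha2) (lt_irrefl _)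
  · linear_combination hx

end Fermat.Agent.LT.A2.H293

end

end
-- ===== PACK-END LT/A2/H293/Val.lean

-- ===== PACK-BEGIN LT/A2/H38/MatchSpec.lean
section



/-!
# Row LT, tower A2, branch GALSEED -- level 3: the cut of `MatchC` and `NonInvC`

OFF-MAIN (helper38).

    MatchC  ⟸ LevelPrimesC + UnifIdeleC + ConjPlaceC + SplitInertC + GroupC
                                                            (`matchC_of_leaves`, PROVED here)
    NonInvC ⟸ ChebG0C + PlaceExistsC + UnifIdeleC + SplitInertC + GroupC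
                                                            (`nonInvC_of_leaves`, PROVED here)

| leaf | content | reference | size |
|---|---|---|---|
| `LevelPrimesC` | almost no prime `p` lies under a prime dividing `𝔫 ≠ 0` | `Ideal.absNorm` | 150 |
| `UnifIdeleC` | every finite place has a uniformiser idele | Mathlib `FiniteAdeleRing`, restricted product | 400 |
| `PlaceExistsC` | `𝔪_A ∩ 𝓞 K` is a finite place of `K ⊂ ℚ̄` over `p` | `𝓞 K ⊂ A` (integrally closed) | 250 |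
| `ConjPlaceC` | every place of `E` over `p` is `τ A ∩ E`; Frobenius at `τ A` is `τ σ τ⁻¹` | transitivity of `G_ℚ` on the valuation subrings over `p` (Neukirch ANT II (9.1)); G0 `FrobConj` on main | 1200 |
| `SplitInertC` | for almost all `p`: `w = A ∩ E`, `h = ρ(σ)^{ordQ8}`: `h ∈ C4` ⟹ two places `A ∩ L ≠ τ A ∩ L` over `w`; `h ∉ C4` ⟹ `A ∩ L` is the only place over `w` | decomposition groups, double cosets `⟨h⟩ \ Q8 / C4` (Neukirch ANT I (9.3)-(9.6)) | 2500 |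
| `GroupC` | finite group theory of `Q8 ⊂ GL₂(𝔽₃)`, `θ`, `tr Ψ` on `Q8` | brute force (`decide`) + helper701 `LT/H701/{GL23,Psi,Q8Rigid}.lean` | 800 |
| `ChebG0C` | infinitely many `p` with a Frobenius `σ`, `ρ σ = g0` | Chebotarev ON MAIN `Fermat.Agent.Lib.Cheb.chebotarev` + `ρ` onto | 300 |

Every Prop is a TRUE statement of mathematics (audit in the memo
`origin/helper38:coord/LT-A2-GalSeed-helper38.md`).
-/

set_option autoImplicit false

open IsDedekindDomain NumberField AutomorphicForm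
open scoped MatrixGroups

noncomputable section

namespace Fermat.Agent.LT.A2.H38

open Fermat.Agent.LT.H130 Fermat.Agent.LT.H556 Fermat.Agent.LT.A2

local notation "Γℚ" => (AlgebraicClosure ℚ ≃ₐ[ℚ] AlgebraicClosure ℚ)

/-- `t ∈ Q8 ∖ C4`. -/
def InQ8NotC4 (t : GL (Fin 2) (ZMod 3)) : Prop := InQ8 t ∧ t ∉ C4

/-! ## General leaves -/

/-- **LEVELPRIMES.**  Only finitely many prime numbers lie under a prime dividing `𝔫 ≠ 0`. -/
def LevelPrimesC : Prop :=
  ∀ (K : Type) [Field K] [NumberField K] (𝔫 : Ideal (𝓞 K)), 𝔫 ≠ ⊥ →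
    ∃ S : Finset ℕ, ∀ p : ℕ, p.Prime → p ∉ S →
      ∀ w : HeightOneSpectrum (𝓞 K), ((p : ℕ) : 𝓞 K) ∈ w.asIdeal → ¬ w.asIdeal ∣ 𝔫

/-- **UNIFIDELE.**  Every finite place has a uniformiser idele. -/
def UnifIdeleC : Prop :=
  ∀ (K : Type) [Field K] [NumberField K] (w : HeightOneSpectrum (𝓞 K)),
    ∃ z : (A0.Adl K)ˣ, IsUnifIdeleAt w z

/-- **PLACEEXISTS.**  A valuation subring `A` of `ℚ̄` over `p` cuts out a finite place of every
number field `K ⊂ ℚ̄`, and this place lies over `p`. -/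
def PlaceExistsC : Prop :=
  ∀ (K : IntermediateField ℚ (AlgebraicClosure ℚ)) [NumberField K] (p : ℕ), p.Prime →
    ∀ A : ValuationSubring (AlgebraicClosure ℚ), A.LiesOverPrime p →
      ∃ w : HeightOneSpectrum (𝓞 K), PlaceUnder K A w ∧ ((p : ℕ) : 𝓞 K) ∈ w.asIdeal

/-! ## Leaves on `ρ` -/

/-- **CONJPLACE.**  Every place `w` of `E` over `p` is cut out by a conjugate `A' = τ A` of a
given valuation subring `A` over `p`, and the Frobenius elements at `A'` are the conjugates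
`τ σ τ⁻¹` of those at `A`. -/
def ConjPlaceC : Prop :=
  ∀ (ρ : Γℚ →* GL (Fin 2) (ZMod 3)) (Ψ : GL (Fin 2) (ZMod 3) →* GL (Fin 2) (ℤ√(-2))),
    LTB.Hyp ρ Ψ → ∀ [NumberField (fieldE ρ)], ∀ p : ℕ, p.Prime →
      ∀ A : ValuationSubring (AlgebraicClosure ℚ), A.LiesOverPrime p →
        ∀ w : HeightOneSpectrum (𝓞 (fieldE ρ)), ((p : ℕ) : 𝓞 (fieldE ρ)) ∈ w.asIdeal →
          ∃ (A' : ValuationSubring (AlgebraicClosure ℚ)) (τ : Γℚ),
            A'.LiesOverPrime p ∧ PlaceUnder (fieldE ρ) A' w ∧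
              ∀ σ : Γℚ, A.IsFrobeniusAt σ p → A'.IsFrobeniusAt (τ * σ * τ⁻¹) p

/-- **SPLITINERT.**  For almost all `p`, every `A | p`, every Frobenius `σ` at `A` and
`w = A ∩ E`, with `h = ρ(σ) ^ ordQ8 (ρ σ) = ρ(Frob_w) ∈ Q8`:
* `h ∈ C4`: `w` splits in `L`, the two places are `A ∩ L` and `A₂ ∩ L`, `A₂ = τ A` with
  `ρ τ = t ∈ Q8 ∖ C4` (Frobenius `σ₂ = τ σ τ⁻¹` at `A₂`);
* `h ∉ C4`: `A ∩ L` is the only place of `L` over `w`. -/
def SplitInertC : Prop :=
  ∀ (ρ : Γℚ →* GL (Fin 2) (ZMod 3)) (Ψ : GL (Fin 2) (ZMod 3) →* GL (Fin 2) (ℤ√(-2))),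
    LTB.Hyp ρ Ψ → ∀ [NumberField (fieldE ρ)] [NumberField (fieldL ρ)],
      letI := algEL ρ
      ∃ S : Finset ℕ, ∀ p : ℕ, p.Prime → p ∉ S →
        ∀ A : ValuationSubring (AlgebraicClosure ℚ), A.LiesOverPrime p →
          ∀ σ : Γℚ, A.IsFrobeniusAt σ p →
            ∀ w : HeightOneSpectrum (𝓞 (fieldE ρ)), PlaceUnder (fieldE ρ) A w →
              (ρ σ ^ ordQ8 (ρ σ) ∈ C4 →
                ∃ w₁ w₂ : HeightOneSpectrum (𝓞 (fieldL ρ)), w₁ ≠ w₂ ∧
                  LiesOverPl (fieldE ρ) w₁ w ∧ LiesOverPl (fieldE ρ) w₂ w ∧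
                  PlaceUnder (fieldL ρ) A w₁ ∧
                  ∃ (A₂ : ValuationSubring (AlgebraicClosure ℚ)) (σ₂ : Γℚ)
                    (t : GL (Fin 2) (ZMod 3)),
                    A₂.LiesOverPrime p ∧ A₂.IsFrobeniusAt σ₂ p ∧ InQ8NotC4 t ∧
                      ρ σ₂ = t * ρ σ * t⁻¹ ∧ PlaceUnder (fieldL ρ) A₂ w₂) ∧
              (ρ σ ^ ordQ8 (ρ σ) ∉ C4 →
                ∃ w' : HeightOneSpectrum (𝓞 (fieldL ρ)), LiesOverPl (fieldE ρ) w' w ∧
                  (∀ w'' : HeightOneSpectrum (𝓞 (fieldL ρ)),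
                    LiesOverPl (fieldE ρ) w'' w → w'' = w') ∧
                  PlaceUnder (fieldL ρ) A w')

/-- **GROUP.**  Finite group theory of `C4 ⊂ Q8 ⊂ GL₂(𝔽₃)` and the traces of `Ψ` on `Q8`
(`Ψ(-1) = -1`, `tr Ψ h = 0` for `h` of order `4`): with `f = ordQ8 g`, `h = g ^ f`,
* `tr Ψ (g ^ ordQ8 g)` is a class function of `g`;
* `h ∈ C4`: `f` is the least exponent into `C4`, also for `t g t⁻¹` (`t ∈ Q8 ∖ C4`), and
  `θ(h) + θ(t h t⁻¹) = tr Ψ h`, `θ(h) θ(t h t⁻¹) = 1`, `θ(h) ≠ θ(t h t⁻¹)` if `h = g0`;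
* `h ∉ C4`: `2 f` is the least exponent into `C4`, `θ(h²) = -1`, `tr Ψ h = 0`. -/
def GroupC : Prop :=
  ∀ (ρ : Γℚ →* GL (Fin 2) (ZMod 3)) (Ψ : GL (Fin 2) (ZMod 3) →* GL (Fin 2) (ℤ√(-2))),
    LTB.Hyp ρ Ψ → ∀ (ι : ℤ√(-2) →+* ℂ) (g : GL (Fin 2) (ZMod 3)),
      (∀ x : GL (Fin 2) (ZMod 3),
        trΨ Ψ ι ((x * g * x⁻¹) ^ ordQ8 (x * g * x⁻¹)) = trΨ Ψ ι (g ^ ordQ8 g)) ∧
      (g ^ ordQ8 g ∈ C4 →
        IsLeastPowC4 g (ordQ8 g) ∧
        ∀ t : GL (Fin 2) (ZMod 3), InQ8NotC4 t →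
          IsLeastPowC4 (t * g * t⁻¹) (ordQ8 g) ∧
          thetaVal (g ^ ordQ8 g) + thetaVal ((t * g * t⁻¹) ^ ordQ8 g)
            = trΨ Ψ ι (g ^ ordQ8 g) ∧
          thetaVal (g ^ ordQ8 g) * thetaVal ((t * g * t⁻¹) ^ ordQ8 g) = 1 ∧
          (g = g0 → thetaVal (g ^ ordQ8 g) ≠ thetaVal ((t * g * t⁻¹) ^ ordQ8 g))) ∧
      (g ^ ordQ8 g ∉ C4 →
        IsLeastPowC4 g (2 * ordQ8 g) ∧ thetaVal (g ^ (2 * ordQ8 g)) = -1 ∧
        trΨ Ψ ι (g ^ ordQ8 g) = 0)

/-- **CHEB-G0.**  Outside every finite set of primes there are `p`, `A | p` and a Frobenius `σ`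
at `A` with `ρ σ = g0`.  Chebotarev over `ℚ` (ON MAIN) for the fixed field of `ker ρ`. -/
def ChebG0C : Prop :=
  ∀ (ρ : Γℚ →* GL (Fin 2) (ZMod 3)) (Ψ : GL (Fin 2) (ZMod 3) →* GL (Fin 2) (ℤ√(-2))),
    LTB.Hyp ρ Ψ → ∀ S : Finset ℕ,
      ∃ (p : ℕ) (A : ValuationSubring (AlgebraicClosure ℚ)) (σ : Γℚ),
        p.Prime ∧ p ∉ S ∧ A.LiesOverPrime p ∧ A.IsFrobeniusAt σ p ∧ ρ σ = g0

/-! ## The tops -/

theorem g0_inQ8 : InQ8 g0 := ⟨det_g0, g0_pow_four⟩

theorem ordQ8_g0 : ordQ8 g0 = 1 := by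
  unfold ordQ8
  rw [if_pos g0_inQ8]

theorem g0_mem_C4 : g0 ∈ C4 := Subgroup.mem_zpowers g0

/-- **MATCH from its leaves.** -/
theorem matchC_of_leaves (hLP : LevelPrimesC) (hU : UnifIdeleC) (hCP : ConjPlaceC)
    (hSI : SplitInertC) (hG : GroupC) : MatchC := by
  intro ρ Ψ hyp ι hNE hNL χ hart
  letI := algEL ρ
  intro π hind
  obtain ⟨S₁, hS₁⟩ := hLP (fieldE ρ) π.level π.level_ne_bot
  obtain ⟨S₂, hS₂⟩ := @hSI ρ Ψ hyp hNE hNL
  obtain ⟨S₃, hS₃⟩ := hart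
  classical
  refine ⟨S₁ ∪ S₂ ∪ S₃, fun p hp hpS A hA σ hσ w hw => ?_⟩
  have hp1 : p ∉ S₁ := fun h => hpS (Finset.mem_union_left _ (Finset.mem_union_left _ h))
  have hp2 : p ∉ S₂ := fun h => hpS (Finset.mem_union_left _ (Finset.mem_union_right _ h))
  have hp3 : p ∉ S₃ := fun h => hpS (Finset.mem_union_right _ h)
  -- move to a valuation subring over `w`
  obtain ⟨A', τ, hA', hwA', hconj⟩ := @hCP ρ Ψ hyp hNE p hp A hA w hw
  have hσ' := hconj σ hσ
  have hρ' : ρ (τ * σ * τ⁻¹) = ρ τ * ρ σ * (ρ τ)⁻¹ := by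
    rw [map_mul, map_mul, map_inv]
  obtain ⟨hcl, hin, hout⟩ := hG ρ Ψ hyp ι (ρ τ * ρ σ * (ρ τ)⁻¹)
  have hcl' := (hG ρ Ψ hyp ι (ρ σ)).1 (ρ τ)
  show π.a w = trΨ Ψ ι (ρ σ ^ ordQ8 (ρ σ)) ∧ π.b w = 1
  rw [← hcl']
  have hInd := hind w (hS₁ p hp hp1 w hw)
  obtain ⟨hsplit, hinert⟩ := hS₂ p hp hp2 A' hA' (τ * σ * τ⁻¹) hσ' w hwA'
  rw [hρ'] at hsplit hinert
  by_cases hC : (ρ τ * ρ σ * (ρ τ)⁻¹) ^ ordQ8 (ρ τ * ρ σ * (ρ τ)⁻¹) ∈ C4
  · obtain ⟨w₁, w₂, hne, hl₁, hl₂, hu₁, A₂, σ₂, t, hA₂, hσ₂, ht, hρ₂, hu₂⟩ := hsplit hC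
    obtain ⟨z₁, hz₁⟩ := hU (fieldL ρ) w₁
    obtain ⟨z₂, hz₂⟩ := hU (fieldL ρ) w₂
    obtain ⟨hab, hbb⟩ := hInd.1 w₁ w₂ hne hl₁ hl₂ z₁ z₂ hz₁ hz₂
    obtain ⟨hleast, hrest⟩ := hin hC
    obtain ⟨hleast₂, hsum, hprod, -⟩ := hrest t ht
    have e₁ := (hS₃ p hp hp3 A' hA' (τ * σ * τ⁻¹) hσ' w₁ hu₁).2 _
      (by rw [hρ']; exact hleast) z₁ hz₁
    have e₂ := (hS₃ p hp hp3 A₂ hA₂ σ₂ hσ₂ w₂ hu₂).2 _
      (by rw [hρ₂]; exact hleast₂) z₂ hz₂
    rw [hρ'] at e₁
    rw [hρ₂] at e₂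
    refine ⟨?_, ?_⟩
    · rw [hab, e₁, e₂, hsum]
    · rw [hbb, e₁, e₂, hprod]
  · obtain ⟨w', hl, huniq, hu⟩ := hinert hC
    obtain ⟨z, hz⟩ := hU (fieldL ρ) w'
    obtain ⟨ha, hb⟩ := hInd.2 w' hl huniq z hz
    obtain ⟨hleast, hth, htr⟩ := hout hC
    have e := (hS₃ p hp hp3 A' hA' (τ * σ * τ⁻¹) hσ' w' hu).2 _
      (by rw [hρ']; exact hleast) z hz
    rw [hρ'] at e
    refine ⟨?_, ?_⟩
    · rw [ha, htr]
    · rw [hb, e, hth]; norm_num

/-- **NONINV from its leaves.** -/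
theorem nonInvC_of_leaves (hCh : ChebG0C) (hP : PlaceExistsC) (hU : UnifIdeleC)
    (hSI : SplitInertC) (hG : GroupC) : NonInvC := by
  intro ρ Ψ hyp hNE hNL χ hart
  letI := algEL ρ
  obtain ⟨S₂, hS₂⟩ := @hSI ρ Ψ hyp hNE hNL
  obtain ⟨S₃, hS₃⟩ := hart
  classical
  obtain ⟨p, A, σ, hp, hpS, hA, hσ, hρσ⟩ := hCh ρ Ψ hyp (S₂ ∪ S₃)
  have hp2 : p ∉ S₂ := fun h => hpS (Finset.mem_union_left _ h)
  have hp3 : p ∉ S₃ := fun h => hpS (Finset.mem_union_right _ h)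
  obtain ⟨w, hw, -⟩ := hP (fieldE ρ) p hp A hA
  obtain ⟨hsplit, -⟩ := hS₂ p hp hp2 A hA σ hσ w hw
  obtain ⟨ι⟩ : Nonempty (ℤ√(-2) →+* ℂ) :=
    ⟨Zsqrtd.lift ⟨Complex.I * (Real.sqrt 2 : ℂ), by
      have h : ((Real.sqrt 2 : ℝ) : ℂ) * ((Real.sqrt 2 : ℝ) : ℂ) = 2 := by
        rw [← Complex.ofReal_mul, Real.mul_self_sqrt (by norm_num)]
        norm_num
      have hI : Complex.I * Complex.I = -1 := Complex.I_mul_I
      calc (Complex.I * (Real.sqrt 2 : ℂ)) * (Complex.I * (Real.sqrt 2 : ℂ))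
          = (Complex.I * Complex.I) * (((Real.sqrt 2 : ℝ) : ℂ) * ((Real.sqrt 2 : ℝ) : ℂ)) := by
            ring
        _ = ((-2 : ℤ) : ℂ) := by rw [hI, h]; norm_num⟩⟩
  obtain ⟨-, hin, -⟩ := hG ρ Ψ hyp ι (ρ σ)
  have hC : ρ σ ^ ordQ8 (ρ σ) ∈ C4 := by
    rw [hρσ, ordQ8_g0, pow_one]; exact g0_mem_C4
  obtain ⟨w₁, w₂, hne, hl₁, hl₂, hu₁, A₂, σ₂, t, hA₂, hσ₂, ht, hρ₂, hu₂⟩ := hsplit hC
  obtain ⟨z₁, hz₁⟩ := hU (fieldL ρ) w₁
  obtain ⟨z₂, hz₂⟩ := hU (fieldL ρ) w₂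
  obtain ⟨hleast, hrest⟩ := hin hC
  obtain ⟨hleast₂, -, -, hneq⟩ := hrest t ht
  have a₁ := hS₃ p hp hp3 A hA σ hσ w₁ hu₁
  have a₂ := hS₃ p hp hp3 A₂ hA₂ σ₂ hσ₂ w₂ hu₂
  have e₁ := a₁.2 _ hleast z₁ hz₁
  have e₂ := a₂.2 _ (by rw [hρ₂]; exact hleast₂) z₂ hz₂
  rw [hρ₂] at e₂
  refine ⟨w, w₁, w₂, z₁, z₂, hne, hl₁, hl₂, a₁.1, a₂.1, hz₁, hz₂, fun h => ?_⟩
  apply hneq hρσ
  rw [← e₁, ← e₂, h]

end Fermat.Agent.LT.A2.H38

end

end
-- ===== PACK-END LT/A2/H38/MatchSpec.lean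

-- ===== PACK-BEGIN LT/T5/H904/HeightDist.lean
section




/-!
# Row LT, tower T5, sub-leaf T5.02e1 `H40.HeightDistC` (helper904)

OFF-MAIN.  `heightDist_of904 : T1.AdNormC K → T5.H40.HeightDistC K` and
`heightDist_of_T1Out904 : T1.T1Out K → T5.H40.HeightDistC K`.

Proof.  `g = b k`, `g ω = b₂ k₂` (the two decompositions of `T1.HasHeight`), so
`b' = b⁻¹ b₂ = k ω k₂⁻¹` is upper triangular and lies in the compact set `M = K⁰ C K⁰`
(`K⁰` is compact: helper919 `isCompact_stdCompact919`).  The entries `b'₁₁` and `(b'⁻¹)₀₀ = b'₀₀⁻¹`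
are ideles which lie in compact sets of adeles, so their modules are bounded above (`boxCB904`,
after helper472): `H(b') = ‖b'₀₀‖ / ‖b'₁₁‖ ≥ 1 / (B₁ B₂)`, and `t' = H(b b') = t · H(b')`.
Neither the uniqueness of the height nor the Iwasawa decomposition is used.
-/

set_option autoImplicit false

open IsDedekindDomain NumberField MeasureTheory
open scoped MatrixGroups

noncomputable section

namespace Fermat.Agent.LT.T5.H904

open Fermat.Agent.LT.H556.A0 Fermat.Agent.LT Fermat.Agent.LT.T1.H793 Fermat.Agent.LT.T1.H919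

variable (K : Type) [Field K] [NumberField K]

/-- **T5.02e1 `HeightDistC`** from the module (`T1.AdNormC`). -/
theorem heightDist_of904 (hN : T1.AdNormC K) : T5.H40.HeightDistC K := by
  intro C hC
  set K0 : Set (G K) := {k : G K | T1.IsStdCompact K k} with hK0def
  have hK0 : IsCompact K0 := isCompact_stdCompact919
  set M : Set (G K) :=
    (fun q : (G K × G K) × G K => q.1.1 * q.1.2 * q.2⁻¹) '' ((K0 ×ˢ C) ×ˢ K0) with hMdef
  have hM : IsCompact M :=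
    ((hK0.prod hC).prod hK0).image (by fun_prop)
  set Q₁ : Set (Adl K) :=
    (fun g : G K => (g : Matrix (Fin 2) (Fin 2) (Adl K)) 1 1) '' M with hQ₁def
  set Q₂ : Set (Adl K) :=
    (fun g : G K => ((g⁻¹ : G K) : Matrix (Fin 2) (Fin 2) (Adl K)) 0 0) '' M with hQ₂def
  have hQ₁ : IsCompact Q₁ := hM.image (continuous_entry919 1 1)
  have hQ₂ : IsCompact Q₂ := hM.image ((continuous_entry919 0 0).comp continuous_inv)
  obtain ⟨B₁, hB₁⟩ := boxCB904 K Q₁ hQ₁
  obtain ⟨B₂, hB₂⟩ := boxCB904 K Q₂ hQ₂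
  refine ⟨max B₁ 1 * max B₂ 1, by positivity, ?_⟩
  rintro g ω t t' hω ⟨b, k, hb, hk, hg, ht⟩ ⟨b₂, k₂, hb₂, hk₂, hg₂, ht'⟩
  set b' : G K := b⁻¹ * b₂ with hb'def
  have hb'eq : b' = k * ω * k₂⁻¹ := by
    rw [hb'def, eq_mul_inv_iff_mul_eq, mul_assoc, ← hg₂, hg]
    group
  have hb'M : b' ∈ M := by
    rw [hb'eq]
    exact ⟨((k, ω), k₂), ⟨⟨hk, hω⟩, hk₂⟩, rfl⟩
  have hb'up : T1.IsUpper K b' := isUpper_mul793 (isUpper_inv793 hb) hb₂
  have hb₂eq : b₂ = b * b' := by rw [hb'def, mul_inv_cancel_left]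
  -- the diagonal entries
  obtain ⟨hu00, hu11⟩ := isUnit_diag793 hb
  obtain ⟨hu'00, hu'11⟩ := isUnit_diag793 hb'up
  have hinvup : T1.IsUpper K b'⁻¹ := isUpper_inv793 hb'up
  obtain ⟨hi00, -⟩ := isUnit_diag793 hinvup
  have e00 : (b₂ : Matrix (Fin 2) (Fin 2) (Adl K)) 0 0
      = (b : Matrix (Fin 2) (Fin 2) (Adl K)) 0 0 * (b' : Matrix (Fin 2) (Fin 2) (Adl K)) 0 0 := by
    rw [hb₂eq]; exact mul_apply_zero_zero793 hb'up
  have e11 : (b₂ : Matrix (Fin 2) (Fin 2) (Adl K)) 1 1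
      = (b : Matrix (Fin 2) (Fin 2) (Adl K)) 1 1 * (b' : Matrix (Fin 2) (Fin 2) (Adl K)) 1 1 := by
    rw [hb₂eq]; exact mul_apply_one_one793 hb
  have einv : ((b'⁻¹ : G K) : Matrix (Fin 2) (Fin 2) (Adl K)) 0 0
      * (b' : Matrix (Fin 2) (Fin 2) (Adl K)) 0 0 = 1 := by
    have h := mul_apply_zero_zero793 (b := b'⁻¹) hb'up
    rw [inv_mul_cancel] at h
    rw [← h]
    simp
  -- the modules
  have p00 := adNorm_pos793 hN hu00
  have p11 := adNorm_pos793 hN hu11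
  have p'00 := adNorm_pos793 hN hu'00
  have p'11 := adNorm_pos793 hN hu'11
  have pi00 := adNorm_pos793 hN hi00
  have hone : T1.adNorm K (1 : Adl K) = 1 := by
    have := hN.2.1 1 1
    simp only [mul_one, Units.val_one] at this
    have hp : 0 < T1.adNorm K (1 : Adl K) := by
      have := hN.1 1
      simpa using this
    nlinarith
  have hprod : T1.adNorm K (((b'⁻¹ : G K) : Matrix (Fin 2) (Fin 2) (Adl K)) 0 0)
      * T1.adNorm K ((b' : Matrix (Fin 2) (Fin 2) (Adl K)) 0 0) = 1 := by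
    rw [← adNorm_mul793 hN hi00 hu'00, einv, hone]
  have hle₁ : T1.adNorm K ((b' : Matrix (Fin 2) (Fin 2) (Adl K)) 1 1) ≤ max B₁ 1 := by
    obtain ⟨u, hu⟩ := hu'11
    rw [← hu]
    exact le_trans (hB₁ u (by rw [hu]; exact ⟨b', hb'M, rfl⟩)) (le_max_left _ _)
  have hle₂ : T1.adNorm K (((b'⁻¹ : G K) : Matrix (Fin 2) (Fin 2) (Adl K)) 0 0) ≤ max B₂ 1 := by
    obtain ⟨u, hu⟩ := hi00
    rw [← hu]
    exact le_trans (hB₂ u (by rw [hu]; exact ⟨b', hb'M, rfl⟩)) (le_max_left _ _)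
  -- conclusion
  rw [ht, ht', e00, e11, adNorm_mul793 hN hu00 hu'00, adNorm_mul793 hN hu11 hu'11]
  set x := T1.adNorm K ((b : Matrix (Fin 2) (Fin 2) (Adl K)) 0 0) with hx
  set y := T1.adNorm K ((b : Matrix (Fin 2) (Fin 2) (Adl K)) 1 1) with hy
  set x' := T1.adNorm K ((b' : Matrix (Fin 2) (Fin 2) (Adl K)) 0 0) with hx'
  set y' := T1.adNorm K ((b' : Matrix (Fin 2) (Fin 2) (Adl K)) 1 1) with hy'
  set z := T1.adNorm K (((b'⁻¹ : G K) : Matrix (Fin 2) (Fin 2) (Adl K)) 0 0) with hz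
  have hB₁' : 0 < max B₁ 1 := lt_of_lt_of_le one_pos (le_max_right _ _)
  have hB₂' : 0 < max B₂ 1 := lt_of_lt_of_le one_pos (le_max_right _ _)
  -- `x / y ≤ B₁' B₂' (x x') / (y y')`  ⟸  `y' ≤ B₁'`, `1 = z x'`, `z ≤ B₂'`
  have h1 : y' ≤ max B₁ 1 * max B₂ 1 * x' := by
    calc y' ≤ max B₁ 1 := hle₁
      _ = max B₁ 1 * (z * x') := by rw [hprod, mul_one]
      _ ≤ max B₁ 1 * (max B₂ 1 * x') :=
          mul_le_mul_of_nonneg_left (mul_le_mul_of_nonneg_right hle₂ p'00.le) hB₁'.le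
      _ = max B₁ 1 * max B₂ 1 * x' := by ring
  rw [div_le_iff₀ p11]
  have h2 : max B₁ 1 * max B₂ 1 * (x * x' / (y * y')) * y
      = x * (max B₁ 1 * max B₂ 1 * x') / y' := by
    field_simp
  rw [h2, le_div_iff₀ p'11]
  exact mul_le_mul_of_nonneg_left h1 p00.le

/-- **T5.02e1 `HeightDistC`** from the output of tower T1. -/
theorem heightDist_of_T1Out904 (hT1 : T1.T1Out K) : T5.H40.HeightDistC K :=
  heightDist_of904 K hT1.adNorm

end Fermat.Agent.LT.T5.H904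

end

end
-- ===== PACK-END LT/T5/H904/HeightDist.lean

-- ===== PACK-BEGIN LT/T7/H37/ThinSpec.lean
section



/-!
# Row LT, tower T7, node T7.13 `ThinC` (mass bound over `F`): SUB-SPEC (helper37), OFF-MAIN

Definitions, frozen Props, PROVED tops.  Nothing is assumed, no opaque constant.
Built on `LT/T7/Spec.lean` v1.2 (helper797@d4e07e123, sha256 76a19604), byte-identical copy.

    thinTop : DictFQC → SqrtC → DegenC → NormSplitC → ChebFC → MassC → T7.ThinC      (PROVED)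
    massTop : ClassOneC → NormEmbC → HoroFC → NonconstFC → HoroCoeffFC → MSFC → DirichletC
                → MassC                                                             (PROVED)

`DictFQC`, `SqrtC` are leaves of `T7/Spec.lean` (T7.06, T7.09), nothing new.

## The argument (no Rankin--Selberg integral, upper bounds only)

`F = fieldF ρ = ℚ(√-3)`, `π` the eigensystem of a cusp form over `F` with `MidData`.

1. `DegenC` (group theory of `GL₂(𝔽₃)`): at almost all primes `p`, every place `v ∣ p` of `F`,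
   `g = ρ(Frob_p)`: `b_v = 1` and EITHER `a_v` is the true value `t = tr Ψ (g ^ ordSL g)` OR
   `det g = 1`, `|a_v|² = 4` and `|t|² = 1` (`g ∈ SL₂ ∖ Q8` has order `3` or `6`,
   `a³ - 3a = tr Ψ (g³) = ± 2`, `x³ - 3x ∓ 2 = (x ∓ 2)(x ± 1)²`).  In particular `|a_v| ≤ 2`.
2. `MassC` (NODE, the method of tower T8 over `F`): `∑_{v ∈ T} |a_v|² N v^{-s} ≤ log (1/(s-1)) + C₁`
   for all finite `T` away from a finite set and all `s ∈ (1, 2]`.
3. `ChebFC`: `∑_{v ∈ T_s} |t_v|² N v^{-s} ≥ log (1/(s-1)) - C₂` for a suitable finite `T_s`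
   (`|tr Ψ g|²` on `SL₂(𝔽₃)` is the number of fixed points of `g` on `ℙ¹(𝔽₃)`, i.e. the
   permutation character of `SL₂(𝔽₃)/B`: the sum is the sum over the degree-one primes of the
   octic field `M = L^B`, and `Lib/Cheb` `PrimeSumStatement` (simple pole of `ζ_M`) applies.
   NO Chebotarev with error term is needed.)
4. `NormSplitC`: the places over a prime with `det ρ(Frob_p) = 1` have norm `p`.
5. Count (in `thinTop`): a degenerate place has `|a_v|² = |t_v|² + 3`, every other place has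
   `|a_v|² ≥ |t_v|²`, so `3 ∑_{v ∈ W} N v^{-s} ≤ C₁ + C₂` for every finite set `W` of degenerate
   places and every `s ∈ (1, 2]`; let `s → 1`.

## The cut of `MassC` (`massTop`)

`K = ℚ(√-3)`, class number one (`ClassOneC`), `e : K →+* ℂ`, `|e x|² = N(x)` (`NormEmbC`).
* `HoroFC` (ADELIC; the analogue over `K` of `T8.HoroC`): the horocycle family
  `U κ z y = φ (n(z)_∞ a(y)_∞ d(κ) g₀)`, `z ∈ ℂ`, `y > 0`, `κ ∈ (𝓞_K / M)ˣ`, is a `HoroDataF`:
  bounded, separately continuous, `M 𝓞_K`-periodic in `z`, with the FUNCTION FORM of the Hecke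
  relation at every place `v = (ϖ) ∤ M`.
* `NonconstFC` (elementary; `T8.nonconst_of_small` over `K`): one place of norm `≥ 7` with
  `|A_v| ≤ 2`, `|B_v| ≤ 1` forces a member of the family to be non-constant in `z`.
* `HoroCoeffFC` (Fourier analysis on the torus `ℂ / M 𝓞_K`): Fourier coefficients of the
  `χ`-isotypic sums are a `SqCoeffData` with a non-vanishing coefficient of non-zero index.
* `MSFC` (abstract, Mathlib only; `H51.MS1` over `K`, squarefree form: NO Hecke sequence, only the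
  relation at `ϖ ∤ ν` is used): `∑_{T' ⊆ T, N T' ≤ X} ∏_{v ∈ T'} |A_v|² ≤ C X`.
* `DirichletC` (real analysis, no number field): partial sums `≤ C X` of a multiplicative weight
  over squarefree products give `∑_i w_i N_i^{-s} ≤ log (1/(s-1)) + C'` (Euler product lower
  bound `∏ (1 + w_i N_i^{-s})`, `log (1 + x) ≥ x - x²/2`).
-/

set_option autoImplicit false

open AutomorphicForm FLT.ExplicitLift EisensteinWeightOne
open IsDedekindDomain NumberField
open scoped MatrixGroups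

noncomputable section

namespace Fermat.Agent.LT.T7.H37

open Fermat.Agent.LT.H130 Fermat.Agent.LT.H556 Fermat.Agent.LT.T7

local notation "Γℚ" => (AlgebraicClosure ℚ ≃ₐ[ℚ] AlgebraicClosure ℚ)

/-! ## 0. Vocabulary -/

/-- The absolute norm `N v` of a finite place, as a real number. -/
def nrm {K : Type} [Field K] [NumberField K] (v : HeightOneSpectrum (𝓞 K)) : ℝ :=
  ((Ideal.absNorm v.asIdeal : ℕ) : ℝ)

/-! ## 1. The leaves and the node of `ThinC` -/

/-- **LEAF T7.13a DEGEN (elementary: group theory of `GL₂(𝔽₃)` and of the lift `Ψ`).**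
Under `LTB.Hyp` and `MidData`: at almost all primes `p`, for every Frobenius element and every
place `v ∣ p` of `F`: `b_v = 1`, and either `a_v` is the true value `tr Ψ (g ^ ordSL g)`, or
`det g = 1`, `|a_v|² = 4` and the true value has `|·|² = 1`.  Moreover `|a_v| ≤ 2` and `b_v = 1`
outside a finite set of PLACES (every place lies over a prime, every prime has a Frobenius
element, finitely many places over a finite set of primes).
Proof.  `g ∉ SL₂`: `g² ∈ Q8`, `ordQ8 (g²) = 1`, `MidData` is `a_v = tr Ψ (g²)`.  `g ∈ Q8`: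
`MidData` is `a_v = tr Ψ g`.  `g ∈ SL₂ ∖ Q8`: `g³ = ± 1`, `Ψ (-1) = -1`, `det Ψ g = 1`, so with
`t = tr Ψ g` Cayley--Hamilton gives `t³ - 3 t = ± 2`; `t = ± 2` would give `(Ψ g ∓ 1)² = 0`, hence
`Ψ g = ± 1` (finite order), hence `g = ± 1`; so `t = ∓ 1`; `MidData` is `a³ - 3 a = ± 2`, so
`a ∈ {∓ 1, ± 2}`.  On `SL₂(𝔽₃)` the values of `tr Ψ` are `2, -2, 0, -1, 1`. -/
def DegenC : Prop :=
  ∀ (ρ : Γℚ →* GL (Fin 2) (ZMod 3)) (Ψ : GL (Fin 2) (ZMod 3) →* GL (Fin 2) (ℤ√(-2)))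
    (ι : ℤ√(-2) →+* ℂ), LTB.Hyp ρ Ψ → ∀ (_ : NumberField (fieldF ρ))
    (π : HeckeEigensystem (fieldF ρ) ℂ), MidData (fieldF ρ) ρ Ψ ι π →
      (AlmostAllFrob (fieldF ρ) ρ fun v g =>
        π.b v = 1 ∧
          (π.a v = trΨ Ψ ι (g ^ ordSL g) ∨
            (Matrix.GeneralLinearGroup.det g = 1 ∧ ‖π.a v‖ ^ 2 = 4 ∧
              ‖trΨ Ψ ι (g ^ ordSL g)‖ ^ 2 = 1))) ∧
      ∃ S : Finset (HeightOneSpectrum (𝓞 (fieldF ρ))),
        ∀ v : HeightOneSpectrum (𝓞 (fieldF ρ)), v ∉ S → ‖π.a v‖ ≤ 2 ∧ π.b v = 1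

/-- **LEAF T7.13b NORMSPLIT (dictionary, Galois theory of `ρ`).**  Outside a finite set of
primes: if `det ρ(Frob_p) = 1` then every place of `F = fieldF ρ` over `p` has norm `p`.
(`F` is the fixed field of `ker (det ∘ ρ)`, a normal subgroup: a Frobenius element with
`det = 1` acts trivially on `F`, so the residue field of `F` at the place below `V` is `𝔽_p`; the
places of `F` over `p` are conjugate.) -/
def NormSplitC : Prop :=
  ∀ (ρ : Γℚ →* GL (Fin 2) (ZMod 3)) (Ψ : GL (Fin 2) (ZMod 3) →* GL (Fin 2) (ℤ√(-2))),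
    LTB.Hyp ρ Ψ → ∀ (_ : NumberField (fieldF ρ)),
      ∃ S : Finset ℕ, ∀ p : ℕ, p.Prime → p ∉ S →
        ∀ V : ValuationSubring (AlgebraicClosure ℚ), V.LiesOverPrime p →
          ∀ σ : Γℚ, V.IsFrobeniusAt σ p → Matrix.GeneralLinearGroup.det (ρ σ) = 1 →
            ∀ w : HeightOneSpectrum (𝓞 (fieldF ρ)), ((p : ℕ) : 𝓞 (fieldF ρ)) ∈ w.asIdeal →
              Ideal.absNorm w.asIdeal = p

/-- **LEAF T7.13c CHEB (prime sums with `O(1)` error; `Lib/Cheb` `PrimeSumStatement`).**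
For every finite set `S` of primes and every finite set `Sp` of places of `F` there is `C` such
that for every `s ∈ (1, 2]` some finite set `T` of places of `F`, away from `Sp` and from the
primes of `S`, carries the mass `log (1/(s-1)) - C` of the TRUE values:
`∑_{v ∈ T} t_v N v^{-s} ≥ log (1/(s-1)) - C`, where `t_v = |tr Ψ (g ^ ordSL g)|²` for EVERY
Frobenius element at the prime `p` below `v` (and there is one).
Proof.  `L = ℚ̄^{ker ρ}`, `Gal(L/ℚ) = GL₂(𝔽₃)` (`surj`), `B ⊂ SL₂(𝔽₃)` the upper triangular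
subgroup (order `6`), `M = L^B` (degree `8`).  For `p` unramified in `L` with `det g = 1`
(`g = ρ(Frob_p)`) the number of primes of `M` of norm `p` is
`2 · #Fix(g | ℙ¹(𝔽₃)) = 2 · |tr Ψ g|²` (values `4, 4, 0, 1, 1` at the orders `1, 2, 4, 3, 6`), there
are two places of `F` over `p`, both of norm `p`; for `det g ≠ 1` there is none.  So
`∑_{v ∣ p ≤ X, p good, det = 1} t_v N v^{-s} = ∑_{p ≤ X, p good} primeCount M p · p^{-s}`, and
`∑_p primeCount M p · p^{-s} = log (1/(s-1)) + O(1)` (`Fermat.Agent.Lib.Cheb.Spec.PrimeSumStatement`,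
on main); take `X` large (depending on `s`). -/
def ChebFC : Prop :=
  ∀ (ρ : Γℚ →* GL (Fin 2) (ZMod 3)) (Ψ : GL (Fin 2) (ZMod 3) →* GL (Fin 2) (ℤ√(-2)))
    (ι : ℤ√(-2) →+* ℂ), LTB.Hyp ρ Ψ → ∀ (_ : NumberField (fieldF ρ)) (S : Finset ℕ)
    (Sp : Finset (HeightOneSpectrum (𝓞 (fieldF ρ)))),
    ∃ C : ℝ, ∀ s : ℝ, 1 < s → s ≤ 2 →
      ∃ (T : Finset (HeightOneSpectrum (𝓞 (fieldF ρ))))
        (t : HeightOneSpectrum (𝓞 (fieldF ρ)) → ℝ),
        (∀ v ∈ T, v ∉ Sp ∧ ∃ p : ℕ, p.Prime ∧ p ∉ S ∧ ((p : ℕ) : 𝓞 (fieldF ρ)) ∈ v.asIdeal ∧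
          (∃ (V : ValuationSubring (AlgebraicClosure ℚ)) (σ : Γℚ),
            V.LiesOverPrime p ∧ V.IsFrobeniusAt σ p) ∧
          ∀ V : ValuationSubring (AlgebraicClosure ℚ), V.LiesOverPrime p →
            ∀ σ : Γℚ, V.IsFrobeniusAt σ p →
              t v = ‖trΨ Ψ ι ((ρ σ) ^ ordSL (ρ σ))‖ ^ 2) ∧
        Real.log (1 / (s - 1)) - C ≤ ∑ v ∈ T, t v * nrm v ^ (-s)

/-- **NODE T7.13d MASS (the mass bound over `K = ℚ(√-3)`, Dirichlet series form).**
A cusp form over `K` (imaginary quadratic, `√-3 ∈ K`) with `|a_v| ≤ 2`, `b_v = 1` almost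
everywhere: `∑_{v ∈ T} |a_v|² N v^{-s} ≤ log (1/(s-1)) + C` for every `s ∈ (1, 2]` and every
finite set `T` of places disjoint from a fixed finite set.  (Leading coefficient ONE:
`∑_{N 𝔞 ≤ X} |a_𝔞|² = O(X)` gives `D(s) = ∑ |a_𝔞|² N 𝔞^{-s} ≤ C'/(s-1)`, and
`∏_{v ∈ T} (1 + |a_v|² N v^{-s}) ≤ D(s)`.)  Cut into leaves by `massTop`. -/
def MassC : Prop :=
  ∀ (K : Type) [Field K] [NumberField K], IsImagQuad K → HasSqrtNegThree K →
    ∀ π : HeckeEigensystem K ℂ, A0.IsCuspAdelicSph0 K π →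
      (∃ S : Finset (HeightOneSpectrum (𝓞 K)), ∀ v : HeightOneSpectrum (𝓞 K), v ∉ S →
        ‖π.a v‖ ≤ 2 ∧ π.b v = 1) →
      ∃ (S : Finset (HeightOneSpectrum (𝓞 K))) (C : ℝ), ∀ s : ℝ, 1 < s → s ≤ 2 →
        ∀ T : Finset (HeightOneSpectrum (𝓞 K)), Disjoint T S →
          ∑ v ∈ T, ‖π.a v‖ ^ 2 * nrm v ^ (-s) ≤ Real.log (1 / (s - 1)) + C

/-! ## 2. The top of `ThinC` (PROVED) -/

/-- A finite place contains at most one prime number. -/
theorem prime_unique37 {K : Type} [Field K] [NumberField K] (v : HeightOneSpectrum (𝓞 K))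
    {p q : ℕ} (hp : p.Prime) (hq : q.Prime) (hpv : ((p : ℕ) : 𝓞 K) ∈ v.asIdeal)
    (hqv : ((q : ℕ) : 𝓞 K) ∈ v.asIdeal) : p = q := by
  by_contra hne
  have hcop : Nat.Coprime p q := (Nat.coprime_primes hp hq).mpr hne
  have hc : IsCoprime ((p : ℕ) : 𝓞 K) ((q : ℕ) : 𝓞 K) := Nat.Coprime.cast hcop
  obtain ⟨a, b, hab⟩ := hc
  have h1 : (1 : 𝓞 K) ∈ v.asIdeal := by
    rw [← hab]
    exact v.asIdeal.add_mem (v.asIdeal.mul_mem_left a hpv) (v.asIdeal.mul_mem_left b hqv)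
  exact v.isPrime.ne_top ((Ideal.eq_top_iff_one _).mpr h1)

theorem nrm_nonneg37 {K : Type} [Field K] [NumberField K] (v : HeightOneSpectrum (𝓞 K)) :
    0 ≤ nrm v := Nat.cast_nonneg _

theorem nrm_rpow_nonneg37 {K : Type} [Field K] [NumberField K] (v : HeightOneSpectrum (𝓞 K))
    (s : ℝ) : 0 ≤ nrm v ^ s := Real.rpow_nonneg (nrm_nonneg37 v) s

/-- Passage to the limit `s → 1⁺` in a finite sum of `p ^ (-s)`. -/
theorem sum_inv_le_of_forall37 (D : Finset ℕ) (hD : ∀ p ∈ D, 0 < p) (B : ℝ)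
    (h : ∀ s : ℝ, 1 < s → s ≤ 2 → ∑ p ∈ D, ((p : ℕ) : ℝ) ^ (-s) ≤ B) :
    ∑ p ∈ D, (((p : ℕ) : ℝ))⁻¹ ≤ B := by
  have hcont : Continuous fun s : ℝ => ∑ p ∈ D, ((p : ℕ) : ℝ) ^ (-s) := by
    refine continuous_finsetSum D fun p hp => ?_
    have hp0 : ((p : ℕ) : ℝ) ≠ 0 := Nat.cast_ne_zero.mpr (hD p hp).ne'
    exact (Real.continuous_const_rpow hp0).comp continuous_neg
  have hval : (fun s : ℝ => ∑ p ∈ D, ((p : ℕ) : ℝ) ^ (-s)) 1 = ∑ p ∈ D, (((p : ℕ) : ℝ))⁻¹ := by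
    simp only [Real.rpow_neg_one]
  have hT : Filter.Tendsto (fun s : ℝ => ∑ p ∈ D, ((p : ℕ) : ℝ) ^ (-s))
      (nhdsWithin 1 (Set.Ioi 1)) (nhds (∑ p ∈ D, (((p : ℕ) : ℝ))⁻¹)) := by
    rw [← hval]
    exact (hcont.tendsto 1).mono_left nhdsWithin_le_nhds
  refine le_of_tendsto hT ?_
  have hmem : Set.Ioc (1 : ℝ) 2 ∈ nhdsWithin (1 : ℝ) (Set.Ioi 1) :=
    Ioc_mem_nhdsGT (by norm_num)
  filter_upwards [hmem] with s hs
  exact h s hs.1 hs.2

/-- **THE TOP OF NODE T7.13**: `ThinC` from the two dictionary leaves of `T7/Spec.lean`, the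
three leaves `DegenC`, `NormSplitC`, `ChebFC` and the node `MassC`. -/
theorem thinTop (hFQ : DictFQC) (hR : SqrtC) (hDeg : DegenC) (hNorm : NormSplitC) (hCheb : ChebFC)
    (hMass : MassC) : ThinC := by
  classical
  intro ρ Ψ ι hyp nf π hcusp hmid
  obtain ⟨hquad, -⟩ := hFQ ρ Ψ ι hyp nf
  have hsq := hR ρ Ψ hyp
  obtain ⟨⟨S₁, hS₁⟩, hplace⟩ := hDeg ρ Ψ ι hyp nf π hmid
  obtain ⟨S₂, hS₂⟩ := hNorm ρ Ψ hyp nf
  obtain ⟨Sm, C₁, hm⟩ := hMass (fieldF ρ) hquad hsq π hcusp hplace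
  set Sb : Finset ℕ := S₁ ∪ S₂ ∪ Sm.image (fun v => Ideal.absNorm v.asIdeal) with hSb
  obtain ⟨C₂, hc⟩ := hCheb ρ Ψ ι hyp nf Sb Sm
  have hSb₁ : ∀ p : ℕ, p ∉ Sb → p ∉ S₁ := fun p h h' =>
    h (Finset.mem_union_left _ (Finset.mem_union_left _ h'))
  have hSb₂ : ∀ p : ℕ, p ∉ Sb → p ∉ S₂ := fun p h h' =>
    h (Finset.mem_union_left _ (Finset.mem_union_right _ h'))
  -- the degenerate places
  set DegPl : Set (HeightOneSpectrum (𝓞 (fieldF ρ))) := {w | ∃ (p : ℕ)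
    (V : ValuationSubring (AlgebraicClosure ℚ)) (σ : Γℚ), p.Prime ∧ p ∉ Sb ∧
      V.LiesOverPrime p ∧ V.IsFrobeniusAt σ p ∧ ((p : ℕ) : 𝓞 (fieldF ρ)) ∈ w.asIdeal ∧
      π.a w ≠ trΨ Ψ ι ((ρ σ) ^ ordSL (ρ σ))} with hDegPl
  -- the degenerate primes
  set Deg : Set ℕ := {p | p.Prime ∧ p ∉ Sb ∧ ∃ (V : ValuationSubring (AlgebraicClosure ℚ))
    (σ : Γℚ) (w : HeightOneSpectrum (𝓞 (fieldF ρ))), V.LiesOverPrime p ∧ V.IsFrobeniusAt σ p ∧
      ((p : ℕ) : 𝓞 (fieldF ρ)) ∈ w.asIdeal ∧ π.a w ≠ trΨ Ψ ι ((ρ σ) ^ ordSL (ρ σ))} with hDeg'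
  -- facts on degenerate places
  have hdeg4 : ∀ w ∈ DegPl, ‖π.a w‖ ^ 2 = 4 ∧ w ∉ Sm := by
    rintro w ⟨p, V, σ, hp, hpSb, hV, hσ, hw, hne⟩
    obtain ⟨-, h | ⟨hdet, h4, -⟩⟩ := hS₁ p hp (hSb₁ p hpSb) V hV σ hσ w hw
    · exact absurd h hne
    · refine ⟨h4, fun hwS => hpSb ?_⟩
      have hn := hS₂ p hp (hSb₂ p hpSb) V hV σ hσ hdet w hw
      exact Finset.mem_union_right _ (Finset.mem_image.mpr ⟨w, hwS, hn⟩)
  -- the key inequality
  have hkey : ∀ W : Finset (HeightOneSpectrum (𝓞 (fieldF ρ))), (∀ w ∈ W, w ∈ DegPl) →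
      ∀ s : ℝ, 1 < s → s ≤ 2 → 3 * ∑ w ∈ W, nrm w ^ (-s) ≤ C₁ + C₂ := by
    intro W hW s hs1 hs2
    obtain ⟨T, t, hT, hsum⟩ := hc s hs1 hs2
    have hdisj : Disjoint (T ∪ W) Sm := by
      rw [Finset.disjoint_left]
      intro v hv hvS
      rcases Finset.mem_union.mp hv with h | h
      · exact (hT v h).1 hvS
      · exact (hdeg4 v (hW v h)).2 hvS
    have hup := hm s hs1 hs2 (T ∪ W) hdisj
    -- pointwise lower bound
    have hpt : ∀ v ∈ T ∪ W,
        ((if v ∈ T then t v else 0) + (if v ∈ W then 3 else 0)) * nrm v ^ (-s)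
          ≤ ‖π.a v‖ ^ 2 * nrm v ^ (-s) := by
      intro v hv
      refine mul_le_mul_of_nonneg_right ?_ (nrm_rpow_nonneg37 v _)
      by_cases hvT : v ∈ T
      · obtain ⟨-, p', hp', hp'S, hp'v, ⟨V', σ', hV', hσ'⟩, hall⟩ := hT v hvT
        have ht := hall V' hV' σ' hσ'
        obtain ⟨-, hcase⟩ := hS₁ p' hp' (hSb₁ p' hp'S) V' hV' σ' hσ' v hp'v
        by_cases hvW : v ∈ W
        · obtain ⟨p, V, σ, hp, hpSb, hV, hσ, hw, hne⟩ := hW v hvW
          have hpp : p = p' := prime_unique37 v hp hp' hw hp'v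
          subst hpp
          have ht' := hall V hV σ hσ
          obtain ⟨-, h | ⟨-, h4, h1⟩⟩ := hS₁ p hp (hSb₁ p hpSb) V hV σ hσ v hw
          · exact absurd h hne
          · rw [if_pos hvT, if_pos hvW, ht', h1, h4]
            norm_num
        · rw [if_pos hvT, if_neg hvW, add_zero, ht]
          rcases hcase with h | ⟨-, h4, h1⟩
          · rw [h]
          · rw [h4, h1]
            norm_num
      · have hvW : v ∈ W := by
          rcases Finset.mem_union.mp hv with h | h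
          · exact absurd h hvT
          · exact h
        rw [if_neg hvT, if_pos hvW, zero_add, (hdeg4 v (hW v hvW)).1]
        norm_num
    have hlow := Finset.sum_le_sum hpt
    have e1 : ∑ v ∈ T ∪ W, ((if v ∈ T then t v else 0) + (if v ∈ W then 3 else 0))
          * nrm v ^ (-s)
        = ∑ v ∈ T, t v * nrm v ^ (-s) + 3 * ∑ w ∈ W, nrm w ^ (-s) := by
      simp only [add_mul, Finset.sum_add_distrib]
      congr 1
      · rw [← Finset.sum_subset (Finset.subset_union_left (s₁ := T) (s₂ := W))]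
        · exact Finset.sum_congr rfl fun v hv => by rw [if_pos hv]
        · intro v _ hv
          rw [if_neg hv, zero_mul]
      · rw [← Finset.sum_subset (Finset.subset_union_right (s₁ := T) (s₂ := W)), Finset.mul_sum]
        · exact Finset.sum_congr rfl fun v hv => by rw [if_pos hv]
        · intro v _ hv
          rw [if_neg hv, zero_mul]
    rw [e1] at hlow
    linarith
  -- degenerate primes carry degenerate places of the same norm
  have hex : ∀ p : ℕ, p ∈ Deg → ∃ w : HeightOneSpectrum (𝓞 (fieldF ρ)),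
      w ∈ DegPl ∧ Ideal.absNorm w.asIdeal = p := by
    rintro p ⟨hp, hpSb, V, σ, w, hV, hσ, hw, hne⟩
    refine ⟨w, ⟨p, V, σ, hp, hpSb, hV, hσ, hw, hne⟩, ?_⟩
    obtain ⟨-, h | ⟨hdet, -, -⟩⟩ := hS₁ p hp (hSb₁ p hpSb) V hV σ hσ w hw
    · exact absurd h hne
    · exact hS₂ p hp (hSb₂ p hpSb) V hV σ hσ hdet w hw
  choose wf hwf using hex
  have hDsum : ∀ D : Finset ℕ, (∀ p ∈ D, p ∈ Deg) →
      ∑ p ∈ D, (((p : ℕ) : ℝ))⁻¹ ≤ (C₁ + C₂) / 3 := by
    intro D hD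
    refine sum_inv_le_of_forall37 D (fun p hp => (hD p hp).1.pos) _ fun s hs1 hs2 => ?_
    set W : Finset (HeightOneSpectrum (𝓞 (fieldF ρ))) :=
      D.attach.image (fun x => wf x.1 (hD x.1 x.2)) with hWdef
    have hinj : ∀ x ∈ D.attach, ∀ y ∈ D.attach,
        wf x.1 (hD x.1 x.2) = wf y.1 (hD y.1 y.2) → x = y := by
      intro x _ y _ hxy
      apply Subtype.ext
      rw [← (hwf x.1 (hD x.1 x.2)).2, ← (hwf y.1 (hD y.1 y.2)).2, hxy]
    have hWD : ∀ w ∈ W, w ∈ DegPl := by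
      intro w hw
      obtain ⟨x, -, rfl⟩ := Finset.mem_image.mp hw
      exact (hwf x.1 (hD x.1 x.2)).1
    have hk := hkey W hWD s hs1 hs2
    have e : ∑ w ∈ W, nrm w ^ (-s) = ∑ p ∈ D, ((p : ℕ) : ℝ) ^ (-s) := by
      rw [hWdef, Finset.sum_image hinj, ← Finset.sum_attach D]
      refine Finset.sum_congr rfl fun x _ => ?_
      unfold nrm
      rw [(hwf x.1 (hD x.1 x.2)).2]
    rw [e] at hk
    linarith
  refine ⟨(Sb : Set ℕ) ∪ Deg, ?_, ?_⟩
  · -- thin
    unfold IsThin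
    refine summable_of_sum_le (c := ∑ p ∈ Sb, (((p : ℕ) : ℝ))⁻¹ + (C₁ + C₂) / 3)
      (fun x => inv_nonneg.mpr (Nat.cast_nonneg _)) fun u => ?_
    have e : ∑ x ∈ u, (((x : ℕ) : ℝ))⁻¹ = ∑ p ∈ u.image Subtype.val, (((p : ℕ) : ℝ))⁻¹ := by
      rw [Finset.sum_image]
      intro x _ y _ hxy
      exact Subtype.ext hxy
    rw [e, ← Finset.sum_filter_add_sum_filter_not (u.image Subtype.val) (fun p => p ∈ Sb)]
    refine add_le_add ?_ ?_
    · refine Finset.sum_le_sum_of_subset_of_nonneg ?_ fun p _ _ =>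
        inv_nonneg.mpr (Nat.cast_nonneg _)
      intro p hp
      exact (Finset.mem_filter.mp hp).2
    · refine hDsum _ fun p hp => ?_
      obtain ⟨hp1, hp2⟩ := Finset.mem_filter.mp hp
      obtain ⟨x, -, rfl⟩ := Finset.mem_image.mp hp1
      rcases x.2 with h | h
      · exact absurd h hp2
      · exact h
  · intro p hp hpA V hV σ hσ w hw
    have hpSb : p ∉ Sb := fun h => hpA (Or.inl h)
    obtain ⟨hb, -⟩ := hS₁ p hp (hSb₁ p hpSb) V hV σ hσ w hw
    refine ⟨?_, hb⟩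
    by_contra hne
    exact hpA (Or.inr ⟨hp, hpSb, V, σ, w, hV, hσ, hw, hne⟩)

/-! ## 3. The cut of the node `MassC` -/

section Horo

variable (K : Type) [Field K] [NumberField K]

/-- The class of `x : 𝓞 K` in `(𝓞 K / M)ˣ` (`1` if `x` is not invertible modulo `M`). -/
def unitClsF (M : ℕ) (x : 𝓞 K) : (𝓞 K ⧸ Ideal.span {((M : ℕ) : 𝓞 K)})ˣ := by
  classical
  exact if h : IsUnit (Ideal.Quotient.mk (Ideal.span {((M : ℕ) : 𝓞 K)}) x) then h.unit else 1

/-- `R` is a complete system of residues of `𝓞 K` modulo `ϖ`. -/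
def IsResSys (ϖ : 𝓞 K) (R : Finset (𝓞 K)) : Prop :=
  (∀ x : 𝓞 K, ∃ j ∈ R, ϖ ∣ x - j) ∧ ∀ j ∈ R, ∀ j' ∈ R, ϖ ∣ j - j' → j = j'

/-- **Horocycle data over `K`** (`K` imaginary quadratic of class number one, `e : K →+* ℂ`) of
level `M`: a finite family `U κ : ℂ × ℝ_{>0} → ℂ`, `κ ∈ (𝓞_K / M)ˣ`, of bounded functions,
separately continuous, periodic in `z` under the lattice `M · e(𝓞_K)`, with the function form of
the Hecke relation with eigenvalues `√(N v) · A v` and `B v` at every place `v = (ϖ) ∤ M`, for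
every generator `ϖ` of `v` and every system `R` of residues modulo `ϖ`:

  `∑_{j ∈ R} U (κ [ϖ]) ((z + M e(j)) / e(ϖ)) (y / |e ϖ|) + B v · U (κ [ϖ]⁻¹) (e(ϖ) z) (|e ϖ| y)
      = √(N v) · A v · U κ z y`.

(The analogue over `K` of `T8.HoroData`; `|e ϖ| = √(N v)`.) -/
structure HoroDataF (e : K →+* ℂ) (M : ℕ) (A B : HeightOneSpectrum (𝓞 K) → ℂ)
    (U : (𝓞 K ⧸ Ideal.span {((M : ℕ) : 𝓞 K)})ˣ → ℂ → ℝ → ℂ) (C : ℝ) : Prop where
  M_pos : 0 < M
  cont_z : ∀ κ : (𝓞 K ⧸ Ideal.span {((M : ℕ) : 𝓞 K)})ˣ, ∀ y : ℝ, 0 < y →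
    Continuous (fun z : ℂ => U κ z y)
  cont_y : ∀ κ : (𝓞 K ⧸ Ideal.span {((M : ℕ) : 𝓞 K)})ˣ, ∀ z : ℂ,
    ContinuousOn (fun y : ℝ => U κ z y) (Set.Ioi 0)
  bdd : ∀ κ : (𝓞 K ⧸ Ideal.span {((M : ℕ) : 𝓞 K)})ˣ, ∀ (z : ℂ) (y : ℝ), 0 < y →
    ‖U κ z y‖ ≤ C
  periodic : ∀ κ : (𝓞 K ⧸ Ideal.span {((M : ℕ) : 𝓞 K)})ˣ, ∀ (l : 𝓞 K) (z : ℂ) (y : ℝ),
    0 < y → U κ (z + (M : ℂ) * e (l : K)) y = U κ z y
  hecke : ∀ (v : HeightOneSpectrum (𝓞 K)) (ϖ : 𝓞 K), v.asIdeal = Ideal.span {ϖ} →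
    ((M : ℕ) : 𝓞 K) ∉ v.asIdeal → ∀ R : Finset (𝓞 K), IsResSys K ϖ R →
    ∀ κ : (𝓞 K ⧸ Ideal.span {((M : ℕ) : 𝓞 K)})ˣ, ∀ (z : ℂ) (y : ℝ), 0 < y →
      ∑ j ∈ R, U (κ * unitClsF K M ϖ) ((z + (M : ℂ) * e (j : K)) / e (ϖ : K))
            (y / ‖e (ϖ : K)‖)
          + B v * U (κ * (unitClsF K M ϖ)⁻¹) (e (ϖ : K) * z) (‖e (ϖ : K)‖ * y)
        = ((Real.sqrt (nrm v) : ℝ) : ℂ) * A v * U κ z y

/-- **Coefficient data over `K`, squarefree form** (the analogue over `K` of `H51.CoeffData`;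
only the Hecke relation at `ϖ ∤ ν` is recorded): `c ν y`, `ν ∈ 𝓞_K`, `y > 0`, continuous in `y`,
with Bessel's inequality, and

  `√(N v) · A v · c ν y = χ ϖ · N v · c (ϖ ν) (y / |e ϖ|)`      (`v = (ϖ) ∤ M`, `ν ≠ 0`, `ϖ ∤ ν`)

with a unitary twist `χ`. -/
structure SqCoeffData (e : K →+* ℂ) (M : ℕ) (A : HeightOneSpectrum (𝓞 K) → ℂ)
    (χ : 𝓞 K → ℂ) (c : 𝓞 K → ℝ → ℂ) (M₁ : ℝ) : Prop where
  chi_norm : ∀ (v : HeightOneSpectrum (𝓞 K)) (ϖ : 𝓞 K), v.asIdeal = Ideal.span {ϖ} →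
    ((M : ℕ) : 𝓞 K) ∉ v.asIdeal → ‖χ ϖ‖ = 1
  cont : ∀ ν : 𝓞 K, ContinuousOn (c ν) (Set.Ioi 0)
  bessel : ∀ y : ℝ, 0 < y → ∀ F : Finset (𝓞 K), ∑ ν ∈ F, ‖c ν y‖ ^ 2 ≤ M₁ ^ 2
  star : ∀ (v : HeightOneSpectrum (𝓞 K)) (ϖ : 𝓞 K), v.asIdeal = Ideal.span {ϖ} →
    ((M : ℕ) : 𝓞 K) ∉ v.asIdeal → ∀ ν : 𝓞 K, ν ≠ 0 → ¬ ϖ ∣ ν → ∀ y : ℝ, 0 < y →
      ((Real.sqrt (nrm v) : ℝ) : ℂ) * A v * c ν y
        = χ ϖ * ((nrm v : ℝ) : ℂ) * c (ϖ * ν) (y / ‖e (ϖ : K)‖)

end Horo

/-- **LEAF T7.13e CLASSONE.**  `𝓞_K` is a principal ideal domain for `K = ℚ(√-3)`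
(`K` is the third cyclotomic field: Mathlib `IsCyclotomicExtension.Rat.three_pid`). -/
def ClassOneC : Prop :=
  ∀ (K : Type) [Field K] [NumberField K], IsImagQuad K → HasSqrtNegThree K →
    IsPrincipalIdealRing (𝓞 K)

/-- **LEAF T7.13f NORMEMB.**  For an imaginary quadratic field and any `e : K →+* ℂ`:
`|e x|² = N (x)` (`N_{K/ℚ} x = e x · conj (e x)`: the two embeddings of `K` are `e` and its
conjugate, no embedding is real; `Ideal.absNorm_span_singleton`). -/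
def NormEmbC : Prop :=
  ∀ (K : Type) [Field K] [NumberField K], IsImagQuad K → ∀ (e : K →+* ℂ) (x : 𝓞 K),
    ‖e (x : K)‖ ^ 2 = ((Ideal.absNorm (Ideal.span {x}) : ℕ) : ℝ)

/-- **LEAF T7.13g HOROF (ADELIC; the analogue over `K` of `T8.HoroC`).**  For a cusp form `φ` as
in A0 over `K` (imaginary quadratic, class number one) and a base point `g₀`: with `e` the
embedding of the infinite place, `g₀ = n(z₀)_∞ a(y₀)_∞ k_∞ g_f` (Iwasawa decomposition at the
complex place; `φ` is right invariant under `ℝ_{>0} U(2)`), `M` such that `π.level ∣ M`,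
`g_f ∈ GL₂(𝒪_v)` for `v ∤ M` and `U(M) ⊂ g_f U(π.level) g_f⁻¹`, the family
`U κ z y = φ (n(z)_∞ a(y)_∞ d(κ) g_f)` (`d(κ)` = diagonal twist at the places dividing `M`) is a
`HoroDataF` and `U 1 z₀ y₀ = φ g₀`.
Hecke relation: left invariance under `[ϖ, j M; 0, 1]` and `[1, 0; 0, ϖ] ∈ GL₂(K)`;
`[ϖ, *; 0, 1]_∞ n(z) a(y) = n(·) a(y / |ϖ|) · diag(phase, 1)` and `diag(phase, 1) ∈ U(2)` stands
at the far right BECAUSE the archimedean component of `g_f` is trivial; the scalar `ϖ` at the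
places dividing `M` is moved to `v` (eigenvalue `B v`), to infinity and to the units.
No cuspidality, no mean value property, no Haar measure is used. -/
def HoroFC : Prop :=
  ∀ (K : Type) [Field K] [NumberField K], IsImagQuad K → IsPrincipalIdealRing (𝓞 K) →
    ∀ (π : HeckeEigensystem K ℂ) (φ : A0.G K → ℂ), A0.IsSph0CuspFormFor π φ →
      ∀ g₀ : A0.G K,
        ∃ (e : K →+* ℂ) (M : ℕ) (U : (𝓞 K ⧸ Ideal.span {((M : ℕ) : 𝓞 K)})ˣ → ℂ → ℝ → ℂ)
          (C : ℝ), HoroDataF K e M π.a π.b U C ∧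
            ∃ (z₀ : ℂ) (y₀ : ℝ), 0 < y₀ ∧ U 1 z₀ y₀ = φ g₀

/-- **LEAF T7.13h NONCONST (elementary; `T8.nonconst_of_small` over `K`).**  A horocycle family
with a non-zero value and `|A v| ≤ 2`, `|B v| ≤ 1` almost everywhere has a member which is not
constant in `z`: otherwise the Hecke relation at ONE place `v = (ϖ) ∤ M` with `N v ≥ 7` gives
`N v · s ≤ (2 √(N v) + 1) · s` for `s = sup |U|` (a system of residues modulo `ϖ` has `N v`
elements; there are infinitely many places). -/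
def NonconstFC : Prop :=
  ∀ (K : Type) [Field K] [NumberField K], IsPrincipalIdealRing (𝓞 K) →
    ∀ (e : K →+* ℂ) (M : ℕ) (A B : HeightOneSpectrum (𝓞 K) → ℂ)
      (U : (𝓞 K ⧸ Ideal.span {((M : ℕ) : 𝓞 K)})ˣ → ℂ → ℝ → ℂ) (C : ℝ),
      HoroDataF K e M A B U C →
      (∃ S : Finset (HeightOneSpectrum (𝓞 K)), ∀ v : HeightOneSpectrum (𝓞 K), v ∉ S →
        ‖A v‖ ≤ 2 ∧ ‖B v‖ ≤ 1) →
      (∃ (κ : (𝓞 K ⧸ Ideal.span {((M : ℕ) : 𝓞 K)})ˣ) (z : ℂ) (y : ℝ), 0 < y ∧ U κ z y ≠ 0) →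
      ∃ (κ : (𝓞 K ⧸ Ideal.span {((M : ℕ) : 𝓞 K)})ˣ) (z z' : ℂ) (y : ℝ),
        0 < y ∧ U κ z y ≠ U κ z' y

/-- **LEAF T7.13i HOROCOEFF (Fourier analysis on the torus `ℂ / M e(𝓞_K)`; the analogue over `K`
of `T8.HoroCoeffC`).**  `K = ℚ(√-3)`.  For a character `χ` of `(𝓞_K / M)ˣ` and `ν ∈ 𝓞_K` let
`c ν y` be the Fourier coefficient of `∑_κ χ(κ)⁻¹ U κ (·, y)` at the character
`z ↦ exp (2 π i Re (w_ν z))`, `w_ν = 2 e(ν) / (M √-3)` (the dual lattice of `M e(𝓞_K)` for the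
pairing `Re (w z)` is `(2 / (M √-3)) e(𝓞_K)`).  Bessel's inequality with
`M₁ = ∑_κ sup |U κ|`; continuity in `y` by dominated convergence; the Hecke relation of
`HoroDataF` gives `star` (the sum over `j` kills the frequencies `ν` with `ϖ ∤ ν`, and
`U (e(ϖ) z)` has frequencies in `ϖ 𝓞_K` only); a non-constant member has a non-zero coefficient
of non-zero index for some `χ` (completeness of the characters of the torus: Mathlib
`UnitAddTorus.mFourier`). -/
def HoroCoeffFC : Prop :=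
  ∀ (K : Type) [Field K] [NumberField K], IsImagQuad K → HasSqrtNegThree K →
    IsPrincipalIdealRing (𝓞 K) →
    ∀ (e : K →+* ℂ) (M : ℕ) (A B : HeightOneSpectrum (𝓞 K) → ℂ)
      (U : (𝓞 K ⧸ Ideal.span {((M : ℕ) : 𝓞 K)})ˣ → ℂ → ℝ → ℂ) (C : ℝ),
      HoroDataF K e M A B U C →
      (∃ (κ : (𝓞 K ⧸ Ideal.span {((M : ℕ) : 𝓞 K)})ˣ) (z z' : ℂ) (y : ℝ),
        0 < y ∧ U κ z y ≠ U κ z' y) →
      ∃ (χ : 𝓞 K → ℂ) (c : 𝓞 K → ℝ → ℂ) (M₁ : ℝ), SqCoeffData K e M A χ c M₁ ∧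
        ∃ k : 𝓞 K, k ≠ 0 ∧ ∃ y : ℝ, 0 < y ∧ c k y ≠ 0

/-- **LEAF T7.13j MSF (abstract mean square bound, squarefree form; `H51.MS1` over `K`).**
From `SqCoeffData` with a non-vanishing coefficient `c k`, `k ≠ 0`: with `S` the set of places
dividing `M k`, for `T` disjoint from `S`, generators `ϖ_v` (`v ∈ T`) and `T' ⊆ T`:
`c (k ∏_{v ∈ T'} ϖ_v) y = (∏ χ(ϖ_v)⁻¹ A_v N v^{-1/2}) · c k (y √(N T'))` (induction, `star`),
the indices are pairwise different, Bessel's inequality at the height `y = t₂ / √X`, where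
`|c k| ≥ δ > 0` on `[t₁, t₂]`: `∑_{X t₁²/t₂² ≤ N T' ≤ X} ∏ |A_v|² ≤ X M₁² / δ²`; geometric
summation over the blocks.  Mathlib only. -/
def MSFC : Prop :=
  ∀ (K : Type) [Field K] [NumberField K], IsPrincipalIdealRing (𝓞 K) →
    ∀ (e : K →+* ℂ) (M : ℕ) (A : HeightOneSpectrum (𝓞 K) → ℂ) (χ : 𝓞 K → ℂ)
      (c : 𝓞 K → ℝ → ℂ) (M₁ : ℝ), 0 < M →
      (∀ x : 𝓞 K, ‖e (x : K)‖ ^ 2 = ((Ideal.absNorm (Ideal.span {x}) : ℕ) : ℝ)) →
      SqCoeffData K e M A χ c M₁ →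
      (∃ k : 𝓞 K, k ≠ 0 ∧ ∃ y : ℝ, 0 < y ∧ c k y ≠ 0) →
      ∃ (S : Finset (HeightOneSpectrum (𝓞 K))) (C : ℝ),
        ∀ T : Finset (HeightOneSpectrum (𝓞 K)), Disjoint T S → ∀ X : ℝ, 1 ≤ X →
          ∑ T' ∈ T.powerset.filter (fun T' => ∏ v ∈ T', nrm v ≤ X), ∏ v ∈ T', ‖A v‖ ^ 2
            ≤ C * X

/-- **LEAF T7.13k DIRICHLET (real analysis, no number field).**  Weights `0 ≤ w i ≤ 4`, norms
`N i ≥ 2`; if the partial sums over the squarefree products are `≤ C X`, then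
`∑_{i ∈ T} w i N i^{-s} ≤ log (1/(s-1)) + C'` for `s ∈ (1, 2]`, uniformly in `T`.
Proof.  `∏_{i ∈ T} (1 + w_i N_i^{-s}) = ∑_{T' ⊆ T} w_{T'} N_{T'}^{-s} ≤ 2 C / (s - 1)` (Abel
summation or dyadic blocks), `log (1 + x) ≥ x - x² / 2`, and
`∑ (w_i N_i^{-s})² ≤ 4 ∑ w_i N_i^{-2} ≤ 8 C` (dyadic blocks, singletons `T' = {i}`). -/
def DirichletC : Prop :=
  ∀ (ι : Type) (N w : ι → ℝ) (S : Finset ι) (C : ℝ), (∀ i, 2 ≤ N i) →
    (∀ i, i ∉ S → 0 ≤ w i ∧ w i ≤ 4) →
    (∀ T : Finset ι, Disjoint T S → ∀ X : ℝ, 1 ≤ X →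
      ∑ T' ∈ T.powerset.filter (fun T' => ∏ i ∈ T', N i ≤ X), ∏ i ∈ T', w i ≤ C * X) →
    ∃ C' : ℝ, ∀ s : ℝ, 1 < s → s ≤ 2 → ∀ T : Finset ι, Disjoint T S →
      ∑ i ∈ T, w i * N i ^ (-s) ≤ Real.log (1 / (s - 1)) + C'

/-! ## 4. The top of `MassC` (PROVED) -/

theorem two_le_nrm37 {K : Type} [Field K] [NumberField K] (v : HeightOneSpectrum (𝓞 K)) :
    2 ≤ nrm v := by
  unfold nrm
  have h0 : Ideal.absNorm v.asIdeal ≠ 0 := fun h => v.ne_bot (Ideal.absNorm_eq_zero_iff.mp h)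
  have h1 : Ideal.absNorm v.asIdeal ≠ 1 := fun h =>
    v.isPrime.ne_top (Ideal.absNorm_eq_one_iff.mp h)
  have : 2 ≤ Ideal.absNorm v.asIdeal := by omega
  exact_mod_cast this

/-- **THE TOP OF NODE T7.13d**: the mass bound over `K = ℚ(√-3)` from its seven leaves. -/
theorem massTop (hCl : ClassOneC) (hNE : NormEmbC) (hH : HoroFC) (hNC : NonconstFC)
    (hCo : HoroCoeffFC) (hMS : MSFC) (hDir : DirichletC) : MassC := by
  intro K _ _ hquad hsq π hcusp hsmall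
  have hpid : IsPrincipalIdealRing (𝓞 K) := hCl K hquad hsq
  obtain ⟨φ, hφ⟩ := hcusp
  obtain ⟨g₀, hg₀⟩ := hφ.ne_zero
  obtain ⟨e, M, U, C, hD, z₀, y₀, hy₀, hlink⟩ := hH K hquad hpid π φ hφ g₀
  obtain ⟨S₀, hS₀⟩ := hsmall
  have hsmall' : ∃ S : Finset (HeightOneSpectrum (𝓞 K)), ∀ v : HeightOneSpectrum (𝓞 K),
      v ∉ S → ‖π.a v‖ ≤ 2 ∧ ‖π.b v‖ ≤ 1 :=
    ⟨S₀, fun v hv => ⟨(hS₀ v hv).1, by rw [(hS₀ v hv).2, norm_one]⟩⟩
  have hne : ∃ (κ : (𝓞 K ⧸ Ideal.span {((M : ℕ) : 𝓞 K)})ˣ) (z : ℂ) (y : ℝ),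
      0 < y ∧ U κ z y ≠ 0 := ⟨1, z₀, y₀, hy₀, by rw [hlink]; exact hg₀⟩
  have hnc := hNC K hpid e M π.a π.b U C hD hsmall' hne
  obtain ⟨χ, c, M₁, hCD, hk⟩ := hCo K hquad hsq hpid e M π.a π.b U C hD hnc
  obtain ⟨S, C₁, hms⟩ := hMS K hpid e M π.a χ c M₁ hD.M_pos (hNE K hquad e) hCD hk
  classical
  obtain ⟨C', hC'⟩ := hDir (HeightOneSpectrum (𝓞 K)) nrm (fun v => ‖π.a v‖ ^ 2) (S ∪ S₀) C₁
    two_le_nrm37
    (fun v hv => by
      have hv₀ : v ∉ S₀ := fun h => hv (Finset.mem_union_right _ h)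
      have h2 := (hS₀ v hv₀).1
      have h0 := norm_nonneg (π.a v)
      constructor
      · positivity
      · nlinarith)
    (fun T hT X hX => hms T (Finset.disjoint_of_subset_right Finset.subset_union_left hT) X hX)
  exact ⟨S ∪ S₀, C', fun s hs1 hs2 T hT => hC' s hs1 hs2 T hT⟩

/-- `ThinC` from the leaves of T7.13 (composition of `thinTop` and `massTop`). -/
theorem thinTop' (hFQ : DictFQC) (hR : SqrtC) (hDeg : DegenC) (hNorm : NormSplitC) (hCheb : ChebFC)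
    (hCl : ClassOneC) (hNE : NormEmbC) (hH : HoroFC) (hNC : NonconstFC) (hCo : HoroCoeffFC)
    (hMS : MSFC) (hDir : DirichletC) : ThinC :=
  thinTop hFQ hR hDeg hNorm hCheb (massTop hCl hNE hH hNC hCo hMS hDir)

end Fermat.Agent.LT.T7.H37

end

end
-- ===== PACK-END LT/T7/H37/ThinSpec.lean

-- ===== PACK-BEGIN LT/T7/H922/DictFQ.lean
section




/-!
# Row LT, tower T7, leaf T7.06 `DictFQC` (helper922) -- OFF-MAIN

`dictFQC922 : Fermat.Agent.LT.T7.DictFQC`, VERBATIM the Prop of `LT/T7/Spec.lean`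
(helper797; built against v0, sha256 41dbc37a6d3e401a, and against v1.2, sha256 76a196044a64b920:
the Prop is byte-unchanged).

Content:
* `fieldF ρ = ℚ(ζ₃)` (`fieldF_eq922`): `det ρ` is the cyclotomic character modulo `3`, which is
  `cycloPow 3` of the landed S55 block (helper414); infinite Galois correspondence;
* hence `fieldF ρ` is a `3`-rd cyclotomic extension of `ℚ`: no real place, one complex place
  (`isImagQuad_fieldF922`);
* a Frobenius element at `p ≠ 3` raises `ζ₃` to the power `p`, so `ordSL (ρ Frob_p)` is the order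
  of `p` modulo `3` (`ordSL_frob922`);
* the residue degree of every place of `ℚ(ζ₃)` over `p ≠ 3` is the order of `p` modulo `3`
  (Mathlib, `IsCyclotomicExtension.Rat.inertiaDeg_eq_of_not_dvd`), so `N v = p ^ ordSL (ρ Frob_p)`
  (`absNorm_eq922`);
* `MidData` at a place `v ∣ p` of `F` + the relation `IsBCQ` at `(p, v)` is `BotData` at `p`.

Imports: Mathlib, the spec of T7 (byte-identical copy), one plain module of main
(`Fermat.Agent.S55.H414.CycloPow`).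
-/

set_option autoImplicit false
set_option linter.style.haveILetI false

open AutomorphicForm FLT.ExplicitLift EisensteinWeightOne
open WeierstrassCurve
open IsDedekindDomain NumberField
open scoped MatrixGroups

noncomputable section

namespace Fermat.Agent.LT.T7.H922

open Fermat.Agent.LT.H130 Fermat.Agent.LT.H556 Fermat.Agent.LT.T7
open Fermat.Agent.S55.H414

local notation "Γℚ" => (AlgebraicClosure ℚ ≃ₐ[ℚ] AlgebraicClosure ℚ)

/-! ## 1. The field `F = fieldF ρ` is `ℚ(ζ₃)` -/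

/-- The cyclotomic character modulo `3` of the Prelude is `cycloPow 3` of the S55 block. -/
theorem chi3_eq_cycloPow922 (σ : Γℚ) : modThreeCyclotomicChar σ = cycloPow 3 σ := by
  rw [modThreeCyclotomicChar_apply]
  exact (IsPrimitiveRoot.autToPow_eq_modularCyclotomicCharacter 3 ℚ (zetaBar_spec 3) σ).symm

/-- `ρ⁻¹(SL₂(𝔽₃))` is the subgroup fixing `ℚ(ζ₃)`. -/
theorem subSL_eq922 {ρ : Γℚ →* GL (Fin 2) (ZMod 3)}
    {Ψ : GL (Fin 2) (ZMod 3) →* GL (Fin 2) (ℤ√(-2))} (hyp : LTB.Hyp ρ Ψ) :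
    subSL ρ = (cycloLevel 3).fixingSubgroup := by
  rw [← ker_cycloPow]
  ext σ
  rw [subSL, MonoidHom.mem_ker, MonoidHom.mem_ker, MonoidHom.comp_apply, hyp.det,
    chi3_eq_cycloPow922]

/-- `fieldF ρ = ℚ(ζ₃)`. -/
theorem fieldF_eq922 {ρ : Γℚ →* GL (Fin 2) (ZMod 3)}
    {Ψ : GL (Fin 2) (ZMod 3) →* GL (Fin 2) (ℤ√(-2))} (hyp : LTB.Hyp ρ Ψ) :
    fieldF ρ = cycloLevel 3 := by
  haveI : IsGalois ℚ (AlgebraicClosure ℚ) := Fermat.Agent.S55.Bridge.isGalois_Qbar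
  rw [fieldF, subSL_eq922 hyp]
  exact InfiniteGalois.fixedField_fixingSubgroup (cycloLevel 3)

/-- `fieldF ρ` is a `3`-rd cyclotomic extension of `ℚ`. -/
theorem isCyclotomicExtension_fieldF922 {ρ : Γℚ →* GL (Fin 2) (ZMod 3)}
    {Ψ : GL (Fin 2) (ZMod 3) →* GL (Fin 2) (ℤ√(-2))} (hyp : LTB.Hyp ρ Ψ) :
    IsCyclotomicExtension {3} ℚ (fieldF ρ) := by
  rw [fieldF_eq922 hyp]
  infer_instance

/-- A number field which is a `3`-rd cyclotomic extension of `ℚ` is imaginary quadratic. -/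
theorem isImagQuad_of_cyclotomic_three922 (K : Type) [Field K] [NumberField K]
    [IsCyclotomicExtension {3} ℚ K] : IsImagQuad K := by
  have h0 : InfinitePlace.nrRealPlaces K = 0 :=
    IsCyclotomicExtension.Rat.nrRealPlaces_eq_zero (n := 3) K (by norm_num)
  have h1 : InfinitePlace.nrComplexPlaces K = 1 := by
    rw [IsCyclotomicExtension.Rat.nrComplexPlaces_eq_totient_div_two (n := 3) K]
    decide
  have htc : IsTotallyComplex K := NumberField.nrRealPlaces_eq_zero_iff.mp h0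
  refine ⟨?_, fun w => htc.isComplex w⟩
  rw [Nat.card_eq_fintype_card, InfinitePlace.card_eq_nrRealPlaces_add_nrComplexPlaces, h0, h1]

/-- **`fieldF ρ` is imaginary quadratic.** -/
theorem isImagQuad_fieldF922 {ρ : Γℚ →* GL (Fin 2) (ZMod 3)}
    {Ψ : GL (Fin 2) (ZMod 3) →* GL (Fin 2) (ℤ√(-2))} (hyp : LTB.Hyp ρ Ψ)
    [NumberField (fieldF ρ)] : IsImagQuad (fieldF ρ) := by
  haveI := isCyclotomicExtension_fieldF922 hyp
  exact isImagQuad_of_cyclotomic_three922 (fieldF ρ)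

/-! ## 2. Frobenius elements and the order of `p` modulo `3` -/

/-- A Frobenius element at `p ≠ 3` has cyclotomic character `p` modulo `3`. -/
theorem cycloPow_frob922 {p : ℕ} (hp : p.Prime) (hp3 : p ≠ 3)
    {A : ValuationSubring (AlgebraicClosure ℚ)} (hA : A.LiesOverPrime p) {σ : Γℚ}
    (hσ : A.IsFrobeniusAt σ p) :
    ((cycloPow 3 σ : (ZMod 3)ˣ) : ZMod 3) = ((p : ℕ) : ZMod 3) := by
  have hNv : A.valuation (((3 : ℕ) : ℕ) : AlgebraicClosure ℚ) = 1 :=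
    Fermat.Agent.S55.Bridge.val_prime_eq_one hA hp Nat.prime_three hp3
  exact coe_cycloPow_of_apply_eq_pow 3 σ p
    (IsFrobeniusAt_apply_root hσ (by norm_num) hNv (zetaBar_spec 3).pow_eq_one)

/-- In `(ZMod 3)ˣ` the order of `u` is `1` if `u = 1` and `2` otherwise. -/
theorem orderOf_unit_three922 (u : (ZMod 3)ˣ) :
    orderOf u = if u = 1 then 1 else 2 := by
  have h : ∀ u : (ZMod 3)ˣ, u = 1 ∨ (u ≠ 1 ∧ u ^ 2 = 1) := by decide
  rcases h u with rfl | ⟨h1, h2⟩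
  · simp
  · rw [if_neg h1]
    exact orderOf_eq_prime h2 h1

/-- **`ordSL (ρ Frob_p)` is the order of `p` modulo `3`.** -/
theorem ordSL_frob922 {ρ : Γℚ →* GL (Fin 2) (ZMod 3)}
    {Ψ : GL (Fin 2) (ZMod 3) →* GL (Fin 2) (ℤ√(-2))} (hyp : LTB.Hyp ρ Ψ)
    {p : ℕ} (hp : p.Prime) (hp3 : p ≠ 3)
    {A : ValuationSubring (AlgebraicClosure ℚ)} (hA : A.LiesOverPrime p) {σ : Γℚ}
    (hσ : A.IsFrobeniusAt σ p) :
    ordSL (ρ σ) = orderOf ((p : ℕ) : ZMod 3) := by
  rw [← cycloPow_frob922 hp hp3 hA hσ, orderOf_units, orderOf_unit_three922, ordSL, hyp.det,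
    chi3_eq_cycloPow922]

/-! ## 3. Places of a `3`-rd cyclotomic field over `p ≠ 3` -/

/-- Every prime number lies in some finite place of a number field. -/
theorem exists_place_over922 (K : Type) [Field K] [NumberField K] {p : ℕ} (hp : p.Prime) :
    ∃ v : HeightOneSpectrum (𝓞 K), ((p : ℕ) : 𝓞 K) ∈ v.asIdeal := by
  haveI : Fact p.Prime := ⟨hp⟩
  obtain ⟨P, hPmax, hPover⟩ :=
    Ideal.exists_maximal_ideal_liesOver_of_isIntegral (S := 𝓞 K) (Ideal.span {(p : ℤ)})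
  have hmem : ((p : ℕ) : 𝓞 K) ∈ P := by
    have h1 : (p : ℤ) ∈ P.under ℤ := by
      rw [← hPover.over]
      exact Ideal.mem_span_singleton_self _
    simpa [Ideal.under_def] using h1
  have hne : P ≠ ⊥ := by
    rintro rfl
    have h0 : ((p : ℕ) : 𝓞 K) = 0 := by simpa using hmem
    exact hp.ne_zero (by exact_mod_cast h0)
  exact ⟨⟨P, hPmax.isPrime, hne⟩, hmem⟩

/-- **The norm of a place of `ℚ(ζ₃)` over `p ≠ 3`** is `p ^ (order of p modulo 3)`. -/
theorem absNorm_eq922 (K : Type) [Field K] [NumberField K] [IsCyclotomicExtension {3} ℚ K]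
    {p : ℕ} (hp : p.Prime) (hp3 : p ≠ 3) (v : HeightOneSpectrum (𝓞 K))
    (hv : ((p : ℕ) : 𝓞 K) ∈ v.asIdeal) :
    Ideal.absNorm v.asIdeal = p ^ orderOf ((p : ℕ) : ZMod 3) := by
  haveI : Fact p.Prime := ⟨hp⟩
  haveI : v.asIdeal.IsPrime := v.isPrime
  haveI hover : v.asIdeal.LiesOver (Ideal.span {(p : ℤ)}) :=
    (Ideal.liesOver_span_iff v.isPrime.ne_top (Nat.prime_iff_prime_int.mp hp)).mpr
      (by simpa using hv)
  haveI : v.asIdeal.IsMaximal := v.isMaximal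
  have hm : ¬ p ∣ 3 := fun h => hp3 ((Nat.prime_dvd_prime_iff_eq hp Nat.prime_three).mp h)
  rw [Ideal.absNorm_eq_pow_inertiaDeg' v.asIdeal hp, Ideal.inertiaDeg'_eq_inertiaDeg,
    IsCyclotomicExtension.Rat.inertiaDeg_eq_of_not_dvd p K v.asIdeal hm]

/-! ## 4. The leaf -/

/-- **LEAF T7.06 `DictFQC`.** -/
theorem dictFQC922 : DictFQC := by
  intro ρ Ψ ι hyp nfF
  haveI := nfF
  haveI hcyc := isCyclotomicExtension_fieldF922 hyp
  refine ⟨isImagQuad_fieldF922 hyp, ?_⟩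
  rintro πF ⟨S₁, h₁⟩ π ⟨S₂, h₂⟩
  refine ⟨S₁ ∪ S₂ ∪ {3}, ?_⟩
  intro p hp hpS A hA σ hσ w hw
  simp only [Finset.mem_union, Finset.mem_singleton, not_or] at hpS
  obtain ⟨⟨hp1, hp2⟩, hp3⟩ := hpS
  obtain ⟨v, hv⟩ := exists_place_over922 (fieldF ρ) hp
  have hmid := h₁ p hp hp1 A hA σ hσ v hv
  dsimp only at hmid
  have hN := absNorm_eq922 (fieldF ρ) hp hp3 v hv
  rw [← ordSL_frob922 hyp hp hp3 hA hσ] at hN
  obtain ⟨ha, hb⟩ := h₂ p hp hp2 w hw v (ordSL (ρ σ)) hv hN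
  rw [ha, hb] at hmid
  exact hmid

end Fermat.Agent.LT.T7.H922

end

end
-- ===== PACK-END LT/T7/H922/DictFQ.lean

-- ===== PACK-BEGIN LT/T7/H546/Sqrt.lean
section


/-!
# Row LT, tower T7, leaf T7.09 `SqrtC` (helper546), OFF-MAIN

Under `LTB.Hyp ρ Ψ` the field `fieldF ρ` (fixed field of `ρ⁻¹(SL₂(𝔽₃))`) contains a square root of
`-3`: `det ∘ ρ` is the cyclotomic character modulo `3`, so every `σ` with `det (ρ σ) = 1` fixes the
cube roots of unity, and `x = 2 ζ + 1` with `ζ² + ζ + 1 = 0` has `x² = -3`.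
Mathlib + Prelude (`modThreeCyclotomicChar`) + `T7/Spec.lean` (helper797) only.
-/

set_option autoImplicit false

noncomputable section

namespace Fermat.Agent.LT.T7.H546

open Fermat.Agent.LT.H130 Fermat.Agent.LT.T7 WeierstrassCurve

local notation "Γℚ" => (AlgebraicClosure ℚ ≃ₐ[ℚ] AlgebraicClosure ℚ)

/-- An automorphism with trivial cyclotomic character modulo `3` fixes every `ζ` with
`ζ² + ζ + 1 = 0`. -/
theorem fixes_zeta_of_char_eq_one_h546 (σ : Γℚ) (hσ : modThreeCyclotomicChar σ = 1)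
    (ζ : AlgebraicClosure ℚ) (hζ : ζ ^ 2 + ζ + 1 = 0) : σ ζ = ζ := by
  have h3 : ζ ^ 3 = 1 := by
    have : ζ ^ 3 - 1 = (ζ - 1) * (ζ ^ 2 + ζ + 1) := by ring
    rw [hζ, mul_zero] at this
    exact sub_eq_zero.mp this
  have hζ0 : ζ ≠ 0 := by
    rintro rfl
    norm_num at h3
  obtain ⟨u, hu⟩ : ∃ u : (AlgebraicClosure ℚ)ˣ, (u : AlgebraicClosure ℚ) = ζ :=
    ⟨Units.mk0 ζ hζ0, rfl⟩
  have hmem : u ∈ rootsOfUnity 3 (AlgebraicClosure ℚ) := by
    rw [mem_rootsOfUnity]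
    apply Units.ext
    rw [Units.val_pow_eq_pow_val, hu, h3, Units.val_one]
  have hspec := modularCyclotomicCharacter.spec (AlgebraicClosure ℚ)
    (IsAlgClosed.card_rootsOfUnity_eq (AlgebraicClosure ℚ) 3)
    (σ : AlgebraicClosure ℚ ≃+* AlgebraicClosure ℚ) hmem
  rw [← modThreeCyclotomicChar_apply, hσ] at hspec
  have hval : ((1 : (ZMod 3)ˣ) : ZMod 3).val = 1 := by
    rw [Units.val_one]; rfl
  rw [hval, pow_one, hu] at hspec
  exact hspec

/-- **T7.09 `SqrtC`.** -/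
theorem sqrtC_h546 : SqrtC := by
  intro ρ Ψ hyp
  obtain ⟨x, hx⟩ := IsAlgClosed.exists_pow_nat_eq (-3 : AlgebraicClosure ℚ) (n := 2) (by norm_num)
  have hζ : ((x - 1) / 2) ^ 2 + (x - 1) / 2 + 1 = 0 := by
    have : ((x - 1) / 2) ^ 2 + (x - 1) / 2 + 1 = (x ^ 2 + 3) / 4 := by
      field_simp
      ring
    rw [this, hx]
    norm_num
  have hfix : ∀ σ ∈ subSL ρ, σ x = x := by
    intro σ hσ
    have hdet : Matrix.GeneralLinearGroup.det (ρ σ) = 1 := hσ
    have hchar : modThreeCyclotomicChar σ = 1 := by rw [← hyp.det σ, hdet]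
    have h := fixes_zeta_of_char_eq_one_h546 σ hchar _ hζ
    have hx2 : x = 2 * ((x - 1) / 2) + 1 := by
      field_simp
      ring
    rw [hx2, map_add, map_mul, h, map_one, map_ofNat]
  have hmem : x ∈ fieldF ρ := by
    unfold fieldF
    rw [IntermediateField.mem_fixedField_iff]
    exact hfix
  refine ⟨⟨x, hmem⟩, ?_⟩
  apply Subtype.ext
  push_cast
  rw [← pow_two]
  exact hx

end Fermat.Agent.LT.T7.H546

end

end
-- ===== PACK-END LT/T7/H546/Sqrt.lean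

-- ===== PACK-BEGIN LT/T7/H557/DescTriv.lean
section



/-!
# Row LT, tower T7, leaf T7.03 `DescTrivFromC` (helper557)

OFF-MAIN.  `DescAll + TwistAll ⇒ DescTrivAll` (statement: `LT/T7/Spec.lean` of helper797,
sha256 `41dbc37a6d3e401a…`, byte-identical copy).

Elementary: places of `K'` over places of `K` (`K'/K` Galois of degree `3`): every place of `K'`
lies over exactly one place of `K`, the residue degree is `1` or `3`, every place of `K` has a
place over it, finitely many places lie over (resp. under) a finite set; and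
`satakePow 3 (b a) (b³) = satakePow 3 a b` if `b³ = 1`.
-/

set_option autoImplicit false
set_option linter.style.haveILetI false
set_option linter.unusedSectionVars false

open AutomorphicForm IsDedekindDomain NumberField

noncomputable section

namespace Fermat.Agent.LT.T7.H557

open Fermat.Agent.LT.T7

variable {K K' : Type} [Field K] [NumberField K] [Field K'] [NumberField K'] [Algebra K K']

/-- `PlaceOver` is `LiesOver` for the underlying ideals. -/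
theorem placeOver_iff_557 (v : HeightOneSpectrum (𝓞 K)) (w : HeightOneSpectrum (𝓞 K')) :
    PlaceOver K K' v w ↔ v.asIdeal = Ideal.comap (algebraMap (𝓞 K) (𝓞 K')) w.asIdeal := by
  constructor
  · intro h
    ext x
    rw [Ideal.mem_comap]
    exact h x (algebraMap (𝓞 K) (𝓞 K') x) rfl
  · intro h x y hxy
    have hy : y = algebraMap (𝓞 K) (𝓞 K') x := by
      apply NumberField.RingOfIntegers.ext
      rw [hxy]
      rfl
    rw [h, Ideal.mem_comap, hy]

theorem placeOver_liesOver_557 {v : HeightOneSpectrum (𝓞 K)} {w : HeightOneSpectrum (𝓞 K')}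
    (h : PlaceOver K K' v w) : w.asIdeal.LiesOver v.asIdeal :=
  (Ideal.liesOver_iff _ _).2 ((placeOver_iff_557 v w).1 h)

/-- A place of `K'` lies over at most one place of `K`. -/
theorem placeOver_unique_557 {v v' : HeightOneSpectrum (𝓞 K)} {w : HeightOneSpectrum (𝓞 K')}
    (h : PlaceOver K K' v w) (h' : PlaceOver K K' v' w) : v = v' := by
  apply HeightOneSpectrum.ext
  rw [(placeOver_iff_557 v w).1 h, (placeOver_iff_557 v' w).1 h']

/-- Every place of `K` has a place of `K'` over it. -/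
theorem exists_placeOver_557 (v : HeightOneSpectrum (𝓞 K)) :
    ∃ w : HeightOneSpectrum (𝓞 K'), PlaceOver K K' v w := by
  haveI := v.isPrime
  obtain ⟨Q, -, hQ, hQv⟩ := Ideal.exists_ideal_over_prime_of_isIntegral
    (S := 𝓞 K') v.asIdeal (⊥ : Ideal (𝓞 K')) (by
      rw [Ideal.comap_bot_of_injective _ (NumberField.RingOfIntegers.algebraMap.injective K K')]
      exact bot_le)
  have hne : Q ≠ ⊥ := by
    rintro rfl
    rw [Ideal.comap_bot_of_injective _ (NumberField.RingOfIntegers.algebraMap.injective K K')]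
      at hQv
    exact v.ne_bot hQv.symm
  exact ⟨⟨Q, hQ, hne⟩, (placeOver_iff_557 v _).2 hQv.symm⟩

/-- `2 ≤ N v`. -/
theorem two_le_absNorm_557 (v : HeightOneSpectrum (𝓞 K)) : 2 ≤ Ideal.absNorm v.asIdeal := by
  have h0 : Ideal.absNorm v.asIdeal ≠ 0 := by
    rw [Ne, Ideal.absNorm_eq_zero_iff]
    exact v.ne_bot
  have h1 : Ideal.absNorm v.asIdeal ≠ 1 := by
    rw [Ne, Ideal.absNorm_eq_one_iff]
    exact v.isPrime.ne_top
  omega

/-- In a Galois extension of degree `3` the residue degree is `1` or `3`. -/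
theorem resDeg_cases_557 (hcyc : IsCycExt K K' 3) {v : HeightOneSpectrum (𝓞 K)}
    {w : HeightOneSpectrum (𝓞 K')} {f : ℕ} (h : HasResDeg K K' v w f) : f = 1 ∨ f = 3 := by
  haveI := hcyc.galois
  haveI : w.asIdeal.LiesOver v.asIdeal := placeOver_liesOver_557 h.1
  haveI := v.isPrime
  haveI := w.isPrime
  haveI : v.asIdeal.IsMaximal := v.isMaximal
  haveI : w.asIdeal.IsMaximal := w.isMaximal
  have hN := Ideal.absNorm_eq_pow_inertiaDeg'_of_liesOver w.asIdeal v.asIdeal v.isPrime v.ne_bot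
  have hf : f = v.asIdeal.inertiaDeg' w.asIdeal :=
    Nat.pow_right_injective (two_le_absNorm_557 v) (h.2.symm.trans hN)
  have h1 : v.asIdeal.inertiaDeg' w.asIdeal = w.asIdeal.inertiaDeg (𝓞 K) :=
    Ideal.inertiaDeg'_eq_inertiaDeg v.asIdeal w.asIdeal
  have h2 : v.asIdeal.inertiaDegIn (𝓞 K') = w.asIdeal.inertiaDeg (𝓞 K) :=
    Ideal.inertiaDegIn_eq_inertiaDeg v.asIdeal w.asIdeal Gal(K'/K)
  have h3 := Ideal.ncard_primesOver_mul_ramificationIdxIn_mul_inertiaDegIn v.asIdeal (𝓞 K')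
    Gal(K'/K)
  rw [IsGalois.card_aut_eq_finrank, hcyc.degree] at h3
  have hdvd : f ∣ 3 := by
    rw [hf, h1, ← h2]
    exact ⟨(v.asIdeal.primesOver (𝓞 K')).ncard * v.asIdeal.ramificationIdxIn (𝓞 K'), by
      rw [← h3]; ring⟩
  have := (Nat.dvd_prime Nat.prime_three).1 hdvd
  exact this

/-- The places of `K'` over a finite set of places of `K` form a finite set. -/
theorem finite_over_557 (S : Finset (HeightOneSpectrum (𝓞 K))) :
    {w : HeightOneSpectrum (𝓞 K') | ∃ v ∈ S, PlaceOver K K' v w}.Finite := by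
  have h1 : ∀ v : HeightOneSpectrum (𝓞 K),
      {w : HeightOneSpectrum (𝓞 K') | PlaceOver K K' v w}.Finite := by
    intro v
    haveI := v.isPrime
    have hfin : (v.asIdeal.primesOver (𝓞 K')).Finite :=
      IsDedekindDomain.primesOver_finite v.asIdeal (𝓞 K')
    have hinj : Function.Injective
        (fun w : HeightOneSpectrum (𝓞 K') => w.asIdeal) := by
      intro w w' h
      exact HeightOneSpectrum.ext h
    refine (hfin.preimage (hinj.injOn)).subset ?_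
    intro w hw
    exact ⟨w.isPrime, placeOver_liesOver_557 hw⟩
  have h2 : {w : HeightOneSpectrum (𝓞 K') | ∃ v ∈ S, PlaceOver K K' v w}
      = ⋃ v ∈ S, {w : HeightOneSpectrum (𝓞 K') | PlaceOver K K' v w} := by
    ext w
    simp
  rw [h2]
  exact S.finite_toSet.biUnion fun v _ => h1 v

/-- The places of `K` under a finite set of places of `K'` form a finite set. -/
theorem finite_under_557 (S : Finset (HeightOneSpectrum (𝓞 K'))) :
    {v : HeightOneSpectrum (𝓞 K) | ∃ w ∈ S, PlaceOver K K' v w}.Finite := by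
  refine (S.finite_toSet.image (fun w => HeightOneSpectrum.under (𝓞 K) w)).subset ?_
  rintro v ⟨w, hw, hvw⟩
  refine ⟨w, hw, ?_⟩
  apply HeightOneSpectrum.ext
  simp only [HeightOneSpectrum.under_asIdeal]
  rw [Ideal.under_def]
  exact ((placeOver_iff_557 v w).1 hvw).symm

/-- `satakePow 3 s e = s³ - 3 s e`. -/
theorem satakePow_three_557 (s e : ℂ) : satakePow 3 s e = s ^ 3 - 3 * s * e := by
  rw [show (3 : ℕ) = 1 + 2 from rfl, satakePow_add_two, show (1 + 1 : ℕ) = 0 + 2 from rfl,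
    satakePow_add_two]
  simp only [satakePow_one, satakePow_zero, zero_add]
  ring

/-- The key identity of the twist at a place of residue degree `f ∈ {1, 3}` with `b ^ f = 1`. -/
theorem satakePow_twist_557 {f : ℕ} (hf : f = 1 ∨ f = 3) (a b : ℂ) (hb : b ^ f = 1) :
    satakePow f (b * a) (b ^ 3) = satakePow f a b ∧ (b ^ 3) ^ f = 1 := by
  rcases hf with rfl | rfl
  · have hb1 : b = 1 := by simpa using hb
    subst hb1
    simp
  · refine ⟨?_, by rw [hb, one_pow]⟩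
    rw [satakePow_three_557, satakePow_three_557]
    have h4 : b ^ 4 = b := by
      calc b ^ 4 = b ^ 3 * b := by ring
        _ = b := by rw [hb, one_mul]
    calc (b * a) ^ 3 - 3 * (b * a) * b ^ 3
        = b ^ 3 * a ^ 3 - 3 * a * b ^ 4 := by ring
      _ = a ^ 3 - 3 * a * b := by rw [hb, h4, one_mul]

/-- **Leaf T7.03**: `DescAll + TwistAll ⇒ DescTrivAll`. -/
theorem descTrivFromC_557 : DescTrivFromC := by
  intro hDesc hTw K K' _ _ _ _ _ hcyc hcplx Φ hΦ hconst htriv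
  obtain ⟨π₀, hπ₀, S₁, hbc⟩ := hDesc K K' 3 hcyc (by norm_num) hcplx Φ hΦ hconst
  obtain ⟨S₂, htr⟩ := htriv
  obtain ⟨π', hπ', S₃, htw⟩ := hTw K π₀ hπ₀
  classical
  -- the basic fact: outside the bad sets, `b ^ f = 1`
  have key : ∀ (w : HeightOneSpectrum (𝓞 K')) (v : HeightOneSpectrum (𝓞 K)) (f : ℕ),
      w ∉ S₁ → w ∉ S₂ → v ∉ S₃ → HasResDeg K K' v w f →
      (Φ.a w = satakePow f (π'.a v) (π'.b v) ∧ Φ.b w = π'.b v ^ f) ∧ π'.b v = 1 := by
    intro w v f h1 h2 h3 hres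
    obtain ⟨ha, hb⟩ := hbc w h1 v f hres
    obtain ⟨ha', hb'⟩ := htw v h3
    have hbf : π₀.b v ^ f = 1 := by rw [← hb, htr w h2]
    have hf := resDeg_cases_557 hcyc hres
    obtain ⟨e1, e2⟩ := satakePow_twist_557 hf (π₀.a v) (π₀.b v) hbf
    have hb3 : π₀.b v ^ 3 = 1 := by
      rcases hf with rfl | rfl
      · have : π₀.b v = 1 := by simpa using hbf
        rw [this, one_pow]
      · exact hbf
    refine ⟨⟨?_, ?_⟩, ?_⟩
    · rw [ha, ha', hb', e1]
    · rw [hb', e2, htr w h2]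
    · rw [hb', hb3]
  refine ⟨π', hπ', ?_, ?_⟩
  · -- `IsBC π' Φ`
    refine ⟨S₁ ∪ S₂ ∪ (finite_over_557 (K' := K') S₃).toFinset, ?_⟩
    intro w hw v f hres
    simp only [Finset.mem_union, Set.Finite.mem_toFinset, Set.mem_ofPred_eq, not_or,
      not_exists, not_and] at hw
    obtain ⟨⟨h1, h2⟩, h3⟩ := hw
    exact (key w v f h1 h2 (fun hv => h3 v hv hres.1) hres).1
  · -- `TrivCentral π'`
    refine ⟨S₃ ∪ (finite_under_557 (K := K) (S₁ ∪ S₂)).toFinset, ?_⟩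
    intro v hv
    simp only [Finset.mem_union, Set.Finite.mem_toFinset, Set.mem_ofPred_eq, not_or,
      not_exists, not_and] at hv
    obtain ⟨h3, h12⟩ := hv
    obtain ⟨w, hw⟩ := exists_placeOver_557 (K' := K') v
    have hw1 : w ∉ S₁ := fun h => h12 w (Or.inl h) hw
    have hw2 : w ∉ S₂ := fun h => h12 w (Or.inr h) hw
    -- the residue degree of `w` over `v`
    haveI : w.asIdeal.LiesOver v.asIdeal := placeOver_liesOver_557 hw
    have hN := Ideal.absNorm_eq_pow_inertiaDeg'_of_liesOver w.asIdeal v.asIdeal v.isPrime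
      v.ne_bot
    exact (key w v _ hw1 hw2 h3 ⟨hw, hN⟩).2

end Fermat.Agent.LT.T7.H557

end
end
-- ===== PACK-END LT/T7/H557/DescTriv.lean

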