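import Mathlib
import Fermat.Agent.Pack.LT2.E7L1
import Fermat.Agent.Pack.LT2.E2L1
import Fermat.Agent.Pack.LT2.E8L0
import Fermat.Agent.Pack.LT2.E8L1
import Fermat.Agent.Pack.LT2.E8L2
import Fermat.Agent.Pack.LT2.E1L2
import Fermat.Agent.Pack.LT2.E1L3
import Fermat.Agent.Pack.LT2.E6L1
import Fermat.Agent.Pack.LT2.E7L3
import Fermat.Agent.Pack.LT2.E9L3

set_option linter.all false

-- ===== PACK-BEGIN LT/A2/H751/MeanOfWhit.lean
section




/-!
# Row LT, tower A2, leaf A2.13 `MeanOfWhitC` (helper751)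

OFF-MAIN.  `meanOfWhitC751 : A2.MeanOfWhitC`, VERBATIM vs `LT/A2/Theta.lean` (helper950@c68f91cb0).

The mean-value property at a complex place passes from the Whittaker function `W` to the sum
`φ(g) = ∑_{α ∈ K^×} W(diag(α,1) g)` of the Fourier--Whittaker expansion: the Euler-angle family is
continuous (`LocalCont.lean`), the sphere `{g · Y α β}` is compact, the series is normally
convergent on it, and the series is integrated term by term (dominated convergence, twice).
-/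

set_option autoImplicit false

open IsDedekindDomain NumberField AutomorphicForm MeasureTheory
open scoped MatrixGroups

noncomputable section

namespace Fermat.Agent.LT.A2.H751

open Fermat.Agent.LT.H556 Fermat.Agent.LT.A2

/-! ## The Euler-angle matrices -/

theorem det_rotZ751 (α : ℝ) : (A0.rotZ α).det = 1 := by
  rw [A0.rotZ, Matrix.det_fin_two_of, mul_zero, sub_zero, ← Complex.exp_add, add_neg_cancel,
    Complex.exp_zero]

theorem det_rotY751 (β : ℝ) : (A0.rotY β).det = 1 := by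
  rw [A0.rotY, Matrix.det_fin_two_of]
  have h := Real.cos_sq_add_sin_sq (β / 2)
  have h2 : ((Real.cos (β / 2) : ℝ) : ℂ) * ((Real.cos (β / 2) : ℝ) : ℂ)
      - -((Real.sin (β / 2) : ℝ) : ℂ) * ((Real.sin (β / 2) : ℝ) : ℂ)
      = ((Real.cos (β / 2) ^ 2 + Real.sin (β / 2) ^ 2 : ℝ) : ℂ) := by
    push_cast
    ring
  rw [h2, h, Complex.ofReal_one]

theorem det_torus751 (d : ℝ) : (A0.torus d).det = 1 := by
  rw [A0.torus, Matrix.det_fin_two_of, mul_zero, sub_zero, ← Complex.ofReal_mul, ← Real.exp_add,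
    add_neg_cancel, Real.exp_zero, Complex.ofReal_one]

theorem det_euler751 (α β d : ℝ) : (A0.rotZ α * A0.rotY β * A0.torus d).det = 1 := by
  rw [Matrix.det_mul, Matrix.det_mul, det_rotZ751, det_rotY751, det_torus751, mul_one, mul_one]

theorem continuous_rotZ751 : Continuous A0.rotZ := by
  refine continuous_matrix fun i j => ?_
  fin_cases i <;> fin_cases j <;> simp [A0.rotZ] <;> fun_prop

theorem continuous_rotY751 : Continuous A0.rotY := by
  refine continuous_matrix fun i j => ?_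
  fin_cases i <;> fin_cases j <;> simp [A0.rotY] <;> fun_prop

theorem continuous_euler751 (d : ℝ) :
    Continuous fun p : ℝ × ℝ => A0.rotZ p.1 * A0.rotY p.2 * A0.torus d :=
  ((continuous_rotZ751.comp continuous_fst).matrix_mul
    (continuous_rotY751.comp continuous_snd)).matrix_mul continuous_const

variable {K : Type} [Field K] [NumberField K]

/-- The Euler-angle family of `A0.MeanValueComplex` is continuous. -/
theorem continuous_sphere751 (w : InfinitePlace K) (d : ℝ) (Y : ℝ → ℝ → A0.G K)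
    (hY : ∀ α β : ℝ, A0.IsLocalAtInf w (Y α β) ∧
      A0.infComp w (Y α β) = A0.rotZ α * A0.rotY β * A0.torus d) :
    Continuous fun p : ℝ × ℝ => Y p.1 p.2 := by
  refine continuous_of_local751 w _ (fun p => (hY p.1 p.2).1) ?_ ?_
  · have h : (fun p : ℝ × ℝ => A0.infComp w (Y p.1 p.2))
        = fun p : ℝ × ℝ => A0.rotZ p.1 * A0.rotY p.2 * A0.torus d :=
      funext fun p => (hY p.1 p.2).2
    rw [h]
    exact continuous_euler751 d
  · intro p
    rw [(hY p.1 p.2).2]
    exact det_euler751 _ _ _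

/-! ## A rational diagonal parametrisation -/

/-- `diag(α, 1)`, `α ∈ K^×`, in `GL₂(𝔸_K)`. -/
def ratDiag751 (α : Kˣ) : A0.G K :=
  ⟨!![algebraMap K (A0.Adl K) (α : K), 0; 0, 1],
   !![algebraMap K (A0.Adl K) ((α⁻¹ : Kˣ) : K), 0; 0, 1],
   by
    rw [Matrix.mul_fin_two]
    simp only [mul_zero, zero_mul, add_zero, zero_add, mul_one, ← map_mul,
      Units.mul_inv, map_one]
    exact Matrix.one_fin_two.symm,
   by
    rw [Matrix.mul_fin_two]
    simp only [mul_zero, zero_mul, add_zero, zero_add, mul_one, ← map_mul,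
      Units.inv_mul, map_one]
    exact Matrix.one_fin_two.symm⟩

theorem isRatDiag751 : IsRatDiag (ratDiag751 (K := K)) := fun _ => rfl

theorem countable_numberField751 (K : Type) [Field K] [NumberField K] : Countable K := by
  rw [← Set.countable_univ_iff]
  have h := Algebraic.countable ℚ K
  have h2 : {x : K | IsAlgebraic ℚ x} = Set.univ :=
    Set.eq_univ_of_forall fun x => Algebra.IsAlgebraic.isAlgebraic x
  rwa [h2] at h

theorem countable_units751 (K : Type) [Field K] [NumberField K] : Countable Kˣ :=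
  haveI := countable_numberField751 K
  Units.val_injective.countable

/-! ## The leaf -/

/-- Pointwise form of the expansion: `∑_α W(diag(α,1) h)` has sum `φ(h)`. -/
theorem hasSum_whit751 {ψ : A0.Adl K → ℂ} {φ W : A0.G K → ℂ} (hW : IsWhitExp ψ φ W)
    (h : A0.G K) : HasSum (fun a : Kˣ => W (ratDiag751 a * h)) (φ h) := by
  obtain ⟨b, hb, hbd⟩ := hW.loc_summable {h} isCompact_singleton
  have hs : Summable fun a : Kˣ => W (ratDiag751 a * h) :=
    Summable.of_norm_bounded hb fun a => hbd _ isRatDiag751 a h rfl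
  rw [hW.expansion _ isRatDiag751 h]
  exact hs.hasSum

/-- **A2.13 MEAN-OF-WHIT.** -/
theorem meanOfWhitC751 : MeanOfWhitC := by
  intro K _ _ π ψ φ W hP w hw d hd Y hY g
  have := countable_units751 K
  have hYc := continuous_sphere751 w d Y hY
  -- the compact sphere
  set C : Set (A0.G K) := (fun p : ℝ × ℝ => g * Y p.1 p.2) ''
    (Set.Icc 0 (2 * Real.pi) ×ˢ Set.Icc 0 Real.pi) with hC
  have hCc : IsCompact C :=
    (isCompact_Icc.prod isCompact_Icc).image (continuous_const.mul hYc)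
  obtain ⟨b, hb, hbd⟩ := hP.whit.loc_summable C hCc
  have hpi : (0 : ℝ) ≤ Real.pi := Real.pi_pos.le
  have h2pi : (0 : ℝ) ≤ 2 * Real.pi := by positivity
  -- the terms
  set F : Kˣ → ℝ → ℝ → ℂ := fun a α β =>
    W (ratDiag751 a * g * Y α β) * ((Real.sin β : ℝ) : ℂ) with hF
  have hFc : ∀ a, Continuous fun p : ℝ × ℝ => F a p.1 p.2 := fun a =>
    (hP.W_cont.comp (continuous_const.mul hYc)).mul
      (Complex.continuous_ofReal.comp (Real.continuous_sin.comp continuous_snd))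
  have hFb : ∀ a, ∀ α ∈ Set.Icc 0 (2 * Real.pi), ∀ β ∈ Set.Icc 0 Real.pi,
      ‖F a α β‖ ≤ b a := by
    intro a α hα β hβ
    have h1 : ‖W (ratDiag751 a * g * Y α β)‖ ≤ b a := by
      rw [mul_assoc]
      exact hbd _ isRatDiag751 a _ ⟨(α, β), ⟨hα, hβ⟩, rfl⟩
    have h2 : ‖((Real.sin β : ℝ) : ℂ)‖ ≤ 1 := by
      rw [Complex.norm_real]
      exact Real.abs_sin_le_one β
    calc ‖F a α β‖ = ‖W (ratDiag751 a * g * Y α β)‖ * ‖((Real.sin β : ℝ) : ℂ)‖ := norm_mul _ _
      _ ≤ b a * 1 := mul_le_mul h1 h2 (norm_nonneg _) ((norm_nonneg _).trans h1)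
      _ = b a := mul_one _
  have hlim : ∀ α β, HasSum (fun a => F a α β)
      (φ (g * Y α β) * ((Real.sin β : ℝ) : ℂ)) := by
    intro α β
    have h1 := hasSum_whit751 hP.whit (g * Y α β)
    simp only [← mul_assoc] at h1
    exact h1.mul_right _
  -- inner integrals
  have hinner : ∀ α ∈ Set.Icc 0 (2 * Real.pi),
      HasSum (fun a => ∫ β in (0 : ℝ)..Real.pi, F a α β)
        (∫ β in (0 : ℝ)..Real.pi, φ (g * Y α β) * ((Real.sin β : ℝ) : ℂ)) := by
    intro α hα
    refine intervalIntegral.hasSum_integral_of_dominated_convergence (fun a _ => b a)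
      (fun a => ?_) (fun a => ?_) ?_ ?_ ?_
    · exact ((hFc a).comp (Continuous.prodMk_right α)).aestronglyMeasurable
    · refine Filter.Eventually.of_forall fun β hβ => ?_
      rw [Set.uIoc_of_le hpi] at hβ
      exact hFb a α hα β ⟨hβ.1.le, hβ.2⟩
    · exact Filter.Eventually.of_forall fun _ _ => hb
    · exact intervalIntegrable_const
    · exact Filter.Eventually.of_forall fun β _ => hlim α β
  -- outer integral
  have houter : HasSum (fun a => ∫ α in (0 : ℝ)..(2 * Real.pi), ∫ β in (0 : ℝ)..Real.pi, F a α β)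
      (∫ α in (0 : ℝ)..(2 * Real.pi), ∫ β in (0 : ℝ)..Real.pi,
        φ (g * Y α β) * ((Real.sin β : ℝ) : ℂ)) := by
    refine intervalIntegral.hasSum_integral_of_dominated_convergence
      (fun a _ => b a * Real.pi) (fun a => ?_) (fun a => ?_) ?_ ?_ ?_
    · have hc : Continuous fun α => ∫ β in (0 : ℝ)..Real.pi, F a α β :=
        intervalIntegral.continuous_parametric_intervalIntegral_of_continuous' (hFc a) 0 Real.pi
      exact hc.aestronglyMeasurable
    · refine Filter.Eventually.of_forall fun α hα => ?_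
      rw [Set.uIoc_of_le h2pi] at hα
      have h1 := intervalIntegral.norm_integral_le_of_norm_le_const
        (a := 0) (b := Real.pi) (C := b a) (f := fun β => F a α β) (fun β hβ => by
          rw [Set.uIoc_of_le hpi] at hβ
          exact hFb a α ⟨hα.1.le, hα.2⟩ β ⟨hβ.1.le, hβ.2⟩)
      rwa [sub_zero, abs_of_nonneg hpi] at h1
    · exact Filter.Eventually.of_forall fun _ _ => hb.mul_right _
    · exact intervalIntegrable_const
    · refine Filter.Eventually.of_forall fun α hα => ?_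
      rw [Set.uIoc_of_le h2pi] at hα
      exact hinner α ⟨hα.1.le, hα.2⟩
  -- each term by the mean-value property of `W`
  have hterm : ∀ a : Kˣ, (∫ α in (0 : ℝ)..(2 * Real.pi), ∫ β in (0 : ℝ)..Real.pi, F a α β)
      = ((4 * Real.pi * (d / Real.sinh d) : ℝ) : ℂ) * W (ratDiag751 a * g) := fun a =>
    hP.W_mean w hw d hd Y hY (ratDiag751 a * g)
  simp only [hterm] at houter
  exact houter.unique ((hasSum_whit751 hP.whit g).mul_left _)

end Fermat.Agent.LT.A2.H751

end

end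
-- ===== PACK-END LT/A2/H751/MeanOfWhit.lean

-- ===== PACK-BEGIN LT/A2/H63/AdeleQuot.lean
section



/-!
# Row LT, leaf A2.11 `AdeleQuotC` (helper63): adapter from tower T1

OFF-MAIN.  `A2.AdeleQuotC` (interface Prop of `LT/A2/Theta.lean`) follows from two interface
Props of tower T1 (`LT/T1/Spec.lean`):

* `T1.LocCompC K`   : `𝔸_K` locally compact, Hausdorff, second countable;
* `T1.AddFundDomC K`: for every Haar measure there is a Borel fundamental domain of `K` in `𝔸_K`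
  of finite measure.

Proof: two fundamental domains of a countable group acting by measure-preserving translations
have the same measure (`IsAddFundamentalDomain.measure_eq`); `K` is countable (finite-dimensional
over `ℚ`).  Nothing is assumed beyond the two hypotheses; no new definitions.
-/

set_option autoImplicit false
set_option linter.style.haveILetI false

open MeasureTheory

namespace Fermat.Agent.LT.A2.H63

open Fermat.Agent.LT Fermat.Agent.LT.H556

/-- A number field is countable. -/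
theorem countable_numberField (K : Type) [Field K] [NumberField K] : Countable K := by
  have b := Module.finBasis ℚ K
  exact (b.equivFun : K ≃ₗ[ℚ] (Fin _ → ℚ)).toEquiv.countable_iff.mpr inferInstance

/-- The principal adeles form a countable group. -/
theorem countable_princ (K : Type) [Field K] [NumberField K] : Countable (T1.princ K) := by
  have hK : Countable K := countable_numberField K
  have hs : (Set.range (algebraMap K (A0.Adl K))).Countable := Set.countable_range _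
  exact hs.to_subtype

/-- One number field: the two halves of `AdeleQuotC` from `T1.LocCompC` and `T1.AddFundDomC`. -/
theorem adeleQuot_of_T1_at (K : Type) [Field K] [NumberField K]
    (hLC : T1.LocCompC K) (hFD : T1.AddFundDomC K) :
    letI : MeasurableSpace (A0.Adl K) := borel (A0.Adl K)
    (∀ μ : MeasureTheory.Measure (A0.Adl K), μ.IsAddHaarMeasure →
      ∀ D : Set (A0.Adl K),
        MeasureTheory.IsAddFundamentalDomain
          ((algebraMap K (A0.Adl K)).toAddMonoidHom.range) D μ → μ D < ⊤) ∧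
    ∃ (μ : MeasureTheory.Measure (A0.Adl K)) (D : Set (A0.Adl K)), μ.IsAddHaarMeasure ∧
      MeasureTheory.IsAddFundamentalDomain
        ((algebraMap K (A0.Adl K)).toAddMonoidHom.range) D μ := by
  obtain ⟨⟨hlc, ht2, hsc⟩, -⟩ := hLC
  letI : MeasurableSpace (A0.Adl K) := borel (A0.Adl K)
  haveI : BorelSpace (A0.Adl K) := ⟨rfl⟩
  haveI : Countable (T1.princ K) := countable_princ K
  refine ⟨?_, ?_⟩
  · intro μ hμ D hD
    obtain ⟨D₀, -, hD₀, -, -, hfin⟩ := hFD μ hμ
    have hD' : IsAddFundamentalDomain (T1.princ K) D μ := hD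
    have h := hD'.measure_eq hD₀
    rw [h]
    exact hfin
  · obtain ⟨D₀, -, hD₀, -, -, -⟩ := hFD (Measure.addHaar : Measure (A0.Adl K)) inferInstance
    exact ⟨Measure.addHaar, D₀, inferInstance, hD₀⟩

/-- **Leaf A2.11.**  `AdeleQuotC` from the T1 interface Props `LocCompC` and `AddFundDomC`. -/
theorem adeleQuotC_of_T1
    (hLC : ∀ (K : Type) [Field K] [NumberField K], T1.LocCompC K)
    (hFD : ∀ (K : Type) [Field K] [NumberField K], T1.AddFundDomC K) :
    A2.AdeleQuotC := by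
  intro K _ _
  exact adeleQuot_of_T1_at K (hLC K) (hFD K)

end Fermat.Agent.LT.A2.H63

end
-- ===== PACK-END LT/A2/H63/AdeleQuot.lean

-- ===== PACK-BEGIN LT/H129/T1Leaves.lean
section



/-!
# Row LT, tower T1, helper129: leaves T1.10 (`LeafIwasawaFin`) and T1.19 (`LeafHeckeCoset`)

OFF-MAIN.  Against `LT/T1/Spec.lean` of helper54 (byte-identical copy) on `LT/H556/A0.lean` of
helper556 (byte-identical copy).  Both leaves VERBATIM, unconditional, for every number field.
-/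

set_option autoImplicit false

open IsDedekindDomain NumberField
open Fermat.Agent.LT.H556.A0

namespace Fermat.Agent.LT.H129

variable (K : Type) [Field K] [NumberField K]

/-- **T1.10**: local Iwasawa decomposition at every finite place. -/
theorem leafIwasawaFin129 : Fermat.Agent.LT.T1.LeafIwasawaFin K := by
  intro v g
  obtain ⟨b, k, hg, hb, hk⟩ := iwasawa129 (v.adicCompletionIntegers K) g
  exact ⟨b, k, hb, hk.1, hk.2, hg⟩

/-- **T1.19** = `HeckeCosetC K`: Hecke coset systems exist, are full systems of representatives,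
and scalar uniformisers exist. -/
theorem leafHeckeCoset129 : Fermat.Agent.LT.T1.LeafHeckeCoset K := by
  intro v
  refine ⟨exists_heckeCosetSystem129 v, ?_, exists_scalarUniformizer129 v⟩
  intro H hH g _ hg hdet
  obtain ⟨h, hh, hint, -, -⟩ := heckeCosetSystem_complete129 hH hg hdet
  exact ⟨h, hh, hint⟩

end Fermat.Agent.LT.H129

end
-- ===== PACK-END LT/H129/T1Leaves.lean

-- ===== PACK-BEGIN LT/T1/H868/Minkowski.lean
section




/-!
# Row LT, tower T1: the adelic Minkowski lemma (helper868)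

OFF-MAIN.  `minkowski868 : LocCompC K → AddFundDomC K → AdNormC K →
  ∃ C, ∀ x : (𝔸_K)ˣ, C < ‖x‖_𝔸 → ∃ ξ ∈ Kˣ, |ξ|_w ≤ |x_w| at every place`
(Cassels–Fröhlich II §16 Lemma; Weil BNT IV §4 Lemma 1), by Blichfeldt's theorem of Mathlib
(`exists_pair_mem_lattice_not_disjoint_vadd`) and HAAR-SCALE.
-/

set_option autoImplicit false
set_option linter.style.haveILetI false
set_option linter.unusedVariables false
set_option linter.unusedSectionVars false

open IsDedekindDomain NumberField MeasureTheory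
open scoped ENNReal NNReal

noncomputable section

namespace Fermat.Agent.LT.T1.H868

open Fermat.Agent.LT.H556.A0

variable (K : Type) [Field K] [NumberField K]

/-- The component at an infinite place as a ring homomorphism. -/
def infHom868 (w : InfinitePlace K) : Adl K →+* w.Completion :=
  (Pi.evalRingHom (fun v : InfinitePlace K => v.Completion) w).comp
    (RingHom.fst (InfiniteAdeleRing K) (FiniteAdeleRing (𝓞 K) K))

theorem infHom868_apply (w : InfinitePlace K) (a : Adl K) : infHom868 K w a = a.1 w := rfl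

/-- The idele box `{a : |a_w| ≤ t |x_w| at the infinite places, |a_v| ≤ |x_v| at the finite
places}`. -/
def ibox868 (t : ℝ) (x : (Adl K)ˣ) : Set (Adl K) :=
  {a | (∀ w : InfinitePlace K, ‖a.1 w‖ ≤ t * ‖(x : Adl K).1 w‖) ∧
    ∀ v : HeightOneSpectrum (𝓞 K), Valued.v (a.2 v) ≤ Valued.v ((x : Adl K).2 v)}

theorem norm_inf_inv868 (x : (Adl K)ˣ) (w : InfinitePlace K) :
    ‖((x⁻¹ : (Adl K)ˣ) : Adl K).1 w‖ = ‖(x : Adl K).1 w‖⁻¹ := by
  have h := congrArg norm (inf_mul_inv868 K x w)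
  rw [norm_mul, norm_one] at h
  exact eq_inv_of_mul_eq_one_left h

theorem val_fin_inv868 (x : (Adl K)ˣ) (v : HeightOneSpectrum (𝓞 K)) :
    Valued.v (((x⁻¹ : (Adl K)ˣ) : Adl K).2 v) = (Valued.v ((x : Adl K).2 v))⁻¹ := by
  have h := congrArg Valued.v (fin_mul_inv868 K x v)
  rw [map_mul, map_one] at h
  exact eq_inv_of_mul_eq_one_left h

theorem val_fin_ne_zero868 (x : (Adl K)ˣ) (v : HeightOneSpectrum (𝓞 K)) :
    Valued.v ((x : Adl K).2 v) ≠ 0 :=
  (Valuation.ne_zero_iff _).mpr (fin_ne_zero868 K x v)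

/-- `x · box(t) = ibox t x`. -/
theorem image_box_eq_ibox868 (t : ℝ) (x : (Adl K)ˣ) :
    (fun y : Adl K => (x : Adl K) * y) '' (box868 K fun _ => t) = ibox868 K t x := by
  rw [image_mul_eq_preimage868]
  ext a
  have hI : ∀ w : InfinitePlace K, ‖(((x⁻¹ : (Adl K)ˣ) : Adl K) * a).1 w‖
      = ‖(x : Adl K).1 w‖⁻¹ * ‖a.1 w‖ := by
    intro w
    have h1 : (((x⁻¹ : (Adl K)ˣ) : Adl K) * a).1 w
        = ((x⁻¹ : (Adl K)ˣ) : Adl K).1 w * a.1 w := rfl
    rw [h1, norm_mul, norm_inf_inv868]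
  have hF : ∀ v : HeightOneSpectrum (𝓞 K), Valued.v ((((x⁻¹ : (Adl K)ˣ) : Adl K) * a).2 v)
      = (Valued.v ((x : Adl K).2 v))⁻¹ * Valued.v (a.2 v) := by
    intro v
    have h1 : (((x⁻¹ : (Adl K)ˣ) : Adl K) * a).2 v
        = ((x⁻¹ : (Adl K)ˣ) : Adl K).2 v * a.2 v := rfl
    rw [h1, map_mul, val_fin_inv868]
  simp only [Set.mem_preimage, mulCAE868_apply, box868, ibox868, Set.mem_ofPred_eq,
    HeightOneSpectrum.mem_adicCompletionIntegers, hI, hF]
  refine and_congr (forall_congr' fun w => ?_) (forall_congr' fun v => ?_)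
  · have hpos : 0 < ‖(x : Adl K).1 w‖ := norm_pos_iff.mpr (inf_ne_zero868 K x w)
    rw [inv_mul_le_iff₀ hpos, mul_comm]
  · have h0 := val_fin_ne_zero868 K x v
    rw [inv_mul_le_iff₀ (zero_lt_iff.mpr h0), mul_one]

/-- Multiplying by an idele moves idele boxes. -/
theorem mul_mem_ibox868 {t : ℝ} {x : (Adl K)ˣ} {a : Adl K} (ha : a ∈ ibox868 K t x)
    (y : (Adl K)ˣ) : (y : Adl K) * a ∈ ibox868 K t (y * x) := by
  obtain ⟨h1, h2⟩ := ha
  refine ⟨fun w => ?_, fun v => ?_⟩
  · have e1 : ((y : Adl K) * a).1 w = (y : Adl K).1 w * a.1 w := rfl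
    have e2 : ((y * x : (Adl K)ˣ) : Adl K).1 w = (y : Adl K).1 w * (x : Adl K).1 w := rfl
    rw [e1, e2, norm_mul, norm_mul]
    calc ‖(y : Adl K).1 w‖ * ‖a.1 w‖ ≤ ‖(y : Adl K).1 w‖ * (t * ‖(x : Adl K).1 w‖) :=
          mul_le_mul_of_nonneg_left (h1 w) (norm_nonneg _)
      _ = t * (‖(y : Adl K).1 w‖ * ‖(x : Adl K).1 w‖) := by ring
  · have e1 : ((y : Adl K) * a).2 v = (y : Adl K).2 v * a.2 v := rfl
    have e2 : ((y * x : (Adl K)ˣ) : Adl K).2 v = (y : Adl K).2 v * (x : Adl K).2 v := rfl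
    rw [e1, e2, map_mul, map_mul]
    exact mul_le_mul_right (h2 v) _

/-- Differences of two points of `ibox (1/2) x` lie in `ibox 1 x`. -/
theorem sub_mem_ibox868 {x : (Adl K)ˣ} {a b : Adl K} (ha : a ∈ ibox868 K (1 / 2) x)
    (hb : b ∈ ibox868 K (1 / 2) x) : a - b ∈ ibox868 K 1 x := by
  refine ⟨fun w => ?_, fun v => ?_⟩
  · have e1 : (a - b).1 w = a.1 w - b.1 w := rfl
    rw [e1, one_mul]
    calc ‖a.1 w - b.1 w‖ ≤ ‖a.1 w‖ + ‖b.1 w‖ := norm_sub_le _ _
      _ ≤ 1 / 2 * ‖(x : Adl K).1 w‖ + 1 / 2 * ‖(x : Adl K).1 w‖ := add_le_add (ha.1 w) (hb.1 w)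
      _ = ‖(x : Adl K).1 w‖ := by ring
  · have e1 : (a - b).2 v = a.2 v - b.2 v := rfl
    rw [e1]
    exact (Valuation.map_sub _ _ _).trans (max_le (ha.2 v) (hb.2 v))

/-! ## Compactness of the boxes -/

theorem isCompact_closedBall_inf868 (w : InfinitePlace K) (r : ℝ) :
    IsCompact (Metric.closedBall (0 : w.Completion) r) := by
  by_cases hw : w.IsReal
  · have h := (InfinitePlace.Completion.isometryEquivRealOfIsReal hw).toHomeomorph.isCompact_preimage.mpr
      (isCompact_closedBall (0 : ℝ) r)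
    have e : (InfinitePlace.Completion.isometryEquivRealOfIsReal hw).toHomeomorph ⁻¹'
        Metric.closedBall (0 : ℝ) r = Metric.closedBall (0 : w.Completion) r := by
      have := (InfinitePlace.Completion.isometryEquivRealOfIsReal hw).preimage_closedBall 0 r
      have h0 : (InfinitePlace.Completion.isometryEquivRealOfIsReal hw).symm 0 = 0 :=
        map_zero (InfinitePlace.Completion.ringEquivRealOfIsReal hw).symm
      rw [h0] at this
      exact this
    rw [← e]
    exact h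
  · have hc : w.IsComplex := InfinitePlace.not_isReal_iff_isComplex.1 hw
    have h := (InfinitePlace.Completion.isometryEquivComplexOfIsComplex hc).toHomeomorph.isCompact_preimage.mpr
      (isCompact_closedBall (0 : ℂ) r)
    have e : (InfinitePlace.Completion.isometryEquivComplexOfIsComplex hc).toHomeomorph ⁻¹'
        Metric.closedBall (0 : ℂ) r = Metric.closedBall (0 : w.Completion) r := by
      have := (InfinitePlace.Completion.isometryEquivComplexOfIsComplex hc).preimage_closedBall 0 r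
      have h0 : (InfinitePlace.Completion.isometryEquivComplexOfIsComplex hc).symm 0 = 0 :=
        map_zero (InfinitePlace.Completion.ringEquivComplexOfIsComplex hc).symm
      rw [h0] at this
      exact this
    rw [← e]
    exact h

theorem isCompact_box868 (r : InfinitePlace K → ℝ) : IsCompact (box868 K r) := by
  rw [box868_eq]
  exact (isCompact_univ_pi fun w => isCompact_closedBall_inf868 K w (r w)).prod
    (isCompact_ohat868 K)

theorem isCompact_ibox868 (t : ℝ) (x : (Adl K)ˣ) : IsCompact (ibox868 K t x) := by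
  rw [← image_box_eq_ibox868]
  exact (isCompact_box868 K _).image (continuous_const.mul continuous_id)

/-! ## The Minkowski lemma -/

variable {K}

/-- **The adelic Minkowski lemma.** -/
theorem minkowski868 (hLC : LocCompC K) (hFD : AddFundDomC K) (hN : AdNormC K) :
    ∃ C : ℝ, ∀ x : (Adl K)ˣ, C < adNorm K (x : Adl K) →
      ∃ ξ : Kˣ, algebraMap K (Adl K) (ξ : K) ∈ ibox868 K 1 x := by
  letI : MeasurableSpace (Adl K) := borel (Adl K)
  haveI : BorelSpace (Adl K) := ⟨rfl⟩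
  have hLC' := hLC
  obtain ⟨⟨hlc, ht2, hsc⟩, -⟩ := hLC
  haveI := hlc
  haveI := ht2
  haveI := hsc
  haveI := countable_princ868 K
  set μ : Measure (Adl K) := Measure.addHaar with hμ
  obtain ⟨D, hDm, hD, -, hD0, hD1⟩ := hFD μ inferInstance
  obtain ⟨⟨hb0, hb1⟩, hbr⟩ := measure_box868 μ
  set S : Set (Adl K) := box868 K fun _ => 1 / 2 with hS
  have hSμ : μ S = ENNReal.ofReal (∏ w : InfinitePlace K, (1 / 2 : ℝ) ^ w.mult)
      * μ (box868 K fun _ => 1) := hbr _ fun _ => by norm_num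
  have hS0 : μ S ≠ 0 := by
    rw [hSμ]
    refine mul_ne_zero ?_ hb0.ne'
    rw [Ne, ENNReal.ofReal_eq_zero, not_le]
    exact Finset.prod_pos fun w _ => by positivity
  have hS1 : μ S ≠ ⊤ := by
    rw [hSμ]
    exact ENNReal.mul_ne_top ENNReal.ofReal_ne_top hb1.ne
  refine ⟨(μ D / μ S).toReal, fun x hx => ?_⟩
  -- the measure of `x S`
  have hxS : μ D < μ ((fun y : Adl K => (x : Adl K) * y) '' S) := by
    rw [haarScale868 hLC' hFD hN μ inferInstance x S]
    have hfin : μ D / μ S ≠ ⊤ := ENNReal.div_ne_top hD1.ne hS0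
    have h1 : μ D / μ S < ENNReal.ofReal (adNorm K (x : Adl K)) := by
      rw [← ENNReal.ofReal_toReal hfin]
      exact (ENNReal.ofReal_lt_ofReal_iff (lt_of_le_of_lt ENNReal.toReal_nonneg hx)).mpr hx
    calc μ D = μ D / μ S * μ S := (ENNReal.div_mul_cancel hS0 hS1).symm
      _ < ENNReal.ofReal (adNorm K (x : Adl K)) * μ S :=
          (ENNReal.mul_lt_mul_iff_left hS0 hS1).mpr h1
  have hmeas : NullMeasurableSet ((fun y : Adl K => (x : Adl K) * y) '' S) μ := by
    rw [image_box_eq_ibox868]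
    exact (isCompact_ibox868 K _ x).measurableSet.nullMeasurableSet
  obtain ⟨g₁, g₂, hne, hnd⟩ := exists_pair_mem_lattice_not_disjoint_vadd hD hmeas hxS
  rw [Set.not_disjoint_iff] at hnd
  obtain ⟨a, ⟨s₁, hs₁, h1⟩, ⟨s₂, hs₂, h2⟩⟩ := hnd
  rw [image_box_eq_ibox868] at hs₁ hs₂
  -- the difference of the lattice points
  have hdiff : ((g₂ - g₁ : princ K) : Adl K) = s₁ - s₂ := by
    have e1 : (g₁ : Adl K) + s₁ = a := h1
    have e2 : (g₂ : Adl K) + s₂ = a := h2
    have : (g₁ : Adl K) + s₁ = (g₂ : Adl K) + s₂ := e1.trans e2.symm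
    rw [AddSubgroup.coe_sub]
    linear_combination -this
  obtain ⟨ξ, hξ⟩ := (g₂ - g₁).2
  have hξ' : algebraMap K (Adl K) ξ = s₁ - s₂ := by
    rw [← hdiff]
    exact hξ
  have hξ0 : ξ ≠ 0 := by
    rintro rfl
    apply hne
    have h0 : ((g₂ - g₁ : princ K) : Adl K) = 0 := by
      rw [← hξ]
      simp
    have h3 : g₂ - g₁ = 0 := Subtype.ext h0
    exact (sub_eq_zero.mp h3).symm
  refine ⟨Units.mk0 ξ hξ0, ?_⟩
  rw [Units.val_mk0, hξ']
  exact sub_mem_ibox868 K hs₁ hs₂

end Fermat.Agent.LT.T1.H868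

end

end
-- ===== PACK-END LT/T1/H868/Minkowski.lean

-- ===== PACK-BEGIN LT/T2/H255/UnramLocal.lean
section



/-!
# Row LT, tower T2, station T2.10 (SMO): local elements at a finite place (helper255)

OFF-MAIN.  Book-keeping for `UnramTorusC` (and `CutoffC`): the local adele `locAd255 v t`, the
elements `n(locAd t)`, `diag(y, 1)` as images of `locFin129 v` (helper129, byte-identical copy),
commutation of local elements with elements trivial at `v`.
-/

set_option autoImplicit false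

open IsDedekindDomain NumberField MeasureTheory AutomorphicForm
open IsDedekindDomain.HeightOneSpectrum
open Fermat.Agent.LT.H556.A0
open scoped MatrixGroups

noncomputable section

namespace Fermat.Agent.LT.T2.H255

open Fermat.Agent.LT Fermat.Agent.LT.T2.H941 Fermat.Agent.LT.H129

variable {K : Type} [Field K] [NumberField K] (v : HeightOneSpectrum (𝓞 K))

/-! ## 1. The local adele -/

/-- The adele with component `t` at `v` and `0` elsewhere. -/
def locAd255 (t : v.adicCompletion K) : Adl K := (0, finSingle129 v false t)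

theorem locAd255_fst (t : v.adicCompletion K) : (locAd255 v t).1 = 0 := rfl

theorem locAd255_same (t : v.adicCompletion K) : (locAd255 v t).2 v = t :=
  finSingle129_same v false t

theorem locAd255_of_ne (t : v.adicCompletion K) {v' : HeightOneSpectrum (𝓞 K)} (h : v' ≠ v) :
    (locAd255 v t).2 v' = 0 := by
  have := finSingle129_of_ne v false t h
  simp only [Bool.false_eq_true, if_false] at this
  exact this

theorem isLocAdeleAt_locAd255 (t : v.adicCompletion K) : T3.IsLocAdeleAt K v (locAd255 v t) :=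
  ⟨rfl, fun _ h => locAd255_of_ne v t h⟩

theorem eq_locAd255_of_isLocAdeleAt {x : Adl K} (hx : T3.IsLocAdeleAt K v x) :
    x = locAd255 v (x.2 v) := by
  apply adele_ext129
  · intro w
    rw [hx.1]
    rfl
  · intro v'
    by_cases h : v' = v
    · subst h
      rw [locAd255_same]
    · rw [hx.2 v' h, locAd255_of_ne v _ h]

theorem locAd255_add (s t : v.adicCompletion K) :
    locAd255 v (s + t) = locAd255 v s + locAd255 v t := by
  apply adele_ext129
  · intro w
    show (0 : InfiniteAdeleRing K) w = ((0 : InfiniteAdeleRing K) + 0) w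
    rw [add_zero]
  · intro v'
    by_cases h : v' = v
    · subst h
      show (locAd255 v' (s + t)).2 v' = (locAd255 v' s).2 v' + (locAd255 v' t).2 v'
      rw [locAd255_same, locAd255_same, locAd255_same]
    · show (locAd255 v (s + t)).2 v' = (locAd255 v s).2 v' + (locAd255 v t).2 v'
      rw [locAd255_of_ne v _ h, locAd255_of_ne v _ h, locAd255_of_ne v _ h, add_zero]

/-! ## 2. Local elements of `GL₂(𝔸_K)` -/

theorem map_unipMat255 {R S : Type*} [CommRing R] [CommRing S] (f : R →+* S) (x : R) :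
    (!![1, x; 0, 1] : Matrix (Fin 2) (Fin 2) R).map f = !![1, f x; 0, 1] := by
  ext i j
  fin_cases i <;> fin_cases j <;> simp

theorem map_torMat255 {R S : Type*} [CommRing R] [CommRing S] (f : R →+* S) (x : R) :
    (!![x, 0; 0, 1] : Matrix (Fin 2) (Fin 2) R).map f = !![f x, 0; 0, 1] := by
  ext i j
  fin_cases i <;> fin_cases j <;> simp

theorem unipMat_zero255 {S : Type*} [CommRing S] :
    (!![1, 0; 0, 1] : Matrix (Fin 2) (Fin 2) S) = 1 := Matrix.one_fin_two.symm

theorem evI_locAd255 (t : v.adicCompletion K) (w : InfinitePlace K) :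
    evI129 w (locAd255 v t) = 0 := rfl

theorem evF_locAd255_same (t : v.adicCompletion K) : evF129 v (locAd255 v t) = t :=
  locAd255_same v t

theorem evF_locAd255_of_ne (t : v.adicCompletion K) {v' : HeightOneSpectrum (𝓞 K)}
    (h : v' ≠ v) : evF129 v' (locAd255 v t) = 0 :=
  locAd255_of_ne v t h

/-- `n(locAd t)` is the local embedding of the upper unipotent. -/
theorem unip_locAd255 (t : v.adicCompletion K) :
    T3.unip K (locAd255 v t) = locFin129 v (upperU129 t) := by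
  apply G_ext129
  · intro w
    rw [infCompHom129_locFin129]
    apply Units.ext
    rw [coe_infCompHom129_map, coe_unip255, map_unipMat255, evI_locAd255, unipMat_zero255]
    rfl
  · intro v'
    by_cases h : v' = v
    · subst h
      rw [finCompHom129_locFin129]
      apply Units.ext
      rw [coe_finCompHom129_map, coe_unip255, map_unipMat255, evF_locAd255_same]
      rfl
    · rw [finCompHom129_locFin129_of_ne v _ h]
      apply Units.ext
      rw [coe_finCompHom129_map, coe_unip255, map_unipMat255, evF_locAd255_of_ne v _ h,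
        unipMat_zero255]
      rfl

/-- The component at `v` of an idele is not zero. -/
theorem idele_comp_ne_zero255 (y : (Adl K)ˣ) : ((y : Adl K).2 v) ≠ 0 := by
  have h : IsUnit (evF129 v (y : Adl K)) := (y.isUnit).map (evF129 v)
  exact h.ne_zero

/-- The diagonal element `diag(a, 1)` of `GL₂(K_v)`. -/
def dg255 (a : v.adicCompletion K) (ha : a ≠ 0) : GL (Fin 2) (v.adicCompletion K) :=
  mkGL129 a 0 0 1 (by simpa using ha)

theorem coe_tor255 (y : (Adl K)ˣ) :
    ((tor y : G K) : Matrix (Fin 2) (Fin 2) (Adl K)) = !![(y : Adl K), 0; 0, 1] := rfl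

/-- For an idele supported at `v`, `diag(y, 1)` is the local embedding of `diag(y_v, 1)`. -/
theorem tor_eq_locFin255 {y : (Adl K)ˣ} (hy : IsIdeleAtFin v y) :
    tor y = locFin129 v (dg255 v ((y : Adl K).2 v) (idele_comp_ne_zero255 v y)) := by
  apply G_ext129
  · intro w
    rw [infCompHom129_locFin129]
    apply Units.ext
    have h1 : evI129 w (y : Adl K) = 1 := hy.1 w
    rw [coe_infCompHom129_map, coe_tor255, map_torMat255, h1, unipMat_zero255]
    rfl
  · intro v'
    by_cases h : v' = v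
    · subst h
      rw [finCompHom129_locFin129]
      apply Units.ext
      rw [coe_finCompHom129_map, coe_tor255, map_torMat255]
      rfl
    · rw [finCompHom129_locFin129_of_ne v _ h]
      apply Units.ext
      have h1 : evF129 v' (y : Adl K) = 1 := hy.2 v' h
      rw [coe_finCompHom129_map, coe_tor255, map_torMat255, h1, unipMat_zero255]
      rfl

/-- Local elements at `v` commute with the elements which are trivial at `v`. -/
theorem locFin_comm255 (x : GL (Fin 2) (v.adicCompletion K)) {g : G K} (hg : TrivAtFin v g) :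
    locFin129 v x * g = g * locFin129 v x := by
  rw [trivAtFin_iff129] at hg
  apply G_ext129
  · intro w
    rw [map_mul, map_mul, infCompHom129_locFin129, one_mul, mul_one]
  · intro v'
    rw [map_mul, map_mul]
    by_cases h : v' = v
    · subst h
      rw [hg, one_mul, mul_one]
    · rw [finCompHom129_locFin129_of_ne v _ h, one_mul, mul_one]

theorem isIntegralAt_locFin255 (x : GL (Fin 2) (v.adicCompletion K)) :
    IsIntegralAt v (locFin129 v x) ↔ IsInt129 (v.adicCompletionIntegers K) x := by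
  rw [← isInt129_finCompHom_iff, finCompHom129_locFin129]

/-- A function which is right invariant under `GL₂(𝒪_v)` is invariant under the local embedding
of an element of `GL₂(𝒪_v)`. -/
theorem isKv_apply255 {Φ : G K → ℂ} (hΦ : IsKv v Φ) {k : GL (Fin 2) (v.adicCompletion K)}
    (hk : IsMaxCpt129 (v.adicCompletionIntegers K) k) (x : G K) :
    Φ (x * locFin129 v k) = Φ x := by
  refine hΦ (locFin129 v k) (isLocalAtFin_locFin129 v k) ?_ ?_ x
  · exact (isIntegralAt_locFin255 v k).mpr hk.1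
  · rw [← map_inv]
    exact (isIntegralAt_locFin255 v _).mpr hk.2

/-! ## 3. Matrix identities in `GL₂(K_v)` -/

section Generic

variable {F : Type*} [Field F]

theorem dg_mul_upper255 (a r p : F) (ha : a ≠ 0) (hp : p ≠ 0) :
    mkGL129 a 0 0 1 (by simpa using ha) * mkGL129 p r 0 1 (by simpa using hp)
      = upperU129 (a * r) * mkGL129 (a * p) 0 0 1 (by simpa using mul_ne_zero ha hp) := by
  apply ext_mat129
  simp only [Matrix.GeneralLinearGroup.coe_mul, coe_mkGL129, upperU129]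
  ext i j
  fin_cases i <;> fin_cases j <;> simp [Matrix.mul_apply, Fin.sum_univ_two]

theorem dg_mul_lower255 (a p : F) (ha : a ≠ 0) (hp : p ≠ 0) :
    mkGL129 a 0 0 1 (by simpa using ha) * mkGL129 1 0 0 p (by simpa using hp)
      = mkGL129 (a * p⁻¹) 0 0 1 (by simpa using mul_ne_zero ha (inv_ne_zero hp))
        * mkGL129 p 0 0 p (by simpa using hp) := by
  apply ext_mat129
  simp only [Matrix.GeneralLinearGroup.coe_mul, coe_mkGL129]
  ext i j
  fin_cases i <;> fin_cases j <;> simp [Matrix.mul_apply, Fin.sum_univ_two, hp]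

theorem dg_mul_dg255 (a u : F) (ha : a ≠ 0) (hu : u ≠ 0) :
    mkGL129 (a * u) 0 0 1 (by simpa using mul_ne_zero ha hu)
      = mkGL129 a 0 0 1 (by simpa using ha) * mkGL129 u 0 0 1 (by simpa using hu) := by
  apply ext_mat129
  simp only [Matrix.GeneralLinearGroup.coe_mul, coe_mkGL129]
  ext i j
  fin_cases i <;> fin_cases j <;> simp [Matrix.mul_apply, Fin.sum_univ_two]

theorem dg_mul_upperU255 (a u : F) (ha : a ≠ 0) :
    mkGL129 a 0 0 1 (by simpa using ha) * upperU129 u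
      = upperU129 (a * u) * mkGL129 a 0 0 1 (by simpa using ha) := by
  apply ext_mat129
  simp only [Matrix.GeneralLinearGroup.coe_mul, coe_mkGL129, upperU129]
  ext i j
  fin_cases i <;> fin_cases j <;> simp [Matrix.mul_apply, Fin.sum_univ_two]

end Generic

end Fermat.Agent.LT.T2.H255

end

end
-- ===== PACK-END LT/T2/H255/UnramLocal.lean

-- ===== PACK-BEGIN LT/T2/H973/ArchTop.lean
section



/-!
# Row LT, tower T2, leaf T2.10.08 `ArchTorusC` (complex place): the PROVED TOPS (helper973)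

OFF-MAIN.  Registry row 1101.  Sub-spec: `ArchSpec.lean` (sha256 6e234a4a0ea7).
Against `LT/T2/H941/SmoSpec.lean` v2 (sha256 14c4d13ef051); the strong form of v1 (`κ 1 = 1`, `κ`
without zeros) is proved as well (`ArchTorusStrongC`).

* `locUniq_of_leaves : CharClassC → SphereCoordC → BetaFormC → SubstC → GenLaplC → GenSecondC →
    OdeUniqC → LocUniqC`
* `archTorusStrong_of_leaves K : WhEquivC K → WhContC K → WhMeanC K → LocEmbC K → LocUniqC →
    T1.T1Out K → ArchTorusStrongC K`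
* `archTorus_of_leaves K : (the same) → ArchTorusC K`
* `leaf08_of_leaves K : (the eleven sub-leaves) → H941.Leaf08 K`

Standard axioms only; no placeholder.
-/

set_option autoImplicit false

open IsDedekindDomain NumberField MeasureTheory AutomorphicForm
open Fermat.Agent.LT.H556.A0
open scoped ComplexConjugate

noncomputable section

namespace Fermat.Agent.LT.T2.H973

open Fermat.Agent.LT.T2.H941

/-! ## 1. The local top -/

/-- `H(s) = e^{-s} f(t(eˢ))`. -/
def radOf (f : GL (Fin 2) ℂ → ℂ) (s : ℝ) : ℂ := ((Real.exp (-s) : ℝ) : ℂ) * f (tE s)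

lemma tC_val (y : ℂˣ) : ((tC y : GL (Fin 2) ℂ) : Matrix (Fin 2) (Fin 2) ℂ) = !![(y : ℂ), 0; 0, 1] :=
  rfl

lemma tC_mul (y y' : ℂˣ) : tC (y * y') = tC y * tC y' := by
  apply Units.ext
  rw [Units.val_mul, tC_val, tC_val, tC_val, Matrix.mul_fin_two]
  simp

lemma tC_one : tC 1 = 1 := by
  apply Units.ext
  rw [tC_val, Units.val_one, Units.val_one, Matrix.one_fin_two]

lemma expU_zero : expU 0 = 1 := by
  apply Units.ext
  show ((Real.exp 0 : ℝ) : ℂ) = 1
  rw [Real.exp_zero, Complex.ofReal_one]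

lemma tE_zero : tE 0 = 1 := by
  unfold tE
  rw [expU_zero, tC_one]

lemma radOf_zero (f : GL (Fin 2) ℂ → ℂ) : radOf f 0 = f 1 := by
  unfold radOf
  rw [tE_zero, neg_zero, Real.exp_zero, Complex.ofReal_one, one_mul]

/-- On the torus a function which is right invariant under `U(2)` depends on `|y|` only. -/
lemma torus_abs {f : GL (Fin 2) ℂ → ℂ}
    (hu : ∀ u h : GL (Fin 2) ℂ,
      (u : Matrix (Fin 2) (Fin 2) ℂ) * (u : Matrix (Fin 2) (Fin 2) ℂ).conjTranspose = 1 →
        f (h * u) = f h) (y : ℂˣ) :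
    f (tC y) = f (tE (Real.log ‖(y : ℂ)‖)) := by
  have hy : (y : ℂ) ≠ 0 := y.ne_zero
  have hn : 0 < ‖(y : ℂ)‖ := norm_pos_iff.mpr hy
  have hE : (expU (Real.log ‖(y : ℂ)‖) : ℂ) = ((‖(y : ℂ)‖ : ℝ) : ℂ) := by
    show ((Real.exp (Real.log ‖(y : ℂ)‖) : ℝ) : ℂ) = _
    rw [Real.exp_log hn]
  -- the phase
  have hph : (y : ℂ) / ((‖(y : ℂ)‖ : ℝ) : ℂ) ≠ 0 :=
    div_ne_zero hy (by rw [Ne, Complex.ofReal_eq_zero]; exact hn.ne')
  set p : ℂˣ := Units.mk0 _ hph with hp
  have hyp : y = expU (Real.log ‖(y : ℂ)‖) * p := by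
    apply Units.ext
    rw [Units.val_mul, hE, hp, Units.val_mk0]
    field_simp
  have hpn : ‖(p : ℂ)‖ = 1 := by
    rw [hp, Units.val_mk0, norm_div, Complex.norm_real, Real.norm_eq_abs, abs_of_pos hn,
      div_self hn.ne']
  have hunit : ((tC p : GL (Fin 2) ℂ) : Matrix (Fin 2) (Fin 2) ℂ)
      * ((tC p : GL (Fin 2) ℂ) : Matrix (Fin 2) (Fin 2) ℂ).conjTranspose = 1 := by
    rw [tC_val]
    ext i j
    fin_cases i <;> fin_cases j <;>
      simp [Matrix.mul_apply, Fin.sum_univ_two, Matrix.conjTranspose_apply]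
    rw [Complex.mul_conj, Complex.normSq_eq_norm_sq, hpn]
    simp
  conv_lhs => rw [hyp, tC_mul]
  exact hu (tC p) _ hunit

lemma isDecSol_sub_smul {k : ℝ} {h₁ h₂ : ℝ → ℝ} (H₁ : IsDecSol k h₁) (H₂ : IsDecSol k h₂)
    (a : ℝ) : IsDecSol k (fun s => h₁ s - a * h₂ s) := by
  obtain ⟨⟨d₁, hd₁, hd₁'⟩, ht₁⟩ := H₁
  obtain ⟨⟨d₂, hd₂, hd₂'⟩, ht₂⟩ := H₂
  refine ⟨⟨fun s => d₁ s - a * d₂ s, fun s => ?_, fun s => ?_⟩, ?_⟩
  · exact (hd₁ s).sub ((hd₂ s).const_mul a)
  · have h3 := (hd₁' s).sub ((hd₂' s).const_mul a)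
    have e : k ^ 2 * Real.exp (2 * s) * (h₁ s - a * h₂ s)
        = k ^ 2 * Real.exp (2 * s) * h₁ s - a * (k ^ 2 * Real.exp (2 * s) * h₂ s) := by ring
    rw [e]
    exact h3
  · have := ht₁.sub (ht₂.const_mul a)
    simpa using this

/-- **The local top.** -/
theorem locUniq_of_leaves (h1 : CharClassC) (hR1 : SphereCoordC) (hR2 : BetaFormC)
    (hR3 : SubstC) (h4a : GenLaplC) (h4b : GenSecondC) (h5 : OdeUniqC) : LocUniqC := by
  intro χ hχ
  obtain ⟨c, hc⟩ := h1 χ hχ
  -- every local Whittaker function gives a complex decaying solution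
  have key : ∀ f : GL (Fin 2) ℂ → ℂ, IsLocWhit χ f →
      IsDecSol ‖c‖ (fun s => (radOf f s).re) ∧ IsDecSol ‖c‖ (fun s => (radOf f s).im) := by
    intro f hf
    have hβ : IsBetaSol ‖c‖ (fun s => f (tE s)) := hR2 hR1 c χ f hc hf
    have hrad : IsRadSol ‖c‖ (radOf f) := hR3 ‖c‖ _ (norm_nonneg c) hβ
    have hgen := h4a ‖c‖ (radOf f) hrad
    have hcontφ : Continuous (fun s : ℝ =>
        (((‖c‖ ^ 2 * Real.exp (2 * s) : ℝ) : ℂ)) * radOf f s) := by
      refine Continuous.mul ?_ hrad.1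
      exact Complex.continuous_ofReal.comp
        (continuous_const.mul (Real.continuous_exp.comp (continuous_const.mul continuous_id)))
    obtain ⟨H', hH, hH'⟩ := h4b (radOf f) _ hrad.1 hcontφ hgen
    -- decay
    obtain ⟨C, hC⟩ := hf.bdd
    have hdec : Filter.Tendsto (radOf f) Filter.atTop (nhds 0) := by
      rw [tendsto_zero_iff_norm_tendsto_zero]
      have hb : ∀ s : ℝ, ‖radOf f s‖ ≤ Real.exp (-s) * C := by
        intro s
        unfold radOf
        rw [norm_mul, Complex.norm_real, Real.norm_eq_abs, abs_of_pos (Real.exp_pos _)]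
        exact mul_le_mul_of_nonneg_left (hC _) (Real.exp_pos _).le
      have hlim : Filter.Tendsto (fun s : ℝ => Real.exp (-s) * C) Filter.atTop (nhds 0) := by
        have := (Real.tendsto_exp_neg_atTop_nhds_zero).mul_const C
        simpa using this
      exact squeeze_zero (fun s => norm_nonneg _) hb hlim
    constructor
    · refine ⟨⟨fun s => (H' s).re, fun s => ?_, fun s => ?_⟩, ?_⟩
      · exact (Complex.reCLM.hasFDerivAt.comp_hasDerivAt s (hH s))
      · have h3 := (Complex.reCLM.hasFDerivAt.comp_hasDerivAt s (hH' s))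
        have e : Complex.reCLM ((((‖c‖ ^ 2 * Real.exp (2 * s) : ℝ) : ℂ)) * radOf f s)
            = ‖c‖ ^ 2 * Real.exp (2 * s) * (radOf f s).re := by
          rw [Complex.reCLM_apply, Complex.re_ofReal_mul]
        rw [e] at h3
        exact h3
      · have h3 : Filter.Tendsto (Complex.re ∘ radOf f) Filter.atTop (nhds (Complex.re 0)) :=
          (Complex.continuous_re.tendsto 0).comp hdec
        rw [Complex.zero_re] at h3
        exact h3
    · refine ⟨⟨fun s => (H' s).im, fun s => ?_, fun s => ?_⟩, ?_⟩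
      · exact (Complex.imCLM.hasFDerivAt.comp_hasDerivAt s (hH s))
      · have h3 := (Complex.imCLM.hasFDerivAt.comp_hasDerivAt s (hH' s))
        have e : Complex.imCLM ((((‖c‖ ^ 2 * Real.exp (2 * s) : ℝ) : ℂ)) * radOf f s)
            = ‖c‖ ^ 2 * Real.exp (2 * s) * (radOf f s).im := by
          rw [Complex.imCLM_apply, Complex.im_ofReal_mul]
        rw [e] at h3
        exact h3
      · have h3 : Filter.Tendsto (Complex.im ∘ radOf f) Filter.atTop (nhds (Complex.im 0)) :=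
          (Complex.continuous_im.tendsto 0).comp hdec
        rw [Complex.zero_im] at h3
        exact h3
  -- the value on the torus
  have htor : ∀ f : GL (Fin 2) ℂ → ℂ, IsLocWhit χ f → ∀ y : ℂˣ,
      f (tC y) = ((‖(y : ℂ)‖ : ℝ) : ℂ) * radOf f (Real.log ‖(y : ℂ)‖) := by
    intro f hf y
    have hn : 0 < ‖(y : ℂ)‖ := norm_pos_iff.mpr y.ne_zero
    rw [torus_abs hf.unitary y]
    unfold radOf
    rw [← mul_assoc, ← Complex.ofReal_mul, Real.exp_neg, Real.exp_log hn,
      mul_inv_cancel₀ hn.ne', Complex.ofReal_one, one_mul]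
  by_cases hex : ∃ h₀ : ℝ → ℝ, IsDecSol ‖c‖ h₀ ∧ ∃ s, h₀ s ≠ 0
  · obtain ⟨h₀, hh₀, s₁, hs₁⟩ := hex
    have hnz : ∀ s, h₀ s ≠ 0 := by
      intro s hs
      exact hs₁ (h5 ‖c‖ h₀ hh₀ ⟨s, hs⟩ s₁)
    refine ⟨fun t => ((‖t‖ * h₀ (Real.log ‖t‖) / h₀ 0 : ℝ) : ℂ), ?_, ?_, ?_⟩
    · show ((‖(1 : ℂ)‖ * h₀ (Real.log ‖(1 : ℂ)‖) / h₀ 0 : ℝ) : ℂ) = 1
      rw [norm_one, Real.log_one, one_mul, div_self (hnz 0), Complex.ofReal_one]
    · intro t ht
      show ((‖t‖ * h₀ (Real.log ‖t‖) / h₀ 0 : ℝ) : ℂ) ≠ 0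
      rw [Ne, Complex.ofReal_eq_zero]
      exact div_ne_zero (mul_ne_zero (norm_ne_zero_iff.mpr ht) (hnz _)) (hnz 0)
    · intro f hf y
      obtain ⟨hre, him⟩ := key f hf
      -- proportionality
      have hprop : ∀ s : ℝ, radOf f s = ((h₀ s / h₀ 0 : ℝ) : ℂ) * radOf f 0 := by
        intro s
        have e1 := h5 ‖c‖ _ (isDecSol_sub_smul hre hh₀ ((radOf f 0).re / h₀ 0))
          ⟨0, by
            show (radOf f 0).re - (radOf f 0).re / h₀ 0 * h₀ 0 = 0
            rw [div_mul_cancel₀ _ (hnz 0), sub_self]⟩ s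
        have e2 := h5 ‖c‖ _ (isDecSol_sub_smul him hh₀ ((radOf f 0).im / h₀ 0))
          ⟨0, by
            show (radOf f 0).im - (radOf f 0).im / h₀ 0 * h₀ 0 = 0
            rw [div_mul_cancel₀ _ (hnz 0), sub_self]⟩ s
        have e1' : (radOf f s).re = (radOf f 0).re / h₀ 0 * h₀ s := sub_eq_zero.mp e1
        have e2' : (radOf f s).im = (radOf f 0).im / h₀ 0 * h₀ s := sub_eq_zero.mp e2
        apply Complex.ext
        · rw [Complex.re_ofReal_mul, e1']
          field_simp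
        · rw [Complex.im_ofReal_mul, e2']
          field_simp
      rw [htor f hf y, hprop, radOf_zero]
      show _ = ((‖(y : ℂ)‖ * h₀ (Real.log ‖(y : ℂ)‖) / h₀ 0 : ℝ) : ℂ) * f 1
      rw [← mul_assoc, ← Complex.ofReal_mul, mul_div_assoc]
  · refine ⟨fun _ => 1, rfl, fun _ _ => one_ne_zero, ?_⟩
    intro f hf y
    obtain ⟨hre, him⟩ := key f hf
    have hz : ∀ s : ℝ, radOf f s = 0 := by
      intro s
      apply Complex.ext
      · by_contra hne
        exact hex ⟨_, hre, s, hne⟩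
      · by_contra hne
        exact hex ⟨_, him, s, hne⟩
    rw [htor f hf y, hz, mul_zero, ← radOf_zero f, hz, mul_zero]

/-! ## 2. The adelic top -/

section Adelic

variable (K : Type) [Field K] [NumberField K]

/-- `W_Φ` inherits the right invariance of `Φ`. -/
lemma wh_right_inv {m : MeasurableSpace (Adl K)} (ψ : AddChar (Adl K) Circle)
    (ν : Measure (Adl K)) (D : Set (Adl K)) (Φ : G K → ℂ) (k : G K)
    (hk : ∀ g : G K, Φ (g * k) = Φ g) (g : G K) :
    wh ψ ν D Φ (g * k) = wh ψ ν D Φ g := by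
  unfold wh
  simp only [← mul_assoc, hk]

/-- The STRONG form of `H941.ArchTorusC` (= the Prop of SmoSpec v1, sha256 41255efa7193): `κ` is
normalised and has no zero on `K_wˣ`.  (SmoSpec v2, sha256 14c4d13ef051, dropped both clauses.) -/
def ArchTorusStrongC : Prop :=
  letI : MeasurableSpace (Adl K) := borel (Adl K)
  ∀ (ψ : AddChar (Adl K) Circle) (ν : Measure (Adl K)) (D : Set (Adl K)), IsWhitData ψ ν D →
  ∀ w : InfinitePlace K, w.IsComplex →
    ∃ κ : w.Completion → ℂ, κ 1 = 1 ∧ (∀ t : w.Completion, t ≠ 0 → κ t ≠ 0) ∧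
      ∀ Φ : G K → ℂ, Continuous Φ → (∃ C : ℝ, ∀ g : G K, ‖Φ g‖ ≤ C) →
        (∀ (γ : GL (Fin 2) K) (g : G K), Φ (T1.ratG K γ * g) = Φ g) →
        (∀ z : G K, IsArchPosScalar w z → ∀ g : G K, Φ (g * z) = Φ g) →
        (∀ k : G K, IsArchCompact w k → ∀ g : G K, Φ (g * k) = Φ g) →
        MeanValueComplex Φ w →
        ∀ y : (Adl K)ˣ, IsIdeleAtInf w y → ∀ g : G K, TrivAtInf w g →
          wh ψ ν D Φ (tor y * g) = κ ((y : Adl K).1 w) * wh ψ ν D Φ g

/-- **The adelic top, strong form**: from the four adelic sub-leaves and the local uniqueness. -/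
theorem archTorusStrong_of_leaves (hA1 : WhEquivC K) (hA2 : WhContC K) (hA3 : WhMeanC K)
    (hA4 : LocEmbC K) (hL : LocUniqC) (hT1 : T1.T1Out K) : ArchTorusStrongC K := by
  let _ : MeasurableSpace (Adl K) := borel (Adl K)
  intro ψ ν D hW w hw
  obtain ⟨j, ι, hj⟩ := hA4 w hw
  have hψc : Continuous ψ := hW.1.cont
  -- the local character
  set χ : AddChar ℂ Circle := ψ.compAddMonoidHom ι with hχdef
  have hχv : ∀ x : ℂ, χ x = ψ (ι x) := fun x => rfl
  have hχ : Continuous χ := by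
    have : (χ : ℂ → Circle) = fun x => ψ (ι x) := funext hχv
    rw [this]
    exact hψc.comp hj.contAdd
  obtain ⟨κ, hκ1, hκ0, hκ⟩ := hL χ hχ
  refine ⟨fun t => κ (InfinitePlace.Completion.extensionEmbedding w t), ?_, ?_, ?_⟩
  · show κ (InfinitePlace.Completion.extensionEmbedding w 1) = 1
    rw [map_one, hκ1]
  · intro t ht
    show κ (InfinitePlace.Completion.extensionEmbedding w t) ≠ 0
    apply hκ0
    rw [Ne, map_eq_zero]
    exact ht
  · intro Φ hΦc hΦb hΦK hΦz hΦk hΦm y hy g hg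
    have hnr : ¬ w.IsReal := InfinitePlace.not_isReal_iff_isComplex.mpr hw
    obtain ⟨hWc, hWb⟩ := hA2 hT1.locComp ψ ν D hW Φ hΦc hΦb
    have hWe := hA1 hT1.locComp ψ ν D hW Φ hΦc hΦb hΦK
    have hWm := hA3 hT1.locComp ψ ν D hW Φ hΦc hΦb w hΦm
    -- the local function
    have hLW : IsLocWhit χ (fun h : GL (Fin 2) ℂ => wh ψ ν D Φ (j h * g)) := by
      refine ⟨?_, ?_, ?_, ?_, ?_, ?_⟩
      · exact hWc.comp (hj.cont.mul continuous_const)
      · obtain ⟨C, hC⟩ := hWb
        exact ⟨C, fun h => hC _⟩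
      · intro x h
        show wh ψ ν D Φ (j (nC x * h) * g) = ((χ x : Circle) : ℂ) * wh ψ ν D Φ (j h * g)
        rw [map_mul, hj.unip, mul_assoc, hWe, hχv]
      · intro u h hu
        show wh ψ ν D Φ (j (h * u) * g) = wh ψ ν D Φ (j h * g)
        have hk : IsArchCompact w (j u) :=
          ⟨hj.loc u, by rw [hj.comp]; exact hu, fun hr => absurd hr hnr⟩
        rw [map_mul, mul_assoc, hj.comm u g hg, ← mul_assoc]
        exact wh_right_inv K ψ ν D Φ (j u) (hΦk (j u) hk) _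
      · intro z h r hr hz
        show wh ψ ν D Φ (j (h * z) * g) = wh ψ ν D Φ (j h * g)
        have hk : IsArchPosScalar w (j z) :=
          ⟨hj.loc z, r, hr, by rw [hj.comp]; exact hz⟩
        rw [map_mul, mul_assoc, hj.comm z g hg, ← mul_assoc]
        exact wh_right_inv K ψ ν D Φ (j z) (hΦz (j z) hk) _
      · intro d hd Y hY h
        have h3 := hWm d hd (fun α β => j (Y α β))
          (fun α β => ⟨hj.loc _, by rw [hj.comp]; exact hY α β⟩) (j h * g)
        have e : ∀ α β : ℝ, wh ψ ν D Φ (j (h * Y α β) * g)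
            = wh ψ ν D Φ (j h * g * j (Y α β)) := by
          intro α β
          rw [map_mul, mul_assoc, hj.comm (Y α β) g hg, ← mul_assoc]
        simp only [e]
        exact h3
    -- the conclusion
    have yne : InfinitePlace.Completion.extensionEmbedding w ((y : Adl K).1 w) ≠ 0 := by
      rw [Ne, map_eq_zero]
      intro h0
      have h1 : ((y : Adl K) * ((y⁻¹ : (Adl K)ˣ) : Adl K)).1 w = 1 := by
        rw [Units.mul_inv]; rfl
      have h2 : ((y : Adl K) * ((y⁻¹ : (Adl K)ˣ) : Adl K)).1 w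
          = (y : Adl K).1 w * (((y⁻¹ : (Adl K)ˣ) : Adl K)).1 w := rfl
      rw [h2, h0, zero_mul] at h1
      exact zero_ne_one h1
    have h4 := hκ _ hLW (Units.mk0 _ yne)
    have h5 : tor y = j (tC (Units.mk0 _ yne)) := hj.tor y hy (Units.mk0 _ yne) rfl
    show wh ψ ν D Φ (tor y * g)
      = κ (InfinitePlace.Completion.extensionEmbedding w ((y : Adl K).1 w)) * wh ψ ν D Φ g
    rw [h5]
    have h6 : wh ψ ν D Φ (j 1 * g) = wh ψ ν D Φ g := by rw [map_one, one_mul]
    rw [← h6]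
    exact h4

/-- **The adelic top** (`H941.ArchTorusC` of SmoSpec v2). -/
theorem archTorus_of_leaves (hA1 : WhEquivC K) (hA2 : WhContC K) (hA3 : WhMeanC K)
    (hA4 : LocEmbC K) (hL : LocUniqC) (hT1 : T1.T1Out K) : ArchTorusC K := by
  let _ : MeasurableSpace (Adl K) := borel (Adl K)
  intro ψ ν D hW w hw
  obtain ⟨κ, -, -, hκ⟩ := archTorusStrong_of_leaves K hA1 hA2 hA3 hA4 hL hT1 ψ ν D hW w hw
  exact ⟨κ, hκ⟩

/-- **Registry row 1101** (`H941.Leaf08`) from the eleven sub-leaves. -/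
theorem leaf08_of_leaves (hA1 : WhEquivC K) (hA2 : WhContC K) (hA3 : WhMeanC K)
    (hA4 : LocEmbC K) (h1 : CharClassC) (hR1 : SphereCoordC) (hR2 : BetaFormC)
    (hR3 : SubstC) (h4a : GenLaplC) (h4b : GenSecondC) (h5 : OdeUniqC) : H941.Leaf08 K :=
  fun hT1 => archTorus_of_leaves K hA1 hA2 hA3 hA4
    (locUniq_of_leaves h1 hR1 hR2 hR3 h4a h4b h5) hT1

end Adelic

end Fermat.Agent.LT.T2.H973

end

end
-- ===== PACK-END LT/T2/H973/ArchTop.lean

-- ===== PACK-BEGIN LT/T2/H264/WhCont.lean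
section



/-!
# Row LT, tower T2, sub-leaf T2.10.08.02 `WhContC` (registry row 1200) -- helper264, OFF-MAIN

`whContC264 (K) : Fermat.Agent.LT.T2.H973.WhContC K` VERBATIM (Spec `LT/T2/H973/ArchSpec.lean`,
helper973@1d2e30d90, sha256 6e234a4a0ea7): the Whittaker coefficient
`W(g) = ∫_D Φ(n(x) g) conj ψ(x) dν(x)` of a bounded continuous `Φ` is continuous and bounded
(dominated convergence on the finite measure space `(D, ν)`).
-/

set_option autoImplicit false
set_option linter.style.haveILetI false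

open IsDedekindDomain NumberField MeasureTheory AutomorphicForm
open Fermat.Agent.LT.H556.A0

noncomputable section

namespace Fermat.Agent.LT.T2.H264

open Fermat.Agent.LT.T2.H941

variable (K : Type) [Field K] [NumberField K]

/-- `x ↦ n(x)` is continuous `𝔸_K → GL₂(𝔸_K)`. -/
theorem continuous_unip264 : Continuous (T3.unip K) := by
  rw [Units.continuous_iff]
  constructor
  · have h : (Units.val ∘ T3.unip K : Adl K → Matrix (Fin 2) (Fin 2) (Adl K))
        = fun x => !![1, x; 0, 1] := rfl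
    rw [h]
    refine continuous_matrix (fun i j => ?_)
    fin_cases i <;> fin_cases j <;> simp <;> fun_prop
  · have h : (fun x : Adl K => ((T3.unip K x)⁻¹ : G K).val)
        = fun x => !![1, -x; 0, 1] := rfl
    rw [h]
    refine continuous_matrix (fun i j => ?_)
    fin_cases i <;> fin_cases j <;> simp <;> fun_prop

/-- **T2.10.08.02 `WhContC`** (A2): `W` is continuous and bounded. -/
theorem whContC264 : H973.WhContC K := by
  letI : MeasurableSpace (Adl K) := borel (Adl K)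
  haveI : BorelSpace (Adl K) := ⟨rfl⟩
  intro hLC ψ ν D hW Φ hΦ hbd
  obtain ⟨⟨-, -, -⟩, -, -, hsc⟩ := hLC
  haveI : SecondCountableTopology (G K) := hsc
  obtain ⟨hstd, -, -, -, hDm, -, hfin⟩ := hW
  obtain ⟨C, hC⟩ := hbd
  haveI : IsFiniteMeasure (ν.restrict D) := ⟨by rw [Measure.restrict_apply_univ]; exact hfin⟩
  have hψc : Continuous fun x : Adl K => (starRingEnd ℂ) ((ψ x : Circle) : ℂ) :=
    Complex.continuous_conj.comp (continuous_subtype_val.comp hstd.cont)
  have hnorm : ∀ (g : G K) (x : Adl K),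
      ‖Φ (T3.unip K x * g) * (starRingEnd ℂ) ((ψ x : Circle) : ℂ)‖ ≤ C := by
    intro g x
    rw [norm_mul, RCLike.norm_conj, Circle.norm_coe, mul_one]
    exact hC _
  constructor
  · unfold wh
    refine continuous_of_dominated (bound := fun _ => C) ?_ ?_ ?_ ?_
    · intro g
      refine Continuous.aestronglyMeasurable ?_
      exact (hΦ.comp ((continuous_unip264 K).mul continuous_const)).mul hψc
    · intro g
      exact Filter.Eventually.of_forall (hnorm g)
    · exact integrable_const C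
    · refine Filter.Eventually.of_forall (fun x => ?_)
      exact (hΦ.comp (continuous_const.mul continuous_id)).mul continuous_const
  · refine ⟨C * (ν D).toReal, fun g => ?_⟩
    unfold wh
    have h := norm_integral_le_of_norm_le_const (μ := ν.restrict D)
      (f := fun x => Φ (T3.unip K x * g) * (starRingEnd ℂ) ((ψ x : Circle) : ℂ)) (C := C)
      (Filter.Eventually.of_forall (hnorm g))
    simpa [Measure.real, Measure.restrict_apply_univ] using h

end Fermat.Agent.LT.T2.H264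

end

end
-- ===== PACK-END LT/T2/H264/WhCont.lean

-- ===== PACK-BEGIN LT/T2/H98/CharClass.lean
section




/-!
# Row LT, tower T2, sub-leaf T2.10.08.05 `CharClassC` (helper98): PROVED

A continuous character `χ : AddChar ℂ Circle` is `x ↦ exp (i Re (conj c * x))`
(`char_complex98`, Mathlib only).
-/

set_option autoImplicit false

noncomputable section

namespace Fermat.Agent.LT.T2.H98

/-- **T2.10.08.05 `CharClassC`.** -/
theorem charClassC98 : Fermat.Agent.LT.T2.H973.CharClassC := by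
  intro χ hχ
  obtain ⟨c, hc⟩ := char_complex98 (fun x : ℂ => ((χ x : Circle) : ℂ))
    (continuous_subtype_val.comp hχ)
    (fun x y => by
      show ((χ (x + y) : Circle) : ℂ) = ((χ x : Circle) : ℂ) * ((χ y : Circle) : ℂ)
      rw [AddChar.map_add_eq_mul, Circle.coe_mul])
    (fun x => Circle.norm_coe _)
  exact ⟨c, fun x => hc x⟩

end Fermat.Agent.LT.T2.H98

end

end
-- ===== PACK-END LT/T2/H98/CharClass.lean

-- ===== PACK-BEGIN LT/T2/H309/SphereCoord.lean
section



/-!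
# Row LT, tower T2, sub-leaf T2.10.08.06 = R1 `SphereCoordC` (helper309)

OFF-MAIN.  `sphereCoordC309 : Fermat.Agent.LT.T2.H973.SphereCoordC`, VERBATIM the Prop of
`T2/H973/ArchSpec.lean`, unconditional.

Iwasawa coordinates of the geodesic sphere.  With `c = cos (β/2)`, `σ = sin (β/2)`,
`E = e^{d/2}`, `E' = e^{-d/2}`, `ζ = e^{iα/2}`, `ζ' = e^{-iα/2}`:
`M = rotZ α * rotY β * torus d = [[ζ c E, -ζ σ E'], [ζ' σ E, ζ' c E']]`,
`D = cosh d - cos β sinh d = σ² E² + c² E'² > 0`, and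
`t(eˢ) M = n(X) t(eˢ / D) (√D) U`, `U = (√D)⁻¹ [[ζ c E', -ζ σ E], [ζ' σ E, ζ' c E']]` unitary,
`X = eˢ sin β sinh d / D · e^{iα}`.
-/

set_option autoImplicit false
set_option linter.unusedSimpArgs false

open Fermat.Agent.LT.H556.A0
open scoped ComplexConjugate

noncomputable section

namespace Fermat.Agent.LT.T2.H309

open Fermat.Agent.LT.T2.H973

theorem sphD_eq309 (β d : ℝ) :
    sphD β d = Real.sin (β / 2) ^ 2 * Real.exp (d / 2) ^ 2
      + Real.cos (β / 2) ^ 2 * Real.exp (-(d / 2)) ^ 2 := by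
  have h1 : Real.cos β = 2 * Real.cos (β / 2) ^ 2 - 1 := by
    rw [← Real.cos_two_mul]; congr 1; ring
  have h2 : Real.sin (β / 2) ^ 2 = 1 - Real.cos (β / 2) ^ 2 := by
    have := Real.cos_sq_add_sin_sq (β / 2); linarith
  have h3 : Real.exp d = Real.exp (d / 2) ^ 2 := by
    rw [sq, ← Real.exp_add]; congr 1; ring
  have h4 : Real.exp (-d) = Real.exp (-(d / 2)) ^ 2 := by
    rw [sq, ← Real.exp_add]; congr 1; ring
  rw [sphD, Real.cosh_eq, Real.sinh_eq, h1, h2, h3, h4]
  ring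

theorem sphD_pos309 (β d : ℝ) : 0 < sphD β d := by
  rw [sphD_eq309]
  have h1 := Real.cos_sq_add_sin_sq (β / 2)
  have hE : 0 < Real.exp (d / 2) ^ 2 := by positivity
  have hE' : 0 < Real.exp (-(d / 2)) ^ 2 := by positivity
  have hs : 0 ≤ Real.sin (β / 2) ^ 2 := sq_nonneg _
  have hc : 0 ≤ Real.cos (β / 2) ^ 2 := sq_nonneg _
  by_cases h : Real.sin (β / 2) ^ 2 = 0
  · have hc1 : Real.cos (β / 2) ^ 2 = 1 := by linarith
    rw [h, hc1]; linarith
  · have hs' : 0 < Real.sin (β / 2) ^ 2 := lt_of_le_of_ne hs (Ne.symm h)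
    have := mul_pos hs' hE
    have := mul_nonneg hc hE'.le
    linarith

theorem rot_mul309 (α β d : ℝ) :
    rotZ α * rotY β * torus d
      = !![Complex.exp (Complex.I * ((α / 2 : ℝ) : ℂ)) * ((Real.cos (β / 2) : ℝ) : ℂ)
              * ((Real.exp (d / 2) : ℝ) : ℂ),
            -(Complex.exp (Complex.I * ((α / 2 : ℝ) : ℂ)) * ((Real.sin (β / 2) : ℝ) : ℂ)
              * ((Real.exp (-(d / 2)) : ℝ) : ℂ));
          Complex.exp (-(Complex.I * ((α / 2 : ℝ) : ℂ))) * ((Real.sin (β / 2) : ℝ) : ℂ)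
              * ((Real.exp (d / 2) : ℝ) : ℂ),
            Complex.exp (-(Complex.I * ((α / 2 : ℝ) : ℂ))) * ((Real.cos (β / 2) : ℝ) : ℂ)
              * ((Real.exp (-(d / 2)) : ℝ) : ℂ)] := by
  ext i j
  fin_cases i <;> fin_cases j <;>
    simp [rotZ, rotY, torus, Matrix.mul_apply, Fin.sum_univ_two]

/-- The matrix `M = [[ζ c E, -ζ σ E'], [ζ' σ E, ζ' c E']]`. -/
def mGen309 (ζ ζ' : ℂ) (c σ E E' : ℝ) : Matrix (Fin 2) (Fin 2) ℂ :=
  !![ζ * (c : ℂ) * (E : ℂ), -(ζ * (σ : ℂ) * (E' : ℂ)); ζ' * (σ : ℂ) * (E : ℂ), ζ' * (c : ℂ) * (E' : ℂ)]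

/-- The matrix `N = [[ζ c E', -ζ σ E], [ζ' σ E, ζ' c E']]`. -/
def nGen309 (ζ ζ' : ℂ) (c σ E E' : ℝ) : Matrix (Fin 2) (Fin 2) ℂ :=
  !![ζ * (c : ℂ) * (E' : ℂ), -(ζ * (σ : ℂ) * (E : ℂ)); ζ' * (σ : ℂ) * (E : ℂ), ζ' * (c : ℂ) * (E' : ℂ)]

theorem nGen_mul_conjTranspose309 (ζ ζ' : ℂ) (c σ E E' : ℝ) (hζ : ζ * ζ' = 1)
    (hconj : conj ζ = ζ') :
    nGen309 ζ ζ' c σ E E' * (nGen309 ζ ζ' c σ E E').conjTranspose
      = Matrix.diagonal (fun _ => ((σ ^ 2 * E ^ 2 + c ^ 2 * E' ^ 2 : ℝ) : ℂ)) := by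
  have hconj' : conj ζ' = ζ := by rw [← hconj, Complex.conj_conj]
  ext i j
  fin_cases i <;> fin_cases j
  · simp [nGen309, Matrix.mul_apply, Fin.sum_univ_two, Matrix.conjTranspose_apply, map_mul,
      map_neg, hconj, hconj', Complex.conj_ofReal]
    linear_combination ((c : ℂ) ^ 2 * (E' : ℂ) ^ 2 + (σ : ℂ) ^ 2 * (E : ℂ) ^ 2) * hζ
  · simp [nGen309, Matrix.mul_apply, Fin.sum_univ_two, Matrix.conjTranspose_apply, map_mul,
      map_neg, hconj, hconj', Complex.conj_ofReal]
    ring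
  · simp [nGen309, Matrix.mul_apply, Fin.sum_univ_two, Matrix.conjTranspose_apply, map_mul,
      map_neg, hconj, hconj', Complex.conj_ofReal]
    ring
  · simp [nGen309, Matrix.mul_apply, Fin.sum_univ_two, Matrix.conjTranspose_apply, map_mul,
      map_neg, hconj, hconj', Complex.conj_ofReal]
    linear_combination ((c : ℂ) ^ 2 * (E' : ℂ) ^ 2 + (σ : ℂ) ^ 2 * (E : ℂ) ^ 2) * hζ

/-- The decomposition, as an identity of matrices. -/
theorem decomp309 (ζ ζ' : ℂ) (c σ E E' es D r : ℝ) (hζ : ζ * ζ' = 1)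
    (hcs : c ^ 2 + σ ^ 2 = 1) (hE : E * E' = 1) (hD : D = σ ^ 2 * E ^ 2 + c ^ 2 * E' ^ 2)
    (hD0 : D ≠ 0) (hr : r ≠ 0) :
    (!![(es : ℂ), 0; 0, 1] : Matrix (Fin 2) (Fin 2) ℂ) * mGen309 ζ ζ' c σ E E'
      = !![1, ((es * (2 * σ * c) * ((E ^ 2 - E' ^ 2) / 2) / D : ℝ) : ℂ) * ζ ^ 2; 0, 1]
        * (!![((es / D : ℝ) : ℂ), 0; 0, 1] * Matrix.diagonal (fun _ => (r : ℂ))
          * ((r : ℂ)⁻¹ • nGen309 ζ ζ' c σ E E')) := by
  have hrC : (r : ℂ) ≠ 0 := Complex.ofReal_ne_zero.mpr hr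
  have hDC : (D : ℂ) ≠ 0 := Complex.ofReal_ne_zero.mpr hD0
  have hcsC : (c : ℂ) ^ 2 + (σ : ℂ) ^ 2 = 1 := by exact_mod_cast hcs
  have hEC : (E : ℂ) * (E' : ℂ) = 1 := by exact_mod_cast hE
  have hDC' : (D : ℂ) = (σ : ℂ) ^ 2 * (E : ℂ) ^ 2 + (c : ℂ) ^ 2 * (E' : ℂ) ^ 2 := by
    exact_mod_cast hD
  have key1 : (es : ℂ) * ζ * c * E * D
      = es * ζ * c * E' + es * σ ^ 2 * c * ((E : ℂ) ^ 2 - (E' : ℂ) ^ 2) * ζ ^ 2 * ζ' * E := by
    rw [hDC']
    linear_combination ((es : ℂ) * ζ * c * E' ^ 2 * E) * hcsC + ((es : ℂ) * ζ * c * E') * hEC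
      - ((es : ℂ) * σ ^ 2 * c * ((E : ℂ) ^ 2 - (E' : ℂ) ^ 2) * E * ζ) * hζ
  have key2 : (es : ℂ) * ζ * σ * E' * D
      = es * ζ * σ * E - es * σ * c ^ 2 * ((E : ℂ) ^ 2 - (E' : ℂ) ^ 2) * ζ ^ 2 * ζ' * E' := by
    rw [hDC']
    linear_combination ((es : ℂ) * ζ * σ * E ^ 2 * E') * hcsC + ((es : ℂ) * ζ * σ * E) * hEC
      + ((es : ℂ) * σ * c ^ 2 * ((E : ℂ) ^ 2 - (E' : ℂ) ^ 2) * E' * ζ) * hζ
  ext i j
  fin_cases i <;> fin_cases j
  · simp [mGen309, nGen309, Matrix.mul_apply, Fin.sum_univ_two, Matrix.diagonal_apply]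
    field_simp
    linear_combination key1
  · simp [mGen309, nGen309, Matrix.mul_apply, Fin.sum_univ_two, Matrix.diagonal_apply]
    field_simp
    linear_combination (-1) * key2
  · simp [mGen309, nGen309, Matrix.mul_apply, Fin.sum_univ_two, Matrix.diagonal_apply]
    field_simp
  · simp [mGen309, nGen309, Matrix.mul_apply, Fin.sum_univ_two, Matrix.diagonal_apply]
    field_simp

/-- The scalar matrix `r` of `GL₂(ℂ)`. -/
def zS309 (r : ℝ) (hr : r ≠ 0) : GL (Fin 2) ℂ :=
  ⟨Matrix.diagonal (fun _ => (r : ℂ)), Matrix.diagonal (fun _ => ((r : ℂ))⁻¹),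
    by
      have h : (r : ℂ) ≠ 0 := Complex.ofReal_ne_zero.mpr hr
      rw [Matrix.diagonal_mul_diagonal]
      simp [h, ← Matrix.diagonal_one],
    by
      have h : (r : ℂ) ≠ 0 := Complex.ofReal_ne_zero.mpr hr
      rw [Matrix.diagonal_mul_diagonal]
      simp [h, ← Matrix.diagonal_one]⟩

theorem conj_zeta309 (t : ℝ) :
    conj (Complex.exp (Complex.I * (t : ℂ))) = Complex.exp (-(Complex.I * (t : ℂ))) := by
  rw [← Complex.exp_conj]
  congr 1
  simp

/-- **R1 `SphereCoordC`**, verbatim. -/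
theorem sphereCoordC309 : SphereCoordC := by
  intro χ f hN hU hZ s α β d Y hY
  have hDpos := sphD_pos309 β d
  have hD0 : sphD β d ≠ 0 := hDpos.ne'
  have hDeq := sphD_eq309 β d
  have hζ : Complex.exp (Complex.I * ((α / 2 : ℝ) : ℂ))
      * Complex.exp (-(Complex.I * ((α / 2 : ℝ) : ℂ))) = 1 := by
    rw [← Complex.exp_add]; simp
  have hconj := conj_zeta309 (α / 2)
  have hcs : Real.cos (β / 2) ^ 2 + Real.sin (β / 2) ^ 2 = 1 := Real.cos_sq_add_sin_sq _
  have hE : Real.exp (d / 2) * Real.exp (-(d / 2)) = 1 := by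
    rw [← Real.exp_add]; simp
  have hrpos : 0 < Real.sqrt (sphD β d) := Real.sqrt_pos.mpr hDpos
  have hr0 : Real.sqrt (sphD β d) ≠ 0 := hrpos.ne'
  have hrC : ((Real.sqrt (sphD β d) : ℝ) : ℂ) ≠ 0 := Complex.ofReal_ne_zero.mpr hr0
  have hrr : ((Real.sqrt (sphD β d) : ℝ) : ℂ) * ((Real.sqrt (sphD β d) : ℝ) : ℂ)
      = ((sphD β d : ℝ) : ℂ) := by
    exact_mod_cast Real.mul_self_sqrt hDpos.le
  -- the unitary factor
  have hUU : (((Real.sqrt (sphD β d) : ℝ) : ℂ)⁻¹ •
        nGen309 (Complex.exp (Complex.I * ((α / 2 : ℝ) : ℂ)))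
          (Complex.exp (-(Complex.I * ((α / 2 : ℝ) : ℂ))))
          (Real.cos (β / 2)) (Real.sin (β / 2)) (Real.exp (d / 2)) (Real.exp (-(d / 2))))
      * (((Real.sqrt (sphD β d) : ℝ) : ℂ)⁻¹ •
        nGen309 (Complex.exp (Complex.I * ((α / 2 : ℝ) : ℂ)))
          (Complex.exp (-(Complex.I * ((α / 2 : ℝ) : ℂ))))
          (Real.cos (β / 2)) (Real.sin (β / 2)) (Real.exp (d / 2))
          (Real.exp (-(d / 2)))).conjTranspose = 1 := by
    rw [Matrix.conjTranspose_smul, Matrix.smul_mul, Matrix.mul_smul,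
      nGen_mul_conjTranspose309 _ _ _ _ _ _ hζ hconj, ← hDeq, ← hrr]
    ext i j
    by_cases hij : i = j
    · subst hij
      simp only [Matrix.smul_apply, Matrix.diagonal_apply_eq, Matrix.one_apply_eq, smul_eq_mul,
        star_inv₀, RCLike.star_def, Complex.conj_ofReal]
      field_simp
    · simp [Matrix.diagonal_apply_ne _ hij, Matrix.one_apply_ne hij]
  let U : GL (Fin 2) ℂ := ⟨_, _, hUU, mul_eq_one_comm.mp hUU⟩
  have hexp : Real.exp (s - Real.log (sphD β d)) = Real.exp s / sphD β d := by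
    rw [Real.exp_sub, Real.exp_log hDpos]
  have hsin : Real.sin β = 2 * Real.sin (β / 2) * Real.cos (β / 2) := by
    rw [← Real.sin_two_mul]; congr 1; ring
  have hsinh : Real.sinh d = (Real.exp (d / 2) ^ 2 - Real.exp (-(d / 2)) ^ 2) / 2 := by
    have h3 : Real.exp d = Real.exp (d / 2) ^ 2 := by
      rw [sq, ← Real.exp_add]; congr 1; ring
    have h4 : Real.exp (-d) = Real.exp (-(d / 2)) ^ 2 := by
      rw [sq, ← Real.exp_add]; congr 1; ring
    rw [Real.sinh_eq, h3, h4]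
  have hz2 : Complex.exp (Complex.I * (α : ℂ))
      = Complex.exp (Complex.I * ((α / 2 : ℝ) : ℂ)) ^ 2 := by
    rw [sq, ← Complex.exp_add]; congr 1; push_cast; ring
  have hX : ((Real.exp s * Real.sin β * Real.sinh d / sphD β d : ℝ) : ℂ)
        * Complex.exp (Complex.I * (α : ℂ))
      = ((Real.exp s * (2 * Real.sin (β / 2) * Real.cos (β / 2))
          * ((Real.exp (d / 2) ^ 2 - Real.exp (-(d / 2)) ^ 2) / 2) / sphD β d : ℝ) : ℂ)
        * Complex.exp (Complex.I * ((α / 2 : ℝ) : ℂ)) ^ 2 := by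
    rw [hz2, hsin, hsinh]
  have key : tE s * Y
      = nC (((Real.exp s * Real.sin β * Real.sinh d / sphD β d : ℝ) : ℂ)
          * Complex.exp (Complex.I * (α : ℂ)))
        * (tE (s - Real.log (sphD β d)) * zS309 (Real.sqrt (sphD β d)) hr0 * U) := by
    apply Units.ext
    have e1 : ((tE s : GL (Fin 2) ℂ) : Matrix (Fin 2) (Fin 2) ℂ)
        = !![((Real.exp s : ℝ) : ℂ), 0; 0, 1] := rfl
    have e2 : ((tE (s - Real.log (sphD β d)) : GL (Fin 2) ℂ) : Matrix (Fin 2) (Fin 2) ℂ)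
        = !![((Real.exp s / sphD β d : ℝ) : ℂ), 0; 0, 1] := by
      rw [← hexp]; rfl
    rw [Units.val_mul, Units.val_mul, Units.val_mul, Units.val_mul, hY, rot_mul309, e1, e2, hX]
    exact decomp309 _ _ _ _ _ _ _ _ _ hζ hcs hE hDeq hD0 hr0
  rw [key, hN, hU U _ hUU, hZ (zS309 (Real.sqrt (sphD β d)) hr0) _ (Real.sqrt (sphD β d)) hrpos rfl]

end Fermat.Agent.LT.T2.H309

end

end
-- ===== PACK-END LT/T2/H309/SphereCoord.lean

-- ===== PACK-BEGIN LT/T2/H944/BetaForm.lean
section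


/-!
# Row LT, tower T2, sub-leaf T2.10.08.07 `BetaFormC` (helper944) -- OFF-MAIN

`betaFormC944 : Fermat.Agent.LT.T2.H973.BetaFormC` (UNCONDITIONAL: `SphereCoordC` is the hypothesis
of the Prop), VERBATIM against `LT/T2/H973/ArchSpec.lean` of helper973 (sha256 6e234a4a0ea7).

Proof: the mean value property of `f` at `h = t(eˢ)` for the family
`Y α β = rotZ α * rotY β * torus d` (an element of `GL₂(ℂ)`: the determinant is `1`), `R1` under
the integral, Fubini on the rectangle `[0, 2π] × [0, π]` (the integrand is continuous in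
`(α, β)`), and `∫₀^{2π} χ(ρ e^{iα}) dα = 2π J(|c| ρ)` (`Re(c̄ ρ e^{iα}) = |c| ρ cos(α - arg c)`,
periodicity).
-/

set_option autoImplicit false

open MeasureTheory
open Fermat.Agent.LT.H556.A0
open scoped ComplexConjugate

noncomputable section

namespace Fermat.Agent.LT.T2.H973

/-! ## 1. Continuity of `s ↦ t(eˢ)` -/

theorem continuous_tE944 : Continuous tE := by
  rw [Units.continuous_iff]
  constructor
  · have h : (Units.val ∘ tE) = fun s : ℝ =>
        (!![((Real.exp s : ℝ) : ℂ), 0; 0, 1] : Matrix (Fin 2) (Fin 2) ℂ) := by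
      funext s; rfl
    rw [h]
    refine continuous_matrix (fun i j => ?_)
    fin_cases i <;> fin_cases j
    · exact Complex.continuous_ofReal.comp Real.continuous_exp
    · exact continuous_const
    · exact continuous_const
    · exact continuous_const
  · have h : (fun s : ℝ => (((tE s)⁻¹ : GL (Fin 2) ℂ) : Matrix (Fin 2) (Fin 2) ℂ))
        = fun s : ℝ =>
          (!![(((Real.exp s : ℝ) : ℂ))⁻¹, 0; 0, 1] : Matrix (Fin 2) (Fin 2) ℂ) := by
      funext s
      show (!![(((expU s)⁻¹ : ℂˣ) : ℂ), 0; 0, 1] : Matrix (Fin 2) (Fin 2) ℂ) = _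
      rw [Units.val_inv_eq_inv_val]
      rfl
    rw [h]
    refine continuous_matrix (fun i j => ?_)
    fin_cases i <;> fin_cases j
    · exact (Complex.continuous_ofReal.comp Real.continuous_exp).inv₀
        (fun s => by
          simp only [Function.comp_apply, ne_eq, Complex.ofReal_eq_zero]
          exact (Real.exp_pos s).ne')
    · exact continuous_const
    · exact continuous_const
    · exact continuous_const

/-! ## 2. The family `Y` -/

theorem det_rotZ944 (α : ℝ) : (rotZ α).det = 1 := by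
  unfold rotZ
  rw [Matrix.det_fin_two_of, ← Complex.exp_add]
  simp

theorem det_rotY944 (β : ℝ) : (rotY β).det = 1 := by
  unfold rotY
  rw [Matrix.det_fin_two_of]
  have h := Real.cos_sq_add_sin_sq (β / 2)
  have h' : ((Real.cos (β / 2) : ℝ) : ℂ) ^ 2 + ((Real.sin (β / 2) : ℝ) : ℂ) ^ 2 = 1 := by
    exact_mod_cast h
  linear_combination h'

theorem det_torus944 (d : ℝ) : (torus d).det = 1 := by
  unfold torus
  rw [Matrix.det_fin_two_of]
  have h : Real.exp (d / 2) * Real.exp (-(d / 2)) = 1 := by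
    rw [← Real.exp_add]; simp
  have h' : ((Real.exp (d / 2) : ℝ) : ℂ) * ((Real.exp (-(d / 2)) : ℝ) : ℂ) = 1 := by
    exact_mod_cast h
  linear_combination h'

theorem det_sphere944 (α β d : ℝ) : (rotZ α * rotY β * torus d).det ≠ 0 := by
  rw [Matrix.det_mul, Matrix.det_mul, det_rotZ944, det_rotY944, det_torus944]
  simp

/-- The point `k(α, β) a_d` of the geodesic sphere, as an element of `GL₂(ℂ)`. -/
def sphereY944 (d α β : ℝ) : GL (Fin 2) ℂ :=
  Matrix.GeneralLinearGroup.mkOfDetNeZero (rotZ α * rotY β * torus d) (det_sphere944 α β d)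

theorem sphereY944_coe (d α β : ℝ) :
    (sphereY944 d α β : Matrix (Fin 2) (Fin 2) ℂ) = rotZ α * rotY β * torus d := rfl

/-! ## 3. The integral over `α` -/

theorem continuous_chiOf944 (c : ℂ) : Continuous (chiOf c) := by
  unfold chiOf
  exact Complex.continuous_exp.comp (continuous_const.mul
    (Complex.continuous_ofReal.comp (Complex.continuous_re.comp
      (continuous_const.mul continuous_id))))

theorem chiOf_polar944 (c : ℂ) (ρ α : ℝ) :
    chiOf c (((ρ : ℝ) : ℂ) * Complex.exp (Complex.I * (α : ℂ)))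
      = Complex.exp (Complex.I *
          ((‖c‖ * ρ * Real.cos (α - Complex.arg c) : ℝ) : ℂ)) := by
  unfold chiOf
  have hre : (Complex.exp (Complex.I * (α : ℂ))).re = Real.cos α := by
    rw [mul_comm]; exact Complex.exp_ofReal_mul_I_re α
  have him : (Complex.exp (Complex.I * (α : ℂ))).im = Real.sin α := by
    rw [mul_comm]; exact Complex.exp_ofReal_mul_I_im α
  have h1 : (conj c * (((ρ : ℝ) : ℂ) * Complex.exp (Complex.I * (α : ℂ)))).re
      = ‖c‖ * ρ * Real.cos (α - Complex.arg c) := by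
    have e1 : (conj c * (((ρ : ℝ) : ℂ) * Complex.exp (Complex.I * (α : ℂ)))).re
        = ρ * (c.re * Real.cos α + c.im * Real.sin α) := by
      simp only [Complex.mul_re, Complex.mul_im, Complex.conj_re, Complex.conj_im,
        Complex.ofReal_re, Complex.ofReal_im, hre, him]
      ring
    rw [e1, Real.cos_sub, ← Complex.norm_mul_cos_arg c, ← Complex.norm_mul_sin_arg c]
    ring
  rw [h1]

theorem integral_chiOf944 (c : ℂ) (ρ : ℝ) :
    (∫ α in (0 : ℝ)..(2 * Real.pi),
        chiOf c (((ρ : ℝ) : ℂ) * Complex.exp (Complex.I * (α : ℂ))))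
      = ((2 * Real.pi : ℝ) : ℂ) * besJ (‖c‖ * ρ) := by
  set g : ℝ → ℂ := fun α =>
    Complex.exp (Complex.I * ((‖c‖ * ρ * Real.cos α : ℝ) : ℂ)) with hg
  have hper : Function.Periodic g (2 * Real.pi) := by
    intro α
    simp only [hg, Real.cos_add_two_pi]
  have h1 : (∫ α in (0 : ℝ)..(2 * Real.pi),
        chiOf c (((ρ : ℝ) : ℂ) * Complex.exp (Complex.I * (α : ℂ))))
      = ∫ α in (0 : ℝ)..(2 * Real.pi), g (α - Complex.arg c) := by
    apply intervalIntegral.integral_congr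
    intro α _
    exact chiOf_polar944 c ρ α
  have h2 : (∫ α in (0 : ℝ)..(2 * Real.pi), g (α - Complex.arg c))
      = ∫ α in (0 : ℝ)..(2 * Real.pi), g α := by
    rw [intervalIntegral.integral_comp_sub_right]
    have e : (2 * Real.pi - Complex.arg c) = (0 - Complex.arg c) + 2 * Real.pi := by ring
    rw [e, hper.intervalIntegral_add_eq (0 - Complex.arg c) 0, zero_add]
  have h2pi : ((2 * Real.pi : ℝ) : ℂ) ≠ 0 := by
    rw [Ne, Complex.ofReal_eq_zero]
    exact (mul_pos two_pos Real.pi_pos).ne'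
  rw [h1, h2]
  unfold besJ
  rw [← mul_assoc, mul_inv_cancel₀ h2pi, one_mul]

/-! ## 4. The leaf -/

theorem sphD_pos944 (β d : ℝ) : 0 < sphD β d := by
  unfold sphD
  have h1 : Real.cos β * Real.sinh d ≤ |Real.sinh d| := by
    calc Real.cos β * Real.sinh d ≤ |Real.cos β * Real.sinh d| := le_abs_self _
      _ = |Real.cos β| * |Real.sinh d| := abs_mul _ _
      _ ≤ 1 * |Real.sinh d| :=
        mul_le_mul_of_nonneg_right (Real.abs_cos_le_one β) (abs_nonneg _)
      _ = |Real.sinh d| := one_mul _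
  have h2 : |Real.sinh d| < Real.cosh d := by
    rw [abs_lt]
    constructor
    · have := Real.cosh_add_sinh d
      have h3 := Real.exp_pos d
      linarith
    · have := Real.cosh_sub_sinh d
      have h3 := Real.exp_pos (-d)
      linarith
  linarith

theorem continuous_sphD944 (d : ℝ) : Continuous (fun β : ℝ => sphD β d) := by
  unfold sphD
  exact continuous_const.sub (Real.continuous_cos.mul continuous_const)

/-- **T2.10.08.07 `BetaFormC`.** -/
theorem betaFormC944 : BetaFormC := by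
  intro hSC c χ f hχ hf
  have hF : Continuous (fun s : ℝ => f (tE s)) := hf.cont.comp continuous_tE944
  refine ⟨hF, ?_⟩
  intro s d hd
  -- the mean value property at `t(eˢ)`
  have hmean := hf.mean d hd (sphereY944 d) (fun α β => sphereY944_coe d α β) (tE s)
  -- R1 under the integral
  set ρ : ℝ → ℝ := fun β => Real.exp s * Real.sin β * Real.sinh d / sphD β d with hρ
  set G : ℝ → ℝ → ℂ := fun α β =>
    chiOf c (((ρ β : ℝ) : ℂ) * Complex.exp (Complex.I * (α : ℂ)))
      * (f (tE (s - Real.log (sphD β d))) * ((Real.sin β : ℝ) : ℂ)) with hG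
  have hint : ∀ α β : ℝ,
      f (tE s * sphereY944 d α β) * ((Real.sin β : ℝ) : ℂ) = G α β := by
    intro α β
    rw [hSC χ f hf.equiv hf.unitary hf.scalar s α β d (sphereY944 d α β)
      (sphereY944_coe d α β), hχ]
    simp only [hG, hρ]
    ring
  simp only [hint] at hmean
  -- continuity of the integrand on the rectangle
  have hρc : Continuous ρ :=
    ((continuous_const.mul Real.continuous_sin).mul continuous_const).div
      (continuous_sphD944 d) (fun β => (sphD_pos944 β d).ne')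
  have hlog : Continuous (fun β : ℝ => s - Real.log (sphD β d)) :=
    continuous_const.sub ((continuous_sphD944 d).log (fun β => (sphD_pos944 β d).ne'))
  have hGc : Continuous (Function.uncurry G) := by
    have h1 : Continuous (fun p : ℝ × ℝ =>
        chiOf c (((ρ p.2 : ℝ) : ℂ) * Complex.exp (Complex.I * ((p.1 : ℝ) : ℂ)))) :=
      (continuous_chiOf944 c).comp
        ((Complex.continuous_ofReal.comp (hρc.comp continuous_snd)).mul
          (Complex.continuous_exp.comp
            (continuous_const.mul (Complex.continuous_ofReal.comp continuous_fst))))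
    have h2 : Continuous (fun p : ℝ × ℝ =>
        f (tE (s - Real.log (sphD p.2 d))) * ((Real.sin p.2 : ℝ) : ℂ)) :=
      ((hF.comp hlog).comp continuous_snd).mul
        (Complex.continuous_ofReal.comp (Real.continuous_sin.comp continuous_snd))
    exact h1.mul h2
  -- Fubini
  have h2pi : (0 : ℝ) ≤ 2 * Real.pi := (mul_pos two_pos Real.pi_pos).le
  have hpi : (0 : ℝ) ≤ Real.pi := Real.pi_pos.le
  have hswap : (∫ α in (0 : ℝ)..(2 * Real.pi), ∫ β in (0 : ℝ)..Real.pi, G α β)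
      = ∫ β in (0 : ℝ)..Real.pi, ∫ α in (0 : ℝ)..(2 * Real.pi), G α β := by
    simp only [intervalIntegral.integral_of_le h2pi, intervalIntegral.integral_of_le hpi]
    apply integral_integral_swap
    rw [Measure.prod_restrict]
    exact (hGc.continuousOn.integrableOn_compact
      (isCompact_Icc.prod isCompact_Icc)).mono_set
        (Set.prod_mono Set.Ioc_subset_Icc_self Set.Ioc_subset_Icc_self)
  rw [hswap] at hmean
  -- the integral over `α`
  have hinner : ∀ β : ℝ, (∫ α in (0 : ℝ)..(2 * Real.pi), G α β)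
      = ((2 * Real.pi : ℝ) : ℂ) *
        (besJ (‖c‖ * Real.exp s * Real.sin β * Real.sinh d / sphD β d)
          * f (tE (s - Real.log (sphD β d))) * ((Real.sin β : ℝ) : ℂ)) := by
    intro β
    simp only [hG]
    rw [intervalIntegral.integral_mul_const, integral_chiOf944]
    have e : ‖c‖ * ρ β = ‖c‖ * Real.exp s * Real.sin β * Real.sinh d / sphD β d := by
      simp only [hρ]; ring
    rw [e]
    ring
  simp only [hinner] at hmean
  rw [intervalIntegral.integral_const_mul] at hmean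
  have h2pi' : ((2 * Real.pi : ℝ) : ℂ) ≠ 0 := by
    rw [Ne, Complex.ofReal_eq_zero]
    exact (mul_pos two_pos Real.pi_pos).ne'
  have e4 : ((4 * Real.pi * (d / Real.sinh d) : ℝ) : ℂ)
      = ((2 * Real.pi : ℝ) : ℂ) * ((2 * (d / Real.sinh d) : ℝ) : ℂ) := by
    push_cast; ring
  rw [e4, mul_assoc] at hmean
  exact mul_left_cancel₀ h2pi' hmean

end Fermat.Agent.LT.T2.H973

end

end
-- ===== PACK-END LT/T2/H944/BetaForm.lean

-- ===== PACK-BEGIN LT/T2/H864/OdeUniq.lean
section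



/-!
# Row LT, tower T2, leaf T2.10.08.11 `OdeUniqC` (registry 1209): PROVED (helper864)

OFF-MAIN.  `odeUniqC864 : Fermat.Agent.LT.T2.H973.OdeUniqC`, VERBATIM against
`LT/T2/H973/ArchSpec.lean` (helper973, sha256 6e234a4a0ea7, byte-identical copy).
The proof is `ode_uniq_core864` (`OdeCore.lean`, Mathlib only).
-/

set_option autoImplicit false

namespace Fermat.Agent.LT.T2.H864

/-- **L5 = `H973.OdeUniqC`.** -/
theorem odeUniqC864 : Fermat.Agent.LT.T2.H973.OdeUniqC := by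
  intro k h hdec hzero
  obtain ⟨⟨h', hh, hh'⟩, hlim⟩ := hdec
  obtain ⟨s₀, h0⟩ := hzero
  exact ode_uniq_core864 k h h' hh hh' hlim h0

end Fermat.Agent.LT.T2.H864

end
-- ===== PACK-END LT/T2/H864/OdeUniq.lean

-- ===== PACK-BEGIN LT/T3/H245/PureRegB.lean
section


/-!
# Row LT, tower T3, leaf T3.18a.3 `PureRegC` (helper245), part B: groups and topology

OFF-MAIN.  The local congruence subgroup `U(𝔫)_v`, the subgroup `OutsideU` of `GL₂(𝔸_K)` (open,
hence closed), continuity of the components `finGL`, `infGL`, continuity of a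
bi-`GL₂(𝒪_v)`-invariant function, continuity of the pure tensor.
-/

set_option autoImplicit false

open IsDedekindDomain NumberField MeasureTheory
open Fermat.Agent.LT.H556.A0
open scoped RestrictedProduct

noncomputable section

namespace Fermat.Agent.LT.T3.H245

variable {K : Type} [Field K] [NumberField K]

/-! ## Continuity of the components -/

theorem continuous_finHom245 (v : HeightOneSpectrum (𝓞 K)) : Continuous (AS.finHom K v) := by
  have h : Continuous (fun x : InfiniteAdeleRing K × FiniteAdeleRing (𝓞 K) K => x.2 v) :=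
    (RestrictedProduct.continuous_eval v).comp continuous_snd
  exact h

theorem continuous_infHom245 (w : InfinitePlace K) : Continuous (AS.infHom K w) := by
  have h : Continuous (fun x : InfiniteAdeleRing K × FiniteAdeleRing (𝓞 K) K =>
      InfinitePlace.Completion.extensionEmbedding w (x.1 w)) :=
    (InfinitePlace.Completion.isometry_extensionEmbedding w).continuous.comp
      ((continuous_apply w).comp continuous_fst)
  exact h

theorem continuous_finGL245 (v : HeightOneSpectrum (𝓞 K)) : Continuous (AS.finGL K v) := by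
  refine Continuous.units_map _ ?_
  exact Continuous.matrix_map continuous_id (continuous_finHom245 v)

theorem continuous_infGL245 (w : InfinitePlace K) : Continuous (AS.infGL K w) := by
  refine Continuous.units_map _ ?_
  exact Continuous.matrix_map continuous_id (continuous_infHom245 w)

/-! ## `GL₂(𝒪_v)` -/

theorem isIntGL_one245 (v : HeightOneSpectrum (𝓞 K)) :
    AS.IsIntGL v (1 : GL (Fin 2) (v.adicCompletion K)) := by
  intro i j
  rw [inv_one, Units.val_one, Matrix.one_apply]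
  split_ifs
  · exact ⟨one_mem _, one_mem _⟩
  · exact ⟨zero_mem _, zero_mem _⟩

theorem isOpen_isIntGL245 (v : HeightOneSpectrum (𝓞 K)) :
    IsOpen {g : GL (Fin 2) (v.adicCompletion K) | AS.IsIntGL v g} := by
  have hO : IsOpen (v.adicCompletionIntegers K : Set (v.adicCompletion K)) :=
    Valued.isOpen_valuationSubring _
  have e : {g : GL (Fin 2) (v.adicCompletion K) | AS.IsIntGL v g}
      = ⋂ i : Fin 2, ⋂ j : Fin 2,
        ((fun g : GL (Fin 2) (v.adicCompletion K) =>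
            (g : Matrix (Fin 2) (Fin 2) (v.adicCompletion K)) i j) ⁻¹'
            (v.adicCompletionIntegers K : Set (v.adicCompletion K))
          ∩ (fun g : GL (Fin 2) (v.adicCompletion K) =>
            ((g⁻¹ : GL (Fin 2) (v.adicCompletion K)) :
              Matrix (Fin 2) (Fin 2) (v.adicCompletion K)) i j) ⁻¹'
            (v.adicCompletionIntegers K : Set (v.adicCompletion K))) := by
    ext g
    simp only [Set.mem_ofPred_eq, Set.mem_iInter, Set.mem_inter_iff, Set.mem_preimage,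
      SetLike.mem_coe]
    exact Iff.rfl
  rw [e]
  exact isOpen_iInter_of_finite fun i => isOpen_iInter_of_finite fun j =>
    (hO.preimage (Units.continuous_val.matrix_elem i j)).inter
      (hO.preimage ((Units.continuous_val.comp continuous_inv).matrix_elem i j))

/-- A bi-`GL₂(𝒪_v)`-invariant function is locally constant. -/
theorem continuous_of_biIntInv245 {v : HeightOneSpectrum (𝓞 K)}
    {f₀ : GL (Fin 2) (v.adicCompletion K) → ℂ} (h : AS.IsBiIntInv v f₀) : Continuous f₀ := by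
  refine ((IsLocallyConstant.iff_exists_open f₀).2 ?_).continuous
  intro g
  refine ⟨(fun g' => g⁻¹ * g') ⁻¹' {k | AS.IsIntGL v k},
    (isOpen_isIntGL245 v).preimage (continuous_const.mul continuous_id), ?_, ?_⟩
  · show AS.IsIntGL v (g⁻¹ * g)
    rw [inv_mul_cancel]
    exact isIntGL_one245 v
  · intro g' hg'
    have := h 1 (g⁻¹ * g') g (isIntGL_one245 v) hg'
    rw [one_mul, mul_inv_cancel_left] at this
    exact this

/-! ## The local congruence subgroup -/

theorem sub_one_mul245 {R : Type*} [Ring R] (A B : Matrix (Fin 2) (Fin 2) R) :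
    A * B - 1 = (A - 1) * (B - 1) + (A - 1) + (B - 1) := by
  noncomm_ring

theorem locU_mul_aux245 (𝔫 : Ideal (𝓞 K)) (v : HeightOneSpectrum (𝓞 K))
    {A B : Matrix (Fin 2) (Fin 2) (v.adicCompletion K)}
    (hA : ∀ i j, (A - 1) i j ∈ idealClosure 𝔫 v) (hB : ∀ i j, (B - 1) i j ∈ idealClosure 𝔫 v) :
    ∀ i j, (A * B - 1) i j ∈ idealClosure 𝔫 v := by
  intro i j
  rw [sub_one_mul245, Matrix.add_apply, Matrix.add_apply, Matrix.mul_apply, Fin.sum_univ_two]
  exact add_mem_idealClosure245 _ _ (add_mem_idealClosure245 _ _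
    (add_mem_idealClosure245 _ _ (mul_mem_idealClosure245' _ _ (hA i 0) (hB 0 j))
      (mul_mem_idealClosure245' _ _ (hA i 1) (hB 1 j))) (hA i j)) (hB i j)

/-- The local congruence subgroup `U(𝔫)_v ⊆ GL₂(K_v)`. -/
def locU245 (𝔫 : Ideal (𝓞 K)) (v : HeightOneSpectrum (𝓞 K)) :
    Subgroup (GL (Fin 2) (v.adicCompletion K)) where
  carrier := {g | ∀ i j : Fin 2,
    ((g : Matrix (Fin 2) (Fin 2) (v.adicCompletion K)) - 1) i j ∈ idealClosure 𝔫 v ∧
    (((g⁻¹ : GL (Fin 2) (v.adicCompletion K)) :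
      Matrix (Fin 2) (Fin 2) (v.adicCompletion K)) - 1) i j ∈ idealClosure 𝔫 v}
  mul_mem' := by
    intro a b ha hb i j
    refine ⟨?_, ?_⟩
    · have := locU_mul_aux245 𝔫 v (fun i j => (ha i j).1) (fun i j => (hb i j).1) i j
      rw [Units.val_mul]
      exact this
    · have := locU_mul_aux245 𝔫 v (fun i j => (hb i j).2) (fun i j => (ha i j).2) i j
      rw [mul_inv_rev, Units.val_mul]
      exact this
  one_mem' := by
    intro i j
    rw [inv_one, Units.val_one, sub_self]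
    exact ⟨zero_mem_idealClosure245 𝔫 v, zero_mem_idealClosure245 𝔫 v⟩
  inv_mem' := by
    intro a ha i j
    refine ⟨(ha i j).2, ?_⟩
    rw [inv_inv]
    exact (ha i j).1

theorem mem_locU245 {𝔫 : Ideal (𝓞 K)} {v : HeightOneSpectrum (𝓞 K)}
    {g : GL (Fin 2) (v.adicCompletion K)} :
    g ∈ locU245 𝔫 v ↔ ∀ i j : Fin 2,
      ((g : Matrix (Fin 2) (Fin 2) (v.adicCompletion K)) - 1) i j ∈ idealClosure 𝔫 v ∧
      (((g⁻¹ : GL (Fin 2) (v.adicCompletion K)) :
        Matrix (Fin 2) (Fin 2) (v.adicCompletion K)) - 1) i j ∈ idealClosure 𝔫 v :=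
  Iff.rfl

/-- `U(𝔫)_v ⊆ GL₂(𝒪_v)`. -/
theorem isIntGL_of_mem_locU245 {𝔫 : Ideal (𝓞 K)} {v : HeightOneSpectrum (𝓞 K)}
    {g : GL (Fin 2) (v.adicCompletion K)} (hg : g ∈ locU245 𝔫 v) : AS.IsIntGL v g := by
  have key : ∀ (A : Matrix (Fin 2) (Fin 2) (v.adicCompletion K)) (i j : Fin 2),
      (A - 1) i j ∈ idealClosure 𝔫 v → A i j ∈ v.adicCompletionIntegers K := by
    intro A i j h
    have h1 : (A - 1) i j ∈ v.adicCompletionIntegers K := idealClosure_subset245 𝔫 v h
    have h2 : (1 : Matrix (Fin 2) (Fin 2) (v.adicCompletion K)) i j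
        ∈ v.adicCompletionIntegers K := by
      rw [Matrix.one_apply]
      split_ifs
      · exact one_mem _
      · exact zero_mem _
    have : A i j = (A - 1) i j + (1 : Matrix (Fin 2) (Fin 2) (v.adicCompletion K)) i j := by
      rw [Matrix.sub_apply, sub_add_cancel]
    rw [this]
    exact add_mem h1 h2
  intro i j
  exact ⟨key _ i j (hg i j).1, key _ i j (hg i j).2⟩

/-- `U(𝔫)_v = GL₂(𝒪_v)` when `v ∤ 𝔫`. -/
theorem mem_locU_of_isIntGL245 {𝔫 : Ideal (𝓞 K)} {v : HeightOneSpectrum (𝓞 K)}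
    (hv : ¬ v.asIdeal ∣ 𝔫) {g : GL (Fin 2) (v.adicCompletion K)} (hg : AS.IsIntGL v g) :
    g ∈ locU245 𝔫 v := by
  have key : ∀ (A : Matrix (Fin 2) (Fin 2) (v.adicCompletion K)) (i j : Fin 2),
      A i j ∈ v.adicCompletionIntegers K → (A - 1) i j ∈ idealClosure 𝔫 v := by
    intro A i j h
    rw [idealClosure_eq_integers245 𝔫 v hv, Matrix.sub_apply, Matrix.one_apply]
    split_ifs
    · exact sub_mem h (one_mem _)
    · exact sub_mem h (zero_mem _)
  intro i j
  exact ⟨key _ i j (hg i j).1, key _ i j (hg i j).2⟩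

/-! ## The subgroup `OutsideU` -/

theorem outsideU_iff245 {𝔫 : Ideal (𝓞 K)} {v₀ : HeightOneSpectrum (𝓞 K)} {h : G K} :
    AS.OutsideU K 𝔫 v₀ h ↔ ∀ v : HeightOneSpectrum (𝓞 K), v ≠ v₀ →
      AS.finGL K v h ∈ locU245 𝔫 v := by
  constructor
  · intro H v hv i j
    refine ⟨(H v hv i j).1, ?_⟩
    rw [← map_inv]
    exact (H v hv i j).2
  · intro H v hv i j
    refine ⟨(H v hv i j).1, ?_⟩
    have := (H v hv i j).2
    rw [← map_inv] at this
    exact this

/-- `{h | OutsideU h}` as a subgroup of `GL₂(𝔸_K)`. -/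
def outU245 (𝔫 : Ideal (𝓞 K)) (v₀ : HeightOneSpectrum (𝓞 K)) : Subgroup (G K) where
  carrier := {h | AS.OutsideU K 𝔫 v₀ h}
  mul_mem' := by
    intro a b ha hb
    rw [Set.mem_ofPred_eq, outsideU_iff245] at ha hb ⊢
    intro v hv
    rw [map_mul]
    exact mul_mem (ha v hv) (hb v hv)
  one_mem' := by
    rw [Set.mem_ofPred_eq, outsideU_iff245]
    intro v _
    rw [map_one]
    exact one_mem _
  inv_mem' := by
    intro a ha
    rw [Set.mem_ofPred_eq, outsideU_iff245] at ha ⊢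
    intro v hv
    rw [map_inv]
    exact inv_mem (ha v hv)

theorem mem_outU245 {𝔫 : Ideal (𝓞 K)} {v₀ : HeightOneSpectrum (𝓞 K)} {h : G K} :
    h ∈ outU245 𝔫 v₀ ↔ AS.OutsideU K 𝔫 v₀ h := Iff.rfl

theorem finComp_sub_one245 (v : HeightOneSpectrum (𝓞 K)) (h : G K) (i j : Fin 2) :
    (finComp v h - 1) i j
      = (((h : Matrix (Fin 2) (Fin 2) (Adl K)) - 1) i j).2 v := by
  rw [Matrix.sub_apply, Matrix.sub_apply, Matrix.one_apply, Matrix.one_apply]
  split_ifs
  · rfl
  · rfl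

/-- `OutsideU` is open. -/
theorem isOpen_outU245 {𝔫 : Ideal (𝓞 K)} (h𝔫 : 𝔫 ≠ ⊥) (v₀ : HeightOneSpectrum (𝓞 K)) :
    IsOpen (outU245 𝔫 v₀ : Set (G K)) := by
  apply Subgroup.isOpen_of_mem_nhds
  have hT : {v : HeightOneSpectrum (𝓞 K) | v.asIdeal ∣ 𝔫}.Finite := Ideal.finite_factors h𝔫
  set W : Set (FiniteAdeleRing (𝓞 K) K) :=
    {x | ∀ v, x v ∈ v.adicCompletionIntegers K}
      ∩ ⋂ v ∈ {v : HeightOneSpectrum (𝓞 K) | v.asIdeal ∣ 𝔫},
          {x : FiniteAdeleRing (𝓞 K) K | x v ∈ idealClosure 𝔫 v} with hWdef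
  have hW : IsOpen W := by
    refine IsOpen.inter ?_ ?_
    · exact RestrictedProduct.isOpen_forall_mem (fun v => Valued.isOpen_valuationSubring _)
    · refine hT.isOpen_biInter fun v _ => ?_
      exact (isOpen_idealClosure245 𝔫 v h𝔫).preimage (RestrictedProduct.continuous_eval v)
  have hWI : ∀ x ∈ W, ∀ v, x v ∈ idealClosure 𝔫 v := by
    intro x hx v
    by_cases hv : v.asIdeal ∣ 𝔫
    · exact Set.mem_iInter₂.1 hx.2 v hv
    · rw [idealClosure_eq_integers245 𝔫 v hv]
      exact hx.1 v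
  have hW0 : (0 : FiniteAdeleRing (𝓞 K) K) ∈ W := by
    refine ⟨fun v => zero_mem _, Set.mem_iInter₂.2 fun v _ => ?_⟩
    exact zero_mem_idealClosure245 𝔫 v
  set V : Set (G K) := ⋂ i : Fin 2, ⋂ j : Fin 2,
    ((fun h : G K => (((h : Matrix (Fin 2) (Fin 2) (Adl K)) - 1) i j).2) ⁻¹' W
      ∩ (fun h : G K => ((((h⁻¹ : G K) : Matrix (Fin 2) (Fin 2) (Adl K)) - 1) i j).2) ⁻¹' W)
    with hVdef
  have hsnd : Continuous (fun x : Adl K => x.2) := continuous_snd
  have hV : IsOpen V := by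
    refine isOpen_iInter_of_finite fun i => isOpen_iInter_of_finite fun j => ?_
    refine (hW.preimage ?_).inter (hW.preimage ?_)
    · exact hsnd.comp ((Units.continuous_val.sub continuous_const).matrix_elem i j)
    · exact hsnd.comp
        (((Units.continuous_val.comp continuous_inv).sub continuous_const).matrix_elem i j)
  have h1 : (1 : G K) ∈ V := by
    refine Set.mem_iInter.2 fun i => Set.mem_iInter.2 fun j => ⟨?_, ?_⟩
    · show (((((1 : G K) : Matrix (Fin 2) (Fin 2) (Adl K)) - 1) i j).2) ∈ W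
      rw [Units.val_one, sub_self]
      exact hW0
    · show ((((((1 : G K)⁻¹ : G K) : Matrix (Fin 2) (Fin 2) (Adl K)) - 1) i j).2) ∈ W
      rw [inv_one, Units.val_one, sub_self]
      exact hW0
  refine Filter.mem_of_superset (hV.mem_nhds h1) ?_
  intro h hh v _ i j
  have hij := Set.mem_iInter.1 (Set.mem_iInter.1 hh i) j
  refine ⟨?_, ?_⟩
  · rw [finComp_sub_one245]
    exact hWI _ hij.1 v
  · rw [finComp_sub_one245]
    exact hWI _ hij.2 v

/-- `OutsideU` is open and closed. -/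
theorem isClopen_outsideU245 {𝔫 : Ideal (𝓞 K)} (h𝔫 : 𝔫 ≠ ⊥) (v₀ : HeightOneSpectrum (𝓞 K)) :
    IsClopen {h : G K | AS.OutsideU K 𝔫 v₀ h} :=
  ⟨Subgroup.isClosed_of_isOpen (outU245 𝔫 v₀) (isOpen_outU245 h𝔫 v₀), isOpen_outU245 h𝔫 v₀⟩

/-! ## Continuity of the pure tensor -/

theorem continuous_pureFn245 {𝔫 : Ideal (𝓞 K)} (h𝔫 : 𝔫 ≠ ⊥) (v₀ : HeightOneSpectrum (𝓞 K))
    {f₀ : GL (Fin 2) (v₀.adicCompletion K) → ℂ} {F : InfinitePlace K → GL (Fin 2) ℂ → ℂ}
    (hf₀ : AS.IsBiIntInv v₀ f₀) (hF : ∀ w, Continuous (F w)) :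
    Continuous (AS.pureFn K 𝔫 v₀ f₀ F) := by
  have hφ : Continuous (fun h : G K =>
      f₀ (AS.finGL K v₀ h) * ∏ w : InfinitePlace K, F w (AS.infGL K w h)) :=
    ((continuous_of_biIntInv245 hf₀).comp (continuous_finGL245 v₀)).mul
      (continuous_finsetProd _ fun w _ => (hF w).comp (continuous_infGL245 w))
  unfold AS.pureFn
  classical
  refine Continuous.if ?_ hφ continuous_const
  intro a ha
  rw [(isClopen_outsideU245 h𝔫 v₀).frontier_eq] at ha
  exact absurd ha (Set.notMem_empty a)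

end Fermat.Agent.LT.T3.H245

end
end
-- ===== PACK-END LT/T3/H245/PureRegB.lean

-- ===== PACK-BEGIN LT/T3/H811/Reg.lean
section


/-!
# Row LT, tower T3, sub-leaf AS.2.1 `RegC` (registry 1169) -- helper811, OFF-MAIN

`regC811 : H315.RegC`: for `β` smooth, symmetric, of compact support the test function
`abelFn β h = abelInv614 (E_c) (chD614 h)`, `c = log |det h|`, `E_c(u) = β((c+u)/2, (c-u)/2)`, is
continuous, of compact support and bi-`U(2)`-invariant on `GL₂(ℂ)`.

Joint continuity: with `B(c, u) = E_c(u)`, `B₁ = ∂_u B`, `B₂ = ∂_u² B` and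
`S(r) = ∫₀¹ cosh(t r) dt = sinh r / r`, `G(c, r) = ∫₀¹ B₂(c, t r) dt = B₁(c, r) / r` (Hadamard,
`B₁(c, 0) = 0` by evenness):  `abelInv614 (E_c) (cosh r) = -(2π)⁻¹ S(r)⁻¹ G(c, r)` for ALL `r ≥ 0`.
-/

set_option autoImplicit false

open MeasureTheory Set Real Filter Topology
open Fermat.Agent.LT.T3.AS Fermat.Agent.LT.T3.H614 Fermat.Agent.LT.T3.H315

noncomputable section

namespace Fermat.Agent.LT.T3.H811

/-! ## Hadamard's lemma -/

/-- `f(r) - f(0) = r ∫₀¹ f'(t r) dt`. -/
lemma hadamard811 {E : Type*} [NormedAddCommGroup E] [NormedSpace ℝ E] [CompleteSpace E]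
    (f f' : ℝ → E) (hf : ∀ x, HasDerivAt f (f' x) x) (hf' : Continuous f') (r : ℝ) :
    f r - f 0 = r • ∫ t in (0 : ℝ)..1, f' (t * r) := by
  have h1 : ∀ t ∈ Set.uIcc (0 : ℝ) 1, HasDerivAt (fun t => f (t * r)) (r • f' (t * r)) t := by
    intro t _
    have := (hf (t * r)).scomp t ((hasDerivAt_id t).mul_const r)
    simp only [id_eq, one_mul] at this
    exact this
  have h2 : IntervalIntegrable (fun t => r • f' (t * r)) volume 0 1 :=
    Continuous.intervalIntegrable (by fun_prop) _ _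
  have := intervalIntegral.integral_eq_sub_of_hasDerivAt h1 h2
  rw [intervalIntegral.integral_smul] at this
  simpa using this.symm

/-- `S(r) = ∫₀¹ cosh(t r) dt` (`= sinh r / r`). -/
def sinhInt811 (r : ℝ) : ℝ := ∫ t in (0 : ℝ)..1, Real.cosh (t * r)

lemma sinh_eq811 (r : ℝ) : Real.sinh r = r * sinhInt811 r := by
  have := hadamard811 Real.sinh Real.cosh Real.hasDerivAt_sinh Real.continuous_cosh r
  simpa [sinhInt811] using this

lemma one_le_sinhInt811 (r : ℝ) : 1 ≤ sinhInt811 r := by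
  have h : ∫ _t in (0 : ℝ)..1, (1 : ℝ) ≤ ∫ t in (0 : ℝ)..1, Real.cosh (t * r) := by
    apply intervalIntegral.integral_mono_on zero_le_one
    · exact intervalIntegrable_const
    · exact Continuous.intervalIntegrable (by fun_prop) _ _
    · intro t _
      exact Real.one_le_cosh _
  simpa [sinhInt811] using h

lemma continuous_sinhInt811 : Continuous sinhInt811 := by
  unfold sinhInt811
  apply intervalIntegral.continuous_parametric_intervalIntegral_of_continuous'
  fun_prop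

/-! ## The slices of `β` -/

/-- `B(c, u) = β((c+u)/2, (c-u)/2)`. -/
def rot811 (β : ℝ × ℝ → ℂ) (p : ℝ × ℝ) : ℂ := β ((p.1 + p.2) / 2, (p.1 - p.2) / 2)

/-- `B₁ = ∂_u B`. -/
def rotD811 (β : ℝ × ℝ → ℂ) (p : ℝ × ℝ) : ℂ := fderiv ℝ (rot811 β) p (0, 1)

/-- `B₂ = ∂_u² B`. -/
def rotDD811 (β : ℝ × ℝ → ℂ) (p : ℝ × ℝ) : ℂ := fderiv ℝ (rotD811 β) p (0, 1)

lemma sliceE_eq811 (β : ℝ × ℝ → ℂ) (c : ℝ) : sliceE β c = fun u => rot811 β (c, u) := rfl

variable {β : ℝ × ℝ → ℂ}

lemma contDiff_rot811 (hβ : ContDiff ℝ ((⊤ : ℕ∞) : WithTop ℕ∞) β) :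
    ContDiff ℝ ((⊤ : ℕ∞) : WithTop ℕ∞) (rot811 β) := by
  unfold rot811
  apply hβ.comp
  fun_prop

lemma contDiff_rotD811 (hβ : ContDiff ℝ ((⊤ : ℕ∞) : WithTop ℕ∞) β) :
    ContDiff ℝ ((⊤ : ℕ∞) : WithTop ℕ∞) (rotD811 β) := by
  unfold rotD811
  exact ((contDiff_rot811 hβ).fderiv_right (m := ((⊤ : ℕ∞) : WithTop ℕ∞)) (by simp)).clm_apply
    contDiff_const

lemma continuous_rotDD811 (hβ : ContDiff ℝ ((⊤ : ℕ∞) : WithTop ℕ∞) β) :
    Continuous (rotDD811 β) := by
  unfold rotDD811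
  exact (((contDiff_rotD811 hβ).fderiv_right (m := ((⊤ : ℕ∞) : WithTop ℕ∞))
    (by simp)).clm_apply contDiff_const).continuous

lemma hasDerivAt_slice811 {B : ℝ × ℝ → ℂ} (hB : Differentiable ℝ B) (c u : ℝ) :
    HasDerivAt (fun u => B (c, u)) (fderiv ℝ B (c, u) (0, 1)) u := by
  have h1 : HasFDerivAt B (fderiv ℝ B (c, u)) (c, u) := (hB (c, u)).hasFDerivAt
  have h2 : HasDerivAt (fun u : ℝ => ((c, u) : ℝ × ℝ)) ((0, 1) : ℝ × ℝ) u :=
    (hasDerivAt_const u c).prodMk (hasDerivAt_id u)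
  exact h1.comp_hasDerivAt u h2

lemma hasDerivAt_rot811 (hβ : ContDiff ℝ ((⊤ : ℕ∞) : WithTop ℕ∞) β) (c u : ℝ) :
    HasDerivAt (fun u => rot811 β (c, u)) (rotD811 β (c, u)) u :=
  hasDerivAt_slice811 ((contDiff_rot811 hβ).differentiable (by simp)) c u

lemma hasDerivAt_rotD811 (hβ : ContDiff ℝ ((⊤ : ℕ∞) : WithTop ℕ∞) β) (c u : ℝ) :
    HasDerivAt (fun u => rotD811 β (c, u)) (rotDD811 β (c, u)) u :=
  hasDerivAt_slice811 ((contDiff_rotD811 hβ).differentiable (by simp)) c u

lemma deriv_sliceE811 (hβ : ContDiff ℝ ((⊤ : ℕ∞) : WithTop ℕ∞) β) (c : ℝ) :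
    deriv (sliceE β c) = fun u => rotD811 β (c, u) := by
  funext u
  rw [sliceE_eq811]
  exact (hasDerivAt_rot811 hβ c u).deriv

lemma deriv_deriv_sliceE811 (hβ : ContDiff ℝ ((⊤ : ℕ∞) : WithTop ℕ∞) β) (c u : ℝ) :
    deriv (deriv (sliceE β c)) u = rotDD811 β (c, u) := by
  rw [deriv_sliceE811 hβ]
  exact (hasDerivAt_rotD811 hβ c u).deriv

/-! ## Evenness and support of the slices -/

lemma exists_bound811 (hs : HasCompactSupport β) :
    ∃ M : ℝ, 0 ≤ M ∧ ∀ p : ℝ × ℝ, β p ≠ 0 → |p.1| ≤ M ∧ |p.2| ≤ M := by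
  obtain ⟨C, hC⟩ := isBounded_iff_forall_norm_le.1 hs.isCompact.isBounded
  refine ⟨max C 0, le_max_right _ _, fun p hp => ?_⟩
  have hp' : p ∈ tsupport β := subset_tsupport _ hp
  have h := hC p hp'
  rw [Prod.norm_def, Real.norm_eq_abs, Real.norm_eq_abs] at h
  exact ⟨(le_max_left _ _).trans (h.trans (le_max_left _ _)),
    (le_max_right _ _).trans (h.trans (le_max_left _ _))⟩

lemma sliceE_eq_zero811 {M : ℝ} (hM : ∀ p : ℝ × ℝ, β p ≠ 0 → |p.1| ≤ M ∧ |p.2| ≤ M) (c u : ℝ)
    (h : 2 * M < |u| ∨ 2 * M < |c|) : sliceE β c u = 0 := by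
  by_contra hne
  obtain ⟨h1, h2⟩ := hM _ hne
  simp only at h1 h2
  rw [abs_le] at h1 h2
  rcases h with h | h
  · have : |u| ≤ 2 * M := by
      rw [abs_le]
      constructor <;> linarith [h1.1, h1.2, h2.1, h2.2]
    linarith
  · have : |c| ≤ 2 * M := by
      rw [abs_le]
      constructor <;> linarith [h1.1, h1.2, h2.1, h2.2]
    linarith

lemma isEvenTest_sliceE811 (hβ : IsSymBump β) {M : ℝ}
    (hM : ∀ p : ℝ × ℝ, β p ≠ 0 → |p.1| ≤ M ∧ |p.2| ≤ M) (c : ℝ) :
    IsEvenTest614 (sliceE β c) (2 * M + 1) where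
  smooth := by
    rw [sliceE_eq811]
    have h : ContDiff ℝ ((⊤ : ℕ∞) : WithTop ℕ∞) (fun u : ℝ => rot811 β (c, u)) :=
      (contDiff_rot811 hβ.1).comp (by fun_prop)
    exact h.of_le (by norm_cast)
  even := by
    intro u
    unfold sliceE
    rw [hβ.2.2]
    have e1 : (c - -u) / 2 = (c + u) / 2 := by ring
    have e2 : (c + -u) / 2 = (c - u) / 2 := by ring
    rw [e1, e2]
  supp := by
    intro u hu
    exact sliceE_eq_zero811 hM c u (Or.inl (by linarith))

/-! ## The closed formula -/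

/-- `G(c, r) = ∫₀¹ B₂(c, t r) dt`. -/
def hadG811 (β : ℝ × ℝ → ℂ) (p : ℝ × ℝ) : ℂ := ∫ t in (0 : ℝ)..1, rotDD811 β (p.1, t * p.2)

lemma continuous_hadG811 (hβ : ContDiff ℝ ((⊤ : ℕ∞) : WithTop ℕ∞) β) :
    Continuous (hadG811 β) := by
  unfold hadG811
  apply intervalIntegral.continuous_parametric_intervalIntegral_of_continuous'
  have := continuous_rotDD811 hβ
  fun_prop

lemma rotD_eq811 (hβ : IsSymBump β) (c r : ℝ) : rotD811 β (c, r) = r • hadG811 β (c, r) := by
  obtain ⟨M, -, hM⟩ := exists_bound811 hβ.2.1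
  have h0 : rotD811 β (c, 0) = 0 := by
    have := (isEvenTest_sliceE811 hβ hM c).deriv_zero
    rw [deriv_sliceE811 hβ.1] at this
    exact this
  have hc : Continuous fun u : ℝ => rotDD811 β (c, u) :=
    (continuous_rotDD811 hβ.1).comp (by fun_prop)
  have := hadamard811 (fun u => rotD811 β (c, u)) (fun u => rotDD811 β (c, u))
    (hasDerivAt_rotD811 hβ.1 c) hc r
  simp only [h0, sub_zero] at this
  rw [this]
  rfl

/-- `Q(c, r) = -(2π)⁻¹ S(r)⁻¹ G(c, r)`. -/
def abelQ811 (β : ℝ × ℝ → ℂ) (p : ℝ × ℝ) : ℂ :=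
  (-(2 * π)⁻¹ : ℝ) • ((sinhInt811 p.2)⁻¹ • hadG811 β p)

lemma continuous_abelQ811 (hβ : ContDiff ℝ ((⊤ : ℕ∞) : WithTop ℕ∞) β) :
    Continuous (abelQ811 β) := by
  unfold abelQ811
  have h1 : Continuous fun p : ℝ × ℝ => (sinhInt811 p.2)⁻¹ :=
    (continuous_sinhInt811.comp continuous_snd).inv₀
      (fun p => (lt_of_lt_of_le one_pos (one_le_sinhInt811 p.2)).ne')
  exact (h1.smul (continuous_hadG811 hβ)).const_smul (-(2 * π)⁻¹ : ℝ)

lemma abelInv_eq811 (hβ : IsSymBump β) (c X : ℝ) (hX : 1 ≤ X) :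
    abelInv614 (sliceE β c) X = abelQ811 β (c, Real.arcosh X) := by
  rcases hX.eq_or_lt with rfl | hlt
  · rw [abelInv614_of_le le_rfl, deriv_deriv_sliceE811 hβ.1]
    simp [abelQ811, sinhInt811, hadG811]
  · rw [abelInv614_of_lt hlt, deriv_sliceE811 hβ.1]
    have hr : 0 < Real.arcosh X := Real.arcosh_pos hlt
    have hs : √(X ^ 2 - 1) = Real.arcosh X * sinhInt811 (Real.arcosh X) := by
      rw [← Real.sinh_arcosh hX, sinh_eq811]
    have hS : 0 < sinhInt811 (Real.arcosh X) := lt_of_lt_of_le one_pos (one_le_sinhInt811 _)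
    simp only [abelQ811]
    rw [hs, rotD_eq811 hβ, smul_smul, smul_smul]
    congr 1
    field_simp

/-! ## The group `GL₂(ℂ)` -/

lemma det_ne_zero811 (h : GL (Fin 2) ℂ) : (h : Matrix (Fin 2) (Fin 2) ℂ).det ≠ 0 :=
  ((Matrix.isUnit_iff_isUnit_det _).1 h.isUnit).ne_zero

lemma continuous_entry811 (i j : Fin 2) :
    Continuous fun h : GL (Fin 2) ℂ => (h : Matrix (Fin 2) (Fin 2) ℂ) i j :=
  Units.continuous_val.matrix_elem i j

lemma continuous_det811 :
    Continuous fun h : GL (Fin 2) ℂ => (h : Matrix (Fin 2) (Fin 2) ℂ).det :=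
  Units.continuous_val.matrix_det

lemma continuous_chD811 :
    Continuous fun h : GL (Fin 2) ℂ => chD614 (h : Matrix (Fin 2) (Fin 2) ℂ) := by
  unfold chD614 hsq614
  apply Continuous.div
  · have := continuous_entry811
    fun_prop
  · have := continuous_det811
    fun_prop
  · intro h
    have := norm_pos_iff.2 (det_ne_zero811 h)
    positivity

lemma continuous_logdet811 :
    Continuous fun h : GL (Fin 2) ℂ => Real.log ‖(h : Matrix (Fin 2) (Fin 2) ℂ).det‖ :=
  (continuous_det811.norm).log (fun h => (norm_pos_iff.2 (det_ne_zero811 h)).ne')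

lemma abelFn_eq811 (hβ : IsSymBump β) (h : GL (Fin 2) ℂ) :
    abelFn β h = abelQ811 β (Real.log ‖(h : Matrix (Fin 2) (Fin 2) ℂ).det‖,
      Real.arcosh (chD614 (h : Matrix (Fin 2) (Fin 2) ℂ))) :=
  abelInv_eq811 hβ _ _ (one_le_chD614 _ (det_ne_zero811 h))

lemma continuous_abelFn811 (hβ : IsSymBump β) : Continuous (abelFn β) := by
  have h1 : Continuous fun h : GL (Fin 2) ℂ =>
      Real.arcosh (chD614 (h : Matrix (Fin 2) (Fin 2) ℂ)) :=
    Real.continuousOn_arcosh.comp_continuous continuous_chD811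
      (fun h => one_le_chD614 _ (det_ne_zero811 h))
  have h2 : abelFn β = fun h : GL (Fin 2) ℂ =>
      abelQ811 β (Real.log ‖(h : Matrix (Fin 2) (Fin 2) ℂ).det‖,
        Real.arcosh (chD614 (h : Matrix (Fin 2) (Fin 2) ℂ))) := funext (abelFn_eq811 hβ)
  rw [h2]
  exact (continuous_abelQ811 hβ.1).comp (continuous_logdet811.prodMk h1)

lemma abelFn_biInv811 (β : ℝ × ℝ → ℂ) (k k' g : GL (Fin 2) ℂ) (hk : IsUnitary2 k)
    (hk' : IsUnitary2 k') : abelFn β (k * g * k') = abelFn β g := by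
  have e1 : (k : Matrix (Fin 2) (Fin 2) ℂ) * (k : Matrix (Fin 2) (Fin 2) ℂ).conjTranspose = 1 := hk
  have e2 : (k' : Matrix (Fin 2) (Fin 2) ℂ) * (k' : Matrix (Fin 2) (Fin 2) ℂ).conjTranspose = 1 :=
    hk'
  unfold abelFn
  rw [Units.val_mul, Units.val_mul, chD614_mul_unitary_right _ _ e2,
    chD614_mul_unitary_left _ _ e1, Matrix.det_mul, Matrix.det_mul, norm_mul, norm_mul,
    norm_det_of_unitary614 _ e1, norm_det_of_unitary614 _ e2, one_mul, mul_one]

/-! ## Compact support -/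

/-- The box `{A : |A i j| ≤ C}` of matrices is compact. -/
lemma isCompact_box811 (C : ℝ) :
    IsCompact {A : Matrix (Fin 2) (Fin 2) ℂ | ∀ i j, ‖A i j‖ ≤ C} := by
  have h : IsCompact (Set.pi Set.univ fun _ : Fin 2 => Set.pi Set.univ fun _ : Fin 2 =>
      Metric.closedBall (0 : ℂ) C) :=
    isCompact_univ_pi fun _ => isCompact_univ_pi fun _ => isCompact_closedBall 0 C
  have e : {A : Matrix (Fin 2) (Fin 2) ℂ | ∀ i j, ‖A i j‖ ≤ C}
      = (Set.pi Set.univ fun _ : Fin 2 => Set.pi Set.univ fun _ : Fin 2 =>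
          Metric.closedBall (0 : ℂ) C) := by
    ext A
    constructor
    · intro hA i _ j _
      have := hA i j
      simpa using this
    · intro hA i j
      have := hA i (Set.mem_univ i) j (Set.mem_univ j)
      simpa using this
  rw [e]
  exact h

/-- A closed subset of `GL₂(ℂ)` on which the entries of `h` and `h⁻¹` are bounded is compact. -/
lemma isCompact_of_bounded811 (K : Set (GL (Fin 2) ℂ)) (hK : IsClosed K) (C : ℝ)
    (h1 : ∀ h ∈ K, ∀ i j, ‖(h : Matrix (Fin 2) (Fin 2) ℂ) i j‖ ≤ C)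
    (h2 : ∀ h ∈ K, ∀ i j, ‖((h⁻¹ : GL (Fin 2) ℂ) : Matrix (Fin 2) (Fin 2) ℂ) i j‖ ≤ C) :
    IsCompact K := by
  have hemb := Units.isClosedEmbedding_embedProduct (α := Matrix (Fin 2) (Fin 2) ℂ)
  rw [hemb.isEmbedding.isCompact_iff]
  have hbox : IsCompact (({A : Matrix (Fin 2) (Fin 2) ℂ | ∀ i j, ‖A i j‖ ≤ C}) ×ˢ
      (MulOpposite.op '' {A : Matrix (Fin 2) (Fin 2) ℂ | ∀ i j, ‖A i j‖ ≤ C})) :=
    (isCompact_box811 C).prod ((isCompact_box811 C).image MulOpposite.continuous_op)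
  refine IsCompact.of_isClosed_subset hbox (hemb.isClosedMap _ hK) ?_
  rintro _ ⟨h, hh, rfl⟩
  refine ⟨h1 h hh, ⟨((h⁻¹ : GL (Fin 2) ℂ) : Matrix (Fin 2) (Fin 2) ℂ), h2 h hh, rfl⟩⟩

lemma norm_entry_le811 (A : Matrix (Fin 2) (Fin 2) ℂ) (i j : Fin 2) :
    ‖A i j‖ ^ 2 ≤ hsq614 A := by
  unfold hsq614
  fin_cases i <;> fin_cases j <;> simp <;> nlinarith [sq_nonneg ‖A 0 0‖, sq_nonneg ‖A 0 1‖,
    sq_nonneg ‖A 1 0‖, sq_nonneg ‖A 1 1‖]

lemma norm_entry_le_of811 (A : Matrix (Fin 2) (Fin 2) ℂ) (i j : Fin 2) {C : ℝ} (hC : 0 ≤ C)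
    (h : hsq614 A ≤ C) : ‖A i j‖ ≤ C + 1 := by
  have h1 := norm_entry_le811 A i j
  nlinarith [norm_nonneg (A i j)]

lemma norm_inv_entry811 (h : GL (Fin 2) ℂ) (i j : Fin 2) :
    ∃ i' j' : Fin 2, ‖((h⁻¹ : GL (Fin 2) ℂ) : Matrix (Fin 2) (Fin 2) ℂ) i j‖
      = ‖(h : Matrix (Fin 2) (Fin 2) ℂ).det‖⁻¹ * ‖(h : Matrix (Fin 2) (Fin 2) ℂ) i' j'‖ := by
  rw [Matrix.coe_units_inv, Matrix.inv_def, Matrix.adjugate_fin_two, Ring.inverse_eq_inv']
  fin_cases i <;> fin_cases j
  · exact ⟨1, 1, by simp⟩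
  · exact ⟨0, 1, by simp⟩
  · exact ⟨1, 0, by simp⟩
  · exact ⟨0, 0, by simp⟩

/-- The set `{|log |det h|| ≤ a, chD614 h ≤ b}` is compact in `GL₂(ℂ)`. -/
lemma isCompact_region811 (a b : ℝ) :
    IsCompact {h : GL (Fin 2) ℂ | |Real.log ‖(h : Matrix (Fin 2) (Fin 2) ℂ).det‖| ≤ a ∧
      chD614 (h : Matrix (Fin 2) (Fin 2) ℂ) ≤ b} := by
  have hcl : IsClosed {h : GL (Fin 2) ℂ | |Real.log ‖(h : Matrix (Fin 2) (Fin 2) ℂ).det‖| ≤ a ∧
      chD614 (h : Matrix (Fin 2) (Fin 2) ℂ) ≤ b} :=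
    (isClosed_le continuous_logdet811.abs continuous_const).inter
      (isClosed_le continuous_chD811 continuous_const)
  -- bounds
  have key : ∀ h : GL (Fin 2) ℂ, |Real.log ‖(h : Matrix (Fin 2) (Fin 2) ℂ).det‖| ≤ a →
      chD614 (h : Matrix (Fin 2) (Fin 2) ℂ) ≤ b →
      ‖(h : Matrix (Fin 2) (Fin 2) ℂ).det‖ ≤ Real.exp a ∧
      ‖(h : Matrix (Fin 2) (Fin 2) ℂ).det‖⁻¹ ≤ Real.exp a ∧
      hsq614 (h : Matrix (Fin 2) (Fin 2) ℂ) ≤ 2 * Real.exp a * |b| := by
    intro h ha hb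
    have hd : 0 < ‖(h : Matrix (Fin 2) (Fin 2) ℂ).det‖ := norm_pos_iff.2 (det_ne_zero811 h)
    rw [abs_le] at ha
    have hd1 : ‖(h : Matrix (Fin 2) (Fin 2) ℂ).det‖ ≤ Real.exp a := by
      rw [← Real.exp_log hd]
      exact Real.exp_le_exp.2 ha.2
    have hd2 : ‖(h : Matrix (Fin 2) (Fin 2) ℂ).det‖⁻¹ ≤ Real.exp a := by
      rw [← Real.exp_log hd, ← Real.exp_neg]
      exact Real.exp_le_exp.2 (by linarith [ha.1])
    refine ⟨hd1, hd2, ?_⟩
    have h3 : hsq614 (h : Matrix (Fin 2) (Fin 2) ℂ)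
        = chD614 (h : Matrix (Fin 2) (Fin 2) ℂ) * (2 * ‖(h : Matrix (Fin 2) (Fin 2) ℂ).det‖) := by
      unfold chD614
      field_simp
    rw [h3]
    have hb' : chD614 (h : Matrix (Fin 2) (Fin 2) ℂ) ≤ |b| := hb.trans (le_abs_self b)
    have hch : 0 ≤ chD614 (h : Matrix (Fin 2) (Fin 2) ℂ) :=
      zero_le_one.trans (one_le_chD614 _ (det_ne_zero811 h))
    calc chD614 (h : Matrix (Fin 2) (Fin 2) ℂ) * (2 * ‖(h : Matrix (Fin 2) (Fin 2) ℂ).det‖)
        ≤ |b| * (2 * Real.exp a) := by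
          apply mul_le_mul hb' (by linarith) (by positivity) (abs_nonneg b)
      _ = 2 * Real.exp a * |b| := by ring
  have hC0 : 0 ≤ 2 * Real.exp a * |b| := by positivity
  refine isCompact_of_bounded811 _ hcl
    ((2 * Real.exp a * |b| + 1) * (1 + Real.exp a)) ?_ ?_
  · rintro h ⟨ha, hb⟩ i j
    obtain ⟨-, -, k3⟩ := key h ha hb
    have := norm_entry_le_of811 _ i j hC0 k3
    have e : 0 ≤ (2 * Real.exp a * |b| + 1) * Real.exp a := by positivity
    nlinarith
  · rintro h ⟨ha, hb⟩ i j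
    obtain ⟨-, k2, k3⟩ := key h ha hb
    obtain ⟨i', j', e⟩ := norm_inv_entry811 h i j
    rw [e]
    have h5 := norm_entry_le_of811 _ i' j' hC0 k3
    have h6 : 0 ≤ ‖(h : Matrix (Fin 2) (Fin 2) ℂ).det‖⁻¹ := by positivity
    calc ‖(h : Matrix (Fin 2) (Fin 2) ℂ).det‖⁻¹ * ‖(h : Matrix (Fin 2) (Fin 2) ℂ) i' j'‖
        ≤ Real.exp a * (2 * Real.exp a * |b| + 1) :=
          mul_le_mul k2 h5 (norm_nonneg _) (Real.exp_pos a).le
      _ ≤ (2 * Real.exp a * |b| + 1) * (1 + Real.exp a) := by nlinarith [Real.exp_pos a]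

lemma abelInv_zero811 (X : ℝ) : abelInv614 (fun _ : ℝ => (0 : ℂ)) X = 0 := by
  unfold abelInv614
  split_ifs <;> simp

lemma hasCompactSupport_abelFn811 (hβ : IsSymBump β) : HasCompactSupport (abelFn β) := by
  obtain ⟨M, -, hM⟩ := exists_bound811 hβ.2.1
  refine HasCompactSupport.intro (isCompact_region811 (2 * M) (Real.cosh (2 * M + 1))) ?_
  intro h hh
  have hh' : ¬ (|Real.log ‖(h : Matrix (Fin 2) (Fin 2) ℂ).det‖| ≤ 2 * M ∧
      chD614 (h : Matrix (Fin 2) (Fin 2) ℂ) ≤ Real.cosh (2 * M + 1)) := hh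
  unfold abelFn
  rcases not_and_or.1 hh' with hh | hh
  · rw [not_le] at hh
    have e : sliceE β (Real.log ‖(h : Matrix (Fin 2) (Fin 2) ℂ).det‖) = fun _ : ℝ => (0 : ℂ) := by
      funext u
      exact sliceE_eq_zero811 hM _ u (Or.inr hh)
    rw [e]
    exact abelInv_zero811 _
  · rw [not_le] at hh
    exact (isEvenTest_sliceE811 hβ hM _).abelInv_eq_zero hh

/-! ## The leaf -/

/-- **AS.2.1 REG**: the test function is continuous, of compact support, bi-`U(2)`-invariant. -/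
theorem regC811 : RegC := fun β hβ =>
  { cont := continuous_abelFn811 hβ
    supp := hasCompactSupport_abelFn811 hβ
    bi_inv := fun k k' g hk hk' => abelFn_biInv811 β k k' g hk hk' }

end Fermat.Agent.LT.T3.H811

end

end
-- ===== PACK-END LT/T3/H811/Reg.lean

-- ===== PACK-BEGIN LT/T3/H57/ROpEmb.lean
section




/-!
# Row LT, tower T3, station T3.18a, leaf AS.5 `ROpC` (helper57, OFF-MAIN): local embeddings

* `infEmb57 : (InfinitePlace K → GL₂(ℂ)) →* GL₂(𝔸_K)` (`K` totally complex), continuous,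
  with components `infGL_infEmb57`, `finGL_infEmb57`;
* `finEmb57 v₀ : GL₂(K_{v₀}) →* GL₂(𝔸_K)` with components;
* `LocU57`, `inU0_iff_loc57`, `outsideU_iff_loc57` : the conditions of `InU057`, `AS.OutsideU`
  in terms of the local components;
* `inLevelGroup_of57` : `x ∈ G_∞ × U(𝔫)_f` implies `ι(π x)⁻¹ x ∈ U(𝔫)`.
-/

set_option autoImplicit false

open IsDedekindDomain NumberField Topology
open Fermat.Agent.LT.H556.A0
open Fermat.Agent.LT.T1.H724 Fermat.Agent.LT.T1.H793
open Fermat.Agent.LT.T3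

noncomputable section

namespace Fermat.Agent.LT.T3.H57

variable {K : Type} [Field K] [NumberField K]

/-! ## Components -/

theorem finGL_val57 (v : HeightOneSpectrum (𝓞 K)) (g : G K) :
    ((AS.finGL K v g : GL (Fin 2) (v.adicCompletion K)) :
      Matrix (Fin 2) (Fin 2) (v.adicCompletion K)) = finComp v g := rfl

theorem finGL_inv_val57 (v : HeightOneSpectrum (𝓞 K)) (g : G K) :
    (((AS.finGL K v g)⁻¹ : GL (Fin 2) (v.adicCompletion K)) :
      Matrix (Fin 2) (Fin 2) (v.adicCompletion K)) = finComp v g⁻¹ := by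
  rw [← map_inv]; rfl

theorem infGL_val57 (w : InfinitePlace K) (g : G K) :
    ((AS.infGL K w g : GL (Fin 2) ℂ) : Matrix (Fin 2) (Fin 2) ℂ) = infComp w g := rfl

/-- The local condition `M ∈ U(𝔫)_v`. -/
def LocU57 (𝔫 : Ideal (𝓞 K)) (v : HeightOneSpectrum (𝓞 K))
    (M : GL (Fin 2) (v.adicCompletion K)) : Prop :=
  ∀ i j : Fin 2,
    ((M : Matrix (Fin 2) (Fin 2) (v.adicCompletion K)) - 1) i j ∈ idealClosure 𝔫 v ∧
    (((M⁻¹ : GL (Fin 2) (v.adicCompletion K)) : Matrix (Fin 2) (Fin 2) (v.adicCompletion K)) - 1)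
      i j ∈ idealClosure 𝔫 v

theorem inU0_iff_loc57 (𝔫 : Ideal (𝓞 K)) (x : G K) :
    InU057 𝔫 x ↔ ∀ v : HeightOneSpectrum (𝓞 K), LocU57 𝔫 v (AS.finGL K v x) := by
  constructor
  · intro h v i j
    rw [finGL_val57, finGL_inv_val57]
    exact h v i j
  · intro h v i j
    have := h v i j
    rwa [finGL_val57, finGL_inv_val57] at this

theorem outsideU_iff_loc57 (𝔫 : Ideal (𝓞 K)) (v₀ : HeightOneSpectrum (𝓞 K)) (x : G K) :
    AS.OutsideU K 𝔫 v₀ x ↔
      ∀ v : HeightOneSpectrum (𝓞 K), v ≠ v₀ → LocU57 𝔫 v (AS.finGL K v x) := by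
  constructor
  · intro h v hv i j
    rw [finGL_val57, finGL_inv_val57]
    exact h v hv i j
  · intro h v hv i j
    have := h v hv i j
    rwa [finGL_val57, finGL_inv_val57] at this

theorem locU_one57 (𝔫 : Ideal (𝓞 K)) (v : HeightOneSpectrum (𝓞 K)) :
    LocU57 𝔫 v (1 : GL (Fin 2) (v.adicCompletion K)) := by
  intro i j
  simp only [inv_one, Units.val_one, sub_self, Matrix.zero_apply, and_self]
  exact zero_mem_idealClosure57 𝔫 v

/-- For `v ∤ 𝔫` the local condition is integrality. -/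
theorem locU_iff_isIntGL57 (𝔫 : Ideal (𝓞 K)) (v : HeightOneSpectrum (𝓞 K))
    (hv : ¬ v.asIdeal ∣ 𝔫) (M : GL (Fin 2) (v.adicCompletion K)) :
    LocU57 𝔫 v M ↔ AS.IsIntGL v M := by
  have h1 : ∀ i j : Fin 2, (1 : Matrix (Fin 2) (Fin 2) (v.adicCompletion K)) i j
      ∈ v.adicCompletionIntegers K := by
    intro i j
    rw [one_apply_eq57]
    exact intCast_mem _ _
  unfold LocU57 AS.IsIntGL
  rw [idealClosure_eq57 𝔫 v hv]
  refine forall_congr' fun i => forall_congr' fun j => ?_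
  simp only [Matrix.sub_apply, SetLike.mem_coe]
  constructor
  · rintro ⟨ha, hb⟩
    exact ⟨by simpa using add_mem ha (h1 i j), by simpa using add_mem hb (h1 i j)⟩
  · rintro ⟨ha, hb⟩
    exact ⟨sub_mem ha (h1 i j), sub_mem hb (h1 i j)⟩

/-- In general the local condition implies integrality. -/
theorem isIntGL_of_locU57 (𝔫 : Ideal (𝓞 K)) (v : HeightOneSpectrum (𝓞 K))
    (M : GL (Fin 2) (v.adicCompletion K)) (h : LocU57 𝔫 v M) : AS.IsIntGL v M := by
  have h1 : ∀ i j : Fin 2, (1 : Matrix (Fin 2) (Fin 2) (v.adicCompletion K)) i j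
      ∈ v.adicCompletionIntegers K := by
    intro i j
    rw [one_apply_eq57]
    exact intCast_mem _ _
  intro i j
  have ha := idealClosure_subset57 𝔫 v (h i j).1
  have hb := idealClosure_subset57 𝔫 v (h i j).2
  simp only [Matrix.sub_apply, SetLike.mem_coe] at ha hb
  exact ⟨by simpa using add_mem ha (h1 i j), by simpa using add_mem hb (h1 i j)⟩

/-! ## The embedding of the infinite places -/

section Inf

variable (hK : ∀ w : InfinitePlace K, w.IsComplex)

set_option linter.unusedSectionVars false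

/-- The inverse of the embedding `K_w → ℂ` at a complex place. -/
def cInv57 (w : InfinitePlace K) : ℂ →+* w.Completion :=
  ((InfinitePlace.Completion.ringEquivComplexOfIsComplex (hK w)).symm : ℂ ≃+* w.Completion)

theorem ext_cInv57 (w : InfinitePlace K) (z : ℂ) :
    InfinitePlace.Completion.extensionEmbedding w (cInv57 hK w z) = z :=
  (InfinitePlace.Completion.ringEquivComplexOfIsComplex (hK w)).apply_symm_apply z

theorem continuous_cInv57 (w : InfinitePlace K) : Continuous (cInv57 hK w) :=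
  (InfinitePlace.Completion.isometryEquivComplexOfIsComplex (hK w)).symm.continuous

/-- The adelic matrix with components `t w` at the infinite places and `1` at the finite
places. -/
def infMat57 (t : InfinitePlace K → Matrix (Fin 2) (Fin 2) ℂ) : Matrix (Fin 2) (Fin 2) (Adl K) :=
  fun i j => (fun w => cInv57 hK w (t w i j), ((1 : Matrix (Fin 2) (Fin 2) (Adl K)) i j).2)

theorem infMat_map_inf57 (t : InfinitePlace K → Matrix (Fin 2) (Fin 2) ℂ) (w : InfinitePlace K) :
    (infMat57 hK t).map (evInf724 w) = (t w).map (cInv57 hK w) := by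
  ext i j : 1
  rfl

theorem infMat_map_fin57 (t : InfinitePlace K → Matrix (Fin 2) (Fin 2) ℂ)
    (v : HeightOneSpectrum (𝓞 K)) : (infMat57 hK t).map (evFin724 v) = 1 := by
  ext i j : 1
  rw [Matrix.map_apply]
  change evFin724 v ((1 : Matrix (Fin 2) (Fin 2) (Adl K)) i j) = _
  rw [← Matrix.map_apply (f := evFin724 v), Matrix.map_one _ (map_zero _) (map_one _)]

theorem infMat_mul57 (s t : InfinitePlace K → Matrix (Fin 2) (Fin 2) ℂ) :
    infMat57 hK s * infMat57 hK t = infMat57 hK (fun w => s w * t w) := by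
  refine mat_ext724 (fun w => ?_) (fun v => ?_)
  · rw [Matrix.map_mul, infMat_map_inf57, infMat_map_inf57, infMat_map_inf57, Matrix.map_mul]
  · rw [Matrix.map_mul, infMat_map_fin57, infMat_map_fin57, infMat_map_fin57, mul_one]

theorem infMat_one57 :
    infMat57 hK (fun _ => (1 : Matrix (Fin 2) (Fin 2) ℂ)) = 1 := by
  refine mat_ext724 (fun w => ?_) (fun v => ?_)
  · rw [infMat_map_inf57, Matrix.map_one _ (map_zero _) (map_one _),
      Matrix.map_one _ (map_zero _) (map_one _)]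
  · rw [infMat_map_fin57, Matrix.map_one _ (map_zero _) (map_one _)]

/-- The embedding `∏_w GL₂(ℂ) → GL₂(𝔸_K)`. -/
def infEmb57 : (InfinitePlace K → GL (Fin 2) ℂ) →* G K where
  toFun t :=
    ⟨infMat57 hK (fun w => ((t w : GL (Fin 2) ℂ) : Matrix (Fin 2) (Fin 2) ℂ)),
      infMat57 hK (fun w => (((t w)⁻¹ : GL (Fin 2) ℂ) : Matrix (Fin 2) (Fin 2) ℂ)),
      by
        rw [infMat_mul57]
        simp only [← Units.val_mul, mul_inv_cancel, Units.val_one]
        exact infMat_one57 hK,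
      by
        rw [infMat_mul57]
        simp only [← Units.val_mul, inv_mul_cancel, Units.val_one]
        exact infMat_one57 hK⟩
  map_one' := by
    apply Units.ext
    exact infMat_one57 hK
  map_mul' s t := by
    apply Units.ext
    change infMat57 hK _ = infMat57 hK _ * infMat57 hK _
    rw [infMat_mul57]
    rfl

theorem infEmb_val57 (t : InfinitePlace K → GL (Fin 2) ℂ) :
    ((infEmb57 hK t : G K) : Matrix (Fin 2) (Fin 2) (Adl K))
      = infMat57 hK (fun w => ((t w : GL (Fin 2) ℂ) : Matrix (Fin 2) (Fin 2) ℂ)) := rfl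

theorem infGL_infEmb57 (t : InfinitePlace K → GL (Fin 2) ℂ) (w : InfinitePlace K) :
    AS.infGL K w (infEmb57 hK t) = t w := by
  apply Units.ext
  rw [infGL_val57]
  ext i j
  exact ext_cInv57 hK w _

theorem finGL_infEmb57 (t : InfinitePlace K → GL (Fin 2) ℂ) (v : HeightOneSpectrum (𝓞 K)) :
    AS.finGL K v (infEmb57 hK t) = 1 := by
  apply Units.ext
  rw [finGL_val57, Units.val_one]
  exact infMat_map_fin57 hK (fun w => ((t w : GL (Fin 2) ℂ) : Matrix (Fin 2) (Fin 2) ℂ)) v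

theorem continuous_infMat57 :
    Continuous (fun t : InfinitePlace K → GL (Fin 2) ℂ =>
      infMat57 hK (fun w => ((t w : GL (Fin 2) ℂ) : Matrix (Fin 2) (Fin 2) ℂ))) := by
  refine continuous_matrix fun i j => ?_
  refine Continuous.prodMk (continuous_pi fun w => ?_) continuous_const
  refine (continuous_cInv57 hK w).comp ?_
  exact (Units.continuous_val.comp (continuous_apply w)).matrix_elem i j

theorem continuous_infEmb57 : Continuous (infEmb57 hK) := by
  rw [Units.continuous_iff]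
  refine ⟨continuous_infMat57 hK, ?_⟩
  have h : Continuous (fun t : InfinitePlace K → GL (Fin 2) ℂ => t⁻¹) := continuous_inv
  exact (continuous_infMat57 hK).comp h

/-- The component at `w' ≠ w` of an element supported at `w`. -/
theorem trivAtInf_infEmb57 [DecidableEq (InfinitePlace K)] (w : InfinitePlace K)
    (s : GL (Fin 2) ℂ) (w' : InfinitePlace K) (hw : w' ≠ w) :
    TrivAtInf w' (infEmb57 hK (Pi.mulSingle w s)) := by
  intro i j
  rw [infEmb_val57]
  change cInv57 hK w' (((Pi.mulSingle w s : InfinitePlace K → GL (Fin 2) ℂ) w' :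
    GL (Fin 2) ℂ).1 i j) = _
  rw [Pi.mulSingle_eq_of_ne hw, Units.val_one, Matrix.one_apply, Matrix.one_apply]
  split_ifs <;> simp

theorem trivAtFin_infEmb57 (t : InfinitePlace K → GL (Fin 2) ℂ) (v : HeightOneSpectrum (𝓞 K)) :
    TrivAtFin v (infEmb57 hK t) :=
  infMat_map_fin57 hK (fun w => ((t w : GL (Fin 2) ℂ) : Matrix (Fin 2) (Fin 2) ℂ)) v

theorem isLocalAtInf_infEmb57 [DecidableEq (InfinitePlace K)] (w : InfinitePlace K)
    (s : GL (Fin 2) ℂ) : IsLocalAtInf w (infEmb57 hK (Pi.mulSingle w s)) :=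
  ⟨fun w' hw => trivAtInf_infEmb57 hK w s w' hw, fun v => trivAtFin_infEmb57 hK _ v⟩

theorem infComp_infEmb_single57 [DecidableEq (InfinitePlace K)] (w : InfinitePlace K)
    (s : GL (Fin 2) ℂ) :
    infComp w (infEmb57 hK (Pi.mulSingle w s)) = (s : Matrix (Fin 2) (Fin 2) ℂ) := by
  rw [← infGL_val57, infGL_infEmb57, Pi.mulSingle_eq_same]

/-- `x ∈ G_∞ × U(𝔫)_f` differs from its infinite part by an element of `U(𝔫)`. -/
theorem inLevelGroup_of57 (𝔫 : Ideal (𝓞 K)) (x : G K) (hx : InU057 𝔫 x) :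
    InLevelGroup 𝔫 ((infEmb57 hK (fun w => AS.infGL K w x))⁻¹ * x) := by
  set u : G K := (infEmb57 hK (fun w => AS.infGL K w x))⁻¹ * x with hu
  have hinf : ∀ w, AS.infGL K w u = 1 := by
    intro w
    rw [hu, map_mul, map_inv, infGL_infEmb57, inv_mul_cancel]
  have hfin : ∀ v, AS.finGL K v u = AS.finGL K v x := by
    intro v
    rw [hu, map_mul, map_inv, finGL_infEmb57, inv_one, one_mul]
  refine ⟨fun w i j => ?_, ?_⟩
  · have h1 : infComp w u i j = (1 : Matrix (Fin 2) (Fin 2) ℂ) i j := by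
      rw [← infGL_val57, hinf w, Units.val_one]
    have h2 : InfinitePlace.Completion.extensionEmbedding w
        ((1 : Matrix (Fin 2) (Fin 2) w.Completion) i j) = (1 : Matrix (Fin 2) (Fin 2) ℂ) i j := by
      rw [Matrix.one_apply, Matrix.one_apply]
      split_ifs <;> simp
    exact (InfinitePlace.Completion.extensionEmbedding w).injective (h1.trans h2.symm)
  · have := (inU0_iff_loc57 𝔫 x).1 hx
    have h3 : InU057 𝔫 u := (inU0_iff_loc57 𝔫 u).2 fun v => by rw [hfin v]; exact this v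
    exact h3

end Inf

/-! ## The embedding of a finite place -/

theorem val_mul_inv57 {v₀ : HeightOneSpectrum (𝓞 K)} (h : GL (Fin 2) (v₀.adicCompletion K)) :
    (h : Matrix (Fin 2) (Fin 2) (v₀.adicCompletion K)) *
      ((h⁻¹ : GL (Fin 2) (v₀.adicCompletion K)) : Matrix (Fin 2) (Fin 2) (v₀.adicCompletion K))
      = 1 := by
  rw [← Units.val_mul, mul_inv_cancel, Units.val_one]

theorem val_inv_mul57 {v₀ : HeightOneSpectrum (𝓞 K)} (h : GL (Fin 2) (v₀.adicCompletion K)) :
    ((h⁻¹ : GL (Fin 2) (v₀.adicCompletion K)) : Matrix (Fin 2) (Fin 2) (v₀.adicCompletion K)) *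
      (h : Matrix (Fin 2) (Fin 2) (v₀.adicCompletion K)) = 1 := by
  rw [← Units.val_mul, inv_mul_cancel, Units.val_one]

/-- The embedding `GL₂(K_{v₀}) → GL₂(𝔸_K)`. -/
def finEmb57 (v₀ : HeightOneSpectrum (𝓞 K)) : GL (Fin 2) (v₀.adicCompletion K) →* G K where
  toFun h := locGL724 v₀ (h : Matrix (Fin 2) (Fin 2) (v₀.adicCompletion K))
    ((h⁻¹ : GL (Fin 2) (v₀.adicCompletion K)) : Matrix (Fin 2) (Fin 2) (v₀.adicCompletion K))
    (val_mul_inv57 h) (val_inv_mul57 h)
  map_one' := by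
    apply Units.ext
    exact locMat_one724 v₀
  map_mul' a b := by
    apply Units.ext
    exact (locMat_mul724 v₀ _ _).symm

theorem isLocalAtFin_finEmb57 (v₀ : HeightOneSpectrum (𝓞 K))
    (h : GL (Fin 2) (v₀.adicCompletion K)) : IsLocalAtFin v₀ (finEmb57 v₀ h) :=
  isLocalAtFin_locGL724 v₀ _ _ (val_mul_inv57 h) (val_inv_mul57 h)

theorem finComp_finEmb57 (v₀ : HeightOneSpectrum (𝓞 K))
    (h : GL (Fin 2) (v₀.adicCompletion K)) :
    finComp v₀ (finEmb57 v₀ h) = (h : Matrix (Fin 2) (Fin 2) (v₀.adicCompletion K)) :=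
  finComp_locGL724 v₀ _ _ (val_mul_inv57 h) (val_inv_mul57 h)

theorem finGL_finEmb57 (v₀ : HeightOneSpectrum (𝓞 K))
    (h : GL (Fin 2) (v₀.adicCompletion K)) : AS.finGL K v₀ (finEmb57 v₀ h) = h := by
  apply Units.ext
  rw [finGL_val57]
  exact finComp_finEmb57 v₀ h

theorem finGL_finEmb_ne57 (v₀ : HeightOneSpectrum (𝓞 K))
    (h : GL (Fin 2) (v₀.adicCompletion K)) (v : HeightOneSpectrum (𝓞 K)) (hv : v ≠ v₀) :
    AS.finGL K v (finEmb57 v₀ h) = 1 := by
  apply Units.ext
  rw [finGL_val57]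
  exact (isLocalAtFin_finEmb57 v₀ h).2 v hv

theorem infGL_finEmb57 (v₀ : HeightOneSpectrum (𝓞 K))
    (h : GL (Fin 2) (v₀.adicCompletion K)) (w : InfinitePlace K) :
    AS.infGL K w (finEmb57 v₀ h) = 1 := by
  apply Units.ext
  rw [infGL_val57]
  ext i j
  have := (isLocalAtFin_finEmb57 v₀ h).1 w i j
  change InfinitePlace.Completion.extensionEmbedding w _ = _
  rw [this, Units.val_one, Matrix.one_apply, Matrix.one_apply]
  split_ifs <;> simp

theorem finEmb_injective57 (v₀ : HeightOneSpectrum (𝓞 K)) :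
    Function.Injective (finEmb57 (K := K) v₀) := by
  intro a b hab
  have := congrArg (AS.finGL K v₀) hab
  rwa [finGL_finEmb57, finGL_finEmb57] at this

/-- `ι₀(k) ∈ U(𝔫)` for `k ∈ GL₂(𝒪_{v₀})`, `v₀ ∤ 𝔫`. -/
theorem inLevelGroup_finEmb57 (𝔫 : Ideal (𝓞 K)) (v₀ : HeightOneSpectrum (𝓞 K))
    (hv₀ : ¬ v₀.asIdeal ∣ 𝔫) (k : GL (Fin 2) (v₀.adicCompletion K)) (hk : AS.IsIntGL v₀ k) :
    InLevelGroup 𝔫 (finEmb57 v₀ k) := by
  refine ⟨(isLocalAtFin_finEmb57 v₀ k).1, ?_⟩
  have : InU057 𝔫 (finEmb57 v₀ k) := by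
    rw [inU0_iff_loc57]
    intro v
    by_cases hv : v = v₀
    · subst hv
      rw [finGL_finEmb57, locU_iff_isIntGL57 𝔫 v hv₀]
      exact hk
    · rw [finGL_finEmb_ne57 v₀ k v hv]
      exact locU_one57 𝔫 v
  exact this

end Fermat.Agent.LT.T3.H57

end

end
-- ===== PACK-END LT/T3/H57/ROpEmb.lean

-- ===== PACK-BEGIN LT/T3/H736/ASSmooth.lean
section


/-!
# Row LT, tower T3, station T3.18a -- THE SMOOTH FORM (ruling R4 of helper797; sub-architect helper736)

OFF-MAIN.  Nothing of `ASSpec.lean` / `ASTop.lean` is changed.  Ruling R4 (chief helper797,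
13:50Z): test functions are smooth at infinity (`T2.IsSmoothAtInf`).  This file provides the
station in that form:

* `IsSmoothInf K f` = `T2.IsSmoothAtInf f`, written out (no import of the T2 Spec);
* `IsCplxSmooth F`: the local condition on `GL₂(ℂ)`;
* `AbelCplxSmoothC` (leaf AS.2s): `AbelCplxC` with `F` smooth in addition;
* `pureSmooth` (PROVED here): the pure tensor is smooth at infinity if every `F_w` is;
* `AbelSatakeSmoothC K`: `T3.AbelSatakeC K` with `IsSmoothInf K f` in addition;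
* `abelSatakeSmooth_of : SatakeLocC K → AbelCplxSmoothC → PureRegC K → NIntC K → ROpC K →
  AbelSatakeSmoothC K` (PROVED) and `abelSatake_of_smooth : AbelSatakeSmoothC K → AbelSatakeC K`.

So R4 costs the station exactly one strengthened leaf, AS.2s, all the rest is unchanged.
-/

set_option autoImplicit false

open IsDedekindDomain NumberField MeasureTheory
open Fermat.Agent.LT.H556.A0

noncomputable section

namespace Fermat.Agent.LT.T3.AS

variable (K : Type) [Field K] [NumberField K]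

/-- `f` is smooth in the archimedean variables (= `T2.IsSmoothAtInf`, verbatim): smooth along
every smooth finite-dimensional family of elements supported at the infinite places. -/
def IsSmoothInf (f : G K → ℂ) : Prop :=
  ∀ (n : ℕ) (h : (Fin n → ℝ) → G K),
    (∀ (t : Fin n → ℝ) (v : HeightOneSpectrum (𝓞 K)), TrivAtFin v (h t)) →
    (∀ (w : InfinitePlace K) (i j : Fin 2),
      ContDiff ℝ ((⊤ : ℕ∞) : WithTop ℕ∞) (fun t => infComp w (h t) i j)) →
    ∀ g : G K, ContDiff ℝ ((⊤ : ℕ∞) : WithTop ℕ∞) (fun t => f (g * h t))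

/-- `F` is smooth on `GL₂(ℂ)`: smooth along every smooth finite-dimensional family. -/
def IsCplxSmooth (F : GL (Fin 2) ℂ → ℂ) : Prop :=
  ∀ (n : ℕ) (h : (Fin n → ℝ) → GL (Fin 2) ℂ),
    (∀ i j : Fin 2, ContDiff ℝ ((⊤ : ℕ∞) : WithTop ℕ∞)
      (fun t => ((h t : GL (Fin 2) ℂ) : Matrix (Fin 2) (Fin 2) ℂ) i j)) →
    ContDiff ℝ ((⊤ : ℕ∞) : WithTop ℕ∞) (fun t => F (h t))

/-- **AS.2s (complex place, smooth form).**  `AbelCplxC` with `F` smooth in addition.
With `F(x) = ρ(chD x, log |det x|)`, `chD x = tr(x x*) / (2 |det x|)`,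
`ρ(y, c) = - ∂_y G(y, c) / 2π` where `β((c+u)/2, (c-u)/2) = G(cosh u, c)`: the only new point is
that an even smooth function of `u` is a smooth function of `cosh u` (Whitney 1943, with the
parameter `c`), smooth up to the boundary `y = 1`; `ContDiffOn` on `Ici 1 ×ˢ univ` suffices
because `chD ≥ 1` (`ContDiffOn.comp`). -/
def AbelCplxSmoothC : Prop :=
  letI : MeasurableSpace (GL (Fin 2) ℂ) := borel (GL (Fin 2) ℂ)
  ∃ μc : Measure (GL (Fin 2) ℂ), μc.IsHaarMeasure ∧
    ∃ κc : ℂ, κc ≠ 0 ∧ ∀ β : ℝ × ℝ → ℂ, IsSymBump β →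
      ∃ F : GL (Fin 2) ℂ → ℂ, IsCplxTest F ∧ IsCplxSmooth F ∧ HasAbelN F β ∧
        ActsBy μc F (κc * ∫ x : ℝ × ℝ, β x)

theorem abelCplx_of_smooth (h : AbelCplxSmoothC) : AbelCplxC := by
  obtain ⟨μc, hμc, κc, hκc, hF⟩ := h
  refine ⟨μc, hμc, κc, hκc, fun β hβ => ?_⟩
  obtain ⟨F, h1, -, h2, h3⟩ := hF β hβ
  exact ⟨F, h1, h2, h3⟩

/-- **T3.18a in the smooth form** (ruling R4): `T3.AbelSatakeC K` with `f` smooth at infinity. -/
def AbelSatakeSmoothC : Prop :=
  letI : MeasurableSpace (Adl K) := borel (Adl K)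
  letI : MeasurableSpace (G K) := borel (G K)
  (∀ w : InfinitePlace K, w.IsComplex) →
  ∀ μ : Measure (G K), μ.IsHaarMeasure → ∀ ν : Measure (Adl K), ν.IsAddHaarMeasure →
  ∀ 𝔫 : Ideal (𝓞 K), 𝔫 ≠ ⊥ → ∀ v₀ : HeightOneSpectrum (𝓞 K), ¬ v₀.asIdeal ∣ 𝔫 →
  ∀ (a₀ : 𝓞 K) (n : ℕ), 0 < n → Ideal.span {a₀} = v₀.asIdeal ^ n → a₀ - 1 ∈ 𝔫 →
  ∀ α : Kˣ, (α : K) = algebraMap (𝓞 K) K a₀ →
    ∃ (κ : G K → G K → ℂ) (Δ : G K → G K → Coord K) (κ₀ : ℂ), κ₀ ≠ 0 ∧
      ∀ Φ : Coord K → ℂ, Φ ∈ SymSpan K →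
        ∃ f : G K → ℂ, Continuous f ∧ HasCompactSupport f ∧
          IsBiInv K 𝔫 f ∧ IsSuppAt K 𝔫 v₀ f ∧ IsSmoothInf K f ∧
          (∀ (g g' : G K) (j : ℤ),
            ∫ x, f (g⁻¹ * unip K x * torK K α ^ j * g') ∂ν
              = κ g g' * Φ (Δ g g' + j • coordTor K n α)) ∧
          ∀ φ : G K → ℂ, IsSph0Level K 𝔫 φ → ∀ a b z₁ z₂ : ℂ, IsHeckeEigenAt φ v₀ a b →
            z₁ + z₂ = a → z₁ * z₂ = b → b ≠ 0 →
            ∀ g : G K, Rop K μ f φ g = κ₀ * ftCoord K Φ z₁ z₂ * φ g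

theorem abelSatake_of_smooth (h : AbelSatakeSmoothC K) : AbelSatakeC K := by
  intro hcx μ hμ ν hν 𝔫 h𝔫 v₀ hv₀ a₀ n hn hspan hcong α hα
  obtain ⟨κ, Δ, κ₀, hκ₀, H⟩ := h hcx μ hμ ν hν 𝔫 h𝔫 v₀ hv₀ a₀ n hn hspan hcong α hα
  refine ⟨κ, Δ, κ₀, hκ₀, fun Φ hΦ => ?_⟩
  obtain ⟨f, h1, h2, h3, h4, -, h5, h6⟩ := H Φ hΦ
  exact ⟨f, h1, h2, h3, h4, h5, h6⟩

variable {K}

theorem IsSmoothInf.zero : IsSmoothInf K (0 : G K → ℂ) :=
  fun _ _ _ _ _ => contDiff_const

theorem IsSmoothInf.add {f₁ f₂ : G K → ℂ} (h₁ : IsSmoothInf K f₁) (h₂ : IsSmoothInf K f₂) :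
    IsSmoothInf K (f₁ + f₂) :=
  fun n h hf hi g => (h₁ n h hf hi g).add (h₂ n h hf hi g)

theorem IsSmoothInf.smul {f : G K → ℂ} (h₁ : IsSmoothInf K f) (c : ℂ) :
    IsSmoothInf K (c • f) :=
  fun n h hf hi g => contDiff_const.mul (h₁ n h hf hi g)

/-! ## The pure tensor is smooth at infinity -/

theorem finComp_mul (v : HeightOneSpectrum (𝓞 K)) (g h : G K) :
    finComp v (g * h) = finComp v g * finComp v h := by
  rw [← finGL_coe, ← finGL_coe, ← finGL_coe, map_mul]
  rfl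

theorem infComp_mul (w : InfinitePlace K) (g h : G K) :
    infComp w (g * h) = infComp w g * infComp w h := by
  rw [← infGL_coe, ← infGL_coe, ← infGL_coe, map_mul]
  rfl

theorem finGL_eq_one_of_triv (v : HeightOneSpectrum (𝓞 K)) {h : G K} (hh : TrivAtFin v h) :
    finGL K v h = 1 := by
  apply Units.ext
  rw [finGL_coe]
  exact hh

theorem outsideU_mul_triv (𝔫 : Ideal (𝓞 K)) (v₀ : HeightOneSpectrum (𝓞 K)) (g h : G K)
    (hh : ∀ v : HeightOneSpectrum (𝓞 K), TrivAtFin v h) :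
    OutsideU K 𝔫 v₀ (g * h) ↔ OutsideU K 𝔫 v₀ g := by
  have e1 : ∀ v : HeightOneSpectrum (𝓞 K), finComp v (g * h) = finComp v g := fun v => by
    rw [← finGL_coe, ← finGL_coe, map_mul, finGL_eq_one_of_triv v (hh v), mul_one]
  have e2 : ∀ v : HeightOneSpectrum (𝓞 K), finComp v (g * h)⁻¹ = finComp v g⁻¹ := fun v => by
    rw [← finGL_coe, ← finGL_coe, mul_inv_rev, map_mul, map_inv,
      finGL_eq_one_of_triv v (hh v), inv_one, one_mul]
  unfold OutsideU
  simp only [e1, e2]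

/-- **The pure tensor is smooth at infinity** if every `F_w` is smooth. -/
theorem pureSmooth (𝔫 : Ideal (𝓞 K)) (v₀ : HeightOneSpectrum (𝓞 K))
    (f₀ : GL (Fin 2) (v₀.adicCompletion K) → ℂ) (F : InfinitePlace K → GL (Fin 2) ℂ → ℂ)
    (hF : ∀ w, IsCplxSmooth (F w)) : IsSmoothInf K (pureFn K 𝔫 v₀ f₀ F) := by
  intro n h hfin hinf g
  have key : ∀ c : ℂ, ContDiff ℝ ((⊤ : ℕ∞) : WithTop ℕ∞)
      (fun t => c * ∏ w : InfinitePlace K, F w (infGL K w g * infGL K w (h t))) := by
    intro c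
    refine contDiff_const.mul (contDiff_prod fun w _ => ?_)
    refine hF w n (fun t => infGL K w g * infGL K w (h t)) fun i j => ?_
    have : (fun t => ((infGL K w g * infGL K w (h t) : GL (Fin 2) ℂ) :
        Matrix (Fin 2) (Fin 2) ℂ) i j)
        = fun t => ∑ k : Fin 2, infComp w g i k * infComp w (h t) k j := by
      funext t
      rw [Units.val_mul, infGL_coe, infGL_coe, Matrix.mul_apply]
    rw [this]
    exact ContDiff.sum fun k _ => contDiff_const.mul (hinf w k j)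
  by_cases hg : OutsideU K 𝔫 v₀ g
  · have e : (fun t => pureFn K 𝔫 v₀ f₀ F (g * h t))
        = fun t => f₀ (finGL K v₀ g)
            * ∏ w : InfinitePlace K, F w (infGL K w g * infGL K w (h t)) := by
      funext t
      unfold pureFn
      rw [if_pos ((outsideU_mul_triv 𝔫 v₀ g (h t) (hfin t)).2 hg)]
      simp only [map_mul, finGL_eq_one_of_triv v₀ (hfin t v₀), mul_one]
    rw [e]
    exact key _
  · have e : (fun t => pureFn K 𝔫 v₀ f₀ F (g * h t)) = fun _ => 0 := by
      funext t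
      unfold pureFn
      rw [if_neg fun h' => hg ((outsideU_mul_triv 𝔫 v₀ g (h t) (hfin t)).1 h')]
    rw [e]
    exact contDiff_const

/-! ## The top in the smooth form -/

variable (K)

/-- **T3.18a, the top in the smooth form.** -/
theorem abelSatakeSmooth_of (h1 : SatakeLocC K) (h2 : AbelCplxSmoothC) (h3 : PureRegC K)
    (h4 : NIntC K) (h5 : ROpC K) : AbelSatakeSmoothC K := by
  let _ : MeasurableSpace (Adl K) := borel (Adl K)
  let _ : MeasurableSpace (G K) := borel (G K)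
  let _ : MeasurableSpace (GL (Fin 2) ℂ) := borel (GL (Fin 2) ℂ)
  have _ : BorelSpace (G K) := ⟨rfl⟩
  intro hcx μ hμ ν hν 𝔫 h𝔫 v₀ hv₀ a₀ n hn hspan hcong α hα
  obtain ⟨μc, hμc, κc, hκc, hAbel⟩ := h2
  obtain ⟨κ, Δ, hN⟩ := h4 hcx ν hν 𝔫 h𝔫 v₀ hv₀ a₀ n hn hspan hcong α hα
  obtain ⟨κ₁, hκ₁, hR⟩ := h5 hcx μ hμ μc hμc 𝔫 h𝔫 v₀ hv₀
  refine ⟨κ, Δ, κ₁ * κc ^ Fintype.card (InfinitePlace K),
    mul_ne_zero hκ₁ (pow_ne_zero _ hκc), ?_⟩
  intro Φ hΦ
  suffices h : ∃ f : G K → ℂ,
      IsASPair K μ ν 𝔫 v₀ n α κ Δ (κ₁ * κc ^ Fintype.card (InfinitePlace K)) Φ f ∧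
        IsSmoothInf K f by
    obtain ⟨f, hf, hs⟩ := h
    exact ⟨f, hf.cont, hf.supp, hf.bi_inv, hf.supp_at, hs, hf.n_int, hf.op⟩
  induction hΦ using Submodule.span_induction with
  | zero => exact ⟨0, IsASPair.zero, IsSmoothInf.zero⟩
  | add Φ₁ Φ₂ _ _ ih₁ ih₂ =>
    obtain ⟨f₁, hf₁, hs₁⟩ := ih₁
    obtain ⟨f₂, hf₂, hs₂⟩ := ih₂
    exact ⟨f₁ + f₂, hf₁.add hf₂, hs₁.add hs₂⟩
  | smul c Φ _ ih =>
    obtain ⟨f, hf, hs⟩ := ih
    exact ⟨c • f, hf.smul c, hs.smul c⟩
  | mem Φ hΦ =>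
    obtain ⟨A, β, hAfin, hAsym, hβ, hΦ⟩ := hΦ
    have hΦ' : Φ = pureCoord K A β := funext fun p => hΦ p.1 p.2
    subst hΦ'
    obtain ⟨f₀, hpair⟩ := h1 v₀ A ⟨hAfin, hAsym⟩
    choose F hF1 hFs hF2 hF3 using fun w : InfinitePlace K => hAbel (β w) (hβ w)
    obtain ⟨r1, r2, r3, r4⟩ := h3 𝔫 h𝔫 v₀ hv₀ f₀ F hpair.bi_inv hpair.fin_supp hF1
    have hNN := hN A β f₀ F hpair.bi_inv hpair.fin_supp hpair.n_int hF1 hF2
    refine ⟨pureFn K 𝔫 v₀ f₀ F, ?_, pureSmooth 𝔫 v₀ f₀ F hFs⟩
    refine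
      { fin_m := ⟨hAfin.toFinset, fun m hm x => ?_⟩
        int_x := fun m => ?_
        cont := r1
        supp := r2
        bi_inv := r3
        supp_at := r4
        n_integrable := fun g g' j => (hNN g g' j).1
        n_int := fun g g' j => (hNN g g' j).2
        op := fun φ hφ a b z₁ z₂ he hz₁ hz₂ hb g => ?_ }
    · rw [Set.Finite.mem_toFinset, Function.mem_support, not_not] at hm
      simp [pureCoord, hm]
    · have : (fun x : InfinitePlace K → ℝ × ℝ => pureCoord K A β (m, x))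
          = fun x => A m * ∏ w : InfinitePlace K, β w (x w) := rfl
      rw [this]
      refine Integrable.const_mul ?_ _
      exact Integrable.fintype_prod (f := β) (μ := fun _ => volume) fun w =>
        (hβ w).1.continuous.integrable_of_hasCompactSupport (hβ w).2.1
    · rw [hR A (fun w => κc * ∫ x : ℝ × ℝ, β w x) f₀ F hpair.bi_inv hpair.fin_supp hpair.eigen
        hF1 hF3 φ hφ a b z₁ z₂ he hz₁ hz₂ hb g, ftCoord_pure, Finset.prod_mul_distrib,
        Finset.prod_const, Finset.card_univ]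
      ring

end Fermat.Agent.LT.T3.AS

end

end
-- ===== PACK-END LT/T3/H736/ASSmooth.lean

-- ===== PACK-BEGIN LT/T3/H800/LocValInf.lean
section



/-!
# Row LT, tower T3, sub-leaf T3.18a.4.7 = N.7 `LocValInfC` (helper800), OFF-MAIN

`locValInfC800 : T3.AS.N893.LocValInfC K` for every number field `K`, the Prop of
`LT/T3/H893/NIntSpec.lean` (helper893@8b0672b54, sha256 1ddb5c4572c4) VERBATIM, UNCONDITIONAL.

Proof.  With `d₁ = (c₁ αʲ)_w`, `d₂ = (c₂)_w ∈ ℂˣ`: `z ↦ upperGL d₁ d₂ (z + t)` is continuous into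
`GL₂(ℂ)` (units topology: the matrix and its inverse have continuous entries), the support is
contained in the translate of the image of `tsupport F` under the entry `(0,1)`, Lebesgue measure
is translation invariant, `HasAbelN` at `(d₁, d₂)`, and `‖d₁‖ = ‖(c₁)_w‖ (w α)ʲ` because
`extensionEmbedding` is isometric and `‖α‖_w = w α`.
-/

set_option autoImplicit false

open IsDedekindDomain NumberField MeasureTheory
open Fermat.Agent.LT.H556.A0

noncomputable section

namespace Fermat.Agent.LT.T3.H800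

open Fermat.Agent.LT.T3 Fermat.Agent.LT.T3.AS Fermat.Agent.LT.T3.AS.N893

/-! ## 1. `z ↦ [[d₁, z + t], [0, d₂]]` -/

theorem continuous_upperGL800 (d₁ d₂ : ℂˣ) (t : ℂ) :
    Continuous (fun z : ℂ => upperGL d₁ d₂ (z + t)) := by
  rw [Units.continuous_iff]
  constructor
  · have h : (Units.val ∘ fun z : ℂ => upperGL d₁ d₂ (z + t))
        = fun z : ℂ => (!![(d₁ : ℂ), z + t; 0, (d₂ : ℂ)] : Matrix (Fin 2) (Fin 2) ℂ) := by
      funext z
      rfl
    rw [h]
    refine continuous_matrix fun i j => ?_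
    fin_cases i <;> fin_cases j
    · exact continuous_const
    · exact continuous_id.add continuous_const
    · exact continuous_const
    · exact continuous_const
  · have h : (fun z : ℂ => (((upperGL d₁ d₂ (z + t))⁻¹ : GL (Fin 2) ℂ) :
          Matrix (Fin 2) (Fin 2) ℂ))
        = fun z : ℂ => (!![((d₁⁻¹ : ℂˣ) : ℂ), -(((d₁⁻¹ : ℂˣ) : ℂ) * (z + t) * ((d₂⁻¹ : ℂˣ) : ℂ));
            0, ((d₂⁻¹ : ℂˣ) : ℂ)] : Matrix (Fin 2) (Fin 2) ℂ) := by
      funext z
      rfl
    rw [h]
    refine continuous_matrix fun i j => ?_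
    fin_cases i <;> fin_cases j
    · exact continuous_const
    · exact ((continuous_const.mul (continuous_id.add continuous_const)).mul
        continuous_const).neg
    · exact continuous_const
    · exact continuous_const

/-- The entry `(0,1)` is continuous on `GL₂(ℂ)`. -/
theorem continuous_entry800 :
    Continuous (fun g : GL (Fin 2) ℂ => (g : Matrix (Fin 2) (Fin 2) ℂ) 0 1) :=
  Continuous.matrix_elem (Units.continuous_val (M := Matrix (Fin 2) (Fin 2) ℂ)) 0 1

theorem hasCompactSupport_upperGL800 {F : GL (Fin 2) ℂ → ℂ} (hF : HasCompactSupport F)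
    (d₁ d₂ : ℂˣ) (t : ℂ) :
    HasCompactSupport (fun z : ℂ => F (upperGL d₁ d₂ (z + t))) := by
  have hC : IsCompact ((fun g : GL (Fin 2) ℂ => (g : Matrix (Fin 2) (Fin 2) ℂ) 0 1)
      '' tsupport F) := hF.image continuous_entry800
  have hC' : IsCompact ((fun y : ℂ => y - t) ''
      ((fun g : GL (Fin 2) ℂ => (g : Matrix (Fin 2) (Fin 2) ℂ) 0 1) '' tsupport F)) :=
    hC.image (continuous_id.sub continuous_const)
  refine HasCompactSupport.intro hC' fun z hz => ?_
  by_contra hne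
  apply hz
  refine ⟨z + t, ⟨upperGL d₁ d₂ (z + t), subset_tsupport F hne, rfl⟩, ?_⟩
  simp

/-! ## 2. The norm of the component at `w` -/

variable (K : Type) [Field K] [NumberField K]

theorem infHom_apply800 (w : InfinitePlace K) (x : Adl K) :
    infHom K w x = InfinitePlace.Completion.extensionEmbedding w (x.1 w) := rfl

theorem norm_infHom_algebraMap800 (w : InfinitePlace K) (a : K) :
    ‖infHom K w (algebraMap K (Adl K) a)‖ = w a := by
  rw [infHom_apply800, NumberField.AdeleRing.algebraMap_fst_apply]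
  have h := (InfinitePlace.Completion.isometry_extensionEmbedding w).norm_map_of_map_zero
    (map_zero _) (a : w.Completion)
  rw [h]
  exact InfinitePlace.Completion.norm_coe w (WithAbs.toAbs w.1 a)

theorem norm_infU_ratUnit800 (w : InfinitePlace K) (α : Kˣ) :
    ‖((infU K w (T1.ratUnit K α) : ℂˣ) : ℂ)‖ = w (α : K) := by
  rw [infU_coe]
  exact norm_infHom_algebraMap800 K w (α : K)

theorem norm_infU_mul_zpow800 (w : InfinitePlace K) (α : Kˣ) (c₁ : (Adl K)ˣ) (j : ℤ) :
    ‖((infU K w (c₁ * T1.ratUnit K α ^ j) : ℂˣ) : ℂ)‖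
      = ‖((infU K w c₁ : ℂˣ) : ℂ)‖ * (w (α : K)) ^ j := by
  rw [map_mul, map_zpow, Units.val_mul, norm_mul, Units.val_zpow_eq_zpow_val, norm_zpow,
    norm_infU_ratUnit800]

/-! ## 3. The leaf -/

/-- **Sub-leaf N.7 `LocValInfC`** (cut of helper893 of AS.4 `NIntC`). -/
theorem locValInfC800 : LocValInfC K := by
  intro α w F β hF hβ c₁ c₂ j t
  refine ⟨hF.cont.comp (continuous_upperGL800 _ _ t),
    hasCompactSupport_upperGL800 hF.supp _ _ t, ?_⟩
  have h1 : ∫ z : ℂ, F (upperGL (infU K w (c₁ * T1.ratUnit K α ^ j)) (infU K w c₂) (z + t))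
      = ∫ z : ℂ, F (upperGL (infU K w (c₁ * T1.ratUnit K α ^ j)) (infU K w c₂) z) :=
    integral_add_right_eq_self
      (fun z : ℂ => F (upperGL (infU K w (c₁ * T1.ratUnit K α ^ j)) (infU K w c₂) z)) t
  rw [h1, hβ, norm_infU_mul_zpow800]
  have hc₁ : 0 < ‖((infU K w c₁ : ℂˣ) : ℂ)‖ := norm_pos_iff.mpr (Units.ne_zero _)
  have hα : 0 < w (α : K) := by
    rw [← norm_infU_ratUnit800]
    exact norm_pos_iff.mpr (Units.ne_zero _)
  have hlog : Real.log (‖((infU K w c₁ : ℂˣ) : ℂ)‖ * (w (α : K)) ^ j)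
      = Real.log ‖((infU K w c₁ : ℂˣ) : ℂ)‖ + j * Real.log (w (α : K)) := by
    rw [Real.log_mul hc₁.ne' (zpow_ne_zero _ hα.ne'), Real.log_zpow]
  rw [hlog]
  congr 2
  ring

end Fermat.Agent.LT.T3.H800

end

end
-- ===== PACK-END LT/T3/H800/LocValInf.lean

-- ===== PACK-BEGIN LT/T3/H893/NIntTop.lean
section



/-!
# Row LT, tower T3, leaf AS.4 `NIntC`: THE TOP of the cut of helper893

OFF-MAIN.  `nIntC_of893 : IwasawaFormC K → PureUpperC K → OutsideCosetC K → AffineC K → SplitC K →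
LocValFinC K → LocValInfC K → ProdFormC K → AS.NIntC K` (`AS.NIntC` VERBATIM).
-/

set_option autoImplicit false
set_option linter.style.haveILetI false

open IsDedekindDomain NumberField MeasureTheory
open Fermat.Agent.LT.H556.A0

noncomputable section

namespace Fermat.Agent.LT.T3.AS.N893

variable (K : Type) [Field K] [NumberField K]

/-- The coordinates of the translate `Δ + j c₀`. -/
theorem pureCoord_shift893 (A : ℤ × ℤ → ℂ) (β : InfinitePlace K → ℝ × ℝ → ℂ) (o₁ o₂ : ℤ)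
    (l₁ l₂ : InfinitePlace K → ℝ) (n : ℕ) (α : Kˣ) (j : ℤ) :
    pureCoord K A β (((o₁, o₂), fun w => (l₁ w, l₂ w)) + j • coordTor K n α)
      = A (o₁ + j * n, o₂) * ∏ w : InfinitePlace K,
          β w (l₁ w + j * Real.log (w (α : K)), l₂ w) := by
  unfold pureCoord coordTor
  simp only [Prod.smul_mk, Prod.mk_add_mk, Pi.add_apply, Pi.smul_apply]
  simp only [smul_eq_mul, mul_zero, add_zero, zsmul_eq_mul]

/-- The constant algebra of the top. -/
theorem top_algebra893 (ι : Type) [Fintype ι] (ca c₀ V q0 qn A : ℂ) (N y B : ι → ℂ) (j : ℤ)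
    (hprod : qn * ∏ w, y w = 1) :
    ca * (c₀ * (V * q0 * qn ^ j * A) * ∏ w, (N w * y w ^ j) * B w)
      = (ca * c₀ * V * q0 * ∏ w, N w) * (A * ∏ w, B w) := by
  have h1 : ∏ w, (N w * y w ^ j) * B w = (∏ w, N w) * (∏ w, y w) ^ j * ∏ w, B w := by
    rw [Finset.prod_mul_distrib, Finset.prod_mul_distrib, Finset.prod_zpow]
  have h2 : qn ^ j * (∏ w, y w) ^ j = 1 := by
    rw [← mul_zpow, hprod, one_zpow]
  rw [h1]
  calc ca * (c₀ * (V * q0 * qn ^ j * A) * ((∏ w, N w) * (∏ w, y w) ^ j * ∏ w, B w))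
      = (ca * c₀ * V * q0 * ∏ w, N w) * (A * ∏ w, B w) * (qn ^ j * (∏ w, y w) ^ j) := by ring
    _ = (ca * c₀ * V * q0 * ∏ w, N w) * (A * ∏ w, B w) := by rw [h2, mul_one]

/-- **THE TOP of AS.4.** -/
theorem nIntC_of893 (h1 : IwasawaFormC K) (h2 : PureUpperC K) (h3 : OutsideCosetC K)
    (h4 : AffineC K) (h5 : SplitC K) (h6 : LocValFinC K) (h7 : LocValInfC K)
    (h8 : ProdFormC K) : NIntC K := by
  intro hcplx ν hν 𝔫 h𝔫 v₀ hv₀ a₀ n hn hspan hcong α hα
  letI : MeasurableSpace (Adl K) := borel (Adl K)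
  letI : MeasurableSpace (v₀.adicCompletion K) := borel (v₀.adicCompletion K)
  have hfr : Frame K 𝔫 v₀ a₀ n α := ⟨h𝔫, hv₀, hn, hspan, hcong, hα⟩
  obtain ⟨ν₀, hν₀, c₀, hsplit⟩ := h5 hcplx ν hν 𝔫 h𝔫 v₀
  choose k₁ k' c₁ c₂ a hk₁ hk' hform using h1 α
  choose ca hca using fun g g' : G K => h4 ν hν (a g g')
  have hprodform := h8 hcplx 𝔫 v₀ a₀ n α hfr
  classical
  refine ⟨fun g g' =>
      if ∃ (j : ℤ) (X : Adl K), OutsideU K 𝔫 v₀
          (k₁ g g' * upperGL (c₁ g g' * T1.ratUnit K α ^ j) (c₂ g g') X * k' g g') then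
        ca g g' * c₀
          * ((ν₀ (v₀.adicCompletionIntegers K : Set (v₀.adicCompletion K))).toReal : ℂ)
          * (((Ideal.absNorm v₀.asIdeal : ℝ) ^
              (-(((ordA K v₀ (c₁ g g') + ordA K v₀ (c₂ g g') : ℤ) : ℝ)) / 2) : ℝ) : ℂ)
          * ∏ w : InfinitePlace K, ((‖((infU K w (c₁ g g') : ℂˣ) : ℂ)‖
              * ‖((infU K w (c₂ g g') : ℂˣ) : ℂ)‖ : ℝ) : ℂ)
      else 0,
    fun g g' => ((ordA K v₀ (c₁ g g'), ordA K v₀ (c₂ g g')),
      fun w => (Real.log ‖((infU K w (c₁ g g') : ℂˣ) : ℂ)‖,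
        Real.log ‖((infU K w (c₂ g g') : ℂˣ) : ℂ)‖)), ?_⟩
  intro A β f₀ F hf₀ hR hSat hF hAb g g' j
  obtain ⟨r, hr⟩ := hform g g' j
  -- the pure tensor in upper triangular form
  have hP : ∀ x : Adl K, pureFn K 𝔫 v₀ f₀ F (g⁻¹ * unip K x * torK K α ^ j * g')
      = (if OutsideU K 𝔫 v₀ (k₁ g g' * upperGL (c₁ g g' * T1.ratUnit K α ^ j) (c₂ g g')
            ((a g g' : Adl K) * x + r) * k' g g') then (1 : ℂ) else 0)
        * f₀ (upperGL (finU K v₀ (c₁ g g' * T1.ratUnit K α ^ j)) (finU K v₀ (c₂ g g'))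
            (finHom K v₀ ((a g g' : Adl K) * x + r)))
        * ∏ w : InfinitePlace K, F w (upperGL (infU K w (c₁ g g' * T1.ratUnit K α ^ j))
            (infU K w (c₂ g g')) (infHom K w ((a g g' : Adl K) * x + r))) := by
    intro x
    rw [hr x]
    exact h2 𝔫 v₀ f₀ F hf₀ hF (k₁ g g') (k' g g') (hk₁ g g') (hk' g g') _ _ _
  beta_reduce
  rw [pureCoord_shift893]
  by_cases hex : ∃ (j : ℤ) (X : Adl K), OutsideU K 𝔫 v₀
      (k₁ g g' * upperGL (c₁ g g' * T1.ratUnit K α ^ j) (c₂ g g') X * k' g g')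
  · rw [if_pos hex]
    obtain ⟨j₀, X₀, hX₀⟩ := hex
    -- the condition outside `S'` is the indicator of a coset
    have hind : ∀ X : Adl K,
        (if OutsideU K 𝔫 v₀ (k₁ g g' * upperGL (c₁ g g' * T1.ratUnit K α ^ j) (c₂ g g') X
            * k' g g') then (1 : ℂ) else 0)
          = (outGrp K 𝔫 v₀).indicator (fun _ => (1 : ℂ)) (X - X₀) := by
      intro X
      have hiff := h3 𝔫 v₀ a₀ n α hfr (k₁ g g') (k' g g') (hk₁ g g') (hk' g g')
        (c₁ g g') (c₂ g g') j₀ j X₀ X hX₀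
      by_cases hO : OutsideU K 𝔫 v₀ (k₁ g g' * upperGL (c₁ g g' * T1.ratUnit K α ^ j)
          (c₂ g g') X * k' g g')
      · rw [if_pos hO, Set.indicator_of_mem (hiff.1 hO)]
      · rw [if_neg hO, Set.indicator_of_notMem (fun h => hO (hiff.2 h))]
    -- the local functions
    set φ₀ : v₀.adicCompletion K → ℂ := fun x =>
      f₀ (upperGL (finU K v₀ (c₁ g g' * T1.ratUnit K α ^ j)) (finU K v₀ (c₂ g g'))
        (x + finHom K v₀ X₀)) with hφ₀
    set φ : InfinitePlace K → ℂ → ℂ := fun w z =>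
      F w (upperGL (infU K w (c₁ g g' * T1.ratUnit K α ^ j)) (infU K w (c₂ g g'))
        (z + infHom K w X₀)) with hφ
    set Q : Adl K → ℂ := fun Y => (outGrp K 𝔫 v₀).indicator (fun _ => (1 : ℂ)) Y
      * φ₀ (finHom K v₀ Y) * ∏ w : InfinitePlace K, φ w (infHom K w Y) with hQ
    have hPQ : (fun x : Adl K => pureFn K 𝔫 v₀ f₀ F (g⁻¹ * unip K x * torK K α ^ j * g'))
        = fun x : Adl K => Q ((a g g' : Adl K) * x + (r - X₀)) := by
      funext x
      rw [hP x, hind]
      have e : (a g g' : Adl K) * x + r - X₀ = (a g g' : Adl K) * x + (r - X₀) := by ring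
      have e2 : (a g g' : Adl K) * x + (r - X₀) + X₀ = (a g g' : Adl K) * x + r := by ring
      simp only [hQ, hφ₀, hφ]
      rw [e, ← map_add, e2]
      congr 1
      refine Finset.prod_congr rfl fun w _ => ?_
      rw [← map_add, e2]
    obtain ⟨hl1, hl2, hl3⟩ := h6 𝔫 v₀ a₀ n α hfr ν₀ hν₀ f₀ A hf₀ hR hSat (c₁ g g') (c₂ g g') j
      (finHom K v₀ X₀)
    have hw := fun w : InfinitePlace K =>
      h7 α w (F w) (β w) (hF w) (hAb w) (c₁ g g') (c₂ g g') j (infHom K w X₀)
    obtain ⟨hQi, hQv⟩ := hsplit φ₀ φ hl1 hl2 (fun w => (hw w).1) (fun w => (hw w).2.1)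
    obtain ⟨hPi, hPv⟩ := hca g g' (r - X₀) Q hQi
    rw [hPQ]
    refine ⟨hPi, ?_⟩
    rw [hPv, hQv, hl3]
    have hwv : ∀ w : InfinitePlace K, ∫ z : ℂ, φ w z
        = ((‖((infU K w (c₁ g g') : ℂˣ) : ℂ)‖ * ‖((infU K w (c₂ g g') : ℂˣ) : ℂ)‖
              * (w (α : K)) ^ j : ℝ) : ℂ)
          * β w (Real.log ‖((infU K w (c₁ g g') : ℂˣ) : ℂ)‖ + j * Real.log (w (α : K)),
              Real.log ‖((infU K w (c₂ g g') : ℂˣ) : ℂ)‖) := fun w => (hw w).2.2
    simp_rw [hwv]
    have hpf : (((Ideal.absNorm v₀.asIdeal : ℝ) ^ (-(n : ℝ) / 2) : ℝ) : ℂ)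
        * ∏ w : InfinitePlace K, ((w (α : K) : ℝ) : ℂ) = 1 := by
      rw [← Complex.ofReal_prod, ← Complex.ofReal_mul, hprodform, Complex.ofReal_one]
    have key := top_algebra893 (InfinitePlace K) (ca g g') c₀
      ((ν₀ (v₀.adicCompletionIntegers K : Set (v₀.adicCompletion K))).toReal : ℂ)
      (((Ideal.absNorm v₀.asIdeal : ℝ) ^
          (-(((ordA K v₀ (c₁ g g') + ordA K v₀ (c₂ g g') : ℤ) : ℝ)) / 2) : ℝ) : ℂ)
      (((Ideal.absNorm v₀.asIdeal : ℝ) ^ (-(n : ℝ) / 2) : ℝ) : ℂ)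
      (A (ordA K v₀ (c₁ g g') + j * n, ordA K v₀ (c₂ g g')))
      (fun w => ((‖((infU K w (c₁ g g') : ℂˣ) : ℂ)‖
          * ‖((infU K w (c₂ g g') : ℂˣ) : ℂ)‖ : ℝ) : ℂ))
      (fun w => ((w (α : K) : ℝ) : ℂ))
      (fun w => β w (Real.log ‖((infU K w (c₁ g g') : ℂˣ) : ℂ)‖ + j * Real.log (w (α : K)),
          Real.log ‖((infU K w (c₂ g g') : ℂˣ) : ℂ)‖)) j hpf
    rw [← key]
    congr 2
    · push_cast
      ring
    · refine Finset.prod_congr rfl fun w _ => ?_
      push_cast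
      ring
  · rw [if_neg hex, zero_mul]
    have hzero : (fun x : Adl K => pureFn K 𝔫 v₀ f₀ F (g⁻¹ * unip K x * torK K α ^ j * g'))
        = fun _ => (0 : ℂ) := by
      funext x
      rw [hP x, if_neg (fun h => hex ⟨j, _, h⟩)]
      simp
    rw [hzero]
    exact ⟨integrable_zero _ _ _, integral_zero _ _⟩

end Fermat.Agent.LT.T3.AS.N893

end

end
-- ===== PACK-END LT/T3/H893/NIntTop.lean

-- ===== PACK-BEGIN LT/T3/H922/OutsideCoset.lean
section





/-!
# Row LT, tower T3, leaf T3.18a.4.3 `N893.OutsideCosetC` (helper922) -- OFF-MAIN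

`outsideCosetC922 (K) : Fermat.Agent.LT.T3.AS.N893.OutsideCosetC K`, VERBATIM the Prop of
`LT/T3/H893/NIntSpec.lean` (helper893@8b0672b54, sha256 1ddb5c4572c4).

* `isIdl_idealClosure922` : the closure `𝔫 𝒪_v` is an ideal of `𝒪_v` (stable under the
  multiplication by `𝒪_v`: closure lemma `mem_idealClosure_of_le` of helper51, master copy);
* `alpha_mem_unitsOne922` : `α ≡ 1 mod 𝔫 𝒪_v`, `α⁻¹ ≡ 1 mod 𝔫 𝒪_v` at `v ≠ v₀`;
* the local statement `inU_coset922` of `LocalU.lean` at every `v ≠ v₀`.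
-/

set_option autoImplicit false
set_option linter.style.haveILetI false

open IsDedekindDomain NumberField MeasureTheory
open Fermat.Agent.LT.H556.A0
open scoped MatrixGroups

noncomputable section

namespace Fermat.Agent.LT.T3.H922

open Fermat.Agent.LT.T3.AS Fermat.Agent.LT.T3.AS.N893 Fermat.Agent.LT.T1

variable {K : Type} [Field K] [NumberField K]

/-- The local integers as a subring of `K_v`. -/
abbrev intO922 (v : HeightOneSpectrum (𝓞 K)) : Subring (v.adicCompletion K) :=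
  (v.adicCompletionIntegers K).toSubring

/-- The image of a global integer in `K_v`. -/
def imO922 (v : HeightOneSpectrum (𝓞 K)) (x : 𝓞 K) : v.adicCompletion K :=
  algebraMap K (v.adicCompletion K) (algebraMap (𝓞 K) K x)

theorem valued_imO922 (v : HeightOneSpectrum (𝓞 K)) (x : 𝓞 K) :
    Valued.v (imO922 v x) = v.valuation K (algebraMap (𝓞 K) K x) :=
  Fermat.Agent.LT.H51.MS4.valued_algebraMap v _

theorem imO_mem_int922 (v : HeightOneSpectrum (𝓞 K)) (x : 𝓞 K) :
    imO922 v x ∈ v.adicCompletionIntegers K := by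
  rw [HeightOneSpectrum.mem_adicCompletionIntegers, valued_imO922]
  exact v.valuation_le_one x

theorem imO_mem_idealClosure922 (𝔫 : Ideal (𝓞 K)) (v : HeightOneSpectrum (𝓞 K)) {x : 𝓞 K}
    (hx : x ∈ 𝔫) : imO922 v x ∈ idealClosure 𝔫 v :=
  subset_closure ⟨x, hx, rfl⟩

theorem idealClosure_subset_int922 (𝔫 : Ideal (𝓞 K)) (v : HeightOneSpectrum (𝓞 K)) :
    idealClosure 𝔫 v ⊆ (v.adicCompletionIntegers K : Set (v.adicCompletion K)) := by
  refine closure_minimal ?_ (Valued.isClosed_valuationSubring (v.adicCompletion K))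
  rintro _ ⟨x, -, rfl⟩
  exact imO_mem_int922 v x

/-- The closure of `𝔫` in `K_v` is an ideal of `𝒪_v`. -/
theorem isIdl_idealClosure922 (𝔫 : Ideal (𝓞 K)) (v : HeightOneSpectrum (𝓞 K)) :
    IsIdl922 (intO922 v) (idealClosure 𝔫 v) where
  zero := subset_closure ⟨0, 𝔫.zero_mem, by simp⟩
  add := by
    intro a b ha hb
    refine map_mem_closure₂ continuous_add ha hb ?_
    rintro _ ⟨x, hx, rfl⟩ _ ⟨y, hy, rfl⟩
    exact ⟨x + y, 𝔫.add_mem hx hy, by simp⟩
  smul := by
    intro a b ha hb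
    have hcl : closure (idealClosure 𝔫 v) = idealClosure 𝔫 v := closure_closure
    rw [← hcl]
    refine map_mem_closure (f := fun y => a * y) (continuous_const.mul continuous_id) hb ?_
    rintro _ ⟨x, hx, rfl⟩
    refine Fermat.Agent.LT.H51.MS4.mem_idealClosure_of_le v hx ?_
    have h1 : Valued.v (a * algebraMap K (v.adicCompletion K) (algebraMap (𝓞 K) K x))
        = Valued.v a * v.valuation K (algebraMap (𝓞 K) K x) := by
      rw [map_mul, Fermat.Agent.LT.H51.MS4.valued_algebraMap]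
    rw [h1]
    have ha1 : Valued.v a ≤ 1 := (HeightOneSpectrum.mem_adicCompletionIntegers _ _ _).mp ha
    exact mul_le_of_le_one_left' ha1
  sub := fun ha => idealClosure_subset_int922 𝔫 v ha

/-! ## Components -/

theorem outsideU_iff922 (𝔫 : Ideal (𝓞 K)) (v₀ : HeightOneSpectrum (𝓞 K)) (h : G K) :
    OutsideU K 𝔫 v₀ h ↔
      ∀ v : HeightOneSpectrum (𝓞 K), v ≠ v₀ → InU922 (idealClosure 𝔫 v) (finGL K v h) := by
  constructor
  · intro H v hv
    refine ⟨fun i j => (H v hv i j).1, fun i j => ?_⟩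
    rw [← map_inv]
    exact (H v hv i j).2
  · intro H v hv i j
    refine ⟨(H v hv).1 i j, ?_⟩
    have h2 := (H v hv).2 i j
    rw [← map_inv] at h2
    exact h2

theorem inGLO_of_stdCompact922 {k : G K} (hk : IsStdCompact K k) (v : HeightOneSpectrum (𝓞 K)) :
    InGLO922 (intO922 v) (finGL K v k) := by
  refine ⟨fun i j => (hk.1 v).1 i j, fun i j => ?_⟩
  rw [← map_inv]
  exact (hk.1 v).2 i j

theorem finGL_upperGL922 (v : HeightOneSpectrum (𝓞 K)) (c₁ c₂ : (Adl K)ˣ) (X : Adl K) :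
    finGL K v (upperGL c₁ c₂ X) = upperGL (finU K v c₁) (finU K v c₂) (finHom K v X) := by
  apply Units.ext
  refine Matrix.ext fun i j => ?_
  rw [finGL_coe, coe_upperGL922]
  show finHom K v (((upperGL c₁ c₂ X : G K) : Matrix (Fin 2) (Fin 2) (Adl K)) i j) = _
  rw [coe_upperGL922]
  fin_cases i <;> fin_cases j <;> simp [finU_coe]

/-- The image of `α` in `K_v` as a unit. -/
theorem finU_ratUnit_coe922 (v : HeightOneSpectrum (𝓞 K)) (α : Kˣ) :
    ((finU K v (ratUnit K α) : (v.adicCompletion K)ˣ) : v.adicCompletion K)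
      = algebraMap K (v.adicCompletion K) (α : K) := by
  rw [Fermat.Agent.LT.H51.MS4.algebraMap_eq_coe]
  rfl

/-- Under `Frame`, `a₀` does not lie in the primes `v ≠ v₀`. -/
theorem a0_not_mem922 {𝔫 : Ideal (𝓞 K)} {v₀ : HeightOneSpectrum (𝓞 K)} {a₀ : 𝓞 K} {n : ℕ}
    {α : Kˣ} (hF : Frame K 𝔫 v₀ a₀ n α) {v : HeightOneSpectrum (𝓞 K)} (hv : v ≠ v₀) :
    a₀ ∉ v.asIdeal := by
  intro ha
  have h1 : v₀.asIdeal ^ n ≤ v.asIdeal := by
    rw [← hF.span, Ideal.span_le]
    intro x hx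
    rw [Set.mem_singleton_iff] at hx
    rw [hx]
    exact ha
  have h2 : v₀.asIdeal ≤ v.asIdeal := v.isPrime.le_of_pow_le h1
  have h3 : v₀.asIdeal = v.asIdeal := v₀.isMaximal.eq_of_le v.isPrime.ne_top h2
  exact hv (HeightOneSpectrum.ext h3.symm)

/-- `α ≡ 1` and `α⁻¹ ≡ 1` modulo `𝔫 𝒪_v` at `v ≠ v₀`. -/
theorem alpha_mem_unitsOne922 {𝔫 : Ideal (𝓞 K)} {v₀ : HeightOneSpectrum (𝓞 K)} {a₀ : 𝓞 K}
    {n : ℕ} {α : Kˣ} (hF : Frame K 𝔫 v₀ a₀ n α) {v : HeightOneSpectrum (𝓞 K)} (hv : v ≠ v₀) :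
    finU K v (ratUnit K α) ∈ unitsOne922 (isIdl_idealClosure922 𝔫 v) := by
  have hI := isIdl_idealClosure922 𝔫 v
  have hu : ((finU K v (ratUnit K α) : (v.adicCompletion K)ˣ) : v.adicCompletion K)
      = imO922 v a₀ := by
    rw [finU_ratUnit_coe922, hF.coe]
    rfl
  have h1 : ((finU K v (ratUnit K α) : (v.adicCompletion K)ˣ) : v.adicCompletion K) - 1
      ∈ idealClosure 𝔫 v := by
    have h2 : imO922 v a₀ - 1 = imO922 v (a₀ - 1) := by
      unfold imO922
      rw [map_sub, map_sub, map_one, map_one]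
    rw [hu, h2]
    exact imO_mem_idealClosure922 𝔫 v hF.cong
  have hval : Valued.v (imO922 v a₀) = 1 := by
    rw [valued_imO922]
    refine le_antisymm (v.valuation_le_one a₀) ?_
    by_contra hlt
    rw [not_le] at hlt
    exact a0_not_mem922 hF hv ((v.valuation_lt_one_iff_mem a₀).mp hlt)
  have hinvO : (((finU K v (ratUnit K α))⁻¹ : (v.adicCompletion K)ˣ) : v.adicCompletion K)
      ∈ intO922 v := by
    show _ ∈ v.adicCompletionIntegers K
    rw [HeightOneSpectrum.mem_adicCompletionIntegers, Units.val_inv_eq_inv_val, map_inv₀, hu,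
      hval, inv_one]
  refine ⟨h1, ?_⟩
  have h3 : (((finU K v (ratUnit K α))⁻¹ : (v.adicCompletion K)ˣ) : v.adicCompletion K) - 1
      = -((((finU K v (ratUnit K α))⁻¹ : (v.adicCompletion K)ˣ) : v.adicCompletion K)
          * (((finU K v (ratUnit K α) : (v.adicCompletion K)ˣ) : v.adicCompletion K) - 1)) := by
    rw [mul_sub, Units.inv_mul, mul_one]
    ring
  rw [h3]
  exact hI.neg (hI.smul hinvO h1)

/-- **LEAF T3.18a.4.3 `OutsideCosetC`.** -/
theorem outsideCosetC922 (K : Type) [Field K] [NumberField K] : OutsideCosetC K := by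
  intro 𝔫 v₀ a₀ n α hF k₁ k' hk₁ hk' c₁ c₂ j j' X X' hout
  rw [outsideU_iff922] at hout ⊢
  have key : ∀ v : HeightOneSpectrum (𝓞 K), v ≠ v₀ →
      (InU922 (idealClosure 𝔫 v)
          (finGL K v (k₁ * upperGL (c₁ * ratUnit K α ^ j') c₂ X' * k'))
        ↔ finHom K v (X' - X) ∈ idealClosure 𝔫 v) := by
    intro v hv
    have hI := isIdl_idealClosure922 𝔫 v
    have h0 := hout v hv
    rw [map_mul, map_mul, finGL_upperGL922, map_mul, map_zpow] at h0
    rw [map_mul, map_mul, finGL_upperGL922, map_mul, map_zpow, map_sub]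
    have ha := Subgroup.zpow_mem _ (alpha_mem_unitsOne922 hF hv) (j' - j)
    have hfac : finU K v c₁ * finU K v (ratUnit K α) ^ j'
        = (finU K v c₁ * finU K v (ratUnit K α) ^ j) * finU K v (ratUnit K α) ^ (j' - j) := by
      rw [mul_assoc, ← zpow_add]
      congr 2
      ring
    rw [hfac]
    exact inU_coset922 hI (inGLO_of_stdCompact922 hk₁ v) (inGLO_of_stdCompact922 hk' v) _ _ _ _ _
      ha.1 ha.2 h0
  constructor
  · intro H v hv
    exact (key v hv).mp (H v hv)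
  · intro H v hv
    exact (key v hv).mpr (H v hv)

end Fermat.Agent.LT.T3.H922

end

end
-- ===== PACK-END LT/T3/H922/OutsideCoset.lean

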