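import Mathlib
import Fermat.Agent.Pack.LT2.E9L2
import Fermat.Agent.Pack.LT2.E2L1
import Fermat.Agent.Pack.LT2.E9L3
import Fermat.Agent.Pack.S44C.G0E14L2
import Fermat.Agent.Pack.LT2.E0L2
import Fermat.Agent.Pack.LT2.E2L2
import Fermat.Agent.Pack.LT2.E10L2
import Fermat.Agent.Pack.LT2.E6L3
import Fermat.Agent.Pack.LT2.E5L3
import Fermat.Agent.Pack.LT2.E6L1
import Fermat.Agent.Pack.LT2.E8L2
import Fermat.Agent.Pack.LT2.E10L0
import Fermat.Agent.Pack.LT2.E9L1
import Fermat.Agent.Pack.LT2.E1L0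
import Fermat.Agent.Pack.LT2.E7L3

set_option linter.all false

-- ===== PACK-BEGIN LT/A2/WeilLocal.lean
section



/-!
# Row LT, tower A2, block THETA -- level 4: the cut of the station `WeilLocalC` (helper950)

    WeilLocalC ⟸ (∀ K, T1Out K) + WeilExC + TorusOpenC
                   + LiftContC + LiftBddC + WhitContC + WhitSumC + WhitMeanC + WhitHeckeC
                                                                     (`weilLocal_of_leaves`)

The cut is HORIZONTAL: the construction `WeilExC` produces the data together with a CERTIFICATE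
`IsStd D η` ("the family is the restricted tensor product of the local Weil representations applied
to the standard vectors"), written in function form on the adelic groups (no local type occurs:
a local object at `v` is an adelic object supported at `v`, as in `A0`); every analytic property of
the lift and of its Whittaker function is a consumer of the certificate.

## The certificate (all fields are TRUE for `F g m = ⊗_v r_v(g_v, m_v) Φ_v`)

* `quad`, `diagA`, `torA`: the ADELIC Borel formulas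
  `F (t(a) g) m ξ = η(a) |a|_𝔸 F g m (a ξ)` (`a` an idele, `η` the quadratic character of `L/K`),
  `F (d(det μ) g) (μ m) ξ = |det μ|_𝔸^{-1/2} F g m (μ⁻¹ ξ)` (`μ ∈ T(𝔸_K)`);
* `good_*`: at the finite places `v ∤ π.level`: `t`, `n` integral, `t² - 4n` a unit, `χT`, `η`,
  `ψ` unramified, the norm is onto the units, `Φ_v = 1_{𝒪_v²}` (`good_std`), invariance under
  `{(k, κ) ∈ GL₂(𝒪_v) × T(𝒪_v) : det k = det κ}` (`good_inv`);
* `cpx`: at a complex place `u`: `ψ_u(x) = exp(4πi Re(c x))`, `Φ_u = exp(-2π|c| (|z₁|² + |z₂|²))`,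
  `z_i = ξ₁ + ω_i ξ₂` the split coordinates;
* `decay`: on a compact set of admissible pairs the functions `F g m` are supported in a fixed
  compact set at the finite places and have a uniform Gaussian bound at the infinite places;
* `orb_dom`, `ne_zero`: the orbital integral over `T¹(𝔸_K)` is dominated on compact sets, and does
  not vanish identically.

Definitions only, plus the PROVED top `weilLocal_of_leaves`; no `sorry`, nothing assumed.
-/

set_option autoImplicit false

open IsDedekindDomain NumberField AutomorphicForm MeasureTheory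
open scoped MatrixGroups Topology

noncomputable section

namespace Fermat.Agent.LT.A2

open Fermat.Agent.LT.H130 Fermat.Agent.LT.H556

namespace WL

/-! ## Vocabulary: adelic objects supported at one place -/

section Vocab

variable {K : Type} [Field K] [NumberField K]

/-- The adele `x` is supported at the finite place `v`. -/
def AdlAtFin (v : HeightOneSpectrum (𝓞 K)) (x : A0.Adl K) : Prop :=
  (∀ w : InfinitePlace K, x.1 w = 0) ∧ ∀ v' : HeightOneSpectrum (𝓞 K), v' ≠ v → x.2 v' = 0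

/-- The adele `x` is supported at the infinite place `u`. -/
def AdlAtInf (u : InfinitePlace K) (x : A0.Adl K) : Prop :=
  (∀ w : InfinitePlace K, w ≠ u → x.1 w = 0) ∧ ∀ v : HeightOneSpectrum (𝓞 K), x.2 v = 0

/-- The vectors `ξ`, `ξ'` of `𝔸_K²` have the same components at every place different from the
finite place `v`. -/
def AgreeOffFin (v : HeightOneSpectrum (𝓞 K)) (ξ ξ' : A0.Adl K × A0.Adl K) : Prop :=
  (∀ w : InfinitePlace K, ξ.1.1 w = ξ'.1.1 w ∧ ξ.2.1 w = ξ'.2.1 w) ∧
    ∀ v' : HeightOneSpectrum (𝓞 K), v' ≠ v → ξ.1.2 v' = ξ'.1.2 v' ∧ ξ.2.2 v' = ξ'.2.2 v'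

/-- The vectors `ξ`, `ξ'` of `𝔸_K²` have the same components at every place different from the
infinite place `u`. -/
def AgreeOffInf (u : InfinitePlace K) (ξ ξ' : A0.Adl K × A0.Adl K) : Prop :=
  (∀ w : InfinitePlace K, w ≠ u → ξ.1.1 w = ξ'.1.1 w ∧ ξ.2.1 w = ξ'.2.1 w) ∧
    ∀ v : HeightOneSpectrum (𝓞 K), ξ.1.2 v = ξ'.1.2 v ∧ ξ.2.2 v = ξ'.2.2 v

/-- The components at `v` of the vector `ξ` are integral. -/
def VecIntegralAt (v : HeightOneSpectrum (𝓞 K)) (ξ : A0.Adl K × A0.Adl K) : Prop :=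
  ξ.1.2 v ∈ v.adicCompletionIntegers K ∧ ξ.2.2 v ∈ v.adicCompletionIntegers K

/-- `s = t(a) = diag(a, a⁻¹)`, `a` an idele. -/
def IsDiagSLA (s : A0.G K) (a : (A0.Adl K)ˣ) : Prop :=
  (s : Matrix (Fin 2) (Fin 2) (A0.Adl K))
    = !![(a : A0.Adl K), 0; 0, ((a⁻¹ : (A0.Adl K)ˣ) : A0.Adl K)]

/-- `d = d(a) = diag(1, a)`, `a` an idele. -/
def IsDiagOneA (d : A0.G K) (a : (A0.Adl K)ˣ) : Prop :=
  (d : Matrix (Fin 2) (Fin 2) (A0.Adl K)) = !![1, 0; 0, (a : A0.Adl K)]

/-- `κ ∈ T(𝒪_v)`: an element of the torus supported at `v`, integral with its inverse. -/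
def InTorusIntAt (t n : K) (v : HeightOneSpectrum (𝓞 K)) (κ : A0.G K) : Prop :=
  InTorus t n κ ∧ A0.IsLocalAtFin v κ ∧ A0.IsIntegralAt v κ ∧ A0.IsIntegralAt v κ⁻¹

/-- `k ∈ GL₂(𝒪_v)`: supported at `v`, integral with its inverse. -/
def InMaxCompactAt (v : HeightOneSpectrum (𝓞 K)) (k : A0.G K) : Prop :=
  A0.IsLocalAtFin v k ∧ A0.IsIntegralAt v k ∧ A0.IsIntegralAt v k⁻¹

/-- The place `v` is INERT for the torus: no integral element of `T(K_v)` has determinant a
uniformiser (the hypothesis of the second half of `InducedAtT`). -/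
def IsInertAt (t n : K) (v : HeightOneSpectrum (𝓞 K)) : Prop :=
  ∀ m : A0.G K, InTorus t n m → A0.IsLocalAtFin v m → A0.IsIntegralAt v m →
    Valued.v (A0.finComp v m).det ≠ WithZero.exp (-1 : ℤ)

/-- **The quadratic character** of the torus: a continuous character of the idele group with
values `± 1`, trivial on the principal ideles and on the norms (determinants) of `T(𝔸_K)`. -/
structure IsQuadChar (t n : K) (η : (A0.Adl K)ˣ → ℂ) : Prop where
  mul : ∀ a b : (A0.Adl K)ˣ, η (a * b) = η a * η b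
  sq : ∀ a : (A0.Adl K)ˣ, η a = 1 ∨ η a = -1
  cont : Continuous η
  rat : ∀ x : Kˣ, η (Units.map (algebraMap K (A0.Adl K)).toMonoidHom x) = 1
  norm : ∀ m : A0.G K, InTorus t n m → η (Matrix.GeneralLinearGroup.det m) = 1

/-- The Gaussian at the complex place `u`, in the split coordinates `z_i = ξ₁ + ω_i ξ₂`
(`ω₁`, `ω₂` the roots of `X² - tX + n` in `K_u = ℂ`), for the character
`ψ_u(x) = exp(4πi Re(c x))`:  `exp(-2π |c| (|z₁|² + |z₂|²))`. -/
def gauss (u : InfinitePlace K) (c ω₁ ω₂ : ℂ) (ξ : A0.Adl K × A0.Adl K) : ℂ :=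
  Complex.exp (-((2 * Real.pi * ‖c‖ *
    (‖InfinitePlace.Completion.extensionEmbedding u (ξ.1.1 u)
        + ω₁ * InfinitePlace.Completion.extensionEmbedding u (ξ.2.1 u)‖ ^ 2
      + ‖InfinitePlace.Completion.extensionEmbedding u (ξ.1.1 u)
        + ω₂ * InfinitePlace.Completion.extensionEmbedding u (ξ.2.1 u)‖ ^ 2) : ℝ) : ℂ))

end Vocab

/-! ## The certificate -/

section Cert

variable {K : Type} [Field K] [NumberField K]

/-- **The certificate**: the Weil family of `D` is STANDARD (see the header). -/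
structure IsStd (D : KData K) (η : (A0.Adl K)ˣ → ℂ) : Prop where
  quad : IsQuadChar D.t D.n η
  /-- `F (t(a) g) m ξ = η(a) |a|_𝔸 F g m (a ξ)`, `a` an idele. -/
  diagA : ∀ (s : A0.G K) (a : (A0.Adl K)ˣ), IsDiagSLA s a →
    ∀ (g m : A0.G K) (ξ : A0.Adl K × A0.Adl K), Adm D.t D.n g m →
      D.F (s * g) m ξ
        = η a * ((T1.adNorm K (a : A0.Adl K) : ℝ) : ℂ) * D.F g m ((a : A0.Adl K) • ξ)
  /-- `|det μ|_𝔸^{1/2} F (d(det μ) g) (μ m) ξ = F g m (μ⁻¹ ξ)`, `μ ∈ T(𝔸_K)`. -/
  torA : ∀ μ' d : A0.G K, InTorus D.t D.n μ' → IsDiagOneA d (Matrix.GeneralLinearGroup.det μ') →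
    ∀ (g m : A0.G K) (ξ : A0.Adl K × A0.Adl K), Adm D.t D.n g m →
      ((Real.sqrt (T1.adNorm K ((Matrix.GeneralLinearGroup.det μ' : (A0.Adl K)ˣ) : A0.Adl K))
          : ℝ) : ℂ) * D.F (d * g) (μ' * m) ξ
        = D.F g m (actV μ'⁻¹ ξ)
  /-- At `v ∤ π.level`: `t`, `n` are integral and the discriminant `t² - 4n` is a unit. -/
  good_int : ∀ v : HeightOneSpectrum (𝓞 K), ¬ v.asIdeal ∣ D.π.level →
    Valued.v (algebraMap K (v.adicCompletion K) D.t) ≤ 1 ∧
    Valued.v (algebraMap K (v.adicCompletion K) D.n) ≤ 1 ∧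
    Valued.v (algebraMap K (v.adicCompletion K) (D.t ^ 2 - 4 * D.n)) = 1
  /-- At `v ∤ π.level`: `χT` is trivial on `T(𝒪_v)`. -/
  good_char : ∀ v : HeightOneSpectrum (𝓞 K), ¬ v.asIdeal ∣ D.π.level →
    ∀ κ : A0.G K, InTorusIntAt D.t D.n v κ → D.χT κ = 1
  /-- At `v ∤ π.level`: the norm `T(𝒪_v) → 𝒪_v^×` is onto. -/
  good_norm : ∀ v : HeightOneSpectrum (𝓞 K), ¬ v.asIdeal ∣ D.π.level →
    ∀ a : (A0.Adl K)ˣ, IsUnitIdeleAt v a →
      ∃ κ : A0.G K, InTorusIntAt D.t D.n v κ ∧ Matrix.GeneralLinearGroup.det κ = a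
  /-- At `v ∤ π.level`: `η` is unramified, and `η(ϖ_v) = -1` if `v` is inert. -/
  good_eta : ∀ v : HeightOneSpectrum (𝓞 K), ¬ v.asIdeal ∣ D.π.level →
    (∀ a : (A0.Adl K)ˣ, IsUnitIdeleAt v a → η a = 1) ∧
    (IsInertAt D.t D.n v → ∀ a : (A0.Adl K)ˣ, IsUnifIdeleAt v a → η a = -1)
  /-- At `v ∤ π.level`: `ψ_v` has conductor `𝒪_v`. -/
  good_psi : ∀ v : HeightOneSpectrum (𝓞 K), ¬ v.asIdeal ∣ D.π.level →
    (∀ x : A0.Adl K, AdlAtFin v x → x.2 v ∈ v.adicCompletionIntegers K → D.ψ x = 1) ∧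
    ∃ x : A0.Adl K, AdlAtFin v x ∧ Valued.v (x.2 v) = WithZero.exp (1 : ℤ) ∧ D.ψ x ≠ 1
  /-- At `v ∤ π.level`: `Φ_v = 1_{𝒪_v²}`. -/
  good_std : ∀ v : HeightOneSpectrum (𝓞 K), ¬ v.asIdeal ∣ D.π.level →
    ∀ g m : A0.G K, Adm D.t D.n g m → A0.TrivAtFin v g → A0.TrivAtFin v m →
      (∀ ξ : A0.Adl K × A0.Adl K, ¬ VecIntegralAt v ξ → D.F g m ξ = 0) ∧
      ∀ ξ ξ' : A0.Adl K × A0.Adl K, AgreeOffFin v ξ ξ' → VecIntegralAt v ξ → VecIntegralAt v ξ' →
        D.F g m ξ = D.F g m ξ'
  /-- At `v ∤ π.level`: invariance under `{(k, κ) ∈ GL₂(𝒪_v) × T(𝒪_v) : det k = det κ}`. -/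
  good_inv : ∀ v : HeightOneSpectrum (𝓞 K), ¬ v.asIdeal ∣ D.π.level →
    ∀ k κ : A0.G K, InMaxCompactAt v k → InTorusIntAt D.t D.n v κ →
      Matrix.GeneralLinearGroup.det k = Matrix.GeneralLinearGroup.det κ →
      ∀ (g m : A0.G K) (ξ : A0.Adl K × A0.Adl K), Adm D.t D.n g m →
        D.F (g * k) (m * κ) ξ = D.F g m ξ
  /-- At a complex place `u`: the character `ψ_u` and the Gaussian. -/
  cpx : ∀ u : InfinitePlace K, u.IsComplex → ∃ c : ℂ, c ≠ 0 ∧
    (∀ x : A0.Adl K, AdlAtInf u x → D.ψ x = Complex.exp (4 * Real.pi * Complex.I *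
        (((c * InfinitePlace.Completion.extensionEmbedding u (x.1 u)).re : ℝ) : ℂ))) ∧
    ∀ ω₁ ω₂ : ℂ, ω₁ + ω₂ = u.embedding D.t → ω₁ * ω₂ = u.embedding D.n →
      ∀ g m : A0.G K, Adm D.t D.n g m → A0.TrivAtInf u g → A0.TrivAtInf u m →
        ∀ ξ ξ' : A0.Adl K × A0.Adl K, AgreeOffInf u ξ ξ' →
          D.F g m ξ * gauss u c ω₁ ω₂ ξ' = D.F g m ξ' * gauss u c ω₁ ω₂ ξ
  /-- Invariance under the maximal compact subgroup of the torus at a complex place. -/
  cpx_inv : ∀ (u : InfinitePlace K) (k κ : A0.G K), A0.IsArchCompact u k → InTorus D.t D.n κ →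
    A0.IsArchCompact u κ → Matrix.GeneralLinearGroup.det k = Matrix.GeneralLinearGroup.det κ →
    ∀ (g m : A0.G K) (ξ : A0.Adl K × A0.Adl K), Adm D.t D.n g m →
      D.F (g * k) (m * κ) ξ = D.F g m ξ
  /-- Uniform support and Gaussian decay on the compact sets of admissible pairs. -/
  decay : ∀ C : Set (A0.G K × A0.G K), IsCompact C →
    ∃ (B : Set (FiniteAdeleRing (𝓞 K) K × FiniteAdeleRing (𝓞 K) K)) (A δ : ℝ),
      IsCompact B ∧ 0 < δ ∧
      ∀ p : A0.G K × A0.G K, p ∈ C → Adm D.t D.n p.1 p.2 → ∀ ξ : A0.Adl K × A0.Adl K,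
        ((ξ.1.2, ξ.2.2) ∉ B → D.F p.1 p.2 ξ = 0) ∧
        ‖D.F p.1 p.2 ξ‖
          ≤ A * Real.exp (-δ * ∑ w : InfinitePlace K, (‖ξ.1.1 w‖ ^ 2 + ‖ξ.2.1 w‖ ^ 2))
  /-- The orbital integrand is dominated on the compact sets of admissible pairs. -/
  orb_dom : ∀ C : Set (A0.G K × A0.G K), IsCompact C →
    ∃ h : A0.G K → ℝ,
      (letI : MeasurableSpace (A0.G K) := borel (A0.G K)
       IntegrableOn h {m | InTorus1 D.t D.n m} D.μT) ∧
      ∀ p : A0.G K × A0.G K, p ∈ C → Adm D.t D.n p.1 p.2 → ∀ m : A0.G K, InTorus1 D.t D.n m →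
        ‖D.F p.1 (m * p.2) (1, 0)‖ ≤ h m
  /-- The orbital integral does not vanish identically. -/
  ne_zero : ∃ g mg : A0.G K, Adm D.t D.n g mg ∧
    D.intT {m | InTorus1 D.t D.n m} (fun m => D.F g (m * mg) (1, 0) * D.χT (m * mg)) ≠ 0

end Cert

/-! ## The leaves -/

section Leaves

/-- **A2.03.1 WEIL-EX (the construction; STATION).**  For a torus character `χT` over a totally
complex field there are GOOD data with torus character `χT`, a level contained in any prescribed
nonzero ideal, the induced data, and the certificate.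
`F g m = ⊗_v r_v(g_v, m_v) Φ_v`; sub-leaves (memo §5): LOC-FIN (local Weil representation at the
finite places: Schwartz--Bruhat space, Fourier transform, Weil index), LOC-CPX (Gaussian at the
complex places), UNRAM (`Φ_v = 1_{𝒪_v²}` is fixed at almost all `v`), RAM (choice of `Φ_v` at the
bad places with non-vanishing local orbital integral), PROD (restricted product, product measure),
INDEX (product formula of the Weil indices = global Weyl formula with constant `1`), TORUS-MEAS
(Haar measure of `T¹(𝔸_K)`, compact fundamental domain), REG (`IsRegular`).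
Weil 1964 §§ 13--16, 39--41; JL §1; Shalika--Tanaka §1; Bump §4.8. -/
def WeilExC : Prop :=
  ∀ (K : Type) [Field K] [NumberField K] (t n : K) (χT : A0.G K → ℂ),
    IsTorusChar t n χT → (∀ u : InfinitePlace K, u.IsComplex) →
    ∀ 𝔡 : Ideal (𝓞 K), 𝔡 ≠ ⊥ →
    ∃ (D : KData K) (η : (A0.Adl K)ˣ → ℂ),
      D.t = t ∧ D.n = n ∧ D.χT = χT ∧ D.π.level ≤ 𝔡 ∧ D.Good ∧
        InducedDataT t n χT D.π ∧ IsStd D η

/-- **A2.03.2 TORUS-OPEN.**  The norm `T(𝔸_K) → 𝔸_K^×` is an open map, in function form: if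
`(g₀, m₀)` is admissible, every `g` near `g₀` has an admissible partner `m` near `m₀`
(in particular `GL₂(𝔸_K)⁺` is open).  Local: the norm of a separable quadratic algebra is open
and is onto the units at almost all places. -/
def TorusOpenC : Prop :=
  ∀ (K : Type) [Field K] [NumberField K] (t n : K), (∀ x : K, x ^ 2 - t * x + n ≠ 0) →
    ∀ g₀ m₀ : A0.G K, Adm t n g₀ m₀ → ∀ V : Set (A0.G K), V ∈ 𝓝 m₀ →
      ∃ U : Set (A0.G K), U ∈ 𝓝 g₀ ∧ ∀ g ∈ U, ∃ m ∈ V, Adm t n g m

/-- **A2.03.3 LIFT-CONT.**  The theta lift of standard good data is continuous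
(`GL₂(K) GL₂(𝔸_K)⁺` is open and closed; on `GL₂(𝔸_K)⁺` the kernel is continuous on the admissible
pairs and the fundamental domain is relatively compact). -/
def LiftContC : Prop :=
  TorusOpenC →
  ∀ (K : Type) [Field K] [NumberField K] (D : KData K) (η : (A0.Adl K)ˣ → ℂ),
    T1.T1Out K → D.Good → IsStd D η →
    ∀ φ : A0.G K → ℂ, D.IsLift φ → Continuous φ

/-- **A2.03.4 LIFT-BDD.**  The theta lift of standard good data is bounded: reduction theory
(tower T1), the central character `η χT` is unitary, on a Siegel set the term `ξ = 0` of the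
kernel is killed by `∫_{DT} χT = 0` and the other terms decay (`decay`). -/
def LiftBddC : Prop :=
  TorusOpenC →
  ∀ (K : Type) [Field K] [NumberField K] (D : KData K) (η : (A0.Adl K)ˣ → ℂ),
    (∀ u : InfinitePlace K, u.IsComplex) → T1.T1Out K → D.Good → IsStd D η →
    ∀ φ : A0.G K → ℂ, D.IsLift φ → ∃ C : ℝ, ∀ g : A0.G K, ‖φ g‖ ≤ C

/-- **A2.03.5 WHIT-CONT.**  The Whittaker function of standard good data is continuous
(`GL₂(𝔸_K)⁺` is open and closed; dominated convergence, `orb_dom`). -/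
def WhitContC : Prop :=
  TorusOpenC →
  ∀ (K : Type) [Field K] [NumberField K] (D : KData K) (η : (A0.Adl K)ˣ → ℂ),
    T1.T1Out K → D.Good → IsStd D η →
    ∀ W : A0.G K → ℂ, D.IsWhit W → Continuous W

/-- **A2.03.6 WHIT-SUM.**  Normal summability of `α ↦ W(diag(α, 1) g)` on the compact sets:
`∑_α |W(diag(α,1) g)| ≤ ∫_{DT} ∑_{ξ ∈ K² ∖ 0} |F g (m m_g) ξ| dm` (`diagK`, `torK`, `tor1`,
unfolding over `T¹(K)`, `IsRegular.loc_summable`). -/
def WhitSumC : Prop :=
  TorusOpenC →
  ∀ (K : Type) [Field K] [NumberField K] (D : KData K) (η : (A0.Adl K)ˣ → ℂ),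
    T1.T1Out K → D.Good → IsStd D η →
    ∀ W : A0.G K → ℂ, D.IsWhit W →
      ∀ C : Set (A0.G K), IsCompact C → ∃ b : Kˣ → ℝ, Summable b ∧
        ∀ d : Kˣ → A0.G K, IsRatDiag d → ∀ (α : Kˣ) (g : A0.G K), g ∈ C →
          ‖W (d α * g)‖ ≤ b α

/-- **A2.03.7 WHIT-MEAN.**  The Whittaker function of standard good data has the mean-value
property of parameter `0` at the complex places: by the Iwasawa decomposition at `u`, `cpx`,
`cpx_inv`, `diagA`, `torA` and `unip`, as a function of `g_u = n(x) diag(y, 1) z k` it is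
`ψ_u(x) · |y| K₀(4π |c| |y|) ·` (a function of the other components), an eigenfunction of the
Laplacian of `ℍ³` of eigenvalue `-1`; mean-value property of the eigenfunctions (helper470). -/
def WhitMeanC : Prop :=
  ∀ (K : Type) [Field K] [NumberField K] (D : KData K) (η : (A0.Adl K)ˣ → ℂ),
    T1.T1Out K → D.Good → IsStd D η →
    ∀ W : A0.G K → ℂ, D.IsWhit W →
      ∀ w : InfinitePlace K, w.IsComplex → A0.MeanValueComplex W w

/-- **A2.03.8 WHIT-HECKE.**  The Whittaker function of standard good data is a Hecke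
eigenfunction at `v ∤ π.level` with the induced eigenvalues: Iwasawa decomposition at `v`,
`good_*`, `diagA`, `torA`, `unip`, invariance of `μT`; the identity is reduced to the values
`W(g diag(ϖ_v^k, 1))`:  `q^{-k/2} ∑_{i+j=k} χT(m₁)^i χT(m₂)^j` (split), and
`q^{-k/2} χT(ϖ_v)^{k/2}` for `k ≥ 0` even, `0` otherwise (inert). -/
def WhitHeckeC : Prop :=
  ∀ (K : Type) [Field K] [NumberField K] (D : KData K) (η : (A0.Adl K)ˣ → ℂ),
    T1.T1Out K → D.Good → IsStd D η → InducedDataT D.t D.n D.χT D.π →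
    ∀ W : A0.G K → ℂ, D.IsWhit W →
      ∀ v : HeightOneSpectrum (𝓞 K), ¬ v.asIdeal ∣ D.π.level →
        A0.IsHeckeEigenAt W v (D.π.a v) (D.π.b v)

/-- **A2.03.9 WHIT-NE** is PROVED below (`whit_ne_zero950`): `ne_zero` of the certificate. -/
theorem whit_ne_zero950 {K : Type} [Field K] [NumberField K] (D : KData K)
    (η : (A0.Adl K)ˣ → ℂ) (hstd : IsStd D η) (W : A0.G K → ℂ) (hW : D.IsWhit W) :
    ∃ g : A0.G K, W g ≠ 0 := by
  obtain ⟨g, mg, hadm, hne⟩ := hstd.ne_zero
  exact ⟨g, by rw [hW.formula g mg hadm]; exact hne⟩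

/-- **The top of the station**: `WeilLocalC` from the leaves and the output of tower T1. -/
theorem weilLocal_of_leaves
    (hT1 : ∀ (K : Type) [Field K] [NumberField K], T1.T1Out K)
    (hex : WeilExC) (hopen : TorusOpenC) (hlc : LiftContC) (hlb : LiftBddC)
    (hwc : WhitContC) (hws : WhitSumC) (hwm : WhitMeanC) (hwh : WhitHeckeC) :
    WeilLocalC := by
  intro K _ _ t n χT hχ hcpx 𝔡 h𝔡
  obtain ⟨D, η, ht, hn, hχT, hlev, hgood, hind, hstd⟩ := hex K t n χT hχ hcpx 𝔡 h𝔡
  refine ⟨D, ht, hn, hχT, hlev, hgood, hind, ?_, ?_⟩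
  · intro φ hφ
    exact ⟨hlc hopen K D η (hT1 K) hgood hstd φ hφ,
      hlb hopen K D η hcpx (hT1 K) hgood hstd φ hφ⟩
  · intro W hW
    refine ⟨hwc hopen K D η (hT1 K) hgood hstd W hW, whit_ne_zero950 D η hstd W hW,
      hws hopen K D η (hT1 K) hgood hstd W hW, hwm K D η (hT1 K) hgood hstd W hW, ?_⟩
    have hind' : InducedDataT D.t D.n D.χT D.π := by
      rw [ht, hn, hχT]; exact hind
    exact hwh K D η (hT1 K) hgood hstd hind' W hW

end Leaves

end WL

end Fermat.Agent.LT.A2

end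

end
-- ===== PACK-END LT/A2/WeilLocal.lean

-- ===== PACK-BEGIN LT/A2/H352/Inv.lean
section


/-!
# Row LT, tower A2, leaf A2.10 `InvC` (helper352)

OFF-MAIN.  Right invariance of the theta lift under the level group, the positive real scalars and
the maximal compact subgroups at the infinite places, from `KData.IsRightInv`:

* the torus `T(𝔸_K)` (matrices `a + b M_ω`) is closed under products and inverses, hence
  `GL₂(𝔸_K)⁺` is stable under right multiplication by any `u` with an admissible partner `κ`;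
* for `g ∈ GL₂(𝔸_K)⁺` the integrands of the two lift formulas agree on `DT`
  (`F (g u) (m m_g κ) = F g (m m_g)`, `χT (m m_g κ) = χT (m m_g)`);
* `GL₂(K)`-invariance and the vanishing off `GL₂(K) GL₂(𝔸_K)⁺` give the rest.

Result: `Fermat.Agent.LT.A2.H352.invC352 : Fermat.Agent.LT.A2.InvC`.
-/

set_option autoImplicit false

open IsDedekindDomain NumberField AutomorphicForm MeasureTheory
open scoped MatrixGroups

noncomputable section

namespace Fermat.Agent.LT.A2.H352

open Fermat.Agent.LT.H130 Fermat.Agent.LT.H556 Fermat.Agent.LT.A2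

/-- The product of two torus matrices is a torus matrix. -/
theorem torMat_mul352 {R : Type*} [CommRing R] (t n a b a' b' : R) :
    torMat t n a b * torMat t n a' b'
      = torMat t n (a * a' - n * b * b') (a * b' + b * a' + t * b * b') := by
  unfold torMat
  ext i j
  fin_cases i <;> fin_cases j <;>
    simp [Matrix.mul_apply, Fin.sum_univ_two] <;> ring

/-- `torMat t n 1 0 = 1`. -/
theorem torMat_one352 {R : Type*} [CommRing R] (t n : R) :
    torMat t n 1 0 = (1 : Matrix (Fin 2) (Fin 2) R) := by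
  unfold torMat
  ext i j
  fin_cases i <;> fin_cases j <;> simp

/-- The determinant of a torus matrix is the norm form. -/
theorem torMat_det352 {R : Type*} [CommRing R] (t n a b : R) :
    (torMat t n a b).det = a * a + t * a * b + n * b * b := by
  unfold torMat
  rw [Matrix.det_fin_two]
  simp
  ring

variable {K : Type} [Field K] [NumberField K]

/-- `T(𝔸_K)` is closed under products. -/
theorem inTorus_mul352 (t n : K) {m m' : A0.G K} (h : InTorus t n m) (h' : InTorus t n m') :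
    InTorus t n (m * m') := by
  obtain ⟨a, b, hm⟩ := h
  obtain ⟨a', b', hm'⟩ := h'
  refine ⟨a * a' - algebraMap K (A0.Adl K) n * b * b',
    a * b' + b * a' + algebraMap K (A0.Adl K) t * b * b', ?_⟩
  rw [Units.val_mul, hm, hm', torMat_mul352]

/-- `T(𝔸_K)` is closed under inverses. -/
theorem inTorus_inv352 (t n : K) {m : A0.G K} (h : InTorus t n m) : InTorus t n m⁻¹ := by
  obtain ⟨a, b, hm⟩ := h
  set T : A0.Adl K := algebraMap K (A0.Adl K) t with hT
  set N : A0.Adl K := algebraMap K (A0.Adl K) n with hN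
  -- the determinant is a unit
  have hdet : ((Matrix.GeneralLinearGroup.det m : (A0.Adl K)ˣ) : A0.Adl K)
      = a * a + T * a * b + N * b * b := by
    rw [Matrix.GeneralLinearGroup.val_det_apply, hm, torMat_det352]
  set δ : (A0.Adl K)ˣ := Matrix.GeneralLinearGroup.det m with hδ
  have hδ1 : (a * a + T * a * b + N * b * b) * ((δ⁻¹ : (A0.Adl K)ˣ) : A0.Adl K) = 1 := by
    rw [← hdet]; exact Units.mul_inv δ
  refine ⟨(a + T * b) * ((δ⁻¹ : (A0.Adl K)ˣ) : A0.Adl K),
    -b * ((δ⁻¹ : (A0.Adl K)ˣ) : A0.Adl K), ?_⟩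
  have hmul : (m : Matrix (Fin 2) (Fin 2) (A0.Adl K))
      * torMat T N ((a + T * b) * ((δ⁻¹ : (A0.Adl K)ˣ) : A0.Adl K))
          (-b * ((δ⁻¹ : (A0.Adl K)ˣ) : A0.Adl K)) = 1 := by
    rw [hm, torMat_mul352, ← torMat_one352 T N]
    congr 1
    · linear_combination hδ1
    · ring
  exact Units.inv_eq_of_mul_eq_one_right hmul

/-- Congruence of the torus integral on a Borel set. -/
theorem intT_congr352 (D : KData K) {S : Set (A0.G K)}
    (hS : @MeasurableSet (A0.G K) (borel (A0.G K)) S) {f g : A0.G K → ℂ}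
    (h : ∀ m ∈ S, f m = g m) : D.intT S f = D.intT S g := by
  unfold KData.intT
  let _ : MeasurableSpace (A0.G K) := borel (A0.G K)
  exact setIntegral_congr_fun hS h

/-- **The mechanism of `InvC`**: if `u` has an admissible partner `κ` with `χT κ = 1` and
`F (g u) (m κ) = F g m`, then the lift is right invariant under `u`. -/
theorem lift_rightInv352 (D : KData K) (hG : D.Good) (φ : A0.G K → ℂ) (hφ : D.IsLift φ)
    (u κ : A0.G K) (hadm : Adm D.t D.n u κ) (hχ : D.χT κ = 1)
    (hF : ∀ (g m : A0.G K) (ξ : A0.Adl K × A0.Adl K), Adm D.t D.n g m →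
        D.F (g * u) (m * κ) ξ = D.F g m ξ) (g : A0.G K) : φ (g * u) = φ g := by
  by_cases hex : ∃ γ : GL (Fin 2) K, InGPlus D.t D.n (ratG γ * g)
  · obtain ⟨γ, mg, hmg⟩ := hex
    have h1 : φ (g * u) = φ (ratG γ * g * u) := by
      rw [mul_assoc, hφ.left_inv]
    have h2 : φ g = φ (ratG γ * g) := (hφ.left_inv γ g).symm
    rw [h1, h2]
    have hadm' : Adm D.t D.n (ratG γ * g * u) (mg * κ) := by
      refine ⟨inTorus_mul352 _ _ hmg.1 hadm.1, ?_⟩
      calc Matrix.GeneralLinearGroup.det (ratG γ * g * u)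
          = Matrix.GeneralLinearGroup.det (ratG γ * g) * Matrix.GeneralLinearGroup.det u :=
            map_mul _ _ _
        _ = Matrix.GeneralLinearGroup.det mg * Matrix.GeneralLinearGroup.det κ := by
            rw [hmg.2, hadm.2]
        _ = Matrix.GeneralLinearGroup.det (mg * κ) := (map_mul _ _ _).symm
    rw [hφ.formula _ _ hadm', hφ.formula _ _ hmg]
    apply intT_congr352 D hG.measured.dom_meas
    intro m hm
    have hm1 := hG.measured.dom_sub m hm
    have hadm_m : Adm D.t D.n (ratG γ * g) (m * mg) := by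
      refine ⟨inTorus_mul352 _ _ hm1.1 hmg.1, ?_⟩
      calc Matrix.GeneralLinearGroup.det (ratG γ * g)
          = Matrix.GeneralLinearGroup.det mg := hmg.2
        _ = Matrix.GeneralLinearGroup.det m * Matrix.GeneralLinearGroup.det mg := by
            rw [hm1.2, one_mul]
        _ = Matrix.GeneralLinearGroup.det (m * mg) := (map_mul _ _ _).symm
    have e1 : D.theta (ratG γ * g * u) (m * (mg * κ)) = D.theta (ratG γ * g) (m * mg) := by
      unfold KData.theta
      refine tsum_congr fun ξ => ?_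
      rw [← mul_assoc]
      exact hF (ratG γ * g) (m * mg) _ hadm_m
    have e2 : D.χT (m * (mg * κ)) = D.χT (m * mg) := by
      rw [← mul_assoc, hG.torus.mul _ _ hadm_m.1 hadm.1, hχ, mul_one]
    rw [e1, e2]
  · have h0 : φ g = 0 := hφ.off g (fun γ h => hex ⟨γ, h⟩)
    rw [h0]
    apply hφ.off
    intro γ hplus
    apply hex
    obtain ⟨m', hm'⟩ := hplus
    refine ⟨γ, m' * κ⁻¹, inTorus_mul352 _ _ hm'.1 (inTorus_inv352 _ _ hadm.1), ?_⟩
    have h3 : Matrix.GeneralLinearGroup.det (ratG γ * (g * u))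
        = Matrix.GeneralLinearGroup.det m' := hm'.2
    have h4 : Matrix.GeneralLinearGroup.det (ratG γ * g) * Matrix.GeneralLinearGroup.det u
        = Matrix.GeneralLinearGroup.det m' := by
      rw [← map_mul, mul_assoc]
      exact h3
    calc Matrix.GeneralLinearGroup.det (ratG γ * g)
        = Matrix.GeneralLinearGroup.det (ratG γ * g) * Matrix.GeneralLinearGroup.det u
            * (Matrix.GeneralLinearGroup.det u)⁻¹ := by
          rw [mul_assoc, mul_inv_cancel, mul_one]
      _ = Matrix.GeneralLinearGroup.det m' * (Matrix.GeneralLinearGroup.det κ)⁻¹ := by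
          rw [h4, hadm.2]
      _ = Matrix.GeneralLinearGroup.det (m' * κ⁻¹) := by
          rw [map_mul, map_inv]

/-- **Leaf A2.10 `InvC`.** -/
theorem invC352 : InvC := by
  intro K _ _ D hG φ hφ
  refine ⟨?_, ?_, ?_⟩
  · intro u hu g
    obtain ⟨κ, hadm, hχ, hF⟩ := hG.right_inv.level u hu
    exact lift_rightInv352 D hG φ hφ u κ hadm hχ hF g
  · intro w z hz g
    obtain ⟨κ, hadm, hχ, hF⟩ := hG.right_inv.arch_scalar w z hz
    exact lift_rightInv352 D hG φ hφ z κ hadm hχ hF g
  · intro w k hk g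
    obtain ⟨κ, hadm, hχ, hF⟩ := hG.right_inv.arch_compact w k hk
    exact lift_rightInv352 D hG φ hφ k κ hadm hχ hF g

end Fermat.Agent.LT.A2.H352

end

end
-- ===== PACK-END LT/A2/H352/Inv.lean

-- ===== PACK-BEGIN LT/A2/H494/ConjPlace.lean
section




/-!
# Row LT, tower A2, branch GALSEED, leaf A2.01.15 `ConjPlaceC` (helper494)

OFF-MAIN.  `conjPlaceC494 : Fermat.Agent.LT.A2.H38.ConjPlaceC` (the frozen Prop of
`LT/A2/H38/MatchSpec.lean`, helper38@28f1a145c), unconditional.

* `exists_placeUnder494` : every finite place `w` of a number field `K ⊂ ℚ̄` is cut out by a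
  valuation subring of `ℚ̄` (Chevalley: `Ideal.image_subset_nonunits_valuationSubring`, and `w`
  is maximal);
* `liesOverPrime_of_placeUnder494` : such a valuation subring lies over `p` if `p ∈ w`;
* transitivity of `Gal(ℚ̄/ℚ)` on the valuation subrings over `p` and conjugation of Frobenius
  elements are ON MAIN (`Lib/Cheb/H476/FrobConj`: `exists_smul_eq`, `isFrobeniusAt_conj`).
-/

set_option autoImplicit false

open IsDedekindDomain NumberField
open scoped Pointwise

noncomputable section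

namespace Fermat.Agent.LT.A2.H494

open Fermat.Agent.LT.A2.H38

local notation "Γℚ" => (AlgebraicClosure ℚ ≃ₐ[ℚ] AlgebraicClosure ℚ)

/-- The embedding `𝓞 K → ℚ̄` of the ring of integers of a number field `K ⊂ ℚ̄`. -/
def emb494 (K : IntermediateField ℚ (AlgebraicClosure ℚ)) : 𝓞 K →+* AlgebraicClosure ℚ :=
  (algebraMap K (AlgebraicClosure ℚ)).comp (algebraMap (𝓞 K) K)

theorem emb494_apply (K : IntermediateField ℚ (AlgebraicClosure ℚ)) (x : 𝓞 K) :
    emb494 K x = (((x : K) : AlgebraicClosure ℚ)) := rfl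

theorem emb494_injective (K : IntermediateField ℚ (AlgebraicClosure ℚ)) :
    Function.Injective (emb494 K) :=
  (algebraMap K (AlgebraicClosure ℚ)).injective.comp
    (FaithfulSMul.algebraMap_injective (𝓞 K) K)

/-- **Every finite place of `K ⊂ ℚ̄` is cut out by a valuation subring of `ℚ̄`.** -/
theorem exists_placeUnder494 (K : IntermediateField ℚ (AlgebraicClosure ℚ)) [NumberField K]
    (w : HeightOneSpectrum (𝓞 K)) :
    ∃ A : ValuationSubring (AlgebraicClosure ℚ), PlaceUnder K A w := by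
  classical
  -- the image of `𝓞 K` in `ℚ̄` and the image of `w`
  let f : 𝓞 K →+* AlgebraicClosure ℚ := emb494 K
  let R : Subring (AlgebraicClosure ℚ) := f.range
  let g : 𝓞 K →+* R := f.rangeRestrict
  have hg : Function.Surjective g := f.rangeRestrict_surjective
  have hgf : ∀ x : 𝓞 K, ((g x : R) : AlgebraicClosure ℚ) = f x := fun _ => rfl
  have hginj : Function.Injective g := by
    intro x y hxy
    apply emb494_injective K
    have := congrArg (fun z : R => (z : AlgebraicClosure ℚ)) hxy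
    simpa [hgf] using this
  have hI : w.asIdeal.map g ≠ ⊤ := by
    intro htop
    have h1 : (1 : R) ∈ w.asIdeal.map g := by
      rw [htop]; trivial
    rw [Ideal.mem_map_iff_of_surjective g hg] at h1
    obtain ⟨x, hx, hx1⟩ := h1
    have hx' : x = 1 := hginj (by rw [hx1, map_one])
    rw [hx'] at hx
    exact w.isPrime.ne_top ((Ideal.eq_top_iff_one _).2 hx)
  obtain ⟨A, hRA, hsub⟩ := Ideal.image_subset_nonunits_valuationSubring (w.asIdeal.map g) hI
  have hmemA : ∀ x : 𝓞 K, f x ∈ A := fun x => hRA (g x).2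
  have hfwd : ∀ x : 𝓞 K, x ∈ w.asIdeal → f x ∈ A.nonunits := by
    intro x hx
    apply hsub
    exact ⟨g x, Ideal.mem_map_of_mem g hx, rfl⟩
  refine ⟨A, fun x => ⟨fun hx => hfwd x hx, fun hx => ?_⟩⟩
  -- `x ∈ 𝔪_A ⟹ x ∈ w` : otherwise `1 = y x + m` with `m ∈ w` would be a non-unit of `A`
  by_contra hxw
  obtain ⟨y, m, hm, hym⟩ := w.isMaximal.exists_inv hxw
  have hx' : f x ∈ A.nonunits := hx
  have h1 : A.valuation (f y * f x) < 1 := by
    rw [map_mul]
    have hy1 : A.valuation (f y) ≤ 1 := (A.valuation_le_one_iff _).2 (hmemA y)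
    have hx1 : A.valuation (f x) < 1 := (A.mem_nonunits_iff).1 hx'
    rw [mul_comm]
    exact mul_lt_one_of_lt_of_le hx1 hy1
  have h2 : A.valuation (f m) < 1 := (A.mem_nonunits_iff).1 (hfwd m hm)
  have h3 : A.valuation (1 : AlgebraicClosure ℚ) < 1 := by
    have e : (1 : AlgebraicClosure ℚ) = f y * f x + f m := by
      rw [← map_mul, ← map_add, hym, map_one]
    rw [e]
    exact lt_of_le_of_lt (Valuation.map_add _ _ _) (max_lt h1 h2)
  rw [map_one] at h3
  exact lt_irrefl _ h3

/-- A valuation subring cutting out a place over `p` lies over `p`. -/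
theorem liesOverPrime_of_placeUnder494 (K : IntermediateField ℚ (AlgebraicClosure ℚ))
    [NumberField K] {w : HeightOneSpectrum (𝓞 K)} {A : ValuationSubring (AlgebraicClosure ℚ)}
    (hA : PlaceUnder K A w) {p : ℕ} (hp : ((p : ℕ) : 𝓞 K) ∈ w.asIdeal) :
    A.LiesOverPrime p := by
  have h := (hA ((p : ℕ) : 𝓞 K)).1 hp
  show ((p : ℕ) : AlgebraicClosure ℚ) ∈ A.nonunits
  have e : ((((p : ℕ) : 𝓞 K) : K) : AlgebraicClosure ℚ) = ((p : ℕ) : AlgebraicClosure ℚ) := by
    simp
  rw [← e]
  exact h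

/-- **Leaf A2.01.15 `ConjPlaceC`.** -/
theorem conjPlaceC494 : ConjPlaceC := by
  intro ρ Ψ _ _ p hp A hA w hw
  obtain ⟨A', hA'w⟩ := exists_placeUnder494 (Fermat.Agent.LT.H130.fieldE ρ) w
  have hA'p : A'.LiesOverPrime p :=
    liesOverPrime_of_placeUnder494 (Fermat.Agent.LT.H130.fieldE ρ) hA'w hw
  obtain ⟨τ, hτ⟩ := Fermat.Agent.Lib.Cheb.H476.exists_smul_eq hp hA hA'p
  refine ⟨A', τ, hA'p, hA'w, fun σ hσ => ?_⟩
  have := Fermat.Agent.Lib.Cheb.H476.isFrobeniusAt_conj τ hσ
  rw [hτ] at this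
  exact this

end Fermat.Agent.LT.A2.H494

end

end
-- ===== PACK-END LT/A2/H494/ConjPlace.lean

-- ===== PACK-BEGIN LT/A2/H83/TorusSpec.lean
section


/-!
# Row LT, tower A2, leaf A2.02 `TorusCharC` -- a PROPOSED CUT (helper83), OFF-MAIN

Definitions and Props only (no `sorry`, nothing assumed).  Owner of A2.02: helper456; this file
is an offer, to be used or ignored.

## The construction

`L = K ⊕ K ω`, `ω² - t ω + n = 0` (`IsGen83`).  With a continuous ring homomorphism
`ι : 𝔸_K^f → 𝔸_L^f` (`BaseChangeC83`) put, for `m = a + b M_ω ∈ T(𝔸_K)`,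

    Θ(m) = (1_∞ , ι(a_f) + ι(b_f) ω)  ∈ 𝔸_L^×,        χT(m) = χ(Θ(m)).

The infinite components are DROPPED: a character of finite order is trivial on the ideles
supported at the infinite places of a totally complex field (`InfTrivC83`: every element of
`ℂ^×` is an `n`-th power; no topology).  Then

* `mul`, `one`, `fin_order`: `ι` is a ring homomorphism and `ω² = t ω - n`;
* `cont`: `ι` and the entries of `m`, `m⁻¹` are continuous;
* `rat`: `Θ(m)` = principal idele of `a + b ω` times an idele supported at infinity;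
* `nontriv`: `NormOneEltC83` at the witness of `NotGaloisInvariant`;
* dictionary: `𝔡 = (t² - 4n) · ∏_{w ∈ S} (w ∩ 𝓞_K)`, `S` = the places where `χ` is ramified
  (`UnramFiniteC83`); at `v ∤ 𝔡`: `SplitEltC83` (two places over `v`) and `InertC83` (one place
  over `v`), with elements of `T(𝔸_K)` supported at `v` whose component is a RATIONAL matrix
  (so that only the values of `ι` at adeles with a rational component are needed:
  the last clause of `BaseChangeC83`).

## The leaves

| Prop | content | needs | est. |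
|---|---|---|---|
| `GenC83` | `[L : K] = 2` ⟹ integral generator `ω`, `t`, `n` | Mathlib | 200 |
| `LocalMapC83` | `w ∣ v` ⟹ continuous `K_v → L_w` over `K → L`, integers to integers | Mathlib | 700 |
| `BaseChangeC83` | `LocalMapC83` ⟹ `ι` (restricted product) | Mathlib | 500 |
| `InfTrivC83` | finite order ⟹ trivial on ideles supported at infinity (tot. complex) | Mathlib | 250 |
| `UnramFiniteC83` | continuous of finite order ⟹ unramified outside a finite set | Mathlib | 400 |
| `IntUpC83` | `x ∈ K` integral at `v`, `w ∣ v` ⟹ integral at `w` | Mathlib | 100 |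
| `NormOneEltC83` | `w₁ ≠ w₂` over `v` ⟹ `β`, `N β = 1`, `w₁(β) = 1`, `w₂(β) = -1` | Mathlib | 600 |
| `SplitEltC83` | the same at `v ∤ (t² - 4n)`: `α` with integral coordinates, `v(Nα) = 1` | Mathlib | 800 |
| `InertC83` | one place over `v ∤ (t² - 4n)`: `v(Q(x,y)) ≠ 1` on `𝒪_v²`, `e = 1` | Mathlib | 800 |
-/

set_option autoImplicit false

open IsDedekindDomain NumberField AutomorphicForm
open scoped MatrixGroups

noncomputable section

namespace Fermat.Agent.LT.A2.H83

open Fermat.Agent.LT.H130 Fermat.Agent.LT.H556 Fermat.Agent.LT.A2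

section Defs

variable (K L : Type) [Field K] [NumberField K] [Field L] [NumberField L] [Algebra K L]

/-- `a + b ω ∈ L`. -/
def elt83 {K L : Type} [Field K] [Field L] [Algebra K L] (ω : L) (a b : K) : L :=
  algebraMap K L a + algebraMap K L b * ω

/-- `ω` is an integral generator of `L / K` with `ω² - t ω + n = 0`. -/
structure IsGen83 (t n : K) (ω : L) : Prop where
  int_t : IsIntegral ℤ t
  int_n : IsIntegral ℤ n
  int_ω : IsIntegral ℤ ω
  rel : ω ^ 2 - algebraMap K L t * ω + algebraMap K L n = 0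
  irred : ∀ x : K, x ^ 2 - t * x + n ≠ 0

/-- `x ∈ K` is integral at `v`. -/
def IntAt83 {K : Type} [Field K] [NumberField K] (v : HeightOneSpectrum (𝓞 K)) (x : K) : Prop :=
  Valued.v (algebraMap K (v.adicCompletion K) x) ≤ 1

/-- The valuation at `v` of `x ∈ K`, read in the completion. -/
def val83 {K : Type} [Field K] [NumberField K] (v : HeightOneSpectrum (𝓞 K)) (x : K) :
    WithZero (Multiplicative ℤ) :=
  Valued.v (algebraMap K (v.adicCompletion K) x)

end Defs

section Leaves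

/-- **GEN.**  A quadratic extension has an integral generator. -/
def GenC83 : Prop :=
  ∀ (K L : Type) [Field K] [NumberField K] [Field L] [NumberField L] [Algebra K L],
    Module.finrank K L = 2 → ∃ (t n : K) (ω : L), IsGen83 K L t n ω

/-- **LOCAL-MAP.**  For a place `w` of `L` over the place `v` of `K` there is a continuous ring
homomorphism `K_v → L_w` extending `K → L`, mapping `𝒪_v` into `𝒪_w`. -/
def LocalMapC83 : Prop :=
  ∀ (K L : Type) [Field K] [NumberField K] [Field L] [NumberField L] [Algebra K L]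
    (v : HeightOneSpectrum (𝓞 K)) (w : HeightOneSpectrum (𝓞 L)), LiesOverPl K w v →
    ∃ σ : v.adicCompletion K →+* w.adicCompletion L, Continuous σ ∧
      (∀ x : K, σ (algebraMap K (v.adicCompletion K) x)
        = algebraMap L (w.adicCompletion L) (algebraMap K L x)) ∧
      ∀ y : v.adicCompletion K, Valued.v y ≤ 1 → Valued.v (σ y) ≤ 1

/-- **BASE-CHANGE (finite adeles).**  There is a continuous ring homomorphism
`ι : 𝔸_K^f → 𝔸_L^f` whose component at `w` is rational as soon as the component of the argument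
at the place `v` under `w` is rational. -/
def BaseChangeC83 : Prop :=
  ∀ (K L : Type) [Field K] [NumberField K] [Field L] [NumberField L] [Algebra K L],
    ∃ ι : FiniteAdeleRing (𝓞 K) K →+* FiniteAdeleRing (𝓞 L) L, Continuous ι ∧
      ∀ (a : FiniteAdeleRing (𝓞 K) K) (v : HeightOneSpectrum (𝓞 K))
        (w : HeightOneSpectrum (𝓞 L)) (x : K), LiesOverPl K w v →
        a v = algebraMap K (v.adicCompletion K) x →
        ι a w = algebraMap L (w.adicCompletion L) (algebraMap K L x)

/-- **INF-TRIV.**  A character of finite order of the idele group of a totally complex field is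
trivial on the ideles whose finite components are `1`. -/
def InfTrivC83 : Prop :=
  ∀ (L : Type) [Field L] [NumberField L], (∀ u : InfinitePlace L, u.IsComplex) →
    ∀ χ : (A0.Adl L)ˣ →* ℂˣ, IsFiniteOrder χ →
      ∀ z : (A0.Adl L)ˣ, (∀ w : HeightOneSpectrum (𝓞 L), (z : A0.Adl L).2 w = 1) → χ z = 1

/-- **UNRAM-FINITE.**  A continuous character of finite order of the idele group is unramified
outside a finite set of places. -/
def UnramFiniteC83 : Prop :=
  ∀ (L : Type) [Field L] [NumberField L] (χ : (A0.Adl L)ˣ →* ℂˣ),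
    Continuous χ → IsFiniteOrder χ →
    ∃ S : Finset (HeightOneSpectrum (𝓞 L)), ∀ w : HeightOneSpectrum (𝓞 L), w ∉ S → UnramAt χ w

/-- **INT-UP.**  An element of `K` integral at `v` is integral at every `w` over `v`. -/
def IntUpC83 : Prop :=
  ∀ (K L : Type) [Field K] [NumberField K] [Field L] [NumberField L] [Algebra K L]
    (v : HeightOneSpectrum (𝓞 K)) (w : HeightOneSpectrum (𝓞 L)), LiesOverPl K w v →
    ∀ x : K, IntAt83 v x → IntAt83 w (algebraMap K L x)

/-- **NORM-ONE-ELT.**  If `w₁ ≠ w₂` lie over `v` there are no other places over `v`, and there is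
`β = a + b ω` of norm `1` with `w₁(β) = 1`, `w₂(β) = -1`. -/
def NormOneEltC83 : Prop :=
  ∀ (K L : Type) [Field K] [NumberField K] [Field L] [NumberField L] [Algebra K L]
    (t n : K) (ω : L), Module.finrank K L = 2 → IsGen83 K L t n ω →
    ∀ (v : HeightOneSpectrum (𝓞 K)) (w₁ w₂ : HeightOneSpectrum (𝓞 L)), w₁ ≠ w₂ →
      LiesOverPl K w₁ v → LiesOverPl K w₂ v →
      (∀ w' : HeightOneSpectrum (𝓞 L), LiesOverPl K w' v → w' = w₁ ∨ w' = w₂) ∧
      ∃ a b : K, a ^ 2 + t * a * b + n * b ^ 2 = 1 ∧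
        val83 w₁ (elt83 ω a b) = WithZero.exp (-1 : ℤ) ∧
        val83 w₂ (elt83 ω a b) = WithZero.exp (1 : ℤ)

/-- **SPLIT-ELT.**  At a place `v ∤ (t² - 4n)` with two places `w₁ ≠ w₂` over it there is
`α = a + b ω` with `a`, `b` integral at `v`, `v(N α) = 1`, `w₁(α) = 1`, `w₂(α) = 0`. -/
def SplitEltC83 : Prop :=
  ∀ (K L : Type) [Field K] [NumberField K] [Field L] [NumberField L] [Algebra K L]
    (t n : K) (ω : L), Module.finrank K L = 2 → IsGen83 K L t n ω →
    ∀ (v : HeightOneSpectrum (𝓞 K)) (w₁ w₂ : HeightOneSpectrum (𝓞 L)), w₁ ≠ w₂ →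
      LiesOverPl K w₁ v → LiesOverPl K w₂ v → val83 v (t ^ 2 - 4 * n) = 1 →
      ∃ a b : K, IntAt83 v a ∧ IntAt83 v b ∧
        val83 v (a ^ 2 + t * a * b + n * b ^ 2) = WithZero.exp (-1 : ℤ) ∧
        val83 w₁ (elt83 ω a b) = WithZero.exp (-1 : ℤ) ∧
        val83 w₂ (elt83 ω a b) = 1

/-- **INERT.**  At a place `v ∤ (t² - 4n)` with only one place `w` over it: the norm form does
not take the valuation of a uniformiser on `𝒪_v²`, and `w` is unramified over `v`. -/
def InertC83 : Prop :=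
  ∀ (K L : Type) [Field K] [NumberField K] [Field L] [NumberField L] [Algebra K L]
    (t n : K) (ω : L), Module.finrank K L = 2 → IsGen83 K L t n ω →
    ∀ (v : HeightOneSpectrum (𝓞 K)) (w : HeightOneSpectrum (𝓞 L)), LiesOverPl K w v →
      (∀ w' : HeightOneSpectrum (𝓞 L), LiesOverPl K w' v → w' = w) →
      val83 v (t ^ 2 - 4 * n) = 1 →
      (∀ x y : v.adicCompletion K, Valued.v x ≤ 1 → Valued.v y ≤ 1 →
        Valued.v (x ^ 2 + algebraMap K (v.adicCompletion K) t * x * y
            + algebraMap K (v.adicCompletion K) n * y ^ 2) ≠ WithZero.exp (-1 : ℤ)) ∧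
      ∃ ϖ : K, val83 v ϖ = WithZero.exp (-1 : ℤ) ∧
        val83 w (algebraMap K L ϖ) = WithZero.exp (-1 : ℤ)

end Leaves

end Fermat.Agent.LT.A2.H83

end

end
-- ===== PACK-END LT/A2/H83/TorusSpec.lean

-- ===== PACK-BEGIN LT/A2/H534/Poisson2.lean
section





/-!
# LT / A2.04 `Poisson2C` (helper534)

`Poisson2C` (Poisson summation on `𝔸_K²` for the pairing `ψ ∘ B`) from the interface Props
`T1.LocCompC`, `T1.AdeleLatticeC`, `T1.AddFundDomC`, `T3.PerpC`, by the abstract Poisson summation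
formula of `LT/T3/H534/PoissonAbs.lean` applied DIRECTLY to `G = 𝔸_K × 𝔸_K`, `Γ = K × K` and the
characters `y ↦ ψ(B(ξ, y))`, `ξ ∈ K²` (no iteration of the one-dimensional formula).
-/

set_option autoImplicit false
set_option linter.style.haveILetI false
set_option linter.unusedSectionVars false

noncomputable section

namespace Fermat.Agent.LT.A2.H534

open MeasureTheory NumberField Set TopologicalSpace
open scoped Pointwise
open Fermat.Agent.LT Fermat.Agent.LT.H556 Fermat.Agent.LT.T3.H534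

/-! ### Products of fundamental domains -/

section ProdFD

variable {G₁ G₂ : Type*} [AddGroup G₁] [AddGroup G₂] [MeasurableSpace G₁] [MeasurableSpace G₂]
  {Γ₁ : AddSubgroup G₁} {Γ₂ : AddSubgroup G₂} {μ₁ : Measure G₁} {μ₂ : Measure G₂}
  {D₁ : Set G₁} {D₂ : Set G₂}

lemma vadd_prod534 (g : Γ₁.prod Γ₂) :
    g +ᵥ (D₁ ×ˢ D₂) = ((g : G₁ × G₂).1 +ᵥ D₁) ×ˢ ((g : G₁ × G₂).2 +ᵥ D₂) := by
  ext ⟨x, y⟩
  simp only [Set.mem_vadd_set, Set.mem_prod]
  constructor
  · rintro ⟨⟨a, b⟩, ⟨ha, hb⟩, hab⟩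
    have h1 : (g : G₁ × G₂).1 + a = x := congrArg Prod.fst hab
    have h2 : (g : G₁ × G₂).2 + b = y := congrArg Prod.snd hab
    exact ⟨⟨a, ha, h1⟩, ⟨b, hb, h2⟩⟩
  · rintro ⟨⟨a, ha, h1⟩, ⟨b, hb, h2⟩⟩
    refine ⟨(a, b), ⟨ha, hb⟩, ?_⟩
    change ((g : G₁ × G₂).1 + a, (g : G₁ × G₂).2 + b) = (x, y)
    rw [← h1, ← h2]
    rfl

theorem isAddFundamentalDomain_prod534 [SFinite μ₁] [SFinite μ₂]
    (h₁ : IsAddFundamentalDomain Γ₁ D₁ μ₁) (h₂ : IsAddFundamentalDomain Γ₂ D₂ μ₂) :
    IsAddFundamentalDomain (Γ₁.prod Γ₂) (D₁ ×ˢ D₂) (μ₁.prod μ₂) where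
  nullMeasurableSet := h₁.nullMeasurableSet.prod h₂.nullMeasurableSet
  ae_covers := by
    have e1 := Measure.quasiMeasurePreserving_fst (μ := μ₁) (ν := μ₂) |>.ae h₁.ae_covers
    have e2 := Measure.quasiMeasurePreserving_snd (μ := μ₁) (ν := μ₂) |>.ae h₂.ae_covers
    filter_upwards [e1, e2] with z hz1 hz2
    obtain ⟨g1, hg1⟩ := hz1
    obtain ⟨g2, hg2⟩ := hz2
    exact ⟨⟨(g1, g2), ⟨g1.2, g2.2⟩⟩, hg1, hg2⟩
  aedisjoint := by
    intro g g' hgg'
    change μ₁.prod μ₂ ((g +ᵥ (D₁ ×ˢ D₂)) ∩ (g' +ᵥ (D₁ ×ˢ D₂))) = 0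
    rw [vadd_prod534, vadd_prod534, Set.prod_inter_prod, Measure.prod_prod]
    have hne : (g : G₁ × G₂).1 ≠ (g' : G₁ × G₂).1 ∨ (g : G₁ × G₂).2 ≠ (g' : G₁ × G₂).2 := by
      by_contra hcon
      simp only [not_or, not_not] at hcon
      exact hgg' (Subtype.ext (Prod.ext hcon.1 hcon.2))
    rcases hne with h | h
    · have := h₁.aedisjoint (i := ⟨(g : G₁ × G₂).1, g.2.1⟩) (j := ⟨(g' : G₁ × G₂).1, g'.2.1⟩)
        (fun hh => h (congrArg Subtype.val hh))
      have h0 : μ₁ (((g : G₁ × G₂).1 +ᵥ D₁) ∩ ((g' : G₁ × G₂).1 +ᵥ D₁)) = 0 := this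
      rw [h0, zero_mul]
    · have := h₂.aedisjoint (i := ⟨(g : G₁ × G₂).2, g.2.2⟩) (j := ⟨(g' : G₁ × G₂).2, g'.2.2⟩)
        (fun hh => h (congrArg Subtype.val hh))
      have h0 : μ₂ (((g : G₁ × G₂).2 +ᵥ D₂) ∩ ((g' : G₁ × G₂).2 +ᵥ D₂)) = 0 := this
      rw [h0, mul_zero]

end ProdFD


/-! ### The bilinear form -/

section Bf

variable {K : Type} [Field K] [NumberField K]

/-- The diagonal embedding. -/
abbrev em534 : K →+* A0.Adl K := algebraMap K (A0.Adl K)

lemma bf_eq534 (t n : K) (ξ y : A0.Adl K × A0.Adl K) :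
    bf t n ξ y = (2 * ξ.1 + em534 t * ξ.2) * y.1 + (em534 t * ξ.1 + 2 * em534 n * ξ.2) * y.2 := by
  simp only [bf, qf, Prod.fst_add, Prod.snd_add]
  ring

lemma bf_add_right534 (t n : K) (ξ y y' : A0.Adl K × A0.Adl K) :
    bf t n ξ (y + y') = bf t n ξ y + bf t n ξ y' := by
  simp only [bf_eq534, Prod.fst_add, Prod.snd_add]
  ring

lemma bf_add_left534 (t n : K) (ξ η y : A0.Adl K × A0.Adl K) :
    bf t n (ξ + η) y = bf t n ξ y + bf t n η y := by
  simp only [bf_eq534, Prod.fst_add, Prod.snd_add]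
  ring

lemma ratV_add534 (ξ η : K × K) : ratV (ξ + η) = ratV ξ + ratV η := by
  simp only [ratV, Prod.fst_add, Prod.snd_add, map_add]
  rfl

lemma ratV_zero534 : ratV (0 : K × K) = 0 := by
  simp only [ratV, Prod.fst_zero, Prod.snd_zero, map_zero]
  rfl

lemma ratV_neg534 (ξ : K × K) : ratV (-ξ) = -ratV ξ := by
  simp only [ratV, Prod.fst_neg, Prod.snd_neg, map_neg]
  rfl

lemma bf_ratV534 (t n : K) (ξ γ : K × K) :
    bf t n (ratV ξ) (ratV γ)
      = em534 ((2 * ξ.1 + t * ξ.2) * γ.1 + (t * ξ.1 + 2 * n * ξ.2) * γ.2) := by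
  simp only [bf_eq534, ratV, map_add, map_mul, map_ofNat]

lemma continuous_bf534 (t n : K) (ξ : A0.Adl K × A0.Adl K) : Continuous (bf t n ξ) := by
  have : bf t n ξ = fun y => (2 * ξ.1 + em534 t * ξ.2) * y.1
      + (em534 t * ξ.1 + 2 * em534 n * ξ.2) * y.2 := funext (bf_eq534 t n ξ)
  rw [this]
  fun_prop

lemma em_injective534 : Function.Injective (em534 (K := K)) :=
  NumberField.AdeleRing.algebraMap_injective (𝓞 K) K

instance countable534 : Countable K :=
  (Module.finBasis ℚ K).equivFun.toEquiv.countable_iff.2 inferInstance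

end Bf


/-! ### The lattice `K × K` in `𝔸_K × 𝔸_K` -/

section Lat

variable (K : Type) [Field K] [NumberField K]

/-- The lattice `K × K` in `𝔸_K × 𝔸_K`. -/
def lat534 : AddSubgroup (A0.Adl K × A0.Adl K) := (T1.princ K).prod (T1.princ K)

variable {K}

lemma mem_princ534 (ξ : K) : em534 ξ ∈ T1.princ K := ⟨ξ, rfl⟩

lemma ratV_mem534 (ξ : K × K) : ratV ξ ∈ lat534 K := ⟨mem_princ534 ξ.1, mem_princ534 ξ.2⟩

lemma exists_ratV534 {γ : A0.Adl K × A0.Adl K} (hγ : γ ∈ lat534 K) : ∃ ξ : K × K, ratV ξ = γ := by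
  obtain ⟨⟨a, ha⟩, ⟨b, hb⟩⟩ := hγ
  exact ⟨(a, b), Prod.ext ha hb⟩

lemma ratV_injective534 : Function.Injective (ratV (K := K)) := by
  intro ξ η h
  have h1 : em534 ξ.1 = em534 η.1 := congrArg Prod.fst h
  have h2 : em534 ξ.2 = em534 η.2 := congrArg Prod.snd h
  exact Prod.ext (em_injective534 h1) (em_injective534 h2)

variable (K) in
/-- `K × K ≃ lat534 K`. -/
def latEquiv534 : K × K ≃ lat534 K :=
  Equiv.ofBijective (fun ξ => ⟨ratV ξ, ratV_mem534 ξ⟩)
    ⟨fun ξ η h => ratV_injective534 (congrArg Subtype.val h),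
      fun γ => by
        obtain ⟨ξ, hξ⟩ := exists_ratV534 γ.2
        exact ⟨ξ, Subtype.ext hξ⟩⟩

@[simp] lemma latEquiv_coe534 (ξ : K × K) : ((latEquiv534 K ξ : lat534 K) : A0.Adl K × A0.Adl K)
    = ratV ξ := rfl

instance countable_lat534 : Countable (lat534 K) := (latEquiv534 K).symm.injective.countable

lemma compactSpace_quot534 (hLat : T1.AdeleLatticeC K) :
    CompactSpace ((A0.Adl K × A0.Adl K) ⧸ lat534 K) := by
  obtain ⟨-, -, C, hC, hcov⟩ := hLat
  refine ⟨?_⟩
  have huniv : (univ : Set ((A0.Adl K × A0.Adl K) ⧸ lat534 K))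
      = (QuotientAddGroup.mk : A0.Adl K × A0.Adl K → (A0.Adl K × A0.Adl K) ⧸ lat534 K)
        '' (C ×ˢ C) := by
    ext z
    simp only [mem_univ, true_iff]
    induction z using QuotientAddGroup.induction_on with
    | H p =>
      obtain ⟨ξ₁, h1⟩ := hcov p.1
      obtain ⟨ξ₂, h2⟩ := hcov p.2
      refine ⟨(p.1 - em534 ξ₁, p.2 - em534 ξ₂), ⟨h1, h2⟩, ?_⟩
      rw [QuotientAddGroup.eq]
      have : -(p.1 - em534 ξ₁, p.2 - em534 ξ₂) + p = ratV (ξ₁, ξ₂) := by
        apply Prod.ext
        · change -(p.1 - em534 ξ₁) + p.1 = em534 ξ₁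
          abel
        · change -(p.2 - em534 ξ₂) + p.2 = em534 ξ₂
          abel
      rw [this]
      exact ratV_mem534 _
  rw [huniv]
  exact (hC.prod hC).image continuous_quotient_mk'

end Lat

/-! ### The character system `y ↦ ψ(B(ξ, y))` -/

section Char

variable {K : Type} [Field K] [NumberField K]

/-- The `Circle`-valued additive character attached to an `IsAdeleChar`. -/
def toAddChar534 {ψ : A0.Adl K → ℂ} (hψ : IsAdeleChar ψ) : AddChar (A0.Adl K) Circle where
  toFun x := ⟨ψ x, by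
    change ψ x ∈ Metric.sphere (0 : ℂ) 1
    rw [mem_sphere_zero_iff_norm]
    exact hψ.norm_one x⟩
  map_zero_eq_one' := by
    apply Subtype.ext
    change ψ 0 = 1
    have h := hψ.map_add 0 0
    rw [add_zero] at h
    have h0 : ψ 0 ≠ 0 := by
      intro h0
      have := hψ.norm_one 0
      rw [h0, norm_zero] at this
      exact zero_ne_one this
    exact (mul_left_cancel₀ h0 (by rw [mul_one]; exact h)).symm
  map_add_eq_mul' x y := by
    apply Subtype.ext
    change ψ (x + y) = ψ x * ψ y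
    exact hψ.map_add x y

lemma toAddChar_coe534 {ψ : A0.Adl K → ℂ} (hψ : IsAdeleChar ψ) (x : A0.Adl K) :
    ((toAddChar534 hψ x : Circle) : ℂ) = ψ x := rfl

lemma toAddChar_eq_one534 {ψ : A0.Adl K → ℂ} (hψ : IsAdeleChar ψ) (x : A0.Adl K) :
    toAddChar534 hψ x = 1 ↔ ψ x = 1 := by
  constructor
  · intro h
    have := congrArg (fun z : Circle => (z : ℂ)) h
    simpa [toAddChar_coe534] using this
  · intro h
    apply Subtype.ext
    change ψ x = 1
    exact h

lemma isStdChar534 {ψ : A0.Adl K → ℂ} (hψ : IsAdeleChar ψ) :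
    T3.IsStdChar K (toAddChar534 hψ) where
  cont := by
    have : Continuous fun x : A0.Adl K => (⟨ψ x, by
        change ψ x ∈ Metric.sphere (0 : ℂ) 1
        rw [mem_sphere_zero_iff_norm]
        exact hψ.norm_one x⟩ : Circle) := hψ.cont.subtype_mk _
    exact this
  triv ξ := (toAddChar_eq_one534 hψ _).2 (hψ.triv ξ)
  nontriv := by
    obtain ⟨x, hx⟩ := hψ.nontriv
    exact ⟨x, fun h => hx ((toAddChar_eq_one534 hψ _).1 h)⟩

/-- `K^⊥ = K` for an `IsAdeleChar`. -/
lemma perp534 (hPerp : T3.PerpC K) {ψ : A0.Adl K → ℂ} (hψ : IsAdeleChar ψ) (x : A0.Adl K)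
    (hx : ∀ a : K, ψ (em534 a * x) = 1) : x ∈ T1.princ K := by
  obtain ⟨ξ₀, h⟩ := hPerp (toAddChar534 hψ) (isStdChar534 hψ) x (fun ξ => by
    rw [toAddChar_eq_one534, mul_comm]
    exact hx ξ)
  exact ⟨ξ₀, h.symm⟩

/-- a character which is trivial on `a 𝔸`, `a ∈ K`, forces `a = 0`. -/
lemma eq_zero_of_triv534 {ψ : A0.Adl K → ℂ} (hψ : IsAdeleChar ψ) (a : K)
    (h : ∀ y : A0.Adl K, ψ (em534 a * y) = 1) : a = 0 := by
  by_contra ha
  obtain ⟨x, hx⟩ := hψ.nontriv
  apply hx
  have := h (em534 a⁻¹ * x)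
  rwa [← mul_assoc, ← map_mul, mul_inv_cancel₀ ha, map_one, one_mul] at this

lemma bf_ratV_left534 (t n : K) (ξ : K × K) (y : A0.Adl K × A0.Adl K) :
    bf t n (ratV ξ) y
      = em534 (2 * ξ.1 + t * ξ.2) * y.1 + em534 (t * ξ.1 + 2 * n * ξ.2) * y.2 := by
  simp only [bf_eq534, ratV, map_add, map_mul, map_ofNat]

/-- The character system of `Poisson2C`. -/
def charSys534 (t n : K) (hdisc : t ^ 2 - 4 * n ≠ 0) {ψ : A0.Adl K → ℂ} (hψ : IsAdeleChar ψ)
    (hPerp : T3.PerpC K) : CharSys534 (lat534 K) (K × K) where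
  e ξ y := ψ (bf t n (ratV ξ) y)
  cont ξ := hψ.cont.comp (continuous_bf534 t n _)
  norm_one ξ y := hψ.norm_one _
  map_add ξ x y := by rw [bf_add_right534, hψ.map_add]
  add_map ξ η x := by rw [ratV_add534, bf_add_left534, hψ.map_add]
  triv ξ γ hγ := by
    obtain ⟨η, rfl⟩ := exists_ratV534 hγ
    rw [bf_ratV534]
    exact hψ.triv _
  sep y hy := by
    by_contra hcon
    simp only [not_exists, not_not] at hcon
    have hΔ : 4 * n - t ^ 2 ≠ 0 := fun h => hdisc (by linear_combination -h)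
    have hd : (4 * n - t ^ 2) * (4 * n - t ^ 2)⁻¹ = 1 := mul_inv_cancel₀ hΔ
    generalize (4 * n - t ^ 2)⁻¹ = d at hd
    apply hy
    constructor
    · apply perp534 hPerp hψ
      intro a
      have := hcon (2 * n * a * d, -(t * a) * d)
      rw [bf_ratV_left534] at this
      have e1 : 2 * (2 * n * a * d) + t * (-(t * a) * d) = a := by
        linear_combination a * hd
      have e2 : t * (2 * n * a * d) + 2 * n * (-(t * a) * d) = 0 := by
        ring
      simpa only [e1, e2, map_zero, zero_mul, add_zero] using this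
    · apply perp534 hPerp hψ
      intro b
      have := hcon (-(t * b) * d, 2 * b * d)
      rw [bf_ratV_left534] at this
      have e1 : 2 * (-(t * b) * d) + t * (2 * b * d) = 0 := by
        ring
      have e2 : t * (-(t * b) * d) + 2 * n * (2 * b * d) = b := by
        linear_combination b * hd
      simpa only [e1, e2, map_zero, zero_mul, zero_add] using this
  inj ξ h := by
    have hΔ : 4 * n - t ^ 2 ≠ 0 := fun h => hdisc (by linear_combination -h)
    have ha : 2 * ξ.1 + t * ξ.2 = 0 := by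
      apply eq_zero_of_triv534 hψ
      intro y
      have := h (y, 0)
      rw [bf_ratV_left534] at this
      simpa only [mul_zero, add_zero] using this
    have hb : t * ξ.1 + 2 * n * ξ.2 = 0 := by
      apply eq_zero_of_triv534 hψ
      intro y
      have := h (0, y)
      rw [bf_ratV_left534] at this
      simpa only [mul_zero, zero_add] using this
    have h1 : (4 * n - t ^ 2) * ξ.1 = 0 := by linear_combination 2 * n * ha - t * hb
    have h2 : (4 * n - t ^ 2) * ξ.2 = 0 := by linear_combination 2 * hb - t * ha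
    exact Prod.ext ((mul_eq_zero.1 h1).resolve_left hΔ) ((mul_eq_zero.1 h2).resolve_left hΔ)

end Char


/-! ### The leaf -/

/-- **A2.04 `Poisson2C`** from the interface Props of T1 (local compactness, lattice,
fundamental domain) and T3 (`K^⊥ = K`). -/
theorem poisson2_of534
    (hLC : ∀ (K : Type) [Field K] [NumberField K], T1.LocCompC K)
    (hLat : ∀ (K : Type) [Field K] [NumberField K], T1.AdeleLatticeC K)
    (hFD : ∀ (K : Type) [Field K] [NumberField K], T1.AddFundDomC K)
    (hPerp : ∀ (K : Type) [Field K] [NumberField K], T3.PerpC K) : Poisson2C := by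
  intro K _ _ t n hdisc ψ hψ μ hμ Φ hΦc hΦi hΦs hΦhat
  letI : MeasurableSpace (A0.Adl K) := borel (A0.Adl K)
  haveI : BorelSpace (A0.Adl K) := ⟨rfl⟩
  obtain ⟨⟨hlc, -, hsc⟩, -⟩ := hLC K
  haveI := hlc
  haveI := hsc
  obtain ⟨hHaar, hcov1⟩ := hμ
  haveI := hHaar
  obtain ⟨D, -, hD, -, -, -⟩ := hFD K μ hHaar
  have hD1 : μ D = 1 := hcov1 D hD
  haveI := compactSpace_quot534 (hLat K)
  have hD2 : IsAddFundamentalDomain (lat534 K) (D ×ˢ D) (μ.prod μ) :=
    isAddFundamentalDomain_prod534 hD hD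
  have hvol : (μ.prod μ) (D ×ˢ D) = 1 := by rw [Measure.prod_prod, hD1, one_mul]
  set S := charSys534 t n hdisc hψ (hPerp K) with hS
  -- local normal summability
  have hloc : ∀ C : Compacts (A0.Adl K × A0.Adl K), Summable fun γ : lat534 K =>
      ‖((⟨Φ, hΦc⟩ : C(A0.Adl K × A0.Adl K, ℂ)).comp
        (ContinuousMap.addRight (γ : A0.Adl K × A0.Adl K))).restrict C‖ := by
    intro C
    obtain ⟨b, hb, hbound⟩ := hΦs ((C : Set (A0.Adl K × A0.Adl K)) ∪ {0})
      (C.isCompact.union isCompact_singleton)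
    have hb0 : ∀ ξ, 0 ≤ b ξ := fun ξ =>
      (norm_nonneg _).trans (hbound ξ 0 (Or.inr rfl))
    rw [← (latEquiv534 K).summable_iff]
    refine Summable.of_nonneg_of_le (fun ξ => norm_nonneg _) (fun ξ => ?_) hb
    rw [Function.comp_apply, ContinuousMap.norm_le _ (hb0 ξ)]
    intro x
    exact hbound ξ x (Or.inl x.2)
  -- summability of the coefficients
  have hcoef : ∀ ξ : K × K, S.coeff534 (μ.prod μ) Φ ξ
      = integral2 μ fun y => Φ y * ψ (bf t n (ratV (-ξ)) y) := fun ξ => rfl
  have hc : Summable fun ξ : K × K => ‖S.coeff534 (μ.prod μ) Φ ξ‖ := by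
    simp only [hcoef]
    exact (Equiv.neg (K × K)).summable_iff.2 hΦhat
  have main := S.poisson_pointwise534 hD2 (by rw [hvol]; exact ENNReal.one_ne_top)
    ⟨Φ, hΦc⟩ hΦi hloc hc 0
  rw [hvol] at main
  simp only [ENNReal.toReal_one, Complex.ofReal_one, one_mul, zero_add, ContinuousMap.coe_mk,
    S.map_zero534, mul_one] at main
  have hL : ∑' γ : lat534 K, Φ (γ : A0.Adl K × A0.Adl K) = ∑' ξ : K × K, Φ (ratV ξ) := by
    rw [← (latEquiv534 K).tsum_eq]
    rfl
  have hR : ∑' ξ : K × K, S.coeff534 (μ.prod μ) Φ ξ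
      = ∑' ξ : K × K, integral2 μ fun y => Φ y * ψ (bf t n (ratV ξ) y) := by
    simp only [hcoef]
    exact (Equiv.neg (K × K)).tsum_eq (fun ξ => integral2 μ fun y => Φ y * ψ (bf t n (ratV ξ) y))
  rw [← hL, ← hR]
  exact main

end Fermat.Agent.LT.A2.H534

end

end
-- ===== PACK-END LT/A2/H534/Poisson2.lean

-- ===== PACK-BEGIN LT/A2/H546/Torus.lean
section


/-!
# Row LT, tower A2, leaf A2.07 `LiftExC` (helper546) -- part 1: the torus is a commutative group

OFF-MAIN.  Algebra of the matrices `torMat t n a b = [[a, -n b], [b, a + t b]]` and of the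
predicates `InTorus`, `InTorusRat`, `InTorus1`, `Adm`, `InGPlus` of `LT/A2/Kernel.lean`.
-/

set_option autoImplicit false

open IsDedekindDomain NumberField AutomorphicForm MeasureTheory
open scoped MatrixGroups

noncomputable section

namespace Fermat.Agent.LT.A2.H546

open Fermat.Agent.LT.H130 Fermat.Agent.LT.H556 Fermat.Agent.LT.A2

section TorMat

variable {R : Type*} [CommRing R]

theorem torMat_mul_h546 (t n a b a' b' : R) :
    torMat t n a b * torMat t n a' b'
      = torMat t n (a * a' - n * (b * b')) (a * b' + b * a' + t * (b * b')) := by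
  unfold torMat
  ext i j
  fin_cases i <;> fin_cases j <;> simp [Matrix.mul_apply, Fin.sum_univ_two] <;> ring

theorem torMat_comm_h546 (t n a b a' b' : R) :
    torMat t n a b * torMat t n a' b' = torMat t n a' b' * torMat t n a b := by
  rw [torMat_mul_h546, torMat_mul_h546]
  congr 1 <;> ring

theorem torMat_one_h546 (t n : R) : torMat t n 1 0 = 1 := by
  unfold torMat
  ext i j
  fin_cases i <;> fin_cases j <;> simp

theorem torMat_det_h546 (t n a b : R) : (torMat t n a b).det = a * (a + t * b) + n * b * b := by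
  unfold torMat
  rw [Matrix.det_fin_two_of]
  ring

/-- The inverse of a torus matrix (given an inverse `c` of its determinant). -/
theorem torMat_inv_mul_h546 (t n a b c : R) (hc : c * (a * (a + t * b) + n * b * b) = 1) :
    torMat t n (c * (a + t * b)) (-(c * b)) * torMat t n a b = 1 := by
  rw [torMat_mul_h546, ← torMat_one_h546 t n]
  congr 1
  · linear_combination hc
  · ring

end TorMat

section Torus

variable {K : Type} [Field K] [NumberField K]

theorem inTorus_one_h546 (t n : K) : InTorus t n (1 : A0.G K) :=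
  ⟨1, 0, by rw [torMat_one_h546]; rfl⟩

theorem inTorus_mul_h546 {t n : K} {m m' : A0.G K} (h : InTorus t n m) (h' : InTorus t n m') :
    InTorus t n (m * m') := by
  obtain ⟨a, b, e⟩ := h
  obtain ⟨a', b', e'⟩ := h'
  refine ⟨a * a' - algebraMap K (A0.Adl K) n * (b * b'),
    a * b' + b * a' + algebraMap K (A0.Adl K) t * (b * b'), ?_⟩
  rw [Units.val_mul, e, e', torMat_mul_h546]

theorem inTorus_comm_h546 {t n : K} {m m' : A0.G K} (h : InTorus t n m) (h' : InTorus t n m') :
    m * m' = m' * m := by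
  obtain ⟨a, b, e⟩ := h
  obtain ⟨a', b', e'⟩ := h'
  apply Units.ext
  rw [Units.val_mul, Units.val_mul, e, e', torMat_comm_h546]

theorem inTorus_inv_h546 {t n : K} {m : A0.G K} (h : InTorus t n m) : InTorus t n m⁻¹ := by
  obtain ⟨a, b, e⟩ := h
  set c : A0.Adl K := (((Matrix.GeneralLinearGroup.det m)⁻¹ : (A0.Adl K)ˣ) : A0.Adl K) with hc
  have hdet : ((Matrix.GeneralLinearGroup.det m : (A0.Adl K)ˣ) : A0.Adl K)
      = a * (a + algebraMap K (A0.Adl K) t * b) + algebraMap K (A0.Adl K) n * b * b := by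
    rw [Matrix.GeneralLinearGroup.val_det_apply, e, torMat_det_h546]
  have hc1 : c * (a * (a + algebraMap K (A0.Adl K) t * b) + algebraMap K (A0.Adl K) n * b * b)
      = 1 := by
    rw [← hdet, hc]
    exact Units.inv_mul _
  refine ⟨c * (a + algebraMap K (A0.Adl K) t * b), -(c * b), ?_⟩
  have key := torMat_inv_mul_h546 (algebraMap K (A0.Adl K) t) (algebraMap K (A0.Adl K) n) a b c hc1
  rw [← e] at key
  -- `X * m = 1` gives `m⁻¹ = X`
  have : ((m⁻¹ : A0.G K) : Matrix (Fin 2) (Fin 2) (A0.Adl K))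
      = torMat (algebraMap K (A0.Adl K) t) (algebraMap K (A0.Adl K) n)
          (c * (a + algebraMap K (A0.Adl K) t * b)) (-(c * b)) := by
    have h1 : ((m⁻¹ : A0.G K) : Matrix (Fin 2) (Fin 2) (A0.Adl K))
        = (torMat (algebraMap K (A0.Adl K) t) (algebraMap K (A0.Adl K) n)
          (c * (a + algebraMap K (A0.Adl K) t * b)) (-(c * b)) * (m : Matrix _ _ _))
            * ((m⁻¹ : A0.G K) : Matrix (Fin 2) (Fin 2) (A0.Adl K)) := by
      rw [key, one_mul]
    rw [h1, mul_assoc, ← Units.val_mul, mul_inv_cancel, Units.val_one, mul_one]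
  exact this

theorem inTorus_of_rat_h546 {t n : K} {y : A0.G K} (h : InTorusRat t n y) : InTorus t n y := by
  obtain ⟨a, b, e⟩ := h
  exact ⟨_, _, e⟩

theorem inTorusRat_one_h546 (t n : K) : InTorusRat t n (1 : A0.G K) :=
  ⟨1, 0, by rw [map_one, map_zero, torMat_one_h546]; rfl⟩

theorem inTorusRat_mul_h546 {t n : K} {m m' : A0.G K} (h : InTorusRat t n m)
    (h' : InTorusRat t n m') : InTorusRat t n (m * m') := by
  obtain ⟨a, b, e⟩ := h
  obtain ⟨a', b', e'⟩ := h'
  refine ⟨a * a' - n * (b * b'), a * b' + b * a' + t * (b * b'), ?_⟩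
  rw [Units.val_mul, e, e', torMat_mul_h546]
  simp only [map_sub, map_mul, map_add]

/-- The inverse of a rational torus element of determinant one is rational. -/
theorem inTorusRat_inv_h546 {t n : K} {m : A0.G K} (h : InTorusRat t n m)
    (hd : Matrix.GeneralLinearGroup.det m = 1) : InTorusRat t n m⁻¹ := by
  obtain ⟨a, b, e⟩ := h
  have hdet : (1 : A0.Adl K)
      = algebraMap K (A0.Adl K) a * (algebraMap K (A0.Adl K) a
          + algebraMap K (A0.Adl K) t * algebraMap K (A0.Adl K) b)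
        + algebraMap K (A0.Adl K) n * algebraMap K (A0.Adl K) b * algebraMap K (A0.Adl K) b := by
    rw [← torMat_det_h546, ← e, ← Matrix.GeneralLinearGroup.val_det_apply, hd, Units.val_one]
  have key := torMat_inv_mul_h546 (algebraMap K (A0.Adl K) t) (algebraMap K (A0.Adl K) n)
    (algebraMap K (A0.Adl K) a) (algebraMap K (A0.Adl K) b) 1 (by rw [one_mul]; exact hdet.symm)
  rw [← e] at key
  refine ⟨a + t * b, -b, ?_⟩
  have h1 : ((m⁻¹ : A0.G K) : Matrix (Fin 2) (Fin 2) (A0.Adl K))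
      = (torMat (algebraMap K (A0.Adl K) t) (algebraMap K (A0.Adl K) n)
        (1 * (algebraMap K (A0.Adl K) a + algebraMap K (A0.Adl K) t * algebraMap K (A0.Adl K) b))
        (-(1 * algebraMap K (A0.Adl K) b)) * (m : Matrix _ _ _))
          * ((m⁻¹ : A0.G K) : Matrix (Fin 2) (Fin 2) (A0.Adl K)) := by
    rw [key, one_mul]
  rw [h1, mul_assoc, ← Units.val_mul, mul_inv_cancel, Units.val_one, mul_one]
  simp only [one_mul, map_add, map_mul, map_neg]

theorem inTorus1_one_h546 (t n : K) : InTorus1 t n (1 : A0.G K) :=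
  ⟨inTorus_one_h546 t n, map_one _⟩

theorem inTorus1_mul_h546 {t n : K} {m m' : A0.G K} (h : InTorus1 t n m)
    (h' : InTorus1 t n m') : InTorus1 t n (m * m') :=
  ⟨inTorus_mul_h546 h.1 h'.1, by rw [map_mul, h.2, h'.2, one_mul]⟩

theorem inTorus1_inv_h546 {t n : K} {m : A0.G K} (h : InTorus1 t n m) : InTorus1 t n m⁻¹ :=
  ⟨inTorus_inv_h546 h.1, by rw [map_inv, h.2, inv_one]⟩

/-! ## Admissible pairs -/

theorem adm_mul_h546 {t n : K} {g m g' m' : A0.G K} (h : Adm t n g m) (h' : Adm t n g' m') :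
    Adm t n (g * g') (m * m') :=
  ⟨inTorus_mul_h546 h.1 h'.1, by rw [map_mul, map_mul, h.2, h'.2]⟩

theorem adm_inv_h546 {t n : K} {g m : A0.G K} (h : Adm t n g m) : Adm t n g⁻¹ m⁻¹ :=
  ⟨inTorus_inv_h546 h.1, by rw [map_inv, map_inv, h.2]⟩

theorem adm_one_h546 (t n : K) : Adm t n (1 : A0.G K) 1 :=
  ⟨inTorus_one_h546 t n, rfl⟩

/-- Multiplying the torus component of an admissible pair by an element of `T¹`. -/
theorem adm_torus1_mul_h546 {t n : K} {g m m' : A0.G K} (h : Adm t n g m)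
    (h' : InTorus1 t n m') : Adm t n g (m' * m) :=
  ⟨inTorus_mul_h546 h'.1 h.1, by rw [map_mul, h'.2, one_mul, h.2]⟩

/-- Two torus components of the same `g` differ by an element of `T¹`. -/
theorem inTorus1_of_adm_h546 {t n : K} {g m m' : A0.G K} (h : Adm t n g m) (h' : Adm t n g m') :
    InTorus1 t n (m' * m⁻¹) :=
  ⟨inTorus_mul_h546 h'.1 (inTorus_inv_h546 h.1), by
    rw [map_mul, map_inv, ← h.2, ← h'.2, mul_inv_cancel]⟩

theorem inGPlus_mul_h546 {t n : K} {g g' : A0.G K} (h : InGPlus t n g) (h' : InGPlus t n g') :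
    InGPlus t n (g * g') := by
  obtain ⟨m, hm⟩ := h
  obtain ⟨m', hm'⟩ := h'
  exact ⟨m * m', adm_mul_h546 hm hm'⟩

theorem inGPlus_inv_h546 {t n : K} {g : A0.G K} (h : InGPlus t n g) : InGPlus t n g⁻¹ := by
  obtain ⟨m, hm⟩ := h
  exact ⟨m⁻¹, adm_inv_h546 hm⟩

end Torus

end Fermat.Agent.LT.A2.H546

end

end
-- ===== PACK-END LT/A2/H546/Torus.lean

-- ===== PACK-BEGIN LT/A2/H64/TorusLocal.lean
section



/-!
# Row LT, tower A2, leaf A2.03.1.1.05 `WX467.InducedC` -- part 1 (helper64)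

OFF-MAIN.  LOCAL ALGEBRA of the torus `T = {a + b ω}`, `ω² - t ω + n = 0`, over a field `F` with a
valuation `val : Valuation F ℤᵐ⁰`, in the coordinates of `A2.torMat`.

No Hensel, no discriminant: for INTEGRAL `α = a + b ω`, `β`, `γ` whose norms have valuation
`exp (-1)`,

* `α⁻¹ β` is integral iff the coordinates of `β ᾱ` have valuation `≤ exp (-1)` (`rel_iff64`);
* `β ᾱ ≡ 0` or `α β ≡ 0` modulo the maximal ideal (`dichotomy64`; from
  `(d a - c b)(a d + b c + t b d) = d² N(α) - b² N(β)`);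
* at most two classes: if `α⁻¹ β` and `α⁻¹ γ` are not integral then `β⁻¹ γ` is integral
  (`three64`; from `(γ β̄) N(α) = (α γ) · conj (α β)`).

Mathlib + the definition of `torMat` only.
-/

set_option autoImplicit false

open scoped WithZero

noncomputable section

namespace Fermat.Agent.LT.A2.H64

open Fermat.Agent.LT.A2

/-! ## 0. Values in `ℤᵐ⁰` -/

theorem lt_one_iff64 (x : ℤᵐ⁰) : x < 1 ↔ x ≤ WithZero.exp (-1 : ℤ) := by
  have h := WithZero.lt_mul_exp_iff_le (x := x) (y := WithZero.exp (-1 : ℤ)) WithZero.exp_ne_zero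
  rw [← WithZero.exp_add] at h
  simpa using h

theorem exp_neg_one_lt_one64 : WithZero.exp (-1 : ℤ) < (1 : ℤᵐ⁰) :=
  (lt_one_iff64 _).2 le_rfl

theorem exp_neg_one_le_one64 : WithZero.exp (-1 : ℤ) ≤ (1 : ℤᵐ⁰) :=
  exp_neg_one_lt_one64.le

section Local

variable {F : Type*} [Field F] (val : Valuation F ℤᵐ⁰)

/-- `val (x + y) ≤ c` if both are. -/
theorem val_add_le64 {x y : F} {c : ℤᵐ⁰} (hx : val x ≤ c) (hy : val y ≤ c) :
    val (x + y) ≤ c :=
  (val.map_add x y).trans (max_le hx hy)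

theorem val_sub_le64 {x y : F} {c : ℤᵐ⁰} (hx : val x ≤ c) (hy : val y ≤ c) :
    val (x - y) ≤ c :=
  (val.map_sub x y).trans (max_le hx hy)

/-- `val (x * y) ≤ c` if `val x ≤ 1` and `val y ≤ c`. -/
theorem val_mul_le_right64 {x y : F} {c : ℤᵐ⁰} (hx : val x ≤ 1) (hy : val y ≤ c) :
    val (x * y) ≤ c := by
  rw [val.map_mul]
  calc val x * val y ≤ 1 * c := mul_le_mul' hx hy
    _ = c := one_mul c

theorem val_mul_le_left64 {x y : F} {c : ℤᵐ⁰} (hx : val x ≤ c) (hy : val y ≤ 1) :
    val (x * y) ≤ c := by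
  rw [mul_comm]
  exact val_mul_le_right64 val hy hx

/-- In a discretely valued field, a product of integers in the maximal ideal has a factor in the
maximal ideal. -/
theorem val_mul_le_exp64 {p q : F} (hp : val p ≤ 1) (hq : val q ≤ 1)
    (h : val (p * q) ≤ WithZero.exp (-1 : ℤ)) :
    val p ≤ WithZero.exp (-1 : ℤ) ∨ val q ≤ WithZero.exp (-1 : ℤ) := by
  by_contra hcon
  push Not at hcon
  obtain ⟨h1, h2⟩ := hcon
  have hp1 : val p = 1 := le_antisymm hp (not_lt.1 (fun hlt => absurd ((lt_one_iff64 _).1 hlt) (not_le.2 h1)))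
  have hq1 : val q = 1 := le_antisymm hq (not_lt.1 (fun hlt => absurd ((lt_one_iff64 _).1 hlt) (not_le.2 h2)))
  rw [val.map_mul, hp1, hq1, one_mul] at h
  exact absurd h (not_le.2 exp_neg_one_lt_one64)

/-- If `x` is integral, `x² + y` and `y` are in the maximal ideal, so is `x`. -/
theorem val_le_exp_of_sq64 {x y : F} (hx : val x ≤ 1)
    (h : val (x ^ 2 + y) ≤ WithZero.exp (-1 : ℤ)) (hy : val y ≤ WithZero.exp (-1 : ℤ)) :
    val x ≤ WithZero.exp (-1 : ℤ) := by
  have h2 : val (x * x) ≤ WithZero.exp (-1 : ℤ) := by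
    have : x * x = (x ^ 2 + y) - y := by ring
    rw [this]
    exact val_sub_le64 val h hy
  rcases val_mul_le_exp64 val hx hx h2 with h3 | h3 <;> exact h3

/-- The norm form `N(a + b ω) = a² + t a b + n b²`. -/
def nm64 (t n a b : F) : F := a ^ 2 + t * a * b + n * b ^ 2

omit val in
theorem det_torMat64 (t n a b : F) : (torMat t n a b).det = nm64 t n a b := by
  simp only [torMat, Matrix.det_fin_two_of, nm64]
  ring

omit val in
theorem torMat_mul64 {R : Type*} [CommRing R] (t n a b c d : R) :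
    torMat t n a b * torMat t n c d
      = torMat t n (a * c - n * (b * d)) (a * d + b * c + t * (b * d)) := by
  ext i j
  fin_cases i <;> fin_cases j <;>
    simp [torMat, Matrix.mul_apply, Fin.sum_univ_two] <;> ring

omit val in
theorem torMat_one64 {R : Type*} [CommRing R] (t n : R) : torMat t n 1 0 = 1 := by
  ext i j
  fin_cases i <;> fin_cases j <;> simp [torMat]

omit val in
/-- `α⁻¹ β = β ᾱ / N(α)` in coordinates. -/
theorem torMat_inv_mul64 (t n a b c d : F) (hN : nm64 t n a b ≠ 0) :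
    (torMat t n a b)⁻¹ * torMat t n c d
      = torMat t n ((c * a + t * c * b + n * d * b) / nm64 t n a b)
          ((d * a - c * b) / nm64 t n a b) := by
  have hdet : IsUnit (torMat t n a b).det := by
    rw [det_torMat64]; exact isUnit_iff_ne_zero.2 hN
  have hprod : torMat t n c d
      = torMat t n a b * torMat t n ((c * a + t * c * b + n * d * b) / nm64 t n a b)
          ((d * a - c * b) / nm64 t n a b) := by
    rw [torMat_mul64]
    have h1 : a * ((c * a + t * c * b + n * d * b) / nm64 t n a b)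
        - n * (b * ((d * a - c * b) / nm64 t n a b)) = c := by
      field_simp
      simp only [nm64]
      ring
    have h2 : a * ((d * a - c * b) / nm64 t n a b)
        + b * ((c * a + t * c * b + n * d * b) / nm64 t n a b)
        + t * (b * ((d * a - c * b) / nm64 t n a b)) = d := by
      field_simp
      simp only [nm64]
      ring
    rw [h1, h2]
  conv_lhs => rw [hprod]
  rw [← Matrix.mul_assoc, Matrix.nonsing_inv_mul _ hdet, Matrix.one_mul]

/-- A matrix with integral entries. -/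
def IntM64 (M : Matrix (Fin 2) (Fin 2) F) : Prop := ∀ i j, val (M i j) ≤ 1

theorem intM_mul64 {M N : Matrix (Fin 2) (Fin 2) F} (hM : IntM64 val M) (hN : IntM64 val N) :
    IntM64 val (M * N) := by
  intro i j
  rw [Matrix.mul_apply, Fin.sum_univ_two]
  exact val_add_le64 val (val_mul_le_right64 val (hM i 0) (hN 0 j))
    (val_mul_le_right64 val (hM i 1) (hN 1 j))

theorem intM_torMat_iff64 {t n : F} (ht : val t ≤ 1) (hn : val n ≤ 1) (x y : F) :
    IntM64 val (torMat t n x y) ↔ val x ≤ 1 ∧ val y ≤ 1 := by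
  constructor
  · intro h
    refine ⟨?_, ?_⟩
    · simpa [torMat] using h 0 0
    · simpa [torMat] using h 1 0
  · rintro ⟨hx, hy⟩ i j
    fin_cases i <;> fin_cases j
    · simpa [torMat] using hx
    · have : val (-(n * y)) ≤ 1 := by
        rw [Valuation.map_neg]; exact val_mul_le_right64 val hn hy
      simpa [torMat] using this
    · simpa [torMat] using hy
    · have : val (x + t * y) ≤ 1 := val_add_le64 val hx (val_mul_le_right64 val ht hy)
      simpa [torMat] using this

/-- `val (x / N) ≤ 1 ↔ val x ≤ exp (-1)` when `val N = exp (-1)`. -/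
theorem val_div_le_one_iff64 {x N : F} (hN : val N = WithZero.exp (-1 : ℤ)) :
    val (x / N) ≤ 1 ↔ val x ≤ WithZero.exp (-1 : ℤ) := by
  have hN0 : val N ≠ 0 := by rw [hN]; exact WithZero.exp_ne_zero
  rw [map_div₀, div_le_iff₀ (zero_lt_iff.2 hN0), one_mul, hN]

/-- **The relation in coordinates.** -/
theorem rel_iff64 {t n a b c d : F} (ht : val t ≤ 1) (hn : val n ≤ 1)
    (hN : val (nm64 t n a b) = WithZero.exp (-1 : ℤ)) :
    IntM64 val ((torMat t n a b)⁻¹ * torMat t n c d) ↔
      val (c * a + t * c * b + n * d * b) ≤ WithZero.exp (-1 : ℤ) ∧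
        val (d * a - c * b) ≤ WithZero.exp (-1 : ℤ) := by
  have hN0 : nm64 t n a b ≠ 0 := by
    intro h0
    rw [h0, map_zero] at hN
    exact WithZero.exp_ne_zero hN.symm
  rw [torMat_inv_mul64 t n a b c d hN0, intM_torMat_iff64 val ht hn,
    val_div_le_one_iff64 val hN, val_div_le_one_iff64 val hN]

/-- **Dichotomy.**  For integral `α`, `β` with norms in the maximal ideal: `β ᾱ ≡ 0` or
`α β ≡ 0`. -/
theorem dichotomy64 {t n a b c d : F} (ht : val t ≤ 1) (hn : val n ≤ 1)
    (ha : val a ≤ 1) (hb : val b ≤ 1) (hc : val c ≤ 1) (hd : val d ≤ 1)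
    (hN : val (nm64 t n a b) ≤ WithZero.exp (-1 : ℤ))
    (hN' : val (nm64 t n c d) ≤ WithZero.exp (-1 : ℤ)) :
    (val (c * a + t * c * b + n * d * b) ≤ WithZero.exp (-1 : ℤ) ∧
        val (d * a - c * b) ≤ WithZero.exp (-1 : ℤ)) ∨
      (val (a * c - n * (b * d)) ≤ WithZero.exp (-1 : ℤ) ∧
        val (a * d + b * c + t * (b * d)) ≤ WithZero.exp (-1 : ℤ)) := by
  -- integrality of the four coordinates
  have hP1 : val (d * a - c * b) ≤ 1 :=
    val_sub_le64 val (val_mul_le_right64 val hd ha) (val_mul_le_right64 val hc hb)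
  have hQ1 : val (a * d + b * c + t * (b * d)) ≤ 1 :=
    val_add_le64 val (val_add_le64 val (val_mul_le_right64 val ha hd)
      (val_mul_le_right64 val hb hc))
      (val_mul_le_right64 val ht (val_mul_le_right64 val hb hd))
  have hR1 : val (c * a + t * c * b + n * d * b) ≤ 1 :=
    val_add_le64 val (val_add_le64 val (val_mul_le_right64 val hc ha)
      (val_mul_le_right64 val (val_mul_le_right64 val ht hc) hb))
      (val_mul_le_right64 val (val_mul_le_right64 val hn hd) hb)
  have hR'1 : val (a * c - n * (b * d)) ≤ 1 :=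
    val_sub_le64 val (val_mul_le_right64 val ha hc)
      (val_mul_le_right64 val hn (val_mul_le_right64 val hb hd))
  -- the product of the `ω`-coordinates
  have hPQ : val ((d * a - c * b) * (a * d + b * c + t * (b * d))) ≤ WithZero.exp (-1 : ℤ) := by
    have : (d * a - c * b) * (a * d + b * c + t * (b * d))
        = d ^ 2 * nm64 t n a b - b ^ 2 * nm64 t n c d := by
      simp only [nm64]; ring
    rw [this]
    refine val_sub_le64 val (val_mul_le_right64 val ?_ hN) (val_mul_le_right64 val ?_ hN')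
    · rw [map_pow]; exact pow_le_one₀ zero_le hd
    · rw [map_pow]; exact pow_le_one₀ zero_le hb
  have hNN : val (nm64 t n a b * nm64 t n c d) ≤ WithZero.exp (-1 : ℤ) :=
    val_mul_le_left64 val hN (hN'.trans exp_neg_one_le_one64)
  rcases val_mul_le_exp64 val hP1 hQ1 hPQ with hP | hQ
  · left
    refine ⟨?_, hP⟩
    refine val_le_exp_of_sq64 val hR1 (y := t * (c * a + t * c * b + n * d * b) * (d * a - c * b)
      + n * (d * a - c * b) ^ 2) ?_ ?_
    · have : (c * a + t * c * b + n * d * b) ^ 2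
          + (t * (c * a + t * c * b + n * d * b) * (d * a - c * b) + n * (d * a - c * b) ^ 2)
          = nm64 t n a b * nm64 t n c d := by
        simp only [nm64]; ring
      rw [this]; exact hNN
    · refine val_add_le64 val (val_mul_le_right64 val (val_mul_le_right64 val ht hR1) hP) ?_
      rw [pow_two]
      exact val_mul_le_right64 val hn (val_mul_le_right64 val hP1 hP)
  · right
    refine ⟨?_, hQ⟩
    refine val_le_exp_of_sq64 val hR'1 (y := t * (a * c - n * (b * d))
      * (a * d + b * c + t * (b * d)) + n * (a * d + b * c + t * (b * d)) ^ 2) ?_ ?_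
    · have : (a * c - n * (b * d)) ^ 2
          + (t * (a * c - n * (b * d)) * (a * d + b * c + t * (b * d))
            + n * (a * d + b * c + t * (b * d)) ^ 2)
          = nm64 t n a b * nm64 t n c d := by
        simp only [nm64]; ring
      rw [this]; exact hNN
    · refine val_add_le64 val (val_mul_le_right64 val (val_mul_le_right64 val ht hR'1) hQ) ?_
      rw [pow_two]
      exact val_mul_le_right64 val hn (val_mul_le_right64 val hQ1 hQ)

/-- If `val (x * N) ≤ exp (-1) * exp (-1)` and `val N = exp (-1)` then `val x ≤ exp (-1)`. -/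
theorem val_le_of_mul64 {x N : F} (hN : val N = WithZero.exp (-1 : ℤ))
    (h : val (x * N) ≤ WithZero.exp (-1 : ℤ) * WithZero.exp (-1 : ℤ)) :
    val x ≤ WithZero.exp (-1 : ℤ) := by
  rw [val.map_mul, hN] at h
  exact le_of_mul_le_mul_right h (zero_lt_iff.2 WithZero.exp_ne_zero)

/-- **At most two classes.**  Integral `α`, `β`, `γ` with norms of valuation `exp (-1)`: if
`α⁻¹ β` and `α⁻¹ γ` are not integral then `β⁻¹ γ` is integral. -/
theorem three64 {t n a b c d e f : F} (ht : val t ≤ 1) (hn : val n ≤ 1)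
    (ha : val a ≤ 1) (hb : val b ≤ 1) (hc : val c ≤ 1) (hd : val d ≤ 1)
    (he : val e ≤ 1) (hf : val f ≤ 1)
    (hN : val (nm64 t n a b) = WithZero.exp (-1 : ℤ))
    (hN' : val (nm64 t n c d) = WithZero.exp (-1 : ℤ))
    (hN'' : val (nm64 t n e f) = WithZero.exp (-1 : ℤ))
    (h1 : ¬ IntM64 val ((torMat t n a b)⁻¹ * torMat t n c d))
    (h2 : ¬ IntM64 val ((torMat t n a b)⁻¹ * torMat t n e f)) :
    IntM64 val ((torMat t n c d)⁻¹ * torMat t n e f) := by
  rw [rel_iff64 val ht hn hN] at h1 h2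
  rw [rel_iff64 val ht hn hN']
  -- `α β ≡ 0` and `α γ ≡ 0`
  obtain ⟨hu0, hu1⟩ : val (a * c - n * (b * d)) ≤ WithZero.exp (-1 : ℤ) ∧
      val (a * d + b * c + t * (b * d)) ≤ WithZero.exp (-1 : ℤ) := by
    rcases dichotomy64 val ht hn ha hb hc hd hN.le hN'.le with h | h
    · exact absurd h h1
    · exact h
  obtain ⟨hv0, hv1⟩ : val (a * e - n * (b * f)) ≤ WithZero.exp (-1 : ℤ) ∧
      val (a * f + b * e + t * (b * f)) ≤ WithZero.exp (-1 : ℤ) := by
    rcases dichotomy64 val ht hn ha hb he hf hN.le hN''.le with h | h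
    · exact absurd h h2
    · exact h
  have hmm : ∀ {x y : F}, val x ≤ WithZero.exp (-1 : ℤ) → val y ≤ WithZero.exp (-1 : ℤ) →
      val (x * y) ≤ WithZero.exp (-1 : ℤ) * WithZero.exp (-1 : ℤ) := by
    intro x y hx hy
    rw [val.map_mul]
    exact mul_le_mul' hx hy
  have hee : WithZero.exp (-1 : ℤ) * WithZero.exp (-1 : ℤ) ≤ (1 : ℤᵐ⁰) * WithZero.exp (-1 : ℤ) * WithZero.exp (-1 : ℤ) := by
    rw [one_mul]
  constructor
  · -- constant coordinate of `γ β̄`
    apply val_le_of_mul64 val hN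
    have : (e * c + t * e * d + n * f * d) * nm64 t n a b
        = (a * e - n * (b * f)) * (a * c - n * (b * d))
          + t * ((a * e - n * (b * f)) * (a * d + b * c + t * (b * d)))
          + n * ((a * f + b * e + t * (b * f)) * (a * d + b * c + t * (b * d))) := by
      simp only [nm64]; ring
    rw [this]
    exact val_add_le64 val (val_add_le64 val (hmm hv0 hu0)
      (val_mul_le_right64 val ht (hmm hv0 hu1)))
      (val_mul_le_right64 val hn (hmm hv1 hu1))
  · -- `ω`-coordinate of `γ β̄`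
    apply val_le_of_mul64 val hN
    have : (f * c - e * d) * nm64 t n a b
        = (a * f + b * e + t * (b * f)) * (a * c - n * (b * d))
          - (a * e - n * (b * f)) * (a * d + b * c + t * (b * d)) := by
      simp only [nm64]; ring
    rw [this]
    exact val_sub_le64 val (hmm hv1 hu0) (hmm hv0 hu1)

/-- **Symmetry.** -/
theorem rel_symm64 {t n a b c d : F} (ht : val t ≤ 1) (hn : val n ≤ 1)
    (hN : val (nm64 t n a b) = WithZero.exp (-1 : ℤ))
    (hN' : val (nm64 t n c d) = WithZero.exp (-1 : ℤ))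
    (h : IntM64 val ((torMat t n a b)⁻¹ * torMat t n c d)) :
    IntM64 val ((torMat t n c d)⁻¹ * torMat t n a b) := by
  rw [rel_iff64 val ht hn hN] at h
  rw [rel_iff64 val ht hn hN']
  obtain ⟨hR, hP⟩ := h
  constructor
  · have : a * c + t * a * d + n * b * d
        = (c * a + t * c * b + n * d * b) + t * (d * a - c * b) := by ring
    rw [this]
    exact val_add_le64 val hR (val_mul_le_right64 val ht hP)
  · have : b * c - a * d = -(d * a - c * b) := by ring
    rw [this, Valuation.map_neg]; exact hP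

end Local

end Fermat.Agent.LT.A2.H64

end

end
-- ===== PACK-END LT/A2/H64/TorusLocal.lean

-- ===== PACK-BEGIN LT/A2/H83/ThetaInv.lean
section


/-!
# Row LT, tower A2, leaf A2.06 `ThetaInvC` (helper83), OFF-MAIN

`thetaInvC_h83 : Fermat.Agent.LT.A2.ThetaInvC`, VERBATIM against `LT/A2/Kernel.lean` of
helper950 (Spec v1).

The theta kernel `Θ(g, m) = ∑_{ξ ∈ K²} F g m ξ` of good data is invariant under the rational
admissible pairs `(γ, y)`, `γ ∈ GL₂(K)`, `y ∈ T(K)`, `det γ = det y`: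

* `γ = d(a) γ₁`, `a = det γ`, `γ₁ ∈ SL₂(K)`; the pair `(d(a), y)` permutes `K²` (`torK`);
* `SL₂(K)` is generated by `n(b)`, `t(a)` and `w` (Bruhat: `γ₁ = n(x) t(s)` or
  `γ₁ = n(x) w t(s) n(y)`);
* `n(b)`: `ψ(b Q(ξ)) = 1` for `ξ ∈ K²` (`unip`); `t(a)`: `ξ ↦ a ξ` permutes `K²` (`diagK`);
  `w`: Poisson summation (`weyl` + `Poisson2C`), the summability of the Fourier side being the
  regularity of the family at the pair `(w g, m)`.
-/

set_option autoImplicit false
set_option linter.unusedSectionVars false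
set_option linter.unusedSimpArgs false

open IsDedekindDomain NumberField AutomorphicForm MeasureTheory
open scoped MatrixGroups

noncomputable section

namespace Fermat.Agent.LT.A2.H83

open Fermat.Agent.LT.H130 Fermat.Agent.LT.H556 Fermat.Agent.LT.A2

variable {K : Type} [Field K] [NumberField K]

/-! ## Rational elements of `GL₂(K)` -/

/-- `n(b) = [[1, b], [0, 1]]`. -/
def nK83 (b : K) : GL (Fin 2) K :=
  Matrix.GeneralLinearGroup.mkOfDetNeZero !![1, b; 0, 1] (by simp [Matrix.det_fin_two])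

/-- `w = [[0, 1], [-1, 0]]`. -/
def wK83 : GL (Fin 2) K :=
  Matrix.GeneralLinearGroup.mkOfDetNeZero !![0, 1; -1, 0] (by simp [Matrix.det_fin_two])

/-- `t(a) = diag(a, a⁻¹)`. -/
def tK83 (a : K) (ha : a ≠ 0) : GL (Fin 2) K :=
  Matrix.GeneralLinearGroup.mkOfDetNeZero !![a, 0; 0, a⁻¹] (by simp [Matrix.det_fin_two, ha])

/-- `d(a) = diag(1, a)`. -/
def dK83 (a : K) (ha : a ≠ 0) : GL (Fin 2) K :=
  Matrix.GeneralLinearGroup.mkOfDetNeZero !![1, 0; 0, a] (by simp [Matrix.det_fin_two, ha])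

@[simp] lemma coe_nK83 (b : K) : ((nK83 b : GL (Fin 2) K) : Matrix (Fin 2) (Fin 2) K)
    = !![1, b; 0, 1] := rfl

@[simp] lemma coe_wK83 : ((wK83 : GL (Fin 2) K) : Matrix (Fin 2) (Fin 2) K)
    = !![0, 1; -1, 0] := rfl

@[simp] lemma coe_tK83 (a : K) (ha : a ≠ 0) :
    ((tK83 a ha : GL (Fin 2) K) : Matrix (Fin 2) (Fin 2) K) = !![a, 0; 0, a⁻¹] := rfl

@[simp] lemma coe_dK83 (a : K) (ha : a ≠ 0) :
    ((dK83 a ha : GL (Fin 2) K) : Matrix (Fin 2) (Fin 2) K) = !![1, 0; 0, a] := rfl

lemma coe_det83 (δ : GL (Fin 2) K) :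
    ((Matrix.GeneralLinearGroup.det δ : Kˣ) : K)
      = (δ : Matrix (Fin 2) (Fin 2) K) 0 0 * (δ : Matrix (Fin 2) (Fin 2) K) 1 1
        - (δ : Matrix (Fin 2) (Fin 2) K) 0 1 * (δ : Matrix (Fin 2) (Fin 2) K) 1 0 := by
  rw [← Matrix.det_fin_two]
  rfl

lemma det_nK83 (b : K) : Matrix.GeneralLinearGroup.det (nK83 b) = 1 := by
  apply Units.ext
  rw [coe_det83]
  simp

lemma det_wK83 : Matrix.GeneralLinearGroup.det (wK83 : GL (Fin 2) K) = 1 := by
  apply Units.ext
  rw [coe_det83]
  simp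

lemma det_tK83 (a : K) (ha : a ≠ 0) : Matrix.GeneralLinearGroup.det (tK83 a ha) = 1 := by
  apply Units.ext
  rw [coe_det83]
  simp [ha]

/-! ## Their images in `GL₂(𝔸_K)` -/

lemma coe_ratG83 (δ : GL (Fin 2) K) (i j : Fin 2) :
    ((ratG δ : A0.G K) : Matrix (Fin 2) (Fin 2) (A0.Adl K)) i j
      = algebraMap K (A0.Adl K) ((δ : Matrix (Fin 2) (Fin 2) K) i j) := rfl

lemma ratG_mul83 (δ δ' : GL (Fin 2) K) : (ratG (δ * δ') : A0.G K) = ratG δ * ratG δ' :=
  map_mul _ _ _

lemma ratG_inv83 (δ : GL (Fin 2) K) : (ratG δ⁻¹ : A0.G K) = (ratG δ)⁻¹ :=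
  map_inv _ _

lemma det_ratG83 (δ : GL (Fin 2) K) :
    ((Matrix.GeneralLinearGroup.det (ratG δ : A0.G K) : (A0.Adl K)ˣ) : A0.Adl K)
      = algebraMap K (A0.Adl K) ((Matrix.GeneralLinearGroup.det δ : Kˣ) : K) := by
  unfold ratG
  rw [Matrix.GeneralLinearGroup.map_det]
  rfl

lemma det_ratG_eq_one83 (δ : GL (Fin 2) K) (h : Matrix.GeneralLinearGroup.det δ = 1) :
    Matrix.GeneralLinearGroup.det (ratG δ : A0.G K) = 1 := by
  unfold ratG
  rw [Matrix.GeneralLinearGroup.map_det, h, map_one]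

/-- Admissibility is preserved by left multiplication by an element of determinant one. -/
lemma adm_mul83 {t n : K} {g m : A0.G K} (h : Adm t n g m) (δ : GL (Fin 2) K)
    (hδ : Matrix.GeneralLinearGroup.det δ = 1) : Adm t n (ratG δ * g) m := by
  refine ⟨h.1, ?_⟩
  rw [map_mul, det_ratG_eq_one83 δ hδ, one_mul, h.2]

/-- The adelic upper unipotent parametrisation. -/
def nA83 (x : A0.Adl K) : A0.G K :=
  ⟨!![1, x; 0, 1], !![1, -x; 0, 1],
    by ext i j; fin_cases i <;> fin_cases j <;> simp [Matrix.mul_apply, Fin.sum_univ_two],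
    by ext i j; fin_cases i <;> fin_cases j <;> simp [Matrix.mul_apply, Fin.sum_univ_two]⟩

lemma isUpperUnip_nA83 : IsUpperUnip (nA83 (K := K)) := fun _ => rfl

lemma ratG_nK83 (b : K) : (ratG (nK83 b) : A0.G K) = nA83 (algebraMap K (A0.Adl K) b) := by
  apply Matrix.GeneralLinearGroup.ext
  intro i j
  rw [coe_ratG83]
  fin_cases i <;> fin_cases j <;> simp [nA83]

lemma isWeyl_ratG83 : IsWeyl (ratG (wK83 : GL (Fin 2) K) : A0.G K) := by
  unfold IsWeyl
  ext i j
  rw [coe_ratG83]
  fin_cases i <;> fin_cases j <;> simp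

lemma isDiagSL_ratG83 (a : K) (ha : a ≠ 0) : IsDiagSL (ratG (tK83 a ha) : A0.G K) a := by
  unfold IsDiagSL
  ext i j
  rw [coe_ratG83]
  fin_cases i <;> fin_cases j <;> simp

lemma isDiagOne_ratG83 (a : K) (ha : a ≠ 0) : IsDiagOne (ratG (dK83 a ha) : A0.G K) a := by
  unfold IsDiagOne
  ext i j
  rw [coe_ratG83]
  fin_cases i <;> fin_cases j <;> simp

/-! ## The action on `K²` -/

/-- The natural action of `GL₂(K)` on `K²` (column vectors). -/
def actK83 (δ : GL (Fin 2) K) (ξ : K × K) : K × K :=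
  ((δ : Matrix (Fin 2) (Fin 2) K) 0 0 * ξ.1 + (δ : Matrix (Fin 2) (Fin 2) K) 0 1 * ξ.2,
    (δ : Matrix (Fin 2) (Fin 2) K) 1 0 * ξ.1 + (δ : Matrix (Fin 2) (Fin 2) K) 1 1 * ξ.2)

lemma actK83_one (ξ : K × K) : actK83 1 ξ = ξ := by
  simp [actK83]

lemma actK83_mul (δ δ' : GL (Fin 2) K) (ξ : K × K) :
    actK83 (δ * δ') ξ = actK83 δ (actK83 δ' ξ) := by
  simp only [actK83, Matrix.GeneralLinearGroup.coe_mul, Matrix.mul_apply, Fin.sum_univ_two]
  ext <;> simp only <;> ring

/-- `ξ ↦ δ ξ` as a permutation of `K²`. -/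
def actEquiv83 (δ : GL (Fin 2) K) : K × K ≃ K × K where
  toFun := actK83 δ
  invFun := actK83 δ⁻¹
  left_inv ξ := by rw [← actK83_mul, inv_mul_cancel, actK83_one]
  right_inv ξ := by rw [← actK83_mul, mul_inv_cancel, actK83_one]

lemma actV_ratG83 (δ : GL (Fin 2) K) (ξ : K × K) :
    actV (ratG δ : A0.G K) (ratV ξ) = ratV (actK83 δ ξ) := by
  simp only [actV, ratV, actK83, coe_ratG83, map_add, map_mul]

lemma smul_ratV83 (a : K) (ξ : K × K) :
    algebraMap K (A0.Adl K) a • (ratV ξ : A0.Adl K × A0.Adl K) = ratV (a • ξ) := by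
  simp only [ratV, Prod.smul_mk, smul_eq_mul, map_mul, Prod.smul_fst, Prod.smul_snd]

lemma qf_ratV83 (t n : K) (ξ : K × K) :
    qf t n (ratV ξ) = algebraMap K (A0.Adl K) (ξ.1 ^ 2 + t * ξ.1 * ξ.2 + n * ξ.2 ^ 2) := by
  simp only [qf, ratV, map_add, map_mul, map_pow]

/-! ## Invariance under the generators -/

section Generators

variable (D : KData K)

/-- Invariance under `n(b)`, `b ∈ K`. -/
lemma theta_unip83 (hD : D.Good) (b : K) {g m : A0.G K} (h : Adm D.t D.n g m) :
    D.theta (ratG (nK83 b) * g) m = D.theta g m := by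
  unfold KData.theta
  refine tsum_congr fun ξ => ?_
  rw [ratG_nK83, hD.weil.unip nA83 isUpperUnip_nA83 _ g m (ratV ξ) h, qf_ratV83, ← map_mul,
    hD.char.triv, one_mul]

/-- Invariance under `t(a)`, `a ∈ K^×`. -/
lemma theta_diag83 (hD : D.Good) (a : K) (ha : a ≠ 0) {g m : A0.G K} (h : Adm D.t D.n g m) :
    D.theta (ratG (tK83 a ha) * g) m = D.theta g m := by
  unfold KData.theta
  have h1 : ∀ ξ : K × K, D.F (ratG (tK83 a ha) * g) m (ratV ξ)
      = D.F g m (ratV ((MulAction.toPerm (Units.mk0 a ha) : Equiv.Perm (K × K)) ξ)) := by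
    intro ξ
    rw [hD.weil.diagK _ a ha (isDiagSL_ratG83 a ha) g m (ratV ξ) h, smul_ratV83]
    rfl
  rw [tsum_congr h1]
  exact Equiv.tsum_eq (MulAction.toPerm (Units.mk0 a ha) : Equiv.Perm (K × K))
    (fun ξ => D.F g m (ratV ξ))

lemma disc_ne_zero83 {t n : K} (h : ∀ x : K, x ^ 2 - t * x + n ≠ 0) : t ^ 2 - 4 * n ≠ 0 := by
  intro h0
  apply h (t / 2)
  have h2 : (2 : K) ≠ 0 := two_ne_zero
  field_simp
  linear_combination -h0

/-- Invariance under `w`: Poisson summation. -/
lemma theta_weyl83 (hP : Poisson2C) (hD : D.Good) {g m : A0.G K} (h : Adm D.t D.n g m) :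
    D.theta (ratG wK83 * g) m = D.theta g m := by
  have hw : Adm D.t D.n (ratG wK83 * g) m := adm_mul83 h wK83 det_wK83
  have h1 : ∀ ξ : K × K, D.F (ratG wK83 * g) m (ratV ξ)
      = integral2 D.μ fun y => D.F g m y * D.ψ (bf D.t D.n (ratV ξ) y) := fun ξ =>
    hD.weil.weyl _ isWeyl_ratG83 g m (ratV ξ) h
  have hsum : Summable fun ξ : K × K =>
      ‖integral2 D.μ fun y => D.F g m y * D.ψ (bf D.t D.n (ratV ξ) y)‖ := by
    obtain ⟨b, hb, hle⟩ := hD.regular.shift_summable (ratG wK83 * g) m hw {0} isCompact_singleton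
    refine Summable.of_nonneg_of_le (fun _ => norm_nonneg _) (fun ξ => ?_) hb
    rw [← h1 ξ]
    have := hle ξ 0 (Set.mem_singleton 0)
    rwa [zero_add] at this
  have hPo := hP K D.t D.n (disc_ne_zero83 hD.torus.irred) D.ψ hD.char D.μ hD.measured.covol
    (D.F g m) (hD.regular.cont g m h) (hD.regular.integrable g m h)
    (hD.regular.shift_summable g m h) hsum
  unfold KData.theta
  rw [tsum_congr h1, ← hPo]

end Generators

/-! ## Bruhat decomposition of `SL₂(K)` -/

lemma bruhat83 (δ : GL (Fin 2) K) (hδ : Matrix.GeneralLinearGroup.det δ = 1) :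
    (∃ (x s : K) (hs : s ≠ 0), δ = nK83 x * tK83 s hs) ∨
    ∃ (x y s : K) (hs : s ≠ 0), δ = nK83 x * (wK83 * (tK83 s hs * nK83 y)) := by
  have hdet : (δ : Matrix (Fin 2) (Fin 2) K) 0 0 * (δ : Matrix (Fin 2) (Fin 2) K) 1 1
      - (δ : Matrix (Fin 2) (Fin 2) K) 0 1 * (δ : Matrix (Fin 2) (Fin 2) K) 1 0 = 1 := by
    rw [← coe_det83, hδ]
    rfl
  set a := (δ : Matrix (Fin 2) (Fin 2) K) 0 0 with ha
  set b := (δ : Matrix (Fin 2) (Fin 2) K) 0 1 with hb
  set c := (δ : Matrix (Fin 2) (Fin 2) K) 1 0 with hc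
  set d := (δ : Matrix (Fin 2) (Fin 2) K) 1 1 with hd
  by_cases hc0 : c = 0
  · left
    have had : a * d = 1 := by
      rw [hc0, mul_zero, sub_zero] at hdet
      exact hdet
    have ha0 : a ≠ 0 := left_ne_zero_of_mul_eq_one had
    have hd' : d = a⁻¹ := eq_inv_of_mul_eq_one_right had
    refine ⟨b * a, a, ha0, ?_⟩
    apply Matrix.GeneralLinearGroup.ext
    intro i j
    fin_cases i <;> fin_cases j <;>
      simp [Matrix.GeneralLinearGroup.coe_mul, Matrix.mul_apply, Fin.sum_univ_two,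
        ← ha, ← hb, ← hc, ← hd, hc0, hd', ha0]
  · right
    have hnc : -c ≠ 0 := neg_ne_zero.mpr hc0
    refine ⟨a / c, d / c, -c, hnc, ?_⟩
    apply Matrix.GeneralLinearGroup.ext
    intro i j
    fin_cases i <;> fin_cases j <;>
      simp [Matrix.GeneralLinearGroup.coe_mul, Matrix.mul_apply, Fin.sum_univ_two,
        ← ha, ← hb, ← hc, ← hd]
    · field_simp
    · field_simp
      linear_combination -hdet
    · field_simp

/-! ## Invariance under `SL₂(K)` and under the rational admissible pairs -/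

lemma theta_sl83 (hP : Poisson2C) (D : KData K) (hD : D.Good) (δ : GL (Fin 2) K)
    (hδ : Matrix.GeneralLinearGroup.det δ = 1) {g m : A0.G K} (h : Adm D.t D.n g m) :
    D.theta (ratG δ * g) m = D.theta g m := by
  rcases bruhat83 δ hδ with ⟨x, s, hs, rfl⟩ | ⟨x, y, s, hs, rfl⟩
  · rw [ratG_mul83, mul_assoc,
      theta_unip83 D hD x (adm_mul83 h _ (det_tK83 s hs)), theta_diag83 D hD s hs h]
  · have h1 : Adm D.t D.n (ratG (nK83 y) * g) m := adm_mul83 h _ (det_nK83 y)
    have h2 : Adm D.t D.n (ratG (tK83 s hs) * (ratG (nK83 y) * g)) m :=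
      adm_mul83 h1 _ (det_tK83 s hs)
    have h3 : Adm D.t D.n (ratG wK83 * (ratG (tK83 s hs) * (ratG (nK83 y) * g))) m :=
      adm_mul83 h2 _ det_wK83
    rw [ratG_mul83, ratG_mul83, ratG_mul83, mul_assoc, mul_assoc, mul_assoc,
      theta_unip83 D hD x h3, theta_weyl83 D hP hD h2, theta_diag83 D hD s hs h1,
      theta_unip83 D hD y h]

/-- An element of `T(K)` is the image of an element of `GL₂(K)`. -/
lemma exists_ratG_of_inTorusRat83 {t n : K} {y : A0.G K} (hy : InTorusRat t n y) :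
    ∃ δ : GL (Fin 2) K, y = ratG δ := by
  obtain ⟨a, b, hab⟩ := hy
  have hinj : Function.Injective (algebraMap K (A0.Adl K)) :=
    NumberField.AdeleRing.algebraMap_injective (𝓞 K) K
  have : Nontrivial (A0.Adl K) := hinj.nontrivial
  have hM : (y : Matrix (Fin 2) (Fin 2) (A0.Adl K))
      = (torMat t n a b : Matrix (Fin 2) (Fin 2) K).map (algebraMap K (A0.Adl K)) := by
    rw [hab]
    ext i j
    fin_cases i <;> fin_cases j <;> simp [torMat]
  have hdet : (torMat t n a b : Matrix (Fin 2) (Fin 2) K).det ≠ 0 := by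
    intro h0
    have h1 : (y : Matrix (Fin 2) (Fin 2) (A0.Adl K)).det = 0 := by
      rw [hM, ← RingHom.mapMatrix_apply, ← RingHom.map_det, h0, map_zero]
    exact Matrix.GeneralLinearGroup.det_ne_zero y h1
  refine ⟨Matrix.GeneralLinearGroup.mkOfDetNeZero _ hdet, ?_⟩
  apply Matrix.GeneralLinearGroup.ext
  intro i j
  rw [coe_ratG83, hM]
  rfl

/-- **A2.06 THETA-INV** (helper83), VERBATIM. -/
theorem thetaInvC_h83 : ThetaInvC := by
  intro hP K _ _ D hD γ y g m hy hdet h
  obtain ⟨δ, rfl⟩ := exists_ratG_of_inTorusRat83 hy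
  have hinj : Function.Injective (algebraMap K (A0.Adl K)) :=
    NumberField.AdeleRing.algebraMap_injective (𝓞 K) K
  -- `a = det γ = det δ`
  set a : K := ((Matrix.GeneralLinearGroup.det γ : Kˣ) : K) with ha
  have ha0 : a ≠ 0 := (Matrix.GeneralLinearGroup.det γ).ne_zero
  have hdetδ : ((Matrix.GeneralLinearGroup.det (ratG δ : A0.G K) : (A0.Adl K)ˣ) : A0.Adl K)
      = algebraMap K (A0.Adl K) a := by
    rw [← hdet, det_ratG83]
  -- `γ = d(a) γ₁`, `γ₁ ∈ SL₂(K)`
  set γ₁ : GL (Fin 2) K := (dK83 a ha0)⁻¹ * γ with hγ₁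
  have hγ : γ = dK83 a ha0 * γ₁ := by rw [hγ₁, mul_inv_cancel_left]
  have hdetd : Matrix.GeneralLinearGroup.det (dK83 a ha0) = Matrix.GeneralLinearGroup.det γ := by
    apply Units.ext
    rw [coe_det83]
    simp [ha]
  have hγ₁det : Matrix.GeneralLinearGroup.det γ₁ = 1 := by
    rw [hγ₁, map_mul, map_inv, hdetd, inv_mul_cancel]
  have h1 : Adm D.t D.n (ratG γ₁ * g) m := adm_mul83 h γ₁ hγ₁det
  have key : ∀ ξ : K × K, D.F (ratG γ * g) (ratG δ * m) (ratV ξ)
      = D.F (ratG γ₁ * g) m (ratV ((actEquiv83 δ⁻¹) ξ)) := by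
    intro ξ
    rw [hγ, ratG_mul83, mul_assoc,
      hD.weil.torK (ratG δ) (ratG (dK83 a ha0)) a hy hdetδ (isDiagOne_ratG83 a ha0)
        (ratG γ₁ * g) m (ratV ξ) h1, ← ratG_inv83, actV_ratG83]
    rfl
  unfold KData.theta
  rw [tsum_congr key, Equiv.tsum_eq (actEquiv83 δ⁻¹) (fun ξ => D.F (ratG γ₁ * g) m (ratV ξ))]
  exact theta_sl83 hP D hD γ₁ hγ₁det h

end Fermat.Agent.LT.A2.H83

end

end
-- ===== PACK-END LT/A2/H83/ThetaInv.lean

-- ===== PACK-BEGIN LT/T3/H250/SplitBox.lean
section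




/-!
# Row LT, tower T3, leaf T3.18a.4.5.S3 `H129.SplitBoxC129` (registry row 1502; helper250)

OFF-MAIN.  Typed against byte-identical copies of `LT/H129/SplitSpec.lean` (helper129,
sha256 `3547169e…`), `LT/T3/H893/NIntSpec.lean` (`1ddb5c45…`), `LT/T1/H919/K0Compact.lean`
(helper919; the compact box `box919 K 1`) and their closures.

`splitBoxC250 K : H129.SplitBoxC129 K` VERBATIM, UNCONDITIONAL: the elements of
`E₀ = outGrp K 𝔫 v₀` which are integral at `v₀` and of norm `≤ 1` at the infinite places lie in the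
compact box `T1.H919.box919 K 1`.
-/

set_option autoImplicit false

open IsDedekindDomain NumberField
open Fermat.Agent.LT.H556.A0 Fermat.Agent.LT.T3.AS Fermat.Agent.LT.T3.AS.N893

noncomputable section

namespace Fermat.Agent.LT.T3.H250

variable (K : Type) [Field K] [NumberField K]

/-- The closure of the image of an ideal of `𝒪_K` in `K_v` lies in `𝒪_v`. -/
theorem idealClosure_subset_integers250 (𝔫 : Ideal (𝓞 K)) (v : HeightOneSpectrum (𝓞 K)) :
    idealClosure 𝔫 v ⊆ (v.adicCompletionIntegers K : Set (v.adicCompletion K)) := by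
  refine closure_minimal ?_ (Valued.isClosed_valuationSubring (v.adicCompletion K))
  rintro _ ⟨x, -, rfl⟩
  exact v.coe_mem_adicCompletionIntegers (K := K) x

/-- **T3.18a.4.5.S3.** -/
theorem splitBoxC250 : Fermat.Agent.LT.H129.SplitBoxC129 K := by
  intro 𝔫 v₀
  refine ⟨Fermat.Agent.LT.T1.H919.box919 K 1, Fermat.Agent.LT.T1.H919.isCompact_box919 1, ?_⟩
  intro X hX hv₀ hinf
  refine ⟨fun w => ?_, fun v => ?_⟩
  · have h := hinf w
    have e : infHom K w X = InfinitePlace.Completion.extensionEmbedding w (X.1 w) := rfl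
    rw [e, Fermat.Agent.LT.T1.H793.norm_extensionEmbedding793] at h
    exact h
  · by_cases hv : v = v₀
    · subst hv
      have e : finHom K v X = X.2 v := rfl
      rw [e] at hv₀
      exact (HeightOneSpectrum.mem_adicCompletionIntegers (R := 𝓞 K) (K := K) (v := v)).2 hv₀
    · exact idealClosure_subset_integers250 K 𝔫 v (hX v hv)

end Fermat.Agent.LT.T3.H250

end

end
-- ===== PACK-END LT/T3/H250/SplitBox.lean

-- ===== PACK-BEGIN LT/T2/H386/Soft1C.lean
section








/-!
# Row LT, T2.03b (helper386): Fubini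

OFF-MAIN.  `∫ (∫_D θ(n(v) x h) dν(v)) g(h) dμ(h) = ∫ θ(x h) (∫_D g(c_x(-v) h) dν(v)) dμ(h)` for a
bounded continuous `θ` and a continuous `g` of compact support (Fubini twice and left invariance
of the Haar measure `μ`); continuity of parametric integrals over a relatively compact set.
-/

set_option autoImplicit false
set_option linter.unusedSectionVars false
set_option linter.style.haveILetI false

open IsDedekindDomain NumberField MeasureTheory
open scoped Pointwise
open Fermat.Agent.LT.H556.A0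

noncomputable section

namespace Fermat.Agent.LT.T2.H386

open Fermat.Agent.LT.T2

attribute [local instance] Fermat.Agent.LT.T2.borelG

variable {K : Type} [Field K] [NumberField K]

attribute [local instance] borelAdl386 borelSpaceAdl386 borelSpaceG386

section

variable [LocallyCompactSpace (G K)] [SecondCountableTopology (G K)] [T2Space (G K)]
  [LocallyCompactSpace (Adl K)] [SecondCountableTopology (Adl K)] [T2Space (Adl K)]

/-- Continuity of a parametric integral over a relatively compact set of finite measure. -/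
theorem continuous_setIntegral386 (ν : Measure (Adl K)) (D : Set (Adl K)) (hDtop : ν D ≠ ⊤)
    (hDc : IsCompact (closure D)) (Φ : G K → Adl K → ℂ)
    (hΦ : Continuous (Function.uncurry Φ)) :
    Continuous (fun g => ∫ v in D, Φ g v ∂ν) := by
  haveI : IsFiniteMeasure (ν.restrict D) := ⟨by
    rw [Measure.restrict_apply MeasurableSet.univ, Set.univ_inter]
    exact hDtop.lt_top⟩
  have h := continuous_parametric_integral_of_continuous (μ := ν.restrict D) hΦ hDc
  have hrr : (ν.restrict D).restrict (closure D) = ν.restrict D := by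
    rw [Measure.restrict_restrict isClosed_closure.measurableSet,
      Set.inter_eq_right.mpr subset_closure]
  simpa only [hrr] using h

/-- The constant term is bounded. -/
theorem constTerm_bound386 {ψ Ψ : G K → ℂ} (h : IsConstTerm ψ Ψ) (ν : Measure (Adl K))
    (hν : ν.IsAddHaarMeasure) (D : Set (Adl K))
    (hD : IsAddFundamentalDomain (T1.princ K) D ν) (hD0 : ν D ≠ 0) (hDtop : ν D ≠ ⊤)
    (C : ℝ) (hC : ∀ g, ‖ψ g‖ ≤ C) (g : G K) : ‖Ψ g‖ ≤ C := by
  have h1 := constTerm_eq386 h ν hν D hD g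
  have hpos : 0 < (ν D).toReal := ENNReal.toReal_pos hD0 hDtop
  have h2 : ‖∫ x in D, ψ (unip386 x * g) ∂ν‖ ≤ C * (ν D).toReal :=
    norm_setIntegral_le_of_norm_le_const hDtop.lt_top (fun x _ => hC _)
  rw [h1, norm_mul, Complex.norm_real, Real.norm_of_nonneg hpos.le, mul_comm] at h2
  exact le_of_mul_le_mul_right h2 hpos

/-- The constant term is continuous. -/
theorem constTerm_continuous386 {ψ Ψ : G K → ℂ} (hψ : Continuous ψ) (h : IsConstTerm ψ Ψ)
    (ν : Measure (Adl K)) (hν : ν.IsAddHaarMeasure) (D : Set (Adl K))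
    (hD : IsAddFundamentalDomain (T1.princ K) D ν) (hD0 : ν D ≠ 0) (hDtop : ν D ≠ ⊤)
    (hDc : IsCompact (closure D)) : Continuous Ψ := by
  have hne : (((ν D).toReal : ℝ) : ℂ) ≠ 0 := by
    have : (ν D).toReal ≠ 0 := ENNReal.toReal_ne_zero.mpr ⟨hD0, hDtop⟩
    exact_mod_cast this
  have hΨ : Ψ = fun g => (((ν D).toReal : ℝ) : ℂ)⁻¹ * ∫ x in D, ψ (unip386 x * g) ∂ν := by
    funext g
    rw [constTerm_eq386 h ν hν D hD g, ← mul_assoc, inv_mul_cancel₀ hne, one_mul]
  rw [hΨ]
  refine continuous_const.mul ?_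
  refine continuous_setIntegral386 ν D hDtop hDc (fun g x => ψ (unip386 x * g)) ?_
  exact hψ.comp ((continuous_unip386.comp continuous_snd).mul continuous_fst)

/-! ## Fubini -/

/-- Integrability on the product, first form. -/
theorem integrable_prod_one386 (μ : Measure (G K)) [μ.IsHaarMeasure] (ν : Measure (Adl K))
    (D : Set (Adl K)) (hDtop : ν D ≠ ⊤) (x : G K) (θ g : G K → ℂ)
    (hθ : Continuous θ) (Cθ : ℝ) (hCθ : ∀ y, ‖θ y‖ ≤ Cθ) (hg : Continuous g)
    (hgc : HasCompactSupport g) :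
    Integrable (Function.uncurry fun (h : G K) (v : Adl K) =>
      θ (x * (conjUnip386 x v * h)) * g h) (μ.prod (ν.restrict D)) := by
  haveI : IsFiniteMeasure (ν.restrict D) := ⟨by
    rw [Measure.restrict_apply MeasurableSet.univ, Set.univ_inter]
    exact hDtop.lt_top⟩
  have hgi : Integrable g μ := hg.integrable_of_hasCompactSupport hgc
  have hdom : Integrable (fun z : G K × Adl K => (Cθ * ‖g z.1‖) * (1 : ℝ))
      (μ.prod (ν.restrict D)) :=
    Integrable.mul_prod (f := fun h : G K => Cθ * ‖g h‖) (g := fun _ : Adl K => (1 : ℝ))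
      (hgi.norm.const_mul Cθ) (integrable_const 1)
  refine hdom.mono' ?_ ?_
  · refine Continuous.aestronglyMeasurable ?_
    have h1 : Continuous fun z : G K × Adl K => x * (conjUnip386 x z.2 * z.1) :=
      continuous_const.mul (((continuous_conjUnip386 x).comp continuous_snd).mul continuous_fst)
    exact (hθ.comp h1).mul (hg.comp continuous_fst)
  · refine Filter.Eventually.of_forall fun z => ?_
    show ‖θ (x * (conjUnip386 x z.2 * z.1)) * g z.1‖ ≤ Cθ * ‖g z.1‖ * 1
    rw [norm_mul, mul_one]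
    exact mul_le_mul_of_nonneg_right (hCθ _) (norm_nonneg _)

/-- Integrability on the product, second form. -/
theorem integrable_prod_two386 (μ : Measure (G K)) [μ.IsHaarMeasure] (ν : Measure (Adl K))
    [SFinite ν] (D : Set (Adl K)) (hDm : MeasurableSet D) (hDtop : ν D ≠ ⊤) (hDc : IsCompact (closure D))
    (x : G K) (θ g : G K → ℂ)
    (hθ : Continuous θ) (Cθ : ℝ) (hCθ : ∀ y, ‖θ y‖ ≤ Cθ) (hg : Continuous g)
    (hgc : HasCompactSupport g) :
    Integrable (Function.uncurry fun (h : G K) (v : Adl K) =>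
      θ (x * h) * g (conjUnip386 x (-v) * h)) (μ.prod (ν.restrict D)) := by
  haveI : IsFiniteMeasure (ν.restrict D) := ⟨by
    rw [Measure.restrict_apply MeasurableSet.univ, Set.univ_inter]
    exact hDtop.lt_top⟩
  obtain ⟨Cg, hCg⟩ := hgc.exists_bound_of_continuous hg
  set T : Set (G K) := (conjUnip386 x '' closure D) * tsupport g with hT
  have hTc : IsCompact T := (hDc.image (continuous_conjUnip386 x)).mul hgc
  have hTi : Integrable (T.indicator fun _ : G K => (Cθ * Cg : ℝ)) μ :=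
    (integrable_indicator_iff hTc.isClosed.measurableSet).mpr
      (integrableOn_const hTc.measure_ne_top)
  have hdom : Integrable (fun z : G K × Adl K =>
      (T.indicator (fun _ : G K => (Cθ * Cg : ℝ)) z.1) * (1 : ℝ)) (μ.prod (ν.restrict D)) :=
    Integrable.mul_prod (f := T.indicator fun _ : G K => (Cθ * Cg : ℝ))
      (g := fun _ : Adl K => (1 : ℝ)) hTi (integrable_const 1)
  refine hdom.mono' ?_ ?_
  · refine Continuous.aestronglyMeasurable ?_
    have h1 : Continuous fun z : G K × Adl K => conjUnip386 x (-z.2) * z.1 :=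
      ((continuous_conjUnip386 x).comp continuous_snd.neg).mul continuous_fst
    exact (hθ.comp (continuous_const.mul continuous_fst)).mul (hg.comp h1)
  · have hae : ∀ᵐ z ∂(μ.prod (ν.restrict D)), z ∈ (Set.univ : Set (G K)) ×ˢ D := by
      have := Measure.prod_restrict (μ := μ) (ν := ν) (Set.univ : Set (G K)) D
      rw [Measure.restrict_univ] at this
      rw [this]
      exact ae_restrict_mem (MeasurableSet.univ.prod hDm)
    filter_upwards [hae] with z hz
    have hzD : z.2 ∈ D := hz.2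
    show ‖θ (x * z.1) * g (conjUnip386 x (-z.2) * z.1)‖
      ≤ T.indicator (fun _ : G K => (Cθ * Cg : ℝ)) z.1 * 1
    rw [mul_one, norm_mul]
    have hCθ0 : 0 ≤ Cθ := le_trans (norm_nonneg _) (hCθ 1)
    by_cases hz0 : g (conjUnip386 x (-z.2) * z.1) = 0
    · rw [hz0, norm_zero, mul_zero]
      refine Set.indicator_nonneg (fun _ _ => ?_) _
      exact mul_nonneg hCθ0 (le_trans (norm_nonneg _) (hCg 1))
    · have hmem : z.1 ∈ T := by
        refine ⟨conjUnip386 x z.2, ⟨z.2, subset_closure hzD, rfl⟩,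
          conjUnip386 x (-z.2) * z.1, subset_closure hz0, ?_⟩
        show conjUnip386 x z.2 * (conjUnip386 x (-z.2) * z.1) = z.1
        rw [← mul_assoc, ← conjUnip386_add, add_neg_cancel, conjUnip386_zero, one_mul]
      rw [Set.indicator_of_mem hmem]
      exact mul_le_mul (hCθ _) (hCg _) (norm_nonneg _) hCθ0

/-- **Fubini**: the constant term projection on the automorphic side is the averaging operator on
the side of the test function. -/
theorem fubini386 (μ : Measure (G K)) [μ.IsHaarMeasure] (ν : Measure (Adl K)) [SFinite ν]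
    (D : Set (Adl K)) (hDm : MeasurableSet D) (hDtop : ν D ≠ ⊤) (hDc : IsCompact (closure D))
    (x : G K) (θ g : G K → ℂ)
    (hθ : Continuous θ) (Cθ : ℝ) (hCθ : ∀ y, ‖θ y‖ ≤ Cθ) (hg : Continuous g)
    (hgc : HasCompactSupport g) :
    ∫ h, (∫ v in D, θ (unip386 v * (x * h)) ∂ν) * g h ∂μ
      = ∫ h, θ (x * h) * (∫ v in D, g (conjUnip386 x (-v) * h) ∂ν) ∂μ := by
  haveI : IsFiniteMeasure (ν.restrict D) := ⟨by
    rw [Measure.restrict_apply MeasurableSet.univ, Set.univ_inter]
    exact hDtop.lt_top⟩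
  have e1 : ∀ h, (∫ v in D, θ (unip386 v * (x * h)) ∂ν) * g h
      = ∫ v in D, θ (x * (conjUnip386 x v * h)) * g h ∂ν := by
    intro h
    rw [← integral_mul_const]
    refine integral_congr_ae (Filter.Eventually.of_forall fun v => ?_)
    show θ (unip386 v * (x * h)) * g h = θ (x * (conjUnip386 x v * h)) * g h
    rw [← mul_assoc (unip386 v), unip386_mul, mul_assoc]
  have e2 : ∀ h, θ (x * h) * (∫ v in D, g (conjUnip386 x (-v) * h) ∂ν)
      = ∫ v in D, θ (x * h) * g (conjUnip386 x (-v) * h) ∂ν :=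
    fun h => (integral_const_mul _ _).symm
  simp_rw [e1, e2]
  rw [integral_integral_swap
      (integrable_prod_one386 μ ν D hDtop x θ g hθ Cθ hCθ hg hgc),
    integral_integral_swap
      (integrable_prod_two386 μ ν D hDm hDtop hDc x θ g hθ Cθ hCθ hg hgc)]
  refine integral_congr_ae (Filter.Eventually.of_forall fun v => ?_)
  show ∫ h, θ (x * (conjUnip386 x v * h)) * g h ∂μ
    = ∫ h, θ (x * h) * g (conjUnip386 x (-v) * h) ∂μ
  have h3 := integral_mul_left_eq_self (μ := μ)
    (fun h => θ (x * h) * g (conjUnip386 x (-v) * h)) (conjUnip386 x v)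
  rw [← h3]
  refine integral_congr_ae (Filter.Eventually.of_forall fun h => ?_)
  show θ (x * (conjUnip386 x v * h)) * g h
    = θ (x * (conjUnip386 x v * h)) * g (conjUnip386 x (-v) * (conjUnip386 x v * h))
  rw [← mul_assoc (conjUnip386 x (-v)), ← conjUnip386_add, neg_add_cancel, conjUnip386_zero,
    one_mul]

end

end Fermat.Agent.LT.T2.H386

end

end
-- ===== PACK-END LT/T2/H386/Soft1C.lean

-- ===== PACK-BEGIN LT/T7/H176/Thin.lean
section



/-!
# Row LT, tower T7, leaf T7.07 (helper176), OFF-MAIN: thin sets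

The union of two thin sets of primes is thin; the places over a thin set of primes form a thin
set of places (at most `[K : ℚ]` places over `p`, each of norm `≥ p`).
-/

set_option autoImplicit false

open IsDedekindDomain NumberField

noncomputable section

namespace Fermat.Agent.LT.T7.H176

open Fermat.Agent.LT.T7

theorem isThin_iff_indicator176 (A : Set ℕ) :
    IsThin A ↔ Summable (A.indicator fun p : ℕ => ((p : ℕ) : ℝ)⁻¹) := by
  unfold IsThin
  exact summable_subtype_iff_indicator (f := fun p : ℕ => ((p : ℕ) : ℝ)⁻¹) (s := A)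

/-- The union of two thin sets of primes is thin. -/
theorem isThin_union176 {A B : Set ℕ} (hA : IsThin A) (hB : IsThin B) : IsThin (A ∪ B) := by
  rw [isThin_iff_indicator176] at hA hB ⊢
  refine Summable.of_nonneg_of_le ?_ ?_ (hA.add hB)
  · intro p
    exact Set.indicator_nonneg (fun _ _ => inv_nonneg.mpr (Nat.cast_nonneg _)) p
  · intro p
    have h0 : (0 : ℝ) ≤ ((p : ℕ) : ℝ)⁻¹ := inv_nonneg.mpr (Nat.cast_nonneg _)
    by_cases hpA : p ∈ A <;> by_cases hpB : p ∈ B <;>
      simp [Set.indicator, hpA, hpB, h0]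

/-- A subset of a thin set is thin. -/
theorem isThin_mono176 {A B : Set ℕ} (hAB : A ⊆ B) (hB : IsThin B) : IsThin A := by
  rw [isThin_iff_indicator176] at hB ⊢
  refine Summable.of_nonneg_of_le ?_ ?_ hB
  · intro p
    exact Set.indicator_nonneg (fun _ _ => inv_nonneg.mpr (Nat.cast_nonneg _)) p
  · intro p
    have h0 : (0 : ℝ) ≤ ((p : ℕ) : ℝ)⁻¹ := inv_nonneg.mpr (Nat.cast_nonneg _)
    by_cases hpA : p ∈ A
    · have hpB : p ∈ B := hAB hpA
      simp [Set.indicator, hpA, hpB]
    · by_cases hpB : p ∈ B <;> simp [Set.indicator, hpA, hpB, h0]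

variable {K : Type} [Field K] [NumberField K]

/-- The set of places over the primes of `A`. -/
def placesOver176 (K : Type) [Field K] [NumberField K] (A : Set ℕ) :
    Set (HeightOneSpectrum (𝓞 K)) :=
  {v | ∃ p ∈ A, p.Prime ∧ ((p : ℕ) : 𝓞 K) ∈ v.asIdeal}

/-- The places over a thin set of primes form a thin set of places. -/
theorem isThinPlaces_over176 (A : Set ℕ) (hA : IsThin A) :
    IsThinPlaces (placesOver176 K A) := by
  classical
  unfold IsThinPlaces
  -- the prime under a place of the set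
  have hex : ∀ v : placesOver176 K A, ∃ p : A, (p : ℕ).Prime ∧
      (((p : ℕ) : ℕ) : 𝓞 K) ∈ (v : HeightOneSpectrum (𝓞 K)).asIdeal := by
    rintro ⟨v, p, hpA, hp, hv⟩
    exact ⟨⟨p, hpA⟩, hp, hv⟩
  choose π hπp hπv using hex
  set n : ℕ := Module.finrank ℚ K with hn
  set c : ℝ := (n : ℝ) * ∑' p : A, (((p : ℕ) : ℝ))⁻¹ with hc
  have hf0 : ∀ v : placesOver176 K A,
      (0 : ℝ) ≤ ((Ideal.absNorm (v : HeightOneSpectrum (𝓞 K)).asIdeal : ℕ) : ℝ)⁻¹ :=
    fun v => inv_nonneg.mpr (Nat.cast_nonneg _)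
  refine summable_of_sum_le hf0 (c := c) ?_
  intro u
  -- fibrewise decomposition
  have hfib := Finset.sum_fiberwise_of_maps_to (s := u) (t := u.image π) (g := π)
    (fun v hv => Finset.mem_image_of_mem π hv)
    (fun v : placesOver176 K A =>
      ((Ideal.absNorm (v : HeightOneSpectrum (𝓞 K)).asIdeal : ℕ) : ℝ)⁻¹)
  rw [← hfib]
  have hinner : ∀ a ∈ u.image π,
      (∑ v ∈ u with π v = a,
        ((Ideal.absNorm (v : HeightOneSpectrum (𝓞 K)).asIdeal : ℕ) : ℝ)⁻¹)
        ≤ (n : ℝ) * (((a : ℕ) : ℝ))⁻¹ := by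
    intro a _
    have hap : (a : ℕ).Prime := by
      by_cases hne : (u.filter fun v => π v = a).Nonempty
      · obtain ⟨v, hv⟩ := hne
        have := (Finset.mem_filter.mp hv).2
        rw [← this]
        exact hπp v
      · -- empty fibre: impossible for `a` in the image, but we do not need it
        rename_i ha
        obtain ⟨v, hv, rfl⟩ := Finset.mem_image.mp ha
        exact hπp v
    have hapos : (0 : ℝ) < ((a : ℕ) : ℝ) := by exact_mod_cast hap.pos
    have hterm : ∀ v ∈ u.filter (fun v => π v = a),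
        ((Ideal.absNorm (v : HeightOneSpectrum (𝓞 K)).asIdeal : ℕ) : ℝ)⁻¹
          ≤ (((a : ℕ) : ℝ))⁻¹ := by
      intro v hv
      have hva : π v = a := (Finset.mem_filter.mp hv).2
      have hle : (a : ℕ) ≤ Ideal.absNorm (v : HeightOneSpectrum (𝓞 K)).asIdeal := by
        rw [← hva]
        exact le_absNorm176 _ (hπp v) (hπv v)
      have hle' : ((a : ℕ) : ℝ) ≤ ((Ideal.absNorm (v : HeightOneSpectrum (𝓞 K)).asIdeal : ℕ) : ℝ) := by
        exact_mod_cast hle
      exact inv_anti₀ hapos hle'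
    have hcard : (u.filter fun v => π v = a).card ≤ n := by
      have h1 : ((u.filter fun v => π v = a).map
          ⟨fun v : placesOver176 K A => (v : HeightOneSpectrum (𝓞 K)),
            Subtype.val_injective⟩).card ≤ n := by
        apply card_le_finrank176 hap
        intro w hw
        obtain ⟨v, hv, rfl⟩ := Finset.mem_map.mp hw
        have hva : π v = a := (Finset.mem_filter.mp hv).2
        have := hπv v
        rw [hva] at this
        exact this
      rwa [Finset.card_map] at h1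
    calc (∑ v ∈ u with π v = a,
          ((Ideal.absNorm (v : HeightOneSpectrum (𝓞 K)).asIdeal : ℕ) : ℝ)⁻¹)
        ≤ ∑ _v ∈ u with π _v = a, (((a : ℕ) : ℝ))⁻¹ := Finset.sum_le_sum hterm
      _ = ((u.filter fun v => π v = a).card : ℝ) * (((a : ℕ) : ℝ))⁻¹ := by
          rw [Finset.sum_const, nsmul_eq_mul]
      _ ≤ (n : ℝ) * (((a : ℕ) : ℝ))⁻¹ := by
          apply mul_le_mul_of_nonneg_right _ (inv_nonneg.mpr hapos.le)
          exact_mod_cast hcard
  calc (∑ a ∈ u.image π, ∑ v ∈ u with π v = a,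
        ((Ideal.absNorm (v : HeightOneSpectrum (𝓞 K)).asIdeal : ℕ) : ℝ)⁻¹)
      ≤ ∑ a ∈ u.image π, (n : ℝ) * (((a : ℕ) : ℝ))⁻¹ := Finset.sum_le_sum hinner
    _ = (n : ℝ) * ∑ a ∈ u.image π, (((a : ℕ) : ℝ))⁻¹ := by rw [Finset.mul_sum]
    _ ≤ c := by
        rw [hc]
        apply mul_le_mul_of_nonneg_left _ (Nat.cast_nonneg _)
        exact hA.sum_le_tsum _ (fun a _ => inv_nonneg.mpr (Nat.cast_nonneg _))

end Fermat.Agent.LT.T7.H176

end

end
-- ===== PACK-END LT/T7/H176/Thin.lean

-- ===== PACK-BEGIN LT/T7/H91/ClassOne.lean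
section



/-!
# Row LT, tower T7, leaves T7.13e `ClassOneC` and T7.13f `NormEmbC` (helper91)

OFF-MAIN.  VERBATIM against `LT/T7/H37/ThinSpec.lean` (helper37@8584ef06e, sha256 `4c697dce`).

* `normEmbC91 : NormEmbC` -- an imaginary quadratic field has ONE infinite place, of multiplicity
  two, so `|e x|² = ∏_w ‖x‖_w^{mult w} = |N_{K/ℚ} x| = N (x)`.
* `classOneC91 : ClassOneC` -- an imaginary quadratic field with a square root `x` of `-3` is a
  third cyclotomic extension of `ℚ` (`ζ = (x - 1)/2`, `[K : ℚ] = 2`, `x ∉ ℚ`), hence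
  `IsCyclotomicExtension.Rat.three_pid`.
-/

set_option autoImplicit false

open IsDedekindDomain NumberField

noncomputable section

namespace Fermat.Agent.LT.T7.H91

open Fermat.Agent.LT.T7 Fermat.Agent.LT.T7.H37

variable {K : Type} [Field K] [NumberField K]

/-- The unique infinite place of an imaginary quadratic field. -/
theorem exists_unique_place91 (h : IsImagQuad K) :
    ∃ w₀ : InfinitePlace K, ∀ w : InfinitePlace K, w = w₀ := by
  have h1 : Fintype.card (InfinitePlace K) = 1 := by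
    rw [← Nat.card_eq_fintype_card]; exact h.1
  obtain ⟨w₀, hw₀⟩ := Fintype.card_eq_one_iff.1 h1
  exact ⟨w₀, hw₀⟩

/-- `‖x‖_w² = |N_{K/ℚ} x|` at the infinite place of an imaginary quadratic field. -/
theorem place_sq91 (h : IsImagQuad K) (w : InfinitePlace K) (x : K) :
    w x ^ 2 = |Algebra.norm ℚ x| := by
  obtain ⟨w₀, hw₀⟩ := exists_unique_place91 h
  have hprod := InfinitePlace.prod_eq_abs_norm x
  have huniv : (Finset.univ : Finset (InfinitePlace K)) = {w} := by
    ext w'
    simp only [Finset.mem_univ, Finset.mem_singleton, true_iff]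
    rw [hw₀ w', hw₀ w]
  rw [huniv, Finset.prod_singleton, (h.2 w).mult_eq_two] at hprod
  exact_mod_cast hprod

/-- **T7.13f NORMEMB.** -/
theorem normEmbC91 : NormEmbC := by
  intro K _ _ h e x
  have h1 : ‖e (x : K)‖ = InfinitePlace.mk e (x : K) := (InfinitePlace.apply e (x : K)).symm
  rw [h1, place_sq91 h, Ideal.absNorm_span_singleton]
  have h2 : ((Algebra.norm ℤ x : ℤ) : ℚ) = Algebra.norm ℚ (x : K) := Algebra.coe_norm_int x
  rw [← h2]
  rw [Nat.cast_natAbs]
  push_cast
  rfl

/-- The degree of an imaginary quadratic field is two. -/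
theorem finrank_eq_two91 (h : IsImagQuad K) : Module.finrank ℚ K = 2 := by
  classical
  have h0 : InfinitePlace.nrRealPlaces K = 0 := by
    unfold InfinitePlace.nrRealPlaces
    rw [Fintype.card_eq_zero_iff]
    exact ⟨fun w => InfinitePlace.not_isReal_iff_isComplex.2 (h.2 w.1) w.2⟩
  have h1 : InfinitePlace.nrComplexPlaces K = 1 := by
    unfold InfinitePlace.nrComplexPlaces
    have hc : Fintype.card (InfinitePlace K) = 1 := by
      rw [← Nat.card_eq_fintype_card]; exact h.1
    rw [← hc]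
    exact Fintype.card_of_subtype Finset.univ (fun w => by simp [h.2 w])
  have := InfinitePlace.card_add_two_mul_card_eq_rank (K := K)
  rw [h0, h1] at this
  omega

/-- A square root of `-3` is not rational. -/
theorem sqrt_not_rat91 {x : K} (hx : x * x = -3) (q : ℚ) : algebraMap ℚ K q ≠ x := by
  intro h
  rw [← h, ← map_mul] at hx
  have h3 : algebraMap ℚ K (q * q) = algebraMap ℚ K (-3) := by
    rw [hx]; simp
  have h4 : q * q = -3 := (algebraMap ℚ K).injective h3
  nlinarith [mul_self_nonneg q]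

/-- `ℚ(x) = K` for a square root `x` of `-3` in an imaginary quadratic field. -/
theorem adjoin_sqrt_eq_top91 (h : IsImagQuad K) {x : K} (hx : x * x = -3) :
    Algebra.adjoin ℚ ({x} : Set K) = ⊤ := by
  have hfin := finrank_eq_two91 h
  have hint : IsIntegral ℚ x := Algebra.IsIntegral.isIntegral x
  -- the intermediate field `ℚ⟮x⟯`
  have hne : IntermediateField.adjoin ℚ ({x} : Set K) ≠ ⊥ := by
    intro hbot
    have hmem : x ∈ IntermediateField.adjoin ℚ ({x} : Set K) :=
      IntermediateField.mem_adjoin_simple_self ℚ x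
    rw [hbot, IntermediateField.mem_bot] at hmem
    obtain ⟨q, hq⟩ := hmem
    exact sqrt_not_rat91 hx q hq
  have htop : IntermediateField.adjoin ℚ ({x} : Set K) = ⊤ := by
    have hprime : (Module.finrank ℚ K).Prime := by rw [hfin]; exact Nat.prime_two
    rcases IntermediateField.isSimpleOrder_of_finrank_prime ℚ K hprime |>.eq_bot_or_eq_top
      (IntermediateField.adjoin ℚ ({x} : Set K)) with hb | ht
    · exact absurd hb hne
    · exact ht
  have := IntermediateField.adjoin_simple_toSubalgebra_of_isAlgebraic hint.isAlgebraic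
  rw [htop] at this
  rw [← this]
  rfl

/-- **T7.13e CLASSONE.** -/
theorem classOneC91 : ClassOneC := by
  intro K _ _ h hs
  obtain ⟨x, hx⟩ := hs
  -- the primitive cube root of unity
  set ζ : K := (x - 1) / 2 with hζ
  have h2 : (2 : K) ≠ 0 := two_ne_zero
  have hx2 : x = 2 * ζ + 1 := by rw [hζ]; field_simp; ring
  have hrel : ζ ^ 2 + ζ + 1 = 0 := by
    have : (2 * ζ + 1) * (2 * ζ + 1) = -3 := by rw [← hx2]; exact hx
    have h4 : (4 : K) * (ζ ^ 2 + ζ + 1) = 0 := by linear_combination this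
    rcases mul_eq_zero.1 h4 with h | h
    · exact absurd h (by norm_num)
    · exact h
  have hcube : ζ ^ 3 = 1 := by linear_combination (ζ - 1) * hrel
  have hne1 : ζ ≠ 1 := by
    intro h1
    rw [h1] at hrel
    norm_num at hrel
  have hprim : IsPrimitiveRoot ζ 3 := by
    refine IsPrimitiveRoot.mk_of_lt ζ (by norm_num) hcube ?_
    intro l hl0 hl3 hl
    interval_cases l
    · exact hne1 (by simpa using hl)
    · -- `ζ² = 1` gives `ζ = -2`
      have h5 : ζ = -2 := by linear_combination hrel - hl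
      rw [h5] at hrel
      norm_num at hrel
  have : IsCyclotomicExtension {3} ℚ K := by
    rw [IsCyclotomicExtension.iff_singleton]
    refine ⟨⟨ζ, hprim⟩, fun y => ?_⟩
    have htop := adjoin_sqrt_eq_top91 h hx
    have hsub : Algebra.adjoin ℚ ({x} : Set K) ≤ Algebra.adjoin ℚ {b : K | b ^ 3 = 1} := by
      apply Algebra.adjoin_le
      intro z hz
      rw [Set.mem_singleton_iff] at hz
      rw [hz, hx2]
      have hζmem : ζ ∈ Algebra.adjoin ℚ {b : K | b ^ 3 = 1} :=
        Algebra.subset_adjoin (by simpa using hcube)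
      exact Subalgebra.add_mem _ (Subalgebra.mul_mem _ (by
        have : (2 : K) = algebraMap ℚ K 2 := by simp
        rw [this]; exact Subalgebra.algebraMap_mem _ _) hζmem) (Subalgebra.one_mem _)
    rw [htop] at hsub
    exact hsub Algebra.mem_top
  exact IsCyclotomicExtension.Rat.three_pid K

end Fermat.Agent.LT.T7.H91

end

end
-- ===== PACK-END LT/T7/H91/ClassOne.lean

-- ===== PACK-BEGIN LT/T7/H980/Dirichlet.lean
section



/-!
# Row LT, tower T7, leaf T7.13k `DirichletC` (helper980), OFF-MAIN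

`dirichletC980 : Fermat.Agent.LT.T7.H37.DirichletC`, the frozen Prop of
`LT/T7/H37/ThinSpec.lean` (helper37@8584ef06e, sha256 4c697dce), VERBATIM.
Constant: `C' = log (4 C / log 2) + 16 C`.  The proof is `dirichlet_core_980`
(`DirichletCore.lean`, Mathlib only).
-/

set_option autoImplicit false

namespace Fermat.Agent.LT.T7.H980

theorem dirichletC980 : Fermat.Agent.LT.T7.H37.DirichletC := by
  intro ι N w S C hN hw hC
  refine ⟨Real.log (4 * C / Real.log 2) + 16 * C, ?_⟩
  intro s hs1 hs2 T hT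
  have hTS : ∀ i ∈ T, i ∉ S := fun i hi => Finset.disjoint_left.mp hT hi
  exact dirichlet_core_980 N w C T (fun i _ => hN i) (fun i hi => hw i (hTS i hi))
    (hC T hT) s hs1 hs2

end Fermat.Agent.LT.T7.H980

end
-- ===== PACK-END LT/T7/H980/Dirichlet.lean

-- ===== PACK-BEGIN LT/T7/H820/MidStable.lean
section




/-!
# Row LT, tower T7, LEAF T7.08 `MidStableFromUniqueC` (seat helper820, OFF-MAIN)

`midStableFromUniqueC820 : T7.MidStableFromUniqueC`, i.e. `MidUniqueC → ConjAll → MidStableC`,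
VERBATIM vs `T7/Spec.lean` v1.1 (helper797@db78af04c, sha256 fe5e3dd567647ad0).

Proof.  `F = fieldF ρ` is the fixed field of the NORMAL subgroup `subSL ρ`, hence Galois over `ℚ`
(`Places.isGalois_fieldF820`; neither `LTB.Hyp` nor the degree `2` is used), and finite by the
hypothesis `NumberField F`; so `G = Gal(F/ℚ)` is finite and acts transitively on the places over a
prime number (`Places.exists_placeImage_of_isGalois820`).  For `s ∈ G` the conjugate `π_s` of `π_F`
(`ConjC`) has the data `MidData`: the identity of `MidData` at a place `w' = s w` over `p` involves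
`ρ(Frob_p)` only, and `(a, b)(π_s, s w) = (a, b)(π_F, w)` outside a finite set
(`almostAllFrob_of_conj820`).  By `MidUniqueC`, `π_s` and `π_F` agree almost everywhere, hence
`(a, b)(π_F, s w) = (a, b)(π_F, w)` for the places over almost all primes (`stable_of_unique820`);
the union over the finite group `G` of the exceptional sets gives `ConstOnFibresQ π_F`.
-/

set_option autoImplicit false

open AutomorphicForm
open IsDedekindDomain NumberField

noncomputable section

namespace Fermat.Agent.LT.T7.H820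

open Fermat.Agent.LT.H130 Fermat.Agent.LT.H556 Fermat.Agent.LT.T7

local notation "Γℚ" => (AlgebraicClosure ℚ ≃ₐ[ℚ] AlgebraicClosure ℚ)

section Transport

variable {K : Type} [Field K] [NumberField K]

/-- **Transport of Frobenius data by an automorphism.**  If `(a, b)(π', s v) = (a, b)(π, v)`
outside a finite set of places, every identity between `a_v`, `b_v` and `ρ(Frob_p)` which holds
for `π` at the places over almost all primes holds for `π'`. -/
theorem almostAllFrob_of_conj820 (ρ : Γℚ →* GL (Fin 2) (ZMod 3))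
    (Q : ℂ → ℂ → GL (Fin 2) (ZMod 3) → Prop) (s : K ≃+* K) (π π' : HeckeEigensystem K ℂ)
    (hconj : ∃ S : Finset (HeightOneSpectrum (𝓞 K)), ∀ v : HeightOneSpectrum (𝓞 K), v ∉ S →
      ∀ v' : HeightOneSpectrum (𝓞 K), PlaceImage s v v' → π'.a v' = π.a v ∧ π'.b v' = π.b v)
    (h : AlmostAllFrob K ρ fun v g => Q (π.a v) (π.b v) g) :
    AlmostAllFrob K ρ fun v g => Q (π'.a v) (π'.b v) g := by
  obtain ⟨S₁, h₁⟩ := hconj
  obtain ⟨S₀, h₀⟩ := h
  obtain ⟨T₁, hT₁⟩ := exists_primesBelow820 S₁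
  refine ⟨S₀ ∪ T₁, ?_⟩
  intro p hp hpS A hA σ hσ w' hw'
  rw [Finset.mem_union, not_or] at hpS
  obtain ⟨w, hww'⟩ := exists_placeImage820 s w'
  have hw : ((p : ℕ) : 𝓞 K) ∈ w.asIdeal :=
    (natCast_mem_of_placeImage820 s w w' hww' p).2 hw'
  have hwS : w ∉ S₁ := fun hmem => hpS.2 (hT₁ p hp w hmem hw)
  obtain ⟨ha, hb⟩ := h₁ w hwS w' hww'
  have := h₀ p hp hpS.1 A hA σ hσ w hw
  simp only at this ⊢
  rw [ha, hb]
  exact this

/-- `MidData` is stable under conjugation. -/
theorem midData_of_conj820 (ρ : Γℚ →* GL (Fin 2) (ZMod 3))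
    (Ψ : GL (Fin 2) (ZMod 3) →* GL (Fin 2) (ℤ√(-2))) (ι : ℤ√(-2) →+* ℂ)
    (s : K ≃+* K) (π π' : HeckeEigensystem K ℂ)
    (hconj : ∃ S : Finset (HeightOneSpectrum (𝓞 K)), ∀ v : HeightOneSpectrum (𝓞 K), v ∉ S →
      ∀ v' : HeightOneSpectrum (𝓞 K), PlaceImage s v v' → π'.a v' = π.a v ∧ π'.b v' = π.b v)
    (h : MidData K ρ Ψ ι π) : MidData K ρ Ψ ι π' :=
  almostAllFrob_of_conj820 ρ
    (fun a b g => satakePow (ordQ8 (g ^ ordSL g)) a b
        = trΨ Ψ ι ((g ^ ordSL g) ^ ordQ8 (g ^ ordSL g)) ∧ b = 1) s π π' hconj h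

/-- `SeedData` is stable under conjugation (not used below; for T7.04). -/
theorem seedData_of_conj820 (ρ : Γℚ →* GL (Fin 2) (ZMod 3))
    (Ψ : GL (Fin 2) (ZMod 3) →* GL (Fin 2) (ℤ√(-2))) (ι : ℤ√(-2) →+* ℂ)
    (s : K ≃+* K) (π π' : HeckeEigensystem K ℂ)
    (hconj : ∃ S : Finset (HeightOneSpectrum (𝓞 K)), ∀ v : HeightOneSpectrum (𝓞 K), v ∉ S →
      ∀ v' : HeightOneSpectrum (𝓞 K), PlaceImage s v v' → π'.a v' = π.a v ∧ π'.b v' = π.b v)
    (h : SeedData K ρ Ψ ι π) : SeedData K ρ Ψ ι π' :=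
  almostAllFrob_of_conj820 ρ
    (fun a b g => a = trΨ Ψ ι (g ^ ordQ8 g) ∧ b = 1) s π π' hconj h

/-- **Stability from uniqueness, one automorphism.**  If the cusp forms with the data `D` are
unique up to almost everywhere equality and `D` is stable under the conjugation by `s`, then a
cusp form `π` with `D` has the same eigenvalues at `w` and at `s w`, for the places over almost
all prime numbers. -/
theorem stable_of_unique820 (C D : HeckeEigensystem K ℂ → Prop)
    (hU : ∀ π π' : HeckeEigensystem K ℂ, C π → C π' → D π → D π' → AEq π π')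
    (s : K ≃+* K)
    (hD : ∀ π π' : HeckeEigensystem K ℂ,
      (∃ S : Finset (HeightOneSpectrum (𝓞 K)), ∀ v : HeightOneSpectrum (𝓞 K), v ∉ S →
        ∀ v' : HeightOneSpectrum (𝓞 K), PlaceImage s v v' →
          π'.a v' = π.a v ∧ π'.b v' = π.b v) → D π → D π')
    (hC : ∀ π : HeckeEigensystem K ℂ, C π → ∃ π' : HeckeEigensystem K ℂ, C π' ∧
      ∃ S : Finset (HeightOneSpectrum (𝓞 K)), ∀ v : HeightOneSpectrum (𝓞 K), v ∉ S →
        ∀ v' : HeightOneSpectrum (𝓞 K), PlaceImage s v v' →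
          π'.a v' = π.a v ∧ π'.b v' = π.b v)
    (π : HeckeEigensystem K ℂ) (hπ : C π) (hdata : D π) :
    ∃ T : Finset ℕ, ∀ p : ℕ, p.Prime → p ∉ T →
      ∀ w w' : HeightOneSpectrum (𝓞 K), ((p : ℕ) : 𝓞 K) ∈ w.asIdeal → PlaceImage s w w' →
        π.a w' = π.a w ∧ π.b w' = π.b w := by
  obtain ⟨π', hπ', hconj⟩ := hC π hπ
  have hdata' : D π' := hD π π' hconj hdata
  obtain ⟨S₁, h₁⟩ := hconj
  obtain ⟨S₂, h₂⟩ := hU π π' hπ hπ' hdata hdata'
  obtain ⟨T₁, hT₁⟩ := exists_primesBelow820 S₁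
  obtain ⟨T₂, hT₂⟩ := exists_primesBelow820 S₂
  refine ⟨T₁ ∪ T₂, ?_⟩
  intro p hp hpT w w' hw hww'
  rw [Finset.mem_union, not_or] at hpT
  have hw' : ((p : ℕ) : 𝓞 K) ∈ w'.asIdeal :=
    (natCast_mem_of_placeImage820 s w w' hww' p).1 hw
  have hwS : w ∉ S₁ := fun hmem => hpT.1 (hT₁ p hp w hmem hw)
  have hwS' : w' ∉ S₂ := fun hmem => hpT.2 (hT₂ p hp w' hmem hw')
  obtain ⟨ha, hb⟩ := h₁ w hwS w' hww'
  obtain ⟨ha', hb'⟩ := h₂ w' hwS'
  exact ⟨ha'.trans ha, hb'.trans hb⟩

/-- **Stability from uniqueness, Galois case.**  For `K/ℚ` Galois: if the cusp forms with the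
data `D` are unique up to almost everywhere equality, `D` is stable under conjugation and
conjugates exist (`ConjC`), then a cusp form with `D` is constant on the fibres over `ℚ`. -/
theorem constOnFibresQ_of_unique820 [IsGalois ℚ K] (C D : HeckeEigensystem K ℂ → Prop)
    (hU : ∀ π π' : HeckeEigensystem K ℂ, C π → C π' → D π → D π' → AEq π π')
    (hD : ∀ (s : K ≃+* K) (π π' : HeckeEigensystem K ℂ),
      (∃ S : Finset (HeightOneSpectrum (𝓞 K)), ∀ v : HeightOneSpectrum (𝓞 K), v ∉ S →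
        ∀ v' : HeightOneSpectrum (𝓞 K), PlaceImage s v v' →
          π'.a v' = π.a v ∧ π'.b v' = π.b v) → D π → D π')
    (hC : ∀ (s : K ≃+* K) (π : HeckeEigensystem K ℂ), C π →
      ∃ π' : HeckeEigensystem K ℂ, C π' ∧
      ∃ S : Finset (HeightOneSpectrum (𝓞 K)), ∀ v : HeightOneSpectrum (𝓞 K), v ∉ S →
        ∀ v' : HeightOneSpectrum (𝓞 K), PlaceImage s v v' →
          π'.a v' = π.a v ∧ π'.b v' = π.b v)
    (π : HeckeEigensystem K ℂ) (hπ : C π) (hdata : D π) : ConstOnFibresQ π := by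
  classical
  have key : ∀ s : K ≃ₐ[ℚ] K, ∃ T : Finset ℕ, ∀ p : ℕ, p.Prime → p ∉ T →
      ∀ w w' : HeightOneSpectrum (𝓞 K), ((p : ℕ) : 𝓞 K) ∈ w.asIdeal →
        PlaceImage s.toRingEquiv w w' → π.a w' = π.a w ∧ π.b w' = π.b w :=
    fun s => stable_of_unique820 C D hU s.toRingEquiv (hD s.toRingEquiv) (hC s.toRingEquiv)
      π hπ hdata
  choose T hT using key
  refine ⟨Finset.univ.biUnion T, ?_⟩
  intro p hp hpT w w' hw hw'
  obtain ⟨s, hs⟩ := exists_placeImage_of_isGalois820 hp w w' hw hw'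
  have hps : p ∉ T s := fun hmem => hpT (Finset.mem_biUnion.2 ⟨s, Finset.mem_univ s, hmem⟩)
  obtain ⟨ha, hb⟩ := hT s p hp hps w w' hw hs
  exact ⟨ha.symm, hb.symm⟩

end Transport

/-- **LEAF T7.08** `MidUniqueC + ConjAll ⇒ MidStableC`. -/
theorem midStableFromUniqueC820 : MidStableFromUniqueC := by
  intro hMU hConj ρ Ψ ι hyp nfF πF hπF hdata
  have : IsGalois ℚ (fieldF ρ) := isGalois_fieldF820 ρ
  exact constOnFibresQ_of_unique820 (A0.IsCuspAdelicSph0 (fieldF ρ)) (MidData (fieldF ρ) ρ Ψ ι)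
    (fun π π' hπ hπ' hd hd' => hMU ρ Ψ ι hyp nfF π π' hπ hπ' hd hd')
    (fun s π π' hconj hd => midData_of_conj820 ρ Ψ ι s π π' hconj hd)
    (fun s π hπ => hConj (fieldF ρ) s π hπ)
    πF hπF hdata

end Fermat.Agent.LT.T7.H820

end

end
-- ===== PACK-END LT/T7/H820/MidStable.lean

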