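import Mathlib
import Fermat.Agent.Pack.LT2.E3L3
import Fermat.Agent.Pack.LT2.E9L3
import Fermat.Agent.Pack.LT2.E9L2
import Fermat.Agent.Pack.LT2.E0L1
import Fermat.Agent.Pack.LT2.E10L3
import Fermat.Agent.Pack.LT2.E4L2
import Fermat.Agent.Pack.LT2.E6L3
import Fermat.Agent.Pack.LT2.E4L1
import Fermat.Agent.Pack.LT2.E10L2
import Fermat.Agent.Pack.LT2.E2L2
import Fermat.Agent.Pack.LT2.E10L1
import Fermat.Agent.Pack.LT2.E2L1
import Fermat.Agent.Pack.S43GC.G0E4L2
import Fermat.Agent.Pack.LT2.E1L1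

set_option linter.all false

-- ===== PACK-BEGIN LT/A2/H38/Group.lean
section




/-!
# Row LT, tower A2, branch GALSEED: leaf `GroupC` (helper38), PROVED

Finite group theory of `C4 ⊂ Q8 ⊂ GL₂(𝔽₃)` (brute force on `2 × 2` matrices over `ZMod 3`) and the
traces of `Ψ` on `Q8` (on top of helper701's `LT/H701/{Quat,GL23,Core,Psi}.lean`, byte-identical
copies: Cayley--Hamilton, `Ψ(-1) = -1`).
-/

set_option autoImplicit false

open Matrix FLT.ExplicitLift

noncomputable section

namespace Fermat.Agent.LT.A2.H38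

open Fermat.Agent.LT.H130 Fermat.Agent.LT.H701

local notation "Γℚ" => (AlgebraicClosure ℚ ≃ₐ[ℚ] AlgebraicClosure ℚ)

/-! ## Decidable forms on matrices -/

/-- The matrix of `g0`. -/
def G0m : Matrix (Fin 2) (Fin 2) (ZMod 3) := !![0, 2; 1, 0]

/-- Decidable form of `InQ8` on matrices. -/
def q8M (M : Matrix (Fin 2) (Fin 2) (ZMod 3)) : Prop :=
  M 0 0 * M 1 1 - M 0 1 * M 1 0 = 1 ∧ M ^ 4 = 1

instance decQ8M (M : Matrix (Fin 2) (Fin 2) (ZMod 3)) : Decidable (q8M M) := by
  unfold q8M; infer_instance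

/-- Decidable form of membership in `C4` on matrices. -/
def c4M (M : Matrix (Fin 2) (Fin 2) (ZMod 3)) : Prop :=
  M = 1 ∨ M = G0m ∨ M = G0m ^ 2 ∨ M = G0m ^ 3

instance decC4M (M : Matrix (Fin 2) (Fin 2) (ZMod 3)) : Decidable (c4M M) := by
  unfold c4M; infer_instance

/-- Decidable form of `ordQ8`. -/
def ordM (M : Matrix (Fin 2) (Fin 2) (ZMod 3)) : ℕ :=
  if q8M M then 1 else if q8M (M ^ 2) then 2 else 3

/-- Decidable form of `IsLeastPowC4`. -/
def leastM (M : Matrix (Fin 2) (Fin 2) (ZMod 3)) (f : ℕ) : Prop :=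
  0 < f ∧ c4M (M ^ f) ∧ ∀ k < f, 0 < k → ¬ c4M (M ^ k)

instance decLeastM (M : Matrix (Fin 2) (Fin 2) (ZMod 3)) (f : ℕ) : Decidable (leastM M f) := by
  unfold leastM; infer_instance

/-! ## Brute force -/

set_option maxRecDepth 100000 in
theorem bfIn : ∀ a b c e : ZMod 3, a * e - b * c ≠ 0 →
    c4M ((!![a, b; c, e] : Matrix (Fin 2) (Fin 2) (ZMod 3)) ^ ordM !![a, b; c, e]) →
    leastM !![a, b; c, e] (ordM !![a, b; c, e]) := by
  decide

set_option maxRecDepth 100000 in
theorem bfOut : ∀ a b c e : ZMod 3, a * e - b * c ≠ 0 →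
    ¬ c4M ((!![a, b; c, e] : Matrix (Fin 2) (Fin 2) (ZMod 3)) ^ ordM !![a, b; c, e]) →
    leastM !![a, b; c, e] (2 * ordM !![a, b; c, e]) ∧
    (!![a, b; c, e] : Matrix (Fin 2) (Fin 2) (ZMod 3)) ^ (2 * ordM !![a, b; c, e]) = G0m ^ 2 ∧
    ((!![a, b; c, e] : Matrix (Fin 2) (Fin 2) (ZMod 3)) ^ ordM !![a, b; c, e]) *
      ((!![a, b; c, e] : Matrix (Fin 2) (Fin 2) (ZMod 3)) ^ ordM !![a, b; c, e]) = -1 := by
  decide

set_option maxRecDepth 100000 in
theorem bfConj : ∀ a b c e : ZMod 3,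
    q8M !![a, b; c, e] → ¬ c4M !![a, b; c, e] →
    G0m * !![a, b; c, e] * G0m = !![a, b; c, e] := by
  decide

theorem bfScalar : ∀ c : ZMod 3, c * c + 0 * 0 ≠ -1 := by decide

/-! ## Dictionary `GL₂(𝔽₃)` ↔ matrices -/

theorem g0_val : (g0 : Matrix (Fin 2) (Fin 2) (ZMod 3)) = G0m := rfl

theorem val_eta (g : GL (Fin 2) (ZMod 3)) :
    (g : Matrix (Fin 2) (Fin 2) (ZMod 3)) = !![g.val 0 0, g.val 0 1; g.val 1 0, g.val 1 1] :=
  Matrix.eta_fin_two _

theorem det_ne_zero_val (g : GL (Fin 2) (ZMod 3)) :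
    g.val 0 0 * g.val 1 1 - g.val 0 1 * g.val 1 0 ≠ 0 := by
  have h : IsUnit (g.val.det) := (Matrix.isUnit_iff_isUnit_det _).mp g.isUnit
  rw [Matrix.det_fin_two] at h
  exact h.ne_zero

theorem inQ8_iff (g : GL (Fin 2) (ZMod 3)) : InQ8 g ↔ q8M g.val := by
  unfold InQ8 q8M
  constructor
  · rintro ⟨h1, h2⟩
    refine ⟨det_val_h701 g h1, ?_⟩
    rw [← Units.val_pow_eq_pow_val, h2]
    rfl
  · rintro ⟨h1, h2⟩
    refine ⟨Units.ext ?_, Units.ext ?_⟩
    · rw [Matrix.GeneralLinearGroup.val_det_apply, Matrix.det_fin_two]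
      exact h1
    · rw [Units.val_pow_eq_pow_val, h2]
      rfl

theorem g0_zpow_four : g0 ^ (4 : ℤ) = 1 := by
  have h : g0 ^ (4 : ℤ) = g0 ^ (4 : ℕ) := by
    rw [← zpow_natCast]; rfl
  rw [h, g0_pow_four]

theorem mem_C4_iff (h : GL (Fin 2) (ZMod 3)) : h ∈ C4 ↔ c4M h.val := by
  unfold c4M
  constructor
  · intro hh
    obtain ⟨k, rfl⟩ := Subgroup.mem_zpowers_iff.mp hh
    have hk : g0 ^ k = g0 ^ (k % 4) := by
      conv_lhs => rw [← Int.emod_add_mul_ediv k 4]
      rw [_root_.zpow_add, _root_.zpow_mul, g0_zpow_four, _root_.one_zpow, mul_one]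
    rw [hk]
    have h0 : 0 ≤ k % 4 := Int.emod_nonneg k (by norm_num)
    have h4 : k % 4 < 4 := Int.emod_lt_of_pos k (by norm_num)
    obtain ⟨n, hn⟩ := Int.eq_ofNat_of_zero_le h0
    have hn4 : n < 4 := by omega
    rw [hn, zpow_natCast]
    interval_cases n
    · left; rw [pow_zero]; rfl
    · right; left; rw [pow_one]; rfl
    · right; right; left
      rw [Units.val_pow_eq_pow_val]; rfl
    · right; right; right
      rw [Units.val_pow_eq_pow_val]; rfl
  · rintro (h1 | h1 | h1 | h1)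
    · have : h = 1 := Units.ext h1
      rw [this]; exact Subgroup.one_mem _
    · have : h = g0 := Units.ext h1
      rw [this]; exact Subgroup.mem_zpowers g0
    · have : h = g0 ^ 2 := Units.ext (by rw [Units.val_pow_eq_pow_val]; exact h1)
      rw [this]; exact Subgroup.pow_mem _ (Subgroup.mem_zpowers g0) 2
    · have : h = g0 ^ 3 := Units.ext (by rw [Units.val_pow_eq_pow_val]; exact h1)
      rw [this]; exact Subgroup.pow_mem _ (Subgroup.mem_zpowers g0) 3

theorem ordQ8_eq (g : GL (Fin 2) (ZMod 3)) : ordQ8 g = ordM g.val := by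
  unfold ordQ8 ordM
  by_cases h1 : InQ8 g
  · rw [if_pos h1, if_pos ((inQ8_iff g).mp h1)]
  · rw [if_neg h1, if_neg (fun h => h1 ((inQ8_iff g).mpr h))]
    by_cases h2 : InQ8 (g ^ 2)
    · have h2' : q8M (g.val ^ 2) := by
        have := (inQ8_iff (g ^ 2)).mp h2
        rwa [Units.val_pow_eq_pow_val] at this
      rw [if_pos h2, if_pos h2']
    · have h2' : ¬ q8M (g.val ^ 2) := fun h =>
        h2 ((inQ8_iff (g ^ 2)).mpr (by rwa [Units.val_pow_eq_pow_val]))
      rw [if_neg h2, if_neg h2']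

theorem isLeast_iff (g : GL (Fin 2) (ZMod 3)) (f : ℕ) : IsLeastPowC4 g f ↔ leastM g.val f := by
  unfold IsLeastPowC4 leastM
  constructor
  · rintro ⟨h0, h1, h2⟩
    refine ⟨h0, ?_, fun k hk hk0 hc => h2 k hk0 hk ?_⟩
    · have := (mem_C4_iff (g ^ f)).mp h1
      rwa [Units.val_pow_eq_pow_val] at this
    · exact (mem_C4_iff (g ^ k)).mpr (by rwa [Units.val_pow_eq_pow_val])
  · rintro ⟨h0, h1, h2⟩
    refine ⟨h0, ?_, fun k hk0 hk hc => h2 k hk hk0 ?_⟩
    · exact (mem_C4_iff (g ^ f)).mpr (by rwa [Units.val_pow_eq_pow_val])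
    · have := (mem_C4_iff (g ^ k)).mp hc
      rwa [Units.val_pow_eq_pow_val] at this

/-! ## Conjugation -/

theorem inQ8_conj (x h : GL (Fin 2) (ZMod 3)) : InQ8 (x * h * x⁻¹) ↔ InQ8 h := by
  unfold InQ8
  rw [map_mul, map_mul, map_inv, mul_comm (Matrix.GeneralLinearGroup.det x), mul_assoc,
    mul_inv_cancel, mul_one, conj_pow, conj_eq_one_iff]

theorem ordQ8_conj (x g : GL (Fin 2) (ZMod 3)) : ordQ8 (x * g * x⁻¹) = ordQ8 g := by
  unfold ordQ8
  by_cases h1 : InQ8 g
  · rw [if_pos h1, if_pos ((inQ8_conj x g).mpr h1)]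
  · rw [if_neg h1, if_neg (fun h => h1 ((inQ8_conj x g).mp h))]
    by_cases h2 : InQ8 (g ^ 2)
    · rw [if_pos h2, if_pos (by rw [conj_pow]; exact (inQ8_conj x _).mpr h2)]
    · rw [if_neg h2, if_neg (by rw [conj_pow]; exact fun h => h2 ((inQ8_conj x _).mp h))]

theorem trΨ_conj (Ψ : GL (Fin 2) (ZMod 3) →* GL (Fin 2) (ℤ√(-2))) (ι : ℤ√(-2) →+* ℂ)
    (x h : GL (Fin 2) (ZMod 3)) : trΨ Ψ ι (x * h * x⁻¹) = trΨ Ψ ι h := by
  unfold trΨ
  congr 1
  rw [map_mul, map_mul, map_inv, Units.val_mul, Units.val_mul, Matrix.trace_mul_comm,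
    ← mul_assoc, ← Units.val_mul, inv_mul_cancel, Units.val_one, one_mul]

/-! ## Traces of `Ψ` on `Q8` -/

section Psi

variable (Ψ : GL (Fin 2) (ZMod 3) →* GL (Fin 2) (ℤ√(-2)))
  (hΨ : ∀ g, Matrix.GeneralLinearGroup.map red (Ψ g) = g) (ι : ℤ√(-2) →+* ℂ)

theorem trΨ_one : trΨ Ψ ι 1 = 2 := by
  unfold trΨ
  rw [map_one, Units.val_one, Matrix.trace_one]
  simp only [Fintype.card_fin, Nat.cast_ofNat]
  exact map_ofNat ι 2

include hΨ

theorem trΨ_neg_one : trΨ Ψ ι (-1) = -2 := by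
  unfold trΨ
  rw [← trace_rhom_h701, rhom_neg_one_h701 Ψ hΨ ι]
  simp

theorem trΨ_of_sq (h : GL (Fin 2) (ZMod 3)) (hh : h * h = -1) : trΨ Ψ ι h = 0 := by
  unfold trΨ
  rw [← trace_rhom_h701]
  have hsq : (rhom_h701 ι Ψ h).val * (rhom_h701 ι Ψ h).val = -1 := by
    rw [← Units.val_mul, ← map_mul, hh, rhom_neg_one_h701 Ψ hΨ ι]
    rfl
  have hCH := sq_eq_h701 (rhom_h701 ι Ψ h).val
  rw [hsq] at hCH
  by_contra htr
  have e01 := congrFun (congrFun hCH 0) 1
  have e10 := congrFun (congrFun hCH 1) 0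
  have e00 := congrFun (congrFun hCH 0) 0
  have e11 := congrFun (congrFun hCH 1) 1
  simp only [Matrix.sub_apply, Matrix.smul_apply, Matrix.neg_apply, Matrix.one_apply,
    smul_eq_mul] at e01 e10 e00 e11
  simp at e01 e10 e00 e11
  have h01 : (rhom_h701 ι Ψ h).val 0 1 = 0 := by
    rcases e01 with h | h
    · exact absurd h htr
    · exact h
  have h10 : (rhom_h701 ι Ψ h).val 1 0 = 0 := by
    rcases e10 with h | h
    · exact absurd h htr
    · exact h
  have hd : (rhom_h701 ι Ψ h).val 0 0 = (rhom_h701 ι Ψ h).val 1 1 := by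
    have h3 : (rhom_h701 ι Ψ h).val.trace *
        ((rhom_h701 ι Ψ h).val 0 0 - (rhom_h701 ι Ψ h).val 1 1) = 0 := by
      linear_combination e11 - e00
    rcases mul_eq_zero.mp h3 with h | h
    · exact absurd h htr
    · exact sub_eq_zero.mp h
  -- transfer to `Ψ h`, then to `h`
  have v01 : (Ψ h).val 0 1 = 0 := iota_injective_h701 ι (by rw [map_zero]; exact h01)
  have v10 : (Ψ h).val 1 0 = 0 := iota_injective_h701 ι (by rw [map_zero]; exact h10)
  have vd : (Ψ h).val 0 0 = (Ψ h).val 1 1 := iota_injective_h701 ι hd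
  have r := red_val_h701 Ψ hΨ h
  have k01 : h.val 0 1 = 0 := by
    rw [← r, Matrix.map_apply, v01, map_zero]
  have k10 : h.val 1 0 = 0 := by
    rw [← r, Matrix.map_apply, v10, map_zero]
  have key : (h * h).val 0 0 = (-1 : GL (Fin 2) (ZMod 3)).val 0 0 := by rw [hh]
  rw [Units.val_mul, Matrix.mul_apply, Fin.sum_univ_two, k01, k10] at key
  exact bfScalar (h.val 0 0) key

end Psi

/-! ## Values of `θ` -/

theorem thetaVal_one : thetaVal 1 = 1 := by
  unfold thetaVal
  rw [if_pos rfl]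

theorem thetaVal_g0 : thetaVal g0 = Complex.I := by
  unfold thetaVal
  rw [if_neg (by decide), if_pos rfl]

theorem thetaVal_g0_sq : thetaVal (g0 ^ 2) = -1 := by
  unfold thetaVal
  rw [if_neg (by decide), if_neg (by decide), if_pos rfl]

theorem thetaVal_g0_cube : thetaVal (g0 ^ 3) = -Complex.I := by
  unfold thetaVal
  rw [if_neg (by decide), if_neg (by decide), if_neg (by decide), if_pos rfl]

theorem g0_sq_eq : g0 ^ 2 = -1 := Units.ext (by decide)

theorem g0_mul_self : g0 * g0 = -1 := Units.ext (by decide)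

theorem g0_cube_mul_self : g0 ^ 3 * g0 ^ 3 = -1 := Units.ext (by decide)

theorem g0_inv : g0⁻¹ = g0 ^ 3 := by
  rw [inv_eq_iff_eq_inv, eq_inv_iff_mul_eq_one]
  exact Units.ext (by decide)

theorem g0_sq_inv : (g0 ^ 2)⁻¹ = g0 ^ 2 := by
  rw [inv_eq_iff_eq_inv, eq_inv_iff_mul_eq_one]
  exact Units.ext (by decide)

theorem g0_cube_inv : (g0 ^ 3)⁻¹ = g0 := by
  rw [inv_eq_iff_eq_inv, eq_inv_iff_mul_eq_one]
  exact Units.ext (by decide)

theorem eq_of_mem_C4 (h : GL (Fin 2) (ZMod 3)) (hh : h ∈ C4) :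
    h = 1 ∨ h = g0 ∨ h = g0 ^ 2 ∨ h = g0 ^ 3 := by
  rcases (mem_C4_iff h).mp hh with h1 | h1 | h1 | h1
  · exact Or.inl (Units.ext h1)
  · exact Or.inr (Or.inl (Units.ext h1))
  · exact Or.inr (Or.inr (Or.inl (Units.ext (by rw [Units.val_pow_eq_pow_val]; exact h1))))
  · exact Or.inr (Or.inr (Or.inr (Units.ext (by rw [Units.val_pow_eq_pow_val]; exact h1))))

/-- `θ(h) + θ(h⁻¹) = tr Ψ h`, `θ(h) θ(h⁻¹) = 1` on `C4`. -/
theorem theta_sum_prod (Ψ : GL (Fin 2) (ZMod 3) →* GL (Fin 2) (ℤ√(-2)))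
    (hΨ : ∀ g, Matrix.GeneralLinearGroup.map red (Ψ g) = g) (ι : ℤ√(-2) →+* ℂ)
    (h : GL (Fin 2) (ZMod 3)) (hh : h ∈ C4) :
    thetaVal h + thetaVal h⁻¹ = trΨ Ψ ι h ∧ thetaVal h * thetaVal h⁻¹ = 1 := by
  rcases eq_of_mem_C4 h hh with rfl | rfl | rfl | rfl
  · rw [inv_one, thetaVal_one, trΨ_one]
    constructor <;> norm_num
  · rw [g0_inv, thetaVal_g0, thetaVal_g0_cube, trΨ_of_sq Ψ hΨ ι g0 g0_mul_self]
    constructor
    · ring
    · have := Complex.I_mul_I
      linear_combination -this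
  · rw [g0_sq_inv, thetaVal_g0_sq, g0_sq_eq, trΨ_neg_one Ψ hΨ ι]
    constructor <;> norm_num
  · rw [g0_cube_inv, thetaVal_g0, thetaVal_g0_cube,
      trΨ_of_sq Ψ hΨ ι (g0 ^ 3) g0_cube_mul_self]
    constructor
    · ring
    · have := Complex.I_mul_I
      linear_combination -this

/-! ## Conjugation by `Q8 ∖ C4` inverts `C4` -/

theorem conj_g0 (t : GL (Fin 2) (ZMod 3)) (ht : InQ8NotC4 t) : t * g0 * t⁻¹ = g0⁻¹ := by
  have h1 : q8M t.val := (inQ8_iff t).mp ht.1
  have h2 : ¬ c4M t.val := fun h => ht.2 ((mem_C4_iff t).mpr h)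
  rw [val_eta t] at h1 h2
  have key := bfConj _ _ _ _ h1 h2
  rw [← val_eta t] at key
  have key' : g0 * t * g0 = t := Units.ext (by
    rw [Units.val_mul, Units.val_mul]; exact key)
  have h3 : t * g0 = g0⁻¹ * t := by
    rw [eq_inv_mul_iff_mul_eq, ← mul_assoc]; exact key'
  rw [h3, mul_inv_cancel_right]

theorem conj_C4 (t : GL (Fin 2) (ZMod 3)) (ht : InQ8NotC4 t) (h : GL (Fin 2) (ZMod 3))
    (hh : h ∈ C4) : t * h * t⁻¹ = h⁻¹ := by
  obtain ⟨k, rfl⟩ := Subgroup.mem_zpowers_iff.mp hh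
  rw [← conj_zpow, conj_g0 t ht, _root_.inv_zpow]

theorem conj_mem_C4_iff (t : GL (Fin 2) (ZMod 3)) (ht : InQ8NotC4 t) (h : GL (Fin 2) (ZMod 3)) :
    t * h * t⁻¹ ∈ C4 ↔ h ∈ C4 := by
  constructor
  · intro hc
    have h1 := conj_C4 t ht _ hc
    -- t * (t * h * t⁻¹) * t⁻¹ = (t * h * t⁻¹)⁻¹ ∈ C4, and t² is central in Q8: avoid, use inverse
    have h2 : h = t⁻¹ * (t * h * t⁻¹) * t := by group
    have h3 : t * (t * h * t⁻¹)⁻¹ * t⁻¹ = t * h * t⁻¹ := by
      have := conj_C4 t ht _ (C4.inv_mem hc)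
      rw [this, inv_inv]
    -- from h3: (t h t⁻¹)⁻¹ = h
    have h4 : (t * h * t⁻¹)⁻¹ = h := by
      have h5 : t * (t * h * t⁻¹)⁻¹ * t⁻¹ = t * h * t⁻¹ := h3
      have h6 : t * (t * h * t⁻¹)⁻¹ = t * h := by
        have := congrArg (· * t) h5
        simpa [mul_assoc] using this
      exact mul_left_cancel h6
    rw [← h4]
    exact C4.inv_mem hc
  · intro hc
    rw [conj_C4 t ht h hc]
    exact C4.inv_mem hc

/-! ## The leaf -/

/-- **Leaf `GroupC`.** -/
theorem groupC : GroupC := by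
  intro ρ Ψ hyp ι g
  have hΨ := hyp.lift
  refine ⟨fun x => ?_, fun hC => ?_, fun hC => ?_⟩
  · rw [ordQ8_conj, conj_pow, trΨ_conj]
  · have hC' : c4M (g.val ^ ordM g.val) := by
      have := (mem_C4_iff _).mp hC
      rwa [Units.val_pow_eq_pow_val, ordQ8_eq] at this
    have hl : IsLeastPowC4 g (ordQ8 g) := by
      rw [isLeast_iff, ordQ8_eq]
      have := bfIn _ _ _ _ (det_ne_zero_val g) (by rw [← val_eta g]; exact hC')
      rwa [← val_eta g] at this
    refine ⟨hl, fun t ht => ?_⟩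
    have hpow : (t * g * t⁻¹) ^ ordQ8 g = (g ^ ordQ8 g)⁻¹ := by
      rw [conj_pow, conj_C4 t ht _ hC]
    obtain ⟨hsum, hprod⟩ := theta_sum_prod Ψ hΨ ι _ hC
    refine ⟨⟨hl.1, ?_, fun k hk0 hk hc => ?_⟩, ?_, ?_, ?_⟩
    · rw [hpow]; exact C4.inv_mem hC
    · rw [conj_pow] at hc
      exact hl.2.2 k hk0 hk ((conj_mem_C4_iff t ht _).mp hc)
    · rw [hpow]; exact hsum
    · rw [hpow]; exact hprod
    · intro hg
      rw [hpow, hg, ordQ8_g0, pow_one, g0_inv, thetaVal_g0, thetaVal_g0_cube]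
      intro h
      have h2 : (2 : ℂ) * Complex.I = 0 := by linear_combination h
      have h3 : Complex.I = 0 := by
        rcases mul_eq_zero.mp h2 with h | h
        · exact absurd h (by norm_num)
        · exact h
      exact Complex.I_ne_zero h3
  · have hC' : ¬ c4M (g.val ^ ordM g.val) := by
      intro h
      apply hC
      apply (mem_C4_iff _).mpr
      rwa [Units.val_pow_eq_pow_val, ordQ8_eq]
    have key := bfOut _ _ _ _ (det_ne_zero_val g) (by rw [← val_eta g]; exact hC')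
    rw [← val_eta g] at key
    obtain ⟨k1, k2, k3⟩ := key
    refine ⟨?_, ?_, ?_⟩
    · rw [isLeast_iff, ordQ8_eq]; exact k1
    · have : g ^ (2 * ordQ8 g) = g0 ^ 2 := Units.ext (by
        rw [Units.val_pow_eq_pow_val, Units.val_pow_eq_pow_val, ordQ8_eq]; exact k2)
      rw [this, thetaVal_g0_sq]
    · apply trΨ_of_sq Ψ hΨ ι
      apply Units.ext
      rw [Units.val_mul, Units.val_pow_eq_pow_val, ordQ8_eq]
      exact k3

end Fermat.Agent.LT.A2.H38

end

end
-- ===== PACK-END LT/A2/H38/Group.lean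

-- ===== PACK-BEGIN LT/A2/H922/UnifIdele.lean
section



/-!
# Row LT, tower A2, branch GALSEED — leaf A2.01.13 `UnifIdeleC` (helper922)

OFF-MAIN.  Every finite place `w` of a number field `K` has a uniformiser idele: the idele with
component a uniformiser at `w` and `1` at every other place (finite or infinite).

* `localIdele922 w c hc` : the idele with component `c ≠ 0` at `w` and `1` elsewhere
  (`RestrictedProduct.mulSingle`);
* `isIdeleAt_localIdele922`, `localIdele922_apply_self`;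
* `exists_unitIdeleAt922` / `exists_ideleAt_of922` : every `c ≠ 0` of `K_w` is the component of
  an idele supported at `w`;
* `unifIdeleC922 : H38.UnifIdeleC`.
-/

set_option autoImplicit false

open IsDedekindDomain NumberField

noncomputable section

namespace Fermat.Agent.LT.A2.H922

open Fermat.Agent.LT.H556 Fermat.Agent.LT.A2

variable {K : Type} [Field K] [NumberField K]

theorem fin_mul_apply922 (a b : FiniteAdeleRing (𝓞 K) K) (v : HeightOneSpectrum (𝓞 K)) :
    (a * b) v = a v * b v := rfl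

theorem fin_one_apply922 (v : HeightOneSpectrum (𝓞 K)) :
    (1 : FiniteAdeleRing (𝓞 K) K) v = 1 := rfl

open Classical in
/-- The finite adele with component `c` at `w` and `1` at every other finite place. -/
def localFin922 (w : HeightOneSpectrum (𝓞 K)) (c : w.adicCompletion K) :
    FiniteAdeleRing (𝓞 K) K :=
  ⟨Pi.mulSingle w c, Filter.eventually_cofinite.2 ((Set.finite_singleton w).subset fun v hv => by
    by_contra h
    apply hv
    rw [Pi.mulSingle_eq_of_ne h]
    exact one_mem _)⟩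

open Classical in
theorem localFin922_same (w : HeightOneSpectrum (𝓞 K)) (c : w.adicCompletion K) :
    localFin922 w c w = c :=
  Pi.mulSingle_eq_same w c

open Classical in
theorem localFin922_ne (w : HeightOneSpectrum (𝓞 K)) (c : w.adicCompletion K)
    {w' : HeightOneSpectrum (𝓞 K)} (h : w' ≠ w) : localFin922 w c w' = 1 :=
  Pi.mulSingle_eq_of_ne h c

theorem localFin922_mul (w : HeightOneSpectrum (𝓞 K)) (c d : w.adicCompletion K) :
    localFin922 w c * localFin922 w d = localFin922 w (c * d) := by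
  apply FiniteAdeleRing.ext
  intro v
  by_cases h : v = w
  · subst h
    rw [fin_mul_apply922, localFin922_same, localFin922_same, localFin922_same]
  · rw [fin_mul_apply922, localFin922_ne w c h, localFin922_ne w d h,
      localFin922_ne w _ h, one_mul]

theorem localFin922_one (w : HeightOneSpectrum (𝓞 K)) :
    localFin922 w (1 : w.adicCompletion K) = 1 := by
  apply FiniteAdeleRing.ext
  intro v
  by_cases h : v = w
  · subst h
    rw [localFin922_same, fin_one_apply922]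
  · rw [localFin922_ne w _ h, fin_one_apply922]

/-- The idele with component `c ≠ 0` at the finite place `w` and `1` at every other place. -/
def localIdele922 (w : HeightOneSpectrum (𝓞 K)) (c : w.adicCompletion K) (hc : c ≠ 0) :
    (A0.Adl K)ˣ where
  val := ((1 : InfiniteAdeleRing K), localFin922 w c)
  inv := ((1 : InfiniteAdeleRing K), localFin922 w c⁻¹)
  val_inv := by
    apply Prod.ext
    · exact one_mul _
    · show localFin922 w c * localFin922 w c⁻¹ = 1
      rw [localFin922_mul, mul_inv_cancel₀ hc, localFin922_one]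
  inv_val := by
    apply Prod.ext
    · exact one_mul _
    · show localFin922 w c⁻¹ * localFin922 w c = 1
      rw [localFin922_mul, inv_mul_cancel₀ hc, localFin922_one]

theorem localIdele922_apply_self (w : HeightOneSpectrum (𝓞 K)) (c : w.adicCompletion K)
    (hc : c ≠ 0) : ((localIdele922 w c hc : (A0.Adl K)ˣ) : A0.Adl K).2 w = c :=
  localFin922_same w c

theorem isIdeleAt_localIdele922 (w : HeightOneSpectrum (𝓞 K)) (c : w.adicCompletion K)
    (hc : c ≠ 0) : IsIdeleAt w (localIdele922 w c hc) :=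
  ⟨fun _ => rfl, fun _ h => localFin922_ne w c h⟩

/-- Every non-zero element of `K_w` is the component of an idele supported at `w`. -/
theorem exists_ideleAt_of922 (w : HeightOneSpectrum (𝓞 K)) (c : w.adicCompletion K)
    (hc : c ≠ 0) : ∃ z : (A0.Adl K)ˣ, IsIdeleAt w z ∧ (z : A0.Adl K).2 w = c :=
  ⟨localIdele922 w c hc, isIdeleAt_localIdele922 w c hc, localIdele922_apply_self w c hc⟩

/-- **A2.01.13 = UNIFIDELE.**  Every finite place has a uniformiser idele. -/
theorem unifIdeleC922 : H38.UnifIdeleC := by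
  intro K _ _ w
  obtain ⟨π, hπ⟩ := w.valuation_exists_uniformizer K
  have hv : Valued.v ((π : K) : w.adicCompletion K) = WithZero.exp (-1 : ℤ) := by
    rw [HeightOneSpectrum.valuedAdicCompletion_eq_valuation']
    exact hπ
  have hc : ((π : K) : w.adicCompletion K) ≠ 0 := by
    intro h
    rw [h, map_zero] at hv
    exact (WithZero.exp_ne_zero).symm hv
  exact ⟨localIdele922 w _ hc, isIdeleAt_localIdele922 w _ hc, by
    rw [localIdele922_apply_self]; exact hv⟩

end Fermat.Agent.LT.A2.H922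

end

end
-- ===== PACK-END LT/A2/H922/UnifIdele.lean

-- ===== PACK-BEGIN LT/A2/H798/PlaceExists.lean
section



/-!
# Row LT, tower A2, branch GALSEED -- leaf `PlaceExistsC` (registry row 839, helper798)

OFF-MAIN.  `placeExistsC798 : Fermat.Agent.LT.A2.H38.PlaceExistsC` (VERBATIM the Prop of
`LT/A2/H38/MatchSpec.lean`, origin/helper38@28f1a145c).

A valuation subring `A` of `ℚ̄` with `p ∈ 𝔪_A` contains `𝓞 K` (it is integrally closed), and
`𝔪_A ∩ 𝓞 K` is a nonzero prime ideal of `𝓞 K` containing `p`.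
-/

set_option autoImplicit false

open IsDedekindDomain NumberField

noncomputable section

namespace Fermat.Agent.LT.A2.H798

/-- An element of `ℚ̄` which is integral over `ℤ` lies in every valuation subring. -/
theorem mem_valuationSubring_of_isIntegral798 {L : Type*} [Field L] (A : ValuationSubring L)
    {x : L} (hx : IsIntegral ℤ x) : x ∈ A := by
  have hA : IsIntegral A x := hx.tower_top
  obtain ⟨y, hy⟩ := IsIntegrallyClosed.isIntegral_iff.mp hA
  rw [← hy]
  exact y.2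

/-- The ring homomorphism `𝓞 K → A`. -/
def toValSub798 (K : IntermediateField ℚ (AlgebraicClosure ℚ))
    (A : ValuationSubring (AlgebraicClosure ℚ)) : 𝓞 K →+* A where
  toFun x := ⟨((x : K) : AlgebraicClosure ℚ), mem_valuationSubring_of_isIntegral798 A (by
    have h1 : IsIntegral ℤ (x : K) := RingOfIntegers.isIntegral_coe x
    exact h1.map (IsScalarTower.toAlgHom ℤ K (AlgebraicClosure ℚ)))⟩
  map_one' := by ext; simp
  map_mul' a b := by ext; simp
  map_zero' := by ext; simp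
  map_add' a b := by ext; simp

theorem toValSub798_coe (K : IntermediateField ℚ (AlgebraicClosure ℚ))
    (A : ValuationSubring (AlgebraicClosure ℚ)) (x : 𝓞 K) :
    ((toValSub798 K A x : A) : AlgebraicClosure ℚ) = ((x : K) : AlgebraicClosure ℚ) := rfl

/-- **PLACEEXISTS** (registry row 839). -/
theorem placeExistsC798 : Fermat.Agent.LT.A2.H38.PlaceExistsC := by
  intro K _ p hp A hA
  classical
  set I : Ideal (𝓞 K) := Ideal.comap (toValSub798 K A) (IsLocalRing.maximalIdeal A) with hI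
  have hmem : ∀ x : 𝓞 K, x ∈ I ↔ (((x : K) : AlgebraicClosure ℚ)) ∈ A.nonunits := by
    intro x
    rw [hI, Ideal.mem_comap, ValuationSubring.mem_nonunits_iff_exists_mem_maximalIdeal]
    constructor
    · intro h
      exact ⟨(toValSub798 K A x).2, h⟩
    · rintro ⟨_, h⟩
      exact h
  have hprime : I.IsPrime := Ideal.comap_isPrime _ _
  have hpI : ((p : ℕ) : 𝓞 K) ∈ I := by
    rw [hmem]
    have : (((((p : ℕ) : 𝓞 K) : K)) : AlgebraicClosure ℚ) = ((p : ℕ) : AlgebraicClosure ℚ) := by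
      simp
    rw [this]
    exact hA
  have hne : I ≠ ⊥ := by
    intro h0
    rw [h0, Ideal.mem_bot] at hpI
    have h1 : ((p : ℕ) : 𝓞 K) ≠ 0 := Nat.cast_ne_zero.mpr hp.ne_zero
    exact h1 hpI
  refine ⟨⟨I, hprime, hne⟩, ?_, hpI⟩
  intro x
  exact hmem x

end Fermat.Agent.LT.A2.H798

end

end
-- ===== PACK-END LT/A2/H798/PlaceExists.lean

-- ===== PACK-BEGIN LT/A2/H771/HasseNorm.lean
section



/-!
# Row LT, tower A2, leaf A2.05 `HasseNormC` -- the INTERFACE with tower CFT (helper771)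

OFF-MAIN.  Complete proof, nothing assumed.

    hasseNorm_of_T6 : T6.HasseNormC → A2.HasseNormC

`T6.HasseNormC` (helper22, `LT/T6/Spec.lean`, VERBATIM) is the Hasse norm theorem for a cyclic
extension `M / L` of number fields of prime degree, in local tensor form.
`A2.HasseNormC` (helper950, `LT/A2/Kernel.lean`, VERBATIM) is the same theorem for the quadratic
extension `K[X]/(X² - tX + n)` in torus coordinates.

Route: `M = AdjoinRoot (X² - tX + n)`, basis `1, ω` over `K`; for every commutative `K`-algebra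
`A` the elements `1 ⊗ 1, 1 ⊗ ω` are a basis of `A ⊗_K M` and the norm of `x ⊗ 1 + y ⊗ ω` is
`x² + t x y + n y²` (the determinant of the matrix `torMat t n x y` of the multiplication).
The components of an adelic torus element with determinant `a ∈ K` give the local solutions.
-/

set_option autoImplicit false

open IsDedekindDomain NumberField Polynomial
open scoped TensorProduct

noncomputable section

namespace Fermat.Agent.LT.A2.H771

open Fermat.Agent.LT.H556

/-! ## The norm of `α + β w` for a basis `1, w` with `w² = t w - n` -/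

theorem norm_quadBasis {A S : Type*} [CommRing A] [CommRing S] [Algebra A S]
    (b : Module.Basis (Fin 2) A S) (h0 : b 0 = 1) (t n : A)
    (hw : b 1 * b 1 = t • b 1 - n • (1 : S)) (α β : A) :
    Algebra.norm A (α • (1 : S) + β • b 1) = α ^ 2 + t * α * β + n * β ^ 2 := by
  have e0 : (α • (1 : S) + β • b 1) * b 0 = α • b 0 + β • b 1 := by
    rw [h0, mul_one]
  have e1 : (α • (1 : S) + β • b 1) * b 1 = (-(n * β)) • b 0 + (α + t * β) • b 1 := by
    rw [add_mul, smul_mul_assoc, one_mul, smul_mul_assoc, hw, h0]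
    module
  rw [Algebra.norm_eq_matrix_det b, Matrix.det_fin_two]
  simp only [Algebra.leftMulMatrix_eq_repr_mul, e0, e1, map_add, map_smul,
    Module.Basis.repr_self, Finsupp.coe_add, Finsupp.coe_smul, Pi.add_apply, Pi.smul_apply,
    Finsupp.single_apply, smul_eq_mul]
  simp
  ring

/-! ## The quadratic field `K[X]/(X² - tX + n)` -/

section Quad

variable {K : Type} [Field K] (t n : K)

/-- `X² - tX + n`. -/
def qpoly : K[X] := X ^ 2 - C t * X + C n

theorem qpoly_natDegree : (qpoly t n).natDegree = 2 := by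
  unfold qpoly; compute_degree!

theorem qpoly_monic : (qpoly t n).Monic := by
  unfold qpoly; monicity!

theorem qpoly_irreducible (h : ∀ x : K, x ^ 2 - t * x + n ≠ 0) : Irreducible (qpoly t n) := by
  apply Polynomial.irreducible_of_degree_le_three_of_not_isRoot
  · rw [qpoly_natDegree]; decide
  · intro x hx
    apply h x
    simpa [qpoly, Polynomial.IsRoot] using hx

/-- The basis `1, ω` of `K[X]/(X² - tX + n)`. -/
def qbasis : Module.Basis (Fin 2) K (AdjoinRoot (qpoly t n)) :=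
  (AdjoinRoot.powerBasis' (qpoly_monic t n)).basis.reindex
    (finCongr ((AdjoinRoot.powerBasis'_dim (qpoly_monic t n)).trans (qpoly_natDegree t n)))

theorem qbasis_zero : qbasis t n 0 = 1 := by
  simp [qbasis]

theorem qbasis_one : qbasis t n 1 = AdjoinRoot.root (qpoly t n) := by
  simp [qbasis]

theorem root_mul_root :
    AdjoinRoot.root (qpoly t n) * AdjoinRoot.root (qpoly t n)
      = t • AdjoinRoot.root (qpoly t n) - n • (1 : AdjoinRoot (qpoly t n)) := by
  have h : AdjoinRoot.mk (qpoly t n) (X ^ 2 - C t * X + C n) = 0 :=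
    AdjoinRoot.mk_self (f := qpoly t n)
  simp only [map_add, map_sub, map_mul, map_pow, AdjoinRoot.mk_X, AdjoinRoot.mk_C] at h
  rw [Algebra.smul_def, Algebra.smul_def, mul_one, AdjoinRoot.algebraMap_eq]
  linear_combination h

end Quad

/-! ## The norm on `A ⊗_K K[X]/(X² - tX + n)` -/

section Tensor

variable {K : Type} [Field K] (t n : K) (A : Type) [CommRing A] [Algebra K A]

/-- The norm of `x ⊗ 1 + y ⊗ ω` is `x² + t x y + n y²`. -/
theorem norm_tensor (x y : A) :
    Algebra.norm A (S := A ⊗[K] AdjoinRoot (qpoly t n))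
        (x • (1 : A ⊗[K] AdjoinRoot (qpoly t n))
          + y • ((1 : A) ⊗ₜ[K] AdjoinRoot.root (qpoly t n)))
      = x ^ 2 + algebraMap K A t * x * y + algebraMap K A n * y ^ 2 := by
  have h0 : Algebra.TensorProduct.basis A (qbasis t n) 0 = 1 := by
    rw [Algebra.TensorProduct.basis_apply, qbasis_zero, Algebra.TensorProduct.one_def]
  have h1 : Algebra.TensorProduct.basis A (qbasis t n) 1
      = (1 : A) ⊗ₜ[K] AdjoinRoot.root (qpoly t n) := by
    rw [Algebra.TensorProduct.basis_apply, qbasis_one]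
  have hw : Algebra.TensorProduct.basis A (qbasis t n) 1
        * Algebra.TensorProduct.basis A (qbasis t n) 1
      = algebraMap K A t • Algebra.TensorProduct.basis A (qbasis t n) 1
        - algebraMap K A n • (1 : A ⊗[K] AdjoinRoot (qpoly t n)) := by
    rw [h1, Algebra.TensorProduct.tmul_mul_tmul, root_mul_root, mul_one, TensorProduct.tmul_sub,
      TensorProduct.tmul_smul, TensorProduct.tmul_smul, algebraMap_smul, algebraMap_smul,
      Algebra.TensorProduct.one_def]
  have := norm_quadBasis (Algebra.TensorProduct.basis A (qbasis t n)) h0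
    (algebraMap K A t) (algebraMap K A n) hw x y
  rw [h1] at this
  exact this

end Tensor

/-! ## The components of an adele -/

section Components

variable {K : Type} [Field K] [NumberField K]

/-- The component at the finite place `u`, as a ring homomorphism. -/
def finC (u : HeightOneSpectrum (𝓞 K)) : A0.Adl K →+* u.adicCompletion K :=
  (RestrictedProduct.evalRingHom _ u).comp
    (RingHom.snd (InfiniteAdeleRing K) (FiniteAdeleRing (𝓞 K) K))

/-- The component at the infinite place `u`, as a ring homomorphism. -/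
def infC (u : InfinitePlace K) : A0.Adl K →+* u.Completion :=
  (Pi.evalRingHom (fun v : InfinitePlace K => v.Completion) u).comp
    (RingHom.fst (InfiniteAdeleRing K) (FiniteAdeleRing (𝓞 K) K))

theorem finC_algebraMap (u : HeightOneSpectrum (𝓞 K)) (x : K) :
    finC u (algebraMap K (A0.Adl K) x) = algebraMap K (u.adicCompletion K) x := rfl

theorem infC_algebraMap (u : InfinitePlace K) (x : K) :
    infC u (algebraMap K (A0.Adl K) x) = algebraMap K u.Completion x := rfl

end Components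

/-! ## The adapter -/

/-- **A2.05 (interface with tower CFT).**  The Hasse norm theorem of tower T6/CFT (cyclic of
prime degree, local tensor form) gives the Hasse norm theorem of tower A2 (quadratic, torus
coordinates). -/
theorem hasseNorm_of_T6 (hT6 : Fermat.Agent.LT.T6.HasseNormC) :
    Fermat.Agent.LT.A2.HasseNormC := by
  intro K _ _ t n hirr a m hm hdet
  have : Fact (Irreducible (qpoly t n)) := ⟨qpoly_irreducible t n hirr⟩
  have : Module.Finite K (AdjoinRoot (qpoly t n)) :=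
    Module.Finite.of_basis (qbasis t n)
  have : NumberField (AdjoinRoot (qpoly t n)) := NumberField.of_module_finite K _
  have hrank : Module.finrank K (AdjoinRoot (qpoly t n)) = 2 := by
    rw [Module.finrank_eq_card_basis (qbasis t n)]; simp
  have : Algebra.IsQuadraticExtension K (AdjoinRoot (qpoly t n)) :=
    { toFree := Module.Free.of_basis (qbasis t n), finrank_eq_two' := hrank }
  obtain ⟨α, β, hmat⟩ := hm
  have hdet' : α ^ 2 + algebraMap K (A0.Adl K) t * α * β + algebraMap K (A0.Adl K) n * β ^ 2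
      = algebraMap K (A0.Adl K) a := by
    rw [← hdet, Matrix.GeneralLinearGroup.val_det_apply, hmat, torMat, Matrix.det_fin_two_of]
    ring
  have ha : a ≠ 0 := by
    rintro rfl
    have hu : IsUnit (algebraMap K (A0.Adl K) 0) := by
      rw [← hdet]; exact Units.isUnit _
    rw [map_zero] at hu
    have : Nontrivial (A0.Adl K) :=
      (NumberField.AdeleRing.algebraMap_injective (𝓞 K) K).nontrivial
    exact not_isUnit_zero hu
  obtain ⟨y, hy⟩ := hT6 K (AdjoinRoot (qpoly t n)) inferInstance (by rw [hrank]; exact Nat.prime_two)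
    a ha
    (fun u => ⟨finC u α • (1 : u.adicCompletion K ⊗[K] AdjoinRoot (qpoly t n))
        + finC u β • ((1 : u.adicCompletion K) ⊗ₜ[K] AdjoinRoot.root (qpoly t n)), by
      rw [norm_tensor, ← finC_algebraMap u a, ← hdet']
      simp only [map_add, map_mul, map_pow, finC_algebraMap]⟩)
    (fun u => ⟨infC u α • (1 : u.Completion ⊗[K] AdjoinRoot (qpoly t n))
        + infC u β • ((1 : u.Completion) ⊗ₜ[K] AdjoinRoot.root (qpoly t n)), by
      rw [norm_tensor, ← infC_algebraMap u a, ← hdet']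
      simp only [map_add, map_mul, map_pow, infC_algebraMap]⟩)
  -- the rational torus element
  set α₀ : K := (qbasis t n).repr y 0 with hα₀
  set β₀ : K := (qbasis t n).repr y 1 with hβ₀
  have hy' : y = α₀ • (1 : AdjoinRoot (qpoly t n)) + β₀ • qbasis t n 1 := by
    conv_lhs => rw [← (qbasis t n).sum_repr y]
    rw [Fin.sum_univ_two, qbasis_zero]
  have hw : qbasis t n 1 * qbasis t n 1
      = t • qbasis t n 1 - n • (1 : AdjoinRoot (qpoly t n)) := by
    rw [qbasis_one]; exact root_mul_root t n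
  have hnorm : α₀ ^ 2 + t * α₀ * β₀ + n * β₀ ^ 2 = a := by
    rw [← hy, hy', norm_quadBasis (qbasis t n) (qbasis_zero t n) t n hw]
  have hdet0 : (torMat t n α₀ β₀).det ≠ 0 := by
    rw [torMat, Matrix.det_fin_two_of]
    intro h
    apply ha
    rw [← hnorm]
    linear_combination h
  refine ⟨Matrix.GeneralLinearGroup.map (algebraMap K (A0.Adl K))
    (Matrix.GeneralLinearGroup.mkOfDetNeZero (torMat t n α₀ β₀) hdet0), ⟨α₀, β₀, ?_⟩, ?_⟩
  · ext i j
    fin_cases i <;> fin_cases j <;> simp [torMat, Matrix.GeneralLinearGroup.mkOfDetNeZero]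
  · rw [Matrix.GeneralLinearGroup.val_det_apply]
    have : ((Matrix.GeneralLinearGroup.map (algebraMap K (A0.Adl K))
        (Matrix.GeneralLinearGroup.mkOfDetNeZero (torMat t n α₀ β₀) hdet0) : A0.G K) :
          Matrix (Fin 2) (Fin 2) (A0.Adl K))
        = (torMat t n α₀ β₀).map (algebraMap K (A0.Adl K)) := rfl
    rw [this, ← RingHom.mapMatrix_apply, ← RingHom.map_det, torMat, Matrix.det_fin_two_of,
      ← hnorm]
    congr 1
    ring

end Fermat.Agent.LT.A2.H771

end

end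
-- ===== PACK-END LT/A2/H771/HasseNorm.lean

-- ===== PACK-BEGIN LT/A2/H63/AdeleQuotClosed.lean
section





/-!
# Row LT, leaf A2.11 `AdeleQuotC` (helper63): CLOSED (unconditional)

OFF-MAIN.  `A2.AdeleQuotC` with no hypotheses, by plugging into `adeleQuotC_of_T1` the closed
T1 leaves (byte-identical copies from origin/helper54@3027c3c1f):

* `T1.H11.locCompC_h11`       (helper11, T1.01),
* `H767.adeleLatticeC767`     (helper767, T1.02 + T1.03),
* `T1.H848.leafAddFundDom848` (helper848, T1.04).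
-/

set_option autoImplicit false

namespace Fermat.Agent.LT.A2.H63

open Fermat.Agent.LT

/-- `T1.AddFundDomC K`, unconditionally (closed T1 leaves T1.01 - T1.04). -/
theorem addFundDomC_closed63 (K : Type) [Field K] [NumberField K] : T1.AddFundDomC K :=
  T1.H848.leafAddFundDom848 K (T1.H11.locCompC_h11 K) (H767.adeleLatticeC767 K)

/-- **Leaf A2.11 closed.**  `K` is a lattice of finite covolume in `𝔸_K`. -/
theorem adeleQuotC_closed63 : A2.AdeleQuotC :=
  adeleQuotC_of_T1 (fun K _ _ => T1.H11.locCompC_h11 K) (fun K _ _ => addFundDomC_closed63 K)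

end Fermat.Agent.LT.A2.H63

end
-- ===== PACK-END LT/A2/H63/AdeleQuotClosed.lean

-- ===== PACK-BEGIN LT/T3/H497/SplitOpen.lean
section




/-!
# Row LT, tower T3, sub-leaf T3.18a.4.5.S1 `SplitOpenC129` (helper497) -- OFF-MAIN

`splitOpenC497 K : H129.SplitOpenC129 K` (VERBATIM the Prop of `LT/H129/SplitSpec.lean`):
`E₀ = outGrp K 𝔫 v₀ = {X : X_v ∈ 𝔫 𝒪_v for all finite v ≠ v₀}` is open in `𝔸_K` (`𝔫 ≠ 0`).

Proof.  Choose `0 ≠ a ∈ 𝔫`.  `Ω = {X : X_v ∈ 𝒪_v for all finite v}` is open in `𝔸_K`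
(`RestrictedProduct.isOpen_forall_mem`), hence so is `X + a Ω = {Y : a⁻¹ (Y - X) ∈ Ω}`
(multiplication by the principal adele `a⁻¹` is continuous).  For `X ∈ E₀` the set `X + a Ω` lies
in `E₀`: `𝔫 𝒪_v` is closed under addition and contains `a 𝒪_v` (`𝓞 K` is dense in `𝒪_v`:
`H129.exists_int_mem_nhds129`, helper129).  No case distinction `v ∣ 𝔫` / `v ∤ 𝔫`, no finiteness.
-/

set_option autoImplicit false

open IsDedekindDomain NumberField IsDedekindDomain.HeightOneSpectrum
open Fermat.Agent.LT.H556.A0 Fermat.Agent.LT.T3.AS Fermat.Agent.LT.T3.AS.N893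
open Fermat.Agent.LT.H129

noncomputable section

namespace Fermat.Agent.LT.T3.H497

variable {K : Type} [Field K] [NumberField K]

/-- `𝔫 𝒪_v` is closed under addition. -/
theorem add_mem_idealClosure497 (𝔫 : Ideal (𝓞 K)) (v : HeightOneSpectrum (𝓞 K))
    {x y : v.adicCompletion K} (hx : x ∈ idealClosure 𝔫 v) (hy : y ∈ idealClosure 𝔫 v) :
    x + y ∈ idealClosure 𝔫 v := by
  unfold idealClosure at *
  refine map_mem_closure₂ (f := fun a b : v.adicCompletion K => a + b) continuous_add hx hy ?_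
  rintro _ ⟨a, ha, rfl⟩ _ ⟨b, hb, rfl⟩
  exact ⟨a + b, 𝔫.add_mem ha hb, by simp only [map_add]⟩

/-- `a 𝒪_v ⊂ 𝔫 𝒪_v` for `a ∈ 𝔫`. -/
theorem mul_int_mem_idealClosure497 {𝔫 : Ideal (𝓞 K)} (v : HeightOneSpectrum (𝓞 K)) {a : 𝓞 K}
    (ha : a ∈ 𝔫) {y : v.adicCompletion K} (hy : Valued.v y ≤ 1) :
    algebraMap K (v.adicCompletion K) (algebraMap (𝓞 K) K a) * y ∈ idealClosure 𝔫 v := by
  unfold idealClosure
  rw [mem_closure_iff_nhds]
  intro t ht
  have hcont : Filter.Tendsto
      (fun z : v.adicCompletion K => algebraMap K (v.adicCompletion K) (algebraMap (𝓞 K) K a) * z)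
      (nhds y) (nhds (algebraMap K (v.adicCompletion K) (algebraMap (𝓞 K) K a) * y)) :=
    (continuous_const.mul continuous_id).tendsto y
  obtain ⟨b, hb⟩ := exists_int_mem_nhds129 v hy (hcont ht)
  refine ⟨algebraMap K (v.adicCompletion K) (algebraMap (𝓞 K) K a)
      * algebraMap K (v.adicCompletion K) (algebraMap (𝓞 K) K b), hb, a * b,
    𝔫.mul_mem_right b ha, ?_⟩
  simp only [map_mul]

/-- The adeles which are integral at every finite place form an open set. -/
theorem isOpen_intAdl497 :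
    IsOpen {X : Adl K | ∀ v : HeightOneSpectrum (𝓞 K), Valued.v (finHom K v X) ≤ 1} := by
  have h1 : IsOpen {f : FiniteAdeleRing (𝓞 K) K |
      ∀ v : HeightOneSpectrum (𝓞 K), f.1 v ∈ (v.adicCompletionIntegers K : Set _)} :=
    RestrictedProduct.isOpen_forall_mem
      (fun v => Valued.isOpen_valuationSubring (v.adicCompletion K))
  exact h1.preimage continuous_snd

/-- **T3.18a.4.5.S1 `SplitOpenC129`**, unconditional. -/
theorem splitOpenC497 (K : Type) [Field K] [NumberField K] : SplitOpenC129 K := by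
  intro 𝔫 h𝔫 v₀
  obtain ⟨a, ha, ha0⟩ : ∃ a ∈ 𝔫, a ≠ 0 := Submodule.exists_mem_ne_zero_of_ne_bot h𝔫
  have hα : algebraMap (𝓞 K) K a ≠ 0 := by
    intro h
    exact ha0 ((FaithfulSMul.algebraMap_injective (𝓞 K) K) (by rw [h, map_zero]))
  set α : K := algebraMap (𝓞 K) K a with hαdef
  rw [isOpen_iff_mem_nhds]
  intro X hX
  have hcont : Continuous (fun Y : Adl K => algebraMap K (Adl K) α⁻¹ * (Y - X)) :=
    continuous_const.mul (continuous_id.sub continuous_const)
  have hU : {Y : Adl K | ∀ v : HeightOneSpectrum (𝓞 K),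
      Valued.v (finHom K v (algebraMap K (Adl K) α⁻¹ * (Y - X))) ≤ 1} ∈ nhds X := by
    refine (isOpen_intAdl497.preimage hcont).mem_nhds ?_
    intro v
    show Valued.v (finHom K v (algebraMap K (Adl K) α⁻¹ * (X - X))) ≤ 1
    rw [sub_self, mul_zero, map_zero, map_zero]
    exact zero_le_one
  refine Filter.mem_of_superset hU ?_
  intro Y hY v hv
  have hYv := hY v
  have e0 : algebraMap K (Adl K) α * (algebraMap K (Adl K) α⁻¹ * (Y - X)) = Y - X := by
    rw [← mul_assoc, ← map_mul, mul_inv_cancel₀ hα, map_one, one_mul]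
  have e1 : finHom K v (algebraMap K (Adl K) α) = algebraMap K (v.adicCompletion K) α := rfl
  have e : finHom K v Y = finHom K v X
      + algebraMap K (v.adicCompletion K) α
        * finHom K v (algebraMap K (Adl K) α⁻¹ * (Y - X)) := by
    rw [← e1, ← map_mul, e0, map_sub]
    ring
  show finHom K v Y ∈ idealClosure 𝔫 v
  rw [e]
  exact add_mem_idealClosure497 𝔫 v (hX v hv) (mul_int_mem_idealClosure497 v ha hYv)

end Fermat.Agent.LT.T3.H497

end

end
-- ===== PACK-END LT/T3/H497/SplitOpen.lean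

-- ===== PACK-BEGIN LT/T3/H322/SplitSection.lean
section


/-!
# Row LT, tower T3, sub-leaf T3.18a.4.5.S2 `H129.SplitSectionC129` (helper322), VERBATIM

OFF-MAIN.  `splitSectionC322 K : H129.SplitSectionC129 K` against `LT/H129/SplitSpec.lean`
(helper129@d13fee826, sha256 3547169e).  Mathlib + the Spec closure only.

`X = ((w ↦ (extensionEmbedding w)⁻¹ (z w)), single_{v₀} x₀)`: the embedding of the completion at
a complex place is onto `ℂ`; the components at `v ≠ v₀` are `0 ∈ idealClosure 𝔫 v`.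
-/

set_option autoImplicit false

open IsDedekindDomain NumberField MeasureTheory
open Fermat.Agent.LT.H556.A0 Fermat.Agent.LT.T3.AS Fermat.Agent.LT.T3.AS.N893

noncomputable section

namespace Fermat.Agent.LT.T3.H322

variable (K : Type) [Field K] [NumberField K]

open scoped Classical

/-- The finite adele with component `x` at `v₀` and `0` elsewhere. -/
def finSingle322 (v₀ : HeightOneSpectrum (𝓞 K)) (x : v₀.adicCompletion K) :
    FiniteAdeleRing (𝓞 K) K :=
  RestrictedProduct.single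
    (fun v : HeightOneSpectrum (𝓞 K) => v.adicCompletionIntegers K) v₀ x

theorem finSingle322_same (v₀ : HeightOneSpectrum (𝓞 K)) (x : v₀.adicCompletion K) :
    finSingle322 K v₀ x v₀ = x :=
  RestrictedProduct.single_eq_same
    (fun v : HeightOneSpectrum (𝓞 K) => v.adicCompletionIntegers K) v₀ x

theorem finSingle322_of_ne (v₀ : HeightOneSpectrum (𝓞 K)) (x : v₀.adicCompletion K)
    {v : HeightOneSpectrum (𝓞 K)} (h : v ≠ v₀) : finSingle322 K v₀ x v = 0 :=
  RestrictedProduct.single_eq_of_ne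
    (fun v : HeightOneSpectrum (𝓞 K) => v.adicCompletionIntegers K) x h

theorem zero_mem_idealClosure322 (𝔫 : Ideal (𝓞 K)) (v : HeightOneSpectrum (𝓞 K)) :
    (0 : v.adicCompletion K) ∈ idealClosure 𝔫 v := by
  apply subset_closure
  exact ⟨0, 𝔫.zero_mem, by simp⟩

/-- **S2** (`H129.SplitSectionC129`, verbatim). -/
theorem splitSectionC322 : H129.SplitSectionC129 K := by
  intro hcpx 𝔫 v₀ x₀ z
  choose y hy using fun w : InfinitePlace K =>
    InfinitePlace.Completion.surjective_extensionEmbedding_of_isComplex (hcpx w) (z w)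
  refine ⟨((y : InfiniteAdeleRing K), finSingle322 K v₀ x₀), ?_, ?_, ?_⟩
  · intro v hv
    have h1 : finHom K v (((y : InfiniteAdeleRing K), finSingle322 K v₀ x₀) : Adl K)
        = finSingle322 K v₀ x₀ v := rfl
    rw [h1, finSingle322_of_ne K v₀ x₀ hv]
    exact zero_mem_idealClosure322 K 𝔫 v
  · have h1 : finHom K v₀ (((y : InfiniteAdeleRing K), finSingle322 K v₀ x₀) : Adl K)
        = finSingle322 K v₀ x₀ v₀ := rfl
    rw [h1, finSingle322_same]
  · intro w
    have h1 : infHom K w (((y : InfiniteAdeleRing K), finSingle322 K v₀ x₀) : Adl K)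
        = InfinitePlace.Completion.extensionEmbedding w (y w) := rfl
    rw [h1, hy w]

example : H129.SplitSectionC129 K := splitSectionC322 K

end Fermat.Agent.LT.T3.H322

end

end
-- ===== PACK-END LT/T3/H322/SplitSection.lean

-- ===== PACK-BEGIN LT/T3/H904/SplitHaar.lean
section





/-!
# Row LT, tower T3, sub-leaf T3.18a.4.5.S4 `SplitHaarC129` (helper904, registry row 1503)

OFF-MAIN.  Cut: `LT/H129/SplitSpec.lean` of helper129 (byte-identical copy, sha256 3547169e,
with its imports `LT/T3/H893/NIntSpec.lean` 1ddb5c45, `LT/T3/H736/ASSpec.lean` a661c778, ...).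
Assets: `LT/H11/LC.lean`, `LT/H11/SC.lean` of helper11 (byte-identical copies, Mathlib only).

`splitHaar_of904 K : SplitOpenC129 K → SplitSectionC129 K → SplitBoxC129 K → SplitHaarC129 K`
VERBATIM: the image `μ = p_* (ν|_{E₀})` of the restriction of a Haar measure `ν` of `𝔸_K` to the
open subgroup `E₀ = outGrp K 𝔫 v₀` under the projection `p = splitProj129 K v₀` is a Haar measure
of `K_{v₀} × (S_∞ → ℂ)`:

* `μ` is invariant: `h = p X_h` with `X_h ∈ E₀` (S2), `p (X_h + X) = h + p X`, `X_h + E₀ = E₀`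
  (`E₀` is an additive subgroup: `idealClosure` is the closure of an additive subgroup) and `ν` is
  invariant;
* `μ` is finite on the compact neighbourhood `𝒪_{v₀} × closedBall 0 1` of `0` (S3) and non-zero
  on it (S1: `E₀ ∩ p⁻¹ (𝒪_{v₀} × ball 0 1)` is open and contains `0`);
* `Measure.isAddHaarMeasure_of_isCompact_nonempty_interior`.
-/

set_option autoImplicit false
set_option linter.style.haveILetI false

open IsDedekindDomain NumberField MeasureTheory
open Fermat.Agent.LT.H556.A0 Fermat.Agent.LT.T3.AS Fermat.Agent.LT.T3.AS.N893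
open Fermat.Agent.LT.H129

noncomputable section

namespace Fermat.Agent.LT.T3.H904

variable (K : Type) [Field K] [NumberField K]

/-! ## 1. The projection -/

theorem continuous_finHom904 (v : HeightOneSpectrum (𝓞 K)) : Continuous (finHom K v) :=
  (RestrictedProduct.continuous_eval v).comp continuous_snd

theorem continuous_infHom904 (w : InfinitePlace K) : Continuous (infHom K w) :=
  (InfinitePlace.Completion.isometry_extensionEmbedding w).continuous.comp
    ((continuous_apply w).comp continuous_fst)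

theorem continuous_splitProj904 (v₀ : HeightOneSpectrum (𝓞 K)) :
    Continuous (splitProj129 K v₀) :=
  (continuous_finHom904 K v₀).prodMk (continuous_pi fun w => continuous_infHom904 K w)

theorem splitProj_add904 (v₀ : HeightOneSpectrum (𝓞 K)) (X Y : Adl K) :
    splitProj129 K v₀ (X + Y) = splitProj129 K v₀ X + splitProj129 K v₀ Y :=
  Prod.ext (map_add (finHom K v₀) X Y) (funext fun w => map_add (infHom K w) X Y)

theorem splitProj_zero904 (v₀ : HeightOneSpectrum (𝓞 K)) :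
    splitProj129 K v₀ 0 = 0 :=
  Prod.ext (map_zero (finHom K v₀)) (funext fun w => map_zero (infHom K w))

/-! ## 2. `E₀` is an additive subgroup -/

/-- The closure of the ideal at `v` as the closure of an additive subgroup. -/
def idealAddSubgroup904 (𝔫 : Ideal (𝓞 K)) (v : HeightOneSpectrum (𝓞 K)) :
    AddSubgroup (v.adicCompletion K) :=
  (𝔫.toAddSubgroup.map
    (((algebraMap K (v.adicCompletion K)).comp (algebraMap (𝓞 K) K)).toAddMonoidHom)).topologicalClosure

theorem idealClosure_eq904 (𝔫 : Ideal (𝓞 K)) (v : HeightOneSpectrum (𝓞 K)) :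
    idealClosure 𝔫 v = (idealAddSubgroup904 K 𝔫 v : Set (v.adicCompletion K)) := by
  rw [idealAddSubgroup904, AddSubgroup.topologicalClosure_coe]
  rfl

theorem zero_mem_outGrp904 (𝔫 : Ideal (𝓞 K)) (v₀ : HeightOneSpectrum (𝓞 K)) :
    (0 : Adl K) ∈ outGrp K 𝔫 v₀ := by
  intro v _
  rw [map_zero, idealClosure_eq904]
  exact zero_mem _

theorem add_mem_outGrp904 (𝔫 : Ideal (𝓞 K)) (v₀ : HeightOneSpectrum (𝓞 K)) {X Y : Adl K}
    (hX : X ∈ outGrp K 𝔫 v₀) (hY : Y ∈ outGrp K 𝔫 v₀) : X + Y ∈ outGrp K 𝔫 v₀ := by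
  intro v hv
  have h1 := hX v hv
  have h2 := hY v hv
  rw [idealClosure_eq904] at h1 h2 ⊢
  rw [map_add]
  exact add_mem h1 h2

theorem neg_mem_outGrp904 (𝔫 : Ideal (𝓞 K)) (v₀ : HeightOneSpectrum (𝓞 K)) {X : Adl K}
    (hX : X ∈ outGrp K 𝔫 v₀) : -X ∈ outGrp K 𝔫 v₀ := by
  intro v hv
  have h1 := hX v hv
  rw [idealClosure_eq904] at h1 ⊢
  rw [map_neg]
  exact neg_mem h1

theorem preimage_add_outGrp904 (𝔫 : Ideal (𝓞 K)) (v₀ : HeightOneSpectrum (𝓞 K)) {X₀ : Adl K}
    (hX₀ : X₀ ∈ outGrp K 𝔫 v₀) : (fun X : Adl K => X₀ + X) ⁻¹' outGrp K 𝔫 v₀ = outGrp K 𝔫 v₀ := by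
  ext X
  constructor
  · intro h
    have h' : X₀ + X ∈ outGrp K 𝔫 v₀ := h
    have := add_mem_outGrp904 K 𝔫 v₀ (neg_mem_outGrp904 K 𝔫 v₀ hX₀) h'
    rwa [neg_add_cancel_left] at this
  · intro h
    exact add_mem_outGrp904 K 𝔫 v₀ hX₀ h

/-! ## 3. The leaf -/

/-- **T3.18a.4.5.S4** `SplitHaarC129` from S1, S2, S3, VERBATIM. -/
theorem splitHaar_of904 (h1 : SplitOpenC129 K) (h2 : SplitSectionC129 K)
    (h3 : SplitBoxC129 K) : SplitHaarC129 K := by
  intro hcpx
  letI : MeasurableSpace (Adl K) := borel (Adl K)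
  haveI : BorelSpace (Adl K) := ⟨rfl⟩
  intro ν hν 𝔫 h𝔫 v₀
  letI : MeasurableSpace (v₀.adicCompletion K) := borel (v₀.adicCompletion K)
  haveI : BorelSpace (v₀.adicCompletion K) := ⟨rfl⟩
  haveI : SecondCountableTopology (v₀.adicCompletion K) :=
    Fermat.Agent.LT.H11.SC.secondCountableTopology_adicCompletion_h11 K v₀
  have hE₀open : IsOpen (outGrp K 𝔫 v₀) := h1 𝔫 h𝔫 v₀
  have hE₀meas : MeasurableSet (outGrp K 𝔫 v₀) := hE₀open.measurableSet
  have hpc : Continuous (splitProj129 K v₀) := continuous_splitProj904 K v₀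
  have hpm : Measurable (splitProj129 K v₀) := hpc.measurable
  -- invariance
  haveI hinv : (Measure.map (splitProj129 K v₀) (ν.restrict (outGrp K 𝔫 v₀))).IsAddLeftInvariant := by
    refine ⟨fun h => ?_⟩
    obtain ⟨Xh, hXh, hp1, hp2⟩ := h2 hcpx 𝔫 v₀ h.1 h.2
    have hpX : splitProj129 K v₀ Xh = h := Prod.ext hp1 (funext hp2)
    rw [Measure.map_map (measurable_const_add h) hpm]
    have hcomp : (fun x => h + x) ∘ splitProj129 K v₀
        = splitProj129 K v₀ ∘ (fun X : Adl K => Xh + X) := by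
      funext X
      show h + splitProj129 K v₀ X = splitProj129 K v₀ (Xh + X)
      rw [splitProj_add904, hpX]
    rw [hcomp, ← Measure.map_map hpm (measurable_const_add Xh)]
    congr 1
    have hpre := preimage_add_outGrp904 K 𝔫 v₀ hXh
    calc Measure.map (fun X : Adl K => Xh + X) (ν.restrict (outGrp K 𝔫 v₀))
        = Measure.map (fun X : Adl K => Xh + X)
            (ν.restrict ((fun X : Adl K => Xh + X) ⁻¹' outGrp K 𝔫 v₀)) := by rw [hpre]
      _ = (Measure.map (fun X : Adl K => Xh + X) ν).restrict (outGrp K 𝔫 v₀) :=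
          (Measure.restrict_map (measurable_const_add Xh) hE₀meas).symm
      _ = ν.restrict (outGrp K 𝔫 v₀) := by rw [map_add_left_eq_self]
  -- the compact neighbourhood of `0`
  have hOc : IsCompact (v₀.adicCompletionIntegers K : Set (v₀.adicCompletion K)) :=
    Fermat.Agent.LT.H11.LC.isCompact_integers_h11 K v₀
  have hOo : IsOpen (v₀.adicCompletionIntegers K : Set (v₀.adicCompletion K)) :=
    Valued.isOpen_valuationSubring (v₀.adicCompletion K)
  have hK0c : IsCompact ((v₀.adicCompletionIntegers K : Set (v₀.adicCompletion K)) ×ˢ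
      Metric.closedBall (0 : InfinitePlace K → ℂ) 1) := hOc.prod (isCompact_closedBall 0 1)
  have hUo : IsOpen ((v₀.adicCompletionIntegers K : Set (v₀.adicCompletion K)) ×ˢ
      Metric.ball (0 : InfinitePlace K → ℂ) 1) := hOo.prod Metric.isOpen_ball
  have hUsub : ((v₀.adicCompletionIntegers K : Set (v₀.adicCompletion K)) ×ˢ
      Metric.ball (0 : InfinitePlace K → ℂ) 1) ⊆
      ((v₀.adicCompletionIntegers K : Set (v₀.adicCompletion K)) ×ˢ
      Metric.closedBall (0 : InfinitePlace K → ℂ) 1) :=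
    Set.prod_mono le_rfl Metric.ball_subset_closedBall
  have h0U : (0 : v₀.adicCompletion K × (InfinitePlace K → ℂ)) ∈
      ((v₀.adicCompletionIntegers K : Set (v₀.adicCompletion K)) ×ˢ
      Metric.ball (0 : InfinitePlace K → ℂ) 1) :=
    ⟨zero_mem _, Metric.mem_ball_self one_pos⟩
  have hK0i : (interior ((v₀.adicCompletionIntegers K : Set (v₀.adicCompletion K)) ×ˢ
      Metric.closedBall (0 : InfinitePlace K → ℂ) 1)).Nonempty :=
    ⟨0, interior_maximal hUsub hUo h0U⟩
  -- positivity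
  have hpos : Measure.map (splitProj129 K v₀) (ν.restrict (outGrp K 𝔫 v₀))
      ((v₀.adicCompletionIntegers K : Set (v₀.adicCompletion K)) ×ˢ
        Metric.closedBall (0 : InfinitePlace K → ℂ) 1) ≠ 0 := by
    have hle := measure_mono (μ := Measure.map (splitProj129 K v₀) (ν.restrict (outGrp K 𝔫 v₀)))
      hUsub
    have hU : Measure.map (splitProj129 K v₀) (ν.restrict (outGrp K 𝔫 v₀))
        ((v₀.adicCompletionIntegers K : Set (v₀.adicCompletion K)) ×ˢ
          Metric.ball (0 : InfinitePlace K → ℂ) 1) ≠ 0 := by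
      rw [Measure.map_apply hpm hUo.measurableSet,
        Measure.restrict_apply (hpm hUo.measurableSet)]
      have hopen : IsOpen (splitProj129 K v₀ ⁻¹'
          ((v₀.adicCompletionIntegers K : Set (v₀.adicCompletion K)) ×ˢ
          Metric.ball (0 : InfinitePlace K → ℂ) 1) ∩ outGrp K 𝔫 v₀) :=
        (hUo.preimage hpc).inter hE₀open
      have hne : (splitProj129 K v₀ ⁻¹'
          ((v₀.adicCompletionIntegers K : Set (v₀.adicCompletion K)) ×ˢ
          Metric.ball (0 : InfinitePlace K → ℂ) 1) ∩ outGrp K 𝔫 v₀).Nonempty := by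
        refine ⟨0, ?_, zero_mem_outGrp904 K 𝔫 v₀⟩
        show splitProj129 K v₀ 0 ∈
          ((v₀.adicCompletionIntegers K : Set (v₀.adicCompletion K)) ×ˢ
            Metric.ball (0 : InfinitePlace K → ℂ) 1)
        rw [splitProj_zero904]
        exact h0U
      exact (hopen.measure_pos ν hne).ne'
    intro h0
    rw [h0] at hle
    exact hU (le_antisymm hle bot_le)
  -- finiteness
  have hfin : Measure.map (splitProj129 K v₀) (ν.restrict (outGrp K 𝔫 v₀))
      ((v₀.adicCompletionIntegers K : Set (v₀.adicCompletion K)) ×ˢ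
        Metric.closedBall (0 : InfinitePlace K → ℂ) 1) ≠ ⊤ := by
    obtain ⟨D, hD, hsub⟩ := h3 𝔫 v₀
    have hK0m : MeasurableSet ((v₀.adicCompletionIntegers K : Set (v₀.adicCompletion K)) ×ˢ
        Metric.closedBall (0 : InfinitePlace K → ℂ) 1) := hK0c.isClosed.measurableSet
    rw [Measure.map_apply hpm hK0m, Measure.restrict_apply (hpm hK0m)]
    refine ((measure_mono ?_).trans_lt hD.measure_lt_top).ne
    rintro X ⟨hX1, hX2⟩
    have hX1' : splitProj129 K v₀ X ∈
        ((v₀.adicCompletionIntegers K : Set (v₀.adicCompletion K)) ×ˢ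
        Metric.closedBall (0 : InfinitePlace K → ℂ) 1) := hX1
    refine hsub X hX2 ?_ ?_
    · exact hX1'.1
    · intro w
      have hb : (fun w => infHom K w X) ∈ Metric.closedBall (0 : InfinitePlace K → ℂ) 1 :=
        hX1'.2
      rw [mem_closedBall_zero_iff] at hb
      exact (norm_le_pi_norm (fun w => infHom K w X) w).trans hb
  exact Measure.isAddHaarMeasure_of_isCompact_nonempty_interior _ _ hK0c hK0i hpos hfin

end Fermat.Agent.LT.T3.H904

end

end
-- ===== PACK-END LT/T3/H904/SplitHaar.lean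

-- ===== PACK-BEGIN LT/T1/H54/SVFine.lean
section




/-!
# Row LT, tower T1, leaf T1.17 (helper54): the fine form of the Siegel set in the slab

OFF-MAIN.  Every `g` in the slab of height `≥ c` is `B(K)`-equivalent to an element of
`siegelSet54 (eJ54 K) Zc Yc D` for compact sets `Zc, Yc ⊂ 𝔸ˣ`, `D ⊂ 𝔸` depending only on `c`.
All real parameters are handled in the logarithmic scale (`rayE54 τ` = ray of `exp τ`).
-/

set_option autoImplicit false

open IsDedekindDomain NumberField MeasureTheory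
open scoped MatrixGroups ENNReal

noncomputable section

namespace Fermat.Agent.LT.T1.H54

open Fermat.Agent.LT.H556.A0 Fermat.Agent.LT.T1 Fermat.Agent.LT.T1.H793 Fermat.Agent.LT.T1.H919

variable {K : Type} [Field K] [NumberField K]

/-! ## The ray in the logarithmic scale -/

/-- `exp τ` as a unit of `ℝ`. -/
def expU54 (τ : ℝ) : ℝˣ := Units.mk0 (Real.exp τ) (Real.exp_ne_zero τ)

lemma expU54_add (τ τ' : ℝ) : expU54 (τ + τ') = expU54 τ * expU54 τ' := by
  apply Units.ext
  simp [expU54, Real.exp_add]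

/-- The ray idele of `exp τ`. -/
def rayE54 (K : Type) [Field K] [NumberField K] (τ : ℝ) : (Adl K)ˣ :=
  Units.map (rayAdl919 K) (expU54 τ)

lemma rayE54_add (τ τ' : ℝ) : rayE54 K (τ + τ') = rayE54 K τ * rayE54 K τ' := by
  unfold rayE54
  rw [expU54_add, map_mul]

lemma rayE54_val (τ : ℝ) : ((rayE54 K τ : (Adl K)ˣ) : Adl K) = rayAdl919 K (Real.exp τ) := rfl

lemma rayE54_zero : rayE54 K 0 = 1 := by
  apply Units.ext
  rw [rayE54_val, Real.exp_zero, map_one, Units.val_one]

lemma rayE54_neg (τ : ℝ) : rayE54 K (-τ) = (rayE54 K τ)⁻¹ := by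
  rw [eq_inv_iff_mul_eq_one, ← rayE54_add, neg_add_cancel, rayE54_zero]

lemma continuous_rayE54 : Continuous (rayE54 K) := by
  rw [Units.continuous_iff]
  constructor
  · exact continuous_rayAdl919.comp Real.continuous_exp
  · have : (fun τ : ℝ => (((rayE54 K τ)⁻¹ : (Adl K)ˣ) : Adl K))
        = fun τ : ℝ => rayAdl919 K (Real.exp (-τ)) := by
      funext τ
      rw [← rayE54_neg, rayE54_val]
    rw [this]
    exact continuous_rayAdl919.comp (Real.continuous_exp.comp continuous_neg)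

lemma adNorm_rayE54 (τ : ℝ) :
    adNorm K ((rayE54 K τ : (Adl K)ˣ) : Adl K) = Real.exp (Module.finrank ℚ K * τ) := by
  rw [rayE54_val, adNorm_rayAdl919, abs_of_pos (Real.exp_pos τ), ← Real.exp_nat_mul]

/-- The balanced ray element `e_j = diag(2^j, 2^{-j})`. -/
def eJ54 (K : Type) [Field K] [NumberField K] (j : ℕ) : G K :=
  scalarG919 (rayE54 K (-((j : ℝ) * Real.log 2))) * up919 (rayE54 K ((j : ℝ) * Real.log 4)) 0

lemma scalarG54_mul (a b : (Adl K)ˣ) :
    (scalarG919 a : G K) * scalarG919 b = scalarG919 (a * b) := by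
  unfold scalarG919
  rw [map_mul]

lemma log_four54 : Real.log 4 = 2 * Real.log 2 := by
  have : (4 : ℝ) = 2 ^ 2 := by norm_num
  rw [this, Real.log_pow]
  norm_num

lemma rayAdl_four_pow54 (j : ℕ) :
    ((rayE54 K ((j : ℝ) * Real.log 4) : (Adl K)ˣ) : Adl K) * rayAdl919 K (((4 : ℝ) ^ j)⁻¹) = 1 := by
  rw [rayE54_val, ← map_mul]
  have : Real.exp ((j : ℝ) * Real.log 4) = (4 : ℝ) ^ j := by
    rw [Real.exp_nat_mul, Real.exp_log (by norm_num)]
  rw [this, mul_inv_cancel₀ (by positivity), map_one]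

/-- Product of three elements `scalar · up`. -/
lemma scalar_up_triple54 {R : Type*} [CommRing R] (s₁ s₂ s₃ y₁ y₂ y₃ : Rˣ) (A u : R) :
    scalarG919 s₁ * up919 y₁ A * (scalarG919 s₂ * up919 y₂ 0) * (scalarG919 s₃ * up919 y₃ u)
      = scalarG919 (s₁ * (s₂ * s₃)) *
          up919 (y₁ * (y₂ * y₃)) ((y₁ : R) * ((y₂ : R) * u + 0) + A) := by
  have sw : ∀ (y : Rˣ) (a : R) (s : Rˣ) (g : GL (Fin 2) R),
      up919 y a * (scalarG919 s * g) = scalarG919 s * (up919 y a * g) := by
    intro y a s g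
    rw [← mul_assoc, ← scalarG919_comm, mul_assoc]
  have sm : ∀ a b : Rˣ, (scalarG919 a : GL (Fin 2) R) * scalarG919 b = scalarG919 (a * b) := by
    intro a b
    unfold scalarG919
    rw [map_mul]
  simp only [mul_assoc, sw]
  rw [up919_mul, up919_mul, ← mul_assoc (scalarG919 s₂), sm, ← mul_assoc (scalarG919 s₁), sm]

/-- The algebraic identity behind the fine form. -/
lemma fine_identity54 (a1 a2 c₁ c₂ : (Adl K)ˣ) (ξ ξ₂ : Kˣ) (x' d : Adl K) (η : K)
    (τs τρ : ℝ) (j : ℕ)
    (h1 : ratUnit K ξ * rayE54 K τs * c₁ = a1 * a2⁻¹)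
    (h2 : ratUnit K ξ₂ * rayE54 K τρ * c₂ = a2)
    (h3 : algebraMap K (Adl K) (ξ : K) * d + algebraMap K (Adl K) ((ξ : K) * η) = x') :
    ratG K (scalarG919 ξ₂ * up919 ξ ((ξ : K) * η)) * eJ54 K j *
        (scalarG919 (rayE54 K (τρ + (j : ℝ) * Real.log 2) * c₂) *
          up919 (rayE54 K (τs - (j : ℝ) * Real.log 4) * c₁)
            (d * rayAdl919 K (((4 : ℝ) ^ j)⁻¹)))
      = scalarG919 a2 * up919 (a1 * a2⁻¹) x' := by
  have e0 : ratG K (scalarG919 ξ₂ * up919 ξ ((ξ : K) * η))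
      = scalarG919 (ratUnit K ξ₂) * up919 (ratUnit K ξ) (algebraMap K (Adl K) ((ξ : K) * η)) := by
    rw [map_mul]
    congr 1
    · apply Units.ext
      ext i j
      fin_cases i <;> fin_cases j <;>
        simp [ratG, ratUnit, Matrix.GeneralLinearGroup.map, scalarG919, Matrix.scalar]
    · exact map_up919 (algebraMap K (Adl K)) ξ ((ξ : K) * η)
  rw [e0]
  unfold eJ54
  rw [scalar_up_triple54]
  have hi : ratUnit K ξ₂ * (rayE54 K (-((j : ℝ) * Real.log 2)) *
      (rayE54 K (τρ + (j : ℝ) * Real.log 2) * c₂)) = a2 := by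
    rw [← mul_assoc (rayE54 K _), ← rayE54_add, ← mul_assoc]
    have : -((j : ℝ) * Real.log 2) + (τρ + (j : ℝ) * Real.log 2) = τρ := by ring
    rw [this, h2]
  have hii : ratUnit K ξ * (rayE54 K ((j : ℝ) * Real.log 4) *
      (rayE54 K (τs - (j : ℝ) * Real.log 4) * c₁)) = a1 * a2⁻¹ := by
    rw [← mul_assoc (rayE54 K _), ← rayE54_add, ← mul_assoc]
    have : (j : ℝ) * Real.log 4 + (τs - (j : ℝ) * Real.log 4) = τs := by ring
    rw [this, h1]
  have hiii : ((ratUnit K ξ : (Adl K)ˣ) : Adl K) *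
      (((rayE54 K ((j : ℝ) * Real.log 4) : (Adl K)ˣ) : Adl K) *
        (d * rayAdl919 K (((4 : ℝ) ^ j)⁻¹)) + 0)
      + algebraMap K (Adl K) ((ξ : K) * η) = x' := by
    have hr := rayAdl_four_pow54 (K := K) j
    have hξ : ((ratUnit K ξ : (Adl K)ˣ) : Adl K) = algebraMap K (Adl K) (ξ : K) := rfl
    rw [hξ, ← h3]
    linear_combination (algebraMap K (Adl K) (ξ : K) * d) * hr
  rw [hi, hii, hiii]

lemma adNorm_inv54 (hN : AdNormC K) (x : (Adl K)ˣ) :
    adNorm K ((x⁻¹ : (Adl K)ˣ) : Adl K) = (adNorm K (x : Adl K))⁻¹ := by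
  have h := hN.2.1 x x⁻¹
  have h1 : adNorm K (1 : Adl K) = 1 := by
    have h := hN.2.2.1 1
    rwa [map_one, Units.val_one] at h
  rw [mul_inv_cancel, Units.val_one, h1] at h
  exact eq_inv_of_mul_eq_one_right h.symm

lemma comm_cancel54 {M : Type*} [CommGroup M] (a r x : M) :
    a * r * (a⁻¹ * (x * r⁻¹)) = x := by
  calc a * r * (a⁻¹ * (x * r⁻¹)) = (a * a⁻¹) * (r * r⁻¹) * x := by
        simp only [mul_comm, mul_left_comm, mul_assoc]
    _ = x := by rw [mul_inv_cancel, mul_inv_cancel, one_mul, one_mul]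

lemma isCompact_rayBox54 {C : Set (Adl K)ˣ} (hC : IsCompact C) (a b : ℝ) :
    IsCompact ((fun p : ℝ × (Adl K)ˣ => rayE54 K p.1 * p.2) '' (Set.Icc a b ×ˢ C)) :=
  (isCompact_Icc.prod hC).image ((continuous_rayE54.comp continuous_fst).mul continuous_snd)

/-- **The fine form of the Siegel set in the slab.** -/
theorem fine54 (hAL : AdeleLatticeC K) (hN : AdNormC K) (hFu : FujisakiC K) (c : ℝ)
    (hc : 0 < c) :
    ∃ (Zc Yc : Set (Adl K)ˣ) (D : Set (Adl K)), IsCompact Zc ∧ IsCompact Yc ∧ IsCompact D ∧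
      ∀ g ∈ slab K, ∀ t : ℝ, HasHeight K g t → c ≤ t →
        ∃ β : GL (Fin 2) K, IsUpperRat K β ∧
          ratG K β * g ∈ siegelSet54 (eJ54 K) Zc Yc D := by
  obtain ⟨-, -, D, hD, hDcov⟩ := hAL
  obtain ⟨C, hC, hCcov⟩ := hFu
  have hn0 : Module.finrank ℚ K ≠ 0 := (Module.finrank_pos (R := ℚ) (M := K)).ne'
  set n : ℕ := Module.finrank ℚ K with hn
  have hnpos : (0 : ℝ) < n := by exact_mod_cast Nat.pos_of_ne_zero hn0
  have hn1 : (1 : ℝ) ≤ n := by exact_mod_cast Nat.one_le_iff_ne_zero.2 hn0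
  set τ₀ : ℝ := Real.log c / n with hτ₀
  have hL2 : 0 < Real.log 2 := Real.log_pos (by norm_num)
  have hL4 : 0 < Real.log 4 := Real.log_pos (by norm_num)
  refine ⟨(fun p : ℝ × (Adl K)ˣ => rayE54 K p.1 * p.2) ''
      (Set.Icc ((-τ₀ - Real.log 4) / 2) ((Real.log 2 - τ₀) / 2) ×ˢ C),
    (fun p : ℝ × (Adl K)ˣ => rayE54 K p.1 * p.2) '' (Set.Icc τ₀ (τ₀ + Real.log 4) ×ˢ C), D,
    isCompact_rayBox54 hC _ _, isCompact_rayBox54 hC _ _, hD, ?_⟩
  rintro g hg t ⟨b, k, hb, hk, hgb, ht⟩ hct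
  have htpos : 0 < t := lt_of_lt_of_le hc hct
  obtain ⟨⟨a1, ha1⟩, ⟨a2, ha2⟩⟩ := isUnit_diag793 hb
  -- the norms of the diagonal entries
  have hA1 : 0 < adNorm K (a1 : Adl K) := hN.1 a1
  have hA2 : 0 < adNorm K (a2 : Adl K) := hN.1 a2
  have ht' : t = adNorm K (a1 : Adl K) / adNorm K (a2 : Adl K) := by rw [ht, ← ha1, ← ha2]
  -- the slab
  have hdet : adNorm K (Matrix.det (g : Matrix (Fin 2) (Fin 2) (Adl K)))
      = adNorm K (a1 : Adl K) * adNorm K (a2 : Adl K) := by
    rw [hgb, Units.val_mul, Matrix.det_mul,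
      adNorm_mul793 hN (Matrix.isUnits_det_units b) (Matrix.isUnits_det_units k),
      adNorm_det_std793 hk, mul_one, det_upper793 hb, ← ha1, ← ha2,
      adNorm_mul793 hN a1.isUnit a2.isUnit]
  obtain ⟨hl1, hl2⟩ := hg
  rw [hdet] at hl1 hl2
  -- logarithms
  set τs : ℝ := Real.log t / n with hτs
  set τρ : ℝ := Real.log (adNorm K (a2 : Adl K)) / n with hτρ
  have hnτs : (n : ℝ) * τs = Real.log t := by rw [hτs]; field_simp
  have hnτρ : (n : ℝ) * τρ = Real.log (adNorm K (a2 : Adl K)) := by rw [hτρ]; field_simp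
  have hsum : (n : ℝ) * (2 * τρ + τs)
      = Real.log (adNorm K (a1 : Adl K) * adNorm K (a2 : Adl K)) := by
    have e1 : Real.log t = Real.log (adNorm K (a1 : Adl K)) - Real.log (adNorm K (a2 : Adl K)) := by
      rw [ht', Real.log_div hA1.ne' hA2.ne']
    rw [Real.log_mul hA1.ne' hA2.ne']
    linear_combination 2 * hnτρ + hnτs + e1
  have hlog0 : 0 ≤ Real.log (adNorm K (a1 : Adl K) * adNorm K (a2 : Adl K)) :=
    Real.log_nonneg hl1
  have hlog2 : Real.log (adNorm K (a1 : Adl K) * adNorm K (a2 : Adl K)) ≤ Real.log 2 :=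
    Real.log_le_log (mul_pos hA1 hA2) hl2.le
  have hx0 : 0 ≤ 2 * τρ + τs := by
    by_contra h
    have h := not_le.1 h
    have := mul_neg_of_pos_of_neg hnpos h
    linarith
  have hx2 : 2 * τρ + τs ≤ Real.log 2 := by
    have : 2 * τρ + τs ≤ (n : ℝ) * (2 * τρ + τs) := by nlinarith
    linarith
  have hτ₀s : τ₀ ≤ τs := by
    rw [hτ₀, hτs]
    exact div_le_div_of_nonneg_right (Real.log_le_log hc hct) hnpos.le
  -- the dyadic index
  set j : ℕ := ⌊(τs - τ₀) / Real.log 4⌋₊ with hj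
  have hj1 : (j : ℝ) * Real.log 4 ≤ τs - τ₀ := by
    have := Nat.floor_le (div_nonneg (sub_nonneg.2 hτ₀s) hL4.le)
    rwa [le_div_iff₀ hL4] at this
  have hj2 : τs - τ₀ < ((j : ℝ) + 1) * Real.log 4 := by
    have := Nat.lt_floor_add_one ((τs - τ₀) / Real.log 4)
    rwa [div_lt_iff₀ hL4] at this
  -- Fujisaki, twice
  have hns : adNorm K ((rayE54 K τs : (Adl K)ˣ) : Adl K) = t := by
    rw [adNorm_rayE54, hnτs, Real.exp_log htpos]
  have hnρ : adNorm K ((rayE54 K τρ : (Adl K)ˣ) : Adl K) = adNorm K (a2 : Adl K) := by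
    rw [adNorm_rayE54, hnτρ, Real.exp_log hA2]
  have h1 : adNorm K ((a1 * a2⁻¹ * (rayE54 K τs)⁻¹ : (Adl K)ˣ) : Adl K) = 1 := by
    rw [hN.2.1, hN.2.1, adNorm_inv54 hN, adNorm_inv54 hN, hns, ht']
    field_simp
  obtain ⟨ξ, hξ⟩ := hCcov _ h1
  have h2 : adNorm K ((a2 * (rayE54 K τρ)⁻¹ : (Adl K)ˣ) : Adl K) = 1 := by
    rw [hN.2.1, adNorm_inv54 hN, hnρ]
    field_simp
  obtain ⟨ξ₂, hξ₂⟩ := hCcov _ h2
  set c₁ : (Adl K)ˣ := (ratUnit K ξ)⁻¹ * (a1 * a2⁻¹ * (rayE54 K τs)⁻¹) with hc₁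
  set c₂ : (Adl K)ˣ := (ratUnit K ξ₂)⁻¹ * (a2 * (rayE54 K τρ)⁻¹) with hc₂
  -- the lattice
  set x' : Adl K := (b : Matrix (Fin 2) (Fin 2) (Adl K)) 0 1 * ((a2⁻¹ : (Adl K)ˣ) : Adl K)
    with hx'
  set u₀ : Adl K := (((ratUnit K ξ)⁻¹ : (Adl K)ˣ) : Adl K) * x' with hu₀
  obtain ⟨η, hη⟩ := hDcov u₀
  set d : Adl K := u₀ - algebraMap K (Adl K) η with hd
  -- the three relations
  have r1 : ratUnit K ξ * rayE54 K τs * c₁ = a1 * a2⁻¹ := comm_cancel54 _ _ _
  have r2 : ratUnit K ξ₂ * rayE54 K τρ * c₂ = a2 := comm_cancel54 _ _ _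
  have r3 : algebraMap K (Adl K) (ξ : K) * d + algebraMap K (Adl K) ((ξ : K) * η) = x' := by
    have hξξ : algebraMap K (Adl K) (ξ : K) * (((ratUnit K ξ)⁻¹ : (Adl K)ˣ) : Adl K) = 1 := by
      have hξval : ((ratUnit K ξ : (Adl K)ˣ) : Adl K) = algebraMap K (Adl K) (ξ : K) := rfl
      rw [← hξval, ← Units.val_mul, mul_inv_cancel, Units.val_one]
    rw [hd, hu₀, map_mul]
    linear_combination x' * hξξ
  have hid := fine_identity54 a1 a2 c₁ c₂ ξ ξ₂ x' d η τs τρ j r1 r2 r3
  have hb' := upper_eq_scalar_mul_up919 b hb a1 a2 ha1 ha2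
  rw [← hx'] at hb'
  refine ⟨(scalarG919 ξ₂ * up919 ξ ((ξ : K) * η))⁻¹, ?_, ?_⟩
  · show (((scalarG919 ξ₂ * up919 ξ ((ξ : K) * η))⁻¹ : GL (Fin 2) K) :
      Matrix (Fin 2) (Fin 2) K) 1 0 = 0
    have hs : (scalarG919 ξ₂ : GL (Fin 2) K)⁻¹ = scalarG919 ξ₂⁻¹ := by
      unfold scalarG919
      exact (map_inv _ _).symm
    rw [mul_inv_rev, hs, Units.val_mul, up919_inv_val, scalarG919_val]
    simp [Matrix.mul_apply, Fin.sum_univ_two]
  · rw [siegelSet54, Set.mem_iUnion]
    refine ⟨j, pMap54 (rayE54 K (τρ + (j : ℝ) * Real.log 2) * c₂)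
        (rayE54 K (τs - (j : ℝ) * Real.log 4) * c₁)
        (d * rayAdl919 K (((4 : ℝ) ^ j)⁻¹)) k, ?_, ?_⟩
    · refine ⟨(rayE54 K (τρ + (j : ℝ) * Real.log 2) * c₂,
        rayE54 K (τs - (j : ℝ) * Real.log 4) * c₁, d * rayAdl919 K (((4 : ℝ) ^ j)⁻¹), k),
        ⟨?_, ?_, ⟨d, hη, rfl⟩, hk⟩, rfl⟩
      · have hjl : (j : ℝ) * Real.log 4 = 2 * ((j : ℝ) * Real.log 2) := by
          rw [log_four54]; ring
        refine ⟨(τρ + (j : ℝ) * Real.log 2, c₂), ⟨⟨?_, ?_⟩, hξ₂⟩, rfl⟩
        · linarith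
        · linarith
      · exact ⟨(τs - (j : ℝ) * Real.log 4, c₁), ⟨⟨by linarith, by linarith⟩, hξ⟩, rfl⟩
    · simp only
      rw [map_inv, hgb, hb', ← hid]
      unfold pMap54
      group

end Fermat.Agent.LT.T1.H54

end

end
-- ===== PACK-END LT/T1/H54/SVFine.lean

-- ===== PACK-BEGIN LT/T2/H187/LevelNhds.lean
section



/-!
# Row LT, tower T2, leaf T2.03a.2b `H437.LevelNhdsC437` (registry row 1341, helper187)

OFF-MAIN.  Proof of the frozen Prop `Fermat.Agent.LT.T2.H437.LevelNhdsC437 K` of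
`LT/T2/H437/USSpec.lean` (helper437, sha256 76bc96ee): for a nonzero ideal `𝔫` of `𝓞 K` the set of
`g ∈ GL₂(𝔸_K)` with `g ≡ 1` and `g⁻¹ ≡ 1 mod 𝔫` at every finite place is a neighbourhood of `1`.

## Proof

* `intRange_dense187`: `𝓞 K` is dense in `𝒪_v` (density of `K` in `K_v`, `𝒪_v` open,
  `exists_valuation_sub_lt_of_integer`).
* `mul_mem_idealClosure187`: for `d ∈ 𝔫` and `y ∈ 𝒪_v`, `d * y ∈ idealClosure 𝔫 v`
  (multiplication by `d` is continuous and maps `𝓞 K` into `𝔫`).
* `intAdeles_isOpen187`: `Ô = {x ∈ 𝔸_f : x_v ∈ 𝒪_v for all v}` is open in the finite adeles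
  (`RestrictedProduct.isOpen_forall_mem`).
* Fix `0 ≠ d ∈ 𝔫`.  The maps `g ↦ d⁻¹ * ((g - 1) i j)_f` and `g ↦ d⁻¹ * ((g⁻¹ - 1) i j)_f` from
  `GL₂(𝔸_K)` to `𝔸_f` are continuous and map `1` to `0`; the intersection of the preimages of `Ô`
  is an open neighbourhood of `1` contained in the level set.
-/

set_option autoImplicit false

open IsDedekindDomain NumberField Topology
open Fermat.Agent.LT.H556.A0

noncomputable section

namespace Fermat.Agent.LT.T2.H187

variable {K : Type} [Field K] [NumberField K]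

/-- `𝓞 K` is dense in `𝒪_v`. -/
theorem intRange_dense187 (v : HeightOneSpectrum (𝓞 K)) {y : v.adicCompletion K}
    (hy : Valued.v y ≤ 1) :
    y ∈ closure (Set.range
      (fun a : 𝓞 K => algebraMap K (v.adicCompletion K) (algebraMap (𝓞 K) K a))) := by
  rw [mem_closure_iff_nhds]
  intro t ht
  obtain ⟨γ, hγ⟩ := Valued.mem_nhds.1 ht
  -- the precision, as an element of `ℤᵐ⁰`
  have hne : MonoidWithZeroHom.ValueGroup₀.embedding γ.1 ≠ 0 := by
    intro h0
    simp at h0
  -- the ball of radius `γ` around `y`, intersected with `𝒪_v`, is a neighbourhood of `y`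
  have hB : {z : v.adicCompletion K | Valued.v.restrict (z - y) < γ.1} ∈ 𝓝 y :=
    Valued.mem_nhds.2 ⟨γ, subset_rfl⟩
  have hO : ((v.adicCompletionIntegers K : Set (v.adicCompletion K))) ∈ 𝓝 y :=
    (Valued.isOpen_valuationSubring _).mem_nhds hy
  obtain ⟨z, ⟨hz1, hz2⟩, k, rfl⟩ :=
    mem_closure_iff_nhds.1 ((HeightOneSpectrum.denseRange_algebraMap K v) y) _
      (Filter.inter_mem hB hO)
  have hk1 : v.valuation K k ≤ 1 := by
    rw [← HeightOneSpectrum.valuedAdicCompletion_eq_valuation']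
    exact hz2
  have hk2 : Valued.v (algebraMap K (v.adicCompletion K) k - y)
      < MonoidWithZeroHom.ValueGroup₀.embedding γ.1 :=
    (Valuation.restrict_lt_iff_lt_embedding _).1 hz1
  obtain ⟨a, ha⟩ := v.exists_valuation_sub_lt_of_integer hk1 (Units.mk0 _ hne)
  refine ⟨algebraMap K (v.adicCompletion K) (algebraMap (𝓞 K) K a), hγ ?_, ⟨a, rfl⟩⟩
  show Valued.v.restrict (algebraMap K (v.adicCompletion K) (algebraMap (𝓞 K) K a) - y) < γ.1
  rw [Valuation.restrict_lt_iff_lt_embedding]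
  have e : algebraMap K (v.adicCompletion K) (algebraMap (𝓞 K) K a) - y
      = algebraMap K (v.adicCompletion K) (algebraMap (𝓞 K) K a - k)
        + (algebraMap K (v.adicCompletion K) k - y) := by
    rw [map_sub]; ring
  rw [e]
  refine lt_of_le_of_lt (Valuation.map_add _ _ _) (max_lt ?_ hk2)
  have := HeightOneSpectrum.valuedAdicCompletion_eq_valuation' v
    (algebraMap (𝓞 K) K a - k)
  rw [Units.val_mk0] at ha
  exact this ▸ ha

/-- `d 𝒪_v ⊆ 𝔫 𝒪_v` for `d ∈ 𝔫`. -/
theorem mul_mem_idealClosure187 (v : HeightOneSpectrum (𝓞 K)) (𝔫 : Ideal (𝓞 K)) {d : 𝓞 K}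
    (hd : d ∈ 𝔫) {y : v.adicCompletion K} (hy : Valued.v y ≤ 1) :
    algebraMap K (v.adicCompletion K) (algebraMap (𝓞 K) K d) * y ∈ idealClosure 𝔫 v := by
  have h1 := Set.mem_image_of_mem
    (fun z : v.adicCompletion K => algebraMap K (v.adicCompletion K) (algebraMap (𝓞 K) K d) * z)
    (intRange_dense187 v hy)
  have h2 := image_closure_subset_closure_image
    (f := fun z : v.adicCompletion K =>
      algebraMap K (v.adicCompletion K) (algebraMap (𝓞 K) K d) * z)
    (s := Set.range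
      (fun a : 𝓞 K => algebraMap K (v.adicCompletion K) (algebraMap (𝓞 K) K a)))
    (continuous_const.mul continuous_id) h1
  refine closure_mono ?_ h2
  rintro _ ⟨_, ⟨a, rfl⟩, rfl⟩
  refine ⟨d * a, 𝔫.mul_mem_right a hd, ?_⟩
  simp only [map_mul]

/-- The integral finite adeles are open in the finite adeles. -/
theorem intAdeles_isOpen187 (K : Type) [Field K] [NumberField K] :
    IsOpen {x : FiniteAdeleRing (𝓞 K) K | ∀ v : HeightOneSpectrum (𝓞 K),
      x v ∈ v.adicCompletionIntegers K} :=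
  RestrictedProduct.isOpen_forall_mem
    (R := fun v : HeightOneSpectrum (𝓞 K) => v.adicCompletion K)
    (A := fun v : HeightOneSpectrum (𝓞 K) => v.adicCompletionIntegers K)
    (fun _ => Valued.isOpen_valuationSubring _)

/-- The scaled finite part of an adele: `x ↦ c * x_f`. -/
def scaledFin187 (c : K) (x : Adl K) : FiniteAdeleRing (𝓞 K) K :=
  algebraMap K (FiniteAdeleRing (𝓞 K) K) c * x.2

theorem continuous_scaledFin187 (c : K) : Continuous (scaledFin187 (K := K) c) :=
  continuous_const.mul continuous_snd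

/-- The entries of `finComp v g - 1` are the `v`-components of the entries of `g - 1`. -/
theorem finComp_sub_one187 (v : HeightOneSpectrum (𝓞 K)) (g : G K) (i j : Fin 2) :
    (finComp v g - 1) i j
      = ((g : Matrix (Fin 2) (Fin 2) (Adl K)) i j
          - (1 : Matrix (Fin 2) (Fin 2) (Adl K)) i j).2 v := by
  rw [Matrix.sub_apply]
  by_cases h : i = j
  · subst h
    rw [Matrix.one_apply_eq, Matrix.one_apply_eq]
    rfl
  · rw [Matrix.one_apply_ne h, Matrix.one_apply_ne h]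
    rfl

/-- **T2.03a.2b**: the finite level set is a neighbourhood of `1` in `GL₂(𝔸_K)`. -/
theorem levelNhdsC187 (K : Type) [Field K] [NumberField K] : H437.LevelNhdsC437 K := by
  intro 𝔫 h𝔫
  obtain ⟨d, hd, hd0⟩ := Submodule.exists_mem_ne_zero_of_ne_bot h𝔫
  have hdK : (algebraMap (𝓞 K) K d) ≠ 0 := by
    intro h
    exact hd0 ((FaithfulSMul.algebraMap_injective (𝓞 K) K) (by rw [h, map_zero]))
  set c : K := (algebraMap (𝓞 K) K d)⁻¹ with hc
  -- the open set of integral finite adeles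
  set U : Set (FiniteAdeleRing (𝓞 K) K) := {x | ∀ v : HeightOneSpectrum (𝓞 K),
      x v ∈ v.adicCompletionIntegers K} with hU
  have hUo : IsOpen U := intAdeles_isOpen187 K
  -- the entries of `g - 1` and of `g⁻¹ - 1`
  let φ : Fin 2 → Fin 2 → G K → FiniteAdeleRing (𝓞 K) K := fun i j g =>
    scaledFin187 c ((g : Matrix (Fin 2) (Fin 2) (Adl K)) i j
      - (1 : Matrix (Fin 2) (Fin 2) (Adl K)) i j)
  let ψ : Fin 2 → Fin 2 → G K → FiniteAdeleRing (𝓞 K) K := fun i j g =>
    scaledFin187 c (((g⁻¹ : G K) : Matrix (Fin 2) (Fin 2) (Adl K)) i j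
      - (1 : Matrix (Fin 2) (Fin 2) (Adl K)) i j)
  have hval : Continuous (fun g : G K => (g : Matrix (Fin 2) (Fin 2) (Adl K))) :=
    Units.continuous_val
  have hvalinv : Continuous
      (fun g : G K => ((g⁻¹ : G K) : Matrix (Fin 2) (Fin 2) (Adl K))) :=
    Units.continuous_coe_inv
  have hent : ∀ i j, Continuous
      (fun g : G K => (g : Matrix (Fin 2) (Fin 2) (Adl K)) i j) := fun i j =>
    hval.matrix_elem i j
  have hinv : ∀ i j, Continuous
      (fun g : G K => ((g⁻¹ : G K) : Matrix (Fin 2) (Fin 2) (Adl K)) i j) := fun i j =>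
    hvalinv.matrix_elem i j
  have hφc : ∀ i j, Continuous (φ i j) := fun i j =>
    (continuous_scaledFin187 c).comp ((hent i j).sub continuous_const)
  have hψc : ∀ i j, Continuous (ψ i j) := fun i j =>
    (continuous_scaledFin187 c).comp ((hinv i j).sub continuous_const)
  have h0U : (0 : FiniteAdeleRing (𝓞 K) K) ∈ U := fun v => by
    show (0 : v.adicCompletion K) ∈ v.adicCompletionIntegers K
    exact zero_mem _
  have hz : scaledFin187 c (0 : Adl K) = 0 := by
    show algebraMap K (FiniteAdeleRing (𝓞 K) K) c * (0 : FiniteAdeleRing (𝓞 K) K) = 0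
    exact mul_zero _
  have hφ1 : ∀ i j, φ i j 1 = 0 := fun i j => by
    show scaledFin187 c (((1 : G K) : Matrix (Fin 2) (Fin 2) (Adl K)) i j
      - (1 : Matrix (Fin 2) (Fin 2) (Adl K)) i j) = 0
    rw [Units.val_one, sub_self, hz]
  have hψ1 : ∀ i j, ψ i j 1 = 0 := fun i j => by
    show scaledFin187 c ((((1 : G K)⁻¹ : G K) : Matrix (Fin 2) (Fin 2) (Adl K)) i j
      - (1 : Matrix (Fin 2) (Fin 2) (Adl K)) i j) = 0
    rw [inv_one, Units.val_one, sub_self, hz]
  -- the neighbourhood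
  have hN : (⋂ i : Fin 2, ⋂ j : Fin 2, ((φ i j) ⁻¹' U ∩ (ψ i j) ⁻¹' U)) ∈ 𝓝 (1 : G K) := by
    refine (Filter.iInter_mem).2 fun i => (Filter.iInter_mem).2 fun j => Filter.inter_mem ?_ ?_
    · exact (hUo.preimage (hφc i j)).mem_nhds (by rw [Set.mem_preimage, hφ1]; exact h0U)
    · exact (hUo.preimage (hψc i j)).mem_nhds (by rw [Set.mem_preimage, hψ1]; exact h0U)
  refine Filter.mem_of_superset hN ?_
  intro g hg v i j
  rw [Set.mem_iInter] at hg
  have hgij := Set.mem_iInter.1 (hg i) j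
  -- the local statement
  have key : ∀ x : Adl K, scaledFin187 c x ∈ U → x.2 v ∈ idealClosure 𝔫 v := by
    intro x hx
    have hxv : Valued.v (algebraMap K (v.adicCompletion K) c * x.2 v) ≤ 1 := hx v
    have e : x.2 v = algebraMap K (v.adicCompletion K) (algebraMap (𝓞 K) K d)
        * (algebraMap K (v.adicCompletion K) c * x.2 v) := by
      rw [← mul_assoc, ← map_mul, hc, mul_inv_cancel₀ hdK, map_one, one_mul]
    rw [e]
    exact mul_mem_idealClosure187 v 𝔫 hd hxv
  rw [finComp_sub_one187, finComp_sub_one187]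
  exact ⟨key _ hgij.1, key _ hgij.2⟩

end Fermat.Agent.LT.T2.H187

end

end
-- ===== PACK-END LT/T2/H187/LevelNhds.lean

-- ===== PACK-BEGIN LT/T1/H868/Fujisaki.lean
section




/-!
# Row LT, tower T1, leaf T1.06: Fujisaki's lemma (helper868)

OFF-MAIN.  `leafFujisaki868 K : LeafFujisaki K`, i.e.
`LocCompC K → AdeleLatticeC K → AddFundDomC K → AdNormC K → FujisakiC K` (`𝔸¹_K / Kˣ` compact),
VERBATIM against `LT/T1/Spec.lean` (e8ae48d6).  Proof: Cassels–Fröhlich II §16, from the adelic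
Minkowski lemma `minkowski868`.
-/

set_option autoImplicit false
set_option linter.style.haveILetI false
set_option linter.unusedVariables false
set_option linter.unusedSectionVars false

open IsDedekindDomain NumberField MeasureTheory
open scoped ENNReal NNReal

noncomputable section

namespace Fermat.Agent.LT.T1.H868

open Fermat.Agent.LT.H556.A0

variable (K : Type) [Field K] [NumberField K]

/-! ## Ideles of large module -/

theorem norm_natCast_inf868 (w : InfinitePlace K) (N : ℕ) : ‖(N : w.Completion)‖ = N := by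
  have h := (InfinitePlace.Completion.isometry_extensionEmbedding w).norm_map_of_map_zero
    (map_zero _) (N : w.Completion)
  rw [map_natCast, Complex.norm_natCast] at h
  exact h.symm

theorem natCast_inf_ne_zero868 (w : InfinitePlace K) {N : ℕ} (hN : N ≠ 0) :
    (N : w.Completion) ≠ 0 := by
  intro h
  have := norm_natCast_inf868 K w N
  rw [h, norm_zero] at this
  exact hN (by exact_mod_cast this.symm)

/-- The idele which is `N` at every infinite place and `1` at every finite place. -/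
def natIdele868 (N : ℕ) (hN : N ≠ 0) : (Adl K)ˣ where
  val := show Adl K from
    (((fun w => (N : w.Completion)) : InfiniteAdeleRing K), (1 : FiniteAdeleRing (𝓞 K) K))
  inv := show Adl K from
    (((fun w => (N : w.Completion)⁻¹) : InfiniteAdeleRing K), (1 : FiniteAdeleRing (𝓞 K) K))
  val_inv := by
    refine Prod.ext (funext fun w => ?_) (mul_one _)
    exact mul_inv_cancel₀ (natCast_inf_ne_zero868 K w hN)
  inv_val := by
    refine Prod.ext (funext fun w => ?_) (mul_one _)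
    exact inv_mul_cancel₀ (natCast_inf_ne_zero868 K w hN)

theorem adNorm_natIdele868 (N : ℕ) (hN : N ≠ 0) :
    adNorm K (natIdele868 K N hN : Adl K) = (N : ℝ) ^ Module.finrank ℚ K := by
  unfold adNorm
  have h1 : ∀ w : InfinitePlace K, ‖((natIdele868 K N hN : (Adl K)ˣ) : Adl K).1 w‖ = N :=
    fun w => norm_natCast_inf868 K w N
  have h2 : (fun v : HeightOneSpectrum (𝓞 K) => ‖((natIdele868 K N hN : (Adl K)ˣ) : Adl K).2 v‖)
      = fun _ => 1 := funext fun v => by
    have : ((natIdele868 K N hN : (Adl K)ˣ) : Adl K).2 v = 1 := rfl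
    rw [this, norm_one]
  rw [h2, finprod_one, mul_one]
  simp only [h1]
  rw [Finset.prod_pow_eq_pow_sum, InfinitePlace.sum_mult_eq]

theorem exists_large_idele868 (C : ℝ) : ∃ α : (Adl K)ˣ, C < adNorm K (α : Adl K) := by
  obtain ⟨N, hN⟩ := exists_nat_gt (max C 1)
  have hN1 : (1 : ℝ) < N := lt_of_le_of_lt (le_max_right _ _) hN
  have hN0 : N ≠ 0 := by
    rintro rfl
    norm_num at hN1
  refine ⟨natIdele868 K N hN0, ?_⟩
  rw [adNorm_natIdele868]
  have hpos : Module.finrank ℚ K ≠ 0 := (Module.finrank_pos (R := ℚ) (M := K)).ne'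
  calc C ≤ max C 1 := le_max_left _ _
    _ < N := hN
    _ ≤ (N : ℝ) ^ Module.finrank ℚ K := le_self_pow₀ hN1.le hpos

/-! ## Fujisaki's lemma -/

variable {K}

theorem adNorm_inv868 (hN : AdNormC K) (x : (Adl K)ˣ) :
    adNorm K ((x⁻¹ : (Adl K)ˣ) : Adl K) = (adNorm K (x : Adl K))⁻¹ := by
  have h := hN.2.1 x⁻¹ x
  rw [inv_mul_cancel, adNorm_one868 hN] at h
  exact eq_inv_of_mul_eq_one_left h.symm

/-- Finitely many elements of `Kˣ` in a compact subset of `𝔸_K`. -/
theorem finite_rat_in_compact868 (hAL : AdeleLatticeC K) [T2Space (Adl K)] {W : Set (Adl K)}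
    (hW : IsCompact W) : {φ : Kˣ | algebraMap K (Adl K) (φ : K) ∈ W}.Finite := by
  obtain ⟨hdisc, hclosed, -⟩ := hAL
  haveI := hdisc
  -- the points of the lattice in `W`
  have h1 : IsCompact ((Subtype.val : princ K → Adl K) ⁻¹' W) :=
    hclosed.isClosedEmbedding_subtypeVal.isCompact_preimage hW
  have h2 : ((Subtype.val : princ K → Adl K) ⁻¹' W).Finite := h1.finite_of_discrete
  have h3 : ((princ K : Set (Adl K)) ∩ W).Finite := by
    have : (princ K : Set (Adl K)) ∩ W = Subtype.val '' ((Subtype.val : princ K → Adl K) ⁻¹' W) := by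
      ext a
      constructor
      · rintro ⟨ha1, ha2⟩
        exact ⟨⟨a, ha1⟩, ha2, rfl⟩
      · rintro ⟨b, hb, rfl⟩
        exact ⟨b.2, hb⟩
    rw [this]
    exact h2.image _
  have hinj : Function.Injective fun φ : Kˣ => algebraMap K (Adl K) (φ : K) :=
    fun a b hab => Units.ext (NumberField.AdeleRing.algebraMap_injective (𝓞 K) K hab)
  have h4 : {φ : Kˣ | algebraMap K (Adl K) (φ : K) ∈ W}
      = (fun φ : Kˣ => algebraMap K (Adl K) (φ : K)) ⁻¹' ((princ K : Set (Adl K)) ∩ W) := by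
    ext φ
    simp only [Set.mem_ofPred_eq, Set.mem_preimage, Set.mem_inter_iff, SetLike.mem_coe,
      iff_and_self]
    intro _
    exact ⟨(φ : K), rfl⟩
  rw [h4]
  exact h3.preimage (hinj.injOn)

/-- **T1.06, Fujisaki's lemma.** -/
theorem fujisaki868 (hLC : LocCompC K) (hAL : AdeleLatticeC K) (hFD : AddFundDomC K)
    (hN : AdNormC K) : FujisakiC K := by
  have hLC' := hLC
  obtain ⟨⟨hlc, ht2, hsc⟩, -⟩ := hLC
  haveI := hlc
  haveI := ht2
  haveI := hsc
  obtain ⟨C₀, hC₀⟩ := minkowski868 hLC' hFD hN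
  obtain ⟨α, hα⟩ := exists_large_idele868 K C₀
  -- the compact sets
  set W : Set (Adl K) := ibox868 K 1 α with hW
  have hWc : IsCompact W := isCompact_ibox868 K 1 α
  set W2 : Set (Adl K) := (fun p : Adl K × Adl K => p.1 * p.2) '' (W ×ˢ W) with hW2
  have hW2c : IsCompact W2 := (hWc.prod hWc).image (continuous_fst.mul continuous_snd)
  set Φ : Set Kˣ := {φ : Kˣ | algebraMap K (Adl K) (φ : K) ∈ W2} with hΦ
  have hΦf : Φ.Finite := finite_rat_in_compact868 hAL hW2c
  set W' : Set (Adl K) :=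
    ⋃ φ ∈ Φ, (fun a : Adl K => (((ratUnit K φ)⁻¹ : (Adl K)ˣ) : Adl K) * a) '' W with hW'
  have hW'c : IsCompact W' :=
    hΦf.isCompact_biUnion fun φ _ => hWc.image (continuous_const.mul continuous_id)
  set Cc : Set (Adl K)ˣ :=
    (Units.embedProduct (Adl K)) ⁻¹' (W ×ˢ (MulOpposite.op '' W')) with hCc
  have hCcc : IsCompact Cc :=
    Units.isClosedEmbedding_embedProduct.isCompact_preimage
      (hWc.prod (hW'c.image MulOpposite.continuous_op))
  refine ⟨Cc, hCcc, fun x hx => ?_⟩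
  -- two applications of Minkowski
  have hx' : adNorm K ((x⁻¹ : (Adl K)ˣ) : Adl K) = 1 := by
    rw [adNorm_inv868 hN, hx, inv_one]
  obtain ⟨η, hη⟩ := hC₀ (x⁻¹ * α) (by rw [hN.2.1, hx', one_mul]; exact hα)
  obtain ⟨θ, hθ⟩ := hC₀ (x * α) (by rw [hN.2.1, hx, one_mul]; exact hα)
  -- `y = η x ∈ W`, `z = θ x⁻¹ ∈ W`
  have hy : ((ratUnit K η * x : (Adl K)ˣ) : Adl K) ∈ W := by
    have := mul_mem_ibox868 K hη x
    rw [mul_inv_cancel_left] at this
    have e : ((ratUnit K η * x : (Adl K)ˣ) : Adl K)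
        = (x : Adl K) * algebraMap K (Adl K) (η : K) := by
      rw [Units.val_mul, mul_comm]
      rfl
    rw [e]
    exact this
  have hz : ((ratUnit K θ * x⁻¹ : (Adl K)ˣ) : Adl K) ∈ W := by
    have := mul_mem_ibox868 K hθ x⁻¹
    rw [inv_mul_cancel_left] at this
    have e : ((ratUnit K θ * x⁻¹ : (Adl K)ˣ) : Adl K)
        = ((x⁻¹ : (Adl K)ˣ) : Adl K) * algebraMap K (Adl K) (θ : K) := by
      rw [Units.val_mul, mul_comm]
      rfl
    rw [e]
    exact this
  -- the product is rational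
  have hprod : (ratUnit K η * x) * (ratUnit K θ * x⁻¹) = ratUnit K (η * θ) := by
    rw [map_mul]
    calc ratUnit K η * x * (ratUnit K θ * x⁻¹)
        = ratUnit K η * ratUnit K θ * (x * x⁻¹) := by
          simp only [mul_assoc, mul_left_comm, mul_comm]
      _ = ratUnit K η * ratUnit K θ := by rw [mul_inv_cancel, mul_one]
  have hφ : η * θ ∈ Φ := by
    show algebraMap K (Adl K) ((η * θ : Kˣ) : K) ∈ W2
    refine ⟨(((ratUnit K η * x : (Adl K)ˣ) : Adl K), ((ratUnit K θ * x⁻¹ : (Adl K)ˣ) : Adl K)),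
      ⟨hy, hz⟩, ?_⟩
    show ((ratUnit K η * x : (Adl K)ˣ) : Adl K) * ((ratUnit K θ * x⁻¹ : (Adl K)ˣ) : Adl K) = _
    rw [← Units.val_mul, hprod]
    rfl
  refine ⟨η⁻¹, ?_⟩
  have e1 : (ratUnit K η⁻¹)⁻¹ * x = ratUnit K η * x := by
    rw [map_inv, inv_inv]
  rw [e1]
  refine ⟨hy, ?_⟩
  -- the inverse of `y`
  refine ⟨(((ratUnit K η * x)⁻¹ : (Adl K)ˣ) : Adl K), ?_, rfl⟩
  refine Set.mem_biUnion hφ ?_
  refine ⟨((ratUnit K θ * x⁻¹ : (Adl K)ˣ) : Adl K), hz, ?_⟩
  show (((ratUnit K (η * θ))⁻¹ : (Adl K)ˣ) : Adl K) * ((ratUnit K θ * x⁻¹ : (Adl K)ˣ) : Adl K)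
    = (((ratUnit K η * x)⁻¹ : (Adl K)ˣ) : Adl K)
  rw [← Units.val_mul, ← hprod]
  congr 1
  have hgen : ∀ a b : (Adl K)ˣ, (a * b)⁻¹ * b = a⁻¹ := fun a b => by
    rw [mul_comm a b, mul_inv_rev, inv_mul_cancel_right]
  exact hgen _ _

/-- **Leaf T1.06.** -/
theorem leafFujisaki868 (K : Type) [Field K] [NumberField K] : LeafFujisaki K :=
  fun hLC hAL hFD hN => fujisaki868 hLC hAL hFD hN

end Fermat.Agent.LT.T1.H868

end

end
-- ===== PACK-END LT/T1/H868/Fujisaki.lean

-- ===== PACK-BEGIN LT/T7/H308/PlaceSum.lean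
section




/-!
# Row LT, tower T7, node T7.14 `RigidC`: leaf R0 `PlaceSumC` (helper308)

OFF-MAIN.  `placeSumC308 K : Rigid.PlaceSumC K` for every number field `K`:
`∑_v N v ^ (-s) < ∞` for `s > 1`, from the summability of the Dedekind zeta series over the nonzero
ideals (`S14/H163/ZetaIdeal.lean`, on main) and the injection `v ↦ v.asIdeal`.
-/

set_option autoImplicit false

open IsDedekindDomain NumberField

namespace Fermat.Agent.LT.T7.H308

open Fermat.Agent.LT.T7

theorem toI0_injective308 (K : Type) [Field K] [NumberField K] :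
    Function.Injective (Fermat.Agent.S14.H163.toI0 (R := 𝓞 K)) := by
  intro v w h
  have h' : v.asIdeal = w.asIdeal := congrArg Subtype.val h
  exact HeightOneSpectrum.ext h'

/-- **Leaf R0**: `∑_v N v ^ (-s)` converges for `s > 1`. -/
theorem placeSumC308 (K : Type) [Field K] [NumberField K] : Rigid.PlaceSumC K := by
  intro s hs
  have h := Fermat.Agent.S14.H163.summable_normPow (K := K) hs
  have h2 := h.comp_injective (toI0_injective308 K)
  refine h2.congr fun v => ?_
  rfl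

end Fermat.Agent.LT.T7.H308

end
-- ===== PACK-END LT/T7/H308/PlaceSum.lean

-- ===== PACK-BEGIN LT/T7/H949/Nonconst.lean
section



/-!
# Row LT, tower T7, leaf T7.13h `NonconstFC` (helper949), OFF-MAIN

Registry row 1274.  Spec bytes: `LT/T7/H37/ThinSpec.lean` of `origin/helper37@8584ef06e`
(sha256 `4c697dce71c28f9b…`), on `LT/T7/Spec.lean` (sha256 `76a196044a64b920…`).

`nonconstFC949 : H37.NonconstFC`: a horocycle family over `K` (class number one) with a non-zero
value and `|A v| ≤ 2`, `|B v| ≤ 1` almost everywhere has a member which is not constant in `z`.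

Proof.  Otherwise `U κ z y = U κ 0 y`.  Take a rational prime `p ≥ 7` larger than
`M · ∏_{w ∈ S} N w` and a place `v ∣ p`: then `v ∉ S`, `v ∤ M`, `n = N v ≥ 7`; `v = (ϖ)`, `R` a
system of residues modulo `ϖ` with `n` elements.  The Hecke relation at `(κ [ϖ]⁻¹, 0, |e ϖ| y)`
reads `n · U κ 0 y = √n · A v · U (κ [ϖ]⁻¹) 0 (|e ϖ| y) - B v · U (κ [ϖ]⁻²) 0 (|e ϖ|² y)`, so a
bound `|U · 0 ·| ≤ t` improves to `q t`, `q = (2 √n + 1) / n < 1`.  Iterating from the bound `C`
gives `U = 0`.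
-/

set_option autoImplicit false

open IsDedekindDomain NumberField

noncomputable section

namespace Fermat.Agent.LT.T7.H949

open Fermat.Agent.LT.T7 Fermat.Agent.LT.T7.H37

/-- A prime number in a finite place divides its absolute norm. -/
theorem prime_dvd_absNorm949 {K : Type} [Field K] [NumberField K] (v : HeightOneSpectrum (𝓞 K))
    {p : ℕ} (hp : p.Prime) (hpv : ((p : ℕ) : 𝓞 K) ∈ v.asIdeal) :
    p ∣ Ideal.absNorm v.asIdeal := by
  by_contra hnd
  have hcop : Nat.Coprime p (Ideal.absNorm v.asIdeal) := (Nat.Prime.coprime_iff_not_dvd hp).mpr hnd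
  have hc : IsCoprime ((p : ℕ) : 𝓞 K) ((Ideal.absNorm v.asIdeal : ℕ) : 𝓞 K) :=
    Nat.Coprime.cast hcop
  obtain ⟨a, b, hab⟩ := hc
  have hn : ((Ideal.absNorm v.asIdeal : ℕ) : 𝓞 K) ∈ v.asIdeal := Ideal.absNorm_mem v.asIdeal
  have h1 : (1 : 𝓞 K) ∈ v.asIdeal := by
    rw [← hab]
    exact v.asIdeal.add_mem (v.asIdeal.mul_mem_left a hpv) (v.asIdeal.mul_mem_left b hn)
  exact v.isPrime.ne_top ((Ideal.eq_top_iff_one _).mpr h1)

/-- Over every prime number there is a finite place. -/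
theorem exists_place_over_prime949 (K : Type) [Field K] [NumberField K] {p : ℕ} (hp : p.Prime) :
    ∃ v : HeightOneSpectrum (𝓞 K), ((p : ℕ) : 𝓞 K) ∈ v.asIdeal := by
  have : Fact p.Prime := ⟨hp⟩
  have hmax : (Ideal.span {(p : ℤ)}).IsMaximal := Int.ideal_span_isMaximal_of_prime p
  have hprime : (Ideal.span {(p : ℤ)}).IsPrime := hmax.isPrime
  obtain ⟨⟨Q, hQp, hQo⟩⟩ :=
    (inferInstance : Nonempty (Ideal.primesOver (Ideal.span {(p : ℤ)}) (𝓞 K)))
  have hmem : ((p : ℕ) : 𝓞 K) ∈ Q := by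
    have h1 : (p : ℤ) ∈ Q.under ℤ := by
      rw [← Ideal.over_def Q (Ideal.span {(p : ℤ)})]
      exact Ideal.subset_span rfl
    have h2 : algebraMap ℤ (𝓞 K) (p : ℤ) ∈ Q := h1
    simpa using h2
  have hQne : Q ≠ ⊥ := by
    rintro rfl
    have h0 : ((p : ℕ) : 𝓞 K) = 0 := by simpa using hmem
    have h0' : (p : ℕ) = 0 := by exact_mod_cast h0
    exact hp.ne_zero h0'
  exact ⟨⟨Q, hQp, hQne⟩, hmem⟩

/-- A complete system of residues modulo a generator of a finite place, with `N v` elements. -/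
theorem exists_resSys949 (K : Type) [Field K] [NumberField K] (v : HeightOneSpectrum (𝓞 K))
    (ϖ : 𝓞 K) (hϖ : v.asIdeal = Ideal.span {ϖ}) :
    ∃ R : Finset (𝓞 K), IsResSys K ϖ R ∧ R.card = Ideal.absNorm v.asIdeal := by
  classical
  have hfin : Finite (𝓞 K ⧸ v.asIdeal) := Ideal.finiteQuotientOfFreeOfNeBot v.asIdeal v.ne_bot
  let _ : Fintype (𝓞 K ⧸ v.asIdeal) := Fintype.ofFinite _
  refine ⟨Finset.univ.image (fun a : 𝓞 K ⧸ v.asIdeal => Quotient.out a), ⟨?_, ?_⟩, ?_⟩
  · intro x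
    refine ⟨Quotient.out (Ideal.Quotient.mk v.asIdeal x),
      Finset.mem_image_of_mem _ (Finset.mem_univ _), ?_⟩
    rw [← Ideal.mem_span_singleton, ← hϖ, ← Ideal.Quotient.eq]
    exact (Ideal.Quotient.mk_out _).symm
  · intro j hj j' hj' hdvd
    obtain ⟨a, -, rfl⟩ := Finset.mem_image.mp hj
    obtain ⟨b, -, rfl⟩ := Finset.mem_image.mp hj'
    have hmem : Quotient.out a - Quotient.out b ∈ Ideal.span {ϖ} :=
      Ideal.mem_span_singleton.mpr hdvd
    rw [← hϖ] at hmem
    have h : Ideal.Quotient.mk v.asIdeal (Quotient.out a)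
        = Ideal.Quotient.mk v.asIdeal (Quotient.out b) := Ideal.Quotient.eq.mpr hmem
    rw [Ideal.Quotient.mk_out, Ideal.Quotient.mk_out] at h
    rw [h]
  · rw [Finset.card_image_of_injective Finset.univ
        (f := fun a : 𝓞 K ⧸ v.asIdeal => Quotient.out a)
        (fun a b h => Quotient.out_injective h),
      Finset.card_univ, ← Nat.card_eq_fintype_card, Ideal.absNorm_apply,
      Submodule.cardQuot_apply]

/-- `2 √n + 1 < n` for `n ≥ 7`. -/
theorem sqrt_bound949 {n : ℝ} (hn : 7 ≤ n) : 2 * Real.sqrt n + 1 < n := by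
  have hx0 : 0 ≤ Real.sqrt n := Real.sqrt_nonneg n
  have hxx : Real.sqrt n * Real.sqrt n = n := Real.mul_self_sqrt (by linarith)
  by_contra hcon
  rw [not_lt] at hcon
  have h3 : 3 ≤ Real.sqrt n := by linarith
  have h4 : 3 * Real.sqrt n ≤ Real.sqrt n * Real.sqrt n := by nlinarith
  linarith

/-- **Leaf T7.13h NONCONST** (`H37.NonconstFC`, VERBATIM). -/
theorem nonconstFC949 : NonconstFC := by
  classical
  intro K _ _ hpid e M A B U C hD hsmall hnz
  obtain ⟨S, hS⟩ := hsmall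
  obtain ⟨κ₀, z₀, y₀, hy₀, hne⟩ := hnz
  by_contra hcon
  push Not at hcon
  -- the auxiliary place
  set N : ℕ := M * ∏ w ∈ S, Ideal.absNorm w.asIdeal with hN
  have hprod_pos : 0 < ∏ w ∈ S, Ideal.absNorm w.asIdeal := by
    refine Finset.prod_pos fun w _ => ?_
    exact Nat.pos_of_ne_zero fun h => w.ne_bot (Ideal.absNorm_eq_zero_iff.mp h)
  have hNpos : 0 < N := Nat.mul_pos hD.M_pos hprod_pos
  obtain ⟨p, hpge, hp⟩ := Nat.exists_infinite_primes (max 7 (N + 1))
  have hp7 : 7 ≤ p := le_trans (le_max_left _ _) hpge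
  have hpN : N < p := lt_of_lt_of_le (Nat.lt_succ_self N) (le_trans (le_max_right _ _) hpge)
  have hpndN : ¬ p ∣ N := Nat.not_dvd_of_pos_of_lt hNpos hpN
  obtain ⟨v, hpv⟩ := exists_place_over_prime949 K hp
  have hpn : p ∣ Ideal.absNorm v.asIdeal := prime_dvd_absNorm949 v hp hpv
  have hn0 : Ideal.absNorm v.asIdeal ≠ 0 := fun h => v.ne_bot (Ideal.absNorm_eq_zero_iff.mp h)
  have hn7 : 7 ≤ Ideal.absNorm v.asIdeal :=
    le_trans hp7 (Nat.le_of_dvd (Nat.pos_of_ne_zero hn0) hpn)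
  have hvS : v ∉ S := by
    intro hv
    have h1 : Ideal.absNorm v.asIdeal ∣ ∏ w ∈ S, Ideal.absNorm w.asIdeal :=
      Finset.dvd_prod_of_mem (fun w : HeightOneSpectrum (𝓞 K) => Ideal.absNorm w.asIdeal) hv
    exact hpndN (dvd_trans hpn (dvd_trans h1 (Dvd.intro_left M rfl)))
  have hMv : ((M : ℕ) : 𝓞 K) ∉ v.asIdeal := by
    intro hM
    have hpM : ¬ p ∣ M := fun h => hpndN (dvd_trans h (Dvd.intro _ rfl))
    have hcop : Nat.Coprime p M := (Nat.Prime.coprime_iff_not_dvd hp).mpr hpM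
    have hc : IsCoprime ((p : ℕ) : 𝓞 K) ((M : ℕ) : 𝓞 K) := Nat.Coprime.cast hcop
    obtain ⟨a, b, hab⟩ := hc
    have h1 : (1 : 𝓞 K) ∈ v.asIdeal := by
      rw [← hab]
      exact v.asIdeal.add_mem (v.asIdeal.mul_mem_left a hpv) (v.asIdeal.mul_mem_left b hM)
    exact v.isPrime.ne_top ((Ideal.eq_top_iff_one _).mpr h1)
  obtain ⟨hAv, hBv⟩ := hS v hvS
  -- the generator and the residues
  obtain ⟨ϖ, hϖ'⟩ := (IsPrincipalIdealRing.principal v.asIdeal).principal
  have hϖ : v.asIdeal = Ideal.span {ϖ} := hϖ'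
  obtain ⟨R, hR, hRcard⟩ := exists_resSys949 K v ϖ hϖ
  have hϖ0 : ϖ ≠ 0 := by
    rintro rfl
    apply v.ne_bot
    rw [hϖ]
    simp
  have heϖ : e (ϖ : K) ≠ 0 := by
    intro h
    have h1 : (ϖ : K) = 0 := (map_eq_zero e).mp h
    exact hϖ0 (by exact_mod_cast h1)
  set r : ℝ := ‖e (ϖ : K)‖ with hr
  have hrpos : 0 < r := norm_pos_iff.mpr heϖ
  set n : ℝ := ((Ideal.absNorm v.asIdeal : ℕ) : ℝ) with hn
  have hn7' : (7 : ℝ) ≤ n := by
    rw [hn]
    exact_mod_cast hn7
  have hnpos : 0 < n := by linarith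
  have hnrm : nrm v = n := rfl
  set c := unitClsF K M ϖ with hc
  -- the improvement step
  have hstep : ∀ t : ℝ, (∀ κ y, 0 < y → ‖U κ 0 y‖ ≤ t) →
      ∀ κ y, 0 < y → n * ‖U κ 0 y‖ ≤ (2 * Real.sqrt n + 1) * t := by
    intro t ht κ y hy
    have ht0 : 0 ≤ t := le_trans (norm_nonneg _) (ht κ y hy)
    have hyr : 0 < y * r := mul_pos hy hrpos
    have hH := hD.hecke v ϖ hϖ hMv R hR (κ * c⁻¹) 0 (y * r) hyr
    have hκ : κ * c⁻¹ * c = κ := by group
    have hy' : y * r / r = y := by field_simp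
    have hsum : ∑ j ∈ R, U (κ * c⁻¹ * c) ((0 + (M : ℂ) * e (j : K)) / e (ϖ : K)) (y * r / r)
        = (n : ℂ) * U κ 0 y := by
      rw [hκ, hy']
      rw [Finset.sum_congr rfl fun j _ => hcon κ _ 0 y hy]
      rw [Finset.sum_const, hRcard, nsmul_eq_mul, hn]
      push_cast
      ring
    rw [hsum] at hH
    have hz : U (κ * c⁻¹ * c⁻¹) (e (ϖ : K) * 0) (r * (y * r))
        = U (κ * c⁻¹ * c⁻¹) 0 (r * (y * r)) := by
      rw [mul_zero]
    rw [hz, hnrm] at hH
    have hb1 : ‖U (κ * c⁻¹ * c⁻¹) 0 (r * (y * r))‖ ≤ t := ht _ _ (mul_pos hrpos hyr)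
    have hb2 : ‖U (κ * c⁻¹) 0 (y * r)‖ ≤ t := ht _ _ hyr
    have heq : (n : ℂ) * U κ 0 y = ((Real.sqrt n : ℝ) : ℂ) * A v * U (κ * c⁻¹) 0 (y * r)
        - B v * U (κ * c⁻¹ * c⁻¹) 0 (r * (y * r)) := by
      rw [← hH]
      ring
    have hnorm : ‖(n : ℂ) * U κ 0 y‖ = n * ‖U κ 0 y‖ := by
      rw [norm_mul, Complex.norm_real, Real.norm_of_nonneg hnpos.le]
    rw [← hnorm, heq]
    have hs0 : 0 ≤ Real.sqrt n := Real.sqrt_nonneg n
    calc ‖((Real.sqrt n : ℝ) : ℂ) * A v * U (κ * c⁻¹) 0 (y * r)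
          - B v * U (κ * c⁻¹ * c⁻¹) 0 (r * (y * r))‖
        ≤ ‖((Real.sqrt n : ℝ) : ℂ) * A v * U (κ * c⁻¹) 0 (y * r)‖
          + ‖B v * U (κ * c⁻¹ * c⁻¹) 0 (r * (y * r))‖ := norm_sub_le _ _
      _ = Real.sqrt n * ‖A v‖ * ‖U (κ * c⁻¹) 0 (y * r)‖
          + ‖B v‖ * ‖U (κ * c⁻¹ * c⁻¹) 0 (r * (y * r))‖ := by
        rw [norm_mul, norm_mul, norm_mul, Complex.norm_real, Real.norm_of_nonneg hs0]
      _ ≤ Real.sqrt n * 2 * t + 1 * t := by
        refine add_le_add ?_ ?_
        · exact mul_le_mul (mul_le_mul_of_nonneg_left hAv hs0) hb2 (norm_nonneg _)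
            (mul_nonneg hs0 (by norm_num))
        · exact mul_le_mul hBv hb1 (norm_nonneg _) (by norm_num)
      _ = (2 * Real.sqrt n + 1) * t := by ring
  -- the contraction factor
  set q : ℝ := (2 * Real.sqrt n + 1) / n with hq
  have hq0 : 0 ≤ q := div_nonneg (by positivity) hnpos.le
  have hq1 : q < 1 := by
    rw [hq, div_lt_one hnpos]
    exact sqrt_bound949 hn7'
  have hiter : ∀ k : ℕ, ∀ κ y, 0 < y → ‖U κ 0 y‖ ≤ q ^ k * C := by
    intro k
    induction k with
    | zero =>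
      intro κ y hy
      rw [pow_zero, one_mul]
      exact hD.bdd κ 0 y hy
    | succ k ih =>
      intro κ y hy
      have h := hstep (q ^ k * C) ih κ y hy
      have h2 : ‖U κ 0 y‖ ≤ (2 * Real.sqrt n + 1) * (q ^ k * C) / n := by
        rw [le_div_iff₀ hnpos]
        linarith
      have h3 : (2 * Real.sqrt n + 1) * (q ^ k * C) / n = q ^ (k + 1) * C := by
        rw [pow_succ, hq]
        ring
      rw [← h3]
      exact h2
  -- the limit
  have hlim : Filter.Tendsto (fun k : ℕ => q ^ k * C) Filter.atTop (nhds 0) := by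
    have := (tendsto_pow_atTop_nhds_zero_of_lt_one hq0 hq1).mul_const C
    simpa using this
  have hzero : ‖U κ₀ 0 y₀‖ ≤ 0 := ge_of_tendsto' hlim fun k => hiter k κ₀ y₀ hy₀
  have hU0 : U κ₀ 0 y₀ = 0 := norm_le_zero_iff.mp hzero
  exact hne ((hcon κ₀ z₀ 0 y₀ hy₀).trans hU0)

end Fermat.Agent.LT.T7.H949

end

end
-- ===== PACK-END LT/T7/H949/Nonconst.lean

-- ===== PACK-BEGIN LT/T7/H236/MSF.lean
section




/-!
# Row LT, tower T7, node T7.13 (ThinC), leaf T7.13j `MSFC` (helper236), registry row 1276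

OFF-MAIN.  `msfC236 : Fermat.Agent.LT.T7.H37.MSFC`, VERBATIM vs `LT/T7/H37/ThinSpec.lean`
(helper37@8584ef06e, sha256 4c697dce), UNCONDITIONAL.  The proof is `msf_core236`
(`MSFCore.lean`, Mathlib only): universality in norm form by induction on `T'`, the indices
`k ∏_{v ∈ T'} ϖ_v` are pairwise different, Bessel's inequality at the height `t₂ / √X`,
geometric summation over the blocks `r X < N T' ≤ X`, `r = (t₁ / t₂)²`.
-/

set_option autoImplicit false

open IsDedekindDomain NumberField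

namespace Fermat.Agent.LT.T7.H236

open Fermat.Agent.LT.T7.H37

/-- **Leaf T7.13j `MSFC`** (abstract mean square bound over `𝓞 K`, squarefree form). -/
theorem msfC236 : MSFC := by
  intro K _ _ hpid e M A χ c M₁ hM hN hD hk
  exact msf_core236 hpid e M A χ c M₁ hM hN hD.chi_norm hD.cont hD.bessel hD.star hk

end Fermat.Agent.LT.T7.H236

end
-- ===== PACK-END LT/T7/H236/MSF.lean

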