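import Mathlib
import Fermat.Agent.Pack.LT2.E9L2
import Fermat.Agent.Pack.LT2.E9L3
import Fermat.Agent.Pack.LT2.E7L2
import Fermat.Agent.Pack.LT2.E10L2
import Fermat.Agent.Pack.LT2.E10L0
import Fermat.Agent.Pack.LT2.E8L3
import Fermat.Agent.Pack.LT2.E7L3
import Fermat.Agent.Pack.LT2.E9L1
import Fermat.Agent.Pack.LT2.E7L1
import Fermat.Agent.Pack.S44C.G0E12L2
import Fermat.Agent.Pack.LT2.E1L0
import Fermat.Agent.Pack.LT2.E0L2
import Fermat.Agent.Pack.LT2.E2L0

set_option linter.all false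

-- ===== PACK-BEGIN LT/A2/H112/Torus.lean
section


/-!
# Row LT, tower A2, leaf A2.09 `ExpC` (helper112) -- part 1: the algebra of the torus

OFF-MAIN.  Elementary facts about the matrices `torMat t n a b = [[a, -n b], [b, a + t b]]`
(multiplication by `a + b ω`, `ω² - t ω + n = 0`, in the basis `1, ω`), the predicates `InTorus`,
`InTorusRat`, `InTorus1`, `Adm`, `InGPlus` of `Kernel.lean`, and the action `actV` on `𝔸_K²`.
Everything here is algebra; no measure, no topology.
-/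

set_option autoImplicit false
set_option linter.unusedSectionVars false

open IsDedekindDomain NumberField AutomorphicForm
open scoped MatrixGroups

noncomputable section

namespace Fermat.Agent.LT.A2.H112

open Fermat.Agent.LT.H130 Fermat.Agent.LT.H556 Fermat.Agent.LT.A2

/-! ## Matrices -/

section Mat

variable {R : Type*} [CommRing R]

theorem torMat_mul112 (t n a b c d : R) :
    torMat t n a b * torMat t n c d
      = torMat t n (a * c - n * b * d) (a * d + b * c + t * b * d) := by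
  ext i j
  fin_cases i <;> fin_cases j <;> simp [torMat, Matrix.mul_apply, Fin.sum_univ_two] <;> ring

theorem torMat_det112 (t n a b : R) :
    (torMat t n a b).det = a ^ 2 + t * a * b + n * b ^ 2 := by
  simp [torMat, Matrix.det_fin_two]
  ring

theorem torMat_one112 (t n : R) : torMat t n 1 0 = 1 := by
  ext i j
  fin_cases i <;> fin_cases j <;> simp [torMat]

theorem torMat_comm112 (t n a b c d : R) :
    torMat t n a b * torMat t n c d = torMat t n c d * torMat t n a b := by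
  rw [torMat_mul112, torMat_mul112]
  congr 1 <;> ring

theorem torMat_inj112 {t n a b c d : R} (h : torMat t n a b = torMat t n c d) :
    a = c ∧ b = d := by
  have h0 := congrFun (congrFun h 0) 0
  have h1 := congrFun (congrFun h 1) 0
  simp [torMat] at h0 h1
  exact ⟨h0, h1⟩

end Mat

/-! ## The adelic torus -/

section Torus

variable {K : Type} [Field K] [NumberField K]

instance nontrivialAdl112 : Nontrivial (A0.Adl K) := by
  unfold A0.Adl NumberField.AdeleRing
  infer_instance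

theorem countableK112 (K : Type) [Field K] [NumberField K] : Countable K := by
  have h := Algebraic.countable (R := ℚ) (A := K)
  have h2 : {x : K | IsAlgebraic ℚ x} = Set.univ := by
    ext x; simp [Algebra.IsAlgebraic.isAlgebraic x]
  rw [h2] at h
  exact Set.countable_univ_iff.mp h

theorem algebraMap_inj112 : Function.Injective (algebraMap K (A0.Adl K)) :=
  (algebraMap K (A0.Adl K)).injective

/-- The rational binary form `Q(x, y) = x² + t x y + n y²` on `K²`. -/
def qK (t n : K) (ξ : K × K) : K := ξ.1 ^ 2 + t * ξ.1 * ξ.2 + n * ξ.2 ^ 2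

/-- Multiplication of `K ⊕ K ω`. -/
def mulK (t n : K) (c ξ : K × K) : K × K :=
  (c.1 * ξ.1 - n * c.2 * ξ.2, c.1 * ξ.2 + c.2 * ξ.1 + t * c.2 * ξ.2)

/-- Conjugation of `K ⊕ K ω`. -/
def conjK (t : K) (c : K × K) : K × K := (c.1 + t * c.2, -c.2)

theorem qK_mulK (t n : K) (c ξ : K × K) : qK t n (mulK t n c ξ) = qK t n c * qK t n ξ := by
  simp only [qK, mulK]; ring

theorem qK_conjK (t n : K) (c : K × K) : qK t n (conjK t c) = qK t n c := by
  simp only [qK, conjK]; ring

theorem mulK_conjK (t n : K) (c : K × K) : mulK t n c (conjK t c) = (qK t n c, 0) := by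
  simp only [qK, mulK, conjK]; ext <;> simp <;> ring

theorem mulK_comm (t n : K) (c ξ : K × K) : mulK t n c ξ = mulK t n ξ c := by
  simp only [mulK]; ext <;> simp <;> ring

theorem mulK_assoc (t n : K) (a b c : K × K) :
    mulK t n (mulK t n a b) c = mulK t n a (mulK t n b c) := by
  simp only [mulK]; ext <;> simp <;> ring

theorem mulK_one_left (t n : K) (ξ : K × K) : mulK t n (1, 0) ξ = ξ := by
  simp only [mulK]; ext <;> simp

theorem mulK_scalar (t n : K) (a : K) (ξ : K × K) : mulK t n (a, 0) ξ = (a * ξ.1, a * ξ.2) := by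
  simp only [mulK]; ext <;> simp

/-- Anisotropy: if `X² - tX + n` has no root in `K` then `Q(ξ) = 0` only for `ξ = 0`. -/
theorem qK_eq_zero_iff {t n : K} (hirr : ∀ x : K, x ^ 2 - t * x + n ≠ 0) (ξ : K × K) :
    qK t n ξ = 0 ↔ ξ = 0 := by
  constructor
  · intro h
    by_cases hy : ξ.2 = 0
    · have hx : ξ.1 = 0 := by
        simp only [qK, hy] at h
        simpa using h
      exact Prod.ext hx hy
    · exfalso
      apply hirr (-(ξ.1 / ξ.2))
      have : (-(ξ.1 / ξ.2)) ^ 2 - t * (-(ξ.1 / ξ.2)) + n = qK t n ξ / ξ.2 ^ 2 := by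
        simp only [qK]; field_simp; ring
      rw [this, h, zero_div]
  · rintro rfl
    simp [qK]

theorem mulK_left_injective {t n : K} (hirr : ∀ x : K, x ^ 2 - t * x + n ≠ 0) {ξ : K × K}
    (hξ : ξ ≠ 0) {c c' : K × K} (h : mulK t n c ξ = mulK t n c' ξ) : c = c' := by
  have h1 : mulK t n (c - c') ξ = 0 := by
    have : mulK t n (c - c') ξ = mulK t n c ξ - mulK t n c' ξ := by
      simp only [mulK]; ext <;> simp <;> ring
    rw [this, h, sub_self]
  have h2 : qK t n (c - c') * qK t n ξ = 0 := by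
    rw [← qK_mulK, h1]; simp [qK]
  rcases mul_eq_zero.mp h2 with h3 | h3
  · exact sub_eq_zero.mp ((qK_eq_zero_iff hirr _).mp h3)
  · exact absurd ((qK_eq_zero_iff hirr _).mp h3) hξ

end Torus

/-! ## The torus inside `GL₂(𝔸_K)` -/

section GK

variable {K : Type} [Field K] [NumberField K]

theorem coe_det112 (m : A0.G K) :
    ((Matrix.GeneralLinearGroup.det m : (A0.Adl K)ˣ) : A0.Adl K)
      = (m : Matrix (Fin 2) (Fin 2) (A0.Adl K)).det := rfl

theorem inTorus_one112 (t n : K) : InTorus t n (1 : A0.G K) :=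
  ⟨1, 0, by rw [torMat_one112]; rfl⟩

theorem inTorus_mul112 {t n : K} {m m' : A0.G K} (h : InTorus t n m) (h' : InTorus t n m') :
    InTorus t n (m * m') := by
  obtain ⟨a, b, hab⟩ := h
  obtain ⟨c, d, hcd⟩ := h'
  refine ⟨a * c - algebraMap K (A0.Adl K) n * b * d,
    a * d + b * c + algebraMap K (A0.Adl K) t * b * d, ?_⟩
  rw [Units.val_mul, hab, hcd, torMat_mul112]

theorem inTorus_inv112 {t n : K} {m : A0.G K} (h : InTorus t n m) : InTorus t n m⁻¹ := by
  obtain ⟨a, b, hab⟩ := h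
  set δ : (A0.Adl K)ˣ := Matrix.GeneralLinearGroup.det m with hδ
  have hdet : (δ : A0.Adl K) = a ^ 2 + algebraMap K (A0.Adl K) t * a * b
      + algebraMap K (A0.Adl K) n * b ^ 2 := by
    rw [hδ, coe_det112, hab, torMat_det112]
  refine ⟨(a + algebraMap K (A0.Adl K) t * b) * ((δ⁻¹ : (A0.Adl K)ˣ) : A0.Adl K),
    -b * ((δ⁻¹ : (A0.Adl K)ˣ) : A0.Adl K), ?_⟩
  apply Units.inv_eq_of_mul_eq_one_right
  rw [hab, torMat_mul112]
  have h1 : a * ((a + algebraMap K (A0.Adl K) t * b) * ((δ⁻¹ : (A0.Adl K)ˣ) : A0.Adl K))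
      - algebraMap K (A0.Adl K) n * b * (-b * ((δ⁻¹ : (A0.Adl K)ˣ) : A0.Adl K)) = 1 := by
    have : a * ((a + algebraMap K (A0.Adl K) t * b) * ((δ⁻¹ : (A0.Adl K)ˣ) : A0.Adl K))
      - algebraMap K (A0.Adl K) n * b * (-b * ((δ⁻¹ : (A0.Adl K)ˣ) : A0.Adl K))
        = (δ : A0.Adl K) * ((δ⁻¹ : (A0.Adl K)ˣ) : A0.Adl K) := by
      rw [hdet]; ring
    rw [this, Units.mul_inv]
  have h2 : a * (-b * ((δ⁻¹ : (A0.Adl K)ˣ) : A0.Adl K))
      + b * ((a + algebraMap K (A0.Adl K) t * b) * ((δ⁻¹ : (A0.Adl K)ˣ) : A0.Adl K))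
      + algebraMap K (A0.Adl K) t * b * (-b * ((δ⁻¹ : (A0.Adl K)ˣ) : A0.Adl K)) = 0 := by
    ring
  rw [h1, h2, torMat_one112]

theorem torus_comm112 {t n : K} {m m' : A0.G K} (h : InTorus t n m) (h' : InTorus t n m') :
    m * m' = m' * m := by
  obtain ⟨a, b, hab⟩ := h
  obtain ⟨c, d, hcd⟩ := h'
  apply Units.ext
  rw [Units.val_mul, Units.val_mul, hab, hcd, torMat_comm112]

theorem inTorusRat_inTorus112 {t n : K} {m : A0.G K} (h : InTorusRat t n m) : InTorus t n m := by
  obtain ⟨a, b, hab⟩ := h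
  exact ⟨_, _, hab⟩

theorem inTorusRat_one112 (t n : K) : InTorusRat t n (1 : A0.G K) :=
  ⟨1, 0, by rw [map_one, map_zero, torMat_one112]; rfl⟩

theorem inTorusRat_mul112 {t n : K} {m m' : A0.G K} (h : InTorusRat t n m)
    (h' : InTorusRat t n m') : InTorusRat t n (m * m') := by
  obtain ⟨a, b, hab⟩ := h
  obtain ⟨c, d, hcd⟩ := h'
  refine ⟨a * c - n * b * d, a * d + b * c + t * b * d, ?_⟩
  rw [Units.val_mul, hab, hcd, torMat_mul112]
  simp only [map_sub, map_add, map_mul]

/-- The determinant of a rational torus element, in coordinates. -/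
theorem det_of_coord112 {t n : K} {m : A0.G K} {c : K × K}
    (h : (m : Matrix (Fin 2) (Fin 2) (A0.Adl K))
      = torMat (algebraMap K (A0.Adl K) t) (algebraMap K (A0.Adl K) n)
          (algebraMap K (A0.Adl K) c.1) (algebraMap K (A0.Adl K) c.2)) :
    ((Matrix.GeneralLinearGroup.det m : (A0.Adl K)ˣ) : A0.Adl K)
      = algebraMap K (A0.Adl K) (qK t n c) := by
  rw [coe_det112, h, torMat_det112]
  simp only [qK, map_add, map_mul, map_pow]

theorem qK_ne_zero_of_coord112 {t n : K} {m : A0.G K} {c : K × K}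
    (h : (m : Matrix (Fin 2) (Fin 2) (A0.Adl K))
      = torMat (algebraMap K (A0.Adl K) t) (algebraMap K (A0.Adl K) n)
          (algebraMap K (A0.Adl K) c.1) (algebraMap K (A0.Adl K) c.2)) :
    qK t n c ≠ 0 := by
  intro h0
  have h1 := det_of_coord112 h
  rw [h0, map_zero] at h1
  exact (Matrix.GeneralLinearGroup.det m).ne_zero h1

/-- The rational torus element with coordinates `c`, `Q(c) ≠ 0`. -/
def tK (t n : K) (c : K × K) (hc : qK t n c ≠ 0) : A0.G K :=
  Matrix.GeneralLinearGroup.mk''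
    (torMat (algebraMap K (A0.Adl K) t) (algebraMap K (A0.Adl K) n)
      (algebraMap K (A0.Adl K) c.1) (algebraMap K (A0.Adl K) c.2))
    (by
      have : (torMat (algebraMap K (A0.Adl K) t) (algebraMap K (A0.Adl K) n)
          (algebraMap K (A0.Adl K) c.1) (algebraMap K (A0.Adl K) c.2)).det
            = algebraMap K (A0.Adl K) (qK t n c) := by
        rw [torMat_det112]; simp only [qK, map_add, map_mul, map_pow]
      rw [this]
      exact (IsUnit.mk0 _ hc).map (algebraMap K (A0.Adl K)))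

theorem coe_tK (t n : K) (c : K × K) (hc : qK t n c ≠ 0) :
    ((tK t n c hc : A0.G K) : Matrix (Fin 2) (Fin 2) (A0.Adl K))
      = torMat (algebraMap K (A0.Adl K) t) (algebraMap K (A0.Adl K) n)
          (algebraMap K (A0.Adl K) c.1) (algebraMap K (A0.Adl K) c.2) := rfl

theorem inTorusRat_tK (t n : K) (c : K × K) (hc : qK t n c ≠ 0) :
    InTorusRat t n (tK t n c hc) := ⟨c.1, c.2, coe_tK t n c hc⟩

theorem det_tK (t n : K) (c : K × K) (hc : qK t n c ≠ 0) :
    ((Matrix.GeneralLinearGroup.det (tK t n c hc) : (A0.Adl K)ˣ) : A0.Adl K)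
      = algebraMap K (A0.Adl K) (qK t n c) :=
  det_of_coord112 (coe_tK t n c hc)

theorem inTorusRat_inv112 {t n : K} {m : A0.G K} (h : InTorusRat t n m) :
    InTorusRat t n m⁻¹ := by
  obtain ⟨a, b, hab⟩ := h
  have hq : qK t n (a, b) ≠ 0 := qK_ne_zero_of_coord112 (c := (a, b)) hab
  have hqdef : qK t n (a, b) = a ^ 2 + t * a * b + n * b ^ 2 := rfl
  generalize qK t n (a, b) = q at hq hqdef
  refine ⟨(a + t * b) / q, -b / q, ?_⟩
  apply Units.inv_eq_of_mul_eq_one_right
  rw [hab, torMat_mul112]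
  have e1 : a * ((a + t * b) / q) - n * b * (-b / q) = 1 := by
    have : a * ((a + t * b) / q) - n * b * (-b / q) = (a ^ 2 + t * a * b + n * b ^ 2) / q := by
      field_simp; ring
    rw [this, ← hqdef, div_self hq]
  have e2 : a * (-b / q) + b * ((a + t * b) / q) + t * b * (-b / q) = 0 := by
    field_simp; ring
  have h1 : algebraMap K (A0.Adl K) a * algebraMap K (A0.Adl K) ((a + t * b) / q)
      - algebraMap K (A0.Adl K) n * algebraMap K (A0.Adl K) b
        * algebraMap K (A0.Adl K) (-b / q) = 1 := by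
    rw [← map_mul, ← map_mul, ← map_mul, ← map_sub, e1, map_one]
  have h2 : algebraMap K (A0.Adl K) a * algebraMap K (A0.Adl K) (-b / q)
      + algebraMap K (A0.Adl K) b * algebraMap K (A0.Adl K) ((a + t * b) / q)
      + algebraMap K (A0.Adl K) t * algebraMap K (A0.Adl K) b
        * algebraMap K (A0.Adl K) (-b / q) = 0 := by
    rw [← map_mul, ← map_mul, ← map_mul, ← map_mul, ← map_add, ← map_add, e2, map_zero]
  rw [h1, h2, torMat_one112]

theorem inTorus1_one112 (t n : K) : InTorus1 t n (1 : A0.G K) :=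
  ⟨inTorus_one112 t n, map_one _⟩

theorem inTorus1_mul112 {t n : K} {m m' : A0.G K} (h : InTorus1 t n m) (h' : InTorus1 t n m') :
    InTorus1 t n (m * m') :=
  ⟨inTorus_mul112 h.1 h'.1, by rw [map_mul, h.2, h'.2, one_mul]⟩

theorem inTorus1_inv112 {t n : K} {m : A0.G K} (h : InTorus1 t n m) : InTorus1 t n m⁻¹ :=
  ⟨inTorus_inv112 h.1, by rw [map_inv, h.2, inv_one]⟩

/-! ## The action on `𝔸_K²` -/

theorem actV_one112 (ξ : A0.Adl K × A0.Adl K) : actV (1 : A0.G K) ξ = ξ := by
  simp [actV]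

theorem actV_mul112 (m m' : A0.G K) (ξ : A0.Adl K × A0.Adl K) :
    actV (m * m') ξ = actV m (actV m' ξ) := by
  simp only [actV, Units.val_mul, Matrix.mul_apply, Fin.sum_univ_two]
  ext <;> simp <;> ring

theorem actV_zero112 (m : A0.G K) : actV m (0 : A0.Adl K × A0.Adl K) = 0 := by
  simp [actV]

theorem actV_inv_eq112 {m : A0.G K} {v w : A0.Adl K × A0.Adl K} (h : actV m w = v) :
    actV m⁻¹ v = w := by
  rw [← h, ← actV_mul112, inv_mul_cancel, actV_one112]

theorem actV_rat112 {t n : K} {y : A0.G K} {c : K × K}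
    (hy : (y : Matrix (Fin 2) (Fin 2) (A0.Adl K))
      = torMat (algebraMap K (A0.Adl K) t) (algebraMap K (A0.Adl K) n)
          (algebraMap K (A0.Adl K) c.1) (algebraMap K (A0.Adl K) c.2)) (ξ : K × K) :
    actV y (ratV ξ) = ratV (mulK t n c ξ) := by
  simp only [actV, ratV, hy, mulK, torMat]
  ext <;> simp <;> ring

theorem ratV_zero112 : ratV (0 : K × K) = (0 : A0.Adl K × A0.Adl K) := by
  simp [ratV]

theorem ratV_injective112 : Function.Injective (ratV : K × K → A0.Adl K × A0.Adl K) := by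
  intro a b h
  simp only [ratV, Prod.mk.injEq] at h
  exact Prod.ext (algebraMap_inj112 h.1) (algebraMap_inj112 h.2)

end GK

end Fermat.Agent.LT.A2.H112

end

end
-- ===== PACK-END LT/A2/H112/Torus.lean

-- ===== PACK-BEGIN LT/A2/KernelTop.lean
section




/-!
# Row LT, tower A2 -- the PROVED tops of level 3 and the tower top (helper950)

* `kernelT_of_leaves` : `KernelTC` from `WeilLocalC`, `Poisson2C`, `HasseNormC`, `ThetaInvC`,
  `LiftExC`, `WhitExC`, `ExpC`, `InvC`;
* `kernel_of_leaves`  : `KernelC` from `TorusCharC` and `KernelTC`;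
* `a2_top` : the wall leaf `A2_556` (VERBATIM) from ALL the leaves of the tower.
-/

set_option autoImplicit false

open IsDedekindDomain NumberField AutomorphicForm MeasureTheory
open scoped MatrixGroups

noncomputable section

namespace Fermat.Agent.LT.A2

open Fermat.Agent.LT.H130 Fermat.Agent.LT.H556

/-- **Level 3**: the kernel in torus coordinates from its leaves. -/
theorem kernelT_of_leaves (hWL : WeilLocalC) (hP : Poisson2C) (hH : HasseNormC)
    (hTI : ThetaInvC) (hLE : LiftExC) (hWE : WhitExC) (hE : ExpC) (hI : InvC) : KernelTC := by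
  intro K _ _ t n χT hT hcx 𝔡 h𝔡
  obtain ⟨D, ht, hn, hχ, hle, hGood, hind, hφ, hW⟩ := hWL K t n χT hT hcx 𝔡 h𝔡
  subst ht hn hχ
  have hinv : D.ThetaInv := hTI hP K D hGood
  obtain ⟨φ, hφL⟩ := hLE hH K D hGood hinv
  obtain ⟨W, hWW⟩ := hWE K D hGood
  obtain ⟨hcont, hbdd⟩ := hφ φ hφL
  obtain ⟨hWc, hWne, hWsum, hWmean, hWhecke⟩ := hW W hWW
  obtain ⟨hequiv, hexp⟩ := hE hH K D hGood hinv φ W hφL hWW
  obtain ⟨hlev, hsc, hcp⟩ := hI K D hGood φ hφL
  refine ⟨D.π, D.ψ, φ, W, ?_, hind, hle⟩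
  exact
    { char := hGood.char
      cont := hcont
      bdd := hbdd
      left_inv := hφL.left_inv
      level_inv := hlev
      arch_scalar := hsc
      arch_compact := hcp
      whit := ⟨hequiv, hWsum, hexp⟩
      W_cont := hWc
      W_ne := hWne
      W_mean := hWmean
      W_hecke := hWhecke }

/-- **Level 3**: `KernelC` from the dictionary and the kernel in torus coordinates. -/
theorem kernel_of_leaves (hTC : TorusCharC) (hKT : KernelTC) : KernelC := by
  intro K L _ _ _ _ _ h2 hcx χ hχ hfin hns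
  obtain ⟨t, n, χT, 𝔡, h𝔡, hT, hdict⟩ := hTC K L h2 hcx χ hχ hfin hns
  obtain ⟨π, ψ, φ, W, hpre, hindT, hle⟩ := hKT K t n χT hT hcx 𝔡 h𝔡
  exact ⟨π, ψ, φ, W, hpre, hdict π hindT hle⟩

/-- **THE TOWER TOP**: the wall leaf `A2_556` (helper556, VERBATIM) from the leaves of tower A2.
Interfaces with other towers: `AdeleQuotC` (T1 / T3), `Poisson2C` (T3), `HasseNormC` (CFT);
`GalSeedC` is cut by helper38 (uses tower CFT). -/
theorem a2_top (hGal : GalSeedC) (hTC : TorusCharC) (hWL : WeilLocalC) (hP : Poisson2C)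
    (hH : HasseNormC) (hTI : ThetaInvC) (hLE : LiftExC) (hWE : WhitExC) (hE : ExpC) (hI : InvC)
    (hQ : AdeleQuotC) (hC : CuspOfWhitC) (hM : MeanOfWhitC) (hN : NeZeroOfWhitC) :
    WT.A2_556 :=
  a2_of_theta_galSeed
    (theta_of_leaves (kernel_of_leaves hTC (kernelT_of_leaves hWL hP hH hTI hLE hWE hE hI))
      hQ hC hM hN)
    hGal

end Fermat.Agent.LT.A2

end

end
-- ===== PACK-END LT/A2/KernelTop.lean

-- ===== PACK-BEGIN LT/A2/H581/WhitEx.lean
section


/-!
# Row LT, tower A2, leaf A2.08 `WhitExC` (helper581), OFF-MAIN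

`WhitExC`: for good data `D` the Whittaker function (orbital integral over the norm-one torus)
exists, i.e. the integral does not depend on the choice of `m_g`.

Proof.  Two admissible `m_g`, `m_g'` for the same `g` differ by `c = m_g' m_g⁻¹ ∈ T¹(𝔸_K)`; the
torus is commutative, `μT` is carried by `T¹` and invariant under translation by `T¹`
(`KData.IsMeasured.carried`, `.inv`), so the change of variables `m ↦ c m` does not change the
integral (no measurability of the integrand is needed: translation is a measurable equivalence).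

Only `D.Good.measured.carried` and `D.Good.measured.inv` are used.
-/

set_option autoImplicit false
set_option linter.style.haveILetI false

open IsDedekindDomain NumberField AutomorphicForm MeasureTheory
open scoped MatrixGroups

noncomputable section

namespace Fermat.Agent.LT.A2.H581

open Fermat.Agent.LT.H130 Fermat.Agent.LT.H556 Fermat.Agent.LT.A2

/-! ## Algebra of the torus matrices -/

section TorMat

variable {R : Type*} [CommRing R]

theorem torMat_mul581 (t n a b a' b' : R) :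
    torMat t n a b * torMat t n a' b'
      = torMat t n (a * a' - n * (b * b')) (a * b' + b * a' + t * (b * b')) := by
  unfold torMat
  ext i j
  fin_cases i <;> fin_cases j <;> simp [Matrix.mul_apply, Fin.sum_univ_two] <;> ring

theorem torMat_comm581 (t n a b a' b' : R) :
    torMat t n a b * torMat t n a' b' = torMat t n a' b' * torMat t n a b := by
  rw [torMat_mul581, torMat_mul581]
  congr 1 <;> ring

theorem torMat_det581 (t n a b : R) :
    (torMat t n a b).det = a * a + t * (a * b) + n * (b * b) := by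
  unfold torMat
  rw [Matrix.det_fin_two_of]
  ring

end TorMat

section Torus

variable {K : Type} [Field K] [NumberField K]

theorem inTorus_mul581 {t n : K} {m m' : A0.G K} (h : InTorus t n m) (h' : InTorus t n m') :
    InTorus t n (m * m') := by
  obtain ⟨a, b, hm⟩ := h
  obtain ⟨a', b', hm'⟩ := h'
  refine ⟨a * a' - algebraMap K (A0.Adl K) n * (b * b'),
    a * b' + b * a' + algebraMap K (A0.Adl K) t * (b * b'), ?_⟩
  rw [Matrix.GeneralLinearGroup.coe_mul, hm, hm', torMat_mul581]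

theorem inTorus_comm581 {t n : K} {m m' : A0.G K} (h : InTorus t n m) (h' : InTorus t n m') :
    m * m' = m' * m := by
  obtain ⟨a, b, hm⟩ := h
  obtain ⟨a', b', hm'⟩ := h'
  apply Units.ext
  show (m : Matrix (Fin 2) (Fin 2) (A0.Adl K)) * (m' : Matrix (Fin 2) (Fin 2) (A0.Adl K))
    = (m' : Matrix (Fin 2) (Fin 2) (A0.Adl K)) * (m : Matrix (Fin 2) (Fin 2) (A0.Adl K))
  rw [hm, hm', torMat_comm581]

theorem inTorus_inv581 {t n : K} {m : A0.G K} (h : InTorus t n m) : InTorus t n m⁻¹ := by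
  obtain ⟨a, b, hm⟩ := h
  set T := algebraMap K (A0.Adl K) t with hT
  set N := algebraMap K (A0.Adl K) n with hN
  -- the determinant, a unit of the adele ring
  set d : (A0.Adl K)ˣ := Matrix.GeneralLinearGroup.det m with hd
  have hdval : (d : A0.Adl K) = a * a + T * (a * b) + N * (b * b) := by
    have h1 : (d : A0.Adl K) = (m : Matrix (Fin 2) (Fin 2) (A0.Adl K)).det := rfl
    rw [h1, hm, torMat_det581]
  have hdd : ((d⁻¹ : (A0.Adl K)ˣ) : A0.Adl K) * (a * a + T * (a * b) + N * (b * b)) = 1 := by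
    rw [← hdval]
    exact Units.inv_mul d
  refine ⟨((d⁻¹ : (A0.Adl K)ˣ) : A0.Adl K) * (a + T * b),
    -(((d⁻¹ : (A0.Adl K)ˣ) : A0.Adl K) * b), ?_⟩
  have key : torMat T N (((d⁻¹ : (A0.Adl K)ˣ) : A0.Adl K) * (a + T * b))
      (-(((d⁻¹ : (A0.Adl K)ˣ) : A0.Adl K) * b)) * (m : Matrix (Fin 2) (Fin 2) (A0.Adl K)) = 1 := by
    rw [hm, torMat_mul581]
    have e1 : ((d⁻¹ : (A0.Adl K)ˣ) : A0.Adl K) * (a + T * b) * a
        - N * (-(((d⁻¹ : (A0.Adl K)ˣ) : A0.Adl K) * b) * b) = 1 := by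
      rw [← hdd]; ring
    have e2 : ((d⁻¹ : (A0.Adl K)ˣ) : A0.Adl K) * (a + T * b) * b
        + -(((d⁻¹ : (A0.Adl K)ˣ) : A0.Adl K) * b) * a
        + T * (-(((d⁻¹ : (A0.Adl K)ˣ) : A0.Adl K) * b) * b) = 0 := by
      ring
    rw [e1, e2]
    unfold torMat
    ext i j
    fin_cases i <;> fin_cases j <;> simp
  exact Units.inv_eq_of_mul_eq_one_left key

theorem inTorus1_inv581 {t n : K} {m : A0.G K} (h : InTorus1 t n m) : InTorus1 t n m⁻¹ := by
  refine ⟨inTorus_inv581 h.1, ?_⟩
  rw [map_inv, h.2, inv_one]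

/-- Two admissible partners of the same `g` differ by an element of the norm-one torus. -/
theorem inTorus1_of_adm581 {t n : K} {g mg mg' : A0.G K} (h : Adm t n g mg)
    (h' : Adm t n g mg') : InTorus1 t n (mg' * mg⁻¹) := by
  refine ⟨inTorus_mul581 h'.1 (inTorus_inv581 h.1), ?_⟩
  rw [map_mul, map_inv, ← h'.2, ← h.2, mul_inv_cancel]

end Torus

/-! ## Invariance of the orbital integral -/

section Main

variable {K : Type} [Field K] [NumberField K]

/-- `μT` is invariant under left translation by the norm-one torus, as an image measure. -/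
theorem map_mulLeft581 (D : KData K) (hM : D.IsMeasured) {c : A0.G K}
    (hc : InTorus1 D.t D.n c) :
    @Measure.map (A0.G K) (A0.G K) (borel (A0.G K)) (borel (A0.G K))
      (fun m => c * m) D.μT = D.μT := by
  letI : MeasurableSpace (A0.G K) := borel (A0.G K)
  haveI : BorelSpace (A0.G K) := ⟨rfl⟩
  have hmeas : Measurable (fun m : A0.G K => c * m) := (continuous_const_mul c).measurable
  refine Measure.ext fun S hS => ?_
  rw [Measure.map_apply hmeas hS]
  have himg : (fun m : A0.G K => c * m) ⁻¹' S = (fun m : A0.G K => c⁻¹ * m) '' S := by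
    have := Set.image_mul_left (a := c⁻¹) (t := S)
    rw [inv_inv] at this
    exact this.symm
  rw [himg]
  exact hM.inv c⁻¹ (inTorus1_inv581 hc) S

/-- **Independence of `m_g`.** -/
theorem intT_indep581 (D : KData K) (hM : D.IsMeasured) {g mg mg' : A0.G K}
    (h : Adm D.t D.n g mg) (h' : Adm D.t D.n g mg') :
    D.intT {m | InTorus1 D.t D.n m} (fun m => D.F g (m * mg') (1, 0) * D.χT (m * mg'))
      = D.intT {m | InTorus1 D.t D.n m}
          (fun m => D.F g (m * mg) (1, 0) * D.χT (m * mg)) := by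
  letI : MeasurableSpace (A0.G K) := borel (A0.G K)
  haveI : BorelSpace (A0.G K) := ⟨rfl⟩
  have hae : ∀ᵐ m ∂D.μT, m ∈ {m | InTorus1 D.t D.n m} := by
    rw [ae_iff]
    exact hM.carried
  have hres : D.μT.restrict {m | InTorus1 D.t D.n m} = D.μT :=
    Measure.restrict_eq_self_of_ae_mem hae
  have hc : InTorus1 D.t D.n (mg' * mg⁻¹) := inTorus1_of_adm581 h h'
  show ∫ m in {m | InTorus1 D.t D.n m}, D.F g (m * mg') (1, 0) * D.χT (m * mg') ∂D.μT
    = ∫ m in {m | InTorus1 D.t D.n m}, D.F g (m * mg) (1, 0) * D.χT (m * mg) ∂D.μT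
  rw [hres]
  have h1 : ∫ m, D.F g (m * mg') (1, 0) * D.χT (m * mg') ∂D.μT
      = ∫ m, (fun x => D.F g (x * mg) (1, 0) * D.χT (x * mg)) ((mg' * mg⁻¹) * m) ∂D.μT := by
    apply integral_congr_ae
    filter_upwards [hae] with m hm
    have e : mg' * mg⁻¹ * m * mg = m * mg' := by
      rw [← inTorus_comm581 hm.1 hc.1]
      group
    simp only [e]
  rw [h1]
  have h2 := MeasureTheory.integral_map_equiv (μ := D.μT)
    ((Homeomorph.mulLeft (mg' * mg⁻¹)).toMeasurableEquiv)
    (fun x => D.F g (x * mg) (1, 0) * D.χT (x * mg))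
  have h3 : Measure.map ((Homeomorph.mulLeft (mg' * mg⁻¹)).toMeasurableEquiv) D.μT = D.μT :=
    map_mulLeft581 D hM hc
  rw [h3] at h2
  exact h2.symm

/-- **Leaf A2.08 `WhitExC`.** -/
theorem whitExC_h581 : WhitExC := by
  intro K _ _ D hG
  classical
  refine ⟨fun g => if h : InGPlus D.t D.n g then
      D.intT {m | InTorus1 D.t D.n m}
        (fun m => D.F g (m * h.choose) (1, 0) * D.χT (m * h.choose))
    else 0, ?_, ?_⟩
  · intro g mg hadm
    have hP : InGPlus D.t D.n g := ⟨mg, hadm⟩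
    simp only [dif_pos hP]
    exact intT_indep581 D hG.measured hadm hP.choose_spec
  · intro g hg
    simp only [dif_neg hg]

end Main

end Fermat.Agent.LT.A2.H581

end

end
-- ===== PACK-END LT/A2/H581/WhitEx.lean

-- ===== PACK-BEGIN LT/T3/H800/ProdHaar.lean
section



/-!
# Row LT, tower T3, sub-leaf T3.18a.4.5.M2 `ProdHaarC129` (helper800), OFF-MAIN

`prodHaarC800 : H129.ProdHaarC129`, the Prop of `LT/H129/SplitSpec.lean`
(helper129@d13fee826, sha256 3547169edd0252c3) VERBATIM.  Mathlib only.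

Proof.  `ν₀` = a Haar measure of `A`, `π` = Lebesgue measure of `ι → ℂ`; `ν₀.prod π` is a Haar
measure of `A × (ι → ℂ)`, so `μ = c • ν₀.prod π` (uniqueness, second countable case); Fubini for
pure tensors (`integral_prod_mul`, `integral_fintype_prod_volume_eq_prod`).  Integrability:
the pure tensor is continuous with compact support.
-/

set_option autoImplicit false

open MeasureTheory

noncomputable section

namespace Fermat.Agent.LT.T3.H800

/-- A pure tensor of functions with compact support has compact support. -/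
theorem hasCompactSupport_tensor800 {A ι : Type} [TopologicalSpace A] [T2Space A] [Fintype ι]
    {φ₀ : A → ℂ} {φ : ι → ℂ → ℂ} (h₀ : HasCompactSupport φ₀)
    (h : ∀ w, HasCompactSupport (φ w)) :
    HasCompactSupport (fun p : A × (ι → ℂ) => φ₀ p.1 * ∏ w : ι, φ w (p.2 w)) := by
  have hK : IsCompact (tsupport φ₀ ×ˢ Set.pi Set.univ fun w => tsupport (φ w)) :=
    h₀.prod (isCompact_univ_pi fun w => h w)
  refine HasCompactSupport.intro hK fun p hp => ?_
  by_contra hne
  apply hp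
  have h1 : φ₀ p.1 ≠ 0 := fun h0 => hne (by rw [h0, zero_mul])
  have h2 : ∏ w : ι, φ w (p.2 w) ≠ 0 := fun h0 => hne (by rw [h0, mul_zero])
  refine ⟨subset_tsupport _ h1, fun w _ => subset_tsupport _ ?_⟩
  exact (Finset.prod_ne_zero_iff.mp h2) w (Finset.mem_univ w)

/-- **Sub-leaf M2 `ProdHaarC129`.** -/
theorem prodHaarC800 : Fermat.Agent.LT.H129.ProdHaarC129 := by
  intro A _ _ _ _ _ _ ι _
  let _ : MeasurableSpace A := borel A
  have : BorelSpace A := ⟨rfl⟩
  intro μ hμ
  refine ⟨Measure.addHaar, inferInstance, ?_⟩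
  set ν₀ : Measure A := Measure.addHaar with hν₀
  have hν₀' : ν₀.IsAddHaarMeasure := by rw [hν₀]; infer_instance
  set m : Measure (A × (ι → ℂ)) := ν₀.prod (volume : Measure (ι → ℂ)) with hm
  have hm' : m.IsAddHaarMeasure := Measure.prod.instIsAddHaarMeasure _ _
  have hμm : μ = Measure.addHaarScalarFactor μ m • m := Measure.isAddLeftInvariant_eq_smul μ m
  refine ⟨((Measure.addHaarScalarFactor μ m : NNReal) : ℝ), fun φ₀ φ hc₀ hs₀ hc hs => ?_⟩
  have hcont : Continuous (fun p : A × (ι → ℂ) => φ₀ p.1 * ∏ w : ι, φ w (p.2 w)) :=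
    (hc₀.comp continuous_fst).mul
      (continuous_finsetProd _ fun w _ => (hc w).comp ((continuous_apply w).comp continuous_snd))
  have hsupp := hasCompactSupport_tensor800 hs₀ hs
  refine ⟨hcont.integrable_of_hasCompactSupport hsupp, ?_⟩
  have h1 : ∫ p, φ₀ p.1 * ∏ w : ι, φ w (p.2 w) ∂μ
      = ((Measure.addHaarScalarFactor μ m : NNReal) : ℝ)
        • ∫ p, φ₀ p.1 * ∏ w : ι, φ w (p.2 w) ∂m := by
    conv_lhs => rw [hμm]
    rw [integral_smul_nnreal_measure]
    rfl
  have h2 : ∫ p, φ₀ p.1 * ∏ w : ι, φ w (p.2 w) ∂m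
      = (∫ x, φ₀ x ∂ν₀) * ∫ y : ι → ℂ, ∏ w : ι, φ w (y w) :=
    integral_prod_mul φ₀ (fun y : ι → ℂ => ∏ w : ι, φ w (y w))
  have h3 : ∫ y : ι → ℂ, ∏ w : ι, φ w (y w) = ∏ w : ι, ∫ z : ℂ, φ w z :=
    integral_fintype_prod_volume_eq_prod φ
  rw [h1, h2, h3, Complex.real_smul, mul_assoc]

end Fermat.Agent.LT.T3.H800

end

end
-- ===== PACK-END LT/T3/H800/ProdHaar.lean

-- ===== PACK-BEGIN LT/T2/H250/FDTop.lean
section




/-!
# Row LT, tower T2, leaf T2.23a `LeafFDCore` (= T2.03a `LeafFD` in the core form): THE TOP,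
# class-generic (helper250)

OFF-MAIN.  Typed against byte-identical copies of `LT/T2/H465/GPSCoreCut.lean` (helper465,
sha256 `b3d0871d…`), `LT/T2/H511/FDSpec.lean` (helper511, `ad79b18a…`), `LT/T2/H386/GPSSpec.lean`
(`fb5aa9e8…`), `LT/T2/Spec.lean` v3 (`b934629a…`), `LT/T1/Spec.lean` (`e8ae48d6…`), A0 (`66d3374a…`).

`fdBoundP_of250`: for ANY class `P` of functions which are left invariant under `U(𝔫)`, the
finite difference bound follows from `T1.SiegelCompactC`, `H511.ContrC`, `H511.ConjAlgC`,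
`H511.CptC` and the uniform smoothness `UnifSmoothP250 P` (= `H511.UnifSmoothC` for the class `P`).

* `leafFDCore_of250 : LeafContr → LeafUnifSmoothCore250 → LeafConjAlg → LeafCpt → H465.LeafFDCore`
  (class `H465.IsTestCore`: no condition at `K_∞`);
* `leafFD_of250 : LeafContr → LeafUnifSmooth → LeafConjAlg → LeafCpt → H386.LeafFD`
  (class `T2.IsTestFn`; the sub-leaves of helper511 VERBATIM).

The finite parts of the steps are dropped ONE AT A TIME (the function `y ↦ f (ω⁻¹ n(y) ω h)` is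
invariant under the translation by the finite part of each single step, at every point), so
`ContrC` is used for the compact set `-𝒟` only and no sum over sublists occurs.
-/

set_option autoImplicit false
set_option linter.unusedSectionVars false

open IsDedekindDomain NumberField MeasureTheory
open Fermat.Agent.LT.H556.A0
open Fermat.Agent.LT

noncomputable section
namespace Fermat.Agent.LT.T2.H250

open Fermat.Agent.LT.T2 Fermat.Agent.LT.T2.H386 Fermat.Agent.LT.T2.H511

variable {K : Type} [Field K] [NumberField K]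

/-! ## 1. The unipotent elements -/

theorem unip386_add250 (x y : Adl K) : unip386 (x + y) = unip386 x * unip386 y := by
  apply Units.ext
  rw [Units.val_mul, unip386_coe, unip386_coe, unip386_coe]
  ext i j
  fin_cases i <;> fin_cases j <;> simp [Matrix.mul_apply, Fin.sum_univ_two, add_comm]

theorem unip386_zero250 : unip386 (0 : Adl K) = 1 := by
  apply Units.ext
  rw [unip386_coe]
  ext i j
  fin_cases i <;> fin_cases j <;> simp

/-- `ω⁻¹ n(y - u) ω h = (ω⁻¹ n(-u) ω) (ω⁻¹ n(y) ω h)`. -/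
theorem conj_sub250 (ω h : G K) (y u : Adl K) :
    ω⁻¹ * unip386 (y - u) * ω * h = (ω⁻¹ * unip386 (-u) * ω) * (ω⁻¹ * unip386 y * ω * h) := by
  have : y - u = -u + y := by ring
  rw [this, unip386_add250]
  group

/-- The conjugation formula of step 3. -/
theorem conj_formula250 {d z a ω : G K} {m : ℕ} {σ : Adl K}
    (hd : ∀ u : Adl K, d * unip386 u * d⁻¹ = unip386 ((m : Adl K) * u))
    (hz : ∀ u : Adl K, z⁻¹ * unip386 u * z = unip386 u)
    (ha : ∀ u : Adl K, a⁻¹ * unip386 u * a = unip386 (u * σ)) (v : Adl K) :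
    conjUnip386 (d⁻¹ * z * a * ω) v = ω⁻¹ * unip386 ((m : Adl K) * v * σ) * ω := by
  unfold conjUnip386
  have e1 : (d⁻¹ * z * a * ω)⁻¹ * unip386 v * (d⁻¹ * z * a * ω)
      = ω⁻¹ * (a⁻¹ * (z⁻¹ * (d * unip386 v * d⁻¹) * z) * a) * ω := by group
  rw [e1, hd, hz, ha]

/-! ## 2. Forward differences along conjugates = backward differences on the adeles -/

theorem fdiff_eq_bdiff250 (x' ω h : G K) (L : Adl K → Adl K)
    (hL : ∀ v : Adl K, conjUnip386 x' (-v) = ω⁻¹ * unip386 (-(L v)) * ω)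
    (vs : List (Adl K)) (g : G K → ℂ) (y : Adl K) :
    fdiff386 x' vs g (ω⁻¹ * unip386 y * ω * h)
      = bdiff511 (vs.map L) (fun y => g (ω⁻¹ * unip386 y * ω * h)) y := by
  induction vs generalizing g with
  | nil => rfl
  | cons v vs ih =>
    show fdiff386 x' vs (diff386 x' v g) (ω⁻¹ * unip386 y * ω * h)
      = bdiff511 (vs.map L)
          (fun y => g (ω⁻¹ * unip386 y * ω * h) - g (ω⁻¹ * unip386 (y - L v) * ω * h)) y
    rw [ih (diff386 x' v g)]
    congr 1
    funext y'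
    show g (ω⁻¹ * unip386 y' * ω * h) - g (conjUnip386 x' (-v) * (ω⁻¹ * unip386 y' * ω * h)) = _
    rw [hL v, conj_sub250]

theorem infPart_add_finPart250 (u : Adl K) : infPart511 u + finPart511 u = u := by
  apply Prod.ext
  · show u.1 + 0 = u.1
    rw [add_zero]
  · show 0 + u.2 = u.2
    rw [zero_add]

/-- The finite parts of the steps can be dropped, one at a time. -/
theorem bdiff_infPart250 (us : List (Adl K)) (Ψ : Adl K → ℂ)
    (hinv : ∀ u ∈ us, ∀ y : Adl K, Ψ (y - finPart511 u) = Ψ y) :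
    bdiff511 us Ψ = bdiff511 (us.map infPart511) Ψ := by
  induction us generalizing Ψ with
  | nil => rfl
  | cons u us ih =>
    show bdiff511 us (fun y => Ψ y - Ψ (y - u))
      = bdiff511 (us.map infPart511) (fun y => Ψ y - Ψ (y - infPart511 u))
    have h1 : (fun y => Ψ y - Ψ (y - u)) = (fun y => Ψ y - Ψ (y - infPart511 u)) := by
      funext y
      have : y - u = (y - infPart511 u) - finPart511 u := by
        conv_lhs => rw [← infPart_add_finPart250 u]
        ring
      rw [this, hinv u (List.mem_cons_self) (y - infPart511 u)]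
    rw [h1]
    apply ih
    intro u' hu' y
    show Ψ (y - finPart511 u') - Ψ (y - finPart511 u' - infPart511 u)
      = Ψ y - Ψ (y - infPart511 u)
    rw [hinv u' (List.mem_cons_of_mem _ hu') y, sub_right_comm,
      hinv u' (List.mem_cons_of_mem _ hu') (y - infPart511 u)]

/-! ## 3. The class-generic statements -/

/-- `H511.UnifSmoothC` for a class `P` of functions (`H511.UnifSmoothC K 𝔫` is
`UnifSmoothP250 K (IsTestFn 𝔫)`, by `Iff.rfl`). -/
def UnifSmoothP250 (K : Type) [Field K] [NumberField K] (P : (G K → ℂ) → Prop) : Prop :=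
  ∀ f : G K → ℂ, P f → ∀ Ω : Set (G K), IsCompact Ω → ∀ (R : ℝ) (M : ℕ),
    ∃ C : ℝ, 0 ≤ C ∧ ∀ ω ∈ Ω, ∀ h : G K, ∀ ε : ℝ, 0 < ε → ε ≤ 1 →
      ∀ τs : List (Adl K), τs.length = M →
        (∀ τ ∈ τs, τ.2 = 0 ∧ ∀ w : InfinitePlace K, ‖τ.1 w‖ ≤ ε * R) →
        ‖bdiff511 τs (fun y => f (ω⁻¹ * unip386 y * ω * h)) 0‖ ≤ C * ε ^ M

/-- `H386.FDBound` for a class `P` of functions (`H386.FDBound K 𝔫` is
`FDBoundP250 K (IsTestFn 𝔫)` and `H465.FDBoundCore K 𝔫` is `FDBoundP250 K (H465.IsTestCore 𝔫)`,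
by `Iff.rfl`). -/
def FDBoundP250 (K : Type) [Field K] [NumberField K] (P : (G K → ℂ) → Prop) : Prop :=
  ∀ f : G K → ℂ, P f → ∀ 𝒟 : Set (Adl K), IsCompact 𝒟 → ∀ N : ℕ,
    ∃ (C c : ℝ) (M : ℕ) (W : Set (G K)), 0 ≤ C ∧ 0 < c ∧ IsCompact W ∧
      ∀ (x : G K) (t : ℝ), T1.HasHeight K x t → c ≤ t →
        ∃ (β : GL (Fin 2) K) (x' : G K), T1.IsUpperRat K β ∧ x = T1.ratG K β * x' ∧
          (∀ v ∈ 𝒟, conjUnip386 x' v ∈ W) ∧
          ∀ vs : List (Adl K), vs.length = M → (∀ v ∈ vs, v ∈ 𝒟) →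
            ∀ h : G K, ‖fdiff386 x' vs f h‖ * t ^ N ≤ C

theorem unifSmoothC_iff250 (𝔫 : Ideal (𝓞 K)) :
    UnifSmoothC K 𝔫 ↔ UnifSmoothP250 K (IsTestFn 𝔫) := Iff.rfl

theorem fdBound_iff250 (𝔫 : Ideal (𝓞 K)) :
    H386.FDBound K 𝔫 ↔ FDBoundP250 K (IsTestFn 𝔫) := Iff.rfl

theorem fdBoundCore_iff250 (𝔫 : Ideal (𝓞 K)) :
    H465.FDBoundCore K 𝔫 ↔ FDBoundP250 K (H465.IsTestCore 𝔫) := Iff.rfl

/-! ## 4. THE TOP, class-generic -/

/-- The finite part of the step `m v σ` (`σ` with finite part `1`). -/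
theorem neg_finPart_step250 (m : ℕ) (v σ : Adl K) (hσ : σ.2 = 1) :
    -finPart511 ((m : Adl K) * v * σ) = finPart511 ((m : Adl K) * (-v)) := by
  apply Prod.ext
  · show -(0 : InfiniteAdeleRing K) = 0
    rw [neg_zero]
  · show -(((m : Adl K)).2 * v.2 * σ.2) = ((m : Adl K)).2 * (-v.2)
    rw [hσ, mul_one, mul_neg]

/-- **The finite difference bound for a class `P` of left `U(𝔫)`-invariant functions**, from
reduction theory (`T1.SiegelCompactC`) and the four facts `ContrC`, `UnifSmoothP250 P`,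
`ConjAlgC`, `CptC`.  (The computation of helper511 `LT/T2/H511/FDTop.lean` for the class
`IsTestFn`; here the finite parts of the steps are dropped one at a time.) -/
theorem fdBoundP_of250 {𝔫 : Ideal (𝓞 K)} (P : (G K → ℂ) → Prop)
    (hPleft : ∀ f : G K → ℂ, P f → ∀ u : G K, InLevelGroup 𝔫 u → ∀ g : G K, f (u * g) = f g)
    (hS : T1.SiegelCompactC K) (hA : ContrC K 𝔫) (hB : UnifSmoothP250 K P)
    (hC : ConjAlgC K) (hD : CptC K) : FDBoundP250 K P := by
  intro f hf 𝒟 h𝒟 N
  obtain ⟨hcpt1, hcpt2, hcpt3, -⟩ := hD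
  obtain ⟨hAlg1, hAlg2, hAlg3⟩ := hC
  -- reduction theory
  obtain ⟨Ω, m₀, M₀, hΩ, hm₀, -, hSiegel⟩ := hS 1 one_pos
  have hnpos : 0 < Module.finrank ℚ K := Module.finrank_pos
  -- the integer `m`
  have hneg : IsCompact (-𝒟) := h𝒟.neg
  obtain ⟨m, hm, hcontr⟩ := hA Ω hΩ (-𝒟) hneg
  -- the bound `R` of the infinite components of `m 𝒟`
  have h𝒟m : IsCompact ((fun v : Adl K => (m : Adl K) * v) '' 𝒟) :=
    h𝒟.image (continuous_const.mul continuous_id)
  obtain ⟨R, hR0, hR⟩ := hcpt2 _ h𝒟m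
  -- uniform smoothness
  obtain ⟨C₁, hC₁0, hUS⟩ := hB f hf Ω hΩ R (Module.finrank ℚ K * N)
  -- the compact set `W`
  have hW : IsCompact (conjSet511 Ω (box511 𝒟 R m)) := hcpt1 Ω hΩ _ (hcpt3 𝒟 h𝒟 R m)
  refine ⟨C₁ / m₀ ^ N, max 1 (1 / m₀), Module.finrank ℚ K * N, conjSet511 Ω (box511 𝒟 R m),
    div_nonneg hC₁0 (pow_nonneg hm₀.le N), lt_max_of_lt_left one_pos, hW, ?_⟩
  intro x t hx ht
  have ht1 : 1 ≤ t := le_trans (le_max_left _ _) ht
  have ht2 : 1 / m₀ ≤ t := le_trans (le_max_right _ _) ht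
  have htpos : 0 < t := lt_of_lt_of_le one_pos ht1
  obtain ⟨β₀, z, a, ω, s, hβ₀, hz, hs, ha, hω, hxeq, hs1, -⟩ := hSiegel x t hx ht1
  -- `s ≥ 1`
  have hsn : 1 ≤ s ^ Module.finrank ℚ K := by
    have : 1 ≤ m₀ * t := by
      have := mul_le_mul_of_nonneg_left ht2 hm₀.le
      rwa [mul_one_div_cancel hm₀.ne'] at this
    exact le_trans this hs1
  have hs_one : 1 ≤ s := by
    by_contra hlt
    rw [not_le] at hlt
    have : s ^ Module.finrank ℚ K < 1 := pow_lt_one₀ hs.le hlt hnpos.ne'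
    exact absurd hsn (not_le.2 this)
  -- the conjugations
  obtain ⟨d, hd, hdconj⟩ := hAlg1 m hm
  obtain ⟨σ, hσ2, hσn, haconj⟩ := hAlg3 a s hs ha
  have hzconj := hAlg2 z hz
  have hconj : ∀ v : Adl K, conjUnip386 ((T1.ratG K d)⁻¹ * z * a * ω) v
      = ω⁻¹ * unip386 ((m : Adl K) * v * σ) * ω :=
    fun v => conj_formula250 hdconj hzconj haconj v
  -- the upper triangular rational element
  have hβ : T1.IsUpperRat K (β₀ * d) := by
    unfold T1.IsUpperRat at hβ₀ hd ⊢
    rw [Matrix.GeneralLinearGroup.coe_mul, Matrix.mul_apply, Fin.sum_univ_two, hβ₀, hd]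
    simp
  have hxβ : x = T1.ratG K (β₀ * d) * ((T1.ratG K d)⁻¹ * z * a * ω) := by
    rw [hxeq, map_mul]
    group
  have hε0 : 0 < s⁻¹ := inv_pos.2 hs
  have hε1 : s⁻¹ ≤ 1 := inv_le_one_of_one_le₀ hs_one
  -- the norm of the infinite components of a step
  have hnorm : ∀ v ∈ 𝒟, ∀ w : InfinitePlace K,
      ‖((m : Adl K) * v * σ).1 w‖ ≤ s⁻¹ * R := by
    intro v hv w
    have e : (((m : Adl K) * v * σ).1 w) = ((m : Adl K) * v).1 w * σ.1 w := rfl
    rw [e, norm_mul, hσn w, mul_comm]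
    exact mul_le_mul_of_nonneg_left (hR _ ⟨v, hv, rfl⟩ w) hε0.le
  refine ⟨β₀ * d, (T1.ratG K d)⁻¹ * z * a * ω, hβ, hxβ, ?_, ?_⟩
  · -- the conjugates lie in `W`
    intro v hv
    rw [hconj v]
    refine ⟨ω, hω, (m : Adl K) * v * σ, ⟨?_, v, hv, ?_⟩, rfl⟩
    · intro w
      calc ‖((m : Adl K) * v * σ).1 w‖ ≤ s⁻¹ * R := hnorm v hv w
        _ ≤ 1 * R := mul_le_mul_of_nonneg_right hε1 hR0
        _ = R := one_mul R
    · have e : (((m : Adl K) * v * σ).2) = ((m : Adl K) * v).2 * σ.2 := rfl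
      rw [e, hσ2, mul_one]
  · -- the bound
    intro vs hvsM hvs h
    have hL : ∀ v : Adl K, conjUnip386 ((T1.ratG K d)⁻¹ * z * a * ω) (-v)
        = ω⁻¹ * unip386 (-((m : Adl K) * v * σ)) * ω := by
      intro v
      rw [hconj (-v)]
      congr 3
      ring
    have e0 : fdiff386 ((T1.ratG K d)⁻¹ * z * a * ω) vs f h
        = bdiff511 (vs.map (fun v => (m : Adl K) * v * σ))
            (fun y => f (ω⁻¹ * unip386 y * ω * h)) 0 := by
      have := fdiff_eq_bdiff250 ((T1.ratG K d)⁻¹ * z * a * ω) ω h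
        (fun v => (m : Adl K) * v * σ) hL vs f 0
      rw [unip386_zero250] at this
      have e : ω⁻¹ * 1 * ω * h = h := by group
      rwa [e] at this
    -- the finite parts of the steps can be dropped
    have hinv : ∀ u ∈ vs.map (fun v => (m : Adl K) * v * σ), ∀ y : Adl K,
        (fun y => f (ω⁻¹ * unip386 y * ω * h)) (y - finPart511 u)
          = (fun y => f (ω⁻¹ * unip386 y * ω * h)) y := by
      intro u hu y
      obtain ⟨v, hv, rfl⟩ := List.mem_map.1 hu
      show f (ω⁻¹ * unip386 (y - finPart511 ((m : Adl K) * v * σ)) * ω * h)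
        = f (ω⁻¹ * unip386 y * ω * h)
      rw [conj_sub250, neg_finPart_step250 m v σ hσ2]
      exact hPleft f hf _ (hcontr ω hω (-v) (Set.neg_mem_neg.2 (hvs v hv))) _
    have e1 := bdiff_infPart250 (vs.map (fun v => (m : Adl K) * v * σ))
      (fun y => f (ω⁻¹ * unip386 y * ω * h)) hinv
    -- uniform smoothness with `ε = 1 / s`
    have hτ : ∀ τ ∈ (vs.map (fun v => (m : Adl K) * v * σ)).map infPart511,
        τ.2 = 0 ∧ ∀ w : InfinitePlace K, ‖τ.1 w‖ ≤ s⁻¹ * R := by
      intro τ hτ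
      obtain ⟨u, hu, rfl⟩ := List.mem_map.1 hτ
      obtain ⟨v, hv, rfl⟩ := List.mem_map.1 hu
      exact ⟨rfl, fun w => hnorm v (hvs v hv) w⟩
    have hbound := hUS ω hω h s⁻¹ hε0 hε1
      ((vs.map (fun v => (m : Adl K) * v * σ)).map infPart511)
      (by rw [List.length_map, List.length_map]; exact hvsM) hτ
    rw [e0, e1]
    -- arithmetic
    have hsM : (s⁻¹) ^ (Module.finrank ℚ K * N) = ((s ^ Module.finrank ℚ K) ^ N)⁻¹ := by
      rw [pow_mul, inv_pow, inv_pow]
    have hmt : (m₀ * t) ^ N ≤ (s ^ Module.finrank ℚ K) ^ N :=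
      pow_le_pow_left₀ (by positivity) hs1 N
    have hpos1 : 0 < (m₀ * t) ^ N := by positivity
    have h3 : ((s ^ Module.finrank ℚ K) ^ N)⁻¹ ≤ ((m₀ * t) ^ N)⁻¹ := inv_anti₀ hpos1 hmt
    calc ‖bdiff511 ((vs.map (fun v => (m : Adl K) * v * σ)).map infPart511)
            (fun y => f (ω⁻¹ * unip386 y * ω * h)) 0‖ * t ^ N
        ≤ (C₁ * (s⁻¹) ^ (Module.finrank ℚ K * N)) * t ^ N :=
          mul_le_mul_of_nonneg_right hbound (pow_nonneg htpos.le N)
      _ ≤ (C₁ * ((m₀ * t) ^ N)⁻¹) * t ^ N := by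
          rw [hsM]
          exact mul_le_mul_of_nonneg_right (mul_le_mul_of_nonneg_left h3 hC₁0)
            (pow_nonneg htpos.le N)
      _ = C₁ / m₀ ^ N := by
          rw [mul_pow]
          field_simp

/-! ## 5. The two leaves -/

/-- **T2.23a.2** = T2.03a.2 (US) for the core class `H465.IsTestCore`: the proof of
`H511.LeafUnifSmooth` (memo of helper386 (ii), (iii); helper437 `LT/T2/H437/USSpec.lean`) uses of
the test function the fields `cont`, `smooth`, `cpt`, `level_right` only. -/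
def LeafUnifSmoothCore250 (K : Type) [Field K] [NumberField K] : Prop :=
  T1.T1Out K → ∀ 𝔫 : Ideal (𝓞 K), 𝔫 ≠ ⊥ → UnifSmoothP250 K (H465.IsTestCore 𝔫)

/-- The core form of US gives the form of helper511. -/
theorem leafUnifSmooth_of_core250 (h : LeafUnifSmoothCore250 K) : LeafUnifSmooth K :=
  fun hT1 𝔫 h𝔫 f hf => h hT1 𝔫 h𝔫 f (H465.isTestCore_of_isTestFn hf)

/-- **THE TOP of T2.23a**: `H465.LeafFDCore` from the sub-leaves of helper511 (CONTR, ALG, CPT
verbatim) and US in the core form. -/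
theorem leafFDCore_of250 (hA : LeafContr K) (hB : LeafUnifSmoothCore250 K) (hC : LeafConjAlg K)
    (hD : LeafCpt K) : H465.LeafFDCore K :=
  fun hT1 𝔫 h𝔫 =>
    fdBoundP_of250 (H465.IsTestCore 𝔫) (fun _ hf => hf.level_left) hT1.siegelCompact
      (hA hT1 𝔫 h𝔫) (hB hT1 𝔫 h𝔫) hC (hD hT1)

/-- **THE TOP of T2.03a** (a second proof of helper511's `leafFD_of_leaves511`; the sub-leaves
verbatim). -/
theorem leafFD_of250 (hA : LeafContr K) (hB : LeafUnifSmooth K) (hC : LeafConjAlg K)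
    (hD : LeafCpt K) : H386.LeafFD K :=
  fun hT1 𝔫 h𝔫 =>
    fdBoundP_of250 (IsTestFn 𝔫) (fun _ hf => hf.level_left) hT1.siegelCompact
      (hA hT1 𝔫 h𝔫) (hB hT1 𝔫 h𝔫) hC (hD hT1)

/-- All the leaves of T2.03a / T2.23a from the core leaves. -/
theorem leafFD_of_core250 (hA : LeafContr K) (hB : LeafUnifSmoothCore250 K)
    (hC : LeafConjAlg K) (hD : LeafCpt K) : H386.LeafFD K :=
  H465.leafFD_of_core (leafFDCore_of250 hA hB hC hD)

end Fermat.Agent.LT.T2.H250

end

end
-- ===== PACK-END LT/T2/H250/FDTop.lean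

-- ===== PACK-BEGIN LT/T7/H62/RigidPkg.lean
section



/-!
# Row LT, tower T7, NODE T7.14 `RigidC` -- SUB-SPEC, LEVEL 2 (sub-architect helper62)

OFF-MAIN.  Definitions, frozen Props, PROVED reductions.  No `sorry`, nothing assumed.

```
RSLowerC K  ⇐  EulerLogC K + AbelC K + SmoothSelfC K        (`rsLowerC_of`,  PROVED here)
RSCrossC K  ⇐  EulerLogC K + AbelC K + SmoothCrossC K       (`rsCrossC_of`,  PROVED here)
RigidC K    ⇐  PlaceSumC K + the four Props above           (`rigidC_of_pkg`, PROVED here)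
```

## Vocabulary (Mathlib only)

* `hpoly a m`     : the Hecke polynomial `s_m(a)`: `s_0 = 1`, `s_1 = a`, `s_{m+2} = a s_{m+1} - s_m`
                    (`= (α^{m+1} - β^{m+1}) / (α - β)` for `α + β = a`, `α β = 1`).
* `ordAt v 𝔞`     : the multiplicity of the prime `v` in the ideal `𝔞`.
* `coef a S 𝔞`    : `∏_v s_{ord_v 𝔞}(a_v)` if `𝔞 ≠ 0` is prime to `S`, and `0` otherwise.
* `dSer c s`      : `∑_𝔞 c(𝔞) N𝔞^{-s}` (all ideals; `N 0 = 0`, `0 ^ (-s) = 0`).
* `sSum c G Y`    : `∑_𝔞 c(𝔞) G(Y · N𝔞)`.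
* `IsWeight G`    : `G ≥ 0` on `(0, ∞)`, antitone there, positive somewhere, integrable on
                    `(0, 1]`, `G(T) ≤ C T^{-1-η}` for `T ≥ 1`.

## The Props

* `EulerLogC K`   (Mathlib only): Euler product + logarithm.  For `|a_v|, |a'_v| ≤ 2` and
  `N v ≥ Q₀` outside `S`: the series `D(s) = ∑ c(𝔞) c̄'(𝔞) N𝔞^{-s}` converges absolutely for
  `s > 1`, `D(s) ≠ 0` and `log |D(s)| = ∑_{v ∉ S} Re (a_v ā'_v) N v^{-s} + O(1)` on `1 < s < 2`.
* `AbelC K`       (Mathlib only): Abelian step.  If `Y · ∑ c(𝔞) G(Y N𝔞) → L` as `Y → 0⁺` for a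
  weight `G`, then `(s - 1) ∑ c(𝔞) N𝔞^{-s} → L / m` as `s → 1⁺`, with `m = ∫₀^∞ G > 0`.
* `SmoothSelfC K` (NODE, automorphic): for a cusp form as in A0, `Y · ∑ |c(𝔞)|² G(Y N𝔞) → L ≠ 0`.
* `SmoothCrossC K`(NODE, automorphic): for two cusp forms as in A0 which are NOT equal almost
  everywhere, `Y · ∑ c(𝔞) c̄'(𝔞) G(Y N𝔞) → 0`.

The two NODES are cut in `RigidAut.lean` (level 3).
-/

set_option autoImplicit false

open AutomorphicForm IsDedekindDomain NumberField Filter Topology
open scoped ComplexConjugate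

noncomputable section

namespace Fermat.Agent.LT.T7.Rigid

open Fermat.Agent.LT.H556 Fermat.Agent.LT.T7

variable {K : Type} [Field K] [NumberField K]

/-! ## Vocabulary -/

/-- The Hecke polynomials for trivial central character: `s_0 = 1`, `s_1 = a`,
`s_{m+2} = a s_{m+1} - s_m`. -/
def hpoly (a : ℂ) : ℕ → ℂ
  | 0 => 1
  | 1 => a
  | (m + 2) => a * hpoly a (m + 1) - hpoly a m

/-- The multiplicity of the prime `v` in the ideal `𝔞`. -/
def ordAt (v : HeightOneSpectrum (𝓞 K)) (𝔞 : Ideal (𝓞 K)) : ℕ :=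
  (Associates.mk v.asIdeal).count (Associates.mk 𝔞).factors

open Classical in
/-- The coefficient of the ideal `𝔞`: `∏_v s_{ord_v 𝔞}(a_v)` if `𝔞 ≠ 0` is prime to `S`, and `0`
otherwise. -/
def coef (a : HeightOneSpectrum (𝓞 K) → ℂ) (S : Set (HeightOneSpectrum (𝓞 K)))
    (𝔞 : Ideal (𝓞 K)) : ℂ :=
  if 𝔞 = ⊥ ∨ ∃ v ∈ S, 𝔞 ≤ v.asIdeal then 0
  else ∏ᶠ v : HeightOneSpectrum (𝓞 K), hpoly (a v) (ordAt v 𝔞)

/-- The product coefficient `c(𝔞) c̄'(𝔞)`. -/
def coef2 (a a' : HeightOneSpectrum (𝓞 K) → ℂ) (S : Set (HeightOneSpectrum (𝓞 K)))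
    (𝔞 : Ideal (𝓞 K)) : ℂ :=
  coef a S 𝔞 * conj (coef a' S 𝔞)

/-- `∑_𝔞 c(𝔞) N𝔞^{-s}`. -/
def dSer (c : Ideal (𝓞 K) → ℂ) (s : ℝ) : ℂ :=
  ∑' 𝔞 : Ideal (𝓞 K), c 𝔞 * (((Ideal.absNorm 𝔞 : ℝ) ^ (-s) : ℝ) : ℂ)

/-- `∑_𝔞 c(𝔞) G(Y · N𝔞)`. -/
def sSum (c : Ideal (𝓞 K) → ℂ) (G : ℝ → ℝ) (Y : ℝ) : ℂ :=
  ∑' 𝔞 : Ideal (𝓞 K), c 𝔞 * ((G (Y * (Ideal.absNorm 𝔞 : ℝ)) : ℝ) : ℂ)

/-- Admissible weights. -/
structure IsWeight (G : ℝ → ℝ) : Prop where
  nonneg : ∀ T : ℝ, 0 < T → 0 ≤ G T
  anti : AntitoneOn G (Set.Ioi 0)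
  pos : ∃ T : ℝ, 0 < T ∧ 0 < G T
  int0 : MeasureTheory.IntegrableOn G (Set.Ioc 0 1)
  decay : ∃ C η : ℝ, 0 < η ∧ ∀ T : ℝ, 1 ≤ T → G T ≤ C * T ^ (-(1 + η))

/-- `S` contains every place which is bad for `π`: outside `S` the place does not divide the
level, `b_v = 1` and `|a_v| ≤ 2`. -/
def IsGoodOutside (π : HeckeEigensystem K ℂ) (S : Finset (HeightOneSpectrum (𝓞 K))) : Prop :=
  ∀ v : HeightOneSpectrum (𝓞 K), v ∉ S →
    ¬ v.asIdeal ∣ π.level ∧ π.b v = 1 ∧ ‖π.a v‖ ≤ 2

/-! ## The Props of level 2 -/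

variable (K)

/-- **LEAF EULER-LOG (Mathlib only).**  There is `Q₀` such that for all families `a, a'` and every
finite set `S` of places with `N v ≥ Q₀`, `|a_v| ≤ 2`, `|a'_v| ≤ 2` outside `S`: the series
`D(s) = ∑_𝔞 c(𝔞) c̄'(𝔞) N𝔞^{-s}` converges absolutely for `s > 1`, and on `1 < s < 2`
`D(s) ≠ 0`, `| log |D(s)| - ∑_{v ∉ S} Re (a_v ā'_v) N v^{-s} | ≤ C`.
(`|s_m(a)| ≤ (m+1) (1+√2)^m`; local factor `1 + a ā' q^{-s} + O(q^{-2s})`; `Q₀ = 64` works.) -/
def EulerLogC : Prop :=
  PlaceSumC K →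
  ∃ Q₀ : ℕ, ∀ (a a' : HeightOneSpectrum (𝓞 K) → ℂ) (S : Finset (HeightOneSpectrum (𝓞 K))),
    (∀ v : HeightOneSpectrum (𝓞 K), v ∉ S →
      Q₀ ≤ Ideal.absNorm v.asIdeal ∧ ‖a v‖ ≤ 2 ∧ ‖a' v‖ ≤ 2) →
    (∀ s : ℝ, 1 < s → Summable fun 𝔞 : Ideal (𝓞 K) =>
      ‖coef2 a a' (S : Set (HeightOneSpectrum (𝓞 K))) 𝔞‖ * (Ideal.absNorm 𝔞 : ℝ) ^ (-s)) ∧
    ∃ C : ℝ, ∀ s : ℝ, 1 < s → s < 2 →
      dSer (coef2 a a' (S : Set (HeightOneSpectrum (𝓞 K)))) s ≠ 0 ∧
      |Real.log ‖dSer (coef2 a a' (S : Set (HeightOneSpectrum (𝓞 K)))) s‖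
        - wSum (S : Set (HeightOneSpectrum (𝓞 K))) (fun v => (a v * conj (a' v)).re) s| ≤ C

/-- **LEAF ABEL (Mathlib only).**  Abelian step: for a weight `G` and coefficients `c` with
`c(0) = 0` and `∑ |c(𝔞)| N𝔞^{-s} < ∞` (`s > 1`): if `Y · ∑ c(𝔞) G(Y N𝔞) → L` as `Y → 0⁺` then
`(s - 1) ∑ c(𝔞) N𝔞^{-s} → L / m` as `s → 1⁺` for some `m > 0` (`m = ∫₀^∞ G`). -/
def AbelC : Prop :=
  ∀ (c : Ideal (𝓞 K) → ℂ) (G : ℝ → ℝ) (L : ℂ), IsWeight G → c ⊥ = 0 →
    (∀ s : ℝ, 1 < s → Summable fun 𝔞 : Ideal (𝓞 K) =>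
      ‖c 𝔞‖ * (Ideal.absNorm 𝔞 : ℝ) ^ (-s)) →
    Tendsto (fun Y : ℝ => (Y : ℂ) * sSum c G Y) (𝓝[>] (0 : ℝ)) (𝓝 L) →
    ∃ m : ℝ, 0 < m ∧
      Tendsto (fun s : ℝ => ((s - 1 : ℝ) : ℂ) * dSer c s) (𝓝[>] (1 : ℝ)) (𝓝 (L / (m : ℂ)))

/-- **NODE SMOOTH-SELF (automorphic).**  For a cusp form as in A0 over the totally complex field
`K` and a finite set `S` containing the bad places: there are a weight `G` and `L ≠ 0` with
`Y · ∑_{𝔞 prime to S} |c(𝔞)|² G(Y N𝔞) → L` as `Y → 0⁺`. -/
def SmoothSelfC : Prop :=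
  TotCplx K →
  ∀ π : HeckeEigensystem K ℂ, A0.IsCuspAdelicSph0 K π →
    ∀ S : Finset (HeightOneSpectrum (𝓞 K)), IsGoodOutside π S →
      ∃ (G : ℝ → ℝ) (L : ℂ), IsWeight G ∧ L ≠ 0 ∧
        Tendsto (fun Y : ℝ => (Y : ℂ) *
            sSum (coef2 π.a π.a (S : Set (HeightOneSpectrum (𝓞 K)))) G Y)
          (𝓝[>] (0 : ℝ)) (𝓝 L)

/-- **NODE SMOOTH-CROSS (automorphic).**  For two cusp forms as in A0 over the totally complex
field `K` which are NOT equal almost everywhere, and a finite set `S` containing the bad places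
of both: there is a weight `G` with `Y · ∑_{𝔞 prime to S} c(𝔞) c̄'(𝔞) G(Y N𝔞) → 0` as
`Y → 0⁺`. -/
def SmoothCrossC : Prop :=
  TotCplx K →
  ∀ π π' : HeckeEigensystem K ℂ, A0.IsCuspAdelicSph0 K π → A0.IsCuspAdelicSph0 K π' →
    ¬ AEq π π' →
    ∀ S : Finset (HeightOneSpectrum (𝓞 K)), IsGoodOutside π S → IsGoodOutside π' S →
      ∃ G : ℝ → ℝ, IsWeight G ∧
        Tendsto (fun Y : ℝ => (Y : ℂ) *
            sSum (coef2 π.a π'.a (S : Set (HeightOneSpectrum (𝓞 K)))) G Y)
          (𝓝[>] (0 : ℝ)) (𝓝 0)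

/-! ## Bookkeeping for the reductions -/

variable {K}

theorem nv_rpow_le_one (v : HeightOneSpectrum (𝓞 K)) {s : ℝ} (hs : 0 ≤ s) : nv v ^ (-s) ≤ 1 :=
  Real.rpow_le_one_of_one_le_of_nonpos (one_le_nv v) (by linarith)

/-- The places of norm `< Q` form a finite set. -/
theorem finite_nv_lt (Q : ℕ) :
    {v : HeightOneSpectrum (𝓞 K) | Ideal.absNorm v.asIdeal < Q}.Finite := by
  have h := Ideal.finite_setOfPred_absNorm_le (S := 𝓞 K) Q
  refine Set.Finite.of_finite_image (f := fun v : HeightOneSpectrum (𝓞 K) => v.asIdeal)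
    (h.subset ?_) ?_
  · rintro _ ⟨v, hv, rfl⟩
    exact le_of_lt (show Ideal.absNorm v.asIdeal < Q from hv)
  · intro v _ w _ hvw
    exact HeightOneSpectrum.ext hvw

omit [NumberField K] in
/-- The indicator of a finite set of places, with constant value `B`, has sum `B · card`. -/
theorem tsum_indicator_const (S₁ : Finset (HeightOneSpectrum (𝓞 K))) (B : ℝ) :
    HasSum (fun v : HeightOneSpectrum (𝓞 K) =>
      (S₁ : Set (HeightOneSpectrum (𝓞 K))).indicator (fun _ => B) v) ((S₁.card : ℝ) * B) := by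
  have h : HasSum (fun v : HeightOneSpectrum (𝓞 K) =>
      (S₁ : Set (HeightOneSpectrum (𝓞 K))).indicator (fun _ => B) v)
      (∑ v ∈ S₁, (S₁ : Set (HeightOneSpectrum (𝓞 K))).indicator (fun _ => B) v) :=
    hasSum_sum_of_ne_finset_zero (fun v hv => by
        rw [Set.indicator_of_notMem]
        simpa using hv)
  have h2 : ∑ v ∈ S₁, (S₁ : Set (HeightOneSpectrum (𝓞 K))).indicator (fun _ => B) v
      = (S₁.card : ℝ) * B := by
    rw [Finset.sum_congr rfl (fun v hv => Set.indicator_of_mem (by simpa using hv) _)]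
    simp
  rwa [h2] at h

/-- Enlarging the excluded set, nonnegative terms: the sum decreases. -/
theorem wSum_mono (S S₁ : Set (HeightOneSpectrum (𝓞 K))) (hSS : S ⊆ S₁)
    (f : HeightOneSpectrum (𝓞 K) → ℝ) (hf : ∀ v, v ∉ S → 0 ≤ f v) (s : ℝ)
    (hsum : Summable fun v : HeightOneSpectrum (𝓞 K) =>
      Sᶜ.indicator (fun v => f v * nv v ^ (-s)) v)
    (hsum₁ : Summable fun v : HeightOneSpectrum (𝓞 K) =>
      S₁ᶜ.indicator (fun v => f v * nv v ^ (-s)) v) :
    wSum S₁ f s ≤ wSum S f s := by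
  unfold wSum
  refine hsum₁.tsum_le_tsum (fun v => ?_) hsum
  have hn0 := nv_rpow_nonneg v s
  by_cases hv₁ : v ∈ S₁
  · by_cases hv : v ∈ S
    · simp [hv, hv₁]
    · simpa [Set.indicator_apply, hv, hv₁] using mul_nonneg (hf v hv) hn0
  · have hv : v ∉ S := fun h => hv₁ (hSS h)
    simp [hv, hv₁]

/-- Enlarging the excluded set by a finite set, bounded terms: the sum changes by at most
`B · card S₁`. -/
theorem wSum_le_add (S S₁ : Finset (HeightOneSpectrum (𝓞 K))) (hSS : S ⊆ S₁)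
    (f : HeightOneSpectrum (𝓞 K) → ℝ) (B : ℝ) (hB : 0 ≤ B) (hf : ∀ v, v ∉ S → f v ≤ B) {s : ℝ}
    (hs : 0 ≤ s)
    (hsum : Summable fun v : HeightOneSpectrum (𝓞 K) =>
      (S : Set (HeightOneSpectrum (𝓞 K)))ᶜ.indicator (fun v => f v * nv v ^ (-s)) v)
    (hsum₁ : Summable fun v : HeightOneSpectrum (𝓞 K) =>
      (S₁ : Set (HeightOneSpectrum (𝓞 K)))ᶜ.indicator (fun v => f v * nv v ^ (-s)) v) :
    wSum (S : Set (HeightOneSpectrum (𝓞 K))) f s
      ≤ wSum (S₁ : Set (HeightOneSpectrum (𝓞 K))) f s + (S₁.card : ℝ) * B := by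
  unfold wSum
  have hc := tsum_indicator_const S₁ B
  rw [← hc.tsum_eq, ← hsum₁.tsum_add hc.summable]
  refine hsum.tsum_le_tsum (fun v => ?_) (hsum₁.add hc.summable)
  have hn0 := nv_rpow_nonneg v s
  have hn1 := nv_rpow_le_one v hs
  by_cases hv₁ : v ∈ S₁
  · by_cases hv : v ∈ S
    · simpa [Set.indicator_apply, hv, hv₁] using hB
    · have := hf v hv
      have h1 : f v * nv v ^ (-s) ≤ B := by nlinarith
      simpa [Set.indicator_apply, hv, hv₁] using h1
  · by_cases hv : v ∈ S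
    · exact absurd (hSS hv) hv₁
    · simp [hv, hv₁]

theorem IsGoodOutside.mono {π : HeckeEigensystem K ℂ} {S S₁ : Finset (HeightOneSpectrum (𝓞 K))}
    (h : IsGoodOutside π S) (hSS : S ⊆ S₁) : IsGoodOutside π S₁ :=
  fun v hv => h v (fun hvS => hv (hSS hvS))

/-- A finite set containing `S`, the bad places of `π` and the places of norm `< Q`. -/
theorem exists_good_finset (π : HeckeEigensystem K ℂ) (ht : TrivCentral π)
    (S : Finset (HeightOneSpectrum (𝓞 K)))
    (hS : ∀ v : HeightOneSpectrum (𝓞 K), v ∉ S → ‖π.a v‖ ≤ 2) (Q : ℕ) :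
    ∃ S₁ : Finset (HeightOneSpectrum (𝓞 K)), S ⊆ S₁ ∧ IsGoodOutside π S₁ ∧
      ∀ v : HeightOneSpectrum (𝓞 K), v ∉ S₁ → Q ≤ Ideal.absNorm v.asIdeal := by
  classical
  obtain ⟨S₀, hS₀⟩ := ht
  have hfin1 : {v : HeightOneSpectrum (𝓞 K) | v.asIdeal ∣ π.level}.Finite :=
    Ideal.finite_factors π.level_ne_bot
  have hfin2 := finite_nv_lt (K := K) Q
  refine ⟨S ∪ S₀ ∪ hfin1.toFinset ∪ hfin2.toFinset, ?_, ?_, ?_⟩
  · intro v hv
    simp [hv]
  · intro v hv
    simp only [Finset.mem_union, Set.Finite.mem_toFinset, Set.mem_ofPred_eq, not_or] at hv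
    exact ⟨hv.1.2, hS₀ v hv.1.1.2, hS v hv.1.1.1⟩
  · intro v hv
    simp only [Finset.mem_union, Set.Finite.mem_toFinset, Set.mem_ofPred_eq, not_or] at hv
    exact not_lt.mp hv.2

/-- From a limit at `1⁺` to a `δ`. -/
theorem exists_delta_of_eventually {p : ℝ → Prop} (h : ∀ᶠ s in 𝓝[>] (1 : ℝ), p s) :
    ∃ δ : ℝ, 0 < δ ∧ ∀ s : ℝ, 1 < s → s < 1 + δ → p s := by
  obtain ⟨u, hu, hsub⟩ := mem_nhdsGT_iff_exists_Ioo_subset.mp h
  refine ⟨u - 1, by simpa using hu, fun s hs1 hs2 => hsub ⟨hs1, by linarith⟩⟩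

theorem re_mul_conj_self (z : ℂ) : (z * conj z).re = ‖z‖ ^ 2 := by
  rw [Complex.mul_conj, Complex.ofReal_re, Complex.normSq_eq_norm_sq]

theorem abs_re_mul_conj_le {z w : ℂ} (hz : ‖z‖ ≤ 2) (hw : ‖w‖ ≤ 2) :
    |(z * conj w).re| ≤ 4 := by
  have h3 : |(z * conj w).re| ≤ ‖z * conj w‖ := Complex.abs_re_le_norm _
  have h4 : ‖z * conj w‖ = ‖z‖ * ‖w‖ := by rw [norm_mul, RCLike.norm_conj]
  rw [h4] at h3
  nlinarith [norm_nonneg z, norm_nonneg w]

theorem coef2_bot (a a' : HeightOneSpectrum (𝓞 K) → ℂ) (S : Set (HeightOneSpectrum (𝓞 K))) :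
    coef2 a a' S ⊥ = 0 := by
  simp [coef2, coef]

/-- **Reduction of `RSLowerC`.** -/
theorem rsLowerC_of (hP : PlaceSumC K) (hE : EulerLogC K) (hA : AbelC K)
    (hSm : SmoothSelfC K) : RSLowerC K := by
  intro hcplx π hπ ht S hSb
  obtain ⟨Q₀, hQ⟩ := hE hP
  obtain ⟨S₁, hSS, hgood, hQ₁⟩ := exists_good_finset π ht S hSb Q₀
  obtain ⟨hsummable, C, hC⟩ := hQ π.a π.a S₁ (fun v hv => ⟨hQ₁ v hv, (hgood v hv).2.2,
    (hgood v hv).2.2⟩)
  obtain ⟨G, L, hG, hL, hten⟩ := hSm hcplx π hπ S₁ hgood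
  obtain ⟨m, hm, hlim⟩ := hA _ G L hG (coef2_bot _ _ _) hsummable hten
  have hpos : 0 < ‖L / (m : ℂ)‖ :=
    norm_pos_iff.mpr (div_ne_zero hL (by exact_mod_cast hm.ne'))
  set c₀ : ℝ := ‖L / (m : ℂ)‖ / 2 with hc₀
  have hc₀pos : 0 < c₀ := by positivity
  have hev : ∀ᶠ s in 𝓝[>] (1 : ℝ),
      c₀ < ‖((s - 1 : ℝ) : ℂ) * dSer (coef2 π.a π.a (S₁ : Set (HeightOneSpectrum (𝓞 K)))) s‖ :=
    hlim.norm.eventually (lt_mem_nhds (half_lt_self hpos))
  obtain ⟨δ, hδ, hδ'⟩ := exists_delta_of_eventually hev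
  refine ⟨max (C - Real.log c₀) (Real.log (1 / min δ 1)), fun s hs1 hs2 => ?_⟩
  -- summability of the two families
  have hsumS := summable_indicator_of_bound hP (S : Set (HeightOneSpectrum (𝓞 K)))
    (fun v => ‖π.a v‖ ^ 2) 4 (fun v hv => by
      have h := hSb v (by simpa using hv)
      rw [abs_of_nonneg (sq_nonneg _)]
      nlinarith [norm_nonneg (π.a v)]) hs1
  have hsumS₁ := summable_indicator_of_bound hP (S₁ : Set (HeightOneSpectrum (𝓞 K)))
    (fun v => ‖π.a v‖ ^ 2) 4 (fun v hv => by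
      have h := (hgood v (by simpa using hv)).2.2
      rw [abs_of_nonneg (sq_nonneg _)]
      nlinarith [norm_nonneg (π.a v)]) hs1
  have hmono := wSum_mono (S : Set (HeightOneSpectrum (𝓞 K))) (S₁ : Set (HeightOneSpectrum (𝓞 K)))
    (by exact_mod_cast hSS) (fun v => ‖π.a v‖ ^ 2) (fun v _ => sq_nonneg _) s hsumS hsumS₁
  have hfun : (fun v : HeightOneSpectrum (𝓞 K) => (π.a v * conj (π.a v)).re)
      = fun v => ‖π.a v‖ ^ 2 := funext fun v => re_mul_conj_self _
  by_cases hsδ : s < 1 + min δ 1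
  · have hs3 : s < 1 + δ := lt_of_lt_of_le hsδ (by linarith [min_le_left δ 1])
    have h1 := hδ' s hs1 hs3
    obtain ⟨hne, habs⟩ := hC s hs1 hs2
    rw [hfun] at habs
    have hs0 : 0 < s - 1 := by linarith
    rw [norm_mul, Complex.norm_real, Real.norm_eq_abs, abs_of_pos hs0] at h1
    have hDpos : 0 < ‖dSer (coef2 π.a π.a (S₁ : Set (HeightOneSpectrum (𝓞 K)))) s‖ :=
      norm_pos_iff.mpr hne
    have h2 : c₀ * (1 / (s - 1))
        < ‖dSer (coef2 π.a π.a (S₁ : Set (HeightOneSpectrum (𝓞 K)))) s‖ := by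
      rw [mul_one_div, div_lt_iff₀ hs0]
      linarith
    have h3 : Real.log (c₀ * (1 / (s - 1)))
        < Real.log ‖dSer (coef2 π.a π.a (S₁ : Set (HeightOneSpectrum (𝓞 K)))) s‖ :=
      Real.log_lt_log (by positivity) h2
    rw [Real.log_mul hc₀pos.ne' (by positivity)] at h3
    have h4 := (abs_le.mp habs).2
    have h5 := le_max_left (C - Real.log c₀) (Real.log (1 / min δ 1))
    linarith
  · have hmin : 0 < min δ 1 := lt_min hδ one_pos
    have hs4 : min δ 1 ≤ s - 1 := by linarith [not_lt.mp hsδ]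
    have h0 : 0 ≤ wSum (S : Set (HeightOneSpectrum (𝓞 K))) (fun v => ‖π.a v‖ ^ 2) s := by
      unfold wSum
      refine tsum_nonneg fun v => Set.indicator_nonneg (fun v _ => ?_) v
      exact mul_nonneg (sq_nonneg _) (nv_rpow_nonneg v s)
    have h6 : Real.log (1 / (s - 1)) ≤ Real.log (1 / min δ 1) :=
      Real.log_le_log (by positivity) (one_div_le_one_div_of_le hmin hs4)
    have h5 := le_max_right (C - Real.log c₀) (Real.log (1 / min δ 1))
    linarith

/-- **Reduction of `RSCrossC`.** -/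
theorem rsCrossC_of (hP : PlaceSumC K) (hE : EulerLogC K) (hA : AbelC K)
    (hSm : SmoothCrossC K) : RSCrossC K := by
  intro hcplx π π' hπ hπ' ht ht' hne S hSb M
  classical
  obtain ⟨Q₀, hQ⟩ := hE hP
  obtain ⟨S₁, hSS₁, hgood₁, hQ₁⟩ := exists_good_finset π ht S (fun v hv => (hSb v hv).1) Q₀
  obtain ⟨S₂, hSS₂, hgood₂, -⟩ := exists_good_finset π' ht' S (fun v hv => (hSb v hv).2) Q₀
  set T : Finset (HeightOneSpectrum (𝓞 K)) := S₁ ∪ S₂ with hT
  have hS₁T : S₁ ⊆ T := Finset.subset_union_left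
  have hS₂T : S₂ ⊆ T := Finset.subset_union_right
  have hST : S ⊆ T := hSS₁.trans hS₁T
  have hg : IsGoodOutside π T := hgood₁.mono hS₁T
  have hg' : IsGoodOutside π' T := hgood₂.mono hS₂T
  obtain ⟨hsummable, C, hC⟩ := hQ π.a π'.a T (fun v hv =>
    ⟨hQ₁ v (fun h => hv (hS₁T h)), (hg v hv).2.2, (hg' v hv).2.2⟩)
  obtain ⟨G, hG, hten⟩ := hSm hcplx π π' hπ hπ' hne T hg hg'
  obtain ⟨m, hm, hlim⟩ := hA _ G 0 hG (coef2_bot _ _ _) hsummable hten
  rw [zero_div] at hlim
  set ε : ℝ := Real.exp (-(M + C + (T.card : ℝ) * 4)) with hε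
  have hεpos : 0 < ε := Real.exp_pos _
  have hev : ∀ᶠ s in 𝓝[>] (1 : ℝ),
      ‖((s - 1 : ℝ) : ℂ) * dSer (coef2 π.a π'.a (T : Set (HeightOneSpectrum (𝓞 K)))) s‖ < ε := by
    have := hlim.norm
    rw [norm_zero] at this
    exact this.eventually (gt_mem_nhds hεpos)
  obtain ⟨δ, hδ, hδ'⟩ := exists_delta_of_eventually hev
  refine ⟨min δ 1, lt_min hδ one_pos, fun s hs1 hs2 => ?_⟩
  have hs3 : s < 1 + δ := lt_of_lt_of_le hs2 (by linarith [min_le_left δ 1])
  have hs4 : s < 2 := lt_of_lt_of_le hs2 (by linarith [min_le_right δ 1])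
  have hs0 : 0 < s - 1 := by linarith
  have h1 := hδ' s hs1 hs3
  obtain ⟨hne0, habs⟩ := hC s hs1 hs4
  rw [norm_mul, Complex.norm_real, Real.norm_eq_abs, abs_of_pos hs0] at h1
  have hDpos : 0 < ‖dSer (coef2 π.a π'.a (T : Set (HeightOneSpectrum (𝓞 K)))) s‖ :=
    norm_pos_iff.mpr hne0
  have h2 : ‖dSer (coef2 π.a π'.a (T : Set (HeightOneSpectrum (𝓞 K)))) s‖
      < ε * (1 / (s - 1)) := by
    rw [mul_one_div, lt_div_iff₀ hs0]
    linarith
  have h3 : Real.log ‖dSer (coef2 π.a π'.a (T : Set (HeightOneSpectrum (𝓞 K)))) s‖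
      < Real.log (ε * (1 / (s - 1))) := Real.log_lt_log hDpos h2
  rw [Real.log_mul hεpos.ne' (by positivity), hε, Real.log_exp] at h3
  have h4 := (abs_le.mp habs).1
  -- from `S` to `T`
  have hsumS := summable_indicator_of_bound hP (S : Set (HeightOneSpectrum (𝓞 K)))
    (fun v => (π.a v * conj (π'.a v)).re) 4 (fun v hv => by
      have h := hSb v (by simpa using hv)
      exact abs_re_mul_conj_le h.1 h.2) hs1
  have hsumT := summable_indicator_of_bound hP (T : Set (HeightOneSpectrum (𝓞 K)))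
    (fun v => (π.a v * conj (π'.a v)).re) 4 (fun v hv => by
      have hv' : v ∉ T := by simpa using hv
      exact abs_re_mul_conj_le (hg v hv').2.2 (hg' v hv').2.2) hs1
  have h5 := wSum_le_add S T hST (fun v => (π.a v * conj (π'.a v)).re) 4 (by norm_num)
    (fun v hv => (le_abs_self _).trans (abs_re_mul_conj_le (hSb v hv).1 (hSb v hv).2))
    (by linarith : (0 : ℝ) ≤ s) hsumS hsumT
  linarith

/-- **`T7.RigidC K` from the package of level 2.** -/
theorem rigidC_of_pkg (hP : PlaceSumC K) (hE : EulerLogC K) (hA : AbelC K)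
    (hS : SmoothSelfC K) (hX : SmoothCrossC K) : RigidC K :=
  rigidC_of hP (rsLowerC_of hP hE hA hS) (rsCrossC_of hP hE hA hX)

/-- `T7.RigidAll` from the package of level 2 for every number field. -/
theorem rigidAll_of_pkg
    (hP : ∀ (K : Type) [Field K] [NumberField K], PlaceSumC K)
    (hE : ∀ (K : Type) [Field K] [NumberField K], EulerLogC K)
    (hA : ∀ (K : Type) [Field K] [NumberField K], AbelC K)
    (hS : ∀ (K : Type) [Field K] [NumberField K], SmoothSelfC K)
    (hX : ∀ (K : Type) [Field K] [NumberField K], SmoothCrossC K) : RigidAll :=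
  fun K _ _ => rigidC_of_pkg (hP K) (hE K) (hA K) (hS K) (hX K)

/-! ## The equation lemmas of `hpoly`, realised ONCE (v2, 16:00Z)

`hpoly` is defined by pattern matching: a module which unfolds it (`simp [hpoly]`, `rw [hpoly]`,
`unfold hpoly`) realises `hpoly.eq_def`, `hpoly.eq_1`, ... in its own `.olean` unless an imported
module has done so, and two such realisations in one closure collide in the grader's kernel
checker (found by helper328 in the closure of `RigidPlug3`).  They are realised HERE, upstream of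
every user.  Nothing else of this file is changed. -/

theorem hpoly_eq_def62 (a : ℂ) (n : ℕ) :
    hpoly a n = match n with
      | 0 => 1
      | 1 => a
      | (m + 2) => a * hpoly a (m + 1) - hpoly a m :=
  hpoly.eq_def a n

theorem hpoly_zero62 (a : ℂ) : hpoly a 0 = 1 :=
  hpoly.eq_1 a

theorem hpoly_one62 (a : ℂ) : hpoly a 1 = a :=
  hpoly.eq_2 a

theorem hpoly_succ62 (a : ℂ) (m : ℕ) :
    hpoly a (m + 2) = a * hpoly a (m + 1) - hpoly a m :=
  hpoly.eq_3 a m

end Fermat.Agent.LT.T7.Rigid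

end

end
-- ===== PACK-END LT/T7/H62/RigidPkg.lean

-- ===== PACK-BEGIN LT/T7/H231/Dict.lean
section







/-!
# Row LT, tower T7, leaf T7.04 (helper231): the Frobenius dictionary for `E/F`, one direction

OFF-MAIN.

`resDeg_eq_three231`: let `w` be a place of `E = fieldE ρ` over the place `v` of `F = fieldF ρ`,
over the prime number `p`, with trivial inertia group in `E/ℚ`, `A` a valuation subring of `ℚ̄`
over `w` (hence over `v`), `σ` a Frobenius element at `A`, `g = ρ σ`.  If `det g = 1` and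
`g ∉ Q8` (i.e. `ordQ8 (g ^ ordSL g) = 3`), then `N w = (N v) ^ f` forces `f = 3`.

`exists_frob_over231`: a valuation subring over a given place and a Frobenius element at it.
-/

set_option autoImplicit false
set_option linter.unusedSectionVars false
set_option linter.style.haveILetI false

open IsDedekindDomain NumberField
open scoped MatrixGroups

noncomputable section

namespace Fermat.Agent.LT.T7.H231

open Fermat.Agent.LT.H130 Fermat.Agent.LT.A2.H230 Fermat.Agent.LT.T7
open Fermat.Agent.Lib.Cheb.Spec Fermat.Agent.Lib.Cheb.H943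

local notation "Γℚ" => (AlgebraicClosure ℚ ≃ₐ[ℚ] AlgebraicClosure ℚ)

/-- A valuation subring of `ℚ̄` over a given place of `L₀ ⊆ ℚ̄` (over the prime `p`) and a
Frobenius element at it. -/
theorem exists_frob_over231 (L₀ : IntermediateField ℚ Qb) [NumberField L₀]
    (w : HeightOneSpectrum (𝓞 L₀)) {p : ℕ} (hp : p.Prime)
    (hpw : ((p : ℕ) : 𝓞 L₀) ∈ w.asIdeal) :
    ∃ (A : ValuationSubring Qb) (σ : Γℚ), A.LiesOverPrime p ∧ A.IsFrobeniusAt σ p ∧
      ∀ x ∈ w.asIdeal, emb L₀ x ∈ A.nonunits := by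
  obtain ⟨A, hA⟩ := exists_valuationSubring_over L₀ w.asIdeal w.isPrime.ne_top
  have hLO : A.LiesOverPrime p := by
    have h1 := hA _ hpw
    rw [map_natCast] at h1
    exact h1
  obtain ⟨σ, hσ⟩ := Fermat.Agent.S37.H99.exists_isFrobeniusAt p hp A hLO
  exact ⟨A, σ, hLO, hσ, hA⟩

section Dict

variable {ρ : Γℚ →* GL (Fin 2) (ZMod 3)}

/-- **The dictionary, one direction.** -/
theorem resDeg_eq_three231 (hρ : Continuous ρ) [NumberField (fieldF ρ)]
    [NumberField (fieldE ρ)] {p : ℕ} (hp : p.Prime)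
    (v : HeightOneSpectrum (𝓞 (fieldF ρ))) (w : HeightOneSpectrum (𝓞 (fieldE ρ)))
    (hpv : ((p : ℕ) : 𝓞 (fieldF ρ)) ∈ v.asIdeal) (hpw : ((p : ℕ) : 𝓞 (fieldE ρ)) ∈ w.asIdeal)
    {A : ValuationSubring Qb}
    (hAv : ∀ x ∈ v.asIdeal, emb (fieldF ρ) x ∈ A.nonunits)
    (hAw : ∀ x ∈ w.asIdeal, emb (fieldE ρ) x ∈ A.nonunits)
    {σ : Γℚ} (hσ : A.IsFrobeniusAt σ p)
    (hI : InertiaTrivial (fieldE ρ) w.asIdeal)
    (hdet : Matrix.GeneralLinearGroup.det (ρ σ) = 1) (hq : ¬ InQ8 (ρ σ))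
    {f : ℕ} (hf : Ideal.absNorm w.asIdeal = Ideal.absNorm v.asIdeal ^ f) : f = 3 := by
  haveI := normal_fieldE231 ρ
  haveI := normal_fieldF231 ρ
  -- the norms
  obtain ⟨kv, hkv0, hkv⟩ := absNorm_eq_prime_pow231 v hp hpv
  obtain ⟨kw, hkw0, hkw⟩ := absNorm_eq_prime_pow231 w hp hpw
  -- `N v ≤ p`
  have h1 : Ideal.absNorm v.asIdeal ≤ p ^ 1 :=
    absNorm_le_of_pow_fixes231 hp v.isMaximal hAv hσ one_pos
      (fun x => by rw [pow_one]; exact fixes_fieldF_of_det231 hdet x)
  have hkv1 : kv = 1 := by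
    rw [hkv] at h1
    have := (Nat.pow_le_pow_iff_right hp.one_lt).mp h1
    omega
  -- `N w ≤ p ^ 3`
  have h3 : Ideal.absNorm w.asIdeal ≤ p ^ 3 := by
    refine absNorm_le_of_pow_fixes231 hp w.isMaximal hAw hσ (by norm_num) (fun x => ?_)
    refine fixes_of_inQ8_231 ?_ x
    rw [map_pow]
    exact inQ8_cube231 hdet
  have hkw3 : kw ≤ 3 := by
    rw [hkw] at h3
    exact (Nat.pow_le_pow_iff_right hp.one_lt).mp h3
  -- `σ ^ kw` fixes `E`
  have h4 : InQ8 ((ρ σ) ^ kw) := by
    rw [← map_pow]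
    exact inQ8_of_fixes231 hρ (pow_fixes_of_absNorm231 w.isMaximal hAw hσ hI hkw)
  have hkw : kw = 3 := by
    have hcases : kw = 1 ∨ kw = 2 ∨ kw = 3 := by omega
    rcases hcases with h | h | h
    · exfalso
      rw [h, pow_one] at h4
      exact hq h4
    · exfalso
      rw [h] at h4
      exact hq (inQ8_of_sq231 hdet h4)
    · exact h
  -- conclusion
  have h5 : p ^ 3 = p ^ f := by
    have e1 : Ideal.absNorm w.asIdeal = p ^ 3 := by rw [‹Ideal.absNorm w.asIdeal = p ^ kw›, hkw]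
    have e2 : Ideal.absNorm v.asIdeal = p := by rw [hkv, hkv1, pow_one]
    rw [e1, e2] at hf
    exact hf
  exact (Nat.pow_right_injective hp.two_le h5).symm

end Dict

end Fermat.Agent.LT.T7.H231

end

end
-- ===== PACK-END LT/T7/H231/Dict.lean

-- ===== PACK-BEGIN LT/T7/H309/Sep.lean
section




/-!
# Row LT, tower T7, leaf T7.C4 = SEP (helper309): separation of joint eigen-data

OFF-MAIN.  `sepC309 K : T7.SepC K` and `sepAll309 : T7.SepAll`, VERBATIM the Props of
`T7/Comparison.lean`, unconditional.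

The space of parameters: `X0 S` = the functions `ω` on the generators outside `S`
(`T_w`, `S_w`, `S_w⁻¹`, `w ∉ S`; sphere means `M w d`, `d > 0`) with `|ω g| ≤ rad g` and
`conj (ω g) = ` the value of the conjugate word `cj g` (`conj T_w = T_w S_w⁻¹`,
`conj S_w = S_w⁻¹`, `conj S_w⁻¹ = S_w`, `conj M = M`): a closed subset of a product of closed
discs, hence compact Hausdorff (it is NOT first countable: uncountably many radii `d`).
The eigenvalues of words are the monomials in the coordinates; they form a submonoid of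
`C(X0 S, ℂ)`, closed under conjugation, which separates the points.  The abstract separation
`atoms_sep_monoid309` (`SepAbs.lean`: Stone--Weierstrass + Urysohn) concludes.
-/

set_option autoImplicit false

open IsDedekindDomain NumberField
open scoped ComplexConjugate

noncomputable section

namespace Fermat.Agent.LT.T7.H309

open Fermat.Agent.LT.T7

variable {K : Type} [Field K] [NumberField K]

/-- The generators outside `S`. -/
abbrev GenOut (S : Finset (HeightOneSpectrum (𝓞 K))) : Type := {g : Gen K // g.Out S}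

/-- The bound of the eigenvalue of a generator on unitary eigen-data. -/
def rad : Gen K → ℝ
  | Gen.T w => ((Ideal.absNorm w.asIdeal : ℝ) + 1) / Real.sqrt (Ideal.absNorm w.asIdeal : ℝ)
  | Gen.S _ => 1
  | Gen.Sinv _ => 1
  | Gen.M _ _ => 4 * Real.pi

/-- The conjugate of a generator, as a word. -/
def cj (S : Finset (HeightOneSpectrum (𝓞 K))) : GenOut S → List (GenOut S)
  | ⟨Gen.T w, h⟩ => [⟨Gen.T w, h⟩, ⟨Gen.Sinv w, h⟩]
  | ⟨Gen.S w, h⟩ => [⟨Gen.Sinv w, h⟩]
  | ⟨Gen.Sinv w, h⟩ => [⟨Gen.S w, h⟩]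
  | ⟨Gen.M w d, h⟩ => [⟨Gen.M w d, h⟩]

/-- The point of the parameter space defined by eigen-data. -/
def raw (S : Finset (HeightOneSpectrum (𝓞 K))) (D : EigData K) : GenOut S → ℂ :=
  fun g => g.1.ev D

/-- The compact space of unitary parameters outside `S`. -/
def X0 (S : Finset (HeightOneSpectrum (𝓞 K))) : Set (GenOut S → ℂ) :=
  {ω | (∀ g : GenOut S, ω g ∈ Metric.closedBall (0 : ℂ) (rad g.1)) ∧
    ∀ g : GenOut S, conj (ω g) = ((cj S g).map ω).prod}

theorem isCompact_X0_309 (S : Finset (HeightOneSpectrum (𝓞 K))) : IsCompact (X0 S) := by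
  have h1 : IsCompact (Set.univ.pi fun g : GenOut S => Metric.closedBall (0 : ℂ) (rad g.1)) :=
    isCompact_univ_pi fun g => isCompact_closedBall 0 _
  have h2 : IsClosed (⋂ g : GenOut S, {ω : GenOut S → ℂ | conj (ω g) = ((cj S g).map ω).prod}) := by
    refine isClosed_iInter fun g => isClosed_eq ?_ ?_
    · exact Complex.continuous_conj.comp (continuous_apply g)
    · exact continuous_list_prod (f := fun (h : GenOut S) (ω : GenOut S → ℂ) => ω h) (cj S g)
        fun h _ => continuous_apply h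
  have h3 : X0 S = (Set.univ.pi fun g : GenOut S => Metric.closedBall (0 : ℂ) (rad g.1)) ∩
      ⋂ g : GenOut S, {ω : GenOut S → ℂ | conj (ω g) = ((cj S g).map ω).prod} := by
    ext ω
    simp only [X0, Set.mem_ofPred_eq, Set.mem_inter_iff, Set.mem_pi, Set.mem_univ, true_imp_iff,
      Set.mem_iInter]
  rw [h3]
  exact h1.inter_right h2

theorem absNorm_pos309 (w : HeightOneSpectrum (𝓞 K)) : (0 : ℝ) < (Ideal.absNorm w.asIdeal : ℝ) := by
  have h : Ideal.absNorm w.asIdeal ≠ 0 := fun h0 => w.ne_bot (Ideal.absNorm_eq_zero_iff.mp h0)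
  exact_mod_cast Nat.pos_of_ne_zero h

/-- Unitary eigen-data define a point of `X0 S`. -/
theorem raw_mem_X0_309 {S : Finset (HeightOneSpectrum (𝓞 K))} {D : EigData K}
    (hD : D.IsUnitaryOut S) : raw S D ∈ X0 S := by
  refine ⟨?_, ?_⟩
  · rintro ⟨g, hg⟩
    rw [mem_closedBall_zero_iff]
    cases g with
    | T w =>
        obtain ⟨-, -, h3⟩ := hD.1 w hg
        have hq : 0 < Real.sqrt (Ideal.absNorm w.asIdeal : ℝ) :=
          Real.sqrt_pos.mpr (absNorm_pos309 w)
        exact (le_div_iff₀ hq).mpr h3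
    | S w =>
        obtain ⟨h1, -, -⟩ := hD.1 w hg
        exact h1.le
    | Sinv w =>
        obtain ⟨h1, -, -⟩ := hD.1 w hg
        show ‖(D.b w)⁻¹‖ ≤ 1
        rw [norm_inv, h1, inv_one]
    | M w d => exact (hD.2 w d hg).2
  · rintro ⟨g, hg⟩
    cases g with
    | T w =>
        obtain ⟨h1, h2, -⟩ := hD.1 w hg
        show conj (D.a w) = ([(⟨Gen.T w, hg⟩ : GenOut S), ⟨Gen.Sinv w, hg⟩].map (raw S D)).prod
        simp only [List.map_cons, List.map_nil, List.prod_cons, List.prod_nil, mul_one, raw,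
          Gen.ev]
        rw [h2, Complex.inv_eq_conj h1]
    | S w =>
        obtain ⟨h1, -, -⟩ := hD.1 w hg
        show conj (D.b w) = ([(⟨Gen.Sinv w, hg⟩ : GenOut S)].map (raw S D)).prod
        simp only [List.map_cons, List.map_nil, List.prod_cons, List.prod_nil, mul_one, raw,
          Gen.ev]
        rw [Complex.inv_eq_conj h1]
    | Sinv w =>
        obtain ⟨h1, -, -⟩ := hD.1 w hg
        show conj (D.b w)⁻¹ = ([(⟨Gen.S w, hg⟩ : GenOut S)].map (raw S D)).prod
        simp only [List.map_cons, List.map_nil, List.prod_cons, List.prod_nil, mul_one, raw,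
          Gen.ev]
        rw [Complex.inv_eq_conj h1, Complex.conj_conj]
    | M w d =>
        show conj (D.m w d) = ([(⟨Gen.M w d, hg⟩ : GenOut S)].map (raw S D)).prod
        simp only [List.map_cons, List.map_nil, List.prod_cons, List.prod_nil, mul_one, raw,
          Gen.ev]
        exact Complex.conj_eq_iff_im.mpr (hD.2 w d hg).1

/-- Agreement outside `S` is equality of the points. -/
theorem agreeOut_iff_raw309 (S : Finset (HeightOneSpectrum (𝓞 K))) (D D' : EigData K) :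
    D.AgreeOut S D' ↔ raw S D = raw S D' := by
  constructor
  · intro h
    funext g
    obtain ⟨g, hg⟩ := g
    cases g with
    | T w => exact (h.1 w hg).1
    | S w => exact (h.1 w hg).2
    | Sinv w => show (D.b w)⁻¹ = (D'.b w)⁻¹; rw [(h.1 w hg).2]
    | M w d => exact h.2 w d hg
  · intro h
    refine ⟨fun w hw => ⟨?_, ?_⟩, fun w d hd => ?_⟩
    · exact congrFun h ⟨Gen.T w, hw⟩
    · exact congrFun h ⟨Gen.S w, hw⟩
    · exact congrFun h ⟨Gen.M w d, hd⟩

/-- The eigenvalue of a word, as a continuous function on the parameter space. -/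
def wfn (S : Finset (HeightOneSpectrum (𝓞 K))) (L : List (GenOut S)) : C(X0 S, ℂ) :=
  ⟨fun ω => (L.map fun g => ω.1 g).prod,
    continuous_list_prod (f := fun (h : GenOut S) (ω : X0 S) => ω.1 h) L
      fun h _ => (continuous_apply h).comp continuous_subtype_val⟩

theorem wfn_apply309 (S : Finset (HeightOneSpectrum (𝓞 K))) (L : List (GenOut S)) (ω : X0 S) :
    wfn S L ω = (L.map fun g => ω.1 g).prod := rfl

theorem wfn_nil309 (S : Finset (HeightOneSpectrum (𝓞 K))) : wfn S [] = 1 := by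
  ext ω
  simp [wfn_apply309]

theorem wfn_append309 (S : Finset (HeightOneSpectrum (𝓞 K))) (L L' : List (GenOut S)) :
    wfn S (L ++ L') = wfn S L * wfn S L' := by
  ext ω
  simp [wfn_apply309, List.map_append, List.prod_append]

theorem star_wfn309 (S : Finset (HeightOneSpectrum (𝓞 K))) (L : List (GenOut S)) :
    star (wfn S L) = wfn S (L.flatMap (cj S)) := by
  ext ω
  induction L with
  | nil => simp [wfn_apply309]
  | cons g L ih =>
      have h1 : star (wfn S (g :: L)) ω = conj (ω.1 g) * star (wfn S L) ω := by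
        simp [wfn_apply309]
      have h2 : wfn S ((g :: L).flatMap (cj S)) ω
          = ((cj S g).map fun h => ω.1 h).prod * wfn S (L.flatMap (cj S)) ω := by
        simp [wfn_apply309, List.flatMap_cons, List.map_append, List.prod_append]
      rw [h1, h2, ih, ω.2.2 g]

/-- The monoid of the eigenvalue functions of words. -/
def wordMonoid (S : Finset (HeightOneSpectrum (𝓞 K))) : Submonoid C(X0 S, ℂ) where
  carrier := {f | ∃ L : List (GenOut S), f = wfn S L}
  one_mem' := ⟨[], (wfn_nil309 S).symm⟩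
  mul_mem' := by
    rintro _ _ ⟨L, rfl⟩ ⟨L', rfl⟩
    exact ⟨L ++ L', (wfn_append309 S L L').symm⟩

theorem wordEv_map_val309 (S : Finset (HeightOneSpectrum (𝓞 K))) (L : List (GenOut S))
    (D : EigData K) : wordEv (L.map Subtype.val) D = (L.map fun g => raw S D g).prod := by
  simp [wordEv, raw]

/-- **LEAF T7.C4 = SEP**, verbatim. -/
theorem sepC309 (K : Type) [Field K] [NumberField K] : SepC K := by
  intro S ι ι' A B x y hx hy hA hB hword D₀
  have : CompactSpace (X0 S) := isCompact_iff_compactSpace.mp (isCompact_X0_309 S)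
  let p : ι → X0 S := fun i => ⟨raw S (A i), raw_mem_X0_309 (hA i)⟩
  let p' : ι' → X0 S := fun j => ⟨raw S (B j), raw_mem_X0_309 (hB j)⟩
  by_cases hD : raw S D₀ ∈ X0 S
  · have key := atoms_sep_monoid309 (wordMonoid S)
      (by rintro _ ⟨L, rfl⟩; exact ⟨L.flatMap (cj S), star_wfn309 S L⟩)
      (by
        intro z z' hzz'
        have hne : z.1 ≠ z'.1 := fun h => hzz' (Subtype.ext h)
        obtain ⟨g, hg⟩ := Function.ne_iff.mp hne
        exact ⟨wfn S [g], ⟨[g], rfl⟩, by simpa [wfn_apply309] using hg⟩)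
      p p' x y hx hy
      (by
        rintro _ ⟨L, rfl⟩
        have h := hword (L.map Subtype.val) (by
          intro g hg
          obtain ⟨g', -, rfl⟩ := List.mem_map.mp hg
          exact g'.2)
        simp only [wordEv_map_val309] at h
        exact h)
      ⟨raw S D₀, hD⟩
    have e1 : {i : ι | (A i).AgreeOut S D₀} = {i : ι | p i = ⟨raw S D₀, hD⟩} := by
      ext i
      simp only [Set.mem_ofPred_eq, agreeOut_iff_raw309, p, Subtype.mk.injEq]
    have e2 : {j : ι' | (B j).AgreeOut S D₀} = {j : ι' | p' j = ⟨raw S D₀, hD⟩} := by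
      ext j
      simp only [Set.mem_ofPred_eq, agreeOut_iff_raw309, p', Subtype.mk.injEq]
    have a1 : ∑' i : {i : ι // (A i).AgreeOut S D₀}, x i
        = ∑' i, Set.indicator {i : ι | (A i).AgreeOut S D₀} x i :=
      tsum_subtype {i : ι | (A i).AgreeOut S D₀} x
    have a2 : ∑' j : {j : ι' // (B j).AgreeOut S D₀}, y j
        = ∑' j, Set.indicator {j : ι' | (B j).AgreeOut S D₀} y j :=
      tsum_subtype {j : ι' | (B j).AgreeOut S D₀} y
    have b1 : ∑' i : {i : ι // p i = ⟨raw S D₀, hD⟩}, x i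
        = ∑' i, Set.indicator {i : ι | p i = ⟨raw S D₀, hD⟩} x i :=
      tsum_subtype {i : ι | p i = ⟨raw S D₀, hD⟩} x
    have b2 : ∑' j : {j : ι' // p' j = ⟨raw S D₀, hD⟩}, y j
        = ∑' j, Set.indicator {j : ι' | p' j = ⟨raw S D₀, hD⟩} y j :=
      tsum_subtype {j : ι' | p' j = ⟨raw S D₀, hD⟩} y
    rw [a1, a2, e1, e2, ← b1, ← b2]
    exact key
  · have h1 : IsEmpty {i : ι // (A i).AgreeOut S D₀} :=
      ⟨fun i => hD (by
        rw [← (agreeOut_iff_raw309 S (A i.1) D₀).mp i.2]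
        exact raw_mem_X0_309 (hA i.1))⟩
    have h2 : IsEmpty {j : ι' // (B j).AgreeOut S D₀} :=
      ⟨fun j => hD (by
        rw [← (agreeOut_iff_raw309 S (B j.1) D₀).mp j.2]
        exact raw_mem_X0_309 (hB j.1))⟩
    rw [tsum_empty, tsum_empty]

/-- **`SepAll`**, verbatim. -/
theorem sepAll309 : SepAll := fun K _ _ => sepC309 K

end Fermat.Agent.LT.T7.H309

end

end
-- ===== PACK-END LT/T7/H309/Sep.lean

-- ===== PACK-BEGIN LT/T7/EK.lean
section






/-!
# Row LT, tower T7 (architect helper797): the descent ALONG THE EK ROUTE -- the top that is used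

OFF-MAIN.  Definitions, frozen Props, PROVED tops.  No `sorry`, nothing assumed.
ADDITIVE: `T7/Spec.lean` v1.2 (sha256 76a196044a64b920) and `T7/Comparison.lean` v0
(sha256 145a1ebb5a649e8e) are FROZEN and unchanged; every leaf delivered against them stays valid.

## Why this file

The trace identities of T4/T5 are identities for EISENSTEIN-KILLING test functions (T3, operator
form `T3.EKOpExistC`): the test function contains, at an auxiliary place `w₀`, a Hecke
operator which acts on a spherical vector with Satake parameters `(z₁, z₂)` at `w₀` by a multiple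
of `(1 - z₁ⁿ)(1 - z₂ⁿ)`.  So the comparison sees a cusp form `Φ` ONLY IF `Φ` has a GOOD EK PLACE:
a place `w₀ ∤ 𝔑` with `w₀ⁿ = (a₀)`, `a₀ ≡ 1 mod 𝔑`, whose Satake parameters are not `n`-th roots
of unity.  The nodes `DescC`, `DescQ3C`, `TraceWordsC`, `TraceWordsQC` of v1.2 / v0 are TRUE for
every `Φ` (Langlands), but our route proves them for the `Φ` WITH a good EK place only.  The wall
needs nothing else: the seed over `E` and every form over `F` with `MidData` have good EK places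
(`Frob_{w₀} = -1`, Satake parameters `(-1, -1)`, `n = 1`), by Chebotarev and class field theory
(leaves `SeedEKC`, `MidEKC`).

## What is proved here

    descEKAll_of     : TraceWordsEKAll  → SepAll → DescEKAll
    descQ3EKAll_of   : TraceWordsQEKAll → SepAll → DescQ3EKAll
    descTrivEKAll_of : DescEKAll → TwistAll → DescTrivEKAll      (proof of helper557, re-typed)
    topEK            : … → WT.A3c_556 ∧ WT.A3q_556                (VERBATIM the frozen wall)

## The tower after this file (USED top = `topEK`)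

```
A3c_556 ⇐ DictEFC + SeedEKC + DescTrivEKAll          DescTrivEKAll ⇐ DescEKAll + TwistAll
A3q_556 ⇐ DictFQC + SqrtC + MidEKC + MidStableC + DescQ3EKAll
MidStableC ⇐ MidUniqueC + ConjAll ,  MidUniqueC ⇐ ThinC + RigidAll          (as in v1.2)
DescEKAll   ⇐ TraceWordsEKAll  + SepAll
DescQ3EKAll ⇐ TraceWordsQEKAll + SepAll
```

NODES: `TraceWordsEKAll`, `TraceWordsQEKAll` (split: `T7/Matching.lean`), `ThinC`, `RigidAll`.
LEAVES: `SepAll`, `SeedEKC`, `MidEKC`, `TwistAll`, `ConjAll`, `MidUniqueFromC`,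
`MidStableFromUniqueC`, `DictEFC`, `DictFQC`, `SqrtC`.
-/

set_option autoImplicit false
set_option linter.style.haveILetI false

open AutomorphicForm FLT.ExplicitLift EisensteinWeightOne
open WeierstrassCurve CongruenceSubgroup
open IsDedekindDomain NumberField
open scoped MatrixGroups

noncomputable section

namespace Fermat.Agent.LT.T7

open Fermat.Agent.LT.H130 Fermat.Agent.LT.H556

local notation "Γℚ" => (AlgebraicClosure ℚ ≃ₐ[ℚ] AlgebraicClosure ℚ)

/-! ## 1. Good EK places -/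

/-- **`Φ` HAS GOOD EK PLACES**: for every level `𝔑 ≠ 0` and every finite set `S` of places there
are a place `w₀ ∉ S`, `w₀ ∤ 𝔑`, of PRIME absolute norm (residue degree one over `ℚ`, hence over
every subfield), an integer `n ≥ 1` and a generator `a₀ ≡ 1 mod 𝔑` of `w₀ⁿ`, such that no Satake
parameter of `Φ` at `w₀` is an `n`-th root of unity.
(Then the Eisenstein-killing function of `T3.EKOpExistC` for `(𝔑, w₀, a₀, n)` acts on the vectors
of `Φ` by a NON-ZERO scalar.) -/
def GoodEK (K : Type) [Field K] [NumberField K] (Φ : HeckeEigensystem K ℂ) : Prop :=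
  ∀ 𝔑 : Ideal (𝓞 K), 𝔑 ≠ ⊥ → ∀ S : Finset (HeightOneSpectrum (𝓞 K)),
    ∃ (w₀ : HeightOneSpectrum (𝓞 K)) (a₀ : 𝓞 K) (n : ℕ),
      w₀ ∉ S ∧ ¬ w₀.asIdeal ∣ 𝔑 ∧ (Ideal.absNorm w₀.asIdeal).Prime ∧ 0 < n ∧
      Ideal.span {a₀} = w₀.asIdeal ^ n ∧ a₀ - 1 ∈ 𝔑 ∧
      ∀ z₁ z₂ : ℂ, z₁ + z₂ = Φ.a w₀ → z₁ * z₂ = Φ.b w₀ → z₁ ^ n ≠ 1 ∧ z₂ ^ n ≠ 1

/-- **LEAF T7.15 = SEED-EK (Chebotarev + ray classes over `E`).**  Under `LTB.Hyp` an eigensystem
over `E = fieldE ρ` with the data `SeedData` has good EK places.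
Proof.  `L` = the field cut out by `ρ`, `Gal(L/E) = Q8`; `H` = the ray class field of `E` modulo
`𝔑`.  `L ∩ H` is abelian over `E`, hence fixed by `[Q8, Q8] = {± 1}`: there is
`τ ∈ Gal(L H / E)` with `τ|_L = -1`, `τ|_H = 1`.  Chebotarev for `L H / E`: infinitely many places
`w₀` of `E` of degree one over `ℚ`, unramified, with Frobenius `τ`.  Then `w₀ = (a₀)`,
`a₀ ≡ 1 mod 𝔑` (`n = 1`), `ρ(Frob_p) = -1` for `p = N w₀`, and by `SeedData`
`a_{w₀} = tr Ψ(-1) = -2`, `b_{w₀} = 1` (`Ψ(-1) = -1`: it is central of order two and reduces to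
`-1`): the Satake parameters are `(-1, -1)`, and `(-1)¹ ≠ 1`.
WITHOUT the ray class field: a place `w₀` with `ρ(Frob) = -1` whose class in the ray class group
modulo `𝔑` has ODD order `n` suffices. -/
def SeedEKC : Prop :=
  ∀ (ρ : Γℚ →* GL (Fin 2) (ZMod 3)) (Ψ : GL (Fin 2) (ZMod 3) →* GL (Fin 2) (ℤ√(-2)))
    (ι : ℤ√(-2) →+* ℂ), LTB.Hyp ρ Ψ → ∀ (_ : NumberField (fieldE ρ))
    (Φ : HeckeEigensystem (fieldE ρ) ℂ), SeedData (fieldE ρ) ρ Ψ ι Φ → GoodEK (fieldE ρ) Φ

/-- **LEAF T7.16 = MID-EK (Chebotarev + ray classes over `F`).**  Under `LTB.Hyp` an eigensystem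
over `F = fieldF ρ = ℚ(√-3)` with the data `MidData` has good EK places.
Proof.  As `SeedEKC` with `Gal(L/F) = SL₂(𝔽₃)`, `[SL₂(𝔽₃), SL₂(𝔽₃)] = Q8 ∋ -1`: places `w₀` of
`F` of degree one with `ρ(Frob_{w₀}) = -1` and trivial ray class modulo `𝔑` (`F` has class number
one).  At such a place `ordSL g = 1`, `ordQ8 g = 1` and `MidData` reads `a_{w₀} = tr Ψ(-1) = -2`,
`b_{w₀} = 1` (NO degenerate value: the place splits in `E/F`). -/
def MidEKC : Prop :=
  ∀ (ρ : Γℚ →* GL (Fin 2) (ZMod 3)) (Ψ : GL (Fin 2) (ZMod 3) →* GL (Fin 2) (ℤ√(-2)))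
    (ι : ℤ√(-2) →+* ℂ), LTB.Hyp ρ Ψ → ∀ (_ : NumberField (fieldF ρ))
    (π : HeckeEigensystem (fieldF ρ) ℂ), MidData (fieldF ρ) ρ Ψ ι π → GoodEK (fieldF ρ) π

/-! ## 2. The descent nodes along the EK route -/

section Cyclic

variable (K K' : Type) [Field K] [NumberField K] [Field K'] [NumberField K'] [Algebra K K']

/-- **NODE DESC-EK** = `DescC` for the `Φ` with good EK places. -/
def DescEKC : Prop :=
  ∀ ℓ : ℕ, IsCycExt K K' ℓ → ℓ ≠ 2 → TotCplx K →
    ∀ Φ : HeckeEigensystem K' ℂ, A0.IsCuspAdelicSph0 K' Φ → ConstOnFibres K Φ →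
      GoodEK K' Φ →
      ∃ π : HeckeEigensystem K ℂ, A0.IsCuspAdelicSph0 K π ∧ IsBC π Φ

/-- **NODE T7.C3-EK = TRACE IDENTITY FOR WORDS along the EK route** = `TraceWordsC` for the `Φ`
with good EK places.  THIS is the node which the comparison of the trace identities proves
(split: `T7/Matching.lean`). -/
def TraceWordsEKC : Prop :=
  ∀ ℓ : ℕ, IsCycExt K K' ℓ → ℓ ≠ 2 → TotCplx K →
    ∀ Φ : HeckeEigensystem K' ℂ, A0.IsCuspAdelicSph0 K' Φ → ConstOnFibres K Φ →
      GoodEK K' Φ →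
      ∃ (S' : Finset (HeightOneSpectrum (𝓞 K'))) (ι ι' : Type)
        (c : ι → HeckeEigensystem K ℂ) (Ch : ι → EigData K') (C : ι' → EigData K')
        (x : ι → ℂ) (y : ι' → ℂ),
        Summable (fun i => ‖x i‖) ∧ Summable (fun j => ‖y j‖) ∧
        (∀ i, (Ch i).IsUnitaryOut S') ∧ (∀ j, (C j).IsUnitaryOut S') ∧
        (∀ i, IsBCEig K K' (c i) (Ch i) S') ∧
        (∀ X : List (Gen K'), (∀ g ∈ X, g.Out S') →
          ∑' i, wordEv X (Ch i) * x i = ∑' j, wordEv X (C j) * y j) ∧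
        (∑' j : {j : ι' // (C j).AgreeOut S' (eigOf Φ)}, y j) ≠ 0 ∧
        ∀ i, (Ch i).IsSph0 → A0.IsCuspAdelicSph0 K (c i)

end Cyclic

/-- `DescEKC` for all cyclic extensions. -/
def DescEKAll : Prop :=
  ∀ (K K' : Type) [Field K] [NumberField K] [Field K'] [NumberField K'] [Algebra K K'],
    DescEKC K K'

/-- `TraceWordsEKC` for all cyclic extensions. -/
def TraceWordsEKAll : Prop :=
  ∀ (K K' : Type) [Field K] [NumberField K] [Field K'] [NumberField K'] [Algebra K K'],
    TraceWordsEKC K K'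

/-- **NODE DESCQ3-EK** = `DescQ3C` for the `Φ` with good EK places. -/
def DescQ3EKC (F : Type) [Field F] [NumberField F] : Prop :=
  HasSqrtNegThree F → IsImagQuad F →
    ∀ Φ : HeckeEigensystem F ℂ, A0.IsCuspAdelicSph0 F Φ → ConstOnFibresQ Φ → GoodEK F Φ →
      ∃ π : HeckeEigensystem ℚ ℂ, A0.notion556.IsCusp ℚ π ∧ IsBCQ π Φ

/-- `DescQ3EKC` for all number fields (i.e. for `ℚ(√-3)`). -/
def DescQ3EKAll : Prop := ∀ (F : Type) [Field F] [NumberField F], DescQ3EKC F

/-- **NODE T7.C3Q-EK** = `TraceWordsQC` for the `Φ` with good EK places. -/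
def TraceWordsQEKC (F : Type) [Field F] [NumberField F] : Prop :=
  HasSqrtNegThree F → IsImagQuad F →
    ∀ Φ : HeckeEigensystem F ℂ, A0.IsCuspAdelicSph0 F Φ → ConstOnFibresQ Φ → GoodEK F Φ →
      ∃ (S : Finset ℕ) (S' : Finset (HeightOneSpectrum (𝓞 F))) (ι ι' : Type)
        (c : ι → HeckeEigensystem ℚ ℂ) (Ch : ι → EigData F) (C : ι' → EigData F)
        (x : ι → ℂ) (y : ι' → ℂ),
        (∀ p : ℕ, p.Prime → ∀ w : HeightOneSpectrum (𝓞 F), ((p : ℕ) : 𝓞 F) ∈ w.asIdeal →
          w ∈ S' → p ∈ S) ∧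
        Summable (fun i => ‖x i‖) ∧ Summable (fun j => ‖y j‖) ∧
        (∀ i, (Ch i).IsUnitaryOut S') ∧ (∀ j, (C j).IsUnitaryOut S') ∧
        (∀ i, IsBCEigQ F (c i) (Ch i) S) ∧
        (∀ X : List (Gen F), (∀ g ∈ X, g.Out S') →
          ∑' i, wordEv X (Ch i) * x i = ∑' j, wordEv X (C j) * y j) ∧
        (∑' j : {j : ι' // (C j).AgreeOut S' (eigOf Φ)}, y j) ≠ 0 ∧
        ∀ i, (Ch i).IsSph0 → A0.notion556.IsCusp ℚ (c i)

/-- `TraceWordsQEKC` for all number fields (i.e. for `ℚ(√-3)`). -/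
def TraceWordsQEKAll : Prop := ∀ (F : Type) [Field F] [NumberField F], TraceWordsQEKC F

/-- **Descent with trivial central character along the EK route** (degree `3`). -/
def DescTrivEKAll : Prop :=
  ∀ (K K' : Type) [Field K] [NumberField K] [Field K'] [NumberField K'] [Algebra K K'],
    IsCycExt K K' 3 → TotCplx K →
    ∀ Φ : HeckeEigensystem K' ℂ, A0.IsCuspAdelicSph0 K' Φ → ConstOnFibres K Φ →
      TrivCentral Φ → GoodEK K' Φ →
      ∃ π : HeckeEigensystem K ℂ, A0.IsCuspAdelicSph0 K π ∧ IsBC π Φ ∧ TrivCentral π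

/-! ## 3. The tops (PROVED) -/

/-- **The cyclic descent along the EK route from the trace identity for words.** -/
theorem descEKC_of (K K' : Type) [Field K] [NumberField K] [Field K'] [NumberField K']
    [Algebra K K'] (hT : TraceWordsEKC K K') (hS : SepC K') : DescEKC K K' := by
  intro ℓ hcyc hℓ hcplx Φ hΦ hconst hgood
  obtain ⟨S', ι, ι', c, Ch, C, x, y, hx, hy, hUA, hUB, hbc, hword, hne, hreal⟩ :=
    hT ℓ hcyc hℓ hcplx Φ hΦ hconst hgood
  have hsep := hS S' ι ι' Ch C x y hx hy hUA hUB hword (eigOf Φ)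
  rw [← hsep] at hne
  obtain ⟨i, hi⟩ := exists_index_of_tsum_ne_zero hne
  refine ⟨c i, hreal i (isSph0_of_agreeOut hi), S', ?_⟩
  intro w hw v f hvw
  obtain ⟨ha, hb⟩ := hbc i w hw v f hvw
  obtain ⟨ha', hb'⟩ := hi.1 w hw
  exact ⟨by rw [← ha, ha']; rfl, by rw [← hb, hb']; rfl⟩

/-- **`DescEKAll` from the two Props of the comparison layer.** -/
theorem descEKAll_of (hT : TraceWordsEKAll) (hS : SepAll) : DescEKAll :=
  fun K K' _ _ _ _ _ => descEKC_of K K' (hT K K') (hS K')

/-- **The quadratic descent to `ℚ` along the EK route from the trace identity for words.** -/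
theorem descQ3EKC_of (F : Type) [Field F] [NumberField F] (hT : TraceWordsQEKC F)
    (hS : SepC F) : DescQ3EKC F := by
  intro h3 hquad Φ hΦ hconst hgood
  obtain ⟨S, S', ι, ι', c, Ch, C, x, y, hSS', hx, hy, hUA, hUB, hbc, hword, hne, hreal⟩ :=
    hT h3 hquad Φ hΦ hconst hgood
  have hsep := hS S' ι ι' Ch C x y hx hy hUA hUB hword (eigOf Φ)
  rw [← hsep] at hne
  obtain ⟨i, hi⟩ := exists_index_of_tsum_ne_zero hne
  refine ⟨c i, hreal i (isSph0_of_agreeOut hi), S, ?_⟩
  intro p hp hpS v hv w f hw hf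
  have hwS' : w ∉ S' := fun hmem => hpS (hSS' p hp w hw hmem)
  obtain ⟨ha, hb⟩ := hbc i p hp hpS v hv w f hw hf
  obtain ⟨ha', hb'⟩ := hi.1 w hwS'
  exact ⟨by rw [← ha, ha']; rfl, by rw [← hb, hb']; rfl⟩

/-- **`DescQ3EKAll` from the two Props of the comparison layer.** -/
theorem descQ3EKAll_of (hT : TraceWordsQEKAll) (hS : SepAll) : DescQ3EKAll :=
  fun F _ _ => descQ3EKC_of F (hT F) (hS F)

/-- **`DescEKAll + TwistAll ⇒ DescTrivEKAll`** (the proof of leaf T7.03 by helper557,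
`LT/T7/H557/DescTriv.lean`, with the hypothesis `GoodEK` carried along). -/
theorem descTrivEKAll_of (hDesc : DescEKAll) (hTw : TwistAll) : DescTrivEKAll := by
  intro K K' _ _ _ _ _ hcyc hcplx Φ hΦ hconst htriv hgood
  obtain ⟨π₀, hπ₀, S₁, hbc⟩ := hDesc K K' 3 hcyc (by norm_num) hcplx Φ hΦ hconst hgood
  obtain ⟨S₂, htr⟩ := htriv
  obtain ⟨π', hπ', S₃, htw⟩ := hTw K π₀ hπ₀
  classical
  have key : ∀ (w : HeightOneSpectrum (𝓞 K')) (v : HeightOneSpectrum (𝓞 K)) (f : ℕ),
      w ∉ S₁ → w ∉ S₂ → v ∉ S₃ → HasResDeg K K' v w f →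
      (Φ.a w = satakePow f (π'.a v) (π'.b v) ∧ Φ.b w = π'.b v ^ f) ∧ π'.b v = 1 := by
    intro w v f h1 h2 h3 hres
    obtain ⟨ha, hb⟩ := hbc w h1 v f hres
    obtain ⟨ha', hb'⟩ := htw v h3
    have hbf : π₀.b v ^ f = 1 := by rw [← hb, htr w h2]
    have hf := H557.resDeg_cases_557 hcyc hres
    obtain ⟨e1, e2⟩ := H557.satakePow_twist_557 hf (π₀.a v) (π₀.b v) hbf
    have hb3 : π₀.b v ^ 3 = 1 := by
      rcases hf with rfl | rfl
      · have : π₀.b v = 1 := by simpa using hbf
        rw [this, one_pow]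
      · exact hbf
    refine ⟨⟨?_, ?_⟩, ?_⟩
    · rw [ha, ha', hb', e1]
    · rw [hb', e2, htr w h2]
    · rw [hb', hb3]
  refine ⟨π', hπ', ?_, ?_⟩
  · refine ⟨S₁ ∪ S₂ ∪ (H557.finite_over_557 (K' := K') S₃).toFinset, ?_⟩
    intro w hw v f hres
    simp only [Finset.mem_union, Set.Finite.mem_toFinset, Set.mem_ofPred_eq, not_or,
      not_exists, not_and] at hw
    obtain ⟨⟨h1, h2⟩, h3⟩ := hw
    exact (key w v f h1 h2 (fun hv => h3 v hv hres.1) hres).1
  · refine ⟨S₃ ∪ (H557.finite_under_557 (K := K) (S₁ ∪ S₂)).toFinset, ?_⟩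
    intro v hv
    simp only [Finset.mem_union, Set.Finite.mem_toFinset, Set.mem_ofPred_eq, not_or,
      not_exists, not_and] at hv
    obtain ⟨h3, h12⟩ := hv
    obtain ⟨w, hw⟩ := H557.exists_placeOver_557 (K' := K') v
    have hw1 : w ∉ S₁ := fun h => h12 w (Or.inl h) hw
    have hw2 : w ∉ S₂ := fun h => h12 w (Or.inr h) hw
    haveI : w.asIdeal.LiesOver v.asIdeal := H557.placeOver_liesOver_557 hw
    have hN := Ideal.absNorm_eq_pow_inertiaDeg'_of_liesOver w.asIdeal v.asIdeal v.isPrime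
      v.ne_bot
    exact (key w v _ hw1 hw2 h3 ⟨hw, hN⟩).2

/-- `A3c_556` along the EK route. -/
theorem a3c_ofEK (hD : DictEFC) (hE : SeedEKC) (hT : DescTrivEKAll) : WT.A3c_556 := by
  intro ρ Ψ ι hyp hseed
  obtain ⟨nfE, Φ, hΦ, hdata⟩ := hseed
  obtain ⟨nfF, alg, -, hcyc, hcplx, hdict⟩ := hD ρ Ψ ι hyp nfE
  obtain ⟨hconst, htriv, hmid⟩ := hdict Φ hdata
  obtain ⟨π, hπ, hbc, hb⟩ :=
    hT (fieldF ρ) (fieldE ρ) hcyc hcplx Φ hΦ hconst htriv (hE ρ Ψ ι hyp nfE Φ hdata)
  exact ⟨nfF, π, hπ, hmid π hbc hb⟩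

/-- `A3q_556` along the EK route. -/
theorem a3q_ofEK (hD : DictFQC) (hR : SqrtC) (hM : MidEKC) (hS : MidStableC)
    (hQ : DescQ3EKAll) : WT.A3q_556 := by
  intro ρ Ψ ι hyp hmidAt
  obtain ⟨nfF, πF, hπF, hdata⟩ := hmidAt
  obtain ⟨hquad, hdict⟩ := hD ρ Ψ ι hyp nfF
  have hst := hS ρ Ψ ι hyp nfF πF hπF hdata
  obtain ⟨π, hπ, hbc⟩ :=
    hQ (fieldF ρ) (hR ρ Ψ hyp) hquad πF hπF hst (hM ρ Ψ ι hyp nfF πF hdata)
  exact ⟨π, hπ, hdict πF hdata π hbc⟩

/-- **THE TOP OF TOWER T7 ALONG THE EK ROUTE** (the top that is USED): the two descent leaves of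
the frozen wall, VERBATIM, from the four nodes (`TraceWordsEKAll`, `TraceWordsQEKAll`, `ThinC`,
`RigidAll`) and the leaves without trace formula. -/
theorem topEK (hTW : TraceWordsEKAll) (hTWQ : TraceWordsQEKAll) (hSep : SepAll)
    (hSeed : SeedEKC) (hMid : MidEKC) (hThin : ThinC) (hRigid : RigidAll)
    (hTw : TwistAll) (hConj : ConjAll) (hMU : MidUniqueFromC) (hMS : MidStableFromUniqueC)
    (hEF : DictEFC) (hFQ : DictFQC) (hR : SqrtC) : WT.A3c_556 ∧ WT.A3q_556 :=
  ⟨a3c_ofEK hEF hSeed (descTrivEKAll_of (descEKAll_of hTW hSep) hTw),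
    a3q_ofEK hFQ hR hMid (hMS (hMU hThin hRigid) hConj) (descQ3EKAll_of hTWQ hSep)⟩

end Fermat.Agent.LT.T7

end

end
-- ===== PACK-END LT/T7/EK.lean

-- ===== PACK-BEGIN LT/T7/H496/TwistFields.lean
section


/-!
# Row LT, tower T7, leaf T7.01 `TwistC` (helper496), OFF-MAIN: the twisted form

`φ ∘ tw496` satisfies every field of `A0.IsSph0CuspFormFor` for the eigensystem
`(b_v a_v, b_v ^ 3)` of the same level, PROVIDED it is not identically zero
(`twistFields496`).  The non-vanishing is `TwistNonzero.lean`.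
-/

set_option autoImplicit false

open IsDedekindDomain NumberField AutomorphicForm
open scoped MatrixGroups

noncomputable section

namespace Fermat.Agent.LT.T7.H496

open Fermat.Agent.LT.H556 Fermat.Agent.LT.H556.A0

variable {K : Type} [Field K] [NumberField K]

/-- The twisted eigensystem `(b_v a_v, b_v ^ 3)`, same level. -/
def twPi496 (π : HeckeEigensystem K ℂ) : HeckeEigensystem K ℂ where
  level := π.level
  level_ne_bot := π.level_ne_bot
  a := fun v => π.b v * π.a v
  b := fun v => π.b v ^ 3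

/-! ## Rational matrices -/

theorem tw496_rat (γ : GL (Fin 2) K) :
    tw496 (Matrix.GeneralLinearGroup.map (algebraMap K (Adl K)) γ)
      = Matrix.GeneralLinearGroup.map (algebraMap K (Adl K))
          (γ * Matrix.GeneralLinearGroup.scalar (Fin 2) (Matrix.GeneralLinearGroup.det γ)) := by
  rw [map_mul, tw496_apply]
  congr 1
  unfold sd496
  rw [Matrix.GeneralLinearGroup.map_det]
  apply Units.ext
  refine Matrix.ext fun i j => ?_
  rw [Matrix.GeneralLinearGroup.map_apply]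
  simp only [Matrix.GeneralLinearGroup.coe_scalar, Matrix.scalar_apply, Matrix.diagonal_apply]
  split_ifs
  · rfl
  · rw [map_zero]

/-! ## The level group -/

theorem idealClosure_zero496 (𝔫 : Ideal (𝓞 K)) (v : HeightOneSpectrum (𝓞 K)) :
    (0 : v.adicCompletion K) ∈ idealClosure 𝔫 v := by
  apply subset_closure
  exact ⟨0, 𝔫.zero_mem, by simp⟩

theorem idealClosure_add496 (𝔫 : Ideal (𝓞 K)) (v : HeightOneSpectrum (𝓞 K))
    {a b : v.adicCompletion K} (ha : a ∈ idealClosure 𝔫 v) (hb : b ∈ idealClosure 𝔫 v) :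
    a + b ∈ idealClosure 𝔫 v := by
  refine map_mem_closure₂ continuous_add ha hb ?_
  rintro _ ⟨x, hx, rfl⟩ _ ⟨y, hy, rfl⟩
  exact ⟨x + y, 𝔫.add_mem hx hy, by simp⟩

theorem idealClosure_mul496 (𝔫 : Ideal (𝓞 K)) (v : HeightOneSpectrum (𝓞 K))
    {a b : v.adicCompletion K} (ha : a ∈ idealClosure 𝔫 v) (hb : b ∈ idealClosure 𝔫 v) :
    a * b ∈ idealClosure 𝔫 v := by
  refine map_mem_closure₂ continuous_mul ha hb ?_
  rintro _ ⟨x, hx, rfl⟩ _ ⟨y, hy, rfl⟩
  exact ⟨x * y, 𝔫.mul_mem_left x hy, by simp⟩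

theorem idealClosure_neg496 (𝔫 : Ideal (𝓞 K)) (v : HeightOneSpectrum (𝓞 K))
    {a : v.adicCompletion K} (ha : a ∈ idealClosure 𝔫 v) : -a ∈ idealClosure 𝔫 v := by
  refine map_mem_closure continuous_neg ha ?_
  rintro _ ⟨x, hx, rfl⟩
  exact ⟨-x, 𝔫.neg_mem hx, by simp⟩

/-- `det M - 1` for a `2 × 2` matrix. -/
theorem det_sub_one496 {R : Type*} [CommRing R] (M : Matrix (Fin 2) (Fin 2) R) :
    M.det - 1 = (M - 1) 0 0 + (M - 1) 1 1 + (M - 1) 0 0 * (M - 1) 1 1
      + -((M - 1) 0 1 * (M - 1) 1 0) := by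
  rw [Matrix.det_fin_two]
  simp only [Matrix.sub_apply, Matrix.one_apply_eq, Matrix.one_apply_ne (show (0 : Fin 2) ≠ 1 by decide),
    Matrix.one_apply_ne (show (1 : Fin 2) ≠ 0 by decide), sub_zero]
  ring

theorem det_sub_one_mem496 (𝔫 : Ideal (𝓞 K)) (v : HeightOneSpectrum (𝓞 K))
    (M : Matrix (Fin 2) (Fin 2) (v.adicCompletion K))
    (h : ∀ i j, (M - 1) i j ∈ idealClosure 𝔫 v) : M.det - 1 ∈ idealClosure 𝔫 v := by
  rw [det_sub_one496]
  exact idealClosure_add496 _ _
    (idealClosure_add496 _ _ (idealClosure_add496 _ _ (h 0 0) (h 1 1))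
      (idealClosure_mul496 _ _ (h 0 0) (h 1 1)))
    (idealClosure_neg496 _ _ (idealClosure_mul496 _ _ (h 0 1) (h 1 0)))

theorem diagonal_sub_one_mem496 (𝔫 : Ideal (𝓞 K)) (v : HeightOneSpectrum (𝓞 K))
    (d : v.adicCompletion K) (h : d - 1 ∈ idealClosure 𝔫 v) (i j : Fin 2) :
    ((Matrix.diagonal fun _ => d : Matrix (Fin 2) (Fin 2) (v.adicCompletion K)) - 1) i j
      ∈ idealClosure 𝔫 v := by
  rw [Matrix.sub_apply]
  by_cases hij : i = j
  · subst hij
    rw [Matrix.diagonal_apply_eq, Matrix.one_apply_eq]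
    exact h
  · rw [Matrix.diagonal_apply_ne _ hij, Matrix.one_apply_ne hij, sub_zero]
    exact idealClosure_zero496 _ _

theorem inLevelGroup_sd496 (𝔫 : Ideal (𝓞 K)) {u : G K} (hu : InLevelGroup 𝔫 u) :
    InLevelGroup 𝔫 (sd496 u) := by
  refine ⟨fun w => trivAtInf_sd496 (hu.1 w), fun v i j => ⟨?_, ?_⟩⟩
  · rw [finComp_sd496]
    exact diagonal_sub_one_mem496 _ _ _
      (det_sub_one_mem496 _ _ _ fun i j => (hu.2 v i j).1) i j
  · rw [← sd496_inv, finComp_sd496]
    exact diagonal_sub_one_mem496 _ _ _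
      (det_sub_one_mem496 _ _ _ fun i j => (hu.2 v i j).2) i j

/-! ## Archimedean elements -/

theorem isArchPosScalar_tw496 {w : InfinitePlace K} {z : G K} (hz : IsArchPosScalar w z) :
    IsArchPosScalar w (tw496 z) := by
  obtain ⟨hloc, r, hr, hM⟩ := hz
  refine ⟨isLocalAtInf_tw496 hloc, r * (r * r), mul_pos hr (mul_pos hr hr), ?_⟩
  rw [infComp_tw496, hM, Matrix.det_diagonal, Matrix.diagonal_mul_diagonal]
  congr 1
  funext i
  simp only [Finset.prod_const, Finset.card_univ, Fintype.card_fin]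
  push_cast
  ring

theorem isArchCompact_tw496 {w : InfinitePlace K} {k : G K} (hk : IsArchCompact w k) :
    IsArchCompact w (tw496 k) := by
  obtain ⟨hloc, hU, hdet⟩ := hk
  have hd : (infComp w k).det * star (infComp w k).det = 1 := by
    rw [← Matrix.det_conjTranspose, ← Matrix.det_mul, hU, Matrix.det_one]
  refine ⟨isLocalAtInf_tw496 hloc, ?_, fun hw => ?_⟩
  · rw [infComp_tw496, Matrix.conjTranspose_mul, Matrix.diagonal_conjTranspose]
    have hDD : (Matrix.diagonal fun _ => (infComp w k).det : Matrix (Fin 2) (Fin 2) ℂ)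
        * Matrix.diagonal (star fun _ : Fin 2 => (infComp w k).det) = 1 := by
      rw [Matrix.diagonal_mul_diagonal]
      have : (fun i : Fin 2 => (infComp w k).det * star (fun _ : Fin 2 => (infComp w k).det) i)
          = fun _ => 1 := by
        funext i
        simpa using hd
      rw [this]
      exact Matrix.diagonal_one
    calc infComp w k * (Matrix.diagonal fun _ => (infComp w k).det)
          * (Matrix.diagonal (star fun _ : Fin 2 => (infComp w k).det) * (infComp w k).conjTranspose)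
        = infComp w k * ((Matrix.diagonal fun _ => (infComp w k).det)
          * Matrix.diagonal (star fun _ : Fin 2 => (infComp w k).det)) * (infComp w k).conjTranspose := by
          simp only [Matrix.mul_assoc]
      _ = 1 := by rw [hDD, Matrix.mul_one, hU]
  · rw [infComp_tw496, Matrix.det_mul, Matrix.det_diagonal, hdet hw]
    simp

theorem det_rotZ496 (α : ℝ) : (rotZ α).det = 1 := by
  unfold rotZ
  rw [Matrix.det_fin_two_of, mul_zero, sub_zero, ← Complex.exp_add, add_neg_cancel,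
    Complex.exp_zero]

theorem det_rotY496 (β : ℝ) : (rotY β).det = 1 := by
  unfold rotY
  rw [Matrix.det_fin_two_of]
  have h := Real.cos_sq_add_sin_sq (β / 2)
  have h2 : ((Real.cos (β / 2) : ℝ) : ℂ) * ((Real.cos (β / 2) : ℝ) : ℂ)
      - -((Real.sin (β / 2) : ℝ) : ℂ) * ((Real.sin (β / 2) : ℝ) : ℂ)
      = ((Real.cos (β / 2) ^ 2 + Real.sin (β / 2) ^ 2 : ℝ) : ℂ) := by
    push_cast
    ring
  rw [h2, h, Complex.ofReal_one]

theorem det_torus496 (d : ℝ) : (torus d).det = 1 := by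
  unfold torus
  rw [Matrix.det_fin_two_of, mul_zero, sub_zero, ← Complex.ofReal_mul, ← Real.exp_add,
    add_neg_cancel, Real.exp_zero, Complex.ofReal_one]

theorem infComp_tw_of_det_one496 {w : InfinitePlace K} {g : G K}
    (h : (infComp w g).det = 1) : infComp w (tw496 g) = infComp w g := by
  rw [infComp_tw496, h]
  have : (Matrix.diagonal fun _ => (1 : ℂ) : Matrix (Fin 2) (Fin 2) ℂ) = 1 := Matrix.diagonal_one
  rw [this, Matrix.mul_one]

/-! ## Unipotent elements -/

theorem tw496_unip {n : G K} {x : Adl K}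
    (h : (n : Matrix (Fin 2) (Fin 2) (Adl K)) = !![1, x; 0, 1]) : tw496 n = n := by
  have hdet : Matrix.GeneralLinearGroup.det n = 1 := by
    apply Units.ext
    show (n : Matrix (Fin 2) (Fin 2) (Adl K)).det = 1
    rw [h, Matrix.det_fin_two_of]
    ring
  rw [tw496_apply]
  unfold sd496
  rw [hdet, map_one, mul_one]

/-! ## Hecke elements -/

theorem isScalarUniformizerAt_sd496 {v : HeightOneSpectrum (𝓞 K)} {h : G K}
    (hloc : IsLocalAtFin v h) (hval : Valued.v (finComp v h).det = WithZero.exp (-1 : ℤ)) :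
    IsScalarUniformizerAt v (sd496 h) :=
  ⟨isLocalAtFin_sd496 hloc, (finComp v h).det, hval, finComp_sd496 v h⟩

theorem sd496_scalarUniformizer {v : HeightOneSpectrum (𝓞 K)} {z : G K}
    (hz : IsScalarUniformizerAt v z) : sd496 z = z * z := by
  obtain ⟨hloc, c, -, hc⟩ := hz
  refine g_ext496 (fun w => ?_) (fun v' => ?_)
  · have h1 := (trivAtInf_iff496 w _).1 (trivAtInf_sd496 (hloc.1 w))
    have h2 := (trivAtInf_iff496 w _).1 (trivAtInf_mul496 (hloc.1 w) (hloc.1 w))
    rw [h1, h2]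
  · by_cases hv : v' = v
    · subst hv
      rw [finComp_sd496, finComp_mul496, hc, Matrix.det_diagonal, Matrix.diagonal_mul_diagonal]
      congr 1
      funext i
      simp only [Finset.prod_const, Finset.card_univ, Fintype.card_fin]
      ring
    · have h1 := (trivAtFin_iff496 v' _).1 (trivAtFin_sd496 (hloc.2 v' hv))
      have h2 := (trivAtFin_iff496 v' _).1 (trivAtFin_mul496 (hloc.2 v' hv) (hloc.2 v' hv))
      rw [h1, h2]

/-! ## The twisted form -/

/-- **All fields of `A0.IsSph0CuspFormFor` for the twisted form**, given its non-vanishing. -/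
theorem twistFields496 (π : HeckeEigensystem K ℂ) (φ : G K → ℂ)
    (hφ : IsSph0CuspFormFor π φ) (hne : ∃ g : G K, φ (tw496 g) ≠ 0) :
    IsSph0CuspFormFor (twPi496 π) (fun g => φ (tw496 g)) where
  cont := hφ.cont.comp continuous_tw496
  bdd := by
    obtain ⟨C, hC⟩ := hφ.bdd
    exact ⟨C, fun g => hC _⟩
  ne_zero := hne
  left_inv := by
    intro γ g
    show φ (tw496 (_ * g)) = φ (tw496 g)
    rw [map_mul, tw496_rat]
    exact hφ.left_inv _ _
  level_inv := by
    intro u hu g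
    show φ (tw496 (g * u)) = φ (tw496 g)
    rw [map_mul, tw496_apply u, ← mul_assoc]
    rw [hφ.level_inv (sd496 u) (inLevelGroup_sd496 π.level hu), hφ.level_inv u hu]
  arch_scalar := by
    intro w z hz g
    show φ (tw496 (g * z)) = φ (tw496 g)
    rw [map_mul]
    exact hφ.arch_scalar w _ (isArchPosScalar_tw496 hz) _
  arch_compact := by
    intro w k hk g
    show φ (tw496 (g * k)) = φ (tw496 g)
    rw [map_mul]
    exact hφ.arch_compact w _ (isArchCompact_tw496 hk) _
  mean_complex := by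
    intro w hw d hd Y hY g
    have hY' : ∀ α β : ℝ, IsLocalAtInf w (tw496 (Y α β)) ∧
        infComp w (tw496 (Y α β)) = rotZ α * rotY β * torus d := by
      intro α β
      refine ⟨isLocalAtInf_tw496 (hY α β).1, ?_⟩
      rw [infComp_tw_of_det_one496, (hY α β).2]
      rw [(hY α β).2, Matrix.det_mul, Matrix.det_mul, det_rotZ496, det_rotY496, det_torus496]
      norm_num
    have := hφ.mean_complex w hw d hd (fun α β => tw496 (Y α β)) hY' (tw496 g)
    simpa only [map_mul] using this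
  mean_real := by
    intro w hw t ht Y hY g
    have hY' : ∀ θ : ℝ, IsLocalAtInf w (tw496 (Y θ)) ∧
        infComp w (tw496 (Y θ)) = rotY θ * torus t := by
      intro θ
      refine ⟨isLocalAtInf_tw496 (hY θ).1, ?_⟩
      rw [infComp_tw_of_det_one496, (hY θ).2]
      rw [(hY θ).2, Matrix.det_mul, det_rotY496, det_torus496]
      norm_num
    have := hφ.mean_real w hw t ht (fun θ => tw496 (Y θ)) hY' (tw496 g)
    simpa only [map_mul] using this
  cuspidal := by
    intro μ hμ D hD n hn g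
    have := hφ.cuspidal μ hμ D hD n hn (tw496 g)
    have heq : (fun x : Adl K => φ (tw496 (n x * g))) = fun x => φ (n x * tw496 g) := by
      funext x
      rw [map_mul, tw496_unip (hn x)]
    show ∫ x in D, φ (tw496 (n x * g)) ∂μ = 0
    rw [heq]
    exact this
  hecke := by
    intro v hv
    have hv' : ¬ v.asIdeal ∣ π.level := hv
    obtain ⟨hT, hS⟩ := hφ.hecke v hv'
    refine ⟨fun H hH g => ?_, fun z hz g => ?_⟩
    · show ∑ h ∈ H, φ (tw496 (g * h)) = _ * (π.b v * π.a v) * φ (tw496 g)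
      have h1 : ∀ h ∈ H, φ (tw496 (g * h)) = π.b v * φ (tw496 g * h) := by
        intro h hh
        obtain ⟨hloc, -, hval⟩ := hH.2.1 h hh
        rw [map_mul, tw496_apply h, ← mul_assoc]
        exact hS _ (isScalarUniformizerAt_sd496 hloc hval) _
      rw [Finset.sum_congr rfl h1, ← Finset.mul_sum, hT H hH (tw496 g)]
      ring
    · show φ (tw496 (g * z)) = π.b v ^ 3 * φ (tw496 g)
      rw [map_mul, tw496_apply z, sd496_scalarUniformizer hz, ← mul_assoc, ← mul_assoc,
        hS z hz, hS z hz, hS z hz]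
      ring

end Fermat.Agent.LT.T7.H496

end

end
-- ===== PACK-END LT/T7/H496/TwistFields.lean

-- ===== PACK-BEGIN LT/T7/H555/SymHecke.lean
section



/-!
# Row LT, tower T7, leaf T7.14.4 (`OrthC`), part 1: a symmetric Hecke coset system (helper555)

OFF-MAIN.  On the local tools of helper129 (`LT/H129/{Local, HeckeA0, HeckeExists}.lean`,
byte-identical copies).

For a finite place `v`, a uniformiser `π` of `K_v` and the representatives `r` of `𝓞 K ⧸ v`:

* `symHecke555`  : the SYMMETRIC system `[[r² + π, r], [r, 1]]`, `[[1, 0], [0, π]]`;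
* `dualHecke555` : the system `[[1, -r], [-r, r² + π]]`, `[[π, 0], [0, 1]]`;
* `scalU555`     : the scalar uniformiser `z = [[π, 0], [0, π]]`.

Both are Hecke coset systems in the sense of `A0.IsHeckeCosetSystem`
(`isHeckeCosetSystem_sym555`, `isHeckeCosetSystem_dual555`), and
`(symHecke a)⁻¹ * z = dualHecke a` (`sym_inv_mul_scal555`).  Hence for a function `φ` with
`φ (g z) = φ g`: `∑_a φ (g (symHecke a)⁻¹) = ∑_a φ (g dualHecke a)` is again a Hecke sum: the
Hecke operator `T_v` is self-adjoint on functions with trivial central character.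
-/

set_option autoImplicit false

open IsDedekindDomain NumberField IsDedekindDomain.HeightOneSpectrum
open Fermat.Agent.LT.H556.A0

noncomputable section

namespace Fermat.Agent.LT.T7.H555

open Fermat.Agent.LT.H129

section Generic

variable {F : Type*} [Field F]

theorem symdet555 {π : F} (hπ : π ≠ 0) (r : F) : (r ^ 2 + π) * 1 - r * r ≠ 0 := by
  have e : (r ^ 2 + π) * 1 - r * r = π := by ring
  rw [e]; exact hπ

theorem dualdet555 {π : F} (hπ : π ≠ 0) (r : F) : 1 * (r ^ 2 + π) - -r * -r ≠ 0 := by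
  have e : 1 * (r ^ 2 + π) - -r * -r = π := by ring
  rw [e]; exact hπ

theorem lowdet555 {π : F} (hπ : π ≠ 0) : (1 : F) * π - 0 * 0 ≠ 0 := by simpa using hπ

theorem dlowdet555 {π : F} (hπ : π ≠ 0) : π * (1 : F) - 0 * 0 ≠ 0 := by simpa using hπ

theorem scaldet555 {π : F} (hπ : π ≠ 0) : π * π - 0 * 0 ≠ 0 := by simpa using hπ

/-- `[[r² + π, r], [r, 1]]`. -/
def symM555 (π : F) (hπ : π ≠ 0) (r : F) : GL (Fin 2) F :=
  mkGL129 (r ^ 2 + π) r r 1 (symdet555 hπ r)

/-- `[[1, -r], [-r, r² + π]]`. -/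
def dualM555 (π : F) (hπ : π ≠ 0) (r : F) : GL (Fin 2) F :=
  mkGL129 1 (-r) (-r) (r ^ 2 + π) (dualdet555 hπ r)

/-- `[[1, 0], [0, π]]`. -/
def lowM555 (π : F) (hπ : π ≠ 0) : GL (Fin 2) F := mkGL129 1 0 0 π (lowdet555 hπ)

/-- `[[π, 0], [0, 1]]`. -/
def dlowM555 (π : F) (hπ : π ≠ 0) : GL (Fin 2) F := mkGL129 π 0 0 1 (dlowdet555 hπ)

/-- `[[π, 0], [0, π]]`. -/
def scalM555 (π : F) (hπ : π ≠ 0) : GL (Fin 2) F := mkGL129 π 0 0 π (scaldet555 hπ)

theorem symM_mul_dualM555 {π : F} (hπ : π ≠ 0) (r : F) :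
    symM555 π hπ r * dualM555 π hπ r = scalM555 π hπ := by
  apply ext_mat129
  rw [Matrix.GeneralLinearGroup.coe_mul]
  simp only [symM555, dualM555, scalM555, coe_mkGL129, Matrix.mul_fin_two]
  congr 1
  ext i j
  fin_cases i <;> fin_cases j <;> simp <;> ring

theorem lowM_mul_dlowM555 {π : F} (hπ : π ≠ 0) :
    lowM555 π hπ * dlowM555 π hπ = scalM555 π hπ := by
  apply ext_mat129
  rw [Matrix.GeneralLinearGroup.coe_mul]
  simp only [lowM555, dlowM555, scalM555, coe_mkGL129, Matrix.mul_fin_two]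
  congr 1
  ext i j
  fin_cases i <;> fin_cases j <;> simp

theorem sym_inv_mul_sym555 {π : F} (hπ : π ≠ 0) (r r' : F) :
    (((symM555 π hπ r)⁻¹ * symM555 π hπ r' : GL (Fin 2) F) : Matrix (Fin 2) (Fin 2) F) 0 1
      = (r' - r) / π := by
  rw [inv_mul_apply129]
  simp only [symM555, coe_mkGL129, Matrix.adjugate_fin_two_of, Matrix.det_fin_two_of,
    Matrix.mul_apply, Fin.sum_univ_two, Matrix.of_apply, Matrix.cons_val', Matrix.cons_val_zero,
    Matrix.cons_val_one, Matrix.cons_val_fin_one]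
  congr 1 <;> ring

theorem sym_inv_mul_low555 {π : F} (hπ : π ≠ 0) (r : F) :
    (((symM555 π hπ r)⁻¹ * lowM555 π hπ : GL (Fin 2) F) : Matrix (Fin 2) (Fin 2) F) 0 0
      = π⁻¹ := by
  rw [inv_mul_apply129]
  simp only [symM555, lowM555, coe_mkGL129, Matrix.adjugate_fin_two_of, Matrix.det_fin_two_of,
    Matrix.mul_apply, Fin.sum_univ_two, Matrix.of_apply, Matrix.cons_val', Matrix.cons_val_zero,
    Matrix.cons_val_one, Matrix.cons_val_fin_one]
  rw [← one_div]
  congr 1 <;> ring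

theorem low_inv_mul_sym555 {π : F} (hπ : π ≠ 0) (r : F) :
    (((lowM555 π hπ)⁻¹ * symM555 π hπ r : GL (Fin 2) F) : Matrix (Fin 2) (Fin 2) F) 1 1
      = π⁻¹ := by
  rw [inv_mul_apply129]
  simp only [symM555, lowM555, coe_mkGL129, Matrix.adjugate_fin_two_of, Matrix.det_fin_two_of,
    Matrix.mul_apply, Fin.sum_univ_two, Matrix.of_apply, Matrix.cons_val', Matrix.cons_val_zero,
    Matrix.cons_val_one, Matrix.cons_val_fin_one]
  rw [← one_div]
  congr 1 <;> ring

theorem dual_inv_mul_dual555 {π : F} (hπ : π ≠ 0) (r r' : F) :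
    (((dualM555 π hπ r)⁻¹ * dualM555 π hπ r' : GL (Fin 2) F) : Matrix (Fin 2) (Fin 2) F) 1 0
      = (r - r') / π := by
  rw [inv_mul_apply129]
  simp only [dualM555, coe_mkGL129, Matrix.adjugate_fin_two_of, Matrix.det_fin_two_of,
    Matrix.mul_apply, Fin.sum_univ_two, Matrix.of_apply, Matrix.cons_val', Matrix.cons_val_zero,
    Matrix.cons_val_one, Matrix.cons_val_fin_one]
  congr 1 <;> ring

theorem dual_inv_mul_dlow555 {π : F} (hπ : π ≠ 0) (r : F) :
    (((dualM555 π hπ r)⁻¹ * dlowM555 π hπ : GL (Fin 2) F) : Matrix (Fin 2) (Fin 2) F) 1 1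
      = π⁻¹ := by
  rw [inv_mul_apply129]
  simp only [dualM555, dlowM555, coe_mkGL129, Matrix.adjugate_fin_two_of, Matrix.det_fin_two_of,
    Matrix.mul_apply, Fin.sum_univ_two, Matrix.of_apply, Matrix.cons_val', Matrix.cons_val_zero,
    Matrix.cons_val_one, Matrix.cons_val_fin_one]
  rw [← one_div]
  congr 1 <;> ring

theorem dlow_inv_mul_dual555 {π : F} (hπ : π ≠ 0) (r : F) :
    (((dlowM555 π hπ)⁻¹ * dualM555 π hπ r : GL (Fin 2) F) : Matrix (Fin 2) (Fin 2) F) 0 0
      = π⁻¹ := by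
  rw [inv_mul_apply129]
  simp only [dualM555, dlowM555, coe_mkGL129, Matrix.adjugate_fin_two_of, Matrix.det_fin_two_of,
    Matrix.mul_apply, Fin.sum_univ_two, Matrix.of_apply, Matrix.cons_val', Matrix.cons_val_zero,
    Matrix.cons_val_one, Matrix.cons_val_fin_one]
  rw [← one_div]
  congr 1 <;> ring

end Generic

variable {K : Type} [Field K] [NumberField K] (v : HeightOneSpectrum (𝓞 K))

/-- The symmetric Hecke coset representatives, indexed by `Option (𝓞 K ⧸ v)`. -/
def symHecke555 (π : v.adicCompletion K) (hπ : π ≠ 0) : Option (𝓞 K ⧸ v.asIdeal) → G K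
  | some c => locFin129 v (symM555 π hπ (rep129 v c))
  | none => locFin129 v (lowM555 π hπ)

/-- The dual system `(symHecke a)⁻¹ z`. -/
def dualHecke555 (π : v.adicCompletion K) (hπ : π ≠ 0) : Option (𝓞 K ⧸ v.asIdeal) → G K
  | some c => locFin129 v (dualM555 π hπ (rep129 v c))
  | none => locFin129 v (dlowM555 π hπ)

/-- The scalar uniformiser `z`. -/
def scalU555 (π : v.adicCompletion K) (hπ : π ≠ 0) : G K := locFin129 v (scalM555 π hπ)

theorem isScalarUniformizerAt_scalU555 {π : v.adicCompletion K}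
    (hπ : Valued.v π = WithZero.exp (-1 : ℤ)) :
    IsScalarUniformizerAt v (scalU555 v π (unif_ne_zero129 v hπ)) := by
  refine ⟨isLocalAtFin_locFin129 v _, π, hπ, ?_⟩
  rw [scalU555, finComp_locFin129, scalM555, coe_mkGL129]
  ext i j
  fin_cases i <;> fin_cases j <;> simp

/-- `(symHecke a)⁻¹ * z = dualHecke a`. -/
theorem sym_inv_mul_scal555 (π : v.adicCompletion K) (hπ : π ≠ 0)
    (a : Option (𝓞 K ⧸ v.asIdeal)) :
    (symHecke555 v π hπ a)⁻¹ * scalU555 v π hπ = dualHecke555 v π hπ a := by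
  rw [inv_mul_eq_iff_eq_mul]
  cases a with
  | none =>
    simp only [symHecke555, dualHecke555, scalU555]
    rw [← map_mul, lowM_mul_dlowM555]
  | some c =>
    simp only [symHecke555, dualHecke555, scalU555]
    rw [← map_mul, symM_mul_dualM555]

/-- A family of integral matrices of determinant a uniformiser, pairwise inequivalent modulo
`GL₂(𝒪_v)` on the right, gives a Hecke coset system. -/
theorem isHeckeCosetSystem_of_family555
    (f : Option (𝓞 K ⧸ v.asIdeal) → GL (Fin 2) (v.adicCompletion K))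
    (hint : ∀ a, IsInt129 (v.adicCompletionIntegers K) (f a))
    (hdet : ∀ a, Valued.v ((f a : Matrix (Fin 2) (Fin 2) (v.adicCompletion K)).det)
      = WithZero.exp (-1 : ℤ))
    (hne : ∀ a b, a ≠ b → ¬ IsInt129 (v.adicCompletionIntegers K) ((f a)⁻¹ * f b)) :
    ∃ H : Finset (G K), IsHeckeCosetSystem v H ∧
      ∀ (M : Type) [AddCommMonoid M] (ψ : G K → M),
        ∑ h ∈ H, ψ h = ∑ᶠ a : Option (𝓞 K ⧸ v.asIdeal), ψ (locFin129 v (f a)) := by
  classical
  have hfin : Finite (𝓞 K ⧸ v.asIdeal) := by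
    apply Nat.finite_of_card_ne_zero
    rw [← Submodule.cardQuot_apply, ← Ideal.absNorm_apply]
    exact ne_of_gt (lt_trans Nat.zero_lt_one (NumberField.HeightOneSpectrum.one_lt_absNorm v))
  have hfint : Fintype (𝓞 K ⧸ v.asIdeal) := Fintype.ofFinite _
  have hnotint : ∀ a b, a ≠ b → ¬ IsIntegralAt v ((locFin129 v (f a))⁻¹ * locFin129 v (f b)) := by
    intro a b hab h
    rw [← isInt129_finCompHom_iff, map_mul, map_inv, finCompHom129_locFin129,
      finCompHom129_locFin129] at h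
    exact hne a b hab h
  have hinj : Function.Injective (fun a => locFin129 v (f a)) := by
    intro a b hab
    by_contra hne'
    apply hnotint a b hne'
    simp only at hab
    rw [hab, inv_mul_cancel]
    intro i j
    have : finComp v (1 : G K) = 1 := by
      rw [← coe_finCompHom129, map_one]; rfl
    rw [this]
    by_cases hij : i = j
    · subst hij; simp
    · simp [hij]
  refine ⟨Finset.univ.image (fun a => locFin129 v (f a)), ⟨?_, ?_, ?_⟩, ?_⟩
  · rw [Finset.card_image_of_injective _ hinj, Finset.card_univ, Fintype.card_option,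
      Ideal.absNorm_apply, Submodule.cardQuot_apply, Nat.card_eq_fintype_card]
  · intro h hh
    obtain ⟨a, -, rfl⟩ := Finset.mem_image.mp hh
    refine ⟨isLocalAtFin_locFin129 v _, ?_, ?_⟩
    · rw [← isInt129_finCompHom_iff, finCompHom129_locFin129]
      exact hint a
    · rw [finComp_locFin129]
      exact hdet a
  · intro h hh h' hh' hne'
    obtain ⟨a, -, rfl⟩ := Finset.mem_image.mp hh
    obtain ⟨b, -, rfl⟩ := Finset.mem_image.mp hh'
    exact hnotint a b (fun e => hne' (by rw [e]))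
  · intro M _ ψ
    rw [Finset.sum_image (fun a _ b _ hab => hinj hab), finsum_eq_sum_of_fintype]

section Systems

variable {π : v.adicCompletion K} (hπ : Valued.v π = WithZero.exp (-1 : ℤ))

include hπ

theorem unif_inv_not_mem555 : π⁻¹ ∉ v.adicCompletionIntegers K := unif_inv_not_mem129 v hπ

theorem rep_sub_div_not_mem555 {c c' : 𝓞 K ⧸ v.asIdeal} (h : c ≠ c') :
    (rep129 v c' - rep129 v c) / π ∉ v.adicCompletionIntegers K := by
  rw [mem_adicCompletionIntegers, map_div₀, valued_rep129_sub v h, hπ, one_div,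
    ← WithZero.exp_neg, ← WithZero.exp_zero, WithZero.exp_le_exp]
  norm_num

/-- The matrices of the symmetric system. -/
def symFam555 : Option (𝓞 K ⧸ v.asIdeal) → GL (Fin 2) (v.adicCompletion K)
  | some c => symM555 π (unif_ne_zero129 v hπ) (rep129 v c)
  | none => lowM555 π (unif_ne_zero129 v hπ)

/-- The matrices of the dual system. -/
def dualFam555 : Option (𝓞 K ⧸ v.asIdeal) → GL (Fin 2) (v.adicCompletion K)
  | some c => dualM555 π (unif_ne_zero129 v hπ) (rep129 v c)
  | none => dlowM555 π (unif_ne_zero129 v hπ)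

theorem locFin_symFam555 (a : Option (𝓞 K ⧸ v.asIdeal)) :
    locFin129 v (symFam555 v hπ a) = symHecke555 v π (unif_ne_zero129 v hπ) a := by
  cases a <;> rfl

theorem locFin_dualFam555 (a : Option (𝓞 K ⧸ v.asIdeal)) :
    locFin129 v (dualFam555 v hπ a) = dualHecke555 v π (unif_ne_zero129 v hπ) a := by
  cases a <;> rfl

theorem symFam_int555 (a : Option (𝓞 K ⧸ v.asIdeal)) :
    IsInt129 (v.adicCompletionIntegers K) (symFam555 v hπ a) := by
  have h1 : (1 : v.adicCompletion K) ∈ v.adicCompletionIntegers K :=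
    (v.adicCompletionIntegers K).one_mem
  have h0 : (0 : v.adicCompletion K) ∈ v.adicCompletionIntegers K :=
    (v.adicCompletionIntegers K).zero_mem
  cases a with
  | none =>
    simp only [symFam555, lowM555]
    exact isInt129_mkGL _ h1 h0 h0 (unif_mem129 v hπ)
  | some c =>
    simp only [symFam555, symM555]
    refine isInt129_mkGL _ ?_ (rep129_mem v c) (rep129_mem v c) h1
    exact (v.adicCompletionIntegers K).add_mem _ _
      (pow_mem (rep129_mem v c) 2) (unif_mem129 v hπ)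

theorem dualFam_int555 (a : Option (𝓞 K ⧸ v.asIdeal)) :
    IsInt129 (v.adicCompletionIntegers K) (dualFam555 v hπ a) := by
  have h1 : (1 : v.adicCompletion K) ∈ v.adicCompletionIntegers K :=
    (v.adicCompletionIntegers K).one_mem
  have h0 : (0 : v.adicCompletion K) ∈ v.adicCompletionIntegers K :=
    (v.adicCompletionIntegers K).zero_mem
  cases a with
  | none =>
    simp only [dualFam555, dlowM555]
    exact isInt129_mkGL _ (unif_mem129 v hπ) h0 h0 h1
  | some c =>
    simp only [dualFam555, dualM555]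
    refine isInt129_mkGL _ h1 ((v.adicCompletionIntegers K).neg_mem _ (rep129_mem v c))
      ((v.adicCompletionIntegers K).neg_mem _ (rep129_mem v c)) ?_
    exact (v.adicCompletionIntegers K).add_mem _ _
      (pow_mem (rep129_mem v c) 2) (unif_mem129 v hπ)

theorem symFam_det555 (a : Option (𝓞 K ⧸ v.asIdeal)) :
    Valued.v ((symFam555 v hπ a : Matrix (Fin 2) (Fin 2) (v.adicCompletion K)).det)
      = WithZero.exp (-1 : ℤ) := by
  cases a with
  | none =>
    simp only [symFam555, lowM555, coe_mkGL129, Matrix.det_fin_two_of]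
    simpa using hπ
  | some c =>
    simp only [symFam555, symM555, coe_mkGL129, Matrix.det_fin_two_of]
    have e : (rep129 v c ^ 2 + π) * 1 - rep129 v c * rep129 v c = π := by ring
    rw [e]; exact hπ

theorem dualFam_det555 (a : Option (𝓞 K ⧸ v.asIdeal)) :
    Valued.v ((dualFam555 v hπ a : Matrix (Fin 2) (Fin 2) (v.adicCompletion K)).det)
      = WithZero.exp (-1 : ℤ) := by
  cases a with
  | none =>
    simp only [dualFam555, dlowM555, coe_mkGL129, Matrix.det_fin_two_of]
    simpa using hπ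
  | some c =>
    simp only [dualFam555, dualM555, coe_mkGL129, Matrix.det_fin_two_of]
    have e : 1 * (rep129 v c ^ 2 + π) - -rep129 v c * -rep129 v c = π := by ring
    rw [e]; exact hπ

theorem symFam_ne555 (a b : Option (𝓞 K ⧸ v.asIdeal)) (hab : a ≠ b) :
    ¬ IsInt129 (v.adicCompletionIntegers K) ((symFam555 v hπ a)⁻¹ * symFam555 v hπ b) := by
  intro hint
  cases a with
  | none =>
    cases b with
    | none => exact hab rfl
    | some c =>
      have := hint 1 1
      simp only [symFam555] at this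
      rw [low_inv_mul_sym555] at this
      exact unif_inv_not_mem555 v hπ this
  | some c =>
    cases b with
    | none =>
      have := hint 0 0
      simp only [symFam555] at this
      rw [sym_inv_mul_low555] at this
      exact unif_inv_not_mem555 v hπ this
    | some c' =>
      have hcc : c ≠ c' := fun h => hab (by rw [h])
      have := hint 0 1
      simp only [symFam555] at this
      rw [sym_inv_mul_sym555] at this
      exact rep_sub_div_not_mem555 v hπ hcc this

theorem dualFam_ne555 (a b : Option (𝓞 K ⧸ v.asIdeal)) (hab : a ≠ b) :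
    ¬ IsInt129 (v.adicCompletionIntegers K) ((dualFam555 v hπ a)⁻¹ * dualFam555 v hπ b) := by
  intro hint
  cases a with
  | none =>
    cases b with
    | none => exact hab rfl
    | some c =>
      have := hint 0 0
      simp only [dualFam555] at this
      rw [dlow_inv_mul_dual555] at this
      exact unif_inv_not_mem555 v hπ this
  | some c =>
    cases b with
    | none =>
      have := hint 1 1
      simp only [dualFam555] at this
      rw [dual_inv_mul_dlow555] at this
      exact unif_inv_not_mem555 v hπ this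
    | some c' =>
      have hcc : c' ≠ c := fun h => hab (by rw [h])
      have := hint 1 0
      simp only [dualFam555] at this
      rw [dual_inv_mul_dual555] at this
      exact rep_sub_div_not_mem555 v hπ hcc this

/-- **The symmetric system and its dual are Hecke coset systems**, with the Hecke sums written
as sums over the index set. -/
theorem exists_sym_dual555 :
    ∃ H H' : Finset (G K), IsHeckeCosetSystem v H ∧ IsHeckeCosetSystem v H' ∧
      (∀ (M : Type) [AddCommMonoid M] (ψ : G K → M),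
        ∑ h ∈ H, ψ h = ∑ᶠ a : Option (𝓞 K ⧸ v.asIdeal),
          ψ (symHecke555 v π (unif_ne_zero129 v hπ) a)) ∧
      ∀ (M : Type) [AddCommMonoid M] (ψ : G K → M),
        ∑ h ∈ H', ψ h = ∑ᶠ a : Option (𝓞 K ⧸ v.asIdeal),
          ψ (dualHecke555 v π (unif_ne_zero129 v hπ) a) := by
  obtain ⟨H, hH, hsum⟩ := isHeckeCosetSystem_of_family555 v (symFam555 v hπ)
    (symFam_int555 v hπ) (symFam_det555 v hπ) (symFam_ne555 v hπ)
  obtain ⟨H', hH', hsum'⟩ := isHeckeCosetSystem_of_family555 v (dualFam555 v hπ)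
    (dualFam_int555 v hπ) (dualFam_det555 v hπ) (dualFam_ne555 v hπ)
  refine ⟨H, H', hH, hH', ?_, ?_⟩
  · intro M _ ψ
    rw [hsum M ψ]
    exact finsum_congr fun a => by rw [locFin_symFam555]
  · intro M _ ψ
    rw [hsum' M ψ]
    exact finsum_congr fun a => by rw [locFin_dualFam555]

end Systems

end Fermat.Agent.LT.T7.H555

end
end
-- ===== PACK-END LT/T7/H555/SymHecke.lean

-- ===== PACK-BEGIN LT/T7/H584/ConjHecke.lean
section



/-!
# Row LT, tower T7, sub-leaf T7.02.6 `ConjHeckeC621` (helper584)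

OFF-MAIN.  Spec in bytes: `Fermat/Agent/LT/T7/H621/ConjSpec.lean` (helper621@c8d835172, sha256
`f89c8a92…`), on `LT/T7/Spec.lean` (sha `41dbc37a…`), `LT/T1/H930/AdeleAut.lean` (sha
`e220a21f…`), `LT/H556/A0.lean` (sha `66d3374a…`), all byte-identical.

`conjHeckeC584 : ConjHeckeC621 K` for every number field `K`: the Hecke eigen-property of `φ` at
`s⁻¹ v' = finPull930 s v'` gives the one of `φ ∘ s⁻¹ = conjFn621 s φ` at `v'`, with the same
eigenvalues.  Proof = transport of structure along `c = conjG621 s.symm`: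

* the component of `c g` at the finite place `w` is the image of the component of `g` at
  `finPull930 s.symm w` under the valuation preserving isomorphism `finMapEquiv930 s.symm w`
  (`finComp_conj584`), similarly at the infinite places;
* so `c` maps a Hecke coset system at `v'` to a Hecke coset system at `finPull930 s v'`
  (`isHeckeCosetSystem_image584`; `N(s⁻¹ v') = N(v')`: `absNorm_finPull584`) and a scalar
  uniformiser at `v'` to a scalar uniformiser at `finPull930 s v'`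
  (`isScalarUniformizerAt_conj584`).
-/

set_option autoImplicit false

open IsDedekindDomain NumberField AutomorphicForm
open scoped MatrixGroups

noncomputable section

namespace Fermat.Agent.LT.T7.H584

open Fermat.Agent.LT.H556 Fermat.Agent.LT.H556.A0 Fermat.Agent.LT.T1.H930
open Fermat.Agent.LT.T7.H621

variable {K : Type} [Field K] [NumberField K]

/-! ## Places -/

omit [NumberField K] in
/-- `s (s⁻¹ w) = w` on finite places. -/
theorem finPull_symm_finPull584 (s : K ≃+* K) (w : HeightOneSpectrum (𝓞 K)) :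
    finPull930 s.symm (finPull930 s w) = w :=
  (HeightOneSpectrum.equivOfRingEquiv (RingOfIntegers.mapRingEquiv s.symm)).symm_apply_apply w

omit [NumberField K] in
/-- `s⁻¹ (s w) = w` on finite places. -/
theorem finPull_finPull_symm584 (s : K ≃+* K) (w : HeightOneSpectrum (𝓞 K)) :
    finPull930 s (finPull930 s.symm w) = w :=
  (HeightOneSpectrum.equivOfRingEquiv (RingOfIntegers.mapRingEquiv s)).symm_apply_apply w


/-- `N(s⁻¹ w) = N(w)`. -/
theorem absNorm_finPull584 (s : K ≃+* K) (w : HeightOneSpectrum (𝓞 K)) :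
    Ideal.absNorm (finPull930 s w).asIdeal = Ideal.absNorm w.asIdeal := by
  have hmap : w.asIdeal
      = (finPull930 s w).asIdeal.map ((RingOfIntegers.mapRingEquiv s : 𝓞 K ≃+* 𝓞 K) : 𝓞 K →+* 𝓞 K) := by
    show w.asIdeal = (w.asIdeal.comap ((RingOfIntegers.mapRingEquiv s : 𝓞 K ≃+* 𝓞 K) : 𝓞 K →+* 𝓞 K)).map _
    exact (Ideal.map_comap_of_surjective _ (RingOfIntegers.mapRingEquiv s).surjective _).symm
  rw [Ideal.absNorm_apply, Ideal.absNorm_apply, Submodule.cardQuot_apply, Submodule.cardQuot_apply]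
  exact Nat.card_congr
    (Ideal.quotientEquiv (finPull930 s w).asIdeal w.asIdeal (RingOfIntegers.mapRingEquiv s) hmap).toEquiv

/-! ## Components of `conjG621 s g` -/

/-- The finite component of `s(g)` at `w` is the image of the component of `g` at `s⁻¹ w`. -/
theorem finComp_conj584 (s : K ≃+* K) (g : G K) (w : HeightOneSpectrum (𝓞 K)) (i j : Fin 2) :
    finComp w (conjG621 s g) i j = finMapEquiv930 s w (finComp (finPull930 s w) g i j) :=
  rfl

/-- The infinite component of `s(g)` at `w` is the image of the component of `g` at `w ∘ s`. -/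
theorem infEntry_conj584 (s : K ≃+* K) (g : G K) (w : InfinitePlace K) (i j : Fin 2) :
    ((conjG621 s g : Matrix (Fin 2) (Fin 2) (Adl K)) i j).1 w
      = infMapHom930 s w (((g : Matrix (Fin 2) (Fin 2) (Adl K)) i j).1 (infPull930 s w)) :=
  rfl

/-- Matrix form of `finComp_conj584`. -/
theorem finComp_conj_eq_map584 (s : K ≃+* K) (g : G K) (w : HeightOneSpectrum (𝓞 K)) :
    finComp w (conjG621 s g)
      = (finComp (finPull930 s w) g).map (finMapEquiv930 s w : _ →+* _) := by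
  ext i j
  rfl

theorem trivAtInf_conj584 (s : K ≃+* K) (g : G K) (w : InfinitePlace K)
    (h : TrivAtInf (infPull930 s w) g) : TrivAtInf w (conjG621 s g) := by
  intro i j
  rw [infEntry_conj584, h i j]
  by_cases hij : i = j
  · subst hij
    simp
  · simp [Matrix.one_apply_ne hij]

theorem trivAtFin_conj584 (s : K ≃+* K) (g : G K) (w : HeightOneSpectrum (𝓞 K))
    (h : TrivAtFin (finPull930 s w) g) : TrivAtFin w (conjG621 s g) := by
  unfold TrivAtFin at h ⊢
  rw [finComp_conj_eq_map584, h]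
  ext i j
  by_cases hij : i = j
  · subst hij
    simp
  · simp [Matrix.one_apply_ne hij]

theorem isIntegralAt_conj584 (s : K ≃+* K) (g : G K) (w : HeightOneSpectrum (𝓞 K)) :
    IsIntegralAt w (conjG621 s g) ↔ IsIntegralAt (finPull930 s w) g := by
  constructor
  · intro h i j
    exact (finMapEquiv930_mem_integers s w _).1 (h i j)
  · intro h i j
    exact (finMapEquiv930_mem_integers s w _).2 (h i j)

theorem valued_det_conj584 (s : K ≃+* K) (g : G K) (w : HeightOneSpectrum (𝓞 K)) :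
    Valued.v (finComp w (conjG621 s g)).det = Valued.v (finComp (finPull930 s w) g).det := by
  have h := RingHom.map_det
    ((finMapEquiv930 s w :
        (finPull930 s w).adicCompletion K ≃+* w.adicCompletion K) :
      (finPull930 s w).adicCompletion K →+* w.adicCompletion K)
    (finComp (finPull930 s w) g)
  rw [RingHom.mapMatrix_apply] at h
  rw [finComp_conj_eq_map584, ← h]
  exact valued_finMapEquiv930 s w _

/-! ## Transport to the place `s⁻¹ v' = finPull930 s v'` along `c = conjG621 s.symm` -/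

theorem conjG_symm_injective584 (s : K ≃+* K) : Function.Injective (conjG621 (K := K) s.symm) :=
  Function.LeftInverse.injective (g := conjG621 s) (conjG621_conjG621_symm s)

theorem isIntegralAt_conj_symm584 (s : K ≃+* K) (g : G K) (v' : HeightOneSpectrum (𝓞 K)) :
    IsIntegralAt (finPull930 s v') (conjG621 s.symm g) ↔ IsIntegralAt v' g := by
  rw [isIntegralAt_conj584, finPull_symm_finPull584]

theorem valued_det_conj_symm584 (s : K ≃+* K) (g : G K) (v' : HeightOneSpectrum (𝓞 K)) :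
    Valued.v (finComp (finPull930 s v') (conjG621 s.symm g)).det
      = Valued.v (finComp v' g).det := by
  rw [valued_det_conj584, finPull_symm_finPull584]

theorem isLocalAtFin_conj_symm584 (s : K ≃+* K) (g : G K) (v' : HeightOneSpectrum (𝓞 K))
    (h : IsLocalAtFin v' g) : IsLocalAtFin (finPull930 s v') (conjG621 s.symm g) := by
  refine ⟨fun w => trivAtInf_conj584 s.symm g w (h.1 _), fun w hw => ?_⟩
  refine trivAtFin_conj584 s.symm g w (h.2 _ ?_)
  intro hEq
  apply hw
  rw [← hEq, finPull_finPull_symm584]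

open Classical in
/-- A Hecke coset system at `v'` goes to a Hecke coset system at `s⁻¹ v'`. -/
theorem isHeckeCosetSystem_image584 (s : K ≃+* K) (v' : HeightOneSpectrum (𝓞 K))
    (H : Finset (G K)) (hH : IsHeckeCosetSystem v' H) :
    IsHeckeCosetSystem (finPull930 s v') (H.image (conjG621 s.symm)) := by
  obtain ⟨hcard, hmem, hpair⟩ := hH
  refine ⟨?_, ?_, ?_⟩
  · rw [Finset.card_image_of_injective H (conjG_symm_injective584 s), hcard,
      absNorm_finPull584]
  · intro h' hh'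
    obtain ⟨h, hh, rfl⟩ := Finset.mem_image.1 hh'
    obtain ⟨h1, h2, h3⟩ := hmem h hh
    refine ⟨isLocalAtFin_conj_symm584 s h v' h1, (isIntegralAt_conj_symm584 s h v').2 h2, ?_⟩
    rw [valued_det_conj_symm584]
    exact h3
  · intro h₁' hh₁' h₂' hh₂' hne hint
    obtain ⟨h₁, hh₁, rfl⟩ := Finset.mem_image.1 hh₁'
    obtain ⟨h₂, hh₂, rfl⟩ := Finset.mem_image.1 hh₂'
    have hne' : h₁ ≠ h₂ := fun h => hne (by rw [h])
    apply hpair h₁ hh₁ h₂ hh₂ hne'
    rw [← map_inv, ← map_mul] at hint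
    exact (isIntegralAt_conj_symm584 s _ v').1 hint

/-- A scalar uniformiser at `v'` goes to a scalar uniformiser at `s⁻¹ v'`. -/
theorem isScalarUniformizerAt_conj584 (s : K ≃+* K) (v' : HeightOneSpectrum (𝓞 K)) (z : G K)
    (hz : IsScalarUniformizerAt v' z) :
    IsScalarUniformizerAt (finPull930 s v') (conjG621 s.symm z) := by
  obtain ⟨hloc, c, hc, hdiag⟩ := hz
  refine ⟨isLocalAtFin_conj_symm584 s z v' hloc, ?_⟩
  -- transport the diagonal form of `z` at `v'` to the (propositionally equal) place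
  -- `finPull930 s.symm (finPull930 s v')`
  have key : ∀ u : HeightOneSpectrum (𝓞 K), u = v' →
      ∃ c₁ : u.adicCompletion K, Valued.v c₁ = WithZero.exp (-1 : ℤ) ∧
        finComp u z = Matrix.diagonal (fun _ => c₁) := by
    rintro u rfl
    exact ⟨c, hc, hdiag⟩
  obtain ⟨c₁, hc₁, hdiag₁⟩ :=
    key (finPull930 s.symm (finPull930 s v')) (finPull_symm_finPull584 s v')
  refine ⟨finMapEquiv930 s.symm (finPull930 s v') c₁, ?_, ?_⟩
  · rw [valued_finMapEquiv930]
    exact hc₁
  · rw [finComp_conj_eq_map584, hdiag₁]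
    ext i j
    by_cases hij : i = j
    · subst hij
      simp
    · simp [Matrix.diagonal_apply_ne _ hij]

/-! ## The leaf -/

open Classical in
/-- **T7.02.6 `ConjHeckeC621`.** -/
theorem conjHeckeC584 (K : Type) [Field K] [NumberField K] : ConjHeckeC621 K := by
  intro s φ v' a b hφ
  obtain ⟨hT, hS⟩ := hφ
  refine ⟨fun H hH g => ?_, fun z hz g => ?_⟩
  · have h1 := hT (H.image (conjG621 s.symm)) (isHeckeCosetSystem_image584 s v' H hH)
      (conjG621 s.symm g)
    rw [Finset.sum_image (fun x _ y _ hxy => conjG_symm_injective584 s hxy),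
      absNorm_finPull584] at h1
    rw [conjFn621_apply, ← h1]
    refine Finset.sum_congr rfl fun h _ => ?_
    rw [conjFn621_apply, map_mul]
  · have h1 := hS (conjG621 s.symm z) (isScalarUniformizerAt_conj584 s v' z hz)
      (conjG621 s.symm g)
    rw [conjFn621_apply, conjFn621_apply, map_mul]
    exact h1

end Fermat.Agent.LT.T7.H584

end

end
-- ===== PACK-END LT/T7/H584/ConjHecke.lean

-- ===== PACK-BEGIN LT/T7/H954/PlaceSum.lean
section




/-!
# Row LT, tower T7, node T7.14 `RigidC`, leaf R0 `PlaceSumC` (helper954, OFF-MAIN)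

`Rigid.PlaceSumC K` VERBATIM against `LT/T7/H62/RigidSpec.lean` (helper62@e50c72768, sha256
a87f852b4cba4313, byte-identical copy), for every number field `K`, unconditionally.
The proof is `summable_absNorm_rpow954` of `PlaceSumCore.lean` (Mathlib only).
-/

set_option autoImplicit false

open IsDedekindDomain NumberField

noncomputable section

namespace Fermat.Agent.LT.T7.H954

/-- **Leaf R0 of `T7.14`**: `∑_v N v ^ (-s) < ∞` for `s > 1`. -/
theorem placeSumC954 (K : Type) [Field K] [NumberField K] :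
    Fermat.Agent.LT.T7.Rigid.PlaceSumC K := by
  intro s hs
  exact summable_absNorm_rpow954 K s hs

/-- The same for all number fields, in the shape consumed by `Rigid.rigidAll_of`. -/
theorem placeSumAll954 :
    ∀ (K : Type) [Field K] [NumberField K], Fermat.Agent.LT.T7.Rigid.PlaceSumC K :=
  fun K _ _ => placeSumC954 K

end Fermat.Agent.LT.T7.H954

end

end
-- ===== PACK-END LT/T7/H954/PlaceSum.lean

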