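import Mathlib
import Fermat.Agent.Pack.LT2.E9L3
import Fermat.Agent.Pack.LT2.E10L2
import Fermat.Agent.Pack.S43GC.G0E10L2
import Fermat.Agent.Pack.LT2.E6L3
import Fermat.Agent.Pack.LT2.E0L1
import Fermat.Agent.Pack.LT2.E2L2
import Fermat.Agent.Pack.LT2.E0L2
import Fermat.Agent.Pack.LT2.E2L1
import Fermat.Agent.Pack.LT2.E10L1
import Fermat.Agent.Pack.LT2.E0L0
import Fermat.Agent.Pack.LT2.E1L0
import Fermat.Agent.Pack.LT2.E5L3
import Fermat.Agent.Pack.LT2.E6L1
import Fermat.Agent.Pack.LT2.E8L2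
import Fermat.Agent.Pack.LT2.E10L0
import Fermat.Agent.Pack.LT2.E3L0
import Fermat.Agent.Pack.S44C.G0E6L2
import Fermat.Agent.Pack.LT2.E9L2
import Fermat.Agent.Pack.S44C.G0E13L3
import Fermat.Agent.Pack.L1B.E1L1
import Fermat.Agent.Pack.LT2.E9L1
import Fermat.Agent.Pack.LT2.E10L3

set_option linter.all false

-- ===== PACK-BEGIN LT/A2/H131/LevelPrimes.lean
section



/-!
# Row LT, tower A2, branch GALSEED — leaf A2.01.12 `LevelPrimesC` (helper131)

OFF-MAIN.  Only finitely many prime numbers lie under a prime dividing `𝔫 ≠ 0`: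
`S` = the prime factors of `Ideal.absNorm 𝔫`.
-/

set_option autoImplicit false

open IsDedekindDomain NumberField

namespace Fermat.Agent.LT.A2.H131

/-- A prime number `p` not dividing `m ≠ 0` and a proper ideal containing `m` and `p`:
impossible (Bézout in `ℤ`). -/
theorem not_mem_of_coprime_h131 {R : Type*} [CommRing R] (I : Ideal R) (hI : I ≠ ⊤)
    (m p : ℕ) (hcop : Nat.Coprime m p) (hm : (m : R) ∈ I) : (p : R) ∉ I := by
  intro hp
  apply hI
  rw [Ideal.eq_top_iff_one]
  have h1 : ((m : ℤ) * Nat.gcdA m p + (p : ℤ) * Nat.gcdB m p : ℤ) = 1 := by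
    have := Nat.gcd_eq_gcd_ab m p
    rw [hcop.gcd_eq_one] at this
    simpa using this.symm
  have h2 : ((((m : ℤ) * Nat.gcdA m p + (p : ℤ) * Nat.gcdB m p : ℤ)) : R) = 1 := by
    rw [h1]; simp
  rw [← h2]
  push_cast
  exact I.add_mem (I.mul_mem_right _ hm) (I.mul_mem_right _ hp)

/-- **Leaf A2.01.12.** -/
theorem levelPrimesC_h131 : Fermat.Agent.LT.A2.H38.LevelPrimesC := by
  intro K _ _ 𝔫 h𝔫
  refine ⟨(Ideal.absNorm 𝔫).primeFactors, ?_⟩
  intro p hp hpS w hpw hdvd
  have hm0 : Ideal.absNorm 𝔫 ≠ 0 := by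
    rw [Ne, Ideal.absNorm_eq_zero_iff]
    exact h𝔫
  have hnot : ¬ p ∣ Ideal.absNorm 𝔫 := by
    intro hdiv
    exact hpS (Nat.mem_primeFactors.2 ⟨hp, hdiv, hm0⟩)
  have hcop : Nat.Coprime (Ideal.absNorm 𝔫) p :=
    (Nat.Coprime.symm ((Nat.Prime.coprime_iff_not_dvd hp).2 hnot))
  have hle : 𝔫 ≤ w.asIdeal := Ideal.le_of_dvd hdvd
  have hmem : ((Ideal.absNorm 𝔫 : ℕ) : 𝓞 K) ∈ w.asIdeal := hle (Ideal.absNorm_mem 𝔫)
  exact not_mem_of_coprime_h131 w.asIdeal w.isPrime.ne_top _ p hcop hmem hpw

end Fermat.Agent.LT.A2.H131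

end
-- ===== PACK-END LT/A2/H131/LevelPrimes.lean

-- ===== PACK-BEGIN LT/CFT/H1/NormPos.lean
section



/-!
# Row LT, tower CFT, sub-tower REC2 (helper1), OFF-MAIN : leaf G6 = `NormPosSpec` (PROVED)

`normPos : NormPosSpec` : for `K = ℚ̄^U` totally complex (`IsTC U`) and `a ∈ Kˣ`,
`N_{K/ℚ}(a) = ∏_{t ∈ G_ℚ/U} t • a > 0`.

Proof.  Fix `φ : ℚ̄ → ℂ` and let `c ∈ G_ℚ` be the complex conjugation of `φ`
(`φ (c x) = conj (φ x)`, `AlgEquiv.restrictNormal`).  Left translation by `c` is an involution of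
`G_ℚ/U` without fixed points (`IsTC` for the embedding `φ ∘ g`), and
`f(t) := φ (t • a)` satisfies `f (c t) = conj (f t)`.  Hence `∏ f(t)/|f(t)| = 1`
(`Finset.prod_involution`), i.e. `φ(N a) = ∏ |f(t)| > 0`.
-/

set_option autoImplicit false
set_option linter.style.haveILetI false

noncomputable section

namespace Fermat.Agent.LT.CFT.H1

open Fermat.Agent.S55.G.Rec

local notation "Qb" => AlgebraicClosure ℚ
local notation "GQ" => (AlgebraicClosure ℚ ≃ₐ[ℚ] AlgebraicClosure ℚ)

/-- A product over a finite type with a fixed-point-free involution `σ` and `f (σ x) = conj (f x)`,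
`f x ≠ 0`, is the product of the absolute values. -/
theorem prod_eq_prod_norm_of_involution {X : Type*} [Fintype X] (σ : X → X)
    (hσ : ∀ x, σ (σ x) = x) (hfix : ∀ x, σ x ≠ x) (f : X → ℂ) (hf0 : ∀ x, f x ≠ 0)
    (hf : ∀ x, f (σ x) = (starRingEnd ℂ) (f x)) :
    ∏ x, f x = ((∏ x, ‖f x‖ : ℝ) : ℂ) := by
  have hn0 : ∀ x, ((‖f x‖ : ℝ) : ℂ) ≠ 0 := fun x =>
    Complex.ofReal_ne_zero.mpr (norm_ne_zero_iff.mpr (hf0 x))
  have h1 : ∏ x, f x / ((‖f x‖ : ℝ) : ℂ) = 1 := by
    refine Finset.prod_involution (fun x _ => σ x) ?_ (fun x _ _ => hfix x)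
      (fun x _ => Finset.mem_univ _) (fun x _ => hσ x)
    intro x _
    have h2 : ‖f (σ x)‖ = ‖f x‖ := by rw [hf x, RCLike.norm_conj]
    rw [h2, hf x, div_mul_div_comm, Complex.mul_conj, Complex.normSq_eq_norm_sq]
    rw [Complex.ofReal_pow, sq]
    exact div_self (mul_ne_zero (hn0 x) (hn0 x))
  rw [Finset.prod_div_distrib] at h1
  have h3 : (∏ x, ((‖f x‖ : ℝ) : ℂ)) ≠ 0 := Finset.prod_ne_zero_iff.mpr fun x _ => hn0 x
  rw [div_eq_one_iff_eq h3] at h1
  rw [h1, Complex.ofReal_prod]

/-- **G6**: positivity of norms from totally complex fields. -/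
theorem normPos : NormPosSpec := by
  classical
  intro U hU hTC a ha y hy
  haveI : Finite (GQ ⧸ U) := H934.finite_quotient_of_isOpenQ hU
  haveI : Fintype (GQ ⧸ U) := Fintype.ofFinite _
  -- an embedding `φ : ℚ̄ → ℂ`
  haveI : Algebra.IsAlgebraic ℚ Qb := AlgebraicClosure.isAlgebraic ℚ
  haveI : IsAlgClosure ℚ Qb := ⟨inferInstance, AlgebraicClosure.isAlgebraic ℚ⟩
  let φ : Qb →ₐ[ℚ] ℂ := IsAlgClosed.lift
  have hφinj : Function.Injective φ := φ.toRingHom.injective
  -- complex conjugation as an element of `G_ℚ`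
  letI : Algebra Qb ℂ := φ.toRingHom.toAlgebra
  haveI : IsScalarTower ℚ Qb ℂ := IsScalarTower.of_algebraMap_eq fun x => (φ.commutes x).symm
  haveI : Normal ℚ Qb := IsAlgClosure.normal ℚ Qb
  let c : GQ := (Complex.conjAe.restrictScalars ℚ).restrictNormal Qb
  have hc : ∀ x : Qb, φ (c x) = (starRingEnd ℂ) (φ x) := fun x =>
    AlgEquiv.restrictNormal_commutes (Complex.conjAe.restrictScalars ℚ) Qb x
  have hcc : c * c = 1 := by
    ext x
    apply hφinj
    show φ (c (c x)) = φ x
    rw [hc, hc, Complex.conj_conj]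
  -- the function
  let f : GQ ⧸ U → ℂ := fun t => φ (((Quotient.out t : GQ) • a : Qbˣ) : Qb)
  have hf0 : ∀ t, f t ≠ 0 := fun t => by
    show φ _ ≠ 0
    rw [map_ne_zero_iff φ hφinj]
    exact Units.ne_zero _
  have hfmk : ∀ g : GQ, f (QuotientGroup.mk g) = φ ((g • a : Qbˣ) : Qb) := fun g => by
    show φ (((Quotient.out (QuotientGroup.mk g : GQ ⧸ U) : GQ) • a : Qbˣ) : Qb) = _
    rw [H934.out_smul_of_fixed U ha g]
  have hsmul : ∀ (g : GQ) (t : GQ ⧸ U), g • t = QuotientGroup.mk (g * Quotient.out t) := by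
    intro g t
    conv_lhs => rw [← QuotientGroup.out_eq' t]
    rfl
  have hf : ∀ t, f (c • t) = (starRingEnd ℂ) (f t) := by
    intro t
    rw [hsmul, hfmk, mul_smul]
    exact hc _
  have hσ : ∀ t : GQ ⧸ U, c • c • t = t := fun t => by
    rw [← mul_smul, hcc, one_smul]
  have hfix : ∀ t : GQ ⧸ U, c • t ≠ t := by
    intro t ht
    set g : GQ := Quotient.out t with hg
    have h1 : (QuotientGroup.mk (c * g) : GQ ⧸ U) = QuotientGroup.mk g := by
      rw [← hsmul, ht, hg]
      exact (QuotientGroup.out_eq' t).symm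
    have h2 : (c * g)⁻¹ * g ∈ U := QuotientGroup.eq.mp h1
    have h3 : g⁻¹ * c * g ∈ U := by
      have h4 := U.inv_mem h2
      have h5 : ((c * g)⁻¹ * g)⁻¹ = g⁻¹ * c * g := by group
      rwa [h5] at h4
    obtain ⟨b, hb, hne⟩ := hTC ((φ : Qb →+* ℂ).comp ((g : Qb ≃ₐ[ℚ] Qb) : Qb →+* Qb))
    apply hne
    show (starRingEnd ℂ) (φ (g b)) = φ (g b)
    rw [← hc]
    congr 1
    have h6 : (g⁻¹ * c * g) b = b := hb _ h3
    have h7 : g ((g⁻¹ * c * g) b) = c (g b) := by
      show g ((g⁻¹ : GQ) (c (g b))) = c (g b)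
      exact AlgEquiv.apply_symm_apply g _
    rw [← h7, h6]
  have hprod := prod_eq_prod_norm_of_involution (fun t : GQ ⧸ U => c • t) hσ hfix f hf0 hf
  -- the product is `φ (N a) = y`
  have hN : ∏ t : GQ ⧸ U, f t = ((y : ℚ) : ℂ) := by
    have h1 : φ ((relNorm U a : Qbˣ) : Qb) = ∏ t : GQ ⧸ U, f t := by
      rw [H934.relNorm_eq_prod, Units.coe_prod, map_prod]
    rw [← h1, hy, AlgHom.commutes]
    simp
  rw [hN] at hprod
  have hpos : (0 : ℝ) < ∏ t : GQ ⧸ U, ‖f t‖ :=
    Finset.prod_pos fun t _ => norm_pos_iff.mpr (hf0 t)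
  have h8 : (((y : ℚ) : ℝ) : ℂ) = ((∏ t : GQ ⧸ U, ‖f t‖ : ℝ) : ℂ) := by
    rw [← hprod]
    simp
  have h9 : ((y : ℚ) : ℝ) = ∏ t : GQ ⧸ U, ‖f t‖ := Complex.ofReal_injective h8
  have h10 : (0 : ℝ) < ((y : ℚ) : ℝ) := by rw [h9]; exact hpos
  exact_mod_cast h10

end Fermat.Agent.LT.CFT.H1

end
end
-- ===== PACK-END LT/CFT/H1/NormPos.lean

-- ===== PACK-BEGIN LT/H129/SplitTop.lean
section





/-!
# Row LT, tower T3, leaf T3.18a.4.5 `N893.SplitC` (owner helper129): THE TOP -- OFF-MAIN

    splitC_of_leaves129 : SplitHaarC129 K → ProdHaarC129 → N893.SplitC K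

(`E₀` is closed, hence measurable: `isClosed_outGrp129`; the projection is continuous:
`continuous_splitProj129`; `integral_map`, `integral_indicator`.)
-/

set_option autoImplicit false
set_option linter.style.haveILetI false

open IsDedekindDomain NumberField MeasureTheory
open Fermat.Agent.LT.H556.A0 Fermat.Agent.LT.T3.AS Fermat.Agent.LT.T3.AS.N893

noncomputable section

namespace Fermat.Agent.LT.H129

variable (K : Type) [Field K] [NumberField K]

theorem continuous_finHom129 (v : HeightOneSpectrum (𝓞 K)) :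
    Continuous (fun X : Adl K => finHom K v X) :=
  Fermat.Agent.LT.T1.H919.continuous_projFin919 (K := K) v

theorem continuous_infHom129 (w : InfinitePlace K) :
    Continuous (fun X : Adl K => infHom K w X) :=
  (InfinitePlace.Completion.isometry_extensionEmbedding w).continuous.comp
    (Fermat.Agent.LT.T1.H919.continuous_projInf919 (K := K) w)

theorem continuous_splitProj129 (v₀ : HeightOneSpectrum (𝓞 K)) :
    Continuous (splitProj129 K v₀) :=
  (continuous_finHom129 K v₀).prodMk (continuous_pi fun w => continuous_infHom129 K w)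

/-- `E₀` is closed in `𝔸_K`. -/
theorem isClosed_outGrp129 (𝔫 : Ideal (𝓞 K)) (v₀ : HeightOneSpectrum (𝓞 K)) :
    IsClosed (outGrp K 𝔫 v₀) := by
  have e : outGrp K 𝔫 v₀
      = ⋂ v : HeightOneSpectrum (𝓞 K), ⋂ _ : v ≠ v₀,
          (fun X : Adl K => finHom K v X) ⁻¹' idealClosure 𝔫 v := by
    ext X
    simp only [outGrp, Set.mem_ofPred_eq, Set.mem_iInter, Set.mem_preimage]
  rw [e]
  refine isClosed_iInter fun v => isClosed_iInter fun _ => ?_
  exact IsClosed.preimage (continuous_finHom129 K v) isClosed_closure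

/-- **The top of `SplitC`.** -/
theorem splitC_of_leaves129 (hH : SplitHaarC129 K) (hP : ProdHaarC129) : N893.SplitC K := by
  letI : MeasurableSpace (Adl K) := borel (Adl K)
  haveI : BorelSpace (Adl K) := ⟨rfl⟩
  intro hcx ν hν 𝔫 h𝔫 v₀
  letI : MeasurableSpace (v₀.adicCompletion K) := borel (v₀.adicCompletion K)
  haveI : BorelSpace (v₀.adicCompletion K) := ⟨rfl⟩
  haveI : LocallyCompactSpace (v₀.adicCompletion K) :=
    Fermat.Agent.LT.H11.LC.locallyCompactSpace_adicCompletion_h11 K v₀
  haveI : SecondCountableTopology (v₀.adicCompletion K) :=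
    Fermat.Agent.LT.H11.SC.secondCountableTopology_adicCompletion_h11 K v₀
  have hμ : (Measure.map (splitProj129 K v₀) (ν.restrict (outGrp K 𝔫 v₀))).IsAddHaarMeasure :=
    hH hcx ν hν 𝔫 h𝔫 v₀
  obtain ⟨ν₀, hν₀, c₀, h⟩ := hP (v₀.adicCompletion K) (InfinitePlace K) _ hμ
  refine ⟨ν₀, hν₀, c₀, ?_⟩
  intro φ₀ φ hφ₀ hφ₀c hφ hφc
  obtain ⟨hint, hval⟩ := h φ₀ φ hφ₀ hφ₀c hφ hφc
  have hE : MeasurableSet (outGrp K 𝔫 v₀) := (isClosed_outGrp129 K 𝔫 v₀).measurableSet
  have hp : Measurable (splitProj129 K v₀) := (continuous_splitProj129 K v₀).measurable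
  have hfc : Continuous (fun h : v₀.adicCompletion K × (InfinitePlace K → ℂ) =>
      φ₀ h.1 * ∏ w : InfinitePlace K, φ w (h.2 w)) := by
    refine (hφ₀.comp continuous_fst).mul ?_
    refine continuous_finsetProd _ fun w _ => ?_
    exact (hφ w).comp ((continuous_apply w).comp continuous_snd)
  have hfun : (fun X : Adl K => (outGrp K 𝔫 v₀).indicator (fun _ => (1 : ℂ)) X
        * φ₀ (finHom K v₀ X) * ∏ w : InfinitePlace K, φ w (infHom K w X))
      = (outGrp K 𝔫 v₀).indicator
          ((fun h : v₀.adicCompletion K × (InfinitePlace K → ℂ) =>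
            φ₀ h.1 * ∏ w : InfinitePlace K, φ w (h.2 w)) ∘ splitProj129 K v₀) := by
    funext X
    by_cases hX : X ∈ outGrp K 𝔫 v₀
    · simp [Set.indicator_of_mem hX, splitProj129]
    · simp [Set.indicator_of_notMem hX]
  rw [hfun]
  constructor
  · rw [integrable_indicator_iff hE]
    exact (integrable_map_measure hfc.aestronglyMeasurable hp.aemeasurable).mp hint
  · rw [integral_indicator hE, ← hval]
    exact (integral_map hp.aemeasurable hfc.aestronglyMeasurable).symm

end Fermat.Agent.LT.H129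

end

end
-- ===== PACK-END LT/H129/SplitTop.lean

-- ===== PACK-BEGIN LT/T1/H729/Red/SmallRow.lean
section







/-!
# Row LT, tower T1, leaf T1.14 (helper729): the adelic Minkowski step

OFF-MAIN.  `exists_small_row729` : for ideles `u₁`, `u₂` and an adele `x` there are `(c, d) ≠ 0` in
`K²` and `lam > 0` with `lam ^ (2 n) = 2 vol(D)² ‖u₁‖ ‖u₂‖ / vol(I)²` such that `c u₁` and
`c x + d u₂` lie in the box of size `2 lam`.
-/

set_option autoImplicit false

open IsDedekindDomain NumberField MeasureTheory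
open Fermat.Agent.LT.H556.A0

noncomputable section

namespace Fermat.Agent.LT.T1.H729

set_option linter.unusedSectionVars false

variable (K : Type) [Field K] [NumberField K]

theorem adNorm_one729 : Fermat.Agent.LT.T1.adNorm K (1 : Adl K) = 1 := by
  have h := adNorm_mul729 K 1 1
  have hp := adNorm_pos729 K 1
  rw [mul_one, Units.val_one] at h
  have h2 : Fermat.Agent.LT.T1.adNorm K (1 : Adl K) *
      (Fermat.Agent.LT.T1.adNorm K (1 : Adl K) - 1) = 0 := by
    rw [mul_sub, mul_one, ← h, sub_self]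
  rcases mul_eq_zero.mp h2 with h3 | h3
  · rw [Units.val_one] at hp
    exact absurd h3 hp.ne'
  · exact sub_eq_zero.mp h3

theorem adNorm_inv729 (u : (Adl K)ˣ) :
    Fermat.Agent.LT.T1.adNorm K ((u⁻¹ : (Adl K)ˣ) : Adl K) =
      (Fermat.Agent.LT.T1.adNorm K (u : Adl K))⁻¹ := by
  have h := adNorm_mul729 K u u⁻¹
  rw [mul_inv_cancel, Units.val_one, adNorm_one729] at h
  exact eq_inv_of_mul_eq_one_right h.symm

/-- Elements of the scaled box. -/
theorem inBox_of_mem_image729 {lam : ℝ} (hlam : 0 < lam) {I : Set (Adl K)}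
    (hIbox : ∀ a ∈ I, InBox729 K 1 a) {y : Adl K}
    (hy : y ∈ (fun a : Adl K => ((rayIdele729 K lam hlam : (Adl K)ˣ) : Adl K) * a) '' I) :
    InBox729 K lam y := by
  obtain ⟨a, ha, rfl⟩ := hy
  exact inBox_ray_mul729 K hlam (hIbox a ha)

/-- **The adelic Minkowski step.** -/
theorem exists_small_row729 [LocallyCompactSpace (Adl K)] [SecondCountableTopology (Adl K)]
    [MeasurableSpace (Adl K)] [BorelSpace (Adl K)]
    (μ : Measure (Adl K)) [μ.IsAddHaarMeasure]
    (hscale : ∀ (u : (Adl K)ˣ) (X : Set (Adl K)),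
      μ ((fun a : Adl K => (u : Adl K) * a) '' X) =
        ENNReal.ofReal (Fermat.Agent.LT.T1.adNorm K (u : Adl K)) * μ X)
    {D : Set (Adl K)} (hDm : MeasurableSet D)
    (hD : IsAddFundamentalDomain (Fermat.Agent.LT.T1.princ K) D μ)
    (hD0 : μ D ≠ 0) (hDtop : μ D ≠ ⊤)
    {I : Set (Adl K)} (hIo : IsOpen I) (hI0 : μ I ≠ 0) (hItop : μ I ≠ ⊤)
    (hIbox : ∀ a ∈ I, InBox729 K 1 a)
    (u₁ u₂ : (Adl K)ˣ) (x : Adl K) :
    ∃ (c d : K) (lam : ℝ), (c ≠ 0 ∨ d ≠ 0) ∧ 0 < lam ∧
      lam ^ (2 * Module.finrank ℚ K) =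
        2 * (μ D).toReal ^ 2 * (Fermat.Agent.LT.T1.adNorm K (u₁ : Adl K) *
          Fermat.Agent.LT.T1.adNorm K (u₂ : Adl K)) / (μ I).toReal ^ 2 ∧
      InBox729 K (2 * lam) (algebraMap K (Adl K) c * (u₁ : Adl K)) ∧
      InBox729 K (2 * lam) (algebraMap K (Adl K) c * x + algebraMap K (Adl K) d * (u₂ : Adl K)) := by
  classical
  set n := Module.finrank ℚ K with hn
  have hnpos : 0 < n := Module.finrank_pos
  set P₁ := Fermat.Agent.LT.T1.adNorm K (u₁ : Adl K) with hP₁
  set P₂ := Fermat.Agent.LT.T1.adNorm K (u₂ : Adl K) with hP₂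
  have hP₁pos : 0 < P₁ := adNorm_pos729 K u₁
  have hP₂pos : 0 < P₂ := adNorm_pos729 K u₂
  set dd := (μ D).toReal with hdd
  set ii := (μ I).toReal with hii
  have hddpos : 0 < dd := ENNReal.toReal_pos hD0 hDtop
  have hiipos : 0 < ii := ENNReal.toReal_pos hI0 hItop
  set T := 2 * dd ^ 2 * (P₁ * P₂) / ii ^ 2 with hT
  have hTpos : 0 < T := by positivity
  set lam := T ^ (((2 * n : ℕ) : ℝ)⁻¹) with hlamdef
  have hlam : 0 < lam := Real.rpow_pos_of_pos hTpos _
  have hlampow : lam ^ (2 * n) = T :=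
    Real.rpow_inv_natCast_pow hTpos.le (by omega)
  -- the scaled box
  set ray := rayIdele729 K lam hlam with hray
  set Il : Set (Adl K) := (fun a : Adl K => (ray : Adl K) * a) '' I with hIl
  have hIlopen : IsOpen Il := by
    have : Il = (fun r : Adl K => r * ((ray⁻¹ : (Adl K)ˣ) : Adl K)) ⁻¹' I := by
      rw [hIl, preimage_mul_unit729, inv_inv]
    rw [this]
    exact hIo.preimage (continuous_id.mul continuous_const)
  have hIlmeas : MeasurableSet Il := hIlopen.measurableSet
  have hμIl : μ Il = ENNReal.ofReal (lam ^ n) * μ I := by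
    rw [hIl, hscale, adNorm_rayIdele729]
  -- the sheared box and its measure
  have hSmeas := measurableSet_shearBox729 u₁ u₂ x hIlmeas
  have hSμ := measure_shearBox729 μ (fun u : (Adl K)ˣ => Fermat.Agent.LT.T1.adNorm K (u : Adl K))
    hscale u₁ u₂ x hIlmeas
  have hlt : μ D * μ D < (μ.prod μ) (shearBox729 u₁ u₂ x Il) := by
    rw [hSμ, hμIl, adNorm_inv729, adNorm_inv729, ← ENNReal.ofReal_toReal hDtop,
      ← ENNReal.ofReal_toReal hItop, ← hdd, ← hii, ← hP₁, ← hP₂]
    have e1 : ENNReal.ofReal P₁⁻¹ * (ENNReal.ofReal (lam ^ n) * ENNReal.ofReal ii) *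
        (ENNReal.ofReal P₂⁻¹ * (ENNReal.ofReal (lam ^ n) * ENNReal.ofReal ii)) =
        ENNReal.ofReal (P₁⁻¹ * (lam ^ n * ii) * (P₂⁻¹ * (lam ^ n * ii))) := by
      rw [ENNReal.ofReal_mul (by positivity), ENNReal.ofReal_mul (by positivity),
        ENNReal.ofReal_mul (by positivity), ENNReal.ofReal_mul (by positivity),
        ENNReal.ofReal_mul (by positivity)]
    rw [e1, ← ENNReal.ofReal_mul hddpos.le]
    rw [ENNReal.ofReal_lt_ofReal_iff (by positivity)]
    have e2 : P₁⁻¹ * (lam ^ n * ii) * (P₂⁻¹ * (lam ^ n * ii)) = 2 * dd ^ 2 := by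
      have : lam ^ n * lam ^ n = T := by rw [← pow_add, ← two_mul, hlampow]
      have hP₁ne := hP₁pos.ne'
      have hP₂ne := hP₂pos.ne'
      have hiine := hiipos.ne'
      calc P₁⁻¹ * (lam ^ n * ii) * (P₂⁻¹ * (lam ^ n * ii))
          = (lam ^ n * lam ^ n) * (P₁⁻¹ * P₂⁻¹ * ii ^ 2) := by ring
        _ = T * (P₁⁻¹ * P₂⁻¹ * ii ^ 2) := by rw [this]
        _ = 2 * dd ^ 2 := by
            rw [hT]
            field_simp
    rw [e2]
    nlinarith
  -- Blichfeldt
  have := countable_princ729 K
  obtain ⟨ξ, η, hξ, hη, hne, s, hs, s', hs', h1, h2⟩ :=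
    exists_lattice_diff729 μ (Fermat.Agent.LT.T1.princ K) hDm hD hSmeas hlt
  obtain ⟨c, rfl⟩ := hξ
  obtain ⟨d, rfl⟩ := hη
  have hξ' : ((algebraMap K (Adl K)).toAddMonoidHom c : Adl K) = algebraMap K (Adl K) c := rfl
  have hη' : ((algebraMap K (Adl K)).toAddMonoidHom d : Adl K) = algebraMap K (Adl K) d := rfl
  rw [hξ'] at h1 hne
  rw [hη'] at h2 hne
  refine ⟨c, d, lam, ?_, hlam, hlampow, ?_, ?_⟩
  · rcases hne with h | h
    · exact Or.inl (fun h0 => h (by rw [h0, map_zero]))
    · exact Or.inr (fun h0 => h (by rw [h0, map_zero]))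
  · have e : algebraMap K (Adl K) c * (u₁ : Adl K) = s'.1 * (u₁ : Adl K) - s.1 * (u₁ : Adl K) := by
      rw [h1]; ring
    rw [e]
    exact inBox_sub729 K (inBox_of_mem_image729 K hlam hIbox hs.1)
      (inBox_of_mem_image729 K hlam hIbox hs'.1)
  · have e : algebraMap K (Adl K) c * x + algebraMap K (Adl K) d * (u₂ : Adl K) =
        (s'.1 * x + s'.2 * (u₂ : Adl K)) - (s.1 * x + s.2 * (u₂ : Adl K)) := by
      rw [h1, h2]; ring
    rw [e]
    exact inBox_sub729 K (inBox_of_mem_image729 K hlam hIbox hs.2)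
      (inBox_of_mem_image729 K hlam hIbox hs'.2)

end Fermat.Agent.LT.T1.H729

end
end
-- ===== PACK-END LT/T1/H729/Red/SmallRow.lean

-- ===== PACK-BEGIN LT/T2/H437/USAdelic.lean
section





/-!
# Row LT, tower T2, leaf T2.03a.2 (helper437): the smooth families at infinity

* `kap437 w a b`: the element of `K_w` with real coordinates `(a, b)`;
* `cGL437 w`, `fGL437 v`: the components of `GL₂(𝔸_K)` as group homomorphisms;
* `pInf437 g`: the infinite part of `g`; `chartG437 X`: the chart `1 + ρ(X)` at infinity;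
* `fam437 ω₀ h₀ X t X'`: the family `Y(X, t, X')`, its components, and the relation
  `ω⁻¹ n(y) ω h = h₀ · Y(X, t(y), X') · u`.

Reuses the component calculus of helper724 (`LT/T2/H724/Glue.lean`, `LT/T1/H724/HeckeCoset.lean`,
byte-identical copies).
-/

set_option autoImplicit false

open IsDedekindDomain NumberField
open Fermat.Agent.LT.H556.A0 Fermat.Agent.LT.T1.H724 Fermat.Agent.LT.T2.H724
open Fermat.Agent.LT.T2.H386 Fermat.Agent.LT.T2.H511

noncomputable section

namespace Fermat.Agent.LT.T2.H437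

set_option linter.unusedSectionVars false

variable {K : Type} [Field K] [NumberField K]

/-! ## 1. Real coordinates on the completions at the infinite places -/

open Classical in
/-- The element of `K_w` with real coordinates `(a, b)` (`b` is ignored at a real place). -/
def kap437 (w : InfinitePlace K) (a b : ℝ) : w.Completion :=
  if hw : w.IsReal then (InfinitePlace.Completion.ringEquivRealOfIsReal hw).symm a
  else (InfinitePlace.Completion.ringEquivComplexOfIsComplex
    (InfinitePlace.not_isReal_iff_isComplex.mp hw)).symm (⟨a, b⟩ : ℂ)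

open Classical in
/-- The complex number with coordinates `(a, b)` at `w` (`b` is ignored at a real place). -/
def kapC437 (w : InfinitePlace K) (a b : ℝ) : ℂ :=
  if w.IsReal then (a : ℂ) else (⟨a, b⟩ : ℂ)

theorem emb_kap437 (w : InfinitePlace K) (a b : ℝ) :
    InfinitePlace.Completion.extensionEmbedding w (kap437 w a b) = kapC437 w a b := by
  classical
  unfold kap437 kapC437
  by_cases hw : w.IsReal
  · rw [dif_pos hw, if_pos hw, ← InfinitePlace.Completion.extensionEmbeddingOfIsReal_apply hw,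
      ← InfinitePlace.Completion.ringEquivRealOfIsReal_apply, RingEquiv.apply_symm_apply]
  · rw [dif_neg hw, if_neg hw,
      ← InfinitePlace.Completion.ringEquivComplexOfIsComplex_apply
        (InfinitePlace.not_isReal_iff_isComplex.mp hw),
      RingEquiv.apply_symm_apply]

/-- Every element of `K_w` is given by its real coordinates. -/
theorem kap_coord437 (w : InfinitePlace K) (x : w.Completion) :
    kap437 w (InfinitePlace.Completion.extensionEmbedding w x).re
      (InfinitePlace.Completion.extensionEmbedding w x).im = x := by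
  classical
  apply (InfinitePlace.Completion.extensionEmbedding w).injective
  rw [emb_kap437]
  unfold kapC437
  by_cases hw : w.IsReal
  · rw [if_pos hw, ← InfinitePlace.Completion.extensionEmbeddingOfIsReal_apply hw,
      Complex.ofReal_re]
  · rw [if_neg hw]

theorem norm_emb437 (w : InfinitePlace K) (x : w.Completion) :
    ‖InfinitePlace.Completion.extensionEmbedding w x‖ = ‖x‖ :=
  (InfinitePlace.Completion.isometry_extensionEmbedding w).norm_map_of_map_zero (map_zero _) x

theorem norm_kapC_le437 (w : InfinitePlace K) (a b : ℝ) : ‖kapC437 w a b‖ ≤ |a| + |b| := by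
  classical
  unfold kapC437
  by_cases hw : w.IsReal
  · rw [if_pos hw, Complex.norm_real, Real.norm_eq_abs]
    linarith [abs_nonneg b]
  · rw [if_neg hw]
    calc ‖(⟨a, b⟩ : ℂ)‖ ≤ |(⟨a, b⟩ : ℂ).re| + |(⟨a, b⟩ : ℂ).im| := Complex.norm_le_abs_re_add_abs_im _
      _ = |a| + |b| := rfl

/-- Smoothness of the complex number with smooth coordinates. -/
theorem contDiff_kapC437 {E : Type*} [NormedAddCommGroup E] [NormedSpace ℝ E]
    (w : InfinitePlace K) {a b : E → ℝ} (ha : ContDiff ℝ (⊤ : ℕ∞) a)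
    (hb : ContDiff ℝ (⊤ : ℕ∞) b) : ContDiff ℝ (⊤ : ℕ∞) (fun q => kapC437 w (a q) (b q)) := by
  classical
  unfold kapC437
  have h1 : ContDiff ℝ (⊤ : ℕ∞) (fun q => ((a q : ℝ) : ℂ)) :=
    Complex.ofRealCLM.contDiff.comp ha
  have h2 : ContDiff ℝ (⊤ : ℕ∞) (fun q => ((b q : ℝ) : ℂ)) :=
    Complex.ofRealCLM.contDiff.comp hb
  by_cases hw : w.IsReal
  · simp only [if_pos hw]
    exact h1
  · simp only [if_neg hw]
    have e : (fun q => (⟨a q, b q⟩ : ℂ)) = fun q => ((a q : ℝ) : ℂ) + ((b q : ℝ) : ℂ) * Complex.I := by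
      funext q
      exact Complex.mk_eq_add_mul_I _ _
    rw [e]
    exact h1.add (h2.mul contDiff_const)

/-! ## 2. Components as group homomorphisms -/

/-- The component at the infinite place `w`. -/
def cGL437 (w : InfinitePlace K) : G K →* GL (Fin 2) w.Completion :=
  Units.map (RingHom.mapMatrix (evInf724 w)).toMonoidHom

/-- The component at the finite place `v`. -/
def fGL437 (v : HeightOneSpectrum (𝓞 K)) : G K →* GL (Fin 2) (v.adicCompletion K) :=
  Units.map (RingHom.mapMatrix (evFin724 v)).toMonoidHom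

theorem cGL_val437 (w : InfinitePlace K) (g : G K) :
    ((cGL437 w g : GL (Fin 2) w.Completion) : Matrix (Fin 2) (Fin 2) w.Completion)
      = cInf724 w g := rfl

theorem fGL_val437 (v : HeightOneSpectrum (𝓞 K)) (g : G K) :
    ((fGL437 v g : GL (Fin 2) (v.adicCompletion K)) :
      Matrix (Fin 2) (Fin 2) (v.adicCompletion K)) = finComp v g := rfl

theorem gK_ext437 {g h : G K} (h1 : ∀ w, cGL437 w g = cGL437 w h)
    (h2 : ∀ v, fGL437 v g = fGL437 v h) : g = h :=
  g_ext724 (fun w => congrArg Units.val (h1 w)) (fun v => congrArg Units.val (h2 v))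

theorem cGL_eq_of_cInf437 {w : InfinitePlace K} {g h : G K} (e : cInf724 w g = cInf724 w h) :
    cGL437 w g = cGL437 w h := Units.ext e

theorem fGL_eq_one_of437 {v : HeightOneSpectrum (𝓞 K)} {g : G K} (e : finComp v g = 1) :
    fGL437 v g = 1 := Units.ext e

/-- `infComp` is multiplicative. -/
theorem infComp_mul437 (w : InfinitePlace K) (g h : G K) :
    infComp w (g * h) = infComp w g * infComp w h := by
  simp only [infComp_eq_map724, Units.val_mul, Matrix.map_mul]

theorem infComp_one437 (w : InfinitePlace K) : infComp w (1 : G K) = 1 := by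
  simp only [infComp_eq_map724, Units.val_one]
  exact Matrix.map_one _ (map_zero _) (map_one _)

theorem infComp_mul_inv437 (w : InfinitePlace K) (g : G K) :
    infComp w g * infComp w g⁻¹ = 1 := by
  rw [← infComp_mul437, mul_inv_cancel, infComp_one437]

/-! ## 3. The infinite part, the chart, the unipotent family -/

/-- The infinite part of `g`: the same components at the infinite places, `1` at the finite
places. -/
def pInf437 (g : G K) : G K :=
  mkG724 (fun w => cInf724 w g) (fun w => cInf724 w g⁻¹) (fun _ => 1) (fun _ => 1)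
    (fun v i j => val_one_apply_le724 v i j) (fun v i j => val_one_apply_le724 v i j)
    (fun w => cInf_mul_inv724 w g) (fun _ => one_mul 1)

theorem cGL_pInf437 (w : InfinitePlace K) (g : G K) : cGL437 w (pInf437 g) = cGL437 w g :=
  Units.ext rfl

theorem fGL_pInf437 (v : HeightOneSpectrum (𝓞 K)) (g : G K) : fGL437 v (pInf437 g) = 1 :=
  Units.ext rfl

/-- Matrix coordinates at infinity. -/
abbrev MatCoord437 (K : Type) [Field K] [NumberField K] : Type :=
  InfinitePlace K → Fin 2 → Fin 2 → Bool → ℝ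

/-- Adele coordinates at infinity. -/
abbrev AdCoord437 (K : Type) [Field K] [NumberField K] : Type := InfinitePlace K → Bool → ℝ

/-- The chart matrix `1 + ρ(X)` at `w`, over `ℂ`. -/
def chartC437 (X : MatCoord437 K) (w : InfinitePlace K) : Matrix (Fin 2) (Fin 2) ℂ :=
  1 + Matrix.of fun i j => kapC437 w (rho437 (X w i j false)) (rho437 (X w i j true))

/-- The chart matrix `1 + ρ(X)` at `w`, over the completion. -/
def chartMat437 (X : MatCoord437 K) (w : InfinitePlace K) :
    Matrix (Fin 2) (Fin 2) w.Completion :=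
  1 + Matrix.of fun i j => kap437 w (rho437 (X w i j false)) (rho437 (X w i j true))

theorem chartMat_map437 (X : MatCoord437 K) (w : InfinitePlace K) :
    (chartMat437 X w).map (InfinitePlace.Completion.extensionEmbedding w) = chartC437 X w := by
  ext i j
  simp only [chartMat437, chartC437, Matrix.map_apply, Matrix.add_apply, Matrix.of_apply,
    map_add, emb_kap437]
  congr 1
  rw [Matrix.one_apply, Matrix.one_apply]
  split_ifs
  · exact map_one _
  · exact map_zero _

theorem det_chartC_ne_zero437 (X : MatCoord437 K) (w : InfinitePlace K) :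
    (chartC437 X w).det ≠ 0 := by
  apply det_one_add_ne_zero437
  intro i j
  rw [Matrix.of_apply]
  have h1 := abs_rho437_lt (X w i j false)
  have h2 := abs_rho437_lt (X w i j true)
  have := norm_kapC_le437 w (rho437 (X w i j false)) (rho437 (X w i j true))
  linarith

theorem det_chartMat_ne_zero437 (X : MatCoord437 K) (w : InfinitePlace K) :
    (chartMat437 X w).det ≠ 0 := by
  intro h0
  apply det_chartC_ne_zero437 X w
  rw [← chartMat_map437]
  have := RingHom.map_det (InfinitePlace.Completion.extensionEmbedding w) (chartMat437 X w)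
  rw [RingHom.mapMatrix_apply] at this
  rw [← this, h0, map_zero]

/-- The chart `A(X) = 1 + ρ(X)` at the infinite places, `1` at the finite places. -/
def chartG437 (X : MatCoord437 K) : G K :=
  mkG724 (chartMat437 X) (fun w => (chartMat437 X w)⁻¹) (fun _ => 1) (fun _ => 1)
    (fun v i j => val_one_apply_le724 v i j) (fun v i j => val_one_apply_le724 v i j)
    (fun w => Matrix.mul_nonsing_inv _ (isUnit_iff_ne_zero.mpr (det_chartMat_ne_zero437 X w)))
    (fun _ => one_mul 1)

theorem cInf_chartG437 (X : MatCoord437 K) (w : InfinitePlace K) :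
    cInf724 w (chartG437 X) = chartMat437 X w := rfl

theorem fGL_chartG437 (X : MatCoord437 K) (v : HeightOneSpectrum (𝓞 K)) :
    fGL437 v (chartG437 X) = 1 := Units.ext rfl

theorem infComp_chartG437 (X : MatCoord437 K) (w : InfinitePlace K) :
    infComp w (chartG437 X) = chartC437 X w := by
  rw [infComp_eq_cInf724, cInf_chartG437, chartMat_map437]

/-- The adele supported at infinity with the real coordinates `t`. -/
def adInf437 (t : AdCoord437 K) : Adl K :=
  ((fun w => kap437 w (t w false) (t w true)), (0 : FiniteAdeleRing (𝓞 K) K))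

/-- The real coordinates of the infinite part of an adele. -/
def coordInf437 (y : Adl K) : AdCoord437 K := fun w b =>
  if b then (InfinitePlace.Completion.extensionEmbedding w (y.1 w)).im
  else (InfinitePlace.Completion.extensionEmbedding w (y.1 w)).re

theorem adInf_coord437 (y : Adl K) (hy : y.2 = 0) : adInf437 (coordInf437 y) = y := by
  refine Prod.ext (funext fun w => ?_) hy.symm
  simp only [adInf437, coordInf437, Bool.false_eq_true, if_false, if_true]
  exact kap_coord437 w (y.1 w)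

theorem coordInf_sub437 (y τ : Adl K) :
    coordInf437 (y - τ) = fun w b => coordInf437 y w b - coordInf437 τ w b := by
  funext w b
  have h0 : (y - τ).1 w = y.1 w - τ.1 w := rfl
  unfold coordInf437
  rw [h0, map_sub]
  by_cases hb : b = true
  · simp [hb]
  · simp [hb]

theorem coordInf_zero437 : coordInf437 (0 : Adl K) = fun _ _ => 0 := by
  funext w b
  have h0 : (0 : Adl K).1 w = 0 := rfl
  unfold coordInf437
  rw [h0, map_zero]
  by_cases hb : b = true
  · simp [hb]
  · simp [hb]

theorem abs_coordInf_le437 (y : Adl K) (w : InfinitePlace K) (b : Bool) :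
    |coordInf437 y w b| ≤ ‖y.1 w‖ := by
  rw [← norm_emb437 w (y.1 w)]
  unfold coordInf437
  by_cases hb : b = true
  · simp only [hb, if_true]
    exact Complex.abs_im_le_norm _
  · simp only [hb, Bool.false_eq_true, if_false]
    exact Complex.abs_re_le_norm _

/-- The family `Y(X, t, X')`. -/
def fam437 (ω₀ h₀ : G K) (X : MatCoord437 K) (t : AdCoord437 K) (X' : MatCoord437 K) : G K :=
  (pInf437 h₀)⁻¹ * (chartG437 X)⁻¹ * (pInf437 ω₀)⁻¹ * unip386 (adInf437 t) * pInf437 ω₀ *
    chartG437 X * pInf437 h₀ * chartG437 X'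

theorem fGL_unip437 (v : HeightOneSpectrum (𝓞 K)) {y : Adl K} (hy : y.2 = 0) :
    fGL437 v (unip386 y) = 1 := by
  have hy' : evFin724 v y = 0 := by
    rw [evFin724_apply, hy]
    rfl
  apply Units.ext
  rw [fGL_val437, Units.val_one, finComp_eq_map724, unip386_coe]
  ext i j
  fin_cases i <;> fin_cases j <;> simp [Matrix.map_apply, hy']

theorem fGL_fam437 (ω₀ h₀ : G K) (X : MatCoord437 K) (t : AdCoord437 K) (X' : MatCoord437 K)
    (v : HeightOneSpectrum (𝓞 K)) : fGL437 v (fam437 ω₀ h₀ X t X') = 1 := by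
  unfold fam437
  simp only [map_mul, map_inv, fGL_pInf437, fGL_chartG437, fGL_unip437 v (y := adInf437 t) rfl,
    inv_one, mul_one]

theorem trivAtFin_fam437 (ω₀ h₀ : G K) (X : MatCoord437 K) (t : AdCoord437 K)
    (X' : MatCoord437 K) (v : HeightOneSpectrum (𝓞 K)) :
    TrivAtFin v (fam437 ω₀ h₀ X t X') := by
  have := congrArg Units.val (fGL_fam437 ω₀ h₀ X t X' v)
  rwa [fGL_val437, Units.val_one] at this

/-- **The relation.**  For `y` supported at infinity, `ω = ω₀ a c` and `h = h₀ g` with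
`P∞ (ω₀⁻¹ ω) = A(X)`, `P∞ g = A(X')`:
`ω⁻¹ n(y) ω h = h₀ · Y(X, t(y), X') · u`, `u = (P∞ g)⁻¹ g`. -/
theorem fam_rel437 (ω₀ h₀ ω g : G K) (X X' : MatCoord437 K) (y : Adl K) (hy : y.2 = 0)
    (hω : pInf437 (ω₀⁻¹ * ω) = chartG437 X) (hg : pInf437 g = chartG437 X') :
    ω⁻¹ * unip386 y * ω * (h₀ * g)
      = h₀ * fam437 ω₀ h₀ X (coordInf437 y) X' * ((pInf437 g)⁻¹ * g) := by
  refine gK_ext437 (fun w => ?_) (fun v => ?_)
  · have e1 : cGL437 w (chartG437 X) = (cGL437 w ω₀)⁻¹ * cGL437 w ω := by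
      rw [← hω, cGL_pInf437, map_mul, map_inv]
    have e2 : cGL437 w (chartG437 X') = cGL437 w g := by
      rw [← hg, cGL_pInf437]
    unfold fam437
    simp only [map_mul, map_inv, cGL_pInf437, adInf_coord437 y hy, e1, e2]
    group
  · unfold fam437
    simp only [map_mul, map_inv, fGL_pInf437, fGL_chartG437, fGL_unip437 v hy,
      fGL_unip437 v (y := adInf437 (coordInf437 y)) rfl, inv_one, mul_one, one_mul]
    group

/-- `u = (P∞ g)⁻¹ g` is in the level group as soon as `g` satisfies the finite level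
condition. -/
theorem inLevelGroup_finPart437 {𝔫 : Ideal (𝓞 K)} {g : G K} (hg : FinLevel437 𝔫 g) :
    InLevelGroup 𝔫 ((pInf437 g)⁻¹ * g) := by
  have hc : ∀ w, cGL437 w ((pInf437 g)⁻¹ * g) = 1 := by
    intro w
    rw [map_mul, map_inv, cGL_pInf437, inv_mul_cancel]
  have hf : ∀ v, fGL437 v ((pInf437 g)⁻¹ * g) = fGL437 v g := by
    intro v
    rw [map_mul, map_inv, fGL_pInf437, inv_one, one_mul]
  refine ⟨fun w => ?_, fun v i j => ?_⟩
  · rw [trivAtInf_iff_cInf724, ← cGL_val437, hc w, Units.val_one]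
  · have h1 : finComp v ((pInf437 g)⁻¹ * g) = finComp v g := by
      rw [← fGL_val437, hf v, fGL_val437]
    have h2 : finComp v ((pInf437 g)⁻¹ * g)⁻¹ = finComp v g⁻¹ := by
      rw [← fGL_val437, map_inv, hf v, ← map_inv, fGL_val437]
    rw [h1, h2]
    exact hg v i j

end Fermat.Agent.LT.T2.H437

end

end
-- ===== PACK-END LT/T2/H437/USAdelic.lean

-- ===== PACK-BEGIN LT/T2/H8/FDCalc.lean
section



/-!
# Row LT, tower T2, leaf T2.03a.2a `FDCalcC437` (FD calculus on `ℝ^N`) — helper8, OFF-MAIN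

`fdCalcC437_h8 : H437.FDCalcC437`, verbatim against `LT/T2/H437/USSpec.lean`
(helper437@ac9f57294, sha256 76bc96ee).

Proof: for a smooth map `ψ : E → F` between real normed spaces and steps `us = [u₁, …, u_m]`,

    ‖∇_{u_m} ⋯ ∇_{u₁} ψ (x)‖ ≤ ∏ ‖u_i‖ · C,   C a bound of ‖D^m ψ‖ on the ball of radius ∑ ‖u_i‖ at x

(`norm_rdiff_le_h8`, induction on the list: `D^m (∇_u ψ)(z) = D^m ψ(z) - D^m ψ(z - u)`, mean value
inequality on the ball).  `D^M φ` is continuous, hence bounded on the compact ball of radius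
`(M + 1) |r|`.

v2 (15:20Z): the definition `rdiff437` is unfolded by `rfl` only.  (v1 used `simp [rdiff437]`, which
realises the equation lemma `rdiff437.eq_def` in THIS module; its proof term mentions the private
constant `rdiff437.match_1.splitter` of the realising module, so the copy here and the copy realised in
`H437/USTop.lean` had different values, and the grader's kernel checker rejects a closure which
contains both: "collides with an existing constant".)
-/

set_option autoImplicit false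

open scoped ContDiff

noncomputable section

namespace Fermat.Agent.LT.T2.H8

open Fermat.Agent.LT.T2.H437

/-- The product of the norms of steps which are at most `c` is at most `c ^ length`. -/
theorem prod_norm_le_pow_h8 {E : Type*} [NormedAddCommGroup E] (c : ℝ) :
    ∀ us : List E, (∀ u ∈ us, ‖u‖ ≤ c) → (us.map norm).prod ≤ c ^ us.length
  | [], _ => by simp
  | u :: us, h => by
      have h1 : ‖u‖ ≤ c := h u (List.mem_cons_self)
      have h2 := prod_norm_le_pow_h8 c us fun v hv => h v (List.mem_cons_of_mem _ hv)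
      have h0 : 0 ≤ (us.map norm).prod :=
        List.prod_nonneg fun a ha => by
          obtain ⟨v, -, rfl⟩ := List.mem_map.mp ha
          exact norm_nonneg v
      rw [List.map_cons, List.prod_cons, List.length_cons, pow_succ']
      exact mul_le_mul h1 h2 h0 ((norm_nonneg u).trans h1)

/-- The sum of the norms of steps which are at most `c` is at most `length * c`. -/
theorem sum_norm_le_h8 {E : Type*} [NormedAddCommGroup E] (c : ℝ) :
    ∀ us : List E, (∀ u ∈ us, ‖u‖ ≤ c) → (us.map norm).sum ≤ us.length * c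
  | [], _ => by simp
  | u :: us, h => by
      have h1 : ‖u‖ ≤ c := h u (List.mem_cons_self)
      have h2 := sum_norm_le_h8 c us fun v hv => h v (List.mem_cons_of_mem _ hv)
      rw [List.map_cons, List.sum_cons, List.length_cons]
      push_cast
      linarith

/-- **Finite differences and derivatives.**  The iterated backward difference of a smooth map
along `us` is bounded by the product of the norms of the steps times a bound of the derivative of
order `us.length` on the ball of radius `∑ ‖u_i‖`. -/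
theorem norm_rdiff_le_h8 {E F : Type*} [NormedAddCommGroup E] [NormedSpace ℝ E]
    [NormedAddCommGroup F] [NormedSpace ℝ F] :
    ∀ (us : List E) (ψ : E → F), ContDiff ℝ ∞ ψ → ∀ (x : E) (C : ℝ),
      (∀ z : E, ‖z - x‖ ≤ (us.map norm).sum → ‖iteratedFDeriv ℝ us.length ψ z‖ ≤ C) →
      ‖rdiff437 us ψ x‖ ≤ (us.map norm).prod * C
  | [], ψ, _, x, C, h => by
      have h0 := h x (by simp)
      rw [List.length_nil, norm_iteratedFDeriv_zero] at h0
      have h1 : rdiff437 [] ψ x = ψ x := rfl
      rw [h1]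
      simpa using h0
  | u :: us, ψ, hψ, x, C, h => by
      have hψ' : ContDiff ℝ ∞ (fun y => ψ y - ψ (y - u)) :=
        hψ.sub (hψ.comp (contDiff_id.sub contDiff_const))
      have hshift : ContDiff ℝ ∞ (fun y => ψ (y - u)) :=
        hψ.comp (contDiff_id.sub contDiff_const)
      have hdiff : Differentiable ℝ (iteratedFDeriv ℝ us.length ψ) :=
        hψ.differentiable_iteratedFDeriv (by exact_mod_cast WithTop.coe_lt_top _)
      have hbound : ∀ z : E, ‖z - x‖ ≤ (us.map norm).sum →
          ‖iteratedFDeriv ℝ us.length (fun y => ψ y - ψ (y - u)) z‖ ≤ ‖u‖ * C := by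
        intro z hz
        have he : iteratedFDeriv ℝ us.length (fun y => ψ y - ψ (y - u)) z
            = iteratedFDeriv ℝ us.length ψ z - iteratedFDeriv ℝ us.length ψ (z - u) := by
          have h1 := iteratedFDeriv_sub_apply (𝕜 := ℝ) (i := us.length) (x := z)
            ((hψ.of_le (by exact_mod_cast le_top)).contDiffAt)
            ((hshift.of_le (by exact_mod_cast le_top)).contDiffAt)
          have h2 : (ψ - fun y => ψ (y - u)) = fun y => ψ y - ψ (y - u) := rfl
          rw [h2] at h1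
          rw [h1, iteratedFDeriv_comp_sub]
        rw [he]
        -- mean value inequality on the ball
        set R : ℝ := ‖u‖ + (us.map norm).sum with hR
        have hconv : Convex ℝ (Metric.closedBall x R) := convex_closedBall x R
        have hz1 : z ∈ Metric.closedBall x R := by
          rw [Metric.mem_closedBall, dist_eq_norm]
          linarith [norm_nonneg u]
        have hz2 : z - u ∈ Metric.closedBall x R := by
          rw [Metric.mem_closedBall, dist_eq_norm]
          have : z - u - x = (z - x) - u := by abel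
          rw [this]
          calc ‖(z - x) - u‖ ≤ ‖z - x‖ + ‖u‖ := norm_sub_le _ _
            _ ≤ R := by rw [hR]; linarith
        have hb : ∀ w ∈ Metric.closedBall x R,
            ‖fderiv ℝ (iteratedFDeriv ℝ us.length ψ) w‖ ≤ C := by
          intro w hw
          rw [norm_fderiv_iteratedFDeriv]
          rw [Metric.mem_closedBall, dist_eq_norm] at hw
          have := h w (by rw [List.map_cons, List.sum_cons]; exact hw)
          rwa [List.length_cons] at this
        have hmv := hconv.norm_image_sub_le_of_norm_fderiv_le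
          (fun w _ => hdiff.differentiableAt) hb hz2 hz1
        have hzu : z - (z - u) = u := by abel
        rw [hzu] at hmv
        rw [mul_comm]
        exact hmv
      have hrec := norm_rdiff_le_h8 us (fun y => ψ y - ψ (y - u)) hψ' x (‖u‖ * C) hbound
      have hunf : rdiff437 (u :: us) ψ = rdiff437 us (fun y => ψ y - ψ (y - u)) := rfl
      rw [hunf, List.map_cons, List.prod_cons]
      calc ‖rdiff437 us (fun y => ψ y - ψ (y - u)) x‖
          ≤ (us.map norm).prod * (‖u‖ * C) := hrec
        _ = ‖u‖ * (us.map norm).prod * C := by ring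

/-- **T2.03a.2a FD CALCULUS.** -/
theorem fdCalcC437_h8 : H437.FDCalcC437 := by
  intro N φ hφ M r
  have hφ' : ContDiff ℝ ∞ φ := hφ
  -- a bound of `D^M φ` on the ball of radius `(M + 1) |r|`
  have hcont : Continuous fun z => iteratedFDeriv ℝ M φ z :=
    hφ'.continuous_iteratedFDeriv (by exact_mod_cast le_top)
  obtain ⟨C, hC⟩ := (isCompact_closedBall (0 : Fin N → ℝ) ((M + 1) * |r|)).exists_bound_of_continuousOn
    hcont.continuousOn
  have hC0 : 0 ≤ C := (norm_nonneg _).trans (hC 0 (by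
    rw [Metric.mem_closedBall, dist_self]; positivity))
  refine ⟨|r| ^ M * C, by positivity, ?_⟩
  intro x hx ε hε0 hε1 ts hlen hts
  have hr0 : 0 ≤ r := (norm_nonneg x).trans hx
  have hrabs : |r| = r := abs_of_nonneg hr0
  have htsr : ∀ t ∈ ts, ‖t‖ ≤ r := fun t ht =>
    (hts t ht).trans (mul_le_of_le_one_left hr0 hε1)
  have hsum : (ts.map norm).sum ≤ M * r := by
    have := sum_norm_le_h8 r ts htsr
    rwa [hlen] at this
  have hprod : (ts.map norm).prod ≤ (ε * r) ^ M := by
    have := prod_norm_le_pow_h8 (ε * r) ts hts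
    rwa [hlen] at this
  have hmain := norm_rdiff_le_h8 ts φ hφ' x C (by
    intro z hz
    rw [hlen]
    refine hC z ?_
    rw [Metric.mem_closedBall, dist_zero_right, hrabs]
    calc ‖z‖ = ‖(z - x) + x‖ := by rw [sub_add_cancel]
      _ ≤ ‖z - x‖ + ‖x‖ := norm_add_le _ _
      _ ≤ M * r + r := by linarith
      _ = (M + 1) * r := by ring)
  calc ‖rdiff437 ts φ x‖ ≤ (ts.map norm).prod * C := hmain
    _ ≤ (ε * r) ^ M * C := mul_le_mul_of_nonneg_right hprod hC0
    _ = |r| ^ M * C * ε ^ M := by rw [hrabs, mul_pow]; ring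

end Fermat.Agent.LT.T2.H8

end

end
-- ===== PACK-END LT/T2/H8/FDCalc.lean

-- ===== PACK-BEGIN LT/T2/H386/SoftCoreB.lean
section








/-!
# Row LT, T2.03b in the CORE form (helper386): the constant term

OFF-MAIN.  The statements of `Soft1B.lean` with the hypotheses actually used: continuity,
boundedness and left `GL₂(K)`-invariance of `ψ` (no level, no `K_∞`-type).
-/

set_option autoImplicit false

open IsDedekindDomain NumberField MeasureTheory
open scoped Pointwise
open Fermat.Agent.LT.H556.A0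

noncomputable section

namespace Fermat.Agent.LT.T2.H386

open Fermat.Agent.LT.T2

attribute [local instance] Fermat.Agent.LT.T2.borelG

variable {K : Type} [Field K] [NumberField K]

attribute [local instance] borelAdl386 borelSpaceAdl386 borelSpaceG386

/-- `Ψ` is left invariant under the upper triangular rational matrices (core form: only the
left invariance of `ψ` under `GL₂(K)` is used). -/
theorem constTerm_ratGCore386 {ψ Ψ : G K → ℂ}
    (hinv : ∀ (γ : GL (Fin 2) K) (g : G K),
      ψ (Matrix.GeneralLinearGroup.map (algebraMap K (Adl K)) γ * g) = ψ g)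
    (h : IsConstTerm ψ Ψ) (ν : Measure (Adl K))
    (hν : ν.IsAddHaarMeasure) (D : Set (Adl K))
    (hD : IsAddFundamentalDomain (T1.princ K) D ν) (hD0 : ν D ≠ 0) (hDtop : ν D ≠ ⊤)
    (β : GL (Fin 2) K) (hβ : T1.IsUpperRat K β) (g : G K) :
    Ψ (T1.ratG K β * g) = Ψ g := by
  have := hν
  obtain ⟨κ, hκ0, hκ⟩ := exists_ratio386 β hβ
  set e := scaleHomeo386 κ hκ0 with he
  have hν' : (Measure.map e ν).IsAddHaarMeasure :=
    AddEquiv.isAddHaarMeasure_map ν (scaleAddEquiv386 κ hκ0) e.continuous e.symm.continuous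
  have hD' := isAddFundamentalDomain_scale386 ν D hD κ hκ0
  have h1 := constTerm_eq386 h (Measure.map e ν) hν' (e '' D) hD' g
  have h2 := constTerm_eq386 h ν hν D hD (T1.ratG K β * g)
  have h3 : ∫ x in e '' D, ψ (unip386 x * g) ∂(Measure.map e ν)
      = ∫ v in D, ψ (unip386 v * (T1.ratG K β * g)) ∂ν := by
    have hmap : Measure.map e ν = Measure.map e.toMeasurableEquiv ν := rfl
    rw [hmap, setIntegral_map_equiv]
    have hpre : e.toMeasurableEquiv ⁻¹' (e '' D) = D := Set.preimage_image_eq _ e.injective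
    rw [hpre]
    refine setIntegral_congr_fun₀ hD.nullMeasurableSet ?_
    intro v _
    show ψ (unip386 (algebraMap K (Adl K) κ * v) * g) = ψ (unip386 v * (T1.ratG K β * g))
    rw [← mul_assoc (unip386 v), unip386_mul_ratG β hβ κ hκ v, mul_assoc]
    exact (hinv β _).symm
  have h4 : (Measure.map e ν) (e '' D) = ν D := by
    have hmap : Measure.map e ν = Measure.map e.toMeasurableEquiv ν := rfl
    rw [hmap, MeasurableEquiv.map_apply]
    congr 1
    exact Set.preimage_image_eq _ e.injective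
  rw [h3, h2, h4] at h1
  have hne : (((ν D).toReal : ℝ) : ℂ) ≠ 0 := by
    have : (ν D).toReal ≠ 0 := ENNReal.toReal_ne_zero.mpr ⟨hD0, hDtop⟩
    exact_mod_cast this
  exact mul_left_cancel₀ hne h1

end Fermat.Agent.LT.T2.H386

end

end
-- ===== PACK-END LT/T2/H386/SoftCoreB.lean

-- ===== PACK-BEGIN LT/T7/H37/ThinAdapt.lean
section



/-!
# Row LT, node T7.13 `ThinC` (sub-architect helper37): ADAPTERS to the shape of helper468

OFF-MAIN.  RULING: the adelic leaf of the node is `H468.HoroCF468`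
(`LT/T7/H468/HoroFSpec.lean`, helper468@d0fa78fb9, sha256 12a41d06, byte-identical copy here).

* `horoDataF_of_468 : HoroDataF468 K w M A B U C → HoroDataF K w.embedding M A B U C`   (PROVED)
* `horoFC_of_468 : HoroCF468 → HoroFC`                                                  (PROVED)
  so the leaves `NonconstFC`, `HoroCoeffFC`, `MSFC` of `ThinSpec.lean` (hypothesis `HoroDataF` /
  `SqCoeffData`) apply to the families of `HoroCF468`.
* `SqMass468C` : the CLASSICAL HALF in ONE Prop on the bytes of `HoroDataF468` (target of the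
  package of helper47): non-constancy + Fourier coefficients + `star` + universality + block
  bound, in the SQUAREFREE form (no Hecke sequence is needed).
* `sqMass468C_of : NormEmbC → NonconstFC → HoroCoeffFC → MSFC → SqMass468C`             (PROVED)
* `massTop468 : ClassOneC → HoroCF468 → SqMass468C → DirichletC → MassC`                (PROVED)
-/

set_option autoImplicit false

open AutomorphicForm IsDedekindDomain NumberField
open scoped MatrixGroups

noncomputable section

namespace Fermat.Agent.LT.T7.H37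

open Fermat.Agent.LT.H556 Fermat.Agent.LT.T7 Fermat.Agent.LT.T7.H468

variable {K : Type} [Field K] [NumberField K]

theorem unitClsF_eq_468 (M : ℕ) (x : 𝓞 K) : unitClsF K M x = clsF468 M x := by
  classical
  unfold unitClsF clsF468
  by_cases h : IsUnit (Ideal.Quotient.mk (Ideal.span {((M : ℕ) : 𝓞 K)}) x)
  · rw [dif_pos h]
  · rw [dif_neg h]

/-- A complete system of residues modulo `ϖ` has `N (ϖ)` elements. -/
theorem IsResSys.card_eq37 {ϖ : 𝓞 K} {R : Finset (𝓞 K)} (h : IsResSys K ϖ R) :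
    R.card = Ideal.absNorm (Ideal.span {ϖ}) := by
  classical
  rw [Ideal.absNorm_apply, Submodule.cardQuot_apply]
  have hbij : Function.Bijective
      (fun j : R => (Ideal.Quotient.mk (Ideal.span {ϖ}) (j : 𝓞 K))) := by
    constructor
    · intro j j' hjj
      have : (j : 𝓞 K) - j' ∈ Ideal.span {ϖ} := (Ideal.Quotient.eq).mp hjj
      exact Subtype.ext (h.2 j j.2 j' j'.2 (Ideal.mem_span_singleton.mp this))
    · intro q
      obtain ⟨x, rfl⟩ := Ideal.Quotient.mk_surjective q
      obtain ⟨j, hj, hd⟩ := h.1 x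
      refine ⟨⟨j, hj⟩, ?_⟩
      symm
      exact (Ideal.Quotient.eq).mpr (Ideal.mem_span_singleton.mpr hd)
  have := Nat.card_eq_of_bijective _ hbij
  rw [← this, Nat.card_eq_fintype_card, Fintype.card_coe]

/-- The horocycle data of helper468 are horocycle data in the sense of `ThinSpec.lean`. -/
theorem horoDataF_of_468 {w : InfinitePlace K} {M : ℕ} {A B : HeightOneSpectrum (𝓞 K) → ℂ}
    {U : (𝓞 K ⧸ Ideal.span {((M : ℕ) : 𝓞 K)})ˣ → ℂ → ℝ → ℂ} {C : ℝ}
    (D : HoroDataF468 K w M A B U C) : HoroDataF K w.embedding M A B U C where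
  M_pos := D.M_pos
  cont_z := by
    intro κ y hy
    have h := D.cont κ
    have hc : Continuous fun z : ℂ => ((z, y) : ℂ × ℝ) := by fun_prop
    have := h.comp_continuous hc (fun z => hy)
    exact this
  cont_y := by
    intro κ z
    have h := D.cont κ
    have hc : ContinuousOn (fun y : ℝ => ((z, y) : ℂ × ℝ)) (Set.Ioi 0) := by fun_prop
    exact h.comp hc (fun y hy => hy)
  bdd := D.bdd
  periodic := D.periodic
  hecke := by
    intro v ϖ hv hM R hR κ z y hy
    have hcard : R.card = Ideal.absNorm v.asIdeal := by rw [hv]; exact hR.card_eq37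
    have hpair : ∀ r ∈ R, ∀ r' ∈ R, r ≠ r' → r - r' ∉ v.asIdeal := by
      intro r hr r' hr' hne hmem
      rw [hv] at hmem
      exact hne (hR.2 r hr r' hr' (Ideal.mem_span_singleton.mp hmem))
    have := D.hecke v ϖ hv hM R hcard hpair κ z y hy
    rw [unitClsF_eq_468]
    exact this

/-- **ADAPTER (PROVED)**: the adelic leaf of helper468 gives the leaf `HoroFC`. -/
theorem horoFC_of_468 (h : HoroCF468) : HoroFC := by
  intro K _ _ hquad _ π φ hφ g₀
  obtain ⟨hcard, hcplx⟩ := hquad
  obtain ⟨w, hw⟩ := (Nat.card_eq_one_iff_exists).mp hcard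
  obtain ⟨M, U, C, -, hD, x₀, y₀, hy₀, hU⟩ :=
    h K w (hcplx w) hw π φ hφ g₀ 1 one_ne_zero
  exact ⟨w.embedding, M, U, C, horoDataF_of_468 hD, x₀, y₀, hy₀, hU⟩

/-- **LEAF T7.13m SQMASS468 (the classical half in ONE Prop, on the bytes of helper468).**
`K = ℚ(√-3)` (one infinite place, complex; `√-3 ∈ K`; class number one); a horocycle family
`HoroDataF468` with `|A v| ≤ 2`, `|B v| ≤ 1` almost everywhere and a non-zero value: the
squarefree mean square bound `∑_{T' ⊆ T, N T' ≤ X} ∏_{v ∈ T'} |A v|² ≤ C' X` for every finite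
set `T` of places disjoint from a fixed finite set `S` and every `X ≥ 1`.
(= `NonconstFC` + `HoroCoeffFC` + `MSFC` + `NormEmbC` of `ThinSpec.lean`.  No Hecke sequence:
with generators `ϖ_v`, `c (k ∏_{v ∈ T'} ϖ_v) y = ∏ (χ(ϖ_v)⁻¹ A_v N v^{-1/2}) · c k (y √(N T'))`
needs the Hecke relation at `ϖ ∤ ν` only; `S` = the places dividing `M k`, `c k ≢ 0`.) -/
def SqMass468C : Prop :=
  ∀ (K : Type) [Field K] [NumberField K] (w : InfinitePlace K), w.IsComplex →
    (∀ w' : InfinitePlace K, w' = w) → HasSqrtNegThree K → IsPrincipalIdealRing (𝓞 K) →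
    ∀ (M : ℕ) (A B : HeightOneSpectrum (𝓞 K) → ℂ)
      (U : (𝓞 K ⧸ idM468 K M)ˣ → ℂ → ℝ → ℂ) (C : ℝ), HoroDataF468 K w M A B U C →
      (∃ S : Finset (HeightOneSpectrum (𝓞 K)), ∀ v : HeightOneSpectrum (𝓞 K), v ∉ S →
        ‖A v‖ ≤ 2 ∧ ‖B v‖ ≤ 1) →
      (∃ (κ : (𝓞 K ⧸ idM468 K M)ˣ) (x : ℂ) (y : ℝ), 0 < y ∧ U κ x y ≠ 0) →
      ∃ (S : Finset (HeightOneSpectrum (𝓞 K))) (C' : ℝ),
        ∀ T : Finset (HeightOneSpectrum (𝓞 K)), Disjoint T S → ∀ X : ℝ, 1 ≤ X →
          ∑ T' ∈ T.powerset.filter (fun T' => ∏ v ∈ T', nrm v ≤ X), ∏ v ∈ T', ‖A v‖ ^ 2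
            ≤ C' * X

/-- **ADAPTER (PROVED)**: the classical half `SqMass468C` from the leaves `NormEmbC`,
`NonconstFC`, `HoroCoeffFC`, `MSFC` of `ThinSpec.lean` (registry rows 1272, 1274, 1275, 1276). -/
theorem sqMass468C_of (hNE : NormEmbC) (hNC : NonconstFC) (hCo : HoroCoeffFC) (hMS : MSFC) :
    SqMass468C := by
  intro K _ _ w hw huniq hsq hpid M A B U C hD hsmall hne
  have hquad : IsImagQuad K := by
    refine ⟨(Nat.card_eq_one_iff_exists).mpr ⟨w, huniq⟩, fun w' => ?_⟩
    rw [huniq w']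
    exact hw
  have hD' := horoDataF_of_468 hD
  have hnc := hNC K hpid w.embedding M A B U C hD' hsmall hne
  obtain ⟨χ, c, M₁, hCD, hk⟩ := hCo K hquad hsq hpid w.embedding M A B U C hD' hnc
  exact hMS K hpid w.embedding M A χ c M₁ hD.M_pos (hNE K hquad w.embedding) hCD hk

/-- **THE TOP OF NODE T7.13d, second form (PROVED)**: the mass bound over `K = ℚ(√-3)` from the
adelic leaf of helper468, the classical half `SqMass468C`, `ClassOneC` and `DirichletC`. -/
theorem massTop468 (hCl : ClassOneC) (hH : HoroCF468) (hSq : SqMass468C) (hDir : DirichletC) :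
    MassC := by
  intro K _ _ hquad hsq π hcusp hsmall
  have hpid : IsPrincipalIdealRing (𝓞 K) := hCl K hquad hsq
  obtain ⟨hcard, hcplx⟩ := hquad
  obtain ⟨w, hw⟩ := (Nat.card_eq_one_iff_exists).mp hcard
  obtain ⟨φ, hφ⟩ := hcusp
  obtain ⟨g₀, hg₀⟩ := hφ.ne_zero
  obtain ⟨M, U, C, -, hD, x₀, y₀, hy₀, hlink⟩ := hH K w (hcplx w) hw π φ hφ g₀ 1 one_ne_zero
  obtain ⟨S₀, hS₀⟩ := hsmall
  have hsmall' : ∃ S : Finset (HeightOneSpectrum (𝓞 K)), ∀ v : HeightOneSpectrum (𝓞 K),
      v ∉ S → ‖π.a v‖ ≤ 2 ∧ ‖π.b v‖ ≤ 1 :=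
    ⟨S₀, fun v hv => ⟨(hS₀ v hv).1, by rw [(hS₀ v hv).2, norm_one]⟩⟩
  have hne : ∃ (κ : (𝓞 K ⧸ idM468 K M)ˣ) (x : ℂ) (y : ℝ), 0 < y ∧ U κ x y ≠ 0 :=
    ⟨1, x₀, y₀, hy₀, by rw [hlink]; exact hg₀⟩
  obtain ⟨S, C₁, hms⟩ := hSq K w (hcplx w) hw hsq hpid M π.a π.b U C hD hsmall' hne
  classical
  obtain ⟨C', hC'⟩ := hDir (HeightOneSpectrum (𝓞 K)) nrm (fun v => ‖π.a v‖ ^ 2) (S ∪ S₀) C₁
    two_le_nrm37
    (fun v hv => by
      have hv₀ : v ∉ S₀ := fun h => hv (Finset.mem_union_right _ h)
      have h2 := (hS₀ v hv₀).1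
      have h0 := norm_nonneg (π.a v)
      constructor
      · positivity
      · nlinarith)
    (fun T hT X hX => hms T (Finset.disjoint_of_subset_right Finset.subset_union_left hT) X hX)
  exact ⟨S ∪ S₀, C', fun s hs1 hs2 T hT => hC' s hs1 hs2 T hT⟩

/-- `ThinC` through the second form of the mass bound. -/
theorem thinTop468 (hFQ : DictFQC) (hR : SqrtC) (hDeg : DegenC) (hNorm : NormSplitC)
    (hCheb : ChebFC) (hCl : ClassOneC) (hH : HoroCF468) (hSq : SqMass468C)
    (hDir : DirichletC) : ThinC :=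
  thinTop hFQ hR hDeg hNorm hCheb (massTop468 hCl hH hSq hDir)

end Fermat.Agent.LT.T7.H37

end

end
-- ===== PACK-END LT/T7/H37/ThinAdapt.lean

-- ===== PACK-BEGIN LT/T7/H8/NormSplit.lean
section




/-!
# Row LT, tower T7, leaf T7.13b `NormSplitC` (helper8) -- OFF-MAIN

`normSplitC_h8 : Fermat.Agent.LT.T7.H37.NormSplitC`, VERBATIM the Prop of
`LT/T7/H37/ThinSpec.lean` (helper37@8584ef06e, sha256 4c697dce).

Proof: by the dictionary of helper922 (`LT/T7/H922/DictFQ.lean`, sha256 80550eb1, leaf T7.06):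
`fieldF ρ = ℚ(ζ₃)`, for `p ≠ 3` every place `w ∣ p` has norm `p ^ orderOf (p : ZMod 3)`
(`absNorm_eq922`) and `orderOf (p : ZMod 3) = ordSL (ρ Frob_p)` (`ordSL_frob922`), which is `1`
when `det ρ(Frob_p) = 1`.  Exceptional set: `{3}`.
-/

set_option autoImplicit false
set_option linter.style.haveILetI false

open AutomorphicForm FLT.ExplicitLift EisensteinWeightOne
open IsDedekindDomain NumberField
open scoped MatrixGroups

noncomputable section

namespace Fermat.Agent.LT.T7.H8

open Fermat.Agent.LT.H130 Fermat.Agent.LT.H556 Fermat.Agent.LT.T7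
open Fermat.Agent.LT.T7.H922

local notation "Γℚ" => (AlgebraicClosure ℚ ≃ₐ[ℚ] AlgebraicClosure ℚ)

/-- **LEAF T7.13b `NormSplitC`.** -/
theorem normSplitC_h8 : Fermat.Agent.LT.T7.H37.NormSplitC := by
  intro ρ Ψ hyp nfF
  haveI := nfF
  haveI hcyc := isCyclotomicExtension_fieldF922 hyp
  refine ⟨{3}, ?_⟩
  intro p hp hpS V hV σ hσ hdet w hw
  have hp3 : p ≠ 3 := by simpa using hpS
  have hN := absNorm_eq922 (fieldF ρ) hp hp3 w hw
  rw [← ordSL_frob922 hyp hp hp3 hV hσ] at hN
  have h1 : ordSL (ρ σ) = 1 := by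
    unfold ordSL
    rw [if_pos hdet]
  rw [hN, h1, pow_one]

end Fermat.Agent.LT.T7.H8

end

end
-- ===== PACK-END LT/T7/H8/NormSplit.lean

-- ===== PACK-BEGIN LT/T7/H682/Degen.lean
section




/-!
# Row LT, tower T7, leaf T7.13a `DegenC` (helper682), OFF-MAIN

    degenC682 : Fermat.Agent.LT.T7.H37.DegenC          (VERBATIM, unconditional)

Registry row 1269, spec `LT/T7/H37/ThinSpec.lean` of helper37 (sha256 4c697dce), byte-identical
copy; `Fermat.Agent.S54.exists_frobenius` (main) for the existence of Frobenius elements.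

The proof is the group theory of `GL₂(𝔽₃)` and of the lift `Ψ`, by Cayley--Hamilton in size two:
* `det g ≠ 1`: `g² = 1` or `g⁴ = -1`, so `g² ∈ Q8`, and `MidData` is `a_v = tr Ψ (g²)`;
* `det g = 1`: `g² = -1` or `g³ = ± 1`; for `g ∈ Q8`, `MidData` is `a_v = tr Ψ g`;
  for `g³ = ε = ± 1`, `g ≠ ε`: `g, g² ∉ Q8`, `tr Ψ g = -ε`, `MidData` is `a³ - 3 a = 2 ε`,
  so `a = -ε` (the true value) or `a = 2 ε`;
* the true values are `± 2`, `0`, `± 1`, so `|a_v| ≤ 2` in all cases;
* every finite place lies over a prime number, every prime number has a Frobenius element, and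
  finitely many places lie over a finite set of primes.
-/

set_option autoImplicit false

open AutomorphicForm FLT.ExplicitLift
open IsDedekindDomain NumberField
open scoped MatrixGroups

noncomputable section

namespace Fermat.Agent.LT.T7.H682

open Fermat.Agent.LT.H130 Fermat.Agent.LT.T7

local notation "Γℚ" => (AlgebraicClosure ℚ ≃ₐ[ℚ] AlgebraicClosure ℚ)

/-! ## 0. Cayley--Hamilton in size two -/

theorem ch2_682 {R : Type*} [CommRing R] (M : Matrix (Fin 2) (Fin 2) R) :
    M * M = M.trace • M - M.det • (1 : Matrix (Fin 2) (Fin 2) R) := by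
  ext i j
  fin_cases i <;> fin_cases j <;>
    simp [Matrix.mul_apply, Fin.sum_univ_two, Matrix.det_fin_two, Matrix.trace_fin_two] <;> ring

/-! ## 1. `GL₂(𝔽₃)` -/

theorem zmod3_cases682 : ∀ s : ZMod 3, s = 0 ∨ s = 1 ∨ s = -1 := by decide

theorem zmod3_unit682 : ∀ x : ZMod 3, x ≠ 0 → x ≠ 1 → x = -1 := by decide

theorem zmod3_three682 : ∀ x : ZMod 3, x + x + x = 0 := by decide

theorem mat3_three682 (X : Matrix (Fin 2) (Fin 2) (ZMod 3)) : X + X + X = 0 := by
  ext i j
  simp only [Matrix.add_apply, Matrix.zero_apply]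
  exact zmod3_three682 _

theorem coe_det682 (g : GL (Fin 2) (ZMod 3)) :
    ((Matrix.GeneralLinearGroup.det g : (ZMod 3)ˣ) : ZMod 3)
      = (g : Matrix (Fin 2) (Fin 2) (ZMod 3)).det := rfl

/-- `SL₂(𝔽₃)`: `g² = -1` or `g³ = -1` or `g³ = 1`. -/
theorem sl_cases682 (g : GL (Fin 2) (ZMod 3)) (hdet : Matrix.GeneralLinearGroup.det g = 1) :
    g * g = -1 ∨ g * g * g = -1 ∨ g * g * g = 1 := by
  set A : Matrix (Fin 2) (Fin 2) (ZMod 3) := (g : Matrix (Fin 2) (Fin 2) (ZMod 3)) with hA
  have hd : A.det = 1 := by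
    rw [hA, ← coe_det682, hdet]
    rfl
  have hch := ch2_682 A
  rw [hd, one_smul] at hch
  rcases zmod3_cases682 A.trace with hs | hs | hs
  · left
    apply Units.ext
    show A * A = -1
    rw [hch, hs, zero_smul, zero_sub]
  · right; left
    apply Units.ext
    show A * A * A = -1
    rw [hs, one_smul] at hch
    calc A * A * A = (A - 1) * A := by rw [hch]
      _ = A * A - A := by noncomm_ring
      _ = (A - 1) - A := by rw [hch]
      _ = -1 := by abel
  · right; right
    apply Units.ext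
    show A * A * A = 1
    rw [hs, neg_smul, one_smul] at hch
    calc A * A * A = (-A - 1) * A := by rw [hch]
      _ = -(A * A) - A := by noncomm_ring
      _ = -(-A - 1) - A := by rw [hch]
      _ = 1 := by abel

/-- `GL₂(𝔽₃) ∖ SL₂(𝔽₃)`: `g² = 1` or `g⁴ = -1`. -/
theorem gl_cases682 (g : GL (Fin 2) (ZMod 3)) (hdet : Matrix.GeneralLinearGroup.det g ≠ 1) :
    g * g = 1 ∨ (g * g) * (g * g) = -1 := by
  set A : Matrix (Fin 2) (Fin 2) (ZMod 3) := (g : Matrix (Fin 2) (Fin 2) (ZMod 3)) with hA
  have hd : A.det = -1 := by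
    rw [hA, ← coe_det682]
    refine zmod3_unit682 _ (Units.ne_zero _) ?_
    intro h1
    exact hdet (Units.ext h1)
  have hch := ch2_682 A
  rw [hd, neg_smul, one_smul, sub_neg_eq_add] at hch
  rcases zmod3_cases682 A.trace with hs | hs | hs
  · left
    apply Units.ext
    show A * A = 1
    rw [hch, hs, zero_smul, zero_add]
  · right
    apply Units.ext
    show (A * A) * (A * A) = -1
    rw [hs, one_smul] at hch
    have h3 := mat3_three682 (A + 1)
    calc (A * A) * (A * A) = (A + 1) * (A + 1) := by rw [hch]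
      _ = A * A + A + A + 1 := by noncomm_ring
      _ = (A + 1) + A + A + 1 := by rw [hch]
      _ = ((A + 1) + (A + 1) + (A + 1)) - 1 := by abel
      _ = -1 := by rw [h3, zero_sub]
  · right
    apply Units.ext
    show (A * A) * (A * A) = -1
    rw [hs, neg_smul, one_smul] at hch
    have h3 := mat3_three682 (-A + 1)
    calc (A * A) * (A * A) = (-A + 1) * (-A + 1) := by rw [hch]
      _ = A * A - A - A + 1 := by noncomm_ring
      _ = (-A + 1) - A - A + 1 := by rw [hch]
      _ = ((-A + 1) + (-A + 1) + (-A + 1)) - 1 := by abel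
      _ = -1 := by rw [h3, zero_sub]

theorem neg_one_mul_neg_one682 : (-1 : GL (Fin 2) (ZMod 3)) * (-1) = 1 := by simp

theorem one_ne_neg_one682 : (1 : GL (Fin 2) (ZMod 3)) ≠ -1 := by
  intro h
  have h1 := congrArg (fun x : GL (Fin 2) (ZMod 3) =>
    (x : Matrix (Fin 2) (Fin 2) (ZMod 3)) 0 0) h
  simp at h1
  revert h1
  decide

theorem det_neg_one682 : Matrix.GeneralLinearGroup.det (-1 : GL (Fin 2) (ZMod 3)) = 1 := by
  apply Units.ext
  rw [coe_det682]
  simp [Matrix.det_fin_two]

/-! ## 2. `Q8` and the two orders -/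

theorem ordSL_of_det682 {g : GL (Fin 2) (ZMod 3)} (h : Matrix.GeneralLinearGroup.det g = 1) :
    ordSL g = 1 := by
  unfold ordSL
  exact if_pos h

theorem ordSL_of_not_det682 {g : GL (Fin 2) (ZMod 3)}
    (h : Matrix.GeneralLinearGroup.det g ≠ 1) : ordSL g = 2 := by
  unfold ordSL
  exact if_neg h

theorem ordQ8_of_inQ8_682 {g : GL (Fin 2) (ZMod 3)} (h : InQ8 g) : ordQ8 g = 1 := by
  unfold ordQ8
  exact if_pos h

theorem ordQ8_three682 {g : GL (Fin 2) (ZMod 3)} (h : ¬ InQ8 g) (h2 : ¬ InQ8 (g ^ 2)) :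
    ordQ8 g = 3 := by
  unfold ordQ8
  rw [if_neg h, if_neg h2]

/-- An element of `SL₂(𝔽₃)` with `g³ = ε` (`ε = ± 1`) other than `ε` is not in `Q8`, nor is its
square. -/
theorem not_inQ8_of_cube682 {g ε : GL (Fin 2) (ZMod 3)} (hε : ε * ε = 1)
    (h3 : g * g * g = ε) (hne : g ≠ ε) : ¬ InQ8 g ∧ ¬ InQ8 (g ^ 2) := by
  constructor
  · rintro ⟨-, h4⟩
    apply hne
    have e : g ^ 4 = g * (g * g * g) := by
      simp only [pow_succ, pow_zero, one_mul, mul_assoc]
    rw [e, h3] at h4
    calc g = g * (ε * ε) := by rw [hε, mul_one]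
      _ = (g * ε) * ε := by group
      _ = ε := by rw [h4, one_mul]
  · rintro ⟨-, h8⟩
    apply hne
    have e : (g ^ 2) ^ 4 = (g * g * g) * (g * g * g) * (g * g) := by
      simp only [pow_succ, pow_zero, one_mul, mul_assoc]
    rw [e, h3, hε, one_mul] at h8
    have e' : g * g * g = g := by rw [h8, one_mul]
    rw [← e', h3]

/-! ## 3. Arithmetic of `ℤ[√-2]` -/

theorem zsqrtd_mul_eq_zero682 {x y : ℤ√(-2)} (h : x * y = 0) (hx : x ≠ 0) : y = 0 := by
  have hn : (x * y).norm = 0 := by rw [h]; simp [Zsqrtd.norm]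
  rw [Zsqrtd.norm_mul] at hn
  rcases mul_eq_zero.mp hn with h1 | h1
  · exact absurd ((Zsqrtd.norm_eq_zero_iff (by norm_num) x).mp h1) hx
  · exact (Zsqrtd.norm_eq_zero_iff (by norm_num) y).mp h1

theorem zsqrtd_sq_ne_neg_one682 (x : ℤ√(-2)) : x * x ≠ -1 := by
  intro h
  have h1 := congrArg Zsqrtd.re h
  have h2 := congrArg Zsqrtd.im h
  simp only [Zsqrtd.re_mul, Zsqrtd.im_mul, Zsqrtd.re_neg, Zsqrtd.im_neg, Zsqrtd.re_one,
    Zsqrtd.im_one] at h1 h2
  have h3 : x.re * x.im = 0 := by linarith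
  rcases mul_eq_zero.mp h3 with h0 | h0
  · rw [h0] at h1
    have : 2 * (x.im * x.im) = 1 := by linarith
    omega
  · rw [h0] at h1
    nlinarith [mul_self_nonneg x.re]

/-- An element of `ℤ[√-2]` of norm one is `± 1`. -/
theorem zsqrtd_norm_one682 (x : ℤ√(-2)) (h : x.norm = 1) : x = 1 ∨ x = -1 := by
  rw [Zsqrtd.norm_def] at h
  have him : x.im = 0 := by
    by_contra hne
    have h1 : 1 ≤ x.im * x.im := by
      rcases lt_or_gt_of_ne hne with h0 | h0
      · nlinarith
      · nlinarith
    nlinarith [mul_self_nonneg x.re]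
  rw [him] at h
  have hre : x.re * x.re = 1 := by linarith
  have hre' : x.re = 1 ∨ x.re = -1 := by
    have h0 : (x.re - 1) * (x.re + 1) = 0 := by ring_nf; linarith
    rcases mul_eq_zero.mp h0 with h1 | h1
    · left; linarith
    · right; linarith
  rcases hre' with h1 | h1
  · left
    exact Zsqrtd.ext (by simpa using h1) (by simpa using him)
  · right
    exact Zsqrtd.ext (by simpa using h1) (by simpa using him)

/-- A cube root of `± 1` in `ℤ[√-2]` is `± 1`. -/
theorem zsqrtd_cube682 (x : ℤ√(-2)) (h : x * x * x = 1 ∨ x * x * x = -1) : x = 1 ∨ x = -1 := by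
  apply zsqrtd_norm_one682
  have hn : x.norm * x.norm * x.norm = 1 := by
    rw [← Zsqrtd.norm_mul, ← Zsqrtd.norm_mul]
    rcases h with h | h
    · rw [h]; simp [Zsqrtd.norm_def]
    · rw [h]; simp [Zsqrtd.norm_def]
  have h0 : 0 ≤ x.norm := Zsqrtd.norm_nonneg (by norm_num) x
  have hn' : x.norm * (x.norm * x.norm) = 1 := by rw [← hn]; ring
  exact Int.eq_one_of_mul_eq_one_right h0 hn'

theorem red_one_ne682 : red (1 : ℤ√(-2)) ≠ -1 := by
  rw [map_one]
  decide

/-! ## 4. The lift `Ψ` -/

section Lift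

variable (Ψ : GL (Fin 2) (ZMod 3) →* GL (Fin 2) (ℤ√(-2)))

/-- The matrix of `Ψ g`. -/
def lm682 (g : GL (Fin 2) (ZMod 3)) : Matrix (Fin 2) (Fin 2) (ℤ√(-2)) :=
  ((Ψ g : GL (Fin 2) (ℤ√(-2))) : Matrix (Fin 2) (Fin 2) (ℤ√(-2)))

theorem trΨ_eq682 (ι : ℤ√(-2) →+* ℂ) (g : GL (Fin 2) (ZMod 3)) :
    trΨ Ψ ι g = ι (lm682 Ψ g).trace := rfl

theorem lm_one682 : lm682 Ψ 1 = 1 := by
  simp [lm682]

theorem lm_mul682 (g h : GL (Fin 2) (ZMod 3)) : lm682 Ψ (g * h) = lm682 Ψ g * lm682 Ψ h := by
  simp [lm682]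

variable {Ψ}

theorem red_lm682 (hΨ : ∀ g, Matrix.GeneralLinearGroup.map red (Ψ g) = g)
    (g : GL (Fin 2) (ZMod 3)) (i j : Fin 2) :
    red (lm682 Ψ g i j) = (g : Matrix (Fin 2) (Fin 2) (ZMod 3)) i j := by
  have h2 := congrArg
    (fun x : GL (Fin 2) (ZMod 3) => (x : Matrix (Fin 2) (Fin 2) (ZMod 3)) i j) (hΨ g)
  simpa [lm682] using h2

/-- `k • N = m • 1` with `k ≠ 0`: `N` is a scalar matrix. -/
theorem scalar_of_smul682 {N : Matrix (Fin 2) (Fin 2) (ℤ√(-2))} {k m : ℤ√(-2)} (hk : k ≠ 0)
    (h : k • N = m • (1 : Matrix (Fin 2) (Fin 2) (ℤ√(-2)))) :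
    N = N 0 0 • (1 : Matrix (Fin 2) (Fin 2) (ℤ√(-2))) := by
  have e00 := congrFun (congrFun h 0) 0
  have e01 := congrFun (congrFun h 0) 1
  have e10 := congrFun (congrFun h 1) 0
  have e11 := congrFun (congrFun h 1) 1
  simp only [Matrix.smul_apply, smul_eq_mul, Matrix.one_apply_eq, mul_one, ne_eq,
    zero_ne_one, one_ne_zero, not_false_eq_true, Matrix.one_apply_ne, mul_zero] at e00 e01 e10 e11
  have h01 : N 0 1 = 0 := zsqrtd_mul_eq_zero682 e01 hk
  have h10 : N 1 0 = 0 := zsqrtd_mul_eq_zero682 e10 hk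
  have h11 : N 1 1 = N 0 0 := by
    have : k * (N 1 1 - N 0 0) = 0 := by rw [mul_sub, e00, e11, sub_self]
    exact sub_eq_zero.mp (zsqrtd_mul_eq_zero682 this hk)
  refine Matrix.ext fun i j => ?_
  fin_cases i <;> fin_cases j <;> simp [h01, h10, h11]

/-- `Ψ (-1) = -1`. -/
theorem lm_neg_one682 (hΨ : ∀ g, Matrix.GeneralLinearGroup.map red (Ψ g) = g) :
    lm682 Ψ (-1) = -1 := by
  set T := lm682 Ψ (-1) with hT
  have hTT : T * T = 1 := by
    rw [hT, ← lm_mul682, neg_one_mul_neg_one682, lm_one682]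
  have hr : ∀ i j, red (T i j) = (-1 : Matrix (Fin 2) (Fin 2) (ZMod 3)) i j := by
    intro i j
    rw [hT, red_lm682 hΨ]
    simp
  have h00 : red (T 0 0) = -1 := by simpa using hr 0 0
  have h11 : red (T 1 1) = -1 := by simpa using hr 1 1
  have hch := ch2_682 T
  rw [hTT] at hch
  have htr : T.trace ≠ 0 := by
    intro h0
    have h1 : red T.trace = 0 := by rw [h0, map_zero]
    rw [Matrix.trace_fin_two, map_add, h00, h11] at h1
    revert h1
    decide
  have hsm : T.trace • T = (1 + T.det) • (1 : Matrix (Fin 2) (Fin 2) (ℤ√(-2))) := by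
    rw [add_smul, one_smul]
    rw [eq_sub_iff_add_eq] at hch
    rw [← hch]
  have hsc := scalar_of_smul682 htr hsm
  have hcc : T 0 0 * T 0 0 = 1 := by
    have := congrFun (congrFun hTT 0) 0
    rw [hsc] at this
    simpa [Matrix.mul_apply, Fin.sum_univ_two] using this
  have hc : T 0 0 = -1 := by
    have h0 : (T 0 0 - 1) * (T 0 0 + 1) = 0 := by
      have : (T 0 0 - 1) * (T 0 0 + 1) = T 0 0 * T 0 0 - 1 := by ring
      rw [this, hcc, sub_self]
    by_cases h1 : T 0 0 - 1 = 0
    · exfalso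
      have : T 0 0 = 1 := sub_eq_zero.mp h1
      rw [this] at h00
      exact red_one_ne682 h00
    · exact eq_neg_of_add_eq_zero_left (zsqrtd_mul_eq_zero682 h0 h1)
  rw [hsc, hc]
  simp

/-- If `h * h = -1` in `GL₂(𝔽₃)` then `Ψ h` has trace `0`. -/
theorem trace_lm_eq_zero682 (hΨ : ∀ g, Matrix.GeneralLinearGroup.map red (Ψ g) = g)
    (h : GL (Fin 2) (ZMod 3)) (hh : h * h = -1) : (lm682 Ψ h).trace = 0 := by
  set T := lm682 Ψ h with hT
  have hTT : T * T = -1 := by
    rw [hT, ← lm_mul682, hh, lm_neg_one682 hΨ]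
  have hch := ch2_682 T
  rw [hTT] at hch
  by_contra htr
  have hsm : T.trace • T = (T.det - 1) • (1 : Matrix (Fin 2) (Fin 2) (ℤ√(-2))) := by
    rw [sub_smul, one_smul]
    rw [eq_sub_iff_add_eq] at hch
    rw [← hch]
    abel
  have hsc := scalar_of_smul682 htr hsm
  have hcc : T 0 0 * T 0 0 = -1 := by
    have := congrFun (congrFun hTT 0) 0
    rw [hsc] at this
    simpa [Matrix.mul_apply, Fin.sum_univ_two] using this
  exact zsqrtd_sq_ne_neg_one682 _ hcc

/-- If `g³ = ε = ± 1` in `GL₂(𝔽₃)` and `g ≠ ε`, then `tr Ψ g = -ε`. -/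
theorem trace_lm_cube682 (g : GL (Fin 2) (ZMod 3)) (e : ℤ√(-2)) (he : e = 1 ∨ e = -1)
    (h3 : lm682 Ψ g * lm682 Ψ g * lm682 Ψ g = e • (1 : Matrix (Fin 2) (Fin 2) (ℤ√(-2))))
    (hne : lm682 Ψ g ≠ e • (1 : Matrix (Fin 2) (Fin 2) (ℤ√(-2)))) :
    (lm682 Ψ g).trace = -e := by
  set T := lm682 Ψ g with hT
  have hch := ch2_682 T
  set s := T.trace with hs
  set d := T.det with hd
  -- T³ = (s² - d) T - s d
  have hcube : (s * s - d) • T = (e + s * d) • (1 : Matrix (Fin 2) (Fin 2) (ℤ√(-2))) := by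
    have h1 : T * T * T = (s * s - d) • T - (s * d) • (1 : Matrix (Fin 2) (Fin 2) (ℤ√(-2))) := by
      calc T * T * T = (s • T - d • (1 : Matrix (Fin 2) (Fin 2) (ℤ√(-2)))) * T := by rw [← hch]
        _ = s • (T * T) - d • T := by
            rw [sub_mul, Matrix.smul_mul, Matrix.smul_mul, Matrix.one_mul]
        _ = s • (s • T - d • (1 : Matrix (Fin 2) (Fin 2) (ℤ√(-2)))) - d • T := by rw [← hch]
        _ = (s * s - d) • T - (s * d) • (1 : Matrix (Fin 2) (Fin 2) (ℤ√(-2))) := by
            rw [smul_sub, smul_smul, smul_smul, sub_smul]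
            abel
    rw [h3] at h1
    rw [add_smul, h1]
    abel
  have ee : e * e * e = e := by
    rcases he with h | h <;> rw [h] <;> ring
  by_cases hk : s * s - d = 0
  · rw [hk, zero_smul] at hcube
    have h00 := congrFun (congrFun hcube 0) 0
    simp only [Matrix.zero_apply, Matrix.smul_apply, Matrix.one_apply_eq, smul_eq_mul,
      mul_one] at h00
    have hd' : d = s * s := (sub_eq_zero.mp hk).symm
    have hs3 : s * s * s = -e := by
      have : e + s * (s * s) = 0 := by rw [← hd']; exact h00.symm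
      linear_combination this
    have hs1 : s = 1 ∨ s = -1 := by
      apply zsqrtd_cube682
      rcases he with h | h
      · right; rw [hs3, h]
      · left; rw [hs3, h]; ring
    rcases hs1 with h | h
    · rw [h] at hs3 ⊢
      rw [← hs3]; ring
    · rw [h] at hs3 ⊢
      rw [← hs3]; ring
  · exfalso
    have hsc := scalar_of_smul682 hk hcube
    have hc3 : T 0 0 * T 0 0 * T 0 0 = e := by
      have := congrFun (congrFun h3 0) 0
      rw [hsc] at this
      simpa [Matrix.mul_apply, Fin.sum_univ_two] using this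
    have hc1 : T 0 0 = 1 ∨ T 0 0 = -1 := by
      apply zsqrtd_cube682
      rcases he with h | h
      · left; rw [hc3, h]
      · right; rw [hc3, h]
    have hc : T 0 0 = e := by
      rcases hc1 with h | h
      · rw [h] at hc3 ⊢
        rw [← hc3]; ring
      · rw [h] at hc3 ⊢
        rw [← hc3]; ring
    apply hne
    rw [hsc, hc]

theorem psi_inj682 (hΨ : ∀ g, Matrix.GeneralLinearGroup.map red (Ψ g) = g) :
    Function.Injective Ψ := fun g h e => by rw [← hΨ g, ← hΨ h, e]

theorem eq_of_lm_eq682 (hΨ : ∀ g, Matrix.GeneralLinearGroup.map red (Ψ g) = g)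
    {g h : GL (Fin 2) (ZMod 3)} (e : lm682 Ψ g = lm682 Ψ h) : g = h :=
  psi_inj682 hΨ (Units.ext e)

end Lift

/-! ## 5. The values in `ℂ` -/

section Values

variable {Ψ : GL (Fin 2) (ZMod 3) →* GL (Fin 2) (ℤ√(-2))} (ι : ℤ√(-2) →+* ℂ)

theorem trΨ_one682 : trΨ Ψ ι 1 = 2 := by
  rw [trΨ_eq682, lm_one682, Matrix.trace_fin_two]
  simp only [Matrix.one_apply_eq, map_add, map_one]
  norm_num

theorem trΨ_neg_one682 (hΨ : ∀ g, Matrix.GeneralLinearGroup.map red (Ψ g) = g) :
    trΨ Ψ ι (-1) = -2 := by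
  rw [trΨ_eq682, lm_neg_one682 hΨ, Matrix.trace_fin_two]
  simp only [Matrix.neg_apply, Matrix.one_apply_eq, map_add, map_neg, map_one]
  norm_num

theorem satakePow_three682 (a : ℂ) : satakePow 3 a 1 = a ^ 3 - 3 * a := by
  simp only [satakePow]
  ring

theorem pow_four_eq682 (g : GL (Fin 2) (ZMod 3)) : g ^ 4 = (g * g) * (g * g) := by
  simp only [pow_succ, pow_zero, one_mul, mul_assoc]

theorem pow_three_eq682 (g : GL (Fin 2) (ZMod 3)) : g ^ 3 = g * g * g := by
  simp only [pow_succ, pow_zero, one_mul]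

theorem inQ8_one682 : InQ8 (1 : GL (Fin 2) (ZMod 3)) := ⟨map_one _, one_pow _⟩

theorem inQ8_neg_one682 : InQ8 (-1 : GL (Fin 2) (ZMod 3)) :=
  ⟨det_neg_one682, by rw [pow_four_eq682, neg_one_mul_neg_one682, one_mul]⟩

theorem inQ8_of_sq682 {g : GL (Fin 2) (ZMod 3)} (hdet : Matrix.GeneralLinearGroup.det g = 1)
    (h : g * g = -1) : InQ8 g :=
  ⟨hdet, by rw [pow_four_eq682, h, neg_one_mul_neg_one682]⟩

theorem det_sq682 (g : GL (Fin 2) (ZMod 3)) (hdet : Matrix.GeneralLinearGroup.det g ≠ 1) :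
    Matrix.GeneralLinearGroup.det (g ^ 2) = 1 := by
  rw [map_pow]
  apply Units.ext
  have h1 : ((Matrix.GeneralLinearGroup.det g : (ZMod 3)ˣ) : ZMod 3) = -1 := by
    refine zmod3_unit682 _ (Units.ne_zero _) ?_
    intro h1
    exact hdet (Units.ext h1)
  rw [Units.val_pow_eq_pow_val, h1]
  decide

variable {ι}

/-- **The pointwise statement.** -/
theorem point682 (hΨ : ∀ g, Matrix.GeneralLinearGroup.map red (Ψ g) = g)
    (g : GL (Fin 2) (ZMod 3)) (a b : ℂ)
    (h1 : satakePow (ordQ8 (g ^ ordSL g)) a b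
        = trΨ Ψ ι ((g ^ ordSL g) ^ ordQ8 (g ^ ordSL g)))
    (hb : b = 1) :
    (a = trΨ Ψ ι (g ^ ordSL g) ∨
      (Matrix.GeneralLinearGroup.det g = 1 ∧ ‖a‖ ^ 2 = 4 ∧
        ‖trΨ Ψ ι (g ^ ordSL g)‖ ^ 2 = 1)) ∧
    ‖a‖ ≤ 2 := by
  subst hb
  by_cases hdet : Matrix.GeneralLinearGroup.det g = 1
  · rw [ordSL_of_det682 hdet, pow_one] at h1 ⊢
    rcases sl_cases682 g hdet with h2 | h3 | h3
    · -- `g² = -1`
      rw [ordQ8_of_inQ8_682 (inQ8_of_sq682 hdet h2), pow_one, satakePow_one] at h1
      have ht : trΨ Ψ ι g = 0 := by rw [trΨ_eq682, trace_lm_eq_zero682 hΨ g h2, map_zero]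
      refine ⟨Or.inl h1, ?_⟩
      rw [h1, ht]
      norm_num
    · -- `g³ = -1`
      by_cases hg : g = -1
      · rw [hg] at h1 ⊢
        rw [ordQ8_of_inQ8_682 inQ8_neg_one682, pow_one, satakePow_one] at h1
        refine ⟨Or.inl h1, ?_⟩
        rw [h1, trΨ_neg_one682 ι hΨ]
        norm_num
      · obtain ⟨hn1, hn2⟩ := not_inQ8_of_cube682 neg_one_mul_neg_one682 h3 hg
        rw [ordQ8_three682 hn1 hn2, pow_three_eq682, h3, trΨ_neg_one682 ι hΨ,
          satakePow_three682] at h1
        have ht : trΨ Ψ ι g = 1 := by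
          have h := trace_lm_cube682 (Ψ := Ψ) g (-1) (Or.inr rfl)
            (by rw [← lm_mul682, ← lm_mul682, h3, lm_neg_one682 hΨ]; simp)
            (by
              intro h
              apply hg
              apply eq_of_lm_eq682 hΨ
              rw [h, lm_neg_one682 hΨ]
              simp)
          rw [trΨ_eq682, h]
          simp
        have hfac : (a + 2) * ((a - 1) * (a - 1)) = 0 := by linear_combination h1
        rcases mul_eq_zero.mp hfac with h | h
        · have ha : a = -2 := by linear_combination h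
          refine ⟨Or.inr ⟨hdet, ?_, ?_⟩, ?_⟩
          · rw [ha]; norm_num
          · rw [ht]; norm_num
          · rw [ha]; norm_num
        · have ha : a = 1 := by
            rcases mul_eq_zero.mp h with h | h <;> linear_combination h
          refine ⟨Or.inl (by rw [ha, ht]), ?_⟩
          rw [ha]; norm_num
    · -- `g³ = 1`
      by_cases hg : g = 1
      · rw [hg] at h1 ⊢
        rw [ordQ8_of_inQ8_682 inQ8_one682, pow_one, satakePow_one] at h1
        refine ⟨Or.inl h1, ?_⟩
        rw [h1, trΨ_one682 ι]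
        norm_num
      · obtain ⟨hn1, hn2⟩ := not_inQ8_of_cube682 (one_mul 1) h3 hg
        rw [ordQ8_three682 hn1 hn2, pow_three_eq682, h3, trΨ_one682 ι,
          satakePow_three682] at h1
        have ht : trΨ Ψ ι g = -1 := by
          have h := trace_lm_cube682 (Ψ := Ψ) g 1 (Or.inl rfl)
            (by rw [← lm_mul682, ← lm_mul682, h3, lm_one682]; simp)
            (by
              intro h
              apply hg
              apply eq_of_lm_eq682 hΨ
              rw [h, lm_one682]
              simp)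
          rw [trΨ_eq682, h]
          simp
        have hfac : (a - 2) * ((a + 1) * (a + 1)) = 0 := by linear_combination h1
        rcases mul_eq_zero.mp hfac with h | h
        · have ha : a = 2 := by linear_combination h
          refine ⟨Or.inr ⟨hdet, ?_, ?_⟩, ?_⟩
          · rw [ha]; norm_num
          · rw [ht]; norm_num
          · rw [ha]; norm_num
        · have ha : a = -1 := by
            rcases mul_eq_zero.mp h with h | h <;> linear_combination h
          refine ⟨Or.inl (by rw [ha, ht]), ?_⟩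
          rw [ha]; norm_num
  · rw [ordSL_of_not_det682 hdet] at h1 ⊢
    have hd2 := det_sq682 g hdet
    rcases gl_cases682 g hdet with h2 | h4
    · have e2 : g ^ 2 = 1 := by rw [pow_two, h2]
      rw [e2] at h1 ⊢
      rw [ordQ8_of_inQ8_682 inQ8_one682, pow_one, satakePow_one] at h1
      refine ⟨Or.inl h1, ?_⟩
      rw [h1, trΨ_one682 ι]
      norm_num
    · have h4' : g ^ 2 * g ^ 2 = -1 := by rw [pow_two, h4]
      rw [ordQ8_of_inQ8_682 (inQ8_of_sq682 hd2 h4'), pow_one, satakePow_one] at h1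
      have ht : trΨ Ψ ι (g ^ 2) = 0 := by
        rw [trΨ_eq682, trace_lm_eq_zero682 hΨ (g ^ 2) h4', map_zero]
      refine ⟨Or.inl h1, ?_⟩
      rw [h1, ht]
      norm_num

end Values

/-! ## 6. Places and primes -/

section Places

variable {K : Type} [Field K] [NumberField K]

/-- A prime ideal containing a non-zero natural number contains a prime number. -/
theorem exists_prime_of_mem682 {R : Type*} [CommRing R] (P : Ideal R) [P.IsPrime] :
    ∀ n : ℕ, n ≠ 0 → ((n : ℕ) : R) ∈ P → ∃ p : ℕ, p.Prime ∧ ((p : ℕ) : R) ∈ P := by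
  intro n
  induction n using Nat.strong_induction_on with
  | _ n ih =>
    intro hn hmem
    have hn1 : n ≠ 1 := by
      rintro rfl
      rw [Nat.cast_one] at hmem
      exact (Ideal.IsPrime.ne_top ‹_›) ((Ideal.eq_top_iff_one P).mpr hmem)
    have hp := Nat.minFac_prime hn1
    obtain ⟨m, hm⟩ := Nat.minFac_dvd n
    have hcast : ((n : ℕ) : R) = ((n.minFac : ℕ) : R) * ((m : ℕ) : R) := by
      rw [← Nat.cast_mul, ← hm]
    rw [hcast] at hmem
    rcases Ideal.IsPrime.mem_or_mem ‹_› hmem with h | h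
    · exact ⟨n.minFac, hp, h⟩
    · have hm0 : m ≠ 0 := by
        rintro rfl
        rw [mul_zero] at hm
        exact hn hm
      have hlt : m < n := by
        have h2 : 2 ≤ n.minFac := hp.two_le
        have hmpos : 0 < m := Nat.pos_of_ne_zero hm0
        calc m < n.minFac * m := by nlinarith
          _ = n := hm.symm
      exact ih m hlt hm0 h

/-- Every finite place of a number field lies over a prime number. -/
theorem exists_prime_mem682 (v : HeightOneSpectrum (𝓞 K)) :
    ∃ p : ℕ, p.Prime ∧ ((p : ℕ) : 𝓞 K) ∈ v.asIdeal := by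
  have := v.isPrime
  refine exists_prime_of_mem682 v.asIdeal (Ideal.absNorm v.asIdeal) ?_
    (Ideal.absNorm_mem v.asIdeal)
  rw [Ne, Ideal.absNorm_eq_zero_iff]
  exact v.ne_bot

/-- Finitely many finite places contain a given non-zero natural number. -/
theorem finite_places_of_mem682 (n : ℕ) (hn : n ≠ 0) :
    {v : HeightOneSpectrum (𝓞 K) | ((n : ℕ) : 𝓞 K) ∈ v.asIdeal}.Finite := by
  have hI : Ideal.span {((n : ℕ) : 𝓞 K)} ≠ 0 := by
    rw [Ne, Ideal.zero_eq_bot, Ideal.span_singleton_eq_bot]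
    exact Nat.cast_ne_zero.mpr hn
  refine (Ideal.finite_factors hI).subset ?_
  intro v hv
  exact Ideal.dvd_iff_le.mpr ((Ideal.span_singleton_le_iff_mem _).mpr hv)

/-- Finitely many finite places lie over the primes of a finite set. -/
theorem finite_places_over682 (S : Finset ℕ) :
    {v : HeightOneSpectrum (𝓞 K) | ∃ p ∈ S, p.Prime ∧ ((p : ℕ) : 𝓞 K) ∈ v.asIdeal}.Finite := by
  classical
  have hm : (∏ p ∈ S.filter (fun p => p ≠ 0), p) ≠ 0 :=
    Finset.prod_ne_zero_iff.mpr fun p hp => (Finset.mem_filter.mp hp).2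
  refine (finite_places_of_mem682 (K := K) _ hm).subset ?_
  rintro v ⟨p, hpS, hp, hpv⟩
  have hmem : p ∈ S.filter (fun p => p ≠ 0) := Finset.mem_filter.mpr ⟨hpS, hp.ne_zero⟩
  obtain ⟨k, hk⟩ := Finset.dvd_prod_of_mem (fun p => p) hmem
  show ((∏ p ∈ S.filter (fun p => p ≠ 0), p : ℕ) : 𝓞 K) ∈ v.asIdeal
  rw [hk, Nat.cast_mul]
  exact v.asIdeal.mul_mem_right _ hpv

end Places

/-! ## 7. The leaf -/

/-- **LEAF T7.13a `DegenC`** (VERBATIM the Prop of `LT/T7/H37/ThinSpec.lean`). -/
theorem degenC682 : Fermat.Agent.LT.T7.H37.DegenC := by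
  intro ρ Ψ ι hyp nf π hmid
  obtain ⟨S, hS⟩ := hmid
  refine ⟨⟨S, fun p hp hpS A hA σ hσ w hw => ?_⟩, ?_⟩
  · obtain ⟨h1, hb⟩ := hS p hp hpS A hA σ hσ w hw
    exact ⟨hb, (point682 hyp.lift (ρ σ) _ _ h1 hb).1⟩
  · have hfin := finite_places_over682 (K := fieldF ρ) S
    refine ⟨hfin.toFinset, fun v hv => ?_⟩
    obtain ⟨p, hp, hpv⟩ := exists_prime_mem682 v
    have hpS : p ∉ S := fun h => hv (hfin.mem_toFinset.mpr ⟨p, h, hp, hpv⟩)
    obtain ⟨A, σ, hA, hσ⟩ := Fermat.Agent.S54.exists_frobenius p hp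
    obtain ⟨h1, hb⟩ := hS p hp hpS A hA σ hσ v hpv
    exact ⟨(point682 hyp.lift (ρ σ) _ _ h1 hb).2, hb⟩

end Fermat.Agent.LT.T7.H682

end

end
-- ===== PACK-END LT/T7/H682/Degen.lean

-- ===== PACK-BEGIN LT/H51/MS4D.lean
section



set_option autoImplicit false

open IsDedekindDomain NumberField
open scoped MatrixGroups Classical WithZero

noncomputable section

namespace Fermat.Agent.LT.H51.MS4

open Fermat.Agent.LT.H556.A0 Fermat.Agent.LT.T8.H864

/-! ## Upper triangular matrices -/

section UT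

variable {F : Type*} [Field F]

/-- The matrix `[[a, b], [0, d]]`. -/
def utMat (a b d : F) : Matrix (Fin 2) (Fin 2) F := !![a, b; 0, d]

theorem det_utMat (a b d : F) : (utMat a b d).det = a * d := by
  simp [utMat, Matrix.det_fin_two]

/-- `[[a, b], [0, d]]` as an element of `GL₂(F)` (the identity if `a d = 0`). -/
def ut (a b d : F) : GL (Fin 2) F :=
  if h : a * d = 0 then 1
  else Matrix.GeneralLinearGroup.mkOfDetNeZero (utMat a b d) (by rw [det_utMat]; exact h)

theorem coe_ut {a d : F} (b : F) (ha : a ≠ 0) (hd : d ≠ 0) :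
    ((ut a b d : GL (Fin 2) F) : Matrix (Fin 2) (Fin 2) F) = utMat a b d := by
  simp [ut, mul_ne_zero ha hd, Matrix.GeneralLinearGroup.mkOfDetNeZero]

theorem ut_mul {a d a' d' : F} (b b' : F) (ha : a ≠ 0) (hd : d ≠ 0) (ha' : a' ≠ 0)
    (hd' : d' ≠ 0) : ut a b d * ut a' b' d' = ut (a * a') (a * b' + b * d') (d * d') := by
  refine Units.ext ?_
  rw [Matrix.GeneralLinearGroup.coe_mul, coe_ut b ha hd, coe_ut b' ha' hd',
    coe_ut _ (mul_ne_zero ha ha') (mul_ne_zero hd hd')]
  ext i j
  fin_cases i <;> fin_cases j <;> simp [utMat, Matrix.mul_apply, Fin.sum_univ_two]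

theorem ut_one : ut (1 : F) 0 1 = 1 := by
  refine Units.ext ?_
  rw [coe_ut 0 one_ne_zero one_ne_zero]
  ext i j
  fin_cases i <;> fin_cases j <;> simp [utMat]

theorem ut_inv {a d : F} (b : F) (ha : a ≠ 0) (hd : d ≠ 0) :
    (ut a b d)⁻¹ = ut a⁻¹ (-(b / (a * d))) d⁻¹ := by
  rw [inv_eq_iff_mul_eq_one, ut_mul b _ ha hd (inv_ne_zero ha) (inv_ne_zero hd)]
  have e1 : a * a⁻¹ = 1 := mul_inv_cancel₀ ha
  have e2 : d * d⁻¹ = 1 := mul_inv_cancel₀ hd
  have e3 : a * -(b / (a * d)) + b * d⁻¹ = 0 := by field_simp; ring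
  rw [e1, e2, e3, ut_one]

theorem map_ut {F' : Type*} [Field F'] (f : F →+* F') {a d : F} (b : F) (ha : a ≠ 0)
    (hd : d ≠ 0) : Matrix.GeneralLinearGroup.map f (ut a b d) = ut (f a) (f b) (f d) := by
  refine Units.ext ?_
  have ha' : f a ≠ 0 := by rwa [Ne, map_eq_zero]
  have hd' : f d ≠ 0 := by rwa [Ne, map_eq_zero]
  rw [coe_ut _ ha' hd']
  change ((ut a b d : GL (Fin 2) F) : Matrix (Fin 2) (Fin 2) F).map f = _
  rw [coe_ut b ha hd]
  ext i j
  fin_cases i <;> fin_cases j <;> simp [utMat]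

/-- Scalar matrices are central. -/
theorem ut_scalar_comm {r : F} (hr : r ≠ 0) (m : GL (Fin 2) F) :
    ut r 0 r * m = m * ut r 0 r := by
  refine Units.ext ?_
  rw [Matrix.GeneralLinearGroup.coe_mul, Matrix.GeneralLinearGroup.coe_mul, coe_ut 0 hr hr]
  ext i j
  fin_cases i <;> fin_cases j <;> simp [utMat, Matrix.mul_apply, Fin.sum_univ_two, mul_comm]

end UT

theorem bGL_eq_ut (x : ℝ) {y : ℝ} (hy : y ≠ 0) : bGL x y = ut y x 1 := by
  refine Units.ext ?_
  rw [coe_bGL x hy, coe_ut x hy one_ne_zero]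
  rfl

/-! ## Nearness of upper triangular matrices -/

section NearUT

variable {K : Type} [Field K] [NumberField K]

theorem near_ut {v : HeightOneSpectrum (𝓞 K)} {c : ℤᵐ⁰} {a b d : v.adicCompletion K}
    (ha1 : Valued.v a = 1) (hd1 : Valued.v d = 1) (ha : Valued.v (a - 1) ≤ c)
    (hb : Valued.v b ≤ c) (hd : Valued.v (d - 1) ≤ c) : Near v c (ut a b d) := by
  have ha0 : a ≠ 0 := by
    intro h; rw [h, map_zero] at ha1; exact zero_ne_one ha1
  have hd0 : d ≠ 0 := by
    intro h; rw [h, map_zero] at hd1; exact zero_ne_one hd1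
  have hai : Valued.v (a⁻¹ - 1) ≤ c := by
    have e : a⁻¹ - 1 = (1 - a) / a := by field_simp
    rw [e, map_div₀, ha1, div_one, Valuation.map_sub_swap]
    exact ha
  have hdi : Valued.v (d⁻¹ - 1) ≤ c := by
    have e : d⁻¹ - 1 = (1 - d) / d := by field_simp
    rw [e, map_div₀, hd1, div_one, Valuation.map_sub_swap]
    exact hd
  have hbi : Valued.v (-(b / (a * d))) ≤ c := by
    rw [Valuation.map_neg, map_div₀, map_mul, ha1, hd1, mul_one, div_one]
    exact hb
  intro i j
  constructor
  · rw [coe_ut b ha0 hd0]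
    fin_cases i <;> fin_cases j <;> simp [utMat] <;> assumption
  · rw [ut_inv b ha0 hd0, coe_ut _ (inv_ne_zero ha0) (inv_ne_zero hd0)]
    fin_cases i <;> fin_cases j <;> simp [utMat] <;> first | assumption | skip
    all_goals
      rw [Valuation.map_neg, map_div₀, map_mul, ha1, hd1, mul_one, div_one] at hbi
      simpa [ha1, hd1] using hbi

theorem near_ratFin_ut {v : HeightOneSpectrum (𝓞 K)} {c : ℤᵐ⁰} {a b d : K}
    (ha1 : v.valuation K a = 1) (hd1 : v.valuation K d = 1)
    (ha : v.valuation K (a - 1) ≤ c) (hb : v.valuation K b ≤ c)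
    (hd : v.valuation K (d - 1) ≤ c) : Near v c (ratFin v (ut a b d)) := by
  have ha0 : a ≠ 0 := by
    intro h; rw [h, map_zero] at ha1; exact zero_ne_one ha1
  have hd0 : d ≠ 0 := by
    intro h; rw [h, map_zero] at hd1; exact zero_ne_one hd1
  rw [ratFin, map_ut _ b ha0 hd0]
  refine near_ut ?_ ?_ ?_ ?_ ?_
  · rw [_root_.Fermat.Agent.LT.H51.MS4.valued_algebraMap]; exact ha1
  · rw [_root_.Fermat.Agent.LT.H51.MS4.valued_algebraMap]; exact hd1
  · rw [← map_one (algebraMap K (v.adicCompletion K)), ← map_sub, _root_.Fermat.Agent.LT.H51.MS4.valued_algebraMap]; exact ha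
  · rw [_root_.Fermat.Agent.LT.H51.MS4.valued_algebraMap]; exact hb
  · rw [← map_one (algebraMap K (v.adicCompletion K)), ← map_sub, _root_.Fermat.Agent.LT.H51.MS4.valued_algebraMap]; exact hd

/-- Coprimality: a natural number prime to `M` is a unit at the places dividing `M`. -/
theorem valuation_eq_one_of_coprime (v : HeightOneSpectrum (𝓞 K)) {k M : ℕ}
    (hk : Nat.Coprime k M) (hM : v.valuation K (M : K) < 1) : v.valuation K (k : K) = 1 := by
  refine le_antisymm (valuation_natCast_le_one v k) ?_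
  by_contra hlt
  rw [not_le] at hlt
  rw [valuation_natCast_lt_one_iff] at hM hlt
  have hco : IsCoprime (k : ℤ) (M : ℤ) := Nat.isCoprime_iff_coprime.2 hk
  obtain ⟨a, b, hab⟩ := hco
  have h1 : ((a : 𝓞 K)) * (k : 𝓞 K) + (b : 𝓞 K) * (M : 𝓞 K) = 1 := by
    have := congrArg (fun z : ℤ => (z : 𝓞 K)) hab
    simpa using this
  have h2 : (1 : 𝓞 K) ∈ v.asIdeal := by
    rw [← h1]
    exact v.asIdeal.add_mem (v.asIdeal.mul_mem_left _ hlt) (v.asIdeal.mul_mem_left _ hM)
  exact v.isPrime.ne_top ((Ideal.eq_top_iff_one _).2 h2)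

end NearUT

/-! ## The places of `ℚ` -/

/-- The place of `ℚ` over the prime `p`. -/
def vP (p : ℕ) (hp : p.Prime) : HeightOneSpectrum (𝓞 ℚ) :=
  Rat.HeightOneSpectrum.primesEquiv.symm ⟨p, hp⟩

theorem natCast_mem_iff (v : HeightOneSpectrum (𝓞 ℚ)) (n : ℕ) :
    (n : 𝓞 ℚ) ∈ v.asIdeal ↔ Rat.HeightOneSpectrum.natGenerator v ∣ n := by
  rw [Rat.HeightOneSpectrum.natGenerator_dvd_iff,
    ← Ideal.apply_mem_of_equiv_iff (f := Rat.IsIntegralClosure.intEquiv (𝓞 ℚ)), map_natCast]

theorem natGenerator_vP (p : ℕ) (hp : p.Prime) :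
    Rat.HeightOneSpectrum.natGenerator (vP p hp) = p :=
  congrArg Subtype.val
    (Equiv.apply_symm_apply (Rat.HeightOneSpectrum.primesEquiv (R := 𝓞 ℚ)) ⟨p, hp⟩)

theorem eq_vP_of_natGenerator {v : HeightOneSpectrum (𝓞 ℚ)} {p : ℕ} (hp : p.Prime)
    (h : Rat.HeightOneSpectrum.natGenerator v = p) : v = vP p hp := by
  have h1 : Rat.HeightOneSpectrum.primesEquiv v = (⟨p, hp⟩ : Nat.Primes) := Subtype.ext h
  exact (Equiv.eq_symm_apply _).2 h1

/-- A prime is a unit at the other places. -/
theorem valuation_prime_eq_one {v : HeightOneSpectrum (𝓞 ℚ)} {p : ℕ} (hp : p.Prime)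
    (hv : v ≠ vP p hp) : v.valuation ℚ (p : ℚ) = 1 := by
  refine le_antisymm (valuation_natCast_le_one v p) ?_
  by_contra hlt
  rw [not_le, valuation_natCast_lt_one_iff, natCast_mem_iff] at hlt
  apply hv
  apply eq_vP_of_natGenerator hp
  exact (Nat.prime_dvd_prime_iff_eq (Rat.HeightOneSpectrum.prime_natGenerator v) hp).1 hlt

theorem valuation_prime_lt_one (p : ℕ) (hp : p.Prime) :
    (vP p hp).valuation ℚ (p : ℚ) < 1 := by
  rw [valuation_natCast_lt_one_iff, natCast_mem_iff, natGenerator_vP]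

/-- The real place of `ℚ`. -/
abbrev wQ : InfinitePlace ℚ := Rat.infinitePlace

theorem wQ_isReal : (wQ).IsReal := Rat.isReal_infinitePlace

end Fermat.Agent.LT.H51.MS4
end

end
-- ===== PACK-END LT/H51/MS4D.lean

-- ===== PACK-BEGIN LT/T7/H341/ChebAux.lean
section




/-!
# Row LT, tower T7, leaf T7.13c `ChebFC` (helper341), part 4: auxiliary lemmas

OFF-MAIN.
* `pc_of_mem341`, `pc_of_not_mem341`: the number of primes of norm `p` of the fixed field of an
  open normal subgroup `H` of `Gal(ℚ̄/ℚ)`, in terms of any Frobenius element at `p`.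
* `fib341`: the finite set of places of norm `n` of a number field; its cardinality.
* `sum_lower341`: the real-analysis part of the argument.
-/

set_option autoImplicit false
set_option linter.unusedSectionVars false
set_option linter.unusedVariables false
set_option linter.style.haveILetI false

open NumberField IsDedekindDomain

namespace Fermat.Agent.LT.T7.H341

open Fermat.Agent.Lib.Cheb Fermat.Agent.Lib.Cheb.Spec

/-! ## Prime counts of fixed fields -/

section PC

variable (H : Subgroup GQ) (hH : IsOpen (H : Set GQ)) [hN : H.Normal]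
  [NumberField (IntermediateField.fixedField H)] [IsGalois ℚ (IntermediateField.fixedField H)]

include hH in
theorem pc_of_mem341 {p : ℕ} (hp : p.Prime)
    (hpB : ¬ p ∣ H943.badNat (IntermediateField.fixedField H))
    (A : ValuationSubring Qb) (hA : A.LiesOverPrime p) (σ : GQ) (hσ : A.IsFrobeniusAt σ p)
    (hmem : σ ∈ H) : primeCount (IntermediateField.fixedField H) p = H.index := by
  obtain ⟨-, -, hfix, hrk⟩ := galois_of_open_normal341 H hH
  rw [← hrk]
  exact primeCount_of_fix341 (IntermediateField.fixedField H) hp hpB A hA σ hσ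
    ((hfix σ).mpr hmem)

include hH in
theorem pc_of_not_mem341 {p : ℕ} (hp : p.Prime)
    (hpB : ¬ p ∣ H943.badNat (IntermediateField.fixedField H))
    (A : ValuationSubring Qb) (hA : A.LiesOverPrime p) (σ : GQ) (hσ : A.IsFrobeniusAt σ p)
    (hmem : σ ∉ H) : primeCount (IntermediateField.fixedField H) p = 0 := by
  obtain ⟨-, -, hfix, -⟩ := galois_of_open_normal341 H hH
  exact primeCount_of_not_fix341 (IntermediateField.fixedField H) hp hpB A hA σ hσ
    (fun h => hmem ((hfix σ).mp h))

include hH in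
theorem pc_le_index341 (p : ℕ) : primeCount (IntermediateField.fixedField H) p ≤ H.index := by
  obtain ⟨-, -, -, hrk⟩ := galois_of_open_normal341 H hH
  rw [← hrk]
  exact H761.primeCountBound_statement (IntermediateField.fixedField H) p

end PC

/-! ## Places of a given norm -/

section Fib

variable (F : Type) [Field F] [NumberField F]

theorem finite_placesOfNorm341 (n : ℕ) :
    {v : HeightOneSpectrum (𝓞 F) | Ideal.absNorm v.asIdeal = n}.Finite := by
  have h := Ideal.finite_setOfPred_absNorm_eq (S := 𝓞 F) n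
  refine Set.Finite.of_finite_image (f := fun v : HeightOneSpectrum (𝓞 F) => v.asIdeal)
    (h.subset ?_) ?_
  · rintro I ⟨v, hv, rfl⟩
    exact hv
  · intro v _ w _ hvw
    exact HeightOneSpectrum.ext hvw

/-- The finite set of places of norm `n`. -/
noncomputable def fib341 (n : ℕ) : Finset (HeightOneSpectrum (𝓞 F)) :=
  (finite_placesOfNorm341 F n).toFinset

theorem mem_fib341 (n : ℕ) (v : HeightOneSpectrum (𝓞 F)) :
    v ∈ fib341 F n ↔ Ideal.absNorm v.asIdeal = n := by
  simp [fib341]

theorem card_fib341 {p : ℕ} (hp : p.Prime) : (fib341 F p).card = primeCount F p := by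
  unfold primeCount
  rw [← Nat.card_eq_finsetCard]
  refine Nat.card_congr ?_
  refine
    { toFun := fun v => ⟨v.1.asIdeal, v.1.isPrime, (mem_fib341 F p v.1).mp v.2⟩
      invFun := fun 𝔮 => ⟨⟨𝔮.1, 𝔮.2.1, ?_⟩, (mem_fib341 F p _).mpr 𝔮.2.2⟩
      left_inv := fun v => ?_
      right_inv := fun 𝔮 => ?_ }
  · intro h
    have := 𝔮.2.2
    rw [h, Ideal.absNorm_bot] at this
    exact hp.ne_zero this.symm
  · apply Subtype.ext
    apply HeightOneSpectrum.ext
    rfl
  · apply Subtype.ext
    rfl

end Fib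

/-! ## The real-analysis part -/

/-- For a summable family of non-negative reals, all large finite partial sums are within `1`
of the sum. -/
theorem exists_finset_sum_ge341 {ι : Type*} (f : ι → ℝ) (hf : Summable f) :
    ∃ U₀ : Finset ι, ∀ U : Finset ι, U₀ ⊆ U → (∑' i, f i) - 1 ≤ ∑ i ∈ U, f i := by
  have h := hf.hasSum
  have h1 : ∀ᶠ U : Finset ι in Filter.atTop, (∑' i, f i) - 1 < ∑ i ∈ U, f i :=
    h.eventually (lt_mem_nhds (by linarith))
  obtain ⟨U₀, hU₀⟩ := Filter.eventually_atTop.mp h1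
  exact ⟨U₀, fun U hU => (hU₀ U hU).le⟩

/-- **The lower bound.**  `fF, fQ, fN ≥ 0` summable over the primes, `w ≥ fF + α fN - α fQ` at
the good primes, `fF + α fN ≤ M` everywhere: then some finite set `U` of good primes has
`∑_U w ≥ ∑ fF + α ∑ fN - α ∑ fQ - (1 + α + M |Bad|)`. -/
theorem sum_lower341 (fF fQ fN w : Nat.Primes → ℝ) (α M : ℝ) (hα : 0 ≤ α)
    (Bad : Finset ℕ)
    (hF : Summable fF) (hQ : Summable fQ) (hNs : Summable fN)
    (hQ0 : ∀ p, 0 ≤ fQ p)
    (hM : ∀ p, fF p + α * fN p ≤ M) (hM0 : 0 ≤ M)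
    (hw : ∀ p : Nat.Primes, (p : ℕ) ∉ Bad → fF p + α * fN p - α * fQ p ≤ w p) :
    ∃ U : Finset Nat.Primes, (∀ p ∈ U, (p : ℕ) ∉ Bad) ∧
      (∑' p, fF p) + α * (∑' p, fN p) - α * (∑' p, fQ p) - (1 + α + M * Bad.card)
        ≤ ∑ p ∈ U, w p := by
  classical
  obtain ⟨U₁, hU₁⟩ := exists_finset_sum_ge341 fF hF
  obtain ⟨U₂, hU₂⟩ := exists_finset_sum_ge341 fN hNs
  set U := U₁ ∪ U₂ with hU
  refine ⟨U.filter (fun p : Nat.Primes => (p : ℕ) ∉ Bad), fun p hp => (Finset.mem_filter.mp hp).2, ?_⟩
  have h1 := hU₁ U Finset.subset_union_left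
  have h2 := hU₂ U Finset.subset_union_right
  -- the bad part
  have hbad : ∑ p ∈ U.filter (fun p : Nat.Primes => ¬ (p : ℕ) ∉ Bad), (fF p + α * fN p) ≤ M * Bad.card := by
    have hc : (U.filter (fun p : Nat.Primes => ¬ (p : ℕ) ∉ Bad)).card ≤ Bad.card := by
      refine Finset.card_le_card_of_injOn (fun p : Nat.Primes => (p : ℕ)) ?_ ?_
      · intro p hp
        have := (Finset.mem_filter.mp hp).2
        exact not_not.mp this
      · intro p _ q _ hpq
        exact Subtype.ext hpq
    calc ∑ p ∈ U.filter (fun p : Nat.Primes => ¬ (p : ℕ) ∉ Bad), (fF p + α * fN p)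
        ≤ ∑ p ∈ U.filter (fun p : Nat.Primes => ¬ (p : ℕ) ∉ Bad), M := Finset.sum_le_sum fun p _ => hM p
      _ = (U.filter (fun p : Nat.Primes => ¬ (p : ℕ) ∉ Bad)).card * M := by
          rw [Finset.sum_const, nsmul_eq_mul]
      _ ≤ Bad.card * M := by
          refine mul_le_mul_of_nonneg_right ?_ hM0
          exact_mod_cast hc
      _ = M * Bad.card := mul_comm _ _
  have hsplit := Finset.sum_filter_add_sum_filter_not U (fun p : Nat.Primes => (p : ℕ) ∉ Bad)
    (fun p => fF p + α * fN p)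
  have hQle : ∑ p ∈ U.filter (fun p : Nat.Primes => (p : ℕ) ∉ Bad), fQ p ≤ ∑' p, fQ p :=
    hQ.sum_le_tsum _ fun p _ => hQ0 p
  have hsum : ∑ p ∈ U, (fF p + α * fN p) = ∑ p ∈ U, fF p + α * ∑ p ∈ U, fN p := by
    rw [Finset.sum_add_distrib, Finset.mul_sum]
  have hlow : ∑ p ∈ U.filter (fun p : Nat.Primes => (p : ℕ) ∉ Bad), (fF p + α * fN p - α * fQ p)
      ≤ ∑ p ∈ U.filter (fun p : Nat.Primes => (p : ℕ) ∉ Bad), w p :=
    Finset.sum_le_sum fun p hp => hw p (Finset.mem_filter.mp hp).2
  have hexp : ∑ p ∈ U.filter (fun p : Nat.Primes => (p : ℕ) ∉ Bad), (fF p + α * fN p - α * fQ p)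
      = ∑ p ∈ U.filter (fun p : Nat.Primes => (p : ℕ) ∉ Bad), (fF p + α * fN p)
        - α * ∑ p ∈ U.filter (fun p : Nat.Primes => (p : ℕ) ∉ Bad), fQ p := by
    rw [Finset.sum_sub_distrib, Finset.mul_sum]
  have hαQ : α * ∑ p ∈ U.filter (fun p : Nat.Primes => (p : ℕ) ∉ Bad), fQ p ≤ α * ∑' p, fQ p :=
    mul_le_mul_of_nonneg_left hQle hα
  have hα2 : α * ((∑' p, fN p) - 1) ≤ α * ∑ p ∈ U, fN p := mul_le_mul_of_nonneg_left h2 hα
  rw [hexp] at hlow
  linarith

end Fermat.Agent.LT.T7.H341

end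
-- ===== PACK-END LT/T7/H341/ChebAux.lean

-- ===== PACK-BEGIN LT/T7/H621/ConjInf.lean
section



/-!
# Row LT, tower T7, leaf T7.02: the infinite places (helper621)

OFF-MAIN.  The local map of `adeleEquiv930 e` at an infinite place is, through the two
`extensionEmbedding`s, the identity or the complex conjugation; transport of the archimedean
predicates of A0 along `conjG621 s.symm`.  Sub-leaf `ConjArchC621` PROVED.
-/

set_option autoImplicit false
set_option linter.unusedSectionVars false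

open IsDedekindDomain NumberField AutomorphicForm
open scoped MatrixGroups ComplexConjugate

noncomputable section

namespace Fermat.Agent.LT.T7.H621

open Fermat.Agent.LT.H556 Fermat.Agent.LT.H556.A0 Fermat.Agent.LT.T1.H930
open NumberField.InfinitePlace

variable {K : Type} [Field K] [NumberField K]

/-! ## The key lemma -/

omit [NumberField K] in
/-- **KEY LEMMA.**  Through the embeddings into `ℂ`, the completion map at an infinite place is
the identity or the complex conjugation. -/
theorem ext_infMapHom621 (e : K ≃+* K) (w : InfinitePlace K) :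
    (∀ y : (infPull930 e w).Completion,
      Completion.extensionEmbedding w (infMapHom930 e w y)
        = Completion.extensionEmbedding (infPull930 e w) y) ∨
    (∀ y : (infPull930 e w).Completion,
      Completion.extensionEmbedding w (infMapHom930 e w y)
        = conj (Completion.extensionEmbedding (infPull930 e w) y)) := by
  set w₁ := infPull930 e w with hw₁
  have hmk : InfinitePlace.mk (w.embedding.comp (e : K →+* K)) = InfinitePlace.mk w₁.embedding := by
    rw [mk_embedding, ← comap_mk, mk_embedding]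
    rfl
  have hc1 : Continuous fun y : w₁.Completion =>
      Completion.extensionEmbedding w (infMapHom930 e w y) :=
    (Completion.isometry_extensionEmbedding w).continuous.comp (continuous_infMapHom930 e w)
  have hc2 : Continuous fun y : w₁.Completion => Completion.extensionEmbedding w₁ y :=
    (Completion.isometry_extensionEmbedding w₁).continuous
  have hcoe : ∀ x : K, Completion.extensionEmbedding w (infMapHom930 e w (x : w₁.Completion))
      = w.embedding (e x) := by
    intro x
    rw [infMapHom930_coe]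
    exact Completion.extensionEmbedding_coe w (WithAbs.toAbs _ (e x))
  have hcoe1 : ∀ x : K, Completion.extensionEmbedding w₁ (x : w₁.Completion) = w₁.embedding x :=
    fun x => Completion.extensionEmbedding_coe w₁ (WithAbs.toAbs _ x)
  rcases mk_eq_iff.mp hmk with h | h
  · left
    intro y
    refine Completion.induction_on w₁ (p := fun y =>
      Completion.extensionEmbedding w (infMapHom930 e w y)
        = Completion.extensionEmbedding w₁ y) y (isClosed_eq hc1 hc2) fun a => ?_
    have := hcoe a.ofAbs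
    have h1 := hcoe1 a.ofAbs
    have hx : w.embedding (e a.ofAbs) = w₁.embedding a.ofAbs := by
      rw [← h]; rfl
    exact this.trans (hx.trans h1.symm)
  · right
    intro y
    refine Completion.induction_on w₁ (p := fun y =>
      Completion.extensionEmbedding w (infMapHom930 e w y)
        = conj (Completion.extensionEmbedding w₁ y)) y
      (isClosed_eq hc1 (Complex.continuous_conj.comp hc2)) fun a => ?_
    have := hcoe a.ofAbs
    have h1 := hcoe1 a.ofAbs
    have hx : w.embedding (e a.ofAbs) = conj (w₁.embedding a.ofAbs) := by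
      rw [← h, ComplexEmbedding.conjugate_coe_eq, Complex.conj_conj]; rfl
    exact this.trans (hx.trans (congrArg conj h1.symm))

/-! ## Components of `conjG621` -/

theorem conjG621_fst (e : K ≃+* K) (g : G K) (i j : Fin 2) (w : InfinitePlace K) :
    ((conjG621 e g : Matrix (Fin 2) (Fin 2) (Adl K)) i j).1 w
      = infMapHom930 e w (((g : Matrix (Fin 2) (Fin 2) (Adl K)) i j).1 (infPull930 e w)) :=
  rfl

theorem conjG621_snd (e : K ≃+* K) (g : G K) (i j : Fin 2) (v : HeightOneSpectrum (𝓞 K)) :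
    ((conjG621 e g : Matrix (Fin 2) (Fin 2) (Adl K)) i j).2 v
      = finMapEquiv930 e v (((g : Matrix (Fin 2) (Fin 2) (Adl K)) i j).2 (finPull930 e v)) :=
  rfl

theorem finComp_conjG621 (e : K ≃+* K) (g : G K) (v : HeightOneSpectrum (𝓞 K)) :
    finComp v (conjG621 e g)
      = (finComp (finPull930 e v) g).map (finMapEquiv930 e v) := by
  ext i j
  rfl

theorem trivAtInf_conjG621 (e : K ≃+* K) (w : InfinitePlace K) (g : G K)
    (h : TrivAtInf (infPull930 e w) g) : TrivAtInf w (conjG621 e g) := by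
  intro i j
  rw [conjG621_fst, h i j]
  by_cases hij : i = j
  · subst hij
    simp
  · simp [Matrix.one_apply_ne hij]

theorem trivAtFin_conjG621 (e : K ≃+* K) (v : HeightOneSpectrum (𝓞 K)) (g : G K)
    (h : TrivAtFin (finPull930 e v) g) : TrivAtFin v (conjG621 e g) := by
  unfold TrivAtFin at h ⊢
  rw [finComp_conjG621, h]
  ext i j
  by_cases hij : i = j
  · subst hij
    simp
  · simp [Matrix.one_apply_ne hij]

theorem infPull930_symm_left621 (s : K ≃+* K) (w : InfinitePlace K) :
    infPull930 s.symm (infPull930 s w) = w :=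
  infPull930_symm s.symm w

theorem finPull930_symm_left621 (s : K ≃+* K) (v : HeightOneSpectrum (𝓞 K)) :
    finPull930 s.symm (finPull930 s v) = v := by
  apply HeightOneSpectrum.ext
  ext x
  show RingOfIntegers.mapRingEquiv s (RingOfIntegers.mapRingEquiv s.symm x) ∈ v.asIdeal ↔ _
  have : RingOfIntegers.mapRingEquiv s (RingOfIntegers.mapRingEquiv s.symm x) = x := by
    apply RingOfIntegers.ext
    show s (s.symm (x : K)) = x
    exact s.apply_symm_apply _
  rw [this]

theorem finPull930_symm_right621 (s : K ≃+* K) (v : HeightOneSpectrum (𝓞 K)) :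
    finPull930 s (finPull930 s.symm v) = v :=
  finPull930_symm_left621 s.symm v

/-- An element supported at the infinite place `w` goes to an element supported at `w ∘ s`. -/
theorem isLocalAtInf_conjG621 (s : K ≃+* K) (w : InfinitePlace K) (g : G K)
    (h : IsLocalAtInf w g) : IsLocalAtInf (infPull930 s w) (conjG621 s.symm g) := by
  refine ⟨fun w₀ hw₀ => trivAtInf_conjG621 _ _ _ (h.1 _ fun hEq => hw₀ ?_),
    fun v => trivAtFin_conjG621 _ _ _ (h.2 _)⟩
  rw [← hEq]
  exact (infPull930_symm s w₀).symm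

/-- An element supported at the finite place `v'` goes to an element supported at `s⁻¹ v'`. -/
theorem isLocalAtFin_conjG621 (s : K ≃+* K) (v' : HeightOneSpectrum (𝓞 K)) (g : G K)
    (h : IsLocalAtFin v' g) : IsLocalAtFin (finPull930 s v') (conjG621 s.symm g) := by
  refine ⟨fun w => trivAtInf_conjG621 _ _ _ (h.1 _),
    fun v hv => trivAtFin_conjG621 _ _ _ (h.2 _ fun hEq => hv ?_)⟩
  rw [← hEq]
  exact (finPull930_symm_right621 s v).symm

theorem infComp_conjG621_aux (e : K ≃+* K) (w₀ w' : InfinitePlace K)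
    (h : infPull930 e w₀ = w') :
    (∀ g : G K, infComp w₀ (conjG621 e g) = infComp w' g) ∨
    (∀ g : G K, infComp w₀ (conjG621 e g) = (infComp w' g).map conj) := by
  subst h
  rcases ext_infMapHom621 e w₀ with h | h
  · left
    intro g
    ext i j
    exact h _
  · right
    intro g
    ext i j
    exact h _

/-- Through the embeddings, the component of `s⁻¹ g` at `w ∘ s` is the component of `g` at `w`
or its complex conjugate (uniformly in `g`). -/
theorem infComp_conjG621 (s : K ≃+* K) (w : InfinitePlace K) :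
    (∀ g : G K, infComp (infPull930 s w) (conjG621 s.symm g) = infComp w g) ∨
    (∀ g : G K, infComp (infPull930 s w) (conjG621 s.symm g) = (infComp w g).map conj) :=
  infComp_conjG621_aux s.symm (infPull930 s w) w (infPull930_symm_left621 s w)

/-! ## `ConjArchC621` -/

theorem map_conj_mul_conjTranspose621 (M : Matrix (Fin 2) (Fin 2) ℂ)
    (h : M * M.conjTranspose = 1) : M.map conj * (M.map conj).conjTranspose = 1 := by
  have h1 : (M.map conj).conjTranspose = (M.conjTranspose).map conj := by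
    ext i j
    simp [Matrix.conjTranspose_apply]
  rw [h1]
  have h2 : M.map conj * (M.conjTranspose).map conj = (M * M.conjTranspose).map conj := by
    rw [← RingHom.mapMatrix_apply, ← RingHom.mapMatrix_apply, ← RingHom.mapMatrix_apply, map_mul]
  rw [h2, h]
  ext i j
  by_cases hij : i = j
  · subst hij; simp
  · simp [Matrix.one_apply_ne hij]

theorem det_map_conj621 (M : Matrix (Fin 2) (Fin 2) ℂ) : (M.map conj).det = conj M.det := by
  rw [← RingHom.mapMatrix_apply, ← RingHom.map_det]

/-- **T7.02.3 `ConjArchC621`, PROVED.** -/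
theorem conjArchC621 (K : Type) [Field K] [NumberField K] : ConjArchC621 K := by
  intro s w z
  constructor
  · rintro ⟨hloc, r, hr, hz⟩
    refine ⟨isLocalAtInf_conjG621 s w z hloc, r, hr, ?_⟩
    rcases infComp_conjG621 s w with h | h
    · rw [h, hz]
    · rw [h, hz]
      ext i j
      by_cases hij : i = j
      · subst hij; simp
      · simp [Matrix.diagonal_apply_ne _ hij]
  · rintro ⟨hloc, hu, hdet⟩
    have hreal : (infPull930 s w).IsReal → w.IsReal := fun h =>
      (isReal_comap_iff (k := K) (K := K) s (w := w)).mp h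
    refine ⟨isLocalAtInf_conjG621 s w z hloc, ?_, ?_⟩
    · rcases infComp_conjG621 s w with h | h
      · rw [h]; exact hu
      · rw [h]; exact map_conj_mul_conjTranspose621 _ hu
    · intro hR
      rcases infComp_conjG621 s w with h | h
      · rw [h]; exact hdet (hreal hR)
      · rw [h, det_map_conj621, hdet (hreal hR), map_one]

end Fermat.Agent.LT.T7.H621

end

end
-- ===== PACK-END LT/T7/H621/ConjInf.lean

-- ===== PACK-BEGIN LT/T7/H637/ConjPlace.lean
section



/-!
# Row LT, tower T7, sub-leaf T7.02.1 `ConjPlaceC621` (helper637)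

OFF-MAIN.  Proof of the frozen Prop `Fermat.Agent.LT.T7.H621.ConjPlaceC621 K` of
`LT/T7/H621/ConjSpec.lean` (helper621@c8d835172, byte-identical copy), for every number field `K`:

1. `PlaceImage s v v' → v = finPull930 s v'` (both primes have the same underlying ideal);
2. `¬ v' ∣ s(𝔫) → ¬ s⁻¹ v' ∣ 𝔫` (divisibility of ideals of a Dedekind domain is containment);
3. `w ↦ w ∘ s` preserves the type of an infinite place.

Mathlib and the Spec closure only.  No `sorry`.
-/

set_option autoImplicit false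
set_option linter.unusedSectionVars false

open IsDedekindDomain NumberField

noncomputable section

namespace Fermat.Agent.LT.T7.H637

open Fermat.Agent.LT.T1.H930 Fermat.Agent.LT.T7.H621

variable {K : Type} [Field K] [NumberField K]

/-- The underlying ideal of `finPull930 s v'`, elementwise. -/
theorem mem_finPull637 (s : K ≃+* K) (v' : HeightOneSpectrum (𝓞 K)) (x : 𝓞 K) :
    x ∈ (finPull930 s v').asIdeal ↔ RingOfIntegers.mapRingEquiv s x ∈ v'.asIdeal :=
  Iff.rfl

/-- `s (s⁻¹ y) = y` on the ring of integers. -/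
theorem mapRingEquiv_symm_cancel637 (s : K ≃+* K) (y : 𝓞 K) :
    RingOfIntegers.mapRingEquiv s (RingOfIntegers.mapRingEquiv s.symm y) = y := by
  apply RingOfIntegers.ext
  show s (s.symm (y : K)) = y
  exact s.apply_symm_apply _

/-- Part (1): `PlaceImage s v v'` forces `v = s⁻¹ v'`. -/
theorem eq_finPull_of_placeImage637 (s : K ≃+* K) (v v' : HeightOneSpectrum (𝓞 K))
    (h : T7.PlaceImage s v v') : v = finPull930 s v' := by
  apply HeightOneSpectrum.ext
  ext x
  rw [mem_finPull637]
  exact h x (RingOfIntegers.mapRingEquiv s x) rfl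

/-- Part (2), positive form: `s⁻¹ v' ∣ 𝔫 → v' ∣ s(𝔫)`. -/
theorem dvd_conjLevel_of_finPull_dvd637 (s : K ≃+* K) (𝔫 : Ideal (𝓞 K))
    (v' : HeightOneSpectrum (𝓞 K)) (h : (finPull930 s v').asIdeal ∣ 𝔫) :
    v'.asIdeal ∣ conjLevel621 s 𝔫 := by
  rw [Ideal.dvd_iff_le] at h ⊢
  intro y hy
  rw [mem_conjLevel621] at hy
  have h1 := h hy
  rw [mem_finPull637, mapRingEquiv_symm_cancel637] at h1
  exact h1

/-- Part (3): `w ∘ s` is complex if `w` is, real if `w` is. -/
theorem infPull_type637 (s : K ≃+* K) (w : InfinitePlace K) :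
    (w.IsComplex → (infPull930 s w).IsComplex) ∧ (w.IsReal → (infPull930 s w).IsReal) := by
  have hR : (infPull930 s w).IsReal ↔ w.IsReal := InfinitePlace.isReal_comap_iff s
  refine ⟨fun hw => ?_, fun hw => hR.2 hw⟩
  rw [← InfinitePlace.not_isReal_iff_isComplex] at hw ⊢
  exact fun h => hw (hR.1 h)

/-- **T7.02.1 `ConjPlaceC621`**, for every number field. -/
theorem conjPlaceC637 (K : Type) [Field K] [NumberField K] : ConjPlaceC621 K := by
  intro s
  refine ⟨fun v v' h => eq_finPull_of_placeImage637 s v v' h, fun 𝔫 v' h h' => ?_,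
    fun w => infPull_type637 s w⟩
  exact h (dvd_conjLevel_of_finPull_dvd637 s 𝔫 v' h')

end Fermat.Agent.LT.T7.H637

end

end
-- ===== PACK-END LT/T7/H637/ConjPlace.lean

-- ===== PACK-BEGIN LT/T7/H362/ConjLevel.lean
section



/-!
# Row LT, tower T7, sub-leaf T7.02.2 `ConjLevelC621` (helper362), OFF-MAIN

`u ∈ U(s(𝔫)) → s⁻¹(u) ∈ U(𝔫)`: the principal congruence subgroup of level `s(𝔫)` goes to the one
of level `𝔫` under the adelic automorphism `conjG621 s.symm` induced by `s⁻¹`.

Proof: transport of structure along `adeleEquiv930 s.symm`.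
* infinite places: the component at `w` of `s⁻¹ u` is the image of the component of `u` at
  `infPull930 s.symm w` under the ring homomorphism `infMapHom930 s.symm w`, and the entries of
  the identity matrix are `0` or `1`;
* finite places: the component at `v` of `s⁻¹ u` is the image of the component of `u` at
  `v' = finPull930 s.symm v` under `finMapEquiv930 s.symm v`, which is continuous and maps the
  image of `s(𝔫)` in `K_{v'}` into the image of `𝔫` in `K_v`; hence it maps the closure into the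
  closure.

No hole; Mathlib + the Spec closure of helper621 (`ConjSpec.lean`, byte-identical copy).
-/

set_option autoImplicit false

open IsDedekindDomain NumberField AutomorphicForm
open scoped MatrixGroups

noncomputable section

namespace Fermat.Agent.LT.T7.H362

open Fermat.Agent.LT.H556 Fermat.Agent.LT.H556.A0 Fermat.Agent.LT.T1.H930
open Fermat.Agent.LT.T7.H621

variable {K : Type} [Field K] [NumberField K]

/-- The entries of the identity matrix are preserved by a ring homomorphism. -/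
theorem map_one_entry362 {A B : Type*} [Semiring A] [Semiring B] (f : A →+* B) (i j : Fin 2) :
    f ((1 : Matrix (Fin 2) (Fin 2) A) i j) = (1 : Matrix (Fin 2) (Fin 2) B) i j := by
  by_cases h : i = j
  · subst h
    rw [Matrix.one_apply_eq, Matrix.one_apply_eq, map_one]
  · rw [Matrix.one_apply_ne h, Matrix.one_apply_ne h, map_zero]

/-- The finite component of `s⁻¹ g` at `v` is the image of the component of `g` at
`finPull930 s.symm v`. -/
theorem finComp_conjG362 (s : K ≃+* K) (v : HeightOneSpectrum (𝓞 K)) (g : G K) (i j : Fin 2) :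
    finComp v (conjG621 s.symm g) i j
      = finMapEquiv930 s.symm v (finComp (finPull930 s.symm v) g i j) :=
  rfl

/-- The infinite component of `s⁻¹ g` at `w` is the image of the component of `g` at
`infPull930 s.symm w`. -/
theorem infEntry_conjG362 (s : K ≃+* K) (w : InfinitePlace K) (g : G K) (i j : Fin 2) :
    ((conjG621 s.symm g : Matrix (Fin 2) (Fin 2) (Adl K)) i j).1 w
      = infMapHom930 s.symm w
          (((g : Matrix (Fin 2) (Fin 2) (Adl K)) i j).1 (infPull930 s.symm w)) :=
  rfl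

/-- The local isomorphism `K_{s v} → K_v` maps the closure of `s(𝔫)` into the closure of `𝔫`. -/
theorem finMapEquiv_mem_idealClosure362 (s : K ≃+* K) (𝔫 : Ideal (𝓞 K))
    (v : HeightOneSpectrum (𝓞 K)) (x : (finPull930 s.symm v).adicCompletion K)
    (hx : x ∈ idealClosure (conjLevel621 s 𝔫) (finPull930 s.symm v)) :
    finMapEquiv930 s.symm v x ∈ idealClosure 𝔫 v := by
  have hcont : Continuous (finMapEquiv930 s.symm v) := continuous_finMapEquiv930 s.symm v
  have h1 : finMapEquiv930 s.symm v x ∈ (finMapEquiv930 s.symm v) ''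
      (idealClosure (conjLevel621 s 𝔫) (finPull930 s.symm v)) := ⟨x, hx, rfl⟩
  have h2 := image_closure_subset_closure_image hcont h1
  refine closure_mono ?_ h2
  rintro _ ⟨_, ⟨y, hy, rfl⟩, rfl⟩
  refine ⟨RingOfIntegers.mapRingEquiv s.symm y, (mem_conjLevel621 s 𝔫 y).1 hy, ?_⟩
  exact (finMapEquiv930_coe s.symm v ((algebraMap (𝓞 K) K) y)).symm

/-- **T7.02.2 LEVEL**: `u ∈ U(s(𝔫)) → s⁻¹(u) ∈ U(𝔫)`. -/
theorem conjLevelC362 (K : Type) [Field K] [NumberField K] : ConjLevelC621 K := by
  intro s 𝔫 u hu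
  obtain ⟨hinf, hfin⟩ := hu
  refine ⟨fun w i j => ?_, fun v i j => ⟨?_, ?_⟩⟩
  · rw [infEntry_conjG362, hinf (infPull930 s.symm w) i j]
    exact map_one_entry362 (infMapHom930 s.symm w) i j
  · have h := (hfin (finPull930 s.symm v) i j).1
    have key : (finComp v (conjG621 s.symm u) - 1) i j
        = finMapEquiv930 s.symm v ((finComp (finPull930 s.symm v) u - 1) i j) := by
      rw [Matrix.sub_apply, Matrix.sub_apply, map_sub, finComp_conjG362]
      congr 1
      exact (map_one_entry362 (finMapEquiv930 s.symm v).toRingHom i j).symm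
    rw [key]
    exact finMapEquiv_mem_idealClosure362 s 𝔫 v _ h
  · have h := (hfin (finPull930 s.symm v) i j).2
    have hinv : (conjG621 s.symm u)⁻¹ = conjG621 s.symm u⁻¹ := (map_inv _ _).symm
    have key : (finComp v (conjG621 s.symm u)⁻¹ - 1) i j
        = finMapEquiv930 s.symm v ((finComp (finPull930 s.symm v) u⁻¹ - 1) i j) := by
      rw [hinv, Matrix.sub_apply, Matrix.sub_apply, map_sub, finComp_conjG362]
      congr 1
      exact (map_one_entry362 (finMapEquiv930 s.symm v).toRingHom i j).symm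
    rw [key]
    exact finMapEquiv_mem_idealClosure362 s 𝔫 v _ h

end Fermat.Agent.LT.T7.H362

end

end
-- ===== PACK-END LT/T7/H362/ConjLevel.lean

-- ===== PACK-BEGIN LT/T7/H122/ConjCusp.lean
section



/-!
# Row LT, tower T7, sub-leaf T7.02.5 `ConjCuspC621` (helper122)

OFF-MAIN.  The vanishing of the constant term is transported along the adelic automorphism
`adeleEquiv930 s.symm`: the image of a Haar measure is a Haar measure, the image of a
fundamental domain of `K` is a fundamental domain of `K`, and the unipotent family is transported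
to a unipotent family.
-/

set_option autoImplicit false
set_option linter.style.haveILetI false

open IsDedekindDomain NumberField AutomorphicForm MeasureTheory
open scoped MatrixGroups

noncomputable section

namespace Fermat.Agent.LT.T7.H122

open Fermat.Agent.LT.H556 Fermat.Agent.LT.H556.A0 Fermat.Agent.LT.T1.H930
  Fermat.Agent.LT.T7.H621

variable {K : Type} [Field K] [NumberField K]

/-- The range of `K` in the adeles is stable under `adeleEquiv930 s`. -/
theorem mem_range_adeleEquiv122 (s : K ≃+* K) (a : Adl K) :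
    a ∈ (algebraMap K (Adl K)).toAddMonoidHom.range ↔
      adeleEquiv930 s a ∈ (algebraMap K (Adl K)).toAddMonoidHom.range := by
  constructor
  · rintro ⟨k, rfl⟩
    exact ⟨s k, (adeleEquiv930_algebraMap s k).symm⟩
  · rintro ⟨k, hk⟩
    refine ⟨s.symm k, ?_⟩
    have h1 : adeleEquiv930 s.symm (adeleEquiv930 s a) = a := adeleEquiv930_symm_apply_apply s a
    rw [← h1, ← hk]
    exact (adeleEquiv930_algebraMap s.symm k).symm

/-- The permutation of the range of `K` induced by `adeleEquiv930 s`. -/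
def rangeEquiv122 (s : K ≃+* K) :
    (algebraMap K (Adl K)).toAddMonoidHom.range ≃ (algebraMap K (Adl K)).toAddMonoidHom.range :=
  Equiv.subtypeEquiv (adeleEquiv930 s).toEquiv (fun a => mem_range_adeleEquiv122 s a)

theorem rangeEquiv122_coe (s : K ≃+* K) (k : (algebraMap K (Adl K)).toAddMonoidHom.range) :
    ((rangeEquiv122 s k : (algebraMap K (Adl K)).toAddMonoidHom.range) : Adl K)
      = adeleEquiv930 s (k : Adl K) := rfl

/-- The matrix of the transported unipotent element. -/
theorem conjG621_unip122 (s : K ≃+* K) (u : G K) (x : Adl K)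
    (hu : (u : Matrix (Fin 2) (Fin 2) (Adl K)) = !![1, x; 0, 1]) :
    (conjG621 s u : Matrix (Fin 2) (Fin 2) (Adl K)) = !![1, adeleEquiv930 s x; 0, 1] := by
  ext i j
  rw [conjG621_apply, hu]
  fin_cases i <;> fin_cases j <;> simp

/-- **T7.02.5 CUSP.** -/
theorem conjCuspC122 (K : Type) [Field K] [NumberField K] : ConjCuspC621 K := by
  intro s φ hφ
  letI : MeasurableSpace (Adl K) := borel (Adl K)
  haveI : BorelSpace (Adl K) := ⟨rfl⟩
  intro μ hμ D hD n hn g
  haveI := hμ
  -- the homeomorphism `e = s⁻¹` of the adeles, as a measurable equivalence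
  let e : Adl K ≃ᵐ Adl K := (adeleHomeo930 (K := K) (L := K) s.symm).toMeasurableEquiv
  have he_apply : ∀ x : Adl K, e x = adeleEquiv930 s.symm x := fun x => rfl
  have he_symm_apply : ∀ x : Adl K, e.symm x = adeleEquiv930 s x := fun x => rfl
  -- the transported measure is a Haar measure
  have hμ' : (μ.map e).IsAddHaarMeasure :=
    AddEquiv.isAddHaarMeasure_map μ ((adeleEquiv930 (K := K) (L := K) s.symm).toAddEquiv)
      (continuous_adeleEquiv930 s.symm) (continuous_adeleEquiv930 s)
  -- the transported fundamental domain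
  have hmp : MeasurePreserving e.symm (μ.map e) μ := by
    refine ⟨e.symm.measurable, ?_⟩
    rw [Measure.map_map e.symm.measurable e.measurable]
    simp
  have hD' : IsAddFundamentalDomain ((algebraMap K (Adl K)).toAddMonoidHom.range) (e '' D)
      (μ.map e) := by
    refine hD.image_of_equiv e.toEquiv hmp.quasiMeasurePreserving (rangeEquiv122 s) ?_
    intro k x
    show e ((rangeEquiv122 s k : (algebraMap K (Adl K)).toAddMonoidHom.range) +ᵥ x) = k +ᵥ e x
    rw [AddSubgroup.vadd_def, AddSubgroup.vadd_def, rangeEquiv122_coe, he_apply, he_apply,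
      vadd_eq_add, vadd_eq_add, map_add, adeleEquiv930_symm_apply_apply]
  -- the transported unipotent family
  let n' : Adl K → G K := fun y => conjG621 s.symm (n (adeleEquiv930 s y))
  have hn' : ∀ y : Adl K, (n' y : Matrix (Fin 2) (Fin 2) (Adl K)) = !![1, y; 0, 1] := by
    intro y
    show (conjG621 s.symm (n (adeleEquiv930 s y)) : Matrix (Fin 2) (Fin 2) (Adl K)) = _
    rw [conjG621_unip122 s.symm _ _ (hn _), adeleEquiv930_symm_apply_apply]
  have key := hφ (μ.map e) hμ' (e '' D) hD' n' hn' (conjG621 s.symm g)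
  rw [setIntegral_map_equiv e, e.injective.preimage_image] at key
  rw [← key]
  refine setIntegral_congr_fun₀ hD.nullMeasurableSet ?_
  intro x _
  show φ (conjG621 s.symm (n x * g)) = φ (n' (e x) * conjG621 s.symm g)
  rw [map_mul]
  show _ = φ (conjG621 s.symm (n (adeleEquiv930 s (e x))) * conjG621 s.symm g)
  rw [he_apply, adeleEquiv930_apply_symm_apply]

end Fermat.Agent.LT.T7.H122

end

end
-- ===== PACK-END LT/T7/H122/ConjCusp.lean

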