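import Mathlib
import Fermat.Agent.Pack.LT2.E11L2
import Fermat.Agent.Pack.LT2.E11L0

set_option linter.all false

-- ===== PACK-BEGIN LT/T7/H27/EulerIdeal.lean
section



/-!
# Row LT, tower T7, node T7.14 `RigidC`, leaf `EulerLogC`: EULER PRODUCT OVER IDEALS (helper27)

OFF-MAIN.  Mathlib + the vocabulary of `LT/T7/H62/RigidPkg.lean` (`ordAt`) only.

* `IT27 T` : the nonzero ideals all of whose prime divisors lie in the finite set `T` of places;
* `mulPow27_bijective` : `(m, 𝔟) ↦ v ^ m * 𝔟` is a bijection `ℕ × IT27 T → IT27 (insert v T)`, `v ∉ T`;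
* `hasSum_IT27` : for `h` multiplicative with local data `τ`, `∑_{𝔞 ∈ IT27 T} h 𝔞 = ∏_{v ∈ T} ∑_m τ v m`;
* `summable_of_local27`, `tendsto_prod27` : absolute summability over all ideals and the limit.
-/

set_option autoImplicit false

open IsDedekindDomain NumberField Filter Topology

noncomputable section

namespace Fermat.Agent.LT.T7.H27

open Fermat.Agent.LT.T7.Rigid

variable {K : Type} [Field K] [NumberField K]

/-! ## Multiplicities -/

theorem irreducible_mk27 (v : HeightOneSpectrum (𝓞 K)) :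
    Irreducible (Associates.mk v.asIdeal) :=
  Associates.irreducible_mk.mpr v.irreducible

theorem ordAt_mul27 (v : HeightOneSpectrum (𝓞 K)) {I J : Ideal (𝓞 K)} (hI : I ≠ ⊥)
    (hJ : J ≠ ⊥) : ordAt v (I * J) = ordAt v I + ordAt v J := by
  unfold ordAt
  rw [← Associates.mk_mul_mk]
  exact Associates.count_mul (Associates.mk_ne_zero.mpr hI) (Associates.mk_ne_zero.mpr hJ)
    (irreducible_mk27 v)

theorem ordAt_pow_self27 (v : HeightOneSpectrum (𝓞 K)) (m : ℕ) :
    ordAt v (v.asIdeal ^ m) = m := by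
  unfold ordAt
  rw [Associates.mk_pow, Associates.count_pow (Associates.mk_ne_zero.mpr v.ne_bot)
    (irreducible_mk27 v), Associates.count_self (irreducible_mk27 v), mul_one]

theorem ordAt_pow_of_ne27 {v w : HeightOneSpectrum (𝓞 K)} (h : w ≠ v) (m : ℕ) :
    ordAt w (v.asIdeal ^ m) = 0 := by
  unfold ordAt
  have hne : Associates.mk w.asIdeal ≠ Associates.mk v.asIdeal := by
    intro he
    apply h
    rw [Associates.mk_eq_mk_iff_associated, associated_iff_eq] at he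
    exact HeightOneSpectrum.ext he
  rw [Associates.mk_pow, Associates.count_pow (Associates.mk_ne_zero.mpr v.ne_bot)
    (irreducible_mk27 w), Associates.count_eq_zero_of_ne (irreducible_mk27 w)
    (irreducible_mk27 v) hne, mul_zero]

theorem ordAt_ne_zero_iff27 (v : HeightOneSpectrum (𝓞 K)) {I : Ideal (𝓞 K)} (hI : I ≠ ⊥) :
    ordAt v I ≠ 0 ↔ I ≤ v.asIdeal := by
  unfold ordAt
  rw [Associates.count_ne_zero_iff_dvd hI v.irreducible, Ideal.dvd_iff_le]

theorem ordAt_eq_zero_iff27 (v : HeightOneSpectrum (𝓞 K)) {I : Ideal (𝓞 K)} (hI : I ≠ ⊥) :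
    ordAt v I = 0 ↔ ¬ I ≤ v.asIdeal := by
  rw [← ordAt_ne_zero_iff27 v hI, not_not]

theorem pow_ordAt_dvd27 (v : HeightOneSpectrum (𝓞 K)) {I : Ideal (𝓞 K)} (hI : I ≠ ⊥) :
    v.asIdeal ^ ordAt v I ∣ I := by
  have h := (Associates.prime_pow_dvd_iff_le (Associates.mk_ne_zero.mpr hI)
    (irreducible_mk27 v) (k := ordAt v I)).mpr le_rfl
  rw [← Associates.mk_pow] at h
  exact Associates.mk_le_mk_iff_dvd.mp h

theorem le_eq_of_places27 {v w : HeightOneSpectrum (𝓞 K)} (h : v.asIdeal ≤ w.asIdeal) : w = v :=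
  HeightOneSpectrum.ext (v.isMaximal.eq_of_le w.isPrime.ne_top h).symm

/-! ## `T`-factored ideals -/

/-- The nonzero ideals all of whose prime divisors lie in `T`. -/
def IT27 (T : Finset (HeightOneSpectrum (𝓞 K))) : Set (Ideal (𝓞 K)) :=
  {I | I ≠ ⊥ ∧ ∀ v : HeightOneSpectrum (𝓞 K), I ≤ v.asIdeal → v ∈ T}

theorem IT27_mono {T T' : Finset (HeightOneSpectrum (𝓞 K))} (h : T ⊆ T') : IT27 T ⊆ IT27 T' :=
  fun _ hI => ⟨hI.1, fun v hv => h (hI.2 v hv)⟩

theorem top_mem_IT27 (T : Finset (HeightOneSpectrum (𝓞 K))) : (⊤ : Ideal (𝓞 K)) ∈ IT27 T :=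
  ⟨top_ne_bot, fun v hv => absurd (top_le_iff.mp hv) v.isPrime.ne_top⟩

theorem IT27_empty : IT27 (∅ : Finset (HeightOneSpectrum (𝓞 K))) = {⊤} := by
  ext I
  constructor
  · rintro ⟨hI, hI'⟩
    by_contra hne
    obtain ⟨M, hM, hIM⟩ := Ideal.exists_le_maximal I hne
    have hMbot : M ≠ ⊥ := fun h => hI (le_bot_iff.mp (h ▸ hIM))
    have := hI' ⟨M, hM.isPrime, hMbot⟩ hIM
    simp at this
  · rintro rfl
    exact top_mem_IT27 _

theorem mulPow_mem27 {T : Finset (HeightOneSpectrum (𝓞 K))} (v : HeightOneSpectrum (𝓞 K))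
    [DecidableEq (HeightOneSpectrum (𝓞 K))]
    {J : Ideal (𝓞 K)} (hJ : J ∈ IT27 T) (m : ℕ) : v.asIdeal ^ m * J ∈ IT27 (insert v T) := by
  refine ⟨mul_ne_zero (pow_ne_zero m v.ne_bot) hJ.1, fun w hw => ?_⟩
  rcases (w.isPrime.mul_le).mp hw with h | h
  · have := w.isPrime.le_of_pow_le h
    rw [le_eq_of_places27 this]
    exact Finset.mem_insert_self _ _
  · exact Finset.mem_insert_of_mem (hJ.2 w h)

theorem ordAt_eq_zero_of_mem27 {T : Finset (HeightOneSpectrum (𝓞 K))}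
    {v : HeightOneSpectrum (𝓞 K)} (hv : v ∉ T) {J : Ideal (𝓞 K)} (hJ : J ∈ IT27 T) :
    ordAt v J = 0 :=
  (ordAt_eq_zero_iff27 v hJ.1).mpr fun h => hv (hJ.2 v h)

theorem ordAt_mulPow27 {T : Finset (HeightOneSpectrum (𝓞 K))}
    {v : HeightOneSpectrum (𝓞 K)} (hv : v ∉ T) {J : Ideal (𝓞 K)} (hJ : J ∈ IT27 T) (m : ℕ) :
    ordAt v (v.asIdeal ^ m * J) = m := by
  rw [ordAt_mul27 v (pow_ne_zero m v.ne_bot) hJ.1, ordAt_pow_self27,
    ordAt_eq_zero_of_mem27 hv hJ, add_zero]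

theorem ordAt_mulPow_of_ne27 {v w : HeightOneSpectrum (𝓞 K)} (h : w ≠ v) {J : Ideal (𝓞 K)}
    (hJ : J ≠ ⊥) (m : ℕ) : ordAt w (v.asIdeal ^ m * J) = ordAt w J := by
  rw [ordAt_mul27 w (pow_ne_zero m v.ne_bot) hJ, ordAt_pow_of_ne27 h, zero_add]

section Equiv

variable [DecidableEq (HeightOneSpectrum (𝓞 K))]

/-- `(m, 𝔟) ↦ v ^ m * 𝔟`. -/
def mulPow27 (T : Finset (HeightOneSpectrum (𝓞 K))) (v : HeightOneSpectrum (𝓞 K)) :
    ℕ × IT27 T → IT27 (insert v T) :=
  fun p => ⟨v.asIdeal ^ p.1 * (p.2 : Ideal (𝓞 K)), mulPow_mem27 v p.2.2 p.1⟩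

theorem mulPow27_coe (T : Finset (HeightOneSpectrum (𝓞 K))) (v : HeightOneSpectrum (𝓞 K))
    (p : ℕ × IT27 T) :
    ((mulPow27 T v p : IT27 (insert v T)) : Ideal (𝓞 K)) = v.asIdeal ^ p.1 * (p.2 : Ideal (𝓞 K)) :=
  rfl

theorem mulPow27_bijective (T : Finset (HeightOneSpectrum (𝓞 K)))
    {v : HeightOneSpectrum (𝓞 K)} (hv : v ∉ T) : Function.Bijective (mulPow27 T v) := by
  constructor
  · rintro ⟨m, J, hJ⟩ ⟨m', J', hJ'⟩ h
    have h' : v.asIdeal ^ m * J = v.asIdeal ^ m' * J' := congrArg Subtype.val h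
    have hm : m = m' := by
      have := congrArg (ordAt v) h'
      rwa [ordAt_mulPow27 hv hJ, ordAt_mulPow27 hv hJ'] at this
    subst hm
    have hJJ : J = J' := mul_left_cancel₀ (pow_ne_zero m v.ne_bot) h'
    subst hJJ
    rfl
  · rintro ⟨I, hI⟩
    obtain ⟨J, hJ⟩ := pow_ordAt_dvd27 v hI.1
    have hJ0 : J ≠ ⊥ := by
      rintro rfl
      apply hI.1
      rw [hJ]
      simp
    have hord : ordAt v J = 0 := by
      have := congrArg (ordAt v) hJ
      rw [ordAt_mul27 v (pow_ne_zero _ v.ne_bot) hJ0, ordAt_pow_self27] at this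
      omega
    have hJmem : J ∈ IT27 T := by
      refine ⟨hJ0, fun w hw => ?_⟩
      have hIw : I ≤ w.asIdeal := by
        rw [hJ]
        exact (Ideal.mul_le_inf.trans inf_le_right).trans hw
      rcases Finset.mem_insert.mp (hI.2 w hIw) with h | h
      · subst h
        exact absurd hw ((ordAt_eq_zero_iff27 w hJ0).mp hord)
      · exact h
    exact ⟨(ordAt v I, ⟨J, hJmem⟩), Subtype.ext hJ.symm⟩

end Equiv

/-! ## The finite Euler product -/

section Sum

variable {R : Type*} [NormedCommRing R] [CompleteSpace R]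

/-- **Finite Euler product over ideals.**  If `h ⊤ = 1` and `h (v ^ m * J) = τ v m * h J` for
`J` a `T`-factored ideal and `v ∉ T`, then `∑_{I ∈ IT27 T} h I = ∏_{v ∈ T} ∑_m τ v m`, absolutely. -/
theorem hasSum_IT27 [DecidableEq (HeightOneSpectrum (𝓞 K))] (h : Ideal (𝓞 K) → R)
    (τ : HeightOneSpectrum (𝓞 K) → ℕ → R) (h1 : h ⊤ = 1)
    (hmul : ∀ (T : Finset (HeightOneSpectrum (𝓞 K))) (v : HeightOneSpectrum (𝓞 K)), v ∉ T →
      ∀ J ∈ IT27 T, ∀ m : ℕ, h (v.asIdeal ^ m * J) = τ v m * h J)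
    (hsum : ∀ v, Summable (fun m => ‖τ v m‖)) (T : Finset (HeightOneSpectrum (𝓞 K))) :
    Summable (fun I : IT27 T => ‖h I‖) ∧
      HasSum (fun I : IT27 T => h I) (∏ v ∈ T, ∑' m, τ v m) := by
  induction T using Finset.induction with
  | empty =>
    rw [IT27_empty]
    simp only [Finset.prod_empty]
    exact ⟨(Set.finite_singleton ⊤).summable (‖h ·‖), h1 ▸ hasSum_singleton ⊤ h⟩
  | insert v T hv ih =>
    let e := Equiv.ofBijective (mulPow27 T v) (mulPow27_bijective T hv)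
    have hcomp : ∀ p : ℕ × IT27 T, h ((e p : IT27 (insert v T)) : Ideal (𝓞 K))
        = τ v p.1 * h (p.2 : Ideal (𝓞 K)) := by
      intro p
      show h (v.asIdeal ^ p.1 * (p.2 : Ideal (𝓞 K))) = _
      exact hmul T v hv _ p.2.2 p.1
    constructor
    · rw [← e.summable_iff]
      refine Summable.of_nonneg_of_le (fun _ => norm_nonneg _) (fun p => ?_)
        (Summable.mul_of_nonneg (hsum v) ih.1 (fun _ => norm_nonneg _) (fun _ => norm_nonneg _))
      show ‖h ((e p : IT27 (insert v T)) : Ideal (𝓞 K))‖ ≤ _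
      rw [hcomp]
      exact norm_mul_le _ _
    · rw [Finset.prod_insert hv, ← e.hasSum_iff]
      have h2 := (hsum v).of_norm.hasSum.mul ih.2
        (summable_mul_of_summable_norm (hsum v) ih.1)
      have h3 : ((fun I : IT27 (insert v T) => h I) ∘ e)
          = fun p : ℕ × IT27 T => τ v p.1 * h (p.2 : Ideal (𝓞 K)) := funext hcomp
      rw [h3]
      exact h2

end Sum

/-! ## From the finite products to the sum over all ideals -/

open Classical in
/-- The places dividing some nonzero ideal of the finite set `A`. -/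
def placesOf27 (A : Finset (Ideal (𝓞 K))) : Finset (HeightOneSpectrum (𝓞 K)) :=
  A.biUnion fun I => if hI : I = ⊥ then ∅ else
    (Ideal.finite_factors (R := 𝓞 K) (I := I) hI).toFinset

theorem mem_IT27_placesOf27 {A : Finset (Ideal (𝓞 K))} {I : Ideal (𝓞 K)} (hIA : I ∈ A)
    (hI : I ≠ ⊥) : I ∈ IT27 (placesOf27 A) := by
  classical
  refine ⟨hI, fun v hv => ?_⟩
  unfold placesOf27
  rw [Finset.mem_biUnion]
  refine ⟨I, hIA, ?_⟩
  rw [dif_neg hI, Set.Finite.mem_toFinset]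
  exact Ideal.dvd_iff_le.mpr hv

/-- Absolute summability over all ideals from a uniform bound of the sums over the
`T`-factored ideals. -/
theorem summable_of_IT27 (h : Ideal (𝓞 K) → ℝ) (hnn : ∀ I, 0 ≤ h I) (h0 : h ⊥ = 0) (B : ℝ)
    (hB : ∀ T : Finset (HeightOneSpectrum (𝓞 K)),
      ∃ σ : ℝ, HasSum (fun I : IT27 T => h I) σ ∧ σ ≤ B) : Summable h := by
  classical
  refine summable_of_sum_le hnn (c := B) (fun A => ?_)
  obtain ⟨σ, hσ, hσB⟩ := hB (placesOf27 A)
  have h1 : ∑ I ∈ A, h I = ∑ I ∈ A.filter (· ∈ IT27 (placesOf27 A)), h I := by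
    symm
    refine Finset.sum_filter_of_ne (fun I hIA hne => ?_)
    refine mem_IT27_placesOf27 hIA (fun hbot => hne ?_)
    rw [hbot, h0]
  have h2 : ∑ I ∈ A.filter (· ∈ IT27 (placesOf27 A)), h I
      = ∑ x ∈ Finset.subtype (· ∈ IT27 (placesOf27 A)) A, h x := by
    rw [Finset.sum_subtype_eq_sum_filter]
  rw [h1, h2]
  exact le_trans (sum_le_hasSum _ (fun _ _ => hnn _) hσ) hσB

/-- The sums over the `T`-factored ideals tend to the sum over all ideals. -/
theorem tendsto_IT27 {R : Type*} [NormedAddCommGroup R] [CompleteSpace R]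
    (h : Ideal (𝓞 K) → R) (h0 : h ⊥ = 0) (hs : Summable h)
    (Φ : Finset (HeightOneSpectrum (𝓞 K)) → R)
    (hΦ : ∀ T : Finset (HeightOneSpectrum (𝓞 K)), HasSum (fun I : IT27 T => h I) (Φ T)) :
    Tendsto Φ atTop (𝓝 (∑' I, h I)) := by
  rw [Metric.tendsto_nhds]
  intro ε hε
  rw [Filter.eventually_atTop]
  obtain ⟨A, hA⟩ := hs.tsum_vanishing (Metric.ball_mem_nhds (0 : R) hε)
  refine ⟨placesOf27 A, fun T hT => ?_⟩
  have hdisj : Disjoint ((IT27 T)ᶜ \ {⊥}) (A : Set (Ideal (𝓞 K))) := by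
    rw [Set.disjoint_left]
    rintro I ⟨hI1, hI2⟩ hIA
    exact hI1 (IT27_mono hT (mem_IT27_placesOf27 hIA hI2))
  have h1 := hA _ hdisj
  rw [mem_ball_zero_iff] at h1
  have h2 : ∑' I : (IT27 T), h I = Φ T := (hΦ T).tsum_eq
  have h3 := hs.tsum_subtype_add_tsum_subtype_compl (IT27 T)
  rw [tsum_eq_tsum_sdiff_singleton (IT27 T)ᶜ h0] at h3
  rw [dist_eq_norm, ← h3, ← h2, sub_add_cancel_left, norm_neg]
  exact h1

end Fermat.Agent.LT.T7.H27

end

end
-- ===== PACK-END LT/T7/H27/EulerIdeal.lean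

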