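import Mathlib
import Fermat.Agent.Pack.LT2.E10L0
import Fermat.Agent.Pack.LT2.E1L0
import Fermat.Agent.Pack.LT2.E8L1
import Fermat.Agent.Pack.LT2.E1L1
import Fermat.Agent.Pack.LT2.E10L3
import Fermat.Agent.Pack.LT2.E10L2
import Fermat.Agent.Pack.LT2.E6L1
import Fermat.Agent.Pack.LT2.E1L3
import Fermat.Agent.Pack.LT2.E8L0
import Fermat.Agent.Pack.LT2.E6L3
import Fermat.Agent.Pack.S44C.G0E6L2
import Fermat.Agent.Pack.LT2.E11L0
import Fermat.Agent.Pack.LT2.E9L1
import Fermat.Agent.Pack.LT2.E11L2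
import Fermat.Agent.Pack.LT2.E6L0
import Fermat.Agent.Pack.LT2.E11L3
import Fermat.Agent.Pack.LT2.E3L0
import Fermat.Agent.Pack.LT2.E0L2
import Fermat.Agent.Pack.LT2.E7L3
import Fermat.Agent.Pack.LT2.E9L2
import Fermat.Agent.Pack.LT2.E11L1

set_option linter.all false

-- ===== PACK-BEGIN LT/T2/H465/LeafInt.lean
section






/-!
# Row LT, tower T2, leaf T2.23c = `LeafIntCore` (helper465): THE COUNT gives the local `L²` bound

OFF-MAIN.  `leafIntCore465 K : LeafIntCore K`, i.e.
`T1.T1Out K → H767.CountC K → LocalL2Core K`: for a compact `Ω ⊆ GL₂(𝔸_K)` there are `C`, `c > 0`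
with `∫_Ω |ψ(x h)| dμ(h) ≤ C · H(x) · ‖ψ‖₂` on `{H ≥ c}`, for every continuous bounded `ψ`, left
invariant under `GL₂(K)` and invariant under the ray generator `r` of the frame.

Proof.  `∫_Ω |ψ(x h)|² dμ(h) = ∫_{xΩ} |ψ|² dμ` (left invariance).  `‖det‖_𝔸` takes its values in
`[a, b]` on `Ω`, so `xΩ ⊆ ⋃_{j ∈ S} slab · r^{-j}` with `#S = J + 1`, `b ≤ a 2^J`.  By
`Frame.strict` the sets `{g : γ r^j g ∈ D}` cover `xΩ` (`r` is central); `|ψ|²` is invariant
under `γ r^j`; the number of `γ` with `(γ r^j)⁻¹ g' ∈ xΩ` is at most the number of `δ ∈ GL₂(K)`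
with `δ x ∈ x Ω Ω⁻¹`, which is `≤ B t` by THE COUNT.  The tiling inequality
(`lintegral_tile_le465`) gives `∫_{xΩ} |ψ|² ≤ (J+1) B t ‖ψ‖₂²` and Cauchy--Schwarz
(`integral_norm_le_sqrt465`) the claim, with `√t ≤ t` for `t ≥ 1`.
-/

set_option autoImplicit false
set_option linter.style.haveILetI false

open IsDedekindDomain NumberField MeasureTheory
open Fermat.Agent.LT.H556.A0
open scoped ENNReal Pointwise

noncomputable section

namespace Fermat.Agent.LT.T2.H465

open Fermat.Agent.LT.T2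

attribute [local instance] Fermat.Agent.LT.T2.borelG

variable {K : Type} [Field K] [NumberField K]

/-- Invariance under the powers of the ray generator. -/
theorem ray_zpow_inv465 {ψ : G K → ℂ} {r : G K} (h : ∀ g : G K, ψ (g * r) = ψ g) (j : ℤ) :
    ∀ g : G K, ψ (g * r ^ j) = ψ g := by
  induction j using Int.induction_on with
  | zero => intro g; simp
  | succ n ih => intro g; rw [zpow_add_one, ← mul_assoc, h, ih]
  | pred n ih =>
    intro g
    rw [zpow_sub_one, ← mul_assoc]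
    have h1 := h (g * r ^ (-(n : ℤ)) * r⁻¹)
    rw [inv_mul_cancel_right] at h1
    rw [← h1, ih]

/-- The square of the `L²`-norm as an integral of `‖ψ‖²`. -/
theorem nsq_eq465 (F : Frame K) (ψ : G K → ℂ) :
    nsq F ψ = ∫ g in F.D, ‖ψ g‖ ^ 2 ∂F.μ := by
  have hreal : ∀ g, ψ g * (starRingEnd ℂ) (ψ g) = (((‖ψ g‖ ^ 2 : ℝ)) : ℂ) := by
    intro g
    rw [Complex.mul_conj, Complex.normSq_eq_norm_sq]
  have h1 : pair F ψ ψ = ((∫ g in F.D, ‖ψ g‖ ^ 2 ∂F.μ : ℝ) : ℂ) := by
    unfold pair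
    simp only [hreal]
    exact integral_ofReal
  unfold nsq
  rw [h1, Complex.ofReal_re]

theorem nsq_nonneg465 (F : Frame K) (ψ : G K → ℂ) : 0 ≤ nsq F ψ := by
  rw [nsq_eq465]
  exact integral_nonneg fun g => by positivity

/-- The square of the `L²`-norm as a lower Lebesgue integral. -/
theorem lintegral_sq_eq_nsq465 (F : Frame K) {ψ : G K → ℂ} (hc : Continuous ψ)
    (hb : ∃ C : ℝ, ∀ g : G K, ‖ψ g‖ ≤ C) :
    ∫⁻ g in F.D, ‖ψ g‖ₑ ^ (2 : ℝ) ∂F.μ = ENNReal.ofReal (nsq F ψ) := by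
  haveI : BorelSpace (G K) := ⟨rfl⟩
  obtain ⟨C, hC⟩ := hb
  have hint : IntegrableOn (fun g => ‖ψ g‖ ^ 2) F.D F.μ := by
    refine Measure.integrableOn_of_bounded (M := C * C) F.fin.ne
      ((hc.norm.pow 2).aestronglyMeasurable) (Filter.Eventually.of_forall fun g => ?_)
    rw [Real.norm_eq_abs, abs_of_nonneg (by positivity), sq]
    exact mul_le_mul (hC g) (hC g) (norm_nonneg _) ((norm_nonneg _).trans (hC g))
  rw [nsq_eq465, ofReal_integral_eq_lintegral_ofReal hint
    (Filter.Eventually.of_forall fun g => by positivity)]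
  refine lintegral_congr fun g => ?_
  rw [ENNReal.rpow_two, ENNReal.ofReal_pow (norm_nonneg _), ofReal_norm]

/-- Bounds for `‖det‖_𝔸` on a compact set. -/
theorem exists_detNorm_bounds465 (hN : T1.AdNormC K) {Ω : Set (G K)} (hΩ : IsCompact Ω) :
    ∃ (a : ℝ) (J : ℕ), 0 < a ∧
      ∀ ω ∈ Ω, a ≤ H245.detNorm245 ω ∧ H245.detNorm245 ω ≤ a * 2 ^ J := by
  have hcont := H245.continuous_detNorm245 hN
  by_cases hne : Ω.Nonempty
  · obtain ⟨ω₀, hω₀, hmin⟩ := hΩ.exists_isMinOn hne hcont.continuousOn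
    obtain ⟨ω₁, hω₁, hmax⟩ := hΩ.exists_isMaxOn hne hcont.continuousOn
    have ha : 0 < H245.detNorm245 ω₀ := H245.detNorm245_pos hN ω₀
    obtain ⟨J, hJ⟩ := pow_unbounded_of_one_lt (H245.detNorm245 ω₁ / H245.detNorm245 ω₀)
      (one_lt_two : (1 : ℝ) < 2)
    refine ⟨H245.detNorm245 ω₀, J, ha, fun ω hω => ⟨hmin hω, ?_⟩⟩
    have h1 : H245.detNorm245 ω ≤ H245.detNorm245 ω₁ := hmax hω
    have h2 : H245.detNorm245 ω₁ < H245.detNorm245 ω₀ * 2 ^ J := by
      rw [div_lt_iff₀ ha] at hJ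
      linarith
    linarith
  · refine ⟨1, 0, one_pos, fun ω hω => absurd ⟨ω, hω⟩ hne⟩

/-- **T2.23c**: THE COUNT gives the local `L²` bound (core form). -/
theorem leafIntCore465 (K : Type) [Field K] [NumberField K] : LeafIntCore K := by
  classical
  intro hT1 hCount R Ω hΩ
  obtain ⟨-, hlc, ht2, hsc⟩ := hT1.locComp
  haveI := hlc
  haveI := ht2
  haveI := hsc
  haveI : BorelSpace (G K) := ⟨rfl⟩
  haveI := R.F.haar
  haveI : Countable (GL (Fin 2) K) := H245.countable_GL245 K
  have hN := hT1.adNorm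
  have hray := R.ray
  obtain ⟨B, c₀, hc₀, hB⟩ := hCount (Ω * Ω⁻¹) (hΩ.mul hΩ.inv)
  obtain ⟨a, J, ha, hab⟩ := exists_detNorm_bounds465 hN hΩ
  have hμΩ : R.F.μ Ω ≠ ⊤ := hΩ.measure_lt_top.ne
  refine ⟨Real.sqrt (((J : ℝ) + 1) * max B 0) * Real.sqrt (R.F.μ Ω).toReal, max c₀ 1,
    lt_max_of_lt_left hc₀, ?_⟩
  intro ψ hψ hr x t hx ht
  have ht₀ : c₀ ≤ t := le_trans (le_max_left _ _) ht
  have ht₁ : 1 ≤ t := le_trans (le_max_right _ _) ht
  have htpos : 0 < t := lt_of_lt_of_le one_pos ht₁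
  -- the function and the set
  set φ : G K → ℝ≥0∞ := fun g => ‖ψ g‖ₑ ^ (2 : ℝ) with hφdef
  have hφm : Measurable φ := (hψ.cont.measurable.enorm).pow_const _
  set A : Set (G K) := (fun g => x⁻¹ * g) ⁻¹' Ω with hAdef
  have hAm : MeasurableSet A := (measurable_const_mul x⁻¹) hΩ.isClosed.measurableSet
  -- left invariance
  have hleft : ∫⁻ h in Ω, ‖ψ (x * h)‖ₑ ^ (2 : ℝ) ∂(R.F.μ) = ∫⁻ g in A, φ g ∂(R.F.μ) := by
    rw [← lintegral_indicator hΩ.isClosed.measurableSet, ← lintegral_indicator hAm,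
      ← lintegral_mul_left_eq_self (μ := R.F.μ) (fun g => A.indicator φ g) x]
    refine lintegral_congr fun h => ?_
    by_cases hh : h ∈ Ω
    · have hxh : x * h ∈ A := by
        show x⁻¹ * (x * h) ∈ Ω
        rwa [inv_mul_cancel_left]
      rw [Set.indicator_of_mem hh, Set.indicator_of_mem hxh]
    · have hxh : x * h ∉ A := by
        intro h'
        apply hh
        have : x⁻¹ * (x * h) ∈ Ω := h'
        rwa [inv_mul_cancel_left] at this
      rw [Set.indicator_of_notMem hh, Set.indicator_of_notMem hxh]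
  -- the range of `j`
  have hy := H245.detNorm245_pos hN x
  obtain ⟨n, hn1, hn2⟩ := exists_mem_Ico_zpow (mul_pos hy ha) (one_lt_two : (1 : ℝ) < 2)
  set S : Finset ℤ := Finset.Icc (-n - J) (-n) with hSdef
  have hScard : (S.card : ℝ≥0∞) = ((J : ℝ≥0∞) + 1) := by
    rw [hSdef, Int.card_Icc]
    have : (-n + 1 - (-n - (J : ℤ))).toNat = J + 1 := by omega
    rw [this]
    push_cast
    rfl
  -- the tiling
  have hcentral := rayGen_zpow_comm465 hray
  have htile := lintegral_tile_le465 (μ := R.F.μ)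
    (fun (γ : GL (Fin 2) K) (j : ℤ) => T1.ratG K γ * R.r ^ j) R.F.D A R.F.meas hAm S
    (by
      intro g hg
      have hω : x⁻¹ * g ∈ Ω := hg
      obtain ⟨hω1, hω2⟩ := hab _ hω
      have hdet : H245.detNorm245 g = H245.detNorm245 x * H245.detNorm245 (x⁻¹ * g) := by
        rw [← H245.detNorm245_mul hN, mul_inv_cancel_left]
      have h1 : (2 : ℝ) ^ n ≤ H245.detNorm245 g := by
        rw [hdet]
        exact hn1.trans (mul_le_mul_of_nonneg_left hω1 hy.le)
      have h2 : H245.detNorm245 g < (2 : ℝ) ^ (n + 1 + J) := by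
        rw [hdet]
        calc H245.detNorm245 x * H245.detNorm245 (x⁻¹ * g)
            ≤ H245.detNorm245 x * (a * 2 ^ J) := mul_le_mul_of_nonneg_left hω2 hy.le
          _ = (H245.detNorm245 x * a) * 2 ^ J := by ring
          _ < (2 : ℝ) ^ (n + 1) * 2 ^ J :=
              mul_lt_mul_of_pos_right hn2 (by positivity)
          _ = (2 : ℝ) ^ (n + 1 + J) := by
              rw [zpow_add₀ (by norm_num : (2 : ℝ) ≠ 0) (n + 1) J, zpow_natCast]
      obtain ⟨j, hj, hslab⟩ := exists_zpow_mem_slab465 hN hray g n J h1 h2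
      obtain ⟨γ, hγ, -⟩ := R.F.strict _ hslab
      refine ⟨j, hj, γ, ?_⟩
      show T1.ratG K γ * R.r ^ j * g ∈ R.F.D
      rw [mul_assoc, ← hcentral j g]
      exact hγ)
    φ hφm
    (by
      intro γ j g
      show ‖ψ (T1.ratG K γ * R.r ^ j * g)‖ₑ ^ (2 : ℝ) = ‖ψ g‖ₑ ^ (2 : ℝ)
      have h1 : ψ (T1.ratG K γ * R.r ^ j * g) = ψ g := by
        rw [mul_assoc]
        have h2 := hψ.left_inv γ (R.r ^ j * g)
        rw [show T1.ratG K γ * (R.r ^ j * g)
          = Matrix.GeneralLinearGroup.map (algebraMap K (Adl K)) γ * (R.r ^ j * g) from rfl, h2,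
          ← hcentral j g]
        exact ray_zpow_inv465 hr j g
      rw [h1])
    (ENNReal.ofReal (max B 0 * t))
    (by
      intro j _ g' T hT
      rcases T.eq_empty_or_nonempty with hT0 | ⟨γ₁, hγ₁⟩
      · rw [hT0]
        simp
      · -- translate by `γ₁⁻¹`
        have hinj : Function.Injective (fun γ : GL (Fin 2) K => γ₁⁻¹ * γ) :=
          mul_right_injective _
        have hcard : (T.image (fun γ : GL (Fin 2) K => γ₁⁻¹ * γ)).card = T.card :=
          Finset.card_image_of_injective _ hinj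
        have hcount := hB x t hx ht₀ (T.image (fun γ : GL (Fin 2) K => γ₁⁻¹ * γ)) (by
          intro δ hδ
          obtain ⟨γ, hγ, rfl⟩ := Finset.mem_image.1 hδ
          have h1 : x⁻¹ * ((T1.ratG K γ₁ * R.r ^ j)⁻¹ * g') ∈ Ω := hT γ₁ hγ₁
          have h2 : x⁻¹ * ((T1.ratG K γ * R.r ^ j)⁻¹ * g') ∈ Ω := hT γ hγ
          refine ⟨(x⁻¹ * ((T1.ratG K γ₁ * R.r ^ j)⁻¹ * g'))
            * (x⁻¹ * ((T1.ratG K γ * R.r ^ j)⁻¹ * g'))⁻¹,
            Set.mul_mem_mul h1 (Set.inv_mem_inv.2 h2), ?_⟩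
          have h3 : (x⁻¹ * ((T1.ratG K γ₁ * R.r ^ j)⁻¹ * g'))
              * (x⁻¹ * ((T1.ratG K γ * R.r ^ j)⁻¹ * g'))⁻¹
              = x⁻¹ * ((R.r ^ j)⁻¹ * ((T1.ratG K γ₁)⁻¹ * T1.ratG K γ) * R.r ^ j) * x := by
            group
          rw [h3]
          have h4 : (R.r ^ j)⁻¹ * ((T1.ratG K γ₁)⁻¹ * T1.ratG K γ) * R.r ^ j
              = (T1.ratG K γ₁)⁻¹ * T1.ratG K γ := by
            rw [mul_assoc, hcentral j ((T1.ratG K γ₁)⁻¹ * T1.ratG K γ), inv_mul_cancel_left]
          rw [h4, map_mul, map_inv]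
          group)
        rw [hcard] at hcount
        have h5 : (T.card : ℝ) ≤ max B 0 * t :=
          hcount.trans (mul_le_mul_of_nonneg_right (le_max_left _ _) htpos.le)
        calc (T.card : ℝ≥0∞) = ENNReal.ofReal (T.card : ℝ) := by
              rw [ENNReal.ofReal_natCast]
          _ ≤ ENNReal.ofReal (max B 0 * t) := ENNReal.ofReal_le_ofReal h5)
  -- the bound for the square integral
  have hQ : ∫⁻ h in Ω, ‖ψ (x * h)‖ₑ ^ (2 : ℝ) ∂(R.F.μ)
      ≤ ENNReal.ofReal ((((J : ℝ) + 1) * max B 0) * t * nsq R.F ψ) := by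
    rw [hleft]
    refine htile.trans ?_
    rw [hScard, lintegral_sq_eq_nsq465 R.F hψ.cont hψ.bdd]
    have hJ1 : ((J : ℝ≥0∞) + 1) = ENNReal.ofReal ((J : ℝ) + 1) := by
      rw [ENNReal.ofReal_add (by positivity) zero_le_one, ENNReal.ofReal_natCast,
        ENNReal.ofReal_one]
    rw [hJ1, ← ENNReal.ofReal_mul (by positivity), ← ENNReal.ofReal_mul (by positivity)]
    refine le_of_eq ?_
    congr 1
    ring
  have hnsq : 0 ≤ nsq R.F ψ := nsq_nonneg465 R.F ψ
  have hQ0 : 0 ≤ (((J : ℝ) + 1) * max B 0) * t * nsq R.F ψ := by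
    have : 0 ≤ max B 0 := le_max_right _ _
    positivity
  have hcs := integral_norm_le_sqrt465 R.F.μ Ω hμΩ
    (f := fun h => ψ (x * h))
    ((hψ.cont.comp (continuous_const.mul continuous_id)).aestronglyMeasurable) _ hQ0 hQ
  refine hcs.trans ?_
  -- `√(M t nsq) √μ(Ω) ≤ √M √μ(Ω) t √nsq`
  have hM0 : 0 ≤ ((J : ℝ) + 1) * max B 0 := by
    have : 0 ≤ max B 0 := le_max_right _ _
    positivity
  have hsq : Real.sqrt ((((J : ℝ) + 1) * max B 0) * t * nsq R.F ψ)
      = Real.sqrt (((J : ℝ) + 1) * max B 0) * Real.sqrt t * Real.sqrt (nsq R.F ψ) := by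
    rw [Real.sqrt_mul (mul_nonneg hM0 htpos.le), Real.sqrt_mul hM0]
  have hsqt : Real.sqrt t ≤ t := by
    rw [Real.sqrt_le_left htpos.le]
    nlinarith
  rw [hsq]
  have h6 : 0 ≤ Real.sqrt (((J : ℝ) + 1) * max B 0) := Real.sqrt_nonneg _
  have h7 : 0 ≤ Real.sqrt (R.F.μ Ω).toReal := Real.sqrt_nonneg _
  have h8 : 0 ≤ Real.sqrt (nsq R.F ψ) := Real.sqrt_nonneg _
  calc Real.sqrt (((J : ℝ) + 1) * max B 0) * Real.sqrt t * Real.sqrt (nsq R.F ψ)
        * Real.sqrt (R.F.μ Ω).toReal
      = (Real.sqrt (((J : ℝ) + 1) * max B 0) * Real.sqrt (R.F.μ Ω).toReal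
          * Real.sqrt (nsq R.F ψ)) * Real.sqrt t := by ring
    _ ≤ (Real.sqrt (((J : ℝ) + 1) * max B 0) * Real.sqrt (R.F.μ Ω).toReal
          * Real.sqrt (nsq R.F ψ)) * t :=
        mul_le_mul_of_nonneg_left hsqt (by positivity)
    _ = Real.sqrt (((J : ℝ) + 1) * max B 0) * Real.sqrt (R.F.μ Ω).toReal * t
          * Real.sqrt (nsq R.F ψ) := by ring

end Fermat.Agent.LT.T2.H465

end

end
-- ===== PACK-END LT/T2/H465/LeafInt.lean

-- ===== PACK-BEGIN LT/T2/H255/UnramHecke.lean
section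


/-!
# Row LT, tower T2, station T2.10 (SMO): the Hecke relation on the torus (helper255)

OFF-MAIN.  For a function `Φ` which is continuous, bounded, left invariant under `GL₂(K)`, right
invariant under `GL₂(𝒪_v)` and a Hecke eigenfunction at `v`, the Whittaker coefficient
`a ↦ W_Φ(diag(a,1)_v g)` (`g` trivial at `v`) satisfies

* `wv_unit255`   : it depends on the valuation of `a` only;
* `wv_vanish255` : it vanishes when `ψ_v` is not trivial on `a 𝒪_v`;
* `wv_hecke255`  : `(∑_c ψ_v(a r_c)) W(a ϖ) + b W(a ϖ⁻¹) = √q a_v W(a)`.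
-/

set_option autoImplicit false

open IsDedekindDomain NumberField MeasureTheory AutomorphicForm
open IsDedekindDomain.HeightOneSpectrum
open Fermat.Agent.LT.H556.A0
open scoped MatrixGroups

noncomputable section

namespace Fermat.Agent.LT.T2.H255

open Fermat.Agent.LT Fermat.Agent.LT.T2.H941 Fermat.Agent.LT.H129

attribute [local instance] borelAdl255 borelSpaceAdl255

variable {K : Type} [Field K] [NumberField K] (v : HeightOneSpectrum (𝓞 K))

/-! ## 1. The torus at `v` -/

open scoped Classical in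
/-- `diag(a, 1)` at the place `v` (and `1` if `a = 0`). -/
def tv255 (a : v.adicCompletion K) : G K :=
  if ha : a ≠ 0 then locFin129 v (dg255 v a ha) else 1

theorem tv255_of_ne {a : v.adicCompletion K} (ha : a ≠ 0) :
    tv255 v a = locFin129 v (dg255 v a ha) := dif_pos ha

theorem tor_eq_tv255 {y : (Adl K)ˣ} (hy : IsIdeleAtFin v y) :
    tor y = tv255 v ((y : Adl K).2 v) := by
  rw [tv255_of_ne v (idele_comp_ne_zero255 v y)]
  exact tor_eq_locFin255 v hy

theorem tv255_mul {a u : v.adicCompletion K} (ha : a ≠ 0) (hu : u ≠ 0) :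
    tv255 v (a * u) = tv255 v a * locFin129 v (dg255 v u hu) := by
  rw [tv255_of_ne v (mul_ne_zero ha hu), tv255_of_ne v ha, ← map_mul]
  congr 1
  exact dg_mul_dg255 a u ha hu

theorem tv255_mul_upperU {a : v.adicCompletion K} (ha : a ≠ 0) (u : v.adicCompletion K) :
    tv255 v a * locFin129 v (upperU129 u) = T3.unip K (locAd255 v (a * u)) * tv255 v a := by
  rw [tv255_of_ne v ha, unip_locAd255, ← map_mul, ← map_mul]
  congr 1
  exact dg_mul_upperU255 a u ha

theorem tv255_mul_upper {a p : v.adicCompletion K} (ha : a ≠ 0) (hp : p ≠ 0)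
    (r : v.adicCompletion K) :
    tv255 v a * locFin129 v (mkGL129 p r 0 1 (by simpa using hp))
      = T3.unip K (locAd255 v (a * r)) * tv255 v (a * p) := by
  rw [tv255_of_ne v ha, tv255_of_ne v (mul_ne_zero ha hp), unip_locAd255, ← map_mul, ← map_mul]
  congr 1
  exact dg_mul_upper255 a r p ha hp

theorem tv255_mul_lower {a p : v.adicCompletion K} (ha : a ≠ 0) (hp : p ≠ 0) :
    tv255 v a * locFin129 v (mkGL129 1 0 0 p (by simpa using hp))
      = tv255 v (a * p⁻¹) * locFin129 v (mkGL129 p 0 0 p (by simpa using hp)) := by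
  rw [tv255_of_ne v ha, tv255_of_ne v (mul_ne_zero ha (inv_ne_zero hp)), ← map_mul, ← map_mul]
  congr 1
  exact dg_mul_lower255 a p ha hp

/-- `diag(u, 1)` is in `GL₂(𝒪_v)` for a unit `u`. -/
theorem isMaxCpt_dg255 {u : v.adicCompletion K} (hu : Valued.v u = 1) :
    IsMaxCpt129 (v.adicCompletionIntegers K) (dg255 v u (by
      intro h; rw [h, map_zero] at hu; exact zero_ne_one hu)) := by
  have hu0 : u ≠ 0 := by
    intro h; rw [h, map_zero] at hu; exact zero_ne_one hu
  have h1 : (1 : v.adicCompletion K) ∈ v.adicCompletionIntegers K :=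
    (v.adicCompletionIntegers K).one_mem
  have h0 : (0 : v.adicCompletion K) ∈ v.adicCompletionIntegers K :=
    (v.adicCompletionIntegers K).zero_mem
  have hmem : u ∈ v.adicCompletionIntegers K := by
    rw [mem_adicCompletionIntegers, hu]
  have hmem' : u⁻¹ ∈ v.adicCompletionIntegers K := by
    rw [mem_adicCompletionIntegers, map_inv₀, hu, inv_one]
  refine ⟨isInt129_mkGL _ hmem h0 h0 h1, ?_⟩
  have hinv : (dg255 v u hu0)⁻¹ = mkGL129 u⁻¹ 0 0 1 (by simpa using hu0) := by
    rw [inv_eq_iff_mul_eq_one]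
    apply ext_mat129
    simp [dg255, Matrix.one_fin_two, hu0]
  rw [hinv]
  exact isInt129_mkGL _ hmem' h0 h0 h1

/-! ## 2. The Whittaker coefficient on the torus at `v` -/

section Whit

variable {v}
variable {ψ : AddChar (Adl K) Circle} {ν : Measure (Adl K)} {D : Set (Adl K)}
  (hW : IsWhitData ψ ν D) {Φ : G K → ℂ} (hc : Continuous Φ)
  (hb : ∃ C : ℝ, ∀ g : G K, ‖Φ g‖ ≤ C)
  (hl : ∀ (γ : GL (Fin 2) K) (g : G K), Φ (T1.ratG K γ * g) = Φ g)
  (hK : IsKv v Φ) {g : G K} (hg : TrivAtFin v g)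

include hK hg in
/-- Right invariance of the Whittaker coefficient under `GL₂(𝒪_v)`, moved across `g`. -/
theorem wh_mul_maxCpt255 (x : G K) {k : GL (Fin 2) (v.adicCompletion K)}
    (hk : IsMaxCpt129 (v.adicCompletionIntegers K) k) :
    wh ψ ν D Φ (x * locFin129 v k * g) = wh ψ ν D Φ (x * g) := by
  rw [mul_assoc, locFin_comm255 v k hg, ← mul_assoc, ← wh_rt255]
  congr 1
  funext y
  exact isKv_apply255 v hK hk y

include hK hg in
/-- The coefficient depends on the valuation only. -/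
theorem wv_unit255 {a u : v.adicCompletion K} (ha : a ≠ 0) (hu : Valued.v u = 1) :
    wh ψ ν D Φ (tv255 v (a * u) * g) = wh ψ ν D Φ (tv255 v a * g) := by
  have _ := ha
  have hu0 : u ≠ 0 := by
    intro h; rw [h, map_zero] at hu; exact zero_ne_one hu
  rw [tv255_mul v ha hu0]
  exact wh_mul_maxCpt255 hK hg _ (isMaxCpt_dg255 v hu)

include hK hg in
theorem wv_congr255 {a a' : v.adicCompletion K} (ha : a ≠ 0) (ha' : a' ≠ 0)
    (h : Valued.v a = Valued.v a') :
    wh ψ ν D Φ (tv255 v a * g) = wh ψ ν D Φ (tv255 v a' * g) := by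
  have hu : Valued.v (a'⁻¹ * a) = 1 := by
    rw [map_mul, map_inv₀, h, inv_mul_cancel₀]
    exact (Valuation.ne_zero_iff _).mpr ha'
  have e : a = a' * (a'⁻¹ * a) := by
    rw [← mul_assoc, mul_inv_cancel₀ ha', one_mul]
  conv_lhs => rw [e]
  exact wv_unit255 hK hg ha' hu

include hW hl hK hg in
/-- The coefficient is multiplied by `ψ_v(a u)`, `u ∈ 𝒪_v`. -/
theorem wv_psi255 {a : v.adicCompletion K} (ha : a ≠ 0) {u : v.adicCompletion K}
    (hu : u ∈ v.adicCompletionIntegers K) :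
    wh ψ ν D Φ (tv255 v a * g)
      = ((ψ (locAd255 v (a * u)) : Circle) : ℂ) * wh ψ ν D Φ (tv255 v a * g) := by
  have h1 := wh_mul_maxCpt255 (ψ := ψ) (ν := ν) (D := D) hK hg (tv255 v a)
    (isMaxCpt129_upperU (O := v.adicCompletionIntegers K) hu)
  have h2 : wh ψ ν D Φ (tv255 v a * locFin129 v (upperU129 u) * g)
      = ((ψ (locAd255 v (a * u)) : Circle) : ℂ) * wh ψ ν D Φ (tv255 v a * g) := by
    rw [tv255_mul_upperU v ha u, mul_assoc, wh_unip_mul255 hW hl]
  exact h1.symm.trans h2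

include hW hl hK hg in
/-- **Vanishing**: the coefficient vanishes at `a` when the valuation of `a` is bigger than the
conductor exponent. -/
theorem wv_vanish255 {d : ℤ} (hd : IsCondExp ψ v d) {a : v.adicCompletion K} (ha : a ≠ 0)
    (hlt : WithZero.exp d < Valued.v a) : wh ψ ν D Φ (tv255 v a * g) = 0 := by
  obtain ⟨x, hx, hxv, hxψ⟩ := hd.2
  set u : v.adicCompletion K := a⁻¹ * x.2 v with hu
  have hau : a * u = x.2 v := by
    rw [hu, ← mul_assoc, mul_inv_cancel₀ ha, one_mul]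
  have hva : Valued.v a ≠ 0 := (Valuation.ne_zero_iff _).mpr ha
  have hle : WithZero.exp (d + 1) ≤ Valued.v a := by
    have h1 : Valued.v a = WithZero.exp (WithZero.log (Valued.v a)) :=
      (WithZero.exp_log hva).symm
    rw [h1] at hlt ⊢
    rw [WithZero.exp_lt_exp] at hlt
    rw [WithZero.exp_le_exp]
    omega
  have humem : u ∈ v.adicCompletionIntegers K := by
    rw [mem_adicCompletionIntegers, hu, map_mul, map_inv₀, hxv]
    rw [inv_mul_le_iff₀ (zero_lt_iff.mpr hva), mul_one]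
    exact hle
  have h1 := wv_psi255 hW hl hK hg ha humem
  rw [hau, ← eq_locAd255_of_isLocAdeleAt v hx] at h1
  have hne : ((ψ x : Circle) : ℂ) ≠ 1 := by
    intro h
    apply hxψ
    exact Subtype.ext (by simpa using h)
  have h2 : (1 - ((ψ x : Circle) : ℂ)) * wh ψ ν D Φ (tv255 v a * g) = 0 := by
    rw [sub_mul, one_mul, ← h1, sub_self]
  rcases mul_eq_zero.mp h2 with h3 | h3
  · exact absurd (sub_eq_zero.mp h3).symm hne
  · exact h3

end Whit

/-! ## 3. The standard Hecke coset system -/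

theorem finite_residue255 : Finite (𝓞 K ⧸ v.asIdeal) := by
  apply Nat.finite_of_card_ne_zero
  rw [← Submodule.cardQuot_apply, ← Ideal.absNorm_apply]
  exact ne_of_gt (lt_trans Nat.zero_lt_one (NumberField.HeightOneSpectrum.one_lt_absNorm v))

theorem stdHecke_injective255 {π : v.adicCompletion K}
    (hπ : Valued.v π = WithZero.exp (-1 : ℤ)) :
    Function.Injective (stdHecke129 v π (unif_ne_zero129 v hπ)) := by
  intro a b hab
  by_contra hne
  apply stdHecke129_not_int v hπ hne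
  rw [hab, inv_mul_cancel]
  intro i j
  have : finComp v (1 : G K) = 1 := by
    rw [← coe_finCompHom129, map_one]; rfl
  rw [this]
  by_cases hij : i = j
  · subst hij; simp
  · simp [hij]

open scoped Classical in
theorem stdHecke_system255 [Fintype (𝓞 K ⧸ v.asIdeal)] {π : v.adicCompletion K}
    (hπ : Valued.v π = WithZero.exp (-1 : ℤ)) :
    IsHeckeCosetSystem v (Finset.univ.image (stdHecke129 v π (unif_ne_zero129 v hπ))) := by
  classical
  refine ⟨?_, ?_, ?_⟩
  · rw [Finset.card_image_of_injective _ (stdHecke_injective255 v hπ), Finset.card_univ,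
      Fintype.card_option, Ideal.absNorm_apply, Submodule.cardQuot_apply,
      Nat.card_eq_fintype_card]
  · intro h hh
    obtain ⟨a, -, rfl⟩ := Finset.mem_image.mp hh
    exact stdHecke129_props v hπ a
  · intro h hh h' hh' hne
    obtain ⟨a, -, rfl⟩ := Finset.mem_image.mp hh
    obtain ⟨b, -, rfl⟩ := Finset.mem_image.mp hh'
    exact stdHecke129_not_int v hπ (fun e => hne (by rw [e]))

theorem isScalarUniformizerAt255 {π : v.adicCompletion K}
    (hπ : Valued.v π = WithZero.exp (-1 : ℤ)) :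
    IsScalarUniformizerAt v
      (locFin129 v (mkGL129 π 0 0 π (by simpa using unif_ne_zero129 v hπ))) := by
  refine ⟨isLocalAtFin_locFin129 v _, π, hπ, ?_⟩
  rw [finComp_locFin129, coe_mkGL129]
  ext i j
  fin_cases i <;> fin_cases j <;> simp

theorem card_residue255 [Fintype (𝓞 K ⧸ v.asIdeal)] :
    Fintype.card (𝓞 K ⧸ v.asIdeal) = Ideal.absNorm v.asIdeal := by
  rw [Ideal.absNorm_apply, Submodule.cardQuot_apply, Nat.card_eq_fintype_card]

/-! ## 4. The Hecke relation for the Whittaker coefficient -/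

section Hecke

variable {v}
variable {ψ : AddChar (Adl K) Circle} {ν : Measure (Adl K)} {D : Set (Adl K)}
  (hW : IsWhitData ψ ν D) {Φ : G K → ℂ} (hc : Continuous Φ)
  (hb : ∃ C : ℝ, ∀ g : G K, ‖Φ g‖ ≤ C)
  (hl : ∀ (γ : GL (Fin 2) K) (g : G K), Φ (T1.ratG K γ * g) = Φ g)
  {g : G K} (hg : TrivAtFin v g)

include hW hc hb in
/-- The Hecke relation, integrated. -/
theorem wh_heckeSum255 {ae be : ℂ} (hE : IsHeckeEigenAt Φ v ae be) {H : Finset (G K)}
    (hH : IsHeckeCosetSystem v H) (x : G K) :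
    ∑ h ∈ H, wh ψ ν D Φ (x * h)
      = ((Real.sqrt (Ideal.absNorm v.asIdeal : ℝ) : ℝ) : ℂ) * ae * wh ψ ν D Φ x := by
  have h1 := wh_sum_rt255 hW hc hb H (fun _ => (1 : ℂ)) id x
  simp only [one_mul, id] at h1
  rw [← h1, ← wh_const_mul255]
  congr 1
  funext y
  exact hE.1 H hH y

include hW hc hb hl hg in
/-- **The Hecke relation on the torus at `v`.** -/
theorem wv_hecke255 [Fintype (𝓞 K ⧸ v.asIdeal)] {ae be : ℂ} (hE : IsHeckeEigenAt Φ v ae be)
    {π : v.adicCompletion K} (hπ : Valued.v π = WithZero.exp (-1 : ℤ))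
    {a : v.adicCompletion K} (ha : a ≠ 0) :
    (∑ c : 𝓞 K ⧸ v.asIdeal, ((ψ (locAd255 v (a * rep129 v c)) : Circle) : ℂ))
        * wh ψ ν D Φ (tv255 v (a * π) * g)
      + be * wh ψ ν D Φ (tv255 v (a * π⁻¹) * g)
      = ((Real.sqrt (Ideal.absNorm v.asIdeal : ℝ) : ℝ) : ℂ) * ae * wh ψ ν D Φ (tv255 v a * g) := by
  classical
  have hπ0 := unif_ne_zero129 v hπ
  rw [← wh_heckeSum255 hW hc hb hE (stdHecke_system255 v hπ) (tv255 v a * g)]
  rw [Finset.sum_image (fun x _ y _ h => stdHecke_injective255 v hπ h), Fintype.sum_option]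
  rw [add_comm, Finset.sum_mul]
  congr 1
  · -- the class at infinity
    have e1 : tv255 v a * g * stdHecke129 v π hπ0 none
        = tv255 v (a * π⁻¹) * g * locFin129 v (mkGL129 π 0 0 π (by simpa using hπ0)) := by
      show tv255 v a * g * locFin129 v (mkGL129 1 0 0 π (by simpa using hπ0)) = _
      rw [mul_assoc, ← locFin_comm255 v _ hg, ← mul_assoc, tv255_mul_lower v ha hπ0,
        mul_assoc, locFin_comm255 v _ hg, ← mul_assoc]
    have e3 : wh ψ ν D Φ (tv255 v (a * π⁻¹) * g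
          * locFin129 v (mkGL129 π 0 0 π (by simpa using hπ0)))
        = be * wh ψ ν D Φ (tv255 v (a * π⁻¹) * g) := by
      rw [← wh_rt255 ψ ν D Φ (locFin129 v (mkGL129 π 0 0 π (by simpa using hπ0))),
        ← wh_const_mul255]
      congr 1
      funext y
      exact hE.2 _ (isScalarUniformizerAt255 v hπ) y
    rw [e1, e3]
  · refine Finset.sum_congr rfl fun c _ => ?_
    have e2 : tv255 v a * g * stdHecke129 v π hπ0 (some c)
        = T3.unip K (locAd255 v (a * rep129 v c)) * (tv255 v (a * π) * g) := by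
      show tv255 v a * g * locFin129 v (mkGL129 π (rep129 v c) 0 1 (by simpa using hπ0)) = _
      rw [mul_assoc, ← locFin_comm255 v _ hg, ← mul_assoc, tv255_mul_upper v ha hπ0,
        mul_assoc]
    rw [e2, wh_unip_mul255 hW hl]

end Hecke

end Fermat.Agent.LT.T2.H255

end

end
-- ===== PACK-END LT/T2/H255/UnramHecke.lean

-- ===== PACK-BEGIN LT/T2/H23/Whit.lean
section



/-!
# Row LT, tower T2, station T2.10, leaf T2.10.11 `TorusMatchC` (helper23) -- part 2: `wh`, `lin`

OFF-MAIN.  Linearity of the Whittaker coefficient `wh` on bounded continuous functions, the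
algebra of the combinations `lin`, cuspidality of combinations.
-/

set_option autoImplicit false
set_option linter.unusedSectionVars false
set_option linter.unusedVariables false
set_option linter.style.haveILetI false

open IsDedekindDomain NumberField IsDedekindDomain.HeightOneSpectrum MeasureTheory
open Fermat.Agent.LT.H556.A0
open scoped MatrixGroups

noncomputable section

namespace Fermat.Agent.LT.T2.H23

open Fermat.Agent.LT Fermat.Agent.LT.T2.H941 Fermat.Agent.LT.T2 Fermat.Agent.LT.A2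

variable {K : Type} [Field K] [NumberField K]

/-! ## 1. The unipotent family -/

theorem continuous_unip23 : Continuous (T3.unip K : Adl K → G K) := by
  rw [Units.continuous_iff]
  constructor
  · refine continuous_matrix fun i j => ?_
    fin_cases i <;> fin_cases j
    · exact continuous_const
    · exact continuous_id
    · exact continuous_const
    · exact continuous_const
  · refine continuous_matrix fun i j => ?_
    fin_cases i <;> fin_cases j
    · exact continuous_const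
    · exact continuous_neg
    · exact continuous_const
    · exact continuous_const

theorem eq_unip23 {n : G K} {x : Adl K}
    (h : (n : Matrix (Fin 2) (Fin 2) (Adl K)) = !![1, x; 0, 1]) : n = T3.unip K x :=
  Units.ext (h.trans (T3.unip_coe K x).symm)

theorem countable_princ23 : Countable ↥(T1.princ K) := by
  haveI : Countable K := (Module.finBasis ℚ K).equivFun.toEquiv.injective.countable
  exact (AddMonoidHom.rangeRestrict_surjective (algebraMap K (Adl K)).toAddMonoidHom).countable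

/-! ## 2. Algebra of `rt` and `lin` -/

theorem lin_apply23 {n : ℕ} (c : Fin n → ℂ) (g : Fin n → G K) (f : G K → ℂ) (x : G K) :
    lin c g f x = ∑ i, c i * f (x * g i) := rfl

theorem continuous_lin23 {n : ℕ} (c : Fin n → ℂ) (g : Fin n → G K) {f : G K → ℂ}
    (hf : Continuous f) : Continuous (lin c g f) := by
  unfold lin
  exact continuous_finsetSum _ fun i _ =>
    continuous_const.mul (hf.comp (continuous_mul_const (g i)))

theorem bdd_lin23 {n : ℕ} (c : Fin n → ℂ) (g : Fin n → G K) {f : G K → ℂ}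
    (hf : ∃ C : ℝ, ∀ x : G K, ‖f x‖ ≤ C) : ∃ C : ℝ, ∀ x : G K, ‖lin c g f x‖ ≤ C := by
  obtain ⟨C, hC⟩ := hf
  refine ⟨∑ i, ‖c i‖ * C, fun x => ?_⟩
  rw [lin_apply23]
  refine (norm_sum_le _ _).trans (Finset.sum_le_sum fun i _ => ?_)
  rw [norm_mul]
  exact mul_le_mul_of_nonneg_left (hC _) (norm_nonneg _)

theorem leftInv_lin23 {n : ℕ} (c : Fin n → ℂ) (g : Fin n → G K) {f : G K → ℂ}
    (hf : ∀ (γ : GL (Fin 2) K) (x : G K), f (T1.ratG K γ * x) = f x) :
    ∀ (γ : GL (Fin 2) K) (x : G K), lin c g f (T1.ratG K γ * x) = lin c g f x := by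
  intro γ x
  rw [lin_apply23, lin_apply23]
  refine Finset.sum_congr rfl fun i _ => ?_
  rw [mul_assoc, hf]

theorem continuous_sub23 {f₁ f₂ : G K → ℂ} (h₁ : Continuous f₁) (h₂ : Continuous f₂) :
    Continuous (fun x => f₁ x - f₂ x) := h₁.sub h₂

theorem bdd_sub23 {f₁ f₂ : G K → ℂ} (h₁ : ∃ C : ℝ, ∀ x : G K, ‖f₁ x‖ ≤ C)
    (h₂ : ∃ C : ℝ, ∀ x : G K, ‖f₂ x‖ ≤ C) : ∃ C : ℝ, ∀ x : G K, ‖f₁ x - f₂ x‖ ≤ C := by
  obtain ⟨C₁, hC₁⟩ := h₁
  obtain ⟨C₂, hC₂⟩ := h₂
  exact ⟨C₁ + C₂, fun x => (norm_sub_le _ _).trans (add_le_add (hC₁ x) (hC₂ x))⟩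

/-- Composition of two combinations is a combination. -/
theorem lin_lin23 {n m : ℕ} (c : Fin n → ℂ) (p : Fin n → G K) (c' : Fin m → ℂ)
    (g : Fin m → G K) (f : G K → ℂ) :
    lin c p (lin c' g f)
      = lin (fun k : Fin (n * m) => c (finProdFinEquiv.symm k).1 * c' (finProdFinEquiv.symm k).2)
          (fun k : Fin (n * m) => p (finProdFinEquiv.symm k).1 * g (finProdFinEquiv.symm k).2)
          f := by
  funext x
  rw [lin_apply23, lin_apply23]
  rw [← Equiv.sum_comp finProdFinEquiv]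
  simp only [Equiv.symm_apply_apply]
  rw [Fintype.sum_prod_type]
  refine Finset.sum_congr rfl fun i _ => ?_
  rw [lin_apply23, Finset.mul_sum]
  refine Finset.sum_congr rfl fun j _ => ?_
  rw [mul_assoc, mul_assoc]

/-- A combination of a multiple of a right translate is a combination. -/
theorem lin_smul_rt23 {n : ℕ} (c : Fin n → ℂ) (g : Fin n → G K) (c₀ : ℂ) (h : G K)
    (f : G K → ℂ) :
    lin c g (fun x => c₀ * rt h f x) = lin (fun i => c₀ * c i) (fun i => g i * h) f := by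
  funext x
  rw [lin_apply23, lin_apply23]
  refine Finset.sum_congr rfl fun i _ => ?_
  simp only [rt]
  rw [mul_assoc]
  ring

/-! ## 3. The Whittaker coefficient -/

theorem wh_rt23 (ψ : AddChar (Adl K) Circle) {m : MeasurableSpace (Adl K)}
    (ν : Measure (Adl K)) (D : Set (Adl K)) (h : G K) (f : G K → ℂ) (g : G K) :
    wh ψ ν D (rt h f) g = wh ψ ν D f (g * h) := by
  unfold wh rt
  simp only [mul_assoc]

theorem wh_smul23 (ψ : AddChar (Adl K) Circle) {m : MeasurableSpace (Adl K)}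
    (ν : Measure (Adl K)) (D : Set (Adl K)) (c : ℂ) (f : G K → ℂ) (g : G K) :
    wh ψ ν D (fun x => c * f x) g = c * wh ψ ν D f g := by
  unfold wh
  simp only [mul_assoc]
  exact integral_const_mul _ _

theorem wh_congr23 (ψ : AddChar (Adl K) Circle) {m : MeasurableSpace (Adl K)}
    (ν : Measure (Adl K)) (D : Set (Adl K)) {f₁ f₂ : G K → ℂ} (h : ∀ x, f₁ x = f₂ x) (g : G K) :
    wh ψ ν D f₁ g = wh ψ ν D f₂ g := by
  have : f₁ = f₂ := funext h
  rw [this]

section Borel

variable [MeasurableSpace (Adl K)] [BorelSpace (Adl K)]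

theorem integrable_ct23 (ν : Measure (Adl K)) (D : Set (Adl K)) (hD : ν D < ⊤)
    {f : G K → ℂ} (hf : Continuous f) (hb : ∃ C : ℝ, ∀ g : G K, ‖f g‖ ≤ C) (g : G K) :
    Integrable (fun x => f (T3.unip K x * g)) (ν.restrict D) := by
  obtain ⟨C, hC⟩ := hb
  haveI : IsFiniteMeasure (ν.restrict D) := ⟨by rwa [Measure.restrict_apply_univ]⟩
  refine Integrable.of_bound ?_ C (Filter.Eventually.of_forall fun x => hC _)
  exact (hf.comp (continuous_unip23.mul continuous_const)).aestronglyMeasurable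

theorem integrable_wh23 (ψ : AddChar (Adl K) Circle) (hψ : Continuous ψ) (ν : Measure (Adl K))
    (D : Set (Adl K)) (hD : ν D < ⊤) {f : G K → ℂ} (hf : Continuous f)
    (hb : ∃ C : ℝ, ∀ g : G K, ‖f g‖ ≤ C) (g : G K) :
    Integrable (fun x => f (T3.unip K x * g) * (starRingEnd ℂ) ((ψ x : Circle) : ℂ))
      (ν.restrict D) := by
  obtain ⟨C, hC⟩ := hb
  haveI : IsFiniteMeasure (ν.restrict D) := ⟨by rwa [Measure.restrict_apply_univ]⟩
  refine Integrable.of_bound ?_ C (Filter.Eventually.of_forall fun x => ?_)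
  · refine Continuous.aestronglyMeasurable ?_
    refine (hf.comp (continuous_unip23.mul continuous_const)).mul ?_
    exact Complex.continuous_conj.comp (continuous_subtype_val.comp hψ)
  · rw [norm_mul, RCLike.norm_conj, Circle.norm_coe, mul_one]
    exact hC _

theorem wh_sub23 (ψ : AddChar (Adl K) Circle) (hψ : Continuous ψ) (ν : Measure (Adl K))
    (D : Set (Adl K)) (hD : ν D < ⊤) {f₁ f₂ : G K → ℂ} (h₁ : Continuous f₁)
    (b₁ : ∃ C : ℝ, ∀ g : G K, ‖f₁ g‖ ≤ C) (h₂ : Continuous f₂)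
    (b₂ : ∃ C : ℝ, ∀ g : G K, ‖f₂ g‖ ≤ C) (g : G K) :
    wh ψ ν D (fun x => f₁ x - f₂ x) g = wh ψ ν D f₁ g - wh ψ ν D f₂ g := by
  unfold wh
  rw [← integral_sub (integrable_wh23 ψ hψ ν D hD h₁ b₁ g) (integrable_wh23 ψ hψ ν D hD h₂ b₂ g)]
  congr 1
  funext x
  ring

theorem wh_lin23 (ψ : AddChar (Adl K) Circle) (hψ : Continuous ψ) (ν : Measure (Adl K))
    (D : Set (Adl K)) (hD : ν D < ⊤) {n : ℕ} (c : Fin n → ℂ) (g : Fin n → G K)
    {f : G K → ℂ} (hf : Continuous f) (hb : ∃ C : ℝ, ∀ g : G K, ‖f g‖ ≤ C) (x : G K) :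
    wh ψ ν D (lin c g f) x = ∑ i, c i * wh ψ ν D f (x * g i) := by
  unfold wh
  have e : (fun t : Adl K => lin c g f (T3.unip K t * x) * (starRingEnd ℂ) ((ψ t : Circle) : ℂ))
      = fun t : Adl K => ∑ i, c i * (f (T3.unip K t * (x * g i)) *
          (starRingEnd ℂ) ((ψ t : Circle) : ℂ)) := by
    funext t
    rw [lin_apply23, Finset.sum_mul]
    refine Finset.sum_congr rfl fun i _ => ?_
    rw [mul_assoc, mul_assoc]
  rw [e, integral_finsetSum]
  · refine Finset.sum_congr rfl fun i _ => ?_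
    exact integral_const_mul _ _
  · intro i _
    exact (integrable_wh23 ψ hψ ν D hD hf hb (x * g i)).const_mul (c i)

end Borel

/-! ## 4. Cuspidality of combinations -/

/-- Every fundamental domain of `K` in `𝔸_K` has finite measure. -/
theorem fundDom_lt_top23 (hA : T1.AddFundDomC K) :
    letI : MeasurableSpace (Adl K) := borel (Adl K)
    ∀ μ : Measure (Adl K), μ.IsAddHaarMeasure → ∀ D : Set (Adl K),
      IsAddFundamentalDomain (T1.princ K) D μ → μ D < ⊤ := by
  letI : MeasurableSpace (Adl K) := borel (Adl K)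
  haveI : BorelSpace (Adl K) := ⟨rfl⟩
  intro μ hμ D hD
  haveI := hμ
  haveI : Countable ↥(T1.princ K) := countable_princ23
  obtain ⟨D₀, -, hD₀, -, -, hfin⟩ := hA μ hμ
  rw [hD.measure_eq hD₀]
  exact hfin

theorem cuspidal_lin_sub23 (hA : T1.AddFundDomC K) {n n' : ℕ} (c : Fin n → ℂ)
    (g : Fin n → G K) (c' : Fin n' → ℂ) (g' : Fin n' → G K) {f f' : G K → ℂ}
    (hf : Continuous f) (hb : ∃ C : ℝ, ∀ g : G K, ‖f g‖ ≤ C) (hc : IsCuspidalFn f)
    (hf' : Continuous f') (hb' : ∃ C : ℝ, ∀ g : G K, ‖f' g‖ ≤ C) (hc' : IsCuspidalFn f') :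
    IsCuspidalFn (fun x => lin c g f x - lin c' g' f' x) := by
  letI : MeasurableSpace (Adl K) := borel (Adl K)
  haveI : BorelSpace (Adl K) := ⟨rfl⟩
  intro μ hμ D hD nn hnn x
  have hfin : μ D < ⊤ := fundDom_lt_top23 hA μ hμ D hD
  have hn : nn = T3.unip K := funext fun t => eq_unip23 (hnn t)
  subst hn
  have e : (fun t : Adl K => lin c g f (T3.unip K t * x) - lin c' g' f' (T3.unip K t * x))
      = fun t : Adl K => (∑ i, c i * f (T3.unip K t * (x * g i)))
          - ∑ j, c' j * f' (T3.unip K t * (x * g' j)) := by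
    funext t
    rw [lin_apply23, lin_apply23]
    simp only [mul_assoc]
  have i1 : ∀ i ∈ Finset.univ, Integrable (fun t : Adl K => c i * f (T3.unip K t * (x * g i)))
      (μ.restrict D) := fun i _ => (integrable_ct23 μ D hfin hf hb (x * g i)).const_mul (c i)
  have i2 : ∀ j ∈ Finset.univ, Integrable (fun t : Adl K => c' j * f' (T3.unip K t * (x * g' j)))
      (μ.restrict D) := fun j _ => (integrable_ct23 μ D hfin hf' hb' (x * g' j)).const_mul (c' j)
  rw [e, integral_sub (integrable_finsetSum _ i1) (integrable_finsetSum _ i2),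
    integral_finsetSum _ i1, integral_finsetSum _ i2]
  have z1 : ∀ i ∈ Finset.univ, ∫ t in D, c i * f (T3.unip K t * (x * g i)) ∂μ = 0 := by
    intro i _
    rw [integral_const_mul, hc μ hμ D hD (T3.unip K) (fun t => T3.unip_coe K t) (x * g i),
      mul_zero]
  have z2 : ∀ j ∈ Finset.univ, ∫ t in D, c' j * f' (T3.unip K t * (x * g' j)) ∂μ = 0 := by
    intro j _
    rw [integral_const_mul, hc' μ hμ D hD (T3.unip K) (fun t => T3.unip_coe K t) (x * g' j),
      mul_zero]
  rw [Finset.sum_eq_zero z1, Finset.sum_eq_zero z2, sub_zero]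

end Fermat.Agent.LT.T2.H23

end

end
-- ===== PACK-END LT/T2/H23/Whit.lean

-- ===== PACK-BEGIN LT/T3/H315/IwaTop.lean
section


/-!
# Row LT, tower T3, leaf AS.2.5 `IwaC` (registry 1176, helper315) -- part 2: topology

OFF-MAIN.  Mathlib only.

* `locallyCompactSpace_GL2C315` : `GL₂(ℂ)` (units topology) is locally compact;
* `isCompact_unitary315` : `U(2)` is compact in `GL₂(ℂ)`;
* `continuous_rhoP`, `continuous_iwaP`; `Pc` is a topological group;
* `isCompact_preimage_rhoP` : the preimage of a compact set under the Iwasawa projection is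
  contained in a compact set.
-/

set_option autoImplicit false
set_option linter.unusedSimpArgs false
set_option linter.style.haveILetI false

open Fermat.Agent.LT.H556.A0 Fermat.Agent.LT.T3.AS Fermat.Agent.LT.T3.H614
open scoped ComplexConjugate Pointwise

noncomputable section

namespace Fermat.Agent.LT.T3.H315

theorem locallyCompactSpace_M2C315 : LocallyCompactSpace (Matrix (Fin 2) (Fin 2) ℂ) :=
  inferInstanceAs (LocallyCompactSpace (Fin 2 → Fin 2 → ℂ))

theorem locallyCompactSpace_GL2C315 : LocallyCompactSpace (GL (Fin 2) ℂ) := by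
  haveI := locallyCompactSpace_M2C315
  exact (Units.isClosedEmbedding_embedProduct (α := Matrix (Fin 2) (Fin 2) ℂ)).locallyCompactSpace

/-- The closed unit polydisc of `M₂(ℂ)`. -/
def unitBox315 : Set (Matrix (Fin 2) (Fin 2) ℂ) := {M | ∀ i j, ‖M i j‖ ≤ 1}

theorem isCompact_unitBox315 : IsCompact unitBox315 := by
  have h : IsCompact (Set.pi Set.univ fun _ : Fin 2 =>
      Set.pi Set.univ fun _ : Fin 2 => Metric.closedBall (0 : ℂ) 1) :=
    isCompact_univ_pi fun _ => isCompact_univ_pi fun _ => isCompact_closedBall 0 1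
  have e : unitBox315 = (Set.pi Set.univ fun _ : Fin 2 =>
      Set.pi Set.univ fun _ : Fin 2 => Metric.closedBall (0 : ℂ) 1) := by
    ext M
    constructor
    · intro hM i _ j _
      simpa using hM i j
    · intro hM i j
      simpa using hM i (Set.mem_univ i) j (Set.mem_univ j)
  rw [e]
  exact h

/-- The entries of a unitary matrix are bounded by `1`. -/
theorem norm_entry_le_one_of_unitary315 (k : Matrix (Fin 2) (Fin 2) ℂ)
    (hk : k * k.conjTranspose = 1) (i j : Fin 2) : ‖k i j‖ ≤ 1 := by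
  have h1 : ((hsq614 k : ℝ) : ℂ) = 2 := by
    rw [hsq614_eq_trace, hk]
    simp [Matrix.trace, Fin.sum_univ_two]
  have h2 : hsq614 k = 2 := by exact_mod_cast h1
  have hrow : ∀ i : Fin 2, ‖k i 0‖ ^ 2 + ‖k i 1‖ ^ 2 = 1 := by
    intro i
    have := congrFun (congrFun hk i) i
    simp only [Matrix.mul_apply, Matrix.conjTranspose_apply, Fin.sum_univ_two, Matrix.one_apply_eq,
      Complex.star_def, Complex.mul_conj, Complex.normSq_eq_norm_sq] at this
    exact_mod_cast this
  have := hrow i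
  fin_cases j
  · show ‖k i 0‖ ≤ 1
    nlinarith [norm_nonneg (k i 0), norm_nonneg (k i 1)]
  · show ‖k i 1‖ ≤ 1
    nlinarith [norm_nonneg (k i 0), norm_nonneg (k i 1)]

theorem isClosed_unitary315 : IsClosed {k : GL (Fin 2) ℂ | IsUnitary2 k} := by
  have hc : Continuous fun k : GL (Fin 2) ℂ =>
      (k : Matrix (Fin 2) (Fin 2) ℂ) * (k : Matrix (Fin 2) (Fin 2) ℂ).conjTranspose :=
    Units.continuous_val.mul (Continuous.matrix_conjTranspose Units.continuous_val)
  exact isClosed_singleton.preimage hc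

/-- **`U(2)` is compact in `GL₂(ℂ)`.** -/
theorem isCompact_unitary315 : IsCompact {k : GL (Fin 2) ℂ | IsUnitary2 k} := by
  have hT : IsCompact (unitBox315 ×ˢ (MulOpposite.op '' unitBox315)) :=
    isCompact_unitBox315.prod (isCompact_unitBox315.image MulOpposite.continuous_op)
  have hpre := (Units.isClosedEmbedding_embedProduct
    (α := Matrix (Fin 2) (Fin 2) ℂ)).isCompact_preimage hT
  refine hpre.of_isClosed_subset isClosed_unitary315 ?_
  intro k hk
  have hk1 : (k : Matrix (Fin 2) (Fin 2) ℂ) * (k : Matrix (Fin 2) (Fin 2) ℂ).conjTranspose = 1 := hk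
  have hk2 : (k : Matrix (Fin 2) (Fin 2) ℂ).conjTranspose * (k : Matrix (Fin 2) (Fin 2) ℂ) = 1 :=
    mul_eq_one_comm.1 hk1
  have hinv : ((k⁻¹ : GL (Fin 2) ℂ) : Matrix (Fin 2) (Fin 2) ℂ)
      = (k : Matrix (Fin 2) (Fin 2) ℂ).conjTranspose := by
    have h3 : ((k⁻¹ : GL (Fin 2) ℂ) : Matrix (Fin 2) (Fin 2) ℂ) * (k : Matrix (Fin 2) (Fin 2) ℂ)
        = 1 := by rw [← Units.val_mul, inv_mul_cancel, Units.val_one]
    calc ((k⁻¹ : GL (Fin 2) ℂ) : Matrix (Fin 2) (Fin 2) ℂ)
        = ((k⁻¹ : GL (Fin 2) ℂ) : Matrix (Fin 2) (Fin 2) ℂ)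
          * ((k : Matrix (Fin 2) (Fin 2) ℂ) * (k : Matrix (Fin 2) (Fin 2) ℂ).conjTranspose) := by
          rw [hk1, Matrix.mul_one]
      _ = (k : Matrix (Fin 2) (Fin 2) ℂ).conjTranspose := by
          rw [← Matrix.mul_assoc, h3, Matrix.one_mul]
  refine ⟨fun i j => norm_entry_le_one_of_unitary315 _ hk1 i j, ?_⟩
  refine ⟨((k⁻¹ : GL (Fin 2) ℂ) : Matrix (Fin 2) (Fin 2) ℂ), ?_, rfl⟩
  intro i j
  rw [hinv]
  have hk3 : (k : Matrix (Fin 2) (Fin 2) ℂ).conjTranspose
      * ((k : Matrix (Fin 2) (Fin 2) ℂ).conjTranspose).conjTranspose = 1 := by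
    rw [Matrix.conjTranspose_conjTranspose]; exact hk2
  exact norm_entry_le_one_of_unitary315 _ hk3 i j

/-! ## Continuity -/

namespace Pc

theorem continuous_s1 : Continuous Pc.s1 :=
  show Continuous fun p : (ℝ × ℝ) × ℂ => p.1.1 from continuous_fst.fst

theorem continuous_s2 : Continuous Pc.s2 :=
  show Continuous fun p : (ℝ × ℝ) × ℂ => p.1.2 from continuous_fst.snd

theorem continuous_xc : Continuous Pc.xc :=
  show Continuous fun p : (ℝ × ℝ) × ℂ => p.2 from continuous_snd

theorem continuous_mk {X : Type*} [TopologicalSpace X] {f g : X → ℝ} {u : X → ℂ}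
    (hf : Continuous f) (hg : Continuous g) (hu : Continuous u) :
    Continuous fun t => Pc.mk (f t) (g t) (u t) :=
  show Continuous fun t => (((f t, g t), u t) : (ℝ × ℝ) × ℂ) from (hf.prodMk hg).prodMk hu

instance : IsTopologicalGroup Pc where
  continuous_mul := by
    have h1 : Continuous fun z : Pc × Pc => z.1.s1 + z.2.s1 :=
      (continuous_s1.comp continuous_fst).add (continuous_s1.comp continuous_snd)
    have h2 : Continuous fun z : Pc × Pc => z.1.s2 + z.2.s2 :=
      (continuous_s2.comp continuous_fst).add (continuous_s2.comp continuous_snd)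
    have h3 : Continuous fun z : Pc × Pc =>
        z.2.xc + ((Real.exp (z.2.s2 - z.2.s1) : ℝ) : ℂ) * z.1.xc := by
      refine (continuous_xc.comp continuous_snd).add (Continuous.mul ?_
        (continuous_xc.comp continuous_fst))
      exact Complex.continuous_ofReal.comp (Real.continuous_exp.comp
        ((continuous_s2.comp continuous_snd).sub (continuous_s1.comp continuous_snd)))
    exact continuous_mk h1 h2 h3
  continuous_inv := by
    have h3 : Continuous fun p : Pc => -(((Real.exp (p.s1 - p.s2) : ℝ) : ℂ) * p.xc) := by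
      refine (Continuous.mul ?_ continuous_xc).neg
      exact Complex.continuous_ofReal.comp (Real.continuous_exp.comp
        (continuous_s1.sub continuous_s2))
    exact continuous_mk continuous_s1.neg continuous_s2.neg h3

end Pc

theorem continuous_entry315 (i j : Fin 2) :
    Continuous fun h : GL (Fin 2) ℂ => (h : Matrix (Fin 2) (Fin 2) ℂ) i j :=
  Units.continuous_val.matrix_elem i j

theorem continuous_norm_det315 :
    Continuous fun h : GL (Fin 2) ℂ => ‖(h : Matrix (Fin 2) (Fin 2) ℂ).det‖ :=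
  (Continuous.matrix_det Units.continuous_val).norm

theorem continuous_botN315 :
    Continuous fun h : GL (Fin 2) ℂ => botN (h : Matrix (Fin 2) (Fin 2) ℂ) := by
  unfold botN
  exact Real.continuous_sqrt.comp
    (((continuous_entry315 1 0).norm.pow 2).add ((continuous_entry315 1 1).norm.pow 2))

/-- The Iwasawa projection is continuous. -/
theorem continuous_rhoP : Continuous rhoP := by
  unfold rhoP
  refine Pc.continuous_mk ?_ ?_ ?_
  · exact (continuous_norm_det315.log fun h => (norm_det_pos315 h).ne').sub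
      (continuous_botN315.log fun h => (botN_pos315 h).ne')
  · exact continuous_botN315.log fun h => (botN_pos315 h).ne'
  · refine Continuous.div ?_ (Complex.continuous_ofReal.comp continuous_norm_det315) ?_
    · exact ((continuous_entry315 0 0).mul
        (Complex.continuous_conj.comp (continuous_entry315 1 0))).add
        ((continuous_entry315 0 1).mul (Complex.continuous_conj.comp (continuous_entry315 1 1)))
    · intro h
      exact_mod_cast (norm_det_pos315 h).ne'

theorem iwaP_inv_coe (p : Pc) :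
    (((iwaP p)⁻¹ : GL (Fin 2) ℂ) : Matrix (Fin 2) (Fin 2) ℂ)
      = !![((Real.exp (-p.s1) : ℝ) : ℂ), -(((Real.exp (-p.s2) : ℝ) : ℂ) * p.xc);
          0, ((Real.exp (-p.s2) : ℝ) : ℂ)] := by
  have h : iwaP p * iwaP p⁻¹ = 1 := by rw [← iwaP_mul, mul_inv_cancel]; exact congrArg iwaP rfl |>.trans (by
    apply Units.ext
    rw [iwaP_coe]
    ext i j
    fin_cases i <;> fin_cases j <;> simp)
  have h2 : (iwaP p)⁻¹ = iwaP p⁻¹ := inv_eq_of_mul_eq_one_right h
  rw [h2, iwaP_coe]
  ext i j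
  fin_cases i <;> fin_cases j <;> simp [Real.exp_sub, Real.exp_neg]
  have e1 : Complex.exp (p.s1 : ℂ) ≠ 0 := Complex.exp_ne_zero _
  have e2 : Complex.exp (p.s2 : ℂ) ≠ 0 := Complex.exp_ne_zero _
  field_simp

/-- The chart is continuous. -/
theorem continuous_iwaP : Continuous iwaP := by
  have hexp : ∀ {f : Pc → ℝ}, Continuous f → Continuous fun p => ((Real.exp (f p) : ℝ) : ℂ) :=
    fun hf => Complex.continuous_ofReal.comp (Real.continuous_exp.comp hf)
  rw [Units.continuous_iff]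
  constructor
  · show Continuous fun p : Pc => ((iwaP p : GL (Fin 2) ℂ) : Matrix (Fin 2) (Fin 2) ℂ)
    simp_rw [iwaP_coe]
    refine continuous_matrix ?_
    intro i j
    fin_cases i <;> fin_cases j
    · exact hexp Pc.continuous_s1
    · exact (hexp Pc.continuous_s1).mul Pc.continuous_xc
    · exact continuous_const
    · exact hexp Pc.continuous_s2
  · show Continuous fun p : Pc => (((iwaP p)⁻¹ : GL (Fin 2) ℂ) : Matrix (Fin 2) (Fin 2) ℂ)
    simp_rw [iwaP_inv_coe]
    refine continuous_matrix ?_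
    intro i j
    fin_cases i <;> fin_cases j
    · exact hexp Pc.continuous_s1.neg
    · exact ((hexp Pc.continuous_s2.neg).mul Pc.continuous_xc).neg
    · exact continuous_const
    · exact hexp Pc.continuous_s2.neg

/-- The preimage of a compact set under the Iwasawa projection lies in a compact set. -/
theorem exists_isCompact_preimage_rhoP {C : Set Pc} (hC : IsCompact C) :
    ∃ T : Set (GL (Fin 2) ℂ), IsCompact T ∧ rhoP ⁻¹' C ⊆ T := by
  refine ⟨(iwaP '' C) * {k : GL (Fin 2) ℂ | IsUnitary2 k},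
    (hC.image continuous_iwaP).mul isCompact_unitary315, ?_⟩
  intro h hh
  obtain ⟨k, hk, hhk⟩ := exists_unitary_rhoP h
  exact ⟨iwaP (rhoP h), ⟨rhoP h, hh, rfl⟩, k, hk, hhk.symm⟩

end Fermat.Agent.LT.T3.H315

end

end
-- ===== PACK-END LT/T3/H315/IwaTop.lean

-- ===== PACK-BEGIN LT/T3/H57/ROpLoc.lean
section




/-!
# Row LT, tower T3, station T3.18a, leaf AS.5 `ROpC` (helper57, OFF-MAIN): local transfers

* `isLocSph0_of57` : `s ↦ φ(y ι_w(s))` is `AS.IsLocSph0` for `φ` of `T3.IsSph0Level`;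
* `isLocEigen_of57` : `y ↦ φ(g ι₀(y))` is `AS.IsLocEigen` for `φ` Hecke-eigen at `v₀ ∤ 𝔫`;
* `pureFn_eq_sum57` : `pureFn = ∑_{h ∈ R} f₀(h) L_{ι₀ h} f¹`.
-/

set_option autoImplicit false

open IsDedekindDomain NumberField Topology
open Fermat.Agent.LT.H556.A0
open Fermat.Agent.LT.T1.H724 Fermat.Agent.LT.T1.H793
open Fermat.Agent.LT.T3

noncomputable section

namespace Fermat.Agent.LT.T3.H57

variable {K : Type} [Field K] [NumberField K]

/-! ## The infinite places -/

section Inf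

variable (hK : ∀ w : InfinitePlace K, w.IsComplex)

open Classical in
/-- The embedding of `GL₂(ℂ)` at the place `w`. -/
def infEmbAt57 (w : InfinitePlace K) : GL (Fin 2) ℂ →* G K :=
  (infEmb57 hK).comp (MonoidHom.mulSingle (fun _ : InfinitePlace K => GL (Fin 2) ℂ) w)

open Classical in
theorem infEmbAt_apply57 (w : InfinitePlace K) (s : GL (Fin 2) ℂ) :
    infEmbAt57 hK w s = infEmb57 hK (Pi.mulSingle w s) := rfl

theorem isLocalAtInf_infEmbAt57 (w : InfinitePlace K) (s : GL (Fin 2) ℂ) :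
    IsLocalAtInf w (infEmbAt57 hK w s) := by
  classical
  exact isLocalAtInf_infEmb57 hK w s

theorem infComp_infEmbAt57 (w : InfinitePlace K) (s : GL (Fin 2) ℂ) :
    infComp w (infEmbAt57 hK w s) = (s : Matrix (Fin 2) (Fin 2) ℂ) := by
  classical
  exact infComp_infEmb_single57 hK w s

theorem continuous_infEmbAt57 (w : InfinitePlace K) : Continuous (infEmbAt57 hK w) := by
  classical
  have h : Continuous (fun s : GL (Fin 2) ℂ =>
      (Pi.mulSingle w s : InfinitePlace K → GL (Fin 2) ℂ)) := by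
    refine continuous_pi fun w' => ?_
    by_cases hw : w' = w
    · subst hw
      simp only [Pi.mulSingle_eq_same]
      exact continuous_id
    · simp only [Pi.mulSingle_eq_of_ne hw]
      exact continuous_const
  exact (continuous_infEmb57 hK).comp h

theorem isLocSph0_of57 (𝔫 : Ideal (𝓞 K)) (φ : G K → ℂ) (hφ : IsSph0Level K 𝔫 φ)
    (y : G K) (w : InfinitePlace K) :
    AS.IsLocSph0 (fun s : GL (Fin 2) ℂ => φ (y * infEmbAt57 hK w s)) := by
  refine ⟨?_, ?_, ?_, ?_⟩
  · exact hφ.cont.comp (continuous_const.mul (continuous_infEmbAt57 hK w))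
  · intro k y' hk
    rw [map_mul, ← mul_assoc]
    refine hφ.arch_compact w _ ⟨isLocalAtInf_infEmbAt57 hK w k, ?_, ?_⟩ _
    · rw [infComp_infEmbAt57]
      exact hk
    · intro hr
      exact absurd (hK w) (InfinitePlace.not_isComplex_iff_isReal.2 hr)
  · intro z r hr hz y'
    rw [map_mul, ← mul_assoc]
    refine hφ.arch_scalar w _ ⟨isLocalAtInf_infEmbAt57 hK w z, r, hr, ?_⟩ _
    rw [infComp_infEmbAt57]
    exact hz
  · intro d hd Y hY y'
    have h := hφ.mean_complex w (hK w) d hd (fun α β => infEmbAt57 hK w (Y α β))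
      (fun α β => ⟨isLocalAtInf_infEmbAt57 hK w _, by rw [infComp_infEmbAt57]; exact hY α β⟩)
      (y * infEmbAt57 hK w y')
    simp only [map_mul, ← mul_assoc]
    exact h

end Inf

/-! ## The place `v₀` -/

theorem isIntGL_one57 (v : HeightOneSpectrum (𝓞 K)) :
    AS.IsIntGL v (1 : GL (Fin 2) (v.adicCompletion K)) := by
  intro i j
  simp only [inv_one, Units.val_one, and_self]
  rw [one_apply_eq57]
  exact intCast_mem _ _

theorem isIntGL_inv57 (v : HeightOneSpectrum (𝓞 K)) {a : GL (Fin 2) (v.adicCompletion K)}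
    (ha : AS.IsIntGL v a) : AS.IsIntGL v a⁻¹ := by
  intro i j
  rw [inv_inv]
  exact ⟨(ha i j).2, (ha i j).1⟩

theorem isIntGL_mul57 (v : HeightOneSpectrum (𝓞 K)) {a b : GL (Fin 2) (v.adicCompletion K)}
    (ha : AS.IsIntGL v a) (hb : AS.IsIntGL v b) : AS.IsIntGL v (a * b) := by
  intro i j
  rw [mul_inv_rev, Units.val_mul, Units.val_mul, Matrix.mul_apply, Matrix.mul_apply]
  exact ⟨sum_mem fun l _ => mul_mem (ha i l).1 (hb l j).1,
    sum_mem fun l _ => mul_mem (hb i l).2 (ha l j).2⟩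

theorem isLocEigen_of57 (𝔫 : Ideal (𝓞 K)) (v₀ : HeightOneSpectrum (𝓞 K))
    (hv₀ : ¬ v₀.asIdeal ∣ 𝔫) (φ : G K → ℂ) (hφ : IsSph0Level K 𝔫 φ) (a b : ℂ)
    (he : IsHeckeEigenAt φ v₀ a b) (g : G K) :
    AS.IsLocEigen v₀ (fun y : GL (Fin 2) (v₀.adicCompletion K) => φ (g * finEmb57 v₀ y)) a b := by
  classical
  refine ⟨?_, ?_, ?_⟩
  · intro k y hk
    rw [map_mul, ← mul_assoc]
    exact hφ.level_inv _ (inLevelGroup_finEmb57 𝔫 v₀ hv₀ k hk) _
  · intro H hH y
    have hsys : IsHeckeCosetSystem v₀ (H.image (finEmb57 (K := K) v₀)) := by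
      refine ⟨?_, ?_, ?_⟩
      · rw [Finset.card_image_of_injective _ (finEmb_injective57 v₀)]
        exact hH.1
      · intro h' hh'
        obtain ⟨h, hh, rfl⟩ := Finset.mem_image.1 hh'
        refine ⟨isLocalAtFin_finEmb57 v₀ h, ?_, ?_⟩
        · intro i j
          rw [finComp_finEmb57]
          exact (hH.2.1 h hh).1 i j
        · rw [finComp_finEmb57]
          exact (hH.2.1 h hh).2
      · intro h₁ hh₁ h₂ hh₂ hne hint
        obtain ⟨a₁, ha₁, rfl⟩ := Finset.mem_image.1 hh₁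
        obtain ⟨a₂, ha₂, rfl⟩ := Finset.mem_image.1 hh₂
        have hne' : a₁ ≠ a₂ := fun h => hne (by rw [h])
        refine hH.2.2 a₁ ha₁ a₂ ha₂ hne' fun i j => ?_
        have := hint i j
        rwa [← map_inv, ← map_mul, finComp_finEmb57] at this
    have := he.1 _ hsys (g * finEmb57 v₀ y)
    rw [Finset.sum_image (fun x _ y _ hxy => finEmb_injective57 v₀ hxy)] at this
    rw [← this]
    refine Finset.sum_congr rfl fun h _ => ?_
    rw [map_mul, ← mul_assoc]
  · intro z c hc hz y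
    rw [map_mul, ← mul_assoc]
    refine he.2 _ ⟨isLocalAtFin_finEmb57 v₀ z, c, hc, ?_⟩ _
    rw [finComp_finEmb57]
    exact hz

/-! ## The decomposition of the pure tensor -/

open Classical in
/-- The pure tensor with `1_{GL₂(𝒪_{v₀})}` at `v₀`. -/
def pureOne57 (𝔫 : Ideal (𝓞 K)) (F : InfinitePlace K → GL (Fin 2) ℂ → ℂ) (x : G K) : ℂ :=
  if InU057 𝔫 x then ∏ w : InfinitePlace K, F w (AS.infGL K w x) else 0

theorem inU0_finEmb_inv_mul_iff57 (𝔫 : Ideal (𝓞 K)) (v₀ : HeightOneSpectrum (𝓞 K))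
    (hv₀ : ¬ v₀.asIdeal ∣ 𝔫) (h : GL (Fin 2) (v₀.adicCompletion K)) (x : G K) :
    InU057 𝔫 ((finEmb57 v₀ h)⁻¹ * x) ↔
      AS.OutsideU K 𝔫 v₀ x ∧ AS.IsIntGL v₀ (h⁻¹ * AS.finGL K v₀ x) := by
  rw [inU0_iff_loc57, outsideU_iff_loc57]
  have hne : ∀ v, v ≠ v₀ → AS.finGL K v ((finEmb57 v₀ h)⁻¹ * x) = AS.finGL K v x := by
    intro v hv
    rw [map_mul, map_inv, finGL_finEmb_ne57 v₀ h v hv, inv_one, one_mul]
  have heq : AS.finGL K v₀ ((finEmb57 v₀ h)⁻¹ * x) = h⁻¹ * AS.finGL K v₀ x := by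
    rw [map_mul, map_inv, finGL_finEmb57]
  constructor
  · intro hall
    refine ⟨fun v hv => ?_, ?_⟩
    · rw [← hne v hv]
      exact hall v
    · rw [← heq, ← locU_iff_isIntGL57 𝔫 v₀ hv₀]
      exact hall v₀
  · rintro ⟨hout, hint⟩ v
    by_cases hv : v = v₀
    · subst hv
      rw [heq, locU_iff_isIntGL57 𝔫 v hv₀]
      exact hint
    · rw [hne v hv]
      exact hout v hv

/-- `pureFn = ∑_{h ∈ R} f₀(h) L_{ι₀(h)} f¹`. -/
theorem pureFn_eq_sum57 (𝔫 : Ideal (𝓞 K)) (v₀ : HeightOneSpectrum (𝓞 K))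
    (hv₀ : ¬ v₀.asIdeal ∣ 𝔫) (f₀ : GL (Fin 2) (v₀.adicCompletion K) → ℂ)
    (F : InfinitePlace K → GL (Fin 2) ℂ → ℂ) (hf₀ : AS.IsBiIntInv v₀ f₀)
    (R : Finset (GL (Fin 2) (v₀.adicCompletion K))) (hR : AS.IsRepSys v₀ f₀ R) (x : G K) :
    AS.pureFn K 𝔫 v₀ f₀ F x = ∑ h ∈ R, f₀ h * pureOne57 𝔫 F ((finEmb57 v₀ h)⁻¹ * x) := by
  classical
  have hinf : ∀ (h : GL (Fin 2) (v₀.adicCompletion K)) (w : InfinitePlace K),
      AS.infGL K w ((finEmb57 v₀ h)⁻¹ * x) = AS.infGL K w x := by
    intro h w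
    rw [map_mul, map_inv, infGL_finEmb57, inv_one, one_mul]
  have hterm : ∀ h : GL (Fin 2) (v₀.adicCompletion K),
      pureOne57 𝔫 F ((finEmb57 v₀ h)⁻¹ * x)
        = if AS.OutsideU K 𝔫 v₀ x ∧ AS.IsIntGL v₀ (h⁻¹ * AS.finGL K v₀ x)
          then ∏ w : InfinitePlace K, F w (AS.infGL K w x) else 0 := by
    intro h
    unfold pureOne57
    simp only [inU0_finEmb_inv_mul_iff57 𝔫 v₀ hv₀, hinf]
  simp only [hterm]
  unfold AS.pureFn
  by_cases hout : AS.OutsideU K 𝔫 v₀ x
  · simp only [hout, true_and, if_true]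
    have hval : ∀ h : GL (Fin 2) (v₀.adicCompletion K),
        AS.IsIntGL v₀ (h⁻¹ * AS.finGL K v₀ x) → f₀ h = f₀ (AS.finGL K v₀ x) := by
      intro h hint
      have := hf₀ 1 (h⁻¹ * AS.finGL K v₀ x) h (isIntGL_one57 v₀) hint
      rw [one_mul, mul_inv_cancel_left] at this
      exact this.symm
    by_cases h0 : f₀ (AS.finGL K v₀ x) = 0
    · rw [h0, zero_mul]
      symm
      refine Finset.sum_eq_zero fun h _ => ?_
      split_ifs with hint
      · rw [hval h hint, h0, zero_mul]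
      · rw [mul_zero]
    · obtain ⟨h₀, hh₀, hint₀⟩ := hR.2 _ h0
      rw [Finset.sum_eq_single h₀]
      · rw [if_pos hint₀, hval h₀ hint₀]
      · intro h hh hne
        rw [if_neg, mul_zero]
        intro hint
        apply hne
        refine hR.1 h hh h₀ hh₀ ?_
        have := isIntGL_mul57 v₀ hint (isIntGL_inv57 v₀ hint₀)
        rwa [mul_inv_rev, inv_inv, mul_assoc, mul_inv_cancel_left] at this
      · intro hh
        exact absurd hh₀ hh
  · simp only [hout, false_and, if_false, mul_zero, Finset.sum_const_zero]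

end Fermat.Agent.LT.T3.H57

end

end
-- ===== PACK-END LT/T3/H57/ROpLoc.lean

-- ===== PACK-BEGIN LT/T3/H736/ASRegSmooth.lean
section




/-!
# Row LT, tower T3, station T3.18a, leaf AS.2s: smoothness of the test function from WHITNEY

OFF-MAIN (helper736).  Imports the byte-identical copies of `LT/T3/H315/AbelCut.lean`
(helper315@4ea336ee2, sha256 446d055e) and `LT/T3/H614/AbelCalc.lean` (helper614@bc549c9f6,
sha256 2e11bd46).

* `abelInv_eq_rho736` : if `∂_u E = sinh u · ρ(cosh u)` with `ρ` smooth on `{y ≥ 1}`, then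
  `abelInv614 E y = -(2π)⁻¹ ρ(y)` for `y ≥ 1`;
* `abelFn_smooth736 : WhitneySinhC → IsSymBump β → IsCplxSmooth (abelFn β)`;
* `abelFn_continuous736 : WhitneySinhC → IsSymBump β → Continuous (abelFn β)`;
* `abelCplxSmooth_of736` : the top of helper315 in the smooth form,
  `WhitneySinhC → RegC → NIntC → SphContC → AvgC → IwaC → CalcC → AbelCplxSmoothC`.
-/

set_option autoImplicit false

open MeasureTheory
open Fermat.Agent.LT.H556.A0 Fermat.Agent.LT.T3.H614 Fermat.Agent.LT.T3.H315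

noncomputable section

namespace Fermat.Agent.LT.T3.AS

/-- The function of two variables `E(u, c) = β((c+u)/2, (c-u)/2)`. -/
def slice2 (β : ℝ × ℝ → ℂ) (p : ℝ × ℝ) : ℂ := β ((p.2 + p.1) / 2, (p.2 - p.1) / 2)

theorem slice2_contDiff {β : ℝ × ℝ → ℂ} (hβ : IsSymBump β) :
    ContDiff ℝ ((⊤ : ℕ∞) : WithTop ℕ∞) (slice2 β) := by
  unfold slice2
  exact hβ.1.comp (by fun_prop)

theorem slice2_even {β : ℝ × ℝ → ℂ} (hβ : IsSymBump β) (u c : ℝ) :
    slice2 β (-u, c) = slice2 β (u, c) := by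
  unfold slice2
  simp only
  rw [hβ.2.2]
  congr 2
  ring

theorem slice2_eq (β : ℝ × ℝ → ℂ) (c : ℝ) : (fun t : ℝ => slice2 β (t, c)) = sliceE β c := rfl

/-- If `E' = sinh · ρ(cosh)` with `ρ` smooth on `{y ≥ 1}` then the inverse Abel transform of
helper614 is `-(2π)⁻¹ ρ` on `{y ≥ 1}`. -/
theorem abelInv_eq_rho736 (E : ℝ → ℂ) (r : ℝ → ℂ)
    (hr : ContDiffOn ℝ ((⊤ : ℕ∞) : WithTop ℕ∞) r (Set.Ici (1 : ℝ)))
    (hE : ∀ u : ℝ, deriv E u = (Real.sinh u : ℂ) * r (Real.cosh u)) (y : ℝ) (hy : 1 ≤ y) :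
    abelInv614 E y = (-(2 * Real.pi)⁻¹ : ℝ) • r y := by
  rcases hy.eq_or_lt with h1 | h1
  · subst h1
    rw [abelInv614_of_le le_rfl]
    congr 1
    have hsm : ContDiff ℝ ((⊤ : ℕ∞) : WithTop ℕ∞) (fun u : ℝ => r (Real.cosh u)) := by
      rw [← contDiffOn_univ]
      exact hr.comp (Real.contDiff_cosh.contDiffOn) fun u _ => Real.one_le_cosh u
    have hd : HasDerivAt (fun u : ℝ => r (Real.cosh u)) (deriv (fun u : ℝ => r (Real.cosh u)) 0)
        0 := (hsm.differentiable (by simp) 0).hasDerivAt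
    have hs : HasDerivAt (fun u : ℝ => (Real.sinh u : ℂ)) ((Real.cosh 0 : ℝ) : ℂ) 0 :=
      (Real.hasDerivAt_sinh 0).ofReal_comp
    have := hs.mul hd
    have e : deriv E = fun u : ℝ => (Real.sinh u : ℂ) * r (Real.cosh u) := funext hE
    rw [e]
    have h2 := this.deriv
    simp only [Real.cosh_zero, Real.sinh_zero, Complex.ofReal_one, Complex.ofReal_zero, one_mul,
      zero_mul, add_zero] at h2
    exact h2
  · rw [abelInv614_of_lt h1, hE, Real.sinh_arcosh hy, Real.cosh_arcosh hy]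
    have hpos : 0 < Real.sqrt (y ^ 2 - 1) := Real.sqrt_pos.2 (by nlinarith)
    rw [Complex.real_smul, Complex.real_smul, ← mul_assoc]
    congr 1
    rw [← Complex.ofReal_mul]
    congr 1
    field_simp

section Family

variable {n : ℕ} (h : (Fin n → ℝ) → GL (Fin 2) ℂ)

theorem det_family_contDiff736
    (hh : ∀ i j : Fin 2, ContDiff ℝ ((⊤ : ℕ∞) : WithTop ℕ∞)
      (fun t => ((h t : GL (Fin 2) ℂ) : Matrix (Fin 2) (Fin 2) ℂ) i j)) :
    ContDiff ℝ ((⊤ : ℕ∞) : WithTop ℕ∞)
      (fun t => ((h t : GL (Fin 2) ℂ) : Matrix (Fin 2) (Fin 2) ℂ).det) := by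
  have : (fun t => ((h t : GL (Fin 2) ℂ) : Matrix (Fin 2) (Fin 2) ℂ).det)
      = fun t => ((h t : GL (Fin 2) ℂ) : Matrix (Fin 2) (Fin 2) ℂ) 0 0
          * ((h t : GL (Fin 2) ℂ) : Matrix (Fin 2) (Fin 2) ℂ) 1 1
        - ((h t : GL (Fin 2) ℂ) : Matrix (Fin 2) (Fin 2) ℂ) 0 1
          * ((h t : GL (Fin 2) ℂ) : Matrix (Fin 2) (Fin 2) ℂ) 1 0 := by
    funext t
    rw [Matrix.det_fin_two]
  rw [this]
  exact ((hh 0 0).mul (hh 1 1)).sub ((hh 0 1).mul (hh 1 0))

theorem det_ne_zero736 (g : GL (Fin 2) ℂ) : (g : Matrix (Fin 2) (Fin 2) ℂ).det ≠ 0 := by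
  have := Matrix.GeneralLinearGroup.det_ne_zero g
  exact this

theorem coords_family_contDiff736
    (hh : ∀ i j : Fin 2, ContDiff ℝ ((⊤ : ℕ∞) : WithTop ℕ∞)
      (fun t => ((h t : GL (Fin 2) ℂ) : Matrix (Fin 2) (Fin 2) ℂ) i j)) :
    ContDiff ℝ ((⊤ : ℕ∞) : WithTop ℕ∞)
      (fun t => (chD614 ((h t : GL (Fin 2) ℂ) : Matrix (Fin 2) (Fin 2) ℂ),
        Real.log ‖((h t : GL (Fin 2) ℂ) : Matrix (Fin 2) (Fin 2) ℂ).det‖)) := by
  have hdet := det_family_contDiff736 h hh
  have hnorm : ContDiff ℝ ((⊤ : ℕ∞) : WithTop ℕ∞)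
      (fun t => ‖((h t : GL (Fin 2) ℂ) : Matrix (Fin 2) (Fin 2) ℂ).det‖) :=
    hdet.norm ℝ fun t => det_ne_zero736 (h t)
  have hne : ∀ t, ‖((h t : GL (Fin 2) ℂ) : Matrix (Fin 2) (Fin 2) ℂ).det‖ ≠ 0 := fun t =>
    norm_ne_zero_iff.2 (det_ne_zero736 (h t))
  refine ContDiff.prodMk ?_ (hnorm.log hne)
  unfold chD614 hsq614
  refine ContDiff.div ?_ (contDiff_const.mul hnorm) fun t => mul_ne_zero two_ne_zero (hne t)
  exact ((((hh 0 0).norm_sq ℝ).add ((hh 0 1).norm_sq ℝ)).add ((hh 1 0).norm_sq ℝ)).add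
    ((hh 1 1).norm_sq ℝ)

end Family

/-- `abelFn β = -(2π)⁻¹ ρ(chD, log |det|)` for the function `ρ` of Whitney's lemma. -/
theorem abelFn_eq_rho736 {β : ℝ × ℝ → ℂ} (ρ : ℝ × ℝ → ℂ)
    (hρ : ContDiffOn ℝ ((⊤ : ℕ∞) : WithTop ℕ∞) ρ (Set.Ici (1 : ℝ) ×ˢ (Set.univ : Set ℝ)))
    (hE : ∀ u c : ℝ, deriv (fun t : ℝ => slice2 β (t, c)) u
      = (Real.sinh u : ℂ) * ρ (Real.cosh u, c)) (g : GL (Fin 2) ℂ) :
    abelFn β g = (-(2 * Real.pi)⁻¹ : ℝ) • ρ (chD614 (g : Matrix (Fin 2) (Fin 2) ℂ),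
      Real.log ‖(g : Matrix (Fin 2) (Fin 2) ℂ).det‖) := by
  unfold abelFn
  refine abelInv_eq_rho736 _ (fun y => ρ (y, Real.log ‖(g : Matrix (Fin 2) (Fin 2) ℂ).det‖))
    ?_ (fun u => hE u _) _ (one_le_chD614 _ (det_ne_zero736 g))
  exact hρ.comp (by fun_prop) fun y hy => ⟨hy, Set.mem_univ _⟩

/-- **Smoothness of the test function of AS.2 from Whitney's lemma.** -/
theorem abelFn_smooth736 (hW : WhitneySinhC) {β : ℝ × ℝ → ℂ} (hβ : IsSymBump β) :
    IsCplxSmooth (abelFn β) := by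
  obtain ⟨ρ, hρ, hE⟩ := hW (slice2 β) (slice2_contDiff hβ) (slice2_even hβ)
  intro n h hh
  have e : (fun t => abelFn β (h t))
      = fun t => (-(2 * Real.pi)⁻¹ : ℝ) • ρ (chD614 ((h t : GL (Fin 2) ℂ) :
          Matrix (Fin 2) (Fin 2) ℂ),
        Real.log ‖((h t : GL (Fin 2) ℂ) : Matrix (Fin 2) (Fin 2) ℂ).det‖) :=
    funext fun t => abelFn_eq_rho736 ρ hρ hE (h t)
  rw [e]
  refine ContDiff.const_smul _ ?_
  rw [← contDiffOn_univ]
  exact hρ.comp (coords_family_contDiff736 h hh).contDiffOn fun t _ =>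
    ⟨one_le_chD614 _ (det_ne_zero736 (h t)), Set.mem_univ _⟩

/-- **Continuity of the test function of AS.2 from Whitney's lemma.** -/
theorem abelFn_continuous736 (hW : WhitneySinhC) {β : ℝ × ℝ → ℂ} (hβ : IsSymBump β) :
    Continuous (abelFn β) := by
  obtain ⟨ρ, hρ, hE⟩ := hW (slice2 β) (slice2_contDiff hβ) (slice2_even hβ)
  have e : abelFn β = fun g : GL (Fin 2) ℂ =>
      (-(2 * Real.pi)⁻¹ : ℝ) • ρ (chD614 (g : Matrix (Fin 2) (Fin 2) ℂ),
        Real.log ‖(g : Matrix (Fin 2) (Fin 2) ℂ).det‖) :=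
    funext fun g => abelFn_eq_rho736 ρ hρ hE g
  rw [e]
  suffices hc : Continuous fun g : GL (Fin 2) ℂ =>
      ρ (chD614 (g : Matrix (Fin 2) (Fin 2) ℂ),
        Real.log ‖(g : Matrix (Fin 2) (Fin 2) ℂ).det‖) from
    (continuous_const (y := (-(2 * Real.pi)⁻¹ : ℝ))).smul hc
  have hcoe : Continuous fun g : GL (Fin 2) ℂ => (g : Matrix (Fin 2) (Fin 2) ℂ) :=
    Units.continuous_val (M := Matrix (Fin 2) (Fin 2) ℂ)
  have hent : ∀ i j : Fin 2, Continuous fun g : GL (Fin 2) ℂ =>
      (g : Matrix (Fin 2) (Fin 2) ℂ) i j := fun i j =>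
    hcoe.matrix_elem i j
  have hdet : Continuous fun g : GL (Fin 2) ℂ => (g : Matrix (Fin 2) (Fin 2) ℂ).det := by
    have : (fun g : GL (Fin 2) ℂ => (g : Matrix (Fin 2) (Fin 2) ℂ).det)
        = fun g : GL (Fin 2) ℂ =>
          (g : Matrix (Fin 2) (Fin 2) ℂ) 0 0 * (g : Matrix (Fin 2) (Fin 2) ℂ) 1 1
          - (g : Matrix (Fin 2) (Fin 2) ℂ) 0 1 * (g : Matrix (Fin 2) (Fin 2) ℂ) 1 0 := by
      funext g
      rw [Matrix.det_fin_two]
    rw [this]
    exact ((hent 0 0).mul (hent 1 1)).sub ((hent 0 1).mul (hent 1 0))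
  have hne : ∀ g : GL (Fin 2) ℂ, ‖(g : Matrix (Fin 2) (Fin 2) ℂ).det‖ ≠ 0 := fun g =>
    norm_ne_zero_iff.2 (det_ne_zero736 g)
  have hmap : Continuous fun g : GL (Fin 2) ℂ =>
      (chD614 (g : Matrix (Fin 2) (Fin 2) ℂ),
        Real.log ‖(g : Matrix (Fin 2) (Fin 2) ℂ).det‖) := by
    refine Continuous.prodMk ?_ (hdet.norm.log hne)
    unfold chD614 hsq614
    refine Continuous.div ?_ (continuous_const.mul hdet.norm) fun g =>
      mul_ne_zero two_ne_zero (hne g)
    exact (((((hent 0 0).norm.pow 2).add ((hent 0 1).norm.pow 2)).add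
      ((hent 1 0).norm.pow 2)).add ((hent 1 1).norm.pow 2))
  exact hρ.continuousOn.comp_continuous hmap fun g =>
    ⟨one_le_chD614 _ (det_ne_zero736 g), Set.mem_univ _⟩

/-- **AS.2s from the cut of helper315 and Whitney's lemma**: the top of helper315
(`abelCplx_of315`) in the smooth form. -/
theorem abelCplxSmooth_of736 (hW : WhitneySinhC) (hreg : RegC) (hn : H315.NIntC)
    (hs : SphContC) (ha : AvgC) (hi : IwaC) (hc : CalcC) : AbelCplxSmoothC := by
  let _ : MeasurableSpace (GL (Fin 2) ℂ) := borel (GL (Fin 2) ℂ)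
  obtain ⟨μ, hμ, c, hc0, hiwa⟩ := hi
  refine ⟨μ, hμ, (c : ℂ), by exact_mod_cast hc0.ne', ?_⟩
  intro β hβ
  have hF := hreg β hβ
  refine ⟨abelFn β, hF, abelFn_smooth736 hW hβ, hn β hβ, ?_⟩
  intro Ψ hΨ y
  have hleft : ∀ k h : GL (Fin 2) ℂ, IsUnitary2 k → abelFn β (k * h) = abelFn β h := by
    intro k h hk
    have := hF.bi_inv k 1 h hk isUnitary2_one315
    simpa using this
  have hright : ∀ k h : GL (Fin 2) ℂ, IsUnitary2 k → abelFn β (h * k) = abelFn β h := by
    intro k h hk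
    have := hF.bi_inv 1 k h isUnitary2_one315 hk
    simpa using this
  rw [ha μ hμ Ψ hΨ (abelFn β) hF.cont hF.supp hleft y]
  have hΦc : Continuous fun h : GL (Fin 2) ℂ =>
      ((sph0 (chD614 (h : Matrix (Fin 2) (Fin 2) ℂ)) : ℝ) : ℂ) * abelFn β h := hs.mul hF.cont
  have hΦs : HasCompactSupport fun h : GL (Fin 2) ℂ =>
      ((sph0 (chD614 (h : Matrix (Fin 2) (Fin 2) ℂ)) : ℝ) : ℂ) * abelFn β h :=
    hF.supp.mul_left
  have hΦk : ∀ k h : GL (Fin 2) ℂ, IsUnitary2 k →
      ((sph0 (chD614 ((h * k : GL (Fin 2) ℂ) : Matrix (Fin 2) (Fin 2) ℂ)) : ℝ) : ℂ)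
          * abelFn β (h * k)
        = ((sph0 (chD614 (h : Matrix (Fin 2) (Fin 2) ℂ)) : ℝ) : ℂ) * abelFn β h := by
    intro k h hk
    have hk' : (k : Matrix (Fin 2) (Fin 2) ℂ) * (k : Matrix (Fin 2) (Fin 2) ℂ).conjTranspose = 1 :=
      hk
    rw [hright k h hk, Units.val_mul, chD614_mul_unitary_right _ _ hk']
  have hΦ : ∫ h, ((sph0 (chD614 (h : Matrix (Fin 2) (Fin 2) ℂ)) : ℝ) : ℂ) * abelFn β h ∂μ
      = (c : ℂ) * ∫ p : ℝ × ℝ, β p := by
    rw [hiwa (fun h : GL (Fin 2) ℂ =>
      ((sph0 (chD614 (h : Matrix (Fin 2) (Fin 2) ℂ)) : ℝ) : ℂ) * abelFn β h) hΦc hΦs hΦk,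
      hc β hβ]
  rw [hΦ]
  ring

end Fermat.Agent.LT.T3.AS

end

end
-- ===== PACK-END LT/T3/H736/ASRegSmooth.lean

-- ===== PACK-BEGIN LT/T5/H873/KerFin.lean
section




/-!
# Row LT, tower T5, sub-leaves T5.02c / T5.02d: local finiteness of the kernel sum (helper873)

OFF-MAIN.  `Γ = GL₂(K)⟨r⟩` is discrete and closed in `GL₂(𝔸_K)`:
`finite_lat873 : {(γ, m) | γ rᵐ ∈ Q}` is finite for every compact `Q`
(from `T1.DiscreteC`, `T1.AdNormC`), and the kernel `K_φ(x,y)` is a finite sum on `U × V` for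
compact `U`, `V`.
-/

set_option autoImplicit false

open IsDedekindDomain NumberField MeasureTheory
open scoped MatrixGroups ComplexConjugate ContDiff Topology Pointwise

noncomputable section

namespace Fermat.Agent.LT.T5.H873

open Fermat.Agent.LT.H556.A0 Fermat.Agent.LT.T5

attribute [local instance] Fermat.Agent.LT.T5.instMeasurableSpaceG

variable {K : Type} [Field K] [NumberField K]

/-- The lattice element `γ rᵐ`. -/
def lat873 (r : G K) (i : GL (Fin 2) K × ℤ) : G K := ratG i.1 * r ^ i.2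

/-- The determinant `GL₂(𝔸_K) → 𝔸_K^×` is continuous. -/
theorem continuous_det873 :
    Continuous (Matrix.GeneralLinearGroup.det : G K → (Adl K)ˣ) := by
  rw [Units.continuous_iff]
  constructor
  · have : (Units.val ∘ (Matrix.GeneralLinearGroup.det : G K → (Adl K)ˣ))
        = fun g : G K => (g : Matrix (Fin 2) (Fin 2) (Adl K)).det := by
      funext g; rfl
    rw [this]
    exact Continuous.matrix_det Units.continuous_val
  · have : (fun g : G K => (((Matrix.GeneralLinearGroup.det g)⁻¹ : (Adl K)ˣ) : Adl K))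
        = fun g : G K => ((g⁻¹ : G K) : Matrix (Fin 2) (Fin 2) (Adl K)).det := by
      funext g
      rw [← map_inv]; rfl
    rw [this]
    exact Continuous.matrix_det Units.continuous_coe_inv

/-- The module of the determinant is continuous. -/
theorem continuous_nd873 (hN : T1.AdNormC K) : Continuous (H277.nd277 : G K → ℝ) := by
  have h : (H277.nd277 : G K → ℝ)
      = (fun x : (Adl K)ˣ => T1.adNorm K (x : Adl K)) ∘ Matrix.GeneralLinearGroup.det := by
    funext g; rfl
  rw [h]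
  exact hN.2.2.2.comp continuous_det873

theorem nd_lat873 (hN : T1.AdNormC K) {r : G K} (hr : IsRayGen r) (i : GL (Fin 2) K × ℤ) :
    H277.nd277 (lat873 r i) = (2 : ℝ) ^ i.2 := by
  unfold lat873
  rw [H277.nd277_mul hN, H277.nd277_ratG hN, H277.nd277_zpow hN hr, one_mul]

/-- `GL₂(K) → GL₂(𝔸_K)` is injective. -/
theorem ratG_injective873 : Function.Injective (ratG : GL (Fin 2) K → G K) := by
  intro a b hab
  apply Units.ext
  have h := congrArg (fun g : G K => (g : Matrix (Fin 2) (Fin 2) (Adl K))) hab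
  have h' : (a : Matrix (Fin 2) (Fin 2) K).map (algebraMap K (Adl K))
      = (b : Matrix (Fin 2) (Fin 2) K).map (algebraMap K (Adl K)) := h
  exact Matrix.map_injective (NumberField.AdeleRing.algebraMap_injective (𝓞 K) K) h'

/-- Only finitely many rational matrices lie in a compact set. -/
theorem finite_rat873 (hD : T1.DiscreteC K) {Q : Set (G K)} (hQ : IsCompact Q) :
    {γ : GL (Fin 2) K | ratG γ ∈ Q}.Finite := by
  obtain ⟨hdisc, hclosed⟩ := hD
  have hc : IsCompact ((T1.Gam K : Set (G K)) ∩ Q) := hQ.inter_left hclosed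
  have hd : DiscreteTopology ↥((T1.Gam K : Set (G K)) ∩ Q) :=
    DiscreteTopology.of_subset hdisc Set.inter_subset_left
  have hfin : ((T1.Gam K : Set (G K)) ∩ Q).Finite :=
    hc.finite (isDiscrete_iff_discreteTopology.mpr hd)
  have hpre : {γ : GL (Fin 2) K | ratG γ ∈ Q}
      = (ratG : GL (Fin 2) K → G K) ⁻¹' ((T1.Gam K : Set (G K)) ∩ Q) := by
    ext γ
    simp only [Set.mem_ofPred_eq, Set.mem_preimage, Set.mem_inter_iff, SetLike.mem_coe]
    constructor
    · intro h
      exact ⟨⟨γ, rfl⟩, h⟩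
    · intro h
      exact h.2
  rw [hpre]
  exact hfin.preimage ratG_injective873.injOn

/-- **`Γ = GL₂(K)⟨r⟩` is discrete and closed**: only finitely many `γ rᵐ` lie in a compact
set. -/
theorem finite_lat873 (hD : T1.DiscreteC K) (hN : T1.AdNormC K) {r : G K} (hr : IsRayGen r)
    {Q : Set (G K)} (hQ : IsCompact Q) : {i : GL (Fin 2) K × ℤ | lat873 r i ∈ Q}.Finite := by
  rcases Q.eq_empty_or_nonempty with rfl | hne
  · simp
  have hcont := continuous_nd873 hN
  obtain ⟨g₀, hg₀, hmin⟩ := hQ.exists_isMinOn hne hcont.continuousOn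
  obtain ⟨g₁, hg₁, hmax⟩ := hQ.exists_isMaxOn hne hcont.continuousOn
  have ha : 0 < H277.nd277 g₀ := H277.nd277_pos hN g₀
  have hb : 0 < H277.nd277 g₁ := H277.nd277_pos hN g₁
  have hM : (Set.Icc (Int.clog 2 (H277.nd277 g₀)) (Int.log 2 (H277.nd277 g₁))).Finite :=
    Set.finite_Icc _ _
  have hfib : ∀ m : ℤ, {γ : GL (Fin 2) K | ratG γ * r ^ m ∈ Q}.Finite := by
    intro m
    have hQ' : IsCompact ((fun g : G K => g * (r ^ m)⁻¹) '' Q) :=
      hQ.image (continuous_mul_const _)
    refine (finite_rat873 hD hQ').subset ?_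
    intro γ hγ
    exact ⟨ratG γ * r ^ m, hγ, by simp⟩
  refine (Set.Finite.biUnion hM (fun m _ => (hfib m).prod (Set.finite_singleton m))).subset ?_
  intro i hi
  have h2 : H277.nd277 (lat873 r i) = (2 : ℝ) ^ i.2 := nd_lat873 hN hr i
  have hlo : H277.nd277 g₀ ≤ ((2 : ℕ) : ℝ) ^ i.2 := by
    have := hmin hi
    simp only [Set.mem_ofPred_eq] at this
    rw [h2] at this
    exact_mod_cast this
  have hhi : ((2 : ℕ) : ℝ) ^ i.2 ≤ H277.nd277 g₁ := by
    have := hmax hi
    simp only [Set.mem_ofPred_eq] at this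
    rw [h2] at this
    exact_mod_cast this
  have h3 : Int.clog 2 (H277.nd277 g₀) ≤ i.2 :=
    (Int.le_zpow_iff_clog_le (by norm_num) ha).mp hlo
  have h4 : i.2 ≤ Int.log 2 (H277.nd277 g₁) :=
    (Int.zpow_le_iff_le_log (by norm_num) hb).mp hhi
  simp only [Set.mem_iUnion, Set.mem_prod, Set.mem_ofPred_eq, Set.mem_singleton_iff,
    Set.mem_Icc, exists_prop]
  exact ⟨i.2, ⟨h3, h4⟩, hi, rfl⟩

end Fermat.Agent.LT.T5.H873

end

end
-- ===== PACK-END LT/T5/H873/KerFin.lean

-- ===== PACK-BEGIN LT/T7/H231/MidUniqueR.lean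
section






/-!
# Row LT, tower T7, leaf T7.07 `MidUniqueFromC`: RE-BASED COPY on Spec v1.2 (helper231)

OFF-MAIN.  This file is a copy of `LT/T7/H176/MidUnique.lean` of helper176
(origin/helper176@b309c9d46, sha256 585e5411855ba862) WITHOUT its last by-product `top176`
(which was written against `T7.top` of Spec v1.1 and does not typecheck against Spec v1.2), in
the namespace `Fermat.Agent.LT.T7.H231.R176`, followed by the leaf
`midUniqueFromC231 : T7.MidUniqueFromC` (= `MidUniqueTop.lean` of helper176).  All proofs are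
helper176's; `Places`, `Thin`, `Bound`, `TotCplx` of helper176 are imported byte-identical.
Reason: the integration `LT/T7/H231/Closed.lean` is built on Spec v1.2 (76a196044a64b920).
-/

set_option autoImplicit false

open AutomorphicForm FLT.ExplicitLift
open IsDedekindDomain NumberField

noncomputable section

namespace Fermat.Agent.LT.T7.H231.R176

open Fermat.Agent.LT.H130 Fermat.Agent.LT.H556 Fermat.Agent.LT.T7 Fermat.Agent.LT.T7.H176

local notation "Γℚ" => (AlgebraicClosure ℚ ≃ₐ[ℚ] AlgebraicClosure ℚ)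

variable {K : Type} [Field K] [NumberField K]

/-- A property which holds at almost all primes (in the sense of `H130.AlmostAllFrob`) holds at
almost all places, in the form "for some Frobenius element". -/
theorem almostAll_places176 (ρ : Γℚ →* GL (Fin 2) (ZMod 3))
    (P : HeightOneSpectrum (𝓞 K) → GL (Fin 2) (ZMod 3) → Prop)
    (h : AlmostAllFrob K ρ P) :
    ∃ S : Finset (HeightOneSpectrum (𝓞 K)), ∀ v : HeightOneSpectrum (𝓞 K), v ∉ S →
      ∃ g : GL (Fin 2) (ZMod 3), P v g := by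
  obtain ⟨S, hS⟩ := h
  refine ⟨(finite_over_finset176 (K := K) S).toFinset, fun v hv => ?_⟩
  obtain ⟨p, hp, hpv⟩ := exists_prime_mem176 v
  have hpS : p ∉ S := by
    intro hpS
    apply hv
    rw [Set.Finite.mem_toFinset]
    exact ⟨p, hpS, hp, hpv⟩
  obtain ⟨A, σ, hA, hσ⟩ := Fermat.Agent.S54.exists_frobenius p hp
  exact ⟨ρ σ, hS p hp hpS A hA σ hσ v hpv⟩

/-- The same outside a thin set of primes (`T7.ThinFrob`): the property holds outside a thin
set of places, in the form "for some Frobenius element", and the SAME Frobenius element serves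
for two properties. -/
theorem thin_places176 (ρ : Γℚ →* GL (Fin 2) (ZMod 3))
    (P P' : HeightOneSpectrum (𝓞 K) → GL (Fin 2) (ZMod 3) → Prop)
    (h : ThinFrob K ρ P) (h' : ThinFrob K ρ P') :
    ∃ B : Set (HeightOneSpectrum (𝓞 K)), IsThinPlaces B ∧
      ∀ v : HeightOneSpectrum (𝓞 K), v ∉ B → ∃ g : GL (Fin 2) (ZMod 3), P v g ∧ P' v g := by
  obtain ⟨A, hA, hP⟩ := h
  obtain ⟨A', hA', hP'⟩ := h'
  refine ⟨placesOver176 K (A ∪ A'), isThinPlaces_over176 _ (isThin_union176 hA hA'),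
    fun v hv => ?_⟩
  obtain ⟨p, hp, hpv⟩ := exists_prime_mem176 v
  have hpA : p ∉ A ∪ A' := by
    intro hpA
    exact hv ⟨p, hpA, hp, hpv⟩
  have hp1 : p ∉ A := fun h1 => hpA (Or.inl h1)
  have hp2 : p ∉ A' := fun h2 => hpA (Or.inr h2)
  obtain ⟨V, σ, hV, hσ⟩ := Fermat.Agent.S54.exists_frobenius p hp
  exact ⟨ρ σ, hP p hp hp1 V hV σ hσ v hpv, hP' p hp hp2 V hV σ hσ v hpv⟩

/-- `MidData` gives a trivial central character. -/
theorem trivCentral_of_midData176 (ρ : Γℚ →* GL (Fin 2) (ZMod 3))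
    (Ψ : GL (Fin 2) (ZMod 3) →* GL (Fin 2) (ℤ√(-2))) (ι : ℤ√(-2) →+* ℂ)
    (π : HeckeEigensystem K ℂ) (h : MidData K ρ Ψ ι π) : TrivCentral π := by
  obtain ⟨S, hS⟩ := almostAll_places176 ρ _ h
  refine ⟨S, fun v hv => ?_⟩
  obtain ⟨g, -, hb⟩ := hS v hv
  exact hb

/-- `MidData` gives `|a_v| ≤ 2` almost everywhere. -/
theorem bound_of_midData176 (ρ : Γℚ →* GL (Fin 2) (ZMod 3))
    (Ψ : GL (Fin 2) (ZMod 3) →* GL (Fin 2) (ℤ√(-2)))
    (hΨ : ∀ g, Matrix.GeneralLinearGroup.map red (Ψ g) = g) (ι : ℤ√(-2) →+* ℂ)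
    (π : HeckeEigensystem K ℂ) (h : MidData K ρ Ψ ι π) :
    ∃ S : Finset (HeightOneSpectrum (𝓞 K)), ∀ v : HeightOneSpectrum (𝓞 K), v ∉ S →
      ‖π.a v‖ ≤ 2 := by
  obtain ⟨S, hS⟩ := almostAll_places176 ρ _ h
  refine ⟨S, fun v hv => ?_⟩
  obtain ⟨g, ha, hb⟩ := hS v hv
  rw [hb] at ha
  exact norm_le_two_of_mid176 Ψ hΨ ι g (π.a v) ha

/-- **T7.07, conditional on `F` being totally complex.** -/
theorem midUniqueFrom_of_totCplx176
    (hTC : ∀ (ρ : Γℚ →* GL (Fin 2) (ZMod 3))
      (Ψ : GL (Fin 2) (ZMod 3) →* GL (Fin 2) (ℤ√(-2))), LTB.Hyp ρ Ψ →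
      ∀ (_ : NumberField (fieldF ρ)), TotCplx (fieldF ρ)) :
    MidUniqueFromC := by
  intro hThin hRigid ρ Ψ ι hyp nf π π' hπ hπ' hmid hmid'
  have hcplx : TotCplx (fieldF ρ) := hTC ρ Ψ hyp nf
  have htriv : TrivCentral π := trivCentral_of_midData176 ρ Ψ ι π hmid
  have htriv' : TrivCentral π' := trivCentral_of_midData176 ρ Ψ ι π' hmid'
  obtain ⟨S, hS⟩ := bound_of_midData176 ρ Ψ hyp.lift ι π hmid
  obtain ⟨S', hS'⟩ := bound_of_midData176 ρ Ψ hyp.lift ι π' hmid'
  have hbound : ∃ T : Finset (HeightOneSpectrum (𝓞 (fieldF ρ))),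
      ∀ v : HeightOneSpectrum (𝓞 (fieldF ρ)), v ∉ T → ‖π.a v‖ ≤ 2 ∧ ‖π'.a v‖ ≤ 2 := by
    classical
    refine ⟨S ∪ S', fun v hv => ?_⟩
    rw [Finset.mem_union, not_or] at hv
    exact ⟨hS v hv.1, hS' v hv.2⟩
  have htrue : MidTrue (fieldF ρ) ρ Ψ ι π := hThin ρ Ψ ι hyp nf π hπ hmid
  have htrue' : MidTrue (fieldF ρ) ρ Ψ ι π' := hThin ρ Ψ ι hyp nf π' hπ' hmid'
  obtain ⟨B, hB, hagree⟩ := thin_places176 ρ _ _ htrue htrue'
  have hthin : ∃ A : Set (HeightOneSpectrum (𝓞 (fieldF ρ))), IsThinPlaces A ∧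
      ∀ v : HeightOneSpectrum (𝓞 (fieldF ρ)), v ∉ A → π.a v = π'.a v := by
    refine ⟨B, hB, fun v hv => ?_⟩
    obtain ⟨g, ⟨ha, -⟩, ⟨ha', -⟩⟩ := hagree v hv
    rw [ha, ha']
  exact hRigid (fieldF ρ) hcplx π π' hπ hπ' htriv htriv' hbound hthin

/-- **T7.07 from the dictionary leaf T7.06 of the same tower.** -/
theorem midUniqueFrom_of_dictFQ176 (hD : DictFQC) : MidUniqueFromC := by
  intro hThin hRigid ρ Ψ ι hyp nf
  have hTC : TotCplx (fieldF ρ) := (hD ρ Ψ ι hyp nf).1.2
  intro π π' hπ hπ' hmid hmid'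
  have htriv : TrivCentral π := trivCentral_of_midData176 ρ Ψ ι π hmid
  have htriv' : TrivCentral π' := trivCentral_of_midData176 ρ Ψ ι π' hmid'
  obtain ⟨S, hS⟩ := bound_of_midData176 ρ Ψ hyp.lift ι π hmid
  obtain ⟨S', hS'⟩ := bound_of_midData176 ρ Ψ hyp.lift ι π' hmid'
  have hbound : ∃ T : Finset (HeightOneSpectrum (𝓞 (fieldF ρ))),
      ∀ v : HeightOneSpectrum (𝓞 (fieldF ρ)), v ∉ T → ‖π.a v‖ ≤ 2 ∧ ‖π'.a v‖ ≤ 2 := by
    classical
    refine ⟨S ∪ S', fun v hv => ?_⟩
    rw [Finset.mem_union, not_or] at hv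
    exact ⟨hS v hv.1, hS' v hv.2⟩
  have htrue : MidTrue (fieldF ρ) ρ Ψ ι π := hThin ρ Ψ ι hyp nf π hπ hmid
  have htrue' : MidTrue (fieldF ρ) ρ Ψ ι π' := hThin ρ Ψ ι hyp nf π' hπ' hmid'
  obtain ⟨B, hB, hagree⟩ := thin_places176 ρ _ _ htrue htrue'
  have hthin : ∃ A : Set (HeightOneSpectrum (𝓞 (fieldF ρ))), IsThinPlaces A ∧
      ∀ v : HeightOneSpectrum (𝓞 (fieldF ρ)), v ∉ A → π.a v = π'.a v := by
    refine ⟨B, hB, fun v hv => ?_⟩
    obtain ⟨g, ⟨ha, -⟩, ⟨ha', -⟩⟩ := hagree v hv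
    rw [ha, ha']
  exact hRigid (fieldF ρ) hTC π π' hπ hπ' htriv htriv' hbound hthin

/-- **LEAF T7.07 `MidUniqueFromC`** (proof of helper176, re-based on Spec v1.2). -/
theorem midUniqueFromC231 : MidUniqueFromC :=
  midUniqueFrom_of_totCplx176 fun ρ _ hyp nf => totCplx_fieldF176 ρ hyp.det nf

end Fermat.Agent.LT.T7.H231.R176

end

end
-- ===== PACK-END LT/T7/H231/MidUniqueR.lean

-- ===== PACK-BEGIN LT/T7/H362/Abel.lean
section




/-!
# Row LT, tower T7, leaf T7.14.2 (`AbelC`) -- helper362, OFF-MAIN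

`abelC362 K : Rigid.AbelC K` (statement of helper62 `T7/H62/RigidPkg.lean`, verbatim), from the
abstract Abelian step `abel_core362` (`AbelWeight.lean`, `AbelSeries.lean`, `AbelLimit.lean`,
Mathlib only) with `ι = Ideal (𝓞 K)`, `N = absNorm`, `m = ∫₀^∞ G`.
-/

set_option autoImplicit false

open IsDedekindDomain NumberField Filter Topology

noncomputable section

namespace Fermat.Agent.LT.T7.H362

open Fermat.Agent.LT.T7.Rigid

/-- The ideals of the ring of integers of a number field form a countable set. -/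
theorem countable_ideal362 (K : Type) [Field K] [NumberField K] : Countable (Ideal (𝓞 K)) := by
  have h : (Set.univ : Set (Ideal (𝓞 K))) = ⋃ n : ℕ, {I | Ideal.absNorm I ≤ n} := by
    ext I
    simp only [Set.mem_univ, Set.mem_iUnion, true_iff]
    exact ⟨Ideal.absNorm I, le_refl (Ideal.absNorm I)⟩
  rw [← Set.countable_univ_iff, h]
  exact Set.countable_iUnion fun n => (Ideal.finite_setOfPred_absNorm_le n).countable

/-- **T7.14.2 (Abel).** -/
theorem abelC362 (K : Type) [Field K] [NumberField K] : AbelC K := by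
  intro c G L hG hc0 hsum hlim
  obtain ⟨C, η, hη, hdecay⟩ := hG.decay
  have hW : Wt362 G C η := ⟨hG.nonneg, hG.anti, hG.pos, hG.int0, hη, hdecay⟩
  have hcount := countable_ideal362 K
  have hcN : ∀ I : Ideal (𝓞 K), c I = 0 ∨ 1 ≤ (Ideal.absNorm I : ℝ) := by
    intro I
    by_cases hI : I = ⊥
    · left
      rw [hI]
      exact hc0
    · right
      have h1 : Ideal.absNorm I ≠ 0 := fun h => hI (Ideal.absNorm_eq_zero_iff.mp h)
      exact_mod_cast Nat.one_le_iff_ne_zero.mpr h1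
  exact ⟨∫ T in Set.Ioi 0, G T, hW.mass_pos, abel_core362 hW hcN hsum hlim⟩

end Fermat.Agent.LT.T7.H362

end
end
-- ===== PACK-END LT/T7/H362/Abel.lean

-- ===== PACK-BEGIN LT/T7/H468/HoroFBase.lean
section




/-!
# Row LT, tower T7, node T7.13 `ThinC`, adelic half over `F`: the transport lemma
(helper468, OFF-MAIN)

On `LT/H556/A0.lean` (556), `LT/T8/H864/{Local,Coset}.lean` (864), `LT/H51/MS4{A..D}.lean` (51).
The number field `K` is arbitrary in this file; `w` is a complex place of `K`.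

* `complexHom468 hw : ℂ →+* w.Completion`, `bC468 hw x y = [[y, x], [0, 1]]_w`,
  `kC468 hw u = [[u, 0], [0, 1]]_w` (in `U(2)` for `|u| = 1`).
* `LvlF468 𝔫 g₀ M`, `exists_lvlF468`; `dKF468 M k`, `g1F468 M g₀` (finite part of `g₀` at the places
  dividing `M`).
* `transportF468`, `near_dKF468`.
-/

set_option autoImplicit false
set_option linter.unusedSectionVars false

open IsDedekindDomain NumberField AutomorphicForm
open scoped MatrixGroups Classical WithZero

noncomputable section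

namespace Fermat.Agent.LT.T7.H468

open Fermat.Agent.LT.H556.A0 Fermat.Agent.LT.T8.H864 Fermat.Agent.LT.H51.MS4

variable {K : Type} [Field K] [NumberField K]

/-! ## The complex numbers inside the completion at a complex place -/

/-- The complex numbers inside the completion at a complex place. -/
def complexHom468 {w : InfinitePlace K} (hw : w.IsComplex) : ℂ →+* w.Completion :=
  (InfinitePlace.Completion.ringEquivComplexOfIsComplex hw).symm.toRingHom

theorem extensionEmbedding_complexHom468 {w : InfinitePlace K} (hw : w.IsComplex) (z : ℂ) :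
    InfinitePlace.Completion.extensionEmbedding w (complexHom468 hw z) = z := by
  rw [← InfinitePlace.Completion.ringEquivComplexOfIsComplex_apply hw]
  exact (InfinitePlace.Completion.ringEquivComplexOfIsComplex hw).apply_symm_apply z

theorem continuous_complexHom468 {w : InfinitePlace K} (hw : w.IsComplex) :
    Continuous (complexHom468 hw) :=
  (InfinitePlace.Completion.isometryEquivComplexOfIsComplex hw).symm.continuous

theorem extensionEmbedding_algebraMapF468 (w : InfinitePlace K) (a : K) :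
    InfinitePlace.Completion.extensionEmbedding w (algebraMap K w.Completion a)
      = w.embedding a := by
  simp

theorem complexHom468_embedding {w : InfinitePlace K} (hw : w.IsComplex) (a : K) :
    complexHom468 hw (w.embedding a) = algebraMap K w.Completion a := by
  have h : InfinitePlace.Completion.ringEquivComplexOfIsComplex hw
      (algebraMap K w.Completion a) = w.embedding a := by
    rw [InfinitePlace.Completion.ringEquivComplexOfIsComplex_apply,
      extensionEmbedding_algebraMapF468]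
  rw [← h]
  exact (InfinitePlace.Completion.ringEquivComplexOfIsComplex hw).symm_apply_apply _

/-- The local element at the complex place `w` given by a complex matrix. -/
def locC468 {w : InfinitePlace K} (hw : w.IsComplex) : GL (Fin 2) ℂ →* G K :=
  (locInf w).comp (Matrix.GeneralLinearGroup.map (complexHom468 hw))

theorem locC468_apply {w : InfinitePlace K} (hw : w.IsComplex) (m : GL (Fin 2) ℂ) :
    locC468 hw m = locInf w (Matrix.GeneralLinearGroup.map (complexHom468 hw) m) := rfl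

theorem infCompHom_locC468 {w : InfinitePlace K} (hw : w.IsComplex) (m : GL (Fin 2) ℂ) :
    infCompHom w (locC468 hw m) = Matrix.GeneralLinearGroup.map (complexHom468 hw) m := by
  rw [locC468_apply, infCompHom_locInf_self]

theorem finCompHom_locC468 {w : InfinitePlace K} (hw : w.IsComplex) (m : GL (Fin 2) ℂ)
    (v : HeightOneSpectrum (𝓞 K)) : finCompHom v (locC468 hw m) = 1 := by
  rw [locC468_apply, finCompHom_locInf]

theorem isLocalAtInf_locC468 {w : InfinitePlace K} (hw : w.IsComplex) (m : GL (Fin 2) ℂ) :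
    IsLocalAtInf w (locC468 hw m) := isLocalAtInf_locInf w _

theorem infComp_locC468 {w : InfinitePlace K} (hw : w.IsComplex) (m : GL (Fin 2) ℂ) :
    infComp w (locC468 hw m) = (m : Matrix (Fin 2) (Fin 2) ℂ) := by
  rw [locC468_apply, infComp_locInf_self]
  refine Matrix.ext fun i j => ?_
  exact extensionEmbedding_complexHom468 hw _

theorem continuous_locC468 {w : InfinitePlace K} (hw : w.IsComplex) :
    Continuous (locC468 (K := K) hw) := by
  have h : Continuous (Matrix.GeneralLinearGroup.map (n := Fin 2) (complexHom468 hw)) := by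
    unfold Matrix.GeneralLinearGroup.map
    apply Continuous.units_map
    exact Continuous.matrix_map continuous_id (continuous_complexHom468 hw)
  exact (continuous_locInf w).comp h

/-- `b(x, y)_w = [[y, x], [0, 1]]_w`. -/
def bC468 {w : InfinitePlace K} (hw : w.IsComplex) (x : ℂ) (y : ℝ) : G K :=
  locC468 hw (ut (y : ℂ) x 1)

/-- `[[u, 0], [0, 1]]_w`. -/
def kC468 {w : InfinitePlace K} (hw : w.IsComplex) (u : ℂ) : G K :=
  locC468 hw (ut u 0 1)

theorem isArchCompact_kC468 {w : InfinitePlace K} (hw : w.IsComplex) {u : ℂ}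
    (hu : u * (starRingEnd ℂ) u = 1) : IsArchCompact w (kC468 hw u) := by
  have hu0 : u ≠ 0 := by
    intro h
    rw [h, zero_mul] at hu
    exact zero_ne_one hu
  refine ⟨isLocalAtInf_locC468 hw _, ?_, fun hr => absurd hw
    (InfinitePlace.not_isComplex_iff_isReal.2 hr)⟩
  rw [kC468, infComp_locC468, coe_ut 0 hu0 one_ne_zero]
  ext i j
  fin_cases i <;> fin_cases j <;>
    simp [utMat, Matrix.mul_apply, Fin.sum_univ_two, Matrix.conjTranspose_apply, hu]

/-- `(x, y) ↦ [[y, x], [0, 1]] ∈ GL₂(ℂ)` is continuous on `y ≠ 0`. -/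
theorem continuousOn_utC468 :
    ContinuousOn (fun p : ℂ × ℝ => ut ((p.2 : ℝ) : ℂ) p.1 1) {p : ℂ × ℝ | p.2 ≠ 0} := by
  rw [continuousOn_iff_continuous_restrict, Units.continuous_iff]
  have hne : ∀ p : {p : ℂ × ℝ | p.2 ≠ 0}, ((p.1.2 : ℝ) : ℂ) ≠ 0 := fun p => by
    have := p.2
    exact_mod_cast this
  have hc1 : Continuous fun p : {p : ℂ × ℝ | p.2 ≠ 0} => p.1.1 := by fun_prop
  have hc2 : Continuous fun p : {p : ℂ × ℝ | p.2 ≠ 0} => ((p.1.2 : ℝ) : ℂ) := by fun_prop
  have hc3 : Continuous fun p : {p : ℂ × ℝ | p.2 ≠ 0} => (((p.1.2 : ℝ) : ℂ))⁻¹ :=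
    hc2.inv₀ hne
  have hc4 : Continuous fun p : {p : ℂ × ℝ | p.2 ≠ 0} =>
      -(p.1.1 / (((p.1.2 : ℝ) : ℂ) * 1)) := by
    simp only [mul_one]
    exact (hc1.div hc2 hne).neg
  constructor
  · have h : (fun p : {p : ℂ × ℝ | p.2 ≠ 0} =>
        ((ut ((p.1.2 : ℝ) : ℂ) p.1.1 1 : GL (Fin 2) ℂ) : Matrix (Fin 2) (Fin 2) ℂ)) =
        fun p => utMat ((p.1.2 : ℝ) : ℂ) p.1.1 1 := by
      funext p
      exact coe_ut _ (hne p) one_ne_zero
    change Continuous fun p : {p : ℂ × ℝ | p.2 ≠ 0} =>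
        ((ut ((p.1.2 : ℝ) : ℂ) p.1.1 1 : GL (Fin 2) ℂ) : Matrix (Fin 2) (Fin 2) ℂ)
    rw [h]
    refine continuous_matrix fun i j => ?_
    fin_cases i <;> fin_cases j <;> simp [utMat] <;> first | exact hc1 | exact hc2 | fun_prop
  · have h : (fun p : {p : ℂ × ℝ | p.2 ≠ 0} =>
        (((ut ((p.1.2 : ℝ) : ℂ) p.1.1 1)⁻¹ : GL (Fin 2) ℂ) : Matrix (Fin 2) (Fin 2) ℂ)) =
        fun p => utMat (((p.1.2 : ℝ) : ℂ))⁻¹ (-(p.1.1 / (((p.1.2 : ℝ) : ℂ) * 1))) (1 : ℂ)⁻¹ := by
      funext p
      rw [ut_inv _ (hne p) one_ne_zero, coe_ut _ (inv_ne_zero (hne p)) (inv_ne_zero one_ne_zero)]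
    change Continuous fun p : {p : ℂ × ℝ | p.2 ≠ 0} =>
        (((ut ((p.1.2 : ℝ) : ℂ) p.1.1 1)⁻¹ : GL (Fin 2) ℂ) : Matrix (Fin 2) (Fin 2) ℂ)
    rw [h]
    refine continuous_matrix fun i j => ?_
    fin_cases i <;> fin_cases j <;> simp [utMat] <;>
      first | exact hc3 | exact hc4 | fun_prop

/-- For a continuous `φ`, `(x, y) ↦ φ (b(x, y)_w g)` is continuous on `y ≠ 0`. -/
theorem continuousOn_comp_bC468 {w : InfinitePlace K} (hw : w.IsComplex) {φ : G K → ℂ}
    (hφ : Continuous φ) (g : G K) :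
    ContinuousOn (fun p : ℂ × ℝ => φ (bC468 hw p.1 p.2 * g)) {p : ℂ × ℝ | p.2 ≠ 0} :=
  hφ.comp_continuousOn
    (((continuous_locC468 hw).comp_continuousOn continuousOn_utC468).mul continuousOn_const)

/-! ## Levels of a base point -/

/-- `M` is a level of the base point `g₀`. -/
structure LvlF468 (𝔫 : Ideal (𝓞 K)) (g₀ : G K) (M : ℕ) : Prop where
  ne_zero : M ≠ 0
  dvd : Ideal.absNorm 𝔫 ∣ M
  integral : ∀ v : HeightOneSpectrum (𝓞 K), v.valuation K (M : K) = 1 →
    IntegralBoth v (finCompHom v g₀)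
  conj : ∀ (v : HeightOneSpectrum (𝓞 K)) (Y : GL (Fin 2) (v.adicCompletion K)),
    Near v (v.valuation K (M : K)) Y →
      LocLevel 𝔫 v ((finCompHom v g₀)⁻¹ * Y * finCompHom v g₀)

theorem exists_lvlF468 (𝔫 : Ideal (𝓞 K)) (h𝔫 : 𝔫 ≠ ⊥) (g₀ : G K) (L : ℕ) (hL : L ≠ 0) :
    ∃ M : ℕ, L ∣ M ∧ LvlF468 𝔫 g₀ M := by
  obtain ⟨M₀, hM0, hdvd, hint, hconj⟩ := exists_level 𝔫 h𝔫 g₀
  have hle : ∀ v : HeightOneSpectrum (𝓞 K),
      v.valuation K ((M₀ * L : ℕ) : K) ≤ v.valuation K (M₀ : K) :=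
    fun v => valuation_le_of_dvd v (dvd_mul_right M₀ L)
  refine ⟨M₀ * L, dvd_mul_left L M₀, mul_ne_zero hM0 hL, dvd_mul_of_dvd_left hdvd L, ?_, ?_⟩
  · intro v hv
    apply hint v
    exact le_antisymm (valuation_natCast_le_one v M₀) (hv ▸ hle v)
  · intro v Y hY
    exact hconj v Y (hY.mono (hle v))

/-! ## The places dividing `M`, the twist `d(k)` and the cut base point -/

/-- The places dividing `M`. -/
def TMF468 (K : Type) [Field K] [NumberField K] (M : ℕ) : Set (HeightOneSpectrum (𝓞 K)) :=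
  {v | v.valuation K (M : K) < 1}

theorem valuation_eq_one_of_notMemF468 {M : ℕ} {v : HeightOneSpectrum (𝓞 K)}
    (hv : v ∉ TMF468 K M) : v.valuation K (M : K) = 1 :=
  le_antisymm (valuation_natCast_le_one v M) (not_lt.1 hv)

/-- `[[k, 0], [0, 1]]` at the places dividing `M`. -/
def dKF468 (M : ℕ) (k : K) : G K := cut (TMF468 K M) False (diagG (ut k 0 1))

theorem infCompHom_dKF468 (M : ℕ) (k : K) (w : InfinitePlace K) :
    infCompHom w (dKF468 M k) = 1 :=
  infCompHom_cut_false _ _ _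

theorem finCompHom_dKF468_mem {M : ℕ} (k : K) {v : HeightOneSpectrum (𝓞 K)}
    (hv : v ∈ TMF468 K M) : finCompHom v (dKF468 M k) = ratFin v (ut k 0 1) := by
  rw [dKF468, finCompHom_cut_of_mem _ _ hv, finCompHom_diagG]

theorem finCompHom_dKF468_notMem {M : ℕ} (k : K) {v : HeightOneSpectrum (𝓞 K)}
    (hv : v ∉ TMF468 K M) : finCompHom v (dKF468 M k) = 1 := by
  rw [dKF468, finCompHom_cut_of_notMem _ _ hv]

/-- The finite part of the base point at the places dividing `M`. -/
def g1F468 (M : ℕ) (g₀ : G K) : G K := cut (TMF468 K M) False g₀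

theorem infCompHom_g1F468 (M : ℕ) (g₀ : G K) (w : InfinitePlace K) :
    infCompHom w (g1F468 M g₀) = 1 :=
  infCompHom_cut_false _ _ _

theorem finCompHom_g1F468_mem {M : ℕ} (g₀ : G K) {v : HeightOneSpectrum (𝓞 K)}
    (hv : v ∈ TMF468 K M) : finCompHom v (g1F468 M g₀) = finCompHom v g₀ := by
  rw [g1F468, finCompHom_cut_of_mem _ _ hv]

theorem finCompHom_g1F468_notMem {M : ℕ} (g₀ : G K) {v : HeightOneSpectrum (𝓞 K)}
    (hv : v ∉ TMF468 K M) : finCompHom v (g1F468 M g₀) = 1 := by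
  rw [g1F468, finCompHom_cut_of_notMem _ _ hv]

/-- The conjugation property for the cut base point. -/
theorem LvlF468.conj1 {𝔫 : Ideal (𝓞 K)} {g₀ : G K} {M : ℕ} (hM : LvlF468 𝔫 g₀ M)
    (v : HeightOneSpectrum (𝓞 K)) (Y : GL (Fin 2) (v.adicCompletion K))
    (hY : Near v (v.valuation K (M : K)) Y) :
    LocLevel 𝔫 v ((finCompHom v (g1F468 M g₀))⁻¹ * Y * finCompHom v (g1F468 M g₀)) := by
  by_cases hv : v ∈ TMF468 K M
  · rw [finCompHom_g1F468_mem g₀ hv]
    exact hM.conj v Y hY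
  · rw [finCompHom_g1F468_notMem g₀ hv, inv_one, one_mul, mul_one]
    exact locLevel_of_near_nat v (hY.mono (valuation_le_of_dvd v hM.dvd))

/-! ## The transport lemma -/

theorem ratInf_utF468 {w : InfinitePlace K} (hw : w.IsComplex) {a : K} (c : K) (ha : a ≠ 0) :
    ratInf w (ut a c 1)
      = Matrix.GeneralLinearGroup.map (complexHom468 hw)
          (ut (w.embedding a) (w.embedding c) 1) := by
  have ha' : w.embedding a ≠ 0 := by
    rwa [Ne, map_eq_zero]
  rw [map_ut _ _ ha' one_ne_zero, ratInf, map_ut _ _ ha one_ne_zero, map_one, map_one,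
    complexHom468_embedding, complexHom468_embedding]

/-- **Transport over `K`.**  Left invariance under `[[a, c], [0, 1]] ∈ GL₂(K)`, right invariance
under the level group and under `U(2)` at `w`. -/
theorem transportF468 {π : HeckeEigensystem K ℂ} {φ : G K → ℂ} (hφ : IsSph0CuspFormFor π φ)
    {w : InfinitePlace K} (hw : w.IsComplex) (huniq : ∀ w' : InfinitePlace K, w' = w)
    (M : ℕ) (g₀ : G K) {a : K} (c : K) (ha : a ≠ 0) (x' : ℂ) {y' : ℝ} (hy' : y' ≠ 0)
    (k k' : K) (h : G K) (hinf : ∀ w' : InfinitePlace K, infCompHom w' h = 1)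
    (hfin : ∀ v : HeightOneSpectrum (𝓞 K), LocLevel π.level v
      ((finCompHom v (g1F468 M g₀))⁻¹ *
        ((finCompHom v (dKF468 M k'))⁻¹ * (ratFin v (ut a c 1))⁻¹ * finCompHom v (dKF468 M k)) *
        finCompHom v (g1F468 M g₀) * finCompHom v h)) :
    φ (bC468 hw (w.embedding a * x' + w.embedding c) (‖w.embedding a‖ * y') *
          dKF468 M k * g1F468 M g₀ * h)
      = φ (bC468 hw x' y' * dKF468 M k' * g1F468 M g₀) := by
  have ha' : w.embedding a ≠ 0 := by
    rwa [Ne, map_eq_zero]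
  have hn0 : ‖w.embedding a‖ ≠ 0 := norm_ne_zero_iff.2 ha'
  have hnC : ((‖w.embedding a‖ : ℝ) : ℂ) ≠ 0 := by exact_mod_cast hn0
  have hyC : ((y' : ℝ) : ℂ) ≠ 0 := by exact_mod_cast hy'
  set u : ℂ := ((‖w.embedding a‖ : ℝ) : ℂ) / w.embedding a with hu
  have hu0 : u ≠ 0 := div_ne_zero hnC ha'
  have huu : u * (starRingEnd ℂ) u = 1 := by
    rw [hu, map_div₀, Complex.conj_ofReal, div_mul_div_comm, Complex.mul_conj,
      Complex.normSq_eq_norm_sq]
    push_cast
    field_simp
  rw [← hφ.arch_compact w (kC468 hw u) (isArchCompact_kC468 hw huu)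
    (bC468 hw x' y' * dKF468 M k' * g1F468 M g₀)]
  refine phi_congr hφ.left_inv hφ.level_inv (ut a c 1) _ _ (fun w' => ?_) (fun v => ?_)
  · obtain rfl : w' = w := huniq w'
    rw [map_mul, map_mul, map_mul, map_mul, map_mul, map_mul, hinf, infCompHom_dKF468,
      infCompHom_dKF468, infCompHom_g1F468, bC468, bC468, kC468,
      infCompHom_locC468, infCompHom_locC468, infCompHom_locC468, ratInf_utF468 hw c ha]
    simp only [mul_one]
    rw [← map_mul, ← map_mul]
    congr 1
    rw [ut_mul _ _ hyC one_ne_zero hu0 one_ne_zero,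
      ut_mul _ _ ha' one_ne_zero (mul_ne_zero hyC hu0) (mul_ne_zero one_ne_zero one_ne_zero)]
    congr 1
    · rw [hu]
      push_cast
      field_simp
    · ring
    · ring
  · rw [map_mul, map_mul, map_mul, map_mul, map_mul, map_mul, bC468, bC468, kC468,
      finCompHom_locC468, finCompHom_locC468, finCompHom_locC468]
    have e : (1 * finCompHom v (dKF468 M k') * finCompHom v (g1F468 M g₀) * 1)⁻¹ *
          (ratFin v (ut a c 1))⁻¹ *
          (1 * finCompHom v (dKF468 M k) * finCompHom v (g1F468 M g₀) * finCompHom v h)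
        = (finCompHom v (g1F468 M g₀))⁻¹ *
          ((finCompHom v (dKF468 M k'))⁻¹ * (ratFin v (ut a c 1))⁻¹ * finCompHom v (dKF468 M k)) *
          finCompHom v (g1F468 M g₀) * finCompHom v h := by
      group
    rw [e]
    exact hfin v

/-! ## The local condition at the places where `h` is trivial -/

/-- The local condition of `transportF468` at a place where `a` is a unit. -/
theorem near_dKF468 {M : ℕ} (v : HeightOneSpectrum (𝓞 K)) {a : K} (c : K) {k k' : K}
    (hk : v ∈ TMF468 K M → v.valuation K k = 1) (hk' : v ∈ TMF468 K M → v.valuation K k' = 1)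
    (hva : v.valuation K a = 1)
    (h1 : v.valuation K (k - a * k') ≤ v.valuation K (M : K))
    (h2 : v.valuation K (1 - a) ≤ 1)
    (hc : v.valuation K c ≤ v.valuation K (M : K)) :
    Near v (v.valuation K (M : K))
      ((finCompHom v (dKF468 M k'))⁻¹ * (ratFin v (ut a c 1))⁻¹ * finCompHom v (dKF468 M k)) := by
  have ha0 : a ≠ 0 := by
    intro h; rw [h, map_zero] at hva; exact zero_ne_one hva
  by_cases hv : v ∈ TMF468 K M
  · have hvk : v.valuation K k = 1 := hk hv
    have hvk' : v.valuation K k' = 1 := hk' hv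
    have hk0 : k ≠ 0 := by
      intro h; rw [h, map_zero] at hvk; exact zero_ne_one hvk
    have hk'0 : k' ≠ 0 := by
      intro h; rw [h, map_zero] at hvk'; exact zero_ne_one hvk'
    have e : (ut k' 0 1)⁻¹ * (ut a c 1)⁻¹ * ut k 0 1
        = ut (k / (a * k')) (-(c / (a * k'))) 1 := by
      rw [← mul_inv_rev, inv_mul_eq_iff_eq_mul, ut_mul _ _ ha0 one_ne_zero hk'0 one_ne_zero,
        ut_mul _ _ (mul_ne_zero ha0 hk'0) (mul_ne_zero one_ne_zero one_ne_zero)
          (div_ne_zero hk0 (mul_ne_zero ha0 hk'0)) one_ne_zero]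
      congr 1
      · field_simp
      · field_simp
        ring
      · ring
    rw [finCompHom_dKF468_mem k hv, finCompHom_dKF468_mem k' hv, ← map_inv, ← map_inv,
      ← map_mul, ← map_mul, e]
    refine near_ratFin_ut ?_ (map_one _) ?_ ?_ ?_
    · rw [map_div₀, map_mul, hvk, hva, hvk', mul_one, div_one]
    · have e2 : k / (a * k') - 1 = (k - a * k') / (a * k') := by
        field_simp
      rw [e2, map_div₀, map_mul, hva, hvk', mul_one, div_one]
      exact h1
    · rw [Valuation.map_neg, map_div₀, map_mul, hva, hvk', mul_one, div_one]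
      exact hc
    · rw [sub_self, map_zero]
      exact zero_le
  · have e : (ut a c 1)⁻¹ = ut a⁻¹ (-(c / a)) 1 := by
      rw [ut_inv c ha0 one_ne_zero, mul_one, inv_one]
    rw [finCompHom_dKF468_notMem k hv, finCompHom_dKF468_notMem k' hv, inv_one, one_mul,
      mul_one, ← map_inv, e]
    refine near_ratFin_ut ?_ (map_one _) ?_ ?_ ?_
    · rw [map_inv₀, hva, inv_one]
    · have e2 : a⁻¹ - 1 = (1 - a) / a := by
        field_simp
      rw [e2, map_div₀, hva, div_one, valuation_eq_one_of_notMemF468 hv]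
      exact h2
    · rw [Valuation.map_neg, map_div₀, hva, div_one]
      exact hc
    · rw [sub_self, map_zero]
      exact zero_le

end Fermat.Agent.LT.T7.H468

end

end
-- ===== PACK-END LT/T7/H468/HoroFBase.lean

-- ===== PACK-BEGIN LT/T7/Reg.lean
section






/-!
# Row LT, tower T7 (architect helper797): the REGULAR trace identity for words and the
# decoupling of the regular place -- first split of `TraceWordsEKC`

OFF-MAIN.  Definitions, frozen Props, PROVED tops.  No `sorry`, nothing assumed.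
ADDITIVE: `Spec.lean` v1.2, `Comparison.lean` v0, `EK.lean` are unchanged.

## THE POINT (why `TraceWordsEKC` is not the direct output of T5 + T6)

The geometric side of T5 is unfolded for `σ`-REGULAR test functions only
(`T5.GeomUnfold`, `T5.RegularOfIwahori`): the component at an auxiliary place `u` (split in `K'`)
is the characteristic function `ρ_m` of `I diag(ϖ^m, 1) I`, and regularity holds for `m ≥ m₀(C)`
where `C` is a compact set containing the components OUTSIDE `u` of the support (product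
formula: `q_u^m` must beat the eigenvalue ratios at all the other places).  A word `X` in the
Hecke operators and sphere means ENLARGES the support outside `u`.  Hence

    the trace identity for `X ⋆ φ` holds for `m ≥ m₀(X)` only, and `m₀(X) → ∞` with `X`.

No single `m` serves all words, so the coefficients of `TraceWordsEKC` are NOT the diagonal
coefficients of one test function.  (Flicker, *Regular trace formula and base change lifting*,
§§1-2: the regular component is decoupled FIRST, by linear independence of characters.)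

## The split

    TraceWordsEKC  ⇐  TraceWordsRegC  +  ExpSepC                      (PROVED: `traceWordsEKC_of_reg`)

* `TraceWordsRegC` (NODE, the true output of T5 ∘ T6 ∘ T3 ∘ T2): atoms upstairs and downstairs,
  each with eigen-data outside `S'` AND a pair `(b, λ)` at the regular place
  (`b` = eigenvalue of the scalar uniformiser at `u`, `λ` = eigenvalue of `q_u^{-1/2} U_u`,
  `U_u = R(1_{I diag(ϖ,1) I})`, on a joint generalised eigenspace), and coefficients `x_i`, `y_j`
  (the traces away from `u`), such that for every word `X` outside `S'`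

      ∑_i X(Ĉ_i) x_i b_i^k λ_i^m  =  ∑_j X(C_j) y_j b'_j^k λ'_j^m     for all `k ∈ ℤ`, `m ≥ m₀(X)`.

  Test function upstairs: `X ⋆ (EK ⋆ EK ⋆ φ^u) ⊗ z_u^k ρ_m` at the places `o 0, …, o (ℓ-1)` over
  `u` (`ρ_m` at `o 0`, the Iwahori idempotent at the others); downstairs the matched function.
* `ExpSepC` (LEAF, analysis, Mathlib only): absolutely summable atoms `(b_i, λ_i)` with
  `|b| = 1`, `|λ| ≤ R` and `|λ| = 1` or `λ² / b > 0` are separated by the functions
  `(b, λ) ↦ b^k λ^m`, `k ∈ ℤ`, `m ≥ m₀`.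

## Why the atoms have `|λ| = 1` or `λ² / b > 0`

`U_u` acts on the Iwahori-invariant vectors.  On the `u`-old part `λ` is a root of
`x² - a_u x + b_u` with `conj a_u = a_u conj b_u`, `|b_u| = 1` (unitarity): the roots `α, β`
satisfy `{conj α, conj β} = {α⁻¹, β⁻¹}`, so `|α| = 1` or `conj α = β⁻¹`, i.e. `α² = |α|² b_u`.
On the `u`-new part `U_u = - T_ω` and `U_u² = S_u`: `λ² = b_u / q_u`.

## Why no polynomial factors in `m`

Downstairs `B = R(f^u)` commutes with `U_u`: `tr (B U_u^m)` is a sum of `β_k λ_k^m`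
(simultaneous triangular form).  Upstairs `B = R(φ^u)` commutes with the `U_j = A^j U A^{-j}`
(`A = R(σ)`); on the joint generalised eigenspace `W` of `(U_0, …, U_{ℓ-1})` with eigenvalue
`(λ, …, λ)` (the only ones which `B U^m A` does not move) write `U_0 = λ (1 + N_0)`: then
`(B N_0^k A)^ℓ = (∏_j A^j B A^{-j}) (∏_j N_j^k)` is nilpotent for `k ≥ 1`, so
`tr (B U_0^m A | W) = λ^m tr (B A | W)`.  Summability: the `W` are independent invariant
subspaces, so `∑_W |tr (B A | W)| ≤` the trace norm (Weyl's inequality).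
-/

set_option autoImplicit false
set_option linter.style.haveILetI false

open AutomorphicForm IsDedekindDomain NumberField
open scoped ComplexConjugate

noncomputable section

namespace Fermat.Agent.LT.T7

open Fermat.Agent.LT.H556

/-! ## 1. The separation at the regular place -/

/-- The parameters `(b, λ)` of an atom at the regular place: `|b| = 1`, `|λ| ≤ R`, and
`|λ| = 1` (tempered) or `λ² = t b` with `t > 0` (complementary series: `t = q^{± 2s}`;
Steinberg: `t = 1/q`). -/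
def IsRegParam (R : ℝ) (b l : ℂ) : Prop :=
  ‖b‖ = 1 ∧ ‖l‖ ≤ R ∧ (‖l‖ = 1 ∨ ∃ t : ℝ, 0 < t ∧ l ^ 2 = (t : ℂ) * b)

/-- **LEAF T7.C7 = EXP-SEP (linear independence of characters at the regular place).**
Two absolutely summable families of atoms `(b, λ)` as in `IsRegParam` with
`∑_i a_i b_i^k λ_i^m = ∑_j a'_j b'_j^k λ'_j^m` for all `k ∈ ℤ` and all `m ≥ m₀` have the same mass
at every point `(b₀, λ₀)`.
Proof.  (1) Fix `m`: the atomic measure `∑ a_i λ_i^m δ_{b_i}` on the unit circle is determined by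
its Fourier coefficients (Cesàro means `(2N+1)⁻¹ ∑_{|k| ≤ N} b₀^{-k} (⋯)`, dominated
convergence): one may fix `b = b₀ = ζ₀²`.  (2) With `μ = λ / ζ₀`: `|μ| = 1` or `μ ∈ ℝ`.  The
generating function `G(t) = ∑ a_i μ_i^{m₀} / (1 - μ_i t)` vanishes near `0`, is holomorphic on
the unit disc minus a closed subset of the real axis (connected), hence vanishes there; the
limit of `(1 - μ₀ t) G(t)` along `t = 1/μ₀ + iε` isolates the atoms at a real `μ₀`, `|μ₀| > 1`
(`|1 - μ_i t| ≥ |μ_i| ε` for real `μ_i`).  (3) Now all `|μ_i| ≤ 1`: the Cesàro means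
`N⁻¹ ∑_{m < N} μ₀^{-m} (⋯)` isolate the atoms on the unit circle.  (4) The remaining atoms are
real with `|μ| < 1`: as (2) on `ℂ` minus the two real rays `|t| ≥ 1`.
(FALSE without a condition on the position of the `λ_i`: Wolff's series
`∑ a_i / (z - μ_i) ≡ 0`.)  Mathlib only. -/
def ExpSepC : Prop :=
  ∀ (ι ι' : Type) (a : ι → ℂ) (a' : ι' → ℂ) (b l : ι → ℂ) (b' l' : ι' → ℂ) (R : ℝ) (m₀ : ℕ),
    Summable (fun i => ‖a i‖) → Summable (fun j => ‖a' j‖) →
    (∀ i, IsRegParam R (b i) (l i)) → (∀ j, IsRegParam R (b' j) (l' j)) →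
    (∀ m : ℕ, m₀ ≤ m → ∀ k : ℤ,
      ∑' i, a i * b i ^ k * l i ^ m = ∑' j, a' j * b' j ^ k * l' j ^ m) →
    ∀ b₀ l₀ : ℂ,
      ∑' i : {i : ι // b i = b₀ ∧ l i = l₀}, a i
        = ∑' j : {j : ι' // b' j = b₀ ∧ l' j = l₀}, a' j

/-! ## 2. The regular trace identity for words -/

section Cyclic

variable (K K' : Type) [Field K] [NumberField K] [Field K'] [NumberField K'] [Algebra K K']

/-- **NODE T7.C3-REG = REGULAR TRACE IDENTITY FOR WORDS** (`K'/K` cyclic of odd prime degree,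
`K` totally complex, `Φ` a `Gal(K'/K)`-stable cusp form over `K'` with good EK places).
See the header.  The atoms carry the parameters `(b, λ)` at the regular place; the identity
holds for `m ≥ m₀(X)`; the total coefficient of the atoms of the class of `Φ` at ONE point
`(b₀, λ₀)` is not zero; every downstairs atom whose base change is spherical of parameter `0` at
infinity is realised by a cusp form as in A0.
Sources: `T5.Tower` for `(K', σ)` and `(K, id)`, T6 (`FundLemmaC`, `SplitMatchC`, `SplitInt3C`,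
`BadMatchC`, `NormClassC`, `NormInjC`, `TwCentC`, `NormImageTCC`, `OrbSumIntC`), `T3.EKOpExistC`
(smooth form), `T2.CuspSpec`, the Iwahori--Hecke algebra at `u`, multiplicity one in module form
(non-vanishing). -/
def TraceWordsRegC : Prop :=
  ∀ ℓ : ℕ, IsCycExt K K' ℓ → ℓ ≠ 2 → TotCplx K →
    ∀ Φ : HeckeEigensystem K' ℂ, A0.IsCuspAdelicSph0 K' Φ → ConstOnFibres K Φ →
      GoodEK K' Φ →
      ∃ (S' : Finset (HeightOneSpectrum (𝓞 K'))) (ι ι' : Type)
        (c : ι → HeckeEigensystem K ℂ) (Ch : ι → EigData K') (C : ι' → EigData K')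
        (b l : ι → ℂ) (b' l' : ι' → ℂ) (R : ℝ) (x : ι → ℂ) (y : ι' → ℂ),
        Summable (fun i => ‖x i‖) ∧ Summable (fun j => ‖y j‖) ∧
        (∀ i, (Ch i).IsUnitaryOut S') ∧ (∀ j, (C j).IsUnitaryOut S') ∧
        (∀ i, IsBCEig K K' (c i) (Ch i) S') ∧
        (∀ i, IsRegParam R (b i) (l i)) ∧ (∀ j, IsRegParam R (b' j) (l' j)) ∧
        (∀ X : List (Gen K'), (∀ g ∈ X, g.Out S') →
          ∃ m₀ : ℕ, ∀ m : ℕ, m₀ ≤ m → ∀ k : ℤ,
            ∑' i, wordEv X (Ch i) * x i * b i ^ k * l i ^ m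
              = ∑' j, wordEv X (C j) * y j * b' j ^ k * l' j ^ m) ∧
        (∃ b₀ l₀ : ℂ,
          (∑' j : {j : {j : ι' // b' j = b₀ ∧ l' j = l₀} //
              (C j.1).AgreeOut S' (eigOf Φ)}, y j.1.1) ≠ 0) ∧
        ∀ i, (Ch i).IsSph0 → A0.IsCuspAdelicSph0 K (c i)

end Cyclic

/-- `TraceWordsRegC` for all cyclic extensions. -/
def TraceWordsRegAll : Prop :=
  ∀ (K K' : Type) [Field K] [NumberField K] [Field K'] [NumberField K'] [Algebra K K'],
    TraceWordsRegC K K'

/-- **NODE T7.C3Q-REG = REGULAR TRACE IDENTITY FOR WORDS, `F = ℚ(√-3)` over `ℚ`.**  As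
`TraceWordsRegC`; the regular place is a prime number split in `F`; downstairs the trace
identity is the sum over the `K_∞`-types `0`, `+1`, `-1` (archimedean matching: T6 `P7`). -/
def TraceWordsQRegC (F : Type) [Field F] [NumberField F] : Prop :=
  HasSqrtNegThree F → IsImagQuad F →
    ∀ Φ : HeckeEigensystem F ℂ, A0.IsCuspAdelicSph0 F Φ → ConstOnFibresQ Φ → GoodEK F Φ →
      ∃ (S : Finset ℕ) (S' : Finset (HeightOneSpectrum (𝓞 F))) (ι ι' : Type)
        (c : ι → HeckeEigensystem ℚ ℂ) (Ch : ι → EigData F) (C : ι' → EigData F)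
        (b l : ι → ℂ) (b' l' : ι' → ℂ) (R : ℝ) (x : ι → ℂ) (y : ι' → ℂ),
        (∀ p : ℕ, p.Prime → ∀ w : HeightOneSpectrum (𝓞 F), ((p : ℕ) : 𝓞 F) ∈ w.asIdeal →
          w ∈ S' → p ∈ S) ∧
        Summable (fun i => ‖x i‖) ∧ Summable (fun j => ‖y j‖) ∧
        (∀ i, (Ch i).IsUnitaryOut S') ∧ (∀ j, (C j).IsUnitaryOut S') ∧
        (∀ i, IsBCEigQ F (c i) (Ch i) S) ∧
        (∀ i, IsRegParam R (b i) (l i)) ∧ (∀ j, IsRegParam R (b' j) (l' j)) ∧
        (∀ X : List (Gen F), (∀ g ∈ X, g.Out S') →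
          ∃ m₀ : ℕ, ∀ m : ℕ, m₀ ≤ m → ∀ k : ℤ,
            ∑' i, wordEv X (Ch i) * x i * b i ^ k * l i ^ m
              = ∑' j, wordEv X (C j) * y j * b' j ^ k * l' j ^ m) ∧
        (∃ b₀ l₀ : ℂ,
          (∑' j : {j : {j : ι' // b' j = b₀ ∧ l' j = l₀} //
              (C j.1).AgreeOut S' (eigOf Φ)}, y j.1.1) ≠ 0) ∧
        ∀ i, (Ch i).IsSph0 → A0.notion556.IsCusp ℚ (c i)

/-- `TraceWordsQRegC` for all number fields (i.e. for `ℚ(√-3)`). -/
def TraceWordsQRegAll : Prop := ∀ (F : Type) [Field F] [NumberField F], TraceWordsQRegC F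

/-! ## 3. Words are bounded on unitary eigen-data -/

section Bound

variable {K : Type} [Field K] [NumberField K]

/-- The bound of a generator on unitary eigen-data. -/
def Gen.bd : Gen K → ℝ
  | Gen.T w => ((Ideal.absNorm w.asIdeal : ℝ) + 1) / Real.sqrt (Ideal.absNorm w.asIdeal : ℝ)
  | Gen.S _ => 1
  | Gen.Sinv _ => 1
  | Gen.M _ _ => 4 * Real.pi

theorem Gen.bd_nonneg (g : Gen K) : 0 ≤ g.bd := by
  cases g with
  | T w => exact div_nonneg (by positivity) (Real.sqrt_nonneg _)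
  | S w => exact zero_le_one
  | Sinv w => exact zero_le_one
  | M w d => exact mul_nonneg (by norm_num) Real.pi_pos.le

theorem Gen.norm_ev_le {S : Finset (HeightOneSpectrum (𝓞 K))} {D : EigData K}
    (hD : D.IsUnitaryOut S) (g : Gen K) (hg : g.Out S) : ‖g.ev D‖ ≤ g.bd := by
  cases g with
  | T w =>
    have h := (hD.1 w hg).2.2
    have hq : 0 < (Ideal.absNorm w.asIdeal : ℝ) := by
      have h0 : Ideal.absNorm w.asIdeal ≠ 0 := by
        rw [Ne, Ideal.absNorm_eq_zero_iff]
        exact w.ne_bot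
      exact_mod_cast Nat.pos_of_ne_zero h0
    have hs : 0 < Real.sqrt (Ideal.absNorm w.asIdeal : ℝ) := Real.sqrt_pos.2 hq
    show ‖D.a w‖ ≤ _
    rw [Gen.bd, le_div_iff₀ hs]
    exact h
  | S w =>
    show ‖D.b w‖ ≤ 1
    rw [(hD.1 w hg).1]
  | Sinv w =>
    show ‖(D.b w)⁻¹‖ ≤ 1
    rw [norm_inv, (hD.1 w hg).1, inv_one]
  | M w d =>
    exact (hD.2 w d hg).2

/-- The bound of a word. -/
def wordBd (X : List (Gen K)) : ℝ := (X.map fun g => g.bd).prod

theorem wordBd_nonneg (X : List (Gen K)) : 0 ≤ wordBd X := by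
  induction X with
  | nil => simp [wordBd]
  | cons g X ih =>
    have : wordBd (g :: X) = g.bd * wordBd X := by simp [wordBd]
    rw [this]
    exact mul_nonneg g.bd_nonneg ih

theorem norm_wordEv_le {S : Finset (HeightOneSpectrum (𝓞 K))} {D : EigData K}
    (hD : D.IsUnitaryOut S) (X : List (Gen K)) (hX : ∀ g ∈ X, g.Out S) :
    ‖wordEv X D‖ ≤ wordBd X := by
  induction X with
  | nil => simp [wordEv, wordBd]
  | cons g X ih =>
    have e1 : wordEv (g :: X) D = g.ev D * wordEv X D := by simp [wordEv]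
    have e2 : wordBd (g :: X) = g.bd * wordBd X := by simp [wordBd]
    rw [e1, e2, norm_mul]
    exact mul_le_mul (Gen.norm_ev_le hD g (hX g (List.mem_cons_self)))
      (ih fun g' hg' => hX g' (List.mem_cons_of_mem _ hg')) (norm_nonneg _) g.bd_nonneg

theorem summable_word_mul {S : Finset (HeightOneSpectrum (𝓞 K))} {ι : Type}
    {A : ι → EigData K} {x : ι → ℂ} (hA : ∀ i, (A i).IsUnitaryOut S)
    (hx : Summable fun i => ‖x i‖) (X : List (Gen K)) (hX : ∀ g ∈ X, g.Out S) :
    Summable fun i => ‖wordEv X (A i) * x i‖ := by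
  refine Summable.of_nonneg_of_le (fun i => norm_nonneg _) (fun i => ?_)
    (hx.mul_left (wordBd X))
  rw [norm_mul]
  exact mul_le_mul_of_nonneg_right (norm_wordEv_le (hA i) X hX) (norm_nonneg _)

end Bound

/-! ## 4. The tops (PROVED) -/

/-- **`TraceWordsEKC` from the regular trace identity and the separation at the regular
place.** -/
theorem traceWordsEKC_of_reg (K K' : Type) [Field K] [NumberField K] [Field K']
    [NumberField K'] [Algebra K K'] (hT : TraceWordsRegC K K') (hE : ExpSepC) :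
    TraceWordsEKC K K' := by
  intro ℓ hcyc hℓ hcplx Φ hΦ hconst hgood
  obtain ⟨S', ι, ι', c, Ch, C, b, l, b', l', R, x, y, hx, hy, hUA, hUB, hbc, hp, hp', hword,
    ⟨b₀, l₀, hne⟩, hreal⟩ := hT ℓ hcyc hℓ hcplx Φ hΦ hconst hgood
  refine ⟨S', {i : ι // b i = b₀ ∧ l i = l₀}, {j : ι' // b' j = b₀ ∧ l' j = l₀},
    fun i => c i.1, fun i => Ch i.1, fun j => C j.1, fun i => x i.1, fun j => y j.1,
    hx.subtype _, hy.subtype _, fun i => hUA i.1, fun j => hUB j.1, fun i => hbc i.1, ?_, hne,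
    fun i hi => hreal i.1 hi⟩
  intro X hX
  obtain ⟨m₀, hm⟩ := hword X hX
  exact hE ι ι' (fun i => wordEv X (Ch i) * x i) (fun j => wordEv X (C j) * y j) b l b' l' R m₀
    (summable_word_mul hUA hx X hX) (summable_word_mul hUB hy X hX) hp hp' hm b₀ l₀

/-- `TraceWordsEKAll` from the two Props of this file. -/
theorem traceWordsEKAll_of_reg (hT : TraceWordsRegAll) (hE : ExpSepC) : TraceWordsEKAll :=
  fun K K' _ _ _ _ _ => traceWordsEKC_of_reg K K' (hT K K') hE

/-- **`TraceWordsQEKC` from the regular trace identity and the separation at the regular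
place.** -/
theorem traceWordsQEKC_of_reg (F : Type) [Field F] [NumberField F] (hT : TraceWordsQRegC F)
    (hE : ExpSepC) : TraceWordsQEKC F := by
  intro h3 hquad Φ hΦ hconst hgood
  obtain ⟨S, S', ι, ι', c, Ch, C, b, l, b', l', R, x, y, hSS', hx, hy, hUA, hUB, hbc, hp, hp',
    hword, ⟨b₀, l₀, hne⟩, hreal⟩ := hT h3 hquad Φ hΦ hconst hgood
  refine ⟨S, S', {i : ι // b i = b₀ ∧ l i = l₀}, {j : ι' // b' j = b₀ ∧ l' j = l₀},
    fun i => c i.1, fun i => Ch i.1, fun j => C j.1, fun i => x i.1, fun j => y j.1, hSS',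
    hx.subtype _, hy.subtype _, fun i => hUA i.1, fun j => hUB j.1, fun i => hbc i.1, ?_, hne,
    fun i hi => hreal i.1 hi⟩
  intro X hX
  obtain ⟨m₀, hm⟩ := hword X hX
  exact hE ι ι' (fun i => wordEv X (Ch i) * x i) (fun j => wordEv X (C j) * y j) b l b' l' R m₀
    (summable_word_mul hUA hx X hX) (summable_word_mul hUB hy X hX) hp hp' hm b₀ l₀

/-- `TraceWordsQEKAll` from the two Props of this file. -/
theorem traceWordsQEKAll_of_reg (hT : TraceWordsQRegAll) (hE : ExpSepC) : TraceWordsQEKAll :=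
  fun F _ _ => traceWordsQEKC_of_reg F (hT F) hE

/-- **THE TOP OF TOWER T7, level 2**: the two descent leaves of the frozen wall, VERBATIM, from
the four nodes (`TraceWordsRegAll`, `TraceWordsQRegAll`, `ThinC`, `RigidAll`) and the leaves. -/
theorem topReg (hTW : TraceWordsRegAll) (hTWQ : TraceWordsQRegAll) (hExp : ExpSepC)
    (hSep : SepAll) (hSeed : SeedEKC) (hMid : MidEKC) (hThin : ThinC) (hRigid : RigidAll)
    (hTw : TwistAll) (hConj : ConjAll) (hMU : MidUniqueFromC) (hMS : MidStableFromUniqueC)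
    (hEF : DictEFC) (hFQ : DictFQC) (hR : SqrtC) : WT.A3c_556 ∧ WT.A3q_556 :=
  topEK (traceWordsEKAll_of_reg hTW hExp) (traceWordsQEKAll_of_reg hTWQ hExp) hSep hSeed hMid
    hThin hRigid hTw hConj hMU hMS hEF hFQ hR

/-! ## Appendix (v0.1, additive): the equation lemmas of `Gen.bd` are realised HERE

See the appendix of `Comparison.lean`.  No statement of this file is changed. -/

theorem Gen.bd_eqns_realised797 : True := by
  have _e1 := @Gen.bd.eq_1
  have _e2 := @Gen.bd.eq_2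
  have _e3 := @Gen.bd.eq_3
  have _e4 := @Gen.bd.eq_4
  have _h1 := @Gen.bd.eq_def
  have _h2 := @Gen.bd.eq_unfold
  have _h3 := @wordBd.eq_1
  have _h4 := @wordBd.eq_def
  have _h5 := @wordBd.eq_unfold
  trivial

end Fermat.Agent.LT.T7

end

end
-- ===== PACK-END LT/T7/Reg.lean

-- ===== PACK-BEGIN LT/T7/H621/ConjMean.lean
section



/-!
# Row LT, tower T7, leaf T7.02.4 `ConjMeanC621` (helper621)

OFF-MAIN.  The mean value properties are transported by a field automorphism.  In the conjugate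
case: `conj (rotZ α) = rotZ (-α)`, `rotZ (α + 2π) = - rotZ α`, `-1 ∈ U(2)`, and the inner
integral is `2π`-periodic in `α`.
-/

set_option autoImplicit false
set_option linter.unusedSectionVars false

open IsDedekindDomain NumberField AutomorphicForm
open scoped MatrixGroups ComplexConjugate

noncomputable section

namespace Fermat.Agent.LT.T7.H621

open Fermat.Agent.LT.H556 Fermat.Agent.LT.H556.A0 Fermat.Agent.LT.T1.H930
open NumberField.InfinitePlace

variable {K : Type} [Field K] [NumberField K]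

/-! ## Component ring homomorphisms -/

/-- The component at the infinite place `w`. -/
def infProj621 (w : InfinitePlace K) : Adl K →+* w.Completion :=
  (Pi.evalRingHom (fun v : InfinitePlace K => v.Completion) w).comp
    (RingHom.fst (InfiniteAdeleRing K) (FiniteAdeleRing (𝓞 K) K))

/-- The component at the finite place `v`. -/
def finProj621 (v : HeightOneSpectrum (𝓞 K)) : Adl K →+* v.adicCompletion K :=
  (RestrictedProduct.evalRingHom (fun v : HeightOneSpectrum (𝓞 K) => v.adicCompletion K) v).comp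
    (RingHom.snd (InfiniteAdeleRing K) (FiniteAdeleRing (𝓞 K) K))

theorem trivAtInf_iff621 (w : InfinitePlace K) (g : G K) :
    TrivAtInf w g ↔ (g : Matrix (Fin 2) (Fin 2) (Adl K)).map (infProj621 w) = 1 := by
  constructor
  · intro h
    exact Matrix.ext fun i j => h i j
  · intro h i j
    exact congrFun (congrFun h i) j

theorem trivAtFin_iff621 (v : HeightOneSpectrum (𝓞 K)) (g : G K) :
    TrivAtFin v g ↔ (g : Matrix (Fin 2) (Fin 2) (Adl K)).map (finProj621 v) = 1 :=
  Iff.rfl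

theorem finComp_eq_map621 (v : HeightOneSpectrum (𝓞 K)) (g : G K) :
    finComp v g = (g : Matrix (Fin 2) (Fin 2) (Adl K)).map (finProj621 v) := rfl

theorem infComp_eq_map621 (w : InfinitePlace K) (g : G K) :
    infComp w g = (g : Matrix (Fin 2) (Fin 2) (Adl K)).map
      ((Completion.extensionEmbedding w).comp (infProj621 w)) := rfl

theorem map_one_of621 {R : Type*} [CommRing R] (f : Adl K →+* R) (g h : G K)
    (hg : (g : Matrix (Fin 2) (Fin 2) (Adl K)).map f = 1)
    (hh : (h : Matrix (Fin 2) (Fin 2) (Adl K)).map f = 1) :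
    ((g * h : G K) : Matrix (Fin 2) (Fin 2) (Adl K)).map f = 1 := by
  rw [Units.val_mul, Matrix.map_mul, hg, hh, one_mul]

theorem map_mul621 {R : Type*} [CommRing R] (f : Adl K →+* R) (g h : G K) :
    ((g * h : G K) : Matrix (Fin 2) (Fin 2) (Adl K)).map f
      = (g : Matrix (Fin 2) (Fin 2) (Adl K)).map f * (h : Matrix (Fin 2) (Fin 2) (Adl K)).map f := by
  rw [Units.val_mul, Matrix.map_mul]

theorem map_inv_mul621 {R : Type*} [CommRing R] (f : Adl K →+* R) (g : G K) :
    ((g⁻¹ : G K) : Matrix (Fin 2) (Fin 2) (Adl K)).map f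
      * (g : Matrix (Fin 2) (Fin 2) (Adl K)).map f = 1 := by
  rw [← map_mul621, inv_mul_cancel]
  ext i j
  by_cases hij : i = j
  · subst hij; simp
  · simp [Matrix.one_apply_ne hij]

theorem map_inv_one_of621 {R : Type*} [CommRing R] (f : Adl K →+* R) (g : G K)
    (hg : (g : Matrix (Fin 2) (Fin 2) (Adl K)).map f = 1) :
    ((g⁻¹ : G K) : Matrix (Fin 2) (Fin 2) (Adl K)).map f = 1 := by
  have := map_inv_mul621 f g
  rwa [hg, mul_one] at this

theorem infComp_mul621 (w : InfinitePlace K) (g h : G K) :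
    infComp w (g * h) = infComp w g * infComp w h := by
  rw [infComp_eq_map621, infComp_eq_map621, infComp_eq_map621, map_mul621]

theorem infComp_inv_mul621 (w : InfinitePlace K) (g : G K) :
    infComp w g⁻¹ * infComp w g = 1 := by
  rw [infComp_eq_map621, infComp_eq_map621, map_inv_mul621]

theorem finComp_mul621 (v : HeightOneSpectrum (𝓞 K)) (g h : G K) :
    finComp v (g * h) = finComp v g * finComp v h := by
  rw [finComp_eq_map621, finComp_eq_map621, finComp_eq_map621, map_mul621]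

theorem isLocalAtInf_mul621 (w : InfinitePlace K) (g h : G K) (hg : IsLocalAtInf w g)
    (hh : IsLocalAtInf w h) : IsLocalAtInf w (g * h) := by
  refine ⟨fun w' hw' => ?_, fun v => ?_⟩
  · rw [trivAtInf_iff621]
    exact map_one_of621 _ g h ((trivAtInf_iff621 w' g).1 (hg.1 w' hw'))
      ((trivAtInf_iff621 w' h).1 (hh.1 w' hw'))
  · rw [trivAtFin_iff621]
    exact map_one_of621 _ g h ((trivAtFin_iff621 v g).1 (hg.2 v)) ((trivAtFin_iff621 v h).1 (hh.2 v))

theorem isLocalAtInf_inv621 (w : InfinitePlace K) (g : G K) (hg : IsLocalAtInf w g) :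
    IsLocalAtInf w g⁻¹ := by
  refine ⟨fun w' hw' => ?_, fun v => ?_⟩
  · rw [trivAtInf_iff621]
    exact map_inv_one_of621 _ g ((trivAtInf_iff621 w' g).1 (hg.1 w' hw'))
  · rw [trivAtFin_iff621]
    exact map_inv_one_of621 _ g ((trivAtFin_iff621 v g).1 (hg.2 v))

/-! ## The matrices `rotZ`, `rotY`, `torus` under complex conjugation -/

theorem map_conj_mul621 (A B : Matrix (Fin 2) (Fin 2) ℂ) :
    (A * B).map conj = A.map conj * B.map conj := by
  rw [← RingHom.mapMatrix_apply, ← RingHom.mapMatrix_apply, ← RingHom.mapMatrix_apply, map_mul]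

theorem rotZ_map_conj621 (α : ℝ) : (rotZ α).map conj = rotZ (-α) := by
  have h1 : conj (Complex.exp (Complex.I * ((α / 2 : ℝ) : ℂ)))
      = Complex.exp (Complex.I * (((-α) / 2 : ℝ) : ℂ)) := by
    rw [← Complex.exp_conj, map_mul, Complex.conj_I, Complex.conj_ofReal]
    congr 1
    push_cast
    ring
  have h2 : conj (Complex.exp (-(Complex.I * ((α / 2 : ℝ) : ℂ))))
      = Complex.exp (-(Complex.I * (((-α) / 2 : ℝ) : ℂ))) := by
    rw [← Complex.exp_conj, map_neg, map_mul, Complex.conj_I, Complex.conj_ofReal]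
    congr 1
    push_cast
    ring
  ext i j
  fin_cases i <;> fin_cases j
  · exact h1
  · show conj (0 : ℂ) = 0
    exact map_zero _
  · show conj (0 : ℂ) = 0
    exact map_zero _
  · exact h2

theorem rotY_map_conj621 (β : ℝ) : (rotY β).map conj = rotY β := by
  ext i j
  fin_cases i <;> fin_cases j
  · exact Complex.conj_ofReal _
  · show conj (-((Real.sin (β / 2) : ℝ) : ℂ)) = -((Real.sin (β / 2) : ℝ) : ℂ)
    rw [map_neg, Complex.conj_ofReal]
  · exact Complex.conj_ofReal _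
  · exact Complex.conj_ofReal _

theorem torus_map_conj621 (d : ℝ) : (torus d).map conj = torus d := by
  ext i j
  fin_cases i <;> fin_cases j
  · exact Complex.conj_ofReal _
  · show conj (0 : ℂ) = 0
    exact map_zero _
  · show conj (0 : ℂ) = 0
    exact map_zero _
  · exact Complex.conj_ofReal _

theorem rotZ_add_two_pi621 (α : ℝ) : rotZ (α + 2 * Real.pi) = -rotZ α := by
  have hπ : Complex.exp (Complex.I * (Real.pi : ℂ)) = -1 := by
    rw [mul_comm]; exact Complex.exp_pi_mul_I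
  have hπ' : Complex.exp (-(Complex.I * (Real.pi : ℂ))) = -1 := by
    rw [Complex.exp_neg, hπ]; norm_num
  have h1 : Complex.exp (Complex.I * (((α + 2 * Real.pi) / 2 : ℝ) : ℂ))
      = -Complex.exp (Complex.I * ((α / 2 : ℝ) : ℂ)) := by
    have : Complex.I * (((α + 2 * Real.pi) / 2 : ℝ) : ℂ)
        = Complex.I * ((α / 2 : ℝ) : ℂ) + Complex.I * (Real.pi : ℂ) := by
      push_cast
      ring
    rw [this, Complex.exp_add, hπ]
    ring
  have h2 : Complex.exp (-(Complex.I * (((α + 2 * Real.pi) / 2 : ℝ) : ℂ)))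
      = -Complex.exp (-(Complex.I * ((α / 2 : ℝ) : ℂ))) := by
    have : -(Complex.I * (((α + 2 * Real.pi) / 2 : ℝ) : ℂ))
        = -(Complex.I * ((α / 2 : ℝ) : ℂ)) + -(Complex.I * (Real.pi : ℂ)) := by
      push_cast
      ring
    rw [this, Complex.exp_add, hπ']
    ring
  ext i j
  fin_cases i <;> fin_cases j
  · exact h1
  · show (0 : ℂ) = -0
    rw [neg_zero]
  · show (0 : ℂ) = -0
    rw [neg_zero]
  · exact h2

/-! ## The central element `-1` at an infinite place -/

theorem isArchCompact_of_neg_one621 (w : InfinitePlace K) (c : G K) (hloc : IsLocalAtInf w c)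
    (hc : infComp w c = -1) : IsArchCompact w c := by
  refine ⟨hloc, ?_, fun _ => ?_⟩
  · rw [hc, Matrix.conjTranspose_neg, Matrix.conjTranspose_one, neg_mul_neg, one_mul]
  · rw [hc, Matrix.det_neg, Matrix.det_one]
    simp

/-! ## `ConjMeanC621` -/

/-- **T7.02.4 `ConjMeanC621`, PROVED.** -/
theorem conjMeanC621 (K : Type) [Field K] [NumberField K] : ConjMeanC621 K := by
  intro s φ hinv w
  constructor
  · -- complex places
    intro _ hmean d hd Y hY g
    have hloc : ∀ α β, IsLocalAtInf (infPull930 s w) (conjG621 s.symm (Y α β)) :=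
      fun α β => isLocalAtInf_conjG621 s w _ (hY α β).1
    have hfun : ∀ α β, conjFn621 s φ (g * Y α β)
        = φ (conjG621 s.symm g * conjG621 s.symm (Y α β)) := by
      intro α β
      rw [conjFn621_apply, map_mul]
    simp only [hfun]
    rw [conjFn621_apply]
    rcases infComp_conjG621 s w with h | h
    · exact hmean d hd (fun α β => conjG621 s.symm (Y α β))
        (fun α β => ⟨hloc α β, by rw [h, (hY α β).2]⟩) (conjG621 s.symm g)
    · -- the conjugate case
      have hcomp : ∀ α β, infComp (infPull930 s w) (conjG621 s.symm (Y α β))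
          = rotZ (-α) * rotY β * torus d := by
        intro α β
        rw [h, (hY α β).2, map_conj_mul621, map_conj_mul621, rotZ_map_conj621,
          rotY_map_conj621, torus_map_conj621]
      set Y₁ : ℝ → ℝ → G K := fun α β => conjG621 s.symm (Y (-α) β) with hY₁
      have hY₁comp : ∀ α β, infComp (infPull930 s w) (Y₁ α β) = rotZ α * rotY β * torus d := by
        intro α β
        rw [hY₁, hcomp, neg_neg]
      have key := hmean d hd Y₁ (fun α β => ⟨hloc (-α) β, hY₁comp α β⟩) (conjG621 s.symm g)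
      set F₁ : ℝ → ℂ := fun α => ∫ β in (0 : ℝ)..Real.pi,
        φ (conjG621 s.symm g * Y₁ α β) * ((Real.sin β : ℝ) : ℂ) with hF₁
      have hper : Function.Periodic F₁ (2 * Real.pi) := by
        intro α
        rw [hF₁]
        show (∫ β in (0 : ℝ)..Real.pi,
            φ (conjG621 s.symm g * Y₁ (α + 2 * Real.pi) β) * ((Real.sin β : ℝ) : ℂ))
          = ∫ β in (0 : ℝ)..Real.pi, φ (conjG621 s.symm g * Y₁ α β) * ((Real.sin β : ℝ) : ℂ)
        congr 1
        funext β
        congr 1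
        -- `Y₁ (α + 2π) β = Y₁ α β * c` with `c` central of component `-1`
        set c : G K := (Y₁ α β)⁻¹ * Y₁ (α + 2 * Real.pi) β with hc
        have hcloc : IsLocalAtInf (infPull930 s w) c :=
          isLocalAtInf_mul621 _ _ _ (isLocalAtInf_inv621 _ _ (hloc (-α) β))
            (hloc (-(α + 2 * Real.pi)) β)
        have hccomp : infComp (infPull930 s w) c = -1 := by
          rw [hc, infComp_mul621, hY₁comp (α + 2 * Real.pi) β, rotZ_add_two_pi621,
            Matrix.neg_mul, Matrix.neg_mul, Matrix.mul_neg, ← hY₁comp α β, infComp_inv_mul621]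
        have hY : Y₁ (α + 2 * Real.pi) β = Y₁ α β * c := by
          rw [hc, mul_inv_cancel_left]
        rw [hY, ← mul_assoc]
        exact hinv _ c (isArchCompact_of_neg_one621 _ c hcloc hccomp) _
      have e1 : (∫ α in (0 : ℝ)..(2 * Real.pi), ∫ β in (0 : ℝ)..Real.pi,
          φ (conjG621 s.symm g * conjG621 s.symm (Y α β)) * ((Real.sin β : ℝ) : ℂ))
          = ∫ α in (0 : ℝ)..(2 * Real.pi), F₁ (-α) := by
        congr 1
        funext α
        rw [hF₁]
        show _ = ∫ β in (0 : ℝ)..Real.pi,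
          φ (conjG621 s.symm g * Y₁ (-α) β) * ((Real.sin β : ℝ) : ℂ)
        rw [hY₁]
        simp only [neg_neg]
      rw [e1, intervalIntegral.integral_comp_neg]
      have e2 := hper.intervalIntegral_add_eq (-(2 * Real.pi)) 0
      rw [neg_add_cancel, zero_add] at e2
      rw [neg_zero, e2]
      exact key
  · -- real places
    intro _ hmean t ht Y hY g
    have hloc : ∀ θ, IsLocalAtInf (infPull930 s w) (conjG621 s.symm (Y θ)) :=
      fun θ => isLocalAtInf_conjG621 s w _ (hY θ).1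
    have hfun : ∀ θ, conjFn621 s φ (g * Y θ)
        = φ (conjG621 s.symm g * conjG621 s.symm (Y θ)) := by
      intro θ
      rw [conjFn621_apply, map_mul]
    simp only [hfun]
    rw [conjFn621_apply]
    refine hmean t ht (fun θ => conjG621 s.symm (Y θ)) (fun θ => ⟨hloc θ, ?_⟩)
      (conjG621 s.symm g)
    rcases infComp_conjG621 s w with h | h
    · rw [h, (hY θ).2]
    · rw [h, (hY θ).2, map_conj_mul621, rotY_map_conj621, torus_map_conj621]

end Fermat.Agent.LT.T7.H621

end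

end
-- ===== PACK-END LT/T7/H621/ConjMean.lean

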