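import Mathlib
import Fermat.Agent.Pack.LT2.E0L2
import Fermat.Agent.Pack.LT2.E2L1
import Fermat.Agent.Pack.LT2.E5L3
import Fermat.Agent.Pack.LT2.E6L2
import Fermat.Agent.Pack.LT2.E5L1
import Fermat.Agent.Pack.LT2.E8L1
import Fermat.Agent.Pack.LT2.E8L0
import Fermat.Agent.Pack.LT2.E10L1
import Fermat.Agent.Pack.LT2.E2L2
import Fermat.Agent.Pack.LT2.E6L0
import Fermat.Agent.Pack.LT2.E10L2
import Fermat.Agent.Pack.LT2.E9L3
import Fermat.Agent.Pack.LT2.E10L0
import Fermat.Agent.Pack.LT2.E10L3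
import Fermat.Agent.Pack.LT2.E4L2
import Fermat.Agent.Pack.LT2.E3L1
import Fermat.Agent.Pack.LT2.E11L2
import Fermat.Agent.Pack.LT2.E2L0
import Fermat.Agent.Pack.LT2.E11L3
import Fermat.Agent.Pack.LT2.E11L1

set_option linter.all false

-- ===== PACK-BEGIN LT/T2/H627/LeafT13.lean
section











/-!
# Row LT, tower T2, leaf T2.33 (helper627): `GPSCoreT ⇒ GPST` and `GPSCoreT ⇒ GPSKillT`

`leafT13_627 : T2.LeafT13 K`: the proof of T2.13 (`Leaf13.lean`) for the class of T5 (type `τ`,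
invariance under the ray generator `r` only).  The ray generator is `zpos627 (log 2 / 2n)`; the
shifts into the slab are its powers, and a positive scalar is a power of `r` times an element of
a compact set.  OFF-MAIN.
-/

set_option autoImplicit false
set_option linter.unusedSectionVars false
set_option linter.style.haveILetI false

open IsDedekindDomain NumberField MeasureTheory
open Fermat.Agent.LT.H556.A0
open scoped Classical ENNReal Pointwise

noncomputable section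

namespace Fermat.Agent.LT.T2.H627

variable {K : Type} [Field K] [NumberField K]

attribute [local instance] Fermat.Agent.LT.T2.borelG
attribute [local instance] borelSpaceG627

/-! ## The positive scalars form a one-parameter group -/

theorem zpos627_add (s t : ℝ) : zpos627 (K := K) (s + t) = zpos627 s * zpos627 t := by
  unfold zpos627
  rw [← map_mul, ← expIdele627_add]
  rfl

theorem zpos627_zero : zpos627 (K := K) 0 = 1 := by
  unfold zpos627
  have : (fun _ : InfinitePlace K => (0 : ℝ)) = 0 := rfl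
  rw [this, expIdele627_zero, map_one]

theorem continuous_zpos627 : Continuous (zpos627 (K := K)) :=
  continuous_scal627.comp continuous_expIdele627

/-- The real numbers `t` such that `ψ` is invariant under the positive scalar `exp t`. -/
def invGroup627 (ψ : G K → ℂ) : AddSubgroup ℝ where
  carrier := {t | ∀ g : G K, ψ (g * zpos627 t) = ψ g}
  zero_mem' := fun g => by rw [zpos627_zero, mul_one]
  add_mem' := by
    intro s t hs ht g
    rw [zpos627_add, ← mul_assoc, ht, hs]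
  neg_mem' := by
    intro t ht g
    have h := ht (g * zpos627 (-t))
    rw [mul_assoc, ← zpos627_add, neg_add_cancel, zpos627_zero, mul_one] at h
    exact h.symm

theorem mem_invGroup627 (ψ : G K → ℂ) (t : ℝ) :
    t ∈ invGroup627 ψ ↔ ∀ g : G K, ψ (g * zpos627 t) = ψ g := Iff.rfl

/-- The ray generator is the positive scalar `2^(1/2n)`. -/
theorem isRayGen_eq627 {r : G K} (hr : IsRayGen r) :
    r = zpos627 (Real.log 2 / (2 * Module.finrank ℚ K)) := by
  obtain ⟨hfin, t, ht, ht2, hinf⟩ := hr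
  have hn : (0 : ℝ) < Module.finrank ℚ K := by exact_mod_cast Module.finrank_pos
  have hlog : Real.log 2 / (2 * Module.finrank ℚ K) = Real.log t := by
    have h := congrArg Real.log ht2
    rw [Real.log_pow] at h
    push_cast at h
    rw [← h]
    field_simp
  rw [hlog]
  apply Units.ext
  refine Matrix.ext fun i j => adl_ext627 (fun w => ?_) (fun v => ?_)
  · apply ext_inj627 w
    have h1 : infComp w r i j =
        (Matrix.diagonal (fun _ => (t : ℂ)) : Matrix (Fin 2) (Fin 2) ℂ) i j := by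
      rw [hinf w]
    have h2 : infComp w (zpos627 (Real.log t)) i j =
        (Matrix.diagonal (fun _ => (t : ℂ)) : Matrix (Fin 2) (Fin 2) ℂ) i j := by
      have hu : InfinitePlace.Completion.extensionEmbedding w
          (((expIdele627 (fun _ => Real.log t) : (Adl K)ˣ) : Adl K).1 w) = (t : ℂ) := by
        show InfinitePlace.Completion.extensionEmbedding w (eR627 w (Real.exp (Real.log t))) = _
        rw [Real.exp_log ht, ext_eR627]
      unfold zpos627
      rw [infComp_scal627, hu]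
    exact h1.trans h2.symm
  · have h1 : finComp v r i j = (1 : Matrix (Fin 2) (Fin 2) (v.adicCompletion K)) i j := by
      rw [hfin v]
    have h2 : finComp v (zpos627 (Real.log t)) i j =
        (1 : Matrix (Fin 2) (Fin 2) (v.adicCompletion K)) i j := by
      unfold zpos627
      rw [finComp_scal627]
      show (Matrix.diagonal (fun _ : Fin 2 => (1 : FiniteAdeleRing (𝓞 K) K) v)) i j = _
      rw [← Matrix.diagonal_one]
      rfl
    exact h1.trans h2.symm

theorem shift627_eq (k : ℤ) :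
    shift627 K k = zpos627 ((-k) • (Real.log 2 / (2 * Module.finrank ℚ K))) := by
  unfold shift627
  congr 1
  rw [zsmul_eq_mul]
  push_cast
  ring

theorem mem_invGroup_of_ray627 {ψ : G K → ℂ} {r : G K} (hr : IsRayGen r)
    (h : ∀ g : G K, ψ (g * r) = ψ g) :
    Real.log 2 / (2 * Module.finrank ℚ K) ∈ invGroup627 ψ := by
  rw [mem_invGroup627, ← isRayGen_eq627 hr]
  exact h

/-- Invariance under the ray generator gives invariance under the shifts. -/
theorem inv_shift627 {ψ : G K → ℂ}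
    (h0 : Real.log 2 / (2 * Module.finrank ℚ K) ∈ invGroup627 ψ) (k : ℤ) (g : G K) :
    ψ (shift627 K k * g) = ψ g := by
  have h1 := (invGroup627 ψ).zsmul_mem h0 (-k)
  rw [shift627_eq, zpos627_comm]
  exact h1 g

/-- **Step B for the class of T5.** -/
theorem lintegral_compact_leT627 (F : Frame K) (hT2 : T2Space (G K)) (hD : T1.DiscreteC K)
    (hN : T1.AdNormC K) {Q : Set (G K)} (hQ : IsCompact Q) :
    ∃ M : ℕ, ∀ h : G K → ℝ≥0∞, Measurable h →
      (∀ (γ : GL (Fin 2) K) (g : G K), h (T1.ratG K γ * g) = h g) →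
      (∀ (k : ℤ) (g : G K), h (shift627 K k * g) = h g) →
      ∫⁻ g in Q, h g ∂F.μ ≤ M * ∫⁻ g in F.D, h g ∂F.μ := by
  have hUo : ∀ k : ℤ, IsOpen (nd627 (K := K) ⁻¹' Set.Ioo ((2 : ℝ) ^ (k - 1)) ((2 : ℝ) ^ (k + 1))) :=
    fun k => (continuous_nd627 hN).isOpen_preimage _ isOpen_Ioo
  have hcov : Q ⊆ ⋃ k : ℤ, nd627 (K := K) ⁻¹' Set.Ioo ((2 : ℝ) ^ (k - 1)) ((2 : ℝ) ^ (k + 1)) := by
    intro g _
    obtain ⟨k, hk⟩ := exists_mem_Ico_zpow (nd627_pos hN g) (by norm_num : (1 : ℝ) < 2)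
    refine Set.mem_iUnion.mpr ⟨k, ?_, hk.2⟩
    exact lt_of_lt_of_le (zpow_lt_zpow_right₀ (by norm_num) (by omega)) hk.1
  obtain ⟨t, ht⟩ := hQ.elim_finite_subcover _ hUo hcov
  have hmem : ∀ (k : ℤ) (g : G K), (2 : ℝ) ^ k ≤ nd627 g → nd627 g < (2 : ℝ) ^ (k + 1) →
      shift627 K k * g ∈ T1.slab K := by
    intro k g h1 h2
    have hpos : (0 : ℝ) < 2 ^ k := zpow_pos (by norm_num) k
    rw [mem_slab_iff627, nd627_mul hN, nd627_shift hN]
    constructor
    · rw [le_inv_mul_iff₀ hpos, mul_one]; exact h1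
    · rw [inv_mul_lt_iff₀ hpos, ← zpow_add_one₀ (by norm_num : (2 : ℝ) ≠ 0)]; exact h2
  have hW : ∀ k : ℤ, Q ∩ nd627 (K := K) ⁻¹' Set.Ioo ((2 : ℝ) ^ (k - 1)) ((2 : ℝ) ^ (k + 1)) ⊆
      (Q ∩ (fun g => shift627 K (k - 1) * g) ⁻¹' T1.slab K) ∪
        (Q ∩ (fun g => shift627 K k * g) ⁻¹' T1.slab K) := by
    rintro k g ⟨hgQ, hg1, hg2⟩
    by_cases hc : nd627 g < (2 : ℝ) ^ k
    · left
      refine ⟨hgQ, hmem (k - 1) g hg1.le ?_⟩
      rw [sub_add_cancel]; exact hc
    · right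
      exact ⟨hgQ, hmem k g (not_lt.mp hc) hg2⟩
  choose M hM using fun k : ℤ => lintegral_shift_le627 F hT2 hD hN hQ (shift627 K k)
  refine ⟨∑ k ∈ t, (M (k - 1) + M k), fun h hh hinv hsh => ?_⟩
  have hsub : Q ⊆ ⋃ k ∈ t, ((Q ∩ (fun g => shift627 K (k - 1) * g) ⁻¹' T1.slab K) ∪
        (Q ∩ (fun g => shift627 K k * g) ⁻¹' T1.slab K)) := by
    intro g hg
    obtain ⟨k, hk, hgk⟩ := Set.mem_iUnion₂.mp (ht hg)
    exact Set.mem_iUnion₂.mpr ⟨k, hk, hW k ⟨hg, hgk⟩⟩
  calc ∫⁻ g in Q, h g ∂F.μ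
      ≤ ∫⁻ g in ⋃ k ∈ t, ((Q ∩ (fun g => shift627 K (k - 1) * g) ⁻¹' T1.slab K) ∪
        (Q ∩ (fun g => shift627 K k * g) ⁻¹' T1.slab K)), h g ∂F.μ := lintegral_mono_set hsub
    _ ≤ ∑ k ∈ t, ∫⁻ g in ((Q ∩ (fun g => shift627 K (k - 1) * g) ⁻¹' T1.slab K) ∪
        (Q ∩ (fun g => shift627 K k * g) ⁻¹' T1.slab K)), h g ∂F.μ :=
        lintegral_biUnion_finset_le627 _ _ _ _
    _ ≤ ∑ k ∈ t, ((M (k - 1) : ℝ≥0∞) * ∫⁻ g in F.D, h g ∂F.μ +
          (M k : ℝ≥0∞) * ∫⁻ g in F.D, h g ∂F.μ) := by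
        refine Finset.sum_le_sum fun k _ => ?_
        exact (lintegral_union_le h _ _).trans
          (add_le_add (hM (k - 1) h hh hinv (hsh (k - 1))) (hM k h hh hinv (hsh k)))
    _ = ((∑ k ∈ t, (M (k - 1) + M k) : ℕ) : ℝ≥0∞) * ∫⁻ g in F.D, h g ∂F.μ := by
        push_cast
        rw [Finset.sum_mul]
        refine Finset.sum_congr rfl fun k _ => ?_
        rw [add_mul]

/-- **The estimate on a compact set, class of T5.** -/
theorem conv_compact_leT627 (F : Frame K) (hT2 : T2Space (G K)) (hD : T1.DiscreteC K)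
    (hN : T1.AdNormC K) (f : G K → ℂ) (hf : Continuous f)
    (hc : HasCompactSupport f) {Ω : Set (G K)} (hΩ : IsCompact Ω) :
    ∃ C : ℝ, 0 ≤ C ∧ ∀ ψ : G K → ℂ, Continuous ψ → (∃ C : ℝ, ∀ g : G K, ‖ψ g‖ ≤ C) →
      (∀ (γ : GL (Fin 2) K) (g : G K), ψ (T1.ratG K γ * g) = ψ g) →
      (∀ (k : ℤ) (g : G K), ψ (shift627 K k * g) = ψ g) →
      ∀ x ∈ Ω, ‖conv F f ψ x‖ ≤ C * Real.sqrt (nsq F ψ) := by
  have hQ : IsCompact (Ω * tsupport f) := hΩ.mul hc
  obtain ⟨M, hM⟩ := lintegral_compact_leT627 F hT2 hD hN hQ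
  set J : ℝ≥0∞ := ∫⁻ h, ‖f h‖ₑ ^ 2 ∂F.μ with hJ
  have hJfin : J < ⊤ := lintegral_sq_lt_top627 F f hf hc
  refine ⟨Real.sqrt M * Real.sqrt J.toReal, by positivity, fun ψ hψc hψb hψl hψs x hx => ?_⟩
  set I : ℝ≥0∞ := ∫⁻ g in F.D, ‖ψ g‖ₑ ^ 2 ∂F.μ with hI
  have hIfin : I < ⊤ := lintegral_D_lt_top627 F ψ hψb
  have hmeas : Measurable fun g => ‖ψ g‖ₑ ^ 2 := hψc.measurable.enorm.pow_const 2
  have hinv1 : ∀ (γ : GL (Fin 2) K) (g : G K), ‖ψ (T1.ratG K γ * g)‖ₑ ^ 2 = ‖ψ g‖ₑ ^ 2 := by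
    intro γ g
    rw [hψl]
  have hinv2 : ∀ (k : ℤ) (g : G K), ‖ψ (shift627 K k * g)‖ₑ ^ 2 = ‖ψ g‖ₑ ^ 2 := by
    intro k g
    rw [hψs]
  have h1 := enorm_conv_le627 F f ψ hf hψc x
  have hsub : (fun y => x⁻¹ * y) ⁻¹' tsupport f ⊆ Ω * tsupport f := by
    intro y hy
    exact ⟨x, hx, x⁻¹ * y, hy, mul_inv_cancel_left x y⟩
  have h2 : ∫⁻ y in (fun y => x⁻¹ * y) ⁻¹' tsupport f, ‖ψ y‖ₑ ^ 2 ∂F.μ ≤ M * I :=
    (lintegral_mono_set hsub).trans (hM _ hmeas hinv1 hinv2)
  have h3 : ‖conv F f ψ x‖ₑ ≤ ((M : ℝ≥0∞) * I) ^ (1 / 2 : ℝ) * J ^ (1 / 2 : ℝ) :=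
    h1.trans (mul_le_mul' (ENNReal.rpow_le_rpow h2 (by norm_num)) le_rfl)
  have hfin : ((M : ℝ≥0∞) * I) ^ (1 / 2 : ℝ) * J ^ (1 / 2 : ℝ) ≠ ⊤ := by
    refine ENNReal.mul_ne_top (ENNReal.rpow_ne_top_of_nonneg (by norm_num) ?_)
      (ENNReal.rpow_ne_top_of_nonneg (by norm_num) hJfin.ne)
    exact ENNReal.mul_ne_top (ENNReal.natCast_ne_top M) hIfin.ne
  have h4 := ENNReal.toReal_mono hfin h3
  rw [toReal_enorm, ENNReal.toReal_mul, ← ENNReal.toReal_rpow, ← ENNReal.toReal_rpow,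
    ENNReal.toReal_mul, ENNReal.toReal_natCast, ← Real.sqrt_eq_rpow, ← Real.sqrt_eq_rpow,
    Real.sqrt_mul (Nat.cast_nonneg M), ← nsq_eq627 F ψ hψc] at h4
  calc ‖conv F f ψ x‖ ≤ Real.sqrt M * Real.sqrt (nsq F ψ) * Real.sqrt J.toReal := h4
    _ = Real.sqrt M * Real.sqrt J.toReal * Real.sqrt (nsq F ψ) := by ring

theorem conv_leftT627 (F : Frame K) (f ψ : G K → ℂ)
    (hl : ∀ (γ : GL (Fin 2) K) (g : G K), ψ (T1.ratG K γ * g) = ψ g)
    (γ : GL (Fin 2) K) (x : G K) : conv F f ψ (T1.ratG K γ * x) = conv F f ψ x := by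
  unfold conv
  congr 1
  funext h
  rw [mul_assoc, hl]

theorem conv_invT627 (F : Frame K) (f ψ : G K → ℂ) {t : ℝ} (ht : t ∈ invGroup627 ψ)
    (x : G K) : conv F f ψ (x * zpos627 t) = conv F f ψ x := by
  unfold conv
  congr 1
  funext h
  rw [mul_assoc, zpos627_comm, ← mul_assoc, ht]

/-- **The estimate on the part of bounded height of a Siegel set, class of T5.** -/
theorem conv_siegel_leT627 (hT1 : T1.T1Out K) (F : Frame K) (f : G K → ℂ)
    (hf : Continuous f) (hc : HasCompactSupport f) (c₀ c₁ : ℝ) (hc₀ : 0 < c₀) :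
    ∃ C : ℝ, 0 ≤ C ∧ ∀ ψ : G K → ℂ, Continuous ψ → (∃ C : ℝ, ∀ g : G K, ‖ψ g‖ ≤ C) →
      (∀ (γ : GL (Fin 2) K) (g : G K), ψ (T1.ratG K γ * g) = ψ g) →
      Real.log 2 / (2 * Module.finrank ℚ K) ∈ invGroup627 ψ →
      ∀ (x : G K) (t : ℝ), T1.HasHeight K x t → c₀ ≤ t → t ≤ c₁ →
        ‖conv F f ψ x‖ ≤ C * Real.sqrt (nsq F ψ) := by
  have hT2 : T2Space (G K) := hT1.locComp.2.2.1
  have hN := hT1.adNorm
  obtain ⟨Ω, m, M, hΩ, hm, hmM, hS⟩ := hT1.siegelCompact c₀ hc₀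
  obtain ⟨CF, hCF, hFuj⟩ := hT1.fujisaki
  set s₀ : ℝ := min 1 (m * c₀) with hs₀
  set s₁ : ℝ := max 1 (M * c₁) with hs₁
  set τ₀ : ℝ := Real.log 2 / (2 * Module.finrank ℚ K) with hτ₀
  have hnpos : (0 : ℝ) < Module.finrank ℚ K := by exact_mod_cast Module.finrank_pos
  have hτ₀pos : 0 < τ₀ := div_pos (Real.log_pos (by norm_num)) (by positivity)
  have hs₀pos : 0 < s₀ := lt_min one_pos (mul_pos hm hc₀)
  have hΩ' : IsCompact ((scal627 '' CF) * (ray627 (K := K) '' Set.Icc (Real.log s₀) (Real.log s₁))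
      * Ω * (zpos627 (K := K) '' Set.Icc 0 τ₀)) :=
    (((hCF.image continuous_scal627).mul (isCompact_Icc.image continuous_ray627)).mul hΩ).mul
      (isCompact_Icc.image continuous_zpos627)
  obtain ⟨C, hC0, hC⟩ := conv_compact_leT627 F hT2 hT1.discrete hN f hf hc hΩ'
  refine ⟨C, hC0, fun ψ hψc hψb hψl hψr x t hx h0 h1 => ?_⟩
  obtain ⟨β, z, a, ω, s, -, hz, hs, ha, hω, hxeq, hms, hsM⟩ := hS x t hx h0
  have hn : Module.finrank ℚ K ≠ 0 := Module.finrank_pos.ne'
  have hMpos : 0 < M := lt_of_lt_of_le hm hmM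
  have hsl : s₀ ≤ s := by
    by_cases h : 1 ≤ s
    · exact (min_le_left _ _).trans h
    · have h' : s ^ Module.finrank ℚ K ≤ s := pow_le_of_le_one hs.le (not_le.mp h).le hn
      calc s₀ ≤ m * c₀ := min_le_right _ _
        _ ≤ m * t := mul_le_mul_of_nonneg_left h0 hm.le
        _ ≤ s ^ Module.finrank ℚ K := hms
        _ ≤ s := h'
  have hsu : s ≤ s₁ := by
    by_cases h : s ≤ 1
    · exact h.trans (le_max_left _ _)
    · have h' : s ≤ s ^ Module.finrank ℚ K := le_self_pow₀ (not_le.mp h).le hn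
      calc s ≤ s ^ Module.finrank ℚ K := h'
        _ ≤ M * t := hsM
        _ ≤ M * c₁ := mul_le_mul_of_nonneg_left h1 hMpos.le
        _ ≤ s₁ := le_max_right _ _
  have haeq : a = ray627 (Real.log s) := isRay_eq627 hs ha
  obtain ⟨ξ, κ, τ, hκ, hzeq⟩ := central_decomp627 hN hFuj hz
  -- split `τ` into a multiple of `τ₀` and a remainder in `[0, τ₀]`
  set k : ℤ := ⌊τ / τ₀⌋ with hk
  set τ' : ℝ := Int.fract (τ / τ₀) * τ₀ with hτ'
  have hτ'0 : 0 ≤ τ' := mul_nonneg (Int.fract_nonneg _) hτ₀pos.le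
  have hτ'1 : τ' ≤ τ₀ := by
    have := (Int.fract_lt_one (τ / τ₀)).le
    calc τ' ≤ 1 * τ₀ := mul_le_mul_of_nonneg_right this hτ₀pos.le
      _ = τ₀ := one_mul _
  have hsplit : τ = τ' + k • τ₀ := by
    rw [hτ', hk, zsmul_eq_mul, ← add_mul, Int.fract_add_floor, div_mul_cancel₀ _ hτ₀pos.ne']
  have hkmem : k • τ₀ ∈ invGroup627 ψ := (invGroup627 ψ).zsmul_mem hψr k
  have hy : scal627 κ * ray627 (Real.log s) * ω * zpos627 τ' ∈
      (scal627 '' CF) * (ray627 (K := K) '' Set.Icc (Real.log s₀) (Real.log s₁)) * Ω *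
        (zpos627 (K := K) '' Set.Icc 0 τ₀) := by
    refine Set.mul_mem_mul (Set.mul_mem_mul (Set.mul_mem_mul ⟨κ, hκ, rfl⟩
      ⟨Real.log s, ⟨?_, ?_⟩, rfl⟩) hω) ⟨τ', ⟨hτ'0, hτ'1⟩, rfl⟩
    · exact Real.log_le_log hs₀pos hsl
    · exact Real.log_le_log hs hsu
  have hxeq' : x = T1.ratG K (β * ratScal627 ξ) *
      ((scal627 κ * ray627 (Real.log s) * ω * zpos627 τ') * zpos627 (k • τ₀)) := by
    rw [hxeq, hzeq, haeq, map_mul]
    have e1 : zpos627 τ * ray627 (Real.log s) * ω =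
        ray627 (K := K) (Real.log s) * ω * (zpos627 τ' * zpos627 (k • τ₀)) := by
      rw [← zpos627_add, ← hsplit, mul_assoc, zpos627_comm]
    calc T1.ratG K β * (T1.ratG K (ratScal627 ξ) * scal627 κ * zpos627 τ) *
          ray627 (Real.log s) * ω
        = T1.ratG K β * T1.ratG K (ratScal627 ξ) * scal627 κ *
          (zpos627 τ * ray627 (Real.log s) * ω) := by simp only [mul_assoc]
      _ = T1.ratG K β * T1.ratG K (ratScal627 ξ) * scal627 κ *
          (ray627 (Real.log s) * ω * (zpos627 τ' * zpos627 (k • τ₀))) := by rw [e1]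
      _ = T1.ratG K β * T1.ratG K (ratScal627 ξ) *
          (scal627 κ * ray627 (Real.log s) * ω * zpos627 τ' * zpos627 (k • τ₀)) := by
          simp only [mul_assoc]
  rw [hxeq', conv_leftT627 F f ψ hψl, conv_invT627 F f ψ hkmem]
  exact hC ψ hψc hψb hψl (inv_shift627 hψr) _ hy

theorem ratG_left_inv627 {ψ : G K → ℂ}
    (h : ∀ (γ : GL (Fin 2) K) (g : G K),
      ψ (Matrix.GeneralLinearGroup.map (algebraMap K (Adl K)) γ * g) = ψ g)
    (γ : GL (Fin 2) K) (g : G K) : ψ (T1.ratG K γ * g) = ψ g := h γ g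

/-- **`GPSCoreT ⇒ GPST`.** -/
theorem gpsT_of_core627 (hT1 : T1.T1Out K) (𝔫 : Ideal (𝓞 K)) (τ : G K → ℂ)
    (hCore : GPSCoreT K 𝔫 τ) : GPST K 𝔫 τ := by
  intro R f hf
  obtain ⟨C₁, c, -, hcore⟩ := hCore R f hf 0
  obtain ⟨c₀, hc₀, hred⟩ := hT1.reduction
  obtain ⟨C₂, -, hC₂⟩ := conv_siegel_leT627 hT1 R.F f hf.cont hf.cpt c₀ (max c₀ c) hc₀
  refine ⟨max C₁ C₂, fun φ hφ x => ?_⟩
  have hl := ratG_left_inv627 hφ.aut.left_inv
  obtain ⟨γ, t, ht, hct⟩ := hred x
  rw [← conv_leftT627 R.F f φ hl γ x]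
  have hsq := Real.sqrt_nonneg (nsq R.F φ)
  by_cases h : c ≤ t
  · have h1 := hcore φ (fun _ => 0) hφ.aut (isConstTerm_zero hφ.cuspidal) _ t ht h
    rw [conv_zero627, sub_zero, pow_zero, mul_one] at h1
    exact h1.trans (mul_le_mul_of_nonneg_right (le_max_left _ _) hsq)
  · exact (hC₂ φ hφ.aut.cont hφ.aut.bdd hl (mem_invGroup_of_ray627 R.ray hφ.aut.ray) _ t ht hct
      ((not_le.mp h).le.trans (le_max_right _ _))).trans
      (mul_le_mul_of_nonneg_right (le_max_right _ _) hsq)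

/-- **`GPSCoreT ⇒ GPSKillT`.** -/
theorem gpsKillT_of_core627 (hT1 : T1.T1Out K) (𝔫 : Ideal (𝓞 K)) (τ : G K → ℂ)
    (hCore : GPSCoreT K 𝔫 τ) : GPSKillT K 𝔫 τ := by
  intro R f hf hkill
  obtain ⟨C₁, c, -, hcore⟩ := hCore R f hf 0
  obtain ⟨c₀, hc₀, hred⟩ := hT1.reduction
  obtain ⟨C₂, -, hC₂⟩ := conv_siegel_leT627 hT1 R.F f hf.cont hf.cpt c₀ (max c₀ c) hc₀
  refine ⟨max C₁ C₂, fun ψ hψ x => ?_⟩
  have hl := ratG_left_inv627 hψ.left_inv
  obtain ⟨γ, t, ht, hct⟩ := hred x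
  rw [← conv_leftT627 R.F f ψ hl γ x]
  have hsq := Real.sqrt_nonneg (nsq R.F ψ)
  by_cases h : c ≤ t
  · obtain ⟨Ψ, hΨ⟩ := exists_constTerm627 hT1.locComp hT1.addFundDom ψ hl
    have h1 := hcore ψ Ψ hψ hΨ _ t ht h
    rw [hkill ψ Ψ hψ hΨ, sub_zero, pow_zero, mul_one] at h1
    exact h1.trans (mul_le_mul_of_nonneg_right (le_max_left _ _) hsq)
  · exact (hC₂ ψ hψ.cont hψ.bdd hl (mem_invGroup_of_ray627 R.ray hψ.ray) _ t ht hct
      ((not_le.mp h).le.trans (le_max_right _ _))).trans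
      (mul_le_mul_of_nonneg_right (le_max_right _ _) hsq)

/-- **T2.33**: `GPSCoreT ⇒ GPST` and `GPSCoreT ⇒ GPSKillT`. -/
theorem leafT13_627 (K : Type) [Field K] [NumberField K] : LeafT13 K :=
  fun hT1 𝔫 τ _ _ hCore => ⟨gpsT_of_core627 hT1 𝔫 τ hCore, gpsKillT_of_core627 hT1 𝔫 τ hCore⟩

end Fermat.Agent.LT.T2.H627

end

end
-- ===== PACK-END LT/T2/H627/LeafT13.lean

-- ===== PACK-BEGIN LT/T2/H879/StripGlobal.lean
section









/-!
# Row LT, tower T2, sub-leaf T2.10.15 `HeckeStripC` (helper879): the function `Ψ`, OFF-MAIN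

`Ψ(y) = ⟨R(y) f, f₂⟩` for `f`, `f₂` in the class `IsAut0`, right invariant under `GL₂(𝒪_v)`:
`Ψ` is bi-invariant under `GL₂(𝒪_v)` (embedded at `v`), `Ψ(y z) = b Ψ(y)` for a scalar
uniformiser `z`, and `∑_{h ∈ H} Ψ(y h) = √q a Ψ(y)` for a Hecke coset system `H`, when `f` is a
Hecke eigenfunction at `v` with eigenvalues `(a, b)`.
-/

set_option autoImplicit false

open IsDedekindDomain NumberField MeasureTheory AutomorphicForm
open Fermat.Agent.LT.H556.A0 Fermat.Agent.LT.H129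
open Fermat.Agent.LT.T2.H941

noncomputable section

namespace Fermat.Agent.LT.T2.H879

variable {K : Type} [Field K] [NumberField K]

attribute [local instance] Fermat.Agent.LT.T2.borelG

/-! ## 1. The class `IsAut0` -/

theorem rt_mul879 (g h : G K) (f : G K → ℂ) : rt (g * h) f = rt g (rt h f) := by
  funext x
  simp only [rt, mul_assoc]

theorem rt_one879 (f : G K → ℂ) : rt (1 : G K) f = f := by
  funext x
  simp only [rt, mul_one]

theorem isAut0_rt879 {f : G K → ℂ} (hf : IsAut0 f) (y : G K) : IsAut0 (rt y f) := by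
  obtain ⟨hc, ⟨C, hC⟩, hl, hz⟩ := hf
  refine ⟨?_, ⟨C, fun g => hC _⟩, ?_, ?_⟩
  · exact hc.comp (continuous_id.mul continuous_const)
  · intro γ g
    show f (T1.ratG K γ * g * y) = f (g * y)
    rw [mul_assoc]
    exact hl γ (g * y)
  · intro z hzz g
    show f (z * g * y) = f (g * y)
    rw [mul_assoc]
    exact hz z hzz (g * y)

theorem isAut0_zero879 : IsAut0 (fun _ : G K => (0 : ℂ)) :=
  ⟨continuous_const, ⟨0, fun _ => by simp⟩, fun _ _ => rfl, fun _ _ _ => rfl⟩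

theorem isAut0_add879 {f₁ f₂ : G K → ℂ} (h₁ : IsAut0 f₁) (h₂ : IsAut0 f₂) :
    IsAut0 (fun x => f₁ x + f₂ x) := by
  obtain ⟨hc₁, ⟨C₁, hC₁⟩, hl₁, hz₁⟩ := h₁
  obtain ⟨hc₂, ⟨C₂, hC₂⟩, hl₂, hz₂⟩ := h₂
  refine ⟨hc₁.add hc₂, ⟨C₁ + C₂, fun g => ?_⟩, ?_, ?_⟩
  · exact (norm_add_le _ _).trans (add_le_add (hC₁ g) (hC₂ g))
  · intro γ g
    show f₁ (T1.ratG K γ * g) + f₂ (T1.ratG K γ * g) = f₁ g + f₂ g
    rw [hl₁, hl₂]
  · intro z hzz g
    show f₁ (z * g) + f₂ (z * g) = f₁ g + f₂ g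
    rw [hz₁ z hzz, hz₂ z hzz]

theorem isAut0_sum879 (H : Finset (G K)) (φ : G K → G K → ℂ) (hφ : ∀ h ∈ H, IsAut0 (φ h)) :
    IsAut0 (fun x => ∑ h ∈ H, φ h x) := by
  classical
  induction H using Finset.induction_on with
  | empty => simpa using isAut0_zero879 (K := K)
  | insert a s ha ih =>
    have h1 : IsAut0 (φ a) := hφ a (Finset.mem_insert_self a s)
    have h2 : IsAut0 (fun x => ∑ h ∈ s, φ h x) :=
      ih (fun h hh => hφ h (Finset.mem_insert_of_mem hh))
    have := isAut0_add879 h1 h2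
    simpa [Finset.sum_insert ha] using this

/-! ## 2. Linearity of the pairing in the first variable -/

theorem pair_zero879 (F : T2.Frame K) (g : G K → ℂ) :
    T2.pair F (fun _ => (0 : ℂ)) g = 0 := by
  simp [T2.pair]

theorem pair_const_mul879 (F : T2.Frame K) (c : ℂ) (φ g : G K → ℂ) :
    T2.pair F (fun x => c * φ x) g = c * T2.pair F φ g := by
  unfold T2.pair
  rw [← MeasureTheory.integral_const_mul]
  congr 1
  funext x
  ring

theorem pair_sum879 (hP : PairC K) (F : T2.Frame K) (H : Finset (G K)) (φ : G K → G K → ℂ)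
    (hφ : ∀ h ∈ H, IsAut0 (φ h)) (g : G K → ℂ) (hg : IsAut0 g) :
    T2.pair F (fun x => ∑ h ∈ H, φ h x) g = ∑ h ∈ H, T2.pair F (φ h) g := by
  classical
  induction H using Finset.induction_on with
  | empty => simpa using pair_zero879 F g
  | insert a s ha ih =>
    have h1 : IsAut0 (φ a) := hφ a (Finset.mem_insert_self a s)
    have h2 : IsAut0 (fun x => ∑ h ∈ s, φ h x) :=
      isAut0_sum879 s φ (fun h hh => hφ h (Finset.mem_insert_of_mem hh))
    have hadd := (hP F).1 (φ a) (fun x => ∑ h ∈ s, φ h x) g h1 h2 hg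
    rw [Finset.sum_insert ha, ← ih (fun h hh => hφ h (Finset.mem_insert_of_mem hh)), ← hadd]
    congr 1
    funext x
    rw [Finset.sum_insert ha]

/-! ## 3. The function `Ψ` -/

/-- `Ψ(y) = ⟨R(y) f, f₂⟩`. -/
def psi879 (F : T2.Frame K) (f f₂ : G K → ℂ) (y : G K) : ℂ := T2.pair F (rt y f) f₂

theorem psi_one879 (F : T2.Frame K) (f f₂ : G K → ℂ) :
    psi879 F f f₂ 1 = T2.pair F f f₂ := by
  unfold psi879
  rw [rt_one879]

/-- `⟨R(p) f, R(p') f₂⟩ = Ψ(p'⁻¹ p)`. -/
theorem pair_rt_rt879 (hP : PairC K) (F : T2.Frame K) {f f₂ : G K → ℂ} (hf : IsAut0 f)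
    (hf₂ : IsAut0 f₂) (p p' : G K) :
    T2.pair F (rt p f) (rt p' f₂) = psi879 F f f₂ (p'⁻¹ * p) := by
  have h := (hP F).2.2 p'⁻¹ (rt p f) (rt p' f₂) (isAut0_rt879 hf p) (isAut0_rt879 hf₂ p')
  rw [← rt_mul879, ← rt_mul879, inv_mul_cancel, rt_one879] at h
  exact h.symm

/-- Right invariance of `Ψ` under `GL₂(𝒪_v)`. -/
theorem psi_mul_right879 (F : T2.Frame K) {v : HeightOneSpectrum (𝓞 K)} {f : G K → ℂ}
    (f₂ : G K → ℂ) (hK : IsKv v f) {k : G K} (hk : IsLocalMaxCptAt129 v k) (y : G K) :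
    psi879 F f f₂ (y * k) = psi879 F f f₂ y := by
  unfold psi879
  congr 1
  funext x
  show f (x * (y * k)) = f (x * y)
  rw [← mul_assoc]
  exact hK k hk.1 hk.2.1 hk.2.2 (x * y)

/-- Left invariance of `Ψ` under `GL₂(𝒪_v)`. -/
theorem psi_mul_left879 (hP : PairC K) (F : T2.Frame K) {v : HeightOneSpectrum (𝓞 K)}
    {f f₂ : G K → ℂ} (hf : IsAut0 f) (hf₂ : IsAut0 f₂) (hK₂ : IsKv v f₂) {k : G K}
    (hk : IsLocalMaxCptAt129 v k) (y : G K) :
    psi879 F f f₂ (k * y) = psi879 F f f₂ y := by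
  have hk' : rt k⁻¹ f₂ = f₂ := by
    funext x
    show f₂ (x * k⁻¹) = f₂ x
    exact hK₂ k⁻¹ (isLocalAtFin_inv129 hk.1) hk.2.2 (by rw [inv_inv]; exact hk.2.1) x
  have h := (hP F).2.2 k (rt y f) (rt k⁻¹ f₂) (isAut0_rt879 hf y) (isAut0_rt879 hf₂ k⁻¹)
  rw [← rt_mul879, ← rt_mul879, mul_inv_cancel, rt_one879] at h
  unfold psi879
  rw [h, hk']

/-- `Ψ(y z) = b Ψ(y)` for a scalar uniformiser `z`. -/
theorem psi_mul_scalar879 (F : T2.Frame K) {v : HeightOneSpectrum (𝓞 K)} {f : G K → ℂ}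
    (f₂ : G K → ℂ) {a b : ℂ} (hE : IsHeckeEigenAt f v a b) {z : G K}
    (hz : IsScalarUniformizerAt v z) (y : G K) :
    psi879 F f f₂ (y * z) = b * psi879 F f f₂ y := by
  unfold psi879
  rw [← pair_const_mul879]
  congr 1
  funext x
  show f (x * (y * z)) = b * f (x * y)
  rw [← mul_assoc]
  exact hE.2 z hz (x * y)

/-- `∑_{h ∈ H} Ψ(y h) = √q a Ψ(y)`. -/
theorem psi_hecke879 (hP : PairC K) (F : T2.Frame K) {v : HeightOneSpectrum (𝓞 K)}
    {f f₂ : G K → ℂ} (hf : IsAut0 f) (hf₂ : IsAut0 f₂) {a b : ℂ}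
    (hE : IsHeckeEigenAt f v a b) {H : Finset (G K)} (hH : IsHeckeCosetSystem v H) (y : G K) :
    ∑ h ∈ H, psi879 F f f₂ (y * h)
      = ((Real.sqrt (Ideal.absNorm v.asIdeal : ℝ) : ℝ) : ℂ) * a * psi879 F f f₂ y := by
  unfold psi879
  rw [← pair_const_mul879, ← pair_sum879 hP F H (fun h => rt (y * h) f)
    (fun h _ => isAut0_rt879 hf (y * h)) f₂ hf₂]
  congr 1
  funext x
  show ∑ h ∈ H, f (x * (y * h)) = _ * f (x * y)
  rw [← hE.1 H hH (x * y)]
  refine Finset.sum_congr rfl fun h _ => ?_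
  rw [mul_assoc]

end Fermat.Agent.LT.T2.H879

end
end
-- ===== PACK-END LT/T2/H879/StripGlobal.lean

-- ===== PACK-BEGIN LT/T2/H439/Gen.lean
section






/-!
# Row LT, tower T2, leaf T2.10.05 `ExtendC`, part 2 (helper439, OFF-MAIN)

Elements of the group `multGrp439 Ψ` of right multipliers of an extendable function `Ψ`
(`H941.IsExtendable 𝔪 Ψ`): the level group, the compact subgroups and the positive scalars at the
infinite places, the scalar uniformisers at `v ∤ 𝔪`; hence (finite induction over the places)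
every central element which is trivial at the places dividing `𝔪`.

Assets (byte-identical copies): helper129 `LT/H129/{Comp,Local,HeckeLevel}.lean`, helper429
`LT/T2/H429/Loc.lean`, helper793 `LT/T1/H793/AdeleProj.lean`, helper919
`LT/T1/H919/SiegelTools.lean`.
-/

set_option autoImplicit false
set_option linter.style.haveILetI false
set_option linter.unusedSectionVars false

open IsDedekindDomain NumberField AutomorphicForm
open Fermat.Agent.LT.H556.A0
open Fermat.Agent.LT.H129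
open Fermat.Agent.LT.T1.H793
open Fermat.Agent.LT.T1.H919
open Fermat.Agent.LT.T2.H429
open scoped ComplexConjugate

noncomputable section

namespace Fermat.Agent.LT.T2.H439

open Fermat.Agent.LT
open Fermat.Agent.LT.T2.H941

variable {K : Type} [Field K] [NumberField K]

/-! ## Induction over finitely many finite places -/

/-- An element which is trivial at the infinite places, lies in the level group outside a finite
set `T` of finite places and whose local parts at the places of `T` lie in the subgroup `M`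
(which contains the level group) lies in `M`. -/
theorem mem_of_finset439 (M : Subgroup (G K)) (𝔪 : Ideal (𝓞 K))
    (hlev : ∀ u : G K, InLevelGroup 𝔪 u → u ∈ M) :
    ∀ (T : Finset (HeightOneSpectrum (𝓞 K))) (u : G K),
      (∀ w : InfinitePlace K, infCompHom129 w u = 1) →
      (∀ v : HeightOneSpectrum (𝓞 K), v ∉ T → ∀ i j : Fin 2,
        (finComp v u - 1) i j ∈ idealClosure 𝔪 v ∧ (finComp v u⁻¹ - 1) i j ∈ idealClosure 𝔪 v) →
      (∀ v ∈ T, locFin129 v (finCompHom129 v u) ∈ M) → u ∈ M := by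
  classical
  intro T
  induction T using Finset.induction_on with
  | empty =>
    intro u hI hF _
    exact hlev u ⟨fun w => (trivAtInf_iff129 w u).2 (hI w),
      fun v i j => hF v (Finset.notMem_empty v) i j⟩
  | insert v T hv ih =>
    intro u hI hF hT
    set ℓ : G K := locFin129 v (finCompHom129 v u) with hℓ
    have hℓM : ℓ ∈ M := hT v (Finset.mem_insert_self v T)
    have hcomp_v : finCompHom129 v (u * ℓ⁻¹) = 1 := by
      rw [map_mul, map_inv, hℓ, finCompHom129_locFin129, mul_inv_cancel]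
    have hcomp_ne : ∀ v' : HeightOneSpectrum (𝓞 K), v' ≠ v →
        finCompHom129 v' (u * ℓ⁻¹) = finCompHom129 v' u := by
      intro v' h
      rw [map_mul, map_inv, hℓ, finCompHom129_locFin129_of_ne v _ h, inv_one, mul_one]
    have hu' : u * ℓ⁻¹ ∈ M := by
      refine ih (u * ℓ⁻¹) ?_ ?_ ?_
      · intro w
        rw [map_mul, map_inv, hI w, hℓ, infCompHom129_locFin129, inv_one, mul_one]
      · intro v' hv' i j
        by_cases h : v' = v
        · subst h
          have e1 : finComp v' (u * ℓ⁻¹) = 1 := by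
            rw [← coe_finCompHom129, hcomp_v]; rfl
          have e2 : finComp v' (u * ℓ⁻¹)⁻¹ = 1 := by
            rw [← coe_finCompHom129, map_inv, hcomp_v, inv_one]; rfl
          rw [e1, e2, sub_self]
          exact ⟨zero_mem_idealClosure129 𝔪 v', zero_mem_idealClosure129 𝔪 v'⟩
        · have e1 : finComp v' (u * ℓ⁻¹) = finComp v' u := by
            rw [← coe_finCompHom129, hcomp_ne v' h]; rfl
          have e2 : finComp v' (u * ℓ⁻¹)⁻¹ = finComp v' u⁻¹ := by
            rw [← coe_finCompHom129, map_inv, hcomp_ne v' h, ← map_inv]; rfl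
          rw [e1, e2]
          exact hF v' (fun hm => (Finset.mem_insert.1 hm).elim h hv') i j
      · intro v' hv'
        have h : v' ≠ v := fun e => hv (e ▸ hv')
        rw [hcomp_ne v' h]
        exact hT v' (Finset.mem_insert_of_mem hv')
    have : u = u * ℓ⁻¹ * ℓ := by group
    rw [this]
    exact M.mul_mem hu' hℓM

/-! ## The infinite places -/

open scoped Classical in
/-- An element supported at the infinite places lies in the subgroup `M` as soon as its local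
parts do. -/
theorem infMk_mem439 (M : Subgroup (G K)) (m : ∀ w : InfinitePlace K, GL (Fin 2) w.Completion)
    (h : ∀ w : InfinitePlace K, locInf429 w (m w) ∈ M) : infMk429 K m ∈ M := by
  have key : m ∈ M.comap (infMk429 K) :=
    Subgroup.pi_mem_of_mulSingle_mem (H := M.comap (infMk429 K)) m (fun w => h w)
  exact key

/-! ## The basic right multipliers of an extendable function -/

theorem level_mem439 {𝔪 : Ideal (𝓞 K)} {Ψ : G K → ℂ} (hΨ : IsExtendable 𝔪 Ψ) {u : G K}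
    (hu : InLevelGroup 𝔪 u) : u ∈ multGrp439 Ψ :=
  mem_multGrp_of_inv439 (fun g => hΨ.1.level_inv u hu g)

theorem archCompact_mem439 {𝔪 : Ideal (𝓞 K)} {Ψ : G K → ℂ} (hΨ : IsExtendable 𝔪 Ψ)
    {w : InfinitePlace K} {k : G K} (hk : IsArchCompact w k) : k ∈ multGrp439 Ψ :=
  mem_multGrp_of_inv439 (fun g => hΨ.1.arch_compact w k hk g)

theorem archPos_mem439 {𝔪 : Ideal (𝓞 K)} {Ψ : G K → ℂ} (hΨ : IsExtendable 𝔪 Ψ)
    {w : InfinitePlace K} {z : G K} (hz : IsArchPosScalar w z) : z ∈ multGrp439 Ψ :=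
  mem_multGrp_of_inv439 (fun g => hΨ.1.arch_scalar w z hz g)

theorem scalarUnif_mem439 {𝔪 : Ideal (𝓞 K)} {Ψ : G K → ℂ} (hΨ : IsExtendable 𝔪 Ψ)
    {v : HeightOneSpectrum (𝓞 K)} (hv : ¬ v.asIdeal ∣ 𝔪) {z : G K}
    (hz : IsScalarUniformizerAt v z) : z ∈ multGrp439 Ψ := by
  obtain ⟨b, hb⟩ := hΨ.2 v hv
  exact ⟨b, hb z hz⟩

/-! ## Scalar matrices -/

section Scalar

variable {R : Type*} [CommRing R]

/-- The scalar matrices as a group homomorphism. -/
def scalarHom439 (R : Type*) [CommRing R] : Rˣ →* GL (Fin 2) R :=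
  Units.map (Matrix.scalar (Fin 2) : R →+* Matrix (Fin 2) (Fin 2) R).toMonoidHom

theorem scalarHom439_apply (c : Rˣ) : scalarHom439 R c = scalarG919 c := rfl

theorem scalarG919_inv439 (c : Rˣ) : (scalarG919 c)⁻¹ = scalarG919 c⁻¹ := by
  rw [← scalarHom439_apply, ← scalarHom439_apply, map_inv]

theorem scalarG919_mul439 (c d : Rˣ) : scalarG919 (c * d) = scalarG919 c * scalarG919 d := by
  rw [← scalarHom439_apply, ← scalarHom439_apply, ← scalarHom439_apply, map_mul]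

theorem scalarG919_zpow439 (c : Rˣ) (n : ℤ) : scalarG919 (c ^ n) = scalarG919 c ^ n := by
  rw [← scalarHom439_apply, ← scalarHom439_apply, map_zpow]

theorem scalarG919_one439 : scalarG919 (1 : Rˣ) = 1 := by
  rw [← scalarHom439_apply, map_one]

theorem map_scalarG919_439 {S : Type*} [CommRing S] (f : R →+* S) (c : Rˣ) :
    Matrix.GeneralLinearGroup.map f (scalarG919 c) = scalarG919 (Units.map f.toMonoidHom c) := by
  apply Units.ext
  ext i j
  rw [scalarG919_val]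
  show f ((scalarG919 c : Matrix (Fin 2) (Fin 2) R) i j) = _
  rw [scalarG919_val]
  by_cases hij : i = j
  · subst hij
    rw [Matrix.diagonal_apply_eq, Matrix.diagonal_apply_eq]
    rfl
  · rw [Matrix.diagonal_apply_ne _ hij, Matrix.diagonal_apply_ne _ hij, map_zero]

end Scalar

/-! ## Local scalars at a finite place prime to the level -/

/-- A local scalar matrix of a unit of `𝒪_v`, `v ∤ 𝔪`, lies in the level group. -/
theorem locFin_scalar_unit_level439 {𝔪 : Ideal (𝓞 K)} {v : HeightOneSpectrum (𝓞 K)}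
    (hv : ¬ v.asIdeal ∣ 𝔪) (d : (v.adicCompletion K)ˣ)
    (hd : Valued.v (d : v.adicCompletion K) = 1) :
    InLevelGroup 𝔪 (locFin129 v (scalarG919 d)) := by
  have key : ∀ e : (v.adicCompletion K)ˣ, Valued.v (e : v.adicCompletion K) = 1 →
      IsIntegralAt v (locFin129 v (scalarG919 e)) := by
    intro e he i j
    rw [finComp_locFin129, scalarG919_val]
    by_cases hij : i = j
    · subst hij
      rw [Matrix.diagonal_apply_eq, HeightOneSpectrum.mem_adicCompletionIntegers, he]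
    · rw [Matrix.diagonal_apply_ne _ hij]
      exact zero_mem _
  apply inLevelGroup_of_localMaxCpt129 hv
  refine ⟨isLocalAtFin_locFin129 v _, key d hd, ?_⟩
  rw [← map_inv, scalarG919_inv439]
  apply key
  rw [Units.val_inv_eq_inv_val, map_inv₀, hd, inv_one]

/-- Every local scalar matrix at `v ∤ 𝔪` is a right multiplier of an extendable function. -/
theorem locFin_scalar_mem439 {𝔪 : Ideal (𝓞 K)} {Ψ : G K → ℂ} (hΨ : IsExtendable 𝔪 Ψ)
    {v : HeightOneSpectrum (𝓞 K)} (hv : ¬ v.asIdeal ∣ 𝔪)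
    (hz : ∃ z : G K, IsScalarUniformizerAt v z) (c : (v.adicCompletion K)ˣ) :
    locFin129 v (scalarG919 c) ∈ multGrp439 Ψ := by
  obtain ⟨z, hzu⟩ := hz
  have hzM : z ∈ multGrp439 Ψ := scalarUnif_mem439 hΨ hv hzu
  obtain ⟨hloc, ϖ, hϖ, hzϖ⟩ := hzu
  have hϖ0 : ϖ ≠ 0 := unif_ne_zero129 v hϖ
  set p : (v.adicCompletion K)ˣ := Units.mk0 ϖ hϖ0 with hp
  have hz_eq : z = locFin129 v (scalarG919 p) := by
    rw [eq_locFin129_of_isLocalAtFin hloc]
    congr 1
    apply Units.ext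
    rw [coe_finCompHom129, hzϖ, scalarG919_val]
    rfl
  have hc0 : Valued.v (c : v.adicCompletion K) ≠ 0 :=
    (Valuation.ne_zero_iff _).2 c.ne_zero
  set n : ℤ := WithZero.log (Valued.v (c : v.adicCompletion K)) with hn
  have hcn : Valued.v (c : v.adicCompletion K) = WithZero.exp n := (WithZero.exp_log hc0).symm
  have hd : Valued.v (((c * p ^ n : (v.adicCompletion K)ˣ)) : v.adicCompletion K) = 1 := by
    rw [Units.val_mul, Units.val_zpow_eq_zpow_val, map_mul, map_zpow₀, hcn]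
    show WithZero.exp n * Valued.v ϖ ^ n = 1
    rw [hϖ, ← WithZero.exp_zsmul, ← WithZero.exp_add]
    simp
  have hlev := locFin_scalar_unit_level439 hv (c * p ^ n) hd
  have e : locFin129 v (scalarG919 c)
      = locFin129 v (scalarG919 (c * p ^ n)) * (z ^ n)⁻¹ := by
    rw [hz_eq, ← map_zpow, ← scalarG919_zpow439, ← map_inv, scalarG919_inv439, ← map_mul,
      ← scalarG919_mul439, mul_inv_cancel_right]
  rw [e]
  exact (multGrp439 Ψ).mul_mem (level_mem439 hΨ hlev)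
    ((multGrp439 Ψ).inv_mem ((multGrp439 Ψ).zpow_mem hzM n))

/-! ## Local scalars at an infinite place -/

theorem map_diagonal439 {R S : Type*} [CommRing R] [CommRing S] (f : R →+* S) (c : R) :
    (Matrix.diagonal (fun _ : Fin 2 => c)).map f = Matrix.diagonal (fun _ : Fin 2 => f c) := by
  ext i j
  rw [Matrix.map_apply]
  by_cases hij : i = j
  · subst hij
    rw [Matrix.diagonal_apply_eq, Matrix.diagonal_apply_eq]
  · rw [Matrix.diagonal_apply_ne _ hij, Matrix.diagonal_apply_ne _ hij, map_zero]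

/-- Every local scalar matrix at an infinite place is a right multiplier of an extendable
function: it is the product of a positive real scalar and of a scalar of absolute value `1`,
which lies in `U(2)`, resp. is `± 1 ∈ SO(2)`. -/
theorem locInf_scalar_mem439 {𝔪 : Ideal (𝓞 K)} {Ψ : G K → ℂ} (hΨ : IsExtendable 𝔪 Ψ)
    (w : InfinitePlace K) (c : (w.Completion)ˣ) :
    locInf429 w (scalarG919 c) ∈ multGrp439 Ψ := by
  set r : ℝ := ‖(c : w.Completion)‖ with hr
  have hr0 : 0 < r := norm_pos_iff.2 c.ne_zero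
  have hρ0 : realTo919 w r ≠ 0 := by
    intro h
    have h1 := norm_realTo919 w r
    rw [h, norm_zero] at h1
    exact hr0.ne' (abs_eq_zero.1 h1.symm)
  set ρ : (w.Completion)ˣ := Units.mk0 (realTo919 w r) hρ0 with hρ
  have hρv : (ρ : w.Completion) = realTo919 w r := rfl
  -- the positive scalar
  have hP : IsArchPosScalar w (locInf429 w (scalarG919 ρ)) := by
    refine ⟨isLocalAtInf_locInf429 w _, r, hr0, ?_⟩
    rw [infComp_locInf429, scalarG919_val, map_diagonal439, hρv, extensionEmbedding_realTo919]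
  -- the scalar of absolute value one
  set ζ : ℂ := InfinitePlace.Completion.extensionEmbedding w
    (((c * ρ⁻¹ : (w.Completion)ˣ)) : w.Completion) with hζ
  have hζ1 : ‖ζ‖ = 1 := by
    rw [hζ, norm_extensionEmbedding793, Units.val_mul, norm_mul, Units.val_inv_eq_inv_val,
      norm_inv, hρv, norm_realTo919, abs_of_pos hr0]
    exact mul_inv_cancel₀ hr0.ne'
  have hζ2 : ζ * (starRingEnd ℂ) ζ = 1 := by
    rw [Complex.mul_conj, Complex.normSq_eq_norm_sq, hζ1]
    simp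
  have hQ : IsArchCompact w (locInf429 w (scalarG919 (c * ρ⁻¹))) := by
    refine ⟨isLocalAtInf_locInf429 w _, ?_, ?_⟩
    · rw [infComp_locInf429, scalarG919_val, map_diagonal439, Matrix.diagonal_conjTranspose,
        Matrix.diagonal_mul_diagonal]
      have : (fun i : Fin 2 => ζ * star (fun _ : Fin 2 => ζ) i) = fun _ => (1 : ℂ) := by
        funext i
        exact hζ2
      rw [← hζ, this, Matrix.diagonal_one]
    · intro hw
      rw [infComp_locInf429, scalarG919_val, map_diagonal439, Matrix.det_diagonal,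
        Fin.prod_univ_two, ← hζ]
      have hreal : ζ = ((InfinitePlace.Completion.extensionEmbeddingOfIsReal hw
          (((c * ρ⁻¹ : (w.Completion)ˣ)) : w.Completion) : ℝ) : ℂ) := by
        rw [hζ, InfinitePlace.Completion.extensionEmbeddingOfIsReal_apply]
      have hconj : (starRingEnd ℂ) ζ = ζ := by
        rw [hreal, Complex.conj_ofReal]
      rw [hconj] at hζ2
      exact hζ2
  have e : locInf429 w (scalarG919 c)
      = locInf429 w (scalarG919 ρ) * locInf429 w (scalarG919 (c * ρ⁻¹)) := by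
    rw [← map_mul, ← scalarG919_mul439, mul_comm c, mul_inv_cancel_left]
  rw [e]
  exact (multGrp439 Ψ).mul_mem (archPos_mem439 hΨ hP) (archCompact_mem439 hΨ hQ)

/-! ## Central elements -/

/-- The components of a unit of the adele ring. -/
def unitF439 (v : HeightOneSpectrum (𝓞 K)) : (Adl K)ˣ →* (v.adicCompletion K)ˣ :=
  Units.map (evF129 v).toMonoidHom

/-- The components of a unit of the adele ring. -/
def unitI439 (w : InfinitePlace K) : (Adl K)ˣ →* (w.Completion)ˣ :=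
  Units.map (evI129 w).toMonoidHom

theorem unitF439_val (v : HeightOneSpectrum (𝓞 K)) (c : (Adl K)ˣ) :
    ((unitF439 v c : (v.adicCompletion K)ˣ) : v.adicCompletion K) = (c : Adl K).2 v := rfl

theorem unitI439_val (w : InfinitePlace K) (c : (Adl K)ˣ) :
    ((unitI439 w c : (w.Completion)ˣ) : w.Completion) = (c : Adl K).1 w := rfl

theorem finCompHom_scalar439 (v : HeightOneSpectrum (𝓞 K)) (c : (Adl K)ˣ) :
    finCompHom129 v (scalarG919 c) = scalarG919 (unitF439 v c) :=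
  map_scalarG919_439 (evF129 v) c

theorem infCompHom_scalar439 (w : InfinitePlace K) (c : (Adl K)ˣ) :
    infCompHom129 w (scalarG919 c) = scalarG919 (unitI439 w c) :=
  map_scalarG919_439 (evI129 w) c

/-- The components of an idele are units of `𝒪_v` at almost all `v`. -/
theorem finite_bad439 (c : (Adl K)ˣ) :
    {v : HeightOneSpectrum (𝓞 K) | ¬ Valued.v ((c : Adl K).2 v) = 1}.Finite := by
  have h1 : ∀ᶠ v : HeightOneSpectrum (𝓞 K) in Filter.cofinite,
      (c : Adl K).2 v ∈ v.adicCompletionIntegers K := (c : Adl K).2.2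
  have h2 : ∀ᶠ v : HeightOneSpectrum (𝓞 K) in Filter.cofinite,
      ((c⁻¹ : (Adl K)ˣ) : Adl K).2 v ∈ v.adicCompletionIntegers K :=
    ((c⁻¹ : (Adl K)ˣ) : Adl K).2.2
  have h3 : ∀ᶠ v : HeightOneSpectrum (𝓞 K) in Filter.cofinite,
      Valued.v ((c : Adl K).2 v) = 1 := by
    filter_upwards [h1, h2] with v hv1 hv2
    rw [HeightOneSpectrum.mem_adicCompletionIntegers] at hv1 hv2
    have e : ((c⁻¹ : (Adl K)ˣ) : Adl K).2 v = ((c : Adl K).2 v)⁻¹ := by
      rw [← unitF439_val, ← unitF439_val, map_inv, Units.val_inv_eq_inv_val]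
    rw [e, map_inv₀] at hv2
    have hne : Valued.v ((c : Adl K).2 v) ≠ 0 := by
      rw [← unitF439_val]
      exact (Valuation.ne_zero_iff _).2 (unitF439 v c).ne_zero
    exact le_antisymm hv1 ((inv_le_one₀ (zero_lt_iff.2 hne)).1 hv2)
  exact Filter.eventually_cofinite.1 h3

/-- **Central elements.**  The scalar matrix of an idele which is `1` at the places dividing `𝔪`
is a right multiplier of an extendable function of level `𝔪`. -/
theorem scalar_mem439 {𝔪 : Ideal (𝓞 K)} {Ψ : G K → ℂ} (hΨ : IsExtendable 𝔪 Ψ)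
    (hunif : ∀ v : HeightOneSpectrum (𝓞 K), ∃ z : G K, IsScalarUniformizerAt v z)
    (c : (Adl K)ˣ)
    (hc : ∀ v : HeightOneSpectrum (𝓞 K), v.asIdeal ∣ 𝔪 → (c : Adl K).2 v = 1) :
    scalarG919 c ∈ multGrp439 Ψ := by
  classical
  set zI : G K := infMk429 K (fun w => scalarG919 (unitI439 w c)) with hzI
  have hzIM : zI ∈ multGrp439 Ψ :=
    infMk_mem439 _ _ (fun w => locInf_scalar_mem439 hΨ w _)
  set zF : G K := scalarG919 c * zI⁻¹ with hzF
  have hFI : ∀ w : InfinitePlace K, infCompHom129 w zF = 1 := by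
    intro w
    rw [hzF, map_mul, map_inv, infCompHom_scalar439, hzI, infCompHom_infMk429, mul_inv_cancel]
  have hFF : ∀ v : HeightOneSpectrum (𝓞 K), finCompHom129 v zF = scalarG919 (unitF439 v c) := by
    intro v
    rw [hzF, map_mul, map_inv, finCompHom_scalar439, hzI, finCompHom_infMk429, inv_one, mul_one]
  have hzFM : zF ∈ multGrp439 Ψ := by
    refine mem_of_finset439 (multGrp439 Ψ) 𝔪 (fun u hu => level_mem439 hΨ hu)
      (finite_bad439 c).toFinset zF hFI ?_ ?_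
    · intro v hv i j
      rw [Set.Finite.mem_toFinset, Set.mem_ofPred_eq, not_not] at hv
      by_cases hdiv : v.asIdeal ∣ 𝔪
      · have h1 : unitF439 v c = 1 := Units.ext (by rw [unitF439_val, hc v hdiv]; rfl)
        have e1 : finComp v zF = 1 := by
          rw [← coe_finCompHom129, hFF, h1, scalarG919_one439]; rfl
        have e2 : finComp v zF⁻¹ = 1 := by
          rw [← coe_finCompHom129, map_inv, hFF, h1, scalarG919_one439, inv_one]; rfl
        rw [e1, e2, sub_self]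
        exact ⟨zero_mem_idealClosure129 𝔪 v, zero_mem_idealClosure129 𝔪 v⟩
      · have hlev := locFin_scalar_unit_level439 hdiv (unitF439 v c)
          (by rw [unitF439_val]; exact hv)
        have h := hlev.2 v i j
        have e1 : finComp v (locFin129 v (scalarG919 (unitF439 v c))) = finComp v zF := by
          rw [← coe_finCompHom129, ← coe_finCompHom129, finCompHom129_locFin129, hFF]
        have e2 : finComp v (locFin129 v (scalarG919 (unitF439 v c)))⁻¹ = finComp v zF⁻¹ := by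
          rw [← coe_finCompHom129, ← coe_finCompHom129, map_inv, map_inv,
            finCompHom129_locFin129, hFF]
        rw [e1, e2] at h
        exact h
    · intro v hv
      rw [Set.Finite.mem_toFinset, Set.mem_ofPred_eq] at hv
      have hdiv : ¬ v.asIdeal ∣ 𝔪 := by
        intro hdiv
        apply hv
        rw [hc v hdiv, map_one]
      rw [hFF]
      exact locFin_scalar_mem439 hΨ hdiv (hunif v) _
  have : scalarG919 c = zF * zI := by
    rw [hzF, inv_mul_cancel_right]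
  rw [this]
  exact (multGrp439 Ψ).mul_mem hzFM hzIM

end Fermat.Agent.LT.T2.H439

end

end
-- ===== PACK-END LT/T2/H439/Gen.lean

-- ===== PACK-BEGIN LT/T2/H23/Level.lean
section



/-!
# Row LT, tower T2, station T2.10, leaf T2.10.11 `TorusMatchC` (helper23) -- part 3: levels

OFF-MAIN.  Monotonicity of the level, `𝒪_v`-stability of the closure of an ideal, the level of a
right translate by a torus element.
-/

set_option autoImplicit false
set_option linter.unusedSectionVars false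
set_option linter.unusedVariables false
set_option linter.style.haveILetI false

open IsDedekindDomain NumberField IsDedekindDomain.HeightOneSpectrum
open Fermat.Agent.LT.H556.A0
open scoped MatrixGroups

noncomputable section

namespace Fermat.Agent.LT.T2.H23

open Fermat.Agent.LT Fermat.Agent.LT.T2.H941 Fermat.Agent.LT.T2 Fermat.Agent.LT.A2

variable {K : Type} [Field K] [NumberField K]

/-! ## 1. Monotonicity -/

theorem idealClosure_mono23 {𝔪 𝔫 : Ideal (𝓞 K)} (h : 𝔪 ≤ 𝔫) (v : HeightOneSpectrum (𝓞 K)) :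
    idealClosure 𝔪 v ⊆ idealClosure 𝔫 v :=
  closure_mono (Set.image_mono h)

theorem inLevelGroup_mono23 {𝔪 𝔫 : Ideal (𝓞 K)} (h : 𝔪 ≤ 𝔫) {u : G K}
    (hu : InLevelGroup 𝔪 u) : InLevelGroup 𝔫 u :=
  ⟨hu.1, fun v i j => ⟨idealClosure_mono23 h v (hu.2 v i j).1,
    idealClosure_mono23 h v (hu.2 v i j).2⟩⟩

theorem isLevel_mono23 {𝔪 𝔫 : Ideal (𝓞 K)} (h : 𝔪 ≤ 𝔫) {f : G K → ℂ} (hf : IsLevel 𝔫 f) :
    IsLevel 𝔪 f :=
  fun u hu g => hf u (inLevelGroup_mono23 h hu) g

theorem isLevel_smul23 {𝔫 : Ideal (𝓞 K)} (c : ℂ) {f : G K → ℂ} (hf : IsLevel 𝔫 f) :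
    IsLevel 𝔫 (fun x => c * f x) := by
  intro u hu g
  show c * f (g * u) = c * f g
  rw [hf u hu g]

theorem isLevel_sub23 {𝔫 : Ideal (𝓞 K)} {f₁ f₂ : G K → ℂ} (h₁ : IsLevel 𝔫 f₁)
    (h₂ : IsLevel 𝔫 f₂) : IsLevel 𝔫 (fun x => f₁ x - f₂ x) := by
  intro u hu g
  show f₁ (g * u) - f₂ (g * u) = f₁ g - f₂ g
  rw [h₁ u hu g, h₂ u hu g]

/-! ## 2. The closure of an ideal is stable under `𝒪_v` -/

theorem val_int23 (v : HeightOneSpectrum (𝓞 K)) (a : 𝓞 K) :
    Valued.v (((algebraMap (𝓞 K) K a : K) : v.adicCompletion K)) = v.intValuation a := by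
  rw [valuedAdicCompletion_eq_valuation', valuation_of_algebraMap]

theorem mul_mem_idealClosure23 {𝔫 : Ideal (𝓞 K)} {v : HeightOneSpectrum (𝓞 K)}
    {c : v.adicCompletion K} (hc : Valued.v c ≤ 1) {n : 𝓞 K} (hn : n ∈ 𝔫) :
    c * ((algebraMap (𝓞 K) K n : K) : v.adicCompletion K) ∈ idealClosure 𝔫 v := by
  unfold idealClosure
  rw [mem_closure_iff_nhds]
  intro t ht
  have hcont : Filter.Tendsto
      (fun z : v.adicCompletion K => z * ((algebraMap (𝓞 K) K n : K) : v.adicCompletion K))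
      (nhds c) (nhds (c * ((algebraMap (𝓞 K) K n : K) : v.adicCompletion K))) :=
    (continuous_mul_const _).tendsto c
  obtain ⟨a, ha⟩ := H333.exists_int_mem_nhds333 v hc (hcont ht)
  refine ⟨((algebraMap (𝓞 K) K a : K) : v.adicCompletion K)
    * ((algebraMap (𝓞 K) K n : K) : v.adicCompletion K), ha, a * n, 𝔫.mul_mem_left a hn, ?_⟩
  show algebraMap K (v.adicCompletion K) (algebraMap (𝓞 K) K (a * n))
    = algebraMap K (v.adicCompletion K) (algebraMap (𝓞 K) K a)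
      * algebraMap K (v.adicCompletion K) (algebraMap (𝓞 K) K n)
  rw [map_mul, map_mul]

theorem scale_mem_idealClosure23 {𝔫 : Ideal (𝓞 K)} {v : HeightOneSpectrum (𝓞 K)} (N : 𝓞 K)
    {τ : v.adicCompletion K}
    (hτ : Valued.v (τ * ((algebraMap (𝓞 K) K N : K) : v.adicCompletion K)) ≤ 1)
    {x : v.adicCompletion K} (hx : x ∈ idealClosure (Ideal.span {N} * 𝔫) v) :
    τ * x ∈ idealClosure 𝔫 v := by
  have hcl : IsClosed {x : v.adicCompletion K | τ * x ∈ idealClosure 𝔫 v} :=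
    (isClosed_closure (s := _)).preimage (continuous_const_mul τ)
  refine closure_minimal ?_ hcl hx
  rintro _ ⟨m, hm, rfl⟩
  obtain ⟨n, hn, rfl⟩ := Ideal.mem_span_singleton_mul.mp hm
  show τ * algebraMap K (v.adicCompletion K) (algebraMap (𝓞 K) K (N * n)) ∈ idealClosure 𝔫 v
  have e : τ * algebraMap K (v.adicCompletion K) (algebraMap (𝓞 K) K (N * n))
      = (τ * ((algebraMap (𝓞 K) K N : K) : v.adicCompletion K))
        * ((algebraMap (𝓞 K) K n : K) : v.adicCompletion K) := by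
    show τ * algebraMap K (v.adicCompletion K) (algebraMap (𝓞 K) K (N * n))
      = (τ * algebraMap K (v.adicCompletion K) (algebraMap (𝓞 K) K N))
        * algebraMap K (v.adicCompletion K) (algebraMap (𝓞 K) K n)
    rw [map_mul, map_mul]
    ring
  rw [e]
  exact mul_mem_idealClosure23 hτ hn

/-! ## 3. The level of a right translate by a torus element -/

theorem conj_diag23 {R : Type*} [CommRing R] (a b : R) (hba : b * a = 1)
    (U : Matrix (Fin 2) (Fin 2) R) :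
    !![b, 0; 0, 1] * U * !![a, 0; 0, 1] - 1
      = !![(U - 1) 0 0, b * (U - 1) 0 1; a * (U - 1) 1 0, (U - 1) 1 1] := by
  rw [Matrix.eta_fin_two U]
  simp only [Matrix.mul_fin_two, Matrix.one_fin_two, Matrix.sub_apply, Matrix.of_apply,
    Matrix.cons_val', Matrix.cons_val_zero, Matrix.cons_val_one, Matrix.cons_val_fin_one]
  ext i j
  fin_cases i <;> fin_cases j
  · simp
    rw [mul_comm b, mul_assoc, hba, mul_one]
  · simp
  · simp
    ring
  · simp

theorem conj_entries23 {𝔫 : Ideal (𝓞 K)} (N : 𝓞 K) (τ : (Adl K)ˣ)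
    (h1 : ∀ v : HeightOneSpectrum (𝓞 K),
      Valued.v ((τ : Adl K).2 v * ((algebraMap (𝓞 K) K N : K) : v.adicCompletion K)) ≤ 1)
    (h2 : ∀ v : HeightOneSpectrum (𝓞 K),
      Valued.v (((τ⁻¹ : (Adl K)ˣ) : Adl K).2 v
        * ((algebraMap (𝓞 K) K N : K) : v.adicCompletion K)) ≤ 1)
    (u : G K) (v : HeightOneSpectrum (𝓞 K))
    (hu : ∀ i j : Fin 2, (finComp v u - 1) i j ∈ idealClosure (Ideal.span {N} * 𝔫) v)
    (i j : Fin 2) :
    (finComp v ((tor τ)⁻¹ * u * tor τ) - 1) i j ∈ idealClosure 𝔫 v := by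
  have hle : Ideal.span {N} * 𝔫 ≤ 𝔫 := Ideal.mul_le_right
  have hba : ((τ⁻¹ : (Adl K)ˣ) : Adl K).2 v * (τ : Adl K).2 v = 1 := by
    rw [← H743.snd_mul743, Units.inv_mul, H743.snd_one743]
  rw [H333.finComp_mul333, H333.finComp_mul333, ← tor_inv23, finComp_tor23, finComp_tor23]
  set U := finComp v u with hU
  set a := (τ : Adl K).2 v with ha
  set b := ((τ⁻¹ : (Adl K)ˣ) : Adl K).2 v with hb
  have m00 := idealClosure_mono23 hle v (hu 0 0)
  have m01 := scale_mem_idealClosure23 N (h2 v) (hu 0 1)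
  have m10 := scale_mem_idealClosure23 N (h1 v) (hu 1 0)
  have m11 := idealClosure_mono23 hle v (hu 1 1)
  rw [conj_diag23 a b hba U]
  fin_cases i <;> fin_cases j
  · exact m00
  · exact m01
  · exact m10
  · exact m11

theorem isLevel_rt_tor23 {𝔫 : Ideal (𝓞 K)} (N : 𝓞 K) (τ : (Adl K)ˣ)
    (hI : ∀ w : InfinitePlace K, cI23 w τ = 1)
    (h1 : ∀ v : HeightOneSpectrum (𝓞 K),
      Valued.v ((τ : Adl K).2 v * ((algebraMap (𝓞 K) K N : K) : v.adicCompletion K)) ≤ 1)
    (h2 : ∀ v : HeightOneSpectrum (𝓞 K),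
      Valued.v (((τ⁻¹ : (Adl K)ˣ) : Adl K).2 v
        * ((algebraMap (𝓞 K) K N : K) : v.adicCompletion K)) ≤ 1)
    {f : G K → ℂ} (hf : IsLevel 𝔫 f) : IsLevel (Ideal.span {N} * 𝔫) (rt (tor τ) f) := by
  intro u hu g
  show f (g * u * tor τ) = f (g * tor τ)
  have e : g * u * tor τ = g * tor τ * ((tor τ)⁻¹ * u * tor τ) := by group
  rw [e]
  apply hf
  refine ⟨fun w => ?_, fun v i j => ⟨?_, ?_⟩⟩
  · exact trivAtInf_mul23 (trivAtInf_mul23 (trivAtInf_inv23 (trivAtInf_tor23 (hI w))) (hu.1 w))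
      (trivAtInf_tor23 (hI w))
  · exact conj_entries23 N τ h1 h2 u v (fun i j => (hu.2 v i j).1) i j
  · have e2 : ((tor τ)⁻¹ * u * tor τ)⁻¹ = (tor τ)⁻¹ * u⁻¹ * tor τ := by group
    rw [e2]
    exact conj_entries23 N τ h1 h2 u⁻¹ v (fun i j => (hu.2 v i j).2) i j

/-! ## 4. A scaling integer -/

theorem exists_notMem23 {v v₀ : HeightOneSpectrum (𝓞 K)} (h : v ≠ v₀) :
    ∃ p : 𝓞 K, p ∈ v.asIdeal ∧ p ∉ v₀.asIdeal := by
  by_contra hcon
  have hle : v.asIdeal ≤ v₀.asIdeal := fun p hp => by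
    by_contra hp'
    exact hcon ⟨p, hp, hp'⟩
  have := v.isMaximal.eq_of_le v₀.isPrime.ne_top hle
  exact h (HeightOneSpectrum.ext this)

theorem exists_scale23 (v₀ : HeightOneSpectrum (𝓞 K)) (S' : Finset (HeightOneSpectrum (𝓞 K)))
    (hv₀ : v₀ ∉ S') (τ : (Adl K)ˣ)
    (hτ : ∀ v : HeightOneSpectrum (𝓞 K), v ∉ S' → cF23 v τ = 1) :
    ∃ N : 𝓞 K, N ∉ v₀.asIdeal ∧
      (∀ v : HeightOneSpectrum (𝓞 K),
        Valued.v ((τ : Adl K).2 v * ((algebraMap (𝓞 K) K N : K) : v.adicCompletion K)) ≤ 1) ∧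
      ∀ v : HeightOneSpectrum (𝓞 K),
        Valued.v (((τ⁻¹ : (Adl K)ˣ) : Adl K).2 v
          * ((algebraMap (𝓞 K) K N : K) : v.adicCompletion K)) ≤ 1 := by
  classical
  have hex : ∀ v : HeightOneSpectrum (𝓞 K), ∃ p : 𝓞 K, v ∈ S' → p ∈ v.asIdeal ∧ p ∉ v₀.asIdeal := by
    intro v
    by_cases hv : v ∈ S'
    · obtain ⟨p, hp⟩ := exists_notMem23 (v := v) (v₀ := v₀) (fun e => hv₀ (e ▸ hv))
      exact ⟨p, fun _ => hp⟩
    · exact ⟨0, fun h => absurd h hv⟩
  choose π hπ using hex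
  set P : 𝓞 K := ∏ v ∈ S', π v with hP
  set k : ℕ := ∑ v ∈ S', (WithZero.log (Valued.v ((τ : Adl K).2 v))).natAbs with hk
  have hPv₀ : P ∉ v₀.asIdeal := by
    intro h
    obtain ⟨v, hv, hvm⟩ := (Ideal.IsPrime.prod_mem_iff (hp := v₀.isPrime)).1 h
    exact (hπ v hv).2 hvm
  have hPv : ∀ v ∈ S', P ∈ v.asIdeal := fun v hv =>
    Ideal.mem_of_dvd _ (Finset.dvd_prod_of_mem π hv) (hπ v hv).1
  have hNv : ∀ v ∈ S', Valued.v (((algebraMap (𝓞 K) K (P ^ k) : K) : v.adicCompletion K))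
      ≤ WithZero.exp (-(k : ℤ)) := by
    intro v hv
    rw [val_int23, intValuation_le_pow_iff_mem]
    exact Ideal.pow_mem_pow (hPv v hv) k
  have hN1 : ∀ v : HeightOneSpectrum (𝓞 K),
      Valued.v (((algebraMap (𝓞 K) K (P ^ k) : K) : v.adicCompletion K)) ≤ 1 := by
    intro v
    rw [val_int23]
    exact intValuation_le_one v _
  have hkv : ∀ v ∈ S', (WithZero.log (Valued.v ((τ : Adl K).2 v))).natAbs ≤ k := fun v hv =>
    Finset.single_le_sum (f := fun v => (WithZero.log (Valued.v ((τ : Adl K).2 v))).natAbs)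
      (fun _ _ => Nat.zero_le _) hv
  have hτ0 : ∀ v : HeightOneSpectrum (𝓞 K), Valued.v ((τ : Adl K).2 v) ≠ 0 := fun v =>
    (Valuation.ne_zero_iff _).2 (H743.idele_snd_ne_zero743 τ v)
  have hb1 : ∀ v ∈ S', Valued.v ((τ : Adl K).2 v) ≤ WithZero.exp (k : ℤ) := by
    intro v hv
    rw [← WithZero.exp_log (hτ0 v), WithZero.exp_le_exp]
    have := hkv v hv
    omega
  have hb2 : ∀ v ∈ S', Valued.v (((τ⁻¹ : (Adl K)ˣ) : Adl K).2 v) ≤ WithZero.exp (k : ℤ) := by
    intro v hv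
    have e := val_cF23_mul_inv23 v τ
    have e2 : Valued.v (((τ⁻¹ : (Adl K)ˣ) : Adl K).2 v) = (Valued.v ((τ : Adl K).2 v))⁻¹ :=
      eq_inv_of_mul_eq_one_right e
    rw [e2, ← WithZero.exp_log (hτ0 v), ← WithZero.exp_neg, WithZero.exp_le_exp]
    have := hkv v hv
    omega
  have hfin : ∀ (x : ∀ v : HeightOneSpectrum (𝓞 K), v.adicCompletion K),
      (∀ v ∈ S', Valued.v (x v) ≤ WithZero.exp (k : ℤ)) → (∀ v ∉ S', x v = 1) →
      ∀ v : HeightOneSpectrum (𝓞 K),
        Valued.v (x v * ((algebraMap (𝓞 K) K (P ^ k) : K) : v.adicCompletion K)) ≤ 1 := by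
    intro x hx1 hx2 v
    by_cases hv : v ∈ S'
    · rw [map_mul]
      calc Valued.v (x v) * Valued.v (((algebraMap (𝓞 K) K (P ^ k) : K) : v.adicCompletion K))
          ≤ WithZero.exp (k : ℤ) * WithZero.exp (-(k : ℤ)) := mul_le_mul' (hx1 v hv) (hNv v hv)
        _ = 1 := by rw [← WithZero.exp_add, add_neg_cancel, WithZero.exp_zero]
    · rw [hx2 v hv, one_mul]
      exact hN1 v
  refine ⟨P ^ k, fun h => hPv₀ (v₀.isPrime.mem_of_pow_mem k h), ?_, ?_⟩
  · exact hfin (fun v => (τ : Adl K).2 v) hb1 (fun v hv => (cF23_eq_one_iff23 v τ).mp (hτ v hv))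
  · refine hfin (fun v => ((τ⁻¹ : (Adl K)ˣ) : Adl K).2 v) hb2 (fun v hv => ?_)
    have := hτ v hv
    rw [← cF23_eq_one_iff23, map_inv, this, inv_one]

end Fermat.Agent.LT.T2.H23

end

end
-- ===== PACK-END LT/T2/H23/Level.lean

-- ===== PACK-BEGIN LT/T2/H23/Factor.lean
section



/-!
# Row LT, tower T2, station T2.10, leaf T2.10.11 `TorusMatchC` (helper23) -- part 4: factorisation

OFF-MAIN.  Two functions `W₁`, `W₂` on `GL₂(𝔸_K)` (the Whittaker coefficients of `φ`, `φ'`) which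
transform in the same way under the torus at every place outside a finite set `S` transform in the
same way under every idele which is trivial on `S`.
-/

set_option autoImplicit false
set_option linter.unusedSectionVars false
set_option linter.unusedVariables false
set_option linter.style.haveILetI false

open IsDedekindDomain NumberField IsDedekindDomain.HeightOneSpectrum
open Fermat.Agent.LT.H556.A0
open scoped MatrixGroups

noncomputable section

namespace Fermat.Agent.LT.T2.H23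

open Fermat.Agent.LT Fermat.Agent.LT.T2.H941 Fermat.Agent.LT.T2 Fermat.Agent.LT.A2

variable {K : Type} [Field K] [NumberField K]

/-- At every place the idele `Z` or the element `g` is trivial. -/
def Disj23 (Z : (Adl K)ˣ) (g : G K) : Prop :=
  (∀ v : HeightOneSpectrum (𝓞 K), cF23 v Z = 1 ∨ TrivAtFin v g) ∧
    ∀ w : InfinitePlace K, cI23 w Z = 1 ∨ TrivAtInf w g

/-- `W₁` and `W₂` are multiplied by the same factor under `diag(Z, 1)`. -/
def Fac23 (W₁ W₂ : G K → ℂ) (Z : (Adl K)ˣ) : Prop :=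
  ∃ Λ : ℂ, ∀ g : G K, Disj23 Z g → W₁ (tor Z * g) = Λ * W₁ g ∧ W₂ (tor Z * g) = Λ * W₂ g

variable {W₁ W₂ : G K → ℂ}

theorem fac_one23 : Fac23 W₁ W₂ (1 : (Adl K)ˣ) := by
  refine ⟨1, fun g _ => ?_⟩
  rw [tor_one23, one_mul, one_mul, one_mul]
  exact ⟨rfl, rfl⟩

theorem fac_mul23 {Z₁ Z₂ : (Adl K)ˣ} (h₁ : Fac23 W₁ W₂ Z₁) (h₂ : Fac23 W₁ W₂ Z₂)
    (hF : ∀ v : HeightOneSpectrum (𝓞 K), cF23 v Z₁ = 1 ∨ cF23 v Z₂ = 1)
    (hI : ∀ w : InfinitePlace K, cI23 w Z₁ = 1 ∨ cI23 w Z₂ = 1) : Fac23 W₁ W₂ (Z₁ * Z₂) := by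
  obtain ⟨Λ₁, H₁⟩ := h₁
  obtain ⟨Λ₂, H₂⟩ := h₂
  refine ⟨Λ₁ * Λ₂, fun g hg => ?_⟩
  have d2 : Disj23 Z₂ g := by
    refine ⟨fun v => ?_, fun w => ?_⟩
    · by_cases h : cF23 v Z₂ = 1
      · exact Or.inl h
      · right
        rcases hg.1 v with h' | h'
        · exfalso
          rcases hF v with h'' | h''
          · rw [map_mul, h'', one_mul] at h'
            exact h h'
          · exact h h''
        · exact h'
    · by_cases h : cI23 w Z₂ = 1
      · exact Or.inl h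
      · right
        rcases hg.2 w with h' | h'
        · exfalso
          rcases hI w with h'' | h''
          · rw [map_mul, h'', one_mul] at h'
            exact h h'
          · exact h h''
        · exact h'
  have d1 : Disj23 Z₁ (tor Z₂ * g) := by
    refine ⟨fun v => ?_, fun w => ?_⟩
    · by_cases h : cF23 v Z₁ = 1
      · exact Or.inl h
      · right
        have h2 : cF23 v Z₂ = 1 := (hF v).resolve_left h
        rcases hg.1 v with h' | h'
        · exfalso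
          rw [map_mul, h2, mul_one] at h'
          exact h h'
        · exact trivAtFin_mul23 (trivAtFin_tor23 h2) h'
    · by_cases h : cI23 w Z₁ = 1
      · exact Or.inl h
      · right
        have h2 : cI23 w Z₂ = 1 := (hI w).resolve_left h
        rcases hg.2 w with h' | h'
        · exfalso
          rw [map_mul, h2, mul_one] at h'
          exact h h'
        · exact trivAtInf_mul23 (trivAtInf_tor23 h2) h'
  obtain ⟨a1, a2⟩ := H₁ _ d1
  obtain ⟨b1, b2⟩ := H₂ _ d2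
  rw [tor_mul23, mul_assoc]
  exact ⟨by rw [a1, b1, mul_assoc], by rw [a2, b2, mul_assoc]⟩

theorem fac_pF23 (T : Finset (HeightOneSpectrum (𝓞 K)))
    (s : ∀ v : HeightOneSpectrum (𝓞 K), (v.adicCompletion K)ˣ)
    (h : ∀ v ∈ T, Fac23 W₁ W₂ (iF23 v (s v))) : Fac23 W₁ W₂ (pF23 T s) := by
  classical
  induction T using Finset.induction_on with
  | empty =>
    rw [pF23_empty23]
    exact fac_one23
  | insert a T ha ih =>
    rw [pF23_insert23 s ha]
    refine fac_mul23 (h a (Finset.mem_insert_self a T))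
      (ih fun v hv => h v (Finset.mem_insert_of_mem hv)) (fun v => ?_) (fun w => ?_)
    · by_cases hva : v = a
      · right
        rw [hva]
        exact cF23_pF23_of_notMem23 s ha
      · left
        exact cF23_iF23_ne23 a (s a) hva
    · left
      exact cI23_iF23 a (s a) w

theorem fac_pI23 (R : Finset (InfinitePlace K)) (t : ∀ w : InfinitePlace K, (w.Completion)ˣ)
    (h : ∀ w ∈ R, Fac23 W₁ W₂ (iI23 w (t w))) : Fac23 W₁ W₂ (pI23 R t) := by
  classical
  induction R using Finset.induction_on with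
  | empty =>
    rw [pI23_empty23]
    exact fac_one23
  | insert a R ha ih =>
    rw [pI23_insert23 t ha]
    refine fac_mul23 (h a (Finset.mem_insert_self a R))
      (ih fun w hw => h w (Finset.mem_insert_of_mem hw)) (fun v => ?_) (fun w => ?_)
    · left
      exact cF23_iI23 a (t a) v
    · by_cases hwa : w = a
      · right
        rw [hwa]
        exact cI23_pI23_of_notMem23 t ha
      · left
        exact cI23_iI23_ne23 a (t a) hwa

theorem fac_unit23 {𝔫 : Ideal (𝓞 K)} (hW₁ : IsLevel 𝔫 W₁) (hW₂ : IsLevel 𝔫 W₂) {U : (Adl K)ˣ}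
    (hI : ∀ w : InfinitePlace K, cI23 w U = 1)
    (hS : ∀ v : HeightOneSpectrum (𝓞 K), v.asIdeal ∣ 𝔫 → cF23 v U = 1)
    (hU : ∀ v : HeightOneSpectrum (𝓞 K), Valued.v ((U : Adl K).2 v) = 1) : Fac23 W₁ W₂ U := by
  refine ⟨1, fun g hg => ?_⟩
  have hc : tor U * g = g * tor U := by
    refine comm_of_disj23 (fun v => ?_) (fun w => ?_)
    · rcases hg.1 v with h | h
      · exact Or.inl (trivAtFin_tor23 h)
      · exact Or.inr h
    · exact Or.inl (trivAtInf_tor23 (hI w))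
  have hin := inLevelGroup_tor23 hI hS hU
  rw [hc, hW₁ _ hin g, hW₂ _ hin g, one_mul, one_mul]
  exact ⟨rfl, rfl⟩

/-- **Factorisation outside `S`.** -/
theorem fac_of_free23 {𝔫 : Ideal (𝓞 K)} (S : Finset (HeightOneSpectrum (𝓞 K)))
    (hS : ∀ v : HeightOneSpectrum (𝓞 K), v.asIdeal ∣ 𝔫 → v ∈ S)
    (hW₁ : IsLevel 𝔫 W₁) (hW₂ : IsLevel 𝔫 W₂)
    (hfin : ∀ v : HeightOneSpectrum (𝓞 K), v ∉ S → ∀ s : (v.adicCompletion K)ˣ,
      Fac23 W₁ W₂ (iF23 v s))
    (hinf : ∀ (w : InfinitePlace K) (t : (w.Completion)ˣ), Fac23 W₁ W₂ (iI23 w t))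
    (Z : (Adl K)ˣ) (hZ : ∀ v ∈ S, cF23 v Z = 1) : Fac23 W₁ W₂ Z := by
  classical
  set T : Finset (HeightOneSpectrum (𝓞 K)) := (finite_nonunit23 Z).toFinset with hT
  have hTmem : ∀ v : HeightOneSpectrum (𝓞 K), v ∈ T ↔ Valued.v ((Z : Adl K).2 v) ≠ 1 := by
    intro v
    rw [hT, Set.Finite.mem_toFinset]
    rfl
  have hTS : ∀ v ∈ T, v ∉ S := by
    intro v hv hvS
    apply (hTmem v).1 hv
    rw [(cF23_eq_one_iff23 v Z).mp (hZ v hvS), map_one]
  set A : (Adl K)ˣ := pI23 Finset.univ (fun w => cI23 w Z) with hA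
  set B : (Adl K)ˣ := pF23 T (fun v => cF23 v Z) with hB
  set U : (Adl K)ˣ := Z * (A * B)⁻¹ with hU
  have hZd : Z = A * (B * U) := by
    rw [hU, ← mul_assoc, mul_comm Z, mul_inv_cancel_left]
  have cIA : ∀ w : InfinitePlace K, cI23 w A = cI23 w Z := fun w =>
    cI23_pI23_of_mem23 _ (Finset.mem_univ w)
  have cFA : ∀ v : HeightOneSpectrum (𝓞 K), cF23 v A = 1 := fun v => cF23_pI23 _ _ v
  have cIB : ∀ w : InfinitePlace K, cI23 w B = 1 := fun w => cI23_pF23 _ _ w
  have cIU : ∀ w : InfinitePlace K, cI23 w U = 1 := by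
    intro w
    rw [hU, map_mul, map_inv, map_mul, cIA, cIB, mul_one, mul_inv_cancel]
  have cFU_mem : ∀ v ∈ T, cF23 v U = 1 := by
    intro v hv
    rw [hU, map_mul, map_inv, map_mul, cFA, one_mul, hB, cF23_pF23_of_mem23 _ hv, mul_inv_cancel]
  have cFU_not : ∀ v ∉ T, cF23 v U = cF23 v Z := by
    intro v hv
    rw [hU, map_mul, map_inv, map_mul, cFA, one_mul, hB, cF23_pF23_of_notMem23 _ hv, inv_one,
      mul_one]
  have hUu : ∀ v : HeightOneSpectrum (𝓞 K), Valued.v ((U : Adl K).2 v) = 1 := by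
    intro v
    by_cases hv : v ∈ T
    · rw [(cF23_eq_one_iff23 v U).mp (cFU_mem v hv), map_one]
    · have h1 : (U : Adl K).2 v = (Z : Adl K).2 v := by
        have := congrArg Units.val (cFU_not v hv)
        exact this
      rw [h1]
      by_contra hne
      exact hv ((hTmem v).2 hne)
  have hUS : ∀ v : HeightOneSpectrum (𝓞 K), v.asIdeal ∣ 𝔫 → cF23 v U = 1 := by
    intro v hv
    by_cases hvT : v ∈ T
    · exact cFU_mem v hvT
    · rw [cFU_not v hvT]
      exact hZ v (hS v hv)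
  have fA : Fac23 W₁ W₂ A := fac_pI23 _ _ fun w _ => hinf w _
  have fB : Fac23 W₁ W₂ B := fac_pF23 _ _ fun v hv => hfin v (hTS v hv) _
  have fU : Fac23 W₁ W₂ U := fac_unit23 hW₁ hW₂ cIU hUS hUu
  rw [hZd]
  refine fac_mul23 fA (fac_mul23 fB fU (fun v => ?_) (fun w => Or.inl (cIB w)))
    (fun v => Or.inl (cFA v)) (fun w => ?_)
  · by_cases hv : v ∈ T
    · exact Or.inr (cFU_mem v hv)
    · exact Or.inl (cF23_pF23_of_notMem23 _ hv)
  · right
    rw [map_mul, cIB, cIU, one_mul]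

/-- **Splitting off the part outside `S`.** -/
theorem split23 {𝔫 : Ideal (𝓞 K)} (S : Finset (HeightOneSpectrum (𝓞 K)))
    (hS : ∀ v : HeightOneSpectrum (𝓞 K), v.asIdeal ∣ 𝔫 → v ∈ S)
    (hW₁ : IsLevel 𝔫 W₁) (hW₂ : IsLevel 𝔫 W₂)
    (hfin : ∀ v : HeightOneSpectrum (𝓞 K), v ∉ S → ∀ s : (v.adicCompletion K)ˣ,
      Fac23 W₁ W₂ (iF23 v s))
    (hinf : ∀ (w : InfinitePlace K) (t : (w.Completion)ˣ), Fac23 W₁ W₂ (iI23 w t))
    (Y : (Adl K)ˣ) :
    ∃ Λ : ℂ, ∀ g : G K, (∀ w : InfinitePlace K, TrivAtInf w g) →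
      (∀ v : HeightOneSpectrum (𝓞 K), v ∉ S → TrivAtFin v g) →
      W₁ (tor Y * g) = Λ * W₁ (tor (pF23 S (fun v => cF23 v Y)) * g) ∧
        W₂ (tor Y * g) = Λ * W₂ (tor (pF23 S (fun v => cF23 v Y)) * g) := by
  set YS : (Adl K)ˣ := pF23 S (fun v => cF23 v Y) with hYS
  set Z : (Adl K)ˣ := Y * YS⁻¹ with hZ
  have hZS : ∀ v ∈ S, cF23 v Z = 1 := by
    intro v hv
    rw [hZ, map_mul, map_inv, hYS, cF23_pF23_of_mem23 _ hv, mul_inv_cancel]
  obtain ⟨Λ, hΛ⟩ := fac_of_free23 S hS hW₁ hW₂ hfin hinf Z hZS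
  refine ⟨Λ, fun g hgI hgF => ?_⟩
  have e : tor Y * g = tor Z * (tor YS * g) := by
    rw [← mul_assoc, ← tor_mul23, hZ, inv_mul_cancel_right]
  rw [e]
  refine hΛ _ ⟨fun v => ?_, fun w => ?_⟩
  · by_cases hv : v ∈ S
    · exact Or.inl (hZS v hv)
    · exact Or.inr (trivAtFin_mul23 (trivAtFin_tor23 (cF23_pF23_of_notMem23 _ hv)) (hgF v hv))
  · exact Or.inr (trivAtInf_mul23 (trivAtInf_tor23 (cI23_pF23 _ _ w)) (hgI w))

end Fermat.Agent.LT.T2.H23

end

end
-- ===== PACK-END LT/T2/H23/Factor.lean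

-- ===== PACK-BEGIN LT/T3/H174/Calc.lean
section




/-!
# Row LT, tower T3, leaf AS.2.6 `CalcC` (registry 1175) -- SPARE of helper174 (registry 1326)

OFF-MAIN.  Complete proofs, nothing assumed.  Imports: Mathlib and the byte-identical copies of
`LT/T3/H315/AbelCut.lean` (helper315@4ea336ee2, sha256 446d055e: the frozen Props `RegC`, `CalcC`)
with its closure (`H736/ASSpec` a661c778, `H614/AbelCalc` 2e11bd46, `EKSpec` d0ed12cc,
`Spec` 44de320b, `H556/A0` 66d3374a) and of `LT/T3/H166/SphCont.lean` (helper166@dbeec0cc8,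
sha256 ef0eb3dd).

RESULT: `calcC_of_reg174 : H315.RegC → H315.CalcC`.  `RegC` is a hypothesis of the top
`abelCplx_of315` anyway; it is used ONLY for the continuity of the integrand on `ℝ² × ℂ`
(hence its integrability, which Fubini needs).  So the top reads
`abelCplx_of315 hreg hn hs ha hi (calcC_of_reg174 hreg)`.

## Route

* `chD_iwa174`, `logdet_iwa174` : `chD614 (iwa s x) = cosh u + (e^u / 2) |x|²`, `u = s₁ - s₂`,
  `log |det (iwa s x)| = s₁ + s₂ =: c`;
* `inner174` : `∫_ℂ φ₀ F (iwa s x) dx = 2π e^{-u} G_c(u)`, `G_c(u) = ∫_{cosh u}^∞ φ₀ ρ_c`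
  (`integral_complex_affine_sq614` of helper614; no integrability needed);
* `integral_exp_gTail174` (ONE VARIABLE): `∫_ℝ 2π e^{-u} G(u) du = ∫_ℝ E` for every even test
  function `E`: `G` is even, so the integral is `4π ∫_0^∞ cosh u G(u) du`; integration by parts
  with the primitive `sinh u G(u)`, `G'(u) = - φ₀(cosh u) ρ(cosh u) sinh u = - u ρ(cosh u)`
  (`hasDerivAt_gTail174`, `sph0_cosh174`); `spherical_zero` of helper614;
* `sliceE_isEvenTest174` : the slices `E_c` of a symmetric bump are even test functions with a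
  uniform radius and vanish identically for `|c|` large; `hasCompactSupport_phi174` : the
  integrand is supported in an explicit box;
* `lin174` : the linear change of variables `(c, u) ↦ ((c+u)/2, (c-u)/2)` is applied to BOTH
  sides (`Measure.map_linearMap_addHaar_eq_smul_addHaar`), so its determinant cancels and is
  never computed; Fubini on both sides; the inner integrals agree by the one-variable identity.
-/

set_option autoImplicit false

open MeasureTheory Set Real Filter Topology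
open Fermat.Agent.LT.T3.H614 Fermat.Agent.LT.T3.H315 Fermat.Agent.LT.T3.AS
  Fermat.Agent.LT.T3.H166

noncomputable section

namespace Fermat.Agent.LT.T3.H174

/-! ## 1. The one-variable identity -/

/-- The radial integrand `φ₀ ρ`, `ρ = abelInv614 E`. -/
def gRad174 (E : ℝ → ℂ) (y : ℝ) : ℂ := ((sph0 y : ℝ) : ℂ) * abelInv614 E y

/-- The tail `G(u) = ∫_{cosh u}^∞ φ₀ ρ`. -/
def gTail174 (E : ℝ → ℂ) (u : ℝ) : ℂ := ∫ y in Ioi (cosh u), gRad174 E y

variable {E : ℝ → ℂ} {R : ℝ}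

theorem continuous_gRad174 (h : IsEvenTest614 E R) : Continuous (gRad174 E) :=
  (Complex.continuous_ofReal.comp continuous_sph0_166).mul h.continuous_abelInv

theorem gRad174_eq_zero (h : IsEvenTest614 E R) {y : ℝ} (hy : cosh R < y) : gRad174 E y = 0 := by
  unfold gRad174
  rw [h.abelInv_eq_zero hy, mul_zero]

theorem integrableOn_gRad174 (h : IsEvenTest614 E R) (a : ℝ) :
    IntegrableOn (gRad174 E) (Ioi a) := by
  have hc := continuous_gRad174 h
  have h1 : IntegrableOn (gRad174 E) (Ioc a (max a (cosh R))) :=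
    (hc.integrableOn_Icc (a := a) (b := max a (cosh R))).mono_set Ioc_subset_Icc_self
  have h2 : IntegrableOn (gRad174 E) (Ioi (max a (cosh R))) := by
    have : ∀ x ∈ Ioi (max a (cosh R)), gRad174 E x = (fun _ => (0 : ℂ)) x := by
      intro x hx
      exact gRad174_eq_zero h (lt_of_le_of_lt (le_max_right _ _) hx)
    exact (integrableOn_zero).congr_fun (fun x hx => (this x hx).symm) measurableSet_Ioi
  have := h1.union h2
  rwa [Ioc_union_Ioi_eq_Ioi (le_max_left _ _)] at this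

theorem integral_Ioi_gRad174_eq_zero (h : IsEvenTest614 E R) {a : ℝ} (ha : cosh R ≤ a) :
    ∫ y in Ioi a, gRad174 E y = 0 := by
  have : ∀ x ∈ Ioi a, gRad174 E x = (0 : ℂ) := fun x hx =>
    gRad174_eq_zero h (lt_of_le_of_lt ha hx)
  rw [setIntegral_congr_fun measurableSet_Ioi this]
  simp

/-- The tail is an interval integral with a fixed upper limit. -/
theorem gTail174_eq_interval (h : IsEvenTest614 E R) (u : ℝ) :
    gTail174 E u = ∫ y in (cosh u)..(cosh R), gRad174 E y := by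
  unfold gTail174
  rcases le_total (cosh u) (cosh R) with hle | hle
  · have := intervalIntegral.integral_Ioi_sub_Ioi (integrableOn_gRad174 h (cosh u)) hle
    rw [integral_Ioi_gRad174_eq_zero h le_rfl, sub_zero] at this
    exact this
  · rw [integral_Ioi_gRad174_eq_zero h hle, intervalIntegral.integral_symm]
    have := intervalIntegral.integral_Ioi_sub_Ioi (integrableOn_gRad174 h (cosh R)) hle
    rw [integral_Ioi_gRad174_eq_zero h le_rfl, integral_Ioi_gRad174_eq_zero h hle, sub_zero]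
      at this
    rw [← this, neg_zero]

theorem gTail174_neg (u : ℝ) : gTail174 E (-u) = gTail174 E u := by
  unfold gTail174
  rw [Real.cosh_neg]

theorem gTail174_eq_zero (h : IsEvenTest614 E R) {u : ℝ} (hu : |R| ≤ |u|) :
    gTail174 E u = 0 :=
  integral_Ioi_gRad174_eq_zero h (Real.cosh_le_cosh.2 hu)

theorem hasDerivAt_gTail174 (h : IsEvenTest614 E R) (u : ℝ) :
    HasDerivAt (gTail174 E) (sinh u • (-gRad174 E (cosh u))) u := by
  have hc := continuous_gRad174 h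
  have h1 : HasDerivAt (fun a => ∫ y in a..(cosh R), gRad174 E y) (-gRad174 E (cosh u))
      (cosh u) :=
    intervalIntegral.integral_hasDerivAt_left (hc.intervalIntegrable _ _)
      (hc.stronglyMeasurableAtFilter _ _) hc.continuousAt
  have h2 : HasDerivAt cosh (sinh u) u := Real.hasDerivAt_cosh u
  have h3 := h1.scomp u h2
  have e : gTail174 E = (fun a => ∫ y in a..(cosh R), gRad174 E y) ∘ cosh := by
    funext v
    exact gTail174_eq_interval h v
  rw [e]
  exact h3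

theorem continuous_gTail174 (h : IsEvenTest614 E R) : Continuous (gTail174 E) :=
  continuous_iff_continuousAt.2 fun u => (hasDerivAt_gTail174 h u).continuousAt

theorem sph0_cosh174 {u : ℝ} (hu : 0 < u) : sph0 (cosh u) = u / sinh u := by
  unfold sph0
  have h1 : ¬ cosh u ≤ 1 := not_le.2 (Real.one_lt_cosh.2 hu.ne')
  rw [if_neg h1, Real.arcosh_cosh hu.le]
  congr 1
  have : cosh u ^ 2 - 1 = sinh u ^ 2 := by
    have := Real.cosh_sq u
    linarith
  rw [this, Real.sqrt_sq (Real.sinh_nonneg_iff.2 hu.le)]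

/-- Continuous functions vanishing outside `[-|R|, |R|]` are integrable. -/
theorem integrable_of_zero_outside174 {f : ℝ → ℂ} (hf : Continuous f)
    (h0 : ∀ u : ℝ, |R| < |u| → f u = 0) : Integrable f := by
  apply hf.integrable_of_hasCompactSupport
  apply HasCompactSupport.of_support_subset_isCompact (isCompact_Icc (a := -|R|) (b := |R|))
  intro u hu
  rw [Function.mem_support] at hu
  rw [mem_Icc, ← abs_le]
  by_contra hcon
  exact hu (h0 u (not_le.1 hcon))

/-- Integration by parts: `∫_0^∞ cosh u G(u) du = ∫_0^∞ u sinh u ρ(cosh u) du`. -/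
theorem integral_cosh_gTail174 (h : IsEvenTest614 E R) :
    ∫ u in Ioi (0 : ℝ), cosh u • gTail174 E u
      = ∫ u in Ioi (0 : ℝ), (u * sinh u) • abelInv614 E (cosh u) := by
  have hGc := continuous_gTail174 h
  have hρc : Continuous fun u : ℝ => abelInv614 E (cosh u) :=
    h.continuous_abelInv.comp Real.continuous_cosh
  have hI1 : Integrable fun u : ℝ => cosh u • gTail174 E u := by
    refine integrable_of_zero_outside174 (R := R) (Real.continuous_cosh.smul hGc) ?_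
    intro u hu
    show cosh u • gTail174 E u = 0
    rw [gTail174_eq_zero h hu.le, smul_zero]
  have hI2 : Integrable fun u : ℝ => (u * sinh u) • abelInv614 E (cosh u) := by
    refine integrable_of_zero_outside174 (R := R)
      ((continuous_id.mul Real.continuous_sinh).smul hρc) ?_
    intro u hu
    show (u * sinh u) • abelInv614 E (cosh u) = 0
    rw [h.abelInv_eq_zero (Real.cosh_lt_cosh.2 hu), smul_zero]
  -- the primitive
  have hP : ∀ x ∈ Ici (0 : ℝ), HasDerivAt (fun u : ℝ => sinh u • gTail174 E u)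
      (cosh x • gTail174 E x + sinh x • (sinh x • (-gRad174 E (cosh x)))) x := by
    intro x _
    have := (Real.hasDerivAt_sinh x).smul (hasDerivAt_gTail174 h x)
    refine HasDerivAt.congr_deriv this ?_
    rw [add_comm]
  have hderiv : ∀ x ∈ Ioi (0 : ℝ),
      cosh x • gTail174 E x + sinh x • (sinh x • (-gRad174 E (cosh x)))
        = cosh x • gTail174 E x - (x * sinh x) • abelInv614 E (cosh x) := by
    intro x hx
    have hx0 : (0 : ℝ) < x := hx
    have hs : sinh x ≠ 0 := (Real.sinh_pos_iff.2 hx0).ne'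
    unfold gRad174
    rw [sph0_cosh174 hx0, sub_eq_add_neg]
    congr 1
    simp only [Complex.real_smul, Complex.ofReal_div, Complex.ofReal_mul]
    have hs' : ((sinh x : ℝ) : ℂ) ≠ 0 := by exact_mod_cast hs
    field_simp
  have hint : IntegrableOn (fun x : ℝ =>
      cosh x • gTail174 E x + sinh x • (sinh x • (-gRad174 E (cosh x)))) (Ioi 0) := by
    have : IntegrableOn (fun x : ℝ =>
        cosh x • gTail174 E x - (x * sinh x) • abelInv614 E (cosh x)) (Ioi 0) :=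
      (hI1.sub hI2).integrableOn
    exact this.congr_fun (fun x hx => (hderiv x hx).symm) measurableSet_Ioi
  have hlim : Tendsto (fun u : ℝ => sinh u • gTail174 E u) atTop (𝓝 0) := by
    apply tendsto_const_nhds.congr'
    filter_upwards [eventually_ge_atTop |R|, eventually_ge_atTop 0] with x hx hx0
    rw [gTail174_eq_zero h (by rw [abs_of_nonneg hx0]; exact hx), smul_zero]
  have key := integral_Ioi_of_hasDerivAt_of_tendsto' hP hint hlim
  rw [setIntegral_congr_fun measurableSet_Ioi hderiv,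
    integral_sub hI1.integrableOn hI2.integrableOn] at key
  simp only [Real.sinh_zero, zero_smul, sub_zero] at key
  exact sub_eq_zero.1 key

/-- `∫_ℝ f = ∫_0^∞ (f(u) + f(-u)) du`. -/
theorem integral_eq_integral_Ioi_add_neg174 {f : ℝ → ℂ} (hf : Integrable f) :
    ∫ u, f u = ∫ u in Ioi (0 : ℝ), (f u + f (-u)) := by
  rw [← intervalIntegral.integral_Iic_add_Ioi hf.integrableOn hf.integrableOn (b := 0)]
  have h1 := integral_comp_neg_Ioi (0 : ℝ) f
  rw [neg_zero] at h1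
  have hneg : IntegrableOn (fun u : ℝ => f (-u)) (Ioi 0) := (hf.comp_neg).integrableOn
  rw [integral_add hf.integrableOn hneg, h1, add_comm]

/-- **The one-variable identity**: `∫_ℝ 2π e^{-u} G(u) du = ∫_ℝ E`. -/
theorem integral_exp_gTail174 (h : IsEvenTest614 E R) :
    ∫ u : ℝ, (2 * π * rexp (-u)) • gTail174 E u = ∫ u, E u := by
  have hGc := continuous_gTail174 h
  have hI : Integrable fun u : ℝ => (2 * π * rexp (-u)) • gTail174 E u := by
    refine integrable_of_zero_outside174 (R := R)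
      ((continuous_const.mul (Real.continuous_exp.comp continuous_neg)).smul hGc) ?_
    intro u hu
    show (2 * π * rexp (-u)) • gTail174 E u = 0
    rw [gTail174_eq_zero h hu.le, smul_zero]
  rw [integral_eq_integral_Ioi_add_neg174 hI, ← h.spherical_zero, ← integral_cosh_gTail174 h,
    ← integral_smul]
  refine setIntegral_congr_fun measurableSet_Ioi (fun u _ => ?_)
  simp only [gTail174_neg, neg_neg]
  rw [← add_smul, smul_smul]
  congr 1
  rw [Real.cosh_eq]
  ring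

/-! ## 2. The slices of a symmetric bump -/

/-- The slices `E_c` are even test functions with a uniform support radius, and vanish
identically for `|c|` large. -/
theorem sliceE_isEvenTest174 {β : ℝ × ℝ → ℂ} (hβ : IsSymBump β) :
    ∃ R : ℝ, 0 < R ∧ (∀ c : ℝ, IsEvenTest614 (sliceE β c) R) ∧
      ∀ c : ℝ, R ≤ |c| → ∀ u : ℝ, sliceE β c u = 0 := by
  obtain ⟨hsm, hsupp, hsym⟩ := hβ
  obtain ⟨M, hM, hM0⟩ := hsupp.exists_pos_le_norm
  have key : ∀ a b : ℝ, (2 * M ≤ |a - b| ∨ 2 * M ≤ |a + b|) → β (a, b) = 0 := by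
    intro a b hab
    apply hM0
    rw [Prod.norm_def]
    by_contra hcon
    rw [not_le, max_lt_iff, Real.norm_eq_abs, Real.norm_eq_abs, abs_lt, abs_lt] at hcon
    obtain ⟨h1, h2⟩ := hcon
    rcases hab with hab | hab
    · have : |a - b| < 2 * M := by
        rw [abs_lt]
        constructor <;> linarith [h1.1, h1.2, h2.1, h2.2]
      linarith
    · have : |a + b| < 2 * M := by
        rw [abs_lt]
        constructor <;> linarith [h1.1, h1.2, h2.1, h2.2]
      linarith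
  refine ⟨2 * M, by positivity, fun c => ⟨?_, ?_, ?_⟩, ?_⟩
  · have h1 : ContDiff ℝ 2 β := by
      have := contDiff_infty.1 hsm 2
      exact_mod_cast this
    have h2 : ContDiff ℝ 2 (fun u : ℝ => ((c + u) / 2, (c - u) / 2)) := by fun_prop
    exact h1.comp h2
  · intro u
    unfold sliceE
    rw [hsym]
    congr 2
    ring
  · intro u hu
    unfold sliceE
    apply key
    left
    have : (c + u) / 2 - (c - u) / 2 = u := by ring
    rw [this]
    exact hu
  · intro c hc u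
    unfold sliceE
    apply key
    right
    have : (c + u) / 2 + (c - u) / 2 = c := by ring
    rw [this]
    exact hc

theorem abelInv614_zero174 (y : ℝ) : abelInv614 (fun _ : ℝ => (0 : ℂ)) y = 0 := by
  unfold abelInv614
  have h1 : deriv (fun _ : ℝ => (0 : ℂ)) = fun _ => 0 := by
    funext t
    exact deriv_const t 0
  split_ifs
  · rw [h1]
    have h2 : deriv (fun _ : ℝ => (0 : ℂ)) 0 = 0 := deriv_const 0 0
    rw [h2, smul_zero]
  · rw [h1, smul_zero]

/-! ## 3. The Iwasawa chart -/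

theorem chD_iwa174 (s : ℝ × ℝ) (x : ℂ) :
    chD614 ((iwa s x : GL (Fin 2) ℂ) : Matrix (Fin 2) (Fin 2) ℂ)
      = cosh (s.1 - s.2) + (rexp (s.1 - s.2) / 2) * ‖x‖ ^ 2 := by
  rw [iwa_coe]
  unfold chD614 hsq614
  rw [Matrix.det_fin_two_of]
  simp only [Matrix.of_apply, Matrix.cons_val', Matrix.cons_val_zero, Matrix.cons_val_one,
    Matrix.cons_val_fin_one, mul_zero, sub_zero, norm_mul, norm_zero, Complex.norm_real,
    Real.norm_eq_abs, abs_of_pos (Real.exp_pos _)]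
  rw [Real.cosh_eq, Real.exp_sub, neg_sub, Real.exp_sub]
  have h1 := Real.exp_pos s.1
  have h2 := Real.exp_pos s.2
  field_simp
  ring

theorem logdet_iwa174 (s : ℝ × ℝ) (x : ℂ) :
    Real.log ‖((iwa s x : GL (Fin 2) ℂ) : Matrix (Fin 2) (Fin 2) ℂ).det‖ = s.1 + s.2 := by
  rw [iwa_coe, Matrix.det_fin_two_of]
  simp only [mul_zero, sub_zero, norm_mul, Complex.norm_real, Real.norm_eq_abs,
    abs_of_pos (Real.exp_pos _)]
  rw [← Real.exp_add, Real.log_exp]

/-- The integrand of `CalcC` on `ℝ² × ℂ`. -/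
def phi174 (β : ℝ × ℝ → ℂ) (p : (ℝ × ℝ) × ℂ) : ℂ :=
  ((sph0 (chD614 ((iwa p.1 p.2 : GL (Fin 2) ℂ) : Matrix (Fin 2) (Fin 2) ℂ)) : ℝ) : ℂ)
    * abelFn β (iwa p.1 p.2)

theorem phi174_eq (β : ℝ × ℝ → ℂ) (s : ℝ × ℝ) (x : ℂ) :
    phi174 β (s, x) = gRad174 (sliceE β (s.1 + s.2))
      (cosh (s.1 - s.2) + (rexp (s.1 - s.2) / 2) * ‖x‖ ^ 2) := by
  unfold phi174 gRad174 abelFn
  simp only [chD_iwa174, logdet_iwa174]

/-- The inner integral in closed form. -/
theorem inner174 (β : ℝ × ℝ → ℂ) (s : ℝ × ℝ) :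
    ∫ x : ℂ, phi174 β (s, x)
      = (2 * π * rexp (-(s.1 - s.2))) • gTail174 (sliceE β (s.1 + s.2)) (s.1 - s.2) := by
  simp_rw [phi174_eq]
  rw [integral_complex_affine_sq614 (gRad174 _) _ (by positivity)]
  unfold gTail174
  congr 1
  rw [Real.exp_neg]
  have := Real.exp_pos (s.1 - s.2)
  field_simp

theorem continuous_iwa174 : Continuous fun p : (ℝ × ℝ) × ℂ => iwa p.1 p.2 := by
  rw [Units.continuous_iff]
  constructor
  · show Continuous fun p : (ℝ × ℝ) × ℂ =>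
      ((iwa p.1 p.2 : GL (Fin 2) ℂ) : Matrix (Fin 2) (Fin 2) ℂ)
    simp only [iwa_coe]
    refine continuous_matrix ?_
    intro i j
    fin_cases i <;> fin_cases j <;> simp <;> fun_prop
  · have e : (fun p : (ℝ × ℝ) × ℂ =>
        (((iwa p.1 p.2)⁻¹ : GL (Fin 2) ℂ) : Matrix (Fin 2) (Fin 2) ℂ))
        = fun p : (ℝ × ℝ) × ℂ => !![((rexp (-p.1.1) : ℝ) : ℂ),
            -(((rexp (-p.1.1) : ℝ) : ℂ) * (((rexp p.1.1 : ℝ) : ℂ) * p.2)
              * ((rexp (-p.1.2) : ℝ) : ℂ)); 0, ((rexp (-p.1.2) : ℝ) : ℂ)] := by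
      funext p
      show !![(((expU p.1.1)⁻¹ : ℂˣ) : ℂ),
          -((((expU p.1.1)⁻¹ : ℂˣ) : ℂ) * (((rexp p.1.1 : ℝ) : ℂ) * p.2)
            * (((expU p.1.2)⁻¹ : ℂˣ) : ℂ)); 0, (((expU p.1.2)⁻¹ : ℂˣ) : ℂ)] = _
      have hinv : ∀ t : ℝ, (((expU t)⁻¹ : ℂˣ) : ℂ) = ((rexp (-t) : ℝ) : ℂ) := by
        intro t
        rw [Units.val_inv_eq_inv_val, Real.exp_neg, Complex.ofReal_inv]
        rfl
      rw [hinv, hinv]
    rw [e]
    refine continuous_matrix ?_
    intro i j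
    fin_cases i <;> fin_cases j <;> simp <;> fun_prop

theorem continuous_phi174 (hreg : RegC) {β : ℝ × ℝ → ℂ} (hβ : IsSymBump β) :
    Continuous (phi174 β) := by
  have h1 : Continuous fun p : (ℝ × ℝ) × ℂ =>
      ((sph0 (chD614 ((iwa p.1 p.2 : GL (Fin 2) ℂ) : Matrix (Fin 2) (Fin 2) ℂ)) : ℝ) : ℂ) :=
    sphContC166.comp continuous_iwa174
  have h2 : Continuous fun p : (ℝ × ℝ) × ℂ => abelFn β (iwa p.1 p.2) :=
    (hreg β hβ).cont.comp continuous_iwa174
  exact h1.mul h2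

theorem hasCompactSupport_phi174 {β : ℝ × ℝ → ℂ} (hβ : IsSymBump β) :
    HasCompactSupport (phi174 β) := by
  obtain ⟨R, hR, hE, hzero⟩ := sliceE_isEvenTest174 hβ
  apply HasCompactSupport.of_support_subset_isCompact
    (K := (Icc (-R) R ×ˢ Icc (-R) R) ×ˢ Metric.closedBall (0 : ℂ) (√(2 * rexp R * cosh R)))
  · exact (isCompact_Icc.prod isCompact_Icc).prod (isCompact_closedBall _ _)
  · rintro ⟨s, x⟩ hp
    rw [Function.mem_support, phi174_eq] at hp
    have hc : |s.1 + s.2| < R := by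
      by_contra hcon
      rw [not_lt] at hcon
      apply hp
      have : sliceE β (s.1 + s.2) = fun _ => 0 := funext (hzero _ hcon)
      unfold gRad174
      rw [this, abelInv614_zero174, mul_zero]
    have hy : cosh (s.1 - s.2) + rexp (s.1 - s.2) / 2 * ‖x‖ ^ 2 ≤ cosh R := by
      by_contra hcon
      rw [not_le] at hcon
      exact hp (gRad174_eq_zero (hE _) hcon)
    have hpos : 0 ≤ rexp (s.1 - s.2) / 2 * ‖x‖ ^ 2 := by positivity
    have hu : |s.1 - s.2| ≤ R := by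
      have h1 : cosh (s.1 - s.2) ≤ cosh R := by linarith
      have := Real.cosh_le_cosh.1 h1
      rwa [abs_of_pos hR] at this
    have hx : ‖x‖ ^ 2 ≤ 2 * rexp R * cosh R := by
      have h1 : rexp (s.1 - s.2) / 2 * ‖x‖ ^ 2 ≤ cosh R := by
        linarith [Real.cosh_pos (s.1 - s.2)]
      have h2 : rexp (-R) ≤ rexp (s.1 - s.2) :=
        Real.exp_le_exp.2 (by linarith [(abs_le.1 hu).1])
      have h3 : rexp (-R) / 2 * ‖x‖ ^ 2 ≤ cosh R := by
        refine le_trans ?_ h1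
        gcongr
      have h4 : rexp R * rexp (-R) = 1 := by rw [← Real.exp_add, add_neg_cancel, Real.exp_zero]
      have h5 : ‖x‖ ^ 2 = 2 * rexp R * (rexp (-R) / 2 * ‖x‖ ^ 2) := by
        have : 2 * rexp R * (rexp (-R) / 2 * ‖x‖ ^ 2) = (rexp R * rexp (-R)) * ‖x‖ ^ 2 := by ring
        rw [this, h4, one_mul]
      rw [h5]
      have : 0 ≤ 2 * rexp R := by positivity
      exact mul_le_mul_of_nonneg_left h3 this
    rw [abs_lt] at hc
    rw [abs_le] at hu
    refine ⟨⟨⟨by linarith [hc.1, hu.1], by linarith [hc.2, hu.2]⟩,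
      ⟨by linarith [hc.1, hu.2], by linarith [hc.2, hu.1]⟩⟩, ?_⟩
    rw [Metric.mem_closedBall, dist_zero_right]
    exact Real.le_sqrt_of_sq_le hx

/-! ## 4. The linear change of variables -/

/-- `(c, u) ↦ ((c + u)/2, (c - u)/2)`. -/
def lin174 : (ℝ × ℝ) ≃ₗ[ℝ] (ℝ × ℝ) where
  toFun p := ((p.1 + p.2) / 2, (p.1 - p.2) / 2)
  invFun q := (q.1 + q.2, q.1 - q.2)
  map_add' := by
    intro p q
    ext
    · simp only [Prod.fst_add, Prod.snd_add]; ring
    · simp only [Prod.fst_add, Prod.snd_add]; ring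
  map_smul' := by
    intro r p
    ext
    · simp only [Prod.smul_fst, Prod.smul_snd, smul_eq_mul, RingHom.id_apply]; ring
    · simp only [Prod.smul_fst, Prod.smul_snd, smul_eq_mul, RingHom.id_apply]; ring
  left_inv := by
    intro p
    ext
    · dsimp only; ring
    · dsimp only; ring
  right_inv := by
    intro q
    ext
    · dsimp only; ring
    · dsimp only; ring

theorem lin174_apply (c u : ℝ) : lin174 (c, u) = ((c + u) / 2, (c - u) / 2) := rfl

theorem map_lin174 : ∃ κ : ENNReal, κ ≠ 0 ∧ κ ≠ ⊤ ∧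
    Measure.map (fun p : ℝ × ℝ => lin174 p) volume = κ • (volume : Measure (ℝ × ℝ)) := by
  have hdet : LinearMap.det (lin174 : (ℝ × ℝ) →ₗ[ℝ] (ℝ × ℝ)) ≠ 0 :=
    (LinearEquiv.isUnit_det' lin174).ne_zero
  refine ⟨ENNReal.ofReal |(LinearMap.det (lin174 : (ℝ × ℝ) →ₗ[ℝ] (ℝ × ℝ)))⁻¹|, ?_,
    ENNReal.ofReal_ne_top, ?_⟩
  · rw [Ne, ENNReal.ofReal_eq_zero, not_le]
    exact abs_pos.2 (inv_ne_zero hdet)
  · exact Measure.map_linearMap_addHaar_eq_smul_addHaar volume hdet

theorem measurableEmbedding_lin174 : MeasurableEmbedding (fun p : ℝ × ℝ => lin174 p) :=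
  lin174.toContinuousLinearEquiv.toHomeomorph.measurableEmbedding

/-! ## 5. The leaf -/

/-- **AS.2.6 `CalcC`** from the regularity leaf `RegC`. -/
theorem calcC_of_reg174 (hreg : RegC) : CalcC := by
  intro β hβ
  obtain ⟨R, hR, hE, hzero⟩ := sliceE_isEvenTest174 hβ
  have hΦi : Integrable (phi174 β)
      ((volume : Measure (ℝ × ℝ)).prod (volume : Measure ℂ)) :=
    (continuous_phi174 hreg hβ).integrable_of_hasCompactSupport (hasCompactSupport_phi174 hβ)
  have hH : Integrable (fun s : ℝ × ℝ => ∫ x : ℂ, phi174 β (s, x)) := hΦi.integral_prod_left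
  have hβi : Integrable β := hβ.1.continuous.integrable_of_hasCompactSupport hβ.2.1
  obtain ⟨κ, hκ0, hκt, hmap⟩ := map_lin174
  have hemb := measurableEmbedding_lin174
  have cv : ∀ F : ℝ × ℝ → ℂ, ∫ p, F (lin174 p) = κ.toReal • ∫ q, F q := by
    intro F
    rw [← hemb.integral_map, hmap, integral_smul_measure]
  have ci : ∀ F : ℝ × ℝ → ℂ, Integrable F → Integrable (fun p : ℝ × ℝ => F (lin174 p)) := by
    intro F hF
    have h1 : Integrable F (κ • (volume : Measure (ℝ × ℝ))) := hF.smul_measure hκt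
    rw [← hmap] at h1
    exact (hemb.integrable_map_iff).1 h1
  have hκr : κ.toReal ≠ 0 := (ENNReal.toReal_pos hκ0 hκt).ne'
  have main : ∫ p : ℝ × ℝ, (∫ x : ℂ, phi174 β (lin174 p, x))
      = ∫ p : ℝ × ℝ, β (lin174 p) := by
    have i1 := ci _ hH
    have i2 := ci _ hβi
    rw [Measure.volume_eq_prod] at i1 i2 ⊢
    rw [integral_prod _ i1, integral_prod _ i2]
    congr 1
    funext c
    have e1 : ∀ u : ℝ, (∫ x : ℂ, phi174 β (lin174 (c, u), x))
        = (2 * π * rexp (-u)) • gTail174 (sliceE β c) u := by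
      intro u
      rw [inner174, lin174_apply]
      have a1 : (c + u) / 2 - (c - u) / 2 = u := by ring
      have a2 : (c + u) / 2 + (c - u) / 2 = c := by ring
      simp only [a1, a2]
    simp only [e1]
    rw [integral_exp_gTail174 (hE c)]
    rfl
  have c1 : ∫ p : ℝ × ℝ, (∫ x : ℂ, phi174 β (lin174 p, x))
      = κ.toReal • ∫ s : ℝ × ℝ, ∫ x : ℂ, phi174 β (s, x) :=
    cv (fun s : ℝ × ℝ => ∫ x : ℂ, phi174 β (s, x))
  rw [c1, cv β] at main
  exact smul_right_injective ℂ hκr main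

end Fermat.Agent.LT.T3.H174

end

end
-- ===== PACK-END LT/T3/H174/Calc.lean

-- ===== PACK-BEGIN LT/T3/H245/PureReg.lean
section


/-!
# Row LT, tower T3, leaf T3.18a.3 `PureRegC` (helper245)

OFF-MAIN.  `pureReg245 (K) : Fermat.Agent.LT.T3.AS.PureRegC K`: the pure tensor
`f₀ ⊗ ⊗_w F_w ⊗ 1_{U^{S'}}` is continuous, of compact support, bi-invariant under `U(𝔫) K_∞`
and supported at `S' = {v₀} ∪ S_∞`.

* continuity: part B (`continuous_pureFn245`);
* compact support: the support lies in `boxG245 ρ a`, the set of `h ∈ GL₂(𝔸_K)` such that all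
  entries of `h` and of `h⁻¹` lie in the compact box `{|x_w| ≤ ρ} × a⁻¹ ∏_v 𝒪_v` (`a ∈ 𝓞 K`
  a common denominator of the finitely many representatives at `v₀`); this set is compact
  because `g ↦ (g, g⁻¹)` is a closed embedding of the units;
* bi-invariance: `OutsideU` is a subgroup which contains `U(𝔫)` and the elements supported at an
  infinite place, `U(𝔫)_{v₀} ⊆ GL₂(𝒪_{v₀})`, `F_w` is bi-`U(2)`-invariant.
-/

set_option autoImplicit false

open IsDedekindDomain NumberField MeasureTheory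
open Fermat.Agent.LT.H556.A0
open scoped RestrictedProduct

noncomputable section

namespace Fermat.Agent.LT.T3.H245

variable {K : Type} [Field K] [NumberField K]

/-! ## The compact boxes -/

/-- The box `{|x_w| ≤ ρ}` at the infinite places. -/
def boxInf245 (K : Type) [Field K] [NumberField K] (ρ : ℝ) : Set (InfiniteAdeleRing K) :=
  {x | ∀ w : InfinitePlace K, ‖InfinitePlace.Completion.extensionEmbedding w (x w)‖ ≤ ρ}

theorem isCompact_boxInf245 (ρ : ℝ) : IsCompact (boxInf245 K ρ) := by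
  have h : ∀ w : InfinitePlace K, IsCompact
      ((InfinitePlace.Completion.extensionEmbedding w) ⁻¹' Metric.closedBall (0 : ℂ) ρ) :=
    fun w => (InfinitePlace.Completion.isometry_extensionEmbedding w).isClosedEmbedding
      |>.isCompact_preimage (isCompact_closedBall 0 ρ)
  have hc := isCompact_univ_pi h
  have e : boxInf245 K ρ = Set.pi Set.univ
      (fun w : InfinitePlace K =>
        (InfinitePlace.Completion.extensionEmbedding w) ⁻¹' Metric.closedBall (0 : ℂ) ρ) := by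
    ext x
    constructor
    · intro hx w _
      exact mem_closedBall_zero_iff.2 (hx w)
    · intro hx w
      exact mem_closedBall_zero_iff.1 (hx w (Set.mem_univ w))
  rw [e]
  exact hc

/-- The box `a⁻¹ ∏_v 𝒪_v` at the finite places. -/
def boxFin245 (K : Type) [Field K] [NumberField K] (a : 𝓞 K) :
    Set (FiniteAdeleRing (𝓞 K) K) :=
  (fun y => algebraMap K (FiniteAdeleRing (𝓞 K) K) ((algebraMap (𝓞 K) K a)⁻¹) * y) ''
    {y | ∀ v : HeightOneSpectrum (𝓞 K), y v ∈ v.adicCompletionIntegers K}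

theorem isCompact_boxFin245 (a : 𝓞 K) : IsCompact (boxFin245 K a) := by
  have : ∀ v : HeightOneSpectrum (𝓞 K), CompactSpace (v.adicCompletionIntegers K) :=
    fun v => LT.H11.LC.compactSpace_integers_h11 K v
  have hr : IsCompact {y : FiniteAdeleRing (𝓞 K) K |
      ∀ v : HeightOneSpectrum (𝓞 K), y v ∈ v.adicCompletionIntegers K} := by
    have := isCompact_range (RestrictedProduct.isEmbedding_structureMap
      (R := fun v : HeightOneSpectrum (𝓞 K) => v.adicCompletion K)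
      (A := fun v : HeightOneSpectrum (𝓞 K) => v.adicCompletionIntegers K)
      (𝓕 := Filter.cofinite)).continuous
    rw [RestrictedProduct.range_structureMap] at this
    exact this
  exact hr.image (continuous_const.mul continuous_id)

theorem mem_boxFin245 {a : 𝓞 K} (ha : a ≠ 0) {x : FiniteAdeleRing (𝓞 K) K}
    (hx : ∀ v : HeightOneSpectrum (𝓞 K),
      toCompl245 K v a * x v ∈ v.adicCompletionIntegers K) : x ∈ boxFin245 K a := by
  have haK : algebraMap (𝓞 K) K a ≠ 0 := by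
    intro h
    exact ha ((map_eq_zero_iff _ (IsFractionRing.injective (𝓞 K) K)).1 h)
  refine ⟨algebraMap K (FiniteAdeleRing (𝓞 K) K) (algebraMap (𝓞 K) K a) * x, ?_, ?_⟩
  · intro v
    exact hx v
  · show algebraMap K (FiniteAdeleRing (𝓞 K) K) ((algebraMap (𝓞 K) K a)⁻¹)
      * (algebraMap K (FiniteAdeleRing (𝓞 K) K) (algebraMap (𝓞 K) K a) * x) = x
    rw [← mul_assoc, ← map_mul, inv_mul_cancel₀ haK, map_one, one_mul]

/-- The box in the adeles. -/
def boxAdl245 (K : Type) [Field K] [NumberField K] (ρ : ℝ) (a : 𝓞 K) : Set (Adl K) :=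
  {x | x.1 ∈ boxInf245 K ρ ∧ x.2 ∈ boxFin245 K a}

theorem isCompact_boxAdl245 (ρ : ℝ) (a : 𝓞 K) : IsCompact (boxAdl245 K ρ a) := by
  have h : IsCompact ((boxInf245 K ρ) ×ˢ (boxFin245 K a)) :=
    (isCompact_boxInf245 ρ).prod (isCompact_boxFin245 a)
  exact h

/-- The box in the matrices. -/
def boxMat245 (K : Type) [Field K] [NumberField K] (ρ : ℝ) (a : 𝓞 K) :
    Set (Matrix (Fin 2) (Fin 2) (Adl K)) :=
  {m | ∀ i j : Fin 2, m i j ∈ boxAdl245 K ρ a}

theorem isCompact_boxMat245 (ρ : ℝ) (a : 𝓞 K) : IsCompact (boxMat245 K ρ a) := by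
  have h : IsCompact (Set.pi Set.univ
      (fun _ : Fin 2 => Set.pi Set.univ (fun _ : Fin 2 => boxAdl245 K ρ a))) :=
    isCompact_univ_pi (fun _ => isCompact_univ_pi (fun _ => isCompact_boxAdl245 ρ a))
  have e : boxMat245 K ρ a = Set.pi Set.univ
      (fun _ : Fin 2 => Set.pi Set.univ (fun _ : Fin 2 => boxAdl245 K ρ a)) := by
    ext m
    constructor
    · intro hm i _ j _
      exact hm i j
    · intro hm i j
      exact hm i (Set.mem_univ i) j (Set.mem_univ j)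
  rw [e]
  exact h

/-- The box in `GL₂(𝔸_K)`: all entries of `h` and of `h⁻¹` in the box. -/
def boxG245 (K : Type) [Field K] [NumberField K] (ρ : ℝ) (a : 𝓞 K) : Set (G K) :=
  {h | (h : Matrix (Fin 2) (Fin 2) (Adl K)) ∈ boxMat245 K ρ a ∧
    ((h⁻¹ : G K) : Matrix (Fin 2) (Fin 2) (Adl K)) ∈ boxMat245 K ρ a}

theorem isCompact_boxG245 (ρ : ℝ) (a : 𝓞 K) : IsCompact (boxG245 K ρ a) := by
  have := LT.H11.LC.t2Space_adeleRing_h11 K
  have : T2Space (Matrix (Fin 2) (Fin 2) (Adl K)) := LT.H11.LC.t2Space_matrix_h11 _ _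
  have hemb := Units.isClosedEmbedding_embedProduct (α := Matrix (Fin 2) (Fin 2) (Adl K))
  have hc : IsCompact ((boxMat245 K ρ a) ×ˢ (MulOpposite.op '' (boxMat245 K ρ a))) :=
    (isCompact_boxMat245 ρ a).prod ((isCompact_boxMat245 ρ a).image MulOpposite.continuous_op)
  have h := hemb.isCompact_preimage hc
  have e : boxG245 K ρ a = (Units.embedProduct (Matrix (Fin 2) (Fin 2) (Adl K))) ⁻¹'
      ((boxMat245 K ρ a) ×ˢ (MulOpposite.op '' (boxMat245 K ρ a))) := by
    ext g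
    simp only [boxG245, Set.mem_ofPred_eq, Set.mem_preimage, Set.mem_prod,
      Units.embedProduct_apply, Set.mem_image, MulOpposite.op_inj, exists_eq_right]
  rw [e]
  exact h

/-! ## The local bounds -/

/-- The entries of `g` and `g⁻¹` are bounded on the support of a compactly supported function
on `GL₂(ℂ)`. -/
theorem exists_arch_bound245 {F : GL (Fin 2) ℂ → ℂ} (hF : HasCompactSupport F) :
    ∃ ρ : ℝ, ∀ g : GL (Fin 2) ℂ, F g ≠ 0 → ∀ i j : Fin 2,
      ‖(g : Matrix (Fin 2) (Fin 2) ℂ) i j‖ ≤ ρ ∧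
      ‖((g⁻¹ : GL (Fin 2) ℂ) : Matrix (Fin 2) (Fin 2) ℂ) i j‖ ≤ ρ := by
  have h1 : ∀ i j : Fin 2, ∃ c : ℝ, ∀ g ∈ tsupport F,
      ‖(g : Matrix (Fin 2) (Fin 2) ℂ) i j‖ ≤ c := fun i j =>
    IsCompact.exists_bound_of_continuousOn hF
      (Units.continuous_val.matrix_elem i j).continuousOn
  have h2 : ∀ i j : Fin 2, ∃ c : ℝ, ∀ g ∈ tsupport F,
      ‖((g⁻¹ : GL (Fin 2) ℂ) : Matrix (Fin 2) (Fin 2) ℂ) i j‖ ≤ c := fun i j =>
    IsCompact.exists_bound_of_continuousOn hF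
      ((Units.continuous_val.comp continuous_inv).matrix_elem i j).continuousOn
  choose c1 hc1 using h1
  choose c2 hc2 using h2
  obtain ⟨ρ, hρ⟩ := Finite.bddAbove_range
    (fun p : (Fin 2 × Fin 2) ⊕ (Fin 2 × Fin 2) =>
      Sum.elim (fun q : Fin 2 × Fin 2 => c1 q.1 q.2) (fun q : Fin 2 × Fin 2 => c2 q.1 q.2) p)
  refine ⟨ρ, fun g hg i j => ⟨?_, ?_⟩⟩
  · exact (hc1 i j g (subset_tsupport _ hg)).trans (hρ ⟨Sum.inl (i, j), rfl⟩)
  · exact (hc2 i j g (subset_tsupport _ hg)).trans (hρ ⟨Sum.inr (i, j), rfl⟩)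

/-- A common denominator on the support of `f₀`. -/
theorem exists_fin_bound245 {v : HeightOneSpectrum (𝓞 K)}
    {f₀ : GL (Fin 2) (v.adicCompletion K) → ℂ}
    (hR : ∃ R : Finset (GL (Fin 2) (v.adicCompletion K)), AS.IsRepSys v f₀ R) :
    ∃ a : 𝓞 K, a ≠ 0 ∧ ∀ g : GL (Fin 2) (v.adicCompletion K), f₀ g ≠ 0 → ∀ i j : Fin 2,
      toCompl245 K v a * (g : Matrix (Fin 2) (Fin 2) (v.adicCompletion K)) i j
        ∈ v.adicCompletionIntegers K ∧
      toCompl245 K v a * ((g⁻¹ : GL (Fin 2) (v.adicCompletion K)) :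
        Matrix (Fin 2) (Fin 2) (v.adicCompletion K)) i j ∈ v.adicCompletionIntegers K := by
  classical
  obtain ⟨R, hR⟩ := hR
  obtain ⟨a, ha0, ha⟩ := exists_common_denom245 v
    (R.biUnion fun r =>
      (Finset.univ.image fun p : Fin 2 × Fin 2 =>
          (r : Matrix (Fin 2) (Fin 2) (v.adicCompletion K)) p.1 p.2)
        ∪ (Finset.univ.image fun p : Fin 2 × Fin 2 =>
          ((r⁻¹ : GL (Fin 2) (v.adicCompletion K)) :
            Matrix (Fin 2) (Fin 2) (v.adicCompletion K)) p.1 p.2))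
  refine ⟨a, ha0, ?_⟩
  intro g hg i j
  obtain ⟨r, hr, hk⟩ := hR.2 g hg
  have har1 : ∀ i j : Fin 2,
      toCompl245 K v a * (r : Matrix (Fin 2) (Fin 2) (v.adicCompletion K)) i j
        ∈ v.adicCompletionIntegers K := by
    intro i j
    refine ha _ (Finset.mem_biUnion.2 ⟨r, hr, Finset.mem_union_left _ ?_⟩)
    exact Finset.mem_image.2 ⟨(i, j), Finset.mem_univ _, rfl⟩
  have har2 : ∀ i j : Fin 2,
      toCompl245 K v a * ((r⁻¹ : GL (Fin 2) (v.adicCompletion K)) :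
        Matrix (Fin 2) (Fin 2) (v.adicCompletion K)) i j ∈ v.adicCompletionIntegers K := by
    intro i j
    refine ha _ (Finset.mem_biUnion.2 ⟨r, hr, Finset.mem_union_right _ ?_⟩)
    exact Finset.mem_image.2 ⟨(i, j), Finset.mem_univ _, rfl⟩
  have hg' : g = r * (r⁻¹ * g) := by rw [mul_inv_cancel_left]
  have hginv : g⁻¹ = (r⁻¹ * g)⁻¹ * r⁻¹ := by rw [mul_inv_rev, inv_inv, mul_inv_cancel_right]
  constructor
  · rw [hg', Units.val_mul, Matrix.mul_apply, Fin.sum_univ_two, mul_add, ← mul_assoc,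
      ← mul_assoc]
    exact add_mem (mul_mem (har1 i 0) (hk 0 j).1) (mul_mem (har1 i 1) (hk 1 j).1)
  · rw [hginv, Units.val_mul, Matrix.mul_apply, Fin.sum_univ_two, mul_add, mul_left_comm,
      mul_left_comm (toCompl245 K v a)]
    exact add_mem (mul_mem (hk i 0).2 (har2 0 j)) (mul_mem (hk i 1).2 (har2 1 j))

/-! ## The components of the level group and of the archimedean compact groups -/

theorem infGL_eq_one245 {w : InfinitePlace K} {g : G K} (h : TrivAtInf w g) :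
    AS.infGL K w g = 1 := by
  apply Units.ext
  refine Matrix.ext fun i j => ?_
  show InfinitePlace.Completion.extensionEmbedding w
    (((g : Matrix (Fin 2) (Fin 2) (Adl K)) i j).1 w) = (1 : Matrix (Fin 2) (Fin 2) ℂ) i j
  rw [h i j, Matrix.one_apply, Matrix.one_apply]
  split_ifs
  · exact map_one _
  · exact map_zero _

theorem finGL_eq_one245 {v : HeightOneSpectrum (𝓞 K)} {g : G K} (h : TrivAtFin v g) :
    AS.finGL K v g = 1 := by
  apply Units.ext
  exact h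

theorem finGL_mem_locU_of_level245 {𝔫 : Ideal (𝓞 K)} {u : G K} (hu : InLevelGroup 𝔫 u)
    (v : HeightOneSpectrum (𝓞 K)) : AS.finGL K v u ∈ locU245 𝔫 v := by
  intro i j
  refine ⟨(hu.2 v i j).1, ?_⟩
  rw [← map_inv]
  exact (hu.2 v i j).2

theorem level_mem_outU245 {𝔫 : Ideal (𝓞 K)} {v₀ : HeightOneSpectrum (𝓞 K)} {u : G K}
    (hu : InLevelGroup 𝔫 u) : u ∈ outU245 𝔫 v₀ :=
  outsideU_iff245.2 fun v _ => finGL_mem_locU_of_level245 hu v

theorem arch_mem_outU245 {𝔫 : Ideal (𝓞 K)} {v₀ : HeightOneSpectrum (𝓞 K)}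
    {w : InfinitePlace K} {k : G K} (hk : IsLocalAtInf w k) : k ∈ outU245 𝔫 v₀ :=
  outsideU_iff245.2 fun v _ => by
    rw [finGL_eq_one245 (hk.2 v)]
    exact one_mem _

theorem pureFn_congr245 {𝔫 : Ideal (𝓞 K)} {v₀ : HeightOneSpectrum (𝓞 K)}
    {f₀ : GL (Fin 2) (v₀.adicCompletion K) → ℂ} {F : InfinitePlace K → GL (Fin 2) ℂ → ℂ}
    {h h' : G K} (h1 : AS.OutsideU K 𝔫 v₀ h ↔ AS.OutsideU K 𝔫 v₀ h')
    (h2 : f₀ (AS.finGL K v₀ h) = f₀ (AS.finGL K v₀ h'))
    (h3 : ∀ w, F w (AS.infGL K w h) = F w (AS.infGL K w h')) :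
    AS.pureFn K 𝔫 v₀ f₀ F h = AS.pureFn K 𝔫 v₀ f₀ F h' := by
  unfold AS.pureFn
  by_cases hh : AS.OutsideU K 𝔫 v₀ h
  · rw [if_pos hh, if_pos (h1.1 hh), h2]
    congr 1
    exact Finset.prod_congr rfl fun w _ => h3 w
  · rw [if_neg hh, if_neg (fun H => hh (h1.2 H))]

theorem outsideU_of_pureFn_ne_zero245 {𝔫 : Ideal (𝓞 K)} {v₀ : HeightOneSpectrum (𝓞 K)}
    {f₀ : GL (Fin 2) (v₀.adicCompletion K) → ℂ} {F : InfinitePlace K → GL (Fin 2) ℂ → ℂ}
    {h : G K} (hh : AS.pureFn K 𝔫 v₀ f₀ F h ≠ 0) : AS.OutsideU K 𝔫 v₀ h := by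
  by_contra hO
  apply hh
  unfold AS.pureFn
  rw [if_neg hO]

/-! ## Bi-invariance -/

theorem isBiInv_pureFn245 {𝔫 : Ideal (𝓞 K)} {v₀ : HeightOneSpectrum (𝓞 K)}
    {f₀ : GL (Fin 2) (v₀.adicCompletion K) → ℂ} {F : InfinitePlace K → GL (Fin 2) ℂ → ℂ}
    (hf₀ : AS.IsBiIntInv v₀ f₀) (hF : ∀ w, AS.IsCplxTest (F w)) :
    IsBiInv K 𝔫 (AS.pureFn K 𝔫 v₀ f₀ F) := by
  have hone := isIntGL_one245 v₀
  have hU1 : AS.IsUnitary2 (1 : GL (Fin 2) ℂ) := by
    simp [AS.IsUnitary2]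
  refine ⟨?_, ?_⟩
  · intro u hu h
    have huo : u ∈ outU245 𝔫 v₀ := level_mem_outU245 hu
    have hk : AS.IsIntGL v₀ (AS.finGL K v₀ u) :=
      isIntGL_of_mem_locU245 (finGL_mem_locU_of_level245 hu v₀)
    have hinf : ∀ w, AS.infGL K w u = 1 := fun w => infGL_eq_one245 (hu.1 w)
    refine ⟨pureFn_congr245 ?_ ?_ ?_, pureFn_congr245 ?_ ?_ ?_⟩
    · exact Subgroup.mul_mem_cancel_left _ huo
    · rw [map_mul]
      have := hf₀ (AS.finGL K v₀ u) 1 (AS.finGL K v₀ h) hk hone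
      rwa [mul_one] at this
    · intro w
      rw [map_mul, hinf w, one_mul]
    · exact Subgroup.mul_mem_cancel_right _ huo
    · rw [map_mul]
      have := hf₀ 1 (AS.finGL K v₀ u) (AS.finGL K v₀ h) hone hk
      rwa [one_mul] at this
    · intro w
      rw [map_mul, hinf w, mul_one]
  · intro w k hk h
    have hko : k ∈ outU245 𝔫 v₀ := arch_mem_outU245 hk.1
    have hfin : AS.finGL K v₀ k = 1 := finGL_eq_one245 (hk.1.2 v₀)
    have hinf : ∀ w', w' ≠ w → AS.infGL K w' k = 1 :=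
      fun w' hw' => infGL_eq_one245 (hk.1.1 w' hw')
    have hun : AS.IsUnitary2 (AS.infGL K w k) := hk.2.1
    refine ⟨pureFn_congr245 ?_ ?_ ?_, pureFn_congr245 ?_ ?_ ?_⟩
    · exact Subgroup.mul_mem_cancel_left _ hko
    · rw [map_mul, hfin, one_mul]
    · intro w'
      rw [map_mul]
      by_cases hw' : w' = w
      · subst hw'
        have := (hF w').bi_inv (AS.infGL K w' k) 1 (AS.infGL K w' h) hun hU1
        rwa [mul_one] at this
      · rw [hinf w' hw', one_mul]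
    · exact Subgroup.mul_mem_cancel_right _ hko
    · rw [map_mul, hfin, mul_one]
    · intro w'
      rw [map_mul]
      by_cases hw' : w' = w
      · subst hw'
        have := (hF w').bi_inv 1 (AS.infGL K w' k) (AS.infGL K w' h) hU1 hun
        rwa [one_mul] at this
      · rw [hinf w' hw', mul_one]

/-! ## Compact support -/

theorem hasCompactSupport_pureFn245 {𝔫 : Ideal (𝓞 K)} {v₀ : HeightOneSpectrum (𝓞 K)}
    {f₀ : GL (Fin 2) (v₀.adicCompletion K) → ℂ} {F : InfinitePlace K → GL (Fin 2) ℂ → ℂ}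
    (hR : ∃ R : Finset (GL (Fin 2) (v₀.adicCompletion K)), AS.IsRepSys v₀ f₀ R)
    (hF : ∀ w, HasCompactSupport (F w)) :
    HasCompactSupport (AS.pureFn K 𝔫 v₀ f₀ F) := by
  have := LT.H11.LC.t2Space_GL2_adeleRing_h11 K
  obtain ⟨a, ha0, ha⟩ := exists_fin_bound245 hR
  have hρ' := fun w => exists_arch_bound245 (hF w)
  choose ρ' hρ' using hρ'
  obtain ⟨ρ, hρ⟩ := Finite.bddAbove_range ρ'
  refine HasCompactSupport.intro (isCompact_boxG245 ρ a) ?_
  intro h hh
  by_contra hne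
  apply hh
  have hO : AS.OutsideU K 𝔫 v₀ h := outsideU_of_pureFn_ne_zero245 hne
  have hval : AS.pureFn K 𝔫 v₀ f₀ F h
      = f₀ (AS.finGL K v₀ h) * ∏ w : InfinitePlace K, F w (AS.infGL K w h) := by
    unfold AS.pureFn
    rw [if_pos hO]
  rw [hval] at hne
  have hf : f₀ (AS.finGL K v₀ h) ≠ 0 := left_ne_zero_of_mul hne
  have hFw : ∀ w, F w (AS.infGL K w h) ≠ 0 := fun w =>
    (Finset.prod_ne_zero_iff.1 (right_ne_zero_of_mul hne)) w (Finset.mem_univ w)
  have key : ∀ g : G K,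
      (∀ (w : InfinitePlace K) (i j : Fin 2),
        ‖((AS.infGL K w g : GL (Fin 2) ℂ) : Matrix (Fin 2) (Fin 2) ℂ) i j‖ ≤ ρ) →
      (∀ (v : HeightOneSpectrum (𝓞 K)) (i j : Fin 2),
        toCompl245 K v a * ((AS.finGL K v g : GL (Fin 2) (v.adicCompletion K)) :
          Matrix (Fin 2) (Fin 2) (v.adicCompletion K)) i j ∈ v.adicCompletionIntegers K) →
      (g : Matrix (Fin 2) (Fin 2) (Adl K)) ∈ boxMat245 K ρ a := by
    intro g h1 h2 i j
    exact ⟨fun w => h1 w i j, mem_boxFin245 ha0 fun v => h2 v i j⟩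
  have hloc := outsideU_iff245.1 hO
  refine ⟨key h ?_ ?_, key h⁻¹ ?_ ?_⟩
  · intro w i j
    exact ((hρ' w _ (hFw w) i j).1).trans (hρ ⟨w, rfl⟩)
  · intro v i j
    by_cases hv : v = v₀
    · subst hv
      exact (ha _ hf i j).1
    · exact mul_mem (toCompl245_mem_integers K v a)
        ((isIntGL_of_mem_locU245 (hloc v hv)) i j).1
  · intro w i j
    rw [map_inv]
    exact ((hρ' w _ (hFw w) i j).2).trans (hρ ⟨w, rfl⟩)
  · intro v i j
    rw [map_inv]
    by_cases hv : v = v₀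
    · subst hv
      exact (ha _ hf i j).2
    · exact mul_mem (toCompl245_mem_integers K v a)
        ((isIntGL_of_mem_locU245 (hloc v hv)) i j).2

/-! ## The leaf -/

/-- **T3.18a.3 = AS.3 `PureRegC`.** -/
theorem pureReg245 (K : Type) [Field K] [NumberField K] : AS.PureRegC K := by
  intro 𝔫 h𝔫 v₀ _ f₀ F hf₀ hR hF
  exact ⟨continuous_pureFn245 h𝔫 v₀ hf₀ (fun w => (hF w).cont),
    hasCompactSupport_pureFn245 hR (fun w => (hF w).supp),
    isBiInv_pureFn245 hf₀ hF,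
    fun _ hh => outsideU_of_pureFn_ne_zero245 hh⟩

end Fermat.Agent.LT.T3.H245

end
end
-- ===== PACK-END LT/T3/H245/PureReg.lean

-- ===== PACK-BEGIN LT/T6/H305/Rec.lean
section


/-!
# Row LT, tower T6, leaf T6.10 `SatakeEigenC` (helper305) -- part 6: the Hecke recursion

OFF-MAIN.  `Aall n` = sum over ALL Hermite forms `[[ϖ^i, r], [0, ϖ^j]]`, `i + j = n` (the classical
`T(𝔭ⁿ)`), `Pprim n` = sum over the primitive ones (`1_{K diag(ϖⁿ,1) K}`).  For a right
`GL₂(𝒪)`-invariant eigenfunction of `T` and `S`: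
`t · Aall (n+1) = Aall (n+2) + q s · Aall n`, `Aall (n+2) = Pprim (n+2) + s · Aall n`.
-/

set_option autoImplicit false
set_option linter.unusedSectionVars false
set_option linter.unusedSimpArgs false
set_option linter.unnecessarySeqFocus false

open scoped Matrix
open scoped Classical

noncomputable section

namespace Fermat.Agent.LT.T6.H305

open Fermat.Agent.LT.T6

variable {k : Type} [Field k] [Valued k Γ₀]

theorem sum_ad_succ (f : ℕ → ℕ → ℂ) (n : ℕ) :
    ∑ p ∈ Finset.HasAntidiagonal.antidiagonal (n + 1), f p.1 p.2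
      = f 0 (n + 1) + ∑ p ∈ Finset.HasAntidiagonal.antidiagonal n, f (p.1 + 1) p.2 :=
  Finset.Nat.sum_antidiagonal_succ (f := fun p => f p.1 p.2)

theorem sum_ad_succ' (f : ℕ → ℕ → ℂ) (n : ℕ) :
    ∑ p ∈ Finset.HasAntidiagonal.antidiagonal (n + 1), f p.1 p.2
      = f (n + 1) 0 + ∑ p ∈ Finset.HasAntidiagonal.antidiagonal n, f p.1 (p.2 + 1) :=
  Finset.Nat.sum_antidiagonal_succ' (f := fun p => f p.1 p.2)

namespace ResData

variable (D : ResData k)

theorem R_zero : D.R 0 = {0} := rfl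

/-- The inner sum over all `r ∈ R i`. -/
def Fall (Φ : GL (Fin 2) k → ℂ) (g : GL (Fin 2) k) (i j : ℕ) : ℂ :=
  ∑ r ∈ D.R i, Φ (g * D.um i j r)

/-- The inner sum over the primitive `r ∈ R i`. -/
def Fprim (Φ : GL (Fin 2) k → ℂ) (g : GL (Fin 2) k) (i j : ℕ) : ℂ :=
  ∑ r ∈ (D.R i).filter (fun r => Prim i j r), Φ (g * D.um i j r)

/-- The inner sum over the non-primitive `r ∈ R i`. -/
def Fnon (Φ : GL (Fin 2) k → ℂ) (g : GL (Fin 2) k) (i j : ℕ) : ℂ :=
  ∑ r ∈ (D.R i).filter (fun r => ¬ Prim i j r), Φ (g * D.um i j r)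

/-- Sum over all Hermite forms of determinant `ϖⁿ`. -/
def Aall (Φ : GL (Fin 2) k → ℂ) (n : ℕ) (g : GL (Fin 2) k) : ℂ :=
  ∑ p ∈ Finset.HasAntidiagonal.antidiagonal n, D.Fall Φ g p.1 p.2

/-- Sum over the primitive Hermite forms of determinant `ϖⁿ`. -/
def Pprim (Φ : GL (Fin 2) k → ℂ) (n : ℕ) (g : GL (Fin 2) k) : ℂ :=
  ∑ p ∈ Finset.HasAntidiagonal.antidiagonal n, D.Fprim Φ g p.1 p.2

theorem Fall_eq (Φ : GL (Fin 2) k → ℂ) (g : GL (Fin 2) k) (i j : ℕ) :
    D.Fall Φ g i j = D.Fprim Φ g i j + D.Fnon Φ g i j := by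
  unfold Fall Fprim Fnon
  rw [Finset.sum_filter_add_sum_filter_not]

theorem Fnon_zero_left (Φ : GL (Fin 2) k → ℂ) (g : GL (Fin 2) k) (j : ℕ) :
    D.Fnon Φ g 0 j = 0 := by
  unfold Fnon
  rw [Finset.filter_false_of_mem, Finset.sum_empty]
  intro r _ h
  exact h (Or.inl rfl)

theorem Fnon_zero_right (Φ : GL (Fin 2) k → ℂ) (g : GL (Fin 2) k) (i : ℕ) :
    D.Fnon Φ g i 0 = 0 := by
  unfold Fnon
  rw [Finset.filter_false_of_mem, Finset.sum_empty]
  intro r _ h
  exact h (Or.inr (Or.inl rfl))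

theorem Fall_zero_left (Φ : GL (Fin 2) k → ℂ) (g : GL (Fin 2) k) (j : ℕ) :
    D.Fall Φ g 0 j = Φ (g * D.um 0 j 0) := by
  unfold Fall
  rw [D.R_zero, Finset.sum_singleton]

theorem Fnon_succ_succ (Φ : GL (Fin 2) k → ℂ) (s : ℂ)
    (hS : ∀ g, Φ (g * D.sc 1) = s * Φ g) (g : GL (Fin 2) k) (i j : ℕ) :
    D.Fnon Φ g (i + 1) (j + 1) = s * D.Fall Φ g i j := by
  unfold Fnon Fall
  have hfilt : (D.R (i + 1)).filter (fun r => ¬ Prim (i + 1) (j + 1) r)
      = (D.R (i + 1)).filter (fun r => Valued.v r < 1) := by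
    apply Finset.filter_congr
    intro r hr
    have hle := D.R_int _ _ hr
    unfold Prim
    constructor
    · intro h
      exact lt_of_le_of_ne hle (fun h' => h (Or.inr (Or.inr h')))
    · intro h h'
      rcases h' with h' | h' | h'
      · omega
      · omega
      · exact (ne_of_lt h) h'
  rw [hfilt, D.sum_R_succ_small, Finset.mul_sum]
  refine Finset.sum_congr rfl (fun r _ => ?_)
  rw [D.um_succ_succ, ← mul_assoc, hS]

theorem Aall_eq_Pprim_add (Φ : GL (Fin 2) k → ℂ) (s : ℂ)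
    (hS : ∀ g, Φ (g * D.sc 1) = s * Φ g) (n : ℕ) (g : GL (Fin 2) k) :
    D.Aall Φ (n + 2) g = D.Pprim Φ (n + 2) g + s * D.Aall Φ n g := by
  have h1 : D.Aall Φ (n + 2) g = D.Pprim Φ (n + 2) g
      + ∑ p ∈ Finset.HasAntidiagonal.antidiagonal (n + 2), D.Fnon Φ g p.1 p.2 := by
    unfold Aall Pprim
    rw [← Finset.sum_add_distrib]
    exact Finset.sum_congr rfl (fun p _ => D.Fall_eq Φ g p.1 p.2)
  rw [h1, sum_ad_succ (fun i j => D.Fnon Φ g i j) (n + 1), D.Fnon_zero_left, zero_add,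
    sum_ad_succ' (fun i j => D.Fnon Φ g (i + 1) j) n, D.Fnon_zero_right, zero_add]
  congr 1
  unfold Aall
  rw [Finset.mul_sum]
  exact Finset.sum_congr rfl (fun p _ => D.Fnon_succ_succ Φ s hS g p.1 p.2)

theorem Pprim_eq_Aall_of_le_one (Φ : GL (Fin 2) k → ℂ) (n : ℕ) (hn : n ≤ 1)
    (g : GL (Fin 2) k) : D.Pprim Φ n g = D.Aall Φ n g := by
  unfold Pprim Aall
  refine Finset.sum_congr rfl (fun p hp => ?_)
  unfold Fprim Fall
  rw [Finset.filter_true_of_mem]
  intro r _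
  have := Finset.HasAntidiagonal.mem_antidiagonal.1 hp
  rcases Nat.eq_zero_or_pos p.1 with h | h
  · exact Or.inl h
  · exact Or.inr (Or.inl (by omega))

theorem Aall_zero (Φ : GL (Fin 2) k → ℂ) (g : GL (Fin 2) k) : D.Aall Φ 0 g = Φ g := by
  unfold Aall
  rw [Finset.Nat.antidiagonal_zero, Finset.sum_singleton, D.Fall_zero_left, D.um_zero, mul_one]

theorem Aall_one (Φ : GL (Fin 2) k → ℂ) (g : GL (Fin 2) k) :
    D.Aall Φ 1 g = Φ (g * D.um 0 1 0) + ∑ d ∈ D.T, Φ (g * D.um 1 0 d) := by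
  unfold Aall
  rw [sum_ad_succ (fun i j => D.Fall Φ g i j) 0, Finset.Nat.antidiagonal_zero,
    Finset.sum_singleton, D.Fall_zero_left]
  congr 1
  unfold Fall
  rw [D.sum_R_succ, D.R_zero, Finset.sum_singleton]
  simp

/-- The main recursion `T · T(𝔭^{n+1}) = T(𝔭^{n+2}) + q S T(𝔭ⁿ)`. -/
theorem Aall_rec (Φ : GL (Fin 2) k → ℂ) (t s : ℂ)
    (hinv : ∀ u g : GL (Fin 2) k, InK u → Φ (g * u) = Φ g)
    (hS : ∀ g, Φ (g * D.sc 1) = s * Φ g)
    (hT : ∀ g, Φ (g * D.um 0 1 0) + ∑ d ∈ D.T, Φ (g * D.um 1 0 d) = t * Φ g)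
    (n : ℕ) (g : GL (Fin 2) k) :
    t * D.Aall Φ (n + 1) g = D.Aall Φ (n + 2) g + (D.T.card : ℂ) * s * D.Aall Φ n g := by
  -- the two parts of the left hand side
  have hX : ∑ p ∈ Finset.HasAntidiagonal.antidiagonal (n + 1),
      (∑ r ∈ D.R p.1, Φ (g * D.um p.1 p.2 r * D.um 0 1 0))
      = Φ (g * D.um 0 (n + 2) 0) + (D.T.card : ℂ) * s * D.Aall Φ n g := by
    rw [sum_ad_succ (fun i j => ∑ r ∈ D.R i, Φ (g * D.um i j r * D.um 0 1 0)) n, D.R_zero,
      Finset.sum_singleton, mul_assoc, D.um_zero_mul]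
    congr 1
    unfold Aall
    rw [Finset.mul_sum]
    refine Finset.sum_congr rfl (fun p _ => ?_)
    unfold Fall
    rw [D.sum_R_succ, Finset.mul_sum]
    refine Finset.sum_congr rfl (fun r _ => ?_)
    have : ∀ d ∈ D.T, Φ (g * D.um (p.1 + 1) p.2 (r + D.ϖ ^ p.1 * d) * D.um 0 1 0)
        = s * Φ (g * D.um p.1 p.2 r) := by
      intro d hd
      rw [mul_assoc, D.um_succ_mul, ← mul_assoc, hinv _ _ (inK_nm (D.int d hd)), ← mul_assoc, hS]
    rw [Finset.sum_congr rfl this, Finset.sum_const, nsmul_eq_mul]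
    ring
  have hY : ∑ p ∈ Finset.HasAntidiagonal.antidiagonal (n + 1),
      (∑ r ∈ D.R p.1, ∑ d ∈ D.T, Φ (g * D.um p.1 p.2 r * D.um 1 0 d))
      = ∑ p ∈ Finset.HasAntidiagonal.antidiagonal (n + 1), D.Fall Φ g (p.1 + 1) p.2 := by
    refine Finset.sum_congr rfl (fun p _ => ?_)
    unfold Fall
    rw [D.sum_R_succ]
    refine Finset.sum_congr rfl (fun r _ => ?_)
    refine Finset.sum_congr rfl (fun d _ => ?_)
    rw [mul_assoc, D.um_mul_um_one]
  have hL : t * D.Aall Φ (n + 1) g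
      = ∑ p ∈ Finset.HasAntidiagonal.antidiagonal (n + 1),
          (∑ r ∈ D.R p.1, Φ (g * D.um p.1 p.2 r * D.um 0 1 0))
        + ∑ p ∈ Finset.HasAntidiagonal.antidiagonal (n + 1),
          (∑ r ∈ D.R p.1, ∑ d ∈ D.T, Φ (g * D.um p.1 p.2 r * D.um 1 0 d)) := by
    unfold Aall Fall
    rw [Finset.mul_sum, ← Finset.sum_add_distrib]
    refine Finset.sum_congr rfl (fun p _ => ?_)
    rw [Finset.mul_sum, ← Finset.sum_add_distrib]
    refine Finset.sum_congr rfl (fun r _ => ?_)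
    rw [← hT]
  have hR : D.Aall Φ (n + 2) g = Φ (g * D.um 0 (n + 2) 0)
      + ∑ p ∈ Finset.HasAntidiagonal.antidiagonal (n + 1), D.Fall Φ g (p.1 + 1) p.2 := by
    unfold Aall
    rw [sum_ad_succ (fun i j => D.Fall Φ g i j) (n + 1), D.Fall_zero_left]
  rw [hL, hX, hY, hR]
  ring

end ResData

/-- The eigenvalue of `T(𝔭ⁿ)`. -/
def alpha (t s : ℂ) (q : ℕ) : ℕ → ℂ
  | 0 => 1
  | 1 => t
  | (n + 2) => t * alpha t s q (n + 1) - (q : ℂ) * s * alpha t s q n

theorem alpha_zero (t s : ℂ) (q : ℕ) : alpha t s q 0 = 1 := by rw [alpha]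

theorem alpha_one (t s : ℂ) (q : ℕ) : alpha t s q 1 = t := by rw [alpha]

theorem alpha_succ_succ (t s : ℂ) (q : ℕ) (n : ℕ) :
    alpha t s q (n + 2) = t * alpha t s q (n + 1) - (q : ℂ) * s * alpha t s q n := by
  rw [alpha]

namespace ResData

variable (D : ResData k)

theorem Aall_eq (Φ : GL (Fin 2) k → ℂ) (t s : ℂ)
    (hinv : ∀ u g : GL (Fin 2) k, InK u → Φ (g * u) = Φ g)
    (hS : ∀ g, Φ (g * D.sc 1) = s * Φ g)
    (hT : ∀ g, Φ (g * D.um 0 1 0) + ∑ d ∈ D.T, Φ (g * D.um 1 0 d) = t * Φ g) :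
    ∀ (n : ℕ) (g : GL (Fin 2) k), D.Aall Φ n g = alpha t s D.T.card n * Φ g := by
  have key : ∀ n : ℕ, (∀ g, D.Aall Φ n g = alpha t s D.T.card n * Φ g) ∧
      ∀ g, D.Aall Φ (n + 1) g = alpha t s D.T.card (n + 1) * Φ g := by
    intro n
    induction n with
    | zero =>
      refine ⟨fun g => ?_, fun g => ?_⟩
      · rw [D.Aall_zero, alpha_zero, one_mul]
      · rw [D.Aall_one, hT, alpha_one]
    | succ n ih =>
      refine ⟨ih.2, fun g => ?_⟩
      have h := D.Aall_rec Φ t s hinv hS hT n g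
      rw [ih.1 g, ih.2 g] at h
      rw [alpha_succ_succ]
      linear_combination -h
  exact fun n g => (key n).1 g

theorem Pprim_eq (Φ : GL (Fin 2) k → ℂ) (t s : ℂ)
    (hinv : ∀ u g : GL (Fin 2) k, InK u → Φ (g * u) = Φ g)
    (hS : ∀ g, Φ (g * D.sc 1) = s * Φ g)
    (hT : ∀ g, Φ (g * D.um 0 1 0) + ∑ d ∈ D.T, Φ (g * D.um 1 0 d) = t * Φ g)
    (n : ℕ) (g : GL (Fin 2) k) :
    D.Pprim Φ (n + 2) g = (alpha t s D.T.card (n + 2) - s * alpha t s D.T.card n) * Φ g := by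
  have h := D.Aall_eq_Pprim_add Φ s hS n g
  rw [D.Aall_eq Φ t s hinv hS hT, D.Aall_eq Φ t s hinv hS hT] at h
  linear_combination -h

end ResData

end Fermat.Agent.LT.T6.H305

end

end
-- ===== PACK-END LT/T6/H305/Rec.lean

-- ===== PACK-BEGIN LT/T3/H465/EKIdealClosed.lean
section







/-!
# Row LT, tower T3, leaf T3.14 (`EKIdealC`) CLOSED (helper465), OFF-MAIN

`ekIdealC465 : T3.EKIdealC K`, unconditional, with the closed leaves of tower T1:
`locCompC_h11` (helper11) and `discreteTopology_principal` (helper767), byte-identical copies.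
-/

set_option autoImplicit false

open IsDedekindDomain NumberField MeasureTheory
open Fermat.Agent.LT.H556.A0

noncomputable section

namespace Fermat.Agent.LT.T3.H465

open Fermat.Agent.LT.T3

variable (K : Type) [Field K] [NumberField K]

theorem princ_eq_principalSubgroup465 :
    Fermat.Agent.LT.T1.princ K = AdeleRing.principalSubgroup (𝓞 K) K := by
  ext x
  simp [Fermat.Agent.LT.T1.princ, AdeleRing.principalSubgroup]

/-- **T3.14 `EKIdealC`, closed.** -/
theorem ekIdealC465 : EKIdealC K := by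
  refine ekIdealC_of_T1_465 K (Fermat.Agent.LT.T1.H11.locCompC_h11 K) ?_
  rw [princ_eq_principalSubgroup465]
  exact Fermat.Agent.LT.H767.discreteTopology_principal K

end Fermat.Agent.LT.T3.H465

end

end
-- ===== PACK-END LT/T3/H465/EKIdealClosed.lean

-- ===== PACK-BEGIN LT/T3/H893/EKKill.lean
section



/-!
# Row LT, tower T3, leaf T3.11 = FACT 1 (helper893): `T3.EKKillC`

OFF-MAIN.  `ekKillC_of893 : T1.LocCompC K → T1.AdeleLatticeC K → T1.AddFundDomC K → T3.EKKillC K`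
(`T3.EKKillC` VERBATIM, Spec v2 of helper14, sha256 `44de320b8621`; the hypotheses are interface
Props of tower T1, Spec of helper54 `origin/helper54@675fbadd3`), and
`ekKillC_of_T1Out893 : T1.T1Out K → T3.EKKillC K`.

## Proof

NO Iwasawa integration formula, NO quotient measure, NO unimodularity of `GL₂(𝔸_K)`.
`R(f)Ψ(g) = ∫ Ψ(y) φ(y) dy`, `φ(y) = f(g⁻¹ y)`.  Let `P = N(𝔸_K) ⋊ γ₀^ℤ`, parametrised by
`p (j, x) = n(x) γ₀ʲ` on `B = ℤ × 𝔸_K` with the measure `κ = count × ν`.  Take a continuous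
`ρ ≥ 0` of compact support with `ρ = 1` on the support of `φ` (Urysohn) and
`S(y) = ∫_B ρ(p b · y) dκ(b)`; `S` is left `P`-invariant (translation invariance of `ν` and of
`count`), positive on the support of `φ`, and finite (`K` is discrete and closed in `𝔸_K`, so
only finitely many `j` contribute if `α` has infinite order).  Then (`Bruhat.lean`)
`∫ Ψ φ = ∫_y ∫_b Ψ φ S⁻¹ ρ(p b y) = ∫_y Ψ S⁻¹ ρ ∫_b φ((p b)⁻¹ y) = 0`
by Fubini and the left invariance of `μ`; the inner integral is the EK sum, by the product formula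
`ν(αX) = ν(X)` (`ProdFormula.lean`: from a fundamental domain of finite positive measure).
If `α` has finite order, every term of the EK sum vanishes (a summable periodic sequence) and the
same argument runs with `P = N(𝔸_K)`.
-/

set_option autoImplicit false
set_option linter.style.haveILetI false

open MeasureTheory NumberField
open scoped ENNReal
open Fermat.Agent.LT.H556.A0

noncomputable section

namespace Fermat.Agent.LT.T3.H893

variable (K : Type) [Field K] [NumberField K]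

/-- **T3.11 from the product formula for Haar measures.** -/
theorem ekKillC_of_prod893 (hLC : T1.LocCompC K) (hAL : T1.AdeleLatticeC K)
    (hPF : HaarProdC K) : EKKillC K := by
  intro μ hμ ν hν α f hf hfc hEK Ψ hΨ hΨN hΨT g
  letI : MeasurableSpace (Adl K) := borel (Adl K)
  haveI : BorelSpace (Adl K) := ⟨rfl⟩
  letI : MeasurableSpace (G K) := borel (G K)
  haveI : BorelSpace (G K) := ⟨rfl⟩
  obtain ⟨⟨h1, h2, h3⟩, h4, h5, h6⟩ := hLC
  haveI := h1
  haveI := h2
  haveI := h3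
  haveI := h4
  haveI := h5
  haveI := h6
  haveI := hμ
  haveI := hν
  by_cases hfo : IsOfFinOrder α
  · exact ekKill_finOrder893 K μ ν f hf hfc
      (ek_term_zero_of_finOrder893 K ν α hfo f hEK) Ψ hΨ hΨN g
  · exact ekKill_infOrder893 K hAL.1 hAL.2.1 μ ν (fun β => hPF ν hν β) α hfo f hf hfc hEK Ψ hΨ
      hΨN hΨT g

/-- **T3.11 = FACT 1** from the interface Props of tower T1. -/
theorem ekKillC_of893 (hLC : T1.LocCompC K) (hAL : T1.AdeleLatticeC K)
    (hFD : T1.AddFundDomC K) : EKKillC K :=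
  ekKillC_of_prod893 K hLC hAL (haarProd_of893 K hLC hFD)

/-- **T3.11** from the output of tower T1. -/
theorem ekKillC_of_T1Out893 (h : T1.T1Out K) : EKKillC K :=
  ekKillC_of893 K h.locComp h.adeleLattice h.addFundDom

end Fermat.Agent.LT.T3.H893

end

end
-- ===== PACK-END LT/T3/H893/EKKill.lean

-- ===== PACK-BEGIN LT/T7/H62/RigidAut.lean
section




/-!
# Row LT, tower T7, NODE T7.14 `RigidC` -- SUB-SPEC, LEVEL 3 (sub-architect helper62)

OFF-MAIN.  Definitions, frozen Props, PROVED reductions.  No `sorry`, nothing assumed.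

```
SmoothSelfC K   ⇐  frame + StripC K + CountC K + NormPosC K     (`smoothSelfC_of`,  PROVED here)
SmoothCrossC K  ⇐  frame + StripC K + CountC K + OrthC K        (`smoothCrossC_of`, PROVED here)
```

`frame` = `∃ μ F, T5.IsFrame μ F` (tower T1: `T5.H62.frame_exists_of_T1Out62`).

## Vocabulary

* `rowOf x g`     : the row vector `(c, d) · g ∈ 𝔸²` for `x = (c, d) ∈ K²`.
* `rowNorm r`     : `∏_{w ∣ ∞} (|r₀|² + |r₁|²)^{[K_w:ℝ]/2} · ∏_v max(|r₀|_v, |r₁|_v)`; the HEIGHT of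
                    `g` along the Borel subgroup is `|det g|_𝔸 / rowNorm(bottom row of g)²`
                    (`= |y|_𝔸` for `g = n(x) a(y) z k`).
* `cntSet 𝔪 Y g`  : the points `x = [c : d]` of `ℙ¹(K) = B(K) \ GL₂(K)` with
                    `height (γ_x g) ≥ Y` and `γ_x g ∈ B(𝔸) K₀(𝔪)` (bottom row `r` of `γ_x g`:
                    `r₀ ∈ 𝔪 r₁ 𝒪_v` at every `v ∣ 𝔪`).  `cnt = Nat.card`.
* `IsSForm π S φ` : `φ` is as in `A0.IsSph0CuspFormFor` (possibly zero), with the level condition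
                    weakened to invariance under `U(𝔪)` for SOME `𝔪 ≠ 0` supported in `S`, Hecke
                    eigenfunction with `(a_v, 1)` at every `v ∉ S`.  The space of `S`-forms of
                    `π` is stable under right translation by `GL₂(K_S)` and linear combinations.

## The Props

* `CountC K`   (counting; Schanuel for `ℙ¹(K)` with the adelic metric twisted by `g` and a
  congruence condition): `Y · cnt 𝔪 Y g → κ_𝔪 > 0` as `Y → 0⁺` for EVERY `g` (same `κ`),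
  `Y · cnt 𝔪 Y g ≤ C` for `0 < Y ≤ 1` uniformly in `g`, `g ↦ cnt 𝔪 Y g` Borel measurable.
* `OrthC K`    (Hecke orthogonality): `S`-forms of `π`, `π'` with `a_v ≠ a'_v` for some `v ∉ S`
  are orthogonal on the frame.
* `NormPosC K` : a nonzero `S`-form has `⟨φ, φ⟩ ≠ 0` on the frame.
* `StripC K`   (NODE: folding + Iwasawa + Parseval on `K \ 𝔸` + Hecke recursion + localisation
  at `S` + archimedean uniqueness): for forms `φ, φ'` as in A0 there are `S`-forms `φ₁, φ₁'`,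
  `𝔪`, a weight `G`, `c ≠ 0` with
  `∫_F φ₁ φ̄₁' · cnt 𝔪 Y dμ = c · ∑_{𝔞 prime to S} c(𝔞) c̄'(𝔞) G(Y N𝔞)` for all `Y > 0`.
-/

set_option autoImplicit false

open AutomorphicForm IsDedekindDomain NumberField Filter Topology MeasureTheory
open scoped ComplexConjugate

noncomputable section

namespace Fermat.Agent.LT.T7.Rigid

open Fermat.Agent.LT.H556 Fermat.Agent.LT.H556.A0 Fermat.Agent.LT.T7

attribute [local instance] Fermat.Agent.LT.T5.instMeasurableSpaceG

variable {K : Type} [Field K] [NumberField K]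

/-! ## Vocabulary -/

/-- The row vector `(c, d) · g`. -/
def rowOf (x : Fin 2 → K) (g : G K) : Fin 2 → Adl K :=
  fun j => algebraMap K (Adl K) (x 0) * (g : Matrix (Fin 2) (Fin 2) (Adl K)) 0 j
    + algebraMap K (Adl K) (x 1) * (g : Matrix (Fin 2) (Fin 2) (Adl K)) 1 j

/-- `∏_{w ∣ ∞} (|r₀|² + |r₁|²)^{[K_w:ℝ]/2} · ∏_v max(|r₀|_v, |r₁|_v)`. -/
def rowNorm (r : Fin 2 → Adl K) : ℝ :=
  (∏ w : InfinitePlace K, (‖(r 0).1 w‖ ^ 2 + ‖(r 1).1 w‖ ^ 2) ^ ((w.mult : ℝ) / 2))
    * ∏ᶠ v : HeightOneSpectrum (𝓞 K), max ‖(r 0).2 v‖ ‖(r 1).2 v‖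

/-- The points `[c : d]` of `ℙ¹(K)` with `height ≥ Y` and bottom row in `B(𝔸) K₀(𝔪)`. -/
def cntSet (𝔪 : Ideal (𝓞 K)) (Y : ℝ) (g : G K) : Set (Projectivization K (Fin 2 → K)) :=
  {x | rowNorm (rowOf x.rep g) ^ 2 * Y
        ≤ Fermat.Agent.LT.T5.adNorm (Matrix.det (g : Matrix (Fin 2) (Fin 2) (Adl K))) ∧
    ∀ v : HeightOneSpectrum (𝓞 K), v.asIdeal ∣ 𝔪 →
      ∃ t ∈ idealClosure 𝔪 v, (rowOf x.rep g 0).2 v = t * (rowOf x.rep g 1).2 v}

/-- The counting function. -/
def cnt (𝔪 : Ideal (𝓞 K)) (Y : ℝ) (g : G K) : ℕ := Nat.card (cntSet 𝔪 Y g)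

/-- `S`-forms of `π`. -/
structure IsSForm (π : HeckeEigensystem K ℂ) (S : Finset (HeightOneSpectrum (𝓞 K)))
    (φ : G K → ℂ) : Prop where
  cont : Continuous φ
  bdd : ∃ C : ℝ, ∀ g : G K, ‖φ g‖ ≤ C
  left_inv : ∀ (γ : GL (Fin 2) K) (g : G K),
    φ (Matrix.GeneralLinearGroup.map (algebraMap K (Adl K)) γ * g) = φ g
  level_inv : ∃ 𝔪 : Ideal (𝓞 K), 𝔪 ≠ ⊥ ∧
    (∀ v : HeightOneSpectrum (𝓞 K), v.asIdeal ∣ 𝔪 → v ∈ S) ∧
    ∀ u : G K, InLevelGroup 𝔪 u → ∀ g : G K, φ (g * u) = φ g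
  arch_scalar : ∀ (w : InfinitePlace K) (z : G K), IsArchPosScalar w z →
    ∀ g : G K, φ (g * z) = φ g
  arch_compact : ∀ (w : InfinitePlace K) (k : G K), IsArchCompact w k →
    ∀ g : G K, φ (g * k) = φ g
  mean_complex : ∀ w : InfinitePlace K, w.IsComplex → MeanValueComplex φ w
  mean_real : ∀ w : InfinitePlace K, w.IsReal → MeanValueReal φ w
  cuspidal : IsCuspidalFn φ
  hecke : ∀ v : HeightOneSpectrum (𝓞 K), v ∉ S → IsHeckeEigenAt φ v (π.a v) 1

/-- A form as in A0 is an `S`-form for every `S` containing the bad places. -/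
theorem isSForm_of_A0 {π : HeckeEigensystem K ℂ} {S : Finset (HeightOneSpectrum (𝓞 K))}
    {φ : G K → ℂ} (h : IsSph0CuspFormFor π φ) (hS : IsGoodOutside π S) : IsSForm π S φ where
  cont := h.cont
  bdd := h.bdd
  left_inv := h.left_inv
  level_inv := ⟨π.level, π.level_ne_bot, fun v hv => by
    by_contra hvS
    exact (hS v hvS).1 hv, h.level_inv⟩
  arch_scalar := h.arch_scalar
  arch_compact := h.arch_compact
  mean_complex := h.mean_complex
  mean_real := h.mean_real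
  cuspidal := h.cuspidal
  hecke := fun v hv => by
    have := h.hecke v (hS v hv).1
    rwa [(hS v hv).2.1] at this

/-! ## The Props of level 3 -/

variable (K)

/-- **LEAF COUNT.**  Rational points of `ℙ¹(K)` of bounded height for the adelic metric twisted by
`g`, with a congruence condition: `Y · cnt 𝔪 Y g → κ` as `Y → 0⁺`, with the SAME `κ > 0` for every
`g`; uniform bound for `0 < Y ≤ 1`; measurability in `g`. -/
def CountC : Prop :=
  TotCplx K →
  ∀ 𝔪 : Ideal (𝓞 K), 𝔪 ≠ ⊥ →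
    ∃ κ : ℝ, 0 < κ ∧
      (∀ Y : ℝ, 0 < Y → Measurable fun g : G K => (cnt 𝔪 Y g : ℝ)) ∧
      (∀ g : G K, Tendsto (fun Y : ℝ => Y * (cnt 𝔪 Y g : ℝ)) (𝓝[>] (0 : ℝ)) (𝓝 κ)) ∧
      ∃ C : ℝ, ∀ (g : G K) (Y : ℝ), 0 < Y → Y ≤ 1 → Y * (cnt 𝔪 Y g : ℝ) ≤ C

/-- **LEAF ORTH.**  Hecke orthogonality: `S`-forms of `π` and `π'` with `a_v ≠ a'_v` at some
`v ∉ S` are orthogonal on every frame.  (`T_v` is self-adjoint for trivial central character:
symmetric coset representatives; `a'_v` is real if `φ' ≠ 0`.) -/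
def OrthC : Prop :=
  TotCplx K →
  ∀ (μ : Measure (G K)) (F : Set (G K)), Fermat.Agent.LT.T5.IsFrame μ F →
    ∀ (π π' : HeckeEigensystem K ℂ) (S : Finset (HeightOneSpectrum (𝓞 K))) (φ φ' : G K → ℂ),
      IsSForm π S φ → IsSForm π' S φ' →
      (∃ v : HeightOneSpectrum (𝓞 K), v ∉ S ∧ π.a v ≠ π'.a v) →
      Fermat.Agent.LT.T5.innerD μ F φ φ' = 0

/-- **LEAF NORM-POS.**  A nonzero `S`-form has nonzero norm on every frame. -/
def NormPosC : Prop :=
  TotCplx K →
  ∀ (μ : Measure (G K)) (F : Set (G K)), Fermat.Agent.LT.T5.IsFrame μ F →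
    ∀ (π : HeckeEigensystem K ℂ) (S : Finset (HeightOneSpectrum (𝓞 K))) (φ : G K → ℂ),
      IsSForm π S φ → (∃ g : G K, φ g ≠ 0) →
      Fermat.Agent.LT.T5.innerD μ F φ φ ≠ 0

/-- **NODE STRIP.**  The strip identity: for forms `φ, φ'` as in A0 with eigensystems `π, π'` and
a finite set `S` containing the bad places of both, there are `S`-forms `φ₁` of `π` (nonzero) and
`φ₁'` of `π'` (equal to `φ₁` if `φ = φ'`), an ideal `𝔪 ≠ 0`, a weight `G` and `c ≠ 0` with
`∫_F φ₁ φ̄₁' · cnt 𝔪 Y dμ = c · ∑_{𝔞 prime to S} c(𝔞) c̄'(𝔞) G(Y N𝔞)` for every `Y > 0`. -/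
def StripC : Prop :=
  TotCplx K →
  ∀ (μ : Measure (G K)) (F : Set (G K)), Fermat.Agent.LT.T5.IsFrame μ F →
    ∀ (π π' : HeckeEigensystem K ℂ) (φ φ' : G K → ℂ),
      IsSph0CuspFormFor π φ → IsSph0CuspFormFor π' φ' →
      ∀ S : Finset (HeightOneSpectrum (𝓞 K)), IsGoodOutside π S → IsGoodOutside π' S →
        ∃ (φ₁ φ₁' : G K → ℂ) (𝔪 : Ideal (𝓞 K)) (G₀ : ℝ → ℝ) (c : ℂ),
          IsSForm π S φ₁ ∧ IsSForm π' S φ₁' ∧ (∃ g : G K, φ₁ g ≠ 0) ∧ (φ = φ' → φ₁ = φ₁') ∧
          𝔪 ≠ ⊥ ∧ IsWeight G₀ ∧ c ≠ 0 ∧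
          ∀ Y : ℝ, 0 < Y →
            ∫ g in F, φ₁ g * conj (φ₁' g) * (((cnt 𝔪 Y g : ℕ) : ℝ) : ℂ) ∂μ
              = c * sSum (coef2 π.a π'.a (S : Set (HeightOneSpectrum (𝓞 K)))) G₀ Y

/-! ## The reductions -/

variable {K}

/-- Dominated convergence on the frame: `Y · ∫_F φ₁ φ̄₁' cnt_Y → κ ⟨φ₁, φ₁'⟩`. -/
theorem tendsto_strip {μ : Measure (G K)} {F : Set (G K)} (hF : Fermat.Agent.LT.T5.IsFrame μ F)
    {φ₁ φ₁' : G K → ℂ} (hc₁ : Continuous φ₁) (hc₁' : Continuous φ₁')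
    (hb₁ : ∃ C : ℝ, ∀ g : G K, ‖φ₁ g‖ ≤ C) (hb₁' : ∃ C : ℝ, ∀ g : G K, ‖φ₁' g‖ ≤ C)
    {𝔪 : Ideal (𝓞 K)} {κ : ℝ}
    (hmeas : ∀ Y : ℝ, 0 < Y → Measurable fun g : G K => (cnt 𝔪 Y g : ℝ))
    (hlim : ∀ g : G K, Tendsto (fun Y : ℝ => Y * (cnt 𝔪 Y g : ℝ)) (𝓝[>] (0 : ℝ)) (𝓝 κ))
    (hC : ∃ C : ℝ, ∀ (g : G K) (Y : ℝ), 0 < Y → Y ≤ 1 → Y * (cnt 𝔪 Y g : ℝ) ≤ C) :
    Tendsto (fun Y : ℝ => (Y : ℂ) *
        ∫ g in F, φ₁ g * conj (φ₁' g) * (((cnt 𝔪 Y g : ℕ) : ℝ) : ℂ) ∂μ)
      (𝓝[>] (0 : ℝ)) (𝓝 ((κ : ℂ) * Fermat.Agent.LT.T5.innerD μ F φ₁ φ₁')) := by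
  have : BorelSpace (G K) := ⟨rfl⟩
  obtain ⟨C₁, hC₁⟩ := hb₁
  obtain ⟨C₁', hC₁'⟩ := hb₁'
  obtain ⟨C, hC⟩ := hC
  have : IsFiniteMeasure (μ.restrict F) := ⟨by simpa using hF.finite⟩
  have hC₁0 : 0 ≤ C₁ := (norm_nonneg _).trans (hC₁ 1)
  have hC₁'0 : 0 ≤ C₁' := (norm_nonneg _).trans (hC₁' 1)
  -- the integrands
  have hrew : ∀ Y : ℝ, (Y : ℂ) * ∫ g in F, φ₁ g * conj (φ₁' g) * (((cnt 𝔪 Y g : ℕ) : ℝ) : ℂ) ∂μ
      = ∫ g in F, φ₁ g * conj (φ₁' g) * ((Y * (cnt 𝔪 Y g : ℝ) : ℝ) : ℂ) ∂μ := by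
    intro Y
    rw [← MeasureTheory.integral_const_mul]
    refine MeasureTheory.integral_congr_ae (Filter.Eventually.of_forall fun g => ?_)
    simp only [Complex.ofReal_mul]
    ring
  have hlimit : (κ : ℂ) * Fermat.Agent.LT.T5.innerD μ F φ₁ φ₁'
      = ∫ g in F, φ₁ g * conj (φ₁' g) * ((κ : ℝ) : ℂ) ∂μ := by
    unfold Fermat.Agent.LT.T5.innerD
    rw [← MeasureTheory.integral_const_mul]
    refine MeasureTheory.integral_congr_ae (Filter.Eventually.of_forall fun g => ?_)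
    simp only
    ring
  simp_rw [hrew]
  rw [hlimit]
  have hprod : Continuous fun g : G K => φ₁ g * conj (φ₁' g) :=
    hc₁.mul (Complex.continuous_conj.comp hc₁')
  have hIoc : ∀ᶠ Y : ℝ in 𝓝[>] (0 : ℝ), 0 < Y ∧ Y ≤ 1 := by
    have h1 : Set.Ioc (0 : ℝ) 1 ∈ 𝓝[>] (0 : ℝ) := Ioc_mem_nhdsGT one_pos
    exact Filter.mem_of_superset h1 fun Y hY => hY
  refine MeasureTheory.tendsto_integral_filter_of_dominated_convergence
    (fun _ => C₁ * C₁' * |C|) ?_ ?_ (MeasureTheory.integrable_const _) ?_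
  · refine hIoc.mono fun Y hY => ?_
    refine (hprod.aestronglyMeasurable).mul ?_
    have hm : Measurable fun g : G K => ((Y * (cnt 𝔪 Y g : ℝ) : ℝ) : ℂ) :=
      Complex.measurable_ofReal.comp ((hmeas Y hY.1).const_mul Y)
    exact hm.aestronglyMeasurable
  · refine hIoc.mono fun Y hY => Filter.Eventually.of_forall fun g => ?_
    rw [norm_mul, norm_mul, RCLike.norm_conj, Complex.norm_real, Real.norm_eq_abs]
    have h0 : 0 ≤ Y * (cnt 𝔪 Y g : ℝ) := mul_nonneg hY.1.le (Nat.cast_nonneg _)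
    have h1 : |Y * (cnt 𝔪 Y g : ℝ)| ≤ |C| := by
      rw [abs_of_nonneg h0]
      exact (hC g Y hY.1 hY.2).trans (le_abs_self C)
    have h2 : ‖φ₁ g‖ * ‖φ₁' g‖ ≤ C₁ * C₁' :=
      mul_le_mul (hC₁ g) (hC₁' g) (norm_nonneg _) hC₁0
    exact mul_le_mul h2 h1 (abs_nonneg _) (mul_nonneg hC₁0 hC₁'0)
  · refine Filter.Eventually.of_forall fun g => ?_
    refine Tendsto.const_mul _ ?_
    exact (Complex.continuous_ofReal.tendsto κ).comp (hlim g)

/-- Not equal almost everywhere, outside a set good for both: some `a_v ≠ a'_v` outside `S`. -/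
theorem exists_ne_of_not_aeq {π π' : HeckeEigensystem K ℂ}
    {S : Finset (HeightOneSpectrum (𝓞 K))} (hg : IsGoodOutside π S) (hg' : IsGoodOutside π' S)
    (hne : ¬ AEq π π') : ∃ v : HeightOneSpectrum (𝓞 K), v ∉ S ∧ π.a v ≠ π'.a v := by
  by_contra hcon
  push Not at hcon
  exact hne ⟨S, fun v hv => ⟨hcon v hv, by rw [(hg v hv).2.1, (hg' v hv).2.1]⟩⟩

/-- **Reduction of `SmoothCrossC`.** -/
theorem smoothCrossC_of (hFr : ∃ (μ : Measure (G K)) (F : Set (G K)),
      Fermat.Agent.LT.T5.IsFrame μ F)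
    (hStrip : StripC K) (hCount : CountC K) (hOrth : OrthC K) : SmoothCrossC K := by
  intro hcplx π π' hπ hπ' hne S hg hg'
  obtain ⟨μ, F, hF⟩ := hFr
  obtain ⟨φ, hφ⟩ := hπ
  obtain ⟨φ', hφ'⟩ := hπ'
  obtain ⟨φ₁, φ₁', 𝔪, G₀, c, h1, h1', -, -, h𝔪, hG, hc, hid⟩ :=
    hStrip hcplx μ F hF π π' φ φ' hφ hφ' S hg hg'
  obtain ⟨κ, -, hmeas, hlim, hC⟩ := hCount hcplx 𝔪 h𝔪
  obtain ⟨v, hv, hav⟩ := exists_ne_of_not_aeq hg hg' hne
  have horth := hOrth hcplx μ F hF π π' S φ₁ φ₁' h1 h1' ⟨v, hv, hav⟩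
  have hten := tendsto_strip hF h1.cont h1'.cont h1.bdd h1'.bdd hmeas hlim hC
  rw [horth, mul_zero] at hten
  refine ⟨G₀, hG, ?_⟩
  have hten2 : Tendsto (fun Y : ℝ => c⁻¹ * ((Y : ℂ) *
        ∫ g in F, φ₁ g * conj (φ₁' g) * (((cnt 𝔪 Y g : ℕ) : ℝ) : ℂ) ∂μ))
      (𝓝[>] (0 : ℝ)) (𝓝 (c⁻¹ * 0)) := hten.const_mul _
  rw [mul_zero] at hten2
  refine hten2.congr' ?_
  refine eventually_nhdsWithin_of_forall fun Y hY => ?_
  beta_reduce
  rw [hid Y hY]
  field_simp

/-- **Reduction of `SmoothSelfC`.** -/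
theorem smoothSelfC_of (hFr : ∃ (μ : Measure (G K)) (F : Set (G K)),
      Fermat.Agent.LT.T5.IsFrame μ F)
    (hStrip : StripC K) (hCount : CountC K) (hNorm : NormPosC K) : SmoothSelfC K := by
  intro hcplx π hπ S hg
  obtain ⟨μ, F, hF⟩ := hFr
  obtain ⟨φ, hφ⟩ := hπ
  obtain ⟨φ₁, φ₁', 𝔪, G₀, c, h1, -, hne1, heq, h𝔪, hG, hc, hid⟩ :=
    hStrip hcplx μ F hF π π φ φ hφ hφ S hg hg
  obtain rfl : φ₁ = φ₁' := heq rfl
  obtain ⟨κ, hκ, hmeas, hlim, hC⟩ := hCount hcplx 𝔪 h𝔪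
  have hnorm := hNorm hcplx μ F hF π S φ₁ h1 hne1
  have hten := tendsto_strip hF h1.cont h1.cont h1.bdd h1.bdd hmeas hlim hC
  refine ⟨G₀, c⁻¹ * ((κ : ℂ) * Fermat.Agent.LT.T5.innerD μ F φ₁ φ₁), hG, ?_, ?_⟩
  · exact mul_ne_zero (inv_ne_zero hc)
      (mul_ne_zero (by exact_mod_cast hκ.ne') hnorm)
  · have hten2 := hten.const_mul c⁻¹
    refine hten2.congr' ?_
    refine eventually_nhdsWithin_of_forall fun Y hY => ?_
    beta_reduce
    rw [hid Y hY]
    field_simp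

/-- **`T7.RigidC K` from the leaves of levels 2 and 3.** -/
theorem rigidC_of_aut (hFr : ∃ (μ : Measure (G K)) (F : Set (G K)),
      Fermat.Agent.LT.T5.IsFrame μ F)
    (hP : PlaceSumC K) (hE : EulerLogC K) (hA : AbelC K)
    (hStrip : StripC K) (hCount : CountC K) (hOrth : OrthC K) (hNorm : NormPosC K) :
    RigidC K :=
  rigidC_of_pkg hP hE hA (smoothSelfC_of hFr hStrip hCount hNorm)
    (smoothCrossC_of hFr hStrip hCount hOrth)

end Fermat.Agent.LT.T7.Rigid

end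

end
-- ===== PACK-END LT/T7/H62/RigidAut.lean

-- ===== PACK-BEGIN LT/T7/H27/EulerLocal.lean
section



/-!
# Row LT, tower T7, node T7.14 `RigidC`, leaf `EulerLogC`: LOCAL ESTIMATES (helper27)

OFF-MAIN.  Mathlib + `hpoly` of `LT/T7/H62/RigidPkg.lean` only.

For complex `a, a'` with `‖a‖, ‖a'‖ ≤ 2` and `0 ≤ x ≤ 1/100`, with
`t m = s_m(a) conj(s_m(a')) x^m`, `F = ∑_m t m`:
`‖t m‖ ≤ (9x)^m`, `∑ ‖t m‖ ≤ 1 + 10 x`, `‖F - 1 - a ā' x‖ ≤ 90 x²`, `F ≠ 0`,
`|log ‖F‖ - Re(a ā') x| ≤ 115 x²`, `|log ‖F‖| ≤ 6 x`.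
-/

set_option autoImplicit false

open scoped ComplexConjugate

noncomputable section

namespace Fermat.Agent.LT.T7.H27

open Fermat.Agent.LT.T7.Rigid

theorem hpoly_zero27 (a : ℂ) : hpoly a 0 = 1 := rfl

theorem hpoly_one27 (a : ℂ) : hpoly a 1 = a := rfl

theorem hpoly_add_two27 (a : ℂ) (m : ℕ) :
    hpoly a (m + 2) = a * hpoly a (m + 1) - hpoly a m := rfl

theorem norm_hpoly_le27 {a : ℂ} (ha : ‖a‖ ≤ 2) : ∀ m : ℕ, ‖hpoly a m‖ ≤ 3 ^ m ∧
    ‖hpoly a (m + 1)‖ ≤ 3 ^ (m + 1) := by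
  intro m
  induction m with
  | zero =>
    refine ⟨by simp [hpoly_zero27], ?_⟩
    rw [hpoly_one27]
    have : (3 : ℝ) ^ (0 + 1) = 3 := by norm_num
    linarith
  | succ m ih =>
    refine ⟨ih.2, ?_⟩
    rw [hpoly_add_two27]
    calc ‖a * hpoly a (m + 1) - hpoly a m‖
        ≤ ‖a * hpoly a (m + 1)‖ + ‖hpoly a m‖ := norm_sub_le _ _
      _ = ‖a‖ * ‖hpoly a (m + 1)‖ + ‖hpoly a m‖ := by rw [norm_mul]
      _ ≤ 2 * 3 ^ (m + 1) + 3 ^ m := by
          have := mul_le_mul ha ih.2 (norm_nonneg _) (by norm_num : (0 : ℝ) ≤ 2)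
          linarith [ih.1]
      _ ≤ 3 ^ (m + 1 + 1) := by
          have h0 : (0 : ℝ) < 3 ^ m := by positivity
          have e1 : (3 : ℝ) ^ (m + 1) = 3 * 3 ^ m := pow_succ' 3 m
          have e2 : (3 : ℝ) ^ (m + 1 + 1) = 9 * 3 ^ m := by
            rw [pow_succ, pow_succ]; ring
          rw [e1, e2]
          linarith

/-- The local term `t m = s_m(a) conj(s_m(a')) x^m`. -/
def lt27 (a a' : ℂ) (x : ℝ) (m : ℕ) : ℂ := hpoly a m * conj (hpoly a' m) * ((x : ℂ)) ^ m

theorem lt27_zero (a a' : ℂ) (x : ℝ) : lt27 a a' x 0 = 1 := by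
  simp [lt27, hpoly_zero27]

theorem lt27_one (a a' : ℂ) (x : ℝ) : lt27 a a' x 1 = a * conj a' * (x : ℂ) := by
  simp [lt27, hpoly_one27]

theorem norm_lt27_le {a a' : ℂ} (ha : ‖a‖ ≤ 2) (ha' : ‖a'‖ ≤ 2) {x : ℝ} (hx : 0 ≤ x) (m : ℕ) :
    ‖lt27 a a' x m‖ ≤ (9 * x) ^ m := by
  unfold lt27
  rw [norm_mul, norm_mul, RCLike.norm_conj, norm_pow, Complex.norm_real, Real.norm_of_nonneg hx,
    mul_pow]
  have h1 := (norm_hpoly_le27 ha m).1
  have h2 := (norm_hpoly_le27 ha' m).1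
  have h3 : ‖hpoly a m‖ * ‖hpoly a' m‖ ≤ 3 ^ m * 3 ^ m :=
    mul_le_mul h1 h2 (norm_nonneg _) (by positivity)
  have h4 : (3 : ℝ) ^ m * 3 ^ m = 9 ^ m := by
    rw [← mul_pow]; norm_num
  rw [h4] at h3
  exact mul_le_mul_of_nonneg_right h3 (by positivity)

section

variable {a a' : ℂ} (ha : ‖a‖ ≤ 2) (ha' : ‖a'‖ ≤ 2) {x : ℝ} (hx : 0 ≤ x) (hx1 : x ≤ 1 / 100)

include ha ha' hx hx1

theorem summable_norm_lt27 : Summable fun m : ℕ => ‖lt27 a a' x m‖ := by
  refine Summable.of_nonneg_of_le (fun _ => norm_nonneg _) (norm_lt27_le ha ha' hx)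
    (summable_geometric_of_lt_one (by positivity) (by linarith))

theorem tsum_norm_lt27_le : ∑' m : ℕ, ‖lt27 a a' x m‖ ≤ 1 + 10 * x := by
  have hg := summable_geometric_of_lt_one (r := 9 * x) (by positivity) (by linarith)
  have h1 : ∑' m : ℕ, ‖lt27 a a' x m‖ ≤ ∑' m : ℕ, (9 * x) ^ m :=
    (summable_norm_lt27 ha ha' hx hx1).tsum_le_tsum (norm_lt27_le ha ha' hx) hg
  rw [tsum_geometric_of_lt_one (by positivity) (by linarith)] at h1
  refine le_trans h1 ?_
  have h9 : 0 < 1 - 9 * x := by linarith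
  rw [inv_le_iff_one_le_mul₀ h9]
  nlinarith

/-- The local factor. -/
theorem norm_tsum_lt27_sub_le :
    ‖(∑' m : ℕ, lt27 a a' x m) - 1 - a * conj a' * (x : ℂ)‖ ≤ 90 * x ^ 2 := by
  have hs := summable_norm_lt27 ha ha' hx hx1
  have hsum : Summable fun m : ℕ => lt27 a a' x m := hs.of_norm
  have h2 := hsum.sum_add_tsum_nat_add 2
  rw [Finset.sum_range_succ, Finset.sum_range_one, lt27_zero, lt27_one] at h2
  have h3 : (∑' m : ℕ, lt27 a a' x m) - 1 - a * conj a' * (x : ℂ)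
      = ∑' m : ℕ, lt27 a a' x (m + 2) := by
    rw [← h2]; ring
  rw [h3]
  have hs2 : Summable fun m : ℕ => ‖lt27 a a' x (m + 2)‖ :=
    (summable_nat_add_iff 2).mpr hs
  refine le_trans (norm_tsum_le_tsum_norm hs2) ?_
  have hg := summable_geometric_of_lt_one (r := 9 * x) (by positivity) (by linarith)
  have hg2 : Summable fun m : ℕ => (9 * x) ^ 2 * (9 * x) ^ m := hg.mul_left _
  have h4 : ∑' m : ℕ, ‖lt27 a a' x (m + 2)‖ ≤ ∑' m : ℕ, (9 * x) ^ 2 * (9 * x) ^ m := by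
    refine hs2.tsum_le_tsum (fun m => ?_) hg2
    have := norm_lt27_le ha ha' hx (m + 2)
    rw [pow_add] at this
    linarith
  refine le_trans h4 ?_
  rw [tsum_mul_left, tsum_geometric_of_lt_one (by positivity) (by linarith)]
  have h9 : 0 < 1 - 9 * x := by linarith
  rw [← div_eq_mul_inv, div_le_iff₀ h9]
  nlinarith [sq_nonneg x, mul_nonneg hx (sq_nonneg x)]

theorem norm_mul_conj_le27 : ‖a * conj a'‖ ≤ 4 := by
  rw [norm_mul, RCLike.norm_conj]
  nlinarith [norm_nonneg a, norm_nonneg a']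

theorem norm_tsum_lt27_sub_one_le :
    ‖(∑' m : ℕ, lt27 a a' x m) - 1‖ ≤ 4.9 * x := by
  have h1 := norm_tsum_lt27_sub_le ha ha' hx hx1
  have h2 : (∑' m : ℕ, lt27 a a' x m) - 1
      = ((∑' m : ℕ, lt27 a a' x m) - 1 - a * conj a' * (x : ℂ)) + a * conj a' * (x : ℂ) := by
    ring
  rw [h2]
  refine le_trans (norm_add_le _ _) ?_
  have h3 : ‖a * conj a' * (x : ℂ)‖ ≤ 4 * x := by
    rw [norm_mul, Complex.norm_real, Real.norm_of_nonneg hx]
    exact mul_le_mul_of_nonneg_right (norm_mul_conj_le27 ha ha' hx hx1) hx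
  nlinarith

theorem tsum_lt27_ne_zero : (∑' m : ℕ, lt27 a a' x m) ≠ 0 := by
  intro h0
  have h1 := norm_tsum_lt27_sub_one_le ha ha' hx hx1
  rw [h0, zero_sub, norm_neg, norm_one] at h1
  linarith

theorem abs_log_norm_tsum_lt27_sub_le :
    |Real.log ‖∑' m : ℕ, lt27 a a' x m‖ - (a * conj a').re * x| ≤ 115 * x ^ 2 := by
  set F := ∑' m : ℕ, lt27 a a' x m with hF
  set u := F - 1 with hu
  have hu1 : ‖u‖ ≤ 4.9 * x := norm_tsum_lt27_sub_one_le ha ha' hx hx1
  have hu2 : ‖u‖ ≤ 1 / 2 := by linarith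
  have hF1 : F = 1 + u := by rw [hu]; ring
  have hlog := Complex.norm_log_one_add_sub_self_le (z := u) (by linarith)
  have hre : Real.log ‖F‖ = (Complex.log (1 + u)).re := by
    rw [Complex.log_re, hF1]
  have h1 : ‖Complex.log (1 + u) - u‖ ≤ ‖u‖ ^ 2 := by
    refine le_trans hlog ?_
    have h3 : (1 - ‖u‖)⁻¹ ≤ 2 := by
      rw [inv_le_comm₀ (by linarith) (by norm_num)]
      linarith
    have h4 : 0 ≤ ‖u‖ ^ 2 := sq_nonneg _
    nlinarith
  have h2 : ‖u - a * conj a' * (x : ℂ)‖ ≤ 90 * x ^ 2 := by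
    have := norm_tsum_lt27_sub_le ha ha' hx hx1
    rwa [← hF, ← hu] at this
  have h5 : Real.log ‖F‖ - (a * conj a').re * x
      = (Complex.log (1 + u) - u).re + (u - a * conj a' * (x : ℂ)).re := by
    rw [hre]
    simp only [Complex.sub_re, Complex.mul_re, Complex.ofReal_re, Complex.ofReal_im, mul_zero,
      sub_zero]
    ring
  rw [h5]
  have h6 := Complex.abs_re_le_norm (Complex.log (1 + u) - u)
  have h7 := Complex.abs_re_le_norm (u - a * conj a' * (x : ℂ))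
  have h8 : ‖u‖ ^ 2 ≤ (4.9 * x) ^ 2 := pow_le_pow_left₀ (norm_nonneg _) hu1 2
  calc |(Complex.log (1 + u) - u).re + (u - a * conj a' * (x : ℂ)).re|
      ≤ |(Complex.log (1 + u) - u).re| + |(u - a * conj a' * (x : ℂ)).re| := abs_add_le _ _
    _ ≤ ‖u‖ ^ 2 + 90 * x ^ 2 := by linarith
    _ ≤ 115 * x ^ 2 := by nlinarith [sq_nonneg x]

theorem abs_log_norm_tsum_lt27_le :
    |Real.log ‖∑' m : ℕ, lt27 a a' x m‖| ≤ 6 * x := by
  have h1 := abs_log_norm_tsum_lt27_sub_le ha ha' hx hx1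
  have h2 : |(a * conj a').re * x| ≤ 4 * x := by
    rw [abs_mul, abs_of_nonneg hx]
    exact mul_le_mul_of_nonneg_right
      ((Complex.abs_re_le_norm _).trans (norm_mul_conj_le27 ha ha' hx hx1)) hx
  have h3 : |Real.log ‖∑' m : ℕ, lt27 a a' x m‖|
      ≤ |Real.log ‖∑' m : ℕ, lt27 a a' x m‖ - (a * conj a').re * x| + |(a * conj a').re * x| := by
    have := abs_add_le (Real.log ‖∑' m : ℕ, lt27 a a' x m‖ - (a * conj a').re * x)
      ((a * conj a').re * x)
    simpa using this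
  nlinarith [sq_nonneg x]

end

end Fermat.Agent.LT.T7.H27

end

end
-- ===== PACK-END LT/T7/H27/EulerLocal.lean

-- ===== PACK-BEGIN LT/T7/H724/ArchULocal.lean
section










/-!
# Row LT, tower T7, leaf T7.14.6b.3 `ARCH-U`: the EXPLICIT local Whittaker function on the torus
(helper724)

OFF-MAIN.  Local part (functions on `GL₂(ℂ)`, vocabulary of `LT/T2/H973/ArchSpec.lean`,
helper973).  A local Whittaker function `f` of parameter `0` for the character
`x ↦ exp(i Re(c̄ x))`, `c ≠ 0`, is on the torus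

  `f(t(y)) = |y| K₀(|c| |y|) / K₀(|c|) · f(1)`,

where `K₀(t) = ∫₀^∞ exp(-t cosh u) du` (`besK724`).  For `c = 0` it vanishes on the torus.

* `locWhit_decSol724`   : `s ↦ e^{-s} f(t(eˢ))` is a (complex) decaying solution of
                          `h'' = |c|² e^{2s} h`
* `locWhit_torus724`    : `f(t(y)) = |y| · radOf f (log |y|)`
* `isDecSol_besK724`    : `IsDecSol k (s ↦ K₀(k eˢ))` for `k > 0`
* `decSol_prop724`      : a decaying solution is `h(s) = h(0) K₀(k eˢ) / K₀(k)`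
* `locWhit_explicit724` : the explicit formula
* `decSol_zero724`, `locWhit_zero724` : the degenerate case `c = 0`

Uses the closed leaves R1, R2, R3, L4a, L4b, L5 of T2.10.08 (helper309, helper944, helper59,
helper655, helper708, helper864).  Standard axioms only.
-/

set_option autoImplicit false

open Filter Topology

noncomputable section

namespace Fermat.Agent.LT.T7.H724

open Fermat.Agent.LT.T2 Fermat.Agent.LT.T2.H973

/-- Every local Whittaker function of parameter `0` for `exp(i Re(c̄ x))` gives a complex decaying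
solution of `h'' = |c|² e^{2s} h` (real and imaginary parts). -/
theorem locWhit_decSol724 (c : ℂ) (χ : AddChar ℂ Circle)
    (hc : ∀ x : ℂ, ((χ x : Circle) : ℂ) = chiOf c x) (f : GL (Fin 2) ℂ → ℂ)
    (hf : IsLocWhit χ f) :
    IsDecSol ‖c‖ (fun s => (radOf f s).re) ∧ IsDecSol ‖c‖ (fun s => (radOf f s).im) := by
  have hβ : IsBetaSol ‖c‖ (fun s => f (tE s)) :=
    betaFormC944 H309.sphereCoordC309 c χ f hc hf
  have hrad : IsRadSol ‖c‖ (radOf f) := H59.substC59 ‖c‖ _ (norm_nonneg c) hβ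
  have hgen := H655.genLaplC655 ‖c‖ (radOf f) hrad
  have hcontφ : Continuous (fun s : ℝ =>
      (((‖c‖ ^ 2 * Real.exp (2 * s) : ℝ) : ℂ)) * radOf f s) := by
    refine Continuous.mul ?_ hrad.1
    exact Complex.continuous_ofReal.comp
      (continuous_const.mul (Real.continuous_exp.comp (continuous_const.mul continuous_id)))
  obtain ⟨H', hH, hH'⟩ := H708.genSecondC708 (radOf f) _ hrad.1 hcontφ hgen
  -- decay
  obtain ⟨C, hC⟩ := hf.bdd
  have hdec : Tendsto (radOf f) atTop (𝓝 0) := by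
    rw [tendsto_zero_iff_norm_tendsto_zero]
    have hb : ∀ s : ℝ, ‖radOf f s‖ ≤ Real.exp (-s) * C := by
      intro s
      unfold radOf
      rw [norm_mul, Complex.norm_real, Real.norm_eq_abs, abs_of_pos (Real.exp_pos _)]
      exact mul_le_mul_of_nonneg_left (hC _) (Real.exp_pos _).le
    have hlim : Tendsto (fun s : ℝ => Real.exp (-s) * C) atTop (𝓝 0) := by
      have := (Real.tendsto_exp_neg_atTop_nhds_zero).mul_const C
      simpa using this
    exact squeeze_zero (fun s => norm_nonneg _) hb hlim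
  constructor
  · refine ⟨⟨fun s => (H' s).re, fun s => ?_, fun s => ?_⟩, ?_⟩
    · exact (Complex.reCLM.hasFDerivAt.comp_hasDerivAt s (hH s))
    · have h3 := (Complex.reCLM.hasFDerivAt.comp_hasDerivAt s (hH' s))
      have e : Complex.reCLM ((((‖c‖ ^ 2 * Real.exp (2 * s) : ℝ) : ℂ)) * radOf f s)
          = ‖c‖ ^ 2 * Real.exp (2 * s) * (radOf f s).re := by
        rw [Complex.reCLM_apply, Complex.re_ofReal_mul]
      rw [e] at h3
      exact h3
    · have h3 : Tendsto (Complex.re ∘ radOf f) atTop (𝓝 (Complex.re 0)) :=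
        (Complex.continuous_re.tendsto 0).comp hdec
      rw [Complex.zero_re] at h3
      exact h3
  · refine ⟨⟨fun s => (H' s).im, fun s => ?_, fun s => ?_⟩, ?_⟩
    · exact (Complex.imCLM.hasFDerivAt.comp_hasDerivAt s (hH s))
    · have h3 := (Complex.imCLM.hasFDerivAt.comp_hasDerivAt s (hH' s))
      have e : Complex.imCLM ((((‖c‖ ^ 2 * Real.exp (2 * s) : ℝ) : ℂ)) * radOf f s)
          = ‖c‖ ^ 2 * Real.exp (2 * s) * (radOf f s).im := by
        rw [Complex.imCLM_apply, Complex.im_ofReal_mul]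
      rw [e] at h3
      exact h3
    · have h3 : Tendsto (Complex.im ∘ radOf f) atTop (𝓝 (Complex.im 0)) :=
        (Complex.continuous_im.tendsto 0).comp hdec
      rw [Complex.zero_im] at h3
      exact h3

/-- The value on the torus: `f(t(y)) = |y| · radOf f (log |y|)` (right invariance under `U(2)`
only). -/
theorem locWhit_torus724 {f : GL (Fin 2) ℂ → ℂ}
    (hu : ∀ u h : GL (Fin 2) ℂ,
      (u : Matrix (Fin 2) (Fin 2) ℂ) * (u : Matrix (Fin 2) (Fin 2) ℂ).conjTranspose = 1 →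
        f (h * u) = f h) (y : ℂˣ) :
    f (tC y) = ((‖(y : ℂ)‖ : ℝ) : ℂ) * radOf f (Real.log ‖(y : ℂ)‖) := by
  have hn : 0 < ‖(y : ℂ)‖ := norm_pos_iff.mpr y.ne_zero
  rw [torus_abs hu y]
  unfold radOf
  rw [← mul_assoc, ← Complex.ofReal_mul, Real.exp_neg, Real.exp_log hn,
    mul_inv_cancel₀ hn.ne', Complex.ofReal_one, one_mul]

/-- `s ↦ K₀(k eˢ)` is a decaying solution of `h'' = k² e^{2s} h`. -/
theorem isDecSol_besK724 {k : ℝ} (hk : 0 < k) :
    IsDecSol k (fun s : ℝ => besK724 (k * Real.exp s)) :=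
  besK_decSol724 hk

/-- A decaying solution of `h'' = k² e^{2s} h`, `k > 0`, is a multiple of `K₀(k eˢ)`. -/
theorem decSol_prop724 {k : ℝ} (hk : 0 < k) {h : ℝ → ℝ} (hh : IsDecSol k h) (s : ℝ) :
    h s = h 0 * (besK724 (k * Real.exp s) / besK724 k) := by
  have hK : 0 < besK724 k := besK_pos724 hk
  have h0 : besK724 (k * Real.exp 0) = besK724 k := by rw [Real.exp_zero, mul_one]
  have e1 := H864.odeUniqC864 k _ (isDecSol_sub_smul hh (isDecSol_besK724 hk) (h 0 / besK724 k))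
    ⟨0, by
      show h 0 - h 0 / besK724 k * besK724 (k * Real.exp 0) = 0
      rw [h0, div_mul_cancel₀ _ hK.ne', sub_self]⟩ s
  have e1' : h s = h 0 / besK724 k * besK724 (k * Real.exp s) := sub_eq_zero.mp e1
  rw [e1']
  ring

/-- **The explicit local Whittaker function on the torus.**  A local Whittaker function `f` of
parameter `0` for the character `x ↦ exp(i Re(c̄ x))`, `c ≠ 0`, satisfies
`f(t(y)) = |y| K₀(|c| |y|) / K₀(|c|) · f(1)`. -/
theorem locWhit_explicit724 (c : ℂ) (hc0 : c ≠ 0) (χ : AddChar ℂ Circle)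
    (hc : ∀ x : ℂ, ((χ x : Circle) : ℂ) = chiOf c x) (f : GL (Fin 2) ℂ → ℂ)
    (hf : IsLocWhit χ f) (y : ℂˣ) :
    f (tC y)
      = ((‖(y : ℂ)‖ * besK724 (‖c‖ * ‖(y : ℂ)‖) / besK724 ‖c‖ : ℝ) : ℂ) * f 1 := by
  have hk : 0 < ‖c‖ := norm_pos_iff.mpr hc0
  have hn : 0 < ‖(y : ℂ)‖ := norm_pos_iff.mpr y.ne_zero
  obtain ⟨hre, him⟩ := locWhit_decSol724 c χ hc f hf
  have e1 := decSol_prop724 hk hre (Real.log ‖(y : ℂ)‖)
  have e2 := decSol_prop724 hk him (Real.log ‖(y : ℂ)‖)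
  rw [Real.exp_log hn] at e1 e2
  have hprop : radOf f (Real.log ‖(y : ℂ)‖)
      = ((besK724 (‖c‖ * ‖(y : ℂ)‖) / besK724 ‖c‖ : ℝ) : ℂ) * radOf f 0 := by
    apply Complex.ext
    · rw [Complex.re_ofReal_mul]
      show (radOf f (Real.log ‖(y : ℂ)‖)).re = _
      rw [e1]
      ring
    · rw [Complex.im_ofReal_mul]
      show (radOf f (Real.log ‖(y : ℂ)‖)).im = _
      rw [e2]
      ring
  rw [locWhit_torus724 hf.unitary y, hprop, radOf_zero, ← mul_assoc, ← Complex.ofReal_mul,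
    mul_div_assoc]

/-- For `k = 0` a decaying solution (`h'' = 0`, `h → 0`) vanishes. -/
theorem decSol_zero724 {h : ℝ → ℝ} (hh : IsDecSol 0 h) (s : ℝ) : h s = 0 := by
  obtain ⟨⟨h', hd, hd'⟩, ht⟩ := hh
  -- `h'` is constant
  have hconst : ∀ x y : ℝ, h' x = h' y := by
    apply is_const_of_deriv_eq_zero
    · intro x
      exact (hd' x).differentiableAt
    · intro x
      have := (hd' x).deriv
      rw [this]
      ring
  -- `h` is affine
  set a := h' 0 with ha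
  have haff : ∀ x : ℝ, h x = a * x + h 0 := by
    have hder : ∀ x : ℝ, HasDerivAt (fun t : ℝ => h t - a * t) 0 x := by
      intro x
      have h1 : HasDerivAt (fun t : ℝ => h t - a * t) (h' x - a * 1) x :=
        (hd x).sub ((hasDerivAt_id x).const_mul a)
      have e : h' x - a * 1 = 0 := by rw [hconst x 0]; ring
      rw [e] at h1
      exact h1
    have hz : ∀ x y : ℝ, (fun t => h t - a * t) x = (fun t => h t - a * t) y := by
      apply is_const_of_deriv_eq_zero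
      · intro x
        exact (hder x).differentiableAt
      · intro x
        exact (hder x).deriv
    intro x
    have := hz x 0
    simp only [mul_zero, sub_zero] at this
    linarith
  -- the limit forces `a = 0`, then `h 0 = 0`
  have ha0 : a = 0 := by
    by_contra hne
    have hlim : Tendsto (fun x : ℝ => a * x + h 0) atTop (𝓝 0) := ht.congr haff
    rcases lt_or_gt_of_ne hne with hneg | hpos
    · have h1 : Tendsto (fun x : ℝ => a * x + h 0) atTop atBot :=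
        tendsto_atBot_add_const_right _ _ (tendsto_id.const_mul_atTop_of_neg hneg)
      exact not_tendsto_nhds_of_tendsto_atBot h1 0 hlim
    · have h1 : Tendsto (fun x : ℝ => a * x + h 0) atTop atTop :=
        tendsto_atTop_add_const_right _ _ (tendsto_id.const_mul_atTop hpos)
      exact not_tendsto_nhds_of_tendsto_atTop h1 0 hlim
  have hc : ∀ x : ℝ, h x = h 0 := by
    intro x
    rw [haff x, ha0]
    ring
  have h00 : h 0 = 0 := by
    have hlim : Tendsto (fun _ : ℝ => h 0) atTop (𝓝 0) := ht.congr hc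
    exact tendsto_nhds_unique tendsto_const_nhds hlim
  rw [hc s, h00]

/-- For the trivial character a local Whittaker function of parameter `0` vanishes on the torus. -/
theorem locWhit_zero724 (χ : AddChar ℂ Circle)
    (hc : ∀ x : ℂ, ((χ x : Circle) : ℂ) = chiOf 0 x) (f : GL (Fin 2) ℂ → ℂ)
    (hf : IsLocWhit χ f) (y : ℂˣ) : f (tC y) = 0 := by
  obtain ⟨hre, him⟩ := locWhit_decSol724 0 χ hc f hf
  rw [norm_zero] at hre him
  have hz : radOf f (Real.log ‖(y : ℂ)‖) = 0 := by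
    apply Complex.ext
    · exact decSol_zero724 hre _
    · exact decSol_zero724 him _
  rw [locWhit_torus724 hf.unitary y, hz, mul_zero]

end Fermat.Agent.LT.T7.H724

end

end
-- ===== PACK-END LT/T7/H724/ArchULocal.lean

-- ===== PACK-BEGIN LT/H51/MS4E.lean
section



/-!
# Row LT, tower T8, sub-leaf `HoroC` (MS4b, ADELIC), part E (helper51, sub-architect): SPEC

OFF-MAIN.  On `A0.lean` (556), `T8/H864/Local.lean` (864) and `H51/MS4{A,B,C,D}.lean`.

The ONLY inputs of `HoroC` that are not proved in `H51/MS4*.lean`: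

* `HeckeSumQ π φ`   -- the `T_p`-clause of `A0.IsHeckeEigenAt` for the explicit coset system
  `{[[p, -jM], [0, 1]]_p : j < p} ∪ {[[1, 0], [0, p]]_p}` (representatives `≡ 0 mod M`);
* `HeckeScalarQ π φ` -- the `S_p`-clause for the scalar `[[p, 0], [0, p]]_p`.

Both are immediate from MS3 (`T8/H864/Coset.lean`: `isHeckeCosetSystem_rat`,
`isScalarUniformizerAt_triAd`) once `absNorm (vP p).asIdeal = p` is known.

Vocabulary: `ut a b d = [[a, b], [0, d]] ∈ GL₂(F)` (`MS4D`), `vP p hp` = the place of `ℚ` over `p`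
(`MS4D`), `locFinK v γ` = the element with component `γ` at `v` (`Local.lean`).
-/

set_option autoImplicit false

open IsDedekindDomain NumberField AutomorphicForm
open scoped MatrixGroups Classical WithZero

noncomputable section

namespace Fermat.Agent.LT.H51.MS4

open Fermat.Agent.LT.H556.A0 Fermat.Agent.LT.T8.H864

/-- **Leaf HECKE-SUM (raw).**  The `T_p`-eigenvalue equation on the explicit coset system with
representatives `-jM`, `j < p`. -/
def HeckeSumQ (π : HeckeEigensystem ℚ ℂ) (φ : G ℚ → ℂ) : Prop :=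
  ∀ (p : ℕ) (hp : p.Prime), ¬ (vP p hp).asIdeal ∣ π.level → ∀ M : ℕ, ¬ p ∣ M → ∀ g : G ℚ,
    ∑ j ∈ Finset.range p, φ (g * locFinK (vP p hp) (ut (p : ℚ) (-((j : ℚ) * (M : ℚ))) 1))
      + φ (g * locFinK (vP p hp) (ut (1 : ℚ) 0 (p : ℚ)))
    = ((Real.sqrt (p : ℝ) : ℝ) : ℂ) * π.a (vP p hp) * φ g

/-- **Leaf HECKE-SCALAR (raw).**  The `S_p`-eigenvalue equation for the scalar `p` at `p`. -/
def HeckeScalarQ (π : HeckeEigensystem ℚ ℂ) (φ : G ℚ → ℂ) : Prop :=
  ∀ (p : ℕ) (hp : p.Prime), ¬ (vP p hp).asIdeal ∣ π.level → ∀ g : G ℚ,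
    φ (g * locFinK (vP p hp) (ut (p : ℚ) 0 (p : ℚ))) = π.b (vP p hp) * φ g

/-- **Leaf HECKE-RAW** = both clauses, for every cusp form of `A0`. -/
def HeckeRawC : Prop :=
  ∀ (π : HeckeEigensystem ℚ ℂ) (φ : G ℚ → ℂ), IsSph0CuspFormFor π φ →
    HeckeSumQ π φ ∧ HeckeScalarQ π φ

end Fermat.Agent.LT.H51.MS4

end

end
-- ===== PACK-END LT/H51/MS4E.lean

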