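import Mathlib
import Fermat.Agent.Pack.LT2.E10L2
import Fermat.Agent.Pack.LT2.E10L3
import Fermat.Agent.Pack.LT2.E10L1
import Fermat.Agent.Pack.LT2.E10L0
import Fermat.Agent.Pack.LT2.E7L1
import Fermat.Agent.Pack.LT2.E3L1
import Fermat.Agent.Pack.LT2.E1L1
import Fermat.Agent.Pack.LT2.E2L2
import Fermat.Agent.Pack.LT2.E6L3
import Fermat.Agent.Pack.LT2.E7L3
import Fermat.Agent.Pack.LT2.E11L2
import Fermat.Agent.Pack.LT2.E9L3
import Fermat.Agent.Pack.LT2.E11L3
import Fermat.Agent.Pack.LT2.E7L2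
import Fermat.Agent.Pack.S44C.G0E10L1
import Fermat.Agent.Pack.LT2.E11L0
import Fermat.Agent.Pack.LT2.E2L0
import Fermat.Agent.Pack.LT2.E9L1

set_option linter.all false

-- ===== PACK-BEGIN LT/T2/H557/CutMat.lean
section


/-!
# Row LT, tower T2, station T2.10 (`SMO_AA`), leaf T2.10.10 `CutoffC` (helper557), OFF-MAIN

Part 3 (matrix identities for the unipotent elements `n(x)` and the torus elements `diag(y, 1)`).
-/

set_option autoImplicit false

open IsDedekindDomain NumberField MeasureTheory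
open Fermat.Agent.LT.H556.A0
open Fermat.Agent.LT.T2.H941 Fermat.Agent.LT.T2.H333

noncomputable section

namespace Fermat.Agent.LT.T2.H557

variable {K : Type} [Field K] [NumberField K]

theorem finComp_unip557 (v : HeightOneSpectrum (𝓞 K)) (x : Adl K) :
    finComp v (T3.unip K x) = !![1, evF333 v x; 0, 1] := by
  ext i j
  fin_cases i <;> fin_cases j <;> rfl

theorem infMap_unip557 (w : InfinitePlace K) (x : Adl K) :
    ((T3.unip K x : G K) : Matrix (Fin 2) (Fin 2) (Adl K)).map (evI333 w)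
      = !![1, evI333 w x; 0, 1] := by
  ext i j
  fin_cases i <;> fin_cases j <;> rfl

theorem finComp_tor557 (v : HeightOneSpectrum (𝓞 K)) (y : (Adl K)ˣ) :
    finComp v (tor y) = !![evF333 v (y : Adl K), 0; 0, 1] := by
  ext i j
  fin_cases i <;> fin_cases j <;> rfl

theorem infMap_tor557 (w : InfinitePlace K) (y : (Adl K)ˣ) :
    ((tor y : G K) : Matrix (Fin 2) (Fin 2) (Adl K)).map (evI333 w)
      = !![evI333 w (y : Adl K), 0; 0, 1] := by
  ext i j
  fin_cases i <;> fin_cases j <;> rfl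

theorem unip_inv557 (x : Adl K) : (T3.unip K x)⁻¹ = T3.unip K (-x) := by
  apply Units.ext
  ext i j
  fin_cases i <;> fin_cases j <;> simp [T3.unip]

theorem tor_inv557 (y : (Adl K)ˣ) : (tor y)⁻¹ = tor y⁻¹ := by
  apply Units.ext
  ext i j
  fin_cases i <;> fin_cases j <;> simp [tor]

theorem tor_mul557 (y z : (Adl K)ˣ) : tor (y * z) = tor y * tor z := by
  apply Units.ext
  ext i j
  fin_cases i <;> fin_cases j <;> simp [tor, Matrix.mul_apply, Fin.sum_univ_two]

theorem tor_mul_unip557 (y : (Adl K)ˣ) (x : Adl K) :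
    tor y * T3.unip K x = T3.unip K ((y : Adl K) * x) * tor y := by
  apply Units.ext
  ext i j
  fin_cases i <;> fin_cases j <;> simp [tor, T3.unip, Matrix.mul_apply, Fin.sum_univ_two]

/-! ## Elements supported at `v` -/

theorem isUnipAt_unip_loc557 (v : HeightOneSpectrum (𝓞 K)) (u : v.adicCompletion K) :
    IsUnipAt v (T3.unip K (loc557 v u)) u := by
  refine ⟨⟨fun w => ?_, fun v' h => ?_⟩, ?_⟩
  · rw [trivAtInf_iff333, infMap_unip557, evI333_loc557, Matrix.one_fin_two]
  · show finComp v' (T3.unip K (loc557 v u)) = 1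
    rw [finComp_unip557, evF333_loc557_ne h, Matrix.one_fin_two]
  · rw [finComp_unip557, evF333_loc557_self]

theorem isLocalAtFin_tor557 {v : HeightOneSpectrum (𝓞 K)} {y : (Adl K)ˣ}
    (hy : IsIdeleAtFin v y) : IsLocalAtFin v (tor y) := by
  refine ⟨fun w => ?_, fun v' h => ?_⟩
  · rw [trivAtInf_iff333, infMap_tor557, Matrix.one_fin_two]
    have : evI333 w (y : Adl K) = 1 := hy.1 w
    rw [this]
  · show finComp v' (tor y) = 1
    rw [finComp_tor557, Matrix.one_fin_two]
    have : evF333 v' (y : Adl K) = 1 := hy.2 v' h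
    rw [this]

theorem evF333_mul_inv557 (v : HeightOneSpectrum (𝓞 K)) (y : (Adl K)ˣ) :
    evF333 v (y : Adl K) * evF333 v ((y⁻¹ : (Adl K)ˣ) : Adl K) = 1 := by
  rw [← map_mul, ← Units.val_mul, mul_inv_cancel, Units.val_one, map_one]

theorem evI333_mul_inv557 (w : InfinitePlace K) (y : (Adl K)ˣ) :
    evI333 w (y : Adl K) * evI333 w ((y⁻¹ : (Adl K)ˣ) : Adl K) = 1 := by
  rw [← map_mul, ← Units.val_mul, mul_inv_cancel, Units.val_one, map_one]

theorem evF333_unit_ne_zero557 (v : HeightOneSpectrum (𝓞 K)) (y : (Adl K)ˣ) :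
    evF333 v (y : Adl K) ≠ 0 := by
  intro h
  have := evF333_mul_inv557 v y
  rw [h, zero_mul] at this
  exact zero_ne_one this

theorem evF333_inv557 (v : HeightOneSpectrum (𝓞 K)) (y : (Adl K)ˣ) :
    evF333 v ((y⁻¹ : (Adl K)ˣ) : Adl K) = (evF333 v (y : Adl K))⁻¹ :=
  eq_inv_of_mul_eq_one_right (evF333_mul_inv557 v y)

theorem isIdeleAtFin_inv557 {v : HeightOneSpectrum (𝓞 K)} {y : (Adl K)ˣ}
    (hy : IsIdeleAtFin v y) : IsIdeleAtFin v y⁻¹ := by
  refine ⟨fun w => ?_, fun v' h => ?_⟩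
  · have h1 := evI333_mul_inv557 w y
    have h2 : evI333 w (y : Adl K) = 1 := hy.1 w
    rw [h2, one_mul] at h1
    exact h1
  · have h1 := evF333_mul_inv557 v' y
    have h2 : evF333 v' (y : Adl K) = 1 := hy.2 v' h
    rw [h2, one_mul] at h1
    exact h1

theorem isIdeleAtFin_mul557 {v : HeightOneSpectrum (𝓞 K)} {y z : (Adl K)ˣ}
    (hy : IsIdeleAtFin v y) (hz : IsIdeleAtFin v z) : IsIdeleAtFin v (y * z) := by
  refine ⟨fun w => ?_, fun v' h => ?_⟩
  · show evI333 w ((y * z : (Adl K)ˣ) : Adl K) = 1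
    have h1 : evI333 w (y : Adl K) = 1 := hy.1 w
    have h2 : evI333 w (z : Adl K) = 1 := hz.1 w
    rw [Units.val_mul, map_mul, h1, h2, one_mul]
  · show evF333 v' ((y * z : (Adl K)ˣ) : Adl K) = 1
    have h1 : evF333 v' (y : Adl K) = 1 := hy.2 v' h
    have h2 : evF333 v' (z : Adl K) = 1 := hz.2 v' h
    rw [Units.val_mul, map_mul, h1, h2, one_mul]

end Fermat.Agent.LT.T2.H557

end

end
-- ===== PACK-END LT/T2/H557/CutMat.lean

-- ===== PACK-BEGIN LT/T2/H973/ArchClosed.lean
section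














/-!
# Row LT, tower T2, leaf T2.10.08 `ArchTorusC` (complex place): CLOSED (helper973)

OFF-MAIN.  Registry row 1101 of the station T2.10 `SMO_AA` (helper941, `LT/T2/H941/SmoSpec.lean`
v2, sha256 14c4d13ef051).  UNCONDITIONAL:

* `leaf08_973 K : H941.Leaf08 K`               (`T1.T1Out K → ArchTorusC K`)
* `archTorusC973 K : T1.T1Out K → H941.ArchTorusC K`
* `archTorusStrongC973 K : T1.T1Out K → ArchTorusStrongC K`   (the form of SmoSpec v1: `κ 1 = 1`,
  `κ` without zeros)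
* `locUniqC973 : LocUniqC`                      (Mathlib only statement: local uniqueness on `GL₂(ℂ)`)

The eleven sub-leaves of `ArchSpec.lean` (sha256 6e234a4a0ea7), byte-identical copies:

| sub-leaf | Prop | owner | file |
|---|---|---|---|
| A1 | `WhEquivC K`   | helper8   | `LT/T2/H8/WhEquiv.lean` |
| A2 | `WhContC K`    | helper264 | `LT/T2/H264/WhCont.lean` |
| A3 | `WhMeanC K`    | helper600 | `LT/T2/H600/WhMean.lean` (+ `LT/T2/H472/LocCont.lean`, helper472) |
| A4 | `LocEmbC K`    | helper546 | `LT/T2/H973/H546/LocEmb.lean` (+ `LT/T1/H793/AdeleProj.lean`, helper793) |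
| L1 | `CharClassC`   | helper98  | `LT/T2/H98/{CharAbs,CharClass}.lean` |
| R1 | `SphereCoordC` | helper309 | `LT/T2/H309/SphereCoord.lean` |
| R2 | `BetaFormC`    | helper944 | `LT/T2/H944/BetaForm.lean` |
| R3 | `SubstC`       | helper59  | `LT/T2/H59/Subst.lean` |
| L4a | `GenLaplC`    | helper655 | `LT/T2/H655/GenLapl.lean` |
| L4b | `GenSecondC`  | helper708 | `LT/T2/H708/{GenSecondCore,GenSecond}.lean` |
| L5 | `OdeUniqC`     | helper864 | `LT/T2/H864/{OdeCore,OdeUniq}.lean` |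

Tops: `ArchTop.lean` (helper973).  Standard axioms only.
-/

set_option autoImplicit false

open IsDedekindDomain NumberField MeasureTheory AutomorphicForm
open Fermat.Agent.LT.H556.A0

noncomputable section

namespace Fermat.Agent.LT.T2.H973

/-- **LOCAL UNIQUENESS on `GL₂(ℂ)`** (parameter `0`), unconditional. -/
theorem locUniqC973 : LocUniqC :=
  locUniq_of_leaves H98.charClassC98 H309.sphereCoordC309 betaFormC944 H59.substC59
    H655.genLaplC655 H708.genSecondC708 H864.odeUniqC864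

/-- The strong form (SmoSpec v1) of `ArchTorusC`. -/
theorem archTorusStrongC973 (K : Type) [Field K] [NumberField K] (hT1 : T1.T1Out K) :
    ArchTorusStrongC K :=
  archTorusStrong_of_leaves K (H8.whEquivC_h8 K) (H264.whContC264 K) (H600.whMeanC600 K)
    (H546.locEmbC_h546 K) locUniqC973 hT1

/-- `H941.ArchTorusC K` (SmoSpec v2). -/
theorem archTorusC973 (K : Type) [Field K] [NumberField K] (hT1 : T1.T1Out K) :
    H941.ArchTorusC K :=
  archTorus_of_leaves K (H8.whEquivC_h8 K) (H264.whContC264 K) (H600.whMeanC600 K)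
    (H546.locEmbC_h546 K) locUniqC973 hT1

/-- **Registry row 1101: `H941.Leaf08 K`, CLOSED.** -/
theorem leaf08_973 (K : Type) [Field K] [NumberField K] : H941.Leaf08 K :=
  archTorusC973 K

end Fermat.Agent.LT.T2.H973

end

end
-- ===== PACK-END LT/T2/H973/ArchClosed.lean

-- ===== PACK-BEGIN LT/T3/H127/Nondeg.lean
section



/-!
# Row LT, tower T3, leaf T3.03 (helper127): local non-triviality of a standard character

OFF-MAIN.

A continuous character of `𝔸_K` which is trivial on `K` and on the adeles supported at ONE place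
(finite or infinite) is trivial (strong approximation, in the dual form).

* `trivial_of_trivial_at_inf`, `trivial_of_trivial_at_fin`.
-/

set_option autoImplicit false

open NumberField IsDedekindDomain IsDedekindDomain.HeightOneSpectrum

noncomputable section

namespace Fermat.Agent.LT.T3.H127

theorem eq_one_of_forall_mem_nhds (z : Circle) (h : ∀ V ∈ nhds (1 : Circle), z ∈ V) : z = 1 := by
  by_contra hne
  have h1 : ({z}ᶜ : Set Circle) ∈ nhds (1 : Circle) :=
    isOpen_compl_singleton.mem_nhds (by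
      simp only [Set.mem_compl_iff, Set.mem_singleton_iff]
      exact fun h => hne h.symm)
  exact (h _ h1) rfl

variable (K : Type) [Field K] [NumberField K]

/-- the diagonal embedding. -/
abbrev embA : K →+* AdeleRing (𝓞 K) K := algebraMap K (AdeleRing (𝓞 K) K)

theorem map_split (ψ : AddChar (AdeleRing (𝓞 K) K) Circle) (x : AdeleRing (𝓞 K) K) :
    ψ x = ψ (infA K x.1) * ψ (finA K x.2) := by
  rw [← AddChar.map_add_eq_mul, infA_add_finA]

/-- the norm at an infinite place of a principal adele. -/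
theorem norm_embA_fst (k : K) (w : InfinitePlace K) : ‖(embA K k).1 w‖ = w k := by
  change ‖((k : K) : w.Completion)‖ = _
  rw [InfinitePlace.Completion.norm_coe]
  rfl

theorem embA_mul_fst (k : K) (b : AdeleRing (𝓞 K) K) (w : InfinitePlace K) :
    (embA K k * b).1 w = (embA K k).1 w * b.1 w := rfl

theorem embA_mul_snd (k : K) (b : AdeleRing (𝓞 K) K) (v : HeightOneSpectrum (𝓞 K)) :
    (embA K k * b).2 v = loc K v k * b.2 v := rfl

/-- **Reduction to the compact box.**  For a character trivial on `K` and `lam ∈ Kˣ`, every value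
of `ψ` is a value on `lam · adeleBox`. -/
theorem exists_box_rep (ψ : AddChar (AdeleRing (𝓞 K) K) Circle)
    (htriv : ∀ ξ : K, ψ (embA K ξ) = 1) (lam : K) (hlam : lam ≠ 0) (a : AdeleRing (𝓞 K) K) :
    ∃ b ∈ Fermat.Agent.LT.H767.adeleBox K, ψ a = ψ (embA K lam * b) := by
  obtain ⟨k, hk⟩ := Fermat.Agent.LT.H767.exists_sub_mem_adeleBox K (embA K lam⁻¹ * a)
  refine ⟨_, hk, ?_⟩
  have h1 : a = embA K lam * (embA K lam⁻¹ * a - embA K k) + embA K (lam * k) := by
    have h2 : embA K lam * embA K lam⁻¹ = 1 := by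
      rw [← map_mul, mul_inv_cancel₀ hlam, map_one]
    rw [map_mul]
    calc a = (embA K lam * embA K lam⁻¹) * a := by rw [h2, one_mul]
      _ = _ := by ring
  conv_lhs => rw [h1]
  rw [AddChar.map_add_eq_mul, htriv, mul_one]


/-- the sum of the absolute values of `k` at the infinite places. -/
def infSize (k : K) : ℝ := ∑ w : InfinitePlace K, w k

theorem le_infSize (k : K) (w : InfinitePlace K) : w k ≤ infSize K k :=
  Finset.single_le_sum (f := fun w : InfinitePlace K => w k)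
    (fun _ _ => AbsoluteValue.nonneg _ _) (Finset.mem_univ w)

theorem infSize_nonneg (k : K) : 0 ≤ infSize K k :=
  Finset.sum_nonneg fun _ _ => AbsoluteValue.nonneg _ _

/-- the arithmetic of the radii. -/
theorem radius_aux {r C D x y z : ℝ} (hr : 0 < r) (hC : 0 ≤ C) (hD : 0 ≤ D)
    (_hx0 : 0 ≤ x) (hx : x ≤ D) (hy0 : 0 ≤ y) (hy : y ≤ r / ((C + 1) * (D + 1)))
    (hz0 : 0 ≤ z) (hz : z ≤ C) : x * y * z < r := by
  have hpos : 0 < (C + 1) * (D + 1) := by positivity
  have h1 : x * y * z ≤ D * (r / ((C + 1) * (D + 1))) * C := by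
    gcongr
  have h2 : D * (r / ((C + 1) * (D + 1))) * C < r := by
    rw [show D * (r / ((C + 1) * (D + 1))) * C = r * (D * C) / ((C + 1) * (D + 1)) by ring,
      div_lt_iff₀ hpos]
    have : D * C < (C + 1) * (D + 1) := by nlinarith
    exact mul_lt_mul_of_pos_left this hr
  exact lt_of_le_of_lt h1 h2

/-- **Local non-triviality at an infinite place.**  A continuous character of the adeles which is
trivial on `K` and on the adeles supported at the infinite place `w₀` is trivial. -/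
theorem trivial_of_trivial_at_inf (ψ : AddChar (AdeleRing (𝓞 K) K) Circle) (hc : Continuous ψ)
    (htriv : ∀ ξ : K, ψ (embA K ξ) = 1) (w₀ : InfinitePlace K)
    (hloc : ∀ t : InfiniteAdeleRing K, (∀ w, w ≠ w₀ → t w = 0) → ψ (infA K t) = 1)
    (a : AdeleRing (𝓞 K) K) : ψ a = 1 := by
  classical
  apply eq_one_of_forall_mem_nhds
  intro V hV
  obtain ⟨d, hd0, hd⟩ := exists_level K ψ hc
  obtain ⟨r, hr, hrV⟩ := exists_radius K ψ hc V hV
  have hC : 0 ≤ Fermat.Agent.LT.H767.infBound K := Fermat.Agent.LT.H767.infBound_nonneg K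
  set C := Fermat.Agent.LT.H767.infBound K with hCdef
  set D := infSize K (d : K) with hDdef
  have hD : 0 ≤ D := infSize_nonneg K _
  have hε : 0 < r / ((C + 1) * (D + 1)) := by positivity
  obtain ⟨y, hy0, hy⟩ := exists_int_small_away K w₀ _ hε
  have hdK : (d : K) ≠ 0 := by simpa using hd0
  have hyK : (y : K) ≠ 0 := by simpa using hy0
  obtain ⟨b, hb, hab⟩ := exists_box_rep K ψ htriv ((d : K) * (y : K)) (mul_ne_zero hdK hyK) a
  rw [hab, map_split]
  set c := embA K ((d : K) * (y : K)) * b with hcdef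
  -- the finite part lies in the level set
  have hfin : ψ (finA K c.2) = 1 := by
    apply hd
    intro v
    rw [hcdef, embA_mul_snd, norm_mul]
    have h1 : loc K v ((d : K) * (y : K)) = loc K v (d : K) * loc K v (y : K) := by simp [loc]
    rw [h1, norm_mul]
    have h2 : ‖b.2 v‖ ≤ 1 := by
      rw [Valued.toNormedField.norm_le_one_iff]
      exact (mem_adicCompletionIntegers _ _ _).mp (hb.2 v)
    have h3 := norm_loc_int_le_one K v y
    calc ‖loc K v (d : K)‖ * ‖loc K v (y : K)‖ * ‖b.2 v‖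
        ≤ ‖loc K v (d : K)‖ * 1 * 1 := by gcongr
      _ = _ := by ring
  rw [hfin, mul_one]
  -- split the infinite part
  set t₂ : InfiniteAdeleRing K := fun w => if w = w₀ then c.1 w else 0 with ht₂
  have ht₂' : ∀ w, w ≠ w₀ → t₂ w = 0 := by
    intro w hw
    simp [ht₂, hw]
  have ht₂0 : t₂ w₀ = c.1 w₀ := by simp [ht₂]
  have hsplit : c.1 = (c.1 - t₂) + t₂ := by ring
  rw [hsplit, infA_add, AddChar.map_add_eq_mul, hloc t₂ ht₂', mul_one]
  apply hrV
  intro w
  by_cases hw : w = w₀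
  · subst hw
    have : (c.1 - t₂) w = c.1 w - t₂ w := rfl
    rw [this, ht₂0, sub_self, norm_zero]
    exact hr
  · have h1 : (c.1 - t₂) w = c.1 w - t₂ w := rfl
    rw [h1, ht₂' w hw, sub_zero, hcdef, embA_mul_fst, norm_mul, norm_embA_fst, map_mul]
    exact radius_aux hr hC hD (AbsoluteValue.nonneg _ _) (le_infSize K _ w)
      (AbsoluteValue.nonneg _ _) (hy w hw).le (norm_nonneg _) (hb.1 w)

/-- the finite adele supported at `v₀` with component `x`. -/
def singleFin (v₀ : HeightOneSpectrum (𝓞 K)) (x : v₀.adicCompletion K) :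
    FiniteAdeleRing (𝓞 K) K :=
  letI : DecidableEq (HeightOneSpectrum (𝓞 K)) := Classical.decEq _
  RestrictedProduct.single (fun v : HeightOneSpectrum (𝓞 K) => v.adicCompletionIntegers K) v₀ x

theorem singleFin_same (v₀ : HeightOneSpectrum (𝓞 K)) (x : v₀.adicCompletion K) :
    singleFin K v₀ x v₀ = x := by
  unfold singleFin
  letI : DecidableEq (HeightOneSpectrum (𝓞 K)) := Classical.decEq _
  exact RestrictedProduct.single_eq_same
    (fun v : HeightOneSpectrum (𝓞 K) => v.adicCompletionIntegers K) v₀ x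

theorem singleFin_of_ne (v₀ : HeightOneSpectrum (𝓞 K)) (x : v₀.adicCompletion K)
    (v : HeightOneSpectrum (𝓞 K)) (hv : v ≠ v₀) : singleFin K v₀ x v = 0 := by
  unfold singleFin
  letI : DecidableEq (HeightOneSpectrum (𝓞 K)) := Classical.decEq _
  exact RestrictedProduct.single_eq_of_ne
    (fun v : HeightOneSpectrum (𝓞 K) => v.adicCompletionIntegers K) x hv

/-- **Local non-triviality at a finite place.**  A continuous character of the adeles which is
trivial on `K` and on the adeles supported at the finite place `v₀` is trivial. -/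
theorem trivial_of_trivial_at_fin (ψ : AddChar (AdeleRing (𝓞 K) K) Circle) (hc : Continuous ψ)
    (htriv : ∀ ξ : K, ψ (embA K ξ) = 1) (v₀ : HeightOneSpectrum (𝓞 K))
    (hloc : ∀ f : FiniteAdeleRing (𝓞 K) K, (∀ v, v ≠ v₀ → f v = 0) → ψ (finA K f) = 1)
    (a : AdeleRing (𝓞 K) K) : ψ a = 1 := by
  classical
  apply eq_one_of_forall_mem_nhds
  intro V hV
  obtain ⟨d, hd0, hd⟩ := exists_level K ψ hc
  obtain ⟨r, hr, hrV⟩ := exists_radius K ψ hc V hV
  have hC : 0 ≤ Fermat.Agent.LT.H767.infBound K := Fermat.Agent.LT.H767.infBound_nonneg K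
  set C := Fermat.Agent.LT.H767.infBound K with hCdef
  set D := infSize K (d : K) with hDdef
  have hD : 0 ≤ D := infSize_nonneg K _
  have hε : 0 < r / ((C + 1) * (D + 1)) := by positivity
  obtain ⟨y, hyK, hyw, hyv⟩ := exists_small_away_fin K v₀ _ hε
  have hdK : (d : K) ≠ 0 := by simpa using hd0
  obtain ⟨b, hb, hab⟩ := exists_box_rep K ψ htriv ((d : K) * y) (mul_ne_zero hdK hyK) a
  rw [hab, map_split]
  set c := embA K ((d : K) * y) * b with hcdef
  -- the finite part: split off the component at `v₀`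
  have hfin : ψ (finA K c.2) = 1 := by
    set f₂ : FiniteAdeleRing (𝓞 K) K := singleFin K v₀ (c.2 v₀) with hf₂
    have hsplit : c.2 = (c.2 - f₂) + f₂ := by ring
    rw [hsplit, finA_add, AddChar.map_add_eq_mul,
      hloc f₂ (fun v hv => singleFin_of_ne K v₀ _ v hv), mul_one]
    apply hd
    intro v
    have h0 : (c.2 - f₂) v = c.2 v - f₂ v := rfl
    by_cases hv : v = v₀
    · subst hv
      rw [h0, hf₂, singleFin_same, sub_self, norm_zero]
      exact norm_nonneg _
    · rw [h0, hf₂, singleFin_of_ne K v₀ _ v hv, sub_zero, hcdef, embA_mul_snd, norm_mul]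
      have h1 : loc K v ((d : K) * y) = loc K v (d : K) * loc K v y := by simp [loc]
      rw [h1, norm_mul]
      have h2 : ‖b.2 v‖ ≤ 1 := by
        rw [Valued.toNormedField.norm_le_one_iff]
        exact (mem_adicCompletionIntegers _ _ _).mp (hb.2 v)
      have h3 := hyv v hv
      calc ‖loc K v (d : K)‖ * ‖loc K v y‖ * ‖b.2 v‖
          ≤ ‖loc K v (d : K)‖ * 1 * 1 := by gcongr
        _ = _ := by ring
  rw [hfin, mul_one]
  apply hrV
  intro w
  rw [hcdef, embA_mul_fst, norm_mul, norm_embA_fst, map_mul]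
  exact radius_aux hr hC hD (AbsoluteValue.nonneg _ _) (le_infSize K _ w)
    (AbsoluteValue.nonneg _ _) (hyw w).le (norm_nonneg _) (hb.1 w)

end Fermat.Agent.LT.T3.H127

end
end
-- ===== PACK-END LT/T3/H127/Nondeg.lean

-- ===== PACK-BEGIN LT/T3/SmoothSpec.lean
section



/-!
# Row LT, tower T3 (architect helper14): SMOOTHNESS AT INFINITY of the EK test function

OFF-MAIN.  Definitions and frozen Props, with the bridges PROVED; no hole, nothing assumed.
`Spec.lean`, `EKSpec.lean`, `OpSpec.lean` (helper14) are FROZEN and are not touched: this file ADDS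
the smooth variants asked for by T2 (helper130), T5 (helper32) and the chief (ruling R4).

THE STATION in the smooth form is the one of the sub-architect helper736
(`H736/ASSmooth.lean`, sha256 2eeaac8d5133, byte-identical copy): `AS.IsSmoothInf`
(`= T2.IsSmoothAtInf = T5.IsSmoothAtInf`, same term), `AS.IsCplxSmooth`, `AS.AbelCplxSmoothC`
(leaf AS.2s), `AS.AbelSatakeSmoothC`, `AS.pureSmooth`, `AS.abelSatakeSmooth_of`.  Here:

* `EKExistSmoothC K`, `EKOpExistSmoothC K`, `T3OutOpSmooth K`: the smooth variants of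
  `EKExistC K`, `EKOpExistC K`, `T3OutOp K` (`AS.IsSmoothInf K f` added to the conclusion);
* the forgetful bridges and `ekOpExistSmooth_of`, `topOpSmooth` (PROVED);
* `ekExistSmooth_of : AS.AbelSatakeSmoothC K → InScalarUnifC K → EKExistSmoothC K` is PROVED in
  `SmoothTop.lean` (the proof of helper732 with one more component).
-/

set_option autoImplicit false

open IsDedekindDomain NumberField MeasureTheory
open Fermat.Agent.LT.H556.A0

noncomputable section

namespace Fermat.Agent.LT.T3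

variable (K : Type) [Field K] [NumberField K]

/-- **T3.18, smooth form** `= EKExistC K` with `AS.IsSmoothInf K f` in the conclusion. -/
def EKExistSmoothC : Prop :=
  letI : MeasurableSpace (Adl K) := borel (Adl K)
  letI : MeasurableSpace (G K) := borel (G K)
  (∀ w : InfinitePlace K, w.IsComplex) →
  ∀ μ : Measure (G K), μ.IsHaarMeasure → ∀ ν : Measure (Adl K), ν.IsAddHaarMeasure →
  ∀ 𝔫 : Ideal (𝓞 K), 𝔫 ≠ ⊥ → ∀ v₀ : HeightOneSpectrum (𝓞 K), ¬ v₀.asIdeal ∣ 𝔫 →
  ∀ (a₀ : 𝓞 K) (n : ℕ), 0 < n → Ideal.span {a₀} = v₀.asIdeal ^ n → a₀ - 1 ∈ 𝔫 →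
  ∀ α : Kˣ, (α : K) = algebraMap (𝓞 K) K a₀ →
    ∃ f : G K → ℂ, Continuous f ∧ HasCompactSupport f ∧ AS.IsSmoothInf K f ∧ IsEK K ν f α ∧
      IsBiInv K 𝔫 f ∧ IsSuppAt K 𝔫 v₀ f ∧
      ∃ c : ℂ → ℂ → ℂ,
        (∀ a b z₁ z₂ : ℂ, z₁ + z₂ = a → z₁ * z₂ = b → z₁ ^ n ≠ 1 → z₂ ^ n ≠ 1 → c a b ≠ 0) ∧
        ∀ φ : G K → ℂ, IsSph0Level K 𝔫 φ → ∀ a b : ℂ, IsHeckeEigenAt φ v₀ a b →
          ∀ g : G K, Rop K μ f φ g = c a b * φ g

/-- **EXISTENCE, operator form, smooth** (tower Prop) `= EKOpExistC K` with `AS.IsSmoothInf K f` in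
the conclusion: `f` is a test function of T2 / T5 (`IsTestFn 𝔫 f`, trivial `K_∞`-type). -/
def EKOpExistSmoothC : Prop :=
  letI : MeasurableSpace (G K) := borel (G K)
  (∀ w : InfinitePlace K, w.IsComplex) →
  ∀ μ : Measure (G K), μ.IsHaarMeasure →
  ∀ 𝔫 : Ideal (𝓞 K), 𝔫 ≠ ⊥ → ∀ v₀ : HeightOneSpectrum (𝓞 K), ¬ v₀.asIdeal ∣ 𝔫 →
  ∀ (a₀ : 𝓞 K) (n : ℕ), 0 < n → Ideal.span {a₀} = v₀.asIdeal ^ n → a₀ - 1 ∈ 𝔫 →
    ∃ f : G K → ℂ, Continuous f ∧ HasCompactSupport f ∧ AS.IsSmoothInf K f ∧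
      IsEKop K μ f ∧ IsEKop K μ (starG K f) ∧
      IsBiInv K 𝔫 f ∧ IsSuppAt K 𝔫 v₀ f ∧
      ∃ c : ℂ → ℂ → ℂ,
        (∀ a b z₁ z₂ : ℂ, z₁ + z₂ = a → z₁ * z₂ = b → z₁ ^ n ≠ 1 → z₂ ^ n ≠ 1 → c a b ≠ 0) ∧
        ∀ φ : G K → ℂ, IsSph0Level K 𝔫 φ → ∀ a b : ℂ, IsHeckeEigenAt φ v₀ a b →
          ∀ g : G K, Rop K μ f φ g = c a b * φ g

/-- THE TOWER PROP of T3 in operator form, with smooth test functions. -/
def T3OutOpSmooth : Prop :=
  GoodCharExistsC K ∧ PoissonNDC K ∧ EKCuspOpC K ∧ EKOpExistSmoothC K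

/-! ## The forgetful bridges -/

theorem ekExist_of_smooth (h : EKExistSmoothC K) : EKExistC K := by
  intro hK μ hμ ν hν 𝔫 h𝔫 v₀ hv₀ a₀ n hn hspan hmem α hα
  obtain ⟨f, h1, h2, -, h4, h5, h6, h7⟩ :=
    h hK μ hμ ν hν 𝔫 h𝔫 v₀ hv₀ a₀ n hn hspan hmem α hα
  exact ⟨f, h1, h2, h4, h5, h6, h7⟩

theorem ekOpExist_of_smooth (h : EKOpExistSmoothC K) : EKOpExistC K := by
  intro hK μ hμ 𝔫 h𝔫 v₀ hv₀ a₀ n hn hspan hmem
  obtain ⟨f, h1, h2, -, h4, h5, h6, h7, h8⟩ := h hK μ hμ 𝔫 h𝔫 v₀ hv₀ a₀ n hn hspan hmem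
  exact ⟨f, h1, h2, h4, h5, h6, h7, h8⟩

theorem t3OutOp_of_smooth (h : T3OutOpSmooth K) : T3OutOp K :=
  ⟨h.1, h.2.1, h.2.2.1, ekOpExist_of_smooth K h.2.2.2⟩

/-- Existence in operator form (smooth) from existence in integral form (smooth), FACT 1 and the
adjoint leaf. -/
theorem ekOpExistSmooth_of (h1 : EKKillC K) (h5 : EKStarC K) (h8 : EKExistSmoothC K)
    (hν : InAddHaarC K) : EKOpExistSmoothC K := by
  intro hK μ hμ 𝔫 h𝔫 v₀ hv₀ a₀ n hn hspan hmem
  obtain ⟨ν, hνH⟩ := hν
  have ha₀ : algebraMap (𝓞 K) K a₀ ≠ 0 := by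
    intro h0
    have h0' : a₀ = 0 := by
      have := (map_eq_zero_iff (algebraMap (𝓞 K) K)
        (FaithfulSMul.algebraMap_injective (𝓞 K) K)).1 h0
      exact this
    rw [h0'] at hspan
    have hbot : (v₀.asIdeal ^ n) = ⊥ := by rw [← hspan]; simp
    exact v₀.ne_bot (pow_eq_zero_iff (Nat.pos_iff_ne_zero.1 hn) |>.1 hbot)
  obtain ⟨f, hf, hfc, hsm, hEK, hbi, hsupp, c, hc, hact⟩ :=
    h8 hK μ hμ ν hνH 𝔫 h𝔫 v₀ hv₀ a₀ n hn hspan hmem (Units.mk0 _ ha₀) rfl
  refine ⟨f, hf, hfc, hsm, ekOp_of_int K h1 hμ hνH hf hfc hEK, ?_, hbi, hsupp, c, hc, hact⟩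
  have hstar : IsEK K ν (starG K f) (Units.mk0 _ ha₀) := h5 ν hνH _ f hf hfc hEK
  have hsc : Continuous (starG K f) := by
    unfold starG
    exact (Complex.continuous_conj).comp (hf.comp continuous_inv)
  have hscc : HasCompactSupport (starG K f) := by
    unfold starG
    have h1 : HasCompactSupport (fun h : G K => f h⁻¹) := by
      have := hfc.comp_homeomorph (Homeomorph.inv (G K))
      simpa [Function.comp_def] using this
    exact h1.comp_left (g := (starRingEnd ℂ)) (map_zero _)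
  exact ekOp_of_int K h1 hμ hνH hsc hscc hstar

/-- THE TOP in operator form, smooth. -/
theorem topOpSmooth (h : T3Out K) (h1 : EKKillC K) (h2 : ConstTermTC K) (h8 : EKExistSmoothC K)
    (hν : InAddHaarC K) : T3OutOpSmooth K :=
  ⟨h.1, h.2.1, ekCuspOp_of K h2, ekOpExistSmooth_of K h1 h.2.2.2.2.1 h8 hν⟩

end Fermat.Agent.LT.T3

end

end
-- ===== PACK-END LT/T3/SmoothSpec.lean

-- ===== PACK-BEGIN LT/T5/H942/NormG.lean
section






/-!
# Row LT, tower T5, leaf T5.09 (shadow by helper942) — part 1: the adelic norm `N(g)`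

OFF-MAIN.  Vocabulary: `LT/T5/Spec.lean` v4 (helper32@eb7e4c138, sha256 f2d97e70, byte-identical
copy; the statement of T5.09 is unchanged since v2), `LT/H556/A0.lean` (66d3374a), structural facts on `AdelicAut`: `LT/T5/H415/AutT5.lean`
(helper415@b9878c8ad, byte-identical copies).

* `normG942 s n g = g · σ(g) ⋯ σ^{n-1}(g)` on `GL₂(𝔸_K)` (same recursion as `s.normUpTo`);
* `onG_ratG942` : `σ(γ) = ratG (σ γ)` for rational `γ`;
* `normG_conj942` : `N_n(x⁻¹ δ σ(x)) = x⁻¹ N_n(δ) σⁿ(x)`;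
* `IsScalarG942` : scalar matrices of `GL₂(𝔸_K)`; `isScalarG_of_centralRay942`;
  `normG_mul_scalar942` : `N_n(y z) = N_n(y) · Z` with `Z` scalar, for `z` scalar;
* `normG_twisted942` : for `IsCyclicOfDegree s l k` and `z` on the central ray,
  `N_l(x⁻¹ δ σ(x) z) = x⁻¹ N_l(δ) x · Z`, `Z` scalar;
* `continuous_onG942`, `continuous_normG942`;
* `coe_normUpTo942` : the matrix of `s.normUpTo n δ` is `normMat σ n δ` of `NormMap.lean`, hence
  `trace_normUpTo_fixed942`, `det_normUpTo_fixed942` (trace and determinant of `N(δ)` are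
  `σ`-fixed).
-/

set_option autoImplicit false

open IsDedekindDomain NumberField

noncomputable section

namespace Fermat.Agent.LT.T5.H942

open Fermat.Agent.LT.H556.A0 Fermat.Agent.LT.T5 Fermat.Agent.LT.H942

variable {K : Type} [Field K] [NumberField K]

/-- `T5.ratG` is the diagonal embedding of `AdelicComp.lean`. -/
theorem ratG_eq_rat942 (γ : GL (Fin 2) K) : (ratG γ : G K) = rat942 γ := rfl

/-- `g · σ(g) ⋯ σ^{n-1}(g)` on `GL₂(𝔸_K)`. -/
def normG942 (s : AdelicAut K) : ℕ → G K → G K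
  | 0, _ => 1
  | n + 1, g => g * s.onG (normG942 s n g)

@[simp] theorem normG942_zero (s : AdelicAut K) (g : G K) : normG942 s 0 g = 1 := rfl

theorem normG942_succ (s : AdelicAut K) (n : ℕ) (g : G K) :
    normG942 s (n + 1) g = g * s.onG (normG942 s n g) := rfl

theorem onG_ratG942 (s : AdelicAut K) (γ : GL (Fin 2) K) :
    s.onG (ratG γ) = ratG (s.onRat γ) := by
  apply Units.ext
  ext i j
  exact s.compat _

theorem normUpTo_zero942 (s : AdelicAut K) (δ : GL (Fin 2) K) : s.normUpTo 0 δ = 1 := rfl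

theorem normUpTo_succ942 (s : AdelicAut K) (n : ℕ) (δ : GL (Fin 2) K) :
    s.normUpTo (n + 1) δ = δ * s.onRat (s.normUpTo n δ) := rfl

/-- `N_n(x⁻¹ δ σ(x)) = x⁻¹ N_n(δ) σⁿ(x)`. -/
theorem normG_conj942 (s : AdelicAut K) (x : G K) (δ : GL (Fin 2) K) (n : ℕ) :
    normG942 s n (x⁻¹ * ratG δ * s.onG x)
      = x⁻¹ * ratG (s.normUpTo n δ) * (⇑s.onG)^[n] x := by
  induction n with
  | zero => simp [normUpTo_zero942]
  | succ n ih =>
    rw [normG942_succ, ih, normUpTo_succ942, Function.iterate_succ_apply']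
    simp only [map_mul, map_inv, onG_ratG942]
    group

/-! ## Scalar matrices -/

/-- `g` is a scalar matrix of `GL₂(𝔸_K)`. -/
def IsScalarG942 (g : G K) : Prop :=
  ∃ ζ : Adl K, (g : Matrix (Fin 2) (Fin 2) (Adl K)) = Matrix.diagonal fun _ => ζ

theorem IsScalarG942.commute {z : G K} (hz : IsScalarG942 z) (g : G K) : z * g = g * z := by
  obtain ⟨ζ, hζ⟩ := hz
  apply Units.ext
  rw [Units.val_mul, Units.val_mul, hζ]
  ext i j
  simp [Matrix.diagonal_mul, Matrix.mul_diagonal, mul_comm]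

theorem IsScalarG942.mul {z z' : G K} (hz : IsScalarG942 z) (hz' : IsScalarG942 z') :
    IsScalarG942 (z * z') := by
  obtain ⟨ζ, hζ⟩ := hz
  obtain ⟨ζ', hζ'⟩ := hz'
  refine ⟨ζ * ζ', ?_⟩
  rw [Units.val_mul, hζ, hζ', Matrix.diagonal_mul_diagonal]

theorem isScalarG_one942 : IsScalarG942 (1 : G K) :=
  ⟨1, by rw [Units.val_one]; exact (Matrix.diagonal_one).symm⟩

theorem IsScalarG942.onG {z : G K} (hz : IsScalarG942 z) (s : AdelicAut K) :
    IsScalarG942 (s.onG z) := by
  obtain ⟨ζ, hζ⟩ := hz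
  refine ⟨s.σA ζ, ?_⟩
  ext i j
  have h : (s.onG z : Matrix (Fin 2) (Fin 2) (Adl K)) i j
      = s.σA ((z : Matrix (Fin 2) (Fin 2) (Adl K)) i j) := rfl
  rw [h, hζ]
  by_cases hij : i = j
  · subst hij; simp
  · simp [Matrix.diagonal_apply_ne _ hij]

/-- An element of the central ray is a scalar matrix. -/
theorem isScalarG_of_centralRay942 {z : G K} (hz : IsCentralRay z) : IsScalarG942 z := by
  obtain ⟨hfin, t, -, hinf⟩ := hz
  refine ⟨(z : Matrix (Fin 2) (Fin 2) (Adl K)) 0 0, ?_⟩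
  have hf : ∀ (v : HeightOneSpectrum (𝓞 K)) (i j : Fin 2),
      ((z : Matrix (Fin 2) (Fin 2) (Adl K)) i j).2 v
        = (1 : Matrix (Fin 2) (Fin 2) (v.adicCompletion K)) i j := fun v i j =>
    congrFun (congrFun (hfin v) i) j
  have hi : ∀ (w : InfinitePlace K) (i j : Fin 2),
      InfinitePlace.Completion.extensionEmbedding w
        (((z : Matrix (Fin 2) (Fin 2) (Adl K)) i j).1 w)
        = (Matrix.diagonal fun _ => (t : ℂ)) i j := fun w i j =>
    congrFun (congrFun (hinf w) i) j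
  -- equality of adeles, componentwise
  have key : ∀ i j : Fin 2, (z : Matrix (Fin 2) (Fin 2) (Adl K)) i j
      = (Matrix.diagonal fun _ => (z : Matrix (Fin 2) (Fin 2) (Adl K)) 0 0) i j := by
    intro i j
    refine Prod.ext ?_ ?_
    · funext w
      apply (InfinitePlace.Completion.extensionEmbedding w).injective
      by_cases hij : i = j
      · subst hij
        rw [Matrix.diagonal_apply_eq, hi w i i, hi w 0 0, Matrix.diagonal_apply_eq,
          Matrix.diagonal_apply_eq]
      · rw [Matrix.diagonal_apply_ne _ hij, hi w i j, Matrix.diagonal_apply_ne _ hij]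
        exact (map_zero _).symm
    · apply Subtype.ext
      funext v
      by_cases hij : i = j
      · subst hij
        rw [Matrix.diagonal_apply_eq]
        show ((z : Matrix (Fin 2) (Fin 2) (Adl K)) i i).2 v
          = ((z : Matrix (Fin 2) (Fin 2) (Adl K)) 0 0).2 v
        rw [hf v i i, hf v 0 0, Matrix.one_apply_eq, Matrix.one_apply_eq]
      · rw [Matrix.diagonal_apply_ne _ hij]
        show ((z : Matrix (Fin 2) (Fin 2) (Adl K)) i j).2 v = (0 : Adl K).2 v
        rw [hf v i j, Matrix.one_apply_ne hij]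
        rfl
  ext i j
  exact key i j

/-- `N_n(y z) = N_n(y) · Z` with `Z` scalar, for `z` scalar. -/
theorem normG_mul_scalar942 (s : AdelicAut K) (y : G K) {z : G K} (hz : IsScalarG942 z)
    (n : ℕ) : ∃ Z : G K, IsScalarG942 Z ∧ normG942 s n (y * z) = normG942 s n y * Z := by
  induction n with
  | zero => exact ⟨1, isScalarG_one942, by simp⟩
  | succ n ih =>
    obtain ⟨Z, hZ, hn⟩ := ih
    refine ⟨z * s.onG Z, hz.mul (hZ.onG s), ?_⟩
    rw [normG942_succ, hn, normG942_succ, map_mul]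
    calc y * z * (s.onG (normG942 s n y) * s.onG Z)
        = y * (z * s.onG (normG942 s n y)) * s.onG Z := by group
      _ = y * (s.onG (normG942 s n y) * z) * s.onG Z := by rw [hz.commute]
      _ = y * s.onG (normG942 s n y) * (z * s.onG Z) := by group

/-- **The norm of `g = x⁻¹ δ σ(x) z`** (`z` on the central ray, `σ` of order `l`):
`N_l(g) = x⁻¹ N_l(δ) x · Z` with `Z` scalar. -/
theorem normG_twisted942 (s : AdelicAut K) (l : ℕ) (k : Subfield K)
    (hc : IsCyclicOfDegree s l k) (x : G K) (δ : GL (Fin 2) K) {z : G K}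
    (hz : IsCentralRay z) :
    ∃ Z : G K, IsScalarG942 Z ∧
      normG942 s l (x⁻¹ * ratG δ * s.onG x * z)
        = x⁻¹ * rat942 (s.normUpTo l δ) * x * Z := by
  obtain ⟨Z, hZ, h⟩ := normG_mul_scalar942 s (x⁻¹ * ratG δ * s.onG x)
    (isScalarG_of_centralRay942 hz) l
  refine ⟨Z, hZ, ?_⟩
  rw [h, normG_conj942, H415.onG_iterate415 s l k hc x]
  rfl

/-! ## Continuity -/

theorem continuous_onG942 (s : AdelicAut K) : Continuous (s.onG : G K → G K) := by
  rw [Units.continuous_iff]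
  constructor
  · refine continuous_matrix fun i j => ?_
    exact s.continuous_σA.comp (Continuous.matrix_elem Units.continuous_val i j)
  · refine continuous_matrix fun i j => ?_
    have h : (fun g : G K => ((s.onG g)⁻¹ : G K).val i j)
        = fun g : G K => s.σA (((g⁻¹ : G K) : Matrix (Fin 2) (Fin 2) (Adl K)) i j) := by
      funext g
      rw [← map_inv]
      rfl
    exact h ▸ s.continuous_σA.comp
      ((Continuous.matrix_elem Units.continuous_val i j).comp continuous_inv)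

theorem continuous_normG942 (s : AdelicAut K) (n : ℕ) : Continuous (normG942 s n) := by
  induction n with
  | zero => exact continuous_const
  | succ n ih => exact continuous_id.mul ((continuous_onG942 s).comp ih)

/-! ## The norm on `GL₂(K)` and `NormMap.lean` -/

theorem coe_onRat942 (s : AdelicAut K) (γ : GL (Fin 2) K) :
    (s.onRat γ : Matrix (Fin 2) (Fin 2) K) = sigMat s.σ (γ : Matrix (Fin 2) (Fin 2) K) := rfl

theorem coe_normUpTo942 (s : AdelicAut K) (n : ℕ) (δ : GL (Fin 2) K) :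
    (s.normUpTo n δ : Matrix (Fin 2) (Fin 2) K)
      = normMat s.σ n (δ : Matrix (Fin 2) (Fin 2) K) := by
  induction n with
  | zero => rfl
  | succ n ih =>
    rw [normUpTo_succ942, Units.val_mul, coe_onRat942, ih, normMat_succ']

theorem trace_normUpTo_fixed942 (s : AdelicAut K) (l : ℕ) (k : Subfield K)
    (hc : IsCyclicOfDegree s l k) (δ : GL (Fin 2) K) :
    s.σ (s.normUpTo l δ : Matrix (Fin 2) (Fin 2) K).trace
      = (s.normUpTo l δ : Matrix (Fin 2) (Fin 2) K).trace := by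
  rw [coe_normUpTo942]
  exact trace_normMat_fixed s.σ hc.pow_eq (δ := (δ : Matrix (Fin 2) (Fin 2) K))
    (δ' := ((δ⁻¹ : GL (Fin 2) K) : Matrix (Fin 2) (Fin 2) K))
    (by rw [← Units.val_mul, inv_mul_cancel, Units.val_one])
    (by rw [← Units.val_mul, mul_inv_cancel, Units.val_one])

theorem det_normUpTo_fixed942 (s : AdelicAut K) (l : ℕ) (k : Subfield K)
    (hc : IsCyclicOfDegree s l k) (δ : GL (Fin 2) K) :
    s.σ (s.normUpTo l δ : Matrix (Fin 2) (Fin 2) K).det
      = (s.normUpTo l δ : Matrix (Fin 2) (Fin 2) K).det := by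
  rw [coe_normUpTo942]
  exact det_normMat_fixed s.σ hc.pow_eq (δ := (δ : Matrix (Fin 2) (Fin 2) K))
    (δ' := ((δ⁻¹ : GL (Fin 2) K) : Matrix (Fin 2) (Fin 2) K))
    (by rw [← Units.val_mul, inv_mul_cancel, Units.val_one])

end Fermat.Agent.LT.T5.H942

end

end
-- ===== PACK-END LT/T5/H942/NormG.lean

-- ===== PACK-BEGIN LT/T5/H74/RangeCusp.lean
section



/-!
# Row LT, tower T5, leaf T5.04 `LeafRange` (helper74): CUSPIDALITY of `x ↦ ∫_F K_φ(x,z) f(z) dz`

OFF-MAIN.  INPUT: the kernel is cuspidal in its first variable, `∀ z ∈ F`,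
`IsCuspidalFn (K_φ(·, z))` (for an Eisenstein-killing `φ` this is the kernel form of
`T3.EKCuspC`).  Fubini on `D × F` (`D` a fundamental domain of `K` in `𝔸_K`, of finite measure
by `T3.InFundDomC`; the kernel is bounded on `n(𝔸_K) g × GL₂(𝔸_K)` because it is left invariant
under `n(K)` and `K \ 𝔸_K` is compact) exchanges the constant term with the integral over `F`.
-/

set_option autoImplicit false

open IsDedekindDomain NumberField MeasureTheory
open scoped MatrixGroups ComplexConjugate Pointwise ENNReal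

noncomputable section

namespace Fermat.Agent.LT.T5.H74

open Fermat.Agent.LT.H556.A0 Fermat.Agent.LT.T5

attribute [local instance] Fermat.Agent.LT.T5.instMeasurableSpaceG

variable {K : Type} [Field K] [NumberField K]

/-- A number field is countable. -/
theorem countable_numberField74 (K : Type) [Field K] [NumberField K] : Countable K :=
  (Module.finBasis ℚ K).equivFun.injective.countable

/-- The image of `K` in the adeles is countable. -/
theorem countable_range74 (K : Type) [Field K] [NumberField K] :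
    Countable ((algebraMap K (Adl K)).toAddMonoidHom.range) := by
  have : Countable K := countable_numberField74 K
  exact Function.Surjective.countable
    (f := (algebraMap K (Adl K)).toAddMonoidHom.rangeRestrict)
    (AddMonoidHom.rangeRestrict_surjective _)

/-- The rational unipotent element `n(ξ)`, `ξ ∈ K`. -/
def unipRat74 (ξ : K) : GL (Fin 2) K :=
  ⟨!![1, ξ; 0, 1], !![1, -ξ; 0, 1],
    by ext i j; fin_cases i <;> fin_cases j <;> simp [Matrix.mul_apply, Fin.sum_univ_two],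
    by ext i j; fin_cases i <;> fin_cases j <;> simp [Matrix.mul_apply, Fin.sum_univ_two]⟩

theorem ratG_unipRat74 (ξ : K) :
    ratG (unipRat74 ξ) = T3.unip K (algebraMap K (Adl K) ξ) := by
  apply Units.ext
  ext i j
  rw [ratG, Matrix.GeneralLinearGroup.map_apply, T3.unip_coe]
  fin_cases i <;> fin_cases j <;> simp [unipRat74]

theorem unip_add74 (s t : Adl K) : T3.unip K (s + t) = T3.unip K s * T3.unip K t := by
  apply Units.ext
  rw [Units.val_mul, T3.unip_coe, T3.unip_coe, T3.unip_coe]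
  ext i j
  fin_cases i <;> fin_cases j <;> simp [Matrix.mul_apply, Fin.sum_univ_two, add_comm]

/-- Every `n` with the matrices `[[1, x], [0, 1]]` is `T3.unip`. -/
theorem eq_unip74 (n : Adl K → G K)
    (hn : ∀ x : Adl K, (n x : Matrix (Fin 2) (Fin 2) (Adl K)) = !![1, x; 0, 1]) :
    n = T3.unip K :=
  funext fun x => Units.ext (by rw [hn x, T3.unip_coe])

/-- `x ↦ n(x)` is continuous `𝔸_K → GL₂(𝔸_K)`. -/
theorem continuous_unip74 : Continuous (T3.unip K : Adl K → G K) := by
  rw [Units.continuous_iff]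
  constructor
  · apply continuous_matrix
    intro i j
    fin_cases i <;> fin_cases j
    · exact continuous_const
    · exact continuous_id
    · exact continuous_const
    · exact continuous_const
  · apply continuous_matrix
    intro i j
    fin_cases i <;> fin_cases j
    · exact continuous_const
    · exact continuous_neg
    · exact continuous_const
    · exact continuous_const

/-- The kernel is invariant under `n(ξ)`, `ξ ∈ K`, in the first variable. -/
theorem ker0_unip_sub74 (r : G K) (φ : G K → ℂ) (ξ : K) (t : Adl K) (g z : G K) :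
    ker0 r φ (T3.unip K (t - algebraMap K (Adl K) ξ) * g) z = ker0 r φ (T3.unip K t * g) z := by
  have h : T3.unip K t
      = ratG (unipRat74 ξ) * T3.unip K (t - algebraMap K (Adl K) ξ) := by
    rw [ratG_unipRat74, ← unip_add74, add_sub_cancel]
  rw [h, mul_assoc, ker0_ratG_mul_left74]

/-- **The kernel is bounded on `n(𝔸_K) g × GL₂(𝔸_K)`.** -/
theorem norm_ker0_unip_le74
    (hcoc : ∃ C : Set (Adl K), IsCompact C ∧ ∀ x : Adl K, ∃ ξ : K,
      x - algebraMap K (Adl K) ξ ∈ C)
    (r : G K) (hr : ∀ g : G K, r * g = g * r) (hfin : LocFin74 r)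
    (φ : G K → ℂ) (hc : Continuous φ) (hφ : HasCompactSupport φ) (g : G K) :
    ∃ M : ℝ, 0 ≤ M ∧ ∀ (t : Adl K) (z : G K), ‖ker0 r φ (T3.unip K t * g) z‖ ≤ M := by
  obtain ⟨C, hC, hcov⟩ := hcoc
  have hU : IsCompact ((fun t : Adl K => T3.unip K t * g) '' C) :=
    hC.image (continuous_unip74.mul continuous_const)
  obtain ⟨M, hM0, hM⟩ := norm_ker0_le74 r hr hfin φ hc hφ _ hU
  refine ⟨M, hM0, fun t z => ?_⟩
  obtain ⟨ξ, hξ⟩ := hcov t
  rw [← ker0_unip_sub74 r φ ξ t g z]
  exact hM _ ⟨_, hξ, rfl⟩ z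

/-- Every fundamental domain of `K` in `𝔸_K` has finite measure. -/
theorem measure_fundDom_lt_top74 (hfd : T3.InFundDomC K)
    (μ' : @Measure (Adl K) (borel (Adl K)))
    (hμ' : @Measure.IsAddHaarMeasure (Adl K) _ _ (borel (Adl K)) μ') (D : Set (Adl K))
    (hD : @IsAddFundamentalDomain ((algebraMap K (Adl K)).toAddMonoidHom.range) (Adl K) _ _
      (borel (Adl K)) D μ') :
    μ' D < ⊤ := by
  letI : MeasurableSpace (Adl K) := borel (Adl K)
  have : BorelSpace (Adl K) := ⟨rfl⟩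
  have : Countable ((algebraMap K (Adl K)).toAddMonoidHom.range) := countable_range74 K
  obtain ⟨D₀, -, hD₀, -, -, hfin⟩ := hfd μ' hμ'
  rw [hD.measure_eq hD₀]
  exact hfin

/-- **Cuspidality** of `x ↦ ∫_F K_φ(x, z) f(z) dz` from the cuspidality of the kernel. -/
theorem cuspidal_range74 [LocallyCompactSpace (G K)] [SecondCountableTopology (G K)]
    [SecondCountableTopology (Adl K)]
    (hcoc : ∃ C : Set (Adl K), IsCompact C ∧ ∀ x : Adl K, ∃ ξ : K,
      x - algebraMap K (Adl K) ξ ∈ C)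
    (hfd : T3.InFundDomC K)
    (μ : Measure (G K)) (F : Set (G K)) (hFm : MeasurableSet F) (hF : μ F < ⊤) (r : G K)
    (hr : ∀ g : G K, r * g = g * r) (hfin : LocFin74 r) (φ : G K → ℂ) (hc : Continuous φ)
    (hφ : HasCompactSupport φ)
    (hcusp : ∀ z ∈ F, IsCuspidalFn (fun x => ker0 r φ x z))
    (f : G K → ℂ) (hf : MemLp f 2 (μ.restrict F)) :
    IsCuspidalFn (fun x => ∫ z in F, ker0 r φ x z * f z ∂μ) := by
  intro μ' hμ' D hD n hn g
  letI : MeasurableSpace (Adl K) := borel (Adl K)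
  have : BorelSpace (Adl K) := ⟨rfl⟩
  have : BorelSpace (G K) := borelSpaceG74
  have hn' : n = T3.unip K := eq_unip74 n hn
  subst hn'
  have hDfin : μ' D < ⊤ := measure_fundDom_lt_top74 hfd μ' hμ' D hD
  have : IsFiniteMeasure (μ'.restrict D) :=
    ⟨by rw [Measure.restrict_apply_univ]; exact hDfin⟩
  have : IsFiniteMeasure (μ.restrict F) := isFiniteMeasure_restrict74 μ F hF
  have hf1 : Integrable f (μ.restrict F) := hf.integrable one_le_two
  obtain ⟨M, -, hM⟩ := norm_ker0_unip_le74 hcoc r hr hfin φ hc hφ g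
  -- the integrand on the product
  have hcontK : Continuous fun p : Adl K × G K => ker0 r φ (T3.unip K p.1 * g) p.2 := by
    have h := continuous_ker0_74 r hr hfin φ hc hφ
    have h2 : Continuous fun p : Adl K × G K => ((T3.unip K p.1 * g, p.2) : G K × G K) :=
      Continuous.prodMk ((continuous_unip74.comp continuous_fst).mul continuous_const)
        continuous_snd
    show Continuous ((fun q : G K × G K => ker0 r φ q.1 q.2) ∘
      fun p : Adl K × G K => ((T3.unip K p.1 * g, p.2) : G K × G K))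
    exact Continuous.comp h h2
  have hint : Integrable
      (Function.uncurry fun (t : Adl K) (z : G K) => ker0 r φ (T3.unip K t * g) z * f z)
      ((μ'.restrict D).prod (μ.restrict F)) := by
    have hbound : Integrable (fun p : Adl K × G K => M * ‖f p.2‖)
        ((μ'.restrict D).prod (μ.restrict F)) :=
      Integrable.mul_prod (μ := μ'.restrict D) (ν := μ.restrict F)
        (f := fun _ : Adl K => M) (g := fun z : G K => ‖f z‖)
        (integrable_const M) hf1.norm
    refine hbound.mono' ?_ ?_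
    · exact hcontK.aestronglyMeasurable.mul hf.1.comp_snd
    · refine Filter.Eventually.of_forall (fun p => ?_)
      show ‖ker0 r φ (T3.unip K p.1 * g) p.2 * f p.2‖ ≤ M * ‖f p.2‖
      rw [norm_mul]
      exact mul_le_mul_of_nonneg_right (hM p.1 p.2) (norm_nonneg _)
  show ∫ t in D, (∫ z in F, ker0 r φ (T3.unip K t * g) z * f z ∂μ) ∂μ' = 0
  rw [integral_integral_swap hint]
  have hzero : ∀ z ∈ F, (∫ t in D, ker0 r φ (T3.unip K t * g) z * f z ∂μ') = 0 := by
    intro z hz
    rw [integral_mul_const]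
    have h0 : (∫ t in D, ker0 r φ (T3.unip K t * g) z ∂μ') = 0 :=
      hcusp z hz μ' hμ' D hD (T3.unip K) (T3.unip_coe K) g
    rw [h0, zero_mul]
  rw [setIntegral_congr_fun hFm hzero]
  exact integral_zero _ _

end Fermat.Agent.LT.T5.H74

end

end
-- ===== PACK-END LT/T5/H74/RangeCusp.lean

-- ===== PACK-BEGIN LT/T5/H873/KerRep.lean
section




/-!
# Row LT, tower T5, sub-leaf T5.02b `KerRepC` (helper873)

OFF-MAIN.  `kerRepC873 : T1.AdNormC K → KerRepC 𝔫 τ`, on the unfolding toolbox of helper277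
(`Fermat/Agent/LT/T5/H277/`, byte-identical copies): the operator `R(φ)` on the bounded continuous
automorphic functions is the kernel operator of `K_φ`.
-/

set_option autoImplicit false

open IsDedekindDomain NumberField MeasureTheory
open scoped MatrixGroups ComplexConjugate ContDiff

noncomputable section

namespace Fermat.Agent.LT.T5.H873

open Fermat.Agent.LT.H556.A0 Fermat.Agent.LT.T5

attribute [local instance] Fermat.Agent.LT.T5.instMeasurableSpaceG

variable {K : Type} [Field K] [NumberField K]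

/-- **T5.02b `KerRepC`**, conditional on the interface Prop `T1.AdNormC` of tower T1. -/
theorem kerRepC873 (hN : T1.AdNormC K) (𝔫 : Ideal (𝓞 K)) (τ : G K → ℂ) : KerRepC 𝔫 τ := by
  intro μ F r hF hr φ ht e hec _ hea x
  have hWv : ∀ (i : GL (Fin 2) K × ℤ) (y : G K),
      e (H277.tile277 (AdelicAut.id K) r i y) = e y := by
    intro i y
    unfold H277.tile277
    rw [H277.id_onG277, H277.ray_zpow_inv277 hea.ray, hea.left_inv]
  have h := H277.twKer_integral277 hN hF hr (H277.autPreserves_id277 𝔫 μ r) ht.cont ht.supp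
    hec hWv x
  rw [← h]
  refine integral_congr_ae (Filter.Eventually.of_forall fun y => ?_)
  simp only
  rw [H277.ker0_eq_twKer277]

end Fermat.Agent.LT.T5.H873

end

end
-- ===== PACK-END LT/T5/H873/KerRep.lean

-- ===== PACK-BEGIN LT/T7/H231/MidStable.lean
section




/-!
# Row LT, tower T7, leaf T7.04 `MidStableFromC` (helper231)

OFF-MAIN.  Spec: `Fermat/Agent/LT/T7/Spec.lean` (origin/helper797@31d807178, sha256 41dbc37a…,
byte-identical copy).

`midStableFromC231 : MidStableFromC`, i.e. `FibreAll → ConjAll → DictEFC → MidStableC`.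

Proof.  Let `πF` be cuspidal over `F = fieldF ρ` with `MidData`.  For EVERY automorphism `s` of
`F/ℚ` (no knowledge of `Gal(F/ℚ)` is needed, it is a finite group):
* `ConjC` gives `π'` cuspidal with `π'_{s v} = πF_v` a.e.;
* `πF` and `π'` have trivial central characters a.e. (`MidData`; a Frobenius element exists at
  every prime);
* `SameBC E πF π'`: let `w ∣ v ∣ p`, `N w = (N v) ^ f`, `p` outside a finite set; choose a
  valuation subring `A` of `ℚ̄` over `w` and a Frobenius `σ` at `A`, `g = ρ σ`; `MidData` at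
  `(A, σ)` for the places `v` and `s⁻¹ v` of `F` over `p` is the SAME identity
  `satakePow d a 1 = tr Ψ (…)`, `d = ordQ8 (g ^ ordSL g) ∈ {1, 3}`; if `d = 1` then
  `a_v = a_{s⁻¹ v}`; if `d = 3` then `f = 3` by the Frobenius dictionary
  (`resDeg_eq_three231`);
* `FibreC` for `E/F` (degree `3`, from `DictEFC`) gives `πF = π'` a.e., so
  `πF_{s v} = πF_v` a.e.
Finally the places of `F` over `p` are permuted transitively by `Gal(F/ℚ)`.
-/

set_option autoImplicit false
set_option linter.unusedSectionVars false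
set_option linter.style.haveILetI false

open AutomorphicForm
open IsDedekindDomain NumberField
open scoped MatrixGroups Pointwise

noncomputable section

namespace Fermat.Agent.LT.T7.H231

open Fermat.Agent.LT.H130 Fermat.Agent.LT.H556 Fermat.Agent.LT.A2.H230 Fermat.Agent.LT.T7
open Fermat.Agent.Lib.Cheb.Spec Fermat.Agent.Lib.Cheb.H943

local notation "Γℚ" => (AlgebraicClosure ℚ ≃ₐ[ℚ] AlgebraicClosure ℚ)

/-- The places of a Galois number field `L₀ ⊆ ℚ̄` over a prime number are conjugate. -/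
theorem exists_placeImage_of_prime231 (L₀ : IntermediateField ℚ Qb) [NumberField L₀]
    [IsGalois ℚ L₀] {p : ℕ} (hp : p.Prime) (w w' : HeightOneSpectrum (𝓞 L₀))
    (hpw : ((p : ℕ) : 𝓞 L₀) ∈ w.asIdeal) (hpw' : ((p : ℕ) : 𝓞 L₀) ∈ w'.asIdeal) :
    ∃ s : L₀ ≃ₐ[ℚ] L₀, PlaceImage s.toRingEquiv w w' := by
  haveI := w.isPrime
  haveI := w'.isPrime
  haveI : w.asIdeal.LiesOver (Ideal.span {(p : ℤ)}) :=
    ⟨(under_eq_span L₀ hp w.isPrime hpw).symm⟩
  haveI : w'.asIdeal.LiesOver (Ideal.span {(p : ℤ)}) :=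
    ⟨(under_eq_span L₀ hp w'.isPrime hpw').symm⟩
  obtain ⟨s, hs⟩ := Ideal.exists_smul_eq_of_isGaloisGroup (Ideal.span ({(p : ℤ)} : Set ℤ))
    w.asIdeal w'.asIdeal (L₀ ≃ₐ[ℚ] L₀)
  refine ⟨s, fun x y hxy => ?_⟩
  have hy : y = s • x := by
    apply RingOfIntegers.ext
    rw [hxy]
    rfl
  rw [hy, ← hs]
  exact (Ideal.smul_mem_pointwise_smul_iff).symm

/-- **Leaf T7.04 `MidStableFromC`.** -/
theorem midStableFromC231 : MidStableFromC := by
  intro hFib hConj hDict ρ Ψ ι hyp nfF πF hcusp hmid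
  classical
  haveI := nfF
  have nfE : NumberField (fieldE ρ) := numberField_fieldE230 hyp.cont
  haveI := nfE
  obtain ⟨nfF', alg, hcompat, hcyc, hcplx, -⟩ := hDict ρ Ψ ι hyp nfE
  letI := alg
  haveI nE := normal_fieldE231 ρ
  haveI nF := normal_fieldF231 ρ
  haveI gE : IsGalois ℚ (fieldE ρ) := isGalois_iff.mpr ⟨inferInstance, nE⟩
  haveI gF : IsGalois ℚ (fieldF ρ) := isGalois_iff.mpr ⟨inferInstance, nF⟩
  obtain ⟨BE, hBE⟩ := frobStatement (fieldE ρ)
  obtain ⟨S₁, hS₁⟩ := hmid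
  -- Step 0: the central character of `πF`
  have hb : ∀ p : ℕ, p.Prime → p ∉ S₁ → ∀ v : HeightOneSpectrum (𝓞 (fieldF ρ)),
      ((p : ℕ) : 𝓞 (fieldF ρ)) ∈ v.asIdeal → πF.b v = 1 := by
    intro p hp hpS v hpv
    obtain ⟨A, σ, hLO, hσ, -⟩ := exists_frob_over231 (fieldF ρ) v hp hpv
    exact (hS₁ p hp hpS A hLO σ hσ v hpv).2
  -- Step 1: every automorphism of `F`
  have key : ∀ s : (fieldF ρ) ≃ₐ[ℚ] (fieldF ρ), ∃ S : Finset ℕ, ∀ p : ℕ, p.Prime → p ∉ S →
      ∀ v v' : HeightOneSpectrum (𝓞 (fieldF ρ)), ((p : ℕ) : 𝓞 (fieldF ρ)) ∈ v.asIdeal →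
        PlaceImage s.toRingEquiv v v' → πF.a v' = πF.a v := by
    intro s
    obtain ⟨π', hπ', S₂, hS₂⟩ := hConj (fieldF ρ) s.toRingEquiv πF hcusp
    -- trivial central characters
    have htF : TrivCentral πF := by
      refine ⟨overFinset231 (fieldF ρ) S₁, fun v hv => ?_⟩
      obtain ⟨p, hp, hpv⟩ := exists_prime_mem231 v
      exact hb p hp (fun hpS => hv (mem_overFinset231.mpr ⟨p, hpS, hp, hpv⟩)) v hpv
    have ht' : TrivCentral π' := by
      refine ⟨overFinset231 (fieldF ρ) S₁ ∪ S₂.image (placeMap231 s.toRingEquiv),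
        fun v' hv' => ?_⟩
      rw [Finset.mem_union, not_or] at hv'
      obtain ⟨v, hv⟩ := exists_placeImage231 s.toRingEquiv v'
      have hvS₂ : v ∉ S₂ := fun h =>
        hv'.2 (Finset.mem_image.mpr ⟨v, h, (placeImage_unique231 hv).symm⟩)
      obtain ⟨p, hp, hpv'⟩ := exists_prime_mem231 v'
      have hpv : ((p : ℕ) : 𝓞 (fieldF ρ)) ∈ v.asIdeal := (placeImage_prime231 hv p).mpr hpv'
      have hpS : p ∉ S₁ := fun h => hv'.1 (mem_overFinset231.mpr ⟨p, h, hp, hpv'⟩)
      rw [(hS₂ v hvS₂ v' hv).2]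
      exact hb p hp hpS v hpv
    -- the bad primes
    set Sb : Finset ℕ := S₁ ∪ BE ∪ S₂.image primeOf231 with hSb
    have hsame : SameBC (fieldE ρ) πF π' := by
      refine ⟨overFinset231 (fieldE ρ) Sb, fun w hw v f hres => ?_⟩
      obtain ⟨hover, hnorm⟩ := hres
      obtain ⟨p, hp, hpw⟩ := exists_prime_mem231 w
      have hpSb : p ∉ Sb := fun h => hw (mem_overFinset231.mpr ⟨p, h, hp, hpw⟩)
      simp only [hSb, Finset.mem_union, not_or] at hpSb
      obtain ⟨⟨hpS₁, hpBE⟩, hpS₂⟩ := hpSb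
      have hpv : ((p : ℕ) : 𝓞 (fieldF ρ)) ∈ v.asIdeal := by
        refine (hover ((p : ℕ) : 𝓞 (fieldF ρ)) ((p : ℕ) : 𝓞 (fieldE ρ)) ?_).mpr hpw
        simp
      obtain ⟨A, σ, hLO, hσ, hAw⟩ := exists_frob_over231 (fieldE ρ) w hp hpw
      have hAv : ∀ x ∈ v.asIdeal, emb (fieldF ρ) x ∈ A.nonunits := by
        intro x hx
        have hy : ((RingOfIntegers.mapRingHom (algebraMap (fieldF ρ) (fieldE ρ)) x :
            𝓞 (fieldE ρ)) : fieldE ρ) = algebraMap (fieldF ρ) (fieldE ρ) (x : fieldF ρ) := rfl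
        have h1 := hAw _ ((hover x _ hy).mp hx)
        rw [emb_apply, hy, hcompat] at h1
        exact h1
      -- the place `s⁻¹ v`
      obtain ⟨v₀, hv₀⟩ := exists_placeImage231 s.toRingEquiv v
      have hpv₀ : ((p : ℕ) : 𝓞 (fieldF ρ)) ∈ v₀.asIdeal := (placeImage_prime231 hv₀ p).mpr hpv
      have hv₀S₂ : v₀ ∉ S₂ := not_mem_of_prime_not_mem_image231 hp hpS₂ hpv₀
      obtain ⟨ha', hb'⟩ := hS₂ v₀ hv₀S₂ v hv₀
      have hmv := hS₁ p hp hpS₁ A hLO σ hσ v hpv
      have hmv₀ := hS₁ p hp hpS₁ A hLO σ hσ v₀ hpv₀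
      have e1 := hmv.1
      have e2 := hmv₀.1
      rw [hmv.2] at e1
      rw [hmv₀.2] at e2
      rw [ha', hb', hmv.2, hmv₀.2]
      refine ⟨?_, rfl⟩
      rcases ord_cases231 (ρ σ) with hd | ⟨hdet, hq, hd⟩
      · rw [hd, satakePow_one] at e1 e2
        rw [e1, e2]
      · have hf3 : f = 3 :=
          resDeg_eq_three231 hyp.cont hp v w hpv hpw hAv hAw hσ
            (hBE p hp hpBE w.asIdeal w.isPrime hpw).1 hdet hq hnorm
        rw [hd] at e1 e2
        rw [hf3, e1, e2]
    obtain ⟨S₅, hS₅⟩ := hFib (fieldF ρ) (fieldE ρ) 3 hcyc (by norm_num) hcplx πF π' hcusp hπ'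
      htF ht' hsame
    refine ⟨S₂.image primeOf231 ∪ S₅.image primeOf231, fun p hp hpS v v' hpv hvv' => ?_⟩
    rw [Finset.mem_union, not_or] at hpS
    have hvS₂ : v ∉ S₂ := not_mem_of_prime_not_mem_image231 hp hpS.1 hpv
    have hpv' : ((p : ℕ) : 𝓞 (fieldF ρ)) ∈ v'.asIdeal := (placeImage_prime231 hvv' p).mp hpv
    have hv'S₅ : v' ∉ S₅ := not_mem_of_prime_not_mem_image231 hp hpS.2 hpv'
    rw [(hS₅ v' hv'S₅).1, (hS₂ v hvS₂ v' hvv').1]
  -- Step 2: the union over the Galois group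
  choose Ss hSs using key
  refine ⟨S₁ ∪ Finset.univ.biUnion Ss, fun p hp hpS w w' hpw hpw' => ?_⟩
  rw [Finset.mem_union, not_or] at hpS
  refine ⟨?_, by rw [hb p hp hpS.1 w hpw, hb p hp hpS.1 w' hpw']⟩
  obtain ⟨s, hs⟩ := exists_placeImage_of_prime231 (fieldF ρ) hp w' w hpw' hpw
  exact hSs s p hp (fun h => hpS.2 (Finset.mem_biUnion.mpr ⟨s, Finset.mem_univ _, h⟩))
    w' w hpw' hs

end Fermat.Agent.LT.T7.H231

end

end
-- ===== PACK-END LT/T7/H231/MidStable.lean

-- ===== PACK-BEGIN LT/T7/H341/ChebF.lean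
section





/-!
# Row LT, tower T7, leaf T7.13c `ChebFC` (helper341): THE LEAF

OFF-MAIN.  `chebFC341 : H37.ChebFC` VERBATIM against `LT/T7/H37/ThinSpec.lean`
(helper37@8584ef06e, sha256 4c697dce).

Route (normal subgroups only, no count in a non-Galois field): with `F = ℚ̄^{ρ⁻¹ SL₂}`,
`E = ℚ̄^{ρ⁻¹ Q₈}`, `L₁ = ℚ̄^{ρ⁻¹ {±1}}` (finite Galois over `ℚ`, degrees `n_F`, `n_E`, `n₁`,
`n₁ ≤ 4 n_E`) and `c_K(p)` = number of primes of `K` of norm `p` (`= [K:ℚ]` if a Frobenius at
`p` fixes `K`, `= 0` otherwise, for good `p`): for `g = ρ(Frob_p) ∈ SL₂(𝔽₃)`,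
`|tr Ψ g|² = 4, 0, 1` on `{±1}`, `Q₈ ∖ {±1}`, `SL₂ ∖ Q₈`, hence with `α = n_F / n_E`

  `c_F(p) |tr Ψ g|² ≥ c_F(p) + α c_{L₁}(p) - α c_E(p)`,

and `∑_p c_K(p) p^{-s} = log (1/(s-1)) + O(1)` for every number field `K`
(`Lib.Cheb.H761.primeSum_statement`, on main).
-/

set_option autoImplicit false
set_option linter.unusedSectionVars false
set_option linter.unusedVariables false
set_option linter.style.haveILetI false

open FLT.ExplicitLift
open IsDedekindDomain NumberField
open scoped MatrixGroups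

namespace Fermat.Agent.LT.T7.H341

open Fermat.Agent.LT.H130 Fermat.Agent.LT.T7
open Fermat.Agent.Lib.Cheb Fermat.Agent.Lib.Cheb.Spec

theorem isOpen_comap341 (ρ : GQ →* GL (Fin 2) (ZMod 3)) (hρ : Continuous ρ)
    (N : Subgroup (GL (Fin 2) (ZMod 3))) :
    IsOpen ((N.comap ρ : Subgroup GQ) : Set GQ) :=
  (isOpen_discrete (N : Set (GL (Fin 2) (ZMod 3)))).preimage hρ

theorem mem_subSL341 (ρ : GQ →* GL (Fin 2) (ZMod 3)) (σ : GQ) :
    σ ∈ subSL ρ ↔ Matrix.GeneralLinearGroup.det (ρ σ) = 1 := Iff.rfl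

theorem isOpen_subSL341 (ρ : GQ →* GL (Fin 2) (ZMod 3)) (hρ : Continuous ρ) :
    IsOpen ((subSL ρ : Subgroup GQ) : Set GQ) := by
  have h : ((subSL ρ : Subgroup GQ) : Set GQ) =
      ρ ⁻¹' {g | Matrix.GeneralLinearGroup.det g = 1} := by
    ext σ
    exact mem_subSL341 ρ σ
  rw [h]
  exact (isOpen_discrete _).preimage hρ

theorem normal_subSL341 (ρ : GQ →* GL (Fin 2) (ZMod 3)) : (subSL ρ).Normal := by
  unfold subSL
  infer_instance

theorem rpow_neg_le_one341 (p : Nat.Primes) {s : ℝ} (hs : 1 < s) :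
    ((p : ℕ) : ℝ) ^ (-s) ≤ 1 := by
  have h1 : (1 : ℝ) ≤ ((p : ℕ) : ℝ) := by exact_mod_cast p.2.one_lt.le
  exact Real.rpow_le_one_of_one_le_of_nonpos h1 (by linarith)

theorem rpow_neg_nonneg341 (p : Nat.Primes) (s : ℝ) : 0 ≤ ((p : ℕ) : ℝ) ^ (-s) :=
  Real.rpow_nonneg (Nat.cast_nonneg _) _

theorem not_dvd_of_not_mem_primeFactors341 {n p : ℕ} (hn : n ≠ 0) (hp : p.Prime)
    (h : p ∉ n.primeFactors) : ¬ p ∣ n := fun hd =>
  h (Nat.mem_primeFactors.mpr ⟨hp, hd, hn⟩)

/-- **LEAF T7.13c.** -/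
theorem chebFC341 : H37.ChebFC := by
  classical
  intro ρ Ψ ι hyp
  unfold fieldF
  intro nf S Sp
  -- the three open normal subgroups and their fixed fields
  have hoF := isOpen_subSL341 ρ hyp.cont
  have hoQ := isOpen_comap341 ρ hyp.cont Qsub341
  have hoN := isOpen_comap341 ρ hyp.cont Nsub341
  haveI hnF : (subSL ρ).Normal := normal_subSL341 ρ
  haveI hnQ : (Qsub341.comap ρ).Normal := inferInstance
  haveI hnN : (Nsub341.comap ρ).Normal := inferInstance
  obtain ⟨fdF, galF, fixF, rkF⟩ := galois_of_open_normal341 (subSL ρ) hoF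
  obtain ⟨fdQ, galQ, fixQ, rkQ⟩ := galois_of_open_normal341 (Qsub341.comap ρ) hoQ
  obtain ⟨fdN, galN, fixN, rkN⟩ := galois_of_open_normal341 (Nsub341.comap ρ) hoN
  haveI := fdQ
  haveI := fdN
  haveI nfQ : NumberField (IntermediateField.fixedField (Qsub341.comap ρ)) := ⟨⟩
  haveI nfN : NumberField (IntermediateField.fixedField (Nsub341.comap ρ)) := ⟨⟩
  haveI := galF
  haveI := galQ
  haveI := galN
  -- the constants of the prime sums
  obtain ⟨CF, hCF⟩ := H761.primeSum_statement (IntermediateField.fixedField (subSL ρ))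
  obtain ⟨CQ, hCQ⟩ := H761.primeSum_statement (IntermediateField.fixedField (Qsub341.comap ρ))
  obtain ⟨CN, hCN⟩ := H761.primeSum_statement (IntermediateField.fixedField (Nsub341.comap ρ))
  -- the degrees
  have hiQ : (Qsub341.comap ρ).index = Qsub341.index :=
    Subgroup.index_comap_of_surjective _ hyp.surj
  have hiN : (Nsub341.comap ρ).index = Nsub341.index :=
    Subgroup.index_comap_of_surjective _ hyp.surj
  have hNQ : (Nsub341.comap ρ).index ≤ 4 * (Qsub341.comap ρ).index := by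
    rw [hiQ, hiN]
    exact index_Nsub_le341
  have hQpos : 0 < (Qsub341.comap ρ).index := by
    rw [← rkQ]
    exact Module.finrank_pos
  have hNpos : 0 < (Nsub341.comap ρ).index := by
    rw [← rkN]
    exact Module.finrank_pos
  -- abbreviations
  set nF : ℕ := (subSL ρ).index with hnFdef
  set nQ : ℕ := (Qsub341.comap ρ).index with hnQdef
  set nN : ℕ := (Nsub341.comap ρ).index with hnNdef
  set α : ℝ := (nF : ℝ) / (nQ : ℝ) with hα
  have hQposR : (0 : ℝ) < (nQ : ℝ) := by exact_mod_cast hQpos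
  have hα0 : 0 ≤ α := div_nonneg (Nat.cast_nonneg _) (Nat.cast_nonneg _)
  have hαQ : α * (nQ : ℝ) = nF := by
    rw [hα]
    field_simp
  have hαN : α * (nN : ℝ) ≤ 4 * nF := by
    have h : (nN : ℝ) ≤ 4 * nQ := by exact_mod_cast hNQ
    calc α * nN ≤ α * (4 * nQ) := mul_le_mul_of_nonneg_left h hα0
      _ = 4 * (α * nQ) := by ring
      _ = 4 * nF := by rw [hαQ]
  -- the bad primes
  set Bad : Finset ℕ :=
    (H943.badNat (IntermediateField.fixedField (subSL ρ))).primeFactors ∪
      (H943.badNat (IntermediateField.fixedField (Qsub341.comap ρ))).primeFactors ∪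
      (H943.badNat (IntermediateField.fixedField (Nsub341.comap ρ))).primeFactors ∪ S ∪
      Sp.image (fun v => Ideal.absNorm v.asIdeal) with hBad
  have hBF : ∀ p : ℕ, p.Prime → p ∉ Bad →
      ¬ p ∣ H943.badNat (IntermediateField.fixedField (subSL ρ)) := by
    intro p hp hpB
    refine not_dvd_of_not_mem_primeFactors341 (H943.badNat_ne_zero _) hp (fun h => hpB ?_)
    simp only [hBad, Finset.mem_union]
    tauto
  have hBQ : ∀ p : ℕ, p.Prime → p ∉ Bad →
      ¬ p ∣ H943.badNat (IntermediateField.fixedField (Qsub341.comap ρ)) := by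
    intro p hp hpB
    refine not_dvd_of_not_mem_primeFactors341 (H943.badNat_ne_zero _) hp (fun h => hpB ?_)
    simp only [hBad, Finset.mem_union]
    tauto
  have hBN : ∀ p : ℕ, p.Prime → p ∉ Bad →
      ¬ p ∣ H943.badNat (IntermediateField.fixedField (Nsub341.comap ρ)) := by
    intro p hp hpB
    refine not_dvd_of_not_mem_primeFactors341 (H943.badNat_ne_zero _) hp (fun h => hpB ?_)
    simp only [hBad, Finset.mem_union]
    tauto
  have hBS : ∀ p : ℕ, p ∉ Bad → p ∉ S := by
    intro p hpB h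
    apply hpB
    simp only [hBad, Finset.mem_union]
    tauto
  have hBSp : ∀ p : ℕ, p ∉ Bad → ∀ v ∈ Sp, Ideal.absNorm v.asIdeal ≠ p := by
    intro p hpB v hv h
    apply hpB
    simp only [hBad, Finset.mem_union]
    right
    exact Finset.mem_image.mpr ⟨v, hv, h⟩
  -- the prime counts at a good prime
  have hcase : ∀ p : ℕ, p.Prime → p ∉ Bad → ∀ V : ValuationSubring Qb, V.LiesOverPrime p →
      ∀ σ : GQ, V.IsFrobeniusAt σ p →
        (primeCount (IntermediateField.fixedField (subSL ρ)) p =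
            if Matrix.GeneralLinearGroup.det (ρ σ) = 1 then nF else 0) ∧
          (primeCount (IntermediateField.fixedField (Qsub341.comap ρ)) p =
            if ρ σ ∈ Qsub341 then nQ else 0) ∧
          (primeCount (IntermediateField.fixedField (Nsub341.comap ρ)) p =
            if ρ σ ∈ Nsub341 then nN else 0) := by
    intro p hp hpB V hV σ hσ
    refine ⟨?_, ?_, ?_⟩
    · by_cases h : Matrix.GeneralLinearGroup.det (ρ σ) = 1
      · rw [if_pos h]
        exact pc_of_mem341 (subSL ρ) hoF hp (hBF p hp hpB) V hV σ hσ ((mem_subSL341 ρ σ).mpr h)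
      · rw [if_neg h]
        exact pc_of_not_mem341 (subSL ρ) hoF hp (hBF p hp hpB) V hV σ hσ
          (fun hm => h ((mem_subSL341 ρ σ).mp hm))
    · by_cases h : ρ σ ∈ Qsub341
      · rw [if_pos h]
        exact pc_of_mem341 (Qsub341.comap ρ) hoQ hp (hBQ p hp hpB) V hV σ hσ
          (Subgroup.mem_comap.mpr h)
      · rw [if_neg h]
        exact pc_of_not_mem341 (Qsub341.comap ρ) hoQ hp (hBQ p hp hpB) V hV σ hσ
          (fun hm => h (Subgroup.mem_comap.mp hm))
    · by_cases h : ρ σ ∈ Nsub341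
      · rw [if_pos h]
        exact pc_of_mem341 (Nsub341.comap ρ) hoN hp (hBN p hp hpB) V hV σ hσ
          (Subgroup.mem_comap.mpr h)
      · rw [if_neg h]
        exact pc_of_not_mem341 (Nsub341.comap ρ) hoN hp (hBN p hp hpB) V hV σ hσ
          (fun hm => h (Subgroup.mem_comap.mp hm))
  -- the class function
  set cls : ℕ → ℝ := fun n =>
    if primeCount (IntermediateField.fixedField (Nsub341.comap ρ)) n ≠ 0 then 4
    else if primeCount (IntermediateField.fixedField (Qsub341.comap ρ)) n ≠ 0 then 0 else 1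
    with hcls
  have hclsN : ∀ n : ℕ, primeCount (IntermediateField.fixedField (Nsub341.comap ρ)) n ≠ 0 →
      cls n = 4 := fun n h => by
    simp only [hcls]
    rw [if_pos h]
  have hclsQ : ∀ n : ℕ, primeCount (IntermediateField.fixedField (Nsub341.comap ρ)) n = 0 →
      primeCount (IntermediateField.fixedField (Qsub341.comap ρ)) n ≠ 0 → cls n = 0 :=
    fun n h h' => by
      simp only [hcls]
      rw [if_neg (not_not.mpr h), if_pos h']
  have hclsS : ∀ n : ℕ, primeCount (IntermediateField.fixedField (Nsub341.comap ρ)) n = 0 →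
      primeCount (IntermediateField.fixedField (Qsub341.comap ρ)) n = 0 → cls n = 1 :=
    fun n h h' => by
      simp only [hcls]
      rw [if_neg (not_not.mpr h), if_neg (not_not.mpr h')]
  -- the class function is the true value
  have hval : ∀ p : ℕ, p.Prime → p ∉ Bad → ∀ V : ValuationSubring Qb, V.LiesOverPrime p →
      ∀ σ : GQ, V.IsFrobeniusAt σ p → Matrix.GeneralLinearGroup.det (ρ σ) = 1 →
        cls p = ‖trΨ Ψ ι (ρ σ ^ ordSL (ρ σ))‖ ^ 2 := by
    intro p hp hpB V hV σ hσ hdet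
    obtain ⟨-, hQ, hN⟩ := hcase p hp hpB V hV σ hσ
    have hord : ordSL (ρ σ) = 1 := by
      unfold ordSL
      rw [if_pos hdet]
    rw [hord, pow_one]
    by_cases h1 : ρ σ ∈ Nsub341
    · rw [if_pos h1] at hN
      rw [hclsN p (by rw [hN]; exact hNpos.ne'), normSq_trΨ_N341 ι hyp.lift h1]
    · rw [if_neg h1] at hN
      by_cases h2 : ρ σ ∈ Qsub341
      · rw [if_pos h2] at hQ
        rw [hclsQ p hN (by rw [hQ]; exact hQpos.ne'), normSq_trΨ_Q341 ι hyp.lift h2 h1]
      · rw [if_neg h2] at hQ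
        rw [hclsS p hN hQ, normSq_trΨ_SL341 ι hyp.lift hdet h2]
  -- the pointwise inequality
  have hpt : ∀ p : Nat.Primes, (p : ℕ) ∉ Bad →
      (primeCount (IntermediateField.fixedField (subSL ρ)) p : ℝ) +
          α * (primeCount (IntermediateField.fixedField (Nsub341.comap ρ)) p : ℝ) -
          α * (primeCount (IntermediateField.fixedField (Qsub341.comap ρ)) p : ℝ)
        ≤ (primeCount (IntermediateField.fixedField (subSL ρ)) p : ℝ) * cls p := by
    intro p hpB
    obtain ⟨V, σ, hV, hσ⟩ := Fermat.Agent.S54.exists_frobenius p p.2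
    obtain ⟨hF, hQ, hN⟩ := hcase p p.2 hpB V hV σ hσ
    by_cases hdet : Matrix.GeneralLinearGroup.det (ρ σ) = 1
    · rw [if_pos hdet] at hF
      by_cases h1 : ρ σ ∈ Nsub341
      · have h2 : ρ σ ∈ Qsub341 := Nsub_le_Qsub341 h1
        rw [if_pos h1] at hN
        rw [if_pos h2] at hQ
        rw [hclsN p (by rw [hN]; exact hNpos.ne'), hF, hN, hQ]
        linarith
      · rw [if_neg h1] at hN
        by_cases h2 : ρ σ ∈ Qsub341
        · rw [if_pos h2] at hQ
          rw [hclsQ p hN (by rw [hQ]; exact hQpos.ne'), hF, hN, hQ]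
          simp only [Nat.cast_zero, mul_zero, add_zero]
          linarith
        · rw [if_neg h2] at hQ
          rw [hclsS p hN hQ, hF, hN, hQ]
          simp
    · rw [if_neg hdet] at hF
      have h2 : ρ σ ∉ Qsub341 := fun h => hdet (det_of_mem_Qsub341 h)
      have h1 : ρ σ ∉ Nsub341 := fun h => h2 (Nsub_le_Qsub341 h)
      rw [if_neg h1] at hN
      rw [if_neg h2] at hQ
      rw [hF, hN, hQ]
      simp
  refine ⟨CF + α * (CN + CQ) + (1 + α + ((nF : ℝ) + α * nN) * Bad.card), fun s hs1 hs2 => ?_⟩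
  -- the lower bound
  obtain ⟨U, hUgood, hUsum⟩ := sum_lower341
    (fun p : Nat.Primes =>
      (primeCount (IntermediateField.fixedField (subSL ρ)) p : ℝ) * ((p : ℕ) : ℝ) ^ (-s))
    (fun p : Nat.Primes =>
      (primeCount (IntermediateField.fixedField (Qsub341.comap ρ)) p : ℝ) * ((p : ℕ) : ℝ) ^ (-s))
    (fun p : Nat.Primes =>
      (primeCount (IntermediateField.fixedField (Nsub341.comap ρ)) p : ℝ) * ((p : ℕ) : ℝ) ^ (-s))
    (fun p : Nat.Primes =>
      (primeCount (IntermediateField.fixedField (subSL ρ)) p : ℝ) * cls p * ((p : ℕ) : ℝ) ^ (-s))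
    α ((nF : ℝ) + α * nN) hα0 Bad
    (H761.summable_primeCount_mul _ hs1) (H761.summable_primeCount_mul _ hs1)
    (H761.summable_primeCount_mul _ hs1)
    (fun p => mul_nonneg (Nat.cast_nonneg _) (rpow_neg_nonneg341 p s))
    (fun p => by
      have hx0 := rpow_neg_nonneg341 p s
      have hx1 := rpow_neg_le_one341 p hs1
      have h1 : (primeCount (IntermediateField.fixedField (subSL ρ)) p : ℝ) ≤ nF := by
        exact_mod_cast pc_le_index341 (subSL ρ) hoF p
      have h2 : (primeCount (IntermediateField.fixedField (Nsub341.comap ρ)) p : ℝ) ≤ nN := by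
        exact_mod_cast pc_le_index341 (Nsub341.comap ρ) hoN p
      have h3 : (primeCount (IntermediateField.fixedField (subSL ρ)) p : ℝ) *
          ((p : ℕ) : ℝ) ^ (-s) ≤ nF :=
        (mul_le_mul h1 hx1 hx0 (Nat.cast_nonneg _)).trans (by rw [mul_one])
      have h4 : (primeCount (IntermediateField.fixedField (Nsub341.comap ρ)) p : ℝ) *
          ((p : ℕ) : ℝ) ^ (-s) ≤ nN :=
        (mul_le_mul h2 hx1 hx0 (Nat.cast_nonneg _)).trans (by rw [mul_one])
      have h5 := mul_le_mul_of_nonneg_left h4 hα0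
      linarith)
    (add_nonneg (Nat.cast_nonneg _) (mul_nonneg hα0 (Nat.cast_nonneg _)))
    (fun p hpB => by
      have hx0 := rpow_neg_nonneg341 p s
      have h := mul_le_mul_of_nonneg_right (hpt p hpB) hx0
      beta_reduce
      linarith [h])
  beta_reduce at hUsum
  refine ⟨U.biUnion (fun p : Nat.Primes =>
      fib341 (IntermediateField.fixedField (subSL ρ)) (p : ℕ)),
    fun v => cls (Ideal.absNorm v.asIdeal), ?_, ?_⟩
  · intro v hv
    obtain ⟨p, hpU, hvp⟩ := Finset.mem_biUnion.mp hv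
    have hn : Ideal.absNorm v.asIdeal = (p : ℕ) := (mem_fib341 _ _ v).mp hvp
    have hpB := hUgood p hpU
    refine ⟨fun hvS => hBSp p hpB v hvS hn, (p : ℕ), p.2, hBS p hpB, ?_,
      Fermat.Agent.S54.exists_frobenius p p.2, ?_⟩
    · have h := Ideal.absNorm_mem v.asIdeal
      rwa [hn] at h
    · intro V hV σ hσ
      show cls (Ideal.absNorm v.asIdeal) = _
      rw [hn]
      have hdet : Matrix.GeneralLinearGroup.det (ρ σ) = 1 := by
        by_contra h
        have h0 := (hcase p p.2 hpB V hV σ hσ).1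
        rw [if_neg h] at h0
        have hc := card_fib341 (IntermediateField.fixedField (subSL ρ)) p.2
        rw [h0] at hc
        rw [Finset.card_eq_zero.mp hc] at hvp
        exact absurd hvp (Finset.notMem_empty v)
      exact hval p p.2 hpB V hV σ hσ hdet
  · have hdisj : (U : Set Nat.Primes).PairwiseDisjoint (fun p : Nat.Primes =>
        fib341 (IntermediateField.fixedField (subSL ρ)) (p : ℕ)) := by
      intro p _ q _ hpq
      rw [Function.onFun, Finset.disjoint_left]
      intro v hvp hvq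
      apply hpq
      apply Subtype.ext
      rw [← (mem_fib341 _ _ v).mp hvp, ← (mem_fib341 _ _ v).mp hvq]
    rw [Finset.sum_biUnion hdisj]
    have hinner : ∀ p ∈ U,
        ∑ v ∈ fib341 (IntermediateField.fixedField (subSL ρ)) (p : ℕ),
            cls (Ideal.absNorm v.asIdeal) * H37.nrm v ^ (-s)
          = (primeCount (IntermediateField.fixedField (subSL ρ)) p : ℝ) * cls p *
              ((p : ℕ) : ℝ) ^ (-s) := by
      intro p _
      have h1 : ∀ v ∈ fib341 (IntermediateField.fixedField (subSL ρ)) (p : ℕ),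
          cls (Ideal.absNorm v.asIdeal) * H37.nrm v ^ (-s) = cls p * ((p : ℕ) : ℝ) ^ (-s) := by
        intro v hv
        have hn := (mem_fib341 _ _ v).mp hv
        unfold H37.nrm
        rw [hn]
      rw [Finset.sum_congr rfl h1, Finset.sum_const, nsmul_eq_mul, card_fib341 _ p.2]
      ring
    rw [Finset.sum_congr rfl hinner]
    have hF1 := abs_le.mp (hCF s hs1 hs2)
    have hQ1 := abs_le.mp (hCQ s hs1 hs2)
    have hN1 := abs_le.mp (hCN s hs1 hs2)
    have hαN1 : α * (Real.log (1 / (s - 1)) - CN) ≤ α * ∑' p : Nat.Primes,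
        (primeCount (IntermediateField.fixedField (Nsub341.comap ρ)) p : ℝ) *
          ((p : ℕ) : ℝ) ^ (-s) :=
      mul_le_mul_of_nonneg_left (by linarith [hN1.1]) hα0
    have hαQ1 : α * (∑' p : Nat.Primes,
        (primeCount (IntermediateField.fixedField (Qsub341.comap ρ)) p : ℝ) *
          ((p : ℕ) : ℝ) ^ (-s)) ≤ α * (Real.log (1 / (s - 1)) + CQ) :=
      mul_le_mul_of_nonneg_left (by linarith [hQ1.2]) hα0
    linarith [hF1.1, hUsum]

end Fermat.Agent.LT.T7.H341

end
-- ===== PACK-END LT/T7/H341/ChebF.lean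

-- ===== PACK-BEGIN LT/T7/H768/QuadInt.lean
section




/-!
# Row LT, tower T7, leaf T7.13i `HoroCoeffFC` (helper768), part 1: the lattice `e(𝓞_K)`

OFF-MAIN.  `K` imaginary quadratic with a square root `x` of `-3`, `ζ = (x - 1) / 2`,
`e : K →+* ℂ`.

* `exists_rat_coords768`: every element of `K` is `a + b ζ`, `a, b ∈ ℚ`;
* `exists_int_coords768`: every element of `𝓞 K` is `a + b ζ`, `a, b ∈ ℤ` (`K` is the third
  cyclotomic field; Mathlib `IsCyclotomicExtension.Rat.isIntegralClosure_adjoin_singleton`);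
* `tau768 e x w = 2 Im w / Im (e x)` (`= Tr (w / √-3)` on `e K`): `τ (e (a + b ζ)) = b`;
* `tau_int768`: `τ (e y) ∈ ℤ` for `y ∈ 𝓞 K`;
* `mem_lattice_of_tau768`: `τ u, τ (e ζ · u) ∈ ℤ` implies `u ∈ e (𝓞 K)` (self-duality of the
  lattice for the pairing `τ (u u')`);
* `integral_of_tau768`: `y ∈ K`, `τ (e y), τ (e (y ζ)) ∈ ℤ` implies `y ∈ 𝓞 K`.
-/

set_option autoImplicit false
set_option linter.unusedSectionVars false
set_option linter.style.haveILetI false

open IsDedekindDomain NumberField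

noncomputable section

namespace Fermat.Agent.LT.T7.H768

open Fermat.Agent.LT.T7 Fermat.Agent.LT.T7.H37

variable {K : Type} [Field K] [NumberField K]

/-- The cube root of unity attached to a square root `x` of `-3`. -/
def zeta768 (x : K) : K := (x - 1) / 2

theorem two_zeta768 (x : K) : 2 * zeta768 x + 1 = x := by
  unfold zeta768
  have h2 : (2 : K) ≠ 0 := two_ne_zero
  field_simp
  ring

theorem zeta_rel768 {x : K} (hx : x * x = -3) : zeta768 x ^ 2 + zeta768 x + 1 = 0 := by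
  have h : (2 * zeta768 x + 1) * (2 * zeta768 x + 1) = -3 := by rw [two_zeta768]; exact hx
  have h4 : (4 : K) * (zeta768 x ^ 2 + zeta768 x + 1) = 0 := by linear_combination h
  rcases mul_eq_zero.1 h4 with h | h
  · exact absurd h (by norm_num)
  · exact h

theorem zeta_sq768 {x : K} (hx : x * x = -3) : zeta768 x * zeta768 x = -1 - zeta768 x := by
  linear_combination zeta_rel768 hx

theorem zeta_cube768 {x : K} (hx : x * x = -3) : zeta768 x ^ 3 = 1 := by
  linear_combination (zeta768 x - 1) * zeta_rel768 hx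

theorem isIntegral_zeta768 {x : K} (hx : x * x = -3) : IsIntegral ℤ (zeta768 x) := by
  apply IsIntegral.of_pow (n := 3) (by norm_num)
  rw [zeta_cube768 hx]
  exact isIntegral_one

theorem isPrimitiveRoot_zeta768 {x : K} (hx : x * x = -3) : IsPrimitiveRoot (zeta768 x) 3 := by
  have hrel := zeta_rel768 hx
  have hne1 : zeta768 x ≠ 1 := by
    intro h1
    rw [h1] at hrel
    norm_num at hrel
  refine IsPrimitiveRoot.mk_of_lt (zeta768 x) (by norm_num) (zeta_cube768 hx) ?_
  intro l hl0 hl3 hl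
  interval_cases l
  · exact hne1 (by simpa using hl)
  · have h5 : zeta768 x = -2 := by linear_combination hrel - hl
    rw [h5] at hrel
    norm_num at hrel

theorem isCyclotomicExtension768 (h : IsImagQuad K) {x : K} (hx : x * x = -3) :
    IsCyclotomicExtension {3} ℚ K := by
  rw [IsCyclotomicExtension.iff_singleton]
  refine ⟨⟨zeta768 x, isPrimitiveRoot_zeta768 hx⟩, fun y => ?_⟩
  have htop := H91.adjoin_sqrt_eq_top91 h hx
  have hsub : Algebra.adjoin ℚ ({x} : Set K) ≤ Algebra.adjoin ℚ {b : K | b ^ 3 = 1} := by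
    apply Algebra.adjoin_le
    intro z hz
    rw [Set.mem_singleton_iff] at hz
    rw [hz, ← two_zeta768 x]
    have hζmem : zeta768 x ∈ Algebra.adjoin ℚ {b : K | b ^ 3 = 1} :=
      Algebra.subset_adjoin (by simpa using zeta_cube768 hx)
    exact Subalgebra.add_mem _ (Subalgebra.mul_mem _ (by
      have : (2 : K) = algebraMap ℚ K 2 := by simp
      rw [this]; exact Subalgebra.algebraMap_mem _ _) hζmem) (Subalgebra.one_mem _)
  rw [htop] at hsub
  exact hsub Algebra.mem_top

/-- Every element of `K` is `a + b ζ` with `a, b` rational. -/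
theorem exists_rat_coords768 (h : IsImagQuad K) {x : K} (hx : x * x = -3) (y : K) :
    ∃ a b : ℚ, y = algebraMap ℚ K a + algebraMap ℚ K b * zeta768 x := by
  have htop := H91.adjoin_sqrt_eq_top91 h hx
  have hy : y ∈ Algebra.adjoin ℚ ({x} : Set K) := by rw [htop]; exact Algebra.mem_top
  refine Algebra.adjoin_induction (p := fun y _ =>
    ∃ a b : ℚ, y = algebraMap ℚ K a + algebraMap ℚ K b * zeta768 x) ?_ ?_ ?_ ?_ hy
  · intro z hz
    rw [Set.mem_singleton_iff] at hz
    refine ⟨1, 2, ?_⟩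
    rw [hz, map_one, map_ofNat]
    linear_combination -(two_zeta768 x)
  · intro r
    exact ⟨r, 0, by simp⟩
  · rintro u v _ _ ⟨a, b, rfl⟩ ⟨a', b', rfl⟩
    refine ⟨a + a', b + b', ?_⟩
    rw [map_add, map_add]
    ring
  · rintro u v _ _ ⟨a, b, rfl⟩ ⟨a', b', rfl⟩
    refine ⟨a * a' - b * b', a * b' + b * a' - b * b', ?_⟩
    simp only [map_add, map_sub, map_mul]
    linear_combination (algebraMap ℚ K b * algebraMap ℚ K b') * zeta_sq768 hx

/-- Every element of `𝓞 K` is `a + b ζ` with `a, b` integers. -/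
theorem exists_int_coords768 (h : IsImagQuad K) {x : K} (hx : x * x = -3) (y : 𝓞 K) :
    ∃ a b : ℤ, (y : K) = (a : K) + (b : K) * zeta768 x := by
  haveI := isCyclotomicExtension768 h hx
  have hcl : IsIntegralClosure (Algebra.adjoin ℤ ({zeta768 x} : Set K)) ℤ K :=
    IsCyclotomicExtension.Rat.isIntegralClosure_adjoin_singleton (isPrimitiveRoot_zeta768 hx)
  obtain ⟨t, ht⟩ := (hcl.isIntegral_iff).mp (RingOfIntegers.isIntegral_coe y)
  have ht' : (t : K) = (y : K) := ht
  rw [← ht']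
  have hmem : (t : K) ∈ Algebra.adjoin ℤ ({zeta768 x} : Set K) := t.2
  refine Algebra.adjoin_induction (p := fun y _ =>
    ∃ a b : ℤ, y = (a : K) + (b : K) * zeta768 x) ?_ ?_ ?_ ?_ hmem
  · intro z hz
    rw [Set.mem_singleton_iff] at hz
    exact ⟨0, 1, by rw [hz]; simp⟩
  · intro r
    exact ⟨r, 0, by simp⟩
  · rintro u v _ _ ⟨a, b, rfl⟩ ⟨a', b', rfl⟩
    refine ⟨a + a', b + b', ?_⟩
    push_cast
    ring
  · rintro u v _ _ ⟨a, b, rfl⟩ ⟨a', b', rfl⟩
    refine ⟨a * a' - b * b', a * b' + b * a' - b * b', ?_⟩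
    push_cast
    linear_combination ((b : K) * (b' : K)) * zeta_sq768 hx

/-! ## The embedding -/

theorem emb_sqrt768 (e : K →+* ℂ) {x : K} (hx : x * x = -3) :
    (e x).re = 0 ∧ (e x).im * (e x).im = 3 := by
  have h : e x * e x = -3 := by rw [← map_mul, hx, map_neg, map_ofNat]
  have hre := congrArg Complex.re h
  have him := congrArg Complex.im h
  simp only [Complex.mul_re, Complex.mul_im, Complex.neg_re, Complex.neg_im] at hre him
  have h3re : (3 : ℂ).re = 3 := by norm_num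
  have h3im : (3 : ℂ).im = 0 := by norm_num
  rw [h3re] at hre
  rw [h3im] at him
  have hprod : (e x).re * (e x).im = 0 := by linarith
  rcases mul_eq_zero.mp hprod with h0 | h0
  · refine ⟨h0, ?_⟩
    rw [h0] at hre
    linarith
  · rw [h0] at hre
    nlinarith [mul_self_nonneg (e x).re]

theorem emb_sqrt_im_ne768 (e : K →+* ℂ) {x : K} (hx : x * x = -3) : (e x).im ≠ 0 := by
  intro h0
  have := (emb_sqrt768 e hx).2
  rw [h0] at this
  norm_num at this

theorem emb_zeta768 (e : K →+* ℂ) {x : K} (hx : x * x = -3) :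
    (e (zeta768 x)).re = -1 / 2 ∧ (e (zeta768 x)).im = (e x).im / 2 := by
  have h : e (zeta768 x) = (e x - 1) / 2 := by
    unfold zeta768
    rw [map_div₀, map_sub, map_one, map_ofNat]
  have hre := (emb_sqrt768 e hx).1
  constructor
  · rw [h]
    simp [hre]
  · rw [h]
    simp

/-- The real functional `τ w = 2 Im w / Im (e x)`. -/
def tau768 (e : K →+* ℂ) (x : K) (w : ℂ) : ℝ := 2 * w.im / (e x).im

theorem tau_add768 (e : K →+* ℂ) (x : K) (w w' : ℂ) :
    tau768 e x (w + w') = tau768 e x w + tau768 e x w' := by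
  unfold tau768
  rw [Complex.add_im]
  ring

theorem tau_neg768 (e : K →+* ℂ) (x : K) (w : ℂ) : tau768 e x (-w) = -tau768 e x w := by
  unfold tau768
  rw [Complex.neg_im]
  ring

theorem tau_zero768 (e : K →+* ℂ) (x : K) : tau768 e x 0 = 0 := by
  unfold tau768
  simp

theorem tau_real_mul768 (e : K →+* ℂ) (x : K) (r : ℝ) (w : ℂ) :
    tau768 e x ((r : ℂ) * w) = r * tau768 e x w := by
  unfold tau768
  rw [Complex.im_ofReal_mul]
  ring

theorem continuous_tau768 (e : K →+* ℂ) (x : K) : Continuous (tau768 e x) := by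
  unfold tau768
  exact (continuous_const.mul Complex.continuous_im).div_const _

/-- `τ (e (a + b ζ)) = b`. -/
theorem tau_coords768 (e : K →+* ℂ) {x : K} (hx : x * x = -3) (a b : ℚ) :
    tau768 e x (e (algebraMap ℚ K a + algebraMap ℚ K b * zeta768 x)) = b := by
  have hβ := emb_sqrt_im_ne768 e hx
  have hζ := emb_zeta768 e hx
  unfold tau768
  rw [map_add, map_mul, Complex.add_im, Complex.mul_im]
  have ha : e (algebraMap ℚ K a) = ((a : ℝ) : ℂ) := by
    rw [eq_ratCast, map_ratCast]; simp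
  have hb : e (algebraMap ℚ K b) = ((b : ℝ) : ℂ) := by
    rw [eq_ratCast, map_ratCast]; simp
  rw [ha, hb, Complex.ofReal_im, Complex.ofReal_re, Complex.ofReal_im, hζ.2]
  field_simp
  ring

/-- `τ (e y) ∈ ℤ` for `y ∈ 𝓞 K`. -/
theorem tau_int768 (h : IsImagQuad K) (e : K →+* ℂ) {x : K} (hx : x * x = -3) (y : 𝓞 K) :
    ∃ n : ℤ, tau768 e x (e (y : K)) = n := by
  obtain ⟨a, b, hab⟩ := exists_int_coords768 h hx y
  refine ⟨b, ?_⟩
  have := tau_coords768 e hx (a : ℚ) (b : ℚ)
  rw [hab]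
  have h1 : (algebraMap ℚ K (a : ℚ)) = (a : K) := by simp
  have h2 : (algebraMap ℚ K (b : ℚ)) = (b : K) := by simp
  rw [h1, h2] at this
  rw [this]
  simp

/-- `ζ` as an algebraic integer. -/
def zetaInt768 {x : K} (hx : x * x = -3) : 𝓞 K := ⟨zeta768 x, isIntegral_zeta768 hx⟩

theorem coe_zetaInt768 {x : K} (hx : x * x = -3) : ((zetaInt768 hx : 𝓞 K) : K) = zeta768 x := rfl

/-- The algebraic integer `a + b ζ`. -/
def latInt768 {x : K} (hx : x * x = -3) (a b : ℤ) : 𝓞 K := (a : 𝓞 K) + (b : 𝓞 K) * zetaInt768 hx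

theorem coe_latInt768 {x : K} (hx : x * x = -3) (a b : ℤ) :
    ((latInt768 hx a b : 𝓞 K) : K) = (a : K) + (b : K) * zeta768 x := by
  unfold latInt768
  have h1 : ((zetaInt768 hx : 𝓞 K) : K) = zeta768 x := rfl
  have h2 : (((a : 𝓞 K) + (b : 𝓞 K) * zetaInt768 hx : 𝓞 K) : K)
      = ((a : 𝓞 K) : K) + ((b : 𝓞 K) : K) * ((zetaInt768 hx : 𝓞 K) : K) := by
    push_cast
    rfl
  rw [h2, h1]
  simp

theorem emb_latInt768 (e : K →+* ℂ) {x : K} (hx : x * x = -3) (a b : ℤ) :
    e ((latInt768 hx a b : 𝓞 K) : K) = (a : ℂ) + (b : ℂ) * e (zeta768 x) := by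
  rw [coe_latInt768, map_add, map_mul, map_intCast, map_intCast]

/-- Self-duality of the lattice `e (𝓞 K)` for the pairing `τ (u u')`. -/
theorem mem_lattice_of_tau768 (e : K →+* ℂ) {x : K} (hx : x * x = -3) (u : ℂ) (n m : ℤ)
    (h1 : tau768 e x u = n) (h2 : tau768 e x (e (zeta768 x) * u) = m) :
    e ((latInt768 hx (m + n) n : 𝓞 K) : K) = u := by
  have hβ := emb_sqrt_im_ne768 e hx
  have hζ := emb_zeta768 e hx
  unfold tau768 at h1 h2
  rw [Complex.mul_im, hζ.1, hζ.2] at h2
  have him : u.im = n * (e x).im / 2 := by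
    field_simp at h1
    linarith
  have hre : u.re = m + n / 2 := by
    rw [him] at h2
    field_simp at h2
    linarith
  rw [emb_latInt768]
  apply Complex.ext
  · simp only [Complex.add_re, Complex.mul_re, Complex.intCast_re, Complex.intCast_im, hζ.1, hζ.2]
    rw [hre]
    push_cast
    ring
  · simp only [Complex.add_im, Complex.mul_im, Complex.intCast_re, Complex.intCast_im, hζ.1, hζ.2]
    rw [him]
    ring

/-- An element `y` of `K` with `τ (e y), τ (e (y ζ)) ∈ ℤ` is an algebraic integer. -/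
theorem integral_of_tau768 (h : IsImagQuad K) (e : K →+* ℂ) {x : K} (hx : x * x = -3) (y : K)
    (n m : ℤ) (h1 : tau768 e x (e y) = n) (h2 : tau768 e x (e (y * zeta768 x)) = m) :
    ((latInt768 hx (m + n) n : 𝓞 K) : K) = y := by
  obtain ⟨a, b, hab⟩ := exists_rat_coords768 h hx y
  have e1 : tau768 e x (e y) = b := by rw [hab]; exact tau_coords768 e hx a b
  have hyz : y * zeta768 x
      = algebraMap ℚ K (-b) + algebraMap ℚ K (a - b) * zeta768 x := by
    rw [hab, map_neg, map_sub]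
    linear_combination (algebraMap ℚ K b) * zeta_sq768 hx
  have e2 : tau768 e x (e (y * zeta768 x)) = ((a - b : ℚ) : ℝ) := by
    rw [hyz]; exact tau_coords768 e hx (-b) (a - b)
  rw [e1] at h1
  rw [e2] at h2
  have hb : b = (n : ℚ) := by exact_mod_cast h1
  have ha : a = (m : ℚ) + n := by
    have : (a - b : ℚ) = (m : ℚ) := by exact_mod_cast h2
    rw [hb] at this
    linarith
  rw [coe_latInt768, hab, ha, hb]
  push_cast
  simp

theorem emb_ne_zero768 (e : K →+* ℂ) {y : K} (hy : y ≠ 0) : e y ≠ 0 := by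
  intro h0
  exact hy (e.injective (by rw [h0, map_zero]))

end Fermat.Agent.LT.T7.H768

end

end
-- ===== PACK-END LT/T7/H768/QuadInt.lean

-- ===== PACK-BEGIN LT/T7/H496/TwistNonzero.lean
section



/-!
# Row LT, tower T7, leaf T7.01 `TwistC` (helper496), OFF-MAIN: the twisted form is not zero

`twist_ne_zero496 : IsSph0CuspFormFor π φ → ∃ g, φ (tw496 g) ≠ 0`.

Route: `φ (g₀) ≠ 0`; pick `d ∈ 𝔫`, `d ≠ 0` (`𝔫 = π.level`).  Weak approximation at the places
dividing `d` (`exists_rat_near496`, from helper767's additive strong approximation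
`LT/H767/StrongApprox.lean`, byte-identical copy) gives `α ∈ Kˣ` with `α⁻¹ det g₀ ≡ 1 mod d` there;
cube roots at the infinite places give an idele `t`, trivial at the finite places, with
`t³ det g₀ = α` at infinity.  Then `tw496 (g₀ t) = g₀ · (t³ det g₀)` and the scalar idele
`t³ det g₀ = α · y`, `y` finite and `≡ 1` at the places dividing `d`, acts on `φ` by a non-zero
constant (`ActsBy496`): `α` by left invariance, the unit part of `y` by the level group (the
closure of `𝔫` in `K_v` contains the ball of radius `|d|_v`, `mem_idealClosure_of_le496`), and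
the local ideles at the finitely many `v ∤ d` where `y_v` is not a unit by the `S_v`-eigenvalue
`b_v ≠ 0`.
-/

set_option autoImplicit false

open IsDedekindDomain NumberField AutomorphicForm
open scoped MatrixGroups

noncomputable section

namespace Fermat.Agent.LT.T7.H496

open Fermat.Agent.LT.H556 Fermat.Agent.LT.H556.A0

variable {K : Type} [Field K] [NumberField K]

/-! ## Local ideles at a finite place -/

open scoped Classical in
/-- The adele with component `c` at the finite place `v` and `1` at every other place. -/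
def locFHom496 (v : HeightOneSpectrum (𝓞 K)) : v.adicCompletion K →* Adl K where
  toFun c := ((1 : InfiniteAdeleRing K),
    (RestrictedProduct.mulSingle (fun v : HeightOneSpectrum (𝓞 K) => v.adicCompletionIntegers K)
      v c : FiniteAdeleRing (𝓞 K) K))
  map_one' := by
    refine Prod.ext rfl ?_
    exact RestrictedProduct.mulSingle_one _ v
  map_mul' a b := by
    refine Prod.ext (one_mul 1).symm ?_
    exact RestrictedProduct.mulSingle_mul _ v a b

/-- The idele with component `c` at the finite place `v` and `1` at every other place. -/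
def locF496 (v : HeightOneSpectrum (𝓞 K)) : (v.adicCompletion K)ˣ →* (Adl K)ˣ :=
  Units.map (locFHom496 v)

theorem evF_locF_same496 (v : HeightOneSpectrum (𝓞 K)) (c : (v.adicCompletion K)ˣ) :
    evF496 v ((locF496 v c : (Adl K)ˣ) : Adl K) = c := by
  classical
  exact RestrictedProduct.mulSingle_eq_same
    (fun v : HeightOneSpectrum (𝓞 K) => v.adicCompletionIntegers K) v _

theorem evF_locF_ne496 {v v' : HeightOneSpectrum (𝓞 K)} (h : v' ≠ v)
    (c : (v.adicCompletion K)ˣ) :
    evF496 v' ((locF496 v c : (Adl K)ˣ) : Adl K) = 1 := by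
  classical
  exact RestrictedProduct.mulSingle_eq_of_ne
    (fun v : HeightOneSpectrum (𝓞 K) => v.adicCompletionIntegers K) _ h

theorem evI_locF496 (v : HeightOneSpectrum (𝓞 K)) (w : InfinitePlace K)
    (c : (v.adicCompletion K)ˣ) :
    evI496 w ((locF496 v c : (Adl K)ˣ) : Adl K) = 1 := rfl

/-! ## Components of scalar matrices -/

theorem trivAtInf_sc496 {w : InfinitePlace K} {x : (Adl K)ˣ} (h : evI496 w (x : Adl K) = 1) :
    TrivAtInf w (sc496 x) := by
  rw [trivAtInf_iff496, rawInf_sc496, h]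
  exact Matrix.diagonal_one

theorem trivAtFin_sc496 {v : HeightOneSpectrum (𝓞 K)} {x : (Adl K)ˣ}
    (h : evF496 v (x : Adl K) = 1) : TrivAtFin v (sc496 x) := by
  rw [trivAtFin_iff496, finComp_sc496, h]
  exact Matrix.diagonal_one

theorem isLocalAtFin_sc_locF496 (v : HeightOneSpectrum (𝓞 K)) (c : (v.adicCompletion K)ˣ) :
    IsLocalAtFin v (sc496 (locF496 v c)) :=
  ⟨fun w => trivAtInf_sc496 (evI_locF496 v w c),
    fun _ hv' => trivAtFin_sc496 (evF_locF_ne496 hv' c)⟩

theorem isScalarUniformizerAt_sc_locF496 (v : HeightOneSpectrum (𝓞 K))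
    (c : (v.adicCompletion K)ˣ)
    (hc : Valued.v (c : v.adicCompletion K) = WithZero.exp (-1 : ℤ)) :
    IsScalarUniformizerAt v (sc496 (locF496 v c)) :=
  ⟨isLocalAtFin_sc_locF496 v c, c, hc, by rw [finComp_sc496, evF_locF_same496]⟩

end Fermat.Agent.LT.T7.H496

namespace Fermat.Agent.LT.T7.H496

open Fermat.Agent.LT.H556 Fermat.Agent.LT.H556.A0 Fermat.Agent.LT.H767
open IsDedekindDomain.HeightOneSpectrum

variable {K : Type} [Field K] [NumberField K]

/-! ## The closure of the level ideal contains a ball -/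

/-- The image of `d : 𝓞 K` in `K_v`. -/
def imF496 (v : HeightOneSpectrum (𝓞 K)) (d : 𝓞 K) : v.adicCompletion K :=
  algebraMap K (v.adicCompletion K) (algebraMap (𝓞 K) K d)

theorem imF496_ne_zero (v : HeightOneSpectrum (𝓞 K)) {d : 𝓞 K} (hd : d ≠ 0) :
    imF496 v d ≠ 0 := by
  unfold imF496
  have hdK : (algebraMap (𝓞 K) K d) ≠ 0 := by simpa using hd
  simpa using hdK

theorem mem_idealClosure_of_le496 (𝔫 : Ideal (𝓞 K)) (v : HeightOneSpectrum (𝓞 K))
    {d : 𝓞 K} (hd𝔫 : d ∈ 𝔫) (hd : d ≠ 0) (x : v.adicCompletion K)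
    (hx : Valued.v x ≤ Valued.v (imF496 v d)) : x ∈ idealClosure 𝔫 v := by
  have hD0 : imF496 v d ≠ 0 := imF496_ne_zero v hd
  have hDpos : 0 < ‖imF496 v d‖ := norm_pos_iff.mpr hD0
  rw [idealClosure, Metric.mem_closure_iff]
  intro ε hε
  -- a small element of `𝓞 K`
  obtain ⟨ϖ, hϖ, hϖ0⟩ := Submodule.exists_mem_ne_zero_of_ne_bot v.ne_bot
  have hP1 : ‖imF496 v ϖ‖ < 1 := by
    rw [Valued.toNormedField.norm_lt_one_iff]
    unfold imF496
    rw [valued_algebraMap]
    exact (valuation_lt_one_iff_mem v ϖ).mpr hϖ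
  obtain ⟨n, hn⟩ := exists_pow_lt_of_lt_one (show (0 : ℝ) < ε / ‖imF496 v d‖ by positivity) hP1
  have he0 : ϖ ^ n ≠ 0 := pow_ne_zero _ hϖ0
  -- `x / D` is integral
  have hx' : Valued.v (x / imF496 v d) ≤ 1 := by
    rw [map_div₀]
    exact div_le_one_of_le₀ hx (by simp)
  obtain ⟨y, hy⟩ := exists_int_sub_lt K v (x / imF496 v d) hx' (ϖ ^ n) he0
  refine ⟨imF496 v (d * y), ⟨d * y, 𝔫.mul_mem_right y hd𝔫, rfl⟩, ?_⟩
  have hy' : ‖imF496 v y - x / imF496 v d‖ < ‖imF496 v (ϖ ^ n)‖ :=
    Valued.toNormedField.norm_lt_iff.mpr hy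
  have hpow : ‖imF496 v (ϖ ^ n)‖ = ‖imF496 v ϖ‖ ^ n := by
    unfold imF496
    rw [map_pow, map_pow, norm_pow]
  have hkey : x - imF496 v (d * y) = imF496 v d * (x / imF496 v d - imF496 v y) := by
    have : imF496 v (d * y) = imF496 v d * imF496 v y := by
      unfold imF496
      rw [map_mul, map_mul]
    rw [this]
    field_simp
  rw [dist_eq_norm, hkey, norm_mul, norm_sub_rev]
  calc ‖imF496 v d‖ * ‖imF496 v y - x / imF496 v d‖
      < ‖imF496 v d‖ * ‖imF496 v (ϖ ^ n)‖ := mul_lt_mul_of_pos_left hy' hDpos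
    _ = ‖imF496 v d‖ * ‖imF496 v ϖ‖ ^ n := by rw [hpow]
    _ < ‖imF496 v d‖ * (ε / ‖imF496 v d‖) := mul_lt_mul_of_pos_left hn hDpos
    _ = ε := by field_simp

end Fermat.Agent.LT.T7.H496

namespace Fermat.Agent.LT.T7.H496

open Fermat.Agent.LT.H556 Fermat.Agent.LT.H556.A0 Fermat.Agent.LT.H767
open IsDedekindDomain.HeightOneSpectrum

variable {K : Type} [Field K] [NumberField K]

/-! ## Scalar elements of the level group -/

theorem sc496_inv (x : (Adl K)ˣ) : (sc496 x)⁻¹ = sc496 x⁻¹ := (map_inv sc496 x).symm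

theorem inLevelGroup_sc496 (𝔫 : Ideal (𝓞 K)) (y : (Adl K)ˣ)
    (hI : ∀ w : InfinitePlace K, evI496 w (y : Adl K) = 1)
    (hF : ∀ v : HeightOneSpectrum (𝓞 K), evF496 v (y : Adl K) - 1 ∈ idealClosure 𝔫 v ∧
      evF496 v ((y⁻¹ : (Adl K)ˣ) : Adl K) - 1 ∈ idealClosure 𝔫 v) :
    InLevelGroup 𝔫 (sc496 y) := by
  refine ⟨fun w => trivAtInf_sc496 (hI w), fun v i j => ⟨?_, ?_⟩⟩
  · rw [finComp_sc496]
    exact diagonal_sub_one_mem496 _ _ _ (hF v).1 i j
  · rw [sc496_inv, finComp_sc496]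
    exact diagonal_sub_one_mem496 _ _ _ (hF v).2 i j

/-! ## The predicate `P`: the scalar idele acts on `φ` by a non-zero constant -/

/-- `φ (G · x) = c · φ (G)` for a non-zero constant `c`. -/
def ActsBy496 (φ : G K → ℂ) (x : (Adl K)ˣ) : Prop :=
  ∃ c : ℂ, c ≠ 0 ∧ ∀ g : G K, φ (g * sc496 x) = c * φ g

theorem actsBy_one496 (φ : G K → ℂ) : ActsBy496 φ 1 :=
  ⟨1, one_ne_zero, fun g => by rw [map_one, mul_one, one_mul]⟩

theorem ActsBy496.mul {φ : G K → ℂ} {x y : (Adl K)ˣ} (hx : ActsBy496 φ x)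
    (hy : ActsBy496 φ y) : ActsBy496 φ (x * y) := by
  obtain ⟨c, hc, hx⟩ := hx
  obtain ⟨c', hc', hy⟩ := hy
  refine ⟨c' * c, mul_ne_zero hc' hc, fun g => ?_⟩
  rw [map_mul, ← mul_assoc, hy, hx, mul_assoc]

theorem ActsBy496.inv {φ : G K → ℂ} {x : (Adl K)ˣ} (hx : ActsBy496 φ x) :
    ActsBy496 φ x⁻¹ := by
  obtain ⟨c, hc, hx⟩ := hx
  refine ⟨c⁻¹, inv_ne_zero hc, fun g => ?_⟩
  have h := hx (g * sc496 x⁻¹)
  rw [mul_assoc, ← map_mul, inv_mul_cancel, map_one, mul_one] at h
  rw [h, ← mul_assoc, inv_mul_cancel₀ hc, one_mul]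

theorem ActsBy496.pow {φ : G K → ℂ} {x : (Adl K)ˣ} (hx : ActsBy496 φ x) (n : ℕ) :
    ActsBy496 φ (x ^ n) := by
  induction n with
  | zero => rw [pow_zero]; exact actsBy_one496 φ
  | succ n ih => rw [pow_succ]; exact ih.mul hx

theorem ActsBy496.zpow {φ : G K → ℂ} {x : (Adl K)ˣ} (hx : ActsBy496 φ x) (n : ℤ) :
    ActsBy496 φ (x ^ n) := by
  cases n with
  | ofNat n => rw [Int.ofNat_eq_natCast, zpow_natCast]; exact hx.pow n
  | negSucc n => rw [zpow_negSucc]; exact (hx.pow _).inv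

/-- Non-vanishing is preserved. -/
theorem ActsBy496.ne_zero {φ : G K → ℂ} {x : (Adl K)ˣ} (hx : ActsBy496 φ x) {g : G K}
    (hg : φ g ≠ 0) : φ (g * sc496 x) ≠ 0 := by
  obtain ⟨c, hc, hx⟩ := hx
  rw [hx]
  exact mul_ne_zero hc hg

/-- The principal idele of `α ∈ Kˣ`. -/
def ratU496 : Kˣ →* (Adl K)ˣ := Units.map (algebraMap K (Adl K)).toMonoidHom

theorem sc496_ratU (α : Kˣ) :
    sc496 (ratU496 α) = Matrix.GeneralLinearGroup.map (algebraMap K (Adl K))
      (Matrix.GeneralLinearGroup.scalar (Fin 2) α) := by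
  apply Units.ext
  refine Matrix.ext fun i j => ?_
  rw [Matrix.GeneralLinearGroup.map_apply]
  simp only [Matrix.GeneralLinearGroup.coe_scalar, Matrix.scalar_apply, Matrix.diagonal_apply]
  split_ifs
  · rfl
  · rw [map_zero]

variable {π : HeckeEigensystem K ℂ} {φ : G K → ℂ}

theorem actsBy_ratU496 (hφ : IsSph0CuspFormFor π φ) (α : Kˣ) : ActsBy496 φ (ratU496 α) := by
  refine ⟨1, one_ne_zero, fun g => ?_⟩
  rw [one_mul, ← sc496_comm, sc496_ratU]
  exact hφ.left_inv _ _

theorem actsBy_of_level496 (hφ : IsSph0CuspFormFor π φ) (y : (Adl K)ˣ)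
    (hy : InLevelGroup π.level (sc496 y)) : ActsBy496 φ y :=
  ⟨1, one_ne_zero, fun g => by rw [one_mul]; exact hφ.level_inv _ hy g⟩

/-- A uniformiser of `K_v` as a unit. -/
theorem exists_unif496 (v : HeightOneSpectrum (𝓞 K)) :
    ∃ c : (v.adicCompletion K)ˣ, Valued.v (c : v.adicCompletion K) = WithZero.exp (-1 : ℤ) := by
  obtain ⟨ϖ, hϖ⟩ := v.valuation_exists_uniformizer K
  have hval : Valued.v (algebraMap K (v.adicCompletion K) ϖ) = WithZero.exp (-1 : ℤ) := by
    rw [valued_algebraMap, hϖ]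
  have hne : algebraMap K (v.adicCompletion K) ϖ ≠ 0 := by
    intro h
    rw [h, map_zero] at hval
    exact WithZero.coe_ne_zero hval.symm
  exact ⟨Units.mk0 _ hne, hval⟩

theorem b_ne_zero496 (hφ : IsSph0CuspFormFor π φ) (v : HeightOneSpectrum (𝓞 K))
    (hv : ¬ v.asIdeal ∣ π.level) : π.b v ≠ 0 := by
  intro hb
  obtain ⟨c, hc⟩ := exists_unif496 v
  obtain ⟨g, hg⟩ := hφ.ne_zero
  have h := (hφ.hecke v hv).2 _ (isScalarUniformizerAt_sc_locF496 v c hc)
    (g * (sc496 (locF496 v c))⁻¹)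
  rw [inv_mul_cancel_right, hb, zero_mul] at h
  exact hg h

theorem actsBy_unif496 (hφ : IsSph0CuspFormFor π φ) (v : HeightOneSpectrum (𝓞 K))
    (hv : ¬ v.asIdeal ∣ π.level) (c : (v.adicCompletion K)ˣ)
    (hc : Valued.v (c : v.adicCompletion K) = WithZero.exp (-1 : ℤ)) :
    ActsBy496 φ (locF496 v c) :=
  ⟨π.b v, b_ne_zero496 hφ v hv,
    fun g => (hφ.hecke v hv).2 _ (isScalarUniformizerAt_sc_locF496 v c hc) g⟩

end Fermat.Agent.LT.T7.H496

namespace Fermat.Agent.LT.T7.H496

open Fermat.Agent.LT.H556 Fermat.Agent.LT.H556.A0 Fermat.Agent.LT.H767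
open IsDedekindDomain.HeightOneSpectrum

variable {K : Type} [Field K] [NumberField K]
variable {π : HeckeEigensystem K ℂ} {φ : G K → ℂ}

/-! ## Ideles with unit components -/

theorem imF496_le_one (v : HeightOneSpectrum (𝓞 K)) (d : 𝓞 K) :
    Valued.v (imF496 v d) ≤ 1 := valued_algebraMap_int_le_one K v d

theorem evF_inv496 (v : HeightOneSpectrum (𝓞 K)) (y : (Adl K)ˣ) :
    evF496 v ((y⁻¹ : (Adl K)ˣ) : Adl K) = (evF496 v (y : Adl K))⁻¹ := by
  have h : evF496 v ((y⁻¹ : (Adl K)ˣ) : Adl K) * evF496 v (y : Adl K) = 1 := by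
    rw [← map_mul, Units.inv_mul, map_one]
  exact eq_inv_of_mul_eq_one_left h

theorem evI_inv496 (w : InfinitePlace K) (y : (Adl K)ˣ) :
    evI496 w ((y⁻¹ : (Adl K)ˣ) : Adl K) = (evI496 w (y : Adl K))⁻¹ := by
  have h : evI496 w ((y⁻¹ : (Adl K)ˣ) : Adl K) * evI496 w (y : Adl K) = 1 := by
    rw [← map_mul, Units.inv_mul, map_one]
  exact eq_inv_of_mul_eq_one_left h

theorem evF_ne_zero496 (v : HeightOneSpectrum (𝓞 K)) (y : (Adl K)ˣ) :
    evF496 v (y : Adl K) ≠ 0 := by
  intro h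
  have h1 : evF496 v ((y⁻¹ : (Adl K)ˣ) : Adl K) * evF496 v (y : Adl K) = 1 := by
    rw [← map_mul, Units.inv_mul, map_one]
  rw [h, mul_zero] at h1
  exact zero_ne_one h1

theorem evI_ne_zero496 (w : InfinitePlace K) (y : (Adl K)ˣ) :
    evI496 w (y : Adl K) ≠ 0 := by
  intro h
  have h1 : evI496 w ((y⁻¹ : (Adl K)ˣ) : Adl K) * evI496 w (y : Adl K) = 1 := by
    rw [← map_mul, Units.inv_mul, map_one]
  rw [h, mul_zero] at h1
  exact zero_ne_one h1

/-- The condition at the places dividing `d`. -/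
def NearOne496 (d : 𝓞 K) (y : (Adl K)ˣ) : Prop :=
  ∀ v : HeightOneSpectrum (𝓞 K), Valued.v (imF496 v d) < 1 →
    Valued.v (evF496 v (y : Adl K) - 1) ≤ Valued.v (imF496 v d) ∧
    Valued.v (evF496 v ((y⁻¹ : (Adl K)ˣ) : Adl K) - 1) ≤ Valued.v (imF496 v d)

theorem valued_sub_one_le496 {v : HeightOneSpectrum (𝓞 K)} {x : v.adicCompletion K}
    (hx : Valued.v x = 1) : Valued.v (x - 1) ≤ 1 := by
  refine le_trans (Valuation.map_sub _ _ _) ?_
  rw [hx, map_one, max_self]

/-- **Unit case**: an idele with trivial infinite components, unit finite components and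
`≡ 1` at the places dividing `d ∈ 𝔫` is in the level group. -/
theorem inLevelGroup_of_units496 (𝔫 : Ideal (𝓞 K)) {d : 𝓞 K} (hd𝔫 : d ∈ 𝔫) (hd : d ≠ 0)
    (y : (Adl K)ˣ) (hI : ∀ w : InfinitePlace K, evI496 w (y : Adl K) = 1)
    (hU : ∀ v : HeightOneSpectrum (𝓞 K), Valued.v (evF496 v (y : Adl K)) = 1)
    (hN : NearOne496 d y) : InLevelGroup 𝔫 (sc496 y) := by
  refine inLevelGroup_sc496 𝔫 y hI fun v => ?_
  rcases lt_or_eq_of_le (imF496_le_one v d) with hlt | heq
  · exact ⟨mem_idealClosure_of_le496 𝔫 v hd𝔫 hd _ (hN v hlt).1,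
      mem_idealClosure_of_le496 𝔫 v hd𝔫 hd _ (hN v hlt).2⟩
  · refine ⟨mem_idealClosure_of_le496 𝔫 v hd𝔫 hd _ ?_,
      mem_idealClosure_of_le496 𝔫 v hd𝔫 hd _ ?_⟩
    · rw [heq]
      exact valued_sub_one_le496 (hU v)
    · rw [heq]
      apply valued_sub_one_le496
      rw [evF_inv496, map_inv₀, hU v, inv_one]

/-- At a place dividing the level, `d ∈ 𝔫` is not a unit. -/
theorem imF_lt_one_of_dvd496 {𝔫 : Ideal (𝓞 K)} {d : 𝓞 K} (hd𝔫 : d ∈ 𝔫)
    {v : HeightOneSpectrum (𝓞 K)} (hv : v.asIdeal ∣ 𝔫) : Valued.v (imF496 v d) < 1 := by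
  unfold imF496
  rw [valued_algebraMap]
  exact (valuation_lt_one_iff_mem v d).mpr (Ideal.le_of_dvd hv hd𝔫)

/-- **Local ideles at a place not dividing `d`** act by a non-zero constant. -/
theorem actsBy_locF496 (hφ : IsSph0CuspFormFor π φ) {d : 𝓞 K} (hd𝔫 : d ∈ π.level)
    (hd : d ≠ 0) (v : HeightOneSpectrum (𝓞 K)) (hv : Valued.v (imF496 v d) = 1)
    (c : (v.adicCompletion K)ˣ) : ActsBy496 φ (locF496 v c) := by
  have hvn : ¬ v.asIdeal ∣ π.level := fun h => (imF_lt_one_of_dvd496 hd𝔫 h).ne hv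
  obtain ⟨ϖ, hϖ⟩ := exists_unif496 v
  have hc0 : Valued.v (c : v.adicCompletion K) ≠ 0 := (Valuation.ne_zero_iff _).mpr c.ne_zero
  set m : ℤ := WithZero.log (Valued.v (c : v.adicCompletion K)) with hm
  have hcm : Valued.v (c : v.adicCompletion K) = WithZero.exp m := (WithZero.exp_log hc0).symm
  -- the unit part
  set u : (v.adicCompletion K)ˣ := c * ϖ ^ m with hu
  have huval : Valued.v (u : v.adicCompletion K) = 1 := by
    rw [hu, Units.val_mul, Units.val_zpow_eq_zpow_val, map_mul, map_zpow₀, hcm, hϖ,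
      ← WithZero.exp_zsmul, ← WithZero.exp_add]
    simp
  have hcu : c = u * (ϖ ^ m)⁻¹ := by rw [hu, mul_inv_cancel_right]
  rw [hcu, map_mul, map_inv, map_zpow]
  refine ActsBy496.mul ?_ ((actsBy_unif496 hφ v hvn ϖ hϖ).zpow m).inv
  apply actsBy_of_level496 hφ
  refine inLevelGroup_of_units496 π.level hd𝔫 hd _ (fun w => evI_locF496 v w u) (fun v' => ?_)
    (fun v' hv' => ?_)
  · by_cases h : v' = v
    · subst h
      rw [evF_locF_same496]
      exact huval
    · rw [evF_locF_ne496 h, map_one]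
  · have h : v' ≠ v := by
      rintro rfl
      exact hv'.ne hv
    rw [evF_inv496, evF_locF_ne496 h, inv_one, sub_self, map_zero]
    exact ⟨zero_le, zero_le⟩

end Fermat.Agent.LT.T7.H496

namespace Fermat.Agent.LT.T7.H496

open Fermat.Agent.LT.H556 Fermat.Agent.LT.H556.A0 Fermat.Agent.LT.H767
open IsDedekindDomain.HeightOneSpectrum

variable {K : Type} [Field K] [NumberField K]
variable {π : HeckeEigensystem K ℂ} {φ : G K → ℂ}

/-! ## Finite ideles which are `≡ 1` at the places dividing `d` -/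

/-- The finite places where the idele `y` is not a unit. -/
def badSet496 (y : (Adl K)ˣ) : Set (HeightOneSpectrum (𝓞 K)) :=
  {v | Valued.v (evF496 v (y : Adl K)) ≠ 1}

theorem badSet_finite496 (y : (Adl K)ˣ) : (badSet496 y).Finite := by
  have h1 : {v : HeightOneSpectrum (𝓞 K) | ¬ evF496 v (y : Adl K)
      ∈ v.adicCompletionIntegers K}.Finite :=
    Filter.eventually_cofinite.mp (y : Adl K).2.2
  have h2 : {v : HeightOneSpectrum (𝓞 K) | ¬ evF496 v ((y⁻¹ : (Adl K)ˣ) : Adl K)
      ∈ v.adicCompletionIntegers K}.Finite :=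
    Filter.eventually_cofinite.mp ((y⁻¹ : (Adl K)ˣ) : Adl K).2.2
  refine (h1.union h2).subset fun v hv => ?_
  by_contra hcon
  rw [Set.mem_union, not_or] at hcon
  obtain ⟨ha, hb⟩ := hcon
  simp only [Set.mem_ofPred_eq, not_not] at ha hb
  have ha' : Valued.v (evF496 v (y : Adl K)) ≤ 1 := ha
  have hb' : Valued.v (evF496 v ((y⁻¹ : (Adl K)ˣ) : Adl K)) ≤ 1 := hb
  rw [evF_inv496, map_inv₀] at hb'
  have h0 : Valued.v (evF496 v (y : Adl K)) ≠ 0 :=
    (Valuation.ne_zero_iff _).mpr (evF_ne_zero496 v y)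
  have hge : 1 ≤ Valued.v (evF496 v (y : Adl K)) := by
    rwa [inv_le_one₀ (zero_lt_iff.mpr h0)] at hb'
  exact hv (le_antisymm ha' hge)

/-- The component of an idele at `v`, as a unit. -/
def evFU496 (v : HeightOneSpectrum (𝓞 K)) : (Adl K)ˣ →* (v.adicCompletion K)ˣ :=
  Units.map (evF496 v).toMonoidHom

theorem evFU496_coe (v : HeightOneSpectrum (𝓞 K)) (y : (Adl K)ˣ) :
    ((evFU496 v y : (v.adicCompletion K)ˣ) : v.adicCompletion K) = evF496 v (y : Adl K) := rfl

theorem evF_mul496 (v : HeightOneSpectrum (𝓞 K)) (x y : (Adl K)ˣ) :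
    evF496 v ((x * y : (Adl K)ˣ) : Adl K) = evF496 v (x : Adl K) * evF496 v (y : Adl K) := by
  rw [Units.val_mul, map_mul]

theorem evI_mul496 (w : InfinitePlace K) (x y : (Adl K)ˣ) :
    evI496 w ((x * y : (Adl K)ˣ) : Adl K) = evI496 w (x : Adl K) * evI496 w (y : Adl K) := by
  rw [Units.val_mul, map_mul]

/-- At a place where `y ≡ 1 mod d`, `d` a non-unit, `y` is a unit. -/
theorem valued_eq_one_of_near496 {v : HeightOneSpectrum (𝓞 K)} {x D : v.adicCompletion K}
    (hD : Valued.v D < 1) (hx : Valued.v (x - 1) ≤ Valued.v D) : Valued.v x = 1 := by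
  have h1 : Valued.v (x - 1) < Valued.v (1 : v.adicCompletion K) := by
    rw [map_one]
    exact lt_of_le_of_lt hx hD
  have := Valuation.map_eq_of_sub_lt _ h1
  rw [this, map_one]

/-- **Finite ideles near `1` at the places dividing `d`** act by a non-zero constant. -/
theorem actsBy_of_nearOne496 (hφ : IsSph0CuspFormFor π φ) {d : 𝓞 K} (hd𝔫 : d ∈ π.level)
    (hd : d ≠ 0) :
    ∀ (n : ℕ) (y : (Adl K)ˣ), (badSet_finite496 y).toFinset.card = n →
      (∀ w : InfinitePlace K, evI496 w (y : Adl K) = 1) → NearOne496 d y → ActsBy496 φ y := by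
  classical
  intro n
  induction n with
  | zero =>
    intro y hcard hI hN
    apply actsBy_of_level496 hφ
    refine inLevelGroup_of_units496 π.level hd𝔫 hd y hI (fun v => ?_) hN
    by_contra hv
    have : v ∈ (badSet_finite496 y).toFinset := (Set.Finite.mem_toFinset _).mpr hv
    rw [Finset.card_eq_zero] at hcard
    rw [hcard] at this
    exact (Finset.notMem_empty v) this
  | succ n ih =>
    intro y hcard hI hN
    have hne : (badSet_finite496 y).toFinset.Nonempty := by
      rw [← Finset.card_pos, hcard]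
      exact Nat.succ_pos n
    obtain ⟨v₀, hv₀⟩ := hne
    have hv₀' : Valued.v (evF496 v₀ (y : Adl K)) ≠ 1 := (Set.Finite.mem_toFinset _).mp hv₀
    -- `v₀` does not divide `d`
    have hv₀d : Valued.v (imF496 v₀ d) = 1 := by
      rcases lt_or_eq_of_le (imF496_le_one v₀ d) with hlt | heq
      · exact absurd (valued_eq_one_of_near496 hlt (hN v₀ hlt).1) hv₀'
      · exact heq
    set ℓ : (Adl K)ˣ := locF496 v₀ (evFU496 v₀ y) with hℓ
    set y' : (Adl K)ˣ := y * ℓ⁻¹ with hy'
    have hyy' : y = y' * ℓ := by rw [hy', inv_mul_cancel_right]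
    have hcomp_same : evF496 v₀ (y' : Adl K) = 1 := by
      rw [hy', evF_mul496, evF_inv496, hℓ, evF_locF_same496, evFU496_coe]
      exact mul_inv_cancel₀ (evF_ne_zero496 v₀ y)
    have hcomp_ne : ∀ v, v ≠ v₀ → evF496 v (y' : Adl K) = evF496 v (y : Adl K) := by
      intro v hv
      rw [hy', evF_mul496, evF_inv496, hℓ, evF_locF_ne496 hv, inv_one, mul_one]
    have hbad : (badSet_finite496 y').toFinset = (badSet_finite496 y).toFinset.erase v₀ := by
      ext v
      rw [Finset.mem_erase, Set.Finite.mem_toFinset, Set.Finite.mem_toFinset]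
      unfold badSet496
      simp only [Set.mem_ofPred_eq]
      by_cases hv : v = v₀
      · subst hv
        rw [hcomp_same, map_one]
        simp
      · rw [hcomp_ne v hv]
        simp [hv]
    have hcard' : (badSet_finite496 y').toFinset.card = n := by
      rw [hbad, Finset.card_erase_of_mem hv₀, hcard]
      rfl
    have hI' : ∀ w : InfinitePlace K, evI496 w (y' : Adl K) = 1 := by
      intro w
      rw [hy', evI_mul496, evI_inv496, hℓ, evI_locF496, inv_one, mul_one, hI w]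
    have hN' : NearOne496 d y' := by
      intro v hv
      have hvne : v ≠ v₀ := by
        rintro rfl
        exact hv.ne hv₀d
      have h1 := hN v hv
      rw [evF_inv496] at h1 ⊢
      rw [hcomp_ne v hvne]
      exact h1
    rw [hyy']
    exact (ih y' hcard' hI' hN').mul (actsBy_locF496 hφ hd𝔫 hd v₀ hv₀d _)

end Fermat.Agent.LT.T7.H496

namespace Fermat.Agent.LT.T7.H496

open Fermat.Agent.LT.H556 Fermat.Agent.LT.H556.A0 Fermat.Agent.LT.H767
open IsDedekindDomain.HeightOneSpectrum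

variable {K : Type} [Field K] [NumberField K]
variable {π : HeckeEigensystem K ℂ} {φ : G K → ℂ}

/-! ## Weak approximation at the places dividing `d` -/

theorem evF_ratU496 (v : HeightOneSpectrum (𝓞 K)) (α : Kˣ) :
    evF496 v ((ratU496 α : (Adl K)ˣ) : Adl K) = algebraMap K (v.adicCompletion K) (α : K) := rfl

/-- **Weak approximation**: every idele is, at the places dividing `d`, congruent to a principal
idele modulo `d`, multiplicatively. -/
theorem exists_rat_near496 (d : 𝓞 K) (hd : d ≠ 0) (x : (Adl K)ˣ) :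
    ∃ α : Kˣ, NearOne496 d ((ratU496 α)⁻¹ * x) := by
  -- a denominator for `x⁻¹`
  obtain ⟨E, hE0, hE⟩ := exists_denominator K ((x⁻¹ : (Adl K)ˣ) : Adl K).2
  have hEx : ∀ v : HeightOneSpectrum (𝓞 K),
      Valued.v (imF496 v E) ≤ Valued.v (evF496 v (x : Adl K)) := by
    intro v
    have h := hE v
    have h2 : (((x⁻¹ : (Adl K)ˣ) : Adl K).2 v) = (evF496 v (x : Adl K))⁻¹ := evF_inv496 v x
    rw [h2, map_mul, map_inv₀] at h
    have h0 : Valued.v (evF496 v (x : Adl K)) ≠ 0 :=
      (Valuation.ne_zero_iff _).mpr (evF_ne_zero496 v x)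
    rwa [← div_eq_mul_inv, div_le_one₀ (zero_lt_iff.mpr h0)] at h
  -- strong approximation for `x / (d E)`
  set q : K := (algebraMap (𝓞 K) K (d * E))⁻¹ with hq
  have hdE : algebraMap (𝓞 K) K (d * E) ≠ 0 := by
    have : d * E ≠ 0 := mul_ne_zero hd hE0
    simpa using this
  obtain ⟨k, hk⟩ := exists_sub_mem_integers K
    ((x : Adl K).2 * algebraMap K (FiniteAdeleRing (𝓞 K) K) q)
  set α₀ : K := algebraMap (𝓞 K) K (d * E) * k with hα₀
  have hkey : ∀ v : HeightOneSpectrum (𝓞 K),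
      Valued.v (evF496 v (x : Adl K) - algebraMap K (v.adicCompletion K) α₀)
        ≤ Valued.v (imF496 v d) * Valued.v (evF496 v (x : Adl K)) := by
    intro v
    have h := hk v
    have h1 : ((x : Adl K).2 * algebraMap K (FiniteAdeleRing (𝓞 K) K) q) v
        = evF496 v (x : Adl K) * algebraMap K (v.adicCompletion K) q := rfl
    rw [h1] at h
    have h' : Valued.v (evF496 v (x : Adl K) * algebraMap K (v.adicCompletion K) q
        - algebraMap K (v.adicCompletion K) k) ≤ 1 := h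
    have hDE : imF496 v (d * E) = imF496 v d * imF496 v E := by
      unfold imF496
      rw [map_mul, map_mul]
    have hDE0 : imF496 v (d * E) ≠ 0 := imF496_ne_zero v (mul_ne_zero hd hE0)
    have hqv : algebraMap K (v.adicCompletion K) q = (imF496 v (d * E))⁻¹ := by
      rw [hq, map_inv₀]
      rfl
    have heq : evF496 v (x : Adl K) - algebraMap K (v.adicCompletion K) α₀
        = imF496 v (d * E) * (evF496 v (x : Adl K) * algebraMap K (v.adicCompletion K) q
          - algebraMap K (v.adicCompletion K) k) := by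
      rw [hα₀, map_mul, hqv]
      have : algebraMap K (v.adicCompletion K) (algebraMap (𝓞 K) K (d * E))
          = imF496 v (d * E) := rfl
      rw [this]
      field_simp
    rw [heq, map_mul, hDE, map_mul]
    calc Valued.v (imF496 v d) * Valued.v (imF496 v E)
          * Valued.v (evF496 v (x : Adl K) * algebraMap K (v.adicCompletion K) q
            - algebraMap K (v.adicCompletion K) k)
        ≤ Valued.v (imF496 v d) * Valued.v (imF496 v E) * 1 := mul_le_mul' le_rfl h'
      _ = Valued.v (imF496 v d) * Valued.v (imF496 v E) := mul_one _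
      _ ≤ Valued.v (imF496 v d) * Valued.v (evF496 v (x : Adl K)) := mul_le_mul' le_rfl (hEx v)
  have hstrict : ∀ v : HeightOneSpectrum (𝓞 K), Valued.v (imF496 v d) < 1 →
      Valued.v (evF496 v (x : Adl K) - algebraMap K (v.adicCompletion K) α₀)
        < Valued.v (evF496 v (x : Adl K)) := by
    intro v hv
    have h0 : Valued.v (evF496 v (x : Adl K)) ≠ 0 :=
      (Valuation.ne_zero_iff _).mpr (evF_ne_zero496 v x)
    refine lt_of_le_of_lt (hkey v) ?_
    calc Valued.v (imF496 v d) * Valued.v (evF496 v (x : Adl K))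
        < 1 * Valued.v (evF496 v (x : Adl K)) :=
          mul_lt_mul_of_pos_right hv (zero_lt_iff.mpr h0)
      _ = _ := one_mul _
  by_cases hα : α₀ = 0
  · -- no place divides `d`
    refine ⟨1, fun v hv => ?_⟩
    have := hstrict v hv
    rw [hα, map_zero, sub_zero] at this
    exact absurd this (lt_irrefl _)
  · refine ⟨Units.mk0 α₀ hα, fun v hv => ?_⟩
    set X : v.adicCompletion K := evF496 v (x : Adl K) with hX
    set A : v.adicCompletion K := algebraMap K (v.adicCompletion K) α₀ with hA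
    have hX0 : X ≠ 0 := evF_ne_zero496 v x
    have hA0 : A ≠ 0 := by
      rw [hA]
      intro h
      have := (map_eq_zero _).mp h
      exact hα this
    have hvX0 : Valued.v X ≠ 0 := (Valuation.ne_zero_iff _).mpr hX0
    have hAX : Valued.v A = Valued.v X := by
      apply Valuation.map_eq_of_sub_lt
      rw [Valuation.map_sub_swap]
      exact hstrict v hv
    have hcomp : evF496 v (((ratU496 (Units.mk0 α₀ hα))⁻¹ * x : (Adl K)ˣ) : Adl K)
        = A⁻¹ * X := by
      rw [evF_mul496, evF_inv496, evF_ratU496]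
      rfl
    rw [evF_inv496, hcomp]
    constructor
    · have h1 : A⁻¹ * X - 1 = A⁻¹ * (X - A) := by field_simp
      rw [h1, map_mul, map_inv₀, hAX]
      calc (Valued.v X)⁻¹ * Valued.v (X - A)
          ≤ (Valued.v X)⁻¹ * (Valued.v (imF496 v d) * Valued.v X) :=
            mul_le_mul' le_rfl (hkey v)
        _ = Valued.v (imF496 v d) := by
            rw [mul_comm (Valued.v (imF496 v d)), ← mul_assoc, inv_mul_cancel₀ hvX0, one_mul]
    · have h1 : (A⁻¹ * X)⁻¹ - 1 = X⁻¹ * (A - X) := by field_simp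
      rw [h1, map_mul, map_inv₀, Valuation.map_sub_swap]
      calc (Valued.v X)⁻¹ * Valued.v (X - A)
          ≤ (Valued.v X)⁻¹ * (Valued.v (imF496 v d) * Valued.v X) :=
            mul_le_mul' le_rfl (hkey v)
        _ = Valued.v (imF496 v d) := by
            rw [mul_comm (Valued.v (imF496 v d)), ← mul_assoc, inv_mul_cancel₀ hvX0, one_mul]

end Fermat.Agent.LT.T7.H496

namespace Fermat.Agent.LT.T7.H496

open Fermat.Agent.LT.H556 Fermat.Agent.LT.H556.A0 Fermat.Agent.LT.H767
open IsDedekindDomain.HeightOneSpectrum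

variable {K : Type} [Field K] [NumberField K]
variable {π : HeckeEigensystem K ℂ} {φ : G K → ℂ}

/-! ## Cube roots at the infinite places -/

theorem exists_real_cbrt496 (c : ℝ) : ∃ s : ℝ, s ^ 3 = c := by
  rcases le_or_gt 0 c with h | h
  · exact ⟨c ^ ((3 : ℕ) : ℝ)⁻¹, Real.rpow_inv_natCast_pow h (by norm_num)⟩
  · refine ⟨-((-c) ^ ((3 : ℕ) : ℝ)⁻¹), ?_⟩
    have h1 : ((-c) ^ ((3 : ℕ) : ℝ)⁻¹) ^ 3 = -c :=
      Real.rpow_inv_natCast_pow (by linarith) (by norm_num)
    have h2 : (-((-c) ^ ((3 : ℕ) : ℝ)⁻¹)) ^ 3 = -(((-c) ^ ((3 : ℕ) : ℝ)⁻¹) ^ 3) := by ring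
    rw [h2, h1, neg_neg]

omit [NumberField K] in
theorem exists_cbrt496 (w : InfinitePlace K) (c : w.Completion) :
    ∃ r : w.Completion, r ^ 3 = c := by
  rcases w.isReal_or_isComplex with hw | hw
  · set e := InfinitePlace.Completion.ringEquivRealOfIsReal hw
    obtain ⟨s, hs⟩ := exists_real_cbrt496 (e c)
    refine ⟨e.symm s, ?_⟩
    rw [← map_pow, hs, RingEquiv.symm_apply_apply]
  · set e := InfinitePlace.Completion.ringEquivComplexOfIsComplex hw
    obtain ⟨s, hs⟩ := IsAlgClosed.exists_pow_nat_eq (e c) (n := 3) (by norm_num)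
    refine ⟨e.symm s, ?_⟩
    rw [← map_pow, hs, RingEquiv.symm_apply_apply]

/-- An idele with trivial finite components and prescribed cubes at the infinite places. -/
theorem exists_infIdele496 (c : (w : InfinitePlace K) → w.Completion) (hc : ∀ w, c w ≠ 0) :
    ∃ t : (Adl K)ˣ, (∀ v : HeightOneSpectrum (𝓞 K), evF496 v (t : Adl K) = 1) ∧
      ∀ w : InfinitePlace K, evI496 w (t : Adl K) ^ 3 = c w := by
  choose r hr using fun w => exists_cbrt496 w (c w)
  have hr0 : ∀ w, r w ≠ 0 := by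
    intro w h
    have := hr w
    rw [h] at this
    exact hc w (by rw [← this]; ring)
  let a : Adl K := ((r : InfiniteAdeleRing K), (1 : FiniteAdeleRing (𝓞 K) K))
  let b : Adl K := (((fun w => (r w)⁻¹) : InfiniteAdeleRing K), (1 : FiniteAdeleRing (𝓞 K) K))
  have hab : a * b = 1 := by
    refine Prod.ext ?_ (one_mul 1)
    funext w
    exact mul_inv_cancel₀ (hr0 w)
  have hba : b * a = 1 := by rw [mul_comm, hab]
  exact ⟨⟨a, b, hab, hba⟩, fun v => rfl, fun w => hr w⟩

/-! ## The non-vanishing -/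

theorem evI_pow496 (w : InfinitePlace K) (x : (Adl K)ˣ) (n : ℕ) :
    evI496 w ((x ^ n : (Adl K)ˣ) : Adl K) = evI496 w (x : Adl K) ^ n := by
  rw [Units.val_pow_eq_pow_val, map_pow]

theorem evF_pow496 (v : HeightOneSpectrum (𝓞 K)) (x : (Adl K)ˣ) (n : ℕ) :
    evF496 v ((x ^ n : (Adl K)ˣ) : Adl K) = evF496 v (x : Adl K) ^ n := by
  rw [Units.val_pow_eq_pow_val, map_pow]

theorem tw496_mul_sc (g : G K) (t : (Adl K)ˣ) :
    tw496 (g * sc496 t) = g * sc496 (t ^ 3 * Matrix.GeneralLinearGroup.det g) := by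
  rw [tw496_apply]
  unfold sd496
  rw [map_mul, Matrix.GeneralLinearGroup.det_scalar, Fintype.card_fin, mul_assoc, ← map_mul]
  congr 2
  rw [show (t ^ 3 : (Adl K)ˣ) = t * t ^ 2 from pow_succ' t 2, mul_assoc, mul_comm (t ^ 2)]

/-- **The twisted form does not vanish identically.** -/
theorem twist_ne_zero496 (hφ : IsSph0CuspFormFor π φ) : ∃ g : G K, φ (tw496 g) ≠ 0 := by
  obtain ⟨g₀, hg₀⟩ := hφ.ne_zero
  obtain ⟨d, hd𝔫, hd⟩ := Submodule.exists_mem_ne_zero_of_ne_bot π.level_ne_bot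
  set d₀ : (Adl K)ˣ := Matrix.GeneralLinearGroup.det g₀ with hd₀
  obtain ⟨α, hα⟩ := exists_rat_near496 d hd d₀
  obtain ⟨t, htF, htI⟩ := exists_infIdele496
    (fun w => evI496 w ((ratU496 α : (Adl K)ˣ) : Adl K) * (evI496 w (d₀ : Adl K))⁻¹)
    (fun w => mul_ne_zero (evI_ne_zero496 w _) (inv_ne_zero (evI_ne_zero496 w _)))
  set y : (Adl K)ˣ := (ratU496 α)⁻¹ * (t ^ 3 * d₀) with hy
  have hI : ∀ w : InfinitePlace K, evI496 w (y : Adl K) = 1 := by
    intro w
    rw [hy, evI_mul496, evI_inv496, evI_mul496, evI_pow496, htI w]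
    have h1 := evI_ne_zero496 w (ratU496 α)
    have h2 := evI_ne_zero496 w d₀
    field_simp
  have hFy : ∀ v : HeightOneSpectrum (𝓞 K),
      evF496 v (y : Adl K) = evF496 v (((ratU496 α)⁻¹ * d₀ : (Adl K)ˣ) : Adl K) := by
    intro v
    rw [hy, evF_mul496, evF_mul496, evF_mul496, evF_pow496, htF v, one_pow, one_mul]
  have hN : NearOne496 d y := by
    intro v hv
    have h := hα v hv
    rw [evF_inv496] at h ⊢
    rw [hFy v]
    exact h
  have hy_acts : ActsBy496 φ y := actsBy_of_nearOne496 hφ hd𝔫 hd _ y rfl hI hN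
  have hx_acts : ActsBy496 φ (t ^ 3 * d₀) := by
    have : t ^ 3 * d₀ = ratU496 α * y := by rw [hy, mul_inv_cancel_left]
    rw [this]
    exact (actsBy_ratU496 hφ α).mul hy_acts
  refine ⟨g₀ * sc496 t, ?_⟩
  rw [tw496_mul_sc]
  exact hx_acts.ne_zero hg₀

end Fermat.Agent.LT.T7.H496

end
end
-- ===== PACK-END LT/T7/H496/TwistNonzero.lean

-- ===== PACK-BEGIN LT/T7/H231/DictEFPlaces.lean
section





/-!
# Row LT, tower T7, leaf T7.05 `DictEFC` (helper231, spare): places and norms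

OFF-MAIN.

* `placeUnder231 L₀ A` : the place of the number field `L₀ ⊆ ℚ̄` under the valuation subring `A`
  of `ℚ̄` (over the prime number `p`);
* `absNorm_eq_of_prime231` : in a Galois number field the places over `p` have the same norm;
* `absNorm_fieldE231` : for `p` with trivial inertia in `E = fieldE ρ`, EVERY Frobenius element
  `σ` at `p` and EVERY place `w` of `E` over `p`: `N w = p ^ ordQ8 (ρ σ)`;
* `exists_placeOver231` : a place of `E` over a given place of `F`.
-/

set_option autoImplicit false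
set_option linter.unusedSectionVars false
set_option linter.style.haveILetI false

open IsDedekindDomain NumberField
open scoped MatrixGroups Pointwise

noncomputable section

namespace Fermat.Agent.LT.T7.H231

open Fermat.Agent.LT.H130 Fermat.Agent.LT.A2.H230 Fermat.Agent.LT.T7
open Fermat.Agent.Lib.Cheb.Spec Fermat.Agent.Lib.Cheb.H943

local notation "Γℚ" => (AlgebraicClosure ℚ ≃ₐ[ℚ] AlgebraicClosure ℚ)

/-! ## The place under a valuation subring -/

section Under

variable (L₀ : IntermediateField ℚ Qb) [NumberField L₀]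

/-- The ring homomorphism `𝓞 L₀ → A`. -/
def embA231 (A : ValuationSubring Qb) : 𝓞 L₀ →+* A :=
  (emb L₀).codRestrict A.toSubring (emb_mem L₀ A)

/-- The prime ideal of `𝓞 L₀` under `A`. -/
def idealUnder231 (A : ValuationSubring Qb) : Ideal (𝓞 L₀) :=
  Ideal.comap (embA231 L₀ A) (IsLocalRing.maximalIdeal A)

theorem mem_idealUnder231 (A : ValuationSubring Qb) (x : 𝓞 L₀) :
    x ∈ idealUnder231 L₀ A ↔ emb L₀ x ∈ A.nonunits := by
  unfold idealUnder231
  rw [Ideal.mem_comap, ← ValuationSubring.coe_mem_nonunits_iff]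
  rfl

/-- The place of `L₀` under `A`. -/
def placeUnder231 (A : ValuationSubring Qb) {p : ℕ} (hp : p.Prime) (hA : A.LiesOverPrime p) :
    HeightOneSpectrum (𝓞 L₀) where
  asIdeal := idealUnder231 L₀ A
  isPrime := Ideal.comap_isPrime _ _
  ne_bot := by
    intro h
    have h1 : ((p : ℕ) : 𝓞 L₀) ∈ idealUnder231 L₀ A := by
      rw [mem_idealUnder231, map_natCast]
      exact hA
    rw [h, Ideal.mem_bot] at h1
    exact hp.ne_zero (by exact_mod_cast h1)

theorem mem_placeUnder231 (A : ValuationSubring Qb) {p : ℕ} (hp : p.Prime)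
    (hA : A.LiesOverPrime p) (x : 𝓞 L₀) :
    x ∈ (placeUnder231 L₀ A hp hA).asIdeal ↔ emb L₀ x ∈ A.nonunits :=
  mem_idealUnder231 L₀ A x

theorem prime_mem_placeUnder231 (A : ValuationSubring Qb) {p : ℕ} (hp : p.Prime)
    (hA : A.LiesOverPrime p) : ((p : ℕ) : 𝓞 L₀) ∈ (placeUnder231 L₀ A hp hA).asIdeal := by
  rw [mem_placeUnder231, map_natCast]
  exact hA

/-- In a Galois number field the places over a prime number have the same norm. -/
theorem absNorm_eq_of_prime231 [IsGalois ℚ L₀] {p : ℕ} (hp : p.Prime)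
    (w w' : HeightOneSpectrum (𝓞 L₀)) (hpw : ((p : ℕ) : 𝓞 L₀) ∈ w.asIdeal)
    (hpw' : ((p : ℕ) : 𝓞 L₀) ∈ w'.asIdeal) :
    Ideal.absNorm w.asIdeal = Ideal.absNorm w'.asIdeal := by
  haveI : Fact p.Prime := ⟨hp⟩
  haveI := w.isPrime
  haveI := w'.isPrime
  haveI : w.asIdeal.IsMaximal := w.isMaximal
  haveI : w'.asIdeal.IsMaximal := w'.isMaximal
  haveI : w.asIdeal.LiesOver (Ideal.span {(p : ℤ)}) :=
    ⟨(under_eq_span L₀ hp w.isPrime hpw).symm⟩
  haveI : w'.asIdeal.LiesOver (Ideal.span {(p : ℤ)}) :=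
    ⟨(under_eq_span L₀ hp w'.isPrime hpw').symm⟩
  rw [Ideal.absNorm_eq_pow_inertiaDeg' w.asIdeal hp, Ideal.absNorm_eq_pow_inertiaDeg' w'.asIdeal hp,
    Ideal.inertiaDeg'_eq_inertiaDeg, Ideal.inertiaDeg'_eq_inertiaDeg,
    Ideal.inertiaDeg_eq_of_isGaloisGroup (Ideal.span ({(p : ℤ)} : Set ℤ)) w.asIdeal w'.asIdeal
      (L₀ ≃ₐ[ℚ] L₀)]

end Under

/-! ## The norm of the places of `E` over `p` -/

section NormE

variable {ρ : Γℚ →* GL (Fin 2) (ZMod 3)}

/-- The norm of the place of `E` under `A`, in terms of a Frobenius element at `A`. -/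
theorem absNorm_placeUnder_fieldE231 (hρ : Continuous ρ) [NumberField (fieldE ρ)]
    {p : ℕ} (hp : p.Prime) {A : ValuationSubring Qb} (hA : A.LiesOverPrime p)
    {σ : Γℚ} (hσ : A.IsFrobeniusAt σ p)
    (hI : InertiaTrivial (fieldE ρ) (placeUnder231 (fieldE ρ) A hp hA).asIdeal) :
    Ideal.absNorm (placeUnder231 (fieldE ρ) A hp hA).asIdeal = p ^ ordQ8 (ρ σ) := by
  haveI := normal_fieldE231 ρ
  set w := placeUnder231 (fieldE ρ) A hp hA with hw
  have hAw : ∀ x ∈ w.asIdeal, emb (fieldE ρ) x ∈ A.nonunits := fun x hx =>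
    (mem_placeUnder231 (fieldE ρ) A hp hA x).mp hx
  obtain ⟨k, hk0, hk⟩ := absNorm_eq_prime_pow231 w hp (prime_mem_placeUnder231 (fieldE ρ) A hp hA)
  -- `N w ≤ p ^ ordQ8 g`
  have h1 : Ideal.absNorm w.asIdeal ≤ p ^ ordQ8 (ρ σ) := by
    refine absNorm_le_of_pow_fixes231 hp w.isMaximal hAw hσ (ordQ8_pos231 _) (fun x => ?_)
    refine fixes_of_inQ8_231 ?_ x
    rw [map_pow]
    exact inQ8_pow_ordQ8_231 _
  have hkle : k ≤ ordQ8 (ρ σ) := by
    rw [hk] at h1
    exact (Nat.pow_le_pow_iff_right hp.one_lt).mp h1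
  -- `σ ^ k` fixes `E`
  have h2 : InQ8 ((ρ σ) ^ k) := by
    rw [← map_pow]
    exact inQ8_of_fixes231 hρ (pow_fixes_of_absNorm231 w.isMaximal hAw hσ hI hk)
  rw [hk, ordQ8_min231 hk0 hkle h2]

/-- **The norm of every place of `E` over `p`** (trivial inertia) is `p ^ ordQ8 (ρ σ)`, for every
Frobenius element `σ` at `p`. -/
theorem absNorm_fieldE231 (hρ : Continuous ρ) [NumberField (fieldE ρ)]
    {p : ℕ} (hp : p.Prime) {A : ValuationSubring Qb} (hA : A.LiesOverPrime p)
    {σ : Γℚ} (hσ : A.IsFrobeniusAt σ p)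
    (hI : ∀ P : Ideal (𝓞 (fieldE ρ)), P.IsPrime → ((p : ℕ) : 𝓞 (fieldE ρ)) ∈ P →
      InertiaTrivial (fieldE ρ) P)
    (w : HeightOneSpectrum (𝓞 (fieldE ρ))) (hpw : ((p : ℕ) : 𝓞 (fieldE ρ)) ∈ w.asIdeal) :
    Ideal.absNorm w.asIdeal = p ^ ordQ8 (ρ σ) := by
  haveI nE := normal_fieldE231 ρ
  haveI gE : IsGalois ℚ (fieldE ρ) := isGalois_iff.mpr ⟨inferInstance, nE⟩
  rw [absNorm_eq_of_prime231 (fieldE ρ) hp w (placeUnder231 (fieldE ρ) A hp hA) hpw
    (prime_mem_placeUnder231 (fieldE ρ) A hp hA)]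
  exact absNorm_placeUnder_fieldE231 hρ hp hA hσ
    (hI _ (placeUnder231 (fieldE ρ) A hp hA).isPrime (prime_mem_placeUnder231 (fieldE ρ) A hp hA))

end NormE

/-! ## Places of `E` over places of `F` -/

section Over

variable (ρ : Γℚ →* GL (Fin 2) (ZMod 3)) [NumberField (fieldF ρ)] [NumberField (fieldE ρ)]

/-- A prime number lies in `v` iff it lies in `w`, for `w` over `v`. -/
theorem prime_mem_of_placeOver231 {v : HeightOneSpectrum (𝓞 (fieldF ρ))}
    {w : HeightOneSpectrum (𝓞 (fieldE ρ))}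
    (h : @PlaceOver (fieldF ρ) (fieldE ρ) _ _ (algFE231 ρ) v w) (p : ℕ) :
    ((p : ℕ) : 𝓞 (fieldF ρ)) ∈ v.asIdeal ↔ ((p : ℕ) : 𝓞 (fieldE ρ)) ∈ w.asIdeal := by
  letI := algFE231 ρ
  refine h ((p : ℕ) : 𝓞 (fieldF ρ)) ((p : ℕ) : 𝓞 (fieldE ρ)) ?_
  simp

/-- Every place of `F` lies under a place of `E`. -/
theorem exists_placeOver231 (v : HeightOneSpectrum (𝓞 (fieldF ρ))) :
    ∃ w : HeightOneSpectrum (𝓞 (fieldE ρ)),
      @PlaceOver (fieldF ρ) (fieldE ρ) _ _ (algFE231 ρ) v w := by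
  letI := algFE231 ρ
  obtain ⟨p, hp, hpv⟩ := exists_prime_mem231 v
  obtain ⟨A, hA⟩ := exists_valuationSubring_over (fieldF ρ) v.asIdeal v.isPrime.ne_top
  have hLO : A.LiesOverPrime p := by
    have h1 := hA _ hpv
    rw [map_natCast] at h1
    exact h1
  refine ⟨placeUnder231 (fieldE ρ) A hp hLO, fun x y hxy => ?_⟩
  have hemb : emb (fieldE ρ) y = emb (fieldF ρ) x := by
    rw [emb_apply, emb_apply, hxy]
    rfl
  rw [mem_placeUnder231, hemb]
  exact ⟨fun hx => hA x hx, fun hx => mem_of_emb_mem_nonunits (fieldF ρ) v.isMaximal hA hx⟩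

end Over

end Fermat.Agent.LT.T7.H231

end

end
-- ===== PACK-END LT/T7/H231/DictEFPlaces.lean

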