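import Mathlib
import Fermat.Agent.Pack.LT2.E11L2
import Fermat.Agent.Pack.LT2.E11L0
import Fermat.Agent.Pack.LT2.E9L3
import Fermat.Agent.Pack.LT2.E2L3
import Fermat.Agent.Pack.LT2.E11L1
import Fermat.Agent.Pack.LT2.E12L3
import Fermat.Agent.Pack.LT2.E7L2
import Fermat.Agent.Pack.LT2.E12L1
import Fermat.Agent.Pack.LT2.E2L2
import Fermat.Agent.Pack.LT2.E12L2
import Fermat.Agent.Pack.LT2.E1L0
import Fermat.Agent.Pack.LT2.E12L0

set_option linter.all false

-- ===== PACK-BEGIN LT/A2/TopTC.lean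
section



/-!
# Row LT, tower A2 -- Spec v2 (ADDITIVE): the tops over TOTALLY COMPLEX fields (helper950)

Reason (FAIL-RISK #15811, helper438): tower CFT covers totally complex fields only, so the
interface `HasseNormC` (ANY number field) of Spec v1 is true but out of reach.  Nothing of v1 is
edited; this file adds

* `HasseNormAt K t n` : Hasse's norm theorem for ONE quadratic torus;
* `HasseNormTC`       : Hasse's norm theorem over the totally complex fields (interface with CFT);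
* `LiftExAtC`, `ExpAtC` : the leaves `LiftExC`, `ExpC` with the hypothesis `HasseNormAt K D.t D.n`
  instead of `HasseNormC` (STRONGER than v1: `liftExC_of_at`, `expC_of_at`);
* `WL.WhitSumAtC` (v2.1, FAIL #15865 of helper346): the leaf `WL.WhitSumC` with the hypothesis
  `HasseNormAt K D.t D.n` (without Hasse the `α ∈ K^× ∩ det T(𝔸_K)` which are not norms of `T(K)`
  are out of reach of `IsRegular.loc_summable`);
* `weilLocal_of_leaves_tc` : the top of the station `WeilLocalC`, tower T1 being used at totally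
  complex fields only;
* `kernelT_of_leaves_tc`, `a2_top_tc` : the tops, `A2_556` VERBATIM.

THE TOWER IS CLOSED BY `a2_top_tc` (or by `a2_top` of v1).
-/

set_option autoImplicit false

open IsDedekindDomain NumberField AutomorphicForm MeasureTheory
open scoped MatrixGroups

noncomputable section

namespace Fermat.Agent.LT.A2

open Fermat.Agent.LT.H130 Fermat.Agent.LT.H556

/-- **Hasse's norm theorem for the torus `(t, n)` over `K`**: an element of `K^×` which is the
determinant of an element of `T(𝔸_K)` is the determinant of an element of `T(K)`. -/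
def HasseNormAt (K : Type) [Field K] [NumberField K] (t n : K) : Prop :=
  ∀ (a : K) (m : A0.G K), InTorus t n m →
    ((Matrix.GeneralLinearGroup.det m : (A0.Adl K)ˣ) : A0.Adl K) = algebraMap K (A0.Adl K) a →
    ∃ y : A0.G K, InTorusRat t n y ∧
      ((Matrix.GeneralLinearGroup.det y : (A0.Adl K)ˣ) : A0.Adl K) = algebraMap K (A0.Adl K) a

/-- **HASSE-NORM over the totally complex fields (interface with tower CFT).** -/
def HasseNormTC : Prop :=
  ∀ (K : Type) [Field K] [NumberField K], (∀ u : InfinitePlace K, u.IsComplex) →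
    ∀ t n : K, (∀ x : K, x ^ 2 - t * x + n ≠ 0) → HasseNormAt K t n

/-- **LIFT-EX, local form of the hypothesis.** -/
def LiftExAtC : Prop :=
  ∀ (K : Type) [Field K] [NumberField K] (D : KData K), HasseNormAt K D.t D.n →
    D.Good → D.ThetaInv → ∃ φ : A0.G K → ℂ, D.IsLift φ

/-- **EXP, local form of the hypothesis.** -/
def ExpAtC : Prop :=
  ∀ (K : Type) [Field K] [NumberField K] (D : KData K), HasseNormAt K D.t D.n →
    D.Good → D.ThetaInv →
    ∀ φ W : A0.G K → ℂ, D.IsLift φ → D.IsWhit W →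
      (∀ nU : A0.Adl K → A0.G K, IsUpperUnip nU →
        ∀ (x : A0.Adl K) (g : A0.G K), W (nU x * g) = D.ψ x * W g) ∧
      ∀ d : Kˣ → A0.G K, IsRatDiag d → ∀ g : A0.G K, φ g = ∑' α : Kˣ, W (d α * g)

theorem hasseNormAt_of_hasseNormC (h : HasseNormC) (K : Type) [Field K] [NumberField K]
    (t n : K) (hirr : ∀ x : K, x ^ 2 - t * x + n ≠ 0) : HasseNormAt K t n :=
  fun a m hm hdet => h K t n hirr a m hm hdet

theorem hasseNormTC_of_hasseNormC (h : HasseNormC) : HasseNormTC :=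
  fun K _ _ _ t n hirr => hasseNormAt_of_hasseNormC h K t n hirr

/-- The v2 leaf is stronger than the v1 leaf. -/
theorem liftExC_of_at (h : LiftExAtC) : LiftExC :=
  fun hH K _ _ D hGood hinv =>
    h K D (hasseNormAt_of_hasseNormC hH K D.t D.n hGood.torus.irred) hGood hinv

/-- The v2 leaf is stronger than the v1 leaf. -/
theorem expC_of_at (h : ExpAtC) : ExpC :=
  fun hH K _ _ D hGood hinv =>
    h K D (hasseNormAt_of_hasseNormC hH K D.t D.n hGood.torus.irred) hGood hinv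

/-- **A2.03.6b WHIT-SUM with Hasse** (v2.1).  Normal summability of `α ↦ W(diag(α, 1) g)` on the
compact sets.  `W(diag(α, 1) g) = 0` unless `α ∈ det T(𝔸_K)`, i.e. (Hasse) `α = det μ_α`,
`μ_α ∈ T(K)`; then `W(diag(α, 1) g) = ∫_{T¹(𝔸)} F g (m m_g) (μ_α⁻¹ α e₁) χT(m m_g) dm`
(`diagK`, `torK`), and `∑_α |W(diag(α,1) g)| ≤ ∫_{DT} ∑_{ξ ∈ K² ∖ 0} |F g (m m_g) ξ| dm`
(unfolding over `T¹(K)`, `tor1`, `IsRegular.loc_summable`). -/
def WL.WhitSumAtC : Prop :=
  WL.TorusOpenC →
  ∀ (K : Type) [Field K] [NumberField K] (D : KData K) (η : (A0.Adl K)ˣ → ℂ),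
    HasseNormAt K D.t D.n → T1.T1Out K → D.Good → WL.IsStd D η →
    ∀ W : A0.G K → ℂ, D.IsWhit W →
      ∀ C : Set (A0.G K), IsCompact C → ∃ b : Kˣ → ℝ, Summable b ∧
        ∀ d : Kˣ → A0.G K, IsRatDiag d → ∀ (α : Kˣ) (g : A0.G K), g ∈ C →
          ‖W (d α * g)‖ ≤ b α

/-- The v1 leaf is stronger than the v2.1 leaf. -/
theorem WL.whitSumAtC_of_whitSumC (h : WL.WhitSumC) : WL.WhitSumAtC :=
  fun hopen K _ _ D η _ h1 hgood hstd W hW => h hopen K D η h1 hgood hstd W hW

/-- **The top of the station `WeilLocalC`**, towers T1 and CFT at the totally complex fields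
only. -/
theorem weilLocal_of_leaves_tc
    (hT1 : ∀ (K : Type) [Field K] [NumberField K], (∀ u : InfinitePlace K, u.IsComplex) →
      T1.T1Out K)
    (hH : HasseNormTC)
    (hex : WL.WeilExC) (hopen : WL.TorusOpenC) (hlc : WL.LiftContC) (hlb : WL.LiftBddC)
    (hwc : WL.WhitContC) (hws : WL.WhitSumAtC) (hwm : WL.WhitMeanC) (hwh : WL.WhitHeckeC) :
    WeilLocalC := by
  intro K _ _ t n χT hχ hcpx 𝔡 h𝔡
  obtain ⟨D, η, ht, hn, hχT, hlev, hgood, hind, hstd⟩ := hex K t n χT hχ hcpx 𝔡 h𝔡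
  have h1 : T1.T1Out K := hT1 K hcpx
  have hHat : HasseNormAt K D.t D.n := hH K hcpx D.t D.n hgood.torus.irred
  refine ⟨D, ht, hn, hχT, hlev, hgood, hind, ?_, ?_⟩
  · intro φ hφ
    exact ⟨hlc hopen K D η h1 hgood hstd φ hφ, hlb hopen K D η hcpx h1 hgood hstd φ hφ⟩
  · intro W hW
    refine ⟨hwc hopen K D η h1 hgood hstd W hW, WL.whit_ne_zero950 D η hstd W hW,
      hws hopen K D η hHat h1 hgood hstd W hW, hwm K D η h1 hgood hstd W hW, ?_⟩
    have hind' : InducedDataT D.t D.n D.χT D.π := by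
      rw [ht, hn, hχT]; exact hind
    exact hwh K D η h1 hgood hstd hind' W hW

/-- **Level 3, v2**: the kernel in torus coordinates from its leaves. -/
theorem kernelT_of_leaves_tc (hWL : WeilLocalC) (hP : Poisson2C) (hH : HasseNormTC)
    (hTI : ThetaInvC) (hLE : LiftExAtC) (hWE : WhitExC) (hE : ExpAtC) (hI : InvC) :
    KernelTC := by
  intro K _ _ t n χT hT hcx 𝔡 h𝔡
  obtain ⟨D, ht, hn, hχ, hle, hGood, hind, hφ, hW⟩ := hWL K t n χT hT hcx 𝔡 h𝔡
  subst ht hn hχ
  have hHat : HasseNormAt K D.t D.n := hH K hcx D.t D.n hGood.torus.irred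
  have hinv : D.ThetaInv := hTI hP K D hGood
  obtain ⟨φ, hφL⟩ := hLE K D hHat hGood hinv
  obtain ⟨W, hWW⟩ := hWE K D hGood
  obtain ⟨hcont, hbdd⟩ := hφ φ hφL
  obtain ⟨hWc, hWne, hWsum, hWmean, hWhecke⟩ := hW W hWW
  obtain ⟨hequiv, hexp⟩ := hE K D hHat hGood hinv φ W hφL hWW
  obtain ⟨hlev, hsc, hcp⟩ := hI K D hGood φ hφL
  refine ⟨D.π, D.ψ, φ, W, ?_, hind, hle⟩
  exact
    { char := hGood.char
      cont := hcont
      bdd := hbdd
      left_inv := hφL.left_inv
      level_inv := hlev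
      arch_scalar := hsc
      arch_compact := hcp
      whit := ⟨hequiv, hWsum, hexp⟩
      W_cont := hWc
      W_ne := hWne
      W_mean := hWmean
      W_hecke := hWhecke }

/-- **THE TOWER TOP, v2**: the wall leaf `A2_556` (helper556, VERBATIM) from the leaves of tower
A2, the interfaces with towers T1 and CFT being used at totally complex fields only. -/
theorem a2_top_tc
    (hT1 : ∀ (K : Type) [Field K] [NumberField K], (∀ u : InfinitePlace K, u.IsComplex) →
      T1.T1Out K)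
    (hGal : GalSeedC) (hTC : TorusCharC)
    (hex : WL.WeilExC) (hopen : WL.TorusOpenC) (hlc : WL.LiftContC) (hlb : WL.LiftBddC)
    (hwc : WL.WhitContC) (hws : WL.WhitSumAtC) (hwm : WL.WhitMeanC) (hwh : WL.WhitHeckeC)
    (hP : Poisson2C) (hH : HasseNormTC) (hTI : ThetaInvC) (hLE : LiftExAtC) (hWE : WhitExC)
    (hE : ExpAtC) (hI : InvC)
    (hQ : AdeleQuotC) (hC : CuspOfWhitC) (hM : MeanOfWhitC) (hN : NeZeroOfWhitC) :
    WT.A2_556 :=
  a2_of_theta_galSeed
    (theta_of_leaves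
      (kernel_of_leaves hTC
        (kernelT_of_leaves_tc
          (weilLocal_of_leaves_tc hT1 hH hex hopen hlc hlb hwc hws hwm hwh)
          hP hH hTI hLE hWE hE hI))
      hQ hC hM hN)
    hGal

end Fermat.Agent.LT.A2

end

end
-- ===== PACK-END LT/A2/TopTC.lean

-- ===== PACK-BEGIN LT/A2/H142/HeckeSpec.lean
section




/-!
# Row LT, tower A2, station `WeilLocalC`, leaf A2.03.8 `WL.WhitHeckeC`: THE CUT (helper142)

OFF-MAIN.  Definitions and `Prop`s only (no `sorry`, nothing assumed).  The top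

    WL.WhitHeckeC ⟸ RInvC + UnipC + CentC + LocalAlgC + RecSplitC + RecInertC

is PROVED in `LT/A2/H142/HeckeTop.lean` (`whitHecke_of_leaves142`).

Vocabulary: `LT/H129` (helper129, byte-identical copies): `locFin129 v : GL₂(K_v) →* GL₂(𝔸_K)`,
`finCompHom129`, `mkGL129`, `diag129`, `upperU129`, `rep129`, `IsMaxCpt129`.

## The mathematics

Fix `v ∤ π.level`, a uniformiser `ϖ` of `K_v`, and `g'` with trivial component at `v`.  Put
`w(x) = W(locFin x · g')`, `x ∈ GL₂(K_v)`, and `ω_j = w(diag(ϖ^j, 1))`.  Then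

* `w(x k) = w(x)` for `k ∈ GL₂(𝒪_v)` (`RInvC`: `IsRightInv.level`; elements local at `v` commute
  with `g'`);
* `w(n(y) x) = ψ_v(y) w(x)` (`UnipC`: `IsWeil.unip` at `ξ = (1, 0)`, `Q(1, 0) = 1`);
* `w(x ϖ) = b · w(x)` (`CentC`: `diag(ϖ, ϖ) = t(ϖ) d(ϖ²)`, `diagA`, `torA` with `μ = ϖ ∈ T`;
  the factor is `η(ϖ) χT(ϖ)`, which is `b` in both cases of `InducedAtT`);
* `q ω_{j+1} + b ω_{j-1} = √q a ω_j` for `j ≥ 0`, `ω_{-1} := 0` (`RecSplitC`, `RecInertC`):
    - SPLIT (`T(K_v)` contains an integral `m₁` with `det m₁` a uniformiser; `m̄₁ = det(m₁) m₁⁻¹`):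
      `ω_j = q^{-j/2} (∑_{i ≤ j} α^{j-i} β^i) ω_0`, `α = χT(m₁)`, `β = χT(m̄₁)`, `a = α + β`,
      `b = α β`  (`T¹(𝔸) = ⨆_{i ∈ ℤ} (m₁/m̄₁)^i U`, `U` = the elements integral at `v`;
      `F g' (u m') (m₁^{-i} m̄₁^{i+j} e₁) = [ -j ≤ i ≤ 0 ] F g' (u m') e₁` by `good_std`, `tor1`);
    - INERT (`IsInertAt`): `ω_{2i} = q^{-i} χT(ϖ)^i ω_0`, `ω_{2i+1} = 0` (not in `GL₂(𝔸)⁺`),
      `a = 0`, `b = -χT(ϖ)`  (`T¹(K_v)` is integral, no decomposition of the measure is needed);
* `LocalAlgC` (local, no adeles, no measure): the four properties above and `ψ_v` of conductor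
  `𝒪_v` imply `∑_{h} w(x h) = √q a w(x)` for the standard coset system and EVERY `x ∈ GL₂(K_v)`
  (Iwasawa `x = n(y) diag(y₁, y₂) k`; the sum over `k h` is the sum over `h`; `ω_j = 0` for
  `j < 0`; `∑_{r mod ϖ} ψ_v(ϖ⁻¹ u r) = 0`).

The top then follows from `H129.isHeckeEigenAt_of_one129`.
-/

set_option autoImplicit false

open IsDedekindDomain NumberField AutomorphicForm MeasureTheory
open scoped MatrixGroups

noncomputable section

namespace Fermat.Agent.LT.A2.H142

open Fermat.Agent.LT.H556 Fermat.Agent.LT.H556.A0 Fermat.Agent.LT.H129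

variable {K : Type} [Field K] [NumberField K]

/-! ## Vocabulary -/

/-- The hypotheses of `WL.WhitHeckeC` at the place `v`. -/
structure HCtx (D : KData K) (η : (Adl K)ˣ → ℂ) (W : G K → ℂ) (v : HeightOneSpectrum (𝓞 K)) :
    Prop where
  t1 : T1.T1Out K
  good : D.Good
  std : WL.IsStd D η
  ind : InducedDataT D.t D.n D.χT D.π
  whit : D.IsWhit W
  hv : ¬ v.asIdeal ∣ D.π.level

/-- The adele supported at `v` with component `x` (`0` at every other place). -/
def adv142 (v : HeightOneSpectrum (𝓞 K)) (x : v.adicCompletion K) : Adl K :=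
  (0, finSingle129 v false x)

/-- The local standard Hecke representatives `!![ϖ, r; 0, 1]` (`r` running over the
representatives `rep129` of the residue classes) and `!![1, 0; 0, ϖ]`;
`H129.stdHecke129 v ϖ h c = locFin129 v (stdLoc142 v ϖ h c)`. -/
def stdLoc142 (v : HeightOneSpectrum (𝓞 K)) (ϖ : v.adicCompletion K) (h : ϖ ≠ 0) :
    Option (𝓞 K ⧸ v.asIdeal) → GL (Fin 2) (v.adicCompletion K)
  | some c => mkGL129 ϖ (rep129 v c) 0 1 (by simpa using h)
  | none => mkGL129 1 0 0 ϖ (by simpa using h)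

/-- `diag(ϖ^j, 1) ∈ GL₂(K_v)`. -/
def dgl142 (v : HeightOneSpectrum (𝓞 K)) (ϖ : v.adicCompletion K) (h : ϖ ≠ 0) (j : ℕ) :
    GL (Fin 2) (v.adicCompletion K) :=
  diag129 (ϖ ^ j) 1 (pow_ne_zero j h) one_ne_zero

/-- `ω_j = W(diag(ϖ^j, 1)_v · g')`. -/
def om142 (W : G K → ℂ) (v : HeightOneSpectrum (𝓞 K)) (ϖ : v.adicCompletion K) (h : ϖ ≠ 0)
    (g' : G K) (j : ℕ) : ℂ :=
  W (locFin129 v (dgl142 v ϖ h j) * g')

/-- `q_v` and `√q_v` as complex numbers. -/
def qC142 (v : HeightOneSpectrum (𝓞 K)) : ℂ := ((Ideal.absNorm v.asIdeal : ℕ) : ℂ)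

/-- `√q_v` in the form of `A0.IsHeckeEigenAt`. -/
def sqC142 (v : HeightOneSpectrum (𝓞 K)) : ℂ :=
  ((Real.sqrt (Ideal.absNorm v.asIdeal : ℝ) : ℝ) : ℂ)

/-- **The recursion** `q ω_{j+1} + b ω_{j-1} = √q a ω_j`, `j ≥ 0`, `ω_{-1} = 0`. -/
def Rec142 (v : HeightOneSpectrum (𝓞 K)) (ω : ℕ → ℂ) (a b : ℂ) : Prop :=
  qC142 v * ω 1 = sqC142 v * a * ω 0 ∧
    ∀ j : ℕ, qC142 v * ω (j + 2) + b * ω j = sqC142 v * a * ω (j + 1)

/-- The place `v` is SPLIT for the torus: some integral element of `T(K_v)` has determinant a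
uniformiser (the negation of `WL.IsInertAt`). -/
def IsSplitAt142 (t n : K) (v : HeightOneSpectrum (𝓞 K)) : Prop :=
  ∃ m : G K, InTorus t n m ∧ IsLocalAtFin v m ∧ IsIntegralAt v m ∧
    Valued.v (finComp v m).det = WithZero.exp (-1 : ℤ)

/-! ## The leaves -/

/-- **A2.03.8.1 R-INV.**  `W` is right invariant under the level group (`IsRightInv.level`;
pointwise identity of the integrands, `m_{g u} = m_g κ`, `χT κ = 1`; outside `GL₂(𝔸)⁺` both
sides vanish). -/
def RInvC : Prop :=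
  ∀ (K : Type) [Field K] [NumberField K] (D : KData K) (W : G K → ℂ),
    D.Good → D.IsWhit W →
    ∀ u : G K, InLevelGroup D.π.level u → ∀ g : G K, W (g * u) = W g

/-- **A2.03.8.2 UNIP.**  `W(n(x) g) = ψ(x) W(g)` (`IsWeil.unip` at `ξ = (1, 0)`). -/
def UnipC : Prop :=
  ∀ (K : Type) [Field K] [NumberField K] (D : KData K) (W : G K → ℂ),
    D.Good → D.IsWhit W →
    ∀ nU : Adl K → G K, IsUpperUnip nU → ∀ (x : Adl K) (g : G K), W (nU x * g) = D.ψ x * W g

/-- **A2.03.8.3 CENT.**  `W(g z) = b W(g)` for a scalar uniformiser `z` at `v`: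
`z = t(c) d(c²)`, `F (z g) (z m) ξ = η(c) F g m ξ` (`diagA`, `torA` with `μ = z`,
`|c| |c²|^{-1/2} = 1`), so `W(g z) = η(c) χT(z) W(g)`; split: `η(c) = 1` (`quad.norm`,
`good_eta`) and `χT(z) = χT(m₁) χT(z m₁⁻¹) = b`; inert: `η(c) = -1`, `b = -χT(z)`. -/
def CentC : Prop :=
  ∀ (K : Type) [Field K] [NumberField K] (D : KData K) (η : (Adl K)ˣ → ℂ) (W : G K → ℂ)
    (v : HeightOneSpectrum (𝓞 K)), HCtx D η W v →
    ∀ z : G K, IsScalarUniformizerAt v z → ∀ g : G K, W (g * z) = D.π.b v * W g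

/-- **A2.03.8.4 LOCAL-ALG** (local; Mathlib + `LT/H129` only; no adeles, no measure).
A function `w` on `GL₂(K_v)` which is right `GL₂(𝒪_v)`-invariant, `(N, ψ_v)`-equivariant on the
left (`ψ_v` of conductor `𝒪_v`), with central character `b` at the uniformiser and whose values
`ω_j = w(diag(ϖ^j, 1))` satisfy the recursion, is an eigenfunction of the Hecke sum over the
standard coset system. -/
def LocalAlgC : Prop :=
  ∀ (K : Type) [Field K] [NumberField K] (v : HeightOneSpectrum (𝓞 K))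
    (ϖ : v.adicCompletion K) (hϖ : Valued.v ϖ = WithZero.exp (-1 : ℤ))
    (ψv : v.adicCompletion K → ℂ) (w : GL (Fin 2) (v.adicCompletion K) → ℂ) (a b : ℂ),
    (∀ x y : v.adicCompletion K, ψv (x + y) = ψv x * ψv y) →
    (∀ x : v.adicCompletion K, x ∈ v.adicCompletionIntegers K → ψv x = 1) →
    (∃ x : v.adicCompletion K, Valued.v x = WithZero.exp (1 : ℤ) ∧ ψv x ≠ 1) →
    (∀ k : GL (Fin 2) (v.adicCompletion K), IsMaxCpt129 (v.adicCompletionIntegers K) k →
      ∀ x : GL (Fin 2) (v.adicCompletion K), w (x * k) = w x) →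
    (∀ (y : v.adicCompletion K) (x : GL (Fin 2) (v.adicCompletion K)),
      w (upperU129 y * x) = ψv y * w x) →
    (∀ x : GL (Fin 2) (v.adicCompletion K),
      w (x * diag129 ϖ ϖ (unif_ne_zero129 v hϖ) (unif_ne_zero129 v hϖ)) = b * w x) →
    Rec142 v (fun j => w (dgl142 v ϖ (unif_ne_zero129 v hϖ) j)) a b →
    ∀ x : GL (Fin 2) (v.adicCompletion K),
      ∑ᶠ c : Option (𝓞 K ⧸ v.asIdeal), w (x * stdLoc142 v ϖ (unif_ne_zero129 v hϖ) c)
        = sqC142 v * a * w x

/-- **A2.03.8.5 REC-SPLIT.**  The recursion at a split place, for every `g'` with trivial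
component at `v` and every uniformiser. -/
def RecSplitC : Prop :=
  ∀ (K : Type) [Field K] [NumberField K] (D : KData K) (η : (Adl K)ˣ → ℂ) (W : G K → ℂ)
    (v : HeightOneSpectrum (𝓞 K)), HCtx D η W v → IsSplitAt142 D.t D.n v →
    ∀ (ϖ : v.adicCompletion K) (hϖ : Valued.v ϖ = WithZero.exp (-1 : ℤ)) (g' : G K),
      TrivAtFin v g' →
      Rec142 v (om142 W v ϖ (unif_ne_zero129 v hϖ) g') (D.π.a v) (D.π.b v)

/-- **A2.03.8.6 REC-INERT.**  The recursion at an inert place. -/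
def RecInertC : Prop :=
  ∀ (K : Type) [Field K] [NumberField K] (D : KData K) (η : (Adl K)ˣ → ℂ) (W : G K → ℂ)
    (v : HeightOneSpectrum (𝓞 K)), HCtx D η W v → WL.IsInertAt D.t D.n v →
    ∀ (ϖ : v.adicCompletion K) (hϖ : Valued.v ϖ = WithZero.exp (-1 : ℤ)) (g' : G K),
      TrivAtFin v g' →
      Rec142 v (om142 W v ϖ (unif_ne_zero129 v hϖ) g') (D.π.a v) (D.π.b v)

end Fermat.Agent.LT.A2.H142

end

end
-- ===== PACK-END LT/A2/H142/HeckeSpec.lean

-- ===== PACK-BEGIN LT/A2/H971/WhitCont.lean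
section


/-!
# Row LT, tower A2, station `WeilLocalC`, leaf A2.03.5 WHIT-CONT (helper971)

OFF-MAIN.  Spec: `LT/A2/WeilLocal.lean` (origin/helper950@17cdc7aa9, sha256 47318b3b2f2c1a81),
byte-identical copy.  This file PROVES the leaf

    WL.WhitContC                                             (`whitContC971`)

The Whittaker function `W` of standard good data is continuous:

* `GL₂(𝔸_K)⁺` is open (`TorusOpenC` with `V = univ`) and closed (it is stable under
  multiplication, contains a neighbourhood of `1`, and `GL₂(𝔸_K)` is a topological group);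
  `W = 0` outside `GL₂(𝔸_K)⁺`;
* the orbital integral `Φ(g, m) = ∫_{T¹} F g (m' m) (1, 0) χT(m' m) dm'` is continuous on the set
  of the admissible pairs: dominated convergence along the (countably generated) filter
  `𝓝[Adm] (g₀, m₀)`, with the domination `orb_dom` on a compact neighbourhood, the continuity
  `IsRegular.cont_pair` of the family, the continuity of `χT` on the torus and `|χT| = 1`;
* the first projection of the set of admissible pairs is open (`TorusOpenC`), and `W(g) = Φ(g, m)`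
  for every admissible pair.

Used from `T1Out`: `GL₂(𝔸_K)` is locally compact and second countable, `𝔸_K` is Hausdorff.
No `sorry`, nothing assumed.
-/

set_option autoImplicit false

open IsDedekindDomain NumberField AutomorphicForm MeasureTheory Filter
open scoped MatrixGroups Topology

noncomputable section

namespace Fermat.Agent.LT.A2.H971

open Fermat.Agent.LT.H130 Fermat.Agent.LT.H556 Fermat.Agent.LT.A2

variable {K : Type} [Field K] [NumberField K]

/-! ## The torus -/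

/-- The product of two matrices of the torus. -/
theorem torMat_mul971 {R : Type*} [CommRing R] (t n a b a' b' : R) :
    torMat t n a b * torMat t n a' b'
      = torMat t n (a * a' - n * b * b') (a * b' + b * a' + t * b * b') := by
  ext i j
  fin_cases i <;> fin_cases j <;>
    simp [torMat, Matrix.mul_apply, Fin.sum_univ_two] <;> ring

/-- The torus is stable under multiplication. -/
theorem inTorus_mul971 {t n : K} {m m' : A0.G K} (h : InTorus t n m) (h' : InTorus t n m') :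
    InTorus t n (m * m') := by
  obtain ⟨a, b, hm⟩ := h
  obtain ⟨a', b', hm'⟩ := h'
  refine ⟨a * a' - algebraMap K (A0.Adl K) n * b * b',
    a * b' + b * a' + algebraMap K (A0.Adl K) t * b * b', ?_⟩
  rw [Units.val_mul, hm, hm', torMat_mul971]

/-- The identity is in the torus. -/
theorem inTorus_one971 (t n : K) : InTorus t n (1 : A0.G K) := by
  refine ⟨1, 0, ?_⟩
  ext i j
  fin_cases i <;> fin_cases j <;> simp [torMat]

/-- `(1, 1)` is admissible. -/
theorem adm_one971 (t n : K) : Adm t n (1 : A0.G K) 1 := ⟨inTorus_one971 t n, rfl⟩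

/-- Admissible pairs can be multiplied. -/
theorem adm_mul971 {t n : K} {g g' m m' : A0.G K} (h : Adm t n g m) (h' : Adm t n g' m') :
    Adm t n (g * g') (m * m') :=
  ⟨inTorus_mul971 h.1 h'.1, by rw [map_mul, map_mul, h.2, h'.2]⟩

/-- `GL₂(𝔸_K)⁺` is stable under multiplication. -/
theorem inGPlus_mul971 {t n : K} {g g' : A0.G K} (h : InGPlus t n g) (h' : InGPlus t n g') :
    InGPlus t n (g * g') := by
  obtain ⟨m, hm⟩ := h
  obtain ⟨m', hm'⟩ := h'
  exact ⟨m * m', adm_mul971 hm hm'⟩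

/-- Translation of an admissible pair by the norm-one torus. -/
theorem adm_torus1_mul971 {t n : K} {g m m' : A0.G K} (h' : InTorus1 t n m') (h : Adm t n g m) :
    Adm t n g (m' * m) :=
  ⟨inTorus_mul971 h'.1 h.1, by rw [map_mul, h'.2, one_mul, h.2]⟩

/-- The torus in equations. -/
theorem inTorus_iff971 (t n : K) (m : A0.G K) :
    InTorus t n m ↔
      (m : Matrix (Fin 2) (Fin 2) (A0.Adl K)) 0 1
          = -(algebraMap K (A0.Adl K) n * (m : Matrix (Fin 2) (Fin 2) (A0.Adl K)) 1 0) ∧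
        (m : Matrix (Fin 2) (Fin 2) (A0.Adl K)) 1 1
          = (m : Matrix (Fin 2) (Fin 2) (A0.Adl K)) 0 0
            + algebraMap K (A0.Adl K) t * (m : Matrix (Fin 2) (Fin 2) (A0.Adl K)) 1 0 := by
  constructor
  · rintro ⟨a, b, h⟩
    rw [h]
    simp [torMat]
  · rintro ⟨h1, h2⟩
    refine ⟨(m : Matrix (Fin 2) (Fin 2) (A0.Adl K)) 0 0,
      (m : Matrix (Fin 2) (Fin 2) (A0.Adl K)) 1 0, ?_⟩
    ext i j
    fin_cases i <;> fin_cases j <;> simp [torMat, h1, h2]

/-- The entries are continuous on `GL₂(𝔸_K)`. -/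
theorem continuous_entry971 (i j : Fin 2) :
    Continuous fun m : A0.G K => (m : Matrix (Fin 2) (Fin 2) (A0.Adl K)) i j :=
  Units.continuous_val.matrix_elem i j

/-- The torus is closed. -/
theorem isClosed_inTorus971 [T2Space (A0.Adl K)] (t n : K) :
    IsClosed {m : A0.G K | InTorus t n m} := by
  have h : {m : A0.G K | InTorus t n m}
      = {m : A0.G K | (m : Matrix (Fin 2) (Fin 2) (A0.Adl K)) 0 1
          = -(algebraMap K (A0.Adl K) n * (m : Matrix (Fin 2) (Fin 2) (A0.Adl K)) 1 0)} ∩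
        {m : A0.G K | (m : Matrix (Fin 2) (Fin 2) (A0.Adl K)) 1 1
          = (m : Matrix (Fin 2) (Fin 2) (A0.Adl K)) 0 0
            + algebraMap K (A0.Adl K) t * (m : Matrix (Fin 2) (Fin 2) (A0.Adl K)) 1 0} := by
    ext m
    exact inTorus_iff971 t n m
  rw [h]
  refine IsClosed.inter ?_ ?_
  · exact isClosed_eq (continuous_entry971 0 1)
      (continuous_const.mul (continuous_entry971 1 0)).neg
  · exact isClosed_eq (continuous_entry971 1 1)
      ((continuous_entry971 0 0).add (continuous_const.mul (continuous_entry971 1 0)))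

/-- The norm-one torus is closed. -/
theorem isClosed_inTorus1_971 [T2Space (A0.Adl K)] (t n : K) :
    IsClosed {m : A0.G K | InTorus1 t n m} := by
  have h : {m : A0.G K | InTorus1 t n m}
      = {m : A0.G K | InTorus t n m} ∩
        {m : A0.G K | (m : Matrix (Fin 2) (Fin 2) (A0.Adl K)).det = 1} := by
    ext m
    simp only [Set.mem_ofPred_eq, Set.mem_inter_iff, InTorus1]
    refine and_congr_right fun _ => ?_
    rw [Units.ext_iff, Matrix.GeneralLinearGroup.val_det_apply, Units.val_one]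
  rw [h]
  exact (isClosed_inTorus971 t n).inter
    (isClosed_eq (Units.continuous_val.matrix_det) continuous_const)

/-- A torus character has absolute value `1` on the torus. -/
theorem norm_torusChar971 {t n : K} {χT : A0.G K → ℂ} (hχ : IsTorusChar t n χT) {m : A0.G K}
    (hm : InTorus t n m) : ‖χT m‖ = 1 := by
  obtain ⟨k, hk, hpow⟩ := hχ.fin_order
  exact Complex.norm_eq_one_of_pow_eq_one (hpow m hm) hk.ne'

/-! ## The orbital integral is continuous on the admissible pairs -/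

/-- **Continuity of the orbital integral** on the set of the admissible pairs. -/
theorem orbital_continuousWithinAt971 (D : KData K) (η : (A0.Adl K)ˣ → ℂ) (hT1 : T1.T1Out K)
    (hgood : D.Good) (hstd : WL.IsStd D η) (p₀ : A0.G K × A0.G K)
    (hp₀ : Adm D.t D.n p₀.1 p₀.2) :
    ContinuousWithinAt
      (fun p : A0.G K × A0.G K => D.intT {m | InTorus1 D.t D.n m}
        (fun m => D.F p.1 (m * p.2) (1, 0) * D.χT (m * p.2)))
      {p : A0.G K × A0.G K | Adm D.t D.n p.1 p.2} p₀ := by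
  obtain ⟨⟨_, hT2A, _⟩, hLC, hT2G, hSC⟩ := hT1.locComp
  have := hT2A
  have := hLC
  have := hT2G
  have := hSC
  let _ : MeasurableSpace (A0.G K) := borel (A0.G K)
  have : BorelSpace (A0.G K) := ⟨rfl⟩
  obtain ⟨C, hC, hCn⟩ := exists_compact_mem_nhds p₀
  obtain ⟨h, hint, hbound⟩ := hstd.orb_dom C hC
  have hmeas : MeasurableSet {m : A0.G K | InTorus1 D.t D.n m} :=
    (isClosed_inTorus1_971 D.t D.n).measurableSet
  have hcp := hgood.regular.cont_pair (1, 0)
  have hχc := hgood.torus.cont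
  -- continuity in the torus variable
  have hF1 : ∀ p : A0.G K × A0.G K, Adm D.t D.n p.1 p.2 →
      ContinuousOn (fun m : A0.G K => D.F p.1 (m * p.2) (1, 0)) {m | InTorus1 D.t D.n m} := by
    intro p hp
    have hmap : Set.MapsTo (fun m : A0.G K => ((p.1, m * p.2) : A0.G K × A0.G K))
        {m | InTorus1 D.t D.n m} {q : A0.G K × A0.G K | Adm D.t D.n q.1 q.2} :=
      fun m hm => adm_torus1_mul971 hm hp
    have hc : Continuous (fun m : A0.G K => ((p.1, m * p.2) : A0.G K × A0.G K)) :=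
      continuous_const.prodMk (continuous_id.mul continuous_const)
    exact hcp.comp hc.continuousOn hmap
  have hχ1 : ∀ p : A0.G K × A0.G K, Adm D.t D.n p.1 p.2 →
      ContinuousOn (fun m : A0.G K => D.χT (m * p.2)) {m | InTorus1 D.t D.n m} := by
    intro p hp
    have hmap : Set.MapsTo (fun m : A0.G K => m * p.2)
        {m | InTorus1 D.t D.n m} {m | InTorus D.t D.n m} :=
      fun m hm => inTorus_mul971 hm.1 hp.1
    have hc : Continuous (fun m : A0.G K => m * p.2) := continuous_id.mul continuous_const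
    exact hχc.comp hc.continuousOn hmap
  -- continuity in the pair
  have hF2 : ∀ m : A0.G K, InTorus1 D.t D.n m →
      ContinuousOn (fun p : A0.G K × A0.G K => D.F p.1 (m * p.2) (1, 0))
        {p : A0.G K × A0.G K | Adm D.t D.n p.1 p.2} := by
    intro m hm
    have hmap : Set.MapsTo (fun p : A0.G K × A0.G K => ((p.1, m * p.2) : A0.G K × A0.G K))
        {p : A0.G K × A0.G K | Adm D.t D.n p.1 p.2}
        {q : A0.G K × A0.G K | Adm D.t D.n q.1 q.2} :=
      fun p hp => adm_torus1_mul971 hm hp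
    have hc : Continuous (fun p : A0.G K × A0.G K => ((p.1, m * p.2) : A0.G K × A0.G K)) :=
      continuous_fst.prodMk (continuous_const.mul continuous_snd)
    exact hcp.comp hc.continuousOn hmap
  have hχ2 : ∀ m : A0.G K, InTorus1 D.t D.n m →
      ContinuousOn (fun p : A0.G K × A0.G K => D.χT (m * p.2))
        {p : A0.G K × A0.G K | Adm D.t D.n p.1 p.2} := by
    intro m hm
    have hmap : Set.MapsTo (fun p : A0.G K × A0.G K => m * p.2)
        {p : A0.G K × A0.G K | Adm D.t D.n p.1 p.2} {m | InTorus D.t D.n m} :=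
      fun p hp => inTorus_mul971 hm.1 hp.1
    have hc : Continuous (fun p : A0.G K × A0.G K => m * p.2) :=
      continuous_const.mul continuous_snd
    exact hχc.comp hc.continuousOn hmap
  -- dominated convergence
  show Tendsto
    (fun p : A0.G K × A0.G K =>
      ∫ m in {m | InTorus1 D.t D.n m}, D.F p.1 (m * p.2) (1, 0) * D.χT (m * p.2) ∂D.μT)
    (𝓝[{p : A0.G K × A0.G K | Adm D.t D.n p.1 p.2}] p₀)
    (𝓝 (∫ m in {m | InTorus1 D.t D.n m}, D.F p₀.1 (m * p₀.2) (1, 0) * D.χT (m * p₀.2) ∂D.μT))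
  refine tendsto_integral_filter_of_dominated_convergence h ?_ ?_ hint ?_
  · filter_upwards [self_mem_nhdsWithin] with p hp
    exact ((hF1 p hp).mul (hχ1 p hp)).aestronglyMeasurable hmeas
  · filter_upwards [self_mem_nhdsWithin, mem_nhdsWithin_of_mem_nhds hCn] with p hp hpC
    refine (ae_restrict_iff' hmeas).2 (Eventually.of_forall fun m hm => ?_)
    rw [norm_mul, norm_torusChar971 hgood.torus (inTorus_mul971 hm.1 hp.1), mul_one]
    exact hbound p hpC hp m hm
  · refine (ae_restrict_iff' hmeas).2 (Eventually.of_forall fun m hm => ?_)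
    exact ((hF2 m hm) p₀ hp₀).mul ((hχ2 m hm) p₀ hp₀)

/-! ## The leaf -/

/-- **A2.03.5 WHIT-CONT**: the Whittaker function of standard good data is continuous. -/
theorem whitContC971 : WL.WhitContC := by
  intro hopen K _ _ D η hT1 hgood hstd W hW
  rw [continuous_iff_continuousAt]
  intro g₀
  by_cases hg₀ : InGPlus D.t D.n g₀
  · obtain ⟨m₀, hadm⟩ := hg₀
    have hΦ := orbital_continuousWithinAt971 D η hT1 hgood hstd (g₀, m₀) hadm
    rw [ContinuousAt, hW.formula g₀ m₀ hadm]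
    intro N hN
    have h1 := hΦ hN
    rw [Filter.mem_map, mem_nhdsWithin_iff_exists_mem_nhds_inter] at h1
    obtain ⟨O, hO, hOsub⟩ := h1
    rw [mem_nhds_prod_iff] at hO
    obtain ⟨U₁, hU₁, V, hV, hUV⟩ := hO
    obtain ⟨U, hU, hUprop⟩ := hopen K D.t D.n hgood.torus.irred g₀ m₀ hadm V hV
    rw [Filter.mem_map]
    filter_upwards [hU, hU₁] with g hgU hgU₁
    obtain ⟨m, hmV, hgm⟩ := hUprop g hgU
    have hmem : ((g, m) : A0.G K × A0.G K)
        ∈ O ∩ {p : A0.G K × A0.G K | Adm D.t D.n p.1 p.2} :=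
      ⟨hUV (Set.mk_mem_prod hgU₁ hmV), hgm⟩
    have h2 := hOsub hmem
    show W g ∈ N
    rw [hW.formula g m hgm]
    exact h2
  · obtain ⟨U, hU, hUprop⟩ :=
      hopen K D.t D.n hgood.torus.irred 1 1 (adm_one971 D.t D.n) Set.univ univ_mem
    have hnear : ∀ᶠ g in 𝓝 g₀, ¬ InGPlus D.t D.n g := by
      have hcont : ContinuousAt (fun g : A0.G K => g⁻¹ * g₀) g₀ :=
        (continuous_inv.mul continuous_const).continuousAt
      have hpre : (fun g : A0.G K => g⁻¹ * g₀) ⁻¹' U ∈ 𝓝 g₀ :=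
        hcont.preimage_mem_nhds (by simpa using hU)
      filter_upwards [hpre] with g hg hgplus
      obtain ⟨m, -, hm⟩ := hUprop _ hg
      have h3 := inGPlus_mul971 hgplus ⟨m, hm⟩
      rw [mul_inv_cancel_left] at h3
      exact hg₀ h3
    have hev : W =ᶠ[𝓝 g₀] fun _ => (0 : ℂ) := hnear.mono fun g hg => hW.off g hg
    exact continuousAt_const.congr hev.symm

end Fermat.Agent.LT.A2.H971

end

#print axioms Fermat.Agent.LT.A2.H971.whitContC971

end
-- ===== PACK-END LT/A2/H971/WhitCont.lean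

-- ===== PACK-BEGIN LT/A2/H83/UnramFinite.lean
section


/-!
# Row LT, tower A2, sub-leaf of A2.02: `UnramFiniteC83` (helper83), OFF-MAIN

A continuous character of finite order of the idele group is unramified outside a finite set of
places: its kernel is open, and an open neighbourhood of `1` in the idele group contains the unit
ideles supported at `w` for all `w` outside a finite set (product topology on `∏_w 𝒪_w`).
-/

set_option autoImplicit false

open IsDedekindDomain NumberField AutomorphicForm Topology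
open scoped MatrixGroups

noncomputable section

namespace Fermat.Agent.LT.A2.H83

open Fermat.Agent.LT.H130 Fermat.Agent.LT.H556 Fermat.Agent.LT.A2

section

variable {L : Type} [Field L] [NumberField L]

/-- The kernel of a continuous character of finite order is open. -/
theorem isOpen_ker83 {G : Type*} [TopologicalSpace G] [Monoid G] (χ : G →* ℂˣ)
    (hcont : Continuous χ) (hfin : ∃ n : ℕ, 0 < n ∧ ∀ z : G, χ z ^ n = 1) :
    IsOpen {z : G | χ z = 1} := by
  obtain ⟨n, hn, hχn⟩ := hfin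
  have hne : NeZero n := ⟨hn.ne'⟩
  have hfin0 : Finite (rootsOfUnity n ℂ) := inferInstance
  have hfin1 : (rootsOfUnity n ℂ : Set ℂˣ).Finite := Set.finite_coe_iff.mp hfin0
  have hfinite : ((rootsOfUnity n ℂ : Set ℂˣ) \ {1}).Finite := hfin1.subset Set.sdiff_subset
  have hopen : IsOpen (((rootsOfUnity n ℂ : Set ℂˣ) \ {1})ᶜ) := hfinite.isClosed.isOpen_compl
  have heq : {z : G | χ z = 1} = χ ⁻¹' (((rootsOfUnity n ℂ : Set ℂˣ) \ {1})ᶜ) := by
    ext z
    simp only [Set.mem_ofPred_eq, Set.mem_preimage, Set.mem_compl_iff, Set.mem_sdiff,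
      Set.mem_singleton_iff, not_and, not_not, SetLike.mem_coe]
    constructor
    · intro h _
      exact h
    · intro h
      exact h ((mem_rootsOfUnity n _).mpr (hχn z))
  rw [heq]
  exact hopen.preimage hcont

/-- The embedding of `∏_w 𝒪_w` into the adeles, with `1` at the infinite places. -/
def intAdele83 (x : Π w : HeightOneSpectrum (𝓞 L), w.adicCompletionIntegers L) : A0.Adl L :=
  ((1 : InfiniteAdeleRing L),
    (RestrictedProduct.structureMap (fun w : HeightOneSpectrum (𝓞 L) => w.adicCompletion L)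
      (fun w : HeightOneSpectrum (𝓞 L) => (w.adicCompletionIntegers L : Set (w.adicCompletion L)))
      Filter.cofinite x : FiniteAdeleRing (𝓞 L) L))

theorem continuous_intAdele83 : Continuous (intAdele83 (L := L)) := by
  unfold intAdele83
  exact Continuous.prodMk continuous_const RestrictedProduct.isEmbedding_structureMap.continuous

/-- An adele with `1` at the infinite places and integral finite components is in the range of
`intAdele83`. -/
theorem eq_intAdele83 (a : A0.Adl L) (h1 : a.1 = 1)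
    (h2 : ∀ w : HeightOneSpectrum (𝓞 L), a.2 w ∈ w.adicCompletionIntegers L) :
    a = intAdele83 (fun w => ⟨a.2 w, h2 w⟩) := by
  refine Prod.ext h1 ?_
  exact FiniteAdeleRing.ext L fun w => rfl

/-- A neighbourhood of `1` in the adeles contains the integral adeles which are `1` at the
infinite places and at a finite set of finite places. -/
theorem exists_finset_of_nhds83 {V : Set (A0.Adl L)} (hV : IsOpen V) (h1 : (1 : A0.Adl L) ∈ V) :
    ∃ S : Finset (HeightOneSpectrum (𝓞 L)), ∀ a : A0.Adl L, a.1 = 1 →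
      (∀ w : HeightOneSpectrum (𝓞 L), a.2 w ∈ w.adicCompletionIntegers L) →
      (∀ w ∈ S, a.2 w = 1) → a ∈ V := by
  have hpre : IsOpen (intAdele83 (L := L) ⁻¹' V) := hV.preimage continuous_intAdele83
  have h1' : (1 : Π w : HeightOneSpectrum (𝓞 L), w.adicCompletionIntegers L)
      ∈ intAdele83 (L := L) ⁻¹' V := by
    show intAdele83 1 ∈ V
    have : intAdele83 (1 : Π w : HeightOneSpectrum (𝓞 L), w.adicCompletionIntegers L)
        = (1 : A0.Adl L) := by
      refine Prod.ext rfl ?_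
      exact FiniteAdeleRing.ext L fun w => rfl
    rw [this]
    exact h1
  obtain ⟨S, u, hu, hsub⟩ := isOpen_pi_iff.mp hpre 1 h1'
  refine ⟨S, fun a ha1 ha2 haS => ?_⟩
  rw [eq_intAdele83 a ha1 ha2]
  apply hsub
  intro w hw
  have hmem : (fun w : HeightOneSpectrum (𝓞 L) =>
      (⟨a.2 w, ha2 w⟩ : w.adicCompletionIntegers L)) w = 1 := Subtype.ext (haS w hw)
  exact hmem.symm ▸ (hu w hw).2

end

/-- **UNRAM-FINITE** (helper83), VERBATIM. -/
theorem unramFiniteC_h83 : UnramFiniteC83 := by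
  intro L _ _ χ hcont hfin
  have hN : IsOpen {z : (A0.Adl L)ˣ | χ z = 1} := isOpen_ker83 χ hcont hfin
  -- the units topology
  obtain ⟨W, hW, hWN⟩ := (Units.isEmbedding_embedProduct (M := A0.Adl L)).isInducing.isOpen_iff.mp hN
  have h1W : ((1 : A0.Adl L), MulOpposite.op (1 : A0.Adl L)) ∈ W := by
    have : (1 : (A0.Adl L)ˣ) ∈ Units.embedProduct (A0.Adl L) ⁻¹' W := by
      rw [hWN]
      exact map_one χ
    exact this
  obtain ⟨V₁, V₂, hV₁, hV₂, h1V₁, h1V₂, hVW⟩ := isOpen_prod_iff.mp hW _ _ h1W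
  obtain ⟨S₁, hS₁⟩ := exists_finset_of_nhds83 hV₁ h1V₁
  have hV₂' : IsOpen (MulOpposite.op ⁻¹' V₂ : Set (A0.Adl L)) :=
    hV₂.preimage MulOpposite.continuous_op
  obtain ⟨S₂, hS₂⟩ := exists_finset_of_nhds83 hV₂' h1V₂
  classical
  refine ⟨S₁ ∪ S₂, fun w hw z hz => ?_⟩
  obtain ⟨⟨hzinf, hzfin⟩, hzw⟩ := hz
  have hw₁ : w ∉ S₁ := fun h => hw (Finset.mem_union_left _ h)
  have hw₂ : w ∉ S₂ := fun h => hw (Finset.mem_union_right _ h)
  -- components of `z`
  have hz1 : (z : A0.Adl L).1 = 1 := funext hzinf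
  have hzint : ∀ w' : HeightOneSpectrum (𝓞 L),
      (z : A0.Adl L).2 w' ∈ w'.adicCompletionIntegers L := by
    intro w'
    by_cases h : w' = w
    · subst h
      exact (HeightOneSpectrum.mem_adicCompletionIntegers (𝓞 L) L w').mpr hzw.le
    · rw [hzfin w' h]
      exact one_mem _
  -- components of `z⁻¹`
  have hmul : (z : A0.Adl L) * ((z⁻¹ : (A0.Adl L)ˣ) : A0.Adl L) = 1 := Units.mul_inv z
  have hmul1 : (z : A0.Adl L).1 * ((z⁻¹ : (A0.Adl L)ˣ) : A0.Adl L).1 = 1 :=
    congrArg Prod.fst hmul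
  have hmul2 : ∀ w' : HeightOneSpectrum (𝓞 L),
      (z : A0.Adl L).2 w' * ((z⁻¹ : (A0.Adl L)ˣ) : A0.Adl L).2 w' = 1 := fun w' =>
    congrArg (fun a : A0.Adl L => a.2 w') hmul
  have hi1 : ((z⁻¹ : (A0.Adl L)ˣ) : A0.Adl L).1 = 1 := by
    rw [hz1, one_mul] at hmul1
    exact hmul1
  have hifin : ∀ w' : HeightOneSpectrum (𝓞 L), w' ≠ w →
      ((z⁻¹ : (A0.Adl L)ˣ) : A0.Adl L).2 w' = 1 := by
    intro w' h
    have := hmul2 w'
    rw [hzfin w' h, one_mul] at this
    exact this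
  have hiint : ∀ w' : HeightOneSpectrum (𝓞 L),
      ((z⁻¹ : (A0.Adl L)ˣ) : A0.Adl L).2 w' ∈ w'.adicCompletionIntegers L := by
    intro w'
    by_cases h : w' = w
    · subst h
      have h2 := congrArg Valued.v (hmul2 w')
      rw [map_mul, hzw, one_mul, map_one] at h2
      exact (HeightOneSpectrum.mem_adicCompletionIntegers (𝓞 L) L w').mpr h2.le
    · rw [hifin w' h]
      exact one_mem _
  have hzV₁ : (z : A0.Adl L) ∈ V₁ :=
    hS₁ _ hz1 hzint fun w' hw' => hzfin w' (fun h => hw₁ (h ▸ hw'))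
  have hzV₂ : ((z⁻¹ : (A0.Adl L)ˣ) : A0.Adl L) ∈ MulOpposite.op ⁻¹' V₂ :=
    hS₂ _ hi1 hiint fun w' hw' => hifin w' (fun h => hw₂ (h ▸ hw'))
  have hzW : Units.embedProduct (A0.Adl L) z ∈ W := hVW ⟨hzV₁, hzV₂⟩
  have : z ∈ Units.embedProduct (A0.Adl L) ⁻¹' W := hzW
  rw [hWN] at this
  exact this

end Fermat.Agent.LT.A2.H83

end

end
-- ===== PACK-END LT/A2/H83/UnramFinite.lean

-- ===== PACK-BEGIN LT/A2/H904/LiftBddSpec.lean
section


/-!
# Row LT, tower A2, leaf A2.03.4 `WL.LiftBddC`: THE CUT (helper904, sub-architect)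

OFF-MAIN.  Definitions only (no `sorry`, nothing assumed).  Vocabulary: byte-identical copies of
`LT/A2/{Spec,Theta,Kernel,WeilLocal}.lean` (helper950@17cdc7aa9), `LT/T1/Spec.lean` (helper54),
`LT/H556/A0.lean` (helper556).

    WL.LiftBddC  ⟸  AdmCompactC + GaussSumC + CharIntZeroC        (`LiftBddTop.lean`, helper904)

## The proof of the top (for the owners of the leaves: what is used, and why it is enough)

`φ(g) = ∫_{DT} Θ(g, m m_g) χT(m m_g) dm`, `Θ(g, m) = ∑_{ξ ∈ K²} F g m ξ`.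

1. Reduction theory (`T1.ReductionC`, `T1.SiegelCompactC`): modulo `GL₂(K)` on the left,
   `g = z a ω`, `z` central, `a = diag(s, 1)` at the infinite places, `ω ∈ Ω` compact,
   `s ≥ s₀ > 0`.  If `g ∉ GL₂(K) GL₂(𝔸)⁺` then `φ(g) = 0` (`IsLift.off`).
2. **`AdmCompactC`**: there is a COMPACT set `C` of pairs such that every `ω ∈ Ω` which lies in
   `GL₂(K) GL₂(𝔸)⁺` has a rational diagonal translate `g₁ = diag(1, α) ω` with an admissible
   partner `m₁`, `(g₁, m₁) ∈ C`.
3. `a = t(σ) σ`, `σ = √s` (idele, trivial at the finite places), so by `IsStd.diagA`, `IsStd.torA`: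
   `|F (z a g₁) (z σ m m₁) ξ| = ‖σ‖_𝔸 |F g₁ (m m₁) (σ ξ)|`, and the pairs `(g₁, m m₁)`, `m ∈ DT`,
   stay in a compact set; `IsStd.decay` gives `B`, `A`, `δ`.
4. **`GaussSumC`**: `σ^N ∑_{ξ ∈ K² ∖ 0, ξ_fin ∈ B} exp(-δ σ² ∑_w (|ξ₁|_w² + |ξ₂|_w²))` is bounded
   for `σ ≥ σ₀` (the `ξ` with finite part in the compact `B` have bounded denominators).
5. **`CharIntZeroC`**: the term `ξ = 0` is `F g m_g 0 · χT(m_g) · ∫_{DT} χT = 0`.
-/

set_option autoImplicit false

open IsDedekindDomain NumberField AutomorphicForm MeasureTheory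
open scoped MatrixGroups Topology

noncomputable section

namespace Fermat.Agent.LT.A2.H904

open Fermat.Agent.LT.H130 Fermat.Agent.LT.H556

/-- The Gaussian majorant of step 4: for `ξ ∈ K²`,
`1_B(ξ_fin) · exp(-δ σ² ∑_w (‖ξ₁‖_w² + ‖ξ₂‖_w²))`
(`‖·‖_w` = the norm of the completion at the infinite place `w`, NOT normalised). -/
def gaussT {K : Type} [Field K] [NumberField K]
    (B : Set (FiniteAdeleRing (𝓞 K) K × FiniteAdeleRing (𝓞 K) K)) (δ σ : ℝ) (ξ : K × K) : ℝ :=
  Set.indicator {ξ : K × K | ((ratV ξ).1.2, (ratV ξ).2.2) ∈ B}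
    (fun ξ : K × K => Real.exp (-(δ * σ ^ 2 *
      ∑ w : InfinitePlace K, (‖(ratV ξ).1.1 w‖ ^ 2 + ‖(ratV ξ).2.1 w‖ ^ 2)))) ξ

/-- **A2.03.4.1 ADM-COMPACT.**  Over a compact set `Ω` the elements of `GL₂(K) GL₂(𝔸_K)⁺` have
rational diagonal translates with admissible partners in a COMPACT set of pairs.
Proof: `GL₂(𝔸_K)⁺` is open (`TorusOpenC`), `P = GL₂(K) GL₂(𝔸_K)⁺` is open and closed
(`g₀ ∉ P ⇒ g₀ GL₂(𝔸_K)⁺ ∩ P = ∅`: the torus is a group), `det (diag(1, det γ) ω) = det (γ ω)`;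
for `ω₀ ∈ Ω ∩ P` choose `α₀`, `m₀`, a compact neighbourhood `V₀` of `m₀` (`T1.LocCompC`) and the
neighbourhood `U₀` of `diag(1, α₀) ω₀` of `TorusOpenC`; finite subcover of `Ω`;
`C = ⋃_i (diag(1, α_i) Ω) × V_i`. -/
def AdmCompactC : Prop :=
  WL.TorusOpenC →
  ∀ (K : Type) [Field K] [NumberField K] (t n : K), (∀ x : K, x ^ 2 - t * x + n ≠ 0) →
    T1.LocCompC K →
    ∀ Ω : Set (A0.G K), IsCompact Ω →
      ∃ C : Set (A0.G K × A0.G K), IsCompact C ∧
        ∀ ω ∈ Ω, (∃ γ : GL (Fin 2) K, InGPlus t n (ratG γ * ω)) →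
          ∃ (α : K) (γ : GL (Fin 2) K) (m : A0.G K),
            (γ : Matrix (Fin 2) (Fin 2) K) = !![1, 0; 0, α] ∧
            Adm t n (ratG γ * ω) m ∧ (ratG γ * ω, m) ∈ C

/-- **A2.03.4.2 GAUSS-SUM.**  Gaussian sums over the rational vectors with finite part in a
compact set: summable, and `σ^N ·` (the sum over `ξ ≠ 0`) is bounded on `σ ≥ σ₀`.
Proof: `B` compact `⇒` there is `M ≥ 1` with `M ξ ∈ 𝒪_K²` for all `ξ` with `ξ_fin ∈ B`
(the integral finite adeles are open, `𝔸_f = ⋃_M M⁻¹ ∏ 𝒪_v`); `𝒪_K²` is a lattice in `K_∞²`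
(`NumberField.mixedEmbedding`, `ZLattice.summable_norm_rpow`); for `0 ≠ x ∈ 𝒪_K`,
`∏_w ‖x‖_w^{mult w} = |N x| ≥ 1`, so `∑_w (‖ξ₁‖_w² + ‖ξ₂‖_w²) ≥ ρ > 0` on `ξ ≠ 0`, and
`exp(-δ σ² Q) ≤ exp(-δ σ₀² Q) exp(-δ (σ² - σ₀²) ρ)`. -/
def GaussSumC : Prop :=
  ∀ (K : Type) [Field K] [NumberField K]
    (B : Set (FiniteAdeleRing (𝓞 K) K × FiniteAdeleRing (𝓞 K) K)), IsCompact B →
    ∀ (N : ℕ) (δ σ₀ : ℝ), 0 < δ → 0 < σ₀ → ∃ C : ℝ, ∀ σ : ℝ, σ₀ ≤ σ →
      Summable (gaussT B δ σ) ∧
      σ ^ N * ∑' ξ : K × K, Set.indicator {ξ : K × K | ξ ≠ 0} (gaussT B δ σ) ξ ≤ C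

/-- **A2.03.4.3 CHAR-INT-ZERO.**  The torus character is integrable on the fundamental domain
`DT` and its integral vanishes.
Proof: `‖χT‖ = 1` on the torus (`fin_order`), `χT` is continuous on the torus (`cont`), `DT` is
Borel, contained in a compact set (`dom_compact`, `compact_lt`); the countable group
`Γ = T¹(K)` acts on `GL₂(𝔸_K)` by left translations preserving `μT` (`inv`), `DT` is a
fundamental domain (`dom_fund`, `carried`), so is `m' DT` for `m' ∈ T¹(𝔸_K)` (`T` is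
commutative), `1_{T¹} χT` is `Γ`-invariant (`rat`, `mul`), hence
`χT(m') ∫_{DT} χT = ∫_{m' DT} χT = ∫_{DT} χT` (`IsFundamentalDomain.setIntegral_eq`), and
`χT(m') ≠ 1` for some `m'` (`nontriv`). -/
def CharIntZeroC : Prop :=
  ∀ (K : Type) [Field K] [NumberField K] (D : KData K), T1.LocCompC K → D.Good →
    (letI : MeasurableSpace (A0.G K) := borel (A0.G K)
     IntegrableOn D.χT D.DT D.μT) ∧
    D.intT D.DT D.χT = 0

end Fermat.Agent.LT.A2.H904

end

end
-- ===== PACK-END LT/A2/H904/LiftBddSpec.lean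

-- ===== PACK-BEGIN LT/T1/H54/SiegelVol.lean
section



/-!
# Row LT, tower T1, leaf T1.17 `LeafSiegelVol` (helper54): PROVED

OFF-MAIN.  `leafSiegelVol54 K : Fermat.Agent.LT.T1.LeafSiegelVol K`, verbatim against
`LT/T1/Spec.lean` v1 (sha256 e8ae48d6010e).

Route (coord/LT-T1-routes-helper54.md): the fine form of the Siegel set in the slab (`fine54`:
Fujisaki twice, cocompactness of `K` in `𝔸_K`) and the dyadic tiling estimate
(`siegelSet_finite54`: left invariance + disjoint unipotent translates).  NO Iwasawa integration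
formula, no Fubini, no unimodularity.  Hypotheses actually used: `LocCompC` (Hausdorff),
`AdeleLatticeC`, `AdNormC`, and `FujisakiC`, which is not a premise of the leaf and is therefore
an explicit hypothesis of `siegelVolC54`; the leaf itself takes `FujisakiC` from the tower
(`LeafFujisaki`).
-/

set_option autoImplicit false

open IsDedekindDomain NumberField MeasureTheory
open scoped MatrixGroups ENNReal

noncomputable section

namespace Fermat.Agent.LT.T1.H54

open Fermat.Agent.LT.H556.A0 Fermat.Agent.LT.T1 Fermat.Agent.LT.T1.H793 Fermat.Agent.LT.T1.H919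

variable (K : Type) [Field K] [NumberField K]

set_option linter.style.haveILetI false in
/-- **`SiegelVolC`** from `LocCompC`, `AdeleLatticeC`, `AdNormC`, `FujisakiC`. -/
theorem siegelVolC54 (hLC : LocCompC K) (hAL : AdeleLatticeC K) (hN : AdNormC K)
    (hFu : FujisakiC K) : SiegelVolC K := by
  letI : MeasurableSpace (G K) := borel (G K)
  have hB : BorelSpace (G K) := ⟨rfl⟩
  have hT2 : T2Space (G K) := hLC.2.2.1
  intro μ hμ c hc
  obtain ⟨Zc, Yc, D, hZ, hY, hD, hcov⟩ := fine54 hAL hN hFu c hc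
  obtain ⟨hm, hfin⟩ := siegelSet_finite54 μ (eJ54 K) hZ hY hD
  exact ⟨siegelSet54 (eJ54 K) Zc Yc D, hm, hfin, fun g hg t ht hct => hcov g hg t ht hct⟩

/-- **Leaf T1.17 given the Fujisaki leaf T1.06**: `LeafFujisaki K → LeafSiegelVol K`
(the conclusion and the premises are verbatim those of the Spec). -/
theorem leafSiegelVol_of_fujisaki54 (hFu : LeafFujisaki K) : LeafSiegelVol K :=
  fun hLC _ hAL hFD hN _ _ _ => siegelVolC54 K hLC hAL hN (hFu hLC hAL hFD hN)

end Fermat.Agent.LT.T1.H54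

end

end
-- ===== PACK-END LT/T1/H54/SiegelVol.lean

-- ===== PACK-BEGIN LT/T2/H557/CutLevel.lean
section


/-!
# Row LT, tower T2, station T2.10 (`SMO_AA`), leaf T2.10.10 `CutoffC` (helper557), OFF-MAIN

Part 4 (levels).
* `idealClosure_ball557` : the closure of `𝔪 ≠ 0` in `K_v` is the ball `{|x| ≤ exp (-e)}`,
  `e = 0` iff `v ∤ 𝔪`; the closure of `𝔪 v^L` lies in the ball of radius `exp (-e - L)`;
* `inLevelGroup_unip557`, `inLevelGroup_tor557` : unipotent and torus elements of `U(𝔪)`;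
* `inLevelGroup_conj557` : `n(u)⁻¹ U(𝔪 v^{2L}) n(u) ⊆ U(𝔪)` for `|u| ≤ exp L`.
-/

set_option autoImplicit false

open IsDedekindDomain NumberField MeasureTheory
open Fermat.Agent.LT.H556.A0
open Fermat.Agent.LT.T2.H941 Fermat.Agent.LT.T2.H333

noncomputable section

namespace Fermat.Agent.LT.T2.H557

variable {K : Type} [Field K] [NumberField K]

theorem val_int557 (v : HeightOneSpectrum (𝓞 K)) (s : 𝓞 K) :
    Valued.v (algebraMap K (v.adicCompletion K) (algebraMap (𝓞 K) K s)) = v.intValuation s := by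
  rw [valued_algebraMap557, HeightOneSpectrum.valuation_of_algebraMap]

theorem intVal_eq_exp557 (v : HeightOneSpectrum (𝓞 K)) {s : 𝓞 K} (hs : s ≠ 0) :
    v.intValuation s
      = WithZero.exp (-(((-(WithZero.log (v.intValuation s))).toNat : ℕ) : ℤ)) := by
  have h0 := v.intValuation_ne_zero s hs
  have h1 := v.intValuation_le_one s
  have h2 : WithZero.log (v.intValuation s) ≤ 0 := by
    rw [← WithZero.log_one]
    exact (WithZero.log_le_log h0 one_ne_zero).2 h1
  rw [Int.toNat_of_nonneg (by omega), neg_neg, WithZero.exp_log h0]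

theorem isClosed_ball557 (v : HeightOneSpectrum (𝓞 K)) (r : ℤ) :
    IsClosed (ball557 v r : Set (v.adicCompletion K)) :=
  (ball557 v r).isClosed_of_isOpen (isOpen_ball557 v r)

/-- The closure of a non-zero ideal in `K_v` is a ball. -/
theorem idealClosure_ball557 (𝔪 : Ideal (𝓞 K)) (h𝔪 : 𝔪 ≠ ⊥) (v : HeightOneSpectrum (𝓞 K)) :
    ∃ e : ℕ, (∀ x : v.adicCompletion K,
        x ∈ idealClosure 𝔪 v ↔ Valued.v x ≤ WithZero.exp (-(e : ℤ))) ∧
      (¬ v.asIdeal ∣ 𝔪 → e = 0) ∧ (v.asIdeal ∣ 𝔪 → 1 ≤ e) ∧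
      ∀ (L : ℕ) (x : v.adicCompletion K), x ∈ idealClosure (𝔪 * v.asIdeal ^ L) v →
        Valued.v x ≤ WithZero.exp (-(e : ℤ) - L) := by
  classical
  have hex : ∃ k : ℕ, ∃ s ∈ 𝔪, v.intValuation s = WithZero.exp (-(k : ℤ)) := by
    obtain ⟨s, hs, hs0⟩ := Submodule.exists_mem_ne_zero_of_ne_bot h𝔪
    exact ⟨_, s, hs, intVal_eq_exp557 v hs0⟩
  obtain ⟨s, hs𝔪, hsv⟩ := Nat.find_spec hex
  have hmax : ∀ a ∈ 𝔪, v.intValuation a ≤ WithZero.exp (-((Nat.find hex : ℕ) : ℤ)) := by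
    intro a ha
    by_cases ha0 : a = 0
    · rw [ha0, map_zero]
      exact zero_le
    · have hk := intVal_eq_exp557 v ha0
      have hle : Nat.find hex ≤ (-(WithZero.log (v.intValuation a))).toNat :=
        Nat.find_min' hex ⟨a, ha, hk⟩
      rw [hk, WithZero.exp_le_exp]
      omega
  refine ⟨Nat.find hex, fun x => ⟨fun hx => ?_, fun hx => ?_⟩, fun hv => ?_, fun hv => ?_,
    fun L x hx => ?_⟩
  · -- closure ⊆ ball
    have hsub : idealClosure 𝔪 v ⊆ (ball557 v (-((Nat.find hex : ℕ) : ℤ)) : Set _) := by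
      refine closure_minimal ?_ (isClosed_ball557 v _)
      rintro _ ⟨a, ha, rfl⟩
      refine (mem_ball557 v).2 ?_
      show Valued.v (algebraMap K (v.adicCompletion K) (algebraMap (𝓞 K) K a)) ≤ _
      rw [val_int557]
      exact hmax a ha
    exact (mem_ball557 v).1 (hsub hx)
  · -- ball ⊆ closure
    set S : v.adicCompletion K := algebraMap K (v.adicCompletion K) (algebraMap (𝓞 K) K s)
      with hS
    have hSv : Valued.v S = WithZero.exp (-((Nat.find hex : ℕ) : ℤ)) := by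
      rw [hS, val_int557, hsv]
    have hS0 : S ≠ 0 := by
      intro h
      rw [h, map_zero] at hSv
      exact exp_ne_zero557 _ hSv.symm
    have hxs : Valued.v (x / S) ≤ 1 := by
      rw [map_div₀, hSv, div_eq_mul_inv]
      calc Valued.v x * (WithZero.exp (-((Nat.find hex : ℕ) : ℤ)))⁻¹
          ≤ WithZero.exp (-((Nat.find hex : ℕ) : ℤ))
              * (WithZero.exp (-((Nat.find hex : ℕ) : ℤ)))⁻¹ := mul_le_mul_left hx _
        _ = 1 := mul_inv_cancel₀ (exp_ne_zero557 _)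
    unfold idealClosure
    rw [mem_closure_iff_nhds]
    intro t ht
    have hcont : Filter.Tendsto (fun z : v.adicCompletion K => z * S) (nhds (x / S))
        (nhds x) := by
      have h1 : Continuous (fun z : v.adicCompletion K => z * S) := continuous_mul_const S
      have h2 := h1.tendsto (x / S)
      rwa [div_mul_cancel₀ x hS0] at h2
    obtain ⟨a, ha⟩ := exists_int_mem_nhds333 v hxs (hcont ht)
    refine ⟨algebraMap K (v.adicCompletion K) (algebraMap (𝓞 K) K a) * S, ha, a * s,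
      𝔪.mul_mem_left a hs𝔪, ?_⟩
    show algebraMap K (v.adicCompletion K) (algebraMap (𝓞 K) K (a * s))
      = algebraMap K (v.adicCompletion K) (algebraMap (𝓞 K) K a)
        * algebraMap K (v.adicCompletion K) (algebraMap (𝓞 K) K s)
    rw [map_mul, map_mul]
  · -- `v ∤ 𝔪`
    have hnle : ¬ 𝔪 ≤ v.asIdeal := fun h => hv (Ideal.dvd_iff_le.mpr h)
    obtain ⟨s', hs', hs'v⟩ := Set.not_subset.mp hnle
    have h1 : v.intValuation s' = WithZero.exp (-((0 : ℕ) : ℤ)) := by
      rw [HeightOneSpectrum.intValuation_eq_one_iff.mpr hs'v]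
      simp
    exact Nat.le_zero.mp (Nat.find_min' hex ⟨s', hs', h1⟩)
  · -- `v ∣ 𝔪`
    by_contra hlt
    have h0 : Nat.find hex = 0 := by omega
    rw [h0] at hsv
    have h1 : v.intValuation s = 1 := by
      rw [hsv]
      simp
    have h2 : s ∈ v.asIdeal := Ideal.le_of_dvd hv hs𝔪
    exact HeightOneSpectrum.intValuation_eq_one_iff.mp h1 h2
  · -- the closure of `𝔪 v^L`
    have hsub : idealClosure (𝔪 * v.asIdeal ^ L) v
        ⊆ (ball557 v (-((Nat.find hex : ℕ) : ℤ) - L) : Set _) := by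
      refine closure_minimal ?_ (isClosed_ball557 v _)
      rintro _ ⟨a, ha, rfl⟩
      refine (mem_ball557 v).2 ?_
      show Valued.v (algebraMap K (v.adicCompletion K) (algebraMap (𝓞 K) K a)) ≤ _
      rw [val_int557]
      refine Submodule.mul_induction_on ha (fun m hm n hn => ?_) (fun y z hy hz => ?_)
      · rw [map_mul]
        have hn' : v.intValuation n ≤ WithZero.exp (-(L : ℤ)) :=
          (v.intValuation_le_pow_iff_mem n L).mpr hn
        calc v.intValuation m * v.intValuation n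
            ≤ WithZero.exp (-((Nat.find hex : ℕ) : ℤ)) * WithZero.exp (-(L : ℤ)) :=
              mul_le_mul' (hmax m hm) hn'
          _ = WithZero.exp (-((Nat.find hex : ℕ) : ℤ) - L) := by
              rw [← WithZero.exp_add]
              congr 1
      · exact le_trans (Valuation.map_add _ _ _) (max_le hy hz)
    exact (mem_ball557 v).1 (hsub hx)

/-! ## Unipotent and torus elements of the level group -/

theorem trivAtFin_unip_loc_ne557 {v v' : HeightOneSpectrum (𝓞 K)} (h : v' ≠ v)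
    (t : v.adicCompletion K) : finComp v' (T3.unip K (loc557 v t)) = 1 :=
  (isUnipAt_unip_loc557 v t).1.2 v' h

theorem unip_loc_inv557 (v : HeightOneSpectrum (𝓞 K)) (t : v.adicCompletion K) :
    (T3.unip K (loc557 v t))⁻¹ = T3.unip K (loc557 v (-t)) := by
  rw [unip_inv557, loc557_neg]

/-- `n(t) ∈ U(𝔪)` for `t` in the closure of `𝔪` at `v` (a ball). -/
theorem inLevelGroup_unip557 {𝔪 : Ideal (𝓞 K)} {v : HeightOneSpectrum (𝓞 K)} {e : ℕ}
    (hC : ∀ x : v.adicCompletion K,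
      x ∈ idealClosure 𝔪 v ↔ Valued.v x ≤ WithZero.exp (-(e : ℤ)))
    {t : v.adicCompletion K} (ht : Valued.v t ≤ WithZero.exp (-(e : ℤ))) :
    InLevelGroup 𝔪 (T3.unip K (loc557 v t)) := by
  refine ⟨(isUnipAt_unip_loc557 v t).1.1, fun v' i j => ?_⟩
  by_cases h : v' = v
  · subst h
    have h0 : (0 : v'.adicCompletion K) ∈ idealClosure 𝔪 v' := zero_mem_idealClosure333 𝔪 v'
    have h1 : t ∈ idealClosure 𝔪 v' := (hC t).2 ht
    have h2 : -t ∈ idealClosure 𝔪 v' := (hC (-t)).2 (by rw [Valuation.map_neg]; exact ht)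
    rw [unip_loc_inv557, finComp_unip557, finComp_unip557, evF333_loc557_self,
      evF333_loc557_self]
    constructor
    · fin_cases i <;> fin_cases j <;> simp [Matrix.sub_apply] <;> assumption
    · fin_cases i <;> fin_cases j <;> simp [Matrix.sub_apply] <;> assumption
  · rw [unip_loc_inv557, trivAtFin_unip_loc_ne557 h, trivAtFin_unip_loc_ne557 h, sub_self]
    exact ⟨zero_mem_idealClosure333 𝔪 v', zero_mem_idealClosure333 𝔪 v'⟩

/-- `diag(z, 1) ∈ U(𝔪)` for an idele `z` at `v` with `z ≡ 1`, `z⁻¹ ≡ 1`. -/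
theorem inLevelGroup_tor557 {𝔪 : Ideal (𝓞 K)} {v : HeightOneSpectrum (𝓞 K)} {z : (Adl K)ˣ}
    (hz : IsIdeleAtFin v z)
    (h1 : evF333 v (z : Adl K) - 1 ∈ idealClosure 𝔪 v)
    (h2 : evF333 v ((z⁻¹ : (Adl K)ˣ) : Adl K) - 1 ∈ idealClosure 𝔪 v) :
    InLevelGroup 𝔪 (tor z) := by
  refine ⟨(isLocalAtFin_tor557 hz).1, fun v' i j => ?_⟩
  by_cases h : v' = v
  · subst h
    have h0 : (0 : v'.adicCompletion K) ∈ idealClosure 𝔪 v' := zero_mem_idealClosure333 𝔪 v'
    have h2' := h2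
    rw [evF333_inv557] at h2'
    rw [tor_inv557, finComp_tor557, finComp_tor557]
    constructor
    · fin_cases i <;> fin_cases j <;> simp [Matrix.sub_apply] <;> assumption
    · fin_cases i <;> fin_cases j <;> simp [Matrix.sub_apply] <;> assumption
  · have e1 : finComp v' (tor z) = 1 := (isLocalAtFin_tor557 hz).2 v' h
    have e2 : finComp v' (tor z)⁻¹ = 1 := trivAtFin_inv333 e1
    rw [e1, e2, sub_self]
    exact ⟨zero_mem_idealClosure333 𝔪 v', zero_mem_idealClosure333 𝔪 v'⟩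

/-! ## Conjugation by a unipotent element -/

theorem conj_sub_one557 {F : Type*} [Field F] (M : Matrix (Fin 2) (Fin 2) F) (u : F) :
    !![1, -u; 0, 1] * M * !![1, u; 0, 1] - 1
      = !![(M - 1) 0 0 - u * (M - 1) 1 0,
          ((M - 1) 0 0 - u * (M - 1) 1 0) * u + (M - 1) 0 1 - u * (M - 1) 1 1;
          (M - 1) 1 0, (M - 1) 1 0 * u + (M - 1) 1 1] := by
  obtain ⟨a, b, c, d, rfl⟩ : ∃ a b c d : F, M = !![a, b; c, d] :=
    ⟨M 0 0, M 0 1, M 1 0, M 1 1, Matrix.eta_fin_two M⟩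
  rw [Matrix.mul_fin_two, Matrix.mul_fin_two, Matrix.one_fin_two]
  ext i j
  fin_cases i <;> fin_cases j <;> simp [Matrix.sub_apply] <;> ring

theorem conj_entries557 (v : HeightOneSpectrum (𝓞 K)) (e L : ℕ)
    (M : Matrix (Fin 2) (Fin 2) (v.adicCompletion K)) (u : v.adicCompletion K)
    (hu : Valued.v u ≤ WithZero.exp (L : ℤ))
    (hM : ∀ i j, Valued.v ((M - 1) i j) ≤ WithZero.exp (-(e : ℤ) - ((2 * L : ℕ) : ℤ)))
    (i j : Fin 2) :
    Valued.v ((!![1, -u; 0, 1] * M * !![1, u; 0, 1] - 1) i j) ≤ WithZero.exp (-(e : ℤ)) := by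
  have hmul : ∀ x y : v.adicCompletion K,
      Valued.v x ≤ WithZero.exp (-(e : ℤ) - ((2 * L : ℕ) : ℤ)) →
      Valued.v y ≤ WithZero.exp ((2 * L : ℕ) : ℤ) →
      Valued.v (x * y) ≤ WithZero.exp (-(e : ℤ)) := by
    intro x y hx hy
    rw [map_mul]
    calc Valued.v x * Valued.v y
        ≤ WithZero.exp (-(e : ℤ) - ((2 * L : ℕ) : ℤ)) * WithZero.exp ((2 * L : ℕ) : ℤ) :=
          mul_le_mul' hx hy
      _ = WithZero.exp (-(e : ℤ)) := by rw [← WithZero.exp_add]; congr 1; ring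
  have hu1 : Valued.v u ≤ WithZero.exp ((2 * L : ℕ) : ℤ) :=
    le_trans hu (WithZero.exp_le_exp.mpr (by push_cast; omega))
  have hone : Valued.v (1 : v.adicCompletion K) ≤ WithZero.exp ((2 * L : ℕ) : ℤ) := by
    rw [map_one, ← WithZero.exp_zero, WithZero.exp_le_exp]
    positivity
  have huu : Valued.v (u * u) ≤ WithZero.exp ((2 * L : ℕ) : ℤ) := by
    rw [map_mul]
    calc Valued.v u * Valued.v u ≤ WithZero.exp (L : ℤ) * WithZero.exp (L : ℤ) :=
          mul_le_mul' hu hu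
      _ = WithZero.exp ((2 * L : ℕ) : ℤ) := by
          rw [← WithZero.exp_add]; congr 1; push_cast; ring
  have hadd : ∀ x y : v.adicCompletion K, Valued.v x ≤ WithZero.exp (-(e : ℤ)) →
      Valued.v y ≤ WithZero.exp (-(e : ℤ)) → Valued.v (x + y) ≤ WithZero.exp (-(e : ℤ)) :=
    fun x y hx hy => le_trans (Valuation.map_add _ _ _) (max_le hx hy)
  have hsub : ∀ x y : v.adicCompletion K, Valued.v x ≤ WithZero.exp (-(e : ℤ)) →
      Valued.v y ≤ WithZero.exp (-(e : ℤ)) → Valued.v (x - y) ≤ WithZero.exp (-(e : ℤ)) :=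
    fun x y hx hy => le_trans (Valuation.map_sub _ _ _) (max_le hx hy)
  have t1 : ∀ i j, Valued.v ((M - 1) i j) ≤ WithZero.exp (-(e : ℤ)) := by
    intro i j
    have := hmul _ 1 (hM i j) hone
    rwa [mul_one] at this
  have t2 : ∀ i j, Valued.v (u * (M - 1) i j) ≤ WithZero.exp (-(e : ℤ)) := by
    intro i j
    have := hmul _ u (hM i j) hu1
    rwa [mul_comm] at this
  have t3 : ∀ i j, Valued.v ((M - 1) i j * u) ≤ WithZero.exp (-(e : ℤ)) :=
    fun i j => hmul _ u (hM i j) hu1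
  have t4 : ∀ i j, Valued.v (u * (M - 1) i j * u) ≤ WithZero.exp (-(e : ℤ)) := by
    intro i j
    have := hmul _ (u * u) (hM i j) huu
    have e1 : u * (M - 1) i j * u = (M - 1) i j * (u * u) := by ring
    rwa [e1]
  rw [conj_sub_one557]
  fin_cases i <;> fin_cases j
  · exact hsub _ _ (t1 0 0) (t2 1 0)
  · show Valued.v (((M - 1) 0 0 - u * (M - 1) 1 0) * u + (M - 1) 0 1 - u * (M - 1) 1 1) ≤ _
    have e1 : ((M - 1) 0 0 - u * (M - 1) 1 0) * u + (M - 1) 0 1 - u * (M - 1) 1 1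
        = ((M - 1) 0 0 * u - u * (M - 1) 1 0 * u) + (M - 1) 0 1 - u * (M - 1) 1 1 := by ring
    rw [e1]
    exact hsub _ _ (hadd _ _ (hsub _ _ (t3 0 0) (t4 1 0)) (t1 0 1)) (t2 1 1)
  · exact t1 1 0
  · exact hadd _ _ (t3 1 0) (t1 1 1)

/-- `n(u)⁻¹ U(𝔪 v^{2L}) n(u) ⊆ U(𝔪)` for `|u| ≤ exp L`. -/
theorem inLevelGroup_conj557 {𝔪 : Ideal (𝓞 K)} {v : HeightOneSpectrum (𝓞 K)} {e : ℕ}
    (hC : ∀ x : v.adicCompletion K,
      x ∈ idealClosure 𝔪 v ↔ Valued.v x ≤ WithZero.exp (-(e : ℤ)))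
    (L : ℕ)
    (hL : ∀ x : v.adicCompletion K, x ∈ idealClosure (𝔪 * v.asIdeal ^ (2 * L)) v →
        Valued.v x ≤ WithZero.exp (-(e : ℤ) - ((2 * L : ℕ) : ℤ)))
    {u : v.adicCompletion K} (hu : Valued.v u ≤ WithZero.exp (L : ℤ))
    {k : G K} (hk : InLevelGroup (𝔪 * v.asIdeal ^ (2 * L)) k) :
    InLevelGroup 𝔪 ((T3.unip K (loc557 v u))⁻¹ * k * T3.unip K (loc557 v u)) := by
  have hmono : ∀ v' : HeightOneSpectrum (𝓞 K),
      idealClosure (𝔪 * v.asIdeal ^ (2 * L)) v' ⊆ idealClosure 𝔪 v' := by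
    intro v'
    unfold idealClosure
    exact closure_mono (Set.image_mono (SetLike.coe_subset_coe.mpr Ideal.mul_le_left))
  have hinv : ((T3.unip K (loc557 v u))⁻¹ * k * T3.unip K (loc557 v u))⁻¹
      = (T3.unip K (loc557 v u))⁻¹ * k⁻¹ * T3.unip K (loc557 v u) := by
    group
  refine ⟨fun w => ?_, fun v' i j => ?_⟩
  · rw [trivAtInf_iff333, Units.val_mul, Units.val_mul, Matrix.map_mul, Matrix.map_mul,
      (trivAtInf_iff333 w k).1 (hk.1 w),
      (trivAtInf_iff333 w _).1 ((isUnipAt_unip_loc557 v u).1.1 w), unip_loc_inv557,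
      (trivAtInf_iff333 w _).1 ((isUnipAt_unip_loc557 v (-u)).1.1 w), one_mul, one_mul]
  · rw [hinv, finComp_mul333, finComp_mul333, finComp_mul333, finComp_mul333]
    by_cases h : v' = v
    · subst h
      rw [unip_loc_inv557, finComp_unip557, finComp_unip557, evF333_loc557_self,
        evF333_loc557_self]
      constructor
      · exact (hC _).2 (conj_entries557 v' e L _ u hu (fun i j => hL _ (hk.2 v' i j).1) i j)
      · exact (hC _).2 (conj_entries557 v' e L _ u hu (fun i j => hL _ (hk.2 v' i j).2) i j)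
    · rw [unip_loc_inv557, trivAtFin_unip_loc_ne557 h, trivAtFin_unip_loc_ne557 h, one_mul,
        mul_one, one_mul, mul_one]
      exact ⟨hmono v' (hk.2 v' i j).1, hmono v' (hk.2 v' i j).2⟩

/-- The level of a finite combination of right translates. -/
theorem isLevel_lin557 {𝔪 𝔪' : Ideal (𝓞 K)} {n : ℕ} (c : Fin n → ℂ) (p : Fin n → G K)
    (hp : ∀ i, ∀ k : G K, InLevelGroup 𝔪' k → InLevelGroup 𝔪 ((p i)⁻¹ * k * p i))
    {Φ : G K → ℂ} (hΦ : IsLevel 𝔪 Φ) : IsLevel 𝔪' (lin c p Φ) := by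
  intro k hk g
  unfold lin
  refine Finset.sum_congr rfl fun i _ => ?_
  have e1 : g * k * p i = g * p i * ((p i)⁻¹ * k * p i) := by group
  rw [e1, hΦ _ (hp i k hk)]

end Fermat.Agent.LT.T2.H557

end

end
-- ===== PACK-END LT/T2/H557/CutLevel.lean

-- ===== PACK-BEGIN LT/T3/H127/Perp.lean
section



/-!
# Row LT, tower T3, leaf T3.03 (helper127): `K^⊥ = K`

OFF-MAIN.

* `eq_zero_of_forall_mul` : a non-trivial continuous character of `𝔸_K`, trivial on `K`, is
  non-degenerate: `ψ (x a) = 1` for all `a` implies `x = 0`.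
-/

set_option autoImplicit false

open NumberField IsDedekindDomain IsDedekindDomain.HeightOneSpectrum

noncomputable section

namespace Fermat.Agent.LT.T3.H127

variable (K : Type) [Field K] [NumberField K]

theorem mul_infA (x : AdeleRing (𝓞 K) K) (s : InfiniteAdeleRing K) :
    x * infA K s = infA K (x.1 * s) :=
  Prod.ext rfl (show x.2 * (0 : FiniteAdeleRing (𝓞 K) K) = 0 from mul_zero _)

theorem mul_finA (x : AdeleRing (𝓞 K) K) (g : FiniteAdeleRing (𝓞 K) K) :
    x * finA K g = finA K (x.2 * g) :=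
  Prod.ext (show x.1 * (0 : InfiniteAdeleRing K) = 0 from mul_zero _) rfl

/-- **Non-degeneracy.** -/
theorem eq_zero_of_forall_mul (ψ : AddChar (AdeleRing (𝓞 K) K) Circle) (hc : Continuous ψ)
    (htriv : ∀ ξ : K, ψ (embA K ξ) = 1) (hnt : ∃ a : AdeleRing (𝓞 K) K, ψ a ≠ 1)
    (x : AdeleRing (𝓞 K) K) (hx : ∀ a : AdeleRing (𝓞 K) K, ψ (x * a) = 1) : x = 0 := by
  classical
  obtain ⟨a₀, ha₀⟩ := hnt
  have h1 : ∀ w₀ : InfinitePlace K, x.1 w₀ = 0 := by
    intro w₀
    by_contra hne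
    apply ha₀
    apply trivial_of_trivial_at_inf K ψ hc htriv w₀
    intro t ht
    set s : InfiniteAdeleRing K := fun w => if w = w₀ then (x.1 w)⁻¹ * t w else 0 with hs
    have hts : t = x.1 * s := by
      funext w
      have : (x.1 * s) w = x.1 w * s w := rfl
      rw [this]
      by_cases hw : w = w₀
      · subst hw
        simp only [hs, if_true]
        rw [← mul_assoc, mul_inv_cancel₀ hne, one_mul]
      · simp only [hs, if_neg hw, mul_zero]
        exact ht w hw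
    rw [hts, ← mul_infA]
    exact hx _
  have h2 : ∀ v₀ : HeightOneSpectrum (𝓞 K), x.2 v₀ = 0 := by
    intro v₀
    by_contra hne
    apply ha₀
    apply trivial_of_trivial_at_fin K ψ hc htriv v₀
    intro f hf
    set g : FiniteAdeleRing (𝓞 K) K := singleFin K v₀ ((x.2 v₀)⁻¹ * f v₀) with hg
    have hfg : f = x.2 * g := by
      apply FiniteAdeleRing.ext
      intro v
      have : (x.2 * g) v = x.2 v * g v := rfl
      rw [this]
      by_cases hv : v = v₀
      · subst hv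
        rw [hg, singleFin_same, ← mul_assoc, mul_inv_cancel₀ hne, one_mul]
      · rw [hg, singleFin_of_ne K v₀ _ v hv, mul_zero]
        exact hf v hv
    rw [hfg, ← mul_finA]
    exact hx _
  refine Prod.ext (funext h1) ?_
  apply FiniteAdeleRing.ext
  exact h2

/-! ## Discreteness of `K^⊥` -/

/-- The open box `{‖x_w‖ < ρ (w ∣ ∞), x_v ∈ 𝒪_v (v finite)}`. -/
def smallBox (ρ : ℝ) : Set (AdeleRing (𝓞 K) K) :=
  {x | (∀ w : InfinitePlace K, ‖x.1 w‖ < ρ) ∧
    ∀ v : HeightOneSpectrum (𝓞 K), x.2 v ∈ v.adicCompletionIntegers K}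

theorem isOpen_smallBox (ρ : ℝ) : IsOpen (smallBox K ρ) := by
  have h1 : IsOpen {x : InfiniteAdeleRing K | ∀ v : InfinitePlace K, ‖x v‖ < ρ} := by
    have : {x : InfiniteAdeleRing K | ∀ v : InfinitePlace K, ‖x v‖ < ρ}
        = ⋂ v : InfinitePlace K, (fun x : InfiniteAdeleRing K => x v) ⁻¹' {y | ‖y‖ < ρ} := by
      ext x; simp
    rw [this]
    refine isOpen_iInter_of_finite fun v => ?_
    exact (isOpen_lt continuous_norm continuous_const).preimage (continuous_apply v)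
  have h2 : IsOpen {f : FiniteAdeleRing (𝓞 K) K |
      ∀ v : HeightOneSpectrum (𝓞 K), f v ∈ v.adicCompletionIntegers K} :=
    RestrictedProduct.isOpen_forall_mem (fun v => Valued.isOpen_valuationSubring _)
  exact h1.prod h2

theorem zero_mem_smallBox {ρ : ℝ} (hρ : 0 < ρ) : (0 : AdeleRing (𝓞 K) K) ∈ smallBox K ρ := by
  refine ⟨fun v => ?_, fun v => ?_⟩
  · change ‖(0 : v.Completion)‖ < ρ
    simpa using hρ
  · exact zero_mem _

theorem mul_embA_fst (x : AdeleRing (𝓞 K) K) (k : K) :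
    (x * embA K k).1 = x.1 * algebraMap K (InfiniteAdeleRing K) k := rfl

theorem mul_embA_snd (x : AdeleRing (𝓞 K) K) (k : K) :
    (x * embA K k).2 = x.2 * algebraMap K (FiniteAdeleRing (𝓞 K) K) k := rfl

theorem norm_algebraMap_inf (k : K) (w : InfinitePlace K) :
    ‖(algebraMap K (InfiniteAdeleRing K) k) w‖ = w k := norm_embA_fst K k w

theorem radius_aux2 {r M x y : ℝ} (hM : 0 ≤ M) (hx0 : 0 ≤ x)
    (hx : x < r / (M + 1)) (hy : y ≤ M) : x * y < r := by
  have hpos : 0 < M + 1 := by positivity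
  rw [lt_div_iff₀ hpos] at hx
  nlinarith

/-- **Discreteness of `K^⊥`.**  There is an open neighbourhood of `0` in `𝔸_K` which meets
`K^⊥` only in `0`. -/
theorem exists_isOpen_perp (ψ : AddChar (AdeleRing (𝓞 K) K) Circle) (hc : Continuous ψ)
    (htriv : ∀ ξ : K, ψ (embA K ξ) = 1) (hnt : ∃ a : AdeleRing (𝓞 K) K, ψ a ≠ 1) :
    ∃ U : Set (AdeleRing (𝓞 K) K), IsOpen U ∧ (0 : AdeleRing (𝓞 K) K) ∈ U ∧
      ∀ x ∈ U, (∀ ξ : K, ψ (x * embA K ξ) = 1) → x = 0 := by
  classical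
  obtain ⟨d, hd0, hd⟩ := exists_level K ψ hc
  obtain ⟨r, hr, hrV⟩ := exists_radius K ψ hc rightHalf
    (isOpen_rightHalf.mem_nhds one_mem_rightHalf)
  have hdK : (d : K) ≠ 0 := by simpa using hd0
  let b := RingOfIntegers.basis K
  set M : ℝ := ∑ i, infSize K ((d : K) * (b i : K)) with hM
  have hM0 : 0 ≤ M := Finset.sum_nonneg fun i _ => infSize_nonneg K _
  have hρ : 0 < r / (M + 1) := by positivity
  refine ⟨smallBox K (r / (M + 1)), isOpen_smallBox K _, zero_mem_smallBox K hρ, ?_⟩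
  intro x hxU hx
  apply eq_zero_of_forall_mul K ψ hc htriv hnt
  -- the character `g (s) = ψ (x_∞ s)` of `K_∞`
  set g : InfiniteAdeleRing K → Circle := fun s => ψ (infA K (x.1 * s)) with hg
  have g_add : ∀ s s' : InfiniteAdeleRing K, g (s + s') = g s * g s' := by
    intro s s'
    simp only [hg]
    rw [mul_add, infA_add, AddChar.map_add_eq_mul]
  have g_sub : ∀ s s' : InfiniteAdeleRing K, g s = g (s - s') * g s' := by
    intro s s'
    rw [← g_add, sub_add_cancel]
  -- the finite part at a multiple of `d`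
  have hfin_level : ∀ k : K, (∀ v, ‖loc K v k‖ ≤ ‖loc K v (d : K)‖) →
      ψ (finA K (x.2 * algebraMap K (FiniteAdeleRing (𝓞 K) K) k)) = 1 := by
    intro k hk
    apply hd
    refine mul_mem_levelSet K ?_ hxU.2
    intro v
    exact hk v
  have hsplit : ∀ k : K, g (algebraMap K (InfiniteAdeleRing K) k)
      * ψ (finA K (x.2 * algebraMap K (FiniteAdeleRing (𝓞 K) K) k)) = 1 := by
    intro k
    have := hx k
    rw [map_split, mul_embA_fst, mul_embA_snd] at this
    exact this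
  have hg_level : ∀ k : K, (∀ v, ‖loc K v k‖ ≤ ‖loc K v (d : K)‖) →
      g (algebraMap K (InfiniteAdeleRing K) k) = 1 := by
    intro k hk
    have := hsplit k
    rw [hfin_level k hk, mul_one] at this
    exact this
  -- the subgroup `N`
  let N : AddSubgroup K :=
    { carrier := {η | g (algebraMap K (InfiniteAdeleRing K) η) = 1}
      zero_mem' := by
        change g (algebraMap K (InfiniteAdeleRing K) 0) = 1
        simp only [hg]
        rw [map_zero, mul_zero, infA_zero, AddChar.map_zero_eq_one]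
      add_mem' := by
        intro p q hp hq
        change g (algebraMap K (InfiniteAdeleRing K) (p + q)) = 1
        rw [map_add, g_add, hp, hq, mul_one]
      neg_mem' := by
        intro p hp
        change g (algebraMap K (InfiniteAdeleRing K) (-p)) = 1
        have h1 := g_add (algebraMap K (InfiniteAdeleRing K) (-p))
          (algebraMap K (InfiniteAdeleRing K) p)
        rw [← map_add, neg_add_cancel, hp, mul_one] at h1
        rw [← h1]
        change g (algebraMap K (InfiniteAdeleRing K) 0) = 1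
        simp only [hg]
        rw [map_zero, mul_zero, infA_zero, AddChar.map_zero_eq_one] }
  have hNmem : ∀ η : K, η ∈ N ↔ g (algebraMap K (InfiniteAdeleRing K) η) = 1 := fun η => Iff.rfl
  -- dyadic descent along the basis
  have hdy : ∀ (i : Module.Free.ChooseBasisIndex ℤ (𝓞 K)) (k : ℕ),
      (d : K) * (b i : K) / 2 ^ k ∈ N := by
    intro i k
    induction k with
    | zero =>
      rw [pow_zero, div_one, hNmem]
      apply hg_level
      intro v
      have h1 : loc K v ((d : K) * (b i : K)) = loc K v (d : K) * loc K v (b i : K) := by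
        simp [loc]
      rw [h1, norm_mul]
      exact mul_le_of_le_one_right (norm_nonneg _) (norm_loc_int_le_one K v _)
    | succ k ih =>
      rw [hNmem] at ih ⊢
      apply eq_one_of_sq_of_mem_rightHalf
      · rw [← g_add, ← map_add, ← ih]
        congr 2
        rw [pow_succ]
        field_simp
        ring
      · apply hrV
        intro w
        have h1 : (x.1 * algebraMap K (InfiniteAdeleRing K) ((d : K) * (b i : K) / 2 ^ (k + 1))) w
            = x.1 w * (algebraMap K (InfiniteAdeleRing K) ((d : K) * (b i : K) / 2 ^ (k + 1))) w :=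
          rfl
        rw [h1, norm_mul, norm_algebraMap_inf]
        refine radius_aux2 hM0 (norm_nonneg _) (hxU.1 w) ?_
        rw [map_div₀, map_pow]
        have h2 : (1 : ℝ) ≤ (w (2 : K)) ^ (k + 1) := by
          apply one_le_pow₀
          have : w (2 : K) = 2 := by
            rw [← InfinitePlace.norm_embedding_eq, map_ofNat]
            simp
          rw [this]; norm_num
        calc w ((d : K) * (b i : K)) / (w (2 : K)) ^ (k + 1)
            ≤ w ((d : K) * (b i : K)) := div_le_self (AbsoluteValue.nonneg _ _) h2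
          _ ≤ infSize K ((d : K) * (b i : K)) := le_infSize K _ w
          _ ≤ M := Finset.single_le_sum (f := fun i => infSize K ((d : K) * (b i : K)))
              (fun i _ => infSize_nonneg K _) (Finset.mem_univ i)
  -- `N` contains `d 𝓞_K [1/2]`
  have hdyO : ∀ (a : 𝓞 K) (k : ℕ), (d : K) * (a : K) / 2 ^ k ∈ N := by
    intro a k
    have ha : (a : K) = ∑ i, (b.repr a i) • (b i : K) := by
      conv_lhs => rw [← b.sum_repr a]
      simp [zsmul_eq_mul]
    have h1 : (d : K) * (a : K) / 2 ^ k = ∑ i, (b.repr a i) • ((d : K) * (b i : K) / 2 ^ k) := by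
      rw [ha, Finset.mul_sum, Finset.sum_div]
      refine Finset.sum_congr rfl fun i _ => ?_
      simp only [zsmul_eq_mul]
      ring
    rw [h1]
    exact AddSubgroup.sum_mem _ fun i _ => AddSubgroup.zsmul_mem _ (hdy i k) _
  -- `g` is trivial
  have hg1 : ∀ s : InfiniteAdeleRing K, g s = 1 := by
    intro s
    apply eq_one_of_forall_mem_nhds
    intro V hV
    obtain ⟨r', hr', hr'V⟩ := exists_radius K ψ hc V hV
    have hC : 0 ≤ Fermat.Agent.LT.H767.infBound K := Fermat.Agent.LT.H767.infBound_nonneg K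
    set C := Fermat.Agent.LT.H767.infBound K with hCdef
    set D := infSize K (d : K) with hDdef
    have hD : 0 ≤ D := infSize_nonneg K _
    set ρ := r / (M + 1) with hρdef
    obtain ⟨n, hn⟩ := exists_pow_lt_of_lt_one (show 0 < r' / (ρ * D * C + 1) by positivity)
      (show (1 / 2 : ℝ) < 1 by norm_num)
    obtain ⟨a, ha⟩ := Fermat.Agent.LT.H767.exists_int_sub_norm_le K
      (algebraMap K (InfiniteAdeleRing K) (2 ^ n / (d : K)) * s)
    have hη : (d : K) * (a : K) / 2 ^ n ∈ N := hdyO a n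
    rw [hNmem] at hη
    rw [g_sub s (algebraMap K (InfiniteAdeleRing K) ((d : K) * (a : K) / 2 ^ n)), hη, mul_one]
    apply hr'V
    intro w
    have h2K : (2 : K) ^ n ≠ 0 := pow_ne_zero _ two_ne_zero
    have e1 : (x.1 * (s - algebraMap K (InfiniteAdeleRing K) ((d : K) * (a : K) / 2 ^ n))) w
        = x.1 w * ((algebraMap K (InfiniteAdeleRing K) ((d : K) / 2 ^ n)) w
          * ((algebraMap K (InfiniteAdeleRing K) (2 ^ n / (d : K)) * s) w
            - algebraMap K w.Completion (algebraMap (𝓞 K) K a))) := by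
      have e2 : s - algebraMap K (InfiniteAdeleRing K) ((d : K) * (a : K) / 2 ^ n)
          = algebraMap K (InfiniteAdeleRing K) ((d : K) / 2 ^ n)
            * (algebraMap K (InfiniteAdeleRing K) (2 ^ n / (d : K)) * s
              - algebraMap K (InfiniteAdeleRing K) (a : K)) := by
        have e3 : algebraMap K (InfiniteAdeleRing K) ((d : K) / 2 ^ n)
            * algebraMap K (InfiniteAdeleRing K) (2 ^ n / (d : K)) = 1 := by
          rw [← map_mul]
          have : (d : K) / 2 ^ n * (2 ^ n / (d : K)) = 1 := by field_simp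
          rw [this, map_one]
        have e4 : algebraMap K (InfiniteAdeleRing K) ((d : K) * (a : K) / 2 ^ n)
            = algebraMap K (InfiniteAdeleRing K) ((d : K) / 2 ^ n)
              * algebraMap K (InfiniteAdeleRing K) (a : K) := by
          have : (d : K) * (a : K) / 2 ^ n = (d : K) / 2 ^ n * (a : K) := by ring
          rw [this, map_mul]
        rw [e4, mul_sub, ← mul_assoc, e3, one_mul]
      rw [e2]
      rfl
    rw [e1, norm_mul, norm_mul, norm_algebraMap_inf]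
    have h3 : w ((d : K) / 2 ^ n) = w (d : K) * (1 / 2) ^ n := by
      rw [map_div₀, map_pow]
      have : w (2 : K) = 2 := by
        rw [← InfinitePlace.norm_embedding_eq, map_ofNat]
        simp
      rw [this, one_div, inv_pow, div_eq_mul_inv]
    rw [h3]
    have h4 := ha w
    have h5 : ‖x.1 w‖ ≤ ρ := (hxU.1 w).le
    have h6 : w (d : K) ≤ D := le_infSize K _ w
    have h7 : (0 : ℝ) ≤ (1 / 2) ^ n := by positivity
    calc ‖x.1 w‖ * (w (d : K) * (1 / 2) ^ n
          * ‖(algebraMap K (InfiniteAdeleRing K) (2 ^ n / (d : K)) * s) w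
            - algebraMap K w.Completion (algebraMap (𝓞 K) K a)‖)
        ≤ ρ * (D * (1 / 2) ^ n * C) := by
          gcongr
      _ = (ρ * D * C) * (1 / 2) ^ n := by ring
      _ ≤ (ρ * D * C + 1) * (1 / 2) ^ n := by
          gcongr
          linarith
      _ < r' := by
          rw [lt_div_iff₀ (by positivity)] at hn
          linarith
  -- the finite part
  have hf1 : ∀ y : FiniteAdeleRing (𝓞 K) K, ψ (finA K (x.2 * y)) = 1 := by
    intro y
    obtain ⟨k, hk⟩ := exists_sub_mem_levelSet K y d hd0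
    have e1 : x.2 * y = x.2 * (y - algebraMap K (FiniteAdeleRing (𝓞 K) K) k)
        + x.2 * algebraMap K (FiniteAdeleRing (𝓞 K) K) k := by ring
    rw [e1, finA_add, AddChar.map_add_eq_mul, hd _ (mul_mem_levelSet K hk hxU.2), one_mul]
    have := hsplit k
    rw [hg1, one_mul] at this
    exact this
  intro a
  rw [map_split]
  have e1 : (x * a).1 = x.1 * a.1 := rfl
  have e2 : (x * a).2 = x.2 * a.2 := rfl
  rw [e1, e2, hf1, mul_one]
  exact hg1 a.1

end Fermat.Agent.LT.T3.H127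

end
end
-- ===== PACK-END LT/T3/H127/Perp.lean

-- ===== PACK-BEGIN LT/T3/SmoothTop.lean
section



/-!
# Row LT, tower T3 (architect helper14): T3.18b in the smooth form, PROVED

OFF-MAIN.  Complete proof, nothing assumed.  Imports the byte-identical copies of
`H736/ASSmooth.lean` (helper736) and `H732/{EKCore,EKAlg}.lean` (helper732).

* `ekExistSmooth_of : AS.AbelSatakeSmoothC K → InScalarUnifC K → EKExistSmoothC K` (the proof of
  helper732 with one more component).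
-/

set_option autoImplicit false

open IsDedekindDomain NumberField MeasureTheory
open Fermat.Agent.LT.H556.A0

noncomputable section

namespace Fermat.Agent.LT.T3

variable (K : Type) [Field K] [NumberField K]

/-! ## T3.18b, smooth form -/

/-- **T3.18b, smooth form** (the proof of helper732 with one more component). -/
theorem ekExistSmooth_of (hAS : AS.AbelSatakeSmoothC K) (hSU : InScalarUnifC K) :
    EKExistSmoothC K := by
  intro hcplx μ hμ ν hν 𝔫 h𝔫 v₀ hv₀ a₀ n hn hspan ha₀ α hα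
  obtain ⟨κ, Δ, κ₀, hκ₀, hΦall⟩ := hAS hcplx μ hμ ν hν 𝔫 h𝔫 v₀ hv₀ a₀ n hn hspan ha₀ α hα
  obtain ⟨Φ, hΦmem, hΦsum, hΦft⟩ :=
    H732.exists_ekPhi732 (InfinitePlace K) n hn (fun w => Real.log (w (α : K)))
  obtain ⟨f, hfc, hfs, hfbi, hfsupp, hsm, hfi, hfii⟩ := hΦall Φ hΦmem
  refine ⟨f, hfc, hfs, hsm, ?_, hfbi, hfsupp, ?_⟩
  · -- `IsEK`
    intro g g'
    have h1 : (fun j : ℤ => ∫ x, f (g⁻¹ * unip K x * torK K α ^ j * g') ∂ν)
        = fun j : ℤ => κ g g' * Φ (Δ g g' + j • coordTor K n α) := by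
      funext j
      exact hfi g g' j
    rw [h1]
    have h2 := (hΦsum (Δ g g')).mul_left (κ g g')
    rw [mul_zero] at h2
    exact h2
  · -- the eigenvalue
    classical
    refine ⟨fun a b => if b = 0 then 1 else
      κ₀ * ftCoord K Φ (H732.root1_732 a b) (H732.root2_732 a b), ?_, ?_⟩
    · intro a b z₁ z₂ hs hp hz₁ hz₂
      by_cases hb : b = 0
      · simp only [if_pos hb]
        exact one_ne_zero
      · simp only [if_neg hb]
        obtain ⟨hrs, hrp⟩ := H732.roots_spec732 a b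
        have hr₁ : H732.root1_732 a b ≠ 0 := fun h => hb (by rw [← hrp, h, zero_mul])
        have hr₂ : H732.root2_732 a b ≠ 0 := fun h => hb (by rw [← hrp, h, mul_zero])
        refine mul_ne_zero hκ₀ ?_
        rcases H732.roots_unique732 (hs.trans hrs.symm) (hp.trans hrp.symm) with
          ⟨e1, e2⟩ | ⟨e1, e2⟩
        · exact hΦft _ _ hr₁ hr₂ (by rw [e1]; exact hz₁) (by rw [e2]; exact hz₂)
        · exact hΦft _ _ hr₁ hr₂ (by rw [e1]; exact hz₂) (by rw [e2]; exact hz₁)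
    · intro φ hφ a b hecke g
      by_cases hb : b = 0
      · simp only [if_pos hb, one_mul]
        subst hb
        have hzero : ∀ g : G K, φ g = 0 := H732.eq_zero_of_b_eq_zero732 K hSU hecke
        rw [hzero g]
        unfold Rop
        simp only [hzero, zero_mul, integral_zero]
      · simp only [if_neg hb]
        obtain ⟨hrs, hrp⟩ := H732.roots_spec732 a b
        exact hfii φ hφ a b _ _ hecke hrs hrp hb g

end Fermat.Agent.LT.T3

end

end
-- ===== PACK-END LT/T3/SmoothTop.lean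

-- ===== PACK-BEGIN LT/T5/H74/KerPer.lean
section


/-!
# Row LT, tower T5, sub-leaf T5.04b `KerCuspC74` (helper74): the periodisation of a bump

OFF-MAIN.  For `β ∈ C_c(GL₂(𝔸_K))` the periodisation over `GL₂(K) ⟨r⟩`,
`ψ_β(y) = ∑_{γ, m} β(γ y rᵐ) = K_β(1, y)`, is continuous, bounded, left invariant under `GL₂(K)`
and right invariant under `r`.
-/

set_option autoImplicit false

open IsDedekindDomain NumberField MeasureTheory
open scoped MatrixGroups ComplexConjugate Pointwise ENNReal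

noncomputable section

namespace Fermat.Agent.LT.T5.H74

open Fermat.Agent.LT.H556.A0 Fermat.Agent.LT.T5

attribute [local instance] Fermat.Agent.LT.T5.instMeasurableSpaceG

variable {K : Type} [Field K] [NumberField K]

/-- `φ♭(g r) = φ♭(g)`. -/
theorem flat_mul_ray74 (r : G K) (φ : G K → ℂ) (g : G K) : flat r φ (g * r) = flat r φ g := by
  unfold flat
  have h : ∀ m : ℤ, φ (g * r * r ^ m)
      = (fun m' : ℤ => φ (g * r ^ m')) (Equiv.addRight (1 : ℤ) m) := by
    intro m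
    simp only [Equiv.coe_addRight]
    rw [mul_assoc, add_comm m 1, zpow_add, zpow_one]
  rw [tsum_congr h]
  exact (Equiv.addRight (1 : ℤ)).tsum_eq (fun m' : ℤ => φ (g * r ^ m'))

/-- `K_φ(x, z r) = K_φ(x, z)`. -/
theorem ker0_mul_ray_right74 (r : G K) (φ : G K → ℂ) (x z : G K) :
    ker0 r φ x (z * r) = ker0 r φ x z := by
  unfold ker0
  refine tsum_congr fun γ => ?_
  rw [← mul_assoc, flat_mul_ray74]

/-- `K_φ(x, γ₀ z) = K_φ(x, z)` for `γ₀ ∈ GL₂(K)`. -/
theorem ker0_ratG_mul_right74 (r : G K) (φ : G K → ℂ) (γ₀ : GL (Fin 2) K) (x z : G K) :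
    ker0 r φ x (ratG γ₀ * z) = ker0 r φ x z := by
  unfold ker0
  have h : ∀ γ : GL (Fin 2) K,
      flat r φ (x⁻¹ * ratG γ * (ratG γ₀ * z))
        = (fun γ' : GL (Fin 2) K => flat r φ (x⁻¹ * ratG γ' * z)) (Equiv.mulRight γ₀ γ) := by
    intro γ
    simp only [Equiv.coe_mulRight, map_mul, mul_assoc]
  rw [tsum_congr h]
  exact (Equiv.mulRight γ₀).tsum_eq (fun γ' : GL (Fin 2) K => flat r φ (x⁻¹ * ratG γ' * z))

/-- The periodisation of `β` over `GL₂(K) ⟨r⟩`: `ψ_β(y) = ∑_{γ, m} β(γ y rᵐ)`. -/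
def per74 (r : G K) (β : G K → ℂ) : G K → ℂ := fun y => ker0 r β 1 y

theorem per_ratG_mul74 (r : G K) (β : G K → ℂ) (γ : GL (Fin 2) K) (y : G K) :
    per74 r β (ratG γ * y) = per74 r β y :=
  ker0_ratG_mul_right74 r β γ 1 y

theorem per_mul_ray74 (r : G K) (β : G K → ℂ) (y : G K) :
    per74 r β (y * r) = per74 r β y :=
  ker0_mul_ray_right74 r β 1 y

theorem continuous_per74 [LocallyCompactSpace (G K)] (r : G K)
    (hr : ∀ g : G K, r * g = g * r) (hfin : LocFin74 r) (β : G K → ℂ) (hc : Continuous β)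
    (hβ : HasCompactSupport β) : Continuous (per74 r β) :=
  continuous_ker0_right74 r hr hfin β hc hβ 1

theorem bounded_per74 (r : G K) (hr : ∀ g : G K, r * g = g * r) (hfin : LocFin74 r)
    (β : G K → ℂ) (hc : Continuous β) (hβ : HasCompactSupport β) :
    ∃ C : ℝ, ∀ y : G K, ‖per74 r β y‖ ≤ C := by
  obtain ⟨M, -, hM⟩ := norm_ker0_le74 r hr hfin β hc hβ {1} isCompact_singleton
  exact ⟨M, fun y => hM 1 rfl y⟩

/-- The periodisation is a bounded continuous automorphic function (`T3.IsAutFn`). -/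
theorem isAutFn_per74 [LocallyCompactSpace (G K)] (r : G K)
    (hr : ∀ g : G K, r * g = g * r) (hfin : LocFin74 r) (β : G K → ℂ) (hc : Continuous β)
    (hβ : HasCompactSupport β) : T3.IsAutFn K (per74 r β) where
  cont := continuous_per74 r hr hfin β hc hβ
  bdd := bounded_per74 r hr hfin β hc hβ
  left_inv := fun γ g => per_ratG_mul74 r β γ g

end Fermat.Agent.LT.T5.H74

end

end
-- ===== PACK-END LT/T5/H74/KerPer.lean

-- ===== PACK-BEGIN LT/T5/H800/TorusCount.lean
section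




/-!
# Row LT, tower T5, sub-leaf T5.02f2 `TorusCountC` (helper800), OFF-MAIN

`torusCountC_of800 : T1.AdeleLatticeC K → T1.AdNormC K → T5.H40.TorusCountC K`, the Prop of
`LT/T5/H40/HS0Core.lean` (helper40@08c177f1b, sha256 1e21981c997b) VERBATIM.

Proof.  `C = tsupport φ`, `Q = C C⁻¹` (compact).  If the triples `i = (a,b,m)`, `i' = (a',b',m')`
have non-zero terms `g, g'` for the same `x, y`, then `g' g⁻¹ = x⁻¹ n(u') δ n(u)⁻¹ x ∈ Q` with
`δ = d(a'/a, b'/b) r^{m'-m}`; trace and determinant of `g' g⁻¹` are those of `δ`.  So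
`j = i' / i` lies in
`Δ = {j | ∃ q ∈ Q, tr q = tr δ_j ∧ det q = det δ_j}`, which is FINITE and independent of `x, y`:
`‖det δ_j‖ = 2^k` bounds `k`; for fixed `k`, `r^k = c_k · 1`, `α + β ∈ c_k⁻¹ tr Q` and
`α β ∈ (det r^k)⁻¹ det Q` lie in compact sets, `K` is discrete in `𝔸_K`, and `α, β` are roots of
`X² - (α + β) X + α β`.
-/

set_option autoImplicit false

open IsDedekindDomain NumberField MeasureTheory
open scoped MatrixGroups ComplexConjugate Pointwise

noncomputable section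

namespace Fermat.Agent.LT.T5.H800

open Fermat.Agent.LT.H556.A0 Fermat.Agent.LT.T5 Fermat.Agent.LT.T5.H40

variable {K : Type} [Field K] [NumberField K]

/-! ## 1. `K` is discrete in `𝔸_K` -/

/-- Only finitely many elements of `K` lie in a compact subset of `𝔸_K`. -/
theorem finite_princ800 (hL : T1.AdeleLatticeC K) {Q : Set (Adl K)} (hQ : IsCompact Q) :
    {ξ : K | algebraMap K (Adl K) ξ ∈ Q}.Finite := by
  obtain ⟨hdisc, hclosed, -⟩ := hL
  have hc : IsCompact ((T1.princ K : Set (Adl K)) ∩ Q) := hQ.inter_left hclosed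
  have hd : DiscreteTopology ↥((T1.princ K : Set (Adl K)) ∩ Q) :=
    DiscreteTopology.of_subset hdisc Set.inter_subset_left
  have hfin : ((T1.princ K : Set (Adl K)) ∩ Q).Finite :=
    hc.finite (isDiscrete_iff_discreteTopology.mpr hd)
  have hpre : {ξ : K | algebraMap K (Adl K) ξ ∈ Q}
      = (algebraMap K (Adl K)) ⁻¹' ((T1.princ K : Set (Adl K)) ∩ Q) := by
    ext ξ
    simp only [Set.mem_ofPred_eq, Set.mem_preimage, Set.mem_inter_iff, SetLike.mem_coe]
    constructor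
    · intro h
      exact ⟨⟨ξ, rfl⟩, h⟩
    · intro h
      exact h.2
  rw [hpre]
  exact hfin.preimage (NumberField.AdeleRing.algebraMap_injective (𝓞 K) K).injOn

/-! ## 2. Trace and determinant -/

/-- The trace `GL₂(𝔸_K) → 𝔸_K`. -/
def trA800 (g : G K) : Adl K := Matrix.trace (g : Matrix (Fin 2) (Fin 2) (Adl K))

/-- The determinant `GL₂(𝔸_K) → 𝔸_K`. -/
def detA800 (g : G K) : Adl K := Matrix.det (g : Matrix (Fin 2) (Fin 2) (Adl K))

theorem continuous_trA800 : Continuous (trA800 : G K → Adl K) :=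
  Continuous.matrix_trace Units.continuous_val

theorem continuous_detA800 : Continuous (detA800 : G K → Adl K) :=
  Continuous.matrix_det Units.continuous_val

theorem detA800_mul (g h : G K) : detA800 (g * h) = detA800 g * detA800 h := by
  unfold detA800
  rw [Units.val_mul, Matrix.det_mul]

theorem detA800_eq (g : G K) :
    detA800 g = ((Matrix.GeneralLinearGroup.det g : (Adl K)ˣ) : Adl K) := rfl

theorem detA800_mul_inv (g : G K) : detA800 g * detA800 g⁻¹ = 1 := by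
  rw [← detA800_mul, mul_inv_cancel]
  unfold detA800
  rw [Units.val_one, Matrix.det_one]

theorem detA800_conj (x h : G K) : detA800 (x⁻¹ * h * x) = detA800 h := by
  rw [detA800_mul, detA800_mul]
  have := detA800_mul_inv x
  calc detA800 x⁻¹ * detA800 h * detA800 x
      = detA800 h * (detA800 x * detA800 x⁻¹) := by ring
    _ = detA800 h := by rw [this, mul_one]

theorem trA800_conj (x h : G K) : trA800 (x⁻¹ * h * x) = trA800 h := by
  unfold trA800
  rw [Units.val_mul, Units.val_mul]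
  exact Matrix.trace_units_conj' x _

theorem nd277_eq_detA800 (g : G K) : H277.nd277 g = T5.adNorm (detA800 g) := rfl

/-! ## 3. Unipotent elements -/

theorem unip_val800 (u : Adl K) :
    ((T3.unip K u : G K) : Matrix (Fin 2) (Fin 2) (Adl K)) = !![1, u; 0, 1] := rfl

theorem unip_inv_val800 (u : Adl K) :
    (((T3.unip K u)⁻¹ : G K) : Matrix (Fin 2) (Fin 2) (Adl K)) = !![1, -u; 0, 1] := rfl

theorem detA800_unip (u : Adl K) : detA800 (T3.unip K u) = 1 := by
  unfold detA800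
  rw [unip_val800, Matrix.det_fin_two_of]
  ring

theorem detA800_unip_inv (u : Adl K) : detA800 (T3.unip K u)⁻¹ = 1 := by
  unfold detA800
  rw [unip_inv_val800, Matrix.det_fin_two_of]
  ring

/-- Trace of `n(u') m n(u)⁻¹` for an upper triangular `m`. -/
theorem trA800_unip_mul (u u' : Adl K) (m : G K)
    (hm : (m : Matrix (Fin 2) (Fin 2) (Adl K)) 1 0 = 0) :
    trA800 (T3.unip K u' * m * (T3.unip K u)⁻¹) = trA800 m := by
  unfold trA800
  rw [Units.val_mul, Units.val_mul, unip_val800, unip_inv_val800]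
  simp only [Matrix.trace_fin_two, Matrix.mul_apply, Fin.sum_univ_two, Matrix.of_apply,
    Matrix.cons_val_zero, Matrix.cons_val_one, Matrix.cons_val', Matrix.cons_val_fin_one, hm]
  ring

theorem detA800_unip_mul (u u' : Adl K) (m : G K) :
    detA800 (T3.unip K u' * m * (T3.unip K u)⁻¹) = detA800 m := by
  rw [detA800_mul, detA800_mul, detA800_unip, detA800_unip_inv, one_mul, mul_one]

/-- An element which commutes with `n(1)` is upper triangular with equal diagonal entries. -/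
theorem entries_of_comm800 (z : G K) (hz : z * T3.unip K 1 = T3.unip K 1 * z) :
    (z : Matrix (Fin 2) (Fin 2) (Adl K)) 1 0 = 0 ∧
      (z : Matrix (Fin 2) (Fin 2) (Adl K)) 0 0 = (z : Matrix (Fin 2) (Fin 2) (Adl K)) 1 1 := by
  have h := congrArg (fun g : G K => (g : Matrix (Fin 2) (Fin 2) (Adl K))) hz
  simp only [Units.val_mul, unip_val800] at h
  have h00 := congrFun (congrFun h 0) 0
  have h01 := congrFun (congrFun h 0) 1
  simp only [Matrix.mul_apply, Fin.sum_univ_two, Matrix.of_apply, Matrix.cons_val_zero,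
    Matrix.cons_val_one, Matrix.cons_val', Matrix.cons_val_fin_one, mul_one, mul_zero,
    add_zero, one_mul] at h00 h01
  constructor
  · have : (z : Matrix (Fin 2) (Fin 2) (Adl K)) 0 0
        = (z : Matrix (Fin 2) (Fin 2) (Adl K)) 0 0 + (z : Matrix (Fin 2) (Fin 2) (Adl K)) 1 0 :=
      h00
    exact (left_eq_add.mp this)
  · have h2 : (z : Matrix (Fin 2) (Fin 2) (Adl K)) 0 0 + (z : Matrix (Fin 2) (Fin 2) (Adl K)) 0 1
        = (z : Matrix (Fin 2) (Fin 2) (Adl K)) 0 1 + (z : Matrix (Fin 2) (Fin 2) (Adl K)) 1 1 :=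
      h01
    rw [add_comm] at h2
    exact add_left_cancel h2

/-! ## 4. The torus elements `δ_j = d(α, β) r^k` -/

/-- `δ_j = d(α, β) r^k` for `j = (α, β, k)`. -/
def tor800 (r : G K) (j : Kˣ × Kˣ × ℤ) : G K := ratG (dRat K j.1 j.2.1) * r ^ j.2.2

theorem ratG_dRat_val800 (a b : Kˣ) :
    ((ratG (dRat K a b) : G K) : Matrix (Fin 2) (Fin 2) (Adl K))
      = !![algebraMap K (Adl K) a, 0; 0, algebraMap K (Adl K) b] := by
  ext i j
  fin_cases i <;> fin_cases j <;> simp [ratG, dRat, Matrix.GeneralLinearGroup.map]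

omit [NumberField K] in
theorem dRat_mul800 (a b a' b' : Kˣ) : dRat K (a * a') (b * b') = dRat K a b * dRat K a' b' := by
  apply Units.ext
  ext i j
  fin_cases i <;> fin_cases j <;> simp [dRat, Matrix.mul_apply, Fin.sum_univ_two]

omit [NumberField K] in
theorem dRat_div800 (a b a' b' : Kˣ) :
    dRat K a' b' * (dRat K a b)⁻¹ = dRat K (a' / a) (b' / b) := by
  rw [mul_inv_eq_iff_eq_mul, ← dRat_mul800, div_mul_cancel, div_mul_cancel]

theorem zpow_comm_unip800 {r : G K} (hr : IsRayGen r) (k : ℤ) :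
    r ^ k * T3.unip K 1 = T3.unip K 1 * r ^ k :=
  H277.ray_zpow_comm277 hr _ k

/-- `δ_j` is upper triangular. -/
theorem tor800_lower {r : G K} (hr : IsRayGen r) (j : Kˣ × Kˣ × ℤ) :
    (tor800 r j : Matrix (Fin 2) (Fin 2) (Adl K)) 1 0 = 0 := by
  obtain ⟨h10, -⟩ := entries_of_comm800 (r ^ j.2.2) (zpow_comm_unip800 hr j.2.2)
  unfold tor800
  rw [Units.val_mul, ratG_dRat_val800]
  simp only [Matrix.mul_apply, Fin.sum_univ_two, Matrix.of_apply, Matrix.cons_val_zero,
    Matrix.cons_val_one, Matrix.cons_val', Matrix.cons_val_fin_one, h10]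
  ring

/-- The trace of `δ_j` is `(α + β) c_k`, `c_k` the scalar of `r^k`. -/
theorem trA800_tor {r : G K} (hr : IsRayGen r) (j : Kˣ × Kˣ × ℤ) :
    trA800 (tor800 r j) = algebraMap K (Adl K) ((j.1 : K) + (j.2.1 : K))
      * ((r ^ j.2.2 : G K) : Matrix (Fin 2) (Fin 2) (Adl K)) 0 0 := by
  obtain ⟨h10, h00⟩ := entries_of_comm800 (r ^ j.2.2) (zpow_comm_unip800 hr j.2.2)
  unfold tor800 trA800
  rw [Units.val_mul, ratG_dRat_val800]
  simp only [Matrix.trace_fin_two, Matrix.mul_apply, Fin.sum_univ_two, Matrix.of_apply,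
    Matrix.cons_val_zero, Matrix.cons_val_one, Matrix.cons_val', Matrix.cons_val_fin_one, h10,
    ← h00, map_add]
  ring

/-- The determinant of `δ_j` is `α β det(r^k)`. -/
theorem detA800_tor (r : G K) (j : Kˣ × Kˣ × ℤ) :
    detA800 (tor800 r j) = algebraMap K (Adl K) ((j.1 : K) * (j.2.1 : K))
      * detA800 (r ^ j.2.2) := by
  unfold tor800
  rw [detA800_mul]
  congr 1
  unfold detA800
  rw [ratG_dRat_val800, Matrix.det_fin_two_of, map_mul]
  ring

/-- The scalar of `r^k` is invertible. -/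
theorem scalar_mul_inv800 {r : G K} (hr : IsRayGen r) (k : ℤ) :
    ((r ^ k : G K) : Matrix (Fin 2) (Fin 2) (Adl K)) 0 0
      * (((r ^ k : G K) : Matrix (Fin 2) (Fin 2) (Adl K)) 0 0 * detA800 (r ^ k)⁻¹) = 1 := by
  obtain ⟨h10, h00⟩ := entries_of_comm800 (r ^ k) (zpow_comm_unip800 hr k)
  have hd : detA800 (r ^ k) = ((r ^ k : G K) : Matrix (Fin 2) (Fin 2) (Adl K)) 0 0
      * ((r ^ k : G K) : Matrix (Fin 2) (Fin 2) (Adl K)) 0 0 := by
    unfold detA800
    rw [Matrix.det_fin_two, h10, ← h00]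
    ring
  rw [← mul_assoc, ← hd]
  exact detA800_mul_inv _

theorem nd277_tor800 (hN : T1.AdNormC K) {r : G K} (hr : IsRayGen r) (j : Kˣ × Kˣ × ℤ) :
    H277.nd277 (tor800 r j) = (2 : ℝ) ^ j.2.2 :=
  H873.nd_lat873 hN hr (dRat K j.1 j.2.1, j.2.2)

/-! ## 5. The quotient of two non-zero terms -/

/-- The term of the triple `i` at `(x, y, u)`. -/
def term800 (r x y : G K) (u : Adl K) (i : Kˣ × Kˣ × ℤ) : G K :=
  x⁻¹ * T3.unip K u * ratG (dRat K i.1 i.2.1) * y * r ^ i.2.2

/-- `g' g⁻¹ = x⁻¹ (n(u') δ n(u)⁻¹) x` with `δ = d(a'/a, b'/b) r^{m'-m}`. -/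
theorem term_mul_inv800 {r : G K} (hr : IsRayGen r) (x y : G K) (u u' : Adl K)
    (i i' : Kˣ × Kˣ × ℤ) :
    term800 r x y u' i' * (term800 r x y u i)⁻¹
      = x⁻¹ * (T3.unip K u' * tor800 r (i'.1 / i.1, i'.2.1 / i.2.1, i'.2.2 - i.2.2)
          * (T3.unip K u)⁻¹) * x := by
  have hZ : ∀ g : G K, r ^ (i'.2.2 - i.2.2) * g = g * r ^ (i'.2.2 - i.2.2) :=
    fun g => H277.ray_zpow_comm277 hr g _
  have e1 : y * r ^ i'.2.2 * (y * r ^ i.2.2)⁻¹ = r ^ (i'.2.2 - i.2.2) := by
    rw [mul_inv_rev, ← mul_assoc, mul_assoc y, ← zpow_sub, ← hZ y, mul_assoc, mul_inv_cancel,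
      mul_one]
  unfold term800 tor800
  simp only []
  rw [← dRat_div800, map_mul, map_inv]
  calc x⁻¹ * T3.unip K u' * ratG (dRat K i'.1 i'.2.1) * y * r ^ i'.2.2
        * (x⁻¹ * T3.unip K u * ratG (dRat K i.1 i.2.1) * y * r ^ i.2.2)⁻¹
      = x⁻¹ * T3.unip K u' * ratG (dRat K i'.1 i'.2.1) * (y * r ^ i'.2.2 * (y * r ^ i.2.2)⁻¹)
          * (ratG (dRat K i.1 i.2.1))⁻¹ * (T3.unip K u)⁻¹ * x := by group
    _ = x⁻¹ * T3.unip K u' * ratG (dRat K i'.1 i'.2.1) * r ^ (i'.2.2 - i.2.2)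
          * (ratG (dRat K i.1 i.2.1))⁻¹ * (T3.unip K u)⁻¹ * x := by rw [e1]
    _ = x⁻¹ * T3.unip K u' * ratG (dRat K i'.1 i'.2.1)
          * ((ratG (dRat K i.1 i.2.1))⁻¹ * r ^ (i'.2.2 - i.2.2)) * (T3.unip K u)⁻¹ * x := by
        rw [← hZ (ratG (dRat K i.1 i.2.1))⁻¹]
        group
    _ = x⁻¹ * (T3.unip K u' * (ratG (dRat K i'.1 i'.2.1) * (ratG (dRat K i.1 i.2.1))⁻¹
          * r ^ (i'.2.2 - i.2.2)) * (T3.unip K u)⁻¹) * x := by group

/-! ## 6. The finite set of quotients -/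

omit [NumberField K] in
/-- A quadratic equation has finitely many roots. -/
theorem finite_quad800 (s p : K) : {a : K | a * a - s * a + p = 0}.Finite := by
  rcases Set.eq_empty_or_nonempty {a : K | a * a - s * a + p = 0} with h | ⟨a₀, ha₀⟩
  · rw [h]
    exact Set.finite_empty
  · refine (Set.toFinite {a₀, s - a₀}).subset ?_
    intro a ha
    have h1 : a * a - s * a + p = 0 := ha
    have h2 : a₀ * a₀ - s * a₀ + p = 0 := ha₀
    have h3 : (a - a₀) * (a - (s - a₀)) = 0 := by linear_combination h1 - h2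
    rcases mul_eq_zero.mp h3 with h | h
    · left
      exact sub_eq_zero.mp h
    · right
      exact sub_eq_zero.mp h

/-- The triples `j = (α, β, k)` such that `δ_j` has the trace and the determinant of an element
of `Q`. -/
def quot800 (r : G K) (Q : Set (G K)) : Set (Kˣ × Kˣ × ℤ) :=
  {j | ∃ q ∈ Q, trA800 q = trA800 (tor800 r j) ∧ detA800 q = detA800 (tor800 r j)}

/-- The units of `K` which are roots of `X² - s X + p`, `s ∈ F₁`, `p ∈ F₂`. -/
def roots800 (F₁ F₂ : Set K) : Set Kˣ :=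
  {a | ∃ s ∈ F₁, ∃ p ∈ F₂, (a : K) * (a : K) - s * (a : K) + p = 0}

omit [NumberField K] in
theorem finite_roots800 {F₁ F₂ : Set K} (h₁ : F₁.Finite) (h₂ : F₂.Finite) :
    (roots800 F₁ F₂).Finite := by
  have hfin : (⋃ s ∈ F₁, ⋃ p ∈ F₂, {a : K | a * a - s * a + p = 0}).Finite :=
    h₁.biUnion fun s _ => h₂.biUnion fun p _ => finite_quad800 s p
  refine (hfin.preimage (Units.val_injective (α := K)).injOn).subset ?_
  rintro a ⟨s, hs, p, hp, h⟩
  simp only [Set.mem_preimage, Set.mem_iUnion, Set.mem_ofPred_eq, exists_prop]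
  exact ⟨s, hs, p, hp, h⟩

/-- The slice of `quot800` at `k` is contained in `roots × roots`. -/
theorem quot_slice800 {r : G K} (hr : IsRayGen r) (Q : Set (G K)) (k : ℤ)
    {j : Kˣ × Kˣ × ℤ} (hj : j ∈ quot800 r Q) (hk : j.2.2 = k) :
    j.1 ∈ roots800
        {ξ : K | algebraMap K (Adl K) ξ ∈ (fun q : G K => trA800 q
          * (((r ^ k : G K) : Matrix (Fin 2) (Fin 2) (Adl K)) 0 0 * detA800 (r ^ k)⁻¹)) '' Q}
        {ξ : K | algebraMap K (Adl K) ξ ∈ (fun q : G K => detA800 q * detA800 (r ^ k)⁻¹) '' Q} ∧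
      j.2.1 ∈ roots800
        {ξ : K | algebraMap K (Adl K) ξ ∈ (fun q : G K => trA800 q
          * (((r ^ k : G K) : Matrix (Fin 2) (Fin 2) (Adl K)) 0 0 * detA800 (r ^ k)⁻¹)) '' Q}
        {ξ : K | algebraMap K (Adl K) ξ ∈ (fun q : G K => detA800 q * detA800 (r ^ k)⁻¹) '' Q} := by
  obtain ⟨q, hq, htr, hdet⟩ := hj
  subst hk
  have hs : algebraMap K (Adl K) ((j.1 : K) + (j.2.1 : K)) = trA800 q
      * (((r ^ j.2.2 : G K) : Matrix (Fin 2) (Fin 2) (Adl K)) 0 0 * detA800 (r ^ j.2.2)⁻¹) := by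
    rw [htr, trA800_tor hr j, mul_assoc, scalar_mul_inv800 hr, mul_one]
  have hp : algebraMap K (Adl K) ((j.1 : K) * (j.2.1 : K))
      = detA800 q * detA800 (r ^ j.2.2)⁻¹ := by
    rw [hdet, detA800_tor r j, mul_assoc, detA800_mul_inv, mul_one]
  have hs' : ((j.1 : K) + (j.2.1 : K)) ∈ {ξ : K | algebraMap K (Adl K) ξ ∈
      (fun q : G K => trA800 q * (((r ^ j.2.2 : G K) : Matrix (Fin 2) (Fin 2) (Adl K)) 0 0
        * detA800 (r ^ j.2.2)⁻¹)) '' Q} := ⟨q, hq, hs.symm⟩
  have hp' : ((j.1 : K) * (j.2.1 : K)) ∈ {ξ : K | algebraMap K (Adl K) ξ ∈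
      (fun q : G K => detA800 q * detA800 (r ^ j.2.2)⁻¹) '' Q} := ⟨q, hq, hp.symm⟩
  exact ⟨⟨_, hs', _, hp', by ring⟩, ⟨_, hs', _, hp', by ring⟩⟩

/-- **The set of quotients is finite.** -/
theorem finite_quot800 (hL : T1.AdeleLatticeC K) (hN : T1.AdNormC K) {r : G K}
    (hr : IsRayGen r) {Q : Set (G K)} (hQ : IsCompact Q) : (quot800 r Q).Finite := by
  rcases Q.eq_empty_or_nonempty with rfl | hne
  · have : quot800 r (∅ : Set (G K)) = ∅ := by
      ext j
      simp [quot800]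
    rw [this]
    exact Set.finite_empty
  have hcont := H873.continuous_nd873 (K := K) hN
  obtain ⟨g₀, hg₀, hmin⟩ := hQ.exists_isMinOn hne hcont.continuousOn
  obtain ⟨g₁, hg₁, hmax⟩ := hQ.exists_isMaxOn hne hcont.continuousOn
  have ha : 0 < H277.nd277 g₀ := H277.nd277_pos hN g₀
  have hb : 0 < H277.nd277 g₁ := H277.nd277_pos hN g₁
  have hM : (Set.Icc (Int.clog 2 (H277.nd277 g₀)) (Int.log 2 (H277.nd277 g₁))).Finite :=
    Set.finite_Icc _ _
  -- the slices
  have hslice : ∀ k : ℤ, (roots800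
        {ξ : K | algebraMap K (Adl K) ξ ∈ (fun q : G K => trA800 q
          * (((r ^ k : G K) : Matrix (Fin 2) (Fin 2) (Adl K)) 0 0 * detA800 (r ^ k)⁻¹)) '' Q}
        {ξ : K | algebraMap K (Adl K) ξ ∈
          (fun q : G K => detA800 q * detA800 (r ^ k)⁻¹) '' Q}).Finite := by
    intro k
    refine finite_roots800 (finite_princ800 hL ?_) (finite_princ800 hL ?_)
    · exact hQ.image (continuous_trA800.mul continuous_const)
    · exact hQ.image (continuous_detA800.mul continuous_const)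
  refine (Set.Finite.biUnion hM (fun k _ =>
    (hslice k).prod ((hslice k).prod (Set.finite_singleton k)))).subset ?_
  intro j hj
  obtain ⟨q, hq, htr, hdet⟩ := hj
  have h2 : H277.nd277 q = (2 : ℝ) ^ j.2.2 := by
    rw [nd277_eq_detA800, hdet, ← nd277_eq_detA800, nd277_tor800 hN hr]
  have hlo : H277.nd277 g₀ ≤ ((2 : ℕ) : ℝ) ^ j.2.2 := by
    have := hmin hq
    simp only [Set.mem_ofPred_eq] at this
    rw [h2] at this
    exact_mod_cast this
  have hhi : ((2 : ℕ) : ℝ) ^ j.2.2 ≤ H277.nd277 g₁ := by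
    have := hmax hq
    simp only [Set.mem_ofPred_eq] at this
    rw [h2] at this
    exact_mod_cast this
  have h3 : Int.clog 2 (H277.nd277 g₀) ≤ j.2.2 :=
    (Int.le_zpow_iff_clog_le (by norm_num) ha).mp hlo
  have h4 : j.2.2 ≤ Int.log 2 (H277.nd277 g₁) :=
    (Int.zpow_le_iff_le_log (by norm_num) hb).mp hhi
  obtain ⟨hα, hβ⟩ := quot_slice800 hr Q j.2.2 ⟨q, hq, htr, hdet⟩ rfl
  simp only [Set.mem_iUnion, Set.mem_prod, Set.mem_singleton_iff, Set.mem_Icc, exists_prop]
  exact ⟨j.2.2, ⟨h3, h4⟩, hα, hβ, rfl⟩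

/-! ## 7. The leaf -/

/-- **Sub-leaf T5.02f2 `TorusCountC`** (tower T5, cut of helper40). -/
theorem torusCountC_of800 (hL : T1.AdeleLatticeC K) (hN : T1.AdNormC K) : TorusCountC K := by
  intro r hr φ _ hφs
  classical
  -- the compact set `Q = C C⁻¹`
  have hC : IsCompact (tsupport φ) := hφs
  have hQ : IsCompact ((fun p : G K × G K => p.1 * p.2⁻¹) '' (tsupport φ ×ˢ tsupport φ)) :=
    (hC.prod hC).image (continuous_fst.mul continuous_snd.inv)
  set Q : Set (G K) := (fun p : G K × G K => p.1 * p.2⁻¹) '' (tsupport φ ×ˢ tsupport φ)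
    with hQdef
  have hΔ : (quot800 r Q).Finite := finite_quot800 hL hN hr hQ
  have key : ∀ (x y : G K) (i i' : Kˣ × Kˣ × ℤ) (u u' : Adl K),
      φ (term800 r x y u i) ≠ 0 → φ (term800 r x y u' i') ≠ 0 →
        (i'.1 / i.1, i'.2.1 / i.2.1, i'.2.2 - i.2.2) ∈ quot800 r Q := by
    intro x y i i' u u' h h'
    have hg : term800 r x y u i ∈ tsupport φ := subset_tsupport φ h
    have hg' : term800 r x y u' i' ∈ tsupport φ := subset_tsupport φ h'
    refine ⟨term800 r x y u' i' * (term800 r x y u i)⁻¹, ⟨(_, _), ⟨hg', hg⟩, rfl⟩, ?_, ?_⟩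
    · rw [term_mul_inv800 hr, trA800_conj, trA800_unip_mul _ _ _ (tor800_lower hr _)]
    · rw [term_mul_inv800 hr, detA800_conj, detA800_unip_mul]
  refine ⟨hΔ.toFinset.card, fun x y => ?_⟩
  by_cases hI : ∃ (i : Kˣ × Kˣ × ℤ) (u : Adl K), φ (term800 r x y u i) ≠ 0
  · obtain ⟨i₀, u₀, h₀⟩ := hI
    refine ⟨hΔ.toFinset.image (fun j : Kˣ × Kˣ × ℤ => (j.1 * i₀.1, j.2.1 * i₀.2.1,
      j.2.2 + i₀.2.2)), Finset.card_image_le, fun i hi u => ?_⟩
    by_contra hne
    apply hi
    rw [Finset.mem_image]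
    refine ⟨(i.1 / i₀.1, i.2.1 / i₀.2.1, i.2.2 - i₀.2.2), ?_, ?_⟩
    · rw [Set.Finite.mem_toFinset]
      exact key x y i₀ i u₀ u h₀ hne
    · simp only [div_mul_cancel, sub_add_cancel]
  · refine ⟨∅, by simp, fun i _ u => ?_⟩
    by_contra hne
    exact hI ⟨i, u, hne⟩

/-- The same from the output of tower T1. -/
theorem torusCountC_of_T1Out800 (h : T1.T1Out K) : TorusCountC K :=
  torusCountC_of800 h.adeleLattice h.adNorm

end Fermat.Agent.LT.T5.H800

end

end
-- ===== PACK-END LT/T5/H800/TorusCount.lean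

-- ===== PACK-BEGIN LT/T7/H62/RigidStrip.lean
section




/-!
# Row LT, tower T7, NODE T7.14 `RigidC` -- SUB-SPEC, LEVEL 4 = cut of `StripC`
(sub-architect helper62)

OFF-MAIN.  Definitions, frozen Props, PROVED assembly.  No `sorry`, nothing assumed.
-/

set_option autoImplicit false

open AutomorphicForm IsDedekindDomain NumberField Filter Topology MeasureTheory
open scoped ComplexConjugate

noncomputable section

namespace Fermat.Agent.LT.T7.Rigid

open Fermat.Agent.LT.H556 Fermat.Agent.LT.H556.A0 Fermat.Agent.LT.T7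

attribute [local instance] Fermat.Agent.LT.T5.instMeasurableSpaceG

variable {K : Type} [Field K] [NumberField K]

/-! ## Vocabulary -/

/-- `diag(y, 1)` for an idele `y`. -/
def dgA (y : (Adl K)ˣ) : G K :=
  ⟨!![(y : Adl K), 0; 0, 1], !![((y⁻¹ : (Adl K)ˣ) : Adl K), 0; 0, 1],
    by ext i j; fin_cases i <;> fin_cases j <;> simp [Matrix.mul_apply, Fin.sum_univ_two],
    by ext i j; fin_cases i <;> fin_cases j <;> simp [Matrix.mul_apply, Fin.sum_univ_two]⟩

/-- The Whittaker function of `φ` for the character `ψ`: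
`W_φ(g) = ∫_D φ(n(x) g) ψ̄(x) dν(x)`, `D` a fundamental domain of `K` in `𝔸_K`. -/
def whit {m : MeasurableSpace (Adl K)} (ψ : AddChar (Adl K) Circle) (ν : Measure (Adl K))
    (D : Set (Adl K)) (φ : G K → ℂ) (g : G K) : ℂ :=
  ∫ x in D, φ (Fermat.Agent.LT.T3.unip K x * g) * conj ((ψ x : Circle) : ℂ) ∂ν

/-- The exponent of the idele `y` at the finite place `v`: `|y_v|_v = q_v^{-ordI v y}`. -/
def ordI (v : HeightOneSpectrum (𝓞 K)) (y : (Adl K)ˣ) : ℤ :=
  -(WithZero.log (Valued.v ((y : Adl K).2 v)))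

/-- The local factor of the Whittaker function at a good place:
`q^{-m/2} s_m(a)` for `m ≥ 0`, and `0` for `m < 0`. -/
def locFactor (v : HeightOneSpectrum (𝓞 K)) (a : ℂ) (m : ℤ) : ℂ :=
  if 0 ≤ m then ((nv v ^ (-(m : ℝ) / 2) : ℝ) : ℂ) * hpoly a m.toNat else 0

/-- `K₀(t) = ∫₀^∞ exp(-t cosh u) du`, the modified Bessel function of the second kind of
order `0`. -/
def besselK0 (t : ℝ) : ℝ := ∫ u in Set.Ioi (0 : ℝ), Real.exp (-t * Real.cosh u)

/-- The archimedean profile `∏_w r_w K₀(c_w r_w)`, `r_w = |y_w|`. -/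
def archProfile (c : InfinitePlace K → ℝ) (y : (Adl K)ˣ) : ℝ :=
  ∏ w : InfinitePlace K, ‖(y : Adl K).1 w‖ * besselK0 (c w * ‖(y : Adl K).1 w‖)

/-- The localisation condition at `S`: `y_v ∈ y₀_v (1 + 𝔪 𝒪_v)` for every `v ∈ S`. -/
def InCell (S : Finset (HeightOneSpectrum (𝓞 K))) (𝔪 : Ideal (𝓞 K)) (y₀ y : (Adl K)ˣ) : Prop :=
  ∀ v ∈ S, ∃ u ∈ idealClosure 𝔪 v, (y : Adl K).2 v = (y₀ : Adl K).2 v * (1 + u)

open Classical in
/-- The model Kirillov function:
`archProfile c y · 1[y ∈ cell] · ∏_{v ∉ S} q_v^{-m_v/2} s_{m_v}(a_v)`. -/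
def kir (a : HeightOneSpectrum (𝓞 K) → ℂ) (S : Finset (HeightOneSpectrum (𝓞 K)))
    (𝔪 : Ideal (𝓞 K)) (y₀ : (Adl K)ˣ) (c : InfinitePlace K → ℝ) (y : (Adl K)ˣ) : ℂ :=
  ((archProfile c y : ℝ) : ℂ) * (if InCell S 𝔪 y₀ y then 1 else 0)
    * ∏ᶠ v : HeightOneSpectrum (𝓞 K), (if v ∈ S then 1 else locFactor v (a v) (ordI v y))

/-- The archimedean weight
`∫_{r ∈ (0,∞)^{places}, ∏ r_w^{[K_w:ℝ]} ≥ T} ∏_w K₀(c_w r_w)² ∏_w dr_w / r_w`. -/
def archG (c : InfinitePlace K → ℝ) (T : ℝ) : ℝ :=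
  ∫ r : InfinitePlace K → ℝ in
      {r | (∀ w, 0 < r w) ∧ T ≤ ∏ w : InfinitePlace K, r w ^ w.mult},
    ∏ w : InfinitePlace K, besselK0 (c w * r w) ^ 2 / r w

/-- `φ` is right invariant under `U(𝔪)`. -/
def IsLevelInv (𝔪 : Ideal (𝓞 K)) (φ : G K → ℂ) : Prop :=
  ∀ u : G K, InLevelGroup 𝔪 u → ∀ g : G K, φ (g * u) = φ g

/-- `ψ` is unramified at every place outside `S`. -/
def IsUnramOutside (ψ : AddChar (Adl K) Circle) (S : Finset (HeightOneSpectrum (𝓞 K))) :
    Prop :=
  ∀ v : HeightOneSpectrum (𝓞 K), v ∉ S →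
    (∀ x : Adl K, Fermat.Agent.LT.T3.IsLocAdeleAt K v x →
      x.2 v ∈ v.adicCompletionIntegers K → ψ x = 1) ∧
    ∃ x : Adl K, Fermat.Agent.LT.T3.IsLocAdeleAt K v x ∧
      Valued.v (x.2 v) = WithZero.exp (1 : ℤ) ∧ ψ x ≠ 1

/-- The prime factors of `𝔪` are exactly the places of `S`. -/
def IsSupp (S : Finset (HeightOneSpectrum (𝓞 K))) (𝔪 : Ideal (𝓞 K)) : Prop :=
  𝔪 ≠ ⊥ ∧ ∀ v : HeightOneSpectrum (𝓞 K), v.asIdeal ∣ 𝔪 ↔ v ∈ S

/-! ## The Props of level 4 -/

variable (K)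

/-- **LEAF FOLD-WHIT** (folding over `B(K) \ GL₂(K)`, Haar measure in Iwasawa coordinates,
Parseval on `K \ 𝔸_K`, unfolding of `Kˣ`).  For a frame `(μ, F)`, a non-degenerate standard
character `ψ`, Haar measures `ν` of `𝔸_K` (fundamental domain `D`) and `τ` of the ideles and an
ideal `𝔪 ≠ 0` there is `c₁ > 0` such that for all `S`-forms `φ₁, φ₁'` right invariant under
`U(𝔪)` and all `Y > 0`:
`∫_F φ₁ φ̄₁' · cnt 𝔪 Y dμ = c₁ ∫_{|y| ≥ Y} W₁(a(y)) W̄₁'(a(y)) |y|⁻¹ dτ(y)`. -/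
def FoldWhitC : Prop :=
  letI : MeasurableSpace (Adl K) := borel (Adl K)
  letI : MeasurableSpace (Adl K)ˣ := borel (Adl K)ˣ
  TotCplx K →
  ∀ (μ : Measure (G K)) (F : Set (G K)), Fermat.Agent.LT.T5.IsFrame μ F →
  ∀ ψ : AddChar (Adl K) Circle, Fermat.Agent.LT.T3.IsStdChar K ψ →
    Fermat.Agent.LT.T3.IsNonDeg K ψ →
  ∀ (ν : Measure (Adl K)) (D : Set (Adl K)), ν.IsAddHaarMeasure → MeasurableSet D →
    IsAddFundamentalDomain ((algebraMap K (Adl K)).toAddMonoidHom.range) D ν → ν D < ⊤ →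
  ∀ τ : Measure (Adl K)ˣ, τ.IsHaarMeasure →
  ∀ (S : Finset (HeightOneSpectrum (𝓞 K))) (𝔪 : Ideal (𝓞 K)), IsSupp S 𝔪 →
    ∃ c₁ : ℝ, 0 < c₁ ∧
      ∀ (π π' : HeckeEigensystem K ℂ) (φ₁ φ₁' : G K → ℂ),
        IsSForm π S φ₁ → IsSForm π' S φ₁' → IsLevelInv 𝔪 φ₁ → IsLevelInv 𝔪 φ₁' →
        ∀ Y : ℝ, 0 < Y →
          ∫ g in F, φ₁ g * conj (φ₁' g) * (((cnt 𝔪 Y g : ℕ) : ℝ) : ℂ) ∂μ
            = (c₁ : ℂ) * ∫ y in {y : (Adl K)ˣ | Y ≤ Fermat.Agent.LT.T5.adNorm (y : Adl K)},
                whit ψ ν D φ₁ (dgA y) * conj (whit ψ ν D φ₁' (dgA y))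
                  * (((Fermat.Agent.LT.T5.adNorm (y : Adl K))⁻¹ : ℝ) : ℂ) ∂τ

/-- **NODE WHIT-FORM** (localisation at `S` + Hecke recursion + archimedean uniqueness).  For
forms `φ, φ'` as in A0 and a finite set `S` containing the bad places of both and the places
where `ψ` is ramified: there are `S`-forms `φ₁` of `π` (nonzero), `φ₁'` of `π'` (equal to `φ₁` if
`φ = φ'`), right invariant under `U(𝔪)`, whose Whittaker functions on the torus are non-zero
multiples of the model Kirillov functions `kir` (same cell, same archimedean constants). -/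
def WhitFormC : Prop :=
  letI : MeasurableSpace (Adl K) := borel (Adl K)
  TotCplx K →
  ∀ ψ : AddChar (Adl K) Circle, Fermat.Agent.LT.T3.IsStdChar K ψ →
    Fermat.Agent.LT.T3.IsNonDeg K ψ →
  ∀ (ν : Measure (Adl K)) (D : Set (Adl K)), ν.IsAddHaarMeasure → MeasurableSet D →
    IsAddFundamentalDomain ((algebraMap K (Adl K)).toAddMonoidHom.range) D ν → ν D < ⊤ →
  ∀ (π π' : HeckeEigensystem K ℂ) (φ φ' : G K → ℂ),
    IsSph0CuspFormFor π φ → IsSph0CuspFormFor π' φ' →
    ∀ S : Finset (HeightOneSpectrum (𝓞 K)), IsUnramOutside ψ S →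
      IsGoodOutside π S → IsGoodOutside π' S →
      ∃ (φ₁ φ₁' : G K → ℂ) (𝔪 : Ideal (𝓞 K)) (y₀ : (Adl K)ˣ) (c : InfinitePlace K → ℝ)
        (w₀ w₀' : ℂ),
        IsSForm π S φ₁ ∧ IsSForm π' S φ₁' ∧ (∃ g : G K, φ₁ g ≠ 0) ∧ (φ = φ' → φ₁ = φ₁') ∧
        IsSupp S 𝔪 ∧ IsLevelInv 𝔪 φ₁ ∧ IsLevelInv 𝔪 φ₁' ∧ (∀ w, 0 < c w) ∧
        w₀ ≠ 0 ∧ w₀' ≠ 0 ∧
        ∀ y : (Adl K)ˣ,
          whit ψ ν D φ₁ (dgA y) = w₀ * kir π.a S 𝔪 y₀ c y ∧
          whit ψ ν D φ₁' (dgA y) = w₀' * kir π'.a S 𝔪 y₀ c y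

/-- **LEAF IDELE-SUM** (Haar measure of the ideles = archimedean Haar measure × counting
measure on the ideals).  The integral of a product of two model Kirillov functions over
`|y| ≥ Y` is the smoothed sum with the archimedean weight `archG`:
`∫_{|y| ≥ Y} kir_a(y) conj kir_{a'}(y) |y|⁻¹ dτ(y)
   = c₂ ∑_{𝔞 prime to S} c(𝔞) c̄'(𝔞) archG c (Y N𝔞 / t₀)`. -/
def IdeleSumC : Prop :=
  letI : MeasurableSpace (Adl K)ˣ := borel (Adl K)ˣ
  TotCplx K →
  ∀ τ : Measure (Adl K)ˣ, τ.IsHaarMeasure →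
  ∀ (S : Finset (HeightOneSpectrum (𝓞 K))) (𝔪 : Ideal (𝓞 K)) (y₀ : (Adl K)ˣ)
    (c : InfinitePlace K → ℝ), IsSupp S 𝔪 → (∀ w, 0 < c w) →
    ∃ c₂ t₀ : ℝ, 0 < c₂ ∧ 0 < t₀ ∧
      ∀ a a' : HeightOneSpectrum (𝓞 K) → ℂ,
        (∀ v : HeightOneSpectrum (𝓞 K), v ∉ S → ‖a v‖ ≤ 2 ∧ ‖a' v‖ ≤ 2) →
        ∀ Y : ℝ, 0 < Y →
          ∫ y in {y : (Adl K)ˣ | Y ≤ Fermat.Agent.LT.T5.adNorm (y : Adl K)},
              kir a S 𝔪 y₀ c y * conj (kir a' S 𝔪 y₀ c y)
                * (((Fermat.Agent.LT.T5.adNorm (y : Adl K))⁻¹ : ℝ) : ℂ) ∂τ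
            = (c₂ : ℂ) * sSum (coef2 a a' (S : Set (HeightOneSpectrum (𝓞 K))))
                (fun T => archG c (T / t₀)) Y

/-- **LEAF WEIGHT** (Mathlib only; `K₀(t) ≤ C (1 + |log t|) e^{-t}`).  The archimedean weight
is a weight. -/
def WeightC : Prop :=
  TotCplx K →
  ∀ (c : InfinitePlace K → ℝ) (t₀ : ℝ), (∀ w, 0 < c w) → 0 < t₀ →
    IsWeight (fun T => archG c (T / t₀))

/-- `StripC` for the finite sets `S` containing a fixed finite set `T₀` (the places where the
additive character is ramified). -/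
def StripOnC (T₀ : Finset (HeightOneSpectrum (𝓞 K))) : Prop :=
  TotCplx K →
  ∀ (μ : Measure (G K)) (F : Set (G K)), Fermat.Agent.LT.T5.IsFrame μ F →
    ∀ (π π' : HeckeEigensystem K ℂ) (φ φ' : G K → ℂ),
      IsSph0CuspFormFor π φ → IsSph0CuspFormFor π' φ' →
      ∀ S : Finset (HeightOneSpectrum (𝓞 K)), T₀ ⊆ S → IsGoodOutside π S →
        IsGoodOutside π' S →
        ∃ (φ₁ φ₁' : G K → ℂ) (𝔪 : Ideal (𝓞 K)) (G₀ : ℝ → ℝ) (c : ℂ),
          IsSForm π S φ₁ ∧ IsSForm π' S φ₁' ∧ (∃ g : G K, φ₁ g ≠ 0) ∧ (φ = φ' → φ₁ = φ₁') ∧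
          𝔪 ≠ ⊥ ∧ IsWeight G₀ ∧ c ≠ 0 ∧
          ∀ Y : ℝ, 0 < Y →
            ∫ g in F, φ₁ g * conj (φ₁' g) * (((cnt 𝔪 Y g : ℕ) : ℝ) : ℂ) ∂μ
              = c * sSum (coef2 π.a π'.a (S : Set (HeightOneSpectrum (𝓞 K)))) G₀ Y

/-! ## The assembly -/

variable {K}

theorem IsUnramOutside.mono {ψ : AddChar (Adl K) Circle}
    {S S₁ : Finset (HeightOneSpectrum (𝓞 K))} (h : IsUnramOutside ψ S) (hSS : S ⊆ S₁) :
    IsUnramOutside ψ S₁ :=
  fun v hv => h v (fun hvS => hv (hSS hvS))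

/-- **Assembly of level 4**: `StripOnC` from `FoldWhitC`, `WhitFormC`, `IdeleSumC`, `WeightC`
and the existence of the additive data. -/
theorem stripOnC_of
    (hψ : ∃ ψ : AddChar (Adl K) Circle, Fermat.Agent.LT.T3.IsStdChar K ψ ∧
      Fermat.Agent.LT.T3.IsNonDeg K ψ ∧ Fermat.Agent.LT.T3.IsUnramAE K ψ)
    (hν : letI : MeasurableSpace (Adl K) := borel (Adl K)
      ∃ (ν : Measure (Adl K)) (D : Set (Adl K)), ν.IsAddHaarMeasure ∧ MeasurableSet D ∧
        IsAddFundamentalDomain ((algebraMap K (Adl K)).toAddMonoidHom.range) D ν ∧ ν D < ⊤)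
    (hτ : letI : MeasurableSpace (Adl K)ˣ := borel (Adl K)ˣ
      ∃ τ : Measure (Adl K)ˣ, τ.IsHaarMeasure)
    (hFW : FoldWhitC K) (hWF : WhitFormC K) (hIS : IdeleSumC K) (hW : WeightC K) :
    ∃ T₀ : Finset (HeightOneSpectrum (𝓞 K)), StripOnC K T₀ := by
  obtain ⟨ψ, hstd, hnd, T₀, hT₀⟩ := hψ
  refine ⟨T₀, ?_⟩
  intro hcplx μ F hF π π' φ φ' hφ hφ' S hTS hg hg'
  let _ : MeasurableSpace (Adl K) := borel (Adl K)
  let _ : MeasurableSpace (Adl K)ˣ := borel (Adl K)ˣ
  obtain ⟨ν, D, hνH, hDm, hDf, hDfin⟩ := hν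
  obtain ⟨τ, hτH⟩ := hτ
  have hun : IsUnramOutside ψ S := IsUnramOutside.mono hT₀ hTS
  obtain ⟨φ₁, φ₁', 𝔪, y₀, c, w₀, w₀', h1, h1', hne, heq, hsupp, hl, hl', hc, hw₀, hw₀', hform⟩ :=
    hWF hcplx ψ hstd hnd ν D hνH hDm hDf hDfin π π' φ φ' hφ hφ' S hun hg hg'
  obtain ⟨c₁, hc₁, hfold⟩ := hFW hcplx μ F hF ψ hstd hnd ν D hνH hDm hDf hDfin τ hτH S 𝔪 hsupp
  obtain ⟨c₂, t₀, hc₂, ht₀, hsum⟩ := hIS hcplx τ hτH S 𝔪 y₀ c hsupp hc
  refine ⟨φ₁, φ₁', 𝔪, fun T => archG c (T / t₀), (c₁ : ℂ) * (w₀ * conj w₀') * (c₂ : ℂ),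
    h1, h1', hne, heq, hsupp.1, hW hcplx c t₀ hc ht₀, ?_, ?_⟩
  · refine mul_ne_zero (mul_ne_zero (by exact_mod_cast hc₁.ne') (mul_ne_zero hw₀ ?_))
      (by exact_mod_cast hc₂.ne')
    simpa using hw₀'
  · intro Y hY
    rw [hfold π π' φ₁ φ₁' h1 h1' hl hl' Y hY]
    have hint : ∫ y in {y : (Adl K)ˣ | Y ≤ Fermat.Agent.LT.T5.adNorm (y : Adl K)},
          whit ψ ν D φ₁ (dgA y) * conj (whit ψ ν D φ₁' (dgA y))
            * (((Fermat.Agent.LT.T5.adNorm (y : Adl K))⁻¹ : ℝ) : ℂ) ∂τ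
        = (w₀ * conj w₀') * ∫ y in {y : (Adl K)ˣ | Y ≤ Fermat.Agent.LT.T5.adNorm (y : Adl K)},
            kir π.a S 𝔪 y₀ c y * conj (kir π'.a S 𝔪 y₀ c y)
              * (((Fermat.Agent.LT.T5.adNorm (y : Adl K))⁻¹ : ℝ) : ℂ) ∂τ := by
      rw [← MeasureTheory.integral_const_mul]
      refine MeasureTheory.integral_congr_ae (Filter.Eventually.of_forall fun y => ?_)
      simp only
      rw [(hform y).1, (hform y).2, map_mul]
      ring
    rw [hint, hsum π.a π'.a (fun v hv => ⟨(hg v (fun h => hv h)).2.2, (hg' v hv).2.2⟩) Y hY]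
    ring

/-! ## Levels 2 and 3 for the sets `S ⊇ T₀`

The Props `SmoothSelfC`, `SmoothCrossC`, `StripC` of `RigidPkg.lean`, `RigidAut.lean` ask for
EVERY finite set `S` containing the bad places.  The proof of the strip identity is simpler if
`S` also contains the finitely many places `T₀` where the additive character `ψ` is ramified;
the reductions below are the reductions of levels 2 and 3 for these sets (same proofs; the set
`S₁` of `exists_good_finset` is enlarged by `T₀`). -/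

variable (K)

/-- `SmoothSelfC` for the sets `S ⊇ T₀`. -/
def SmoothSelfOnC (T₀ : Finset (HeightOneSpectrum (𝓞 K))) : Prop :=
  TotCplx K →
  ∀ π : HeckeEigensystem K ℂ, A0.IsCuspAdelicSph0 K π →
    ∀ S : Finset (HeightOneSpectrum (𝓞 K)), T₀ ⊆ S → IsGoodOutside π S →
      ∃ (G : ℝ → ℝ) (L : ℂ), IsWeight G ∧ L ≠ 0 ∧
        Tendsto (fun Y : ℝ => (Y : ℂ) *
            sSum (coef2 π.a π.a (S : Set (HeightOneSpectrum (𝓞 K)))) G Y)
          (𝓝[>] (0 : ℝ)) (𝓝 L)

/-- `SmoothCrossC` for the sets `S ⊇ T₀`. -/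
def SmoothCrossOnC (T₀ : Finset (HeightOneSpectrum (𝓞 K))) : Prop :=
  TotCplx K →
  ∀ π π' : HeckeEigensystem K ℂ, A0.IsCuspAdelicSph0 K π → A0.IsCuspAdelicSph0 K π' →
    ¬ AEq π π' →
    ∀ S : Finset (HeightOneSpectrum (𝓞 K)), T₀ ⊆ S → IsGoodOutside π S →
      IsGoodOutside π' S →
      ∃ G : ℝ → ℝ, IsWeight G ∧
        Tendsto (fun Y : ℝ => (Y : ℂ) *
            sSum (coef2 π.a π'.a (S : Set (HeightOneSpectrum (𝓞 K)))) G Y)
          (𝓝[>] (0 : ℝ)) (𝓝 0)

variable {K}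

/-- A finite set containing `S`, `T₀`, the bad places of `π` and the places of norm `< Q`. -/
theorem exists_good_finset_on (T₀ : Finset (HeightOneSpectrum (𝓞 K)))
    (π : HeckeEigensystem K ℂ) (ht : TrivCentral π)
    (S : Finset (HeightOneSpectrum (𝓞 K)))
    (hS : ∀ v : HeightOneSpectrum (𝓞 K), v ∉ S → ‖π.a v‖ ≤ 2) (Q : ℕ) :
    ∃ S₁ : Finset (HeightOneSpectrum (𝓞 K)), S ⊆ S₁ ∧ T₀ ⊆ S₁ ∧ IsGoodOutside π S₁ ∧
      ∀ v : HeightOneSpectrum (𝓞 K), v ∉ S₁ → Q ≤ Ideal.absNorm v.asIdeal := by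
  classical
  obtain ⟨S₁, hSS, hgood, hQ⟩ := exists_good_finset π ht S hS Q
  refine ⟨S₁ ∪ T₀, hSS.trans Finset.subset_union_left, Finset.subset_union_right,
    hgood.mono Finset.subset_union_left, fun v hv => hQ v (fun h => hv ?_)⟩
  exact Finset.mem_union_left _ h

/-- **Reduction of `SmoothSelfOnC`.** -/
theorem smoothSelfOnC_of {T₀ : Finset (HeightOneSpectrum (𝓞 K))} (hFr : ∃ (μ : Measure (G K)) (F : Set (G K)),
      Fermat.Agent.LT.T5.IsFrame μ F)
    (hStrip : StripOnC K T₀) (hCount : CountC K) (hNorm : NormPosC K) :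
    SmoothSelfOnC K T₀ := by
  intro hcplx π hπ S hTS hg
  obtain ⟨μ, F, hF⟩ := hFr
  obtain ⟨φ, hφ⟩ := hπ
  obtain ⟨φ₁, φ₁', 𝔪, G₀, c, h1, -, hne1, heq, h𝔪, hG, hc, hid⟩ :=
    hStrip hcplx μ F hF π π φ φ hφ hφ S hTS hg hg
  obtain rfl : φ₁ = φ₁' := heq rfl
  obtain ⟨κ, hκ, hmeas, hlim, hC⟩ := hCount hcplx 𝔪 h𝔪
  have hnorm := hNorm hcplx μ F hF π S φ₁ h1 hne1
  have hten := tendsto_strip hF h1.cont h1.cont h1.bdd h1.bdd hmeas hlim hC
  refine ⟨G₀, c⁻¹ * ((κ : ℂ) * Fermat.Agent.LT.T5.innerD μ F φ₁ φ₁), hG, ?_, ?_⟩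
  · exact mul_ne_zero (inv_ne_zero hc)
      (mul_ne_zero (by exact_mod_cast hκ.ne') hnorm)
  · have hten2 := hten.const_mul c⁻¹
    refine hten2.congr' ?_
    refine eventually_nhdsWithin_of_forall fun Y hY => ?_
    beta_reduce
    rw [hid Y hY]
    field_simp

/-- **Reduction of `SmoothCrossOnC`.** -/
theorem smoothCrossOnC_of {T₀ : Finset (HeightOneSpectrum (𝓞 K))} (hFr : ∃ (μ : Measure (G K)) (F : Set (G K)),
      Fermat.Agent.LT.T5.IsFrame μ F)
    (hStrip : StripOnC K T₀) (hCount : CountC K) (hOrth : OrthC K) :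
    SmoothCrossOnC K T₀ := by
  intro hcplx π π' hπ hπ' hne S hTS hg hg'
  obtain ⟨μ, F, hF⟩ := hFr
  obtain ⟨φ, hφ⟩ := hπ
  obtain ⟨φ', hφ'⟩ := hπ'
  obtain ⟨φ₁, φ₁', 𝔪, G₀, c, h1, h1', -, -, h𝔪, hG, hc, hid⟩ :=
    hStrip hcplx μ F hF π π' φ φ' hφ hφ' S hTS hg hg'
  obtain ⟨κ, -, hmeas, hlim, hC⟩ := hCount hcplx 𝔪 h𝔪
  obtain ⟨v, hv, hav⟩ := exists_ne_of_not_aeq hg hg' hne
  have horth := hOrth hcplx μ F hF π π' S φ₁ φ₁' h1 h1' ⟨v, hv, hav⟩
  have hten := tendsto_strip hF h1.cont h1'.cont h1.bdd h1'.bdd hmeas hlim hC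
  rw [horth, mul_zero] at hten
  refine ⟨G₀, hG, ?_⟩
  have hten2 : Tendsto (fun Y : ℝ => c⁻¹ * ((Y : ℂ) *
        ∫ g in F, φ₁ g * conj (φ₁' g) * (((cnt 𝔪 Y g : ℕ) : ℝ) : ℂ) ∂μ))
      (𝓝[>] (0 : ℝ)) (𝓝 (c⁻¹ * 0)) := hten.const_mul _
  rw [mul_zero] at hten2
  refine hten2.congr' ?_
  refine eventually_nhdsWithin_of_forall fun Y hY => ?_
  beta_reduce
  rw [hid Y hY]
  field_simp

/-- **Reduction of `RSLowerC`**, sets `S ⊇ T₀`. -/
theorem rsLowerC_of_on {T₀ : Finset (HeightOneSpectrum (𝓞 K))} (hP : PlaceSumC K)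
    (hE : EulerLogC K) (hA : AbelC K) (hSm : SmoothSelfOnC K T₀) : RSLowerC K := by
  intro hcplx π hπ ht S hSb
  obtain ⟨Q₀, hQ⟩ := hE hP
  obtain ⟨S₁, hSS, hTS, hgood, hQ₁⟩ := exists_good_finset_on T₀ π ht S hSb Q₀
  obtain ⟨hsummable, C, hC⟩ := hQ π.a π.a S₁ (fun v hv => ⟨hQ₁ v hv, (hgood v hv).2.2,
    (hgood v hv).2.2⟩)
  obtain ⟨G, L, hG, hL, hten⟩ := hSm hcplx π hπ S₁ hTS hgood
  obtain ⟨m, hm, hlim⟩ := hA _ G L hG (coef2_bot _ _ _) hsummable hten
  have hpos : 0 < ‖L / (m : ℂ)‖ :=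
    norm_pos_iff.mpr (div_ne_zero hL (by exact_mod_cast hm.ne'))
  set c₀ : ℝ := ‖L / (m : ℂ)‖ / 2 with hc₀
  have hc₀pos : 0 < c₀ := by positivity
  have hev : ∀ᶠ s in 𝓝[>] (1 : ℝ),
      c₀ < ‖((s - 1 : ℝ) : ℂ) * dSer (coef2 π.a π.a (S₁ : Set (HeightOneSpectrum (𝓞 K)))) s‖ :=
    hlim.norm.eventually (lt_mem_nhds (half_lt_self hpos))
  obtain ⟨δ, hδ, hδ'⟩ := exists_delta_of_eventually hev
  refine ⟨max (C - Real.log c₀) (Real.log (1 / min δ 1)), fun s hs1 hs2 => ?_⟩
  -- summability of the two families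
  have hsumS := summable_indicator_of_bound hP (S : Set (HeightOneSpectrum (𝓞 K)))
    (fun v => ‖π.a v‖ ^ 2) 4 (fun v hv => by
      have h := hSb v (by simpa using hv)
      rw [abs_of_nonneg (sq_nonneg _)]
      nlinarith [norm_nonneg (π.a v)]) hs1
  have hsumS₁ := summable_indicator_of_bound hP (S₁ : Set (HeightOneSpectrum (𝓞 K)))
    (fun v => ‖π.a v‖ ^ 2) 4 (fun v hv => by
      have h := (hgood v (by simpa using hv)).2.2
      rw [abs_of_nonneg (sq_nonneg _)]
      nlinarith [norm_nonneg (π.a v)]) hs1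
  have hmono := wSum_mono (S : Set (HeightOneSpectrum (𝓞 K))) (S₁ : Set (HeightOneSpectrum (𝓞 K)))
    (by exact_mod_cast hSS) (fun v => ‖π.a v‖ ^ 2) (fun v _ => sq_nonneg _) s hsumS hsumS₁
  have hfun : (fun v : HeightOneSpectrum (𝓞 K) => (π.a v * conj (π.a v)).re)
      = fun v => ‖π.a v‖ ^ 2 := funext fun v => re_mul_conj_self _
  by_cases hsδ : s < 1 + min δ 1
  · have hs3 : s < 1 + δ := lt_of_lt_of_le hsδ (by linarith [min_le_left δ 1])
    have h1 := hδ' s hs1 hs3
    obtain ⟨hne, habs⟩ := hC s hs1 hs2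
    rw [hfun] at habs
    have hs0 : 0 < s - 1 := by linarith
    rw [norm_mul, Complex.norm_real, Real.norm_eq_abs, abs_of_pos hs0] at h1
    have hDpos : 0 < ‖dSer (coef2 π.a π.a (S₁ : Set (HeightOneSpectrum (𝓞 K)))) s‖ :=
      norm_pos_iff.mpr hne
    have h2 : c₀ * (1 / (s - 1))
        < ‖dSer (coef2 π.a π.a (S₁ : Set (HeightOneSpectrum (𝓞 K)))) s‖ := by
      rw [mul_one_div, div_lt_iff₀ hs0]
      linarith
    have h3 : Real.log (c₀ * (1 / (s - 1)))
        < Real.log ‖dSer (coef2 π.a π.a (S₁ : Set (HeightOneSpectrum (𝓞 K)))) s‖ :=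
      Real.log_lt_log (by positivity) h2
    rw [Real.log_mul hc₀pos.ne' (by positivity)] at h3
    have h4 := (abs_le.mp habs).2
    have h5 := le_max_left (C - Real.log c₀) (Real.log (1 / min δ 1))
    linarith
  · have hmin : 0 < min δ 1 := lt_min hδ one_pos
    have hs4 : min δ 1 ≤ s - 1 := by linarith [not_lt.mp hsδ]
    have h0 : 0 ≤ wSum (S : Set (HeightOneSpectrum (𝓞 K))) (fun v => ‖π.a v‖ ^ 2) s := by
      unfold wSum
      refine tsum_nonneg fun v => Set.indicator_nonneg (fun v _ => ?_) v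
      exact mul_nonneg (sq_nonneg _) (nv_rpow_nonneg v s)
    have h6 : Real.log (1 / (s - 1)) ≤ Real.log (1 / min δ 1) :=
      Real.log_le_log (by positivity) (one_div_le_one_div_of_le hmin hs4)
    have h5 := le_max_right (C - Real.log c₀) (Real.log (1 / min δ 1))
    linarith

/-- **Reduction of `RSCrossC`**, sets `S ⊇ T₀`. -/
theorem rsCrossC_of_on {T₀ : Finset (HeightOneSpectrum (𝓞 K))} (hP : PlaceSumC K)
    (hE : EulerLogC K) (hA : AbelC K) (hSm : SmoothCrossOnC K T₀) : RSCrossC K := by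
  intro hcplx π π' hπ hπ' ht ht' hne S hSb M
  classical
  obtain ⟨Q₀, hQ⟩ := hE hP
  obtain ⟨S₁, hSS₁, hTS₁, hgood₁, hQ₁⟩ :=
    exists_good_finset_on T₀ π ht S (fun v hv => (hSb v hv).1) Q₀
  obtain ⟨S₂, hSS₂, -, hgood₂, -⟩ :=
    exists_good_finset_on T₀ π' ht' S (fun v hv => (hSb v hv).2) Q₀
  set T : Finset (HeightOneSpectrum (𝓞 K)) := S₁ ∪ S₂ with hT
  have hS₁T : S₁ ⊆ T := Finset.subset_union_left
  have hS₂T : S₂ ⊆ T := Finset.subset_union_right
  have hST : S ⊆ T := hSS₁.trans hS₁T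
  have hg : IsGoodOutside π T := hgood₁.mono hS₁T
  have hg' : IsGoodOutside π' T := hgood₂.mono hS₂T
  obtain ⟨hsummable, C, hC⟩ := hQ π.a π'.a T (fun v hv =>
    ⟨hQ₁ v (fun h => hv (hS₁T h)), (hg v hv).2.2, (hg' v hv).2.2⟩)
  obtain ⟨G, hG, hten⟩ := hSm hcplx π π' hπ hπ' hne T (hTS₁.trans hS₁T) hg hg'
  obtain ⟨m, hm, hlim⟩ := hA _ G 0 hG (coef2_bot _ _ _) hsummable hten
  rw [zero_div] at hlim
  set ε : ℝ := Real.exp (-(M + C + (T.card : ℝ) * 4)) with hε
  have hεpos : 0 < ε := Real.exp_pos _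
  have hev : ∀ᶠ s in 𝓝[>] (1 : ℝ),
      ‖((s - 1 : ℝ) : ℂ) * dSer (coef2 π.a π'.a (T : Set (HeightOneSpectrum (𝓞 K)))) s‖ < ε := by
    have := hlim.norm
    rw [norm_zero] at this
    exact this.eventually (gt_mem_nhds hεpos)
  obtain ⟨δ, hδ, hδ'⟩ := exists_delta_of_eventually hev
  refine ⟨min δ 1, lt_min hδ one_pos, fun s hs1 hs2 => ?_⟩
  have hs3 : s < 1 + δ := lt_of_lt_of_le hs2 (by linarith [min_le_left δ 1])
  have hs4 : s < 2 := lt_of_lt_of_le hs2 (by linarith [min_le_right δ 1])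
  have hs0 : 0 < s - 1 := by linarith
  have h1 := hδ' s hs1 hs3
  obtain ⟨hne0, habs⟩ := hC s hs1 hs4
  rw [norm_mul, Complex.norm_real, Real.norm_eq_abs, abs_of_pos hs0] at h1
  have hDpos : 0 < ‖dSer (coef2 π.a π'.a (T : Set (HeightOneSpectrum (𝓞 K)))) s‖ :=
    norm_pos_iff.mpr hne0
  have h2 : ‖dSer (coef2 π.a π'.a (T : Set (HeightOneSpectrum (𝓞 K)))) s‖
      < ε * (1 / (s - 1)) := by
    rw [mul_one_div, lt_div_iff₀ hs0]
    linarith
  have h3 : Real.log ‖dSer (coef2 π.a π'.a (T : Set (HeightOneSpectrum (𝓞 K)))) s‖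
      < Real.log (ε * (1 / (s - 1))) := Real.log_lt_log hDpos h2
  rw [Real.log_mul hεpos.ne' (by positivity), hε, Real.log_exp] at h3
  have h4 := (abs_le.mp habs).1
  -- from `S` to `T`
  have hsumS := summable_indicator_of_bound hP (S : Set (HeightOneSpectrum (𝓞 K)))
    (fun v => (π.a v * conj (π'.a v)).re) 4 (fun v hv => by
      have h := hSb v (by simpa using hv)
      exact abs_re_mul_conj_le h.1 h.2) hs1
  have hsumT := summable_indicator_of_bound hP (T : Set (HeightOneSpectrum (𝓞 K)))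
    (fun v => (π.a v * conj (π'.a v)).re) 4 (fun v hv => by
      have hv' : v ∉ T := by simpa using hv
      exact abs_re_mul_conj_le (hg v hv').2.2 (hg' v hv').2.2) hs1
  have h5 := wSum_le_add S T hST (fun v => (π.a v * conj (π'.a v)).re) 4 (by norm_num)
    (fun v hv => (le_abs_self _).trans (abs_re_mul_conj_le (hSb v hv).1 (hSb v hv).2))
    (by linarith : (0 : ℝ) ≤ s) hsumS hsumT
  linarith

/-- **`T7.RigidC K` from the leaves of levels 2, 3 and 4.** -/
theorem rigidC_of_strip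
    (hFr : ∃ (μ : Measure (G K)) (F : Set (G K)), Fermat.Agent.LT.T5.IsFrame μ F)
    (hψ : ∃ ψ : AddChar (Adl K) Circle, Fermat.Agent.LT.T3.IsStdChar K ψ ∧
      Fermat.Agent.LT.T3.IsNonDeg K ψ ∧ Fermat.Agent.LT.T3.IsUnramAE K ψ)
    (hν : letI : MeasurableSpace (Adl K) := borel (Adl K)
      ∃ (ν : Measure (Adl K)) (D : Set (Adl K)), ν.IsAddHaarMeasure ∧ MeasurableSet D ∧
        IsAddFundamentalDomain ((algebraMap K (Adl K)).toAddMonoidHom.range) D ν ∧ ν D < ⊤)
    (hτ : letI : MeasurableSpace (Adl K)ˣ := borel (Adl K)ˣ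
      ∃ τ : Measure (Adl K)ˣ, τ.IsHaarMeasure)
    (hP : PlaceSumC K) (hE : EulerLogC K) (hA : AbelC K)
    (hCount : CountC K) (hOrth : OrthC K) (hNorm : NormPosC K)
    (hFW : FoldWhitC K) (hWF : WhitFormC K) (hIS : IdeleSumC K) (hW : WeightC K) :
    RigidC K := by
  obtain ⟨T₀, hStrip⟩ := stripOnC_of hψ hν hτ hFW hWF hIS hW
  exact rigidC_of hP
    (rsLowerC_of_on hP hE hA (smoothSelfOnC_of hFr hStrip hCount hNorm))
    (rsCrossC_of_on hP hE hA (smoothCrossOnC_of hFr hStrip hCount hOrth))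

end Fermat.Agent.LT.T7.Rigid

end

end
-- ===== PACK-END LT/T7/H62/RigidStrip.lean

-- ===== PACK-BEGIN LT/T7/H496/Twist.lean
section


/-!
# Row LT, tower T7, leaf T7.01 (helper496), OFF-MAIN: `TwistAll` is PROVED

`twistAll496 : Fermat.Agent.LT.T7.TwistAll` (VERBATIM the Prop of `LT/T7/Spec.lean`,
origin/helper797@31d807178 sha256 41dbc37a6d3e401a = v0, and v1.2 d4e07e123 sha256 76a196044a64b920),
unconditional.

The twisted form is `g ↦ φ (g · (det g))` (scalar matrix of the idele `det g`): no central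
character is constructed.  Level unchanged, eigenvalues `(b_v a_v, b_v ^ 3)` at EVERY `v ∤ 𝔫`
(exceptional set `∅`).
-/

set_option autoImplicit false

open IsDedekindDomain NumberField AutomorphicForm

noncomputable section

namespace Fermat.Agent.LT.T7.H496

open Fermat.Agent.LT.H556 Fermat.Agent.LT.H556.A0

/-- **LEAF T7.01: `TwistC K` for every number field `K`.** -/
theorem twistC496 (K : Type) [Field K] [NumberField K] : Fermat.Agent.LT.T7.TwistC K := by
  intro π hπ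
  obtain ⟨φ, hφ⟩ := hπ
  exact ⟨twPi496 π, ⟨fun g => φ (tw496 g), twistFields496 π φ hφ (twist_ne_zero496 hφ)⟩,
    ∅, fun v _ => ⟨rfl, rfl⟩⟩

/-- **LEAF T7.01: `TwistAll`.** -/
theorem twistAll496 : Fermat.Agent.LT.T7.TwistAll := fun K _ _ => twistC496 K

end Fermat.Agent.LT.T7.H496

end

end
-- ===== PACK-END LT/T7/H496/Twist.lean

-- ===== PACK-BEGIN LT/T7/H671/AdelicPair.lean
section




/-!
# Row LT, tower T7, node T7.14, leaf `CountC`: from adelic rows to `(K_∞)²`

OFF-MAIN (helper671).  Definitions and elementary lemmas; nothing assumed.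

* `pairOf671 r`   : the infinite part of the row `r ∈ 𝔸²`, as an element of
                    `(K_∞)² = mixedSpace K × mixedSpace K`;
* `finNorm671 r`  : `∏_v max(|r₀|_v, |r₁|_v)`; `rowNorm r = pairGauge671 (pairOf671 r) * finNorm671 r`
                    (`rowNorm_eq671`);
* `IsIntRow671 r` : `r` is integral at every finite place;
* `latG671 g`     : the `ℤ`-submodule `{pairOf (ξ g) : ξ ∈ K², ξ g integral}` of `(K_∞)²`;
* `CovolC K`      : (Prop) `latG671 g` is a lattice of covolume `c₀ · ‖det g‖_𝔸`.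
-/

set_option autoImplicit false
set_option linter.unusedSectionVars false

open NumberField NumberField.mixedEmbedding NumberField.InfinitePlace IsDedekindDomain
  MeasureTheory

noncomputable section

namespace Fermat.Agent.LT.T7.H671

open Fermat.Agent.LT.H556 Fermat.Agent.LT.H556.A0 Fermat.Agent.LT.T7.Rigid

variable {K : Type} [Field K] [NumberField K]

/-- The infinite part of an adele, in the mixed space. -/
def infMixed671 (a : Adl K) : mixedSpace K := InfiniteAdeleRing.ringEquiv_mixedSpace K a.1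

theorem adl_fst_add671 (a b : Adl K) : (a + b).1 = a.1 + b.1 := rfl

theorem adl_fst_mul671 (a b : Adl K) : (a * b).1 = a.1 * b.1 := rfl

theorem adl_fst_zero671 : (0 : Adl K).1 = 0 := rfl

theorem adl_fst_one671 : (1 : Adl K).1 = 1 := rfl

theorem adl_fst_neg671 (a : Adl K) : (-a).1 = -a.1 := rfl

theorem infMixed671_add (a b : Adl K) : infMixed671 (a + b) = infMixed671 a + infMixed671 b := by
  unfold infMixed671
  rw [adl_fst_add671, map_add]

theorem infMixed671_mul (a b : Adl K) : infMixed671 (a * b) = infMixed671 a * infMixed671 b := by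
  unfold infMixed671
  rw [adl_fst_mul671, map_mul]

theorem infMixed671_zero : infMixed671 (0 : Adl K) = 0 := by
  unfold infMixed671
  rw [adl_fst_zero671, map_zero]

theorem infMixed671_one : infMixed671 (1 : Adl K) = 1 := by
  unfold infMixed671
  rw [adl_fst_one671, map_one]

theorem infMixed671_neg (a : Adl K) : infMixed671 (-a) = -infMixed671 a := by
  unfold infMixed671
  rw [adl_fst_neg671, map_neg]

theorem infMixed671_algebraMap (x : K) :
    infMixed671 (algebraMap K (Adl K) x) = mixedEmbedding K x := by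
  unfold infMixed671
  rw [InfiniteAdeleRing.mixedEmbedding_eq_algebraMap_comp]
  rfl

theorem normAtPlace_infMixed671 (a : Adl K) (w : InfinitePlace K) :
    normAtPlace w (infMixed671 a) = ‖a.1 w‖ := by
  unfold infMixed671
  rw [InfiniteAdeleRing.ringEquiv_mixedSpace_apply]
  obtain hw | hw := isReal_or_isComplex w
  · rw [normAtPlace_apply_of_isReal hw]
    exact (InfinitePlace.Completion.isometry_extensionEmbeddingOfIsReal hw).norm_map_of_map_zero
      (map_zero _) _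
  · rw [normAtPlace_apply_of_isComplex hw]
    exact (InfinitePlace.Completion.isometry_extensionEmbedding w).norm_map_of_map_zero
      (map_zero _) _

/-- The infinite part of a row, as a pair. -/
def pairOf671 (r : Fin 2 → Adl K) : Pair671 K := (infMixed671 (r 0), infMixed671 (r 1))

theorem pairOf671_add (r s : Fin 2 → Adl K) : pairOf671 (r + s) = pairOf671 r + pairOf671 s := by
  unfold pairOf671
  rw [Pi.add_apply, Pi.add_apply, infMixed671_add, infMixed671_add]
  rfl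

theorem pairOf671_zero : pairOf671 (0 : Fin 2 → Adl K) = 0 := by
  unfold pairOf671
  rw [Pi.zero_apply, Pi.zero_apply, infMixed671_zero]
  rfl

theorem pairOf671_neg (r : Fin 2 → Adl K) : pairOf671 (-r) = -pairOf671 r := by
  unfold pairOf671
  rw [Pi.neg_apply, Pi.neg_apply, infMixed671_neg, infMixed671_neg]
  rfl

theorem pairNorm671_pairOf (r : Fin 2 → Adl K) (w : InfinitePlace K) :
    pairNorm671 (pairOf671 r) w = Real.sqrt (‖(r 0).1 w‖ ^ 2 + ‖(r 1).1 w‖ ^ 2) := by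
  rw [pairNorm671_apply]
  unfold pairOf671
  rw [normAtPlace_infMixed671, normAtPlace_infMixed671]

theorem pairGauge671_pairOf (r : Fin 2 → Adl K) :
    pairGauge671 (pairOf671 r)
      = ∏ w : InfinitePlace K, (‖(r 0).1 w‖ ^ 2 + ‖(r 1).1 w‖ ^ 2) ^ ((w.mult : ℝ) / 2) := by
  rw [pairGauge671_eq_prod]
  refine Finset.prod_congr rfl fun w _ => ?_
  rw [pairNorm671_pairOf]
  have h0 : 0 ≤ ‖(r 0).1 w‖ ^ 2 + ‖(r 1).1 w‖ ^ 2 := by positivity
  rw [Real.sqrt_eq_rpow, ← Real.rpow_natCast, ← Real.rpow_mul h0]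
  congr 1
  ring

/-- The finite part of the norm of a row. -/
def finNorm671 (r : Fin 2 → Adl K) : ℝ :=
  ∏ᶠ v : HeightOneSpectrum (𝓞 K), max ‖(r 0).2 v‖ ‖(r 1).2 v‖

theorem rowNorm_eq671 (r : Fin 2 → Adl K) :
    rowNorm r = pairGauge671 (pairOf671 r) * finNorm671 r := by
  unfold rowNorm finNorm671
  rw [pairGauge671_pairOf]

/-- The row `r` is integral at every finite place. -/
def IsIntRow671 (r : Fin 2 → Adl K) : Prop :=
  ∀ (v : HeightOneSpectrum (𝓞 K)) (j : Fin 2), (r j).2 v ∈ v.adicCompletionIntegers K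

theorem rowOf_add671 (x y : Fin 2 → K) (g : G K) : rowOf (x + y) g = rowOf x g + rowOf y g := by
  funext j
  simp only [rowOf, Pi.add_apply, map_add]
  ring

theorem rowOf_zero671 (g : G K) : rowOf (0 : Fin 2 → K) g = 0 := by
  funext j
  simp [rowOf]

theorem rowOf_neg671 (x : Fin 2 → K) (g : G K) : rowOf (-x) g = -rowOf x g := by
  funext j
  simp only [rowOf, Pi.neg_apply, map_neg]
  ring

theorem rowOf_smul671 (c : K) (x : Fin 2 → K) (g : G K) :
    rowOf (c • x) g = fun j => algebraMap K (Adl K) c * rowOf x g j := by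
  funext j
  simp only [rowOf, Pi.smul_apply, smul_eq_mul, map_mul]
  ring

theorem isIntRow671_add {r s : Fin 2 → Adl K} (hr : IsIntRow671 r) (hs : IsIntRow671 s) :
    IsIntRow671 (r + s) := fun v j => by
  have h : ((r + s) j).2 v = (r j).2 v + (s j).2 v := rfl
  rw [h]
  exact add_mem (hr v j) (hs v j)

theorem isIntRow671_zero : IsIntRow671 (0 : Fin 2 → Adl K) := fun v j => by
  have h : ((0 : Fin 2 → Adl K) j).2 v = 0 := rfl
  rw [h]
  exact zero_mem _

theorem isIntRow671_neg {r : Fin 2 → Adl K} (hr : IsIntRow671 r) : IsIntRow671 (-r) :=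
  fun v j => by
    have h : ((-r) j).2 v = -((r j).2 v) := rfl
    rw [h]
    exact neg_mem (hr v j)

/-- The lattice of `g`: `{pairOf (ξ g) : ξ ∈ K², ξ g integral at every finite place}`. -/
def latG671 (g : G K) : Submodule ℤ (Pair671 K) :=
  AddSubgroup.toIntSubmodule
    { carrier := {p | ∃ x : Fin 2 → K, IsIntRow671 (rowOf x g) ∧ pairOf671 (rowOf x g) = p}
      zero_mem' := ⟨0, by rw [rowOf_zero671]; exact isIntRow671_zero,
        by rw [rowOf_zero671, pairOf671_zero]⟩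
      add_mem' := by
        rintro _ _ ⟨x, hx, rfl⟩ ⟨y, hy, rfl⟩
        exact ⟨x + y, by rw [rowOf_add671]; exact isIntRow671_add hx hy,
          by rw [rowOf_add671, pairOf671_add]⟩
      neg_mem' := by
        rintro _ ⟨x, hx, rfl⟩
        exact ⟨-x, by rw [rowOf_neg671]; exact isIntRow671_neg hx,
          by rw [rowOf_neg671, pairOf671_neg]⟩ }

theorem mem_latG671 {g : G K} {p : Pair671 K} :
    p ∈ latG671 g ↔ ∃ x : Fin 2 → K, IsIntRow671 (rowOf x g) ∧ pairOf671 (rowOf x g) = p :=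
  Iff.rfl

variable (K) in
open scoped Classical in
/-- **COVOLUME.**  For every `g ∈ GL₂(𝔸_K)` the submodule `latG671 g` is a lattice of `(K_∞)²`
(discrete, spanning) and its covolume is `c₀ · ‖det g‖_𝔸`, with `c₀ > 0` independent of `g`. -/
def CovolC : Prop :=
  ∃ c₀ : ℝ, 0 < c₀ ∧ ∀ g : G K,
    ∃ (_ : DiscreteTopology (latG671 g)) (_ : IsZLattice ℝ (latG671 g)),
      ZLattice.covolume (latG671 g) volume
        = c₀ * Fermat.Agent.LT.T5.adNorm (Matrix.det (g : Matrix (Fin 2) (Fin 2) (Adl K)))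

end Fermat.Agent.LT.T7.H671

end

end
-- ===== PACK-END LT/T7/H671/AdelicPair.lean

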