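import Mathlib
import Fermat.Agent.Pack.LT2.E11L0
import Fermat.Agent.Pack.LT2.E0L3
import Fermat.Agent.Pack.LT2.E8L3
import Fermat.Agent.Pack.LT2.E8L0
import Fermat.Agent.Pack.LT2.E0L1
import Fermat.Agent.Pack.LT2.E2L1
import Fermat.Agent.Pack.LT2.E0L2
import Fermat.Agent.Pack.LT2.E5L3
import Fermat.Agent.Pack.LT2.E6L1
import Fermat.Agent.Pack.LT2.E8L2
import Fermat.Agent.Pack.LT2.E10L0
import Fermat.Agent.Pack.LT2.E11L1
import Fermat.Agent.Pack.LT2.E2L2
import Fermat.Agent.Pack.LT2.E6L0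
import Fermat.Agent.Pack.LT2.E6L2
import Fermat.Agent.Pack.LT2.E7L1
import Fermat.Agent.Pack.LT2.E10L2
import Fermat.Agent.Pack.LT2.E12L2
import Fermat.Agent.Pack.LT2.E5L1
import Fermat.Agent.Pack.LT2.E12L1
import Fermat.Agent.Pack.LT2.E12L3
import Fermat.Agent.Pack.LT2.E1L1
import Fermat.Agent.Pack.LT2.E1L0

set_option linter.all false

-- ===== PACK-BEGIN LT/A2/H467/WeilExSpec.lean
section


/-!
# Row LT, tower A2, station A2.03.1 `WL.WeilExC` -- THE CUT (sub-architect helper467)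

OFF-MAIN.  Definitions, frozen Props and the PROVED top `weilEx_of_leaves467`.
No holes, no opaque constant, nothing assumed.

    WL.WeilExC  ⟸  DataC  +  BorelC + RatC + RegC + WeylC + RightInvC + StdLocC + OrbC

The cut is HORIZONTAL, as in `WeilLocal.lean`:

* `DataC` (the CONSTRUCTION, a station): there are *product data* `L : WData K` -- a global
  character `ψ`, measures, a level, and for EVERY place a LOCAL WEIL FAMILY
  `F_v : M₂(K_v) × M₂(K_v) × K_v² → ℂ` with local constants `γ_v`, `η_v`, `μ_v` -- which are GOOD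
  (`WData.IsGood`): every local family satisfies the LOCAL left-translation axioms `LocAx`
  (`F_v(n(x) g) = ψ_v(x Q) F_v(g)`, `F_v(w g) = γ_v FT_v(F_v(g))`,
  `F_v(t(a) g) = η_v(a) |a|_v F_v(g)(a ·)`, torus formula), is STANDARD at the places not dividing
  the level (`GoodAt`), SMOOTH with a positive initial vector at the other finite places
  (`BadAt`), GAUSSIAN at the complex places (`CpxAt`), and the global objects are the products
  of the local ones (`ψ`, `η`, integrals).  The global family is DEFINED by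
  `F g m ξ = ∏_u F_u(g_u, m_u, ξ_u) · ∏_v F_v(g_v, m_v, ξ_v)`  (`WData.F`).
* the other leaves are CONSUMERS of `IsGood`: each one proves a group of fields of `KData.Good`
  / `WL.IsStd` for the explicit `L.toKData`.

## Why no normalisation is imposed on `γ_v`, `μ_v`

Only `Γ c⁻¹` matters, `Γ = ∏ γ_v`, `c` the constant of `∫_{𝔸²} = c · ∏_v ∫_{K_v²}`
(`IsGood.prod_int`).  `WeylC` PROVES `Γ = c` (and `η = 1` on `K^×`, quadratic reciprocity for
`L/K`) from Poisson summation, by the relations `(w n(1))³ = 1`, `w⁴ = 1` and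
`w n(a) w = t(-a⁻¹) n(-a) w n(-a⁻¹)` applied to `Θ(g) = ∑_{ξ ∈ K²} F g m ξ`:
`Θ(w g) = Γ c⁻¹ Θ(g)`, `Θ(n(b) g) = Θ(g)` (`b ∈ K`), `Θ(t(a) g) = η(a) Θ(g)` (`a ∈ K^×`), hence
`(Γ c⁻¹)³ = (Γ c⁻¹)⁴ = 1` and `(Γ c⁻¹)² = η(-a⁻¹) Γ c⁻¹` as soon as `Θ(g) ≠ 0` for one `g`
(`Θ(1) > 0`: the initial vector is `≥ 0` and `> 0` at `(1, 0)`).
So the local owners are free to choose ANY Haar measure `μ_v` with the matching constant `γ_v`
(standard at the good places).

Conventions: `LT-A2-tower.md` §3 (helper950).  `w = [[0,1],[-1,0]]`, `n(x) = [[1,x],[0,1]]`,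
`t(a) = diag(a, a⁻¹)`, `d(a) = diag(1, a)`; module of a complex place = SQUARE of the norm.
-/

set_option autoImplicit false

open IsDedekindDomain NumberField AutomorphicForm MeasureTheory
open scoped MatrixGroups Topology

noncomputable section

namespace Fermat.Agent.LT.A2.WX467

open Fermat.Agent.LT.H130 Fermat.Agent.LT.H556 Fermat.Agent.LT.A2

/-! ## 1. Local vocabulary (a field `k`; `k = K_v` or `k = K_u`) -/

section Local

variable {k : Type} [Field k]

/-- `Q(x, y) = x² + t x y + n y²`. -/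
def qfL (t n : k) (ξ : k × k) : k := ξ.1 ^ 2 + t * ξ.1 * ξ.2 + n * ξ.2 ^ 2

/-- `B(ξ, y) = Q(ξ + y) - Q(ξ) - Q(y)`. -/
def bfL (t n : k) (ξ y : k × k) : k := qfL t n (ξ + y) - qfL t n ξ - qfL t n y

/-- The action of a matrix on a column vector, written on pairs. -/
def actL (m : Matrix (Fin 2) (Fin 2) k) (ξ : k × k) : k × k :=
  (m 0 0 * ξ.1 + m 0 1 * ξ.2, m 1 0 * ξ.1 + m 1 1 * ξ.2)

/-- `m ∈ T(k)` or `m` is a singular matrix of the form `a + b M_ω`. -/
def InTorL (t n : k) (m : Matrix (Fin 2) (Fin 2) k) : Prop :=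
  ∃ a b : k, m = torMat t n a b

/-- The local admissible pairs: `m ∈ T(k)`, `det g = det m ≠ 0`. -/
def AdmL (t n : k) (g m : Matrix (Fin 2) (Fin 2) k) : Prop :=
  InTorL t n m ∧ g.det = m.det ∧ m.det ≠ 0

/-- The integral over `k²` for the product measure `μ × μ` (Borel σ-algebras). -/
def intL [TopologicalSpace k] (μ : @Measure k (borel k)) (f : k × k → ℂ) : ℂ :=
  letI : MeasurableSpace k := borel k
  ∫ y, f y ∂(μ.prod μ)

/-- Integrability on `k²` for the product measure `μ × μ` (Borel σ-algebras). -/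
def IntegrableL [TopologicalSpace k] (μ : @Measure k (borel k)) (f : k × k → ℂ) : Prop :=
  letI : MeasurableSpace k := borel k
  Integrable f (μ.prod μ)

/-- **The local axioms of a Weil family** at one place (module `absv`, additive character `ψ`,
Haar measure `μ`, constant `γ`, quadratic character `η`).  Only LEFT translations. -/
structure LocAx [TopologicalSpace k] (absv : k → ℝ) (t n : k) (ψ : k → ℂ)
    (μ : @Measure k (borel k)) (γ : ℂ) (η : k → ℂ)
    (F : Matrix (Fin 2) (Fin 2) k → Matrix (Fin 2) (Fin 2) k → k × k → ℂ) : Prop where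
  /-- `F (n(x) g) m ξ = ψ(x Q(ξ)) F g m ξ`. -/
  unip : ∀ (x : k) (g m : Matrix (Fin 2) (Fin 2) k) (ξ : k × k), AdmL t n g m →
    F (!![1, x; 0, 1] * g) m ξ = ψ (x * qfL t n ξ) * F g m ξ
  /-- `F (w g) m ξ = γ ∫ F g m y ψ(B(ξ, y)) dy`. -/
  weyl : ∀ (g m : Matrix (Fin 2) (Fin 2) k) (ξ : k × k), AdmL t n g m →
    F (!![0, 1; -1, 0] * g) m ξ = γ * intL μ fun y => F g m y * ψ (bfL t n ξ y)
  /-- `F (t(a) g) m ξ = η(a) |a| F g m (a ξ)`. -/
  diag : ∀ a : k, a ≠ 0 → ∀ (g m : Matrix (Fin 2) (Fin 2) k) (ξ : k × k), AdmL t n g m →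
    F (!![a, 0; 0, a⁻¹] * g) m ξ = η a * ((absv a : ℝ) : ℂ) * F g m (a • ξ)
  /-- `|det μ'|^{1/2} F (d(det μ') g) (μ' m) ξ = F g m (μ'⁻¹ ξ)`, `μ' ∈ T(k)`. -/
  tor : ∀ μ' : Matrix (Fin 2) (Fin 2) k, InTorL t n μ' → μ'.det ≠ 0 →
    ∀ (g m : Matrix (Fin 2) (Fin 2) k) (ξ : k × k), AdmL t n g m →
      ((Real.sqrt (absv μ'.det) : ℝ) : ℂ) * F (!![1, 0; 0, μ'.det] * g) (μ' * m) ξ
        = F g m (actL μ'⁻¹ ξ)
  eta_mul : ∀ a b : k, a ≠ 0 → b ≠ 0 → η (a * b) = η a * η b
  eta_sq : ∀ a : k, a ≠ 0 → η a = 1 ∨ η a = -1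
  eta_norm : ∀ μ' : Matrix (Fin 2) (Fin 2) k, InTorL t n μ' → μ'.det ≠ 0 → η μ'.det = 1
  eta_cont : ContinuousOn η {a | a ≠ 0}
  haar : (letI : MeasurableSpace k := borel k
    ∀ (x : k) (S : Set k), μ ((fun y => x + y) '' S) = μ S) ∧
    (∀ C : Set k, IsCompact C → μ C < ⊤) ∧ ∀ U : Set k, IsOpen U → U.Nonempty → 0 < μ U
  psi_char : Continuous ψ ∧ (∀ x y : k, ψ (x + y) = ψ x * ψ y) ∧ ∀ x : k, ‖ψ x‖ = 1
  cont : ∀ g m : Matrix (Fin 2) (Fin 2) k, AdmL t n g m → Continuous (F g m)
  integrable : ∀ g m : Matrix (Fin 2) (Fin 2) k, AdmL t n g m → IntegrableL μ (F g m)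

end Local

/-! ## 2. The product data -/

section Data

variable (K : Type) [Field K] [NumberField K]

/-- **The product data**: the global objects of `KData`, the quadratic character `η`, the
constant `c` of the product formula for the integrals, and for every place the local character,
the local Haar measure, the local constants and the LOCAL WEIL FAMILY. -/
structure WData where
  t : K
  n : K
  χT : A0.G K → ℂ
  ψ : A0.Adl K → ℂ
  μ : @Measure (A0.Adl K) (borel (A0.Adl K))
  μT : @Measure (A0.G K) (borel (A0.G K))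
  DT : Set (A0.G K)
  π : HeckeEigensystem K ℂ
  η : (A0.Adl K)ˣ → ℂ
  c : ℂ
  ψinf : ∀ u : InfinitePlace K, u.Completion → ℂ
  μinf : ∀ u : InfinitePlace K, @Measure u.Completion (borel u.Completion)
  γinf : InfinitePlace K → ℂ
  ηinf : ∀ u : InfinitePlace K, u.Completion → ℂ
  Finf : ∀ u : InfinitePlace K, Matrix (Fin 2) (Fin 2) u.Completion →
    Matrix (Fin 2) (Fin 2) u.Completion → u.Completion × u.Completion → ℂ
  ψfin : ∀ v : HeightOneSpectrum (𝓞 K), v.adicCompletion K → ℂ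
  μfin : ∀ v : HeightOneSpectrum (𝓞 K),
    @Measure (v.adicCompletion K) (borel (v.adicCompletion K))
  γfin : HeightOneSpectrum (𝓞 K) → ℂ
  ηfin : ∀ v : HeightOneSpectrum (𝓞 K), v.adicCompletion K → ℂ
  Ffin : ∀ v : HeightOneSpectrum (𝓞 K), Matrix (Fin 2) (Fin 2) (v.adicCompletion K) →
    Matrix (Fin 2) (Fin 2) (v.adicCompletion K) →
    v.adicCompletion K × v.adicCompletion K → ℂ
  /-- The local level group of the torus at `v` (an open compact subgroup of `T(K_v)`;
  `T(𝒪_v)` at the good places). -/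
  Tlev : ∀ v : HeightOneSpectrum (𝓞 K), Set (Matrix (Fin 2) (Fin 2) (v.adicCompletion K))

variable {K}

/-- The matrix of `g` at the infinite place `u`, with entries in the completion. -/
def infMat (u : InfinitePlace K) (g : A0.G K) : Matrix (Fin 2) (Fin 2) u.Completion :=
  fun i j => ((g : Matrix (Fin 2) (Fin 2) (A0.Adl K)) i j).1 u

/-- The component at the infinite place `u` of a vector of `𝔸_K²`. -/
def infVec (u : InfinitePlace K) (ξ : A0.Adl K × A0.Adl K) : u.Completion × u.Completion :=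
  (ξ.1.1 u, ξ.2.1 u)

/-- The component at the finite place `v` of a vector of `𝔸_K²`. -/
def finVec (v : HeightOneSpectrum (𝓞 K)) (ξ : A0.Adl K × A0.Adl K) :
    v.adicCompletion K × v.adicCompletion K :=
  (ξ.1.2 v, ξ.2.2 v)

/-- The product over all places of local functions on `K_v²`. -/
def prodFn (f : ∀ u : InfinitePlace K, u.Completion × u.Completion → ℂ)
    (f' : ∀ v : HeightOneSpectrum (𝓞 K), v.adicCompletion K × v.adicCompletion K → ℂ)
    (ξ : A0.Adl K × A0.Adl K) : ℂ :=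
  (∏ u : InfinitePlace K, f u (infVec u ξ)) *
    ∏ᶠ v : HeightOneSpectrum (𝓞 K), f' v (finVec v ξ)

/-- **The global Weil family**: the product of the local families. -/
def WData.F (L : WData K) (g m : A0.G K) (ξ : A0.Adl K × A0.Adl K) : ℂ :=
  prodFn (fun u => L.Finf u (infMat u g) (infMat u m))
    (fun v => L.Ffin v (A0.finComp v g) (A0.finComp v m)) ξ

/-- The data of the theta construction attached to the product data. -/
def WData.toKData (L : WData K) : KData K where
  t := L.t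
  n := L.n
  χT := L.χT
  ψ := L.ψ
  μ := L.μ
  μT := L.μT
  DT := L.DT
  F := L.F
  π := L.π

/-- `t` in the completion at `v`. -/
def WData.tfin (L : WData K) (v : HeightOneSpectrum (𝓞 K)) : v.adicCompletion K :=
  algebraMap K (v.adicCompletion K) L.t

/-- `n` in the completion at `v`. -/
def WData.nfin (L : WData K) (v : HeightOneSpectrum (𝓞 K)) : v.adicCompletion K :=
  algebraMap K (v.adicCompletion K) L.n

/-- `t` in the completion at `u`. -/
def WData.tinf (L : WData K) (u : InfinitePlace K) : u.Completion :=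
  algebraMap K u.Completion L.t

/-- `n` in the completion at `u`. -/
def WData.ninf (L : WData K) (u : InfinitePlace K) : u.Completion :=
  algebraMap K u.Completion L.n

/-- The indicator function of `𝒪_v²`. -/
def stdFn (v : HeightOneSpectrum (𝓞 K)) (ξ : v.adicCompletion K × v.adicCompletion K) : ℂ :=
  letI := Classical.propDecidable
  if ξ.1 ∈ v.adicCompletionIntegers K ∧ ξ.2 ∈ v.adicCompletionIntegers K then 1 else 0

/-- The local level group at `v`: `k ≡ 1`, `k⁻¹ ≡ 1` modulo the closure of the level, `k`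
invertible.  At `v ∤ 𝔫` this is `GL₂(𝒪_v)`. -/
def InLevL (𝔫 : Ideal (𝓞 K)) (v : HeightOneSpectrum (𝓞 K))
    (k : Matrix (Fin 2) (Fin 2) (v.adicCompletion K)) : Prop :=
  k.det ≠ 0 ∧ ∀ i j : Fin 2,
    (k - 1) i j ∈ A0.idealClosure 𝔫 v ∧ (k⁻¹ - 1) i j ∈ A0.idealClosure 𝔫 v

/-- The matrix `k` with complex entries via the embedding of the completion. -/
def embMat (u : InfinitePlace K) (k : Matrix (Fin 2) (Fin 2) u.Completion) :
    Matrix (Fin 2) (Fin 2) ℂ :=
  fun i j => InfinitePlace.Completion.extensionEmbedding u (k i j)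

/-- The Gaussian at the complex place `u` as a function on `K_u²` (cf. `WL.gauss`). -/
def gaussL (u : InfinitePlace K) (c ω₁ ω₂ : ℂ) (ξ : u.Completion × u.Completion) : ℂ :=
  Complex.exp (-((2 * Real.pi * ‖c‖ *
    (‖InfinitePlace.Completion.extensionEmbedding u ξ.1
        + ω₁ * InfinitePlace.Completion.extensionEmbedding u ξ.2‖ ^ 2
      + ‖InfinitePlace.Completion.extensionEmbedding u ξ.1
        + ω₂ * InfinitePlace.Completion.extensionEmbedding u ξ.2‖ ^ 2) : ℝ) : ℂ))

/-! ### The local certificates -/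

/-- **The certificate at a finite place `v`** (all finite places): Schwartz--Bruhat functions,
the local level group `Tlev v` of the torus (an open subgroup of `T(K_v)` on which `χT` is
trivial), right invariance under the pairs `(k, κ)`, `k` in the local level group of `GL₂`,
`κ ∈ Tlev v`, `det k = det κ`, the norm of `Tlev v` contains the determinants of the level group,
positivity of the initial vector `Φ_v = F_v(1, 1)`, and `supp Φ_v ∩ T¹(K_v)⁻¹ (1, 0) ⊆ Tlev v`.
(At a place where `L_v / K_v` is wildly ramified `Tlev v` is NOT contained in the level group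
of `GL₂`: the norm of `T ∩ U(ϖ^N)` is smaller than `det U(ϖ^N)`.) -/
structure FinAt (L : WData K) (v : HeightOneSpectrum (𝓞 K)) : Prop where
  ax : LocAx (fun x => ‖x‖) (L.tfin v) (L.nfin v) (L.ψfin v) (L.μfin v) (L.γfin v) (L.ηfin v)
    (L.Ffin v)
  psi : ∀ x : A0.Adl K, WL.AdlAtFin v x → L.ψ x = L.ψfin v (x.2 v)
  sb : ∀ g m : Matrix (Fin 2) (Fin 2) (v.adicCompletion K), AdmL (L.tfin v) (L.nfin v) g m →
    IsLocallyConstant (L.Ffin v g m) ∧ HasCompactSupport (L.Ffin v g m)
  tlev_tor : ∀ κ ∈ L.Tlev v, InTorL (L.tfin v) (L.nfin v) κ ∧ κ.det ≠ 0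
  tlev_nhds : ∃ U ∈ 𝓝 (1 : Matrix (Fin 2) (Fin 2) (v.adicCompletion K)),
    ∀ κ ∈ U, InTorL (L.tfin v) (L.nfin v) κ → κ ∈ L.Tlev v
  tlev_mul : ∀ κ ∈ L.Tlev v, ∀ κ' ∈ L.Tlev v, κ * κ' ∈ L.Tlev v
  tlev_inv : ∀ κ ∈ L.Tlev v, κ⁻¹ ∈ L.Tlev v
  right_inv : ∀ k κ : Matrix (Fin 2) (Fin 2) (v.adicCompletion K),
    InLevL L.π.level v k → κ ∈ L.Tlev v → k.det = κ.det →
    ∀ (g m : Matrix (Fin 2) (Fin 2) (v.adicCompletion K))
      (ξ : v.adicCompletion K × v.adicCompletion K), AdmL (L.tfin v) (L.nfin v) g m →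
      L.Ffin v (g * k) (m * κ) ξ = L.Ffin v g m ξ
  right_ex : ∀ k : Matrix (Fin 2) (Fin 2) (v.adicCompletion K), InLevL L.π.level v k →
    ∃ κ ∈ L.Tlev v, κ.det = k.det
  chi_triv : ∀ κ : A0.G K, A0.IsLocalAtFin v κ → A0.finComp v κ ∈ L.Tlev v → L.χT κ = 1
  pos : (∀ ξ : v.adicCompletion K × v.adicCompletion K,
      0 ≤ (L.Ffin v 1 1 ξ).re ∧ (L.Ffin v 1 1 ξ).im = 0) ∧ L.Ffin v 1 1 (1, 0) ≠ 0
  orb : ∀ κ : Matrix (Fin 2) (Fin 2) (v.adicCompletion K),
    InTorL (L.tfin v) (L.nfin v) κ → κ.det = 1 → L.Ffin v 1 1 (actL κ⁻¹ (1, 0)) ≠ 0 →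
    κ ∈ L.Tlev v

/-- **The certificate at a good place** `v ∤ π.level`: the arithmetic of `WL.IsStd` (`good_int`,
`good_char`, `good_norm`, `good_eta`, `good_psi`, VERBATIM), `γ_v = 1`, `μ_v(𝒪_v) = 1`,
`Φ_v = 1_{𝒪_v²}`, `Tlev v = T(𝒪_v)`. -/
structure GoodAt (L : WData K) (v : HeightOneSpectrum (𝓞 K)) : Prop where
  good_int : Valued.v (algebraMap K (v.adicCompletion K) L.t) ≤ 1 ∧
    Valued.v (algebraMap K (v.adicCompletion K) L.n) ≤ 1 ∧
    Valued.v (algebraMap K (v.adicCompletion K) (L.t ^ 2 - 4 * L.n)) = 1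
  good_char : ∀ κ : A0.G K, WL.InTorusIntAt L.t L.n v κ → L.χT κ = 1
  good_norm : ∀ a : (A0.Adl K)ˣ, IsUnitIdeleAt v a →
    ∃ κ : A0.G K, WL.InTorusIntAt L.t L.n v κ ∧ Matrix.GeneralLinearGroup.det κ = a
  good_eta : (∀ a : (A0.Adl K)ˣ, IsUnitIdeleAt v a → L.η a = 1) ∧
    (WL.IsInertAt L.t L.n v → ∀ a : (A0.Adl K)ˣ, IsUnifIdeleAt v a → L.η a = -1)
  good_psi : (∀ x : A0.Adl K, WL.AdlAtFin v x → x.2 v ∈ v.adicCompletionIntegers K →
      L.ψ x = 1) ∧
    ∃ x : A0.Adl K, WL.AdlAtFin v x ∧ Valued.v (x.2 v) = WithZero.exp (1 : ℤ) ∧ L.ψ x ≠ 1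
  gamma_one : L.γfin v = 1
  meas_one : L.μfin v (v.adicCompletionIntegers K : Set (v.adicCompletion K)) = 1
  eta_unram : ∀ a : v.adicCompletion K, Valued.v a = 1 → L.ηfin v a = 1
  std : L.Ffin v 1 1 = stdFn v
  tlev : ∀ κ : Matrix (Fin 2) (Fin 2) (v.adicCompletion K), κ ∈ L.Tlev v ↔
    (InTorL (L.tfin v) (L.nfin v) κ ∧ κ.det ≠ 0 ∧
      (∀ i j : Fin 2, κ i j ∈ v.adicCompletionIntegers K) ∧
      ∀ i j : Fin 2, κ⁻¹ i j ∈ v.adicCompletionIntegers K)

/-- **The certificate at a (complex) infinite place `u`**: the character, the Gaussian initial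
vector, right invariance under the pairs `(k, κ)`, `k ∈ U(2)`, `κ ∈ T(K_u) ∩ U(2)`,
`det k = det κ`, joint continuity, uniform Gaussian decay on the bounded sets of admissible
pairs.  (The invariance under the positive real scalars follows from `ax.diag` and `ax.tor`:
`(z, z) = (d(z²) t(z), z)` acts by `η_u(z) = 1`.) -/
structure CpxAt (L : WData K) (u : InfinitePlace K) : Prop where
  ax : LocAx (fun x => ‖x‖ ^ u.mult) (L.tinf u) (L.ninf u) (L.ψinf u) (L.μinf u) (L.γinf u)
    (L.ηinf u) (L.Finf u)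
  psi : ∀ x : A0.Adl K, WL.AdlAtInf u x → L.ψ x = L.ψinf u (x.1 u)
  eta_one : ∀ a : u.Completion, a ≠ 0 → L.ηinf u a = 1
  gauss : ∃ c : ℂ, c ≠ 0 ∧
    (∀ x : u.Completion, L.ψinf u x = Complex.exp (4 * Real.pi * Complex.I *
        (((c * InfinitePlace.Completion.extensionEmbedding u x).re : ℝ) : ℂ))) ∧
    ∀ ω₁ ω₂ : ℂ, ω₁ + ω₂ = u.embedding L.t → ω₁ * ω₂ = u.embedding L.n →
      ∀ ξ : u.Completion × u.Completion, L.Finf u 1 1 ξ = gaussL u c ω₁ ω₂ ξ
  right_inv : ∀ k κ : Matrix (Fin 2) (Fin 2) u.Completion,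
    embMat u k * (embMat u k).conjTranspose = 1 →
    embMat u κ * (embMat u κ).conjTranspose = 1 →
    InTorL (L.tinf u) (L.ninf u) κ → k.det = κ.det →
    ∀ (g m : Matrix (Fin 2) (Fin 2) u.Completion) (ξ : u.Completion × u.Completion),
      AdmL (L.tinf u) (L.ninf u) g m → L.Finf u (g * k) (m * κ) ξ = L.Finf u g m ξ
  cont : ContinuousOn
    (fun q : (Matrix (Fin 2) (Fin 2) u.Completion × Matrix (Fin 2) (Fin 2) u.Completion) ×
        (u.Completion × u.Completion) => L.Finf u q.1.1 q.1.2 q.2)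
    {q | AdmL (L.tinf u) (L.ninf u) q.1.1 q.1.2}
  decay : ∀ R : ℝ, ∃ A δ : ℝ, 0 < δ ∧
    ∀ g m : Matrix (Fin 2) (Fin 2) u.Completion, AdmL (L.tinf u) (L.ninf u) g m →
      (∀ i j : Fin 2, ‖g i j‖ ≤ R ∧ ‖m i j‖ ≤ R ∧ ‖g⁻¹ i j‖ ≤ R ∧ ‖m⁻¹ i j‖ ≤ R) →
      ∀ ξ : u.Completion × u.Completion,
        ‖L.Finf u g m ξ‖ ≤ A * Real.exp (-δ * (‖ξ.1‖ ^ 2 + ‖ξ.2‖ ^ 2))

/-- **The product formula for the integrals**: for local functions which are continuous and
integrable, standard at almost all finite places, the product is integrable on `𝔸_K²` and its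
integral is `c` times the product of the local integrals. -/
def ProdInt (L : WData K) : Prop :=
  L.c ≠ 0 ∧
  ∀ (f : ∀ u : InfinitePlace K, u.Completion × u.Completion → ℂ)
    (f' : ∀ v : HeightOneSpectrum (𝓞 K), v.adicCompletion K × v.adicCompletion K → ℂ),
    (∀ u, Continuous (f u) ∧ IntegrableL (L.μinf u) (f u)) →
    (∀ v, Continuous (f' v) ∧ IntegrableL (L.μfin v) (f' v)) →
    (∃ S : Finset (HeightOneSpectrum (𝓞 K)), ∀ v, v ∉ S → f' v = stdFn v) →
    Integrable2 L.μ (prodFn f f') ∧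
      integral2 L.μ (prodFn f f')
        = L.c * ((∏ u : InfinitePlace K, intL (L.μinf u) (f u)) *
            ∏ᶠ v : HeightOneSpectrum (𝓞 K), intL (L.μfin v) (f' v))

/-- **The product data are GOOD.** -/
structure WData.IsGood (L : WData K) : Prop where
  torus : IsTorusChar L.t L.n L.χT
  char : IsAdeleChar L.ψ
  measured : L.toKData.IsMeasured
  induced : InducedDataT L.t L.n L.χT L.π
  cpx : ∀ u : InfinitePlace K, CpxAt L u
  fin : ∀ v : HeightOneSpectrum (𝓞 K), FinAt L v
  good : ∀ v : HeightOneSpectrum (𝓞 K), ¬ v.asIdeal ∣ L.π.level → GoodAt L v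
  eta_prod : ∀ a : (A0.Adl K)ˣ, L.η a
    = (∏ u : InfinitePlace K, L.ηinf u ((a : A0.Adl K).1 u)) *
        ∏ᶠ v : HeightOneSpectrum (𝓞 K), L.ηfin v ((a : A0.Adl K).2 v)
  prod_int : ProdInt L

end Data

/-! ## 3. The outputs of the consumer leaves (fields of `KData.Good` and `WL.IsStd`, VERBATIM) -/

section Out

variable {K : Type} [Field K] [NumberField K]

/-- The BOREL part: `IsWeil.unip`, `IsWeil.tor1`, `IsStd.diagA`, `IsStd.torA`, and the fields of
`IsQuadChar` except `rat`. -/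
structure BorelOut (D : KData K) (η : (A0.Adl K)ˣ → ℂ) : Prop where
  unip : ∀ nU : A0.Adl K → A0.G K, IsUpperUnip nU →
    ∀ (x : A0.Adl K) (g m : A0.G K) (ξ : A0.Adl K × A0.Adl K), Adm D.t D.n g m →
      D.F (nU x * g) m ξ = D.ψ (x * qf D.t D.n ξ) * D.F g m ξ
  tor1 : ∀ m' : A0.G K, InTorus1 D.t D.n m' →
    ∀ (g m : A0.G K) (ξ : A0.Adl K × A0.Adl K), Adm D.t D.n g m →
      D.F g (m' * m) ξ = D.F g m (actV m'⁻¹ ξ)
  diagA : ∀ (s : A0.G K) (a : (A0.Adl K)ˣ), WL.IsDiagSLA s a →
    ∀ (g m : A0.G K) (ξ : A0.Adl K × A0.Adl K), Adm D.t D.n g m →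
      D.F (s * g) m ξ
        = η a * ((T1.adNorm K (a : A0.Adl K) : ℝ) : ℂ) * D.F g m ((a : A0.Adl K) • ξ)
  torA : ∀ μ' d : A0.G K, InTorus D.t D.n μ' →
    WL.IsDiagOneA d (Matrix.GeneralLinearGroup.det μ') →
    ∀ (g m : A0.G K) (ξ : A0.Adl K × A0.Adl K), Adm D.t D.n g m →
      ((Real.sqrt (T1.adNorm K ((Matrix.GeneralLinearGroup.det μ' : (A0.Adl K)ˣ) : A0.Adl K))
          : ℝ) : ℂ) * D.F (d * g) (μ' * m) ξ
        = D.F g m (actV μ'⁻¹ ξ)
  eta_mul : ∀ a b : (A0.Adl K)ˣ, η (a * b) = η a * η b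
  eta_sq : ∀ a : (A0.Adl K)ˣ, η a = 1 ∨ η a = -1
  eta_cont : Continuous η
  eta_norm : ∀ m : A0.G K, InTorus D.t D.n m → η (Matrix.GeneralLinearGroup.det m) = 1

/-- `IsWeil.weyl` and `IsQuadChar.rat`. -/
structure WeylOut (D : KData K) (η : (A0.Adl K)ˣ → ℂ) : Prop where
  weyl : ∀ w : A0.G K, IsWeyl w →
    ∀ (g m : A0.G K) (ξ : A0.Adl K × A0.Adl K), Adm D.t D.n g m →
      D.F (w * g) m ξ = D.int2 fun y => D.F g m y * D.ψ (bf D.t D.n ξ y)
  rat : ∀ x : Kˣ, η (Units.map (algebraMap K (A0.Adl K)).toMonoidHom x) = 1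

/-- `IsWeil.diagK` and `IsWeil.torK`. -/
structure RatOut (D : KData K) : Prop where
  diagK : ∀ (s : A0.G K) (a : K), a ≠ 0 → IsDiagSL s a →
    ∀ (g m : A0.G K) (ξ : A0.Adl K × A0.Adl K), Adm D.t D.n g m →
      D.F (s * g) m ξ = D.F g m (algebraMap K (A0.Adl K) a • ξ)
  torK : ∀ (μ' d : A0.G K) (a : K), InTorusRat D.t D.n μ' →
    ((Matrix.GeneralLinearGroup.det μ' : (A0.Adl K)ˣ) : A0.Adl K) = algebraMap K (A0.Adl K) a →
    IsDiagOne d a →
    ∀ (g m : A0.G K) (ξ : A0.Adl K × A0.Adl K), Adm D.t D.n g m →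
      D.F (d * g) (μ' * m) ξ = D.F g m (actV μ'⁻¹ ξ)

/-- `IsStd.decay`. -/
def DecayOut (D : KData K) : Prop :=
  ∀ C : Set (A0.G K × A0.G K), IsCompact C →
    ∃ (B : Set (FiniteAdeleRing (𝓞 K) K × FiniteAdeleRing (𝓞 K) K)) (A δ : ℝ),
      IsCompact B ∧ 0 < δ ∧
      ∀ p : A0.G K × A0.G K, p ∈ C → Adm D.t D.n p.1 p.2 → ∀ ξ : A0.Adl K × A0.Adl K,
        ((ξ.1.2, ξ.2.2) ∉ B → D.F p.1 p.2 ξ = 0) ∧
        ‖D.F p.1 p.2 ξ‖
          ≤ A * Real.exp (-δ * ∑ w : InfinitePlace K, (‖ξ.1.1 w‖ ^ 2 + ‖ξ.2.1 w‖ ^ 2))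

/-- `IsStd.good_inv` and `IsStd.cpx_inv`. -/
structure InvOut (D : KData K) : Prop where
  good_inv : ∀ v : HeightOneSpectrum (𝓞 K), ¬ v.asIdeal ∣ D.π.level →
    ∀ k κ : A0.G K, WL.InMaxCompactAt v k → WL.InTorusIntAt D.t D.n v κ →
      Matrix.GeneralLinearGroup.det k = Matrix.GeneralLinearGroup.det κ →
      ∀ (g m : A0.G K) (ξ : A0.Adl K × A0.Adl K), Adm D.t D.n g m →
        D.F (g * k) (m * κ) ξ = D.F g m ξ
  cpx_inv : ∀ (u : InfinitePlace K) (k κ : A0.G K), A0.IsArchCompact u k → InTorus D.t D.n κ →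
    A0.IsArchCompact u κ → Matrix.GeneralLinearGroup.det k = Matrix.GeneralLinearGroup.det κ →
    ∀ (g m : A0.G K) (ξ : A0.Adl K × A0.Adl K), Adm D.t D.n g m →
      D.F (g * k) (m * κ) ξ = D.F g m ξ

/-- `IsStd.good_std` and `IsStd.cpx`. -/
structure StdLocOut (D : KData K) : Prop where
  good_std : ∀ v : HeightOneSpectrum (𝓞 K), ¬ v.asIdeal ∣ D.π.level →
    ∀ g m : A0.G K, Adm D.t D.n g m → A0.TrivAtFin v g → A0.TrivAtFin v m →
      (∀ ξ : A0.Adl K × A0.Adl K, ¬ WL.VecIntegralAt v ξ → D.F g m ξ = 0) ∧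
      ∀ ξ ξ' : A0.Adl K × A0.Adl K, WL.AgreeOffFin v ξ ξ' → WL.VecIntegralAt v ξ →
        WL.VecIntegralAt v ξ' → D.F g m ξ = D.F g m ξ'
  cpx : ∀ u : InfinitePlace K, u.IsComplex → ∃ c : ℂ, c ≠ 0 ∧
    (∀ x : A0.Adl K, WL.AdlAtInf u x → D.ψ x = Complex.exp (4 * Real.pi * Complex.I *
        (((c * InfinitePlace.Completion.extensionEmbedding u (x.1 u)).re : ℝ) : ℂ))) ∧
    ∀ ω₁ ω₂ : ℂ, ω₁ + ω₂ = u.embedding D.t → ω₁ * ω₂ = u.embedding D.n →
      ∀ g m : A0.G K, Adm D.t D.n g m → A0.TrivAtInf u g → A0.TrivAtInf u m →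
        ∀ ξ ξ' : A0.Adl K × A0.Adl K, WL.AgreeOffInf u ξ ξ' →
          D.F g m ξ * WL.gauss u c ω₁ ω₂ ξ' = D.F g m ξ' * WL.gauss u c ω₁ ω₂ ξ

/-- `IsStd.orb_dom` and `IsStd.ne_zero`. -/
structure OrbOut (D : KData K) : Prop where
  orb_dom : ∀ C : Set (A0.G K × A0.G K), IsCompact C →
    ∃ h : A0.G K → ℝ,
      (letI : MeasurableSpace (A0.G K) := borel (A0.G K)
       IntegrableOn h {m | InTorus1 D.t D.n m} D.μT) ∧
      ∀ p : A0.G K × A0.G K, p ∈ C → Adm D.t D.n p.1 p.2 → ∀ m : A0.G K, InTorus1 D.t D.n m →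
        ‖D.F p.1 (m * p.2) (1, 0)‖ ≤ h m
  ne_zero : ∃ g mg : A0.G K, Adm D.t D.n g mg ∧
    D.intT {m | InTorus1 D.t D.n m} (fun m => D.F g (m * mg) (1, 0) * D.χT (m * mg)) ≠ 0

end Out

/-! ## 4. The leaves -/

section Leaves

/-- **A2.03.1.1 DATA (the construction; STATION).**  For a torus character over a totally complex
field there are GOOD product data with the prescribed `t`, `n`, `χT` and a level contained in any
prescribed nonzero ideal.  Sub-leaves (prose, registry rows A2.03.1.1.x):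
PSI (`∃ ψ`, `IsAdeleChar`, local components, conductor `𝒪_v` at almost all `v`),
MEAS (`∃ μ`, `IsCovolOne`; local Haar measures, `ProdInt`),
TORUS-MEAS (`IsMeasured`: Haar measure of `T¹(𝔸_K)`, Fujisaki for the norm-one torus),
LOC-FIN (THE LOCAL WEIL REPRESENTATION at a finite place: `∃ γ_v η_v μ_v F_v`, `LocAx`, `sb`;
  explicit Bruhat formulas `r(g) Φ(ξ) = γ η(-c) |c|⁻¹ ∫ ψ((a Q(ξ) - B(ξ,y) + d Q(y)) / c) Φ(y) dy`
  (`c ≠ 0`), `η(a) |a| ψ(ab Q(ξ)) Φ(a ξ)` (`c = 0`); Fourier inversion on `S(K_v²)`; the Gauss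
  identity `FT(ψ(aQ) · FT Φ) = γ η(-a) |a|⁻¹ ψ(-Q/a) FT(ψ(-Q/a) Φ)(-·/a)`; `η_v` is a character:
  local norm index `≤ 2` and universality of `N(x) + N(y)`),
LOC-GOOD (`GoodAt`: `Φ_v = 1_{𝒪_v²}` is fixed by `R(𝒪_v)`, `γ_v = 1`),
LOC-BAD (`FinAt` at `v ∣ level`: `Φ_v = 1_{1 + ϖ^M 𝒪_{L,v}}`, `Tlev v = 1 + ϖ^M 𝒪_{L,v}`,
  the level is chosen AFTER `M`),
LOC-CPX (`CpxAt`: partial Fourier transform to the natural action on `S(ℂ²)`),
LEVEL + INDUCED (the level; definition of `π.a`, `π.b`; `InducedDataT`),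
ASM (assembly of `L` and of `IsGood`). -/
def DataC : Prop :=
  ∀ (K : Type) [Field K] [NumberField K] (t n : K) (χT : A0.G K → ℂ),
    T1.T1Out K → IsTorusChar t n χT → (∀ u : InfinitePlace K, u.IsComplex) →
    ∀ 𝔡 : Ideal (𝓞 K), 𝔡 ≠ ⊥ →
    ∃ L : WData K, L.t = t ∧ L.n = n ∧ L.χT = χT ∧ L.π.level ≤ 𝔡 ∧ L.IsGood

/-- **A2.03.1.2 BOREL.**  The adelic Borel formulas of the product family, from the local ones:
components of a product of matrices, `ψ = ∏ ψ_v` (from `psi` and the continuity of `ψ`),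
`η = ∏ η_v`, `|a|_𝔸 = ∏ |a_v|_v`; finiteness of the products (at almost all `v` the factor is
`stdFn v (ξ_v) = 1`: `GoodAt.std`, `FinAt.right_inv`). -/
def BorelC : Prop :=
  ∀ (K : Type) [Field K] [NumberField K] (L : WData K),
    T1.T1Out K → L.IsGood → BorelOut L.toKData L.η

/-- **A2.03.1.3 REG.**  Regularity of the product family and uniform decay: at the finite places
the functions `F_v g m`, `(g, m)` in a compact set, take finitely many values (`FinAt.right_inv`,
`tlev_nhds`, `sb`); Gaussian bounds at the infinite places (`CpxAt.decay`, `cont`); the points of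
`K²` in the support form a lattice in `K_∞²` (Mathlib `mixedEmbedding`); `ProdInt` for the
integrability. -/
def RegC : Prop :=
  ∀ (K : Type) [Field K] [NumberField K] (L : WData K),
    T1.T1Out K → L.IsGood → L.toKData.IsRegular ∧ DecayOut L.toKData

/-- **A2.03.1.4 WEYL + RECIPROCITY.**  The global Weyl formula with constant `1` and `η = 1` on
`K^×`: by `LocAx.weyl` and `ProdInt`, `F (w g) m = Γ c⁻¹ FT(F g m)`, `Γ = ∏ γ_v`; then
`Γ c⁻¹ = 1` and `η(a) = 1` by Poisson summation and the relations `(w n(1))³ = 1`, `w⁴ = 1`,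
`w n(a) w = t(-a⁻¹) n(-a) w n(-a⁻¹)` applied to `Θ = ∑_{ξ ∈ K²} F · · ξ` (see the header);
`Θ(1, 1) > 0` by `FinAt.pos` and `CpxAt.gauss`. -/
def WeylC : Prop :=
  Poisson2C →
  ∀ (K : Type) [Field K] [NumberField K] (L : WData K),
    T1.T1Out K → L.IsGood → BorelOut L.toKData L.η → L.toKData.IsRegular →
    WeylOut L.toKData L.η

/-- **A2.03.1.5 RAT.**  `diagK` and `torK` from `diagA`, `torA`, `η = 1` on `K^×` and the product
formula `|a|_𝔸 = 1` (`T1.AdNormC`).  No Weil representation. -/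
def RatC : Prop :=
  ∀ (K : Type) [Field K] [NumberField K] (D : KData K) (η : (A0.Adl K)ˣ → ℂ),
    T1.T1Out K → BorelOut D η → WeylOut D η → RatOut D

/-- **A2.03.1.6 RIGHT-INV.**  Right invariance: the level group (global `κ` from the local ones,
`FinAt.right_ex`, `right_inv`, `chi_triv` and the continuity of `χT`), the positive real scalars
(`(z, z) = (d(z²) t(z), z)`), the maximal compact subgroups (`κ = s · 1`, `s² = det k`;
`CpxAt.right_inv`); `χT = 1` on the connected groups `T(K_u)`. -/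
def RightInvC : Prop :=
  ∀ (K : Type) [Field K] [NumberField K] (L : WData K),
    T1.T1Out K → L.IsGood → BorelOut L.toKData L.η → L.toKData.IsRightInv ∧ InvOut L.toKData

/-- **A2.03.1.7 STD-LOC.**  The factor at `v` of the product family for `g`, `m` trivial at `v`:
`stdFn v` at the good places, the Gaussian at the complex places. -/
def StdLocC : Prop :=
  ∀ (K : Type) [Field K] [NumberField K] (L : WData K),
    T1.T1Out K → L.IsGood → StdLocOut L.toKData

/-- **A2.03.1.8 ORB.**  The orbital integrand is dominated (`tor1`, `DecayOut`, the orbit map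
`T¹(𝔸) → 𝔸²` is proper, `IsMeasured.inv`, `compact_lt`) and the orbital integral at `(1, 1)` is
`> 0` (the integrand is continuous, `≥ 0`: `FinAt.pos`, `orb`, `chi_triv`, and `> 0` at `1`;
`IsMeasured.open_pos`). -/
def OrbC : Prop :=
  ∀ (K : Type) [Field K] [NumberField K] (L : WData K),
    T1.T1Out K → L.IsGood → BorelOut L.toKData L.η → L.toKData.IsRegular →
    DecayOut L.toKData → OrbOut L.toKData

end Leaves

/-! ## 5. The top (PROVED) -/

/-- **The top of the station**: `WL.WeilExC` from the leaves, the output of tower T1 and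
`Poisson2C`. -/
theorem weilEx_of_leaves467
    (hT1 : ∀ (K : Type) [Field K] [NumberField K], T1.T1Out K) (hP : Poisson2C)
    (hData : DataC) (hBorel : BorelC) (hReg : RegC) (hWeyl : WeylC) (hRat : RatC)
    (hRInv : RightInvC) (hStd : StdLocC) (hOrb : OrbC) : WL.WeilExC := by
  intro K _ _ t n χT hχ hcpx 𝔡 h𝔡
  obtain ⟨L, ht, hn, hχT, hlev, hgood⟩ := hData K t n χT (hT1 K) hχ hcpx 𝔡 h𝔡
  have hB := hBorel K L (hT1 K) hgood
  obtain ⟨hreg, hdecay⟩ := hReg K L (hT1 K) hgood
  have hW := hWeyl hP K L (hT1 K) hgood hB hreg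
  have hR := hRat K L.toKData L.η (hT1 K) hB hW
  obtain ⟨hri, hinv⟩ := hRInv K L (hT1 K) hgood hB
  have hS := hStd K L (hT1 K) hgood
  have hO := hOrb K L (hT1 K) hgood hB hreg hdecay
  have hind : InducedDataT t n χT L.toKData.π := by
    have h := hgood.induced
    rw [ht, hn, hχT] at h
    exact h
  refine ⟨L.toKData, L.η, ht, hn, hχT, hlev, ?_, hind, ?_⟩
  · exact
      { torus := hgood.torus
        char := hgood.char
        measured := hgood.measured
        weil :=
          { unip := hB.unip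
            weyl := hW.weyl
            diagK := hR.diagK
            torK := hR.torK
            tor1 := hB.tor1 }
        regular := hreg
        right_inv := hri }
  · exact
      { quad :=
          { mul := hB.eta_mul
            sq := hB.eta_sq
            cont := hB.eta_cont
            rat := hW.rat
            norm := hB.eta_norm }
        diagA := hB.diagA
        torA := hB.torA
        good_int := fun v hv => (hgood.good v hv).good_int
        good_char := fun v hv => (hgood.good v hv).good_char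
        good_norm := fun v hv => (hgood.good v hv).good_norm
        good_eta := fun v hv => (hgood.good v hv).good_eta
        good_psi := fun v hv => (hgood.good v hv).good_psi
        good_std := hS.good_std
        good_inv := hinv.good_inv
        cpx := hS.cpx
        cpx_inv := hinv.cpx_inv
        decay := hdecay
        orb_dom := hO.orb_dom
        ne_zero := hO.ne_zero }

end Fermat.Agent.LT.A2.WX467

end

end
-- ===== PACK-END LT/A2/H467/WeilExSpec.lean

-- ===== PACK-BEGIN LT/A2/H456/BC.lean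
section



/-!
# Row LT, tower A2, leaf A2.02 `TorusCharC`: `BaseChangeC83`, `LocalMapC83`, `IntUpC83` VERBATIM
(helper456, on the base change of helper743 `LT/A2/H743/BaseChange.lean`), OFF-MAIN
-/

set_option autoImplicit false

open IsDedekindDomain NumberField AutomorphicForm

noncomputable section

namespace Fermat.Agent.LT.A2.H456

open Fermat.Agent.LT.H130 Fermat.Agent.LT.H556 Fermat.Agent.LT.A2 Fermat.Agent.LT.A2.H83

variable {K L : Type} [Field K] [NumberField K] [Field L] [NumberField L] [Algebra K L]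

theorem finUnder_eq456 {w : HeightOneSpectrum (𝓞 L)} {v : HeightOneSpectrum (𝓞 K)}
    (h : LiesOverPl K w v) : H743.finUnder743 K L w = v :=
  HeightOneSpectrum.ext h

theorem localMapC456 : LocalMapC83 := by
  intro K L _ _ _ _ _ v w ho
  have hv := finUnder_eq456 ho
  subst hv
  refine ⟨H743.finLoc743 K L w, H743.continuous_finLoc743 K L w, ?_, ?_⟩
  · intro x
    exact H743.finLoc_coe743 K L w x
  · intro y hy
    rw [H743.valued_finLoc743]
    exact pow_le_one' hy _

theorem baseChangeC456 : BaseChangeC83 := by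
  intro K L _ _ _ _ _
  refine ⟨H743.finBC743 K L, H743.continuous_finBC743 K L, ?_⟩
  intro a v w x ho hax
  have hv := finUnder_eq456 ho
  subst hv
  rw [H743.finBC_apply743, hax]
  exact H743.finLoc_coe743 K L w x

theorem intUpC456 : IntUpC83 := by
  intro K L _ _ _ _ _ v w ho x hx
  have hv := finUnder_eq456 ho
  subst hv
  unfold IntAt83 at hx ⊢
  have h1 := H743.valued_finLoc743 K L w
    (algebraMap K ((H743.finUnder743 K L w).adicCompletion K) x)
  have h2 : H743.finLoc743 K L w (algebraMap K ((H743.finUnder743 K L w).adicCompletion K) x)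
      = algebraMap L (w.adicCompletion L) (algebraMap K L x) := H743.finLoc_coe743 K L w x
  rw [h2] at h1
  rw [h1]
  exact pow_le_one' hx _

end Fermat.Agent.LT.A2.H456

end

end
-- ===== PACK-END LT/A2/H456/BC.lean

-- ===== PACK-BEGIN LT/A2/H83/InfTriv.lean
section


/-!
# Row LT, tower A2, sub-leaf of A2.02: `InfTrivC83` (helper83), OFF-MAIN

A character of finite order of the idele group of a totally complex number field is trivial on the
ideles supported at the infinite places: every element of `ℂ` is an `n`-th power, so such an idele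
is an `n`-th power in the idele group.  No topology is used.
-/

set_option autoImplicit false

open IsDedekindDomain NumberField AutomorphicForm
open scoped MatrixGroups

noncomputable section

namespace Fermat.Agent.LT.A2.H83

open Fermat.Agent.LT.H130 Fermat.Agent.LT.H556 Fermat.Agent.LT.A2

/-- `n`-th roots in the completion at a complex place. -/
theorem exists_pow_eq_of_isComplex83 {L : Type} [Field L] [NumberField L] {u : InfinitePlace L}
    (hu : u.IsComplex) {n : ℕ} (hn : 0 < n) (x : u.Completion) : ∃ y : u.Completion, y ^ n = x := by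
  obtain ⟨c, hc⟩ := IsAlgClosed.exists_pow_nat_eq
    (InfinitePlace.Completion.ringEquivComplexOfIsComplex hu x) hn
  refine ⟨(InfinitePlace.Completion.ringEquivComplexOfIsComplex hu).symm c, ?_⟩
  apply (InfinitePlace.Completion.ringEquivComplexOfIsComplex hu).injective
  rw [map_pow, RingEquiv.apply_symm_apply, hc]

/-- An idele of a totally complex field whose finite components are `1` is an `n`-th power. -/
theorem exists_pow_eq_idele83 {L : Type} [Field L] [NumberField L]
    (hcx : ∀ u : InfinitePlace L, u.IsComplex) {n : ℕ} (hn : 0 < n) (z : (A0.Adl L)ˣ)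
    (hz : ∀ w : HeightOneSpectrum (𝓞 L), (z : A0.Adl L).2 w = 1) :
    ∃ y : (A0.Adl L)ˣ, y ^ n = z := by
  choose y hy using fun u : InfinitePlace L =>
    exists_pow_eq_of_isComplex83 (hcx u) hn ((z : A0.Adl L).1 u)
  have hz2 : (z : A0.Adl L).2 = 1 := FiniteAdeleRing.ext L (fun w => by
    rw [hz w]
    rfl)
  obtain ⟨Y, hY1, hY2⟩ : ∃ Y : A0.Adl L, Y.1 = y ∧ Y.2 = 1 := ⟨(y, 1), rfl, rfl⟩
  have hYn : Y ^ n = (z : A0.Adl L) := by
    have h1 : (Y ^ n).1 = (z : A0.Adl L).1 := by
      show Y.1 ^ n = _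
      rw [hY1]
      funext u
      exact hy u
    have h2 : (Y ^ n).2 = (z : A0.Adl L).2 := by
      show Y.2 ^ n = _
      rw [hY2, one_pow, hz2]
    exact Prod.ext h1 h2
  have hYu : IsUnit Y := by
    have h1 : IsUnit (Y ^ n) := hYn ▸ z.isUnit
    exact (isUnit_pow_iff hn.ne').mp h1
  obtain ⟨Yu, hYu'⟩ := hYu
  refine ⟨Yu, Units.ext ?_⟩
  rw [Units.val_pow_eq_pow_val, hYu', hYn]

/-- **INF-TRIV** (helper83), VERBATIM. -/
theorem infTrivC_h83 : InfTrivC83 := by
  intro L _ _ hcx χ hfin z hz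
  obtain ⟨n, hn, hχn⟩ := hfin
  obtain ⟨y, rfl⟩ := exists_pow_eq_idele83 hcx hn z hz
  rw [map_pow, hχn]

end Fermat.Agent.LT.A2.H83

end

end
-- ===== PACK-END LT/A2/H83/InfTriv.lean

-- ===== PACK-BEGIN LT/A2/H83/NormOneElt.lean
section


/-!
# Row LT, tower A2, sub-leaf of A2.02: `NormOneEltC83` (helper83), OFF-MAIN

`L / K` quadratic, `w₁ ≠ w₂` over `v`.  The nontrivial automorphism `σ` swaps `w₁` and `w₂`
(the norm `x σ(x)` of `x ∈ w₁` lies in `v ⊆ w₂`; prime avoidance by hand), so there is no third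
place over `v`; for `α ∈ w₁ ∖ (w₁² ∪ w₂)` the element `β = α / σ(α)` has norm `1`,
`w₁(β) = 1`, `w₂(β) = -1`.
-/

set_option autoImplicit false
set_option linter.unusedSectionVars false
set_option linter.unusedSimpArgs false
set_option linter.style.haveILetI false

open IsDedekindDomain NumberField AutomorphicForm Polynomial
open scoped MatrixGroups

noncomputable section

namespace Fermat.Agent.LT.A2.H83

open Fermat.Agent.LT.H130 Fermat.Agent.LT.H556 Fermat.Agent.LT.A2

section Aux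

/-- An element of `w ∖ w²` has valuation `exp (-1)`. -/
theorem intVal_eq_exp_neg_one83 {R : Type*} [CommRing R] [IsDedekindDomain R]
    (w : HeightOneSpectrum R) {x : R} (h1 : x ∈ w.asIdeal) (h2 : x ∉ w.asIdeal ^ 2) :
    w.intValuation x = WithZero.exp (-1 : ℤ) := by
  have hx : x ≠ 0 := by
    rintro rfl
    exact h2 (zero_mem _)
  have hle : w.intValuation x ≤ WithZero.exp (-((1 : ℕ) : ℤ)) :=
    (w.intValuation_le_pow_iff_mem x 1).mpr (by simpa using h1)
  have hnle : ¬ w.intValuation x ≤ WithZero.exp (-((2 : ℕ) : ℤ)) := fun h =>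
    h2 ((w.intValuation_le_pow_iff_mem x 2).mp h)
  rw [w.intValuation_if_neg hx] at hle hnle ⊢
  rw [WithZero.exp_le_exp] at hle hnle
  rw [WithZero.exp_inj]
  omega

variable {K L : Type} [Field K] [NumberField K] [Field L] [NumberField L] [Algebra K L]

/-- The nontrivial automorphism of a quadratic extension. -/
theorem exists_conj83 (h2 : Module.finrank K L = 2) :
    ∃ σ : L ≃ₐ[K] L, (∀ x, σ (σ x) = x) ∧ ∀ x, σ x = x → ∃ y : K, algebraMap K L y = x := by
  haveI : FiniteDimensional K L := Module.finite_of_finrank_pos (by omega)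
  haveI : Algebra.IsQuadraticExtension K L := ⟨h2⟩
  haveI : IsGalois K L := inferInstance
  have hcard : Nat.card (L ≃ₐ[K] L) = 2 := by rw [IsGalois.card_aut_eq_finrank, h2]
  obtain ⟨σ, hσ, huniq⟩ := (Nat.card_eq_two_iff' (1 : L ≃ₐ[K] L)).mp hcard
  have hsq : σ * σ = 1 := by
    have := pow_card_eq_one' (G := L ≃ₐ[K] L) (x := σ)
    rwa [hcard, pow_two] at this
  refine ⟨σ, fun x => ?_, fun x hx => ?_⟩
  · have := congrArg (fun τ : L ≃ₐ[K] L => τ x) hsq
    simpa using this
  · have hmem : x ∈ Set.range (algebraMap K L) := by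
      rw [IsGalois.mem_range_algebraMap_iff_fixed]
      intro f
      by_cases hf : f = 1
      · rw [hf]; rfl
      · rw [huniq f hf]; exact hx
    exact hmem


/-- The restriction of `σ` to the ring of integers. -/
def conjInt83 (σ : L ≃ₐ[K] L) : 𝓞 L ≃+* 𝓞 L := RingOfIntegers.mapRingEquiv σ.toRingEquiv

theorem conjInt83_coe (σ : L ≃ₐ[K] L) (x : 𝓞 L) : ((conjInt83 σ x : 𝓞 L) : L) = σ (x : L) := rfl

theorem algebraMap_int_coe83 (y : 𝓞 K) :
    ((algebraMap (𝓞 K) (𝓞 L) y : 𝓞 L) : L) = algebraMap K L (y : K) := rfl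

/-- The norm `x σ(x)` of an integer of `L` is an integer of `K`. -/
theorem norm_descends83 (σ : L ≃ₐ[K] L) (hinv : ∀ x, σ (σ x) = x)
    (hfix : ∀ x, σ x = x → ∃ y : K, algebraMap K L y = x) (x : 𝓞 L) :
    ∃ y : 𝓞 K, algebraMap (𝓞 K) (𝓞 L) y = x * conjInt83 σ x := by
  have hfixed : σ ((x : L) * σ (x : L)) = (x : L) * σ (x : L) := by
    rw [map_mul, hinv, mul_comm]
  obtain ⟨y₀, hy₀⟩ := hfix _ hfixed
  have hint : IsIntegral ℤ y₀ := by
    have h1 : IsIntegral ℤ ((x * conjInt83 σ x : 𝓞 L) : L) := (x * conjInt83 σ x).2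
    have h2 : ((x * conjInt83 σ x : 𝓞 L) : L) = algebraMap K L y₀ := by
      rw [hy₀]; rfl
    rw [h2] at h1
    exact (isIntegral_algebraMap_iff (algebraMap K L).injective).mp h1
  refine ⟨⟨y₀, hint⟩, ?_⟩
  apply RingOfIntegers.ext
  exact hy₀

/-- **Transitivity, quadratic case.**  Two distinct primes over `v` are swapped by `σ`. -/
theorem swap_mem83 (σ : L ≃ₐ[K] L) (hinv : ∀ x, σ (σ x) = x)
    (hfix : ∀ x, σ x = x → ∃ y : K, algebraMap K L y = x)
    (v : HeightOneSpectrum (𝓞 K)) (P Q : HeightOneSpectrum (𝓞 L)) (hPQ : P ≠ Q)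
    (hP : LiesOverPl K P v) (hQ : LiesOverPl K Q v) (x : 𝓞 L) (hx : x ∈ P.asIdeal) :
    conjInt83 σ x ∈ Q.asIdeal := by
  have key : ∀ z : 𝓞 L, z ∈ P.asIdeal → z ∉ Q.asIdeal → conjInt83 σ z ∈ Q.asIdeal := by
    intro z hz hzQ
    obtain ⟨y, hy⟩ := norm_descends83 σ hinv hfix z
    have hyv : y ∈ v.asIdeal := by
      rw [← hP, Ideal.mem_comap, hy]
      exact Ideal.mul_mem_right _ _ hz
    have hyQ : algebraMap (𝓞 K) (𝓞 L) y ∈ Q.asIdeal := by
      rw [← hQ, Ideal.mem_comap] at hyv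
      exact hyv
    rw [hy] at hyQ
    rcases Q.isPrime.mem_or_mem hyQ with h | h
    · exact absurd h hzQ
    · exact h
  -- an element of `P` outside `Q`
  obtain ⟨x₀, hx₀P, hx₀Q⟩ : ∃ x₀ : 𝓞 L, x₀ ∈ P.asIdeal ∧ x₀ ∉ Q.asIdeal := by
    by_contra hcon
    push Not at hcon
    have hle : P.asIdeal ≤ Q.asIdeal := fun z hz => hcon z hz
    have hPmax : P.asIdeal.IsMaximal := P.isMaximal
    have := hPmax.eq_of_le Q.isPrime.ne_top hle
    exact hPQ (HeightOneSpectrum.ext this)
  by_cases hxQ : x ∈ Q.asIdeal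
  · have h1 : conjInt83 σ (x + x₀) ∈ Q.asIdeal := by
      apply key _ (Ideal.add_mem _ hx hx₀P)
      intro h
      exact hx₀Q ((Ideal.add_mem_iff_right _ hxQ).mp h)
    have h2 : conjInt83 σ x₀ ∈ Q.asIdeal := key _ hx₀P hx₀Q
    rw [map_add] at h1
    exact (Ideal.add_mem_iff_left _ h2).mp h1
  · exact key _ hx hxQ

/-- `P = σ⁻¹ Q`. -/
theorem eq_comap_conj83 (σ : L ≃ₐ[K] L) (hinv : ∀ x, σ (σ x) = x)
    (hfix : ∀ x, σ x = x → ∃ y : K, algebraMap K L y = x)
    (v : HeightOneSpectrum (𝓞 K)) (P Q : HeightOneSpectrum (𝓞 L)) (hPQ : P ≠ Q)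
    (hP : LiesOverPl K P v) (hQ : LiesOverPl K Q v) :
    P.asIdeal = Q.asIdeal.comap (conjInt83 σ : 𝓞 L →+* 𝓞 L) := by
  have hPmax : P.asIdeal.IsMaximal := P.isMaximal
  haveI := Q.isPrime
  apply hPmax.eq_of_le
  · exact (Ideal.comap_isPrime (conjInt83 σ : 𝓞 L →+* 𝓞 L) Q.asIdeal).ne_top
  · intro x hx
    rw [Ideal.mem_comap]
    exact swap_mem83 σ hinv hfix v P Q hPQ hP hQ x hx

/-- The same for all powers. -/
theorem pow_eq_comap_conj83 (σ : L ≃ₐ[K] L) (hinv : ∀ x, σ (σ x) = x)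
    (hfix : ∀ x, σ x = x → ∃ y : K, algebraMap K L y = x)
    (v : HeightOneSpectrum (𝓞 K)) (P Q : HeightOneSpectrum (𝓞 L)) (hPQ : P ≠ Q)
    (hP : LiesOverPl K P v) (hQ : LiesOverPl K Q v) (k : ℕ) :
    P.asIdeal ^ k = (Q.asIdeal ^ k).comap (conjInt83 σ : 𝓞 L →+* 𝓞 L) := by
  rw [eq_comap_conj83 σ hinv hfix v P Q hPQ hP hQ]
  have h1 : ∀ I : Ideal (𝓞 L), I.comap (conjInt83 σ : 𝓞 L →+* 𝓞 L)
      = I.map ((conjInt83 σ).symm : 𝓞 L →+* 𝓞 L) := by
    intro I
    exact (Ideal.map_symm (conjInt83 σ)).symm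
  rw [h1, h1, Ideal.map_pow]


/-- An element of `P ∖ P²` outside `Q`. -/
theorem exists_crt_elt83 {R : Type*} [CommRing R] [IsDedekindDomain R]
    (P Q : HeightOneSpectrum R) (hPQ : P ≠ Q) :
    ∃ α : R, α ∈ P.asIdeal ∧ α ∉ P.asIdeal ^ 2 ∧ α ∉ Q.asIdeal := by
  obtain ⟨π, hπ⟩ := P.intValuation_exists_uniformizer
  have hπ1 : π ∈ P.asIdeal := by
    rw [← P.intValuation_lt_one_iff_mem, hπ, ← WithZero.exp_zero, WithZero.exp_lt_exp]
    omega
  have hπ2 : π ∉ P.asIdeal ^ 2 := by
    rw [← P.intValuation_le_pow_iff_mem, hπ, WithZero.exp_le_exp]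
    omega
  have hcop : IsCoprime (P.asIdeal ^ 2) Q.asIdeal := by
    have h0 : IsCoprime P.asIdeal Q.asIdeal := by
      rw [Ideal.isCoprime_iff_sup_eq]
      exact Ideal.IsMaximal.coprime_of_ne P.isMaximal Q.isMaximal
        (fun h => hPQ (HeightOneSpectrum.ext h))
    exact h0.pow_left
  obtain ⟨e₁, he₁, e₂, he₂, hsum⟩ := Ideal.isCoprime_iff_exists.mp hcop
  have he₁P : e₁ ∈ P.asIdeal := Ideal.pow_le_self (by norm_num) he₁
  refine ⟨π * e₂ + e₁, ?_, ?_, ?_⟩
  · exact Ideal.add_mem _ (Ideal.mul_mem_right _ _ hπ1) he₁P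
  · intro h
    apply hπ2
    have h1 : π * e₂ ∈ P.asIdeal ^ 2 := (Ideal.add_mem_iff_left _ he₁).mp h
    have h2 : π = π * e₂ + π * e₁ := by
      rw [← mul_add, add_comm e₂ e₁, hsum, mul_one]
    rw [h2]
    exact Ideal.add_mem _ h1 (Ideal.mul_mem_left _ _ he₁)
  · intro h
    have h1 : e₁ ∈ Q.asIdeal := (Ideal.add_mem_iff_right _ (Ideal.mul_mem_left _ _ he₂)).mp h
    have h2 : (1 : R) ∈ Q.asIdeal := by
      rw [← hsum]
      exact Ideal.add_mem _ h1 he₂
    exact Q.isPrime.ne_top ((Ideal.eq_top_iff_one _).mpr h2)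

/-- `1, ω` span `L`. -/
theorem exists_coords83 (t n : K) (ω : L) (h2 : Module.finrank K L = 2)
    (hgen : IsGen83 K L t n ω) (x : L) : ∃ a b : K, elt83 ω a b = x := by
  haveI : FiniteDimensional K L := Module.finite_of_finrank_pos (by omega)
  let f : (K × K) →ₗ[K] L := (Algebra.linearMap K L).coprod (LinearMap.toSpanSingleton K L ω)
  have hf : ∀ p : K × K, f p = algebraMap K L p.1 + algebraMap K L p.2 * ω := by
    intro p
    simp [f, LinearMap.coprod_apply, Algebra.smul_def]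
  have hinj : Function.Injective f := by
    rw [← LinearMap.ker_eq_bot, LinearMap.ker_eq_bot']
    rintro ⟨a, b⟩ h
    rw [hf] at h
    simp only at h
    by_cases hb : b = 0
    · subst hb
      simp only [map_zero, zero_mul, add_zero] at h
      have ha : a = 0 := (map_eq_zero (algebraMap K L)).mp h
      rw [ha]
      rfl
    · exfalso
      have hbL : algebraMap K L b ≠ 0 := fun hh => hb ((map_eq_zero (algebraMap K L)).mp hh)
      have hω : ω = algebraMap K L (-a / b) := by
        rw [map_div₀, map_neg, eq_div_iff hbL]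
        linear_combination h
      apply hgen.irred (-a / b)
      apply (algebraMap K L).injective
      rw [map_zero, map_add, map_sub, map_mul, map_pow, ← hω]
      exact hgen.rel
  have hfr : Module.finrank K (K × K) = Module.finrank K L := by
    rw [Module.finrank_prod, Module.finrank_self, h2]
  have hsurj : Function.Surjective f :=
    (LinearMap.injective_iff_surjective_of_finrank_eq_finrank hfr).mp hinj
  obtain ⟨⟨a, b⟩, hab⟩ := hsurj x
  refine ⟨a, b, ?_⟩
  rw [← hab, hf]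
  rfl

/-- `σ ω = t - ω`. -/
theorem conj_gen83 (σ : L ≃ₐ[K] L)
    (hfix : ∀ x, σ x = x → ∃ y : K, algebraMap K L y = x)
    (t n : K) (ω : L) (hgen : IsGen83 K L t n ω) : σ ω = algebraMap K L t - ω := by
  have hrel := hgen.rel
  have hrel' : (σ ω) ^ 2 - algebraMap K L t * σ ω + algebraMap K L n = 0 := by
    have := congrArg σ hrel
    simpa [map_sub, map_add, map_mul, map_pow, AlgEquiv.commutes] using this
  have hprod : (σ ω - ω) * (σ ω - (algebraMap K L t - ω)) = 0 := by
    linear_combination hrel' - hrel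
  rcases mul_eq_zero.mp hprod with h | h
  · exfalso
    obtain ⟨y, hy⟩ := hfix ω (sub_eq_zero.mp h)
    apply hgen.irred y
    apply (algebraMap K L).injective
    rw [map_zero, map_add, map_sub, map_mul, map_pow, hy]
    exact hrel
  · exact sub_eq_zero.mp h

end Aux

/-- **NORM-ONE-ELT** (helper83), VERBATIM. -/
theorem normOneEltC_h83 : NormOneEltC83 := by
  intro K L _ _ _ _ _ t n ω h2 hgen v w₁ w₂ hne hw₁ hw₂
  obtain ⟨σ, hinv, hfix⟩ := exists_conj83 (K := K) (L := L) h2
  have hc12 := eq_comap_conj83 σ hinv hfix v w₁ w₂ hne hw₁ hw₂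
  refine ⟨?_, ?_⟩
  · intro w' hw'
    by_cases h : w' = w₁
    · exact Or.inl h
    · right
      have hc1' := eq_comap_conj83 σ hinv hfix v w₁ w' (Ne.symm h) hw₁ hw'
      have heq : w'.asIdeal.comap (conjInt83 σ : 𝓞 L →+* 𝓞 L)
          = w₂.asIdeal.comap (conjInt83 σ : 𝓞 L →+* 𝓞 L) := by rw [← hc1', ← hc12]
      have hinj := Ideal.comap_injective_of_surjective (conjInt83 σ : 𝓞 L →+* 𝓞 L)
        (conjInt83 σ).surjective
      exact HeightOneSpectrum.ext (hinj heq)
  · obtain ⟨α, hα1, hα2, hα3⟩ := exists_crt_elt83 w₁ w₂ hne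
    have hσ1 : conjInt83 σ α ∈ w₂.asIdeal := by
      rw [hc12, Ideal.mem_comap] at hα1
      exact hα1
    have hσ2 : conjInt83 σ α ∉ w₂.asIdeal ^ 2 := by
      rw [pow_eq_comap_conj83 σ hinv hfix v w₁ w₂ hne hw₁ hw₂ 2, Ideal.mem_comap] at hα2
      exact hα2
    have hσ3 : conjInt83 σ α ∉ w₁.asIdeal := by
      rw [eq_comap_conj83 σ hinv hfix v w₂ w₁ (Ne.symm hne) hw₂ hw₁, Ideal.mem_comap] at hα3
      exact hα3
    have hv11 : w₁.intValuation α = WithZero.exp (-1 : ℤ) := intVal_eq_exp_neg_one83 w₁ hα1 hα2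
    have hv12 : w₂.intValuation α = 1 := HeightOneSpectrum.intValuation_eq_one_iff.mpr hα3
    have hv21 : w₁.intValuation (conjInt83 σ α) = 1 :=
      HeightOneSpectrum.intValuation_eq_one_iff.mpr hσ3
    have hv22 : w₂.intValuation (conjInt83 σ α) = WithZero.exp (-1 : ℤ) :=
      intVal_eq_exp_neg_one83 w₂ hσ1 hσ2
    have hα0 : (α : L) ≠ 0 := by
      intro h
      apply hα3
      have : α = 0 := RingOfIntegers.ext h
      rw [this]
      exact zero_mem _
    have hσα0 : σ (α : L) ≠ 0 := fun h => hα0 ((map_eq_zero σ).mp h)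
    obtain ⟨a, b, hab⟩ := exists_coords83 t n ω h2 hgen ((α : L) / σ (α : L))
    have hval : ∀ w : HeightOneSpectrum (𝓞 L), val83 w (elt83 ω a b)
        = w.intValuation α / w.intValuation (conjInt83 σ α) := by
      intro w
      rw [hab]
      show Valued.v (algebraMap L (w.adicCompletion L) ((α : L) / σ (α : L))) = _
      have h1 : Valued.v (algebraMap L (w.adicCompletion L) ((α : L) / σ (α : L)))
          = w.valuation L ((α : L) / σ (α : L)) :=
        HeightOneSpectrum.valuedAdicCompletion_eq_valuation' w _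
      rw [h1, map_div₀]
      have h2 : w.valuation L (α : L) = w.intValuation α := w.valuation_of_algebraMap α
      have h3 : w.valuation L (σ (α : L)) = w.intValuation (conjInt83 σ α) :=
        w.valuation_of_algebraMap (conjInt83 σ α)
      rw [h2, h3]
    refine ⟨a, b, ?_, ?_, ?_⟩
    · apply (algebraMap K L).injective
      have hσβ : σ (elt83 ω a b) = algebraMap K L a + algebraMap K L b * (algebraMap K L t - ω) := by
        unfold elt83
        rw [map_add, map_mul, AlgEquiv.commutes, AlgEquiv.commutes, conj_gen83 σ hfix t n ω hgen]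
      have hN : algebraMap K L (a ^ 2 + t * a * b + n * b ^ 2)
          = elt83 ω a b * σ (elt83 ω a b) := by
        rw [hσβ]
        unfold elt83
        simp only [map_add, map_mul, map_pow]
        linear_combination (algebraMap K L b) ^ 2 * hgen.rel
      rw [hN, hab, map_one, map_div₀, hinv]
      field_simp
    · rw [hval, hv11, hv21, div_one]
    · rw [hval, hv12, hv22, one_div, ← WithZero.exp_neg, neg_neg]

end Fermat.Agent.LT.A2.H83

end

end
-- ===== PACK-END LT/A2/H83/NormOneElt.lean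

-- ===== PACK-BEGIN LT/A2/H772/Inert.lean
section




/-!
# Row LT, tower A2, sub-leaf `InertC83` of A2.02 `TorusCharC` (helper772), OFF-MAIN

`inertC772 : H83.InertC83`, VERBATIM vs `LT/A2/H83/TorusSpec.lean` (helper83, sha 333b5d50).

At a place `v ∤ (t² - 4n)` with only one place `w` over it:
* `w` is unramified over `v` (`e_eq_one_of_disc772`, from `disc_mem_of_ramified772`), so a
  uniformiser of `v` is a uniformiser of `w` (`valued_up772`, from Mathlib's
  `HeightOneSpectrum.valuation_liesOver`);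
* `X² - tX + n` has no root modulo `v` (`no_root_of_inert772`), hence the norm form does not take
  the valuation of a uniformiser on `𝒪_v²` (`normForm_ne_unif772`).

No definitions.
-/

set_option autoImplicit false
set_option linter.deprecated false
set_option linter.style.haveILetI false
set_option linter.unusedSectionVars false

open IsDedekindDomain NumberField

noncomputable section
namespace Fermat.Agent.LT.A2.H772
open Fermat.Agent.LT.H556 Fermat.Agent.LT.A2

variable {K L : Type} [Field K] [NumberField K] [Field L] [NumberField L] [Algebra K L]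

/-- **(c′)** `v ∤ t² - 4n` ⟹ every place over `v` is unramified. -/
theorem e_eq_one_of_disc772 (h2 : Module.finrank K L = 2) (ω : 𝓞 L) (t n : 𝓞 K)
    (hω : ω ^ 2 - algebraMap (𝓞 K) (𝓞 L) t * ω + algebraMap (𝓞 K) (𝓞 L) n = 0)
    (hirr : ∀ x : K, x ^ 2 - algebraMap (𝓞 K) K t * x + algebraMap (𝓞 K) K n ≠ 0)
    (v : HeightOneSpectrum (𝓞 K)) (w : HeightOneSpectrum (𝓞 L)) (hw : LiesOverPl K w v)
    (hd : t ^ 2 - 4 * n ∉ v.asIdeal) :
    Ideal.ramificationIdx' v.asIdeal w.asIdeal = 1 := by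
  haveI := liesOver_of_liesOverPl772 hw
  have h0 : Ideal.ramificationIdx' v.asIdeal w.asIdeal ≠ 0 :=
    Ideal.IsDedekindDomain.ramificationIdx'_ne_zero_of_liesOver w.asIdeal v.ne_bot
  have h1 : Ideal.ramificationIdx' v.asIdeal w.asIdeal < 2 :=
    Ideal.ramificationIdx'_lt
      (fun hle => hd (disc_mem_of_ramified772 h2 ω t n hω hirr v w hw hle))
  omega

/-- The valuation at `w` of an element of `K` is the `e`-th power of its valuation at `v`. -/
theorem valued_up772 {v : HeightOneSpectrum (𝓞 K)} {w : HeightOneSpectrum (𝓞 L)}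
    (hw : LiesOverPl K w v) (x : K) :
    Valued.v (algebraMap L (w.adicCompletion L) (algebraMap K L x))
      = Valued.v (algebraMap K (v.adicCompletion K) x)
          ^ Ideal.ramificationIdx' v.asIdeal w.asIdeal := by
  haveI := liesOver_of_liesOverPl772 hw
  have h1 : Valued.v (algebraMap L (w.adicCompletion L) (algebraMap K L x))
      = w.valuation L (algebraMap K L x) :=
    HeightOneSpectrum.valuedAdicCompletion_eq_valuation' w (algebraMap K L x)
  have h2 : Valued.v (algebraMap K (v.adicCompletion K) x) = v.valuation K x :=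
    HeightOneSpectrum.valuedAdicCompletion_eq_valuation' v x
  rw [h1, h2]
  exact (HeightOneSpectrum.valuation_liesOver L v w x).symm

/-- **InertC83**, verbatim. -/
theorem inertC772 : H83.InertC83 := by
  intro K L _ _ _ _ _ t n ω h2 hg v w hw huniq hdisc
  obtain ⟨t', rfl⟩ := (IsIntegralClosure.isIntegral_iff (A := 𝓞 K) (R := ℤ) (B := K)).1 hg.int_t
  obtain ⟨n', rfl⟩ := (IsIntegralClosure.isIntegral_iff (A := 𝓞 K) (R := ℤ) (B := K)).1 hg.int_n
  obtain ⟨ω', rfl⟩ := (IsIntegralClosure.isIntegral_iff (A := 𝓞 L) (R := ℤ) (B := L)).1 hg.int_ω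
  have hω : ω' ^ 2 - algebraMap (𝓞 K) (𝓞 L) t' * ω' + algebraMap (𝓞 K) (𝓞 L) n' = 0 := by
    apply RingOfIntegers.coe_injective (K := L)
    have := hg.rel
    rw [← IsScalarTower.algebraMap_apply (𝓞 K) K L, ← IsScalarTower.algebraMap_apply (𝓞 K) K L,
      IsScalarTower.algebraMap_apply (𝓞 K) (𝓞 L) L t',
      IsScalarTower.algebraMap_apply (𝓞 K) (𝓞 L) L n'] at this
    simpa using this
  have hirr : ∀ x : K, x ^ 2 - algebraMap (𝓞 K) K t' * x + algebraMap (𝓞 K) K n' ≠ 0 :=
    hg.irred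
  have hd : t' ^ 2 - 4 * n' ∉ v.asIdeal := by
    intro hmem
    have hlt := (valued_algebraMap_lt_one_iff772 v (t' ^ 2 - 4 * n')).2 hmem
    have heq : algebraMap (𝓞 K) (v.adicCompletion K) (t' ^ 2 - 4 * n')
        = algebraMap K (v.adicCompletion K)
            (algebraMap (𝓞 K) K t' ^ 2 - 4 * algebraMap (𝓞 K) K n') := by
      rw [IsScalarTower.algebraMap_apply (𝓞 K) K (v.adicCompletion K)]
      congr 1
    rw [heq] at hlt
    have h1 : Valued.v (algebraMap K (v.adicCompletion K)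
        (algebraMap (𝓞 K) K t' ^ 2 - 4 * algebraMap (𝓞 K) K n')) = 1 := hdisc
    rw [h1] at hlt
    exact lt_irrefl _ hlt
  have he : Ideal.ramificationIdx' v.asIdeal w.asIdeal = 1 :=
    e_eq_one_of_disc772 h2 ω' t' n' hω hirr v w hw hd
  have hroot : ∀ r : 𝓞 K, r ^ 2 - t' * r + n' ∉ v.asIdeal :=
    no_root_of_inert772 h2 ω' t' n' hω hirr v hd w hw huniq he
  refine ⟨?_, ?_⟩
  · intro x y hx hy
    have := normForm_ne_unif772 v t' n' hroot x y hx hy
    rwa [IsScalarTower.algebraMap_apply (𝓞 K) K (v.adicCompletion K) t',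
      IsScalarTower.algebraMap_apply (𝓞 K) K (v.adicCompletion K) n'] at this
  · obtain ⟨ϖ, hϖ⟩ := v.valuation_exists_uniformizer K
    have hv : H83.val83 v ϖ = WithZero.exp (-1 : ℤ) := by
      have : Valued.v (algebraMap K (v.adicCompletion K) ϖ) = v.valuation K ϖ :=
        HeightOneSpectrum.valuedAdicCompletion_eq_valuation' v ϖ
      exact this.trans hϖ
    refine ⟨ϖ, hv, ?_⟩
    have hup := valued_up772 hw ϖ
    rw [he, pow_one] at hup
    exact hup.trans hv

end Fermat.Agent.LT.A2.H772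

end

end
-- ===== PACK-END LT/A2/H772/Inert.lean

-- ===== PACK-BEGIN LT/A2/H546/LiftEx.lean
section



/-!
# Row LT, tower A2, leaf A2.07 `LiftExC` (helper546) -- part 3: existence of the theta lift

OFF-MAIN.  `liftExC_h546 : Fermat.Agent.LT.A2.LiftExC` (the Prop of `LT/A2/Kernel.lean`,
origin/helper950@c68f91cb0, VERBATIM).

The integral `I(g, m_g) = ∫_{DT} Θ(g, m m_g) χT(m m_g) dm` does not depend on the torus component
`m_g` (`ival_indep_h546`: two components differ by `m₀ ∈ T¹(𝔸)`, the integrand is `T¹(K)`-invariant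
by `ThetaInv` and `χT|_{T(K)} = 1`, and `DT`, `m₀ DT` are two fundamental domains), it is
invariant under the rational admissible pairs (`ival_rat_h546`: Hasse's norm theorem gives
`y ∈ T(K)` with `det y = det γ`), and the lift is defined by the choice of any `γ ∈ GL₂(K)`
with `γ g ∈ GL₂(𝔸)⁺`, and `0` if there is none.
-/

set_option autoImplicit false
set_option linter.style.haveILetI false
set_option linter.unusedSectionVars false

open IsDedekindDomain NumberField AutomorphicForm MeasureTheory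
open scoped MatrixGroups

noncomputable section

namespace Fermat.Agent.LT.A2.H546

open Fermat.Agent.LT.H130 Fermat.Agent.LT.H556 Fermat.Agent.LT.A2

variable {K : Type} [Field K] [NumberField K]

/-- `T¹(𝔸_K)` as a subgroup of `GL₂(𝔸_K)`. -/
def tor1SG_h546 (t n : K) : Subgroup (A0.G K) where
  carrier := {m | InTorus1 t n m}
  mul_mem' := inTorus1_mul_h546
  one_mem' := inTorus1_one_h546 t n
  inv_mem' := inTorus1_inv_h546

/-- `T¹(K)` as a subgroup of `GL₂(𝔸_K)`. -/
def tor1RatSG_h546 (t n : K) : Subgroup (A0.G K) where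
  carrier := {y | InTorusRat t n y ∧ InTorus1 t n y}
  mul_mem' := fun h h' => ⟨inTorusRat_mul_h546 h.1 h'.1, inTorus1_mul_h546 h.2 h'.2⟩
  one_mem' := ⟨inTorusRat_one_h546 t n, inTorus1_one_h546 t n⟩
  inv_mem' := fun h => ⟨inTorusRat_inv_h546 h.1 h.2.2, inTorus1_inv_h546 h.2⟩

theorem mem_tor1SG_h546 (t n : K) (m : A0.G K) : m ∈ tor1SG_h546 t n ↔ InTorus1 t n m := Iff.rfl

theorem mem_tor1RatSG_h546 (t n : K) (m : A0.G K) :
    m ∈ tor1RatSG_h546 t n ↔ InTorusRat t n m ∧ InTorus1 t n m := Iff.rfl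

theorem countable_numberField_h546 (K : Type) [Field K] [NumberField K] : Countable K := by
  have h : Set.Countable {x : K | IsAlgebraic ℚ x} := Algebraic.countable ℚ K
  have e : {x : K | IsAlgebraic ℚ x} = Set.univ := by
    ext x
    exact ⟨fun _ => Set.mem_univ x, fun _ => Algebra.IsAlgebraic.isAlgebraic x⟩
  rw [e] at h
  exact Set.countable_univ_iff.mp h

theorem countable_tor1RatSG_h546 (t n : K) : Countable (tor1RatSG_h546 t n) := by
  classical
  have hK := countable_numberField_h546 K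
  let F : K × K → A0.G K := fun p =>
    if h : ∃ y : A0.G K, (y : Matrix (Fin 2) (Fin 2) (A0.Adl K))
        = torMat (algebraMap K (A0.Adl K) t) (algebraMap K (A0.Adl K) n)
            (algebraMap K (A0.Adl K) p.1) (algebraMap K (A0.Adl K) p.2)
    then h.choose else 1
  have hsub : (tor1RatSG_h546 t n : Set (A0.G K)) ⊆ Set.range F := by
    intro y hy
    obtain ⟨a, b, e⟩ := hy.1
    have h : ∃ y : A0.G K, (y : Matrix (Fin 2) (Fin 2) (A0.Adl K))
        = torMat (algebraMap K (A0.Adl K) t) (algebraMap K (A0.Adl K) n)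
            (algebraMap K (A0.Adl K) (a, b).1) (algebraMap K (A0.Adl K) (a, b).2) := ⟨y, e⟩
    refine ⟨(a, b), ?_⟩
    have hF : F (a, b) = h.choose := dif_pos h
    rw [hF]
    apply Units.ext
    rw [h.choose_spec, e]
  have hc : (tor1RatSG_h546 t n : Set (A0.G K)).Countable :=
    (Set.countable_range F).mono hsub
  exact hc.to_subtype

/-- The fundamental-domain data of good theta data. -/
theorem fundData_h546 (D : KData K) (hM : D.IsMeasured) :
    @FundData_h546 (A0.G K) _ (borel (A0.G K)) (tor1SG_h546 D.t D.n) (tor1RatSG_h546 D.t D.n)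
      D.μT D.DT := by
  letI : MeasurableSpace (A0.G K) := borel (A0.G K)
  refine ⟨?_, ?_, hM.carried, hM.inv, hM.dom_sub, hM.dom_meas, ?_⟩
  · intro a ha b hb
    exact inTorus_comm_h546 ha.1 hb.1
  · intro y hy
    exact hy.2
  · intro m hm
    obtain ⟨y, ⟨hy1, hy2, hy3⟩, huniq⟩ := hM.dom_fund m hm
    exact ⟨y, ⟨⟨hy1, hy2⟩, hy3⟩, fun z hz => huniq z ⟨hz.1.1, hz.1.2, hz.2⟩⟩

/-- The integral `I(g, m_g)`. -/
def ival_h546 (D : KData K) (g mg : A0.G K) : ℂ :=
  D.intT D.DT fun m => D.theta g (m * mg) * D.χT (m * mg)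

theorem ival_congr_h546 (D : KData K) (hM : D.IsMeasured) (f f' : A0.G K → ℂ)
    (h : ∀ m ∈ D.DT, f m = f' m) : D.intT D.DT f = D.intT D.DT f' := by
  letI : MeasurableSpace (A0.G K) := borel (A0.G K)
  exact setIntegral_congr_fun hM.dom_meas h

/-- Translation of the variable by `m₀ ∈ T¹(𝔸)` in the integral of a `T¹(K)`-invariant
function. -/
theorem intT_translate_h546 (D : KData K) (hM : D.IsMeasured) (f : A0.G K → ℂ)
    (hf : ∀ y : A0.G K, InTorusRat D.t D.n y → InTorus1 D.t D.n y → ∀ x, f (y * x) = f x)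
    (m₀ : A0.G K) (hm₀ : InTorus1 D.t D.n m₀) :
    D.intT D.DT (fun x => f (m₀ * x)) = D.intT D.DT f := by
  letI : MeasurableSpace (A0.G K) := borel (A0.G K)
  haveI : BorelSpace (A0.G K) := ⟨rfl⟩
  haveI := countable_tor1RatSG_h546 D.t D.n
  exact setIntegral_mul_left_eq_h546 (fundData_h546 D hM) f (fun y hy x => hf y hy.1 hy.2 x)
    m₀ hm₀

/-- **Independence of the torus component.** -/
theorem ival_indep_h546 (D : KData K) (hG : D.Good) (hΘ : D.ThetaInv) {g mg mg' : A0.G K}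
    (h : Adm D.t D.n g mg) (h' : Adm D.t D.n g mg') : ival_h546 D g mg' = ival_h546 D g mg := by
  classical
  set m₀ := mg' * mg⁻¹ with hm₀
  have hm₀T : InTorus1 D.t D.n m₀ := inTorus1_of_adm_h546 h h'
  -- the invariant function
  set hfun : A0.G K → ℂ := fun m => D.theta g (m * mg) * D.χT (m * mg) with hhfun
  set f : A0.G K → ℂ := fun m => if InTorus1 D.t D.n m then hfun m else 0 with hf
  have hinv : ∀ y : A0.G K, InTorusRat D.t D.n y → InTorus1 D.t D.n y → ∀ x,
      f (y * x) = f x := by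
    intro y hy hy1 x
    have hiff : InTorus1 D.t D.n (y * x) ↔ InTorus1 D.t D.n x := by
      constructor
      · intro hyx
        have := inTorus1_mul_h546 (inTorus1_inv_h546 hy1) hyx
        rwa [inv_mul_cancel_left] at this
      · exact fun hx => inTorus1_mul_h546 hy1 hx
    by_cases hx : InTorus1 D.t D.n x
    · have hyx := hiff.mpr hx
      simp only [hf, hx, hyx, if_true, hhfun]
      have hadm : Adm D.t D.n g (x * mg) := adm_torus1_mul_h546 h hx
      have e1 : D.theta g (y * x * mg) = D.theta g (x * mg) := by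
        have := hΘ 1 y g (x * mg) hy (by
          show Matrix.GeneralLinearGroup.det (ratG (1 : GL (Fin 2) K)) = _
          unfold ratG
          rw [map_one, map_one, hy1.2]) hadm
        unfold ratG at this
        rw [map_one, one_mul, ← mul_assoc] at this
        exact this
      have e2 : D.χT (y * x * mg) = D.χT (x * mg) := by
        rw [mul_assoc, hG.torus.mul y (x * mg) (inTorus_of_rat_h546 hy) hadm.1,
          hG.torus.rat y hy, one_mul]
      rw [e1, e2]
    · have hyx : ¬ InTorus1 D.t D.n (y * x) := fun hh => hx (hiff.mp hh)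
      simp only [hf, hx, hyx, if_false]
  have key := intT_translate_h546 D hG.measured f hinv m₀ hm₀T
  have e1 : ival_h546 D g mg' = D.intT D.DT (fun x => f (m₀ * x)) := by
    apply ival_congr_h546 D hG.measured
    intro m hm
    have hmT : InTorus1 D.t D.n m := hG.measured.dom_sub m hm
    have hmm : InTorus1 D.t D.n (m₀ * m) := inTorus1_mul_h546 hm₀T hmT
    have e : m₀ * m * mg = m * mg' := by
      rw [inTorus_comm_h546 hm₀T.1 hmT.1, hm₀, mul_assoc, mul_assoc, inv_mul_cancel, mul_one]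
    simp only [hf, hmm, if_true, hhfun, e]
  have e2 : ival_h546 D g mg = D.intT D.DT f := by
    apply ival_congr_h546 D hG.measured
    intro m hm
    have hmT : InTorus1 D.t D.n m := hG.measured.dom_sub m hm
    simp only [hf, hmT, if_true, hhfun]
  rw [e1, e2, key]

theorem val_det_ratG_h546 (γ : GL (Fin 2) K) :
    ((Matrix.GeneralLinearGroup.det (ratG γ) : (A0.Adl K)ˣ) : A0.Adl K)
      = algebraMap K (A0.Adl K) ((γ : Matrix (Fin 2) (Fin 2) K).det) := by
  unfold ratG
  rw [Matrix.GeneralLinearGroup.map_det, Units.coe_map, MonoidHom.coe_coe,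
    Matrix.GeneralLinearGroup.val_det_apply]

theorem ratG_mul_h546 (γ γ' : GL (Fin 2) K) :
    (ratG (γ * γ') : A0.G K) = ratG γ * ratG γ' := by
  unfold ratG
  rw [map_mul]

theorem ratG_one_h546 : (ratG (1 : GL (Fin 2) K) : A0.G K) = 1 := by
  unfold ratG
  rw [map_one]

/-- **Invariance under the rational admissible pairs.** -/
theorem ival_rat_h546 (hH : HasseNormC) (D : KData K) (hG : D.Good) (hΘ : D.ThetaInv)
    {g m₁ m₂ : A0.G K} {γ₁ γ₂ : GL (Fin 2) K} (h₁ : Adm D.t D.n (ratG γ₁ * g) m₁)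
    (h₂ : Adm D.t D.n (ratG γ₂ * g) m₂) :
    ival_h546 D (ratG γ₁ * g) m₁ = ival_h546 D (ratG γ₂ * g) m₂ := by
  obtain ⟨δ, hδ⟩ : ∃ δ : GL (Fin 2) K, δ = γ₂ * γ₁⁻¹ := ⟨_, rfl⟩
  obtain ⟨g₁, hg₁⟩ : ∃ g₁ : A0.G K, g₁ = ratG γ₁ * g := ⟨_, rfl⟩
  rw [← hg₁] at h₁ ⊢
  have hg : (ratG δ : A0.G K) * g₁ = ratG γ₂ * g := by
    rw [hδ, hg₁, ratG_mul_h546, mul_assoc, ← mul_assoc (ratG γ₁⁻¹), ← ratG_mul_h546,
      inv_mul_cancel, ratG_one_h546, one_mul]
  -- `det δ = det (m₂ m₁⁻¹)`
  have hdet : Matrix.GeneralLinearGroup.det (ratG δ : A0.G K)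
      = Matrix.GeneralLinearGroup.det (m₂ * m₁⁻¹) := by
    have : Matrix.GeneralLinearGroup.det ((ratG δ : A0.G K) * g₁)
        = Matrix.GeneralLinearGroup.det m₂ := by rw [hg]; exact h₂.2
    rw [map_mul, h₁.2] at this
    rw [map_mul, map_inv, ← this, mul_inv_cancel_right]
  have hT : InTorus D.t D.n (m₂ * m₁⁻¹) := inTorus_mul_h546 h₂.1 (inTorus_inv_h546 h₁.1)
  obtain ⟨y, hy, hydet⟩ := hH K D.t D.n hG.torus.irred ((δ : Matrix (Fin 2) (Fin 2) K).det)
    (m₂ * m₁⁻¹) hT (by rw [← hdet, val_det_ratG_h546])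
  have hydet' : Matrix.GeneralLinearGroup.det (ratG δ : A0.G K)
      = Matrix.GeneralLinearGroup.det y := by
    apply Units.ext
    rw [hydet, val_det_ratG_h546]
  have hadm : Adm D.t D.n ((ratG δ : A0.G K) * g₁) (y * m₁) :=
    ⟨inTorus_mul_h546 (inTorus_of_rat_h546 hy) h₁.1, by
      rw [map_mul, map_mul, hydet', h₁.2]⟩
  -- step 1: `I(δ g₁, y m₁) = I(g₁, m₁)`
  have step1 : ival_h546 D ((ratG δ : A0.G K) * g₁) (y * m₁) = ival_h546 D g₁ m₁ := by
    apply ival_congr_h546 D hG.measured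
    intro m hm
    have hmT : InTorus1 D.t D.n m := hG.measured.dom_sub m hm
    have hadm1 : Adm D.t D.n g₁ (m * m₁) := adm_torus1_mul_h546 h₁ hmT
    have e : m * (y * m₁) = y * (m * m₁) := by
      rw [← mul_assoc, inTorus_comm_h546 hmT.1 (inTorus_of_rat_h546 hy), mul_assoc]
    simp only [e]
    rw [hΘ δ y g₁ (m * m₁) hy hydet' hadm1,
      hG.torus.mul y (m * m₁) (inTorus_of_rat_h546 hy) hadm1.1, hG.torus.rat y hy, one_mul]
  -- step 2: independence of the torus component
  have h₂' : Adm D.t D.n ((ratG δ : A0.G K) * g₁) m₂ := by rw [hg]; exact h₂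
  have step2 := ival_indep_h546 D hG hΘ hadm h₂'
  rw [← step1, ← step2, hg]

/-- **LIFT-EX**: the theta lift exists. -/
theorem liftExC_h546 : LiftExC := by
  classical
  intro hH K _ _ D hG hΘ
  -- the definition
  let P : A0.G K → Prop := fun g => ∃ γ : GL (Fin 2) K, ∃ m : A0.G K, Adm D.t D.n (ratG γ * g) m
  let φ : A0.G K → ℂ := fun g =>
    if h : P g then ival_h546 D (ratG h.choose * g) h.choose_spec.choose else 0
  have hφ : ∀ (g : A0.G K) (γ : GL (Fin 2) K) (m : A0.G K), Adm D.t D.n (ratG γ * g) m →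
      φ g = ival_h546 D (ratG γ * g) m := by
    intro g γ m hadm
    have hP : P g := ⟨γ, m, hadm⟩
    show (if h : P g then ival_h546 D (ratG h.choose * g) h.choose_spec.choose else 0) = _
    rw [dif_pos hP]
    exact ival_rat_h546 hH D hG hΘ hP.choose_spec.choose_spec hadm
  have hφ0 : ∀ g : A0.G K, ¬ P g → φ g = 0 := by
    intro g hP
    show (if h : P g then ival_h546 D (ratG h.choose * g) h.choose_spec.choose else 0) = _
    rw [dif_neg hP]
  refine ⟨φ, ⟨?_, ?_, ?_⟩⟩
  · -- formula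
    intro g mg hadm
    have hadm' : Adm D.t D.n (ratG (1 : GL (Fin 2) K) * g) mg := by
      rw [ratG_one_h546, one_mul]; exact hadm
    have := hφ g 1 mg hadm'
    rw [ratG_one_h546, one_mul] at this
    exact this
  · -- left invariance
    intro γ g
    by_cases hP : P g
    · obtain ⟨γ', m, hadm⟩ := hP
      have e : (ratG (γ' * γ⁻¹) : A0.G K) * (ratG γ * g) = ratG γ' * g := by
        rw [← mul_assoc, ← ratG_mul_h546, inv_mul_cancel_right]
      have hadm' : Adm D.t D.n ((ratG (γ' * γ⁻¹) : A0.G K) * (ratG γ * g)) m := by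
        rw [e]; exact hadm
      rw [hφ (ratG γ * g) (γ' * γ⁻¹) m hadm', hφ g γ' m hadm, e]
    · have hP' : ¬ P (ratG γ * g) := by
        rintro ⟨γ', m, hadm⟩
        apply hP
        refine ⟨γ' * γ, m, ?_⟩
        rw [ratG_mul_h546, mul_assoc]
        exact hadm
      rw [hφ0 _ hP, hφ0 _ hP']
  · -- vanishing off `GL₂(K) GL₂(𝔸)⁺`
    intro g hg
    apply hφ0
    rintro ⟨γ, m, hadm⟩
    exact hg γ ⟨m, hadm⟩

end Fermat.Agent.LT.A2.H546

end

end
-- ===== PACK-END LT/A2/H546/LiftEx.lean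

-- ===== PACK-BEGIN LT/A2/H751/Hilbert90.lean
section




/-!
# Row LT, tower A2, pre-leaf TORUS-MEAS (helper751): adelic Hilbert 90 in torus coordinates

OFF-MAIN.  Imports Mathlib + `LT/H556/A0.lean`, `LT/A2/Kernel.lean` (helper950) and
`LT/A2/H546/Torus.lean` (helper546), byte-identical copies.

For `m = a + b ω ∈ T¹(𝔸_K)` (`ω² - t ω + n = 0`, `t² - 4n ≠ 0`) there is `x ∈ T(𝔸_K)` with
`x² = N(x) · m`, i.e. `m = x / σ(x)`.  NO local case distinction (split / inert / ramified):

    x = (1 - e)(1 + m) + e (ω + m σ(ω)),      e an idempotent adele,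
    N(1 + m) = A₁ = 2 + 2a + t b,             N(ω + m σ(ω)) = A₂ = a (t² - 4n) + n A₁,

and `A₁`, `A₂` never vanish together at a place (`h90_ne_zero751`), and if `A₁` is not a unit at a
finite place where everything is integral and `t² - 4n` is a unit, then `A₂` is a unit
(`h90_unit751`).
-/

set_option autoImplicit false

open IsDedekindDomain NumberField

noncomputable section

namespace Fermat.Agent.LT.A2.H751

open Fermat.Agent.LT.H556 Fermat.Agent.LT.A2 Fermat.Agent.LT.A2.H546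

/-! ## The two local lemmas -/

/-- Over a field: if `N(1 + m) = 0` then `N(ω + m σ(ω)) ≠ 0`. -/
theorem h90_ne_zero751 {F : Type*} [Field F] (t n a b : F) (hd : t ^ 2 - 4 * n ≠ 0)
    (hN : a ^ 2 + t * a * b + n * b ^ 2 = 1) (h1 : 2 + 2 * a + t * b = 0) :
    a * (t ^ 2 - 4 * n) + n * (2 + 2 * a + t * b) ≠ 0 := by
  rw [h1, mul_zero, add_zero]
  intro h
  have ha : a = 0 := by
    rcases mul_eq_zero.mp h with h | h
    · exact h
    · exact absurd h hd
  subst ha
  have htb : t * b = -2 := by linear_combination h1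
  have hnb : n * b ^ 2 = 1 := by linear_combination hN
  have h0 : (t ^ 2 - 4 * n) * b ^ 2 = 0 := by
    linear_combination (t * b - 2) * htb - 4 * hnb
  have hb : b = 0 := by
    rcases mul_eq_zero.mp h0 with h | h
    · exact absurd h hd
    · exact pow_eq_zero_iff (by norm_num) |>.mp h
  rw [hb] at hnb
  simp at hnb

/-- Over a valued field: if everything is integral, the discriminant is a unit and `N(1 + m)` is
not a unit, then `N(ω + m σ(ω))` is a unit. -/
theorem h90_unit751 {F : Type*} [Field F] {Γ₀ : Type*} [LinearOrderedCommGroupWithZero Γ₀]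
    (v : Valuation F Γ₀) (t n a b : F) (ht : v t ≤ 1) (hn : v n ≤ 1) (ha : v a ≤ 1)
    (hb : v b ≤ 1) (hd : v (t ^ 2 - 4 * n) = 1)
    (hN : a ^ 2 + t * a * b + n * b ^ 2 = 1) (h1 : v (2 + 2 * a + t * b) < 1) :
    v (a * (t ^ 2 - 4 * n) + n * (2 + 2 * a + t * b)) = 1 := by
  have h2 : v (2 : F) ≤ 1 := by
    have : (2 : F) = 1 + 1 := by norm_num
    rw [this]
    exact v.map_add_le (le_of_eq v.map_one) (le_of_eq v.map_one)
  have h4 : v (4 : F) ≤ 1 := by
    have : (4 : F) = 2 * 2 := by norm_num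
    rw [this, v.map_mul]
    exact mul_le_one' h2 h2
  have htb : v (t * b) ≤ 1 := by
    rw [v.map_mul]; exact mul_le_one' ht hb
  -- `n A₁` is small
  have hnA : v (n * (2 + 2 * a + t * b)) < 1 := by
    rw [v.map_mul]
    calc v n * v (2 + 2 * a + t * b) ≤ 1 * v (2 + 2 * a + t * b) :=
          mul_le_mul' hn le_rfl
      _ = v (2 + 2 * a + t * b) := one_mul _
      _ < 1 := h1
  -- `a` is a unit
  have hau : v a = 1 := by
    by_contra hne
    have hlt : v a < 1 := lt_of_le_of_ne ha hne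
    have h2a : v (2 * a) < 1 := by
      rw [v.map_mul]
      calc v 2 * v a ≤ 1 * v a := mul_le_mul' h2 le_rfl
        _ = v a := one_mul _
        _ < 1 := hlt
    have hs : v (t * b + 2) < 1 := by
      have : t * b + 2 = (2 + 2 * a + t * b) - 2 * a := by ring
      rw [this]
      exact lt_of_le_of_lt (v.map_sub _ _) (max_lt h1 h2a)
    have hatb : v (a + t * b) ≤ 1 := v.map_add_le ha htb
    have hu : v (a * (a + t * b)) < 1 := by
      rw [v.map_mul]
      calc v a * v (a + t * b) ≤ v a * 1 := mul_le_mul' le_rfl hatb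
        _ = v a := mul_one _
        _ < 1 := hlt
    have hid : (t ^ 2 - 4 * n) * b ^ 2 = (t * b + 2) * (t * b - 2) + 4 * (a * (a + t * b)) := by
      linear_combination (-4 : F) * hN
    have htb2 : v (t * b - 2) ≤ 1 := by
      exact le_trans (v.map_sub _ _) (max_le htb h2)
    have hdb : v ((t ^ 2 - 4 * n) * b ^ 2) < 1 := by
      rw [hid]
      refine lt_of_le_of_lt (v.map_add _ _) (max_lt ?_ ?_)
      · rw [v.map_mul]
        calc v (t * b + 2) * v (t * b - 2) ≤ v (t * b + 2) * 1 := mul_le_mul' le_rfl htb2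
          _ = v (t * b + 2) := mul_one _
          _ < 1 := hs
      · rw [v.map_mul]
        calc v 4 * v (a * (a + t * b)) ≤ 1 * v (a * (a + t * b)) := mul_le_mul' h4 le_rfl
          _ = v (a * (a + t * b)) := one_mul _
          _ < 1 := hu
    rw [v.map_mul, hd, one_mul, v.map_pow] at hdb
    have hb1 : v b < 1 := by
      by_contra hcon
      have hbe : v b = 1 := le_antisymm hb (not_lt.mp hcon)
      rw [hbe, one_pow] at hdb
      exact lt_irrefl _ hdb
    have hnb : v (n * b ^ 2) < 1 := by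
      rw [v.map_mul, v.map_pow]
      calc v n * v b ^ 2 ≤ 1 * v b ^ 2 := mul_le_mul' hn le_rfl
        _ = v b ^ 2 := one_mul _
        _ = v b * v b := sq _
        _ ≤ v b * 1 := mul_le_mul' le_rfl hb
        _ = v b := mul_one _
        _ < 1 := hb1
    have hone : n * b ^ 2 = 1 - a * (a + t * b) := by linear_combination hN
    rw [hone, v.map_one_sub_of_lt hu] at hnb
    exact lt_irrefl _ hnb
  have hmain : v (a * (t ^ 2 - 4 * n)) = 1 := by rw [v.map_mul, hau, hd, one_mul]
  rw [v.map_add_eq_of_lt_left (by rw [hmain]; exact hnA), hmain]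

/-! ## Polynomial identities -/

section Poly

variable {R : Type*} [CommRing R]

/-- The norm of `x = (1 - e) (1 + m) + e (ω + m σ(ω))`. -/
theorem h90_norm751 (t n a b e : R) (he : e * e = e)
    (hN : a ^ 2 + t * a * b + n * b ^ 2 = 1) :
    ((1 - e) * (1 + a) + e * (a * t + b * n))
        * (((1 - e) * (1 + a) + e * (a * t + b * n)) + t * ((1 - e) * b + e * (1 - a)))
      + n * ((1 - e) * b + e * (1 - a)) * ((1 - e) * b + e * (1 - a))
      = (1 - e) * (2 + 2 * a + t * b)
        + e * (a * (t ^ 2 - 4 * n) + n * (2 + 2 * a + t * b)) := by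
  linear_combination
    (((a * t + b * n) - (1 + a)) ^ 2 + t * ((a * t + b * n) - (1 + a)) * ((1 - a) - b)
      + n * ((1 - a) - b) ^ 2) * he + ((1 - e) + e * n) * hN

/-- `x² = N(x) m`, first coordinate. -/
theorem h90_sq_fst751 (t n a b e : R) (hN : a ^ 2 + t * a * b + n * b ^ 2 = 1) :
    ((1 - e) * (1 + a) + e * (a * t + b * n)) * ((1 - e) * (1 + a) + e * (a * t + b * n))
        - n * (((1 - e) * b + e * (1 - a)) * ((1 - e) * b + e * (1 - a)))
      = (((1 - e) * (1 + a) + e * (a * t + b * n))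
          * (((1 - e) * (1 + a) + e * (a * t + b * n)) + t * ((1 - e) * b + e * (1 - a)))
        + n * ((1 - e) * b + e * (1 - a)) * ((1 - e) * b + e * (1 - a))) * a := by
  linear_combination
    (-(((1 - e) * (1 + a) + e * (a * t + b * n)) * (1 - e)
      - n * ((1 - e) * b + e * (1 - a)) * e)) * hN

/-- `x² = N(x) m`, second coordinate. -/
theorem h90_sq_snd751 (t n a b e : R) (hN : a ^ 2 + t * a * b + n * b ^ 2 = 1) :
    ((1 - e) * (1 + a) + e * (a * t + b * n)) * ((1 - e) * b + e * (1 - a))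
        + ((1 - e) * b + e * (1 - a)) * ((1 - e) * (1 + a) + e * (a * t + b * n))
        + t * (((1 - e) * b + e * (1 - a)) * ((1 - e) * b + e * (1 - a)))
      = (((1 - e) * (1 + a) + e * (a * t + b * n))
          * (((1 - e) * (1 + a) + e * (a * t + b * n)) + t * ((1 - e) * b + e * (1 - a)))
        + n * ((1 - e) * b + e * (1 - a)) * ((1 - e) * b + e * (1 - a))) * b := by
  linear_combination
    (-(((1 - e) * (1 + a) + e * (a * t + b * n)) * e
      + ((1 - e) * b + e * (1 - a)) * (1 - e) + t * ((1 - e) * b + e * (1 - a)) * e)) * hN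

end Poly


/-! ## Adeles by components -/

section Adelic

variable {K : Type} [Field K] [NumberField K]

/-- Two adeles with the same components are equal. -/
theorem adl_ext751 {x y : A0.Adl K} (h1 : ∀ w : InfinitePlace K, prInf751 w x = prInf751 w y)
    (h2 : ∀ v : HeightOneSpectrum (𝓞 K), prFin751 v x = prFin751 v y) : x = y := by
  apply Prod.ext
  · funext w
    exact h1 w
  · apply RestrictedProduct.ext
    intro v
    exact h2 v

/-- The finite components of an adele are integral at almost all places. -/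
theorem eventually_integral751 (x : A0.Adl K) :
    ∀ᶠ v : HeightOneSpectrum (𝓞 K) in Filter.cofinite, Valued.v (prFin751 v x) ≤ 1 := by
  have h := x.2.2
  refine h.mono fun v hv => ?_
  exact (HeightOneSpectrum.mem_adicCompletionIntegers (R := 𝓞 K) (K := K) (v := v)).mp hv

/-- The adele with prescribed components. -/
def mkAdl751 (f : ∀ w : InfinitePlace K, w.Completion)
    (g : ∀ v : HeightOneSpectrum (𝓞 K), v.adicCompletion K)
    (hg : ∀ᶠ v : HeightOneSpectrum (𝓞 K) in Filter.cofinite, g v ∈ v.adicCompletionIntegers K) :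
    A0.Adl K :=
  (f, ⟨g, hg⟩)

theorem prInf_mkAdl751 (f : ∀ w : InfinitePlace K, w.Completion)
    (g : ∀ v : HeightOneSpectrum (𝓞 K), v.adicCompletion K)
    (hg : ∀ᶠ v : HeightOneSpectrum (𝓞 K) in Filter.cofinite, g v ∈ v.adicCompletionIntegers K)
    (w : InfinitePlace K) : prInf751 w (mkAdl751 f g hg) = f w := rfl

theorem prFin_mkAdl751 (f : ∀ w : InfinitePlace K, w.Completion)
    (g : ∀ v : HeightOneSpectrum (𝓞 K), v.adicCompletion K)
    (hg : ∀ᶠ v : HeightOneSpectrum (𝓞 K) in Filter.cofinite, g v ∈ v.adicCompletionIntegers K)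
    (v : HeightOneSpectrum (𝓞 K)) : prFin751 v (mkAdl751 f g hg) = g v := rfl

/-- **Units of the adele ring**: all components are nonzero and almost all finite components
have valuation `≥ 1`. -/
theorem isUnit_adl751 (x : A0.Adl K) (h1 : ∀ w : InfinitePlace K, prInf751 w x ≠ 0)
    (h2 : ∀ v : HeightOneSpectrum (𝓞 K), prFin751 v x ≠ 0)
    (h3 : ∀ᶠ v : HeightOneSpectrum (𝓞 K) in Filter.cofinite, 1 ≤ Valued.v (prFin751 v x)) :
    IsUnit x := by
  have hg : ∀ᶠ v : HeightOneSpectrum (𝓞 K) in Filter.cofinite,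
      (prFin751 v x)⁻¹ ∈ v.adicCompletionIntegers K := by
    refine h3.mono fun v hv => ?_
    rw [HeightOneSpectrum.mem_adicCompletionIntegers, map_inv₀]
    exact inv_le_one_of_one_le₀ hv
  refine IsUnit.of_mul_eq_one (mkAdl751 (fun w => (prInf751 w x)⁻¹) (fun v => (prFin751 v x)⁻¹) hg) ?_
  apply adl_ext751
  · intro w
    rw [map_mul, prInf_mkAdl751, map_one, mul_inv_cancel₀ (h1 w)]
  · intro v
    rw [map_mul, prFin_mkAdl751, map_one, mul_inv_cancel₀ (h2 v)]

theorem smul_torMat751 {R : Type*} [CommRing R] (c t n a b : R) :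
    c • torMat t n a b = torMat t n (c * a) (c * b) := by
  unfold torMat
  ext i j
  fin_cases i <;> fin_cases j <;> simp <;> ring

/-- **Adelic Hilbert 90** in torus coordinates: every `m ∈ T¹(𝔸_K)` is `x² / N(x)` with
`x ∈ T(𝔸_K)`. -/
theorem adelicHilbert90_751 (t n : K) (hd : t ^ 2 - 4 * n ≠ 0) (m : A0.G K)
    (hm : InTorus1 t n m) :
    ∃ x : A0.G K, InTorus t n x ∧
      (x : Matrix (Fin 2) (Fin 2) (A0.Adl K)) * (x : Matrix (Fin 2) (Fin 2) (A0.Adl K))
        = ((Matrix.GeneralLinearGroup.det x : (A0.Adl K)ˣ) : A0.Adl K)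
            • (m : Matrix (Fin 2) (Fin 2) (A0.Adl K)) := by
  classical
  obtain ⟨⟨a, b, hab⟩, hdet⟩ := hm
  set T : A0.Adl K := algebraMap K (A0.Adl K) t with hT
  set Nn : A0.Adl K := algebraMap K (A0.Adl K) n with hNn
  have hN : a ^ 2 + T * a * b + Nn * b ^ 2 = 1 := by
    have h1 : ((Matrix.GeneralLinearGroup.det m : (A0.Adl K)ˣ) : A0.Adl K) = 1 := by
      rw [hdet]; rfl
    rw [Matrix.GeneralLinearGroup.val_det_apply, hab, torMat_det_h546] at h1
    linear_combination h1
  -- the discriminant is a unit adele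
  set Dinv : A0.Adl K := algebraMap K (A0.Adl K) (t ^ 2 - 4 * n)⁻¹ with hDinv
  have hDD : (T ^ 2 - 4 * Nn) * Dinv = 1 := by
    have : T ^ 2 - 4 * Nn = algebraMap K (A0.Adl K) (t ^ 2 - 4 * n) := by
      rw [hT, hNn]; simp only [map_sub, map_pow, map_mul, map_ofNat]
    rw [this, hDinv, ← map_mul, mul_inv_cancel₀ hd, map_one]
  set A₁ : A0.Adl K := 2 + 2 * a + T * b with hA₁
  set A₂ : A0.Adl K := a * (T ^ 2 - 4 * Nn) + Nn * (2 + 2 * a + T * b) with hA₂
  -- the idempotent
  have hge : ∀ᶠ v : HeightOneSpectrum (𝓞 K) in Filter.cofinite,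
      (if Valued.v (prFin751 v A₁) < 1 ∧ prFin751 v A₂ ≠ 0 then (1 : v.adicCompletion K) else 0)
        ∈ v.adicCompletionIntegers K := by
    refine Filter.Eventually.of_forall fun v => ?_
    split_ifs
    · exact one_mem _
    · exact zero_mem _
  set e : A0.Adl K := mkAdl751 (fun w => if prInf751 w A₁ = 0 then 1 else 0)
    (fun v => if Valued.v (prFin751 v A₁) < 1 ∧ prFin751 v A₂ ≠ 0 then 1 else 0) hge with he_def
  have heI : ∀ w : InfinitePlace K,
      prInf751 w e = if prInf751 w A₁ = 0 then 1 else 0 := fun w => rfl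
  have heF : ∀ v : HeightOneSpectrum (𝓞 K),
      prFin751 v e = if Valued.v (prFin751 v A₁) < 1 ∧ prFin751 v A₂ ≠ 0 then 1 else 0 :=
    fun v => rfl
  have he : e * e = e := by
    apply adl_ext751
    · intro w
      rw [map_mul, heI]
      split_ifs <;> simp
    · intro v
      rw [map_mul, heF]
      split_ifs <;> simp
  set p : A0.Adl K := (1 - e) * (1 + a) + e * (a * T + b * Nn) with hp
  set q : A0.Adl K := (1 - e) * b + e * (1 - a) with hq
  set N' : A0.Adl K := (1 - e) * A₁ + e * A₂ with hN'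
  have hNx : p * (p + T * q) + Nn * q * q = N' := h90_norm751 T Nn a b e he hN
  -- local facts
  have hloc : ∀ {F : Type} [Field F] (f : A0.Adl K →+* F),
      (f T) ^ 2 - 4 * f Nn ≠ 0 ∧
      (f a) ^ 2 + f T * f a * f b + f Nn * (f b) ^ 2 = 1 ∧
      f A₁ = 2 + 2 * f a + f T * f b ∧
      f A₂ = f a * ((f T) ^ 2 - 4 * f Nn) + f Nn * (2 + 2 * f a + f T * f b) := by
    intro F _ f
    refine ⟨?_, ?_, ?_, ?_⟩
    · intro h0
      have := congrArg f hDD
      simp only [map_mul, map_sub, map_pow, map_ofNat, map_one] at this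
      rw [h0, zero_mul] at this
      exact zero_ne_one this
    · have := congrArg f hN
      simpa only [map_add, map_mul, map_pow, map_one] using this
    · rw [hA₁]; simp only [map_add, map_mul, map_ofNat]
    · rw [hA₂]; simp only [map_add, map_mul, map_sub, map_pow, map_ofNat]
  have hunit : IsUnit N' := by
    apply isUnit_adl751
    · intro w
      obtain ⟨h1, h2, h3, h4⟩ := hloc (prInf751 w)
      rw [hN', map_add, map_mul, map_mul, map_sub, map_one, heI]
      split_ifs with hc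
      · rw [sub_self, zero_mul, zero_add, one_mul, h4]
        exact h90_ne_zero751 _ _ _ _ h1 h2 (by rw [← h3]; exact hc)
      · rw [sub_zero, one_mul, zero_mul, add_zero]
        exact hc
    · intro v
      obtain ⟨h1, h2, h3, h4⟩ := hloc (prFin751 v)
      rw [hN', map_add, map_mul, map_mul, map_sub, map_one, heF]
      split_ifs with hc
      · rw [sub_self, zero_mul, zero_add, one_mul]
        exact hc.2
      · rw [sub_zero, one_mul, zero_mul, add_zero]
        intro h0
        apply hc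
        refine ⟨by rw [h0, map_zero]; exact zero_lt_one, ?_⟩
        rw [h4]
        exact h90_ne_zero751 _ _ _ _ h1 h2 (by rw [← h3]; exact h0)
    · have hev := ((((eventually_integral751 a).and (eventually_integral751 b)).and
        (eventually_integral751 T)).and (eventually_integral751 Nn)).and
        ((eventually_integral751 (T ^ 2 - 4 * Nn)).and (eventually_integral751 Dinv))
      refine hev.mono fun v hv => ?_
      obtain ⟨⟨⟨⟨hva, hvb⟩, hvT⟩, hvN⟩, hvD, hvDi⟩ := hv
      obtain ⟨h1, h2, h3, h4⟩ := hloc (prFin751 v)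
      have hDu : Valued.v ((prFin751 v T) ^ 2 - 4 * prFin751 v Nn) = 1 := by
        have e1 : prFin751 v (T ^ 2 - 4 * Nn) = (prFin751 v T) ^ 2 - 4 * prFin751 v Nn := by
          simp only [map_sub, map_pow, map_mul, map_ofNat]
        rw [e1] at hvD
        have e2 : Valued.v ((prFin751 v T) ^ 2 - 4 * prFin751 v Nn) * Valued.v (prFin751 v Dinv)
            = 1 := by
          rw [← map_mul, ← e1, ← map_mul, hDD, map_one, map_one]
        refine le_antisymm hvD ?_
        calc (1 : WithZero (Multiplicative ℤ))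
            = Valued.v ((prFin751 v T) ^ 2 - 4 * prFin751 v Nn) * Valued.v (prFin751 v Dinv) :=
              e2.symm
          _ ≤ Valued.v ((prFin751 v T) ^ 2 - 4 * prFin751 v Nn) * 1 := mul_le_mul' le_rfl hvDi
          _ = _ := mul_one _
      have hA2u : Valued.v (prFin751 v A₁) < 1 → Valued.v (prFin751 v A₂) = 1 := by
        intro hlt
        rw [h4]
        exact h90_unit751 Valued.v _ _ _ _ hvT hvN hva hvb hDu h2 (by rw [← h3]; exact hlt)
      rw [hN', map_add, map_mul, map_mul, map_sub, map_one, heF]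
      split_ifs with hc
      · rw [sub_self, zero_mul, zero_add, one_mul, hA2u hc.1]
      · rw [sub_zero, one_mul, zero_mul, add_zero]
        by_contra hlt
        rw [not_le] at hlt
        apply hc
        refine ⟨hlt, ?_⟩
        intro h0
        have := hA2u hlt
        rw [h0, map_zero] at this
        exact zero_ne_one this
  -- the element
  have hdetX : (torMat T Nn p q).det = N' := by rw [torMat_det_h546, hNx]
  refine ⟨Matrix.GeneralLinearGroup.mk'' (torMat T Nn p q) (by rw [hdetX]; exact hunit),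
    ⟨p, q, rfl⟩, ?_⟩
  rw [Matrix.GeneralLinearGroup.val_det_apply]
  change torMat T Nn p q * torMat T Nn p q = (torMat T Nn p q).det • (m : Matrix _ _ _)
  rw [hab, torMat_mul_h546, smul_torMat751, torMat_det_h546]
  congr 1
  · exact h90_sq_fst751 T Nn a b e hN
  · exact h90_sq_snd751 T Nn a b e hN

end Adelic

end Fermat.Agent.LT.A2.H751

end

end
-- ===== PACK-END LT/A2/H751/Hilbert90.lean

-- ===== PACK-BEGIN LT/T2/H386/Soft1D.lean
section









/-!
# Row LT, T2.03b (helper386): the averaging operator and the iterated kernels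

OFF-MAIN.  `avgOp386 ν D x g (h) = ν(D)⁻¹ ∫_D g(c_x(-v) h) dν(v)`,
`ker386 ν D x j f = (1 - 𝔄_x)^j f`: continuity, bounds, supports; the kernels are means of
finite differences.
-/

set_option autoImplicit false
set_option linter.unusedSectionVars false
set_option linter.style.haveILetI false

open IsDedekindDomain NumberField MeasureTheory
open scoped Pointwise
open Fermat.Agent.LT.H556.A0

noncomputable section

namespace Fermat.Agent.LT.T2.H386

open Fermat.Agent.LT.T2

attribute [local instance] Fermat.Agent.LT.T2.borelG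

variable {K : Type} [Field K] [NumberField K]

attribute [local instance] borelAdl386 borelSpaceAdl386 borelSpaceG386

/-- The averaging operator `𝔄_x g (h) = ν(D)⁻¹ ∫_D g(c_x(-v) h) dν(v)`. -/
def avgOp386 (ν : Measure (Adl K)) (D : Set (Adl K)) (x : G K) (g : G K → ℂ) : G K → ℂ :=
  fun h => (((ν D).toReal : ℝ) : ℂ)⁻¹ * ∫ v in D, g (conjUnip386 x (-v) * h) ∂ν

/-- The iterated kernels `(1 - 𝔄_x)^j f`. -/
def ker386 (ν : Measure (Adl K)) (D : Set (Adl K)) (x : G K) : ℕ → (G K → ℂ) → (G K → ℂ)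
  | 0, f => f
  | j + 1, f => fun h => ker386 ν D x j f h - avgOp386 ν D x (ker386 ν D x j f) h

/-- The supports: `T₀ = T`, `T_{j+1} = T_j ∪ W T_j`. -/
def suppSeq386 (W T : Set (G K)) : ℕ → Set (G K)
  | 0 => T
  | j + 1 => suppSeq386 W T j ∪ W * suppSeq386 W T j

theorem isCompact_suppSeq386 {W T : Set (G K)} (hW : IsCompact W) (hT : IsCompact T) (j : ℕ) :
    IsCompact (suppSeq386 W T j) := by
  induction j with
  | zero => exact hT
  | succ j ih => exact ih.union (hW.mul ih)

theorem continuous_diff386 (x : G K) (v : Adl K) {g : G K → ℂ} (hg : Continuous g) :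
    Continuous (diff386 x v g) :=
  hg.sub (hg.comp (continuous_const.mul continuous_id))

theorem diff386_comm (x : G K) (v w : Adl K) (g : G K → ℂ) :
    diff386 x v (diff386 x w g) = diff386 x w (diff386 x v g) := by
  funext h
  simp only [diff386]
  rw [← mul_assoc (conjUnip386 x (-w)), ← mul_assoc (conjUnip386 x (-v)),
    conjUnip386_comm x (-w) (-v)]
  ring

section

variable [LocallyCompactSpace (G K)] [SecondCountableTopology (G K)] [T2Space (G K)]
  [LocallyCompactSpace (Adl K)] [SecondCountableTopology (Adl K)] [T2Space (Adl K)]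

theorem continuous_avgOp386 (ν : Measure (Adl K)) (D : Set (Adl K)) (hDtop : ν D ≠ ⊤)
    (hDc : IsCompact (closure D)) (x : G K) {g : G K → ℂ} (hg : Continuous g) :
    Continuous (avgOp386 ν D x g) := by
  refine continuous_const.mul ?_
  refine continuous_setIntegral386 ν D hDtop hDc (fun h v => g (conjUnip386 x (-v) * h)) ?_
  exact hg.comp (((continuous_conjUnip386 x).comp continuous_snd.neg).mul continuous_fst)

theorem norm_avgOp386_le (ν : Measure (Adl K)) (D : Set (Adl K)) (hD0 : ν D ≠ 0)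
    (hDtop : ν D ≠ ⊤) (x : G K) {g : G K → ℂ} (C : ℝ) (hC : ∀ y, ‖g y‖ ≤ C) (h : G K) :
    ‖avgOp386 ν D x g h‖ ≤ C := by
  have hpos : 0 < (ν D).toReal := ENNReal.toReal_pos hD0 hDtop
  have h2 : ‖∫ v in D, g (conjUnip386 x (-v) * h) ∂ν‖ ≤ C * (ν D).toReal :=
    norm_setIntegral_le_of_norm_le_const hDtop.lt_top (fun v _ => hC _)
  unfold avgOp386
  rw [norm_mul, norm_inv, Complex.norm_real, Real.norm_of_nonneg hpos.le]
  calc (ν D).toReal⁻¹ * ‖∫ v in D, g (conjUnip386 x (-v) * h) ∂ν‖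
      ≤ (ν D).toReal⁻¹ * (C * (ν D).toReal) :=
        mul_le_mul_of_nonneg_left h2 (inv_nonneg.mpr hpos.le)
    _ = C := by field_simp

theorem avgOp386_support (ν : Measure (Adl K)) (D : Set (Adl K)) (x : G K) {g : G K → ℂ}
    {W T : Set (G K)} (hW : ∀ v ∈ D, conjUnip386 x v ∈ W) (hT : ∀ y, g y ≠ 0 → y ∈ T)
    (h : G K) (hh : avgOp386 ν D x g h ≠ 0) : h ∈ W * T := by
  by_contra hcon
  apply hh
  unfold avgOp386
  have : ∀ v ∈ D, g (conjUnip386 x (-v) * h) = 0 := by
    intro v hv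
    by_contra hne
    apply hcon
    refine ⟨conjUnip386 x v, hW v hv, conjUnip386 x (-v) * h, hT _ hne, ?_⟩
    show conjUnip386 x v * (conjUnip386 x (-v) * h) = h
    rw [← mul_assoc, ← conjUnip386_add, add_neg_cancel, conjUnip386_zero, one_mul]
  rw [setIntegral_eq_zero_of_forall_eq_zero this, mul_zero]

/-- Continuity, bound and support of the iterated kernels. -/
theorem ker386_props (ν : Measure (Adl K)) (D : Set (Adl K)) (hD0 : ν D ≠ 0) (hDtop : ν D ≠ ⊤)
    (hDc : IsCompact (closure D)) (x : G K) {f : G K → ℂ} (hf : Continuous f)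
    (C : ℝ) (hC : ∀ y, ‖f y‖ ≤ C) {W T : Set (G K)} (hW : ∀ v ∈ D, conjUnip386 x v ∈ W)
    (hT : ∀ y, f y ≠ 0 → y ∈ T) (j : ℕ) :
    Continuous (ker386 ν D x j f) ∧ (∀ y, ‖ker386 ν D x j f y‖ ≤ 2 ^ j * C) ∧
      ∀ y, ker386 ν D x j f y ≠ 0 → y ∈ suppSeq386 W T j := by
  induction j with
  | zero =>
    refine ⟨hf, fun y => ?_, hT⟩
    simpa [ker386] using hC y
  | succ j ih =>
    obtain ⟨hc, hb, hs⟩ := ih
    refine ⟨hc.sub (continuous_avgOp386 ν D hDtop hDc x hc), fun y => ?_, fun y hy => ?_⟩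
    · show ‖ker386 ν D x j f y - avgOp386 ν D x (ker386 ν D x j f) y‖ ≤ 2 ^ (j + 1) * C
      calc ‖ker386 ν D x j f y - avgOp386 ν D x (ker386 ν D x j f) y‖
          ≤ ‖ker386 ν D x j f y‖ + ‖avgOp386 ν D x (ker386 ν D x j f) y‖ := norm_sub_le _ _
        _ ≤ 2 ^ j * C + 2 ^ j * C :=
          add_le_add (hb y) (norm_avgOp386_le ν D hD0 hDtop x _ hb y)
        _ = 2 ^ (j + 1) * C := by ring
    · show y ∈ suppSeq386 W T j ∪ W * suppSeq386 W T j
      by_cases h1 : ker386 ν D x j f y = 0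
      · right
        refine avgOp386_support ν D x hW hs y ?_
        intro h2
        apply hy
        show ker386 ν D x j f y - avgOp386 ν D x (ker386 ν D x j f) y = 0
        rw [h1, h2, sub_zero]
      · exact Or.inl (hs y h1)

end

end Fermat.Agent.LT.T2.H386

end

end
-- ===== PACK-END LT/T2/H386/Soft1D.lean

-- ===== PACK-BEGIN LT/T2/H868/CountA.lean
section





/-!
# Row LT, tower T2, sub-leaf T2.03c.1 `LeafCount`, part A (helper868): lattice points in boxes

OFF-MAIN.  Vocabulary: `LT/H556/A0.lean` (66d3374a), `LT/T1/Spec.lean` (e8ae48d6), byte-identical.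
Tools: HAAR-SCALE (`haarScale868`), the boxes `box868` of `LT/T1/H868`.

* `finite_K_in_compact868`: `K ∩ (compact)` is finite.
* `rat_eq_zero_of_mem_box868`: a rational adele in the box of radius `1/2` is `0` (product formula).
* `RayData868`, `exists_rayData868`: the ray element `a = diag(σ, 1)` of `T1.IsRay`, `σ` an idele with
  `‖σ_w‖ = s` at the infinite places and `σ_v = 1` at the finite places; `adNorm σ = s ^ [K : ℚ]`.
* `packing868`: `#(K ∩ σ E) ≤ C₂ · s ^ [K : ℚ]` for `E` compact, uniformly in `s ≥ s₀ > 0`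
  (packing by the translates of the box of radius `1/4`).
* `shrink868`: `{y : y σ ∈ E for some s ≥ s₀}` lies in a fixed compact set.
-/

set_option autoImplicit false
set_option linter.style.haveILetI false
set_option linter.unusedVariables false
set_option linter.unusedSectionVars false

open IsDedekindDomain NumberField MeasureTheory
open scoped ENNReal NNReal

noncomputable section

namespace Fermat.Agent.LT.T2.H868

open Fermat.Agent.LT.H556.A0
open Fermat.Agent.LT.T1
open Fermat.Agent.LT.T1.H868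

variable {K : Type} [Field K] [NumberField K]

/-! ## Rational points in compact sets and in small boxes -/

/-- Finitely many elements of `K` in a compact subset of `𝔸_K`. -/
theorem finite_K_in_compact868 (hAL : AdeleLatticeC K) [T2Space (Adl K)] {W : Set (Adl K)}
    (hW : IsCompact W) : {ξ : K | algebraMap K (Adl K) ξ ∈ W}.Finite := by
  obtain ⟨hdisc, hclosed, -⟩ := hAL
  haveI := hdisc
  have h1 : IsCompact ((Subtype.val : princ K → Adl K) ⁻¹' W) :=
    hclosed.isClosedEmbedding_subtypeVal.isCompact_preimage hW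
  have h2 : ((Subtype.val : princ K → Adl K) ⁻¹' W).Finite := h1.finite_of_discrete
  have h3 : ((princ K : Set (Adl K)) ∩ W).Finite := by
    have : (princ K : Set (Adl K)) ∩ W = Subtype.val '' ((Subtype.val : princ K → Adl K) ⁻¹' W) := by
      ext a
      constructor
      · rintro ⟨ha1, ha2⟩
        exact ⟨⟨a, ha1⟩, ha2, rfl⟩
      · rintro ⟨b, hb, rfl⟩
        exact ⟨b.2, hb⟩
    rw [this]
    exact h2.image _
  have hinj : Function.Injective fun ξ : K => algebraMap K (Adl K) ξ :=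
    NumberField.AdeleRing.algebraMap_injective (𝓞 K) K
  have h4 : {ξ : K | algebraMap K (Adl K) ξ ∈ W}
      = (fun ξ : K => algebraMap K (Adl K) ξ) ⁻¹' ((princ K : Set (Adl K)) ∩ W) := by
    ext ξ
    simp only [Set.mem_ofPred_eq, Set.mem_preimage, Set.mem_inter_iff, SetLike.mem_coe,
      iff_and_self]
    intro _
    exact ⟨ξ, rfl⟩
  rw [h4]
  exact h3.preimage (hinj.injOn)

/-- A rational adele in the box of radius `1/2` vanishes (product formula). -/
theorem rat_eq_zero_of_mem_box868 (hN : AdNormC K) {ξ : K}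
    (h : algebraMap K (Adl K) ξ ∈ box868 K fun _ => 1 / 2) : ξ = 0 := by
  by_contra h0
  have h1 := hN.2.2.1 (Units.mk0 ξ h0)
  have e : ((ratUnit K (Units.mk0 ξ h0) : (Adl K)ˣ) : Adl K) = algebraMap K (Adl K) ξ := rfl
  rw [e] at h1
  unfold adNorm at h1
  obtain ⟨hinf, hfin⟩ := h
  set x : Adl K := algebraMap K (Adl K) ξ with hx
  have hA0 : 0 ≤ ∏ w : InfinitePlace K, ‖x.1 w‖ ^ w.mult :=
    Finset.prod_nonneg fun w _ => pow_nonneg (norm_nonneg _) _
  have hA1 : ∏ w : InfinitePlace K, ‖x.1 w‖ ^ w.mult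
      ≤ (1 / 2 : ℝ) ^ Module.finrank ℚ K := by
    calc ∏ w : InfinitePlace K, ‖x.1 w‖ ^ w.mult
        ≤ ∏ w : InfinitePlace K, (1 / 2 : ℝ) ^ w.mult :=
          Finset.prod_le_prod (fun w _ => pow_nonneg (norm_nonneg _) _)
            fun w _ => pow_le_pow_left₀ (norm_nonneg _) (hinf w) _
      _ = (1 / 2 : ℝ) ^ Module.finrank ℚ K := by
          rw [Finset.prod_pow_eq_pow_sum, InfinitePlace.sum_mult_eq]
  have hpos : Module.finrank ℚ K ≠ 0 := (Module.finrank_pos (R := ℚ) (M := K)).ne'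
  have hA2 : (1 / 2 : ℝ) ^ Module.finrank ℚ K < 1 :=
    pow_lt_one₀ (by norm_num) (by norm_num) hpos
  have hB : 0 ≤ (∏ᶠ v : HeightOneSpectrum (𝓞 K), ‖x.2 v‖) ∧
      (∏ᶠ v : HeightOneSpectrum (𝓞 K), ‖x.2 v‖) ≤ 1 := by
    refine finprod_induction (fun y : ℝ => 0 ≤ y ∧ y ≤ 1) ⟨zero_le_one, le_rfl⟩ ?_ ?_
    · rintro a b ⟨ha0, ha1⟩ ⟨hb0, hb1⟩
      exact ⟨mul_nonneg ha0 hb0, mul_le_one₀ ha1 hb0 hb1⟩
    · intro v
      refine ⟨norm_nonneg _, ?_⟩
      rw [Valued.toNormedField.norm_le_one_iff]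
      exact (HeightOneSpectrum.mem_adicCompletionIntegers _ _ _).1 (hfin v)
  have : (∏ w : InfinitePlace K, ‖x.1 w‖ ^ w.mult)
      * (∏ᶠ v : HeightOneSpectrum (𝓞 K), ‖x.2 v‖) < 1 := by
    calc (∏ w : InfinitePlace K, ‖x.1 w‖ ^ w.mult)
        * (∏ᶠ v : HeightOneSpectrum (𝓞 K), ‖x.2 v‖)
        ≤ (∏ w : InfinitePlace K, ‖x.1 w‖ ^ w.mult) * 1 :=
          mul_le_mul_of_nonneg_left hB.2 hA0
      _ = ∏ w : InfinitePlace K, ‖x.1 w‖ ^ w.mult := mul_one _
      _ ≤ (1 / 2 : ℝ) ^ Module.finrank ℚ K := hA1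
      _ < 1 := hA2
  rw [h1] at this
  exact lt_irrefl _ this

/-- Differences of two points of the box of radius `1/4` lie in the box of radius `1/2`. -/
theorem sub_mem_box868 {a b : Adl K} (ha : a ∈ box868 K fun _ => 1 / 4)
    (hb : b ∈ box868 K fun _ => 1 / 4) : a - b ∈ box868 K fun _ => 1 / 2 := by
  refine ⟨fun w => ?_, fun v => ?_⟩
  · have e1 : (a - b).1 w = a.1 w - b.1 w := rfl
    rw [e1]
    calc ‖a.1 w - b.1 w‖ ≤ ‖a.1 w‖ + ‖b.1 w‖ := norm_sub_le _ _
      _ ≤ 1 / 4 + 1 / 4 := add_le_add (ha.1 w) (hb.1 w)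
      _ = 1 / 2 := by norm_num
  · have e1 : (a - b).2 v = a.2 v - b.2 v := rfl
    rw [e1]
    exact sub_mem (ha.2 v) (hb.2 v)

/-! ## The ray -/

/-- The ray element `a = diag(σ, 1)`: `‖σ_w‖ = s` at the infinite places, `σ_v = 1` at the finite
places. -/
structure RayData868 (a : G K) (s : ℝ) (σ : (Adl K)ˣ) : Prop where
  mat : (a : Matrix (Fin 2) (Fin 2) (Adl K)) = !![(σ : Adl K), 0; 0, 1]
  norm_inf : ∀ w : InfinitePlace K, ‖(σ : Adl K).1 w‖ = s
  fin : ∀ v : HeightOneSpectrum (𝓞 K), (σ : Adl K).2 v = 1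

theorem adl_ext868 {x y : Adl K} (h1 : ∀ w : InfinitePlace K, x.1 w = y.1 w)
    (h2 : ∀ v : HeightOneSpectrum (𝓞 K), x.2 v = y.2 v) : x = y :=
  Prod.ext (funext h1) (RestrictedProduct.ext _ _ h2)

theorem exists_rayData868 {a : G K} {s : ℝ} (hs : 0 < s) (ha : IsRay K a s) :
    ∃ σ : (Adl K)ˣ, RayData868 a s σ := by
  obtain ⟨hfin, hinf⟩ := ha
  have hf : ∀ (v : HeightOneSpectrum (𝓞 K)) (i j : Fin 2),
      ((a : Matrix (Fin 2) (Fin 2) (Adl K)) i j).2 v
        = (1 : Matrix (Fin 2) (Fin 2) (v.adicCompletion K)) i j := fun v i j =>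
    congrFun (congrFun (hfin v) i) j
  have hi : ∀ (w : InfinitePlace K) (i j : Fin 2),
      InfinitePlace.Completion.extensionEmbedding w
        (((a : Matrix (Fin 2) (Fin 2) (Adl K)) i j).1 w)
        = (!![(s : ℂ), 0; 0, 1] : Matrix (Fin 2) (Fin 2) ℂ) i j := fun w i j =>
    congrFun (congrFun (hinf w) i) j
  have hinj : ∀ w : InfinitePlace K,
      Function.Injective (InfinitePlace.Completion.extensionEmbedding w) := fun w =>
    (InfinitePlace.Completion.extensionEmbedding w).injective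
  have h01 : (a : Matrix (Fin 2) (Fin 2) (Adl K)) 0 1 = 0 := by
    refine adl_ext868 (fun w => ?_) (fun v => ?_)
    · apply hinj w
      rw [hi w 0 1]
      show _ = InfinitePlace.Completion.extensionEmbedding w 0
      rw [map_zero]
      rfl
    · rw [hf v 0 1]
      rfl
  have h10 : (a : Matrix (Fin 2) (Fin 2) (Adl K)) 1 0 = 0 := by
    refine adl_ext868 (fun w => ?_) (fun v => ?_)
    · apply hinj w
      rw [hi w 1 0]
      show _ = InfinitePlace.Completion.extensionEmbedding w 0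
      rw [map_zero]
      rfl
    · rw [hf v 1 0]
      rfl
  have h11 : (a : Matrix (Fin 2) (Fin 2) (Adl K)) 1 1 = 1 := by
    refine adl_ext868 (fun w => ?_) (fun v => ?_)
    · apply hinj w
      rw [hi w 1 1]
      show _ = InfinitePlace.Completion.extensionEmbedding w 1
      rw [map_one]
      rfl
    · rw [hf v 1 1]
      rfl
  have hdet : ((Matrix.GeneralLinearGroup.det a : (Adl K)ˣ) : Adl K)
      = (a : Matrix (Fin 2) (Fin 2) (Adl K)) 0 0 := by
    rw [Matrix.GeneralLinearGroup.val_det_apply, Matrix.det_fin_two, h01, h10, h11]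
    ring
  refine ⟨Matrix.GeneralLinearGroup.det a, ?_, fun w => ?_, fun v => ?_⟩
  · rw [hdet]
    have h := Matrix.eta_fin_two (a : Matrix (Fin 2) (Fin 2) (Adl K))
    rw [h01, h10, h11] at h
    exact h
  · rw [hdet]
    have h := (InfinitePlace.Completion.isometry_extensionEmbedding w).norm_map_of_map_zero
      (map_zero _) (((a : Matrix (Fin 2) (Fin 2) (Adl K)) 0 0).1 w)
    rw [← h, hi w 0 0]
    show ‖(s : ℂ)‖ = s
    rw [Complex.norm_real, Real.norm_eq_abs, abs_of_pos hs]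
  · rw [hdet, hf v 0 0]
    rfl

theorem RayData868.isFinUnit {a : G K} {s : ℝ} {σ : (Adl K)ˣ} (h : RayData868 a s σ) :
    IsFinUnit868 K σ := fun v => by
  rw [h.fin v, map_one]

theorem RayData868.adNorm {a : G K} {s : ℝ} {σ : (Adl K)ˣ} (h : RayData868 a s σ) :
    adNorm K (σ : Adl K) = s ^ Module.finrank ℚ K := by
  rw [adNorm_of_isFinUnit868 K h.isFinUnit]
  simp only [h.norm_inf]
  rw [Finset.prod_pow_eq_pow_sum, InfinitePlace.sum_mult_eq]

theorem RayData868.inv_fin {a : G K} {s : ℝ} {σ : (Adl K)ˣ} (h : RayData868 a s σ)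
    (v : HeightOneSpectrum (𝓞 K)) : ((σ⁻¹ : (Adl K)ˣ) : Adl K).2 v = 1 := by
  have := fin_mul_inv868 K σ v
  rw [h.fin v, mul_one] at this
  exact this

theorem RayData868.inv_norm_inf {a : G K} {s : ℝ} {σ : (Adl K)ˣ} (h : RayData868 a s σ)
    (w : InfinitePlace K) : ‖((σ⁻¹ : (Adl K)ˣ) : Adl K).1 w‖ = s⁻¹ := by
  rw [norm_inf_inv868, h.norm_inf w]

end Fermat.Agent.LT.T2.H868

end

end
-- ===== PACK-END LT/T2/H868/CountA.lean

-- ===== PACK-BEGIN LT/T2/H879/HeckeStrip.lean
section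











/-!
# Row LT, tower T2, sub-leaf T2.10.15 `HeckeStripC` (helper879), OFF-MAIN

`leaf15_879 : H941.Leaf15 K` (`T1.T1Out K → PairC K → HeckeStripC K`), VERBATIM Prop of
`LT/T2/H941/SmoSpec.lean` (helper941@8afa9067a, sha256 41255efa).

Proof.  `⟨R(p) f, R(p') f₂⟩ = Ψ(n(u - u'))`, `Ψ(y) = ⟨R(y) f, f₂⟩`.  If `⟨f, f₂⟩ ≠ 0` there is
nothing to prove.  If `⟨f, f₂⟩ = Ψ(1) = 0`: `Ψ` is bi-`GL₂(𝒪_v)`-invariant, so it is constant
on the integral matrices of determinant a uniformiser (value `T`), and `(q + 1) T = √q a Ψ(1) = 0`.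
For `g₀` in this set the products `g₀ h`, `h ∈ H`, are integral of determinant valuation
`exp (-2)`: either `g₀ h ∈ GL₂(𝒪_v) z` (then `Ψ = b Ψ(1) = 0`) or `g₀ h` has elementary divisors
`(1, ϖ²)`, as `n(c) z` for `c ∈ ϖ⁻¹ 𝒪_v^×`; the second case occurs (`H` has two inequivalent
elements), and `∑_h Ψ(g₀ h) = √q a T = 0`, so `b Ψ(n(c)) = Ψ(n(c) z) = 0`.  If `b = 0` then
`f = 0`.
-/

set_option autoImplicit false

open IsDedekindDomain NumberField MeasureTheory AutomorphicForm
open Fermat.Agent.LT.H556.A0 Fermat.Agent.LT.H129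
open Fermat.Agent.LT.T2.H941

noncomputable section

namespace Fermat.Agent.LT.T2.H879

variable {K : Type} [Field K] [NumberField K]

attribute [local instance] Fermat.Agent.LT.T2.borelG

/-! ## 1. Dictionary local / global -/

theorem isLocalMaxCpt_locFin879 {v : HeightOneSpectrum (𝓞 K)}
    {k : GL (Fin 2) (v.adicCompletion K)} (hk : IsMaxCpt129 (v.adicCompletionIntegers K) k) :
    IsLocalMaxCptAt129 v (locFin129 v k) := by
  refine ⟨isLocalAtFin_locFin129 v k, ?_, ?_⟩
  · intro i j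
    rw [finComp_locFin129]
    exact hk.1 i j
  · intro i j
    rw [← map_inv, finComp_locFin129]
    exact hk.2 i j

theorem one_lt_val879 {y : WithZero (Multiplicative ℤ)} (hy : 1 < y) :
    WithZero.exp (1 : ℤ) ≤ y := by
  have hy0 : y ≠ 0 := (zero_lt_one.trans hy).ne'
  rw [← WithZero.exp_log hy0] at hy ⊢
  rw [← WithZero.exp_zero, WithZero.exp_lt_exp] at hy
  rw [WithZero.exp_le_exp]
  omega

/-- The matrix of `n(c) ζ`. -/
theorem coe_upper_mul_scalar879 {F : Type*} [Field F] {ζ : GL (Fin 2) F} {c₀ : F}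
    (hζ : (ζ : Matrix (Fin 2) (Fin 2) F) = Matrix.diagonal (fun _ => c₀)) (c : F) :
    ((upperU129 c * ζ : GL (Fin 2) F) : Matrix (Fin 2) (Fin 2) F) = !![c₀, c * c₀; 0, c₀] := by
  rw [Matrix.GeneralLinearGroup.coe_mul, hζ]
  simp only [upperU129, coe_mkGL129]
  ext i j
  fin_cases i <;> fin_cases j <;> simp [Matrix.mul_apply, Fin.sum_univ_two]

/-- `n(c) ζ` has elementary divisors `(1, ϖ²)` when `c ∈ ϖ⁻¹ 𝒪_v^×`. -/
theorem type_upper_scalar879 {v : HeightOneSpectrum (𝓞 K)}
    {ζ : GL (Fin 2) (v.adicCompletion K)} {c₀ c : v.adicCompletion K}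
    (hc₀ : Valued.v c₀ = WithZero.exp (-1 : ℤ))
    (hζ : (ζ : Matrix (Fin 2) (Fin 2) (v.adicCompletion K)) = Matrix.diagonal (fun _ => c₀))
    (hc : Valued.v c = WithZero.exp (1 : ℤ)) : IsType879 v 0 (-2) (upperU129 c * ζ) := by
  have hint : IsInt129 (v.adicCompletionIntegers K) (upperU129 c * ζ) := by
    intro i j
    rw [coe_upper_mul_scalar879 hζ]
    have h1 : c₀ ∈ v.adicCompletionIntegers K := by
      rw [mem_int_iff879, hc₀, ← WithZero.exp_zero, WithZero.exp_le_exp]
      norm_num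
    have h2 : c * c₀ ∈ v.adicCompletionIntegers K := by
      rw [mem_int_iff879, map_mul, hc, hc₀, ← WithZero.exp_add, ← WithZero.exp_zero,
        WithZero.exp_le_exp]
      norm_num
    fin_cases i <;> fin_cases j
    · simpa using h1
    · simpa using h2
    · simp
    · simpa using h1
  have hdet : Valued.v ((upperU129 c * ζ : GL (Fin 2) (v.adicCompletion K)) :
      Matrix (Fin 2) (Fin 2) (v.adicCompletion K)).det = WithZero.exp (-2 : ℤ) := by
    rw [coe_upper_mul_scalar879 hζ, Matrix.det_fin_two_of]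
    simp only [mul_zero, sub_zero]
    rw [map_mul, hc₀, ← WithZero.exp_add]
    norm_num
  rcases type_two879 hint hdet with h | h
  · exact h
  · exfalso
    obtain ⟨k, hk, hkk⟩ := type_scalar879 hc₀ hζ h
    have hku : upperU129 c = k := mul_right_cancel hkk
    have hmem := hk.1 0 1
    rw [← hku] at hmem
    simp only [upperU129, coe_mkGL129] at hmem
    have hle : Valued.v c ≤ 1 := mem_int_iff879.mp (by simpa using hmem)
    rw [hc, ← WithZero.exp_zero, WithZero.exp_le_exp] at hle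
    omega

/-! ## 2. The vanishing -/

/-- If `⟨f, f₂⟩ = 0` then `⟨R(n(c)) f, f₂⟩ = 0` for `c ∈ ϖ⁻¹ 𝒪_v`. -/
theorem strip_zero879 (hP : PairC K) (F : T2.Frame K) {v : HeightOneSpectrum (𝓞 K)}
    {f f₂ : G K → ℂ} {a b : ℂ} (hf : IsAut0 f) (hf₂ : IsAut0 f₂) (hK : IsKv v f)
    (hK₂ : IsKv v f₂) (hE : IsHeckeEigenAt f v a b) (hB : T2.pair F f f₂ = 0)
    {c : v.adicCompletion K} (hc : Valued.v c ≤ WithZero.exp (1 : ℤ)) :
    psi879 F f f₂ (locFin129 v (upperU129 c)) = 0 := by
  classical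
  by_cases hci : Valued.v c ≤ 1
  · have hk := isLocalMaxCpt_locFin879 (isMaxCpt129_upperU (mem_int_iff879.mpr hci))
    have := psi_mul_right879 F f₂ hK hk 1
    rw [one_mul] at this
    rw [this, psi_one879, hB]
  · have hvc : Valued.v c = WithZero.exp (1 : ℤ) :=
      le_antisymm hc (one_lt_val879 (not_le.mp hci))
    obtain ⟨H, hH⟩ := exists_heckeCosetSystem129 v
    obtain ⟨z, hz⟩ := exists_scalarUniformizer129 v
    obtain ⟨hzloc, c₀, hc₀, hzc⟩ := id hz
    have hζ : ((finCompHom129 v z : GL (Fin 2) (v.adicCompletion K)) :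
        Matrix (Fin 2) (Fin 2) (v.adicCompletion K)) = Matrix.diagonal (fun _ => c₀) := hzc
    have hzeq : z = locFin129 v (finCompHom129 v z) := eq_locFin129_of_isLocalAtFin hzloc
    -- the local function
    have hΨK : ∀ (k₁ k₂ x : GL (Fin 2) (v.adicCompletion K)),
        IsMaxCpt129 (v.adicCompletionIntegers K) k₁ →
        IsMaxCpt129 (v.adicCompletionIntegers K) k₂ →
        psi879 F f f₂ (locFin129 v (k₁ * x * k₂)) = psi879 F f f₂ (locFin129 v x) := by
      intro k₁ k₂ x h1 h2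
      rw [map_mul, map_mul, psi_mul_right879 F f₂ hK (isLocalMaxCpt_locFin879 h2),
        psi_mul_left879 hP F hf hf₂ hK₂ (isLocalMaxCpt_locFin879 h1)]
    have hΨζ : ∀ x : GL (Fin 2) (v.adicCompletion K),
        psi879 F f f₂ (locFin129 v (x * finCompHom129 v z))
          = b * psi879 F f f₂ (locFin129 v x) := by
      intro x
      rw [map_mul, ← hzeq]
      exact psi_mul_scalar879 F f₂ hE hz _
    have hΨH : ∀ x : GL (Fin 2) (v.adicCompletion K),
        ∑ h ∈ H, psi879 F f f₂ (locFin129 v (x * finCompHom129 v h))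
          = ((Real.sqrt (Ideal.absNorm v.asIdeal : ℝ) : ℝ) : ℂ) * a
            * psi879 F f f₂ (locFin129 v x) := by
      intro x
      rw [← psi_hecke879 hP F hf hf₂ hE hH (locFin129 v x)]
      refine Finset.sum_congr rfl fun h hh => ?_
      rw [map_mul, ← eq_locFin129_of_isLocalAtFin (hH.2.1 h hh).1]
    have hΨ1 : psi879 F f f₂ (locFin129 v 1) = 0 := by
      rw [map_one, psi_one879, hB]
    -- the elements of `H` are integral of determinant a uniformiser
    have hHint : ∀ h ∈ H, IsInt129 (v.adicCompletionIntegers K) (finCompHom129 v h) :=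
      fun h hh => (hH.2.1 h hh).2.1
    have hHdet : ∀ h ∈ H, Valued.v ((finCompHom129 v h : GL (Fin 2) (v.adicCompletion K)) :
        Matrix (Fin 2) (Fin 2) (v.adicCompletion K)).det = WithZero.exp (-1 : ℤ) :=
      fun h hh => (hH.2.1 h hh).2.2
    have hcard : (H.card : ℂ) ≠ 0 := by
      rw [hH.1]
      exact_mod_cast Nat.succ_ne_zero (Ideal.absNorm v.asIdeal)
    -- step 1: `Ψ` vanishes on the integral matrices of determinant a uniformiser
    have hT1 : ∀ g : GL (Fin 2) (v.adicCompletion K),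
        IsInt129 (v.adicCompletionIntegers K) g →
        Valued.v (g : Matrix (Fin 2) (Fin 2) (v.adicCompletion K)).det = WithZero.exp (-1 : ℤ) →
        psi879 F f f₂ (locFin129 v g) = 0 := by
      intro g hg hdet
      have hall : ∀ h ∈ H, psi879 F f f₂ (locFin129 v (1 * finCompHom129 v h))
          = psi879 F f f₂ (locFin129 v g) := by
        intro h hh
        obtain ⟨k₁, k₂, h1, h2, heq⟩ :=
          equiv_of_type879 (type_one879 hg hdet) (type_one879 (hHint h hh) (hHdet h hh))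
        rw [one_mul, heq]
        exact hΨK k₁ k₂ g h1 h2
      have hsum := hΨH 1
      rw [Finset.sum_congr rfl hall, Finset.sum_const, hΨ1, mul_zero, nsmul_eq_mul] at hsum
      exact (mul_eq_zero.mp hsum).resolve_left hcard
    -- step 2: a base point and the products `g₀ h`
    have hne : H.Nonempty := by
      rw [← Finset.card_pos, hH.1]
      exact Nat.succ_pos _
    obtain ⟨h₀, hh₀⟩ := hne
    set g₀ := finCompHom129 v h₀ with hg₀
    set t := upperU129 c * finCompHom129 v z with ht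
    have htype : IsType879 v 0 (-2) t := type_upper_scalar879 hc₀ hζ hvc
    have hprodint : ∀ h ∈ H, IsInt129 (v.adicCompletionIntegers K) (g₀ * finCompHom129 v h) :=
      fun h hh => isInt129_mul (hHint h₀ hh₀) (hHint h hh)
    have hproddet : ∀ h ∈ H, Valued.v ((g₀ * finCompHom129 v h :
        GL (Fin 2) (v.adicCompletion K)) : Matrix (Fin 2) (Fin 2) (v.adicCompletion K)).det
          = WithZero.exp (-2 : ℤ) := by
      intro h hh
      rw [Matrix.GeneralLinearGroup.coe_mul, Matrix.det_mul, map_mul, hHdet h₀ hh₀, hHdet h hh,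
        ← WithZero.exp_add]
      norm_num
    have hterm : ∀ h ∈ H, psi879 F f f₂ (locFin129 v (g₀ * finCompHom129 v h)) = 0 ∨
        psi879 F f f₂ (locFin129 v (g₀ * finCompHom129 v h))
          = psi879 F f f₂ (locFin129 v t) := by
      intro h hh
      rcases type_two879 (hprodint h hh) (hproddet h hh) with h2 | h2
      · right
        obtain ⟨k₁, k₂, h1, h2', heq⟩ := equiv_of_type879 htype h2
        rw [heq]
        exact hΨK k₁ k₂ t h1 h2'
      · left
        obtain ⟨k, hk, hkk⟩ := type_scalar879 hc₀ hζ h2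
        rw [hkk, hΨζ k]
        have := hΨK k 1 1 hk (isMaxCpt129_one _)
        rw [mul_one, mul_one] at this
        rw [this, hΨ1, mul_zero]
    -- the second case occurs
    have hex : ∃ h₁ ∈ H, psi879 F f f₂ (locFin129 v (g₀ * finCompHom129 v h₁))
        = psi879 F f f₂ (locFin129 v t) := by
      have hcard2 : 1 < H.card := by
        rw [hH.1]
        have : Ideal.absNorm v.asIdeal ≠ 0 := by
          rw [Ne, Ideal.absNorm_eq_zero_iff]
          exact v.ne_bot
        omega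
      obtain ⟨x, hx, y, hy, hxy⟩ := Finset.one_lt_card.mp hcard2
      by_contra hcon
      simp only [not_exists, not_and] at hcon
      have hscal : ∀ h ∈ H, ∃ k : GL (Fin 2) (v.adicCompletion K),
          IsMaxCpt129 (v.adicCompletionIntegers K) k ∧
          g₀ * finCompHom129 v h = k * finCompHom129 v z := by
        intro h hh
        rcases type_two879 (hprodint h hh) (hproddet h hh) with h2 | h2
        · exfalso
          obtain ⟨k₁, k₂, h1, h2', heq⟩ := equiv_of_type879 htype h2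
          apply hcon h hh
          rw [heq]
          exact hΨK k₁ k₂ t h1 h2'
        · exact type_scalar879 hc₀ hζ h2
      obtain ⟨kx, hkx, ex⟩ := hscal x hx
      obtain ⟨ky, hky, ey⟩ := hscal y hy
      -- `x⁻¹ y` is integral
      have hxy' : (finCompHom129 v x)⁻¹ * finCompHom129 v y = kx⁻¹ * ky := by
        have e1 : finCompHom129 v x = g₀⁻¹ * (kx * finCompHom129 v z) := by
          rw [← ex]; group
        have e2 : finCompHom129 v y = g₀⁻¹ * (ky * finCompHom129 v z) := by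
          rw [← ey]; group
        have hcen := scalar_central879 hζ
        rw [e1, e2]
        have : (g₀⁻¹ * (kx * finCompHom129 v z))⁻¹ * (g₀⁻¹ * (ky * finCompHom129 v z))
            = (finCompHom129 v z)⁻¹ * (kx⁻¹ * ky) * finCompHom129 v z := by group
        rw [this, mul_assoc, ← hcen (kx⁻¹ * ky), ← mul_assoc, inv_mul_cancel, one_mul]
      have hint : IsIntegralAt v (x⁻¹ * y) := by
        have h1 : IsInt129 (v.adicCompletionIntegers K) (finCompHom129 v (x⁻¹ * y)) := by
          rw [map_mul, map_inv, hxy']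
          exact (isMaxCpt129_mul (isMaxCpt129_inv hkx) hky).1
        exact h1
      exact hH.2.2 x hx y hy hxy hint
    obtain ⟨h₁, hh₁, hval⟩ := hex
    -- step 3: the sum
    have hsum := hΨH g₀
    rw [hT1 g₀ (hHint h₀ hh₀) (hHdet h₀ hh₀), mul_zero] at hsum
    have hVt : psi879 F f f₂ (locFin129 v t) = 0 := by
      by_contra hV
      have hrew : ∀ h ∈ H, psi879 F f f₂ (locFin129 v (g₀ * finCompHom129 v h))
          = if psi879 F f f₂ (locFin129 v (g₀ * finCompHom129 v h)) = 0 then 0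
            else psi879 F f f₂ (locFin129 v t) := by
        intro h hh
        rcases hterm h hh with h0 | h1
        · rw [if_pos h0]; exact h0
        · rw [if_neg (by rw [h1]; exact hV)]; exact h1
      rw [Finset.sum_congr rfl hrew, Finset.sum_ite, Finset.sum_const_zero, zero_add,
        Finset.sum_const, nsmul_eq_mul] at hsum
      rcases mul_eq_zero.mp hsum with h0 | h0
      · have hmem : h₁ ∈ H.filter (fun h =>
            ¬ psi879 F f f₂ (locFin129 v (g₀ * finCompHom129 v h)) = 0) := by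
          rw [Finset.mem_filter]
          exact ⟨hh₁, by rw [hval]; exact hV⟩
        have hpos : 0 < (H.filter (fun h =>
            ¬ psi879 F f f₂ (locFin129 v (g₀ * finCompHom129 v h)) = 0)).card :=
          Finset.card_pos.mpr ⟨h₁, hmem⟩
        have : ((H.filter (fun h =>
            ¬ psi879 F f f₂ (locFin129 v (g₀ * finCompHom129 v h)) = 0)).card : ℂ) ≠ 0 := by
          exact_mod_cast hpos.ne'
        exact this h0
      · exact hV h0
    -- step 4: `b Ψ(n(c)) = 0`
    have hb : b * psi879 F f f₂ (locFin129 v (upperU129 c)) = 0 := by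
      rw [← hΨζ (upperU129 c)]
      exact hVt
    rcases mul_eq_zero.mp hb with hb0 | h0
    · -- `b = 0`, so `f = 0`
      have hf0 : ∀ g : G K, f g = 0 := by
        intro g
        have := hE.2 z hz (g * z⁻¹)
        rw [inv_mul_cancel_right, hb0, zero_mul] at this
        exact this
      unfold psi879
      have : rt (locFin129 v (upperU129 c)) f = fun _ => (0 : ℂ) := by
        funext x
        exact hf0 _
      rw [this, pair_zero879]
    · exact h0

/-! ## 3. The sub-leaf -/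

/-- The component at `v` of a unipotent element. -/
theorem finCompHom_unip879 {v : HeightOneSpectrum (𝓞 K)} {p : G K} {u : v.adicCompletion K}
    (hp : IsUnipAt v p u) : finCompHom129 v p = upperU129 u := by
  apply ext_mat129
  rw [coe_finCompHom129, hp.2]
  rfl

theorem upperU_inv_mul879 {F : Type*} [Field F] (u u' : F) :
    (upperU129 u')⁻¹ * upperU129 u = upperU129 (u - u') := by
  rw [upperU129_inv]
  apply ext_mat129
  rw [Matrix.GeneralLinearGroup.coe_mul]
  simp only [upperU129, coe_mkGL129]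
  ext i j
  fin_cases i <;> fin_cases j <;> simp [Matrix.mul_apply, Fin.sum_univ_two]
  ring

/-- **T2.10.15** `HeckeStripC` from `PairC`. -/
theorem heckeStripC_of_pairC879 (hP : PairC K) : HeckeStripC K := by
  intro F v f f₂ a b hf hf₂ hK hK₂ hE p p' u u' hp hp' hu hu'
  by_cases hB : T2.pair F f f₂ = 0
  · refine ⟨0, ?_⟩
    rw [zero_mul, pair_rt_rt879 hP F hf hf₂ p p']
    have hloc : IsLocalAtFin v (p'⁻¹ * p) := isLocalAtFin_mul129 (isLocalAtFin_inv129 hp'.1) hp.1
    have heq : p'⁻¹ * p = locFin129 v (upperU129 (u - u')) := by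
      rw [eq_locFin129_of_isLocalAtFin hloc, map_mul, map_inv, finCompHom_unip879 hp,
        finCompHom_unip879 hp', upperU_inv_mul879]
    rw [heq]
    refine strip_zero879 hP F hf hf₂ hK hK₂ hE hB ?_
    calc Valued.v (u - u') ≤ max (Valued.v u) (Valued.v u') := Valuation.map_sub _ _ _
      _ ≤ WithZero.exp (1 : ℤ) := max_le hu hu'
  · exact ⟨T2.pair F (rt p f) (rt p' f₂) / T2.pair F f f₂, by
      rw [div_mul_cancel₀ _ hB]⟩

/-- **THE LEAF T2.10.15**, verbatim. -/
theorem leaf15_879 : Leaf15 K := fun _ hP => heckeStripC_of_pairC879 hP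

end Fermat.Agent.LT.T2.H879

end
end
-- ===== PACK-END LT/T2/H879/HeckeStrip.lean

-- ===== PACK-BEGIN LT/T2/H439/Extend.lean
section




/-!
# Row LT, tower T2, leaf T2.10.05 `ExtendC` (helper439, OFF-MAIN)

`leaf05_h439 (K) : H941.Leaf05 K`, i.e. `T1.T1Out K → WhitDetC K → WeakApproxC K → ExtendC K`,
VERBATIM against `LT/T2/H941/SmoSpec.lean` v2 (helper941@3ff5e4e6b, sha256 14c4d13ef051).

Proof.  Let `Ψ` be extendable of level `𝔪` with `W_Ψ = 0` on the torus.  By weak approximation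
`g` may be replaced by `g₁ = γ g` with `g₁ ∈ U(𝔪)_v` at every `v ∣ 𝔪`.  By `WhitDetC` it is enough
to show `W_Ψ(t(α) g₁) = 0` for `α ∈ Kˣ`.  REFINED IWASAWA DECOMPOSITION (`exists_decomp439`):
`t(α) g₁ = b k_f k_∞` with `b` upper triangular, `b₂₂ = 1` at the places dividing `𝔪`,
`k_f ∈ U(𝔪)`, `k_∞` a product of elements of the compact groups at the infinite places (at
`v ∣ 𝔪` the component of `k_f` is the one of `g₁`, elsewhere the local Iwasawa decomposition of
helper793 is used).  Then `b = n(x) t(y) z`, `z` the scalar matrix of the idele `b₂₂`, and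
`z k_f k_∞` is a right multiplier of `Ψ` (`scalar_mem439`), so
`W(t(α) g₁) = ψ(x) · const · W(t(y)) = 0`.
-/

set_option autoImplicit false
set_option linter.style.haveILetI false
set_option linter.unusedSectionVars false

open IsDedekindDomain NumberField AutomorphicForm MeasureTheory
open Fermat.Agent.LT.H556.A0
open Fermat.Agent.LT.H129
open Fermat.Agent.LT.T1.H793
open Fermat.Agent.LT.T1.H919
open Fermat.Agent.LT.T2.H429
open scoped ComplexConjugate

noncomputable section

namespace Fermat.Agent.LT.T2.H439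

open Fermat.Agent.LT
open Fermat.Agent.LT.T2.H941

variable {K : Type} [Field K] [NumberField K]

/-! ## Integrality -/

/-- The closure of an ideal in `K_v` consists of integers. -/
theorem idealClosure_le_int439 (𝔪 : Ideal (𝓞 K)) (v : HeightOneSpectrum (𝓞 K))
    {x : v.adicCompletion K} (hx : x ∈ idealClosure 𝔪 v) :
    x ∈ v.adicCompletionIntegers K := by
  have hsub : ((fun a : 𝓞 K => algebraMap K (v.adicCompletion K) (algebraMap (𝓞 K) K a)) ''
      (𝔪 : Set (𝓞 K))) ⊆ (v.adicCompletionIntegers K : Set (v.adicCompletion K)) := by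
    rintro _ ⟨a, -, rfl⟩
    show algebraMap K (v.adicCompletion K) (algebraMap (𝓞 K) K a) ∈ v.adicCompletionIntegers K
    rw [HeightOneSpectrum.mem_adicCompletionIntegers]
    have h1 : Valued.v (algebraMap K (v.adicCompletion K) (algebraMap (𝓞 K) K a))
        = v.valuation K (algebraMap (𝓞 K) K a) :=
      HeightOneSpectrum.valuedAdicCompletion_eq_valuation' v _
    rw [h1]
    exact v.valuation_le_one a
  exact closure_minimal hsub (Valued.isClosed_valuationSubring (v.adicCompletion K)) hx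

theorem one_apply_int439 (v : HeightOneSpectrum (𝓞 K)) (i j : Fin 2) :
    (1 : Matrix (Fin 2) (Fin 2) (v.adicCompletion K)) i j ∈ v.adicCompletionIntegers K := by
  by_cases hij : i = j
  · subst hij
    rw [Matrix.one_apply_eq]
    exact one_mem _
  · rw [Matrix.one_apply_ne hij]
    exact zero_mem _

/-- A matrix which is `1` modulo the closure of an ideal is integral. -/
theorem int_of_sub_one439 (𝔪 : Ideal (𝓞 K)) (v : HeightOneSpectrum (𝓞 K))
    (M : Matrix (Fin 2) (Fin 2) (v.adicCompletion K))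
    (h : ∀ i j, (M - 1) i j ∈ idealClosure 𝔪 v) (i j : Fin 2) :
    M i j ∈ v.adicCompletionIntegers K := by
  have e : M i j = (M - 1) i j + (1 : Matrix (Fin 2) (Fin 2) (v.adicCompletion K)) i j := by
    rw [Matrix.sub_apply, sub_add_cancel]
  rw [e]
  exact add_mem (idealClosure_le_int439 𝔪 v (h i j)) (one_apply_int439 v i j)

/-- An integral matrix is `1` modulo the closure of an ideal prime to `v`. -/
theorem sub_one_mem_of_int439 {𝔪 : Ideal (𝓞 K)} {v : HeightOneSpectrum (𝓞 K)}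
    (hv : ¬ v.asIdeal ∣ 𝔪) (M : Matrix (Fin 2) (Fin 2) (v.adicCompletion K))
    (h : ∀ i j, M i j ∈ v.adicCompletionIntegers K) (i j : Fin 2) :
    (M - 1) i j ∈ idealClosure 𝔪 v := by
  apply dense_ideal129 hv
  rw [Matrix.sub_apply]
  have h1 := h i j
  have h2 := one_apply_int439 v i j
  rw [HeightOneSpectrum.mem_adicCompletionIntegers] at h1 h2
  exact le_trans (Valuation.map_sub _ _ _) (max_le h1 h2)

/-! ## The refined Iwasawa decomposition -/

/-- **Refined Iwasawa decomposition.**  If `g₁ ∈ U(𝔪)_v` and the component of `t` is upper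
triangular with lower right entry `1` at every `v ∣ 𝔪`, then `t g₁ = b k_f k_∞` with `b` upper
triangular, `b₂₂ = 1` at the places dividing `𝔪`, `k_f ∈ U(𝔪)` and `k_∞` supported at the infinite
places with local parts in the compact groups. -/
theorem exists_decomp439 (𝔪 : Ideal (𝓞 K)) (t g₁ : G K)
    (ht : ∀ v : HeightOneSpectrum (𝓞 K), v.asIdeal ∣ 𝔪 →
      finComp v t 1 0 = 0 ∧ finComp v t 1 1 = 1)
    (hg₁ : ∀ v : HeightOneSpectrum (𝓞 K), v.asIdeal ∣ 𝔪 → ∀ i j : Fin 2,
      (finComp v g₁ - 1) i j ∈ idealClosure 𝔪 v ∧ (finComp v g₁⁻¹ - 1) i j ∈ idealClosure 𝔪 v) :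
    ∃ (b kF : G K) (m : ∀ w : InfinitePlace K, GL (Fin 2) w.Completion),
      t * g₁ = b * (kF * infMk429 K m) ∧ T1.IsUpper K b ∧
      (∀ v : HeightOneSpectrum (𝓞 K), v.asIdeal ∣ 𝔪 →
        ((b : Matrix (Fin 2) (Fin 2) (Adl K)) 1 1).2 v = 1) ∧
      InLevelGroup 𝔪 kF ∧ ∀ w : InfinitePlace K, IsArchCompact w (locInf429 w (m w)) := by
  classical
  choose kw hkw1 hkw2 hkw3 using
    fun w : InfinitePlace K => iwasawaInf793 w (glInf793 w (t * g₁))
  choose kv0 hkv1 hkv2 hkv3 using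
    fun v : HeightOneSpectrum (𝓞 K) => iwasawaFin793 v (glFin793 v (t * g₁))
  set kv : ∀ v : HeightOneSpectrum (𝓞 K), GL (Fin 2) (v.adicCompletion K) :=
    fun v => if v.asIdeal ∣ 𝔪 then finCompHom129 v g₁ else kv0 v with hkv
  have kv_pos : ∀ v : HeightOneSpectrum (𝓞 K), v.asIdeal ∣ 𝔪 → kv v = finCompHom129 v g₁ :=
    fun v h => by simp only [hkv, if_pos h]
  have kv_neg : ∀ v : HeightOneSpectrum (𝓞 K), ¬ v.asIdeal ∣ 𝔪 → kv v = kv0 v :=
    fun v h => by simp only [hkv, if_neg h]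
  have h1 : ∀ v i j, (kv v : Matrix (Fin 2) (Fin 2) (v.adicCompletion K)) i j
      ∈ v.adicCompletionIntegers K := by
    intro v i j
    by_cases h : v.asIdeal ∣ 𝔪
    · rw [kv_pos v h, coe_finCompHom129]
      exact int_of_sub_one439 𝔪 v _ (fun i j => (hg₁ v h i j).1) i j
    · rw [kv_neg v h]
      exact hkv2 v i j
  have h2 : ∀ v i j, (((kv v)⁻¹ : GL (Fin 2) (v.adicCompletion K)) :
      Matrix (Fin 2) (Fin 2) (v.adicCompletion K)) i j ∈ v.adicCompletionIntegers K := by
    intro v i j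
    by_cases h : v.asIdeal ∣ 𝔪
    · rw [kv_pos v h, ← map_inv, coe_finCompHom129]
      exact int_of_sub_one439 𝔪 v _ (fun i j => (hg₁ v h i j).2) i j
    · rw [kv_neg v h]
      exact hkv3 v i j
  set kF : G K := glMk793 (fun _ => 1) kv h1 h2 with hkF
  have kF_inf : ∀ w : InfinitePlace K, infCompHom129 w kF = 1 := by
    intro w
    rw [← glInf_eq429, hkF, glInf793_glMk]
  have kF_fin : ∀ v : HeightOneSpectrum (𝓞 K), finCompHom129 v kF = kv v := by
    intro v
    rw [← glFin_eq429, hkF, glFin793_glMk]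
  set b : G K := t * g₁ * (kF * infMk429 K kw)⁻¹ with hb
  have b_inf : ∀ w : InfinitePlace K,
      infCompHom129 w b = infCompHom129 w (t * g₁) * (kw w)⁻¹ := by
    intro w
    have e : infCompHom129 w (kF * infMk429 K kw) = kw w := by
      rw [map_mul, kF_inf, infCompHom_infMk429, one_mul]
    rw [hb, map_mul, map_inv, e]
  have b_fin : ∀ v : HeightOneSpectrum (𝓞 K),
      finCompHom129 v b = finCompHom129 v (t * g₁) * (kv v)⁻¹ := by
    intro v
    have e : finCompHom129 v (kF * infMk429 K kw) = kv v := by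
      rw [map_mul, kF_fin, finCompHom_infMk429, mul_one]
    rw [hb, map_mul, map_inv, e]
  have b_fin_pos : ∀ v : HeightOneSpectrum (𝓞 K), v.asIdeal ∣ 𝔪 →
      finCompHom129 v b = finCompHom129 v t := by
    intro v h
    rw [b_fin, kv_pos v h, map_mul, mul_inv_cancel_right]
  refine ⟨b, kF, kw, by rw [hb, inv_mul_cancel_right], ?_, ?_, ?_, ?_⟩
  · -- `b` is upper triangular
    show (b : Matrix (Fin 2) (Fin 2) (Adl K)) 1 0 = 0
    refine adele_ext129 (fun w => ?_) (fun v => ?_)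
    · have e : ((b : Matrix (Fin 2) (Fin 2) (Adl K)) 1 0).1 w
          = ((infCompHom129 w b : GL (Fin 2) w.Completion) :
              Matrix (Fin 2) (Fin 2) w.Completion) 1 0 := rfl
      rw [e, b_inf, ← glInf_eq429, hkw1 w]
      rfl
    · have e : ((b : Matrix (Fin 2) (Fin 2) (Adl K)) 1 0).2 v
          = ((finCompHom129 v b : GL (Fin 2) (v.adicCompletion K)) :
              Matrix (Fin 2) (Fin 2) (v.adicCompletion K)) 1 0 := rfl
      rw [e]
      by_cases h : v.asIdeal ∣ 𝔪
      · rw [b_fin_pos v h, coe_finCompHom129, (ht v h).1]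
        rfl
      · rw [b_fin, kv_neg v h, ← glFin_eq429, hkv1 v]
        rfl
  · intro v h
    have e : ((b : Matrix (Fin 2) (Fin 2) (Adl K)) 1 1).2 v
        = ((finCompHom129 v b : GL (Fin 2) (v.adicCompletion K)) :
            Matrix (Fin 2) (Fin 2) (v.adicCompletion K)) 1 1 := rfl
    rw [e, b_fin_pos v h, coe_finCompHom129, (ht v h).2]
  · -- `kF` lies in the level group
    refine ⟨fun w => (trivAtInf_iff129 w kF).2 (kF_inf w), fun v i j => ?_⟩
    have e1 : finComp v kF = (kv v : Matrix (Fin 2) (Fin 2) (v.adicCompletion K)) := by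
      rw [← coe_finCompHom129, kF_fin]
    have e2 : finComp v kF⁻¹ = (((kv v)⁻¹ : GL (Fin 2) (v.adicCompletion K)) :
        Matrix (Fin 2) (Fin 2) (v.adicCompletion K)) := by
      rw [← coe_finCompHom129, map_inv, kF_fin]
    by_cases h : v.asIdeal ∣ 𝔪
    · rw [e1, e2, kv_pos v h, ← map_inv, coe_finCompHom129, coe_finCompHom129]
      exact hg₁ v h i j
    · rw [e1, e2]
      exact ⟨sub_one_mem_of_int439 h _ (h1 v) i j, sub_one_mem_of_int439 h _ (h2 v) i j⟩
  · intro w
    refine ⟨isLocalAtInf_locInf429 w _, ?_, ?_⟩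
    · rw [infComp_locInf429]
      exact hkw2 w
    · rw [infComp_locInf429]
      exact hkw3 w

/-! ## Rational torus, unipotent and torus elements -/

/-- The rational torus element `diag(α, 1)` of `GL₂(K)`. -/
def diagK439 (α : Kˣ) : GL (Fin 2) K :=
  ⟨!![(α : K), 0; 0, 1], !![((α⁻¹ : Kˣ) : K), 0; 0, 1],
    by ext i j; fin_cases i <;> fin_cases j <;> simp [Matrix.mul_apply, Fin.sum_univ_two],
    by ext i j; fin_cases i <;> fin_cases j <;> simp [Matrix.mul_apply, Fin.sum_univ_two]⟩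

theorem ratG_diagK439 (α : Kˣ) : T1.ratG K (diagK439 α) = T3.torK K α := by
  apply Units.ext
  ext i j
  fin_cases i <;> fin_cases j <;>
    simp [T1.ratG, T3.torK, diagK439, Matrix.GeneralLinearGroup.map]

/-- `[[y, x], [0, 1]] = n(x) t(y)`. -/
theorem up_eq439 (y : (Adl K)ˣ) (x : Adl K) : up919 y x = T3.unip K x * tor y := by
  apply Units.ext
  rw [Units.val_mul, up919_val]
  show _ = (!![1, x; 0, 1] : Matrix (Fin 2) (Fin 2) (Adl K)) * !![(y : Adl K), 0; 0, 1]
  rw [Matrix.mul_fin_two]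
  congr 1
  simp

theorem finComp_torK439 (v : HeightOneSpectrum (𝓞 K)) (α : Kˣ) :
    finComp v (T3.torK K α) 1 0 = 0 ∧ finComp v (T3.torK K α) 1 1 = 1 :=
  ⟨rfl, rfl⟩

/-! ## The leaf -/

/-- **T2.10.05 `ExtendC`** (`H941.Leaf05`, VERBATIM). -/
theorem leaf05_h439 (K : Type) [Field K] [NumberField K] :
    Fermat.Agent.LT.T2.H941.Leaf05 K := by
  intro hT1 hWD hWA
  letI : MeasurableSpace (Adl K) := borel (Adl K)
  intro ψ ν D hW 𝔪 h𝔪 Ψ hΨ htor g
  obtain ⟨γ, hγ⟩ := hWA 𝔪 h𝔪 g
  have hleft : ∀ (γ : GL (Fin 2) K) (g : G K), Ψ (T1.ratG K γ * g) = Ψ g := hΨ.1.left_inv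
  rw [← hleft γ g]
  refine hWD ψ ν D hW Ψ hΨ.1.cont ?_ ?_ hΨ.1.cuspidal (T1.ratG K γ * g) ?_
  · intro ξ g'
    have e : T3.unip K (algebraMap K (Adl K) ξ) = T1.ratG K (unipK439 ξ) :=
      (ratG_unipK439 ξ).symm
    rw [e]
    exact hleft _ _
  · intro α g'
    rw [← ratG_diagK439]
    exact hleft _ _
  · intro α
    obtain ⟨b, kF, m, hdec, hb, hb11, hkF, hm⟩ :=
      exists_decomp439 𝔪 (T3.torK K α) (T1.ratG K γ * g) (fun v _ => finComp_torK439 v α) hγ
    obtain ⟨ha1, ha2⟩ := isUnit_diag793 hb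
    have hbdec := upper_eq_scalar_mul_up919 b hb ha1.unit ha2.unit
      (IsUnit.unit_spec ha1) (IsUnit.unit_spec ha2)
    have hu : scalarG919 ha2.unit * (kF * infMk429 K m) ∈ multGrp439 Ψ := by
      refine (multGrp439 Ψ).mul_mem ?_ ((multGrp439 Ψ).mul_mem (level_mem439 hΨ hkF)
        (infMk_mem439 _ m (fun w => archCompact_mem439 hΨ (hm w))))
      refine scalar_mem439 hΨ (fun v => (hT1.heckeCoset v).2.2) ha2.unit (fun v hv => ?_)
      rw [IsUnit.unit_spec]
      exact hb11 v hv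
    have e : T3.torK K α * (T1.ratG K γ * g)
        = T3.unip K ((b : Matrix (Fin 2) (Fin 2) (Adl K)) 0 1
            * (((ha2.unit)⁻¹ : (Adl K)ˣ) : Adl K))
          * (tor (ha1.unit * (ha2.unit)⁻¹)
            * (scalarG919 ha2.unit * (kF * infMk429 K m))) := by
      rw [hdec]
      conv_lhs => rw [hbdec]
      rw [scalarG919_comm, up_eq439]
      simp only [mul_assoc]
    rw [e, wh_unip439 ψ ν D hW Ψ hleft,
      wh_mul_right439 ψ ν D Ψ hu (tor (ha1.unit * (ha2.unit)⁻¹)) (htor _), mul_zero]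

end Fermat.Agent.LT.T2.H439

end

end
-- ===== PACK-END LT/T2/H439/Extend.lean

-- ===== PACK-BEGIN LT/T6/H305/SatakeEigen.lean
section


/-!
# Row LT, tower T6, leaf T6.10 `SatakeEigenC` (helper305) -- THE LEAF

OFF-MAIN.  `satakeEigenC305 : Fermat.Agent.LT.T6.SatakeEigenC` (Spec of helper22, frozen bytes):
a right `GL₂(𝒪)`-invariant function which is an eigenfunction of `T = 1_{K diag(ϖ,1) K}` and of
`S = 1_{ϖ K}` with eigenvalues `√q (x + y)` and `x y` is an eigenfunction of every `1_{K λ K}`,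
with eigenvalue the Satake polynomial.

Proof: Hermite normal forms `ϖ^b [[ϖ^i, r], [0, ϖ^j]]` are a coset system of every Cartan type
(`Sys.lean`); the classical recursion `T · T(𝔭^{n+1}) = T(𝔭^{n+2}) + q S T(𝔭ⁿ)` for the sums over
ALL Hermite forms and `T(𝔭^{n+2}) = 1_{K diag(ϖ^{n+2},1) K} + S T(𝔭ⁿ)` (`Rec.lean`).
-/

set_option autoImplicit false
set_option linter.unusedSectionVars false
set_option linter.unusedSimpArgs false
set_option linter.unnecessarySeqFocus false

open scoped Matrix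
open scoped Classical

noncomputable section

namespace Fermat.Agent.LT.T6.H305

open Fermat.Agent.LT.T6

theorem satPoly_zero (q : ℕ) (x y : ℂ) : satPoly q x y 0 = 1 := by rw [satPoly]

theorem satPoly_one (q : ℕ) (x y : ℂ) :
    satPoly q x y 1 = ((Real.sqrt q : ℝ) : ℂ) * (x + y) := by rw [satPoly]

theorem satPoly_two (q : ℕ) (x y : ℂ) :
    satPoly q x y 2 = (((Real.sqrt q : ℝ) : ℂ) * (x + y)) ^ 2 - ((q : ℂ) + 1) * (x * y) := by
  rw [satPoly]

theorem satPoly_add_three (q : ℕ) (x y : ℂ) (n : ℕ) :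
    satPoly q x y (n + 3) = ((Real.sqrt q : ℝ) : ℂ) * (x + y) * satPoly q x y (n + 2)
      - (q : ℂ) * (x * y) * satPoly q x y (n + 1) := by
  rw [satPoly]

theorem satPoly_eq_alpha (q : ℕ) (x y : ℂ) (n : ℕ) :
    satPoly q x y (n + 2)
      = alpha (((Real.sqrt q : ℝ) : ℂ) * (x + y)) (x * y) q (n + 2)
        - (x * y) * alpha (((Real.sqrt q : ℝ) : ℂ) * (x + y)) (x * y) q n := by
  have key : ∀ n : ℕ,
      (satPoly q x y (n + 2)
        = alpha (((Real.sqrt q : ℝ) : ℂ) * (x + y)) (x * y) q (n + 2)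
          - (x * y) * alpha (((Real.sqrt q : ℝ) : ℂ) * (x + y)) (x * y) q n) ∧
      (satPoly q x y (n + 3)
        = alpha (((Real.sqrt q : ℝ) : ℂ) * (x + y)) (x * y) q (n + 3)
          - (x * y) * alpha (((Real.sqrt q : ℝ) : ℂ) * (x + y)) (x * y) q (n + 1)) := by
    intro n
    induction n with
    | zero =>
      constructor
      · rw [satPoly_two, alpha_succ_succ, alpha_one, alpha_zero]
        ring
      · rw [satPoly_add_three, satPoly_two, satPoly_one, alpha_succ_succ, alpha_succ_succ,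
          alpha_one, alpha_zero]
        ring
    | succ n ih =>
      refine ⟨ih.2, ?_⟩
      rw [satPoly_add_three, ih.1, ih.2, alpha_succ_succ _ _ _ (n + 2),
        alpha_succ_succ _ _ _ n]
      ring
  exact (key n).1

variable {k : Type} [Field k] [Valued k Γ₀]

namespace ResData

variable (D : ResData k)

theorem sc_zpow_eigen (Φ : GL (Fin 2) k → ℂ) (s : ℂ) (hs : s ≠ 0)
    (hS : ∀ g, Φ (g * D.sc 1) = s * Φ g) :
    ∀ (b : ℤ) (g : GL (Fin 2) k), Φ (g * D.sc b) = s ^ b * Φ g := by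
  intro b
  induction b using Int.induction_on with
  | zero =>
    intro g
    rw [D.sc_zero, mul_one, zpow_zero, one_mul]
  | succ i ih =>
    intro g
    rw [D.sc_add, ← mul_assoc, hS, ih, zpow_add_one₀ hs]
    ring
  | pred i ih =>
    intro g
    have h1 : D.sc (-(i : ℤ)) = D.sc (-(i : ℤ) - 1) * D.sc 1 := by
      rw [← D.sc_add]
      congr 1
      ring
    have h2 := ih g
    rw [h1, ← mul_assoc, hS] at h2
    rw [zpow_sub_one₀ hs]
    field_simp
    linear_combination h2

theorem sum_Idx_fam_zero (Φ : GL (Fin 2) k → ℂ) (n : ℕ) (g : GL (Fin 2) k) :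
    ∑ x ∈ D.Idx n, Φ (g * D.fam 0 x) = D.Pprim Φ n g := by
  rw [D.sum_Idx]
  unfold Pprim Fprim
  refine Finset.sum_congr rfl (fun p _ => Finset.sum_congr rfl (fun r _ => ?_))
  rw [fam, D.sc_zero, one_mul]

theorem sum_Idx_fam (Φ : GL (Fin 2) k → ℂ) (s : ℂ) (hs : s ≠ 0)
    (hS : ∀ g, Φ (g * D.sc 1) = s * Φ g) (b : ℤ) (n : ℕ) (g : GL (Fin 2) k) :
    ∑ x ∈ D.Idx n, Φ (g * D.fam b x) = s ^ b * D.Pprim Φ n g := by
  rw [D.sum_Idx]
  unfold Pprim Fprim
  rw [Finset.mul_sum]
  refine Finset.sum_congr rfl (fun p _ => ?_)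
  rw [Finset.mul_sum]
  refine Finset.sum_congr rfl (fun r _ => ?_)
  rw [fam, D.sc_comm, ← mul_assoc, D.sc_zpow_eigen Φ s hs hS]

end ResData

/-- **T6.10 = T6.B3 (Satake, eigenvalue form)**: the leaf `SatakeEigenC` of the Spec of tower T6. -/
theorem satakeEigenC305 : SatakeEigenC := by
  intro k _ _ q hk Φ x y hx hy hinv heig lam hlam H hH g
  obtain ⟨D, hD⟩ := exists_resData hk
  have hinv' : ∀ u g : GL (Fin 2) k, InK u → Φ (g * u) = Φ g :=
    fun u g hu => hinv u g ((inU_zero_iff u).2 hu)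
  have hs : x * y ≠ 0 := mul_ne_zero hx hy
  -- the eigenvalue of `S`
  have hS : ∀ g, Φ (g * D.sc 1) = (x * y) * Φ g := by
    intro g
    have h1 := heig (1, 1) (Or.inr rfl) _ (D.isCosetSys_image 1 0 (1, 1) (by simp)) g
    have hf : (D.R 0).filter (fun r => Prim 0 0 r) = D.R 0 :=
      Finset.filter_true_of_mem (fun r _ => Or.inl rfl)
    rw [D.sum_image_fam 1 0 (fun h => Φ (g * h)), D.sum_Idx, Finset.Nat.antidiagonal_zero,
      Finset.sum_singleton] at h1
    dsimp only at h1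
    rw [hf] at h1
    simp only [D.R_zero, Finset.sum_singleton, ResData.fam, D.um_zero, mul_one] at h1
    rw [h1]
    simp [satake, satPoly_zero]
  -- the eigenvalue of `T`
  have hT : ∀ g, Φ (g * D.um 0 1 0) + ∑ d ∈ D.T, Φ (g * D.um 1 0 d)
      = (((Real.sqrt q : ℝ) : ℂ) * (x + y)) * Φ g := by
    intro g
    have h1 := heig (1, 0) (Or.inl rfl) _ (D.isCosetSys_image 0 1 (1, 0) (by simp)) g
    rw [D.sum_image_fam 0 1 (fun h => Φ (g * h)), D.sum_Idx_fam_zero,
      D.Pprim_eq_Aall_of_le_one Φ 1 le_rfl, D.Aall_one] at h1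
    rw [h1]
    simp [satake, satPoly_one]
  -- the primitive sums
  have hP : ∀ (n : ℕ) (g : GL (Fin 2) k), D.Pprim Φ n g = satPoly q x y n * Φ g := by
    intro n g
    rcases n with _ | _ | n
    · rw [D.Pprim_eq_Aall_of_le_one Φ 0 (by omega), D.Aall_zero, satPoly_zero, one_mul]
    · rw [D.Pprim_eq_Aall_of_le_one Φ 1 le_rfl, D.Aall_one, hT, satPoly_one]
    · rw [D.Pprim_eq Φ _ _ hinv' hS hT, hD, satPoly_eq_alpha]
  -- the general case
  have hlam' : lam = (((lam.1 - lam.2).toNat : ℤ) + lam.2, lam.2) := by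
    rw [Int.toNat_of_nonneg (sub_nonneg.2 hlam)]
    ext <;> simp
  have h1 := D.sum_cosetSys lam.2 (lam.1 - lam.2).toNat lam hlam' H hH (fun h => Φ (g * h))
    (fun u h hu => by
      show Φ (g * (h * u)) = Φ (g * h)
      rw [← mul_assoc]
      exact hinv' u _ hu)
  rw [h1, D.sum_Idx_fam Φ (x * y) hs hS, hP]
  unfold satake
  ring

end Fermat.Agent.LT.T6.H305

end

end
-- ===== PACK-END LT/T6/H305/SatakeEigen.lean

-- ===== PACK-BEGIN LT/T5/H873/KerSum.lean
section



/-!
# Row LT, tower T5, sub-leaves T5.02c / T5.02d: the kernel is a locally finite sum (helper873)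

OFF-MAIN.  Joint continuity of `(x, y) ↦ K_φ(x, y)` and the uniform bound in `y`.
-/

set_option autoImplicit false

open IsDedekindDomain NumberField MeasureTheory
open scoped MatrixGroups ComplexConjugate ContDiff Topology

noncomputable section

namespace Fermat.Agent.LT.T5.H873

open Fermat.Agent.LT.H556.A0 Fermat.Agent.LT.T5

attribute [local instance] Fermat.Agent.LT.T5.instMeasurableSpaceG

variable {K : Type} [Field K] [NumberField K]

/-- The summand of the kernel. -/
def term873 (r : G K) (φ : G K → ℂ) (x y : G K) (i : GL (Fin 2) K × ℤ) : ℂ :=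
  φ (x⁻¹ * ratG i.1 * y * r ^ i.2)

theorem ker0_eq_tsum873 (r : G K) (φ : G K → ℂ) (x y : G K) :
    ker0 r φ x y = ∑' γ : GL (Fin 2) K, ∑' m : ℤ, term873 r φ x y (γ, m) := rfl

/-- The kernel is a finite sum as soon as the summand vanishes outside a finite set. -/
theorem ker0_eq_sum873 {r : G K} {φ : G K → ℂ} {x y : G K} (S : Finset (GL (Fin 2) K × ℤ))
    (hS : ∀ i ∉ S, term873 r φ x y i = 0) :
    ker0 r φ x y = ∑ i ∈ S, term873 r φ x y i := by
  rw [ker0_eq_tsum873]
  have hsum : Summable (term873 r φ x y) := summable_of_ne_finset_zero hS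
  rw [← hsum.tsum_prod]
  exact tsum_eq_sum hS

/-- The argument of the summand in terms of the lattice element. -/
theorem term_arg873 {r : G K} (hr : IsRayGen r) (x y : G K) (i : GL (Fin 2) K × ℤ) :
    x⁻¹ * ratG i.1 * y * r ^ i.2 = x⁻¹ * lat873 r i * y := by
  unfold lat873
  rw [mul_assoc (x⁻¹ * ratG i.1), ← H277.ray_zpow_comm277 hr y i.2]
  simp only [mul_assoc]

/-- A non-zero summand puts the lattice element into `x · supp φ · y⁻¹`. -/
theorem lat_mem_of_term_ne873 {r : G K} (hr : IsRayGen r) {φ : G K → ℂ} {x y : G K}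
    {i : GL (Fin 2) K × ℤ} (h : term873 r φ x y i ≠ 0) :
    ∃ c ∈ tsupport φ, lat873 r i = x * c * y⁻¹ := by
  refine ⟨x⁻¹ * lat873 r i * y, ?_, by group⟩
  rw [← term_arg873 hr]
  exact subset_tsupport _ h

/-- The compact set `U · supp φ · V⁻¹`. -/
def box873 (φ : G K → ℂ) (U V : Set (G K)) : Set (G K) :=
  (fun p : G K × G K × G K => p.1 * p.2.1 * p.2.2⁻¹) '' (U ×ˢ (tsupport φ ×ˢ V))

theorem isCompact_box873 {φ : G K → ℂ} (hφs : HasCompactSupport φ) {U V : Set (G K)}
    (hU : IsCompact U) (hV : IsCompact V) : IsCompact (box873 φ U V) :=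
  (hU.prod (hφs.prod hV)).image
    ((continuous_fst.mul (continuous_fst.comp continuous_snd)).mul
      ((continuous_snd.comp continuous_snd).inv))

theorem lat_mem_box873 {r : G K} (hr : IsRayGen r) {φ : G K → ℂ} {U V : Set (G K)} {x y : G K}
    (hx : x ∈ U) (hy : y ∈ V) {i : GL (Fin 2) K × ℤ} (h : term873 r φ x y i ≠ 0) :
    lat873 r i ∈ box873 φ U V := by
  obtain ⟨c, hc, he⟩ := lat_mem_of_term_ne873 hr h
  exact ⟨(x, c, y), ⟨hx, hc, hy⟩, he.symm⟩

/-- **Joint continuity of the kernel.** -/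
theorem continuous_ker0_873 (hL : T1.LocCompC K) (hD : T1.DiscreteC K) (hN : T1.AdNormC K)
    {r : G K} (hr : IsRayGen r) {φ : G K → ℂ} (hφc : Continuous φ)
    (hφs : HasCompactSupport φ) : Continuous (fun p : G K × G K => ker0 r φ p.1 p.2) := by
  have : LocallyCompactSpace (G K) := hL.2.1
  rw [continuous_iff_continuousAt]
  rintro ⟨x₀, y₀⟩
  obtain ⟨U, hUc, hUn⟩ := exists_compact_mem_nhds x₀
  obtain ⟨V, hVc, hVn⟩ := exists_compact_mem_nhds y₀
  have hfin := finite_lat873 hD hN hr (isCompact_box873 hφs hUc hVc)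
  have hS : ∀ x ∈ U, ∀ y ∈ V, ∀ i ∉ hfin.toFinset, term873 r φ x y i = 0 := by
    intro x hx y hy i hi
    by_contra hne
    exact hi (hfin.mem_toFinset.mpr (lat_mem_box873 hr hx hy hne))
  have heq : (fun p : G K × G K => ∑ i ∈ hfin.toFinset, term873 r φ p.1 p.2 i)
      =ᶠ[𝓝 (x₀, y₀)] (fun p : G K × G K => ker0 r φ p.1 p.2) := by
    filter_upwards [prod_mem_nhds hUn hVn] with p hp
    exact (ker0_eq_sum873 _ (hS p.1 hp.1 p.2 hp.2)).symm
  have hc : Continuous (fun p : G K × G K => ∑ i ∈ hfin.toFinset, term873 r φ p.1 p.2 i) := by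
    refine continuous_finsetSum _ (fun i _ => ?_)
    unfold term873
    exact hφc.comp
      (((continuous_fst.inv.mul continuous_const).mul continuous_snd).mul continuous_const)
  exact hc.continuousAt.congr heq

/-- Quotients of lattice elements. -/
theorem lat_div873 {r : G K} (hr : IsRayGen r) (i j : GL (Fin 2) K × ℤ) :
    lat873 r (i.1 * j.1⁻¹, i.2 - j.2) = lat873 r i * (lat873 r j)⁻¹ := by
  unfold lat873
  have hcb : r ^ i.2 * (ratG j.1 : G K)⁻¹ = (ratG j.1 : G K)⁻¹ * r ^ i.2 :=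
    H277.ray_zpow_comm277 hr _ _
  have hdb : (r ^ j.2)⁻¹ * (ratG j.1 : G K)⁻¹ = (ratG j.1 : G K)⁻¹ * (r ^ j.2)⁻¹ := by
    rw [← zpow_neg]
    exact H277.ray_zpow_comm277 hr _ _
  simp only [map_mul, map_inv, mul_inv_rev, zpow_sub]
  calc ratG i.1 * (ratG j.1 : G K)⁻¹ * (r ^ i.2 * (r ^ j.2)⁻¹)
      = ratG i.1 * ((ratG j.1 : G K)⁻¹ * r ^ i.2) * (r ^ j.2)⁻¹ := by simp only [mul_assoc]
    _ = ratG i.1 * (r ^ i.2 * (ratG j.1 : G K)⁻¹) * (r ^ j.2)⁻¹ := by rw [hcb]
    _ = ratG i.1 * r ^ i.2 * ((ratG j.1 : G K)⁻¹ * (r ^ j.2)⁻¹) := by simp only [mul_assoc]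
    _ = ratG i.1 * r ^ i.2 * ((r ^ j.2)⁻¹ * (ratG j.1 : G K)⁻¹) := by rw [hdb]

/-- **The kernel is bounded in the second variable.** -/
theorem bdd_ker0_873 (hD : T1.DiscreteC K) (hN : T1.AdNormC K)
    {r : G K} (hr : IsRayGen r) {φ : G K → ℂ} (hφc : Continuous φ)
    (hφs : HasCompactSupport φ) (x : G K) : ∃ B : ℝ, ∀ y : G K, ‖ker0 r φ x y‖ ≤ B := by
  obtain ⟨M, hM⟩ := hφs.exists_bound_of_continuous hφc
  have hM0 : 0 ≤ M := le_trans (norm_nonneg _) (hM 1)
  -- the set of quotients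
  have hT := finite_lat873 hD hN hr
    (isCompact_box873 hφs (isCompact_singleton (x := x))
      ((hφs.image (continuous_const_mul x)) : IsCompact ((fun c => x * c) '' tsupport φ)))
  refine ⟨hT.toFinset.card * M, fun y => ?_⟩
  have hfin := finite_lat873 hD hN hr
    (isCompact_box873 hφs (isCompact_singleton (x := x)) (isCompact_singleton (x := y)))
  classical
  set S := hfin.toFinset.filter (fun i => term873 r φ x y i ≠ 0) with hSdef
  have hS : ∀ i ∉ S, term873 r φ x y i = 0 := by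
    intro i hi
    by_contra hne
    apply hi
    rw [hSdef, Finset.mem_filter]
    exact ⟨hfin.mem_toFinset.mpr
      (lat_mem_box873 hr (Set.mem_singleton x) (Set.mem_singleton y) hne), hne⟩
  rw [ker0_eq_sum873 S hS]
  have hcard : S.card ≤ hT.toFinset.card := by
    rcases S.eq_empty_or_nonempty with h0 | ⟨j, hj⟩
    · rw [h0]; simp
    · have hjne : term873 r φ x y j ≠ 0 := (Finset.mem_filter.mp hj).2
      obtain ⟨c₀, hc₀, he₀⟩ := lat_mem_of_term_ne873 hr hjne
      refine Finset.card_le_card_of_injOn (fun i => (i.1 * j.1⁻¹, i.2 - j.2)) ?_ ?_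
      · intro i hi
        have hine : term873 r φ x y i ≠ 0 := (Finset.mem_filter.mp hi).2
        obtain ⟨c, hc, he⟩ := lat_mem_of_term_ne873 hr hine
        rw [Finset.mem_coe, hT.mem_toFinset, Set.mem_ofPred_eq, lat_div873 hr, he, he₀]
        refine ⟨(x, c, x * c₀), ⟨Set.mem_singleton x, hc, ⟨c₀, hc₀, rfl⟩⟩, ?_⟩
        simp only
        group
      · intro a _ b _ hab
        simp only [Prod.mk.injEq] at hab
        refine Prod.ext ?_ ?_
        · exact mul_right_cancel hab.1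
        · have := hab.2
          omega
  calc ‖∑ i ∈ S, term873 r φ x y i‖ ≤ ∑ i ∈ S, ‖term873 r φ x y i‖ := norm_sum_le _ _
    _ ≤ ∑ _i ∈ S, M := Finset.sum_le_sum (fun i _ => hM _)
    _ = S.card * M := by rw [Finset.sum_const, nsmul_eq_mul]
    _ ≤ hT.toFinset.card * M := by
        apply mul_le_mul_of_nonneg_right _ hM0
        exact_mod_cast hcard

end Fermat.Agent.LT.T5.H873

end

end
-- ===== PACK-END LT/T5/H873/KerSum.lean

-- ===== PACK-BEGIN LT/T7/H768/TorusK.lean
section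




/-!
# Row LT, tower T7, leaf T7.13i `HoroCoeffFC` (helper768), part 3: the torus `ℂ / M e(𝓞_K)`

OFF-MAIN.  `K = ℚ(√-3)`, `e : K →+* ℂ`, `Λ = M e(𝓞_K)`, `Q = ℂ / Λ`.

* `isClosed_lam768`, `compactSpace_Q768`: `Λ` is closed, `Q` is compact;
* `chi768 e x M ν u = exp (2 π i τ (e ν · u) / M)`: the characters of `Q`;
* `isCharFam_psi768`: they form a family of characters in the sense of `Torus.lean`;
* `integral_translate768`, `integral_scale768`: invariance of the Haar integral under the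
  translations and under `u ↦ e ϖ · u`, `ϖ ≠ 0`.
-/

set_option autoImplicit false
set_option linter.unusedSectionVars false
set_option linter.style.haveILetI false

open IsDedekindDomain NumberField MeasureTheory
open scoped ComplexConjugate

noncomputable section

namespace Fermat.Agent.LT.T7.H768

open Fermat.Agent.LT.T7 Fermat.Agent.LT.T7.H37

variable {K : Type} [Field K] [NumberField K]

/-! ### The exponential -/

/-- `exp (2 π i r)`. -/
def cis768 (r : ℝ) : ℂ := Complex.exp (2 * Real.pi * Complex.I * (r : ℂ))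

theorem cis_add768 (r s : ℝ) : cis768 (r + s) = cis768 r * cis768 s := by
  unfold cis768
  rw [← Complex.exp_add]
  congr 1
  push_cast
  ring

theorem cis_zero768 : cis768 0 = 1 := by simp [cis768]

theorem cis_neg768 (r : ℝ) : cis768 (-r) = conj (cis768 r) := by
  unfold cis768
  rw [← Complex.exp_conj]
  congr 1
  simp only [map_mul, Complex.conj_ofReal, Complex.conj_I, map_ofNat, Complex.ofReal_neg]
  ring

theorem cis_eq_one_iff768 (r : ℝ) : cis768 r = 1 ↔ ∃ n : ℤ, r = n := by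
  unfold cis768
  rw [Complex.exp_eq_one_iff]
  constructor
  · rintro ⟨n, hn⟩
    refine ⟨n, ?_⟩
    have h2 : (2 * Real.pi * Complex.I : ℂ) ≠ 0 := by
      simp [Real.pi_ne_zero]
    have h3 : (r : ℂ) = n := by
      apply mul_left_cancel₀ h2
      rw [hn]
      ring
    exact_mod_cast h3
  · rintro ⟨n, rfl⟩
    exact ⟨n, by push_cast; ring⟩

theorem cis_int768 (n : ℤ) : cis768 n = 1 := (cis_eq_one_iff768 _).2 ⟨n, rfl⟩

theorem continuous_cis768 : Continuous cis768 := by
  unfold cis768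
  fun_prop

/-! ### The lattice -/

/-- The lattice `M e(𝓞 K)`. -/
def lam768 (e : K →+* ℂ) (M : ℕ) : AddSubgroup ℂ where
  carrier := {u | ∃ l : 𝓞 K, (M : ℂ) * e (l : K) = u}
  zero_mem' := ⟨0, by simp⟩
  add_mem' := by
    rintro _ _ ⟨l, rfl⟩ ⟨l', rfl⟩
    refine ⟨l + l', ?_⟩
    have : ((l + l' : 𝓞 K) : K) = (l : K) + (l' : K) := by push_cast; rfl
    rw [this, map_add]
    ring
  neg_mem' := by
    rintro _ ⟨l, rfl⟩
    refine ⟨-l, ?_⟩
    have : ((-l : 𝓞 K) : K) = -(l : K) := by push_cast; rfl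
    rw [this, map_neg]
    ring

theorem mem_lam768 {e : K →+* ℂ} {M : ℕ} {u : ℂ} :
    u ∈ lam768 e M ↔ ∃ l : 𝓞 K, (M : ℂ) * e (l : K) = u := Iff.rfl

/-- The torus `ℂ / M e(𝓞 K)`. -/
abbrev Q768 (e : K →+* ℂ) (M : ℕ) : Type := ℂ ⧸ lam768 e M

theorem natCast_ne_zero768 {M : ℕ} (hM : 0 < M) : (M : ℂ) ≠ 0 :=
  Nat.cast_ne_zero.mpr hM.ne'

theorem coe_mul768 (a b : 𝓞 K) : ((a * b : 𝓞 K) : K) = (a : K) * (b : K) := by
  push_cast
  rfl

theorem coe_add768 (a b : 𝓞 K) : ((a + b : 𝓞 K) : K) = (a : K) + (b : K) := by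
  push_cast
  rfl

theorem coe_neg768 (a : 𝓞 K) : ((-a : 𝓞 K) : K) = -(a : K) := by
  push_cast
  rfl

theorem coe_zero768 : ((0 : 𝓞 K) : K) = 0 := by
  push_cast
  rfl

theorem coe_one768 : ((1 : 𝓞 K) : K) = 1 := by
  push_cast
  rfl

theorem lam_eq768 (h : IsImagQuad K) (e : K →+* ℂ) {x : K} (hx : x * x = -3) {M : ℕ}
    (hM : 0 < M) :
    (lam768 e M : Set ℂ)
      = (fun u : ℂ => tau768 e x (u / M)) ⁻¹' (Set.range ((↑) : ℤ → ℝ))
        ∩ (fun u : ℂ => tau768 e x (e (zeta768 x) * (u / M))) ⁻¹' (Set.range ((↑) : ℤ → ℝ)) := by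
  have hM0 := natCast_ne_zero768 hM
  ext u
  constructor
  · rintro ⟨l, rfl⟩
    have h1 : (M : ℂ) * e (l : K) / M = e (l : K) := by field_simp
    refine ⟨?_, ?_⟩
    · obtain ⟨n, hn⟩ := tau_int768 h e hx l
      exact ⟨n, by simp only [h1]; exact hn.symm⟩
    · obtain ⟨n, hn⟩ := tau_int768 h e hx (zetaInt768 hx * l)
      refine ⟨n, ?_⟩
      simp only [h1]
      rw [← hn, coe_mul768, map_mul]
      rfl
  · rintro ⟨⟨n, hn⟩, ⟨m, hm⟩⟩
    have := mem_lattice_of_tau768 e hx (u / M) n m hn.symm hm.symm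
    refine ⟨latInt768 hx (m + n) n, ?_⟩
    rw [this]
    field_simp

theorem isClosed_lam768 (h : IsImagQuad K) (e : K →+* ℂ) {x : K} (hx : x * x = -3) {M : ℕ}
    (hM : 0 < M) : IsClosed (lam768 e M : Set ℂ) := by
  rw [lam_eq768 h e hx hM]
  have hZ : IsClosed (Set.range ((↑) : ℤ → ℝ)) := Int.isClosedEmbedding_coe_real.isClosed_range
  refine (hZ.preimage ?_).inter (hZ.preimage ?_)
  · exact (continuous_tau768 e x).comp (continuous_id.div_const _)
  · exact (continuous_tau768 e x).comp (continuous_const.mul (continuous_id.div_const _))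

theorem exists_near768 (e : K →+* ℂ) {x : K} (hx : x * x = -3) {M : ℕ} (hM : 0 < M) (u : ℂ) :
    ∃ l : 𝓞 K, ‖u - (M : ℂ) * e (l : K)‖ ≤ M * (1 + ‖e (zeta768 x)‖) := by
  have hM0 := natCast_ne_zero768 hM
  have hβ := emb_sqrt_im_ne768 e hx
  have hζ := emb_zeta768 e hx
  set w : ℂ := u / M with hw
  set b : ℝ := tau768 e x w with hb
  set a : ℝ := w.re + b / 2 with ha
  have hwab : w = (a : ℂ) + (b : ℂ) * e (zeta768 x) := by
    apply Complex.ext
    · simp only [Complex.add_re, Complex.mul_re, Complex.ofReal_re, Complex.ofReal_im, hζ.1]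
      rw [ha]
      ring
    · simp only [Complex.add_im, Complex.mul_im, Complex.ofReal_re, Complex.ofReal_im, hζ.2]
      rw [hb]
      unfold tau768
      field_simp
      ring
  refine ⟨latInt768 hx ⌊a⌋ ⌊b⌋, ?_⟩
  have hu : u = (M : ℂ) * w := by rw [hw]; field_simp
  have e1 : u - (M : ℂ) * e ((latInt768 hx ⌊a⌋ ⌊b⌋ : 𝓞 K) : K)
      = (M : ℂ) * (((Int.fract a : ℝ) : ℂ) + ((Int.fract b : ℝ) : ℂ) * e (zeta768 x)) := by
    rw [emb_latInt768, hu, hwab]
    have h1 : ((Int.fract a : ℝ) : ℂ) = (a : ℂ) - ((⌊a⌋ : ℤ) : ℂ) := by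
      rw [Int.fract]; push_cast; ring
    have h2 : ((Int.fract b : ℝ) : ℂ) = (b : ℂ) - ((⌊b⌋ : ℤ) : ℂ) := by
      rw [Int.fract]; push_cast; ring
    rw [h1, h2]
    ring
  rw [e1, norm_mul, Complex.norm_natCast]
  refine mul_le_mul_of_nonneg_left ?_ (Nat.cast_nonneg _)
  refine (norm_add_le _ _).trans ?_
  rw [norm_mul, Complex.norm_real, Complex.norm_real, Real.norm_of_nonneg (Int.fract_nonneg a),
    Real.norm_of_nonneg (Int.fract_nonneg b)]
  have h3 := (Int.fract_lt_one a).le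
  have h4 := (Int.fract_lt_one b).le
  have h5 := norm_nonneg (e (zeta768 x))
  nlinarith

theorem compactSpace_Q768 (e : K →+* ℂ) {x : K} (hx : x * x = -3) {M : ℕ} (hM : 0 < M) :
    CompactSpace (Q768 e M) := by
  refine ⟨?_⟩
  have h : (Set.univ : Set (Q768 e M))
      = (QuotientAddGroup.mk : ℂ → Q768 e M) ''
          Metric.closedBall (0 : ℂ) (M * (1 + ‖e (zeta768 x)‖)) := by
    ext q
    simp only [Set.mem_univ, true_iff]
    obtain ⟨u, rfl⟩ := QuotientAddGroup.mk_surjective q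
    obtain ⟨l, hl⟩ := exists_near768 e hx hM u
    refine ⟨u - (M : ℂ) * e (l : K), ?_, ?_⟩
    · rw [Metric.mem_closedBall, dist_zero_right]
      exact hl
    · rw [QuotientAddGroup.eq]
      refine mem_lam768.mpr ⟨l, ?_⟩
      ring
  rw [h]
  exact (isCompact_closedBall _ _).image QuotientAddGroup.continuous_mk

/-! ### The characters -/

/-- The character `u ↦ exp (2 π i τ (e ν · u) / M)`. -/
def chi768 (e : K →+* ℂ) (x : K) (M : ℕ) (ν : 𝓞 K) (u : ℂ) : ℂ :=
  cis768 (tau768 e x (e (ν : K) * u) / M)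

theorem chi_mul768 (e : K →+* ℂ) (x : K) (M : ℕ) (ν : 𝓞 K) (u u' : ℂ) :
    chi768 e x M ν (u + u') = chi768 e x M ν u * chi768 e x M ν u' := by
  unfold chi768
  rw [mul_add, tau_add768, add_div, cis_add768]

theorem chi_one768 (e : K →+* ℂ) (x : K) (M : ℕ) (u : ℂ) : chi768 e x M 0 u = 1 := by
  unfold chi768
  rw [coe_zero768, map_zero, zero_mul, tau_zero768, zero_div, cis_zero768]

theorem chi_add768 (e : K →+* ℂ) (x : K) (M : ℕ) (ν ν' : 𝓞 K) (u : ℂ) :
    chi768 e x M (ν + ν') u = chi768 e x M ν u * chi768 e x M ν' u := by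
  unfold chi768
  rw [coe_add768, map_add, add_mul, tau_add768, add_div, cis_add768]

theorem chi_neg768 (e : K →+* ℂ) (x : K) (M : ℕ) (ν : 𝓞 K) (u : ℂ) :
    chi768 e x M (-ν) u = conj (chi768 e x M ν u) := by
  unfold chi768
  rw [coe_neg768, map_neg, neg_mul, tau_neg768, neg_div, cis_neg768]

theorem chi_scale768 (e : K →+* ℂ) (x : K) (M : ℕ) (ν ϖ : 𝓞 K) (u : ℂ) :
    chi768 e x M ν (e (ϖ : K) * u) = chi768 e x M (ϖ * ν) u := by
  unfold chi768
  rw [coe_mul768, map_mul]
  congr 3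
  ring

theorem continuous_chi768 (e : K →+* ℂ) (x : K) (M : ℕ) (ν : 𝓞 K) :
    Continuous (chi768 e x M ν) := by
  unfold chi768
  exact continuous_cis768.comp
    (((continuous_tau768 e x).comp (continuous_const.mul continuous_id)).div_const _)

/-- The value of a character at `M e(y) / e(ϖ)`-like points: `χ_ν (M w) = exp (2 π i τ (e ν w))`. -/
theorem chi_natMul768 (e : K →+* ℂ) (x : K) {M : ℕ} (hM : 0 < M) (ν : 𝓞 K) (w : ℂ) :
    chi768 e x M ν ((M : ℂ) * w) = cis768 (tau768 e x (e (ν : K) * w)) := by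
  unfold chi768
  have h1 : e (ν : K) * ((M : ℂ) * w) = (((M : ℝ)) : ℂ) * (e (ν : K) * w) := by
    push_cast
    ring
  rw [h1, tau_real_mul768]
  have hM0 : (M : ℝ) ≠ 0 := Nat.cast_ne_zero.mpr hM.ne'
  congr 1
  field_simp

theorem chi_lat768 (h : IsImagQuad K) (e : K →+* ℂ) {x : K} (hx : x * x = -3) {M : ℕ}
    (hM : 0 < M) (ν l : 𝓞 K) : chi768 e x M ν ((M : ℂ) * e (l : K)) = 1 := by
  rw [chi_natMul768 e x hM, ← map_mul, ← coe_mul768]
  obtain ⟨n, hn⟩ := tau_int768 h e hx (ν * l)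
  rw [hn]
  exact cis_int768 n

theorem chi_per768 (h : IsImagQuad K) (e : K →+* ℂ) {x : K} (hx : x * x = -3) {M : ℕ}
    (hM : 0 < M) (ν l : 𝓞 K) (u : ℂ) :
    chi768 e x M ν (u + (M : ℂ) * e (l : K)) = chi768 e x M ν u := by
  rw [chi_mul768, chi_lat768 h e hx hM, mul_one]

/-- The characters detect the lattice. -/
theorem mem_lam_of_chi768 (e : K →+* ℂ) {x : K} (hx : x * x = -3) {M : ℕ} (hM : 0 < M)
    (u : ℂ) (h1 : chi768 e x M 1 u = 1) (h2 : chi768 e x M (zetaInt768 hx) u = 1) :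
    u ∈ lam768 e M := by
  have hM0 := natCast_ne_zero768 hM
  have hu : u = (M : ℂ) * (u / M) := by field_simp
  rw [hu, chi_natMul768 e x hM, cis_eq_one_iff768] at h1 h2
  obtain ⟨n, hn⟩ := h1
  obtain ⟨m, hm⟩ := h2
  rw [coe_one768, map_one, one_mul] at hn
  have hm' : tau768 e x (e (zeta768 x) * (u / M)) = m := hm
  have := mem_lattice_of_tau768 e hx (u / M) n m hn hm'
  refine mem_lam768.mpr ⟨latInt768 hx (m + n) n, ?_⟩
  rw [this]
  field_simp

theorem tau_zeta768 (e : K →+* ℂ) {x : K} (hx : x * x = -3) :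
    tau768 e x (e (zeta768 x)) = 1 := by
  have := tau_coords768 e hx 0 1
  simpa using this

theorem chi_nontriv768 (e : K →+* ℂ) {x : K} (hx : x * x = -3) {M : ℕ} (hM : 0 < M)
    (ν : 𝓞 K) (hν : ν ≠ 0) : ∃ u : ℂ, chi768 e x M ν u ≠ 1 := by
  have hν' : (ν : K) ≠ 0 := fun h0 => hν (by ext; rw [h0]; rfl)
  have heν := emb_ne_zero768 e hν'
  refine ⟨(M : ℂ) * (((1 / 2 : ℝ) : ℂ) * e (zeta768 x) / e (ν : K)), ?_⟩
  rw [chi_natMul768 e x hM]
  have h1 : e (ν : K) * (((1 / 2 : ℝ) : ℂ) * e (zeta768 x) / e (ν : K))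
      = ((1 / 2 : ℝ) : ℂ) * e (zeta768 x) := by
    field_simp
  rw [h1, tau_real_mul768, tau_zeta768 e hx, mul_one]
  intro h
  obtain ⟨n, hn⟩ := (cis_eq_one_iff768 _).1 h
  have h2 : (2 : ℝ) * n = 1 := by rw [← hn]; norm_num
  have h3 : (2 : ℤ) * n = 1 := by exact_mod_cast h2
  omega

/-! ### Periodic functions and the quotient -/

/-- `f` is periodic under `M e(𝓞 K)`. -/
def IsPer768 (e : K →+* ℂ) (M : ℕ) (f : ℂ → ℂ) : Prop :=
  ∀ (l : 𝓞 K) (u : ℂ), f (u + (M : ℂ) * e (l : K)) = f u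

/-- A function on `ℂ` as a function on the torus (evaluation at the chosen representative). -/
def dn768 (e : K →+* ℂ) (M : ℕ) (f : ℂ → ℂ) : Q768 e M → ℂ := fun q => f (Quotient.out q)

theorem dn_mk768 {e : K →+* ℂ} {M : ℕ} {f : ℂ → ℂ} (hf : IsPer768 e M f) (u : ℂ) :
    dn768 e M f (QuotientAddGroup.mk u) = f u := by
  unfold dn768
  obtain ⟨⟨t, ht⟩, hout⟩ := QuotientAddGroup.mk_out_eq_add (lam768 e M) u
  obtain ⟨l, rfl⟩ := mem_lam768.mp ht
  rw [hout]
  exact hf l u

theorem mk_out768 {e : K →+* ℂ} {M : ℕ} (q : Q768 e M) :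
    (QuotientAddGroup.mk (Quotient.out q) : Q768 e M) = q := QuotientAddGroup.out_eq' q

theorem continuous_dn768 {e : K →+* ℂ} {M : ℕ} {f : ℂ → ℂ} (hf : IsPer768 e M f)
    (hc : Continuous f) : Continuous (dn768 e M f) := by
  rw [(QuotientAddGroup.isQuotientMap_mk (lam768 e M)).continuous_iff]
  refine hc.congr fun u => ?_
  exact (dn_mk768 hf u).symm

theorem isPer_chi768 (h : IsImagQuad K) (e : K →+* ℂ) {x : K} (hx : x * x = -3) {M : ℕ}
    (hM : 0 < M) (ν : 𝓞 K) : IsPer768 e M (chi768 e x M ν) :=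
  fun l u => chi_per768 h e hx hM ν l u

/-- The characters of the torus. -/
def psi768 (e : K →+* ℂ) (x : K) (M : ℕ) (ν : 𝓞 K) : Q768 e M → ℂ := dn768 e M (chi768 e x M ν)

theorem isCharFam_psi768 (h : IsImagQuad K) (e : K →+* ℂ) {x : K} (hx : x * x = -3) {M : ℕ}
    (hM : 0 < M) : IsCharFam768 (psi768 e x M) where
  cont ν := continuous_dn768 (isPer_chi768 h e hx hM ν) (continuous_chi768 e x M ν)
  mul ν a b := by
    obtain ⟨u, rfl⟩ := QuotientAddGroup.mk_surjective a
    obtain ⟨u', rfl⟩ := QuotientAddGroup.mk_surjective b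
    unfold psi768
    rw [← QuotientAddGroup.mk_add, dn_mk768 (isPer_chi768 h e hx hM ν),
      dn_mk768 (isPer_chi768 h e hx hM ν), dn_mk768 (isPer_chi768 h e hx hM ν), chi_mul768]
  one a := chi_one768 e x M _
  add ν ν' a := chi_add768 e x M ν ν' _
  neg ν a := chi_neg768 e x M ν _
  nontriv ν hν := by
    obtain ⟨u, hu⟩ := chi_nontriv768 e hx hM ν hν
    refine ⟨QuotientAddGroup.mk u, ?_⟩
    unfold psi768
    rw [dn_mk768 (isPer_chi768 h e hx hM ν)]
    exact hu
  sep a b hab := by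
    obtain ⟨u, rfl⟩ := QuotientAddGroup.mk_surjective a
    obtain ⟨u', rfl⟩ := QuotientAddGroup.mk_surjective b
    by_contra hall
    rw [not_exists] at hall
    have key : ∀ ν : 𝓞 K, chi768 e x M ν (-u + u') = 1 := by
      intro ν
      have h1 := hall ν
      rw [not_not] at h1
      unfold psi768 at h1
      rw [dn_mk768 (isPer_chi768 h e hx hM ν), dn_mk768 (isPer_chi768 h e hx hM ν)] at h1
      have h2 : chi768 e x M ν u' = chi768 e x M ν u * chi768 e x M ν (-u + u') := by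
        rw [← chi_mul768]
        congr 1
        ring
      have h3 : chi768 e x M ν u ≠ 0 := by
        unfold chi768 cis768
        exact Complex.exp_ne_zero _
      rw [← h1] at h2
      have h4 : chi768 e x M ν u * 1 = chi768 e x M ν u * chi768 e x M ν (-u + u') := by
        rw [mul_one]
        exact h2
      exact (mul_left_cancel₀ h3 h4).symm
    apply hab
    rw [QuotientAddGroup.eq]
    exact mem_lam_of_chi768 e hx hM _ (key 1) (key (zetaInt768 hx))

/-! ### Invariance of the Haar integral -/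

theorem dn_add768 {e : K →+* ℂ} {M : ℕ} {f : ℂ → ℂ} (hf : IsPer768 e M f) (q : Q768 e M)
    (t : ℂ) : dn768 e M f (q + QuotientAddGroup.mk t) = f (Quotient.out q + t) := by
  conv_lhs => rw [← mk_out768 q]
  rw [← QuotientAddGroup.mk_add, dn_mk768 hf]

/-- Multiplication by `e ϖ` on the torus. -/
def scaleQ768 (e : K →+* ℂ) (M : ℕ) (ϖ : 𝓞 K) : Q768 e M →+ Q768 e M :=
  QuotientAddGroup.map (lam768 e M) (lam768 e M) (AddMonoidHom.mulLeft (e (ϖ : K))) (by
    rintro _ ⟨l, rfl⟩
    refine mem_lam768.mpr ⟨ϖ * l, ?_⟩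
    rw [coe_mul768, map_mul]
    show _ = e (ϖ : K) * ((M : ℂ) * e (l : K))
    ring)

theorem scaleQ768_mk (e : K →+* ℂ) (M : ℕ) (ϖ : 𝓞 K) (u : ℂ) :
    scaleQ768 e M ϖ (QuotientAddGroup.mk u) = QuotientAddGroup.mk (e (ϖ : K) * u) := rfl

theorem continuous_scaleQ768 (e : K →+* ℂ) (M : ℕ) (ϖ : 𝓞 K) :
    Continuous (scaleQ768 e M ϖ) := by
  rw [(QuotientAddGroup.isQuotientMap_mk (lam768 e M)).continuous_iff]
  exact QuotientAddGroup.continuous_mk.comp (continuous_const.mul continuous_id)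

theorem surjective_scaleQ768 (e : K →+* ℂ) (M : ℕ) {ϖ : 𝓞 K} (hϖ : ϖ ≠ 0) :
    Function.Surjective (scaleQ768 e M ϖ) := by
  have hϖ' : (ϖ : K) ≠ 0 := fun h0 => hϖ (by ext; rw [h0]; rfl)
  have heϖ := emb_ne_zero768 e hϖ'
  intro q
  obtain ⟨u, rfl⟩ := QuotientAddGroup.mk_surjective q
  refine ⟨QuotientAddGroup.mk (u / e (ϖ : K)), ?_⟩
  rw [scaleQ768_mk]
  congr 1
  field_simp

theorem dn_scale768 {e : K →+* ℂ} {M : ℕ} {f : ℂ → ℂ} (hf : IsPer768 e M f) (ϖ : 𝓞 K)
    (q : Q768 e M) : dn768 e M f (scaleQ768 e M ϖ q) = f (e (ϖ : K) * Quotient.out q) := by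
  conv_lhs => rw [← mk_out768 q]
  rw [scaleQ768_mk, dn_mk768 hf]

section Measure

variable {e : K →+* ℂ} {M : ℕ} [IsClosed (lam768 e M : Set ℂ)] [CompactSpace (Q768 e M)]
  (μ : Measure (Q768 e M)) [μ.IsAddHaarMeasure] [IsProbabilityMeasure μ]

theorem integral_translate768 {f : ℂ → ℂ} (hf : IsPer768 e M f) (t : ℂ) :
    ∫ q, f (Quotient.out q + t) ∂μ = ∫ q, f (Quotient.out q) ∂μ := by
  have h1 := integral_add_right_eq_self (μ := μ) (dn768 e M f) (QuotientAddGroup.mk t)
  simp_rw [dn_add768 hf] at h1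
  exact h1

theorem integral_scale768 {f : ℂ → ℂ} (hf : IsPer768 e M f) (hc : Continuous f) {ϖ : 𝓞 K}
    (hϖ : ϖ ≠ 0) :
    ∫ q, f (e (ϖ : K) * Quotient.out q) ∂μ = ∫ q, f (Quotient.out q) ∂μ := by
  have hmp : MeasurePreserving (scaleQ768 e M ϖ) μ μ :=
    AddMonoidHom.measurePreserving (continuous_scaleQ768 e M ϖ) (surjective_scaleQ768 e M hϖ) rfl
  have hcd := continuous_dn768 hf hc
  have h1 := integral_map (μ := μ) (φ := scaleQ768 e M ϖ) hmp.measurable.aemeasurable
    (f := dn768 e M f) hcd.aestronglyMeasurable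
  rw [hmp.map_eq] at h1
  simp_rw [dn_scale768 hf] at h1
  exact h1.symm

end Measure

end Fermat.Agent.LT.T7.H768

end

end
-- ===== PACK-END LT/T7/H768/TorusK.lean

-- ===== PACK-BEGIN LT/T7/H496/ExpSep.lean
section




/-!
# Row LT, tower T7, leaf `T7.C7 = ExpSepC` (SPARE, helper496)

OFF-MAIN.  `expSepC496 : T7.ExpSepC`, VERBATIM the Prop of `LT/T7/Reg.lean`
(helper797@b38c7aa5e, sha256 d3ff893f1400169d).  The proof is `ES496.expSep_core496`
(`LT/T7/H496/ExpSepCore.lean`, Mathlib only); `T7.IsRegParam` and `ES496.RegParam496` have the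
same body.
-/

set_option autoImplicit false

noncomputable section

namespace Fermat.Agent.LT.T7.H496

open Fermat.Agent.LT.T7

/-- **LEAF T7.C7 = EXP-SEP.** -/
theorem expSepC496 : ExpSepC := by
  intro ι ι' a a' b l b' l' R m₀ ha ha' hp hp' h b₀ l₀
  exact ES496.expSep_core496 ι ι' a a' b l b' l' R m₀ ha ha' (fun i => hp i) (fun j => hp' j)
    h b₀ l₀

end Fermat.Agent.LT.T7.H496

end

end
-- ===== PACK-END LT/T7/H496/ExpSep.lean

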