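import Mathlib
import Fermat.Agent.Pack.LT2.E11L2
import Fermat.Agent.Pack.LT2.E11L0
import Fermat.Agent.Pack.LT2.E6L2
import Fermat.Agent.Pack.LT2.E9L3
import Fermat.Agent.Pack.LT2.E3L3
import Fermat.Agent.Pack.LT2.E3L0
import Fermat.Agent.Pack.LT2.E4L1
import Fermat.Agent.Pack.LT2.E11L3
import Fermat.Agent.Pack.LT2.E11L1
import Fermat.Agent.Pack.LT2.E0L2
import Fermat.Agent.Pack.LT2.E2L1
import Fermat.Agent.Pack.LT2.E12L1
import Fermat.Agent.Pack.LT2.E6L1
import Fermat.Agent.Pack.LT2.E1L2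
import Fermat.Agent.Pack.LT2.E3L1
import Fermat.Agent.Pack.LT2.E10L0
import Fermat.Agent.Pack.LT2.E1L0
import Fermat.Agent.Pack.LT2.E6L3
import Fermat.Agent.Pack.LT2.E12L3
import Fermat.Agent.Pack.LT2.E12L0
import Fermat.Agent.Pack.LT2.E12L2
import Fermat.Agent.Pack.LT2.E7L3

set_option linter.all false

-- ===== PACK-BEGIN LT/A2/H112/Meas.lean
section


/-!
# Row LT, tower A2, leaf A2.09 `ExpC` (helper112) -- part 2: the norm-one torus and its measure

OFF-MAIN.  `T¹(𝔸_K)` and `T¹(K)` as subgroups of `GL₂(𝔸_K)`; `DT` is a fundamental domain of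
`T¹(K)` for the measure `μT` (in the sense of Mathlib); `T¹(𝔸_K)` is a Borel set carrying `μT`;
`∫_{DT} χT = 0` for a torus character which is not trivial on `T¹(𝔸_K)`.
-/

set_option autoImplicit false
set_option linter.unusedSectionVars false

open IsDedekindDomain NumberField AutomorphicForm MeasureTheory
open scoped MatrixGroups Pointwise

noncomputable section

namespace Fermat.Agent.LT.A2.H112

open Fermat.Agent.LT.H130 Fermat.Agent.LT.H556 Fermat.Agent.LT.A2

variable {K : Type} [Field K] [NumberField K]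

/-- The Borel σ-algebra of `GL₂(𝔸_K)` (the one of `KData.μT`). -/
local instance measG112 : MeasurableSpace (A0.G K) := borel (A0.G K)

local instance borelG112 : BorelSpace (A0.G K) := ⟨rfl⟩

/-- `T¹(𝔸_K)` as a subgroup of `GL₂(𝔸_K)`. -/
def torus1 (t n : K) : Subgroup (A0.G K) where
  carrier := {m | InTorus1 t n m}
  mul_mem' := fun h h' => inTorus1_mul112 h h'
  one_mem' := inTorus1_one112 t n
  inv_mem' := fun h => inTorus1_inv112 h

/-- `T¹(K)` as a subgroup of `GL₂(𝔸_K)`. -/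
def gammaT (t n : K) : Subgroup (A0.G K) where
  carrier := {y | InTorusRat t n y ∧ InTorus1 t n y}
  mul_mem' := fun h h' => ⟨inTorusRat_mul112 h.1 h'.1, inTorus1_mul112 h.2 h'.2⟩
  one_mem' := ⟨inTorusRat_one112 t n, inTorus1_one112 t n⟩
  inv_mem' := fun h => ⟨inTorusRat_inv112 h.1, inTorus1_inv112 h.2⟩

theorem mem_torus1 {t n : K} {m : A0.G K} : m ∈ torus1 t n ↔ InTorus1 t n m := Iff.rfl

theorem mem_gammaT {t n : K} {m : A0.G K} :
    m ∈ gammaT t n ↔ InTorusRat t n m ∧ InTorus1 t n m := Iff.rfl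

theorem smul_def_gammaT {t n : K} (γ : gammaT t n) (x : A0.G K) : γ • x = (γ : A0.G K) * x := rfl

theorem smul_def_torus1 {t n : K} (c : torus1 t n) (x : A0.G K) : c • x = (c : A0.G K) * x := rfl

/-- The coordinates of an element of `T¹(K)`. -/
def coordK {t n : K} (γ : gammaT t n) : K × K :=
  (Classical.choose γ.2.1, Classical.choose (Classical.choose_spec γ.2.1))

theorem coe_eq_coordK {t n : K} (γ : gammaT t n) :
    ((γ : A0.G K) : Matrix (Fin 2) (Fin 2) (A0.Adl K))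
      = torMat (algebraMap K (A0.Adl K) t) (algebraMap K (A0.Adl K) n)
          (algebraMap K (A0.Adl K) (coordK γ).1) (algebraMap K (A0.Adl K) (coordK γ).2) :=
  Classical.choose_spec (Classical.choose_spec γ.2.1)

theorem qK_coordK {t n : K} (γ : gammaT t n) : qK t n (coordK γ) = 1 := by
  apply algebraMap_inj112
  rw [← det_of_coord112 (coe_eq_coordK γ), γ.2.2.2, map_one]
  rfl

theorem coordK_injective {t n : K} : Function.Injective (coordK : gammaT t n → K × K) := by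
  intro γ γ' h
  apply Subtype.ext
  apply Units.ext
  rw [coe_eq_coordK γ, coe_eq_coordK γ', h]

instance countable_gammaT (t n : K) : Countable (gammaT t n) := by
  have : Countable K := countableK112 K
  exact coordK_injective.countable

theorem actV_gammaT {t n : K} (γ : gammaT t n) (ξ : K × K) :
    actV (γ : A0.G K) (ratV ξ) = ratV (mulK t n (coordK γ) ξ) :=
  actV_rat112 (coe_eq_coordK γ) ξ

/-- The fibre of `Q` over `α ≠ 0` is a torsor under `T¹(K)`. -/
def fiberEquiv {t n : K} (hirr : ∀ x : K, x ^ 2 - t * x + n ≠ 0) {α : K} (hα : α ≠ 0)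
    (ξ₀ : K × K) (h₀ : qK t n ξ₀ = α) : gammaT t n ≃ ↥((qK t n) ⁻¹' {α}) :=
  Equiv.ofBijective
    (fun γ => ⟨mulK t n (coordK γ) ξ₀, by
      show qK t n (mulK t n (coordK γ) ξ₀) = α
      rw [qK_mulK, qK_coordK, one_mul, h₀]⟩)
    (by
      have hξ₀ : ξ₀ ≠ 0 := by
        intro h
        apply hα
        rw [← h₀, h]
        simp [qK]
      constructor
      · intro γ γ' h
        have h1 : mulK t n (coordK γ) ξ₀ = mulK t n (coordK γ') ξ₀ := congrArg Subtype.val h
        exact coordK_injective (mulK_left_injective hirr hξ₀ h1)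
      · rintro ⟨ξ', hξ'⟩
        have hξ'q : qK t n ξ' = α := hξ'
        set c : K × K := mulK t n (α⁻¹, 0) (mulK t n ξ' (conjK t ξ₀)) with hc
        have hqc : qK t n c = 1 := by
          rw [hc, qK_mulK, qK_mulK, qK_conjK, hξ'q, h₀]
          simp only [qK]
          field_simp
          ring
        have hcne : qK t n c ≠ 0 := by rw [hqc]; exact one_ne_zero
        have hmem : tK t n c hcne ∈ gammaT t n := by
          refine ⟨inTorusRat_tK t n c hcne, inTorusRat_inTorus112 (inTorusRat_tK t n c hcne), ?_⟩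
          apply Units.ext
          rw [det_tK, hqc, map_one]
          rfl
        refine ⟨⟨tK t n c hcne, hmem⟩, ?_⟩
        apply Subtype.ext
        show mulK t n (coordK ⟨tK t n c hcne, hmem⟩) ξ₀ = ξ'
        have hcoord : coordK ⟨tK t n c hcne, hmem⟩ = c := by
          have h1 := coe_eq_coordK (⟨tK t n c hcne, hmem⟩ : gammaT t n)
          have h2 : ((⟨tK t n c hcne, hmem⟩ : gammaT t n) : A0.G K) = tK t n c hcne := rfl
          rw [h2, coe_tK] at h1
          obtain ⟨e1, e2⟩ := torMat_inj112 h1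
          exact Prod.ext (algebraMap_inj112 e1.symm) (algebraMap_inj112 e2.symm)
        rw [hcoord, hc, mulK_assoc, mulK_assoc, mulK_comm t n (conjK t ξ₀) ξ₀, mulK_conjK, h₀,
          mulK_comm t n ξ' (α, 0), ← mulK_assoc]
        have : mulK t n (α⁻¹, 0) (α, 0) = (1, 0) := by
          simp only [mulK]; ext <;> simp [hα]
        rw [this, mulK_one_left])

theorem fiberEquiv_apply {t n : K} (hirr : ∀ x : K, x ^ 2 - t * x + n ≠ 0) {α : K} (hα : α ≠ 0)
    (ξ₀ : K × K) (h₀ : qK t n ξ₀ = α) (γ : gammaT t n) :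
    ((fiberEquiv hirr hα ξ₀ h₀ γ : ↥((qK t n) ⁻¹' {α})) : K × K) = mulK t n (coordK γ) ξ₀ := rfl

instance smulComm112 (t n : K) : SMulCommClass (torus1 t n) (gammaT t n) (A0.G K) where
  smul_comm := by
    intro c γ x
    show (c : A0.G K) * ((γ : A0.G K) * x) = (γ : A0.G K) * ((c : A0.G K) * x)
    rw [← mul_assoc, ← mul_assoc, torus_comm112 c.2.1 γ.2.2.1]

/-! ## The measure -/

section Data

variable (D : KData K)

theorem smulInv_torus1 (hM : D.IsMeasured) :
    SMulInvariantMeasure (torus1 D.t D.n) (A0.G K) D.μT := by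
  constructor
  intro c s _
  have hset : (fun x : A0.G K => c • x) ⁻¹' s = (fun m => (c⁻¹ : torus1 D.t D.n).1 * m) '' s := by
    ext x
    constructor
    · intro hx
      refine ⟨c • x, hx, ?_⟩
      show ((c⁻¹ : torus1 D.t D.n) : A0.G K) * ((c : A0.G K) * x) = x
      rw [← mul_assoc, ← Subgroup.coe_mul, inv_mul_cancel, Subgroup.coe_one, one_mul]
    · rintro ⟨y, hy, rfl⟩
      show c • (((c⁻¹ : torus1 D.t D.n) : A0.G K) * y) ∈ s
      have : c • (((c⁻¹ : torus1 D.t D.n) : A0.G K) * y) = y := by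
        show (c : A0.G K) * (((c⁻¹ : torus1 D.t D.n) : A0.G K) * y) = y
        rw [← mul_assoc, ← Subgroup.coe_mul, mul_inv_cancel, Subgroup.coe_one, one_mul]
      rw [this]
      exact hy
  rw [hset]
  exact hM.inv _ (c⁻¹).2 s

theorem smulInv_gammaT (hM : D.IsMeasured) :
    SMulInvariantMeasure (gammaT D.t D.n) (A0.G K) D.μT := by
  constructor
  intro c s hs
  have := (smulInv_torus1 D hM).measure_preimage_smul (⟨c.1, c.2.2⟩ : torus1 D.t D.n) hs
  exact this

theorem ae_mem_torus1 (hM : D.IsMeasured) : ∀ᵐ m ∂D.μT, InTorus1 D.t D.n m := by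
  have h := hM.carried
  rw [measure_eq_zero_iff_ae_notMem] at h
  filter_upwards [h] with m hm
  by_contra hcon
  exact hm hcon

theorem torus1_eq_iUnion (hM : D.IsMeasured) :
    {m : A0.G K | InTorus1 D.t D.n m} = ⋃ γ : gammaT D.t D.n, γ • D.DT := by
  ext x
  simp only [Set.mem_ofPred_eq, Set.mem_iUnion]
  constructor
  · intro hx
    obtain ⟨y, ⟨hy1, hy2, hy3⟩, -⟩ := hM.dom_fund x hx
    refine ⟨(⟨y, hy1, hy2⟩ : gammaT D.t D.n)⁻¹, ?_⟩
    refine ⟨y * x, hy3, ?_⟩
    show ((⟨y, hy1, hy2⟩ : gammaT D.t D.n)⁻¹ : gammaT D.t D.n).1 * (y * x) = x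
    rw [Subgroup.coe_inv, ← mul_assoc]
    show y⁻¹ * y * x = x
    rw [inv_mul_cancel, one_mul]
  · rintro ⟨γ, d, hd, rfl⟩
    exact inTorus1_mul112 γ.2.2 (hM.dom_sub d hd)

theorem measurableSet_torus1 (hM : D.IsMeasured) :
    MeasurableSet {m : A0.G K | InTorus1 D.t D.n m} := by
  rw [torus1_eq_iUnion D hM]
  exact MeasurableSet.iUnion fun γ => hM.dom_meas.const_smul γ

theorem restrict_torus1 (hM : D.IsMeasured) :
    D.μT.restrict {m : A0.G K | InTorus1 D.t D.n m} = D.μT :=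
  Measure.restrict_eq_self_of_ae_mem (ae_mem_torus1 D hM)

theorem measure_DT_lt_top (hM : D.IsMeasured) : D.μT D.DT < ⊤ := by
  obtain ⟨C, hC, hsub⟩ := hM.dom_compact
  exact lt_of_le_of_lt (measure_mono hsub) (hM.compact_lt C hC)

theorem isFundDom112 (hM : D.IsMeasured) :
    IsFundamentalDomain (gammaT D.t D.n) D.DT D.μT where
  nullMeasurableSet := hM.dom_meas.nullMeasurableSet
  ae_covers := by
    filter_upwards [ae_mem_torus1 D hM] with x hx
    obtain ⟨y, ⟨hy1, hy2, hy3⟩, -⟩ := hM.dom_fund x hx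
    exact ⟨⟨y, hy1, hy2⟩, hy3⟩
  aedisjoint := by
    intro γ₁ γ₂ hne
    apply Disjoint.aedisjoint
    rw [Set.disjoint_left]
    rintro x ⟨d₁, hd₁, rfl⟩ ⟨d₂, hd₂, hx⟩
    apply hne
    have hx' : (γ₂ : A0.G K) * d₂ = (γ₁ : A0.G K) * d₁ := hx
    have hxT : InTorus1 D.t D.n ((γ₁ : A0.G K) * d₁) :=
      inTorus1_mul112 γ₁.2.2 (hM.dom_sub d₁ hd₁)
    obtain ⟨y, -, huniq⟩ := hM.dom_fund _ hxT
    have h1 : ((γ₁⁻¹ : gammaT D.t D.n) : A0.G K) = y := by
      apply huniq
      refine ⟨(γ₁⁻¹).2.1, (γ₁⁻¹).2.2, ?_⟩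
      rw [Subgroup.coe_inv, ← mul_assoc, inv_mul_cancel, one_mul]
      exact hd₁
    have h2 : ((γ₂⁻¹ : gammaT D.t D.n) : A0.G K) = y := by
      apply huniq
      refine ⟨(γ₂⁻¹).2.1, (γ₂⁻¹).2.2, ?_⟩
      rw [← hx', Subgroup.coe_inv, ← mul_assoc, inv_mul_cancel, one_mul]
      exact hd₂
    have h3 : (γ₁⁻¹ : gammaT D.t D.n) = γ₂⁻¹ := Subtype.ext (h1.trans h2.symm)
    exact inv_injective h3

/-- The integral of a torus character, not trivial on `T¹`, over the fundamental domain is `0`. -/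
theorem integral_chi_zero112 (hM : D.IsMeasured) (hT : IsTorusChar D.t D.n D.χT) :
    ∫ m in D.DT, D.χT m ∂D.μT = 0 := by
  classical
  have := smulInv_torus1 D hM
  have := smulInv_gammaT D hM
  obtain ⟨m₀, hm₀, hχ⟩ := hT.nontriv
  set c₀ : torus1 D.t D.n := ⟨m₀, hm₀⟩ with hc₀
  set f : A0.G K → ℂ := fun m => if InTorus1 D.t D.n m then D.χT m else 0 with hf
  have hfd := isFundDom112 D hM
  have hfd' : IsFundamentalDomain (gammaT D.t D.n) (c₀ • D.DT) D.μT := hfd.smul_of_comm c₀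
  have hiff : ∀ (y x : A0.G K), InTorus1 D.t D.n y →
      (InTorus1 D.t D.n (y * x) ↔ InTorus1 D.t D.n x) := by
    intro y x hy
    constructor
    · intro h
      have := inTorus1_mul112 (inTorus1_inv112 hy) h
      rwa [← mul_assoc, inv_mul_cancel, one_mul] at this
    · intro h
      exact inTorus1_mul112 hy h
  have hinv : ∀ (γ : gammaT D.t D.n) (x : A0.G K), f (γ • x) = f x := by
    intro γ x
    simp only [hf, smul_def_gammaT]
    by_cases hx : InTorus1 D.t D.n x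
    · rw [if_pos hx, if_pos ((hiff _ _ γ.2.2).mpr hx), hT.mul _ _ γ.2.2.1 hx.1, hT.rat _ γ.2.1,
        one_mul]
    · rw [if_neg hx, if_neg (fun h => hx ((hiff _ _ γ.2.2).mp h))]
  have hmul : ∀ x : A0.G K, f (c₀ • x) = D.χT m₀ * f x := by
    intro x
    simp only [hf, smul_def_torus1]
    by_cases hx : InTorus1 D.t D.n x
    · rw [if_pos hx, if_pos ((hiff _ _ hm₀).mpr hx)]
      exact hT.mul _ _ hm₀.1 hx.1
    · rw [if_neg hx, if_neg (fun h => hx ((hiff _ _ hm₀).mp h)), mul_zero]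
  have e0 : ∫ m in D.DT, D.χT m ∂D.μT = ∫ m in D.DT, f m ∂D.μT := by
    apply setIntegral_congr_fun hM.dom_meas
    intro m hm
    simp only [hf]
    rw [if_pos (hM.dom_sub m hm)]
  have e1 : ∫ m in D.DT, f m ∂D.μT = ∫ m in c₀ • D.DT, f m ∂D.μT :=
    hfd.setIntegral_eq hfd' hinv
  have e2 : ∫ m in c₀ • D.DT, f m ∂D.μT = ∫ m in D.DT, f (c₀ • m) ∂D.μT := by
    have hmp := measurePreserving_smul c₀ D.μT
    have hemb : MeasurableEmbedding (fun x : A0.G K => c₀ • x) := measurableEmbedding_const_smul c₀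
    have := hmp.setIntegral_image_emb hemb f D.DT
    rw [Set.image_smul] at this
    exact this
  have e3 : ∫ m in D.DT, f (c₀ • m) ∂D.μT = D.χT m₀ * ∫ m in D.DT, f m ∂D.μT := by
    simp_rw [hmul]
    exact integral_const_mul _ _
  have e4 : ∫ m in D.DT, f m ∂D.μT = D.χT m₀ * ∫ m in D.DT, f m ∂D.μT :=
    e1.trans (e2.trans e3)
  rw [e0]
  have e5 : (1 - D.χT m₀) * ∫ m in D.DT, f m ∂D.μT = 0 := by
    rw [sub_mul, one_mul, ← e4, sub_self]
  rcases mul_eq_zero.mp e5 with h | h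
  · exact absurd (sub_eq_zero.mp h).symm hχ
  · exact h

end Data

end Fermat.Agent.LT.A2.H112

end

end
-- ===== PACK-END LT/A2/H112/Meas.lean

-- ===== PACK-BEGIN LT/A2/H416/MeanSpec.lean
section




/-!
# Row LT, tower A2, leaf A2.03.7 WHIT-MEAN (owner helper416): THE CUT

OFF-MAIN.  Definitions and `Prop`s only (no `sorry`, nothing assumed).

    WL.WhitMeanC ⟸ BesselInvC + EigenOdeC + ArchInvC + IwasawaGL2C + (adelic core, helper416)

## The mathematics (ODE route: NO disintegration of the torus measure, NO `K₀`)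

Fix a complex place `w`, `g₀`, `m₁` trivial at `w` with `(g₀, m₁)` admissible, `c` the constant of
`IsStd.cpx`, `a = 2π|c|`.  For `x ∈ ℂ`, `y > 0`:

    W(g₀ · [[y, x], [0, 1]]_w) = exp(4πi Re(c x)) · y · J(y),
    J(y) = ∫_{T¹(𝔸)} A(m) exp(-a y (p(m) + q(m))) dμT(m),

`p = |α₁|²`, `q = |α₂|²` the squared absolute values of the split coordinates of `(m⁻¹)_w`
(`p q = 1`), `A` independent of `y` (`unip`, `diagA`, `tor1`, `cpx`).  The translation of `μT` by
the element of `T¹(ℂ_w)` of split coordinates `(r, r⁻¹)`, `r > 0`, gives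
`∫ A exp(-a y (r⁻² p + r² q)) = J(y)` for all `r > 0`.  Differentiating twice in `r` at `r = 1`
and twice in `y` under the integral sign (`BesselInvC`) gives the modified Bessel equation
`y J'' + J' - 4 a² y J = 0`; hence `(x, y) ↦ exp(4πi Re(c x)) y J(y)` is a solution of the
hyperbolic Laplace equation of `ℍ³` (`EigenOdeC`), and has the mean-value property in every frame
(`H470.frameMVP_euler470`).  `ArchInvC` + `IwasawaGL2C`: `W(g₀ · M_w) = f(jpt M)`.
-/

set_option autoImplicit false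

open IsDedekindDomain NumberField AutomorphicForm MeasureTheory
open scoped MatrixGroups Topology

noncomputable section

namespace Fermat.Agent.LT.A2.H416

open Fermat.Agent.LT.H130 Fermat.Agent.LT.H556 Fermat.Agent.LT.A2 Fermat.Agent.LT.H470

/-- **A2.03.7.1 BESSEL-INV** (Mathlib only; differentiation under the integral sign).
`J(y) = ∫ A exp(-a y (p + q)) dμ`, `p q = 1`; if `∫ A exp(-a y (r⁻² p + r² q)) dμ = J(y)` for all
`r > 0` then `J` is twice differentiable on `y > 0` and `y J'' + J' - 4 a² y J = 0`.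
Proof: `hasDerivAt_integral_of_dominated_loc_of_deriv_le` four times
(`S^k e^{-a y S} ≤ C e^{-a y S / 2}`, `S = p + q`; for `|log r| ≤ δ`:
`r⁻² p + r² q ≥ e^{-2δ} S`), `G(s) = ∫ A exp(-a y (e^{-2s} p + e^{2s} q))` is constant so
`G''(0) = 0`, and `G''(0) = 4 y (y J'' + J' - 4 a² y J)` because `(q - p)² = S² - 4`. -/
def BesselInvC : Prop :=
  ∀ (X : Type) [MeasurableSpace X] (μ : Measure X) (a : ℝ), 0 < a →
  ∀ (A : X → ℂ) (p q : X → ℝ), AEStronglyMeasurable A μ → AEMeasurable p μ → AEMeasurable q μ →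
    (∀ᵐ m ∂μ, 0 < p m ∧ 0 < q m ∧ p m * q m = 1) →
    (∀ y : ℝ, 0 < y →
      Integrable (fun m => A m * Complex.exp (-((a * y * (p m + q m) : ℝ) : ℂ))) μ) →
    (∀ y : ℝ, 0 < y → ∀ r : ℝ, 0 < r →
      ∫ m, A m * Complex.exp (-((a * y * (r⁻¹ ^ 2 * p m + r ^ 2 * q m) : ℝ) : ℂ)) ∂μ
        = ∫ m, A m * Complex.exp (-((a * y * (p m + q m) : ℝ) : ℂ)) ∂μ) →
    ∃ J1 J2 : ℝ → ℂ,
      (∀ y : ℝ, 0 < y → HasDerivAt
        (fun y : ℝ => ∫ m, A m * Complex.exp (-((a * y * (p m + q m) : ℝ) : ℂ)) ∂μ) (J1 y) y) ∧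
      (∀ y : ℝ, 0 < y → HasDerivAt J1 (J2 y) y) ∧
      ∀ y : ℝ, 0 < y → (y : ℂ) * J2 y + J1 y
        - ((4 * a ^ 2 * y : ℝ) : ℂ)
          * (∫ m, A m * Complex.exp (-((a * y * (p m + q m) : ℝ) : ℂ)) ∂μ) = 0

/-- **A2.03.7.2 EIGEN-ODE** (Mathlib + `LT/H470/Chain.lean`; the general form of
`H802.eigenData_whit802`).  If `y J'' + J' - (b₁² + b₂²) y J = 0` on `y > 0` then
`(x₁, x₂, y) ↦ exp(i (b₁ x₁ + b₂ x₂)) · y J(y)` is a solution of the hyperbolic Laplace equation
(`H470.EigenData470`). -/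
def EigenOdeC : Prop :=
  ∀ (b₁ b₂ : ℝ) (J J1 J2 : ℝ → ℂ),
    (∀ y : ℝ, 0 < y → HasDerivAt J (J1 y) y) → (∀ y : ℝ, 0 < y → HasDerivAt J1 (J2 y) y) →
    (∀ y : ℝ, 0 < y →
      (y : ℂ) * J2 y + J1 y - ((b₁ ^ 2 + b₂ ^ 2 : ℝ) : ℂ) * (y : ℂ) * J y = 0) →
    ∃ (f' : E3 → E3 →L[ℝ] ℂ) (f'' : E3 → E3 →L[ℝ] E3 →L[ℝ] ℂ),
      EigenData470
        (fun p : E3 => Complex.exp (Complex.I * ((b₁ : ℂ) * (p.1 : ℂ) + (b₂ : ℂ) * (p.2.1 : ℂ)))
          * ((p.2.2 : ℂ) * J p.2.2)) f' f''

/-- **A2.03.7.3 ARCH-INV.**  The Whittaker function of good data is right invariant under the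
positive real scalars and the maximal compact subgroups at the infinite places
(`IsRightInv.arch_scalar`, `arch_compact`: `m_{g z} = m_g κ`, `χT κ = 1`, pointwise identity of
the integrands on `T¹`; outside `GL₂(𝔸)⁺` both sides vanish; `T¹` is closed by `T1Out.locComp`,
see `H971.isClosed_inTorus1_971`). -/
def ArchInvC : Prop :=
  ∀ (K : Type) [Field K] [NumberField K] (D : KData K), T1.T1Out K → D.Good →
    ∀ W : A0.G K → ℂ, D.IsWhit W →
      (∀ (w : InfinitePlace K) (z : A0.G K), A0.IsArchPosScalar w z →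
        ∀ g : A0.G K, W (g * z) = W g) ∧
      (∀ (w : InfinitePlace K) (k : A0.G K), A0.IsArchCompact w k →
        ∀ g : A0.G K, W (g * k) = W g)

/-- **A2.03.7.4 IWASAWA-GL2** (Mathlib + `LT/H556/T0/ArchIwasawa.lean` + `LT/H470/Mobius.lean`).
Every `M ∈ GL₂(ℂ)` is `[[y, x], [0, 1]] · ρ · u`, `y, ρ > 0`, `u` unitary, and `(x, y) = M • j`
(`H470.jpt`).  (`T0.iwasawa_eq` for `M / √(det M)`, `H470.jpt_smul470`; the phase of `√(det M)`
goes into `u`.) -/
def IwasawaGL2C : Prop :=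
  ∀ M : GL (Fin 2) ℂ, ∃ (x : ℂ) (y ρ : ℝ) (hy : 0 < y) (hρ : 0 < ρ) (u : GL (Fin 2) ℂ),
    (u : Matrix (Fin 2) (Fin 2) ℂ) * (u : Matrix (Fin 2) (Fin 2) ℂ).conjTranspose = 1 ∧
    M = T0.upperU x y hy.ne' * T0.scalarU ρ hρ.ne' * u ∧
    jpt (M : Matrix (Fin 2) (Fin 2) ℂ) = (x.re, x.im, y)

end Fermat.Agent.LT.A2.H416

end

end
-- ===== PACK-END LT/A2/H416/MeanSpec.lean

-- ===== PACK-BEGIN LT/A2/H352/LocNontriv.lean
section




/-!
# Row LT, tower A2, station A2.03.1.1 `DataC` -- ASSET `LocNontriv` (helper352)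

OFF-MAIN.  **The local components of a nontrivial character of `𝔸_K / K` are nontrivial**, at
EVERY place of the number field `K` (no hypothesis on `K`, unconditional):

* `locNontriv_fin352 : IsAdeleChar ψ → ∀ v, ∃ x, WL.AdlAtFin v x ∧ ψ x ≠ 1`
* `locNontriv_inf352 : IsAdeleChar ψ → ∀ u, ∃ x, WL.AdlAtInf u x ∧ ψ x ≠ 1`

Consumers: `WX467.LocBadC` / `LocBadOfRepC` (the hypothesis `IsCharL ψ_v` of `LocRepC` at the bad
places: `FinAt.psi` forces `ψ_v` to be the component of `ψ`), `WX467.LocCpxC` (`c ≠ 0` in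
`CpxAt.gauss`), `WX467.AsmC`.

Proof = strong approximation for the additive group, in the form that is needed
(`core352`): let `ψ` be trivial on `K` and on the adeles supported at the place `v₀`.
A neighbourhood of `0` on which `‖ψ - 1‖ < 1` contains a box `{‖z_w‖ < ε, z_f ∈ N ∏ 𝒪_v}`
(`exists_box352`; tube lemma for the compact `∏ 𝒪_v`, and the integers `P ^ n → 0` in every
neighbourhood of `0` of the finite adeles).  By Minkowski's theorem (helper629
`exists_minkowski629`, from Mathlib) there is `λ ∈ K^×` which is smaller than `ε / (B + 1)` at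
all infinite places and divisible by `N` at all finite places, EXCEPT at `v₀`
(`exists_small_inf352`; `exists_small_fin352`: `λ = N a / π ^ M`, `(π) = v₀ ^ h`, `h` the class
number).  Since `𝔸_K = K + adeleBox K` (helper767 `exists_sub_mem_adeleBox`), every adele is
`x = λ η + z + z₀` with `η ∈ K`, `z` in the box and `z₀` supported at `v₀`, so `‖ψ x - 1‖ < 1`
for ALL `x`; a subgroup of the unit circle inside `{‖z - 1‖ < 1}` is trivial
(`eq_one_of_pow_near352`).

Imports: Mathlib, `LT/A2/WeilLocal.lean` (vocabulary), and two files of the CLOSED tower T1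
(`LT/T1/H629/FujisakiMinkowski.lean`, `LT/H767/AdeleCocompact.lean`), byte-identical.
-/

set_option autoImplicit false

open IsDedekindDomain NumberField HeightOneSpectrum
open scoped Topology nonZeroDivisors

noncomputable section

namespace Fermat.Agent.LT.A2.H352

open Fermat.Agent.LT.H556 Fermat.Agent.LT.H767 Fermat.Agent.LT.A2

/-! ## 1. Subgroups of the circle -/

theorem re_of_near352 (w : ℂ) (hw : ‖w‖ = 1) (h : ‖w - 1‖ < 1) : 1 / 2 < w.re := by
  have h1 : ‖w - 1‖ ^ 2 < 1 := by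
    have := norm_nonneg (w - 1)
    nlinarith
  have h2 : ‖w‖ ^ 2 = 1 := by rw [hw]; norm_num
  rw [Complex.sq_norm, Complex.normSq_apply] at h1 h2
  simp only [Complex.sub_re, Complex.one_re, Complex.sub_im, Complex.one_im, sub_zero] at h1
  nlinarith

theorem eq_one_of_pow_near352 (z : ℂ) (hz : ‖z‖ = 1) (h : ∀ k : ℕ, ‖z ^ k - 1‖ < 1) : z = 1 := by
  have hnorm : ∀ k : ℕ, ‖z ^ k‖ = 1 := fun k => by rw [norm_pow, hz, one_pow]
  have hre : ∀ k : ℕ, 1 / 2 < (z ^ k).re := fun k => re_of_near352 _ (hnorm k) (h k)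
  have key : ∀ j : ℕ, (3 : ℝ) ^ j * (1 - z.re) ≤ 1 - (z ^ (2 ^ j)).re := by
    intro j
    induction j with
    | zero => simp
    | succ j ih =>
      set w := z ^ (2 ^ j) with hw
      have e : z ^ (2 ^ (j + 1)) = w * w := by
        rw [hw, ← pow_add]; congr 1; ring
      have hw1 : ‖w‖ ^ 2 = 1 := by rw [hnorm]; norm_num
      rw [Complex.sq_norm, Complex.normSq_apply] at hw1
      have hwre := hre (2 ^ j)
      rw [← hw] at hwre
      rw [e, Complex.mul_re, pow_succ]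
      have hle : w.re ≤ 1 := by nlinarith [sq_nonneg w.im]
      nlinarith
  have hz1 : 1 ≤ z.re := by
    by_contra hlt
    have hlt := not_le.mp hlt
    have hpos : 0 < 1 - z.re := by linarith
    obtain ⟨j, hj⟩ := pow_unbounded_of_one_lt (1 / (1 - z.re)) (by norm_num : (1 : ℝ) < 3)
    have h1 := key j
    have h2 := hre (2 ^ j)
    have h3 : 1 < (3 : ℝ) ^ j * (1 - z.re) := by
      rw [div_lt_iff₀ hpos] at hj
      exact hj
    linarith
  have h2 : ‖z‖ ^ 2 = 1 := by rw [hz]; norm_num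
  rw [Complex.sq_norm, Complex.normSq_apply] at h2
  have him : z.im = 0 := by
    have : z.im * z.im ≤ 0 := by nlinarith
    have h0 : z.im * z.im = 0 := le_antisymm this (mul_self_nonneg _)
    exact mul_self_eq_zero.mp h0
  have hre1 : z.re = 1 := by nlinarith
  apply Complex.ext <;> simp [hre1, him]

/-! ## 2. Boxes in the adele ring -/

variable (K : Type) [Field K] [NumberField K]

theorem norm_natCast_lt_one352 (v : HeightOneSpectrum (𝓞 K)) (m : ℕ)
    (hm : ((m : ℕ) : 𝓞 K) ∈ v.asIdeal) : ‖((m : ℕ) : v.adicCompletion K)‖ < 1 := by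
  have h := (FinitePlace.norm_lt_one_iff_mem K v ((m : ℕ) : 𝓞 K)).2 hm
  simpa using h

/-- The finite adeles as a restricted product (the definition of Mathlib, unfolded). -/
abbrev RP352 : Type :=
  RestrictedProduct (fun v : HeightOneSpectrum (𝓞 K) => v.adicCompletion K)
    (fun v => ((v.adicCompletionIntegers K : ValuationSubring (v.adicCompletion K)) :
      Set (v.adicCompletion K))) Filter.cofinite

theorem exists_nat_mem_nhds_aux352 (u : Set (RP352 K)) (hu : u ∈ 𝓝 (0 : RP352 K)) :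
    ∃ N : ℕ, 0 < N ∧ ((N : ℕ) : RP352 K) ∈ u := by
  classical
  have hopen : ∀ v : HeightOneSpectrum (𝓞 K),
      IsOpen ((v.adicCompletionIntegers K : Set (v.adicCompletion K))) :=
    fun v => Valued.isOpen_valuationSubring _
  have h0 := RestrictedProduct.nhds_zero_eq_map_structureMap
    (R := fun v : HeightOneSpectrum (𝓞 K) => v.adicCompletion K)
    (B := fun v => v.adicCompletionIntegers K) hopen
  have hu' : u ∈ 𝓝 (RestrictedProduct.structureMap
      (fun v : HeightOneSpectrum (𝓞 K) => v.adicCompletion K)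
      (fun v => ((v.adicCompletionIntegers K : ValuationSubring (v.adicCompletion K)) :
        Set (v.adicCompletion K))) Filter.cofinite 0) := hu
  rw [h0, Filter.mem_map, nhds_pi, Filter.mem_pi] at hu'
  obtain ⟨I, hI, t, ht, hsub⟩ := hu'
  set P : ℕ := ∏ v ∈ hI.toFinset, Ideal.absNorm v.asIdeal with hP
  have hPpos : 0 < P := by
    apply Finset.prod_pos
    intro v _
    have := one_lt_absNorm v
    omega
  have hPmem : ∀ v ∈ I, ((P : ℕ) : 𝓞 K) ∈ v.asIdeal := by
    intro v hv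
    obtain ⟨c, hc⟩ := Finset.dvd_prod_of_mem
      (fun v : HeightOneSpectrum (𝓞 K) => Ideal.absNorm v.asIdeal) (hI.mem_toFinset.2 hv)
    rw [hP, hc, Nat.cast_mul]
    exact Ideal.mul_mem_right _ _ (Ideal.absNorm_mem v.asIdeal)
  have hev : ∀ v ∈ hI.toFinset, ∀ᶠ n : ℕ in Filter.atTop,
      (⟨((P ^ n : ℕ) : v.adicCompletion K), natCast_mem _ _⟩ : v.adicCompletionIntegers K) ∈ t v := by
    intro v hv
    have hv' : v ∈ I := hI.mem_toFinset.1 hv
    have hlt := norm_natCast_lt_one352 K v P (hPmem v hv')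
    have htend := tendsto_pow_atTop_nhds_zero_of_norm_lt_one hlt
    have htend' : Filter.Tendsto (fun n : ℕ =>
        (⟨((P ^ n : ℕ) : v.adicCompletion K), natCast_mem _ _⟩ : v.adicCompletionIntegers K))
        Filter.atTop (𝓝 0) := by
      rw [tendsto_subtype_rng]
      simpa using htend
    exact htend' (ht v)
  rw [← Filter.eventually_all_finset] at hev
  obtain ⟨n, hn⟩ := hev.exists
  refine ⟨P ^ n, pow_pos hPpos n, ?_⟩
  have hmem : (fun v : HeightOneSpectrum (𝓞 K) =>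
      (⟨((P ^ n : ℕ) : v.adicCompletion K), natCast_mem _ _⟩ : v.adicCompletionIntegers K))
      ∈ I.pi t := fun v hv => hn v (hI.mem_toFinset.2 hv)
  have := hsub hmem
  exact this

/-- Every neighbourhood of `0` in the finite adeles contains a positive integer. -/
theorem exists_nat_mem_nhds352 (u : Set (FiniteAdeleRing (𝓞 K) K)) (hu : u ∈ 𝓝 0) :
    ∃ N : ℕ, 0 < N ∧ ((N : ℕ) : FiniteAdeleRing (𝓞 K) K) ∈ u :=
  exists_nat_mem_nhds_aux352 K u hu

theorem tube352 {X : Type*} [TopologicalSpace X] [Ring X] [IsTopologicalRing X]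
    (O : Set X) (hO : IsCompact O) (V : Set X) (hV : V ∈ 𝓝 (0 : X)) :
    ∃ u : Set X, u ∈ 𝓝 (0 : X) ∧ ∀ a ∈ u, ∀ y ∈ O, a * y ∈ V := by
  obtain ⟨W, hWV, hWo, h0W⟩ := mem_nhds_iff.1 hV
  have hn : IsOpen ((fun p : X × X => p.1 * p.2) ⁻¹' W) := hWo.preimage continuous_mul
  have hsub : ({0} : Set X) ×ˢ O ⊆ (fun p : X × X => p.1 * p.2) ⁻¹' W := by
    rintro ⟨a, y⟩ ⟨ha, -⟩
    have ha0 : a = 0 := ha
    show a * y ∈ W
    rw [ha0, zero_mul]
    exact h0W
  obtain ⟨u, v, huo, -, hu0, hv, huv⟩ := generalized_tube_lemma isCompact_singleton hO hn hsub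
  refine ⟨u, huo.mem_nhds (hu0 (Set.mem_singleton 0)), fun a ha y hy => hWV ?_⟩
  exact huv (Set.mk_mem_prod ha (hv hy))

theorem exists_nat_mul_mem352 (V : Set (FiniteAdeleRing (𝓞 K) K)) (hV : V ∈ 𝓝 0) :
    ∃ N : ℕ, 0 < N ∧ ∀ y : FiniteAdeleRing (𝓞 K) K, y ∈ integralAdeles K →
      ((N : ℕ) : FiniteAdeleRing (𝓞 K) K) * y ∈ V := by
  obtain ⟨u, hu, huV⟩ := tube352 (integralAdeles K) (isCompact_integralAdeles K) V hV
  obtain ⟨N, hN, hNu⟩ := exists_nat_mem_nhds352 K u hu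
  exact ⟨N, hN, fun y hy => huV _ hNu y hy⟩

theorem exists_ball352 (t₁ : Set ((w : InfinitePlace K) → w.Completion)) (ht₁ : t₁ ∈ 𝓝 0) :
    ∃ ε : ℝ, 0 < ε ∧ ∀ x : (w : InfinitePlace K) → w.Completion, (∀ w, ‖x w‖ < ε) → x ∈ t₁ := by
  classical
  rw [nhds_pi, Filter.mem_pi] at ht₁
  obtain ⟨I, -, t, ht, hIt⟩ := ht₁
  have hball : ∀ w : InfinitePlace K, ∃ ε : ℝ, 0 < ε ∧ Metric.ball (0 : w.Completion) ε ⊆ t w :=
    fun w => Metric.mem_nhds_iff.1 (ht w)
  choose ε hε hεt using hball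
  obtain ⟨w₀⟩ : Nonempty (InfinitePlace K) := inferInstance
  have hne : (Finset.univ : Finset (InfinitePlace K)).Nonempty := ⟨w₀, Finset.mem_univ _⟩
  refine ⟨Finset.univ.inf' hne ε, ?_, ?_⟩
  · rw [Finset.lt_inf'_iff]
    exact fun w _ => hε w
  · intro x hx
    apply hIt
    intro w _
    apply hεt w
    rw [Metric.mem_ball, dist_zero_right]
    exact lt_of_lt_of_le (hx w) (Finset.inf'_le _ (Finset.mem_univ w))

theorem exists_box_aux352 (V : Set (InfiniteAdeleRing K × FiniteAdeleRing (𝓞 K) K))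
    (hV : V ∈ 𝓝 ((0 : InfiniteAdeleRing K), (0 : FiniteAdeleRing (𝓞 K) K))) :
    ∃ (ε : ℝ) (N : ℕ), 0 < ε ∧ 0 < N ∧
      ∀ z : InfiniteAdeleRing K × FiniteAdeleRing (𝓞 K) K,
        (∀ w : InfinitePlace K, ‖z.1 w‖ < ε) →
        (∃ y : FiniteAdeleRing (𝓞 K) K, y ∈ integralAdeles K ∧
          z.2 = ((N : ℕ) : FiniteAdeleRing (𝓞 K) K) * y) → z ∈ V := by
  obtain ⟨t₁, ht₁, t₂, ht₂, hsub⟩ := mem_nhds_prod_iff.1 hV
  obtain ⟨ε, hε, hball⟩ := exists_ball352 K t₁ ht₁
  obtain ⟨N, hN, hNV⟩ := exists_nat_mul_mem352 K t₂ ht₂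
  refine ⟨ε, N, hε, hN, ?_⟩
  rintro ⟨z1, z2⟩ hz ⟨y, hy, hzy⟩
  have h1 : z1 ∈ t₁ := hball z1 hz
  have h2 : z2 ∈ t₂ := by
    have e : z2 = ((N : ℕ) : FiniteAdeleRing (𝓞 K) K) * y := hzy
    rw [e]
    exact hNV y hy
  exact hsub (Set.mk_mem_prod h1 h2)

/-- **Boxes**: every neighbourhood of `0` in the adele ring contains a box
`{‖z_w‖ < ε, z_f ∈ N ∏ 𝒪_v}`. -/
theorem exists_box352 (V : Set (A0.Adl K)) (hV : V ∈ 𝓝 0) :
    ∃ (ε : ℝ) (N : ℕ), 0 < ε ∧ 0 < N ∧ ∀ z : A0.Adl K, (∀ w : InfinitePlace K, ‖z.1 w‖ < ε) →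
      (∃ y : FiniteAdeleRing (𝓞 K) K, y ∈ integralAdeles K ∧
        z.2 = ((N : ℕ) : FiniteAdeleRing (𝓞 K) K) * y) → z ∈ V :=
  exists_box_aux352 K V hV

/-! ## 3. The core -/

variable {K}

theorem psi_zero352 {ψ : A0.Adl K → ℂ} (hψ : IsAdeleChar ψ) : ψ 0 = 1 := by
  have := hψ.triv 0
  rwa [map_zero] at this

theorem psi_nsmul352 {ψ : A0.Adl K → ℂ} (hψ : IsAdeleChar ψ) (x : A0.Adl K) (k : ℕ) :
    ψ (k • x) = ψ x ^ k := by
  induction k with
  | zero => rw [zero_smul, pow_zero]; exact psi_zero352 hψ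
  | succ k ih => rw [succ_nsmul, hψ.map_add, ih, pow_succ]

/-- **The core**: a character of `𝔸_K / K` which is trivial on a set `Z` is trivial, if for all
`ε`, `N` there is `lam ∈ K^×` which moves the compact box `adeleBox K` into
`Z + {‖z_w‖ < ε, z_f ∈ N ∏ 𝒪_v}`. -/
theorem core352 {ψ : A0.Adl K → ℂ} (hψ : IsAdeleChar ψ) (Z : Set (A0.Adl K))
    (hZ : ∀ z₀ ∈ Z, ψ z₀ = 1)
    (hstar : ∀ (ε : ℝ) (N : ℕ), 0 < ε → 0 < N → ∃ lam : K, lam ≠ 0 ∧
      ∀ y ∈ adeleBox K, ∃ z z₀ : A0.Adl K, algebraMap K (A0.Adl K) lam * y = z + z₀ ∧ z₀ ∈ Z ∧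
        (∀ w : InfinitePlace K, ‖z.1 w‖ < ε) ∧
        ∃ y' : FiniteAdeleRing (𝓞 K) K, y' ∈ integralAdeles K ∧
          z.2 = ((N : ℕ) : FiniteAdeleRing (𝓞 K) K) * y') : False := by
  have h0 := psi_zero352 hψ
  have hV : ψ ⁻¹' Metric.ball (1 : ℂ) 1 ∈ 𝓝 (0 : A0.Adl K) := by
    apply hψ.cont.continuousAt.preimage_mem_nhds
    rw [h0]
    exact Metric.ball_mem_nhds 1 one_pos
  obtain ⟨ε, N, hε, hN, hbox⟩ := exists_box352 K _ hV
  obtain ⟨lam, hlam, hmove⟩ := hstar ε N hε hN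
  have hnear : ∀ x : A0.Adl K, ‖ψ x - 1‖ < 1 := by
    intro x
    obtain ⟨η, hη⟩ := exists_sub_mem_adeleBox K (algebraMap K (A0.Adl K) lam⁻¹ * x)
    obtain ⟨z, z₀, hzz, hz₀, hzinf, hzfin⟩ := hmove _ hη
    have hx : x = z + z₀ + algebraMap K (A0.Adl K) (lam * η) := by
      rw [← hzz, mul_sub, ← mul_assoc, ← map_mul, mul_inv_cancel₀ hlam, map_one, one_mul,
        ← map_mul]
      ring
    have hz : z ∈ ψ ⁻¹' Metric.ball (1 : ℂ) 1 := hbox z hzinf hzfin
    rw [Set.mem_preimage, Metric.mem_ball, dist_eq_norm] at hz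
    rw [hx, hψ.map_add, hψ.map_add, hZ z₀ hz₀, hψ.triv, mul_one, mul_one]
    exact hz
  obtain ⟨x, hx⟩ := hψ.nontriv
  apply hx
  apply eq_one_of_pow_near352 _ (hψ.norm_one x)
  intro k
  rw [← psi_nsmul352 hψ]
  exact hnear _

/-! ## 4. Minkowski -/

variable (K)

/-- Minkowski: a nonzero integer which is small at all infinite places but one. -/
theorem exists_small_inf352 (u : InfinitePlace K) (c : ℝ) (hc : 0 < c) :
    ∃ a : 𝓞 K, a ≠ 0 ∧ ∀ w : InfinitePlace K, w ≠ u → w (a : K) < c := by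
  classical
  obtain ⟨C₀, hC₀, hM⟩ := Fermat.Agent.LT.T1.H629.exists_minkowski629 K
  set c₀ : ℝ := min 1 c with hc₀
  have hc₀pos : 0 < c₀ := lt_min one_pos hc
  have hc₀le : c₀ ≤ 1 := min_le_left _ _
  set n : ℕ := Module.finrank ℚ K with hn
  set R : ℝ := (C₀ + 1) / c₀ ^ n with hR
  have hpow_pos : 0 < c₀ ^ n := pow_pos hc₀pos n
  have hpow_le : c₀ ^ n ≤ 1 := pow_le_one₀ hc₀pos.le hc₀le
  have hR1 : 1 ≤ R := by
    rw [hR, le_div_iff₀ hpow_pos]
    linarith
  have hRpos : 0 < R := lt_of_lt_of_le one_pos hR1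
  set f : InfinitePlace K → ℝ := fun w => if w = u then R else c₀ with hf
  have hfpos : ∀ w, 0 < f w := by
    intro w
    simp only [hf]
    split_ifs
    · exact hRpos
    · exact hc₀pos
  have hprod : C₀ * (Ideal.absNorm (⊤ : Ideal (𝓞 K)) : ℝ) < ∏ w : InfinitePlace K, f w ^ w.mult := by
    rw [Ideal.absNorm_top, Nat.cast_one, mul_one, Fintype.prod_eq_mul_prod_compl u]
    have h1 : f u ^ u.mult = R ^ u.mult := by simp [hf]
    have h2 : ∏ w ∈ ({u}ᶜ : Finset (InfinitePlace K)), f w ^ w.mult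
        = c₀ ^ ∑ w ∈ ({u}ᶜ : Finset (InfinitePlace K)), w.mult := by
      rw [← Finset.prod_pow_eq_pow_sum]
      apply Finset.prod_congr rfl
      intro w hw
      have hwu : w ≠ u := by simpa using hw
      simp [hf, hwu]
    rw [h1, h2]
    have h3 : R ≤ R ^ u.mult := le_self_pow₀ hR1 (by
      have := InfinitePlace.mult_pos (w := u); omega)
    have h4 : ∑ w ∈ ({u}ᶜ : Finset (InfinitePlace K)), w.mult ≤ n := by
      rw [hn, ← InfinitePlace.sum_mult_eq]
      exact Finset.sum_le_sum_of_subset (Finset.subset_univ _)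
    have h5 : c₀ ^ n ≤ c₀ ^ ∑ w ∈ ({u}ᶜ : Finset (InfinitePlace K)), w.mult :=
      pow_le_pow_of_le_one hc₀pos.le hc₀le h4
    have h6 : R * c₀ ^ n = C₀ + 1 := by
      rw [hR]; field_simp
    calc C₀ < C₀ + 1 := by linarith
      _ = R * c₀ ^ n := h6.symm
      _ ≤ R ^ u.mult * c₀ ^ ∑ w ∈ ({u}ᶜ : Finset (InfinitePlace K)), w.mult :=
        mul_le_mul h3 h5 hpow_pos.le (le_trans hRpos.le h3)
  obtain ⟨a, -, ha0, haw⟩ := hM ⊤ (by simp) f hfpos hprod
  refine ⟨a, ha0, fun w hw => ?_⟩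
  have := haw w
  simp only [hf, if_neg hw] at this
  exact lt_of_lt_of_le this (min_le_right _ _)

/-- A power of the prime `v₀` is principal: a nonzero integer `π` whose only prime factor is
`v₀`, with `∏_w |π|_w^{mult} ≥ 2`. -/
theorem exists_prime_power_gen352 (v₀ : HeightOneSpectrum (𝓞 K)) :
    ∃ π : 𝓞 K, π ≠ 0 ∧ (∀ v : HeightOneSpectrum (𝓞 K), v ≠ v₀ → π ∉ v.asIdeal) ∧
      (2 : ℝ) ≤ ∏ w : InfinitePlace K, w (π : K) ^ w.mult := by
  classical
  set h : ℕ := Fintype.card (ClassGroup (𝓞 K)) with hh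
  have hpos : 0 < h := Fintype.card_pos
  have hI₀ : v₀.asIdeal ∈ (Ideal (𝓞 K))⁰ := mem_nonZeroDivisors_of_ne_zero v₀.ne_bot
  have hIh : v₀.asIdeal ^ h ∈ (Ideal (𝓞 K))⁰ := pow_mem hI₀ h
  have hcl : ClassGroup.mk0 ⟨v₀.asIdeal ^ h, hIh⟩ = 1 := by
    have : (⟨v₀.asIdeal ^ h, hIh⟩ : (Ideal (𝓞 K))⁰) = ⟨v₀.asIdeal, hI₀⟩ ^ h := rfl
    rw [this, map_pow, hh]
    exact pow_card_eq_one
  rw [ClassGroup.mk0_eq_one_iff] at hcl
  obtain ⟨π, hπ⟩ := hcl.principal
  have hspan : v₀.asIdeal ^ h = Ideal.span {π} := by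
    rw [hπ]
  have hπ0 : π ≠ 0 := by
    intro h0
    rw [h0, Ideal.span_singleton_eq_bot.2 rfl] at hspan
    exact pow_ne_zero h v₀.ne_bot hspan
  refine ⟨π, hπ0, ?_, ?_⟩
  · intro v hv hmem
    have h1 : v₀.asIdeal ^ h ≤ v.asIdeal := by
      rw [hspan, Ideal.span_singleton_le_iff_mem]
      exact hmem
    have h2 : v₀.asIdeal ≤ v.asIdeal := by
      have := v.isPrime
      exact Ideal.IsPrime.le_of_pow_le h1
    have h3 : v₀.asIdeal = v.asIdeal := v₀.isMaximal.eq_of_le v.isPrime.ne_top h2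
    exact hv (HeightOneSpectrum.ext h3.symm)
  · rw [InfinitePlace.prod_eq_abs_norm, ← Algebra.coe_norm_int]
    have h1 : Ideal.absNorm (Ideal.span {π}) = Ideal.absNorm v₀.asIdeal ^ h := by
      rw [← hspan, map_pow]
    rw [Ideal.absNorm_span_singleton] at h1
    have h2 : 2 ≤ Ideal.absNorm v₀.asIdeal ^ h := by
      have := one_lt_absNorm v₀
      calc 2 ≤ Ideal.absNorm v₀.asIdeal := by omega
        _ ≤ Ideal.absNorm v₀.asIdeal ^ h := Nat.le_self_pow hpos.ne' _
    rw [← h1] at h2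
    have h3 : (2 : ℤ) ≤ |(Algebra.norm ℤ) π| := by
      rw [← Int.natCast_natAbs]
      exact_mod_cast h2
    have h4 : (2 : ℚ) ≤ |(((Algebra.norm ℤ) π : ℤ) : ℚ)| := by
      rw [← Int.cast_abs]
      exact_mod_cast h3
    exact_mod_cast h4

/-- Minkowski: a nonzero integer `a` and a power `π ^ M` of an integer whose only prime factor is
`v₀` such that `a / π ^ M` is small at all infinite places. -/
theorem exists_small_fin352 (v₀ : HeightOneSpectrum (𝓞 K)) (c : ℝ) (hc : 0 < c) :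
    ∃ (a π : 𝓞 K) (M : ℕ), a ≠ 0 ∧ π ≠ 0 ∧
      (∀ v : HeightOneSpectrum (𝓞 K), v ≠ v₀ → π ∉ v.asIdeal) ∧
      ∀ w : InfinitePlace K, w (a : K) < c * w (π : K) ^ M := by
  classical
  obtain ⟨π, hπ0, hπv, hP⟩ := exists_prime_power_gen352 K v₀
  obtain ⟨C₀, hC₀, hM⟩ := Fermat.Agent.LT.T1.H629.exists_minkowski629 K
  set P : ℝ := ∏ w : InfinitePlace K, w (π : K) ^ w.mult with hPdef
  set n : ℕ := Module.finrank ℚ K with hn
  have hcn : 0 < c ^ n := pow_pos hc n
  obtain ⟨M, hMlt⟩ := pow_unbounded_of_one_lt (C₀ / c ^ n) (by linarith : (1 : ℝ) < P)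
  have hπK : (π : K) ≠ 0 := by simpa using hπ0
  have hwpos : ∀ w : InfinitePlace K, 0 < w (π : K) := fun w => InfinitePlace.pos_iff.2 hπK
  have hprod : ∏ w : InfinitePlace K, (c * w (π : K) ^ M) ^ w.mult = c ^ n * P ^ M := by
    simp_rw [mul_pow]
    rw [Finset.prod_mul_distrib, Finset.prod_pow_eq_pow_sum, InfinitePlace.sum_mult_eq, hPdef,
      ← Finset.prod_pow]
    congr 1
    apply Finset.prod_congr rfl
    intro w _
    rw [← pow_mul, ← pow_mul, mul_comm]
  obtain ⟨a, -, ha0, haw⟩ := hM ⊤ (by simp) (fun w => c * w (π : K) ^ M)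
    (fun w => mul_pos hc (pow_pos (hwpos w) M)) (by
      rw [Ideal.absNorm_top, Nat.cast_one, mul_one, hprod]
      rw [div_lt_iff₀ hcn] at hMlt
      linarith)
  exact ⟨a, π, M, ha0, hπ0, hπv, haw⟩

/-! ## 5. The two cases -/

variable {K}

/-- The finite part of a principal adele of an integer is integral. -/
theorem algebraMap_snd_mem352 (a : 𝓞 K) (v : HeightOneSpectrum (𝓞 K)) :
    (algebraMap K (A0.Adl K) (a : K)).2 v ∈ v.adicCompletionIntegers K :=
  coe_algebraMap_mem (𝓞 K) K v a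

theorem hstar_inf352 (u : InfinitePlace K) (ε : ℝ) (N : ℕ) (hε : 0 < ε) (hN : 0 < N) :
    ∃ lam : K, lam ≠ 0 ∧
      ∀ y ∈ adeleBox K, ∃ z z₀ : A0.Adl K, algebraMap K (A0.Adl K) lam * y = z + z₀ ∧
        WL.AdlAtInf u z₀ ∧ (∀ w : InfinitePlace K, ‖z.1 w‖ < ε) ∧
        ∃ y' : FiniteAdeleRing (𝓞 K) K, y' ∈ integralAdeles K ∧
          z.2 = ((N : ℕ) : FiniteAdeleRing (𝓞 K) K) * y' := by
  classical
  have hB := infBound_nonneg K
  have hNpos : (0 : ℝ) < N := by exact_mod_cast hN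
  set c : ℝ := ε / (N * (infBound K + 1)) with hc
  have hcpos : 0 < c := div_pos hε (mul_pos hNpos (by linarith))
  obtain ⟨a, ha0, haw⟩ := exists_small_inf352 K u c hcpos
  have haK : (a : K) ≠ 0 := by simpa using ha0
  have hNK : ((N : ℕ) : K) ≠ 0 := by exact_mod_cast hN.ne'
  refine ⟨(N : K) * (a : K), mul_ne_zero hNK haK, ?_⟩
  intro y hy
  set x : A0.Adl K := algebraMap K (A0.Adl K) ((N : K) * (a : K)) * y with hx
  set p : (w : InfinitePlace K) → w.Completion := fun w => x.1 w with hp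
  set z₀ : A0.Adl K := ((Pi.single u (p u) : (w : InfinitePlace K) → w.Completion), 0) with hz₀
  have hz₀1 : ∀ w, z₀.1 w = (Pi.single u (p u) : (w : InfinitePlace K) → w.Completion) w :=
    fun w => rfl
  refine ⟨x - z₀, z₀, (sub_add_cancel x z₀).symm, ?_, ?_, ?_⟩
  · refine ⟨fun w hw => ?_, fun v => rfl⟩
    rw [hz₀1]
    exact Pi.single_eq_of_ne hw _
  · intro w
    have e0 : (x - z₀).1 w = x.1 w - z₀.1 w := rfl
    rw [e0, hz₀1]
    by_cases hw : w = u
    · subst hw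
      rw [Pi.single_eq_same]
      have : x.1 w - p w = 0 := sub_self _
      rw [this, norm_zero]
      exact hε
    · rw [Pi.single_eq_of_ne hw, sub_zero]
      have e1 : x.1 w = (algebraMap K (A0.Adl K) ((N : K) * (a : K))).1 w * y.1 w := rfl
      rw [e1, norm_mul, Fermat.Agent.LT.T1.H629.norm_algebraMap_fst629, map_mul]
      have h1 : w ((N : ℕ) : K) = (N : ℝ) := by simp
      rw [h1]
      have h2 : ‖y.1 w‖ ≤ infBound K := hy.1 w
      have h3 : w (a : K) < c := haw w hw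
      have h4 : 0 ≤ w (a : K) := apply_nonneg _ _
      have h5 : (N : ℝ) * c * (infBound K + 1) = ε := by
        rw [hc]; field_simp
      calc (N : ℝ) * w (a : K) * ‖y.1 w‖ ≤ (N : ℝ) * w (a : K) * infBound K :=
            mul_le_mul_of_nonneg_left h2 (mul_nonneg hNpos.le h4)
        _ ≤ (N : ℝ) * c * infBound K :=
            mul_le_mul_of_nonneg_right (mul_le_mul_of_nonneg_left h3.le hNpos.le) hB
        _ < (N : ℝ) * c * (infBound K + 1) := by
            have : 0 < (N : ℝ) * c := mul_pos hNpos hcpos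
            nlinarith
        _ = ε := h5
  · refine ⟨(algebraMap K (A0.Adl K) (a : K)).2 * y.2, ?_, ?_⟩
    · intro v
      exact mul_mem (algebraMap_snd_mem352 a v) (hy.2 v)
    · have e0 : (x - z₀).2 = x.2 - z₀.2 := rfl
      have e1 : z₀.2 = 0 := rfl
      rw [e0, e1, sub_zero, hx, map_mul, map_natCast, mul_assoc]
      rfl

/-- **The component at an infinite place** of a nontrivial character of `𝔸_K / K` is
nontrivial. -/
theorem locNontriv_inf352 {ψ : A0.Adl K → ℂ} (hψ : IsAdeleChar ψ) (u : InfinitePlace K) :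
    ∃ x : A0.Adl K, WL.AdlAtInf u x ∧ ψ x ≠ 1 := by
  by_contra hcon
  push Not at hcon
  exact core352 hψ {x | WL.AdlAtInf u x} (fun z₀ hz₀ => hcon z₀ hz₀)
    (fun ε N hε hN => hstar_inf352 u ε N hε hN)

/-- `a / π ^ M` is integral at the places where `π` is a unit. -/
theorem valued_div_pow_le_one352 (a π : 𝓞 K) (M : ℕ) (v : HeightOneSpectrum (𝓞 K))
    (hπ : π ∉ v.asIdeal) :
    Valued.v (algebraMap K (v.adicCompletion K) ((a : K) / (π : K) ^ M)) ≤ 1 := by
  rw [Fermat.Agent.LT.H767.valued_algebraMap, map_div₀, map_pow, valuation_of_algebraMap,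
    valuation_of_algebraMap, intValuation_eq_one_iff.2 hπ, one_pow, div_one]
  exact intValuation_le_one v a

theorem hstar_fin352 (v₀ : HeightOneSpectrum (𝓞 K)) (ε : ℝ) (N : ℕ) (hε : 0 < ε) (hN : 0 < N) :
    ∃ lam : K, lam ≠ 0 ∧
      ∀ y ∈ adeleBox K, ∃ z z₀ : A0.Adl K, algebraMap K (A0.Adl K) lam * y = z + z₀ ∧
        WL.AdlAtFin v₀ z₀ ∧ (∀ w : InfinitePlace K, ‖z.1 w‖ < ε) ∧
        ∃ y' : FiniteAdeleRing (𝓞 K) K, y' ∈ integralAdeles K ∧
          z.2 = ((N : ℕ) : FiniteAdeleRing (𝓞 K) K) * y' := by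
  classical
  have hB := infBound_nonneg K
  have hNpos : (0 : ℝ) < N := by exact_mod_cast hN
  set c : ℝ := ε / (N * (infBound K + 1)) with hc
  have hcpos : 0 < c := div_pos hε (mul_pos hNpos (by linarith))
  obtain ⟨a, π, M, ha0, hπ0, hπv, haw⟩ := exists_small_fin352 K v₀ c hcpos
  have haK : (a : K) ≠ 0 := by simpa using ha0
  have hπK : (π : K) ≠ 0 := by simpa using hπ0
  have hNK : ((N : ℕ) : K) ≠ 0 := by exact_mod_cast hN.ne'
  set q : K := (a : K) / (π : K) ^ M with hq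
  have hq0 : q ≠ 0 := div_ne_zero haK (pow_ne_zero M hπK)
  refine ⟨(N : K) * q, mul_ne_zero hNK hq0, ?_⟩
  intro y hy
  set x : A0.Adl K := algebraMap K (A0.Adl K) ((N : K) * q) * y with hx
  have hint : ∀ v : HeightOneSpectrum (𝓞 K),
      (if v = v₀ then (0 : v.adicCompletion K)
        else algebraMap K (v.adicCompletion K) q * y.2 v) ∈ v.adicCompletionIntegers K := by
    intro v
    split_ifs with hv
    · exact zero_mem _
    · refine mul_mem ?_ (hy.2 v)
      rw [mem_adicCompletionIntegers]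
      exact valued_div_pow_le_one352 a π M v (hπv v hv)
  set y' : FiniteAdeleRing (𝓞 K) K :=
    ⟨fun v => if v = v₀ then (0 : v.adicCompletion K)
      else algebraMap K (v.adicCompletion K) q * y.2 v, Filter.Eventually.of_forall hint⟩ with hy'
  set z : A0.Adl K := (x.1, ((N : ℕ) : FiniteAdeleRing (𝓞 K) K) * y') with hz
  refine ⟨z, x - z, (add_sub_cancel z x).symm, ?_, ?_, ?_⟩
  · refine ⟨fun w => ?_, fun v hv => ?_⟩
    · have e0 : (x - z).1 w = x.1 w - z.1 w := rfl
      have e1 : z.1 w = x.1 w := rfl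
      rw [e0, e1, sub_self]
    · have e0 : (x - z).2 v = x.2 v - z.2 v := rfl
      have e1a : z.2 v = ((N : ℕ) : v.adicCompletion K) *
          (if v = v₀ then (0 : v.adicCompletion K)
            else algebraMap K (v.adicCompletion K) q * y.2 v) := rfl
      have e1 : z.2 v = ((N : ℕ) : v.adicCompletion K) *
          (algebraMap K (v.adicCompletion K) q * y.2 v) :=
        e1a.trans (congrArg (fun t => ((N : ℕ) : v.adicCompletion K) * t) (if_neg hv))
      have e2 : x.2 v = algebraMap K (v.adicCompletion K) ((N : K) * q) * y.2 v := rfl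
      rw [e0, e1, e2, map_mul, map_natCast, mul_assoc, sub_self]
  · intro w
    have e1 : z.1 w = (algebraMap K (A0.Adl K) ((N : K) * q)).1 w * y.1 w := rfl
    rw [e1, norm_mul, Fermat.Agent.LT.T1.H629.norm_algebraMap_fst629, map_mul, hq, map_div₀,
      map_pow]
    have h1 : w ((N : ℕ) : K) = (N : ℝ) := by simp
    rw [h1]
    have h2 : ‖y.1 w‖ ≤ infBound K := hy.1 w
    have hπw : 0 < w (π : K) ^ M := pow_pos (InfinitePlace.pos_iff.2 hπK) M
    have h3 : w (a : K) / w (π : K) ^ M < c := by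
      rw [div_lt_iff₀ hπw]
      exact haw w
    have h4 : 0 ≤ w (a : K) / w (π : K) ^ M := div_nonneg (apply_nonneg _ _) hπw.le
    have h5 : (N : ℝ) * c * (infBound K + 1) = ε := by
      rw [hc]; field_simp
    calc (N : ℝ) * (w (a : K) / w (π : K) ^ M) * ‖y.1 w‖
        ≤ (N : ℝ) * (w (a : K) / w (π : K) ^ M) * infBound K :=
          mul_le_mul_of_nonneg_left h2 (mul_nonneg hNpos.le h4)
      _ ≤ (N : ℝ) * c * infBound K :=
          mul_le_mul_of_nonneg_right (mul_le_mul_of_nonneg_left h3.le hNpos.le) hB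
      _ < (N : ℝ) * c * (infBound K + 1) := by
          have : 0 < (N : ℝ) * c := mul_pos hNpos hcpos
          nlinarith
      _ = ε := h5
  · exact ⟨y', hint, rfl⟩

/-- **The component at a finite place** of a nontrivial character of `𝔸_K / K` is
nontrivial. -/
theorem locNontriv_fin352 {ψ : A0.Adl K → ℂ} (hψ : IsAdeleChar ψ)
    (v : HeightOneSpectrum (𝓞 K)) : ∃ x : A0.Adl K, WL.AdlAtFin v x ∧ ψ x ≠ 1 := by
  by_contra hcon
  push Not at hcon
  exact core352 hψ {x | WL.AdlAtFin v x} (fun z₀ hz₀ => hcon z₀ hz₀)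
    (fun ε N hε hN => hstar_fin352 v ε N hε hN)

end Fermat.Agent.LT.A2.H352

end

end
-- ===== PACK-END LT/A2/H352/LocNontriv.lean

-- ===== PACK-BEGIN LT/A2/H426/TorusOpen.lean
section



/-!
# Row LT, tower A2, leaf A2.03.2 TORUS-OPEN (helper426): `torusOpenC426 : A2.WL.TorusOpenC`

OFF-MAIN.  UNCONDITIONAL, complete proof of the frozen Prop `Fermat.Agent.LT.A2.WL.TorusOpenC`
(`LT/A2/WeilLocal.lean` of helper950@17cdc7aa9, sha256 47318b3b2f2c1a81).

Reduction to the identity (`torus_open_core426`): `V' = m₀⁻¹ V` is a neighbourhood of `1`, the core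
gives a neighbourhood `W` of `1` in the ideles whose elements are norms of torus elements of `V'`,
and `U = {g | det g · (det m₀)⁻¹ ∈ W}` is a neighbourhood of `g₀` because `det` is continuous.
Only `t² ≠ 4n` is used of the irreducibility hypothesis.
-/

set_option autoImplicit false

open IsDedekindDomain NumberField
open scoped Topology

noncomputable section

namespace Fermat.Agent.LT.A2.H426

open Fermat.Agent.LT.H556 Fermat.Agent.LT.A2

/-- **Leaf A2.03.2 TORUS-OPEN.** -/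
theorem torusOpenC426 : Fermat.Agent.LT.A2.WL.TorusOpenC := by
  intro K _ _ t n hirr g₀ m₀ hadm V hV
  have hd : t ^ 2 - 4 * n ≠ 0 := by
    intro h
    apply hirr (t / 2)
    field_simp
    linear_combination -h
  have hV' : (fun m : A0.G K => m₀ * m) ⁻¹' V ∈ 𝓝 (1 : A0.G K) := by
    have hc : ContinuousAt (fun m : A0.G K => m₀ * m) 1 := (continuous_const_mul m₀).continuousAt
    apply hc.preimage_mem_nhds
    rw [mul_one]
    exact hV
  obtain ⟨W, hW, hWsol⟩ := torus_open_core426 K t n hd hV'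
  refine ⟨(fun g : A0.G K => Matrix.GeneralLinearGroup.det g
      * (Matrix.GeneralLinearGroup.det m₀)⁻¹) ⁻¹' W, ?_, ?_⟩
  · have hc : ContinuousAt (fun g : A0.G K => Matrix.GeneralLinearGroup.det g
        * (Matrix.GeneralLinearGroup.det m₀)⁻¹) g₀ := by
      have h1 : Continuous (Matrix.GeneralLinearGroup.det : A0.G K → (A0.Adl K)ˣ) :=
        Matrix.GeneralLinearGroup.continuous_det
      exact (h1.mul continuous_const).continuousAt
    apply hc.preimage_mem_nhds
    rw [hadm.2, mul_inv_cancel]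
    exact hW
  · intro g hg
    obtain ⟨m', hm'V, ⟨a, b, hab⟩, hdet⟩ := hWsol _ hg
    refine ⟨m₀ * m', hm'V, ?_, ?_⟩
    · obtain ⟨a₀, b₀, h₀⟩ := hadm.1
      refine ⟨a₀ * a - algebraMap K (A0.Adl K) n * b₀ * b,
        a₀ * b + b₀ * a + algebraMap K (A0.Adl K) t * b₀ * b, ?_⟩
      rw [Units.val_mul, h₀, hab]
      unfold torMat
      ext i j
      fin_cases i <;> fin_cases j
      · simp only [Matrix.mul_apply, Fin.sum_univ_two]
        simp
        ring
      · simp only [Matrix.mul_apply, Fin.sum_univ_two]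
        simp
        ring
      · simp only [Matrix.mul_apply, Fin.sum_univ_two]
        simp
        ring
      · simp only [Matrix.mul_apply, Fin.sum_univ_two]
        simp
        ring
    · have hdet' : Matrix.GeneralLinearGroup.det m'
          = Matrix.GeneralLinearGroup.det g * (Matrix.GeneralLinearGroup.det m₀)⁻¹ := hdet
      rw [map_mul, hdet', mul_comm (Matrix.GeneralLinearGroup.det g), ← mul_assoc,
        mul_inv_cancel, one_mul]

end Fermat.Agent.LT.A2.H426

end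

end
-- ===== PACK-END LT/A2/H426/TorusOpen.lean

-- ===== PACK-BEGIN LT/A2/H83/Gen.lean
section


/-!
# Row LT, tower A2, sub-leaf of A2.02: `GenC83` (helper83), OFF-MAIN

A quadratic extension `L / K` of number fields has an integral generator `ω`:
`ω² - t ω + n = 0`, `t, n ∈ 𝓞_K`, and `X² - t X + n` has no root in `K`.
-/

set_option autoImplicit false
set_option linter.unusedSectionVars false
set_option linter.unusedSimpArgs false
set_option linter.style.haveILetI false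

open IsDedekindDomain NumberField AutomorphicForm Polynomial
open scoped MatrixGroups

noncomputable section

namespace Fermat.Agent.LT.A2.H83

open Fermat.Agent.LT.H130 Fermat.Agent.LT.H556 Fermat.Agent.LT.A2

section

variable {K L : Type} [Field K] [NumberField K] [Field L] [NumberField L] [Algebra K L]

/-- A quadratic extension has an element outside the base field. -/
theorem exists_not_mem_range83 (h2 : Module.finrank K L = 2) :
    ∃ θ : L, θ ∉ (algebraMap K L).range := by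
  by_contra hcon
  push Not at hcon
  have hsurj : Function.Surjective (algebraMap K L) := fun x => by
    obtain ⟨y, hy⟩ := hcon x
    exact ⟨y, hy⟩
  have hbij : Function.Bijective (algebraMap K L) := ⟨(algebraMap K L).injective, hsurj⟩
  have h1 : Module.finrank K L = 1 := by
    have e : K ≃ₗ[K] L := LinearEquiv.ofBijective (Algebra.linearMap K L) hbij
    rw [← e.finrank_eq, Module.finrank_self]
  omega

/-- The same with an algebraic integer. -/
theorem exists_integral_not_mem_range83 (h2 : Module.finrank K L = 2) :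
    ∃ ω : L, IsIntegral ℤ ω ∧ ω ∉ (algebraMap K L).range := by
  obtain ⟨θ, hθ⟩ := exists_not_mem_range83 h2
  have halg : IsAlgebraic ℤ θ := by
    have : IsAlgebraic ℚ θ := Algebra.IsAlgebraic.isAlgebraic θ
    exact (IsFractionRing.isAlgebraic_iff ℤ ℚ L).mpr this
  obtain ⟨d, hd, hint⟩ := halg.exists_integral_multiple
  refine ⟨d • θ, hint, ?_⟩
  rintro ⟨y, hy⟩
  apply hθ
  have hdK : (d : K) ≠ 0 := Int.cast_ne_zero.mpr hd
  refine ⟨y / (d : K), ?_⟩
  rw [map_div₀, hy, zsmul_eq_mul, map_intCast]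
  have hdL : (d : L) ≠ 0 := Int.cast_ne_zero.mpr hd
  field_simp

end

/-- **GEN** (helper83), VERBATIM. -/
theorem genC_h83 : GenC83 := by
  intro K L _ _ _ _ _ h2
  obtain ⟨ω, hω, hωK⟩ := exists_integral_not_mem_range83 h2
  haveI : FiniteDimensional K L := Module.finite_of_finrank_pos (by omega)
  have hωintK : IsIntegral K ω := hω.tower_top
  set p : K[X] := minpoly K ω with hp
  have hmonic : p.Monic := minpoly.monic hωintK
  -- the degree is two
  have hdeg : p.natDegree = 2 := by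
    have hle : p.natDegree ≤ 2 := h2 ▸ minpoly.natDegree_le ω
    have hpos : 0 < p.natDegree := minpoly.natDegree_pos hωintK
    have hne1 : p.natDegree ≠ 1 := fun h => hωK (minpoly.natDegree_eq_one_iff.mp h)
    omega
  -- integrality of the coefficients
  have hω𝓞 : IsIntegral (𝓞 K) ω := hω.tower_top
  have hpmap : p = (minpoly (𝓞 K) ω).map (algebraMap (𝓞 K) K) :=
    minpoly.isIntegrallyClosed_eq_field_fractions' K hω𝓞
  have hcoeff : ∀ i : ℕ, IsIntegral ℤ (p.coeff i) := by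
    intro i
    rw [hpmap, coeff_map]
    exact RingOfIntegers.isIntegral_coe _
  -- the relation
  have hexp : p = X ^ 2 + C (p.coeff 1) * X + C (p.coeff 0) := by
    have h := hmonic.as_sum
    rw [hdeg] at h
    rw [h]
    simp [Finset.sum_range_succ, coeff_X_pow, coeff_C_mul, coeff_X, coeff_C]
    ring
  have hrel : ω ^ 2 + algebraMap K L (p.coeff 1) * ω + algebraMap K L (p.coeff 0) = 0 := by
    have h0 : aeval ω p = 0 := minpoly.aeval K ω
    rw [hexp] at h0
    simpa using h0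
  refine ⟨-p.coeff 1, p.coeff 0, ω, ⟨(hcoeff 1).neg, hcoeff 0, hω, ?_, ?_⟩⟩
  · rw [map_neg]
    linear_combination hrel
  · intro x hx
    have hroot : p.IsRoot x := by
      rw [IsRoot.def, hexp]
      simp only [eval_add, eval_mul, eval_pow, eval_X, eval_C]
      linear_combination hx
    have h1 := degree_eq_one_of_irreducible_of_root (minpoly.irreducible hωintK) hroot
    have h2' : p.degree = 2 := by
      rw [degree_eq_natDegree hmonic.ne_zero, hdeg]
      rfl
    rw [h2'] at h1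
    exact absurd h1 (by decide)

end Fermat.Agent.LT.A2.H83

end

end
-- ===== PACK-END LT/A2/H83/Gen.lean

-- ===== PACK-BEGIN LT/H129/SplitClosed.lean
section







/-!
# Row LT, tower T3, leaf T3.18a.4.5 `N893.SplitC` (owner helper129): CLOSED -- OFF-MAIN

    splitC129 K : N893.SplitC K            (VERBATIM, UNCONDITIONAL)

from the top `splitC_of_leaves129` (`SplitTop.lean`) and the five leaves of the cut
(`SplitSpec.lean`), byte-identical copies of the authors' files: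

* S1 `SplitOpenC129`    : `T3.H497.splitOpenC497`     (helper497, registry row 1500)
* S2 `SplitSectionC129` : `T3.H322.splitSectionC322`  (helper322, registry row 1501)
* S3 `SplitBoxC129`     : `T3.H250.splitBoxC250`      (helper250, registry row 1502)
* S4 `SplitHaarC129`    : `T3.H904.splitHaar_of904`   (helper904, registry row 1503)
* M2 `ProdHaarC129`     : `T3.H800.prodHaarC800`      (helper800, registry row 1504)
-/

set_option autoImplicit false

open IsDedekindDomain NumberField MeasureTheory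
open Fermat.Agent.LT.H556.A0 Fermat.Agent.LT.T3.AS Fermat.Agent.LT.T3.AS.N893

noncomputable section

namespace Fermat.Agent.LT.H129

variable (K : Type) [Field K] [NumberField K]

/-- S4, unconditional. -/
theorem splitHaarC129 : SplitHaarC129 K :=
  Fermat.Agent.LT.T3.H904.splitHaar_of904 K
    (Fermat.Agent.LT.T3.H497.splitOpenC497 K)
    (Fermat.Agent.LT.T3.H322.splitSectionC322 K)
    (Fermat.Agent.LT.T3.H250.splitBoxC250 K)

/-- **T3.18a.4.5 = N.5 `SplitC`**, unconditional. -/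
theorem splitC129 : N893.SplitC K :=
  splitC_of_leaves129 K (splitHaarC129 K) Fermat.Agent.LT.T3.H800.prodHaarC800

end Fermat.Agent.LT.H129

end

end
-- ===== PACK-END LT/H129/SplitClosed.lean

-- ===== PACK-BEGIN LT/T1/H729/Red/HeightBound.lean
section





/-!
# Row LT, tower T1, leaf T1.14 (helper729): the height of `γ g` from a small row

OFF-MAIN.  `height_lower_bound729` : if `g = b k`, `γ ∈ GL₂(K)` has bottom row `(c, d)` with
`c b₀₀` and `c b₀₁ + d b₁₁` in the box of size `2 lam`, and `γ g = b' k'`, then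
`‖b₀₀‖ ‖b₁₁‖ / (4 lam) ^ (2 n) ≤ ‖b'₀₀‖ / ‖b'₁₁‖`.
-/

set_option autoImplicit false

open IsDedekindDomain NumberField MeasureTheory
open Fermat.Agent.LT.H556.A0

noncomputable section

namespace Fermat.Agent.LT.T1.H729

set_option linter.unusedSectionVars false

variable (K : Type) [Field K] [NumberField K]

/-- Multiplicativity of the module on elements known to be units. -/
theorem adNorm_mul_isUnit729 {x y : Adl K} (hx : IsUnit x) (hy : IsUnit y) :
    Fermat.Agent.LT.T1.adNorm K (x * y) =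
      Fermat.Agent.LT.T1.adNorm K x * Fermat.Agent.LT.T1.adNorm K y := by
  obtain ⟨ux, rfl⟩ := hx
  obtain ⟨uy, rfl⟩ := hy
  rw [← Units.val_mul]
  exact adNorm_mul729 K ux uy

/-- Product formula for a non-zero element of `K`. -/
theorem adNorm_algebraMap729 {ξ : K} (hξ : ξ ≠ 0) :
    Fermat.Agent.LT.T1.adNorm K (algebraMap K (Adl K) ξ) = 1 :=
  adNorm_ratUnit729 K (Units.mk0 ξ hξ)

theorem isUnit_algebraMap729 {ξ : K} (hξ : ξ ≠ 0) : IsUnit (algebraMap K (Adl K) ξ) :=
  (Units.mk0 ξ hξ).isUnit.map (algebraMap K (Adl K))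

/-- The matrix of `ratG γ`. -/
theorem ratG_apply729 (γ : GL (Fin 2) K) (i j : Fin 2) :
    ((Fermat.Agent.LT.T1.ratG K γ : G K) : Matrix (Fin 2) (Fin 2) (Adl K)) i j =
      algebraMap K (Adl K) ((γ : Matrix (Fin 2) (Fin 2) K) i j) := rfl

theorem det_ratG729 (γ : GL (Fin 2) K) :
    Matrix.det ((Fermat.Agent.LT.T1.ratG K γ : G K) : Matrix (Fin 2) (Fin 2) (Adl K)) =
      algebraMap K (Adl K) (Matrix.det (γ : Matrix (Fin 2) (Fin 2) K)) := by
  rw [Matrix.det_fin_two, Matrix.det_fin_two]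
  simp only [ratG_apply729, map_sub, map_mul]

/-- Entries of an element of `K⁰` have norm at most one at the infinite places. -/
theorem norm_entry_inf_le_one729 {κ : G K} (hκ : Fermat.Agent.LT.T1.IsStdCompact K κ)
    (w : InfinitePlace K) (i j : Fin 2) :
    ‖((κ : Matrix (Fin 2) (Fin 2) (Adl K)) i j).1 w‖ ≤ 1 := by
  rw [norm_eq_norm_extEmb729]
  exact norm_entry_unitary_le_one729 (infComp w κ) (hκ.2 w).1 i j

/-- **The height bound.** -/
theorem height_lower_bound729 (g b k : G K) (hb : Fermat.Agent.LT.T1.IsUpper K b)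
    (hk : Fermat.Agent.LT.T1.IsStdCompact K k) (hg : g = b * k)
    (γ : GL (Fin 2) K) (lam : ℝ) (hlam : 0 < lam)
    (hbox1 : InBox729 K (2 * lam)
      (algebraMap K (Adl K) ((γ : Matrix (Fin 2) (Fin 2) K) 1 0) *
        (b : Matrix (Fin 2) (Fin 2) (Adl K)) 0 0))
    (hbox2 : InBox729 K (2 * lam)
      (algebraMap K (Adl K) ((γ : Matrix (Fin 2) (Fin 2) K) 1 0) *
          (b : Matrix (Fin 2) (Fin 2) (Adl K)) 0 1 +
        algebraMap K (Adl K) ((γ : Matrix (Fin 2) (Fin 2) K) 1 1) *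
          (b : Matrix (Fin 2) (Fin 2) (Adl K)) 1 1))
    (b' k' : G K) (hb' : Fermat.Agent.LT.T1.IsUpper K b')
    (hk' : Fermat.Agent.LT.T1.IsStdCompact K k')
    (hg' : Fermat.Agent.LT.T1.ratG K γ * g = b' * k') :
    Fermat.Agent.LT.T1.adNorm K ((b : Matrix (Fin 2) (Fin 2) (Adl K)) 0 0) *
        Fermat.Agent.LT.T1.adNorm K ((b : Matrix (Fin 2) (Fin 2) (Adl K)) 1 1) /
        (4 * lam) ^ (2 * Module.finrank ℚ K) ≤
      Fermat.Agent.LT.T1.adNorm K ((b' : Matrix (Fin 2) (Fin 2) (Adl K)) 0 0) /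
        Fermat.Agent.LT.T1.adNorm K ((b' : Matrix (Fin 2) (Fin 2) (Adl K)) 1 1) := by
  set n := Module.finrank ℚ K with hn
  obtain ⟨hU₁, hU₂⟩ := isUnit_diag_of_isUpper729 K hb
  obtain ⟨hU₁', hU₂'⟩ := isUnit_diag_of_isUpper729 K hb'
  have hb10 : (b : Matrix (Fin 2) (Fin 2) (Adl K)) 1 0 = 0 := hb
  -- `κ = k k'⁻¹` and `b' = ratG γ * b * κ`
  set κ : G K := k * k'⁻¹ with hκdef
  have hκ : Fermat.Agent.LT.T1.IsStdCompact K κ :=
    isStdCompact_mul729 K hk (isStdCompact_inv729 K hk')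
  have hb'eq : b' = Fermat.Agent.LT.T1.ratG K γ * b * κ := by
    rw [hκdef, ← mul_assoc, mul_assoc (Fermat.Agent.LT.T1.ratG K γ) b k, ← hg, hg',
      mul_inv_cancel_right]
  -- the bottom row of `ratG γ * b`
  set ρ₁ : Adl K := algebraMap K (Adl K) ((γ : Matrix (Fin 2) (Fin 2) K) 1 0) *
    (b : Matrix (Fin 2) (Fin 2) (Adl K)) 0 0 with hρ₁
  set ρ₂ : Adl K := algebraMap K (Adl K) ((γ : Matrix (Fin 2) (Fin 2) K) 1 0) *
      (b : Matrix (Fin 2) (Fin 2) (Adl K)) 0 1 +
    algebraMap K (Adl K) ((γ : Matrix (Fin 2) (Fin 2) K) 1 1) *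
      (b : Matrix (Fin 2) (Fin 2) (Adl K)) 1 1 with hρ₂
  have hb'11 : (b' : Matrix (Fin 2) (Fin 2) (Adl K)) 1 1 =
      ρ₁ * (κ : Matrix (Fin 2) (Fin 2) (Adl K)) 0 1 +
        ρ₂ * (κ : Matrix (Fin 2) (Fin 2) (Adl K)) 1 1 := by
    rw [hb'eq, Units.val_mul, Units.val_mul, Matrix.mul_apply, Fin.sum_univ_two,
      Matrix.mul_apply, Fin.sum_univ_two, Matrix.mul_apply, Fin.sum_univ_two]
    simp only [ratG_apply729, hb10, mul_zero, add_zero]
    rfl
  -- the bound for `‖b'₁₁‖`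
  obtain ⟨U₂', hU₂'eq⟩ := hU₂'
  have hq : Fermat.Agent.LT.T1.adNorm K ((b' : Matrix (Fin 2) (Fin 2) (Adl K)) 1 1) ≤
      (4 * lam) ^ n := by
    rw [← hU₂'eq]
    refine adNorm_le_pow729 K U₂' (4 * lam) (fun v => ?_) (fun w => ?_)
    · rw [hU₂'eq, hb'11]
      apply norm_fin_le_one729
      have e : (ρ₁ * (κ : Matrix (Fin 2) (Fin 2) (Adl K)) 0 1 +
          ρ₂ * (κ : Matrix (Fin 2) (Fin 2) (Adl K)) 1 1).2 v =
          ρ₁.2 v * ((κ : Matrix (Fin 2) (Fin 2) (Adl K)) 0 1).2 v +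
            ρ₂.2 v * ((κ : Matrix (Fin 2) (Fin 2) (Adl K)) 1 1).2 v := by
        have := map_add (projFin729 v) (ρ₁ * (κ : Matrix (Fin 2) (Fin 2) (Adl K)) 0 1)
          (ρ₂ * (κ : Matrix (Fin 2) (Fin 2) (Adl K)) 1 1)
        rw [map_mul, map_mul] at this
        exact this
      rw [e]
      exact add_mem (mul_mem (hbox1.1 v) ((hκ.1 v).1 0 1)) (mul_mem (hbox2.1 v) ((hκ.1 v).1 1 1))
    · rw [hU₂'eq, hb'11]
      have e : (ρ₁ * (κ : Matrix (Fin 2) (Fin 2) (Adl K)) 0 1 +
          ρ₂ * (κ : Matrix (Fin 2) (Fin 2) (Adl K)) 1 1).1 w =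
          ρ₁.1 w * ((κ : Matrix (Fin 2) (Fin 2) (Adl K)) 0 1).1 w +
            ρ₂.1 w * ((κ : Matrix (Fin 2) (Fin 2) (Adl K)) 1 1).1 w := by
        have := map_add (projInf729 w) (ρ₁ * (κ : Matrix (Fin 2) (Fin 2) (Adl K)) 0 1)
          (ρ₂ * (κ : Matrix (Fin 2) (Fin 2) (Adl K)) 1 1)
        rw [map_mul, map_mul] at this
        exact this
      rw [e]
      have hκ01 := norm_entry_inf_le_one729 K hκ w 0 1
      have hκ11 := norm_entry_inf_le_one729 K hκ w 1 1
      have hρ₁w := (hbox1.2 w).le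
      have hρ₂w := (hbox2.2 w).le
      calc ‖ρ₁.1 w * ((κ : Matrix (Fin 2) (Fin 2) (Adl K)) 0 1).1 w +
            ρ₂.1 w * ((κ : Matrix (Fin 2) (Fin 2) (Adl K)) 1 1).1 w‖
          ≤ ‖ρ₁.1 w * ((κ : Matrix (Fin 2) (Fin 2) (Adl K)) 0 1).1 w‖ +
            ‖ρ₂.1 w * ((κ : Matrix (Fin 2) (Fin 2) (Adl K)) 1 1).1 w‖ := norm_add_le _ _
        _ = ‖ρ₁.1 w‖ * ‖((κ : Matrix (Fin 2) (Fin 2) (Adl K)) 0 1).1 w‖ +
            ‖ρ₂.1 w‖ * ‖((κ : Matrix (Fin 2) (Fin 2) (Adl K)) 1 1).1 w‖ := by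
            rw [norm_mul, norm_mul]
        _ ≤ 2 * lam * 1 + 2 * lam * 1 :=
            add_le_add (mul_le_mul hρ₁w hκ01 (norm_nonneg _) (by positivity))
              (mul_le_mul hρ₂w hκ11 (norm_nonneg _) (by positivity))
        _ = 4 * lam := by ring
  -- the determinant relation
  have hγdet : Matrix.det (γ : Matrix (Fin 2) (Fin 2) K) ≠ 0 :=
    ((Matrix.isUnit_iff_isUnit_det _).mp γ.isUnit).ne_zero
  have hdetk : IsUnit (Matrix.det (k : Matrix (Fin 2) (Fin 2) (Adl K))) :=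
    (Matrix.isUnit_iff_isUnit_det _).mp k.isUnit
  have hdetk' : IsUnit (Matrix.det (k' : Matrix (Fin 2) (Fin 2) (Adl K))) :=
    (Matrix.isUnit_iff_isUnit_det _).mp k'.isUnit
  have hdet : algebraMap K (Adl K) (Matrix.det (γ : Matrix (Fin 2) (Fin 2) K)) *
      (((b : Matrix (Fin 2) (Fin 2) (Adl K)) 0 0 * (b : Matrix (Fin 2) (Fin 2) (Adl K)) 1 1) *
        Matrix.det (k : Matrix (Fin 2) (Fin 2) (Adl K))) =
      ((b' : Matrix (Fin 2) (Fin 2) (Adl K)) 0 0 * (b' : Matrix (Fin 2) (Fin 2) (Adl K)) 1 1) *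
        Matrix.det (k' : Matrix (Fin 2) (Fin 2) (Adl K)) := by
    have h := congrArg (fun x : G K => Matrix.det (x : Matrix (Fin 2) (Fin 2) (Adl K))) hg'
    simp only [Units.val_mul, Matrix.det_mul] at h
    rw [hg, Units.val_mul, Matrix.det_mul, det_ratG729, det_of_isUpper729 K hb,
      det_of_isUpper729 K hb'] at h
    exact h
  have hnorm := congrArg (Fermat.Agent.LT.T1.adNorm K) hdet
  rw [adNorm_mul_isUnit729 K (isUnit_algebraMap729 K hγdet) ((hU₁.mul hU₂).mul hdetk),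
    adNorm_mul_isUnit729 K (hU₁.mul hU₂) hdetk, adNorm_mul_isUnit729 K hU₁ hU₂,
    adNorm_mul_isUnit729 K (hU₁'.mul ⟨U₂', hU₂'eq⟩) hdetk',
    adNorm_mul_isUnit729 K hU₁' ⟨U₂', hU₂'eq⟩, adNorm_algebraMap729 K hγdet,
    adNorm_det_stdCompact729 K hk, adNorm_det_stdCompact729 K hk', one_mul, mul_one, mul_one]
    at hnorm
  -- conclusion
  have hqpos : 0 < Fermat.Agent.LT.T1.adNorm K ((b' : Matrix (Fin 2) (Fin 2) (Adl K)) 1 1) := by
    rw [← hU₂'eq]
    exact adNorm_pos729 K U₂'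
  have hP₁ : 0 < Fermat.Agent.LT.T1.adNorm K ((b : Matrix (Fin 2) (Fin 2) (Adl K)) 0 0) := by
    obtain ⟨U, hU⟩ := hU₁
    rw [← hU]
    exact adNorm_pos729 K U
  have hP₂ : 0 < Fermat.Agent.LT.T1.adNorm K ((b : Matrix (Fin 2) (Fin 2) (Adl K)) 1 1) := by
    obtain ⟨U, hU⟩ := hU₂
    rw [← hU]
    exact adNorm_pos729 K U
  set q := Fermat.Agent.LT.T1.adNorm K ((b' : Matrix (Fin 2) (Fin 2) (Adl K)) 1 1) with hqdef
  set p := Fermat.Agent.LT.T1.adNorm K ((b' : Matrix (Fin 2) (Fin 2) (Adl K)) 0 0) with hpdef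
  have hp : p = Fermat.Agent.LT.T1.adNorm K ((b : Matrix (Fin 2) (Fin 2) (Adl K)) 0 0) *
      Fermat.Agent.LT.T1.adNorm K ((b : Matrix (Fin 2) (Fin 2) (Adl K)) 1 1) / q := by
    rw [hnorm]
    field_simp
  rw [hp, div_div]
  have h4 : 0 < (4 * lam) ^ n := by positivity
  have hqq : q * q ≤ (4 * lam) ^ (2 * n) := by
    rw [two_mul, pow_add]
    exact mul_le_mul hq hq hqpos.le h4.le
  exact div_le_div_of_nonneg_left (mul_pos hP₁ hP₂).le (mul_pos hqpos hqpos) hqq

end Fermat.Agent.LT.T1.H729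

end
end
-- ===== PACK-END LT/T1/H729/Red/HeightBound.lean

-- ===== PACK-BEGIN LT/T2/H255/UnramTorus.lean
section


/-!
# Row LT, tower T2, station T2.10 (SMO), leaf T2.10.07 `UnramTorusC` (helper255)

OFF-MAIN.  `unramTorusC255 K : T2.H941.UnramTorusC K` (UNCONDITIONAL) and
`leaf07_255 K : T2.H941.Leaf07 K`, VERBATIM against `LT/T2/H941/SmoSpec.lean` (helper941).

With `m = d - log |y|_v`: the Whittaker coefficient on the torus at `v` is `λ_m` times its value
at the conductor point, `λ_m = 0` for `m < 0`, `λ_0 = 1`, `q λ_{m+1} = √q a λ_m - b λ_{m-1}`.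
-/

set_option autoImplicit false

open IsDedekindDomain NumberField MeasureTheory AutomorphicForm
open IsDedekindDomain.HeightOneSpectrum
open Fermat.Agent.LT.H556.A0
open scoped MatrixGroups

noncomputable section

namespace Fermat.Agent.LT.T2.H255

open Fermat.Agent.LT Fermat.Agent.LT.T2.H941 Fermat.Agent.LT.H129

attribute [local instance] borelAdl255 borelSpaceAdl255

variable {K : Type} [Field K] [NumberField K] (v : HeightOneSpectrum (𝓞 K))

/-! ## 1. The recursion -/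

/-- The pair `(λ_m, λ_{m-1})`. -/
def lamPair255 (q s a b : ℂ) : ℕ → ℂ × ℂ
  | 0 => (1, 0)
  | m + 1 => ((s * a * (lamPair255 q s a b m).1 - b * (lamPair255 q s a b m).2) / q,
      (lamPair255 q s a b m).1)

/-- The function `λ` of `UnramTorusC`, as a function of `log |y|_v`. -/
def lam255 (d : ℤ) (a b : ℂ) (n : ℤ) : ℂ :=
  if n ≤ d then
    (lamPair255 (Ideal.absNorm v.asIdeal : ℂ)
      ((Real.sqrt (Ideal.absNorm v.asIdeal : ℝ) : ℝ) : ℂ) a b (d - n).toNat).1
  else 0

theorem lam255_self (d : ℤ) (a b : ℂ) : lam255 v d a b d = 1 := by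
  unfold lam255
  rw [if_pos le_rfl, sub_self, Int.toNat_zero]
  rfl

theorem absNorm_ne_zero255 : (Ideal.absNorm v.asIdeal : ℂ) ≠ 0 := by
  have h := NumberField.HeightOneSpectrum.one_lt_absNorm v
  have : Ideal.absNorm v.asIdeal ≠ 0 := by omega
  exact_mod_cast this

/-! ## 2. Valuations -/

theorem valued_mul_unif255 {π a : v.adicCompletion K}
    (hπ : Valued.v π = WithZero.exp (-1 : ℤ)) {n : ℤ} (ha : Valued.v a = WithZero.exp n) :
    Valued.v (a * π) = WithZero.exp (n - 1) := by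
  rw [map_mul, ha, hπ, ← WithZero.exp_add]
  rfl

theorem valued_mul_unif_inv255 {π a : v.adicCompletion K}
    (hπ : Valued.v π = WithZero.exp (-1 : ℤ)) {n : ℤ} (ha : Valued.v a = WithZero.exp n) :
    Valued.v (a * π⁻¹) = WithZero.exp (n + 1) := by
  rw [map_mul, map_inv₀, ha, hπ, ← WithZero.exp_neg, ← WithZero.exp_add]
  simp

/-! ## 3. The character sum -/

section Sum

variable {v}
variable {ψ : AddChar (Adl K) Circle}

theorem charSum255 [Fintype (𝓞 K ⧸ v.asIdeal)] {d : ℤ} (hd : IsCondExp ψ v d)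
    {a : v.adicCompletion K} (ha : Valued.v a ≤ WithZero.exp d) :
    (∑ c : 𝓞 K ⧸ v.asIdeal, ((ψ (locAd255 v (a * rep129 v c)) : Circle) : ℂ))
      = (Ideal.absNorm v.asIdeal : ℂ) := by
  have h1 : ∀ c : 𝓞 K ⧸ v.asIdeal, ((ψ (locAd255 v (a * rep129 v c)) : Circle) : ℂ) = 1 := by
    intro c
    have hle : Valued.v ((locAd255 v (a * rep129 v c)).2 v) ≤ WithZero.exp d := by
      rw [locAd255_same, map_mul]
      have hr : Valued.v (rep129 v c) ≤ 1 := (mem_adicCompletionIntegers _ _ _).mp (rep129_mem v c)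
      calc Valued.v a * Valued.v (rep129 v c) ≤ Valued.v a * 1 := by gcongr
        _ = Valued.v a := mul_one _
        _ ≤ WithZero.exp d := ha
    rw [hd.1 _ (isLocAdeleAt_locAd255 v _) hle]
    rfl
  simp only [h1, Finset.sum_const, Finset.card_univ, card_residue255, nsmul_eq_mul, mul_one]

end Sum

/-! ## 4. The recursion for the Whittaker coefficient -/

section Rec

variable {v}
variable {ψ : AddChar (Adl K) Circle} {ν : Measure (Adl K)} {D : Set (Adl K)}
  (hW : IsWhitData ψ ν D) {Φ : G K → ℂ} (hc : Continuous Φ)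
  (hb : ∃ C : ℝ, ∀ g : G K, ‖Φ g‖ ≤ C)
  (hl : ∀ (γ : GL (Fin 2) K) (g : G K), Φ (T1.ratG K γ * g) = Φ g)
  (hK : IsKv v Φ) {g : G K} (hg : TrivAtFin v g)

include hW hc hb hl hK hg in
theorem wv_rec255 {d : ℤ} (hd : IsCondExp ψ v d) {ae be : ℂ} (hE : IsHeckeEigenAt Φ v ae be)
    {a₀ : v.adicCompletion K} (ha₀ : a₀ ≠ 0) (hv₀ : Valued.v a₀ = WithZero.exp d) (m : ℕ) :
    ∀ a : v.adicCompletion K, a ≠ 0 →
      (Valued.v a = WithZero.exp (d - m) →
        wh ψ ν D Φ (tv255 v a * g)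
          = (lamPair255 (Ideal.absNorm v.asIdeal : ℂ)
              ((Real.sqrt (Ideal.absNorm v.asIdeal : ℝ) : ℝ) : ℂ) ae be m).1
            * wh ψ ν D Φ (tv255 v a₀ * g)) ∧
      (Valued.v a = WithZero.exp (d - m + 1) →
        wh ψ ν D Φ (tv255 v a * g)
          = (lamPair255 (Ideal.absNorm v.asIdeal : ℂ)
              ((Real.sqrt (Ideal.absNorm v.asIdeal : ℝ) : ℝ) : ℂ) ae be m).2
            * wh ψ ν D Φ (tv255 v a₀ * g)) := by
  classical
  haveI : Finite (𝓞 K ⧸ v.asIdeal) := finite_residue255 v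
  letI : Fintype (𝓞 K ⧸ v.asIdeal) := Fintype.ofFinite _
  obtain ⟨π, hπ⟩ := exists_unif129 v
  have hπ0 := unif_ne_zero129 v hπ
  induction m with
  | zero =>
    intro a ha
    refine ⟨fun h => ?_, fun h => ?_⟩
    · have h' : Valued.v a = Valued.v a₀ := by
        rw [h, hv₀]; simp
      rw [wv_congr255 hK hg ha ha₀ h']
      simp [lamPair255]
    · have hlt : WithZero.exp d < Valued.v a := by
        rw [h, WithZero.exp_lt_exp]; simp
      rw [wv_vanish255 hW hl hK hg hd ha hlt]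
      simp [lamPair255]
  | succ m ih =>
    intro a ha
    refine ⟨fun h => ?_, fun h => ?_⟩
    · -- the recursion at `a' = a π⁻¹`
      set a' : v.adicCompletion K := a * π⁻¹ with ha'def
      have ha' : a' ≠ 0 := mul_ne_zero ha (inv_ne_zero hπ0)
      have hva' : Valued.v a' = WithZero.exp (d - m) := by
        rw [ha'def, valued_mul_unif_inv255 v hπ h]
        congr 1
        push_cast
        ring
      have haπ : a' * π = a := by
        rw [ha'def, mul_assoc, inv_mul_cancel₀ hπ0, mul_one]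
      have hva'' : Valued.v (a' * π⁻¹) = WithZero.exp (d - m + 1) :=
        valued_mul_unif_inv255 v hπ hva'
      have hle : Valued.v a' ≤ WithZero.exp d := by
        rw [hva', WithZero.exp_le_exp]
        omega
      have hrel := wv_hecke255 hW hc hb hl hg hE hπ ha'
      rw [charSum255 hd hle, haπ, (ih a' ha').1 hva',
        (ih (a' * π⁻¹) (mul_ne_zero ha' (inv_ne_zero hπ0))).2 hva''] at hrel
      have hq := absNorm_ne_zero255 v
      simp only [lamPair255]
      field_simp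
      linear_combination hrel
    · have h' : Valued.v a = WithZero.exp (d - m) := by
        rw [h]
        congr 1
        push_cast
        ring
      rw [(ih a ha).1 h']
      simp [lamPair255]

end Rec

/-! ## 5. The leaf -/

/-- **T2.10.07 `UnramTorusC`, unconditional.** -/
theorem unramTorusC255 (K : Type) [Field K] [NumberField K] :
    Fermat.Agent.LT.T2.H941.UnramTorusC K := by
  intro ψ ν D hW v d hd
  refine ⟨fun a b n => lam255 v d a b n, fun a b => lam255_self v d a b, ?_⟩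
  intro Φ ae be hc hb hl hK hE y y₀ hy hy₀ hv₀ g hg
  rw [tor_eq_tv255 v hy, tor_eq_tv255 v hy₀]
  have hy0 := idele_comp_ne_zero255 v y
  have hy₀0 := idele_comp_ne_zero255 v y₀
  have hvy : Valued.v ((y : Adl K).2 v) ≠ 0 := (Valuation.ne_zero_iff _).mpr hy0
  have hexp : Valued.v ((y : Adl K).2 v)
      = WithZero.exp (WithZero.log (Valued.v ((y : Adl K).2 v))) :=
    (WithZero.exp_log hvy).symm
  by_cases hn : WithZero.log (Valued.v ((y : Adl K).2 v)) ≤ d
  · have hrec := (wv_rec255 hW hc hb hl hK hg hd hE hy₀0 hv₀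
      (d - WithZero.log (Valued.v ((y : Adl K).2 v))).toNat _ hy0).1 (by
        conv_lhs => rw [hexp]
        congr 1
        rw [Int.toNat_of_nonneg (by omega)]
        ring)
    rw [hrec]
    simp only [lam255, if_pos hn]
  · have hlt : WithZero.exp d < Valued.v ((y : Adl K).2 v) := by
      rw [hexp, WithZero.exp_lt_exp]
      omega
    rw [wv_vanish255 hW hl hK hg hd hy0 hlt]
    simp only [lam255, if_neg hn, zero_mul]

/-- **T2.10.07** in the hypothesis-parametrised form of the registry. -/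
theorem leaf07_255 (K : Type) [Field K] [NumberField K] :
    Fermat.Agent.LT.T2.H941.Leaf07 K :=
  fun _ => unramTorusC255 K

end Fermat.Agent.LT.T2.H255

end

end
-- ===== PACK-END LT/T2/H255/UnramTorus.lean

-- ===== PACK-BEGIN LT/T2/H23/Chain.lean
section



/-!
# Row LT, tower T2, station T2.10, leaf T2.10.11 `TorusMatchC` (helper23) -- part 5: the chain

OFF-MAIN.  Iteration of the Kirillov cut-off over a finite set of finite places, for an abstract
functional `W` (the Whittaker coefficient `wh ψ ν D`).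
-/

set_option autoImplicit false
set_option linter.unusedSectionVars false
set_option linter.unusedVariables false
set_option linter.style.haveILetI false

open IsDedekindDomain NumberField IsDedekindDomain.HeightOneSpectrum
open Fermat.Agent.LT.H556.A0
open scoped MatrixGroups

noncomputable section

namespace Fermat.Agent.LT.T2.H23

open Fermat.Agent.LT Fermat.Agent.LT.T2.H941 Fermat.Agent.LT.T2 Fermat.Agent.LT.A2

variable {K : Type} [Field K] [NumberField K]

/-- The class of functions to which the cut-off applies. -/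
def Good23 (𝔪 : Ideal (𝓞 K)) (f : G K → ℂ) : Prop :=
  Continuous f ∧ (∃ C : ℝ, ∀ g : G K, ‖f g‖ ≤ C) ∧
    (∀ (γ : GL (Fin 2) K) (g : G K), f (T1.ratG K γ * g) = f g) ∧ IsLevel 𝔪 f

/-- The idele `Y` is supported in the finite set `L` of finite places. -/
def SuppIn23 (L : Finset (HeightOneSpectrum (𝓞 K))) (Y : (Adl K)ˣ) : Prop :=
  (∀ w : InfinitePlace K, cI23 w Y = 1) ∧ ∀ v : HeightOneSpectrum (𝓞 K), v ∉ L → cF23 v Y = 1

/-- The element `g` is supported in the finite set `L` of finite places. -/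
def GSuppIn23 (L : Finset (HeightOneSpectrum (𝓞 K))) (g : G K) : Prop :=
  (∀ w : InfinitePlace K, TrivAtInf w g) ∧ ∀ v : HeightOneSpectrum (𝓞 K), v ∉ L → TrivAtFin v g

/-- The conclusion of the cut-off at one place `a`. -/
def CutProp23 (W : (G K → ℂ) → G K → ℂ) (a : HeightOneSpectrum (𝓞 K)) (𝔪 : Ideal (𝓞 K))
    (y₀ : (Adl K)ˣ) (n : ℕ) (c : Fin n → ℂ) (p : Fin n → G K) (𝔪' : Ideal (𝓞 K)) : Prop :=
  𝔪' ≠ ⊥ ∧ 𝔪' ≤ 𝔪 ∧
    (∀ v' : HeightOneSpectrum (𝓞 K), v' ≠ a → v'.asIdeal ∣ 𝔪' → v'.asIdeal ∣ 𝔪) ∧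
    (∀ i, IsLocalAtFin a (p i)) ∧
    ∀ Φ : G K → ℂ, Good23 𝔪 Φ → IsLevel 𝔪' (lin c p Φ) ∧
      ∀ y : (Adl K)ˣ, IsIdeleAtFin a y → ∀ g : G K, TrivAtFin a g →
        (InOrbit 𝔪 a y y₀ → W (lin c p Φ) (tor y * g) = W Φ (tor y₀ * g)) ∧
        (¬ InOrbit 𝔪 a y y₀ → W (lin c p Φ) (tor y * g) = 0)

/-- The conclusion of the cut-off at all places of `L`. -/
def ChainProp23 (W : (G K → ℂ) → G K → ℂ) (L : Finset (HeightOneSpectrum (𝓞 K)))
    (𝔪₀ : Ideal (𝓞 K)) (y₀ : (Adl K)ˣ) (n : ℕ) (c : Fin n → ℂ) (g : Fin n → G K)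
    (𝔪 : Ideal (𝓞 K)) (P : (Adl K)ˣ → Prop) : Prop :=
  𝔪 ≠ ⊥ ∧ 𝔪 ≤ 𝔪₀ ∧
    (∀ v : HeightOneSpectrum (𝓞 K), v ∉ L → v.asIdeal ∣ 𝔪 → v.asIdeal ∣ 𝔪₀) ∧
    (∀ i, GSuppIn23 L (g i)) ∧ P y₀ ∧
    ∀ f : G K → ℂ, Good23 𝔪₀ f → IsLevel 𝔪 (lin c g f) ∧
      ∀ Y : (Adl K)ˣ, SuppIn23 L Y → ∀ h : G K, (∀ v ∈ L, TrivAtFin v h) →
        (P Y → W (lin c g f) (tor Y * h) = W f (tor y₀ * h)) ∧
        (¬ P Y → W (lin c g f) (tor Y * h) = 0)

theorem good_lin23 {𝔪₀ 𝔪 : Ideal (𝓞 K)} {n : ℕ} (c : Fin n → ℂ) (g : Fin n → G K)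
    {f : G K → ℂ} (hf : Good23 𝔪₀ f) (hl : IsLevel 𝔪 (lin c g f)) : Good23 𝔪 (lin c g f) :=
  ⟨continuous_lin23 c g hf.1, bdd_lin23 c g hf.2.1, leftInv_lin23 c g hf.2.2.1, hl⟩

theorem inOrbit_self23 (𝔪 : Ideal (𝓞 K)) (v : HeightOneSpectrum (𝓞 K)) (y : (Adl K)ˣ) :
    InOrbit 𝔪 v y y := by
  unfold InOrbit
  rw [mul_inv_cancel, Units.val_one, H743.snd_one743, sub_self]
  exact ⟨H333.zero_mem_idealClosure333 𝔪 v, H333.zero_mem_idealClosure333 𝔪 v⟩

theorem suppIn_one23 (L : Finset (HeightOneSpectrum (𝓞 K))) : SuppIn23 L (1 : (Adl K)ˣ) :=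
  ⟨fun w => map_one _, fun v _ => map_one _⟩

theorem eq_one_of_suppIn_empty23 {Y : (Adl K)ˣ}
    (h : SuppIn23 (∅ : Finset (HeightOneSpectrum (𝓞 K))) Y) : Y = 1 := by
  refine idele_ext23 (fun v => ?_) (fun w => ?_)
  · rw [h.2 v (Finset.notMem_empty v), map_one]
  · rw [h.1 w, map_one]

section Step

variable [DecidableEq (HeightOneSpectrum (𝓞 K))]

/-- Splitting off the component at `a` of an idele supported in `insert a L'`. -/
theorem suppIn_split23 {L' : Finset (HeightOneSpectrum (𝓞 K))} {a : HeightOneSpectrum (𝓞 K)}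
    {Y : (Adl K)ˣ} (hY : SuppIn23 (insert a L') Y) :
    SuppIn23 L' (Y * (iF23 a (cF23 a Y))⁻¹) := by
  refine ⟨fun w => ?_, fun v hv => ?_⟩
  · rw [map_mul, map_inv, hY.1 w, cI23_iF23, inv_one, mul_one]
  · by_cases hva : v = a
    · subst hva
      rw [map_mul, map_inv, cF23_iF23_same23, mul_inv_cancel]
    · have hv' : v ∉ insert a L' := by
        rw [Finset.mem_insert]
        push Not
        exact ⟨hva, hv⟩
      rw [map_mul, map_inv, hY.2 v hv', cF23_iF23_ne23 a _ hva, inv_one, mul_one]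

/-- **One step of the chain.** -/
theorem step23 (W : (G K → ℂ) → G K → ℂ) {L' : Finset (HeightOneSpectrum (𝓞 K))}
    {a : HeightOneSpectrum (𝓞 K)} (ha : a ∉ L') {𝔪₀ : Ideal (𝓞 K)} {y₀' : (Adl K)ˣ}
    (hy₀' : SuppIn23 L' y₀') (s : (a.adicCompletion K)ˣ)
    {n' : ℕ} {c' : Fin n' → ℂ} {g' : Fin n' → G K} {𝔪' : Ideal (𝓞 K)} {P' : (Adl K)ˣ → Prop}
    (hIH : ChainProp23 W L' 𝔪₀ y₀' n' c' g' 𝔪' P')
    {n : ℕ} {c : Fin n → ℂ} {p : Fin n → G K} {𝔪'' : Ideal (𝓞 K)}
    (hcut : CutProp23 W a 𝔪' (iF23 a s) n c p 𝔪'') :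
    ChainProp23 W (insert a L') 𝔪₀ (iF23 a s * y₀') (n * n')
      (fun k : Fin (n * n') => c (finProdFinEquiv.symm k).1 * c' (finProdFinEquiv.symm k).2)
      (fun k : Fin (n * n') => p (finProdFinEquiv.symm k).1 * g' (finProdFinEquiv.symm k).2)
      𝔪''
      (fun Y => InOrbit 𝔪' a (iF23 a (cF23 a Y)) (iF23 a s) ∧
        P' (Y * (iF23 a (cF23 a Y))⁻¹)) := by
  obtain ⟨h𝔪', hle', hdiv', hsupp', hP', hmain'⟩ := hIH
  obtain ⟨h𝔪'', hle'', hdiv'', hloc, hmain⟩ := hcut
  have hne : ∀ v : HeightOneSpectrum (𝓞 K), v ∉ insert a L' → v ≠ a ∧ v ∉ L' := by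
    intro v hv
    rw [Finset.mem_insert] at hv
    push Not at hv
    exact hv
  refine ⟨h𝔪'', hle''.trans hle', ?_, ?_, ?_, ?_⟩
  · intro v hv hdvd
    exact hdiv' v (hne v hv).2 (hdiv'' v (hne v hv).1 hdvd)
  · intro k
    refine ⟨fun w => trivAtInf_mul23 ((hloc _).1 w) ((hsupp' _).1 w), fun v hv => ?_⟩
    exact trivAtFin_mul23 ((hloc _).2 v (hne v hv).1) ((hsupp' _).2 v (hne v hv).2)
  · have e1 : cF23 a (iF23 a s * y₀') = s := by
      rw [map_mul, cF23_iF23_same23, hy₀'.2 a ha, mul_one]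
    refine ⟨?_, ?_⟩
    · rw [e1]
      exact inOrbit_self23 _ _ _
    · rw [e1, mul_comm, inv_mul_cancel_left]
      exact hP'
  · intro f hf
    have hF : Good23 𝔪' (lin c' g' f) := good_lin23 c' g' hf (hmain' f hf).1
    obtain ⟨hlev, hW⟩ := hmain _ hF
    rw [← lin_lin23]
    refine ⟨hlev, fun Y hY h hh => ?_⟩
    have hY'supp : SuppIn23 L' (Y * (iF23 a (cF23 a Y))⁻¹) := suppIn_split23 hY
    have hha : TrivAtFin a h := hh a (Finset.mem_insert_self a L')
    have hhL : ∀ v ∈ L', TrivAtFin v h := fun v hv => hh v (Finset.mem_insert_of_mem hv)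
    have hg : TrivAtFin a (tor (Y * (iF23 a (cF23 a Y))⁻¹) * h) :=
      trivAtFin_mul23 (trivAtFin_tor23 (hY'supp.2 a ha)) hha
    have e1 : tor Y * h
        = tor (iF23 a (cF23 a Y)) * (tor (Y * (iF23 a (cF23 a Y))⁻¹) * h) := by
      rw [← mul_assoc, ← tor_mul23, mul_comm Y, mul_inv_cancel_left]
    obtain ⟨c1, c2⟩ := hW (iF23 a (cF23 a Y)) (isIdeleAtFin_iF23 a _) _ hg
    have hh' : ∀ v ∈ L', TrivAtFin v (tor (iF23 a s) * h) := fun v hv =>
      trivAtFin_mul23 (trivAtFin_tor23 (cF23_iF23_ne23 a s (ne_of_mem_of_not_mem hv ha)))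
        (hhL v hv)
    obtain ⟨d1, d2⟩ := (hmain' f hf).2 _ hY'supp (tor (iF23 a s) * h) hh'
    have e2 : tor (iF23 a s) * (tor (Y * (iF23 a (cF23 a Y))⁻¹) * h)
        = tor (Y * (iF23 a (cF23 a Y))⁻¹) * (tor (iF23 a s) * h) := by
      rw [← mul_assoc, ← mul_assoc, tor_comm23]
    have e3 : tor y₀' * (tor (iF23 a s) * h) = tor (iF23 a s * y₀') * h := by
      rw [← mul_assoc, ← tor_mul23, mul_comm]
    rw [e1]
    constructor
    · rintro ⟨o1, o2⟩
      rw [c1 o1, e2, d1 o2, e3]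
    · intro hn
      by_cases o1 : InOrbit 𝔪' a (iF23 a (cF23 a Y)) (iF23 a s)
      · have o2 : ¬ P' (Y * (iF23 a (cF23 a Y))⁻¹) := fun o2 => hn ⟨o1, o2⟩
        rw [c1 o1, e2, d2 o2]
      · exact c2 o1

/-- **The chain**: the cut-off at all places of a finite set. -/
theorem chain23 (W : (G K → ℂ) → G K → ℂ)
    (hcut : ∀ (a : HeightOneSpectrum (𝓞 K)) (𝔪 : Ideal (𝓞 K)), 𝔪 ≠ ⊥ →
      ∀ s : (a.adicCompletion K)ˣ, ∃ (n : ℕ) (c : Fin n → ℂ) (p : Fin n → G K)
        (𝔪' : Ideal (𝓞 K)), CutProp23 W a 𝔪 (iF23 a s) n c p 𝔪')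
    (L : Finset (HeightOneSpectrum (𝓞 K))) :
    ∀ 𝔪₀ : Ideal (𝓞 K), 𝔪₀ ≠ ⊥ → ∀ y₀ : (Adl K)ˣ, SuppIn23 L y₀ →
      ∃ (n : ℕ) (c : Fin n → ℂ) (g : Fin n → G K) (𝔪 : Ideal (𝓞 K)) (P : (Adl K)ˣ → Prop),
        ChainProp23 W L 𝔪₀ y₀ n c g 𝔪 P := by
  induction L using Finset.induction_on with
  | empty =>
    intro 𝔪₀ h𝔪₀ y₀ hy₀
    refine ⟨1, fun _ => 1, fun _ => 1, 𝔪₀, fun _ => True, h𝔪₀, le_refl _, fun v _ h => h,
      fun _ => ⟨fun w => trivAtInf_one23 w, fun v _ => trivAtFin_one23 v⟩, trivial, ?_⟩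
    intro f hf
    have e : lin (fun _ : Fin 1 => (1 : ℂ)) (fun _ : Fin 1 => (1 : G K)) f = f := by
      funext x
      simp [lin]
    rw [e]
    refine ⟨hf.2.2.2, fun Y hY h _ => ⟨fun _ => ?_, fun hn => absurd trivial hn⟩⟩
    rw [eq_one_of_suppIn_empty23 hY, eq_one_of_suppIn_empty23 hy₀]
  | insert a L' ha ih =>
    intro 𝔪₀ h𝔪₀ y₀ hy₀
    have hy₀' : SuppIn23 L' (y₀ * (iF23 a (cF23 a y₀))⁻¹) := suppIn_split23 hy₀
    obtain ⟨n', c', g', 𝔪', P', hIH⟩ := ih 𝔪₀ h𝔪₀ _ hy₀'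
    obtain ⟨n, c, p, 𝔪'', hc⟩ := hcut a 𝔪' hIH.1 (cF23 a y₀)
    have := step23 W ha hy₀' (cF23 a y₀) hIH hc
    rw [mul_comm _ (y₀ * _), inv_mul_cancel_right] at this
    exact ⟨_, _, _, _, _, this⟩

end Step

end Fermat.Agent.LT.T2.H23

end

end
-- ===== PACK-END LT/T2/H23/Chain.lean

-- ===== PACK-BEGIN LT/T3/H57/ROp.lean
section





/-!
# Row LT, tower T3, station T3.18a, leaf AS.5 (helper57, OFF-MAIN): `AS.ROpC K`, unconditional

`rOpC57 (K) : AS.ROpC K` = the frozen Prop of `LT/T3/H736/ASSpec.lean` (helper736@a78c5beca,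
sha256 a661c778), VERBATIM.

Route (no product decomposition of `GL₂(𝔸_K)`, no Haar measure on a subgroup):
`U₀ = G_∞ × U(𝔫)_f` is open (`isOpen_inU057`), `π = (infGL w)_w : GL₂(𝔸_K) → ∏_w GL₂(ℂ)` has the
section `ι` (`infEmb57`), `U₀ ∩ π⁻¹ C ⊆ ι(C) K⁰` is relatively compact (`K⁰` compact: helper793),
hence the image of `μ|_{U₀}` under `π` is a Haar measure `= κ₁ ∏_w μ_ℂ` (`pushforward_haar57`);
`φ(y x) = φ(y ι(π x))` on `U₀`; the infinite places one at a time (`integral_pi_eigen57`,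
`AS.ActsBy`); the place `v₀` by `pureFn_eq_sum57` and `AS.HasSatakeEigen`.
-/

set_option autoImplicit false
set_option linter.style.haveILetI false
set_option linter.unusedSectionVars false

open IsDedekindDomain NumberField Topology MeasureTheory
open Fermat.Agent.LT.H556.A0
open Fermat.Agent.LT.T1 Fermat.Agent.LT.T1.H724 Fermat.Agent.LT.T1.H793
open Fermat.Agent.LT.T3
open scoped ENNReal

noncomputable section

namespace Fermat.Agent.LT.T3.H57

variable {K : Type} [Field K] [NumberField K]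

/-! ## The projection to the infinite places and its section -/

theorem continuous_infGL57 (w : InfinitePlace K) : Continuous (AS.infGL K w) := by
  rw [Units.continuous_iff]
  refine ⟨continuous_infComp793 w, ?_⟩
  have h : Continuous (fun g : G K => infComp w g⁻¹) :=
    (continuous_infComp793 w).comp continuous_inv
  refine h.congr fun g => ?_
  change infComp w g⁻¹ = (((AS.infGL K w g)⁻¹ : GL (Fin 2) ℂ) : Matrix (Fin 2) (Fin 2) ℂ)
  rw [← map_inv]
  rfl

/-- The projection `GL₂(𝔸_K) → GL₂(ℂ)ⁿ`. -/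
def piInf57 {n : ℕ} (e : InfinitePlace K ≃ Fin n) : G K →* (Fin n → GL (Fin 2) ℂ) :=
  MonoidHom.pi fun i => AS.infGL K (e.symm i)

theorem piInf_apply57 {n : ℕ} (e : InfinitePlace K ≃ Fin n) (x : G K) (i : Fin n) :
    piInf57 e x i = AS.infGL K (e.symm i) x := rfl

theorem continuous_piInf57 {n : ℕ} (e : InfinitePlace K ≃ Fin n) : Continuous (piInf57 e) :=
  continuous_pi fun i => continuous_infGL57 (e.symm i)

section Inf

variable (hK : ∀ w : InfinitePlace K, w.IsComplex)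

/-- The section `GL₂(ℂ)ⁿ → GL₂(𝔸_K)`. -/
def embFin57 {n : ℕ} (e : InfinitePlace K ≃ Fin n) : (Fin n → GL (Fin 2) ℂ) →* G K where
  toFun t := infEmb57 hK (fun w => t (e w))
  map_one' := (infEmb57 hK).map_one
  map_mul' s t := (infEmb57 hK).map_mul (fun w => s (e w)) (fun w => t (e w))

theorem embFin_apply57 {n : ℕ} (e : InfinitePlace K ≃ Fin n) (t : Fin n → GL (Fin 2) ℂ) :
    embFin57 hK e t = infEmb57 hK (fun w => t (e w)) := rfl

theorem continuous_embFin57 {n : ℕ} (e : InfinitePlace K ≃ Fin n) :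
    Continuous (embFin57 hK e) :=
  (continuous_infEmb57 hK).comp (continuous_pi fun w => continuous_apply (e w))

theorem piInf_embFin57 {n : ℕ} (e : InfinitePlace K ≃ Fin n) (t : Fin n → GL (Fin 2) ℂ) :
    piInf57 e (embFin57 hK e t) = t := by
  funext i
  rw [piInf_apply57, embFin_apply57, infGL_infEmb57, Equiv.apply_symm_apply]

theorem embFin_piInf57 {n : ℕ} (e : InfinitePlace K ≃ Fin n) (x : G K) :
    embFin57 hK e (piInf57 e x) = infEmb57 hK (fun w => AS.infGL K w x) := by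
  rw [embFin_apply57]
  congr 1
  funext w
  rw [piInf_apply57, Equiv.symm_apply_apply]

theorem finGL_embFin57 {n : ℕ} (e : InfinitePlace K ≃ Fin n) (t : Fin n → GL (Fin 2) ℂ)
    (v : HeightOneSpectrum (𝓞 K)) : AS.finGL K v (embFin57 hK e t) = 1 :=
  finGL_infEmb57 hK _ v

theorem embFin_mulSingle57 {n : ℕ} (e : InfinitePlace K ≃ Fin n) (i : Fin n)
    (s : GL (Fin 2) ℂ) :
    embFin57 hK e (Pi.mulSingle i s) = infEmbAt57 hK (e.symm i) s := by
  classical
  rw [embFin_apply57, infEmbAt_apply57]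
  congr 1
  funext w
  by_cases hw : w = e.symm i
  · subst hw
    simp
  · have h2 : e w ≠ i := fun h => hw (by rw [← h, Equiv.symm_apply_apply])
    rw [Pi.mulSingle_eq_of_ne h2, Pi.mulSingle_eq_of_ne hw]

theorem inU0_embFin_mul57 {n : ℕ} (e : InfinitePlace K ≃ Fin n) (𝔫 : Ideal (𝓞 K))
    (t : Fin n → GL (Fin 2) ℂ) (x : G K) (hx : InU057 𝔫 x) :
    InU057 𝔫 (embFin57 hK e t * x) := by
  rw [inU0_iff_loc57] at hx ⊢
  intro v
  rw [map_mul, finGL_embFin57, one_mul]
  exact hx v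

theorem inU0_one57 (𝔫 : Ideal (𝓞 K)) : InU057 𝔫 (1 : G K) := by
  rw [inU0_iff_loc57]
  intro v
  rw [map_one]
  exact locU_one57 𝔫 v

theorem isStdCompact_of57 (𝔫 : Ideal (𝓞 K)) (u : G K) (hu : InLevelGroup 𝔫 u) :
    IsStdCompact K u := by
  have hU : InU057 𝔫 u := hu.2
  rw [inU0_iff_loc57] at hU
  refine ⟨fun v => ⟨fun i j => ?_, fun i j => ?_⟩, fun w => ?_⟩
  · have := (isIntGL_of_locU57 𝔫 v _ (hU v) i j).1
    rwa [finGL_val57] at this
  · have := (isIntGL_of_locU57 𝔫 v _ (hU v) i j).2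
    rwa [finGL_inv_val57] at this
  · have h1 : infComp w u = 1 := by
      ext i j
      change InfinitePlace.Completion.extensionEmbedding w _ = _
      rw [hu.1 w i j, Matrix.one_apply, Matrix.one_apply]
      split_ifs <;> simp
    rw [h1]
    simp

/-- `φ(y x) = φ(y ι(π x))` on `U₀`. -/
theorem sph_eq_of_inU057 {n : ℕ} (e : InfinitePlace K ≃ Fin n) (𝔫 : Ideal (𝓞 K))
    (φ : G K → ℂ) (hφ : IsSph0Level K 𝔫 φ) (y x : G K) (hx : InU057 𝔫 x) :
    φ (y * x) = φ (y * embFin57 hK e (piInf57 e x)) := by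
  have hu := inLevelGroup_of57 hK 𝔫 x hx
  rw [embFin_piInf57]
  have := hφ.level_inv _ hu (y * infEmb57 hK (fun w => AS.infGL K w x))
  rw [mul_assoc, mul_inv_cancel_left] at this
  exact this

variable [MeasurableSpace (G K)] [BorelSpace (G K)]

include hK in
/-- `U₀ ∩ π⁻¹ C` has finite measure. -/
theorem measure_lt_top57 {n : ℕ} (e : InfinitePlace K ≃ Fin n) (𝔫 : Ideal (𝓞 K))
    (μ : Measure (G K)) [μ.IsHaarMeasure] (C : Set (Fin n → GL (Fin 2) ℂ)) (hC : IsCompact C) :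
    μ ({x : G K | InU057 𝔫 x} ∩ piInf57 e ⁻¹' C) < ∞ := by
  have hK0 := isCompact_stdCompact793 K
  have hcont : Continuous (fun p : (Fin n → GL (Fin 2) ℂ) × G K => embFin57 hK e p.1 * p.2) :=
    ((continuous_embFin57 hK e).comp continuous_fst).mul continuous_snd
  have himg : IsCompact ((fun p : (Fin n → GL (Fin 2) ℂ) × G K => embFin57 hK e p.1 * p.2) ''
      (C ×ˢ {k : G K | IsStdCompact K k})) := (hC.prod hK0).image hcont
  refine lt_of_le_of_lt (measure_mono ?_) himg.measure_lt_top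
  rintro x ⟨hx, hxC⟩
  refine ⟨(piInf57 e x, (embFin57 hK e (piInf57 e x))⁻¹ * x), ⟨hxC, ?_⟩, ?_⟩
  · have hu := inLevelGroup_of57 hK 𝔫 x hx
    rw [← embFin_piInf57 hK e] at hu
    exact isStdCompact_of57 𝔫 _ hu
  · simp

include hK in
/-- The integral of `φ(y ·) f¹` over `GL₂(𝔸_K)`. -/
theorem integral_pureOne57 {n : ℕ} (e : InfinitePlace K ≃ Fin n) (𝔫 : Ideal (𝓞 K))
    (h𝔫 : 𝔫 ≠ ⊥) [MeasurableSpace (GL (Fin 2) ℂ)] [BorelSpace (GL (Fin 2) ℂ)]
    (μ : Measure (G K)) (μc : Measure (GL (Fin 2) ℂ)) [μc.IsHaarMeasure] (c : ℝ)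
    (hc : ∀ f : (Fin n → GL (Fin 2) ℂ) → ℂ, Continuous f → HasCompactSupport f →
      IntegrableOn (fun x => f (piInf57 e x)) {x : G K | InU057 𝔫 x} μ ∧
      ∫ x in {x : G K | InU057 𝔫 x}, f (piInf57 e x) ∂μ
        = c • ∫ t, f t ∂(Measure.pi fun _ : Fin n => μc))
    (F : InfinitePlace K → GL (Fin 2) ℂ → ℂ) (hF : ∀ w, AS.IsCplxTest (F w))
    (C : InfinitePlace K → ℂ) (hC : ∀ w, AS.ActsBy μc (F w) (C w))
    (φ : G K → ℂ) (hφ : IsSph0Level K 𝔫 φ) (y : G K) :
    Integrable (fun x => φ (y * x) * pureOne57 𝔫 F x) μ ∧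
      ∫ x, φ (y * x) * pureOne57 𝔫 F x ∂μ = (c : ℂ) * (∏ w, C w) * φ y := by
  classical
  haveI := secondCountable_GL2C57
  haveI := locallyCompact_GL2C57
  have hUm : MeasurableSet {x : G K | InU057 𝔫 x} := (isOpen_inU057 𝔫 h𝔫).measurableSet
  obtain ⟨Φ, hΦ⟩ : ∃ Φ : (Fin n → GL (Fin 2) ℂ) → ℂ, Φ = fun t => φ (y * embFin57 hK e t) :=
    ⟨_, rfl⟩
  have hΦc : Continuous Φ := by
    rw [hΦ]
    exact hφ.cont.comp (continuous_const.mul (continuous_embFin57 hK e))
  obtain ⟨Q, hQ⟩ : ∃ Q : (Fin n → GL (Fin 2) ℂ) → ℂ,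
      Q = fun t => Φ t * ∏ i, F (e.symm i) (t i) := ⟨_, rfl⟩
  have hQc : Continuous Q := by
    rw [hQ]
    exact hΦc.mul (continuous_finsetProd _ fun i _ => (hF _).cont.comp (continuous_apply i))
  have hQs : HasCompactSupport Q := by
    rw [hQ]
    exact hasCompactSupport_mul_prod57 n Φ (fun i => F (e.symm i)) (fun i => (hF _).supp)
  obtain ⟨hint, hval⟩ := hc Q hQc hQs
  have hfun : (fun x => φ (y * x) * pureOne57 𝔫 F x)
      = Set.indicator {x : G K | InU057 𝔫 x} (fun x => Q (piInf57 e x)) := by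
    funext x
    by_cases hx : InU057 𝔫 x
    · rw [Set.indicator_of_mem (show x ∈ {x : G K | InU057 𝔫 x} from hx)]
      unfold pureOne57
      rw [if_pos hx, hQ, hΦ]
      simp only
      rw [← sph_eq_of_inU057 hK e 𝔫 φ hφ y x hx]
      congr 1
      exact (Equiv.prod_comp e.symm (fun w => F w (AS.infGL K w x))).symm
    · rw [Set.indicator_of_notMem (show x ∉ {x : G K | InU057 𝔫 x} from hx)]
      unfold pureOne57
      rw [if_neg hx, mul_zero]
  rw [hfun]
  refine ⟨(integrable_indicator_iff hUm).2 hint, ?_⟩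
  rw [integral_indicator hUm, hval]
  have hpi := integral_pi_eigen57 μc n Φ hΦc (fun i => F (e.symm i)) (fun i => (hF _).cont)
    (fun i => (hF _).supp) (fun i => C (e.symm i)) ?_
  · have hQint : ∫ t, Q t ∂(Measure.pi fun _ : Fin n => μc)
        = ∫ t, Φ t * ∏ i, F (e.symm i) (t i) ∂(Measure.pi fun _ : Fin n => μc) := by rw [hQ]
    rw [hQint, hpi, Complex.real_smul, Equiv.prod_comp e.symm C]
    have h1 : Φ 1 = φ y := by rw [hΦ]; simp
    rw [h1]
    ring
  · intro i t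
    have hΨ := isLocSph0_of57 hK 𝔫 φ hφ (y * embFin57 hK e t) (e.symm i)
    have hact := hC (e.symm i) _ hΨ 1
    simp only [one_mul, map_one, mul_one] at hact
    have hupd : ∀ s : GL (Fin 2) ℂ, Function.update t i (t i * s) = t * Pi.mulSingle i s := by
      intro s
      funext j
      by_cases hj : j = i
      · subst hj
        simp
      · simp [Function.update_of_ne hj, Pi.mulSingle_eq_of_ne hj]
    have hΦs : ∀ s : GL (Fin 2) ℂ, Φ (Function.update t i (t i * s))
        = φ (y * embFin57 hK e t * infEmbAt57 hK (e.symm i) s) := by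
      intro s
      rw [hΦ]
      simp only
      rw [hupd, map_mul, embFin_mulSingle57, mul_assoc]
    simp_rw [hΦs]
    rw [hact, hΦ]

end Inf

/-- **AS.5 `ROpC`, unconditional.** -/
theorem rOpC57 (K : Type) [Field K] [NumberField K] : AS.ROpC K := by
  classical
  letI : MeasurableSpace (G K) := borel (G K)
  haveI : BorelSpace (G K) := ⟨rfl⟩
  letI : MeasurableSpace (GL (Fin 2) ℂ) := borel (GL (Fin 2) ℂ)
  haveI : BorelSpace (GL (Fin 2) ℂ) := ⟨rfl⟩
  haveI := secondCountable_GL2C57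
  haveI := locallyCompact_GL2C57
  intro hK μ hμ μc hμc 𝔫 h𝔫 v₀ hv₀
  haveI := hμ
  haveI := hμc
  obtain ⟨n, ⟨e⟩⟩ : ∃ n, Nonempty (InfinitePlace K ≃ Fin n) := ⟨_, ⟨Fintype.equivFin _⟩⟩
  obtain ⟨c, hc0, hc⟩ := pushforward_haar57 μ (Measure.pi fun _ : Fin n => μc)
    {x : G K | InU057 𝔫 x} (isOpen_inU057 𝔫 h𝔫) (piInf57 e) (continuous_piInf57 e)
    (embFin57 hK e) (piInf_embFin57 hK e) (fun t x hx => inU0_embFin_mul57 hK e 𝔫 t x hx)
    (inU0_one57 𝔫) (fun C hC => measure_lt_top57 hK e 𝔫 μ C hC)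
  refine ⟨(c : ℂ), by exact_mod_cast hc0.ne', ?_⟩
  intro A C f₀ F hf₀ hRex hA hF hC φ hφ a b z₁ z₂ he hab hb hb0 g
  obtain ⟨R, hR⟩ := hRex
  have hB := fun y => integral_pureOne57 hK e 𝔫 h𝔫 μ μc c hc F hF C hC φ hφ y
  unfold Rop
  have hsum : ∀ x, φ (g * x) * AS.pureFn K 𝔫 v₀ f₀ F x
      = ∑ h ∈ R, f₀ h * (φ (g * x) * pureOne57 𝔫 F ((finEmb57 v₀ h)⁻¹ * x)) := by
    intro x
    rw [pureFn_eq_sum57 𝔫 v₀ hv₀ f₀ F hf₀ R hR x, Finset.mul_sum]
    exact Finset.sum_congr rfl fun h _ => by ring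
  simp_rw [hsum]
  have hterm_int : ∀ h : GL (Fin 2) (v₀.adicCompletion K),
      Integrable (fun x => φ (g * x) * pureOne57 𝔫 F ((finEmb57 v₀ h)⁻¹ * x)) μ := by
    intro h
    have := ((hB (g * finEmb57 v₀ h)).1).comp_mul_left (finEmb57 v₀ h)⁻¹
    refine this.congr (Filter.Eventually.of_forall fun x => ?_)
    simp only [mul_assoc, mul_inv_cancel_left]
  have hterm : ∀ h : GL (Fin 2) (v₀.adicCompletion K),
      ∫ x, φ (g * x) * pureOne57 𝔫 F ((finEmb57 v₀ h)⁻¹ * x) ∂μ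
        = (c : ℂ) * (∏ w, C w) * φ (g * finEmb57 v₀ h) := by
    intro h
    rw [← (hB (g * finEmb57 v₀ h)).2,
      ← integral_mul_left_eq_self
        (fun x => φ (g * finEmb57 v₀ h * x) * pureOne57 𝔫 F x) (finEmb57 v₀ h)⁻¹]
    refine integral_congr_ae (Filter.Eventually.of_forall fun x => ?_)
    simp only [mul_assoc, mul_inv_cancel_left]
  rw [integral_finsetSum _ (fun h _ => (hterm_int h).const_mul _)]
  simp_rw [integral_const_mul, hterm]
  have hS := hA (fun y => φ (g * finEmb57 v₀ y)) a b z₁ z₂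
    (isLocEigen_of57 𝔫 v₀ hv₀ φ hφ a b he g) hab hb hb0 R hR 1
  simp only [one_mul, map_one, mul_one] at hS
  calc ∑ h ∈ R, f₀ h * ((c : ℂ) * (∏ w, C w) * φ (g * finEmb57 v₀ h))
      = (c : ℂ) * (∏ w, C w) * ∑ h ∈ R, f₀ h * φ (g * finEmb57 v₀ h) := by
        rw [Finset.mul_sum]
        exact Finset.sum_congr rfl fun h _ => by ring
    _ = (c : ℂ) * AS.laurent A z₁ z₂ * (∏ w, C w) * φ g := by
        rw [hS]
        ring

end Fermat.Agent.LT.T3.H57

end

end
-- ===== PACK-END LT/T3/H57/ROp.lean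

-- ===== PACK-BEGIN LT/T5/H942/RegAux.lean
section








/-!
# Row LT, tower T5, leaf T5.09 (shadow by helper942) — part 2: local lemmas

OFF-MAIN.  Vocabulary as in `NormG.lean`.

* `InIwahori` (T5/Spec) is closed under products; `isIwahoriMat_of_inIwahori942`;
* `inIwahori_normG942` : `N_n(g)` is Iwahori at `o i` (`n ≤ i < l`) if `g` is Iwahori at
  `o 1, …, o (l-1)`; `inIwahori_onG_normG942` : `σ(N_{l-1}(g))` is Iwahori at `o 0`;
* `agreeOutside_normG942` : `N_n` preserves agreement outside the orbit;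
* `ratio_mul_scalar_fin942`, `ratio_mul_scalar_inf942` : the local invariants `‖tr‖² / ‖det‖` do
  not see a scalar factor;
* `isEllRegOver_of_no_root942` : a matrix with `σ`-fixed trace and determinant whose
  characteristic polynomial has no root in the fixed field `k` is `IsEllRegOver k`.
-/

set_option autoImplicit false

open IsDedekindDomain NumberField

noncomputable section

namespace Fermat.Agent.LT.T5.H942

open Fermat.Agent.LT.H556.A0 Fermat.Agent.LT.T5 Fermat.Agent.LT.H942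

variable {K : Type} [Field K] [NumberField K]

/-! ## Iwahori -/

theorem isIntegralAt_mul942 (w : HeightOneSpectrum (𝓞 K)) {a b : G K}
    (ha : IsIntegralAt w a) (hb : IsIntegralAt w b) : IsIntegralAt w (a * b) := by
  intro i j
  rw [finComp_mul942, Matrix.mul_apply]
  exact Subring.sum_mem _ fun l _ => Subring.mul_mem _ (ha i l) (hb l j)

theorem isIntegralAt_one942 (w : HeightOneSpectrum (𝓞 K)) : IsIntegralAt w (1 : G K) := by
  intro i j
  rw [finComp_one942]
  by_cases h : i = j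
  · subst h
    rw [Matrix.one_apply_eq]
    exact Subring.one_mem _
  · rw [Matrix.one_apply_ne h]
    exact Subring.zero_mem _

theorem inIwahori_one942 (w : HeightOneSpectrum (𝓞 K)) : InIwahori w (1 : G K) := by
  refine ⟨isIntegralAt_one942 w, by rw [inv_one]; exact isIntegralAt_one942 w, ?_⟩
  rw [finComp_one942, Matrix.one_apply_ne (by decide : (1 : Fin 2) ≠ 0), map_zero]
  exact zero_lt_one

theorem inIwahori_mul942 (w : HeightOneSpectrum (𝓞 K)) {a b : G K}
    (ha : InIwahori w a) (hb : InIwahori w b) : InIwahori w (a * b) := by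
  obtain ⟨ha1, ha2, ha3⟩ := ha
  obtain ⟨hb1, hb2, hb3⟩ := hb
  refine ⟨isIntegralAt_mul942 w ha1 hb1, ?_, ?_⟩
  · rw [mul_inv_rev]
    exact isIntegralAt_mul942 w hb2 ha2
  · rw [finComp_mul942, Matrix.mul_apply, Fin.sum_univ_two]
    have h1 : Valued.v (finComp w a 1 0 * finComp w b 0 0) < 1 := by
      rw [map_mul]
      calc Valued.v (finComp w a 1 0) * Valued.v (finComp w b 0 0)
          ≤ Valued.v (finComp w a 1 0) * 1 :=
            mul_le_mul_right ((HeightOneSpectrum.mem_adicCompletionIntegers _ _ _).1 (hb1 0 0)) _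
        _ = Valued.v (finComp w a 1 0) := mul_one _
        _ < 1 := ha3
    have h2 : Valued.v (finComp w a 1 1 * finComp w b 1 0) < 1 := by
      rw [map_mul]
      calc Valued.v (finComp w a 1 1) * Valued.v (finComp w b 1 0)
          ≤ 1 * Valued.v (finComp w b 1 0) :=
            mul_le_mul_left ((HeightOneSpectrum.mem_adicCompletionIntegers _ _ _).1 (ha1 1 1)) _
        _ = Valued.v (finComp w b 1 0) := one_mul _
        _ < 1 := hb3
    exact lt_of_le_of_lt (Valuation.map_add _ _ _) (max_lt h1 h2)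

theorem isIwahoriMat_of_inIwahori942 (w : HeightOneSpectrum (𝓞 K)) {a : G K}
    (ha : InIwahori w a) :
    IsIwahoriMat (Valued.v : Valuation (w.adicCompletion K) _) (finComp w a) where
  int := fun i j => (HeightOneSpectrum.mem_adicCompletionIntegers _ _ _).1 (ha.1 i j)
  low := ha.2.2
  det := valued_det_eq_one_of_integral942 w a ha.1 ha.2.1

/-- `N_n(g)` is Iwahori at `o i`, `n ≤ i < l`. -/
theorem inIwahori_normG942 (s : AdelicAut K) (l : ℕ) (o : ℕ → HeightOneSpectrum (𝓞 K))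
    (ho : ∀ j : ℕ, PlaceRel s (o j) (o (j + 1))) (g : G K)
    (hg : ∀ j : ℕ, 0 < j → j < l → InIwahori (o j) g) (n : ℕ) :
    ∀ i : ℕ, n ≤ i → i < l → InIwahori (o i) (normG942 s n g) := by
  induction n with
  | zero => exact fun i _ _ => inIwahori_one942 (o i)
  | succ n ih =>
    intro i hni hil
    rw [normG942_succ]
    refine inIwahori_mul942 (o i) (hg i (by omega) hil) ?_
    have hrel : PlaceRel s (o (i - 1)) (o i) := by
      have := ho (i - 1)
      rwa [Nat.sub_add_cancel (by omega)] at this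
    exact (H415.inIwahori_onG415 s (o (i - 1)) (o i) hrel _).2 (ih (i - 1) (by omega) (by omega))

/-- `σ(N_{l-1}(g))` is Iwahori at `o 0`. -/
theorem inIwahori_onG_normG942 (s : AdelicAut K) (l : ℕ) (k : Subfield K)
    (hc : IsCyclicOfDegree s l k) (o : ℕ → HeightOneSpectrum (𝓞 K))
    (ho : ∀ j : ℕ, PlaceRel s (o j) (o (j + 1))) (g : G K)
    (hg : ∀ j : ℕ, 0 < j → j < l → InIwahori (o j) g) :
    InIwahori (o 0) (s.onG (normG942 s (l - 1) g)) := by
  have hl := hc.pos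
  rcases Nat.eq_or_lt_of_le (Nat.succ_le_of_lt hl) with h1 | h1
  · -- `l = 1`
    have : l - 1 = 0 := by omega
    rw [this, normG942_zero, map_one]
    exact inIwahori_one942 (o 0)
  · have hrel : PlaceRel s (o (l - 1)) (o 0) := by
      have := ho (l - 1)
      rwa [Nat.sub_add_cancel hl, H415.orbit_period415 s l k hc o ho] at this
    exact (H415.inIwahori_onG415 s (o (l - 1)) (o 0) hrel _).2
      (inIwahori_normG942 s l o ho g hg (l - 1) (l - 1) le_rfl (by omega))

/-! ## Agreement outside the orbit -/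

theorem agreeOutside_mul942 (O : Set (HeightOneSpectrum (𝓞 K))) {a a' b b' : G K}
    (ha : AgreeOutside O a a') (hb : AgreeOutside O b b') : AgreeOutside O (a * b) (a' * b') := by
  refine ⟨fun w => ?_, fun v hv => ?_⟩
  · rw [infComp_mul942, infComp_mul942, ha.1 w, hb.1 w]
  · rw [finComp_mul942, finComp_mul942, ha.2 v hv, hb.2 v hv]

theorem agreeOutside_refl942 (O : Set (HeightOneSpectrum (𝓞 K))) (a : G K) :
    AgreeOutside O a a :=
  ⟨fun _ => rfl, fun _ _ => rfl⟩

theorem agreeOutside_normG942 (s : AdelicAut K) (l : ℕ) (k : Subfield K)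
    (hc : IsCyclicOfDegree s l k) (o : ℕ → HeightOneSpectrum (𝓞 K))
    (ho : ∀ j : ℕ, PlaceRel s (o j) (o (j + 1))) {g h : G K}
    (hgh : AgreeOutside {v | ∃ j < l, v = o j} g h) (n : ℕ) :
    AgreeOutside {v | ∃ j < l, v = o j} (normG942 s n g) (normG942 s n h) := by
  induction n with
  | zero => exact agreeOutside_refl942 _ _
  | succ n ih =>
    rw [normG942_succ, normG942_succ]
    exact agreeOutside_mul942 _ hgh
      (H415.agreeOutside_onG415 s _ (H415.orbit_closed415 s l k hc o ho) _ _ ih)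

/-! ## Scalar factors -/

theorem finComp_scalar942 (v : HeightOneSpectrum (𝓞 K)) {Z : G K} (hZ : IsScalarG942 Z) :
    ∃ c : v.adicCompletion K, c ≠ 0 ∧ finComp v Z = Matrix.diagonal fun _ => c := by
  obtain ⟨ζ, hζ⟩ := hZ
  have h : finComp v Z = Matrix.diagonal fun _ => finProj942 v ζ := by
    rw [finComp_eq_map942, hζ]
    refine Matrix.ext fun i j => ?_
    rw [Matrix.map_apply]
    by_cases hij : i = j
    · subst hij
      rw [Matrix.diagonal_apply_eq, Matrix.diagonal_apply_eq]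
    · rw [Matrix.diagonal_apply_ne _ hij, Matrix.diagonal_apply_ne _ hij]
      exact map_zero (finProj942 v)
  refine ⟨finProj942 v ζ, ?_, h⟩
  intro h0
  have hd := det_finComp_ne_zero942 v Z
  rw [h, Matrix.det_diagonal, h0] at hd
  simp at hd

theorem infComp_scalar942 (w : InfinitePlace K) {Z : G K} (hZ : IsScalarG942 Z) :
    ∃ c : ℂ, c ≠ 0 ∧ infComp w Z = Matrix.diagonal fun _ => c := by
  obtain ⟨ζ, hζ⟩ := hZ
  have h : infComp w Z = Matrix.diagonal fun _ => infProj942 w ζ := by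
    rw [infComp_eq_map942, hζ]
    refine Matrix.ext fun i j => ?_
    rw [Matrix.map_apply]
    by_cases hij : i = j
    · subst hij
      rw [Matrix.diagonal_apply_eq, Matrix.diagonal_apply_eq]
    · rw [Matrix.diagonal_apply_ne _ hij, Matrix.diagonal_apply_ne _ hij]
      exact map_zero (infProj942 w)
  refine ⟨infProj942 w ζ, ?_, h⟩
  intro h0
  have hd := det_infComp_ne_zero942 w Z
  rw [h, Matrix.det_diagonal, h0] at hd
  simp at hd

/-- `‖tr (A c)‖² / ‖det (A c)‖ = ‖tr A‖² / ‖det A‖` for a nonzero scalar `c` (any normed field). -/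
theorem ratio_mul_diagonal942 {F : Type*} [NormedField F] (A : Matrix (Fin 2) (Fin 2) F)
    {c : F} (hc : c ≠ 0) :
    ‖(A * Matrix.diagonal fun _ => c).trace‖ ^ 2 / ‖(A * Matrix.diagonal fun _ => c).det‖
      = ‖A.trace‖ ^ 2 / ‖A.det‖ := by
  have h1 : (A * Matrix.diagonal fun _ => c).trace = c * A.trace := by
    simp [Matrix.trace_fin_two, Matrix.mul_diagonal]
    ring
  have h2 : (A * Matrix.diagonal fun _ => c).det = c ^ 2 * A.det := by
    rw [Matrix.det_mul, Matrix.det_diagonal]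
    simp
    ring
  rw [h1, h2, norm_mul, norm_mul, norm_pow, mul_pow]
  have hc' : ‖c‖ ^ 2 ≠ 0 := pow_ne_zero _ (norm_ne_zero_iff.2 hc)
  rw [mul_div_mul_left _ _ hc']

theorem ratio_mul_scalar_fin942 (v : HeightOneSpectrum (𝓞 K)) (a : G K) {Z : G K}
    (hZ : IsScalarG942 Z) :
    ‖(finComp v (a * Z)).trace‖ ^ 2 / ‖(finComp v (a * Z)).det‖
      = ‖(finComp v a).trace‖ ^ 2 / ‖(finComp v a).det‖ := by
  obtain ⟨c, hc, h⟩ := finComp_scalar942 v hZ
  rw [finComp_mul942, h]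
  exact ratio_mul_diagonal942 _ hc

theorem ratio_mul_scalar_inf942 (w : InfinitePlace K) (a : G K) {Z : G K}
    (hZ : IsScalarG942 Z) :
    ‖(infComp w (a * Z)).trace‖ ^ 2 / ‖(infComp w (a * Z)).det‖
      = ‖(infComp w a).trace‖ ^ 2 / ‖(infComp w a).det‖ := by
  obtain ⟨c, hc, h⟩ := infComp_scalar942 w hZ
  rw [infComp_mul942, h]
  exact ratio_mul_diagonal942 _ hc

/-! ## Elliptic regular over the fixed field -/

open Polynomial in
/-- A matrix whose trace and determinant lie in the subfield `k` and whose characteristic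
polynomial has no root in `k` is elliptic regular over `k`. -/
theorem isEllRegOver_of_no_root942 (k : Subfield K) (γ : GL (Fin 2) K)
    (τ d : k) (hτ : (τ : K) = (γ : Matrix (Fin 2) (Fin 2) K).trace)
    (hd : (d : K) = (γ : Matrix (Fin 2) (Fin 2) K).det)
    (hroot : ∀ x : k, x ^ 2 - τ * x + d ≠ 0) : IsEllRegOver k γ := by
  refine ⟨X ^ 2 - C τ * X + C d, ?_, ?_⟩
  · have hdeg : (X ^ 2 - C τ * X + C d : k[X]).natDegree = 2 := by
      have : (X ^ 2 - C τ * X + C d : k[X]) = C 1 * X ^ 2 + C (-τ) * X + C d := by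
        simp [sub_eq_add_neg]
      rw [this]
      exact natDegree_quadratic one_ne_zero
    have hmonic : (X ^ 2 - C τ * X + C d : k[X]).Monic := by
      have : (X ^ 2 - C τ * X + C d : k[X]) = X ^ 2 + (-(C τ * X) + C d) := by ring
      rw [this]
      refine monic_X_pow_add ?_
      refine lt_of_le_of_lt (degree_add_le _ _) (max_lt ?_ ?_)
      · rw [degree_neg]
        refine lt_of_le_of_lt (degree_C_mul_X_le τ) ?_
        norm_num
      · exact lt_of_le_of_lt degree_C_le (by norm_num)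
    rw [hmonic.irreducible_iff_roots_eq_zero_of_degree_le_three (by omega) (by omega)]
    refine Multiset.eq_zero_of_forall_notMem fun x hx => ?_
    have := (mem_roots'.1 hx).2
    apply hroot x
    simpa [IsRoot] using this
  · rw [Matrix.charpoly_fin_two, ← hτ, ← hd]
    simp [Polynomial.map_sub, Polynomial.map_add, Polynomial.map_mul, Polynomial.map_pow]
    rfl

end Fermat.Agent.LT.T5.H942

end

end
-- ===== PACK-END LT/T5/H942/RegAux.lean

-- ===== PACK-BEGIN LT/T7/H27/EulerCoef.lean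
section




/-!
# Row LT, tower T7, node T7.14 `RigidC`, leaf `EulerLogC`: MULTIPLICATIVITY of `coef` (helper27)

OFF-MAIN.  `coef a S (v ^ m * J) = cl27 a S v m * coef a S J` for `J` a `T`-factored ideal, `v ∉ T`.
-/

set_option autoImplicit false

open IsDedekindDomain NumberField Filter Topology
open scoped ComplexConjugate

noncomputable section

namespace Fermat.Agent.LT.T7.H27

open Fermat.Agent.LT.T7.Rigid

variable {K : Type} [Field K] [NumberField K]

open Classical in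
/-- The local coefficient, bad places included. -/
def cl27 (a : HeightOneSpectrum (𝓞 K) → ℂ) (S : Set (HeightOneSpectrum (𝓞 K)))
    (v : HeightOneSpectrum (𝓞 K)) (m : ℕ) : ℂ :=
  if v ∈ S then (if m = 0 then 1 else 0) else hpoly (a v) m

theorem cl27_zero (a : HeightOneSpectrum (𝓞 K) → ℂ) (S : Set (HeightOneSpectrum (𝓞 K)))
    (v : HeightOneSpectrum (𝓞 K)) : cl27 a S v 0 = 1 := by
  unfold cl27
  by_cases h : v ∈ S
  · rw [if_pos h, if_pos rfl]
  · rw [if_neg h, hpoly_zero27]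

theorem cl27_of_mem (a : HeightOneSpectrum (𝓞 K) → ℂ) {S : Set (HeightOneSpectrum (𝓞 K))}
    {v : HeightOneSpectrum (𝓞 K)} (hv : v ∈ S) {m : ℕ} (hm : m ≠ 0) : cl27 a S v m = 0 := by
  unfold cl27
  rw [if_pos hv, if_neg hm]

theorem cl27_of_notMem (a : HeightOneSpectrum (𝓞 K) → ℂ) {S : Set (HeightOneSpectrum (𝓞 K))}
    {v : HeightOneSpectrum (𝓞 K)} (hv : v ∉ S) (m : ℕ) : cl27 a S v m = hpoly (a v) m := by
  unfold cl27
  rw [if_neg hv]

theorem ordAt_top27 (w : HeightOneSpectrum (𝓞 K)) : ordAt w (⊤ : Ideal (𝓞 K)) = 0 :=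
  (ordAt_eq_zero_iff27 w top_ne_bot).mpr fun h => w.isPrime.ne_top (top_le_iff.mp h)

theorem coef_top27 (a : HeightOneSpectrum (𝓞 K) → ℂ) (S : Set (HeightOneSpectrum (𝓞 K))) :
    coef a S ⊤ = 1 := by
  unfold coef
  rw [if_neg]
  · simp only [ordAt_top27, hpoly_zero27, finprod_one]
  · rintro (h | ⟨v, -, hv⟩)
    · exact top_ne_bot h
    · exact v.isPrime.ne_top (top_le_iff.mp hv)

/-- The finite product identity. -/
theorem finprod_mulPow27 (a : HeightOneSpectrum (𝓞 K) → ℂ) (v : HeightOneSpectrum (𝓞 K))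
    {J : Ideal (𝓞 K)} (hJ : J ≠ ⊥) (hv : ordAt v J = 0) (m : ℕ) :
    ∏ᶠ w : HeightOneSpectrum (𝓞 K), hpoly (a w) (ordAt w (v.asIdeal ^ m * J))
      = hpoly (a v) m * ∏ᶠ w : HeightOneSpectrum (𝓞 K), hpoly (a w) (ordAt w J) := by
  classical
  have hfin : {w : HeightOneSpectrum (𝓞 K) | w.asIdeal ∣ J}.Finite := Ideal.finite_factors hJ
  set U : Finset (HeightOneSpectrum (𝓞 K)) := hfin.toFinset with hU
  have hvU : v ∉ U := by
    rw [hU, Set.Finite.mem_toFinset]
    intro h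
    exact (ordAt_eq_zero_iff27 v hJ).mp hv (Ideal.dvd_iff_le.mp h)
  have hout : ∀ w : HeightOneSpectrum (𝓞 K), w ∉ U → ordAt w J = 0 := by
    intro w hw
    rw [ordAt_eq_zero_iff27 w hJ]
    intro h
    apply hw
    rw [hU, Set.Finite.mem_toFinset]
    exact Ideal.dvd_iff_le.mpr h
  have hvord : ordAt v (v.asIdeal ^ m * J) = m := by
    rw [ordAt_mul27 v (pow_ne_zero m v.ne_bot) hJ, ordAt_pow_self27, hv, add_zero]
  have h1 : ∏ᶠ w : HeightOneSpectrum (𝓞 K), hpoly (a w) (ordAt w J)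
      = ∏ w ∈ U, hpoly (a w) (ordAt w J) := by
    refine finprod_eq_prod_of_mulSupport_subset _ (fun w hw => ?_)
    by_contra hwU
    apply hw
    show hpoly (a w) (ordAt w J) = 1
    rw [hout w hwU, hpoly_zero27]
  have h2 : ∏ᶠ w : HeightOneSpectrum (𝓞 K), hpoly (a w) (ordAt w (v.asIdeal ^ m * J))
      = ∏ w ∈ insert v U, hpoly (a w) (ordAt w (v.asIdeal ^ m * J)) := by
    refine finprod_eq_prod_of_mulSupport_subset _ (fun w hw => ?_)
    by_contra hwU
    apply hw
    have hwv : w ≠ v := fun h => hwU (by rw [h]; exact Finset.mem_coe.mpr (Finset.mem_insert_self _ _))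
    have hwU' : w ∉ U := fun h => hwU (Finset.mem_coe.mpr (Finset.mem_insert_of_mem h))
    show hpoly (a w) (ordAt w (v.asIdeal ^ m * J)) = 1
    rw [ordAt_mulPow_of_ne27 hwv hJ, hout w hwU', hpoly_zero27]
  rw [h1, h2, Finset.prod_insert hvU, hvord]
  congr 1
  refine Finset.prod_congr rfl (fun w hw => ?_)
  have hwv : w ≠ v := fun h => hvU (h ▸ hw)
  rw [ordAt_mulPow_of_ne27 hwv hJ]

/-- **Multiplicativity of `coef`.** -/
theorem coef_mulPow27 (a : HeightOneSpectrum (𝓞 K) → ℂ) (S : Set (HeightOneSpectrum (𝓞 K)))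
    {T : Finset (HeightOneSpectrum (𝓞 K))} {v : HeightOneSpectrum (𝓞 K)} (hv : v ∉ T)
    {J : Ideal (𝓞 K)} (hJ : J ∈ IT27 T) (m : ℕ) :
    coef a S (v.asIdeal ^ m * J) = cl27 a S v m * coef a S J := by
  classical
  have hI0 : v.asIdeal ^ m * J ≠ ⊥ := mul_ne_zero (pow_ne_zero m v.ne_bot) hJ.1
  have hord := ordAt_eq_zero_of_mem27 hv hJ
  by_cases hvS : v ∈ S
  · rcases Nat.eq_zero_or_pos m with hm | hm
    · subst hm
      rw [pow_zero, one_mul, cl27_zero, one_mul]
    · rw [cl27_of_mem a hvS hm.ne', zero_mul]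
      unfold coef
      rw [if_pos]
      right
      refine ⟨v, hvS, ?_⟩
      refine le_trans (Ideal.mul_le_inf.trans inf_le_left) ?_
      exact Ideal.pow_le_self hm.ne'
  · rw [cl27_of_notMem a hvS]
    have hiff : (∃ w ∈ S, v.asIdeal ^ m * J ≤ w.asIdeal) ↔ ∃ w ∈ S, J ≤ w.asIdeal := by
      constructor
      · rintro ⟨w, hwS, hw⟩
        rcases (w.isPrime.mul_le).mp hw with h | h
        · have := w.isPrime.le_of_pow_le h
          rw [le_eq_of_places27 this] at hwS
          exact absurd hwS hvS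
        · exact ⟨w, hwS, h⟩
      · rintro ⟨w, hwS, hw⟩
        exact ⟨w, hwS, (Ideal.mul_le_inf.trans inf_le_right).trans hw⟩
    unfold coef
    by_cases hc : ∃ w ∈ S, J ≤ w.asIdeal
    · rw [if_pos (Or.inr (hiff.mpr hc)), if_pos (Or.inr hc), mul_zero]
    · have hc' : ¬ (v.asIdeal ^ m * J = ⊥ ∨ ∃ w ∈ S, v.asIdeal ^ m * J ≤ w.asIdeal) := by
        rintro (h | h)
        · exact hI0 h
        · exact hc (hiff.mp h)
      have hc'' : ¬ (J = ⊥ ∨ ∃ w ∈ S, J ≤ w.asIdeal) := by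
        rintro (h | h)
        · exact hJ.1 h
        · exact hc h
      rw [if_neg hc', if_neg hc'']
      exact finprod_mulPow27 a v hJ.1 hord m

theorem coef2_mulPow27 (a a' : HeightOneSpectrum (𝓞 K) → ℂ)
    (S : Set (HeightOneSpectrum (𝓞 K)))
    {T : Finset (HeightOneSpectrum (𝓞 K))} {v : HeightOneSpectrum (𝓞 K)} (hv : v ∉ T)
    {J : Ideal (𝓞 K)} (hJ : J ∈ IT27 T) (m : ℕ) :
    coef2 a a' S (v.asIdeal ^ m * J)
      = cl27 a S v m * conj (cl27 a' S v m) * coef2 a a' S J := by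
  unfold coef2
  rw [coef_mulPow27 a S hv hJ, coef_mulPow27 a' S hv hJ, map_mul]
  ring

theorem coef2_top27 (a a' : HeightOneSpectrum (𝓞 K) → ℂ) (S : Set (HeightOneSpectrum (𝓞 K))) :
    coef2 a a' S ⊤ = 1 := by
  unfold coef2
  rw [coef_top27, coef_top27]
  simp

/-- The norm weight is multiplicative. -/
theorem absNorm_rpow_mulPow27 (v : HeightOneSpectrum (𝓞 K)) (J : Ideal (𝓞 K)) (m : ℕ) (s : ℝ) :
    ((Ideal.absNorm (v.asIdeal ^ m * J) : ℕ) : ℝ) ^ (-s)
      = (nv v ^ (-s)) ^ m * ((Ideal.absNorm J : ℕ) : ℝ) ^ (-s) := by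
  rw [map_mul, map_pow, Nat.cast_mul, Nat.cast_pow,
    Real.mul_rpow (by positivity) (by positivity)]
  congr 1
  unfold nv
  rw [Real.rpow_pow_comm (by positivity)]

theorem absNorm_top_rpow27 (s : ℝ) :
    ((Ideal.absNorm (⊤ : Ideal (𝓞 K)) : ℕ) : ℝ) ^ (-s) = 1 := by
  rw [Ideal.absNorm_top]
  simp

end Fermat.Agent.LT.T7.H27

end

end
-- ===== PACK-END LT/T7/H27/EulerCoef.lean

-- ===== PACK-BEGIN LT/T7/H250/NormPos.lean
section



/-!
# Row LT, tower T7, node T7.14, leaf T7.14.5 `Rigid.NormPosC` (registry row 1521; helper250)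

OFF-MAIN.  Typed against byte-identical copies of `LT/T7/H62/RigidAut.lean` (helper62,
sha256 `e1add0c1…`), `LT/T5/Spec.lean` v4 (`f2d97e70…`), `LT/H556/A0.lean` (`66d3374a…`) and their
closure.

`normPosC250 K : Fermat.Agent.LT.T7.Rigid.NormPosC K` VERBATIM, UNCONDITIONAL (for every number
field `K`; the hypothesis `TotCplx K` is not used): a nonzero `S`-form has nonzero norm on every
frame.

## Proof

`U = {φ ≠ 0}` is open and not empty, so `μ U > 0`.  For every `g` there are `m ∈ ℤ` and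
`γ ∈ GL₂(K)` with `γ g ζ_m ∈ F` (`ζ_m` = the positive real scalar `ρ^m` at every infinite place,
`‖det ζ_m‖_𝔸 = 2^m`; `F` is a fundamental domain of `GL₂(K)` in the slab), and `φ (γ g ζ_m) = φ g`.
So `U` is covered by the countably many sets `T_{γ,m}⁻¹ (U ∩ F)`, `T_{γ,m} g = γ g ζ_m`, and
`μ (T_{γ,m}⁻¹ A) = μ A` (`μ` is left and right invariant).  Hence `μ (U ∩ F) > 0` and
`∫_F |φ|² dμ > 0`.  No topology of the slab, no continuity of the module is needed; of the module
only positivity on the ideles and `‖x c‖ = ‖x‖ ∏_w |c_w|^{[K_w:ℝ]}` for `c` supported at infinity.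
-/

set_option autoImplicit false
set_option linter.unusedSectionVars false

open IsDedekindDomain NumberField MeasureTheory AutomorphicForm
open Fermat.Agent.LT.H556.A0
open Fermat.Agent.LT

noncomputable section
namespace Fermat.Agent.LT.T7.H250

variable {K : Type} [Field K] [NumberField K]

attribute [local instance] Fermat.Agent.LT.T5.instMeasurableSpaceG
attribute [local instance] Classical.propDecidable

/-! ## 1. Real scalars at the infinite places -/

/-- Every real number is in the image of the completion at an infinite place. -/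
theorem exists_real_completion250n (w : InfinitePlace K) (r : ℝ) :
    ∃ x : w.Completion, InfinitePlace.Completion.extensionEmbedding w x = (r : ℂ) := by
  have hcl : IsClosed (Set.range (InfinitePlace.Completion.extensionEmbedding w)) :=
    (InfinitePlace.Completion.isometry_extensionEmbedding w).isClosedEmbedding.isClosed_range
  have hsub : Set.range (fun q : ℚ => ((q : ℝ) : ℂ))
      ⊆ Set.range (InfinitePlace.Completion.extensionEmbedding w) := by
    rintro _ ⟨q, rfl⟩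
    refine ⟨(q : w.Completion), ?_⟩
    rw [map_ratCast]
    simp
  have h1 : r ∈ closure (Set.range ((↑) : ℚ → ℝ)) := Rat.denseRange_cast r
  have h2 : (r : ℂ) ∈ closure (Set.range (fun q : ℚ => ((q : ℝ) : ℂ))) := by
    have h3 := map_mem_closure Complex.continuous_ofReal h1
      (t := Set.range (fun q : ℚ => ((q : ℝ) : ℂ))) (by
        rintro _ ⟨q, rfl⟩
        exact ⟨q, rfl⟩)
    exact h3
  exact closure_minimal hsub hcl h2

/-- The element `r` of the completion at `w`. -/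
def rComp250n (w : InfinitePlace K) (r : ℝ) : w.Completion :=
  Classical.choose (exists_real_completion250n w r)

theorem ext_rComp250n (w : InfinitePlace K) (r : ℝ) :
    InfinitePlace.Completion.extensionEmbedding w (rComp250n w r) = (r : ℂ) :=
  Classical.choose_spec (exists_real_completion250n w r)

theorem rComp250n_mul (w : InfinitePlace K) (r s : ℝ) :
    rComp250n w (r * s) = rComp250n w r * rComp250n w s := by
  apply (InfinitePlace.Completion.extensionEmbedding w).injective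
  rw [map_mul, ext_rComp250n, ext_rComp250n, ext_rComp250n, Complex.ofReal_mul]

theorem rComp250n_one (w : InfinitePlace K) : rComp250n w 1 = 1 := by
  apply (InfinitePlace.Completion.extensionEmbedding w).injective
  rw [map_one, ext_rComp250n, Complex.ofReal_one]

theorem norm_rComp250n (w : InfinitePlace K) (r : ℝ) : ‖rComp250n w r‖ = |r| := by
  have h1 := (InfinitePlace.Completion.isometry_extensionEmbedding w).norm_map_of_map_zero
    (map_zero _) (rComp250n w r)
  rw [← h1, ext_rComp250n]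
  simp

/-- The adele which is `ρ w` at the infinite place `w` and `1` at every finite place. -/
def rAd250n (ρ : InfinitePlace K → ℝ) : Adl K :=
  ((fun w => rComp250n w (ρ w) : InfiniteAdeleRing K), (1 : FiniteAdeleRing (𝓞 K) K))

theorem rAd250n_fst (ρ : InfinitePlace K → ℝ) (w : InfinitePlace K) :
    (rAd250n ρ).1 w = rComp250n w (ρ w) := rfl

theorem rAd250n_snd (ρ : InfinitePlace K → ℝ) : (rAd250n ρ).2 = 1 := rfl

theorem rAd250n_mul (ρ σ : InfinitePlace K → ℝ) :
    rAd250n ρ * rAd250n σ = rAd250n (fun w => ρ w * σ w) := by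
  apply Prod.ext
  · funext w
    show rComp250n w (ρ w) * rComp250n w (σ w) = rComp250n w (ρ w * σ w)
    rw [rComp250n_mul]
  · show (1 : FiniteAdeleRing (𝓞 K) K) * 1 = 1
    rw [one_mul]

theorem rAd250n_one : rAd250n (K := K) (fun _ => 1) = 1 := by
  apply Prod.ext
  · funext w
    show rComp250n w 1 = 1
    rw [rComp250n_one]
  · rfl

/-- The idele which is `ρ w ≠ 0` at the infinite place `w` and `1` at every finite place. -/
def rId250n (ρ : InfinitePlace K → ℝ) (hρ : ∀ w, ρ w ≠ 0) : (Adl K)ˣ where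
  val := rAd250n ρ
  inv := rAd250n (fun w => (ρ w)⁻¹)
  val_inv := by
    rw [rAd250n_mul]
    have : (fun w => ρ w * (ρ w)⁻¹) = fun _ => (1 : ℝ) := funext fun w => mul_inv_cancel₀ (hρ w)
    rw [this, rAd250n_one]
  inv_val := by
    rw [rAd250n_mul]
    have : (fun w => (ρ w)⁻¹ * ρ w) = fun _ => (1 : ℝ) := funext fun w => inv_mul_cancel₀ (hρ w)
    rw [this, rAd250n_one]

theorem rId250n_mul (ρ σ : InfinitePlace K → ℝ) (hρ : ∀ w, ρ w ≠ 0) (hσ : ∀ w, σ w ≠ 0) :
    rId250n ρ hρ * rId250n σ hσ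
      = rId250n (fun w => ρ w * σ w) (fun w => mul_ne_zero (hρ w) (hσ w)) := by
  apply Units.ext
  show rAd250n ρ * rAd250n σ = rAd250n (fun w => ρ w * σ w)
  exact rAd250n_mul ρ σ

/-- The scalar matrix `ρ w` at the infinite place `w`, identity at the finite places. -/
def zR250n (ρ : InfinitePlace K → ℝ) (hρ : ∀ w, ρ w ≠ 0) : G K :=
  Units.map (Matrix.scalar (Fin 2) : Adl K →+* Matrix (Fin 2) (Fin 2) (Adl K)).toMonoidHom
    (rId250n ρ hρ)

theorem zR250n_val (ρ : InfinitePlace K → ℝ) (hρ : ∀ w, ρ w ≠ 0) :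
    ((zR250n ρ hρ : G K) : Matrix (Fin 2) (Fin 2) (Adl K))
      = Matrix.diagonal (fun _ => rAd250n ρ) := rfl

theorem zR250n_apply (ρ : InfinitePlace K → ℝ) (hρ : ∀ w, ρ w ≠ 0) (i j : Fin 2) :
    ((zR250n ρ hρ : G K) : Matrix (Fin 2) (Fin 2) (Adl K)) i j
      = if i = j then rAd250n ρ else 0 := by
  rw [zR250n_val, Matrix.diagonal_apply]

theorem zR250n_congr {ρ σ : InfinitePlace K → ℝ} (h : ρ = σ) (hρ : ∀ w, ρ w ≠ 0)
    (hσ : ∀ w, σ w ≠ 0) : zR250n ρ hρ = zR250n σ hσ := by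
  subst h
  rfl

theorem zR250n_mul (ρ σ : InfinitePlace K → ℝ) (hρ : ∀ w, ρ w ≠ 0) (hσ : ∀ w, σ w ≠ 0) :
    zR250n ρ hρ * zR250n σ hσ
      = zR250n (fun w => ρ w * σ w) (fun w => mul_ne_zero (hρ w) (hσ w)) := by
  unfold zR250n
  rw [← map_mul, rId250n_mul]

theorem zR250n_one : zR250n (K := K) (fun _ => 1) (fun _ => one_ne_zero) = 1 := by
  apply Units.ext
  rw [zR250n_val, rAd250n_one]
  exact Matrix.diagonal_one

theorem trivAtFin_zR250n (ρ : InfinitePlace K → ℝ) (hρ : ∀ w, ρ w ≠ 0)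
    (v : HeightOneSpectrum (𝓞 K)) : TrivAtFin v (zR250n ρ hρ) := by
  show finComp v (zR250n ρ hρ) = 1
  refine Matrix.ext fun i j => ?_
  show (((zR250n ρ hρ : G K) : Matrix (Fin 2) (Fin 2) (Adl K)) i j).2 v = _
  rw [zR250n_apply]
  by_cases hij : i = j
  · rw [if_pos hij, rAd250n_snd, hij, Matrix.one_apply_eq]
    rfl
  · rw [if_neg hij, Matrix.one_apply_ne hij]
    rfl

theorem infComp_zR250n (ρ : InfinitePlace K → ℝ) (hρ : ∀ w, ρ w ≠ 0) (w : InfinitePlace K) :
    infComp w (zR250n ρ hρ) = Matrix.diagonal (fun _ => (ρ w : ℂ)) := by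
  refine Matrix.ext fun i j => ?_
  show InfinitePlace.Completion.extensionEmbedding w
    ((((zR250n ρ hρ : G K) : Matrix (Fin 2) (Fin 2) (Adl K)) i j).1 w) = _
  rw [zR250n_apply, Matrix.diagonal_apply]
  by_cases hij : i = j
  · rw [if_pos hij, if_pos hij, rAd250n_fst, ext_rComp250n]
  · rw [if_neg hij, if_neg hij]
    show InfinitePlace.Completion.extensionEmbedding w (0 : w.Completion) = 0
    exact map_zero _

theorem trivAtInf_zR250n (ρ : InfinitePlace K → ℝ) (hρ : ∀ w, ρ w ≠ 0) (w : InfinitePlace K)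
    (h : ρ w = 1) : TrivAtInf w (zR250n ρ hρ) := by
  intro i j
  rw [zR250n_apply]
  by_cases hij : i = j
  · rw [if_pos hij, rAd250n_fst, h, rComp250n_one, hij, Matrix.one_apply_eq]
  · rw [if_neg hij, Matrix.one_apply_ne hij]
    rfl

theorem isArchPosScalar_zR250n (ρ : InfinitePlace K → ℝ) (hρ : ∀ w, ρ w ≠ 0)
    (w₀ : InfinitePlace K) (h1 : ∀ w, w ≠ w₀ → ρ w = 1) (h0 : 0 < ρ w₀) :
    IsArchPosScalar w₀ (zR250n ρ hρ) :=
  ⟨⟨fun w hw => trivAtInf_zR250n ρ hρ w (h1 w hw), fun v => trivAtFin_zR250n ρ hρ v⟩,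
    ρ w₀, h0, infComp_zR250n ρ hρ w₀⟩

/-- A function which is right invariant under the positive scalars at every single infinite
place is right invariant under the positive scalars supported on a finite set of places. -/
theorem inv_zR_finset250n {φ : G K → ℂ}
    (hφ : ∀ (w : InfinitePlace K) (z : G K), IsArchPosScalar w z → ∀ g : G K, φ (g * z) = φ g)
    (r : ℝ) (hr : 0 < r) (S : Finset (InfinitePlace K)) :
    ∀ g : G K, φ (g * zR250n (fun w => if w ∈ S then r else 1)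
      (fun w => by by_cases h : w ∈ S <;> simp [h, hr.ne'])) = φ g := by
  induction S using Finset.induction_on with
  | empty =>
    intro g
    have e : zR250n (K := K) (fun w => if w ∈ (∅ : Finset (InfinitePlace K)) then r else 1)
        (fun w => by by_cases h : w ∈ (∅ : Finset (InfinitePlace K)) <;> simp [h, hr.ne']) = 1 := by
      rw [← zR250n_one]
      exact zR250n_congr (funext fun w => by simp) _ _
    rw [e, mul_one]
  | insert w₀ S hw₀ ih =>
    intro g
    have hsingle : ∀ w, (if w = w₀ then r else (1 : ℝ)) ≠ 0 := fun w => by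
      by_cases h : w = w₀ <;> simp [h, hr.ne']
    have e : zR250n (K := K) (fun w => if w ∈ insert w₀ S then r else 1)
        (fun w => by by_cases h : w ∈ insert w₀ S <;> simp [h, hr.ne'])
        = zR250n (fun w => if w ∈ S then r else 1)
            (fun w => by by_cases h : w ∈ S <;> simp [h, hr.ne'])
          * zR250n (fun w => if w = w₀ then r else 1) hsingle := by
      rw [zR250n_mul]
      refine zR250n_congr (funext fun w => ?_) _ _
      by_cases h : w = w₀
      · subst h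
        simp [hw₀]
      · simp [h]
    rw [e, ← mul_assoc,
      hφ w₀ _ (isArchPosScalar_zR250n _ hsingle w₀ (fun w hw => by simp [hw]) (by simp [hr])),
      ih g]

/-- The positive real scalar `r` at every infinite place. -/
def cR250n (r : ℝ) (hr : r ≠ 0) : G K := zR250n (fun _ => r) (fun _ => hr)

theorem inv_cR250n {φ : G K → ℂ}
    (hφ : ∀ (w : InfinitePlace K) (z : G K), IsArchPosScalar w z → ∀ g : G K, φ (g * z) = φ g)
    (r : ℝ) (hr : 0 < r) (g : G K) : φ (g * cR250n r hr.ne') = φ g := by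
  have h := inv_zR_finset250n hφ r hr Finset.univ g
  have e : zR250n (K := K) (fun w => if w ∈ (Finset.univ : Finset (InfinitePlace K)) then r else 1)
      (fun w => by
        by_cases h : w ∈ (Finset.univ : Finset (InfinitePlace K)) <;> simp [h, hr.ne'])
      = cR250n r hr.ne' :=
    zR250n_congr (funext fun w => by simp) _ _
  rwa [e] at h

/-! ## 2. The module of the determinant -/

/-- The module of the determinant. -/
def detN250n (g : G K) : ℝ :=
  T5.adNorm (Matrix.det (g : Matrix (Fin 2) (Fin 2) (Adl K)))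

theorem mem_slab_iff250n (g : G K) : g ∈ T5.slab K ↔ 1 ≤ detN250n g ∧ detN250n g < 2 :=
  Iff.rfl

theorem finprod_pos250n {ι : Type*} (f : ι → ℝ) (hf : ∀ i, 0 < f i) : 0 < ∏ᶠ i, f i := by
  by_cases hfin : (Function.mulSupport f).Finite
  · rw [finprod_eq_prod f hfin]
    exact Finset.prod_pos fun i _ => hf i
  · rw [finprod_of_infinite_mulSupport hfin]
    exact one_pos

/-- The module of an idele is positive. -/
theorem adNorm_pos250n (x : (Adl K)ˣ) : 0 < T5.adNorm ((x : (Adl K)ˣ) : Adl K) := by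
  unfold T5.adNorm
  have h1 : ∀ w : InfinitePlace K, ((x : Adl K).1 w) ≠ 0 := by
    intro w h
    have e : ((x : Adl K) * ((x⁻¹ : (Adl K)ˣ) : Adl K)).1 w = 1 := by
      rw [Units.mul_inv]
      rfl
    have e' : ((x : Adl K) * ((x⁻¹ : (Adl K)ˣ) : Adl K)).1 w
        = (x : Adl K).1 w * ((x⁻¹ : (Adl K)ˣ) : Adl K).1 w := rfl
    rw [e', h, zero_mul] at e
    exact zero_ne_one e
  have h2 : ∀ v : HeightOneSpectrum (𝓞 K), ((x : Adl K).2 v) ≠ 0 := by
    intro v h
    have e : ((x : Adl K) * ((x⁻¹ : (Adl K)ˣ) : Adl K)).2 v = 1 := by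
      rw [Units.mul_inv]
      rfl
    have e' : ((x : Adl K) * ((x⁻¹ : (Adl K)ˣ) : Adl K)).2 v
        = (x : Adl K).2 v * ((x⁻¹ : (Adl K)ˣ) : Adl K).2 v := rfl
    rw [e', h, zero_mul] at e
    exact zero_ne_one e
  refine mul_pos (Finset.prod_pos fun w _ => pow_pos (norm_pos_iff.2 (h1 w)) _)
    (finprod_pos250n _ fun v => norm_pos_iff.2 (h2 v))

theorem detN250n_pos (g : G K) : 0 < detN250n g := by
  have h := adNorm_pos250n (Matrix.GeneralLinearGroup.det g)
  rwa [Matrix.GeneralLinearGroup.val_det_apply] at h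

/-- The module of the product with an adele supported at the infinite places. -/
theorem adNorm_mul_rAd250n (x : Adl K) (σ : InfinitePlace K → ℝ) :
    T5.adNorm (x * rAd250n σ) = T5.adNorm x * ∏ w : InfinitePlace K, |σ w| ^ w.mult := by
  unfold T5.adNorm
  have h1 : ∀ w : InfinitePlace K, ‖(x * rAd250n σ).1 w‖ ^ w.mult
      = ‖x.1 w‖ ^ w.mult * |σ w| ^ w.mult := by
    intro w
    have e : (x * rAd250n σ).1 w = x.1 w * rComp250n w (σ w) := rfl
    rw [e, norm_mul, norm_rComp250n, mul_pow]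
  have h2 : (x * rAd250n σ).2 = x.2 := by
    show x.2 * (1 : FiniteAdeleRing (𝓞 K) K) = x.2
    rw [mul_one]
  simp only [h1, h2]
  rw [Finset.prod_mul_distrib]
  ring

theorem detN250n_mul_zR (g : G K) (ρ : InfinitePlace K → ℝ) (hρ : ∀ w, ρ w ≠ 0) :
    detN250n (g * zR250n ρ hρ)
      = detN250n g * ∏ w : InfinitePlace K, |ρ w * ρ w| ^ w.mult := by
  unfold detN250n
  rw [Units.val_mul, Matrix.det_mul, zR250n_val, Matrix.det_diagonal, Fin.prod_univ_two,
    rAd250n_mul, adNorm_mul_rAd250n]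

theorem detN250n_mul_cR (g : G K) (r : ℝ) (hr : r ≠ 0) :
    detN250n (g * cR250n r hr) = detN250n g * (|r| ^ Module.finrank ℚ K) ^ 2 := by
  unfold cR250n
  rw [detN250n_mul_zR, Finset.prod_pow_eq_pow_sum, InfinitePlace.sum_mult_eq, abs_mul, ← sq,
    ← pow_mul, ← pow_mul, mul_comm 2 (Module.finrank ℚ K)]

/-! ## 3. The discrete ray -/

/-- The positive real number with `ρ ^ (2 [K : ℚ]) = 2`. -/
def rho250n (K : Type) [Field K] [NumberField K] : ℝ :=
  (2 : ℝ) ^ (((Module.finrank ℚ K * 2 : ℕ) : ℝ)⁻¹)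

theorem rho250n_pos (K : Type) [Field K] [NumberField K] : 0 < rho250n K :=
  Real.rpow_pos_of_pos (by norm_num) _

theorem rho250n_pow (K : Type) [Field K] [NumberField K] :
    rho250n K ^ (Module.finrank ℚ K * 2) = 2 := by
  have hn : Module.finrank ℚ K * 2 ≠ 0 := by
    have : 0 < Module.finrank ℚ K := Module.finrank_pos
    omega
  exact Real.rpow_inv_natCast_pow (by norm_num) hn

/-- `ζ_m`: the positive scalar `ρ ^ m` at every infinite place. -/
def zeta250n (m : ℤ) : G K :=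
  cR250n (rho250n K ^ m) (zpow_ne_zero m (rho250n_pos K).ne')

theorem detN250n_mul_zeta (g : G K) (m : ℤ) :
    detN250n (g * zeta250n m) = detN250n g * (2 : ℝ) ^ m := by
  unfold zeta250n
  rw [detN250n_mul_cR, abs_of_pos (zpow_pos (rho250n_pos K) m), ← pow_mul,
    ← zpow_natCast, ← zpow_mul, mul_comm m, zpow_mul, zpow_natCast, rho250n_pow]

theorem inv_zeta250n {φ : G K → ℂ}
    (hφ : ∀ (w : InfinitePlace K) (z : G K), IsArchPosScalar w z → ∀ g : G K, φ (g * z) = φ g)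
    (m : ℤ) (g : G K) : φ (g * zeta250n m) = φ g :=
  inv_cR250n hφ _ (zpow_pos (rho250n_pos K) m) g

theorem exists_zpow_slab250n (t : ℝ) (ht : 0 < t) :
    ∃ m : ℤ, 1 ≤ t * (2 : ℝ) ^ m ∧ t * (2 : ℝ) ^ m < 2 := by
  obtain ⟨k, hk1, hk2⟩ := exists_mem_Ico_zpow ht (one_lt_two (α := ℝ))
  have h2k : (0 : ℝ) < 2 ^ k := zpow_pos (by norm_num) k
  refine ⟨-k, ?_, ?_⟩
  · rw [zpow_neg, ← div_eq_mul_inv, le_div_iff₀ h2k, one_mul]
    exact hk1
  · rw [zpow_neg, ← div_eq_mul_inv, div_lt_iff₀ h2k, mul_comm, ← zpow_add_one₀ (by norm_num)]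
    exact hk2

theorem countable_K250n (K : Type) [Field K] [NumberField K] : Countable K := by
  have e := (Module.finBasis ℚ K).equivFun
  exact e.injective.countable

theorem countable_GL250n (K : Type) [Field K] [NumberField K] : Countable (GL (Fin 2) K) := by
  have := countable_K250n K
  have hinj : Function.Injective (fun g : GL (Fin 2) K => fun i j : Fin 2 =>
      (g : Matrix (Fin 2) (Fin 2) K) i j) := by
    intro g h hgh
    apply Units.ext
    ext i j
    exact congrFun (congrFun hgh i) j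
  exact hinj.countable

/-! ## 4. The leaf -/

/-- A continuous bounded function which is left invariant under `GL₂(K)`, right invariant under
the positive scalars at every infinite place and not identically zero has nonzero norm on every
frame. -/
theorem innerD_ne_zero250n {μ : Measure (G K)} {F : Set (G K)} (hF : T5.IsFrame μ F)
    {φ : G K → ℂ} (hcont : Continuous φ) (hbdd : ∃ C : ℝ, ∀ g : G K, ‖φ g‖ ≤ C)
    (hleft : ∀ (γ : GL (Fin 2) K) (g : G K), φ (T5.ratG γ * g) = φ g)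
    (hscal : ∀ (w : InfinitePlace K) (z : G K), IsArchPosScalar w z →
      ∀ g : G K, φ (g * z) = φ g)
    (hne : ∃ g : G K, φ g ≠ 0) : T5.innerD μ F φ φ ≠ 0 := by
  intro h0
  have : BorelSpace (G K) := ⟨rfl⟩
  have := hF.haar
  obtain ⟨C, hC⟩ := hbdd
  obtain ⟨g₀, hg₀⟩ := hne
  have hcont2 : Continuous (fun g => φ g * (starRingEnd ℂ) (φ g)) :=
    hcont.mul (Complex.continuous_conj.comp hcont)
  have hint : IntegrableOn (fun g => φ g * (starRingEnd ℂ) (φ g)) F μ := by
    refine Measure.integrableOn_of_bounded (M := C * C) hF.finite.ne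
      hcont2.aestronglyMeasurable (Filter.Eventually.of_forall fun g => ?_)
    rw [norm_mul, RCLike.norm_conj]
    exact mul_le_mul (hC g) (hC g) (norm_nonneg _) ((norm_nonneg _).trans (hC g))
  have hreal : ∀ g, φ g * (starRingEnd ℂ) (φ g) = ((Complex.normSq (φ g) : ℝ) : ℂ) :=
    fun g => Complex.mul_conj (φ g)
  have hintR : IntegrableOn (fun g => Complex.normSq (φ g)) F μ := by
    have := hint.re
    refine this.congr (Filter.Eventually.of_forall fun g => ?_)
    show (φ g * (starRingEnd ℂ) (φ g)).re = Complex.normSq (φ g)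
    rw [hreal, Complex.ofReal_re]
  have h0R : ∫ g in F, Complex.normSq (φ g) ∂μ = 0 := by
    have h1 : T5.innerD μ F φ φ = ((∫ g in F, Complex.normSq (φ g) ∂μ : ℝ) : ℂ) := by
      unfold T5.innerD
      simp only [hreal]
      exact integral_ofReal
    rw [h1] at h0
    exact_mod_cast h0
  have hae : (fun g => Complex.normSq (φ g)) =ᵐ[μ.restrict F] 0 :=
    (setIntegral_eq_zero_iff_of_nonneg_ae
      (Filter.Eventually.of_forall fun g => Complex.normSq_nonneg _) hintR).1 h0R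
  have hVopen : IsOpen {g : G K | φ g ≠ 0} := isOpen_ne_fun hcont continuous_const
  have hVD : μ ({g : G K | φ g ≠ 0} ∩ F) = 0 := by
    have h2 : μ.restrict F {g : G K | φ g ≠ 0} = 0 := by
      have h3 : ∀ᵐ g ∂(μ.restrict F), Complex.normSq (φ g) = 0 := hae
      rw [ae_iff] at h3
      have h4 : {g : G K | φ g ≠ 0} = {g : G K | ¬ Complex.normSq (φ g) = 0} := by
        ext g
        show φ g ≠ 0 ↔ ¬ Complex.normSq (φ g) = 0
        rw [Complex.normSq_eq_zero]
      rw [h4]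
      exact h3
    rwa [Measure.restrict_apply hVopen.measurableSet] at h2
  have hmeasA : MeasurableSet ({g : G K | φ g ≠ 0} ∩ F) := hVopen.measurableSet.inter hF.meas
  have hcnt : Countable (GL (Fin 2) K × ℤ) := by
    have := countable_GL250n K
    infer_instance
  have hsub : {g : G K | φ g ≠ 0} ⊆
      ⋃ p : GL (Fin 2) K × ℤ, (fun g : G K => g * zeta250n p.2) ⁻¹'
        ((fun g : G K => T5.ratG p.1 * g) ⁻¹' ({g : G K | φ g ≠ 0} ∩ F)) := by
    intro g hg
    obtain ⟨m, hm1, hm2⟩ := exists_zpow_slab250n (detN250n g) (detN250n_pos g)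
    have hslab : g * zeta250n m ∈ T5.slab K := by
      rw [mem_slab_iff250n, detN250n_mul_zeta]
      exact ⟨hm1, hm2⟩
    obtain ⟨γ, hγ, -⟩ := hF.strict _ hslab
    refine Set.mem_iUnion.2 ⟨(γ, m), ?_, hγ⟩
    show φ (T5.ratG γ * (g * zeta250n m)) ≠ 0
    rw [hleft, inv_zeta250n hscal]
    exact hg
  have hnull : μ {g : G K | φ g ≠ 0} = 0 := by
    refine measure_mono_null hsub (measure_iUnion_null fun p => ?_)
    rw [hF.right_inv (zeta250n p.2) _ (measurable_const_mul (T5.ratG p.1) hmeasA),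
      measure_preimage_mul]
    exact hVD
  exact (hVopen.measure_pos μ ⟨g₀, hg₀⟩).ne' hnull

/-- **T7.14.5 NORM-POS.** -/
theorem normPosC250 (K : Type) [Field K] [NumberField K] : Rigid.NormPosC K :=
  fun _ _ _ hF _ _ _ hφ hne =>
    innerD_ne_zero250n hF hφ.cont hφ.bdd hφ.left_inv hφ.arch_scalar hne

/-- Type check against the frozen Prop. -/
example (K : Type) [Field K] [NumberField K] : Fermat.Agent.LT.T7.Rigid.NormPosC K :=
  normPosC250 K

end Fermat.Agent.LT.T7.H250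

end

end
-- ===== PACK-END LT/T7/H250/NormPos.lean

-- ===== PACK-BEGIN LT/T7/H231/DictEF.lean
section





/-!
# Row LT, tower T7, leaf T7.05 `DictEFC` (helper231, spare proof)

OFF-MAIN.  Spec: `Fermat/Agent/LT/T7/Spec.lean` v1.2 (origin/helper797@d4e07e123, sha256
76a196044a64b920, byte-identical copy).

`dictEFC231 : DictEFC`, VERBATIM.

Proof.  `F = fieldF ρ ⊆ E = fieldE ρ` are the fixed fields of the open normal subgroups
`ρ⁻¹(SL₂(𝔽₃)) ⊇ ρ⁻¹(Q8)` of `Gal(ℚ̄/ℚ)`; the algebra structure is the inclusion; `E/F` is Galois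
of degree `[SL₂(𝔽₃) : Q8] = 3` (`DictEFFields`); `F = ℚ(ζ₃)` is totally complex (helper922).
* `SeedData ⇒ ConstOnFibres, TrivCentral`: the data of `Φ` at the places over `p` are given by
  ONE Frobenius element at `p` (which exists).
* `IsBC + TrivCentral + SeedData ⇒ MidData`: let `p` be outside a finite set, `σ` a Frobenius
  element at `p`, `g = ρ σ`, `v` a place of `F` over `p`, `w` a place of `E` over `v`.  Then
  `N v = p ^ ordSL g` (helper922) and `N w = p ^ ordQ8 g` (`absNorm_fieldE231`: `ordQ8 g` is the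
  order of `σ` on `E`, all places of the Galois field `E` over `p` have the same norm), and
  `ordQ8 g = ordSL g * d`, `d = ordQ8 (g ^ ordSL g)`, so `w` has residue degree `d` over `v`;
  the base change relation at `(v, w)` and the seed data at `w` give
  `satakePow d a_v b_v = a_w = tr Ψ (g ^ ordQ8 g) = tr Ψ ((g ^ ordSL g) ^ d)`.
-/

set_option autoImplicit false
set_option linter.unusedSectionVars false
set_option linter.style.haveILetI false

open AutomorphicForm
open IsDedekindDomain NumberField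
open scoped MatrixGroups Pointwise

noncomputable section

namespace Fermat.Agent.LT.T7.H231

open Fermat.Agent.LT.H130 Fermat.Agent.LT.H556 Fermat.Agent.LT.A2.H230 Fermat.Agent.LT.T7
open Fermat.Agent.Lib.Cheb.Spec Fermat.Agent.Lib.Cheb.H943
open Fermat.Agent.LT.T7.H922

local notation "Γℚ" => (AlgebraicClosure ℚ ≃ₐ[ℚ] AlgebraicClosure ℚ)

/-- **Leaf T7.05 `DictEFC`.** -/
theorem dictEFC231 : DictEFC := by
  intro ρ Ψ ι hyp nfE
  classical
  haveI := nfE
  have nfF : NumberField (fieldF ρ) := numberField_fieldF231 hyp.cont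
  haveI := nfF
  refine ⟨nfF, algFE231 ρ, fun x => rfl, isCycExt_FE231 hyp.cont hyp.surj,
    (isImagQuad_fieldF922 hyp).2, ?_⟩
  letI := algFE231 ρ
  haveI nE := normal_fieldE231 ρ
  haveI gE : IsGalois ℚ (fieldE ρ) := isGalois_iff.mpr ⟨inferInstance, nE⟩
  haveI hcyc := isCyclotomicExtension_fieldF922 hyp
  obtain ⟨BE, hBE⟩ := frobStatement (fieldE ρ)
  rintro Φ ⟨S₀, hS₀⟩
  -- the data of `Φ` at the places over `p`
  have hΦ : ∀ p : ℕ, p.Prime → p ∉ S₀ → ∀ w w' : HeightOneSpectrum (𝓞 (fieldE ρ)),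
      ((p : ℕ) : 𝓞 (fieldE ρ)) ∈ w.asIdeal → ((p : ℕ) : 𝓞 (fieldE ρ)) ∈ w'.asIdeal →
        Φ.a w = Φ.a w' ∧ Φ.b w = 1 ∧ Φ.b w' = 1 := by
    intro p hp hpS w w' hpw hpw'
    obtain ⟨A, σ, hLO, hσ, -⟩ := exists_frob_over231 (fieldE ρ) w hp hpw
    have h1 := hS₀ p hp hpS A hLO σ hσ w hpw
    have h2 := hS₀ p hp hpS A hLO σ hσ w' hpw'
    exact ⟨h1.1.trans h2.1.symm, h1.2, h2.2⟩
  refine ⟨⟨overFinset231 (fieldE ρ) S₀, ?_⟩, ⟨overFinset231 (fieldE ρ) S₀, ?_⟩, ?_⟩
  · -- `ConstOnFibres`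
    intro w hw w' _ v hvw hvw'
    obtain ⟨p, hp, hpw⟩ := exists_prime_mem231 w
    have hpS : p ∉ S₀ := fun h => hw (mem_overFinset231.mpr ⟨p, h, hp, hpw⟩)
    have hpv := (prime_mem_of_placeOver231 ρ hvw p).mpr hpw
    have hpw' := (prime_mem_of_placeOver231 ρ hvw' p).mp hpv
    obtain ⟨h1, h2, h3⟩ := hΦ p hp hpS w w' hpw hpw'
    exact ⟨h1, h2.trans h3.symm⟩
  · -- `TrivCentral`
    intro w hw
    obtain ⟨p, hp, hpw⟩ := exists_prime_mem231 w
    have hpS : p ∉ S₀ := fun h => hw (mem_overFinset231.mpr ⟨p, h, hp, hpw⟩)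
    exact (hΦ p hp hpS w w hpw hpw).2.1
  · -- `MidData`
    rintro π ⟨S₁, hS₁⟩ ⟨S₂, hS₂⟩
    refine ⟨S₀ ∪ BE ∪ S₁.image primeOf231 ∪ S₂.image primeOf231 ∪ {3}, ?_⟩
    intro p hp hpS A hLO σ hσ v hpv
    simp only [Finset.mem_union, Finset.mem_singleton, not_or] at hpS
    obtain ⟨⟨⟨⟨hp0, hpBE⟩, hp1⟩, hp2⟩, hp3⟩ := hpS
    -- the central character
    have hv2 : v ∉ S₂ := not_mem_of_prime_not_mem_image231 hp hp2 hpv
    have hb : π.b v = 1 := hS₂ v hv2
    -- a place of `E` over `v`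
    obtain ⟨w, hvw⟩ := exists_placeOver231 ρ v
    have hpw := (prime_mem_of_placeOver231 ρ hvw p).mp hpv
    have hw1 : w ∉ S₁ := not_mem_of_prime_not_mem_image231 hp hp1 hpw
    -- the norms
    have hNv : Ideal.absNorm v.asIdeal = p ^ ordSL (ρ σ) := by
      rw [ordSL_frob922 hyp hp hp3 hLO hσ]
      exact absNorm_eq922 (fieldF ρ) hp hp3 v hpv
    have hNw : Ideal.absNorm w.asIdeal = p ^ ordQ8 (ρ σ) :=
      absNorm_fieldE231 hyp.cont hp hLO hσ (fun P hP hpP => (hBE p hp hpBE P hP hpP).1) w hpw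
    have hres : HasResDeg (fieldF ρ) (fieldE ρ) v w (ordQ8 ((ρ σ) ^ ordSL (ρ σ))) := by
      refine ⟨hvw, ?_⟩
      rw [hNw, hNv, ← pow_mul, ← ordQ8_eq_mul231]
    obtain ⟨ha, -⟩ := hS₁ w hw1 v _ hres
    have hseed := (hS₀ p hp hp0 A hLO σ hσ w hpw).1
    refine ⟨?_, hb⟩
    rw [← ha, hseed, pow_ordQ8_eq231]

end Fermat.Agent.LT.T7.H231

end

end
-- ===== PACK-END LT/T7/H231/DictEF.lean

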