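import Mathlib
import Fermat.Agent.Pack.LT2.E11L0
import Fermat.Agent.Pack.LT2.E10L2
import Fermat.Agent.Pack.S43GC.G0E14L0
import Fermat.Agent.Pack.S43GC.G0E14L1
import Fermat.Agent.Pack.S43GC.G0E10L1
import Fermat.Agent.Pack.S43GC.G0E11L0
import Fermat.Agent.Pack.LT2.E11L3
import Fermat.Agent.Pack.S43GC.G0E10L3
import Fermat.Agent.Pack.L1B.E2L0
import Fermat.Agent.Pack.LT2.E12L1
import Fermat.Agent.Pack.LT2.E12L2
import Fermat.Agent.Pack.LT2.E12L3
import Fermat.Agent.Pack.LT2.E7L3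
import Fermat.Agent.Pack.LT2.E0L2
import Fermat.Agent.Pack.LT2.E9L2
import Fermat.Agent.Pack.LT2.E11L2
import Fermat.Agent.Pack.LT2.E9L1
import Fermat.Agent.Pack.LT2.E12L0

set_option linter.all false

-- ===== PACK-BEGIN LT/A2/H456/Theta1.lean
section


/-!
# Row LT, tower A2, leaf A2.02 `TorusCharC` -- top assembly, part 1 (helper456), OFF-MAIN

The map `Θ(a, b) = (1_∞, ι(a_f) + ι(b_f) ω)` and its multiplicativity on torus coordinates.
-/

set_option autoImplicit false

open IsDedekindDomain NumberField AutomorphicForm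
open scoped MatrixGroups

noncomputable section

namespace Fermat.Agent.LT.A2.H456

open Fermat.Agent.LT.H130 Fermat.Agent.LT.H556 Fermat.Agent.LT.A2 Fermat.Agent.LT.A2.H83

variable {K L : Type} [Field K] [NumberField K] [Field L] [NumberField L] [Algebra K L]

/-- `Θ(a, b) = (1_∞, ι(a_f) + ι(b_f) ω)`. -/
def theta456 (ι : FiniteAdeleRing (𝓞 K) K →+* FiniteAdeleRing (𝓞 L) L) (ω : L)
    (a b : A0.Adl K) : A0.Adl L :=
  ((1 : InfiniteAdeleRing L),
    ι a.2 + ι b.2 * algebraMap L (FiniteAdeleRing (𝓞 L) L) ω)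

theorem theta456_fst (ι : FiniteAdeleRing (𝓞 K) K →+* FiniteAdeleRing (𝓞 L) L) (ω : L)
    (a b : A0.Adl K) : (theta456 ι ω a b).1 = 1 := rfl

theorem theta456_snd (ι : FiniteAdeleRing (𝓞 K) K →+* FiniteAdeleRing (𝓞 L) L) (ω : L)
    (a b : A0.Adl K) :
    (theta456 ι ω a b).2 = ι a.2 + ι b.2 * algebraMap L (FiniteAdeleRing (𝓞 L) L) ω := rfl

/-- The property of `ι` used everywhere: rational components go to rational components. -/
def IsBC456 (ι : FiniteAdeleRing (𝓞 K) K →+* FiniteAdeleRing (𝓞 L) L) : Prop :=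
  ∀ (a : FiniteAdeleRing (𝓞 K) K) (v : HeightOneSpectrum (𝓞 K))
    (w : HeightOneSpectrum (𝓞 L)) (x : K), LiesOverPl K w v →
    a v = algebraMap K (v.adicCompletion K) x →
    ι a w = algebraMap L (w.adicCompletion L) (algebraMap K L x)

/-- The place of `K` below the place `w` of `L`. -/
def below456 (K : Type) [Field K] [NumberField K] {L : Type} [Field L] [NumberField L]
    [Algebra K L] (w : HeightOneSpectrum (𝓞 L)) : HeightOneSpectrum (𝓞 K) where
  asIdeal := w.asIdeal.comap (algebraMap (𝓞 K) (𝓞 L))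
  isPrime := Ideal.comap_isPrime _ _
  ne_bot := by
    have h := w.ne_bot
    intro h0
    exact h (Ideal.eq_bot_of_comap_eq_bot h0)

theorem liesOver_below456 (w : HeightOneSpectrum (𝓞 L)) : LiesOverPl K w (below456 K w) := rfl

theorem below456_eq {w : HeightOneSpectrum (𝓞 L)} {v : HeightOneSpectrum (𝓞 K)}
    (h : LiesOverPl K w v) : below456 K w = v :=
  HeightOneSpectrum.ext h

theorem isBC456_algebraMap {ι : FiniteAdeleRing (𝓞 K) K →+* FiniteAdeleRing (𝓞 L) L}
    (hι : IsBC456 ι) (x : K) :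
    ι (algebraMap K (FiniteAdeleRing (𝓞 K) K) x)
      = algebraMap L (FiniteAdeleRing (𝓞 L) L) (algebraMap K L x) := by
  apply FiniteAdeleRing.ext
  intro w
  exact hι _ (below456 K w) w x (liesOver_below456 w) rfl

/-! ## Torus coordinates -/

section Torus

variable {R : Type*} [CommRing R]

theorem torMat_mul456 (t n a b a' b' : R) :
    torMat t n a b * torMat t n a' b'
      = torMat t n (a * a' - n * (b * b')) (a * b' + b * a' + t * (b * b')) := by
  ext i j
  fin_cases i <;> fin_cases j <;>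
    simp [torMat, Matrix.mul_apply, Fin.sum_univ_two] <;> ring

theorem torMat_one456 (t n : R) : torMat t n 1 0 = 1 := by
  ext i j
  fin_cases i <;> fin_cases j <;> simp [torMat]

theorem torMat_det456 (t n a b : R) :
    (torMat t n a b).det = a ^ 2 + t * a * b + n * b ^ 2 := by
  simp [torMat, Matrix.det_fin_two]; ring

theorem torMat_inj456 {t n a b a' b' : R} (h : torMat t n a b = torMat t n a' b') :
    a = a' ∧ b = b' := by
  have h0 := congrFun (congrFun h 0) 0
  have h1 := congrFun (congrFun h 1) 0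
  simp [torMat] at h0 h1
  exact ⟨h0, h1⟩

theorem torMat_apply00_456 (t n a b : R) : torMat t n a b 0 0 = a := by simp [torMat]

theorem torMat_apply10_456 (t n a b : R) : torMat t n a b 1 0 = b := by simp [torMat]

end Torus

section TorusG

variable (t n : K)

local notation "tA" => algebraMap K (A0.Adl K) t
local notation "nA" => algebraMap K (A0.Adl K) n

theorem inTorus_iff456 (m : A0.G K) :
    InTorus t n m ↔ (m : Matrix (Fin 2) (Fin 2) (A0.Adl K))
      = torMat tA nA ((m : Matrix (Fin 2) (Fin 2) (A0.Adl K)) 0 0)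
          ((m : Matrix (Fin 2) (Fin 2) (A0.Adl K)) 1 0) := by
  constructor
  · rintro ⟨a, b, h⟩
    rw [h, torMat_apply00_456, torMat_apply10_456]
  · intro h
    exact ⟨_, _, h⟩

theorem inTorus_one456 : InTorus t n (1 : A0.G K) :=
  ⟨1, 0, by rw [torMat_one456]; rfl⟩

theorem inTorus_mul456 {m m' : A0.G K} (h : InTorus t n m) (h' : InTorus t n m') :
    InTorus t n (m * m') := by
  obtain ⟨a, b, h⟩ := h
  obtain ⟨a', b', h'⟩ := h'
  refine ⟨a * a' - nA * (b * b'), a * b' + b * a' + tA * (b * b'), ?_⟩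
  rw [Units.val_mul, h, h', torMat_mul456]

/-- The determinant of a torus element, as an adele. -/
theorem det_torus456 {m : A0.G K} {a b : A0.Adl K}
    (h : (m : Matrix (Fin 2) (Fin 2) (A0.Adl K)) = torMat tA nA a b) :
    ((Matrix.GeneralLinearGroup.det m : (A0.Adl K)ˣ) : A0.Adl K)
      = a ^ 2 + tA * a * b + nA * b ^ 2 := by
  rw [Matrix.GeneralLinearGroup.val_det_apply, h, torMat_det456]

theorem inv_torus456 {m : A0.G K} {a b : A0.Adl K}
    (h : (m : Matrix (Fin 2) (Fin 2) (A0.Adl K)) = torMat tA nA a b) :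
    ((m⁻¹ : A0.G K) : Matrix (Fin 2) (Fin 2) (A0.Adl K))
      = torMat tA nA
          (((Matrix.GeneralLinearGroup.det m)⁻¹ : (A0.Adl K)ˣ) * (a + tA * b))
          (-((((Matrix.GeneralLinearGroup.det m)⁻¹ : (A0.Adl K)ˣ) : A0.Adl K) * b)) := by
  have hd := det_torus456 t n h
  set d : (A0.Adl K)ˣ := Matrix.GeneralLinearGroup.det m with hdef
  have hdd : ((d⁻¹ : (A0.Adl K)ˣ) : A0.Adl K) * (a ^ 2 + tA * a * b + nA * b ^ 2) = 1 := by
    rw [← hd]; exact Units.inv_mul d
  have hmul : (m : Matrix (Fin 2) (Fin 2) (A0.Adl K)) *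
      torMat tA nA (((d⁻¹ : (A0.Adl K)ˣ) : A0.Adl K) * (a + tA * b))
        (-(((d⁻¹ : (A0.Adl K)ˣ) : A0.Adl K) * b)) = 1 := by
    rw [h, torMat_mul456, ← torMat_one456 tA nA]
    congr 1
    · linear_combination hdd
    · ring
  have h1 : ((m⁻¹ : A0.G K) : Matrix (Fin 2) (Fin 2) (A0.Adl K))
      = ((m⁻¹ : A0.G K) : Matrix (Fin 2) (Fin 2) (A0.Adl K)) * ((m : Matrix (Fin 2) (Fin 2) (A0.Adl K)) *
      torMat tA nA (((d⁻¹ : (A0.Adl K)ˣ) : A0.Adl K) * (a + tA * b))
        (-(((d⁻¹ : (A0.Adl K)ˣ) : A0.Adl K) * b))) := by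
    rw [hmul, mul_one]
  rw [h1, ← mul_assoc, ← Units.val_mul, inv_mul_cancel, Units.val_one, one_mul]

theorem inTorus_inv456 {m : A0.G K} (h : InTorus t n m) : InTorus t n m⁻¹ := by
  obtain ⟨a, b, h⟩ := h
  exact ⟨_, _, inv_torus456 t n h⟩

end TorusG

/-! ## Multiplicativity of `Θ` -/

section ThetaMul

variable (t n : K) (ω : L) (ι : FiniteAdeleRing (𝓞 K) K →+* FiniteAdeleRing (𝓞 L) L)

local notation "tA" => algebraMap K (A0.Adl K) t
local notation "nA" => algebraMap K (A0.Adl K) n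

theorem algebraMap_adl_snd456 (x : K) :
    (algebraMap K (A0.Adl K) x).2 = algebraMap K (FiniteAdeleRing (𝓞 K) K) x := rfl

theorem algebraMap_adl_fst456 (x : K) :
    (algebraMap K (A0.Adl K) x).1 = algebraMap K (InfiniteAdeleRing K) x := rfl

theorem adl_snd_mul456 (a b : A0.Adl K) : (a * b).2 = a.2 * b.2 := rfl
theorem adl_snd_add456 (a b : A0.Adl K) : (a + b).2 = a.2 + b.2 := rfl
theorem adl_snd_sub456 (a b : A0.Adl K) : (a - b).2 = a.2 - b.2 := rfl
theorem adl_snd_neg456 (a : A0.Adl K) : (-a).2 = -a.2 := rfl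
theorem adl_snd_one456 : (1 : A0.Adl K).2 = 1 := rfl
theorem adl_snd_zero456 : (0 : A0.Adl K).2 = 0 := rfl
theorem adl_fst_mul456 (a b : A0.Adl K) : (a * b).1 = a.1 * b.1 := rfl
theorem adl_fst_add456 (a b : A0.Adl K) : (a + b).1 = a.1 + b.1 := rfl
theorem adl_fst_one456 : (1 : A0.Adl K).1 = 1 := rfl
theorem adl_fst_zero456 : (0 : A0.Adl K).1 = 0 := rfl

theorem adl_ext456 {a b : A0.Adl K} (h1 : a.1 = b.1) (h2 : a.2 = b.2) : a = b :=
  Prod.ext h1 h2

variable {t n ω ι}

theorem theta456_mul (hrel : ω ^ 2 - algebraMap K L t * ω + algebraMap K L n = 0)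
    (hι : IsBC456 ι) (a b a' b' : A0.Adl K) :
    theta456 ι ω a b * theta456 ι ω a' b'
      = theta456 ι ω (a * a' - nA * (b * b')) (a * b' + b * a' + tA * (b * b')) := by
  have hω : (algebraMap L (FiniteAdeleRing (𝓞 L) L) ω) ^ 2
      = algebraMap L (FiniteAdeleRing (𝓞 L) L) (algebraMap K L t)
          * algebraMap L (FiniteAdeleRing (𝓞 L) L) ω
        - algebraMap L (FiniteAdeleRing (𝓞 L) L) (algebraMap K L n) := by
    rw [← map_pow, ← map_mul, ← map_sub]
    congr 1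
    linear_combination hrel
  apply Prod.ext
  · show (1 : InfiniteAdeleRing L) * 1 = 1
    rw [mul_one]
  · show (ι a.2 + ι b.2 * algebraMap L (FiniteAdeleRing (𝓞 L) L) ω)
        * (ι a'.2 + ι b'.2 * algebraMap L (FiniteAdeleRing (𝓞 L) L) ω)
      = ι (a * a' - nA * (b * b')).2
        + ι (a * b' + b * a' + tA * (b * b')).2 * algebraMap L (FiniteAdeleRing (𝓞 L) L) ω
    simp only [adl_snd_sub456, adl_snd_add456, adl_snd_mul456, algebraMap_adl_snd456,
      map_sub, map_add, map_mul, isBC456_algebraMap hι]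
    linear_combination (ι b.2 * ι b'.2) * hω

theorem theta456_one : theta456 ι ω (1 : A0.Adl K) 0 = 1 := by
  apply Prod.ext
  · rfl
  · show ι (1 : A0.Adl K).2 + ι (0 : A0.Adl K).2 * algebraMap L (FiniteAdeleRing (𝓞 L) L) ω = 1
    rw [adl_snd_one456, adl_snd_zero456, map_one, map_zero, zero_mul, add_zero]

variable (ι ω)

/-- `Θ` on `GL₂(𝔸_K)`: read the coordinates in the first column. -/
def thetaG456 (m : A0.G K) : A0.Adl L :=
  theta456 ι ω ((m : Matrix (Fin 2) (Fin 2) (A0.Adl K)) 0 0)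
    ((m : Matrix (Fin 2) (Fin 2) (A0.Adl K)) 1 0)

variable {ι ω}

theorem thetaG456_of_eq {m : A0.G K} {a b : A0.Adl K}
    (h : (m : Matrix (Fin 2) (Fin 2) (A0.Adl K)) = torMat tA nA a b) :
    thetaG456 ω ι m = theta456 ι ω a b := by
  unfold thetaG456
  rw [h, torMat_apply00_456, torMat_apply10_456]

theorem thetaG456_one : thetaG456 ω ι (1 : A0.G K) = 1 := by
  unfold thetaG456
  rw [Units.val_one, Matrix.one_apply_eq, Matrix.one_apply_ne (by decide : (1 : Fin 2) ≠ 0)]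
  exact theta456_one

theorem thetaG456_mul (hrel : ω ^ 2 - algebraMap K L t * ω + algebraMap K L n = 0)
    (hι : IsBC456 ι) {m m' : A0.G K} (h : InTorus t n m) (h' : InTorus t n m') :
    thetaG456 ω ι (m * m') = thetaG456 ω ι m * thetaG456 ω ι m' := by
  obtain ⟨a, b, h⟩ := h
  obtain ⟨a', b', h'⟩ := h'
  have hmm : ((m * m' : A0.G K) : Matrix (Fin 2) (Fin 2) (A0.Adl K))
      = torMat tA nA (a * a' - nA * (b * b')) (a * b' + b * a' + tA * (b * b')) := by
    rw [Units.val_mul, h, h', torMat_mul456]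
  rw [thetaG456_of_eq hmm, thetaG456_of_eq h, thetaG456_of_eq h', theta456_mul hrel hι]

theorem isUnit_thetaG456 (hrel : ω ^ 2 - algebraMap K L t * ω + algebraMap K L n = 0)
    (hι : IsBC456 ι) {m : A0.G K} (h : InTorus t n m) : IsUnit (thetaG456 ω ι m) := by
  have h1 := thetaG456_mul hrel hι h (inTorus_inv456 t n h)
  rw [mul_inv_cancel, thetaG456_one] at h1
  exact IsUnit.of_mul_eq_one _ h1.symm

end ThetaMul

end Fermat.Agent.LT.A2.H456

end

end
-- ===== PACK-END LT/A2/H456/Theta1.lean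

-- ===== PACK-BEGIN LT/A2/H593/Torus.lean
section


/-!
# Row LT, tower A2, leaf A2.03.6 `WL.WhitSumC` (helper593) -- part 1: algebra of the torus

OFF-MAIN.  The torus `T = {a + b M_ω}` inside `GL₂(𝔸_K)` is a commutative subgroup; its rational
points act on `K²` by the multiplication of `K[ω]`, the norm form `Q` is multiplicative and
anisotropic.  Complete proofs, nothing assumed.
-/

set_option autoImplicit false

open IsDedekindDomain NumberField AutomorphicForm MeasureTheory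
open scoped MatrixGroups Topology

noncomputable section

namespace Fermat.Agent.LT.A2.H593

open Fermat.Agent.LT.H130 Fermat.Agent.LT.H556 Fermat.Agent.LT.A2

/-! ## Matrices `a + b M_ω` over a commutative ring -/

section Mat

variable {R : Type*} [CommRing R]

theorem torMat_mul593 (t n a b a' b' : R) :
    torMat t n a b * torMat t n a' b'
      = torMat t n (a * a' - n * b * b') (a * b' + b * a' + t * b * b') := by
  ext i j
  fin_cases i <;> fin_cases j <;>
    simp [torMat, Matrix.mul_apply, Fin.sum_univ_two] <;> ring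

theorem torMat_det593 (t n a b : R) :
    (torMat t n a b).det = a ^ 2 + t * a * b + n * b ^ 2 := by
  simp [torMat, Matrix.det_fin_two]
  ring

theorem torMat_one593 (t n : R) : torMat t n 1 0 = 1 := by
  ext i j
  fin_cases i <;> fin_cases j <;> simp [torMat]

theorem torMat_inj593 {t n a b a' b' : R} (h : torMat t n a b = torMat t n a' b') :
    a = a' ∧ b = b' := by
  have h00 := congrFun (congrFun h 0) 0
  have h10 := congrFun (congrFun h 1) 0
  simp [torMat] at h00 h10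
  exact ⟨h00, h10⟩

theorem torMat_map593 {S : Type*} [CommRing S] (f : R →+* S) (t n a b : R) :
    (torMat t n a b).map f = torMat (f t) (f n) (f a) (f b) := by
  ext i j
  fin_cases i <;> fin_cases j <;> simp [torMat]

end Mat

/-! ## The torus in `GL₂(𝔸_K)` -/

section Torus

variable {K : Type} [Field K] [NumberField K]

local notation "ι" => algebraMap K (A0.Adl K)

theorem inTorus_one593 (t n : K) : InTorus t n (1 : A0.G K) :=
  ⟨1, 0, by rw [torMat_one593]; rfl⟩

theorem inTorus_mul593 {t n : K} {m m' : A0.G K} (h : InTorus t n m) (h' : InTorus t n m') :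
    InTorus t n (m * m') := by
  obtain ⟨a, b, hab⟩ := h
  obtain ⟨a', b', hab'⟩ := h'
  refine ⟨a * a' - ι n * b * b', a * b' + b * a' + ι t * b * b', ?_⟩
  rw [Units.val_mul, hab, hab', torMat_mul593]

theorem inTorus_comm593 {t n : K} {m m' : A0.G K} (h : InTorus t n m) (h' : InTorus t n m') :
    m * m' = m' * m := by
  obtain ⟨a, b, hab⟩ := h
  obtain ⟨a', b', hab'⟩ := h'
  apply Units.ext
  rw [Units.val_mul, Units.val_mul, hab, hab', torMat_mul593, torMat_mul593]
  congr 1 <;> ring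

theorem det_val593 (m : A0.G K) :
    ((Matrix.GeneralLinearGroup.det m : (A0.Adl K)ˣ) : A0.Adl K)
      = (m : Matrix (Fin 2) (Fin 2) (A0.Adl K)).det := rfl

theorem inTorus_inv593 {t n : K} {m : A0.G K} (h : InTorus t n m) : InTorus t n m⁻¹ := by
  obtain ⟨a, b, hab⟩ := h
  set δ : (A0.Adl K)ˣ := Matrix.GeneralLinearGroup.det m with hδ
  have hδv : (δ : A0.Adl K) = a ^ 2 + ι t * a * b + ι n * b ^ 2 := by
    rw [hδ, det_val593, hab, torMat_det593]
  set u : A0.Adl K := ((δ⁻¹ : (A0.Adl K)ˣ) : A0.Adl K) with hu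
  have huδ : u * (a ^ 2 + ι t * a * b + ι n * b ^ 2) = 1 := by
    rw [← hδv, hu]; exact Units.inv_mul δ
  refine ⟨u * (a + ι t * b), -(u * b), ?_⟩
  apply Units.inv_eq_of_mul_eq_one_right
  rw [hab, torMat_mul593, ← torMat_one593 (ι t) (ι n)]
  congr 1
  · linear_combination huδ
  · ring

/-- The rational points of the torus are points of the torus. -/
theorem inTorus_of_rat593 {t n : K} {m : A0.G K} (h : InTorusRat t n m) : InTorus t n m := by
  obtain ⟨a, b, hab⟩ := h
  exact ⟨ι a, ι b, hab⟩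

theorem inTorus1_one593 (t n : K) : InTorus1 t n (1 : A0.G K) :=
  ⟨inTorus_one593 t n, map_one _⟩

theorem inTorus1_mul593 {t n : K} {m m' : A0.G K} (h : InTorus1 t n m) (h' : InTorus1 t n m') :
    InTorus1 t n (m * m') :=
  ⟨inTorus_mul593 h.1 h'.1, by rw [map_mul, h.2, h'.2, one_mul]⟩

theorem inTorus1_inv593 {t n : K} {m : A0.G K} (h : InTorus1 t n m) : InTorus1 t n m⁻¹ :=
  ⟨inTorus_inv593 h.1, by rw [map_inv, h.2, inv_one]⟩

/-! ## `GL₂(𝔸_K)⁺` is a subgroup -/

theorem adm_one593 (t n : K) : Adm t n (1 : A0.G K) 1 := ⟨inTorus_one593 t n, rfl⟩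

theorem adm_mul593 {t n : K} {g g' m m' : A0.G K} (h : Adm t n g m) (h' : Adm t n g' m') :
    Adm t n (g * g') (m * m') :=
  ⟨inTorus_mul593 h.1 h'.1, by rw [map_mul, map_mul, h.2, h'.2]⟩

theorem adm_inv593 {t n : K} {g m : A0.G K} (h : Adm t n g m) : Adm t n g⁻¹ m⁻¹ :=
  ⟨inTorus_inv593 h.1, by rw [map_inv, map_inv, h.2]⟩

/-- Multiplying the partner by an element of the norm-one torus. -/
theorem adm_mul_tor1_593 {t n : K} {g m m' : A0.G K} (h : Adm t n g m) (h' : InTorus1 t n m') :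
    Adm t n g (m' * m) :=
  ⟨inTorus_mul593 h'.1 h.1, by rw [map_mul, h'.2, one_mul, h.2]⟩

theorem inGPlus_one593 (t n : K) : InGPlus t n (1 : A0.G K) := ⟨1, adm_one593 t n⟩

theorem inGPlus_mul593 {t n : K} {g g' : A0.G K} (h : InGPlus t n g) (h' : InGPlus t n g') :
    InGPlus t n (g * g') := by
  obtain ⟨m, hm⟩ := h
  obtain ⟨m', hm'⟩ := h'
  exact ⟨m * m', adm_mul593 hm hm'⟩

theorem inGPlus_inv593 {t n : K} {g : A0.G K} (h : InGPlus t n g) : InGPlus t n g⁻¹ := by
  obtain ⟨m, hm⟩ := h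
  exact ⟨m⁻¹, adm_inv593 hm⟩

/-! ## The action on `𝔸_K²` -/

theorem actV_one593 (ξ : A0.Adl K × A0.Adl K) : actV (1 : A0.G K) ξ = ξ := by
  simp [actV]

theorem actV_mul593 (m m' : A0.G K) (ξ : A0.Adl K × A0.Adl K) :
    actV (m * m') ξ = actV m (actV m' ξ) := by
  simp only [actV, Units.val_mul, Matrix.mul_apply, Fin.sum_univ_two]
  ext <;> simp <;> ring

theorem actV_smul593 (m : A0.G K) (c : A0.Adl K) (ξ : A0.Adl K × A0.Adl K) :
    actV m (c • ξ) = c • actV m ξ := by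
  simp only [actV]
  ext <;> simp <;> ring

theorem actV_inv_eq593 {m : A0.G K} {ξ ζ : A0.Adl K × A0.Adl K} (h : actV m ζ = ξ) :
    actV m⁻¹ ξ = ζ := by
  rw [← h, ← actV_mul593, inv_mul_cancel, actV_one593]

theorem actV_torMat593 {t n : K} {m : A0.G K} {a b : A0.Adl K}
    (h : (m : Matrix (Fin 2) (Fin 2) (A0.Adl K)) = torMat (ι t) (ι n) a b)
    (ξ : A0.Adl K × A0.Adl K) :
    actV m ξ = (a * ξ.1 - ι n * b * ξ.2, b * ξ.1 + (a + ι t * b) * ξ.2) := by
  simp only [actV, h, torMat]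
  refine Prod.ext ?_ ?_
  · simp
    try ring
  · simp
    try ring

end Torus

/-! ## The rational quadratic space `(K², Q)` -/

section Rat

variable {K : Type} [Field K]

/-- `Q(x, y) = x² + t x y + n y²` on `K²`. -/
def qK593 (t n : K) (ξ : K × K) : K := ξ.1 ^ 2 + t * ξ.1 * ξ.2 + n * ξ.2 ^ 2

/-- The multiplication of `K[ω]` in the basis `1, ω`. -/
def pact593 (t n : K) (p ξ : K × K) : K × K :=
  (p.1 * ξ.1 - n * p.2 * ξ.2, p.2 * ξ.1 + (p.1 + t * p.2) * ξ.2)

theorem qK_pact593 (t n : K) (p ξ : K × K) :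
    qK593 t n (pact593 t n p ξ) = qK593 t n p * qK593 t n ξ := by
  simp only [qK593, pact593]; ring

theorem pact_sub593 (t n : K) (p q ξ : K × K) :
    pact593 t n (p - q) ξ = pact593 t n p ξ - pact593 t n q ξ := by
  simp only [pact593, Prod.fst_sub, Prod.snd_sub, Prod.mk_sub_mk]
  ext <;> simp <;> ring

/-- `Q` is anisotropic when `X² - tX + n` has no root. -/
theorem qK_aniso593 {t n : K} (hirr : ∀ x : K, x ^ 2 - t * x + n ≠ 0) {ξ : K × K}
    (h : qK593 t n ξ = 0) : ξ = 0 := by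
  by_cases h2 : ξ.2 = 0
  · have h1 : ξ.1 = 0 := by
      have : ξ.1 ^ 2 = 0 := by simpa [qK593, h2] using h
      exact pow_eq_zero_iff (two_ne_zero) |>.mp this
    exact Prod.ext h1 h2
  · exfalso
    apply hirr (-ξ.1 / ξ.2)
    have : (-ξ.1 / ξ.2) ^ 2 - t * (-ξ.1 / ξ.2) + n = qK593 t n ξ / ξ.2 ^ 2 := by
      simp only [qK593]; field_simp; ring
    rw [this, h, zero_div]

theorem pact_injective593 {t n : K} (hirr : ∀ x : K, x ^ 2 - t * x + n ≠ 0) {ξ : K × K}
    (hξ : qK593 t n ξ ≠ 0) {p q : K × K} (h : pact593 t n p ξ = pact593 t n q ξ) : p = q := by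
  have h0 : pact593 t n (p - q) ξ = 0 := by rw [pact_sub593, h, sub_self]
  have h1 : qK593 t n (p - q) * qK593 t n ξ = 0 := by
    rw [← qK_pact593, h0]; simp [qK593]
  have h2 : qK593 t n (p - q) = 0 := (mul_eq_zero.mp h1).resolve_right hξ
  exact sub_eq_zero.mp (qK_aniso593 hirr h2)

end Rat

end Fermat.Agent.LT.A2.H593

end

end
-- ===== PACK-END LT/A2/H593/Torus.lean

-- ===== PACK-BEGIN LT/A2/H989/LiftCont.lean
section


/-!
# Row LT, tower A2, station WeilLocalC, leaf A2.03.3 `WL.LiftContC` (helper989)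

OFF-MAIN.  PROVED: `liftCont989 : WL.LiftContC` -- the theta lift of good data is continuous.

Only `T1Out.locComp` (local compactness, Hausdorff, second countability of `GL₂(𝔸_K)`),
`D.Good` (`torus`, `measured`, `regular`) and `TorusOpenC` are used; the certificate `IsStd`
is not needed.
-/

set_option autoImplicit false
set_option linter.style.haveILetI false

open IsDedekindDomain NumberField AutomorphicForm MeasureTheory
open scoped MatrixGroups Topology

noncomputable section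

namespace Fermat.Agent.LT.A2.H989

open Fermat.Agent.LT.H130 Fermat.Agent.LT.H556 Fermat.Agent.LT.A2

variable {K : Type} [Field K] [NumberField K]

/-! ## The torus is a group -/

theorem inTorus_one989 (t n : K) : InTorus t n (1 : A0.G K) := by
  refine ⟨1, 0, ?_⟩
  ext i j
  fin_cases i <;> fin_cases j <;> simp [torMat]

theorem inTorus_mul989 (t n : K) {m m' : A0.G K} (h : InTorus t n m) (h' : InTorus t n m') :
    InTorus t n (m * m') := by
  obtain ⟨a, b, hm⟩ := h
  obtain ⟨a', b', hm'⟩ := h'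
  refine ⟨a * a' - algebraMap K (A0.Adl K) n * b * b',
    a * b' + a' * b + algebraMap K (A0.Adl K) t * b * b', ?_⟩
  rw [Units.val_mul, hm, hm']
  ext i j
  fin_cases i <;> fin_cases j <;> simp [torMat, Matrix.mul_apply, Fin.sum_univ_two] <;> ring

theorem inTorus_inv989 (t n : K) {m : A0.G K} (h : InTorus t n m) : InTorus t n m⁻¹ := by
  obtain ⟨a, b, hm⟩ := h
  refine ⟨Ring.inverse (Matrix.det (m : Matrix (Fin 2) (Fin 2) (A0.Adl K)))
      * (a + algebraMap K (A0.Adl K) t * b),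
    -(Ring.inverse (Matrix.det (m : Matrix (Fin 2) (Fin 2) (A0.Adl K))) * b), ?_⟩
  rw [Matrix.coe_units_inv, Matrix.inv_def, Matrix.adjugate_fin_two, hm]
  ext i j
  fin_cases i <;> fin_cases j <;> simp [torMat] <;> ring

theorem adm_one989 (t n : K) : Adm t n (1 : A0.G K) 1 := ⟨inTorus_one989 t n, rfl⟩

theorem adm_mul989 (t n : K) {g m g' m' : A0.G K} (h : Adm t n g m) (h' : Adm t n g' m') :
    Adm t n (g * g') (m * m') :=
  ⟨inTorus_mul989 t n h.1 h'.1, by rw [map_mul, map_mul, h.2, h'.2]⟩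

theorem adm_inv989 (t n : K) {g m : A0.G K} (h : Adm t n g m) : Adm t n g⁻¹ m⁻¹ :=
  ⟨inTorus_inv989 t n h.1, by rw [map_inv, map_inv, h.2]⟩

theorem adm_torus1_mul989 (t n : K) {g m m' : A0.G K} (h : Adm t n g m)
    (h' : InTorus1 t n m') : Adm t n g (m' * m) :=
  ⟨inTorus_mul989 t n h'.1 h.1, by rw [map_mul, h'.2, one_mul, h.2]⟩

theorem inGPlus_one989 (t n : K) : InGPlus t n (1 : A0.G K) := ⟨1, adm_one989 t n⟩

theorem inGPlus_mul_inv989 (t n : K) {g g' : A0.G K} (h : InGPlus t n g)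
    (h' : InGPlus t n g') : InGPlus t n (g * g'⁻¹) := by
  obtain ⟨m, hm⟩ := h
  obtain ⟨m', hm'⟩ := h'
  exact ⟨m * m'⁻¹, adm_mul989 t n hm (adm_inv989 t n hm')⟩

/-! ## Elementary bounds -/

theorem norm_chiT_le989 {t n : K} {χT : A0.G K → ℂ} (hχ : IsTorusChar t n χT) {m : A0.G K}
    (hm : InTorus t n m) : ‖χT m‖ ≤ 1 := by
  obtain ⟨k, hk, hpow⟩ := hχ.fin_order
  have h1 : ‖χT m‖ ^ k = 1 := by rw [← norm_pow, hpow m hm, norm_one]
  exact le_of_eq ((pow_eq_one_iff_of_nonneg (norm_nonneg _) hk.ne').1 h1)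

theorem norm_theta_le989 (D : KData K) {g m : A0.G K} {b : K × K → ℝ} (hb : Summable b)
    (h : ∀ ξ : K × K, ‖D.F g m (ratV ξ)‖ ≤ b ξ) : ‖D.theta g m‖ ≤ ∑' ξ, b ξ :=
  tsum_of_norm_bounded hb.hasSum h

/-! ## The integrand -/

/-- The integrand of the theta lift, as a function of `((g, m_g), m)`. -/
def integrand989 (D : KData K) (q : (A0.G K × A0.G K) × A0.G K) : ℂ :=
  D.theta q.1.1 (q.2 * q.1.2) * D.χT (q.2 * q.1.2)

/-- The domain of the integrand: `(g, m_g)` admissible, `m ∈ T¹(𝔸_K)`. -/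
def dom989 (D : KData K) : Set ((A0.G K × A0.G K) × A0.G K) :=
  {q | Adm D.t D.n q.1.1 q.1.2 ∧ InTorus1 D.t D.n q.2}

/-- The map `((g, m_g), m) ↦ (g, m m_g)`. -/
def shift989 (q : (A0.G K × A0.G K) × A0.G K) : A0.G K × A0.G K := (q.1.1, q.2 * q.1.2)

theorem continuous_shift989 : Continuous (shift989 (K := K)) := by
  unfold shift989
  fun_prop

theorem shift_mapsTo989 (D : KData K) (Q : Set ((A0.G K × A0.G K) × A0.G K)) :
    Set.MapsTo shift989 (dom989 D ∩ Q) {p : A0.G K × A0.G K | Adm D.t D.n p.1 p.2} :=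
  fun _ hq => adm_torus1_mul989 D.t D.n hq.1.1 hq.1.2

/-- The integrand is bounded on the compact subsets of its domain. -/
theorem integrand_bound989 (D : KData K) (hG : D.Good)
    (Q : Set ((A0.G K × A0.G K) × A0.G K)) (hQ : IsCompact Q) :
    ∃ B : ℝ, ∀ q ∈ dom989 D ∩ Q, ‖integrand989 D q‖ ≤ B := by
  obtain ⟨b, hb, hbound⟩ := hG.regular.loc_summable (shift989 '' Q)
    (hQ.image continuous_shift989)
  refine ⟨∑' ξ, b ξ, fun q hq => ?_⟩
  have hadm : Adm D.t D.n q.1.1 (q.2 * q.1.2) := shift_mapsTo989 D Q hq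
  have h1 : ‖D.theta q.1.1 (q.2 * q.1.2)‖ ≤ ∑' ξ, b ξ :=
    norm_theta_le989 D hb fun ξ => hbound ξ (shift989 q) ⟨q, hq.2, rfl⟩ hadm
  have h2 : ‖D.χT (q.2 * q.1.2)‖ ≤ 1 := norm_chiT_le989 hG.torus hadm.1
  have h0 : 0 ≤ ∑' ξ, b ξ := le_trans (norm_nonneg _) h1
  calc ‖integrand989 D q‖ = ‖D.theta q.1.1 (q.2 * q.1.2)‖ * ‖D.χT (q.2 * q.1.2)‖ := norm_mul _ _
    _ ≤ (∑' ξ, b ξ) * 1 := mul_le_mul h1 h2 (norm_nonneg _) h0
    _ = ∑' ξ, b ξ := mul_one _

/-- The integrand is continuous on the compact subsets of its domain. -/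
theorem integrand_continuousOn989 (D : KData K) (hG : D.Good)
    (Q : Set ((A0.G K × A0.G K) × A0.G K)) (hQ : IsCompact Q) :
    ContinuousOn (integrand989 D) (dom989 D ∩ Q) := by
  obtain ⟨b, hb, hbound⟩ := hG.regular.loc_summable (shift989 '' Q)
    (hQ.image continuous_shift989)
  have hmaps := shift_mapsTo989 D Q
  have hshift : ContinuousOn (shift989 (K := K)) (dom989 D ∩ Q) :=
    continuous_shift989.continuousOn
  have hθ : ContinuousOn (fun q : (A0.G K × A0.G K) × A0.G K => D.theta q.1.1 (q.2 * q.1.2))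
      (dom989 D ∩ Q) := by
    unfold KData.theta
    refine continuousOn_tsum (u := b) (fun ξ => ?_) hb (fun ξ q hq => ?_)
    · exact (hG.regular.cont_pair (ratV ξ)).comp hshift hmaps
    · exact hbound ξ (shift989 q) ⟨q, hq.2, rfl⟩ (hmaps hq)
  have hχ : ContinuousOn (fun q : (A0.G K × A0.G K) × A0.G K => D.χT (q.2 * q.1.2))
      (dom989 D ∩ Q) := by
    have h2 : ContinuousOn (fun q : (A0.G K × A0.G K) × A0.G K => q.2 * q.1.2)
        (dom989 D ∩ Q) := by
      apply Continuous.continuousOn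
      fun_prop
    exact hG.torus.cont.comp h2 fun q hq => (hmaps hq).1
  exact hθ.mul hχ

/-! ## The theta integral is continuous on the admissible pairs -/

/-- The theta integral as a function of the admissible pair `(g, m_g)`. -/
def Phi989 (D : KData K) (p : A0.G K × A0.G K) : ℂ :=
  D.intT D.DT fun m => integrand989 D (p, m)

theorem Phi_continuousWithinAt989 (D : KData K) (hT1 : T1.T1Out K) (hG : D.Good)
    (p₁ : A0.G K × A0.G K) (hp₁ : Adm D.t D.n p₁.1 p₁.2) :
    ContinuousWithinAt (Phi989 D) {p | Adm D.t D.n p.1 p.2} p₁ := by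
  obtain ⟨-, hlc, ht2, hsc⟩ := hT1.locComp
  haveI := hlc
  haveI := ht2
  haveI := hsc
  letI : MeasurableSpace (A0.G K) := borel (A0.G K)
  haveI : BorelSpace (A0.G K) := ⟨rfl⟩
  obtain ⟨C, hC, hDC⟩ := hG.measured.dom_compact
  obtain ⟨N, hN, hNnhds⟩ := exists_compact_mem_nhds p₁
  obtain ⟨B, hB⟩ := integrand_bound989 D hG (N ×ˢ C) (hN.prod hC)
  have hfin : D.μT D.DT < ⊤ :=
    lt_of_le_of_lt (measure_mono hDC) (hG.measured.compact_lt C hC)
  haveI : IsFiniteMeasure (D.μT.restrict D.DT) :=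
    ⟨by rw [Measure.restrict_apply_univ]; exact hfin⟩
  unfold Phi989 KData.intT
  refine continuousWithinAt_of_dominated (bound := fun _ => B) ?_ ?_ ?_ ?_
  · -- measurability
    refine eventually_nhdsWithin_of_forall fun p hp => ?_
    have hcont : ContinuousOn (fun m => integrand989 D (p, m)) D.DT := by
      have h1 := integrand_continuousOn989 D hG (({p} : Set (A0.G K × A0.G K)) ×ˢ C)
        (isCompact_singleton.prod hC)
      refine h1.comp (Continuous.continuousOn (by fun_prop)) fun m hm => ?_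
      exact ⟨⟨hp, hG.measured.dom_sub m hm⟩, rfl, hDC hm⟩
    exact hcont.aestronglyMeasurable hG.measured.dom_meas
  · -- domination
    have hN' : N ∈ 𝓝[{p | Adm D.t D.n p.1 p.2}] p₁ := mem_nhdsWithin_of_mem_nhds hNnhds
    filter_upwards [hN', self_mem_nhdsWithin] with p hpN hp
    refine ae_restrict_of_forall_mem hG.measured.dom_meas fun m hm => ?_
    exact hB (p, m) ⟨⟨hp, hG.measured.dom_sub m hm⟩, hpN, hDC hm⟩
  · -- the bound is integrable
    exact integrable_const B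
  · -- pointwise continuity
    refine ae_restrict_of_forall_mem hG.measured.dom_meas fun m hm => ?_
    have h1 := integrand_continuousOn989 D hG (N ×ˢ ({m} : Set (A0.G K)))
      (hN.prod isCompact_singleton)
    have h2 : ContinuousOn (fun p => integrand989 D (p, m))
        ({p | Adm D.t D.n p.1 p.2} ∩ N) := by
      refine h1.comp (Continuous.continuousOn (by fun_prop)) fun p hp => ?_
      exact ⟨⟨hp.1, hG.measured.dom_sub m hm⟩, hp.2, rfl⟩
    have h3 := h2.continuousWithinAt ⟨hp₁, mem_of_mem_nhds hNnhds⟩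
    exact (continuousWithinAt_inter hNnhds).1 h3

/-! ## Continuity of the lift -/

/-- The lift is continuous at the points of `GL₂(𝔸_K)⁺`. -/
theorem lift_continuousAt_of_adm989 (hTO : WL.TorusOpenC) (D : KData K) (hT1 : T1.T1Out K)
    (hG : D.Good) (φ : A0.G K → ℂ) (hφ : D.IsLift φ) (g₁ m₁ : A0.G K)
    (h : Adm D.t D.n g₁ m₁) : ContinuousAt φ g₁ := by
  have hΦ := Phi_continuousWithinAt989 D hT1 hG (g₁, m₁) h
  have hval : ∀ g m : A0.G K, Adm D.t D.n g m → φ g = Phi989 D (g, m) :=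
    fun g m hgm => hφ.formula g m hgm
  unfold ContinuousAt
  rw [hval g₁ m₁ h]
  intro W hW
  have h1 := hΦ hW
  rw [Filter.mem_map, mem_nhdsWithin_iff_exists_mem_nhds_inter] at h1
  obtain ⟨N, hN, hNsub⟩ := h1
  obtain ⟨U₁, hU₁, V₁, hV₁, hUV⟩ := mem_nhds_prod_iff.1 hN
  obtain ⟨U₂, hU₂, hpart⟩ := hTO K D.t D.n hG.torus.irred g₁ m₁ h V₁ hV₁
  rw [Filter.mem_map]
  filter_upwards [hU₁, hU₂] with g hg₁ hg₂
  obtain ⟨m, hmV, hadm⟩ := hpart g hg₂
  show φ g ∈ W
  rw [hval g m hadm]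
  exact hNsub ⟨hUV (Set.mk_mem_prod hg₁ hmV), hadm⟩

/-- `GL₂(𝔸_K)⁺` is open. -/
theorem isOpen_inGPlus989 (hTO : WL.TorusOpenC) (t n : K) (hirr : ∀ x : K, x ^ 2 - t * x + n ≠ 0) :
    IsOpen {g : A0.G K | InGPlus t n g} := by
  rw [isOpen_iff_mem_nhds]
  rintro g₀ ⟨m₀, h₀⟩
  obtain ⟨U, hU, hpart⟩ := hTO K t n hirr g₀ m₀ h₀ Set.univ Filter.univ_mem
  filter_upwards [hU] with g hg
  obtain ⟨m, -, hadm⟩ := hpart g hg
  exact ⟨m, hadm⟩

/-- **A2.03.3 LIFT-CONT.**  The theta lift of good data is continuous. -/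
theorem liftCont989 : WL.LiftContC := by
  intro hTO K _ _ D η hT1 hG _ φ hφ
  rw [continuous_iff_continuousAt]
  intro g₀
  by_cases hS : ∃ γ : GL (Fin 2) K, InGPlus D.t D.n (ratG γ * g₀)
  · obtain ⟨γ, m₁, hadm⟩ := hS
    have h1 : ContinuousAt φ (ratG γ * g₀) :=
      lift_continuousAt_of_adm989 hTO D hT1 hG φ hφ (ratG γ * g₀) m₁ hadm
    have h2 : φ = fun g => φ (ratG γ * g) := funext fun g => (hφ.left_inv γ g).symm
    rw [h2]
    exact ContinuousAt.comp (f := fun g : A0.G K => ratG γ * g) h1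
      (continuous_const.mul continuous_id).continuousAt
  · have hopen := isOpen_inGPlus989 hTO D.t D.n hG.torus.irred
    have hU : {g : A0.G K | InGPlus D.t D.n (g₀⁻¹ * g)} ∈ 𝓝 g₀ := by
      refine (hopen.preimage (f := fun g : A0.G K => g₀⁻¹ * g)
        (continuous_const.mul continuous_id)).mem_nhds ?_
      show InGPlus D.t D.n (g₀⁻¹ * g₀)
      rw [inv_mul_cancel]
      exact inGPlus_one989 D.t D.n
    have hzero : ∀ᶠ g in 𝓝 g₀, φ g = 0 := by
      filter_upwards [hU] with g hg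
      refine hφ.off g fun γ hγ => hS ⟨γ, ?_⟩
      have h3 := inGPlus_mul_inv989 D.t D.n hγ hg
      have h4 : ratG γ * g * (g₀⁻¹ * g)⁻¹ = ratG γ * g₀ := by group
      rwa [h4] at h3
    exact continuousAt_const.congr (hzero.mono fun g hg => hg.symm)

end Fermat.Agent.LT.A2.H989

end

end
-- ===== PACK-END LT/A2/H989/LiftCont.lean

-- ===== PACK-BEGIN LT/CFT/H1/StepB.lean
section






/-!
# Row LT, tower CFT, sub-tower REC2 (helper1), OFF-MAIN : sub-leaf SB2 = STEP B' (PROVED)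

`stepB2 : StepB2Spec`, i.e. `HassePrinciple2Spec → ∀ I, CycloSumTCSpec I → TrivAbove2Spec I`.

Copy of main `Fermat.Agent.S55.G.Rec.H415.trivAboveP_of` (helper415) at `p = 2`.  Changes:
* the character is `σ ↦ c(σ)²`, `c` the cyclotomic character mod `2^(m+2)`; its values lie in the
  CYCLIC subgroup `⟨5⟩` of index `2` of `(ℤ/2^(m+2))ˣ` (`ZMod.orderOf_five`);
* `(ℤ/2^N)ˣ` is not cyclic: a subgroup of order divisible by `2^(K+1)` contains an element of
  order divisible by `2^K` (`exists_orderOf_of_index_dvd_two`), so one more power of `2` is asked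
  from the local degrees (main `H414`, valid for every prime);
* the Hasse principle is applied to the extension `ker χ ≤ U`, which is totally complex
  (`IsTC.mono`).
-/

set_option autoImplicit false

noncomputable section

namespace Fermat.Agent.LT.CFT.H1

open Fermat.Agent.S55.G.Rec Fermat.Agent.S55.G.Rec.H415 groupCohomology Fermat.Agent.S55.H414
  ExtCitation

local notation "Qb" => AlgebraicClosure ℚ
local notation "GQ" => (AlgebraicClosure ℚ ≃ₐ[ℚ] AlgebraicClosure ℚ)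

/-! ## Group theory -/

/-- In a commutative group with a cyclic subgroup `Z` of index dividing `2`, every finite
subgroup of order divisible by `2 ^ (K + 1)` contains an element of order divisible by `2 ^ K`. -/
theorem exists_orderOf_of_index_dvd_two {G : Type*} [CommGroup G] [Finite G] (Z : Subgroup G)
    [IsCyclic ↥Z] (hZ : Z.index ∣ 2) (H : Subgroup G) (K : ℕ) (hH : 2 ^ (K + 1) ∣ Nat.card ↥H) :
    ∃ h ∈ H, 2 ^ K ∣ orderOf h := by
  -- the intersection, as a subgroup of `H`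
  set H' : Subgroup ↥H := Z.subgroupOf H with hH'
  have hcard : Nat.card ↥H' * Z.relIndex H = Nat.card ↥H := Subgroup.card_mul_index H'
  have hr : Z.relIndex H ∣ 2 := (Subgroup.relIndex_dvd_index_of_normal Z H).trans hZ
  have hdiv : 2 ^ K ∣ Nat.card ↥H' := by
    rcases (Nat.dvd_prime Nat.prime_two).1 hr with h1 | h2
    · rw [h1, mul_one] at hcard
      rw [hcard]
      exact (pow_dvd_pow 2 (Nat.le_succ K)).trans hH
    · rw [h2] at hcard
      rw [← hcard, pow_succ] at hH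
      exact Nat.dvd_of_mul_dvd_mul_right (by norm_num) hH
  -- it is cyclic
  let f : ↥H' →* ↥Z :=
    MonoidHom.codRestrict (H.subtype.comp H'.subtype) Z (fun x => Subgroup.mem_subgroupOf.1 x.2)
  have hf : Function.Injective f := by
    intro x y hxy
    have h1 : ((x : ↥H) : G) = ((y : ↥H) : G) := congrArg (fun z : ↥Z => (z : G)) hxy
    exact Subtype.ext (Subtype.ext h1)
  haveI : IsCyclic ↥H' := isCyclic_of_injective f hf
  obtain ⟨g, hg⟩ := IsCyclic.exists_generator (α := ↥H')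
  refine ⟨((g : ↥H) : G), (g : ↥H).2, ?_⟩
  have h1 : orderOf g = Nat.card ↥H' := orderOf_eq_card_of_forall_mem_zpowers hg
  rw [Subgroup.orderOf_coe, Subgroup.orderOf_coe, h1]
  exact hdiv

/-- The unit `5` of `ℤ/2^(m+2)`. -/
def five (m : ℕ) : (ZMod (2 ^ (m + 2)))ˣ :=
  ZMod.unitOfCoprime 5 (Nat.Coprime.pow_right _ (by norm_num))

theorem orderOf_five' (m : ℕ) : orderOf (five m) = 2 ^ m := by
  rw [← orderOf_units, five, ZMod.coe_unitOfCoprime, Nat.cast_ofNat]
  exact ZMod.orderOf_five m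

theorem card_units_two_pow (m : ℕ) : Nat.card (ZMod (2 ^ (m + 2)))ˣ = 2 ^ (m + 1) := by
  rw [Nat.card_eq_fintype_card, ZMod.card_units_eq_totient,
    Nat.totient_prime_pow Nat.prime_two (by omega)]
  simp

/-- `⟨5⟩` has index `2` in `(ℤ/2^(m+2))ˣ`. -/
theorem index_zpowers_five (m : ℕ) : (Subgroup.zpowers (five m)).index = 2 := by
  have h1 := Subgroup.card_mul_index (Subgroup.zpowers (five m))
  rw [Nat.card_zpowers, orderOf_five', card_units_two_pow, pow_succ 2 m] at h1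
  exact Nat.eq_of_mul_eq_mul_left (pow_pos (by norm_num) m) h1

/-- Squares lie in `⟨5⟩`. -/
theorem sq_mem_zpowers_five (m : ℕ) (x : (ZMod (2 ^ (m + 2)))ˣ) :
    x ^ 2 ∈ Subgroup.zpowers (five m) := by
  have h := Subgroup.pow_index_mem (Subgroup.zpowers (five m)) x
  rwa [index_zpowers_five] at h

/-- If `2 ^ (K + 1)` divides the local degree at `q` of `ℚ(ζ_{2^(m+2)})/ℚ`, some element of the
local Galois group has a cyclotomic value of order divisible by `2 ^ K`. -/
theorem exists_local_elt2 (m K : ℕ) (Q : Nat.Primes) [hQ : Fact (Q : ℕ).Prime]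
    (h : 2 ^ (K + 1) ∣
      (cycloLevel (2 ^ (m + 2))).fixingSubgroup.relIndex (primeLocalToGlobal Q).range) :
    ∃ τ : PadicAlgCl (Q : ℕ) ≃ₐ[ℚ_[(Q : ℕ)]] PadicAlgCl (Q : ℕ),
      2 ^ K ∣ orderOf (cycloPow (2 ^ (m + 2)) (localGaloisToGlobal (Q : ℕ) τ)) := by
  have h' : 2 ^ (K + 1) ∣
      (cycloLevel (2 ^ (m + 2))).fixingSubgroup.relIndex (localGaloisToGlobal (Q : ℕ)).range := h
  rw [← ker_cycloPow, Subgroup.relIndex_ker, MonoidHom.map_range] at h'
  obtain ⟨w, ⟨τ, rfl⟩, hw⟩ := exists_orderOf_of_index_dvd_two (Subgroup.zpowers (five m))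
    (by rw [index_zpowers_five]) _ K h'
  exact ⟨τ, hw⟩

/-! ## STEP B' -/

/-- **STEP B'** of the norm route at `p = 2`, totally complex fields. -/
theorem trivAbove2_of (I : LocalInvSystem)
    (hHP : HassePrinciple2Spec) (hK4 : CyclicSplitSpec) (hG4 : SupportFiniteSpec)
    (hG5 : LocResSpec) (hSA : CycloSumTCSpec I) : TrivAbove2Spec I := by
  intro U hU hTC x hx hloc R hR
  obtain ⟨k, hk⟩ := hx
  have hp : (2 : ℕ).Prime := Nat.prime_two
  have hTfin := hG4 I U hU x
  have hidx : U.index ≠ 0 := index_ne_zero_of_isOpenQ hU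
  have hepos : 0 < 2 := by norm_num
  obtain ⟨n₀, hn₀⟩ := exists_forall_forall_pow_dvd_relIndex_primeLocal 2 hTfin.toFinset
    (k + (U.index).factorial * 2 + 1)
  obtain ⟨N, hNdef⟩ : ∃ N : ℕ, N = n₀ + 2 := ⟨_, rfl⟩
  have hN := hn₀ N (by omega)
  subst hNdef
  -- the character
  let ψ : ↥U →* ↥(Subgroup.zpowers (five n₀)) :=
    MonoidHom.codRestrict
      ((powMonoidHom 2).comp ((cycloPow (2 ^ (n₀ + 2))).comp U.subtype))
      (Subgroup.zpowers (five n₀)) (fun u => sq_mem_zpowers_five n₀ _)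
  have hψ_apply : ∀ u : ↥U, ((ψ u : ↥(Subgroup.zpowers (five n₀))) : (ZMod (2 ^ (n₀ + 2)))ˣ) =
      cycloPow (2 ^ (n₀ + 2)) (u : GQ) ^ 2 := fun u => rfl
  have hψ : ∀ u, ψ u ^ (2 ^ n₀) = 1 := by
    intro u
    have h1 : Nat.card ↥(Subgroup.zpowers (five n₀)) = 2 ^ n₀ := by
      rw [Nat.card_zpowers, orderOf_five']
    rw [← h1]
    exact pow_card_eq_one'
  obtain ⟨j, χ, hsurj, hχ1⟩ := exists_char_of_cyclic 2 n₀ ψ hψ
  have hχc : ∀ u : ↥U, χ u = 1 ↔ cycloPow (2 ^ (n₀ + 2)) (u : GQ) ^ 2 = 1 := by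
    intro u
    rw [hχ1, ← hψ_apply, OneMemClass.coe_eq_one]
  have hker : ∀ u : ↥U, (u : GQ) ∈ (cycloLevel (2 ^ (n₀ + 2))).fixingSubgroup → χ u = 1 := by
    intro u hu
    rw [hχc]
    rw [← ker_cycloPow, MonoidHom.mem_ker] at hu
    rw [hu, one_pow]
  have hlevel : IsLevelConstant₁ U.subtype χ :=
    ⟨cycloLevel (2 ^ (n₀ + 2)), inferInstance, fun g s hs => by
      rw [map_mul, hker s hs, mul_one]⟩
  have hcyc : IsCycloChar U (2 ^ (n₀ + 2)) χ := by
    intro σ hσ
    apply hker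
    rw [mem_fixingSubgroup_cycloLevel_iff]
    exact hσ _ (zetaBar_spec (2 ^ (n₀ + 2))).pow_eq_one
  haveI : NeZero (2 ^ j) := ⟨pow_ne_zero _ hp.ne_zero⟩
  -- the kernel is open
  have hU' : IsOpenQ (χ.ker.map U.subtype) := by
    refine isOpenQ_of_level hU (cycloLevel (2 ^ (n₀ + 2))) (fun σ hσU hσ => ?_)
    exact ⟨⟨σ, hσU⟩, hker ⟨σ, hσU⟩ hσ, rfl⟩
  have hTC' : IsTC (χ.ker.map U.subtype) := hTC.mono (Subgroup.map_subtype_le _)
  -- the restriction to the kernel is locally trivial, hence trivial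
  have hres : gRes (U := U) (U' := χ.ker.map U.subtype) (Subgroup.map_subtype_le _) x = 0 := by
    refine hHP _ hU' hTC' _ ⟨k, nsmul_gRes_eq_zero _ x _ hk⟩ ?_
    intro q hq g
    obtain ⟨Q, rfl⟩ : ∃ Q : Nat.Primes, (Q : ℕ) = q := ⟨⟨q, hq.out⟩, rfl⟩
    rw [hG5 (Q : ℕ) g U _ (Subgroup.map_subtype_le _) x]
    by_cases hqT : Q ∈ hTfin.toFinset
    · -- the local degree is divisible by `2 ^ k`
      exact (exists_local_elt2 n₀ _ Q (hN Q hqT)).elim fun τ hτ =>
        lRes_locBr_eq_zero_of_dvd I (Q : ℕ) g (Subgroup.map_subtype_le _) hU' x (2 ^ k) hk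
          (pow_dvd_relIndex_locSub_ker 2 (Q : ℕ) g U hidx (cycloPow (2 ^ (n₀ + 2))) 2 hepos j χ
            hχc τ k hτ)
    · have h0 : locBr (Q : ℕ) g U x = 0 := by
        by_contra h
        exact hqT (hTfin.mem_toFinset.2 ⟨g, h⟩)
      rw [h0, map_zero]
  obtain ⟨a, ha, hxa⟩ := hK4 U hU (2 ^ j) χ hlevel hsurj x hres
  rw [hxa]
  refine hSA U hU hTC 2 (n₀ + 2) (by omega) (2 ^ j) (pow_ne_zero _ hp.ne_zero) χ hlevel hcyc a ha
    (fun g => ?_) R hR
  rw [← hxa]
  exact hloc g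

/-- **SB2**: STEP B' from the Hasse principle at `2` and STEP A'. -/
theorem stepB2 : StepB2Spec := fun hHP I hSA =>
  trivAbove2_of I hHP Glob.cyclicSplit H181.supportFinite H496.locRes hSA

end Fermat.Agent.LT.CFT.H1

end
end
-- ===== PACK-END LT/CFT/H1/StepB.lean

-- ===== PACK-BEGIN LT/CFT/H1/L5/Cyc.lean
section





/-!
# Row LT, tower CFT, sub-tower REC2 (helper1), OFF-MAIN : leaf L5', part 1 (cyclotomic toolkit)

`c = H511.cyc m : G_ℚ → (ℤ/m)ˣ` the cyclotomic character (main), `C ≤ (ℤ/m)ˣ`,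
`U₀ = c⁻¹(C)` (the group of the subfield `ℚ(μ_m)^C`).

* `exists_global_root`, `loc_acts` : local roots of unity are global; the local action is given
  by the global character;
* `exists_loc_cyc_eq` : `c ∘ loc : G_{ℚ_ℓ} → (ℤ/ℓ^(n+1))ˣ` is surjective (main `H414`);
* `isOpenQ_comap_cyc` : `U₀` is open;
* `exists_conj_of_embedding` : the complex conjugation of an embedding `φ : ℚ̄ → ℂ`;
* `cyc_conj_eq_neg_one` : it has cyclotomic value `-1`;
* `isTC_comap_cyc` : `-1 ∉ C → IsTC U₀`.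
-/

set_option autoImplicit false
set_option linter.style.haveILetI false

noncomputable section

namespace Fermat.Agent.LT.CFT.H1.L5

open Fermat.Agent.S55.G.Rec Fermat.Agent.S55.G.Rec.H511

local notation "Qb" => AlgebraicClosure ℚ
local notation "GQ" => (AlgebraicClosure ℚ ≃ₐ[ℚ] AlgebraicClosure ℚ)

section Roots

variable (m : ℕ) [NeZero m] (q : ℕ) [Fact q.Prime]

local notation "Gq" => (PadicAlgCl q ≃ₐ[ℚ_[q]] PadicAlgCl q)

lemma iota_muQb_primitive : IsPrimitiveRoot (padicEmbedding q (muQb m)) m :=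
  (muQb_spec m).map_of_injective (padicEmbedding_injective q)

/-- Every local `m`-th root of unity is the image of a global one. -/
lemma exists_global_root (ζ : PadicAlgCl q) (hζ : ζ ^ m = 1) :
    ∃ ζ₀ : Qb, ζ₀ ^ m = 1 ∧ padicEmbedding q ζ₀ = ζ := by
  obtain ⟨i, -, rfl⟩ := (iota_muQb_primitive m q).eq_pow_of_pow_eq_one hζ
  refine ⟨muQb m ^ i, ?_, by rw [map_pow]⟩
  rw [← pow_mul, mul_comm, pow_mul, (muQb_spec m).pow_eq_one, one_pow]

/-- The local action on `μ_m` is given by the global cyclotomic character. -/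
lemma loc_acts (τ : Gq) (ζ : PadicAlgCl q) (hζ : ζ ^ m = 1) :
    τ ζ = ζ ^ ((cyc m (localGaloisToGlobal q τ) : (ZMod m)ˣ) : ZMod m).val := by
  obtain ⟨ζ₀, hζ₀, rfl⟩ := exists_global_root m q ζ hζ
  rw [← padicEmbedding_localGaloisToGlobal, cyc_spec m _ hζ₀, map_pow]

/-- Elements with trivial cyclotomic value fix the local roots of unity. -/
lemma loc_fixes_of_cyc_eq_one (τ : Gq) (h : cyc m (localGaloisToGlobal q τ) = 1)
    (ζ : PadicAlgCl q) (hζ : ζ ^ m = 1) : τ ζ = ζ := by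
  obtain ⟨ζ₀, hζ₀, rfl⟩ := exists_global_root m q ζ hζ
  rw [← padicEmbedding_localGaloisToGlobal, fixes_of_cyc_eq_one m _ h hζ₀]

end Roots

/-- `c ∘ loc` is surjective onto `(ℤ/ℓ^(n+1))ˣ`. -/
theorem exists_loc_cyc_eq (ℓ : ℕ) [Fact ℓ.Prime] (n : ℕ) [NeZero (ℓ ^ (n + 1))]
    (u : (ZMod (ℓ ^ (n + 1)))ˣ) :
    ∃ τ : PadicAlgCl ℓ ≃ₐ[ℚ_[ℓ]] PadicAlgCl ℓ,
      cyc (ℓ ^ (n + 1)) (localGaloisToGlobal ℓ τ) = u := by
  have hζ := iota_muQb_primitive (ℓ ^ (n + 1)) ℓ
  obtain ⟨τ, hτ⟩ := Fermat.Agent.S55.H414.exists_local_algEquiv_pow ℓ n hζ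
    (u : ZMod (ℓ ^ (n + 1))).val (ZMod.val_coe_unit_coprime u)
  refine ⟨τ, Units.ext ?_⟩
  have hact : ∀ ζ : PadicAlgCl ℓ, ζ ^ (ℓ ^ (n + 1)) = 1 →
      τ ζ = ζ ^ (u : ZMod (ℓ ^ (n + 1))).val := by
    intro ζ hζ1
    obtain ⟨i, -, rfl⟩ := hζ.eq_pow_of_pow_eq_one hζ1
    rw [map_pow, hτ, ← pow_mul, ← pow_mul, mul_comm]
  rw [cyc_loc_coe ℓ (ℓ ^ (n + 1)) _ τ hact, ZMod.natCast_zmod_val]

section Global

variable (m : ℕ) [NeZero m]

/-- The group of a subfield of `ℚ(μ_m)` is open. -/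
theorem isOpenQ_comap_cyc (C : Subgroup (ZMod m)ˣ) : IsOpenQ (C.comap (cyc m)) := by
  haveI : Algebra.IsAlgebraic ℚ Qb := AlgebraicClosure.isAlgebraic ℚ
  refine ⟨IntermediateField.adjoin ℚ {muQb m}, ?_, ?_⟩
  · exact IntermediateField.adjoin.finiteDimensional
      (Algebra.IsAlgebraic.isAlgebraic (muQb m)).isIntegral
  · intro σ hσ
    show cyc m σ ∈ C
    have hfix : σ (muQb m) = muQb m :=
      (IntermediateField.mem_fixingSubgroup_iff _ _).1 hσ _
        (IntermediateField.subset_adjoin ℚ _ (Set.mem_singleton _))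
    have h1 : cyc m σ = 1 := by
      apply cyc_eq_one_of_fixes
      intro ζ hζ
      obtain ⟨i, -, rfl⟩ := (muQb_spec m).eq_pow_of_pow_eq_one hζ
      rw [map_pow, hfix]
    rw [h1]
    exact C.one_mem

/-- The complex conjugation attached to an embedding `φ : ℚ̄ → ℂ`. -/
theorem exists_conj_of_embedding (φ : Qb →+* ℂ) :
    ∃ c : GQ, ∀ x : Qb, φ (c x) = (starRingEnd ℂ) (φ x) := by
  haveI : Algebra.IsAlgebraic ℚ Qb := AlgebraicClosure.isAlgebraic ℚ
  haveI : IsAlgClosure ℚ Qb := ⟨inferInstance, AlgebraicClosure.isAlgebraic ℚ⟩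
  letI : Algebra Qb ℂ := φ.toAlgebra
  haveI : IsScalarTower ℚ Qb ℂ := IsScalarTower.of_algebraMap_eq fun x => by
    show algebraMap ℚ ℂ x = φ (algebraMap ℚ Qb x)
    rw [eq_ratCast, eq_ratCast, map_ratCast]
  haveI : Normal ℚ Qb := IsAlgClosure.normal ℚ Qb
  exact ⟨(Complex.conjAe.restrictScalars ℚ).restrictNormal Qb, fun x =>
    AlgEquiv.restrictNormal_commutes (Complex.conjAe.restrictScalars ℚ) Qb x⟩

/-- A complex conjugation has cyclotomic value `-1`. -/
theorem cyc_conj_eq_neg_one (φ : Qb →+* ℂ) (c : GQ)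
    (hc : ∀ x : Qb, φ (c x) = (starRingEnd ℂ) (φ x)) : cyc m c = -1 := by
  have hm : 1 ≤ m := Nat.one_le_iff_ne_zero.mpr (NeZero.ne m)
  apply Units.ext
  rw [cyc_coe_eq_of_acts m c (m - 1) ?_]
  · rw [Nat.cast_sub hm, ZMod.natCast_self, zero_sub, Nat.cast_one, Units.val_neg, Units.val_one]
  · intro ζ hζ
    apply φ.injective
    rw [hc, map_pow]
    have h1 : (φ ζ) ^ m = 1 := by rw [← map_pow, hζ, map_one]
    have h2 : ‖φ ζ‖ = 1 := Complex.norm_eq_one_of_pow_eq_one h1 (NeZero.ne m)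
    rw [← Complex.inv_eq_conj h2]
    have h3 : (φ ζ) ^ (m - 1) * φ ζ = 1 := by
      rw [← pow_succ, Nat.sub_add_cancel hm, h1]
    exact (eq_inv_of_mul_eq_one_left h3).symm

/-- If `-1 ∉ C`, the subfield `ℚ(μ_m)^C` is totally complex. -/
theorem isTC_comap_cyc (C : Subgroup (ZMod m)ˣ) (hC : (-1 : (ZMod m)ˣ) ∉ C) :
    IsTC (C.comap (cyc m)) := by
  intro φ
  by_contra hcon
  push_neg at hcon
  obtain ⟨c, hc⟩ := exists_conj_of_embedding φ
  have hmem : c ∈ (IntermediateField.fixedField (C.comap (cyc m))).fixingSubgroup := by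
    rw [IntermediateField.mem_fixingSubgroup_iff]
    intro x hx
    apply φ.injective
    rw [hc]
    exact hcon x (fun u hu => hx ⟨u, hu⟩)
  rw [H904.fixingSubgroup_fixedField_of_isOpenQ (isOpenQ_comap_cyc m C)] at hmem
  apply hC
  rw [← cyc_conj_eq_neg_one m φ c hc]
  exact hmem

end Global

end Fermat.Agent.LT.CFT.H1.L5

end
end
-- ===== PACK-END LT/CFT/H1/L5/Cyc.lean

-- ===== PACK-BEGIN LT/T2/H437/USTop.lean
section



/-!
# Row LT, tower T2, leaf T2.03a.2 (helper437): THE TOP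

    unifSmooth_of_leaves437 :
      FDCalcC437 → LevelNhdsC437 K → H511.CptC K → ∀ 𝔫 ≠ ⊥, H511.UnifSmoothC K 𝔫
    leafUnifSmooth_of_leaves437 :
      FDCalcC437 → LevelNhdsC437 K → H511.CptC K → H511.LeafUnifSmooth K

(`H511.UnifSmoothC`, `H511.LeafUnifSmooth` VERBATIM from `LT/T2/H511/FDSpec.lean`,
helper511@94e516506.)
-/

set_option autoImplicit false
set_option linter.unusedSectionVars false

open IsDedekindDomain NumberField
open Fermat.Agent.LT.H556.A0 Fermat.Agent.LT.T1.H724 Fermat.Agent.LT.T2.H724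
open Fermat.Agent.LT.T2.H386 Fermat.Agent.LT.T2.H511 Fermat.Agent.LT.T2

noncomputable section

namespace Fermat.Agent.LT.T2.H437

variable {K : Type} [Field K] [NumberField K]

/-! ## 1. The parameter space `ℝ^N` -/

/-- The index type of the parameters `(X, t, X')`. -/
abbrev Idx437 (K : Type) [Field K] [NumberField K] : Type :=
  (InfinitePlace K × Fin 2 × Fin 2 × Bool) ⊕
    ((InfinitePlace K × Bool) ⊕ (InfinitePlace K × Fin 2 × Fin 2 × Bool))

/-- The number of parameters. -/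
def nPar437 (K : Type) [Field K] [NumberField K] : ℕ := Fintype.card (Idx437 K)

/-- The enumeration of the parameters. -/
def ePar437 (K : Type) [Field K] [NumberField K] : Idx437 K ≃ Fin (nPar437 K) :=
  Fintype.equivFin _

/-- The first matrix coordinates of a parameter. -/
def parX437 (q : Fin (nPar437 K) → ℝ) : MatCoord437 K :=
  fun w i j b => q (ePar437 K (Sum.inl (w, i, j, b)))

/-- The adele coordinates of a parameter. -/
def parT437 (q : Fin (nPar437 K) → ℝ) : AdCoord437 K :=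
  fun w b => q (ePar437 K (Sum.inr (Sum.inl (w, b))))

/-- The second matrix coordinates of a parameter. -/
def parY437 (q : Fin (nPar437 K) → ℝ) : MatCoord437 K :=
  fun w i j b => q (ePar437 K (Sum.inr (Sum.inr (w, i, j, b))))

/-- The parameter with the coordinates `(X, t, X')`. -/
def pack437 (X : MatCoord437 K) (t : AdCoord437 K) (X' : MatCoord437 K) :
    Fin (nPar437 K) → ℝ := fun k =>
  match (ePar437 K).symm k with
  | Sum.inl (w, i, j, b) => X w i j b
  | Sum.inr (Sum.inl (w, b)) => t w b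
  | Sum.inr (Sum.inr (w, i, j, b)) => X' w i j b

theorem parX_pack437 (X : MatCoord437 K) (t : AdCoord437 K) (X' : MatCoord437 K) :
    parX437 (pack437 X t X') = X := by
  funext w i j b
  simp [parX437, pack437]

theorem parT_pack437 (X : MatCoord437 K) (t : AdCoord437 K) (X' : MatCoord437 K) :
    parT437 (pack437 X t X') = t := by
  funext w b
  simp [parT437, pack437]

theorem parY_pack437 (X : MatCoord437 K) (t : AdCoord437 K) (X' : MatCoord437 K) :
    parY437 (pack437 X t X') = X' := by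
  funext w i j b
  simp [parY437, pack437]

theorem pack_sub437 (X : MatCoord437 K) (t s : AdCoord437 K) (X' : MatCoord437 K) :
    pack437 X (fun w b => t w b - s w b) X'
      = pack437 X t X' - pack437 (fun _ _ _ _ => 0) s (fun _ _ _ _ => 0) := by
  funext k
  simp only [pack437, Pi.sub_apply]
  rcases (ePar437 K).symm k with ⟨w, i, j, b⟩ | ⟨w, b⟩ | ⟨w, i, j, b⟩ <;> simp

theorem norm_pack_le437 (X : MatCoord437 K) (t : AdCoord437 K) (X' : MatCoord437 K) {r : ℝ}
    (hr : 0 ≤ r) (hX : ∀ w i j b, |X w i j b| ≤ r) (ht : ∀ w b, |t w b| ≤ r)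
    (hX' : ∀ w i j b, |X' w i j b| ≤ r) : ‖pack437 X t X'‖ ≤ r := by
  rw [pi_norm_le_iff_of_nonneg hr]
  intro k
  rw [Real.norm_eq_abs]
  simp only [pack437]
  rcases (ePar437 K).symm k with ⟨w, i, j, b⟩ | ⟨w, b⟩ | ⟨w, i, j, b⟩
  · exact hX w i j b
  · exact ht w b
  · exact hX' w i j b

/-- The family `Y` on the parameter space. -/
def famQ437 (ω₀ h₀ : G K) (q : Fin (nPar437 K) → ℝ) : G K :=
  fam437 ω₀ h₀ (parX437 q) (parT437 q) (parY437 q)

/-! ## 2. Smoothness of the family -/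

theorem smooth_chartX437 (w : InfinitePlace K) :
    SmoothMat437 (fun q : Fin (nPar437 K) → ℝ => infComp w (chartG437 (parX437 q))) := by
  intro i j
  simp only [infComp_chartG437, chartC437, Matrix.add_apply, Matrix.of_apply, parX437]
  exact contDiff_const.add (contDiff_kapC437 w
    (contDiff_rho437.comp (contDiff_apply ℝ ℝ _)) (contDiff_rho437.comp (contDiff_apply ℝ ℝ _)))

theorem smooth_chartY437 (w : InfinitePlace K) :
    SmoothMat437 (fun q : Fin (nPar437 K) → ℝ => infComp w (chartG437 (parY437 q))) := by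
  intro i j
  simp only [infComp_chartG437, chartC437, Matrix.add_apply, Matrix.of_apply, parY437]
  exact contDiff_const.add (contDiff_kapC437 w
    (contDiff_rho437.comp (contDiff_apply ℝ ℝ _)) (contDiff_rho437.comp (contDiff_apply ℝ ℝ _)))

theorem infComp_unip437 (w : InfinitePlace K) (t : AdCoord437 K) :
    infComp w (unip386 (adInf437 t)) = !![1, kapC437 w (t w false) (t w true); 0, 1] := by
  rw [infComp_eq_map724, unip386_coe]
  have e : infMap724 w (adInf437 t) = kapC437 w (t w false) (t w true) := by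
    rw [← emb_kap437]
    rfl
  ext i j
  fin_cases i <;> fin_cases j <;> simp [Matrix.map_apply, e]

theorem smooth_unip437 (w : InfinitePlace K) :
    SmoothMat437 (fun q : Fin (nPar437 K) → ℝ => infComp w (unip386 (adInf437 (parT437 q)))) := by
  intro i j
  simp only [infComp_unip437, parT437]
  fin_cases i <;> fin_cases j
  · simpa using (contDiff_const : ContDiff ℝ (⊤ : ℕ∞) (fun _ : Fin (nPar437 K) → ℝ => (1 : ℂ)))
  · simpa using contDiff_kapC437 w (contDiff_apply ℝ ℝ (ePar437 K (Sum.inr (Sum.inl (w, false)))))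
      (contDiff_apply ℝ ℝ (ePar437 K (Sum.inr (Sum.inl (w, true)))))
  · simpa using (contDiff_const : ContDiff ℝ (⊤ : ℕ∞) (fun _ : Fin (nPar437 K) → ℝ => (0 : ℂ)))
  · simpa using (contDiff_const : ContDiff ℝ (⊤ : ℕ∞) (fun _ : Fin (nPar437 K) → ℝ => (1 : ℂ)))

theorem smooth_famQ437 (ω₀ h₀ : G K) (w : InfinitePlace K) :
    SmoothMat437 (fun q : Fin (nPar437 K) → ℝ => infComp w (famQ437 ω₀ h₀ q)) := by
  have hXi : SmoothMat437
      (fun q : Fin (nPar437 K) → ℝ => infComp w (chartG437 (parX437 q))⁻¹) :=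
    (smooth_chartX437 w).inv (fun q => infComp_mul_inv437 w _)
  have e : (fun q : Fin (nPar437 K) → ℝ => infComp w (famQ437 ω₀ h₀ q))
      = fun q => infComp w (pInf437 h₀)⁻¹ * infComp w (chartG437 (parX437 q))⁻¹ *
          infComp w (pInf437 ω₀)⁻¹ * infComp w (unip386 (adInf437 (parT437 q))) *
          infComp w (pInf437 ω₀) * infComp w (chartG437 (parX437 q)) *
          infComp w (pInf437 h₀) * infComp w (chartG437 (parY437 q)) := by
    funext q
    simp only [famQ437, fam437, infComp_mul437]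
  rw [e]
  exact (((((((smoothMat_const437 _).mul hXi).mul (smoothMat_const437 _)).mul
    (smooth_unip437 w)).mul (smoothMat_const437 _)).mul (smooth_chartX437 w)).mul
    (smoothMat_const437 _)).mul (smooth_chartY437 w)

/-- The function of the chart `(ω₀, h₀)` is smooth. -/
theorem contDiff_chartFn437 {f : G K → ℂ} (hf : IsSmoothAtInf f) (ω₀ h₀ : G K) :
    ContDiff ℝ (⊤ : ℕ∞) (fun q : Fin (nPar437 K) → ℝ => f (h₀ * famQ437 ω₀ h₀ q)) :=
  hf (nPar437 K) (famQ437 ω₀ h₀) (fun _ v => trivAtFin_fam437 ω₀ h₀ _ _ _ v)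
    (fun w i j => smooth_famQ437 ω₀ h₀ w i j) h₀

/-! ## 3. Topology: neighbourhoods at infinity, coverings -/

theorem continuous_infComp437 (w : InfinitePlace K) (i j : Fin 2) :
    Continuous (fun g : G K => infComp w g i j) := by
  have h1 : Continuous (fun g : G K => (g : Matrix (Fin 2) (Fin 2) (Adl K)) i j) :=
    (Units.continuous_val).matrix_elem i j
  have h2 : Continuous (fun x : Adl K => x.1 w) := (continuous_apply w).comp continuous_fst
  exact (InfinitePlace.Completion.isometry_extensionEmbedding w).continuous.comp (h2.comp h1)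

/-- The neighbourhood of `1` at infinity covered by the chart. -/
def nbInf437 (K : Type) [Field K] [NumberField K] : Set (G K) :=
  {g | ∀ (w : InfinitePlace K) (i j : Fin 2), ‖(infComp w g - 1) i j‖ < 1 / 16}

theorem isOpen_nbInf437 : IsOpen (nbInf437 K) := by
  have e : nbInf437 K = ⋂ (w : InfinitePlace K), ⋂ (i : Fin 2), ⋂ (j : Fin 2),
      {g : G K | ‖(infComp w g - 1) i j‖ < 1 / 16} := by
    ext g
    simp [nbInf437]
  rw [e]
  refine isOpen_iInter_of_finite fun w => isOpen_iInter_of_finite fun i =>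
    isOpen_iInter_of_finite fun j => ?_
  refine isOpen_lt ?_ continuous_const
  simp only [Matrix.sub_apply]
  exact ((continuous_infComp437 w i j).sub continuous_const).norm

theorem one_mem_nbInf437 : (1 : G K) ∈ nbInf437 K := by
  intro w i j
  rw [infComp_one437, sub_self, Matrix.zero_apply, norm_zero]
  norm_num

/-- An element of the neighbourhood has its infinite part in the chart, with parameters in the
unit box. -/
theorem exists_chart437 {g : G K} (hg : g ∈ nbInf437 K) :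
    ∃ X : MatCoord437 K, (∀ w i j b, |X w i j b| ≤ 1) ∧ pInf437 g = chartG437 X := by
  have hex : ∀ (w : InfinitePlace K) (i j : Fin 2) (b : Bool), ∃ x : ℝ, |x| ≤ 1 ∧
      rho437 x = if b then ((infComp w g - 1) i j).im else ((infComp w g - 1) i j).re := by
    intro w i j b
    apply exists_rho437_eq
    have h := (hg w i j).le
    by_cases hb : b = true
    · simp only [hb, if_true]
      exact (Complex.abs_im_le_norm _).trans h
    · simp only [hb, Bool.false_eq_true, if_false]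
      exact (Complex.abs_re_le_norm _).trans h
  choose X hX1 hXe using hex
  refine ⟨X, hX1, gK_ext437 (fun w => ?_) (fun v => ?_)⟩
  · rw [cGL_pInf437]
    apply Units.ext
    rw [cGL_val437, cGL_val437, cInf_chartG437]
    ext i j
    have hz : (infComp w g - 1) i j = InfinitePlace.Completion.extensionEmbedding w
        (cInf724 w g i j - (1 : Matrix (Fin 2) (Fin 2) w.Completion) i j) := by
      rw [Matrix.sub_apply, map_sub, infComp_eq_cInf724, Matrix.map_apply]
      congr 1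
      rw [Matrix.one_apply, Matrix.one_apply]
      split_ifs
      · exact (map_one _).symm
      · exact (map_zero _).symm
    have h1 := hXe w i j false
    have h2 := hXe w i j true
    simp only [Bool.false_eq_true, if_false, if_true] at h1 h2
    simp only [chartMat437, Matrix.add_apply, Matrix.of_apply]
    rw [h1, h2, hz, kap_coord437]
    exact (add_sub_cancel _ _).symm
  · rw [fGL_pInf437, fGL_chartG437]

/-- Finite coverings of a compact set by left translates of a neighbourhood of `1`. -/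
theorem exists_cover437 {S : Set (G K)} (hS : IsCompact S) {N : Set (G K)}
    (hN : N ∈ nhds (1 : G K)) :
    ∃ T : Finset (G K), ∀ s ∈ S, ∃ s₀ ∈ T, s₀⁻¹ * s ∈ N := by
  have hU : ∀ s₀ ∈ S, {s : G K | s₀⁻¹ * s ∈ N} ∈ nhds s₀ := by
    intro s₀ _
    have hc : Continuous (fun s : G K => s₀⁻¹ * s) := continuous_const.mul continuous_id
    exact hc.continuousAt.preimage_mem_nhds (by rw [inv_mul_cancel]; exact hN)
  obtain ⟨T, -, hT⟩ := hS.elim_nhds_subcover (fun s₀ => {s : G K | s₀⁻¹ * s ∈ N}) hU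
  refine ⟨T, fun s hs => ?_⟩
  obtain ⟨s₀, hs₀T, hs₀⟩ := Set.mem_iUnion₂.mp (hT hs)
  exact ⟨s₀, hs₀T, hs₀⟩

/-! ## 4. Finite differences: transfer and vanishing -/

/-- The coordinates of the step `τ`. -/
def stepQ437 (τ : Adl K) : Fin (nPar437 K) → ℝ :=
  pack437 (fun _ _ _ _ => 0) (coordInf437 τ) (fun _ _ _ _ => 0)

theorem bdiff_transfer437 (X X' : MatCoord437 K) :
    ∀ (τs : List (Adl K)) (Ψ : Adl K → ℂ) (φ : (Fin (nPar437 K) → ℝ) → ℂ),
      (∀ y : Adl K, y.2 = 0 → Ψ y = φ (pack437 X (coordInf437 y) X')) →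
      (∀ τ ∈ τs, τ.2 = 0) →
      ∀ y : Adl K, y.2 = 0 →
        bdiff511 τs Ψ y = rdiff437 (τs.map stepQ437) φ (pack437 X (coordInf437 y) X') := by
  intro τs
  induction τs with
  | nil =>
    intro Ψ φ h _ y hy
    exact h y hy
  | cons u us ih =>
    intro Ψ φ h hτ y hy
    have hu : u.2 = 0 := hτ u (List.mem_cons_self)
    simp only [bdiff511, List.map_cons, rdiff437]
    refine ih _ _ ?_ (fun τ hτ' => hτ τ (List.mem_cons_of_mem _ hτ')) y hy
    intro z hz
    have hzu : (z - u).2 = 0 := by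
      have e : (z - u).2 = z.2 - u.2 := rfl
      rw [e, hz, hu, sub_zero]
    rw [h z hz, h (z - u) hzu, coordInf_sub437, pack_sub437]
    rfl

theorem bdiff_vanish437 (s : ℝ) (hs : 0 ≤ s) :
    ∀ (τs : List (Adl K)) (Ψ : Adl K → ℂ) (c : ℝ),
      (∀ τ ∈ τs, τ.2 = 0 ∧ ∀ w : InfinitePlace K, ‖τ.1 w‖ ≤ s) →
      (∀ y : Adl K, y.2 = 0 → (∀ w : InfinitePlace K, ‖y.1 w‖ ≤ c + τs.length * s) → Ψ y = 0) →
      ∀ y : Adl K, y.2 = 0 → (∀ w : InfinitePlace K, ‖y.1 w‖ ≤ c) → bdiff511 τs Ψ y = 0 := by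
  intro τs
  induction τs with
  | nil =>
    intro Ψ c _ h y hy hyc
    exact h y hy (fun w => by simpa using hyc w)
  | cons u us ih =>
    intro Ψ c hτ h y hy hyc
    obtain ⟨hu, hus⟩ := hτ u (List.mem_cons_self)
    simp only [bdiff511]
    refine ih _ c (fun τ hτ' => hτ τ (List.mem_cons_of_mem _ hτ')) ?_ y hy hyc
    intro z hz hzc
    have hlen : (((u :: us).length : ℕ) : ℝ) = (us.length : ℝ) + 1 := by
      rw [List.length_cons]
      push_cast
      ring
    have h1 : Ψ z = 0 := by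
      refine h z hz (fun w => (hzc w).trans ?_)
      rw [hlen]
      nlinarith [Nat.cast_nonneg (α := ℝ) us.length]
    have h2 : Ψ (z - u) = 0 := by
      have hzu : (z - u).2 = 0 := by
        have e : (z - u).2 = z.2 - u.2 := rfl
        rw [e, hz, hu, sub_zero]
      refine h (z - u) hzu (fun w => ?_)
      have e : (z - u).1 w = z.1 w - u.1 w := rfl
      rw [e, hlen]
      calc ‖z.1 w - u.1 w‖ ≤ ‖z.1 w‖ + ‖u.1 w‖ := norm_sub_le _ _
        _ ≤ (c + us.length * s) + s := add_le_add (hzc w) (hus w)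
        _ = c + (us.length + 1) * s := by ring
    rw [h1, h2, sub_zero]

/-! ## 5. The assembly -/

/-- **THE TOP of T2.03a.2.**  Uniform smoothness of a test function along the conjugated
unipotent directions at infinity, from the FD calculus on `ℝ^N`, the level neighbourhood and the
compactness facts of T2.03a.4. -/
theorem unifSmooth_of_leaves437 (hFD : FDCalcC437) (hLN : LevelNhdsC437 K) (hCpt : CptC K)
    (𝔫 : Ideal (𝓞 K)) (h𝔫 : 𝔫 ≠ ⊥) : UnifSmoothC K 𝔫 := by
  intro f hf Ω hΩ R M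
  obtain ⟨hC1, -, hC3, -⟩ := hCpt
  set r : ℝ := max 1 R with hr
  have hr1 : (1 : ℝ) ≤ r := le_max_left _ _
  have hrR : R ≤ r := le_max_right _ _
  have hr0 : (0 : ℝ) ≤ r := zero_le_one.trans hr1
  -- the box and the compact set `W⁻¹ supp f`
  have hBox : IsCompact (box511 ({0} : Set (Adl K)) (M * r) 1) :=
    hC3 {0} isCompact_singleton (M * r) 1
  have hW : IsCompact (conjSet511 Ω (box511 ({0} : Set (Adl K)) (M * r) 1)) :=
    hC1 Ω hΩ _ hBox
  have hH₀ : IsCompact ((fun p : G K × G K => p.1⁻¹ * p.2) ''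
      (conjSet511 Ω (box511 ({0} : Set (Adl K)) (M * r) 1) ×ˢ tsupport f)) :=
    (hW.prod hf.cpt).image (continuous_fst.inv.mul continuous_snd)
  -- the coverings
  obtain ⟨TΩ, hTΩ⟩ := exists_cover437 hΩ (isOpen_nbInf437.mem_nhds one_mem_nbInf437)
  obtain ⟨TH, hTH⟩ := exists_cover437 hH₀
    (Filter.inter_mem (isOpen_nbInf437.mem_nhds one_mem_nbInf437) (hLN 𝔫 h𝔫))
  -- the constants of the charts
  have hB : ∀ ω₀ h₀ : G K, ∃ B : ℝ, 0 ≤ B ∧ ∀ x : Fin (nPar437 K) → ℝ, ‖x‖ ≤ r →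
      ∀ ε : ℝ, 0 ≤ ε → ε ≤ 1 → ∀ ts : List (Fin (nPar437 K) → ℝ), ts.length = M →
        (∀ t ∈ ts, ‖t‖ ≤ ε * r) →
        ‖rdiff437 ts (fun q => f (h₀ * famQ437 ω₀ h₀ q)) x‖ ≤ B * ε ^ M :=
    fun ω₀ h₀ => hFD _ _ (contDiff_chartFn437 hf.smooth ω₀ h₀) M r
  choose B hB0 hB using hB
  have hsum0 : 0 ≤ ∑ ω₀ ∈ TΩ, ∑ h₀ ∈ TH, B ω₀ h₀ :=
    Finset.sum_nonneg fun _ _ => Finset.sum_nonneg fun _ _ => hB0 _ _
  refine ⟨∑ ω₀ ∈ TΩ, ∑ h₀ ∈ TH, B ω₀ h₀, hsum0, ?_⟩
  intro ω hω h ε hε hε1 τs hlen hτ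
  have hτ' : ∀ τ ∈ τs, τ.2 = 0 ∧ ∀ w : InfinitePlace K, ‖τ.1 w‖ ≤ ε * r := fun τ hτm =>
    ⟨(hτ τ hτm).1, fun w => ((hτ τ hτm).2 w).trans (mul_le_mul_of_nonneg_left hrR hε.le)⟩
  by_cases hh : h ∈ (fun p : G K × G K => p.1⁻¹ * p.2) ''
      (conjSet511 Ω (box511 ({0} : Set (Adl K)) (M * r) 1) ×ˢ tsupport f)
  · obtain ⟨ω₀, hω₀T, hω₀⟩ := hTΩ ω hω
    obtain ⟨h₀, hh₀T, hh₀⟩ := hTH h hh
    obtain ⟨X, hX1, hXe⟩ := exists_chart437 hω₀
    obtain ⟨X', hX'1, hX'e⟩ := exists_chart437 hh₀.1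
    have key : ∀ y : Adl K, y.2 = 0 →
        f (ω⁻¹ * unip386 y * ω * h)
          = f (h₀ * famQ437 ω₀ h₀ (pack437 X (coordInf437 y) X')) := by
      intro y hy
      have e := fam_rel437 ω₀ h₀ ω (h₀⁻¹ * h) X X' y hy hXe hX'e
      rw [mul_inv_cancel_left] at e
      rw [e, hf.level_right _ (inLevelGroup_finPart437 hh₀.2)]
      simp only [famQ437, parX_pack437, parT_pack437, parY_pack437]
    rw [bdiff_transfer437 X X' τs (fun y => f (ω⁻¹ * unip386 y * ω * h))
      (fun q => f (h₀ * famQ437 ω₀ h₀ q)) key (fun τ hτm => (hτ τ hτm).1) 0 rfl]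
    have hbase : ‖pack437 X (coordInf437 (0 : Adl K)) X'‖ ≤ r := by
      refine norm_pack_le437 _ _ _ hr0 (fun w i j b => (hX1 w i j b).trans hr1) ?_
        (fun w i j b => (hX'1 w i j b).trans hr1)
      intro w b
      rw [coordInf_zero437, abs_zero]
      exact hr0
    have hsteps : ∀ t ∈ τs.map stepQ437, ‖t‖ ≤ ε * r := by
      intro t ht
      obtain ⟨τ, hτm, rfl⟩ := List.mem_map.mp ht
      have h0 : (0 : ℝ) ≤ ε * r := mul_nonneg hε.le hr0
      refine norm_pack_le437 _ _ _ h0 (fun _ _ _ _ => by rw [abs_zero]; exact h0) ?_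
        (fun _ _ _ _ => by rw [abs_zero]; exact h0)
      intro w b
      exact (abs_coordInf_le437 τ w b).trans ((hτ' τ hτm).2 w)
    calc ‖rdiff437 (τs.map stepQ437) (fun q => f (h₀ * famQ437 ω₀ h₀ q))
          (pack437 X (coordInf437 (0 : Adl K)) X')‖
        ≤ B ω₀ h₀ * ε ^ M :=
          hB ω₀ h₀ _ hbase ε hε.le hε1 _ (by rw [List.length_map, hlen]) hsteps
      _ ≤ (∑ ω₀ ∈ TΩ, ∑ h₀ ∈ TH, B ω₀ h₀) * ε ^ M := by
        refine mul_le_mul_of_nonneg_right ?_ (pow_nonneg hε.le M)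
        calc B ω₀ h₀ ≤ ∑ h₀ ∈ TH, B ω₀ h₀ :=
              Finset.single_le_sum (f := fun h₀ => B ω₀ h₀) (fun _ _ => hB0 _ _) hh₀T
          _ ≤ ∑ ω₀ ∈ TΩ, ∑ h₀ ∈ TH, B ω₀ h₀ :=
              Finset.single_le_sum (f := fun ω₀ => ∑ h₀ ∈ TH, B ω₀ h₀)
                (fun _ _ => Finset.sum_nonneg fun _ _ => hB0 _ _) hω₀T
  · have hz : bdiff511 τs (fun y => f (ω⁻¹ * unip386 y * ω * h)) 0 = 0 := by
      refine bdiff_vanish437 (ε * r) (mul_nonneg hε.le hr0) τs _ 0 hτ' ?_ 0 rfl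
        (fun w => ?_)
      · intro y hy hyc
        by_contra hne
        apply hh
        refine ⟨(ω⁻¹ * unip386 y * ω, ω⁻¹ * unip386 y * ω * h),
          ⟨?_, subset_tsupport f hne⟩, inv_mul_cancel_left _ _⟩
        refine ⟨ω, hω, y, ⟨fun w => ?_, 0, rfl, ?_⟩, rfl⟩
        · calc ‖y.1 w‖ ≤ 0 + τs.length * (ε * r) := hyc w
            _ ≤ M * r := by
              rw [hlen, zero_add]
              exact mul_le_mul_of_nonneg_left (mul_le_of_le_one_left hr0 hε1)
                (Nat.cast_nonneg M)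
        · rw [hy, mul_zero]
          rfl
      · have e : (0 : Adl K).1 w = 0 := rfl
        rw [e, norm_zero]
    rw [hz, norm_zero]
    exact mul_nonneg hsum0 (pow_nonneg hε.le M)

/-- **T2.03a.2 `LeafUnifSmooth`** from the three sub-leaves (`T1.T1Out K` is not used). -/
theorem leafUnifSmooth_of_leaves437 (hFD : FDCalcC437) (hLN : LevelNhdsC437 K)
    (hCpt : CptC K) : LeafUnifSmooth K :=
  fun _ 𝔫 h𝔫 => unifSmooth_of_leaves437 hFD hLN hCpt 𝔫 h𝔫

end Fermat.Agent.LT.T2.H437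

end

end
-- ===== PACK-END LT/T2/H437/USTop.lean

-- ===== PACK-BEGIN LT/T2/H23/Local.lean
section




/-!
# Row LT, tower T2, station T2.10, leaf T2.10.11 `TorusMatchC` (helper23) -- part 6: local factors

OFF-MAIN.  The Whittaker coefficients of two forms with the same eigenvalues at a finite place
(`UnramTorusC`), at a complex place (`ArchTorusC`) and at a real place (`ArchTorusRealC`, equal
parities) are multiplied by the same factor under the torus at that place.
-/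

set_option autoImplicit false
set_option linter.unusedSectionVars false
set_option linter.unusedVariables false
set_option linter.style.haveILetI false

open IsDedekindDomain NumberField IsDedekindDomain.HeightOneSpectrum MeasureTheory AutomorphicForm
open Fermat.Agent.LT.H556.A0
open scoped MatrixGroups

noncomputable section

namespace Fermat.Agent.LT.T2.H23

open Fermat.Agent.LT Fermat.Agent.LT.T2.H941 Fermat.Agent.LT.T2 Fermat.Agent.LT.A2

variable {K : Type} [Field K] [NumberField K]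

theorem isIdeleAtFin_one23 (v : HeightOneSpectrum (𝓞 K)) : IsIdeleAtFin v (1 : (Adl K)ˣ) := by
  have := isIdeleAtFin_iF23 v (1 : (v.adicCompletion K)ˣ)
  rwa [map_one] at this

/-- The conductor exponent is `0` where `ψ` is unramified. -/
theorem isCondExp_zero23 {ψ : AddChar (Adl K) Circle} {v : HeightOneSpectrum (𝓞 K)}
    (h : (∀ x : Adl K, T3.IsLocAdeleAt K v x → x.2 v ∈ v.adicCompletionIntegers K → ψ x = 1) ∧
      ∃ x : Adl K, T3.IsLocAdeleAt K v x ∧ Valued.v (x.2 v) = WithZero.exp (1 : ℤ) ∧ ψ x ≠ 1) :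
    IsCondExp ψ v 0 := by
  refine ⟨fun x hx hv => h.1 x hx ?_, ?_⟩
  · rw [HeightOneSpectrum.mem_adicCompletionIntegers]
    rwa [WithZero.exp_zero] at hv
  · obtain ⟨x, hx, hv, hne⟩ := h.2
    exact ⟨x, hx, by rw [zero_add]; exact hv, hne⟩

/-- The Whittaker coefficient of a `U(𝔫)`-invariant function is `U(𝔫)`-invariant. -/
theorem isLevel_wh23 (ψ : AddChar (Adl K) Circle) {m : MeasurableSpace (Adl K)}
    (ν : Measure (Adl K)) (D : Set (Adl K)) {𝔫 : Ideal (𝓞 K)} {f : G K → ℂ}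
    (hf : IsLevel 𝔫 f) : IsLevel 𝔫 (wh ψ ν D f) := by
  intro u hu g
  rw [← wh_rt23]
  exact wh_congr23 ψ ν D (fun x => hf u hu x) g

/-- **Finite place, same eigenvalues.** -/
theorem fac_fin23 (hU : UnramTorusC K) :
    letI : MeasurableSpace (Adl K) := borel (Adl K)
    ∀ (ψ : AddChar (Adl K) Circle) (ν : Measure (Adl K)) (D : Set (Adl K)), IsWhitData ψ ν D →
    ∀ (π π' : HeckeEigensystem K ℂ) (φ φ' : G K → ℂ),
      IsSph0CuspFormFor π φ → IsSph0CuspFormFor π' φ' →
      ∀ v : HeightOneSpectrum (𝓞 K), ¬ v.asIdeal ∣ π.level → ¬ v.asIdeal ∣ π'.level →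
        π.a v = π'.a v → π.b v = π'.b v → IsCondExp ψ v 0 →
        ∀ s : (v.adicCompletion K)ˣ, Fac23 (wh ψ ν D φ) (wh ψ ν D φ') (iF23 v s) := by
  letI : MeasurableSpace (Adl K) := borel (Adl K)
  intro ψ ν D hdata π π' φ φ' hφ hφ' v hv hv' hab hbb hcond s
  obtain ⟨lam, hlam0, hlam⟩ := hU ψ ν D hdata v 0 hcond
  by_cases hs : s = 1
  · rw [hs, map_one]
    exact fac_one23
  refine ⟨lam (π.a v) (π.b v) (WithZero.log (Valued.v (s : v.adicCompletion K))), fun g hg => ?_⟩
  have hg' : TrivAtFin v g := by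
    rcases hg.1 v with h | h
    · rw [cF23_iF23_same23] at h
      exact absurd h hs
    · exact h
  have h1 : Valued.v (((1 : (Adl K)ˣ) : Adl K).2 v) = WithZero.exp (0 : ℤ) := by
    rw [Units.val_one, H743.snd_one743, map_one, WithZero.exp_zero]
  have kφ : IsKv v φ := H333.isKv_of_isLevel333 π.level v φ hv hφ.level_inv
  have kφ' : IsKv v φ' := H333.isKv_of_isLevel333 π'.level v φ' hv' hφ'.level_inv
  have e1 := hlam φ (π.a v) (π.b v) hφ.cont hφ.bdd hφ.left_inv kφ (hφ.hecke v hv)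
    (iF23 v s) 1 (isIdeleAtFin_iF23 v s) (isIdeleAtFin_one23 v) h1 g hg'
  have e2 := hlam φ' (π'.a v) (π'.b v) hφ'.cont hφ'.bdd hφ'.left_inv kφ' (hφ'.hecke v hv')
    (iF23 v s) 1 (isIdeleAtFin_iF23 v s) (isIdeleAtFin_one23 v) h1 g hg'
  rw [iF23_val_same23, tor_one23, one_mul] at e1 e2
  rw [← hab, ← hbb] at e2
  exact ⟨e1, e2⟩

/-- **Complex place.** -/
theorem fac_cplx23 (hA : ArchTorusC K) :
    letI : MeasurableSpace (Adl K) := borel (Adl K)
    ∀ (ψ : AddChar (Adl K) Circle) (ν : Measure (Adl K)) (D : Set (Adl K)), IsWhitData ψ ν D →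
    ∀ (π π' : HeckeEigensystem K ℂ) (φ φ' : G K → ℂ),
      IsSph0CuspFormFor π φ → IsSph0CuspFormFor π' φ' →
      ∀ w : InfinitePlace K, w.IsComplex →
        ∀ t : (w.Completion)ˣ, Fac23 (wh ψ ν D φ) (wh ψ ν D φ') (iI23 w t) := by
  letI : MeasurableSpace (Adl K) := borel (Adl K)
  intro ψ ν D hdata π π' φ φ' hφ hφ' w hw t
  obtain ⟨κ, hκ⟩ := hA ψ ν D hdata w hw
  by_cases ht : t = 1
  · rw [ht, map_one]
    exact fac_one23
  refine ⟨κ (t : w.Completion), fun g hg => ?_⟩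
  have hg' : TrivAtInf w g := by
    rcases hg.2 w with h | h
    · rw [cI23_iI23_same23] at h
      exact absurd h ht
    · exact h
  have e1 := hκ φ hφ.cont hφ.bdd hφ.left_inv (hφ.arch_scalar w) (hφ.arch_compact w)
    (hφ.mean_complex w hw) (iI23 w t) (isIdeleAtInf_iI23 w t) g hg'
  have e2 := hκ φ' hφ'.cont hφ'.bdd hφ'.left_inv (hφ'.arch_scalar w) (hφ'.arch_compact w)
    (hφ'.mean_complex w hw) (iI23 w t) (isIdeleAtInf_iI23 w t) g hg'
  rw [iI23_val23, adI23_same23] at e1 e2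
  exact ⟨e1, e2⟩

theorem isLocalAtInf_tor23 (w : InfinitePlace K) (t : (w.Completion)ˣ) :
    IsLocalAtInf w (tor (iI23 w t)) :=
  ⟨fun w' h => trivAtInf_tor23 (cI23_iI23_ne23 w t h), fun v => trivAtFin_tor23 (cF23_iI23 w t v)⟩

theorem infComp_tor_neg23 (w : InfinitePlace K) :
    infComp w (tor (iI23 w (-1 : (w.Completion)ˣ))) = !![-1, 0; 0, 1] := by
  ext i j
  fin_cases i <;> fin_cases j
  · show InfinitePlace.Completion.extensionEmbedding w
      (((iI23 w (-1 : (w.Completion)ˣ) : (Adl K)ˣ) : Adl K).1 w) = -1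
    rw [iI23_val23, adI23_same23, Units.val_neg, Units.val_one, map_neg, map_one]
  · show InfinitePlace.Completion.extensionEmbedding w ((0 : Adl K).1 w) = 0
    rw [H743.fst_zero743, map_zero]
  · show InfinitePlace.Completion.extensionEmbedding w ((0 : Adl K).1 w) = 0
    rw [H743.fst_zero743, map_zero]
  · show InfinitePlace.Completion.extensionEmbedding w ((1 : Adl K).1 w) = 1
    rw [H743.fst_one743, map_one]

/-- **Real place, equal parities.** -/
theorem fac_real23 (hA : ArchTorusRealC K) :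
    letI : MeasurableSpace (Adl K) := borel (Adl K)
    ∀ (ψ : AddChar (Adl K) Circle) (ν : Measure (Adl K)) (D : Set (Adl K)), IsWhitData ψ ν D →
    ∀ (π π' : HeckeEigensystem K ℂ) (φ φ' : G K → ℂ),
      IsSph0CuspFormFor π φ → IsSph0CuspFormFor π' φ' → SameParity φ φ' →
      ∀ w : InfinitePlace K, w.IsReal →
        ∀ t : (w.Completion)ˣ, Fac23 (wh ψ ν D φ) (wh ψ ν D φ') (iI23 w t) := by
  letI : MeasurableSpace (Adl K) := borel (Adl K)
  intro ψ ν D hdata π π' φ φ' hφ hφ' hpar w hw t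
  obtain ⟨κ, hκ⟩ := hA ψ ν D hdata w hw
  by_cases ht : t = 1
  · rw [ht, map_one]
    exact fac_one23
  have hgw : ∀ g : G K, Disj23 (iI23 w t) g → TrivAtInf w g := by
    intro g hg
    rcases hg.2 w with h | h
    · rw [cI23_iI23_same23] at h
      exact absurd h ht
    · exact h
  set ρ : ℝ := InfinitePlace.Completion.extensionEmbeddingOfIsReal hw (t : w.Completion) with hρ
  have hρ0 : ρ ≠ 0 := by
    rw [hρ]
    exact (map_ne_zero _).2 t.ne_zero
  -- the formula for positive component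
  have pos : ∀ (s : (w.Completion)ˣ) (r : ℝ), 0 < r →
      InfinitePlace.Completion.extensionEmbeddingOfIsReal hw (s : w.Completion) = r →
      ∀ g : G K, TrivAtInf w g →
        wh ψ ν D φ (tor (iI23 w s) * g) = κ r * wh ψ ν D φ g ∧
          wh ψ ν D φ' (tor (iI23 w s) * g) = κ r * wh ψ ν D φ' g := by
    intro s r hr hs g hg
    have hemb : InfinitePlace.Completion.extensionEmbedding w
        (((iI23 w s : (Adl K)ˣ) : Adl K).1 w) = (r : ℂ) := by
      rw [iI23_val23, adI23_same23, ← InfinitePlace.Completion.extensionEmbeddingOfIsReal_apply hw, hs]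
    exact ⟨hκ φ hφ.cont hφ.bdd hφ.left_inv (hφ.arch_scalar w) (hφ.arch_compact w)
        (hφ.mean_real w hw) (iI23 w s) (isIdeleAtInf_iI23 w s) r hr hemb g hg,
      hκ φ' hφ'.cont hφ'.bdd hφ'.left_inv (hφ'.arch_scalar w) (hφ'.arch_compact w)
        (hφ'.mean_real w hw) (iI23 w s) (isIdeleAtInf_iI23 w s) r hr hemb g hg⟩
  rcases lt_or_gt_of_ne hρ0 with hneg | hpos
  · -- negative component: parity
    obtain ⟨ε, hε, hε'⟩ := hpar w hw (tor (iI23 w (-1 : (w.Completion)ˣ)))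
      (isLocalAtInf_tor23 w _) (infComp_tor_neg23 w)
    refine ⟨ε * κ (-ρ), fun g hg => ?_⟩
    have hg' := hgw g hg
    have hs : InfinitePlace.Completion.extensionEmbeddingOfIsReal hw
        (((-t : (w.Completion)ˣ)) : w.Completion) = -ρ := by
      rw [Units.val_neg, map_neg]
    obtain ⟨p1, p2⟩ := pos (-t) (-ρ) (by linarith) hs g hg'
    have ht2 : iI23 w t = iI23 w (-t) * iI23 w (-1 : (w.Completion)ˣ) := by
      rw [← map_mul]
      congr 1
      rw [neg_mul_neg, mul_one]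
    have hcomm : tor (iI23 w (-1 : (w.Completion)ˣ)) * g
        = g * tor (iI23 w (-1 : (w.Completion)ˣ)) := by
      refine comm_of_disj23 (fun v => Or.inl ((isLocalAtInf_tor23 w _).2 v)) (fun w' => ?_)
      by_cases hw' : w' = w
      · right
        rw [hw']
        exact hg'
      · left
        exact (isLocalAtInf_tor23 w _).1 w' hw'
    have e : tor (iI23 w t) * g
        = tor (iI23 w (-t)) * g * tor (iI23 w (-1 : (w.Completion)ˣ)) := by
      rw [ht2, tor_mul23, mul_assoc, hcomm, ← mul_assoc]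
    have q1 : wh ψ ν D φ (tor (iI23 w t) * g)
        = wh ψ ν D (rt (tor (iI23 w (-1 : (w.Completion)ˣ))) φ) (tor (iI23 w (-t)) * g) := by
      rw [e, wh_rt23]
    have q2 : wh ψ ν D φ' (tor (iI23 w t) * g)
        = wh ψ ν D (rt (tor (iI23 w (-1 : (w.Completion)ˣ))) φ') (tor (iI23 w (-t)) * g) := by
      rw [e, wh_rt23]
    have r1 : wh ψ ν D (rt (tor (iI23 w (-1 : (w.Completion)ˣ))) φ) (tor (iI23 w (-t)) * g)
        = ε * wh ψ ν D φ (tor (iI23 w (-t)) * g) := by
      rw [← wh_smul23]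
      exact wh_congr23 ψ ν D (fun x => hε x) _
    have r2 : wh ψ ν D (rt (tor (iI23 w (-1 : (w.Completion)ˣ))) φ') (tor (iI23 w (-t)) * g)
        = ε * wh ψ ν D φ' (tor (iI23 w (-t)) * g) := by
      rw [← wh_smul23]
      exact wh_congr23 ψ ν D (fun x => hε' x) _
    rw [q1, q2, r1, r2, p1, p2, mul_assoc, mul_assoc]
    exact ⟨rfl, rfl⟩
  · exact ⟨κ ρ, fun g hg => pos t ρ hpos hρ.symm g (hgw g hg)⟩

end Fermat.Agent.LT.T2.H23

end

end
-- ===== PACK-END LT/T2/H23/Local.lean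

-- ===== PACK-BEGIN LT/T3/H315/IwaMeas.lean
section


/-!
# Row LT, tower T3, leaf AS.2.5 `IwaC` (registry 1176, helper315) -- part 3: measures

OFF-MAIN.  Mathlib only.

* Lebesgue measure in the coordinates `(s, x)` is a left Haar measure of the group `Pc`
  (left translations are shears: `MeasurePreserving.skew_product`);
* the image of a Haar measure of `GL₂(ℂ)` under the Iwasawa projection is a left invariant
  measure of `Pc`, finite on compact sets;
* uniqueness of the Haar measure of `Pc` gives **`iwaC315 : IwaC`**.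
-/

set_option autoImplicit false
set_option linter.unusedSimpArgs false
set_option linter.style.haveILetI false
set_option linter.unusedSectionVars false

open MeasureTheory
open Fermat.Agent.LT.H556.A0 Fermat.Agent.LT.T3.AS Fermat.Agent.LT.T3.H614
open scoped ComplexConjugate Pointwise

noncomputable section

namespace Fermat.Agent.LT.T3.H315

namespace Pc

instance : MeasureSpace Pc := inferInstanceAs (MeasureSpace ((ℝ × ℝ) × ℂ))

theorem volume_eq_prod :
    (volume : Measure Pc) = ((volume : Measure (ℝ × ℝ)).prod (volume : Measure ℂ)) := rfl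

instance : IsFiniteMeasureOnCompacts (volume : Measure Pc) :=
  inferInstanceAs (IsFiniteMeasureOnCompacts (volume : Measure ((ℝ × ℝ) × ℂ)))

instance : Measure.IsOpenPosMeasure (volume : Measure Pc) :=
  inferInstanceAs (Measure.IsOpenPosMeasure (volume : Measure ((ℝ × ℝ) × ℂ)))

/-- Left translations of `Pc` preserve Lebesgue measure (they are shears). -/
theorem measurePreserving_mul_left315 (b : Pc) :
    MeasurePreserving (fun q : Pc => b * q) volume volume := by
  have hf : MeasurePreserving (fun s : ℝ × ℝ => (b.s1, b.s2) + s) volume volume :=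
    measurePreserving_add_left volume _
  have hgm : Measurable (Function.uncurry fun (s : ℝ × ℝ) (x : ℂ) =>
      x + ((Real.exp (s.2 - s.1) : ℝ) : ℂ) * b.xc) := by
    apply Continuous.measurable
    unfold Function.uncurry
    refine continuous_snd.add (Continuous.mul ?_ continuous_const)
    exact Complex.continuous_ofReal.comp (Real.continuous_exp.comp
      (continuous_fst.snd.sub continuous_fst.fst))
  have hg : ∀ᵐ s : ℝ × ℝ ∂volume, Measure.map (fun x : ℂ =>
      x + ((Real.exp (s.2 - s.1) : ℝ) : ℂ) * b.xc) (volume : Measure ℂ) = volume :=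
    Filter.Eventually.of_forall fun s => map_add_right_eq_self _ _
  have h := MeasurePreserving.skew_product hf hgm hg
  have e : (fun q : Pc => b * q)
      = fun p : (ℝ × ℝ) × ℂ => ((b.s1, b.s2) + p.1,
          p.2 + ((Real.exp (p.1.2 - p.1.1) : ℝ) : ℂ) * b.xc) := by
    funext q
    rfl
  rw [e]
  exact h

instance : Measure.IsMulLeftInvariant (volume : Measure Pc) :=
  ⟨fun b => (measurePreserving_mul_left315 b).map_eq⟩

instance : Measure.IsHaarMeasure (volume : Measure Pc) := {}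

end Pc

section Main

variable [MeasurableSpace (GL (Fin 2) ℂ)] [BorelSpace (GL (Fin 2) ℂ)]

theorem measurable_rhoP : Measurable rhoP := continuous_rhoP.measurable

/-- The image of a left invariant measure under the Iwasawa projection is left invariant. -/
theorem isMulLeftInvariant_map_rhoP (μ : Measure (GL (Fin 2) ℂ)) [μ.IsMulLeftInvariant] :
    (μ.map rhoP).IsMulLeftInvariant := by
  refine ⟨fun b => ?_⟩
  have hb : Measurable fun q : Pc => b * q := (continuous_const.mul continuous_id).measurable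
  have hl : Measurable fun h : GL (Fin 2) ℂ => iwaP b * h :=
    (continuous_const.mul continuous_id).measurable
  rw [Measure.map_map hb measurable_rhoP]
  have e : (fun q : Pc => b * q) ∘ rhoP = rhoP ∘ fun h : GL (Fin 2) ℂ => iwaP b * h := by
    funext h
    exact (rhoP_mul b h).symm
  rw [e, ← Measure.map_map measurable_rhoP hl, map_mul_left_eq_self]

/-- The image of a Haar measure under the Iwasawa projection is finite on compact sets. -/
theorem isFiniteMeasureOnCompacts_map_rhoP (μ : Measure (GL (Fin 2) ℂ))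
    [IsFiniteMeasureOnCompacts μ] : IsFiniteMeasureOnCompacts (μ.map rhoP) := by
  refine ⟨fun C hC => ?_⟩
  obtain ⟨T, hT, hsub⟩ := exists_isCompact_preimage_rhoP hC
  rw [Measure.map_apply measurable_rhoP hC.measurableSet]
  exact lt_of_le_of_lt (measure_mono hsub) hT.measure_lt_top

/-- `Φ ∘ iwaP` has compact support. -/
theorem hasCompactSupport_comp_iwaP {Φ : GL (Fin 2) ℂ → ℂ} (hΦ : HasCompactSupport Φ) :
    HasCompactSupport fun p : Pc => Φ (iwaP p) := by
  refine HasCompactSupport.intro (hΦ.image continuous_rhoP) ?_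
  intro p hp
  apply image_eq_zero_of_notMem_tsupport
  intro hmem
  exact hp ⟨iwaP p, hmem, rhoP_iwaP p⟩

/-- The Iwasawa integration formula for a given Haar measure. -/
theorem iwa_formula315 (μ : Measure (GL (Fin 2) ℂ)) [μ.IsHaarMeasure] :
    ∃ c : ℝ, 0 < c ∧ ∀ Φ : GL (Fin 2) ℂ → ℂ, Continuous Φ → HasCompactSupport Φ →
      (∀ k h : GL (Fin 2) ℂ, IsUnitary2 k → Φ (h * k) = Φ h) →
      ∫ h, Φ h ∂μ = (c : ℂ) * ∫ s : ℝ × ℝ, ∫ x : ℂ, Φ (iwa s x) := by
  haveI := isMulLeftInvariant_map_rhoP μ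
  haveI := isFiniteMeasureOnCompacts_map_rhoP μ
  have hν : μ.map rhoP = Measure.haarScalarFactor (μ.map rhoP) (volume : Measure Pc)
      • (volume : Measure Pc) :=
    Measure.isMulLeftInvariant_eq_smul (μ.map rhoP) volume
  set c := Measure.haarScalarFactor (μ.map rhoP) (volume : Measure Pc) with hc
  have hc0 : c ≠ 0 := by
    intro h0
    rw [h0, zero_smul] at hν
    have h1 : (μ.map rhoP) Set.univ = 0 := by rw [hν]; simp
    rw [Measure.map_apply measurable_rhoP MeasurableSet.univ, Set.preimage_univ] at h1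
    exact (isOpen_univ.measure_pos μ Set.univ_nonempty).ne' h1
  refine ⟨(c : ℝ), by positivity, ?_⟩
  intro Φ hΦc hΦs hΦk
  have hcomp : Continuous fun p : Pc => Φ (iwaP p) := hΦc.comp continuous_iwaP
  have hint : Integrable (fun p : Pc => Φ (iwaP p)) (volume : Measure Pc) :=
    hcomp.integrable_of_hasCompactSupport (hasCompactSupport_comp_iwaP hΦs)
  calc ∫ h, Φ h ∂μ = ∫ h, (fun p : Pc => Φ (iwaP p)) (rhoP h) ∂μ :=
        integral_congr_ae (Filter.Eventually.of_forall fun h => eq_comp_rhoP Φ hΦk h)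
    _ = ∫ p, Φ (iwaP p) ∂(μ.map rhoP) :=
        (integral_map measurable_rhoP.aemeasurable hcomp.aestronglyMeasurable).symm
    _ = ∫ p, Φ (iwaP p) ∂(c • (volume : Measure Pc)) := by rw [← hν]
    _ = (c : ℝ) • ∫ p, Φ (iwaP p) ∂(volume : Measure Pc) := by
        rw [integral_smul_nnreal_measure]
        rfl
    _ = (c : ℂ) * ∫ s : ℝ × ℝ, ∫ x : ℂ, Φ (iwa s x) := by
        have hint' : Integrable (fun z : (ℝ × ℝ) × ℂ => Φ (iwa z.1 z.2))
            ((volume : Measure (ℝ × ℝ)).prod (volume : Measure ℂ)) := hint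
        have key : ∫ p : Pc, Φ (iwaP p) ∂(volume : Measure Pc)
            = ∫ s : ℝ × ℝ, ∫ x : ℂ, Φ (iwa s x) :=
          integral_prod (fun z : (ℝ × ℝ) × ℂ => Φ (iwa z.1 z.2)) hint'
        rw [key, Complex.real_smul]

end Main

/-- **AS.2.5 `IwaC`** (registry 1176). -/
theorem iwaC315 : IwaC := by
  letI : MeasurableSpace (GL (Fin 2) ℂ) := borel (GL (Fin 2) ℂ)
  haveI : BorelSpace (GL (Fin 2) ℂ) := ⟨rfl⟩
  haveI := locallyCompactSpace_GL2C315
  obtain ⟨c, hc, h⟩ := iwa_formula315 (Measure.haar : Measure (GL (Fin 2) ℂ))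
  exact ⟨Measure.haar, inferInstance, c, hc, h⟩

end Fermat.Agent.LT.T3.H315

end

end
-- ===== PACK-END LT/T3/H315/IwaMeas.lean

-- ===== PACK-BEGIN LT/T5/H74/Range.lean
section


/-!
# Row LT, tower T5, leaf T5.04 `LeafRange` (helper74): ASSEMBLY (conditional delivery)

OFF-MAIN (Spec v4 = FREEZE, origin/helper32@eb7e4c138, sha256 f2d97e70548f).
`leafRange_of74 : INPUTS → T5.LeafRange 𝔫 τ`.

## Falsity audit of `T5.LeafRange` (helper74)

TRUE as stated, but NOT a consequence of the statement `T5.LeafHS0` alone: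

* automorphy, type `τ`  — unconditional (`isAutomorphicFn_range74`, file `RangeAut`);
* continuity            — local finiteness of `GL₂(K) ⟨r⟩` in `GL₂(𝔸_K)` (`LocFin74`);
* boundedness           — needs a bound of the rows `‖K_φ(x, ·)‖_{L²(F)}` UNIFORM in `x`
                          (`RowBound74`); `LeafHS0` only bounds almost every row;
* vanishing constant term — needs the cuspidality of the kernel in its first variable
                          (`KerCuspC74`), the kernel form of `T3.EKCuspC`; then Fubini.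

## Inputs

* `T3.InLocCompC K`, `T3.InLatticeC K` (only cocompactness is used), `T3.InFundDomC K`: outputs
  of T1, in the form in which T3 takes them;
* `LocFinC74 K`   : for a ray generator `r`, a compact set of `GL₂(𝔸_K)` contains finitely many
                    `γ rᵐ` (T1: `GL₂(K)` is discrete and closed, `‖det(γ rᵐ)‖_𝔸 = 2ᵐ`);
* `RowBoundC74 𝔫 τ` : uniform row bound for Eisenstein-killing test functions (by-product of the
                    proof of T5.02; follows from a uniform bound of the kernel,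
                    `rowBound_of_bounded74`);
* `KerCuspC74 𝔫 τ` : for an Eisenstein-killing test function and `z ∈ F` the function
                    `x ↦ K_φ(x, z)` has vanishing constant term.
-/

set_option autoImplicit false

open IsDedekindDomain NumberField MeasureTheory
open scoped MatrixGroups ComplexConjugate Pointwise ENNReal

noncomputable section

namespace Fermat.Agent.LT.T5.H74

open Fermat.Agent.LT.H556.A0 Fermat.Agent.LT.T5

attribute [local instance] Fermat.Agent.LT.T5.instMeasurableSpaceG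

variable {K : Type} [Field K] [NumberField K]

/-- **INPUT.**  Local finiteness of `GL₂(K) ⟨r⟩` for every generator `r` of the discrete ray. -/
def LocFinC74 (K : Type) [Field K] [NumberField K] : Prop :=
  ∀ r : G K, IsRayGen r → LocFin74 r

/-- **INPUT.**  Uniform row bound of the kernel of an Eisenstein-killing test function. -/
def RowBoundC74 (𝔫 : Ideal (𝓞 K)) (τ : G K → ℂ) : Prop :=
  ∀ (μ : Measure (G K)) (F : Set (G K)) (r : G K), IsFrame μ F → IsRayGen r →
    ∀ φ : G K → ℂ, IsTestFn 𝔫 τ φ → IsEK μ φ → IsEK μ (adjointFn φ) → RowBound74 μ F r φ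

/-- **INPUT.**  The kernel of an Eisenstein-killing test function is cuspidal in its first
variable. -/
def KerCuspC74 (𝔫 : Ideal (𝓞 K)) (τ : G K → ℂ) : Prop :=
  ∀ (μ : Measure (G K)) (F : Set (G K)) (r : G K), IsFrame μ F → IsRayGen r →
    ∀ φ : G K → ℂ, IsTestFn 𝔫 τ φ → IsEK μ φ → IsEK μ (adjointFn φ) →
      ∀ z ∈ F, IsCuspidalFn (fun x => ker0 r φ x z)

/-- **T5.04 `LeafRange`, conditional delivery.** -/
theorem leafRange_of74 (𝔫 : Ideal (𝓞 K)) (τ : G K → ℂ) (hloc : T3.InLocCompC K)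
    (hlat : T3.InLatticeC K) (hfd : T3.InFundDomC K) (hfin : LocFinC74 K)
    (hrow : RowBoundC74 𝔫 τ) (hcusp : KerCuspC74 𝔫 τ) : LeafRange 𝔫 τ := by
  obtain ⟨⟨-, -, hscA⟩, hlcG, -, hscG⟩ := hloc
  intro μ F r hF hr φ hφ hek hek' f hf
  have hcen : ∀ g : G K, r * g = g * r := isRayGen_central74 r hr
  have : BorelSpace (G K) := borelSpaceG74
  exact
    { cont := continuous_range74 μ F hF.finite r hcen (hfin r hr) φ hφ.cont hφ.supp f hf
      bdd := bounded_range74 μ F r φ (hrow μ F r hF hr φ hφ hek hek')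
        (fun x =>
          (continuous_ker0_right74 r hcen (hfin r hr) φ hφ.cont hφ.supp x).aestronglyMeasurable)
        f hf
      aut := isAutomorphicFn_range74 𝔫 τ μ F r hr φ hφ f
      cuspidal := cuspidal_range74 hlat.2.2 hfd μ F hF.meas hF.finite r hcen (hfin r hr) φ
        hφ.cont hφ.supp (hcusp μ F r hF hr φ hφ hek hek') f hf }

end Fermat.Agent.LT.T5.H74

end

end
-- ===== PACK-END LT/T5/H74/Range.lean

-- ===== PACK-BEGIN LT/T7/H231/MidStableU.lean
section




/-!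
# Row LT, tower T7, leaf T7.08 `MidStableFromUniqueC` (helper231)

OFF-MAIN.  Spec: `Fermat/Agent/LT/T7/Spec.lean` v1.2 (origin/helper797@d4e07e123, sha256
76a196044a64b920, byte-identical copy).

`midStableFromUniqueC231 : MidStableFromUniqueC`, i.e. `MidUniqueC → ConjAll → MidStableC`.

Same skeleton as T7.04 (`MidStable.lean`), without the Frobenius dictionary: for EVERY
automorphism `s` of `F/ℚ` the conjugate `π'` of `πF` (`ConjC`) has the data `MidData` (the identity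
of `MidData` at a place `v'` over `p` for `π'` is the identity for `πF` at `s⁻¹ v'`, a place over
the same `p`, with the same Frobenius element), hence `π' = πF` a.e. by `MidUniqueC`; the places
of `F` over `p` are permuted transitively by `Gal(F/ℚ)`.
-/

set_option autoImplicit false
set_option linter.unusedSectionVars false
set_option linter.style.haveILetI false

open AutomorphicForm
open IsDedekindDomain NumberField
open scoped MatrixGroups Pointwise

noncomputable section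

namespace Fermat.Agent.LT.T7.H231

open Fermat.Agent.LT.H130 Fermat.Agent.LT.H556 Fermat.Agent.LT.A2.H230 Fermat.Agent.LT.T7
open Fermat.Agent.Lib.Cheb.Spec Fermat.Agent.Lib.Cheb.H943

local notation "Γℚ" => (AlgebraicClosure ℚ ≃ₐ[ℚ] AlgebraicClosure ℚ)

/-- **Leaf T7.08 `MidStableFromUniqueC`.** -/
theorem midStableFromUniqueC231 : MidStableFromUniqueC := by
  intro hUniq hConj ρ Ψ ι hyp nfF πF hcusp hmid
  classical
  haveI := nfF
  haveI nF := normal_fieldF231 ρ
  haveI gF : IsGalois ℚ (fieldF ρ) := isGalois_iff.mpr ⟨inferInstance, nF⟩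
  have hmid' := hmid
  obtain ⟨S₁, hS₁⟩ := hmid
  -- Step 0: the central character of `πF`
  have hb : ∀ p : ℕ, p.Prime → p ∉ S₁ → ∀ v : HeightOneSpectrum (𝓞 (fieldF ρ)),
      ((p : ℕ) : 𝓞 (fieldF ρ)) ∈ v.asIdeal → πF.b v = 1 := by
    intro p hp hpS v hpv
    obtain ⟨A, σ, hLO, hσ, -⟩ := exists_frob_over231 (fieldF ρ) v hp hpv
    exact (hS₁ p hp hpS A hLO σ hσ v hpv).2
  -- Step 1: every automorphism of `F`
  have key : ∀ s : (fieldF ρ) ≃ₐ[ℚ] (fieldF ρ), ∃ S : Finset ℕ, ∀ p : ℕ, p.Prime → p ∉ S →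
      ∀ v v' : HeightOneSpectrum (𝓞 (fieldF ρ)), ((p : ℕ) : 𝓞 (fieldF ρ)) ∈ v.asIdeal →
        PlaceImage s.toRingEquiv v v' → πF.a v' = πF.a v := by
    intro s
    obtain ⟨π', hπ', S₂, hS₂⟩ := hConj (fieldF ρ) s.toRingEquiv πF hcusp
    -- the conjugate has the data `MidData`
    have hmidπ' : MidData (fieldF ρ) ρ Ψ ι π' := by
      refine ⟨S₁ ∪ S₂.image primeOf231, fun p hp hpS A hLO σ hσ v' hpv' => ?_⟩
      rw [Finset.mem_union, not_or] at hpS
      obtain ⟨v, hv⟩ := exists_placeImage231 s.toRingEquiv v'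
      have hpv : ((p : ℕ) : 𝓞 (fieldF ρ)) ∈ v.asIdeal := (placeImage_prime231 hv p).mpr hpv'
      have hvS₂ : v ∉ S₂ := not_mem_of_prime_not_mem_image231 hp hpS.2 hpv
      obtain ⟨ha', hb'⟩ := hS₂ v hvS₂ v' hv
      rw [ha', hb']
      exact hS₁ p hp hpS.1 A hLO σ hσ v hpv
    obtain ⟨S₅, hS₅⟩ := hUniq ρ Ψ ι hyp nfF πF π' hcusp hπ' hmid' hmidπ'
    refine ⟨S₂.image primeOf231 ∪ S₅.image primeOf231, fun p hp hpS v v' hpv hvv' => ?_⟩
    rw [Finset.mem_union, not_or] at hpS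
    have hvS₂ : v ∉ S₂ := not_mem_of_prime_not_mem_image231 hp hpS.1 hpv
    have hpv' : ((p : ℕ) : 𝓞 (fieldF ρ)) ∈ v'.asIdeal := (placeImage_prime231 hvv' p).mp hpv
    have hv'S₅ : v' ∉ S₅ := not_mem_of_prime_not_mem_image231 hp hpS.2 hpv'
    rw [(hS₅ v' hv'S₅).1, (hS₂ v hvS₂ v' hvv').1]
  -- Step 2: the union over the Galois group
  choose Ss hSs using key
  refine ⟨S₁ ∪ Finset.univ.biUnion Ss, fun p hp hpS w w' hpw hpw' => ?_⟩
  rw [Finset.mem_union, not_or] at hpS
  refine ⟨?_, by rw [hb p hp hpS.1 w hpw, hb p hp hpS.1 w' hpw']⟩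
  obtain ⟨s, hs⟩ := exists_placeImage_of_prime231 (fieldF ρ) hp w' w hpw' hpw
  exact hSs s p hp (fun h => hpS.2 (Finset.mem_biUnion.mpr ⟨s, Finset.mem_univ _, h⟩))
    w' w hpw' hs

end Fermat.Agent.LT.T7.H231

end

end
-- ===== PACK-END LT/T7/H231/MidStableU.lean

-- ===== PACK-BEGIN LT/T7/H671/CountSpec.lean
section



/-!
# Row LT, tower T7, node T7.14 `RigidC`, LEAF `CountC` (registry 1519) -- cut (helper671)

OFF-MAIN.  Definitions, frozen Props, PROVED top.  Nothing assumed.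
Vocabulary: `LT/T7/H62/RigidAut.lean` (helper62@f901254d0, sha256 e1add0c10b3f2cee, byte-identical
copy) on `T5/Spec` v4 f2d97e70, `RigidPkg` a2b090c0, `RigidSpec` a87f852b, `T7/Spec` 76a19604,
`A0` 66d3374a.

```
Rigid.CountC K  ⇐  CountMeasC K + CountLimC K + CountBddC K        (`countC_of671`, PROVED here)
```

* `CountMeasC K` : `g ↦ cnt 𝔪 Y g` is Borel measurable on `GL₂(𝔸_K)` (`Y > 0`).
  (`cnt ≥ n` iff some `n` points of the countable set `ℙ¹(K)` lie in `cntSet`; for a fixed point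
  `x` the three conditions are open/closed in `g`: `g ↦ rowNorm (rowOf x g)` and
  `g ↦ adNorm (det g)` are continuous on `GL₂(𝔸_K)`, the congruence is locally constant.)
* `CountLimC K`  : Schanuel's theorem for `ℙ¹(K)` with the adelic metric twisted by `g` and the
  congruence condition: `Y · cnt 𝔪 Y g → κ`, the SAME `κ > 0` for every `g`.
  (helper671: `ConeCount.lean` = lattice points of `(K_∞)²` in a fundamental cone for the units,
  then sieve.)
* `CountBddC K`  : `Y · cnt 𝔪 Y g ≤ C` for `0 < Y ≤ 1`, uniformly in `g`.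
  (`cnt` is left `GL₂(K)`-invariant and `Z(𝔸)`-invariant in `g`; reduction theory `T1.ReductionC`
  puts `g` in a Siegel set, where all points except `[0 : 1]` have height `≤ 1 / c`; packing.
  The congruence condition only decreases the count.)
-/

set_option autoImplicit false

open AutomorphicForm IsDedekindDomain NumberField Filter Topology MeasureTheory

noncomputable section

namespace Fermat.Agent.LT.T7.H671

open Fermat.Agent.LT.H556 Fermat.Agent.LT.H556.A0 Fermat.Agent.LT.T7 Fermat.Agent.LT.T7.Rigid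

attribute [local instance] Fermat.Agent.LT.T5.instMeasurableSpaceG

variable (K : Type) [Field K] [NumberField K]

/-- **LEAF COUNT-MEAS.**  `g ↦ cnt 𝔪 Y g` is Borel measurable. -/
def CountMeasC : Prop :=
  TotCplx K →
  ∀ 𝔪 : Ideal (𝓞 K), 𝔪 ≠ ⊥ →
    ∀ Y : ℝ, 0 < Y → Measurable fun g : G K => (cnt 𝔪 Y g : ℝ)

/-- **LEAF COUNT-LIM.**  `Y · cnt 𝔪 Y g → κ` as `Y → 0⁺`, with the same `κ > 0` for every `g`. -/
def CountLimC : Prop :=
  TotCplx K →
  ∀ 𝔪 : Ideal (𝓞 K), 𝔪 ≠ ⊥ →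
    ∃ κ : ℝ, 0 < κ ∧
      ∀ g : G K, Tendsto (fun Y : ℝ => Y * (cnt 𝔪 Y g : ℝ)) (𝓝[>] (0 : ℝ)) (𝓝 κ)

/-- **LEAF COUNT-BDD.**  `Y · cnt 𝔪 Y g ≤ C` for `0 < Y ≤ 1`, uniformly in `g`. -/
def CountBddC : Prop :=
  TotCplx K →
  ∀ 𝔪 : Ideal (𝓞 K), 𝔪 ≠ ⊥ →
    ∃ C : ℝ, ∀ (g : G K) (Y : ℝ), 0 < Y → Y ≤ 1 → Y * (cnt 𝔪 Y g : ℝ) ≤ C

variable {K}

/-- **TOP of the leaf**: `Rigid.CountC K` from the three Props of this file. -/
theorem countC_of671 (hM : CountMeasC K) (hL : CountLimC K) (hB : CountBddC K) : CountC K := by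
  intro hcplx 𝔪 h𝔪
  obtain ⟨κ, hκ, hlim⟩ := hL hcplx 𝔪 h𝔪
  exact ⟨κ, hκ, hM hcplx 𝔪 h𝔪, hlim, hB hcplx 𝔪 h𝔪⟩

end Fermat.Agent.LT.T7.H671

end

end
-- ===== PACK-END LT/T7/H671/CountSpec.lean

-- ===== PACK-BEGIN LT/T7/H468/HoroFFam.lean
section


/-!
# Row LT, tower T7, node T7.13 `ThinC`, adelic half over `F`: the horocycle family
(helper468, OFF-MAIN)

`UF468 φ hw M g₀ κ x y = φ (b(x, y)_w · d(k) · g₁)`, `k` a representative of `κ⁻¹`; periodicity,
unit symmetry, the raw Hecke clauses at a principal prime, sum term, last term, the Hecke relation,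
continuity.
-/

set_option autoImplicit false
set_option linter.unusedSectionVars false

open IsDedekindDomain NumberField AutomorphicForm
open scoped MatrixGroups Classical WithZero

noncomputable section

namespace Fermat.Agent.LT.T7.H468

open Fermat.Agent.LT.H556.A0 Fermat.Agent.LT.T8.H864 Fermat.Agent.LT.H51.MS4

variable {K : Type} [Field K] [NumberField K]

/-! ## Valuations of the integers of `K` -/

theorem val_le_one468 (v : HeightOneSpectrum (𝓞 K)) (x : 𝓞 K) :
    v.valuation K (algebraMap (𝓞 K) K x) ≤ 1 := v.valuation_le_one x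

theorem val_eq_one_iff468 (v : HeightOneSpectrum (𝓞 K)) (x : 𝓞 K) :
    v.valuation K (algebraMap (𝓞 K) K x) = 1 ↔ x ∉ v.asIdeal := by
  rw [← v.valuation_lt_one_iff_mem (K := K), not_lt]
  exact ⟨fun h => h.ge, fun h => le_antisymm (val_le_one468 v x) h⟩

theorem natCast_eq_algebraMap468 (M : ℕ) :
    ((M : ℕ) : K) = algebraMap (𝓞 K) K ((M : ℕ) : 𝓞 K) := by
  rw [map_natCast]

theorem mem_TMF468_iff (M : ℕ) (v : HeightOneSpectrum (𝓞 K)) :
    v ∈ TMF468 K M ↔ ((M : ℕ) : 𝓞 K) ∈ v.asIdeal :=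
  valuation_natCast_lt_one_iff v M

theorem idM_le_of_mem468 {M : ℕ} {v : HeightOneSpectrum (𝓞 K)}
    (h : ((M : ℕ) : 𝓞 K) ∈ v.asIdeal) : idM468 K M ≤ v.asIdeal := by
  rw [idM468, Ideal.span_singleton_le_iff_mem]
  exact h

theorem val_le_of_mem_idM468 {M : ℕ} (v : HeightOneSpectrum (𝓞 K)) {x : 𝓞 K}
    (h : x ∈ idM468 K M) :
    v.valuation K (algebraMap (𝓞 K) K x) ≤ v.valuation K ((M : ℕ) : K) := by
  rw [idM468, Ideal.mem_span_singleton] at h
  obtain ⟨t, rfl⟩ := h
  rw [map_mul, map_mul, map_natCast]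
  exact mul_le_of_le_one_right' (val_le_one468 v t)

theorem notMem_of_isUnit_mk468 {M : ℕ} {v : HeightOneSpectrum (𝓞 K)}
    (hv : ((M : ℕ) : 𝓞 K) ∈ v.asIdeal) {k : 𝓞 K}
    (hk : IsUnit (Ideal.Quotient.mk (idM468 K M) k)) : k ∉ v.asIdeal := by
  intro hkv
  obtain ⟨b, hb⟩ := hk.exists_right_inv
  obtain ⟨t, rfl⟩ := Ideal.Quotient.mk_surjective b
  rw [← map_mul, ← map_one (Ideal.Quotient.mk (idM468 K M)), Ideal.Quotient.eq] at hb
  have h1 : k * t - 1 ∈ v.asIdeal := idM_le_of_mem468 hv hb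
  have h2 : (1 : 𝓞 K) ∈ v.asIdeal := by
    have := v.asIdeal.sub_mem (v.asIdeal.mul_mem_right t hkv) h1
    rwa [sub_sub_cancel] at this
  exact v.isPrime.ne_top ((Ideal.eq_top_iff_one _).2 h2)

/-! ## Representatives of the classes of units -/

/-- A representative of a class of units modulo `M`. -/
def repF468 (M : ℕ) (u : (𝓞 K ⧸ idM468 K M)ˣ) : 𝓞 K :=
  Classical.choose (Ideal.Quotient.mk_surjective (u : 𝓞 K ⧸ idM468 K M))

theorem mk_repF468 (M : ℕ) (u : (𝓞 K ⧸ idM468 K M)ˣ) :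
    Ideal.Quotient.mk (idM468 K M) (repF468 M u) = (u : 𝓞 K ⧸ idM468 K M) :=
  Classical.choose_spec (Ideal.Quotient.mk_surjective (u : 𝓞 K ⧸ idM468 K M))

theorem val_repF468 {M : ℕ} {v : HeightOneSpectrum (𝓞 K)} (hv : v ∈ TMF468 K M)
    (u : (𝓞 K ⧸ idM468 K M)ˣ) :
    v.valuation K (algebraMap (𝓞 K) K (repF468 M u)) = 1 := by
  rw [val_eq_one_iff468]
  refine notMem_of_isUnit_mk468 ((mem_TMF468_iff M v).1 hv) ?_
  rw [mk_repF468]
  exact u.isUnit

/-- Congruence of representatives: the valuation bound. -/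
theorem val_sub_le468 {M : ℕ} (v : HeightOneSpectrum (𝓞 K)) {x y : 𝓞 K}
    (h : Ideal.Quotient.mk (idM468 K M) x = Ideal.Quotient.mk (idM468 K M) y) :
    v.valuation K (algebraMap (𝓞 K) K x - algebraMap (𝓞 K) K y)
      ≤ v.valuation K ((M : ℕ) : K) := by
  rw [← map_sub]
  exact val_le_of_mem_idM468 v (Ideal.Quotient.eq.1 h)

/-! ## Principal primes -/

/-- The data of a principal prime `v = (ϖ)` not dividing `M`. -/
structure PrinAt468 (M : ℕ) (v : HeightOneSpectrum (𝓞 K)) (ϖ : 𝓞 K) : Prop where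
  gen : v.asIdeal = Ideal.span {ϖ}
  notMem : ((M : ℕ) : 𝓞 K) ∉ v.asIdeal

namespace PrinAt468

variable {M : ℕ} {v : HeightOneSpectrum (𝓞 K)} {ϖ : 𝓞 K} (P : PrinAt468 M v ϖ)

include P

theorem ne_zero : ϖ ≠ 0 := by
  rintro rfl
  apply v.ne_bot
  rw [P.gen]
  exact Ideal.span_singleton_eq_bot.2 rfl

theorem ne_zero' : algebraMap (𝓞 K) K ϖ ≠ 0 := by
  rw [Ne, FaithfulSMul.algebraMap_eq_zero_iff]
  exact P.ne_zero

theorem val : v.valuation K (algebraMap (𝓞 K) K ϖ) = WithZero.exp (-1 : ℤ) := by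
  rw [HeightOneSpectrum.valuation_of_algebraMap]
  exact HeightOneSpectrum.intValuation_singleton v P.ne_zero P.gen

theorem mem : ϖ ∈ v.asIdeal := by
  rw [P.gen]
  exact Ideal.mem_span_singleton_self ϖ

theorem notMem_TM : v ∉ TMF468 K M := fun h => P.notMem ((mem_TMF468_iff M v).1 h)

theorem val_M : v.valuation K ((M : ℕ) : K) = 1 := valuation_eq_one_of_notMemF468 P.notMem_TM

/-- `ϖ` is a unit at the other places. -/
theorem val_of_ne {v' : HeightOneSpectrum (𝓞 K)} (h : v' ≠ v) :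
    v'.valuation K (algebraMap (𝓞 K) K ϖ) = 1 := by
  rw [val_eq_one_iff468]
  intro hm
  apply h
  have hle : v.asIdeal ≤ v'.asIdeal := by
    rw [P.gen, Ideal.span_singleton_le_iff_mem]
    exact hm
  have hmax : v.asIdeal.IsMaximal := v.isMaximal
  have := hmax.eq_of_le v'.isPrime.ne_top hle
  exact (HeightOneSpectrum.ext this).symm

/-- `ϖ` is a unit modulo `M`. -/
theorem isUnit_mk : IsUnit (Ideal.Quotient.mk (idM468 K M) ϖ) := by
  have hmax : v.asIdeal.IsMaximal := v.isMaximal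
  have hsup : v.asIdeal ⊔ idM468 K M = ⊤ := by
    by_contra hne
    have h0 : v.asIdeal = v.asIdeal ⊔ idM468 K M := hmax.eq_of_le hne le_sup_left
    have h1 : idM468 K M ≤ v.asIdeal := by
      rw [h0]
      exact le_sup_right
    exact P.notMem (h1 (Ideal.mem_span_singleton_self _))
  have h1 : (1 : 𝓞 K) ∈ v.asIdeal ⊔ idM468 K M := by
    rw [hsup]
    exact Submodule.mem_top
  obtain ⟨a, ha, b, hb, hab⟩ := Submodule.mem_sup.1 h1
  rw [P.gen, Ideal.mem_span_singleton] at ha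
  obtain ⟨t, rfl⟩ := ha
  refine IsUnit.of_mul_eq_one (Ideal.Quotient.mk (idM468 K M) t) ?_
  rw [← map_mul, ← map_one (Ideal.Quotient.mk (idM468 K M)), Ideal.Quotient.eq]
  have : ϖ * t - 1 = -b := by
    rw [← hab]
    ring
  rw [this]
  exact (idM468 K M).neg_mem hb

end PrinAt468

/-! ## The raw Hecke clauses at a principal prime -/

/-- The two names of `[[a, b], [0, d]]`. -/
theorem triGL_eq_utF468 (a b d : K) : triGL a b d = ut a b d := by
  unfold triGL ut
  split_ifs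
  · rfl
  · rfl

theorem triAd_eq_locFinK_utF468 (v : HeightOneSpectrum (𝓞 K)) (a b d : K) :
    triAd v a b d = locFinK v (ut a b d) := by
  rw [triAd, triGL_eq_utF468]

theorem not_dvd_levelF468 {𝔫 : Ideal (𝓞 K)} {M : ℕ} (hM : Ideal.absNorm 𝔫 ∣ M)
    {v : HeightOneSpectrum (𝓞 K)} (hv : ((M : ℕ) : 𝓞 K) ∉ v.asIdeal) : ¬ v.asIdeal ∣ 𝔫 := by
  intro hd
  have h1 : ((Ideal.absNorm 𝔫 : ℕ) : 𝓞 K) ∈ v.asIdeal :=
    Ideal.le_of_dvd hd (Ideal.absNorm_mem 𝔫)
  obtain ⟨t, rfl⟩ := hM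
  apply hv
  rw [Nat.cast_mul]
  exact v.asIdeal.mul_mem_right _ h1

/-- The `S_v`-clause for the scalar `ϖ` at `v = (ϖ)`. -/
theorem heckeScalarF468 {π : HeckeEigensystem K ℂ} {φ : G K → ℂ}
    (hφ : IsSph0CuspFormFor π φ) {M : ℕ} (hM : Ideal.absNorm π.level ∣ M)
    {v : HeightOneSpectrum (𝓞 K)} {ϖ : 𝓞 K} (P : PrinAt468 M v ϖ) (g : G K) :
    φ (g * locFinK v (ut (algebraMap (𝓞 K) K ϖ) 0 (algebraMap (𝓞 K) K ϖ)))
      = π.b v * φ g := by
  have key := (hφ.hecke v (not_dvd_levelF468 hM P.notMem)).2 _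
    (isScalarUniformizerAt_triAd v P.val) g
  rw [triAd_eq_locFinK_utF468] at key
  exact key

/-- The `T_v`-clause on the explicit coset system with representatives `-M r`, `r ∈ R`. -/
theorem heckeSumF468 {π : HeckeEigensystem K ℂ} {φ : G K → ℂ}
    (hφ : IsSph0CuspFormFor π φ) {M : ℕ} (hM : Ideal.absNorm π.level ∣ M)
    {v : HeightOneSpectrum (𝓞 K)} {ϖ : 𝓞 K} (P : PrinAt468 M v ϖ)
    (R : Finset (𝓞 K)) (hcard : R.card = Ideal.absNorm v.asIdeal)
    (hdist : ∀ r ∈ R, ∀ r' ∈ R, r ≠ r' → r - r' ∉ v.asIdeal) (g : G K) :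
    ∑ r ∈ R, φ (g * locFinK v
        (ut (algebraMap (𝓞 K) K ϖ) (-(((M : ℕ) : K) * algebraMap (𝓞 K) K r)) 1))
      + φ (g * locFinK v (ut (1 : K) 0 (algebraMap (𝓞 K) K ϖ)))
    = ((Real.sqrt (Ideal.absNorm v.asIdeal : ℝ) : ℝ) : ℂ) * π.a v * φ g := by
  have hM0 : ((M : ℕ) : K) ≠ 0 := by
    intro h0
    have := P.val_M
    rw [h0, map_zero] at this
    exact zero_ne_one this
  set f : 𝓞 K → K := fun r => -(((M : ℕ) : K) * algebraMap (𝓞 K) K r) with hf
  have hfinj : Function.Injective f := by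
    intro r r' h
    have h1 : ((M : ℕ) : K) * algebraMap (𝓞 K) K r = ((M : ℕ) : K) * algebraMap (𝓞 K) K r' :=
      neg_injective h
    exact FaithfulSMul.algebraMap_injective (𝓞 K) K (mul_left_cancel₀ hM0 h1)
  have hsys : IsHeckeCosetSystem v (heckeSet v (algebraMap (𝓞 K) K ϖ) (R.image f)) := by
    refine isHeckeCosetSystem_heckeSet v P.val ?_ ?_ ?_
    · intro ρ hρ
      obtain ⟨r, -, rfl⟩ := Finset.mem_image.1 hρ
      rw [hf]
      simp only
      rw [Valuation.map_neg, map_mul]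
      exact mul_le_one' (valuation_natCast_le_one v M) (val_le_one468 v r)
    · rw [Finset.card_image_of_injective _ hfinj, hcard]
    · intro ρ hρ ρ' hρ' hne
      obtain ⟨r, hr, rfl⟩ := Finset.mem_image.1 hρ
      obtain ⟨r', hr', rfl⟩ := Finset.mem_image.1 hρ'
      have hrr : r ≠ r' := fun h => hne (by rw [h])
      have e : f r' - f r = ((M : ℕ) : K) * algebraMap (𝓞 K) K (r - r') := by
        rw [hf, map_sub]
        ring
      rw [e, map_mul, P.val_M, one_mul, val_eq_one_iff468]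
      exact hdist r hr r' hr' hrr
  have key := (hφ.hecke v (not_dvd_levelF468 hM P.notMem)).1 _ hsys g
  have hnot : triAd v 1 0 (algebraMap (𝓞 K) K ϖ) ∉
      (R.image f).image (fun ρ => triAd v (algebraMap (𝓞 K) K ϖ) ρ 1) := by
    intro hmem
    obtain ⟨ρ, -, hρ⟩ := Finset.mem_image.1 hmem
    exact lo_ne_up v P.val ρ hρ.symm
  have hinj1 : Function.Injective (fun ρ : K => triAd v (algebraMap (𝓞 K) K ϖ) ρ 1) :=
    triAd_injective_mid v (by simpa using P.ne_zero')
  rw [heckeSet, Finset.sum_insert hnot, Finset.sum_image (fun _ _ _ _ h => hinj1 h),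
    Finset.sum_image (fun _ _ _ _ h => hfinj h)] at key
  have e1 : φ (g * triAd v 1 0 (algebraMap (𝓞 K) K ϖ))
      = φ (g * locFinK v (ut (1 : K) 0 (algebraMap (𝓞 K) K ϖ))) := by
    rw [triAd_eq_locFinK_utF468]
  have e2 : ∑ r ∈ R, φ (g * triAd v (algebraMap (𝓞 K) K ϖ) (f r) 1)
      = ∑ r ∈ R, φ (g * locFinK v
          (ut (algebraMap (𝓞 K) K ϖ) (-(((M : ℕ) : K) * algebraMap (𝓞 K) K r)) 1)) := by
    refine Finset.sum_congr rfl (fun r _ => ?_)
    rw [triAd_eq_locFinK_utF468]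
  rw [e1, e2] at key
  rw [← key, add_comm]

/-! ## The horocycle family -/

/-- The horocycle family through (the finite part of) `g₀`, of level `M`. -/
def UF468 (φ : G K → ℂ) {w : InfinitePlace K} (hw : w.IsComplex) (M : ℕ) (g₀ : G K)
    (κ : (𝓞 K ⧸ idM468 K M)ˣ) (x : ℂ) (y : ℝ) : ℂ :=
  φ (bC468 hw x y * dKF468 M (algebraMap (𝓞 K) K (repF468 M κ⁻¹)) * g1F468 M g₀)

section Family

variable {π : HeckeEigensystem K ℂ} {φ : G K → ℂ} (hφ : IsSph0CuspFormFor π φ)
  {w : InfinitePlace K} (hw : w.IsComplex) (huniq : ∀ w' : InfinitePlace K, w' = w)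
  {g₀ : G K} {M : ℕ} (hM : LvlF468 π.level g₀ M)

include hφ huniq hM

/-- The local condition of `transportF468` at the place of `h = [[a, c], [0, 1]]_v`. -/
theorem hfin_atF468 {v : HeightOneSpectrum (𝓞 K)} (hv : v ∉ TMF468 K M) (a c : K) (k k' : K) :
    LocLevel π.level v
      ((finCompHom v (g1F468 M g₀))⁻¹ *
        ((finCompHom v (dKF468 M k'))⁻¹ * (ratFin v (ut a c 1))⁻¹ *
          finCompHom v (dKF468 M k)) *
        finCompHom v (g1F468 M g₀) *
        finCompHom v (locFinK v (ut a c 1))) := by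
  rw [finCompHom_g1F468_notMem g₀ hv, finCompHom_dKF468_notMem k hv,
    finCompHom_dKF468_notMem k' hv, finCompHom_locFinK_self, finCompHom_diagG]
  have e : (1 : GL (Fin 2) (v.adicCompletion K))⁻¹ *
      (1⁻¹ * (ratFin v (ut a c 1))⁻¹ * 1) * 1 *
        Matrix.GeneralLinearGroup.map (algebraMap K (v.adicCompletion K)) (ut a c 1)
      = 1 := by
    rw [inv_one, one_mul, one_mul, mul_one, mul_one]
    exact inv_mul_cancel _
  rw [e]
  exact locLevel_one _ _

/-- The local condition of `transportF468` at the places different from the one of `h`. -/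
theorem hfin_offF468 {v₀ v : HeightOneSpectrum (𝓞 K)} (hv : v ≠ v₀) {a : K} (c : K)
    (u u' : (𝓞 K ⧸ idM468 K M)ˣ)
    (hva : v.valuation K a = 1)
    (h1 : v.valuation K (algebraMap (𝓞 K) K (repF468 M u) - a * algebraMap (𝓞 K) K (repF468 M u'))
      ≤ v.valuation K ((M : ℕ) : K))
    (h2 : v.valuation K (1 - a) ≤ 1)
    (hc : v.valuation K c ≤ v.valuation K ((M : ℕ) : K)) (γ : GL (Fin 2) K) :
    LocLevel π.level v
      ((finCompHom v (g1F468 M g₀))⁻¹ *
        ((finCompHom v (dKF468 M (algebraMap (𝓞 K) K (repF468 M u'))))⁻¹ *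
          (ratFin v (ut a c 1))⁻¹ *
          finCompHom v (dKF468 M (algebraMap (𝓞 K) K (repF468 M u)))) *
        finCompHom v (g1F468 M g₀) *
        finCompHom v (locFinK v₀ γ)) := by
  rw [locFinK_apply, finCompHom_locFin_of_ne hv, mul_one]
  exact hM.conj1 v _ (near_dKF468 v c (fun hv' => val_repF468 hv' u)
    (fun hv' => val_repF468 hv' u') hva h1 h2 hc)

/-- The local condition of `transportF468` when `h = 1`. -/
theorem hfin_oneF468 (v : HeightOneSpectrum (𝓞 K)) {a : K} (c : K)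
    (u u' : (𝓞 K ⧸ idM468 K M)ˣ)
    (hva : v.valuation K a = 1)
    (h1 : v.valuation K (algebraMap (𝓞 K) K (repF468 M u) - a * algebraMap (𝓞 K) K (repF468 M u'))
      ≤ v.valuation K ((M : ℕ) : K))
    (h2 : v.valuation K (1 - a) ≤ 1)
    (hc : v.valuation K c ≤ v.valuation K ((M : ℕ) : K)) :
    LocLevel π.level v
      ((finCompHom v (g1F468 M g₀))⁻¹ *
        ((finCompHom v (dKF468 M (algebraMap (𝓞 K) K (repF468 M u'))))⁻¹ *
          (ratFin v (ut a c 1))⁻¹ *
          finCompHom v (dKF468 M (algebraMap (𝓞 K) K (repF468 M u)))) *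
        finCompHom v (g1F468 M g₀) *
        finCompHom v (1 : G K)) := by
  rw [map_one, mul_one]
  exact hM.conj1 v _ (near_dKF468 v c (fun hv' => val_repF468 hv' u)
    (fun hv' => val_repF468 hv' u') hva h1 h2 hc)

/-- PERIOD. -/
theorem UF468_periodic (κ : (𝓞 K ⧸ idM468 K M)ˣ) (ω : 𝓞 K) (x : ℂ) (y : ℝ) (hy : 0 < y) :
    UF468 φ hw M g₀ κ (x + (M : ℂ) * w.embedding (algebraMap (𝓞 K) K ω)) y
      = UF468 φ hw M g₀ κ x y := by
  unfold UF468
  have hfin := fun v : HeightOneSpectrum (𝓞 K) =>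
    hfin_oneF468 hφ huniq hM v (a := 1) (((M : ℕ) : K) * algebraMap (𝓞 K) K ω) κ⁻¹ κ⁻¹
      (map_one _)
      (by rw [one_mul, sub_self, map_zero]; exact zero_le)
      (by rw [sub_self, map_zero]; exact zero_le)
      (by rw [map_mul]; exact mul_le_of_le_one_right' (val_le_one468 v ω))
  have key := transportF468 hφ hw huniq M g₀ (a := 1) (((M : ℕ) : K) * algebraMap (𝓞 K) K ω)
    one_ne_zero x hy.ne' _ _ 1 (fun w' => map_one _) hfin
  rw [map_one, one_mul, norm_one, one_mul, map_mul, map_natCast, mul_one] at key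
  exact key

/-- SUM TERM. -/
theorem UF468_sum_term {v : HeightOneSpectrum (𝓞 K)} {ϖ : 𝓞 K} (P : PrinAt468 M v ϖ)
    (κ : (𝓞 K ⧸ idM468 K M)ˣ) (x : ℂ) (y : ℝ) (hy : 0 < y) (r : 𝓞 K) :
    φ (bC468 hw x y * dKF468 M (algebraMap (𝓞 K) K (repF468 M κ⁻¹)) * g1F468 M g₀ *
        locFinK v (ut (algebraMap (𝓞 K) K ϖ) (-(((M : ℕ) : K) * algebraMap (𝓞 K) K r)) 1))
      = UF468 φ hw M g₀ (κ * clsF468 M ϖ)
          ((x + (M : ℂ) * w.embedding (algebraMap (𝓞 K) K r))
            / w.embedding (algebraMap (𝓞 K) K ϖ))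
          (y / ‖w.embedding (algebraMap (𝓞 K) K ϖ)‖) := by
  unfold UF468
  have hϖ0 := P.ne_zero'
  have hϖC : w.embedding (algebraMap (𝓞 K) K ϖ) ≠ 0 := by
    rwa [Ne, map_eq_zero]
  have hnϖ : ‖w.embedding (algebraMap (𝓞 K) K ϖ)‖ ≠ 0 := norm_ne_zero_iff.2 hϖC
  have hcong : Ideal.Quotient.mk (idM468 K M) (repF468 M κ⁻¹)
      = Ideal.Quotient.mk (idM468 K M) (ϖ * repF468 M (κ * clsF468 M ϖ)⁻¹) := by
    rw [map_mul, mk_repF468, mk_repF468, ← clsF468_coe P.isUnit_mk, ← Units.val_mul,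
      mul_inv_rev, mul_inv_cancel_left]
  have hfin : ∀ v' : HeightOneSpectrum (𝓞 K), LocLevel π.level v'
      ((finCompHom v' (g1F468 M g₀))⁻¹ *
        ((finCompHom v' (dKF468 M (algebraMap (𝓞 K) K (repF468 M (κ * clsF468 M ϖ)⁻¹))))⁻¹ *
          (ratFin v' (ut (algebraMap (𝓞 K) K ϖ)
            (-(((M : ℕ) : K) * algebraMap (𝓞 K) K r)) 1))⁻¹ *
          finCompHom v' (dKF468 M (algebraMap (𝓞 K) K (repF468 M κ⁻¹)))) *
        finCompHom v' (g1F468 M g₀) *
        finCompHom v' (locFinK v (ut (algebraMap (𝓞 K) K ϖ)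
            (-(((M : ℕ) : K) * algebraMap (𝓞 K) K r)) 1))) := by
    intro v'
    by_cases hv : v' = v
    · subst hv
      exact hfin_atF468 hφ huniq hM P.notMem_TM _ _ _ _
    · refine hfin_offF468 hφ huniq hM hv _ _ _ (P.val_of_ne hv) ?_ ?_ ?_ _
      · have := val_sub_le468 v' hcong
        rwa [map_mul] at this
      · rw [← map_one (algebraMap (𝓞 K) K), ← map_sub]
        exact val_le_one468 v' _
      · rw [Valuation.map_neg, map_mul]
        exact mul_le_of_le_one_right' (val_le_one468 v' r)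
  have key := transportF468 hφ hw huniq M g₀ (a := algebraMap (𝓞 K) K ϖ)
    (-(((M : ℕ) : K) * algebraMap (𝓞 K) K r)) hϖ0
    ((x + (M : ℂ) * w.embedding (algebraMap (𝓞 K) K r)) / w.embedding (algebraMap (𝓞 K) K ϖ))
    (y' := y / ‖w.embedding (algebraMap (𝓞 K) K ϖ)‖) (div_ne_zero hy.ne' hnϖ) _ _
    (locFinK v (ut (algebraMap (𝓞 K) K ϖ) (-(((M : ℕ) : K) * algebraMap (𝓞 K) K r)) 1))
    (fun w' => by rw [locFinK_apply, infCompHom_locFin]) hfin
  have ex : w.embedding (algebraMap (𝓞 K) K ϖ) *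
        ((x + (M : ℂ) * w.embedding (algebraMap (𝓞 K) K r))
          / w.embedding (algebraMap (𝓞 K) K ϖ))
        + w.embedding (-(((M : ℕ) : K) * algebraMap (𝓞 K) K r)) = x := by
    rw [map_neg, map_mul, map_natCast, mul_div_cancel₀ _ hϖC]
    ring
  have ey : ‖w.embedding (algebraMap (𝓞 K) K ϖ)‖ *
      (y / ‖w.embedding (algebraMap (𝓞 K) K ϖ)‖) = y := mul_div_cancel₀ _ hnϖ
  rw [ex, ey] at key
  exact key

/-- LAST TERM. -/
theorem UF468_last_term {v : HeightOneSpectrum (𝓞 K)} {ϖ : 𝓞 K} (P : PrinAt468 M v ϖ)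
    (κ : (𝓞 K ⧸ idM468 K M)ˣ) (x : ℂ) (y : ℝ) (hy : 0 < y) :
    φ (bC468 hw x y * dKF468 M (algebraMap (𝓞 K) K (repF468 M κ⁻¹)) * g1F468 M g₀ *
        locFinK v (ut (1 : K) 0 (algebraMap (𝓞 K) K ϖ)))
      = π.b v * UF468 φ hw M g₀ (κ * (clsF468 M ϖ)⁻¹)
          (w.embedding (algebraMap (𝓞 K) K ϖ) * x)
          (‖w.embedding (algebraMap (𝓞 K) K ϖ)‖ * y) := by
  unfold UF468
  have hϖ0 := P.ne_zero'
  have hϖi0 : (algebraMap (𝓞 K) K ϖ)⁻¹ ≠ 0 := inv_ne_zero hϖ0
  have hϖC : w.embedding (algebraMap (𝓞 K) K ϖ) ≠ 0 := by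
    rwa [Ne, map_eq_zero]
  have hnϖ : ‖w.embedding (algebraMap (𝓞 K) K ϖ)‖ ≠ 0 := norm_ne_zero_iff.2 hϖC
  have hcong : Ideal.Quotient.mk (idM468 K M) (ϖ * repF468 M κ⁻¹)
      = Ideal.Quotient.mk (idM468 K M) (repF468 M (κ * (clsF468 M ϖ)⁻¹)⁻¹) := by
    rw [map_mul, mk_repF468, mk_repF468, ← clsF468_coe P.isUnit_mk, ← Units.val_mul,
      mul_inv_rev, inv_inv]
  have hsplit : ut (1 : K) 0 (algebraMap (𝓞 K) K ϖ)
      = ut (algebraMap (𝓞 K) K ϖ)⁻¹ 0 1
        * ut (algebraMap (𝓞 K) K ϖ) 0 (algebraMap (𝓞 K) K ϖ) := by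
    rw [ut_mul _ _ hϖi0 one_ne_zero hϖ0 hϖ0, inv_mul_cancel₀ hϖ0, mul_zero, zero_mul, add_zero,
      one_mul]
  rw [hsplit, map_mul, ← mul_assoc, heckeScalarF468 hφ hM.dvd P]
  congr 1
  have hfin : ∀ v' : HeightOneSpectrum (𝓞 K), LocLevel π.level v'
      ((finCompHom v' (g1F468 M g₀))⁻¹ *
        ((finCompHom v'
            (dKF468 M (algebraMap (𝓞 K) K (repF468 M (κ * (clsF468 M ϖ)⁻¹)⁻¹))))⁻¹ *
          (ratFin v' (ut (algebraMap (𝓞 K) K ϖ)⁻¹ 0 1))⁻¹ *
          finCompHom v' (dKF468 M (algebraMap (𝓞 K) K (repF468 M κ⁻¹)))) *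
        finCompHom v' (g1F468 M g₀) *
        finCompHom v' (locFinK v (ut (algebraMap (𝓞 K) K ϖ)⁻¹ 0 1))) := by
    intro v'
    by_cases hv : v' = v
    · subst hv
      exact hfin_atF468 hφ huniq hM P.notMem_TM _ _ _ _
    · have hvϖ : v'.valuation K (algebraMap (𝓞 K) K ϖ) = 1 := P.val_of_ne hv
      refine hfin_offF468 hφ huniq hM hv _ _ _ ?_ ?_ ?_ ?_ _
      · rw [map_inv₀, hvϖ, inv_one]
      · have e : algebraMap (𝓞 K) K (repF468 M κ⁻¹)
              - (algebraMap (𝓞 K) K ϖ)⁻¹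
                * algebraMap (𝓞 K) K (repF468 M (κ * (clsF468 M ϖ)⁻¹)⁻¹)
            = (algebraMap (𝓞 K) K (ϖ * repF468 M κ⁻¹)
                - algebraMap (𝓞 K) K (repF468 M (κ * (clsF468 M ϖ)⁻¹)⁻¹))
              / algebraMap (𝓞 K) K ϖ := by
          rw [map_mul]
          field_simp
        rw [e, map_div₀, hvϖ, div_one]
        exact val_sub_le468 v' hcong
      · have e : (1 : K) - (algebraMap (𝓞 K) K ϖ)⁻¹
            = (algebraMap (𝓞 K) K (ϖ - 1)) / algebraMap (𝓞 K) K ϖ := by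
          rw [map_sub, map_one]
          field_simp
        rw [e, map_div₀, hvϖ, div_one]
        exact val_le_one468 v' _
      · rw [map_zero]
        exact zero_le
  have key := transportF468 hφ hw huniq M g₀ (a := (algebraMap (𝓞 K) K ϖ)⁻¹) 0 hϖi0
    (w.embedding (algebraMap (𝓞 K) K ϖ) * x)
    (y' := ‖w.embedding (algebraMap (𝓞 K) K ϖ)‖ * y) (mul_ne_zero hnϖ hy.ne') _ _
    (locFinK v (ut (algebraMap (𝓞 K) K ϖ)⁻¹ 0 1))
    (fun w' => by rw [locFinK_apply, infCompHom_locFin]) hfin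
  have ex : w.embedding (algebraMap (𝓞 K) K ϖ)⁻¹ * (w.embedding (algebraMap (𝓞 K) K ϖ) * x)
      + w.embedding 0 = x := by
    rw [map_zero, add_zero, map_inv₀, inv_mul_cancel_left₀ hϖC]
  have ey : ‖w.embedding (algebraMap (𝓞 K) K ϖ)⁻¹‖
      * (‖w.embedding (algebraMap (𝓞 K) K ϖ)‖ * y) = y := by
    rw [map_inv₀, norm_inv, inv_mul_cancel_left₀ hnϖ]
  rw [ex, ey] at key
  exact key

/-- The Hecke relation, function form. -/
theorem UF468_hecke {v : HeightOneSpectrum (𝓞 K)} {ϖ : 𝓞 K} (P : PrinAt468 M v ϖ)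
    (R : Finset (𝓞 K)) (hcard : R.card = Ideal.absNorm v.asIdeal)
    (hdist : ∀ r ∈ R, ∀ r' ∈ R, r ≠ r' → r - r' ∉ v.asIdeal)
    (κ : (𝓞 K ⧸ idM468 K M)ˣ) (x : ℂ) (y : ℝ) (hy : 0 < y) :
    ∑ r ∈ R, UF468 φ hw M g₀ (κ * clsF468 M ϖ)
          ((x + (M : ℂ) * w.embedding (algebraMap (𝓞 K) K r))
            / w.embedding (algebraMap (𝓞 K) K ϖ))
          (y / ‖w.embedding (algebraMap (𝓞 K) K ϖ)‖)
        + π.b v * UF468 φ hw M g₀ (κ * (clsF468 M ϖ)⁻¹)
            (w.embedding (algebraMap (𝓞 K) K ϖ) * x)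
            (‖w.embedding (algebraMap (𝓞 K) K ϖ)‖ * y)
      = ((Real.sqrt (Ideal.absNorm v.asIdeal : ℝ) : ℝ) : ℂ) * π.a v * UF468 φ hw M g₀ κ x y := by
  have key := heckeSumF468 hφ hM.dvd P R hcard hdist
    (bC468 hw x y * dKF468 M (algebraMap (𝓞 K) K (repF468 M κ⁻¹)) * g1F468 M g₀)
  rw [UF468_last_term hφ hw huniq hM P κ x y hy,
    Finset.sum_congr rfl (fun r _ => UF468_sum_term hφ hw huniq hM P κ x y hy r)] at key
  exact key

/-- CONTINUITY. -/
theorem UF468_cont (κ : (𝓞 K ⧸ idM468 K M)ˣ) :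
    ContinuousOn (fun p : ℂ × ℝ => UF468 φ hw M g₀ κ p.1 p.2) {p : ℂ × ℝ | 0 < p.2} := by
  have h := continuousOn_comp_bC468 (K := K) hw hφ.cont
    (dKF468 M (algebraMap (𝓞 K) K (repF468 M κ⁻¹)) * g1F468 M g₀)
  refine (h.mono (fun p hp => (ne_of_gt hp : p.2 ≠ 0))).congr (fun p _ => ?_)
  unfold UF468
  rw [mul_assoc]

end Family

end Fermat.Agent.LT.T7.H468

end

end
-- ===== PACK-END LT/T7/H468/HoroFFam.lean

-- ===== PACK-BEGIN LT/T7/EKM.lean
section







/-!
# Row LT, tower T7 (architect helper797): the EK condition as a PARAMETER; the MULTI-PLACE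
# condition `GoodEKM` -- ruling on the gap T7.15 / T7.16 (class field theory, existence)

OFF-MAIN.  Definitions, frozen Props, PROVED tops.  No `sorry`, nothing assumed.
ADDITIVE: `Spec.lean`, `Comparison.lean`, `EK.lean`, `Reg.lean` are unchanged.

## The gap and the ruling

`GoodEK` (`EK.lean`) asks for ONE place `w₀` with `w₀ⁿ = (a₀)`, `a₀ ≡ 1 mod 𝔑`, `n` prime to
the order of the Satake parameters: this is a statement about the ray class of `w₀`, i.e. it
needs the EXISTENCE theorem of class field theory (helper96, helper681, helper589).  The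
Eisenstein-killing device does not need a single place: any `a₀ ≡ 1 mod 𝔑` whose ideal is a
product `∏ w^{e_w}` of places prime to the level serves, and then the condition reads
`∏_w z_w^{e_w} ≠ 1` for every choice of Satake parameters `z_w` at the places `w`
(helper371, helper799, helper604: NO class field theory, only Chebotarev over `ℚ` with a
congruence: `a₀ = -p`, `p ≡ -1 mod N'`, `ρ(Frob_p)` of order `8`; over `E`: `(p) = w₁ w₂ w₃`,
parameters `(i, -i)` at each `w_j`, every product of three of them is `± i`; over `F`: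
`(p)` is ONE place, inert over `ℚ`, parameters `(i, -i)`).

RULING.  T7 carries the EK condition as a PARAMETER `P`.  All the tops of `EK.lean` / `Reg.lean`
are proved here for an arbitrary `P`.  Two instances:

* `P = GoodEK`  (single place of prime norm): route (A), leaves `SeedEKC`, `MidEKC` through the
  existence theorem (sub-tower EX of tower CFT); the trace side needs `T3.EKOpExistC` as closed.
* `P = GoodEKM` (multi-place, no condition on the residue degrees): route (B), leaves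
  `SeedEKMC`, `MidEKMC` through Chebotarev over `ℚ`; the trace side needs the MULTI-PLACE form of
  `T3.EKOpExistC` (new station T3.18M) -- for the step `F/ℚ` one place suffices, upstairs
  (`(p)` inert), so the closed T3 serves there; for the step `E/F` three places are needed.

`GoodEK ⇒ GoodEKM` (`goodEKM_of_goodEK`), so a proof of the `GoodEKM`-nodes gives the
`GoodEK`-nodes.  Whichever route closes first is used.
-/

set_option autoImplicit false
set_option linter.style.haveILetI false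

open AutomorphicForm FLT.ExplicitLift EisensteinWeightOne
open WeierstrassCurve CongruenceSubgroup
open IsDedekindDomain NumberField
open scoped MatrixGroups ComplexConjugate

noncomputable section

namespace Fermat.Agent.LT.T7

open Fermat.Agent.LT.H130 Fermat.Agent.LT.H556

local notation "Γℚ" => (AlgebraicClosure ℚ ≃ₐ[ℚ] AlgebraicClosure ℚ)

/-- A condition on Hecke eigensystems over number fields (the EK condition as a parameter). -/
abbrev EKCond : Type 1 :=
  ∀ (K : Type) [Field K] [NumberField K], HeckeEigensystem K ℂ → Prop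

/-- The single-place condition of `EK.lean` as an `EKCond`. -/
def ekSingle : EKCond := fun K _ _ Φ => GoodEK K Φ

/-! ## 1. The multi-place condition -/

/-- **`Φ` HAS GOOD EK DATA (multi-place)**: for every level `𝔑 ≠ 0` and every finite set `S` of
places there are a finite set `P` of places outside `S`, prime to `𝔑`, exponents `e_w ≥ 1` and
`a₀ ≡ 1 mod 𝔑` with `(a₀) = ∏_{w ∈ P} w^{e_w}`, such that `∏_{w ∈ P} z_w^{e_w} ≠ 1` for EVERY
choice of Satake parameters `z_w` of `Φ` at the places of `P`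
(`z_w² - a_w z_w + b_w = 0`).  No condition on the residue degrees. -/
def GoodEKM (K : Type) [Field K] [NumberField K] (Φ : HeckeEigensystem K ℂ) : Prop :=
  ∀ 𝔑 : Ideal (𝓞 K), 𝔑 ≠ ⊥ → ∀ S : Finset (HeightOneSpectrum (𝓞 K)),
    ∃ (P : Finset (HeightOneSpectrum (𝓞 K))) (e : HeightOneSpectrum (𝓞 K) → ℕ) (a₀ : 𝓞 K),
      P.Nonempty ∧ (∀ w ∈ P, w ∉ S ∧ ¬ w.asIdeal ∣ 𝔑 ∧ 0 < e w) ∧
      Ideal.span {a₀} = ∏ w ∈ P, w.asIdeal ^ e w ∧ a₀ - 1 ∈ 𝔑 ∧
      ∀ z : HeightOneSpectrum (𝓞 K) → ℂ,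
        (∀ w ∈ P, z w ^ 2 - Φ.a w * z w + Φ.b w = 0) → ∏ w ∈ P, z w ^ e w ≠ 1

/-- The multi-place condition as an `EKCond`. -/
def ekMulti : EKCond := fun K _ _ Φ => GoodEKM K Φ

/-- The single-place condition implies the multi-place condition. -/
theorem goodEKM_of_goodEK (K : Type) [Field K] [NumberField K] (Φ : HeckeEigensystem K ℂ)
    (h : GoodEK K Φ) : GoodEKM K Φ := by
  intro 𝔑 h𝔑 S
  obtain ⟨w₀, a₀, n, hS, hN, -, hn, hspan, hmem, hz⟩ := h 𝔑 h𝔑 S
  refine ⟨{w₀}, fun _ => n, a₀, Finset.singleton_nonempty _, ?_, ?_, hmem, ?_⟩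
  · intro w hw
    rw [Finset.mem_singleton] at hw
    subst hw
    exact ⟨hS, hN, hn⟩
  · rw [Finset.prod_singleton]
    exact hspan
  · intro z hz'
    rw [Finset.prod_singleton]
    have h1 := hz' w₀ (Finset.mem_singleton_self _)
    -- the second root
    have h2 : (Φ.a w₀ - z w₀) + z w₀ = Φ.a w₀ := by ring
    have h3 : (Φ.a w₀ - z w₀) * z w₀ = Φ.b w₀ := by linear_combination -h1
    have := hz (z w₀) (Φ.a w₀ - z w₀) (by ring) (by linear_combination h3)
    exact this.1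

/-- **LEAF T7.15M = SEED-EK, multi-place (Chebotarev over `ℚ` with a congruence; NO class field
theory).**  Witness (helper799, helper371): `N' > 0` an integer of `𝔑`, `p ∉` the bad set with
`p ≡ -1 mod N'` and `g = ρ(Frob_p)` of order `8` (compatible: the maximal abelian subfield of the
field of `ρ` is `ℚ(√-3)`, and `det g = -1 ⇔ p ≡ -1 mod 3`); `a₀ = -p`; `g² ∈ Q8` has order `4`
and the image of `g` in `GL₂(𝔽₃)/Q8 = S₃` has order `2`: `(p) = w₁ w₂ w₃` in `E` with residue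
degree `2`, `SeedData` gives `a_w = tr Ψ(g²) = 0`, `b_w = 1`, parameters `(i, -i)`; a product of
three of them is `± i ≠ 1`. -/
def SeedEKMC : Prop :=
  ∀ (ρ : Γℚ →* GL (Fin 2) (ZMod 3)) (Ψ : GL (Fin 2) (ZMod 3) →* GL (Fin 2) (ℤ√(-2)))
    (ι : ℤ√(-2) →+* ℂ), LTB.Hyp ρ Ψ → ∀ (_ : NumberField (fieldE ρ))
    (Φ : HeckeEigensystem (fieldE ρ) ℂ), SeedData (fieldE ρ) ρ Ψ ι Φ → GoodEKM (fieldE ρ) Φ

/-- **LEAF T7.16M = MID-EK, multi-place.**  Same `p`: `(p)` is ONE place `v` of `F` (inert),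
`a₀ = -p`, `Frob_v = g²`, `ordQ8 (g²) = 1`, and `MidData` reads `a_v = tr Ψ(g²) = 0`, `b_v = 1`:
parameters `(i, -i)`, `(± i)¹ ≠ 1`. -/
def MidEKMC : Prop :=
  ∀ (ρ : Γℚ →* GL (Fin 2) (ZMod 3)) (Ψ : GL (Fin 2) (ZMod 3) →* GL (Fin 2) (ℤ√(-2)))
    (ι : ℤ√(-2) →+* ℂ), LTB.Hyp ρ Ψ → ∀ (_ : NumberField (fieldF ρ))
    (π : HeckeEigensystem (fieldF ρ) ℂ), MidData (fieldF ρ) ρ Ψ ι π → GoodEKM (fieldF ρ) π

/-- The two EK leaves for a condition `P`. -/
def SeedP (P : EKCond) : Prop :=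
  ∀ (ρ : Γℚ →* GL (Fin 2) (ZMod 3)) (Ψ : GL (Fin 2) (ZMod 3) →* GL (Fin 2) (ℤ√(-2)))
    (ι : ℤ√(-2) →+* ℂ), LTB.Hyp ρ Ψ → ∀ (_ : NumberField (fieldE ρ))
    (Φ : HeckeEigensystem (fieldE ρ) ℂ), SeedData (fieldE ρ) ρ Ψ ι Φ → P (fieldE ρ) Φ

/-- The two EK leaves for a condition `P`. -/
def MidP (P : EKCond) : Prop :=
  ∀ (ρ : Γℚ →* GL (Fin 2) (ZMod 3)) (Ψ : GL (Fin 2) (ZMod 3) →* GL (Fin 2) (ℤ√(-2)))
    (ι : ℤ√(-2) →+* ℂ), LTB.Hyp ρ Ψ → ∀ (_ : NumberField (fieldF ρ))
    (π : HeckeEigensystem (fieldF ρ) ℂ), MidData (fieldF ρ) ρ Ψ ι π → P (fieldF ρ) π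

theorem seedP_single_iff : SeedP ekSingle ↔ SeedEKC := Iff.rfl
theorem midP_single_iff : MidP ekSingle ↔ MidEKC := Iff.rfl
theorem seedP_multi_iff : SeedP ekMulti ↔ SeedEKMC := Iff.rfl
theorem midP_multi_iff : MidP ekMulti ↔ MidEKMC := Iff.rfl

/-! ## 2. The nodes for a condition `P` -/

section Cyclic

variable (P : EKCond)
variable (K K' : Type) [Field K] [NumberField K] [Field K'] [NumberField K'] [Algebra K K']

/-- `DescEKC` with the condition `P` in place of `GoodEK`. -/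
def DescEKP : Prop :=
  ∀ ℓ : ℕ, IsCycExt K K' ℓ → ℓ ≠ 2 → TotCplx K →
    ∀ Φ : HeckeEigensystem K' ℂ, A0.IsCuspAdelicSph0 K' Φ → ConstOnFibres K Φ →
      P K' Φ →
      ∃ π : HeckeEigensystem K ℂ, A0.IsCuspAdelicSph0 K π ∧ IsBC π Φ

/-- `TraceWordsEKC` with the condition `P` in place of `GoodEK`. -/
def TraceWordsEKP : Prop :=
  ∀ ℓ : ℕ, IsCycExt K K' ℓ → ℓ ≠ 2 → TotCplx K →
    ∀ Φ : HeckeEigensystem K' ℂ, A0.IsCuspAdelicSph0 K' Φ → ConstOnFibres K Φ →
      P K' Φ →
      ∃ (S' : Finset (HeightOneSpectrum (𝓞 K'))) (ι ι' : Type)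
        (c : ι → HeckeEigensystem K ℂ) (Ch : ι → EigData K') (C : ι' → EigData K')
        (x : ι → ℂ) (y : ι' → ℂ),
        Summable (fun i => ‖x i‖) ∧ Summable (fun j => ‖y j‖) ∧
        (∀ i, (Ch i).IsUnitaryOut S') ∧ (∀ j, (C j).IsUnitaryOut S') ∧
        (∀ i, IsBCEig K K' (c i) (Ch i) S') ∧
        (∀ X : List (Gen K'), (∀ g ∈ X, g.Out S') →
          ∑' i, wordEv X (Ch i) * x i = ∑' j, wordEv X (C j) * y j) ∧
        (∑' j : {j : ι' // (C j).AgreeOut S' (eigOf Φ)}, y j) ≠ 0 ∧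
        ∀ i, (Ch i).IsSph0 → A0.IsCuspAdelicSph0 K (c i)

/-- **NODE T7.C3-REG for the condition `P`** = `TraceWordsRegC` with `P` in place of
`GoodEK`. -/
def TraceWordsRegP : Prop :=
  ∀ ℓ : ℕ, IsCycExt K K' ℓ → ℓ ≠ 2 → TotCplx K →
    ∀ Φ : HeckeEigensystem K' ℂ, A0.IsCuspAdelicSph0 K' Φ → ConstOnFibres K Φ →
      P K' Φ →
      ∃ (S' : Finset (HeightOneSpectrum (𝓞 K'))) (ι ι' : Type)
        (c : ι → HeckeEigensystem K ℂ) (Ch : ι → EigData K') (C : ι' → EigData K')
        (b l : ι → ℂ) (b' l' : ι' → ℂ) (R : ℝ) (x : ι → ℂ) (y : ι' → ℂ),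
        Summable (fun i => ‖x i‖) ∧ Summable (fun j => ‖y j‖) ∧
        (∀ i, (Ch i).IsUnitaryOut S') ∧ (∀ j, (C j).IsUnitaryOut S') ∧
        (∀ i, IsBCEig K K' (c i) (Ch i) S') ∧
        (∀ i, IsRegParam R (b i) (l i)) ∧ (∀ j, IsRegParam R (b' j) (l' j)) ∧
        (∀ X : List (Gen K'), (∀ g ∈ X, g.Out S') →
          ∃ m₀ : ℕ, ∀ m : ℕ, m₀ ≤ m → ∀ k : ℤ,
            ∑' i, wordEv X (Ch i) * x i * b i ^ k * l i ^ m
              = ∑' j, wordEv X (C j) * y j * b' j ^ k * l' j ^ m) ∧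
        (∃ b₀ l₀ : ℂ,
          (∑' j : {j : {j : ι' // b' j = b₀ ∧ l' j = l₀} //
              (C j.1).AgreeOut S' (eigOf Φ)}, y j.1.1) ≠ 0) ∧
        ∀ i, (Ch i).IsSph0 → A0.IsCuspAdelicSph0 K (c i)

end Cyclic

/-- `DescEKP` for all cyclic extensions. -/
def DescEKPAll (P : EKCond) : Prop :=
  ∀ (K K' : Type) [Field K] [NumberField K] [Field K'] [NumberField K'] [Algebra K K'],
    DescEKP P K K'

/-- `TraceWordsEKP` for all cyclic extensions. -/
def TraceWordsEKPAll (P : EKCond) : Prop :=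
  ∀ (K K' : Type) [Field K] [NumberField K] [Field K'] [NumberField K'] [Algebra K K'],
    TraceWordsEKP P K K'

/-- `TraceWordsRegP` for all cyclic extensions. -/
def TraceWordsRegPAll (P : EKCond) : Prop :=
  ∀ (K K' : Type) [Field K] [NumberField K] [Field K'] [NumberField K'] [Algebra K K'],
    TraceWordsRegP P K K'

/-- `DescQ3EKC` with the condition `P` in place of `GoodEK`. -/
def DescQ3EKP (P : EKCond) (F : Type) [Field F] [NumberField F] : Prop :=
  HasSqrtNegThree F → IsImagQuad F →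
    ∀ Φ : HeckeEigensystem F ℂ, A0.IsCuspAdelicSph0 F Φ → ConstOnFibresQ Φ → P F Φ →
      ∃ π : HeckeEigensystem ℚ ℂ, A0.notion556.IsCusp ℚ π ∧ IsBCQ π Φ

/-- `DescQ3EKP` for all number fields. -/
def DescQ3EKPAll (P : EKCond) : Prop := ∀ (F : Type) [Field F] [NumberField F], DescQ3EKP P F

/-- `TraceWordsQEKC` with the condition `P` in place of `GoodEK`. -/
def TraceWordsQEKP (P : EKCond) (F : Type) [Field F] [NumberField F] : Prop :=
  HasSqrtNegThree F → IsImagQuad F →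
    ∀ Φ : HeckeEigensystem F ℂ, A0.IsCuspAdelicSph0 F Φ → ConstOnFibresQ Φ → P F Φ →
      ∃ (S : Finset ℕ) (S' : Finset (HeightOneSpectrum (𝓞 F))) (ι ι' : Type)
        (c : ι → HeckeEigensystem ℚ ℂ) (Ch : ι → EigData F) (C : ι' → EigData F)
        (x : ι → ℂ) (y : ι' → ℂ),
        (∀ p : ℕ, p.Prime → ∀ w : HeightOneSpectrum (𝓞 F), ((p : ℕ) : 𝓞 F) ∈ w.asIdeal →
          w ∈ S' → p ∈ S) ∧
        Summable (fun i => ‖x i‖) ∧ Summable (fun j => ‖y j‖) ∧
        (∀ i, (Ch i).IsUnitaryOut S') ∧ (∀ j, (C j).IsUnitaryOut S') ∧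
        (∀ i, IsBCEigQ F (c i) (Ch i) S) ∧
        (∀ X : List (Gen F), (∀ g ∈ X, g.Out S') →
          ∑' i, wordEv X (Ch i) * x i = ∑' j, wordEv X (C j) * y j) ∧
        (∑' j : {j : ι' // (C j).AgreeOut S' (eigOf Φ)}, y j) ≠ 0 ∧
        ∀ i, (Ch i).IsSph0 → A0.notion556.IsCusp ℚ (c i)

/-- `TraceWordsQEKP` for all number fields. -/
def TraceWordsQEKPAll (P : EKCond) : Prop :=
  ∀ (F : Type) [Field F] [NumberField F], TraceWordsQEKP P F

/-- **NODE T7.C3Q-REG for the condition `P`** = `TraceWordsQRegC` with `P` in place of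
`GoodEK`. -/
def TraceWordsQRegP (P : EKCond) (F : Type) [Field F] [NumberField F] : Prop :=
  HasSqrtNegThree F → IsImagQuad F →
    ∀ Φ : HeckeEigensystem F ℂ, A0.IsCuspAdelicSph0 F Φ → ConstOnFibresQ Φ → P F Φ →
      ∃ (S : Finset ℕ) (S' : Finset (HeightOneSpectrum (𝓞 F))) (ι ι' : Type)
        (c : ι → HeckeEigensystem ℚ ℂ) (Ch : ι → EigData F) (C : ι' → EigData F)
        (b l : ι → ℂ) (b' l' : ι' → ℂ) (R : ℝ) (x : ι → ℂ) (y : ι' → ℂ),
        (∀ p : ℕ, p.Prime → ∀ w : HeightOneSpectrum (𝓞 F), ((p : ℕ) : 𝓞 F) ∈ w.asIdeal →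
          w ∈ S' → p ∈ S) ∧
        Summable (fun i => ‖x i‖) ∧ Summable (fun j => ‖y j‖) ∧
        (∀ i, (Ch i).IsUnitaryOut S') ∧ (∀ j, (C j).IsUnitaryOut S') ∧
        (∀ i, IsBCEigQ F (c i) (Ch i) S) ∧
        (∀ i, IsRegParam R (b i) (l i)) ∧ (∀ j, IsRegParam R (b' j) (l' j)) ∧
        (∀ X : List (Gen F), (∀ g ∈ X, g.Out S') →
          ∃ m₀ : ℕ, ∀ m : ℕ, m₀ ≤ m → ∀ k : ℤ,
            ∑' i, wordEv X (Ch i) * x i * b i ^ k * l i ^ m
              = ∑' j, wordEv X (C j) * y j * b' j ^ k * l' j ^ m) ∧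
        (∃ b₀ l₀ : ℂ,
          (∑' j : {j : {j : ι' // b' j = b₀ ∧ l' j = l₀} //
              (C j.1).AgreeOut S' (eigOf Φ)}, y j.1.1) ≠ 0) ∧
        ∀ i, (Ch i).IsSph0 → A0.notion556.IsCusp ℚ (c i)

/-- `TraceWordsQRegP` for all number fields. -/
def TraceWordsQRegPAll (P : EKCond) : Prop :=
  ∀ (F : Type) [Field F] [NumberField F], TraceWordsQRegP P F

/-- `DescTrivEKAll` with the condition `P` in place of `GoodEK`. -/
def DescTrivEKPAll (P : EKCond) : Prop :=
  ∀ (K K' : Type) [Field K] [NumberField K] [Field K'] [NumberField K'] [Algebra K K'],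
    IsCycExt K K' 3 → TotCplx K →
    ∀ Φ : HeckeEigensystem K' ℂ, A0.IsCuspAdelicSph0 K' Φ → ConstOnFibres K Φ →
      TrivCentral Φ → P K' Φ →
      ∃ π : HeckeEigensystem K ℂ, A0.IsCuspAdelicSph0 K π ∧ IsBC π Φ ∧ TrivCentral π

/-! ### The instances `P = GoodEK` are the frozen Props of `EK.lean` / `Reg.lean` -/

theorem descEKPAll_single_iff : DescEKPAll ekSingle ↔ DescEKAll := Iff.rfl
theorem traceWordsEKPAll_single_iff : TraceWordsEKPAll ekSingle ↔ TraceWordsEKAll := Iff.rfl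
theorem traceWordsRegPAll_single_iff : TraceWordsRegPAll ekSingle ↔ TraceWordsRegAll := Iff.rfl
theorem descQ3EKPAll_single_iff : DescQ3EKPAll ekSingle ↔ DescQ3EKAll := Iff.rfl
theorem traceWordsQEKPAll_single_iff : TraceWordsQEKPAll ekSingle ↔ TraceWordsQEKAll :=
  Iff.rfl
theorem traceWordsQRegPAll_single_iff : TraceWordsQRegPAll ekSingle ↔ TraceWordsQRegAll :=
  Iff.rfl
theorem descTrivEKPAll_single_iff : DescTrivEKPAll ekSingle ↔ DescTrivEKAll := Iff.rfl

/-- The multi-place nodes imply the single-place nodes (`GoodEK ⇒ GoodEKM`). -/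
theorem traceWordsRegAll_of_multi (h : TraceWordsRegPAll ekMulti) : TraceWordsRegAll :=
  fun K K' _ _ _ _ _ ℓ hcyc hℓ hcplx Φ hΦ hconst hgood =>
    h K K' ℓ hcyc hℓ hcplx Φ hΦ hconst (goodEKM_of_goodEK K' Φ hgood)

/-- The multi-place nodes imply the single-place nodes (`GoodEK ⇒ GoodEKM`). -/
theorem traceWordsQRegAll_of_multi (h : TraceWordsQRegPAll ekMulti) : TraceWordsQRegAll :=
  fun F _ _ h3 hquad Φ hΦ hconst hgood =>
    h F h3 hquad Φ hΦ hconst (goodEKM_of_goodEK F Φ hgood)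

/-! ## 3. The tops for a condition `P` (PROVED) -/

/-- The cyclic descent for the condition `P` from the trace identity for words. -/
theorem descEKP_of (P : EKCond) (K K' : Type) [Field K] [NumberField K] [Field K']
    [NumberField K'] [Algebra K K'] (hT : TraceWordsEKP P K K') (hS : SepC K') :
    DescEKP P K K' := by
  intro ℓ hcyc hℓ hcplx Φ hΦ hconst hgood
  obtain ⟨S', ι, ι', c, Ch, C, x, y, hx, hy, hUA, hUB, hbc, hword, hne, hreal⟩ :=
    hT ℓ hcyc hℓ hcplx Φ hΦ hconst hgood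
  have hsep := hS S' ι ι' Ch C x y hx hy hUA hUB hword (eigOf Φ)
  rw [← hsep] at hne
  obtain ⟨i, hi⟩ := exists_index_of_tsum_ne_zero hne
  refine ⟨c i, hreal i (isSph0_of_agreeOut hi), S', ?_⟩
  intro w hw v f hvw
  obtain ⟨ha, hb⟩ := hbc i w hw v f hvw
  obtain ⟨ha', hb'⟩ := hi.1 w hw
  exact ⟨by rw [← ha, ha']; rfl, by rw [← hb, hb']; rfl⟩

theorem descEKPAll_of (P : EKCond) (hT : TraceWordsEKPAll P) (hS : SepAll) : DescEKPAll P :=
  fun K K' _ _ _ _ _ => descEKP_of P K K' (hT K K') (hS K')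

/-- The quadratic descent to `ℚ` for the condition `P` from the trace identity for words. -/
theorem descQ3EKP_of (P : EKCond) (F : Type) [Field F] [NumberField F]
    (hT : TraceWordsQEKP P F) (hS : SepC F) : DescQ3EKP P F := by
  intro h3 hquad Φ hΦ hconst hgood
  obtain ⟨S, S', ι, ι', c, Ch, C, x, y, hSS', hx, hy, hUA, hUB, hbc, hword, hne, hreal⟩ :=
    hT h3 hquad Φ hΦ hconst hgood
  have hsep := hS S' ι ι' Ch C x y hx hy hUA hUB hword (eigOf Φ)
  rw [← hsep] at hne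
  obtain ⟨i, hi⟩ := exists_index_of_tsum_ne_zero hne
  refine ⟨c i, hreal i (isSph0_of_agreeOut hi), S, ?_⟩
  intro p hp hpS v hv w f hw hf
  have hwS' : w ∉ S' := fun hmem => hpS (hSS' p hp w hw hmem)
  obtain ⟨ha, hb⟩ := hbc i p hp hpS v hv w f hw hf
  obtain ⟨ha', hb'⟩ := hi.1 w hwS'
  exact ⟨by rw [← ha, ha']; rfl, by rw [← hb, hb']; rfl⟩

theorem descQ3EKPAll_of (P : EKCond) (hT : TraceWordsQEKPAll P) (hS : SepAll) :
    DescQ3EKPAll P :=
  fun F _ _ => descQ3EKP_of P F (hT F) (hS F)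

/-- `DescEKPAll + TwistAll ⇒ DescTrivEKPAll` (the proof of leaf T7.03 by helper557 with the
hypothesis `P` carried along). -/
theorem descTrivEKPAll_of (P : EKCond) (hDesc : DescEKPAll P) (hTw : TwistAll) :
    DescTrivEKPAll P := by
  intro K K' _ _ _ _ _ hcyc hcplx Φ hΦ hconst htriv hgood
  obtain ⟨π₀, hπ₀, S₁, hbc⟩ := hDesc K K' 3 hcyc (by norm_num) hcplx Φ hΦ hconst hgood
  obtain ⟨S₂, htr⟩ := htriv
  obtain ⟨π', hπ', S₃, htw⟩ := hTw K π₀ hπ₀
  classical
  have key : ∀ (w : HeightOneSpectrum (𝓞 K')) (v : HeightOneSpectrum (𝓞 K)) (f : ℕ),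
      w ∉ S₁ → w ∉ S₂ → v ∉ S₃ → HasResDeg K K' v w f →
      (Φ.a w = satakePow f (π'.a v) (π'.b v) ∧ Φ.b w = π'.b v ^ f) ∧ π'.b v = 1 := by
    intro w v f h1 h2 h3 hres
    obtain ⟨ha, hb⟩ := hbc w h1 v f hres
    obtain ⟨ha', hb'⟩ := htw v h3
    have hbf : π₀.b v ^ f = 1 := by rw [← hb, htr w h2]
    have hf := H557.resDeg_cases_557 hcyc hres
    obtain ⟨e1, e2⟩ := H557.satakePow_twist_557 hf (π₀.a v) (π₀.b v) hbf
    have hb3 : π₀.b v ^ 3 = 1 := by
      rcases hf with rfl | rfl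
      · have : π₀.b v = 1 := by simpa using hbf
        rw [this, one_pow]
      · exact hbf
    refine ⟨⟨?_, ?_⟩, ?_⟩
    · rw [ha, ha', hb', e1]
    · rw [hb', e2, htr w h2]
    · rw [hb', hb3]
  refine ⟨π', hπ', ?_, ?_⟩
  · refine ⟨S₁ ∪ S₂ ∪ (H557.finite_over_557 (K' := K') S₃).toFinset, ?_⟩
    intro w hw v f hres
    simp only [Finset.mem_union, Set.Finite.mem_toFinset, Set.mem_ofPred_eq, not_or,
      not_exists, not_and] at hw
    obtain ⟨⟨h1, h2⟩, h3⟩ := hw
    exact (key w v f h1 h2 (fun hv => h3 v hv hres.1) hres).1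
  · refine ⟨S₃ ∪ (H557.finite_under_557 (K := K) (S₁ ∪ S₂)).toFinset, ?_⟩
    intro v hv
    simp only [Finset.mem_union, Set.Finite.mem_toFinset, Set.mem_ofPred_eq, not_or,
      not_exists, not_and] at hv
    obtain ⟨h3, h12⟩ := hv
    obtain ⟨w, hw⟩ := H557.exists_placeOver_557 (K' := K') v
    have hw1 : w ∉ S₁ := fun h => h12 w (Or.inl h) hw
    have hw2 : w ∉ S₂ := fun h => h12 w (Or.inr h) hw
    haveI : w.asIdeal.LiesOver v.asIdeal := H557.placeOver_liesOver_557 hw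
    have hN := Ideal.absNorm_eq_pow_inertiaDeg'_of_liesOver w.asIdeal v.asIdeal v.isPrime
      v.ne_bot
    exact (key w v _ hw1 hw2 h3 ⟨hw, hN⟩).2

/-- `TraceWordsEKP` from the regular trace identity and the separation at the regular place. -/
theorem traceWordsEKP_of_reg (P : EKCond) (K K' : Type) [Field K] [NumberField K] [Field K']
    [NumberField K'] [Algebra K K'] (hT : TraceWordsRegP P K K') (hE : ExpSepC) :
    TraceWordsEKP P K K' := by
  intro ℓ hcyc hℓ hcplx Φ hΦ hconst hgood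
  obtain ⟨S', ι, ι', c, Ch, C, b, l, b', l', R, x, y, hx, hy, hUA, hUB, hbc, hp, hp', hword,
    ⟨b₀, l₀, hne⟩, hreal⟩ := hT ℓ hcyc hℓ hcplx Φ hΦ hconst hgood
  refine ⟨S', {i : ι // b i = b₀ ∧ l i = l₀}, {j : ι' // b' j = b₀ ∧ l' j = l₀},
    fun i => c i.1, fun i => Ch i.1, fun j => C j.1, fun i => x i.1, fun j => y j.1,
    hx.subtype _, hy.subtype _, fun i => hUA i.1, fun j => hUB j.1, fun i => hbc i.1, ?_, hne,
    fun i hi => hreal i.1 hi⟩
  intro X hX
  obtain ⟨m₀, hm⟩ := hword X hX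
  exact hE ι ι' (fun i => wordEv X (Ch i) * x i) (fun j => wordEv X (C j) * y j) b l b' l' R m₀
    (summable_word_mul hUA hx X hX) (summable_word_mul hUB hy X hX) hp hp' hm b₀ l₀

theorem traceWordsEKPAll_of_reg (P : EKCond) (hT : TraceWordsRegPAll P) (hE : ExpSepC) :
    TraceWordsEKPAll P :=
  fun K K' _ _ _ _ _ => traceWordsEKP_of_reg P K K' (hT K K') hE

/-- `TraceWordsQEKP` from the regular trace identity and the separation at the regular
place. -/
theorem traceWordsQEKP_of_reg (P : EKCond) (F : Type) [Field F] [NumberField F]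
    (hT : TraceWordsQRegP P F) (hE : ExpSepC) : TraceWordsQEKP P F := by
  intro h3 hquad Φ hΦ hconst hgood
  obtain ⟨S, S', ι, ι', c, Ch, C, b, l, b', l', R, x, y, hSS', hx, hy, hUA, hUB, hbc, hp, hp',
    hword, ⟨b₀, l₀, hne⟩, hreal⟩ := hT h3 hquad Φ hΦ hconst hgood
  refine ⟨S, S', {i : ι // b i = b₀ ∧ l i = l₀}, {j : ι' // b' j = b₀ ∧ l' j = l₀},
    fun i => c i.1, fun i => Ch i.1, fun j => C j.1, fun i => x i.1, fun j => y j.1, hSS',
    hx.subtype _, hy.subtype _, fun i => hUA i.1, fun j => hUB j.1, fun i => hbc i.1, ?_, hne,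
    fun i hi => hreal i.1 hi⟩
  intro X hX
  obtain ⟨m₀, hm⟩ := hword X hX
  exact hE ι ι' (fun i => wordEv X (Ch i) * x i) (fun j => wordEv X (C j) * y j) b l b' l' R m₀
    (summable_word_mul hUA hx X hX) (summable_word_mul hUB hy X hX) hp hp' hm b₀ l₀

theorem traceWordsQEKPAll_of_reg (P : EKCond) (hT : TraceWordsQRegPAll P) (hE : ExpSepC) :
    TraceWordsQEKPAll P :=
  fun F _ _ => traceWordsQEKP_of_reg P F (hT F) hE

/-- `A3c_556` for the condition `P`. -/
theorem a3c_ofP (P : EKCond) (hD : DictEFC) (hE : SeedP P) (hT : DescTrivEKPAll P) :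
    WT.A3c_556 := by
  intro ρ Ψ ι hyp hseed
  obtain ⟨nfE, Φ, hΦ, hdata⟩ := hseed
  obtain ⟨nfF, alg, -, hcyc, hcplx, hdict⟩ := hD ρ Ψ ι hyp nfE
  obtain ⟨hconst, htriv, hmid⟩ := hdict Φ hdata
  obtain ⟨π, hπ, hbc, hb⟩ :=
    hT (fieldF ρ) (fieldE ρ) hcyc hcplx Φ hΦ hconst htriv (hE ρ Ψ ι hyp nfE Φ hdata)
  exact ⟨nfF, π, hπ, hmid π hbc hb⟩

/-- `A3q_556` for the condition `P`. -/
theorem a3q_ofP (P : EKCond) (hD : DictFQC) (hR : SqrtC) (hM : MidP P) (hS : MidStableC)
    (hQ : DescQ3EKPAll P) : WT.A3q_556 := by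
  intro ρ Ψ ι hyp hmidAt
  obtain ⟨nfF, πF, hπF, hdata⟩ := hmidAt
  obtain ⟨hquad, hdict⟩ := hD ρ Ψ ι hyp nfF
  have hst := hS ρ Ψ ι hyp nfF πF hπF hdata
  obtain ⟨π, hπ, hbc⟩ :=
    hQ (fieldF ρ) (hR ρ Ψ hyp) hquad πF hπF hst (hM ρ Ψ ι hyp nfF πF hdata)
  exact ⟨π, hπ, hdict πF hdata π hbc⟩

/-- **THE TOP OF TOWER T7 FOR A CONDITION `P`**: the two descent leaves of the frozen wall,
VERBATIM, from the regular trace identities for the `Φ` with `P`, the two leaves "the seed / the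
middle forms have `P`", and the leaves without trace formula.  Even two DIFFERENT conditions may
be used for the two steps. -/
theorem topRegP (P Q : EKCond) (hTW : TraceWordsRegPAll P) (hTWQ : TraceWordsQRegPAll Q)
    (hExp : ExpSepC) (hSep : SepAll) (hSeed : SeedP P) (hMid : MidP Q) (hThin : ThinC)
    (hRigid : RigidAll) (hTw : TwistAll) (hConj : ConjAll) (hMU : MidUniqueFromC)
    (hMS : MidStableFromUniqueC) (hEF : DictEFC) (hFQ : DictFQC) (hR : SqrtC) :
    WT.A3c_556 ∧ WT.A3q_556 :=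
  ⟨a3c_ofP P hEF hSeed
      (descTrivEKPAll_of P (descEKPAll_of P (traceWordsEKPAll_of_reg P hTW hExp) hSep) hTw),
    a3q_ofP Q hFQ hR hMid (hMS (hMU hThin hRigid) hConj)
      (descQ3EKPAll_of Q (traceWordsQEKPAll_of_reg Q hTWQ hExp) hSep)⟩

/-- **Route (B)**: multi-place upstairs for `E/F`, multi-place (one inert place) for `F/ℚ`. -/
theorem topRegM (hTW : TraceWordsRegPAll ekMulti) (hTWQ : TraceWordsQRegPAll ekMulti)
    (hExp : ExpSepC) (hSep : SepAll) (hSeed : SeedEKMC) (hMid : MidEKMC) (hThin : ThinC)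
    (hRigid : RigidAll) (hTw : TwistAll) (hConj : ConjAll) (hMU : MidUniqueFromC)
    (hMS : MidStableFromUniqueC) (hEF : DictEFC) (hFQ : DictFQC) (hR : SqrtC) :
    WT.A3c_556 ∧ WT.A3q_556 :=
  topRegP ekMulti ekMulti hTW hTWQ hExp hSep hSeed hMid hThin hRigid hTw hConj hMU hMS hEF hFQ hR

end Fermat.Agent.LT.T7

end

end
-- ===== PACK-END LT/T7/EKM.lean

-- ===== PACK-BEGIN LT/T7/H621/ConjTop.lean
section









/-!
# Row LT, tower T7, leaf T7.02 `ConjC` -- CLOSED (integrator helper621)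

OFF-MAIN.  `conjC621 K : T7.ConjC K` and `conjAll621 : T7.ConjAll`, VERBATIM the Props of
`LT/T7/Spec.lean` (helper797), with NO hypothesis.  Sub-leaves (all byte-identical copies):

| sub-leaf | file | author |
|---|---|---|
| `ConjPlaceC621` | `LT/T7/H637/ConjPlace.lean` | helper637 |
| `ConjLevelC621` | `LT/T7/H362/ConjLevel.lean` | helper362 |
| `ConjArchC621`  | `LT/T7/H621/ConjInf.lean`   | helper621 |
| `ConjMeanC621`  | `LT/T7/H621/ConjMean.lean`  | helper621 |
| `ConjCuspC621`  | `LT/T7/H122/ConjCusp.lean`  | helper122 |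
| `ConjHeckeC621` | `LT/T7/H584/ConjHecke.lean` | helper584 |

on the adelic automorphism `adeleEquiv930` of helper930 (`LT/T1/H930/AdeleAut.lean`).
-/

set_option autoImplicit false

namespace Fermat.Agent.LT.T7.H621

/-- **T7.02 `ConjC`, PROVED** (no hypothesis). -/
theorem conjC621 (K : Type) [Field K] [NumberField K] : T7.ConjC K :=
  conjC_of_leaves621 (H637.conjPlaceC637 K) (H362.conjLevelC362 K) (conjArchC621 K)
    (conjMeanC621 K) (H122.conjCuspC122 K) (H584.conjHeckeC584 K)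

/-- **T7.02 `ConjAll`, PROVED** (no hypothesis). -/
theorem conjAll621 : T7.ConjAll := fun K _ _ => conjC621 K

end Fermat.Agent.LT.T7.H621

end
-- ===== PACK-END LT/T7/H621/ConjTop.lean

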