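import Mathlib
import Fermat.Agent.Pack.LT2.E13L0
import Fermat.Agent.Pack.LT2.E13L1
import Fermat.Agent.Pack.LT2.E10L2
import Fermat.Agent.Pack.S43GC.G0E14L2
import Fermat.Agent.Pack.S43GC.G0E10L2
import Fermat.Agent.Pack.S43GC.G0E11L0
import Fermat.Agent.Pack.S43GC.G0E11L2
import Fermat.Agent.Pack.S43GC.G0E16L2
import Fermat.Agent.Pack.S43GC.G0E10L1
import Fermat.Agent.Pack.LT2.E0L2
import Fermat.Agent.Pack.LT2.E2L1
import Fermat.Agent.Pack.LT2.E5L3
import Fermat.Agent.Pack.LT2.E6L1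
import Fermat.Agent.Pack.LT2.E8L2
import Fermat.Agent.Pack.LT2.E10L0
import Fermat.Agent.Pack.LT2.E11L0
import Fermat.Agent.Pack.LT2.E3L1
import Fermat.Agent.Pack.LT2.E0L1
import Fermat.Agent.Pack.LT2.E7L3
import Fermat.Agent.Pack.LT2.E9L2
import Fermat.Agent.Pack.LT2.E11L2
import Fermat.Agent.Pack.LT2.E12L1

set_option linter.all false

-- ===== PACK-BEGIN LT/A2/H254/RecSplitSpec.lean
section


/-!
# Row LT, tower A2, leaf A2.03.8.5 `H142.RecSplitC`: THE CUT (helper254)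

OFF-MAIN.  Definitions, sub-leaf `Prop`s and the PROVED top

    H142.RecSplitC ⟸ PairC254 + PlusC254 + PartnerC254 + FormC254 + IntC254
                                                                  (`recSplit_of_leaves254`)

Vocabulary: `LT/A2/H142/HeckeSpec.lean` (helper142@670ef2ef6, sha256 7c6078cc, byte-identical
copy) and its closure.  Nothing is re-defined, nothing is assumed.

## The mathematics

`v ∤ π.level` split, `ϖ` a uniformiser, `g'` trivial at `v`, `ω_j = W(diag(ϖ^j, 1)_v g')`.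

* `PairC254`: there are `μ, μ̄ ∈ T(𝔸_K)`, supported at `v`, integral at `v`, with
  `det μ_v = det μ̄_v = ϖ`, `μ_v μ̄_v = ϖ`, `μ⁻¹ μ̄` not integral (`IsSplitAt142` gives `m₁`,
  `good_norm` corrects the determinant by a unit, `μ̄ = ϖ μ⁻¹`; `μ⁻¹ μ̄` integral would make
  `X² - tX + n` ramified at `v`, excluded by `good_int`).  Put `α = χT μ`, `β = χT μ̄`; then
  `a = α + β`, `b = α β` by `InducedAtT`.
* `PlusC254`: if `g' ∉ GL₂(𝔸)⁺` then `ω_j = 0` for all `j` (`det diag(ϖ^j,1)_v = det μ^j` is a norm;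
  `IsWhit.off`).
* `PartnerC254`: if `g' ∈ GL₂(𝔸)⁺` is trivial at `v`, it has an admissible partner `m'` trivial at
  `v` (divide any partner by its component at `v`, which lies in `T¹`).
* `FormC254` (`diagA`, `torA`, `quad.norm`, `IsWhit.formula` at the partner `μ^j m'`):
  `√q^j ω_j = α^j ∫_{T¹(𝔸)} F g' (m m') (μ̄^j e₁) χT(m m') dm`.
* `IntC254` (the measure leaf proper):
  `α^j ∫_{T¹} F g' (m m') (μ̄^j e₁) χT(m m') dm = (∑_{i ≤ j} α^{j-i} β^i) ∫_{T¹} F g' (m m') e₁ χT(m m') dm`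
  (`T¹(𝔸) = ⨆_{i ∈ ℤ} ρ^i U`, `ρ = μ μ̄⁻¹`, `U` = the elements of `T¹` integral at `v`;
  `F g' (ρ^i u m') (μ̄^j e₁) = [-j ≤ i ≤ 0] F g' (u m') e₁` by `tor1` and `good_std`).

Hence `√q^j ω_j = h_j ω_0`, `h_j = ∑_{i ≤ j} α^{j-i} β^i`, and `h_{j+2} + αβ h_j = (α+β) h_{j+1}`.

The second level (the cut of `IntC254`) is in `LT/A2/H254/IntSpec.lean`.
-/

set_option autoImplicit false

open IsDedekindDomain NumberField AutomorphicForm MeasureTheory
open scoped MatrixGroups

noncomputable section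

namespace Fermat.Agent.LT.A2.H254

open Fermat.Agent.LT.H556 Fermat.Agent.LT.H556.A0 Fermat.Agent.LT.H129
open Fermat.Agent.LT.A2.H142

variable {K : Type} [Field K] [NumberField K]

/-! ## Vocabulary -/

/-- A SPLIT PAIR at `v` for the uniformiser `ϖ`: `μ, μ̄ ∈ T(𝔸_K)` supported and integral at `v`,
`det μ_v = det μ̄_v = ϖ`, `μ_v μ̄_v = ϖ`, `μ⁻¹ μ̄` not integral at `v`. -/
structure IsSplitPair254 (t n : K) (v : HeightOneSpectrum (𝓞 K)) (ϖ : v.adicCompletion K)
    (μ μb : G K) : Prop where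
  tor : InTorus t n μ
  torb : InTorus t n μb
  loc : IsLocalAtFin v μ
  locb : IsLocalAtFin v μb
  int : IsIntegralAt v μ
  intb : IsIntegralAt v μb
  det : (finComp v μ).det = ϖ
  detb : (finComp v μb).det = ϖ
  mul : finComp v μ * finComp v μb = Matrix.diagonal (fun _ => ϖ)
  ninv : ¬ IsIntegralAt v (μ⁻¹ * μb)

/-- The norm-one torus `T¹(𝔸_K)` as a set. -/
def T1set254 (t n : K) : Set (G K) := {m | InTorus1 t n m}

/-- `U`: the elements of `T¹(𝔸_K)` which are integral at `v` together with their inverse. -/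
def Uset254 (t n : K) (v : HeightOneSpectrum (𝓞 K)) : Set (G K) :=
  {m | InTorus1 t n m ∧ IsIntegralAt v m ∧ IsIntegralAt v m⁻¹}

/-- The orbital integrand `m ↦ F g' (m m') ξ · χT(m m')`. -/
def orbFn254 (D : KData K) (g' m' : G K) (ξ : Adl K × Adl K) : G K → ℂ :=
  fun m => D.F g' (m * m') ξ * D.χT (m * m')

/-- `h_j(α, β) = ∑_{i ≤ j} α^{j-i} β^i`. -/
def hsum254 (α β : ℂ) (j : ℕ) : ℂ := ∑ i ∈ Finset.range (j + 1), α ^ (j - i) * β ^ i

/-! ## The sub-leaves of the first level -/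

/-- **A2.03.8.5.1 PAIR.**  At a split place there is a split pair for every uniformiser. -/
def PairC254 : Prop :=
  ∀ (K : Type) [Field K] [NumberField K] (D : KData K) (η : (Adl K)ˣ → ℂ) (W : G K → ℂ)
    (v : HeightOneSpectrum (𝓞 K)), HCtx D η W v → IsSplitAt142 D.t D.n v →
    ∀ ϖ : v.adicCompletion K, Valued.v ϖ = WithZero.exp (-1 : ℤ) →
      ∃ μ μb : G K, IsSplitPair254 D.t D.n v ϖ μ μb

/-- **A2.03.8.5.2 PLUS.**  Outside `GL₂(𝔸_K)⁺` all `ω_j` vanish. -/
def PlusC254 : Prop :=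
  ∀ (K : Type) [Field K] [NumberField K] (D : KData K) (η : (Adl K)ˣ → ℂ) (W : G K → ℂ)
    (v : HeightOneSpectrum (𝓞 K)), HCtx D η W v → IsSplitAt142 D.t D.n v →
    ∀ (ϖ : v.adicCompletion K) (hϖ : Valued.v ϖ = WithZero.exp (-1 : ℤ)) (g' : G K),
      ¬ InGPlus D.t D.n g' → ∀ j : ℕ, om142 W v ϖ (unif_ne_zero129 v hϖ) g' j = 0

/-- **A2.03.8.5.3 PARTNER.**  An element of `GL₂(𝔸_K)⁺` which is trivial at `v` has an admissible
partner which is trivial at `v`. -/
def PartnerC254 : Prop :=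
  ∀ (K : Type) [Field K] [NumberField K] (t n : K) (v : HeightOneSpectrum (𝓞 K)) (g' : G K),
    TrivAtFin v g' → InGPlus t n g' → ∃ m' : G K, Adm t n g' m' ∧ TrivAtFin v m'

/-- **A2.03.8.5.4 FORM.**  `√q^j ω_j = χT(μ)^j ∫_{T¹} F g' (m m') (μ̄^j e₁) χT(m m') dm`. -/
def FormC254 : Prop :=
  ∀ (K : Type) [Field K] [NumberField K] (D : KData K) (η : (Adl K)ˣ → ℂ) (W : G K → ℂ)
    (v : HeightOneSpectrum (𝓞 K)), HCtx D η W v →
    ∀ (ϖ : v.adicCompletion K) (hϖ : Valued.v ϖ = WithZero.exp (-1 : ℤ)) (μ μb : G K),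
      IsSplitPair254 D.t D.n v ϖ μ μb →
      ∀ g' m' : G K, Adm D.t D.n g' m' → ∀ j : ℕ,
        sqC142 v ^ j * om142 W v ϖ (unif_ne_zero129 v hϖ) g' j
          = D.χT μ ^ j *
            D.intT (T1set254 D.t D.n) (orbFn254 D g' m' (actV (μb ^ j) (1, 0)))

/-- **A2.03.8.5.5 INT** (the measure leaf proper; cut in `IntSpec.lean`). -/
def IntC254 : Prop :=
  ∀ (K : Type) [Field K] [NumberField K] (D : KData K) (η : (Adl K)ˣ → ℂ) (W : G K → ℂ)
    (v : HeightOneSpectrum (𝓞 K)), HCtx D η W v →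
    ∀ (ϖ : v.adicCompletion K), Valued.v ϖ = WithZero.exp (-1 : ℤ) → ∀ (μ μb : G K),
      IsSplitPair254 D.t D.n v ϖ μ μb →
      ∀ g' m' : G K, TrivAtFin v g' → TrivAtFin v m' → Adm D.t D.n g' m' → ∀ j : ℕ,
        D.χT μ ^ j * D.intT (T1set254 D.t D.n) (orbFn254 D g' m' (actV (μb ^ j) (1, 0)))
          = hsum254 (D.χT μ) (D.χT μb) j *
            D.intT (T1set254 D.t D.n) (orbFn254 D g' m' (1, 0))

/-! ## The top -/

theorem hsum254_zero (α β : ℂ) : hsum254 α β 0 = 1 := by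
  simp [hsum254]

theorem hsum254_one (α β : ℂ) : hsum254 α β 1 = α + β := by
  simp [hsum254, Finset.sum_range_succ]

/-- `h_{j+1} = α h_j + β^{j+1}`. -/
theorem hsum254_succ (α β : ℂ) (j : ℕ) :
    hsum254 α β (j + 1) = α * hsum254 α β j + β ^ (j + 1) := by
  unfold hsum254
  rw [Finset.sum_range_succ _ (j + 1), Finset.mul_sum]
  congr 1
  · refine Finset.sum_congr rfl fun i hi => ?_
    have hij : i ≤ j := Nat.lt_succ_iff.mp (Finset.mem_range.mp hi)
    rw [show j + 1 - i = (j - i) + 1 by omega, pow_succ]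
    ring
  · simp

/-- `h_{j+1} = β h_j + α^{j+1}`. -/
theorem hsum254_succ' (α β : ℂ) (j : ℕ) :
    hsum254 α β (j + 1) = β * hsum254 α β j + α ^ (j + 1) := by
  unfold hsum254
  rw [Finset.sum_range_succ' _ (j + 1), Finset.mul_sum]
  congr 1
  · refine Finset.sum_congr rfl fun i hi => ?_
    rw [show j + 1 - (i + 1) = j - i by omega, pow_succ]
    ring
  · simp

/-- The three-term recursion `h_{j+2} + αβ h_j = (α + β) h_{j+1}`. -/
theorem hsum254_rec (α β : ℂ) (j : ℕ) :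
    hsum254 α β (j + 2) + α * β * hsum254 α β j = (α + β) * hsum254 α β (j + 1) := by
  have h1 := hsum254_succ α β (j + 1)
  have h2 := hsum254_succ' α β j
  have h3 := hsum254_succ α β j
  rw [show j + 1 + 1 = j + 2 by rfl] at h1
  rw [h1]
  have : β ^ (j + 1 + 1) = β * β ^ (j + 1) := by rw [pow_succ]; ring
  rw [this]
  have h4 : β ^ (j + 1) = hsum254 α β (j + 1) - α * hsum254 α β j := by rw [h3]; ring
  rw [h4]
  ring

theorem sqC142_sq (v : HeightOneSpectrum (𝓞 K)) : sqC142 v ^ 2 = qC142 v := by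
  unfold sqC142 qC142
  rw [← Complex.ofReal_pow, Real.sq_sqrt (Nat.cast_nonneg _)]
  simp

theorem sqC142_ne_zero (v : HeightOneSpectrum (𝓞 K)) : sqC142 v ≠ 0 := by
  intro h
  have h2 := sqC142_sq v
  rw [h] at h2
  unfold qC142 at h2
  have h3 : ((Ideal.absNorm v.asIdeal : ℕ) : ℂ) = 0 := by rw [← h2]; simp
  have h4 : Ideal.absNorm v.asIdeal = 0 := by exact_mod_cast h3
  rw [Ideal.absNorm_eq_zero_iff] at h4
  exact v.ne_bot h4

/-- The recursion from the closed form `√q^j ω_j = h_j ω_0`. -/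
theorem rec142_of_closed254 (v : HeightOneSpectrum (𝓞 K)) (ω : ℕ → ℂ) (α β : ℂ)
    (h : ∀ j : ℕ, sqC142 v ^ j * ω j = hsum254 α β j * ω 0) :
    Rec142 v ω (α + β) (α * β) := by
  have hs := sqC142_ne_zero v
  refine ⟨?_, fun j => ?_⟩
  · have h1 := h 1
    rw [pow_one, hsum254_one] at h1
    rw [← sqC142_sq, pow_two, mul_assoc, h1]
    ring
  · have h0 := h j
    have h1 := h (j + 1)
    have h2 := h (j + 2)
    have hr := hsum254_rec α β j
    have hpow : sqC142 v ^ j ≠ 0 := pow_ne_zero _ hs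
    apply mul_left_cancel₀ hpow
    have e1 : sqC142 v ^ j * (qC142 v * ω (j + 2) + α * β * ω j)
        = sqC142 v ^ (j + 2) * ω (j + 2) + α * β * (sqC142 v ^ j * ω j) := by
      rw [← sqC142_sq]; ring
    have e2 : sqC142 v ^ j * (sqC142 v * (α + β) * ω (j + 1))
        = (α + β) * (sqC142 v ^ (j + 1) * ω (j + 1)) := by ring
    rw [e1, e2, h0, h1, h2]
    linear_combination (ω 0) * hr

/-- **The top**: `H142.RecSplitC` from the five sub-leaves. -/
theorem recSplit_of_leaves254 (hPair : PairC254) (hPlus : PlusC254) (hPart : PartnerC254)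
    (hForm : FormC254) (hInt : IntC254) : RecSplitC := by
  intro K _ _ D η W v hctx hsplit ϖ hϖ g' hg'
  by_cases hplus : InGPlus D.t D.n g'
  · obtain ⟨m', hadm, hm'⟩ := hPart K D.t D.n v g' hg' hplus
    obtain ⟨μ, μb, hp⟩ := hPair K D η W v hctx hsplit ϖ hϖ
    have hdet : Valued.v (finComp v μ).det = WithZero.exp (-1 : ℤ) := by rw [hp.det]; exact hϖ
    have hdetb : Valued.v (finComp v μb).det = WithZero.exp (-1 : ℤ) := by
      rw [hp.detb]; exact hϖ
    obtain ⟨ha, hb⟩ := (hctx.ind v hctx.hv).1 μ μb hp.tor hp.torb hp.loc hp.locb hp.int hp.intb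
      hdet hdetb hp.ninv
    rw [ha, hb]
    apply rec142_of_closed254
    intro j
    have hF := hForm K D η W v hctx ϖ hϖ μ μb hp g' m' hadm j
    have hI := hInt K D η W v hctx ϖ hϖ μ μb hp g' m' hg' hm' hadm j
    have hF0 := hForm K D η W v hctx ϖ hϖ μ μb hp g' m' hadm 0
    simp only [pow_zero, one_mul] at hF0
    have hact : actV (1 : G K) ((1 : Adl K), (0 : Adl K)) = ((1 : Adl K), (0 : Adl K)) := by
      simp [actV]
    rw [hact] at hF0
    rw [hF, hI, hF0]
  · have h0 := hPlus K D η W v hctx hsplit ϖ hϖ g' hplus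
    refine ⟨?_, fun j => ?_⟩
    · rw [h0 1, h0 0]; ring
    · rw [h0 (j + 2), h0 j, h0 (j + 1)]; ring

end Fermat.Agent.LT.A2.H254

end

end
-- ===== PACK-END LT/A2/H254/RecSplitSpec.lean

-- ===== PACK-BEGIN LT/A2/H151/Comp.lean
section


/-!
# Row LT, tower A2, leaf A2.03.1.6 `WX467.RightInvC` -- part 1: components (helper151, OFF-MAIN)

The projections of the adele ring to the completions, the components of products, inverses and
determinants of elements of `GL₂(𝔸_K)`, local admissibility from global admissibility, and the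
factorwise comparison of the values of the product family `WData.F`.
No holes, nothing assumed.
-/

set_option autoImplicit false

open IsDedekindDomain NumberField AutomorphicForm MeasureTheory
open scoped MatrixGroups Topology

noncomputable section

namespace Fermat.Agent.LT.A2.H151

open Fermat.Agent.LT.H130 Fermat.Agent.LT.H556 Fermat.Agent.LT.A2 Fermat.Agent.LT.A2.WX467

variable {K : Type} [Field K] [NumberField K]

/-- The projection of the adele ring to the completion at the infinite place `u`. -/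
def pInf (u : InfinitePlace K) : A0.Adl K →+* u.Completion where
  toFun x := x.1 u
  map_one' := rfl
  map_mul' _ _ := rfl
  map_zero' := rfl
  map_add' _ _ := rfl

/-- The projection of the adele ring to the completion at the finite place `v`. -/
def pFin (v : HeightOneSpectrum (𝓞 K)) : A0.Adl K →+* v.adicCompletion K where
  toFun x := x.2 v
  map_one' := rfl
  map_mul' _ _ := rfl
  map_zero' := rfl
  map_add' _ _ := rfl

@[simp] theorem pInf_apply (u : InfinitePlace K) (x : A0.Adl K) : pInf u x = x.1 u := rfl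

@[simp] theorem pFin_apply (v : HeightOneSpectrum (𝓞 K)) (x : A0.Adl K) : pFin v x = x.2 v := rfl

theorem pInf_algebraMap (u : InfinitePlace K) (x : K) :
    pInf u (algebraMap K (A0.Adl K) x) = algebraMap K u.Completion x := rfl

theorem pFin_algebraMap (v : HeightOneSpectrum (𝓞 K)) (x : K) :
    pFin v (algebraMap K (A0.Adl K) x) = algebraMap K (v.adicCompletion K) x := rfl

/-- An adele is determined by its components. -/
theorem adl_ext {x y : A0.Adl K} (h1 : ∀ u : InfinitePlace K, pInf u x = pInf u y)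
    (h2 : ∀ v : HeightOneSpectrum (𝓞 K), pFin v x = pFin v y) : x = y := by
  refine Prod.ext (funext h1) ?_
  exact FiniteAdeleRing.ext (K := K) h2

theorem infMat_eq_map (u : InfinitePlace K) (g : A0.G K) :
    infMat u g = (g : Matrix (Fin 2) (Fin 2) (A0.Adl K)).map (pInf u) := rfl

theorem finComp_eq_map (v : HeightOneSpectrum (𝓞 K)) (g : A0.G K) :
    A0.finComp v g = (g : Matrix (Fin 2) (Fin 2) (A0.Adl K)).map (pFin v) := rfl

theorem infMat_mul (u : InfinitePlace K) (g h : A0.G K) :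
    infMat u (g * h) = infMat u g * infMat u h := by
  rw [infMat_eq_map, infMat_eq_map, infMat_eq_map, Units.val_mul, Matrix.map_mul]

theorem finComp_mul (v : HeightOneSpectrum (𝓞 K)) (g h : A0.G K) :
    A0.finComp v (g * h) = A0.finComp v g * A0.finComp v h := by
  rw [finComp_eq_map, finComp_eq_map, finComp_eq_map, Units.val_mul, Matrix.map_mul]

theorem infMat_one (u : InfinitePlace K) : infMat u (1 : A0.G K) = 1 := by
  rw [infMat_eq_map, Units.val_one, Matrix.map_one _ (map_zero _) (map_one _)]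

theorem finComp_one (v : HeightOneSpectrum (𝓞 K)) : A0.finComp v (1 : A0.G K) = 1 := by
  rw [finComp_eq_map, Units.val_one, Matrix.map_one _ (map_zero _) (map_one _)]

theorem infMat_det (u : InfinitePlace K) (g : A0.G K) :
    (infMat u g).det
      = pInf u ((Matrix.GeneralLinearGroup.det g : (A0.Adl K)ˣ) : A0.Adl K) := by
  rw [infMat_eq_map, Matrix.GeneralLinearGroup.val_det_apply, RingHom.map_det]
  rfl

theorem finComp_det (v : HeightOneSpectrum (𝓞 K)) (g : A0.G K) :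
    (A0.finComp v g).det
      = pFin v ((Matrix.GeneralLinearGroup.det g : (A0.Adl K)ˣ) : A0.Adl K) := by
  rw [finComp_eq_map, Matrix.GeneralLinearGroup.val_det_apply, RingHom.map_det]
  rfl

theorem infMat_det_ne_zero (u : InfinitePlace K) (g : A0.G K) : (infMat u g).det ≠ 0 := by
  rw [infMat_det]
  exact ((Matrix.GeneralLinearGroup.det g).isUnit.map (pInf u)).ne_zero

theorem finComp_det_ne_zero (v : HeightOneSpectrum (𝓞 K)) (g : A0.G K) :
    (A0.finComp v g).det ≠ 0 := by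
  rw [finComp_det]
  exact ((Matrix.GeneralLinearGroup.det g).isUnit.map (pFin v)).ne_zero

theorem infMat_inv (u : InfinitePlace K) (g : A0.G K) :
    infMat u g⁻¹ = (infMat u g)⁻¹ := by
  symm
  apply Matrix.inv_eq_right_inv
  rw [← infMat_mul, mul_inv_cancel, infMat_one]

theorem finComp_inv (v : HeightOneSpectrum (𝓞 K)) (g : A0.G K) :
    A0.finComp v g⁻¹ = (A0.finComp v g)⁻¹ := by
  symm
  apply Matrix.inv_eq_right_inv
  rw [← finComp_mul, mul_inv_cancel, finComp_one]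

theorem torMat_map {R S : Type*} [CommRing R] [CommRing S] (f : R →+* S) (t n a b : R) :
    (torMat t n a b).map f = torMat (f t) (f n) (f a) (f b) := by
  ext i j
  fin_cases i <;> fin_cases j <;> simp [torMat]

theorem torMat_det {R : Type*} [CommRing R] (t n a b : R) :
    (torMat t n a b).det = a * (a + t * b) + n * b * b := by
  rw [Matrix.det_fin_two]
  simp only [torMat, Matrix.of_apply, Matrix.cons_val', Matrix.cons_val_zero, Matrix.cons_val_one,
    Matrix.cons_val_fin_one]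
  ring

theorem torMat_one {R : Type*} [CommRing R] (t n : R) : torMat t n 1 0 = 1 := by
  ext i j
  fin_cases i <;> fin_cases j <;> simp [torMat]

theorem torMat_mul {R : Type*} [CommRing R] (t n a b a' b' : R) :
    torMat t n a b * torMat t n a' b'
      = torMat t n (a * a' - n * b * b') (a * b' + b * a' + t * b * b') := by
  ext i j
  fin_cases i <;> fin_cases j <;> simp [torMat, Matrix.mul_apply, Fin.sum_univ_two] <;> ring

/-- Local admissibility at a finite place from global admissibility. -/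
theorem admL_fin (L : WData K) (v : HeightOneSpectrum (𝓞 K)) {g m : A0.G K}
    (h : Adm L.toKData.t L.toKData.n g m) :
    AdmL (L.tfin v) (L.nfin v) (A0.finComp v g) (A0.finComp v m) := by
  obtain ⟨⟨a, b, hab⟩, hdet⟩ := h
  refine ⟨⟨pFin v a, pFin v b, ?_⟩, ?_, finComp_det_ne_zero v m⟩
  · rw [finComp_eq_map, hab, torMat_map]
    rfl
  · rw [finComp_det, finComp_det, hdet]

/-- Local admissibility at an infinite place from global admissibility. -/
theorem admL_inf (L : WData K) (u : InfinitePlace K) {g m : A0.G K}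
    (h : Adm L.toKData.t L.toKData.n g m) :
    AdmL (L.tinf u) (L.ninf u) (infMat u g) (infMat u m) := by
  obtain ⟨⟨a, b, hab⟩, hdet⟩ := h
  refine ⟨⟨pInf u a, pInf u b, ?_⟩, ?_, infMat_det_ne_zero u m⟩
  · rw [infMat_eq_map, hab, torMat_map]
    rfl
  · rw [infMat_det, infMat_det, hdet]

/-- **Factorwise comparison**: if every local factor is unchanged, the product family is
unchanged. -/
theorem F_congr (L : WData K) {g m g' m' : A0.G K}
    (hinf : ∀ u : InfinitePlace K,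
      L.Finf u (infMat u g') (infMat u m') = L.Finf u (infMat u g) (infMat u m))
    (hfin : ∀ v : HeightOneSpectrum (𝓞 K),
      L.Ffin v (A0.finComp v g') (A0.finComp v m') = L.Ffin v (A0.finComp v g) (A0.finComp v m))
    (ξ : A0.Adl K × A0.Adl K) : L.toKData.F g' m' ξ = L.toKData.F g m ξ := by
  change L.F g' m' ξ = L.F g m ξ
  unfold WData.F prodFn
  simp only [hinf, hfin]

end Fermat.Agent.LT.A2.H151

end

end
-- ===== PACK-END LT/A2/H151/Comp.lean

-- ===== PACK-BEGIN LT/A2/H83/SplitElt.lean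
section


/-!
# Row LT, tower A2, sub-leaf of A2.02: `SplitEltC83` (helper83), OFF-MAIN

`L / K` quadratic, `w₁ ≠ w₂` over `v`, `v ∤ t² - 4n`.  For `α ∈ w₁ ∖ (w₁² ∪ w₂)` write
`α = a + b ω`.  Then `b² (t² - 4n) = (α - σ α)²` is integral, so `b` is integral at `v`;
`a² + (t b) a + (n b² - N α) = 0` makes `a` integral at `v`; `N α = α σ(α) ∈ v ∖ v²` because
`σ(α) ∉ w₁`.
-/

set_option autoImplicit false
set_option linter.unusedSectionVars false
set_option linter.unusedSimpArgs false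
set_option linter.style.haveILetI false

open IsDedekindDomain NumberField AutomorphicForm Polynomial
open scoped MatrixGroups

noncomputable section

namespace Fermat.Agent.LT.A2.H83

open Fermat.Agent.LT.H130 Fermat.Agent.LT.H556 Fermat.Agent.LT.A2

section Aux

variable {K L : Type} [Field K] [NumberField K] [Field L] [NumberField L] [Algebra K L]

/-- `val83` is the valuation of `K`. -/
theorem val83_eq83 (v : HeightOneSpectrum (𝓞 K)) (x : K) : val83 v x = v.valuation K x :=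
  HeightOneSpectrum.valuedAdicCompletion_eq_valuation' v x

/-- `IntAt83` in terms of the valuation of `K`. -/
theorem intAt83_iff83 (v : HeightOneSpectrum (𝓞 K)) (x : K) :
    IntAt83 v x ↔ v.valuation K x ≤ 1 := by
  unfold IntAt83
  rw [show Valued.v (algebraMap K (v.adicCompletion K) x) = v.valuation K x from
    HeightOneSpectrum.valuedAdicCompletion_eq_valuation' v x]

/-- An algebraic integer of `K` is integral at every place. -/
theorem valuation_le_one_of_isIntegral83 (v : HeightOneSpectrum (𝓞 K)) {x : K}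
    (hx : IsIntegral ℤ x) : v.valuation K x ≤ 1 :=
  v.valuation_le_one (⟨x, hx⟩ : 𝓞 K)

/-- A root of `X² + p X + q` with `p`, `q` integral at `v` is integral at `v`. -/
theorem valuation_le_one_of_quadratic83 {Γ : Type*} [LinearOrderedCommGroupWithZero Γ]
    (V : Valuation K Γ) {a p q : K} (hp : V p ≤ 1) (hq : V q ≤ 1)
    (h : a ^ 2 + p * a + q = 0) : V a ≤ 1 := by
  by_contra hcon
  push Not at hcon
  have ha0 : 0 < V a := lt_trans zero_lt_one hcon
  have h1 : V (a ^ 2) ≤ V a := by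
    have e : a ^ 2 = -(p * a + q) := by linear_combination h
    rw [e, Valuation.map_neg]
    apply Valuation.map_add_le
    · rw [map_mul]
      calc V p * V a ≤ 1 * V a := mul_le_mul_left hp (V a)
        _ = V a := one_mul _
    · exact le_trans hq hcon.le
  rw [map_pow, pow_two] at h1
  have h2 : V a ≤ 1 := by
    have := (mul_le_iff_le_one_left ha0).mp h1
    exact this
  exact absurd h2 (not_le.mpr hcon)

end Aux

/-- **SPLIT-ELT** (helper83), VERBATIM. -/
theorem splitEltC_h83 : SplitEltC83 := by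
  intro K L _ _ _ _ _ t n ω h2 hgen v w₁ w₂ hne hw₁ hw₂ hdisc
  obtain ⟨σ, hinv, hfix⟩ := exists_conj83 (K := K) (L := L) h2
  obtain ⟨α, hα1, hα2, hα3⟩ := exists_crt_elt83 w₁ w₂ hne
  have hσ3 : conjInt83 σ α ∉ w₁.asIdeal := by
    rw [eq_comap_conj83 σ hinv hfix v w₂ w₁ (Ne.symm hne) hw₂ hw₁, Ideal.mem_comap] at hα3
    exact hα3
  have hv11 : w₁.intValuation α = WithZero.exp (-1 : ℤ) := intVal_eq_exp_neg_one83 w₁ hα1 hα2
  have hv12 : w₂.intValuation α = 1 := HeightOneSpectrum.intValuation_eq_one_iff.mpr hα3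
  obtain ⟨a, b, hab⟩ := exists_coords83 t n ω h2 hgen (α : L)
  have hσω := conj_gen83 σ hfix t n ω hgen
  have hσα : σ (α : L) = algebraMap K L a + algebraMap K L b * (algebraMap K L t - ω) := by
    rw [← hab]
    unfold elt83
    rw [map_add, map_mul, AlgEquiv.commutes, AlgEquiv.commutes, hσω]
  have habα : (α : L) = algebraMap K L a + algebraMap K L b * ω := by
    rw [← hab]; rfl
  -- the norm
  obtain ⟨y, hy⟩ := norm_descends83 σ hinv hfix α
  have hyL : algebraMap K L (y : K) = (α : L) * σ (α : L) := by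
    have := congrArg (fun z : 𝓞 L => (z : L)) hy
    exact this
  have hN : a ^ 2 + t * a * b + n * b ^ 2 = (y : K) := by
    apply (algebraMap K L).injective
    rw [hyL, hσα, habα]
    simp only [map_add, map_mul, map_pow]
    linear_combination (algebraMap K L b) ^ 2 * hgen.rel
  have hyv : y ∈ v.asIdeal := by
    rw [← hw₁, Ideal.mem_comap, hy]
    exact Ideal.mul_mem_right _ _ hα1
  have hyv2 : y ∉ v.asIdeal ^ 2 := by
    intro h
    have h1 : algebraMap (𝓞 K) (𝓞 L) y ∈ w₁.asIdeal ^ 2 := by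
      have hle : (v.asIdeal ^ 2).map (algebraMap (𝓞 K) (𝓞 L)) ≤ w₁.asIdeal ^ 2 := by
        rw [Ideal.map_pow]
        apply Ideal.pow_right_mono
        rw [Ideal.map_le_iff_le_comap, hw₁]
      exact hle (Ideal.mem_map_of_mem _ h)
    rw [hy] at h1
    have h2 : w₁.intValuation (α * conjInt83 σ α) ≤ WithZero.exp (-((2 : ℕ) : ℤ)) :=
      (w₁.intValuation_le_pow_iff_mem _ 2).mpr h1
    rw [map_mul, hv11, HeightOneSpectrum.intValuation_eq_one_iff.mpr hσ3, mul_one,
      WithZero.exp_le_exp] at h2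
    omega
  have hvy : v.intValuation y = WithZero.exp (-1 : ℤ) := intVal_eq_exp_neg_one83 v hyv hyv2
  -- integrality of `b`
  have hb : v.valuation K b ≤ 1 := by
    have hsq : algebraMap K L (b ^ 2 * (t ^ 2 - 4 * n)) = ((α : L) - σ (α : L)) ^ 2 := by
      rw [hσα, habα]
      simp only [map_add, map_mul, map_pow, map_sub, map_ofNat]
      linear_combination (-4 * (algebraMap K L b) ^ 2) * hgen.rel
    have hint : IsIntegral ℤ (b ^ 2 * (t ^ 2 - 4 * n)) := by
      have h1 : IsIntegral ℤ (((α : L) - σ (α : L)) ^ 2) := by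
        have hα : IsIntegral ℤ (α : L) := α.2
        have hσαi : IsIntegral ℤ (σ (α : L)) := map_isIntegral_int σ hα
        exact (hα.sub hσαi).pow 2
      rw [← hsq] at h1
      exact (isIntegral_algebraMap_iff (algebraMap K L).injective).mp h1
    have h3 := valuation_le_one_of_isIntegral83 v hint
    rw [map_mul, map_pow, ← val83_eq83 v (t ^ 2 - 4 * n), hdisc, mul_one] at h3
    by_contra hcon
    push Not at hcon
    have : 1 < v.valuation K b ^ 2 := one_lt_pow₀ hcon (by norm_num)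
    exact absurd h3 (not_le.mpr this)
  have ht : v.valuation K t ≤ 1 := valuation_le_one_of_isIntegral83 v hgen.int_t
  have hn : v.valuation K n ≤ 1 := valuation_le_one_of_isIntegral83 v hgen.int_n
  have hyK : v.valuation K (y : K) = WithZero.exp (-1 : ℤ) := by
    rw [← hvy]
    exact v.valuation_of_algebraMap y
  -- integrality of `a`
  have ha : v.valuation K a ≤ 1 := by
    apply valuation_le_one_of_quadratic83 (v.valuation K) (p := t * b) (q := n * b ^ 2 - (y : K))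
    · rw [map_mul]
      exact mul_le_one' ht hb
    · apply Valuation.map_sub_le
      · rw [map_mul, map_pow]
        exact mul_le_one' hn (pow_le_one₀ zero_le hb)
      · rw [hyK, ← WithZero.exp_zero, WithZero.exp_le_exp]
        omega
    · linear_combination hN
  refine ⟨a, b, (intAt83_iff83 v a).mpr ha, (intAt83_iff83 v b).mpr hb, ?_, ?_, ?_⟩
  · rw [val83_eq83, hN, hyK]
  · rw [val83_eq83, hab, ← hv11]
    exact w₁.valuation_of_algebraMap α
  · rw [val83_eq83, hab, ← hv12]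
    exact w₂.valuation_of_algebraMap α

end Fermat.Agent.LT.A2.H83

end

end
-- ===== PACK-END LT/A2/H83/SplitElt.lean

-- ===== PACK-BEGIN LT/A2/H546/LiftExAt.lean
section



/-!
# Row LT, tower A2, leaf A2.07b `LiftExAtC` (v2; helper546), OFF-MAIN

`LiftExC` with the hypothesis `HasseNormAt K D.t D.n` (Hasse's norm theorem for the ONE torus of
the data) instead of `HasseNormC` (Spec v2 of helper950, `LT/A2/TopTC.lean`).  Same proof as
`liftExC_h546` (`LiftEx.lean`): Hasse is only used at `(K, D.t, D.n)`.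
-/

set_option autoImplicit false

open IsDedekindDomain NumberField AutomorphicForm MeasureTheory
open scoped MatrixGroups

noncomputable section

namespace Fermat.Agent.LT.A2.H546

open Fermat.Agent.LT.H130 Fermat.Agent.LT.H556 Fermat.Agent.LT.A2

variable {K : Type} [Field K] [NumberField K]

/-- **Invariance under the rational admissible pairs.** -/
theorem ival_rat_at_h546 (D : KData K) (hH : HasseNormAt K D.t D.n) (hG : D.Good)
    (hΘ : D.ThetaInv)
    {g m₁ m₂ : A0.G K} {γ₁ γ₂ : GL (Fin 2) K} (h₁ : Adm D.t D.n (ratG γ₁ * g) m₁)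
    (h₂ : Adm D.t D.n (ratG γ₂ * g) m₂) :
    ival_h546 D (ratG γ₁ * g) m₁ = ival_h546 D (ratG γ₂ * g) m₂ := by
  obtain ⟨δ, hδ⟩ : ∃ δ : GL (Fin 2) K, δ = γ₂ * γ₁⁻¹ := ⟨_, rfl⟩
  obtain ⟨g₁, hg₁⟩ : ∃ g₁ : A0.G K, g₁ = ratG γ₁ * g := ⟨_, rfl⟩
  rw [← hg₁] at h₁ ⊢
  have hg : (ratG δ : A0.G K) * g₁ = ratG γ₂ * g := by
    rw [hδ, hg₁, ratG_mul_h546, mul_assoc, ← mul_assoc (ratG γ₁⁻¹), ← ratG_mul_h546,
      inv_mul_cancel, ratG_one_h546, one_mul]
  -- `det δ = det (m₂ m₁⁻¹)`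
  have hdet : Matrix.GeneralLinearGroup.det (ratG δ : A0.G K)
      = Matrix.GeneralLinearGroup.det (m₂ * m₁⁻¹) := by
    have : Matrix.GeneralLinearGroup.det ((ratG δ : A0.G K) * g₁)
        = Matrix.GeneralLinearGroup.det m₂ := by rw [hg]; exact h₂.2
    rw [map_mul, h₁.2] at this
    rw [map_mul, map_inv, ← this, mul_inv_cancel_right]
  have hT : InTorus D.t D.n (m₂ * m₁⁻¹) := inTorus_mul_h546 h₂.1 (inTorus_inv_h546 h₁.1)
  obtain ⟨y, hy, hydet⟩ := hH ((δ : Matrix (Fin 2) (Fin 2) K).det)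
    (m₂ * m₁⁻¹) hT (by rw [← hdet, val_det_ratG_h546])
  have hydet' : Matrix.GeneralLinearGroup.det (ratG δ : A0.G K)
      = Matrix.GeneralLinearGroup.det y := by
    apply Units.ext
    rw [hydet, val_det_ratG_h546]
  have hadm : Adm D.t D.n ((ratG δ : A0.G K) * g₁) (y * m₁) :=
    ⟨inTorus_mul_h546 (inTorus_of_rat_h546 hy) h₁.1, by
      rw [map_mul, map_mul, hydet', h₁.2]⟩
  -- step 1: `I(δ g₁, y m₁) = I(g₁, m₁)`
  have step1 : ival_h546 D ((ratG δ : A0.G K) * g₁) (y * m₁) = ival_h546 D g₁ m₁ := by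
    apply ival_congr_h546 D hG.measured
    intro m hm
    have hmT : InTorus1 D.t D.n m := hG.measured.dom_sub m hm
    have hadm1 : Adm D.t D.n g₁ (m * m₁) := adm_torus1_mul_h546 h₁ hmT
    have e : m * (y * m₁) = y * (m * m₁) := by
      rw [← mul_assoc, inTorus_comm_h546 hmT.1 (inTorus_of_rat_h546 hy), mul_assoc]
    simp only [e]
    rw [hΘ δ y g₁ (m * m₁) hy hydet' hadm1,
      hG.torus.mul y (m * m₁) (inTorus_of_rat_h546 hy) hadm1.1, hG.torus.rat y hy, one_mul]
  -- step 2: independence of the torus component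
  have h₂' : Adm D.t D.n ((ratG δ : A0.G K) * g₁) m₂ := by rw [hg]; exact h₂
  have step2 := ival_indep_h546 D hG hΘ hadm h₂'
  rw [← step1, ← step2, hg]

/-- **LIFT-EX, local form of the hypothesis (v2)**: the theta lift exists. -/
theorem liftExAtC_h546 : LiftExAtC := by
  classical
  intro K _ _ D hH hG hΘ
  -- the definition
  let P : A0.G K → Prop := fun g => ∃ γ : GL (Fin 2) K, ∃ m : A0.G K, Adm D.t D.n (ratG γ * g) m
  let φ : A0.G K → ℂ := fun g =>
    if h : P g then ival_h546 D (ratG h.choose * g) h.choose_spec.choose else 0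
  have hφ : ∀ (g : A0.G K) (γ : GL (Fin 2) K) (m : A0.G K), Adm D.t D.n (ratG γ * g) m →
      φ g = ival_h546 D (ratG γ * g) m := by
    intro g γ m hadm
    have hP : P g := ⟨γ, m, hadm⟩
    show (if h : P g then ival_h546 D (ratG h.choose * g) h.choose_spec.choose else 0) = _
    rw [dif_pos hP]
    exact ival_rat_at_h546 D hH hG hΘ hP.choose_spec.choose_spec hadm
  have hφ0 : ∀ g : A0.G K, ¬ P g → φ g = 0 := by
    intro g hP
    show (if h : P g then ival_h546 D (ratG h.choose * g) h.choose_spec.choose else 0) = _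
    rw [dif_neg hP]
  refine ⟨φ, ⟨?_, ?_, ?_⟩⟩
  · -- formula
    intro g mg hadm
    have hadm' : Adm D.t D.n (ratG (1 : GL (Fin 2) K) * g) mg := by
      rw [ratG_one_h546, one_mul]; exact hadm
    have := hφ g 1 mg hadm'
    rw [ratG_one_h546, one_mul] at this
    exact this
  · -- left invariance
    intro γ g
    by_cases hP : P g
    · obtain ⟨γ', m, hadm⟩ := hP
      have e : (ratG (γ' * γ⁻¹) : A0.G K) * (ratG γ * g) = ratG γ' * g := by
        rw [← mul_assoc, ← ratG_mul_h546, inv_mul_cancel_right]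
      have hadm' : Adm D.t D.n ((ratG (γ' * γ⁻¹) : A0.G K) * (ratG γ * g)) m := by
        rw [e]; exact hadm
      rw [hφ (ratG γ * g) (γ' * γ⁻¹) m hadm', hφ g γ' m hadm, e]
    · have hP' : ¬ P (ratG γ * g) := by
        rintro ⟨γ', m, hadm⟩
        apply hP
        refine ⟨γ' * γ, m, ?_⟩
        rw [ratG_mul_h546, mul_assoc]
        exact hadm
      rw [hφ0 _ hP, hφ0 _ hP']
  · -- vanishing off `GL₂(K) GL₂(𝔸)⁺`
    intro g hg
    apply hφ0
    rintro ⟨γ, m, hadm⟩
    exact hg γ ⟨m, hadm⟩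


/-- The v1 leaf again, through the v2 leaf (`liftExC_of_at` of helper950). -/
theorem liftExC_via_at_h546 : LiftExC := liftExC_of_at liftExAtC_h546

end Fermat.Agent.LT.A2.H546

end

end
-- ===== PACK-END LT/A2/H546/LiftExAt.lean

-- ===== PACK-BEGIN LT/A2/H915/StdLoc.lean
section


/-!
# Row LT, tower A2, leaf A2.03.1.7 `WX467.StdLocC` (helper915)

OFF-MAIN.  On `LT/A2/H467/WeilExSpec.lean` (helper467, byte-identical copy, sha256 966c0978...).
No hole, nothing assumed.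

    stdLocC915 : Fermat.Agent.LT.A2.WX467.StdLocC

For good product data `L` the global family is the product of the local ones:
`L.F g m ξ = ∏_u F_u(g_u, m_u, ξ_u) · ∏ᶠ_v F_v(g_v, m_v, ξ_v)`.

* `cpx`: for `g`, `m` trivial at the infinite place `u` the factor at `u` is the Gaussian
  (`CpxAt.gauss`), the other factors do not see `ξ_u`.
* `good_std`: for `g`, `m` trivial at the good place `v` the factor at `v` is `stdFn v`
  (`GoodAt.std`), the other factors do not see `ξ_v`.  For the vanishing the product over the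
  finite places has to be a genuine (finite) product: at almost all `v'` the level is trivial,
  `g_{v'} ∈ GL₂(𝒪_{v'})`, `m_{v'} ∈ T(𝒪_{v'})` and `ξ_{v'}` is integral, so that the factor is
  `F_{v'}(1, 1)(ξ_{v'}) = 1` by `FinAt.right_inv`, `GoodAt.tlev`, `GoodAt.std`
  (`factor_eq_one915`, `hasFiniteMulSupport915`).  The closure of the level at a place not
  dividing it is `𝒪_v` (`dense_ideal915`).
-/

set_option autoImplicit false

open IsDedekindDomain NumberField AutomorphicForm MeasureTheory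
open IsDedekindDomain.HeightOneSpectrum
open scoped MatrixGroups Topology

noncomputable section

namespace Fermat.Agent.LT.A2.H915

open Fermat.Agent.LT.H130 Fermat.Agent.LT.H556 Fermat.Agent.LT.A2 Fermat.Agent.LT.A2.WX467

variable {K : Type} [Field K] [NumberField K]

/-! ## Components at a finite place -/

/-- The component at the finite place `v`, as a ring homomorphism. -/
def evF915 (v : HeightOneSpectrum (𝓞 K)) : A0.Adl K →+* v.adicCompletion K :=
  (RestrictedProduct.evalRingHom (fun v : HeightOneSpectrum (𝓞 K) => v.adicCompletion K) v).comp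
    (RingHom.snd _ _)

theorem evF915_apply (v : HeightOneSpectrum (𝓞 K)) (x : A0.Adl K) : evF915 v x = x.2 v := rfl

theorem evF915_algebraMap (v : HeightOneSpectrum (𝓞 K)) (t : K) :
    evF915 v (algebraMap K (A0.Adl K) t) = algebraMap K (v.adicCompletion K) t := rfl

theorem finComp_eq_map915 (v : HeightOneSpectrum (𝓞 K)) (g : A0.G K) :
    A0.finComp v g = (evF915 v).mapMatrix (g : Matrix (Fin 2) (Fin 2) (A0.Adl K)) := rfl

theorem finComp_mul915 (v : HeightOneSpectrum (𝓞 K)) (g h : A0.G K) :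
    A0.finComp v (g * h) = A0.finComp v g * A0.finComp v h := by
  rw [finComp_eq_map915, finComp_eq_map915, finComp_eq_map915, Units.val_mul, map_mul]

theorem finComp_one915 (v : HeightOneSpectrum (𝓞 K)) : A0.finComp v (1 : A0.G K) = 1 := by
  rw [finComp_eq_map915, Units.val_one, map_one]

theorem finComp_mul_inv915 (v : HeightOneSpectrum (𝓞 K)) (g : A0.G K) :
    A0.finComp v g * A0.finComp v g⁻¹ = 1 := by
  rw [← finComp_mul915, mul_inv_cancel, finComp_one915]

theorem finComp_inv915 (v : HeightOneSpectrum (𝓞 K)) (g : A0.G K) :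
    (A0.finComp v g)⁻¹ = A0.finComp v g⁻¹ :=
  Matrix.inv_eq_right_inv (finComp_mul_inv915 v g)

theorem finComp_det915 (v : HeightOneSpectrum (𝓞 K)) (g : A0.G K) :
    (A0.finComp v g).det
      = ((Matrix.GeneralLinearGroup.det g : (A0.Adl K)ˣ) : A0.Adl K).2 v := by
  rw [finComp_eq_map915, ← RingHom.map_det, Matrix.GeneralLinearGroup.val_det_apply]
  rfl

theorem finComp_det_ne_zero915 (v : HeightOneSpectrum (𝓞 K)) (g : A0.G K) :
    (A0.finComp v g).det ≠ 0 := by
  intro h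
  have h1 := congrArg Matrix.det (finComp_mul_inv915 v g)
  rw [Matrix.det_mul, h, zero_mul, Matrix.det_one] at h1
  exact zero_ne_one h1

/-- The components of an adele are integral at almost all finite places. -/
theorem eventually_entry_integral915 (x : A0.Adl K) :
    ∀ᶠ v : HeightOneSpectrum (𝓞 K) in Filter.cofinite, x.2 v ∈ v.adicCompletionIntegers K :=
  x.2.2

/-- The components of an element of `GL₂(𝔸_K)` are integral at almost all finite places. -/
theorem eventually_finComp_integral915 (g : A0.G K) :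
    ∀ᶠ v : HeightOneSpectrum (𝓞 K) in Filter.cofinite,
      ∀ i j : Fin 2, A0.finComp v g i j ∈ v.adicCompletionIntegers K := by
  rw [Filter.eventually_all]
  intro i
  rw [Filter.eventually_all]
  intro j
  exact eventually_entry_integral915 _

theorem map_torMat915 {R S : Type*} [CommRing R] [CommRing S] (f : R →+* S) (t n a b : R) :
    f.mapMatrix (torMat t n a b) = torMat (f t) (f n) (f a) (f b) := by
  ext i j
  fin_cases i <;> fin_cases j <;> simp [torMat]

/-- The component at `v` of an element of the adelic torus lies in the local torus. -/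
theorem inTorL_of_inTorus915 (L : WData K) (v : HeightOneSpectrum (𝓞 K)) {m : A0.G K}
    (hm : InTorus L.t L.n m) : InTorL (L.tfin v) (L.nfin v) (A0.finComp v m) := by
  obtain ⟨a, b, hab⟩ := hm
  refine ⟨evF915 v a, evF915 v b, ?_⟩
  rw [finComp_eq_map915, hab, map_torMat915, evF915_algebraMap, evF915_algebraMap]
  rfl

theorem admL_one915 {k : Type} [Field k] (t n : k) : AdmL t n 1 1 := by
  refine ⟨⟨1, 0, ?_⟩, rfl, ?_⟩
  · ext i j
    fin_cases i <;> fin_cases j <;> simp [torMat]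
  · simp

theorem one_entry_integral915 (v : HeightOneSpectrum (𝓞 K)) (i j : Fin 2) :
    (1 : Matrix (Fin 2) (Fin 2) (v.adicCompletion K)) i j ∈ v.adicCompletionIntegers K := by
  rw [Matrix.one_apply]
  split_ifs
  · exact one_mem _
  · exact zero_mem _

/-! ## The closure of the level at a good place -/

/-- `𝓞 K` is dense in `𝒪_v`: every neighbourhood of an element of `𝒪_v` contains a global
integer. -/
theorem exists_int_mem_nhds915 (v : HeightOneSpectrum (𝓞 K)) {x : v.adicCompletion K}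
    (hx : Valued.v x ≤ 1) {t : Set (v.adicCompletion K)} (ht : t ∈ nhds x) :
    ∃ a : 𝓞 K, ((algebraMap (𝓞 K) K a : K) : v.adicCompletion K) ∈ t := by
  have hB : {z : v.adicCompletion K | Valued.v (z - x) < 1} ∈ nhds x := by
    rw [Valued.mem_nhds]
    refine ⟨1, fun w hw => ?_⟩
    simpa using hw
  have hint : interior t ∩ {z : v.adicCompletion K | Valued.v (z - x) < 1} ∈ nhds x :=
    Filter.inter_mem (interior_mem_nhds.mpr ht) hB
  have hx' : x ∈ closure (Set.range (algebraMap K (v.adicCompletion K))) := by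
    rw [(denseRange_algebraMap (K := K) v).closure_range]; exact Set.mem_univ x
  obtain ⟨_, ⟨hkt, hkB⟩, ⟨k, rfl⟩⟩ := mem_closure_iff_nhds.mp hx' _ hint
  have hk' : Valued.v (algebraMap K (v.adicCompletion K) k - x) < 1 := hkB
  have hk1 : v.valuation K k ≤ 1 := by
    rw [← valuedAdicCompletion_eq_valuation']
    have : ((k : K) : v.adicCompletion K) = (algebraMap K (v.adicCompletion K) k - x) + x := by
      have h1 : ((k : K) : v.adicCompletion K) = algebraMap K (v.adicCompletion K) k := rfl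
      rw [h1]; ring
    rw [this]
    exact le_trans (Valuation.map_add _ _ _) (max_le hk'.le hx)
  have htk : interior t ∈ nhds (algebraMap K (v.adicCompletion K) k) :=
    isOpen_interior.mem_nhds hkt
  rw [Valued.mem_nhds] at htk
  obtain ⟨γ, hγ⟩ := htk
  have hγ0 : MonoidWithZeroHom.ValueGroup₀.embedding γ.1 ≠ 0 := by
    intro h
    have h1 := (MonoidWithZeroHom.ValueGroup₀.embedding_strictMono
      (f := MonoidWithZeroHom.ofClass (Valued.v : Valuation (v.adicCompletion K) _))).injective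
      (h.trans (map_zero _).symm)
    exact γ.ne_zero h1
  obtain ⟨a, ha⟩ := exists_valuation_sub_lt_of_integer v hk1 (Units.mk0 _ hγ0)
  refine ⟨a, interior_subset (hγ ?_)⟩
  show (Valued.v : Valuation (v.adicCompletion K) _).restrict
    (((algebraMap (𝓞 K) K a : K) : v.adicCompletion K) - algebraMap K (v.adicCompletion K) k)
      < γ.1
  rw [Valuation.restrict_lt_iff_lt_embedding]
  have e : ((algebraMap (𝓞 K) K a : K) : v.adicCompletion K)
      - algebraMap K (v.adicCompletion K) k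
      = ((algebraMap (𝓞 K) K a - k : K) : v.adicCompletion K) :=
    (map_sub (algebraMap K (v.adicCompletion K)) _ _).symm
  rw [e, valuedAdicCompletion_eq_valuation']
  simpa using ha

/-- For `v ∤ 𝔫` the ideal `𝔫` is dense in `𝒪_v`. -/
theorem dense_ideal915 {𝔫 : Ideal (𝓞 K)} {v : HeightOneSpectrum (𝓞 K)}
    (hv : ¬ v.asIdeal ∣ 𝔫) {x : v.adicCompletion K} (hx : x ∈ v.adicCompletionIntegers K) :
    x ∈ A0.idealClosure 𝔫 v := by
  have hx1 : Valued.v x ≤ 1 := hx
  have hnle : ¬ 𝔫 ≤ v.asIdeal := fun h => hv (Ideal.dvd_iff_le.mpr h)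
  obtain ⟨s, hs𝔫, hsv⟩ := Set.not_subset.mp hnle
  have hsval : Valued.v (((algebraMap (𝓞 K) K s : K) : v.adicCompletion K)) = 1 := by
    rw [valuedAdicCompletion_eq_valuation', valuation_eq_one_iff_notMem]
    exact hsv
  set S : v.adicCompletion K := ((algebraMap (𝓞 K) K s : K) : v.adicCompletion K) with hS
  have hS0 : S ≠ 0 := by
    intro h
    rw [h, map_zero] at hsval
    exact zero_ne_one hsval
  unfold A0.idealClosure
  rw [mem_closure_iff_nhds]
  intro t ht
  have hxs : Valued.v (x / S) ≤ 1 := by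
    rw [map_div₀, hsval, div_one]; exact hx1
  have hcont : Filter.Tendsto (fun z : v.adicCompletion K => z * S) (nhds (x / S)) (nhds x) := by
    have h1 : Continuous (fun z : v.adicCompletion K => z * S) := continuous_mul_const S
    have h2 := h1.tendsto (x / S)
    rwa [div_mul_cancel₀ x hS0] at h2
  obtain ⟨a, ha⟩ := exists_int_mem_nhds915 v hxs (hcont ht)
  refine ⟨((algebraMap (𝓞 K) K a : K) : v.adicCompletion K) * S, ha, a * s,
    𝔫.mul_mem_left a hs𝔫, ?_⟩
  show algebraMap K (v.adicCompletion K) (algebraMap (𝓞 K) K (a * s))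
    = algebraMap K (v.adicCompletion K) (algebraMap (𝓞 K) K a)
      * algebraMap K (v.adicCompletion K) (algebraMap (𝓞 K) K s)
  rw [map_mul, map_mul]

/-! ## The factors at almost all places -/

/-- At a good place `v` where `g`, `g⁻¹`, `m`, `m⁻¹` are integral the factor at `v` is `1` on the
integral vectors. -/
theorem factor_eq_one915 (L : WData K) (hgood : L.IsGood) (v : HeightOneSpectrum (𝓞 K))
    (hv : ¬ v.asIdeal ∣ L.π.level) (g m : A0.G K) (hadm : Adm L.t L.n g m)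
    (hg : ∀ i j : Fin 2, A0.finComp v g i j ∈ v.adicCompletionIntegers K)
    (hg' : ∀ i j : Fin 2, A0.finComp v g⁻¹ i j ∈ v.adicCompletionIntegers K)
    (hm : ∀ i j : Fin 2, A0.finComp v m i j ∈ v.adicCompletionIntegers K)
    (hm' : ∀ i j : Fin 2, A0.finComp v m⁻¹ i j ∈ v.adicCompletionIntegers K)
    (ζ : v.adicCompletion K × v.adicCompletion K)
    (hζ : ζ.1 ∈ v.adicCompletionIntegers K ∧ ζ.2 ∈ v.adicCompletionIntegers K) :
    L.Ffin v (A0.finComp v g) (A0.finComp v m) ζ = 1 := by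
  have hG := hgood.good v hv
  have hF := hgood.fin v
  have hk : InLevL L.π.level v (A0.finComp v g) := by
    refine ⟨finComp_det_ne_zero915 v g, fun i j => ⟨dense_ideal915 hv ?_, dense_ideal915 hv ?_⟩⟩
    · rw [Matrix.sub_apply]
      exact sub_mem (hg i j) (one_entry_integral915 v i j)
    · rw [finComp_inv915, Matrix.sub_apply]
      exact sub_mem (hg' i j) (one_entry_integral915 v i j)
  have hκ : A0.finComp v m ∈ L.Tlev v := by
    rw [hG.tlev]
    refine ⟨inTorL_of_inTorus915 L v hadm.1, finComp_det_ne_zero915 v m, hm, ?_⟩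
    rw [finComp_inv915]
    exact hm'
  have hdet : (A0.finComp v g).det = (A0.finComp v m).det := by
    rw [finComp_det915, finComp_det915, hadm.2]
  have h := hF.right_inv _ _ hk hκ hdet 1 1 ζ (admL_one915 _ _)
  rw [one_mul, one_mul] at h
  rw [h, hG.std]
  unfold stdFn
  rw [if_pos hζ]

/-- The product over the finite places is a finite product. -/
theorem hasFiniteMulSupport915 (L : WData K) (hgood : L.IsGood) (hlev : L.π.level ≠ ⊥)
    (g m : A0.G K) (hadm : Adm L.t L.n g m) (ξ : A0.Adl K × A0.Adl K) :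
    (Function.mulSupport (fun v : HeightOneSpectrum (𝓞 K) =>
      L.Ffin v (A0.finComp v g) (A0.finComp v m) (finVec v ξ))).Finite := by
  have hev : ∀ᶠ v : HeightOneSpectrum (𝓞 K) in Filter.cofinite,
      L.Ffin v (A0.finComp v g) (A0.finComp v m) (finVec v ξ) = 1 := by
    have h0 : ∀ᶠ v : HeightOneSpectrum (𝓞 K) in Filter.cofinite, ¬ v.asIdeal ∣ L.π.level := by
      rw [Filter.eventually_cofinite]
      simp only [not_not]
      exact Ideal.finite_factors hlev
    filter_upwards [h0, eventually_finComp_integral915 g, eventually_finComp_integral915 g⁻¹,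
      eventually_finComp_integral915 m, eventually_finComp_integral915 m⁻¹,
      eventually_entry_integral915 ξ.1, eventually_entry_integral915 ξ.2]
      with v hv hg hg' hm hm' hξ1 hξ2
    exact factor_eq_one915 L hgood v hv g m hadm hg hg' hm hm' _ ⟨hξ1, hξ2⟩
  exact Filter.eventually_cofinite.mp hev

/-! ## The two fields -/

theorem good_std915 (L : WData K) (hgood : L.IsGood) (v : HeightOneSpectrum (𝓞 K))
    (hv : ¬ v.asIdeal ∣ L.π.level) (g m : A0.G K) (hadm : Adm L.t L.n g m)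
    (hg : A0.TrivAtFin v g) (hm : A0.TrivAtFin v m) :
    (∀ ξ : A0.Adl K × A0.Adl K, ¬ WL.VecIntegralAt v ξ → L.F g m ξ = 0) ∧
      ∀ ξ ξ' : A0.Adl K × A0.Adl K, WL.AgreeOffFin v ξ ξ' → WL.VecIntegralAt v ξ →
        WL.VecIntegralAt v ξ' → L.F g m ξ = L.F g m ξ' := by
  have hg1 : A0.finComp v g = 1 := hg
  have hm1 : A0.finComp v m = 1 := hm
  have hstd := (hgood.good v hv).std
  refine ⟨fun ξ hξ => ?_, fun ξ ξ' hagree hξ hξ' => ?_⟩
  · have hlev : L.π.level ≠ ⊥ := by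
      intro h
      apply hv
      rw [h]
      exact dvd_zero _
    have hfin := hasFiniteMulSupport915 L hgood hlev g m hadm ξ
    have hz : L.Ffin v (A0.finComp v g) (A0.finComp v m) (finVec v ξ) = 0 := by
      rw [hg1, hm1, hstd]
      unfold stdFn
      rw [if_neg]
      exact hξ
    show prodFn _ _ ξ = 0
    unfold prodFn
    rw [finprod_eq_zero _ v hz hfin, mul_zero]
  · have hinf : ∀ u : InfinitePlace K, infVec u ξ = infVec u ξ' := fun u =>
      Prod.ext (hagree.1 u).1 (hagree.1 u).2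
    have hfin : ∀ v' : HeightOneSpectrum (𝓞 K),
        L.Ffin v' (A0.finComp v' g) (A0.finComp v' m) (finVec v' ξ)
          = L.Ffin v' (A0.finComp v' g) (A0.finComp v' m) (finVec v' ξ') := by
      intro v'
      by_cases h : v' = v
      · subst h
        rw [hg1, hm1, hstd]
        unfold stdFn
        rw [if_pos, if_pos]
        · exact hξ'
        · exact hξ
      · have h2 : finVec v' ξ = finVec v' ξ' := Prod.ext (hagree.2 v' h).1 (hagree.2 v' h).2
        rw [h2]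
    show prodFn _ _ ξ = prodFn _ _ ξ'
    unfold prodFn
    simp only [hinf, hfin]

theorem cpx915 (L : WData K) (hgood : L.IsGood) (u : InfinitePlace K) :
    ∃ c : ℂ, c ≠ 0 ∧
    (∀ x : A0.Adl K, WL.AdlAtInf u x → L.ψ x = Complex.exp (4 * Real.pi * Complex.I *
        (((c * InfinitePlace.Completion.extensionEmbedding u (x.1 u)).re : ℝ) : ℂ))) ∧
    ∀ ω₁ ω₂ : ℂ, ω₁ + ω₂ = u.embedding L.t → ω₁ * ω₂ = u.embedding L.n →
      ∀ g m : A0.G K, Adm L.t L.n g m → A0.TrivAtInf u g → A0.TrivAtInf u m →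
        ∀ ξ ξ' : A0.Adl K × A0.Adl K, WL.AgreeOffInf u ξ ξ' →
          L.F g m ξ * WL.gauss u c ω₁ ω₂ ξ' = L.F g m ξ' * WL.gauss u c ω₁ ω₂ ξ := by
  classical
  obtain ⟨c, hc, hψ, hG⟩ := (hgood.cpx u).gauss
  refine ⟨c, hc, fun x hx => ?_, ?_⟩
  · rw [(hgood.cpx u).psi x hx]
    exact hψ (x.1 u)
  · intro ω₁ ω₂ h1 h2 g m _ hg hm ξ ξ' hξ
    have hg1 : infMat u g = 1 := Matrix.ext fun i j => hg i j
    have hm1 : infMat u m = 1 := Matrix.ext fun i j => hm i j
    have hfin : ∀ v : HeightOneSpectrum (𝓞 K),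
        L.Ffin v (A0.finComp v g) (A0.finComp v m) (finVec v ξ)
          = L.Ffin v (A0.finComp v g) (A0.finComp v m) (finVec v ξ') := by
      intro v
      have h3 : finVec v ξ = finVec v ξ' := Prod.ext (hξ.2 v).1 (hξ.2 v).2
      rw [h3]
    have hu : ∀ ζ : A0.Adl K × A0.Adl K,
        L.Finf u (infMat u g) (infMat u m) (infVec u ζ) = WL.gauss u c ω₁ ω₂ ζ := by
      intro ζ
      rw [hg1, hm1, hG ω₁ ω₂ h1 h2]
      rfl
    have hrest : ∏ u' ∈ (Finset.univ.erase u),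
          L.Finf u' (infMat u' g) (infMat u' m) (infVec u' ξ)
        = ∏ u' ∈ (Finset.univ.erase u),
          L.Finf u' (infMat u' g) (infMat u' m) (infVec u' ξ') := by
      apply Finset.prod_congr rfl
      intro u' hu'
      have hne : u' ≠ u := Finset.ne_of_mem_erase hu'
      have h4 : infVec u' ξ = infVec u' ξ' := Prod.ext (hξ.1 u' hne).1 (hξ.1 u' hne).2
      rw [h4]
    have hF : ∀ ζ : A0.Adl K × A0.Adl K, L.F g m ζ
        = (WL.gauss u c ω₁ ω₂ ζ * ∏ u' ∈ (Finset.univ.erase u),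
            L.Finf u' (infMat u' g) (infMat u' m) (infVec u' ζ))
          * ∏ᶠ v : HeightOneSpectrum (𝓞 K),
            L.Ffin v (A0.finComp v g) (A0.finComp v m) (finVec v ζ) := by
      intro ζ
      rw [← hu ζ, Finset.mul_prod_erase Finset.univ
        (fun u' => L.Finf u' (infMat u' g) (infMat u' m) (infVec u' ζ)) (Finset.mem_univ u)]
      rfl
    rw [hF ξ, hF ξ', hrest]
    simp only [hfin]
    ring

/-! ## The leaf -/

/-- **A2.03.1.7 STD-LOC.** -/
theorem stdLocC915 : StdLocC := by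
  intro K _ _ L _ hgood
  exact
    { good_std := fun v hv g m hadm hg hm => good_std915 L hgood v hv g m hadm hg hm
      cpx := fun u _ => cpx915 L hgood u }

end Fermat.Agent.LT.A2.H915

end

end
-- ===== PACK-END LT/A2/H915/StdLoc.lean

-- ===== PACK-BEGIN LT/CFT/H1/StepA.lean
section













/-!
# Row LT, tower CFT, sub-tower REC2 (helper1), OFF-MAIN : sub-leaf SA2 = STEP A' (PROVED)

`stepA2 : StepA2Spec`, i.e. `LocalCycloNormSharpSpec → NormPosSpec → ∀ I, CycloSumTCSpec I`.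

Copy of main `Fermat.Agent.S55.G.Rec.H511` (helper511: `unit_prod_eq_pm`, `exists_norm_approx`,
`key_above`, `cycloSum_of`) with the sign removed:
* `unit_prod_eq_of_pos` : `y > 0`, `y ≡ ℓ^K · P mod ℓ^(K+e)` ⟹ `∏_{q ≠ ℓ} q ^ v_q(y) = P` in
  `(ℤ/ℓ^e)ˣ` (no `±`);
* `chi_eq_one_of_mem_range_exact` : no hypothesis on the order of `χ`;
* `exists_norm_approxTC`, `key_aboveTC` : from the SHARP local norm leaf, every prime `ℓ`;
* `cycloSumTC_of` : STEP A' (uses `NormPosSpec` for `y = N_{K/ℚ}(a) > 0`).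
The places away from `ℓ` (`H511.key_away`) and all other leaves are imported from main, unchanged.
-/

set_option autoImplicit false
set_option linter.style.haveILetI false

noncomputable section

namespace Fermat.Agent.LT.CFT.H1

open Fermat.Agent.S55.G.Rec Fermat.Agent.S55.G.Rec.H511 groupCohomology

local notation "Qb" => AlgebraicClosure ℚ
local notation "GQ" => (AlgebraicClosure ℚ ≃ₐ[ℚ] AlgebraicClosure ℚ)

/-! ## Algebra -/

/-- A character `χ` which is trivial on `ker c` is trivial on every element whose `c`-value is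
`c κ`, `κ ∈ ker χ`.  (No hypothesis on the order of `χ`.) -/
theorem chi_eq_one_of_mem_range_exact {U C : Type*} [Group U] [CommGroup C] {n : ℕ}
    (c : U →* C) (χ : U →* Multiplicative (ZMod n)) (hcyc : ∀ σ, c σ = 1 → χ σ = 1)
    {t : C} {w : Multiplicative (ZMod n)} (hmem : (t, w) ∈ (c.prod χ).range)
    (κ : U) (hκ : χ κ = 1) (ht : t = c κ) : w = 1 := by
  obtain ⟨σ, hσ⟩ := hmem
  have h1 : c σ = t := congrArg Prod.fst hσ
  have h2 : χ σ = w := congrArg Prod.snd hσ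
  have h3 : c (σ * κ⁻¹) = 1 := by
    rw [map_mul, map_inv, h1, ht, mul_inv_cancel]
  have h4 := hcyc _ h3
  rw [map_mul, map_inv, h2, hκ, inv_one, mul_one] at h4
  exact h4

theorem unit_prod_eq_of_pos (ℓ : ℕ) [Fact ℓ.Prime] (e : ℕ) (y : ℚ) (hypos : 0 < y)
    (K : ℤ) (P : ℕ) (hP : ¬ ℓ ∣ P)
    (hest' : ‖(y : ℚ_[ℓ]) - (ℓ : ℚ_[ℓ]) ^ K * (P : ℚ_[ℓ])‖
      ≤ ‖(ℓ : ℚ_[ℓ])‖ ^ (K + e))
    (he : 0 < e)
    (u : ℕ → (ZMod (ℓ ^ e))ˣ) (T : Finset ℕ) (hT : ∀ q ∈ T, q.Prime ∧ q ≠ ℓ)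
    (hu : ∀ q ∈ T, ((u q : (ZMod (ℓ ^ e))ˣ) : ZMod (ℓ ^ e)) = (q : ZMod (ℓ ^ e)))
    (hsupp : ∀ q : ℕ, q.Prime → q ≠ ℓ → padicValRat q y ≠ 0 → q ∈ T)
    (uP : (ZMod (ℓ ^ e))ˣ) (huP : (uP : ZMod (ℓ ^ e)) = (P : ZMod (ℓ ^ e))) :
    ∏ q ∈ T, u q ^ padicValRat q y = uP := by
  have hℓ : ℓ.Prime := Fact.out
  have hy : y ≠ 0 := hypos.ne'
  obtain ⟨s, hs1⟩ : ∃ s : ℤˣ, s = 1 := ⟨1, rfl⟩
  have hest : ‖(y : ℚ_[ℓ]) - ((s : ℤ) : ℚ_[ℓ]) * (ℓ : ℚ_[ℓ]) ^ K * (P : ℚ_[ℓ])‖
      ≤ ‖(ℓ : ℚ_[ℓ])‖ ^ (K + e) := by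
    rw [hs1]
    simpa using hest'
  have hℓ0 : (ℓ : ℚ) ≠ 0 := Nat.cast_ne_zero.mpr hℓ.ne_zero
  have hℓ0' : (ℓ : ℚ_[ℓ]) ≠ 0 := Nat.cast_ne_zero.mpr hℓ.ne_zero
  have hs : ((s : ℤ) : ℚ) ≠ 0 := by
    rcases Int.units_eq_one_or s with h | h <;> simp [h]
  set w : ℚ := ((s : ℤ) : ℚ) * (ℓ : ℚ) ^ K with hw
  have hw0 : w ≠ 0 := mul_ne_zero hs (zpow_ne_zero _ hℓ0)
  set z : ℚ := y / w with hz
  have hz0 : z ≠ 0 := div_ne_zero hy hw0
  have hyz : y = w * z := by rw [hz]; field_simp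
  -- the estimate for `z`
  have hwcast : (w : ℚ_[ℓ]) = ((s : ℤ) : ℚ_[ℓ]) * (ℓ : ℚ_[ℓ]) ^ K := by
    rw [hw]; push_cast; rfl
  have hsnorm : ‖((s : ℤ) : ℚ_[ℓ])‖ = 1 := by
    rcases Int.units_eq_one_or s with h | h <;> simp [h]
  have hwnorm : ‖(w : ℚ_[ℓ])‖ = ‖(ℓ : ℚ_[ℓ])‖ ^ K := by
    rw [hwcast, norm_mul, hsnorm, one_mul, norm_zpow]
  have hℓnorm : 0 < ‖(ℓ : ℚ_[ℓ])‖ := norm_pos_iff.mpr hℓ0'
  have hzest : ‖(z : ℚ_[ℓ]) - (P : ℚ_[ℓ])‖ ≤ ‖(ℓ : ℚ_[ℓ])‖ ^ e := by
    have h1 : (y : ℚ_[ℓ]) - ((s : ℤ) : ℚ_[ℓ]) * (ℓ : ℚ_[ℓ]) ^ K * (P : ℚ_[ℓ]) =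
        (w : ℚ_[ℓ]) * ((z : ℚ_[ℓ]) - (P : ℚ_[ℓ])) := by
      rw [hyz, Rat.cast_mul, ← hwcast]; ring
    rw [h1, norm_mul, hwnorm, zpow_add₀ hℓnorm.ne', zpow_natCast] at hest
    exact le_of_mul_le_mul_left hest (zpow_pos hℓnorm K)
  -- numerator and denominator
  set a : ℤ := z.num with ha
  set b : ℕ := z.den with hb
  have hb0 : b ≠ 0 := z.den_ne_zero
  have ha0 : a ≠ 0 := Rat.num_ne_zero.mpr hz0
  have hzab : (z : ℚ_[ℓ]) = (a : ℚ_[ℓ]) / (b : ℚ_[ℓ]) := by
    conv_lhs => rw [← Rat.num_div_den z]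
    push_cast; rfl
  have hbℓ0 : (b : ℚ_[ℓ]) ≠ 0 := Nat.cast_ne_zero.mpr hb0
  have hdiv : ((ℓ ^ e : ℕ) : ℤ) ∣ a - (P : ℤ) * (b : ℤ) := by
    have h1 : ((a - (P : ℤ) * (b : ℤ) : ℤ) : ℚ_[ℓ]) =
        (b : ℚ_[ℓ]) * ((z : ℚ_[ℓ]) - (P : ℚ_[ℓ])) := by
      rw [hzab]; push_cast; field_simp
    have h2 : ‖((a - (P : ℤ) * (b : ℤ) : ℤ) : ℚ_[ℓ])‖ ≤ (ℓ : ℝ) ^ (-(e : ℤ)) := by
      rw [h1, norm_mul]
      have hb1 : ‖(b : ℚ_[ℓ])‖ ≤ 1 := by
        have := Padic.norm_int_le_one (p := ℓ) (b : ℤ)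
        simpa using this
      calc ‖(b : ℚ_[ℓ])‖ * ‖(z : ℚ_[ℓ]) - (P : ℚ_[ℓ])‖
          ≤ 1 * ‖(ℓ : ℚ_[ℓ])‖ ^ e :=
            mul_le_mul hb1 hzest (norm_nonneg _) zero_le_one
        _ = (ℓ : ℝ) ^ (-(e : ℤ)) := by
            rw [one_mul, Padic.norm_p, inv_pow, zpow_neg, zpow_natCast]
    have h3 := (Padic.norm_int_le_pow_iff_dvd (p := ℓ) (a - (P : ℤ) * (b : ℤ)) e).mp h2
    simpa using h3
  have hcop : Nat.Coprime a.natAbs b := z.reduced
  have hℓdvd : ((ℓ : ℕ) : ℤ) ∣ a - (P : ℤ) * (b : ℤ) := by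
    refine dvd_trans ?_ hdiv
    exact_mod_cast dvd_pow_self ℓ he.ne'
  have hℓb : ¬ ℓ ∣ b := by
    intro hbd
    have h1 : ((ℓ : ℕ) : ℤ) ∣ a := by
      have h2 : ((ℓ : ℕ) : ℤ) ∣ (P : ℤ) * (b : ℤ) :=
        Dvd.dvd.mul_left (Int.natCast_dvd_natCast.mpr hbd) _
      have := dvd_add hℓdvd h2
      simpa using this
    have h3 : ℓ ∣ a.natAbs := Int.natCast_dvd.mp h1
    have := Nat.eq_one_of_dvd_coprimes hcop h3 hbd
    exact hℓ.one_lt.ne' this
  have hℓa : ¬ ℓ ∣ a.natAbs := by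
    intro had
    have h1 : ((ℓ : ℕ) : ℤ) ∣ a := Int.natCast_dvd.mpr had
    have h2 : ((ℓ : ℕ) : ℤ) ∣ (P : ℤ) * (b : ℤ) := by
      have := dvd_sub h1 hℓdvd
      simpa using this
    have h3 : ℓ ∣ P * b := by exact_mod_cast h2
    rcases hℓ.dvd_mul.mp h3 with h | h
    · exact hP h
    · exact hℓb h
  set A : ℕ := a.natAbs with hA
  have hA0 : A ≠ 0 := Int.natAbs_ne_zero.mpr ha0
  -- valuations
  have hval : ∀ q ∈ T, padicValRat q y = (padicValNat q A : ℤ) - (padicValNat q b : ℤ) := by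
    intro q hq
    haveI : Fact q.Prime := ⟨(hT q hq).1⟩
    have hqℓ : ¬ q ∣ ℓ := fun h =>
      (hT q hq).2 ((Nat.prime_dvd_prime_iff_eq (hT q hq).1 hℓ).mp h)
    have h1 : padicValRat q w = 0 := by
      rw [hw, padicValRat.mul hs (zpow_ne_zero _ hℓ0), padicValRat.zpow, padicValRat.of_nat,
        padicValNat.eq_zero_of_not_dvd hqℓ]
      rcases Int.units_eq_one_or s with h | h
      · simp [h]
      · rw [h]
        have : (((-1 : ℤˣ) : ℤ) : ℚ) = -1 := by simp
        rw [this, padicValRat.neg, padicValRat.one]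
        simp
    rw [hyz, padicValRat.mul hw0 hz0, h1, zero_add]
    rfl
  have hprA : ∀ q, q.Prime → q ∣ A → q ∈ T := by
    intro q hq hqA
    haveI : Fact q.Prime := ⟨hq⟩
    have hqℓ : q ≠ ℓ := fun h => hℓa (h ▸ hqA)
    have hqb : ¬ q ∣ b := fun hqb =>
      hq.one_lt.ne' (Nat.eq_one_of_dvd_coprimes hcop hqA hqb)
    refine hsupp q hq hqℓ ?_
    have hqw : padicValRat q w = 0 := by
      have hqℓ' : ¬ q ∣ ℓ := fun h => hqℓ ((Nat.prime_dvd_prime_iff_eq hq hℓ).mp h)
      rw [hw, padicValRat.mul hs (zpow_ne_zero _ hℓ0), padicValRat.zpow, padicValRat.of_nat,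
        padicValNat.eq_zero_of_not_dvd hqℓ']
      rcases Int.units_eq_one_or s with h | h
      · simp [h]
      · rw [h]
        have : (((-1 : ℤˣ) : ℤ) : ℚ) = -1 := by simp
        rw [this, padicValRat.neg, padicValRat.one]
        simp
    rw [hyz, padicValRat.mul hw0 hz0, hqw, zero_add]
    show (padicValInt q z.num : ℤ) - (padicValNat q z.den : ℤ) ≠ 0
    have h1 : padicValNat q b = 0 := padicValNat.eq_zero_of_not_dvd hqb
    have h2 : 1 ≤ padicValNat q A := one_le_padicValNat_of_dvd hA0 hqA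
    have h3 : padicValInt q z.num = padicValNat q A := rfl
    rw [h3, ← hb, h1]
    omega
  have hprB : ∀ q, q.Prime → q ∣ b → q ∈ T := by
    intro q hq hqb
    haveI : Fact q.Prime := ⟨hq⟩
    have hqℓ : q ≠ ℓ := fun h => hℓb (h ▸ hqb)
    have hqA : ¬ q ∣ A := fun hqA =>
      hq.one_lt.ne' (Nat.eq_one_of_dvd_coprimes hcop hqA hqb)
    refine hsupp q hq hqℓ ?_
    have hqw : padicValRat q w = 0 := by
      have hqℓ' : ¬ q ∣ ℓ := fun h => hqℓ ((Nat.prime_dvd_prime_iff_eq hq hℓ).mp h)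
      rw [hw, padicValRat.mul hs (zpow_ne_zero _ hℓ0), padicValRat.zpow, padicValRat.of_nat,
        padicValNat.eq_zero_of_not_dvd hqℓ']
      rcases Int.units_eq_one_or s with h | h
      · simp [h]
      · rw [h]
        have : (((-1 : ℤˣ) : ℤ) : ℚ) = -1 := by simp
        rw [this, padicValRat.neg, padicValRat.one]
        simp
    rw [hyz, padicValRat.mul hw0 hz0, hqw, zero_add]
    show (padicValInt q z.num : ℤ) - (padicValNat q z.den : ℤ) ≠ 0
    have h1 : padicValNat q A = 0 := padicValNat.eq_zero_of_not_dvd hqA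
    have h2 : 1 ≤ padicValNat q b := one_le_padicValNat_of_dvd hb0 hqb
    have h3 : padicValInt q z.num = padicValNat q A := rfl
    rw [h3, ← hb, h1]
    omega
  -- the two unit products
  set UA : (ZMod (ℓ ^ e))ˣ := ∏ q ∈ T, u q ^ padicValNat q A with hUA
  set UB : (ZMod (ℓ ^ e))ˣ := ∏ q ∈ T, u q ^ padicValNat q b with hUB
  have hUAc : ((UA : (ZMod (ℓ ^ e))ˣ) : ZMod (ℓ ^ e)) = (A : ZMod (ℓ ^ e)) :=
    coe_prod_pow_padicValNat u T (fun q hq => (hT q hq).1) hu A hA0 hprA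
  have hUBc : ((UB : (ZMod (ℓ ^ e))ˣ) : ZMod (ℓ ^ e)) = (b : ZMod (ℓ ^ e)) :=
    coe_prod_pow_padicValNat u T (fun q hq => (hT q hq).1) hu b hb0 hprB
  have hprod : ∏ q ∈ T, u q ^ padicValRat q y = UA * UB⁻¹ := by
    rw [hUA, hUB, ← Finset.prod_inv_distrib, ← Finset.prod_mul_distrib]
    refine Finset.prod_congr rfl fun q hq => ?_
    rw [hval q hq, zpow_sub, zpow_natCast, zpow_natCast]
  have hcong : ((a : ℤ) : ZMod (ℓ ^ e)) = (P : ZMod (ℓ ^ e)) * (b : ZMod (ℓ ^ e)) := by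
    have h1 := (ZMod.intCast_zmod_eq_zero_iff_dvd (a - (P : ℤ) * (b : ℤ)) (ℓ ^ e)).mpr hdiv
    push_cast at h1
    exact sub_eq_zero.mp h1
  rw [hprod]
  have hwpos : 0 < w := by
    rw [hw, hs1]
    have : (0 : ℚ) < (ℓ : ℚ) ^ K := zpow_pos (Nat.cast_pos.mpr hℓ.pos) K
    simpa using this
  have hzpos : 0 < z := div_pos hypos hwpos
  have hapos : 0 < a := Rat.num_pos.mpr hzpos
  have h : a = (a.natAbs : ℤ) := (Int.natAbs_of_nonneg hapos.le).symm
  rw [mul_inv_eq_iff_eq_mul]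
  apply Units.ext
  rw [Units.val_mul, hUAc, hUBc, huP, ← hcong, hA]
  conv_rhs => rw [h]
  simp

/-! ## The places above `ℓ` -/

theorem exists_norm_approxTC (hK1 : CupLocSpec) (hK5 : LocalNormSpec)
    (hL5 : LocalCycloNormSharpSpec)
    (U : Subgroup GQ) (hU : IsOpenQ U) (ℓ : ℕ) [Fact ℓ.Prime] (e : ℕ) (he : 0 < e)
    [NeZero (ℓ ^ e)]
    (n : ℕ) [NeZero n] (χ : ↥U →* Multiplicative (ZMod n)) (hχ : IsLevelConstant₁ U.subtype χ)
    (a : Qbˣ) (ha : GFixed U a) (r : GQ)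
    (hloc : locBr ℓ r U (gcc U n χ a) = 0) :
    ∃ (k : ℤ) (t : ℕ) (κ : ↥U), χ κ = 1 ∧
      ((cyc (ℓ ^ e) (κ : GQ) : (ZMod (ℓ ^ e))ˣ) : ZMod (ℓ ^ e)) = (t : ZMod (ℓ ^ e)) ∧
      ‖((relNorm (locSub ℓ r U) (locPushMul ℓ r a) : (PadicAlgCl ℓ)ˣ) : PadicAlgCl ℓ) -
          (ℓ : PadicAlgCl ℓ) ^ k * (t : PadicAlgCl ℓ)‖
        ≤ ‖(ℓ : PadicAlgCl ℓ)‖ ^ (k + e) := by
  classical
  obtain ⟨⟨hχr, har⟩, hK1eq⟩ := hK1 ℓ r U n χ a (NeZero.ne n) hχ ha
  rw [hK1eq] at hloc
  have hV : IsOpenL ℓ (locSub ℓ r U) := isOpenL_locSub ℓ r U hU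
  obtain ⟨b, hb, hab⟩ := hK5 ℓ (locSub ℓ r U) hV n (χ.comp (locHom ℓ r U)) hχr
    (locPushMul ℓ r a) har hloc
  set V := locSub ℓ r U with hVdef
  set χr := χ.comp (locHom ℓ r U) with hχrdef
  set H' : Subgroup (PadicAlgCl ℓ ≃ₐ[ℚ_[ℓ]] PadicAlgCl ℓ) := χr.ker.map V.subtype with hH'
  set Cker : Subgroup (ZMod (ℓ ^ e))ˣ := χ.ker.map ((cyc (ℓ ^ e)).comp U.subtype) with hCker
  set W : Subgroup (PadicAlgCl ℓ ≃ₐ[ℚ_[ℓ]] PadicAlgCl ℓ) :=
    Cker.comap ((cyc (ℓ ^ e)).comp (localGaloisToGlobal ℓ)) with hW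
  have hH'V : H' ≤ V := Subgroup.map_subtype_le _
  have hH'W : H' ≤ W := by
    rintro τ' ⟨τ, hτ, rfl⟩
    show cyc (ℓ ^ e) (localGaloisToGlobal ℓ (τ : PadicAlgCl ℓ ≃ₐ[ℚ_[ℓ]] PadicAlgCl ℓ)) ∈ Cker
    refine ⟨locHom ℓ r U τ, hτ, ?_⟩
    show cyc (ℓ ^ e) ((locHom ℓ r U τ : ↥U) : GQ) = _
    rw [locHom_coe, cyc_conj]
  -- finiteness
  haveI hfinV : Finite ((PadicAlgCl ℓ ≃ₐ[ℚ_[ℓ]] PadicAlgCl ℓ) ⧸ V) :=
    finite_quotient_of_isOpenL ℓ V hV
  have hidx : H'.index ≠ 0 := by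
    rw [hH', Subgroup.index_map_subtype]
    refine mul_ne_zero ?_ (index_ne_zero_of_isOpenL ℓ V hV)
    rw [Subgroup.index_ker]
    exact Nat.card_pos.ne'
  haveI : H'.FiniteIndex := ⟨hidx⟩
  haveI hfinH' : Finite ((PadicAlgCl ℓ ≃ₐ[ℚ_[ℓ]] PadicAlgCl ℓ) ⧸ H') :=
    Subgroup.finite_quotient_of_finiteIndex
  have hb' : ∀ h ∈ H', h • b = b := hb
  -- norm from `L_w` to `ℚ_ℓ` through `K_v`
  have hsub : H'.subgroupOf V = χr.ker :=
    Subgroup.comap_map_eq_self_of_injective (Subgroup.subtype_injective V) χr.ker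
  have h1 : relNorm V (locPushMul ℓ r a) = relNorm H' b := by
    rw [hab, ← hsub]
    exact relNorm_trans hH'V hb'
  -- norm from `L_w` to `ℚ_ℓ` through `E`
  set b' : (PadicAlgCl ℓ)ˣ := relNorm (G := ↥W) (H'.subgroupOf W) b with hb'def
  have h2 : relNorm W b' = relNorm H' b := relNorm_trans hH'W hb'
  haveI : Finite (↥W ⧸ H'.subgroupOf W) := finite_quotient_subgroupOf hH'W
  have hfix : LFixed ℓ W b' := by
    intro τ hτ
    have hbW : ∀ h ∈ H'.subgroupOf W, h • b = b := fun h hh => hb' (h : _) hh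
    exact smul_relNorm (G := ↥W) (M := (PadicAlgCl ℓ)ˣ) (H'.subgroupOf W) hbW ⟨τ, hτ⟩
  have hZW : ∀ τ : PadicAlgCl ℓ ≃ₐ[ℚ_[ℓ]] PadicAlgCl ℓ,
      (∀ ζ : PadicAlgCl ℓ, ζ ^ (ℓ ^ e) = 1 → τ ζ = ζ) → τ ∈ W := by
    intro τ hτ
    show cyc (ℓ ^ e) (localGaloisToGlobal ℓ τ) ∈ Cker
    rw [cyc_loc_eq_one ℓ (ℓ ^ e) τ hτ]
    exact one_mem _
  obtain ⟨k, t, τ, hτW, hτt, hest⟩ := hL5 ℓ e he W hZW b' hfix
  obtain ⟨κ, hκ, hκτ⟩ := hτW
  refine ⟨k, t, κ, hκ, ?_, ?_⟩
  · have h3 : cyc (ℓ ^ e) (κ : GQ) = cyc (ℓ ^ e) (localGaloisToGlobal ℓ τ) := hκτ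
    rw [h3]
    exact cyc_loc_coe ℓ (ℓ ^ e) t τ hτt
  · rw [h1, ← h2]
    exact hest

theorem key_aboveTC (hK1 : CupLocSpec) (hK5 : LocalNormSpec) (hL5 : LocalCycloNormSharpSpec)
    (hG1 : OrbitNormSpec)
    (U : Subgroup GQ) (hU : IsOpenQ U) (ℓ : ℕ) [Fact ℓ.Prime] (e : ℕ) (he : 0 < e)
    [NeZero (ℓ ^ e)]
    (n : ℕ) [NeZero n] (χ : ↥U →* Multiplicative (ZMod n)) (hχ : IsLevelConstant₁ U.subtype χ)
    (a : Qbˣ) (ha : GFixed U a)
    (hloc : ∀ r : GQ, locBr ℓ r U (gcc U n χ a) = 0)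
    (Rℓ : Finset GQ) (hRℓ : IsDoubleCosetReps U (localGaloisToGlobal ℓ).range Rℓ)
    (y : ℚˣ) (hy : ((relNorm U a : Qbˣ) : Qb) = algebraMap ℚ Qb (y : ℚ)) :
    ∃ (K : ℤ) (P : ℕ) (κ : ↥U), χ κ = 1 ∧
      ((cyc (ℓ ^ e) (κ : GQ) : (ZMod (ℓ ^ e))ˣ) : ZMod (ℓ ^ e)) = (P : ZMod (ℓ ^ e)) ∧
      ‖((y : ℚ) : ℚ_[ℓ]) - (ℓ : ℚ_[ℓ]) ^ K * (P : ℚ_[ℓ])‖
        ≤ ‖(ℓ : ℚ_[ℓ])‖ ^ (K + e) := by
  classical
  have hℓ : ℓ.Prime := Fact.out
  choose k t κ hκ hκt hest using fun r : GQ =>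
    exists_norm_approxTC hK1 hK5 hL5 U hU ℓ e he n χ hχ a ha r (hloc r)
  -- the product of the `κ r`
  set c : ↥U →* (ZMod (ℓ ^ e))ˣ := (cyc (ℓ ^ e)).comp U.subtype with hc
  have hmem : ∏ r ∈ Rℓ, c (κ r) ∈ χ.ker.map c :=
    Subgroup.prod_mem _ fun r _ => Subgroup.mem_map_of_mem c (MonoidHom.mem_ker.mpr (hκ r))
  obtain ⟨κ₀, hκ₀, hκ₀c⟩ := hmem
  have hcoe : ∀ r, ((c (κ r) : (ZMod (ℓ ^ e))ˣ) : ZMod (ℓ ^ e)) = (t r : ZMod (ℓ ^ e)) := hκt
  have htcop : ∀ r, Nat.Coprime ℓ (t r) := by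
    intro r
    have h1 : IsUnit ((t r : ℕ) : ZMod (ℓ ^ e)) := by
      rw [← hcoe r]; exact Units.isUnit _
    have h2 : Nat.Coprime (t r) (ℓ ^ e) := (ZMod.isUnit_iff_coprime _ _).mp h1
    exact ((Nat.coprime_pow_right_iff he _ _).mp h2).symm
  have hℓ0 : (ℓ : PadicAlgCl ℓ) ≠ 0 := Nat.cast_ne_zero.mpr hℓ.ne_zero
  have hnormℓ : ‖(ℓ : PadicAlgCl ℓ)‖ = ‖(ℓ : ℚ_[ℓ])‖ := by
    rw [← PadicAlgCl.norm_extends, map_natCast]
  have hnormℓ_pos : 0 < ‖(ℓ : PadicAlgCl ℓ)‖ := norm_pos_iff.mpr hℓ0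
  have hnormℓ_le : ‖(ℓ : PadicAlgCl ℓ)‖ ≤ 1 := by
    rw [hnormℓ]; exact (Padic.norm_p_lt_one).le
  have hnormt : ∀ r, ‖(t r : PadicAlgCl ℓ)‖ = 1 := by
    intro r
    have h1 : ‖((t r : ℕ) : ℚ_[ℓ])‖ = 1 := Padic.norm_natCast_eq_one_iff.mpr (htcop r)
    rw [← h1, ← PadicAlgCl.norm_extends, map_natCast]
  -- the product estimate
  set xs : GQ → PadicAlgCl ℓ := fun r =>
    ((relNorm (locSub ℓ r U) (locPushMul ℓ r a) : (PadicAlgCl ℓ)ˣ) : PadicAlgCl ℓ) with hxs
  set ys : GQ → PadicAlgCl ℓ := fun r =>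
    (ℓ : PadicAlgCl ℓ) ^ (k r) * (t r : PadicAlgCl ℓ) with hys
  have hysnorm : ∀ r, ‖ys r‖ = ‖(ℓ : PadicAlgCl ℓ)‖ ^ (k r) := by
    intro r
    simp only [hys, norm_mul, hnormt r, mul_one, norm_zpow]
  have hε : ∀ r ∈ Rℓ, ‖xs r - ys r‖ ≤ ‖(ℓ : PadicAlgCl ℓ)‖ ^ e * ‖ys r‖ := by
    intro r _
    rw [hysnorm r, ← zpow_natCast, ← zpow_add₀ hnormℓ_pos.ne', add_comm]
    exact hest r
  have hprodest := (norm_prod_sub_prod_le Rℓ xs ys (‖(ℓ : PadicAlgCl ℓ)‖ ^ e)
    (pow_nonneg (norm_nonneg _) e) (pow_le_one₀ (norm_nonneg _) hnormℓ_le) hε).2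
  -- the product of the `xs`
  have hxprod : ∏ r ∈ Rℓ, xs r = algebraMap ℚ_[ℓ] (PadicAlgCl ℓ) ((y : ℚ) : ℚ_[ℓ]) := by
    have h1 := (hG1 U hU a ha).2 ℓ Rℓ hRℓ
    have h2 : ∏ r ∈ Rℓ, xs r = ((locPushMul ℓ 1 (relNorm U a) : (PadicAlgCl ℓ)ˣ) : PadicAlgCl ℓ) := by
      rw [h1, Units.coe_prod]
    rw [h2, locPushMul_coe, inv_one, AlgEquiv.one_apply, hy, AlgHom.commutes, map_ratCast,
      eq_ratCast]
  -- the product of the `ys`
  set K : ℤ := ∑ r ∈ Rℓ, k r with hK
  set P : ℕ := ∏ r ∈ Rℓ, t r with hP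
  have hyprod : ∏ r ∈ Rℓ, ys r = algebraMap ℚ_[ℓ] (PadicAlgCl ℓ)
      ((ℓ : ℚ_[ℓ]) ^ K * (P : ℚ_[ℓ])) := by
    simp only [hys, Finset.prod_mul_distrib]
    rw [prod_zpow_const₀ Rℓ hℓ0, map_mul, map_zpow₀, map_natCast, map_natCast,
      hP, Nat.cast_prod]
  have hynorm : ∏ r ∈ Rℓ, ‖ys r‖ = ‖(ℓ : PadicAlgCl ℓ)‖ ^ K := by
    simp_rw [hysnorm]
    exact prod_zpow_const₀ Rℓ hnormℓ_pos.ne' _
  refine ⟨K, P, κ₀, MonoidHom.mem_ker.mp hκ₀, ?_, ?_⟩
  · show ((c κ₀ : (ZMod (ℓ ^ e))ˣ) : ZMod (ℓ ^ e)) = _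
    rw [hκ₀c, Units.coe_prod, hP, Nat.cast_prod]
    exact Finset.prod_congr rfl fun r _ => hcoe r
  · rw [hxprod, hyprod, ← map_sub, hynorm] at hprodest
    have h3 := hprodest
    rw [show ‖algebraMap ℚ_[ℓ] (PadicAlgCl ℓ) (((y : ℚ) : ℚ_[ℓ]) -
        (ℓ : ℚ_[ℓ]) ^ K * (P : ℚ_[ℓ]))‖ = ‖((y : ℚ) : ℚ_[ℓ]) -
        (ℓ : ℚ_[ℓ]) ^ K * (P : ℚ_[ℓ])‖ from PadicAlgCl.norm_extends _ _,
      hnormℓ, ← zpow_natCast, ← zpow_add₀ (norm_pos_iff.mpr (Nat.cast_ne_zero.mpr hℓ.ne_zero)).ne',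
      add_comm] at h3
    exact h3

/-! ## STEP A' -/

/-- **STEP A'** of the norm route over totally complex fields, from the leaves. -/
theorem cycloSumTC_of (hK1 : CupLocSpec) (hK5 : LocalNormSpec) (hL2 : LocalStructureSpec)
    (hL4 : CycloFrobSpec) (hL5 : LocalCycloNormSharpSpec) (hG1 : OrbitNormSpec)
    (hG1b : ProductFormulaSpec) (hG6 : NormPosSpec) (hG4 : SupportFiniteSpec)
    (I : LocalInvSystem) (hL3 : UnramCupSpec I) : CycloSumTCSpec I := by
  classical
  intro U hU hTC ℓ _ e he n hn χ hχ hcyc a ha hloc R hR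
  have hℓ : ℓ.Prime := Fact.out
  haveI : NeZero (ℓ ^ e) := ⟨pow_ne_zero e hℓ.ne_zero⟩
  haveI : NeZero n := ⟨hn⟩
  obtain ⟨y, hy⟩ := (hG1 U hU a ha).1
  set ℓp : Nat.Primes := ⟨ℓ, hℓ⟩ with hℓp
  -- data away from `ℓ`
  choose σ k hσk using fun (p : Nat.Primes × GQ) =>
    key_away hK1 hL2 hL4 I hL3 U hU (ℓ ^ e) n χ hχ hcyc a ha p.1 p.2
  -- data above `ℓ`
  obtain ⟨K, P, κ, hκ, hκP, hest⟩ := key_aboveTC hK1 hK5 hL5 hG1 U hU ℓ e he n χ hχ a ha
    hloc (R ℓp) (hR ℓp) y hy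
  have hypos : 0 < (y : ℚ) := hG6 U hU hTC a ha y hy
  have hcop : ∀ q : Nat.Primes, q ≠ ℓp → Nat.Coprime (q : ℕ) (ℓ ^ e) := by
    intro q hq
    apply Nat.Coprime.pow_right
    exact (Nat.coprime_primes q.2 hℓ).mpr (fun h => hq (Subtype.ext h))
  -- the finite sets of primes
  have hfin := hG4 I U hU (gcc U n χ a)
  set Sy : Finset Nat.Primes :=
    Finset.subtype Nat.Prime ((y : ℚ).num.natAbs * (y : ℚ).den).primeFactors with hSy
  set S0 : Finset Nat.Primes := hfin.toFinset ∪ Sy with hS0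
  set S' : Finset Nat.Primes := S0.erase ℓp with hS'
  have hsupp : Function.support
      (fun q : Nat.Primes => ∑ r ∈ R q, I.invAt q r U (gcc U n χ a)) ⊆ ↑S0 := by
    intro q hq
    rw [Function.mem_support] at hq
    obtain ⟨r, hr, hne⟩ := Finset.exists_ne_zero_of_sum_ne_zero hq
    rw [Finset.mem_coe, hS0, Finset.mem_union]
    left
    rw [Set.Finite.mem_toFinset]
    refine ⟨r, fun h0 => hne ?_⟩
    unfold LocalInvSystem.invAt
    rw [h0, map_zero]
  show I.sumInv U R (gcc U n χ a) = 0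
  unfold LocalInvSystem.sumInv
  rw [finsum_eq_sum_of_support_subset _ hsupp]
  have hℓterm : ∑ r ∈ R ℓp, I.invAt ℓp r U (gcc U n χ a) = 0 := by
    refine Finset.sum_eq_zero fun r _ => ?_
    unfold LocalInvSystem.invAt
    have := hloc r
    rw [this, map_zero]
  rw [← Finset.sum_erase S0 hℓterm]
  have hterm : ∀ q ∈ S', ∀ r ∈ R q, I.invAt q r U (gcc U n χ a) =
      ((((k (q, r) : ℚ) * ((chiAdd χ (σ (q, r))).val : ℚ) / (n : ℚ) : ℚ)) :
        AddCircle (1 : ℚ)) := by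
    intro q hq r _
    exact (hσk (q, r) (hcop q (Finset.ne_of_mem_erase hq))).1
  rw [Finset.sum_congr rfl (fun q hq => Finset.sum_congr rfl (hterm q hq))]
  rw [Finset.sum_sigma' S' R (fun q r =>
    ((((k (q, r) : ℚ) * ((chiAdd χ (σ (q, r))).val : ℚ) / (n : ℚ) : ℚ)) : AddCircle (1 : ℚ)))]
  refine addCircle_sum_eq_zero (S'.sigma R) n (fun p => k (p.1, p.2))
    (fun p => chiAdd χ (σ (p.1, p.2))) ?_
  -- the group-theoretic heart
  set c : ↥U →* (ZMod (ℓ ^ e))ˣ := (cyc (ℓ ^ e)).comp U.subtype with hc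
  set θ : ↥U →* (ZMod (ℓ ^ e))ˣ × Multiplicative (ZMod n) := c.prod χ with hθ
  set tw : (ZMod (ℓ ^ e))ˣ × Multiplicative (ZMod n) :=
    ∏ p ∈ S'.sigma R, θ (σ (p.1, p.2)) ^ k (p.1, p.2) with htw
  have hmem : (tw.1, tw.2) ∈ θ.range :=
    Subgroup.prod_mem _ fun p _ => Subgroup.zpow_mem _ (MonoidHom.mem_range.mpr ⟨_, rfl⟩) _
  have htw2 : tw.2 = ∏ p ∈ S'.sigma R, χ (σ (p.1, p.2)) ^ k (p.1, p.2) := by
    rw [htw]
    rw [show (∏ p ∈ S'.sigma R, θ (σ (p.1, p.2)) ^ k (p.1, p.2)).2 =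
      MonoidHom.snd _ _ (∏ p ∈ S'.sigma R, θ (σ (p.1, p.2)) ^ k (p.1, p.2)) from rfl, map_prod]
    refine Finset.prod_congr rfl fun p _ => ?_
    rw [map_zpow]
    rfl
  have htw1 : tw.1 = ∏ q ∈ S', uq (ℓ ^ e) (q : ℕ) ^ padicValRat (q : ℕ) (y : ℚ) := by
    rw [htw]
    rw [show (∏ p ∈ S'.sigma R, θ (σ (p.1, p.2)) ^ k (p.1, p.2)).1 =
      MonoidHom.fst _ _ (∏ p ∈ S'.sigma R, θ (σ (p.1, p.2)) ^ k (p.1, p.2)) from rfl, map_prod]
    rw [← Finset.prod_sigma' S' R (fun q r =>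
      (MonoidHom.fst _ _) (θ (σ (q, r)) ^ k (q, r)))]
    refine Finset.prod_congr rfl fun q hq => ?_
    have h1 : ∀ r ∈ R q, (MonoidHom.fst _ _) (θ (σ (q, r)) ^ k (q, r)) =
        uq (ℓ ^ e) (q : ℕ) ^ vdAt U a q r := by
      intro r _
      rw [map_zpow]
      exact (hσk (q, r) (hcop q (Finset.ne_of_mem_erase hq))).2
    rw [Finset.prod_congr rfl h1, prod_zpow_const]
    congr 1
    haveI : Fact (q : ℕ).Prime := ⟨q.2⟩
    exact (hG1b U hU a ha y hy (q : ℕ) (R q) (hR q)).symm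
  -- the congruence
  have hPunit : IsUnit ((P : ℕ) : ZMod (ℓ ^ e)) := by
    rw [← hκP]; exact Units.isUnit _
  have hPℓ : ¬ ℓ ∣ P := by
    have h2 : Nat.Coprime P (ℓ ^ e) := (ZMod.isUnit_iff_coprime _ _).mp hPunit
    have h3 : Nat.Coprime P ℓ := (Nat.coprime_pow_right_iff he _ _).mp h2
    exact fun h => hℓ.one_lt.ne' (Nat.eq_one_of_dvd_coprimes h3 h (dvd_refl ℓ))
  have hy0 : (y : ℚ) ≠ 0 := y.ne_zero
  let emb : Nat.Primes ↪ ℕ := ⟨fun q => (q : ℕ), fun a b h => Subtype.ext h⟩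
  set T : Finset ℕ := S'.map emb with hT
  have hTmem : ∀ q ∈ T, q.Prime ∧ q ≠ ℓ := by
    intro q hq
    obtain ⟨q', hq', rfl⟩ := Finset.mem_map.mp hq
    exact ⟨q'.2, fun h => (Finset.ne_of_mem_erase hq') (Subtype.ext h)⟩
  have hTu : ∀ q ∈ T, ((uq (ℓ ^ e) q : (ZMod (ℓ ^ e))ˣ) : ZMod (ℓ ^ e)) = (q : ZMod (ℓ ^ e)) := by
    intro q hq
    obtain ⟨q', hq', rfl⟩ := Finset.mem_map.mp hq
    exact uq_coe (hcop q' (Finset.ne_of_mem_erase hq'))
  have hTsupp : ∀ q : ℕ, q.Prime → q ≠ ℓ → padicValRat q (y : ℚ) ≠ 0 → q ∈ T := by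
    intro q hq hqℓ hval
    haveI : Fact q.Prime := ⟨hq⟩
    refine Finset.mem_map.mpr ⟨(⟨q, hq⟩ : Nat.Primes), ?_, rfl⟩
    refine Finset.mem_erase.mpr ⟨fun h => hqℓ (congrArg Subtype.val h), ?_⟩
    refine Finset.mem_union.mpr (Or.inr ?_)
    refine Finset.mem_subtype.mpr ?_
    show q ∈ ((y : ℚ).num.natAbs * (y : ℚ).den).primeFactors
    have hnum : (y : ℚ).num.natAbs ≠ 0 := Int.natAbs_ne_zero.mpr (Rat.num_ne_zero.mpr hy0)
    have hden : (y : ℚ).den ≠ 0 := (y : ℚ).den_ne_zero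
    rw [Nat.mem_primeFactors]
    refine ⟨hq, ?_, mul_ne_zero hnum hden⟩
    by_contra hnd
    have h1 : ¬ q ∣ (y : ℚ).num.natAbs := fun h => hnd (Dvd.dvd.mul_right h _)
    have h2 : ¬ q ∣ (y : ℚ).den := fun h => hnd (Dvd.dvd.mul_left h _)
    apply hval
    show (padicValInt q (y : ℚ).num : ℤ) - (padicValNat q (y : ℚ).den : ℤ) = 0
    have h3 : padicValInt q (y : ℚ).num = padicValNat q (y : ℚ).num.natAbs := rfl
    rw [h3, padicValNat.eq_zero_of_not_dvd h1, padicValNat.eq_zero_of_not_dvd h2]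
    simp
  have hpm := unit_prod_eq_of_pos ℓ e (y : ℚ) hypos K P hPℓ hest he (uq (ℓ ^ e)) T hTmem hTu hTsupp
    (c κ) hκP
  rw [hT, Finset.prod_map] at hpm
  have hpm' : tw.1 = c κ := by
    rw [htw1]
    exact hpm
  have hcyc' : ∀ τ : ↥U, c τ = 1 → χ τ = 1 := fun τ h =>
    hcyc τ (fun ζ hζ => fixes_of_cyc_eq_one (ℓ ^ e) _ h hζ)
  have hw : tw.2 = 1 := chi_eq_one_of_mem_range_exact c χ hcyc' hmem κ hκ hpm'
  rw [htw2] at hw
  have := congrArg Multiplicative.toAdd hw
  rw [toAdd_prod, toAdd_one] at this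
  rw [← this]
  refine Finset.sum_congr rfl fun p _ => ?_
  rw [toAdd_zpow]
  rfl

/-- **SA2**: STEP A' from the two new leaves (all other leaves are proved on main). -/
theorem stepA2 : StepA2Spec := fun hL5 hG6 I =>
  cycloSumTC_of H496.cupLoc H844.localNorm H931.localStructure H854.cycloFrob hL5
    H934.orbitNorm (H124.productFormula_of H934.orbitNorm VdegH707.vdegSpec) hG6
    H181.supportFinite I (H900.unramCup_of H931.localStructure H496.cupAdd I)

end Fermat.Agent.LT.CFT.H1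

end
end
-- ===== PACK-END LT/CFT/H1/StepA.lean

-- ===== PACK-BEGIN LT/T2/H386/Soft1E.lean
section










/-!
# Row LT, T2.03b (helper386): the iterated kernels are means of finite differences

OFF-MAIN.  `fdiff386 x vs ((1 - 𝔄_x) g) (h) = ν(D)⁻¹ ∫_D fdiff386 x (v :: vs) g (h) dν(v)`, hence a
bound for all finite differences of order `M` of `f` with steps in `D` is a bound for
`(1 - 𝔄_x)^M f`.
-/

set_option autoImplicit false
set_option linter.unusedSectionVars false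
set_option linter.style.haveILetI false

open IsDedekindDomain NumberField MeasureTheory
open scoped Pointwise
open Fermat.Agent.LT.H556.A0

noncomputable section

namespace Fermat.Agent.LT.T2.H386

open Fermat.Agent.LT.T2

attribute [local instance] Fermat.Agent.LT.T2.borelG

variable {K : Type} [Field K] [NumberField K]

attribute [local instance] borelAdl386 borelSpaceAdl386 borelSpaceG386

theorem norm_diff386_le (x : G K) (v : Adl K) {g : G K → ℂ} (C : ℝ) (hC : ∀ y, ‖g y‖ ≤ C)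
    (y : G K) : ‖diff386 x v g y‖ ≤ 2 * C := by
  calc ‖diff386 x v g y‖ ≤ ‖g y‖ + ‖g (conjUnip386 x (-v) * y)‖ := norm_sub_le _ _
    _ ≤ C + C := add_le_add (hC _) (hC _)
    _ = 2 * C := by ring

section

variable [LocallyCompactSpace (G K)] [SecondCountableTopology (G K)] [T2Space (G K)]
  [LocallyCompactSpace (Adl K)] [SecondCountableTopology (Adl K)] [T2Space (Adl K)]

/-- Integrability of `v ↦ Φ v` on `D` for a bounded continuous `Φ`. -/
theorem integrableOn_of_bound386 (ν : Measure (Adl K)) (D : Set (Adl K)) (hDtop : ν D ≠ ⊤)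
    {Φ : Adl K → ℂ} (hΦ : Continuous Φ) (C : ℝ) (hC : ∀ v, ‖Φ v‖ ≤ C) :
    IntegrableOn Φ D ν := by
  haveI : IsFiniteMeasure (ν.restrict D) := ⟨by
    rw [Measure.restrict_apply MeasurableSet.univ, Set.univ_inter]
    exact hDtop.lt_top⟩
  exact (integrable_const C).mono' hΦ.aestronglyMeasurable (Filter.Eventually.of_forall hC)

theorem continuous_conjArg386 (x : G K) (h : G K) {g : G K → ℂ} (hg : Continuous g) :
    Continuous fun v : Adl K => g (conjUnip386 x (-v) * h) :=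
  hg.comp (((continuous_conjUnip386 x).comp continuous_neg).mul continuous_const)

/-- The averaging operator commutes with the differences. -/
theorem avgOp386_diff (ν : Measure (Adl K)) (D : Set (Adl K)) (hDtop : ν D ≠ ⊤) (x : G K)
    (w : Adl K) {g : G K → ℂ} (hg : Continuous g) (C : ℝ) (hC : ∀ y, ‖g y‖ ≤ C) :
    avgOp386 ν D x (diff386 x w g) = diff386 x w (avgOp386 ν D x g) := by
  funext h
  show (((ν D).toReal : ℝ) : ℂ)⁻¹ * ∫ v in D, diff386 x w g (conjUnip386 x (-v) * h) ∂ν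
    = (((ν D).toReal : ℝ) : ℂ)⁻¹ * ∫ v in D, g (conjUnip386 x (-v) * h) ∂ν
      - (((ν D).toReal : ℝ) : ℂ)⁻¹ *
        ∫ v in D, g (conjUnip386 x (-v) * (conjUnip386 x (-w) * h)) ∂ν
  have e : ∀ v : Adl K, diff386 x w g (conjUnip386 x (-v) * h)
      = g (conjUnip386 x (-v) * h) - g (conjUnip386 x (-v) * (conjUnip386 x (-w) * h)) := by
    intro v
    show g (conjUnip386 x (-v) * h) - g (conjUnip386 x (-w) * (conjUnip386 x (-v) * h)) = _
    rw [← mul_assoc (conjUnip386 x (-w)), conjUnip386_comm x (-w) (-v), mul_assoc]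
  simp_rw [e]
  rw [integral_sub
    (integrableOn_of_bound386 ν D hDtop (continuous_conjArg386 x h hg) C (fun _ => hC _))
    (integrableOn_of_bound386 ν D hDtop (continuous_conjArg386 x _ hg) C (fun _ => hC _)),
    mul_sub]

/-- `Δ_w (1 - 𝔄) g = (1 - 𝔄) Δ_w g`. -/
theorem diff386_one_sub_avg (ν : Measure (Adl K)) (D : Set (Adl K)) (hDtop : ν D ≠ ⊤) (x : G K)
    (w : Adl K) {g : G K → ℂ} (hg : Continuous g) (C : ℝ) (hC : ∀ y, ‖g y‖ ≤ C) :
    diff386 x w (fun h => g h - avgOp386 ν D x g h)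
      = fun h => diff386 x w g h - avgOp386 ν D x (diff386 x w g) h := by
  rw [avgOp386_diff ν D hDtop x w hg C hC]
  funext h
  simp only [diff386]
  ring

/-- The finite differences of `(1 - 𝔄) g` are means of finite differences of `g`. -/
theorem fdiff386_one_sub_avg (ν : Measure (Adl K)) (D : Set (Adl K)) (hD0 : ν D ≠ 0)
    (hDtop : ν D ≠ ⊤) (x : G K) :
    ∀ (vs : List (Adl K)) (g : G K → ℂ), Continuous g → ∀ C : ℝ, (∀ y, ‖g y‖ ≤ C) →
      ∀ h : G K, fdiff386 x vs (fun h => g h - avgOp386 ν D x g h) h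
        = (((ν D).toReal : ℝ) : ℂ)⁻¹ * ∫ v in D, fdiff386 x (v :: vs) g h ∂ν := by
  have hne : (((ν D).toReal : ℝ) : ℂ) ≠ 0 := by
    have : (ν D).toReal ≠ 0 := ENNReal.toReal_ne_zero.mpr ⟨hD0, hDtop⟩
    exact_mod_cast this
  intro vs
  induction vs with
  | nil =>
    intro g hg C hC h
    show g h - (((ν D).toReal : ℝ) : ℂ)⁻¹ * ∫ v in D, g (conjUnip386 x (-v) * h) ∂ν
      = (((ν D).toReal : ℝ) : ℂ)⁻¹ * ∫ v in D, (g h - g (conjUnip386 x (-v) * h)) ∂ν
    haveI : IsFiniteMeasure (ν.restrict D) := ⟨by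
      rw [Measure.restrict_apply MeasurableSet.univ, Set.univ_inter]
      exact hDtop.lt_top⟩
    have h1 : ∫ v in D, (g h - g (conjUnip386 x (-v) * h)) ∂ν
        = (((ν D).toReal : ℝ) : ℂ) * g h - ∫ v in D, g (conjUnip386 x (-v) * h) ∂ν := by
      rw [integral_sub (integrable_const _)
        (integrableOn_of_bound386 ν D hDtop (continuous_conjArg386 x h hg) C (fun _ => hC _)),
        setIntegral_const]
      congr 1
    rw [h1, mul_sub, ← mul_assoc, inv_mul_cancel₀ hne, one_mul]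
  | cons w vs ih =>
    intro g hg C hC h
    show fdiff386 x vs (diff386 x w (fun h => g h - avgOp386 ν D x g h)) h = _
    rw [diff386_one_sub_avg ν D hDtop x w hg C hC,
      ih (diff386 x w g) (continuous_diff386 x w hg) (2 * C) (norm_diff386_le x w C hC) h]
    have hint : ∫ v in D, fdiff386 x (v :: vs) (diff386 x w g) h ∂ν
        = ∫ v in D, fdiff386 x (v :: w :: vs) g h ∂ν := by
      refine integral_congr_ae (Filter.Eventually.of_forall fun v => ?_)
      show fdiff386 x vs (diff386 x v (diff386 x w g)) h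
        = fdiff386 x vs (diff386 x w (diff386 x v g)) h
      rw [diff386_comm]
    rw [hint]

/-- One step: a bound for the differences of order `k + 1` of `g` is a bound for the differences
of order `k` of `(1 - 𝔄) g`. -/
theorem fdiff386_step_bound (ν : Measure (Adl K)) (D D' : Set (Adl K)) (hDD' : D ⊆ D')
    (hD0 : ν D ≠ 0) (hDtop : ν D ≠ ⊤) (x : G K) {g : G K → ℂ} (hg : Continuous g) (C : ℝ)
    (hC : ∀ y, ‖g y‖ ≤ C) (B : ℝ) (k : ℕ)
    (hB : ∀ vs : List (Adl K), vs.length = k + 1 → (∀ v ∈ vs, v ∈ D') →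
      ∀ h, ‖fdiff386 x vs g h‖ ≤ B)
    (vs : List (Adl K)) (hvs : vs.length = k) (hvsD : ∀ v ∈ vs, v ∈ D') (h : G K) :
    ‖fdiff386 x vs (fun h => g h - avgOp386 ν D x g h) h‖ ≤ B := by
  have hpos : 0 < (ν D).toReal := ENNReal.toReal_pos hD0 hDtop
  rw [fdiff386_one_sub_avg ν D hD0 hDtop x vs g hg C hC h]
  have h2 : ‖∫ v in D, fdiff386 x (v :: vs) g h ∂ν‖ ≤ B * (ν D).toReal := by
    refine norm_setIntegral_le_of_norm_le_const hDtop.lt_top (fun v hv => ?_)
    refine hB (v :: vs) (by simp [hvs]) ?_ h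
    intro u hu
    rcases List.mem_cons.mp hu with rfl | hu
    · exact hDD' hv
    · exact hvsD u hu
  rw [norm_mul, norm_inv, Complex.norm_real, Real.norm_of_nonneg hpos.le]
  calc (ν D).toReal⁻¹ * ‖∫ v in D, fdiff386 x (v :: vs) g h ∂ν‖
      ≤ (ν D).toReal⁻¹ * (B * (ν D).toReal) :=
        mul_le_mul_of_nonneg_left h2 (inv_nonneg.mpr hpos.le)
    _ = B := by field_simp

/-- A bound for the differences of order `M + k` of `f` is a bound for the differences of order
`k` of the kernel `(1 - 𝔄)^M f`. -/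
theorem fdiff386_ker_bound (ν : Measure (Adl K)) (D D' : Set (Adl K)) (hDD' : D ⊆ D')
    (hD0 : ν D ≠ 0) (hDtop : ν D ≠ ⊤) (hDc : IsCompact (closure D)) (x : G K)
    {f : G K → ℂ} (hf : Continuous f) (C : ℝ) (hC : ∀ y, ‖f y‖ ≤ C) (B : ℝ) :
    ∀ (M k : ℕ), (∀ vs : List (Adl K), vs.length = M + k → (∀ v ∈ vs, v ∈ D') →
        ∀ h, ‖fdiff386 x vs f h‖ ≤ B) →
      ∀ vs : List (Adl K), vs.length = k → (∀ v ∈ vs, v ∈ D') →
        ∀ h, ‖fdiff386 x vs (ker386 ν D x M f) h‖ ≤ B := by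
  intro M
  induction M with
  | zero =>
    intro k hB vs hvs hvsD h
    exact hB vs (by simpa using hvs) hvsD h
  | succ M ih =>
    intro k hB vs hvs hvsD h
    have hprops := ker386_props ν D hD0 hDtop hDc x hf C hC
      (W := Set.univ) (T := Set.univ) (fun _ _ => Set.mem_univ _) (fun _ _ => Set.mem_univ _) M
    have hstep := ih (k + 1) (fun vs hvs' hvsD' h => hB vs (by omega) hvsD' h)
    exact fdiff386_step_bound ν D D' hDD' hD0 hDtop x hprops.1 _ hprops.2.1 B k hstep vs hvs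
      hvsD h

end

end Fermat.Agent.LT.T2.H386

end

end
-- ===== PACK-END LT/T2/H386/Soft1E.lean

-- ===== PACK-BEGIN LT/T2/H868/CountB.lean
section




/-!
# Row LT, tower T2, sub-leaf T2.03c.1 `LeafCount`, part B (helper868): packing and shrinking

OFF-MAIN.  Vocabulary: `LT/H556/A0.lean` (66d3374a), `LT/T1/Spec.lean` (e8ae48d6), byte-identical.

* `packing868`: for `E ⊆ 𝔸_K` compact and `s₀ > 0` there is `C₂` with
  `#{q ∈ K : q ∈ σ E} ≤ C₂ · s ^ [K : ℚ]` for every ray idele `σ` of parameter `s ≥ s₀`.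
  Proof: the translates `q + W`, `W` the box of radius `1/4`, are pairwise disjoint (product
  formula), lie in `σ (E + W₁)`, `W₁` the box of radius `1 / (4 s₀)`, and
  `μ (σ S) = s ^ [K : ℚ] · μ S` (HAAR-SCALE).
* `shrink868`: for `E` compact and `s₀ > 0` there is a compact `E'` containing every `y` with
  `y σ ∈ E` for some ray idele `σ` of parameter `s ≥ s₀`.
-/

set_option autoImplicit false
set_option linter.style.haveILetI false
set_option linter.unusedVariables false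
set_option linter.unusedSectionVars false

open IsDedekindDomain NumberField MeasureTheory
open scoped ENNReal NNReal

noncomputable section

namespace Fermat.Agent.LT.T2.H868

open Fermat.Agent.LT.H556.A0
open Fermat.Agent.LT.T1
open Fermat.Agent.LT.T1.H868

variable {K : Type} [Field K] [NumberField K]

/-- **Packing.** -/
theorem packing868 (hLC : LocCompC K) (hFD : AddFundDomC K) (hN : AdNormC K)
    {E : Set (Adl K)} (hE : IsCompact E) {s₀ : ℝ} (hs₀ : 0 < s₀) :
    ∃ C₂ : ℝ, 0 ≤ C₂ ∧ ∀ (a : G K) (s : ℝ) (σ : (Adl K)ˣ), RayData868 a s σ → s₀ ≤ s →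
      ∀ T : Finset K, (∀ q ∈ T, ∃ e ∈ E, algebraMap K (Adl K) q = (σ : Adl K) * e) →
        (T.card : ℝ) ≤ C₂ * s ^ Module.finrank ℚ K := by
  letI : MeasurableSpace (Adl K) := borel (Adl K)
  haveI : BorelSpace (Adl K) := ⟨rfl⟩
  have hLC' := hLC
  obtain ⟨⟨hlc, ht2, hsc⟩, -⟩ := hLC
  haveI := hlc
  haveI := ht2
  haveI := hsc
  set μ : Measure (Adl K) := Measure.addHaar with hμ
  obtain ⟨⟨hb0, hb1⟩, hbr⟩ := measure_box868 μ
  set W : Set (Adl K) := box868 K fun _ => 1 / 4 with hW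
  set W₁ : Set (Adl K) := box868 K fun _ => 1 / (4 * s₀) with hW₁
  have hWc : IsCompact W := isCompact_box868 K _
  have hW₁c : IsCompact W₁ := isCompact_box868 K _
  set S₁ : Set (Adl K) := (fun p : Adl K × Adl K => p.1 + p.2) '' (E ×ˢ W₁) with hS₁
  have hS₁c : IsCompact S₁ := (hE.prod hW₁c).image (continuous_fst.add continuous_snd)
  have hWμ : μ W = ENNReal.ofReal (∏ w : InfinitePlace K, (1 / 4 : ℝ) ^ w.mult)
      * μ (box868 K fun _ => 1) := hbr _ fun _ => by norm_num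
  have hW0 : μ W ≠ 0 := by
    rw [hWμ]
    refine mul_ne_zero ?_ hb0.ne'
    rw [Ne, ENNReal.ofReal_eq_zero, not_le]
    exact Finset.prod_pos fun w _ => by positivity
  have hW1 : μ W ≠ ⊤ := by
    rw [hWμ]
    exact ENNReal.mul_ne_top ENNReal.ofReal_ne_top hb1.ne
  have hS1 : μ S₁ ≠ ⊤ := hS₁c.measure_lt_top.ne
  refine ⟨(μ S₁).toReal / (μ W).toReal,
    div_nonneg ENNReal.toReal_nonneg ENNReal.toReal_nonneg, ?_⟩
  intro a s σ hσ hs T hT
  have hs0 : 0 < s := lt_of_lt_of_le hs₀ hs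
  -- the translates of the small box
  set f : K → Set (Adl K) := fun q => (fun y : Adl K => algebraMap K (Adl K) q + y) '' W with hf
  have hdisj : (T : Set K).PairwiseDisjoint f := by
    intro q _ q' _ hne
    rw [Function.onFun, Set.disjoint_left]
    rintro x ⟨w, hw, rfl⟩ ⟨w', hw', h⟩
    apply hne
    have h' : algebraMap K (Adl K) q' + w' = algebraMap K (Adl K) q + w := h
    have hsub : algebraMap K (Adl K) (q - q') = w' - w := by
      rw [map_sub]
      linear_combination (-1 : Adl K) * h'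
    have := rat_eq_zero_of_mem_box868 hN (ξ := q - q')
      (by rw [hsub]; exact sub_mem_box868 hw' hw)
    exact sub_eq_zero.1 this
  have hmeas : ∀ q ∈ T, MeasurableSet (f q) := fun q _ =>
    (hWc.image (continuous_const.add continuous_id)).isClosed.measurableSet
  have hμf : ∀ q ∈ T, μ (f q) = μ W := fun q _ => by
    show μ ((fun y : Adl K => algebraMap K (Adl K) q + y) '' W) = μ W
    rw [Set.image_add_left]
    exact measure_preimage_add μ _ W
  have hsub : (⋃ q ∈ T, f q) ⊆ (fun y : Adl K => (σ : Adl K) * y) '' S₁ := by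
    intro x hx
    simp only [Set.mem_iUnion] at hx
    obtain ⟨q, hq, w, hw, rfl⟩ := hx
    obtain ⟨e, he, hqe⟩ := hT q hq
    refine ⟨e + ((σ⁻¹ : (Adl K)ˣ) : Adl K) * w,
      ⟨(e, ((σ⁻¹ : (Adl K)ˣ) : Adl K) * w), ⟨he, ?_⟩, rfl⟩, ?_⟩
    · refine ⟨fun w₀ => ?_, fun v => ?_⟩
      · have e1 : (((σ⁻¹ : (Adl K)ˣ) : Adl K) * w).1 w₀
            = ((σ⁻¹ : (Adl K)ˣ) : Adl K).1 w₀ * w.1 w₀ := rfl
        rw [e1, norm_mul, hσ.inv_norm_inf w₀]
        calc s⁻¹ * ‖w.1 w₀‖ ≤ s⁻¹ * (1 / 4) :=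
              mul_le_mul_of_nonneg_left (hw.1 w₀) (inv_nonneg.2 hs0.le)
          _ ≤ s₀⁻¹ * (1 / 4) :=
              mul_le_mul_of_nonneg_right (inv_anti₀ hs₀ hs) (by norm_num)
          _ = 1 / (4 * s₀) := by
              field_simp
      · have e1 : (((σ⁻¹ : (Adl K)ˣ) : Adl K) * w).2 v
            = ((σ⁻¹ : (Adl K)ˣ) : Adl K).2 v * w.2 v := rfl
        rw [e1, hσ.inv_fin v, one_mul]
        exact hw.2 v
    · show (σ : Adl K) * (e + ((σ⁻¹ : (Adl K)ˣ) : Adl K) * w) = algebraMap K (Adl K) q + w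
      rw [mul_add, ← mul_assoc, Units.mul_inv, one_mul, hqe]
  have hmain : (T.card : ℝ≥0∞) * μ W ≤ ENNReal.ofReal (s ^ Module.finrank ℚ K) * μ S₁ := by
    calc (T.card : ℝ≥0∞) * μ W = ∑ q ∈ T, μ (f q) := by
          rw [Finset.sum_congr rfl hμf, Finset.sum_const, nsmul_eq_mul]
      _ = μ (⋃ q ∈ T, f q) := (measure_biUnion_finset hdisj hmeas).symm
      _ ≤ μ ((fun y : Adl K => (σ : Adl K) * y) '' S₁) := measure_mono hsub
      _ = ENNReal.ofReal (s ^ Module.finrank ℚ K) * μ S₁ := by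
          rw [haarScale868 hLC' hFD hN μ inferInstance σ S₁, hσ.adNorm]
  -- to the reals
  have h2 := ENNReal.toReal_mono (ENNReal.mul_ne_top ENNReal.ofReal_ne_top hS1) hmain
  rw [ENNReal.toReal_mul, ENNReal.toReal_mul, ENNReal.toReal_natCast,
    ENNReal.toReal_ofReal (pow_nonneg hs0.le _)] at h2
  have hWpos : 0 < (μ W).toReal := ENNReal.toReal_pos hW0 hW1
  rw [div_mul_eq_mul_div, le_div_iff₀ hWpos]
  linarith [h2]

/-- **Shrinking.** -/
theorem shrink868 {E : Set (Adl K)} (hE : IsCompact E) {s₀ : ℝ} (hs₀ : 0 < s₀) :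
    ∃ E' : Set (Adl K), IsCompact E' ∧ ∀ (a : G K) (s : ℝ) (σ : (Adl K)ˣ), RayData868 a s σ →
      s₀ ≤ s → ∀ y : Adl K, y * (σ : Adl K) ∈ E → y ∈ E' := by
  have hbd : ∀ w : InfinitePlace K, ∃ R : ℝ, ∀ e ∈ E, ‖e.1 w‖ ≤ R := fun w => by
    have hcont : Continuous fun e : Adl K => ‖e.1 w‖ :=
      continuous_norm.comp ((continuous_apply w).comp continuous_fst)
    obtain ⟨R, hR⟩ := (hE.image hcont).bddAbove
    exact ⟨R, fun e he => hR ⟨e, he, rfl⟩⟩
  choose R hR using hbd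
  set E'P : Set (((w : InfinitePlace K) → w.Completion) × FiniteAdeleRing (𝓞 K) K) :=
    (Set.univ.pi fun w : InfinitePlace K => Metric.closedBall (0 : w.Completion) (R w / s₀))
      ×ˢ ((fun e : Adl K => e.2) '' E) with hE'P
  have hc : IsCompact E'P :=
    (isCompact_univ_pi fun w => isCompact_closedBall_inf868 K w _).prod
      (hE.image continuous_snd)
  refine ⟨E'P, hc, fun a s σ hσ hs y hy => ?_⟩
  have hs0 : 0 < s := lt_of_lt_of_le hs₀ hs
  refine ⟨fun w _ => ?_, ⟨y * (σ : Adl K), hy, ?_⟩⟩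
  · rw [mem_closedBall_zero_iff]
    have e1 : (y * (σ : Adl K)).1 w = y.1 w * (σ : Adl K).1 w := rfl
    have h1 := hR w _ hy
    rw [e1, norm_mul, hσ.norm_inf w] at h1
    have hR0 : 0 ≤ R w := le_trans (mul_nonneg (norm_nonneg _) hs0.le) h1
    calc ‖y.1 w‖ = ‖y.1 w‖ * s / s := by field_simp
      _ ≤ R w / s := div_le_div_of_nonneg_right h1 hs0.le
      _ ≤ R w / s₀ := div_le_div_of_nonneg_left hR0 hs₀ hs
  · show (y * (σ : Adl K)).2 = y.2
    refine RestrictedProduct.ext _ _ fun v => ?_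
    show y.2 v * (σ : Adl K).2 v = y.2 v
    rw [hσ.fin v, mul_one]

end Fermat.Agent.LT.T2.H868

end

end
-- ===== PACK-END LT/T2/H868/CountB.lean

-- ===== PACK-BEGIN LT/T7/Matching.lean
section









/-!
# Row LT, tower T7 (architect helper797): level 2 of the comparison -- frames, matched pairs,
# the class bijection, the SPECTRAL IDENTITY for matched pairs

OFF-MAIN.  Definitions, frozen Props, PROVED `specIdC_of`.  No `sorry`, nothing assumed.
Vocabulary: `T5/Spec.lean` v4 (sha256 f2d97e70, helper32), `T6/Spec.lean` v3 (sha256 8c5f2ae7,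
helper22), byte-identical copies.

## Content

* `Frame5`, `CompData`, `IsCompData`: the data of the comparison for `K'/K` -- the generator `σ`
  as a `T5.AdelicAut K'`, the image `k` of `K` in `K'`, levels `𝔫` and `𝔑 = 𝔫 𝒪_{K'}`, a frame
  (Haar measure, fundamental domain, ray generator) for each field, `σ` preserving the frame of
  `K'`.
* `IsAdm5`: a test function to which `T5.STFsigma` AND `T5.GeomUnfold` apply (product of two
  Eisenstein-killing test functions, `σ`-regular).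
* `IsGlobMatch D φ' f`: `φ'` (over `K'`) and `f` (over `K`) are MATCHED: the global twisted orbital
  integral of `φ'` at `δ` equals the global orbital integral of `f` at `γ` whenever `N δ` is
  conjugate to the elliptic `γ ∈ GL₂(K)`, and the orbital integrals of `f` vanish at the elliptic
  `γ` which are not norms.  (Orbital integrals over fundamental domains of the centralisers in
  the slab, periodised along the rays, for the measures of the frames: ALL constants -- volumes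
  of `U(𝔫)`, of the tori, the factor `ℓ` of the rays `r = r'^ℓ` -- are absorbed in `f`.)
* **LEAF T7.G1 = `GeomC`** (class bijection): matched + regular ⇒ the geometric sides agree.
  Inputs: `T5.GeomUnfold` (both sides), `T6.NormClassC`, `T6.NormInjC`.
* **PROVED `specIdC_of`**: `T5.Tower` upstairs and downstairs + `GeomC` ⇒ `SpecIdC`, the
  SPECTRAL IDENTITY `∑_j ⟨R(φ') R(σ) e'_j, e'_j⟩ = ∑_i ⟨R(f) e_i, e_i⟩` for every matched
  admissible pair and ALL complete orthonormal sequences of cusp functions.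

`SpecIdC` is the interface between the geometric half (existence of matched admissible pairs:
T3 + T6 + factorisation of the global orbital integrals) and the spectral half (atoms,
parameters at the regular place, non-vanishing: T2 + linear algebra) of `TraceWordsRegC`.
-/

set_option autoImplicit false

open AutomorphicForm IsDedekindDomain NumberField MeasureTheory
open scoped ComplexConjugate

noncomputable section

namespace Fermat.Agent.LT.T7

open Fermat.Agent.LT.H556 Fermat.Agent.LT.H556.A0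

attribute [local instance] Fermat.Agent.LT.T5.instMeasurableSpaceG

/-! ## 1. Frames and the data of the comparison -/

/-- A frame of T5: a measure on `GL₂(𝔸_K)`, a fundamental domain, a ray generator. -/
structure Frame5 (K : Type) [Field K] [NumberField K] where
  /-- the Haar measure -/
  μ : Measure (G K)
  /-- the fundamental domain of `GL₂(K)` in the slab -/
  F : Set (G K)
  /-- the generator of the discrete ray -/
  r : G K

/-- The frame satisfies the hypotheses of T5. -/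
structure IsFrame5 {K : Type} [Field K] [NumberField K] (R : Frame5 K) : Prop where
  frame : T5.IsFrame R.μ R.F
  ray : T5.IsRayGen R.r

section Data

variable (K K' : Type) [Field K] [NumberField K] [Field K'] [NumberField K'] [Algebra K K']

/-- The data of the comparison for `K'/K`. -/
structure CompData where
  /-- the degree -/
  l : ℕ
  /-- the generator of the Galois group with its extension to the adeles -/
  s : T5.AdelicAut K'
  /-- the image of `K` in `K'` -/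
  k : Subfield K'
  /-- the level downstairs -/
  𝔫 : Ideal (𝓞 K)
  /-- the level upstairs -/
  𝔑 : Ideal (𝓞 K')
  /-- the frame downstairs -/
  R : Frame5 K
  /-- the frame upstairs -/
  R' : Frame5 K'

variable {K K'}

/-- The data satisfy the hypotheses of the two trace identities. -/
structure IsCompData (D : CompData K K') : Prop where
  cyc : T5.IsCyclicOfDegree D.s D.l D.k
  base : ∀ x : K', x ∈ D.k ↔ ∃ y : K, algebraMap K K' y = x
  level_ne : D.𝔫 ≠ ⊥
  level : D.𝔑 = Ideal.map (algebraMap (𝓞 K) (𝓞 K')) D.𝔫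
  frame : IsFrame5 D.R
  frame' : IsFrame5 D.R'
  aut : T5.AutPreserves D.s D.𝔑 D.R'.μ D.R'.r

end Data

/-! ## 2. Admissible test functions, geometric sides, matched pairs -/

section OneField

variable {K : Type} [Field K] [NumberField K]

/-- The geometric side of the (twisted) trace identity: the integral of the diagonal of the
twisted kernel over the fundamental domain. -/
def geomSide (s : T5.AdelicAut K) (R : Frame5 K) (φ : G K → ℂ) : ℂ :=
  ∫ x in R.F, T5.twKer R.r s φ x x ∂(R.μ)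

/-- The spectral side of the (twisted) trace identity in the complete orthonormal sequence
`e`. -/
def specSide (s : T5.AdelicAut K) (R : Frame5 K) (e : ℕ → G K → ℂ) (φ : G K → ℂ) : ℂ :=
  ∑' i, T5.diagCoeff s R.μ R.F φ (e i)

/-- `φ` is ADMISSIBLE: a test function of level `𝔫` and trivial `K_∞`-type which is `σ`-regular
and the product of two Eisenstein-killing test functions with Eisenstein-killing adjoints (the
hypotheses of `T5.STFsigma` and of `T5.GeomUnfold`). -/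
def IsAdm5 (s : T5.AdelicAut K) (l : ℕ) (k : Subfield K) (𝔫 : Ideal (𝓞 K)) (R : Frame5 K)
    (φ : G K → ℂ) : Prop :=
  T5.IsTestFn 𝔫 T5.trivType φ ∧ T5.IsTwRegular s l k φ ∧
    ∃ φ₁ φ₂ : G K → ℂ, T5.IsTestFn 𝔫 T5.trivType φ₁ ∧ T5.IsTestFn 𝔫 T5.trivType φ₂ ∧
      T5.IsEK R.μ φ₁ ∧ T5.IsEK R.μ (T5.adjointFn φ₁) ∧
      T5.IsEK R.μ φ₂ ∧ T5.IsEK R.μ (T5.adjointFn φ₂) ∧ φ = T5.conv R.μ φ₁ φ₂

end OneField

section TwoFields

variable {K K' : Type} [Field K] [NumberField K] [Field K'] [NumberField K'] [Algebra K K']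

/-- `γ ∈ GL₂(K)` is (conjugate in `GL₂(K')` to) the norm of `δ ∈ GL₂(K')`. -/
def IsNormOf (D : CompData K K') (δ : GL (Fin 2) K') (γ : GL (Fin 2) K) : Prop :=
  IsConj (D.s.normUpTo D.l δ) (Matrix.GeneralLinearGroup.map (algebraMap K K') γ)

/-- **MATCHED PAIR** (global form).  See the header. -/
structure IsGlobMatch (D : CompData K K') (φ' : G K' → ℂ) (f : G K → ℂ) : Prop where
  /-- the twisted orbital integral of `φ'` at `δ` is the orbital integral of `f` at `γ = N δ` -/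
  norm : ∀ (δ : GL (Fin 2) K') (γ : GL (Fin 2) K), T6.IsEll γ → IsNormOf D δ γ →
    ∀ (Fδ : Set (G K')) (Fγ : Set (G K)), T5.IsTwDomain D.s δ Fδ →
      T5.IsTwDomain (T5.AdelicAut.id K) γ Fγ →
      ∫ x in Fδ, T5.twTerm D.R'.r D.s φ' δ x ∂D.R'.μ
        = ∫ x in Fγ, T5.twTerm D.R.r (T5.AdelicAut.id K) f γ x ∂D.R.μ
  /-- the orbital integrals of `f` vanish at the elliptic elements which are not norms -/
  nonnorm : ∀ γ : GL (Fin 2) K, T6.IsEll γ → (¬ ∃ δ : GL (Fin 2) K', IsNormOf D δ γ) →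
    ∀ Fγ : Set (G K), T5.IsTwDomain (T5.AdelicAut.id K) γ Fγ →
      ∫ x in Fγ, T5.twTerm D.R.r (T5.AdelicAut.id K) f γ x ∂D.R.μ = 0

variable (K K')

/-- **LEAF T7.G1 = GEOM (class bijection).**  For a matched pair of `σ`-regular (resp. regular)
test functions the geometric sides of the two trace identities agree.
Proof.  `T5.GeomUnfold` on both sides: finite sums over the `σ`-conjugacy classes of `GL₂(K')`
and over the conjugacy classes of `GL₂(K)`; by regularity only the classes with elliptic regular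
norm (resp. the elliptic regular classes) contribute (`IsEllRegOver k (N δ)` ⇔ `N δ` is conjugate
to an elliptic `γ ∈ GL₂(K)`: `T6.NormClassC`, and two elements of `GL₂(K)` conjugate in `GL₂(K')`
are conjugate in `GL₂(K)`); the norm map is injective on these classes (`T6.NormInjC`); the
classes downstairs which are not norms contribute `0` (`nonnorm`), the others the same as
upstairs (`norm`).  Bridge `T5.normUpTo` ↔ `T6.twNorm`: definitional. -/
def GeomC : Prop :=
  ∀ D : CompData K K', IsCompData D →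
    T5.GeomUnfold D.s D.l D.k D.𝔑 T5.trivType →
    T5.GeomUnfold (T5.AdelicAut.id K) 1 ⊤ D.𝔫 T5.trivType →
    T6.NormClassC → T6.NormInjC →
    ∀ (φ' : G K' → ℂ) (f : G K → ℂ),
      T5.IsTestFn D.𝔑 T5.trivType φ' → T5.IsTwRegular D.s D.l D.k φ' →
      T5.IsTestFn D.𝔫 T5.trivType f → T5.IsTwRegular (T5.AdelicAut.id K) 1 ⊤ f →
      IsGlobMatch D φ' f →
      geomSide D.s D.R' φ' = geomSide (T5.AdelicAut.id K) D.R f

/-- **THE SPECTRAL IDENTITY for matched admissible pairs**, in ALL complete orthonormal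
sequences of cusp functions (zero vectors allowed): both sides are absolutely summable and
`∑_j ⟨R(φ') R(σ) e'_j, e'_j⟩ = ∑_i ⟨R(f) e_i, e_i⟩`. -/
def SpecIdC : Prop :=
  ∀ D : CompData K K', IsCompData D →
    ∀ (φ' : G K' → ℂ) (f : G K → ℂ),
      IsAdm5 D.s D.l D.k D.𝔑 D.R' φ' → IsAdm5 (T5.AdelicAut.id K) 1 ⊤ D.𝔫 D.R f →
      IsGlobMatch D φ' f →
      ∀ (e' : ℕ → G K' → ℂ) (e : ℕ → G K → ℂ),
        T5.IsCuspONB D.𝔑 T5.trivType D.R'.r D.R'.μ D.R'.F e' →
        T5.IsCuspONB D.𝔫 T5.trivType D.R.r D.R.μ D.R.F e →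
        Summable (fun j => T5.diagCoeff D.s D.R'.μ D.R'.F φ' (e' j)) ∧
        Summable (fun i => T5.diagCoeff (T5.AdelicAut.id K) D.R.μ D.R.F f (e i)) ∧
        specSide D.s D.R' e' φ' = specSide (T5.AdelicAut.id K) D.R e f

variable {K K'}

/-- **The spectral identity from the two towers of T5 and the class bijection.** -/
theorem specIdC_of
    (hT' : ∀ D : CompData K K', IsCompData D → T5.Tower D.s D.l D.k D.𝔑 T5.trivType)
    (hT : ∀ 𝔫 : Ideal (𝓞 K), 𝔫 ≠ ⊥ → T5.Tower (T5.AdelicAut.id K) 1 ⊤ 𝔫 T5.trivType)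
    (hN : T6.NormClassC) (hI : T6.NormInjC) (hG : GeomC K K') : SpecIdC K K' := by
  intro D hD φ' f hφ' hf hm e' e he' he
  obtain ⟨t', r', φ₁, φ₂, t₁, t₂, k₁, k₁', k₂, k₂', rfl⟩ := hφ'
  obtain ⟨t, r, f₁, f₂, u₁, u₂, j₁, j₁', j₂, j₂', rfl⟩ := hf
  have hup := (hT' D hD).stf D.R'.μ D.R'.F D.R'.r hD.frame'.frame hD.frame'.ray hD.aut e' he'
    φ₁ φ₂ t₁ t₂ k₁ k₁' k₂ k₂'
  have hdn := (hT D.𝔫 hD.level_ne).stf D.R.μ D.R.F D.R.r hD.frame.frame hD.frame.ray
    (T5.autPreserves_id D.𝔫 D.R.μ D.R.r) e he f₁ f₂ u₁ u₂ j₁ j₁' j₂ j₂'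
  refine ⟨hup.1, hdn.1, ?_⟩
  have hgeo := hG D hD (hT' D hD).unfold (hT D.𝔫 hD.level_ne).unfold hN hI _ _ t' r' t r hm
  unfold specSide
  rw [hup.2.2, hdn.2.2]
  exact hgeo

end TwoFields

end Fermat.Agent.LT.T7

end

end
-- ===== PACK-END LT/T7/Matching.lean

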