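import Mathlib
import Fermat.Agent.Pack.LT2.E13L1
import Fermat.Agent.Pack.LT2.E13L0
import Fermat.Agent.Pack.LT2.E13L2
import Fermat.Agent.Pack.LT2.E6L3
import Fermat.Agent.Pack.LT2.E2L1
import Fermat.Agent.Pack.LT2.E10L2
import Fermat.Agent.Pack.S43GC.G0E14L2
import Fermat.Agent.Pack.S43GC.G0E10L2
import Fermat.Agent.Pack.S43GC.G0E11L0
import Fermat.Agent.Pack.S43GC.G0E11L2
import Fermat.Agent.Pack.S43GC.G0E16L2
import Fermat.Agent.Pack.LT2.E13L3
import Fermat.Agent.Pack.LT2.E11L2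
import Fermat.Agent.Pack.LT2.E12L2

set_option linter.all false

-- ===== PACK-BEGIN LT/A2/H753/RegSpec.lean
section


/-!
# Row LT, tower A2, leaf A2.03.1.3 `WX467.RegC` -- THE CUT (owner / sub-architect helper753)

OFF-MAIN.  Definitions and frozen Props only (no holes, nothing assumed).  The PROVED top
`regC_of_leaves753` is in `RegTop.lean`.

    WX467.RegC  ⟸  DictC + ContProdC + SuppProdC + LatticeC + StdAAC + LocConstC
                     + ArchBoundC + ArchContC + FinCoverC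

Notation: for a pair `(g, m)` the local functions are
`fI u = L.Finf u (infMat u g) (infMat u m)`, `fF v = L.Ffin v (finComp v g) (finComp v m)`, and
`L.F g m = prodFn fI fF` (by definition).

* `DictC` (R0, abstract): a global admissible pair is locally admissible at every place.
* `ContProdC` (R1, abstract): a product of continuous local functions, standard at almost all
  finite places, is continuous on `𝔸_K²`.
* `SuppProdC` (R2, abstract): the finite part of such a product, with compactly supported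
  factors, vanishes outside a compact subset of `𝔸_f²` and is bounded.
* `LatticeC` (R3, abstract): Gaussian sums over the points of `K²` whose finite part lies in a
  compact set are normally convergent on compact sets of translations.
* `StdAAC` (R4): for an admissible pair almost all the finite local functions are `stdFn v`.
* `LocConstC` (R5): the finite local functions are locally constant in the admissible pair,
  uniformly in the place (a neighbourhood `U` of `1` in `G × G`).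
* `ArchBoundC` (R6): uniform Gaussian bound of the infinite part on compact sets of pairs.
* `ArchContC` (R7): the infinite part is continuous in the admissible pair.
* `FinCoverC` (R8, abstract, topological groups): a compact set is covered by finitely many
  left translates `q U` with `q` in a given subset.
-/

set_option autoImplicit false

open IsDedekindDomain NumberField AutomorphicForm MeasureTheory
open scoped MatrixGroups Topology

noncomputable section

namespace Fermat.Agent.LT.A2.H753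

open Fermat.Agent.LT.H130 Fermat.Agent.LT.H556 Fermat.Agent.LT.A2 Fermat.Agent.LT.A2.WX467

/-- The infinite part of the product family at the pair `(g, m)` and the vector `ξ`. -/
def archPart {K : Type} [Field K] [NumberField K] (L : WData K) (g m : A0.G K)
    (ξ : A0.Adl K × A0.Adl K) : ℂ :=
  ∏ u : InfinitePlace K, L.Finf u (infMat u g) (infMat u m) (infVec u ξ)

/-- The finite part of the product family at the pair `(g, m)` and the vector `ξ`. -/
def finPart {K : Type} [Field K] [NumberField K] (L : WData K) (g m : A0.G K)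
    (ξ : A0.Adl K × A0.Adl K) : ℂ :=
  ∏ᶠ v : HeightOneSpectrum (𝓞 K), L.Ffin v (A0.finComp v g) (A0.finComp v m) (finVec v ξ)

/-- The sum of the squares of the norms of the infinite components of a vector of `𝔸_K²`. -/
def archSq {K : Type} [Field K] [NumberField K] (ξ : A0.Adl K × A0.Adl K) : ℝ :=
  ∑ w : InfinitePlace K, (‖ξ.1.1 w‖ ^ 2 + ‖ξ.2.1 w‖ ^ 2)

/-- The finite part of a vector of `𝔸_K²`. -/
def finPt {K : Type} [Field K] [NumberField K] (ξ : A0.Adl K × A0.Adl K) :
    FiniteAdeleRing (𝓞 K) K × FiniteAdeleRing (𝓞 K) K :=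
  (ξ.1.2, ξ.2.2)

/-- **R0 DICT (abstract).**  A global admissible pair is locally admissible at every place:
the components of `torMat`, of the determinant (a ring homomorphism applied to a matrix) and
`det ≠ 0` (the determinant of an element of `GL₂(𝔸_K)` is a unit). -/
def DictC : Prop :=
  ∀ (K : Type) [Field K] [NumberField K] (L : WData K) (g m : A0.G K), Adm L.t L.n g m →
    (∀ v : HeightOneSpectrum (𝓞 K),
      AdmL (L.tfin v) (L.nfin v) (A0.finComp v g) (A0.finComp v m)) ∧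
    ∀ u : InfinitePlace K, AdmL (L.tinf u) (L.ninf u) (infMat u g) (infMat u m)

/-- **R1 CONT-PROD (abstract).**  A product of continuous local functions which are standard
at almost all finite places is continuous on `𝔸_K²` (restricted product topology: the finite
part is the product of finitely many continuous factors and of the indicator function of an
open and closed set). -/
def ContProdC : Prop :=
  ∀ (K : Type) [Field K] [NumberField K]
    (f : ∀ u : InfinitePlace K, u.Completion × u.Completion → ℂ)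
    (f' : ∀ v : HeightOneSpectrum (𝓞 K), v.adicCompletion K × v.adicCompletion K → ℂ),
    (∀ u, Continuous (f u)) → (∀ v, Continuous (f' v)) →
    (∃ S : Finset (HeightOneSpectrum (𝓞 K)), ∀ v, v ∉ S → f' v = stdFn v) →
    Continuous (prodFn f f')

/-- **R2 SUPP-PROD (abstract).**  The finite part of a product of continuous, compactly
supported local functions which are standard at almost all places vanishes outside a compact
subset of `𝔸_f²` and is bounded. -/
def SuppProdC : Prop :=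
  ∀ (K : Type) [Field K] [NumberField K]
    (f' : ∀ v : HeightOneSpectrum (𝓞 K), v.adicCompletion K × v.adicCompletion K → ℂ),
    (∀ v, Continuous (f' v) ∧ HasCompactSupport (f' v)) →
    (∃ S : Finset (HeightOneSpectrum (𝓞 K)), ∀ v, v ∉ S → f' v = stdFn v) →
    ∃ (B : Set (FiniteAdeleRing (𝓞 K) K × FiniteAdeleRing (𝓞 K) K)) (M : ℝ),
      IsCompact B ∧ 0 ≤ M ∧ ∀ ξ : A0.Adl K × A0.Adl K,
        (finPt ξ ∉ B → (∏ᶠ v : HeightOneSpectrum (𝓞 K), f' v (finVec v ξ)) = 0) ∧
        ‖∏ᶠ v : HeightOneSpectrum (𝓞 K), f' v (finVec v ξ)‖ ≤ M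

/-- **R3 LATTICE (abstract).**  Normal convergence of the Gaussian sums over the points `ξ` of
`K²`, translated by a compact set `C` of `𝔸_K²`, whose finite part lies in a compact set `B`:
these points lie in a lattice `d⁻¹ 𝒪_K²` of `K_∞²`. -/
def LatticeC : Prop :=
  ∀ (K : Type) [Field K] [NumberField K]
    (B : Set (FiniteAdeleRing (𝓞 K) K × FiniteAdeleRing (𝓞 K) K))
    (C : Set (A0.Adl K × A0.Adl K)) (δ : ℝ), IsCompact B → IsCompact C → 0 < δ →
    ∃ b : K × K → ℝ, Summable b ∧ (∀ ξ, 0 ≤ b ξ) ∧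
      ∀ (ξ : K × K) (x : A0.Adl K × A0.Adl K), x ∈ C → finPt (x + ratV ξ) ∈ B →
        Real.exp (-δ * archSq (x + ratV ξ)) ≤ b ξ

/-- **R4 STD-AA.**  For an admissible pair almost all the finite local functions are standard:
at `v ∤ level` with `g_v`, `g_v⁻¹`, `m_v`, `m_v⁻¹` integral, `F_v(g_v, m_v) = F_v(1, 1)`
(`FinAt.right_inv`, `GoodAt.tlev`, the closure of the level at `v` is `𝒪_v`) `= stdFn v`
(`GoodAt.std`). -/
def StdAAC : Prop :=
  DictC →
  ∀ (K : Type) [Field K] [NumberField K] (L : WData K), L.IsGood →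
    ∀ g m : A0.G K, Adm L.t L.n g m →
      ∃ S : Finset (HeightOneSpectrum (𝓞 K)), ∀ v, v ∉ S →
        L.Ffin v (A0.finComp v g) (A0.finComp v m) = stdFn v

/-- **R5 LOC-CONST.**  There is a neighbourhood `U` of `1` in `G × G` such that two admissible
pairs `p`, `p'` with `p⁻¹ p' ∈ U` have the same finite local functions at EVERY place
(`FinAt.right_inv` for `k = g⁻¹ g'` in the level group, `κ = m⁻¹ m' ∈ Tlev v`: `tlev_nhds` at
the places dividing the level, `GoodAt.tlev` at the others). -/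
def LocConstC : Prop :=
  DictC →
  ∀ (K : Type) [Field K] [NumberField K] (L : WData K), L.IsGood →
    ∃ U ∈ 𝓝 (1 : A0.G K × A0.G K), ∀ p p' : A0.G K × A0.G K,
      Adm L.t L.n p.1 p.2 → Adm L.t L.n p'.1 p'.2 → p⁻¹ * p' ∈ U →
      ∀ v : HeightOneSpectrum (𝓞 K),
        L.Ffin v (A0.finComp v p'.1) (A0.finComp v p'.2)
          = L.Ffin v (A0.finComp v p.1) (A0.finComp v p.2)

/-- **R6 ARCH-BOUND.**  Uniform Gaussian bound of the infinite part on a compact set of pairs
(`CpxAt.decay`; the entries of `g`, `m`, `g⁻¹`, `m⁻¹` at the infinite places are bounded on a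
compact set). -/
def ArchBoundC : Prop :=
  DictC →
  ∀ (K : Type) [Field K] [NumberField K] (L : WData K), L.IsGood →
    ∀ C : Set (A0.G K × A0.G K), IsCompact C →
      ∃ A δ : ℝ, 0 ≤ A ∧ 0 < δ ∧ ∀ p : A0.G K × A0.G K, p ∈ C → Adm L.t L.n p.1 p.2 →
        ∀ ξ : A0.Adl K × A0.Adl K, ‖archPart L p.1 p.2 ξ‖ ≤ A * Real.exp (-δ * archSq ξ)

/-- **R7 ARCH-CONT.**  The infinite part is continuous in the admissible pair (`CpxAt.cont`
composed with the continuous maps `p ↦ infMat u p.1`, `p ↦ infMat u p.2`). -/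
def ArchContC : Prop :=
  DictC →
  ∀ (K : Type) [Field K] [NumberField K] (L : WData K), L.IsGood →
    ∀ ξ : A0.Adl K × A0.Adl K,
      ContinuousOn (fun p : A0.G K × A0.G K => archPart L p.1 p.2 ξ)
        {p | Adm L.t L.n p.1 p.2}

/-- **R8 FIN-COVER (abstract, topological groups).**  A compact set `C` of a topological group
is covered by finitely many left translates `q U`, `U` a neighbourhood of `1`, with centres `q`
in a given set `P`, as far as the points of `P` are concerned. -/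
def FinCoverC : Prop :=
  ∀ (H : Type) [Group H] [TopologicalSpace H] [IsTopologicalGroup H]
    (C : Set H) (P : Set H) (U : Set H), IsCompact C → U ∈ 𝓝 (1 : H) →
    ∃ Q : Finset H, (∀ q ∈ Q, q ∈ P) ∧ ∀ p ∈ C, p ∈ P → ∃ q ∈ Q, q⁻¹ * p ∈ U

end Fermat.Agent.LT.A2.H753

end

end
-- ===== PACK-END LT/A2/H753/RegSpec.lean

-- ===== PACK-BEGIN LT/A2/H142/HeckeBasic.lean
section


/-!
# Row LT, tower A2, leaf A2.03.8 `WL.WhitHeckeC`: the easy leaves `RInvC`, `UnipC` (helper142)

OFF-MAIN.  Shared lemmas on the torus (`inTorus_mul142`, `adm_mul142`), on the orbital integral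
(`intT_congr142`: the integrand only matters on `T¹`, no measurability needed because `μT` is
carried by `T¹`), and the proofs of `RInvC`, `UnipC`.
-/

set_option autoImplicit false

open IsDedekindDomain NumberField AutomorphicForm MeasureTheory
open scoped MatrixGroups

noncomputable section

namespace Fermat.Agent.LT.A2.H142

open Fermat.Agent.LT.H556 Fermat.Agent.LT.H556.A0 Fermat.Agent.LT.H129

variable {K : Type} [Field K] [NumberField K]

/-! ## The torus -/

theorem torMat_mul142 {R : Type*} [CommRing R] (t n a b a' b' : R) :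
    torMat t n a b * torMat t n a' b'
      = torMat t n (a * a' - n * (b * b')) (a * b' + b * a' + t * (b * b')) := by
  unfold torMat
  ext i j
  fin_cases i <;> fin_cases j <;> simp [Matrix.mul_apply, Fin.sum_univ_two] <;> ring

theorem inTorus_mul142 {t n : K} {m m' : G K} (hm : InTorus t n m) (hm' : InTorus t n m') :
    InTorus t n (m * m') := by
  obtain ⟨a, b, h⟩ := hm
  obtain ⟨a', b', h'⟩ := hm'
  refine ⟨a * a' - algebraMap K (Adl K) n * (b * b'),
    a * b' + b * a' + algebraMap K (Adl K) t * (b * b'), ?_⟩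
  rw [Matrix.GeneralLinearGroup.coe_mul, h, h', torMat_mul142]

theorem inTorus_one142 (t n : K) : InTorus t n (1 : G K) := by
  refine ⟨1, 0, ?_⟩
  unfold torMat
  ext i j
  fin_cases i <;> fin_cases j <;> simp

theorem inTorus1_inTorus142 {t n : K} {m : G K} (hm : InTorus1 t n m) : InTorus t n m := hm.1

theorem adm_mul142 {t n : K} {g m u κ : G K} (h : Adm t n g m) (h' : Adm t n u κ) :
    Adm t n (g * u) (m * κ) :=
  ⟨inTorus_mul142 h.1 h'.1, by rw [map_mul, map_mul, h.2, h'.2]⟩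

theorem adm_torus1_mul142 {t n : K} {g m m1 : G K} (h1 : InTorus1 t n m1) (h : Adm t n g m) :
    Adm t n g (m1 * m) :=
  ⟨inTorus_mul142 h1.1 h.1, by rw [map_mul, h1.2, one_mul, h.2]⟩

/-- The torus is commutative. -/
theorem inTorus_comm142 {t n : K} {m m' : G K} (hm : InTorus t n m) (hm' : InTorus t n m') :
    m * m' = m' * m := by
  obtain ⟨a, b, h⟩ := hm
  obtain ⟨a', b', h'⟩ := hm'
  apply Units.ext
  rw [Matrix.GeneralLinearGroup.coe_mul, Matrix.GeneralLinearGroup.coe_mul, h, h',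
    torMat_mul142, torMat_mul142]
  congr 1 <;> ring

/-! ## The orbital integral -/

/-- The orbital integral only depends on the values of the integrand on `T¹`. -/
theorem intT_congr142 (D : KData K) (hM : D.IsMeasured) {f f' : G K → ℂ}
    (h : ∀ m : G K, InTorus1 D.t D.n m → f m = f' m) :
    D.intT {m | InTorus1 D.t D.n m} f = D.intT {m | InTorus1 D.t D.n m} f' := by
  unfold KData.intT
  letI : MeasurableSpace (G K) := borel (G K)
  apply integral_congr_ae
  have hnull : D.μT {m | InTorus1 D.t D.n m}ᶜ = 0 := hM.carried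
  have hae : ∀ᵐ m ∂D.μT, m ∈ {m | InTorus1 D.t D.n m} := by
    rw [ae_iff]
    exact hnull
  have : ∀ᵐ m ∂D.μT, f m = f' m := hae.mono fun m hm => h m hm
  exact ae_restrict_of_ae this

theorem intT_const_mul142 (D : KData K) (c : ℂ) (f : G K → ℂ) (S : Set (G K)) :
    D.intT S (fun m => c * f m) = c * D.intT S f := by
  unfold KData.intT
  letI : MeasurableSpace (G K) := borel (G K)
  exact integral_const_mul c f

/-! ## `RInvC` -/

theorem trivAtInf_inv142 {w : InfinitePlace K} {u : G K} (h : TrivAtInf w u) :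
    TrivAtInf w u⁻¹ := by
  rw [trivAtInf_iff129] at *
  rw [map_inv, h, inv_one]

theorem inLevelGroup_inv142 {𝔫 : Ideal (𝓞 K)} {u : G K} (h : InLevelGroup 𝔫 u) :
    InLevelGroup 𝔫 u⁻¹ := by
  refine ⟨fun w => trivAtInf_inv142 (h.1 w), fun v i j => ?_⟩
  rw [inv_inv]
  exact ⟨(h.2 v i j).2, (h.2 v i j).1⟩

theorem rInvC142 : RInvC := by
  intro K _ _ D W good whit u hu g
  obtain ⟨κ, hκadm, hκχ, hκF⟩ := good.right_inv.level u hu
  by_cases hg : InGPlus D.t D.n g
  · obtain ⟨mg, hadm⟩ := hg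
    rw [whit.formula (g * u) (mg * κ) (adm_mul142 hadm hκadm), whit.formula g mg hadm]
    apply intT_congr142 D good.measured
    intro m hm
    have hadm' : Adm D.t D.n g (m * mg) := adm_torus1_mul142 hm hadm
    have e : m * (mg * κ) = (m * mg) * κ := (mul_assoc _ _ _).symm
    rw [e, hκF g (m * mg) (1, 0) hadm', good.torus.mul _ _ hadm'.1 hκadm.1, hκχ, mul_one]
  · have hgu : ¬ InGPlus D.t D.n (g * u) := by
      rintro ⟨M, hM⟩
      obtain ⟨κ', hκ'adm, -, -⟩ := good.right_inv.level u⁻¹ (inLevelGroup_inv142 hu)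
      apply hg
      refine ⟨M * κ', ?_⟩
      have := adm_mul142 hM hκ'adm
      rwa [mul_assoc, mul_inv_cancel, mul_one] at this
    rw [whit.off g hg, whit.off (g * u) hgu]

/-! ## `UnipC` -/

theorem det_upperUnip142 {nU : Adl K → G K} (h : IsUpperUnip nU) (x : Adl K) :
    Matrix.GeneralLinearGroup.det (nU x) = 1 := by
  apply Units.ext
  rw [Matrix.GeneralLinearGroup.val_det_apply, h x, Matrix.det_fin_two_of]
  simp

theorem adm_unip_iff142 {t n : K} {nU : Adl K → G K} (h : IsUpperUnip nU) (x : Adl K)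
    (g m : G K) : Adm t n (nU x * g) m ↔ Adm t n g m := by
  unfold Adm
  rw [map_mul, det_upperUnip142 h x, one_mul]

theorem qf_e1_142 (t n : K) : qf t n ((1, 0) : Adl K × Adl K) = 1 := by
  unfold qf
  simp

theorem unipC142 : UnipC := by
  intro K _ _ D W good whit nU hnU x g
  by_cases hg : InGPlus D.t D.n g
  · obtain ⟨mg, hadm⟩ := hg
    rw [whit.formula (nU x * g) mg ((adm_unip_iff142 hnU x g mg).mpr hadm),
      whit.formula g mg hadm, ← intT_const_mul142]
    apply intT_congr142 D good.measured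
    intro m hm
    have hadm' : Adm D.t D.n g (m * mg) := adm_torus1_mul142 hm hadm
    rw [good.weil.unip nU hnU x g (m * mg) (1, 0) hadm', qf_e1_142, mul_one, mul_assoc]
  · have hgu : ¬ InGPlus D.t D.n (nU x * g) := by
      rintro ⟨M, hM⟩
      exact hg ⟨M, (adm_unip_iff142 hnU x g M).mp hM⟩
    rw [whit.off g hg, whit.off (nU x * g) hgu, mul_zero]

end Fermat.Agent.LT.A2.H142

end

end
-- ===== PACK-END LT/A2/H142/HeckeBasic.lean

-- ===== PACK-BEGIN LT/A2/H416/Torus.lean
section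



/-!
# Row LT, tower A2, leaf A2.03.7 WHIT-MEAN (helper416): the torus at a complex place

OFF-MAIN.  Torus algebra: inverse, split coordinates `lam ω M = M₀₀ + ω M₁₀` of a torus matrix
(multiplicative), components of adelic torus elements at a complex place.
-/

set_option autoImplicit false

open IsDedekindDomain NumberField AutomorphicForm MeasureTheory
open scoped MatrixGroups Topology

noncomputable section

namespace Fermat.Agent.LT.A2.H416

open Fermat.Agent.LT.H130 Fermat.Agent.LT.H556 Fermat.Agent.LT.A2 Fermat.Agent.LT.H470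
open Fermat.Agent.LT.T8.H864 Fermat.Agent.LT.H556.T0 Fermat.Agent.LT.A2.H971

/-! ## Torus matrices over a commutative ring -/

section Ring

variable {R : Type*} [CommRing R]

/-- `M` is a torus matrix: `M = torMat t n (M 0 0) (M 1 0)`. -/
def IsTorM (t n : R) (M : Matrix (Fin 2) (Fin 2) R) : Prop :=
  M 0 1 = -(n * M 1 0) ∧ M 1 1 = M 0 0 + t * M 1 0

theorem isTorM_one416 (t n : R) : IsTorM t n (1 : Matrix (Fin 2) (Fin 2) R) := by
  constructor <;> simp

theorem isTorM_mul416 {t n : R} {M M' : Matrix (Fin 2) (Fin 2) R} (h : IsTorM t n M)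
    (h' : IsTorM t n M') : IsTorM t n (M * M') := by
  obtain ⟨h1, h2⟩ := h
  obtain ⟨h1', h2'⟩ := h'
  constructor
  · simp only [Matrix.mul_apply, Fin.sum_univ_two, h1, h2, h1', h2']
    ring
  · simp only [Matrix.mul_apply, Fin.sum_univ_two, h1, h2, h1', h2']
    ring

theorem isTorM_torMat416 (t n a b : R) : IsTorM t n (torMat t n a b) := by
  constructor <;> simp [torMat]

/-- The adjugate of a torus matrix is a torus matrix. -/
theorem isTorM_adjugate416 {t n : R} {M : Matrix (Fin 2) (Fin 2) R} (h : IsTorM t n M) :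
    IsTorM t n M.adjugate := by
  obtain ⟨h1, h2⟩ := h
  rw [Matrix.adjugate_fin_two]
  constructor
  · simp [h1]
  · simp [h2]

theorem isTorM_smul416 {t n : R} {M : Matrix (Fin 2) (Fin 2) R} (h : IsTorM t n M) (c : R) :
    IsTorM t n (c • M) := by
  obtain ⟨h1, h2⟩ := h
  constructor
  · simp only [Matrix.smul_apply, smul_eq_mul, h1]; ring
  · simp only [Matrix.smul_apply, smul_eq_mul, h2]; ring

/-- The split coordinate `M₀₀ + ω M₁₀`. -/
def lam (ω : R) (M : Matrix (Fin 2) (Fin 2) R) : R := M 0 0 + ω * M 1 0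

theorem lam_one416 (ω : R) : lam ω (1 : Matrix (Fin 2) (Fin 2) R) = 1 := by
  simp [lam]

/-- The split coordinate is multiplicative on the torus matrices. -/
theorem lam_mul416 {t n ω : R} (hω : ω ^ 2 = t * ω - n) {M M' : Matrix (Fin 2) (Fin 2) R}
    (h : IsTorM t n M) (_h' : IsTorM t n M') : lam ω (M * M') = lam ω M * lam ω M' := by
  obtain ⟨h1, h2⟩ := h
  simp only [lam, Matrix.mul_apply, Fin.sum_univ_two, h1, h2]
  linear_combination (-(M 1 0 * M' 1 0)) * hω

/-- The product of the two split coordinates is the determinant. -/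
theorem lam_mul_lam416 {t n ω₁ ω₂ : R} (hs : ω₁ + ω₂ = t) (hp : ω₁ * ω₂ = n)
    {M : Matrix (Fin 2) (Fin 2) R} (h : IsTorM t n M) : lam ω₁ M * lam ω₂ M = M.det := by
  obtain ⟨h1, h2⟩ := h
  rw [Matrix.det_fin_two, h1, h2]
  simp only [lam]
  rw [← hs, ← hp]
  ring

theorem sq_root416 {t n ω₁ ω₂ : R} (hs : ω₁ + ω₂ = t) (hp : ω₁ * ω₂ = n) :
    ω₁ ^ 2 = t * ω₁ - n ∧ ω₂ ^ 2 = t * ω₂ - n := by
  rw [← hs, ← hp]
  constructor <;> ring

end Ring

/-! ## The adelic torus -/

section Adelic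

variable {K : Type} [Field K] [NumberField K]

theorem inTorus_iff_isTorM416 (t n : K) (m : A0.G K) :
    InTorus t n m ↔ IsTorM (algebraMap K (A0.Adl K) t) (algebraMap K (A0.Adl K) n)
      (m : Matrix (Fin 2) (Fin 2) (A0.Adl K)) :=
  inTorus_iff971 t n m

/-- The torus is stable under inversion. -/
theorem inTorus_inv416 {t n : K} {m : A0.G K} (h : InTorus t n m) : InTorus t n m⁻¹ := by
  rw [inTorus_iff_isTorM416] at h ⊢
  rw [Matrix.coe_units_inv, Matrix.inv_def]
  exact isTorM_smul416 (isTorM_adjugate416 h) _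

theorem inTorus1_inv416 {t n : K} {m : A0.G K} (h : InTorus1 t n m) : InTorus1 t n m⁻¹ :=
  ⟨inTorus_inv416 h.1, by rw [map_inv, h.2, inv_one]⟩

theorem inTorus1_mul416 {t n : K} {m m' : A0.G K} (h : InTorus1 t n m) (h' : InTorus1 t n m') :
    InTorus1 t n (m * m') :=
  ⟨inTorus_mul971 h.1 h'.1, by rw [map_mul, h.2, h'.2, one_mul]⟩

theorem inTorus1_one416 (t n : K) : InTorus1 t n (1 : A0.G K) :=
  ⟨inTorus_one971 t n, map_one _⟩

theorem inTorus_pow416 {t n : K} {m : A0.G K} (h : InTorus t n m) (k : ℕ) :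
    InTorus t n (m ^ k) := by
  induction k with
  | zero => rw [pow_zero]; exact inTorus_one971 t n
  | succ k ih => rw [pow_succ]; exact inTorus_mul971 ih h

theorem inTorus1_pow416 {t n : K} {m : A0.G K} (h : InTorus1 t n m) (k : ℕ) :
    InTorus1 t n (m ^ k) :=
  ⟨inTorus_pow416 h.1 k, by rw [map_pow, h.2, one_pow]⟩

/-- A torus character is multiplicative on powers. -/
theorem torusChar_pow416 {t n : K} {χT : A0.G K → ℂ} (hχ : IsTorusChar t n χT) {m : A0.G K}
    (h : InTorus t n m) (k : ℕ) : χT (m ^ k) = χT m ^ k := by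
  induction k with
  | zero => rw [pow_zero, pow_zero]; exact hχ.one
  | succ k ih => rw [pow_succ, pow_succ, hχ.mul _ _ (inTorus_pow416 h k) h, ih]

/-- The embedding of `K` at the infinite place `w`, through the adeles. -/
theorem ext_algebraMap416 (w : InfinitePlace K) (x : K) :
    InfinitePlace.Completion.extensionEmbedding w ((algebraMap K (A0.Adl K) x).1 w)
      = w.embedding x := by
  have h := InfinitePlace.Completion.extensionEmbedding_coe (v := w) ((WithAbs.equiv w.1).symm x)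
  rw [RingEquiv.apply_symm_apply] at h
  exact h

/-- The complex matrix at `w` of an element of the torus is a torus matrix. -/
theorem isTorM_infComp416 {t n : K} (w : InfinitePlace K) {m : A0.G K} (h : InTorus t n m) :
    IsTorM (w.embedding t) (w.embedding n) (A0.infComp w m) := by
  rw [inTorus_iff_isTorM416] at h
  obtain ⟨h1, h2⟩ := h
  constructor
  · show InfinitePlace.Completion.extensionEmbedding w
        (((m : Matrix (Fin 2) (Fin 2) (A0.Adl K)) 0 1).1 w) = _
    rw [h1]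
    show InfinitePlace.Completion.extensionEmbedding w
        (-((algebraMap K (A0.Adl K) n).1 w * ((m : Matrix (Fin 2) (Fin 2) (A0.Adl K)) 1 0).1 w))
      = _
    rw [map_neg, map_mul, ext_algebraMap416]
    rfl
  · show InfinitePlace.Completion.extensionEmbedding w
        (((m : Matrix (Fin 2) (Fin 2) (A0.Adl K)) 1 1).1 w) = _
    rw [h2]
    show InfinitePlace.Completion.extensionEmbedding w
        (((m : Matrix (Fin 2) (Fin 2) (A0.Adl K)) 0 0).1 w
          + (algebraMap K (A0.Adl K) t).1 w * ((m : Matrix (Fin 2) (Fin 2) (A0.Adl K)) 1 0).1 w)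
      = _
    rw [map_add, map_mul, ext_algebraMap416]
    rfl

end Adelic

end Fermat.Agent.LT.A2.H416

end

end
-- ===== PACK-END LT/A2/H416/Torus.lean

-- ===== PACK-BEGIN LT/A2/H637/OrbDom.lean
section


/-!
# Row LT, tower A2, leaf A2.03.1.8 `WX467.OrbC` -- part 1: `orb_dom` (helper637)

OFF-MAIN.  The domination of the orbital integrand, by UNFOLDING over the fundamental domain
`DT` of `T¹(K)` in `T¹(𝔸_K)`:  for `m ∈ T¹(𝔸_K)` there is a unique `y ∈ T¹(K)` with `y m ∈ DT`, and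

    F g (m m₂) (1, 0) = F g ((y m) m₂) (y (1, 0)),        y (1, 0) = (a, b) ∈ K²,

so that `‖F g (m m₂) (1, 0)‖ ≤ b' (a, b)` for the bound `b'` of `IsRegular.loc_summable` on the
compact set `{(g, d m₂) : d ∈ closure DT, (g, m₂) ∈ C}`.  The dominating function is
`h = ∑_ξ |b' ξ| 1_{S ξ}`, `S ξ = y_ξ⁻¹ DT`, of integral `≤ μT(DT) ∑ |b'|`.

No sorry, nothing assumed.
-/

set_option autoImplicit false
set_option linter.style.haveILetI false

open IsDedekindDomain NumberField AutomorphicForm MeasureTheory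
open scoped MatrixGroups Topology ENNReal

noncomputable section

namespace Fermat.Agent.LT.A2.H637

open Fermat.Agent.LT.H130 Fermat.Agent.LT.H556 Fermat.Agent.LT.A2

/-! ## Algebra of the torus -/

section TorAlg

variable {R : Type*} [CommRing R]

theorem torMat_mul637 (t n a b c d : R) :
    torMat t n a b * torMat t n c d
      = torMat t n (a * c - n * (b * d)) (a * d + b * c + t * (b * d)) := by
  ext i j
  fin_cases i <;> fin_cases j <;>
    simp [torMat, Matrix.mul_apply, Fin.sum_univ_two] <;> ring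

theorem torMat_one637 (t n : R) : torMat t n 1 0 = 1 := by
  ext i j
  fin_cases i <;> fin_cases j <;> simp [torMat]

theorem torMat_det637 (t n a b : R) :
    (torMat t n a b).det = a ^ 2 + t * a * b + n * b ^ 2 := by
  simp only [torMat, Matrix.det_fin_two_of]
  ring

end TorAlg

section TorGrp

variable {K : Type} [Field K] [NumberField K]

theorem countable637 (K : Type) [Field K] [NumberField K] : Countable K := by
  let b := Module.finBasis ℚ K
  exact b.equivFun.toEquiv.injective.countable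

theorem inTorus_one637 (t n : K) : InTorus t n (1 : A0.G K) :=
  ⟨1, 0, by rw [torMat_one637]; rfl⟩

theorem inTorus_mul637 {t n : K} {m m' : A0.G K} (h : InTorus t n m) (h' : InTorus t n m') :
    InTorus t n (m * m') := by
  obtain ⟨a, b, hab⟩ := h
  obtain ⟨c, d, hcd⟩ := h'
  exact ⟨a * c - algebraMap K (A0.Adl K) n * (b * d),
    a * d + b * c + algebraMap K (A0.Adl K) t * (b * d),
    by rw [Units.val_mul, hab, hcd, torMat_mul637]⟩

theorem inTorus1_one637 (t n : K) : InTorus1 t n (1 : A0.G K) :=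
  ⟨inTorus_one637 t n, map_one _⟩

theorem inTorus1_mul637 {t n : K} {m m' : A0.G K} (h : InTorus1 t n m) (h' : InTorus1 t n m') :
    InTorus1 t n (m * m') :=
  ⟨inTorus_mul637 h.1 h'.1, by rw [map_mul, h.2, h'.2, one_mul]⟩

theorem val_inv_of_det_one637 {m : A0.G K} (h : Matrix.GeneralLinearGroup.det m = 1) :
    ((m⁻¹ : A0.G K) : Matrix (Fin 2) (Fin 2) (A0.Adl K))
      = !![(m : Matrix (Fin 2) (Fin 2) (A0.Adl K)) 1 1,
          -(m : Matrix (Fin 2) (Fin 2) (A0.Adl K)) 0 1;
          -(m : Matrix (Fin 2) (Fin 2) (A0.Adl K)) 1 0,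
          (m : Matrix (Fin 2) (Fin 2) (A0.Adl K)) 0 0] := by
  have hdet : (m : Matrix (Fin 2) (Fin 2) (A0.Adl K)).det = 1 := by
    have := congrArg (fun u : (A0.Adl K)ˣ => (u : A0.Adl K)) h
    simpa using this
  rw [Matrix.coe_units_inv, Matrix.inv_def, hdet, Ring.inverse_one, one_smul,
    Matrix.adjugate_fin_two]

theorem inTorus1_inv637 {t n : K} {m : A0.G K} (h : InTorus1 t n m) : InTorus1 t n m⁻¹ := by
  obtain ⟨⟨a, b, hab⟩, hdet⟩ := h
  refine ⟨⟨a + algebraMap K (A0.Adl K) t * b, -b, ?_⟩, by rw [map_inv, hdet, inv_one]⟩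
  rw [val_inv_of_det_one637 hdet, hab]
  ext i j
  fin_cases i <;> fin_cases j <;> simp [torMat]

end TorGrp

/-! ## The domination of the orbital integrand -/

section OrbDom

variable {K : Type} [Field K] [NumberField K]

/-- The translate `y_ξ⁻¹ DT` of the fundamental domain, `y_ξ ∈ T¹(K)` the element of first
column `ξ` (empty if there is no such element). -/
def domSet637 (D : KData K) (ξ : K × K) : Set (A0.G K) :=
  {m | ∃ y : A0.G K,
      (y : Matrix (Fin 2) (Fin 2) (A0.Adl K))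
        = torMat (algebraMap K (A0.Adl K) D.t) (algebraMap K (A0.Adl K) D.n)
            (algebraMap K (A0.Adl K) ξ.1) (algebraMap K (A0.Adl K) ξ.2) ∧
      InTorus1 D.t D.n y ∧ y * m ∈ D.DT}

theorem domSet_meas637 (D : KData K) (hM : D.IsMeasured) (ξ : K × K) :
    @MeasurableSet (A0.G K) (borel (A0.G K)) (domSet637 D ξ) := by
  letI : MeasurableSpace (A0.G K) := borel (A0.G K)
  haveI : BorelSpace (A0.G K) := ⟨rfl⟩
  by_cases h : ∃ y : A0.G K,
      (y : Matrix (Fin 2) (Fin 2) (A0.Adl K))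
        = torMat (algebraMap K (A0.Adl K) D.t) (algebraMap K (A0.Adl K) D.n)
            (algebraMap K (A0.Adl K) ξ.1) (algebraMap K (A0.Adl K) ξ.2) ∧
      InTorus1 D.t D.n y
  · obtain ⟨y, hy, hy1⟩ := h
    have hset : domSet637 D ξ = (fun m => y * m) ⁻¹' D.DT := by
      ext m
      constructor
      · rintro ⟨y', hy', _, hm⟩
        have hyy : y' = y := Units.ext (hy'.trans hy.symm)
        subst hyy
        exact hm
      · intro hm
        exact ⟨y, hy, hy1, hm⟩
    rw [hset]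
    exact (continuous_const.mul continuous_id).measurable hM.dom_meas
  · have hset : domSet637 D ξ = ∅ := by
      ext m
      simp only [domSet637, Set.mem_ofPred_eq, Set.mem_empty_iff_false, iff_false]
      rintro ⟨y, hy, hy1, _⟩
      exact h ⟨y, hy, hy1⟩
    rw [hset]
    exact MeasurableSet.empty

theorem domSet_measure_le637 (D : KData K) (hM : D.IsMeasured) (ξ : K × K) :
    D.μT (domSet637 D ξ) ≤ D.μT D.DT := by
  by_cases h : ∃ y : A0.G K,
      (y : Matrix (Fin 2) (Fin 2) (A0.Adl K))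
        = torMat (algebraMap K (A0.Adl K) D.t) (algebraMap K (A0.Adl K) D.n)
            (algebraMap K (A0.Adl K) ξ.1) (algebraMap K (A0.Adl K) ξ.2) ∧
      InTorus1 D.t D.n y
  · obtain ⟨y, hy, hy1⟩ := h
    have hsub : domSet637 D ξ ⊆ (fun m => y⁻¹ * m) '' D.DT := by
      rintro m ⟨y', hy', _, hm⟩
      have hyy : y' = y := Units.ext (hy'.trans hy.symm)
      subst hyy
      exact ⟨y' * m, hm, by simp⟩
    calc D.μT (domSet637 D ξ) ≤ D.μT ((fun m => y⁻¹ * m) '' D.DT) := measure_mono hsub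
      _ = D.μT D.DT := hM.inv y⁻¹ (inTorus1_inv637 hy1) D.DT
  · have hset : domSet637 D ξ = ∅ := by
      ext m
      simp only [domSet637, Set.mem_ofPred_eq, Set.mem_empty_iff_false, iff_false]
      rintro ⟨y, hy, hy1, _⟩
      exact h ⟨y, hy, hy1⟩
    rw [hset, measure_empty]
    exact bot_le

/-- **`orb_dom`** for any measured, regular family with the formula `tor1`. -/
theorem orb_dom637 (D : KData K) (hM : D.IsMeasured) (hR : D.IsRegular)
    (htor1 : ∀ m' : A0.G K, InTorus1 D.t D.n m' →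
      ∀ (g m : A0.G K) (ξ : A0.Adl K × A0.Adl K), Adm D.t D.n g m →
        D.F g (m' * m) ξ = D.F g m (actV m'⁻¹ ξ))
    (C : Set (A0.G K × A0.G K)) (hC : IsCompact C) :
    ∃ h : A0.G K → ℝ,
      (letI : MeasurableSpace (A0.G K) := borel (A0.G K)
       IntegrableOn h {m | InTorus1 D.t D.n m} D.μT) ∧
      ∀ p : A0.G K × A0.G K, p ∈ C → Adm D.t D.n p.1 p.2 → ∀ m : A0.G K, InTorus1 D.t D.n m →
        ‖D.F p.1 (m * p.2) (1, 0)‖ ≤ h m := by
  letI : MeasurableSpace (A0.G K) := borel (A0.G K)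
  haveI : BorelSpace (A0.G K) := ⟨rfl⟩
  haveI : Countable K := countable637 K
  obtain ⟨Dbar, hDc, hDsub⟩ := hM.dom_compact
  set C' : Set (A0.G K × A0.G K) :=
    (fun q : A0.G K × (A0.G K × A0.G K) => (q.2.1, q.1 * q.2.2)) '' (Dbar ×ˢ C) with hC'def
  have hC' : IsCompact C' := (hDc.prod hC).image (by fun_prop)
  obtain ⟨b, hbsum, hb⟩ := hR.loc_summable C' hC'
  have habs : Summable fun ξ => |b ξ| := hbsum.abs
  set hE : A0.G K → ℝ≥0∞ := fun m =>
    ∑' ξ : K × K, ENNReal.ofReal |b ξ| * (domSet637 D ξ).indicator 1 m with hEdef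
  have hterm : ∀ ξ : K × K, Measurable fun m : A0.G K =>
      ENNReal.ofReal |b ξ| * (domSet637 D ξ).indicator (1 : A0.G K → ℝ≥0∞) m := fun ξ =>
    measurable_const.mul (measurable_one.indicator (domSet_meas637 D hM ξ))
  have hEmeas : Measurable hE := Measurable.tsum hterm
  have htot : ∑' ξ : K × K, ENNReal.ofReal |b ξ| ≠ ∞ := by
    rw [← ENNReal.ofReal_tsum_of_nonneg (fun _ => abs_nonneg _) habs]
    exact ENNReal.ofReal_ne_top
  have hEle : ∀ m, hE m ≤ ∑' ξ : K × K, ENNReal.ofReal |b ξ| := by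
    intro m
    refine ENNReal.tsum_le_tsum fun ξ => ?_
    by_cases hm : m ∈ domSet637 D ξ
    · simp [Set.indicator_of_mem hm]
    · simp [Set.indicator_of_notMem hm]
  have hEint : ∫⁻ m, hE m ∂D.μT < ∞ := by
    rw [lintegral_tsum fun ξ => (hterm ξ).aemeasurable]
    calc ∑' ξ, ∫⁻ m, ENNReal.ofReal |b ξ| * (domSet637 D ξ).indicator 1 m ∂D.μT
        = ∑' ξ, ENNReal.ofReal |b ξ| * D.μT (domSet637 D ξ) := by
          congr 1
          ext ξ
          rw [lintegral_const_mul _ (measurable_one.indicator (domSet_meas637 D hM ξ)),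
            lintegral_indicator_one (domSet_meas637 D hM ξ)]
      _ ≤ ∑' ξ, ENNReal.ofReal |b ξ| * D.μT D.DT :=
          ENNReal.tsum_le_tsum fun ξ =>
            mul_le_mul' le_rfl (domSet_measure_le637 D hM ξ)
      _ = (∑' ξ, ENNReal.ofReal |b ξ|) * D.μT D.DT := ENNReal.tsum_mul_right
      _ < ∞ := ENNReal.mul_lt_top htot.lt_top
          ((measure_mono hDsub).trans_lt (hM.compact_lt Dbar hDc))
  refine ⟨fun m => (hE m).toReal, ?_, ?_⟩
  · refine Integrable.integrableOn ⟨hEmeas.ennreal_toReal.aestronglyMeasurable, ?_⟩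
    rw [hasFiniteIntegral_iff_enorm]
    calc ∫⁻ m, ‖(hE m).toReal‖ₑ ∂D.μT ≤ ∫⁻ m, hE m ∂D.μT := lintegral_mono fun m => by
          rw [Real.enorm_eq_ofReal ENNReal.toReal_nonneg]
          exact ENNReal.ofReal_toReal_le
      _ < ∞ := hEint
  · intro p hp hadm m hm
    obtain ⟨y, ⟨hyR, hy1, hyD⟩, -⟩ := hM.dom_fund m hm
    obtain ⟨a, b', hab⟩ := hyR
    have hadm' : Adm D.t D.n p.1 ((y * m) * p.2) :=
      ⟨inTorus_mul637 (inTorus_mul637 hy1.1 hm.1) hadm.1, by
        rw [hadm.2, map_mul, map_mul, hy1.2, hm.2, one_mul, one_mul]⟩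
    have hmem : (p.1, (y * m) * p.2) ∈ C' := ⟨(y * m, p), ⟨hDsub hyD, hp⟩, rfl⟩
    have h1 : D.F p.1 (m * p.2) (1, 0) = D.F p.1 ((y * m) * p.2) (ratV (a, b')) := by
      have h := htor1 y⁻¹ (inTorus1_inv637 hy1) p.1 ((y * m) * p.2) (1, 0) hadm'
      rw [inv_inv] at h
      have e1 : y⁻¹ * (y * m * p.2) = m * p.2 := by group
      rw [e1] at h
      rw [h]
      congr 1
      simp [actV, ratV, hab, torMat]
    rw [h1]
    refine (hb (a, b') (p.1, (y * m) * p.2) hmem hadm').trans ?_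
    have hmS : m ∈ domSet637 D (a, b') := ⟨y, hab, hy1, hyD⟩
    have h3 : ENNReal.ofReal |b (a, b')| ≤ hE m := by
      calc ENNReal.ofReal |b (a, b')|
          = ENNReal.ofReal |b (a, b')| * (domSet637 D (a, b')).indicator 1 m := by
            rw [Set.indicator_of_mem hmS]
            simp
        _ ≤ hE m := ENNReal.le_tsum (a, b')
    calc b (a, b') ≤ |b (a, b')| := le_abs_self _
      _ = (ENNReal.ofReal |b (a, b')|).toReal := (ENNReal.toReal_ofReal (abs_nonneg _)).symm
      _ ≤ (hE m).toReal := ENNReal.toReal_mono (ne_top_of_le_ne_top htot (hEle m)) h3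

end OrbDom

end Fermat.Agent.LT.A2.H637

end

end
-- ===== PACK-END LT/A2/H637/OrbDom.lean

-- ===== PACK-BEGIN LT/A2/H820/LocalAlg.lean
section



/-!
# Row LT, tower A2, LEAF A2.03.8.4 `H142.LocalAlgC` (seat helper820, OFF-MAIN)

`localAlgC820 : H142.LocalAlgC`, VERBATIM vs `LT/A2/H142/HeckeSpec.lean` (helper142@670ef2ef6,
sha256 7c6078cc752b1779).  Local: Mathlib + `LT/H129` only; no adeles, no measure.

## Proof

Let `T w (x) = ∑_c w (x h_c)` (standard coset system) and `Δ = T w - √q a w`.  Then `Δ` is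
* right `GL₂(𝒪_v)`-invariant (`LocalAlgGen.heckeSum_maxCpt820`: `k h_c = h_{σ c} k_c`),
* `(N, ψ_v)`-equivariant on the left, and `Δ (x ϖ) = b Δ (x)` (`ϖ` is central).
A function `F` with these three properties which vanishes at `diag(ϖ^j, 1)`, `j ≥ 0`, is zero
(`eq_zero_of_vanish820`): Iwasawa reduces to `diag(y₁, y₂) = diag(y₁/y₂, 1) · y₂`, the scalar `y₂`
is `ϖ^n · unit` or `ϖ^{-n} · unit` (if `b = 0` then `F = 0` at once), and at `diag(t, 1)` with
`v(t) > 1` EVERY function with the first two properties vanishes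
(`eq_zero_of_big820`: `F(diag(t,1)) = F(diag(t,1) n(u)) = ψ_v(t u) F(diag(t,1))`, `u ∈ 𝒪_v`,
`ψ_v(t u) ≠ 1`) -- in particular no character sum is needed.
Finally `Δ (diag(ϖ^j, 1)) = q ω_{j+1} + b ω_{j-1} - √q a ω_j = 0` is the recursion
(`ω_{-1} = w(diag(ϖ⁻¹, 1)) = 0` again by `eq_zero_of_big820`).
-/

set_option autoImplicit false

open IsDedekindDomain NumberField IsDedekindDomain.HeightOneSpectrum
open scoped MatrixGroups

noncomputable section

namespace Fermat.Agent.LT.A2.H820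

open Fermat.Agent.LT.H129 Fermat.Agent.LT.A2.H142

variable {K : Type} [Field K] [NumberField K] (v : HeightOneSpectrum (𝓞 K))

/-! ## Valuations -/

theorem exists_exp820 {t : v.adicCompletion K} (ht : t ≠ 0) :
    ∃ n : ℤ, Valued.v t = WithZero.exp n := by
  have h : Valued.v t ≠ 0 := (Valuation.ne_zero_iff _).2 ht
  obtain ⟨a, ha⟩ := WithZero.ne_zero_iff_exists.1 h
  exact ⟨Multiplicative.toAdd a, ha.symm⟩

theorem mem_of_valued_eq_one820 {u : v.adicCompletion K} (hu : Valued.v u = 1) :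
    u ∈ v.adicCompletionIntegers K := by
  rw [mem_adicCompletionIntegers, hu]

theorem inv_mem_of_valued_eq_one820 {u : v.adicCompletion K} (hu : Valued.v u = 1) :
    u⁻¹ ∈ v.adicCompletionIntegers K := by
  rw [mem_adicCompletionIntegers, map_inv₀, hu, inv_one]

theorem ne_zero_of_valued_eq_one820 {u : v.adicCompletion K} (hu : Valued.v u = 1) : u ≠ 0 := by
  intro h
  rw [h, map_zero] at hu
  exact zero_ne_one hu

/-- `diag(u, u')` with units `u`, `u'` lies in `GL₂(𝒪_v)`. -/
theorem isMaxCpt_diag820 {u u' : v.adicCompletion K} (hu : Valued.v u = 1)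
    (hu' : Valued.v u' = 1) :
    IsMaxCpt129 (v.adicCompletionIntegers K)
      (diag129 u u' (ne_zero_of_valued_eq_one820 v hu) (ne_zero_of_valued_eq_one820 v hu')) := by
  have h0 : (0 : v.adicCompletion K) ∈ v.adicCompletionIntegers K :=
    (v.adicCompletionIntegers K).zero_mem
  have hu0 := ne_zero_of_valued_eq_one820 v hu
  have hu0' := ne_zero_of_valued_eq_one820 v hu'
  have hinv : (diag129 u u' hu0 hu0')⁻¹
      = diag129 u⁻¹ u'⁻¹ (inv_ne_zero hu0) (inv_ne_zero hu0') := by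
    rw [inv_eq_iff_mul_eq_one, diag_mul_diag820]
    apply ext_mat129
    rw [coe_diag820, mul_inv_cancel₀ hu0, mul_inv_cancel₀ hu0']
    simp [Matrix.one_fin_two]
  refine ⟨isInt129_mkGL _ (mem_of_valued_eq_one820 v hu) h0 h0 (mem_of_valued_eq_one820 v hu'),
    ?_⟩
  rw [hinv]
  exact isInt129_mkGL _ (inv_mem_of_valued_eq_one820 v hu) h0 h0
    (inv_mem_of_valued_eq_one820 v hu')

theorem valued_pow820 {ϖ : v.adicCompletion K} (hϖ : Valued.v ϖ = WithZero.exp (-1 : ℤ))
    (n : ℕ) : Valued.v (ϖ ^ n) = WithZero.exp (-(n : ℤ)) := by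
  rw [map_pow, hϖ, ← WithZero.exp_nsmul]
  simp

/-! ## The standard coset system, locally -/

theorem stdLoc_isHecke820 {ϖ : v.adicCompletion K} (hϖ : Valued.v ϖ = WithZero.exp (-1 : ℤ))
    (c : Option (𝓞 K ⧸ v.asIdeal)) :
    IsHeckeElt129 (v.adicCompletionIntegers K) (stdLoc142 v ϖ (unif_ne_zero129 v hϖ) c) := by
  have h1 : (1 : v.adicCompletion K) ∈ v.adicCompletionIntegers K :=
    (v.adicCompletionIntegers K).one_mem
  have h0 : (0 : v.adicCompletion K) ∈ v.adicCompletionIntegers K :=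
    (v.adicCompletionIntegers K).zero_mem
  cases c with
  | none =>
    simp only [stdLoc142]
    refine ⟨isInt129_mkGL _ h1 h0 h0 (unif_mem129 v hϖ), ?_⟩
    apply isUnif129_of_valued_eq
    simp only [coe_mkGL129, Matrix.det_fin_two_of]
    simpa using hϖ
  | some c =>
    simp only [stdLoc142]
    refine ⟨isInt129_mkGL _ (unif_mem129 v hϖ) (rep129_mem v c) h0 h1, ?_⟩
    apply isUnif129_of_valued_eq
    simp only [coe_mkGL129, Matrix.det_fin_two_of]
    simpa using hϖ

theorem stdLoc_not_int820 {ϖ : v.adicCompletion K} (hϖ : Valued.v ϖ = WithZero.exp (-1 : ℤ))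
    (a b : Option (𝓞 K ⧸ v.asIdeal)) (hab : a ≠ b) :
    ¬ IsInt129 (v.adicCompletionIntegers K)
      ((stdLoc142 v ϖ (unif_ne_zero129 v hϖ) a)⁻¹ * stdLoc142 v ϖ (unif_ne_zero129 v hϖ) b) := by
  have hπ0 := unif_ne_zero129 v hϖ
  intro hint
  cases a with
  | none =>
    cases b with
    | none => exact hab rfl
    | some c =>
      simp only [stdLoc142] at hint
      have := hint 1 1
      rw [lower_inv_mul_upper129 hπ0] at this
      exact unif_inv_not_mem129 v hϖ this
  | some c =>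
    cases b with
    | none =>
      simp only [stdLoc142] at hint
      have := hint 0 0
      rw [upper_inv_mul_lower129 hπ0] at this
      exact unif_inv_not_mem129 v hϖ this
    | some c' =>
      have hcc : c ≠ c' := fun h => hab (by rw [h])
      simp only [stdLoc142] at hint
      have := hint 0 1
      rw [upper_inv_mul_upper129 hπ0, mem_adicCompletionIntegers, map_div₀,
        valued_rep129_sub v hcc, hϖ, one_div, ← WithZero.exp_neg, ← WithZero.exp_zero,
        WithZero.exp_le_exp] at this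
      norm_num at this

theorem finite_quot820 : Finite (𝓞 K ⧸ v.asIdeal) := by
  apply Nat.finite_of_card_ne_zero
  rw [← Submodule.cardQuot_apply, ← Ideal.absNorm_apply]
  exact ne_of_gt (lt_trans Nat.zero_lt_one (NumberField.HeightOneSpectrum.one_lt_absNorm v))

theorem card_option_quot820 [Fintype (𝓞 K ⧸ v.asIdeal)] :
    Fintype.card (Option (𝓞 K ⧸ v.asIdeal))
      = Nat.card (IsLocalRing.ResidueField (v.adicCompletionIntegers K)) + 1 := by
  rw [Fintype.card_option, card_residueField129, Ideal.absNorm_apply, Submodule.cardQuot_apply,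
    Nat.card_eq_fintype_card]

theorem qC_eq_card820 [Fintype (𝓞 K ⧸ v.asIdeal)] :
    qC142 v = (Fintype.card (𝓞 K ⧸ v.asIdeal) : ℂ) := by
  unfold qC142
  rw [Ideal.absNorm_apply, Submodule.cardQuot_apply, Nat.card_eq_fintype_card]

/-! ## Vanishing -/

section Vanish

variable {v}
variable {ϖ : v.adicCompletion K} (hϖ : Valued.v ϖ = WithZero.exp (-1 : ℤ))
  {ψv : v.adicCompletion K → ℂ} {F : GL (Fin 2) (v.adicCompletion K) → ℂ} {b : ℂ}

/-- A right `GL₂(𝒪_v)`-invariant, left `(N, ψ_v)`-equivariant function vanishes at `diag(t, 1)`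
for `v(t) > 1`, if `ψ_v` is non-trivial on the elements of valuation `exp 1`. -/
theorem eq_zero_of_big820
    (hψ : ∃ x : v.adicCompletion K, Valued.v x = WithZero.exp (1 : ℤ) ∧ ψv x ≠ 1)
    (hK : ∀ k : GL (Fin 2) (v.adicCompletion K), IsMaxCpt129 (v.adicCompletionIntegers K) k →
      ∀ x : GL (Fin 2) (v.adicCompletion K), F (x * k) = F x)
    (hN : ∀ (y : v.adicCompletion K) (x : GL (Fin 2) (v.adicCompletion K)),
      F (upperU129 y * x) = ψv y * F x)
    {t : v.adicCompletion K} (ht : t ≠ 0) {n : ℤ} (hn : Valued.v t = WithZero.exp n)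
    (h1 : 1 ≤ n) : F (diag129 t 1 ht one_ne_zero) = 0 := by
  obtain ⟨x₀, hx₀, hψx₀⟩ := hψ
  have hu : x₀ / t ∈ v.adicCompletionIntegers K := by
    rw [mem_adicCompletionIntegers, map_div₀, hx₀, hn, ← WithZero.exp_sub, ← WithZero.exp_zero,
      WithZero.exp_le_exp]
    omega
  have e1 := hK _ (isMaxCpt129_upperU hu) (diag129 t 1 ht one_ne_zero)
  rw [diag_mul_upper820, hN, mul_div_cancel₀ _ ht] at e1
  have e2 : (ψv x₀ - 1) * F (diag129 t 1 ht one_ne_zero) = 0 := by
    rw [sub_mul, one_mul, e1, sub_self]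
  rcases mul_eq_zero.1 e2 with h | h
  · exact absurd (sub_eq_zero.1 h) hψx₀
  · exact h

/-- `F (g · diag(ϖ^n, ϖ^n)) = b^n F (g)`. -/
theorem scalar_pow820
    (hZ : ∀ x : GL (Fin 2) (v.adicCompletion K),
      F (x * diag129 ϖ ϖ (unif_ne_zero129 v hϖ) (unif_ne_zero129 v hϖ)) = b * F x)
    (n : ℕ) (g : GL (Fin 2) (v.adicCompletion K)) :
    F (g * diag129 (ϖ ^ n) (ϖ ^ n) (pow_ne_zero n (unif_ne_zero129 v hϖ))
      (pow_ne_zero n (unif_ne_zero129 v hϖ))) = b ^ n * F g := by
  induction n generalizing g with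
  | zero =>
    have e : diag129 (ϖ ^ 0) (ϖ ^ 0) (pow_ne_zero 0 (unif_ne_zero129 v hϖ))
        (pow_ne_zero 0 (unif_ne_zero129 v hϖ)) = 1 := by
      apply ext_mat129
      rw [coe_diag820]
      simp [Matrix.one_fin_two]
    rw [e, mul_one, pow_zero, one_mul]
  | succ n ih =>
    have e : diag129 (ϖ ^ (n + 1)) (ϖ ^ (n + 1)) (pow_ne_zero (n + 1) (unif_ne_zero129 v hϖ))
        (pow_ne_zero (n + 1) (unif_ne_zero129 v hϖ))
        = diag129 (ϖ ^ n) (ϖ ^ n) (pow_ne_zero n (unif_ne_zero129 v hϖ))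
            (pow_ne_zero n (unif_ne_zero129 v hϖ))
          * diag129 ϖ ϖ (unif_ne_zero129 v hϖ) (unif_ne_zero129 v hϖ) := by
      rw [diag_mul_diag820]
      exact diag_congr820 _ _ (pow_succ ϖ n) (pow_succ ϖ n)
    rw [e, ← mul_assoc, hZ, ih, pow_succ]
    ring

/-- If `F g = 0` then `F (g · s) = 0` for every scalar `s` (for `b ≠ 0`). -/
theorem scalar_zero820 (hb : b ≠ 0)
    (hK : ∀ k : GL (Fin 2) (v.adicCompletion K), IsMaxCpt129 (v.adicCompletionIntegers K) k →
      ∀ x : GL (Fin 2) (v.adicCompletion K), F (x * k) = F x)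
    (hZ : ∀ x : GL (Fin 2) (v.adicCompletion K),
      F (x * diag129 ϖ ϖ (unif_ne_zero129 v hϖ) (unif_ne_zero129 v hϖ)) = b * F x)
    {s : v.adicCompletion K} (hs : s ≠ 0) (g : GL (Fin 2) (v.adicCompletion K))
    (hg : F g = 0) : F (g * diag129 s s hs hs) = 0 := by
  have hϖ0 := unif_ne_zero129 v hϖ
  obtain ⟨m, hm⟩ := exists_exp820 v hs
  rcases le_total m 0 with hm0 | hm0
  · -- `s = ϖ^n u`, `n = -m`
    obtain ⟨n, rfl⟩ : ∃ n : ℕ, m = -(n : ℤ) := ⟨(-m).toNat, by omega⟩
    have hu : Valued.v (s / ϖ ^ n) = 1 := by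
      rw [map_div₀, hm, valued_pow820 v hϖ, ← WithZero.exp_sub, sub_self, WithZero.exp_zero]
    have e : diag129 s s hs hs
        = diag129 (ϖ ^ n) (ϖ ^ n) (pow_ne_zero n hϖ0) (pow_ne_zero n hϖ0)
          * diag129 (s / ϖ ^ n) (s / ϖ ^ n) (ne_zero_of_valued_eq_one820 v hu)
              (ne_zero_of_valued_eq_one820 v hu) := by
      rw [diag_mul_diag820]
      exact diag_congr820 _ _ (mul_div_cancel₀ s (pow_ne_zero n hϖ0)).symm
        (mul_div_cancel₀ s (pow_ne_zero n hϖ0)).symm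
    rw [e, ← mul_assoc, hK _ (isMaxCpt_diag820 v hu hu), scalar_pow820 hϖ hZ, hg, mul_zero]
  · -- `s ϖ^n = u`, `n = m`
    obtain ⟨n, rfl⟩ : ∃ n : ℕ, m = (n : ℤ) := ⟨m.toNat, by omega⟩
    have hu : Valued.v (s * ϖ ^ n) = 1 := by
      rw [map_mul, hm, valued_pow820 v hϖ, ← WithZero.exp_add, add_neg_cancel,
        WithZero.exp_zero]
    have e : diag129 s s hs hs * diag129 (ϖ ^ n) (ϖ ^ n) (pow_ne_zero n hϖ0) (pow_ne_zero n hϖ0)
        = diag129 (s * ϖ ^ n) (s * ϖ ^ n) (ne_zero_of_valued_eq_one820 v hu)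
              (ne_zero_of_valued_eq_one820 v hu) := by
      rw [diag_mul_diag820]
    have h1 := scalar_pow820 hϖ hZ n (g * diag129 s s hs hs)
    rw [mul_assoc, e, hK _ (isMaxCpt_diag820 v hu hu), hg] at h1
    rcases mul_eq_zero.1 h1.symm with h | h
    · exact absurd h (pow_ne_zero n hb)
    · exact h

/-- **Vanishing.**  A right `GL₂(𝒪_v)`-invariant, left `(N, ψ_v)`-equivariant function with
`F (x ϖ) = b F (x)` which vanishes at `diag(ϖ^j, 1)`, `j ≥ 0`, is zero. -/
theorem eq_zero_of_vanish820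
    (hψ : ∃ x : v.adicCompletion K, Valued.v x = WithZero.exp (1 : ℤ) ∧ ψv x ≠ 1)
    (hK : ∀ k : GL (Fin 2) (v.adicCompletion K), IsMaxCpt129 (v.adicCompletionIntegers K) k →
      ∀ x : GL (Fin 2) (v.adicCompletion K), F (x * k) = F x)
    (hN : ∀ (y : v.adicCompletion K) (x : GL (Fin 2) (v.adicCompletion K)),
      F (upperU129 y * x) = ψv y * F x)
    (hZ : ∀ x : GL (Fin 2) (v.adicCompletion K),
      F (x * diag129 ϖ ϖ (unif_ne_zero129 v hϖ) (unif_ne_zero129 v hϖ)) = b * F x)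
    (h0 : ∀ j : ℕ, F (dgl142 v ϖ (unif_ne_zero129 v hϖ) j) = 0)
    (x : GL (Fin 2) (v.adicCompletion K)) : F x = 0 := by
  have hϖ0 := unif_ne_zero129 v hϖ
  by_cases hb : b = 0
  · have := hZ (x * (diag129 ϖ ϖ hϖ0 hϖ0)⁻¹)
    rw [inv_mul_cancel_right, hb, zero_mul] at this
    exact this
  -- `F (diag(t, 1)) = 0`
  have hdiag : ∀ (t : v.adicCompletion K) (ht : t ≠ 0), F (diag129 t 1 ht one_ne_zero) = 0 := by
    intro t ht
    obtain ⟨n, hn⟩ := exists_exp820 v ht
    rcases le_or_gt 1 n with h1 | h1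
    · exact eq_zero_of_big820 hψ hK hN ht hn h1
    · obtain ⟨j, rfl⟩ : ∃ j : ℕ, n = -(j : ℤ) := ⟨(-n).toNat, by omega⟩
      have hu : Valued.v (t / ϖ ^ j) = 1 := by
        rw [map_div₀, hn, valued_pow820 v hϖ, ← WithZero.exp_sub, sub_self, WithZero.exp_zero]
      have e : diag129 t 1 ht one_ne_zero
          = dgl142 v ϖ hϖ0 j * diag129 (t / ϖ ^ j) 1 (ne_zero_of_valued_eq_one820 v hu)
              one_ne_zero := by
        unfold dgl142
        rw [diag_mul_diag820]
        exact diag_congr820 _ _ (mul_div_cancel₀ t (pow_ne_zero j hϖ0)).symm (one_mul 1).symm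
      rw [e, hK _ (isMaxCpt_diag820 v hu (map_one _)), h0]
  -- Iwasawa
  obtain ⟨B, k, rfl, hB, hk⟩ := iwasawa129 (v.adicCompletionIntegers K) x
  obtain ⟨y, y₁, y₂, h₁, h₂, rfl⟩ := upper_eq820 B hB
  rw [hK k hk, hN]
  have e : diag129 y₁ y₂ h₁ h₂
      = diag129 (y₁ / y₂) 1 (div_ne_zero h₁ h₂) one_ne_zero * diag129 y₂ y₂ h₂ h₂ := by
    rw [diag_mul_diag820]
    exact diag_congr820 _ _ (div_mul_cancel₀ y₁ h₂).symm (one_mul y₂).symm
  rw [e, scalar_zero820 hϖ hb hK hZ h₂ _ (hdiag _ _), mul_zero]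

end Vanish

/-! ## The Hecke sum at `diag(ϖ^j, 1)` -/

section Hecke

variable {v}
variable {ϖ : v.adicCompletion K} (hϖ : Valued.v ϖ = WithZero.exp (-1 : ℤ))
  {ψv : v.adicCompletion K → ℂ} {w : GL (Fin 2) (v.adicCompletion K) → ℂ} {b : ℂ}

theorem w_some820 [Fintype (𝓞 K ⧸ v.asIdeal)]
    (hψ1 : ∀ x : v.adicCompletion K, x ∈ v.adicCompletionIntegers K → ψv x = 1)
    (hN : ∀ (y : v.adicCompletion K) (x : GL (Fin 2) (v.adicCompletion K)),
      w (upperU129 y * x) = ψv y * w x) (j : ℕ) (c : 𝓞 K ⧸ v.asIdeal) :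
    w (dgl142 v ϖ (unif_ne_zero129 v hϖ) j * stdLoc142 v ϖ (unif_ne_zero129 v hϖ) (some c))
      = w (dgl142 v ϖ (unif_ne_zero129 v hϖ) (j + 1)) := by
  have hϖ0 := unif_ne_zero129 v hϖ
  have e : dgl142 v ϖ hϖ0 j * stdLoc142 v ϖ hϖ0 (some c)
      = upperU129 (ϖ ^ j * rep129 v c) * dgl142 v ϖ hϖ0 (j + 1) := by
    unfold dgl142
    simp only [stdLoc142]
    rw [diag_mul_stdSome820 (ϖ ^ j) ϖ (rep129 v c) (pow_ne_zero j hϖ0) hϖ0]
    congr 1
  have hmem : ϖ ^ j * rep129 v c ∈ v.adicCompletionIntegers K :=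
    (v.adicCompletionIntegers K).mul_mem _ _
      ((v.adicCompletionIntegers K).pow_mem (unif_mem129 v hϖ) j) (rep129_mem v c)
  rw [e, hN, hψ1 _ hmem, one_mul]

theorem w_none_succ820
    (hZ : ∀ x : GL (Fin 2) (v.adicCompletion K),
      w (x * diag129 ϖ ϖ (unif_ne_zero129 v hϖ) (unif_ne_zero129 v hϖ)) = b * w x) (j : ℕ) :
    w (dgl142 v ϖ (unif_ne_zero129 v hϖ) (j + 1) * stdLoc142 v ϖ (unif_ne_zero129 v hϖ) none)
      = b * w (dgl142 v ϖ (unif_ne_zero129 v hϖ) j) := by
  have hϖ0 := unif_ne_zero129 v hϖ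
  have e : dgl142 v ϖ hϖ0 (j + 1) * stdLoc142 v ϖ hϖ0 none
      = dgl142 v ϖ hϖ0 j * diag129 ϖ ϖ hϖ0 hϖ0 := by
    unfold dgl142
    simp only [stdLoc142]
    rw [← diag_mul_stdNone820 (ϖ ^ j) ϖ (pow_ne_zero j hϖ0) hϖ0]
    congr 1
  rw [e, hZ]

theorem w_none_zero820
    (hψ : ∃ x : v.adicCompletion K, Valued.v x = WithZero.exp (1 : ℤ) ∧ ψv x ≠ 1)
    (hK : ∀ k : GL (Fin 2) (v.adicCompletion K), IsMaxCpt129 (v.adicCompletionIntegers K) k →
      ∀ x : GL (Fin 2) (v.adicCompletion K), w (x * k) = w x)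
    (hN : ∀ (y : v.adicCompletion K) (x : GL (Fin 2) (v.adicCompletion K)),
      w (upperU129 y * x) = ψv y * w x)
    (hZ : ∀ x : GL (Fin 2) (v.adicCompletion K),
      w (x * diag129 ϖ ϖ (unif_ne_zero129 v hϖ) (unif_ne_zero129 v hϖ)) = b * w x) :
    w (dgl142 v ϖ (unif_ne_zero129 v hϖ) 0 * stdLoc142 v ϖ (unif_ne_zero129 v hϖ) none) = 0 := by
  have hϖ0 := unif_ne_zero129 v hϖ
  have e : dgl142 v ϖ hϖ0 0 * stdLoc142 v ϖ hϖ0 none
      = diag129 ϖ⁻¹ 1 (inv_ne_zero hϖ0) one_ne_zero * diag129 ϖ ϖ hϖ0 hϖ0 := by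
    unfold dgl142
    simp only [stdLoc142]
    rw [diag_mul_diag820]
    apply ext_mat129
    rw [Matrix.GeneralLinearGroup.coe_mul, coe_diag820, coe_diag820, coe_mkGL129,
      inv_mul_cancel₀ hϖ0]
    ext i j
    fin_cases i <;> fin_cases j <;> simp [Matrix.mul_apply, Fin.sum_univ_two]
  have hval : Valued.v (ϖ⁻¹ : v.adicCompletion K) = WithZero.exp (1 : ℤ) := by
    rw [map_inv₀, hϖ, ← WithZero.exp_neg, neg_neg]
  rw [e, hZ, eq_zero_of_big820 hψ hK hN (inv_ne_zero hϖ0) hval le_rfl, mul_zero]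

/-- The Hecke sum at `diag(ϖ^j, 1)` is `√q a ω_j`. -/
theorem hecke_at_diag820 [Fintype (𝓞 K ⧸ v.asIdeal)] {a : ℂ}
    (hψ1 : ∀ x : v.adicCompletion K, x ∈ v.adicCompletionIntegers K → ψv x = 1)
    (hψ : ∃ x : v.adicCompletion K, Valued.v x = WithZero.exp (1 : ℤ) ∧ ψv x ≠ 1)
    (hK : ∀ k : GL (Fin 2) (v.adicCompletion K), IsMaxCpt129 (v.adicCompletionIntegers K) k →
      ∀ x : GL (Fin 2) (v.adicCompletion K), w (x * k) = w x)
    (hN : ∀ (y : v.adicCompletion K) (x : GL (Fin 2) (v.adicCompletion K)),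
      w (upperU129 y * x) = ψv y * w x)
    (hZ : ∀ x : GL (Fin 2) (v.adicCompletion K),
      w (x * diag129 ϖ ϖ (unif_ne_zero129 v hϖ) (unif_ne_zero129 v hϖ)) = b * w x)
    (hrec : Rec142 v (fun j => w (dgl142 v ϖ (unif_ne_zero129 v hϖ) j)) a b) (j : ℕ) :
    ∑ c : Option (𝓞 K ⧸ v.asIdeal),
        w (dgl142 v ϖ (unif_ne_zero129 v hϖ) j * stdLoc142 v ϖ (unif_ne_zero129 v hϖ) c)
      = sqC142 v * a * w (dgl142 v ϖ (unif_ne_zero129 v hϖ) j) := by
  rw [Fintype.sum_option, Finset.sum_congr rfl fun c _ => w_some820 hϖ hψ1 hN j c,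
    Finset.sum_const, Finset.card_univ, nsmul_eq_mul, ← qC_eq_card820]
  cases j with
  | zero =>
    rw [w_none_zero820 hϖ hψ hK hN hZ, zero_add]
    exact hrec.1
  | succ j =>
    rw [w_none_succ820 hϖ hZ, add_comm]
    exact hrec.2 j

end Hecke

/-! ## The leaf -/

/-- **LEAF A2.03.8.4** `H142.LocalAlgC`. -/
theorem localAlgC820 : LocalAlgC := by
  intro K _ _ v ϖ hϖ ψv w a b _hadd hψ1 hψ hK hN hZ hrec x
  classical
  have : Finite (𝓞 K ⧸ v.asIdeal) := finite_quot820 v
  let _ : Fintype (𝓞 K ⧸ v.asIdeal) := Fintype.ofFinite _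
  have : Finite (IsLocalRing.ResidueField (v.adicCompletionIntegers K)) :=
    finite_residueField129 K v
  have hϖ0 := unif_ne_zero129 v hϖ
  rw [finsum_eq_sum_of_fintype]
  -- the difference
  set Δ : GL (Fin 2) (v.adicCompletion K) → ℂ := fun x =>
    (∑ c : Option (𝓞 K ⧸ v.asIdeal), w (x * stdLoc142 v ϖ hϖ0 c)) - sqC142 v * a * w x with hΔ
  have hΔK : ∀ k : GL (Fin 2) (v.adicCompletion K),
      IsMaxCpt129 (v.adicCompletionIntegers K) k →
      ∀ x : GL (Fin 2) (v.adicCompletion K), Δ (x * k) = Δ x := by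
    intro k hk x
    simp only [hΔ]
    rw [heckeSum_maxCpt820 (v.adicCompletionIntegers K) (stdLoc142 v ϖ hϖ0)
      (card_option_quot820 v) (stdLoc_isHecke820 v hϖ) (stdLoc_not_int820 v hϖ) w hK k hk x,
      hK k hk x]
  have hΔN : ∀ (y : v.adicCompletion K) (x : GL (Fin 2) (v.adicCompletion K)),
      Δ (upperU129 y * x) = ψv y * Δ x := by
    intro y x
    simp only [hΔ]
    rw [Finset.sum_congr rfl fun c _ => by rw [mul_assoc, hN], ← Finset.mul_sum, hN]
    ring
  have hΔZ : ∀ x : GL (Fin 2) (v.adicCompletion K),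
      Δ (x * diag129 ϖ ϖ hϖ0 hϖ0) = b * Δ x := by
    intro x
    simp only [hΔ]
    rw [Finset.sum_congr rfl fun c _ => by
      rw [mul_assoc, scalar_comm820, ← mul_assoc, hZ], ← Finset.mul_sum, hZ]
    ring
  have hΔ0 : ∀ j : ℕ, Δ (dgl142 v ϖ hϖ0 j) = 0 := by
    intro j
    simp only [hΔ]
    rw [hecke_at_diag820 hϖ hψ1 hψ hK hN hZ hrec j, sub_self]
  have := eq_zero_of_vanish820 hϖ hψ hΔK hΔN hΔZ hΔ0 x
  simp only [hΔ] at this
  exact sub_eq_zero.1 this

end Fermat.Agent.LT.A2.H820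

end

end
-- ===== PACK-END LT/A2/H820/LocalAlg.lean

-- ===== PACK-BEGIN LT/A2/H139/GaussSum.lean
section



/-!
# Row LT, tower A2, sub-leaf A2.03.4.2: `H904.GaussSumC` (helper139)

OFF-MAIN.  `gaussSumC139 : Fermat.Agent.LT.A2.H904.GaussSumC`, unconditional.
Spec: `LT/A2/H904/LiftBddSpec.lean` (helper904@539b3999f, sha256 45227c3c…), byte-identical copy.
Proof: `GaussDen.lean` (bounded denominators of a compact set of finite adeles) and
`GaussLat.lean` (Gaussian sums over the lattice `M⁻¹ 𝒪_K²`, `q ≥ M⁻²` on the nonzero vectors).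
-/

set_option autoImplicit false

open IsDedekindDomain NumberField

noncomputable section

namespace Fermat.Agent.LT.A2.H139

theorem norm_inf139 (K : Type) [Field K] [NumberField K] (x : K) (w : InfinitePlace K) :
    ‖(algebraMap K (InfiniteAdeleRing K) x) w‖ = w x := by
  rw [InfiniteAdeleRing.algebraMap_apply]
  exact InfinitePlace.Completion.norm_coe (v := w) _

theorem gaussT_eq139 (K : Type) [Field K] [NumberField K]
    (B : Set (FiniteAdeleRing (𝓞 K) K × FiniteAdeleRing (𝓞 K) K)) (δ σ : ℝ) :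
    H904.gaussT B δ σ = gaussG139 K B δ σ := by
  funext ξ
  have hq : (∑ w : InfinitePlace K, (‖(ratV ξ).1.1 w‖ ^ 2 + ‖(ratV ξ).2.1 w‖ ^ 2))
      = q139 K ξ.1 + q139 K ξ.2 := by
    unfold q139
    rw [← Finset.sum_add_distrib]
    refine Finset.sum_congr rfl fun w _ => ?_
    have h1 : ‖(ratV ξ).1.1 w‖ = w ξ.1 := norm_inf139 K ξ.1 w
    have h2 : ‖(ratV ξ).2.1 w‖ = w ξ.2 := norm_inf139 K ξ.2 w
    rw [h1, h2]
  unfold H904.gaussT gaussG139
  by_cases hξ : ((ratV ξ).1.2, (ratV ξ).2.2) ∈ B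
  · rw [Set.indicator_of_mem (show ξ ∈ {ξ : K × K | ((ratV ξ).1.2, (ratV ξ).2.2) ∈ B} from hξ),
      Set.indicator_of_mem (show ξ ∈ {ξ : K × K |
        (algebraMap K (FiniteAdeleRing (𝓞 K) K) ξ.1,
          algebraMap K (FiniteAdeleRing (𝓞 K) K) ξ.2) ∈ B} from hξ), hq]
  · rw [Set.indicator_of_notMem
        (show ξ ∉ {ξ : K × K | ((ratV ξ).1.2, (ratV ξ).2.2) ∈ B} from hξ),
      Set.indicator_of_notMem (show ξ ∉ {ξ : K × K |
        (algebraMap K (FiniteAdeleRing (𝓞 K) K) ξ.1,
          algebraMap K (FiniteAdeleRing (𝓞 K) K) ξ.2) ∈ B} from hξ)]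

/-- **A2.03.4.2 GAUSS-SUM** (`H904.GaussSumC`), unconditional. -/
theorem gaussSumC139 : H904.GaussSumC := by
  intro K _ _ B hB N δ σ₀ hδ hσ₀
  obtain ⟨C, hC⟩ := gaussSum_core139 K B hB N δ σ₀ hδ hσ₀
  refine ⟨C, fun σ hσ => ?_⟩
  rw [gaussT_eq139]
  exact hC σ hσ

end Fermat.Agent.LT.A2.H139

end
end
-- ===== PACK-END LT/A2/H139/GaussSum.lean

-- ===== PACK-BEGIN LT/A2/H965/CentAlg.lean
section


/-!
# Row LT, tower A2, leaf A2.03.8.3 `H142.CentC` (helper965), part 1: algebra — OFF-MAIN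

* the torus `T = {torMat t n a b}` is stable under products and inverses and contains the
  scalar matrices;
* a scalar uniformiser `z` at `v` is the scalar matrix of an idele `a` supported at `v`
  (`IsUnifIdeleAt v a`), it is central, and `z = t(a) d(a²)`, `det z = a²`.
-/

set_option autoImplicit false

open IsDedekindDomain NumberField AutomorphicForm MeasureTheory
open scoped MatrixGroups

noncomputable section

namespace Fermat.Agent.LT.A2.H965

open Fermat.Agent.LT.H556 Fermat.Agent.LT.H556.A0 Fermat.Agent.LT.H129 Fermat.Agent.LT.A2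

/-! ## The torus matrices -/

section TorAlg

variable {R : Type*} [CommRing R]

theorem torMat_mul965 (t n a b a' b' : R) :
    torMat t n a b * torMat t n a' b'
      = torMat t n (a * a' - n * b * b') (a * b' + a' * b + t * b * b') := by
  unfold torMat
  ext i j
  fin_cases i <;> fin_cases j <;> simp [Matrix.mul_apply, Fin.sum_univ_two] <;> ring

theorem torMat_det965 (t n a b : R) :
    (torMat t n a b).det = a ^ 2 + t * a * b + n * b ^ 2 := by
  unfold torMat
  rw [Matrix.det_fin_two_of]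
  ring

theorem torMat_one965 (t n : R) : torMat t n 1 0 = 1 := by
  unfold torMat
  ext i j
  fin_cases i <;> fin_cases j <;> simp

theorem torMat_scalar965 (t n a : R) : torMat t n a 0 = Matrix.diagonal (fun _ => a) := by
  unfold torMat
  ext i j
  fin_cases i <;> fin_cases j <;> simp

end TorAlg

variable {K : Type} [Field K] [NumberField K]

theorem inTorus_mul965 {t n : K} {m m' : G K} (h : InTorus t n m) (h' : InTorus t n m') :
    InTorus t n (m * m') := by
  obtain ⟨a, b, hm⟩ := h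
  obtain ⟨a', b', hm'⟩ := h'
  refine ⟨a * a' - algebraMap K (Adl K) n * b * b',
    a * b' + a' * b + algebraMap K (Adl K) t * b * b', ?_⟩
  rw [Matrix.GeneralLinearGroup.coe_mul, hm, hm', torMat_mul965]

theorem inTorus_inv965 {t n : K} {m : G K} (h : InTorus t n m) : InTorus t n m⁻¹ := by
  obtain ⟨a, b, hm⟩ := h
  set T := algebraMap K (Adl K) t with hT
  set N := algebraMap K (Adl K) n with hN
  set δ : (Adl K)ˣ := Matrix.GeneralLinearGroup.det m with hδ
  have hδv : (δ : Adl K) = a ^ 2 + T * a * b + N * b ^ 2 := by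
    rw [hδ, Matrix.GeneralLinearGroup.val_det_apply, hm, torMat_det965]
  set δ' : Adl K := ((δ⁻¹ : (Adl K)ˣ) : Adl K) with hδ'
  have hdd : (δ : Adl K) * δ' = 1 := Units.mul_inv δ
  refine ⟨(a + T * b) * δ', -b * δ', ?_⟩
  have hprod : (m : Matrix (Fin 2) (Fin 2) (Adl K)) * torMat T N ((a + T * b) * δ') (-b * δ')
      = 1 := by
    rw [hm, torMat_mul965, ← torMat_one965 T N]
    congr 1
    · calc a * ((a + T * b) * δ') - N * b * (-b * δ')
          = (a ^ 2 + T * a * b + N * b ^ 2) * δ' := by ring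
        _ = 1 := by rw [← hδv, hdd]
    · ring
  calc ((m⁻¹ : G K) : Matrix (Fin 2) (Fin 2) (Adl K))
      = ((m⁻¹ : G K) : Matrix (Fin 2) (Fin 2) (Adl K))
          * ((m : Matrix (Fin 2) (Fin 2) (Adl K)) * torMat T N ((a + T * b) * δ') (-b * δ')) := by
        rw [hprod, mul_one]
    _ = torMat T N ((a + T * b) * δ') (-b * δ') := by
        rw [← mul_assoc, ← Matrix.GeneralLinearGroup.coe_mul, inv_mul_cancel,
          Matrix.GeneralLinearGroup.coe_one, one_mul]

theorem inTorus_of_diagonal965 (t n : K) {z : G K} {a : Adl K}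
    (hz : (z : Matrix (Fin 2) (Fin 2) (Adl K)) = Matrix.diagonal (fun _ => a)) :
    InTorus t n z :=
  ⟨a, 0, by rw [hz, torMat_scalar965]⟩

/-! ## Scalar matrices are central -/

theorem central_of_diagonal965 {z : G K} {a : Adl K}
    (hz : (z : Matrix (Fin 2) (Fin 2) (Adl K)) = Matrix.diagonal (fun _ => a)) (g : G K) :
    g * z = z * g := by
  apply Units.ext
  rw [Matrix.GeneralLinearGroup.coe_mul, Matrix.GeneralLinearGroup.coe_mul, hz]
  ext i j
  rw [Matrix.mul_diagonal, Matrix.diagonal_mul, mul_comm]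

/-! ## The idele of a scalar uniformiser -/

/-- The entries of an element supported at `v`, at the infinite places. -/
theorem entry_inf965 {v : HeightOneSpectrum (𝓞 K)} {z : G K} (hz : IsLocalAtFin v z)
    (w : InfinitePlace K) (i j : Fin 2) :
    ((z : Matrix (Fin 2) (Fin 2) (Adl K)) i j).1 w
      = (1 : Matrix (Fin 2) (Fin 2) w.Completion) i j :=
  hz.1 w i j

/-- The entries of an element supported at `v`, at the other finite places. -/
theorem entry_fin965 {v : HeightOneSpectrum (𝓞 K)} {z : G K} (hz : IsLocalAtFin v z)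
    {v' : HeightOneSpectrum (𝓞 K)} (h : v' ≠ v) (i j : Fin 2) :
    ((z : Matrix (Fin 2) (Fin 2) (Adl K)) i j).2 v'
      = (1 : Matrix (Fin 2) (Fin 2) (v'.adicCompletion K)) i j :=
  congrFun (congrFun (hz.2 v' h) i) j

/-- A scalar uniformiser is a diagonal matrix with equal diagonal entries. -/
theorem scalarUnif_eq_diagonal965 {v : HeightOneSpectrum (𝓞 K)} {z : G K}
    (hz : IsScalarUniformizerAt v z) :
    (z : Matrix (Fin 2) (Fin 2) (Adl K))
      = Matrix.diagonal (fun _ => (z : Matrix (Fin 2) (Fin 2) (Adl K)) 0 0) := by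
  obtain ⟨hloc, c, -, hzc⟩ := hz
  have hv : ∀ i j, ((z : Matrix (Fin 2) (Fin 2) (Adl K)) i j).2 v
      = Matrix.diagonal (fun _ : Fin 2 => c) i j := fun i j => congrFun (congrFun hzc i) j
  ext i j
  refine congrFun (congrFun (show (z : Matrix (Fin 2) (Fin 2) (Adl K))
    = Matrix.diagonal (fun _ => (z : Matrix (Fin 2) (Fin 2) (Adl K)) 0 0) from ?_) i) j
  refine Matrix.ext fun i j => adele_ext129 (fun w => ?_) (fun v' => ?_)
  · rw [entry_inf965 hloc w i j]
    by_cases hij : i = j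
    · subst hij
      rw [Matrix.diagonal_apply_eq, entry_inf965 hloc w 0 0, Matrix.one_apply_eq,
        Matrix.one_apply_eq]
    · rw [Matrix.diagonal_apply_ne _ hij, Matrix.one_apply_ne hij]
      rfl
  · by_cases h : v' = v
    · subst h
      rw [hv i j]
      by_cases hij : i = j
      · subst hij
        rw [Matrix.diagonal_apply_eq, Matrix.diagonal_apply_eq, hv 0 0,
          Matrix.diagonal_apply_eq]
      · rw [Matrix.diagonal_apply_ne _ hij, Matrix.diagonal_apply_ne _ hij]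
        rfl
    · rw [entry_fin965 hloc h i j]
      by_cases hij : i = j
      · subst hij
        rw [Matrix.diagonal_apply_eq, entry_fin965 hloc h 0 0, Matrix.one_apply_eq,
          Matrix.one_apply_eq]
      · rw [Matrix.diagonal_apply_ne _ hij, Matrix.one_apply_ne hij]
        rfl

/-- **The idele of a scalar uniformiser**: `z = diag(a, a)` with `a` a uniformiser idele at
`v`. -/
theorem exists_idele_of_scalarUnif965 {v : HeightOneSpectrum (𝓞 K)} {z : G K}
    (hz : IsScalarUniformizerAt v z) :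
    ∃ a : (Adl K)ˣ, IsUnifIdeleAt v a ∧
      (z : Matrix (Fin 2) (Fin 2) (Adl K)) = Matrix.diagonal (fun _ => (a : Adl K)) := by
  have hdiag := scalarUnif_eq_diagonal965 hz
  have hdiag' := hdiag
  obtain ⟨hloc, c, hc, hzc⟩ := hz
  set x : Adl K := (z : Matrix (Fin 2) (Fin 2) (Adl K)) 0 0 with hx
  set y : Adl K := ((z⁻¹ : G K) : Matrix (Fin 2) (Fin 2) (Adl K)) 0 0 with hy
  have h01 : (z : Matrix (Fin 2) (Fin 2) (Adl K)) 0 1 = 0 := by
    rw [hdiag]
    exact Matrix.diagonal_apply_ne _ (by decide)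
  have h10 : (z : Matrix (Fin 2) (Fin 2) (Adl K)) 1 0 = 0 := by
    rw [hdiag]
    exact Matrix.diagonal_apply_ne _ (by decide)
  have hxy : x * y = 1 := by
    have h := congrFun (congrFun (show (z : Matrix (Fin 2) (Fin 2) (Adl K))
      * ((z⁻¹ : G K) : Matrix (Fin 2) (Fin 2) (Adl K)) = 1 from by
        rw [← Matrix.GeneralLinearGroup.coe_mul, mul_inv_cancel,
          Matrix.GeneralLinearGroup.coe_one]) 0) 0
    rw [Matrix.mul_apply, Fin.sum_univ_two, h01, zero_mul, add_zero, Matrix.one_apply_eq] at h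
    exact h
  have hyx : y * x = 1 := by rw [mul_comm]; exact hxy
  refine ⟨⟨x, y, hxy, hyx⟩, ⟨⟨fun w => ?_, fun v' h => ?_⟩, ?_⟩, hdiag'⟩
  · show x.1 w = 1
    rw [hx, entry_inf965 hloc w 0 0, Matrix.one_apply_eq]
  · show x.2 v' = 1
    rw [hx, entry_fin965 hloc h 0 0, Matrix.one_apply_eq]
  · show Valued.v (x.2 v) = WithZero.exp (-1 : ℤ)
    have : x.2 v = c := by
      have := congrFun (congrFun hzc 0) 0
      rw [Matrix.diagonal_apply_eq] at this
      exact this
    rw [this, hc]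

end Fermat.Agent.LT.A2.H965

end

end
-- ===== PACK-END LT/A2/H965/CentAlg.lean

-- ===== PACK-BEGIN LT/CFT/H1/StepC.lean
section









/-!
# Row LT, tower CFT, sub-tower REC2 (helper1), OFF-MAIN : sub-leaf SC2 = STEP C' (PROVED)

`stepC2 : StepC2Spec`, i.e. `CycloSumTCSpec I → KillAbove2Spec I`.

Copy of main `Fermat.Agent.S55.G.Rec.H174.killAboveP_core` (helper174): that proof uses `p ≠ 2`
only to feed STEP A (`Odd (ppart p r)`, `r ≠ 2`); with STEP A' (`CycloSumTCSpec`, any order, any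
prime `ℓ`) it works for every prime `p` over totally complex fields.  All helper lemmas are
imported from main (`SCH174/*`, `ZsigmondyH897`), unchanged.
-/

set_option autoImplicit false
set_option linter.style.haveILetI false
set_option linter.unusedSectionVars false

noncomputable section

namespace Fermat.Agent.LT.CFT.H1

open groupCohomology Fermat.Agent.S55.G.Rec Fermat.Agent.S55.G.Rec.H174

local notation "Qb" => AlgebraicClosure ℚ
local notation "GQ" => (AlgebraicClosure ℚ ≃ₐ[ℚ] AlgebraicClosure ℚ)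

/-- **STEP C'**, every prime `p`, totally complex fields. -/
theorem killAbovePTC_core (I : LocalInvSystem) (p : ℕ) [Fact p.Prime]
    (hK1 : CupLocSpec) (hK2 : CupAddSpec) (hL2 : LocalStructureSpec) (hL3 : UnramCupSpec I)
    (hL4 : CycloFrobSpec) (hL6 : LocalRootSpec) (hG3 : WeakApproxSpec)
    (hSA : CycloSumTCSpec I) :
    ∀ (U : Subgroup GQ), IsOpenQ U → IsTC U → ∀ x : gBr U, (∃ k : ℕ, p ^ k • x = 0) →
      ∃ y : gBr U, (∃ k : ℕ, p ^ k • y = 0) ∧ (∀ g : GQ, locBr p g U (x - y) = 0) ∧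
        ∀ R : Nat.Primes → Finset GQ, IsPlaceReps U R → I.sumInv U R y = 0 := by
  intro U hU hTC x hx
  obtain ⟨k, hk⟩ := hx
  have hp : p.Prime := Fact.out
  -- places above `p`
  obtain ⟨Rp, hRp⟩ := exists_placeReps hU p
  -- local structure at every `g`
  have hopen : ∀ g : GQ, IsOpenL p (locSub p g U) := fun g => H181.isOpenL_locSub p g hU
  choose f φ π hf hφmem hφ hπ hvπ hdec using fun g : GQ => hL2 p (locSub p g U) (hopen g)
  -- the auxiliary prime `r`
  obtain ⟨r, hr, hrp, hord, hdvd⟩ := H897.exists_prime_orderOf_eq_prime_pow' p hp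
    (k + Rp.sup (fun g => padicValNat p (f g)) + 1) (by omega)
  haveI : Fact r.Prime := ⟨hr⟩
  have hpr : p ≠ r := hrp.symm
  have hNpos : 1 ≤ k + Rp.sup (fun g => padicValNat p (f g)) + 1 := by omega
  have hprdvd : ¬ p ∣ r := fun h => hpr ((Nat.prime_dvd_prime_iff_eq hp hr).1 h)
  -- the character
  have hn0 : ppart p r ≠ 0 := ppart_ne_zero p r
  have hχlc : IsLevelConstant₁ U.subtype (chiU p r U) := isLevelConstant₁_chiU p r U
  have hχcyc : IsCycloChar U (r ^ 1) (chiU p r U) := isCycloChar_chiU p r U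
  have hrn : ¬ r ∣ ppart p r := by
    intro h
    exact hpr ((Nat.prime_dvd_prime_iff_eq hr hp).1 (hr.dvd_of_dvd_pow h)).symm
  -- Frobenius elements
  have hFrob : ∀ g : GQ, chiAdd (chiU p r U) (locHom p g U ⟨φ g, hφmem g⟩) =
      f g • tzero p r hpr := by
    intro g
    have hact := (hL4 p r hprdvd).2 (φ g) (f g) (hφ g)
    exact chiAdd_chiQ_of_acts p r hpr (acts_conj_loc p r (p ^ f g) g (φ g) hact)
  -- the local invariants of `x` above `p` are killed by `p ^ k`
  have hξ : ∀ g : GQ, p ^ k • I.inv p (locSub p g U) (locBr p g U x) = 0 := by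
    intro g
    rw [← map_nsmul, ← map_nsmul, hk, map_zero, map_zero]
  -- solving for the valuations
  have hsolve : ∀ g ∈ Rp, ∃ j : ℤ,
      ((((j : ℚ) * ((chiAdd (chiU p r U) (locHom p g U ⟨φ g, hφmem g⟩)).val : ℚ) /
        (ppart p r : ℚ) : ℚ)) : AddCircle (1 : ℚ)) = I.inv p (locSub p g U) (locBr p g U x) := by
    intro g hg
    have hle : padicValNat p (f g) ≤ Rp.sup (fun g => padicValNat p (f g)) :=
      Finset.le_sup (f := fun g => padicValNat p (f g)) hg
    obtain ⟨b, hkb, hb⟩ := addOrderOf_nsmul_prime_pow (k := k) hp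
      (addOrderOf_tzero p r hpr hord) (hf g).1.ne' (by omega)
    rw [hFrob g]
    exact exists_int_mul_val_div_eq (ppart p r) hp _ hb hkb (hξ g)
  choose! j hj using hsolve
  -- weak approximation
  obtain ⟨a, ha, hap, har⟩ := hG3 U hU p r hpr Rp hRp j
  refine ⟨gcc U (ppart p r) (chiU p r U) a, ⟨expM p r, ?_⟩, ?_, ?_⟩
  · -- `y` is killed by `p ^ M`
    exact gcc_nsmul_eq_zero hK2 U (ppart p r) hn0 (chiU p r U) hχlc a ha
  · -- local triviality of `x - y` above `p`
    intro g'
    obtain ⟨r₀, ⟨hr₀, hrep⟩, -⟩ := hRp g'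
    refine locBr_eq_zero_of_doubleCoset p hU hrep _ ?_
    apply I.inv_injective p (locSub p r₀ U) (hopen r₀)
    rw [map_zero, map_sub, map_sub, sub_eq_zero, ← hj r₀ hr₀]
    obtain ⟨⟨hlc', hfix'⟩, heq⟩ := hK1 p r₀ U (ppart p r) (chiU p r U) a hn0 hχlc ha
    rw [heq]
    -- the localised character is unramified
    have hunr : ∀ τ : ↥(locSub p r₀ U),
        IsInertial p (τ : PadicAlgCl p ≃ₐ[ℚ_[p]] PadicAlgCl p) →
        (chiU p r U).comp (locHom p r₀ U) τ = 1 := by
      intro τ hτ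
      have hfixμ := (hL4 p r hprdvd).1 (τ : PadicAlgCl p ≃ₐ[ℚ_[p]] PadicAlgCl p) hτ
      show chiQ p r (r₀ * localGaloisToGlobal p τ * r₀⁻¹) = 1
      apply chiQ_eq_one_of_fixes
      intro ζ hζ
      have := acts_conj_loc p r 1 r₀ (τ : PadicAlgCl p ≃ₐ[ℚ_[p]] PadicAlgCl p)
        (fun ζ' hζ' => by rw [hfixμ ζ' hζ', pow_one]) ζ hζ
      rwa [pow_one] at this
    -- the valuation of `a` at the place `r₀`
    obtain ⟨π', u', hπ', hu', hdec'⟩ := hap r₀ hr₀
    obtain ⟨k', u, hufix, hu, hdecL, hvdeg⟩ := hdec r₀ (locPushMul p r₀ a) hfix'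
    have hkj : k' = j r₀ := zpow_exponent_unique p (hπ r₀) hπ' hu hu' (hdecL.symm.trans hdec')
    rw [hkj] at hvdeg
    have hinv := hL3 p (locSub p r₀ U) (hopen r₀) (ppart p r)
      ((chiU p r U).comp (locHom p r₀ U)) hlc' hunr (f r₀) (hf r₀) ⟨φ r₀, hφmem r₀⟩ (hφ r₀)
      (locPushMul p r₀ a) hfix' (j r₀) hvdeg
    rw [hinv]
    rfl
  · -- the sum of the invariants of `y` vanishes
    intro R hR
    refine hSA U hU hTC r 1 one_pos (ppart p r) hn0 (chiU p r U) hχlc hχcyc a ha ?_ R hR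
    intro g
    obtain ⟨⟨hlc', hfix'⟩, heq⟩ := hK1 r g U (ppart p r) (chiU p r U) a hn0 hχlc ha
    rw [heq]
    obtain ⟨b, hb, hba⟩ := hL6 r (locSub r g U) (ppart p r) hrn (locPushMul r g a) hfix' (har g)
    rw [← hba]
    exact lcc_pow_self_eq_zero r hK2 _ _ hn0 _ hlc' b hb

/-- **SC2**: STEP C' at `p = 2`. -/
theorem stepC2 : StepC2Spec := fun I hSA =>
  killAbovePTC_core I 2 H496.cupLoc H496.cupAdd H931.localStructure
    (H900.unramCup_of H931.localStructure H496.cupAdd I) H854.cycloFrob H854.localRoot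
    H742.weakApprox hSA

end Fermat.Agent.LT.CFT.H1

end
end
-- ===== PACK-END LT/CFT/H1/StepC.lean

-- ===== PACK-BEGIN LT/T2/H32/USCore.lean
section




/-!
# Row LT, tower T2, leaf T2.23a.2 `LeafUnifSmoothCore250` (registry row 1438): SPARE of helper32

OFF-MAIN.  `H250.LeafUnifSmoothCore250 K`, VERBATIM against `LT/T2/H250/FDTop.lean` (helper250,
sha256 ba6afe34): the uniform smoothness T2.03a.2 for the CORE class `H465.IsTestCore` (no
condition at `K_∞` on the test function).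

The proof is THE PROOF of helper437 (`LT/T2/H437/USTop.lean`, `unifSmooth_of_leaves437`,
helper437@34495ac88), line by line: it uses of the test function the fields `cpt`, `smooth`,
`level_right` only, which `H465.IsTestCore` has under the same names.  All the credit goes to
helper437 (top), helper8 (FD calculus), helper187 (level neighbourhood), helper793 (compactness).
-/

set_option autoImplicit false
set_option linter.unusedSectionVars false

open IsDedekindDomain NumberField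
open Fermat.Agent.LT.H556.A0 Fermat.Agent.LT.T1.H724 Fermat.Agent.LT.T2.H724
open Fermat.Agent.LT.T2.H386 Fermat.Agent.LT.T2.H511 Fermat.Agent.LT.T2
open Fermat.Agent.LT.T2.H437

noncomputable section

namespace Fermat.Agent.LT.T2.H32

variable {K : Type} [Field K] [NumberField K]

/-- **T2.03a.2 for the core class** (the proof of helper437, verbatim). -/
theorem unifSmoothCore32 (hFD : FDCalcC437) (hLN : LevelNhdsC437 K) (hCpt : CptC K)
    (𝔫 : Ideal (𝓞 K)) (h𝔫 : 𝔫 ≠ ⊥) : H250.UnifSmoothP250 K (H465.IsTestCore 𝔫) := by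
  intro f hf Ω hΩ R M
  obtain ⟨hC1, -, hC3, -⟩ := hCpt
  set r : ℝ := max 1 R with hr
  have hr1 : (1 : ℝ) ≤ r := le_max_left _ _
  have hrR : R ≤ r := le_max_right _ _
  have hr0 : (0 : ℝ) ≤ r := zero_le_one.trans hr1
  -- the box and the compact set `W⁻¹ supp f`
  have hBox : IsCompact (box511 ({0} : Set (Adl K)) (M * r) 1) :=
    hC3 {0} isCompact_singleton (M * r) 1
  have hW : IsCompact (conjSet511 Ω (box511 ({0} : Set (Adl K)) (M * r) 1)) :=
    hC1 Ω hΩ _ hBox
  have hH₀ : IsCompact ((fun p : G K × G K => p.1⁻¹ * p.2) ''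
      (conjSet511 Ω (box511 ({0} : Set (Adl K)) (M * r) 1) ×ˢ tsupport f)) :=
    (hW.prod hf.cpt).image (continuous_fst.inv.mul continuous_snd)
  -- the coverings
  obtain ⟨TΩ, hTΩ⟩ := exists_cover437 hΩ (isOpen_nbInf437.mem_nhds one_mem_nbInf437)
  obtain ⟨TH, hTH⟩ := exists_cover437 hH₀
    (Filter.inter_mem (isOpen_nbInf437.mem_nhds one_mem_nbInf437) (hLN 𝔫 h𝔫))
  -- the constants of the charts
  have hB : ∀ ω₀ h₀ : G K, ∃ B : ℝ, 0 ≤ B ∧ ∀ x : Fin (nPar437 K) → ℝ, ‖x‖ ≤ r →
      ∀ ε : ℝ, 0 ≤ ε → ε ≤ 1 → ∀ ts : List (Fin (nPar437 K) → ℝ), ts.length = M →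
        (∀ t ∈ ts, ‖t‖ ≤ ε * r) →
        ‖rdiff437 ts (fun q => f (h₀ * famQ437 ω₀ h₀ q)) x‖ ≤ B * ε ^ M :=
    fun ω₀ h₀ => hFD _ _ (contDiff_chartFn437 hf.smooth ω₀ h₀) M r
  choose B hB0 hB using hB
  have hsum0 : 0 ≤ ∑ ω₀ ∈ TΩ, ∑ h₀ ∈ TH, B ω₀ h₀ :=
    Finset.sum_nonneg fun _ _ => Finset.sum_nonneg fun _ _ => hB0 _ _
  refine ⟨∑ ω₀ ∈ TΩ, ∑ h₀ ∈ TH, B ω₀ h₀, hsum0, ?_⟩
  intro ω hω h ε hε hε1 τs hlen hτ
  have hτ' : ∀ τ ∈ τs, τ.2 = 0 ∧ ∀ w : InfinitePlace K, ‖τ.1 w‖ ≤ ε * r := fun τ hτm =>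
    ⟨(hτ τ hτm).1, fun w => ((hτ τ hτm).2 w).trans (mul_le_mul_of_nonneg_left hrR hε.le)⟩
  by_cases hh : h ∈ (fun p : G K × G K => p.1⁻¹ * p.2) ''
      (conjSet511 Ω (box511 ({0} : Set (Adl K)) (M * r) 1) ×ˢ tsupport f)
  · obtain ⟨ω₀, hω₀T, hω₀⟩ := hTΩ ω hω
    obtain ⟨h₀, hh₀T, hh₀⟩ := hTH h hh
    obtain ⟨X, hX1, hXe⟩ := exists_chart437 hω₀
    obtain ⟨X', hX'1, hX'e⟩ := exists_chart437 hh₀.1
    have key : ∀ y : Adl K, y.2 = 0 →
        f (ω⁻¹ * unip386 y * ω * h)
          = f (h₀ * famQ437 ω₀ h₀ (pack437 X (coordInf437 y) X')) := by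
      intro y hy
      have e := fam_rel437 ω₀ h₀ ω (h₀⁻¹ * h) X X' y hy hXe hX'e
      rw [mul_inv_cancel_left] at e
      rw [e, hf.level_right _ (inLevelGroup_finPart437 hh₀.2)]
      simp only [famQ437, parX_pack437, parT_pack437, parY_pack437]
    rw [bdiff_transfer437 X X' τs (fun y => f (ω⁻¹ * unip386 y * ω * h))
      (fun q => f (h₀ * famQ437 ω₀ h₀ q)) key (fun τ hτm => (hτ τ hτm).1) 0 rfl]
    have hbase : ‖pack437 X (coordInf437 (0 : Adl K)) X'‖ ≤ r := by
      refine norm_pack_le437 _ _ _ hr0 (fun w i j b => (hX1 w i j b).trans hr1) ?_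
        (fun w i j b => (hX'1 w i j b).trans hr1)
      intro w b
      rw [coordInf_zero437, abs_zero]
      exact hr0
    have hsteps : ∀ t ∈ τs.map stepQ437, ‖t‖ ≤ ε * r := by
      intro t ht
      obtain ⟨τ, hτm, rfl⟩ := List.mem_map.mp ht
      have h0 : (0 : ℝ) ≤ ε * r := mul_nonneg hε.le hr0
      refine norm_pack_le437 _ _ _ h0 (fun _ _ _ _ => by rw [abs_zero]; exact h0) ?_
        (fun _ _ _ _ => by rw [abs_zero]; exact h0)
      intro w b
      exact (abs_coordInf_le437 τ w b).trans ((hτ' τ hτm).2 w)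
    calc ‖rdiff437 (τs.map stepQ437) (fun q => f (h₀ * famQ437 ω₀ h₀ q))
          (pack437 X (coordInf437 (0 : Adl K)) X')‖
        ≤ B ω₀ h₀ * ε ^ M :=
          hB ω₀ h₀ _ hbase ε hε.le hε1 _ (by rw [List.length_map, hlen]) hsteps
      _ ≤ (∑ ω₀ ∈ TΩ, ∑ h₀ ∈ TH, B ω₀ h₀) * ε ^ M := by
        refine mul_le_mul_of_nonneg_right ?_ (pow_nonneg hε.le M)
        calc B ω₀ h₀ ≤ ∑ h₀ ∈ TH, B ω₀ h₀ :=
              Finset.single_le_sum (f := fun h₀ => B ω₀ h₀) (fun _ _ => hB0 _ _) hh₀T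
          _ ≤ ∑ ω₀ ∈ TΩ, ∑ h₀ ∈ TH, B ω₀ h₀ :=
              Finset.single_le_sum (f := fun ω₀ => ∑ h₀ ∈ TH, B ω₀ h₀)
                (fun _ _ => Finset.sum_nonneg fun _ _ => hB0 _ _) hω₀T
  · have hz : bdiff511 τs (fun y => f (ω⁻¹ * unip386 y * ω * h)) 0 = 0 := by
      refine bdiff_vanish437 (ε * r) (mul_nonneg hε.le hr0) τs _ 0 hτ' ?_ 0 rfl
        (fun w => ?_)
      · intro y hy hyc
        by_contra hne
        apply hh
        refine ⟨(ω⁻¹ * unip386 y * ω, ω⁻¹ * unip386 y * ω * h),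
          ⟨?_, subset_tsupport f hne⟩, inv_mul_cancel_left _ _⟩
        refine ⟨ω, hω, y, ⟨fun w => ?_, 0, rfl, ?_⟩, rfl⟩
        · calc ‖y.1 w‖ ≤ 0 + τs.length * (ε * r) := hyc w
            _ ≤ M * r := by
              rw [hlen, zero_add]
              exact mul_le_mul_of_nonneg_left (mul_le_of_le_one_left hr0 hε1)
                (Nat.cast_nonneg M)
        · rw [hy, mul_zero]
          rfl
      · have e : (0 : Adl K).1 w = 0 := rfl
        rw [e, norm_zero]
    rw [hz, norm_zero]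
    exact mul_nonneg hsum0 (pow_nonneg hε.le M)

/-- **T2.23a.2 `LeafUnifSmoothCore250`** from the three sub-leaves of helper437 (`T1.T1Out K`
is not used). -/
theorem leafUnifSmoothCore_of_leaves32 (hFD : FDCalcC437) (hLN : LevelNhdsC437 K)
    (hCpt : CptC K) : H250.LeafUnifSmoothCore250 K :=
  fun _ 𝔫 h𝔫 => unifSmoothCore32 hFD hLN hCpt 𝔫 h𝔫

end Fermat.Agent.LT.T2.H32

end

end
-- ===== PACK-END LT/T2/H32/USCore.lean

-- ===== PACK-BEGIN LT/T8/H468/HeckeRaw.lean
section



/-!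
# Row LT, tower T8, sub-leaf `HoroC`, leaf HECKE-RAW (helper468, OFF-MAIN, shadow of helper864)

`heckeRawC468 : Fermat.Agent.LT.H51.MS4.HeckeRawC` (PROVED, no hole), VERBATIM vs
`LT/H51/MS4E.lean` (helper51): the two clauses of `A0.IsHeckeEigenAt` on the explicit coset system
of `T8/H864/Coset.lean` (helper864), with `absNorm (vP p) = p`.
-/

set_option autoImplicit false

open IsDedekindDomain NumberField AutomorphicForm
open scoped MatrixGroups Classical WithZero

noncomputable section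

namespace Fermat.Agent.LT.T8.H468

open Fermat.Agent.LT.H556.A0 Fermat.Agent.LT.T8.H864 Fermat.Agent.LT.H51.MS4

/-- The norm of the place over `p` is `p`. -/
theorem absNorm_vP468 (p : ℕ) (hp : p.Prime) : Ideal.absNorm (vP p hp).asIdeal = p := by
  have h1 : ∀ n : ℕ, Ideal.absNorm (vP p hp).asIdeal ∣ n ↔ p ∣ n := by
    intro n
    have h2 := intCast_mem_asIdeal_iff (vP p hp) (n : ℤ)
    have h3 := natCast_mem_iff (vP p hp) n
    rw [natGenerator_vP] at h3
    rw [Int.cast_natCast] at h2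
    rw [← h3, h2, Int.natCast_dvd_natCast]
  exact Nat.dvd_antisymm ((h1 p).2 dvd_rfl) ((h1 _).1 dvd_rfl)

/-- The two names of `[[a, b], [0, d]]`. -/
theorem triGL_eq_ut468 (a b d : ℚ) : triGL a b d = ut a b d := by
  unfold triGL ut
  split_ifs
  · rfl
  · rfl

theorem triAd_eq_locFinK_ut468 (v : HeightOneSpectrum (𝓞 ℚ)) (a b d : ℚ) :
    triAd v a b d = locFinK v (ut a b d) := by
  rw [triAd, triGL_eq_ut468]

/-- The `T_p`-clause on the explicit coset system. -/
theorem heckeSumQ468 (π : HeckeEigensystem ℚ ℂ) (φ : G ℚ → ℂ) (hφ : IsSph0CuspFormFor π φ) :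
    HeckeSumQ π φ := by
  intro p hp hlev M hpM g
  set v := vP p hp with hv
  have hq : Ideal.absNorm v.asIdeal = p := absNorm_vP468 p hp
  have hM0 : (M : ℤ) ≠ 0 := by
    intro h0
    apply hpM
    have : M = 0 := by exact_mod_cast h0
    rw [this]
    exact dvd_zero p
  have hcop : IsCoprime (-(M : ℤ)) ((Ideal.absNorm v.asIdeal : ℕ) : ℤ) := by
    rw [hq, IsCoprime.neg_left_iff]
    have h1 : Nat.Coprime p M := (Nat.Prime.coprime_iff_not_dvd hp).2 hpM
    exact (Nat.isCoprime_iff_coprime.2 h1).symm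
  have hsys := isHeckeCosetSystem_rat v hcop
  have hϖ := valuation_absNorm_rat v
  have hϖ0 : ((Ideal.absNorm v.asIdeal : ℕ) : ℚ) ≠ 0 := ne_zero_of_unif v hϖ
  have key := (hφ.hecke v hlev).1 _ hsys g
  have hnot : triAd v 1 0 ((Ideal.absNorm v.asIdeal : ℕ) : ℚ) ∉
      (resSet v (-(M : ℤ))).image
        (fun r => triAd v ((Ideal.absNorm v.asIdeal : ℕ) : ℚ) r 1) := by
    intro hmem
    obtain ⟨r, -, hr⟩ := Finset.mem_image.1 hmem
    exact lo_ne_up v hϖ r hr.symm
  have hinj1 : Function.Injective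
      (fun r : ℚ => triAd v ((Ideal.absNorm v.asIdeal : ℕ) : ℚ) r 1) :=
    triAd_injective_mid v (by simpa using hϖ0)
  have hinj2 : Function.Injective (fun j : ℕ => ((-(M : ℤ) * (j : ℤ) : ℤ) : ℚ)) := by
    intro j j' h
    have h0 : ((-(M : ℤ) * (j : ℤ) : ℤ) : ℚ) = ((-(M : ℤ) * (j' : ℤ) : ℤ) : ℚ) := h
    have h1 : -(M : ℤ) * (j : ℤ) = -(M : ℤ) * (j' : ℤ) := by exact_mod_cast h0
    exact_mod_cast mul_left_cancel₀ (neg_ne_zero.2 hM0) h1
  rw [heckeSet, Finset.sum_insert hnot, Finset.sum_image (fun _ _ _ _ h => hinj1 h), resSet,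
    Finset.sum_image (fun _ _ _ _ h => hinj2 h), hq] at key
  have e1 : φ (g * triAd v 1 0 ((p : ℕ) : ℚ)) = φ (g * locFinK v (ut (1 : ℚ) 0 (p : ℚ))) := by
    rw [triAd_eq_locFinK_ut468]
  have e2 : ∑ x ∈ Finset.range p, φ (g * triAd v ((p : ℕ) : ℚ) ((-(M : ℤ) * (x : ℤ) : ℤ) : ℚ) 1)
      = ∑ j ∈ Finset.range p, φ (g * locFinK v (ut (p : ℚ) (-((j : ℚ) * (M : ℚ))) 1)) := by
    refine Finset.sum_congr rfl (fun j _ => ?_)
    rw [triAd_eq_locFinK_ut468]
    have e : ((-(M : ℤ) * (j : ℤ) : ℤ) : ℚ) = -((j : ℚ) * (M : ℚ)) := by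
      push_cast
      ring
    rw [e]
  rw [e1, e2] at key
  rw [← key, add_comm]

/-- The `S_p`-clause for the scalar `p` at `p`. -/
theorem heckeScalarQ468 (π : HeckeEigensystem ℚ ℂ) (φ : G ℚ → ℂ) (hφ : IsSph0CuspFormFor π φ) :
    HeckeScalarQ π φ := by
  intro p hp hlev g
  set v := vP p hp with hv
  have hq : Ideal.absNorm v.asIdeal = p := absNorm_vP468 p hp
  have hϖ := valuation_absNorm_rat v
  have key := (hφ.hecke v hlev).2 _ (isScalarUniformizerAt_triAd v hϖ) g
  rw [triAd_eq_locFinK_ut468, hq] at key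
  exact key

/-- **Leaf HECKE-RAW** of `LT/H51/MS4E.lean`, VERBATIM. -/
theorem heckeRawC468 : HeckeRawC :=
  fun π φ hφ => ⟨heckeSumQ468 π φ hφ, heckeScalarQ468 π φ hφ⟩

end Fermat.Agent.LT.T8.H468

end

end
-- ===== PACK-END LT/T8/H468/HeckeRaw.lean

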