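import Mathlib
import Fermat.Agent.Pack.LT2.E13L2
import Fermat.Agent.Pack.LT2.E0L2
import Fermat.Agent.Pack.LT2.E13L1
import Fermat.Agent.Pack.LT2.E13L0
import Fermat.Agent.Pack.LT2.E11L1
import Fermat.Agent.Pack.LT2.E13L3
import Fermat.Agent.Pack.LT2.E2L1
import Fermat.Agent.Pack.LT2.E0L1
import Fermat.Agent.Pack.LT2.E4L2
import Fermat.Agent.Pack.S43GC.G0E4L1
import Fermat.Agent.Pack.S43GC.G0E16L2
import Fermat.Agent.Pack.S43GC.G0E11L2
import Fermat.Agent.Pack.S43GC.G0E10L2
import Fermat.Agent.Pack.S43GC.G0E11L0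
import Fermat.Agent.Pack.S43GC.G0E12L1
import Fermat.Agent.Pack.S43GC.G0E14L2
import Fermat.Agent.Pack.LT2.E12L2

set_option linter.all false

-- ===== PACK-BEGIN LT/A2/H144/BesselInv.lean
section



/-!
# Row LT, tower A2, leaf A2.03.7.1 `BesselInvC` (helper144) -- OFF-MAIN

Registry row 1126.  `besselInvC144 : H416.BesselInvC`, VERBATIM the Prop of
`LT/A2/H416/MeanSpec.lean` (helper416, byte-identical copy).  The proof is the Mathlib-only core
`LT/A2/H144/BesselCore.lean` (`bessel_core144b`, `hasDerivAt_J_144b`, `hasDerivAt_J1_144b`),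
applied with `r = e^s`.
-/

set_option autoImplicit false

open MeasureTheory

noncomputable section

namespace Fermat.Agent.LT.A2.H144

theorem cexp_neg_ofReal144b (x : ℝ) :
    Complex.exp (-((x : ℝ) : ℂ)) = ((Real.exp (-x) : ℝ) : ℂ) := by
  rw [Complex.ofReal_exp, Complex.ofReal_neg]

/-- **Leaf A2.03.7.1** (`BesselInvC`, VERBATIM of `H416/MeanSpec.lean`). -/
theorem besselInvC144 : H416.BesselInvC := by
  intro X _ μ a ha A p q hA hp hq hpq hint hinv
  simp only [cexp_neg_ofReal144b] at hint hinv ⊢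
  have hinv' : ∀ y : ℝ, 0 < y → ∀ s : ℝ,
      ∫ m, A m * ((g0_144b a y (p m) (q m) s : ℝ) : ℂ) ∂μ
        = ∫ m, A m * ((Real.exp (-(a * y * (p m + q m))) : ℝ) : ℂ) ∂μ := by
    intro y hy s
    have h := hinv y hy (Real.exp s) (Real.exp_pos s)
    have e1 : (Real.exp s)⁻¹ ^ 2 = Real.exp (-(2 * s)) := by
      rw [← Real.exp_neg, ← Real.exp_nat_mul]
      congr 1
      push_cast
      ring
    have e2 : (Real.exp s) ^ 2 = Real.exp (2 * s) := by
      rw [← Real.exp_nat_mul]
      congr 1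
    simp only [e1, e2] at h
    exact h
  refine ⟨fun y => ∫ m, A m
      * ((-(a * (p m + q m)) * Real.exp (-(a * y * (p m + q m))) : ℝ) : ℂ) ∂μ,
    fun y => ∫ m, A m
      * (((a * (p m + q m)) ^ 2 * Real.exp (-(a * y * (p m + q m))) : ℝ) : ℂ) ∂μ, ?_, ?_, ?_⟩
  · intro y hy
    exact (hasDerivAt_J_144b ha hA hp hq hpq hint hy).2
  · intro y hy
    exact (hasDerivAt_J1_144b ha hA hp hq hpq hint hy).2
  · intro y hy
    exact bessel_core144b ha hA hp hq hpq hint hinv' hy

end Fermat.Agent.LT.A2.H144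

end

end
-- ===== PACK-END LT/A2/H144/BesselInv.lean

-- ===== PACK-BEGIN LT/A2/H151/Dense.lean
section


/-!
# Row LT, tower A2, leaf A2.03.1.6 `WX467.RightInvC` -- part 2: the level at a good place
(helper151, OFF-MAIN)

At a finite place `v` not dividing the ideal `𝔫` the closure of `𝔫` in `K_v` contains `𝒪_v`;
hence an integral matrix with integral inverse is in the local level group `InLevL 𝔫 v`.
No holes, nothing assumed.
-/

set_option autoImplicit false

open IsDedekindDomain NumberField AutomorphicForm MeasureTheory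
open scoped MatrixGroups Topology

noncomputable section

namespace Fermat.Agent.LT.A2.H151

open Fermat.Agent.LT.H130 Fermat.Agent.LT.H556 Fermat.Agent.LT.A2 Fermat.Agent.LT.A2.WX467

variable {K : Type} [Field K] [NumberField K]

/-- The global integers are dense in the local integers. -/
theorem integers_subset_closure (v : HeightOneSpectrum (𝓞 K)) {y : v.adicCompletion K}
    (hy : y ∈ v.adicCompletionIntegers K) :
    y ∈ closure (Set.range fun r : 𝓞 K =>
      algebraMap K (v.adicCompletion K) (algebraMap (𝓞 K) K r)) := by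
  rw [mem_closure_iff_nhds]
  intro s hs
  have hint : (v.adicCompletionIntegers K : Set (v.adicCompletion K)) ∈ 𝓝 y :=
    (Valued.isOpen_valuationSubring (v.adicCompletion K)).mem_nhds hy
  obtain ⟨γ, hγ⟩ := Valued.mem_nhds.mp hs
  have hball : {z : v.adicCompletion K | Valued.v.restrict (z - y) < γ.1} ∈ 𝓝 y :=
    Valued.mem_nhds.mpr ⟨γ, subset_rfl⟩
  obtain ⟨k, hk1, hk2⟩ := (HeightOneSpectrum.denseRange_algebraMap (K := K) v).mem_nhds
    (Filter.inter_mem hint hball)
  have hk1' : v.valuation K k ≤ 1 := by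
    have := (HeightOneSpectrum.mem_adicCompletionIntegers (𝓞 K) K v).mp hk1
    rwa [show algebraMap K (v.adicCompletion K) k = ((k : K) : v.adicCompletion K) from rfl,
      HeightOneSpectrum.valuedAdicCompletion_eq_valuation'] at this
  have hγ0 : MonoidWithZeroHom.ValueGroup₀.embedding γ.1 ≠ 0 := by
    intro h
    simp at h
  obtain ⟨a, ha⟩ := HeightOneSpectrum.exists_valuation_sub_lt_of_integer v hk1' (Units.mk0 _ hγ0)
  refine ⟨algebraMap K (v.adicCompletion K) (algebraMap (𝓞 K) K a), hγ ?_, ⟨a, rfl⟩⟩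
  change Valued.v.restrict (_ - y) < γ.1
  rw [Valuation.restrict_lt_iff_lt_embedding]
  have hk2' : Valued.v (algebraMap K (v.adicCompletion K) k - y)
      < MonoidWithZeroHom.ValueGroup₀.embedding γ.1 := by
    have h := hk2
    change Valued.v.restrict (_ - y) < γ.1 at h
    rwa [Valuation.restrict_lt_iff_lt_embedding] at h
  have ha' : Valued.v (algebraMap K (v.adicCompletion K) (algebraMap (𝓞 K) K a)
      - algebraMap K (v.adicCompletion K) k) < MonoidWithZeroHom.ValueGroup₀.embedding γ.1 := by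
    rw [← map_sub,
      show algebraMap K (v.adicCompletion K) (algebraMap (𝓞 K) K a - k)
        = (((algebraMap (𝓞 K) K a - k : K)) : v.adicCompletion K) from rfl,
      HeightOneSpectrum.valuedAdicCompletion_eq_valuation']
    simpa using ha
  have : algebraMap K (v.adicCompletion K) (algebraMap (𝓞 K) K a) - y
      = (algebraMap K (v.adicCompletion K) (algebraMap (𝓞 K) K a)
          - algebraMap K (v.adicCompletion K) k)
        + (algebraMap K (v.adicCompletion K) k - y) := by ring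
  rw [this]
  exact lt_of_le_of_lt (Valuation.map_add _ _ _) (max_lt ha' hk2')

/-- At a place `v` not dividing `𝔫` the closure of `𝔫` in `K_v` contains `𝒪_v`. -/
theorem integers_subset_idealClosure (𝔫 : Ideal (𝓞 K)) (v : HeightOneSpectrum (𝓞 K))
    (hv : ¬ v.asIdeal ∣ 𝔫) {x : v.adicCompletion K} (hx : x ∈ v.adicCompletionIntegers K) :
    x ∈ A0.idealClosure 𝔫 v := by
  obtain ⟨e, he𝔫, hev⟩ : ∃ e ∈ 𝔫, e ∉ v.asIdeal := by
    rw [Ideal.dvd_iff_le] at hv
    exact SetLike.not_le_iff_exists.mp hv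
  set e' : v.adicCompletion K := algebraMap K (v.adicCompletion K) (algebraMap (𝓞 K) K e)
    with he'
  have hve : Valued.v e' = 1 := by
    rw [he', show algebraMap K (v.adicCompletion K) (algebraMap (𝓞 K) K e)
        = (((algebraMap (𝓞 K) K e : K)) : v.adicCompletion K) from rfl,
      HeightOneSpectrum.valuedAdicCompletion_eq_valuation']
    exact (HeightOneSpectrum.valuation_eq_one_iff_notMem (K := K) v).mpr hev
  have he0 : e' ≠ 0 := by
    intro h
    rw [h, map_zero] at hve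
    exact zero_ne_one hve
  have hy : x / e' ∈ v.adicCompletionIntegers K := by
    rw [HeightOneSpectrum.mem_adicCompletionIntegers, map_div₀, hve, div_one]
    exact (HeightOneSpectrum.mem_adicCompletionIntegers (𝓞 K) K v).mp hx
  have h1 := integers_subset_closure v hy
  have hcont : Continuous fun z : v.adicCompletion K => e' * z := continuous_const.mul continuous_id
  have h2 := image_closure_subset_closure_image hcont (Set.mem_image_of_mem _ h1)
  have h3 : e' * (x / e') = x := by field_simp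
  rw [h3] at h2
  refine closure_mono ?_ h2
  rintro _ ⟨_, ⟨r, rfl⟩, rfl⟩
  refine ⟨e * r, 𝔫.mul_mem_right r he𝔫, ?_⟩
  simp only [he', map_mul]

/-- An integral matrix with integral inverse is in the local level group at a place not dividing
the level. -/
theorem inLevL_of_integral (𝔫 : Ideal (𝓞 K)) (v : HeightOneSpectrum (𝓞 K))
    (hv : ¬ v.asIdeal ∣ 𝔫) {k : Matrix (Fin 2) (Fin 2) (v.adicCompletion K)}
    (hdet : k.det ≠ 0) (hk : ∀ i j, k i j ∈ v.adicCompletionIntegers K)
    (hk' : ∀ i j, k⁻¹ i j ∈ v.adicCompletionIntegers K) : InLevL 𝔫 v k := by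
  have h1 : ∀ i j : Fin 2,
      (1 : Matrix (Fin 2) (Fin 2) (v.adicCompletion K)) i j ∈ v.adicCompletionIntegers K := by
    intro i j
    by_cases h : i = j
    · subst h
      rw [Matrix.one_apply_eq]
      exact one_mem _
    · rw [Matrix.one_apply_ne h]
      exact zero_mem _
  refine ⟨hdet, fun i j => ⟨?_, ?_⟩⟩
  · apply integers_subset_idealClosure 𝔫 v hv
    rw [Matrix.sub_apply]
    exact sub_mem (hk i j) (h1 i j)
  · apply integers_subset_idealClosure 𝔫 v hv
    rw [Matrix.sub_apply]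
    exact sub_mem (hk' i j) (h1 i j)

end Fermat.Agent.LT.A2.H151

end

end
-- ===== PACK-END LT/A2/H151/Dense.lean

-- ===== PACK-BEGIN LT/A2/H409/Rat.lean
section


/-!
# Row LT, tower A2, station A2.03.1 `WL.WeilExC`, leaf A2.03.1.5 `WX467.RatC` (helper409)

OFF-MAIN.  `ratC409 : Fermat.Agent.LT.A2.WX467.RatC`, VERBATIM against
`LT/A2/H467/WeilExSpec.lean` (helper467@50fb7012e, sha256 966c09789567b43e).

`diagK` and `torK` (the rational Borel formulas of `KData.IsWeil`) are the adelic formulas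
`diagA`, `torA` of `BorelOut` at the principal ideles: `η = 1` on `K^×` (`WeylOut.rat`) and
`|a|_𝔸 = 1` for `a ∈ K^×` (product formula, `T1.AdNormC`).  No Weil representation.
-/

set_option autoImplicit false
set_option linter.style.haveILetI false

open IsDedekindDomain NumberField AutomorphicForm MeasureTheory
open scoped MatrixGroups

noncomputable section

namespace Fermat.Agent.LT.A2.H409

open Fermat.Agent.LT.H130 Fermat.Agent.LT.H556

variable {K : Type} [Field K] [NumberField K]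

/-- The principal idele of `a ∈ K`, `a ≠ 0`. -/
def princIdele409 (a : K) (ha : a ≠ 0) : (A0.Adl K)ˣ :=
  T1.ratUnit K (Units.mk0 a ha)

theorem coe_princIdele409 (a : K) (ha : a ≠ 0) :
    ((princIdele409 a ha : (A0.Adl K)ˣ) : A0.Adl K) = algebraMap K (A0.Adl K) a := rfl

theorem coe_inv_princIdele409 (a : K) (ha : a ≠ 0) :
    (((princIdele409 a ha)⁻¹ : (A0.Adl K)ˣ) : A0.Adl K) = algebraMap K (A0.Adl K) a⁻¹ := by
  rw [princIdele409, ← map_inv]
  show algebraMap K (A0.Adl K) (((Units.mk0 a ha)⁻¹ : Kˣ) : K) = _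
  rw [Units.val_inv_eq_inv_val, Units.val_mk0]

theorem adNorm_princIdele409 (hT1 : T1.T1Out K) (a : K) (ha : a ≠ 0) :
    T1.adNorm K ((princIdele409 a ha : (A0.Adl K)ˣ) : A0.Adl K) = 1 :=
  hT1.adNorm.2.2.1 (Units.mk0 a ha)

/-- The adele ring is not the zero ring (look at an infinite place). -/
theorem nontrivial_adl409 (K : Type) [Field K] [NumberField K] : Nontrivial (A0.Adl K) := by
  refine ⟨⟨0, 1, ?_⟩⟩
  intro h
  have w : InfinitePlace K := Classical.arbitrary _
  have h1 : (0 : A0.Adl K).1 w = (1 : A0.Adl K).1 w := by rw [h]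
  exact zero_ne_one h1

/-- If the image of `a ∈ K` in the adeles is a unit, then `a ≠ 0`. -/
theorem ne_zero_of_isUnit_emb409 (a : K) (h : IsUnit (algebraMap K (A0.Adl K) a)) : a ≠ 0 := by
  haveI := nontrivial_adl409 K
  rintro rfl
  rw [map_zero] at h
  exact not_isUnit_zero h

/-- **A2.03.1.5 RAT.** -/
theorem ratC409 : Fermat.Agent.LT.A2.WX467.RatC := by
  intro K _ _ D η hT1 hB hW
  refine ⟨?_, ?_⟩
  · -- diagK
    intro s a ha hs g m ξ hadm
    have hsA : WL.IsDiagSLA s (princIdele409 a ha) := by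
      unfold WL.IsDiagSLA
      rw [coe_princIdele409, coe_inv_princIdele409]
      exact hs
    have h := hB.diagA s (princIdele409 a ha) hsA g m ξ hadm
    rw [h, adNorm_princIdele409 hT1 a ha, coe_princIdele409]
    have hη : η (princIdele409 a ha) = 1 := hW.rat (Units.mk0 a ha)
    rw [hη]
    simp
  · -- torK
    intro μ' d a hμ hdet hd g m ξ hadm
    have hμA : InTorus D.t D.n μ' := by
      obtain ⟨x, y, hxy⟩ := hμ
      exact ⟨_, _, hxy⟩
    have hdA : WL.IsDiagOneA d (Matrix.GeneralLinearGroup.det μ') := by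
      unfold WL.IsDiagOneA
      rw [hdet]
      exact hd
    have ha : a ≠ 0 := by
      apply ne_zero_of_isUnit_emb409
      rw [← hdet]
      exact Units.isUnit _
    have hnorm : T1.adNorm K
        ((Matrix.GeneralLinearGroup.det μ' : (A0.Adl K)ˣ) : A0.Adl K) = 1 := by
      rw [hdet, ← coe_princIdele409 a ha]
      exact adNorm_princIdele409 hT1 a ha
    have h := hB.torA μ' d hμA hdA g m ξ hadm
    rw [hnorm, Real.sqrt_one] at h
    rw [← h]
    simp

end Fermat.Agent.LT.A2.H409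

end

end
-- ===== PACK-END LT/A2/H409/Rat.lean

-- ===== PACK-BEGIN LT/A2/H431/HasseNormTC.lean
section



/-!
# Row LT, tower A2, leaf A2.05b `HasseNormTC` -- the v2 INTERFACE with tower CFT (helper431)

OFF-MAIN.  Complete proof, nothing assumed.

    hasseNormTC_of_T6TCC431 : T6.HasseNormTCC → A2.HasseNormTC

`T6.HasseNormTCC` (helper22, `LT/T6/Spec.lean` v3, VERBATIM) is the Hasse norm theorem for a
cyclic extension `M / L` of prime degree of a TOTALLY COMPLEX number field `L`, in local tensor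
form (finite places only).  `A2.HasseNormTC` (helper950, `LT/A2/TopTC.lean`, VERBATIM) is the
same theorem for the quadratic extension `K[X]/(X² - tX + n)` of a totally complex field `K` in
torus coordinates.

Route: the v1 adapter of helper771 (`LT/A2/H771/HasseNorm.lean`, imported byte-identical:
`qpoly`, `qbasis`, `norm_tensor`, `finC`) with the hypothesis "totally complex" passed on; the
infinite places are not needed.
-/

set_option autoImplicit false

open IsDedekindDomain NumberField Polynomial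
open scoped TensorProduct

noncomputable section

namespace Fermat.Agent.LT.A2.H431

open Fermat.Agent.LT.H556 Fermat.Agent.LT.A2.H771

/-- **A2.05b for ONE torus**: the Hasse norm theorem of tower T6/CFT over the totally complex
fields gives `HasseNormAt K t n` for every totally complex `K` and every anisotropic torus. -/
theorem hasseNormAt_of_T6TCC431 (hT6 : Fermat.Agent.LT.T6.HasseNormTCC)
    (K : Type) [Field K] [NumberField K] (hcx : ∀ u : InfinitePlace K, u.IsComplex)
    (t n : K) (hirr : ∀ x : K, x ^ 2 - t * x + n ≠ 0) :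
    Fermat.Agent.LT.A2.HasseNormAt K t n := by
  intro a m hm hdet
  have : Fact (Irreducible (qpoly t n)) := ⟨qpoly_irreducible t n hirr⟩
  have : Module.Finite K (AdjoinRoot (qpoly t n)) :=
    Module.Finite.of_basis (qbasis t n)
  have : NumberField (AdjoinRoot (qpoly t n)) := NumberField.of_module_finite K _
  have hrank : Module.finrank K (AdjoinRoot (qpoly t n)) = 2 := by
    rw [Module.finrank_eq_card_basis (qbasis t n)]; simp
  have : Algebra.IsQuadraticExtension K (AdjoinRoot (qpoly t n)) :=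
    { toFree := Module.Free.of_basis (qbasis t n), finrank_eq_two' := hrank }
  obtain ⟨α, β, hmat⟩ := hm
  have hdet' : α ^ 2 + algebraMap K (A0.Adl K) t * α * β + algebraMap K (A0.Adl K) n * β ^ 2
      = algebraMap K (A0.Adl K) a := by
    rw [← hdet, Matrix.GeneralLinearGroup.val_det_apply, hmat, torMat, Matrix.det_fin_two_of]
    ring
  have ha : a ≠ 0 := by
    rintro rfl
    have hu : IsUnit (algebraMap K (A0.Adl K) 0) := by
      rw [← hdet]; exact Units.isUnit _
    rw [map_zero] at hu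
    have : Nontrivial (A0.Adl K) :=
      (NumberField.AdeleRing.algebraMap_injective (𝓞 K) K).nontrivial
    exact not_isUnit_zero hu
  obtain ⟨y, hy⟩ := hT6 K (AdjoinRoot (qpoly t n)) inferInstance
    (by rw [hrank]; exact Nat.prime_two) hcx a ha
    (fun u => ⟨finC u α • (1 : u.adicCompletion K ⊗[K] AdjoinRoot (qpoly t n))
        + finC u β • ((1 : u.adicCompletion K) ⊗ₜ[K] AdjoinRoot.root (qpoly t n)), by
      rw [norm_tensor, ← finC_algebraMap u a, ← hdet']
      simp only [map_add, map_mul, map_pow, finC_algebraMap]⟩)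
  -- the rational torus element
  set α₀ : K := (qbasis t n).repr y 0 with hα₀
  set β₀ : K := (qbasis t n).repr y 1 with hβ₀
  have hy' : y = α₀ • (1 : AdjoinRoot (qpoly t n)) + β₀ • qbasis t n 1 := by
    conv_lhs => rw [← (qbasis t n).sum_repr y]
    rw [Fin.sum_univ_two, qbasis_zero]
  have hw : qbasis t n 1 * qbasis t n 1
      = t • qbasis t n 1 - n • (1 : AdjoinRoot (qpoly t n)) := by
    rw [qbasis_one]; exact root_mul_root t n
  have hnorm : α₀ ^ 2 + t * α₀ * β₀ + n * β₀ ^ 2 = a := by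
    rw [← hy, hy', norm_quadBasis (qbasis t n) (qbasis_zero t n) t n hw]
  have hdet0 : (torMat t n α₀ β₀).det ≠ 0 := by
    rw [torMat, Matrix.det_fin_two_of]
    intro h
    apply ha
    rw [← hnorm]
    linear_combination h
  refine ⟨Matrix.GeneralLinearGroup.map (algebraMap K (A0.Adl K))
    (Matrix.GeneralLinearGroup.mkOfDetNeZero (torMat t n α₀ β₀) hdet0), ⟨α₀, β₀, ?_⟩, ?_⟩
  · ext i j
    fin_cases i <;> fin_cases j <;> simp [torMat, Matrix.GeneralLinearGroup.mkOfDetNeZero]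
  · rw [Matrix.GeneralLinearGroup.val_det_apply]
    have : ((Matrix.GeneralLinearGroup.map (algebraMap K (A0.Adl K))
        (Matrix.GeneralLinearGroup.mkOfDetNeZero (torMat t n α₀ β₀) hdet0) : A0.G K) :
          Matrix (Fin 2) (Fin 2) (A0.Adl K))
        = (torMat t n α₀ β₀).map (algebraMap K (A0.Adl K)) := rfl
    rw [this, ← RingHom.mapMatrix_apply, ← RingHom.map_det, torMat, Matrix.det_fin_two_of,
      ← hnorm]
    congr 1
    ring

/-- **A2.05b (interface with tower CFT, v2).**  `T6.HasseNormTCC → A2.HasseNormTC`. -/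
theorem hasseNormTC_of_T6TCC431 (hT6 : Fermat.Agent.LT.T6.HasseNormTCC) :
    Fermat.Agent.LT.A2.HasseNormTC :=
  fun K _ _ hcx t n hirr => hasseNormAt_of_T6TCC431 hT6 K hcx t n hirr

end Fermat.Agent.LT.A2.H431

end

end
-- ===== PACK-END LT/A2/H431/HasseNormTC.lean

-- ===== PACK-BEGIN LT/A2/H456/Theta2.lean
section


/-!
# Row LT, tower A2, leaf A2.02 `TorusCharC` -- top assembly, part 2 (helper456), OFF-MAIN

The torus character `χT(m) = χ(Θ(m))`: multiplicativity, continuity, finite order.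
-/

set_option autoImplicit false

open IsDedekindDomain NumberField AutomorphicForm
open scoped MatrixGroups

noncomputable section

namespace Fermat.Agent.LT.A2.H456

open Fermat.Agent.LT.H130 Fermat.Agent.LT.H556 Fermat.Agent.LT.A2 Fermat.Agent.LT.A2.H83

variable {K L : Type} [Field K] [NumberField K] [Field L] [NumberField L] [Algebra K L]

/-- The transport of `χ` to `GL₂(𝔸_K)` (only its values on the torus matter). -/
def chiT456 (ω : L) (ι : FiniteAdeleRing (𝓞 K) K →+* FiniteAdeleRing (𝓞 L) L)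
    (χ : (A0.Adl L)ˣ →* ℂˣ) (m : A0.G K) : ℂ :=
  open Classical in
  if h : IsUnit (thetaG456 ω ι m) then ((χ h.unit : ℂˣ) : ℂ) else 0

variable {t n : K} {ω : L} {ι : FiniteAdeleRing (𝓞 K) K →+* FiniteAdeleRing (𝓞 L) L}
  {χ : (A0.Adl L)ˣ →* ℂˣ}

theorem chiT456_of_unit {m : A0.G K} (u : (A0.Adl L)ˣ)
    (hu : (u : A0.Adl L) = thetaG456 ω ι m) : chiT456 ω ι χ m = ((χ u : ℂˣ) : ℂ) := by
  have h : IsUnit (thetaG456 ω ι m) := hu ▸ u.isUnit
  unfold chiT456
  rw [dif_pos h]
  congr 2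
  apply Units.ext
  rw [IsUnit.unit_spec, hu]

/-- The unit `Θ(m)` for `m` in the torus. -/
def unitT456 (hrel : ω ^ 2 - algebraMap K L t * ω + algebraMap K L n = 0)
    (hι : IsBC456 ι) (m : A0.G K) (h : InTorus t n m) : (A0.Adl L)ˣ :=
  (isUnit_thetaG456 hrel hι h).unit

theorem unitT456_val (hrel : ω ^ 2 - algebraMap K L t * ω + algebraMap K L n = 0)
    (hι : IsBC456 ι) (m : A0.G K) (h : InTorus t n m) :
    ((unitT456 hrel hι m h : (A0.Adl L)ˣ) : A0.Adl L) = thetaG456 ω ι m :=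
  IsUnit.unit_spec _

theorem chiT456_eq (hrel : ω ^ 2 - algebraMap K L t * ω + algebraMap K L n = 0)
    (hι : IsBC456 ι) (m : A0.G K) (h : InTorus t n m) :
    chiT456 ω ι χ m = ((χ (unitT456 hrel hι m h) : ℂˣ) : ℂ) :=
  chiT456_of_unit _ (unitT456_val hrel hι m h)

theorem unitT456_mul (hrel : ω ^ 2 - algebraMap K L t * ω + algebraMap K L n = 0)
    (hι : IsBC456 ι) {m m' : A0.G K} (h : InTorus t n m) (h' : InTorus t n m') :
    unitT456 hrel hι (m * m') (inTorus_mul456 t n h h')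
      = unitT456 hrel hι m h * unitT456 hrel hι m' h' := by
  apply Units.ext
  rw [Units.val_mul, unitT456_val, unitT456_val, unitT456_val, thetaG456_mul hrel hι h h']

theorem unitT456_inv_val (hrel : ω ^ 2 - algebraMap K L t * ω + algebraMap K L n = 0)
    (hι : IsBC456 ι) (m : A0.G K) (h : InTorus t n m) :
    (((unitT456 hrel hι m h)⁻¹ : (A0.Adl L)ˣ) : A0.Adl L) = thetaG456 ω ι m⁻¹ := by
  have h1 := thetaG456_mul hrel hι h (inTorus_inv456 t n h)
  rw [mul_inv_cancel, thetaG456_one, ← unitT456_val hrel hι m h] at h1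
  exact (Units.inv_eq_of_mul_eq_one_right h1.symm)

theorem chiT456_mul (hrel : ω ^ 2 - algebraMap K L t * ω + algebraMap K L n = 0)
    (hι : IsBC456 ι) {m m' : A0.G K} (h : InTorus t n m) (h' : InTorus t n m') :
    chiT456 ω ι χ (m * m') = chiT456 ω ι χ m * chiT456 ω ι χ m' := by
  rw [chiT456_eq hrel hι _ (inTorus_mul456 t n h h'), chiT456_eq hrel hι _ h,
    chiT456_eq hrel hι _ h', unitT456_mul hrel hι h h', map_mul, Units.val_mul]

theorem chiT456_one : chiT456 ω ι χ (1 : A0.G K) = 1 := by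
  rw [chiT456_of_unit (1 : (A0.Adl L)ˣ) (by rw [Units.val_one, thetaG456_one]), map_one,
    Units.val_one]

theorem chiT456_pow (hrel : ω ^ 2 - algebraMap K L t * ω + algebraMap K L n = 0)
    (hι : IsBC456 ι) {k : ℕ} (hk : ∀ z : (A0.Adl L)ˣ, χ z ^ k = 1)
    (m : A0.G K) (h : InTorus t n m) : chiT456 ω ι χ m ^ k = 1 := by
  rw [chiT456_eq hrel hι _ h, ← Units.val_pow_eq_pow_val, hk, Units.val_one]

/-! ## Continuity -/

theorem continuous_thetaG456 (hc : Continuous ι) : Continuous (thetaG456 ω ι) := by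
  unfold thetaG456 theta456
  have hv : Continuous fun m : A0.G K => (m : Matrix (Fin 2) (Fin 2) (A0.Adl K)) :=
    Units.continuous_val
  have h00 : Continuous fun m : A0.G K => (m : Matrix (Fin 2) (Fin 2) (A0.Adl K)) 0 0 :=
    hv.matrix_elem 0 0
  have h10 : Continuous fun m : A0.G K => (m : Matrix (Fin 2) (Fin 2) (A0.Adl K)) 1 0 :=
    hv.matrix_elem 1 0
  have hsnd : Continuous fun a : A0.Adl K => a.2 := continuous_snd
  refine Continuous.prodMk continuous_const ?_
  exact (hc.comp (hsnd.comp h00)).add ((hc.comp (hsnd.comp h10)).mul continuous_const)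

theorem continuousOn_chiT456 (hrel : ω ^ 2 - algebraMap K L t * ω + algebraMap K L n = 0)
    (hι : IsBC456 ι) (hc : Continuous ι) (hχ : Continuous χ) :
    ContinuousOn (chiT456 ω ι χ) {m | InTorus t n m} := by
  rw [continuousOn_iff_continuous_domRestrict]
  have hU : Continuous fun s : {m : A0.G K | InTorus t n m} => unitT456 hrel hι s.1 s.2 := by
    rw [Units.continuous_iff]
    constructor
    · have : (Units.val ∘ fun s : {m : A0.G K | InTorus t n m} => unitT456 hrel hι s.1 s.2)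
          = fun s => thetaG456 ω ι s.1 := by
        funext s
        exact unitT456_val hrel hι s.1 s.2
      rw [this]
      exact (continuous_thetaG456 hc).comp continuous_subtype_val
    · have : (fun s : {m : A0.G K | InTorus t n m} =>
            (((unitT456 hrel hι s.1 s.2)⁻¹ : (A0.Adl L)ˣ) : A0.Adl L))
          = fun s => thetaG456 ω ι (s.1)⁻¹ := by
        funext s
        exact unitT456_inv_val hrel hι s.1 s.2
      rw [this]
      exact (continuous_thetaG456 hc).comp (continuous_inv.comp continuous_subtype_val)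
  have : ({m : A0.G K | InTorus t n m}.domRestrict (chiT456 ω ι χ))
      = fun s => ((χ (unitT456 hrel hι s.1 s.2) : ℂˣ) : ℂ) := by
    funext s
    exact chiT456_eq hrel hι s.1 s.2
  rw [this]
  exact Units.continuous_val.comp (hχ.comp hU)

end Fermat.Agent.LT.A2.H456

end

end
-- ===== PACK-END LT/A2/H456/Theta2.lean

-- ===== PACK-BEGIN LT/A2/H593/RatTorus.lean
section


/-!
# Row LT, tower A2, leaf A2.03.6 `WL.WhitSumC` (helper593) -- part 2: rational elements

OFF-MAIN.  The rational points of the torus as elements of `GL₂(𝔸_K)`, the rational diagonal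
matrices, and the reduction of `F (diag(β,1) g) (m y m_g) (1,0)` to `F g (m m_g) ξ_β`
(`torK`, `diagK`).  Complete proofs, nothing assumed.
-/

set_option autoImplicit false

open IsDedekindDomain NumberField AutomorphicForm MeasureTheory
open scoped MatrixGroups Topology

noncomputable section

namespace Fermat.Agent.LT.A2.H593

open Fermat.Agent.LT.H130 Fermat.Agent.LT.H556 Fermat.Agent.LT.A2

variable {K : Type} [Field K] [NumberField K]

local notation "ι" => algebraMap K (A0.Adl K)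

theorem ι_injective593 : Function.Injective (algebraMap K (A0.Adl K)) :=
  NumberField.AdeleRing.algebraMap_injective (𝓞 K) K

theorem adl_nontrivial593 : Nontrivial (A0.Adl K) :=
  (ι_injective593 (K := K)).nontrivial

/-- The rational point `a + b ω` of the torus, `p = (a, b)`, as an element of `GL₂(𝔸_K)`
(the junk value `1` if the norm of `p` vanishes). -/
def yel593 (t n : K) (p : K × K) : A0.G K :=
  haveI := Classical.dec ((torMat t n p.1 p.2).det ≠ 0)
  if h : (torMat t n p.1 p.2).det ≠ 0 then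
    ratG (Matrix.GeneralLinearGroup.mkOfDetNeZero (torMat t n p.1 p.2) h)
  else 1

theorem yel_val593 {t n : K} {p : K × K} (h : qK593 t n p ≠ 0) :
    (yel593 t n p : Matrix (Fin 2) (Fin 2) (A0.Adl K))
      = torMat (ι t) (ι n) (ι p.1) (ι p.2) := by
  have h' : (torMat t n p.1 p.2).det ≠ 0 := by rw [torMat_det593]; exact h
  rw [yel593, dif_pos h', ← torMat_map593]
  ext i j
  simp [ratG, Matrix.GeneralLinearGroup.map_apply, Matrix.GeneralLinearGroup.mkOfDetNeZero]

theorem yel_rat593 {t n : K} {p : K × K} (h : qK593 t n p ≠ 0) :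
    InTorusRat t n (yel593 t n p) :=
  ⟨p.1, p.2, yel_val593 h⟩

theorem yel_det593 {t n : K} {p : K × K} (h : qK593 t n p ≠ 0) :
    ((Matrix.GeneralLinearGroup.det (yel593 t n p) : (A0.Adl K)ˣ) : A0.Adl K)
      = ι (qK593 t n p) := by
  rw [det_val593, yel_val593 h, torMat_det593]
  simp [qK593]

theorem yel_tor1_593 {t n : K} {p : K × K} (h : qK593 t n p = 1) :
    InTorus1 t n (yel593 t n p) := by
  have h0 : qK593 t n p ≠ 0 := by rw [h]; exact one_ne_zero
  refine ⟨inTorus_of_rat593 (yel_rat593 h0), ?_⟩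
  apply Units.ext
  rw [yel_det593 h0, h, map_one]; rfl

theorem yel_inj593 {t n : K} {p q : K × K} (hp : qK593 t n p ≠ 0) (hq : qK593 t n q ≠ 0)
    (h : yel593 t n p = yel593 t n q) : p = q := by
  have h1 : torMat (ι t) (ι n) (ι p.1) (ι p.2) = torMat (ι t) (ι n) (ι q.1) (ι q.2) := by
    rw [← yel_val593 hp, ← yel_val593 hq, h]
  obtain ⟨h2, h3⟩ := torMat_inj593 h1
  exact Prod.ext (ι_injective593 h2) (ι_injective593 h3)

/-- Every rational point of the torus is a `yel593 t n p`. -/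
theorem exists_yel593 {t n : K} {y : A0.G K} (h : InTorusRat t n y) :
    ∃ p : K × K, qK593 t n p ≠ 0 ∧ y = yel593 t n p := by
  obtain ⟨a, b, hab⟩ := h
  have hdet : ((Matrix.GeneralLinearGroup.det y : (A0.Adl K)ˣ) : A0.Adl K)
      = ι (qK593 t n (a, b)) := by
    rw [det_val593, hab, torMat_det593]
    simp [qK593]
  have hne : qK593 t n (a, b) ≠ 0 := by
    intro h0
    rw [h0, map_zero] at hdet
    have := adl_nontrivial593 (K := K)
    exact (Matrix.GeneralLinearGroup.det y).ne_zero hdet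
  refine ⟨(a, b), hne, ?_⟩
  apply Units.ext
  rw [yel_val593 hne, hab]

theorem actV_yel593 {t n : K} {p : K × K} (h : qK593 t n p ≠ 0) (ξ : K × K) :
    actV (yel593 t n p) (ratV ξ) = ratV (pact593 t n p ξ) := by
  rw [actV_torMat593 (yel_val593 h)]
  simp [ratV, pact593]

/-! ## Rational diagonal matrices -/

/-- `diag(a, b)`, `a, b ∈ K^×`, as an element of `GL₂(𝔸_K)`. -/
def rdiag593 (a b : Kˣ) : A0.G K :=
  ratG (Matrix.GeneralLinearGroup.mkOfDetNeZero !![(a : K), 0; 0, (b : K)]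
    (by simp [Matrix.det_fin_two]))

theorem rdiag_val593 (a b : Kˣ) :
    (rdiag593 a b : Matrix (Fin 2) (Fin 2) (A0.Adl K)) = !![ι (a : K), 0; 0, ι (b : K)] := by
  ext i j
  fin_cases i <;> fin_cases j <;>
    simp [rdiag593, ratG, Matrix.GeneralLinearGroup.map_apply,
      Matrix.GeneralLinearGroup.mkOfDetNeZero]

theorem isRatDiag_eq593 {d : Kˣ → A0.G K} (hd : IsRatDiag d) (α : Kˣ) : d α = rdiag593 α 1 := by
  apply Units.ext
  rw [hd α, rdiag_val593]
  simp

theorem rdiag_mul593 (a b a' b' : Kˣ) :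
    rdiag593 a b * rdiag593 a' b' = rdiag593 (a * a') (b * b') := by
  apply Units.ext
  rw [Units.val_mul, rdiag_val593, rdiag_val593, rdiag_val593]
  ext i j
  fin_cases i <;> fin_cases j <;> simp [Matrix.mul_apply, Fin.sum_univ_two]

theorem rdiag_det593 (a b : Kˣ) :
    ((Matrix.GeneralLinearGroup.det (rdiag593 a b) : (A0.Adl K)ˣ) : A0.Adl K)
      = ι ((a : K) * (b : K)) := by
  rw [det_val593, rdiag_val593]
  simp [Matrix.det_fin_two]

theorem rdiag_isDiagOne593 (β : Kˣ) : IsDiagOne (rdiag593 1 β) (β : K) := by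
  rw [IsDiagOne, rdiag_val593]; simp

theorem rdiag_isDiagSL593 (β : Kˣ) : IsDiagSL (rdiag593 β β⁻¹) (β : K) := by
  rw [IsDiagSL, rdiag_val593]; simp

/-! ## The reduction (`torK`, `diagK`) -/

/-- The vector `\bar p` of `K² = K[ω]`: the conjugate of `p = a + b ω`. -/
def conj593 (t : K) (p : K × K) : K × K := (p.1 + t * p.2, -p.2)

omit [NumberField K] in
theorem pact_conj593 (t n : K) (p : K × K) :
    pact593 t n p (conj593 t p) = (qK593 t n p, 0) := by
  simp only [pact593, conj593, qK593]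
  ext <;> (simp; ring)

omit [NumberField K] in
theorem qK_conj593 (t n : K) (p : K × K) : qK593 t n (conj593 t p) = qK593 t n p := by
  simp only [conj593, qK593]; ring

/-- **The reduction**: for an admissible pair `(g, m')`, `β = Q(p) ∈ K^×`:
`F (diag(β, 1) g) (y_p m') (1, 0) = F g m' \bar p`. -/
theorem F_rdiag593 {D : KData K} (hW : D.IsWeil) {g m' : A0.G K} (hadm : Adm D.t D.n g m')
    (β : Kˣ) {p : K × K} (hp : qK593 D.t D.n p = (β : K)) :
    D.F (rdiag593 β 1 * g) (yel593 D.t D.n p * m') (1, 0) = D.F g m' (ratV (conj593 D.t p)) := by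
  have hp0 : qK593 D.t D.n p ≠ 0 := by rw [hp]; exact β.ne_zero
  have hfac : rdiag593 β 1 = rdiag593 1 β * rdiag593 β β⁻¹ := by
    rw [rdiag_mul593]; simp
  have hadm' : Adm D.t D.n (rdiag593 β β⁻¹ * g) m' := by
    refine ⟨hadm.1, ?_⟩
    rw [map_mul, ← hadm.2]
    have : Matrix.GeneralLinearGroup.det (rdiag593 β β⁻¹ : A0.G K) = 1 := by
      apply Units.ext
      rw [rdiag_det593]; simp
    rw [this, one_mul]
  rw [hfac, mul_assoc,
    hW.torK (yel593 D.t D.n p) (rdiag593 1 β) (β : K) (yel_rat593 hp0)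
      (by rw [yel_det593 hp0, hp]) (rdiag_isDiagOne593 β) _ _ _ hadm',
    hW.diagK (rdiag593 β β⁻¹) (β : K) β.ne_zero (rdiag_isDiagSL593 β) _ _ _ hadm]
  congr 1
  -- `β • y_p⁻¹ (1, 0) = \bar p`
  have h1 : actV (yel593 D.t D.n p) (ratV (conj593 D.t p)) = ι (β : K) • ((1 : A0.Adl K), (0 : A0.Adl K)) := by
    rw [actV_yel593 hp0, pact_conj593, hp]
    refine Prod.ext ?_ ?_
    · show ι (β : K) = ι (β : K) * 1
      rw [mul_one]
    · show ι (0 : K) = ι (β : K) * 0
      rw [mul_zero, map_zero]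
  have h2 : actV (yel593 D.t D.n p)⁻¹ (ι (β : K) • ((1 : A0.Adl K), (0 : A0.Adl K)))
      = ratV (conj593 D.t p) := actV_inv_eq593 h1
  rw [← h2, actV_smul593]

end Fermat.Agent.LT.A2.H593

end

end
-- ===== PACK-END LT/A2/H593/RatTorus.lean

-- ===== PACK-BEGIN LT/A2/H751/TorusCompact.lean
section




/-!
# Row LT, tower A2, pre-leaf TORUS-MEAS (helper751): `T¹(K) \ T¹(𝔸_K)` is compact

OFF-MAIN.  From `T1.EllipticCompactC` (centraliser of an elliptic element is compact modulo the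
centre and the rational points) and the adelic Hilbert 90 (`adelicHilbert90_751`):
`φ(u) = u² / det u` kills the centre, maps `T(K)` to `T¹(K)`, is continuous, and every
`m ∈ T¹(𝔸_K)` is `φ(x)`, `x ∈ T(𝔸_K)`.
-/

set_option autoImplicit false

open IsDedekindDomain NumberField

noncomputable section

namespace Fermat.Agent.LT.A2.H751

open Fermat.Agent.LT.H556 Fermat.Agent.LT.A2 Fermat.Agent.LT.A2.H546
open Fermat.Agent.LT

/-! ## The map `φ(u) = u² / det u` -/

section Phi

variable {R : Type*} [CommRing R]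

/-- `φ(u) = u² / det u` on `GL₂(R)`. -/
def phi751 (u : GL (Fin 2) R) : GL (Fin 2) R :=
  u * u * (Matrix.GeneralLinearGroup.scalar (Fin 2) (Matrix.GeneralLinearGroup.det u))⁻¹

theorem phi_mul751 (u v : GL (Fin 2) R) (h : Commute u v) :
    phi751 (u * v) = phi751 u * phi751 v := by
  unfold phi751
  have hs : ∀ (c : Rˣ) (A : GL (Fin 2) R),
      Commute A (Matrix.GeneralLinearGroup.scalar (Fin 2) c)⁻¹ := by
    intro c A
    apply Commute.inv_right
    exact (Matrix.GeneralLinearGroup.scalar_commute c A).symm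
  rw [map_mul, map_mul, mul_inv_rev, h.symm.mul_mul_mul_comm u v,
    ((hs (Matrix.GeneralLinearGroup.det v) _).symm.eq),
    (hs (Matrix.GeneralLinearGroup.det u) (v * v)).mul_mul_mul_comm (u * u) _]

theorem det_phi751 (u : GL (Fin 2) R) : Matrix.GeneralLinearGroup.det (phi751 u) = 1 := by
  unfold phi751
  rw [map_mul, map_mul, map_inv, Matrix.GeneralLinearGroup.det_scalar, Fintype.card_fin, sq,
    mul_inv_cancel]

theorem phi_central751 (z : GL (Fin 2) R) (c : R)
    (hz : (z : Matrix (Fin 2) (Fin 2) R) = Matrix.diagonal fun _ => c) : phi751 z = 1 := by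
  unfold phi751
  rw [mul_inv_eq_one]
  apply Units.ext
  rw [Units.val_mul, Matrix.GeneralLinearGroup.coe_scalar,
    Matrix.GeneralLinearGroup.val_det_apply, hz, Matrix.diagonal_mul_diagonal,
    Matrix.det_diagonal, Fin.prod_univ_two, Matrix.scalar_apply]

theorem phi_of_sq751 (x m : GL (Fin 2) R)
    (h : (x : Matrix (Fin 2) (Fin 2) R) * (x : Matrix (Fin 2) (Fin 2) R)
      = ((Matrix.GeneralLinearGroup.det x : Rˣ) : R) • (m : Matrix (Fin 2) (Fin 2) R)) :
    phi751 x = m := by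
  unfold phi751
  rw [mul_inv_eq_iff_eq_mul, ← Matrix.GeneralLinearGroup.scalar_commute]
  apply Units.ext
  rw [Units.val_mul, Units.val_mul, h, Matrix.GeneralLinearGroup.coe_scalar, Matrix.scalar_apply,
    Matrix.smul_eq_diagonal_mul]

theorem map_phi751 {S : Type*} [CommRing S] (f : R →+* S) (u : GL (Fin 2) R) :
    Matrix.GeneralLinearGroup.map f (phi751 u) = phi751 (Matrix.GeneralLinearGroup.map f u) := by
  unfold phi751
  rw [map_mul, map_mul, map_inv, Matrix.GeneralLinearGroup.map_scalar,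
    Matrix.GeneralLinearGroup.map_det]

/-- The centraliser of `ω = [[0, -n], [1, t]]` in `M₂(R)` is `{a + b ω}`. -/
theorem torMat_of_commute751 (t n : R) (X : Matrix (Fin 2) (Fin 2) R)
    (h : X * torMat t n 0 1 = torMat t n 0 1 * X) : X = torMat t n (X 0 0) (X 1 0) := by
  have h00 := congrFun (congrFun h 0) 0
  have h10 := congrFun (congrFun h 1) 0
  simp only [torMat, Matrix.mul_apply, Fin.sum_univ_two, Matrix.of_apply, Matrix.cons_val',
    Matrix.cons_val_zero, Matrix.cons_val_one, Matrix.empty_val', Matrix.cons_val_fin_one,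
    Matrix.head_cons, Matrix.head_fin_const] at h00 h10
  unfold torMat
  ext i j
  fin_cases i <;> fin_cases j
  · simp
  · simp only [Fin.zero_eta, Fin.mk_one, Matrix.of_apply, Matrix.cons_val', Matrix.cons_val_zero,
      Matrix.cons_val_one, Matrix.empty_val', Matrix.cons_val_fin_one, Matrix.head_cons]
    linear_combination h00
  · simp
  · simp only [Fin.mk_one, Matrix.of_apply, Matrix.cons_val', Matrix.cons_val_one,
      Matrix.empty_val', Matrix.cons_val_fin_one, Matrix.head_cons, Matrix.head_fin_const]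
    linear_combination h10

end Phi


/-! ## Continuity of `φ` on `GL₂(𝔸_K)` -/

section Compact

variable {K : Type} [Field K] [NumberField K]

theorem continuous_det751 :
    Continuous (fun u : A0.G K => Matrix.GeneralLinearGroup.det u) := by
  rw [Units.continuous_iff]
  constructor
  · have : (Units.val ∘ fun u : A0.G K => Matrix.GeneralLinearGroup.det u)
        = fun u : A0.G K => (u : Matrix (Fin 2) (Fin 2) (A0.Adl K)).det := by
      funext u
      exact Matrix.GeneralLinearGroup.val_det_apply u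
    rw [this]
    exact Continuous.matrix_det Units.continuous_val
  · have : (fun u : A0.G K => (((Matrix.GeneralLinearGroup.det u)⁻¹ : (A0.Adl K)ˣ) : A0.Adl K))
        = fun u : A0.G K => ((u⁻¹ : A0.G K) : Matrix (Fin 2) (Fin 2) (A0.Adl K)).det := by
      funext u
      rw [← map_inv, Matrix.GeneralLinearGroup.val_det_apply]
    rw [this]
    exact Continuous.matrix_det (Units.continuous_val.comp continuous_inv)

theorem continuous_scalar751 :
    Continuous (fun c : (A0.Adl K)ˣ => Matrix.GeneralLinearGroup.scalar (Fin 2) c) := by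
  unfold Matrix.GeneralLinearGroup.scalar
  apply Continuous.units_map
  change Continuous fun a : A0.Adl K => Matrix.scalar (Fin 2) a
  simp only [Matrix.scalar_apply]
  exact Continuous.matrix_diagonal (continuous_pi fun _ => continuous_id)

theorem continuous_phi751 : Continuous (phi751 : A0.G K → A0.G K) := by
  unfold phi751
  exact (continuous_id.mul continuous_id).mul
    (continuous_inv.comp (continuous_scalar751.comp continuous_det751))

/-! ## Rational points -/

theorem torMat_map751 {R S : Type*} [CommRing R] [CommRing S] (f : R →+* S) (t n a b : R) :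
    (torMat t n a b).map f = torMat (f t) (f n) (f a) (f b) := by
  unfold torMat
  ext i j
  fin_cases i <;> fin_cases j <;> simp

theorem ratG_val751 (δ : GL (Fin 2) K) :
    ((T1.ratG K δ : A0.G K) : Matrix (Fin 2) (Fin 2) (A0.Adl K))
      = (δ : Matrix (Fin 2) (Fin 2) K).map (algebraMap K (A0.Adl K)) := rfl

theorem inTorusRat_ratG751 (t n : K) (δ : GL (Fin 2) K) (p r : K)
    (h : (δ : Matrix (Fin 2) (Fin 2) K) = torMat t n p r) : InTorusRat t n (T1.ratG K δ) :=
  ⟨p, r, by rw [ratG_val751, h, torMat_map751]⟩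

/-- The generator `ω` in `GL₂(K)`. -/
def omegaK751 (t n : K) (hn : n ≠ 0) : GL (Fin 2) K :=
  Matrix.GeneralLinearGroup.mkOfDetNeZero (torMat t n 0 1)
    (by rw [torMat_det_h546]; simpa using hn)

theorem omegaK_val751 (t n : K) (hn : n ≠ 0) :
    (omegaK751 t n hn : Matrix (Fin 2) (Fin 2) K) = torMat t n 0 1 := rfl

theorem irreducible_charpoly_omegaK751 (t n : K) (hn : n ≠ 0)
    (hirr : ∀ x : K, x ^ 2 - t * x + n ≠ 0) :
    Irreducible (omegaK751 t n hn : Matrix (Fin 2) (Fin 2) K).charpoly := by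
  apply Polynomial.irreducible_of_degree_le_three_of_not_isRoot
  · rw [Matrix.charpoly_natDegree_eq_dim, Fintype.card_fin]
    decide
  · intro x hx
    apply hirr x
    rw [Polynomial.IsRoot, Matrix.charpoly_fin_two, omegaK_val751] at hx
    have htr : (torMat t n 0 1).trace = t := by
      simp [torMat, Matrix.trace_fin_two]
    have hdt : (torMat t n 0 1).det = n := by
      rw [torMat_det_h546]; ring
    rw [htr, hdt] at hx
    simpa using hx

/-- **`T¹(K) \ T¹(𝔸_K)` is compact** (from `T1.EllipticCompactC`). -/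
theorem torus1_cocompact751 (t n : K) (hirr : ∀ x : K, x ^ 2 - t * x + n ≠ 0)
    (hE : T1.EllipticCompactC K) :
    ∃ C : Set (A0.G K), IsCompact C ∧ ∀ m : A0.G K, InTorus1 t n m →
      ∃ y : A0.G K, InTorusRat t n y ∧ InTorus1 t n y ∧ y * m ∈ C := by
  have hn : n ≠ 0 := by simpa using hirr 0
  have hd : t ^ 2 - 4 * n ≠ 0 := by
    intro h
    apply hirr (t / 2)
    field_simp
    linear_combination (-1 : K) * h
  obtain ⟨C, hC, hcov⟩ := hE (omegaK751 t n hn) (irreducible_charpoly_omegaK751 t n hn hirr)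
  refine ⟨phi751 '' C, hC.image continuous_phi751, ?_⟩
  intro m hm
  obtain ⟨x, hxT, hxsq⟩ := adelicHilbert90_751 t n hd m hm
  have hγT : InTorusRat t n (T1.ratG K (omegaK751 t n hn)) :=
    inTorusRat_ratG751 t n _ 0 1 (omegaK_val751 t n hn)
  have hcomm : x * T1.ratG K (omegaK751 t n hn) = T1.ratG K (omegaK751 t n hn) * x :=
    inTorus_comm_h546 hxT (inTorus_of_rat_h546 hγT)
  obtain ⟨z, δ, c, hz, hδ, hcC, hx⟩ := hcov x hcomm
  obtain ⟨c₀, hz0⟩ := hz
  have hm_eq : m = phi751 x := (phi_of_sq751 x m hxsq).symm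
  -- `δ` is a rational torus element
  have hδv : (δ : Matrix (Fin 2) (Fin 2) K)
      = torMat t n ((δ : Matrix (Fin 2) (Fin 2) K) 0 0) ((δ : Matrix (Fin 2) (Fin 2) K) 1 0) := by
    apply torMat_of_commute751
    have := congrArg Units.val hδ
    rwa [Units.val_mul, Units.val_mul, omegaK_val751] at this
  have hδT : InTorusRat t n (T1.ratG K δ) := inTorusRat_ratG751 t n δ _ _ hδv
  -- `z` is central and in the torus
  have hzc : ∀ A : A0.G K, Commute z A := by
    intro A
    apply Units.ext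
    rw [Units.val_mul, Units.val_mul, hz0, ← Matrix.scalar_apply]
    exact (Matrix.scalar_commute c₀ (fun r => Commute.all _ _) _).eq
  have hzT : InTorus t n z := by
    refine ⟨c₀, 0, ?_⟩
    rw [hz0]
    unfold torMat
    ext i j
    fin_cases i <;> fin_cases j <;> simp
  have hcT : InTorus t n c := by
    have hc : c = (z * T1.ratG K δ)⁻¹ * x := by rw [hx]; group
    rw [hc]
    exact inTorus_mul_h546
      (inTorus_inv_h546 (inTorus_mul_h546 hzT (inTorus_of_rat_h546 hδT))) hxT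
  have hcc : Commute (z * T1.ratG K δ) c :=
    inTorus_comm_h546 (inTorus_mul_h546 hzT (inTorus_of_rat_h546 hδT)) hcT
  have h1 : phi751 x = phi751 (T1.ratG K δ) * phi751 c := by
    rw [hx, phi_mul751 _ _ hcc, phi_mul751 _ _ (hzc _), phi_central751 z c₀ hz0, one_mul]
  -- the rational point
  have hy'R : InTorusRat t n (phi751 (T1.ratG K δ)) := by
    have e : phi751 (T1.ratG K δ) = T1.ratG K (phi751 δ) := (map_phi751 _ δ).symm
    have hδc : Commute δ (omegaK751 t n hn) := hδ
    have hc' : Commute (phi751 δ) (omegaK751 t n hn) := by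
      unfold phi751
      refine Commute.mul_left (Commute.mul_left hδc hδc) ?_
      apply Commute.inv_left
      exact Matrix.GeneralLinearGroup.scalar_commute _ _
    have hv : ((phi751 δ : GL (Fin 2) K) : Matrix (Fin 2) (Fin 2) K)
        = torMat t n (((phi751 δ : GL (Fin 2) K) : Matrix (Fin 2) (Fin 2) K) 0 0)
            (((phi751 δ : GL (Fin 2) K) : Matrix (Fin 2) (Fin 2) K) 1 0) := by
      apply torMat_of_commute751
      have := congrArg Units.val hc'.eq
      rwa [Units.val_mul, Units.val_mul, omegaK_val751] at this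
    rw [e]
    exact inTorusRat_ratG751 t n _ _ _ hv
  have hy'1 : InTorus1 t n (phi751 (T1.ratG K δ)) :=
    ⟨inTorus_of_rat_h546 hy'R, det_phi751 _⟩
  refine ⟨(phi751 (T1.ratG K δ))⁻¹, inTorusRat_inv_h546 hy'R hy'1.2,
    inTorus1_inv_h546 hy'1, ?_⟩
  rw [hm_eq, h1, inv_mul_cancel_left]
  exact ⟨c, hcC, rfl⟩

end Compact

end Fermat.Agent.LT.A2.H751

end

end
-- ===== PACK-END LT/A2/H751/TorusCompact.lean

-- ===== PACK-BEGIN LT/A2/H792/Local.lean
section




/-!
# Row LT, tower A2, leaf A2.03.8.6 `H142.RecInertC` (helper792) -- part 2: adelic bookkeeping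

OFF-MAIN.  Components of determinants, the torus at one finite place, ideles supported at one
finite place and their module, the consequences of `WL.IsInertAt` for the torus.
Complete proofs, nothing assumed.
-/

set_option autoImplicit false

open IsDedekindDomain NumberField AutomorphicForm MeasureTheory
open scoped MatrixGroups

noncomputable section

namespace Fermat.Agent.LT.A2.H792

open Fermat.Agent.LT.H556 Fermat.Agent.LT.H556.A0 Fermat.Agent.LT.H129 Fermat.Agent.LT.A2
open Fermat.Agent.LT.A2.H593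

variable {K : Type} [Field K] [NumberField K]

/-! ## Components of determinants -/

theorem det_fin792 (v : HeightOneSpectrum (𝓞 K)) (m : G K) :
    ((Matrix.GeneralLinearGroup.det m : (Adl K)ˣ) : Adl K).2 v = (finComp v m).det := by
  rw [Matrix.GeneralLinearGroup.val_det_apply]
  have h := RingHom.map_det (evF129 v) (m : Matrix (Fin 2) (Fin 2) (Adl K))
  rw [evF129_apply] at h
  rw [h]
  rfl

theorem det_inf792 (w : InfinitePlace K) (m : G K) :
    ((Matrix.GeneralLinearGroup.det m : (Adl K)ˣ) : Adl K).1 w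
      = ((infCompHom129 w m : GL (Fin 2) w.Completion) :
          Matrix (Fin 2) (Fin 2) w.Completion).det := by
  rw [Matrix.GeneralLinearGroup.val_det_apply]
  have h := RingHom.map_det (evI129 w) (m : Matrix (Fin 2) (Fin 2) (Adl K))
  rw [evI129_apply] at h
  rw [h]
  rfl

/-- Two ideles with the same components are equal. -/
theorem idele_ext792 {a b : (Adl K)ˣ}
    (hI : ∀ w : InfinitePlace K, (a : Adl K).1 w = (b : Adl K).1 w)
    (hF : ∀ v : HeightOneSpectrum (𝓞 K), (a : Adl K).2 v = (b : Adl K).2 v) : a = b :=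
  Units.ext (adele_ext129 hI hF)

/-! ## Ideles supported at one finite place -/

/-- The idele with component `x` at `v` and `1` at every other place. -/
def idl792 (v : HeightOneSpectrum (𝓞 K)) (x : v.adicCompletion K) (hx : x ≠ 0) : (Adl K)ˣ :=
  Matrix.GeneralLinearGroup.det (locFin129 v (diag129 x 1 hx one_ne_zero))

theorem idl792_same (v : HeightOneSpectrum (𝓞 K)) (x : v.adicCompletion K) (hx : x ≠ 0) :
    (idl792 v x hx : Adl K).2 v = x := by
  unfold idl792
  rw [det_fin792, finComp_locFin129]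
  simp [diag129]

theorem idl792_of_ne (v : HeightOneSpectrum (𝓞 K)) (x : v.adicCompletion K) (hx : x ≠ 0)
    {v' : HeightOneSpectrum (𝓞 K)} (h : v' ≠ v) : (idl792 v x hx : Adl K).2 v' = 1 := by
  unfold idl792
  rw [det_fin792, ← coe_finCompHom129, finCompHom129_locFin129_of_ne v _ h]
  simp

theorem idl792_inf (v : HeightOneSpectrum (𝓞 K)) (x : v.adicCompletion K) (hx : x ≠ 0)
    (w : InfinitePlace K) : (idl792 v x hx : Adl K).1 w = 1 := by
  unfold idl792
  rw [det_inf792, infCompHom129_locFin129]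
  simp

theorem adl_mul_inf792 (a b : Adl K) (w : InfinitePlace K) :
    (a * b).1 w = a.1 w * b.1 w := rfl

theorem adl_mul_fin792 (a b : Adl K) (v : HeightOneSpectrum (𝓞 K)) :
    (a * b).2 v = a.2 v * b.2 v := rfl

theorem adl_add_inf792 (a b : Adl K) (w : InfinitePlace K) :
    (a + b).1 w = a.1 w + b.1 w := rfl

theorem adl_add_fin792 (a b : Adl K) (v : HeightOneSpectrum (𝓞 K)) :
    (a + b).2 v = a.2 v + b.2 v := rfl

theorem adl_one_inf792 (w : InfinitePlace K) : (1 : Adl K).1 w = 1 := rfl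

theorem adl_one_fin792 (v : HeightOneSpectrum (𝓞 K)) : (1 : Adl K).2 v = 1 := rfl

theorem adl_zero_inf792 (w : InfinitePlace K) : (0 : Adl K).1 w = 0 := rfl

theorem adl_zero_fin792 (v : HeightOneSpectrum (𝓞 K)) : (0 : Adl K).2 v = 0 := rfl

theorem idl792_congr (v : HeightOneSpectrum (𝓞 K)) {x y : v.adicCompletion K} (h : x = y)
    (hx : x ≠ 0) (hy : y ≠ 0) : idl792 v x hx = idl792 v y hy := by
  subst h; rfl

theorem idl792_mul (v : HeightOneSpectrum (𝓞 K)) (x y : v.adicCompletion K) (hx : x ≠ 0)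
    (hy : y ≠ 0) : idl792 v (x * y) (mul_ne_zero hx hy) = idl792 v x hx * idl792 v y hy := by
  apply idele_ext792
  · intro w
    rw [Units.val_mul, adl_mul_inf792, idl792_inf, idl792_inf, idl792_inf, mul_one]
  · intro v'
    rw [Units.val_mul, adl_mul_fin792]
    by_cases h : v' = v
    · subst h
      rw [idl792_same, idl792_same, idl792_same]
    · rw [idl792_of_ne v _ _ h, idl792_of_ne v _ _ h, idl792_of_ne v _ _ h, mul_one]

theorem idl792_one (v : HeightOneSpectrum (𝓞 K)) :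
    idl792 v (1 : v.adicCompletion K) one_ne_zero = 1 := by
  apply idele_ext792
  · intro w
    rw [idl792_inf]; rfl
  · intro v'
    by_cases h : v' = v
    · subst h
      rw [idl792_same]; rfl
    · rw [idl792_of_ne v _ _ h]; rfl

theorem idl792_inv (v : HeightOneSpectrum (𝓞 K)) (x : v.adicCompletion K) (hx : x ≠ 0) :
    idl792 v x⁻¹ (inv_ne_zero hx) = (idl792 v x hx)⁻¹ := by
  apply eq_inv_of_mul_eq_one_left
  rw [← idl792_mul, idl792_congr v (inv_mul_cancel₀ hx) _ one_ne_zero, idl792_one]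

theorem idl792_pow (v : HeightOneSpectrum (𝓞 K)) (x : v.adicCompletion K) (hx : x ≠ 0) (k : ℕ) :
    idl792 v (x ^ k) (pow_ne_zero k hx) = idl792 v x hx ^ k := by
  induction k with
  | zero =>
    exact (idl792_congr v (pow_zero x) _ one_ne_zero).trans
      ((idl792_one v).trans (pow_zero _).symm)
  | succ k ih =>
    calc idl792 v (x ^ (k + 1)) (pow_ne_zero (k + 1) hx)
        = idl792 v (x ^ k * x) (mul_ne_zero (pow_ne_zero k hx) hx) :=
          idl792_congr v (pow_succ x k) _ _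
      _ = idl792 v (x ^ k) (pow_ne_zero k hx) * idl792 v x hx := idl792_mul v _ _ _ _
      _ = idl792 v x hx ^ (k + 1) := by rw [ih, pow_succ]

theorem isIdeleAt_idl792 (v : HeightOneSpectrum (𝓞 K)) (x : v.adicCompletion K) (hx : x ≠ 0) :
    IsIdeleAt v (idl792 v x hx) :=
  ⟨fun w => idl792_inf v x hx w, fun _ h => idl792_of_ne v x hx h⟩

/-- **The module of an idele supported at `v`.** -/
theorem adNorm_idl792 (v : HeightOneSpectrum (𝓞 K)) (x : v.adicCompletion K) (hx : x ≠ 0) :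
    T1.adNorm K (idl792 v x hx : Adl K) = ‖x‖ := by
  unfold T1.adNorm
  have h1 : (∏ w : InfinitePlace K, ‖(idl792 v x hx : Adl K).1 w‖ ^ w.mult) = 1 := by
    apply Finset.prod_eq_one
    intro w _
    rw [idl792_inf, norm_one, one_pow]
  have h2 : (∏ᶠ v' : HeightOneSpectrum (𝓞 K), ‖(idl792 v x hx : Adl K).2 v'‖) = ‖x‖ := by
    rw [finprod_eq_single _ v]
    · rw [idl792_same]
    · intro v' h
      rw [idl792_of_ne v _ _ h, norm_one]
  rw [h1, h2, one_mul]

theorem norm_unif792 (v : HeightOneSpectrum (𝓞 K)) {ϖ : v.adicCompletion K}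
    (hϖ : Valued.v ϖ = WithZero.exp (-1 : ℤ)) :
    ‖ϖ‖ = ((Ideal.absNorm v.asIdeal : ℕ) : ℝ)⁻¹ := by
  rw [NumberField.FinitePlace.norm_def, hϖ,
    WithZeroMulInt.toNNReal_neg_apply _ WithZero.exp_ne_zero]
  have : Multiplicative.toAdd (WithZero.unzero (WithZero.exp_ne_zero (a := (-1 : ℤ)))) = -1 := rfl
  rw [this]
  simp

/-! ## The torus at the place `v` -/

/-- The component at `v` of an element of the torus. -/
theorem finComp_torMat792 {t n : K} (v : HeightOneSpectrum (𝓞 K)) {m : G K} {A B : Adl K}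
    (h : (m : Matrix (Fin 2) (Fin 2) (Adl K))
      = torMat (algebraMap K (Adl K) t) (algebraMap K (Adl K) n) A B) :
    finComp v m = torMat (algebraMap K (v.adicCompletion K) t)
      (algebraMap K (v.adicCompletion K) n) (A.2 v) (B.2 v) := by
  rw [← coe_finCompHom129, coe_finCompHom129_map, h, torMat_map593]
  rfl

/-- The determinant of the component at `v` of an element of the torus. -/
theorem det_finComp_torMat792 {t n : K} (v : HeightOneSpectrum (𝓞 K)) {m : G K} {A B : Adl K}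
    (h : (m : Matrix (Fin 2) (Fin 2) (Adl K))
      = torMat (algebraMap K (Adl K) t) (algebraMap K (Adl K) n) A B) :
    (finComp v m).det = nf792 (algebraMap K (v.adicCompletion K) t)
      (algebraMap K (v.adicCompletion K) n) (A.2 v) (B.2 v) := by
  rw [finComp_torMat792 v h, torMat_det593]
  rfl

/-- The adele with component `a` at `v` and `1` at every other place. -/
def adOne792 (v : HeightOneSpectrum (𝓞 K)) (a : v.adicCompletion K) : Adl K :=
  (1, finSingle129 v true a)

/-- The adele with component `b` at `v` and `0` at every other place. -/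
def adZero792 (v : HeightOneSpectrum (𝓞 K)) (b : v.adicCompletion K) : Adl K :=
  (0, finSingle129 v false b)

theorem adOne792_inf (v : HeightOneSpectrum (𝓞 K)) (a : v.adicCompletion K)
    (w : InfinitePlace K) : evI129 w (adOne792 v a) = 1 := rfl

theorem adZero792_inf (v : HeightOneSpectrum (𝓞 K)) (b : v.adicCompletion K)
    (w : InfinitePlace K) : evI129 w (adZero792 v b) = 0 := rfl

theorem adOne792_same (v : HeightOneSpectrum (𝓞 K)) (a : v.adicCompletion K) :
    evF129 v (adOne792 v a) = a := finSingle129_same v true a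

theorem adZero792_same (v : HeightOneSpectrum (𝓞 K)) (b : v.adicCompletion K) :
    evF129 v (adZero792 v b) = b := finSingle129_same v false b

theorem adOne792_of_ne (v : HeightOneSpectrum (𝓞 K)) (a : v.adicCompletion K)
    {v' : HeightOneSpectrum (𝓞 K)} (h : v' ≠ v) : evF129 v' (adOne792 v a) = 1 := by
  show finSingle129 v true a v' = 1
  rw [finSingle129_of_ne v _ _ h]
  rfl

theorem adZero792_of_ne (v : HeightOneSpectrum (𝓞 K)) (b : v.adicCompletion K)
    {v' : HeightOneSpectrum (𝓞 K)} (h : v' ≠ v) : evF129 v' (adZero792 v b) = 0 := by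
  show finSingle129 v false b v' = 0
  rw [finSingle129_of_ne v _ _ h]
  rfl

/-- A local element of the torus at `v` is an element of the adelic torus. -/
theorem inTorus_locFin792 (t n : K) (v : HeightOneSpectrum (𝓞 K))
    (x : GL (Fin 2) (v.adicCompletion K)) (a b : v.adicCompletion K)
    (hx : (x : Matrix (Fin 2) (Fin 2) (v.adicCompletion K))
      = torMat (algebraMap K (v.adicCompletion K) t) (algebraMap K (v.adicCompletion K) n) a b) :
    InTorus t n (locFin129 v x) := by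
  refine ⟨adOne792 v a, adZero792 v b, ?_⟩
  apply adeleMatrix_ext129
  · intro w
    rw [coe_locFin129, locMat129_map_inf, torMat_map593, adOne792_inf, adZero792_inf,
      torMat_one593]
  · intro v'
    rw [coe_locFin129, torMat_map593]
    by_cases h : v' = v
    · subst h
      rw [locMat129_map_same, hx, adOne792_same, adZero792_same]
      rfl
    · rw [locMat129_map_of_ne v _ h, adOne792_of_ne v _ h, adZero792_of_ne v _ h, torMat_one593]

theorem isIntegralAt_locFin792 (v : HeightOneSpectrum (𝓞 K))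
    (x : GL (Fin 2) (v.adicCompletion K)) :
    IsIntegralAt v (locFin129 v x) ↔ IsInt129 (v.adicCompletionIntegers K) x := by
  rw [← isInt129_finCompHom_iff, finCompHom129_locFin129]

theorem torMat_int792 (v : HeightOneSpectrum (𝓞 K)) {t n a b : v.adicCompletion K}
    (ht : Valued.v t ≤ 1) (hn : Valued.v n ≤ 1) (ha : Valued.v a ≤ 1) (hb : Valued.v b ≤ 1)
    (i j : Fin 2) : torMat t n a b i j ∈ v.adicCompletionIntegers K := by
  have ht' : t ∈ v.adicCompletionIntegers K := ht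
  have hn' : n ∈ v.adicCompletionIntegers K := hn
  have ha' : a ∈ v.adicCompletionIntegers K := ha
  have hb' : b ∈ v.adicCompletionIntegers K := hb
  fin_cases i <;> fin_cases j
  · simpa [torMat] using ha'
  · simpa [torMat] using (v.adicCompletionIntegers K).mul_mem _ _ hn' hb'
  · simpa [torMat] using hb'
  · simpa [torMat] using (v.adicCompletionIntegers K).add_mem _ _ ha'
      ((v.adicCompletionIntegers K).mul_mem _ _ ht' hb')

/-! ## The inert context -/

/-- The local hypotheses at an inert place `v ∤ π.level`: `t`, `n` integral, `t² - 4n` a unit,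
and no integral element of the local torus has norm a uniformiser. -/
structure InertCtx792 (t n : K) (v : HeightOneSpectrum (𝓞 K)) : Prop where
  ht : Valued.v (algebraMap K (v.adicCompletion K) t) ≤ 1
  hn : Valued.v (algebraMap K (v.adicCompletion K) n) ≤ 1
  hd : Valued.v ((algebraMap K (v.adicCompletion K) t) ^ 2
    - 4 * algebraMap K (v.adicCompletion K) n) = 1
  inert : LocInert792 (Valued.v : Valuation (v.adicCompletion K) (WithZero (Multiplicative ℤ)))
    (algebraMap K (v.adicCompletion K) t) (algebraMap K (v.adicCompletion K) n)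

theorem inertCtx_of792 {t n : K} {v : HeightOneSpectrum (𝓞 K)}
    (hgi : Valued.v (algebraMap K (v.adicCompletion K) t) ≤ 1 ∧
      Valued.v (algebraMap K (v.adicCompletion K) n) ≤ 1 ∧
      Valued.v (algebraMap K (v.adicCompletion K) (t ^ 2 - 4 * n)) = 1)
    (hin : WL.IsInertAt t n v) : InertCtx792 t n v := by
  obtain ⟨ht, hn, hd⟩ := hgi
  refine ⟨ht, hn, ?_, ?_⟩
  · rw [map_sub, map_pow, map_mul, map_ofNat] at hd
    exact hd
  · intro a b ha hb hval
    have hdet : (torMat (algebraMap K (v.adicCompletion K) t)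
        (algebraMap K (v.adicCompletion K) n) a b).det ≠ 0 := by
      rw [torMat_det593]
      intro h0
      have h0' : nf792 (algebraMap K (v.adicCompletion K) t)
          (algebraMap K (v.adicCompletion K) n) a b = 0 := h0
      rw [h0', map_zero] at hval
      exact WithZero.exp_ne_zero hval.symm
    refine hin (locFin129 v (Matrix.GeneralLinearGroup.mkOfDetNeZero _ hdet))
      (inTorus_locFin792 t n v _ a b rfl) (isLocalAtFin_locFin129 v _) ?_ ?_
    · rw [isIntegralAt_locFin792]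
      intro i j
      exact torMat_int792 v ht hn ha hb i j
    · rw [finComp_locFin129]
      show Valued.v (torMat (algebraMap K (v.adicCompletion K) t)
        (algebraMap K (v.adicCompletion K) n) a b).det = _
      rw [torMat_det593]
      exact hval

/-- At an inert place the elements of the norm-one torus are integral. -/
theorem isIntegralAt_of_inTorus1_792 {t n : K} {v : HeightOneSpectrum (𝓞 K)}
    (hc : InertCtx792 t n v) {m : G K} (hm : InTorus1 t n m) : IsIntegralAt v m := by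
  obtain ⟨ϖ, hϖ⟩ := exists_unif129 v
  obtain ⟨⟨A, B, hAB⟩, hdet⟩ := hm
  have h1 : (finComp v m).det = 1 := by
    rw [← det_fin792, hdet]
    rfl
  rw [det_finComp_torMat792 v hAB] at h1
  have h2 : Valued.v (nf792 (algebraMap K (v.adicCompletion K) t)
      (algebraMap K (v.adicCompletion K) n) (A.2 v) (B.2 v)) = 1 := by
    rw [h1, map_one]
  obtain ⟨ha, hb⟩ := aniso_int792 hc.ht hc.hn hc.hd hϖ hc.inert h2
  intro i j
  rw [finComp_torMat792 v hAB]
  exact torMat_int792 v hc.ht hc.hn ha hb i j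

/-- At an inert place an element whose determinant at `v` has odd valuation is not in
`GL₂(𝔸_K)⁺`. -/
theorem not_inGPlus_of_odd792 {t n : K} {v : HeightOneSpectrum (𝓞 K)}
    (hc : InertCtx792 t n v) {g : G K} {j : ℤ} (hj : ¬ Even j)
    (hg : Valued.v (finComp v g).det = WithZero.exp j) : ¬ InGPlus t n g := by
  obtain ⟨ϖ, hϖ⟩ := exists_unif129 v
  rintro ⟨m, ⟨A, B, hAB⟩, hdet⟩
  have h1 : (finComp v g).det = (finComp v m).det := by
    rw [← det_fin792, ← det_fin792, hdet]
  rw [h1, det_finComp_torMat792 v hAB] at hg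
  exact hj (aniso_even792 hc.ht hc.hn hc.hd hϖ hc.inert hg)

/-! ## The action on vectors, componentwise -/

theorem actV_agree792 (v : HeightOneSpectrum (𝓞 K)) (m : G K) {ξ ξ' : Adl K × Adl K}
    (h : WL.AgreeOffFin v ξ ξ') : WL.AgreeOffFin v (actV m ξ) (actV m ξ') := by
  obtain ⟨hI, hF⟩ := h
  refine ⟨fun w => ⟨?_, ?_⟩, fun v' hv' => ⟨?_, ?_⟩⟩
  · show ((m : Matrix (Fin 2) (Fin 2) (Adl K)) 0 0).1 w * ξ.1.1 w
        + ((m : Matrix (Fin 2) (Fin 2) (Adl K)) 0 1).1 w * ξ.2.1 w
      = ((m : Matrix (Fin 2) (Fin 2) (Adl K)) 0 0).1 w * ξ'.1.1 w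
        + ((m : Matrix (Fin 2) (Fin 2) (Adl K)) 0 1).1 w * ξ'.2.1 w
    rw [(hI w).1, (hI w).2]
  · show ((m : Matrix (Fin 2) (Fin 2) (Adl K)) 1 0).1 w * ξ.1.1 w
        + ((m : Matrix (Fin 2) (Fin 2) (Adl K)) 1 1).1 w * ξ.2.1 w
      = ((m : Matrix (Fin 2) (Fin 2) (Adl K)) 1 0).1 w * ξ'.1.1 w
        + ((m : Matrix (Fin 2) (Fin 2) (Adl K)) 1 1).1 w * ξ'.2.1 w
    rw [(hI w).1, (hI w).2]
  · show ((m : Matrix (Fin 2) (Fin 2) (Adl K)) 0 0).2 v' * ξ.1.2 v'
        + ((m : Matrix (Fin 2) (Fin 2) (Adl K)) 0 1).2 v' * ξ.2.2 v'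
      = ((m : Matrix (Fin 2) (Fin 2) (Adl K)) 0 0).2 v' * ξ'.1.2 v'
        + ((m : Matrix (Fin 2) (Fin 2) (Adl K)) 0 1).2 v' * ξ'.2.2 v'
    rw [(hF v' hv').1, (hF v' hv').2]
  · show ((m : Matrix (Fin 2) (Fin 2) (Adl K)) 1 0).2 v' * ξ.1.2 v'
        + ((m : Matrix (Fin 2) (Fin 2) (Adl K)) 1 1).2 v' * ξ.2.2 v'
      = ((m : Matrix (Fin 2) (Fin 2) (Adl K)) 1 0).2 v' * ξ'.1.2 v'
        + ((m : Matrix (Fin 2) (Fin 2) (Adl K)) 1 1).2 v' * ξ'.2.2 v'
    rw [(hF v' hv').1, (hF v' hv').2]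

theorem actV_integral792 (v : HeightOneSpectrum (𝓞 K)) {m : G K} (hm : IsIntegralAt v m)
    {ξ : Adl K × Adl K} (h : WL.VecIntegralAt v ξ) : WL.VecIntegralAt v (actV m ξ) := by
  obtain ⟨h1, h2⟩ := h
  constructor
  · show finComp v m 0 0 * ξ.1.2 v + finComp v m 0 1 * ξ.2.2 v ∈ v.adicCompletionIntegers K
    exact (v.adicCompletionIntegers K).add_mem _ _
      ((v.adicCompletionIntegers K).mul_mem _ _ (hm 0 0) h1)
      ((v.adicCompletionIntegers K).mul_mem _ _ (hm 0 1) h2)
  · show finComp v m 1 0 * ξ.1.2 v + finComp v m 1 1 * ξ.2.2 v ∈ v.adicCompletionIntegers K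
    exact (v.adicCompletionIntegers K).add_mem _ _
      ((v.adicCompletionIntegers K).mul_mem _ _ (hm 1 0) h1)
      ((v.adicCompletionIntegers K).mul_mem _ _ (hm 1 1) h2)

end Fermat.Agent.LT.A2.H792

end

end
-- ===== PACK-END LT/A2/H792/Local.lean

-- ===== PACK-BEGIN LT/A2/H926/AdmCompact.lean
section


/-!
# Row LT, tower A2, sub-leaf A2.03.4.1 `H904.AdmCompactC` (helper926), OFF-MAIN

`admCompactC_926 : Fermat.Agent.LT.A2.H904.AdmCompactC`, verbatim the Prop of
`LT/A2/H904/LiftBddSpec.lean` (helper904@539b3999f, byte-identical copy).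

Proof (the sketch of the Spec, with one simplification: only the MULTIPLICATIVITY of the torus is
used, no inverse).  `P = GL₂(K) GL₂(𝔸_K)⁺` is closed: by `TorusOpenC` at the admissible pair
`(1, 1)` there is a neighbourhood `U` of `1` inside `GL₂(𝔸_K)⁺`; if `g₀` is in the closure of `P`,
the neighbourhood `{g | g⁻¹ g₀ ∈ U}` of `g₀` contains some `p ∈ P`, and `g₀ = p (p⁻¹ g₀)` is in
`P` because admissible pairs multiply.  So `Ω ∩ P` is compact; for `ω₀ ∈ Ω ∩ P` with
`γ₀ ω₀ ∈ GL₂(𝔸_K)⁺`, the matrix `diag(1, det γ₀)` has the same determinant as `γ₀`, so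
`diag(1, det γ₀) ω₀` has the same admissible partners; a compact neighbourhood of one partner,
`TorusOpenC`, and a finite subcover give the compact set of pairs.
-/

set_option autoImplicit false

open IsDedekindDomain NumberField AutomorphicForm MeasureTheory
open scoped MatrixGroups Topology

noncomputable section

namespace Fermat.Agent.LT.A2.H926

open Fermat.Agent.LT.H130 Fermat.Agent.LT.H556 Fermat.Agent.LT.A2

/-- The product of two torus matrices is a torus matrix. -/
lemma torMat_mul926 {R : Type*} [CommRing R] (t n a b c d : R) :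
    torMat t n a b * torMat t n c d
      = torMat t n (a * c - n * (b * d)) (a * d + b * c + t * (b * d)) := by
  unfold torMat
  ext i j
  fin_cases i <;> fin_cases j <;> simp [Matrix.mul_apply, Fin.sum_univ_two] <;> ring

variable {K : Type} [Field K] [NumberField K]

lemma inTorus_mul926 {t n : K} {m₁ m₂ : A0.G K} (h₁ : InTorus t n m₁) (h₂ : InTorus t n m₂) :
    InTorus t n (m₁ * m₂) := by
  obtain ⟨a, b, hab⟩ := h₁
  obtain ⟨c, d, hcd⟩ := h₂
  refine ⟨a * c - algebraMap K (A0.Adl K) n * (b * d),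
    a * d + b * c + algebraMap K (A0.Adl K) t * (b * d), ?_⟩
  rw [Units.val_mul, hab, hcd, torMat_mul926]

lemma inTorus_one926 (t n : K) : InTorus t n (1 : A0.G K) := by
  refine ⟨1, 0, ?_⟩
  unfold torMat
  ext i j
  fin_cases i <;> fin_cases j <;> simp

lemma adm_one926 (t n : K) : Adm t n (1 : A0.G K) 1 := ⟨inTorus_one926 t n, rfl⟩

lemma adm_mul926 {t n : K} {g₁ g₂ m₁ m₂ : A0.G K} (h₁ : Adm t n g₁ m₁) (h₂ : Adm t n g₂ m₂) :
    Adm t n (g₁ * g₂) (m₁ * m₂) :=
  ⟨inTorus_mul926 h₁.1 h₂.1, by rw [map_mul, map_mul, h₁.2, h₂.2]⟩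

/-- `P = GL₂(K) GL₂(𝔸_K)⁺`. -/
def inP926 (t n : K) : Set (A0.G K) := {ω | ∃ γ : GL (Fin 2) K, InGPlus t n (ratG γ * ω)}

/-- `P` is closed. -/
lemma isClosed_inP926 (hopen : WL.TorusOpenC) (t n : K)
    (hirr : ∀ x : K, x ^ 2 - t * x + n ≠ 0) : IsClosed (inP926 t n) := by
  rw [← closure_subset_iff_isClosed]
  intro g₀ hg₀
  obtain ⟨U, hU, hUadm⟩ := hopen K t n hirr 1 1 (adm_one926 t n) Set.univ Filter.univ_mem
  have hN : {g : A0.G K | g⁻¹ * g₀ ∈ U} ∈ 𝓝 g₀ := by
    have hc : Continuous fun g : A0.G K => g⁻¹ * g₀ := continuous_inv.mul continuous_const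
    have h1 : g₀⁻¹ * g₀ = 1 := by simp
    exact hc.continuousAt.preimage_mem_nhds (by rw [h1]; exact hU)
  obtain ⟨p, hpN, hpP⟩ := mem_closure_iff_nhds.mp hg₀ _ hN
  obtain ⟨γ, mp, hmp⟩ := hpP
  obtain ⟨mu, -, hmu⟩ := hUadm _ hpN
  refine ⟨γ, mp * mu, ?_⟩
  have h2 : ratG γ * g₀ = (ratG γ * p) * (p⁻¹ * g₀) := by group
  rw [h2]
  exact adm_mul926 hmp hmu

omit [NumberField K] in
/-- The diagonal matrix `diag(1, det γ)` has the determinant of `γ`. -/
lemma exists_diag926 (γ₀ : GL (Fin 2) K) :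
    ∃ (α : K) (γ : GL (Fin 2) K), (γ : Matrix (Fin 2) (Fin 2) K) = !![1, 0; 0, α] ∧
      Matrix.GeneralLinearGroup.det γ = Matrix.GeneralLinearGroup.det γ₀ := by
  have hαne : ((Matrix.GeneralLinearGroup.det γ₀ : Kˣ) : K) ≠ 0 := Units.ne_zero _
  refine ⟨((Matrix.GeneralLinearGroup.det γ₀ : Kˣ) : K),
    Matrix.GeneralLinearGroup.mkOfDetNeZero !![1, 0; 0, ((Matrix.GeneralLinearGroup.det γ₀ : Kˣ) : K)]
      (by simpa [Matrix.det_fin_two] using hαne), rfl, ?_⟩
  apply Units.ext
  rw [Matrix.GeneralLinearGroup.val_det_apply]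
  simp [Matrix.GeneralLinearGroup.mkOfDetNeZero, Matrix.det_fin_two]

/-- **A2.03.4.1 ADM-COMPACT**, verbatim `H904.AdmCompactC`. -/
theorem admCompactC_926 : H904.AdmCompactC := by
  intro hopen K _ _ t n hirr hLC Ω hΩ
  have : LocallyCompactSpace (A0.G K) := hLC.2.1
  have hPcl := isClosed_inP926 hopen t n hirr
  have hKP : IsCompact (Ω ∩ inP926 t n) := hΩ.inter_right hPcl
  have key : ∀ ω₀ : A0.G K, ω₀ ∈ Ω ∩ inP926 t n →
      ∃ (α : K) (γ : GL (Fin 2) K) (V W : Set (A0.G K)),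
        (γ : Matrix (Fin 2) (Fin 2) K) = !![1, 0; 0, α] ∧ IsCompact V ∧ IsOpen W ∧ ω₀ ∈ W ∧
        ∀ ω ∈ W, ∃ m ∈ V, Adm t n (ratG γ * ω) m := by
    intro ω₀ hω₀
    obtain ⟨γ₀, m₀, hm₀⟩ := hω₀.2
    obtain ⟨α, γ', hγ', hdet⟩ := exists_diag926 γ₀
    have hadm : Adm t n (ratG γ' * ω₀) m₀ := by
      refine ⟨hm₀.1, ?_⟩
      rw [← hm₀.2, map_mul, map_mul]
      congr 1
      unfold ratG
      rw [Matrix.GeneralLinearGroup.map_det, Matrix.GeneralLinearGroup.map_det, hdet]
    obtain ⟨V, hVc, hVn⟩ := exists_compact_mem_nhds m₀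
    obtain ⟨U, hU, hUadm⟩ := hopen K t n hirr _ _ hadm V hVn
    have hc : Continuous fun ω : A0.G K => ratG γ' * ω := continuous_const.mul continuous_id
    have hpre : (fun ω : A0.G K => ratG γ' * ω) ⁻¹' U ∈ 𝓝 ω₀ :=
      hc.continuousAt.preimage_mem_nhds hU
    refine ⟨α, γ', V, interior ((fun ω : A0.G K => ratG γ' * ω) ⁻¹' U), hγ', hVc,
      isOpen_interior, mem_interior_iff_mem_nhds.mpr hpre, ?_⟩
    intro ω hω
    have hω' : ω ∈ (fun ω : A0.G K => ratG γ' * ω) ⁻¹' U := interior_subset hω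
    exact hUadm _ hω'
  choose! α γ V W hγ hVc hWo hWmem hWadm using key
  obtain ⟨s, hs⟩ := hKP.elim_finite_subcover
    (fun ω₀ : (Ω ∩ inP926 t n : Set (A0.G K)) => W (ω₀ : A0.G K))
    (fun ω₀ => hWo ω₀ ω₀.2)
    (fun ω hω => Set.mem_iUnion.mpr ⟨⟨ω, hω⟩, hWmem ω hω⟩)
  refine ⟨⋃ i ∈ s, ((fun ω : A0.G K => ratG (γ (i : A0.G K)) * ω) '' Ω) ×ˢ V (i : A0.G K),
    ?_, ?_⟩
  · refine s.isCompact_biUnion fun i _ => ?_
    exact (hΩ.image (continuous_const.mul continuous_id)).prod (hVc i i.2)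
  · intro ω hω hP
    have hmem : ω ∈ Ω ∩ inP926 t n := ⟨hω, hP⟩
    obtain ⟨i, hi, hωi⟩ : ∃ i ∈ s, ω ∈ W (i : A0.G K) := by
      simpa using hs hmem
    obtain ⟨m, hmV, hm⟩ := hWadm i i.2 ω hωi
    refine ⟨α i, γ i, m, hγ i i.2, hm, ?_⟩
    exact Set.mem_biUnion hi ⟨⟨ω, hω, rfl⟩, hmV⟩

end Fermat.Agent.LT.A2.H926

end

end
-- ===== PACK-END LT/A2/H926/AdmCompact.lean

-- ===== PACK-BEGIN LT/A2/H949/EigenOde.lean
section



/-!
# Row LT, tower A2, sub-leaf A2.03.7.2 `H416.EigenOdeC` (helper949), OFF-MAIN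

Registry row 1127.  Spec bytes: `LT/A2/H416/MeanSpec.lean` of `origin/helper416@957b73407`
(sha256 `4437dde0d7dedaa3…`).

`eigenOdeC949 : H416.EigenOdeC`, VERBATIM, from the core `eigenOde_core949`
(`EigenOdeCore.lean`, Mathlib + `LT/H470/Chain.lean` only).
-/

set_option autoImplicit false

namespace Fermat.Agent.LT.A2.H949

/-- **Sub-leaf A2.03.7.2 EIGEN-ODE** (`H416.EigenOdeC`, VERBATIM). -/
theorem eigenOdeC949 : Fermat.Agent.LT.A2.H416.EigenOdeC :=
  fun b₁ b₂ J J1 J2 hJ hJ1 hode => eigenOde_core949 b₁ b₂ J J1 J2 hJ hJ1 hode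

end Fermat.Agent.LT.A2.H949

end
-- ===== PACK-END LT/A2/H949/EigenOde.lean

-- ===== PACK-BEGIN LT/CFT/H1/L5/Global.lean
section










/-!
# Row LT, tower CFT, sub-tower REC2 (helper1), OFF-MAIN : leaf L5', part 2 (the global statement)

`unitResidue_norm_mem` : `m = ℓ^e`, `C ≤ (ℤ/m)ˣ`, `K₀ = ℚ(μ_m)^C` (group `U₀ = c⁻¹(C)`),
`a ∈ K₀ˣ`, `y = N_{K₀/ℚ}(a) ∈ ℚˣ`.  Then the residue mod `ℓ^e` of the `ℓ`-adic unit part of `y`
lies in `C`.

Proof.  By the elementary product formula of `ℚ` (main `H413.signChar_mul_wildChar_mul_tameProd`)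
the residue is `sign(y) · ∏_{q ≠ ℓ} q ^ v_q(y)`.
* `q ^ v_q(y) = ∏_{v | q} (q ^ f_v) ^ ord_v(a)` (product formula of `K₀`, main `H124`) and
  `q ^ f_v = c(Frob_v)` with `Frob_v ∈ U₀` (main L2, L4), so the product lies in `c(U₀) ≤ C`;
* `sign(y) = 1` if `-1 ∉ C` (`K₀` totally complex, `normPos`), and `-1 ∈ C` otherwise.
-/

set_option autoImplicit false
set_option linter.style.haveILetI false

noncomputable section

namespace Fermat.Agent.LT.CFT.H1.L5

open Fermat.Agent.S55.G.Rec Fermat.Agent.S55.G.Rec.H511 Fermat.Agent.S55.H413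

local notation "Qb" => AlgebraicClosure ℚ
local notation "GQ" => (AlgebraicClosure ℚ ≃ₐ[ℚ] AlgebraicClosure ℚ)

variable (ℓ : ℕ) [hℓ : Fact ℓ.Prime] (e : ℕ) [NeZero (ℓ ^ e)]

/-- The Frobenius computation at one place `(q, r)`, `q ≠ ℓ`: `q ^ vdeg ∈ C`. -/
theorem primeUnit_zpow_vdeg_mem (C : Subgroup (ZMod (ℓ ^ e))ˣ) (a : Qbˣ)
    (ha : GFixed (C.comap (cyc (ℓ ^ e))) a) (q : ℕ) [hq : Fact q.Prime] (hqℓ : q ≠ ℓ) (r : GQ) :
    primeUnit ℓ e q hqℓ ^
      vdeg q (locSub q r (C.comap (cyc (ℓ ^ e)))) (locPushMul q r a) ∈ C := by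
  set U₀ : Subgroup GQ := C.comap (cyc (ℓ ^ e)) with hU₀
  have hU : IsOpenQ U₀ := isOpenQ_comap_cyc (ℓ ^ e) C
  have hV : IsOpenL q (locSub q r U₀) := isOpenL_locSub q r U₀ hU
  have hqm : ¬ q ∣ ℓ ^ e := fun h =>
    hqℓ ((Nat.prime_dvd_prime_iff_eq hq.out hℓ.out).mp (hq.out.dvd_of_dvd_pow h))
  have har : LFixed q (locSub q r U₀) (locPushMul q r a) := H934.lFixed_locPushMul q ha r
  obtain ⟨f, φ, π, hf, hφV, hφ, -, -, hall⟩ := H931.localStructure q (locSub q r U₀) hV
  obtain ⟨k, u, -, -, -, hvdeg⟩ := hall (locPushMul q r a) har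
  have hσ : cyc (ℓ ^ e) ((locHom q r U₀ ⟨φ, hφV⟩ : ↥U₀) : GQ) ∈ C :=
    (locHom q r U₀ ⟨φ, hφV⟩).2
  have hcyc : cyc (ℓ ^ e) ((locHom q r U₀ ⟨φ, hφV⟩ : ↥U₀) : GQ) = primeUnit ℓ e q hqℓ ^ f := by
    apply Units.ext
    rw [locHom_coe, cyc_conj, cyc_loc_coe q (ℓ ^ e) (q ^ f) φ ((H854.cycloFrob q (ℓ ^ e) hqm).2 φ f hφ),
      Units.val_pow_eq_pow_val, coe_primeUnit, Nat.cast_pow]
  rw [hvdeg, zpow_mul, zpow_natCast, ← hcyc]
  exact C.zpow_mem hσ k

/-- The tame part of the norm lies in `C`. -/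
theorem tameProd_norm_mem (C : Subgroup (ZMod (ℓ ^ e))ˣ) (a : Qbˣ)
    (ha : GFixed (C.comap (cyc (ℓ ^ e))) a) (y : ℚˣ)
    (hy : ((relNorm (C.comap (cyc (ℓ ^ e))) a : Qbˣ) : Qb) = algebraMap ℚ Qb (y : ℚ)) :
    tameProd ℓ e y ∈ C := by
  classical
  set U₀ : Subgroup GQ := C.comap (cyc (ℓ ^ e)) with hU₀
  have hU : IsOpenQ U₀ := isOpenQ_comap_cyc (ℓ ^ e) C
  rw [tameProd_apply]
  refine finprod_induction (fun x => x ∈ C) C.one_mem (fun x y hx hy => C.mul_mem hx hy) ?_
  intro q
  by_cases hqℓ : (q : ℕ) = ℓ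
  · rw [tameGlobal_of_eq ℓ e q hqℓ]
    exact C.one_mem
  · haveI : Fact (q : ℕ).Prime := ⟨q.2⟩
    rw [tameGlobal_of_ne ℓ e q hqℓ]
    obtain ⟨R, hR⟩ := H174.exists_placeReps hU (q : ℕ)
    have hpf := H124.productFormula_of H934.orbitNorm VdegH707.vdegSpec U₀ hU a ha y hy
      (q : ℕ) R hR
    rw [hpf, ← prod_zpow_const]
    exact Subgroup.prod_mem _ fun r _ => primeUnit_zpow_vdeg_mem ℓ e C a ha (q : ℕ) hqℓ r

omit hℓ in
/-- The sign of the norm lies in `C`. -/
theorem signChar_norm_mem (C : Subgroup (ZMod (ℓ ^ e))ˣ) (a : Qbˣ)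
    (ha : GFixed (C.comap (cyc (ℓ ^ e))) a) (y : ℚˣ)
    (hy : ((relNorm (C.comap (cyc (ℓ ^ e))) a : Qbˣ) : Qb) = algebraMap ℚ Qb (y : ℚ)) :
    signChar ℓ e y ∈ C := by
  by_cases hpos : 0 < (y : ℚ)
  · rw [signChar_of_pos ℓ e y hpos]
    exact C.one_mem
  · have hneg : (-1 : (ZMod (ℓ ^ e))ˣ) ∈ C := by
      by_contra hC
      exact hpos (normPos _ (isOpenQ_comap_cyc (ℓ ^ e) C) (isTC_comap_cyc (ℓ ^ e) C hC) a ha y hy)
    have h1 : signChar ℓ e y = -1 := by
      simp [signChar, hpos]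
    rw [h1]
    exact hneg

/-- **The global statement**: the unit residue of a norm from `ℚ(μ_{ℓ^e})^C` lies in `C`. -/
theorem unitResidue_norm_mem (C : Subgroup (ZMod (ℓ ^ e))ˣ) (a : Qbˣ)
    (ha : GFixed (C.comap (cyc (ℓ ^ e))) a) (y : ℚˣ)
    (hy : ((relNorm (C.comap (cyc (ℓ ^ e))) a : Qbˣ) : Qb) = algebraMap ℚ Qb (y : ℚ)) :
    unitResidue ℓ e (toPadicUnits ℓ y) ∈ C := by
  have h := signChar_mul_wildChar_mul_tameProd ℓ e y
  rw [wildChar_apply] at h
  have h2 : unitResidue ℓ e (toPadicUnits ℓ y) = signChar ℓ e y * tameProd ℓ e y := by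
    have h3 : signChar ℓ e y * tameProd ℓ e y * (unitResidue ℓ e (toPadicUnits ℓ y))⁻¹ = 1 := by
      rw [← h, mul_right_comm]
    exact (mul_inv_eq_one.mp h3).symm
  rw [h2]
  exact C.mul_mem (signChar_norm_mem ℓ e C a ha y hy) (tameProd_norm_mem ℓ e C a ha y hy)

end Fermat.Agent.LT.CFT.H1.L5

end
end
-- ===== PACK-END LT/CFT/H1/L5/Global.lean

-- ===== PACK-BEGIN LT/T7/H849/CountBd.lean
section




/-!
# Row LT, tower T7, node T7.14 `RigidC`, leaf T7.14.3 `CountC` (row 1519): the UNIFORM BOUND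
# and FINITENESS (helper849, assist; owner of the leaf: helper671)

OFF-MAIN.  Mathlib + byte-identical copies of `LT/T7/H62/RigidAut.lean` (helper62, vocabulary
`rowOf`, `rowNorm`, `cntSet`, `cnt`) and `LT/T1/Spec.lean` (`AdNormC`, a CLOSED leaf of T1).

For EVERY totally complex number field `K`, EVERY ideal `𝔪`, EVERY `g ∈ GL₂(𝔸_K)`:

* `cntSet_finite849 : 0 < Y → (cntSet 𝔪 Y g).Finite`;
* `cnt_mul_le849    : 0 < Y → Y ≤ 1 → Y * cnt 𝔪 Y g ≤ 2 * 98 ^ r`, `r = #{w ∣ ∞}`;
* `cntBd849`        : the third conjunct of `Rigid.CountC K`, verbatim.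

NO reduction theory, NO lattice count.  Proof (separation + packing):

1. For two distinct points `x ≠ x'` of `ℙ¹(K)` with rows `r = x g`, `r' = x' g`, the wedge
   `r₀ r'₁ - r₁ r'₀ = D · det g`, `D ∈ Kˣ`, is an idele of module `‖det g‖_𝔸` (product formula,
   `AdNormC`).
2. Hadamard at every place: `|wedge|_v ≤ max|r|_v · max|r'|_v` (ultrametric), and at a complex
   place `|wedge|_w² ≤ (2 s)² ‖r_w‖² ‖r'_w‖²` if `[r_w]` and `[r'_w]` lie in the same chart square
   of side `s` of `ℙ¹(ℂ)` (`cell849`: chart `|α| ≤ |β|`, `z = α / β`, or chart `|β| < |α|`,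
   `z = β / α`; `|α β' - β α'| = |β β'| |z - z'|`).
3. Hence two distinct points of height `≥ Y` in the same cell at every `w` satisfy
   `‖det g‖ ≤ (2 s)^{2 r} H H' ≤ (2 s)^{2 r} ‖det g‖ / Y`: impossible if `(2 s)^{2 r} < Y`.
   The cell map is injective on `hSet849 Y g` and takes values in a box of `(2 (2 N + 1)²)^r`
   cells, `N = ⌈1 / s⌉`; with `(2 s)^{2 r} = Y / 2` this is `≤ 2 · 98^r / Y`.

As a by-product the local heights `max(|r₀|_v, |r₁|_v)` of a row `x g`, `x ≠ 0`, are `1` for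
almost all `v` (`finite_mulSupport_finLoc849`), so `rowNorm` is never a junk value on rows.
-/

set_option autoImplicit false
set_option linter.unusedSectionVars false

open IsDedekindDomain NumberField Filter Topology
open Fermat.Agent.LT.H556.A0 Fermat.Agent.LT.T7 Fermat.Agent.LT.T7.Rigid

noncomputable section

namespace Fermat.Agent.LT.T7.H849

/-! ## 1. Cells of `ℙ¹(ℂ)` -/


/-- The chart cell of the point `[α : β]` of `ℙ¹(ℂ)` for the mesh `s`. -/
noncomputable def cell849 (s : ℝ) (α β : ℂ) : Bool × ℤ × ℤ :=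
  if ‖α‖ ≤ ‖β‖ then (true, ⌊(α / β).re / s⌋, ⌊(α / β).im / s⌋)
  else (false, ⌊(β / α).re / s⌋, ⌊(β / α).im / s⌋)

lemma abs_sub_lt_of_floor_eq849 {s x y : ℝ} (hs : 0 < s) (h : ⌊x / s⌋ = ⌊y / s⌋) :
    |x - y| ≤ s := by
  have h1 := Int.floor_le (x / s)
  have h2 := Int.lt_floor_add_one (x / s)
  have h3 := Int.floor_le (y / s)
  have h4 := Int.lt_floor_add_one (y / s)
  rw [h] at h1 h2
  have h5 : |x / s - y / s| ≤ 1 := by
    rw [abs_le]; constructor <;> linarith
  have h6 : x / s - y / s = (x - y) / s := by ring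
  rw [h6, abs_div, abs_of_pos hs, div_le_one hs] at h5
  exact h5

lemma norm_sub_le_of_cell849 {s : ℝ} (hs : 0 < s) {z z' : ℂ}
    (hre : ⌊z.re / s⌋ = ⌊z'.re / s⌋) (him : ⌊z.im / s⌋ = ⌊z'.im / s⌋) :
    ‖z - z'‖ ≤ 2 * s := by
  have h1 := abs_sub_lt_of_floor_eq849 hs hre
  have h2 := abs_sub_lt_of_floor_eq849 hs him
  calc ‖z - z'‖ ≤ |(z - z').re| + |(z - z').im| := Complex.norm_le_abs_re_add_abs_im _
    _ = |z.re - z'.re| + |z.im - z'.im| := by simp
    _ ≤ 2 * s := by linarith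

/-- Two points in the same cell have small wedge. -/
lemma wedge_le_of_cell849 {s : ℝ} (hs : 0 < s) {α β α' β' : ℂ}
    (h : cell849 s α β = cell849 s α' β') :
    ‖α * β' - β * α'‖ ^ 2 ≤ (2 * s) ^ 2 * ((‖α‖ ^ 2 + ‖β‖ ^ 2) * (‖α'‖ ^ 2 + ‖β'‖ ^ 2)) := by
  have key : ∀ a b a' b' : ℂ, ‖a‖ ≤ ‖b‖ → ‖a'‖ ≤ ‖b'‖ →
      ⌊(a / b).re / s⌋ = ⌊(a' / b').re / s⌋ → ⌊(a / b).im / s⌋ = ⌊(a' / b').im / s⌋ →
      ‖a * b' - b * a'‖ ^ 2 ≤ (2 * s) ^ 2 * ((‖a‖ ^ 2 + ‖b‖ ^ 2) * (‖a'‖ ^ 2 + ‖b'‖ ^ 2)) := by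
    intro a b a' b' hab hab' hre him
    have hnn : 0 ≤ (2 * s) ^ 2 * ((‖a‖ ^ 2 + ‖b‖ ^ 2) * (‖a'‖ ^ 2 + ‖b'‖ ^ 2)) := by positivity
    by_cases hb : b = 0
    · have ha : a = 0 := by
        rw [hb, norm_zero] at hab
        exact norm_le_zero_iff.1 hab
      simp [ha, hb]
    by_cases hb' : b' = 0
    · have ha' : a' = 0 := by
        rw [hb', norm_zero] at hab'
        exact norm_le_zero_iff.1 hab'
      simp [ha', hb']
    have hz := norm_sub_le_of_cell849 hs hre him
    have e : a * b' - b * a' = b * b' * (a / b - a' / b') := by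
      field_simp
    rw [e, norm_mul, norm_mul, mul_pow, mul_pow]
    have h1 : ‖a / b - a' / b'‖ ^ 2 ≤ (2 * s) ^ 2 :=
      pow_le_pow_left₀ (norm_nonneg _) hz 2
    have h2 : ‖b‖ ^ 2 ≤ ‖a‖ ^ 2 + ‖b‖ ^ 2 := by nlinarith [sq_nonneg ‖a‖]
    have h3 : ‖b'‖ ^ 2 ≤ ‖a'‖ ^ 2 + ‖b'‖ ^ 2 := by nlinarith [sq_nonneg ‖a'‖]
    calc ‖b‖ ^ 2 * ‖b'‖ ^ 2 * ‖a / b - a' / b'‖ ^ 2
        ≤ (‖a‖ ^ 2 + ‖b‖ ^ 2) * (‖a'‖ ^ 2 + ‖b'‖ ^ 2) * (2 * s) ^ 2 := by
          gcongr
      _ = _ := by ring
  unfold cell849 at h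
  by_cases c : ‖α‖ ≤ ‖β‖
  · by_cases c' : ‖α'‖ ≤ ‖β'‖
    · rw [if_pos c, if_pos c'] at h
      simp only [Prod.mk.injEq, true_and] at h
      exact key α β α' β' c c' h.1 h.2
    · rw [if_pos c, if_neg c'] at h
      simp at h
  · by_cases c' : ‖α'‖ ≤ ‖β'‖
    · rw [if_neg c, if_pos c'] at h
      simp at h
    · rw [if_neg c, if_neg c'] at h
      simp only [Prod.mk.injEq, true_and] at h
      have := key β α β' α' (le_of_not_ge c) (le_of_not_ge c') h.1 h.2
      have e : α * β' - β * α' = -(β * α' - α * β') := by ring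
      rw [e, norm_neg]
      calc ‖β * α' - α * β'‖ ^ 2 ≤ _ := this
        _ = _ := by ring

/-- The cell lies in a finite box. -/
lemma cell_mem849 {s : ℝ} (hs : 0 < s) (α β : ℂ) :
    cell849 s α β ∈ (Finset.univ : Finset Bool) ×ˢ
      (Finset.Icc (-(⌈1 / s⌉₊ : ℤ)) ⌈1 / s⌉₊ ×ˢ Finset.Icc (-(⌈1 / s⌉₊ : ℤ)) ⌈1 / s⌉₊) := by
  have key : ∀ x : ℝ, |x| ≤ 1 → ⌊x / s⌋ ∈ Finset.Icc (-(⌈1 / s⌉₊ : ℤ)) ⌈1 / s⌉₊ := by
    intro x hx
    rw [abs_le] at hx
    have hN : 1 / s ≤ (⌈1 / s⌉₊ : ℝ) := Nat.le_ceil _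
    rw [Finset.mem_Icc]
    constructor
    · rw [Int.le_floor]
      push_cast
      have : -(1 / s) ≤ x / s := by
        rw [neg_div' ]
        exact div_le_div_of_nonneg_right hx.1 hs.le
      linarith
    · have h1 : x / s ≤ 1 / s := div_le_div_of_nonneg_right hx.2 hs.le
      have h2 : (⌊x / s⌋ : ℝ) ≤ x / s := Int.floor_le _
      have h3 : (⌊x / s⌋ : ℝ) ≤ ((⌈1 / s⌉₊ : ℤ) : ℝ) := by
        push_cast; linarith
      exact_mod_cast h3
  have hq : ∀ a b : ℂ, ‖a‖ ≤ ‖b‖ → ‖a / b‖ ≤ 1 := by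
    intro a b hab
    rw [norm_div]
    by_cases hb : ‖b‖ = 0
    · simp [hb]
    · exact (div_le_one (lt_of_le_of_ne (norm_nonneg _) (Ne.symm hb))).2 hab
  unfold cell849
  by_cases c : ‖α‖ ≤ ‖β‖
  · rw [if_pos c]
    have := hq α β c
    simp only [Finset.mem_product, Finset.mem_univ, true_and]
    exact ⟨key _ ((Complex.abs_re_le_norm _).trans this),
      key _ ((Complex.abs_im_le_norm _).trans this)⟩
  · rw [if_neg c]
    have := hq β α (le_of_not_ge c)
    simp only [Finset.mem_product, Finset.mem_univ, true_and]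
    exact ⟨key _ ((Complex.abs_re_le_norm _).trans this),
      key _ ((Complex.abs_im_le_norm _).trans this)⟩


/-! ## 2. Adeles -/

variable {K : Type} [Field K] [NumberField K]

lemma norm_le_one_iff849 (v : HeightOneSpectrum (𝓞 K)) (x : v.adicCompletion K) :
    ‖x‖ ≤ 1 ↔ x ∈ v.adicCompletionIntegers K := by
  rw [HeightOneSpectrum.mem_adicCompletionIntegers]
  exact Valued.toNormedField.norm_le_one_iff

lemma eventually_norm_le_one849 (a : Adl K) : ∀ᶠ v in cofinite, ‖a.2 v‖ ≤ 1 := by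
  filter_upwards [a.2.2] with v hv
  exact (norm_le_one_iff849 v _).2 hv

lemma snd_mul_apply849 (a b : Adl K) (v : HeightOneSpectrum (𝓞 K)) :
    (a * b).2 v = a.2 v * b.2 v := rfl

lemma snd_sub_apply849 (a b : Adl K) (v : HeightOneSpectrum (𝓞 K)) :
    (a - b).2 v = a.2 v - b.2 v := rfl

lemma snd_one_apply849 (v : HeightOneSpectrum (𝓞 K)) :
    (1 : Adl K).2 v = 1 := rfl

lemma fst_mul_apply849 (a b : Adl K) (w : InfinitePlace K) :
    (a * b).1 w = a.1 w * b.1 w := rfl

lemma fst_sub_apply849 (a b : Adl K) (w : InfinitePlace K) :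
    (a - b).1 w = a.1 w - b.1 w := rfl

lemma eventually_norm_eq_one849 (u : (Adl K)ˣ) : ∀ᶠ v in cofinite, ‖(u : Adl K).2 v‖ = 1 := by
  filter_upwards [eventually_norm_le_one849 (u : Adl K),
    eventually_norm_le_one849 ((u⁻¹ : (Adl K)ˣ) : Adl K)] with v h1 h2
  have h : (u : Adl K).2 v * ((u⁻¹ : (Adl K)ˣ) : Adl K).2 v = 1 := by
    rw [← snd_mul_apply849, u.mul_inv, snd_one_apply849]
  have h3 : ‖(u : Adl K).2 v‖ * ‖((u⁻¹ : (Adl K)ˣ) : Adl K).2 v‖ = 1 := by
    rw [← norm_mul, h, norm_one]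
  have h4 := norm_nonneg ((u : Adl K).2 v)
  have h5 := norm_nonneg (((u⁻¹ : (Adl K)ˣ) : Adl K).2 v)
  nlinarith

/-- The wedge (2 × 2 determinant) of two rows. -/
def wedge849 (r r' : Fin 2 → Adl K) : Adl K := r 0 * r' 1 - r 1 * r' 0

lemma wedge_rowOf849 (x x' : Fin 2 → K) (g : G K) :
    wedge849 (rowOf x g) (rowOf x' g)
      = algebraMap K (Adl K) (x 0 * x' 1 - x 1 * x' 0)
        * Matrix.det (g : Matrix (Fin 2) (Fin 2) (Adl K)) := by
  simp only [wedge849, rowOf, Matrix.det_fin_two, map_sub, map_mul]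
  ring

/-- The local factor of the finite height. -/
def finLoc849 (r : Fin 2 → Adl K) (v : HeightOneSpectrum (𝓞 K)) : ℝ :=
  max ‖(r 0).2 v‖ ‖(r 1).2 v‖

lemma finLoc_nonneg849 (r : Fin 2 → Adl K) (v : HeightOneSpectrum (𝓞 K)) : 0 ≤ finLoc849 r v :=
  le_max_of_le_left (norm_nonneg _)

lemma eventually_finLoc_le_one849 (r : Fin 2 → Adl K) : ∀ᶠ v in cofinite, finLoc849 r v ≤ 1 := by
  filter_upwards [eventually_norm_le_one849 (r 0), eventually_norm_le_one849 (r 1)] with v h0 h1
  exact max_le h0 h1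

/-- Hadamard at a finite place. -/
lemma norm_wedge_fin_le849 (r r' : Fin 2 → Adl K) (v : HeightOneSpectrum (𝓞 K)) :
    ‖(wedge849 r r').2 v‖ ≤ finLoc849 r v * finLoc849 r' v := by
  have e : (wedge849 r r').2 v = (r 0).2 v * (r' 1).2 v - (r 1).2 v * (r' 0).2 v := rfl
  rw [e]
  have hsub : ∀ x y : v.adicCompletion K, ‖x - y‖ ≤ max ‖x‖ ‖y‖ := fun x y => by
    have := IsUltrametricDist.norm_add_le_max x (-y)
    rwa [norm_neg, ← sub_eq_add_neg] at this
  refine (hsub _ _).trans (max_le ?_ ?_)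
  · rw [norm_mul]
    exact mul_le_mul (le_max_left _ _) (le_max_right _ _) (norm_nonneg _) (finLoc_nonneg849 r v)
  · rw [norm_mul]
    exact mul_le_mul (le_max_right _ _) (le_max_left _ _) (norm_nonneg _) (finLoc_nonneg849 r v)

/-- If the wedge of `r` and `r'` is an idele, the local heights of `r` are `1` almost everywhere. -/
lemma eventually_finLoc_eq_one849 {r r' : Fin 2 → Adl K} {u : (Adl K)ˣ}
    (hu : wedge849 r r' = (u : Adl K)) :
    ∀ᶠ v in cofinite, finLoc849 r v = 1 ∧ finLoc849 r' v = 1 := by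
  filter_upwards [eventually_norm_eq_one849 u, eventually_finLoc_le_one849 r,
    eventually_finLoc_le_one849 r'] with v h1 h2 h3
  have h4 := norm_wedge_fin_le849 r r' v
  rw [hu, h1] at h4
  have h5 := finLoc_nonneg849 r v
  have h6 := finLoc_nonneg849 r' v
  constructor
  · nlinarith
  · nlinarith

lemma finite_mulSupport_finLoc849 {r r' : Fin 2 → Adl K} {u : (Adl K)ˣ}
    (hu : wedge849 r r' = (u : Adl K)) :
    (Function.mulSupport (finLoc849 r)).Finite ∧ (Function.mulSupport (finLoc849 r')).Finite := by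
  have h := eventually_finLoc_eq_one849 hu
  rw [eventually_cofinite] at h
  constructor
  · refine h.subset fun v hv => ?_
    simp only [Function.mem_mulSupport] at hv
    simp only [Set.mem_ofPred_eq, not_and_or]
    exact Or.inl hv
  · refine h.subset fun v hv => ?_
    simp only [Function.mem_mulSupport] at hv
    simp only [Set.mem_ofPred_eq, not_and_or]
    exact Or.inr hv

lemma finite_mulSupport_unit849 (u : (Adl K)ˣ) :
    (Function.mulSupport fun v : HeightOneSpectrum (𝓞 K) => ‖(u : Adl K).2 v‖).Finite := by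
  have h := eventually_norm_eq_one849 u
  rw [eventually_cofinite] at h
  exact h

/-- Hadamard for the finite part. -/
lemma finprod_wedge_le849 {r r' : Fin 2 → Adl K} {u : (Adl K)ˣ}
    (hu : wedge849 r r' = (u : Adl K)) :
    (∏ᶠ v : HeightOneSpectrum (𝓞 K), ‖(u : Adl K).2 v‖)
      ≤ (∏ᶠ v, finLoc849 r v) * ∏ᶠ v, finLoc849 r' v := by
  obtain ⟨h1, h2⟩ := finite_mulSupport_finLoc849 hu
  have h3 := finite_mulSupport_unit849 u
  rw [← finprod_mul_distrib h1 h2]
  have h4 : (Function.mulSupport fun v => finLoc849 r v * finLoc849 r' v).Finite :=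
    (h1.union h2).subset (Function.mulSupport_mul _ _)
  rw [finprod_eq_prod_of_mulSupport_subset (s := (h3.union h4).toFinset) _ (by simp),
    finprod_eq_prod_of_mulSupport_subset (s := (h3.union h4).toFinset) _ (by simp)]
  refine Finset.prod_le_prod (fun v _ => norm_nonneg _) (fun v _ => ?_)
  rw [← hu]
  exact norm_wedge_fin_le849 r r' v


/-! ## 3. The infinite places -/

/-- The local factor of the infinite height (squared Euclidean norm of the row at `w`). -/
def infLoc849 (r : Fin 2 → Adl K) (w : InfinitePlace K) : ℝ :=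
  ‖(r 0).1 w‖ ^ 2 + ‖(r 1).1 w‖ ^ 2

lemma infLoc_nonneg849 (r : Fin 2 → Adl K) (w : InfinitePlace K) : 0 ≤ infLoc849 r w := by
  unfold infLoc849; positivity

/-- The cell of the row `r` at the infinite place `w`. -/
def rowCell849 (s : ℝ) (r : Fin 2 → Adl K) (w : InfinitePlace K) : Bool × ℤ × ℤ :=
  cell849 s (InfinitePlace.Completion.extensionEmbedding w ((r 0).1 w))
    (InfinitePlace.Completion.extensionEmbedding w ((r 1).1 w))

lemma norm_ext849 (w : InfinitePlace K) (a : w.Completion) :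
    ‖InfinitePlace.Completion.extensionEmbedding w a‖ = ‖a‖ :=
  (InfinitePlace.Completion.isometry_extensionEmbedding w).norm_map_of_map_zero (map_zero _) a

/-- Hadamard at an infinite place, for two rows in the same cell. -/
lemma norm_wedge_inf_le849 {s : ℝ} (hs : 0 < s) (r r' : Fin 2 → Adl K) (w : InfinitePlace K)
    (h : rowCell849 s r w = rowCell849 s r' w) :
    ‖(wedge849 r r').1 w‖ ^ 2 ≤ (2 * s) ^ 2 * (infLoc849 r w * infLoc849 r' w) := by
  have e : (wedge849 r r').1 w = (r 0).1 w * (r' 1).1 w - (r 1).1 w * (r' 0).1 w := rfl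
  have := wedge_le_of_cell849 hs h
  rw [← map_mul, ← map_mul, ← map_sub, norm_ext849, norm_ext849, norm_ext849, norm_ext849,
    norm_ext849] at this
  rw [e]
  exact this

/-! ## 4. The heights under `TotCplx` -/

lemma mult_eq_two849 (hK : TotCplx K) (w : InfinitePlace K) : w.mult = 2 := by
  have := hK w
  unfold InfinitePlace.mult
  rw [if_neg (InfinitePlace.not_isReal_iff_isComplex.2 this)]

lemma rowNorm_eq849 (hK : TotCplx K) (r : Fin 2 → Adl K) :
    rowNorm r = (∏ w : InfinitePlace K, infLoc849 r w) * ∏ᶠ v, finLoc849 r v := by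
  unfold rowNorm
  congr 1
  refine Finset.prod_congr rfl fun w _ => ?_
  rw [mult_eq_two849 hK w]
  norm_num
  rfl

lemma adNorm_eq849 (hK : TotCplx K) (x : Adl K) :
    Fermat.Agent.LT.T5.adNorm x
      = (∏ w : InfinitePlace K, ‖x.1 w‖ ^ 2) * ∏ᶠ v : HeightOneSpectrum (𝓞 K), ‖x.2 v‖ := by
  unfold Fermat.Agent.LT.T5.adNorm
  congr 1
  refine Finset.prod_congr rfl fun w _ => ?_
  rw [mult_eq_two849 hK w]

lemma rowNorm_nonneg849 (hK : TotCplx K) (r : Fin 2 → Adl K) : 0 ≤ rowNorm r := by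
  rw [rowNorm_eq849 hK]
  exact mul_nonneg (Finset.prod_nonneg fun w _ => infLoc_nonneg849 r w)
    (finprod_nonneg fun v => finLoc_nonneg849 r v)

/-- **Global Hadamard inequality** for two rows in the same cells with idelic wedge. -/
lemma adNorm_wedge_le849 (hK : TotCplx K) {s : ℝ} (hs : 0 < s) {r r' : Fin 2 → Adl K}
    {u : (Adl K)ˣ} (hu : wedge849 r r' = (u : Adl K))
    (h : ∀ w, rowCell849 s r w = rowCell849 s r' w) :
    Fermat.Agent.LT.T5.adNorm (u : Adl K)
      ≤ ((2 * s) ^ 2) ^ Fintype.card (InfinitePlace K) * (rowNorm r * rowNorm r') := by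
  rw [adNorm_eq849 hK, rowNorm_eq849 hK, rowNorm_eq849 hK]
  have h1 : (∏ w : InfinitePlace K, ‖(u : Adl K).1 w‖ ^ 2)
      ≤ ((2 * s) ^ 2) ^ Fintype.card (InfinitePlace K)
        * ((∏ w : InfinitePlace K, infLoc849 r w) * ∏ w : InfinitePlace K, infLoc849 r' w) := by
    rw [← Finset.prod_mul_distrib, Fintype.card, ← Finset.prod_const, ← Finset.prod_mul_distrib]
    refine Finset.prod_le_prod (fun w _ => by positivity) (fun w _ => ?_)
    rw [← hu]
    exact norm_wedge_inf_le849 hs r r' w (h w)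
  have h2 := finprod_wedge_le849 hu
  have h3 : 0 ≤ ∏ᶠ v : HeightOneSpectrum (𝓞 K), ‖(u : Adl K).2 v‖ :=
    finprod_nonneg fun v => norm_nonneg _
  have h4 : 0 ≤ ((2 * s) ^ 2) ^ Fintype.card (InfinitePlace K)
        * ((∏ w : InfinitePlace K, infLoc849 r w) * ∏ w : InfinitePlace K, infLoc849 r' w) :=
    mul_nonneg (by positivity) (mul_nonneg (Finset.prod_nonneg fun w _ => infLoc_nonneg849 r w)
      (Finset.prod_nonneg fun w _ => infLoc_nonneg849 r' w))
  calc (∏ w : InfinitePlace K, ‖(u : Adl K).1 w‖ ^ 2) * ∏ᶠ v, ‖(u : Adl K).2 v‖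
      ≤ (((2 * s) ^ 2) ^ Fintype.card (InfinitePlace K)
        * ((∏ w : InfinitePlace K, infLoc849 r w) * ∏ w : InfinitePlace K, infLoc849 r' w))
        * ((∏ᶠ v, finLoc849 r v) * ∏ᶠ v, finLoc849 r' v) :=
        mul_le_mul h1 h2 h3 h4
    _ = _ := by ring


/-! ## 5. Distinct points have idelic wedge -/

lemma adNorm_T1_eq849 (x : Adl K) :
    Fermat.Agent.LT.T1.adNorm K x = Fermat.Agent.LT.T5.adNorm x := rfl

/-- The determinant of `g` as an idele. -/
def detU849 (g : G K) : (Adl K)ˣ := Matrix.GeneralLinearGroup.det g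

lemma detU_coe849 (g : G K) :
    ((detU849 g : (Adl K)ˣ) : Adl K) = Matrix.det (g : Matrix (Fin 2) (Fin 2) (Adl K)) := rfl

lemma adNorm_det_pos849 (hN : Fermat.Agent.LT.T1.AdNormC K) (g : G K) :
    0 < Fermat.Agent.LT.T5.adNorm (Matrix.det (g : Matrix (Fin 2) (Fin 2) (Adl K))) := by
  have := hN.1 (detU849 g)
  rwa [adNorm_T1_eq849, detU_coe849] at this

/-- Two non-proportional rational vectors: the wedge of their rows is an idele of the same module
as `det g`. -/
lemma exists_unit_wedge849 (hN : Fermat.Agent.LT.T1.AdNormC K) (g : G K) {p q : Fin 2 → K}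
    (hD : p 0 * q 1 - p 1 * q 0 ≠ 0) :
    ∃ u : (Adl K)ˣ, wedge849 (rowOf p g) (rowOf q g) = (u : Adl K) ∧
      Fermat.Agent.LT.T5.adNorm (u : Adl K)
        = Fermat.Agent.LT.T5.adNorm (Matrix.det (g : Matrix (Fin 2) (Fin 2) (Adl K))) := by
  refine ⟨Fermat.Agent.LT.T1.ratUnit K (Units.mk0 _ hD) * detU849 g, ?_, ?_⟩
  · rw [wedge_rowOf849]
    rfl
  · have h1 := hN.2.1 (Fermat.Agent.LT.T1.ratUnit K (Units.mk0 _ hD)) (detU849 g)
    have h2 := hN.2.2.1 (Units.mk0 _ hD)
    rw [h2, one_mul] at h1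
    rw [← adNorm_T1_eq849, h1]
    rfl

lemma wedge_ne_zero_of_ne849 {x x' : Projectivization K (Fin 2 → K)} (h : x ≠ x') :
    x.rep 0 * x'.rep 1 - x.rep 1 * x'.rep 0 ≠ 0 := by
  intro hD
  apply h
  have hp := x.rep_nonzero
  have hq := x'.rep_nonzero
  rw [← Projectivization.mk_rep x, ← Projectivization.mk_rep x', Projectivization.mk_eq_mk_iff]
  set p := x.rep with hp_def
  set q := x'.rep with hq_def
  have hD' : p 0 * q 1 = p 1 * q 0 := sub_eq_zero.1 hD
  by_cases hq0 : q 0 = 0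
  · have hq1 : q 1 ≠ 0 := by
      intro hq1
      apply hq
      ext i
      fin_cases i
      · exact hq0
      · exact hq1
    have hp0 : p 0 = 0 := by
      rw [hq0, mul_zero] at hD'
      rcases mul_eq_zero.1 hD' with h0 | h0
      · exact h0
      · exact absurd h0 hq1
    have hp1 : p 1 ≠ 0 := by
      intro hp1
      apply hp
      ext i
      fin_cases i
      · exact hp0
      · exact hp1
    refine ⟨Units.mk0 (p 1 / q 1) (div_ne_zero hp1 hq1), ?_⟩
    ext i
    fin_cases i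
    · simp [hq0, hp0]
    · simp [hq1]
  · have hp0 : p 0 ≠ 0 := by
      intro hp0
      rw [hp0, zero_mul] at hD'
      have hp1 : p 1 = 0 := by
        rcases mul_eq_zero.1 hD'.symm with h0 | h0
        · exact h0
        · exact absurd h0 hq0
      apply hp
      ext i
      fin_cases i
      · exact hp0
      · exact hp1
    refine ⟨Units.mk0 (p 0 / q 0) (div_ne_zero hp0 hq0), ?_⟩
    ext i
    fin_cases i
    · simp [hq0]
    · simp only [Units.smul_def, Units.val_mk0, Pi.smul_apply, smul_eq_mul]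
      show p 0 / q 0 * q 1 = p 1
      field_simp
      linear_combination hD'

/-! ## 6. Injectivity of the cell map and the count -/

/-- The points of height `≥ Y` (without congruence condition). -/
def hSet849 (Y : ℝ) (g : G K) : Set (Projectivization K (Fin 2 → K)) :=
  {x | rowNorm (rowOf x.rep g) ^ 2 * Y
        ≤ Fermat.Agent.LT.T5.adNorm (Matrix.det (g : Matrix (Fin 2) (Fin 2) (Adl K)))}

lemma cntSet_subset849 (𝔪 : Ideal (𝓞 K)) (Y : ℝ) (g : G K) : cntSet 𝔪 Y g ⊆ hSet849 Y g :=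
  fun _ hx => hx.1

/-- The cell map. -/
def cellMap849 (s : ℝ) (g : G K) (x : Projectivization K (Fin 2 → K)) :
    InfinitePlace K → Bool × ℤ × ℤ :=
  fun w => rowCell849 s (rowOf x.rep g) w

/-- **Separation**: two distinct points of height `≥ Y` lie in different cells as soon as
`(2 s)^(2 r) < Y`. -/
theorem injOn_cellMap849 (hN : Fermat.Agent.LT.T1.AdNormC K) (hK : TotCplx K) (g : G K)
    {Y s : ℝ} (hs : 0 < s) (hsY : ((2 * s) ^ 2) ^ Fintype.card (InfinitePlace K) < Y) :
    Set.InjOn (cellMap849 s g) (hSet849 Y g) := by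
  intro x hx x' hx' hc
  by_contra hne
  obtain ⟨u, hu, hA⟩ := exists_unit_wedge849 hN g (wedge_ne_zero_of_ne849 hne)
  have hle := adNorm_wedge_le849 hK hs hu (fun w => congrFun hc w)
  rw [hA] at hle
  have hpos := adNorm_det_pos849 hN g
  set A := Fermat.Agent.LT.T5.adNorm (Matrix.det (g : Matrix (Fin 2) (Fin 2) (Adl K)))
  set H := rowNorm (rowOf x.rep g)
  set H' := rowNorm (rowOf x'.rep g)
  set c := ((2 * s) ^ 2) ^ Fintype.card (InfinitePlace K)
  have hH : 0 ≤ H := rowNorm_nonneg849 hK _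
  have hH' : 0 ≤ H' := rowNorm_nonneg849 hK _
  have hc0 : 0 ≤ c := by positivity
  have hY0 : 0 < Y := lt_of_le_of_lt hc0 hsY
  have h1 : H ^ 2 * Y ≤ A := hx
  have h2 : H' ^ 2 * Y ≤ A := hx'
  have h3 : H * H' * Y ≤ A := by
    have h4 : (H * H' * Y) ^ 2 ≤ A ^ 2 := by
      calc (H * H' * Y) ^ 2 = (H ^ 2 * Y) * (H' ^ 2 * Y) := by ring
        _ ≤ A * A := mul_le_mul h1 h2 (by positivity) hpos.le
        _ = A ^ 2 := by ring
    exact (pow_le_pow_iff_left₀ (by positivity) hpos.le two_ne_zero).1 h4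
  have h5 : A * Y ≤ c * A := by
    calc A * Y ≤ c * (H * H') * Y := by
          exact mul_le_mul_of_nonneg_right hle hY0.le
      _ = c * (H * H' * Y) := by ring
      _ ≤ c * A := mul_le_mul_of_nonneg_left h3 hc0
  have h6 : Y ≤ c := by
    have : A * Y ≤ A * c := by rw [mul_comm A c]; exact h5
    exact le_of_mul_le_mul_left this hpos
  exact absurd hsY (not_lt.2 h6)

open scoped Classical in
/-- The box of cells. -/
def cellBox849 (K : Type) [Field K] [NumberField K] (s : ℝ) :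
    Finset (InfinitePlace K → Bool × ℤ × ℤ) :=
  Fintype.piFinset fun _ => (Finset.univ : Finset Bool) ×ˢ
    (Finset.Icc (-(⌈1 / s⌉₊ : ℤ)) ⌈1 / s⌉₊ ×ˢ Finset.Icc (-(⌈1 / s⌉₊ : ℤ)) ⌈1 / s⌉₊)

lemma cellMap_mem849 {s : ℝ} (hs : 0 < s) (g : G K) (x : Projectivization K (Fin 2 → K)) :
    cellMap849 s g x ∈ cellBox849 K s := by
  classical
  unfold cellBox849
  rw [Fintype.mem_piFinset]
  intro w
  exact cell_mem849 hs _ _

lemma card_cellBox849 (s : ℝ) :
    (cellBox849 K s).card = (2 * (2 * ⌈1 / s⌉₊ + 1) ^ 2) ^ Fintype.card (InfinitePlace K) := by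
  classical
  unfold cellBox849
  rw [Fintype.card_piFinset, Finset.prod_const, Finset.card_univ]
  congr 1
  rw [Finset.card_product, Finset.card_product, Finset.card_univ, Fintype.card_bool,
    Int.card_Icc]
  have : ((⌈1 / s⌉₊ : ℤ) + 1 - -(⌈1 / s⌉₊ : ℤ)).toNat = 2 * ⌈1 / s⌉₊ + 1 := by
    omega
  rw [this]
  ring

/-- **Finiteness and the count**, for every `g`. -/
theorem hSet_finite_card849 (hN : Fermat.Agent.LT.T1.AdNormC K) (hK : TotCplx K) (g : G K)
    {Y s : ℝ} (hs : 0 < s) (hsY : ((2 * s) ^ 2) ^ Fintype.card (InfinitePlace K) < Y) :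
    (hSet849 Y g).Finite ∧
      (hSet849 Y g).ncard ≤ (2 * (2 * ⌈1 / s⌉₊ + 1) ^ 2) ^ Fintype.card (InfinitePlace K) := by
  have hinj := injOn_cellMap849 hN hK g hs hsY
  have hsub : cellMap849 s g '' hSet849 Y g ⊆ (cellBox849 K s : Set _) := by
    rintro _ ⟨x, _, rfl⟩
    exact cellMap_mem849 hs g x
  have hfin : (cellMap849 s g '' hSet849 Y g).Finite :=
    (cellBox849 K s).finite_toSet.subset hsub
  refine ⟨hfin.of_finite_image hinj, ?_⟩
  rw [← hinj.ncard_image, ← card_cellBox849 (K := K) s,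
    ← Set.ncard_coe_finset (cellBox849 K s)]
  exact Set.ncard_le_ncard hsub (cellBox849 K s).finite_toSet


/-! ## 7. The mesh and the final bounds -/

/-- The mesh for the height `Y`: `(2 s)^(2 r) = Y / 2`. -/
def mesh849 (K : Type) [Field K] [NumberField K] (Y : ℝ) : ℝ :=
  Real.sqrt ((Y / 2) ^ ((Fintype.card (InfinitePlace K) : ℝ)⁻¹)) / 2

lemma mesh_pos849 {Y : ℝ} (hY : 0 < Y) : 0 < mesh849 K Y := by
  unfold mesh849
  have : 0 < (Y / 2) ^ ((Fintype.card (InfinitePlace K) : ℝ)⁻¹) :=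
    Real.rpow_pos_of_pos (by positivity) _
  positivity

lemma mesh_pow849 {Y : ℝ} (hY : 0 < Y) :
    ((2 * mesh849 K Y) ^ 2) ^ Fintype.card (InfinitePlace K) = Y / 2 := by
  unfold mesh849
  have h0 : 0 ≤ (Y / 2) ^ ((Fintype.card (InfinitePlace K) : ℝ)⁻¹) :=
    Real.rpow_nonneg (by positivity) _
  have h1 : 2 * (Real.sqrt ((Y / 2) ^ ((Fintype.card (InfinitePlace K) : ℝ)⁻¹)) / 2)
      = Real.sqrt ((Y / 2) ^ ((Fintype.card (InfinitePlace K) : ℝ)⁻¹)) := by ring
  rw [h1, Real.sq_sqrt h0]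
  exact Real.rpow_inv_natCast_pow (by positivity) Fintype.card_ne_zero

lemma mesh_lt849 {Y : ℝ} (hY : 0 < Y) :
    ((2 * mesh849 K Y) ^ 2) ^ Fintype.card (InfinitePlace K) < Y := by
  rw [mesh_pow849 hY]
  linarith

/-- **FINITENESS**: for every `g` and `Y > 0` there are finitely many points of height `≥ Y`. -/
theorem hSet_finite849 (hN : Fermat.Agent.LT.T1.AdNormC K) (hK : TotCplx K) (g : G K)
    {Y : ℝ} (hY : 0 < Y) : (hSet849 Y g).Finite :=
  (hSet_finite_card849 hN hK g (mesh_pos849 hY) (mesh_lt849 hY)).1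

/-- **FINITENESS** of `cntSet`. -/
theorem cntSet_finite849 (hN : Fermat.Agent.LT.T1.AdNormC K) (hK : TotCplx K)
    (𝔪 : Ideal (𝓞 K)) (g : G K) {Y : ℝ} (hY : 0 < Y) : (cntSet 𝔪 Y g).Finite :=
  (hSet_finite849 hN hK g hY).subset (cntSet_subset849 𝔪 Y g)

lemma cnt_le_ncard849 (hN : Fermat.Agent.LT.T1.AdNormC K) (hK : TotCplx K)
    (𝔪 : Ideal (𝓞 K)) (g : G K) {Y : ℝ} (hY : 0 < Y) :
    cnt 𝔪 Y g ≤ (hSet849 Y g).ncard := by
  unfold cnt
  rw [Nat.card_coe_set_eq]
  exact Set.ncard_le_ncard (cntSet_subset849 𝔪 Y g) (hSet_finite849 hN hK g hY)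

/-- The real estimate of the number of cells. -/
lemma cells_le849 {Y : ℝ} (hY : 0 < Y) (hY1 : Y ≤ 1) :
    (((2 * (2 * ⌈1 / mesh849 K Y⌉₊ + 1) ^ 2) ^ Fintype.card (InfinitePlace K) : ℕ) : ℝ)
      ≤ 2 * 98 ^ Fintype.card (InfinitePlace K) / Y := by
  set r := Fintype.card (InfinitePlace K) with hr
  set q := (Y / 2) ^ ((r : ℝ)⁻¹) with hq
  have hq0 : 0 < q := Real.rpow_pos_of_pos (by positivity) _
  have hq1 : q ≤ 1 := Real.rpow_le_one (by positivity) (by linarith) (by positivity)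
  have hqr : q ^ r = Y / 2 := Real.rpow_inv_natCast_pow (by positivity) Fintype.card_ne_zero
  have hsq0 : 0 < Real.sqrt q := Real.sqrt_pos.2 hq0
  have hsq1 : Real.sqrt q ≤ 1 := Real.sqrt_le_one.2 hq1
  have hmesh : mesh849 K Y = Real.sqrt q / 2 := rfl
  have h1 : 1 / mesh849 K Y = 2 / Real.sqrt q := by
    rw [hmesh]; field_simp
  have hN1 : (⌈1 / mesh849 K Y⌉₊ : ℝ) < 2 / Real.sqrt q + 1 := by
    rw [h1]
    exact Nat.ceil_lt_add_one (by positivity)
  have hinv : 1 ≤ 1 / Real.sqrt q := by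
    rw [le_div_iff₀ hsq0]; linarith
  have h2 : (2 * (⌈1 / mesh849 K Y⌉₊ : ℝ) + 1) ≤ 7 / Real.sqrt q := by
    have e1 : 2 / Real.sqrt q = 2 * (1 / Real.sqrt q) := by ring
    have e2 : 7 / Real.sqrt q = 7 * (1 / Real.sqrt q) := by ring
    rw [e2]
    rw [e1] at hN1
    linarith
  have h3 : (2 * (⌈1 / mesh849 K Y⌉₊ : ℝ) + 1) ^ 2 ≤ 49 / q := by
    have := pow_le_pow_left₀ (by positivity) h2 2
    have e : (7 / Real.sqrt q) ^ 2 = 49 / q := by
      rw [div_pow, Real.sq_sqrt hq0.le]; norm_num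
    rwa [e] at this
  have h4 : 2 * (2 * (⌈1 / mesh849 K Y⌉₊ : ℝ) + 1) ^ 2 ≤ 98 / q := by
    have e : (98 : ℝ) / q = 2 * (49 / q) := by ring
    rw [e]; linarith
  push_cast
  calc (2 * (2 * (⌈1 / mesh849 K Y⌉₊ : ℝ) + 1) ^ 2) ^ r ≤ (98 / q) ^ r :=
        pow_le_pow_left₀ (by positivity) h4 r
    _ = 98 ^ r / (Y / 2) := by rw [div_pow, hqr]
    _ = 2 * 98 ^ r / Y := by field_simp

/-- **UNIFORM BOUND** (second conjunct of `CountC K`): `Y · cnt 𝔪 Y g ≤ 2 · 98^r` for every `g`
and `0 < Y ≤ 1`, `r` the number of (complex) places of `K`. -/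
theorem cnt_mul_le849 (hN : Fermat.Agent.LT.T1.AdNormC K) (hK : TotCplx K)
    (𝔪 : Ideal (𝓞 K)) (g : G K) {Y : ℝ} (hY : 0 < Y) (hY1 : Y ≤ 1) :
    Y * (cnt 𝔪 Y g : ℝ) ≤ 2 * 98 ^ Fintype.card (InfinitePlace K) := by
  have h1 := cnt_le_ncard849 hN hK 𝔪 g hY
  have h2 := (hSet_finite_card849 hN hK g (mesh_pos849 hY) (mesh_lt849 hY)).2
  have h3 : (cnt 𝔪 Y g : ℝ)
      ≤ (((2 * (2 * ⌈1 / mesh849 K Y⌉₊ + 1) ^ 2) ^ Fintype.card (InfinitePlace K) : ℕ) : ℝ) := by
    exact_mod_cast h1.trans h2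
  have h4 := h3.trans (cells_le849 hY hY1)
  calc Y * (cnt 𝔪 Y g : ℝ) ≤ Y * (2 * 98 ^ Fintype.card (InfinitePlace K) / Y) :=
        mul_le_mul_of_nonneg_left h4 hY.le
    _ = 2 * 98 ^ Fintype.card (InfinitePlace K) := by field_simp

/-- The uniform bound in the shape of `CountC`. -/
theorem cntBd849 (hN : Fermat.Agent.LT.T1.AdNormC K) (hK : TotCplx K) (𝔪 : Ideal (𝓞 K)) :
    ∃ C : ℝ, ∀ (g : G K) (Y : ℝ), 0 < Y → Y ≤ 1 → Y * (cnt 𝔪 Y g : ℝ) ≤ C :=
  ⟨2 * 98 ^ Fintype.card (InfinitePlace K), fun g _ hY hY1 => cnt_mul_le849 hN hK 𝔪 g hY hY1⟩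

end Fermat.Agent.LT.T7.H849

end
end
-- ===== PACK-END LT/T7/H849/CountBd.lean

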