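import Mathlib
import Fermat.Agent.Pack.LT2.E13L2
import Fermat.Agent.Pack.LT2.E13L1
import Fermat.Agent.Pack.LT2.E2L1
import Fermat.Agent.Pack.LT2.E4L3
import Fermat.Agent.Pack.LT2.E4L2
import Fermat.Agent.Pack.LT2.E13L0
import Fermat.Agent.Pack.LT2.E0L2
import Fermat.Agent.Pack.LT2.E13L3

set_option linter.all false

-- ===== PACK-BEGIN LT/A2/H112/Diag.lean
section


/-!
# Row LT, tower A2, leaf A2.09 `ExpC` (helper112) -- part 3: diagonal and unipotent elements

OFF-MAIN.  The rational diagonal elements `diag(α, 1) = diag(α, α⁻¹) diag(1, α)`, admissible pairs,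
and the KEY IDENTITY of the unfolding: for `ξ ∈ K²` with `Q(ξ) = α ≠ 0`, `y ∈ T(K)` the element
with coordinates `conj ξ` and every admissible pair `(g, M)`:

    F (diag(α, 1) g) (y M) (1, 0) = F g M ξ          (`diagK` and `torK` of `KData.IsWeil`).
-/

set_option autoImplicit false
set_option linter.unusedSectionVars false

open IsDedekindDomain NumberField AutomorphicForm MeasureTheory
open scoped MatrixGroups Pointwise

noncomputable section

namespace Fermat.Agent.LT.A2.H112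

open Fermat.Agent.LT.H130 Fermat.Agent.LT.H556 Fermat.Agent.LT.A2

variable {K : Type} [Field K] [NumberField K]

/-! ## Unipotent and diagonal elements -/

theorem det_upperUnip112 {nU : A0.Adl K → A0.G K} (h : IsUpperUnip nU) (x : A0.Adl K) :
    Matrix.GeneralLinearGroup.det (nU x) = 1 := by
  apply Units.ext
  rw [coe_det112, h x, Matrix.det_fin_two_of]
  simp

/-- `diag(a, b) ∈ GL₂(K)`. -/
def diagGL (a b : Kˣ) : GL (Fin 2) K :=
  Matrix.GeneralLinearGroup.mkOfDetNeZero !![(a : K), 0; 0, (b : K)]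
    (by rw [Matrix.det_fin_two_of]; simp)

theorem coe_ratG_diagGL (a b : Kˣ) :
    ((ratG (diagGL a b) : A0.G K) : Matrix (Fin 2) (Fin 2) (A0.Adl K))
      = !![algebraMap K (A0.Adl K) (a : K), 0; 0, algebraMap K (A0.Adl K) (b : K)] := by
  ext i j
  show algebraMap K (A0.Adl K) ((diagGL a b : Matrix (Fin 2) (Fin 2) K) i j) = _
  fin_cases i <;> fin_cases j <;> simp [diagGL, Matrix.GeneralLinearGroup.mkOfDetNeZero]

theorem ratDiag_eq112 {d : Kˣ → A0.G K} (hd : IsRatDiag d) (α : Kˣ) :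
    d α = ratG (diagGL α 1) := by
  apply Units.ext
  rw [hd α, coe_ratG_diagGL]
  simp

theorem ratDiag_mul112 {d : Kˣ → A0.G K} (hd : IsRatDiag d) (α β : Kˣ) :
    d (α * β) = d α * d β := by
  apply Units.ext
  rw [Units.val_mul, hd, hd, hd]
  ext i j
  fin_cases i <;> fin_cases j <;> simp [Matrix.mul_apply, Fin.sum_univ_two]

theorem isDiagSL_diagGL (α : Kˣ) : IsDiagSL (ratG (diagGL α α⁻¹) : A0.G K) (α : K) := by
  show ((ratG (diagGL α α⁻¹) : A0.G K) : Matrix (Fin 2) (Fin 2) (A0.Adl K)) = _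
  rw [coe_ratG_diagGL]
  simp

theorem isDiagOne_diagGL (α : Kˣ) : IsDiagOne (ratG (diagGL 1 α) : A0.G K) (α : K) := by
  show ((ratG (diagGL 1 α) : A0.G K) : Matrix (Fin 2) (Fin 2) (A0.Adl K)) = _
  rw [coe_ratG_diagGL]
  simp

theorem ratDiag_decomp112 {d : Kˣ → A0.G K} (hd : IsRatDiag d) (α : Kˣ) :
    d α = ratG (diagGL α α⁻¹) * ratG (diagGL 1 α) := by
  apply Units.ext
  rw [Units.val_mul, hd, coe_ratG_diagGL, coe_ratG_diagGL]
  ext i j
  fin_cases i <;> fin_cases j <;> simp [Matrix.mul_apply, Fin.sum_univ_two]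
  rw [← map_mul]
  simp

theorem det_ratG_diagGL (a b : Kˣ) :
    ((Matrix.GeneralLinearGroup.det (ratG (diagGL a b) : A0.G K) : (A0.Adl K)ˣ) : A0.Adl K)
      = algebraMap K (A0.Adl K) ((a : K) * (b : K)) := by
  rw [coe_det112, coe_ratG_diagGL, Matrix.det_fin_two_of]
  simp

theorem det_ratDiag112 {d : Kˣ → A0.G K} (hd : IsRatDiag d) (α : Kˣ) :
    ((Matrix.GeneralLinearGroup.det (d α) : (A0.Adl K)ˣ) : A0.Adl K)
      = algebraMap K (A0.Adl K) (α : K) := by
  rw [coe_det112, hd α, Matrix.det_fin_two_of]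
  simp

/-! ## Admissible pairs -/

theorem adm_torus1_mul112 {t n : K} {g mg m : A0.G K} (h : Adm t n g mg) (hm : InTorus1 t n m) :
    Adm t n g (m * mg) :=
  ⟨inTorus_mul112 hm.1 h.1, by rw [map_mul, hm.2, one_mul]; exact h.2⟩

theorem adm_unip112 {t n : K} {g mg : A0.G K} {nU : A0.Adl K → A0.G K} (hU : IsUpperUnip nU)
    (x : A0.Adl K) (h : Adm t n g mg) : Adm t n (nU x * g) mg :=
  ⟨h.1, by rw [map_mul, det_upperUnip112 hU, one_mul]; exact h.2⟩

theorem inGPlus_unip_iff112 {t n : K} {g : A0.G K} {nU : A0.Adl K → A0.G K} (hU : IsUpperUnip nU)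
    (x : A0.Adl K) : InGPlus t n (nU x * g) ↔ InGPlus t n g := by
  constructor
  · rintro ⟨m, hm1, hm2⟩
    refine ⟨m, hm1, ?_⟩
    rw [map_mul, det_upperUnip112 hU, one_mul] at hm2
    exact hm2
  · rintro ⟨m, hm⟩
    exact ⟨m, adm_unip112 hU x hm⟩

/-! ## The key identity -/

theorem qK_conjK_ne_zero112 {t n : K} {ξ : K × K} {α : Kˣ} (hξ : qK t n ξ = (α : K)) :
    qK t n (conjK t ξ) ≠ 0 := by
  rw [qK_conjK, hξ]
  exact α.ne_zero

theorem key_identity112 (D : KData K) (hW : D.IsWeil) {d : Kˣ → A0.G K} (hd : IsRatDiag d)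
    (α : Kˣ) (ξ : K × K) (hξ : qK D.t D.n ξ = (α : K)) (g M : A0.G K)
    (hadm : Adm D.t D.n g M) :
    D.F (d α * g) (tK D.t D.n (conjK D.t ξ) (qK_conjK_ne_zero112 hξ) * M) (1, 0)
      = D.F g M (ratV ξ) := by
  set y : A0.G K := tK D.t D.n (conjK D.t ξ) (qK_conjK_ne_zero112 hξ) with hy
  have hy_rat : InTorusRat D.t D.n y := inTorusRat_tK _ _ _ _
  have hy_det : ((Matrix.GeneralLinearGroup.det y : (A0.Adl K)ˣ) : A0.Adl K)
      = algebraMap K (A0.Adl K) (α : K) := by
    rw [hy, det_tK, qK_conjK, hξ]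
  have hadm1 : Adm D.t D.n (ratG (diagGL 1 α) * g) (y * M) := by
    refine ⟨inTorus_mul112 (inTorusRat_inTorus112 hy_rat) hadm.1, ?_⟩
    rw [map_mul, map_mul, hadm.2]
    congr 1
    apply Units.ext
    rw [det_ratG_diagGL, hy_det]
    simp
  rw [ratDiag_decomp112 hd α, mul_assoc,
    hW.diagK _ (α : K) α.ne_zero (isDiagSL_diagGL α) _ _ _ hadm1,
    hW.torK y _ (α : K) hy_rat hy_det (isDiagOne_diagGL α) g M _ hadm]
  congr 1
  apply actV_inv_eq112
  rw [hy, actV_rat112 (coe_tK _ _ _ _) ξ, mulK_comm, mulK_conjK, hξ]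
  simp [ratV, Algebra.algebraMap_eq_smul_one]

end Fermat.Agent.LT.A2.H112

end

end
-- ===== PACK-END LT/A2/H112/Diag.lean

-- ===== PACK-BEGIN LT/A2/H467/DataSpec.lean
section


/-!
# Row LT, tower A2, station A2.03.1.1 `WX467.DataC` -- THE CUT (sub-architect helper467)

OFF-MAIN.  Definitions, frozen Props and the top `dataC_of_leaves467`.
No holes, no opaque constant, nothing assumed.

    DataC  ⟸  AsmC + PsiC + ProdIntC + TorusMeasC + GoodArithC + InducedC
                + LocGoodC + LocBadC + LocCpxC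
    LocGoodC, LocBadC  ⟸  LocRepC + LocUniqC          (`LocGoodOfRepC`, `LocBadOfRepC`)

* The LOCAL leaves are stated PER PLACE with the certificates of `WeilExSpec.lean` VERBATIM:
  "there are components at `v` such that EVERY `L' : WData K` with these components (and the
  given `t`, `n`, `χT`, `ψ`, and a level as required) satisfies `FinAt L' v` / `GoodAt L' v` /
  `CpxAt L' u`".
* `LocRepC` is THE LOCAL WEIL REPRESENTATION at a finite place: one triple `(μ_v, γ_v, η_v)` and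
  for EVERY Schwartz--Bruhat function `Φ` a family with the local axioms and `F 1 1 = Φ`.
  `LocUniqC`: a family is determined by `F 1 1` (Bruhat decomposition).  Together:
  `F^Φ (g k) (m κ) = F^{Φ'} g m`, `Φ' = F^Φ k κ`, so right invariance under `(k, κ)` is
  `F^Φ k κ = Φ`.
* Rescaling: if `(μ, γ, η, F)` satisfies `LocAx` then so does `(s μ, s⁻² γ, η, F)`, `s > 0`.
  At a good place take `μ_v(𝒪_v) = 1`; then `γ_v = 1` follows from `(w n(1))³ = 1`, `w⁴ = 1`
  applied to `stdFn v` (`FT(stdFn) = stdFn`, `ψ_v(Q) = 1` on `𝒪_v²`).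
* `AsmC` (assembly) is a leaf: choice of the local components place by place, the level
  `𝔫 = 𝔡 · ∏_{v ∈ S} v^{N_v}`, `η = ∏ η_v`, and the fields of `IsGood`.
-/

set_option autoImplicit false

open IsDedekindDomain NumberField AutomorphicForm MeasureTheory
open scoped MatrixGroups Topology

noncomputable section

namespace Fermat.Agent.LT.A2.WX467

open Fermat.Agent.LT.H130 Fermat.Agent.LT.H556 Fermat.Agent.LT.A2

/-! ## 1. Vocabulary -/

section Vocab

variable {K : Type} [Field K] [NumberField K]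

/-- The three properties of a Haar measure used by `LocAx.haar` (Borel σ-algebra). -/
def IsHaarL {k : Type} [Field k] [TopologicalSpace k] (μ : @Measure k (borel k)) : Prop :=
  (letI : MeasurableSpace k := borel k
    ∀ (x : k) (S : Set k), μ ((fun y => x + y) '' S) = μ S) ∧
    (∀ C : Set k, IsCompact C → μ C < ⊤) ∧ ∀ U : Set k, IsOpen U → U.Nonempty → 0 < μ U

/-- `ψ` is a nontrivial continuous unitary additive character of the field `k`. -/
def IsCharL {k : Type} [Field k] [TopologicalSpace k] (ψ : k → ℂ) : Prop :=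
  Continuous ψ ∧ (∀ x y : k, ψ (x + y) = ψ x * ψ y) ∧ (∀ x : k, ‖ψ x‖ = 1) ∧ ∃ x : k, ψ x ≠ 1

/-- `WL.IsStd.good_psi` for `ψ` at `v`, VERBATIM: `ψ_v` has conductor `𝒪_v`. -/
def GoodPsi (ψ : A0.Adl K → ℂ) (v : HeightOneSpectrum (𝓞 K)) : Prop :=
  (∀ x : A0.Adl K, WL.AdlAtFin v x → x.2 v ∈ v.adicCompletionIntegers K → ψ x = 1) ∧
    ∃ x : A0.Adl K, WL.AdlAtFin v x ∧ Valued.v (x.2 v) = WithZero.exp (1 : ℤ) ∧ ψ x ≠ 1

/-- `WL.IsStd.good_int`, `good_char`, `good_norm` for `t`, `n`, `χT` at `v`, VERBATIM. -/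
def GoodTor (t n : K) (χT : A0.G K → ℂ) (v : HeightOneSpectrum (𝓞 K)) : Prop :=
  (Valued.v (algebraMap K (v.adicCompletion K) t) ≤ 1 ∧
    Valued.v (algebraMap K (v.adicCompletion K) n) ≤ 1 ∧
    Valued.v (algebraMap K (v.adicCompletion K) (t ^ 2 - 4 * n)) = 1) ∧
  (∀ κ : A0.G K, WL.InTorusIntAt t n v κ → χT κ = 1) ∧
  ∀ a : (A0.Adl K)ˣ, IsUnitIdeleAt v a →
    ∃ κ : A0.G K, WL.InTorusIntAt t n v κ ∧ Matrix.GeneralLinearGroup.det κ = a

/-- **The arithmetic of a good place** (`WL.IsStd.good_int`, `good_char`, `good_norm`,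
`good_psi`, VERBATIM, for `t`, `n`, `χT`, `ψ`); `GoodArith = GoodTor ∧ GoodPsi`
(`goodArith_of467`). -/
structure GoodArith (t n : K) (χT : A0.G K → ℂ) (ψ : A0.Adl K → ℂ)
    (v : HeightOneSpectrum (𝓞 K)) : Prop where
  good_int : Valued.v (algebraMap K (v.adicCompletion K) t) ≤ 1 ∧
    Valued.v (algebraMap K (v.adicCompletion K) n) ≤ 1 ∧
    Valued.v (algebraMap K (v.adicCompletion K) (t ^ 2 - 4 * n)) = 1
  good_char : ∀ κ : A0.G K, WL.InTorusIntAt t n v κ → χT κ = 1
  good_norm : ∀ a : (A0.Adl K)ˣ, IsUnitIdeleAt v a →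
    ∃ κ : A0.G K, WL.InTorusIntAt t n v κ ∧ Matrix.GeneralLinearGroup.det κ = a
  good_psi : (∀ x : A0.Adl K, WL.AdlAtFin v x → x.2 v ∈ v.adicCompletionIntegers K →
      ψ x = 1) ∧
    ∃ x : A0.Adl K, WL.AdlAtFin v x ∧ Valued.v (x.2 v) = WithZero.exp (1 : ℤ) ∧ ψ x ≠ 1

theorem goodArith_of467 {t n : K} {χT : A0.G K → ℂ} {ψ : A0.Adl K → ℂ}
    {v : HeightOneSpectrum (𝓞 K)} (h1 : GoodTor t n χT v) (h2 : GoodPsi ψ v) :
    GoodArith t n χT ψ v :=
  ⟨h1.1, h1.2.1, h1.2.2, h2⟩

/-- `L'` has the global objects `t`, `n`, `χT`, `ψ`. -/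
def Matches (L' : WData K) (t n : K) (χT : A0.G K → ℂ) (ψ : A0.Adl K → ℂ) : Prop :=
  L'.t = t ∧ L'.n = n ∧ L'.χT = χT ∧ L'.ψ = ψ

/-- `L'` has the given components at the finite place `v`. -/
def MatchesFin (L' : WData K) (v : HeightOneSpectrum (𝓞 K))
    (ψv : v.adicCompletion K → ℂ)
    (μv : @Measure (v.adicCompletion K) (borel (v.adicCompletion K)))
    (γv : ℂ) (ηv : v.adicCompletion K → ℂ)
    (Fv : Matrix (Fin 2) (Fin 2) (v.adicCompletion K) →
      Matrix (Fin 2) (Fin 2) (v.adicCompletion K) →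
      v.adicCompletion K × v.adicCompletion K → ℂ)
    (Tv : Set (Matrix (Fin 2) (Fin 2) (v.adicCompletion K))) : Prop :=
  L'.ψfin v = ψv ∧ L'.μfin v = μv ∧ L'.γfin v = γv ∧ L'.ηfin v = ηv ∧ L'.Ffin v = Fv ∧
    L'.Tlev v = Tv

/-- `L'` has the given components at the infinite place `u`. -/
def MatchesInf (L' : WData K) (u : InfinitePlace K)
    (ψu : u.Completion → ℂ) (μu : @Measure u.Completion (borel u.Completion))
    (γu : ℂ) (ηu : u.Completion → ℂ)
    (Fu : Matrix (Fin 2) (Fin 2) u.Completion → Matrix (Fin 2) (Fin 2) u.Completion →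
      u.Completion × u.Completion → ℂ) : Prop :=
  L'.ψinf u = ψu ∧ L'.μinf u = μu ∧ L'.γinf u = γu ∧ L'.ηinf u = ηu ∧ L'.Finf u = Fu

/-- `ProdInt` with explicit measures and constant (`ProdInt L` is
`ProdIntOf L.μ L.μinf L.μfin L.c`, see `prodInt_iff467`). -/
def ProdIntOf (μ : @Measure (A0.Adl K) (borel (A0.Adl K)))
    (μinf : ∀ u : InfinitePlace K, @Measure u.Completion (borel u.Completion))
    (μfin : ∀ v : HeightOneSpectrum (𝓞 K),
      @Measure (v.adicCompletion K) (borel (v.adicCompletion K)))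
    (c : ℂ) : Prop :=
  c ≠ 0 ∧
  ∀ (f : ∀ u : InfinitePlace K, u.Completion × u.Completion → ℂ)
    (f' : ∀ v : HeightOneSpectrum (𝓞 K), v.adicCompletion K × v.adicCompletion K → ℂ),
    (∀ u, Continuous (f u) ∧ IntegrableL (μinf u) (f u)) →
    (∀ v, Continuous (f' v) ∧ IntegrableL (μfin v) (f' v)) →
    (∃ S : Finset (HeightOneSpectrum (𝓞 K)), ∀ v, v ∉ S → f' v = stdFn v) →
    Integrable2 μ (prodFn f f') ∧
      integral2 μ (prodFn f f')
        = c * ((∏ u : InfinitePlace K, intL (μinf u) (f u)) *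
            ∏ᶠ v : HeightOneSpectrum (𝓞 K), intL (μfin v) (f' v))

theorem prodInt_iff467 (L : WData K) : ProdInt L ↔ ProdIntOf L.μ L.μinf L.μfin L.c :=
  Iff.rfl

end Vocab

/-! ## 2. The global leaves -/

section GlobalLeaves

/-- **A2.03.1.1.1 PSI.**  There is a nontrivial continuous unitary character of `𝔸_K` trivial
on `K` whose local components have conductor `𝒪_v` at almost all `v` (`ψ = ψ_ℚ ∘ Tr`: the
conductor is the inverse different; or Pontryagin duality of the compact group `𝔸_K / K` and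
`𝔸_K = K + K_∞ + ∏ 𝒪_v`).  Tate's thesis §4.1; Weil BNT IV §2. -/
def PsiC : Prop :=
  ∀ (K : Type) [Field K] [NumberField K], T1.T1Out K →
    ∃ ψ : A0.Adl K → ℂ, IsAdeleChar ψ ∧
      ∃ S : Finset (HeightOneSpectrum (𝓞 K)), ∀ v, v ∉ S → GoodPsi ψ v

/-- **A2.03.1.1.2 PROD-INT.**  For a Haar measure `μ` of `𝔸_K` and local Haar measures with
`μ_v(𝒪_v) = 1` at almost all `v` there is a constant `c ≠ 0` with
`∫_{𝔸²} ∏ f_v = c ∏_v ∫_{K_v²} f_v` (the Haar measure of the open subgroup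
`∏_{v ∈ S} K_v² × ∏_{v ∉ S} 𝒪_v²` is a product measure; uniqueness of the Haar measure). -/
def ProdIntC : Prop :=
  ∀ (K : Type) [Field K] [NumberField K], T1.T1Out K →
    ∀ (μ : @Measure (A0.Adl K) (borel (A0.Adl K)))
      (μinf : ∀ u : InfinitePlace K, @Measure u.Completion (borel u.Completion))
      (μfin : ∀ v : HeightOneSpectrum (𝓞 K),
        @Measure (v.adicCompletion K) (borel (v.adicCompletion K))),
      IsCovolOne μ → (∀ u, IsHaarL (μinf u)) → (∀ v, IsHaarL (μfin v)) →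
      (∃ S : Finset (HeightOneSpectrum (𝓞 K)), ∀ v, v ∉ S →
        μfin v (v.adicCompletionIntegers K : Set (v.adicCompletion K)) = 1) →
      ∃ c : ℂ, ProdIntOf μ μinf μfin c

/-- **A2.03.1.1.3 TORUS-MEAS.**  The measures of `KData.IsMeasured`: the Haar measure `μ` of
`𝔸_K` of covolume `1`, a Haar measure `μT` of the norm-one torus `T¹(𝔸_K)` (as a measure on
`GL₂(𝔸_K)` carried by `T¹`), and a relatively compact Borel fundamental domain of `T¹(K)`
(`T¹(K) \ T¹(𝔸_K)` is compact: Fujisaki's lemma for `L`, or for `K` twice in coordinates). -/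
def TorusMeasC : Prop :=
  ∀ (K : Type) [Field K] [NumberField K] (t n : K), T1.T1Out K →
    (∀ x : K, x ^ 2 - t * x + n ≠ 0) →
    ∃ (μ : @Measure (A0.Adl K) (borel (A0.Adl K))) (μT : @Measure (A0.G K) (borel (A0.G K)))
      (DT : Set (A0.G K)),
      ∀ D : KData K, D.t = t → D.n = n → D.μ = μ → D.μT = μT → D.DT = DT → D.IsMeasured

/-- **A2.03.1.1.4 GOOD-ARITH.**  Almost all places are good for the torus: `t`, `n` integral,
the discriminant a unit, `χT` trivial on `T(𝒪_v)` (continuity and finite order), the norm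
`T(𝒪_v) → 𝒪_v^×` onto (`𝒪_v[ω]` is étale: Hensel, and the norm of a finite field is onto). -/
def GoodArithC : Prop :=
  ∀ (K : Type) [Field K] [NumberField K] (t n : K) (χT : A0.G K → ℂ),
    T1.T1Out K → IsTorusChar t n χT →
    ∃ S : Finset (HeightOneSpectrum (𝓞 K)), ∀ v, v ∉ S → GoodTor t n χT v

/-- **A2.03.1.1.5 INDUCED.**  The eigensystem of the induced data exists for every level outside
which the places are good: at a good place the integral elements of `T(K_v)` with determinant a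
uniformiser form two classes modulo `T(𝒪_v)` (split) or none (inert), and `χT` is trivial on
`T(𝒪_v)`. -/
def InducedC : Prop :=
  ∀ (K : Type) [Field K] [NumberField K] (t n : K) (χT : A0.G K → ℂ) (ψ : A0.Adl K → ℂ),
    IsTorusChar t n χT → ∀ 𝔫 : Ideal (𝓞 K), 𝔫 ≠ ⊥ →
    (∀ v : HeightOneSpectrum (𝓞 K), ¬ v.asIdeal ∣ 𝔫 → GoodArith t n χT ψ v) →
    ∃ π : HeckeEigensystem K ℂ, π.level = 𝔫 ∧ InducedDataT t n χT π

end GlobalLeaves

/-! ## 3. The local leaves -/

section LocalLeaves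

/-- **A2.03.1.1.6 LOC-REP (THE LOCAL WEIL REPRESENTATION at a finite place; STATION).**
For a nontrivial character `ψ_v` of `K_v` and `t`, `n` with `t² - 4n ≠ 0` there are a Haar
measure, a constant `γ` and a function `η` such that EVERY locally constant function with
compact support on `K_v²` is the initial vector `F 1 1` of a family with the local axioms,
whose members are locally constant with compact support.
Bruhat formulas (`h = d(det g)⁻¹ g = [[a, b], [c, d]] ∈ SL₂(K_v)`, `r(g, m) = L(m) r(h)`):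
`r(h) Φ(ξ) = η(a) |a| ψ(ab Q(ξ)) Φ(a ξ)` (`c = 0`),
`r(h) Φ(ξ) = γ η(-c) |c|⁻¹ ∫ ψ((a Q(ξ) - B(ξ, y) + d Q(y)) / c) Φ(y) dy` (`c ≠ 0`).
Needs: Fourier inversion on `S(K_v²)`; the Gauss identity
`∫ ψ(a Q(y)) FT(Ψ)(y) dy = c(a) ∫ Ψ(x) ψ(-Q(x)/a) dx`; `c(a) = c(1) η(a) |a|⁻¹` with `η` a
character of `K_v^× / N(T(K_v))` of order `≤ 2`.  Weil 1964 §§ 13--16, 24--28; JL Prop. 1.3. -/
def LocRepC : Prop :=
  ∀ (K : Type) [Field K] [NumberField K] (v : HeightOneSpectrum (𝓞 K)) (t n : K)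
    (ψv : v.adicCompletion K → ℂ), t ^ 2 - 4 * n ≠ 0 → IsCharL ψv →
    ∃ (μv : @Measure (v.adicCompletion K) (borel (v.adicCompletion K))) (γv : ℂ)
      (ηv : v.adicCompletion K → ℂ),
      ∀ Φ : v.adicCompletion K × v.adicCompletion K → ℂ,
        IsLocallyConstant Φ → HasCompactSupport Φ →
        ∃ F : Matrix (Fin 2) (Fin 2) (v.adicCompletion K) →
            Matrix (Fin 2) (Fin 2) (v.adicCompletion K) →
            v.adicCompletion K × v.adicCompletion K → ℂ,
          LocAx (fun x => ‖x‖) (algebraMap K (v.adicCompletion K) t)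
              (algebraMap K (v.adicCompletion K) n) ψv μv γv ηv F ∧
            (∀ g m : Matrix (Fin 2) (Fin 2) (v.adicCompletion K),
              AdmL (algebraMap K (v.adicCompletion K) t)
                (algebraMap K (v.adicCompletion K) n) g m →
              IsLocallyConstant (F g m) ∧ HasCompactSupport (F g m)) ∧
            F 1 1 = Φ

/-- **A2.03.1.1.7 LOC-UNIQ.**  A family with the local axioms is determined on the admissible
pairs by its initial vector: `(g, m) = (d(δ) h, m)`, `h ∈ SL₂(k)` (`LocAx.tor`), and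
`h = n(x) t(a)` or `h = n(x) t(a) w n(y)` (Bruhat; `unip`, `diag`, `weyl`).  Any field `k`,
any POSITIVE `absv` (for `absv δ ≤ 0` the axiom `tor` says nothing about `F g m`). -/
def LocUniqC : Prop :=
  ∀ (k : Type) [Field k] [TopologicalSpace k] (absv : k → ℝ) (t n : k) (ψ : k → ℂ)
    (μ : @Measure k (borel k)) (γ : ℂ) (η : k → ℂ)
    (F F' : Matrix (Fin 2) (Fin 2) k → Matrix (Fin 2) (Fin 2) k → k × k → ℂ),
    (∀ a : k, a ≠ 0 → 0 < absv a) →
    LocAx absv t n ψ μ γ η F → LocAx absv t n ψ μ γ η F' → F 1 1 = F' 1 1 →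
    ∀ g m : Matrix (Fin 2) (Fin 2) k, AdmL t n g m → F g m = F' g m

/-- **A2.03.1.1.8 LOC-GOOD.**  At a good place there are components with `FinAt`, and `GoodAt`
if moreover `η` is `η_v` on the ideles supported at `v` (used by `good_eta` only), for every
product datum with these components whose level is prime to `v`:  `Φ_v = stdFn v`, `μ_v(𝒪_v) = 1`, `Tlev v = T(𝒪_v)`;
`GL₂(𝒪_v)` is generated by `n(x)`, `t(a)`, `d(a)`, `w`; `γ_v = 1` by `(w n(1))³ = w⁴ = 1`;
`η_v(ϖ) = -1` at an inert place (Gauss sum of the norm form of `𝔽_{q²} / 𝔽_q`: `-q`). -/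
def LocGoodC : Prop :=
  ∀ (K : Type) [Field K] [NumberField K] (t n : K) (χT : A0.G K → ℂ) (ψ : A0.Adl K → ℂ)
    (v : HeightOneSpectrum (𝓞 K)),
    T1.T1Out K → IsTorusChar t n χT → IsAdeleChar ψ → GoodArith t n χT ψ v →
    ∃ (ψv : v.adicCompletion K → ℂ)
      (μv : @Measure (v.adicCompletion K) (borel (v.adicCompletion K)))
      (γv : ℂ) (ηv : v.adicCompletion K → ℂ)
      (Fv : Matrix (Fin 2) (Fin 2) (v.adicCompletion K) →
        Matrix (Fin 2) (Fin 2) (v.adicCompletion K) →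
        v.adicCompletion K × v.adicCompletion K → ℂ)
      (Tv : Set (Matrix (Fin 2) (Fin 2) (v.adicCompletion K))),
      ∀ L' : WData K, Matches L' t n χT ψ → MatchesFin L' v ψv μv γv ηv Fv Tv →
        ¬ v.asIdeal ∣ L'.π.level →
        FinAt L' v ∧
          ((∀ a : (A0.Adl K)ˣ, IsIdeleAt v a → L'.η a = ηv ((a : A0.Adl K).2 v)) →
            GoodAt L' v)

/-- **A2.03.1.1.9 LOC-BAD.**  At every finite place there are a depth `N` and components with
`FinAt` for every product datum with these components whose level is divisible by `v ^ N`: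
`Φ_v` = the indicator function of `1 + ϖ^M 𝒪_{L,v}` in the coordinates `1, ω`,
`Tlev v = T(K_v) ∩ (1 + ϖ^M 𝒪_{L,v})`, `M` large (`χT = 1` on `Tlev v`), then `N` large
(Iwahori factorisation of `U(ϖ^N)`; `det U(ϖ^N) ⊆ N(Tlev v)`). -/
def LocBadC : Prop :=
  ∀ (K : Type) [Field K] [NumberField K] (t n : K) (χT : A0.G K → ℂ) (ψ : A0.Adl K → ℂ)
    (v : HeightOneSpectrum (𝓞 K)),
    T1.T1Out K → IsTorusChar t n χT → IsAdeleChar ψ →
    ∃ (N : ℕ) (ψv : v.adicCompletion K → ℂ)
      (μv : @Measure (v.adicCompletion K) (borel (v.adicCompletion K)))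
      (γv : ℂ) (ηv : v.adicCompletion K → ℂ)
      (Fv : Matrix (Fin 2) (Fin 2) (v.adicCompletion K) →
        Matrix (Fin 2) (Fin 2) (v.adicCompletion K) →
        v.adicCompletion K × v.adicCompletion K → ℂ)
      (Tv : Set (Matrix (Fin 2) (Fin 2) (v.adicCompletion K))),
      ∀ L' : WData K, Matches L' t n χT ψ → MatchesFin L' v ψv μv γv ηv Fv Tv →
        L'.π.level ≤ v.asIdeal ^ N → FinAt L' v

/-- **A2.03.1.1.10 LOC-CPX.**  At a complex place there are components with `CpxAt`: in the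
split coordinates `z_i = ξ₁ + ω_i ξ₂` the form is `z₁ z₂`, the partial Fourier transform in `z₂`
carries the Weil representation to the natural action of `GL₂(ℂ)` on the functions on `ℂ²`, and
the Gaussian to a Gaussian fixed by `U(2)`.  JL §1 (Prop. 1.6), §5. -/
def LocCpxC : Prop :=
  ∀ (K : Type) [Field K] [NumberField K] (t n : K) (χT : A0.G K → ℂ) (ψ : A0.Adl K → ℂ)
    (u : InfinitePlace K),
    T1.T1Out K → IsTorusChar t n χT → IsAdeleChar ψ → u.IsComplex →
    ∃ (ψu : u.Completion → ℂ) (μu : @Measure u.Completion (borel u.Completion))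
      (γu : ℂ) (ηu : u.Completion → ℂ)
      (Fu : Matrix (Fin 2) (Fin 2) u.Completion → Matrix (Fin 2) (Fin 2) u.Completion →
        u.Completion × u.Completion → ℂ),
      ∀ L' : WData K, Matches L' t n χT ψ → MatchesInf L' u ψu μu γu ηu Fu → CpxAt L' u

/-- **A2.03.1.1.11**: `LocGoodC` from the local Weil representation. -/
def LocGoodOfRepC : Prop := LocRepC → LocUniqC → LocGoodC

/-- **A2.03.1.1.12**: `LocBadC` from the local Weil representation. -/
def LocBadOfRepC : Prop := LocRepC → LocUniqC → LocBadC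

end LocalLeaves

/-! ## 4. The assembly and the top -/

/-- **A2.03.1.1.13 ASM (assembly).**  `DataC` from the global and the local leaves: `ψ` (`PsiC`),
`μ`, `μT`, `DT` (`TorusMeasC`), the finite set `S ⊇ {v ∣ 𝔡}` of the places which are not good
(`GoodArithC`), the local components (choice: `LocGoodC` at `v ∉ S`, `LocBadC` at `v ∈ S`,
`LocCpxC` at the infinite places), the level `𝔫 = 𝔡 · ∏_{v ∈ S} v ^ {N_v + 1}` and `π`
(`InducedC`), `η = ∏ η_v`, `c` (`ProdIntC`).  Mechanical (`≈ 600` lines). -/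
def AsmC : Prop :=
  PsiC → ProdIntC → TorusMeasC → GoodArithC → InducedC → LocGoodC → LocBadC → LocCpxC → DataC

/-- **The top of the station `DataC`.** -/
theorem dataC_of_leaves467 (hasm : AsmC) (hpsi : PsiC) (hint : ProdIntC) (htor : TorusMeasC)
    (harith : GoodArithC) (hind : InducedC) (hrep : LocRepC) (huniq : LocUniqC)
    (hgood : LocGoodOfRepC) (hbad : LocBadOfRepC) (hcpx : LocCpxC) : DataC :=
  hasm hpsi hint htor harith hind (hgood hrep huniq) (hbad hrep huniq) hcpx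

end Fermat.Agent.LT.A2.WX467

end

end
-- ===== PACK-END LT/A2/H467/DataSpec.lean

-- ===== PACK-BEGIN LT/A2/H276/WeylComp.lean
section



/-!
# Row LT, tower A2, leaf A2.03.1.4 `WX467.WeylC` (helper276), OFF-MAIN: local components

Shared bookkeeping for the consumers of `WData.IsGood` (use or ignore):
components of products, local admissibility, the local Weyl / unipotent / diagonal elements,
integrality at almost all places, and `Ffin v g_v m_v = stdFn v` at almost all places.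
-/

set_option autoImplicit false

open IsDedekindDomain NumberField AutomorphicForm MeasureTheory
open scoped MatrixGroups Topology

noncomputable section

namespace Fermat.Agent.LT.A2.H276

open Fermat.Agent.LT.H130 Fermat.Agent.LT.H556 Fermat.Agent.LT.A2 Fermat.Agent.LT.A2.WX467
open Fermat.Agent.LT.T1.H793

variable {K : Type} [Field K] [NumberField K]

/-! ## Components of products -/

theorem infMat_eq276 (u : InfinitePlace K) (g : A0.G K) :
    infMat u g = ((glInf793 u g : GL (Fin 2) u.Completion) : Matrix (Fin 2) (Fin 2) u.Completion) :=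
  rfl

theorem infMat_mul276 (u : InfinitePlace K) (g h : A0.G K) :
    infMat u (g * h) = infMat u g * infMat u h := by
  rw [infMat_eq276, infMat_eq276, infMat_eq276, map_mul, Units.val_mul]

theorem finComp_mul276 (v : HeightOneSpectrum (𝓞 K)) (g h : A0.G K) :
    A0.finComp v (g * h) = A0.finComp v g * A0.finComp v h := by
  rw [finComp_eq793, finComp_eq793, finComp_eq793, map_mul, Units.val_mul]

theorem infMat_one276 (u : InfinitePlace K) : infMat u (1 : A0.G K) = 1 := by
  rw [infMat_eq276, map_one, Units.val_one]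

theorem finComp_one276 (v : HeightOneSpectrum (𝓞 K)) : A0.finComp v (1 : A0.G K) = 1 := by
  rw [finComp_eq793, map_one, Units.val_one]

theorem infMat_inv276 (u : InfinitePlace K) (g : A0.G K) :
    infMat u g⁻¹ = (infMat u g)⁻¹ := by
  rw [infMat_eq276, infMat_eq276, map_inv, Matrix.coe_units_inv]

theorem finComp_inv276 (v : HeightOneSpectrum (𝓞 K)) (g : A0.G K) :
    A0.finComp v g⁻¹ = (A0.finComp v g)⁻¹ := by
  rw [finComp_eq793, finComp_eq793, map_inv, Matrix.coe_units_inv]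

theorem infMat_det276 (u : InfinitePlace K) (g : A0.G K) :
    (infMat u g).det
      = projInf793 u ((Matrix.GeneralLinearGroup.det g : (A0.Adl K)ˣ) : A0.Adl K) := by
  rw [Matrix.GeneralLinearGroup.val_det_apply, RingHom.map_det]
  rfl

theorem finComp_det276 (v : HeightOneSpectrum (𝓞 K)) (g : A0.G K) :
    (A0.finComp v g).det
      = projFin793 v ((Matrix.GeneralLinearGroup.det g : (A0.Adl K)ˣ) : A0.Adl K) := by
  rw [Matrix.GeneralLinearGroup.val_det_apply, RingHom.map_det]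
  rfl

theorem infMat_det_ne_zero276 (u : InfinitePlace K) (g : A0.G K) : (infMat u g).det ≠ 0 := by
  rw [infMat_eq276]
  exact (Matrix.isUnits_det_units (glInf793 u g)).ne_zero

theorem finComp_det_ne_zero276 (v : HeightOneSpectrum (𝓞 K)) (g : A0.G K) :
    (A0.finComp v g).det ≠ 0 := by
  rw [finComp_eq793]
  exact (Matrix.isUnits_det_units (glFin793 v g)).ne_zero

/-! ## Components of the rational numbers -/

theorem algebraMap_inf276 (u : InfinitePlace K) (x : K) :
    (algebraMap K (A0.Adl K) x).1 u = algebraMap K u.Completion x := rfl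

theorem algebraMap_fin276 (v : HeightOneSpectrum (𝓞 K)) (x : K) :
    (algebraMap K (A0.Adl K) x).2 v = algebraMap K (v.adicCompletion K) x := rfl

/-! ## Local admissibility -/

theorem torMat_map276 {R S : Type*} [CommRing R] [CommRing S] (f : R →+* S) (t n a b : R) :
    (torMat t n a b).map f = torMat (f t) (f n) (f a) (f b) := by
  unfold torMat
  ext i j
  fin_cases i <;> fin_cases j <;> simp

theorem inTorL_inf276 (t n : K) (u : InfinitePlace K) {m : A0.G K} (h : InTorus t n m) :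
    InTorL (algebraMap K u.Completion t) (algebraMap K u.Completion n) (infMat u m) := by
  obtain ⟨a, b, hab⟩ := h
  refine ⟨projInf793 u a, projInf793 u b, ?_⟩
  rw [infMat_eq276, glInf793_coe, hab, torMat_map276]
  rfl

theorem inTorL_fin276 (t n : K) (v : HeightOneSpectrum (𝓞 K)) {m : A0.G K}
    (h : InTorus t n m) :
    InTorL (algebraMap K (v.adicCompletion K) t) (algebraMap K (v.adicCompletion K) n)
      (A0.finComp v m) := by
  obtain ⟨a, b, hab⟩ := h
  refine ⟨projFin793 v a, projFin793 v b, ?_⟩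
  rw [finComp_eq793, glFin793_coe, hab, torMat_map276]
  rfl

theorem admL_inf276 (t n : K) (u : InfinitePlace K) {g m : A0.G K} (h : Adm t n g m) :
    AdmL (algebraMap K u.Completion t) (algebraMap K u.Completion n) (infMat u g)
      (infMat u m) := by
  refine ⟨inTorL_inf276 t n u h.1, ?_, infMat_det_ne_zero276 u m⟩
  rw [infMat_det276, infMat_det276, h.2]

theorem admL_fin276 (t n : K) (v : HeightOneSpectrum (𝓞 K)) {g m : A0.G K}
    (h : Adm t n g m) :
    AdmL (algebraMap K (v.adicCompletion K) t) (algebraMap K (v.adicCompletion K) n)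
      (A0.finComp v g) (A0.finComp v m) := by
  refine ⟨inTorL_fin276 t n v h.1, ?_, finComp_det_ne_zero276 v m⟩
  rw [finComp_det276, finComp_det276, h.2]

theorem inTorus_one276 (t n : K) : InTorus t n (1 : A0.G K) := by
  refine ⟨1, 0, ?_⟩
  ext i j
  fin_cases i <;> fin_cases j <;> simp [torMat]

theorem adm_one276 (t n : K) : Adm t n (1 : A0.G K) 1 := ⟨inTorus_one276 t n, rfl⟩

/-- left multiplication by an element of determinant one preserves admissibility -/
theorem adm_mul_left276 (t n : K) {s g m : A0.G K}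
    (hs : Matrix.GeneralLinearGroup.det s = 1) (h : Adm t n g m) : Adm t n (s * g) m := by
  refine ⟨h.1, ?_⟩
  rw [map_mul, hs, one_mul, h.2]

/-! ## The special elements -/

theorem map_mat276 {R S : Type*} [CommRing R] [CommRing S] (f : R →+* S) (a b c d : R) :
    (!![a, b; c, d] : Matrix (Fin 2) (Fin 2) R).map f = !![f a, f b; f c, f d] := by
  ext i j
  fin_cases i <;> fin_cases j <;> rfl

theorem infMat_weyl276 (u : InfinitePlace K) {w : A0.G K} (hw : IsWeyl w) :
    infMat u w = !![0, 1; -1, 0] := by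
  rw [infMat_eq276, glInf793_coe, hw, map_mat276, map_zero, map_one, map_neg, map_one]

theorem finComp_weyl276 (v : HeightOneSpectrum (𝓞 K)) {w : A0.G K} (hw : IsWeyl w) :
    A0.finComp v w = !![0, 1; -1, 0] := by
  rw [finComp_eq793, glFin793_coe, hw, map_mat276, map_zero, map_one, map_neg, map_one]

theorem infMat_unip276 (u : InfinitePlace K) {nU : A0.Adl K → A0.G K} (hn : IsUpperUnip nU)
    (x : A0.Adl K) : infMat u (nU x) = !![1, projInf793 u x; 0, 1] := by
  rw [infMat_eq276, glInf793_coe, hn x, map_mat276, map_zero, map_one]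

theorem finComp_unip276 (v : HeightOneSpectrum (𝓞 K)) {nU : A0.Adl K → A0.G K}
    (hn : IsUpperUnip nU) (x : A0.Adl K) :
    A0.finComp v (nU x) = !![1, projFin793 v x; 0, 1] := by
  rw [finComp_eq793, glFin793_coe, hn x, map_mat276, map_zero, map_one]

theorem projInf_inv276 (u : InfinitePlace K) (a : (A0.Adl K)ˣ) :
    projInf793 u ((a⁻¹ : (A0.Adl K)ˣ) : A0.Adl K) = (projInf793 u (a : A0.Adl K))⁻¹ := by
  have h := congrArg (projInf793 u) a.mul_inv
  rw [map_mul, map_one] at h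
  exact eq_inv_of_mul_eq_one_right h

theorem projFin_inv276 (v : HeightOneSpectrum (𝓞 K)) (a : (A0.Adl K)ˣ) :
    projFin793 v ((a⁻¹ : (A0.Adl K)ˣ) : A0.Adl K) = (projFin793 v (a : A0.Adl K))⁻¹ := by
  have h := congrArg (projFin793 v) a.mul_inv
  rw [map_mul, map_one] at h
  exact eq_inv_of_mul_eq_one_right h

theorem projInf_unit_ne_zero276 (u : InfinitePlace K) (a : (A0.Adl K)ˣ) :
    projInf793 u (a : A0.Adl K) ≠ 0 := by
  intro h0
  have h := congrArg (projInf793 u) a.mul_inv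
  rw [map_mul, map_one, h0, zero_mul] at h
  exact zero_ne_one h

theorem projFin_unit_ne_zero276 (v : HeightOneSpectrum (𝓞 K)) (a : (A0.Adl K)ˣ) :
    projFin793 v (a : A0.Adl K) ≠ 0 := by
  intro h0
  have h := congrArg (projFin793 v) a.mul_inv
  rw [map_mul, map_one, h0, zero_mul] at h
  exact zero_ne_one h

theorem infMat_diagSLA276 (u : InfinitePlace K) {s : A0.G K} {a : (A0.Adl K)ˣ}
    (hs : WL.IsDiagSLA s a) :
    infMat u s = !![projInf793 u (a : A0.Adl K), 0; 0, (projInf793 u (a : A0.Adl K))⁻¹] := by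
  rw [infMat_eq276, glInf793_coe, hs, ← projInf_inv276, map_mat276, map_zero]

theorem finComp_diagSLA276 (v : HeightOneSpectrum (𝓞 K)) {s : A0.G K} {a : (A0.Adl K)ˣ}
    (hs : WL.IsDiagSLA s a) :
    A0.finComp v s
      = !![projFin793 v (a : A0.Adl K), 0; 0, (projFin793 v (a : A0.Adl K))⁻¹] := by
  rw [finComp_eq793, glFin793_coe, hs, ← projFin_inv276, map_mat276, map_zero]

/-! ## Determinant one -/

theorem det_eq_one_of_val276 {s : A0.G K}
    (h : (s : Matrix (Fin 2) (Fin 2) (A0.Adl K)).det = 1) :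
    Matrix.GeneralLinearGroup.det s = 1 := by
  apply Units.ext
  rw [Matrix.GeneralLinearGroup.val_det_apply, h]
  rfl

theorem det_weyl276 {w : A0.G K} (hw : IsWeyl w) : Matrix.GeneralLinearGroup.det w = 1 := by
  apply det_eq_one_of_val276
  rw [hw, Matrix.det_fin_two_of]
  ring

theorem det_unip276 {nU : A0.Adl K → A0.G K} (hn : IsUpperUnip nU) (x : A0.Adl K) :
    Matrix.GeneralLinearGroup.det (nU x) = 1 := by
  apply det_eq_one_of_val276
  rw [hn x, Matrix.det_fin_two_of]
  ring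

theorem det_diagSLA276 {s : A0.G K} {a : (A0.Adl K)ˣ} (hs : WL.IsDiagSLA s a) :
    Matrix.GeneralLinearGroup.det s = 1 := by
  apply det_eq_one_of_val276
  rw [hs, Matrix.det_fin_two_of]
  simp

/-! ## Density of the level at the good places (method of helper129, `H129/HeckeLevel.lean`) -/

open IsDedekindDomain.HeightOneSpectrum in
/-- `𝓞 K` is dense in `𝒪_v`. -/
theorem exists_int_mem_nhds276 (v : HeightOneSpectrum (𝓞 K)) {x : v.adicCompletion K}
    (hx : Valued.v x ≤ 1) {t : Set (v.adicCompletion K)} (ht : t ∈ nhds x) :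
    ∃ a : 𝓞 K, ((algebraMap (𝓞 K) K a : K) : v.adicCompletion K) ∈ t := by
  have hB : {z : v.adicCompletion K | Valued.v (z - x) < 1} ∈ nhds x := by
    rw [Valued.mem_nhds]
    refine ⟨1, fun w hw => ?_⟩
    simpa using hw
  have hint : interior t ∩ {z : v.adicCompletion K | Valued.v (z - x) < 1} ∈ nhds x :=
    Filter.inter_mem (interior_mem_nhds.mpr ht) hB
  have hx' : x ∈ closure (Set.range (algebraMap K (v.adicCompletion K))) := by
    rw [(denseRange_algebraMap (K := K) v).closure_range]; exact Set.mem_univ x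
  obtain ⟨_, ⟨hkt, hkB⟩, ⟨k, rfl⟩⟩ := mem_closure_iff_nhds.mp hx' _ hint
  have hk' : Valued.v (algebraMap K (v.adicCompletion K) k - x) < 1 := hkB
  have hk1 : v.valuation K k ≤ 1 := by
    rw [← valuedAdicCompletion_eq_valuation']
    have : ((k : K) : v.adicCompletion K) = (algebraMap K (v.adicCompletion K) k - x) + x := by
      have h1 : ((k : K) : v.adicCompletion K) = algebraMap K (v.adicCompletion K) k := rfl
      rw [h1]; ring
    rw [this]
    exact le_trans (Valuation.map_add _ _ _) (max_le hk'.le hx)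
  have htk : interior t ∈ nhds (algebraMap K (v.adicCompletion K) k) :=
    isOpen_interior.mem_nhds hkt
  rw [Valued.mem_nhds] at htk
  obtain ⟨γ, hγ⟩ := htk
  have hγ0 : MonoidWithZeroHom.ValueGroup₀.embedding γ.1 ≠ 0 := by
    intro h
    have h1 := (MonoidWithZeroHom.ValueGroup₀.embedding_strictMono
      (f := MonoidWithZeroHom.ofClass (Valued.v : Valuation (v.adicCompletion K) _))).injective
      (h.trans (map_zero _).symm)
    exact γ.ne_zero h1
  obtain ⟨a, ha⟩ := exists_valuation_sub_lt_of_integer v hk1 (Units.mk0 _ hγ0)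
  refine ⟨a, interior_subset (hγ ?_)⟩
  show (Valued.v : Valuation (v.adicCompletion K) _).restrict
    (((algebraMap (𝓞 K) K a : K) : v.adicCompletion K) - algebraMap K (v.adicCompletion K) k)
      < γ.1
  rw [Valuation.restrict_lt_iff_lt_embedding]
  have e : ((algebraMap (𝓞 K) K a : K) : v.adicCompletion K)
      - algebraMap K (v.adicCompletion K) k
      = ((algebraMap (𝓞 K) K a - k : K) : v.adicCompletion K) :=
    (map_sub (algebraMap K (v.adicCompletion K)) _ _).symm
  rw [e, valuedAdicCompletion_eq_valuation']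
  simpa using ha

open IsDedekindDomain.HeightOneSpectrum in
/-- For `v ∤ 𝔫` the ideal `𝔫` is dense in `𝒪_v`. -/
theorem dense_ideal276 {𝔫 : Ideal (𝓞 K)} {v : HeightOneSpectrum (𝓞 K)}
    (hv : ¬ v.asIdeal ∣ 𝔫) {x : v.adicCompletion K} (hx : Valued.v x ≤ 1) :
    x ∈ A0.idealClosure 𝔫 v := by
  have hnle : ¬ 𝔫 ≤ v.asIdeal := fun h => hv (Ideal.dvd_iff_le.mpr h)
  obtain ⟨s, hs𝔫, hsv⟩ := Set.not_subset.mp hnle
  have hsval : Valued.v (((algebraMap (𝓞 K) K s : K) : v.adicCompletion K)) = 1 := by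
    rw [valuedAdicCompletion_eq_valuation', valuation_eq_one_iff_notMem]
    exact hsv
  set S : v.adicCompletion K := ((algebraMap (𝓞 K) K s : K) : v.adicCompletion K) with hS
  have hS0 : S ≠ 0 := by
    intro h
    rw [h, map_zero] at hsval
    exact zero_ne_one hsval
  unfold A0.idealClosure
  rw [mem_closure_iff_nhds]
  intro t ht
  have hxs : Valued.v (x / S) ≤ 1 := by
    rw [map_div₀, hsval, div_one]; exact hx
  have hcont : Filter.Tendsto (fun z : v.adicCompletion K => z * S) (nhds (x / S)) (nhds x) := by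
    have h1 : Continuous (fun z : v.adicCompletion K => z * S) := continuous_mul_const S
    have h2 := h1.tendsto (x / S)
    rwa [div_mul_cancel₀ x hS0] at h2
  obtain ⟨a, ha⟩ := exists_int_mem_nhds276 v hxs (hcont ht)
  refine ⟨((algebraMap (𝓞 K) K a : K) : v.adicCompletion K) * S, ha, a * s,
    𝔫.mul_mem_left a hs𝔫, ?_⟩
  show algebraMap K (v.adicCompletion K) (algebraMap (𝓞 K) K (a * s))
    = algebraMap K (v.adicCompletion K) (algebraMap (𝓞 K) K a)
      * algebraMap K (v.adicCompletion K) (algebraMap (𝓞 K) K s)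
  rw [map_mul, map_mul]

/-! ## Almost all places -/

/-- an adele is integral at almost all finite places -/
theorem eventually_integral276 (x : A0.Adl K) :
    ∀ᶠ v : HeightOneSpectrum (𝓞 K) in Filter.cofinite,
      projFin793 v x ∈ v.adicCompletionIntegers K :=
  x.2.2

/-- the entries of `g` and of `g⁻¹` are integral at almost all finite places -/
theorem eventually_maxCompact276 (g : A0.G K) :
    ∀ᶠ v : HeightOneSpectrum (𝓞 K) in Filter.cofinite,
      (∀ i j : Fin 2, A0.finComp v g i j ∈ v.adicCompletionIntegers K) ∧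
      ∀ i j : Fin 2, (A0.finComp v g)⁻¹ i j ∈ v.adicCompletionIntegers K := by
  have h1 : ∀ i j : Fin 2, ∀ᶠ v : HeightOneSpectrum (𝓞 K) in Filter.cofinite,
      A0.finComp v g i j ∈ v.adicCompletionIntegers K :=
    fun i j => eventually_integral276 ((g : Matrix (Fin 2) (Fin 2) (A0.Adl K)) i j)
  have h2 : ∀ i j : Fin 2, ∀ᶠ v : HeightOneSpectrum (𝓞 K) in Filter.cofinite,
      A0.finComp v g⁻¹ i j ∈ v.adicCompletionIntegers K :=
    fun i j => eventually_integral276 ((g⁻¹ : A0.G K).1 i j)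
  have h1' := Filter.eventually_all.2 fun i => Filter.eventually_all.2 (h1 i)
  have h2' := Filter.eventually_all.2 fun i => Filter.eventually_all.2 (h2 i)
  filter_upwards [h1', h2'] with v hv1 hv2
  refine ⟨hv1, fun i j => ?_⟩
  rw [← finComp_inv276]
  exact hv2 i j

/-- almost all finite places do not divide a nonzero ideal -/
theorem eventually_not_dvd276 {𝔫 : Ideal (𝓞 K)} (h𝔫 : 𝔫 ≠ ⊥) :
    ∀ᶠ v : HeightOneSpectrum (𝓞 K) in Filter.cofinite, ¬ v.asIdeal ∣ 𝔫 := by
  rw [Filter.eventually_cofinite]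
  simp only [not_not]
  exact Ideal.finite_factors h𝔫

/-! ## The standard function at almost all places -/

theorem inTorL_one276 {k : Type} [Field k] (t n : k) :
    InTorL t n (1 : Matrix (Fin 2) (Fin 2) k) := by
  refine ⟨1, 0, ?_⟩
  unfold torMat
  ext i j
  fin_cases i <;> fin_cases j <;> simp

theorem admL_one276 {k : Type} [Field k] (t n : k) :
    AdmL t n (1 : Matrix (Fin 2) (Fin 2) k) 1 :=
  ⟨inTorL_one276 t n, rfl, by simp⟩

theorem one_apply_integral276 (v : HeightOneSpectrum (𝓞 K)) (i j : Fin 2) :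
    (1 : Matrix (Fin 2) (Fin 2) (v.adicCompletion K)) i j ∈ v.adicCompletionIntegers K := by
  by_cases h : i = j
  · rw [h, Matrix.one_apply_eq]; exact one_mem _
  · rw [Matrix.one_apply_ne h]; exact zero_mem _

/-- at a good place an invertible matrix which is integral with its inverse lies in the local
level group -/
theorem inLevL_of_integral276 {𝔫 : Ideal (𝓞 K)} {v : HeightOneSpectrum (𝓞 K)}
    (hv : ¬ v.asIdeal ∣ 𝔫) (k : Matrix (Fin 2) (Fin 2) (v.adicCompletion K)) (hdet : k.det ≠ 0)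
    (hk : ∀ i j : Fin 2, k i j ∈ v.adicCompletionIntegers K)
    (hk' : ∀ i j : Fin 2, k⁻¹ i j ∈ v.adicCompletionIntegers K) : InLevL 𝔫 v k := by
  refine ⟨hdet, fun i j => ⟨dense_ideal276 hv ?_, dense_ideal276 hv ?_⟩⟩
  · exact sub_mem (hk i j) (one_apply_integral276 v i j)
  · exact sub_mem (hk' i j) (one_apply_integral276 v i j)

/-- **standard at the good places**: if `v ∤ level` and the components of `g`, `m` at `v` are
integral with their inverses, then `F_v(g_v, m_v) = 1_{𝒪_v²}`. -/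
theorem Ffin_eq_std276 (L : WData K) (hL : L.IsGood) (v : HeightOneSpectrum (𝓞 K))
    (hv : ¬ v.asIdeal ∣ L.π.level) (k κ : Matrix (Fin 2) (Fin 2) (v.adicCompletion K))
    (hk : ∀ i j : Fin 2, k i j ∈ v.adicCompletionIntegers K)
    (hk' : ∀ i j : Fin 2, k⁻¹ i j ∈ v.adicCompletionIntegers K)
    (hκ : ∀ i j : Fin 2, κ i j ∈ v.adicCompletionIntegers K)
    (hκ' : ∀ i j : Fin 2, κ⁻¹ i j ∈ v.adicCompletionIntegers K)
    (hadm : AdmL (L.tfin v) (L.nfin v) k κ) : L.Ffin v k κ = stdFn v := by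
  funext ξ
  have hlev : InLevL L.π.level v k :=
    inLevL_of_integral276 hv k (by rw [hadm.2.1]; exact hadm.2.2) hk hk'
  have htl : κ ∈ L.Tlev v := ((hL.good v hv).tlev κ).2 ⟨hadm.1, hadm.2.2, hκ, hκ'⟩
  have h := (hL.fin v).right_inv k κ hlev htl hadm.2.1 1 1 ξ (admL_one276 _ _)
  rw [one_mul, one_mul] at h
  rw [h, (hL.good v hv).std]

/-- for an admissible pair, `F_v(g_v, m_v) = 1_{𝒪_v²}` at almost all places -/
theorem eventually_Ffin_eq_std276 (L : WData K) (hL : L.IsGood) {g m : A0.G K}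
    (h : Adm L.t L.n g m) :
    ∀ᶠ v : HeightOneSpectrum (𝓞 K) in Filter.cofinite,
      L.Ffin v (A0.finComp v g) (A0.finComp v m) = stdFn v := by
  filter_upwards [eventually_not_dvd276 L.π.level_ne_bot, eventually_maxCompact276 g,
    eventually_maxCompact276 m] with v hv hg hm
  exact Ffin_eq_std276 L hL v hv _ _ hg.1 hg.2 hm.1 hm.2 (admL_fin276 L.t L.n v h)

/-! ## Adeles supported at one place -/

/-- the adele supported at the finite place `v` with component `y` -/
def sglFin276 (v : HeightOneSpectrum (𝓞 K)) (y : v.adicCompletion K) : A0.Adl K := by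
  classical
  exact (show InfiniteAdeleRing K × FiniteAdeleRing (𝓞 K) K from
    (0, ⟨Pi.single v y, by
      rw [Filter.eventually_cofinite]
      refine (Set.finite_singleton v).subset fun v' hv' => ?_
      by_contra hne
      apply hv'
      simp only [Set.mem_singleton_iff] at hne
      rw [Pi.single_eq_of_ne hne]
      exact zero_mem _⟩))

theorem sglFin_same276 (v : HeightOneSpectrum (𝓞 K)) (y : v.adicCompletion K) :
    projFin793 v (sglFin276 v y) = y := by
  classical
  show (Pi.single v y : ∀ v' : HeightOneSpectrum (𝓞 K), v'.adicCompletion K) v = y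
  exact Pi.single_eq_same v y

theorem sglFin_ne276 (v : HeightOneSpectrum (𝓞 K)) (y : v.adicCompletion K)
    (v' : HeightOneSpectrum (𝓞 K)) (h : v' ≠ v) : projFin793 v' (sglFin276 v y) = 0 := by
  classical
  show (Pi.single v y : ∀ v' : HeightOneSpectrum (𝓞 K), v'.adicCompletion K) v' = 0
  exact Pi.single_eq_of_ne h y

theorem sglFin_inf276 (v : HeightOneSpectrum (𝓞 K)) (y : v.adicCompletion K)
    (u : InfinitePlace K) : projInf793 u (sglFin276 v y) = 0 := rfl

theorem adlAtFin_sglFin276 (v : HeightOneSpectrum (𝓞 K)) (y : v.adicCompletion K) :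
    WL.AdlAtFin v (sglFin276 v y) :=
  ⟨fun u => sglFin_inf276 v y u, fun v' h => sglFin_ne276 v y v' h⟩

/-- the adele supported at the infinite place `u` with component `y` -/
def sglInf276 (u : InfinitePlace K) (y : u.Completion) : A0.Adl K := by
  classical
  exact (show InfiniteAdeleRing K × FiniteAdeleRing (𝓞 K) K from (Pi.single u y, 0))

theorem sglInf_same276 (u : InfinitePlace K) (y : u.Completion) :
    projInf793 u (sglInf276 u y) = y := by
  classical
  show (Pi.single u y : ∀ u' : InfinitePlace K, u'.Completion) u = y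
  exact Pi.single_eq_same u y

theorem sglInf_ne276 (u : InfinitePlace K) (y : u.Completion) (u' : InfinitePlace K)
    (h : u' ≠ u) : projInf793 u' (sglInf276 u y) = 0 := by
  classical
  show (Pi.single u y : ∀ u' : InfinitePlace K, u'.Completion) u' = 0
  exact Pi.single_eq_of_ne h y

theorem sglInf_fin276 (u : InfinitePlace K) (y : u.Completion)
    (v : HeightOneSpectrum (𝓞 K)) : projFin793 v (sglInf276 u y) = 0 := rfl

theorem adlAtInf_sglInf276 (u : InfinitePlace K) (y : u.Completion) :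
    WL.AdlAtInf u (sglInf276 u y) :=
  ⟨fun u' h => sglInf_ne276 u y u' h, fun v => sglInf_fin276 u y v⟩

/-- the local character at a good place is trivial on the integers -/
theorem psifin_integral276 (L : WData K) (hL : L.IsGood) (v : HeightOneSpectrum (𝓞 K))
    (hv : ¬ v.asIdeal ∣ L.π.level) (y : v.adicCompletion K)
    (hy : y ∈ v.adicCompletionIntegers K) : L.ψfin v y = 1 := by
  have h1 := (hL.fin v).psi (sglFin276 v y) (adlAtFin_sglFin276 v y)
  have h2 := (hL.good v hv).good_psi.1 (sglFin276 v y) (adlAtFin_sglFin276 v y)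
    (by rw [← projFin793_apply, sglFin_same276]; exact hy)
  rw [← projFin793_apply, sglFin_same276] at h1
  rw [← h1, h2]

end Fermat.Agent.LT.A2.H276

end

end
-- ===== PACK-END LT/A2/H276/WeylComp.lean

-- ===== PACK-BEGIN LT/A2/H361/LocFinPkg.lean
section


/-!
# Row LT, tower A2, station A2.03.1.1 `DataC`, sub-station LOC-FIN -- THE INTERFACE (helper361)

OFF-MAIN.  Definitions and PROVED consumer lemmas only.  No holes, nothing assumed.

The local Weil representation at one place, as a PACKAGE `WeilPkg`: an action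
`R g m : (k × k → ℂ) → (k × k → ℂ)` of the admissible pairs `(g, m)` (`m ∈ T(k)`,
`det g = det m ≠ 0`, `WX467.AdmL`) on functions on `k²`, which on the Schwartz--Bruhat functions
(`IsSB`: locally constant with compact support) is multiplicative and has the four standard values

    R (n(x), 1) Φ = ψ(x Q) Φ,      R (w, 1) Φ = γ · FT Φ,      R (t(a), 1) Φ = η(a) |a| Φ(a ·),
    |det μ'|^{1/2} · R (d(det μ'), μ') Φ = Φ(μ'⁻¹ ·),

together with the character properties of `η`.  Conventions of `WeilExSpec.lean` (helper467):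
`w = [[0,1],[-1,0]]`, `n(x) = [[1,x],[0,1]]`, `t(a) = diag(a, a⁻¹)`, `d(a) = diag(1, a)`,
`FT Φ (ξ) = ∫ Φ(y) ψ(B(ξ, y)) dy` for the product measure `μ × μ`.

CONSUMERS.  For EVERY Schwartz--Bruhat `Φ₀` the family `F g m := R g m Φ₀` satisfies
`WX467.LocAx` (`locAx_of_pkg361`), is Schwartz--Bruhat (`WeilPkg.sb`), has `F 1 1 = Φ₀`
(`WeilPkg.one`), and `F (g k) (m κ) = F g m` as soon as `R k κ Φ₀ = Φ₀`
(`right_inv_of_fixed361`).  So LOC-GOOD and LOC-BAD only have to choose `Φ₀` and to check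
that it is fixed by the generators of the level group.
-/

set_option autoImplicit false
set_option linter.unusedSectionVars false

open MeasureTheory
open scoped Topology

noncomputable section

namespace Fermat.Agent.LT.A2.LF361

open Fermat.Agent.LT.A2.WX467

section Local

variable {k : Type} [Field k] [TopologicalSpace k]

/-- Schwartz--Bruhat functions on `k²`: locally constant with compact support. -/
def IsSB (f : k × k → ℂ) : Prop := IsLocallyConstant f ∧ HasCompactSupport f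

/-- The Fourier transform on `k²` for the pairing `ψ ∘ B` and the measure `μ × μ`
(the integral of `LocAx.weyl`). -/
def ftL (t n : k) (ψ : k → ℂ) (μ : @Measure k (borel k)) (f : k × k → ℂ) (ξ : k × k) : ℂ :=
  intL μ fun y => f y * ψ (bfL t n ξ y)

/-- `N(x) Φ = ψ(x Q) Φ`. -/
def opN (t n : k) (ψ : k → ℂ) (x : k) (Φ : k × k → ℂ) : k × k → ℂ :=
  fun ξ => ψ (x * qfL t n ξ) * Φ ξ

/-- `W Φ = γ · FT Φ`. -/
def opW (t n : k) (ψ : k → ℂ) (μ : @Measure k (borel k)) (γ : ℂ) (Φ : k × k → ℂ) :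
    k × k → ℂ :=
  fun ξ => γ * ftL t n ψ μ Φ ξ

/-- `T(a) Φ = η(a) |a| Φ(a ·)`. -/
def opT (absv : k → ℝ) (η : k → ℂ) (a : k) (Φ : k × k → ℂ) : k × k → ℂ :=
  fun ξ => η a * ((absv a : ℝ) : ℂ) * Φ (a • ξ)

/-- The matrices of the generators. -/
def nMat (x : k) : Matrix (Fin 2) (Fin 2) k := !![1, x; 0, 1]

/-- The Weyl element `w = [[0,1],[-1,0]]`. -/
def wMat : Matrix (Fin 2) (Fin 2) k := !![0, 1; -1, 0]

/-- `t(a) = diag(a, a⁻¹)`. -/
def tMat (a : k) : Matrix (Fin 2) (Fin 2) k := !![a, 0; 0, a⁻¹]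

/-- `d(a) = diag(1, a)`. -/
def dMat (a : k) : Matrix (Fin 2) (Fin 2) k := !![1, 0; 0, a]

/-- **THE PACKAGE: the local Weil representation** of the admissible pairs on the
Schwartz--Bruhat functions, with module `absv`, character `ψ`, measure `μ`, constant `γ`,
quadratic character `η`. -/
structure WeilPkg (absv : k → ℝ) (t n : k) (ψ : k → ℂ) (μ : @Measure k (borel k)) (γ : ℂ)
    (η : k → ℂ)
    (R : Matrix (Fin 2) (Fin 2) k → Matrix (Fin 2) (Fin 2) k → (k × k → ℂ) → k × k → ℂ) :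
    Prop where
  /-- Schwartz--Bruhat functions are preserved. -/
  sb : ∀ g m : Matrix (Fin 2) (Fin 2) k, AdmL t n g m → ∀ Φ : k × k → ℂ, IsSB Φ →
    IsSB (R g m Φ)
  one : ∀ Φ : k × k → ℂ, IsSB Φ → R 1 1 Φ = Φ
  /-- Multiplicativity on the admissible pairs. -/
  mul : ∀ g m g' m' : Matrix (Fin 2) (Fin 2) k, AdmL t n g m → AdmL t n g' m' →
    ∀ Φ : k × k → ℂ, IsSB Φ → R (g * g') (m * m') Φ = R g m (R g' m' Φ)
  unip : ∀ (x : k) (Φ : k × k → ℂ), IsSB Φ → R (nMat x) 1 Φ = opN t n ψ x Φ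
  weyl : ∀ Φ : k × k → ℂ, IsSB Φ → R wMat 1 Φ = opW t n ψ μ γ Φ
  diag : ∀ a : k, a ≠ 0 → ∀ Φ : k × k → ℂ, IsSB Φ → R (tMat a) 1 Φ = opT absv η a Φ
  /-- `|det μ'|^{1/2} R (d(det μ'), μ') Φ = Φ(μ'⁻¹ ·)`. -/
  tor : ∀ μ' : Matrix (Fin 2) (Fin 2) k, InTorL t n μ' → μ'.det ≠ 0 →
    ∀ Φ : k × k → ℂ, IsSB Φ → ∀ ξ : k × k,
      ((Real.sqrt (absv μ'.det) : ℝ) : ℂ) * R (dMat μ'.det) μ' Φ ξ = Φ (actL μ'⁻¹ ξ)
  eta_mul : ∀ a b : k, a ≠ 0 → b ≠ 0 → η (a * b) = η a * η b
  eta_sq : ∀ a : k, a ≠ 0 → η a = 1 ∨ η a = -1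
  eta_norm : ∀ μ' : Matrix (Fin 2) (Fin 2) k, InTorL t n μ' → μ'.det ≠ 0 → η μ'.det = 1
  eta_cont : ContinuousOn η {a | a ≠ 0}

/-- The hypotheses on the measure (the field `haar` of `LocAx`). -/
def IsHaarL (μ : @Measure k (borel k)) : Prop :=
  (letI : MeasurableSpace k := borel k
    ∀ (x : k) (S : Set k), μ ((fun y => x + y) '' S) = μ S) ∧
    (∀ C : Set k, IsCompact C → μ C < ⊤) ∧ ∀ U : Set k, IsOpen U → U.Nonempty → 0 < μ U

/-- The hypotheses on the character (the field `psi_char` of `LocAx`). -/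
def IsCharL (ψ : k → ℂ) : Prop :=
  Continuous ψ ∧ (∀ x y : k, ψ (x + y) = ψ x * ψ y) ∧ ∀ x : k, ‖ψ x‖ = 1

theorem inTorL_one361 (t n : k) : InTorL t n (1 : Matrix (Fin 2) (Fin 2) k) := by
  refine ⟨1, 0, ?_⟩
  ext i j
  fin_cases i <;> fin_cases j <;> simp [torMat]

theorem admL_sl361 (t n : k) (s : Matrix (Fin 2) (Fin 2) k) (hs : s.det = 1) :
    AdmL t n s 1 :=
  ⟨inTorL_one361 t n, by rw [hs, Matrix.det_one], by rw [Matrix.det_one]; exact one_ne_zero⟩

theorem det_nMat361 (x : k) : (nMat x).det = 1 := by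
  simp [nMat, Matrix.det_fin_two_of]

theorem det_wMat361 : (wMat : Matrix (Fin 2) (Fin 2) k).det = 1 := by
  simp [wMat, Matrix.det_fin_two_of]

theorem det_tMat361 {a : k} (ha : a ≠ 0) : (tMat a).det = 1 := by
  simp [tMat, Matrix.det_fin_two_of, ha]

theorem det_dMat361 (a : k) : (dMat a).det = a := by
  simp [dMat, Matrix.det_fin_two_of]

theorem admL_tor361 (t n : k) (μ' : Matrix (Fin 2) (Fin 2) k) (h : InTorL t n μ')
    (hd : μ'.det ≠ 0) : AdmL t n (dMat μ'.det) μ' :=
  ⟨h, det_dMat361 _, hd⟩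

/-- **CONSUMER 1.**  For every Schwartz--Bruhat `Φ₀` the orbit `F g m = R g m Φ₀` of the package
satisfies the local axioms `LocAx` of `WeilExSpec.lean`. -/
theorem locAx_of_pkg361 {absv : k → ℝ} {t n : k} {ψ : k → ℂ} {μ : @Measure k (borel k)}
    {γ : ℂ} {η : k → ℂ}
    {R : Matrix (Fin 2) (Fin 2) k → Matrix (Fin 2) (Fin 2) k → (k × k → ℂ) → k × k → ℂ}
    (hR : WeilPkg absv t n ψ μ γ η R) (hμ : _root_.Fermat.Agent.LT.A2.LF361.IsHaarL μ) (hψ : _root_.Fermat.Agent.LT.A2.LF361.IsCharL ψ)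
    (hint : ∀ Φ : k × k → ℂ, IsSB Φ → IntegrableL μ Φ)
    (Φ₀ : k × k → ℂ) (h₀ : IsSB Φ₀) :
    LocAx absv t n ψ μ γ η (fun g m => R g m Φ₀) where
  unip := by
    intro x g m ξ hgm
    have h := hR.mul (nMat x) 1 g m (admL_sl361 t n _ (det_nMat361 x)) hgm Φ₀ h₀
    rw [one_mul] at h
    have h2 := hR.unip x (R g m Φ₀) (hR.sb g m hgm Φ₀ h₀)
    show R (nMat x * g) m Φ₀ ξ = _
    rw [h, h2]
    rfl
  weyl := by
    intro g m ξ hgm
    have h := hR.mul wMat 1 g m (admL_sl361 t n _ det_wMat361) hgm Φ₀ h₀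
    rw [one_mul] at h
    have h2 := hR.weyl (R g m Φ₀) (hR.sb g m hgm Φ₀ h₀)
    show R (wMat * g) m Φ₀ ξ = _
    rw [h, h2]
    rfl
  diag := by
    intro a ha g m ξ hgm
    have h := hR.mul (tMat a) 1 g m (admL_sl361 t n _ (det_tMat361 ha)) hgm Φ₀ h₀
    rw [one_mul] at h
    have h2 := hR.diag a ha (R g m Φ₀) (hR.sb g m hgm Φ₀ h₀)
    show R (tMat a * g) m Φ₀ ξ = _
    rw [h, h2]
    rfl
  tor := by
    intro μ' hμ' hd g m ξ hgm
    have h := hR.mul (dMat μ'.det) μ' g m (admL_tor361 t n μ' hμ' hd) hgm Φ₀ h₀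
    have h2 := hR.tor μ' hμ' hd (R g m Φ₀) (hR.sb g m hgm Φ₀ h₀) ξ
    show _ * R (dMat μ'.det * g) (μ' * m) Φ₀ ξ = _
    rw [h]
    exact h2
  eta_mul := hR.eta_mul
  eta_sq := hR.eta_sq
  eta_norm := hR.eta_norm
  eta_cont := hR.eta_cont
  haar := hμ
  psi_char := hψ
  cont := fun g m hgm => (hR.sb g m hgm Φ₀ h₀).1.continuous
  integrable := fun g m hgm => hint _ (hR.sb g m hgm Φ₀ h₀)

/-- **CONSUMER 2.**  Right invariance of the orbit under a pair which fixes `Φ₀`. -/
theorem right_inv_of_fixed361 {absv : k → ℝ} {t n : k} {ψ : k → ℂ}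
    {μ : @Measure k (borel k)} {γ : ℂ} {η : k → ℂ}
    {R : Matrix (Fin 2) (Fin 2) k → Matrix (Fin 2) (Fin 2) k → (k × k → ℂ) → k × k → ℂ}
    (hR : WeilPkg absv t n ψ μ γ η R) (Φ₀ : k × k → ℂ) (h₀ : IsSB Φ₀)
    (κ' κ : Matrix (Fin 2) (Fin 2) k) (hκ : AdmL t n κ' κ) (hfix : R κ' κ Φ₀ = Φ₀)
    (g m : Matrix (Fin 2) (Fin 2) k) (hgm : AdmL t n g m) :
    R (g * κ') (m * κ) Φ₀ = R g m Φ₀ := by
  rw [hR.mul g m κ' κ hgm hκ Φ₀ h₀, hfix]

end Local

end Fermat.Agent.LT.A2.LF361

end

end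
-- ===== PACK-END LT/A2/H361/LocFinPkg.lean

-- ===== PACK-BEGIN LT/A2/H510/ArchInv.lean
section


/-!
# Row LT, tower A2, leaf A2.03.7.3 ARCH-INV (registry 1128) — helper510, OFF-MAIN

`archInvC_h510 : H416.ArchInvC`, verbatim against `LT/A2/H416/MeanSpec.lean`
(helper416@957b73407, sha256 4437dde0d7dedaa3).

The Whittaker function of good data is right invariant under every `u` which has a partner
`κ ∈ T(𝔸_K)` with `det κ = det u`, `χT κ = 1`, `F (g u) (m κ) = F g m`
(`whit_right_inv_h510`); the fields `arch_scalar`, `arch_compact` (and `level`) of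
`KData.IsRightInv` provide such partners.

* `g ∈ GL₂(𝔸_K)⁺`, `(g, m_g)` admissible: `(g u, m_g κ)` is admissible and the integrands of the
  two orbital integrals agree on `T¹(𝔸_K)`; the torus measure is carried by `T¹(𝔸_K)`
  (`IsMeasured.carried`), so no measurability of `T¹` is needed.
* `g ∉ GL₂(𝔸_K)⁺`: then `g u ∉ GL₂(𝔸_K)⁺`, because `(g u, m')` admissible gives
  `(g, m' κ⁻¹)` admissible (the torus is stable under inverses), and both sides vanish.

`T1Out` is not used.
-/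

set_option autoImplicit false
set_option linter.style.haveILetI false

open IsDedekindDomain NumberField AutomorphicForm MeasureTheory
open scoped MatrixGroups Topology

noncomputable section

namespace Fermat.Agent.LT.A2.H510

open Fermat.Agent.LT.H130 Fermat.Agent.LT.H556 Fermat.Agent.LT.A2

variable {K : Type} [Field K] [NumberField K]

/-! ## The torus is a group -/

/-- The product of two matrices of the torus. -/
theorem torMat_mul_h510 {R : Type*} [CommRing R] (t n a b a' b' : R) :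
    torMat t n a b * torMat t n a' b'
      = torMat t n (a * a' - n * b * b') (a * b' + b * a' + t * b * b') := by
  ext i j
  fin_cases i <;> fin_cases j <;>
    simp [torMat, Matrix.mul_apply, Fin.sum_univ_two] <;> ring

/-- The unit matrix of the torus. -/
theorem torMat_one_h510 {R : Type*} [CommRing R] (t n : R) :
    torMat t n 1 0 = (1 : Matrix (Fin 2) (Fin 2) R) := by
  ext i j
  fin_cases i <;> fin_cases j <;> simp [torMat]

/-- The determinant of a matrix of the torus. -/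
theorem det_torMat_h510 {R : Type*} [CommRing R] (t n a b : R) :
    (torMat t n a b).det = a * (a + t * b) + n * b * b := by
  rw [torMat, Matrix.det_fin_two_of]
  ring

/-- The torus is stable under multiplication. -/
theorem inTorus_mul_h510 {t n : K} {m m' : A0.G K} (h : InTorus t n m) (h' : InTorus t n m') :
    InTorus t n (m * m') := by
  obtain ⟨a, b, hm⟩ := h
  obtain ⟨a', b', hm'⟩ := h'
  refine ⟨a * a' - algebraMap K (A0.Adl K) n * b * b',
    a * b' + b * a' + algebraMap K (A0.Adl K) t * b * b', ?_⟩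
  rw [Units.val_mul, hm, hm', torMat_mul_h510]

/-- The torus is stable under inverses. -/
theorem inTorus_inv_h510 {t n : K} {m : A0.G K} (h : InTorus t n m) : InTorus t n m⁻¹ := by
  obtain ⟨a, b, hm⟩ := h
  set T := algebraMap K (A0.Adl K) t with hT
  set N := algebraMap K (A0.Adl K) n with hN
  set u : A0.Adl K := (((Matrix.GeneralLinearGroup.det m)⁻¹ : (A0.Adl K)ˣ) : A0.Adl K) with hu
  have hd : ((Matrix.GeneralLinearGroup.det m : (A0.Adl K)ˣ) : A0.Adl K)
      = a * (a + T * b) + N * b * b := by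
    rw [Matrix.GeneralLinearGroup.val_det_apply, hm, det_torMat_h510]
  have hud : (a * (a + T * b) + N * b * b) * u = 1 := by
    rw [← hd, hu]
    exact Units.mul_inv _
  refine ⟨(a + T * b) * u, -b * u, ?_⟩
  refine Units.inv_eq_of_mul_eq_one_right ?_
  rw [hm, torMat_mul_h510]
  have h1 : a * ((a + T * b) * u) - N * b * (-b * u) = 1 := by
    calc a * ((a + T * b) * u) - N * b * (-b * u)
        = (a * (a + T * b) + N * b * b) * u := by ring
      _ = 1 := hud
  have h2 : a * (-b * u) + b * ((a + T * b) * u) + T * b * (-b * u) = 0 := by ring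
  rw [h1, h2, torMat_one_h510]

/-! ## Equality of orbital integrals -/

/-- Two functions which agree on `T¹(𝔸_K)` have the same orbital integral. -/
theorem intT_congr_h510 (D : KData K) (hcar : D.μT {m | ¬ InTorus1 D.t D.n m} = 0)
    (f₁ f₂ : A0.G K → ℂ) (h : ∀ m : A0.G K, InTorus1 D.t D.n m → f₁ m = f₂ m) :
    D.intT {m | InTorus1 D.t D.n m} f₁ = D.intT {m | InTorus1 D.t D.n m} f₂ := by
  unfold KData.intT
  letI : MeasurableSpace (A0.G K) := borel (A0.G K)
  refine integral_congr_ae ?_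
  have h0 : (D.μT.restrict {m | InTorus1 D.t D.n m}) {m | ¬ InTorus1 D.t D.n m} = 0 :=
    le_antisymm ((Measure.restrict_le_self _).trans hcar.le) zero_le
  rw [Filter.EventuallyEq, ae_iff]
  exact measure_mono_null (fun m hm hin => hm (h m hin)) h0

/-! ## Right invariance of the Whittaker function -/

/-- **Right invariance.**  If `u` has a partner `κ` in the torus (`det κ = det u`, `χT κ = 1`,
`F (g u) (m κ) = F g m` on the admissible pairs), then `W(g u) = W(g)`. -/
theorem whit_right_inv_h510 (D : KData K) (hgood : D.Good) (W : A0.G K → ℂ) (hW : D.IsWhit W)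
    (u κ : A0.G K) (hadm : Adm D.t D.n u κ) (hχ : D.χT κ = 1)
    (hF : ∀ (g m : A0.G K) (ξ : A0.Adl K × A0.Adl K), Adm D.t D.n g m →
      D.F (g * u) (m * κ) ξ = D.F g m ξ) (g : A0.G K) :
    W (g * u) = W g := by
  by_cases hg : InGPlus D.t D.n g
  · obtain ⟨mg, hmg⟩ := hg
    have hadm' : Adm D.t D.n (g * u) (mg * κ) :=
      ⟨inTorus_mul_h510 hmg.1 hadm.1, by rw [map_mul, map_mul, hmg.2, hadm.2]⟩
    rw [hW.formula (g * u) (mg * κ) hadm', hW.formula g mg hmg]
    refine intT_congr_h510 D hgood.measured.carried _ _ fun m hm => ?_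
    have hm1 : InTorus D.t D.n (m * mg) := inTorus_mul_h510 hm.1 hmg.1
    have hadm1 : Adm D.t D.n g (m * mg) := ⟨hm1, by rw [map_mul, hm.2, one_mul, hmg.2]⟩
    rw [← mul_assoc, hF g (m * mg) (1, 0) hadm1, hgood.torus.mul (m * mg) κ hm1 hadm.1, hχ,
      mul_one]
  · have hgu : ¬ InGPlus D.t D.n (g * u) := by
      rintro ⟨m', hm'⟩
      refine hg ⟨m' * κ⁻¹, inTorus_mul_h510 hm'.1 (inTorus_inv_h510 hadm.1), ?_⟩
      rw [map_mul, map_inv, ← hm'.2, map_mul, ← hadm.2, mul_inv_cancel_right]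
    rw [hW.off g hg, hW.off (g * u) hgu]

/-- **A2.03.7.3 ARCH-INV.** -/
theorem archInvC_h510 : H416.ArchInvC := by
  intro K _ _ D _ hgood W hW
  refine ⟨fun w z hz g => ?_, fun w k hk g => ?_⟩
  · obtain ⟨κ, hadm, hχ, hF⟩ := hgood.right_inv.arch_scalar w z hz
    exact whit_right_inv_h510 D hgood W hW z κ hadm hχ hF g
  · obtain ⟨κ, hadm, hχ, hF⟩ := hgood.right_inv.arch_compact w k hk
    exact whit_right_inv_h510 D hgood W hW k κ hadm hχ hF g

/-- The same for the level group (not asked by the leaf; same proof). -/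
theorem whit_level_inv_h510 (K : Type) [Field K] [NumberField K] (D : KData K)
    (hgood : D.Good) (W : A0.G K → ℂ) (hW : D.IsWhit W) (u : A0.G K)
    (hu : A0.InLevelGroup D.π.level u) (g : A0.G K) : W (g * u) = W g := by
  obtain ⟨κ, hadm, hχ, hF⟩ := hgood.right_inv.level u hu
  exact whit_right_inv_h510 D hgood W hW u κ hadm hχ hF g

end Fermat.Agent.LT.A2.H510

end

end
-- ===== PACK-END LT/A2/H510/ArchInv.lean

-- ===== PACK-BEGIN LT/A2/H569/BorelLoc.lean
section





/-!
# Row LT, tower A2, leaf A2.03.1.2 `WX467.BorelC` -- part 1 (helper569): local components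

OFF-MAIN.  Components of products, determinants and inverses of adelic matrices; local
admissibility from adelic admissibility; at almost all places the local factor of the product
family is `1` (`hasFiniteMulSupport_Ffin569`).  Reusable by the sibling leaves of the station
`A2.03.1` (helper467).
-/

set_option autoImplicit false

open IsDedekindDomain NumberField AutomorphicForm MeasureTheory
open scoped MatrixGroups Topology

noncomputable section

namespace Fermat.Agent.LT.A2.H569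

open Fermat.Agent.LT.H130 Fermat.Agent.LT.H556 Fermat.Agent.LT.A2 Fermat.Agent.LT.A2.WX467
open Fermat.Agent.LT.T1.H793

variable {K : Type} [Field K] [NumberField K]

/-! ## Components of matrices -/

theorem infMat_eq569 (u : InfinitePlace K) (g : A0.G K) :
    infMat u g = (g : Matrix (Fin 2) (Fin 2) (A0.Adl K)).map (projInf793 u) := rfl

theorem finComp_eq569 (v : HeightOneSpectrum (𝓞 K)) (g : A0.G K) :
    A0.finComp v g = (g : Matrix (Fin 2) (Fin 2) (A0.Adl K)).map (projFin793 v) := rfl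

theorem infMat_mul569 (u : InfinitePlace K) (g h : A0.G K) :
    infMat u (g * h) = infMat u g * infMat u h := by
  rw [infMat_eq569, infMat_eq569, infMat_eq569, Units.val_mul, Matrix.map_mul]

theorem finComp_mul569 (v : HeightOneSpectrum (𝓞 K)) (g h : A0.G K) :
    A0.finComp v (g * h) = A0.finComp v g * A0.finComp v h := by
  rw [finComp_eq569, finComp_eq569, finComp_eq569, Units.val_mul, Matrix.map_mul]

theorem infMat_one569 (u : InfinitePlace K) : infMat u (1 : A0.G K) = 1 := by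
  rw [infMat_eq569, Units.val_one, Matrix.map_one _ (map_zero _) (map_one _)]

theorem finComp_one569 (v : HeightOneSpectrum (𝓞 K)) : A0.finComp v (1 : A0.G K) = 1 := by
  rw [finComp_eq569, Units.val_one, Matrix.map_one _ (map_zero _) (map_one _)]

theorem infMat_inv569 (u : InfinitePlace K) (g : A0.G K) :
    infMat u g⁻¹ = (infMat u g)⁻¹ := by
  symm
  apply Matrix.inv_eq_right_inv
  rw [← infMat_mul569, mul_inv_cancel, infMat_one569]

theorem finComp_inv569 (v : HeightOneSpectrum (𝓞 K)) (g : A0.G K) :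
    A0.finComp v g⁻¹ = (A0.finComp v g)⁻¹ := by
  symm
  apply Matrix.inv_eq_right_inv
  rw [← finComp_mul569, mul_inv_cancel, finComp_one569]

theorem infMat_det569 (u : InfinitePlace K) (g : A0.G K) :
    (infMat u g).det = ((Matrix.GeneralLinearGroup.det g : (A0.Adl K)ˣ) : A0.Adl K).1 u := by
  rw [infMat_eq569, Matrix.GeneralLinearGroup.val_det_apply]
  exact ((projInf793 u).map_det _).symm

theorem finComp_det569 (v : HeightOneSpectrum (𝓞 K)) (g : A0.G K) :
    (A0.finComp v g).det = ((Matrix.GeneralLinearGroup.det g : (A0.Adl K)ˣ) : A0.Adl K).2 v := by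
  rw [finComp_eq569, Matrix.GeneralLinearGroup.val_det_apply]
  exact ((projFin793 v).map_det _).symm

/-- The components of an idele at the finite places are nonzero. -/
theorem fin_ne_zero569 (a : (A0.Adl K)ˣ) (v : HeightOneSpectrum (𝓞 K)) :
    (a : A0.Adl K).2 v ≠ 0 :=
  Fermat.Agent.LT.T1.H638.snd_ne_zero638 K a v

/-- The components of an idele at the infinite places are nonzero. -/
theorem inf_ne_zero569 (a : (A0.Adl K)ˣ) (u : InfinitePlace K) :
    (a : A0.Adl K).1 u ≠ 0 :=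
  Fermat.Agent.LT.T1.H638.fst_ne_zero638 K a u

theorem fin_inv569 (a : (A0.Adl K)ˣ) (v : HeightOneSpectrum (𝓞 K)) :
    ((a⁻¹ : (A0.Adl K)ˣ) : A0.Adl K).2 v = ((a : A0.Adl K).2 v)⁻¹ := by
  have h : (a : A0.Adl K).2 v * ((a⁻¹ : (A0.Adl K)ˣ) : A0.Adl K).2 v = 1 :=
    Fermat.Agent.LT.T1.H638.snd_mul_inv638 K a v
  exact eq_inv_of_mul_eq_one_right h

theorem inf_inv569 (a : (A0.Adl K)ˣ) (u : InfinitePlace K) :
    ((a⁻¹ : (A0.Adl K)ˣ) : A0.Adl K).1 u = ((a : A0.Adl K).1 u)⁻¹ := by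
  have h0 : (a : A0.Adl K) * ((a⁻¹ : (A0.Adl K)ˣ) : A0.Adl K) = 1 := a.mul_inv
  have h : (a : A0.Adl K).1 u * ((a⁻¹ : (A0.Adl K)ˣ) : A0.Adl K).1 u = 1 :=
    congrArg (fun y : A0.Adl K => y.1 u) h0
  exact eq_inv_of_mul_eq_one_right h

theorem infMat_det_ne_zero569 (u : InfinitePlace K) (g : A0.G K) : (infMat u g).det ≠ 0 := by
  rw [infMat_det569]
  exact inf_ne_zero569 _ u

theorem finComp_det_ne_zero569 (v : HeightOneSpectrum (𝓞 K)) (g : A0.G K) :
    (A0.finComp v g).det ≠ 0 := by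
  rw [finComp_det569]
  exact fin_ne_zero569 _ v

/-! ## The torus, admissible pairs -/

theorem torMat_map569 {R S : Type} [CommRing R] [CommRing S] (f : R →+* S) (t n a b : R) :
    (torMat t n a b).map f = torMat (f t) (f n) (f a) (f b) := by
  ext i j
  fin_cases i <;> fin_cases j <;> simp [torMat]

theorem inTorL_fin569 {t n : K} {m : A0.G K} (hm : InTorus t n m)
    (v : HeightOneSpectrum (𝓞 K)) :
    InTorL (algebraMap K (v.adicCompletion K) t) (algebraMap K (v.adicCompletion K) n)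
      (A0.finComp v m) := by
  obtain ⟨a, b, hab⟩ := hm
  refine ⟨a.2 v, b.2 v, ?_⟩
  rw [finComp_eq569, hab, torMat_map569]
  rfl

theorem inTorL_inf569 {t n : K} {m : A0.G K} (hm : InTorus t n m) (u : InfinitePlace K) :
    InTorL (algebraMap K u.Completion t) (algebraMap K u.Completion n) (infMat u m) := by
  obtain ⟨a, b, hab⟩ := hm
  refine ⟨a.1 u, b.1 u, ?_⟩
  rw [infMat_eq569, hab, torMat_map569]
  rfl

theorem admL_fin569 {t n : K} {g m : A0.G K} (h : Adm t n g m) (v : HeightOneSpectrum (𝓞 K)) :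
    AdmL (algebraMap K (v.adicCompletion K) t) (algebraMap K (v.adicCompletion K) n)
      (A0.finComp v g) (A0.finComp v m) := by
  refine ⟨inTorL_fin569 h.1 v, ?_, finComp_det_ne_zero569 v m⟩
  rw [finComp_det569, finComp_det569, h.2]

theorem admL_inf569 {t n : K} {g m : A0.G K} (h : Adm t n g m) (u : InfinitePlace K) :
    AdmL (algebraMap K u.Completion t) (algebraMap K u.Completion n)
      (infMat u g) (infMat u m) := by
  refine ⟨inTorL_inf569 h.1 u, ?_, infMat_det_ne_zero569 u m⟩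
  rw [infMat_det569, infMat_det569, h.2]

theorem inTorL_one569 {k : Type} [Field k] (t n : k) : InTorL t n (1 : Matrix (Fin 2) (Fin 2) k) := by
  refine ⟨1, 0, ?_⟩
  ext i j
  fin_cases i <;> fin_cases j <;> simp [torMat]

theorem admL_one569 {k : Type} [Field k] (t n : k) :
    AdmL t n (1 : Matrix (Fin 2) (Fin 2) k) 1 :=
  ⟨inTorL_one569 t n, rfl, by simp⟩

/-- The torus is stable under multiplication. -/
theorem torMat_mul569 {R : Type} [CommRing R] (t n a b a' b' : R) :
    torMat t n a b * torMat t n a' b'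
      = torMat t n (a * a' - n * (b * b')) (a * b' + b * a' + t * (b * b')) := by
  ext i j
  fin_cases i <;> fin_cases j <;> simp [torMat, Matrix.mul_apply, Fin.sum_univ_two] <;> ring

theorem inTorus_mul569 {t n : K} {m m' : A0.G K} (hm : InTorus t n m) (hm' : InTorus t n m') :
    InTorus t n (m * m') := by
  obtain ⟨a, b, hab⟩ := hm
  obtain ⟨a', b', hab'⟩ := hm'
  refine ⟨a * a' - algebraMap K (A0.Adl K) n * (b * b'),
    a * b' + b * a' + algebraMap K (A0.Adl K) t * (b * b'), ?_⟩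
  rw [Units.val_mul, hab, hab', torMat_mul569]

/-! ## Integrality at almost all places -/

theorem eventually_integral_adl569 (x : A0.Adl K) :
    ∀ᶠ v : HeightOneSpectrum (𝓞 K) in Filter.cofinite, x.2 v ∈ v.adicCompletionIntegers K :=
  x.2.2

theorem eventually_integral_gl569 (g : A0.G K) :
    ∀ᶠ v : HeightOneSpectrum (𝓞 K) in Filter.cofinite,
      ∀ i j : Fin 2, A0.finComp v g i j ∈ v.adicCompletionIntegers K := by
  rw [Filter.eventually_all]
  intro i
  rw [Filter.eventually_all]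
  intro j
  exact eventually_integral_adl569 ((g : Matrix (Fin 2) (Fin 2) (A0.Adl K)) i j)

theorem eventually_good569 (π : HeckeEigensystem K ℂ) :
    ∀ᶠ v : HeightOneSpectrum (𝓞 K) in Filter.cofinite, ¬ v.asIdeal ∣ π.level := by
  rw [Filter.eventually_cofinite]
  simp only [not_not]
  exact Ideal.finite_factors π.level_ne_bot

/-- An integral matrix with integral inverse is in the local level group at a place prime to
the level. -/
theorem inLevL_of_integral569 (𝔫 : Ideal (𝓞 K)) (v : HeightOneSpectrum (𝓞 K))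
    (hv : ¬ v.asIdeal ∣ 𝔫) (k : Matrix (Fin 2) (Fin 2) (v.adicCompletion K)) (hk0 : k.det ≠ 0)
    (hk : ∀ i j : Fin 2, k i j ∈ v.adicCompletionIntegers K)
    (hk' : ∀ i j : Fin 2, k⁻¹ i j ∈ v.adicCompletionIntegers K) : InLevL 𝔫 v k := by
  have hone : ∀ i j : Fin 2,
      (1 : Matrix (Fin 2) (Fin 2) (v.adicCompletion K)) i j ∈ v.adicCompletionIntegers K := by
    intro i j
    by_cases hij : i = j
    · rw [hij, Matrix.one_apply_eq]; exact one_mem _
    · rw [Matrix.one_apply_ne hij]; exact zero_mem _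
  refine ⟨hk0, fun i j => ⟨?_, ?_⟩⟩
  · apply Fermat.Agent.LT.T2.H566.integers_subset_idealClosure566 𝔫 v hv
    rw [Matrix.sub_apply]
    exact sub_mem (hk i j) (hone i j)
  · apply Fermat.Agent.LT.T2.H566.integers_subset_idealClosure566 𝔫 v hv
    rw [Matrix.sub_apply]
    exact sub_mem (hk' i j) (hone i j)

/-- **The local factor at a good place** for integral `g`, `m`, `ξ` is `1`. -/
theorem Ffin_eq_one569 (L : WData K) (hL : L.IsGood) (v : HeightOneSpectrum (𝓞 K))
    (hv : ¬ v.asIdeal ∣ L.π.level) {g m : A0.G K} (h : Adm L.t L.n g m)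
    (hg : ∀ i j : Fin 2, A0.finComp v g i j ∈ v.adicCompletionIntegers K)
    (hg' : ∀ i j : Fin 2, A0.finComp v g⁻¹ i j ∈ v.adicCompletionIntegers K)
    (hm : ∀ i j : Fin 2, A0.finComp v m i j ∈ v.adicCompletionIntegers K)
    (hm' : ∀ i j : Fin 2, A0.finComp v m⁻¹ i j ∈ v.adicCompletionIntegers K)
    (ξ : v.adicCompletion K × v.adicCompletion K)
    (hξ : ξ.1 ∈ v.adicCompletionIntegers K ∧ ξ.2 ∈ v.adicCompletionIntegers K) :
    L.Ffin v (A0.finComp v g) (A0.finComp v m) ξ = 1 := by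
  have hadm := admL_fin569 h v
  have hG := hL.good v hv
  have hF := hL.fin v
  have hk : InLevL L.π.level v (A0.finComp v g) := by
    apply inLevL_of_integral569 _ v hv _ (finComp_det_ne_zero569 v g) hg
    rw [← finComp_inv569]
    exact hg'
  have hκ : A0.finComp v m ∈ L.Tlev v := by
    rw [hG.tlev]
    refine ⟨hadm.1, hadm.2.2, hm, ?_⟩
    rw [← finComp_inv569]
    exact hm'
  have h1 := hF.right_inv (A0.finComp v g) (A0.finComp v m) hk hκ hadm.2.1 1 1 ξ
    (admL_one569 _ _)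
  rw [one_mul, one_mul] at h1
  rw [h1, hG.std]
  unfold stdFn
  rw [if_pos hξ]

/-- For an admissible pair and any vector the set of the places with local factor `≠ 1` is
contained in a finite set. -/
theorem eventually_Ffin_eq_one569 (L : WData K) (hL : L.IsGood) {g m : A0.G K}
    (h : Adm L.t L.n g m) (ξ : A0.Adl K × A0.Adl K) :
    ∀ᶠ v : HeightOneSpectrum (𝓞 K) in Filter.cofinite,
      L.Ffin v (A0.finComp v g) (A0.finComp v m) (finVec v ξ) = 1 := by
  filter_upwards [eventually_good569 L.π, eventually_integral_gl569 g,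
    eventually_integral_gl569 g⁻¹, eventually_integral_gl569 m, eventually_integral_gl569 m⁻¹,
    eventually_integral_adl569 ξ.1, eventually_integral_adl569 ξ.2]
    with v hv hg hg' hm hm' hξ1 hξ2
  exact Ffin_eq_one569 L hL v hv h hg hg' hm hm' _ ⟨hξ1, hξ2⟩

theorem hasFiniteMulSupport_Ffin569 (L : WData K) (hL : L.IsGood) {g m : A0.G K}
    (h : Adm L.t L.n g m) (ξ : A0.Adl K × A0.Adl K) :
    Function.HasFiniteMulSupport fun v : HeightOneSpectrum (𝓞 K) =>
      L.Ffin v (A0.finComp v g) (A0.finComp v m) (finVec v ξ) := by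
  have := eventually_Ffin_eq_one569 L hL h ξ
  rw [Filter.eventually_cofinite] at this
  exact this

end Fermat.Agent.LT.A2.H569

end
end
-- ===== PACK-END LT/A2/H569/BorelLoc.lean

-- ===== PACK-BEGIN LT/A2/H830/IwasawaGL2.lean
section


/-!
# Row LT, tower A2, sub-leaf A2.03.7.4 `IwasawaGL2C` (helper830), OFF-MAIN

`iwasawaGL2C830 : H416.IwasawaGL2C`
(frozen Prop of `Fermat/Agent/LT/A2/H416/MeanSpec.lean`, helper416@957b73407, sha256 `4437dde0…`).

Proof (direct, no reduction to determinant one).  For `M = [[a, b], [c, e]] ∈ GL₂(ℂ)` put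
`N = |c|² + |e|²`, `x = (b ē + a c̄) / N`, `y = |det M| / N`, `ρ = √N`, `B = [[y, x], [0, 1]] · ρ`
and `u = B⁻¹ M`.  Then `jpt M = (x, y)` by definition and `M Mᴴ = B Bᴴ` is the Lagrange identity
`(|a|² + |b|²)(|c|² + |e|²) = |a c̄ + b ē|² + |a e - b c|²`, so `u` is unitary.
-/

set_option autoImplicit false

open ComplexConjugate

noncomputable section

namespace Fermat.Agent.LT.A2.H830

open Fermat.Agent.LT.H556 Fermat.Agent.LT.A2 Fermat.Agent.LT.H470 Fermat.Agent.LT.A2.H416

/-- Entrywise form of the Lagrange identity for a general determinant. -/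
theorem lagrange830 (A B C D x σ y R : ℂ) (xb Ab Bb Cb Db : ℂ)
    (hR : R = C * Cb + D * Db) (hR0 : R ≠ 0) (hσ : σ * σ = R)
    (hy : y * y * (R * R) = (A * D - B * C) * (Ab * Db - Bb * Cb))
    (hx : x = (A * Cb + B * Db) / R) (hxb : xb = (Ab * C + Bb * D) / R) :
    A * Ab + B * Bb = σ * y * (σ * y) + σ * x * (σ * xb) ∧
    A * Cb + B * Db = σ * x * σ ∧
    C * Ab + D * Bb = σ * (σ * xb) ∧
    C * Cb + D * Db = σ * σ := by
  have hRx : R * x = A * Cb + B * Db := by rw [hx, mul_div_cancel₀ _ hR0]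
  have hRxb : R * xb = Ab * C + Bb * D := by rw [hxb, mul_div_cancel₀ _ hR0]
  refine ⟨?_, ?_, ?_, ?_⟩
  · have h1 : σ * y * (σ * y) + σ * x * (σ * xb) = (σ * σ) * (y * y + x * xb) := by ring
    rw [h1, hσ]
    have h2 : R * (R * (y * y + x * xb)) = R * (A * Ab + B * Bb) := by
      have h3 : R * (R * (y * y + x * xb)) = y * y * (R * R) + (R * x) * (R * xb) := by ring
      rw [h3, hy, hRx, hRxb, hR]
      ring
    exact (mul_left_cancel₀ hR0 h2).symm
  · have h1 : σ * x * σ = (σ * σ) * x := by ring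
    rw [h1, hσ, hRx]
  · have h1 : σ * (σ * xb) = (σ * σ) * xb := by ring
    rw [h1, hσ, hRxb]
    ring
  · rw [hσ, hR]

/-- The matrix of `[[y, x], [0, 1]] · ρ`. -/
theorem coe_upper_mul_scalar830 (x : ℂ) (y ρ : ℝ) (hy : y ≠ 0) (hρ : ρ ≠ 0) :
    ((T0.upperU x y hy * T0.scalarU ρ hρ : GL (Fin 2) ℂ) : Matrix (Fin 2) (Fin 2) ℂ)
      = !![(ρ : ℂ) * (y : ℂ), (ρ : ℂ) * x; 0, (ρ : ℂ)] := by
  rw [Matrix.GeneralLinearGroup.coe_mul, T0.coe_upperU, T0.coe_scalarU]
  ext i j
  fin_cases i <;> fin_cases j <;>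
    simp [Matrix.mul_apply, Matrix.diagonal_apply, mul_comm]

/-- `M Mᴴ = B Bᴴ`. -/
theorem mul_conjTranspose_eq830 (M : Matrix (Fin 2) (Fin 2) ℂ) (hdet : M.det ≠ 0) :
    M * M.conjTranspose
      = !![((Real.sqrt (jN (M 1 0) (M 1 1)) : ℝ) : ℂ)
            * ((‖M 0 0 * M 1 1 - M 0 1 * M 1 0‖ / jN (M 1 0) (M 1 1) : ℝ) : ℂ),
          ((Real.sqrt (jN (M 1 0) (M 1 1)) : ℝ) : ℂ)
            * ((M 0 1 * conj (M 1 1) + M 0 0 * conj (M 1 0)) / (jN (M 1 0) (M 1 1) : ℂ));
          0, ((Real.sqrt (jN (M 1 0) (M 1 1)) : ℝ) : ℂ)]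
        * (!![((Real.sqrt (jN (M 1 0) (M 1 1)) : ℝ) : ℂ)
            * ((‖M 0 0 * M 1 1 - M 0 1 * M 1 0‖ / jN (M 1 0) (M 1 1) : ℝ) : ℂ),
          ((Real.sqrt (jN (M 1 0) (M 1 1)) : ℝ) : ℂ)
            * ((M 0 1 * conj (M 1 1) + M 0 0 * conj (M 1 0)) / (jN (M 1 0) (M 1 1) : ℂ));
          0, ((Real.sqrt (jN (M 1 0) (M 1 1)) : ℝ) : ℂ)]).conjTranspose := by
  have hN : 0 < jN (M 1 0) (M 1 1) := jN_pos470 (row_ne_of_det_ne470 hdet)
  set N : ℝ := jN (M 1 0) (M 1 1) with hNdef
  set d : ℝ := ‖M 0 0 * M 1 1 - M 0 1 * M 1 0‖ with hd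
  have hNc : ((N : ℝ) : ℂ) ≠ 0 := Complex.ofReal_ne_zero.2 hN.ne'
  have hsq : ((Real.sqrt N : ℝ) : ℂ) * ((Real.sqrt N : ℝ) : ℂ) = (N : ℂ) := by
    rw [← Complex.ofReal_mul, Real.mul_self_sqrt hN.le]
  have hRdef : ((N : ℝ) : ℂ) = M 1 0 * conj (M 1 0) + M 1 1 * conj (M 1 1) := by
    rw [hNdef]
    unfold jN
    rw [Complex.mul_conj, Complex.mul_conj]
    push_cast
    ring
  have hsr : conj ((Real.sqrt N : ℝ) : ℂ) = ((Real.sqrt N : ℝ) : ℂ) := Complex.conj_ofReal _
  have hsy : conj (((d / N : ℝ)) : ℂ) = ((d / N : ℝ) : ℂ) := Complex.conj_ofReal _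
  have hsN : conj ((N : ℝ) : ℂ) = ((N : ℝ) : ℂ) := Complex.conj_ofReal _
  have hy : ((d / N : ℝ) : ℂ) * ((d / N : ℝ) : ℂ) * ((N : ℂ) * (N : ℂ))
      = (M 0 0 * M 1 1 - M 0 1 * M 1 0)
        * (conj (M 0 0) * conj (M 1 1) - conj (M 0 1) * conj (M 1 0)) := by
    have h1 : ((d / N : ℝ) : ℂ) * ((d / N : ℝ) : ℂ) * ((N : ℂ) * (N : ℂ)) = ((d * d : ℝ) : ℂ) := by
      push_cast
      field_simp
    have h2 : d * d = Complex.normSq (M 0 0 * M 1 1 - M 0 1 * M 1 0) := by
      rw [hd, Complex.normSq_eq_norm_sq]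
      ring
    rw [h1, h2, ← Complex.mul_conj]
    simp only [map_sub, map_mul]
  set x : ℂ := (M 0 1 * conj (M 1 1) + M 0 0 * conj (M 1 0)) / (N : ℂ) with hx
  have hx' : x = (M 0 0 * conj (M 1 0) + M 0 1 * conj (M 1 1)) / (N : ℂ) := by
    rw [hx, add_comm]
  have hxb : conj x = (conj (M 0 0) * M 1 0 + conj (M 0 1) * M 1 1) / (N : ℂ) := by
    rw [hx', map_div₀, hsN, map_add, map_mul, map_mul, Complex.conj_conj, Complex.conj_conj]
  obtain ⟨e00, e01, e10, e11⟩ := lagrange830 (M 0 0) (M 0 1) (M 1 0) (M 1 1) x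
    ((Real.sqrt N : ℝ) : ℂ) ((d / N : ℝ) : ℂ) ((N : ℝ) : ℂ) (conj x)
    (conj (M 0 0)) (conj (M 0 1)) (conj (M 1 0)) (conj (M 1 1)) hRdef hNc hsq hy hx' hxb
  ext i j
  fin_cases i <;> fin_cases j
  · simpa [Matrix.mul_apply, Fin.sum_univ_two, Matrix.conjTranspose_apply, hsr, hsy] using e00
  · simpa [Matrix.mul_apply, Fin.sum_univ_two, Matrix.conjTranspose_apply, hsr, hsy] using e01
  · simpa [Matrix.mul_apply, Fin.sum_univ_two, Matrix.conjTranspose_apply, hsr, hsy] using e10
  · simpa [Matrix.mul_apply, Fin.sum_univ_two, Matrix.conjTranspose_apply, hsr, hsy] using e11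

/-- **A2.03.7.4.**  The Iwasawa decomposition of `GL₂(ℂ)` with the point `M • j`. -/
theorem iwasawaGL2C830 : IwasawaGL2C := by
  intro M
  have hdet : (M : Matrix (Fin 2) (Fin 2) ℂ).det ≠ 0 := by
    have h := M.isUnit
    have h2 := (Matrix.isUnit_iff_isUnit_det _).1 h
    exact h2.ne_zero
  have hdet' : (M : Matrix (Fin 2) (Fin 2) ℂ) 0 0 * (M : Matrix (Fin 2) (Fin 2) ℂ) 1 1
      - (M : Matrix (Fin 2) (Fin 2) ℂ) 0 1 * (M : Matrix (Fin 2) (Fin 2) ℂ) 1 0 ≠ 0 := by
    rw [← Matrix.det_fin_two]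
    exact hdet
  have hN : 0 < jN ((M : Matrix (Fin 2) (Fin 2) ℂ) 1 0) ((M : Matrix (Fin 2) (Fin 2) ℂ) 1 1) :=
    jN_pos470 (row_ne_of_det_ne470 hdet)
  set N : ℝ := jN ((M : Matrix (Fin 2) (Fin 2) ℂ) 1 0) ((M : Matrix (Fin 2) (Fin 2) ℂ) 1 1)
    with hNdef
  set d : ℝ := ‖(M : Matrix (Fin 2) (Fin 2) ℂ) 0 0 * (M : Matrix (Fin 2) (Fin 2) ℂ) 1 1
      - (M : Matrix (Fin 2) (Fin 2) ℂ) 0 1 * (M : Matrix (Fin 2) (Fin 2) ℂ) 1 0‖ with hd
  have hdpos : 0 < d := norm_pos_iff.2 hdet'
  have hy : 0 < d / N := div_pos hdpos hN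
  have hρ : 0 < Real.sqrt N := Real.sqrt_pos.2 hN
  set x : ℂ := ((M : Matrix (Fin 2) (Fin 2) ℂ) 0 1 * conj ((M : Matrix (Fin 2) (Fin 2) ℂ) 1 1)
      + (M : Matrix (Fin 2) (Fin 2) ℂ) 0 0 * conj ((M : Matrix (Fin 2) (Fin 2) ℂ) 1 0)) / (N : ℂ)
    with hx
  set Bu : GL (Fin 2) ℂ := T0.upperU x (d / N) hy.ne' * T0.scalarU (Real.sqrt N) hρ.ne' with hBu
  refine ⟨x, d / N, Real.sqrt N, hy, hρ, Bu⁻¹ * M, ?_, ?_, ?_⟩
  · have hB : (Bu : Matrix (Fin 2) (Fin 2) ℂ)
        = !![((Real.sqrt N : ℝ) : ℂ) * ((d / N : ℝ) : ℂ), ((Real.sqrt N : ℝ) : ℂ) * x;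
            0, ((Real.sqrt N : ℝ) : ℂ)] :=
      coe_upper_mul_scalar830 x (d / N) (Real.sqrt N) hy.ne' hρ.ne'
    have hu : ((Bu⁻¹ * M : GL (Fin 2) ℂ) : Matrix (Fin 2) (Fin 2) ℂ)
        = ((Bu⁻¹ : GL (Fin 2) ℂ) : Matrix (Fin 2) (Fin 2) ℂ)
          * (M : Matrix (Fin 2) (Fin 2) ℂ) := rfl
    have hinv : ((Bu⁻¹ : GL (Fin 2) ℂ) : Matrix (Fin 2) (Fin 2) ℂ)
        * (Bu : Matrix (Fin 2) (Fin 2) ℂ) = 1 := by
      rw [← Matrix.GeneralLinearGroup.coe_mul, inv_mul_cancel]
      rfl
    have hMM : (M : Matrix (Fin 2) (Fin 2) ℂ) * (M : Matrix (Fin 2) (Fin 2) ℂ).conjTranspose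
        = (Bu : Matrix (Fin 2) (Fin 2) ℂ) * (Bu : Matrix (Fin 2) (Fin 2) ℂ).conjTranspose := by
      rw [hB]
      exact mul_conjTranspose_eq830 (M : Matrix (Fin 2) (Fin 2) ℂ) hdet
    rw [hu, Matrix.conjTranspose_mul, ← Matrix.mul_assoc,
      Matrix.mul_assoc ((Bu⁻¹ : GL (Fin 2) ℂ) : Matrix (Fin 2) (Fin 2) ℂ), hMM,
      ← Matrix.mul_assoc, hinv, Matrix.one_mul, ← Matrix.conjTranspose_mul, hinv,
      Matrix.conjTranspose_one]
  · rw [mul_inv_cancel_left]
  · rfl

end Fermat.Agent.LT.A2.H830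

end

end
-- ===== PACK-END LT/A2/H830/IwasawaGL2.lean

-- ===== PACK-BEGIN LT/A2/H904/LiftBddAlg.lean
section


/-!
# Row LT, tower A2, leaf A2.03.4 `WL.LiftBddC`: elements and algebra (helper904)

OFF-MAIN.  The diagonal elements `tSL a = diag(a, a⁻¹)`, `dOne a = diag(1, a)`, `cen a = diag(a, a)`
of `GL₂(𝔸_K)` for an idele `a`, the torus is closed under products, central elements lie in the
torus, and the idele `posId σ` (`σ` at every infinite place, `1` at the finite places) of a totally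
complex field.
-/

set_option autoImplicit false

open IsDedekindDomain NumberField AutomorphicForm MeasureTheory
open scoped MatrixGroups Topology

noncomputable section

namespace Fermat.Agent.LT.A2.H904

open Fermat.Agent.LT.H130 Fermat.Agent.LT.H556

variable {K : Type} [Field K] [NumberField K]

/-! ## Diagonal elements -/

/-- `diag(a, b)` for ideles `a`, `b`. -/
def dg (a b : (A0.Adl K)ˣ) : A0.G K :=
  ⟨!![(a : A0.Adl K), 0; 0, (b : A0.Adl K)],
    !![((a⁻¹ : (A0.Adl K)ˣ) : A0.Adl K), 0; 0, ((b⁻¹ : (A0.Adl K)ˣ) : A0.Adl K)],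
    by ext i j; fin_cases i <;> fin_cases j <;> simp [Matrix.mul_apply, Fin.sum_univ_two],
    by ext i j; fin_cases i <;> fin_cases j <;> simp [Matrix.mul_apply, Fin.sum_univ_two]⟩

theorem dg_val (a b : (A0.Adl K)ˣ) :
    ((dg a b : A0.G K) : Matrix (Fin 2) (Fin 2) (A0.Adl K))
      = !![(a : A0.Adl K), 0; 0, (b : A0.Adl K)] := rfl

theorem dg_mul (a b a' b' : (A0.Adl K)ˣ) : dg a b * dg a' b' = dg (a * a') (b * b') := by
  apply Units.ext
  ext i j
  fin_cases i <;> fin_cases j <;>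
    simp [dg_val, Matrix.mul_apply, Fin.sum_univ_two, Units.val_mul]

theorem dg_one : dg (1 : (A0.Adl K)ˣ) 1 = 1 := by
  apply Units.ext
  ext i j
  fin_cases i <;> fin_cases j <;> simp [dg_val]

theorem dg_inv (a b : (A0.Adl K)ˣ) : (dg a b)⁻¹ = dg a⁻¹ b⁻¹ := by
  rw [inv_eq_iff_mul_eq_one, dg_mul]
  simp [dg_one]

theorem det_dg (a b : (A0.Adl K)ˣ) : Matrix.GeneralLinearGroup.det (dg a b) = a * b := by
  apply Units.ext
  simp [Matrix.GeneralLinearGroup.val_det_apply, dg_val, Matrix.det_fin_two_of]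

/-- `t(a) = diag(a, a⁻¹)`. -/
def tSL (a : (A0.Adl K)ˣ) : A0.G K := dg a a⁻¹

/-- `d(a) = diag(1, a)`. -/
def dOne (a : (A0.Adl K)ˣ) : A0.G K := dg 1 a

/-- The scalar matrix `a`. -/
def cen (a : (A0.Adl K)ˣ) : A0.G K := dg a a

theorem isDiagSLA_tSL (a : (A0.Adl K)ˣ) : WL.IsDiagSLA (tSL a) a := rfl

theorem isDiagOneA_dOne (a : (A0.Adl K)ˣ) : WL.IsDiagOneA (dOne a) a := by
  unfold WL.IsDiagOneA dOne
  rw [dg_val]
  simp

theorem det_tSL (a : (A0.Adl K)ˣ) : Matrix.GeneralLinearGroup.det (tSL a) = 1 := by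
  rw [tSL, det_dg]; simp

theorem det_cen (a : (A0.Adl K)ˣ) : Matrix.GeneralLinearGroup.det (cen a) = a * a := by
  rw [cen, det_dg]

theorem det_dOne (a : (A0.Adl K)ˣ) : Matrix.GeneralLinearGroup.det (dOne a) = a := by
  rw [dOne, det_dg]; simp

theorem cen_eq (a : (A0.Adl K)ˣ) : cen a = tSL a * dOne (a * a) := by
  rw [cen, tSL, dOne, dg_mul]
  congr 1
  · simp
  · simp

theorem cen_mul (a b : (A0.Adl K)ˣ) : cen a * cen b = cen (a * b) := dg_mul a a b b

theorem cen_inv (a : (A0.Adl K)ˣ) : (cen a)⁻¹ = cen a⁻¹ := dg_inv a a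

/-- Scalar matrices are central. -/
theorem cen_comm (a : (A0.Adl K)ˣ) (g : A0.G K) : cen a * g = g * cen a := by
  apply Units.ext
  ext i j
  fin_cases i <;> fin_cases j <;>
    simp [cen, dg_val, Matrix.mul_apply, Fin.sum_univ_two, Units.val_mul, mul_comm]

/-- Diagonal matrices commute. -/
theorem dg_comm (a b a' b' : (A0.Adl K)ˣ) : dg a b * dg a' b' = dg a' b' * dg a b := by
  rw [dg_mul, dg_mul, mul_comm a, mul_comm b]

/-! ## The torus -/

theorem inTorus_mul {t n : K} {m m' : A0.G K} (h : InTorus t n m) (h' : InTorus t n m') :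
    InTorus t n (m * m') := by
  obtain ⟨a, b, hab⟩ := h
  obtain ⟨a', b', hab'⟩ := h'
  refine ⟨a * a' - algebraMap K (A0.Adl K) n * b * b',
    a * b' + b * a' + algebraMap K (A0.Adl K) t * b * b', ?_⟩
  rw [Units.val_mul, hab, hab']
  ext i j
  fin_cases i <;> fin_cases j <;>
    simp [torMat, Matrix.mul_apply, Fin.sum_univ_two] <;> ring

theorem inTorus_cen (t n : K) (a : (A0.Adl K)ˣ) : InTorus t n (cen a) := by
  refine ⟨(a : A0.Adl K), 0, ?_⟩
  rw [cen, dg_val]
  ext i j
  fin_cases i <;> fin_cases j <;> simp [torMat]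

theorem inTorus_one (t n : K) : InTorus t n (1 : A0.G K) := by
  have := inTorus_cen (K := K) t n 1
  rwa [cen, dg_one] at this

/-- The torus is commutative. -/
theorem inTorus_comm {t n : K} {m m' : A0.G K} (h : InTorus t n m) (h' : InTorus t n m') :
    m * m' = m' * m := by
  obtain ⟨a, b, hab⟩ := h
  obtain ⟨a', b', hab'⟩ := h'
  apply Units.ext
  rw [Units.val_mul, Units.val_mul, hab, hab']
  ext i j
  fin_cases i <;> fin_cases j <;>
    simp [torMat, Matrix.mul_apply, Fin.sum_univ_two] <;> ring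

/-- `actV` of a scalar matrix. -/
theorem actV_cen (a : (A0.Adl K)ˣ) (ξ : A0.Adl K × A0.Adl K) :
    actV (cen a) ξ = (a : A0.Adl K) • ξ := by
  unfold actV
  rw [cen, dg_val]
  ext <;> simp

theorem actV_cen_inv_smul (a : (A0.Adl K)ˣ) (ξ : A0.Adl K × A0.Adl K) :
    actV (cen a)⁻¹ ((a : A0.Adl K) • ξ) = ξ := by
  rw [cen_inv, actV_cen, smul_smul]
  simp

theorem actV_zero (m : A0.G K) : actV m (0 : A0.Adl K × A0.Adl K) = 0 := by
  unfold actV
  ext <;> simp

end Fermat.Agent.LT.A2.H904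

end

end
-- ===== PACK-END LT/A2/H904/LiftBddAlg.lean

-- ===== PACK-BEGIN LT/A2/H362/CharIntZero.lean
section



/-!
# Row LT, tower A2, sub-leaf A2.03.4.3 `H904.CharIntZeroC` (helper362), OFF-MAIN

The torus character `χT` is integrable on the fundamental domain `DT` of `T¹(K)` in `T¹(𝔸_K)` and
its integral vanishes.

Proof (as in the doc-comment of the Prop).  `‖χT‖ = 1` on the torus (`fin_order`), `χT` is
continuous on the torus, `DT` is Borel and of finite measure, so `χT` is integrable on `DT`.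
The countable group `Γ = T¹(K)` acts on `GL₂(𝔸_K)` by left translations preserving `μT`; `DT` and
`m' DT` (`m' ∈ T¹(𝔸_K)`) are fundamental domains (`dom_fund`, `carried`, commutativity of the
torus), and `1_{T¹} χT` is `Γ`-invariant, hence
`χT(m') ∫_{DT} χT = ∫_{m' DT} χT = ∫_{DT} χT`, and `χT(m') ≠ 1` for some `m'`.

No hole; Mathlib + the Spec closure (`LiftBddSpec.lean` of helper904, byte-identical copy).
The hypothesis `T1.LocCompC K` is not used.
-/

set_option autoImplicit false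

open IsDedekindDomain NumberField AutomorphicForm MeasureTheory
open scoped MatrixGroups Topology Pointwise

noncomputable section

namespace Fermat.Agent.LT.A2.H362

open Fermat.Agent.LT.H130 Fermat.Agent.LT.H556 Fermat.Agent.LT.A2

/-! ## Algebra of the torus matrices -/

section Algebra

variable {R : Type*} [CommRing R]

theorem torMat_mul362 (t n a b a' b' : R) :
    torMat t n a b * torMat t n a' b'
      = torMat t n (a * a' - n * b * b') (a * b' + a' * b + t * b * b') := by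
  unfold torMat
  ext i j
  fin_cases i <;> fin_cases j <;> simp [Matrix.mul_apply, Fin.sum_univ_two] <;> ring

theorem torMat_one362 (t n : R) : torMat t n 1 0 = 1 := by
  unfold torMat
  ext i j
  fin_cases i <;> fin_cases j <;> simp

theorem torMat_comm362 (t n a b a' b' : R) :
    torMat t n a b * torMat t n a' b' = torMat t n a' b' * torMat t n a b := by
  rw [torMat_mul362, torMat_mul362]
  congr 1 <;> ring

theorem torMat_det362 (t n a b : R) :
    (torMat t n a b).det = a ^ 2 + t * a * b + n * b ^ 2 := by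
  unfold torMat
  rw [Matrix.det_fin_two_of]
  ring

theorem torMat_mul_adj362 (t n a b : R) (h : (torMat t n a b).det = 1) :
    torMat t n a b * torMat t n (a + t * b) (-b) = 1 := by
  rw [torMat_det362] at h
  rw [torMat_mul362, ← torMat_one362 t n]
  congr 1
  · rw [← h]; ring
  · ring

end Algebra

/-! ## The torus inside `GL₂(𝔸_K)` -/

section Torus

variable {K : Type} [Field K] [NumberField K] (t n : K)

theorem det_val362 (m : A0.G K) :
    ((Matrix.GeneralLinearGroup.det m : (A0.Adl K)ˣ) : A0.Adl K)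
      = (m : Matrix (Fin 2) (Fin 2) (A0.Adl K)).det := rfl

theorem inTorus_one362 : InTorus t n (1 : A0.G K) :=
  ⟨1, 0, by rw [Units.val_one, torMat_one362]⟩

theorem inTorus_mul362 {m m' : A0.G K} (h : InTorus t n m) (h' : InTorus t n m') :
    InTorus t n (m * m') := by
  obtain ⟨a, b, hm⟩ := h
  obtain ⟨a', b', hm'⟩ := h'
  exact ⟨_, _, by rw [Units.val_mul, hm, hm', torMat_mul362]⟩

theorem inTorus_comm362 {m m' : A0.G K} (h : InTorus t n m) (h' : InTorus t n m') :
    m * m' = m' * m := by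
  obtain ⟨a, b, hm⟩ := h
  obtain ⟨a', b', hm'⟩ := h'
  apply Units.ext
  rw [Units.val_mul, Units.val_mul, hm, hm', torMat_comm362]

theorem inTorus1_one362 : InTorus1 t n (1 : A0.G K) :=
  ⟨inTorus_one362 t n, map_one _⟩

theorem inTorus1_mul362 {m m' : A0.G K} (h : InTorus1 t n m) (h' : InTorus1 t n m') :
    InTorus1 t n (m * m') :=
  ⟨inTorus_mul362 t n h.1 h'.1, by rw [map_mul, h.2, h'.2, one_mul]⟩

theorem inv_val_of_torus1_362 {m : A0.G K} {a b : A0.Adl K}
    (hm : (m : Matrix (Fin 2) (Fin 2) (A0.Adl K))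
      = torMat (algebraMap K (A0.Adl K) t) (algebraMap K (A0.Adl K) n) a b)
    (hdet : Matrix.GeneralLinearGroup.det m = 1) :
    ((m⁻¹ : A0.G K) : Matrix (Fin 2) (Fin 2) (A0.Adl K))
      = torMat (algebraMap K (A0.Adl K) t) (algebraMap K (A0.Adl K) n)
          (a + algebraMap K (A0.Adl K) t * b) (-b) := by
  have hd : (torMat (algebraMap K (A0.Adl K) t) (algebraMap K (A0.Adl K) n) a b).det = 1 := by
    rw [← hm, ← det_val362, hdet, Units.val_one]
  have h1 := torMat_mul_adj362 (algebraMap K (A0.Adl K) t) (algebraMap K (A0.Adl K) n) a b hd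
  rw [← hm] at h1
  exact Units.inv_eq_of_mul_eq_one_right h1

theorem inTorus1_inv362 {m : A0.G K} (h : InTorus1 t n m) : InTorus1 t n m⁻¹ := by
  obtain ⟨⟨a, b, hm⟩, hdet⟩ := h
  exact ⟨⟨_, _, inv_val_of_torus1_362 t n hm hdet⟩, by rw [map_inv, hdet, inv_one]⟩

theorem inTorusRat_inTorus362 {m : A0.G K} (h : InTorusRat t n m) : InTorus t n m := by
  obtain ⟨a, b, hm⟩ := h
  exact ⟨_, _, hm⟩

theorem inTorusRat_one362 : InTorusRat t n (1 : A0.G K) :=
  ⟨1, 0, by rw [Units.val_one, map_one, map_zero, torMat_one362]⟩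

theorem inTorusRat_mul362 {m m' : A0.G K} (h : InTorusRat t n m) (h' : InTorusRat t n m') :
    InTorusRat t n (m * m') := by
  obtain ⟨a, b, hm⟩ := h
  obtain ⟨a', b', hm'⟩ := h'
  refine ⟨a * a' - n * b * b', a * b' + a' * b + t * b * b', ?_⟩
  rw [Units.val_mul, hm, hm', torMat_mul362]
  simp only [map_sub, map_add, map_mul]

theorem inTorusRat_inv362 {m : A0.G K} (h : InTorusRat t n m)
    (hdet : Matrix.GeneralLinearGroup.det m = 1) : InTorusRat t n m⁻¹ := by
  obtain ⟨a, b, hm⟩ := h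
  refine ⟨a + t * b, -b, ?_⟩
  rw [inv_val_of_torus1_362 t n hm hdet]
  simp only [map_add, map_mul, map_neg]

/-- The group `Γ = T¹(K)` of the rational points of the norm-one torus. -/
def gamma362 : Subgroup (A0.G K) where
  carrier := {y | InTorusRat t n y ∧ InTorus1 t n y}
  mul_mem' := fun ha hb => ⟨inTorusRat_mul362 t n ha.1 hb.1, inTorus1_mul362 t n ha.2 hb.2⟩
  one_mem' := ⟨inTorusRat_one362 t n, inTorus1_one362 t n⟩
  inv_mem' := fun ha => ⟨inTorusRat_inv362 t n ha.1 ha.2.2, inTorus1_inv362 t n ha.2⟩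

theorem mem_gamma362 (y : A0.G K) :
    y ∈ gamma362 t n ↔ InTorusRat t n y ∧ InTorus1 t n y := Iff.rfl

instance countable_gamma362 : Countable (gamma362 t n) := by
  have hK : Countable K := Finsupp.Countable.of_moduleFinite (R := ℚ) (M := K)
  refine Set.countable_coe_iff.mpr ?_
  have hsub : ((gamma362 t n : Subgroup (A0.G K)) : Set (A0.G K)) ⊆
      (fun m : A0.G K => (m : Matrix (Fin 2) (Fin 2) (A0.Adl K))) ⁻¹'
        Set.range (fun p : K × K =>
          torMat (algebraMap K (A0.Adl K) t) (algebraMap K (A0.Adl K) n)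
            (algebraMap K (A0.Adl K) p.1) (algebraMap K (A0.Adl K) p.2)) := by
    rintro y ⟨⟨a, b, hy⟩, -⟩
    exact ⟨(a, b), hy.symm⟩
  refine Set.Countable.mono hsub ?_
  have := hK
  exact (Set.countable_range _).preimage_of_injOn (fun x _ y _ h => Units.ext h)

end Torus

/-! ## Measure theory -/

section Measure

variable {K : Type} [Field K] [NumberField K]

/-- The Borel `σ`-algebra of `GL₂(𝔸_K)` (LOCAL instance of this file; the one of the Spec). -/
local instance borelG362 : MeasurableSpace (A0.G K) := borel (A0.G K)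

local instance borelSpaceG362 : BorelSpace (A0.G K) := ⟨rfl⟩

theorem measurable_mulLeft362 (c : A0.G K) : Measurable (fun m : A0.G K => c * m) :=
  (continuous_const_mul c).measurable

theorem measurableEmbedding_mulLeft362 (c : A0.G K) :
    MeasurableEmbedding (fun m : A0.G K => c * m) :=
  (Homeomorph.mulLeft c).measurableEmbedding

theorem preimage_mulLeft362 (c : A0.G K) (s : Set (A0.G K)) :
    (fun m : A0.G K => c * m) ⁻¹' s = (fun m : A0.G K => c⁻¹ * m) '' s := by
  ext x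
  constructor
  · intro hx
    exact ⟨c * x, hx, inv_mul_cancel_left c x⟩
  · rintro ⟨y, hy, rfl⟩
    show c * (c⁻¹ * y) ∈ s
    rw [mul_inv_cancel_left]
    exact hy

variable (D : KData K)

theorem measurePreserving_mulLeft362 (hM : D.IsMeasured) {c : A0.G K}
    (hc : InTorus1 D.t D.n c) :
    MeasurePreserving (fun m : A0.G K => c * m) D.μT D.μT := by
  refine ⟨measurable_mulLeft362 c, ?_⟩
  refine Measure.ext fun s hs => ?_
  rw [Measure.map_apply (measurable_mulLeft362 c) hs, preimage_mulLeft362]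
  exact hM.inv c⁻¹ (inTorus1_inv362 D.t D.n hc) s

local instance measurableConstSMul362 : MeasurableConstSMul (gamma362 D.t D.n) (A0.G K) :=
  ⟨fun c => measurable_mulLeft362 (c : A0.G K)⟩

theorem smulInvariant362 (hM : D.IsMeasured) :
    SMulInvariantMeasure (gamma362 D.t D.n) (A0.G K) D.μT :=
  ⟨fun c s hs => by
    have h := (measurePreserving_mulLeft362 D hM c.2.2).measure_preimage hs.nullMeasurableSet
    exact h⟩

theorem ae_inTorus1_362 (hM : D.IsMeasured) : ∀ᵐ x ∂D.μT, InTorus1 D.t D.n x := by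
  have h := hM.carried
  rw [measure_eq_zero_iff_ae_notMem] at h
  filter_upwards [h] with x hx
  by_contra hcon
  exact hx hcon

/-- `m' DT` is a fundamental domain of `Γ = T¹(K)` for every `m' ∈ T¹(𝔸_K)`. -/
theorem isFundamentalDomain362 (hM : D.IsMeasured) {c : A0.G K} (hc : InTorus1 D.t D.n c) :
    IsFundamentalDomain (gamma362 D.t D.n) ((fun m : A0.G K => c * m) '' D.DT) D.μT where
  nullMeasurableSet :=
    ((measurableEmbedding_mulLeft362 c).measurableSet_image.2 hM.dom_meas).nullMeasurableSet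
  ae_covers := by
    filter_upwards [ae_inTorus1_362 D hM] with x hx
    have hx' : InTorus1 D.t D.n (c⁻¹ * x) :=
      inTorus1_mul362 D.t D.n (inTorus1_inv362 D.t D.n hc) hx
    obtain ⟨y, ⟨hy1, hy2, hy3⟩, -⟩ := hM.dom_fund (c⁻¹ * x) hx'
    refine ⟨⟨y, hy1, hy2⟩, y * (c⁻¹ * x), hy3, ?_⟩
    show c * (y * (c⁻¹ * x)) = y * x
    rw [← mul_assoc, inTorus_comm362 D.t D.n hc.1 hy2.1, mul_assoc, mul_inv_cancel_left]
  aedisjoint := by
    intro g g' hgg'
    refine Disjoint.aedisjoint (Set.disjoint_left.2 ?_)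
    rintro x ⟨_, ⟨d, hd, rfl⟩, hx1⟩ ⟨_, ⟨d', hd', rfl⟩, hx2⟩
    apply hgg'
    have hx1' : (g : A0.G K) * (c * d) = x := hx1
    have hx2' : (g' : A0.G K) * (c * d') = x := hx2
    have hgd : (g : A0.G K) * d = (g' : A0.G K) * d' := by
      have e1 : c * ((g : A0.G K) * d) = x := by
        rw [← mul_assoc, inTorus_comm362 D.t D.n hc.1 g.2.2.1, mul_assoc]
        exact hx1'
      have e2 : c * ((g' : A0.G K) * d') = x := by
        rw [← mul_assoc, inTorus_comm362 D.t D.n hc.1 g'.2.2.1, mul_assoc]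
        exact hx2'
      exact mul_left_cancel (e1.trans e2.symm)
    obtain ⟨y, -, huniq⟩ := hM.dom_fund d (hM.dom_sub d hd)
    have h1 : (1 : A0.G K) = y :=
      huniq 1 ⟨inTorusRat_one362 D.t D.n, inTorus1_one362 D.t D.n, by rw [one_mul]; exact hd⟩
    have hmem : ((g' : A0.G K)⁻¹ * (g : A0.G K)) ∈ gamma362 D.t D.n :=
      (gamma362 D.t D.n).mul_mem ((gamma362 D.t D.n).inv_mem g'.2) g.2
    have h2 : (g' : A0.G K)⁻¹ * (g : A0.G K) = y := by
      refine huniq _ ⟨hmem.1, hmem.2, ?_⟩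
      rw [mul_assoc, hgd, inv_mul_cancel_left]
      exact hd'
    apply Subtype.ext
    have h3 : (g' : A0.G K)⁻¹ * (g : A0.G K) = 1 := h2.trans h1.symm
    exact (inv_mul_eq_one.1 h3).symm

theorem image_one362 (S : Set (A0.G K)) : (fun m : A0.G K => (1 : A0.G K) * m) '' S = S := by
  simp only [one_mul, Set.image_id']

/-- The torus character cut off outside the norm-one torus: a `Γ`-invariant function. -/
def chiCut362 : A0.G K → ℂ := Set.indicator {m | InTorus1 D.t D.n m} D.χT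

theorem chiCut_of_mem362 {x : A0.G K} (hx : InTorus1 D.t D.n x) : chiCut362 D x = D.χT x :=
  Set.indicator_of_mem (s := {m | InTorus1 D.t D.n m}) hx D.χT

theorem chiCut_smul362 (hT : IsTorusChar D.t D.n D.χT) (g : gamma362 D.t D.n) (x : A0.G K) :
    chiCut362 D (g • x) = chiCut362 D x := by
  show chiCut362 D ((g : A0.G K) * x) = chiCut362 D x
  by_cases hx : InTorus1 D.t D.n x
  · rw [chiCut_of_mem362 D hx, chiCut_of_mem362 D (inTorus1_mul362 D.t D.n g.2.2 hx),
      hT.mul _ _ g.2.2.1 hx.1, hT.rat _ g.2.1, one_mul]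
  · have hgx : ¬ InTorus1 D.t D.n ((g : A0.G K) * x) := by
      intro h
      apply hx
      have := inTorus1_mul362 D.t D.n (inTorus1_inv362 D.t D.n g.2.2) h
      rwa [inv_mul_cancel_left] at this
    unfold chiCut362
    rw [Set.indicator_of_notMem (s := {m | InTorus1 D.t D.n m}) hx,
      Set.indicator_of_notMem (s := {m | InTorus1 D.t D.n m}) hgx]

theorem norm_chi362 (hT : IsTorusChar D.t D.n D.χT) {m : A0.G K} (hm : InTorus D.t D.n m) :
    ‖D.χT m‖ = 1 := by
  obtain ⟨k, hk, hpow⟩ := hT.fin_order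
  have h := hpow m hm
  have h1 : ‖D.χT m‖ ^ k = 1 := by rw [← norm_pow, h, norm_one]
  exact (pow_eq_one_iff_of_nonneg (norm_nonneg _) hk.ne').1 h1

theorem integrableOn_chi362 (hT : IsTorusChar D.t D.n D.χT) (hM : D.IsMeasured) :
    IntegrableOn D.χT D.DT D.μT := by
  obtain ⟨C, hC, hsub⟩ := hM.dom_compact
  have hfin : D.μT D.DT < ⊤ := lt_of_le_of_lt (measure_mono hsub) (hM.compact_lt C hC)
  have hcont : ContinuousOn D.χT D.DT :=
    hT.cont.mono fun m hm => (hM.dom_sub m hm).1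
  have hmeas : AEStronglyMeasurable D.χT (D.μT.restrict D.DT) :=
    hcont.aestronglyMeasurable hM.dom_meas
  have hfm : IsFiniteMeasure (D.μT.restrict D.DT) :=
    ⟨by rw [Measure.restrict_apply_univ]; exact hfin⟩
  refine Integrable.of_bound (μ := D.μT.restrict D.DT) hmeas 1 ?_
  rw [ae_restrict_iff' hM.dom_meas]
  exact Filter.Eventually.of_forall fun m hm => (norm_chi362 D hT (hM.dom_sub m hm).1).le

theorem setIntegral_chi_eq_zero362 (hT : IsTorusChar D.t D.n D.χT) (hM : D.IsMeasured) :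
    ∫ m in D.DT, D.χT m ∂D.μT = 0 := by
  obtain ⟨c, hc, hne⟩ := hT.nontriv
  have hinv := smulInvariant362 D hM
  have hfd1 : IsFundamentalDomain (gamma362 D.t D.n) D.DT D.μT := by
    have := isFundamentalDomain362 D hM (inTorus1_one362 D.t D.n)
    rwa [image_one362] at this
  have hfdc := isFundamentalDomain362 D hM hc
  -- the two domains carry the same integral of the cut-off character
  have h1 : ∫ m in D.DT, chiCut362 D m ∂D.μT
      = ∫ m in (fun m : A0.G K => c * m) '' D.DT, chiCut362 D m ∂D.μT :=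
    hfd1.setIntegral_eq hfdc (chiCut_smul362 D hT)
  have h2 : ∫ m in D.DT, chiCut362 D m ∂D.μT = ∫ m in D.DT, D.χT m ∂D.μT :=
    setIntegral_congr_fun hM.dom_meas fun m hm => chiCut_of_mem362 D (hM.dom_sub m hm)
  have h3 : ∫ m in (fun m : A0.G K => c * m) '' D.DT, chiCut362 D m ∂D.μT
      = ∫ m in D.DT, chiCut362 D (c * m) ∂D.μT :=
    (measurePreserving_mulLeft362 D hM hc).setIntegral_image_emb
      (measurableEmbedding_mulLeft362 c) _ _
  have h4 : ∫ m in D.DT, chiCut362 D (c * m) ∂D.μT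
      = ∫ m in D.DT, D.χT c * D.χT m ∂D.μT :=
    setIntegral_congr_fun hM.dom_meas fun m hm => by
      show chiCut362 D (c * m) = D.χT c * D.χT m
      rw [chiCut_of_mem362 D (inTorus1_mul362 D.t D.n hc (hM.dom_sub m hm)),
        hT.mul _ _ hc.1 (hM.dom_sub m hm).1]
  have h5 : ∫ m in D.DT, D.χT c * D.χT m ∂D.μT = D.χT c * ∫ m in D.DT, D.χT m ∂D.μT :=
    integral_const_mul _ _
  have key : ∫ m in D.DT, D.χT m ∂D.μT = D.χT c * ∫ m in D.DT, D.χT m ∂D.μT :=
    h2.symm.trans (h1.trans (h3.trans (h4.trans h5)))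
  have h6 : (1 - D.χT c) * ∫ m in D.DT, D.χT m ∂D.μT = 0 := by
    rw [sub_mul, one_mul, ← key, sub_self]
  rcases mul_eq_zero.1 h6 with h | h
  · exact absurd (sub_eq_zero.1 h).symm hne
  · exact h

end Measure

/-- **A2.03.4.3 CHAR-INT-ZERO.** -/
theorem charIntZeroC362 : H904.CharIntZeroC := by
  intro K _ _ D _ hG
  exact ⟨integrableOn_chi362 D hG.torus hG.measured,
    setIntegral_chi_eq_zero362 D hG.torus hG.measured⟩

end Fermat.Agent.LT.A2.H362

end

end
-- ===== PACK-END LT/A2/H362/CharIntZero.lean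

-- ===== PACK-BEGIN LT/T1/H729/Red/Top.lean
section





/-!
# Row LT, tower T1, leaf T1.14 (helper729): REDUCTION THEORY, covering

OFF-MAIN.  `leafReduction_of_scale729 K : ScaleC729 K → T1.LeafReduction K`, i.e. the sub-leaf
T1.14 of `LT/T1/Spec.lean` (helper54) from the asset SCALE (helper849): Haar measures of `𝔸_K`
scale by the module under multiplication by ideles.

Proof (adelic Minkowski): `g = b k` (Iwasawa), `b = [[u₁, x], [0, u₂]]`.  The sheared box
`{(r₁, r₂) : r₁ u₁ ∈ I_λ, r₁ x + r₂ u₂ ∈ I_λ}` has measure `λ^{2n} vol(I)² / (‖u₁‖ ‖u₂‖)`; for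
`λ^{2n} = 2 vol(D)² ‖u₁‖ ‖u₂‖ / vol(I)²` Blichfeldt gives `(c, d) ≠ 0` in `K²` with
`(c, d) b ∈ (I_λ - I_λ)²`.  For `γ` with bottom row `(c, d)` and `γ g = b' k'` one gets
`‖b'₁₁‖ ≤ (4 λ)^n` and `‖b'₀₀‖ ‖b'₁₁‖ = ‖u₁‖ ‖u₂‖`, hence
`H(γ g) ≥ ‖u₁‖ ‖u₂‖ / (4 λ)^{2n} = vol(I)² / (2 · 16^n · vol(D)²)`.
-/

set_option autoImplicit false

open IsDedekindDomain NumberField MeasureTheory
open Fermat.Agent.LT.H556.A0

noncomputable section

namespace Fermat.Agent.LT.T1.H729

set_option linter.unusedSectionVars false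

variable (K : Type) [Field K] [NumberField K]

/-- **T1.14 from the asset SCALE.** -/
theorem leafReduction_of_scale729 (hScale : ScaleC729 K) :
    Fermat.Agent.LT.T1.LeafReduction K := by
  intro hLC _hAL hFD _hN hI _hH
  obtain ⟨⟨hlc, _ht2, hsc⟩, -⟩ := hLC
  have := hlc
  have := hsc
  let _ : MeasurableSpace (Adl K) := borel (Adl K)
  have : BorelSpace (Adl K) := ⟨rfl⟩
  set μ : Measure (Adl K) := Measure.addHaar with hμ
  obtain ⟨D, hDm, hD, -, hD0, hDtop⟩ := hFD μ inferInstance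
  obtain ⟨I, hIo, hI0, hItop, hIbox⟩ := exists_box729 K μ
  set n := Module.finrank ℚ K with hn
  have hddpos : 0 < (μ D).toReal := ENNReal.toReal_pos hD0.ne' hDtop.ne
  have hiipos : 0 < (μ I).toReal := ENNReal.toReal_pos hI0 hItop
  refine ⟨(μ I).toReal ^ 2 / (2 * 16 ^ n * (μ D).toReal ^ 2), by positivity, fun g => ?_⟩
  obtain ⟨b, k, hb, hk, hg⟩ := hI g
  obtain ⟨hU₁, hU₂⟩ := isUnit_diag_of_isUpper729 K hb
  obtain ⟨u₁, hu₁⟩ := hU₁
  obtain ⟨u₂, hu₂⟩ := hU₂
  obtain ⟨c, d, lam, hcd, hlam, hlampow, hb1, hb2⟩ :=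
    exists_small_row729 K μ (hScale μ inferInstance) hDm hD hD0.ne' hDtop.ne hIo hI0 hItop hIbox
      u₁ u₂ ((b : Matrix (Fin 2) (Fin 2) (Adl K)) 0 1)
  obtain ⟨γ, hγ0, hγ1⟩ := exists_gl2_row729 K c d hcd
  obtain ⟨b', k', hb', hk', hg'⟩ := hI (Fermat.Agent.LT.T1.ratG K γ * g)
  refine ⟨γ, Fermat.Agent.LT.T1.adNorm K ((b' : Matrix (Fin 2) (Fin 2) (Adl K)) 0 0) /
      Fermat.Agent.LT.T1.adNorm K ((b' : Matrix (Fin 2) (Fin 2) (Adl K)) 1 1),
    ⟨b', k', hb', hk', hg', rfl⟩, ?_⟩
  rw [hu₁] at hb1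
  rw [hu₂] at hb2
  rw [hu₁, hu₂] at hlampow
  rw [← hγ0] at hb1 hb2
  rw [← hγ1] at hb2
  have hbound := height_lower_bound729 K g b k hb hk hg γ lam hlam hb1 hb2 b' k' hb' hk' hg'
  refine le_trans (le_of_eq ?_) hbound
  -- the constant
  have hP₁ : 0 < Fermat.Agent.LT.T1.adNorm K ((b : Matrix (Fin 2) (Fin 2) (Adl K)) 0 0) := by
    rw [← hu₁]
    exact adNorm_pos729 K u₁
  have hP₂ : 0 < Fermat.Agent.LT.T1.adNorm K ((b : Matrix (Fin 2) (Fin 2) (Adl K)) 1 1) := by
    rw [← hu₂]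
    exact adNorm_pos729 K u₂
  have h4 : (4 * lam) ^ (2 * n) = 16 ^ n * lam ^ (2 * n) := by
    rw [mul_pow, pow_mul]
    norm_num
  rw [h4, hlampow]
  have hP₁ne := hP₁.ne'
  have hP₂ne := hP₂.ne'
  have hdne := hddpos.ne'
  have hine := hiipos.ne'
  field_simp

end Fermat.Agent.LT.T1.H729

end
end
-- ===== PACK-END LT/T1/H729/Red/Top.lean

-- ===== PACK-BEGIN LT/T2/H557/CutWhit.lean
section


/-!
# Row LT, tower T2, station T2.10 (`SMO_AA`), leaf T2.10.10 `CutoffC` (helper557), OFF-MAIN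

Part 5 (the Whittaker coefficient).
* `wh_lin557` : `W` is linear in finite combinations of right translates;
* `wh_rt_unip557` : `W_{R(n(u)) Φ}(diag(y,1) g) = ψ(y u) W_Φ(diag(y,1) g)` (`u` at `v`, `g` trivial
  at `v`);
* `wh_support557` : `W_Φ(diag(y,1) g) = 0` unless `ψ_v(y 𝔪 𝒪_v) = 1`;
* `wh_orbit557` : `W_Φ(diag(y,1) g)` is constant on the orbits of the torus of `U(𝔪)_v`.
-/

set_option autoImplicit false
set_option linter.unusedSectionVars false
set_option linter.style.haveILetI false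

open IsDedekindDomain NumberField MeasureTheory
open Fermat.Agent.LT.H556.A0
open Fermat.Agent.LT.T2.H941 Fermat.Agent.LT.T2.H333 Fermat.Agent.LT.T3.H237

noncomputable section

namespace Fermat.Agent.LT.T2.H557

variable {K : Type} [Field K] [NumberField K]

theorem circle_conj_mul557 (z : Circle) : (starRingEnd ℂ) (z : ℂ) * (z : ℂ) = 1 := by
  rw [← Circle.coe_inv_eq_conj, ← Circle.coe_mul, inv_mul_cancel, Circle.coe_one]

section Meas

variable [MeasurableSpace (Adl K)] [BorelSpace (Adl K)]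

theorem continuous_whInt557 {ψ : AddChar (Adl K) Circle} (hψ : Continuous ψ) {Φ : G K → ℂ}
    (hΦ : Continuous Φ) (g : G K) :
    Continuous (fun x : Adl K => Φ (T3.unip K x * g) * (starRingEnd ℂ) ((ψ x : Circle) : ℂ)) := by
  have h1 : Continuous (fun x : Adl K => T3.unip K x * g) :=
    (continuous_unip237 K).mul continuous_const
  exact (hΦ.comp h1).mul (Complex.continuous_conj.comp (continuous_subtype_val.comp hψ))

theorem integrableOn_whInt557 {ψ : AddChar (Adl K) Circle} (hψ : Continuous ψ)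
    {ν : Measure (Adl K)} {D : Set (Adl K)} (hD : ν D < ⊤) {Φ : G K → ℂ}
    (hΦ : Continuous Φ) (hb : ∃ C : ℝ, ∀ g : G K, ‖Φ g‖ ≤ C) (g : G K) :
    IntegrableOn
      (fun x : Adl K => Φ (T3.unip K x * g) * (starRingEnd ℂ) ((ψ x : Circle) : ℂ)) D ν := by
  obtain ⟨C, hC⟩ := hb
  refine Measure.integrableOn_of_bounded (M := C) hD.ne
    (continuous_whInt557 hψ hΦ g).aestronglyMeasurable ?_
  filter_upwards with x
  rw [norm_mul, RCLike.norm_conj, Circle.norm_coe, mul_one]
  exact hC _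

/-- `W` of a finite combination of right translates. -/
theorem wh_lin557 {ψ : AddChar (Adl K) Circle} (hψ : Continuous ψ)
    {ν : Measure (Adl K)} {D : Set (Adl K)} (hD : ν D < ⊤) {Φ : G K → ℂ}
    (hΦ : Continuous Φ) (hb : ∃ C : ℝ, ∀ g : G K, ‖Φ g‖ ≤ C)
    {n : ℕ} (c : Fin n → ℂ) (p : Fin n → G K) (g : G K) :
    wh ψ ν D (lin c p Φ) g = ∑ i, c i * wh ψ ν D (rt (p i) Φ) g := by
  unfold wh
  have h1 : ∀ x : Adl K, lin c p Φ (T3.unip K x * g) * (starRingEnd ℂ) ((ψ x : Circle) : ℂ)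
      = ∑ i, c i * (rt (p i) Φ (T3.unip K x * g) * (starRingEnd ℂ) ((ψ x : Circle) : ℂ)) := by
    intro x
    unfold lin rt
    rw [Finset.sum_mul]
    refine Finset.sum_congr rfl fun i _ => ?_
    ring
  simp_rw [h1]
  have hint : ∀ i ∈ (Finset.univ : Finset (Fin n)), Integrable
      (fun x : Adl K => c i * (rt (p i) Φ (T3.unip K x * g)
        * (starRingEnd ℂ) ((ψ x : Circle) : ℂ))) (ν.restrict D) := by
    intro i _
    have hc : Continuous (rt (p i) Φ) := hΦ.comp (continuous_mul_const (p i))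
    have hb' : ∃ C : ℝ, ∀ g : G K, ‖rt (p i) Φ g‖ ≤ C := by
      obtain ⟨C, hC⟩ := hb
      exact ⟨C, fun g => hC _⟩
    exact (integrableOn_whInt557 hψ hD hc hb' g).integrable.const_mul (c i)
  rw [integral_finsetSum _ hint]
  refine Finset.sum_congr rfl fun i _ => ?_
  exact integral_const_mul _ _

/-- THE TRANSFORMATION FORMULA. -/
theorem wh_rt_unip557 {ψ : AddChar (Adl K) Circle} {ν : Measure (Adl K)} {D : Set (Adl K)}
    (hdata : IsWhitData ψ ν D) {Φ : G K → ℂ}
    (hleft : ∀ (γ : GL (Fin 2) K) (g : G K), Φ (T1.ratG K γ * g) = Φ g)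
    {v : HeightOneSpectrum (𝓞 K)} (y : (Adl K)ˣ) {g : G K} (hg : TrivAtFin v g)
    (u : v.adicCompletion K) :
    wh ψ ν D (rt (T3.unip K (loc557 v u)) Φ) (tor y * g)
      = ((ψ ((y : Adl K) * loc557 v u) : Circle) : ℂ) * wh ψ ν D Φ (tor y * g) := by
  obtain ⟨hstd, -, -, hhaar, -, hfd, -⟩ := hdata
  haveI := hhaar
  have hcomm : T3.unip K (loc557 v u) * g = g * T3.unip K (loc557 v u) :=
    comm_of_local_triv333 (isUnipAt_unip_loc557 v u).1 hg
  have hkey : ∀ x : Adl K, T3.unip K x * (tor y * g) * T3.unip K (loc557 v u)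
      = T3.unip K (x + (y : Adl K) * loc557 v u) * (tor y * g) := by
    intro x
    calc T3.unip K x * (tor y * g) * T3.unip K (loc557 v u)
        = T3.unip K x * (tor y * (g * T3.unip K (loc557 v u))) := by group
      _ = T3.unip K x * (tor y * (T3.unip K (loc557 v u) * g)) := by rw [hcomm]
      _ = T3.unip K x * ((tor y * T3.unip K (loc557 v u)) * g) := by group
      _ = T3.unip K x * ((T3.unip K ((y : Adl K) * loc557 v u) * tor y) * g) := by
          rw [tor_mul_unip557]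
      _ = T3.unip K (x + (y : Adl K) * loc557 v u) * (tor y * g) := by
          rw [unip_add237]
          group
  have hper : IsPer237 K (fun x : Adl K =>
      Φ (T3.unip K x * (tor y * g)) * (starRingEnd ℂ) ((ψ x : Circle) : ℂ)) := by
    intro ξ x
    show Φ (T3.unip K (x + algebraMap K (Adl K) ξ) * (tor y * g))
        * (starRingEnd ℂ) ((ψ (x + algebraMap K (Adl K) ξ) : Circle) : ℂ)
      = Φ (T3.unip K x * (tor y * g)) * (starRingEnd ℂ) ((ψ x : Circle) : ℂ)
    have e1 : T3.unip K (x + algebraMap K (Adl K) ξ) * (tor y * g)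
        = T1.ratG K (nK237 K ξ) * (T3.unip K x * (tor y * g)) := by
      rw [add_comm, unip_add237, unip_emb237, mul_assoc]
      rfl
    have e2 : ψ (x + algebraMap K (Adl K) ξ) = ψ x := by
      rw [AddChar.map_add_eq_mul, hstd.triv ξ, mul_one]
    rw [e1, hleft, e2]
  have hint : ∀ x : Adl K, rt (T3.unip K (loc557 v u)) Φ (T3.unip K x * (tor y * g))
        * (starRingEnd ℂ) ((ψ x : Circle) : ℂ)
      = (fun x : Adl K => Φ (T3.unip K x * (tor y * g))
          * (starRingEnd ℂ) ((ψ x : Circle) : ℂ)) (x + (y : Adl K) * loc557 v u)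
        * ((ψ ((y : Adl K) * loc557 v u) : Circle) : ℂ) := by
    intro x
    show Φ (T3.unip K x * (tor y * g) * T3.unip K (loc557 v u))
        * (starRingEnd ℂ) ((ψ x : Circle) : ℂ)
      = Φ (T3.unip K (x + (y : Adl K) * loc557 v u) * (tor y * g))
          * (starRingEnd ℂ) ((ψ (x + (y : Adl K) * loc557 v u) : Circle) : ℂ)
        * ((ψ ((y : Adl K) * loc557 v u) : Circle) : ℂ)
    rw [hkey, AddChar.map_add_eq_mul, Circle.coe_mul, map_mul, mul_assoc, mul_assoc,
      circle_conj_mul557, mul_one]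
  unfold wh
  simp_rw [hint]
  rw [integral_mul_const, setIntegral_add_right237 K ν D hfd _ hper, mul_comm]

/-- THE SUPPORT of the Whittaker coefficient of a function of level `U(𝔪)`. -/
theorem wh_support557 {ψ : AddChar (Adl K) Circle} {ν : Measure (Adl K)} {D : Set (Adl K)}
    (hdata : IsWhitData ψ ν D) {Φ : G K → ℂ}
    (hleft : ∀ (γ : GL (Fin 2) K) (g : G K), Φ (T1.ratG K γ * g) = Φ g)
    {𝔪 : Ideal (𝓞 K)} (hΦ : IsLevel 𝔪 Φ) {v : HeightOneSpectrum (𝓞 K)} {e : ℕ}
    (hC : ∀ x : v.adicCompletion K,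
      x ∈ idealClosure 𝔪 v ↔ Valued.v x ≤ WithZero.exp (-(e : ℤ)))
    (y : (Adl K)ˣ) {g : G K} (hg : TrivAtFin v g)
    {t : v.adicCompletion K} (ht : Valued.v t ≤ WithZero.exp (-(e : ℤ)))
    (hψt : ψ ((y : Adl K) * loc557 v t) ≠ 1) :
    wh ψ ν D Φ (tor y * g) = 0 := by
  have h1 : rt (T3.unip K (loc557 v t)) Φ = Φ := by
    funext x
    exact hΦ _ (inLevelGroup_unip557 hC ht) x
  have h2 := wh_rt_unip557 hdata hleft y hg t
  rw [h1] at h2
  have h3 : (1 - ((ψ ((y : Adl K) * loc557 v t) : Circle) : ℂ)) * wh ψ ν D Φ (tor y * g) = 0 := by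
    linear_combination h2
  rcases mul_eq_zero.mp h3 with h | h
  · exact absurd (Circle.coe_eq_one.mp (sub_eq_zero.mp h).symm) hψt
  · exact h

end Meas

/-- ORBIT INVARIANCE of the Whittaker coefficient of a function of level `U(𝔪)`. -/
theorem wh_orbit557 {ψ : AddChar (Adl K) Circle} {m : MeasurableSpace (Adl K)}
    {ν : Measure (Adl K)} {D : Set (Adl K)} {Φ : G K → ℂ}
    {𝔪 : Ideal (𝓞 K)} (hΦ : IsLevel 𝔪 Φ) {v : HeightOneSpectrum (𝓞 K)}
    {y y₀ : (Adl K)ˣ} (hy : IsIdeleAtFin v y) (hy₀ : IsIdeleAtFin v y₀)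
    (horb : InOrbit 𝔪 v y y₀) {g : G K} (hg : TrivAtFin v g) :
    wh ψ ν D Φ (tor y * g) = wh ψ ν D Φ (tor y₀ * g) := by
  have hz : IsIdeleAtFin v (y * y₀⁻¹) := isIdeleAtFin_mul557 hy (isIdeleAtFin_inv557 hy₀)
  have hinv : (y * y₀⁻¹)⁻¹ = y₀ * y⁻¹ := by
    rw [mul_inv_rev, inv_inv]
  have hlev : InLevelGroup 𝔪 (tor (y * y₀⁻¹)) := by
    refine inLevelGroup_tor557 hz horb.1 ?_
    rw [hinv]
    exact horb.2
  have hcomm : tor (y * y₀⁻¹) * g = g * tor (y * y₀⁻¹) :=
    comm_of_local_triv333 (isLocalAtFin_tor557 hz) hg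
  have hy' : y = y₀ * (y * y₀⁻¹) := by
    rw [mul_comm y, mul_inv_cancel_left]
  have e1 : tor y * g = tor y₀ * g * tor (y * y₀⁻¹) := by
    conv_lhs => rw [hy']
    rw [tor_mul557, mul_assoc, hcomm, mul_assoc]
  unfold wh
  congr 1
  funext x
  rw [e1, ← mul_assoc, hΦ _ hlev]

end Fermat.Agent.LT.T2.H557

end

end
-- ===== PACK-END LT/T2/H557/CutWhit.lean

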