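import Mathlib
import Fermat.Agent.Pack.LT2.E12L2
import Fermat.Agent.Pack.LT2.E13L2
import Fermat.Agent.Pack.LT2.E13L3
import Fermat.Agent.Pack.LT2.E13L0
import Fermat.Agent.Pack.LT2.E6L0
import Fermat.Agent.Pack.LT2.E1L3
import Fermat.Agent.Pack.LT2.E14L1

set_option linter.all false

-- ===== PACK-BEGIN LT/T2/H23/TorusMatch.lean
section





/-!
# Row LT, tower T2, station T2.10, leaf T2.10.11 `TorusMatchC` (helper23): THE ASSEMBLY

OFF-MAIN.  `leaf11_23 (K) : Fermat.Agent.LT.T2.H941.Leaf11 K`, verbatim against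
`LT/T2/H941/SmoSpec.lean` v2 (sha256 14c4d13ef051, helper941@3ff5e4e6b).

## The argument

`S` = `v₀`, the primes of the two levels, the places where the eigenvalues differ, the places where
`ψ` is ramified.  `W_f = wh ψ ν D f`.

1. (`Factor.lean`, `Local.lean`)  For an idele `Z` which is trivial on `S` there is a factor `Λ`
   with `W_φ(t(Z) g) = Λ W_φ(g)` and `W_φ'(t(Z) g) = Λ W_φ'(g)` for all `g` supported in `S`
   (`UnramTorusC` with the conductor point `1`, `ArchTorusC`, `ArchTorusRealC` and the parity, the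
   invariance under `U(𝔫)` for the unit part).
2. `ExtendC` gives `y*`, `y*'` with `W_φ(t(y*)) ≠ 0`, `W_φ'(t(y*')) ≠ 0`; the component at `v₀` is
   replaced by a conductor point (`UnramTorusC` at `v₀`), the components outside `S` are removed
   (step 1): ideles `y₀`, `y₁` supported in `S`, equal to the conductor point at `v₀`.
   `τ = y₁ / y₀`, `f₂ = c₀ R(t(τ)) φ'` with `c₀ = W_φ(t(y₀)) / W_φ'(t(y₁))`: then
   `W_{f₂}(t(y₀)) = W_φ(t(y₀))`, and `φ`, `f₂` have a common level `𝔪₀` prime to `v₀`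
   (`Level.lean`).
3. (`Chain.lean`)  The cut-off at the places of `S ∖ {v₀}` and then at `v₀`, for the level `𝔪₀` and
   the point `y₀`, is ONE operator `A = lin c g`; `W_{A f}(t(Y)) = [P(Y)] W_f(t(y₀))` for every
   `f` of level `𝔪₀` and every `Y` supported in `S`.  So `Φ = A φ`, `Φ' = A f₂` have the same
   Whittaker coefficient on the torus (steps 1 and 3), not zero at `t(y₀)`.
-/

set_option autoImplicit false
set_option linter.unusedSectionVars false
set_option linter.unusedVariables false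
set_option linter.style.haveILetI false
set_option maxHeartbeats 1600000

open IsDedekindDomain NumberField IsDedekindDomain.HeightOneSpectrum MeasureTheory AutomorphicForm
open Fermat.Agent.LT.H556.A0
open scoped MatrixGroups

noncomputable section

namespace Fermat.Agent.LT.T2.H23

open Fermat.Agent.LT Fermat.Agent.LT.T2.H941 Fermat.Agent.LT.T2 Fermat.Agent.LT.A2

variable {K : Type} [Field K] [NumberField K]

/-- An element of valuation `exp d` from an element of valuation `exp (d + 1)`. -/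
theorem exists_unit_val23 (v : HeightOneSpectrum (𝓞 K)) (d : ℤ) (ξ : v.adicCompletion K)
    (hξ : Valued.v ξ = WithZero.exp (d + 1)) :
    ∃ s : (v.adicCompletion K)ˣ, Valued.v (s : v.adicCompletion K) = WithZero.exp d := by
  obtain ⟨ϖ, hϖ⟩ := valuation_exists_uniformizer K v
  have h1 : Valued.v ((ϖ : K) : v.adicCompletion K) = WithZero.exp (-1 : ℤ) := by
    rw [valuedAdicCompletion_eq_valuation', hϖ]
  have h2 : Valued.v (ξ * ((ϖ : K) : v.adicCompletion K)) = WithZero.exp d := by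
    rw [map_mul, hξ, h1, ← WithZero.exp_add]
    congr 1
    ring
  have h3 : ξ * ((ϖ : K) : v.adicCompletion K) ≠ 0 := by
    intro h
    rw [h, map_zero] at h2
    exact WithZero.exp_ne_zero h2.symm
  exact ⟨Units.mk0 _ h3, h2⟩

/-- The cut-off of `CutoffC` in the form of `Chain.lean`. -/
theorem cutProp_of23 (hC : CutoffC K) (hE : CondExistsC K) :
    letI : MeasurableSpace (Adl K) := borel (Adl K)
    ∀ (ψ : AddChar (Adl K) Circle) (ν : Measure (Adl K)) (D : Set (Adl K)), IsWhitData ψ ν D →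
    ∀ (a : HeightOneSpectrum (𝓞 K)) (𝔪 : Ideal (𝓞 K)), 𝔪 ≠ ⊥ →
      ∀ s : (a.adicCompletion K)ˣ, ∃ (n : ℕ) (c : Fin n → ℂ) (p : Fin n → G K)
        (𝔪' : Ideal (𝓞 K)), CutProp23 (wh ψ ν D) a 𝔪 (iF23 a s) n c p 𝔪' := by
  letI : MeasurableSpace (Adl K) := borel (Adl K)
  intro ψ ν D hdata a 𝔪 h𝔪 s
  obtain ⟨d, hd⟩ := hE ψ hdata.1 hdata.2.1 a
  obtain ⟨n, c, p, 𝔪', h1, h2, h3, h4, h5⟩ :=
    hC ψ ν D hdata a d hd 𝔪 h𝔪 (iF23 a s) (isIdeleAtFin_iF23 a s)
  refine ⟨n, c, p, 𝔪', h1, h2, h3, fun i => ?_, fun Φ hΦ => h5 Φ hΦ.1 hΦ.2.1 hΦ.2.2.1 hΦ.2.2.2⟩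
  obtain ⟨u, hu, -⟩ := h4 i
  exact hu.1

/-- **T2.10.11 `TorusMatchC`** from its inputs. -/
theorem torusMatch23 (hT1 : T1.T1Out K) (hExt : ExtendC K) (hCE : CondExistsC K)
    (hU : UnramTorusC K) (hAC : ArchTorusC K) (hAR : ArchTorusRealC K) (hC : CutoffC K) :
    TorusMatchC K := by
  classical
  letI : MeasurableSpace (Adl K) := borel (Adl K)
  haveI : BorelSpace (Adl K) := ⟨rfl⟩
  intro ψ ν D hdata π π' φ φ' hφ hφ' hpar hag v₀ hv₀ hv₀'
  obtain ⟨hstd, hnd, hur, hhaar, hDm, hDf, hDfin⟩ := id hdata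
  have hψc : Continuous ψ := hstd.cont
  -- the levels
  obtain ⟨𝔫₀, h𝔫₀⟩ : ∃ 𝔫₀ : Ideal (𝓞 K), 𝔫₀ = π.level * π'.level := ⟨_, rfl⟩
  have h𝔫₀ne : 𝔫₀ ≠ 0 := by
    rw [h𝔫₀]
    exact mul_ne_zero (by rw [Ideal.zero_eq_bot]; exact π.level_ne_bot)
      (by rw [Ideal.zero_eq_bot]; exact π'.level_ne_bot)
  have hle1 : 𝔫₀ ≤ π.level := by rw [h𝔫₀]; exact Ideal.mul_le_left
  have hle2 : 𝔫₀ ≤ π'.level := by rw [h𝔫₀]; exact Ideal.mul_le_right
  have hdvd1 : ∀ v : HeightOneSpectrum (𝓞 K), v.asIdeal ∣ π.level → v.asIdeal ∣ 𝔫₀ := by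
    intro v hv
    rw [h𝔫₀]
    exact Dvd.dvd.mul_right hv _
  have hdvd2 : ∀ v : HeightOneSpectrum (𝓞 K), v.asIdeal ∣ π'.level → v.asIdeal ∣ 𝔫₀ := by
    intro v hv
    rw [h𝔫₀]
    exact Dvd.dvd.mul_left hv _
  have hv₀n : ¬ v₀.asIdeal ∣ 𝔫₀ := by
    rw [h𝔫₀]
    exact fun h => (v₀.prime.dvd_or_dvd h).elim hv₀ hv₀'
  have hLφ : IsLevel 𝔫₀ φ := isLevel_mono23 hle1 hφ.level_inv
  have hLφ' : IsLevel 𝔫₀ φ' := isLevel_mono23 hle2 hφ'.level_inv
  -- the set `S`
  obtain ⟨S₀, hS₀⟩ := hag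
  obtain ⟨Sψ, hSψ⟩ := hur
  obtain ⟨S, hS⟩ : ∃ S : Finset (HeightOneSpectrum (𝓞 K)),
      S = insert v₀ (S₀ ∪ Sψ ∪ (Ideal.finite_factors h𝔫₀ne).toFinset) := ⟨_, rfl⟩
  have hv₀S : v₀ ∈ S := by rw [hS]; exact Finset.mem_insert_self _ _
  have hS_lev : ∀ v : HeightOneSpectrum (𝓞 K), v.asIdeal ∣ 𝔫₀ → v ∈ S := by
    intro v hv
    rw [hS]
    refine Finset.mem_insert_of_mem (Finset.mem_union_right _ ?_)
    rw [Set.Finite.mem_toFinset]
    exact hv
  have hS_0 : ∀ v : HeightOneSpectrum (𝓞 K), v ∉ S → π.a v = π'.a v ∧ π.b v = π'.b v := by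
    intro v hv
    refine hS₀ v fun h => hv ?_
    rw [hS]
    exact Finset.mem_insert_of_mem (Finset.mem_union_left _ (Finset.mem_union_left _ h))
  have hS_ψ : ∀ v : HeightOneSpectrum (𝓞 K), v ∉ S → IsCondExp ψ v 0 := by
    intro v hv
    refine isCondExp_zero23 (hSψ v fun h => hv ?_)
    rw [hS]
    exact Finset.mem_insert_of_mem (Finset.mem_union_left _ (Finset.mem_union_right _ h))
  have hS_nl : ∀ v : HeightOneSpectrum (𝓞 K), v ∉ S →
      ¬ v.asIdeal ∣ π.level ∧ ¬ v.asIdeal ∣ π'.level :=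
    fun v hv => ⟨fun h => hv (hS_lev v (hdvd1 v h)), fun h => hv (hS_lev v (hdvd2 v h))⟩
  obtain ⟨L, hL⟩ : ∃ L : Finset (HeightOneSpectrum (𝓞 K)), L = S.erase v₀ := ⟨_, rfl⟩
  have hv₀L : v₀ ∉ L := by rw [hL]; exact Finset.notMem_erase v₀ S
  have hSL : insert v₀ L = S := by rw [hL]; exact Finset.insert_erase hv₀S
  have hLS : ∀ v : HeightOneSpectrum (𝓞 K), v ∉ L → v ∈ S → v = v₀ := by
    intro v hv hvS
    by_contra h
    exact hv (by rw [hL]; exact Finset.mem_erase.2 ⟨h, hvS⟩)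
  -- the local factors
  have hfin : ∀ v : HeightOneSpectrum (𝓞 K), v ∉ S → ∀ s : (v.adicCompletion K)ˣ,
      Fac23 (wh ψ ν D φ) (wh ψ ν D φ') (iF23 v s) := fun v hv s =>
    fac_fin23 hU ψ ν D hdata π π' φ φ' hφ hφ' v (hS_nl v hv).1 (hS_nl v hv).2 (hS_0 v hv).1
      (hS_0 v hv).2 (hS_ψ v hv) s
  have hinf : ∀ (w : InfinitePlace K) (t : (w.Completion)ˣ),
      Fac23 (wh ψ ν D φ) (wh ψ ν D φ') (iI23 w t) := by
    intro w t
    rcases w.isReal_or_isComplex with hw | hw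
    · exact fac_real23 hAR ψ ν D hdata π π' φ φ' hφ hφ' hpar w hw t
    · exact fac_cplx23 hAC ψ ν D hdata π π' φ φ' hφ hφ' w hw t
  have hsplit := fun Y : (Adl K)ˣ =>
    split23 S hS_lev (isLevel_wh23 ψ ν D hLφ) (isLevel_wh23 ψ ν D hLφ') hfin hinf Y
  -- non-vanishing on the torus
  have hne : ∃ y : (Adl K)ˣ, wh ψ ν D φ (tor y) ≠ 0 := by
    by_contra hcon
    push Not at hcon
    obtain ⟨g, hg⟩ := hφ.ne_zero
    exact hg (hExt ψ ν D hdata π.level π.level_ne_bot φ
      ⟨isCuspFn_of_sph0 hφ, fun v hv => ⟨π.b v, (hφ.hecke v hv).2⟩⟩ hcon g)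
  have hne' : ∃ y : (Adl K)ˣ, wh ψ ν D φ' (tor y) ≠ 0 := by
    by_contra hcon
    push Not at hcon
    obtain ⟨g, hg⟩ := hφ'.ne_zero
    exact hg (hExt ψ ν D hdata π'.level π'.level_ne_bot φ'
      ⟨isCuspFn_of_sph0 hφ', fun v hv => ⟨π'.b v, (hφ'.hecke v hv).2⟩⟩ hcon g)
  obtain ⟨ystar, hystar⟩ := hne
  obtain ⟨ystar', hystar'⟩ := hne'
  -- the conductor point at `v₀`
  obtain ⟨d₀, hd₀⟩ := hCE ψ hstd hnd v₀
  obtain ⟨x₀, -, hx₀, -⟩ := hd₀.2
  obtain ⟨s₀, hs₀⟩ := exists_unit_val23 v₀ d₀ _ hx₀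
  obtain ⟨lam, hlam0, hlam⟩ := hU ψ ν D hdata v₀ d₀ hd₀
  have hrep : ∀ (π₁ : HeckeEigensystem K ℂ) (f : G K → ℂ), IsSph0CuspFormFor π₁ f →
      ¬ v₀.asIdeal ∣ π₁.level → ∀ y : (Adl K)ˣ, wh ψ ν D f (tor y) ≠ 0 →
      wh ψ ν D f (tor (iF23 v₀ s₀ * (y * (iF23 v₀ (cF23 v₀ y))⁻¹))) ≠ 0 := by
    intro π₁ f hf hv y hy hzero
    apply hy
    have hy't : TrivAtFin v₀ (tor (y * (iF23 v₀ (cF23 v₀ y))⁻¹)) :=
      trivAtFin_tor23 (by rw [map_mul, map_inv, cF23_iF23_same23, mul_inv_cancel])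
    have e := hlam f (π₁.a v₀) (π₁.b v₀) hf.cont hf.bdd hf.left_inv
      (H333.isKv_of_isLevel333 π₁.level v₀ f hv hf.level_inv) (hf.hecke v₀ hv)
      (iF23 v₀ (cF23 v₀ y)) (iF23 v₀ s₀) (isIdeleAtFin_iF23 _ _) (isIdeleAtFin_iF23 _ _)
      (by rw [iF23_val_same23]; exact hs₀) _ hy't
    rw [← tor_mul23, ← tor_mul23, hzero, mul_zero, mul_comm (iF23 v₀ (cF23 v₀ y)),
      inv_mul_cancel_right] at e
    exact e
  obtain ⟨Y0, hY0d⟩ : ∃ Y0 : (Adl K)ˣ,
      Y0 = iF23 v₀ s₀ * (ystar * (iF23 v₀ (cF23 v₀ ystar))⁻¹) := ⟨_, rfl⟩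
  obtain ⟨Y1, hY1d⟩ : ∃ Y1 : (Adl K)ˣ,
      Y1 = iF23 v₀ s₀ * (ystar' * (iF23 v₀ (cF23 v₀ ystar'))⁻¹) := ⟨_, rfl⟩
  have hY0 : wh ψ ν D φ (tor Y0) ≠ 0 := by rw [hY0d]; exact hrep π φ hφ hv₀ ystar hystar
  have hY1 : wh ψ ν D φ' (tor Y1) ≠ 0 := by rw [hY1d]; exact hrep π' φ' hφ' hv₀' ystar' hystar'
  have cY0 : cF23 v₀ Y0 = s₀ := by
    rw [hY0d, map_mul, map_mul, map_inv, cF23_iF23_same23, cF23_iF23_same23, mul_inv_cancel, mul_one]
  have cY1 : cF23 v₀ Y1 = s₀ := by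
    rw [hY1d, map_mul, map_mul, map_inv, cF23_iF23_same23, cF23_iF23_same23, mul_inv_cancel, mul_one]
  -- the parts in `S`
  obtain ⟨y₀, hy₀d⟩ : ∃ y₀ : (Adl K)ˣ, y₀ = pF23 S (fun v => cF23 v Y0) := ⟨_, rfl⟩
  obtain ⟨y₁, hy₁d⟩ : ∃ y₁ : (Adl K)ˣ, y₁ = pF23 S (fun v => cF23 v Y1) := ⟨_, rfl⟩
  have hy₀ : wh ψ ν D φ (tor y₀) ≠ 0 := by
    obtain ⟨Λ, hΛ⟩ := hsplit Y0
    have h1 := (hΛ 1 (fun w => trivAtInf_one23 w) (fun v _ => trivAtFin_one23 v)).1
    rw [mul_one, mul_one, ← hy₀d] at h1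
    intro h0
    rw [h0, mul_zero] at h1
    exact hY0 h1
  have hy₁ : wh ψ ν D φ' (tor y₁) ≠ 0 := by
    obtain ⟨Λ, hΛ⟩ := hsplit Y1
    have h1 := (hΛ 1 (fun w => trivAtInf_one23 w) (fun v _ => trivAtFin_one23 v)).2
    rw [mul_one, mul_one, ← hy₁d] at h1
    intro h0
    rw [h0, mul_zero] at h1
    exact hY1 h1
  have cy₀ : cF23 v₀ y₀ = s₀ := by rw [hy₀d, cF23_pF23_of_mem23 _ hv₀S, cY0]
  have cy₁ : cF23 v₀ y₁ = s₀ := by rw [hy₁d, cF23_pF23_of_mem23 _ hv₀S, cY1]
  have hy₀S : SuppIn23 S y₀ := by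
    rw [hy₀d]
    exact ⟨fun w => cI23_pF23 _ _ w, fun v hv => cF23_pF23_of_notMem23 _ hv⟩
  have hy₁S : SuppIn23 S y₁ := by
    rw [hy₁d]
    exact ⟨fun w => cI23_pF23 _ _ w, fun v hv => cF23_pF23_of_notMem23 _ hv⟩
  -- the quotient `τ`
  obtain ⟨τ, hτd⟩ : ∃ τ : (Adl K)ˣ, τ = y₁ * y₀⁻¹ := ⟨_, rfl⟩
  have hτI : ∀ w : InfinitePlace K, cI23 w τ = 1 := by
    intro w
    rw [hτd, map_mul, map_inv, hy₀S.1 w, hy₁S.1 w, inv_one, mul_one]
  have hτL : ∀ v : HeightOneSpectrum (𝓞 K), v ∉ L → cF23 v τ = 1 := by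
    intro v hv
    by_cases hvS : v ∈ S
    · have hvv := hLS v hv hvS
      subst hvv
      rw [hτd, map_mul, map_inv, cy₀, cy₁, mul_inv_cancel]
    · rw [hτd, map_mul, map_inv, hy₀S.2 v hvS, hy₁S.2 v hvS, inv_one, mul_one]
  have hτS : ∀ v : HeightOneSpectrum (𝓞 K), v ∉ S → cF23 v τ = 1 := fun v hv =>
    hτL v fun h => hv (by rw [← hSL]; exact Finset.mem_insert_of_mem h)
  have hy₀τ : y₀ * τ = y₁ := by rw [hτd, mul_comm, inv_mul_cancel_right]
  have hτtriv : GSuppIn23 S (tor τ) :=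
    ⟨fun w => trivAtInf_tor23 (hτI w), fun v hv => trivAtFin_tor23 (hτS v hv)⟩
  -- the common level
  obtain ⟨N, hNv₀, hN1, hN2⟩ := exists_scale23 v₀ L hv₀L τ hτL
  obtain ⟨𝔪₀, h𝔪₀⟩ : ∃ 𝔪₀ : Ideal (𝓞 K), 𝔪₀ = Ideal.span {N} * 𝔫₀ := ⟨_, rfl⟩
  have hN0 : N ≠ 0 := fun h => hNv₀ (h ▸ v₀.asIdeal.zero_mem)
  have h𝔪₀ne : 𝔪₀ ≠ ⊥ := by
    rw [h𝔪₀, ← Ideal.zero_eq_bot]
    refine mul_ne_zero ?_ h𝔫₀ne
    rw [Ideal.zero_eq_bot, Ne, Ideal.span_singleton_eq_bot]
    exact hN0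
  have hv₀𝔪₀ : ¬ v₀.asIdeal ∣ 𝔪₀ := by
    rw [h𝔪₀]
    exact fun h => (v₀.prime.dvd_or_dvd h).elim
      (fun h1 => hNv₀ (Ideal.dvd_span_singleton.1 h1)) hv₀n
  have h𝔪₀le : 𝔪₀ ≤ 𝔫₀ := by rw [h𝔪₀]; exact Ideal.mul_le_right
  obtain ⟨c₀, hc₀⟩ : ∃ c₀ : ℂ, c₀ = wh ψ ν D φ (tor y₀) / wh ψ ν D φ' (tor y₁) := ⟨_, rfl⟩
  obtain ⟨f₂, hf₂⟩ : ∃ f₂ : G K → ℂ, f₂ = fun x => c₀ * rt (tor τ) φ' x := ⟨_, rfl⟩
  have hG1 : Good23 𝔪₀ φ := ⟨hφ.cont, hφ.bdd, hφ.left_inv, isLevel_mono23 h𝔪₀le hLφ⟩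
  have hG2 : Good23 𝔪₀ f₂ := by
    rw [hf₂]
    refine ⟨continuous_const.mul (hφ'.cont.comp (continuous_mul_const _)), ?_, ?_, ?_⟩
    · obtain ⟨C, hC⟩ := hφ'.bdd
      refine ⟨‖c₀‖ * C, fun g => ?_⟩
      rw [norm_mul]
      exact mul_le_mul_of_nonneg_left (hC _) (norm_nonneg _)
    · intro γ g
      show c₀ * φ' (T1.ratG K γ * g * tor τ) = c₀ * φ' (g * tor τ)
      rw [mul_assoc]
      exact congrArg (fun t => c₀ * t) (hφ'.left_inv γ (g * tor τ))
    · rw [h𝔪₀]
      exact isLevel_smul23 c₀ (isLevel_rt_tor23 N τ hτI hN1 hN2 hLφ')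
  have hWf₂ : wh ψ ν D f₂ (tor y₀ * 1) = wh ψ ν D φ (tor y₀ * 1) := by
    rw [mul_one, hf₂, wh_smul23, wh_rt23, ← tor_mul23, hy₀τ, hc₀, div_mul_cancel₀ _ hy₁]
  -- the chain
  have hy₀L : SuppIn23 L (y₀ * (iF23 v₀ s₀)⁻¹) := by
    have h1 : SuppIn23 (insert v₀ L) y₀ := by rw [hSL]; exact hy₀S
    have h2 := suppIn_split23 h1
    rwa [cy₀] at h2
  obtain ⟨n', c', g', 𝔪', P', hIH⟩ :=
    chain23 (wh ψ ν D) (cutProp_of23 hC hCE ψ ν D hdata) L 𝔪₀ h𝔪₀ne _ hy₀L
  have hv₀𝔪' : ¬ v₀.asIdeal ∣ 𝔪' := fun h => hv₀𝔪₀ (hIH.2.2.1 v₀ hv₀L h)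
  obtain ⟨n, c, p, 𝔪'', k1, k2, k3, k4, k5⟩ :=
    hC ψ ν D hdata v₀ d₀ hd₀ 𝔪' hIH.1 (iF23 v₀ s₀) (isIdeleAtFin_iF23 v₀ s₀)
  have hpu : ∀ i, ∃ u : v₀.adicCompletion K, IsUnipAt v₀ (p i) u ∧
      Valued.v u ≤ WithZero.exp (1 : ℤ) := by
    intro i
    obtain ⟨u, hu1, hu2⟩ := k4 i
    exact ⟨u, hu1, hu2 hv₀𝔪' (by rw [iF23_val_same23]; exact hs₀)⟩
  have hcp : CutProp23 (wh ψ ν D) v₀ 𝔪' (iF23 v₀ s₀) n c p 𝔪'' :=
    ⟨k1, k2, k3, fun i => (hpu i).choose_spec.1.1,
      fun Φ hΦ => k5 Φ hΦ.1 hΦ.2.1 hΦ.2.2.1 hΦ.2.2.2⟩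
  have hg'L := hIH.2.2.2.1
  have hch := step23 (wh ψ ν D) hv₀L hy₀L s₀ hIH hcp
  rw [hSL, mul_comm (iF23 v₀ s₀), inv_mul_cancel_right] at hch
  obtain ⟨cO, hcO⟩ : ∃ cO : Fin (n * n') → ℂ,
      cO = fun k => c (finProdFinEquiv.symm k).1 * c' (finProdFinEquiv.symm k).2 := ⟨_, rfl⟩
  obtain ⟨gO, hgO⟩ : ∃ gO : Fin (n * n') → G K,
      gO = fun k => p (finProdFinEquiv.symm k).1 * g' (finProdFinEquiv.symm k).2 := ⟨_, rfl⟩
  rw [← hcO, ← hgO] at hch
  obtain ⟨m1, m2, m3, m4, m5, m6⟩ := hch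
  -- the final level
  obtain ⟨𝔪, h𝔪⟩ : ∃ 𝔪 : Ideal (𝓞 K), 𝔪 = (∏ v ∈ S, v.asIdeal) * 𝔪'' := ⟨_, rfl⟩
  have h𝔪ne : 𝔪 ≠ ⊥ := by
    rw [h𝔪, ← Ideal.zero_eq_bot]
    refine mul_ne_zero (Finset.prod_ne_zero_iff.2 fun v _ => ?_) (by rwa [Ideal.zero_eq_bot])
    rw [Ideal.zero_eq_bot]
    exact v.ne_bot
  have h𝔪le : 𝔪 ≤ 𝔪'' := by rw [h𝔪]; exact Ideal.mul_le_right
  have h𝔪S : ∀ v : HeightOneSpectrum (𝓞 K), ¬ v.asIdeal ∣ 𝔪 → v ∉ S := by
    intro v hv hvS
    apply hv
    rw [h𝔪]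
    exact Dvd.dvd.mul_right (Finset.dvd_prod_of_mem _ hvS) _
  -- the second combination
  have hΦ' : lin (fun k => c₀ * cO k) (fun k => gO k * tor τ) φ' = lin cO gO f₂ := by
    rw [hf₂]
    exact (lin_smul_rt23 cO gO c₀ (tor τ) φ').symm
  have hgτ : ∀ k, GSuppIn23 S (gO k * tor τ) := fun k =>
    ⟨fun w => trivAtInf_mul23 ((m4 k).1 w) (hτtriv.1 w),
      fun v hv => trivAtFin_mul23 ((m4 k).2 v hv) (hτtriv.2 v hv)⟩
  -- commutation with elements outside `S`
  have hcommI : ∀ (w : InfinitePlace K) (z : G K), IsLocalAtInf w z → ∀ h : G K,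
      GSuppIn23 S h → z * h = h * z := fun w z hz h hh =>
    comm_of_disj23 (fun v => Or.inl (hz.2 v)) (fun w' => Or.inr (hh.1 w'))
  have hcommF : ∀ (v : HeightOneSpectrum (𝓞 K)) (z : G K), v ∉ S → IsLocalAtFin v z →
      ∀ h : G K, GSuppIn23 S h → z * h = h * z := by
    intro v z hv hz h hh
    refine comm_of_disj23 (fun v' => ?_) (fun w' => Or.inl (hz.1 w'))
    by_cases hvv : v' = v
    · right
      rw [hvv]
      exact hh.2 v hv
    · left
      exact hz.2 v' hvv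
  have hinvar : ∀ (z : G K), (∀ h : G K, GSuppIn23 S h → z * h = h * z) → ∀ b b' : ℂ,
      (∀ g : G K, φ (g * z) = b * φ g) → (∀ g : G K, φ' (g * z) = b' * φ' g) → b = b' →
      ∀ g : G K, (lin cO gO φ (g * z) - lin (fun k => c₀ * cO k) (fun k => gO k * tor τ) φ' (g * z))
        = b * (lin cO gO φ g - lin (fun k => c₀ * cO k) (fun k => gO k * tor τ) φ' g) := by
    intro z hz b b' hb hb' hbb g
    rw [lin_apply23, lin_apply23, lin_apply23, lin_apply23, mul_sub, Finset.mul_sum,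
      Finset.mul_sum]
    congr 1
    · refine Finset.sum_congr rfl fun k _ => ?_
      rw [mul_assoc g z, hz _ (m4 k), ← mul_assoc, hb]
      ring
    · refine Finset.sum_congr rfl fun k _ => ?_
      rw [mul_assoc g z, hz _ (hgτ k), ← mul_assoc, hb', hbb]
      ring
  refine ⟨n * n', n * n', cO, gO, fun k => c₀ * cO k, fun k => gO k * tor τ, 𝔪, h𝔪ne, ?_, ?_,
    ⟨⟨?_, ?_, ?_, ?_, ?_, ?_, ?_⟩, ?_⟩, ?_, ?_⟩
  · -- admissibility
    intro k
    obtain ⟨u, hu1, hu2⟩ := hpu (finProdFinEquiv.symm k).1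
    refine ⟨p (finProdFinEquiv.symm k).1, g' (finProdFinEquiv.symm k).2, u, ?_, hu1, hu2,
      (hg'L _).2 v₀ hv₀L⟩
    rw [hgO]
  · intro k
    obtain ⟨u, hu1, hu2⟩ := hpu (finProdFinEquiv.symm k).1
    refine ⟨p (finProdFinEquiv.symm k).1, g' (finProdFinEquiv.symm k).2 * tor τ, u, ?_, hu1, hu2,
      trivAtFin_mul23 ((hg'L _).2 v₀ hv₀L) (trivAtFin_tor23 (hτL v₀ hv₀L))⟩
    rw [hgO]
    exact mul_assoc _ _ _
  · -- continuity
    exact (continuous_lin23 _ _ hφ.cont).sub (continuous_lin23 _ _ hφ'.cont)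
  · exact bdd_sub23 (bdd_lin23 _ _ hφ.bdd) (bdd_lin23 _ _ hφ'.bdd)
  · intro γ g
    have e1 := leftInv_lin23 cO gO hφ.left_inv γ g
    have e2 := leftInv_lin23 (fun k => c₀ * cO k) (fun k => gO k * tor τ) hφ'.left_inv γ g
    show lin cO gO φ (T1.ratG K γ * g) - lin _ _ φ' (T1.ratG K γ * g) = _
    rw [e1, e2]
  · -- level
    have l1 : IsLevel 𝔪 (lin cO gO φ) := isLevel_mono23 h𝔪le (m6 φ hG1).1
    have l2 : IsLevel 𝔪 (lin (fun k => c₀ * cO k) (fun k => gO k * tor τ) φ') := by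
      rw [hΦ']
      exact isLevel_mono23 h𝔪le (m6 f₂ hG2).1
    exact isLevel_sub23 l1 l2
  · -- positive scalars at infinity
    intro w z hz g
    have := hinvar z (hcommI w z hz.1) 1 1 (fun g => by rw [one_mul]; exact hφ.arch_scalar w z hz g)
      (fun g => by rw [one_mul]; exact hφ'.arch_scalar w z hz g) rfl g
    rw [one_mul] at this
    exact this
  · -- compact groups at infinity
    intro w z hz g
    have := hinvar z (hcommI w z hz.1) 1 1
      (fun g => by rw [one_mul]; exact hφ.arch_compact w z hz g)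
      (fun g => by rw [one_mul]; exact hφ'.arch_compact w z hz g) rfl g
    rw [one_mul] at this
    exact this
  · -- cuspidality
    exact cuspidal_lin_sub23 hT1.addFundDom cO gO _ _ hφ.cont hφ.bdd hφ.cuspidal hφ'.cont
      hφ'.bdd hφ'.cuspidal
  · -- scalar uniformisers
    intro v hv
    have hvS := h𝔪S v hv
    refine ⟨π.b v, fun z hz g => ?_⟩
    exact hinvar z (hcommF v z hvS hz.1) (π.b v) (π'.b v)
      (fun g => (hφ.hecke v (hS_nl v hvS).1).2 z hz g)
      (fun g => (hφ'.hecke v (hS_nl v hvS).2).2 z hz g) (hS_0 v hvS).2 g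
  · -- non-vanishing
    refine ⟨y₀, ?_⟩
    have h1 := ((m6 φ hG1).2 y₀ hy₀S 1 (fun v _ => trivAtFin_one23 v)).1 m5
    rw [mul_one] at h1
    rw [h1]
    exact hy₀
  · -- equality on the torus
    intro y
    rw [wh_sub23 ψ hψc ν D hDfin (continuous_lin23 _ _ hφ.cont) (bdd_lin23 _ _ hφ.bdd)
      (continuous_lin23 _ _ hφ'.cont) (bdd_lin23 _ _ hφ'.bdd), sub_eq_zero]
    obtain ⟨Λ, hΛ⟩ := hsplit y
    obtain ⟨yS, hyS⟩ : ∃ yS : (Adl K)ˣ, yS = pF23 S (fun v => cF23 v y) := ⟨_, rfl⟩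
    rw [← hyS] at hΛ
    have a1 : wh ψ ν D (lin cO gO φ) (tor y) = Λ * wh ψ ν D (lin cO gO φ) (tor yS) := by
      rw [wh_lin23 ψ hψc ν D hDfin cO gO hφ.cont hφ.bdd,
        wh_lin23 ψ hψc ν D hDfin cO gO hφ.cont hφ.bdd, Finset.mul_sum]
      refine Finset.sum_congr rfl fun k _ => ?_
      rw [(hΛ (gO k) (m4 k).1 (m4 k).2).1]
      ring
    have a2 : wh ψ ν D (lin (fun k => c₀ * cO k) (fun k => gO k * tor τ) φ') (tor y)
        = Λ * wh ψ ν D (lin (fun k => c₀ * cO k) (fun k => gO k * tor τ) φ') (tor yS) := by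
      rw [wh_lin23 ψ hψc ν D hDfin _ _ hφ'.cont hφ'.bdd,
        wh_lin23 ψ hψc ν D hDfin _ _ hφ'.cont hφ'.bdd, Finset.mul_sum]
      refine Finset.sum_congr rfl fun k _ => ?_
      rw [(hΛ (gO k * tor τ) (hgτ k).1 (hgτ k).2).2]
      ring
    have hyS_S : SuppIn23 S yS := by
      rw [hyS]
      exact ⟨fun w => cI23_pF23 _ _ w, fun v hv => cF23_pF23_of_notMem23 _ hv⟩
    obtain ⟨b1, b2⟩ := (m6 φ hG1).2 yS hyS_S 1 (fun v _ => trivAtFin_one23 v)
    obtain ⟨b1', b2'⟩ := (m6 f₂ hG2).2 yS hyS_S 1 (fun v _ => trivAtFin_one23 v)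
    rw [mul_one] at b1 b2 b1' b2'
    rw [a1, a2, hΦ']
    congr 1
    rcases Classical.em (_ : Prop) with hP | hP
    · rw [b1 hP, b1' hP, hWf₂]
    · rw [b2 hP, b2' hP]

/-- **Registry leaf T2.10.11**, verbatim. -/
theorem leaf11_23 (K : Type) [Field K] [NumberField K] : H941.Leaf11 K :=
  fun hT1 hExt hCE hU hAC hAR hC => torusMatch23 hT1 hExt hCE hU hAC hAR hC

end Fermat.Agent.LT.T2.H23

end

end
-- ===== PACK-END LT/T2/H23/TorusMatch.lean

-- ===== PACK-BEGIN LT/T5/H74/KerUnfold.lean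
section


/-!
# Row LT, tower T5, sub-leaf T5.04b `KerCuspC74` (helper74): unfolding over `GL₂(𝔸_K)`

OFF-MAIN.  For `φ, β ∈ C_c(GL₂(𝔸_K))` and the periodisation `ψ_β` of `β` over `GL₂(K) ⟨r⟩`:
`R(φ)ψ_β(x) = ∫_G K_φ(x, y) β(y) dy`.  Both sides are finite sums of integrals; the terms
correspond under `(γ, m) ↦ (γ⁻¹, -m)` by the invariance of the measure.
-/

set_option autoImplicit false

open IsDedekindDomain NumberField MeasureTheory
open scoped MatrixGroups ComplexConjugate Pointwise ENNReal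

noncomputable section

namespace Fermat.Agent.LT.T5.H74

open Fermat.Agent.LT.H556.A0 Fermat.Agent.LT.T5

attribute [local instance] Fermat.Agent.LT.T5.instMeasurableSpaceG

variable {K : Type} [Field K] [NumberField K]

/-- The Haar measure of a frame is right invariant. -/
theorem isMulRightInvariant_of_frame74 (μ : Measure (G K)) (F : Set (G K)) (hF : IsFrame μ F) :
    μ.IsMulRightInvariant := by
  have : BorelSpace (G K) := borelSpaceG74
  refine ⟨fun g => Measure.ext fun A hA => ?_⟩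
  rw [Measure.map_apply (measurable_mul_const g) hA]
  exact hF.right_inv g A hA

/-- The terms of the two sums correspond: substitution `y = γ x h rᵐ`. -/
theorem integral_term_subst74 (μ : Measure (G K)) [μ.IsMulLeftInvariant]
    [μ.IsMulRightInvariant] (r : G K) (φ β : G K → ℂ) (x : G K) (p : GL (Fin 2) K × ℤ) :
    ∫ h, φ h * term74 r β 1 (x * h) p ∂μ
      = ∫ y, term74 r φ x y (p.1⁻¹, -p.2) * β y ∂μ := by
  have : BorelSpace (G K) := borelSpaceG74
  set Φ : G K → ℂ := fun y => term74 r φ x y (p.1⁻¹, -p.2) * β y with hΦ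
  have h1 : ∀ h : G K, φ h * term74 r β 1 (x * h) p = Φ (ratG p.1 * x * h * r ^ p.2) := by
    intro h
    simp only [hΦ, term74, inv_one, one_mul, map_inv, zpow_neg]
    have e : x⁻¹ * (ratG p.1)⁻¹ * (ratG p.1 * x * h * r ^ p.2) * (r ^ p.2)⁻¹ = h := by
      simp only [mul_assoc, inv_mul_cancel_left, mul_inv_cancel, mul_one]
    rw [e]
    simp only [mul_assoc]
  rw [integral_congr_ae (Filter.Eventually.of_forall h1)]
  have h2 : ∫ h, Φ (ratG p.1 * x * h * r ^ p.2) ∂μ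
      = ∫ h, (fun u => Φ (ratG p.1 * x * u)) (h * r ^ p.2) ∂μ := by
    refine integral_congr_ae (Filter.Eventually.of_forall fun h => ?_)
    simp only [mul_assoc]
  rw [h2, integral_mul_right_eq_self (fun u => Φ (ratG p.1 * x * u)) (r ^ p.2),
    integral_mul_left_eq_self Φ (ratG p.1 * x)]

/-- `R(φ)ψ_β(x)` as a sum of integrals. -/
theorem Rconv_per_eq_tsum74 [LocallyCompactSpace (G K)]
    (μ : Measure (G K)) [IsFiniteMeasureOnCompacts μ] (r : G K)
    (hr : ∀ g : G K, r * g = g * r) (hfin : LocFin74 r) (φ β : G K → ℂ)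
    (hφ : Continuous φ) (hφc : HasCompactSupport φ) (hβ : Continuous β)
    (hβc : HasCompactSupport β) (x : G K) :
    Rconv μ φ (per74 r β) x = ∑' p : GL (Fin 2) K × ℤ, ∫ h, φ h * term74 r β 1 (x * h) p ∂μ := by
  have : BorelSpace (G K) := borelSpaceG74
  have hU' : IsCompact ((fun h : G K => x * h) '' tsupport φ) :=
    hφc.image (continuous_const.mul continuous_id)
  set I := idx74 r hfin β hβc {1} ((fun h : G K => x * h) '' tsupport φ) isCompact_singleton hU'
    with hI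
  -- pointwise: the integrand is a finite sum
  have hpt : ∀ h : G K, φ h * per74 r β (x * h) = ∑ p ∈ I, φ h * term74 r β 1 (x * h) p := by
    intro h
    by_cases hh : h ∈ tsupport φ
    · unfold per74
      rw [ker0_eq_sum74 r hr hfin β hβc {1} _ isCompact_singleton hU' rfl ⟨h, hh, rfl⟩,
        Finset.mul_sum]
    · rw [image_eq_zero_of_notMem_tsupport hh]
      simp only [zero_mul, Finset.sum_const_zero]
  have hint : ∀ p ∈ I, Integrable (fun h : G K => φ h * term74 r β 1 (x * h) p) μ := by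
    intro p _
    refine Continuous.integrable_of_hasCompactSupport ?_ ?_
    · refine hφ.mul ?_
      have h2 : Continuous fun h : G K => ((1, x * h) : G K × G K) :=
        Continuous.prodMk continuous_const (continuous_const.mul continuous_id)
      show Continuous ((fun q : G K × G K => term74 r β q.1 q.2 p) ∘
        fun h : G K => ((1, x * h) : G K × G K))
      exact (continuous_term74 r β hβ p).comp h2
    · exact hφc.mul_right
  have hzero : ∀ p ∉ I, ∫ h, φ h * term74 r β 1 (x * h) p ∂μ = 0 := by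
    intro p hp
    have h0 : ∀ h : G K, φ h * term74 r β 1 (x * h) p = 0 := by
      intro h
      by_cases hh : h ∈ tsupport φ
      · rw [term_eq_zero_of_not_mem74 r hr hfin β hβc {1} _ isCompact_singleton hU' rfl
          ⟨h, hh, rfl⟩ hp, mul_zero]
      · rw [image_eq_zero_of_notMem_tsupport hh, zero_mul]
    rw [integral_congr_ae (Filter.Eventually.of_forall h0)]
    exact integral_zero _ _
  unfold Rconv
  rw [integral_congr_ae (Filter.Eventually.of_forall hpt), integral_finsetSum I hint]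
  exact (tsum_eq_sum hzero).symm

/-- `∫_G K_φ(x, y) β(y) dy` as a sum of integrals. -/
theorem integral_ker0_mul_eq_tsum74 [LocallyCompactSpace (G K)]
    (μ : Measure (G K)) [IsFiniteMeasureOnCompacts μ] (r : G K)
    (hr : ∀ g : G K, r * g = g * r) (hfin : LocFin74 r) (φ β : G K → ℂ)
    (hφ : Continuous φ) (hφc : HasCompactSupport φ) (hβ : Continuous β)
    (hβc : HasCompactSupport β) (x : G K) :
    ∫ y, ker0 r φ x y * β y ∂μ
      = ∑' p : GL (Fin 2) K × ℤ, ∫ y, term74 r φ x y p * β y ∂μ := by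
  have : BorelSpace (G K) := borelSpaceG74
  set I := idx74 r hfin φ hφc {x} (tsupport β) isCompact_singleton hβc with hI
  have hpt : ∀ y : G K, ker0 r φ x y * β y = ∑ p ∈ I, term74 r φ x y p * β y := by
    intro y
    by_cases hy : y ∈ tsupport β
    · rw [ker0_eq_sum74 r hr hfin φ hφc {x} _ isCompact_singleton hβc rfl hy, Finset.sum_mul]
    · rw [image_eq_zero_of_notMem_tsupport hy]
      simp only [mul_zero, Finset.sum_const_zero]
  have hint : ∀ p ∈ I, Integrable (fun y : G K => term74 r φ x y p * β y) μ := by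
    intro p _
    refine Continuous.integrable_of_hasCompactSupport ?_ ?_
    · refine Continuous.mul ?_ hβ
      have h2 : Continuous fun y : G K => ((x, y) : G K × G K) :=
        Continuous.prodMk continuous_const continuous_id
      show Continuous ((fun q : G K × G K => term74 r φ q.1 q.2 p) ∘
        fun y : G K => ((x, y) : G K × G K))
      exact (continuous_term74 r φ hφ p).comp h2
    · exact hβc.mul_left
  have hzero : ∀ p ∉ I, ∫ y, term74 r φ x y p * β y ∂μ = 0 := by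
    intro p hp
    have h0 : ∀ y : G K, term74 r φ x y p * β y = 0 := by
      intro y
      by_cases hy : y ∈ tsupport β
      · rw [term_eq_zero_of_not_mem74 r hr hfin φ hφc {x} _ isCompact_singleton hβc rfl hy hp,
          zero_mul]
      · rw [image_eq_zero_of_notMem_tsupport hy, mul_zero]
    rw [integral_congr_ae (Filter.Eventually.of_forall h0)]
    exact integral_zero _ _
  rw [integral_congr_ae (Filter.Eventually.of_forall hpt), integral_finsetSum I hint]
  exact (tsum_eq_sum hzero).symm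

/-- **Unfolding.**  `R(φ)ψ_β(x) = ∫_G K_φ(x, y) β(y) dy`. -/
theorem Rconv_per74 [LocallyCompactSpace (G K)]
    (μ : Measure (G K)) [IsFiniteMeasureOnCompacts μ] [μ.IsMulLeftInvariant]
    [μ.IsMulRightInvariant] (r : G K)
    (hr : ∀ g : G K, r * g = g * r) (hfin : LocFin74 r) (φ β : G K → ℂ)
    (hφ : Continuous φ) (hφc : HasCompactSupport φ) (hβ : Continuous β)
    (hβc : HasCompactSupport β) (x : G K) :
    Rconv μ φ (per74 r β) x = ∫ y, ker0 r φ x y * β y ∂μ := by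
  rw [Rconv_per_eq_tsum74 μ r hr hfin φ β hφ hφc hβ hβc x,
    integral_ker0_mul_eq_tsum74 μ r hr hfin φ β hφ hφc hβ hβc x]
  have h : ∀ p : GL (Fin 2) K × ℤ, ∫ h, φ h * term74 r β 1 (x * h) p ∂μ
      = (fun q : GL (Fin 2) K × ℤ => ∫ y, term74 r φ x y q * β y ∂μ)
        (((Equiv.inv (GL (Fin 2) K)).prodCongr (Equiv.neg ℤ)) p) := by
    intro p
    rw [integral_term_subst74 μ r φ β x p]
    rfl
  rw [tsum_congr h]
  exact ((Equiv.inv (GL (Fin 2) K)).prodCongr (Equiv.neg ℤ)).tsum_eq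
    (fun q : GL (Fin 2) K × ℤ => ∫ y, term74 r φ x y q * β y ∂μ)

end Fermat.Agent.LT.T5.H74

end

end
-- ===== PACK-END LT/T5/H74/KerUnfold.lean

-- ===== PACK-BEGIN LT/T5/H74/RangeT1.lean
section



/-!
# Row LT, tower T5, leaf T5.04 `LeafRange` (helper74): the inputs from T1 discharged

OFF-MAIN.  `leafRange_T1_74 : T1.T1Out K → RowBoundC74 𝔫 τ → KerCuspC74 𝔫 τ → LeafRange 𝔫 τ`.
The local finiteness `LocFinC74` is `H599.finite_iota_mem599` (helper599, byte-identical copy of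
`LT/T5/H599/Ray.lean`), the other inputs are interface Props of T1 (`T3.In…` = `T1.…` unfolded).
-/

set_option autoImplicit false

open IsDedekindDomain NumberField MeasureTheory
open scoped MatrixGroups ComplexConjugate Pointwise ENNReal

noncomputable section

namespace Fermat.Agent.LT.T5.H74

open Fermat.Agent.LT.H556.A0 Fermat.Agent.LT.T5

attribute [local instance] Fermat.Agent.LT.T5.instMeasurableSpaceG

variable {K : Type} [Field K] [NumberField K]

/-- Local finiteness of `GL₂(K) ⟨r⟩` from `T1.AdNormC` and `T1.DiscreteC` (helper599). -/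
theorem locFinC_of_T1_74 (hAN : T1.AdNormC K) (hD : T1.DiscreteC K) : LocFinC74 K := by
  intro r hr C hC
  have h := H599.finite_iota_mem599 hAN hD hr hC
  refine (h.image (fun p : H599.Gam599 K => (p.1, Multiplicative.toAdd p.2))).subset ?_
  rintro ⟨γ, m⟩ hp
  refine ⟨(γ, Multiplicative.ofAdd m), ?_, rfl⟩
  show H599.iota599 hr (γ, Multiplicative.ofAdd m) ∈ C
  rw [H599.iota_mk599]
  exact hp

/-- **T5.04 `LeafRange`** from the output of T1 and the two analytic inputs. -/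
theorem leafRange_T1_74 (𝔫 : Ideal (𝓞 K)) (τ : G K → ℂ) (h : T1.T1Out K)
    (hrow : RowBoundC74 𝔫 τ) (hcusp : KerCuspC74 𝔫 τ) : LeafRange 𝔫 τ :=
  leafRange_of74 𝔫 τ h.locComp h.adeleLattice h.addFundDom
    (locFinC_of_T1_74 h.adNorm h.discrete) hrow hcusp

end Fermat.Agent.LT.T5.H74

end

end
-- ===== PACK-END LT/T5/H74/RangeT1.lean

-- ===== PACK-BEGIN LT/T7/H27/EulerLog.lean
section



/-!
# Row LT, tower T7, node T7.14 `RigidC`, leaf T7.14.1 `EulerLogC` (helper27)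

OFF-MAIN.  `eulerLogC27 K : Rigid.EulerLogC K`, VERBATIM vs `LT/T7/H62/RigidPkg.lean`
(helper62@3555cb1bd, sha256 a2b090c0e6b4fff0), with `Q₀ = 100`.
-/

set_option autoImplicit false

open IsDedekindDomain NumberField Filter Topology
open scoped ComplexConjugate

noncomputable section

namespace Fermat.Agent.LT.T7.H27

open Fermat.Agent.LT.T7.Rigid

variable {K : Type} [Field K] [NumberField K]

/-- The local data of the Euler product. -/
def tau27 (a a' : HeightOneSpectrum (𝓞 K) → ℂ) (S : Set (HeightOneSpectrum (𝓞 K))) (s : ℝ)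
    (v : HeightOneSpectrum (𝓞 K)) (m : ℕ) : ℂ :=
  cl27 a S v m * conj (cl27 a' S v m) * (((nv v ^ (-s) : ℝ) : ℂ)) ^ m

/-- The summand of the Dirichlet series. -/
def hS27 (a a' : HeightOneSpectrum (𝓞 K) → ℂ) (S : Set (HeightOneSpectrum (𝓞 K))) (s : ℝ)
    (I : Ideal (𝓞 K)) : ℂ :=
  coef2 a a' S I * (((Ideal.absNorm I : ℝ) ^ (-s) : ℝ) : ℂ)

section Basic

variable (a a' : HeightOneSpectrum (𝓞 K) → ℂ) (S : Set (HeightOneSpectrum (𝓞 K))) (s : ℝ)

theorem hS27_top : hS27 a a' S s ⊤ = 1 := by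
  unfold hS27
  rw [coef2_top27, absNorm_top_rpow27]
  simp

theorem hS27_bot : hS27 a a' S s ⊥ = 0 := by
  unfold hS27
  rw [coef2_bot, zero_mul]

theorem hS27_mulPow {T : Finset (HeightOneSpectrum (𝓞 K))} {v : HeightOneSpectrum (𝓞 K)}
    (hv : v ∉ T) {J : Ideal (𝓞 K)} (hJ : J ∈ IT27 T) (m : ℕ) :
    hS27 a a' S s (v.asIdeal ^ m * J) = tau27 a a' S s v m * hS27 a a' S s J := by
  unfold hS27 tau27
  rw [coef2_mulPow27 a a' S hv hJ, absNorm_rpow_mulPow27]
  push_cast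
  ring

theorem norm_hS27 (I : Ideal (𝓞 K)) :
    ‖hS27 a a' S s I‖ = ‖coef2 a a' S I‖ * ((Ideal.absNorm I : ℕ) : ℝ) ^ (-s) := by
  unfold hS27
  rw [norm_mul, Complex.norm_real, Real.norm_of_nonneg (Real.rpow_nonneg (by positivity) _)]

theorem tau27_of_mem {v : HeightOneSpectrum (𝓞 K)} (hv : v ∈ S) (m : ℕ) :
    tau27 a a' S s v m = if m = 0 then 1 else 0 := by
  unfold tau27
  by_cases hm : m = 0
  · subst hm
    simp [cl27_zero]
  · rw [cl27_of_mem a hv hm, if_neg hm]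
    simp

theorem tau27_of_notMem {v : HeightOneSpectrum (𝓞 K)} (hv : v ∉ S) (m : ℕ) :
    tau27 a a' S s v m = lt27 (a v) (a' v) (nv v ^ (-s)) m := by
  unfold tau27 lt27
  rw [cl27_of_notMem a hv, cl27_of_notMem a' hv]

theorem tsum_tau27_of_mem {v : HeightOneSpectrum (𝓞 K)} (hv : v ∈ S) :
    ∑' m : ℕ, tau27 a a' S s v m = 1 := by
  rw [tsum_eq_single 0]
  · rw [tau27_of_mem a a' S s hv]; simp
  · intro m hm
    rw [tau27_of_mem a a' S s hv, if_neg hm]

theorem tsum_norm_tau27_of_mem {v : HeightOneSpectrum (𝓞 K)} (hv : v ∈ S) :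
    ∑' m : ℕ, ‖tau27 a a' S s v m‖ = 1 := by
  rw [tsum_eq_single 0]
  · rw [tau27_of_mem a a' S s hv]; simp
  · intro m hm
    rw [tau27_of_mem a a' S s hv, if_neg hm, norm_zero]

theorem summable_norm_tau27_of_mem {v : HeightOneSpectrum (𝓞 K)} (hv : v ∈ S) :
    Summable fun m : ℕ => ‖tau27 a a' S s v m‖ := by
  refine summable_of_ne_finset_zero (s := {0}) (fun m hm => ?_)
  rw [tau27_of_mem a a' S s hv, if_neg (by simpa using hm), norm_zero]

end Basic

/-- The hypotheses of `EulerLogC` at the places outside `S`, with `Q₀ = 100`. -/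
def Hyp27 (a a' : HeightOneSpectrum (𝓞 K) → ℂ) (S : Finset (HeightOneSpectrum (𝓞 K))) : Prop :=
  ∀ v : HeightOneSpectrum (𝓞 K), v ∉ S →
    100 ≤ Ideal.absNorm v.asIdeal ∧ ‖a v‖ ≤ 2 ∧ ‖a' v‖ ≤ 2

section Local

variable {a a' : HeightOneSpectrum (𝓞 K) → ℂ} {S : Finset (HeightOneSpectrum (𝓞 K))}
  (hH : Hyp27 a a' S) {s : ℝ} (hs : 1 < s)

include hH hs

theorem x_le27 {v : HeightOneSpectrum (𝓞 K)} (hv : v ∉ S) : nv v ^ (-s) ≤ 1 / 100 := by
  have h1 := nv_rpow_le_inv v hs.le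
  have h2 : (100 : ℝ) ≤ nv v := by
    unfold nv
    exact_mod_cast (hH v hv).1
  have h3 : (nv v)⁻¹ ≤ 1 / 100 := by
    rw [inv_le_comm₀ (by linarith) (by norm_num)]
    simpa using h2
  linarith

theorem summable_norm_tau27 (v : HeightOneSpectrum (𝓞 K)) :
    Summable fun m : ℕ => ‖tau27 a a' (S : Set (HeightOneSpectrum (𝓞 K))) s v m‖ := by
  by_cases hv : v ∈ S
  · exact summable_norm_tau27_of_mem a a' _ s (by exact_mod_cast hv)
  · have hv' : v ∉ (S : Set (HeightOneSpectrum (𝓞 K))) := by exact_mod_cast hv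
    simp only [tau27_of_notMem a a' _ s hv']
    exact summable_norm_lt27 (hH v hv).2.1 (hH v hv).2.2 (nv_rpow_nonneg v s)
      (x_le27 hH hs hv)

theorem tsum_norm_tau27_le (v : HeightOneSpectrum (𝓞 K)) :
    ∑' m : ℕ, ‖tau27 a a' (S : Set (HeightOneSpectrum (𝓞 K))) s v m‖
      ≤ Real.exp (10 * nv v ^ (-s)) := by
  have hx0 := nv_rpow_nonneg v s
  by_cases hv : v ∈ S
  · rw [tsum_norm_tau27_of_mem a a' _ s (by exact_mod_cast hv)]
    exact Real.one_le_exp (by positivity)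
  · have hv' : v ∉ (S : Set (HeightOneSpectrum (𝓞 K))) := by exact_mod_cast hv
    simp only [tau27_of_notMem a a' _ s hv']
    refine le_trans (tsum_norm_lt27_le (hH v hv).2.1 (hH v hv).2.2 hx0 (x_le27 hH hs hv)) ?_
    have := Real.add_one_le_exp (10 * nv v ^ (-s))
    linarith

end Local

/-! ## Absolute summability -/

section Global

variable {a a' : HeightOneSpectrum (𝓞 K) → ℂ} {S : Finset (HeightOneSpectrum (𝓞 K))}
  (hP : PlaceSumC K) (hH : Hyp27 a a' S) {s : ℝ} (hs : 1 < s)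

include hP hH hs

theorem hasSum_norm_IT27 (T : Finset (HeightOneSpectrum (𝓞 K))) :
    HasSum (fun I : IT27 T => ‖hS27 a a' (S : Set (HeightOneSpectrum (𝓞 K))) s I‖)
      (∏ v ∈ T, ∑' m : ℕ, ‖tau27 a a' (S : Set (HeightOneSpectrum (𝓞 K))) s v m‖) := by
  classical
  refine (hasSum_IT27 (R := ℝ)
    (fun I => ‖hS27 a a' (S : Set (HeightOneSpectrum (𝓞 K))) s I‖)
    (fun v m => ‖tau27 a a' (S : Set (HeightOneSpectrum (𝓞 K))) s v m‖) ?_ ?_ ?_ T).2
  · rw [hS27_top, norm_one]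
  · intro T v hv J hJ m
    rw [hS27_mulPow a a' _ s hv hJ, norm_mul]
  · intro v
    simpa only [norm_norm] using summable_norm_tau27 hH hs v

theorem prod_tsum_norm_le (T : Finset (HeightOneSpectrum (𝓞 K))) :
    ∏ v ∈ T, ∑' m : ℕ, ‖tau27 a a' (S : Set (HeightOneSpectrum (𝓞 K))) s v m‖
      ≤ Real.exp (10 * ∑' v : HeightOneSpectrum (𝓞 K), nv v ^ (-s)) := by
  have h1 : ∏ v ∈ T, ∑' m : ℕ, ‖tau27 a a' (S : Set (HeightOneSpectrum (𝓞 K))) s v m‖
      ≤ ∏ v ∈ T, Real.exp (10 * nv v ^ (-s)) :=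
    Finset.prod_le_prod (fun v _ => tsum_nonneg fun _ => norm_nonneg _)
      (fun v _ => tsum_norm_tau27_le hH hs v)
  refine le_trans h1 ?_
  rw [← Real.exp_sum, Real.exp_le_exp, ← Finset.mul_sum]
  refine mul_le_mul_of_nonneg_left ?_ (by norm_num)
  exact (hP s hs).sum_le_tsum T (fun v _ => nv_rpow_nonneg v s)

theorem summable_norm_hS27 :
    Summable fun I : Ideal (𝓞 K) => ‖hS27 a a' (S : Set (HeightOneSpectrum (𝓞 K))) s I‖ := by
  refine summable_of_IT27 _ (fun _ => norm_nonneg _) ?_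
    (Real.exp (10 * ∑' v : HeightOneSpectrum (𝓞 K), nv v ^ (-s))) (fun T => ?_)
  · rw [hS27_bot, norm_zero]
  · exact ⟨_, hasSum_norm_IT27 hP hH hs T, prod_tsum_norm_le hP hH hs T⟩

theorem hasSum_IT27_hS27 (T : Finset (HeightOneSpectrum (𝓞 K))) :
    HasSum (fun I : IT27 T => hS27 a a' (S : Set (HeightOneSpectrum (𝓞 K))) s I)
      (∏ v ∈ T, ∑' m : ℕ, tau27 a a' (S : Set (HeightOneSpectrum (𝓞 K))) s v m) := by
  classical
  refine (hasSum_IT27 (R := ℂ)
    (fun I => hS27 a a' (S : Set (HeightOneSpectrum (𝓞 K))) s I)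
    (fun v m => tau27 a a' (S : Set (HeightOneSpectrum (𝓞 K))) s v m) ?_ ?_ ?_ T).2
  · exact hS27_top a a' _ s
  · intro T v hv J hJ m
    exact hS27_mulPow a a' _ s hv hJ m
  · intro v
    exact summable_norm_tau27 hH hs v

theorem tendsto_prod_dSer :
    Tendsto (fun T : Finset (HeightOneSpectrum (𝓞 K)) =>
        ∏ v ∈ T, ∑' m : ℕ, tau27 a a' (S : Set (HeightOneSpectrum (𝓞 K))) s v m) atTop
      (𝓝 (dSer (coef2 a a' (S : Set (HeightOneSpectrum (𝓞 K)))) s)) := by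
  have h := tendsto_IT27 (fun I => hS27 a a' (S : Set (HeightOneSpectrum (𝓞 K))) s I)
    (hS27_bot a a' _ s) (summable_norm_hS27 hP hH hs).of_norm _
    (fun T => hasSum_IT27_hS27 hP hH hs T)
  exact h

end Global

/-! ## The logarithm -/

/-- The local factor `F_v`. -/
def F27 (a a' : HeightOneSpectrum (𝓞 K) → ℂ) (S : Finset (HeightOneSpectrum (𝓞 K))) (s : ℝ)
    (v : HeightOneSpectrum (𝓞 K)) : ℂ :=
  ∑' m : ℕ, tau27 a a' (S : Set (HeightOneSpectrum (𝓞 K))) s v m

/-- `log ‖F_v‖`. -/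
def ell27 (a a' : HeightOneSpectrum (𝓞 K) → ℂ) (S : Finset (HeightOneSpectrum (𝓞 K))) (s : ℝ)
    (v : HeightOneSpectrum (𝓞 K)) : ℝ :=
  Real.log ‖F27 a a' S s v‖

section Log

variable {a a' : HeightOneSpectrum (𝓞 K) → ℂ} {S : Finset (HeightOneSpectrum (𝓞 K))}
  (hP : PlaceSumC K) (hH : Hyp27 a a' S) {s : ℝ} (hs : 1 < s)

theorem F27_of_mem (a a' : HeightOneSpectrum (𝓞 K) → ℂ) {S : Finset (HeightOneSpectrum (𝓞 K))}
    (s : ℝ) {v : HeightOneSpectrum (𝓞 K)} (hv : v ∈ S) : F27 a a' S s v = 1 :=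
  tsum_tau27_of_mem a a' _ s (by exact_mod_cast hv)

theorem F27_of_notMem (a a' : HeightOneSpectrum (𝓞 K) → ℂ)
    {S : Finset (HeightOneSpectrum (𝓞 K))} (s : ℝ) {v : HeightOneSpectrum (𝓞 K)} (hv : v ∉ S) :
    F27 a a' S s v = ∑' m : ℕ, lt27 (a v) (a' v) (nv v ^ (-s)) m := by
  have hv' : v ∉ (S : Set (HeightOneSpectrum (𝓞 K))) := by exact_mod_cast hv
  unfold F27
  simp only [tau27_of_notMem a a' _ s hv']

theorem ell27_of_mem (a a' : HeightOneSpectrum (𝓞 K) → ℂ)
    {S : Finset (HeightOneSpectrum (𝓞 K))} (s : ℝ) {v : HeightOneSpectrum (𝓞 K)} (hv : v ∈ S) :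
    ell27 a a' S s v = 0 := by
  unfold ell27
  rw [F27_of_mem a a' s hv, norm_one, Real.log_one]

include hH hs

theorem F27_ne_zero (v : HeightOneSpectrum (𝓞 K)) : F27 a a' S s v ≠ 0 := by
  by_cases hv : v ∈ S
  · rw [F27_of_mem a a' s hv]
    exact one_ne_zero
  · rw [F27_of_notMem a a' s hv]
    exact tsum_lt27_ne_zero (hH v hv).2.1 (hH v hv).2.2 (nv_rpow_nonneg v s) (x_le27 hH hs hv)

theorem abs_ell27_le (v : HeightOneSpectrum (𝓞 K)) :
    |ell27 a a' S s v| ≤ 6 * nv v ^ (-s) := by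
  by_cases hv : v ∈ S
  · rw [ell27_of_mem a a' s hv, abs_zero]
    exact mul_nonneg (by norm_num) (nv_rpow_nonneg v s)
  · unfold ell27
    rw [F27_of_notMem a a' s hv]
    exact abs_log_norm_tsum_lt27_le (hH v hv).2.1 (hH v hv).2.2 (nv_rpow_nonneg v s)
      (x_le27 hH hs hv)

theorem sq_x_le27 (v : HeightOneSpectrum (𝓞 K)) :
    (nv v ^ (-s)) ^ 2 ≤ nv v ^ (-(2 : ℝ)) := by
  have h0 : (0 : ℝ) ≤ nv v := le_trans zero_le_one (one_le_nv v)
  have h1 : (nv v ^ (-s)) ^ 2 = nv v ^ (-s * 2) := by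
    rw [← Real.rpow_natCast, ← Real.rpow_mul h0]
    norm_num
  rw [h1]
  exact Real.rpow_le_rpow_of_exponent_le (one_le_nv v) (by linarith)

theorem abs_ell27_sub_le (v : HeightOneSpectrum (𝓞 K)) :
    |ell27 a a' S s v - (S : Set (HeightOneSpectrum (𝓞 K)))ᶜ.indicator
        (fun v => (a v * conj (a' v)).re * nv v ^ (-s)) v| ≤ 115 * nv v ^ (-(2 : ℝ)) := by
  by_cases hv : v ∈ S
  · have hv' : v ∉ (S : Set (HeightOneSpectrum (𝓞 K)))ᶜ := fun h => h (by exact_mod_cast hv)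
    rw [ell27_of_mem a a' s hv, Set.indicator_of_notMem hv', sub_zero, abs_zero]
    exact mul_nonneg (by norm_num) (Real.rpow_nonneg (le_trans zero_le_one (one_le_nv v)) _)
  · have hv' : v ∈ (S : Set (HeightOneSpectrum (𝓞 K)))ᶜ := by
      show v ∉ (S : Set (HeightOneSpectrum (𝓞 K)))
      exact_mod_cast hv
    rw [Set.indicator_of_mem hv']
    unfold ell27
    rw [F27_of_notMem a a' s hv]
    refine le_trans (abs_log_norm_tsum_lt27_sub_le (hH v hv).2.1 (hH v hv).2.2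
      (nv_rpow_nonneg v s) (x_le27 hH hs hv)) ?_
    exact mul_le_mul_of_nonneg_left (sq_x_le27 hH hs v) (by norm_num)

include hP

theorem summable_ell27 : Summable fun v : HeightOneSpectrum (𝓞 K) => ell27 a a' S s v := by
  refine Summable.of_norm_bounded ((hP s hs).mul_left 6) (fun v => ?_)
  rw [Real.norm_eq_abs]
  exact abs_ell27_le hH hs v

theorem norm_dSer_eq27 :
    ‖dSer (coef2 a a' (S : Set (HeightOneSpectrum (𝓞 K)))) s‖
      = Real.exp (∑' v : HeightOneSpectrum (𝓞 K), ell27 a a' S s v) := by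
  have h1 := (tendsto_prod_dSer hP hH hs).norm
  have h2 : Tendsto (fun T : Finset (HeightOneSpectrum (𝓞 K)) => ∑ v ∈ T, ell27 a a' S s v)
      atTop (𝓝 (∑' v : HeightOneSpectrum (𝓞 K), ell27 a a' S s v)) :=
    (summable_ell27 hP hH hs).hasSum
  have h3 := (Real.continuous_exp.tendsto _).comp h2
  have h4 : (fun T : Finset (HeightOneSpectrum (𝓞 K)) =>
      ‖∏ v ∈ T, ∑' m : ℕ, tau27 a a' (S : Set (HeightOneSpectrum (𝓞 K))) s v m‖)
      = Real.exp ∘ fun T : Finset (HeightOneSpectrum (𝓞 K)) => ∑ v ∈ T, ell27 a a' S s v := by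
    funext T
    rw [Function.comp_apply, Real.exp_sum, norm_prod]
    refine Finset.prod_congr rfl (fun v _ => ?_)
    unfold ell27
    rw [Real.exp_log (norm_pos_iff.mpr (F27_ne_zero hH hs v))]
    rfl
  rw [h4] at h1
  exact tendsto_nhds_unique h1 h3

end Log

/-- **LEAF T7.14.1 `EulerLogC`**, with `Q₀ = 100`. -/
theorem eulerLogC27 (K : Type) [Field K] [NumberField K] : EulerLogC K := by
  intro hP
  refine ⟨100, fun a a' S hH => ⟨fun s hs => ?_,
    115 * ∑' v : HeightOneSpectrum (𝓞 K), nv v ^ (-(2 : ℝ)), fun s hs1 hs2 => ?_⟩⟩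
  · have h := summable_norm_hS27 hP hH hs
    simpa only [norm_hS27] using h
  · have hnorm := norm_dSer_eq27 hP hH hs1
    constructor
    · intro h0
      rw [h0, norm_zero] at hnorm
      exact (Real.exp_pos _).ne hnorm
    · rw [hnorm, Real.log_exp]
      have hsumE := summable_ell27 hP hH hs1
      have hsumI : Summable fun v : HeightOneSpectrum (𝓞 K) =>
          (S : Set (HeightOneSpectrum (𝓞 K)))ᶜ.indicator
            (fun v => (a v * conj (a' v)).re * nv v ^ (-s)) v :=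
        summable_indicator_of_bound hP (S : Set (HeightOneSpectrum (𝓞 K)))
          (fun v => (a v * conj (a' v)).re) 4 (fun v hv => by
            have hv' : v ∉ S := by exact_mod_cast hv
            exact abs_re_mul_conj_le (hH v hv').2.1 (hH v hv').2.2) hs1
      have h2 := hP 2 (by norm_num)
      unfold wSum
      rw [← hsumE.tsum_sub hsumI]
      have hbound : ∀ v : HeightOneSpectrum (𝓞 K),
          ‖ell27 a a' S s v - (S : Set (HeightOneSpectrum (𝓞 K)))ᶜ.indicator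
            (fun v => (a v * conj (a' v)).re * nv v ^ (-s)) v‖ ≤ 115 * nv v ^ (-(2 : ℝ)) :=
        fun v => by
          rw [Real.norm_eq_abs]
          exact abs_ell27_sub_le hH hs1 v
      have hsumN : Summable fun v : HeightOneSpectrum (𝓞 K) =>
          ‖ell27 a a' S s v - (S : Set (HeightOneSpectrum (𝓞 K)))ᶜ.indicator
            (fun v => (a v * conj (a' v)).re * nv v ^ (-s)) v‖ :=
        Summable.of_nonneg_of_le (fun _ => norm_nonneg _) hbound (h2.mul_left 115)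
      rw [← Real.norm_eq_abs]
      refine le_trans (norm_tsum_le_tsum_norm hsumN) ?_
      rw [← tsum_mul_left]
      exact hsumN.tsum_le_tsum hbound (h2.mul_left 115)

end Fermat.Agent.LT.T7.H27

end

end
-- ===== PACK-END LT/T7/H27/EulerLog.lean

-- ===== PACK-BEGIN LT/T7/H724/CountMeas.lean
section




/-!
# Row LT, tower T7, node T7.14 `RigidC`, leaf T7.14.3a `CountMeasC` (helper724, registry 1656)

OFF-MAIN.  `g ↦ cnt 𝔪 Y g` is Borel measurable on `GL₂(𝔸_K)`.  Imports the cut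
`LT/T7/H671/CountSpec.lean` (helper671, sha256 4766156d) byte-identically; nothing is assumed
(`TotCplx K`, `𝔪 ≠ ⊥`, `0 < Y` are not used).

`ℙ¹(K)` and the set of finite places are countable.  For a fixed point `x` of `ℙ¹(K)` the set
`{g | x ∈ cntSet 𝔪 Y g}` is measurable: the local factors of `rowNorm` and `adNorm` are continuous
in `g`, a `finprod` of countably many measurable functions is measurable
(`measurable_finprod724`), and the congruence condition at `v` is (open minus open) ∪ closed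
(`measurableSet_ratio724`).  Then `measurable_natCard724`.  No finiteness (Northcott) is needed.
-/

set_option autoImplicit false

open AutomorphicForm IsDedekindDomain NumberField MeasureTheory

noncomputable section

namespace Fermat.Agent.LT.T7.H724

open Fermat.Agent.LT.H556 Fermat.Agent.LT.H556.A0 Fermat.Agent.LT.T7 Fermat.Agent.LT.T7.Rigid

attribute [local instance] Fermat.Agent.LT.T5.instMeasurableSpaceG

variable (K : Type) [Field K] [NumberField K]

/-! ## Countability -/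

theorem countable_field724 : Countable K :=
  (Module.finBasis ℚ K).equivFun.toEquiv.countable_iff.mpr inferInstance

theorem countable_ideal724 : Countable (Ideal (𝓞 K)) := by
  have : Countable K := countable_field724 K
  have : Countable (𝓞 K) := Subtype.countable
  have hs : Function.Surjective (fun s : Finset (𝓞 K) => Ideal.span (s : Set (𝓞 K))) := by
    intro I
    obtain ⟨s, hs⟩ := (IsNoetherian.noetherian I : I.FG)
    exact ⟨s, hs⟩
  exact hs.countable

theorem countable_places724 : Countable (HeightOneSpectrum (𝓞 K)) := by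
  have : Countable (Ideal (𝓞 K)) := countable_ideal724 K
  have hi : Function.Injective (fun v : HeightOneSpectrum (𝓞 K) => v.asIdeal) :=
    fun v w h => HeightOneSpectrum.ext h
  exact hi.countable

theorem countable_proj724 : Countable (Projectivization K (Fin 2 → K)) := by
  have : Countable K := countable_field724 K
  have hs : Function.Surjective
      (fun v : {v : Fin 2 → K // v ≠ 0} => Projectivization.mk K v.1 v.2) := by
    intro x
    exact ⟨⟨x.rep, x.rep_nonzero⟩, x.mk_rep⟩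
  exact hs.countable

variable {K}

/-! ## Continuity of the local components -/

theorem continuous_fin724 (v : HeightOneSpectrum (𝓞 K)) :
    Continuous (fun a : Adl K => a.2 v) :=
  (RestrictedProduct.continuous_eval v).comp continuous_snd

theorem continuous_inf724 (w : InfinitePlace K) :
    Continuous (fun a : Adl K => a.1 w) :=
  (continuous_apply w).comp continuous_fst

theorem continuous_entry724 (i j : Fin 2) :
    Continuous (fun g : G K => (g : Matrix (Fin 2) (Fin 2) (Adl K)) i j) := by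
  fun_prop

theorem continuous_rowOf724 (x : Fin 2 → K) (j : Fin 2) :
    Continuous (fun g : G K => rowOf x g j) := by
  unfold rowOf
  exact (continuous_const.mul (continuous_entry724 0 j)).add
    (continuous_const.mul (continuous_entry724 1 j))

theorem continuous_det724 :
    Continuous (fun g : G K => Matrix.det (g : Matrix (Fin 2) (Fin 2) (Adl K))) := by
  have : (fun g : G K => Matrix.det (g : Matrix (Fin 2) (Fin 2) (Adl K)))
      = fun g : G K => (g : Matrix (Fin 2) (Fin 2) (Adl K)) 0 0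
          * (g : Matrix (Fin 2) (Fin 2) (Adl K)) 1 1
        - (g : Matrix (Fin 2) (Fin 2) (Adl K)) 0 1 * (g : Matrix (Fin 2) (Fin 2) (Adl K)) 1 0 := by
    funext g
    exact Matrix.det_fin_two _
  rw [this]
  exact ((continuous_entry724 0 0).mul (continuous_entry724 1 1)).sub
    ((continuous_entry724 0 1).mul (continuous_entry724 1 0))

/-! ## Measurability of the two heights -/

theorem borelSpaceG724 : BorelSpace (G K) := ⟨rfl⟩

theorem measurable_rowNorm724 (x : Fin 2 → K) :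
    Measurable (fun g : G K => rowNorm (rowOf x g)) := by
  have : BorelSpace (G K) := borelSpaceG724
  have : Countable (HeightOneSpectrum (𝓞 K)) := countable_places724 K
  unfold rowNorm
  refine Measurable.mul ?_ ?_
  · refine Finset.measurable_prod _ fun w _ => ?_
    refine Measurable.pow_const ?_ _
    refine Measurable.add ?_ ?_
    · exact ((continuous_norm.comp ((continuous_inf724 w).comp
        (continuous_rowOf724 x 0))).measurable).pow_const 2
    · exact ((continuous_norm.comp ((continuous_inf724 w).comp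
        (continuous_rowOf724 x 1))).measurable).pow_const 2
  · refine measurable_finprod724 _ fun v => ?_
    refine Measurable.max ?_ ?_
    · exact (continuous_norm.comp ((continuous_fin724 v).comp
        (continuous_rowOf724 x 0))).measurable
    · exact (continuous_norm.comp ((continuous_fin724 v).comp
        (continuous_rowOf724 x 1))).measurable

theorem measurable_adNormDet724 :
    Measurable (fun g : G K =>
      Fermat.Agent.LT.T5.adNorm (Matrix.det (g : Matrix (Fin 2) (Fin 2) (Adl K)))) := by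
  have : BorelSpace (G K) := borelSpaceG724
  have : Countable (HeightOneSpectrum (𝓞 K)) := countable_places724 K
  unfold Fermat.Agent.LT.T5.adNorm
  refine Measurable.mul ?_ ?_
  · refine Finset.measurable_prod _ fun w _ => ?_
    exact ((continuous_norm.comp ((continuous_inf724 w).comp continuous_det724)).measurable).pow_const _
  · refine measurable_finprod724 _ fun v => ?_
    exact (continuous_norm.comp ((continuous_fin724 v).comp continuous_det724)).measurable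

/-! ## The congruence condition -/

theorem measurableSet_cong724 (𝔪 : Ideal (𝓞 K)) (x : Fin 2 → K)
    (v : HeightOneSpectrum (𝓞 K)) :
    MeasurableSet {g : G K | ∃ t ∈ idealClosure 𝔪 v,
      (rowOf x g 0).2 v = t * (rowOf x g 1).2 v} := by
  have : BorelSpace (G K) := borelSpaceG724
  exact measurableSet_ratio724 (fun g : G K => (rowOf x g 0).2 v)
    (fun g : G K => (rowOf x g 1).2 v)
    ((continuous_fin724 v).comp (continuous_rowOf724 x 0))
    ((continuous_fin724 v).comp (continuous_rowOf724 x 1))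
    (idealClosure 𝔪 v) isClosed_closure

theorem measurableSet_mem_cntSet724 (𝔪 : Ideal (𝓞 K)) (Y : ℝ)
    (x : Projectivization K (Fin 2 → K)) :
    MeasurableSet {g : G K | x ∈ cntSet 𝔪 Y g} := by
  have : Countable (HeightOneSpectrum (𝓞 K)) := countable_places724 K
  have h : {g : G K | x ∈ cntSet 𝔪 Y g}
      = {g : G K | rowNorm (rowOf x.rep g) ^ 2 * Y
          ≤ Fermat.Agent.LT.T5.adNorm (Matrix.det (g : Matrix (Fin 2) (Fin 2) (Adl K)))}
        ∩ ⋂ v : HeightOneSpectrum (𝓞 K),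
          {g : G K | v.asIdeal ∣ 𝔪 → ∃ t ∈ idealClosure 𝔪 v,
            (rowOf x.rep g 0).2 v = t * (rowOf x.rep g 1).2 v} := by
    ext g
    simp only [cntSet, Set.mem_ofPred_eq, Set.mem_inter_iff, Set.mem_iInter]
  rw [h]
  refine MeasurableSet.inter ?_ (MeasurableSet.iInter fun v => ?_)
  · exact measurableSet_le (((measurable_rowNorm724 x.rep).pow_const 2).mul_const Y)
      measurable_adNormDet724
  · by_cases hv : v.asIdeal ∣ 𝔪
    · simp only [hv, forall_const]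
      exact measurableSet_cong724 𝔪 x.rep v
    · simp only [hv, IsEmpty.forall_iff, Set.ofPred_true]
      exact MeasurableSet.univ

/-! ## The leaf -/

/-- **Leaf T7.14.3a `CountMeasC`.** -/
theorem countMeasC724 : H671.CountMeasC K := by
  intro _ 𝔪 _ Y _
  have : Countable (Projectivization K (Fin 2 → K)) := countable_proj724 K
  exact measurable_natCard724 (fun x => {g : G K | x ∈ cntSet 𝔪 Y g})
    (fun x => measurableSet_mem_cntSet724 𝔪 Y x)

end Fermat.Agent.LT.T7.H724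

end

end
-- ===== PACK-END LT/T7/H724/CountMeas.lean

-- ===== PACK-BEGIN LT/T7/H227/CovolSpec.lean
section



/-!
# Row LT, tower T7, node T7.14, leaf T7.14.3c `CovolC` (helper671): SUB-SPEC (helper227), OFF-MAIN

Definitions + frozen sub-leaf Props.  The PROVED top is in `CovolTop.lean`:

* `covolC_of_leaves227 : TopoC227 K → LatC227 K → SliceC227 K → StrictC227 K → H671.CovolC K`.

## The cut (plan (2) of helper671, registry row 1747)

`𝔸² = Fin 2 → Adl K` (row vectors), `μ` a Haar measure of `𝔸²` (Borel σ-algebra),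
`U = intRows227 K` the rows which are integral at every finite place,
`pairOf671 : 𝔸² → (K_∞)²` the infinite part, `Λ_g = latG671 g`.

* `TopoC227`  : `U` is open and `pairOf671` is continuous (so everything is measurable).
* `LatC227`   : `Λ_g` is a lattice of `(K_∞)²` (discrete, spans).
* `SliceC227` : `μ (U ∩ pairOf671 ⁻¹' A) = c · vol A` with `0 < c < ∞`
  (`A ↦ μ (U ∩ pairOf671 ⁻¹' A)` is a Haar measure of `(K_∞)²`).
* `StrictC227`: if `D` is a STRICT fundamental domain of `Λ_g` in `(K_∞)²` then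
  `{r : r g ∈ U, pairOf671 (r g) ∈ D}` is a strict fundamental domain of `K²` in `𝔸²`
  (strong approximation; pure algebra, no measure).

TOP: `μ {r : r g ∈ U, pairOf (r g) ∈ D_g} = ‖det g‖⁻¹ c vol D_g` (`haarScale_GL2_vecMul671`), and
all fundamental domains of `K²` have the same measure; so `covol Λ_g = ‖det g‖ covol Λ_1`.
-/

set_option autoImplicit false
set_option linter.unusedSectionVars false

open NumberField NumberField.mixedEmbedding NumberField.InfinitePlace IsDedekindDomain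
  MeasureTheory
open scoped ENNReal Matrix

noncomputable section

namespace Fermat.Agent.LT.T7.H227

open Fermat.Agent.LT.H556 Fermat.Agent.LT.H556.A0 Fermat.Agent.LT.T7.Rigid
  Fermat.Agent.LT.T7.H671

variable (K : Type) [Field K] [NumberField K]

/-- The diagonal embedding `K² → 𝔸²`. -/
def emb227 : (Fin 2 → K) →+ (Fin 2 → Adl K) where
  toFun x := fun j => algebraMap K (Adl K) (x j)
  map_zero' := by funext j; simp
  map_add' x y := by funext j; simp

/-- The principal rows `K² ⊂ 𝔸²`. -/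
def princ2_227 : AddSubgroup (Fin 2 → Adl K) := (emb227 K).range

/-- The rows which are integral at every finite place. -/
def intRows227 : Set (Fin 2 → Adl K) := {r | IsIntRow671 r}

open scoped Classical in
/-- **T7.14.3c.T (topology).**  The integral rows are open and the infinite part is continuous. -/
def TopoC227 : Prop :=
  IsOpen (intRows227 K) ∧ Continuous (pairOf671 : (Fin 2 → Adl K) → Pair671 K)

open scoped Classical in
/-- **T7.14.3c.L (lattice).**  `latG671 g` is discrete and spans `(K_∞)²`. -/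
def LatC227 : Prop :=
  ∀ g : G K, ∃ (_ : DiscreteTopology (latG671 g)), IsZLattice ℝ (latG671 g)

open scoped Classical in
/-- **T7.14.3c.S (slice).**  For a Haar measure `μ` of `𝔸²` the measure
`A ↦ μ (U ∩ pairOf671 ⁻¹' A)` of `(K_∞)²` is a positive finite multiple of the volume. -/
def SliceC227 : Prop :=
  letI : MeasurableSpace (Fin 2 → Adl K) := borel (Fin 2 → Adl K)
  ∀ μ : Measure (Fin 2 → Adl K), μ.IsAddHaarMeasure →
    ∃ c : ℝ≥0∞, c ≠ 0 ∧ c ≠ ⊤ ∧ ∀ A : Set (Pair671 K), MeasurableSet A →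
      μ (intRows227 K ∩ pairOf671 ⁻¹' A) = c * volume A

open scoped Classical in
/-- **T7.14.3c.F (strict fundamental domain).**  If every `e ∈ (K_∞)²` has exactly one translate
by `latG671 g` in `D`, then every row `r ∈ 𝔸²` has exactly one translate `ξ + r`, `ξ ∈ K²`, with
`(ξ + r) g` integral and `pairOf671 ((ξ + r) g) ∈ D`. -/
def StrictC227 : Prop :=
  ∀ (g : G K) (D : Set (Pair671 K)),
    (∀ e : Pair671 K, ∃! l : latG671 g, (l : Pair671 K) + e ∈ D) →
    ∀ r : Fin 2 → Adl K, ∃! x : Fin 2 → K,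
      IsIntRow671 ((emb227 K x + r) ᵥ* (g : Matrix (Fin 2) (Fin 2) (Adl K))) ∧
        pairOf671 ((emb227 K x + r) ᵥ* (g : Matrix (Fin 2) (Fin 2) (Adl K))) ∈ D

end Fermat.Agent.LT.T7.H227

end

end
-- ===== PACK-END LT/T7/H227/CovolSpec.lean

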