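import Mathlib
import Fermat.Agent.Pack.LT2.E2L2
import Fermat.Agent.Pack.LT2.E13L0
import Fermat.Agent.Pack.LT2.E13L1
import Fermat.Agent.Pack.LT2.E3L1
import Fermat.Agent.Pack.LT2.E10L0
import Fermat.Agent.Pack.LT2.E1L0
import Fermat.Agent.Pack.LT2.E6L3
import Fermat.Agent.Pack.LT2.E7L2
import Fermat.Agent.Pack.LT2.E3L0
import Fermat.Agent.Pack.LT2.E12L3
import Fermat.Agent.Pack.LT2.E13L2
import Fermat.Agent.Pack.LT2.E7L3
import Fermat.Agent.Pack.LT2.E2L1
import Fermat.Agent.Pack.LT2.E13L3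
import Fermat.Agent.Pack.LT2.E1L3
import Fermat.Agent.Pack.LT2.E12L2
import Fermat.Agent.Pack.LT2.E5L3
import Fermat.Agent.Pack.LT2.E6L0
import Fermat.Agent.Pack.LT2.E14L2

set_option linter.all false

-- ===== PACK-BEGIN LT/T3/H127/PerpC.lean
section




/-!
# Row LT, tower T3, leaf T3.03 (helper127): `PerpC K`, UNCONDITIONAL

OFF-MAIN.  `perpC127 : Fermat.Agent.LT.T3.PerpC K` for every number field `K`: for EVERY standard
character `ψ` of `𝔸_K` (continuous, trivial on `K`, non-trivial), `ψ (x K) = 1` implies `x ∈ K`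
(Tate's thesis, Theorem 4.1.4).

Proof without Pontryagin duality and without self-duality (T3.02 is NOT used):
`K^⊥` is a closed `K`-subspace of `𝔸_K` containing `K`; it is discrete (`exists_isOpen_perp`:
no small subgroups, dyadic descent at infinity, strong approximation via Minkowski in the dual
form `trivial_of_trivial_at_inf/fin`); `𝔸_K = K + adeleBox` with `adeleBox` compact (helper767);
hence `K^⊥ ∩ adeleBox` is finite, while `x ∈ K^⊥ ∖ K` would give the infinitely many distinct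
elements `η x - k_η`, `η ∈ K`.
-/

set_option autoImplicit false

open NumberField IsDedekindDomain IsDedekindDomain.HeightOneSpectrum

noncomputable section

namespace Fermat.Agent.LT.T3.H127

variable (K : Type) [Field K] [NumberField K]

/-- `K^⊥` as an additive subgroup of the adeles. -/
def perp (ψ : AddChar (AdeleRing (𝓞 K) K) Circle) : AddSubgroup (AdeleRing (𝓞 K) K) where
  carrier := {y | ∀ ξ : K, ψ (y * embA K ξ) = 1}
  zero_mem' := by
    intro ξ
    rw [zero_mul, AddChar.map_zero_eq_one]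
  add_mem' := by
    intro p q hp hq ξ
    rw [add_mul, AddChar.map_add_eq_mul, hp ξ, hq ξ, mul_one]
  neg_mem' := by
    intro p hp ξ
    rw [neg_mul, AddChar.map_neg_eq_inv, hp ξ, inv_one]

theorem mem_perp (ψ : AddChar (AdeleRing (𝓞 K) K) Circle) (y : AdeleRing (𝓞 K) K) :
    y ∈ perp K ψ ↔ ∀ ξ : K, ψ (y * embA K ξ) = 1 := Iff.rfl

theorem isClosed_perp (ψ : AddChar (AdeleRing (𝓞 K) K) Circle) (hc : Continuous ψ) :
    IsClosed (perp K ψ : Set (AdeleRing (𝓞 K) K)) := by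
  have : (perp K ψ : Set (AdeleRing (𝓞 K) K))
      = ⋂ ξ : K, (fun y : AdeleRing (𝓞 K) K => ψ (y * embA K ξ)) ⁻¹' {1} := by
    ext y
    simp only [Set.mem_iInter, Set.mem_preimage, Set.mem_singleton_iff]
    exact Iff.rfl
  rw [this]
  refine isClosed_iInter fun ξ => ?_
  exact isClosed_singleton.preimage (hc.comp (continuous_id.mul continuous_const))

theorem mul_mem_perp (ψ : AddChar (AdeleRing (𝓞 K) K) Circle) {y : AdeleRing (𝓞 K) K}
    (hy : y ∈ perp K ψ) (η : K) : embA K η * y ∈ perp K ψ := by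
  intro ξ
  have : embA K η * y * embA K ξ = y * embA K (η * ξ) := by
    rw [map_mul]; ring
  rw [this]
  exact hy _

theorem embA_mem_perp (ψ : AddChar (AdeleRing (𝓞 K) K) Circle)
    (htriv : ∀ ξ : K, ψ (embA K ξ) = 1) (k : K) : embA K k ∈ perp K ψ := by
  intro ξ
  rw [← map_mul]
  exact htriv _

theorem discreteTopology_perp (ψ : AddChar (AdeleRing (𝓞 K) K) Circle) (hc : Continuous ψ)
    (htriv : ∀ ξ : K, ψ (embA K ξ) = 1) (hnt : ∃ a : AdeleRing (𝓞 K) K, ψ a ≠ 1) :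
    DiscreteTopology (perp K ψ) := by
  obtain ⟨U, hU, h0, hUp⟩ := exists_isOpen_perp K ψ hc htriv hnt
  apply discreteTopology_of_isOpen_singleton_zero
  have : ({0} : Set (perp K ψ)) = (Subtype.val : perp K ψ → AdeleRing (𝓞 K) K) ⁻¹' U := by
    ext ⟨y, hy⟩
    simp only [Set.mem_singleton_iff, Set.mem_preimage]
    constructor
    · intro h
      have : y = 0 := congrArg Subtype.val h
      rw [this]
      exact h0
    · intro h
      exact Subtype.ext (hUp y h hy)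
  rw [this]
  exact hU.preimage continuous_subtype_val

/-- **T3.03 = `PerpC`** (Tate's thesis, Theorem 4.1.4), for every number field and EVERY standard
character. -/
theorem perpC127 : Fermat.Agent.LT.T3.PerpC K := by
  intro ψ hψ x hx
  have hc : Continuous ψ := hψ.cont
  have htriv : ∀ ξ : K, ψ (embA K ξ) = 1 := hψ.triv
  have hnt : ∃ a : AdeleRing (𝓞 K) K, ψ a ≠ 1 := hψ.nontriv
  by_contra hne
  have hne' : ∀ ξ₀ : K, x ≠ embA K ξ₀ := fun ξ₀ h => hne ⟨ξ₀, h⟩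
  have hxp : x ∈ perp K ψ := hx
  have hdisc := discreteTopology_perp K ψ hc htriv hnt
  -- the finite set `K^⊥ ∩ adeleBox`
  have hcomp : IsCompact ((Subtype.val : perp K ψ → AdeleRing (𝓞 K) K) ⁻¹'
      (Fermat.Agent.LT.H767.adeleBox K)) :=
    (isClosed_perp K ψ hc).isClosedEmbedding_subtypeVal.isCompact_preimage
      (Fermat.Agent.LT.H767.isCompact_adeleBox K)
  have hfin : ((Subtype.val : perp K ψ → AdeleRing (𝓞 K) K) ⁻¹'
      (Fermat.Agent.LT.H767.adeleBox K)).Finite := hcomp.finite_of_discrete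
  -- the representatives
  choose κ hκ using fun η : K => Fermat.Agent.LT.H767.exists_sub_mem_adeleBox K (embA K η * x)
  have hmem : ∀ η : K, embA K η * x - embA K (κ η) ∈ perp K ψ := fun η =>
    (perp K ψ).sub_mem (mul_mem_perp K ψ hxp η) (embA_mem_perp K ψ htriv _)
  let φ : K → ((Subtype.val : perp K ψ → AdeleRing (𝓞 K) K) ⁻¹'
      (Fermat.Agent.LT.H767.adeleBox K)) :=
    fun η => ⟨⟨embA K η * x - embA K (κ η), hmem η⟩, hκ η⟩
  have hinj : Function.Injective φ := by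
    intro η η' h
    by_contra hηη'
    have h1 : embA K η * x - embA K (κ η) = embA K η' * x - embA K (κ η') :=
      Subtype.ext_iff.mp (Subtype.ext_iff.mp h)
    have h2 : embA K (η - η') * x = embA K (κ η - κ η') := by
      rw [map_sub, map_sub, sub_mul]
      linear_combination h1
    have h3 : η - η' ≠ 0 := sub_ne_zero.mpr hηη'
    apply hne' ((η - η')⁻¹ * (κ η - κ η'))
    have h4 : embA K (η - η')⁻¹ * embA K (η - η') = 1 := by
      rw [← map_mul, inv_mul_cancel₀ h3, map_one]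
    calc x = (embA K (η - η')⁻¹ * embA K (η - η')) * x := by rw [h4, one_mul]
      _ = embA K (η - η')⁻¹ * (embA K (η - η') * x) := by ring
      _ = _ := by rw [h2, ← map_mul]
  have hF : Finite ((Subtype.val : perp K ψ → AdeleRing (𝓞 K) K) ⁻¹'
      (Fermat.Agent.LT.H767.adeleBox K)) := hfin
  have hFK : Finite K := Finite.of_injective φ hinj
  exact not_finite K

end Fermat.Agent.LT.T3.H127

end
end
-- ===== PACK-END LT/T3/H127/PerpC.lean

-- ===== PACK-BEGIN LT/T3/H263/SatAbs.lean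
section


/-!
# Row LT, tower T3, station T3.18a, leaf AS.1 `SatakeLocC` (helper263), OFF-MAIN -- part 1

Abstract nonarchimedean local field `k` (frame of tower T6: `Valued k Γ₀`, residue data
`H305.ResData`).  The functions

    T_{n,m} = 1{h : all entries in ϖ^m 𝒪, ord (det h) = n + 2m}        (n ≥ 0, m ∈ ℤ)

are bi-invariant under `GL₂(𝒪)`, their support is the union of the cosets of the Hermite forms
`ϖ^m [[ϖ^i, r], [0, ϖ^j]]`, `i + j = n`, `r ∈ R i` (helper305 `hnf`, `um_inj`), and a right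
invariant eigenfunction `Φ` of `T = T_{1,0}` and `S = T_{0,1}` (eigenvalues `t`, `s`) satisfies
`∑_h T_{n,m}(h) Φ(y h) = s^m α_n(t, s) Φ(y)` over ANY system of representatives covering the
support (helper305 `Aall_eq`).  Finite linear combinations are treated with one common system.

Imports: byte-identical copies of `LT/T6/Spec.lean` (helper22, v3) and `LT/T6/H305/*.lean`
(helper305).  Mathlib only otherwise.
-/

set_option autoImplicit false

noncomputable section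

namespace Fermat.Agent.LT.T3.H263

open Fermat.Agent.LT.T6 Fermat.Agent.LT.T6.H305

variable {k : Type} [Field k] [Valued k Γ₀]

/-- The support of `T_{n,m}`: all entries in `ϖ^m 𝒪` and `ord (det h) = n + 2m`. -/
def InS263 (n : ℕ) (m : ℤ) (h : GL (Fin 2) k) : Prop :=
  (∀ i j, Valued.v ((h : Matrix (Fin 2) (Fin 2) k) i j) ≤ WithZero.exp (-m)) ∧
    Valued.v (h : Matrix (Fin 2) (Fin 2) k).det = WithZero.exp (-((n : ℤ) + 2 * m))

theorem inS_mul_right263 {n : ℕ} {m : ℤ} {h κ : GL (Fin 2) k} (hS : InS263 n m h)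
    (hκ : InK κ) : InS263 n m (h * κ) := by
  refine ⟨fun i j => ?_, ?_⟩
  · rw [Units.val_mul, Matrix.mul_apply]
    refine Valuation.map_sum_le _ (fun l _ => ?_)
    rw [map_mul]
    calc Valued.v ((h : Matrix (Fin 2) (Fin 2) k) i l)
          * Valued.v ((κ : Matrix (Fin 2) (Fin 2) k) l j)
        ≤ WithZero.exp (-m) * 1 := mul_le_mul' (hS.1 i l) (hκ.1 l j)
      _ = WithZero.exp (-m) := mul_one _
  · rw [val_det_mul h κ hκ]
    exact hS.2

theorem inS_mul_left263 {n : ℕ} {m : ℤ} {h κ : GL (Fin 2) k} (hS : InS263 n m h)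
    (hκ : InK κ) : InS263 n m (κ * h) := by
  refine ⟨fun i j => ?_, ?_⟩
  · rw [Units.val_mul, Matrix.mul_apply]
    refine Valuation.map_sum_le _ (fun l _ => ?_)
    rw [map_mul]
    calc Valued.v ((κ : Matrix (Fin 2) (Fin 2) k) i l)
          * Valued.v ((h : Matrix (Fin 2) (Fin 2) k) l j)
        ≤ 1 * WithZero.exp (-m) := mul_le_mul' (hκ.1 i l) (hS.1 l j)
      _ = WithZero.exp (-m) := one_mul _
  · rw [Units.val_mul, Matrix.det_mul, map_mul, ((inK_iff κ).1 hκ).2, one_mul]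
    exact hS.2

theorem inS_mul_right_iff263 {n : ℕ} {m : ℤ} {h κ : GL (Fin 2) k} (hκ : InK κ) :
    InS263 n m (h * κ) ↔ InS263 n m h := by
  constructor
  · intro hS
    have := inS_mul_right263 hS (inK_inv hκ)
    rwa [mul_inv_cancel_right] at this
  · intro hS
    exact inS_mul_right263 hS hκ

/-- If `h` and `g` lie in the same coset of `GL₂(𝒪)` then `InS263` agrees on them. -/
theorem inS_congr263 {n : ℕ} {m : ℤ} {h g : GL (Fin 2) k} (hK : InK (h⁻¹ * g)) :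
    InS263 n m g ↔ InS263 n m h := by
  have e : g = h * (h⁻¹ * g) := by group
  rw [e]
  exact inS_mul_right_iff263 hK

namespace Res

variable (D : ResData k)

theorem sc_mul_apply263 (b : ℤ) (g : GL (Fin 2) k) (i j : Fin 2) :
    ((D.sc b * g : GL (Fin 2) k) : Matrix (Fin 2) (Fin 2) k) i j
      = D.ϖ ^ b * (g : Matrix (Fin 2) (Fin 2) k) i j := by
  rw [Units.val_mul, ResData.sc_val, Matrix.mul_apply, Fin.sum_univ_two]
  fin_cases i <;> simp

theorem det_sc_mul263 (b : ℤ) (g : GL (Fin 2) k) :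
    ((D.sc b * g : GL (Fin 2) k) : Matrix (Fin 2) (Fin 2) k).det
      = D.ϖ ^ b * D.ϖ ^ b * (g : Matrix (Fin 2) (Fin 2) k).det := by
  rw [Units.val_mul, Matrix.det_mul, ResData.sc_val, Matrix.det_fin_two_of]
  ring

theorem inS_sc_mul263 {n : ℕ} {m : ℤ} (b : ℤ) {g : GL (Fin 2) k} (hS : InS263 n m g) :
    InS263 n (m + b) (D.sc b * g) := by
  refine ⟨fun i j => ?_, ?_⟩
  · rw [sc_mul_apply263, map_mul, D.val_zpow]
    have e : (WithZero.exp (-(m + b)) : Γ₀) = WithZero.exp (-b) * WithZero.exp (-m) := by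
      rw [← WithZero.exp_add]
      congr 1
      ring
    rw [e]
    exact mul_le_mul' le_rfl (hS.1 i j)
  · rw [det_sc_mul263, map_mul, map_mul, D.val_zpow, hS.2, ← WithZero.exp_add,
      ← WithZero.exp_add]
    congr 1
    ring

theorem inS_um263 {i j : ℕ} {r : k} (hr : r ∈ D.R i) : InS263 (i + j) 0 (D.um i j r) := by
  refine ⟨fun a b => ?_, ?_⟩
  · rw [neg_zero, WithZero.exp_zero]
    rw [ResData.um_val]
    fin_cases a <;> fin_cases b
    · simpa using D.val_pow_le_one i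
    · simpa using D.R_int i r hr
    · simp
    · simpa using D.val_pow_le_one j
  · rw [D.val_det_um]
    simp

/-- The index set of the Hermite forms of determinant `ϖⁿ` (ALL of them, primitive or not). -/
def Jdx263 (n : ℕ) : Finset (Σ _ : ℕ × ℕ, k) :=
  (Finset.HasAntidiagonal.antidiagonal n).sigma (fun p => D.R p.1)

theorem mem_Jdx263 {n : ℕ} {x : Σ _ : ℕ × ℕ, k} :
    x ∈ Jdx263 D n ↔ x.1.1 + x.1.2 = n ∧ x.2 ∈ D.R x.1.1 := by
  simp [Jdx263, Finset.mem_sigma]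

theorem inS_fam263 (m : ℤ) {n : ℕ} {x : Σ _ : ℕ × ℕ, k} (hx : x ∈ Jdx263 D n) :
    InS263 n m (D.fam m x) := by
  obtain ⟨h1, h2⟩ := (mem_Jdx263 D).1 hx
  have h := inS_sc_mul263 D m (inS_um263 D (j := x.1.2) h2)
  rw [h1, zero_add] at h
  exact h

theorem fam_cover263 (m : ℤ) (n : ℕ) (g : GL (Fin 2) k) (hg : InS263 n m g) :
    ∃ x ∈ Jdx263 D n, InK ((D.fam m x)⁻¹ * g) := by
  have h0 : InS263 n 0 (D.sc (-m) * g) := by
    have := inS_sc_mul263 D (-m) hg
    rwa [add_neg_cancel] at this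
  have hint : ∀ i j, Valued.v (((D.sc (-m) * g : GL (Fin 2) k) :
      Matrix (Fin 2) (Fin 2) k) i j) ≤ 1 := by
    intro i j
    have := h0.1 i j
    rwa [neg_zero, WithZero.exp_zero] at this
  obtain ⟨i, j, r, hr, κ, hκ, hκe⟩ := D.hnf (D.sc (-m) * g) hint
  have hij : i + j = n := by
    have h1 := D.val_det_um i j r
    rw [← hκe, val_det_mul _ κ hκ, h0.2, WithZero.exp_inj] at h1
    omega
  refine ⟨⟨(i, j), r⟩, (mem_Jdx263 D).2 ⟨hij, hr⟩, ?_⟩
  rw [D.fam_inv_mul]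
  show InK ((D.um i j r)⁻¹ * (D.sc (-m) * g))
  rw [← hκe]
  have e : (D.sc (-m) * g * κ)⁻¹ * (D.sc (-m) * g) = κ⁻¹ := by group
  rw [e]
  exact inK_inv hκ

theorem fam_inj263 (m : ℤ) {n n' : ℕ} {x y : Σ _ : ℕ × ℕ, k} (hx : x ∈ Jdx263 D n)
    (hy : y ∈ Jdx263 D n') (h : InK ((D.fam m x)⁻¹ * D.fam m y)) : x = y := by
  obtain ⟨h1, h2⟩ := (mem_Jdx263 D).1 hx
  obtain ⟨h1', h2'⟩ := (mem_Jdx263 D).1 hy
  have e : (D.fam m x)⁻¹ * D.fam m y = (D.um x.1.1 x.1.2 x.2)⁻¹ * D.um y.1.1 y.1.2 y.2 := by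
    rw [D.fam_inv_mul, ResData.fam, ← mul_assoc (D.sc (-m)), ← D.sc_add]
    simp [D.sc_zero]
  rw [e] at h
  have hdet : Valued.v (D.um y.1.1 y.1.2 y.2 : Matrix (Fin 2) (Fin 2) k).det
      = Valued.v (D.um x.1.1 x.1.2 x.2 : Matrix (Fin 2) (Fin 2) k).det := by
    have e2 : D.um y.1.1 y.1.2 y.2
        = D.um x.1.1 x.1.2 x.2 * ((D.um x.1.1 x.1.2 x.2)⁻¹ * D.um y.1.1 y.1.2 y.2) := by
      group
    rw [e2]
    exact val_det_mul _ _ h
  rw [D.val_det_um, D.val_det_um, WithZero.exp_inj] at hdet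
  obtain ⟨e1, e2, e3⟩ := D.um_inj (by omega) h2 h2' h
  obtain ⟨⟨i, j⟩, r⟩ := x
  obtain ⟨⟨i', j'⟩, r'⟩ := y
  simp only at e1 e2 e3
  subst e1
  subst e2
  subst e3
  rfl

/-- The sum over all Hermite forms is `s^m` times the sum `Aall` of helper305. -/
theorem sum_Jdx_fam263 (Φ : GL (Fin 2) k → ℂ) (s : ℂ) (hs : s ≠ 0)
    (hS : ∀ g, Φ (g * D.sc 1) = s * Φ g) (m : ℤ) (n : ℕ) (g : GL (Fin 2) k) :
    ∑ x ∈ Jdx263 D n, Φ (g * D.fam m x) = s ^ m * D.Aall Φ n g := by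
  rw [Jdx263, Finset.sum_sigma]
  unfold ResData.Aall ResData.Fall
  rw [Finset.mul_sum]
  refine Finset.sum_congr rfl (fun p _ => ?_)
  rw [Finset.mul_sum]
  refine Finset.sum_congr rfl (fun r _ => ?_)
  rw [ResData.fam, D.sc_comm, ← mul_assoc, D.sc_zpow_eigen Φ s hs hS]

end Res

end Fermat.Agent.LT.T3.H263

end

end
-- ===== PACK-END LT/T3/H263/SatAbs.lean

-- ===== PACK-BEGIN LT/T5/H942/RegularOfIwahori.lean
section











/-!
# Row LT, tower T5, leaf T5.09 `RegularOfIwahori` — VERBATIM, UNCONDITIONAL (shadow by helper942)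

OFF-MAIN.  `regularOfIwahori942 s l k : T5.RegularOfIwahori s l k` for EVERY `s : AdelicAut K`,
`l`, `k` (so also for the frame of T4: `AdelicAut.id K`, `l = 1`, `k = ⊤`), against
`LT/T5/Spec.lean` v4 (helper32@eb7e4c138, sha256 f2d97e70, byte-identical copy; the
statement of T5.09 is unchanged since v2).

Proof (Flicker, *Regular trace formula and base change lifting*, §1; Langlands, *Base change for
GL(2)*, §4).  Let `g = x⁻¹ δ σ(x) z` be in the support, `γ = N(δ)`.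
(a) `N(g) = g σ(g) ⋯ σ^{l-1}(g) = x⁻¹ γ x · Z`, `Z` scalar (`NormG.lean`; uses `σ_𝔸^l = 1`,
    helper415).
(b) outside the orbit `N(g)` agrees with `N(h)`, `h ∈ C`, and `N(C)` is compact: the invariant
    `t = (tr γ)² / det γ` is integral outside `S ∪ O`, bounded by `B` on `S` and at the infinite
    places (`CompactBounds.lean`).
(c) at `o 0`: `σ^j(g)` is Iwahori for `0 < j < l`, so `N(g) ∈ I diag(c,1) I`, `|t| = |c|⁻¹`
    (`RegularLocal.lean`).
(d) `tr γ, det γ` are `σ`-fixed; if the characteristic polynomial had a root in `k`, then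
    `t = r + 2 + r⁻¹` with `r ∈ kˣ`, the absolute values of `r` along the orbit are tied
    together, and the product formula bounds `|t|_{o 0}` (`RegularOrbit.lean`): contradiction for
    `m ≥ m₀`.
-/

set_option autoImplicit false

open IsDedekindDomain NumberField

noncomputable section

namespace Fermat.Agent.LT.T5.H942

open Fermat.Agent.LT.H556.A0 Fermat.Agent.LT.T5 Fermat.Agent.LT.H942

variable {K : Type} [Field K] [NumberField K]

/-- The norm of an element of valuation `exp (-m)` is `ρ ^ m`, `0 < ρ < 1`. -/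
theorem exists_norm_base942 (v : HeightOneSpectrum (𝓞 K)) :
    ∃ ρ : ℝ, 0 < ρ ∧ ρ < 1 ∧ ∀ (c : v.adicCompletion K) (m : ℕ),
      Valued.v c = WithZero.exp (-(m : ℤ)) → ‖c‖ = ρ ^ m := by
  refine ⟨((WithZeroMulInt.toNNReal (HeightOneSpectrum.absNorm_ne_zero v)
    (WithZero.exp (-1 : ℤ)) : NNReal) : ℝ), ?_, ?_, ?_⟩
  · exact_mod_cast WithZeroMulInt.toNNReal_pos (HeightOneSpectrum.absNorm_ne_zero v)
      WithZero.exp_ne_zero
  · have h : (WithZero.exp (-1 : ℤ) : WithZero (Multiplicative ℤ)) < 1 := by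
      rw [← WithZero.exp_zero, WithZero.exp_lt_exp]
      norm_num
    exact_mod_cast (WithZeroMulInt.toNNReal_lt_one_iff
      (HeightOneSpectrum.one_lt_absNorm_nnreal v)).2 h
  · intro c m hc
    have e : (WithZero.exp (-(m : ℤ)) : WithZero (Multiplicative ℤ))
        = (WithZero.exp (-1 : ℤ)) ^ m := by
      rw [← WithZero.exp_nsmul]
      simp
    rw [FinitePlace.norm_def, hc, e, map_pow, NNReal.coe_pow]

/-- Valuations of a `σ`-fixed element along the orbit. -/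
theorem valued_orbit942 (s : AdelicAut K) (o : ℕ → HeightOneSpectrum (𝓞 K))
    (ho : ∀ j : ℕ, PlaceRel s (o j) (o (j + 1))) {y : K} (hy : s.σ y = y) (j : ℕ) :
    Valued.v ((algebraMap K (Adl K) y).2 (o j)) = Valued.v ((algebraMap K (Adl K) y).2 (o 0)) := by
  induction j with
  | zero => rfl
  | succ j ih =>
    have h := Fermat.Agent.LT.H415.valued_tau_fin415 s.σ (H415.hom415 s)
      (H415.continuous_hom415 s) (H415.compat_hom415 s) (H415.injective_hom415 s)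
      (o j) (o (j + 1)) (ho j) (algebraMap K (Adl K) y)
    rw [H415.compat_hom415 s, hy] at h
    rw [h, ih]

theorem one_lt_orbit942 (s : AdelicAut K) (o : ℕ → HeightOneSpectrum (𝓞 K))
    (ho : ∀ j : ℕ, PlaceRel s (o j) (o (j + 1))) {y : K} (hy : s.σ y = y) (j : ℕ)
    (h : 1 < FinitePlace.mk (o 0) y) : 1 ≤ FinitePlace.mk (o j) y := by
  have h0 : 1 < ‖(algebraMap K (Adl K) y).2 (o 0)‖ := h
  rw [Valued.toNormedField.one_lt_norm_iff, ← valued_orbit942 s o ho hy j,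
    ← Valued.toNormedField.one_lt_norm_iff] at h0
  exact h0.le

theorem diag_eq942 {F : Type*} [Field F] (c : F) :
    (!![c, 0; 0, 1] : Matrix (Fin 2) (Fin 2) F) = Matrix.diagonal ![c, 1] := by
  ext i j
  fin_cases i <;> fin_cases j <;> simp

/-- **T5.09 `RegularOfIwahori`, verbatim and unconditional.** -/
theorem regularOfIwahori942 (s : AdelicAut K) (l : ℕ) (k : Subfield K) :
    RegularOfIwahori s l k := by
  classical
  intro hc o C hC ho _hne
  have hl : 0 < l := hc.pos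
  -- the compact set `N(C)` and its bounds
  have hC' : IsCompact (normG942 s l '' C) := hC.image (continuous_normG942 s l)
  obtain ⟨S, B, hB, hSB⟩ := exists_bound_of_compact942 hC'
  set O : Finset (HeightOneSpectrum (𝓞 K)) := (Finset.range l).image o with hOdef
  have hOmem : ∀ v : HeightOneSpectrum (𝓞 K), v ∈ O ↔ ∃ j < l, v = o j := by
    intro v
    rw [hOdef, Finset.mem_image]
    constructor
    · rintro ⟨j, hj, rfl⟩
      exact ⟨j, Finset.mem_range.1 hj, rfl⟩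
    · rintro ⟨j, hj, rfl⟩
      exact ⟨j, Finset.mem_range.2 hj, rfl⟩
  set M : ℝ := (B + 3) ^ (Module.finrank ℚ K + (S ∪ O).card) with hMdef
  have hM1 : 1 ≤ M := one_le_pow₀ (by linarith)
  have hMpos : 0 < M := lt_of_lt_of_le one_pos hM1
  -- the threshold
  obtain ⟨ρ, hρ0, hρ1, hρ⟩ := exists_norm_base942 (o 0)
  obtain ⟨m₀, hm₀⟩ := exists_pow_lt_of_lt_one (inv_pos.2 hMpos) hρ1
  refine ⟨max m₀ 1, fun m hm φ hφ x δ z hz hne0 => ?_⟩
  have hm1 : 1 ≤ m := le_trans (le_max_right _ _) hm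
  have hmm₀ : m₀ ≤ m := le_trans (le_max_left _ _) hm
  have hρm : ρ ^ m < M⁻¹ :=
    lt_of_le_of_lt (pow_le_pow_of_le_one hρ0.le hρ1.le hmm₀) hm₀
  have hρm1 : ρ ^ m < 1 := pow_lt_one₀ hρ0.le hρ1 (by omega)
  -- the point of the support
  set g : G K := x⁻¹ * ratG δ * s.onG x * z with hgdef
  obtain ⟨⟨k₁, k₂, t', c, hk₁, hk₂, hcv, ht', hgc⟩, hiw, h, hhC, hagree⟩ := hφ g hne0
  have hcn : ‖c‖ = ρ ^ m := hρ c m hcv
  -- (a) the norm
  obtain ⟨Z, hZ, hN⟩ := normG_twisted942 s l k hc x δ hz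
  set γ : GL (Fin 2) K := s.normUpTo l δ with hγdef
  set t : K := (γ : Matrix (Fin 2) (Fin 2) K).trace ^ 2 / (γ : Matrix (Fin 2) (Fin 2) K).det
    with htdef
  have hfr : ∀ v : HeightOneSpectrum (𝓞 K), FinitePlace.mk v t =
      ‖(finComp v (normG942 s l g)).trace‖ ^ 2 / ‖(finComp v (normG942 s l g)).det‖ := by
    intro v
    rw [hN, ratio_mul_scalar_fin942 v _ hZ, ← finitePlace_ratio_eq942 v γ x]
  have hir : ∀ w : InfinitePlace K, w t =
      ‖(infComp w (normG942 s l g)).trace‖ ^ 2 / ‖(infComp w (normG942 s l g)).det‖ := by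
    intro w
    rw [hN, ratio_mul_scalar_inf942 w _ hZ, ← infinitePlace_ratio_eq942 w γ x]
  -- (b) outside the orbit
  have hag := agreeOutside_normG942 s l k hc o ho hagree l
  obtain ⟨hint, hbf, hbi⟩ := hSB (normG942 s l h) ⟨h, hhC, rfl⟩
  have hnotO : ∀ v : HeightOneSpectrum (𝓞 K), v ∉ O →
      v ∉ {v : HeightOneSpectrum (𝓞 K) | ∃ j < l, v = o j} := fun v hv hv' =>
    hv ((hOmem v).2 hv')
  have hout : ∀ v : HeightOneSpectrum (𝓞 K), v ∉ O → v ∉ S → FinitePlace.mk v t ≤ 1 := by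
    intro v hvO hvS
    rw [hfr v, hag.2 v (hnotO v hvO), div_le_one (norm_det_finComp_pos942 v _)]
    exact regular_adelic_of_integral942 v _ (hint v hvS).1 (hint v hvS).2
  have hSb : ∀ v ∈ S, v ∉ O → FinitePlace.mk v t ≤ B := by
    intro v _ hvO
    rw [hfr v, hag.2 v (hnotO v hvO), div_le_iff₀ (norm_det_finComp_pos942 v _)]
    exact hbf v
  have hinfb : ∀ w : InfinitePlace K, w t ≤ B := by
    intro w
    rw [hir w, hag.1 w, div_le_iff₀ (norm_det_infComp_pos942 w _)]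
    exact hbi w
  -- (c) at `o 0`
  have hu : FinitePlace.mk (o 0) t = (ρ ^ m)⁻¹ := by
    have hsplit : normG942 s l g = g * s.onG (normG942 s (l - 1) g) := by
      have e : l = (l - 1) + 1 := by omega
      conv_lhs => rw [e]
      rfl
    have hR := inIwahori_onG_normG942 s l k hc o ho g hiw
    have hk₂R : InIwahori (o 0) (k₂ * s.onG (normG942 s (l - 1) g)) :=
      inIwahori_mul942 (o 0) hk₂ hR
    have hcomp : finComp (o 0) (normG942 s l g)
        = finComp (o 0) k₁ * Matrix.diagonal ![c, 1]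
          * finComp (o 0) (k₂ * s.onG (normG942 s (l - 1) g)) := by
      rw [hsplit, finComp_mul942, hgc, finComp_mul942, finComp_mul942, ht', diag_eq942,
        finComp_mul942, Matrix.mul_assoc]
    have hc1 : ‖c‖ < 1 := by rw [hcn]; exact hρm1
    obtain ⟨htr, hdet⟩ := regular_adelic_of_iwahori942 (o 0) (normG942 s l g)
      (isIwahoriMat_of_inIwahori942 (o 0) hk₁) (isIwahoriMat_of_inIwahori942 (o 0) hk₂R)
      hc1 hcomp
    rw [hfr (o 0), htr, hdet, hcn]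
    simp
  -- (d) the characteristic polynomial of `γ` has no root in `k`
  have hτσ := trace_normUpTo_fixed942 s l k hc δ
  have hdσ := det_normUpTo_fixed942 s l k hc δ
  have hτk : (γ : Matrix (Fin 2) (Fin 2) K).trace ∈ k := (hc.fixed _).2 hτσ
  have hdk : (γ : Matrix (Fin 2) (Fin 2) K).det ∈ k := (hc.fixed _).2 hdσ
  have hd0 : (γ : Matrix (Fin 2) (Fin 2) K).det ≠ 0 := (Matrix.isUnits_det_units γ).ne_zero
  refine isEllRegOver_of_no_root942 k γ ⟨_, hτk⟩ ⟨_, hdk⟩ rfl rfl fun lam hlam => ?_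
  -- a root `lam ∈ k`
  have hlamK : (lam : K) ^ 2 - (γ : Matrix (Fin 2) (Fin 2) K).trace * (lam : K)
      + (γ : Matrix (Fin 2) (Fin 2) K).det = 0 := by
    have := congrArg (Subtype.val : k → K) hlam
    simpa using this
  set τ : K := (γ : Matrix (Fin 2) (Fin 2) K).trace with hτdef
  set d : K := (γ : Matrix (Fin 2) (Fin 2) K).det with hddef
  have hx0 : (lam : K) ≠ 0 := by
    intro h0
    apply hd0
    rw [h0] at hlamK
    simpa using hlamK
  have hprod : (lam : K) * (τ - lam) = d := by linear_combination -hlamK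
  have hy0 : τ - (lam : K) ≠ 0 := by
    intro h0
    apply hd0
    rw [← hprod, h0, mul_zero]
  set r : K := (τ - lam) / lam with hrdef
  have hr0 : r ≠ 0 := div_ne_zero hy0 hx0
  have hrk : r ∈ k := k.div_mem (k.sub_mem hτk lam.2) lam.2
  have hrσ : s.σ r = r := (hc.fixed r).1 hrk
  have hrσ' : s.σ r⁻¹ = r⁻¹ := by rw [map_inv₀, hrσ]
  have htr : t = r + 2 + r⁻¹ := by
    rw [htdef, ← hprod, hrdef]
    field_simp
    ring
  have hcore := orbit_regular_core942 (o 0) O S hB hr0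
    (fun v hv => by
      obtain ⟨j, -, rfl⟩ := (hOmem v).1 hv
      exact ⟨one_lt_orbit942 s o ho hrσ j, one_lt_orbit942 s o ho hrσ' j⟩)
    (fun v hvO hvS => by rw [← htr]; exact hout v hvO hvS)
    (fun v hv hvO => by rw [← htr]; exact hSb v hv hvO)
    (fun w => by rw [← htr]; exact hinfb w)
  rw [← htr, hu] at hcore
  -- `(ρ^m)⁻¹ ≤ M` contradicts `ρ^m < M⁻¹`
  have hρmpos : 0 < ρ ^ m := pow_pos hρ0 m
  have : M⁻¹ ≤ ρ ^ m := by
    rw [inv_le_comm₀ hMpos hρmpos]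
    exact hcore
  exact absurd hρm (not_lt.2 this)

/-- The frame of T4. -/
theorem regularOfIwahori_id942 : RegularOfIwahori (AdelicAut.id K) 1 ⊤ :=
  regularOfIwahori942 _ _ _

end Fermat.Agent.LT.T5.H942

end

end
-- ===== PACK-END LT/T5/H942/RegularOfIwahori.lean

-- ===== PACK-BEGIN LT/T5/H40/HS0Asm.lean
section




/-!
# Row LT, tower T5, leaf T5.02: ASSEMBLY of the estimate and adapters (helper40)

OFF-MAIN.
* `rayCentralC40 : RayCentralC K`                          (helper277 `ray_comm277`);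
* `kerContC_of40 : LocCompC → DiscreteC → AdNormC → KerContC K` (helper873 `continuous_ker0_873`);
* `borelSumBdd_of_core40 : EKPointC K → TorusCountC K → PoissonTailC K 𝔫 τ → CovolOneC K →
    T1.DiscreteC K → T1.AdNormC K → BorelSumBddC K 𝔫 τ`   (bookkeeping `B(K) = N(K) ⋊ T(K)`).
-/

set_option autoImplicit false
set_option linter.unusedSectionVars false

open IsDedekindDomain NumberField MeasureTheory
open scoped MatrixGroups ComplexConjugate

noncomputable section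

namespace Fermat.Agent.LT.T5.H40

open Fermat.Agent.LT.H556.A0 Fermat.Agent.LT.T5

attribute [local instance] Fermat.Agent.LT.T5.instMeasurableSpaceG

variable {K : Type} [Field K] [NumberField K]

/-! ## Adapters -/

/-- **T5.02b** (helper277). -/
theorem rayCentralC40 : RayCentralC K :=
  fun _ hr g => (H277.ray_comm277 hr g).symm

/-- **T5.02a** (helper873). -/
theorem kerContC_of40 (hL : T1.LocCompC K) (hD : T1.DiscreteC K) (hN : T1.AdNormC K) :
    KerContC K :=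
  fun _ hr _ hc hs => H873.continuous_ker0_873 hL hD hN hr hc hs

/-! ## `B(K) = N(K) ⋊ T(K)` -/

theorem nRat_coe40 (ν : K) : ((nRat K ν : GL (Fin 2) K) : Matrix (Fin 2) (Fin 2) K)
    = !![1, ν; 0, 1] := rfl

theorem dRat_coe40 (a b : Kˣ) : ((dRat K a b : GL (Fin 2) K) : Matrix (Fin 2) (Fin 2) K)
    = !![(a : K), 0; 0, (b : K)] := rfl

theorem nRat_mul_dRat_coe40 (ν : K) (a b : Kˣ) :
    ((nRat K ν * dRat K a b : GL (Fin 2) K) : Matrix (Fin 2) (Fin 2) K)
      = !![(a : K), ν * b; 0, (b : K)] := by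
  rw [Units.val_mul, nRat_coe40, dRat_coe40]
  ext i j
  fin_cases i <;> fin_cases j <;> simp [Matrix.mul_apply, Fin.sum_univ_two]

/-- The parametrisation `(ν, (a, b, m)) ↦ (n(ν) d(a,b), m)`. -/
def par40 (K : Type) [Field K] [NumberField K] (q : K × (Kˣ × Kˣ × ℤ)) : GL (Fin 2) K × ℤ :=
  (nRat K q.1 * dRat K q.2.1 q.2.2.1, q.2.2.2)

theorem par40_injective : Function.Injective (par40 K) := by
  rintro ⟨ν, a, b, m⟩ ⟨ν', a', b', m'⟩ h
  simp only [par40, Prod.mk.injEq] at h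
  obtain ⟨h1, h2⟩ := h
  have hm := congrArg (fun g : GL (Fin 2) K => (g : Matrix (Fin 2) (Fin 2) K)) h1
  simp only [nRat_mul_dRat_coe40] at hm
  have h00 := congrFun (congrFun hm 0) 0
  have h01 := congrFun (congrFun hm 0) 1
  have h11 := congrFun (congrFun hm 1) 1
  simp at h00 h01 h11
  have ha : a = a' := Units.ext h00
  have hb : b = b' := Units.ext h11
  subst ha hb
  have hν : ν = ν' := by
    have hb0 : (b : K) ≠ 0 := b.ne_zero
    exact mul_right_cancel₀ hb0 h01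
  subst hν
  simp [h2]

theorem par40_upper (q : K × (Kˣ × Kˣ × ℤ)) : T1.IsUpperRat K (par40 K q).1 := by
  unfold T1.IsUpperRat par40
  rw [nRat_mul_dRat_coe40]
  simp

theorem mem_range_par40 (γ : GL (Fin 2) K) (m : ℤ) (h : T1.IsUpperRat K γ) :
    (γ, m) ∈ Set.range (par40 K) := by
  unfold T1.IsUpperRat at h
  have hdet : (γ : Matrix (Fin 2) (Fin 2) K).det ≠ 0 := by
    have := (Matrix.GeneralLinearGroup.det γ).ne_zero
    simpa using this
  rw [Matrix.det_fin_two, h, mul_zero, sub_zero] at hdet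
  have h0 : (γ : Matrix (Fin 2) (Fin 2) K) 0 0 ≠ 0 := left_ne_zero_of_mul hdet
  have h1 : (γ : Matrix (Fin 2) (Fin 2) K) 1 1 ≠ 0 := right_ne_zero_of_mul hdet
  refine ⟨((γ : Matrix (Fin 2) (Fin 2) K) 0 1 / (γ : Matrix (Fin 2) (Fin 2) K) 1 1,
    Units.mk0 _ h0, Units.mk0 _ h1, m), ?_⟩
  simp only [par40, Prod.mk.injEq, and_true]
  apply Units.ext
  rw [nRat_mul_dRat_coe40]
  ext i j
  fin_cases i <;> fin_cases j <;> simp [h, h1]

theorem ratG_nRat40 (ν : K) :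
    (ratG (nRat K ν) : G K) = T3.unip K (algebraMap K (Adl K) ν) := by
  apply Units.ext
  ext i j
  fin_cases i <;> fin_cases j <;>
    simp [ratG, nRat, T3.unip, Matrix.GeneralLinearGroup.map]

/-! ## The bookkeeping -/

/-- The summand of the Borel sum in the coordinates `(ν, (a, b, m))`. -/
def bterm40 (r : G K) (φ : G K → ℂ) (x y : G K) (q : K × (Kˣ × Kˣ × ℤ)) : ℂ :=
  H873.term873 r φ x y (par40 K q)

theorem bterm40_eq (r : G K) (φ : G K → ℂ) (x y : G K) (ν : K) (i : Kˣ × Kˣ × ℤ) :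
    bterm40 r φ x y (ν, i)
      = φ (x⁻¹ * ratG (nRat K ν) * (ratG (dRat K i.1 i.2.1) * y * r ^ i.2.2)) := by
  unfold bterm40 H873.term873 par40
  simp only [map_mul, mul_assoc]

theorem bterm40_eq' (r : G K) (φ : G K → ℂ) (x y : G K) (ν : K) (i : Kˣ × Kˣ × ℤ) :
    bterm40 r φ x y (ν, i)
      = φ (x⁻¹ * T3.unip K (algebraMap K (Adl K) ν) * ratG (dRat K i.1 i.2.1) * y
          * r ^ i.2.2) := by
  rw [bterm40_eq, ratG_nRat40]
  simp only [mul_assoc]

/-- The kernel summand has finite support. -/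
theorem finite_support_term40 (hD : T1.DiscreteC K) (hN : T1.AdNormC K) {r : G K}
    (hr : IsRayGen r) {φ : G K → ℂ} (hφs : HasCompactSupport φ) (x y : G K) :
    (Function.support (H873.term873 r φ x y)).Finite := by
  have hfin := H873.finite_lat873 hD hN hr
    (H873.isCompact_box873 hφs (isCompact_singleton (x := x)) (isCompact_singleton (x := y)))
  refine hfin.subset ?_
  intro i hi
  exact H873.lat_mem_box873 hr (Set.mem_singleton x) (Set.mem_singleton y) hi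

/-- **The Borel sum in coordinates**: `∑_{β ∈ B(K)} φ♭(x⁻¹ β y) = ∑_{(ν, i)} bterm`. -/
theorem borelSum_eq_tsum40 (hD : T1.DiscreteC K) (hN : T1.AdNormC K) {r : G K}
    (hr : IsRayGen r) {φ : G K → ℂ} (hφs : HasCompactSupport φ) (x y : G K) :
    borelSum r φ x y = ∑' q : K × (Kˣ × Kˣ × ℤ), bterm40 r φ x y q := by
  classical
  have hfs := finite_support_term40 hD hN hr hφs x y
  set U : Set (GL (Fin 2) K) := {γ | T1.IsUpperRat K γ} with hU
  -- the restricted summand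
  set F₃ : GL (Fin 2) K × ℤ → ℂ :=
    fun p => if T1.IsUpperRat K p.1 then H873.term873 r φ x y p else 0 with hF₃
  have hF₃s : (Function.support F₃).Finite := by
    refine hfs.subset ?_
    intro p hp
    simp only [hF₃, Function.mem_support, ne_eq] at hp ⊢
    by_cases h : T1.IsUpperRat K p.1
    · simpa [h] using hp
    · simp [h] at hp
  have hF₃sum : Summable F₃ := summable_of_hasFiniteSupport hF₃s
  -- step 1: the Borel sum is the sum of `F₃`
  have e1 : borelSum r φ x y = ∑' γ : GL (Fin 2) K, ∑' m : ℤ, F₃ (γ, m) := by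
    unfold borelSum
    have h1 : (∑' β : BorelRat K, flat r φ (x⁻¹ * ratG (β : GL (Fin 2) K) * y))
        = ∑' γ : GL (Fin 2) K, U.indicator (fun γ => flat r φ (x⁻¹ * ratG γ * y)) γ :=
      tsum_subtype U (fun γ => flat r φ (x⁻¹ * ratG γ * y))
    rw [h1]
    refine tsum_congr fun γ => ?_
    by_cases h : T1.IsUpperRat K γ
    · rw [Set.indicator_of_mem (show γ ∈ U from h)]
      simp only [hF₃, h, if_true]
      rfl
    · rw [Set.indicator_of_notMem (show γ ∉ U from h)]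
      simp only [hF₃, h, if_false, tsum_zero]
  rw [e1, ← hF₃sum.tsum_prod]
  -- step 2: re-index by the injective parametrisation
  have e2 : ∑' q : K × (Kˣ × Kˣ × ℤ), F₃ (par40 K q) = ∑' p : GL (Fin 2) K × ℤ, F₃ p := by
    refine par40_injective.tsum_eq ?_
    intro p hp
    simp only [hF₃, Function.mem_support, ne_eq] at hp
    by_cases h : T1.IsUpperRat K p.1
    · exact mem_range_par40 p.1 p.2 h
    · simp [h] at hp
  rw [← e2]
  refine tsum_congr fun q => ?_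
  simp only [hF₃, par40_upper q, if_true]
  rfl

/-- **T5.02f from its cut**: the Borel part of the kernel of an Eisenstein-killing test function
is bounded high in the cusp. -/
theorem borelSumBdd_of_core40 (𝔫 : Ideal (𝓞 K)) (τ : G K → ℂ)
    (hE : EKPointC K) (hC : TorusCountC K) (hP : PoissonTailC K 𝔫 τ) (hcov : CovolOneC K)
    (hD : T1.DiscreteC K) (hN : T1.AdNormC K) : BorelSumBddC K 𝔫 τ := by
  classical
  let _ : MeasurableSpace (Adl K) := borel (Adl K)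
  intro h𝔫 μ F r hF hr φ hφ hek
  obtain ⟨lam, hlam, hone⟩ := hcov
  obtain ⟨N₀, hN₀⟩ := hC r hr φ hφ.cont hφ.supp
  obtain ⟨T₂, B₀, hB₀⟩ := hP h𝔫 lam hlam hone φ hφ
  refine ⟨T₂, N₀ * B₀, fun x tx hx htx y => ?_⟩
  have hB₀0 : 0 ≤ B₀ := le_trans (norm_nonneg _) (hB₀ x tx hx htx 1)
  obtain ⟨S, hS, hSz⟩ := hN₀ x y
  -- the summand has finite support, in coordinates
  have hfs : (Function.support (bterm40 r φ x y)).Finite :=
    (finite_support_term40 hD hN hr hφ.supp x y).preimage par40_injective.injOn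
  have hsum : Summable (bterm40 r φ x y) := summable_of_hasFiniteSupport hfs
  have hsum' : Summable (fun c : (Kˣ × Kˣ × ℤ) × K => bterm40 r φ x y (c.2, c.1)) :=
    (Equiv.summable_iff (Equiv.prodComm (Kˣ × Kˣ × ℤ) K)).mpr hsum
  -- the sum as a sum over `S` of sums over `ν`
  have e1 : borelSum r φ x y = ∑ i ∈ S, ∑' ν : K, bterm40 r φ x y (ν, i) := by
    rw [borelSum_eq_tsum40 hD hN hr hφ.supp x y,
      ← (Equiv.prodComm (Kˣ × Kˣ × ℤ) K).tsum_eq (bterm40 r φ x y)]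
    have h2 : (∑' c : (Kˣ × Kˣ × ℤ) × K, bterm40 r φ x y ((Equiv.prodComm _ _) c))
        = ∑' i : Kˣ × Kˣ × ℤ, ∑' ν : K, bterm40 r φ x y (ν, i) := hsum'.tsum_prod
    rw [h2]
    refine tsum_eq_sum fun i hi => ?_
    have : ∀ ν : K, bterm40 r φ x y (ν, i) = 0 := fun ν => by
      rw [bterm40_eq']
      exact hSz i hi _
    simp only [this, tsum_zero]
  -- the integrals
  set I : Kˣ × Kˣ × ℤ → ℂ :=
    fun i => ∫ u, φ (x⁻¹ * T3.unip K u * ratG (dRat K i.1 i.2.1) * y * r ^ i.2.2) ∂lam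
    with hI
  have hI0 : ∀ i ∉ S, I i = 0 := by
    intro i hi
    simp only [hI]
    have : ∀ u : Adl K,
        φ (x⁻¹ * T3.unip K u * ratG (dRat K i.1 i.2.1) * y * r ^ i.2.2) = 0 := hSz i hi
    simp only [this, integral_zero]
  have hIsum : ∑ i ∈ S, I i = 0 := by
    have hts : ∑' i : Kˣ × Kˣ × ℤ, I i = ∑ i ∈ S, I i := tsum_eq_sum (fun i hi => hI0 i hi)
    rw [← hts]
    exact hE μ hF.haar lam hlam r hr φ hφ.cont hφ.supp hek x y
  -- the errors
  have hErr : ∀ i : Kˣ × Kˣ × ℤ, ‖(∑' ν : K, bterm40 r φ x y (ν, i)) - I i‖ ≤ B₀ := by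
    intro i
    have h := hB₀ x tx hx htx (ratG (dRat K i.1 i.2.1) * y * r ^ i.2.2)
    have e : (∑' ν : K, bterm40 r φ x y (ν, i))
        = ∑' ν : K, φ (x⁻¹ * ratG (nRat K ν) * (ratG (dRat K i.1 i.2.1) * y * r ^ i.2.2)) :=
      tsum_congr fun ν => bterm40_eq r φ x y ν i
    have e' : I i
        = ∫ u, φ (x⁻¹ * T3.unip K u * (ratG (dRat K i.1 i.2.1) * y * r ^ i.2.2)) ∂lam := by
      simp only [hI, mul_assoc]
    rw [e, e']
    exact h
  calc ‖borelSum r φ x y‖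
      = ‖∑ i ∈ S, ((∑' ν : K, bterm40 r φ x y (ν, i)) - I i)‖ := by
        rw [Finset.sum_sub_distrib, hIsum, sub_zero, e1]
    _ ≤ ∑ i ∈ S, ‖(∑' ν : K, bterm40 r φ x y (ν, i)) - I i‖ := norm_sum_le _ _
    _ ≤ ∑ _i ∈ S, B₀ := Finset.sum_le_sum fun i _ => hErr i
    _ = S.card * B₀ := by rw [Finset.sum_const, nsmul_eq_mul]
    _ ≤ N₀ * B₀ := by
        apply mul_le_mul_of_nonneg_right _ hB₀0
        exact_mod_cast hS

/-! ## T5.02 from the open sub-leaves -/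

/-- ALL OPEN SUB-LEAVES of T5.02 after the cut (registry rows 1188--1195). -/
structure HS0Open (K : Type) [Field K] [NumberField K] (𝔫 : Ideal (𝓞 K)) (τ : G K → ℂ) :
    Prop where
  adjTest : AdjTestC K 𝔫 τ
  lowBdd : LowBddC K
  onlyBorel : OnlyBorelC K
  ekPoint : EKPointC K
  torusCount : TorusCountC K
  poissonTail : PoissonTailC K 𝔫 τ
  covolOne : CovolOneC K

/-- The six leaves of `HS0Spec` from the open sub-leaves and the output of T1. -/
theorem hs0Leaves_of_open40 (𝔫 : Ideal (𝓞 K)) (τ : G K → ℂ) (O : HS0Open K 𝔫 τ)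
    (hL : T1.LocCompC K) (hD : T1.DiscreteC K) (hN : T1.AdNormC K) : HS0Leaves K 𝔫 τ where
  kerCont := kerContC_of40 hL hD hN
  rayCentral := rayCentralC40
  adjTest := O.adjTest
  lowBdd := O.lowBdd
  onlyBorel := O.onlyBorel
  borelSumBdd := borelSumBdd_of_core40 𝔫 τ O.ekPoint O.torusCount O.poissonTail O.covolOne hD hN

/-- **The kernel of an Eisenstein-killing test function of level `𝔫 ≠ 0` is bounded**, from the
open sub-leaves and the output of T1. -/
theorem kerBdd_of_open40 (𝔫 : Ideal (𝓞 K)) (τ : G K → ℂ) (O : HS0Open K 𝔫 τ)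
    (h1 : T1.T1Out K) (h𝔫 : 𝔫 ≠ ⊥) : KerBddC K 𝔫 τ :=
  kerBdd_of_leaves40 𝔫 τ (hs0Leaves_of_open40 𝔫 τ O h1.locComp h1.discrete h1.adNorm)
    h1.reduction h𝔫

/-- **T5.02 `LeafHS0` from the open sub-leaves and the output of T1.** -/
theorem leafHS0_of_open40 (𝔫 : Ideal (𝓞 K)) (τ : G K → ℂ) (O : HS0Open K 𝔫 τ)
    (h1 : T1.T1Out K) (h𝔫 : 𝔫 ≠ ⊥) : LeafHS0 𝔫 τ :=
  leafHS0_of_leaves 𝔫 τ (hs0Leaves_of_open40 𝔫 τ O h1.locComp h1.discrete h1.adNorm)
    h1.reduction h1.locComp h𝔫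

end Fermat.Agent.LT.T5.H40

end

end
-- ===== PACK-END LT/T5/H40/HS0Asm.lean

-- ===== PACK-BEGIN LT/T7/H57/FoldSpec.lean
section




/-!
# Row LT, tower T7, node T7.14 `RigidC`, LEAF `FoldWhitC` (registry 1717) -- CUT, level 1
(helper57, 2nd owner / sub-architect; registry 1860)

OFF-MAIN.  Definitions, frozen Props, PROVED top.  No hole, nothing assumed.
Vocabulary: `LT/T7/H62/RigidStrip.lean` (helper62@3eb009f31, sha256 9f2a8c0428281431).

```
Rigid.FoldWhitC K  ⇐  T1.AdNormC K + FoldC57 K + ParsevalC57 K + ParsBddC57 K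
                        + WhitMeasC57 K + UnfoldXC57 K              (`foldWhitC_of57`, PROVED)
```

* `FoldC57`     : steps (1)+(2)+(3) of the registry row: unfolding `GL₂(K) → B(K)` on the frame,
  Haar measure in Iwasawa coordinates, the integral over the centre.  Output: a measurable
  fundamental domain `FX` of `Kˣ` in the ideles and `c > 0` with
  `∫_F φ₁ φ̄₁' cnt = c ∫_{y ∈ FX, |y| ≥ Y} (∫_D φ₁ φ̄₁'(n(x) a(y)) dν(x)) |y|⁻¹ dτ(y)`,
  and `∫_{y ∈ FX, |y| ≥ Y} |y|⁻¹ dτ < ∞`.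
* `ParsevalC57` : step (4) (= registry 1801, helper91, form (b)).
* `ParsBddC57`  : `∑_α |W₁ W̄₁'(torK α g)| ≤ C` uniformly in `g` (Cauchy--Schwarz + Parseval).
* `WhitMeasC57` : `y ↦ W_φ(a(y))` is Borel measurable on the ideles.
* `UnfoldXC57`  : step (5), unfolding of `Kˣ` on the ideles (Mathlib `IsFundamentalDomain`).
-/

set_option autoImplicit false

open AutomorphicForm IsDedekindDomain NumberField Filter Topology MeasureTheory
open scoped ComplexConjugate ENNReal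

noncomputable section

namespace Fermat.Agent.LT.T7.H57

open Fermat.Agent.LT.H556 Fermat.Agent.LT.H556.A0 Fermat.Agent.LT.T7 Fermat.Agent.LT.T7.Rigid

attribute [local instance] Fermat.Agent.LT.T5.instMeasurableSpaceG

variable (K : Type) [Field K] [NumberField K]

/-! ## Vocabulary -/

/-- The principal ideles (same definition as `T1.ratUnit`). -/
def ratU57 : Kˣ →* (Adl K)ˣ := Units.map (algebraMap K (Adl K)).toMonoidHom

/-- The module of an idele. -/
def nrm57 (y : (Adl K)ˣ) : ℝ := Fermat.Agent.LT.T5.adNorm (y : Adl K)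

/-- The product of the Whittaker functions on the torus. -/
def ww57 {m : MeasurableSpace (Adl K)} (ψ : AddChar (Adl K) Circle) (ν : Measure (Adl K))
    (D : Set (Adl K)) (φ₁ φ₁' : G K → ℂ) (g : G K) : ℂ :=
  whit ψ ν D φ₁ g * conj (whit ψ ν D φ₁' g)

/-- The period of `φ₁ φ̄₁'` over `N(K) \ N(𝔸)`. -/
def per57 {m : MeasurableSpace (Adl K)} (ν : Measure (Adl K))
    (D : Set (Adl K)) (φ₁ φ₁' : G K → ℂ) (g : G K) : ℂ :=
  ∫ x in D, φ₁ (Fermat.Agent.LT.T3.unip K x * g) * conj (φ₁' (Fermat.Agent.LT.T3.unip K x * g)) ∂ν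

/-- The half line `{y : Y ≤ |y|}` in the ideles. -/
def halfX57 (Y : ℝ) : Set (Adl K)ˣ := {y | Y ≤ nrm57 K y}

/-- `φ` is left invariant under `GL₂(K)`. -/
def IsLeftInv57 (φ : G K → ℂ) : Prop :=
  ∀ (γ : GL (Fin 2) K) (g : G K),
    φ (Matrix.GeneralLinearGroup.map (algebraMap K (Adl K)) γ * g) = φ g

/-! ## The Props -/

/-- **LEAF FOLD** = steps (1), (2), (3). -/
def FoldC57 : Prop :=
  letI : MeasurableSpace (Adl K) := borel (Adl K)
  letI : MeasurableSpace (Adl K)ˣ := borel (Adl K)ˣ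
  TotCplx K →
  ∀ (μ : Measure (G K)) (F : Set (G K)), Fermat.Agent.LT.T5.IsFrame μ F →
  ∀ (ν : Measure (Adl K)) (D : Set (Adl K)), ν.IsAddHaarMeasure → MeasurableSet D →
    IsAddFundamentalDomain ((algebraMap K (Adl K)).toAddMonoidHom.range) D ν → ν D < ⊤ →
  ∀ τ : Measure (Adl K)ˣ, τ.IsHaarMeasure →
  ∀ (S : Finset (HeightOneSpectrum (𝓞 K))) (𝔪 : Ideal (𝓞 K)), IsSupp S 𝔪 →
    ∃ (c : ℝ) (FX : Set (Adl K)ˣ), 0 < c ∧ MeasurableSet FX ∧
      IsFundamentalDomain (ratU57 K).range FX τ ∧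
      (∀ Y : ℝ, 0 < Y →
        ∫⁻ y in FX ∩ halfX57 K Y, ENNReal.ofReal ((nrm57 K y)⁻¹) ∂τ < ⊤) ∧
      ∀ (π π' : HeckeEigensystem K ℂ) (φ₁ φ₁' : G K → ℂ),
        IsSForm π S φ₁ → IsSForm π' S φ₁' → IsLevelInv 𝔪 φ₁ → IsLevelInv 𝔪 φ₁' →
        ∀ Y : ℝ, 0 < Y →
          ∫ g in F, φ₁ g * conj (φ₁' g) * (((cnt 𝔪 Y g : ℕ) : ℝ) : ℂ) ∂μ
            = (c : ℂ) * ∫ y in FX ∩ halfX57 K Y,
                per57 K ν D φ₁ φ₁' (dgA y) * (((nrm57 K y)⁻¹ : ℝ) : ℂ) ∂τ

/-- **LEAF PARSEVAL** = step (4) (registry 1801, form (b)). -/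
def ParsevalC57 : Prop :=
  letI : MeasurableSpace (Adl K) := borel (Adl K)
  ∀ ψ : AddChar (Adl K) Circle, Fermat.Agent.LT.T3.IsStdChar K ψ →
    Fermat.Agent.LT.T3.IsNonDeg K ψ →
  ∀ (ν : Measure (Adl K)) (D : Set (Adl K)), ν.IsAddHaarMeasure → MeasurableSet D →
    IsAddFundamentalDomain ((algebraMap K (Adl K)).toAddMonoidHom.range) D ν → ν D < ⊤ →
  ∀ φ₁ φ₁' : G K → ℂ, Continuous φ₁ → (∃ C : ℝ, ∀ g : G K, ‖φ₁ g‖ ≤ C) → IsLeftInv57 K φ₁ →
    IsCuspidalFn φ₁ →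
    Continuous φ₁' → (∃ C : ℝ, ∀ g : G K, ‖φ₁' g‖ ≤ C) → IsLeftInv57 K φ₁' →
    IsCuspidalFn φ₁' →
    ∀ g : G K,
      Summable (fun α : Kˣ => ww57 K ψ ν D φ₁ φ₁' (Fermat.Agent.LT.T3.torK K α * g)) ∧
      (((ν D).toReal : ℝ) : ℂ) * per57 K ν D φ₁ φ₁' g
        = ∑' α : Kˣ, ww57 K ψ ν D φ₁ φ₁' (Fermat.Agent.LT.T3.torK K α * g)

/-- **LEAF PARS-BDD**: the Parseval series is bounded uniformly in `g`
(Cauchy--Schwarz, and `ParsevalC57` for `(φ₁, φ₁)` and `(φ₁', φ₁')`). -/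
def ParsBddC57 : Prop :=
  letI : MeasurableSpace (Adl K) := borel (Adl K)
  ∀ ψ : AddChar (Adl K) Circle, Fermat.Agent.LT.T3.IsStdChar K ψ →
    Fermat.Agent.LT.T3.IsNonDeg K ψ →
  ∀ (ν : Measure (Adl K)) (D : Set (Adl K)), ν.IsAddHaarMeasure → MeasurableSet D →
    IsAddFundamentalDomain ((algebraMap K (Adl K)).toAddMonoidHom.range) D ν → ν D < ⊤ →
  ∀ φ₁ φ₁' : G K → ℂ, Continuous φ₁ → (∃ C : ℝ, ∀ g : G K, ‖φ₁ g‖ ≤ C) → IsLeftInv57 K φ₁ →
    IsCuspidalFn φ₁ →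
    Continuous φ₁' → (∃ C : ℝ, ∀ g : G K, ‖φ₁' g‖ ≤ C) → IsLeftInv57 K φ₁' →
    IsCuspidalFn φ₁' →
    ∃ C : ℝ, ∀ g : G K,
      ∑' α : Kˣ, ‖ww57 K ψ ν D φ₁ φ₁' (Fermat.Agent.LT.T3.torK K α * g)‖ ≤ C

/-- **LEAF WHIT-MEAS**: the Whittaker function on the torus is Borel measurable. -/
def WhitMeasC57 : Prop :=
  letI : MeasurableSpace (Adl K) := borel (Adl K)
  letI : MeasurableSpace (Adl K)ˣ := borel (Adl K)ˣ
  ∀ (ψ : AddChar (Adl K) Circle), Fermat.Agent.LT.T3.IsStdChar K ψ →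
  ∀ (ν : Measure (Adl K)) (D : Set (Adl K)), ν.IsAddHaarMeasure → MeasurableSet D → ν D < ⊤ →
  ∀ φ : G K → ℂ, Continuous φ → (∃ C : ℝ, ∀ g : G K, ‖φ g‖ ≤ C) →
    Measurable fun y : (Adl K)ˣ => whit ψ ν D φ (dgA y)

/-- **LEAF UNFOLD-X** = step (5): unfolding of `Kˣ` on the ideles. -/
def UnfoldXC57 : Prop :=
  letI : MeasurableSpace (Adl K)ˣ := borel (Adl K)ˣ
  ∀ τ : Measure (Adl K)ˣ, τ.IsHaarMeasure →
  ∀ FX : Set (Adl K)ˣ, IsFundamentalDomain (ratU57 K).range FX τ →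
  ∀ u : (Adl K)ˣ → ℂ, Measurable u →
    (∫⁻ y in FX, ∑' α : Kˣ, ‖u (ratU57 K α * y)‖ₑ ∂τ < ⊤) →
    ∫ y in FX, ∑' α : Kˣ, u (ratU57 K α * y) ∂τ = ∫ y, u y ∂τ

end Fermat.Agent.LT.T7.H57

end

end
-- ===== PACK-END LT/T7/H57/FoldSpec.lean

-- ===== PACK-BEGIN LT/T7/H468/HoroF.lean
section



/-!
# Row LT, tower T7, node T7.13 `ThinC`, adelic half over `F`: `HoroCF468` CLOSED
(helper468, OFF-MAIN)

`horoCF468 : HoroCF468` (`HoroFSpec.lean`, VERBATIM): every cusp form of `A0.IsSph0CuspFormFor`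
over a number field `K` with ONE infinite place, complex, has a horocycle family
`U κ x y = φ (b(x, y)_w · d(k) · g₁)` of level `M` (divisible by a prescribed `L`) through every
base point.

* `UF468_unit`: the units of `𝒪_K`.
* `UF468_base`: the base point, by the Iwasawa decomposition at `w` (`IwasawaC.lean`).
-/

set_option autoImplicit false
set_option linter.unusedSectionVars false

open IsDedekindDomain NumberField AutomorphicForm
open scoped MatrixGroups Classical WithZero ComplexConjugate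

noncomputable section

namespace Fermat.Agent.LT.T7.H468

open Fermat.Agent.LT.H556.A0 Fermat.Agent.LT.T8.H864 Fermat.Agent.LT.H51.MS4

variable {K : Type} [Field K] [NumberField K]

theorem near_of_integralBothF468 {v : HeightOneSpectrum (𝓞 K)}
    {m : GL (Fin 2) (v.adicCompletion K)} (hm : IntegralBoth v m) : Near v 1 m := by
  have h1 : ∀ i j : Fin 2,
      Valued.v ((1 : Matrix (Fin 2) (Fin 2) (v.adicCompletion K)) i j) ≤ 1 := by
    intro i j
    have := (integralBoth_one v i j).1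
    rwa [Units.val_one] at this
  intro i j
  constructor
  · rw [Matrix.sub_apply]
    exact Valued.v.map_sub_le (hm i j).1 (h1 i j)
  · rw [Matrix.sub_apply]
    exact Valued.v.map_sub_le (hm i j).2 (h1 i j)

/-! ## Elements at the complex place -/

/-- The matrix at `w`, read in `ℂ` and put back in the completion. -/
theorem map_complexHom468_map {w : InfinitePlace K} (hw : w.IsComplex)
    (m : GL (Fin 2) w.Completion) :
    Matrix.GeneralLinearGroup.map (complexHom468 hw)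
      (Matrix.GeneralLinearGroup.map
        (InfinitePlace.Completion.ringEquivComplexOfIsComplex hw).toRingHom m) = m := by
  refine Units.ext (Matrix.ext fun i j => ?_)
  rw [Matrix.GeneralLinearGroup.map_apply, Matrix.GeneralLinearGroup.map_apply]
  exact (InfinitePlace.Completion.ringEquivComplexOfIsComplex hw).symm_apply_apply _

/-- `r · 1`, `r > 0`, at `w`. -/
theorem isArchPosScalar_locC468 {w : InfinitePlace K} (hw : w.IsComplex) {r : ℝ} (hr : 0 < r) :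
    IsArchPosScalar w (locC468 hw (ut ((r : ℝ) : ℂ) 0 ((r : ℝ) : ℂ))) := by
  have hrC : ((r : ℝ) : ℂ) ≠ 0 := by exact_mod_cast hr.ne'
  refine ⟨isLocalAtInf_locC468 hw _, r, hr, ?_⟩
  rw [infComp_locC468, coe_ut 0 hrC hrC]
  ext i j
  fin_cases i <;> fin_cases j <;> simp [utMat]

/-- A unitary matrix as an element of `GL₂(ℂ)`. -/
def unitaryGL468 (k : Matrix (Fin 2) (Fin 2) ℂ) (hk : k * k.conjTranspose = 1) : GL (Fin 2) ℂ :=
  ⟨k, k.conjTranspose, hk, mul_eq_one_comm.1 hk⟩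

theorem coe_unitaryGL468 (k : Matrix (Fin 2) (Fin 2) ℂ) (hk : k * k.conjTranspose = 1) :
    ((unitaryGL468 k hk : GL (Fin 2) ℂ) : Matrix (Fin 2) (Fin 2) ℂ) = k := rfl

theorem isArchCompact_locC468 {w : InfinitePlace K} (hw : w.IsComplex)
    {k : Matrix (Fin 2) (Fin 2) ℂ} (hk : k * k.conjTranspose = 1) :
    IsArchCompact w (locC468 hw (unitaryGL468 k hk)) := by
  refine ⟨isLocalAtInf_locC468 hw _, ?_, fun hr => absurd hw
    (InfinitePlace.not_isComplex_iff_isReal.2 hr)⟩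
  rw [infComp_locC468, coe_unitaryGL468]
  exact hk

/-- **Iwasawa decomposition in `GL₂(ℂ)`**, group form. -/
theorem iwasawaGL468 (m : GL (Fin 2) ℂ) :
    ∃ (x : ℂ) (y r : ℝ) (k : Matrix (Fin 2) (Fin 2) ℂ) (hk : k * k.conjTranspose = 1),
      0 < y ∧ 0 < r ∧
      m = ut ((y : ℝ) : ℂ) x 1 * (ut ((r : ℝ) : ℂ) 0 ((r : ℝ) : ℂ) * unitaryGL468 k hk) := by
  have hdet : (m : Matrix (Fin 2) (Fin 2) ℂ) 0 0 * (m : Matrix (Fin 2) (Fin 2) ℂ) 1 1
      - (m : Matrix (Fin 2) (Fin 2) ℂ) 0 1 * (m : Matrix (Fin 2) (Fin 2) ℂ) 1 0 ≠ 0 := by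
    rw [← Matrix.det_fin_two]
    exact Matrix.GeneralLinearGroup.det_ne_zero m
  obtain ⟨x, y, r, k, hy, hr, hk, hdec⟩ := iwasawaC468 _ _ _ _ hdet
  refine ⟨x, y, r, k, hk, hy, hr, ?_⟩
  have hyC : ((y : ℝ) : ℂ) ≠ 0 := by exact_mod_cast hy.ne'
  have hrC : ((r : ℝ) : ℂ) ≠ 0 := by exact_mod_cast hr.ne'
  refine Units.ext ?_
  rw [Units.val_mul, Units.val_mul, coe_ut x hyC one_ne_zero, coe_ut 0 hrC hrC,
    coe_unitaryGL468]
  change (m : Matrix (Fin 2) (Fin 2) ℂ)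
    = !![((y : ℝ) : ℂ), x; 0, 1] * (!![((r : ℝ) : ℂ), 0; 0, ((r : ℝ) : ℂ)] * k)
  rw [← hdec]
  exact Matrix.eta_fin_two _

/-! ## The unit clause and the base point -/

section Family

variable {π : HeckeEigensystem K ℂ} {φ : G K → ℂ} (hφ : IsSph0CuspFormFor π φ)
  {w : InfinitePlace K} (hw : w.IsComplex) (huniq : ∀ w' : InfinitePlace K, w' = w)
  {g₀ : G K} {M : ℕ} (hM : LvlF468 π.level g₀ M)

include hφ huniq hM

/-- UNITS. -/
theorem UF468_unit (κ : (𝓞 K ⧸ idM468 K M)ˣ) (ε : (𝓞 K)ˣ) (x : ℂ) (y : ℝ) (hy : 0 < y) :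
    UF468 φ hw M g₀ κ (w.embedding (algebraMap (𝓞 K) K (ε : 𝓞 K)) * x) y
      = UF468 φ hw M g₀ (κ * clsF468 M (ε : 𝓞 K)) x y := by
  unfold UF468
  have hεu : IsUnit (Ideal.Quotient.mk (idM468 K M) (ε : 𝓞 K)) := ε.isUnit.map _
  have hε0 : algebraMap (𝓞 K) K (ε : 𝓞 K) ≠ 0 := by
    intro h
    have h0 : (ε : 𝓞 K) = 0 := (FaithfulSMul.algebraMap_injective (𝓞 K) K) (by rw [h, map_zero])
    exact ε.ne_zero h0
  have hval : ∀ v : HeightOneSpectrum (𝓞 K),
      v.valuation K (algebraMap (𝓞 K) K (ε : 𝓞 K)) = 1 := by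
    intro v
    rw [val_eq_one_iff468]
    intro hm
    exact v.isPrime.ne_top (Ideal.eq_top_of_isUnit_mem _ hm ε.isUnit)
  have hcong : Ideal.Quotient.mk (idM468 K M) (repF468 M κ⁻¹)
      = Ideal.Quotient.mk (idM468 K M)
          ((ε : 𝓞 K) * repF468 M (κ * clsF468 M (ε : 𝓞 K))⁻¹) := by
    rw [map_mul, mk_repF468, mk_repF468, ← clsF468_coe hεu, ← Units.val_mul, mul_inv_rev,
      mul_inv_cancel_left]
  have hfin := fun v : HeightOneSpectrum (𝓞 K) =>
    hfin_oneF468 hφ huniq hM v (a := algebraMap (𝓞 K) K (ε : 𝓞 K)) 0 κ⁻¹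
      (κ * clsF468 M (ε : 𝓞 K))⁻¹
      (hval v)
      (by rw [← map_mul]; exact val_sub_le468 v hcong)
      (by rw [← map_one (algebraMap (𝓞 K) K), ← map_sub]; exact val_le_one468 v _)
      (by rw [map_zero]; exact zero_le)
  have key := transportF468 hφ hw huniq M g₀ (a := algebraMap (𝓞 K) K (ε : 𝓞 K)) 0
    hε0 x hy.ne' _ _ 1 (fun w' => map_one _) hfin
  rw [map_zero, add_zero, norm_embedding_unit468 hw huniq ε, one_mul, mul_one] at key
  exact key

/-- The base point. -/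
theorem UF468_base : ∃ (x₀ : ℂ) (y₀ : ℝ), 0 < y₀ ∧ UF468 φ hw M g₀ 1 x₀ y₀ = φ g₀ := by
  obtain ⟨x₀, y₀, r, k, hk, hy₀, hr, hdec⟩ := iwasawaGL468
    (Matrix.GeneralLinearGroup.map
      (InfinitePlace.Completion.ringEquivComplexOfIsComplex hw).toRingHom (infCompHom w g₀))
  refine ⟨x₀, y₀, hy₀, ?_⟩
  unfold UF468
  set g' : G K := bC468 hw x₀ y₀ *
    dKF468 M (algebraMap (𝓞 K) K (repF468 M (1 : (𝓞 K ⧸ idM468 K M)ˣ)⁻¹)) * g1F468 M g₀
    with hg'
  have h1 : φ (g' * locC468 hw (ut ((r : ℝ) : ℂ) 0 ((r : ℝ) : ℂ)) *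
      locC468 hw (unitaryGL468 k hk)) = φ g' := by
    rw [hφ.arch_compact w _ (isArchCompact_locC468 hw hk),
      hφ.arch_scalar w _ (isArchPosScalar_locC468 hw hr)]
  rw [← h1]
  refine phi_congr hφ.left_inv hφ.level_inv 1 _ _ (fun w' => ?_) (fun v => ?_)
  · obtain rfl := huniq w'
    rw [map_mul, map_mul, hg', map_mul, map_mul, infCompHom_dKF468, infCompHom_g1F468,
      mul_one, mul_one, map_one, one_mul, bC468, infCompHom_locC468, infCompHom_locC468,
      infCompHom_locC468, mul_assoc, ← map_mul, ← map_mul, ← hdec]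
    exact map_complexHom468_map hw _
  · rw [map_mul, map_mul, hg', map_mul, map_mul, finCompHom_locC468, finCompHom_locC468,
      mul_one, mul_one, map_one, inv_one, mul_one, bC468, finCompHom_locC468, one_mul]
    by_cases hv : v ∈ TMF468 K M
    · rw [finCompHom_g1F468_mem g₀ hv, ← mul_assoc]
      refine hM.conj v _ ?_
      rw [finCompHom_dKF468_mem _ hv]
      refine near_ratFin_ut (val_repF468 hv _) (map_one _) ?_ ?_ ?_
      · have hc : Ideal.Quotient.mk (idM468 K M) (repF468 M (1 : (𝓞 K ⧸ idM468 K M)ˣ)⁻¹)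
            = Ideal.Quotient.mk (idM468 K M) 1 := by
          rw [mk_repF468, inv_one, Units.val_one, map_one]
        have := val_sub_le468 v hc
        rwa [map_one] at this
      · rw [map_zero]
        exact zero_le
      · rw [sub_self, map_zero]
        exact zero_le
    · rw [finCompHom_g1F468_notMem g₀ hv, finCompHom_dKF468_notMem _ hv, mul_one, mul_one]
      have hv1 := valuation_eq_one_of_notMemF468 hv
      refine locLevel_of_near_nat v ?_
      have hn : Near v 1 (finCompHom v g₀)⁻¹ :=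
        (near_of_integralBothF468 (hM.integral v hv1)).inv
      refine hn.mono ?_
      have := valuation_le_of_dvd v hM.dvd
      rwa [hv1] at this

end Family

/-! ## The leaf -/

/-- **The adelic half of the T8 method over `K`**, VERBATIM (`HoroFSpec.lean`). -/
theorem horoCF468 : HoroCF468 := by
  intro K _ _ w hw huniq π φ hφ g₀ L hL
  obtain ⟨M, hLM, hM⟩ := exists_lvlF468 π.level π.level_ne_bot g₀ L hL
  obtain ⟨C, hC⟩ := hφ.bdd
  refine ⟨M, UF468 φ hw M g₀, C, hLM, ?_, UF468_base hφ hw huniq hM⟩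
  exact
    { M_pos := Nat.pos_of_ne_zero hM.ne_zero
      cont := fun κ => UF468_cont hφ hw huniq hM κ
      bdd := fun κ x y _ => hC _
      periodic := fun κ ω x y hy => UF468_periodic hφ hw huniq hM κ ω x y hy
      unit := fun κ ε x y hy => UF468_unit hφ hw huniq hM κ ε x y hy
      hecke := fun v ϖ hgen hnot R hcard hdist κ x y hy =>
        UF468_hecke hφ hw huniq hM ⟨hgen, hnot⟩ R hcard hdist κ x y hy }

end Fermat.Agent.LT.T7.H468

end

end
-- ===== PACK-END LT/T7/H468/HoroF.lean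

-- ===== PACK-BEGIN LT/T7/H568/IdeleSpec.lean
section



/-!
# Row LT, tower T7, leaf T7.14.6c `IdeleSumC`: SUB-SPEC + PROVED TOP (helper568)

OFF-MAIN.  Definitions, frozen sub-leaf Props and the PROVED assembly

    ideleSumC_of_leaves568 :
      KirValC568 K → NormValC568 K → ArchIntC568 K → IdeleCoordC568 K → NormMeasC568 K →
        Rigid.IdeleSumC K

VERBATIM against `LT/T7/H62/RigidStrip.lean` (helper62@3eb009f31, sha256 `9f2a8c04…`).

## The cut (Tate's thesis: Haar measure of the ideles in coordinates)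

For an idele `y` put `rad y = (|y_w|)_w` (radii at the infinite places),
`OnSupp y` = (`y` in the cell at `S` and `ord_v y ≥ 0` for `v ∉ S`) and
`idl y = ∏_{v ∉ S} v ^ ord_v y` (an integral ideal prime to `S`), `t₀ = ∏_{v ∈ S} |y₀_v|_v`.

* `NormValC568` (algebra): on the support `idl y` is prime to `S` and
  `|y|_𝔸 = ∏_w r_w^{[K_w:ℝ]} · t₀ / N(idl y)`.
* `KirValC568` (algebra): `kir_a(y) conj kir_{a'}(y) |y|⁻¹ = c(𝔞) c̄'(𝔞) / t₀ · ∏_w K₀(c_w r_w)²`
  on the support (`𝔞 = idl y`) and `0` off the support.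
* `ArchIntC568` (real analysis): `∏_w K₀(c_w r_w)² / r_w` is integrable on
  `{r > 0, ∏ r_w^{[K_w:ℝ]} ≥ T}`, `T > 0`.
* `IdeleCoordC568` (measure theory, THE leaf): the support is the disjoint union of the cosets
  `g_𝔞 H` (`𝔞` prime to `S`, `H` the open subgroup `∏_{w} K_wˣ × ∏_{v ∈ S} (1 + 𝔪 𝒪_v) ×
  ∏_{v ∉ S} 𝒪_vˣ`), and the image of `τ|_H` under `rad` is `κ ∏_w dr_w / r_w`:
  `∫ 1_{supp}(y) b(idl y) g(rad y, idl y) dτ = κ ∑_𝔞 b(𝔞) ∫_{r > 0} g(r, 𝔞) ∏_w dr_w / r_w`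
  for `g ≥ 0` measurable with finite inner integrals (then both sides converge or both are the
  junk value `0`).
* `NormMeasC568` (topology): `{y : Y ≤ |y|_𝔸}` is a Borel set of the idele group.
-/

set_option autoImplicit false
set_option linter.unusedSectionVars false
set_option linter.unusedVariables false

open AutomorphicForm IsDedekindDomain NumberField Filter Topology MeasureTheory
open scoped ComplexConjugate

noncomputable section

namespace Fermat.Agent.LT.T7.H568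

open Fermat.Agent.LT.H556 Fermat.Agent.LT.H556.A0 Fermat.Agent.LT.T7 Fermat.Agent.LT.T7.Rigid

variable {K : Type} [Field K] [NumberField K]

/-! ## Vocabulary -/

/-- The radii of the idele `y` at the infinite places. -/
def rad568 (y : (Adl K)ˣ) : InfinitePlace K → ℝ := fun w => ‖(y : Adl K).1 w‖

/-- The support of the model Kirillov functions: `y` in the cell at `S`, integral outside `S`. -/
def OnSupp568 (S : Finset (HeightOneSpectrum (𝓞 K))) (𝔪 : Ideal (𝓞 K)) (y₀ y : (Adl K)ˣ) :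
    Prop :=
  InCell S 𝔪 y₀ y ∧ ∀ v : HeightOneSpectrum (𝓞 K), v ∉ S → 0 ≤ ordI v y

open Classical in
/-- The ideal of the idele `y` outside `S`: `∏_{v ∉ S} v ^ ord_v y`. -/
def idl568 (S : Finset (HeightOneSpectrum (𝓞 K))) (y : (Adl K)ˣ) : Ideal (𝓞 K) :=
  ∏ᶠ v : HeightOneSpectrum (𝓞 K),
    (if v ∈ S then (1 : Ideal (𝓞 K)) else v.asIdeal ^ (ordI v y).toNat)

/-- `𝔞` is a non-zero ideal prime to `S`. -/
def PrimeTo568 (S : Finset (HeightOneSpectrum (𝓞 K))) (𝔞 : Ideal (𝓞 K)) : Prop :=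
  𝔞 ≠ ⊥ ∧ ∀ v ∈ S, ¬ 𝔞 ≤ v.asIdeal

/-- `t₀ = ∏_{v ∈ S} |y₀_v|_v`. -/
def cellNorm568 (S : Finset (HeightOneSpectrum (𝓞 K))) (y₀ : (Adl K)ˣ) : ℝ :=
  ∏ v ∈ S, ‖(y₀ : Adl K).2 v‖

variable (K) in
/-- The positive orthant. -/
def Pos568 : Set (InfinitePlace K → ℝ) := {r | ∀ w, 0 < r w}

/-- The region of `Rigid.archG`. -/
def region568 (T : ℝ) : Set (InfinitePlace K → ℝ) :=
  {r | (∀ w, 0 < r w) ∧ T ≤ ∏ w : InfinitePlace K, r w ^ w.mult}

/-- `∏_w K₀(c_w r_w)²`. -/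
def archW568 (c r : InfinitePlace K → ℝ) : ℝ :=
  ∏ w : InfinitePlace K, besselK0 (c w * r w) ^ 2

/-! ## The sub-leaves -/

variable (K)

/-- **T7.14.6c.1 NORM-VAL (algebra).**  On the support the ideal `idl y` is prime to `S` and
`|y|_𝔸 = ∏_w r_w^{[K_w:ℝ]} · t₀ / N(idl y)`. -/
def NormValC568 : Prop :=
  ∀ (S : Finset (HeightOneSpectrum (𝓞 K))) (𝔪 : Ideal (𝓞 K)) (y₀ : (Adl K)ˣ), IsSupp S 𝔪 →
    ∀ y : (Adl K)ˣ, OnSupp568 S 𝔪 y₀ y →
      PrimeTo568 S (idl568 S y) ∧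
      Fermat.Agent.LT.T5.adNorm (y : Adl K)
        = (∏ w : InfinitePlace K, rad568 y w ^ w.mult) * cellNorm568 S y₀
            / (Ideal.absNorm (idl568 S y) : ℝ)

open Classical in
/-- **T7.14.6c.2 KIR-VAL (algebra).**  The integrand in coordinates. -/
def KirValC568 : Prop :=
  TotCplx K →
  ∀ (S : Finset (HeightOneSpectrum (𝓞 K))) (𝔪 : Ideal (𝓞 K)) (y₀ : (Adl K)ˣ)
    (c : InfinitePlace K → ℝ), IsSupp S 𝔪 →
    ∀ (a a' : HeightOneSpectrum (𝓞 K) → ℂ) (y : (Adl K)ˣ),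
      kir a S 𝔪 y₀ c y * conj (kir a' S 𝔪 y₀ c y)
          * (((Fermat.Agent.LT.T5.adNorm (y : Adl K))⁻¹ : ℝ) : ℂ)
        = if OnSupp568 S 𝔪 y₀ y then
            coef2 a a' (S : Set (HeightOneSpectrum (𝓞 K))) (idl568 S y)
              / ((cellNorm568 S y₀ : ℝ) : ℂ) * ((archW568 c (rad568 y) : ℝ) : ℂ)
          else 0

/-- **T7.14.6c.3 ARCH-INT (real analysis, Mathlib only).**  The integrand of `Rigid.archG` is
integrable on its region. -/
def ArchIntC568 : Prop :=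
  TotCplx K →
  ∀ c : InfinitePlace K → ℝ, (∀ w, 0 < c w) → ∀ T : ℝ, 0 < T →
    IntegrableOn (fun r : InfinitePlace K → ℝ =>
      ∏ w : InfinitePlace K, besselK0 (c w * r w) ^ 2 / r w) (region568 (K := K) T) volume

open Classical in
/-- **T7.14.6c.4 IDELE-COORD (measure theory; THE leaf).**  Haar measure of the ideles in the
coordinates (radii at infinity) × (ideal outside `S`) on the support. -/
def IdeleCoordC568 : Prop :=
  letI : MeasurableSpace (Adl K)ˣ := borel (Adl K)ˣ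
  TotCplx K →
  ∀ τ : Measure (Adl K)ˣ, τ.IsHaarMeasure →
  ∀ (S : Finset (HeightOneSpectrum (𝓞 K))) (𝔪 : Ideal (𝓞 K)) (y₀ : (Adl K)ˣ), IsSupp S 𝔪 →
    ∃ κ : ℝ, 0 < κ ∧
      ∀ (b : Ideal (𝓞 K) → ℂ) (g : (InfinitePlace K → ℝ) → Ideal (𝓞 K) → ℝ),
        (∀ 𝔞, Measurable fun r => g r 𝔞) → (∀ r 𝔞, 0 ≤ g r 𝔞) →
        (∀ 𝔞, PrimeTo568 S 𝔞 →
          IntegrableOn (fun r : InfinitePlace K → ℝ => g r 𝔞 / ∏ w : InfinitePlace K, r w)
            (Pos568 K) volume) →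
        (∀ 𝔞, ¬ PrimeTo568 S 𝔞 → b 𝔞 = 0) →
        ∫ y, (if OnSupp568 S 𝔪 y₀ y then
                b (idl568 S y) * ((g (rad568 y) (idl568 S y) : ℝ) : ℂ) else 0) ∂τ
          = (κ : ℂ) * ∑' 𝔞 : Ideal (𝓞 K),
              b 𝔞 * ((∫ r in Pos568 K, g r 𝔞 / ∏ w : InfinitePlace K, r w : ℝ) : ℂ)

/-- **T7.14.6c.5 NORM-MEAS (topology of the ideles).**  `{y : Y ≤ |y|_𝔸}` is a Borel set. -/
def NormMeasC568 : Prop :=
  letI : MeasurableSpace (Adl K)ˣ := borel (Adl K)ˣ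
  ∀ Y : ℝ, MeasurableSet {y : (Adl K)ˣ | Y ≤ Fermat.Agent.LT.T5.adNorm (y : Adl K)}

variable {K}

/-! ## Auxiliary facts for the assembly -/

theorem unit_snd_ne_zero568 (y : (Adl K)ˣ) (v : HeightOneSpectrum (𝓞 K)) :
    (y : Adl K).2 v ≠ 0 := by
  intro h
  have h1 : ((y : Adl K) * ((y⁻¹ : (Adl K)ˣ) : Adl K)).2 v = (1 : Adl K).2 v := by
    rw [Units.mul_inv]
  have h2 : ((y : Adl K) * ((y⁻¹ : (Adl K)ˣ) : Adl K)).2 v
      = (y : Adl K).2 v * ((y⁻¹ : (Adl K)ˣ) : Adl K).2 v := rfl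
  have h3 : (1 : Adl K).2 v = 1 := rfl
  rw [h2, h3, h, zero_mul] at h1
  exact zero_ne_one h1

theorem cellNorm_pos568 (S : Finset (HeightOneSpectrum (𝓞 K))) (y₀ : (Adl K)ˣ) :
    0 < cellNorm568 S y₀ :=
  Finset.prod_pos fun v _ => norm_pos_iff.mpr (unit_snd_ne_zero568 y₀ v)

theorem measurable_besselK0_568 : Measurable besselK0 := by
  unfold besselK0
  have : StronglyMeasurable (Function.uncurry fun (t u : ℝ) => Real.exp (-t * Real.cosh u)) := by
    apply Continuous.stronglyMeasurable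
    fun_prop
  exact (this.integral_prod_right (ν := volume.restrict (Set.Ioi (0 : ℝ)))).measurable

theorem measurable_archW568 (c : InfinitePlace K → ℝ) : Measurable (archW568 c) := by
  unfold archW568
  refine Finset.measurable_prod _ fun w _ => ?_
  have hm : Measurable fun r : InfinitePlace K → ℝ => c w * r w :=
    measurable_const.mul (measurable_pi_apply w)
  exact (measurable_besselK0_568.comp hm).pow_const 2

theorem measurable_prodMult568 :
    Measurable fun r : InfinitePlace K → ℝ => ∏ w : InfinitePlace K, r w ^ w.mult :=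
  Finset.measurable_prod _ fun w _ => (measurable_pi_apply w).pow_const _

theorem archW_nonneg568 (c r : InfinitePlace K → ℝ) : 0 ≤ archW568 c r :=
  Finset.prod_nonneg fun _ _ => sq_nonneg _

theorem measurableSet_Pos568 : MeasurableSet (Pos568 K) := by
  have : Pos568 K = ⋂ w : InfinitePlace K, {r | 0 < r w} := by
    ext r; simp [Pos568]
  rw [this]
  exact MeasurableSet.iInter fun w => measurableSet_lt measurable_const (measurable_pi_apply w)

theorem coef2_eq_zero568 (a a' : HeightOneSpectrum (𝓞 K) → ℂ)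
    (S : Finset (HeightOneSpectrum (𝓞 K))) {𝔞 : Ideal (𝓞 K)} (h : ¬ PrimeTo568 S 𝔞) :
    coef2 a a' (S : Set (HeightOneSpectrum (𝓞 K))) 𝔞 = 0 := by
  have hz : 𝔞 = ⊥ ∨ ∃ v ∈ (S : Set (HeightOneSpectrum (𝓞 K))), 𝔞 ≤ v.asIdeal := by
    by_contra hcon
    rw [not_or] at hcon
    exact h ⟨hcon.1, fun v hv hle => hcon.2 ⟨v, Finset.mem_coe.mpr hv, hle⟩⟩
  unfold coef2 coef
  rw [if_pos hz, zero_mul]

/-! ## The assembly -/

/-- **T7.14.6c `IdeleSumC` from its sub-leaves.** -/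
theorem ideleSumC_of_leaves568 (h1 : KirValC568 K) (h2 : NormValC568 K) (h3 : ArchIntC568 K)
    (h4 : IdeleCoordC568 K) (h5 : NormMeasC568 K) : IdeleSumC K := by
  classical
  intro hcplx τ hτ S 𝔪 y₀ c hsupp hc
  obtain ⟨κ, hκ, hcoord⟩ := h4 hcplx τ hτ S 𝔪 y₀ hsupp
  have ht₀ : 0 < cellNorm568 S y₀ := cellNorm_pos568 S y₀
  refine ⟨κ / cellNorm568 S y₀, cellNorm568 S y₀, div_pos hκ ht₀, ht₀, ?_⟩
  intro a a' _ Y hY
  -- the data of the coordinate formula
  set t₀ : ℝ := cellNorm568 S y₀ with ht₀def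
  set b : Ideal (𝓞 K) → ℂ :=
    fun 𝔞 => coef2 a a' (S : Set (HeightOneSpectrum (𝓞 K))) 𝔞 / ((t₀ : ℝ) : ℂ) with hb
  set g : (InfinitePlace K → ℝ) → Ideal (𝓞 K) → ℝ := fun r 𝔞 =>
    if Y * (Ideal.absNorm 𝔞 : ℝ) / t₀ ≤ ∏ w : InfinitePlace K, r w ^ w.mult
      then archW568 c r else 0 with hg
  -- the region of `𝔞`
  have hregion : ∀ 𝔞 : Ideal (𝓞 K),
      Pos568 K ∩ {r | Y * (Ideal.absNorm 𝔞 : ℝ) / t₀ ≤ ∏ w : InfinitePlace K, r w ^ w.mult}
        = region568 (K := K) (Y * (Ideal.absNorm 𝔞 : ℝ) / t₀) := by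
    intro 𝔞
    ext r
    simp [Pos568, region568]
  have hmeasR : ∀ 𝔞 : Ideal (𝓞 K), MeasurableSet
      {r : InfinitePlace K → ℝ |
        Y * (Ideal.absNorm 𝔞 : ℝ) / t₀ ≤ ∏ w : InfinitePlace K, r w ^ w.mult} :=
    fun 𝔞 => measurableSet_le measurable_const measurable_prodMult568
  -- `g / ∏ r` as an indicator
  have hgind : ∀ 𝔞 : Ideal (𝓞 K),
      (fun r : InfinitePlace K → ℝ => g r 𝔞 / ∏ w : InfinitePlace K, r w)
        = Set.indicator
            {r | Y * (Ideal.absNorm 𝔞 : ℝ) / t₀ ≤ ∏ w : InfinitePlace K, r w ^ w.mult}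
            (fun r => ∏ w : InfinitePlace K, besselK0 (c w * r w) ^ 2 / r w) := by
    intro 𝔞
    funext r
    rw [Set.indicator_apply]
    simp only [hg, Set.mem_setOf_eq]
    split_ifs with hr
    · rw [Finset.prod_div_distrib]; rfl
    · rw [zero_div]
  -- the inner integrals are the values of `archG`
  have hinner : ∀ 𝔞 : Ideal (𝓞 K),
      ∫ r in Pos568 K, g r 𝔞 / ∏ w : InfinitePlace K, r w
        = archG c (Y * (Ideal.absNorm 𝔞 : ℝ) / t₀) := by
    intro 𝔞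
    rw [hgind 𝔞, setIntegral_indicator (hmeasR 𝔞), hregion 𝔞]
    rfl
  -- hypotheses of the coordinate formula
  have hgm : ∀ 𝔞, Measurable fun r => g r 𝔞 := by
    intro 𝔞
    exact Measurable.ite (hmeasR 𝔞) (measurable_archW568 c) measurable_const
  have hg0 : ∀ r 𝔞, 0 ≤ g r 𝔞 := by
    intro r 𝔞
    simp only [hg]
    split_ifs
    · exact archW_nonneg568 c r
    · exact le_rfl
  have hgi : ∀ 𝔞, PrimeTo568 S 𝔞 →
      IntegrableOn (fun r : InfinitePlace K → ℝ => g r 𝔞 / ∏ w : InfinitePlace K, r w)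
        (Pos568 K) volume := by
    intro 𝔞 h𝔞
    have hN : 0 < (Ideal.absNorm 𝔞 : ℝ) := by
      have : Ideal.absNorm 𝔞 ≠ 0 := fun h0 => h𝔞.1 (Ideal.absNorm_eq_zero_iff.mp h0)
      exact_mod_cast Nat.pos_of_ne_zero this
    have hT : 0 < Y * (Ideal.absNorm 𝔞 : ℝ) / t₀ := div_pos (mul_pos hY hN) ht₀
    rw [hgind 𝔞, IntegrableOn, integrable_indicator_iff (hmeasR 𝔞), IntegrableOn,
      Measure.restrict_restrict (hmeasR 𝔞), Set.inter_comm, hregion 𝔞]
    exact h3 hcplx c hc _ hT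
  have hb0 : ∀ 𝔞, ¬ PrimeTo568 S 𝔞 → b 𝔞 = 0 := by
    intro 𝔞 h𝔞
    simp only [hb]
    rw [coef2_eq_zero568 a a' S h𝔞, zero_div]
  have hmain := hcoord b g hgm hg0 hgi hb0
  -- the integrand
  have hint : ∫ y in {y : (Adl K)ˣ | Y ≤ Fermat.Agent.LT.T5.adNorm (y : Adl K)},
        kir a S 𝔪 y₀ c y * conj (kir a' S 𝔪 y₀ c y)
          * (((Fermat.Agent.LT.T5.adNorm (y : Adl K))⁻¹ : ℝ) : ℂ) ∂τ
      = ∫ y, (if OnSupp568 S 𝔪 y₀ y then
                b (idl568 S y) * ((g (rad568 y) (idl568 S y) : ℝ) : ℂ) else 0) ∂τ := by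
    rw [← integral_indicator (h5 Y)]
    refine integral_congr_ae (Filter.Eventually.of_forall fun y => ?_)
    simp only [Set.indicator_apply, Set.mem_setOf_eq]
    rw [h1 hcplx S 𝔪 y₀ c hsupp a a' y]
    by_cases hy : OnSupp568 S 𝔪 y₀ y
    · obtain ⟨hprime, hnorm⟩ := h2 S 𝔪 y₀ hsupp y hy
      have hN : 0 < (Ideal.absNorm (idl568 S y) : ℝ) := by
        have : Ideal.absNorm (idl568 S y) ≠ 0 :=
          fun h0 => hprime.1 (Ideal.absNorm_eq_zero_iff.mp h0)
        exact_mod_cast Nat.pos_of_ne_zero this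
      have hiff : Y ≤ Fermat.Agent.LT.T5.adNorm (y : Adl K)
          ↔ Y * (Ideal.absNorm (idl568 S y) : ℝ) / t₀
              ≤ ∏ w : InfinitePlace K, rad568 y w ^ w.mult := by
        rw [hnorm, le_div_iff₀ hN, div_le_iff₀ ht₀]
      rw [if_pos hy, if_pos hy]
      by_cases hs : Y ≤ Fermat.Agent.LT.T5.adNorm (y : Adl K)
      · rw [if_pos hs]
        simp only [hb, hg]
        rw [if_pos (hiff.mp hs)]
      · rw [if_neg hs]
        simp only [hb, hg]
        rw [if_neg (fun h => hs (hiff.mpr h))]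
        simp
    · rw [if_neg hy, if_neg hy]
      simp
  rw [hint, hmain]
  -- the right-hand side
  unfold sSum
  have hterm : ∀ 𝔞 : Ideal (𝓞 K),
      b 𝔞 * ((∫ r in Pos568 K, g r 𝔞 / ∏ w : InfinitePlace K, r w : ℝ) : ℂ)
        = ((t₀ : ℝ) : ℂ)⁻¹ * (coef2 a a' (S : Set (HeightOneSpectrum (𝓞 K))) 𝔞
            * ((archG c (Y * (Ideal.absNorm 𝔞 : ℝ) / t₀) : ℝ) : ℂ)) := by
    intro 𝔞
    rw [hinner 𝔞]
    simp only [hb]
    rw [div_eq_mul_inv]
    ring
  simp_rw [hterm]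
  rw [tsum_mul_left]
  push_cast
  rw [div_eq_mul_inv]
  ring

end Fermat.Agent.LT.T7.H568

end

end
-- ===== PACK-END LT/T7/H568/IdeleSpec.lean

-- ===== PACK-BEGIN LT/T7/H671/LimSpec.lean
section






/-!
# Row LT, tower T7, node T7.14 `RigidC`, leaf `CountC`: SUB-SPEC of `CountLimC` (helper671)

OFF-MAIN.  Definitions and frozen Props only.  No `sorry`, nothing assumed.

`CountLimC K` (Schanuel's theorem for `ℙ¹(K)` with the adelic metric twisted by `g ∈ GL₂(𝔸_K)` and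
a congruence condition, ANY number field `K`) is cut into the leaves below; the reductions are
proved in `LimTop.lean` (top) and `LimPrim.lean` (single class).

```
CountLimC K  ⇐  AdNormC K (T1, closed) + IdeleClassC K + ClassDecC K + PrimC K
PrimC K      ⇐  CovolC K + LocalIdeleC K + SieveIdC K + TailC K + PlaceSumC K
TailC K      ⇐  IdeleClassC K + CovolC K                      (leaf: the implication)
ClassDecC K  ⇐  IdeleClassC-data + ContentC K + UnitsC K + ScaleC K   (leaf: the implication)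
```

## Vocabulary

* `finIdl671 a`       : the idele `(1, a)` of the finite idele `a`.
* `dgF671 a b`        : the matrix `diag((1,a), (1,b)) ∈ GL₂(𝔸_K)`; `scF671 a = dgF671 a a`.
* `finNormI671 a`     : `∏_v ‖a_v‖_v`.
* `Cong671 𝔪 r`       : the congruence clause of `Rigid.cntSet` for the row `r`.
* `IsPrimRow671 r`    : `max(‖r₀‖_v, ‖r₁‖_v) = 1` at every finite place.
* `primSet671 𝔪 B h`  : the points `p = (ξ h)_∞` of the fundamental cone with gauge `≤ B`,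
                        `ξ ∈ K²` with `ξ h` primitive and congruent.
* `cntB671 𝔪 B g`     : the points `x` of `ℙ¹(K)` with `rowNorm (x g) ≤ B`, congruent.
-/

set_option autoImplicit false

open AutomorphicForm IsDedekindDomain NumberField Filter Topology MeasureTheory
open NumberField.mixedEmbedding NumberField.InfinitePlace

noncomputable section

namespace Fermat.Agent.LT.T7.H671

open Fermat.Agent.LT.H556 Fermat.Agent.LT.H556.A0 Fermat.Agent.LT.T7 Fermat.Agent.LT.T7.Rigid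

variable {K : Type} [Field K] [NumberField K]

/-! ## Vocabulary -/

/-- The idele `(1, a)`. -/
def finIdl671 (a : (FiniteAdeleRing (𝓞 K) K)ˣ) : (Adl K)ˣ :=
  MulEquiv.prodUnits.symm (1, a)

theorem finIdl671_val (a : (FiniteAdeleRing (𝓞 K) K)ˣ) :
    ((finIdl671 a : (Adl K)ˣ) : Adl K) = (1, (a : FiniteAdeleRing (𝓞 K) K)) := rfl

/-- The matrix `diag((1,a), (1,b))`. -/
def dgF671 (a b : (FiniteAdeleRing (𝓞 K) K)ˣ) : G K where
  val := !![((finIdl671 a : (Adl K)ˣ) : Adl K), 0; 0, ((finIdl671 b : (Adl K)ˣ) : Adl K)]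
  inv := !![(((finIdl671 a)⁻¹ : (Adl K)ˣ) : Adl K), 0; 0, (((finIdl671 b)⁻¹ : (Adl K)ˣ) : Adl K)]
  val_inv := by
    ext i j
    fin_cases i <;> fin_cases j <;> simp [Matrix.mul_apply, Fin.sum_univ_two]
  inv_val := by
    ext i j
    fin_cases i <;> fin_cases j <;> simp [Matrix.mul_apply, Fin.sum_univ_two]

/-- The scalar matrix of the finite idele `a`. -/
def scF671 (a : (FiniteAdeleRing (𝓞 K) K)ˣ) : G K := dgF671 a a

/-- `∏_v ‖a_v‖_v`. -/
def finNormI671 (a : (FiniteAdeleRing (𝓞 K) K)ˣ) : ℝ :=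
  ∏ᶠ v : HeightOneSpectrum (𝓞 K), ‖(a : FiniteAdeleRing (𝓞 K) K) v‖

/-- The congruence clause of `Rigid.cntSet`. -/
def Cong671 (𝔪 : Ideal (𝓞 K)) (r : Fin 2 → Adl K) : Prop :=
  ∀ v : HeightOneSpectrum (𝓞 K), v.asIdeal ∣ 𝔪 →
    ∃ t ∈ idealClosure 𝔪 v, (r 0).2 v = t * (r 1).2 v

/-- The row `r` is primitive at every finite place. -/
def IsPrimRow671 (r : Fin 2 → Adl K) : Prop :=
  ∀ v : HeightOneSpectrum (𝓞 K), max ‖(r 0).2 v‖ ‖(r 1).2 v‖ = 1

/-- The row `(r₀ · (1,a), r₁ · (1,b))` (`= r · dgF671 a b`). -/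
def rowDg671 (a b : (FiniteAdeleRing (𝓞 K) K)ˣ) (r : Fin 2 → Adl K) : Fin 2 → Adl K :=
  ![r 0 * ((finIdl671 a : (Adl K)ˣ) : Adl K), r 1 * ((finIdl671 b : (Adl K)ˣ) : Adl K)]

/-- The points of the fundamental cone with gauge `≤ B` coming from primitive congruent rows. -/
def primSet671 (𝔪 : Ideal (𝓞 K)) (B : ℝ) (h : G K) : Set (Pair671 K) :=
  {p | p ∈ pairCone671 K ∧ pairGauge671 p ≤ B ∧
    ∃ ξ : Fin 2 → K, pairOf671 (rowOf ξ h) = p ∧ IsPrimRow671 (rowOf ξ h) ∧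
      Cong671 𝔪 (rowOf ξ h)}

/-- The points of `ℙ¹(K)` with `rowNorm ≤ B`, congruent. -/
def cntB671 (𝔪 : Ideal (𝓞 K)) (B : ℝ) (g : G K) : Set (Projectivization K (Fin 2 → K)) :=
  {x | rowNorm (rowOf x.rep g) ≤ B ∧ Cong671 𝔪 (rowOf x.rep g)}

/-- The lattice points of the cone with gauge `≤ B`. -/
def coneLat671 (B : ℝ) (h : G K) : Set (Pair671 K) :=
  {p | p ∈ pairCone671 K ∧ pairGauge671 p ≤ B ∧ p ∈ latG671 h}

/-- `c` is a full system of representatives of the idele classes modulo `Kˣ` and the units at the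
finite places (the ideal class group, idelically). -/
def IsClassRep671 {n : ℕ} (c : Fin n → (FiniteAdeleRing (𝓞 K) K)ˣ) : Prop :=
  (∀ a : (FiniteAdeleRing (𝓞 K) K)ˣ, ∃ i : Fin n, ∃ l : Kˣ, ∀ v : HeightOneSpectrum (𝓞 K),
    ‖(a : FiniteAdeleRing (𝓞 K) K) v‖
      = ‖algebraMap K (v.adicCompletion K) (l : K)‖ * ‖(c i : FiniteAdeleRing (𝓞 K) K) v‖) ∧
  ∀ i j : Fin n, (∃ l : Kˣ, ∀ v : HeightOneSpectrum (𝓞 K),
    ‖(c i : FiniteAdeleRing (𝓞 K) K) v‖
      = ‖algebraMap K (v.adicCompletion K) (l : K)‖ * ‖(c j : FiniteAdeleRing (𝓞 K) K) v‖) → i = j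

/-- `μ` is an idele of the ideal `𝔪`. -/
def IsLevelIdele671 (𝔪 : Ideal (𝓞 K)) (μ : (FiniteAdeleRing (𝓞 K) K)ˣ) : Prop :=
  (∀ v : HeightOneSpectrum (𝓞 K),
    idealClosure 𝔪 v = {t | ‖t‖ ≤ ‖(μ : FiniteAdeleRing (𝓞 K) K) v‖}) ∧
  (∀ v : HeightOneSpectrum (𝓞 K), v.asIdeal ∣ 𝔪 → ‖(μ : FiniteAdeleRing (𝓞 K) K) v‖ < 1) ∧
  (∀ v : HeightOneSpectrum (𝓞 K), ¬ v.asIdeal ∣ 𝔪 → (μ : FiniteAdeleRing (𝓞 K) K) v = 1) ∧
  finNormI671 μ = ((Ideal.absNorm 𝔪 : ℕ) : ℝ)⁻¹

/-- `ϖ v` is the idele of a uniformiser at `v`. -/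
def IsUnifFamily671 (ϖ : HeightOneSpectrum (𝓞 K) → (FiniteAdeleRing (𝓞 K) K)ˣ) : Prop :=
  ∀ v : HeightOneSpectrum (𝓞 K),
    ‖((ϖ v : (FiniteAdeleRing (𝓞 K) K)ˣ) : FiniteAdeleRing (𝓞 K) K) v‖
      = ((Ideal.absNorm v.asIdeal : ℕ) : ℝ)⁻¹ ∧
    ∀ u : HeightOneSpectrum (𝓞 K), u ≠ v →
      ((ϖ v : (FiniteAdeleRing (𝓞 K) K)ˣ) : FiniteAdeleRing (𝓞 K) K) u = 1

open scoped Classical in
/-- First diagonal entry of the sieve matrix: `μ⁻¹ ∏_{v ∈ T, v ∤ 𝔪} ϖ_v⁻¹`. -/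
def eA671 (𝔪 : Ideal (𝓞 K)) (μ : (FiniteAdeleRing (𝓞 K) K)ˣ)
    (ϖ : HeightOneSpectrum (𝓞 K) → (FiniteAdeleRing (𝓞 K) K)ˣ)
    (T : Finset (HeightOneSpectrum (𝓞 K))) : (FiniteAdeleRing (𝓞 K) K)ˣ :=
  μ⁻¹ * ∏ v ∈ T.filter (fun v => ¬ v.asIdeal ∣ 𝔪), (ϖ v)⁻¹

/-- Second diagonal entry of the sieve matrix: `∏_{v ∈ T} ϖ_v⁻¹`. -/
def eB671 (ϖ : HeightOneSpectrum (𝓞 K) → (FiniteAdeleRing (𝓞 K) K)ˣ)
    (T : Finset (HeightOneSpectrum (𝓞 K))) : (FiniteAdeleRing (𝓞 K) K)ˣ :=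
  ∏ v ∈ T, (ϖ v)⁻¹

/-- The local density removed at `v`: `N v⁻¹` if `v ∣ 𝔪`, `N v⁻²` otherwise. -/
def betaS671 (𝔪 : Ideal (𝓞 K)) (v : HeightOneSpectrum (𝓞 K)) : ℝ :=
  open scoped Classical in
  if v.asIdeal ∣ 𝔪 then ((Ideal.absNorm v.asIdeal : ℕ) : ℝ)⁻¹
  else (((Ideal.absNorm v.asIdeal : ℕ) : ℝ)⁻¹) ^ 2

/-! ## The leaves -/

variable (K)

/-- **LEAF IDELE-CLASS** (finiteness of the class group, idelically; from Fujisaki `T1Out.fujisaki`
or from `ClassGroup (𝓞 K)` finite). -/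
def IdeleClassC : Prop :=
  ∃ (n : ℕ) (c : Fin n → (FiniteAdeleRing (𝓞 K) K)ˣ), IsClassRep671 c

/-- **LEAF CONTENT.**  The content idele of a nonzero rational row twisted by `g`. -/
def ContentC : Prop :=
  ∀ (g : G K) (ξ : Fin 2 → K), ξ ≠ 0 →
    ∃ a : (FiniteAdeleRing (𝓞 K) K)ˣ, ∀ v : HeightOneSpectrum (𝓞 K),
      ‖(a : FiniteAdeleRing (𝓞 K) K) v‖ = max ‖(rowOf ξ g 0).2 v‖ ‖(rowOf ξ g 1).2 v‖

/-- **LEAF UNITS.**  An element of `Kˣ` of norm one at every finite place is a unit of `𝓞 K`. -/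
def UnitsC : Prop :=
  ∀ l : Kˣ, (∀ v : HeightOneSpectrum (𝓞 K), ‖algebraMap K (v.adicCompletion K) (l : K)‖ = 1) →
    ∃ u : (𝓞 K)ˣ, ((u : 𝓞 K) : K) = (l : K)

/-- **LEAF SCALE** (product formula): `rowNorm` of `(l ξ) g` and `ξ g` agree for `l ∈ Kˣ`. -/
def ScaleC : Prop :=
  ∀ (g : G K) (ξ : Fin 2 → K) (l : Kˣ),
    rowNorm (rowOf ((l : K) • ξ) g) = rowNorm (rowOf ξ g)

/-- **LEAF CLASS-DEC.**  `ℙ¹(K)` is the disjoint union over the idele classes `c i` of the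
primitive rows of `g · c i` modulo units; in the cone every orbit of units has exactly
`torsionOrder K` points. -/
def ClassDecC : Prop :=
  ∀ (n : ℕ) (c : Fin n → (FiniteAdeleRing (𝓞 K) K)ˣ), IsClassRep671 c →
    ∀ (𝔪 : Ideal (𝓞 K)) (g : G K) (B : ℝ), 0 < B →
      (NumberField.Units.torsionOrder K : ℝ) * ((cntB671 𝔪 B g).ncard : ℝ)
        = ∑ i : Fin n, ((primSet671 𝔪 (B * finNormI671 (c i)) (g * scF671 (c i))).ncard : ℝ)

/-- **LEAF LOCAL-IDELE.**  Ideles of `𝔪` and of uniformisers. -/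
def LocalIdeleC : Prop :=
  (∀ 𝔪 : Ideal (𝓞 K), 𝔪 ≠ ⊥ → ∃ μ : (FiniteAdeleRing (𝓞 K) K)ˣ, IsLevelIdele671 𝔪 μ) ∧
    ∃ ϖ : HeightOneSpectrum (𝓞 K) → (FiniteAdeleRing (𝓞 K) K)ˣ, IsUnifFamily671 ϖ

/-- **LEAF SIEVE-ID** (local computations): primitive and congruent rows are the integral rows for
`diag(μ,1)⁻¹` which are integral for no `E_v⁻¹`, and the integral rows for `E_T⁻¹` are the
intersection. -/
def SieveIdC : Prop :=
  ∀ (𝔪 : Ideal (𝓞 K)), 𝔪 ≠ ⊥ → ∀ (μ : (FiniteAdeleRing (𝓞 K) K)ˣ)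
    (ϖ : HeightOneSpectrum (𝓞 K) → (FiniteAdeleRing (𝓞 K) K)ˣ),
    IsLevelIdele671 𝔪 μ → IsUnifFamily671 ϖ → ∀ r : Fin 2 → Adl K,
      (IsPrimRow671 r ∧ Cong671 𝔪 r ↔
        IsIntRow671 (rowDg671 (eA671 𝔪 μ ϖ ∅) (eB671 ϖ ∅) r) ∧
          ∀ v : HeightOneSpectrum (𝓞 K),
            ¬ IsIntRow671 (rowDg671 (eA671 𝔪 μ ϖ {v}) (eB671 ϖ {v}) r)) ∧
      ∀ T : Finset (HeightOneSpectrum (𝓞 K)),
        (IsIntRow671 (rowDg671 (eA671 𝔪 μ ϖ T) (eB671 ϖ T) r) ↔
          IsIntRow671 (rowDg671 (eA671 𝔪 μ ϖ ∅) (eB671 ϖ ∅) r) ∧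
            ∀ v ∈ T, IsIntRow671 (rowDg671 (eA671 𝔪 μ ϖ {v}) (eB671 ϖ {v}) r))

/-- **LEAF TAIL.**  Uniform bound for the lattice points of the cone in the lattices of
`h · a⁻¹`, `a` a finite idele. -/
def TailC : Prop :=
  ∀ h : G K, ∃ C : ℝ, ∀ (a : (FiniteAdeleRing (𝓞 K) K)ˣ) (B : ℝ),
    ((coneLat671 B (h * scF671 a⁻¹)).ncard : ℝ) ≤ C * B ^ 2 * finNormI671 a ^ 2

/-- **NODE PRIM** (single class): primitive congruent rows of `h` in the cone. -/
def PrimC : Prop :=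
  ∀ 𝔪 : Ideal (𝓞 K), 𝔪 ≠ ⊥ → ∃ κ₀ : ℝ, 0 < κ₀ ∧ ∀ h : G K,
    Tendsto (fun B : ℝ => ((primSet671 𝔪 B h).ncard : ℝ) / B ^ 2) atTop
      (𝓝 (κ₀ / Fermat.Agent.LT.T5.adNorm (Matrix.det (h : Matrix (Fin 2) (Fin 2) (Adl K)))))

end Fermat.Agent.LT.T7.H671

end

end
-- ===== PACK-END LT/T7/H671/LimSpec.lean

-- ===== PACK-BEGIN LT/T7/H91/ParsevalWhit.lean
section





/-!
# Row LT, tower T7, ASSIST for leaf T7.14.6a `FoldWhitC`, step (4): PARSEVAL, WHITTAKER FORM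
(helper91)

OFF-MAIN.  Registry row 1801.  On `T7/H62/RigidStrip.lean` (helper62@3eb009f31, sha256 9f2a8c04),
`T3/Spec.lean` v2 (44de320b), `T3/H354/HaarScale.lean` (helper354@386a4f08b, a806a6e8; only the
maps `mulAdl`, `mulPrinc` are used), all byte-identical copies.

* `whit_torK91`: for `φ` left invariant under `GL₂(K)`:
  `W_φ(torK α · g) = ∫_D φ(n(x) g) conj ψ(α x) dν(x)` (the `α`-th Fourier coefficient of
  `x ↦ φ(n(x) g)`; `n(x) a(α) = a(α) n(α⁻¹ x)`, `T3.HaarScaleC`, change of fundamental domain).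
* `ParsevalWhitC91 K` (typed Prop) and
  `parsevalWhitC91 : T3.InLocCompC K → T3.CompleteNDC K → T3.HaarScaleC K → ParsevalWhitC91 K`:
  for `φ₁`, `φ₂` continuous, bounded, left invariant under `GL₂(K)`, `φ₁` cuspidal, and every `g`:
  `∑_α |W₁ W̄₂(torK α · g)| < ∞` and
  `ν(D) ∫_D φ₁(n(x) g) conj φ₂(n(x) g) dν(x) = ∑_{α ∈ Kˣ} W₁(torK α · g) conj W₂(torK α · g)`.
-/

set_option autoImplicit false
set_option linter.unusedSectionVars false
set_option linter.style.haveILetI false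

open IsDedekindDomain NumberField MeasureTheory ComplexConjugate
open Fermat.Agent.LT.H556.A0

noncomputable section

namespace Fermat.Agent.LT.T7.H91

open Fermat.Agent.LT.T3 Fermat.Agent.LT.T7.Rigid Matrix

variable {K : Type} [Field K] [NumberField K]

/-- `n(ξ)` in `GL₂(K)`. -/
def unipK91 (ξ : K) : GL (Fin 2) K :=
  ⟨!![1, ξ; 0, 1], !![1, -ξ; 0, 1],
    by ext i j; fin_cases i <;> fin_cases j <;> simp [Matrix.mul_apply, Fin.sum_univ_two],
    by ext i j; fin_cases i <;> fin_cases j <;> simp [Matrix.mul_apply, Fin.sum_univ_two]⟩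

/-- `diag(α, 1)` in `GL₂(K)`. -/
def diagK91 (α : Kˣ) : GL (Fin 2) K :=
  ⟨!![(α : K), 0; 0, 1], !![((α⁻¹ : Kˣ) : K), 0; 0, 1],
    by ext i j; fin_cases i <;> fin_cases j <;> simp [Matrix.mul_apply, Fin.sum_univ_two],
    by ext i j; fin_cases i <;> fin_cases j <;> simp [Matrix.mul_apply, Fin.sum_univ_two]⟩

theorem map_unipK91_mul (ξ : K) (x : Adl K) :
    Matrix.GeneralLinearGroup.map (algebraMap K (Adl K)) (unipK91 ξ) * unip K x
      = unip K (x + emb K ξ) := by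
  apply Units.ext
  rw [Units.val_mul]
  ext i j
  fin_cases i <;> fin_cases j <;>
    simp [unipK91, unip, Matrix.mul_apply, Fin.sum_univ_two, add_comm]

theorem map_diagK91 (α : Kˣ) :
    Matrix.GeneralLinearGroup.map (algebraMap K (Adl K)) (diagK91 α) = torK K α := by
  apply Units.ext
  ext i j
  fin_cases i <;> fin_cases j <;> simp [diagK91, torK]

theorem unip_mul_torK91 (α : Kˣ) (x : Adl K) :
    unip K x * torK K α = torK K α * unip K (emb K ((α⁻¹ : Kˣ) : K) * x) := by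
  apply Units.ext
  rw [Units.val_mul, Units.val_mul]
  ext i j
  fin_cases i <;> fin_cases j <;>
    simp [unip, torK, Matrix.mul_apply, Fin.sum_univ_two, ← mul_assoc, ← map_mul]

theorem continuous_unip91 : Continuous (unip K : Adl K → G K) := by
  rw [Units.continuous_iff]
  constructor
  · refine continuous_matrix fun i j => ?_
    fin_cases i <;> fin_cases j <;> simp [unip] <;> fun_prop
  · refine continuous_matrix fun i j => ?_
    fin_cases i <;> fin_cases j <;> simp [unip] <;> fun_prop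

/-- `x ↦ φ(n(x) g)` is `K`-periodic for `φ` left invariant under `GL₂(K)`. -/
theorem periodic_unip91 {φ : G K → ℂ}
    (hl : ∀ (γ : GL (Fin 2) K) (g : G K),
      φ (Matrix.GeneralLinearGroup.map (algebraMap K (Adl K)) γ * g) = φ g)
    (g : G K) (ξ : K) (x : Adl K) : φ (unip K (x + emb K ξ) * g) = φ (unip K x * g) := by
  rw [← map_unipK91_mul, mul_assoc, hl]

/-- The Whittaker function at `torK α · g` is the `α`-th Fourier coefficient of
`x ↦ φ(n(x) g)`. -/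
theorem whit_torK91 (hLC : InLocCompC K) (hS : HaarScaleC K) :
    letI : MeasurableSpace (Adl K) := borel (Adl K)
    ∀ ψ : AddChar (Adl K) Circle, IsStdChar K ψ →
    ∀ (ν : Measure (Adl K)) (D : Set (Adl K)), ν.IsAddHaarMeasure →
      IsAddFundamentalDomain ((algebraMap K (Adl K)).toAddMonoidHom.range) D ν →
    ∀ φ : G K → ℂ,
      (∀ (γ : GL (Fin 2) K) (g : G K),
        φ (Matrix.GeneralLinearGroup.map (algebraMap K (Adl K)) γ * g) = φ g) →
    ∀ (α : Kˣ) (g : G K),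
      whit ψ ν D φ (torK K α * g) = coefAd91 ψ ν D (fun x => φ (unip K x * g)) (α : K) := by
  letI : MeasurableSpace (Adl K) := borel (Adl K)
  haveI : BorelSpace (Adl K) := ⟨rfl⟩
  obtain ⟨⟨_, _, hsc⟩, -⟩ := hLC
  haveI := hsc
  haveI := H354.countable_princ354 K
  intro ψ hψ ν D hν hD φ hl α g
  haveI := hν
  -- multiplication by `α⁻¹`
  set e := H354.mulAdl K α⁻¹ with he
  have hmeas : Measurable e := (H354.continuous_mulAdl K α⁻¹).measurable
  have hmp : MeasurePreserving e ν ν := ⟨hmeas, hS ν hν α⁻¹⟩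
  have hemb : MeasurableEmbedding e :=
    (Homeomorph.mk e.toEquiv (H354.continuous_mulAdl K α⁻¹)
      (H354.continuous_mulAdl_symm K α⁻¹)).measurableEmbedding
  have hD' : IsAddFundamentalDomain (H354.princ354 K) (e ⁻¹' D) ν := by
    refine hD.preimage_of_equiv hmp.quasiMeasurePreserving (H354.mulPrinc_bijective K α⁻¹) ?_
    intro γ x
    show e (H354.mulPrinc K α⁻¹ γ +ᵥ x) = γ +ᵥ e x
    show emb K ((α⁻¹ : Kˣ) : K) * (emb K (((α⁻¹)⁻¹ : Kˣ) : K) * (γ : Adl K) + x)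
      = (γ : Adl K) + emb K ((α⁻¹ : Kˣ) : K) * x
    rw [mul_add, ← mul_assoc, ← map_mul]
    simp
  -- the periodic function
  set F : Adl K → ℂ := fun u => φ (unip K u * g) * conj ((ψ (emb K (α : K) * u) : Circle) : ℂ)
    with hF
  have hFper : ∀ (ξ : K) (u : Adl K), F (u + emb K ξ) = F u := by
    intro ξ u
    show φ (unip K (u + emb K ξ) * g) * conj ((ψ (emb K (α : K) * (u + emb K ξ)) : Circle) : ℂ)
      = φ (unip K u * g) * conj ((ψ (emb K (α : K) * u) : Circle) : ℂ)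
    have h : emb K (α : K) * (u + emb K ξ) = emb K (α : K) * u + emb K ((α : K) * ξ) := by
      rw [mul_add, map_mul]
    rw [periodic_unip91 hl, h, AddChar.map_add_eq_mul, hψ.triv, mul_one]
  have h1 : ∀ x : Adl K,
      φ (unip K x * (torK K α * g)) * conj ((ψ x : Circle) : ℂ) = F (e x) := by
    intro x
    show _ = φ (unip K (emb K ((α⁻¹ : Kˣ) : K) * x) * g)
      * conj ((ψ (emb K (α : K) * (emb K ((α⁻¹ : Kˣ) : K) * x)) : Circle) : ℂ)
    have h2 : emb K (α : K) * (emb K ((α⁻¹ : Kˣ) : K) * x) = x := by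
      rw [← mul_assoc, ← map_mul]
      simp
    rw [h2, ← mul_assoc, unip_mul_torK91, ← map_diagK91, mul_assoc, hl]
  have h3 : ∫ x in D, F (e x) ∂ν = ∫ x in e ⁻¹' D, F (e x) ∂ν := by
    refine hD.setIntegral_eq hD' (fun γ x => ?_)
    obtain ⟨ξ, hξ⟩ := γ.2
    show F (e ((γ : Adl K) + x)) = F (e x)
    have h4 : e ((γ : Adl K) + x) = e x + emb K (((α⁻¹ : Kˣ) : K) * ξ) := by
      show emb K ((α⁻¹ : Kˣ) : K) * ((γ : Adl K) + x)
        = emb K ((α⁻¹ : Kˣ) : K) * x + emb K (((α⁻¹ : Kˣ) : K) * ξ)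
      rw [mul_add, add_comm, map_mul]
      congr 2
      exact hξ.symm
    rw [h4, hFper]
  have h5 : ∫ x in e ⁻¹' D, F (e x) ∂ν = ∫ y in D, F y ∂ν :=
    hmp.setIntegral_preimage_emb hemb F D
  show ∫ x in D, φ (unip K x * (torK K α * g)) * conj ((ψ x : Circle) : ℂ) ∂ν
    = ∫ x in D, φ (unip K x * g) * conj ((ψ (emb K (α : K) * x) : Circle) : ℂ) ∂ν
  calc ∫ x in D, φ (unip K x * (torK K α * g)) * conj ((ψ x : Circle) : ℂ) ∂ν
      = ∫ x in D, F (e x) ∂ν :=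
        integral_congr_ae (Filter.Eventually.of_forall fun x => h1 x)
    _ = ∫ y in D, F y ∂ν := by rw [h3, h5]

variable (K)

/-- **PARSEVAL, WHITTAKER FORM** (typed form of step (4) of `FoldWhitC`). -/
def ParsevalWhitC91 : Prop :=
  letI : MeasurableSpace (Adl K) := borel (Adl K)
  ∀ ψ : AddChar (Adl K) Circle, IsStdChar K ψ → IsNonDeg K ψ →
  ∀ (ν : Measure (Adl K)) (D : Set (Adl K)), ν.IsAddHaarMeasure →
    IsAddFundamentalDomain ((algebraMap K (Adl K)).toAddMonoidHom.range) D ν → ν D < ⊤ →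
  ∀ φ₁ φ₂ : G K → ℂ, Continuous φ₁ → Continuous φ₂ →
    (∃ C : ℝ, ∀ g : G K, ‖φ₁ g‖ ≤ C) → (∃ C : ℝ, ∀ g : G K, ‖φ₂ g‖ ≤ C) →
    (∀ (γ : GL (Fin 2) K) (g : G K),
      φ₁ (Matrix.GeneralLinearGroup.map (algebraMap K (Adl K)) γ * g) = φ₁ g) →
    (∀ (γ : GL (Fin 2) K) (g : G K),
      φ₂ (Matrix.GeneralLinearGroup.map (algebraMap K (Adl K)) γ * g) = φ₂ g) →
    IsCuspidalFn φ₁ →
    ∀ g : G K,
      Summable (fun α : Kˣ =>
        ‖whit ψ ν D φ₁ (torK K α * g) * conj (whit ψ ν D φ₂ (torK K α * g))‖) ∧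
      (ν.real D : ℂ) * ∫ x in D, φ₁ (unip K x * g) * conj (φ₂ (unip K x * g)) ∂ν
        = ∑' α : Kˣ, whit ψ ν D φ₁ (torK K α * g) * conj (whit ψ ν D φ₂ (torK K α * g))

/-- **PARSEVAL, WHITTAKER FORM**, from `T3.CompleteNDC` and `T3.HaarScaleC`. -/
theorem parsevalWhitC91 (hLC : InLocCompC K) (hC : CompleteNDC K) (hS : HaarScaleC K) :
    ParsevalWhitC91 K := by
  letI : MeasurableSpace (Adl K) := borel (Adl K)
  haveI : BorelSpace (Adl K) := ⟨rfl⟩
  intro ψ hψ hnd ν D hν hD hfin φ₁ φ₂ hc₁ hc₂ ⟨C₁, hb₁⟩ ⟨C₂, hb₂⟩ hl₁ hl₂ hcusp g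
  set f₁ : Adl K → ℂ := fun x => φ₁ (unip K x * g) with hf₁
  set f₂ : Adl K → ℂ := fun x => φ₂ (unip K x * g) with hf₂
  have hfc₁ : Continuous f₁ := hc₁.comp (continuous_unip91.mul continuous_const)
  have hfc₂ : Continuous f₂ := hc₂.comp (continuous_unip91.mul continuous_const)
  obtain ⟨hsum, heq⟩ := parsevalAdC91 K hLC hC ψ hψ hnd ν D hν hD hfin f₁ f₂ hfc₁ hfc₂
    ⟨C₁, fun x => hb₁ _⟩ ⟨C₂, fun x => hb₂ _⟩ (fun ξ x => periodic_unip91 hl₁ g ξ x)
  have hw₁ : ∀ α : Kˣ, whit ψ ν D φ₁ (torK K α * g) = coefAd91 ψ ν D f₁ (α : K) :=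
    fun α => whit_torK91 hLC hS ψ hψ ν D hν hD φ₁ hl₁ α g
  have hw₂ : ∀ α : Kˣ, whit ψ ν D φ₂ (torK K α * g) = coefAd91 ψ ν D f₂ (α : K) :=
    fun α => whit_torK91 hLC hS ψ hψ ν D hν hD φ₂ hl₂ α g
  -- the constant term vanishes
  have hzero : coefAd91 ψ ν D f₁ 0 = 0 := by
    show ∫ x in D, f₁ x * conj ((ψ (emb K 0 * x) : Circle) : ℂ) ∂ν = 0
    have h1 : ∀ x : Adl K, f₁ x * conj ((ψ (emb K 0 * x) : Circle) : ℂ) = φ₁ (unip K x * g) := by
      intro x
      rw [map_zero, zero_mul, AddChar.map_zero_eq_one, Circle.coe_one, map_one, mul_one]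
    simp_rw [h1]
    exact hcusp ν hν D hD (unip K) (fun x => unip_coe K x) g
  set c : K → ℂ := fun η => coefAd91 ψ ν D f₁ η * conj (coefAd91 ψ ν D f₂ η) with hc
  have hc0 : c 0 = 0 := by rw [hc]; show coefAd91 ψ ν D f₁ 0 * _ = 0; rw [hzero, zero_mul]
  have hsupp : Function.support c ⊆ {η : K | η ≠ 0} := by
    intro η hη h0
    rw [h0] at hη
    exact hη hc0
  have hcα : ∀ α : Kˣ,
      whit ψ ν D φ₁ (torK K α * g) * conj (whit ψ ν D φ₂ (torK K α * g)) = c (α : K) := by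
    intro α
    rw [hw₁, hw₂]
  constructor
  · have h1 : Summable fun α : Kˣ => ‖c (α : K)‖ :=
      hsum.comp_injective (i := fun α : Kˣ => (α : K)) Units.val_injective
    refine h1.congr fun α => ?_
    rw [hcα]
  · rw [heq]
    have h2 : ∑' η : K, c η = ∑' η : {η : K // η ≠ 0}, c η :=
      (tsum_subtype_eq_of_support_subset hsupp).symm
    have h3 : ∑' η : {η : K // η ≠ 0}, c η = ∑' α : Kˣ, c (α : K) :=
      (Equiv.tsum_eq unitsEquivNeZero (fun η : {η : K // η ≠ 0} => c η)).symm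
    show ∑' η : K, c η = _
    rw [h2, h3]
    refine tsum_congr fun α => ?_
    rw [hcα]

end Fermat.Agent.LT.T7.H91

end
end
-- ===== PACK-END LT/T7/H91/ParsevalWhit.lean

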