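import Mathlib
import Fermat.Agent.Pack.LT2.E13L3
import Fermat.Agent.Pack.LT2.E10L3
import Fermat.Agent.Pack.LT2.E10L0
import Fermat.Agent.Pack.LT2.E10L1
import Fermat.Agent.Pack.LT2.E13L0
import Fermat.Agent.Pack.LT2.E9L1
import Fermat.Agent.Pack.LT2.E13L1
import Fermat.Agent.Pack.LT2.E12L3
import Fermat.Agent.Pack.LT2.E1L1
import Fermat.Agent.Pack.LT2.E13L2
import Fermat.Agent.Pack.LT2.E6L1
import Fermat.Agent.Pack.LT2.E9L3
import Fermat.Agent.Pack.LT2.E2L2
import Fermat.Agent.Pack.LT2.E14L3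

set_option linter.all false

-- ===== PACK-BEGIN LT/T3/H315/AbelClosed.lean
section








/-!
# Row LT, tower T3, leaf AS.2 `AbelCplxC` (registry 1021, helper315): INTEGRATION

OFF-MAIN.  Imports byte-identical copies of the volunteers' files and discharges the closed
sub-leaves of the cut `AbelCut.lean`:

| sub-leaf | closed by |
|---|---|
| AS.2.1 `RegC` | helper811 `regC811` |
| AS.2.2 `NIntC` | helper157 `nIntC157` |
| AS.2.3 `SphContC` | helper166 `sphContC166` |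
| AS.2.4a `CartanC` | helper203 `cartanC203` |
| AS.2.4b `UnitaryHaarC` | helper572 `unitaryHaarC572` |
| AS.2.4c `AvgCoreC` | helper694 `avgCoreC694` |
| AS.2.5 `IwaC` | helper315 `iwaC315` |

`abelCplx_of_calc315 : CalcC → AS.AbelCplxC` is the state of the leaf: `CalcC` (AS.2.6) is the
only sub-leaf still open.
-/

set_option autoImplicit false

namespace Fermat.Agent.LT.T3.H315

/-- `AvgC` is closed. -/
theorem avgC_closed315 : AvgC :=
  avg_of315 Fermat.Agent.LT.T3.H203.cartanC203 Fermat.Agent.LT.T3.H572.unitaryHaarC572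
    Fermat.Agent.LT.T3.H694.avgCoreC694

/-- STATE OF THE LEAF AS.2: everything but the calculus identity `CalcC` is closed. -/
theorem abelCplx_of_calc315 (hc : CalcC) : Fermat.Agent.LT.T3.AS.AbelCplxC :=
  abelCplx_of315 Fermat.Agent.LT.T3.H811.regC811 Fermat.Agent.LT.T3.H157.nIntC157
    Fermat.Agent.LT.T3.H166.sphContC166 avgC_closed315 iwaC315 hc

end Fermat.Agent.LT.T3.H315

end
-- ===== PACK-END LT/T3/H315/AbelClosed.lean

-- ===== PACK-BEGIN LT/T5/H74/KerConst.lean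
section



/-!
# Row LT, tower T5, sub-leaf T5.04b `KerCuspC74` (helper74): the constant term

OFF-MAIN.  For a bounded continuous function `ψ`, left invariant under `GL₂(K)` and right
invariant under the ray generator `r`, the constant term `Ψ(g) = ∫_D ψ(n(x) g) dx` is an
`IsBorelInvariantFn` in the sense of T5/Spec v4 (INCLUDING the field `ray`), and the constant
term of `R(φ)ψ` is `R(φ)Ψ`; hence `R(φ)ψ` is cuspidal for an Eisenstein-killing `φ`.
(Same proof as `T3.H315.constTermT_aux315` of helper315, with the explicit `Ψ`; the lemmas on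
fundamental domains are those of helper237, `LT/T3/H237/ConstTerm.lean`.)
-/

set_option autoImplicit false

open IsDedekindDomain NumberField MeasureTheory
open scoped MatrixGroups ComplexConjugate Pointwise ENNReal

noncomputable section

namespace Fermat.Agent.LT.T5.H74

open Fermat.Agent.LT.H556.A0 Fermat.Agent.LT.T5

attribute [local instance] Fermat.Agent.LT.T5.instMeasurableSpaceG

variable {K : Type} [Field K] [NumberField K]

/-- `x ↦ ψ(n(x) g)` is `K`-periodic. -/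
theorem isPer_unip74 (ψ : G K → ℂ) (hψ : T3.IsAutFn K ψ) (g : G K) :
    T3.H237.IsPer237 K (fun x => ψ (T3.unip K x * g)) := by
  intro ξ x
  show ψ (T3.unip K (x + algebraMap K (Adl K) ξ) * g) = ψ (T3.unip K x * g)
  rw [add_comm, T3.H237.unip_add237, T3.H237.unip_emb237, mul_assoc]
  exact hψ.left_inv _ _

section Main

variable [MeasurableSpace (Adl K)] [BorelSpace (Adl K)]
  [LocallyCompactSpace (Adl K)] [SecondCountableTopology (Adl K)]
  [SecondCountableTopology (G K)]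

/-- **The constant term is Borel-invariant** (T5/Spec v4, with the field `ray`). -/
theorem isBorelInvariantFn_constTerm74
    (hcoc : ∃ C : Set (Adl K), IsCompact C ∧ ∀ x : Adl K, ∃ ξ : K,
      x - algebraMap K (Adl K) ξ ∈ C)
    (r : G K) (hr : IsRayGen r) (ψ : G K → ℂ) (hψ : T3.IsAutFn K ψ)
    (hψr : ∀ g : G K, ψ (g * r) = ψ g)
    (μ' : Measure (Adl K)) [μ'.IsAddHaarMeasure] (D : Set (Adl K))
    (hD : IsAddFundamentalDomain ((algebraMap K (Adl K)).toAddMonoidHom.range) D μ') :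
    IsBorelInvariantFn (fun g => ∫ x in D, ψ (T3.unip K x * g) ∂μ') := by
  obtain ⟨C, hC⟩ := hψ.bdd
  have hDfin : μ' D < ⊤ := T3.H237.measure_fundDom_lt_top237 K μ' hcoc D hD
  have : IsFiniteMeasure (μ'.restrict D) := ⟨by rw [Measure.restrict_apply_univ]; exact hDfin⟩
  have hper := isPer_unip74 ψ hψ
  refine ⟨?_, ?_, ?_, ⟨r, hr, ?_⟩⟩
  · -- continuity
    refine continuous_of_dominated (bound := fun _ => C) ?_ ?_ ?_ ?_
    · intro g
      exact (hψ.cont.comp (continuous_unip74.mul continuous_const)).aestronglyMeasurable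
    · intro g
      exact Filter.Eventually.of_forall fun x => hC _
    · exact integrable_const _
    · exact Filter.Eventually.of_forall fun x =>
        hψ.cont.comp (continuous_const.mul continuous_id)
  · -- invariance under `N(𝔸_K)`
    intro n y hn g
    have hn' : n = T3.unip K y := Units.ext (by rw [hn, T3.unip_coe])
    subst hn'
    show ∫ x in D, ψ (T3.unip K x * (T3.unip K y * g)) ∂μ' = ∫ x in D, ψ (T3.unip K x * g) ∂μ'
    have h := T3.H237.setIntegral_add_right237 K μ' D hD _ (hper g) y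
    rw [← h]
    refine integral_congr_ae (Filter.Eventually.of_forall fun x => ?_)
    show ψ (T3.unip K x * (T3.unip K y * g)) = ψ (T3.unip K (x + y) * g)
    rw [T3.H237.unip_add237, mul_assoc]
  · -- invariance under the rational diagonal matrices
    intro t a b ht g
    obtain ⟨ha, hb⟩ := T3.H315.diag_entries_ne_zero315 K t a b ht
    have hab : a * b⁻¹ ≠ 0 := mul_ne_zero ha (inv_ne_zero hb)
    have hinv : (((Units.mk0 (a * b⁻¹) hab)⁻¹ : Kˣ) : K) = a⁻¹ * b := by
      rw [Units.val_inv_eq_inv_val, Units.val_mk0, mul_inv, inv_inv]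
    show ∫ x in D, ψ (T3.unip K x * (ratG t * g)) ∂μ' = ∫ x in D, ψ (T3.unip K x * g) ∂μ'
    have h := T3.H237.setIntegral_mulK237 K μ' hcoc D hD _ (hper g) (Units.mk0 (a * b⁻¹) hab)
    rw [← h]
    refine integral_congr_ae (Filter.Eventually.of_forall fun x => ?_)
    show ψ (T3.unip K x * (ratG t * g))
      = ψ (T3.unip K (algebraMap K (Adl K) (((Units.mk0 (a * b⁻¹) hab)⁻¹ : Kˣ) : K) * x) * g)
    rw [hinv, ← mul_assoc]
    show ψ (T3.unip K x * Matrix.GeneralLinearGroup.map (algebraMap K (Adl K)) t * g) = _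
    rw [T3.H315.unip_mul_diag315 K t a b ht, mul_assoc]
    exact hψ.left_inv _ _
  · -- invariance under the ray generator
    intro g
    show ∫ x in D, ψ (T3.unip K x * (g * r)) ∂μ' = ∫ x in D, ψ (T3.unip K x * g) ∂μ'
    refine integral_congr_ae (Filter.Eventually.of_forall fun x => ?_)
    show ψ (T3.unip K x * (g * r)) = ψ (T3.unip K x * g)
    rw [← mul_assoc, hψr]

/-- **Fubini**: the constant term of `R(φ)ψ` is `R(φ)` of the constant term of `ψ`. -/
theorem constTerm_Rconv74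
    (hcoc : ∃ C : Set (Adl K), IsCompact C ∧ ∀ x : Adl K, ∃ ξ : K,
      x - algebraMap K (Adl K) ξ ∈ C)
    (μ : Measure (G K)) [μ.IsHaarMeasure] [SFinite μ]
    (φ : G K → ℂ) (hφ : Continuous φ) (hφc : HasCompactSupport φ)
    (ψ : G K → ℂ) (hψ : T3.IsAutFn K ψ)
    (μ' : Measure (Adl K)) [μ'.IsAddHaarMeasure] (D : Set (Adl K))
    (hD : IsAddFundamentalDomain ((algebraMap K (Adl K)).toAddMonoidHom.range) D μ')
    (g : G K) :
    ∫ x in D, Rconv μ φ ψ (T3.unip K x * g) ∂μ'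
      = Rconv μ φ (fun g' => ∫ x in D, ψ (T3.unip K x * g') ∂μ') g := by
  have : BorelSpace (G K) := borelSpaceG74
  obtain ⟨C, hC⟩ := hψ.bdd
  have hDfin : μ' D < ⊤ := T3.H237.measure_fundDom_lt_top237 K μ' hcoc D hD
  have : IsFiniteMeasure (μ'.restrict D) := ⟨by rw [Measure.restrict_apply_univ]; exact hDfin⟩
  unfold Rconv
  have hfi : Integrable φ μ := hφ.integrable_of_hasCompactSupport hφc
  have hb : Integrable (fun z : Adl K × G K => (fun _ : Adl K => C) z.1 * (fun h => ‖φ h‖) z.2)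
      ((μ'.restrict D).prod μ) :=
    Integrable.mul_prod (integrable_const C) hfi.norm
  have hcont : Continuous (Function.uncurry fun (x : Adl K) (h : G K) =>
      φ h * ψ (T3.unip K x * g * h)) := by
    refine Continuous.mul (hφ.comp continuous_snd) (hψ.cont.comp ?_)
    exact ((continuous_unip74.comp continuous_fst).mul continuous_const).mul continuous_snd
  have hint : Integrable (Function.uncurry fun (x : Adl K) (h : G K) =>
      φ h * ψ (T3.unip K x * g * h)) ((μ'.restrict D).prod μ) := by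
    refine hb.mono' hcont.aestronglyMeasurable (Filter.Eventually.of_forall ?_)
    rintro ⟨x, h⟩
    show ‖φ h * ψ (T3.unip K x * g * h)‖ ≤ C * ‖φ h‖
    rw [norm_mul, mul_comm]
    exact mul_le_mul_of_nonneg_right (hC _) (norm_nonneg _)
  rw [integral_integral_swap hint]
  refine integral_congr_ae (Filter.Eventually.of_forall fun h => ?_)
  show ∫ x in D, φ h * ψ (T3.unip K x * g * h) ∂μ'
    = φ h * (∫ x in D, ψ (T3.unip K x * (g * h)) ∂μ')
  rw [integral_const_mul]
  simp only [mul_assoc]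

/-- **`R(φ)ψ` is cuspidal** for an Eisenstein-killing `φ` (operator form, Spec v4) and a bounded
continuous automorphic `ψ` which is invariant under the ray generator. -/
theorem cuspidal_Rconv74
    (hcoc : ∃ C : Set (Adl K), IsCompact C ∧ ∀ x : Adl K, ∃ ξ : K,
      x - algebraMap K (Adl K) ξ ∈ C)
    (μ : Measure (G K)) [μ.IsHaarMeasure] [SFinite μ]
    (φ : G K → ℂ) (hφ : Continuous φ) (hφc : HasCompactSupport φ) (hek : IsEK μ φ)
    (r : G K) (hr : IsRayGen r) (ψ : G K → ℂ) (hψ : T3.IsAutFn K ψ)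
    (hψr : ∀ g : G K, ψ (g * r) = ψ g)
    (μ' : Measure (Adl K)) [μ'.IsAddHaarMeasure] (D : Set (Adl K))
    (hD : IsAddFundamentalDomain ((algebraMap K (Adl K)).toAddMonoidHom.range) D μ')
    (g : G K) :
    ∫ x in D, Rconv μ φ ψ (T3.unip K x * g) ∂μ' = 0 := by
  rw [constTerm_Rconv74 hcoc μ φ hφ hφc ψ hψ μ' D hD g]
  exact hek _ (isBorelInvariantFn_constTerm74 hcoc r hr ψ hψ hψr μ' D hD) g

end Main

end Fermat.Agent.LT.T5.H74

end

end
-- ===== PACK-END LT/T5/H74/KerConst.lean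

-- ===== PACK-BEGIN LT/T5/H873/KerAut.lean
section




/-!
# Row LT, tower T5: sub-leaves T5.02c `KerAutC`, T5.02d `KerMeasC`, and the ADAPTER
`leafHS0_of_supBound873 : T1.LocCompC K → T1.DiscreteC K → T1.AdNormC K → SupBoundC 𝔫 τ →
  LeafHS0 𝔫 τ` (helper873)

OFF-MAIN.  After this file T5.02 `LeafHS0` is equivalent to ONE analytic statement, `SupBoundC`
(= `T2.GPSKill` in the class of T5), relative to the closed interface Props of tower T1.
-/

set_option autoImplicit false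

open IsDedekindDomain NumberField MeasureTheory
open scoped MatrixGroups ComplexConjugate ContDiff Topology

noncomputable section

namespace Fermat.Agent.LT.T5.H873

open Fermat.Agent.LT.H556.A0 Fermat.Agent.LT.T5

attribute [local instance] Fermat.Agent.LT.T5.instMeasurableSpaceG

variable {K : Type} [Field K] [NumberField K]

/-! ## Invariance properties of the kernel in the second variable (re-indexing) -/

theorem ker0_left_inv873 (r : G K) (φ : G K → ℂ) (x y : G K) (γ' : GL (Fin 2) K) :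
    ker0 r φ x (ratG γ' * y) = ker0 r φ x y := by
  unfold ker0
  have h : ∀ γ : GL (Fin 2) K,
      flat r φ (x⁻¹ * ratG γ * (ratG γ' * y)) = flat r φ (x⁻¹ * ratG (γ * γ') * y) := by
    intro γ
    rw [map_mul]
    simp only [mul_assoc]
  simp_rw [h]
  exact (Equiv.mulRight γ').tsum_eq (fun γ => flat r φ (x⁻¹ * ratG γ * y))

theorem flat_mul_right873 {r : G K} (hr : IsRayGen r) (φ : G K → ℂ) (g u : G K) (c : ℂ)
    (h : ∀ g' : G K, φ (g' * u) = c * φ g') : flat r φ (g * u) = c * flat r φ g := by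
  unfold flat
  rw [← tsum_mul_left]
  congr 1
  funext m
  rw [mul_assoc, ← H277.ray_zpow_comm277 hr u m, ← mul_assoc, h]

theorem ker0_mul_right873 {r : G K} (hr : IsRayGen r) (φ : G K → ℂ) (x y u : G K) (c : ℂ)
    (h : ∀ g' : G K, φ (g' * u) = c * φ g') : ker0 r φ x (y * u) = c * ker0 r φ x y := by
  unfold ker0
  rw [← tsum_mul_left]
  congr 1
  funext γ
  rw [← mul_assoc, flat_mul_right873 hr φ _ u c h]

theorem flat_ray873 (r : G K) (φ : G K → ℂ) (g : G K) : flat r φ (g * r) = flat r φ g := by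
  unfold flat
  have h : ∀ m : ℤ, φ (g * r * r ^ m) = φ (g * r ^ (m + 1)) := by
    intro m
    rw [mul_assoc, ← zpow_one_add, add_comm]
  simp_rw [h]
  exact (Equiv.addRight (1 : ℤ)).tsum_eq (fun m => φ (g * r ^ m))

theorem ker0_ray873 (r : G K) (φ : G K → ℂ) (x y : G K) :
    ker0 r φ x (y * r) = ker0 r φ x y := by
  unfold ker0
  congr 1
  funext γ
  rw [← mul_assoc, flat_ray873]

/-- `conj (τ k)⁻¹ = τ k` for a unitary value. -/
theorem conj_inv_of_norm_one873 {z : ℂ} (hz : ‖z‖ = 1) : conj (z⁻¹) = z := by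
  have hz0 : z ≠ 0 := by
    intro h
    rw [h, norm_zero] at hz
    exact zero_ne_one hz
  have h1 : conj z * z = 1 := by
    rw [mul_comm, Complex.mul_conj, Complex.normSq_eq_norm_sq, hz]
    simp
  rw [map_inv₀, eq_inv_of_mul_eq_one_left h1, inv_inv]

/-- **T5.02c `KerAutC`**, conditional on interface Props of tower T1. -/
theorem kerAutC873 (hD : T1.DiscreteC K) (hL : T1.LocCompC K) (hN : T1.AdNormC K)
    (𝔫 : Ideal (𝓞 K)) (τ : G K → ℂ) : KerAutC 𝔫 τ := by
  intro μ F r hF hr φ ht x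
  refine ⟨?_, bdd_ker0_873 hD hN hr ht.cont ht.supp x, ?_⟩
  · have hc := continuous_ker0_873 hL hD hN hr ht.cont ht.supp
    have h2 : Continuous (fun y : G K => ((x, y) : G K × G K)) :=
      continuous_const.prodMk continuous_id
    have h3 : Continuous ((fun p : G K × G K => ker0 r φ p.1 p.2) ∘
        (fun y : G K => ((x, y) : G K × G K))) := hc.comp h2
    exact h3
  · refine ⟨?_, ?_, ?_, ?_⟩
    · intro γ g
      rw [ker0_left_inv873]
    · intro u hu g
      rw [ker0_mul_right873 hr φ x g u 1 (fun g' => by rw [ht.inv.level_right u hu, one_mul]),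
        one_mul]
    · intro w k hk g
      rw [ker0_mul_right873 hr φ x g k (τ k)⁻¹ (fun g' => ht.inv.arch_right w k hk g'),
        map_mul, conj_inv_of_norm_one873 (ht.ktype.norm_one w k hk)]
    · intro g
      rw [ker0_ray873]

/-- **T5.02d `KerMeasC`**, conditional on interface Props of tower T1. -/
theorem kerMeasC873 (hD : T1.DiscreteC K) (hL : T1.LocCompC K) (hN : T1.AdNormC K)
    (𝔫 : Ideal (𝓞 K)) (τ : G K → ℂ) : KerMeasC 𝔫 τ := by
  intro μ F r hF hr φ ht
  have : BorelSpace (G K) := borelSpace_G873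
  have : SecondCountableTopology (G K) := hL.2.2.2
  exact (continuous_ker0_873 hL hD hN hr ht.cont ht.supp).aestronglyMeasurable

/-- **THE ADAPTER: T5.02 `LeafHS0` from the sup bound** (`T2.GPSKill` in the class of T5),
relative to the interface Props `LocCompC`, `DiscreteC`, `AdNormC` of tower T1. -/
theorem leafHS0_of_supBound873 (hL : T1.LocCompC K) (hD : T1.DiscreteC K) (hN : T1.AdNormC K)
    (𝔫 : Ideal (𝓞 K)) (τ : G K → ℂ) (hA : SupBoundC 𝔫 τ) : LeafHS0 𝔫 τ :=
  leafHS0_of_cut873 𝔫 τ hA (kerRepC873 hN 𝔫 τ) (kerAutC873 hD hL hN 𝔫 τ)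
    (kerMeasC873 hD hL hN 𝔫 τ)

/-- The same from the output of tower T1. -/
theorem leafHS0_of_T1Out873 (h : T1.T1Out K) (𝔫 : Ideal (𝓞 K)) (τ : G K → ℂ)
    (hA : SupBoundC 𝔫 τ) : LeafHS0 𝔫 τ :=
  leafHS0_of_supBound873 h.locComp h.discrete h.adNorm 𝔫 τ hA

end Fermat.Agent.LT.T5.H873

end

end
-- ===== PACK-END LT/T5/H873/KerAut.lean

-- ===== PACK-BEGIN LT/T7/H179/Weight.lean
section



/-!
# Row LT, tower T7, leaf T7.14.6d `WeightC` (helper179)

OFF-MAIN.  `weightC179 K : Rigid.WeightC K`, VERBATIM vs `H62/RigidStrip.lean` (helper62),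
UNCONDITIONAL, for every number field `K`.  The analysis is in `WeightCore.lean` (Mathlib only):
`K₀(t)² ≤ (π / t) e^{-2t}`, `archG c T ≤ C_s T^{-s}` for every `s > 1/2`
(`s = 3/4`: integrable at `0`; `s = 2`: decay at `∞`, `η = 1`).
-/

set_option autoImplicit false

open NumberField

namespace Fermat.Agent.LT.T7.H179

open Fermat.Agent.LT.T7 Fermat.Agent.LT.T7.Rigid

theorem mult_eq_two179 (K : Type) [Field K] (h : TotCplx K) (w : InfinitePlace K) :
    w.mult = 2 := by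
  have hw : ¬ w.IsReal := InfinitePlace.not_isReal_iff_isComplex.mpr (h w)
  simp [InfinitePlace.mult, hw]

variable (K : Type) [Field K] [NumberField K]

theorem archG_eq179 (h : TotCplx K) (c : InfinitePlace K → ℝ) (T : ℝ) :
    archG c T = gg179 c T := by
  unfold archG gg179 dom179 itg179
  simp only [mult_eq_two179 K h]
  rfl

/-- **T7.14.6d `WeightC`**: the archimedean weight is a weight. -/
theorem weightC179 : WeightC K := by
  intro h c t₀ hc ht₀
  have hcore := weight_core179 c hc t₀ ht₀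
  have heq : (fun T => archG c (T / t₀)) = fun T => gg179 c (T / t₀) :=
    funext fun T => archG_eq179 K h c _
  rw [heq]
  exact ⟨hcore.1, hcore.2.1, hcore.2.2.1, hcore.2.2.2.1, hcore.2.2.2.2⟩

end Fermat.Agent.LT.T7.H179

end
-- ===== PACK-END LT/T7/H179/Weight.lean

-- ===== PACK-BEGIN LT/T7/H62/RigidWhit.lean
section



/-!
# Row LT, tower T7, NODE T7.14 `RigidC` -- SUB-SPEC, LEVEL 5 = cut of `WhitFormC`
(sub-architect helper62)

OFF-MAIN.  ADDITIVE (new names only; nothing of levels 1-4 is changed).  Definitions, frozen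
Props, PROVED assembly.  No `sorry`, nothing assumed.

```
WhitForm2C K  ⇐  TorusC K + LocC K + MixC K                        (`whitForm2C_of`, PROVED here)
WhitForm2C K  ⇐  WhitFormC K                                       (`whitForm2C_of_whitFormC`)
∃ T₀, StripOnC K T₀ ⇐ FoldWhitC + WhitForm2C + IdeleSumC + WeightC (`stripOnC_of2`, PROVED here)
T7.RigidC K   ⇐  ... (as `rigidC_of_strip`, with `WhitForm2C`)     (`rigidC_of_strip2`)
TorusC K      ⇐  HeckeRecC K + ArchUniqC K + WhitInheritC K + MixC K   (LEAF `TorusAsmC`)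
```

## Why `WhitForm2C`

`WhitFormC` (level 4) uses ONE ideal `𝔪` for the level of `φ₁` and for the width of the cell.
This is true (local newform theory) but the elementary localisation (finite `ψ`-twisted average
of right translates by `n(x)`, `x ∈ K_S`) produces a form of level `𝔪` whose Whittaker function
lives on a cell of width `𝔠` with `𝔪 ⊆ 𝔠`, `𝔪 ≠ 𝔠` in general.  `WhitForm2C` has two ideals; the
leaves `FoldWhitC` (used at `𝔪`) and `IdeleSumC` (used at `𝔠`) are UNCHANGED.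

## The Props

* `MixC`         (Mathlib only, restricted product): for ideles `y, y'` and a finite set `S`
  there is an idele with the components of `y` at `S` and those of `y'` elsewhere.
* `TorusC`       (NODE): for every `S`-form `φ` the Whittaker function on the torus is
  `W(a(y)) = f(y) · kirOut(y)`, `f` depending only on the components of `y` at `S`,
  `kirOut = archProfile · ∏_{v ∉ S} locFactor`.
* `LocC`         (NODE, localisation): there are `S`-forms `φ₁, φ₁'`, of level `𝔪`, whose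
  Whittaker functions on the torus do not vanish identically, vanish outside the cell
  `y₀ (1 + 𝔠 𝒪_S)` and are constant on the cell for fixed components outside `S`.
* `HeckeRecC`    (LEAF, one finite place `v ∉ S`): `W(a(y)) = 0` if `ord_v y < 0`, and
  `q W(a(y ϖ)) + W(a(y ϖ⁻¹)) = √q a_v W(a(y))` if `ord_v y ≥ 0`.
* `ArchUniqC`    (LEAF, archimedean uniqueness; row 1719): a bounded continuous function on
  `GL₂(𝔸)` which is `(N, ψ)`-equivariant on the left, right invariant under the positive scalars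
  and the unitary groups at the infinite places and has the mean-value property of parameter `0`
  at every complex place satisfies `f(a(y)) · P(y') = f(a(y')) · P(y)` for ideles `y, y'` with the
  same finite components, `P = archProfile c`, `c_w = 2π |λ_w|` if `ψ_w(x) = e(Re(λ_w x))`.
* `WhitInheritC` (LEAF): the Whittaker function of an `S`-form is such a function.
* `TorusAsmC`    (LEAF, bookkeeping on ideles): the implication
  `HeckeRecC + ArchUniqC + WhitInheritC + MixC ⇒ TorusC`.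
-/

set_option autoImplicit false

open AutomorphicForm IsDedekindDomain NumberField Filter Topology MeasureTheory
open scoped ComplexConjugate

noncomputable section

namespace Fermat.Agent.LT.T7.Rigid

open Fermat.Agent.LT.H556 Fermat.Agent.LT.H556.A0 Fermat.Agent.LT.T7

attribute [local instance] Fermat.Agent.LT.T5.instMeasurableSpaceG

variable {K : Type} [Field K] [NumberField K]

/-! ## Vocabulary -/

open Classical in
/-- The part of `kir` outside `S`: `archProfile c y · ∏_{v ∉ S} q_v^{-m_v/2} s_{m_v}(a_v)`. -/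
def kirOut (a : HeightOneSpectrum (𝓞 K) → ℂ) (S : Finset (HeightOneSpectrum (𝓞 K)))
    (c : InfinitePlace K → ℝ) (y : (Adl K)ˣ) : ℂ :=
  ((archProfile c y : ℝ) : ℂ)
    * ∏ᶠ v : HeightOneSpectrum (𝓞 K), (if v ∈ S then 1 else locFactor v (a v) (ordI v y))

/-- `y` and `y'` have the same components at the places of `S`. -/
def SameAt (S : Finset (HeightOneSpectrum (𝓞 K))) (y y' : (Adl K)ˣ) : Prop :=
  ∀ v ∈ S, (y : Adl K).2 v = (y' : Adl K).2 v

/-- `y` and `y'` have the same components at the finite places outside `S` and at the infinite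
places. -/
def SameOff (S : Finset (HeightOneSpectrum (𝓞 K))) (y y' : (Adl K)ˣ) : Prop :=
  (∀ v : HeightOneSpectrum (𝓞 K), v ∉ S → (y : Adl K).2 v = (y' : Adl K).2 v) ∧
    ∀ w : InfinitePlace K, (y : Adl K).1 w = (y' : Adl K).1 w

/-- `t` is a uniformiser at `v`, and `1` at every other place. -/
def IsUnifIdele (v : HeightOneSpectrum (𝓞 K)) (t : (Adl K)ˣ) : Prop :=
  (∀ w : InfinitePlace K, (t : Adl K).1 w = 1) ∧
    (∀ v' : HeightOneSpectrum (𝓞 K), v' ≠ v → (t : Adl K).2 v' = 1) ∧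
    Valued.v ((t : Adl K).2 v) = WithZero.exp (-1 : ℤ)

/-- The properties of a Whittaker function used at the infinite places. -/
structure IsArchWhit (ψ : AddChar (Adl K) Circle) (f : G K → ℂ) : Prop where
  cont : Continuous f
  bdd : ∃ C : ℝ, ∀ g : G K, ‖f g‖ ≤ C
  equiv : ∀ (x : Adl K) (g : G K),
    f (Fermat.Agent.LT.T3.unip K x * g) = ((ψ x : Circle) : ℂ) * f g
  arch_scalar : ∀ (w : InfinitePlace K) (z : G K), IsArchPosScalar w z →
    ∀ g : G K, f (g * z) = f g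
  arch_compact : ∀ (w : InfinitePlace K) (k : G K), IsArchCompact w k →
    ∀ g : G K, f (g * k) = f g
  mean_complex : ∀ w : InfinitePlace K, w.IsComplex → MeanValueComplex f w

/-! ## The Props of level 5 -/

variable (K)

/-- **LEAF MIX** (Mathlib only; restricted product).  For ideles `y, y'` and a finite set `S` of
finite places there is an idele with the components of `y` at `S` and the components of `y'`
at all other places. -/
def MixC : Prop :=
  ∀ (S : Finset (HeightOneSpectrum (𝓞 K))) (y y' : (Adl K)ˣ),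
    ∃ z : (Adl K)ˣ, SameAt S z y ∧ SameOff S z y'

/-- **NODE WHIT-FORM, two ideals.**  As `WhitFormC`, with an ideal `𝔪` for the level of `φ₁, φ₁'`
and an ideal `𝔠` for the width of the cell. -/
def WhitForm2C : Prop :=
  letI : MeasurableSpace (Adl K) := borel (Adl K)
  TotCplx K →
  ∀ ψ : AddChar (Adl K) Circle, Fermat.Agent.LT.T3.IsStdChar K ψ →
    Fermat.Agent.LT.T3.IsNonDeg K ψ →
  ∀ (ν : Measure (Adl K)) (D : Set (Adl K)), ν.IsAddHaarMeasure → MeasurableSet D →
    IsAddFundamentalDomain ((algebraMap K (Adl K)).toAddMonoidHom.range) D ν → ν D < ⊤ →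
  ∀ (π π' : HeckeEigensystem K ℂ) (φ φ' : G K → ℂ),
    IsSph0CuspFormFor π φ → IsSph0CuspFormFor π' φ' →
    ∀ S : Finset (HeightOneSpectrum (𝓞 K)), IsUnramOutside ψ S →
      IsGoodOutside π S → IsGoodOutside π' S →
      ∃ (φ₁ φ₁' : G K → ℂ) (𝔪 𝔠 : Ideal (𝓞 K)) (y₀ : (Adl K)ˣ) (c : InfinitePlace K → ℝ)
        (w₀ w₀' : ℂ),
        IsSForm π S φ₁ ∧ IsSForm π' S φ₁' ∧ (∃ g : G K, φ₁ g ≠ 0) ∧ (φ = φ' → φ₁ = φ₁') ∧
        IsSupp S 𝔪 ∧ IsSupp S 𝔠 ∧ IsLevelInv 𝔪 φ₁ ∧ IsLevelInv 𝔪 φ₁' ∧ (∀ w, 0 < c w) ∧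
        w₀ ≠ 0 ∧ w₀' ≠ 0 ∧
        ∀ y : (Adl K)ˣ,
          whit ψ ν D φ₁ (dgA y) = w₀ * kir π.a S 𝔠 y₀ c y ∧
          whit ψ ν D φ₁' (dgA y) = w₀' * kir π'.a S 𝔠 y₀ c y

/-- **NODE TORUS** (Hecke recursion at the places outside `S` + archimedean uniqueness).  There
are constants `c_w > 0` (depending on `ψ` only) such that for every `S`-form `φ` of `π`, `ψ`
unramified outside `S`: `W_φ(a(y)) = f(y) · kirOut π.a S c y` for all ideles `y`, where `f(y)`
depends only on the components of `y` at the places of `S`. -/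
def TorusC : Prop :=
  letI : MeasurableSpace (Adl K) := borel (Adl K)
  TotCplx K →
  ∀ ψ : AddChar (Adl K) Circle, Fermat.Agent.LT.T3.IsStdChar K ψ →
    Fermat.Agent.LT.T3.IsNonDeg K ψ →
  ∀ (ν : Measure (Adl K)) (D : Set (Adl K)), ν.IsAddHaarMeasure → MeasurableSet D →
    IsAddFundamentalDomain ((algebraMap K (Adl K)).toAddMonoidHom.range) D ν → ν D < ⊤ →
    ∃ c : InfinitePlace K → ℝ, (∀ w, 0 < c w) ∧
      ∀ (π : HeckeEigensystem K ℂ) (S : Finset (HeightOneSpectrum (𝓞 K))) (φ : G K → ℂ),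
        IsUnramOutside ψ S → IsSForm π S φ →
        ∃ f : (Adl K)ˣ → ℂ, (∀ y y' : (Adl K)ˣ, SameAt S y y' → f y = f y') ∧
          ∀ y : (Adl K)ˣ, whit ψ ν D φ (dgA y) = f y * kirOut π.a S c y

/-- **NODE LOC** (localisation at `S`).  For forms `φ, φ'` as in A0 and a finite set `S`
containing the bad places of both and the places where `ψ` is ramified there are `S`-forms `φ₁`
of `π` and `φ₁'` of `π'` (equal if `φ = φ'`), right invariant under `U(𝔪)`, whose Whittaker
functions on the torus (i) do not vanish identically, (ii) vanish outside the cell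
`{y : y_v ∈ y₀_v (1 + 𝔠 𝒪_v), v ∈ S}`, (iii) take the same value at two ideles of the cell with
the same components outside `S`.

Construction: `W_φ(g₀) ≠ 0` for some `g₀` (Parseval on `K \ 𝔸_K`, cuspidality, continuity);
`g₀ = n(x) a(y₁) z k` (Iwasawa), `φ` is invariant under the centre, under `k_∞` and under `k_v`,
`v ∉ S`; `φ₂ = R(k_S) φ`; `φ₁ = ∑_{x ∈ X} ψ̄(y₁ x) R(n(x)) φ₂`, `X = ∏_{v ∈ S} 𝔭_v^{-N_v} / 𝔪`;
then `W₁(a(y)) = W₂(a(y)) ∑_x ψ((y - y₁) x) = |X| · 1[y ∈ cell] · W₂(a(y))`.  For `φ'`: the same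
after a right translation by `a(t)`, `t ∈ K_S^×`, which moves the `S`-components of `y₁'` to
those of `y₁`. -/
def LocC : Prop :=
  letI : MeasurableSpace (Adl K) := borel (Adl K)
  TotCplx K →
  ∀ ψ : AddChar (Adl K) Circle, Fermat.Agent.LT.T3.IsStdChar K ψ →
    Fermat.Agent.LT.T3.IsNonDeg K ψ →
  ∀ (ν : Measure (Adl K)) (D : Set (Adl K)), ν.IsAddHaarMeasure → MeasurableSet D →
    IsAddFundamentalDomain ((algebraMap K (Adl K)).toAddMonoidHom.range) D ν → ν D < ⊤ →
  ∀ (π π' : HeckeEigensystem K ℂ) (φ φ' : G K → ℂ),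
    IsSph0CuspFormFor π φ → IsSph0CuspFormFor π' φ' →
    ∀ S : Finset (HeightOneSpectrum (𝓞 K)), IsUnramOutside ψ S →
      IsGoodOutside π S → IsGoodOutside π' S →
      ∃ (φ₁ φ₁' : G K → ℂ) (𝔪 𝔠 : Ideal (𝓞 K)) (y₀ : (Adl K)ˣ),
        IsSForm π S φ₁ ∧ IsSForm π' S φ₁' ∧ (φ = φ' → φ₁ = φ₁') ∧
        IsSupp S 𝔪 ∧ IsSupp S 𝔠 ∧ IsLevelInv 𝔪 φ₁ ∧ IsLevelInv 𝔪 φ₁' ∧
        (∃ y : (Adl K)ˣ, whit ψ ν D φ₁ (dgA y) ≠ 0) ∧
        (∃ y : (Adl K)ˣ, whit ψ ν D φ₁' (dgA y) ≠ 0) ∧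
        (∀ y : (Adl K)ˣ, whit ψ ν D φ₁ (dgA y) ≠ 0 → InCell S 𝔠 y₀ y) ∧
        (∀ y : (Adl K)ˣ, whit ψ ν D φ₁' (dgA y) ≠ 0 → InCell S 𝔠 y₀ y) ∧
        (∀ y y' : (Adl K)ˣ, InCell S 𝔠 y₀ y → InCell S 𝔠 y₀ y' → SameOff S y y' →
          whit ψ ν D φ₁ (dgA y) = whit ψ ν D φ₁ (dgA y')) ∧
        (∀ y y' : (Adl K)ˣ, InCell S 𝔠 y₀ y → InCell S 𝔠 y₀ y' → SameOff S y y' →
          whit ψ ν D φ₁' (dgA y) = whit ψ ν D φ₁' (dgA y'))

/-- **LEAF HECKE-REC** (one finite place `v ∉ S`).  For an `S`-form `φ` of `π`, `ψ` unramified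
outside `S`, a place `v ∉ S`, an idele `y` and a uniformiser `t` at `v`:
`W(a(y)) = 0` if `ord_v y < 0`, and `q_v W(a(y t)) + W(a(y t⁻¹)) = √q_v a_v W(a(y))` if
`ord_v y ≥ 0`.

Proof: `W(a(y) n(x)) = ψ(y x) W(a(y))` and `n(x) ∈ GL₂(𝒪_v)` for `x ∈ 𝒪_v` give the vanishing
(`ψ_v` is non-trivial on `ϖ_v⁻¹ 𝒪_v`); the Hecke relation for the coset system
`{n(r) a(t) : r ∈ 𝒪_v / ϖ_v} ∪ {z(t) a(t⁻¹)}` (`z(t)` the scalar, eigenvalue `1`) gives the
recursion (`a(y) n(r) a(t) = n(y r) a(y t)`, `ψ(y r) = 1`). -/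
def HeckeRecC : Prop :=
  letI : MeasurableSpace (Adl K) := borel (Adl K)
  TotCplx K →
  ∀ ψ : AddChar (Adl K) Circle, Fermat.Agent.LT.T3.IsStdChar K ψ →
    Fermat.Agent.LT.T3.IsNonDeg K ψ →
  ∀ (ν : Measure (Adl K)) (D : Set (Adl K)), ν.IsAddHaarMeasure → MeasurableSet D →
    IsAddFundamentalDomain ((algebraMap K (Adl K)).toAddMonoidHom.range) D ν → ν D < ⊤ →
  ∀ (π : HeckeEigensystem K ℂ) (S : Finset (HeightOneSpectrum (𝓞 K))) (φ : G K → ℂ),
    IsUnramOutside ψ S → IsSForm π S φ →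
    ∀ v : HeightOneSpectrum (𝓞 K), v ∉ S → ∀ y t : (Adl K)ˣ, IsUnifIdele v t →
      (ordI v y < 0 → whit ψ ν D φ (dgA y) = 0) ∧
      (0 ≤ ordI v y →
        ((nv v : ℝ) : ℂ) * whit ψ ν D φ (dgA (y * t)) + whit ψ ν D φ (dgA (y * t⁻¹))
          = ((Real.sqrt (nv v) : ℝ) : ℂ) * π.a v * whit ψ ν D φ (dgA y))

/-- **LEAF ARCH-U** (archimedean uniqueness of the bounded Whittaker function of parameter `0`;
row 1719).  There are constants `c_w > 0` (`c_w = 2π |λ_w|` if the component of `ψ` at `w` is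
`x ↦ e(Re(λ_w x))`) such that every function `f` with the properties `IsArchWhit ψ f` satisfies
`f(a(y)) · archProfile c y' = f(a(y')) · archProfile c y` for all ideles `y, y'` with the same
finite components.

Proof at one complex place (the other components are parameters): `F(x, r) = f(n(x) a(r) g)` is
a bounded continuous function on `ℍ³` with the mean-value property of parameter `0`, hence real
analytic with `ΔF + F = 0`; `F = ψ_w(x) W(r)`, so `r² W'' - r W' + (1 - c² r²) W = 0`,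
`W = r (A K₀(c r) + B I₀(c r))`, and `B = 0` as `W` is bounded. -/
def ArchUniqC : Prop :=
  TotCplx K →
  ∀ ψ : AddChar (Adl K) Circle, Fermat.Agent.LT.T3.IsStdChar K ψ →
    Fermat.Agent.LT.T3.IsNonDeg K ψ →
    ∃ c : InfinitePlace K → ℝ, (∀ w, 0 < c w) ∧
      ∀ f : G K → ℂ, IsArchWhit ψ f →
        ∀ y y' : (Adl K)ˣ,
          (∀ v : HeightOneSpectrum (𝓞 K), (y : Adl K).2 v = (y' : Adl K).2 v) →
          f (dgA y) * ((archProfile c y' : ℝ) : ℂ) = f (dgA y') * ((archProfile c y : ℝ) : ℂ)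

/-- **LEAF WHIT-INHERIT.**  The Whittaker function of an `S`-form is continuous, bounded,
`(N, ψ)`-equivariant on the left (change of variables on the fundamental domain; `φ` is left
invariant under `n(ξ)`, `ξ ∈ K`, and `ψ` is trivial on `K`), right invariant under the positive
scalars and the unitary groups at the infinite places, and has the mean-value property of
parameter `0` at the complex places (Fubini). -/
def WhitInheritC : Prop :=
  letI : MeasurableSpace (Adl K) := borel (Adl K)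
  ∀ ψ : AddChar (Adl K) Circle, Fermat.Agent.LT.T3.IsStdChar K ψ →
  ∀ (ν : Measure (Adl K)) (D : Set (Adl K)), ν.IsAddHaarMeasure → MeasurableSet D →
    IsAddFundamentalDomain ((algebraMap K (Adl K)).toAddMonoidHom.range) D ν → ν D < ⊤ →
  ∀ (π : HeckeEigensystem K ℂ) (S : Finset (HeightOneSpectrum (𝓞 K))) (φ : G K → ℂ),
    IsSForm π S φ → IsArchWhit ψ (whit ψ ν D φ)

/-- **LEAF TORUS-ASM** (bookkeeping on ideles): the node `TorusC` from the Hecke recursion, the
archimedean uniqueness, the properties of the Whittaker function and `MixC`.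

Proof: `f(y) = W(a(y^S)) / archProfile c 1`, `y^S` the idele with the components of `y` at `S`
and `1` elsewhere; `W(a(y u)) = W(a(y))` for `u ∈ ∏_{v ∉ S} 𝒪_v^×` (level invariance of `φ`);
induction on the finite set of the places `v ∉ S` with `ord_v y ≠ 0`, at each place induction on
`ord_v y` by the recursion. -/
def TorusAsmC : Prop :=
  HeckeRecC K → ArchUniqC K → WhitInheritC K → MixC K → TorusC K

/-! ## The assembly -/

variable {K}

open Classical in
theorem kir_eq_kirOut (a : HeightOneSpectrum (𝓞 K) → ℂ) (S : Finset (HeightOneSpectrum (𝓞 K)))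
    (𝔠 : Ideal (𝓞 K)) (y₀ : (Adl K)ˣ) (c : InfinitePlace K → ℝ) (y : (Adl K)ˣ) :
    kir a S 𝔠 y₀ c y = (if InCell S 𝔠 y₀ y then 1 else 0) * kirOut a S c y := by
  unfold kir kirOut
  ring

open Classical in
theorem kirOut_congr (a : HeightOneSpectrum (𝓞 K) → ℂ) (S : Finset (HeightOneSpectrum (𝓞 K)))
    (c : InfinitePlace K → ℝ) {y y' : (Adl K)ˣ} (h : SameOff S y y') :
    kirOut a S c y = kirOut a S c y' := by
  unfold kirOut
  have h1 : archProfile c y = archProfile c y' := by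
    unfold archProfile
    refine Finset.prod_congr rfl fun w _ => ?_
    rw [h.2 w]
  have h2 : ∀ v : HeightOneSpectrum (𝓞 K),
      (if v ∈ S then (1 : ℂ) else locFactor v (a v) (ordI v y))
        = if v ∈ S then (1 : ℂ) else locFactor v (a v) (ordI v y') := by
    intro v
    by_cases hv : v ∈ S
    · simp [hv]
    · simp only [hv, if_false]
      unfold ordI
      rw [h.1 v hv]
  rw [h1, finprod_congr h2]

theorem inCell_congr {S : Finset (HeightOneSpectrum (𝓞 K))} {𝔠 : Ideal (𝓞 K)}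
    {y₀ y y' : (Adl K)ˣ} (h : SameAt S y' y) (hy : InCell S 𝔠 y₀ y) : InCell S 𝔠 y₀ y' := by
  intro v hv
  obtain ⟨u, hu, hyu⟩ := hy v hv
  exact ⟨u, hu, by rw [h v hv, hyu]⟩

/-- The formula on the torus for one form. -/
theorem whit_eq_kir_of (hM : MixC K) {a : HeightOneSpectrum (𝓞 K) → ℂ}
    {S : Finset (HeightOneSpectrum (𝓞 K))} {𝔠 : Ideal (𝓞 K)} {y₀ : (Adl K)ˣ}
    {c : InfinitePlace K → ℝ} {W f : (Adl K)ˣ → ℂ}
    (hf : ∀ y y' : (Adl K)ˣ, SameAt S y y' → f y = f y')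
    (hW : ∀ y : (Adl K)ˣ, W y = f y * kirOut a S c y)
    (hsupp : ∀ y : (Adl K)ˣ, W y ≠ 0 → InCell S 𝔠 y₀ y)
    (hconst : ∀ y y' : (Adl K)ˣ, InCell S 𝔠 y₀ y → InCell S 𝔠 y₀ y' → SameOff S y y' →
      W y = W y')
    {ys : (Adl K)ˣ} (hne : W ys ≠ 0) :
    f ys ≠ 0 ∧ ∀ y : (Adl K)ˣ, W y = f ys * kir a S 𝔠 y₀ c y := by
  have hfk : f ys ≠ 0 ∧ kirOut a S c ys ≠ 0 := by
    rw [hW ys] at hne
    exact ⟨left_ne_zero_of_mul hne, right_ne_zero_of_mul hne⟩
  refine ⟨hfk.1, fun y => ?_⟩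
  rw [kir_eq_kirOut]
  by_cases hy : InCell S 𝔠 y₀ y
  · rw [if_pos hy, one_mul, hW y]
    by_cases hk : kirOut a S c y = 0
    · rw [hk, mul_zero, mul_zero]
    · obtain ⟨z, hz1, hz2⟩ := hM S y ys
      have hzc : InCell S 𝔠 y₀ z := inCell_congr hz1 hy
      have hWz : W z = W ys := hconst z ys hzc (hsupp ys hne) hz2
      have hkz : kirOut a S c z = kirOut a S c ys := kirOut_congr a S c hz2
      rw [hW z, hW ys, hkz] at hWz
      have hfz : f z = f ys := mul_right_cancel₀ hfk.2 hWz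
      rw [← hfz, hf z y hz1]
  · rw [if_neg hy, zero_mul, mul_zero]
    by_contra hne'
    exact hy (hsupp y hne')

/-- **Assembly of level 5**: `WhitForm2C` from `TorusC`, `LocC` and `MixC`. -/
theorem whitForm2C_of (hT : TorusC K) (hL : LocC K) (hM : MixC K) : WhitForm2C K := by
  intro hcplx ψ hstd hnd ν D hνH hDm hDf hDfin π π' φ φ' hφ hφ' S hun hg hg'
  obtain ⟨c, hc, hT'⟩ := hT hcplx ψ hstd hnd ν D hνH hDm hDf hDfin
  obtain ⟨φ₁, φ₁', 𝔪, 𝔠, y₀, h1, h1', heq, hs𝔪, hs𝔠, hl, hl', ⟨ys, hys⟩, ⟨ys', hys'⟩,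
    hsupp, hsupp', hconst, hconst'⟩ :=
    hL hcplx ψ hstd hnd ν D hνH hDm hDf hDfin π π' φ φ' hφ hφ' S hun hg hg'
  obtain ⟨f, hf, hW⟩ := hT' π S φ₁ hun h1
  obtain ⟨f', hf', hW'⟩ := hT' π' S φ₁' hun h1'
  obtain ⟨hw₀, hform⟩ := whit_eq_kir_of hM (W := fun y => whit ψ ν D φ₁ (dgA y)) hf hW hsupp
    hconst hys
  obtain ⟨hw₀', hform'⟩ := whit_eq_kir_of hM (W := fun y => whit ψ ν D φ₁' (dgA y)) hf' hW'
    hsupp' hconst' hys'
  refine ⟨φ₁, φ₁', 𝔪, 𝔠, y₀, c, f ys, f' ys', h1, h1', ?_, heq, hs𝔪, hs𝔠, hl, hl', hc, hw₀,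
    hw₀', fun y => ⟨hform y, hform' y⟩⟩
  by_contra hzero
  push Not at hzero
  apply hys
  unfold whit
  simp [hzero]

/-- `WhitFormC` is the special case `𝔠 = 𝔪`. -/
theorem whitForm2C_of_whitFormC (h : WhitFormC K) : WhitForm2C K := by
  intro hcplx ψ hstd hnd ν D hνH hDm hDf hDfin π π' φ φ' hφ hφ' S hun hg hg'
  obtain ⟨φ₁, φ₁', 𝔪, y₀, c, w₀, w₀', h1, h1', hne, heq, hsupp, hl, hl', hc, hw₀, hw₀', hform⟩ :=
    h hcplx ψ hstd hnd ν D hνH hDm hDf hDfin π π' φ φ' hφ hφ' S hun hg hg'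
  exact ⟨φ₁, φ₁', 𝔪, 𝔪, y₀, c, w₀, w₀', h1, h1', hne, heq, hsupp, hsupp, hl, hl', hc, hw₀,
    hw₀', hform⟩

/-- **Assembly of level 4, two ideals**: `StripOnC` from `FoldWhitC`, `WhitForm2C`, `IdeleSumC`,
`WeightC` and the existence of the additive data. -/
theorem stripOnC_of2
    (hψ : ∃ ψ : AddChar (Adl K) Circle, Fermat.Agent.LT.T3.IsStdChar K ψ ∧
      Fermat.Agent.LT.T3.IsNonDeg K ψ ∧ Fermat.Agent.LT.T3.IsUnramAE K ψ)
    (hν : letI : MeasurableSpace (Adl K) := borel (Adl K)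
      ∃ (ν : Measure (Adl K)) (D : Set (Adl K)), ν.IsAddHaarMeasure ∧ MeasurableSet D ∧
        IsAddFundamentalDomain ((algebraMap K (Adl K)).toAddMonoidHom.range) D ν ∧ ν D < ⊤)
    (hτ : letI : MeasurableSpace (Adl K)ˣ := borel (Adl K)ˣ
      ∃ τ : Measure (Adl K)ˣ, τ.IsHaarMeasure)
    (hFW : FoldWhitC K) (hWF : WhitForm2C K) (hIS : IdeleSumC K) (hW : WeightC K) :
    ∃ T₀ : Finset (HeightOneSpectrum (𝓞 K)), StripOnC K T₀ := by
  obtain ⟨ψ, hstd, hnd, T₀, hT₀⟩ := hψ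
  refine ⟨T₀, ?_⟩
  intro hcplx μ F hF π π' φ φ' hφ hφ' S hTS hg hg'
  let _ : MeasurableSpace (Adl K) := borel (Adl K)
  let _ : MeasurableSpace (Adl K)ˣ := borel (Adl K)ˣ
  obtain ⟨ν, D, hνH, hDm, hDf, hDfin⟩ := hν
  obtain ⟨τ, hτH⟩ := hτ
  have hun : IsUnramOutside ψ S := IsUnramOutside.mono hT₀ hTS
  obtain ⟨φ₁, φ₁', 𝔪, 𝔠, y₀, c, w₀, w₀', h1, h1', hne, heq, hsupp, hsuppc, hl, hl', hc, hw₀,
    hw₀', hform⟩ :=
    hWF hcplx ψ hstd hnd ν D hνH hDm hDf hDfin π π' φ φ' hφ hφ' S hun hg hg'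
  obtain ⟨c₁, hc₁, hfold⟩ := hFW hcplx μ F hF ψ hstd hnd ν D hνH hDm hDf hDfin τ hτH S 𝔪 hsupp
  obtain ⟨c₂, t₀, hc₂, ht₀, hsum⟩ := hIS hcplx τ hτH S 𝔠 y₀ c hsuppc hc
  refine ⟨φ₁, φ₁', 𝔪, fun T => archG c (T / t₀), (c₁ : ℂ) * (w₀ * conj w₀') * (c₂ : ℂ),
    h1, h1', hne, heq, hsupp.1, hW hcplx c t₀ hc ht₀, ?_, ?_⟩
  · refine mul_ne_zero (mul_ne_zero (by exact_mod_cast hc₁.ne') (mul_ne_zero hw₀ ?_))
      (by exact_mod_cast hc₂.ne')
    simpa using hw₀'
  · intro Y hY
    rw [hfold π π' φ₁ φ₁' h1 h1' hl hl' Y hY]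
    have hint : ∫ y in {y : (Adl K)ˣ | Y ≤ Fermat.Agent.LT.T5.adNorm (y : Adl K)},
          whit ψ ν D φ₁ (dgA y) * conj (whit ψ ν D φ₁' (dgA y))
            * (((Fermat.Agent.LT.T5.adNorm (y : Adl K))⁻¹ : ℝ) : ℂ) ∂τ
        = (w₀ * conj w₀') * ∫ y in {y : (Adl K)ˣ | Y ≤ Fermat.Agent.LT.T5.adNorm (y : Adl K)},
            kir π.a S 𝔠 y₀ c y * conj (kir π'.a S 𝔠 y₀ c y)
              * (((Fermat.Agent.LT.T5.adNorm (y : Adl K))⁻¹ : ℝ) : ℂ) ∂τ := by
      rw [← MeasureTheory.integral_const_mul]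
      refine MeasureTheory.integral_congr_ae (Filter.Eventually.of_forall fun y => ?_)
      simp only
      rw [(hform y).1, (hform y).2, map_mul]
      ring
    rw [hint, hsum π.a π'.a (fun v hv => ⟨(hg v (fun h => hv h)).2.2, (hg' v hv).2.2⟩) Y hY]
    ring

/-- **`T7.RigidC K` from the leaves of levels 2, 3, 4 (two ideals).** -/
theorem rigidC_of_strip2
    (hFr : ∃ (μ : Measure (G K)) (F : Set (G K)), Fermat.Agent.LT.T5.IsFrame μ F)
    (hψ : ∃ ψ : AddChar (Adl K) Circle, Fermat.Agent.LT.T3.IsStdChar K ψ ∧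
      Fermat.Agent.LT.T3.IsNonDeg K ψ ∧ Fermat.Agent.LT.T3.IsUnramAE K ψ)
    (hν : letI : MeasurableSpace (Adl K) := borel (Adl K)
      ∃ (ν : Measure (Adl K)) (D : Set (Adl K)), ν.IsAddHaarMeasure ∧ MeasurableSet D ∧
        IsAddFundamentalDomain ((algebraMap K (Adl K)).toAddMonoidHom.range) D ν ∧ ν D < ⊤)
    (hτ : letI : MeasurableSpace (Adl K)ˣ := borel (Adl K)ˣ
      ∃ τ : Measure (Adl K)ˣ, τ.IsHaarMeasure)
    (hP : PlaceSumC K) (hE : EulerLogC K) (hA : AbelC K)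
    (hCount : CountC K) (hOrth : OrthC K) (hNorm : NormPosC K)
    (hFW : FoldWhitC K) (hWF : WhitForm2C K) (hIS : IdeleSumC K) (hW : WeightC K) :
    RigidC K := by
  obtain ⟨T₀, hStrip⟩ := stripOnC_of2 hψ hν hτ hFW hWF hIS hW
  exact rigidC_of hP
    (rsLowerC_of_on hP hE hA (smoothSelfOnC_of hFr hStrip hCount hNorm))
    (rsCrossC_of_on hP hE hA (smoothCrossOnC_of hFr hStrip hCount hOrth))

/-- **`T7.RigidC K` from the leaves of levels 2-5.** -/
theorem rigidC_of_whit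
    (hFr : ∃ (μ : Measure (G K)) (F : Set (G K)), Fermat.Agent.LT.T5.IsFrame μ F)
    (hψ : ∃ ψ : AddChar (Adl K) Circle, Fermat.Agent.LT.T3.IsStdChar K ψ ∧
      Fermat.Agent.LT.T3.IsNonDeg K ψ ∧ Fermat.Agent.LT.T3.IsUnramAE K ψ)
    (hν : letI : MeasurableSpace (Adl K) := borel (Adl K)
      ∃ (ν : Measure (Adl K)) (D : Set (Adl K)), ν.IsAddHaarMeasure ∧ MeasurableSet D ∧
        IsAddFundamentalDomain ((algebraMap K (Adl K)).toAddMonoidHom.range) D ν ∧ ν D < ⊤)
    (hτ : letI : MeasurableSpace (Adl K)ˣ := borel (Adl K)ˣ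
      ∃ τ : Measure (Adl K)ˣ, τ.IsHaarMeasure)
    (hP : PlaceSumC K) (hE : EulerLogC K) (hA : AbelC K)
    (hCount : CountC K) (hOrth : OrthC K) (hNorm : NormPosC K)
    (hFW : FoldWhitC K) (hIS : IdeleSumC K) (hW : WeightC K)
    (hM : MixC K) (hL : LocC K) (hHR : HeckeRecC K) (hAU : ArchUniqC K)
    (hWI : WhitInheritC K) (hTA : TorusAsmC K) :
    RigidC K :=
  rigidC_of_strip2 hFr hψ hν hτ hP hE hA hCount hOrth hNorm hFW
    (whitForm2C_of (hTA hHR hAU hWI hM) hL hM) hIS hW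

end Fermat.Agent.LT.T7.Rigid

end

end
-- ===== PACK-END LT/T7/H62/RigidWhit.lean

-- ===== PACK-BEGIN LT/T7/H768/HoroCoeffF.lean
section



/-!
# Row LT, tower T7, leaf T7.13i `HoroCoeffFC` (helper768), OFF-MAIN

Registry row 1275.  Spec bytes: `LT/T7/H37/ThinSpec.lean` of `origin/helper37@8584ef06e`
(sha256 `4c697dce71c28f9b…`), on `LT/T7/Spec.lean` v1.2 (sha256 `76a196044a64b920…`).

`horoCoeffFC768 : H37.HoroCoeffFC` (VERBATIM): Fourier analysis on the torus `ℂ / M e(𝓞_K)`,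
`K = ℚ(√-3)`.

Proof.  `G = (𝓞_K / M)ˣ`, `ψ` a character of `G`, `V_ψ (z, y) = ∑_κ ψ(κ)⁻¹ U κ z y`,
`χ ϖ = ψ [ϖ]`, `c ν y` the Fourier coefficient of `V_ψ (·, y)` on `Q = ℂ / M e(𝓞_K)` (Haar
probability measure) at the character `χ_ν (u) = exp (2 π i τ (e ν · u) / M)`,
`τ w = 2 Im w / Im (e √-3)`.
* Bessel's inequality and completeness: `Torus.lean` (Stone--Weierstrass), `TorusK.lean`.
* `cont`: dominated convergence.
* `star`: the Hecke relation of `HoroDataF`, summed over `κ` against `ψ⁻¹`, reads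
  `ψ[ϖ] ∑_j V ((z + M e j) / e ϖ, y / |e ϖ|) + B ψ[ϖ]⁻¹ V (e ϖ · z, |e ϖ| y) = √N A V (z, y)`.
  The `ν`-th coefficient of the second term vanishes if `ϖ ∤ ν` (it is invariant under the
  translations by `M e(j) / e(ϖ)`, `j = 1, ζ`, and `χ_ν` is not: `integral_of_tau768`); the
  `ν`-th coefficient of the first term is `#R · c (ϖ ν)` (invariance of the Haar measure under
  `u ↦ e ϖ · u`, then under the translations by `M e(j) / e(ϖ)`), and `#R = N v`.
* non-vanishing: inversion of the character sums over `G`, then completeness.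
-/

set_option autoImplicit false
set_option linter.unusedSectionVars false
set_option linter.style.haveILetI false

open IsDedekindDomain NumberField MeasureTheory
open scoped ComplexConjugate

noncomputable section

namespace Fermat.Agent.LT.T7.H768

open Fermat.Agent.LT.T7 Fermat.Agent.LT.T7.H37

/-! ### Characters of a finite abelian group -/

/-- Inversion of character sums: a non-zero function on a finite abelian group has a non-zero
character sum. -/
theorem exists_char_sum_ne768 {A : Type*} [AddCommGroup A] [Fintype A] (h : A → ℂ) (a₀ : A)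
    (h0 : h a₀ ≠ 0) : ∃ ψ : AddChar A ℂ, ∑ a, ψ (-a) * h a ≠ 0 := by
  classical
  by_contra hall
  rw [not_exists] at hall
  have hall' : ∀ ψ : AddChar A ℂ, ∑ a, ψ (-a) * h a = 0 := fun ψ => not_not.1 (hall ψ)
  have key : ∑ ψ : AddChar A ℂ, ψ a₀ * ∑ a, ψ (-a) * h a = (Fintype.card A : ℂ) * h a₀ := by
    simp_rw [Finset.mul_sum]
    rw [Finset.sum_comm]
    have h1 : ∀ a, ∑ ψ : AddChar A ℂ, ψ a₀ * (ψ (-a) * h a)
        = (if a₀ - a = 0 then (Fintype.card A : ℂ) else 0) * h a := by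
      intro a
      rw [← AddChar.sum_apply_eq_ite, Finset.sum_mul]
      refine Finset.sum_congr rfl fun ψ _ => ?_
      rw [sub_eq_add_neg, AddChar.map_add_eq_mul]
      ring
    simp_rw [h1]
    rw [Finset.sum_eq_single a₀]
    · simp
    · intro b _ hb
      rw [if_neg, zero_mul]
      intro hab
      exact hb (sub_eq_zero.mp hab).symm
    · intro hn
      exact absurd (Finset.mem_univ _) hn
  simp_rw [hall', mul_zero, Finset.sum_const_zero] at key
  have hcard : (Fintype.card A : ℂ) ≠ 0 := Nat.cast_ne_zero.2 Fintype.card_ne_zero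
  exact h0 ((mul_eq_zero.1 key.symm).resolve_left hcard)

variable {K : Type} [Field K] [NumberField K]

/-- The group `(𝓞 K / M)ˣ`. -/
abbrev GM768 (K : Type) [Field K] [NumberField K] (M : ℕ) : Type :=
  (𝓞 K ⧸ Ideal.span {((M : ℕ) : 𝓞 K)})ˣ

theorem finite_GM768 (K : Type) [Field K] [NumberField K] {M : ℕ} (hM : 0 < M) :
    Finite (GM768 K M) := by
  have hne : Ideal.span {((M : ℕ) : 𝓞 K)} ≠ ⊥ := by
    intro h0
    rw [Ideal.span_singleton_eq_bot] at h0
    have : (M : ℕ) = 0 := by exact_mod_cast h0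
    omega
  have hfin : Finite (𝓞 K ⧸ Ideal.span {((M : ℕ) : 𝓞 K)}) :=
    Ideal.finiteQuotientOfFreeOfNeBot _ hne
  infer_instance

/-- A complete system of residues modulo a generator of a finite place, with `N v` elements
(as in `H949.exists_resSys949`). -/
theorem exists_resSys768 (K : Type) [Field K] [NumberField K] (v : HeightOneSpectrum (𝓞 K))
    (ϖ : 𝓞 K) (hϖ : v.asIdeal = Ideal.span {ϖ}) :
    ∃ R : Finset (𝓞 K), IsResSys K ϖ R ∧ R.card = Ideal.absNorm v.asIdeal := by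
  classical
  have hfin : Finite (𝓞 K ⧸ v.asIdeal) := Ideal.finiteQuotientOfFreeOfNeBot v.asIdeal v.ne_bot
  let _ : Fintype (𝓞 K ⧸ v.asIdeal) := Fintype.ofFinite _
  refine ⟨Finset.univ.image (fun a : 𝓞 K ⧸ v.asIdeal => Quotient.out a), ⟨?_, ?_⟩, ?_⟩
  · intro x
    refine ⟨Quotient.out (Ideal.Quotient.mk v.asIdeal x),
      Finset.mem_image_of_mem _ (Finset.mem_univ _), ?_⟩
    rw [← Ideal.mem_span_singleton, ← hϖ, ← Ideal.Quotient.eq]
    exact (Ideal.Quotient.mk_out _).symm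
  · intro j hj j' hj' hdvd
    obtain ⟨a, -, rfl⟩ := Finset.mem_image.mp hj
    obtain ⟨b, -, rfl⟩ := Finset.mem_image.mp hj'
    have hmem : Quotient.out a - Quotient.out b ∈ Ideal.span {ϖ} :=
      Ideal.mem_span_singleton.mpr hdvd
    rw [← hϖ] at hmem
    have h : Ideal.Quotient.mk v.asIdeal (Quotient.out a)
        = Ideal.Quotient.mk v.asIdeal (Quotient.out b) := Ideal.Quotient.eq.mpr hmem
    rw [Ideal.Quotient.mk_out, Ideal.Quotient.mk_out] at h
    rw [h]
  · rw [Finset.card_image_of_injective Finset.univ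
        (f := fun a : 𝓞 K ⧸ v.asIdeal => Quotient.out a)
        (fun a b h => Quotient.out_injective h),
      Finset.card_univ, ← Nat.card_eq_fintype_card, Ideal.absNorm_apply,
      Submodule.cardQuot_apply]

/-! ### The isotypic sums -/

section Iso

variable {M : ℕ} [Fintype (GM768 K M)]

/-- The isotypic sum `V_ψ (z, y) = ∑_κ ψ(κ)⁻¹ U κ z y`. -/
def Vf768 (ψ : AddChar (Additive (GM768 K M)) ℂ) (U : GM768 K M → ℂ → ℝ → ℂ) (y : ℝ) (z : ℂ) :
    ℂ :=
  ∑ κ : GM768 K M, ψ (-Additive.ofMul κ) * U κ z y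

theorem sum_shift768 (ψ : AddChar (Additive (GM768 K M)) ℂ) (U' : GM768 K M → ℂ)
    (u : GM768 K M) :
    ∑ κ : GM768 K M, ψ (-Additive.ofMul κ) * U' (κ * u)
      = ψ (Additive.ofMul u) * ∑ κ : GM768 K M, ψ (-Additive.ofMul κ) * U' κ := by
  rw [Finset.mul_sum]
  refine Fintype.sum_equiv (Equiv.mulRight u) _ _ fun κ => ?_
  simp only [Equiv.coe_mulRight]
  rw [ofMul_mul, neg_add, AddChar.map_add_eq_mul, ← mul_assoc, ← mul_assoc]
  congr 1
  rw [mul_comm (ψ (Additive.ofMul u)), mul_assoc, ← AddChar.map_add_eq_mul,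
    add_neg_cancel, AddChar.map_zero_eq_one, mul_one]

variable {e : K →+* ℂ} {A B : HeightOneSpectrum (𝓞 K) → ℂ} {U : GM768 K M → ℂ → ℝ → ℂ} {C : ℝ}

theorem continuous_Vf768 (hD : HoroDataF K e M A B U C)
    (ψ : AddChar (Additive (GM768 K M)) ℂ) {y : ℝ} (hy : 0 < y) : Continuous (Vf768 ψ U y) := by
  unfold Vf768
  exact continuous_finsetSum _ fun κ _ => continuous_const.mul (hD.cont_z κ y hy)

theorem isPer_Vf768 (hD : HoroDataF K e M A B U C)
    (ψ : AddChar (Additive (GM768 K M)) ℂ) {y : ℝ} (hy : 0 < y) :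
    IsPer768 e M (Vf768 ψ U y) := by
  intro l u
  unfold Vf768
  refine Finset.sum_congr rfl fun κ _ => ?_
  rw [hD.periodic κ l u y hy]

theorem norm_Vf_le768 (hD : HoroDataF K e M A B U C)
    (ψ : AddChar (Additive (GM768 K M)) ℂ) {y : ℝ} (hy : 0 < y) (z : ℂ) :
    ‖Vf768 ψ U y z‖ ≤ Fintype.card (GM768 K M) * C := by
  unfold Vf768
  refine (norm_sum_le _ _).trans ?_
  have h1 : ∀ κ ∈ (Finset.univ : Finset (GM768 K M)),
      ‖ψ (-Additive.ofMul κ) * U κ z y‖ ≤ C := by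
    intro κ _
    rw [norm_mul, AddChar.norm_apply, one_mul]
    exact hD.bdd κ z y hy
  refine (Finset.sum_le_sum h1).trans ?_
  rw [Finset.sum_const, Finset.card_univ, nsmul_eq_mul]

theorem continuousOn_Vf768 (hD : HoroDataF K e M A B U C)
    (ψ : AddChar (Additive (GM768 K M)) ℂ) (z : ℂ) :
    ContinuousOn (fun y : ℝ => Vf768 ψ U y z) (Set.Ioi 0) := by
  unfold Vf768
  exact continuousOn_finsetSum _ fun κ _ => continuousOn_const.mul (hD.cont_y κ z)

/-- The Hecke relation for the isotypic sums. -/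
theorem hecke_Vf768 (hD : HoroDataF K e M A B U C) (ψ : AddChar (Additive (GM768 K M)) ℂ)
    (v : HeightOneSpectrum (𝓞 K)) (ϖ : 𝓞 K) (hv : v.asIdeal = Ideal.span {ϖ})
    (hMv : ((M : ℕ) : 𝓞 K) ∉ v.asIdeal) (R : Finset (𝓞 K)) (hR : IsResSys K ϖ R)
    (z : ℂ) {y : ℝ} (hy : 0 < y) :
    ψ (Additive.ofMul (unitClsF K M ϖ))
          * ∑ j ∈ R, Vf768 ψ U (y / ‖e (ϖ : K)‖) ((z + (M : ℂ) * e (j : K)) / e (ϖ : K))
        + B v * ψ (Additive.ofMul (unitClsF K M ϖ)⁻¹)
          * Vf768 ψ U (‖e (ϖ : K)‖ * y) (e (ϖ : K) * z)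
      = ((Real.sqrt (nrm v) : ℝ) : ℂ) * A v * Vf768 ψ U y z := by
  have hH := fun κ => hD.hecke v ϖ hv hMv R hR κ z y hy
  have h1 : ∑ κ : GM768 K M, ψ (-Additive.ofMul κ) *
      (∑ j ∈ R, U (κ * unitClsF K M ϖ) ((z + (M : ℂ) * e (j : K)) / e (ϖ : K))
            (y / ‖e (ϖ : K)‖)
          + B v * U (κ * (unitClsF K M ϖ)⁻¹) (e (ϖ : K) * z) (‖e (ϖ : K)‖ * y))
      = ((Real.sqrt (nrm v) : ℝ) : ℂ) * A v * Vf768 ψ U y z := by
    unfold Vf768
    rw [Finset.mul_sum]
    refine Finset.sum_congr rfl fun κ _ => ?_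
    rw [hH κ]
    ring
  rw [← h1]
  simp_rw [mul_add, Finset.sum_add_distrib]
  congr 1
  · -- the sum over `j`
    simp_rw [Finset.mul_sum]
    rw [Finset.sum_comm]
    refine Finset.sum_congr rfl fun j _ => ?_
    unfold Vf768
    exact (sum_shift768 ψ (fun κ => U κ ((z + (M : ℂ) * e (j : K)) / e (ϖ : K))
      (y / ‖e (ϖ : K)‖)) (unitClsF K M ϖ)).symm
  · have h2 := sum_shift768 ψ (fun κ => U κ (e (ϖ : K) * z) (‖e (ϖ : K)‖ * y))
      (unitClsF K M ϖ)⁻¹
    unfold Vf768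
    rw [mul_assoc, ← h2, Finset.mul_sum]
    refine Finset.sum_congr rfl fun κ _ => ?_
    ring

end Iso

/-! ### Integrals on the torus -/

theorem norm_cis768 (r : ℝ) : ‖cis768 r‖ = 1 := by
  unfold cis768
  have h : (2 * Real.pi * Complex.I * (r : ℂ) : ℂ) = ((2 * Real.pi * r : ℝ) : ℂ) * Complex.I := by
    push_cast
    ring
  rw [h, Complex.norm_exp_ofReal_mul_I]

theorem norm_conj_chi768 (e : K →+* ℂ) (x : K) (M : ℕ) (ν : 𝓞 K) (u : ℂ) :
    ‖conj (chi768 e x M ν u)‖ = 1 := by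
  rw [RCLike.norm_conj]
  exact norm_cis768 _

theorem coe_ne_zero768 {ϖ : 𝓞 K} (hϖ : ϖ ≠ 0) : (ϖ : K) ≠ 0 :=
  fun h0 => hϖ (by ext; rw [h0]; rfl)

section Coef

variable {e : K →+* ℂ} {M : ℕ}

theorem isPer_scale768 {g : ℂ → ℂ} (hg : IsPer768 e M g) (ϖ : 𝓞 K) :
    IsPer768 e M (fun z => g (e (ϖ : K) * z)) := by
  intro l u
  show g (e (ϖ : K) * (u + (M : ℂ) * e (l : K))) = g (e (ϖ : K) * u)
  have h1 : e (ϖ : K) * (u + (M : ℂ) * e (l : K))
      = e (ϖ : K) * u + (M : ℂ) * e ((ϖ * l : 𝓞 K) : K) := by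
    rw [coe_mul768, map_mul]
    ring
  rw [h1, hg]

theorem isPer_mul768 {f g : ℂ → ℂ} (hf : IsPer768 e M f) (hg : IsPer768 e M g) :
    IsPer768 e M (fun z => f z * g z) := by
  intro l u
  show f _ * g _ = f u * g u
  rw [hf, hg]

theorem isPer_conj768 {f : ℂ → ℂ} (hf : IsPer768 e M f) :
    IsPer768 e M (fun z => conj (f z)) := by
  intro l u
  show conj (f _) = conj (f u)
  rw [hf]

variable [IsClosed (lam768 e M : Set ℂ)] [CompactSpace (Q768 e M)]
  (μ : Measure (Q768 e M)) [μ.IsAddHaarMeasure] [IsProbabilityMeasure μ]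

theorem continuous_dn_mul768 (h : IsImagQuad K) {x : K} (hx : x * x = -3) (hM : 0 < M)
    {f : ℂ → ℂ} (hf : IsPer768 e M f) (hc : Continuous f) (ν : 𝓞 K) :
    Continuous (fun q : Q768 e M =>
      f (Quotient.out q) * conj (chi768 e x M ν (Quotient.out q))) :=
  (continuous_dn768 hf hc).mul (Complex.continuous_conj.comp
    (continuous_dn768 (isPer_chi768 h e hx hM ν) (continuous_chi768 e x M ν)))

theorem integrable_dn_mul768 (h : IsImagQuad K) {x : K} (hx : x * x = -3) (hM : 0 < M)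
    {f : ℂ → ℂ} (hf : IsPer768 e M f) (hc : Continuous f) (ν : 𝓞 K) :
    Integrable (fun q : Q768 e M =>
      f (Quotient.out q) * conj (chi768 e x M ν (Quotient.out q))) μ :=
  (continuous_dn_mul768 h hx hM hf hc ν).integrable_of_hasCompactSupport
    (HasCompactSupport.of_compactSpace _)

/-- The coefficient at `ν` of `z ↦ g (e ϖ · z)` vanishes if `ϖ ∤ ν`. -/
theorem integral_twisted_zero768 (h : IsImagQuad K) {x : K} (hx : x * x = -3) (hM : 0 < M)
    {g : ℂ → ℂ} (hg : IsPer768 e M g) {ϖ ν : 𝓞 K} (hϖ : ϖ ≠ 0) (hν : ¬ ϖ ∣ ν) :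
    ∫ q, g (e (ϖ : K) * Quotient.out q) * conj (chi768 e x M ν (Quotient.out q)) ∂μ = 0 := by
  have hϖ' := coe_ne_zero768 hϖ
  have heϖ := emb_ne_zero768 e hϖ'
  set F : ℂ → ℂ := fun z => g (e (ϖ : K) * z) * conj (chi768 e x M ν z) with hF
  have hFper : IsPer768 e M F :=
    isPer_mul768 (isPer_scale768 hg ϖ) (isPer_conj768 (isPer_chi768 h e hx hM ν))
  have key : ∀ j : 𝓞 K, (∫ q, F (Quotient.out q) ∂μ)
      * (1 - conj (chi768 e x M ν ((M : ℂ) * (e (j : K) / e (ϖ : K))))) = 0 := by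
    intro j
    have h1 := integral_translate768 μ hFper ((M : ℂ) * (e (j : K) / e (ϖ : K)))
    have h2 : ∀ z, F (z + (M : ℂ) * (e (j : K) / e (ϖ : K)))
        = F z * conj (chi768 e x M ν ((M : ℂ) * (e (j : K) / e (ϖ : K)))) := by
      intro z
      simp only [hF]
      have e1 : e (ϖ : K) * (z + (M : ℂ) * (e (j : K) / e (ϖ : K)))
          = e (ϖ : K) * z + (M : ℂ) * e (j : K) := by
        field_simp
      rw [e1, hg j, chi_mul768, map_mul]
      ring
    simp_rw [h2] at h1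
    rw [integral_mul_const] at h1
    linear_combination -h1
  by_contra hne
  have hχ : ∀ j : 𝓞 K, chi768 e x M ν ((M : ℂ) * (e (j : K) / e (ϖ : K))) = 1 := by
    intro j
    rcases mul_eq_zero.1 (key j) with h0 | h0
    · exact absurd h0 hne
    · have h3 : conj (chi768 e x M ν ((M : ℂ) * (e (j : K) / e (ϖ : K)))) = 1 :=
        (sub_eq_zero.1 h0).symm
      have h4 := congrArg (starRingEnd ℂ) h3
      rwa [Complex.conj_conj, map_one] at h4
  have h1 := hχ 1
  have h2 := hχ (zetaInt768 hx)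
  rw [chi_natMul768 e x hM, cis_eq_one_iff768] at h1 h2
  obtain ⟨n, hn⟩ := h1
  obtain ⟨m, hm⟩ := h2
  set y : K := (ν : K) / (ϖ : K) with hy
  have e1 : e (ν : K) * (e ((1 : 𝓞 K) : K) / e (ϖ : K)) = e y := by
    rw [coe_one768, map_one, hy, map_div₀]
    ring
  have e2 : e (ν : K) * (e ((zetaInt768 hx : 𝓞 K) : K) / e (ϖ : K)) = e (y * zeta768 x) := by
    rw [hy, map_mul, map_div₀, coe_zetaInt768]
    ring
  rw [e1] at hn
  rw [e2] at hm
  have hlat := integral_of_tau768 h e hx y n m hn hm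
  apply hν
  refine ⟨latInt768 hx (m + n) n, ?_⟩
  apply RingOfIntegers.ext
  rw [coe_mul768, hlat, hy]
  field_simp

/-- The coefficient at `ν` of `W (z) = ∑_j g ((z + M e j) / e ϖ)` is `#R` times the coefficient
of `g` at `ϖ ν`. -/
theorem integral_sum_scaled768 (h : IsImagQuad K) {x : K} (hx : x * x = -3) (hM : 0 < M)
    {g W : ℂ → ℂ} (hg : IsPer768 e M g) (hgc : Continuous g) (hW : IsPer768 e M W)
    (hWc : Continuous W) {ϖ : 𝓞 K} (hϖ : ϖ ≠ 0) (R : Finset (𝓞 K))
    (hWdef : ∀ z, W z = ∑ j ∈ R, g ((z + (M : ℂ) * e (j : K)) / e (ϖ : K))) (ν : 𝓞 K) :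
    ∫ q, W (Quotient.out q) * conj (chi768 e x M ν (Quotient.out q)) ∂μ
      = (R.card : ℂ)
        * ∫ q, g (Quotient.out q) * conj (chi768 e x M (ϖ * ν) (Quotient.out q)) ∂μ := by
  have hϖ' := coe_ne_zero768 hϖ
  have heϖ := emb_ne_zero768 e hϖ'
  set F₁ : ℂ → ℂ := fun z => W z * conj (chi768 e x M ν z) with hF₁
  have hF₁per : IsPer768 e M F₁ :=
    isPer_mul768 hW (isPer_conj768 (isPer_chi768 h e hx hM ν))
  have hF₁c : Continuous F₁ :=
    hWc.mul (Complex.continuous_conj.comp (continuous_chi768 e x M ν))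
  have h1 := integral_scale768 μ hF₁per hF₁c hϖ
  set F₂ : ℂ → ℂ := fun z => g z * conj (chi768 e x M (ϖ * ν) z) with hF₂
  have hF₂per : IsPer768 e M F₂ :=
    isPer_mul768 hg (isPer_conj768 (isPer_chi768 h e hx hM (ϖ * ν)))
  have hF₂c : Continuous F₂ :=
    hgc.mul (Complex.continuous_conj.comp (continuous_chi768 e x M (ϖ * ν)))
  have h2 : ∀ z, F₁ (e (ϖ : K) * z)
      = ∑ j ∈ R, F₂ (z + (M : ℂ) * (e (j : K) / e (ϖ : K))) := by
    intro z
    simp only [hF₁, hF₂]
    rw [hWdef, Finset.sum_mul]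
    refine Finset.sum_congr rfl fun j _ => ?_
    have e1 : (e (ϖ : K) * z + (M : ℂ) * e (j : K)) / e (ϖ : K)
        = z + (M : ℂ) * (e (j : K) / e (ϖ : K)) := by
      field_simp
    have e2 : chi768 e x M (ϖ * ν) ((M : ℂ) * (e (j : K) / e (ϖ : K))) = 1 := by
      rw [← chi_scale768]
      have e3 : e (ϖ : K) * ((M : ℂ) * (e (j : K) / e (ϖ : K))) = (M : ℂ) * e (j : K) := by
        field_simp
      rw [e3, chi_lat768 h e hx hM]
    rw [e1, chi_scale768, chi_mul768 e x M (ϖ * ν) z, e2, mul_one]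
  have h3 : (fun q : Q768 e M => F₁ (Quotient.out q)) = fun q : Q768 e M =>
      W (Quotient.out q) * conj (chi768 e x M ν (Quotient.out q)) := rfl
  have h4 : (fun q : Q768 e M => F₂ (Quotient.out q)) = fun q : Q768 e M =>
      g (Quotient.out q) * conj (chi768 e x M (ϖ * ν) (Quotient.out q)) := rfl
  rw [← h3, ← h4, ← h1]
  simp_rw [h2]
  rw [integral_finsetSum]
  · simp_rw [integral_translate768 μ hF₂per]
    rw [Finset.sum_const, nsmul_eq_mul]
  · intro j _
    have h5 : (fun q : Q768 e M => F₂ (Quotient.out q + (M : ℂ) * (e (j : K) / e (ϖ : K))))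
        = fun q : Q768 e M => dn768 e M F₂
            (q + QuotientAddGroup.mk ((M : ℂ) * (e (j : K) / e (ϖ : K)))) := by
      funext q
      rw [dn_add768 hF₂per]
    rw [h5]
    exact ((continuous_dn768 hF₂per hF₂c).comp
      (continuous_id.add continuous_const)).integrable_of_hasCompactSupport
        (HasCompactSupport.of_compactSpace _)

end Coef

/-! ### The leaf -/

theorem exists_char_ne768 {M : ℕ} [Fintype (GM768 K M)] (U' U'' : GM768 K M → ℂ)
    (κ₀ : GM768 K M) (hne : U' κ₀ ≠ U'' κ₀) :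
    ∃ ψ : AddChar (Additive (GM768 K M)) ℂ,
      ∑ κ : GM768 K M, ψ (-Additive.ofMul κ) * U' κ
        ≠ ∑ κ : GM768 K M, ψ (-Additive.ofMul κ) * U'' κ := by
  obtain ⟨ψ, hψ⟩ := exists_char_sum_ne768 (A := Additive (GM768 K M))
    (fun a => U' (Additive.toMul a) - U'' (Additive.toMul a)) (Additive.ofMul κ₀)
    (sub_ne_zero.2 hne)
  refine ⟨ψ, fun heq => hψ ?_⟩
  have h1 : ∑ a : Additive (GM768 K M),
      ψ (-a) * (U' (Additive.toMul a) - U'' (Additive.toMul a))
      = ∑ κ : GM768 K M, ψ (-Additive.ofMul κ) * (U' κ - U'' κ) :=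
    (Fintype.sum_equiv Additive.ofMul _ _ fun κ => rfl).symm
  rw [h1]
  simp_rw [mul_sub]
  rw [Finset.sum_sub_distrib, heq, sub_self]

/-- **Leaf T7.13i HOROCOEFF** (`H37.HoroCoeffFC`, VERBATIM). -/
theorem horoCoeffFC768 : HoroCoeffFC := by
  classical
  intro K _ _ hquad hsq hpid e M A B U C hD hnc
  obtain ⟨x, hx⟩ := hsq
  have hM := hD.M_pos
  haveI hfin : Finite (GM768 K M) := finite_GM768 K hM
  letI : Fintype (GM768 K M) := Fintype.ofFinite _
  haveI hcl : IsClosed (lam768 e M : Set ℂ) := isClosed_lam768 hquad e hx hM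
  haveI hcp : CompactSpace (Q768 e M) := compactSpace_Q768 e hx hM
  set μ : Measure (Q768 e M) := Measure.addHaarMeasure ⊤ with hμ
  haveI hprob : IsProbabilityMeasure μ := ⟨by
    have h1 := Measure.addHaarMeasure_self (G := Q768 e M) (K₀ := ⊤)
    simpa [hμ] using h1⟩
  have hfam := isCharFam_psi768 hquad e hx hM
  obtain ⟨κ₀, z, z', y₀, hy₀, hne⟩ := hnc
  obtain ⟨ψ, hψ⟩ := exists_char_ne768 (fun κ => U κ z y₀) (fun κ => U κ z' y₀) κ₀ hne
  have hV : Vf768 ψ U y₀ z ≠ Vf768 ψ U y₀ z' := hψ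
  refine ⟨fun ϖ => ψ (Additive.ofMul (unitClsF K M ϖ)),
    fun ν y => ∫ q, Vf768 ψ U y (Quotient.out q) * conj (chi768 e x M ν (Quotient.out q)) ∂μ,
    Fintype.card (GM768 K M) * C, ⟨?_, ?_, ?_, ?_⟩, ?_⟩
  · -- chi_norm
    intro v ϖ _ _
    exact AddChar.norm_apply ψ _
  · -- cont
    intro ν
    refine continuousOn_of_dominated (μ := μ)
      (F := fun (y : ℝ) (q : Q768 e M) =>
        Vf768 ψ U y (Quotient.out q) * conj (chi768 e x M ν (Quotient.out q)))
      (bound := fun _ => Fintype.card (GM768 K M) * C) (s := Set.Ioi 0) ?_ ?_ ?_ ?_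
    · intro y hy
      exact (continuous_dn_mul768 hquad hx hM (isPer_Vf768 hD ψ hy)
        (continuous_Vf768 hD ψ hy) ν).aestronglyMeasurable
    · intro y hy
      refine Filter.Eventually.of_forall fun q => ?_
      rw [norm_mul, norm_conj_chi768, mul_one]
      exact norm_Vf_le768 hD ψ hy _
    · exact integrable_const _
    · refine Filter.Eventually.of_forall fun q => ?_
      exact (continuousOn_Vf768 hD ψ _).mul continuousOn_const
  · -- bessel
    intro y hy F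
    have hc := continuous_dn768 (isPer_Vf768 hD ψ hy) (continuous_Vf768 hD ψ hy)
    exact bessel768 hfam μ ⟨dn768 e M (Vf768 ψ U y), hc⟩
      (B := Fintype.card (GM768 K M) * C) (fun q => norm_Vf_le768 hD ψ hy _) F
  · -- star
    intro v ϖ hv hMv ν hν hdiv y hy
    have hϖ : ϖ ≠ 0 := by
      rintro rfl
      apply v.ne_bot
      rw [hv]
      simp
    obtain ⟨R, hR, hcard⟩ := exists_resSys768 K v ϖ hv
    have hϖ' := coe_ne_zero768 hϖ
    have heϖ := emb_ne_zero768 e hϖ'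
    have hnorm : 0 < ‖e (ϖ : K)‖ := norm_pos_iff.2 heϖ
    have hy₁ : 0 < y / ‖e (ϖ : K)‖ := div_pos hy hnorm
    have hy₂ : 0 < ‖e (ϖ : K)‖ * y := mul_pos hnorm hy
    set a₁ : ℂ := ψ (Additive.ofMul (unitClsF K M ϖ)) with ha₁d
    have ha₁ : a₁ ≠ 0 := by
      intro h0
      have h1 : ‖a₁‖ = 1 := AddChar.norm_apply ψ _
      rw [h0, norm_zero] at h1
      exact zero_ne_one h1
    set a₂ : ℂ := B v * ψ (Additive.ofMul (unitClsF K M ϖ)⁻¹) with ha₂d
    set s : ℂ := ((Real.sqrt (nrm v) : ℝ) : ℂ) * A v with hsd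
    set W : ℂ → ℂ := fun z => ∑ j ∈ R,
      Vf768 ψ U (y / ‖e (ϖ : K)‖) ((z + (M : ℂ) * e (j : K)) / e (ϖ : K)) with hWd
    have hH : ∀ z, a₁ * W z + a₂ * Vf768 ψ U (‖e (ϖ : K)‖ * y) (e (ϖ : K) * z)
        = s * Vf768 ψ U y z := fun z => hecke_Vf768 hD ψ v ϖ hv hMv R hR z hy
    have hWeq : ∀ z, W z
        = a₁⁻¹ * (s * Vf768 ψ U y z - a₂ * Vf768 ψ U (‖e (ϖ : K)‖ * y) (e (ϖ : K) * z)) := by
      intro z
      rw [← hH z]
      field_simp
      ring
    have hper₂ := isPer_scale768 (isPer_Vf768 hD ψ hy₂) ϖ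
    have hper₂' : ∀ (l : 𝓞 K) (u : ℂ),
        Vf768 ψ U (‖e (ϖ : K)‖ * y) (e (ϖ : K) * (u + (M : ℂ) * e (l : K)))
          = Vf768 ψ U (‖e (ϖ : K)‖ * y) (e (ϖ : K) * u) := fun l u => hper₂ l u
    have hWper : IsPer768 e M W := by
      intro l u
      rw [hWeq, hWeq, isPer_Vf768 hD ψ hy l u, hper₂' l u]
    have hWc : Continuous W :=
      continuous_finsetSum _ fun j _ => (continuous_Vf768 hD ψ hy₁).comp
        ((continuous_id.add continuous_const).div_const _)
    have hA := integral_twisted_zero768 μ hquad hx hM (isPer_Vf768 hD ψ hy₂) hϖ hdiv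
    have hB := integral_sum_scaled768 μ hquad hx hM (isPer_Vf768 hD ψ hy₁)
      (continuous_Vf768 hD ψ hy₁) hWper hWc hϖ R (fun z => rfl) ν
    have hc₂ : Continuous (fun z => Vf768 ψ U (‖e (ϖ : K)‖ * y) (e (ϖ : K) * z)) :=
      (continuous_Vf768 hD ψ hy₂).comp (continuous_const.mul continuous_id)
    have hint : a₁ * ∫ q, W (Quotient.out q) * conj (chi768 e x M ν (Quotient.out q)) ∂μ
        + a₂ * ∫ q, Vf768 ψ U (‖e (ϖ : K)‖ * y) (e (ϖ : K) * Quotient.out q)
            * conj (chi768 e x M ν (Quotient.out q)) ∂μ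
        = s * ∫ q, Vf768 ψ U y (Quotient.out q)
            * conj (chi768 e x M ν (Quotient.out q)) ∂μ := by
      rw [← integral_const_mul, ← integral_const_mul, ← integral_const_mul, ← integral_add]
      · refine integral_congr_ae (Filter.Eventually.of_forall fun q => ?_)
        show a₁ * (W (Quotient.out q) * conj (chi768 e x M ν (Quotient.out q)))
            + a₂ * (Vf768 ψ U (‖e (ϖ : K)‖ * y) (e (ϖ : K) * Quotient.out q)
              * conj (chi768 e x M ν (Quotient.out q)))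
          = s * (Vf768 ψ U y (Quotient.out q) * conj (chi768 e x M ν (Quotient.out q)))
        linear_combination (conj (chi768 e x M ν (Quotient.out q))) * hH (Quotient.out q)
      · exact (integrable_dn_mul768 μ hquad hx hM hWper hWc ν).const_mul a₁
      · exact (integrable_dn_mul768 μ hquad hx hM hper₂ hc₂ ν).const_mul a₂
    rw [hA, mul_zero, add_zero, hB] at hint
    show s * (∫ q, Vf768 ψ U y (Quotient.out q)
          * conj (chi768 e x M ν (Quotient.out q)) ∂μ)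
        = a₁ * ((nrm v : ℝ) : ℂ) * ∫ q, Vf768 ψ U (y / ‖e (ϖ : K)‖) (Quotient.out q)
          * conj (chi768 e x M (ϖ * ν) (Quotient.out q)) ∂μ
    rw [← hint]
    have hn : ((nrm v : ℝ) : ℂ) = (R.card : ℂ) := by
      unfold nrm
      rw [hcard]
      push_cast
      rfl
    rw [hn]
    ring
  · -- non-vanishing
    by_contra hcon
    have hzero : ∀ ν : 𝓞 K, ν ≠ 0 →
        coef768 μ (psi768 e x M) (dn768 e M (Vf768 ψ U y₀)) ν = 0 := by
      intro ν hν
      by_contra h0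
      exact hcon ⟨ν, hν, y₀, hy₀, h0⟩
    have hper := isPer_Vf768 hD ψ hy₀
    have hc := continuous_dn768 hper (continuous_Vf768 hD ψ hy₀)
    have h1 := const_of_coef768 hfam μ ⟨dn768 e M (Vf768 ψ U y₀), hc⟩ hzero
      (QuotientAddGroup.mk z) (QuotientAddGroup.mk z')
    rw [ContinuousMap.coe_mk, dn_mk768 hper, dn_mk768 hper] at h1
    exact hV h1

example : Fermat.Agent.LT.T7.H37.HoroCoeffFC := horoCoeffFC768

end Fermat.Agent.LT.T7.H768

end

end
-- ===== PACK-END LT/T7/H768/HoroCoeffF.lean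

-- ===== PACK-BEGIN LT/T7/H555/FrameShift.lean
section




/-!
# Row LT, tower T7, leaf T7.14.4 (`OrthC`), part 2: translation on the frame (helper555)

OFF-MAIN.  On `T5/Spec.lean` (v4, sha f2d97e70), helper250 `LT/T7/H250/NormPos.lean` (positive
scalars at the infinite places, module of the determinant, countability of `GL₂(K)`), helper309
`LT/T1/H309/AdNorm.lean` (multiplicativity of the module), byte-identical copies.

* `integral_shift555`: for a frame `(μ, F)`, `x ∈ GL₂(𝔸_K)` with `‖det (g x)‖ = ‖det g‖` and a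
  bounded continuous `Ψ`, left invariant under `GL₂(K)`: `∫_F Ψ(g x) dμ = ∫_F Ψ(g) dμ`
  (`F = ⊔_γ A_γ = ⊔_γ B_γ`, `g ↦ γ g x` maps `A_γ` onto `B_γ` and preserves `μ`).
* `inner_translate555`: for `φ, φ'` bounded continuous, left invariant under `GL₂(K)` and right
  invariant under the positive scalars at the infinite places, and ANY `h ∈ GL₂(𝔸_K)`:
  `∫_F φ(g h) conj φ'(g) dμ = ∫_F φ(g) conj φ'(g h⁻¹) dμ` (compensate `‖det h‖` by a positive
  scalar at the infinite places).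
-/

set_option autoImplicit false

open IsDedekindDomain NumberField MeasureTheory AutomorphicForm
open Fermat.Agent.LT.H556.A0
open Fermat.Agent.LT
open scoped ComplexConjugate

noncomputable section

namespace Fermat.Agent.LT.T7.H555

open Fermat.Agent.LT.T7.H250

attribute [local instance] Fermat.Agent.LT.T5.instMeasurableSpaceG

variable {K : Type} [Field K] [NumberField K]

/-- Bounded continuous functions are integrable on the frame. -/
theorem integrableOn_frame555 {μ : Measure (G K)} {F : Set (G K)} (hF : T5.IsFrame μ F)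
    {Ψ : G K → ℂ} (hc : Continuous Ψ) (hb : ∃ C : ℝ, ∀ g : G K, ‖Ψ g‖ ≤ C) :
    IntegrableOn Ψ F μ := by
  have : BorelSpace (G K) := ⟨rfl⟩
  obtain ⟨C, hC⟩ := hb
  exact Measure.integrableOn_of_bounded (M := C) hF.finite.ne hc.aestronglyMeasurable
    (Filter.Eventually.of_forall hC)

/-- **Translation on the frame** by an element which preserves the module of the
determinant. -/
theorem integral_shift555 {μ : Measure (G K)} {F : Set (G K)} (hF : T5.IsFrame μ F)
    (x : G K) (hx : ∀ g : G K, detN250n (g * x) = detN250n g)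
    {Ψ : G K → ℂ} (hc : Continuous Ψ) (hb : ∃ C : ℝ, ∀ g : G K, ‖Ψ g‖ ≤ C)
    (hinv : ∀ (γ : GL (Fin 2) K) (g : G K), Ψ (T5.ratG γ * g) = Ψ g) :
    ∫ g in F, Ψ (g * x) ∂μ = ∫ g in F, Ψ g ∂μ := by
  classical
  have hbs : BorelSpace (G K) := ⟨rfl⟩
  have hhaar := hF.haar
  have hcnt : Countable (GL (Fin 2) K) := countable_GL250n K
  -- right multiplication preserves the slab
  have hslab : ∀ g : G K, g ∈ T5.slab K → g * x ∈ T5.slab K := by
    intro g hg
    rw [mem_slab_iff250n] at hg ⊢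
    rw [hx]
    exact hg
  have hslab' : ∀ g : G K, g ∈ T5.slab K → g * x⁻¹ ∈ T5.slab K := by
    intro g hg
    rw [mem_slab_iff250n] at hg ⊢
    have := hx (g * x⁻¹)
    rw [inv_mul_cancel_right] at this
    rw [← this]
    exact hg
  -- the pieces
  set A : GL (Fin 2) K → Set (G K) := fun γ => F ∩ (fun g => T5.ratG γ * g * x) ⁻¹' F with hA
  set B : GL (Fin 2) K → Set (G K) :=
    fun γ => F ∩ (fun g => T5.ratG γ⁻¹ * g * x⁻¹) ⁻¹' F with hB
  have hcT : ∀ (a b : G K), Continuous fun g : G K => a * g * b := fun a b =>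
    (continuous_const.mul continuous_id).mul continuous_const
  have hAm : ∀ γ, MeasurableSet (A γ) := fun γ =>
    hF.meas.inter ((hcT _ _).measurable hF.meas)
  have hBm : ∀ γ, MeasurableSet (B γ) := fun γ =>
    hF.meas.inter ((hcT _ _).measurable hF.meas)
  have hAF : ⋃ γ, A γ = F := by
    apply Set.Subset.antisymm
    · exact Set.iUnion_subset fun γ => Set.inter_subset_left
    · intro g hg
      obtain ⟨γ, hγ, -⟩ := hF.strict _ (hslab g (hF.sub hg))
      refine Set.mem_iUnion.2 ⟨γ, hg, ?_⟩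
      show T5.ratG γ * g * x ∈ F
      rw [mul_assoc]
      exact hγ
  have hBF : ⋃ γ, B γ = F := by
    apply Set.Subset.antisymm
    · exact Set.iUnion_subset fun γ => Set.inter_subset_left
    · intro g hg
      obtain ⟨γ, hγ, -⟩ := hF.strict _ (hslab' g (hF.sub hg))
      refine Set.mem_iUnion.2 ⟨γ⁻¹, hg, ?_⟩
      show T5.ratG γ⁻¹⁻¹ * g * x⁻¹ ∈ F
      rw [inv_inv, mul_assoc]
      exact hγ
  have hAd : Pairwise (Function.onFun Disjoint A) := by
    intro γ γ' hne
    rw [Function.onFun, Set.disjoint_left]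
    intro g hg hg'
    apply hne
    have h1 : T5.ratG γ * (g * x) ∈ F := by rw [← mul_assoc]; exact hg.2
    have h2 : T5.ratG γ' * (g * x) ∈ F := by rw [← mul_assoc]; exact hg'.2
    exact (hF.strict _ (hslab g (hF.sub hg.1))).unique h1 h2
  have hBd : Pairwise (Function.onFun Disjoint B) := by
    intro γ γ' hne
    rw [Function.onFun, Set.disjoint_left]
    intro g hg hg'
    apply hne
    have h1 : T5.ratG γ⁻¹ * (g * x⁻¹) ∈ F := by rw [← mul_assoc]; exact hg.2
    have h2 : T5.ratG γ'⁻¹ * (g * x⁻¹) ∈ F := by rw [← mul_assoc]; exact hg'.2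
    exact inv_injective ((hF.strict _ (hslab' g (hF.sub hg.1))).unique h1 h2)
  have hcR0 : Continuous fun g : G K => g * x := continuous_id.mul continuous_const
  have hint1 : IntegrableOn (fun g => Ψ (g * x)) F μ :=
    integrableOn_frame555 hF (hc.comp hcR0)
      (by obtain ⟨C, hC⟩ := hb; exact ⟨C, fun g => hC _⟩)
  have hint2 : IntegrableOn Ψ F μ := integrableOn_frame555 hF hc hb
  -- the change of variables on each piece
  have key : ∀ γ, ∫ g in A γ, Ψ (g * x) ∂μ = ∫ g in B γ, Ψ g ∂μ := by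
    intro γ
    have hmpL : MeasurePreserving (fun g : G K => T5.ratG γ * g) μ μ :=
      measurePreserving_mul_left μ _
    have hcR : Continuous fun g : G K => g * x := continuous_id.mul continuous_const
    have hmpR : MeasurePreserving (fun g : G K => g * x) μ μ :=
      ⟨hcR.measurable,
        Measure.ext fun S hS => by
          rw [Measure.map_apply hcR.measurable hS]
          exact hF.right_inv x S hS⟩
    have hmp : MeasurePreserving (fun g : G K => T5.ratG γ * g * x) μ μ := hmpR.comp hmpL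
    have hemb : MeasurableEmbedding (fun g : G K => T5.ratG γ * g * x) :=
      ((Homeomorph.mulLeft (T5.ratG γ)).trans (Homeomorph.mulRight x)).measurableEmbedding
    have hpre : (fun g : G K => T5.ratG γ * g * x) ⁻¹' (B γ) = A γ := by
      ext g
      simp only [hA, hB, Set.mem_preimage, Set.mem_inter_iff]
      have e : T5.ratG γ⁻¹ * (T5.ratG γ * g * x) * x⁻¹ = g := by
        rw [map_inv]; group
      rw [e]
      exact and_comm
    have h := hmp.setIntegral_preimage_emb hemb Ψ (B γ)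
    rw [hpre] at h
    rw [← h]
    refine setIntegral_congr_fun (hAm γ) fun g _ => ?_
    show Ψ (g * x) = Ψ (T5.ratG γ * g * x)
    rw [mul_assoc, hinv]
  calc ∫ g in F, Ψ (g * x) ∂μ
      = ∫ g in ⋃ γ, A γ, Ψ (g * x) ∂μ := by rw [hAF]
    _ = ∑' γ, ∫ g in A γ, Ψ (g * x) ∂μ :=
        integral_iUnion hAm hAd (by rw [hAF]; exact hint1)
    _ = ∑' γ, ∫ g in B γ, Ψ g ∂μ := by
        congr 1
        funext γ
        exact key γ
    _ = ∫ g in ⋃ γ, B γ, Ψ g ∂μ :=
        (integral_iUnion hBm hBd (by rw [hBF]; exact hint2)).symm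
    _ = ∫ g in F, Ψ g ∂μ := by rw [hBF]

/-! ### Compensation of the module by a positive scalar at the infinite places -/

/-- The positive scalars at the infinite places are central. -/
theorem cR_comm555 (r : ℝ) (hr : r ≠ 0) (h : G K) : cR250n r hr * h = h * cR250n r hr := by
  apply Units.ext
  rw [Units.val_mul, Units.val_mul]
  unfold cR250n
  rw [zR250n_val]
  ext i j
  rw [Matrix.diagonal_mul, Matrix.mul_diagonal, mul_comm]

/-- The module of the determinant is multiplicative (helper309). -/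
theorem detN_mul555 (g h : G K) : detN250n (g * h) = detN250n g * detN250n h := by
  have e := Fermat.Agent.LT.T1.H309.adNorm_mul309 K (Matrix.GeneralLinearGroup.det g)
    (Matrix.GeneralLinearGroup.det h)
  rw [← map_mul] at e
  simp only [Matrix.GeneralLinearGroup.val_det_apply] at e
  exact e

/-- For every `h` there is a positive scalar `c` at the infinite places such that right
multiplication by `h c` preserves the module of the determinant. -/
theorem exists_compensator555 (h : G K) :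
    ∃ (r : ℝ) (hr : 0 < r), ∀ g : G K, detN250n (g * (h * cR250n r hr.ne')) = detN250n g := by
  have hn : Module.finrank ℚ K * 2 ≠ 0 := by
    have : 0 < Module.finrank ℚ K := Module.finrank_pos
    omega
  have hpos : 0 < detN250n h := detN250n_pos h
  set r : ℝ := (detN250n h)⁻¹ ^ (((Module.finrank ℚ K * 2 : ℕ) : ℝ)⁻¹) with hr
  have hrpos : 0 < r := Real.rpow_pos_of_pos (inv_pos.mpr hpos) _
  have hrpow : r ^ (Module.finrank ℚ K * 2) = (detN250n h)⁻¹ :=
    Real.rpow_inv_natCast_pow (inv_pos.mpr hpos).le hn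
  refine ⟨r, hrpos, fun g => ?_⟩
  rw [← mul_assoc, detN250n_mul_cR, detN_mul555, abs_of_pos hrpos, ← pow_mul, hrpow, mul_assoc,
    mul_inv_cancel₀ hpos.ne', mul_one]

/-- **Translation in the inner product on the frame.** -/
theorem inner_translate555 {μ : Measure (G K)} {F : Set (G K)} (hF : T5.IsFrame μ F)
    {φ φ' : G K → ℂ} (hc : Continuous φ) (hc' : Continuous φ')
    (hb : ∃ C : ℝ, ∀ g : G K, ‖φ g‖ ≤ C) (hb' : ∃ C : ℝ, ∀ g : G K, ‖φ' g‖ ≤ C)
    (hl : ∀ (γ : GL (Fin 2) K) (g : G K), φ (T5.ratG γ * g) = φ g)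
    (hl' : ∀ (γ : GL (Fin 2) K) (g : G K), φ' (T5.ratG γ * g) = φ' g)
    (hs : ∀ (w : InfinitePlace K) (z : G K), IsArchPosScalar w z → ∀ g : G K, φ (g * z) = φ g)
    (hs' : ∀ (w : InfinitePlace K) (z : G K), IsArchPosScalar w z →
      ∀ g : G K, φ' (g * z) = φ' g)
    (h : G K) :
    ∫ g in F, φ (g * h) * conj (φ' g) ∂μ = ∫ g in F, φ g * conj (φ' (g * h⁻¹)) ∂μ := by
  obtain ⟨r, hr, hx⟩ := exists_compensator555 h
  set c : G K := cR250n r hr.ne' with hcdef
  obtain ⟨C, hC⟩ := hb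
  obtain ⟨C', hC'⟩ := hb'
  have hcinv : Continuous fun g : G K => g * (h * c)⁻¹ := continuous_id.mul continuous_const
  have hΨc : Continuous fun g : G K => φ g * conj (φ' (g * (h * c)⁻¹)) :=
    hc.mul (Complex.continuous_conj.comp (hc'.comp hcinv))
  have hΨb : ∃ M : ℝ, ∀ g : G K, ‖φ g * conj (φ' (g * (h * c)⁻¹))‖ ≤ M := by
    refine ⟨C * C', fun g => ?_⟩
    rw [norm_mul, RCLike.norm_conj]
    exact mul_le_mul (hC g) (hC' _) (norm_nonneg _) ((norm_nonneg _).trans (hC g))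
  have hΨl : ∀ (γ : GL (Fin 2) K) (g : G K),
      φ (T5.ratG γ * g) * conj (φ' (T5.ratG γ * g * (h * c)⁻¹))
        = φ g * conj (φ' (g * (h * c)⁻¹)) := by
    intro γ g
    rw [hl, mul_assoc, hl']
  have key := integral_shift555 hF (h * c) hx hΨc hΨb hΨl
  have e1 : ∀ g : G K, φ (g * (h * c)) * conj (φ' (g * (h * c) * (h * c)⁻¹))
      = φ (g * h) * conj (φ' g) := by
    intro g
    rw [mul_inv_cancel_right, ← mul_assoc, hcdef, inv_cR250n hs r hr]
  have e2 : ∀ g : G K, φ g * conj (φ' (g * (h * c)⁻¹)) = φ g * conj (φ' (g * h⁻¹)) := by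
    intro g
    have e3 : g * (h * c)⁻¹ * c = g * h⁻¹ := by
      have hcc : c * h⁻¹ = h⁻¹ * c := cR_comm555 r hr.ne' h⁻¹
      rw [mul_inv_rev, mul_assoc, mul_assoc, ← hcc, inv_mul_cancel_left]
    have e4 := inv_cR250n hs' r hr (g * (h * c)⁻¹)
    rw [← hcdef, e3] at e4
    rw [e4]
  simp only [e1, e2] at key
  exact key

end Fermat.Agent.LT.T7.H555

end
end
-- ===== PACK-END LT/T7/H555/FrameShift.lean

-- ===== PACK-BEGIN LT/T7/H619/EKMCore.lean
section





/-!
# Row LT, tower T7, EK places WITHOUT class field theory (helper619), part 2: the abstract core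

OFF-MAIN.  `goodEKM_core619`: let `p` be a prime number with `p + 1 ∈ 𝔑` such that every place `w`
of `K` over `p` lies outside `S`, is prime to `𝔑`, has norm `p ^ f`, and `Φ` has `a_w = 0`,
`b_w = 1` there (Satake parameters `(i, -i)`).  If `[K : ℚ] = f k` with `k` ODD, then
`a₀ = -p`, `P` = the places over `p`, `e_w` = the exponent of `w` in `(p)` is a multi-place EK
datum in the sense of `T7.GoodEKM`: `∑ e_w = k` is odd (norms), and the square of
`∏ z_w ^ e_w` is `(-1) ^ k = -1`.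
-/

set_option autoImplicit false
set_option linter.unusedSectionVars false
set_option linter.style.haveILetI false

open AutomorphicForm IsDedekindDomain NumberField

noncomputable section

namespace Fermat.Agent.LT.T7.H619

open Fermat.Agent.LT.T7 Fermat.Agent.LT.T7.H231 Fermat.Agent.LT.T7.H922

variable {K : Type} [Field K] [NumberField K]

/-- The exponent of the place `v` in the ideal `I`. -/
def expAt619 (I : Ideal (𝓞 K)) (v : HeightOneSpectrum (𝓞 K)) : ℕ :=
  (Associates.mk v.asIdeal).count (Associates.mk I).factors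

theorem expAt_pos_iff619 {I : Ideal (𝓞 K)} (hI : I ≠ ⊥) (v : HeightOneSpectrum (𝓞 K)) :
    0 < expAt619 I v ↔ I ≤ v.asIdeal := by
  unfold expAt619
  rw [Nat.pos_iff_ne_zero, Associates.count_ne_zero_iff_dvd hI v.irreducible, Ideal.dvd_iff_le]

/-- The factorisation of `I` over a finite set containing the places which divide `I`. -/
theorem prod_expAt619 {I : Ideal (𝓞 K)} (hI : I ≠ ⊥) (P : Finset (HeightOneSpectrum (𝓞 K)))
    (hP : ∀ v : HeightOneSpectrum (𝓞 K), I ≤ v.asIdeal → v ∈ P) :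
    ∏ v ∈ P, v.asIdeal ^ expAt619 I v = I := by
  have h := Ideal.finprod_heightOneSpectrum_factorization hI
  have hsub : Function.mulSupport (fun v : HeightOneSpectrum (𝓞 K) => v.maxPowDividing I)
      ⊆ (P : Set (HeightOneSpectrum (𝓞 K))) := by
    intro v hv
    rw [Function.mem_mulSupport] at hv
    apply hP
    by_contra hle
    apply hv
    have h0 : expAt619 I v = 0 := by
      by_contra h0
      exact hle ((expAt_pos_iff619 hI v).mp (Nat.pos_of_ne_zero h0))
    show v.asIdeal ^ expAt619 I v = 1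
    rw [h0, pow_zero]
  rw [finprod_eq_prod_of_mulSupport_subset _ hsub] at h
  exact h

theorem absNorm_span_natCast619 (p : ℕ) :
    Ideal.absNorm (Ideal.span {((p : ℕ) : 𝓞 K)}) = p ^ Module.finrank ℚ K := by
  rw [Ideal.absNorm_span_singleton]
  have h1 : ((p : ℕ) : 𝓞 K) = algebraMap ℤ (𝓞 K) (p : ℤ) := by simp
  rw [h1, Algebra.norm_algebraMap, RingOfIntegers.rank, Int.natAbs_pow, Int.natAbs_natCast]

/-- `f * ∑ e_w = [K : ℚ]` if all places over `p` have norm `p ^ f`. -/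
theorem mul_sum_expAt619 {p : ℕ} (hp : p.Prime) (P : Finset (HeightOneSpectrum (𝓞 K)))
    (hP : ∀ v : HeightOneSpectrum (𝓞 K), ((p : ℕ) : 𝓞 K) ∈ v.asIdeal → v ∈ P)
    (f : ℕ) (hnorm : ∀ v ∈ P, Ideal.absNorm v.asIdeal = p ^ f) :
    f * ∑ v ∈ P, expAt619 (Ideal.span {((p : ℕ) : 𝓞 K)}) v = Module.finrank ℚ K := by
  have hI : Ideal.span {((p : ℕ) : 𝓞 K)} ≠ ⊥ := by
    rw [Ne, Ideal.span_singleton_eq_bot]
    exact_mod_cast hp.ne_zero
  have hfac := prod_expAt619 hI P (fun v hv => hP v (hv (Ideal.mem_span_singleton_self _)))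
  have h1 := congrArg Ideal.absNorm hfac
  rw [map_prod, absNorm_span_natCast619] at h1
  have h2 : ∏ v ∈ P, Ideal.absNorm (v.asIdeal ^ expAt619 (Ideal.span {((p : ℕ) : 𝓞 K)}) v)
      = p ^ (f * ∑ v ∈ P, expAt619 (Ideal.span {((p : ℕ) : 𝓞 K)}) v) := by
    rw [Finset.mul_sum, ← Finset.prod_pow_eq_pow_sum]
    refine Finset.prod_congr rfl fun v hv => ?_
    rw [map_pow, hnorm v hv, pow_mul]
  rw [h2] at h1
  exact Nat.pow_right_injective hp.two_le h1

/-- **THE CORE.** -/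
theorem goodEKM_core619 (Φ : HeckeEigensystem K ℂ) (𝔑 : Ideal (𝓞 K))
    (S : Finset (HeightOneSpectrum (𝓞 K))) {p : ℕ} (hp : p.Prime)
    (hpN : ((p : ℕ) : 𝓞 K) + 1 ∈ 𝔑)
    (hout : ∀ w : HeightOneSpectrum (𝓞 K), ((p : ℕ) : 𝓞 K) ∈ w.asIdeal →
      w ∉ S ∧ ¬ w.asIdeal ∣ 𝔑)
    (hdata : ∀ w : HeightOneSpectrum (𝓞 K), ((p : ℕ) : 𝓞 K) ∈ w.asIdeal →
      Φ.a w = 0 ∧ Φ.b w = 1)
    (f k : ℕ) (hk : Odd k) (hdeg : Module.finrank ℚ K = f * k)
    (hf : 0 < f)
    (hnorm : ∀ w : HeightOneSpectrum (𝓞 K), ((p : ℕ) : 𝓞 K) ∈ w.asIdeal →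
      Ideal.absNorm w.asIdeal = p ^ f) :
    ∃ (P : Finset (HeightOneSpectrum (𝓞 K))) (e : HeightOneSpectrum (𝓞 K) → ℕ) (a₀ : 𝓞 K),
      P.Nonempty ∧ (∀ w ∈ P, w ∉ S ∧ ¬ w.asIdeal ∣ 𝔑 ∧ 0 < e w) ∧
      Ideal.span {a₀} = ∏ w ∈ P, w.asIdeal ^ e w ∧ a₀ - 1 ∈ 𝔑 ∧
      ∀ z : HeightOneSpectrum (𝓞 K) → ℂ,
        (∀ w ∈ P, z w ^ 2 - Φ.a w * z w + Φ.b w = 0) → ∏ w ∈ P, z w ^ e w ≠ 1 := by
  classical
  set I : Ideal (𝓞 K) := Ideal.span {((p : ℕ) : 𝓞 K)} with hIdef
  have hI : I ≠ ⊥ := by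
    rw [hIdef, Ne, Ideal.span_singleton_eq_bot]
    exact_mod_cast hp.ne_zero
  set P : Finset (HeightOneSpectrum (𝓞 K)) := overFinset231 K {p} with hPdef
  have hmemP : ∀ w : HeightOneSpectrum (𝓞 K), w ∈ P ↔ ((p : ℕ) : 𝓞 K) ∈ w.asIdeal := by
    intro w
    rw [hPdef, mem_overFinset231]
    constructor
    · rintro ⟨q, hq, -, hqw⟩
      rw [Finset.mem_singleton] at hq
      subst hq
      exact hqw
    · intro h
      exact ⟨p, Finset.mem_singleton_self _, hp, h⟩
  have hle : ∀ w : HeightOneSpectrum (𝓞 K), I ≤ w.asIdeal ↔ ((p : ℕ) : 𝓞 K) ∈ w.asIdeal := by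
    intro w
    rw [hIdef, Ideal.span_le, Set.singleton_subset_iff]
    rfl
  have hsum : f * ∑ v ∈ P, expAt619 I v = Module.finrank ℚ K :=
    mul_sum_expAt619 hp P (fun v hv => (hmemP v).mpr hv) f
      (fun v hv => hnorm v ((hmemP v).mp hv))
  have hsumk : ∑ v ∈ P, expAt619 I v = k := by
    rw [hdeg] at hsum
    exact Nat.eq_of_mul_eq_mul_left hf hsum
  refine ⟨P, expAt619 I, -((p : ℕ) : 𝓞 K), ?_, ?_, ?_, ?_, ?_⟩
  · obtain ⟨v, hv⟩ := exists_place_over922 K hp
    exact ⟨v, (hmemP v).mpr hv⟩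
  · intro w hw
    have hpw := (hmemP w).mp hw
    exact ⟨(hout w hpw).1, (hout w hpw).2, (expAt_pos_iff619 hI w).mpr ((hle w).mpr hpw)⟩
  · rw [Ideal.span_singleton_neg]
    exact (prod_expAt619 hI P (fun v hv => (hmemP v).mpr ((hle v).mp hv))).symm
  · have : -((p : ℕ) : 𝓞 K) - 1 = -(((p : ℕ) : 𝓞 K) + 1) := by ring
    rw [this]
    exact 𝔑.neg_mem hpN
  · intro z hz hprod
    have hz2 : ∀ w ∈ P, z w ^ 2 = -1 := by
      intro w hw
      have h1 := hz w hw
      obtain ⟨ha, hb⟩ := hdata w ((hmemP w).mp hw)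
      rw [ha, hb] at h1
      linear_combination h1
    have hsq : (∏ w ∈ P, z w ^ expAt619 I w) ^ 2 = (-1 : ℂ) ^ k := by
      rw [← Finset.prod_pow, ← hsumk, ← Finset.prod_pow_eq_pow_sum]
      refine Finset.prod_congr rfl fun w hw => ?_
      rw [← pow_mul, mul_comm, pow_mul, hz2 w hw]
    rw [hprod, one_pow, hk.neg_one_pow] at hsq
    norm_num at hsq

end Fermat.Agent.LT.T7.H619

end

end
-- ===== PACK-END LT/T7/H619/EKMCore.lean

-- ===== PACK-BEGIN LT/T7/H263/CountBdd.lean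
section





/-!
# Row LT, tower T7, leaf T7.14.3b `CountBddC` (helper263, registry 1657)

OFF-MAIN.  `countBddC263 K : H671.CountBddC K`, VERBATIM vs `LT/T7/H671/CountSpec.lean`
(helper671, sha256 4766156d, byte-identical copy), UNCONDITIONAL, constant `C = 98`.
Uses `T1/H309/AdNorm.lean` (helper309: positivity, multiplicativity, product formula) and the
packing core `Pack.lean`.  No reduction theory.

Route (pigeonhole at one complex place, the route of the spare row 1716 of helper67):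
for two distinct points `x, x'` of `ℙ¹(K)` with rows `r = x g`, `r' = x' g`, the adele
`D = r₀ r₁' - r₁ r₀' = δ · det g`, `δ ∈ Kˣ`, has `‖D‖_𝔸 = ‖det g‖_𝔸` (product formula);
`|D|_v ≤ max|r|_v max|r'|_v` at the finite places, `|D|_w² ≤ (|r₀|² + |r₁|²)(|r₀'|² + |r₁'|²)`
at the infinite places.  So if both heights are `≥ Y`, then at any fixed infinite place `w₀`
`Y (|r₀|² + |r₁|²)(|r₀'|² + |r₁'|²) ≤ |D|_{w₀}²`: the points are `√Y`-separated on `ℙ¹(ℂ)`.
-/

set_option autoImplicit false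

open AutomorphicForm IsDedekindDomain NumberField Filter Topology MeasureTheory

noncomputable section

namespace Fermat.Agent.LT.T7.H263

open Fermat.Agent.LT.H556 Fermat.Agent.LT.H556.A0 Fermat.Agent.LT.T7 Fermat.Agent.LT.T7.Rigid

variable {K : Type} [Field K] [NumberField K]

/-! ## Matrix algebra -/

theorem rowOf_eq_vecMul263 (x : Fin 2 → K) (g : G K) :
    rowOf x g = Matrix.vecMul (fun k => algebraMap K (Adl K) (x k))
      (g : Matrix (Fin 2) (Fin 2) (Adl K)) := by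
  funext j
  simp [rowOf, Matrix.vecMul, dotProduct, Fin.sum_univ_two]

/-- `x = (x g) g⁻¹`. -/
theorem rowOf_inv263 (x : Fin 2 → K) (g : G K) (i : Fin 2) :
    rowOf x g 0 * ((g⁻¹ : G K) : Matrix (Fin 2) (Fin 2) (Adl K)) 0 i
      + rowOf x g 1 * ((g⁻¹ : G K) : Matrix (Fin 2) (Fin 2) (Adl K)) 1 i
      = algebraMap K (Adl K) (x i) := by
  have h : Matrix.vecMul (rowOf x g) ((g⁻¹ : G K) : Matrix (Fin 2) (Fin 2) (Adl K))
      = fun k => algebraMap K (Adl K) (x k) := by
    rw [rowOf_eq_vecMul263, Matrix.vecMul_vecMul]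
    have h1 : (g : Matrix (Fin 2) (Fin 2) (Adl K))
        * ((g⁻¹ : G K) : Matrix (Fin 2) (Fin 2) (Adl K)) = 1 := by
      rw [← Units.val_mul, mul_inv_cancel, Units.val_one]
    rw [h1, Matrix.vecMul_one]
  have h2 := congrFun h i
  simpa [Matrix.vecMul, dotProduct, Fin.sum_univ_two] using h2

/-- The determinant of two rows. -/
theorem det_rows263 (x x' : Fin 2 → K) (g : G K) :
    rowOf x g 0 * rowOf x' g 1 - rowOf x g 1 * rowOf x' g 0
      = algebraMap K (Adl K) (x 0 * x' 1 - x 1 * x' 0)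
        * Matrix.det (g : Matrix (Fin 2) (Fin 2) (Adl K)) := by
  rw [Matrix.det_fin_two, map_sub, map_mul, map_mul]
  unfold rowOf
  ring

omit [NumberField K] in
/-- Distinct points of `ℙ¹(K)` have linearly independent representatives. -/
theorem det_rep_ne_zero263 {x x' : Projectivization K (Fin 2 → K)} (h : x ≠ x') :
    x.rep 0 * x'.rep 1 - x.rep 1 * x'.rep 0 ≠ 0 := by
  intro hδ
  apply h
  rw [← x.mk_rep, ← x'.mk_rep, Projectivization.mk_eq_mk_iff']
  have hx := x.rep_nonzero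
  have hx' := x'.rep_nonzero
  have hδ' : x.rep 0 * x'.rep 1 = x.rep 1 * x'.rep 0 := sub_eq_zero.mp hδ
  by_cases h0 : x'.rep 0 = 0
  · have h1 : x'.rep 1 ≠ 0 := by
      intro h1
      apply hx'
      funext i
      fin_cases i
      · exact h0
      · exact h1
    have hx0 : x.rep 0 = 0 := by
      rw [h0, mul_zero] at hδ'
      exact (mul_eq_zero.mp hδ').resolve_right h1
    refine ⟨x.rep 1 / x'.rep 1, ?_⟩
    funext i
    fin_cases i
    · simp [h0, hx0]
    · simp only [Pi.smul_apply, smul_eq_mul]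
      exact div_mul_cancel₀ _ h1
  · refine ⟨x.rep 0 / x'.rep 0, ?_⟩
    funext i
    fin_cases i
    · simp only [Pi.smul_apply, smul_eq_mul]
      exact div_mul_cancel₀ _ h0
    · simp only [Pi.smul_apply, smul_eq_mul]
      show x.rep 0 / x'.rep 0 * x'.rep 1 = x.rep 1
      rw [div_mul_eq_mul_div, hδ']
      exact mul_div_cancel_right₀ _ h0

/-! ## The module of the determinant -/

theorem adNorm_det_pos263 (g : G K) :
    0 < Fermat.Agent.LT.T5.adNorm (Matrix.det (g : Matrix (Fin 2) (Fin 2) (Adl K))) :=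
  Fermat.Agent.LT.T1.H309.adNorm_pos309 K (Matrix.GeneralLinearGroup.det g)

/-- The idele `δ · det g`. -/
def rowsUnit263 (δ : K) (hδ : δ ≠ 0) (g : G K) : (Adl K)ˣ :=
  Fermat.Agent.LT.T1.ratUnit K (Units.mk0 δ hδ) * Matrix.GeneralLinearGroup.det g

theorem rowsUnit_val263 (δ : K) (hδ : δ ≠ 0) (g : G K) :
    (rowsUnit263 δ hδ g : Adl K)
      = algebraMap K (Adl K) δ * Matrix.det (g : Matrix (Fin 2) (Fin 2) (Adl K)) := rfl

theorem adNorm_rowsUnit263 (δ : K) (hδ : δ ≠ 0) (g : G K) :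
    Fermat.Agent.LT.T5.adNorm (rowsUnit263 δ hδ g : Adl K)
      = Fermat.Agent.LT.T5.adNorm (Matrix.det (g : Matrix (Fin 2) (Fin 2) (Adl K))) := by
  have h1 := Fermat.Agent.LT.T1.H309.adNorm_mul309 K
    (Fermat.Agent.LT.T1.ratUnit K (Units.mk0 δ hδ)) (Matrix.GeneralLinearGroup.det g)
  have h2 := Fermat.Agent.LT.T1.H309.adNorm_ratUnit309 K (Units.mk0 δ hδ)
  rw [h2, one_mul] at h1
  exact h1

/-! ## Finite places -/

theorem eventually_norm_le_one263 (a : Adl K) :
    ∀ᶠ v : HeightOneSpectrum (𝓞 K) in Filter.cofinite, ‖a.2 v‖ ≤ 1 := by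
  have h := a.2.2
  refine h.mono fun v hv => ?_
  rw [Valued.toNormedField.norm_le_one_iff]
  exact hv

theorem norm_add_le_max263 (v : HeightOneSpectrum (𝓞 K)) (a b : v.adicCompletion K) :
    ‖a + b‖ ≤ max ‖a‖ ‖b‖ :=
  IsUltrametricDist.norm_add_le_max a b

theorem norm_sub_le_max263 (v : HeightOneSpectrum (𝓞 K)) (a b : v.adicCompletion K) :
    ‖a - b‖ ≤ max ‖a‖ ‖b‖ := by
  have h := norm_add_le_max263 v a (-b)
  rwa [← sub_eq_add_neg, norm_neg] at h

/-- `|a b + c d|_v ≤ max(|a|, |c|)` if `|b|, |d| ≤ 1`. -/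
theorem norm_comb_le263 (v : HeightOneSpectrum (𝓞 K)) (a b c d : v.adicCompletion K)
    (hb : ‖b‖ ≤ 1) (hd : ‖d‖ ≤ 1) : ‖a * b + c * d‖ ≤ max ‖a‖ ‖c‖ := by
  refine (norm_add_le_max263 v _ _).trans ?_
  rw [norm_mul, norm_mul]
  refine max_le_max ?_ ?_
  · exact mul_le_of_le_one_right (norm_nonneg _) hb
  · exact mul_le_of_le_one_right (norm_nonneg _) hd

/-- The local factors of `rowNorm` are `1` at almost all finite places. -/
theorem hasFiniteMulSupport_rowMax263 (x : Fin 2 → K) (hx : x ≠ 0) (g : G K) :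
    Function.HasFiniteMulSupport fun v : HeightOneSpectrum (𝓞 K) =>
      max ‖(rowOf x g 0).2 v‖ ‖(rowOf x g 1).2 v‖ := by
  -- a nonzero coordinate
  obtain ⟨i₀, hi₀⟩ : ∃ i, x i ≠ 0 := by
    by_contra hcon
    push Not at hcon
    exact hx (funext hcon)
  have hg : ∀ i j, ∀ᶠ v : HeightOneSpectrum (𝓞 K) in Filter.cofinite,
      ‖((g : Matrix (Fin 2) (Fin 2) (Adl K)) i j).2 v‖ ≤ 1 :=
    fun i j => eventually_norm_le_one263 _
  have hgi : ∀ i j, ∀ᶠ v : HeightOneSpectrum (𝓞 K) in Filter.cofinite,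
      ‖(((g⁻¹ : G K) : Matrix (Fin 2) (Fin 2) (Adl K)) i j).2 v‖ ≤ 1 :=
    fun i j => eventually_norm_le_one263 _
  have hxi : ∀ i, ∀ᶠ v : HeightOneSpectrum (𝓞 K) in Filter.cofinite,
      ‖(algebraMap K (Adl K) (x i)).2 v‖ ≤ 1 :=
    fun i => eventually_norm_le_one263 _
  have hx1 : ∀ᶠ v : HeightOneSpectrum (𝓞 K) in Filter.cofinite,
      ‖(algebraMap K (Adl K) (x i₀)).2 v‖ = 1 := by
    have h := Fermat.Agent.LT.T1.H309.hasFiniteMulSupport309 K
      (Fermat.Agent.LT.T1.ratUnit K (Units.mk0 (x i₀) hi₀))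
    rw [Filter.eventually_cofinite]
    refine h.subset fun v hv => ?_
    simp only [Function.mem_mulSupport]
    exact hv
  have hall : ∀ᶠ v : HeightOneSpectrum (𝓞 K) in Filter.cofinite,
      max ‖(rowOf x g 0).2 v‖ ‖(rowOf x g 1).2 v‖ = 1 := by
    filter_upwards [hg 0 0, hg 0 1, hg 1 0, hg 1 1, hgi 0 i₀, hgi 1 i₀, hxi 0, hxi 1, hx1]
      with v g00 g01 g10 g11 gi0 gi1 x0 x1 hxv
    refine le_antisymm ?_ ?_
    · refine max_le ?_ ?_
      · have h := norm_comb_le263 v ((algebraMap K (Adl K) (x 0)).2 v)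
          (((g : Matrix (Fin 2) (Fin 2) (Adl K)) 0 0).2 v) ((algebraMap K (Adl K) (x 1)).2 v)
          (((g : Matrix (Fin 2) (Fin 2) (Adl K)) 1 0).2 v) g00 g10
        exact h.trans (max_le x0 x1)
      · have h := norm_comb_le263 v ((algebraMap K (Adl K) (x 0)).2 v)
          (((g : Matrix (Fin 2) (Fin 2) (Adl K)) 0 1).2 v) ((algebraMap K (Adl K) (x 1)).2 v)
          (((g : Matrix (Fin 2) (Fin 2) (Adl K)) 1 1).2 v) g01 g11
        exact h.trans (max_le x0 x1)
    · have h := norm_comb_le263 v ((rowOf x g 0).2 v)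
        ((((g⁻¹ : G K) : Matrix (Fin 2) (Fin 2) (Adl K)) 0 i₀).2 v) ((rowOf x g 1).2 v)
        ((((g⁻¹ : G K) : Matrix (Fin 2) (Fin 2) (Adl K)) 1 i₀).2 v) gi0 gi1
      have e : (rowOf x g 0).2 v * (((g⁻¹ : G K) : Matrix (Fin 2) (Fin 2) (Adl K)) 0 i₀).2 v
          + (rowOf x g 1).2 v * (((g⁻¹ : G K) : Matrix (Fin 2) (Fin 2) (Adl K)) 1 i₀).2 v
          = (algebraMap K (Adl K) (x i₀)).2 v := by
        rw [← rowOf_inv263 x g i₀]
        rfl
      rw [e, hxv] at h
      exact h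
  rw [Filter.eventually_cofinite] at hall
  refine hall.subset fun v hv => ?_
  simp only [Function.mem_mulSupport] at hv
  exact hv

theorem finprod_le_finprod263 {ι : Type*} {f g : ι → ℝ} (hf : Function.HasFiniteMulSupport f)
    (hg : Function.HasFiniteMulSupport g) (h0 : ∀ i, 0 ≤ f i) (hfg : ∀ i, f i ≤ g i) :
    ∏ᶠ i, f i ≤ ∏ᶠ i, g i := by
  classical
  have hf0 : (Function.mulSupport f).Finite := hf
  have hg0 : (Function.mulSupport g).Finite := hg
  have hf' : Function.mulSupport f ⊆ ((hf0.toFinset ∪ hg0.toFinset : Finset ι) : Set ι) := by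
    intro i hi
    rw [Finset.coe_union, Set.Finite.coe_toFinset, Set.Finite.coe_toFinset]
    exact Or.inl hi
  have hg' : Function.mulSupport g ⊆ ((hf0.toFinset ∪ hg0.toFinset : Finset ι) : Set ι) := by
    intro i hi
    rw [Finset.coe_union, Set.Finite.coe_toFinset, Set.Finite.coe_toFinset]
    exact Or.inr hi
  rw [finprod_eq_prod_of_mulSupport_subset f hf', finprod_eq_prod_of_mulSupport_subset g hg']
  exact Finset.prod_le_prod (fun i _ => h0 i) (fun i _ => hfg i)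

/-- The finite part of the Hadamard inequality. -/
theorem fin_det_le263 (r r' : Fin 2 → Adl K) (D : (Adl K)ˣ)
    (hD : (D : Adl K) = r 0 * r' 1 - r 1 * r' 0)
    (hr : Function.HasFiniteMulSupport fun v : HeightOneSpectrum (𝓞 K) =>
      max ‖(r 0).2 v‖ ‖(r 1).2 v‖)
    (hr' : Function.HasFiniteMulSupport fun v : HeightOneSpectrum (𝓞 K) =>
      max ‖(r' 0).2 v‖ ‖(r' 1).2 v‖) :
    ∏ᶠ v : HeightOneSpectrum (𝓞 K), ‖(D : Adl K).2 v‖
      ≤ (∏ᶠ v : HeightOneSpectrum (𝓞 K), max ‖(r 0).2 v‖ ‖(r 1).2 v‖)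
        * ∏ᶠ v : HeightOneSpectrum (𝓞 K), max ‖(r' 0).2 v‖ ‖(r' 1).2 v‖ := by
  rw [← finprod_mul_distrib hr hr']
  refine finprod_le_finprod263 (Fermat.Agent.LT.T1.H309.hasFiniteMulSupport309 K D) ?_
    (fun v => norm_nonneg _) ?_
  · exact (hr.union hr').subset (Function.mulSupport_mul _ _)
  · intro v
    have e : (D : Adl K).2 v = (r 0).2 v * (r' 1).2 v - (r 1).2 v * (r' 0).2 v := by
      rw [hD]
      rfl
    rw [e]
    refine (norm_sub_le_max263 v _ _).trans ?_
    rw [norm_mul, norm_mul]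
    refine max_le ?_ ?_
    · exact mul_le_mul (le_max_left _ _) (le_max_right _ _) (norm_nonneg _)
        (le_max_of_le_left (norm_nonneg _))
    · exact mul_le_mul (le_max_right _ _) (le_max_left _ _) (norm_nonneg _)
        (le_max_of_le_left (norm_nonneg _))

/-! ## Infinite places -/

/-- Hadamard's inequality in a normed field. -/
theorem hadamard263 {F : Type*} [NormedField F] (a b c d : F) :
    ‖a * d - b * c‖ ^ 2 ≤ (‖a‖ ^ 2 + ‖b‖ ^ 2) * (‖c‖ ^ 2 + ‖d‖ ^ 2) := by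
  have h1 : ‖a * d - b * c‖ ≤ ‖a‖ * ‖d‖ + ‖b‖ * ‖c‖ := by
    refine (norm_sub_le _ _).trans ?_
    rw [norm_mul, norm_mul]
  have h2 : ‖a * d - b * c‖ ^ 2 ≤ (‖a‖ * ‖d‖ + ‖b‖ * ‖c‖) ^ 2 :=
    pow_le_pow_left₀ (norm_nonneg _) h1 2
  nlinarith [sq_nonneg (‖a‖ * ‖c‖ - ‖b‖ * ‖d‖)]

/-- The archimedean local factor of `rowNorm`. -/
def archN263 (r : Fin 2 → Adl K) (w : InfinitePlace K) : ℝ :=
  ‖(r 0).1 w‖ ^ 2 + ‖(r 1).1 w‖ ^ 2

theorem archN_nonneg263 (r : Fin 2 → Adl K) (w : InfinitePlace K) : 0 ≤ archN263 r w := by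
  unfold archN263
  positivity

/-- The finite part of `rowNorm`. -/
def finN263 (r : Fin 2 → Adl K) : ℝ :=
  ∏ᶠ v : HeightOneSpectrum (𝓞 K), max ‖(r 0).2 v‖ ‖(r 1).2 v‖

theorem finN_nonneg263 (r : Fin 2 → Adl K) : 0 ≤ finN263 r :=
  finprod_nonneg fun _ => le_max_of_le_left (norm_nonneg _)

omit [NumberField K] in
theorem mult_eq_two263 (hcplx : TotCplx K) (w : InfinitePlace K) : w.mult = 2 :=
  (hcplx w).mult_eq_two

theorem rowNorm_eq263 (hcplx : TotCplx K) (r : Fin 2 → Adl K) :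
    rowNorm r = (∏ w : InfinitePlace K, archN263 r w) * finN263 r := by
  unfold rowNorm finN263
  congr 1
  refine Finset.prod_congr rfl fun w _ => ?_
  rw [mult_eq_two263 hcplx w]
  have : ((2 : ℕ) : ℝ) / 2 = 1 := by norm_num
  rw [this, Real.rpow_one]
  rfl

theorem adNorm_eq263 (hcplx : TotCplx K) (a : Adl K) :
    Fermat.Agent.LT.T5.adNorm a
      = (∏ w : InfinitePlace K, ‖a.1 w‖ ^ 2)
        * ∏ᶠ v : HeightOneSpectrum (𝓞 K), ‖a.2 v‖ := by
  unfold Fermat.Agent.LT.T5.adNorm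
  congr 1
  refine Finset.prod_congr rfl fun w _ => ?_
  rw [mult_eq_two263 hcplx w]

/-- **Separation at one infinite place.** -/
theorem sep_core263 (hcplx : TotCplx K) (r r' : Fin 2 → Adl K) (D : (Adl K)ˣ)
    (hD : (D : Adl K) = r 0 * r' 1 - r 1 * r' 0)
    (hr : Function.HasFiniteMulSupport fun v : HeightOneSpectrum (𝓞 K) =>
      max ‖(r 0).2 v‖ ‖(r 1).2 v‖)
    (hr' : Function.HasFiniteMulSupport fun v : HeightOneSpectrum (𝓞 K) =>
      max ‖(r' 0).2 v‖ ‖(r' 1).2 v‖)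
    (Y : ℝ) (hY : 0 < Y)
    (h1 : rowNorm r ^ 2 * Y ≤ Fermat.Agent.LT.T5.adNorm (D : Adl K))
    (h2 : rowNorm r' ^ 2 * Y ≤ Fermat.Agent.LT.T5.adNorm (D : Adl K))
    (w₀ : InfinitePlace K) :
    Y * (archN263 r w₀ * archN263 r' w₀)
      ≤ ‖(r 0).1 w₀ * (r' 1).1 w₀ - (r 1).1 w₀ * (r' 0).1 w₀‖ ^ 2 := by
  classical
  set A : ℝ := Fermat.Agent.LT.T5.adNorm (D : Adl K) with hA_def
  have hA : 0 < A := Fermat.Agent.LT.T1.H309.adNorm_pos309 K D
  have hR0 : 0 ≤ rowNorm r := by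
    rw [rowNorm_eq263 hcplx]
    exact mul_nonneg (Finset.prod_nonneg fun w _ => archN_nonneg263 r w) (finN_nonneg263 r)
  have hR0' : 0 ≤ rowNorm r' := by
    rw [rowNorm_eq263 hcplx]
    exact mul_nonneg (Finset.prod_nonneg fun w _ => archN_nonneg263 r' w) (finN_nonneg263 r')
  -- geometric mean
  have hgm : rowNorm r * rowNorm r' * Y ≤ A := by
    by_contra hcon
    have hlt : A < rowNorm r * rowNorm r' * Y := not_le.mp hcon
    have h3 : A * A < (rowNorm r * rowNorm r' * Y) * (rowNorm r * rowNorm r' * Y) :=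
      mul_self_lt_mul_self hA.le hlt
    have h4 : (rowNorm r * rowNorm r' * Y) * (rowNorm r * rowNorm r' * Y)
        = (rowNorm r ^ 2 * Y) * (rowNorm r' ^ 2 * Y) := by ring
    have h5 : (rowNorm r ^ 2 * Y) * (rowNorm r' ^ 2 * Y) ≤ A * A :=
      mul_le_mul h1 h2 (by positivity) hA.le
    linarith
  -- the local inequalities
  have hDw : ∀ w : InfinitePlace K, ‖(D : Adl K).1 w‖ ^ 2 ≤ archN263 r w * archN263 r' w := by
    intro w
    have e : (D : Adl K).1 w = (r 0).1 w * (r' 1).1 w - (r 1).1 w * (r' 0).1 w := by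
      rw [hD]
      rfl
    rw [e]
    have := hadamard263 ((r 0).1 w) ((r 1).1 w) ((r' 0).1 w) ((r' 1).1 w)
    exact this
  have hDw₀ : (D : Adl K).1 w₀ = (r 0).1 w₀ * (r' 1).1 w₀ - (r 1).1 w₀ * (r' 0).1 w₀ := by
    rw [hD]
    rfl
  rw [← hDw₀]
  have hfin := fin_det_le263 r r' D hD hr hr'
  -- split off `w₀`
  set E : ℝ := ∏ w ∈ (Finset.univ : Finset (InfinitePlace K)).erase w₀,
    archN263 r w * archN263 r' w with hE_def
  have hE0 : 0 ≤ E :=
    Finset.prod_nonneg fun w _ => mul_nonneg (archN_nonneg263 r w) (archN_nonneg263 r' w)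
  have hAle : A ≤ ‖(D : Adl K).1 w₀‖ ^ 2 * E * (finN263 r * finN263 r') := by
    rw [hA_def, adNorm_eq263 hcplx,
      ← Finset.mul_prod_erase Finset.univ (fun w => ‖(D : Adl K).1 w‖ ^ 2) (Finset.mem_univ w₀)]
    refine mul_le_mul ?_ hfin (finprod_nonneg fun _ => norm_nonneg _)
      (mul_nonneg (by positivity) hE0)
    refine mul_le_mul_of_nonneg_left ?_ (by positivity)
    exact Finset.prod_le_prod (fun w _ => by positivity) (fun w _ => hDw w)
  have hRR : rowNorm r * rowNorm r'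
      = archN263 r w₀ * archN263 r' w₀ * E * (finN263 r * finN263 r') := by
    rw [rowNorm_eq263 hcplx, rowNorm_eq263 hcplx, hE_def, Finset.prod_mul_distrib,
      ← Finset.mul_prod_erase Finset.univ (fun w => archN263 r w) (Finset.mem_univ w₀),
      ← Finset.mul_prod_erase Finset.univ (fun w => archN263 r' w) (Finset.mem_univ w₀)]
    ring
  set P : ℝ := E * (finN263 r * finN263 r') with hP_def
  have hP0 : 0 ≤ P := mul_nonneg hE0 (mul_nonneg (finN_nonneg263 r) (finN_nonneg263 r'))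
  have hPpos : 0 < P := by
    rcases hP0.lt_or_eq with h | h
    · exact h
    · exfalso
      have : A ≤ 0 := by
        calc A ≤ ‖(D : Adl K).1 w₀‖ ^ 2 * E * (finN263 r * finN263 r') := hAle
          _ = ‖(D : Adl K).1 w₀‖ ^ 2 * P := by rw [hP_def]; ring
          _ = 0 := by rw [← h, mul_zero]
      linarith
  have hkey : Y * (archN263 r w₀ * archN263 r' w₀) * P ≤ ‖(D : Adl K).1 w₀‖ ^ 2 * P := by
    calc Y * (archN263 r w₀ * archN263 r' w₀) * P
        = rowNorm r * rowNorm r' * Y := by rw [hRR, hP_def]; ring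
      _ ≤ A := hgm
      _ ≤ ‖(D : Adl K).1 w₀‖ ^ 2 * E * (finN263 r * finN263 r') := hAle
      _ = ‖(D : Adl K).1 w₀‖ ^ 2 * P := by rw [hP_def]; ring
  exact le_of_mul_le_mul_right hkey hPpos

/-- A nonzero rational row does not vanish at an infinite place. -/
theorem row_ne_zero263 (x : Fin 2 → K) (hx : x ≠ 0) (g : G K) (w : InfinitePlace K) :
    (rowOf x g 0).1 w ≠ 0 ∨ (rowOf x g 1).1 w ≠ 0 := by
  by_contra hcon
  push Not at hcon
  obtain ⟨h0, h1⟩ := hcon
  apply hx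
  funext i
  have e : (algebraMap K (Adl K) (x i)).1 w
      = (rowOf x g 0).1 w * (((g⁻¹ : G K) : Matrix (Fin 2) (Fin 2) (Adl K)) 0 i).1 w
        + (rowOf x g 1).1 w * (((g⁻¹ : G K) : Matrix (Fin 2) (Fin 2) (Adl K)) 1 i).1 w := by
    rw [← rowOf_inv263 x g i]
    rfl
  rw [h0, h1, zero_mul, zero_mul, add_zero] at e
  have h2 := Fermat.Agent.LT.T1.H309.infNorm309 K (x i) w
  rw [e, norm_zero] at h2
  exact (map_eq_zero w).mp h2.symm

/-! ## The leaf -/

/-- **LEAF `CountBddC`**, every number field, `C = 98`. -/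
theorem countBddC263 (K : Type) [Field K] [NumberField K] :
    Fermat.Agent.LT.T7.H671.CountBddC K := by
  intro hcplx 𝔪 _
  refine ⟨98, fun g Y hY hY1 => ?_⟩
  by_cases hfin : (cntSet 𝔪 Y g).Finite
  · obtain ⟨w₀⟩ : Nonempty (InfinitePlace K) := inferInstance
    have hcard : cnt 𝔪 Y g = hfin.toFinset.card := by
      unfold cnt
      rw [Nat.card_coe_set_eq, Set.ncard_eq_toFinset_card _ hfin]
    rw [hcard]
    have hiso : ∀ a : w₀.Completion,
        ‖InfinitePlace.Completion.extensionEmbedding w₀ a‖ = ‖a‖ := fun a =>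
      (InfinitePlace.Completion.isometry_extensionEmbedding w₀).norm_map_of_map_zero
        (map_zero _) a
    refine pack263 hfin.toFinset
      (fun x => InfinitePlace.Completion.extensionEmbedding w₀ ((rowOf x.rep g 0).1 w₀))
      (fun x => InfinitePlace.Completion.extensionEmbedding w₀ ((rowOf x.rep g 1).1 w₀))
      Y hY hY1 ?_ ?_
    · intro x _
      rcases row_ne_zero263 x.rep x.rep_nonzero g w₀ with h | h
      · exact Or.inl ((map_ne_zero _).mpr h)
      · exact Or.inr ((map_ne_zero _).mpr h)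
    · intro x hx x' hx' hne
      rw [Set.Finite.mem_toFinset] at hx hx'
      have hδ := det_rep_ne_zero263 hne
      have hD := rowsUnit_val263 _ hδ g
      rw [← det_rows263] at hD
      have hx1 : rowNorm (rowOf x.rep g) ^ 2 * Y
          ≤ Fermat.Agent.LT.T5.adNorm (rowsUnit263 _ hδ g : Adl K) := by
        rw [adNorm_rowsUnit263]
        exact hx.1
      have hx1' : rowNorm (rowOf x'.rep g) ^ 2 * Y
          ≤ Fermat.Agent.LT.T5.adNorm (rowsUnit263 _ hδ g : Adl K) := by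
        rw [adNorm_rowsUnit263]
        exact hx'.1
      have hsep := sep_core263 hcplx (rowOf x.rep g) (rowOf x'.rep g) (rowsUnit263 _ hδ g) hD
        (hasFiniteMulSupport_rowMax263 x.rep x.rep_nonzero g)
        (hasFiniteMulSupport_rowMax263 x'.rep x'.rep_nonzero g) Y hY hx1 hx1' w₀
      unfold archN263 at hsep
      rw [hiso, hiso, hiso, hiso, ← map_mul, ← map_mul, ← map_sub, hiso]
      exact hsep
  · have h0 : cnt 𝔪 Y g = 0 := by
      unfold cnt
      rw [Nat.card_coe_set_eq]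
      exact Set.Infinite.ncard hfin
    rw [h0, Nat.cast_zero, mul_zero]
    norm_num

end Fermat.Agent.LT.T7.H263

end

end
-- ===== PACK-END LT/T7/H263/CountBdd.lean

-- ===== PACK-BEGIN LT/T7/H627/Weight.lean
section



/-!
# Row LT, tower T7, leaf T7.14.6d `WeightC` (registry rows 1721 / 1751), helper627 (spare)

OFF-MAIN.  `weightC627 K : Rigid.WeightC K` VERBATIM against the byte-identical copy of
`LT/T7/H62/RigidStrip.lean` (helper62@3eb009f31, sha256 `9f2a8c04`), for EVERY number field.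

Route (no logarithms, no Fubini):
1. `K₀(t) ≤ 4 (t/4)^{-1/4} e^{-t/2}`, `K₀` is positive and antitone on `(0, ∞)`, measurable;
2. on the region `∏ r_w² ≥ T` the integrand `∏ K₀(c_w r_w)² / r_w` is bounded by
   `(√T)^{-(2k+1)} ∏_w r_w^{2k} K₀(c_w r_w)²`, a product of integrable functions of one variable;
3. `k = 0`: integrability and `G(T) ≤ C T^{-1/2}`; `k = 1`: `G(T) ≤ C T^{-3/2}`.
-/

set_option autoImplicit false
set_option linter.unusedSectionVars false

open IsDedekindDomain NumberField MeasureTheory Set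
open scoped ENNReal

noncomputable section

namespace Fermat.Agent.LT.T7.H627

open Fermat.Agent.LT.T7 Fermat.Agent.LT.T7.Rigid

/-! ## 1. The Bessel function `K₀` -/

theorem half_exp_le_cosh627 (u : ℝ) : Real.exp u / 2 ≤ Real.cosh u := by
  rw [Real.cosh_eq]
  have := (Real.exp_pos (-u)).le
  linarith

theorem integrableOn_k0_627 {t : ℝ} (ht : 0 < t) :
    IntegrableOn (fun u : ℝ => Real.exp (-t * Real.cosh u)) (Ioi 0) := by
  have h1 : IntegrableOn (fun u : ℝ => Real.exp ((-t / 2) * u)) (Ioi 0) :=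
    integrableOn_exp_mul_Ioi (by linarith) 0
  refine Integrable.mono' h1 (by fun_prop) ?_
  refine (ae_restrict_iff' measurableSet_Ioi).mpr (Filter.Eventually.of_forall fun u hu => ?_)
  rw [Real.norm_eq_abs, abs_of_pos (Real.exp_pos _)]
  refine Real.exp_le_exp.mpr ?_
  have h2 := half_exp_le_cosh627 u
  have h3 := Real.add_one_le_exp u
  have hu' : (0 : ℝ) < u := hu
  nlinarith

theorem besselK0_nonneg627 (t : ℝ) : 0 ≤ besselK0 t :=
  setIntegral_nonneg measurableSet_Ioi fun _ _ => (Real.exp_pos _).le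

theorem besselK0_anti627 : AntitoneOn besselK0 (Ioi 0) := by
  intro s hs t ht hst
  refine setIntegral_mono_on (integrableOn_k0_627 ht) (integrableOn_k0_627 hs) measurableSet_Ioi
    fun u _ => Real.exp_le_exp.mpr ?_
  have := Real.one_le_cosh u
  nlinarith

theorem besselK0_pos627 {t : ℝ} (ht : 0 < t) : 0 < besselK0 t := by
  have h1 : ∫ u in Ioc (0 : ℝ) 1, Real.exp (-t * Real.cosh u) ≤ besselK0 t :=
    setIntegral_mono_set (integrableOn_k0_627 ht)
      (Filter.Eventually.of_forall fun _ => (Real.exp_pos _).le)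
      (Filter.Eventually.of_forall Ioc_subset_Ioi_self)
  have h2 : Real.exp (-t * Real.cosh 1) * (volume.real (Ioc (0 : ℝ) 1))
      ≤ ∫ u in Ioc (0 : ℝ) 1, Real.exp (-t * Real.cosh u) := by
    refine setIntegral_ge_of_const_le_real measurableSet_Ioc (by simp) (fun u hu => ?_)
      ((integrableOn_k0_627 ht).mono_set Ioc_subset_Ioi_self)
    refine Real.exp_le_exp.mpr ?_
    have h3 : Real.cosh u ≤ Real.cosh 1 := by
      rw [Real.cosh_le_cosh, abs_of_pos hu.1, abs_of_pos one_pos]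
      exact hu.2
    nlinarith
  have h3 : volume.real (Ioc (0 : ℝ) 1) = 1 := by simp [Measure.real]
  rw [h3, mul_one] at h2
  exact lt_of_lt_of_le (Real.exp_pos _) (h2.trans h1)

theorem measurable_besselK0_627 : Measurable besselK0 := by
  have h : StronglyMeasurable (Function.uncurry fun (t : ℝ) (u : ℝ) =>
      Real.exp (-t * Real.cosh u)) := by
    apply Continuous.stronglyMeasurable
    fun_prop
  exact (h.integral_prod_right (ν := volume.restrict (Ioi (0 : ℝ)))).measurable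

/-! ## 2. The power bound -/

theorem exp_neg_le_rpow627 {x : ℝ} (hx : 0 < x) : Real.exp (-x) ≤ x ^ (-(1 / 4) : ℝ) := by
  rw [Real.rpow_neg hx.le, Real.exp_neg]
  refine inv_anti₀ (Real.rpow_pos_of_pos hx _) ?_
  have h1 : x ^ ((1 : ℝ) / 4) ≤ x + 1 := by
    rcases le_or_gt x 1 with h | h
    · have := Real.rpow_le_one hx.le h (by norm_num : (0 : ℝ) ≤ 1 / 4)
      linarith
    · have := Real.rpow_le_rpow_of_exponent_le h.le (by norm_num : (1 : ℝ) / 4 ≤ 1)
      rw [Real.rpow_one] at this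
      linarith
  exact h1.trans (Real.add_one_le_exp x)

/-- The constant of the power bound. -/
def cK627 : ℝ := 4 * (4 : ℝ) ^ ((1 : ℝ) / 4)

theorem cK627_pos : 0 < cK627 := by
  unfold cK627
  positivity

theorem k0_pointwise627 {t : ℝ} (ht : 0 < t) (u : ℝ) :
    Real.exp (-t * Real.cosh u)
      ≤ Real.exp (-t / 2) * (t ^ (-(1 / 4) : ℝ) * (4 : ℝ) ^ ((1 : ℝ) / 4))
          * Real.exp ((-1 / 4) * u) := by
  have hc1 := Real.one_le_cosh u
  have hc2 := half_exp_le_cosh627 u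
  have hx0 : 0 < t / 4 * Real.exp u := by positivity
  have e1 : -t * Real.cosh u = (-t / 2) * Real.cosh u + -(t / 2 * Real.cosh u) := by ring
  have h1 : Real.exp ((-t / 2) * Real.cosh u) ≤ Real.exp (-t / 2) :=
    Real.exp_le_exp.mpr (by nlinarith)
  have h2 : Real.exp (-(t / 2 * Real.cosh u)) ≤ Real.exp (-(t / 4 * Real.exp u)) :=
    Real.exp_le_exp.mpr (by nlinarith)
  have h3 := exp_neg_le_rpow627 hx0
  have h4 : (t / 4 * Real.exp u) ^ (-(1 / 4) : ℝ)
      = (t ^ (-(1 / 4) : ℝ) * (4 : ℝ) ^ ((1 : ℝ) / 4)) * Real.exp ((-1 / 4) * u) := by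
    rw [Real.mul_rpow (by positivity) (Real.exp_pos u).le, Real.div_rpow ht.le (by norm_num),
      ← Real.exp_mul, Real.rpow_neg (by norm_num : (0 : ℝ) ≤ 4), div_eq_mul_inv, inv_inv]
    congr 2
    ring
  rw [e1, Real.exp_add, mul_assoc]
  refine mul_le_mul h1 ?_ (Real.exp_pos _).le (Real.exp_pos _).le
  rw [← h4]
  exact h2.trans h3

theorem besselK0_le627 {t : ℝ} (ht : 0 < t) :
    besselK0 t ≤ cK627 * (t ^ (-(1 / 4) : ℝ) * Real.exp (-t / 2)) := by
  have hint : IntegrableOn (fun u : ℝ => Real.exp ((-1 / 4) * u)) (Ioi 0) :=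
    integrableOn_exp_mul_Ioi (by norm_num) 0
  have h1 : besselK0 t ≤ ∫ u in Ioi (0 : ℝ),
      Real.exp (-t / 2) * (t ^ (-(1 / 4) : ℝ) * (4 : ℝ) ^ ((1 : ℝ) / 4))
          * Real.exp ((-1 / 4) * u) :=
    setIntegral_mono_on (integrableOn_k0_627 ht) (hint.const_mul _) measurableSet_Ioi
      fun u _ => k0_pointwise627 ht u
  have h2 : ∫ u in Ioi (0 : ℝ), Real.exp ((-1 / 4) * u) = 4 := by
    rw [integral_exp_mul_Ioi (by norm_num) 0]
    norm_num
  rw [integral_const_mul, h2] at h1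
  refine h1.trans (le_of_eq ?_)
  unfold cK627
  ring

theorem besselK0_sq_le627 {t : ℝ} (ht : 0 < t) :
    besselK0 t ^ 2 ≤ cK627 ^ 2 * (Real.exp (-t) * t ^ ((1 / 2 : ℝ) - 1)) := by
  have h0 := besselK0_nonneg627 t
  have h1 := besselK0_le627 ht
  have h2 : besselK0 t ^ 2 ≤ (cK627 * (t ^ (-(1 / 4) : ℝ) * Real.exp (-t / 2))) ^ 2 :=
    pow_le_pow_left₀ h0 h1 2
  refine h2.trans (le_of_eq ?_)
  have e1 : (t ^ (-(1 / 4) : ℝ)) ^ 2 = t ^ ((1 / 2 : ℝ) - 1) := by
    rw [← Real.rpow_natCast, ← Real.rpow_mul ht.le]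
    norm_num
  have e2 : Real.exp (-t / 2) ^ 2 = Real.exp (-t) := by
    rw [sq, ← Real.exp_add]
    ring_nf
  rw [mul_pow, mul_pow, e1, e2]
  ring

/-- The one-variable majorants are integrable. -/
theorem integrableOn_pow_k0_627 {c : ℝ} (hc : 0 < c) (k : ℕ) :
    IntegrableOn (fun x : ℝ => x ^ (2 * k) * besselK0 (c * x) ^ 2) (Ioi 0) := by
  have hs : (0 : ℝ) < 2 * k + 1 / 2 := by positivity
  have hγ : IntegrableOn (fun y : ℝ => Real.exp (-y) * y ^ ((2 * k + 1 / 2 : ℝ) - 1)) (Ioi 0) :=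
    Real.GammaIntegral_convergent hs
  have hγ' : IntegrableOn
      (fun x : ℝ => Real.exp (-(c * x)) * (c * x) ^ ((2 * k + 1 / 2 : ℝ) - 1)) (Ioi 0) := by
    have := (integrableOn_Ioi_comp_mul_left_iff
      (fun y : ℝ => Real.exp (-y) * y ^ ((2 * k + 1 / 2 : ℝ) - 1)) 0 hc).mpr
      (by rwa [mul_zero])
    exact this
  have hmeas : Measurable (fun x : ℝ => x ^ (2 * k) * besselK0 (c * x) ^ 2) :=
    (measurable_id.pow_const _).mul
      ((measurable_besselK0_627.comp (measurable_const_mul c)).pow_const 2)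
  refine Integrable.mono' (hγ'.const_mul (cK627 ^ 2 * (c ^ (2 * k))⁻¹))
    hmeas.aestronglyMeasurable ?_
  refine (ae_restrict_iff' measurableSet_Ioi).mpr (Filter.Eventually.of_forall fun x hx => ?_)
  have hx' : (0 : ℝ) < x := hx
  have hcx : 0 < c * x := mul_pos hc hx'
  have h1 := besselK0_sq_le627 hcx
  have h0 : 0 ≤ x ^ (2 * k) * besselK0 (c * x) ^ 2 := by positivity
  rw [Real.norm_eq_abs, abs_of_nonneg h0]
  have e : (c * x) ^ ((2 * k + 1 / 2 : ℝ) - 1)
      = (c * x) ^ (2 * k) * (c * x) ^ ((1 / 2 : ℝ) - 1) := by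
    rw [← Real.rpow_natCast, ← Real.rpow_add hcx]
    congr 1
    push_cast
    ring
  have hck : (0 : ℝ) < c ^ (2 * k) := by positivity
  calc x ^ (2 * k) * besselK0 (c * x) ^ 2
      ≤ x ^ (2 * k) * (cK627 ^ 2 * (Real.exp (-(c * x)) * (c * x) ^ ((1 / 2 : ℝ) - 1))) :=
        mul_le_mul_of_nonneg_left h1 (by positivity)
    _ = cK627 ^ 2 * (c ^ (2 * k))⁻¹ *
          (Real.exp (-(c * x)) * (c * x) ^ ((2 * k + 1 / 2 : ℝ) - 1)) := by
        rw [e, mul_pow]
        field_simp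

/-! ## 3. Several variables -/

section Multi

variable {ι : Type} [Fintype ι]

/-- The region `r > 0`, `∏ r_i² ≥ T`. -/
def reg627 (T : ℝ) : Set (ι → ℝ) := {r | (∀ i, 0 < r i) ∧ T ≤ ∏ i, r i ^ 2}

/-- The integrand of `archG`. -/
def fW627 (c : ι → ℝ) (r : ι → ℝ) : ℝ := ∏ i, besselK0 (c i * r i) ^ 2 / r i

/-- The product majorant. -/
def gW627 (c : ι → ℝ) (k : ℕ) (r : ι → ℝ) : ℝ :=
  ∏ i, (Ioi (0 : ℝ)).indicator (fun x => x ^ (2 * k) * besselK0 (c i * x) ^ 2) (r i)

theorem reg_anti627 {T T' : ℝ} (h : T ≤ T') : reg627 (ι := ι) T' ⊆ reg627 T :=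
  fun _ hr => ⟨hr.1, h.trans hr.2⟩

theorem measurableSet_reg627 (T : ℝ) : MeasurableSet (reg627 (ι := ι) T) := by
  have h1 : MeasurableSet {r : ι → ℝ | ∀ i, 0 < r i} := by
    have : {r : ι → ℝ | ∀ i, 0 < r i} = ⋂ i, {r | 0 < r i} := by
      ext r
      simp
    rw [this]
    exact MeasurableSet.iInter fun i => measurableSet_lt measurable_const (measurable_pi_apply i)
  have h2 : MeasurableSet {r : ι → ℝ | T ≤ ∏ i, r i ^ 2} :=
    measurableSet_le measurable_const
      (Finset.measurable_prod _ fun i _ => (measurable_pi_apply i).pow_const 2)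
  exact h1.inter h2

theorem measurable_fW627 (c : ι → ℝ) : Measurable (fW627 c) := by
  refine Finset.measurable_prod _ fun i _ => ?_
  have h : Measurable fun r : ι → ℝ => c i * r i :=
    Measurable.const_mul (f := fun r : ι → ℝ => r i) (measurable_pi_apply i) (c i)
  exact ((measurable_besselK0_627.comp h).pow_const 2).div (measurable_pi_apply i)

theorem integrable_gW627 {c : ι → ℝ} (hc : ∀ i, 0 < c i) (k : ℕ) :
    Integrable (gW627 c k) (volume : Measure (ι → ℝ)) :=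
  Integrable.fintype_prod (μ := fun _ : ι => (volume : Measure ℝ))
    (f := fun i x => (Ioi (0 : ℝ)).indicator
      (fun x => x ^ (2 * k) * besselK0 (c i * x) ^ 2) x)
    (fun i => (integrable_indicator_iff measurableSet_Ioi).mpr
      (integrableOn_pow_k0_627 (hc i) k))

theorem gW_nonneg627 (c : ι → ℝ) (k : ℕ) (r : ι → ℝ) : 0 ≤ gW627 c k r :=
  Finset.prod_nonneg fun _ _ => Set.indicator_nonneg
    (fun x hx => mul_nonneg (pow_nonneg (le_of_lt (show (0 : ℝ) < x from hx)) _)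
      (sq_nonneg _)) _

theorem fW_le627 (c : ι → ℝ) {T : ℝ} (hT : 0 < T) (k : ℕ) {r : ι → ℝ} (hr : r ∈ reg627 T) :
    0 ≤ fW627 c r ∧ fW627 c r ≤ (Real.sqrt T)⁻¹ ^ (2 * k + 1) * gW627 c k r := by
  obtain ⟨hpos, hT'⟩ := hr
  have hP0 : 0 < ∏ i, r i := Finset.prod_pos fun i _ => hpos i
  have hQ0 : 0 ≤ ∏ i, besselK0 (c i * r i) ^ 2 := Finset.prod_nonneg fun i _ => sq_nonneg _
  have e1 : fW627 c r = (∏ i, besselK0 (c i * r i) ^ 2) / ∏ i, r i := by
    unfold fW627
    rw [Finset.prod_div_distrib]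
  have e2 : gW627 c k r = (∏ i, r i) ^ (2 * k) * ∏ i, besselK0 (c i * r i) ^ 2 := by
    unfold gW627
    rw [← Finset.prod_pow, ← Finset.prod_mul_distrib]
    refine Finset.prod_congr rfl fun i _ => ?_
    rw [Set.indicator_of_mem (show r i ∈ Ioi 0 from hpos i)]
  have hPT : Real.sqrt T ≤ ∏ i, r i := by
    have : T ≤ (∏ i, r i) ^ 2 := by
      rw [← Finset.prod_pow]
      exact hT'
    exact Real.sqrt_le_iff.mpr ⟨hP0.le, this⟩
  have hs : 0 < Real.sqrt T := Real.sqrt_pos.mpr hT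
  refine ⟨by rw [e1]; positivity, ?_⟩
  rw [e1, e2]
  have h1 : (∏ i, r i)⁻¹ ^ (2 * k + 1) ≤ (Real.sqrt T)⁻¹ ^ (2 * k + 1) :=
    pow_le_pow_left₀ (inv_nonneg.mpr hP0.le) (inv_anti₀ hs hPT) _
  have e3 : (∏ i, besselK0 (c i * r i) ^ 2) / ∏ i, r i
      = (∏ i, r i)⁻¹ ^ (2 * k + 1) * ((∏ i, r i) ^ (2 * k) * ∏ i, besselK0 (c i * r i) ^ 2) := by
    have hne : (∏ i, r i) ≠ 0 := hP0.ne'
    rw [inv_pow, pow_succ]
    field_simp
  rw [e3]
  exact mul_le_mul_of_nonneg_right h1 (by positivity)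

theorem integrableOn_fW627 {c : ι → ℝ} (hc : ∀ i, 0 < c i) {T : ℝ} (hT : 0 < T) :
    IntegrableOn (fW627 c) (reg627 T) := by
  refine Integrable.mono'
    ((integrable_gW627 hc 0).const_mul ((Real.sqrt T)⁻¹ ^ (2 * 0 + 1))).integrableOn
    (measurable_fW627 c).aestronglyMeasurable ?_
  refine (ae_restrict_iff' (measurableSet_reg627 T)).mpr
    (Filter.Eventually.of_forall fun r hr => ?_)
  obtain ⟨h0, h1⟩ := fW_le627 c hT 0 hr
  rw [Real.norm_eq_abs, abs_of_nonneg h0]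
  exact h1

theorem fW_nonneg_ae627 (c : ι → ℝ) {T : ℝ} (hT : 0 < T) :
    0 ≤ᵐ[(volume : Measure (ι → ℝ)).restrict (reg627 T)] fW627 c :=
  (ae_restrict_iff' (measurableSet_reg627 T)).mpr
    (Filter.Eventually.of_forall fun _ hr => (fW_le627 c hT 0 hr).1)

theorem archW_le627 {c : ι → ℝ} (hc : ∀ i, 0 < c i) (k : ℕ) {T : ℝ} (hT : 0 < T) :
    ∫ r in reg627 T, fW627 c r ≤ (Real.sqrt T)⁻¹ ^ (2 * k + 1) * ∫ r, gW627 c k r := by
  have hg := (integrable_gW627 hc k).const_mul ((Real.sqrt T)⁻¹ ^ (2 * k + 1))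
  calc ∫ r in reg627 T, fW627 c r
      ≤ ∫ r in reg627 T, (Real.sqrt T)⁻¹ ^ (2 * k + 1) * gW627 c k r :=
        setIntegral_mono_on (integrableOn_fW627 hc hT) hg.integrableOn
          (measurableSet_reg627 T) fun r hr => (fW_le627 c hT k hr).2
    _ ≤ ∫ r, (Real.sqrt T)⁻¹ ^ (2 * k + 1) * gW627 c k r :=
        setIntegral_le_integral hg (Filter.Eventually.of_forall fun r =>
          mul_nonneg (by positivity) (gW_nonneg627 c k r))
    _ = (Real.sqrt T)⁻¹ ^ (2 * k + 1) * ∫ r, gW627 c k r := integral_const_mul _ _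

theorem archW_nonneg627 (c : ι → ℝ) {T : ℝ} (hT : 0 < T) : 0 ≤ ∫ r in reg627 T, fW627 c r :=
  setIntegral_nonneg (measurableSet_reg627 T) fun _ hr => (fW_le627 c hT 0 hr).1

theorem archW_anti627 {c : ι → ℝ} (hc : ∀ i, 0 < c i) {T T' : ℝ} (hT : 0 < T) (h : T ≤ T') :
    ∫ r in reg627 T', fW627 c r ≤ ∫ r in reg627 T, fW627 c r :=
  setIntegral_mono_set (integrableOn_fW627 hc hT) (fW_nonneg_ae627 c hT)
    (Filter.Eventually.of_forall (reg_anti627 h))

theorem archW_pos627 {c : ι → ℝ} (hc : ∀ i, 0 < c i) :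
    0 < ∫ r in reg627 (1 : ℝ), fW627 c r := by
  have hbox : Icc (fun _ : ι => (1 : ℝ)) (fun _ => 2) ⊆ reg627 1 := by
    intro r hr
    refine ⟨fun i => lt_of_lt_of_le one_pos (hr.1 i), ?_⟩
    calc (1 : ℝ) = ∏ _i : ι, (1 : ℝ) := by simp
      _ ≤ ∏ i, r i ^ 2 := Finset.prod_le_prod (fun _ _ => zero_le_one) fun i _ => by
          have := hr.1 i
          simp only at this
          nlinarith
  have hm : ∀ r ∈ Icc (fun _ : ι => (1 : ℝ)) (fun _ => 2),
      ∏ i, besselK0 (c i * 2) ^ 2 / 2 ≤ fW627 c r := by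
    intro r hr
    refine Finset.prod_le_prod (fun i _ => by positivity) fun i _ => ?_
    have h1 : (1 : ℝ) ≤ r i := hr.1 i
    have h2 : r i ≤ 2 := hr.2 i
    have h3 : besselK0 (c i * 2) ≤ besselK0 (c i * r i) :=
      besselK0_anti627 (show c i * r i ∈ Ioi (0 : ℝ) from mul_pos (hc i) (by linarith))
        (show c i * 2 ∈ Ioi (0 : ℝ) from mul_pos (hc i) two_pos)
        (mul_le_mul_of_nonneg_left h2 (hc i).le)
    have h4 : besselK0 (c i * 2) ^ 2 ≤ besselK0 (c i * r i) ^ 2 :=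
      pow_le_pow_left₀ (besselK0_nonneg627 _) h3 2
    have h5 : 0 ≤ besselK0 (c i * 2) ^ 2 := sq_nonneg _
    rw [div_le_div_iff₀ two_pos (by linarith)]
    nlinarith
  have hmpos : 0 < ∏ i, besselK0 (c i * 2) ^ 2 / 2 :=
    Finset.prod_pos fun i _ => by
      have := besselK0_pos627 (mul_pos (hc i) two_pos)
      positivity
  have hvol : (volume : Measure (ι → ℝ)).real (Icc (fun _ : ι => (1 : ℝ)) (fun _ => 2)) = 1 := by
    rw [Measure.real, Real.volume_Icc_pi_toReal (fun _ => by norm_num)]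
    norm_num
  have hfin : (volume : Measure (ι → ℝ)) (Icc (fun _ : ι => (1 : ℝ)) (fun _ => 2)) ≠ ⊤ := by
    rw [Real.volume_Icc_pi]
    exact ENNReal.prod_ne_top fun _ _ => ENNReal.ofReal_ne_top
  have h1 : (∏ i, besselK0 (c i * 2) ^ 2 / 2)
        * (volume : Measure (ι → ℝ)).real (Icc (fun _ : ι => (1 : ℝ)) (fun _ => 2))
      ≤ ∫ r in Icc (fun _ : ι => (1 : ℝ)) (fun _ => 2), fW627 c r :=
    setIntegral_ge_of_const_le_real measurableSet_Icc hfin hm
      ((integrableOn_fW627 hc one_pos).mono_set hbox)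
  have h2 : ∫ r in Icc (fun _ : ι => (1 : ℝ)) (fun _ => 2), fW627 c r
      ≤ ∫ r in reg627 (1 : ℝ), fW627 c r :=
    setIntegral_mono_set (integrableOn_fW627 hc one_pos) (fW_nonneg_ae627 c one_pos)
      (Filter.Eventually.of_forall hbox)
  rw [hvol, mul_one] at h1
  exact lt_of_lt_of_le hmpos (h1.trans h2)

theorem inv_sqrt_div627 {T t₀ : ℝ} (hT : 0 < T) (_ht₀ : 0 < t₀) :
    (Real.sqrt (T / t₀))⁻¹ = Real.sqrt t₀ * T ^ (-(1 / 2) : ℝ) := by
  rw [Real.sqrt_div hT.le, inv_div, Real.rpow_neg hT.le, ← Real.sqrt_eq_rpow, div_eq_mul_inv]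

/-- **The weight**, for an abstract finite index set. -/
theorem isWeight_archW627 {c : ι → ℝ} (hc : ∀ i, 0 < c i) {t₀ : ℝ} (ht₀ : 0 < t₀) :
    IsWeight (fun T => ∫ r in reg627 (T / t₀), fW627 c r) := by
  have hanti : AntitoneOn (fun T => ∫ r in reg627 (T / t₀), fW627 c r) (Ioi 0) := by
    intro T hT T' _ h
    exact archW_anti627 hc (div_pos hT ht₀) (div_le_div_of_nonneg_right h ht₀.le)
  refine ⟨fun T hT => archW_nonneg627 c (div_pos hT ht₀), hanti, ⟨t₀, ht₀, ?_⟩, ?_, ?_⟩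
  · show 0 < ∫ r in reg627 (t₀ / t₀), fW627 c r
    rw [div_self ht₀.ne']
    exact archW_pos627 hc
  · -- integrability near `0`
    have hM : IntegrableOn
        (fun T : ℝ => (Real.sqrt t₀ * ∫ r, gW627 c 0 r) * T ^ (-(1 / 2) : ℝ)) (Ioc 0 1) :=
      (intervalIntegrable_iff_integrableOn_Ioc_of_le zero_le_one).mp
        ((intervalIntegral.intervalIntegrable_rpow' (by norm_num)).const_mul _)
    refine Integrable.mono' hM
      (aemeasurable_restrict_of_antitoneOn measurableSet_Ioc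
        (hanti.mono Ioc_subset_Ioi_self)).aestronglyMeasurable ?_
    refine (ae_restrict_iff' measurableSet_Ioc).mpr (Filter.Eventually.of_forall fun T hT => ?_)
    have hT0 : 0 < T := hT.1
    rw [Real.norm_eq_abs, abs_of_nonneg (archW_nonneg627 c (div_pos hT0 ht₀))]
    have h := archW_le627 hc 0 (div_pos hT0 ht₀)
    rw [mul_zero, zero_add, pow_one, inv_sqrt_div627 hT0 ht₀] at h
    refine h.trans (le_of_eq ?_)
    ring
  · -- decay
    refine ⟨Real.sqrt t₀ ^ 3 * ∫ r, gW627 c 1 r, 1 / 2, by norm_num, fun T hT => ?_⟩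
    have hT0 : 0 < T := lt_of_lt_of_le one_pos hT
    have h := archW_le627 hc 1 (div_pos hT0 ht₀)
    rw [inv_sqrt_div627 hT0 ht₀] at h
    refine h.trans (le_of_eq ?_)
    have e : (T ^ (-(1 / 2) : ℝ)) ^ 3 = T ^ (-(1 + 1 / 2) : ℝ) := by
      rw [← Real.rpow_natCast, ← Real.rpow_mul hT0.le]
      norm_num
    rw [show 2 * 1 + 1 = 3 from rfl, mul_pow, e]
    ring

end Multi

/-! ## 4. The leaf -/

theorem archG_eq627 {K : Type} [Field K] [NumberField K] (hK : TotCplx K)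
    (c : InfinitePlace K → ℝ) (T : ℝ) : archG c T = ∫ r in reg627 T, fW627 c r := by
  have hm : ∀ w : InfinitePlace K, w.mult = 2 := fun w => by
    rw [InfinitePlace.mult, if_neg (InfinitePlace.not_isReal_iff_isComplex.mpr (hK w))]
  have hset : {r : InfinitePlace K → ℝ |
      (∀ w, 0 < r w) ∧ T ≤ ∏ w : InfinitePlace K, r w ^ w.mult} = reg627 T := by
    ext r
    simp only [reg627, Set.mem_ofPred_eq, hm]
  unfold archG
  rw [hset]
  rfl

/-- **T7.14.6d `WeightC`**, VERBATIM, for every number field. -/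
theorem weightC627 (K : Type) [Field K] [NumberField K] : WeightC K := by
  intro hK c t₀ hc ht₀
  have h := isWeight_archW627 hc ht₀
  have e : (fun T => archG c (T / t₀)) = fun T => ∫ r in reg627 (T / t₀), fW627 c r :=
    funext fun T => archG_eq627 hK c (T / t₀)
  rw [e]
  exact h


end Fermat.Agent.LT.T7.H627

end

end
-- ===== PACK-END LT/T7/H627/Weight.lean

-- ===== PACK-BEGIN LT/T7/H941/WhitLocal.lean
section



/-!
# Row LT, tower T7, node T7.14.6b `WhitFormC`: the UNRAMIFIED local factor, explicit (helper941)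

OFF-MAIN.  ASSET for the owner of `Rigid.WhitFormC` (helper62, `LT/T7/H62/RigidStrip.lean`,
sha256 9f2a8c042828): the closed leaf T2.10.07 (`UnramTorusC`, helper255) in the vocabulary of
`RigidStrip.lean`, with the EXPLICIT factor `Rigid.locFactor`.

* `whit_eq_wh941`, `dgA_eq_tor941` : `Rigid.whit = T2.H941.wh`, `Rigid.dgA = T2.H941.tor` (`rfl`).
* `lamPair_eq941` : the recursion `q λ_{m+1} = √q a λ_m - λ_{m-1}`, `λ_0 = 1`, `λ_{-1} = 0` of
  helper255 (`b = 1`) is solved by `λ_m = q^{-m/2} s_m(a)`, `s_m = Rigid.hpoly a m`.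
* `lam255_eq_locFactor941` : `lam255 v 0 a 1 n = Rigid.locFactor v a (-n)`.
* `wh_unram941` : at a place `v` where `ψ` has conductor exponent `0`, for a bounded continuous
  left invariant `Φ` which is `GL₂(𝒪_v)`-invariant and a Hecke eigenfunction with eigenvalues
  `(a, 1)`: `W_Φ(diag(y,1) g) = locFactor v a (ord_v y) · W_Φ(g)` for `y` supported at `v` and `g`
  trivial at `v`.
* `whit_unram941` : the same in the vocabulary of `RigidStrip.lean`.
* `isCondExp_zero_of_unramOutside941`, `isWhitData_of941` : the hypotheses of `WhitFormC` give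
  `IsWhitData` and the conductor exponent `0` outside `S`.
-/

set_option autoImplicit false

open IsDedekindDomain NumberField MeasureTheory AutomorphicForm
open IsDedekindDomain.HeightOneSpectrum
open Fermat.Agent.LT.H556.A0
open scoped ComplexConjugate

noncomputable section

namespace Fermat.Agent.LT.T7.H941

open Fermat.Agent.LT Fermat.Agent.LT.T2.H941 Fermat.Agent.LT.T2.H255 Fermat.Agent.LT.T7

variable {K : Type} [Field K] [NumberField K]

/-! ## 1. The two vocabularies -/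

theorem whit_eq_wh941 {m : MeasurableSpace (Adl K)} (ψ : AddChar (Adl K) Circle)
    (ν : Measure (Adl K)) (D : Set (Adl K)) (φ : G K → ℂ) (g : G K) :
    Rigid.whit ψ ν D φ g = wh ψ ν D φ g := rfl

theorem dgA_eq_tor941 (y : (Adl K)ˣ) : Rigid.dgA y = tor y := rfl

/-! ## 2. The recursion is solved by the Hecke polynomials -/

/-- The recursion of helper255 for `b = 1`, `q = s²`: `λ_m = s^{-m} s_m(a)`. -/
theorem lamPair_eq941 {q s : ℂ} (hq : q = s * s) (hs : s ≠ 0) (a : ℂ) (m : ℕ) :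
    (lamPair255 q s a 1 (m + 1)).1 = (s⁻¹) ^ (m + 1) * Rigid.hpoly a (m + 1) ∧
      (lamPair255 q s a 1 m).1 = (s⁻¹) ^ m * Rigid.hpoly a m := by
  induction m with
  | zero =>
    refine ⟨?_, ?_⟩
    · simp only [lamPair255, Rigid.hpoly, zero_add, pow_one, mul_one, mul_zero, sub_zero]
      rw [hq]
      field_simp
    · simp [lamPair255, Rigid.hpoly]
  | succ m ih =>
    refine ⟨?_, ih.1⟩
    have h1 : (lamPair255 q s a 1 (m + 1 + 1)).1
        = (s * a * (lamPair255 q s a 1 (m + 1)).1 - 1 * (lamPair255 q s a 1 m).1) / q := rfl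
    have h2 : Rigid.hpoly a (m + 1 + 1) = a * Rigid.hpoly a (m + 1) - Rigid.hpoly a m := rfl
    rw [h1, ih.1, ih.2, h2, hq]
    generalize Rigid.hpoly a (m + 1) = H1
    generalize Rigid.hpoly a m = H0
    have hst : s * s⁻¹ = 1 := mul_inv_cancel₀ hs
    rw [div_eq_mul_inv, mul_inv]
    linear_combination (a * s⁻¹ ^ (m + 2) * H1) * hst

theorem lamPair_fst941 {q s : ℂ} (hq : q = s * s) (hs : s ≠ 0) (a : ℂ) (m : ℕ) :
    (lamPair255 q s a 1 m).1 = (s⁻¹) ^ m * Rigid.hpoly a m :=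
  (lamPair_eq941 hq hs a m).2

/-- `N v ^ (-m/2) = (√(N v))⁻¹ ^ m`. -/
theorem rpow_neg_half941 (v : HeightOneSpectrum (𝓞 K)) (m : ℕ) :
    (((Rigid.nv v ^ (-((m : ℤ) : ℝ) / 2) : ℝ) : ℝ) : ℂ)
      = (((Real.sqrt (Ideal.absNorm v.asIdeal : ℝ) : ℝ) : ℂ)⁻¹) ^ m := by
  have hpos : (0 : ℝ) < (Ideal.absNorm v.asIdeal : ℝ) := by
    have h := NumberField.HeightOneSpectrum.one_lt_absNorm v
    exact_mod_cast (by omega : 0 < Ideal.absNorm v.asIdeal)
  have h1 : Rigid.nv v ^ (-((m : ℤ) : ℝ) / 2)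
      = ((Real.sqrt (Ideal.absNorm v.asIdeal : ℝ))⁻¹) ^ m := by
    unfold Rigid.nv
    rw [Real.sqrt_eq_rpow, ← Real.rpow_neg hpos.le, ← Real.rpow_natCast,
      ← Real.rpow_mul hpos.le]
    congr 1
    push_cast
    ring
  rw [h1]
  push_cast
  rfl

/-- The factor of helper255 for the conductor exponent `0` and `b = 1` is the local factor of
`RigidStrip.lean`. -/
theorem lam255_eq_locFactor941 (v : HeightOneSpectrum (𝓞 K)) (a : ℂ) (n : ℤ) :
    lam255 v 0 a 1 n = Rigid.locFactor v a (-n) := by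
  have hs : ((Real.sqrt (Ideal.absNorm v.asIdeal : ℝ) : ℝ) : ℂ) ≠ 0 := by
    have hpos : (0 : ℝ) < (Ideal.absNorm v.asIdeal : ℝ) := by
      have h := NumberField.HeightOneSpectrum.one_lt_absNorm v
      exact_mod_cast (by omega : 0 < Ideal.absNorm v.asIdeal)
    exact_mod_cast (Real.sqrt_pos.mpr hpos).ne'
  have hq : (Ideal.absNorm v.asIdeal : ℂ)
      = ((Real.sqrt (Ideal.absNorm v.asIdeal : ℝ) : ℝ) : ℂ)
        * ((Real.sqrt (Ideal.absNorm v.asIdeal : ℝ) : ℝ) : ℂ) := by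
    rw [← Complex.ofReal_mul, Real.mul_self_sqrt (Nat.cast_nonneg _)]
    simp
  unfold lam255 Rigid.locFactor
  by_cases hn : n ≤ 0
  · have hn' : (0 : ℤ) ≤ -n := by omega
    rw [if_pos hn, if_pos hn', lamPair_fst941 hq hs, zero_sub]
    congr 1
    have e : ((-n : ℤ) : ℝ) = (((-n).toNat : ℤ) : ℝ) := by
      rw [Int.toNat_of_nonneg hn']
    rw [e, rpow_neg_half941]
  · have hn' : ¬ (0 : ℤ) ≤ -n := by omega
    rw [if_neg hn, if_neg hn']

/-! ## 3. The hypotheses of `WhitFormC` -/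

/-- Outside `S` the conductor exponent is `0`. -/
theorem isCondExp_zero_of_unramOutside941 {ψ : AddChar (Adl K) Circle}
    {S : Finset (HeightOneSpectrum (𝓞 K))} (h : Rigid.IsUnramOutside ψ S)
    {v : HeightOneSpectrum (𝓞 K)} (hv : v ∉ S) : IsCondExp ψ v 0 := by
  obtain ⟨h1, x, hx, hxv, hne⟩ := h v hv
  refine ⟨fun x hx hle => h1 x hx ?_, x, hx, by rw [zero_add]; exact hxv, hne⟩
  rw [mem_adicCompletionIntegers]
  rwa [WithZero.exp_zero] at hle

/-- The additive data of `WhitFormC` are Whittaker data. -/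
theorem isWhitData_of941 {m : MeasurableSpace (Adl K)} {ψ : AddChar (Adl K) Circle}
    (hstd : T3.IsStdChar K ψ) (hnd : T3.IsNonDeg K ψ)
    {S : Finset (HeightOneSpectrum (𝓞 K))} (hS : Rigid.IsUnramOutside ψ S)
    {ν : Measure (Adl K)} {D : Set (Adl K)} (hν : ν.IsAddHaarMeasure) (hD : MeasurableSet D)
    (hF : IsAddFundamentalDomain ((algebraMap K (Adl K)).toAddMonoidHom.range) D ν)
    (hfin : ν D < ⊤) : IsWhitData ψ ν D :=
  ⟨hstd, hnd, ⟨S, hS⟩, hν, hD, hF, hfin⟩

/-! ## 4. The unramified factor -/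

attribute [local instance] borelAdl255 borelSpaceAdl255

/-- **The recursion of helper255 with its explicit solution**: for a conductor exponent `d`,
`W_Φ(diag(y,1) g) = lam255 v d a b (log |y|_v) · W_Φ(diag(y₀,1) g)`. -/
theorem wh_lam941 {ψ : AddChar (Adl K) Circle} {ν : Measure (Adl K)} {D : Set (Adl K)}
    (hW : IsWhitData ψ ν D) {v : HeightOneSpectrum (𝓞 K)} {d : ℤ} (hd : IsCondExp ψ v d)
    {Φ : G K → ℂ} (hc : Continuous Φ) (hb : ∃ C : ℝ, ∀ g : G K, ‖Φ g‖ ≤ C)
    (hl : ∀ (γ : GL (Fin 2) K) (g : G K), Φ (T1.ratG K γ * g) = Φ g)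
    (hK : IsKv v Φ) {ae be : ℂ} (hE : IsHeckeEigenAt Φ v ae be)
    {y y₀ : (Adl K)ˣ} (hy : IsIdeleAtFin v y) (hy₀ : IsIdeleAtFin v y₀)
    (hv₀ : Valued.v ((y₀ : Adl K).2 v) = WithZero.exp d) {g : G K} (hg : TrivAtFin v g) :
    wh ψ ν D Φ (tor y * g)
      = lam255 v d ae be (WithZero.log (Valued.v ((y : Adl K).2 v)))
        * wh ψ ν D Φ (tor y₀ * g) := by
  rw [tor_eq_tv255 v hy, tor_eq_tv255 v hy₀]
  have hy0 := idele_comp_ne_zero255 v y
  have hy₀0 := idele_comp_ne_zero255 v y₀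
  have hvy : Valued.v ((y : Adl K).2 v) ≠ 0 := (Valuation.ne_zero_iff _).mpr hy0
  have hexp : Valued.v ((y : Adl K).2 v)
      = WithZero.exp (WithZero.log (Valued.v ((y : Adl K).2 v))) :=
    (WithZero.exp_log hvy).symm
  by_cases hn : WithZero.log (Valued.v ((y : Adl K).2 v)) ≤ d
  · have hrec := (wv_rec255 hW hc hb hl hK hg hd hE hy₀0 hv₀
      (d - WithZero.log (Valued.v ((y : Adl K).2 v))).toNat _ hy0).1 (by
        conv_lhs => rw [hexp]
        congr 1
        rw [Int.toNat_of_nonneg (by omega)]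
        ring)
    rw [hrec]
    simp only [lam255, if_pos hn]
  · have hlt : WithZero.exp d < Valued.v ((y : Adl K).2 v) := by
      rw [hexp, WithZero.exp_lt_exp]
      omega
    rw [wv_vanish255 hW hl hK hg hd hy0 hlt]
    simp only [lam255, if_neg hn, zero_mul]

/-- **THE UNRAMIFIED LOCAL FACTOR**, in the vocabulary of T2.10. -/
theorem wh_unram941 {ψ : AddChar (Adl K) Circle} {ν : Measure (Adl K)} {D : Set (Adl K)}
    (hW : IsWhitData ψ ν D) {v : HeightOneSpectrum (𝓞 K)} (hd : IsCondExp ψ v 0)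
    {Φ : G K → ℂ} (hc : Continuous Φ) (hb : ∃ C : ℝ, ∀ g : G K, ‖Φ g‖ ≤ C)
    (hl : ∀ (γ : GL (Fin 2) K) (g : G K), Φ (T1.ratG K γ * g) = Φ g)
    (hK : IsKv v Φ) {a : ℂ} (hE : IsHeckeEigenAt Φ v a 1)
    {y : (Adl K)ˣ} (hy : IsIdeleAtFin v y) {g : G K} (hg : TrivAtFin v g) :
    wh ψ ν D Φ (tor y * g) = Rigid.locFactor v a (Rigid.ordI v y) * wh ψ ν D Φ g := by
  have h1 : IsIdeleAtFin v (1 : (Adl K)ˣ) :=
    ⟨fun w => rfl, fun v' _ => rfl⟩
  have hv1 : Valued.v (((1 : (Adl K)ˣ) : Adl K).2 v) = WithZero.exp (0 : ℤ) := by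
    rw [WithZero.exp_zero]
    exact map_one _
  have htor1 : tor (1 : (Adl K)ˣ) = 1 := by
    apply Units.ext
    ext i j
    fin_cases i <;> fin_cases j <;> simp [tor]
  have h := wh_lam941 hW hd hc hb hl hK hE hy h1 hv1 hg
  rw [htor1, one_mul, lam255_eq_locFactor941] at h
  exact h

/-- **THE UNRAMIFIED LOCAL FACTOR**, in the vocabulary of `RigidStrip.lean`. -/
theorem whit_unram941 {ψ : AddChar (Adl K) Circle} {ν : Measure (Adl K)} {D : Set (Adl K)}
    (hW : IsWhitData ψ ν D) {v : HeightOneSpectrum (𝓞 K)} (hd : IsCondExp ψ v 0)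
    {Φ : G K → ℂ} (hc : Continuous Φ) (hb : ∃ C : ℝ, ∀ g : G K, ‖Φ g‖ ≤ C)
    (hl : ∀ (γ : GL (Fin 2) K) (g : G K), Φ (T1.ratG K γ * g) = Φ g)
    (hK : IsKv v Φ) {a : ℂ} (hE : IsHeckeEigenAt Φ v a 1)
    {y : (Adl K)ˣ} (hy : IsIdeleAtFin v y) {g : G K} (hg : TrivAtFin v g) :
    Rigid.whit ψ ν D Φ (Rigid.dgA y * g)
      = Rigid.locFactor v a (Rigid.ordI v y) * Rigid.whit ψ ν D Φ g :=
  wh_unram941 hW hd hc hb hl hK hE hy hg

end Fermat.Agent.LT.T7.H941

end

end
-- ===== PACK-END LT/T7/H941/WhitLocal.lean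

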