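import Mathlib
import Fermat.Agent.Pack.LT2.E14L3
import Fermat.Agent.Pack.LT2.E14L0
import Fermat.Agent.Pack.LT2.E14L1
import Fermat.Agent.Pack.LT2.E4L1
import Fermat.Agent.Pack.LT2.E11L0
import Fermat.Agent.Pack.LT2.E2L0
import Fermat.Agent.Pack.LT2.E0L3
import Fermat.Agent.Pack.LT2.E0L2
import Fermat.Agent.Pack.LT2.E2L1
import Fermat.Agent.Pack.LT2.E5L3
import Fermat.Agent.Pack.LT2.E6L1
import Fermat.Agent.Pack.LT2.E8L2
import Fermat.Agent.Pack.LT2.E10L0
import Fermat.Agent.Pack.LT2.E13L1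
import Fermat.Agent.Pack.LT2.E11L3
import Fermat.Agent.Pack.LT2.E15L3
import Fermat.Agent.Pack.LT2.E13L3
import Fermat.Agent.Pack.LT2.E15L0

set_option linter.all false

-- ===== PACK-BEGIN LT/A2/H112/Core.lean
section


/-!
# Row LT, tower A2, leaf A2.09 `ExpC` (helper112) -- part 4: the analytic core

OFF-MAIN.  For an admissible pair `(g, m_g)` and `ξ ∈ K²`:

    h(m, ξ) = F g (m m_g) ξ · χT(m m_g),        I(ξ) = ∫_{DT} h(m, ξ) dm.

* `hasSum_Ifun112`: `∑_ξ I(ξ) = φ(g)` (dominated convergence on the relatively compact `DT`);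
* `Ifun_zero112`: `I(0) = 0` (`χT` is not trivial on `T¹`);
* `integral_hfun_eq_tsum112`: `∫_{T¹(𝔸)} h(m, ξ₀) dm = ∑_{γ ∈ T¹(K)} I(γ ξ₀)` for `ξ₀ ≠ 0` (unfolding).
-/

set_option autoImplicit false
set_option linter.unusedSectionVars false

open IsDedekindDomain NumberField AutomorphicForm MeasureTheory
open scoped MatrixGroups Pointwise

noncomputable section

namespace Fermat.Agent.LT.A2.H112

open Fermat.Agent.LT.H130 Fermat.Agent.LT.H556 Fermat.Agent.LT.A2

variable {K : Type} [Field K] [NumberField K]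

attribute [local instance] measG112 borelG112

/-- The integrand `h(m, ξ) = F g (m m_g) ξ · χT(m m_g)`. -/
def hfun (D : KData K) (g mg : A0.G K) (m : A0.G K) (ξ : K × K) : ℂ :=
  D.F g (m * mg) (ratV ξ) * D.χT (m * mg)

/-- `I(ξ) = ∫_{DT} h(m, ξ) dm`. -/
def Ifun (D : KData K) (g mg : A0.G K) (ξ : K × K) : ℂ :=
  ∫ m in D.DT, hfun D g mg m ξ ∂D.μT

variable (D : KData K) {g mg : A0.G K}

theorem norm_chi112 (hT : IsTorusChar D.t D.n D.χT) {m : A0.G K} (hm : InTorus D.t D.n m) :
    ‖D.χT m‖ = 1 := by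
  obtain ⟨k, hk, hpow⟩ := hT.fin_order
  exact Complex.norm_eq_one_of_pow_eq_one (hpow m hm) hk.ne'

theorem exists_bound112 (hG : D.Good) (hadm : Adm D.t D.n g mg) :
    ∃ b : K × K → ℝ, Summable b ∧ (∀ ξ, 0 ≤ b ξ) ∧
      ∀ m ∈ D.DT, ∀ ξ, ‖hfun D g mg m ξ‖ ≤ b ξ := by
  obtain ⟨C₀, hC₀, hsub⟩ := hG.measured.dom_compact
  have hcont : Continuous (fun m : A0.G K => ((g, m * mg) : A0.G K × A0.G K)) :=
    continuous_const.prodMk (continuous_mul_const mg)
  obtain ⟨b, hb, hbound⟩ := hG.regular.loc_summable _ (hC₀.image hcont)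
  refine ⟨fun ξ => |b ξ|, hb.abs, fun ξ => abs_nonneg _, ?_⟩
  intro m hm ξ
  have hmT : InTorus1 D.t D.n m := hG.measured.dom_sub m hm
  have hadm' : Adm D.t D.n g (m * mg) := adm_torus1_mul112 hadm hmT
  have h1 := hbound ξ (g, m * mg) ⟨m, hsub hm, rfl⟩ hadm'
  have h2 : ‖hfun D g mg m ξ‖ = ‖D.F g (m * mg) (ratV ξ)‖ := by
    rw [hfun, norm_mul, norm_chi112 D hG.torus hadm'.1, mul_one]
  rw [h2]
  exact h1.trans (le_abs_self _)

theorem continuousOn_hfun112 (hG : D.Good) (hadm : Adm D.t D.n g mg) (ξ : K × K) :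
    ContinuousOn (fun m => hfun D g mg m ξ) {m | InTorus1 D.t D.n m} := by
  have hcont : Continuous (fun m : A0.G K => ((g, m * mg) : A0.G K × A0.G K)) :=
    continuous_const.prodMk (continuous_mul_const mg)
  have h1 : ContinuousOn (fun m : A0.G K => D.F g (m * mg) (ratV ξ))
      {m | InTorus1 D.t D.n m} := by
    have := (hG.regular.cont_pair (ratV ξ)).comp hcont.continuousOn
      (s := {m | InTorus1 D.t D.n m}) (fun m hm => adm_torus1_mul112 hadm hm)
    exact this
  have h2 : ContinuousOn (fun m : A0.G K => D.χT (m * mg)) {m | InTorus1 D.t D.n m} := by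
    have := hG.torus.cont.comp (continuous_mul_const mg).continuousOn
      (s := {m | InTorus1 D.t D.n m}) (fun m hm => (adm_torus1_mul112 hadm hm).1)
    exact this
  exact h1.mul h2

theorem hfun_smul112 (hG : D.Good) (hadm : Adm D.t D.n g mg) (γ : gammaT D.t D.n)
    {m : A0.G K} (hm : InTorus1 D.t D.n m) (ξ : K × K) :
    hfun D g mg (γ⁻¹ • m) ξ = hfun D g mg m (mulK D.t D.n (coordK γ) ξ) := by
  have hadm' : Adm D.t D.n g (m * mg) := adm_torus1_mul112 hadm hm
  have hγ : InTorus1 D.t D.n ((γ⁻¹ : gammaT D.t D.n) : A0.G K) := (γ⁻¹).2.2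
  have e1 : (γ⁻¹ • m) * mg = ((γ⁻¹ : gammaT D.t D.n) : A0.G K) * (m * mg) := by
    rw [smul_def_gammaT, mul_assoc]
  rw [hfun, hfun, e1, hG.weil.tor1 _ hγ g (m * mg) _ hadm', Subgroup.coe_inv, inv_inv,
    actV_gammaT, hG.torus.mul _ _ (inTorus_inv112 γ.2.2.1) hadm'.1,
    hG.torus.rat _ (inTorusRat_inv112 γ.2.1), one_mul]

theorem Ifun_zero112 (hG : D.Good) (hadm : Adm D.t D.n g mg) : Ifun D g mg 0 = 0 := by
  have h1 : ∀ m ∈ D.DT, hfun D g mg m 0
      = (D.F g mg (ratV 0) * D.χT mg) * D.χT m := by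
    intro m hm
    have hmT : InTorus1 D.t D.n m := hG.measured.dom_sub m hm
    rw [hfun, hG.weil.tor1 m hmT g mg _ hadm, ratV_zero112, actV_zero112,
      hG.torus.mul _ _ hmT.1 hadm.1]
    ring
  rw [Ifun, setIntegral_congr_fun hG.measured.dom_meas h1, integral_const_mul,
    integral_chi_zero112 D hG.measured hG.torus, mul_zero]

theorem hasSum_Ifun112 (hG : D.Good) (hadm : Adm D.t D.n g mg) {φ : A0.G K → ℂ}
    (hφ : D.IsLift φ) : HasSum (Ifun D g mg) (φ g) := by
  have : Countable K := countableK112 K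
  obtain ⟨b, hb, -, hbound⟩ := exists_bound112 D hG hadm
  have hmeasDT := hG.measured.dom_meas
  have hφg : φ g = ∫ m in D.DT, D.theta g (m * mg) * D.χT (m * mg) ∂D.μT :=
    hφ.formula g mg hadm
  rw [hφg]
  refine hasSum_integral_of_dominated_convergence (fun ξ _ => b ξ) ?_ ?_ ?_ ?_ ?_
  · intro ξ
    exact ((continuousOn_hfun112 D hG hadm ξ).mono
      (fun m hm => hG.measured.dom_sub m hm)).aestronglyMeasurable hmeasDT
  · intro ξ
    exact ae_restrict_of_forall_mem hmeasDT (fun m hm => hbound m hm ξ)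
  · exact ae_of_all _ (fun _ => hb)
  · have : IntegrableOn (fun _ : A0.G K => ∑' ξ, b ξ) D.DT D.μT :=
      integrableOn_const (measure_DT_lt_top D hG.measured).ne (by simp)
    exact this
  · refine ae_restrict_of_forall_mem hmeasDT (fun m hm => ?_)
    have hsum : Summable (fun ξ : K × K => D.F g (m * mg) (ratV ξ)) := by
      refine Summable.of_norm_bounded hb (fun ξ => ?_)
      have h1 := hbound m hm ξ
      have hmT : InTorus1 D.t D.n m := hG.measured.dom_sub m hm
      have hadm' : Adm D.t D.n g (m * mg) := adm_torus1_mul112 hadm hmT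
      rw [hfun, norm_mul, norm_chi112 D hG.torus hadm'.1, mul_one] at h1
      exact h1
    exact hsum.hasSum.mul_right _

theorem integrable_hfun112 (hG : D.Good) (hadm : Adm D.t D.n g mg) {ξ₀ : K × K}
    (hξ₀ : ξ₀ ≠ 0) : Integrable (fun m => hfun D g mg m ξ₀) D.μT := by
  have hM := hG.measured
  have := smulInv_gammaT D hM
  obtain ⟨b, hb, hb0, hbound⟩ := exists_bound112 D hG hadm
  refine ⟨?_, ?_⟩
  · have := (continuousOn_hfun112 D hG hadm ξ₀).aestronglyMeasurable
      (μ := D.μT) (measurableSet_torus1 D hM)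
    rwa [restrict_torus1 D hM] at this
  · rw [hasFiniteIntegral_def, (isFundDom112 D hM).lintegral_eq_tsum']
    have hterm : ∀ γ : gammaT D.t D.n,
        ∫⁻ x in D.DT, ‖hfun D g mg (γ⁻¹ • x) ξ₀‖ₑ ∂D.μT
          ≤ ENNReal.ofReal (b (mulK D.t D.n (coordK γ) ξ₀)) * D.μT D.DT := by
      intro γ
      rw [← setLIntegral_const]
      refine setLIntegral_mono' hM.dom_meas (fun x hx => ?_)
      rw [hfun_smul112 D hG hadm γ (hM.dom_sub x hx), ← ofReal_norm]
      exact ENNReal.ofReal_le_ofReal (hbound x hx _)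
    have hinj : Function.Injective (fun γ : gammaT D.t D.n => mulK D.t D.n (coordK γ) ξ₀) :=
      fun γ γ' h => coordK_injective (mulK_left_injective hG.torus.irred hξ₀ h)
    calc ∑' γ : gammaT D.t D.n, ∫⁻ x in D.DT, ‖hfun D g mg (γ⁻¹ • x) ξ₀‖ₑ ∂D.μT
        ≤ ∑' γ : gammaT D.t D.n,
            ENNReal.ofReal (b (mulK D.t D.n (coordK γ) ξ₀)) * D.μT D.DT :=
          ENNReal.tsum_le_tsum hterm
      _ = (∑' γ : gammaT D.t D.n, ENNReal.ofReal (b (mulK D.t D.n (coordK γ) ξ₀)))
            * D.μT D.DT := ENNReal.tsum_mul_right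
      _ ≤ (∑' ξ : K × K, ENNReal.ofReal (b ξ)) * D.μT D.DT := by
          gcongr
          exact ENNReal.tsum_comp_le_tsum_of_injective hinj (fun ξ => ENNReal.ofReal (b ξ))
      _ < ⊤ := ENNReal.mul_lt_top hb.tsum_ofReal_lt_top (measure_DT_lt_top D hM)

theorem integral_hfun_eq_tsum112 (hG : D.Good) (hadm : Adm D.t D.n g mg) {ξ₀ : K × K}
    (hξ₀ : ξ₀ ≠ 0) :
    ∫ m, hfun D g mg m ξ₀ ∂D.μT
      = ∑' γ : gammaT D.t D.n, Ifun D g mg (mulK D.t D.n (coordK γ) ξ₀) := by
  have hM := hG.measured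
  have := smulInv_gammaT D hM
  rw [(isFundDom112 D hM).integral_eq_tsum' _ (integrable_hfun112 D hG hadm hξ₀)]
  refine tsum_congr (fun γ => ?_)
  rw [Ifun]
  exact setIntegral_congr_fun hM.dom_meas
    (fun m hm => hfun_smul112 D hG hadm γ (hM.dom_sub m hm) ξ₀)

end Fermat.Agent.LT.A2.H112

end

end
-- ===== PACK-END LT/A2/H112/Core.lean

-- ===== PACK-BEGIN LT/A2/H254/IntSpec.lean
section


/-!
# Row LT, tower A2, leaf A2.03.8.5.5 `H254.IntC254`: THE CUT OF THE MEASURE LEAF (helper254)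

OFF-MAIN.  Sub-leaf `Prop`s and the PROVED top

    IntC254 ⟸ TorGroupC254 + T1MeasC254 + DecompC254 + SuppC254 + IntegrableC254 + MeasC254
                                                                       (`int_of_leaves254`)

Notation: `ρ = μ μ̄⁻¹`, `T¹ = T1set254`, `U = Uset254`, `f_ξ = orbFn254 D g' m' ξ`.

* `TorGroupC254` (algebra of `torMat`): `T¹(𝔸_K)` is closed under products and inverses.
* `T1MeasC254`: `T¹(𝔸_K)` and `U` are Borel sets (closed: `𝔸_K` is Hausdorff, `𝒪_v` is closed).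
* `DecompC254` (local structure of the split torus): `ρ ∈ T¹` and every `m ∈ T¹(𝔸_K)` lies in
  `ρ^i U` for exactly one `i ∈ ℤ`.
* `SuppC254` (`tor1`, `good_std`, `IsTorusChar.mul`): for `u ∈ U`
  `f_{μ̄^j e₁}(ρ^i u) = [-j ≤ i ≤ 0] (χT μ / χT μ̄)^i f_{e₁}(u)`.
* `IntegrableC254` (`orb_dom`, `cont_pair`): `f_{μ̄^j e₁}` is integrable on `T¹`.
* `MeasC254` (abstract, Mathlib only): unfolding of an integral over `T¹ = ⨆_i ρ^i U` for a
  measure invariant under the left translations by `T¹`.
-/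

set_option autoImplicit false

open IsDedekindDomain NumberField AutomorphicForm MeasureTheory
open scoped MatrixGroups

noncomputable section

namespace Fermat.Agent.LT.A2.H254

open Fermat.Agent.LT.H556 Fermat.Agent.LT.H556.A0 Fermat.Agent.LT.H129
open Fermat.Agent.LT.A2.H142

/-! ## The sub-leaves of the second level -/

/-- **A2.03.8.5.6 TOR-GROUP.**  `T¹(𝔸_K)` is closed under products and inverses. -/
def TorGroupC254 : Prop :=
  ∀ (K : Type) [Field K] [NumberField K] (t n : K),
    (∀ a b : G K, InTorus1 t n a → InTorus1 t n b → InTorus1 t n (a * b)) ∧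
      ∀ a : G K, InTorus1 t n a → InTorus1 t n a⁻¹

/-- **A2.03.8.5.7 T1-MEAS.**  `T¹(𝔸_K)` and `U` are Borel sets. -/
def T1MeasC254 : Prop :=
  ∀ (K : Type) [Field K] [NumberField K], T1.LocCompC K →
    ∀ (t n : K) (v : HeightOneSpectrum (𝓞 K)),
      @MeasurableSet (G K) (borel (G K)) (T1set254 t n) ∧
        @MeasurableSet (G K) (borel (G K)) (Uset254 t n v)

/-- **A2.03.8.5.8 DECOMP** (local structure of the split torus at `v`, disc a unit).
`ρ = μ μ̄⁻¹ ∈ T¹` and `T¹(𝔸_K) = ⨆_{i ∈ ℤ} ρ^i U`. -/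
def DecompC254 : Prop :=
  ∀ (K : Type) [Field K] [NumberField K] (t n : K) (v : HeightOneSpectrum (𝓞 K)),
    Valued.v (algebraMap K (v.adicCompletion K) t) ≤ 1 →
    Valued.v (algebraMap K (v.adicCompletion K) n) ≤ 1 →
    Valued.v (algebraMap K (v.adicCompletion K) (t ^ 2 - 4 * n)) = 1 →
    ∀ ϖ : v.adicCompletion K, Valued.v ϖ = WithZero.exp (-1 : ℤ) →
    ∀ μ μb : G K, IsSplitPair254 t n v ϖ μ μb →
      InTorus1 t n (μ * μb⁻¹) ∧
        ∀ m : G K, InTorus1 t n m → ∃! i : ℤ, (μ * μb⁻¹) ^ (-i) * m ∈ Uset254 t n v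

/-- **A2.03.8.5.9 SUPP.**  For `u ∈ U`:
`f_{μ̄^j e₁}(ρ^i u) = [-j ≤ i ≤ 0] (χT μ / χT μ̄)^i f_{e₁}(u)`. -/
def SuppC254 : Prop :=
  ∀ (K : Type) [Field K] [NumberField K] (D : KData K) (η : (Adl K)ˣ → ℂ) (W : G K → ℂ)
    (v : HeightOneSpectrum (𝓞 K)), HCtx D η W v →
    ∀ (ϖ : v.adicCompletion K), Valued.v ϖ = WithZero.exp (-1 : ℤ) → ∀ (μ μb : G K),
      IsSplitPair254 D.t D.n v ϖ μ μb →
      ∀ g' m' : G K, TrivAtFin v g' → TrivAtFin v m' → Adm D.t D.n g' m' →
      ∀ (j : ℕ) (i : ℤ) (u : G K), u ∈ Uset254 D.t D.n v →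
        orbFn254 D g' m' (actV (μb ^ j) (1, 0)) ((μ * μb⁻¹) ^ i * u)
          = if -(j : ℤ) ≤ i ∧ i ≤ 0 then
              (D.χT μ / D.χT μb) ^ i * orbFn254 D g' m' (1, 0) u
            else 0

/-- **A2.03.8.5.10 INTEGRABLE.**  The orbital integrand at the vector `μ̄^j e₁` is integrable on
`T¹(𝔸_K)` (by the identity of `FormC254` it is `q^{j/2}` times the integrand of `W` at
`(g_j, μ^j m')`, which is dominated by `orb_dom`; measurable by `cont_pair`). -/
def IntegrableC254 : Prop :=
  ∀ (K : Type) [Field K] [NumberField K] (D : KData K) (η : (Adl K)ˣ → ℂ) (W : G K → ℂ)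
    (v : HeightOneSpectrum (𝓞 K)), HCtx D η W v →
    ∀ (ϖ : v.adicCompletion K), Valued.v ϖ = WithZero.exp (-1 : ℤ) → ∀ (μ μb : G K),
      IsSplitPair254 D.t D.n v ϖ μ μb →
      ∀ g' m' : G K, Adm D.t D.n g' m' → ∀ j : ℕ,
        letI : MeasurableSpace (G K) := borel (G K)
        IntegrableOn (orbFn254 D g' m' (actV (μb ^ j) (1, 0))) (T1set254 D.t D.n) D.μT

/-- **A2.03.8.5.11 MEAS** (abstract; Mathlib only).  Let `μT` be a Borel measure on a topological
group, invariant under the left translations by the elements of a measurable subgroup `T1`, and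
`T1 = ⨆_{i ∈ ℤ} ρ^i U`.  Then `∫_{T1} f = ∑_i ∫_U f(ρ^i u) du` for `f` integrable on `T1`. -/
def MeasC254 : Prop :=
  ∀ (G : Type) [Group G] [TopologicalSpace G] [ContinuousMul G],
    letI : MeasurableSpace G := borel G
    ∀ (μT : Measure G) (T1 U : Set G) (ρ : G),
      MeasurableSet T1 → MeasurableSet U → U ⊆ T1 →
      (∀ a ∈ T1, ∀ b ∈ T1, a * b ∈ T1) → (∀ a ∈ T1, a⁻¹ ∈ T1) → ρ ∈ T1 →
      (∀ m' ∈ T1, ∀ S : Set G, μT ((fun m => m' * m) '' S) = μT S) →
      (∀ m ∈ T1, ∃! i : ℤ, ρ ^ (-i) * m ∈ U) →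
      ∀ f : G → ℂ, IntegrableOn f T1 μT →
        HasSum (fun i : ℤ => ∫ u in U, f (ρ ^ i * u) ∂μT) (∫ m in T1, f m ∂μT)

end Fermat.Agent.LT.A2.H254

end

end
-- ===== PACK-END LT/A2/H254/IntSpec.lean

-- ===== PACK-BEGIN LT/A2/H333/Plus.lean
section


/-!
# Row LT, tower A2, leaf A2.03.8.5.2 `H254.PlusC254` (helper333)

OFF-MAIN.  Proves `H254.PlusC254` VERBATIM against `LT/A2/H254/RecSplitSpec.lean`
(helper254@51dfc4e4e, sha256 947dfa59): outside `GL₂(𝔸_K)⁺` all `ω_j` vanish.

If `(d_j g', M)` is admissible, `d_j = diag(ϖ^j, 1)_v`, then `((μ^j)⁻¹ M)` is a partner of `g'`,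
where `μ ∈ T(𝔸_K)` has `det μ = det diag(ϖ, 1)_v` (`IsSplitAt142` gives `m₁`, `good_norm` corrects
the determinant by a unit); the torus is closed under products and inverses (`torMat` algebra).
-/

set_option autoImplicit false

open IsDedekindDomain NumberField AutomorphicForm MeasureTheory
open scoped MatrixGroups

noncomputable section

namespace Fermat.Agent.LT.A2.H333

open Fermat.Agent.LT.H556 Fermat.Agent.LT.H556.A0 Fermat.Agent.LT.H129
open Fermat.Agent.LT.A2.H142 Fermat.Agent.LT.A2.H254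

variable {K : Type} [Field K] [NumberField K]

/-! ## The torus is a group -/

theorem torMat_mul333 {R : Type*} [CommRing R] (t n a b a' b' : R) :
    torMat t n a b * torMat t n a' b'
      = torMat t n (a * a' - n * (b * b')) (a * b' + a' * b + t * (b * b')) := by
  unfold torMat
  rw [Matrix.mul_fin_two]
  ext i j
  fin_cases i <;> fin_cases j <;> simp <;> ring

theorem torMat_one333 {R : Type*} [CommRing R] (t n : R) : torMat t n 1 0 = 1 := by
  unfold torMat
  simp [Matrix.one_fin_two]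

theorem inTorus_one333 (t n : K) : InTorus t n (1 : G K) :=
  ⟨1, 0, by rw [torMat_one333]; rfl⟩

theorem inTorus_mul333 {t n : K} {m m' : G K} (h : InTorus t n m) (h' : InTorus t n m') :
    InTorus t n (m * m') := by
  obtain ⟨a, b, hab⟩ := h
  obtain ⟨a', b', hab'⟩ := h'
  refine ⟨a * a' - algebraMap K (Adl K) n * (b * b'),
    a * b' + a' * b + algebraMap K (Adl K) t * (b * b'), ?_⟩
  rw [Units.val_mul, hab, hab', torMat_mul333]

theorem inTorus_pow333 {t n : K} {m : G K} (h : InTorus t n m) (j : ℕ) :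
    InTorus t n (m ^ j) := by
  induction j with
  | zero => rw [pow_zero]; exact inTorus_one333 t n
  | succ j ih => rw [pow_succ]; exact inTorus_mul333 ih h

theorem inTorus_inv333 {t n : K} {m : G K} (h : InTorus t n m) : InTorus t n m⁻¹ := by
  obtain ⟨a, b, hab⟩ := h
  have hδ : ((Matrix.GeneralLinearGroup.det m : (Adl K)ˣ) : Adl K)
      = a * (a + algebraMap K (Adl K) t * b) + algebraMap K (Adl K) n * b * b := by
    rw [Matrix.GeneralLinearGroup.val_det_apply, hab, torMat, Matrix.det_fin_two_of]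
    ring
  set c : Adl K := (((Matrix.GeneralLinearGroup.det m)⁻¹ : (Adl K)ˣ) : Adl K) with hc
  have hcδ : c * (a * (a + algebraMap K (Adl K) t * b) + algebraMap K (Adl K) n * b * b) = 1 := by
    rw [← hδ, hc, Units.inv_mul]
  have key : (m : Matrix (Fin 2) (Fin 2) (Adl K))
      * torMat (algebraMap K (Adl K) t) (algebraMap K (Adl K) n)
          (c * (a + algebraMap K (Adl K) t * b)) (c * -b) = 1 := by
    rw [hab, torMat_mul333, ← torMat_one333 (algebraMap K (Adl K) t) (algebraMap K (Adl K) n)]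
    congr 1
    · rw [← hcδ]; ring
    · ring
  refine ⟨c * (a + algebraMap K (Adl K) t * b), c * -b, ?_⟩
  calc ((m⁻¹ : G K) : Matrix (Fin 2) (Fin 2) (Adl K))
      = ((m⁻¹ : G K) : Matrix (Fin 2) (Fin 2) (Adl K))
          * ((m : Matrix (Fin 2) (Fin 2) (Adl K))
            * torMat (algebraMap K (Adl K) t) (algebraMap K (Adl K) n)
              (c * (a + algebraMap K (Adl K) t * b)) (c * -b)) := by rw [key, mul_one]
    _ = torMat (algebraMap K (Adl K) t) (algebraMap K (Adl K) n)
              (c * (a + algebraMap K (Adl K) t * b)) (c * -b) := by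
        rw [← mul_assoc, ← Units.val_mul, inv_mul_cancel, Units.val_one, one_mul]

/-! ## Components of determinants -/

theorem det_finComp333 (v : HeightOneSpectrum (𝓞 K)) (g : G K) :
    ((Matrix.GeneralLinearGroup.det g : (Adl K)ˣ) : Adl K).2 v = (finComp v g).det := by
  rw [← evF129_apply, Matrix.GeneralLinearGroup.val_det_apply, RingHom.map_det]
  rfl

theorem det_infComp333 (w : InfinitePlace K) (g : G K) :
    ((Matrix.GeneralLinearGroup.det g : (Adl K)ˣ) : Adl K).1 w
      = ((g : Matrix (Fin 2) (Fin 2) (Adl K)).map (evI129 w)).det := by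
  rw [← evI129_apply, Matrix.GeneralLinearGroup.val_det_apply, RingHom.map_det]
  rfl

theorem isIdeleAt_det333 {v : HeightOneSpectrum (𝓞 K)} {g : G K} (hg : IsLocalAtFin v g) :
    IsIdeleAt v (Matrix.GeneralLinearGroup.det g) := by
  refine ⟨fun w => ?_, fun v' hv' => ?_⟩
  · rw [det_infComp333]
    have h1 := (trivAtInf_iff129 w g).mp (hg.1 w)
    rw [← coe_infCompHom129_map, h1]
    exact Matrix.det_one
  · rw [det_finComp333]
    have h1 : finComp v' g = 1 := hg.2 v' hv'
    rw [h1]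
    exact Matrix.det_one

/-! ## Powers of the diagonal element -/

theorem diag129_mul333 {F : Type*} [Field F] (x y x' y' : F) (hx : x ≠ 0) (hy : y ≠ 0)
    (hx' : x' ≠ 0) (hy' : y' ≠ 0) :
    diag129 x y hx hy * diag129 x' y' hx' hy'
      = diag129 (x * x') (y * y') (mul_ne_zero hx hx') (mul_ne_zero hy hy') := by
  apply Units.ext
  rw [Units.val_mul]
  unfold diag129
  rw [coe_mkGL129, coe_mkGL129, coe_mkGL129, Matrix.mul_fin_two]
  simp

theorem dgl142_zero333 (v : HeightOneSpectrum (𝓞 K)) (ϖ : v.adicCompletion K) (h : ϖ ≠ 0) :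
    dgl142 v ϖ h 0 = 1 := by
  apply Units.ext
  unfold dgl142 diag129
  rw [coe_mkGL129]
  simp [Matrix.one_fin_two]

theorem dgl142_succ333 (v : HeightOneSpectrum (𝓞 K)) (ϖ : v.adicCompletion K) (h : ϖ ≠ 0)
    (j : ℕ) : dgl142 v ϖ h (j + 1) = dgl142 v ϖ h j * diag129 ϖ 1 h one_ne_zero := by
  unfold dgl142
  rw [diag129_mul333]
  apply Units.ext
  unfold diag129
  rw [coe_mkGL129, coe_mkGL129]
  simp [pow_succ]

/-! ## The element `μ` -/

/-- At a split place `v ∤ π.level` there is `μ ∈ T(𝔸_K)` with `det μ = det diag(ϖ, 1)_v`. -/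
theorem exists_torus_det333 (D : KData K) (η : (Adl K)ˣ → ℂ) (W : G K → ℂ)
    (v : HeightOneSpectrum (𝓞 K)) (hctx : HCtx D η W v) (hs : IsSplitAt142 D.t D.n v)
    (ϖ : v.adicCompletion K) (hϖ : Valued.v ϖ = WithZero.exp (-1 : ℤ)) :
    ∃ μ : G K, InTorus D.t D.n μ ∧
      Matrix.GeneralLinearGroup.det μ
        = Matrix.GeneralLinearGroup.det
            (locFin129 v (diag129 ϖ 1 (unif_ne_zero129 v hϖ) one_ne_zero)) := by
  obtain ⟨m₁, htor, hloc, -, hval⟩ := hs
  have hd₁loc : IsLocalAtFin v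
      (locFin129 v (diag129 ϖ 1 (unif_ne_zero129 v hϖ) one_ne_zero)) :=
    isLocalAtFin_locFin129 v _
  generalize hd₁ : locFin129 v (diag129 ϖ 1 (unif_ne_zero129 v hϖ) one_ne_zero) = d₁
    at hd₁loc ⊢
  have hdetd : (finComp v d₁).det = ϖ := by
    rw [← hd₁, finComp_locFin129]
    unfold diag129
    rw [coe_mkGL129, Matrix.det_fin_two_of]
    simp
  have hu : IsUnitIdeleAt v (Matrix.GeneralLinearGroup.det (d₁ * m₁⁻¹)) := by
    refine ⟨isIdeleAt_det333 (isLocalAtFin_mul129 hd₁loc (isLocalAtFin_inv129 hloc)), ?_⟩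
    have h1 : Matrix.GeneralLinearGroup.det (d₁ * m₁⁻¹) * Matrix.GeneralLinearGroup.det m₁
        = Matrix.GeneralLinearGroup.det d₁ := by
      rw [← map_mul, inv_mul_cancel_right]
    generalize Matrix.GeneralLinearGroup.det (d₁ * m₁⁻¹) = u at h1 ⊢
    have h2 : (u : Adl K).2 v * ((Matrix.GeneralLinearGroup.det m₁ : (Adl K)ˣ) : Adl K).2 v
        = ((Matrix.GeneralLinearGroup.det d₁ : (Adl K)ˣ) : Adl K).2 v := by
      rw [← h1, Units.val_mul]
      rfl
    rw [det_finComp333 v m₁, det_finComp333 v d₁, hdetd] at h2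
    have h4 := congrArg Valued.v h2
    rw [map_mul, hval, hϖ] at h4
    have h5 : (WithZero.exp (-1 : ℤ) : WithZero (Multiplicative ℤ)) ≠ 0 := WithZero.exp_ne_zero
    exact mul_right_cancel₀ h5 (h4.trans (one_mul _).symm)
  obtain ⟨κ, hκ, hκdet⟩ := hctx.std.good_norm v hctx.hv _ hu
  refine ⟨m₁ * κ, inTorus_mul333 htor hκ.1, ?_⟩
  rw [map_mul, hκdet, map_mul, map_inv, mul_comm (Matrix.GeneralLinearGroup.det d₁),
    mul_inv_cancel_left]

theorem exists_torus_det_pow333 (D : KData K) (η : (Adl K)ˣ → ℂ) (W : G K → ℂ)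
    (v : HeightOneSpectrum (𝓞 K)) (hctx : HCtx D η W v) (hs : IsSplitAt142 D.t D.n v)
    (ϖ : v.adicCompletion K) (hϖ : Valued.v ϖ = WithZero.exp (-1 : ℤ)) (j : ℕ) :
    ∃ ν : G K, InTorus D.t D.n ν ∧
      Matrix.GeneralLinearGroup.det ν
        = Matrix.GeneralLinearGroup.det (locFin129 v (dgl142 v ϖ (unif_ne_zero129 v hϖ) j)) := by
  obtain ⟨μ, hμ, hμdet⟩ := exists_torus_det333 D η W v hctx hs ϖ hϖ
  induction j with
  | zero =>
    refine ⟨1, inTorus_one333 _ _, ?_⟩
    rw [dgl142_zero333, map_one, map_one, map_one]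
  | succ j ih =>
    obtain ⟨ν, hν, hνdet⟩ := ih
    refine ⟨ν * μ, inTorus_mul333 hν hμ, ?_⟩
    rw [dgl142_succ333, map_mul, map_mul, map_mul, hνdet, hμdet]

/-! ## The leaf -/

/-- **A2.03.8.5.2 PLUS** (`H254.PlusC254`, verbatim). -/
theorem plusC333 : PlusC254 := by
  intro K _ _ D η W v hctx hs ϖ hϖ g' hg' j
  unfold om142
  apply hctx.whit.off
  rintro ⟨M, hM, hdet⟩
  apply hg'
  obtain ⟨ν, hν, hνdet⟩ := exists_torus_det_pow333 D η W v hctx hs ϖ hϖ j
  refine ⟨ν⁻¹ * M, inTorus_mul333 (inTorus_inv333 hν) hM, ?_⟩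
  rw [map_mul, map_inv, hνdet, ← hdet, map_mul, inv_mul_cancel_left]

end Fermat.Agent.LT.A2.H333

end

end
-- ===== PACK-END LT/A2/H333/Plus.lean

-- ===== PACK-BEGIN LT/A2/H372/ArchCont.lean
section


/-!
# Row LT, tower A2, leaf A2.03.1.3.7 `H753.ArchContC` (helper372)

OFF-MAIN.  Leaf `ArchContC` (R7) of the cut `LT/A2/H753/RegSpec.lean` (helper753, bytes frozen,
imported verbatim): the infinite part of the product family is continuous in the admissible
pair.

`archPart L g m ξ = ∏_u L.Finf u (infMat u g) (infMat u m) (infVec u ξ)` is a FINITE product;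
each factor is `CpxAt.cont` (continuity on the locally admissible pairs) composed with the
continuous map `p ↦ ((infMat u p.1, infMat u p.2), infVec u ξ)`, which maps the admissible pairs
into the locally admissible pairs by `DictC`.
-/

set_option autoImplicit false

open IsDedekindDomain NumberField AutomorphicForm MeasureTheory
open scoped MatrixGroups Topology

noncomputable section

namespace Fermat.Agent.LT.A2.H372

open Fermat.Agent.LT.H130 Fermat.Agent.LT.H556 Fermat.Agent.LT.A2 Fermat.Agent.LT.A2.WX467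
open Fermat.Agent.LT.A2.H753

/-- The matrix at the infinite place `u` depends continuously on `g ∈ GL₂(𝔸_K)`. -/
theorem continuous_infMat372 {K : Type} [Field K] [NumberField K] (u : InfinitePlace K) :
    Continuous (fun g : A0.G K => infMat u g) := by
  refine continuous_pi fun i => continuous_pi fun j => ?_
  have h1 : Continuous fun g : A0.G K => (g : Matrix (Fin 2) (Fin 2) (A0.Adl K)) :=
    Units.continuous_val
  have h2 : Continuous fun g : A0.G K => (g : Matrix (Fin 2) (Fin 2) (A0.Adl K)) i j :=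
    (continuous_apply j).comp ((continuous_apply i).comp h1)
  exact (continuous_apply u).comp (continuous_fst.comp h2)

/-- **Leaf A2.03.1.3.7 (R7 ARCH-CONT).** -/
theorem archContC372 : ArchContC := by
  intro hDict K _ _ L hL ξ
  unfold archPart
  refine continuousOn_finsetProd _ fun u _ => ?_
  have hc := (hL.cpx u).cont
  have hmap : ContinuousOn (fun p : A0.G K × A0.G K =>
      (((infMat u p.1, infMat u p.2), infVec u ξ) :
        (Matrix (Fin 2) (Fin 2) u.Completion × Matrix (Fin 2) (Fin 2) u.Completion) ×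
          (u.Completion × u.Completion))) {p | Adm L.t L.n p.1 p.2} :=
    (((continuous_infMat372 u).comp continuous_fst).prodMk
      ((continuous_infMat372 u).comp continuous_snd)).prodMk continuous_const |>.continuousOn
  exact hc.comp hmap fun p hp => (hDict K L p.1 p.2 hp).2 u

end Fermat.Agent.LT.A2.H372

end

end
-- ===== PACK-END LT/A2/H372/ArchCont.lean

-- ===== PACK-BEGIN LT/A2/H569/BorelPsi.lean
section


/-!
# Row LT, tower A2, leaf A2.03.1.2 `WX467.BorelC` -- part 2 (helper569): `ψ = ∏ ψ_v`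

OFF-MAIN.  Adeles supported at one place, the decomposition of an adele, and the product formula
for a continuous additive character of the adeles which is trivial on `𝒪_v` at almost all `v`
(`psi_prod569`).
-/

set_option autoImplicit false

open IsDedekindDomain NumberField AutomorphicForm MeasureTheory
open scoped MatrixGroups Topology

noncomputable section

namespace Fermat.Agent.LT.A2.H569

open Fermat.Agent.LT.H130 Fermat.Agent.LT.H556 Fermat.Agent.LT.A2 Fermat.Agent.LT.A2.WX467
open Fermat.Agent.LT.T1.H793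

variable {K : Type} [Field K] [NumberField K]

/-! ## Adeles supported at one place -/

open scoped Classical in
/-- The finite adele with component `x` at `v` and `0` elsewhere. -/
def finSingle569 (v : HeightOneSpectrum (𝓞 K)) (x : v.adicCompletion K) :
    FiniteAdeleRing (𝓞 K) K :=
  ⟨Pi.single v x, by
    rw [Filter.eventually_cofinite]
    refine (Set.finite_singleton v).subset ?_
    intro w hw
    by_contra hne
    apply hw
    have hne' : w ≠ v := hne
    rw [Pi.single_eq_of_ne hne']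
    exact zero_mem _⟩

theorem finSingle569_same (v : HeightOneSpectrum (𝓞 K)) (x : v.adicCompletion K) :
    finSingle569 v x v = x := by
  classical
  exact Pi.single_eq_same v x

theorem finSingle569_of_ne {v w : HeightOneSpectrum (𝓞 K)} (h : w ≠ v)
    (x : v.adicCompletion K) : finSingle569 v x w = 0 := by
  classical
  exact Pi.single_eq_of_ne h x

theorem finSingle569_zero (v : HeightOneSpectrum (𝓞 K)) :
    finSingle569 v (0 : v.adicCompletion K) = 0 := by
  classical
  apply FiniteAdeleRing.ext (K := K)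
  intro w
  by_cases h : w = v
  · subst h
    rw [finSingle569_same]
    rfl
  · rw [finSingle569_of_ne h]
    rfl

/-- The adele supported at the finite place `v` with component `x`. -/
def adlFin569 (v : HeightOneSpectrum (𝓞 K)) (x : v.adicCompletion K) : A0.Adl K :=
  (0, finSingle569 v x)

open scoped Classical in
/-- The adele supported at the infinite place `u` with component `x`. -/
def adlInf569 (u : InfinitePlace K) (x : u.Completion) : A0.Adl K :=
  (Pi.single u x, 0)

theorem adlFin569_atFin (v : HeightOneSpectrum (𝓞 K)) (x : v.adicCompletion K) :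
    WL.AdlAtFin v (adlFin569 v x) :=
  ⟨fun _ => rfl, fun _ h => finSingle569_of_ne h x⟩

theorem adlFin569_apply (v : HeightOneSpectrum (𝓞 K)) (x : v.adicCompletion K) :
    (adlFin569 v x).2 v = x :=
  finSingle569_same v x

theorem adlFin569_zero (v : HeightOneSpectrum (𝓞 K)) :
    adlFin569 v (0 : v.adicCompletion K) = 0 := by
  unfold adlFin569
  rw [finSingle569_zero]
  rfl

theorem adlInf569_atInf (u : InfinitePlace K) (x : u.Completion) :
    WL.AdlAtInf u (adlInf569 u x) := by
  classical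
  exact ⟨fun w h => Pi.single_eq_of_ne h x, fun _ => rfl⟩

theorem adlInf569_apply (u : InfinitePlace K) (x : u.Completion) :
    (adlInf569 u x).1 u = x := by
  classical
  exact Pi.single_eq_same u x

theorem adlInf569_of_ne {u w : InfinitePlace K} (h : w ≠ u) (x : u.Completion) :
    (adlInf569 u x).1 w = 0 := by
  classical
  exact Pi.single_eq_of_ne h x

open scoped Classical in
/-- The adele `y` with the components at the infinite places and at the places of `S` replaced
by `0`. -/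
def rest569 (S : Finset (HeightOneSpectrum (𝓞 K))) (y : A0.Adl K) : A0.Adl K :=
  (0, ⟨fun v => if v ∈ S then 0 else y.2 v, by
    have h := eventually_integral_adl569 y
    filter_upwards [h] with v hv
    by_cases hvS : v ∈ S
    · simp only [hvS, if_true]
      exact zero_mem _
    · simp only [hvS, if_false]
      exact hv⟩)

theorem rest569_fst (S : Finset (HeightOneSpectrum (𝓞 K))) (y : A0.Adl K) :
    (rest569 S y).1 = 0 := rfl

theorem rest569_of_mem {S : Finset (HeightOneSpectrum (𝓞 K))} (y : A0.Adl K)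
    {v : HeightOneSpectrum (𝓞 K)} (hv : v ∈ S) : (rest569 S y).2 v = 0 := by
  classical
  show (if v ∈ S then (0 : v.adicCompletion K) else y.2 v) = 0
  rw [if_pos hv]

theorem rest569_of_notMem {S : Finset (HeightOneSpectrum (𝓞 K))} (y : A0.Adl K)
    {v : HeightOneSpectrum (𝓞 K)} (hv : v ∉ S) : (rest569 S y).2 v = y.2 v := by
  classical
  show (if v ∈ S then (0 : v.adicCompletion K) else y.2 v) = y.2 v
  rw [if_neg hv]

/-- **The decomposition of an adele** along a finite set of finite places. -/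
theorem adl_decomp569 (S : Finset (HeightOneSpectrum (𝓞 K))) (y : A0.Adl K) :
    y = (∑ u : InfinitePlace K, adlInf569 u (y.1 u))
      + ((∑ v ∈ S, adlFin569 v (y.2 v)) + rest569 S y) := by
  classical
  refine adl_ext793 (fun w => ?_) (fun v => ?_)
  · rw [map_add, map_add, map_sum, map_sum]
    simp only [projInf793_apply]
    have h1 : ∑ u : InfinitePlace K, (adlInf569 u (y.1 u)).1 w = y.1 w := by
      rw [Finset.sum_eq_single w]
      · exact adlInf569_apply w _
      · intro u _ hu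
        exact adlInf569_of_ne (Ne.symm hu) _
      · intro h
        exact absurd (Finset.mem_univ w) h
    have h2 : ∑ v ∈ S, (adlFin569 v (y.2 v)).1 w = 0 :=
      Finset.sum_eq_zero fun v _ => rfl
    rw [h1, h2, rest569_fst]
    simp only [zero_add]
    exact (add_zero _).symm
  · rw [map_add, map_add, map_sum, map_sum]
    simp only [projFin793_apply]
    have h1 : ∑ u : InfinitePlace K, (adlInf569 u (y.1 u)).2 v = 0 :=
      Finset.sum_eq_zero fun u _ => rfl
    rw [h1, zero_add]
    by_cases hv : v ∈ S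
    · rw [rest569_of_mem y hv, add_zero, Finset.sum_eq_single v]
      · exact (adlFin569_apply v _).symm
      · intro w _ hw
        exact finSingle569_of_ne (Ne.symm hw) _
      · intro h
        exact absurd hv h
    · rw [rest569_of_notMem y hv, Finset.sum_eq_zero, zero_add]
      intro w hw
      have hne : v ≠ w := fun h => hv (h ▸ hw)
      exact finSingle569_of_ne hne _

/-! ## Neighbourhoods of `0` in the adeles -/

/-- Every neighbourhood of `0` in the adeles contains the everywhere integral finite adeles which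
vanish at a suitable finite set of places. -/
theorem exists_finite_nhds569 (U : Set (A0.Adl K)) (hU : U ∈ 𝓝 (0 : A0.Adl K)) :
    ∃ I : Set (HeightOneSpectrum (𝓞 K)), I.Finite ∧ ∀ x : A0.Adl K, x.1 = 0 →
      (∀ v ∈ I, x.2 v = 0) → (∀ v, x.2 v ∈ v.adicCompletionIntegers K) → x ∈ U := by
  let A : ∀ v : HeightOneSpectrum (𝓞 K), Set (v.adicCompletion K) :=
    fun v => (v.adicCompletionIntegers K : Set (v.adicCompletion K))
  let s : (∀ v : HeightOneSpectrum (𝓞 K), A v) → FiniteAdeleRing (𝓞 K) K :=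
    RestrictedProduct.structureMap (fun v : HeightOneSpectrum (𝓞 K) => v.adicCompletion K) A
      Filter.cofinite
  have hs : Continuous s :=
    (RestrictedProduct.isEmbedding_structureMap
      (R := fun v : HeightOneSpectrum (𝓞 K) => v.adicCompletion K) (A := A)
      (𝓕 := Filter.cofinite)).continuous
  let j : (∀ v : HeightOneSpectrum (𝓞 K), A v) → A0.Adl K := fun z => (0, s z)
  have hj : Continuous j := continuous_const.prodMk hs
  let z0 : ∀ v : HeightOneSpectrum (𝓞 K), A v := fun v => ⟨0, zero_mem _⟩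
  have hj0 : j z0 = 0 := by
    refine Prod.ext rfl ?_
    apply FiniteAdeleRing.ext (K := K)
    intro v
    rfl
  have hpre : j ⁻¹' U ∈ 𝓝 z0 := by
    apply hj.continuousAt.preimage_mem_nhds
    rw [hj0]
    exact hU
  rw [nhds_pi, Filter.mem_pi] at hpre
  obtain ⟨I, hI, t, ht, hsub⟩ := hpre
  refine ⟨I, hI, fun x hx1 hx2 hx3 => ?_⟩
  let z : ∀ v : HeightOneSpectrum (𝓞 K), A v := fun v => ⟨x.2 v, hx3 v⟩
  have hz : z ∈ I.pi t := by
    intro v hv
    have h0 : z v = z0 v := Subtype.ext (hx2 v hv)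
    rw [h0]
    exact mem_of_mem_nhds (ht v)
  have hjz : j z = x := by
    refine Prod.ext hx1.symm ?_
    apply FiniteAdeleRing.ext (K := K)
    intro v
    rfl
  have := hsub hz
  rw [Set.mem_preimage, hjz] at this
  exact this

/-! ## Additive characters -/

theorem psi_zero569 {ψ : A0.Adl K → ℂ} (hadd : ∀ x y : A0.Adl K, ψ (x + y) = ψ x * ψ y)
    (hnorm : ∀ x : A0.Adl K, ‖ψ x‖ = 1) : ψ 0 = 1 := by
  have h := hadd 0 0
  rw [add_zero] at h
  have h0 : ψ 0 ≠ 0 := by
    intro h0
    have := hnorm 0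
    rw [h0, norm_zero] at this
    exact zero_ne_one this
  have h2 : ψ 0 * 1 = ψ 0 * ψ 0 := by rw [mul_one]; exact h
  exact (mul_left_cancel₀ h0 h2).symm

theorem psi_sum569 {ψ : A0.Adl K → ℂ} (h0 : ψ 0 = 1)
    (hadd : ∀ x y : A0.Adl K, ψ (x + y) = ψ x * ψ y) {ι : Type*} (s : Finset ι)
    (f : ι → A0.Adl K) : ψ (∑ i ∈ s, f i) = ∏ i ∈ s, ψ (f i) := by
  classical
  induction s using Finset.induction_on with
  | empty => simpa using h0
  | insert a s ha ih => rw [Finset.sum_insert ha, Finset.prod_insert ha, hadd, ih]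

/-- **The tail**: a continuous character which is trivial on `𝒪_v` for `v ∉ S₀` is trivial on
the everywhere integral finite adeles vanishing on `S₀`. -/
theorem psi_tail569 {ψ : A0.Adl K → ℂ} (hc : Continuous ψ) (h0 : ψ 0 = 1)
    (hadd : ∀ x y : A0.Adl K, ψ (x + y) = ψ x * ψ y)
    (S₀ : Set (HeightOneSpectrum (𝓞 K)))
    (hgood : ∀ v, v ∉ S₀ → ∀ x : A0.Adl K, WL.AdlAtFin v x →
      x.2 v ∈ v.adicCompletionIntegers K → ψ x = 1)
    (r : A0.Adl K) (hr1 : r.1 = 0) (hr2 : ∀ v ∈ S₀, r.2 v = 0)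
    (hr3 : ∀ v, r.2 v ∈ v.adicCompletionIntegers K) : ψ r = 1 := by
  classical
  by_contra hne
  have hW : ({ψ r}ᶜ : Set ℂ) ∈ 𝓝 (ψ 0) := by
    apply isOpen_compl_singleton.mem_nhds
    rw [h0]
    exact fun h => hne h.symm
  have hU : ψ ⁻¹' ({ψ r}ᶜ : Set ℂ) ∈ 𝓝 (0 : A0.Adl K) := hc.continuousAt.preimage_mem_nhds hW
  obtain ⟨I, hI, hsub⟩ := exists_finite_nhds569 _ hU
  set T : Finset (HeightOneSpectrum (𝓞 K)) := hI.toFinset with hT
  have hdec := adl_decomp569 T r
  have hinf : (∑ u : InfinitePlace K, adlInf569 u (r.1 u)) = 0 := by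
    apply Finset.sum_eq_zero
    intro u _
    rw [hr1]
    refine adl_ext793 (fun w => ?_) (fun v => rfl)
    show (adlInf569 u ((0 : InfiniteAdeleRing K) u)).1 w = 0
    by_cases hw : w = u
    · subst hw
      rw [adlInf569_apply]
      rfl
    · exact adlInf569_of_ne hw _
  rw [hinf, zero_add] at hdec
  have hfac : ∀ v ∈ T, ψ (adlFin569 v (r.2 v)) = 1 := by
    intro v _
    by_cases hv : v ∈ S₀
    · rw [hr2 v hv, adlFin569_zero, h0]
    · apply hgood v hv _ (adlFin569_atFin v _)
      rw [adlFin569_apply]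
      exact hr3 v
  have hψ : ψ r = ψ (rest569 T r) := by
    conv_lhs => rw [hdec]
    rw [hadd, psi_sum569 h0 hadd, Finset.prod_eq_one hfac, one_mul]
  have hmem : rest569 T r ∈ ψ ⁻¹' ({ψ r}ᶜ : Set ℂ) := by
    apply hsub _ (rest569_fst T r)
    · intro v hv
      exact rest569_of_mem r (hI.mem_toFinset.2 hv)
    · intro v
      by_cases hv : v ∈ T
      · rw [rest569_of_mem r hv]
        exact zero_mem _
      · rw [rest569_of_notMem r hv]
        exact hr3 v
  exact hmem hψ.symm

/-! ## The product formula for `ψ` -/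

theorem psifin_eq569 (L : WData K) (hL : L.IsGood) (v : HeightOneSpectrum (𝓞 K))
    (x : v.adicCompletion K) : L.ψfin v x = L.ψ (adlFin569 v x) := by
  rw [(hL.fin v).psi _ (adlFin569_atFin v x), adlFin569_apply]

theorem psiinf_eq569 (L : WData K) (hL : L.IsGood) (u : InfinitePlace K)
    (x : u.Completion) : L.ψinf u x = L.ψ (adlInf569 u x) := by
  rw [(hL.cpx u).psi _ (adlInf569_atInf u x), adlInf569_apply]

theorem psifin_eq_one569 (L : WData K) (hL : L.IsGood) (v : HeightOneSpectrum (𝓞 K))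
    (hv : ¬ v.asIdeal ∣ L.π.level) (x : v.adicCompletion K)
    (hx : x ∈ v.adicCompletionIntegers K) : L.ψfin v x = 1 := by
  rw [psifin_eq569 L hL]
  apply (hL.good v hv).good_psi.1 _ (adlFin569_atFin v x)
  rw [adlFin569_apply]
  exact hx

theorem eventually_psifin_eq_one569 (L : WData K) (hL : L.IsGood) (y : A0.Adl K) :
    ∀ᶠ v : HeightOneSpectrum (𝓞 K) in Filter.cofinite, L.ψfin v (y.2 v) = 1 := by
  filter_upwards [eventually_good569 L.π, eventually_integral_adl569 y] with v hv hy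
  exact psifin_eq_one569 L hL v hv _ hy

theorem hasFiniteMulSupport_psifin569 (L : WData K) (hL : L.IsGood) (y : A0.Adl K) :
    Function.HasFiniteMulSupport fun v : HeightOneSpectrum (𝓞 K) => L.ψfin v (y.2 v) := by
  have := eventually_psifin_eq_one569 L hL y
  rw [Filter.eventually_cofinite] at this
  exact this

/-- **`ψ = ∏ ψ_v`.** -/
theorem psi_prod569 (L : WData K) (hL : L.IsGood) (y : A0.Adl K) :
    L.ψ y = (∏ u : InfinitePlace K, L.ψinf u (y.1 u))
      * ∏ᶠ v : HeightOneSpectrum (𝓞 K), L.ψfin v (y.2 v) := by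
  classical
  have hadd := hL.char.map_add
  have h0 : L.ψ 0 = 1 := psi_zero569 hadd hL.char.norm_one
  -- the finite set of the bad places for `y`
  have hbad : {v : HeightOneSpectrum (𝓞 K) | v.asIdeal ∣ L.π.level}.Finite :=
    Ideal.finite_factors L.π.level_ne_bot
  have hint : {v : HeightOneSpectrum (𝓞 K) | ¬ y.2 v ∈ v.adicCompletionIntegers K}.Finite := by
    have := eventually_integral_adl569 y
    rwa [Filter.eventually_cofinite] at this
  set S : Finset (HeightOneSpectrum (𝓞 K)) := (hbad.union hint).toFinset with hS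
  have hSmem : ∀ v, v ∉ S → ¬ v.asIdeal ∣ L.π.level ∧ y.2 v ∈ v.adicCompletionIntegers K := by
    intro v hv
    rw [hS, Set.Finite.mem_toFinset, Set.mem_union, not_or] at hv
    exact ⟨hv.1, not_not.1 hv.2⟩
  -- the finite product
  have hfin : ∏ᶠ v : HeightOneSpectrum (𝓞 K), L.ψfin v (y.2 v) = ∏ v ∈ S, L.ψfin v (y.2 v) := by
    apply finprod_eq_prod_of_mulSupport_subset
    intro v hv
    rw [Function.mem_mulSupport] at hv
    by_contra hvS
    have hvS' : v ∉ S := hvS
    exact hv (psifin_eq_one569 L hL v (hSmem v hvS').1 _ (hSmem v hvS').2)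
  -- the tail
  have htail : L.ψ (rest569 S y) = 1 := by
    apply psi_tail569 hL.char.cont h0 hadd {v | v.asIdeal ∣ L.π.level}
    · intro v hv x hx hxi
      exact (hL.good v hv).good_psi.1 x hx hxi
    · exact rest569_fst S y
    · intro v hv
      apply rest569_of_mem
      rw [hS, Set.Finite.mem_toFinset]
      exact Or.inl hv
    · intro v
      by_cases hv : v ∈ S
      · rw [rest569_of_mem y hv]
        exact zero_mem _
      · rw [rest569_of_notMem y hv]
        exact (hSmem v hv).2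
  conv_lhs => rw [adl_decomp569 S y]
  rw [hadd, hadd, psi_sum569 h0 hadd, psi_sum569 h0 hadd, htail, mul_one, hfin]
  congr 1
  · exact Finset.prod_congr rfl fun u _ => (psiinf_eq569 L hL u _).symm
  · exact Finset.prod_congr rfl fun v _ => (psifin_eq569 L hL v _).symm

end Fermat.Agent.LT.A2.H569

end
end
-- ===== PACK-END LT/A2/H569/BorelPsi.lean

-- ===== PACK-BEGIN LT/A2/H570/GoodArith.lean
section



/-!
# Row LT, tower A2, leaf A2.03.1.1.04 `WX467.GoodArithC` (helper570)

OFF-MAIN.  `goodArithC570 : WX467.GoodArithC`, VERBATIM against `LT/A2/H467/DataSpec.lean`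
(helper467, sha256 72cb2b55), unconditional (the hypothesis `T1.T1Out K` is not used).

Assets used (byte-identical copies): `LT/A2/H426/LocalNorm.lean`, `TorusOpenCore.lean`
(helper426): the norm form represents every unit integrally at a good place
(`exists_norm_eq_of_good426`), almost all places are good (`finite_not_good426`), neighbourhoods
of `1` in `GL₂(𝔸_K)` in local terms (`nhds_one_GL426`, `nhds_zero_adl426`).

Proof.  `S` = the places which are not good (over `2`, or `t`, `n` not integral, or the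
discriminant not a unit) together with the finitely many places which occur in a neighbourhood
`V` of `1` in `GL₂(𝔸_K)` on which `χT` is trivial on the torus (`χT` is continuous on the torus
and its values are `k`-th roots of unity, a finite set).  At `v ∉ S`: every element of `T(𝒪_v)`
lies in `V`; a unit `a_v` is `x² + t x y + n y²` with `x, y ∈ 𝒪_v`, and the adelic matrix with
the component `[[x, -n y], [y, x + t y]]` at `v` and `1` elsewhere is in `T(𝒪_v)` with
determinant `a`.
-/

set_option autoImplicit false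

open IsDedekindDomain NumberField
open scoped Topology

noncomputable section

namespace Fermat.Agent.LT.A2.H570

open Fermat.Agent.LT.H556 Fermat.Agent.LT.A2 Fermat.Agent.LT.A2.H426

variable {K : Type} [Field K] [NumberField K]

/-! ## 1. Components of adelic matrices -/

/-- The matrix of `g` at the finite place `v` is the image of `g` under the projection. -/
theorem finComp_eq_map570 (v : HeightOneSpectrum (𝓞 K)) (g : A0.G K) :
    A0.finComp v g = (g : Matrix (Fin 2) (Fin 2) (A0.Adl K)).map (pF426 K v) := rfl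

/-- The matrix of `g` at the infinite place `w`. -/
def infM570 (w : InfinitePlace K) (g : A0.G K) : Matrix (Fin 2) (Fin 2) w.Completion :=
  (g : Matrix (Fin 2) (Fin 2) (A0.Adl K)).map (pI426 K w)

theorem finComp_mul570 (v : HeightOneSpectrum (𝓞 K)) (g h : A0.G K) :
    A0.finComp v (g * h) = A0.finComp v g * A0.finComp v h := by
  rw [finComp_eq_map570, finComp_eq_map570, finComp_eq_map570, Units.val_mul, Matrix.map_mul]

theorem finComp_one570 (v : HeightOneSpectrum (𝓞 K)) : A0.finComp v (1 : A0.G K) = 1 := by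
  rw [finComp_eq_map570, Units.val_one, Matrix.map_one _ (map_zero _) (map_one _)]

theorem infM_mul570 (w : InfinitePlace K) (g h : A0.G K) :
    infM570 w (g * h) = infM570 w g * infM570 w h := by
  unfold infM570
  rw [Units.val_mul, Matrix.map_mul]

theorem infM_one570 (w : InfinitePlace K) : infM570 w (1 : A0.G K) = 1 := by
  unfold infM570
  rw [Units.val_one, Matrix.map_one _ (map_zero _) (map_one _)]

theorem trivAtInf_iff570 (w : InfinitePlace K) (g : A0.G K) :
    A0.TrivAtInf w g ↔ infM570 w g = 1 := by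
  constructor
  · intro h
    exact Matrix.ext fun i j => h i j
  · intro h i j
    have := congrFun (congrFun h i) j
    exact this

theorem finComp_inv_eq_one570 (v : HeightOneSpectrum (𝓞 K)) (g : A0.G K)
    (h : A0.finComp v g = 1) : A0.finComp v g⁻¹ = 1 := by
  have h1 : A0.finComp v g * A0.finComp v g⁻¹ = 1 := by
    rw [← finComp_mul570, mul_inv_cancel, finComp_one570]
  rw [h, Matrix.one_mul] at h1
  exact h1

theorem infM_inv_eq_one570 (w : InfinitePlace K) (g : A0.G K)
    (h : infM570 w g = 1) : infM570 w g⁻¹ = 1 := by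
  have h1 : infM570 w g * infM570 w g⁻¹ = 1 := by
    rw [← infM_mul570, mul_inv_cancel, infM_one570]
  rw [h, Matrix.one_mul] at h1
  exact h1

/-- The inverse of an element supported at `v` is supported at `v`. -/
theorem isLocalAtFin_inv570 (v : HeightOneSpectrum (𝓞 K)) (g : A0.G K)
    (h : A0.IsLocalAtFin v g) : A0.IsLocalAtFin v g⁻¹ :=
  ⟨fun w => (trivAtInf_iff570 w _).2 (infM_inv_eq_one570 w g ((trivAtInf_iff570 w g).1 (h.1 w))),
    fun v' hv' => finComp_inv_eq_one570 v' g (h.2 v' hv')⟩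

/-! ## 2. Elements of the local maximal compact subgroups are close to `1` -/

/-- An entry of `g - 1` for `g` supported at `v` and integral at `v`. -/
theorem entry_mem570 {N₀ : Set (A0.Adl K)}
    (B : ∀ w : InfinitePlace K, Set w.Completion) (I : Finset (HeightOneSpectrum (𝓞 K)))
    (N : ∀ v : HeightOneSpectrum (𝓞 K), Set (v.adicCompletion K))
    (hB : ∀ w, B w ∈ 𝓝 (0 : w.Completion)) (hN : ∀ v, N v ∈ 𝓝 (0 : v.adicCompletion K))
    (hBN : ∀ x : A0.Adl K, (∀ w, pI426 K w x ∈ B w) →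
      (∀ v, pF426 K v x ∈ v.adicCompletionIntegers K) → (∀ v ∈ I, pF426 K v x ∈ N v) → x ∈ N₀)
    (v : HeightOneSpectrum (𝓞 K)) (hv : v ∉ I) (g : A0.G K) (hloc : A0.IsLocalAtFin v g)
    (hint : A0.IsIntegralAt v g) (i j : Fin 2) :
    (g : Matrix (Fin 2) (Fin 2) (A0.Adl K)) i j
      - (1 : Matrix (Fin 2) (Fin 2) (A0.Adl K)) i j ∈ N₀ := by
  have hI : ∀ w : InfinitePlace K,
      pI426 K w ((g : Matrix (Fin 2) (Fin 2) (A0.Adl K)) i j
        - (1 : Matrix (Fin 2) (Fin 2) (A0.Adl K)) i j) = 0 := by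
    intro w
    have h1 := congrFun (congrFun ((trivAtInf_iff570 w g).1 (hloc.1 w)) i) j
    have h2 := congrFun (congrFun (infM_one570 (K := K) w) i) j
    unfold infM570 at h1 h2
    rw [Matrix.map_apply] at h1 h2
    rw [Units.val_one] at h2
    rw [map_sub, h1, h2, sub_self]
  have hF : ∀ v' : HeightOneSpectrum (𝓞 K), v' ≠ v →
      pF426 K v' ((g : Matrix (Fin 2) (Fin 2) (A0.Adl K)) i j
        - (1 : Matrix (Fin 2) (Fin 2) (A0.Adl K)) i j) = 0 := by
    intro v' hv'
    have h1 := congrFun (congrFun (hloc.2 v' hv') i) j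
    have h2 := congrFun (congrFun (finComp_one570 (K := K) v') i) j
    rw [finComp_eq_map570, Matrix.map_apply] at h1 h2
    rw [Units.val_one] at h2
    rw [map_sub, h1, h2, sub_self]
  have hFv : pF426 K v ((g : Matrix (Fin 2) (Fin 2) (A0.Adl K)) i j
        - (1 : Matrix (Fin 2) (Fin 2) (A0.Adl K)) i j) ∈ v.adicCompletionIntegers K := by
    have h1 : pF426 K v ((g : Matrix (Fin 2) (Fin 2) (A0.Adl K)) i j)
        ∈ v.adicCompletionIntegers K := hint i j
    have h2 := congrFun (congrFun (finComp_one570 (K := K) v) i) j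
    rw [finComp_eq_map570, Matrix.map_apply, Units.val_one] at h2
    rw [map_sub, h2]
    refine sub_mem h1 ?_
    rw [Matrix.one_apply]
    split_ifs
    · exact one_mem _
    · exact zero_mem _
  apply hBN
  · intro w
    rw [hI w]
    exact mem_of_mem_nhds (hB w)
  · intro v'
    by_cases hv' : v' = v
    · subst hv'
      exact hFv
    · rw [hF v' hv']
      exact zero_mem _
  · intro v' hv'I
    have hne : v' ≠ v := fun h => hv (h ▸ hv'I)
    rw [hF v' hne]
    exact mem_of_mem_nhds (hN v')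

/-- Every neighbourhood of `1` in `GL₂(𝔸_K)` contains the local maximal compact subgroups at
almost all finite places. -/
theorem maxCompact_mem_nhds570 {V : Set (A0.G K)} (hV : V ∈ 𝓝 (1 : A0.G K)) :
    ∃ I : Finset (HeightOneSpectrum (𝓞 K)), ∀ v : HeightOneSpectrum (𝓞 K), v ∉ I →
      ∀ g : A0.G K, A0.IsLocalAtFin v g → A0.IsIntegralAt v g → A0.IsIntegralAt v g⁻¹ →
        g ∈ V := by
  obtain ⟨N₀, hN₀, hN₀V⟩ := nhds_one_GL426 hV
  obtain ⟨B, I, N, hB, hN, hBN⟩ := nhds_zero_adl426 hN₀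
  refine ⟨I, fun v hv g hloc hint hint' => ?_⟩
  apply hN₀V
  · exact entry_mem570 B I N hB hN hBN v hv g hloc hint
  · exact entry_mem570 B I N hB hN hBN v hv g⁻¹ (isLocalAtFin_inv570 v g hloc) hint'

/-! ## 3. The character is trivial near `1` -/

theorem inTorus_one570 (t n : K) : InTorus t n (1 : A0.G K) := by
  refine ⟨1, 0, ?_⟩
  rw [Units.val_one]
  refine Matrix.ext fun i j => ?_
  fin_cases i <;> fin_cases j <;> simp [torMat]

/-- `χT` is trivial on the torus in a neighbourhood of `1`. -/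
theorem chi_trivial_nhds570 (t n : K) (χT : A0.G K → ℂ) (hχ : IsTorusChar t n χT) :
    ∃ V ∈ 𝓝 (1 : A0.G K), ∀ m ∈ V, InTorus t n m → χT m = 1 := by
  obtain ⟨k, hk, hfin⟩ := hχ.fin_order
  have hcw : ContinuousWithinAt χT {m | InTorus t n m} 1 := hχ.cont 1 (inTorus_one570 t n)
  have hRfin : {z : ℂ | z ^ k = 1 ∧ z ≠ 1}.Finite := by
    refine Set.Finite.subset (Polynomial.nthRootsFinset k (1 : ℂ)).finite_toSet ?_
    intro z hz
    exact (Polynomial.mem_nthRootsFinset hk _).2 hz.1
  have hRc : {z : ℂ | z ^ k = 1 ∧ z ≠ 1}ᶜ ∈ 𝓝 (χT 1) := by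
    rw [hχ.one]
    exact hRfin.isClosed.isOpen_compl.mem_nhds (fun h => h.2 rfl)
  have hpre := hcw.tendsto hRc
  rw [Filter.mem_map, mem_nhdsWithin_iff_exists_mem_nhds_inter] at hpre
  obtain ⟨V, hV, hVsub⟩ := hpre
  refine ⟨V, hV, fun m hm hmT => ?_⟩
  have h2 : χT m ∈ {z : ℂ | z ^ k = 1 ∧ z ≠ 1}ᶜ := hVsub ⟨hm, hmT⟩
  by_contra hne
  exact h2 ⟨hfin m hmT, hne⟩

/-! ## 4. The norm of `T(𝒪_v)` is onto at a good place -/

/-- The inverse of an integral `2 × 2` matrix with unit determinant is integral. -/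
theorem inv_integral570 (v : HeightOneSpectrum (𝓞 K))
    (A A' : Matrix (Fin 2) (Fin 2) (v.adicCompletion K)) (hAA' : A * A' = 1)
    (hA : ∀ i j, A i j ∈ v.adicCompletionIntegers K) (hdet : Valued.v A.det = 1) :
    ∀ i j, A' i j ∈ v.adicCompletionIntegers K := by
  have hdet0 : A.det ≠ 0 := by
    intro h
    rw [h, map_zero] at hdet
    exact zero_ne_one hdet
  have hinv : A' = A⁻¹ := (Matrix.inv_eq_right_inv hAA').symm
  have hA' : A' = (A.det)⁻¹ • A.adjugate := by
    rw [hinv, Matrix.inv_def, Ring.inverse_eq_inv']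
  have hdi : (A.det)⁻¹ ∈ v.adicCompletionIntegers K := by
    rw [HeightOneSpectrum.mem_adicCompletionIntegers, map_inv₀, hdet, inv_one]
  intro i j
  rw [hA', Matrix.smul_apply, smul_eq_mul, Matrix.adjugate_fin_two]
  refine mul_mem hdi ?_
  fin_cases i <;> fin_cases j
  · simpa using hA 1 1
  · simpa using neg_mem (hA 0 1)
  · simpa using neg_mem (hA 1 0)
  · simpa using hA 0 0

/-- The adele with the component `x` at `v` and the constant component `c` at every other finite
place, `cI` at the infinite places. -/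
def single570 (v : HeightOneSpectrum (𝓞 K)) (x : v.adicCompletion K)
    (hx : x ∈ v.adicCompletionIntegers K) (c : ℤ) (w₀ : ∀ w : InfinitePlace K, w.Completion) :
    A0.Adl K := by
  classical
  exact mkAdl426 w₀
    (Function.update (fun v' : HeightOneSpectrum (𝓞 K) => ((c : ℤ) : v'.adicCompletion K)) v x)
    (fun v' => by
      by_cases h : v' = v
      · subst h
        rw [Function.update_self]
        exact hx
      · rw [Function.update_of_ne h]
        exact intCast_mem _ c)

theorem pF_single_self570 (v : HeightOneSpectrum (𝓞 K)) (x : v.adicCompletion K)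
    (hx : x ∈ v.adicCompletionIntegers K) (c : ℤ) (w₀ : ∀ w : InfinitePlace K, w.Completion) :
    pF426 K v (single570 v x hx c w₀) = x := by
  classical
  unfold single570
  rw [pF426_mk, Function.update_self]

theorem pF_single_of_ne570 (v : HeightOneSpectrum (𝓞 K)) (x : v.adicCompletion K)
    (hx : x ∈ v.adicCompletionIntegers K) (c : ℤ) (w₀ : ∀ w : InfinitePlace K, w.Completion)
    (v' : HeightOneSpectrum (𝓞 K)) (h : v' ≠ v) :
    pF426 K v' (single570 v x hx c w₀) = ((c : ℤ) : v'.adicCompletion K) := by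
  classical
  unfold single570
  rw [pF426_mk, Function.update_of_ne h]

theorem pI_single570 (v : HeightOneSpectrum (𝓞 K)) (x : v.adicCompletion K)
    (hx : x ∈ v.adicCompletionIntegers K) (c : ℤ) (w₀ : ∀ w : InfinitePlace K, w.Completion)
    (w : InfinitePlace K) : pI426 K w (single570 v x hx c w₀) = w₀ w := by
  classical
  unfold single570
  rw [pI426_mk]

/-- **The norm `T(𝒪_v) → 𝒪_v^×` is onto at a good place.** -/
theorem good_norm570 (t n : K) (v : HeightOneSpectrum (𝓞 K)) (hg : Good426 K t n v)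
    (a : (A0.Adl K)ˣ) (ha : IsUnitIdeleAt v a) :
    ∃ κ : A0.G K, WL.InTorusIntAt t n v κ ∧ Matrix.GeneralLinearGroup.det κ = a := by
  obtain ⟨h2, ht, hn, hd⟩ := hg
  have h2' : Valued.v (2 : v.adicCompletion K) = 1 := by
    rw [← map_ofNat (algebraMap K (v.adicCompletion K)) 2]
    exact h2
  have hd' : Valued.v ((algebraMap K (v.adicCompletion K) t) ^ 2
      - 4 * algebraMap K (v.adicCompletion K) n) = 1 := by
    have e : algebraMap K (v.adicCompletion K) (t ^ 2 - 4 * n)
        = (algebraMap K (v.adicCompletion K) t) ^ 2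
          - 4 * algebraMap K (v.adicCompletion K) n := by
      rw [map_sub, map_pow, map_mul, map_ofNat]
    rw [← e]
    exact hd
  have hav : Valued.v (pF426 K v (a : A0.Adl K)) = 1 := ha.2
  obtain ⟨x, y, hx, hy, hxy⟩ := exists_norm_eq_of_good426 K v _ _ h2' ht hn hd'
    (pF426 K v (a : A0.Adl K)) hav
  have hxO : x ∈ v.adicCompletionIntegers K :=
    (HeightOneSpectrum.mem_adicCompletionIntegers (K := K) (v := v)).2 hx
  have hyO : y ∈ v.adicCompletionIntegers K :=
    (HeightOneSpectrum.mem_adicCompletionIntegers (K := K) (v := v)).2 hy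
  have htO : algebraMap K (v.adicCompletion K) t ∈ v.adicCompletionIntegers K :=
    (HeightOneSpectrum.mem_adicCompletionIntegers (K := K) (v := v)).2 ht
  have hnO : algebraMap K (v.adicCompletion K) n ∈ v.adicCompletionIntegers K :=
    (HeightOneSpectrum.mem_adicCompletionIntegers (K := K) (v := v)).2 hn
  set p : A0.Adl K := single570 v x hxO 1 (fun _ => 1) with hp
  set q : A0.Adl K := single570 v y hyO 0 (fun _ => 0) with hq
  -- components of `p`, `q`
  have pIp : ∀ w, pI426 K w p = 1 := fun w => pI_single570 v x hxO 1 _ w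
  have pIq : ∀ w, pI426 K w q = 0 := fun w => pI_single570 v y hyO 0 _ w
  have pFp : pF426 K v p = x := pF_single_self570 v x hxO 1 _
  have pFq : pF426 K v q = y := pF_single_self570 v y hyO 0 _
  have pFp' : ∀ v', v' ≠ v → pF426 K v' p = 1 := fun v' h => by
    rw [hp, pF_single_of_ne570 v x hxO 1 _ v' h, Int.cast_one]
  have pFq' : ∀ v', v' ≠ v → pF426 K v' q = 0 := fun v' h => by
    rw [hq, pF_single_of_ne570 v y hyO 0 _ v' h, Int.cast_zero]
  have hdet : (torMat (algebraMap K (A0.Adl K) t) (algebraMap K (A0.Adl K) n) p q).det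
      = (a : A0.Adl K) := by
    rw [torMat, Matrix.det_fin_two_of]
    apply adl_ext426
    · intro w
      have hw : pI426 K w (a : A0.Adl K) = 1 := ha.1.1 w
      rw [hw, map_sub, map_mul, map_mul, map_add, map_mul, map_neg, map_mul, pIp, pIq]
      ring
    · intro v'
      by_cases h : v' = v
      · subst h
        rw [map_sub, map_mul, map_mul, map_add, map_mul, map_neg, map_mul, pFp, pFq,
          pF426_algebraMap, pF426_algebraMap, ← hxy]
        ring
      · have hv' : pF426 K v' (a : A0.Adl K) = 1 := ha.1.2 v' h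
        rw [hv', map_sub, map_mul, map_mul, map_add, map_mul, map_neg, map_mul, pFp' v' h,
          pFq' v' h]
        ring
  have hunit : IsUnit
      (torMat (algebraMap K (A0.Adl K) t) (algebraMap K (A0.Adl K) n) p q).det := by
    rw [hdet]
    exact a.isUnit
  set κ : A0.G K := Matrix.GeneralLinearGroup.mk'' _ hunit with hκ
  have hκval : (κ : Matrix (Fin 2) (Fin 2) (A0.Adl K))
      = torMat (algebraMap K (A0.Adl K) t) (algebraMap K (A0.Adl K) n) p q := rfl
  -- the components of `κ`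
  have hfin : ∀ v', A0.finComp v' κ
      = torMat (algebraMap K (v'.adicCompletion K) t) (algebraMap K (v'.adicCompletion K) n)
          (pF426 K v' p) (pF426 K v' q) := by
    intro v'
    rw [finComp_eq_map570, hκval]
    refine Matrix.ext fun i j => ?_
    fin_cases i <;> fin_cases j <;> simp [torMat, pF426_algebraMap]
  have hinf : ∀ w, infM570 w κ
      = torMat (algebraMap K w.Completion t) (algebraMap K w.Completion n)
          (pI426 K w p) (pI426 K w q) := by
    intro w
    unfold infM570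
    rw [hκval]
    refine Matrix.ext fun i j => ?_
    fin_cases i <;> fin_cases j <;> simp [torMat, pI426_algebraMap]
  have htor1 : ∀ {R : Type} [CommRing R] (t' n' : R), torMat t' n' 1 0 = 1 := by
    intro R _ t' n'
    refine Matrix.ext fun i j => ?_
    fin_cases i <;> fin_cases j <;> simp [torMat]
  have hloc : A0.IsLocalAtFin v κ := by
    refine ⟨fun w => (trivAtInf_iff570 w κ).2 ?_, fun v' hv' => ?_⟩
    · rw [hinf w, pIp, pIq, htor1]
    · show A0.finComp v' κ = 1
      rw [hfin v', pFp' v' hv', pFq' v' hv', htor1]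
  have hint : A0.IsIntegralAt v κ := by
    intro i j
    rw [hfin v, pFp, pFq]
    fin_cases i <;> fin_cases j
    · simpa [torMat] using hxO
    · simpa [torMat] using neg_mem (mul_mem hnO hyO)
    · simpa [torMat] using hyO
    · simpa [torMat] using add_mem hxO (mul_mem htO hyO)
  have hdetv : Valued.v (A0.finComp v κ).det = 1 := by
    rw [hfin v, pFp, pFq, torMat, Matrix.det_fin_two_of]
    have e : x * (x + algebraMap K (v.adicCompletion K) t * y)
        - -(algebraMap K (v.adicCompletion K) n * y) * y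
        = x ^ 2 + algebraMap K (v.adicCompletion K) t * x * y
          + algebraMap K (v.adicCompletion K) n * y ^ 2 := by ring
    rw [e, hxy]
    exact hav
  have hint' : A0.IsIntegralAt v κ⁻¹ := by
    refine inv_integral570 v (A0.finComp v κ) (A0.finComp v κ⁻¹) ?_ hint hdetv
    rw [← finComp_mul570, mul_inv_cancel, finComp_one570]
  refine ⟨κ, ⟨⟨p, q, hκval⟩, hloc, hint, hint'⟩, ?_⟩
  apply Units.ext
  rw [Matrix.GeneralLinearGroup.val_det_apply, hκval, hdet]

/-! ## 5. The leaf -/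

/-- The discriminant of an irreducible quadratic polynomial does not vanish. -/
theorem disc_ne_zero570 (t n : K) (h : ∀ x : K, x ^ 2 - t * x + n ≠ 0) :
    t ^ 2 - 4 * n ≠ 0 := by
  intro h0
  apply h (t / 2)
  have : n = t ^ 2 / 4 := by
    have h4 : (4 : K) ≠ 0 := by norm_num
    field_simp
    linear_combination -h0
  rw [this]
  ring

/-- **A2.03.1.1.04 GOOD-ARITH.** -/
theorem goodArithC570 : Fermat.Agent.LT.A2.WX467.GoodArithC := by
  intro K _ _ t n χT _ hχ
  classical
  have hd : t ^ 2 - 4 * n ≠ 0 := disc_ne_zero570 t n hχ.irred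
  have hbad := finite_not_good426 K t n hd
  obtain ⟨V, hV, hVχ⟩ := chi_trivial_nhds570 t n χT hχ
  obtain ⟨I, hI⟩ := maxCompact_mem_nhds570 hV
  refine ⟨hbad.toFinset ∪ I, fun v hv => ?_⟩
  rw [Finset.mem_union, not_or, Set.Finite.mem_toFinset, Set.mem_ofPred_eq, not_not] at hv
  obtain ⟨hg, hvI⟩ := hv
  refine ⟨⟨hg.2.1, hg.2.2.1, hg.2.2.2⟩, ?_, ?_⟩
  · intro κ hκ
    exact hVχ κ (hI v hvI κ hκ.2.1 hκ.2.2.1 hκ.2.2.2) hκ.1
  · intro a ha
    exact good_norm570 t n v hg a ha

end Fermat.Agent.LT.A2.H570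

end
end
-- ===== PACK-END LT/A2/H570/GoodArith.lean

-- ===== PACK-BEGIN LT/A2/H64/Induced.lean
section



/-!
# Row LT, tower A2, leaf A2.03.1.1.05 `WX467.InducedC` (helper64)

OFF-MAIN.  `inducedC64 : WX467.InducedC` VERBATIM, unconditional.

For a level `𝔫 ≠ ⊥` outside which the places are good (`GoodArith`), the eigensystem with the
induced data of `χT` exists.  At a place `v ∤ 𝔫`:

* if there is a pair `(m₁, m₂)` of integral elements of `T(K_v)` with determinant a uniformiser,
  inequivalent modulo `T(𝒪_v)`, put `a = χT m₁ + χT m₂`, `b = χT m₁ χT m₂` for a chosen pair.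
  Independence of the pair: there are AT MOST TWO classes modulo `T(𝒪_v)` (`three64`, pure
  algebra in coordinates: no Hensel, no discriminant), and `χT` is trivial on `T(𝒪_v)`
  (`good_char`);
* otherwise, if there is a scalar uniformiser `z₀`, put `a = 0`, `b = - χT z₀`; two scalar
  uniformisers differ by a scalar unit, which lies in `T(𝒪_v)`.

Only `good_int` (integrality of `t`, `n`) and `good_char` of `GoodArith` are used.
-/

set_option autoImplicit false

open IsDedekindDomain NumberField AutomorphicForm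
open scoped WithZero

noncomputable section

namespace Fermat.Agent.LT.A2.H64

open Fermat.Agent.LT.H556 Fermat.Agent.LT.A2

variable {K : Type} [Field K] [NumberField K]

/-! ## 1. Components of adeles and of `GL₂(𝔸_K)` -/

/-- The projection of the adele ring to the completion at the finite place `v`. -/
def pf64 (v : HeightOneSpectrum (𝓞 K)) : A0.Adl K →+* v.adicCompletion K where
  toFun x := x.2 v
  map_one' := rfl
  map_mul' _ _ := rfl
  map_zero' := rfl
  map_add' _ _ := rfl

/-- The projection of the adele ring to the completion at the infinite place `w`. -/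
def pi64 (w : InfinitePlace K) : A0.Adl K →+* w.Completion where
  toFun x := x.1 w
  map_one' := rfl
  map_mul' _ _ := rfl
  map_zero' := rfl
  map_add' _ _ := rfl

theorem adl_ext64 {x y : A0.Adl K} (h1 : ∀ w : InfinitePlace K, x.1 w = y.1 w)
    (h2 : ∀ v : HeightOneSpectrum (𝓞 K), x.2 v = y.2 v) : x = y := by
  refine Prod.ext (funext h1) ?_
  exact FiniteAdeleRing.ext (K := K) h2

/-- The matrix of `g` at the infinite place `w` (in the completion). -/
def infM64 (w : InfinitePlace K) (g : A0.G K) : Matrix (Fin 2) (Fin 2) w.Completion :=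
  (g : Matrix (Fin 2) (Fin 2) (A0.Adl K)).map (pi64 w)

theorem finComp_eq_map64 (v : HeightOneSpectrum (𝓞 K)) (g : A0.G K) :
    A0.finComp v g = (g : Matrix (Fin 2) (Fin 2) (A0.Adl K)).map (pf64 v) := rfl

theorem finComp_mul64 (v : HeightOneSpectrum (𝓞 K)) (g h : A0.G K) :
    A0.finComp v (g * h) = A0.finComp v g * A0.finComp v h := by
  rw [finComp_eq_map64, finComp_eq_map64, finComp_eq_map64, Units.val_mul, Matrix.map_mul]

theorem finComp_one64 (v : HeightOneSpectrum (𝓞 K)) : A0.finComp v (1 : A0.G K) = 1 := by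
  rw [finComp_eq_map64, Units.val_one, Matrix.map_one _ (map_zero _) (map_one _)]

theorem finComp_inv64 (v : HeightOneSpectrum (𝓞 K)) (g : A0.G K) :
    A0.finComp v g⁻¹ = (A0.finComp v g)⁻¹ := by
  symm
  apply Matrix.inv_eq_right_inv
  rw [← finComp_mul64, mul_inv_cancel, finComp_one64]

theorem infM_mul64 (w : InfinitePlace K) (g h : A0.G K) :
    infM64 w (g * h) = infM64 w g * infM64 w h := by
  rw [infM64, infM64, infM64, Units.val_mul, Matrix.map_mul]

theorem infM_one64 (w : InfinitePlace K) : infM64 w (1 : A0.G K) = 1 := by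
  rw [infM64, Units.val_one, Matrix.map_one _ (map_zero _) (map_one _)]

theorem trivAtInf_iff64 (w : InfinitePlace K) (g : A0.G K) :
    A0.TrivAtInf w g ↔ infM64 w g = 1 := by
  constructor
  · intro h
    exact Matrix.ext fun i j => h i j
  · intro h i j
    exact congrFun (congrFun h i) j

theorem trivAtInf_mul64 {w : InfinitePlace K} {g h : A0.G K} (hg : A0.TrivAtInf w g)
    (hh : A0.TrivAtInf w h) : A0.TrivAtInf w (g * h) := by
  rw [trivAtInf_iff64] at hg hh ⊢
  rw [infM_mul64, hg, hh, one_mul]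

theorem trivAtInf_inv64 {w : InfinitePlace K} {g : A0.G K} (hg : A0.TrivAtInf w g) :
    A0.TrivAtInf w g⁻¹ := by
  rw [trivAtInf_iff64] at hg ⊢
  have h := infM_mul64 w g⁻¹ g
  rw [inv_mul_cancel, infM_one64, hg, mul_one] at h
  exact h.symm

theorem trivAtFin_mul64 {v : HeightOneSpectrum (𝓞 K)} {g h : A0.G K} (hg : A0.TrivAtFin v g)
    (hh : A0.TrivAtFin v h) : A0.TrivAtFin v (g * h) := by
  unfold A0.TrivAtFin at hg hh ⊢
  rw [finComp_mul64, hg, hh, one_mul]

theorem trivAtFin_inv64 {v : HeightOneSpectrum (𝓞 K)} {g : A0.G K} (hg : A0.TrivAtFin v g) :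
    A0.TrivAtFin v g⁻¹ := by
  unfold A0.TrivAtFin at hg ⊢
  rw [finComp_inv64, hg, inv_one]

theorem isLocalAtFin_mul64 {v : HeightOneSpectrum (𝓞 K)} {g h : A0.G K}
    (hg : A0.IsLocalAtFin v g) (hh : A0.IsLocalAtFin v h) : A0.IsLocalAtFin v (g * h) :=
  ⟨fun w => trivAtInf_mul64 (hg.1 w) (hh.1 w),
    fun v' hv' => trivAtFin_mul64 (hg.2 v' hv') (hh.2 v' hv')⟩

theorem isLocalAtFin_inv64 {v : HeightOneSpectrum (𝓞 K)} {g : A0.G K}
    (hg : A0.IsLocalAtFin v g) : A0.IsLocalAtFin v g⁻¹ :=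
  ⟨fun w => trivAtInf_inv64 (hg.1 w), fun v' hv' => trivAtFin_inv64 (hg.2 v' hv')⟩

theorem isIntegralAt_iff64 (v : HeightOneSpectrum (𝓞 K)) (g : A0.G K) :
    A0.IsIntegralAt v g ↔ IntM64 (Valued.v : Valuation (v.adicCompletion K) ℤᵐ⁰)
      (A0.finComp v g) := by
  unfold A0.IsIntegralAt IntM64
  refine forall_congr' fun i => forall_congr' fun j => ?_
  exact HeightOneSpectrum.mem_adicCompletionIntegers _ _ _

/-! ## 2. The torus -/

theorem inTorus_mul64 {t n : K} {m m' : A0.G K} (h : InTorus t n m) (h' : InTorus t n m') :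
    InTorus t n (m * m') := by
  obtain ⟨a, b, hab⟩ := h
  obtain ⟨c, d, hcd⟩ := h'
  exact ⟨_, _, by rw [Units.val_mul, hab, hcd, torMat_mul64]⟩

theorem inTorus_inv64 {t n : K} {m : A0.G K} (h : InTorus t n m) : InTorus t n m⁻¹ := by
  obtain ⟨a, b, hab⟩ := h
  have hdet : (m : Matrix (Fin 2) (Fin 2) (A0.Adl K)).det
      = a ^ 2 + algebraMap K (A0.Adl K) t * a * b + algebraMap K (A0.Adl K) n * b ^ 2 := by
    rw [hab]
    simp only [torMat, Matrix.det_fin_two_of]
    ring
  have hu : IsUnit (m : Matrix (Fin 2) (Fin 2) (A0.Adl K)).det :=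
    (Matrix.isUnit_iff_isUnit_det _).1 m.isUnit
  obtain ⟨δ, hδ⟩ := hu
  have hδ' : (a ^ 2 + algebraMap K (A0.Adl K) t * a * b + algebraMap K (A0.Adl K) n * b ^ 2)
      * ((δ⁻¹ : (A0.Adl K)ˣ) : A0.Adl K) = 1 := by
    rw [← hdet, ← hδ]
    exact δ.mul_inv
  refine ⟨(a + algebraMap K (A0.Adl K) t * b) * ((δ⁻¹ : (A0.Adl K)ˣ) : A0.Adl K),
    -b * ((δ⁻¹ : (A0.Adl K)ˣ) : A0.Adl K), ?_⟩
  apply Units.inv_eq_of_mul_eq_one_right
  rw [hab, torMat_mul64]
  have h1 : a * ((a + algebraMap K (A0.Adl K) t * b) * ((δ⁻¹ : (A0.Adl K)ˣ) : A0.Adl K))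
      - algebraMap K (A0.Adl K) n * (b * (-b * ((δ⁻¹ : (A0.Adl K)ˣ) : A0.Adl K))) = 1 := by
    rw [← hδ']
    ring
  have h2 : a * (-b * ((δ⁻¹ : (A0.Adl K)ˣ) : A0.Adl K))
      + b * ((a + algebraMap K (A0.Adl K) t * b) * ((δ⁻¹ : (A0.Adl K)ˣ) : A0.Adl K))
      + algebraMap K (A0.Adl K) t * (b * (-b * ((δ⁻¹ : (A0.Adl K)ˣ) : A0.Adl K))) = 0 := by
    ring
  rw [h1, h2, torMat_one64]

/-- The local matrix of an element of the torus. -/
theorem finComp_torus64 {t n : K} {m : A0.G K} {a b : A0.Adl K}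
    (hab : (m : Matrix (Fin 2) (Fin 2) (A0.Adl K))
      = torMat (algebraMap K (A0.Adl K) t) (algebraMap K (A0.Adl K) n) a b)
    (v : HeightOneSpectrum (𝓞 K)) :
    A0.finComp v m = torMat (algebraMap K (v.adicCompletion K) t)
      (algebraMap K (v.adicCompletion K) n) (a.2 v) (b.2 v) := by
  rw [finComp_eq_map64, hab]
  ext i j
  fin_cases i <;> fin_cases j <;> simp [torMat, pf64] <;> rfl

/-- A GOOD element at `v`: an integral element of `T(K_v)` with determinant a uniformiser. -/
structure Good64 (t n : K) (v : HeightOneSpectrum (𝓞 K)) (m : A0.G K) : Prop where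
  tor : InTorus t n m
  loc : A0.IsLocalAtFin v m
  int : A0.IsIntegralAt v m
  det : Valued.v (A0.finComp v m).det = WithZero.exp (-1 : ℤ)

/-- Local coordinates of a good element. -/
theorem Good64.coords {t n : K} {v : HeightOneSpectrum (𝓞 K)} {m : A0.G K}
    (h : Good64 t n v m) :
    ∃ a b : v.adicCompletion K,
      A0.finComp v m = torMat (algebraMap K (v.adicCompletion K) t)
        (algebraMap K (v.adicCompletion K) n) a b ∧
      Valued.v a ≤ 1 ∧ Valued.v b ≤ 1 ∧
      Valued.v (nm64 (algebraMap K (v.adicCompletion K) t)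
        (algebraMap K (v.adicCompletion K) n) a b) = WithZero.exp (-1 : ℤ) := by
  obtain ⟨a, b, hab⟩ := h.tor
  have hf := finComp_torus64 hab v
  have hint := (isIntegralAt_iff64 v m).1 h.int
  refine ⟨a.2 v, b.2 v, hf, ?_, ?_, ?_⟩
  · have := hint 0 0
    rw [hf] at this
    simpa [torMat] using this
  · have := hint 1 0
    rw [hf] at this
    simpa [torMat] using this
  · rw [← det_torMat64, ← hf]
    exact h.det

/-- The relation: `x⁻¹ y` is integral at `v`. -/
theorem rel_iff_local64 (v : HeightOneSpectrum (𝓞 K)) (x y : A0.G K) :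
    A0.IsIntegralAt v (x⁻¹ * y) ↔
      IntM64 (Valued.v : Valuation (v.adicCompletion K) ℤᵐ⁰)
        ((A0.finComp v x)⁻¹ * A0.finComp v y) := by
  rw [isIntegralAt_iff64, finComp_mul64, finComp_inv64]

section Classes

variable {t n : K} {v : HeightOneSpectrum (𝓞 K)}

/-- Symmetry of the relation on good elements. -/
theorem rel_symm_good64
    (ht : Valued.v (algebraMap K (v.adicCompletion K) t) ≤ 1)
    (hn : Valued.v (algebraMap K (v.adicCompletion K) n) ≤ 1)
    {x y : A0.G K} (hx : Good64 t n v x) (hy : Good64 t n v y)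
    (h : A0.IsIntegralAt v (x⁻¹ * y)) : A0.IsIntegralAt v (y⁻¹ * x) := by
  obtain ⟨a, b, hab, -, -, hN⟩ := hx.coords
  obtain ⟨c, d, hcd, -, -, hN'⟩ := hy.coords
  rw [rel_iff_local64, hab, hcd] at h
  rw [rel_iff_local64, hab, hcd]
  exact rel_symm64 _ ht hn hN hN' h

/-- Transitivity of the relation. -/
theorem rel_trans64 {x y z : A0.G K} (h1 : A0.IsIntegralAt v (x⁻¹ * y))
    (h2 : A0.IsIntegralAt v (y⁻¹ * z)) : A0.IsIntegralAt v (x⁻¹ * z) := by
  have hxz : x⁻¹ * z = (x⁻¹ * y) * (y⁻¹ * z) := by group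
  rw [hxz, isIntegralAt_iff64, finComp_mul64]
  exact intM_mul64 _ ((isIntegralAt_iff64 v _).1 h1) ((isIntegralAt_iff64 v _).1 h2)

/-- At most two classes. -/
theorem rel_three64
    (ht : Valued.v (algebraMap K (v.adicCompletion K) t) ≤ 1)
    (hn : Valued.v (algebraMap K (v.adicCompletion K) n) ≤ 1)
    {x y z : A0.G K} (hx : Good64 t n v x) (hy : Good64 t n v y) (hz : Good64 t n v z)
    (h1 : ¬ A0.IsIntegralAt v (x⁻¹ * y)) (h2 : ¬ A0.IsIntegralAt v (x⁻¹ * z)) :
    A0.IsIntegralAt v (y⁻¹ * z) := by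
  obtain ⟨a, b, hab, ha, hb, hN⟩ := hx.coords
  obtain ⟨c, d, hcd, hc, hd, hN'⟩ := hy.coords
  obtain ⟨e, f, hef, he, hf, hN''⟩ := hz.coords
  rw [rel_iff_local64, hab, hcd] at h1
  rw [rel_iff_local64, hab, hef] at h2
  rw [rel_iff_local64, hcd, hef]
  exact three64 _ ht hn ha hb hc hd he hf hN hN' hN'' h1 h2

/-- Equivalent good elements have the same value of `χT`. -/
theorem chi_eq_of_rel64 {χT : A0.G K → ℂ} (hχ : IsTorusChar t n χT)
    (ht : Valued.v (algebraMap K (v.adicCompletion K) t) ≤ 1)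
    (hn : Valued.v (algebraMap K (v.adicCompletion K) n) ≤ 1)
    (hchar : ∀ κ : A0.G K, WL.InTorusIntAt t n v κ → χT κ = 1)
    {x y : A0.G K} (hx : Good64 t n v x) (hy : Good64 t n v y)
    (h : A0.IsIntegralAt v (x⁻¹ * y)) : χT y = χT x := by
  have hκ : WL.InTorusIntAt t n v (x⁻¹ * y) := by
    refine ⟨inTorus_mul64 (inTorus_inv64 hx.tor) hy.tor,
      isLocalAtFin_mul64 (isLocalAtFin_inv64 hx.loc) hy.loc, h, ?_⟩
    have : (x⁻¹ * y)⁻¹ = y⁻¹ * x := by group
    rw [this]
    exact rel_symm_good64 ht hn hx hy h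
  have hy' : y = x * (x⁻¹ * y) := by group
  rw [hy', hχ.mul x (x⁻¹ * y) hx.tor hκ.1, hchar _ hκ, mul_one]

/-- **Independence of the pair.** -/
theorem pair_indep64 {χT : A0.G K → ℂ} (hχ : IsTorusChar t n χT)
    (ht : Valued.v (algebraMap K (v.adicCompletion K) t) ≤ 1)
    (hn : Valued.v (algebraMap K (v.adicCompletion K) n) ≤ 1)
    (hchar : ∀ κ : A0.G K, WL.InTorusIntAt t n v κ → χT κ = 1)
    {m₁ m₂ m₁' m₂' : A0.G K} (h1 : Good64 t n v m₁) (h2 : Good64 t n v m₂)
    (h1' : Good64 t n v m₁') (h2' : Good64 t n v m₂')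
    (hne : ¬ A0.IsIntegralAt v (m₁⁻¹ * m₂)) (hne' : ¬ A0.IsIntegralAt v (m₁'⁻¹ * m₂')) :
    χT m₁ + χT m₂ = χT m₁' + χT m₂' ∧ χT m₁ * χT m₂ = χT m₁' * χT m₂' := by
  -- each of `m₁'`, `m₂'` is equivalent to `m₁` or to `m₂`
  have key : ∀ {z : A0.G K}, Good64 t n v z →
      A0.IsIntegralAt v (m₁⁻¹ * z) ∨ A0.IsIntegralAt v (m₂⁻¹ * z) := by
    intro z hz
    by_contra hcon
    push Not at hcon
    have ha : ¬ A0.IsIntegralAt v (z⁻¹ * m₁) := fun h =>
      hcon.1 (rel_symm_good64 ht hn hz h1 h)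
    have hb : ¬ A0.IsIntegralAt v (z⁻¹ * m₂) := fun h =>
      hcon.2 (rel_symm_good64 ht hn hz h2 h)
    exact hne (rel_three64 ht hn hz h1 h2 ha hb)
  rcases key h1' with ha | ha <;> rcases key h2' with hb | hb
  · -- both equivalent to `m₁`: then `m₁' ~ m₂'`
    exact absurd (rel_trans64 (rel_symm_good64 ht hn h1 h1' ha) hb) hne'
  · have e1 := chi_eq_of_rel64 hχ ht hn hchar h1 h1' ha
    have e2 := chi_eq_of_rel64 hχ ht hn hchar h2 h2' hb
    rw [e1, e2]
    exact ⟨rfl, rfl⟩
  · have e1 := chi_eq_of_rel64 hχ ht hn hchar h2 h1' ha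
    have e2 := chi_eq_of_rel64 hχ ht hn hchar h1 h2' hb
    rw [e1, e2]
    exact ⟨add_comm _ _, mul_comm _ _⟩
  · exact absurd (rel_trans64 (rel_symm_good64 ht hn h2 h1' ha) hb) hne'

end Classes

/-! ## 3. Scalar uniformisers -/

section Scalar

variable {t n : K} {v : HeightOneSpectrum (𝓞 K)}

/-- An element supported at `v` which is scalar at `v` lies in the torus. -/
theorem inTorus_of_scalar64 (t n : K) {z : A0.G K} (hloc : A0.IsLocalAtFin v z)
    {c : v.adicCompletion K} (hc : A0.finComp v z = Matrix.diagonal (fun _ => c)) :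
    InTorus t n z := by
  refine ⟨(z : Matrix (Fin 2) (Fin 2) (A0.Adl K)) 0 0, 0, ?_⟩
  have hentry : ∀ i j : Fin 2, (z : Matrix (Fin 2) (Fin 2) (A0.Adl K)) i j
      = if i = j then (z : Matrix (Fin 2) (Fin 2) (A0.Adl K)) 0 0 else 0 := by
    intro i j
    refine adl_ext64 (fun w => ?_) (fun v' => ?_)
    · have h00 := hloc.1 w 0 0
      have hij := hloc.1 w i j
      by_cases hij' : i = j
      · subst hij'
        rw [if_pos rfl, hij, h00]
        simp
      · rw [if_neg hij', hij]
        simp only [Matrix.one_apply_ne hij']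
        rfl
    · by_cases hv : v' = v
      · subst hv
        have e1 : ((z : Matrix (Fin 2) (Fin 2) (A0.Adl K)) i j).2 v' = A0.finComp v' z i j := rfl
        have e2 : ((z : Matrix (Fin 2) (Fin 2) (A0.Adl K)) 0 0).2 v' = A0.finComp v' z 0 0 := rfl
        by_cases hij' : i = j
        · subst hij'
          rw [if_pos rfl, e1, e2, hc]
          simp
        · rw [if_neg hij', e1, hc, Matrix.diagonal_apply_ne _ hij']
          rfl
      · have hT : A0.finComp v' z = 1 := hloc.2 v' hv
        have e1 : ((z : Matrix (Fin 2) (Fin 2) (A0.Adl K)) i j).2 v' = A0.finComp v' z i j := rfl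
        have e2 : ((z : Matrix (Fin 2) (Fin 2) (A0.Adl K)) 0 0).2 v' = A0.finComp v' z 0 0 := rfl
        by_cases hij' : i = j
        · subst hij'
          rw [if_pos rfl, e1, e2, hT]
          simp
        · rw [if_neg hij', e1, hT, Matrix.one_apply_ne hij']
          rfl
  ext i j
  rw [hentry i j]
  fin_cases i <;> fin_cases j <;> simp [torMat]

/-- Two scalar uniformisers at a good place have the same value of `χT`. -/
theorem chi_scalar_eq64 {χT : A0.G K → ℂ} (hχ : IsTorusChar t n χT)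
    (hchar : ∀ κ : A0.G K, WL.InTorusIntAt t n v κ → χT κ = 1)
    {z₀ z : A0.G K} (h0 : A0.IsScalarUniformizerAt v z₀) (h : A0.IsScalarUniformizerAt v z) :
    χT z = χT z₀ := by
  obtain ⟨hloc0, c0, hc0, hz0⟩ := h0
  obtain ⟨hloc, c, hc, hz⟩ := h
  have hc0ne : c0 ≠ 0 := by
    intro h0
    rw [h0, map_zero] at hc0
    exact WithZero.exp_ne_zero hc0.symm
  have hcne : c ≠ 0 := by
    intro h0
    rw [h0, map_zero] at hc
    exact WithZero.exp_ne_zero hc.symm
  have hT0 : InTorus t n z₀ := inTorus_of_scalar64 t n hloc0 hz0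
  have hT : InTorus t n z := inTorus_of_scalar64 t n hloc hz
  have hdiag : ∀ (x y : v.adicCompletion K), x ≠ 0 →
      (Matrix.diagonal (fun _ : Fin 2 => x))⁻¹ * Matrix.diagonal (fun _ : Fin 2 => y)
        = Matrix.diagonal (fun _ : Fin 2 => x⁻¹ * y) := by
    intro x y hx
    have hdet : IsUnit (Matrix.diagonal (fun _ : Fin 2 => x)).det := by
      rw [Matrix.det_diagonal]
      simp [hx]
    have : Matrix.diagonal (fun _ : Fin 2 => y)
        = Matrix.diagonal (fun _ : Fin 2 => x) * Matrix.diagonal (fun _ : Fin 2 => x⁻¹ * y) := by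
      rw [Matrix.diagonal_mul_diagonal]
      congr 1
      funext _
      rw [mul_inv_cancel_left₀ hx]
    conv_lhs => rw [this]
    rw [← Matrix.mul_assoc, Matrix.nonsing_inv_mul _ hdet, Matrix.one_mul]
  have hint : ∀ (x y : v.adicCompletion K), Valued.v x = WithZero.exp (-1 : ℤ) →
      Valued.v y = WithZero.exp (-1 : ℤ) →
      IntM64 (Valued.v : Valuation (v.adicCompletion K) ℤᵐ⁰)
        (Matrix.diagonal (fun _ : Fin 2 => x⁻¹ * y)) := by
    intro x y hx hy i j
    by_cases hij : i = j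
    · subst hij
      rw [Matrix.diagonal_apply_eq, map_mul, map_inv₀, hx, hy]
      rw [inv_mul_cancel₀ WithZero.exp_ne_zero]
    · rw [Matrix.diagonal_apply_ne _ hij, map_zero]
      exact zero_le
  have hκ : WL.InTorusIntAt t n v (z₀⁻¹ * z) := by
    refine ⟨inTorus_mul64 (inTorus_inv64 hT0) hT,
      isLocalAtFin_mul64 (isLocalAtFin_inv64 hloc0) hloc, ?_, ?_⟩
    · rw [rel_iff_local64, hz0, hz, hdiag c0 c hc0ne]
      exact hint c0 c hc0 hc
    · have : (z₀⁻¹ * z)⁻¹ = z⁻¹ * z₀ := by group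
      rw [this, rel_iff_local64, hz0, hz, hdiag c c0 hcne]
      exact hint c c0 hc hc0
  have hz' : z = z₀ * (z₀⁻¹ * z) := by group
  rw [hz', hχ.mul z₀ (z₀⁻¹ * z) hT0 hκ.1, hchar _ hκ, mul_one]

end Scalar

/-! ## 4. The eigensystem -/

section Main

variable (t n : K) (χT : A0.G K → ℂ)

/-- A pair as in the first half of `InducedAtT`. -/
def IsPair64 (v : HeightOneSpectrum (𝓞 K)) (p : A0.G K × A0.G K) : Prop :=
  Good64 t n v p.1 ∧ Good64 t n v p.2 ∧ ¬ A0.IsIntegralAt v (p.1⁻¹ * p.2)

open Classical in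
/-- The `T_v`-eigenvalue of the induced data. -/
def aInd64 (v : HeightOneSpectrum (𝓞 K)) : ℂ :=
  if h : ∃ p : A0.G K × A0.G K, IsPair64 t n v p then
    χT (Classical.choose h).1 + χT (Classical.choose h).2
  else 0

open Classical in
/-- The `S_v`-eigenvalue of the induced data. -/
def bInd64 (v : HeightOneSpectrum (𝓞 K)) : ℂ :=
  if h : ∃ p : A0.G K × A0.G K, IsPair64 t n v p then
    χT (Classical.choose h).1 * χT (Classical.choose h).2
  else if h' : ∃ z : A0.G K, A0.IsScalarUniformizerAt v z then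
    - χT (Classical.choose h')
  else 0

/-- The eigensystem of the induced data, of level `𝔫`. -/
def piInd64 (𝔫 : Ideal (𝓞 K)) (h𝔫 : 𝔫 ≠ ⊥) : HeckeEigensystem K ℂ where
  level := 𝔫
  level_ne_bot := h𝔫
  a := aInd64 t n χT
  b := bInd64 t n χT

variable {t n χT}

theorem inducedAtT64 (hχ : IsTorusChar t n χT) {v : HeightOneSpectrum (𝓞 K)}
    (ht : Valued.v (algebraMap K (v.adicCompletion K) t) ≤ 1)
    (hn : Valued.v (algebraMap K (v.adicCompletion K) n) ≤ 1)
    (hchar : ∀ κ : A0.G K, WL.InTorusIntAt t n v κ → χT κ = 1) :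
    InducedAtT t n χT v (aInd64 t n χT v) (bInd64 t n χT v) := by
  constructor
  · intro m₁ m₂ hT1 hT2 hl1 hl2 hi1 hi2 hd1 hd2 hne
    have hp : IsPair64 t n v (m₁, m₂) := ⟨⟨hT1, hl1, hi1, hd1⟩, ⟨hT2, hl2, hi2, hd2⟩, hne⟩
    have hex : ∃ p : A0.G K × A0.G K, IsPair64 t n v p := ⟨_, hp⟩
    have hsp := Classical.choose_spec hex
    have hind := pair_indep64 hχ ht hn hchar hsp.1 hsp.2.1 hp.1 hp.2.1 hsp.2.2 hp.2.2
    unfold aInd64 bInd64
    rw [dif_pos hex, dif_pos hex]
    exact hind
  · intro hinert z hz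
    have hno : ¬ ∃ p : A0.G K × A0.G K, IsPair64 t n v p := by
      rintro ⟨p, hp⟩
      exact hinert p.1 hp.1.tor hp.1.loc hp.1.int hp.1.det
    have hex : ∃ z : A0.G K, A0.IsScalarUniformizerAt v z := ⟨z, hz⟩
    unfold aInd64 bInd64
    rw [dif_neg hno, dif_neg hno, dif_pos hex]
    refine ⟨rfl, ?_⟩
    rw [chi_scalar_eq64 hχ hchar (Classical.choose_spec hex) hz]

/-- **Leaf A2.03.1.1.05 `WX467.InducedC`.** -/
theorem inducedC64 : WX467.InducedC := by
  intro K _ _ t n χT ψ hχ 𝔫 h𝔫 hgood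
  refine ⟨piInd64 t n χT 𝔫 h𝔫, rfl, ?_⟩
  intro v hv
  have hg := hgood v hv
  exact inducedAtT64 hχ hg.good_int.1 hg.good_int.2.1 hg.good_char

end Main

end Fermat.Agent.LT.A2.H64

end

end
-- ===== PACK-END LT/A2/H64/Induced.lean

-- ===== PACK-BEGIN LT/A2/H709/Psi.lean
section




/-!
# Row LT, tower A2, leaf A2.03.1.1.01 `WX467.PsiC` (helper709, registry row 1244)

OFF-MAIN.  Imports: `A2/H467/DataSpec.lean` (helper467@8b34cad8f, sha256 72cb2b55, byte copy),
`H767/StrongApprox.lean` (helper767, sha256 710a865c, byte copy: `𝔸_f = K + ∏ 𝒪_v`) and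
`PsiArith.lean` (Mathlib only).

`psiC709 : PsiC` VERBATIM: for every number field there is a continuous unitary character `ψ`
of `𝔸_K`, trivial on `K`, not trivial, whose local component has conductor `𝒪_v` at every finite
place `v` which does not divide the different of `K / ℚ`.

Construction (no local traces, no `p`-adic fractional parts): `𝔸_K = K + W`,
`W = K_∞ × ∏ 𝒪_v` open, `K ∩ W = 𝓞 K`, and `ψ(k + y) = exp(2πi Tr_∞(y_∞))`,
`Tr_∞ = ∑_u mult(u) Re`, which is `Tr_{K/ℚ}` on `K`, hence integral on `𝓞 K`.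
For `x` supported at `v` with `x_v = k ∈ 𝔭_v⁻¹` (integral elsewhere): `ψ(x) = exp(-2πi Tr k)`.
-/

set_option autoImplicit false

open NumberField IsDedekindDomain WithZero
open scoped nonZeroDivisors

noncomputable section

namespace Fermat.Agent.LT.A2.H709

open Fermat.Agent.LT.H556 Fermat.Agent.LT.A2 Fermat.Agent.LT.A2.WX467

variable (K : Type) [Field K] [NumberField K]

/-- `e(t) = exp(2πi t)`. -/
def e709 (t : ℝ) : ℂ := Complex.exp (2 * Real.pi * Complex.I * t)

theorem e_add709 (s t : ℝ) : e709 (s + t) = e709 s * e709 t := by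
  unfold e709
  rw [← Complex.exp_add]
  congr 1
  push_cast
  ring

theorem e_zero709 : e709 0 = 1 := by
  unfold e709
  simp

theorem e_int709 (n : ℤ) : e709 n = 1 := by
  unfold e709
  rw [Complex.exp_eq_one_iff]
  refine ⟨n, ?_⟩
  push_cast
  ring

theorem norm_e709 (t : ℝ) : ‖e709 t‖ = 1 := by
  unfold e709
  rw [Complex.norm_exp]
  simp

theorem continuous_e709 : Continuous e709 := by
  unfold e709
  fun_prop

theorem e_eq_one709 {t : ℝ} (h : e709 t = 1) : ∃ n : ℤ, t = n := by
  unfold e709 at h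
  rw [Complex.exp_eq_one_iff] at h
  obtain ⟨n, hn⟩ := h
  refine ⟨n, ?_⟩
  have h2 : (2 * Real.pi * Complex.I) * (t : ℂ) = (2 * Real.pi * Complex.I) * (n : ℂ) := by
    rw [hn]; ring
  have h3 : (2 * Real.pi * Complex.I : ℂ) ≠ 0 := by
    simp [Real.pi_ne_zero]
  have h4 := mul_left_cancel₀ h3 h2
  exact_mod_cast h4

/-- The open subgroup `K_∞ × ∏ 𝒪_v` of the adeles. -/
def wInt709 : AddSubgroup (A0.Adl K) where
  carrier := {x | ∀ v : HeightOneSpectrum (𝓞 K), x.2 v ∈ v.adicCompletionIntegers K}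
  zero_mem' := fun _ => zero_mem _
  add_mem' := fun ha hb v => add_mem (ha v) (hb v)
  neg_mem' := fun ha v => neg_mem (ha v)

theorem mem_wInt709 (x : A0.Adl K) :
    x ∈ wInt709 K ↔ ∀ v : HeightOneSpectrum (𝓞 K), x.2 v ∈ v.adicCompletionIntegers K :=
  Iff.rfl

theorem isOpen_wInt709 : IsOpen (wInt709 K : Set (A0.Adl K)) := by
  have h : IsOpen {a : FiniteAdeleRing (𝓞 K) K | ∀ v, a v ∈ v.adicCompletionIntegers K} :=
    RestrictedProduct.isOpen_forall_mem
      (R := fun v : HeightOneSpectrum (𝓞 K) => v.adicCompletion K)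
      (A := fun v => (v.adicCompletionIntegers K : Set (v.adicCompletion K)))
      (fun _ => Valued.isOpen_valuationSubring _)
  exact h.preimage continuous_snd

theorem exists_sub_mem_wInt709 (x : A0.Adl K) :
    ∃ k : K, x - algebraMap K (A0.Adl K) k ∈ wInt709 K := by
  obtain ⟨k, hk⟩ := Fermat.Agent.LT.H767.exists_sub_mem_integers K x.2
  exact ⟨k, fun v => hk v⟩


/-- The infinite part of the adele `x`, as a family. -/
def infPart709 (x : A0.Adl K) : (u : InfinitePlace K) → u.Completion := x.1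

theorem infPart_sub709 (x y : A0.Adl K) :
    infPart709 K (x - y) = infPart709 K x - infPart709 K y := rfl

theorem infPart_add709 (x y : A0.Adl K) :
    infPart709 K (x + y) = infPart709 K x + infPart709 K y := rfl

theorem infPart_algebraMap709 (k : K) :
    infPart709 K (algebraMap K (A0.Adl K) k)
      = fun u : InfinitePlace K => algebraMap K u.Completion k := rfl

theorem continuous_infPart709 : Continuous (infPart709 K) := continuous_fst

/-- A principal adele in `K_∞ × ∏ 𝒪_v` is an integer, so its trace is an integer. -/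
theorem trInf_principal_int709 (d : K) (hd : algebraMap K (A0.Adl K) d ∈ wInt709 K) :
    ∃ n : ℤ, trInf709 K (infPart709 K (algebraMap K (A0.Adl K) d)) = n := by
  have hall : ∀ v : HeightOneSpectrum (𝓞 K), v.valuation K d ≤ 1 := by
    intro v
    have h1 := hd v
    rw [HeightOneSpectrum.mem_adicCompletionIntegers] at h1
    have h2 : Valued.v (algebraMap K (v.adicCompletion K) d) = v.valuation K d :=
      HeightOneSpectrum.valuedAdicCompletion_eq_valuation' v d
    rw [← h2]
    exact h1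
  obtain ⟨a, ha⟩ := HeightOneSpectrum.mem_integers_of_valuation_le_one K d hall
  obtain ⟨n, hn⟩ := trInf_int709 K a
  refine ⟨n, ?_⟩
  rw [infPart_algebraMap709, ← ha]
  exact hn

/-- **The character**: `ψ(k + y) = e(Tr_∞ y_∞)` for `k ∈ K`, `y ∈ K_∞ × ∏ 𝒪_v`. -/
def psi709 (x : A0.Adl K) : ℂ :=
  e709 (trInf709 K (infPart709 K
    (x - algebraMap K (A0.Adl K) (Classical.choose (exists_sub_mem_wInt709 K x)))))

/-- The value of `ψ` does not depend on the decomposition. -/
theorem psi_eq709 (x : A0.Adl K) (k : K) (hk : x - algebraMap K (A0.Adl K) k ∈ wInt709 K) :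
    psi709 K x = e709 (trInf709 K (infPart709 K (x - algebraMap K (A0.Adl K) k))) := by
  have h0 := Classical.choose_spec (exists_sub_mem_wInt709 K x)
  set k₀ := Classical.choose (exists_sub_mem_wInt709 K x) with hk₀
  have hd : algebraMap K (A0.Adl K) (k - k₀) ∈ wInt709 K := by
    have h1 := (wInt709 K).sub_mem h0 hk
    have h2 : x - algebraMap K (A0.Adl K) k₀ - (x - algebraMap K (A0.Adl K) k)
        = algebraMap K (A0.Adl K) (k - k₀) := by
      rw [map_sub]; ring
    rwa [h2] at h1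
  obtain ⟨n, hn⟩ := trInf_principal_int709 K (k - k₀) hd
  have h3 : x - algebraMap K (A0.Adl K) k₀
      = (x - algebraMap K (A0.Adl K) k) + algebraMap K (A0.Adl K) (k - k₀) := by
    rw [map_sub]; ring
  unfold psi709
  rw [← hk₀, h3, infPart_add709, trInf_add709, hn, e_add709, e_int709, mul_one]

theorem psi_of_mem709 (x : A0.Adl K) (hx : x ∈ wInt709 K) :
    psi709 K x = e709 (trInf709 K (infPart709 K x)) := by
  have h := psi_eq709 K x 0 (by rwa [map_zero, sub_zero])
  rwa [map_zero, sub_zero] at h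

theorem psi_add709 (x y : A0.Adl K) : psi709 K (x + y) = psi709 K x * psi709 K y := by
  obtain ⟨k, hk⟩ := exists_sub_mem_wInt709 K x
  obtain ⟨l, hl⟩ := exists_sub_mem_wInt709 K y
  have hkl : x + y - algebraMap K (A0.Adl K) (k + l) ∈ wInt709 K := by
    have h1 := (wInt709 K).add_mem hk hl
    have h2 : x - algebraMap K (A0.Adl K) k + (y - algebraMap K (A0.Adl K) l)
        = x + y - algebraMap K (A0.Adl K) (k + l) := by
      rw [map_add]; ring
    rwa [h2] at h1
  rw [psi_eq709 K x k hk, psi_eq709 K y l hl, psi_eq709 K (x + y) (k + l) hkl, ← e_add709,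
    ← trInf_add709, ← infPart_add709]
  congr 3
  rw [map_add]; ring

theorem psi_principal709 (k : K) : psi709 K (algebraMap K (A0.Adl K) k) = 1 := by
  have hk : algebraMap K (A0.Adl K) k - algebraMap K (A0.Adl K) k ∈ wInt709 K := by
    rw [sub_self]; exact (wInt709 K).zero_mem
  rw [psi_eq709 K _ k hk, sub_self]
  have : infPart709 K (0 : A0.Adl K) = 0 := rfl
  rw [this, trInf_zero709, e_zero709]

theorem norm_psi709 (x : A0.Adl K) : ‖psi709 K x‖ = 1 := norm_e709 _

theorem continuous_psi709 : Continuous (psi709 K) := by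
  rw [continuous_iff_continuousAt]
  intro x₀
  have h0 : ContinuousAt (psi709 K) 0 := by
    have hc : Continuous fun x : A0.Adl K => e709 (trInf709 K (infPart709 K x)) :=
      continuous_e709.comp ((continuous_trInf709 K).comp (continuous_infPart709 K))
    refine hc.continuousAt.congr ?_
    have hW : (wInt709 K : Set (A0.Adl K)) ∈ nhds (0 : A0.Adl K) :=
      (isOpen_wInt709 K).mem_nhds (wInt709 K).zero_mem
    filter_upwards [hW] with x hx
    exact (psi_of_mem709 K x hx).symm
  have h1 : psi709 K = fun x => psi709 K x₀ * psi709 K (x - x₀) := by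
    funext x
    rw [← psi_add709]
    congr 1
    ring
  rw [h1]
  refine continuousAt_const.mul ?_
  have h2 : ContinuousAt (fun x : A0.Adl K => x - x₀) x₀ :=
    (continuous_id.sub continuous_const).continuousAt
  have h3 : ContinuousAt (psi709 K) ((fun x : A0.Adl K => x - x₀) x₀) := by
    simpa using h0
  exact ContinuousAt.comp (f := fun x : A0.Adl K => x - x₀) (g := psi709 K) h3 h2


theorem psi_nontriv709 : ∃ x : A0.Adl K, psi709 K x ≠ 1 := by
  set n : ℕ := Module.finrank ℚ K with hn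
  have hnpos : 0 < n := Module.finrank_pos
  set q : ℚ := 1 / (2 * n) with hq
  set k : K := algebraMap ℚ K q with hk
  set x : A0.Adl K := ((algebraMap K (A0.Adl K) k).1, 0) with hx
  have hxW : x ∈ wInt709 K := fun v => zero_mem _
  refine ⟨x, fun h => ?_⟩
  rw [psi_of_mem709 K x hxW] at h
  have h1 : infPart709 K x = fun u : InfinitePlace K => algebraMap K u.Completion k := rfl
  rw [h1, trInf_algebraMap709, hk, Algebra.trace_algebraMap] at h
  obtain ⟨m, hm⟩ := e_eq_one709 h
  rw [← hn, hq] at hm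
  have hn0 : (n : ℝ) ≠ 0 := by exact_mod_cast hnpos.ne'
  have h2 : ((n • (1 / (2 * (n : ℚ))) : ℚ) : ℝ) = 1 / 2 := by
    rw [nsmul_eq_mul]
    push_cast
    field_simp
  rw [h2] at hm
  have h3 : (2 : ℝ) * m = 1 := by rw [← hm]; norm_num
  have h4 : (2 : ℤ) * m = 1 := by exact_mod_cast h3
  omega

theorem isAdeleChar_psi709 : IsAdeleChar (psi709 K) where
  cont := continuous_psi709 K
  map_add := psi_add709 K
  norm_one := norm_psi709 K
  triv := psi_principal709 K
  nontriv := psi_nontriv709 K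

theorem goodPsi_psi709 (v : HeightOneSpectrum (𝓞 K))
    (hv : ¬ v.asIdeal ∣ differentIdeal ℤ (𝓞 K)) : GoodPsi (psi709 K) v := by
  classical
  refine ⟨?_, ?_⟩
  · intro x hx hxv
    have hxW : x ∈ wInt709 K := by
      intro w
      by_cases hw : w = v
      · subst hw; exact hxv
      · rw [hx.2 w hw]; exact zero_mem _
    rw [psi_of_mem709 K x hxW]
    have h1 : infPart709 K x = 0 := by
      funext u
      exact hx.1 u
    rw [h1, trInf_zero709, e_zero709]
  · obtain ⟨k, hkv, hkw, hktr⟩ := exists_trace_not_int709 K v hv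
    set xf : FiniteAdeleRing (𝓞 K) K :=
      RestrictedProduct.single (fun w : HeightOneSpectrum (𝓞 K) => w.adicCompletionIntegers K) v
        (algebraMap K (v.adicCompletion K) k) with hxf
    have hsame : xf v = algebraMap K (v.adicCompletion K) k :=
      RestrictedProduct.single_eq_same _ v _
    have hval : ∀ w : HeightOneSpectrum (𝓞 K),
        Valued.v (algebraMap K (w.adicCompletion K) k) = w.valuation K k := fun w =>
      HeightOneSpectrum.valuedAdicCompletion_eq_valuation' w k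
    have hne : ∀ w : HeightOneSpectrum (𝓞 K), w ≠ v → xf w = 0 := fun w hw =>
      RestrictedProduct.single_eq_of_ne _ _ hw
    set x : A0.Adl K := (0, xf) with hx
    refine ⟨x, ⟨fun w => rfl, fun w hw => hne w hw⟩, ?_, ?_⟩
    · show Valued.v (xf v) = exp (1 : ℤ)
      rw [hsame, hval v, hkv]
    · have hdec : x - algebraMap K (A0.Adl K) k ∈ wInt709 K := by
        intro w
        show xf w - algebraMap K (w.adicCompletion K) k ∈ w.adicCompletionIntegers K
        by_cases hw : w = v
        · subst hw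
          rw [hsame, sub_self]
          exact zero_mem _
        · rw [hne w hw, zero_sub, HeightOneSpectrum.mem_adicCompletionIntegers, Valuation.map_neg,
            hval w]
          exact hkw w hw
      rw [psi_eq709 K x k hdec]
      have h1 : infPart709 K (x - algebraMap K (A0.Adl K) k)
          = - fun u : InfinitePlace K => algebraMap K u.Completion k := by
        rw [infPart_sub709, infPart_algebraMap709]
        have : infPart709 K x = 0 := rfl
        rw [this, zero_sub]
      rw [h1, trInf_neg709, trInf_algebraMap709]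
      intro h
      obtain ⟨m, hm⟩ := e_eq_one709 h
      apply hktr (-m)
      push_cast
      linarith

/-- **A2.03.1.1.01 PSI** (`WX467.PsiC`, VERBATIM). -/
theorem psiC709 : PsiC := by
  intro K _ _ _
  classical
  have hfin : {v : HeightOneSpectrum (𝓞 K) | v.asIdeal ∣ differentIdeal ℤ (𝓞 K)}.Finite :=
    Ideal.finite_factors (differentIdeal_ne_bot)
  refine ⟨psi709 K, isAdeleChar_psi709 K, hfin.toFinset, fun v hv => ?_⟩
  refine goodPsi_psi709 K v ?_
  intro h
  exact hv (hfin.mem_toFinset.2 h)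

end Fermat.Agent.LT.A2.H709

end
end
-- ===== PACK-END LT/A2/H709/Psi.lean

-- ===== PACK-BEGIN LT/A2/H905/StdAA.lean
section


/-!
# Row LT, tower A2, leaf A2.03.1.3.4 `H753.StdAAC` (registry row 1298) -- helper905

OFF-MAIN.  `stdAAC905 : H753.StdAAC`, VERBATIM against `LT/A2/H753/RegSpec.lean`
(helper753@d32e3cf62, sha256 1258ecf1be299f69).

Route (the one of the row): `S = {v ∣ level} ∪ {v : an entry of g, g⁻¹, m, m⁻¹ is not integral
at v}`.  For `v ∉ S`: `FinAt.right_inv` at the pair `(1, 1)` with `k = g_v`, `κ = m_v` gives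
`F_v(g_v, m_v) = F_v(1, 1) = stdFn v` (`GoodAt.std`).  `InLevL`: the closure of the level at
`v ∤ level` contains `𝒪_v` (`mem_idealClosure_of_not_dvd905`: density of `K` in `K_v`,
`exists_valuation_sub_lt_of_integer`, an element of the level which is a unit at `v`);
`κ ∈ Tlev v` by `GoodAt.tlev`.
-/

set_option autoImplicit false

open IsDedekindDomain NumberField AutomorphicForm MeasureTheory
open scoped MatrixGroups Topology

noncomputable section

namespace Fermat.Agent.LT.A2.H905

open Fermat.Agent.LT.H130 Fermat.Agent.LT.H556 Fermat.Agent.LT.A2 Fermat.Agent.LT.A2.WX467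
open Fermat.Agent.LT.A2.H753

variable {K : Type} [Field K] [NumberField K]

/-- The valuation of the completion on the image of `K`. -/
theorem valued_algebraMap905 (v : HeightOneSpectrum (𝓞 K)) (k : K) :
    Valued.v (algebraMap K (v.adicCompletion K) k) = v.valuation K k :=
  HeightOneSpectrum.valuedAdicCompletion_eq_valuation' v k

/-- At a place `v` which does not divide `𝔫` the closure of `𝔫` in `K_v` contains `𝒪_v`. -/
theorem mem_idealClosure_of_not_dvd905 (𝔫 : Ideal (𝓞 K)) (v : HeightOneSpectrum (𝓞 K))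
    (hv : ¬ v.asIdeal ∣ 𝔫) (x : v.adicCompletion K) (hx : x ∈ v.adicCompletionIntegers K) :
    x ∈ A0.idealClosure 𝔫 v := by
  obtain ⟨a, ha𝔫, hav⟩ : ∃ a ∈ 𝔫, a ∉ v.asIdeal := by
    rw [Ideal.dvd_iff_le] at hv
    exact SetLike.not_le_iff_exists.mp hv
  set a' : v.adicCompletion K := algebraMap K (v.adicCompletion K) (algebraMap (𝓞 K) K a)
    with ha'
  have hva : Valued.v a' = 1 := by
    rw [ha', valued_algebraMap905]
    exact (HeightOneSpectrum.valuation_eq_one_iff_notMem v).mpr hav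
  have ha0 : a' ≠ 0 := by
    intro h0
    rw [h0, map_zero] at hva
    exact zero_ne_one hva
  have hx1 : Valued.v x ≤ 1 := (HeightOneSpectrum.mem_adicCompletionIntegers (𝓞 K) K v).mp hx
  unfold A0.idealClosure
  rw [mem_closure_iff_nhds]
  intro t ht
  rw [Valued.mem_nhds] at ht
  obtain ⟨γ, hγ⟩ := ht
  -- the radius in the value group
  set γ' : WithZero (Multiplicative ℤ) := MonoidWithZeroHom.ValueGroup₀.embedding γ.1 with hγ'
  have hγ0 : γ' ≠ 0 := by
    rw [hγ']
    intro h0
    have := (map_eq_zero_iff _ (MonoidWithZeroHom.ValueGroup₀.embedding_injective)).mp h0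
    exact γ.ne_zero this
  -- the point `x / a`
  set x' : v.adicCompletion K := x * a'⁻¹ with hx'
  have hvx' : Valued.v x' ≤ 1 := by
    rw [hx', map_mul, map_inv₀, hva, inv_one, mul_one]
    exact hx1
  have hax' : a' * x' = x := by
    rw [hx', mul_comm x, ← mul_assoc, mul_inv_cancel₀ ha0, one_mul]
  -- an element of `K` close to `x / a`
  have hmin0 : min γ.1 1 ≠ 0 := by
    rcases min_choice γ.1 (1 : MonoidWithZeroHom.ValueGroup₀ _) with h | h
    · rw [h]; exact γ.ne_zero
    · rw [h]; exact one_ne_zero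
  have hnh : {y : v.adicCompletion K | Valued.v.restrict (y - x') < min γ.1 1} ∈ 𝓝 x' :=
    Valued.mem_nhds.mpr ⟨Units.mk0 _ hmin0, fun y hy => hy⟩
  obtain ⟨z, hz⟩ := (HeightOneSpectrum.denseRange_algebraMap K v).mem_nhds hnh
  have hz1 : Valued.v (algebraMap K (v.adicCompletion K) z - x') < 1 :=
    (Valuation.restrict_lt_one_iff _).mp (lt_of_lt_of_le hz (min_le_right _ _))
  have hzγ : Valued.v (algebraMap K (v.adicCompletion K) z - x') < γ' :=
    (Valuation.restrict_lt_iff_lt_embedding _).mp (lt_of_lt_of_le hz (min_le_left _ _))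
  have hzint : v.valuation K z ≤ 1 := by
    rw [← valued_algebraMap905]
    have : algebraMap K (v.adicCompletion K) z
        = (algebraMap K (v.adicCompletion K) z - x') + x' := by ring
    rw [this]
    exact Valuation.map_add_le _ hz1.le hvx'
  obtain ⟨b, hb⟩ := HeightOneSpectrum.exists_valuation_sub_lt_of_integer v hzint
    (Units.mk0 γ' hγ0)
  rw [Units.val_mk0] at hb
  set b' : v.adicCompletion K := algebraMap K (v.adicCompletion K) (algebraMap (𝓞 K) K b)
    with hb'
  have hbz : Valued.v (b' - algebraMap K (v.adicCompletion K) z) < γ' := by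
    rw [hb', ← map_sub, valued_algebraMap905]
    exact hb
  have hbx : Valued.v (b' - x') < γ' := by
    have : b' - x' = (b' - algebraMap K (v.adicCompletion K) z)
        + (algebraMap K (v.adicCompletion K) z - x') := by ring
    rw [this]
    exact Valuation.map_add_lt _ hbz hzγ
  refine ⟨a' * b', hγ ?_, a * b, Ideal.mul_mem_right b 𝔫 ha𝔫, ?_⟩
  · show Valued.v.restrict (a' * b' - x) < γ.1
    rw [Valuation.restrict_lt_iff_lt_embedding]
    have : a' * b' - x = a' * (b' - x') := by rw [mul_sub, hax']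
    rw [this, map_mul, hva, one_mul]
    exact hbx
  · show algebraMap K (v.adicCompletion K) (algebraMap (𝓞 K) K (a * b)) = a' * b'
    rw [map_mul, map_mul]


/-! ## The component at a finite place -/

/-- The component at the finite place `v`, as a ring homomorphism. -/
def evalFin905 (v : HeightOneSpectrum (𝓞 K)) : A0.Adl K →+* v.adicCompletion K where
  toFun x := x.2 v
  map_one' := rfl
  map_mul' _ _ := rfl
  map_zero' := rfl
  map_add' _ _ := rfl

theorem finComp_eq_map905 (v : HeightOneSpectrum (𝓞 K)) (g : A0.G K) :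
    A0.finComp v g = (evalFin905 v).mapMatrix (g : Matrix (Fin 2) (Fin 2) (A0.Adl K)) := by
  ext i j
  rfl

theorem finComp_mul905 (v : HeightOneSpectrum (𝓞 K)) (g h : A0.G K) :
    A0.finComp v (g * h) = A0.finComp v g * A0.finComp v h := by
  rw [finComp_eq_map905, finComp_eq_map905, finComp_eq_map905, Units.val_mul, map_mul]

theorem finComp_one905 (v : HeightOneSpectrum (𝓞 K)) : A0.finComp v (1 : A0.G K) = 1 := by
  rw [finComp_eq_map905, Units.val_one, map_one]

theorem finComp_mul_inv905 (v : HeightOneSpectrum (𝓞 K)) (g : A0.G K) :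
    A0.finComp v g * A0.finComp v g⁻¹ = 1 := by
  rw [← finComp_mul905, mul_inv_cancel, finComp_one905]

theorem finComp_inv905 (v : HeightOneSpectrum (𝓞 K)) (g : A0.G K) :
    (A0.finComp v g)⁻¹ = A0.finComp v g⁻¹ :=
  Matrix.inv_eq_right_inv (finComp_mul_inv905 v g)

theorem finComp_det_ne_zero905 (v : HeightOneSpectrum (𝓞 K)) (g : A0.G K) :
    (A0.finComp v g).det ≠ 0 := by
  intro h
  have h1 := congrArg Matrix.det (finComp_mul_inv905 v g)
  rw [Matrix.det_mul, h, zero_mul, Matrix.det_one] at h1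
  exact zero_ne_one h1

/-! ## Almost all components are integral -/

/-- An adele is integral at almost all finite places. -/
theorem finite_nonint905 (x : A0.Adl K) :
    {v : HeightOneSpectrum (𝓞 K) | x.2 v ∉ v.adicCompletionIntegers K}.Finite :=
  Filter.eventually_cofinite.mp x.2.eventually

/-- The matrix of an element of `GL₂(𝔸_K)` is integral at almost all finite places. -/
theorem finite_nonint_mat905 (g : A0.G K) :
    {v : HeightOneSpectrum (𝓞 K) |
      ¬ ∀ i j : Fin 2, A0.finComp v g i j ∈ v.adicCompletionIntegers K}.Finite := by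
  refine Set.Finite.subset
    (Set.finite_iUnion fun i : Fin 2 => Set.finite_iUnion fun j : Fin 2 =>
      finite_nonint905 ((g : Matrix (Fin 2) (Fin 2) (A0.Adl K)) i j)) ?_
  intro v hv
  simp only [Set.mem_ofPred_eq, not_forall] at hv
  obtain ⟨i, j, hij⟩ := hv
  exact Set.mem_iUnion.mpr ⟨i, Set.mem_iUnion.mpr ⟨j, hij⟩⟩

/-- An integral matrix minus the identity is integral. -/
theorem sub_one_integral905 (v : HeightOneSpectrum (𝓞 K))
    (k : Matrix (Fin 2) (Fin 2) (v.adicCompletion K))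
    (hk : ∀ i j : Fin 2, k i j ∈ v.adicCompletionIntegers K) (i j : Fin 2) :
    (k - 1) i j ∈ v.adicCompletionIntegers K := by
  rw [Matrix.sub_apply, Matrix.one_apply]
  refine sub_mem (hk i j) ?_
  split_ifs
  · exact one_mem _
  · exact zero_mem _

/-! ## The leaf -/

/-- **LEAF A2.03.1.3.4 `StdAAC`** (R4): for an admissible pair almost all the finite local
functions are standard. -/
theorem stdAAC905 : StdAAC := by
  intro hDict K _ _ L hgood g m hAdm
  obtain ⟨hfin, -⟩ := hDict K L g m hAdm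
  have hlev : {v : HeightOneSpectrum (𝓞 K) | v.asIdeal ∣ L.π.level}.Finite :=
    Ideal.finite_factors L.π.level_ne_bot
  have hS := (((hlev.union (finite_nonint_mat905 g)).union (finite_nonint_mat905 g⁻¹)).union
    (finite_nonint_mat905 m)).union (finite_nonint_mat905 m⁻¹)
  refine ⟨hS.toFinset, fun v hv => ?_⟩
  rw [Set.Finite.mem_toFinset] at hv
  simp only [Set.mem_union, Set.mem_ofPred_eq, not_or, not_not] at hv
  obtain ⟨⟨⟨⟨hvl, hg⟩, hgi⟩, hm⟩, hmi⟩ := hv
  have hG := hgood.good v hvl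
  have hF := hgood.fin v
  obtain ⟨htor, hdet, hdet0⟩ := hfin v
  -- the closure of the level at `v` contains the integers
  have hcl : ∀ x : v.adicCompletion K, x ∈ v.adicCompletionIntegers K →
      x ∈ A0.idealClosure L.π.level v :=
    mem_idealClosure_of_not_dvd905 L.π.level v hvl
  -- `g_v` is in the level group
  have hInLev : InLevL L.π.level v (A0.finComp v g) := by
    refine ⟨finComp_det_ne_zero905 v g, fun i j => ⟨?_, ?_⟩⟩
    · exact hcl _ (sub_one_integral905 v _ hg i j)
    · rw [finComp_inv905]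
      exact hcl _ (sub_one_integral905 v _ hgi i j)
  -- `m_v` is in the level group of the torus
  have hTlev : A0.finComp v m ∈ L.Tlev v := by
    rw [hG.tlev]
    refine ⟨htor, hdet0, hm, ?_⟩
    rw [finComp_inv905]
    exact hmi
  -- the pair `(1, 1)` is admissible
  have hAdm1 : AdmL (L.tfin v) (L.nfin v)
      (1 : Matrix (Fin 2) (Fin 2) (v.adicCompletion K)) 1 := by
    refine ⟨⟨1, 0, ?_⟩, rfl, ?_⟩
    · unfold torMat
      ext i j
      fin_cases i <;> fin_cases j <;> simp
    · rw [Matrix.det_one]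
      exact one_ne_zero
  funext ξ
  have key := hF.right_inv (A0.finComp v g) (A0.finComp v m) hInLev hTlev hdet 1 1 ξ hAdm1
  rw [one_mul, one_mul] at key
  rw [key, hG.std]

end Fermat.Agent.LT.A2.H905

end
end
-- ===== PACK-END LT/A2/H905/StdAA.lean

-- ===== PACK-BEGIN LT/A2/H922/SuppProd.lean
section




/-!
# Row LT, tower A2, leaf A2.03.1.3.2 `H753.SuppProdC` (helper922) -- OFF-MAIN

`suppProdC922 : Fermat.Agent.LT.A2.H753.SuppProdC`, VERBATIM the Prop of
`LT/A2/H753/RegSpec.lean` (helper753@d32e3cf62, sha256 1258ecf1be299f69).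

* `isCompact_box922` (abstract, restricted products): a box `{y | ∀ i, y i ∈ C i}` with compact
  sides `C i`, equal to `A i` outside a finite set `S`, is compact in `Πʳ i, [R i, A i]`
  (it is the image of a compact box of the product under the continuous inclusion of the
  restricted product for the principal filter of `Sᶜ`).
* `B = B₁ ×ˢ B₂`, `B_i = {y : ∀ v, y v ∈ C_i v}`, `C_i v = pr_i (tsupport (f' v))` for `v ∈ S`,
  `C_i v = 𝒪_v` for `v ∉ S` (`𝒪_v` compact: `LT/H767/LocalCompact.lean`, Mathlib only).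
* Outside `B` one factor of the product vanishes and the multiplicative support is finite.
* `M = ∏_{v ∈ S} max 1 (sup ‖f' v‖)`.
-/

set_option autoImplicit false
set_option linter.style.haveILetI false

open IsDedekindDomain NumberField AutomorphicForm MeasureTheory Filter
open scoped MatrixGroups Topology RestrictedProduct

noncomputable section

namespace Fermat.Agent.LT.A2.H922

open Fermat.Agent.LT.H130 Fermat.Agent.LT.H556 Fermat.Agent.LT.A2 Fermat.Agent.LT.A2.WX467
open Fermat.Agent.LT.A2.H753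

/-! ## 1. Compact boxes in a restricted product -/

/-- A box with compact sides, equal to `A i` outside a finite set, is compact in the restricted
product `Πʳ i, [R i, A i]`. -/
theorem isCompact_box922 {ι : Type*} (R : ι → Type*) (A : ∀ i, Set (R i))
    [∀ i, TopologicalSpace (R i)] (S : Set ι) (hS : S.Finite) (C : ∀ i, Set (R i))
    (hC : ∀ i, IsCompact (C i)) (hCA : ∀ i, i ∉ S → C i = A i) :
    IsCompact {y : Πʳ i, [R i, A i] | ∀ i, y i ∈ C i} := by
  have hle : (cofinite : Filter ι) ≤ 𝓟 (Sᶜ) := by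
    rw [le_principal_iff]
    exact hS.compl_mem_cofinite
  have h1 : IsCompact {y : Πʳ i, [R i, A i]_[𝓟 (Sᶜ)] | ∀ i, y i ∈ C i} := by
    have hemb := RestrictedProduct.isEmbedding_coe_of_principal (R := R) (A := A) (S := Sᶜ)
    have hpre : {y : Πʳ i, [R i, A i]_[𝓟 (Sᶜ)] | ∀ i, y i ∈ C i}
        = (fun y : Πʳ i, [R i, A i]_[𝓟 (Sᶜ)] => (y : ∀ i, R i)) ⁻¹' (Set.univ.pi C) := by
      ext y
      simp [Set.mem_pi]
    rw [hpre, hemb.isInducing.isCompact_preimage_iff]
    · exact isCompact_univ_pi hC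
    · rw [RestrictedProduct.range_coe_principal]
      intro y hy i hi
      rw [← hCA i hi]
      exact hy i (Set.mem_univ i)
  have h2 : {y : Πʳ i, [R i, A i] | ∀ i, y i ∈ C i}
      = RestrictedProduct.inclusion R A hle '' {y | ∀ i, y i ∈ C i} := by
    ext y
    constructor
    · intro hy
      have hev : ∀ᶠ i in 𝓟 (Sᶜ), y i ∈ A i := by
        rw [eventually_principal]
        intro i hi
        rw [← hCA i hi]
        exact hy i
      obtain ⟨y', rfl⟩ := RestrictedProduct.exists_inclusion_eq_of_eventually R A hle hev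
      exact ⟨y', hy, rfl⟩
    · rintro ⟨y', hy', rfl⟩
      exact hy'
  rw [h2]
  exact h1.image (RestrictedProduct.continuous_inclusion hle)

/-! ## 2. The leaf -/

section Leaf

variable {K : Type} [Field K] [NumberField K]

/-- The sides of the box: `pr (tsupport (f' v))` at `v ∈ S`, `𝒪_v` at `v ∉ S`. -/
def side922 (S : Finset (HeightOneSpectrum (𝓞 K)))
    (f' : ∀ v : HeightOneSpectrum (𝓞 K), v.adicCompletion K × v.adicCompletion K → ℂ)
    (pr : ∀ v : HeightOneSpectrum (𝓞 K),
      v.adicCompletion K × v.adicCompletion K → v.adicCompletion K)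
    (v : HeightOneSpectrum (𝓞 K)) : Set (v.adicCompletion K) :=
  letI := Classical.propDecidable
  if v ∈ S then pr v '' tsupport (f' v) else (v.adicCompletionIntegers K : Set _)

theorem side_of_mem922 {S : Finset (HeightOneSpectrum (𝓞 K))}
    (f' : ∀ v : HeightOneSpectrum (𝓞 K), v.adicCompletion K × v.adicCompletion K → ℂ)
    (pr : ∀ v : HeightOneSpectrum (𝓞 K),
      v.adicCompletion K × v.adicCompletion K → v.adicCompletion K)
    {v : HeightOneSpectrum (𝓞 K)} (hv : v ∈ S) :
    side922 S f' pr v = pr v '' tsupport (f' v) := by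
  unfold side922
  rw [if_pos hv]

theorem side_of_not_mem922 {S : Finset (HeightOneSpectrum (𝓞 K))}
    (f' : ∀ v : HeightOneSpectrum (𝓞 K), v.adicCompletion K × v.adicCompletion K → ℂ)
    (pr : ∀ v : HeightOneSpectrum (𝓞 K),
      v.adicCompletion K × v.adicCompletion K → v.adicCompletion K)
    {v : HeightOneSpectrum (𝓞 K)} (hv : v ∉ S) :
    side922 S f' pr v = (v.adicCompletionIntegers K : Set _) := by
  unfold side922
  rw [if_neg hv]

theorem isCompact_side922 (S : Finset (HeightOneSpectrum (𝓞 K)))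
    (f' : ∀ v : HeightOneSpectrum (𝓞 K), v.adicCompletion K × v.adicCompletion K → ℂ)
    (hf : ∀ v, HasCompactSupport (f' v))
    (pr : ∀ v : HeightOneSpectrum (𝓞 K),
      v.adicCompletion K × v.adicCompletion K → v.adicCompletion K)
    (hpr : ∀ v, Continuous (pr v)) (v : HeightOneSpectrum (𝓞 K)) :
    IsCompact (side922 S f' pr v) := by
  classical
  by_cases hv : v ∈ S
  · rw [side_of_mem922 f' pr hv]
    exact (hf v).isCompact.image (hpr v)
  · rw [side_of_not_mem922 f' pr hv]
    exact Fermat.Agent.LT.H767.isCompact_adicCompletionIntegers K v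

/-- The box of the finite adeles with the sides `side922`. -/
def box922 (S : Finset (HeightOneSpectrum (𝓞 K)))
    (f' : ∀ v : HeightOneSpectrum (𝓞 K), v.adicCompletion K × v.adicCompletion K → ℂ)
    (pr : ∀ v : HeightOneSpectrum (𝓞 K),
      v.adicCompletion K × v.adicCompletion K → v.adicCompletion K) :
    Set (FiniteAdeleRing (𝓞 K) K) :=
  {y | ∀ v, y v ∈ side922 S f' pr v}

theorem isCompact_box_adele922 (S : Finset (HeightOneSpectrum (𝓞 K)))
    (f' : ∀ v : HeightOneSpectrum (𝓞 K), v.adicCompletion K × v.adicCompletion K → ℂ)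
    (hf : ∀ v, HasCompactSupport (f' v))
    (pr : ∀ v : HeightOneSpectrum (𝓞 K),
      v.adicCompletion K × v.adicCompletion K → v.adicCompletion K)
    (hpr : ∀ v, Continuous (pr v)) : IsCompact (box922 S f' pr) :=
  isCompact_box922 (fun v : HeightOneSpectrum (𝓞 K) => v.adicCompletion K)
    (fun v => (v.adicCompletionIntegers K : Set (v.adicCompletion K)))
    (S : Set (HeightOneSpectrum (𝓞 K))) S.finite_toSet (side922 S f' pr)
    (isCompact_side922 S f' hf pr hpr)
    (fun v hv => side_of_not_mem922 f' pr (by simpa using hv))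

/-- A finite adele is integral at almost all places. -/
theorem finite_not_integral922 (y : FiniteAdeleRing (𝓞 K) K) :
    {v : HeightOneSpectrum (𝓞 K) | y v ∉ v.adicCompletionIntegers K}.Finite := by
  have h := y.2
  rw [Filter.eventually_cofinite] at h
  exact h

/-- The multiplicative support of the finite product is finite. -/
theorem mulSupport_finite922 (S : Finset (HeightOneSpectrum (𝓞 K)))
    (f' : ∀ v : HeightOneSpectrum (𝓞 K), v.adicCompletion K × v.adicCompletion K → ℂ)
    (hS : ∀ v, v ∉ S → f' v = stdFn v) (ξ : A0.Adl K × A0.Adl K) :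
    (Function.mulSupport fun v : HeightOneSpectrum (𝓞 K) => f' v (finVec v ξ)).Finite := by
  refine ((S.finite_toSet.union (finite_not_integral922 ξ.1.2)).union
    (finite_not_integral922 ξ.2.2)).subset ?_
  intro v hv
  rw [Function.mem_mulSupport] at hv
  by_contra hcon
  simp only [Set.mem_union, Finset.mem_coe, Set.mem_ofPred_eq, not_or, not_not] at hcon
  obtain ⟨⟨h1, h2⟩, h3⟩ := hcon
  apply hv
  rw [hS v h1]
  unfold stdFn
  rw [if_pos]
  exact ⟨h2, h3⟩

/-- **LEAF A2.03.1.3.2 `SuppProdC`.** -/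
theorem suppProdC922 : SuppProdC := by
  classical
  intro K _ _ f' hf hstd
  obtain ⟨S, hS⟩ := hstd
  -- bounds of the factors
  have hbd : ∀ v, ∃ C : ℝ, ∀ x, ‖f' v x‖ ≤ C := fun v =>
    (hf v).1.bounded_above_of_compact_support (hf v).2
  choose Cb hCb using hbd
  refine ⟨box922 S f' (fun _ => Prod.fst) ×ˢ box922 S f' (fun _ => Prod.snd),
    ∏ v ∈ S, max 1 (Cb v), ?_, ?_, ?_⟩
  · exact (isCompact_box_adele922 S f' (fun v => (hf v).2) _ (fun _ => continuous_fst)).prod
      (isCompact_box_adele922 S f' (fun v => (hf v).2) _ (fun _ => continuous_snd))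
  · exact Finset.prod_nonneg fun v _ => le_trans zero_le_one (le_max_left _ _)
  · intro ξ
    have hfin := mulSupport_finite922 S f' hS ξ
    constructor
    · intro hB
      -- a factor vanishes
      have key : ∃ v, f' v (finVec v ξ) = 0 := by
        by_contra hne'
        have hne : ∀ v, f' v (finVec v ξ) ≠ 0 := fun v hv => hne' ⟨v, hv⟩
        apply hB
        have hmem : ∀ v, finVec v ξ ∈ tsupport (f' v) := fun v =>
          subset_tsupport _ (Function.mem_support.mpr (hne v))
        have hint : ∀ v, v ∉ S → (finVec v ξ).1 ∈ v.adicCompletionIntegers K ∧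
            (finVec v ξ).2 ∈ v.adicCompletionIntegers K := by
          intro v hv
          have h1 := hne v
          rw [hS v hv] at h1
          unfold stdFn at h1
          by_contra hcon
          rw [if_neg hcon] at h1
          exact h1 rfl
        refine Set.mem_prod.mpr ⟨fun v => ?_, fun v => ?_⟩
        · by_cases hv : v ∈ S
          · rw [side_of_mem922 f' _ hv]
            exact ⟨finVec v ξ, hmem v, rfl⟩
          · rw [side_of_not_mem922 f' _ hv]
            exact (hint v hv).1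
        · by_cases hv : v ∈ S
          · rw [side_of_mem922 f' _ hv]
            exact ⟨finVec v ξ, hmem v, rfl⟩
          · rw [side_of_not_mem922 f' _ hv]
            exact (hint v hv).2
      obtain ⟨v, hv⟩ := key
      exact finprod_eq_zero _ v hv hfin
    · -- the bound
      have hsub : (Function.mulSupport fun v : HeightOneSpectrum (𝓞 K) => f' v (finVec v ξ))
          ⊆ ((S ∪ hfin.toFinset : Finset _) : Set _) := by
        intro v hv
        rw [Finset.coe_union]
        exact Or.inr (by simpa using hv)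
      rw [finprod_eq_prod_of_mulSupport_subset _ hsub, norm_prod]
      have hone : ∀ v, v ∉ S → ‖f' v (finVec v ξ)‖ ≤ 1 := by
        intro v hv
        rw [hS v hv]
        unfold stdFn
        split_ifs <;> simp
      calc ∏ v ∈ S ∪ hfin.toFinset, ‖f' v (finVec v ξ)‖
          ≤ ∏ v ∈ S ∪ hfin.toFinset, (if v ∈ S then max 1 (Cb v) else 1) := by
            refine Finset.prod_le_prod (fun v _ => norm_nonneg _) (fun v _ => ?_)
            by_cases hv : v ∈ S
            · rw [if_pos hv]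
              exact le_trans (hCb v _) (le_max_right _ _)
            · rw [if_neg hv]
              exact hone v hv
        _ = ∏ v ∈ S, (if v ∈ S then max 1 (Cb v) else 1) := by
            refine (Finset.prod_subset Finset.subset_union_left ?_).symm
            intro v _ hv
            rw [if_neg hv]
        _ = ∏ v ∈ S, max 1 (Cb v) := by
            refine Finset.prod_congr rfl fun v hv => ?_
            rw [if_pos hv]

end Leaf

end Fermat.Agent.LT.A2.H922

end

end
-- ===== PACK-END LT/A2/H922/SuppProd.lean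

-- ===== PACK-BEGIN LT/A2/H96/LocUniq.lean
section


/-!
# Row LT, tower A2, leaf A2.03.1.1.07 `WX467.LocUniqC` (helper96) -- OFF-MAIN

A family with the local axioms `WX467.LocAx` is determined on the admissible pairs by its
initial vector `F 1 1`:

* `LocAx.tor` reduces `(g, m)` to `(d(det m)⁻¹ g, 1)`, i.e. to `h ∈ SL₂(k)`, `m = 1`;
* Bruhat: `h = n(x) t(a)` (`h 1 0 = 0`) or `h = n(x) t(a) w n(y)` (`h 1 0 ≠ 0`), and the axioms
  `unip`, `diag`, `weyl` express `F h 1` through `F 1 1`.

Purely algebraic (no measure theory: the integral of `weyl` is only rewritten under `intL`).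
-/

set_option autoImplicit false

open MeasureTheory

noncomputable section

namespace Fermat.Agent.LT.A2.H96

open Fermat.Agent.LT.A2 Fermat.Agent.LT.A2.WX467

section Algebra

variable {k : Type} [Field k]

/-- `1 ∈ T(k)`. -/
theorem inTorL_one96 (t n : k) : InTorL t n (1 : Matrix (Fin 2) (Fin 2) k) := by
  refine ⟨1, 0, ?_⟩
  ext i j
  fin_cases i <;> fin_cases j <;> simp [torMat]

/-- `(h, 1)` is admissible for `h ∈ SL₂(k)`. -/
theorem admL_one96 (t n : k) {h : Matrix (Fin 2) (Fin 2) k} (hh : h.det = 1) :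
    AdmL t n h 1 :=
  ⟨inTorL_one96 t n, by simp [hh], by simp⟩

/-- Bruhat, small cell. -/
theorem decomp_upper96 (h : Matrix (Fin 2) (Fin 2) k) (hdet : h.det = 1) (hc : h 1 0 = 0) :
    h 0 0 ≠ 0 ∧
      h = !![1, h 0 1 * h 0 0; 0, 1] * (!![h 0 0, 0; 0, (h 0 0)⁻¹] * 1) := by
  have hd : h 0 0 * h 1 1 = 1 := by
    rw [Matrix.det_fin_two, hc] at hdet
    simpa using hdet
  have ha : h 0 0 ≠ 0 := left_ne_zero_of_mul_eq_one hd
  have hinv : (h 0 0)⁻¹ = h 1 1 := inv_eq_of_mul_eq_one_right hd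
  refine ⟨ha, ?_⟩
  rw [Matrix.mul_one, Matrix.mul_fin_two]
  conv_lhs => rw [Matrix.eta_fin_two h]
  rw [hc, hinv]
  congr 1
  ext i j
  fin_cases i <;> fin_cases j <;> simp
  · have : h 0 1 * h 0 0 * h 1 1 = h 0 1 := by rw [mul_assoc, hd, mul_one]
    exact this.symm

/-- Bruhat, big cell. -/
theorem decomp_big96 (h : Matrix (Fin 2) (Fin 2) k) (hdet : h.det = 1) (hc : h 1 0 ≠ 0) :
    h = !![1, h 0 0 / h 1 0; 0, 1] * (!![-(h 1 0)⁻¹, 0; 0, (-(h 1 0)⁻¹)⁻¹] *
      (!![0, 1; -1, 0] * (!![1, h 1 1 / h 1 0; 0, 1] * 1))) := by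
  have hd : h 0 0 * h 1 1 - h 0 1 * h 1 0 = 1 := by
    rw [Matrix.det_fin_two] at hdet
    exact hdet
  rw [Matrix.mul_one, Matrix.mul_fin_two, Matrix.mul_fin_two, Matrix.mul_fin_two]
  conv_lhs => rw [Matrix.eta_fin_two h]
  congr 1
  ext i j
  fin_cases i <;> fin_cases j <;> simp <;> field_simp
  · linear_combination (-1 : k) * hd

end Algebra

section Axioms

variable {k : Type} [Field k] [TopologicalSpace k] {absv : k → ℝ} {t n : k} {ψ : k → ℂ}
  {μ : @Measure k (borel k)} {γ : ℂ} {η : k → ℂ}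
  {F : Matrix (Fin 2) (Fin 2) k → Matrix (Fin 2) (Fin 2) k → k × k → ℂ}

/-- The value of the family on the small cell. -/
theorem upper96 (hF : LocAx absv t n ψ μ γ η F) (x a : k) (ha : a ≠ 0) (ξ : k × k) :
    F (!![1, x; 0, 1] * (!![a, 0; 0, a⁻¹] * 1)) 1 ξ
      = ψ (x * qfL t n ξ) * (η a * ((absv a : ℝ) : ℂ) * F 1 1 (a • ξ)) := by
  have h1 : AdmL t n (1 : Matrix (Fin 2) (Fin 2) k) 1 := admL_one96 t n (by simp)
  have h2 : AdmL t n (!![a, 0; 0, a⁻¹] * 1 : Matrix (Fin 2) (Fin 2) k) 1 :=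
    admL_one96 t n (by simp [Matrix.det_fin_two, ha])
  rw [hF.unip x _ 1 ξ h2, hF.diag a ha 1 1 ξ h1]

/-- The value of the family on the big cell. -/
theorem big96 (hF : LocAx absv t n ψ μ γ η F) (x a y : k) (ha : a ≠ 0) (ξ : k × k) :
    F (!![1, x; 0, 1] * (!![a, 0; 0, a⁻¹] * (!![0, 1; -1, 0] * (!![1, y; 0, 1] * 1)))) 1 ξ
      = ψ (x * qfL t n ξ) * (η a * ((absv a : ℝ) : ℂ) *
          (γ * intL μ fun z => ψ (y * qfL t n z) * F 1 1 z * ψ (bfL t n (a • ξ) z))) := by
  have h1 : AdmL t n (1 : Matrix (Fin 2) (Fin 2) k) 1 := admL_one96 t n (by simp)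
  have h2 : AdmL t n (!![1, y; 0, 1] * 1 : Matrix (Fin 2) (Fin 2) k) 1 :=
    admL_one96 t n (by simp [Matrix.det_fin_two])
  have h3 : AdmL t n (!![0, 1; -1, 0] * (!![1, y; 0, 1] * 1) : Matrix (Fin 2) (Fin 2) k) 1 :=
    admL_one96 t n (by simp [Matrix.det_fin_two])
  have h4 : AdmL t n (!![a, 0; 0, a⁻¹] * (!![0, 1; -1, 0] * (!![1, y; 0, 1] * 1)) :
      Matrix (Fin 2) (Fin 2) k) 1 :=
    admL_one96 t n (by simp [Matrix.det_fin_two, ha])
  have hfun : (fun z => F (!![1, y; 0, 1] * 1) 1 z * ψ (bfL t n (a • ξ) z))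
      = fun z => ψ (y * qfL t n z) * F 1 1 z * ψ (bfL t n (a • ξ) z) := by
    funext z
    rw [hF.unip y 1 1 z h1]
  rw [hF.unip x _ 1 ξ h4, hF.diag a ha _ 1 ξ h3, hF.weyl _ 1 (a • ξ) h2, hfun]

/-- Two families with the same initial vector agree on `SL₂(k) × {1}`. -/
theorem eq_on_sl96 {F' : Matrix (Fin 2) (Fin 2) k → Matrix (Fin 2) (Fin 2) k → k × k → ℂ}
    (hF : LocAx absv t n ψ μ γ η F) (hF' : LocAx absv t n ψ μ γ η F')
    (h11 : F 1 1 = F' 1 1) (h : Matrix (Fin 2) (Fin 2) k) (hdet : h.det = 1) :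
    F h 1 = F' h 1 := by
  funext ξ
  by_cases hc : h 1 0 = 0
  · obtain ⟨ha, hdec⟩ := decomp_upper96 h hdet hc
    rw [hdec, upper96 hF _ _ ha ξ, upper96 hF' _ _ ha ξ, h11]
  · have ha : -(h 1 0)⁻¹ ≠ 0 := neg_ne_zero.mpr (inv_ne_zero hc)
    rw [decomp_big96 h hdet hc, big96 hF _ _ _ ha ξ, big96 hF' _ _ _ ha ξ, h11]

end Axioms

/-- **Leaf A2.03.1.1.07 `WX467.LocUniqC`**, VERBATIM. -/
theorem locUniqC96 : WX467.LocUniqC := by
  intro k _ _ absv t n ψ μ γ η F F' hpos hF hF' h11 g m hgm
  obtain ⟨htor, hdet, hne⟩ := hgm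
  -- reduction to `SL₂(k) × {1}` by the torus axiom
  have hg0 : (!![1, 0; 0, m.det⁻¹] * g : Matrix (Fin 2) (Fin 2) k).det = 1 := by
    rw [Matrix.det_mul, Matrix.det_fin_two_of, hdet]
    simp [hne]
  have hadm : AdmL t n (!![1, 0; 0, m.det⁻¹] * g) 1 := admL_one96 t n hg0
  have hback : (!![1, 0; 0, m.det] * (!![1, 0; 0, m.det⁻¹] * g) : Matrix (Fin 2) (Fin 2) k)
      = g := by
    have hone : (!![1, 0; 0, m.det] * !![1, 0; 0, m.det⁻¹] : Matrix (Fin 2) (Fin 2) k) = 1 := by
      rw [Matrix.mul_fin_two, Matrix.one_fin_two]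
      simp [hne]
    rw [← Matrix.mul_assoc, hone, Matrix.one_mul]
  have hsl := eq_on_sl96 hF hF' h11 _ hg0
  have hsq : ((Real.sqrt (absv m.det) : ℝ) : ℂ) ≠ 0 := by
    have : 0 < Real.sqrt (absv m.det) := Real.sqrt_pos.mpr (hpos _ hne)
    exact_mod_cast this.ne'
  funext ξ
  have e1 := hF.tor m htor hne _ 1 ξ hadm
  have e2 := hF'.tor m htor hne _ 1 ξ hadm
  rw [hback, Matrix.mul_one] at e1 e2
  rw [hsl] at e1
  exact mul_left_cancel₀ hsq (e1.trans e2.symm)

end Fermat.Agent.LT.A2.H96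

end

end
-- ===== PACK-END LT/A2/H96/LocUniq.lean

-- ===== PACK-BEGIN LT/T2/H386/SoftCoreF.lean
section












/-!
# Row LT, T2.03b in the CORE form (helper386): `R(f)ψ - R(f)Ψ = R((1 - 𝔄_x)^{j+1} f) ψ` at `x`

OFF-MAIN.  `Soft1F.lean` for a continuous, bounded, left `GL₂(K)`-invariant `ψ`.
-/

set_option autoImplicit false
set_option linter.unusedSectionVars false
set_option linter.style.haveILetI false

open IsDedekindDomain NumberField MeasureTheory
open scoped Pointwise
open Fermat.Agent.LT.H556.A0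

noncomputable section

namespace Fermat.Agent.LT.T2.H386

open Fermat.Agent.LT.T2

attribute [local instance] Fermat.Agent.LT.T2.borelG

variable {K : Type} [Field K] [NumberField K]

attribute [local instance] borelAdl386 borelSpaceAdl386 borelSpaceG386

section

variable [LocallyCompactSpace (G K)] [SecondCountableTopology (G K)] [T2Space (G K)]
  [LocallyCompactSpace (Adl K)] [SecondCountableTopology (Adl K)] [T2Space (Adl K)]

/-- The data of the soft part, core form: Haar measures, a fundamental domain, a bounded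
continuous function and its constant term. -/
structure SoftCore386 (K : Type) [Field K] [NumberField K] where
  μ : Measure (G K)
  hμ : μ.IsHaarMeasure
  ν : Measure (Adl K)
  hν : ν.IsAddHaarMeasure
  D : Set (Adl K)
  hDm : MeasurableSet D
  hD : IsAddFundamentalDomain (T1.princ K) D ν
  hDc : IsCompact (closure D)
  hD0 : ν D ≠ 0
  hDtop : ν D ≠ ⊤
  ψ : G K → ℂ
  Ψ : G K → ℂ
  hψc : Continuous ψ
  hψb : ∃ C : ℝ, ∀ g : G K, ‖ψ g‖ ≤ C
  hΨ : IsConstTerm ψ Ψ

namespace SoftCore386

variable (S : SoftCore386 K)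

theorem c_ne_zero : (((S.ν S.D).toReal : ℝ) : ℂ) ≠ 0 := by
  have : (S.ν S.D).toReal ≠ 0 := ENNReal.toReal_ne_zero.mpr ⟨S.hD0, S.hDtop⟩
  exact_mod_cast this

/-- `∫ Ψ(x h) g(h) dμ(h) = ∫ ψ(x h) (𝔄_x g)(h) dμ(h)`. -/
theorem int_Psi_eq_psi_avg (x : G K) {g : G K → ℂ} (hg : Continuous g)
    (hgc : HasCompactSupport g) :
    ∫ h, S.Ψ (x * h) * g h ∂S.μ = ∫ h, S.ψ (x * h) * avgOp386 S.ν S.D x g h ∂S.μ := by
  haveI := S.hμ
  haveI := S.hν
  obtain ⟨C, hC⟩ := S.hψb
  have hfub := fubini386 S.μ S.ν S.D S.hDm S.hDtop S.hDc x S.ψ g S.hψc C hC hg hgc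
  have e1 : ∀ h, (∫ v in S.D, S.ψ (unip386 v * (x * h)) ∂S.ν) * g h
      = (((S.ν S.D).toReal : ℝ) : ℂ) * (S.Ψ (x * h) * g h) := by
    intro h
    rw [constTerm_eq386 S.hΨ S.ν S.hν S.D S.hD (x * h), mul_assoc]
  have e2 : ∀ h, S.ψ (x * h) * (∫ v in S.D, g (conjUnip386 x (-v) * h) ∂S.ν)
      = (((S.ν S.D).toReal : ℝ) : ℂ) * (S.ψ (x * h) * avgOp386 S.ν S.D x g h) := by
    intro h
    have hc := S.c_ne_zero
    unfold avgOp386
    field_simp
  simp_rw [e1, e2] at hfub
  rw [integral_const_mul, integral_const_mul] at hfub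
  exact mul_left_cancel₀ S.c_ne_zero hfub

/-- The constant term is continuous and bounded. -/
theorem Psi_cont : Continuous S.Ψ :=
  constTerm_continuous386 S.hψc S.hΨ S.ν S.hν S.D S.hD S.hD0 S.hDtop S.hDc

/-- `∫ Ψ(x h) g(h) dμ(h) = ∫ Ψ(x h) (𝔄_x g)(h) dμ(h)`. -/
theorem int_Psi_eq_Psi_avg (x : G K) {g : G K → ℂ} (hg : Continuous g)
    (hgc : HasCompactSupport g) :
    ∫ h, S.Ψ (x * h) * g h ∂S.μ = ∫ h, S.Ψ (x * h) * avgOp386 S.ν S.D x g h ∂S.μ := by
  haveI := S.hμ
  haveI := S.hν
  obtain ⟨C, hC⟩ := S.hψb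
  have hCΨ : ∀ y, ‖S.Ψ y‖ ≤ C :=
    constTerm_bound386 S.hΨ S.ν S.hν S.D S.hD S.hD0 S.hDtop C hC
  have hfub := fubini386 S.μ S.ν S.D S.hDm S.hDtop S.hDc x S.Ψ g S.Psi_cont C hCΨ hg hgc
  have e1 : ∀ h, (∫ v in S.D, S.Ψ (unip386 v * (x * h)) ∂S.ν) * g h
      = (((S.ν S.D).toReal : ℝ) : ℂ) * (S.Ψ (x * h) * g h) := by
    intro h
    have : ∀ v : Adl K, S.Ψ (unip386 v * (x * h)) = S.Ψ (x * h) := fun v =>
      constTerm_unip386 S.hΨ S.ν S.hν S.D S.hD S.hD0 S.hDtop v (x * h)
    simp_rw [this]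
    rw [setIntegral_const, Complex.real_smul, mul_assoc]
    rfl
  have e2 : ∀ h, S.Ψ (x * h) * (∫ v in S.D, g (conjUnip386 x (-v) * h) ∂S.ν)
      = (((S.ν S.D).toReal : ℝ) : ℂ) * (S.Ψ (x * h) * avgOp386 S.ν S.D x g h) := by
    intro h
    have hc := S.c_ne_zero
    unfold avgOp386
    field_simp
  simp_rw [e1, e2] at hfub
  rw [integral_const_mul, integral_const_mul] at hfub
  exact mul_left_cancel₀ S.c_ne_zero hfub

/-- Integrability of `h ↦ θ(x h) k(h)`. -/
theorem integrable_mul386 (x : G K) {θ k : G K → ℂ} (hθ : Continuous θ) (hk : Continuous k)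
    (hkc : HasCompactSupport k) : Integrable (fun h => θ (x * h) * k h) S.μ := by
  haveI := S.hμ
  exact ((hθ.comp (continuous_const.mul continuous_id)).mul hk).integrable_of_hasCompactSupport
    hkc.mul_left

/-- **The identity**: `R(f)ψ(x) - R(f)Ψ(x) = ∫ ψ(x h) ((1 - 𝔄_x)^{j+1} f)(h) dμ(h)`, and
`∫ Ψ(x h) ((1 - 𝔄_x)^{j+1} f)(h) dμ(h) = 0`. -/
theorem int_ker (x : G K) {f : G K → ℂ} (hf : Continuous f) (hfc : HasCompactSupport f)
    (j : ℕ) :
    ∫ h, S.ψ (x * h) * ker386 S.ν S.D x (j + 1) f h ∂S.μ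
        = ∫ h, S.ψ (x * h) * f h ∂S.μ - ∫ h, S.Ψ (x * h) * f h ∂S.μ ∧
      ∫ h, S.Ψ (x * h) * ker386 S.ν S.D x (j + 1) f h ∂S.μ = 0 := by
  haveI := S.hμ
  obtain ⟨C, hC⟩ := hfc.exists_bound_of_continuous hf
  -- properties of all kernels
  have hW : ∀ v ∈ S.D, conjUnip386 x v ∈ conjUnip386 x '' closure S.D :=
    fun v hv => ⟨v, subset_closure hv, rfl⟩
  have hWc : IsCompact (conjUnip386 x '' closure S.D) :=
    S.hDc.image (continuous_conjUnip386 x)
  have hT : ∀ y, f y ≠ 0 → y ∈ tsupport f := fun y hy => subset_closure hy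
  have hprops := fun i => ker386_props S.ν S.D S.hD0 S.hDtop S.hDc x hf C hC hW hT i
  have hkc : ∀ i, HasCompactSupport (ker386 S.ν S.D x i f) := fun i =>
    HasCompactSupport.intro (isCompact_suppSeq386 hWc hfc i) (fun y hy => by
      by_contra hne
      exact hy ((hprops i).2.2 y hne))
  have hac : ∀ i, HasCompactSupport (avgOp386 S.ν S.D x (ker386 S.ν S.D x i f)) := fun i =>
    HasCompactSupport.intro (hWc.mul (isCompact_suppSeq386 hWc hfc i)) (fun y hy => by
      by_contra hne
      exact hy (avgOp386_support S.ν S.D x hW (hprops i).2.2 y hne))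
  have hacont : ∀ i, Continuous (avgOp386 S.ν S.D x (ker386 S.ν S.D x i f)) := fun i =>
    continuous_avgOp386 S.ν S.D S.hDtop S.hDc x (hprops i).1
  -- one step, for `θ = ψ` and `θ = Ψ`
  have stepψ : ∀ i, ∫ h, S.ψ (x * h) * ker386 S.ν S.D x (i + 1) f h ∂S.μ
      = ∫ h, S.ψ (x * h) * ker386 S.ν S.D x i f h ∂S.μ
        - ∫ h, S.Ψ (x * h) * ker386 S.ν S.D x i f h ∂S.μ := by
    intro i
    rw [S.int_Psi_eq_psi_avg x (hprops i).1 (hkc i),
      ← integral_sub (S.integrable_mul386 x S.hψc (hprops i).1 (hkc i))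
        (S.integrable_mul386 x S.hψc (hacont i) (hac i))]
    refine integral_congr_ae (Filter.Eventually.of_forall fun h => ?_)
    show S.ψ (x * h) * (ker386 S.ν S.D x i f h - avgOp386 S.ν S.D x (ker386 S.ν S.D x i f) h)
      = _
    rw [mul_sub]
  have stepΨ : ∀ i, ∫ h, S.Ψ (x * h) * ker386 S.ν S.D x (i + 1) f h ∂S.μ = 0 := by
    intro i
    have h1 : ∫ h, S.Ψ (x * h) * ker386 S.ν S.D x (i + 1) f h ∂S.μ
        = ∫ h, S.Ψ (x * h) * ker386 S.ν S.D x i f h ∂S.μ
          - ∫ h, S.Ψ (x * h) * avgOp386 S.ν S.D x (ker386 S.ν S.D x i f) h ∂S.μ := by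
      rw [← integral_sub (S.integrable_mul386 x S.Psi_cont (hprops i).1 (hkc i))
        (S.integrable_mul386 x S.Psi_cont (hacont i) (hac i))]
      refine integral_congr_ae (Filter.Eventually.of_forall fun h => ?_)
      show S.Ψ (x * h) * (ker386 S.ν S.D x i f h - avgOp386 S.ν S.D x (ker386 S.ν S.D x i f) h)
        = _
      rw [mul_sub]
    rw [h1, ← S.int_Psi_eq_Psi_avg x (hprops i).1 (hkc i), sub_self]
  refine ⟨?_, stepΨ j⟩
  induction j with
  | zero => exact stepψ 0
  | succ j ih => rw [stepψ (j + 1), stepΨ j, sub_zero, ih]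

end SoftCore386

end

end Fermat.Agent.LT.T2.H386

end

end
-- ===== PACK-END LT/T2/H386/SoftCoreF.lean

-- ===== PACK-BEGIN LT/T5/H873/RangeAdapt.lean
section




/-!
# Row LT, tower T5: ADAPTERS for T5.04 `LeafRange` (helper873, on the delivery of helper74)

OFF-MAIN.  Two of the three inputs of `H74.leafRange_of74` (helper74, `LT/T5/H74/Range.lean`,
byte-identical copies) are discharged:

* `locFinC74_873 : T1.DiscreteC K → T1.AdNormC K → H74.LocFinC74 K`;
* `rowBoundC74_of_supBound873 : T1.LocCompC K → T1.DiscreteC K → T1.AdNormC K →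
    SupBoundC 𝔫 τ → H74.RowBoundC74 𝔫 τ` (the uniform row bound IS the pointwise bound
  `∫_F |K_φ(x,y)|² dy ≤ C²` of `section_bound873`).

So T5.02 and T5.04 hang on ONE analytic statement, `SupBoundC` (= `T2.GPSKill` in the class of
T5), and T5.04 in addition on `H74.KerCuspC74`.
-/

set_option autoImplicit false

open IsDedekindDomain NumberField MeasureTheory
open scoped MatrixGroups ComplexConjugate ContDiff Topology ENNReal

noncomputable section

namespace Fermat.Agent.LT.T5.H873

open Fermat.Agent.LT.H556.A0 Fermat.Agent.LT.T5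

attribute [local instance] Fermat.Agent.LT.T5.instMeasurableSpaceG

variable {K : Type} [Field K] [NumberField K]

/-- The input `LocFinC74` of helper74 from tower T1. -/
theorem locFinC74_873 (hD : T1.DiscreteC K) (hN : T1.AdNormC K) : H74.LocFinC74 K :=
  fun _ hr _ hC => finite_lat873 hD hN hr hC

/-- The input `RowBoundC74` of helper74 from the sup bound. -/
theorem rowBoundC74_of_supBound873 (hL : T1.LocCompC K) (hD : T1.DiscreteC K)
    (hN : T1.AdNormC K) (𝔫 : Ideal (𝓞 K)) (τ : G K → ℂ) (hA : SupBoundC 𝔫 τ) :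
    H74.RowBoundC74 𝔫 τ := by
  intro μ F r hF hr φ ht hek _
  have : BorelSpace (G K) := borelSpace_G873
  obtain ⟨C, hCb⟩ := hA μ F r hF hr φ ht hek
  have hfin : IsFiniteMeasure (μ.restrict F) :=
    ⟨by rw [Measure.restrict_apply_univ]; exact hF.finite⟩
  have hKA := kerAutC873 hD hL hN 𝔫 τ
  have key := section_bound873 𝔫 τ (kerRepC873 hN 𝔫 τ) hKA μ F r hF hr φ ht C hCb
  refine ⟨ENNReal.ofReal (C ^ 2) ^ (1 / (2 : ℝ)), ?_, fun x => ?_⟩
  · exact ENNReal.rpow_lt_top_of_nonneg (by norm_num) ENNReal.ofReal_ne_top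
  · obtain ⟨hc, ⟨B, hBd⟩, -⟩ := hKA μ F r hF hr φ ht x
    have hint : Integrable (fun y => ‖ker0 r φ x y‖ ^ 2) (μ.restrict F) := by
      refine Integrable.of_bound (C := B ^ 2) ?_ (Filter.Eventually.of_forall fun y => ?_)
      · exact ((hc.norm).pow 2).aestronglyMeasurable
      · rw [Real.norm_of_nonneg (by positivity)]
        exact pow_le_pow_left₀ (norm_nonneg _) (hBd y) 2
    have heq : ∫⁻ y, ‖ker0 r φ x y‖ₑ ^ (2 : ℝ) ∂(μ.restrict F)
        = ENNReal.ofReal (∫ y in F, ‖ker0 r φ x y‖ ^ 2 ∂μ) := by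
      rw [ofReal_integral_eq_lintegral_ofReal hint
        (Filter.Eventually.of_forall fun y => by positivity)]
      refine lintegral_congr fun y => ?_
      rw [← ofReal_norm, ENNReal.ofReal_rpow_of_nonneg (norm_nonneg _) (by norm_num)]
      congr 1
      exact Real.rpow_two _
    rw [eLpNorm_eq_lintegral_rpow_enorm_toReal (by norm_num) (by norm_num)]
    simp only [ENNReal.toReal_ofNat]
    rw [heq]
    exact ENNReal.rpow_le_rpow (ENNReal.ofReal_le_ofReal (key x)) (by norm_num)

/-- **T5.04 `LeafRange` from the sup bound and the cuspidality of the kernel**, relative to the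
interface Props of T1 (in the form of T1 and in the form in which T3 takes them). -/
theorem leafRange_of_supBound873 (hL : T1.LocCompC K) (hD : T1.DiscreteC K)
    (hN : T1.AdNormC K) (hloc : T3.InLocCompC K) (hlat : T3.InLatticeC K)
    (hfd : T3.InFundDomC K) (𝔫 : Ideal (𝓞 K)) (τ : G K → ℂ) (hA : SupBoundC 𝔫 τ)
    (hcusp : H74.KerCuspC74 𝔫 τ) : LeafRange 𝔫 τ :=
  H74.leafRange_of74 𝔫 τ hloc hlat hfd (locFinC74_873 hD hN)
    (rowBoundC74_of_supBound873 hL hD hN 𝔫 τ hA) hcusp

end Fermat.Agent.LT.T5.H873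

end

end
-- ===== PACK-END LT/T5/H873/RangeAdapt.lean

-- ===== PACK-BEGIN LT/T8/H468/HoroBase.lean
section


/-!
# Row LT, tower T8, sub-leaf `HoroC` (MS4b): the transport lemma (helper468, OFF-MAIN, shadow)

On `LT/H556/A0.lean` (556), `LT/T8/H864/{Local,Coset}.lean` (864), `LT/H51/MS4{A..E}.lean` (51).

* `Lvl468 𝔫 g₀ M`: `M` is a level of the base point `g₀` (`MS4.exists_level`), `exists_lvl468`.
* `dK468 M k`: the element `[[k, 0], [0, 1]]` at the places dividing `M`, `1` elsewhere.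
* `g1_468 M g₀`: the components of `g₀` at the places dividing `M` and at infinity.
* `transport468`: `φ (b(a x' + c, a y')_∞ d(k) g₁ h) = φ (b(x', y')_∞ d(k') g₁)` under local
  conditions; `near_dK468`: the local conditions at the places where `h` is trivial.
-/

set_option autoImplicit false

open IsDedekindDomain NumberField AutomorphicForm
open scoped MatrixGroups Classical WithZero

noncomputable section

namespace Fermat.Agent.LT.T8.H468

open Fermat.Agent.LT.H556.A0 Fermat.Agent.LT.T8.H864 Fermat.Agent.LT.H51.MS4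

/-! ## Levels of a base point -/

/-- `M` is a level of the base point `g₀`. -/
structure Lvl468 (𝔫 : Ideal (𝓞 ℚ)) (g₀ : G ℚ) (M : ℕ) : Prop where
  ne_zero : M ≠ 0
  dvd : Ideal.absNorm 𝔫 ∣ M
  integral : ∀ v : HeightOneSpectrum (𝓞 ℚ), v.valuation ℚ (M : ℚ) = 1 →
    IntegralBoth v (finCompHom v g₀)
  conj : ∀ (v : HeightOneSpectrum (𝓞 ℚ)) (Y : GL (Fin 2) (v.adicCompletion ℚ)),
    Near v (v.valuation ℚ (M : ℚ)) Y →
      LocLevel 𝔫 v ((finCompHom v g₀)⁻¹ * Y * finCompHom v g₀)

theorem exists_lvl468 (𝔫 : Ideal (𝓞 ℚ)) (h𝔫 : 𝔫 ≠ ⊥) (g₀ : G ℚ) (L : ℕ) (hL : L ≠ 0) :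
    ∃ M : ℕ, L ∣ M ∧ Lvl468 𝔫 g₀ M := by
  obtain ⟨M₀, hM0, hdvd, hint, hconj⟩ := exists_level 𝔫 h𝔫 g₀
  have hle : ∀ v : HeightOneSpectrum (𝓞 ℚ),
      v.valuation ℚ ((M₀ * L : ℕ) : ℚ) ≤ v.valuation ℚ (M₀ : ℚ) :=
    fun v => valuation_le_of_dvd v (dvd_mul_right M₀ L)
  refine ⟨M₀ * L, dvd_mul_left L M₀, mul_ne_zero hM0 hL, dvd_mul_of_dvd_left hdvd L, ?_, ?_⟩
  · intro v hv
    apply hint v
    exact le_antisymm (valuation_natCast_le_one v M₀) (hv ▸ hle v)
  · intro v Y hY
    exact hconj v Y (hY.mono (hle v))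

/-! ## The places dividing `M`, the twist `d(k)` and the cut base point -/

/-- The places dividing `M`. -/
def TM468 (M : ℕ) : Set (HeightOneSpectrum (𝓞 ℚ)) := {v | v.valuation ℚ (M : ℚ) < 1}

theorem mem_TM468 (M : ℕ) (v : HeightOneSpectrum (𝓞 ℚ)) :
    v ∈ TM468 M ↔ v.valuation ℚ (M : ℚ) < 1 := Iff.rfl

theorem valuation_eq_one_of_notMem468 {M : ℕ} {v : HeightOneSpectrum (𝓞 ℚ)}
    (hv : v ∉ TM468 M) : v.valuation ℚ (M : ℚ) = 1 :=
  le_antisymm (valuation_natCast_le_one v M) (not_lt.1 hv)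

/-- `[[k, 0], [0, 1]]` at the places dividing `M`. -/
def dK468 (M k : ℕ) : G ℚ := cut (TM468 M) False (diagG (ut (k : ℚ) 0 1))

theorem infCompHom_dK468 (M k : ℕ) (w : InfinitePlace ℚ) : infCompHom w (dK468 M k) = 1 :=
  infCompHom_cut_false _ _ _

theorem finCompHom_dK468_mem {M : ℕ} (k : ℕ) {v : HeightOneSpectrum (𝓞 ℚ)}
    (hv : v ∈ TM468 M) : finCompHom v (dK468 M k) = ratFin v (ut (k : ℚ) 0 1) := by
  rw [dK468, finCompHom_cut_of_mem _ _ hv, finCompHom_diagG]

theorem finCompHom_dK468_notMem {M : ℕ} (k : ℕ) {v : HeightOneSpectrum (𝓞 ℚ)}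
    (hv : v ∉ TM468 M) : finCompHom v (dK468 M k) = 1 := by
  rw [dK468, finCompHom_cut_of_notMem _ _ hv]

/-- The base point cut to the places dividing `M` and infinity. -/
def g1_468 (M : ℕ) (g₀ : G ℚ) : G ℚ := cut (TM468 M) True g₀

theorem infCompHom_g1_468 (M : ℕ) (g₀ : G ℚ) (w : InfinitePlace ℚ) :
    infCompHom w (g1_468 M g₀) = infCompHom w g₀ :=
  infCompHom_cut_true _ _ _

theorem finCompHom_g1_468_mem {M : ℕ} (g₀ : G ℚ) {v : HeightOneSpectrum (𝓞 ℚ)}
    (hv : v ∈ TM468 M) : finCompHom v (g1_468 M g₀) = finCompHom v g₀ := by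
  rw [g1_468, finCompHom_cut_of_mem _ _ hv]

theorem finCompHom_g1_468_notMem {M : ℕ} (g₀ : G ℚ) {v : HeightOneSpectrum (𝓞 ℚ)}
    (hv : v ∉ TM468 M) : finCompHom v (g1_468 M g₀) = 1 := by
  rw [g1_468, finCompHom_cut_of_notMem _ _ hv]

/-- The conjugation property for the cut base point. -/
theorem Lvl468.conj1 {𝔫 : Ideal (𝓞 ℚ)} {g₀ : G ℚ} {M : ℕ} (hM : Lvl468 𝔫 g₀ M)
    (v : HeightOneSpectrum (𝓞 ℚ)) (Y : GL (Fin 2) (v.adicCompletion ℚ))
    (hY : Near v (v.valuation ℚ (M : ℚ)) Y) :
    LocLevel 𝔫 v ((finCompHom v (g1_468 M g₀))⁻¹ * Y * finCompHom v (g1_468 M g₀)) := by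
  by_cases hv : v ∈ TM468 M
  · rw [finCompHom_g1_468_mem g₀ hv]
    exact hM.conj v Y hY
  · rw [finCompHom_g1_468_notMem g₀ hv, inv_one, one_mul, mul_one]
    exact locLevel_of_near_nat v (hY.mono (valuation_le_of_dvd v hM.dvd))

/-! ## The transport lemma -/

theorem infCompHom_bInf468 (x y : ℝ) :
    infCompHom wQ (bInf wQ_isReal x y)
      = Matrix.GeneralLinearGroup.map (realHom wQ_isReal) (bGL x y) := by
  rw [bInf, locInfReal_apply, infCompHom_locInf_self]

theorem finCompHom_bInf468 (x y : ℝ) (v : HeightOneSpectrum (𝓞 ℚ)) :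
    finCompHom v (bInf wQ_isReal x y) = 1 := by
  rw [bInf, locInfReal_apply, finCompHom_locInf]

theorem ratInf_ut468 {a : ℚ} (c : ℚ) (ha : a ≠ 0) :
    ratInf wQ (ut a c 1)
      = Matrix.GeneralLinearGroup.map (realHom wQ_isReal) (bGL (c : ℝ) (a : ℝ)) := by
  have ha' : (a : ℝ) ≠ 0 := by exact_mod_cast ha
  rw [bGL_eq_ut _ ha', map_ut _ _ ha' one_ne_zero, ratInf, map_ut _ _ ha one_ne_zero, map_one,
    map_one, eq_ratCast, eq_ratCast, map_ratCast, map_ratCast]

/-- **Transport.**  Left invariance under `[[a, c], [0, 1]] ∈ GL₂(ℚ)` and right invariance under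
the level group. -/
theorem transport468 {π : HeckeEigensystem ℚ ℂ} {φ : G ℚ → ℂ} (hφ : IsSph0CuspFormFor π φ)
    (M : ℕ) (g₀ : G ℚ) {a : ℚ} (c : ℚ) (ha : a ≠ 0) (x' : ℝ) {y' : ℝ} (hy' : y' ≠ 0)
    (k k' : ℕ) (h : G ℚ) (hinf : ∀ w : InfinitePlace ℚ, infCompHom w h = 1)
    (hfin : ∀ v : HeightOneSpectrum (𝓞 ℚ), LocLevel π.level v
      ((finCompHom v (g1_468 M g₀))⁻¹ *
        ((finCompHom v (dK468 M k'))⁻¹ * (ratFin v (ut a c 1))⁻¹ * finCompHom v (dK468 M k)) *
        finCompHom v (g1_468 M g₀) * finCompHom v h)) :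
    φ (bInf wQ_isReal ((a : ℝ) * x' + (c : ℝ)) ((a : ℝ) * y') * dK468 M k * g1_468 M g₀ * h)
      = φ (bInf wQ_isReal x' y' * dK468 M k' * g1_468 M g₀) := by
  have ha' : (a : ℝ) ≠ 0 := by exact_mod_cast ha
  refine phi_congr hφ.left_inv hφ.level_inv (ut a c 1) _ _ (fun w => ?_) (fun v => ?_)
  · obtain rfl : w = wQ := Subsingleton.elim _ _
    rw [map_mul, map_mul, map_mul, map_mul, map_mul, hinf, infCompHom_dK468, infCompHom_dK468,
      infCompHom_bInf468, infCompHom_bInf468, ratInf_ut468 c ha, ← bGL_mul _ _ ha' hy', map_mul]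
    group
  · rw [map_mul, map_mul, map_mul, map_mul, map_mul, finCompHom_bInf468, finCompHom_bInf468]
    have e : (1 * finCompHom v (dK468 M k') * finCompHom v (g1_468 M g₀))⁻¹ *
          (ratFin v (ut a c 1))⁻¹ *
          (1 * finCompHom v (dK468 M k) * finCompHom v (g1_468 M g₀) * finCompHom v h)
        = (finCompHom v (g1_468 M g₀))⁻¹ *
          ((finCompHom v (dK468 M k'))⁻¹ * (ratFin v (ut a c 1))⁻¹ * finCompHom v (dK468 M k)) *
          finCompHom v (g1_468 M g₀) * finCompHom v h := by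
      group
    rw [e]
    exact hfin v

/-! ## The local condition at the places where `h` is trivial -/

theorem valuation_le_of_int_dvd468 (v : HeightOneSpectrum (𝓞 ℚ)) {M : ℕ} {n : ℤ}
    (h : (M : ℤ) ∣ n) : v.valuation ℚ ((n : ℤ) : ℚ) ≤ v.valuation ℚ (M : ℚ) := by
  obtain ⟨t, rfl⟩ := h
  rw [Int.cast_mul, Int.cast_natCast, map_mul]
  exact mul_le_of_le_one_right' (Fermat.Agent.LT.H51.MS4.valuation_intCast_le_one v t)

/-- The local condition of `transport468` at a place where `a` is a unit. -/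
theorem near_dK468 {M : ℕ} (v : HeightOneSpectrum (𝓞 ℚ)) {a : ℚ} (c : ℚ) {k k' : ℕ}
    (hk : Nat.Coprime k M) (hk' : Nat.Coprime k' M)
    (hva : v.valuation ℚ a = 1)
    (h1 : v.valuation ℚ ((k : ℚ) - a * (k' : ℚ)) ≤ v.valuation ℚ (M : ℚ))
    (h2 : v.valuation ℚ (1 - a) ≤ 1)
    (hc : v.valuation ℚ c ≤ v.valuation ℚ (M : ℚ)) :
    Near v (v.valuation ℚ (M : ℚ))
      ((finCompHom v (dK468 M k'))⁻¹ * (ratFin v (ut a c 1))⁻¹ * finCompHom v (dK468 M k)) := by
  have ha0 : a ≠ 0 := by
    intro h; rw [h, map_zero] at hva; exact zero_ne_one hva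
  by_cases hv : v ∈ TM468 M
  · have hvk : v.valuation ℚ (k : ℚ) = 1 := valuation_eq_one_of_coprime v hk hv
    have hvk' : v.valuation ℚ (k' : ℚ) = 1 := valuation_eq_one_of_coprime v hk' hv
    have hk0 : (k : ℚ) ≠ 0 := by
      intro h; rw [h, map_zero] at hvk; exact zero_ne_one hvk
    have hk'0 : (k' : ℚ) ≠ 0 := by
      intro h; rw [h, map_zero] at hvk'; exact zero_ne_one hvk'
    have e : (ut (k' : ℚ) 0 1)⁻¹ * (ut a c 1)⁻¹ * ut (k : ℚ) 0 1
        = ut ((k : ℚ) / (a * (k' : ℚ))) (-(c / (a * (k' : ℚ)))) 1 := by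
      rw [← mul_inv_rev, inv_mul_eq_iff_eq_mul, ut_mul _ _ ha0 one_ne_zero hk'0 one_ne_zero,
        ut_mul _ _ (mul_ne_zero ha0 hk'0) (mul_ne_zero one_ne_zero one_ne_zero)
          (div_ne_zero hk0 (mul_ne_zero ha0 hk'0)) one_ne_zero]
      congr 1
      · field_simp
      · field_simp
        ring
      · ring
    rw [finCompHom_dK468_mem k hv, finCompHom_dK468_mem k' hv, ← map_inv, ← map_inv, ← map_mul,
      ← map_mul, e]
    refine near_ratFin_ut ?_ (map_one _) ?_ ?_ ?_
    · rw [map_div₀, map_mul, hvk, hva, hvk', mul_one, div_one]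
    · have e2 : (k : ℚ) / (a * (k' : ℚ)) - 1 = ((k : ℚ) - a * (k' : ℚ)) / (a * (k' : ℚ)) := by
        field_simp
      rw [e2, map_div₀, map_mul, hva, hvk', mul_one, div_one]
      exact h1
    · rw [Valuation.map_neg, map_div₀, map_mul, hva, hvk', mul_one, div_one]
      exact hc
    · rw [sub_self, map_zero]
      exact zero_le
  · have e : (ut a c 1)⁻¹ = ut a⁻¹ (-(c / a)) 1 := by
      rw [ut_inv c ha0 one_ne_zero, mul_one, inv_one]
    rw [finCompHom_dK468_notMem k hv, finCompHom_dK468_notMem k' hv, inv_one, one_mul, mul_one,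
      ← map_inv, e]
    refine near_ratFin_ut ?_ (map_one _) ?_ ?_ ?_
    · rw [map_inv₀, hva, inv_one]
    · have e2 : a⁻¹ - 1 = (1 - a) / a := by
        field_simp
      rw [e2, map_div₀, hva, div_one, valuation_eq_one_of_notMem468 hv]
      exact h2
    · rw [Valuation.map_neg, map_div₀, hva, div_one]
      exact hc
    · rw [sub_self, map_zero]
      exact zero_le

end Fermat.Agent.LT.T8.H468

end

end
-- ===== PACK-END LT/T8/H468/HoroBase.lean

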