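import Mathlib
import Fermat.Agent.Pack.LT2.E14L1
import Fermat.Agent.Pack.LT2.E14L0
import Fermat.Agent.Pack.LT2.E14L3
import Fermat.Agent.Pack.LT2.E0L3
import Fermat.Agent.Pack.LT2.E3L3
import Fermat.Agent.Pack.LT2.E0L1
import Fermat.Agent.Pack.LT2.E14L2
import Fermat.Agent.Pack.LT2.E15L2
import Fermat.Agent.Pack.LT2.E15L3
import Fermat.Agent.Pack.LT2.E11L3
import Fermat.Agent.Pack.LT2.E11L0
import Fermat.Agent.Pack.LT2.E11L1
import Fermat.Agent.Pack.LT2.E9L3
import Fermat.Agent.Pack.LT2.E15L1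

set_option linter.all false

-- ===== PACK-BEGIN LT/A2/H131/Lattice.lean
section



/-!
# Row LT, tower A2, leaf A2.03.1.3.3 `H753.LatticeC` (Gaussian lattice sums) -- helper131, OFF-MAIN

Spec: `Fermat/Agent/LT/A2/H753/RegSpec.lean` (helper753@d32e3cf62, sha256 1258ecf1be299f69) and its
closure (byte-identical copies).  Nothing is assumed, no placeholder proof.

Proof.
1. `exists_common_denominator_h131`: a compact set `Q` of finite adeles has a common denominator
   `0 ≠ d ∈ 𝓞 K` (the sets `{a : d a integral}` are open, `RestrictedProduct.isOpen_forall_mem`,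
   they cover `𝔸_f` by `exists_denominator_h131` and `U_d ∪ U_d' ⊆ U_{d d'}`).  Applied to the
   two projections of `B - finPt C`: if `finPt (x + ξ) ∈ B`, `x ∈ C`, then `d ξ ∈ 𝓞 K²`
   (`exists_integer_h131`).
2. `archSq_add_ge_h131`: `archSq (x + y) ≥ archSq y / 2 - archSq x`; `archSq` is continuous, hence
   bounded on `C`; `archSq (ratV ξ) = ∑_w w(ξ₁)² + w(ξ₂)²`.
3. `summable_gauss_int_h131`: `∑_{η ∈ 𝓞 K} exp (-c ∑_w w(η)²) < ∞` (`exp (-c t²) ≤ C t^{-2n}`,
   `ZLattice.summable_norm_rpow` for the integer lattice of the mixed space,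
   `‖mixedEmbedding η‖² ≤ ∑_w w(η)²`).
4. `b ξ = exp (δ M) b₁(ξ₁) b₁(ξ₂)`, `b₁` = the extension by zero of
   `η ↦ exp (-c ∑_w w(η)²)` along `η ↦ η / d`, `c = δ / (2 D²)`, `D = 1 + ∑_w w(d)`.
-/

set_option autoImplicit false

open IsDedekindDomain NumberField
open scoped Topology

noncomputable section

namespace Fermat.Agent.LT.A2.H131

open Fermat.Agent.LT.H556 Fermat.Agent.LT.A2 Fermat.Agent.LT.A2.H753

variable {K : Type} [Field K] [NumberField K]

/-- Every element of `ℤᵐ⁰` is below some `exp M`, `M : ℕ`. -/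
theorem exists_le_exp_nat_h131 (a : WithZero (Multiplicative ℤ)) :
    ∃ M : ℕ, a ≤ WithZero.exp (M : ℤ) := by
  by_cases ha : a = 0
  · exact ⟨0, by rw [ha]; exact zero_le⟩
  · obtain ⟨k, rfl⟩ : ∃ k : ℤ, a = WithZero.exp k := ⟨WithZero.log a, (WithZero.exp_log ha).symm⟩
    refine ⟨k.toNat, ?_⟩
    rw [WithZero.exp_le_exp]
    omega

/-- The valuation of `K_v` on the image of `K`. -/
theorem valued_coe_h131 (v : HeightOneSpectrum (𝓞 K)) (k : K) :
    Valued.v (algebraMap K (v.adicCompletion K) k) = v.valuation K k :=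
  v.valuedAdicCompletion_eq_valuation' k

/-- The integral finite adeles form an open set. -/
theorem isOpen_integralAdeles_h131 :
    IsOpen {a : FiniteAdeleRing (𝓞 K) K | ∀ v, Valued.v (a v) ≤ 1} := by
  have h := RestrictedProduct.isOpen_forall_mem
    (R := fun v : HeightOneSpectrum (𝓞 K) => v.adicCompletion K)
    (A := fun v : HeightOneSpectrum (𝓞 K) => (v.adicCompletionIntegers K : Set (v.adicCompletion K)))
    (fun v => Valued.isOpen_valuationSubring _)
  exact h

/-- Every finite adele has a nonzero integral denominator. -/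
theorem exists_denominator_h131 (a : FiniteAdeleRing (𝓞 K) K) :
    ∃ d : 𝓞 K, d ≠ 0 ∧ ∀ v : HeightOneSpectrum (𝓞 K),
      Valued.v (algebraMap K (v.adicCompletion K) (algebraMap (𝓞 K) K d) * a v) ≤ 1 := by
  classical
  have hfin : {v : HeightOneSpectrum (𝓞 K) | ¬ Valued.v (a v) ≤ 1}.Finite := a.2
  choose n hn using fun v : HeightOneSpectrum (𝓞 K) => exists_le_exp_nat_h131 (Valued.v (a v))
  set I : Ideal (𝓞 K) := ∏ v ∈ hfin.toFinset, v.asIdeal ^ n v with hI
  have hI0 : I ≠ ⊥ := by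
    rw [hI, ← Ideal.zero_eq_bot, Finset.prod_ne_zero_iff]
    intro v _
    exact pow_ne_zero _ v.ne_bot
  obtain ⟨d, hdI, hd0⟩ := Submodule.exists_mem_ne_zero_of_ne_bot hI0
  refine ⟨d, hd0, fun v => ?_⟩
  have hd1 : Valued.v (algebraMap K (v.adicCompletion K) (algebraMap (𝓞 K) K d)) ≤ 1 := by
    rw [valued_coe_h131, HeightOneSpectrum.valuation_of_algebraMap]
    exact v.intValuation_le_one d
  rw [map_mul]
  by_cases hv : Valued.v (a v) ≤ 1
  · exact mul_le_one' hd1 hv
  · have hvS : v ∈ hfin.toFinset := by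
      rw [Set.Finite.mem_toFinset]
      exact hv
    have hle : I ≤ v.asIdeal ^ n v :=
      Ideal.le_of_dvd (Finset.dvd_prod_of_mem (fun v => v.asIdeal ^ n v) hvS)
    have hdv : v.intValuation d ≤ WithZero.exp (-(n v : ℤ)) :=
      (v.intValuation_le_pow_iff_mem d (n v)).2 (hle hdI)
    rw [valued_coe_h131, HeightOneSpectrum.valuation_of_algebraMap]
    calc v.intValuation d * Valued.v (a v)
        ≤ WithZero.exp (-(n v : ℤ)) * WithZero.exp (n v : ℤ) := mul_le_mul' hdv (hn v)
      _ = 1 := by rw [← WithZero.exp_add]; simp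

/-- A compact set of finite adeles has a common nonzero integral denominator. -/
theorem exists_common_denominator_h131 (Q : Set (FiniteAdeleRing (𝓞 K) K)) (hQ : IsCompact Q) :
    ∃ d : 𝓞 K, d ≠ 0 ∧ ∀ a ∈ Q, ∀ v : HeightOneSpectrum (𝓞 K),
      Valued.v (algebraMap K (v.adicCompletion K) (algebraMap (𝓞 K) K d) * a v) ≤ 1 := by
  classical
  set U : {d : 𝓞 K // d ≠ 0} → Set (FiniteAdeleRing (𝓞 K) K) := fun d =>
    {a | ∀ v : HeightOneSpectrum (𝓞 K),
      Valued.v (algebraMap K (v.adicCompletion K) (algebraMap (𝓞 K) K d.1) * a v) ≤ 1} with hU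
  have hUopen : ∀ d, IsOpen (U d) := by
    intro d
    have hc : Continuous fun a : FiniteAdeleRing (𝓞 K) K =>
        algebraMap K (FiniteAdeleRing (𝓞 K) K) (algebraMap (𝓞 K) K d.1) * a :=
      continuous_const.mul continuous_id
    exact isOpen_integralAdeles_h131.preimage hc
  have hcover : Q ⊆ ⋃ d, U d := by
    intro a _
    obtain ⟨d, hd0, hd⟩ := exists_denominator_h131 a
    exact Set.mem_iUnion.2 ⟨⟨d, hd0⟩, hd⟩
  obtain ⟨t, ht⟩ := hQ.elim_finite_subcover U hUopen hcover
  refine ⟨∏ i ∈ t, i.1, Finset.prod_ne_zero_iff.2 fun i _ => i.2, fun a ha v => ?_⟩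
  obtain ⟨i, hi⟩ := Set.mem_iUnion.1 (ht ha)
  obtain ⟨hit, hai⟩ := Set.mem_iUnion.1 hi
  have hsplit : ∏ j ∈ t, j.1 = (∏ j ∈ t.erase i, j.1) * i.1 :=
    (Finset.prod_erase_mul t (fun j => j.1) hit).symm
  have e1 : algebraMap K (v.adicCompletion K)
      (algebraMap (𝓞 K) K ((∏ j ∈ t.erase i, j.1) * i.1)) * a v
      = algebraMap K (v.adicCompletion K) (algebraMap (𝓞 K) K (∏ j ∈ t.erase i, j.1))
        * (algebraMap K (v.adicCompletion K) (algebraMap (𝓞 K) K i.1) * a v) := by
    rw [map_mul, map_mul, mul_assoc]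
  rw [hsplit, e1, map_mul]
  refine mul_le_one' ?_ (hai v)
  rw [valued_coe_h131, HeightOneSpectrum.valuation_of_algebraMap]
  exact v.intValuation_le_one _

/-- An element of `K` which is integral at every finite place is an integer. -/
theorem exists_integer_h131 (x : K)
    (hx : ∀ v : HeightOneSpectrum (𝓞 K), Valued.v (algebraMap K (v.adicCompletion K) x) ≤ 1) :
    ∃ η : 𝓞 K, algebraMap (𝓞 K) K η = x := by
  have := HeightOneSpectrum.mem_integers_of_valuation_le_one (R := 𝓞 K) K x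
    (fun v => by rw [← valued_coe_h131]; exact hx v)
  exact this

/-! ## The infinite places -/

theorem norm_infComp_h131 (w : InfinitePlace K) (ξ : K) :
    ‖(algebraMap K (A0.Adl K) ξ).1 w‖ = w ξ := by
  have h := InfinitePlace.Completion.norm_coe w ((WithAbs.equiv w.1).symm ξ)
  simpa using h

/-- The sum of the squares of the absolute values of `x ∈ K` at the infinite places. -/
def sqS_h131 (x : K) : ℝ := ∑ w : InfinitePlace K, (w x) ^ 2

theorem sqS_nonneg_h131 (x : K) : 0 ≤ sqS_h131 x :=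
  Finset.sum_nonneg fun _ _ => sq_nonneg _

theorem archSq_ratV_h131 (ξ : K × K) : archSq (ratV ξ) = sqS_h131 ξ.1 + sqS_h131 ξ.2 := by
  unfold archSq ratV sqS_h131
  rw [Finset.sum_add_distrib]
  simp only [norm_infComp_h131]

theorem archSq_add_ge_h131 (x y : A0.Adl K × A0.Adl K) :
    archSq y / 2 - archSq x ≤ archSq (x + y) := by
  unfold archSq
  rw [Finset.sum_div, ← Finset.sum_sub_distrib]
  refine Finset.sum_le_sum fun w _ => ?_
  have key : ∀ a b : w.Completion, ‖b‖ ^ 2 / 2 - ‖a‖ ^ 2 ≤ ‖a + b‖ ^ 2 := by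
    intro a b
    have h1 : ‖b‖ ≤ ‖a + b‖ + ‖a‖ := by
      have : b = (a + b) - a := by abel
      calc ‖b‖ = ‖(a + b) - a‖ := by rw [← this]
        _ ≤ ‖a + b‖ + ‖a‖ := norm_sub_le _ _
    have h2 := norm_nonneg b
    have h3 := norm_nonneg (a + b)
    have h4 := norm_nonneg a
    nlinarith [sq_nonneg (‖a + b‖ - ‖a‖)]
  have e1 : (x + y).1.1 w = x.1.1 w + y.1.1 w := rfl
  have e2 : (x + y).2.1 w = x.2.1 w + y.2.1 w := rfl
  rw [e1, e2]
  have k1 := key (x.1.1 w) (y.1.1 w)
  have k2 := key (x.2.1 w) (y.2.1 w)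
  linarith

theorem continuous_archSq_h131 : Continuous (archSq (K := K)) := by
  unfold archSq
  refine continuous_finsetSum _ fun w _ => ?_
  fun_prop

theorem exists_archSq_le_h131 (C : Set (A0.Adl K × A0.Adl K)) (hC : IsCompact C) :
    ∃ M : ℝ, 0 ≤ M ∧ ∀ x ∈ C, archSq x ≤ M := by
  obtain ⟨M, hM⟩ := hC.exists_bound_of_continuousOn (continuous_archSq_h131 (K := K)).continuousOn
  refine ⟨max M 0, le_max_right _ _, fun x hx => ?_⟩
  exact ((le_abs_self _).trans (hM x hx)).trans (le_max_left _ _)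

/-! ## Gaussian sums over the integers -/

open scoped Classical in
theorem norm_sq_mixedEmbedding_le_h131 (x : K) :
    ‖mixedEmbedding K x‖ ^ 2 ≤ sqS_h131 x := by
  rw [mixedEmbedding.norm_eq_sup'_normAtPlace]
  obtain ⟨w, -, hw⟩ := Finset.exists_mem_eq_sup' (Finset.univ_nonempty (α := InfinitePlace K))
    (fun w => mixedEmbedding.normAtPlace w (mixedEmbedding K x))
  rw [hw, mixedEmbedding.normAtPlace_apply]
  unfold sqS_h131
  exact Finset.single_le_sum (f := fun w : InfinitePlace K => (w x) ^ 2)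
    (fun _ _ => sq_nonneg _) (Finset.mem_univ w)

/-- Gaussian decay beats every power. -/
theorem exp_neg_le_h131 (c : ℝ) (hc : 0 < c) (n : ℕ) (t : ℝ) (ht : 0 < t) :
    Real.exp (-c * t ^ 2) ≤ (n.factorial / c ^ n) * (t ^ (2 * n))⁻¹ := by
  have hx : 0 ≤ c * t ^ 2 := by positivity
  have h1 := Real.pow_div_factorial_le_exp (c * t ^ 2) hx n
  have h2 : 0 < (c * t ^ 2) ^ n := by positivity
  have hfact : (0 : ℝ) < n.factorial := by exact_mod_cast n.factorial_pos
  rw [show -c * t ^ 2 = -(c * t ^ 2) by ring, Real.exp_neg]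
  have h3 : (Real.exp (c * t ^ 2))⁻¹ ≤ ((c * t ^ 2) ^ n / n.factorial)⁻¹ :=
    inv_anti₀ (by positivity) h1
  refine h3.trans (le_of_eq ?_)
  rw [mul_pow, ← pow_mul]
  field_simp

open scoped Classical in
/-- Gaussian sums over the integer lattice of the mixed space converge. -/
theorem summable_gauss_lattice_h131 (c : ℝ) (hc : 0 < c) :
    Summable fun z : mixedEmbedding.integerLattice K => Real.exp (-c * ‖(z : mixedEmbedding.mixedSpace K)‖ ^ 2) := by
  set n : ℕ := Module.finrank ℤ (mixedEmbedding.integerLattice K) + 1 with hn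
  have hr : (-(2 * n : ℕ) : ℝ) < -(Module.finrank ℤ (mixedEmbedding.integerLattice K) : ℝ) := by
    rw [neg_lt_neg_iff]
    have : Module.finrank ℤ (mixedEmbedding.integerLattice K) < 2 * n := by omega
    exact_mod_cast this
  have hsum := ZLattice.summable_norm_rpow (mixedEmbedding.integerLattice K) _ hr
  have hsum0 : Summable fun z : mixedEmbedding.integerLattice K =>
      if z = 0 then (1 : ℝ) else 0 :=
    (hasSum_ite_eq (0 : mixedEmbedding.integerLattice K) (1 : ℝ)).summable
  refine Summable.of_nonneg_of_le (fun z => (Real.exp_pos _).le) (fun z => ?_)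
    ((hsum.mul_left (n.factorial / c ^ n)).add hsum0)
  by_cases hz : z = 0
  · subst hz
    simp only [ZeroMemClass.coe_zero, norm_zero, if_true]
    have h0 : (0 : ℝ) ≤ (n.factorial / c ^ n) * (0 : ℝ) ^ (-((2 * n : ℕ) : ℝ)) := by positivity
    simp only [ne_eq, OfNat.ofNat_ne_zero, not_false_eq_true, zero_pow, mul_zero, Real.exp_zero]
    linarith
  · have hpos : 0 < ‖z‖ := norm_pos_iff.2 hz
    have hpos' : 0 < ‖(z : mixedEmbedding.mixedSpace K)‖ := hpos
    rw [if_neg hz, add_zero]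
    have := exp_neg_le_h131 c hc n ‖(z : mixedEmbedding.mixedSpace K)‖ hpos'
    refine this.trans (le_of_eq ?_)
    congr 1
    rw [Real.rpow_neg hpos.le, Real.rpow_natCast]
    rfl

open scoped Classical in
/-- Gaussian sums over the integers of `K` converge. -/
theorem summable_gauss_int_h131 (c : ℝ) (hc : 0 < c) :
    Summable fun η : 𝓞 K => Real.exp (-c * sqS_h131 (algebraMap (𝓞 K) K η)) := by
  set j : 𝓞 K → mixedEmbedding.integerLattice K := fun η =>
    ⟨mixedEmbedding K (algebraMap (𝓞 K) K η), ⟨η, rfl⟩⟩ with hj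
  have hjinj : Function.Injective j := by
    intro η η' h
    have h1 : mixedEmbedding K (algebraMap (𝓞 K) K η) = mixedEmbedding K (algebraMap (𝓞 K) K η') :=
      congrArg Subtype.val h
    exact RingOfIntegers.coe_injective (mixedEmbedding_injective K h1)
  have hs := (summable_gauss_lattice_h131 (K := K) c hc).comp_injective hjinj
  refine Summable.of_nonneg_of_le (fun η => (Real.exp_pos _).le) (fun η => ?_) hs
  simp only [Function.comp_apply, hj]
  apply Real.exp_le_exp.2
  have := norm_sq_mixedEmbedding_le_h131 (algebraMap (𝓞 K) K η)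
  nlinarith

/-- The absolute values at the infinite places of `d` are bounded by `D = 1 + ∑_w w(d)`. -/
theorem sqS_mul_le_h131 (d x : K) :
    sqS_h131 (d * x) ≤ (1 + ∑ w : InfinitePlace K, w d) ^ 2 * sqS_h131 x := by
  unfold sqS_h131
  rw [Finset.mul_sum]
  refine Finset.sum_le_sum fun w _ => ?_
  have h1 : w d ≤ 1 + ∑ w : InfinitePlace K, w d := by
    have := Finset.single_le_sum (f := fun w : InfinitePlace K => w d)
      (fun w _ => apply_nonneg w d) (Finset.mem_univ w)
    linarith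
  have h2 : 0 ≤ w d := apply_nonneg w d
  have h3 : 0 ≤ w x := apply_nonneg w x
  rw [map_mul, mul_pow]
  have : (w d) ^ 2 ≤ (1 + ∑ w : InfinitePlace K, w d) ^ 2 := by nlinarith
  exact mul_le_mul_of_nonneg_right this (sq_nonneg _)

/-- **A2.03.1.3.3 LATTICE** (`H753.LatticeC`). -/
theorem latticeC_h131 : LatticeC := by
  intro K _ _ B C δ hB hC hδ
  classical
  -- the compact set containing the finite parts of the rational points
  have hcf : Continuous fun x : A0.Adl K × A0.Adl K => finPt x := by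
    unfold finPt
    fun_prop
  set B' : Set (FiniteAdeleRing (𝓞 K) K × FiniteAdeleRing (𝓞 K) K) :=
    (fun p : (FiniteAdeleRing (𝓞 K) K × FiniteAdeleRing (𝓞 K) K) × (A0.Adl K × A0.Adl K) =>
      p.1 - finPt p.2) '' (B ×ˢ C) with hB'
  have hB'c : IsCompact B' :=
    (hB.prod hC).image (continuous_fst.sub (hcf.comp continuous_snd))
  set Q : Set (FiniteAdeleRing (𝓞 K) K) := Prod.fst '' B' ∪ Prod.snd '' B' with hQ
  have hQc : IsCompact Q := (hB'c.image continuous_fst).union (hB'c.image continuous_snd)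
  obtain ⟨d, hd0, hd⟩ := exists_common_denominator_h131 Q hQc
  obtain ⟨M, hM0, hM⟩ := exists_archSq_le_h131 C hC
  have hdK : algebraMap (𝓞 K) K d ≠ 0 := by
    rw [Ne, map_eq_zero_iff _ (IsFractionRing.injective (𝓞 K) K)]
    exact hd0
  set D : ℝ := 1 + ∑ w : InfinitePlace K, w (algebraMap (𝓞 K) K d) with hD
  have hDpos : 0 < D := by
    have : 0 ≤ ∑ w : InfinitePlace K, w (algebraMap (𝓞 K) K d) :=
      Finset.sum_nonneg fun w _ => apply_nonneg w _
    linarith
  set c : ℝ := δ / (2 * D ^ 2) with hc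
  have hcpos : 0 < c := by positivity
  set β : 𝓞 K → ℝ := fun η => Real.exp (-c * sqS_h131 (algebraMap (𝓞 K) K η)) with hβ
  have hβs : Summable β := summable_gauss_int_h131 c hcpos
  set i : 𝓞 K → K := fun η => algebraMap (𝓞 K) K η / algebraMap (𝓞 K) K d with hi
  have hiinj : Function.Injective i := by
    intro η η' h
    simp only [hi] at h
    have := (div_left_inj' hdK).1 h
    exact RingOfIntegers.coe_injective this
  set b₁ : K → ℝ := Function.extend i β 0 with hb₁
  have hb₁s : Summable b₁ := (summable_extend_zero hiinj).2 hβs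
  have hb₁0 : ∀ ξ, 0 ≤ b₁ ξ := by
    intro ξ
    by_cases h : ∃ η, i η = ξ
    · obtain ⟨η, rfl⟩ := h
      rw [hb₁, hiinj.extend_apply]
      exact (Real.exp_pos _).le
    · rw [hb₁, Function.extend_apply' _ _ _ h]
      exact le_rfl
  refine ⟨fun ξ => Real.exp (δ * M) * (b₁ ξ.1 * b₁ ξ.2),
    (hb₁s.mul_of_nonneg hb₁s hb₁0 hb₁0).mul_left _,
    fun ξ => mul_nonneg (Real.exp_pos _).le (mul_nonneg (hb₁0 _) (hb₁0 _)), ?_⟩
  intro ξ x hx hxB
  -- the finite part of `ξ` lies in `B'`
  have hfin : finPt (ratV ξ) ∈ B' := by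
    refine ⟨(finPt (x + ratV ξ), x), ⟨hxB, hx⟩, ?_⟩
    have e : finPt (x + ratV ξ) = finPt x + finPt (ratV ξ) := rfl
    simp only
    rw [e, add_sub_cancel_left]
  have hξ1 : (algebraMap K (A0.Adl K) ξ.1).2 ∈ Q := Or.inl ⟨_, hfin, rfl⟩
  have hξ2 : (algebraMap K (A0.Adl K) ξ.2).2 ∈ Q := Or.inr ⟨_, hfin, rfl⟩
  -- integrality
  have hint : ∀ y : K, (algebraMap K (A0.Adl K) y).2 ∈ Q →
      Real.exp (-(δ / 2) * sqS_h131 y) ≤ b₁ y := by
    intro y hy
    obtain ⟨η, hη⟩ := exists_integer_h131 (algebraMap (𝓞 K) K d * y) (fun v => by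
      rw [map_mul]
      exact hd _ hy v)
    have hyi : y = i η := by
      simp only [hi]
      rw [hη, mul_div_cancel_left₀ _ hdK]
    rw [hyi, hb₁, hiinj.extend_apply, ← hyi]
    simp only [hβ]
    apply Real.exp_le_exp.2
    have h1 : sqS_h131 (algebraMap (𝓞 K) K η) ≤ D ^ 2 * sqS_h131 y := by
      rw [hη]
      exact sqS_mul_le_h131 _ _
    have h2 : c * sqS_h131 (algebraMap (𝓞 K) K η) ≤ δ / 2 * sqS_h131 y := by
      calc c * sqS_h131 (algebraMap (𝓞 K) K η) ≤ c * (D ^ 2 * sqS_h131 y) :=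
            mul_le_mul_of_nonneg_left h1 hcpos.le
        _ = δ / 2 * sqS_h131 y := by
            rw [hc]
            field_simp
    linarith
  have h1 := hint ξ.1 hξ1
  have h2 := hint ξ.2 hξ2
  have h3 : archSq (ratV ξ) / 2 - archSq x ≤ archSq (x + ratV ξ) := archSq_add_ge_h131 x (ratV ξ)
  have h4 : archSq x ≤ M := hM x hx
  have h5 : Real.exp (-δ * archSq (x + ratV ξ))
      ≤ Real.exp (δ * M) * (Real.exp (-(δ / 2) * sqS_h131 ξ.1)
        * Real.exp (-(δ / 2) * sqS_h131 ξ.2)) := by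
    rw [← Real.exp_add, ← Real.exp_add]
    apply Real.exp_le_exp.2
    rw [archSq_ratV_h131] at h3
    nlinarith
  refine h5.trans ?_
  refine mul_le_mul_of_nonneg_left ?_ (Real.exp_pos _).le
  exact mul_le_mul h1 h2 (Real.exp_pos _).le (hb₁0 _)

end Fermat.Agent.LT.A2.H131

end
end
-- ===== PACK-END LT/A2/H131/Lattice.lean

-- ===== PACK-BEGIN LT/A2/H151/Mk.lean
section


/-!
# Row LT, tower A2, leaf A2.03.1.6 `WX467.RightInvC` -- part 3: elements from components
(helper151, OFF-MAIN)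

An element of `GL₂(𝔸_K)` from its local components (integral with integral inverse at almost all
finite places), extensionality, and the CONVERGENCE OF THE TRUNCATIONS: the element with the
components of `g` at the places of a finite set `S` of finite places and at the infinite places,
and trivial elsewhere, tends to `g` along `S`.
No holes, nothing assumed.
-/

set_option autoImplicit false

open IsDedekindDomain NumberField AutomorphicForm MeasureTheory Filter
open scoped MatrixGroups Topology RestrictedProduct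

noncomputable section

namespace Fermat.Agent.LT.A2.H151

open Fermat.Agent.LT.H130 Fermat.Agent.LT.H556 Fermat.Agent.LT.A2 Fermat.Agent.LT.A2.WX467

variable {K : Type} [Field K] [NumberField K]

/-! ## Extensionality -/

/-- A matrix over the adeles is determined by its components. -/
theorem adlMatrix_ext {M N : Matrix (Fin 2) (Fin 2) (A0.Adl K)}
    (h1 : ∀ u : InfinitePlace K, M.map (pInf u) = N.map (pInf u))
    (h2 : ∀ v : HeightOneSpectrum (𝓞 K), M.map (pFin v) = N.map (pFin v)) : M = N := by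
  ext i j
  refine adl_ext (fun u => ?_) (fun v => ?_)
  · exact congrFun (congrFun (h1 u) i) j
  · exact congrFun (congrFun (h2 v) i) j

/-- An element of `GL₂(𝔸_K)` is determined by its components. -/
theorem gl_ext {g h : A0.G K} (h1 : ∀ u : InfinitePlace K, infMat u g = infMat u h)
    (h2 : ∀ v : HeightOneSpectrum (𝓞 K), A0.finComp v g = A0.finComp v h) : g = h :=
  Units.ext (adlMatrix_ext h1 h2)

/-! ## Construction -/

/-- The adele with the components `a u`, `c v`. -/
def mkAdl (a : ∀ u : InfinitePlace K, u.Completion)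
    (c : ∀ v : HeightOneSpectrum (𝓞 K), v.adicCompletion K)
    (hc : ∀ᶠ v in cofinite, c v ∈ v.adicCompletionIntegers K) : A0.Adl K :=
  (a, ⟨c, hc⟩)

/-- The matrix over the adeles with the components `Minf u`, `Mfin v`. -/
def mkM (Minf : ∀ u : InfinitePlace K, Matrix (Fin 2) (Fin 2) u.Completion)
    (Mfin : ∀ v : HeightOneSpectrum (𝓞 K), Matrix (Fin 2) (Fin 2) (v.adicCompletion K))
    (hM : ∀ᶠ v in cofinite, ∀ i j, Mfin v i j ∈ v.adicCompletionIntegers K) :
    Matrix (Fin 2) (Fin 2) (A0.Adl K) :=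
  Matrix.of fun i j => mkAdl (fun u => Minf u i j) (fun v => Mfin v i j)
    (hM.mono fun _ h => h i j)

theorem mkM_mapInf (Minf : ∀ u : InfinitePlace K, Matrix (Fin 2) (Fin 2) u.Completion)
    (Mfin : ∀ v : HeightOneSpectrum (𝓞 K), Matrix (Fin 2) (Fin 2) (v.adicCompletion K))
    (hM : ∀ᶠ v in cofinite, ∀ i j, Mfin v i j ∈ v.adicCompletionIntegers K)
    (u : InfinitePlace K) : (mkM Minf Mfin hM).map (pInf u) = Minf u := by
  ext i j; rfl

theorem mkM_mapFin (Minf : ∀ u : InfinitePlace K, Matrix (Fin 2) (Fin 2) u.Completion)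
    (Mfin : ∀ v : HeightOneSpectrum (𝓞 K), Matrix (Fin 2) (Fin 2) (v.adicCompletion K))
    (hM : ∀ᶠ v in cofinite, ∀ i j, Mfin v i j ∈ v.adicCompletionIntegers K)
    (v : HeightOneSpectrum (𝓞 K)) : (mkM Minf Mfin hM).map (pFin v) = Mfin v := by
  ext i j; rfl

/-- The element of `GL₂(𝔸_K)` with the components `Minf u`, `Mfin v`. -/
def mkG (Minf : ∀ u : InfinitePlace K, Matrix (Fin 2) (Fin 2) u.Completion)
    (Mfin : ∀ v : HeightOneSpectrum (𝓞 K), Matrix (Fin 2) (Fin 2) (v.adicCompletion K))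
    (hinf : ∀ u, (Minf u).det ≠ 0) (hfin : ∀ v, (Mfin v).det ≠ 0)
    (hM : ∀ᶠ v in cofinite, ∀ i j, Mfin v i j ∈ v.adicCompletionIntegers K)
    (hM' : ∀ᶠ v in cofinite, ∀ i j, (Mfin v)⁻¹ i j ∈ v.adicCompletionIntegers K) : A0.G K where
  val := mkM Minf Mfin hM
  inv := mkM (fun u => (Minf u)⁻¹) (fun v => (Mfin v)⁻¹) hM'
  val_inv := by
    refine adlMatrix_ext (fun u => ?_) (fun v => ?_)
    · rw [Matrix.map_mul, Matrix.map_one _ (map_zero _) (map_one _), mkM_mapInf, mkM_mapInf,
        Matrix.mul_nonsing_inv _ (isUnit_iff_ne_zero.mpr (hinf u))]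
    · rw [Matrix.map_mul, Matrix.map_one _ (map_zero _) (map_one _), mkM_mapFin, mkM_mapFin,
        Matrix.mul_nonsing_inv _ (isUnit_iff_ne_zero.mpr (hfin v))]
  inv_val := by
    refine adlMatrix_ext (fun u => ?_) (fun v => ?_)
    · rw [Matrix.map_mul, Matrix.map_one _ (map_zero _) (map_one _), mkM_mapInf, mkM_mapInf,
        Matrix.nonsing_inv_mul _ (isUnit_iff_ne_zero.mpr (hinf u))]
    · rw [Matrix.map_mul, Matrix.map_one _ (map_zero _) (map_one _), mkM_mapFin, mkM_mapFin,
        Matrix.nonsing_inv_mul _ (isUnit_iff_ne_zero.mpr (hfin v))]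

theorem infMat_mkG (Minf : ∀ u : InfinitePlace K, Matrix (Fin 2) (Fin 2) u.Completion)
    (Mfin : ∀ v : HeightOneSpectrum (𝓞 K), Matrix (Fin 2) (Fin 2) (v.adicCompletion K))
    (hinf : ∀ u, (Minf u).det ≠ 0) (hfin : ∀ v, (Mfin v).det ≠ 0)
    (hM : ∀ᶠ v in cofinite, ∀ i j, Mfin v i j ∈ v.adicCompletionIntegers K)
    (hM' : ∀ᶠ v in cofinite, ∀ i j, (Mfin v)⁻¹ i j ∈ v.adicCompletionIntegers K)
    (u : InfinitePlace K) : infMat u (mkG Minf Mfin hinf hfin hM hM') = Minf u := by
  ext i j; rfl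

theorem finComp_mkG (Minf : ∀ u : InfinitePlace K, Matrix (Fin 2) (Fin 2) u.Completion)
    (Mfin : ∀ v : HeightOneSpectrum (𝓞 K), Matrix (Fin 2) (Fin 2) (v.adicCompletion K))
    (hinf : ∀ u, (Minf u).det ≠ 0) (hfin : ∀ v, (Mfin v).det ≠ 0)
    (hM : ∀ᶠ v in cofinite, ∀ i j, Mfin v i j ∈ v.adicCompletionIntegers K)
    (hM' : ∀ᶠ v in cofinite, ∀ i j, (Mfin v)⁻¹ i j ∈ v.adicCompletionIntegers K)
    (v : HeightOneSpectrum (𝓞 K)) : A0.finComp v (mkG Minf Mfin hinf hfin hM hM') = Mfin v := by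
  ext i j; rfl

theorem inv_mkG_val (Minf : ∀ u : InfinitePlace K, Matrix (Fin 2) (Fin 2) u.Completion)
    (Mfin : ∀ v : HeightOneSpectrum (𝓞 K), Matrix (Fin 2) (Fin 2) (v.adicCompletion K))
    (hinf : ∀ u, (Minf u).det ≠ 0) (hfin : ∀ v, (Mfin v).det ≠ 0)
    (hM : ∀ᶠ v in cofinite, ∀ i j, Mfin v i j ∈ v.adicCompletionIntegers K)
    (hM' : ∀ᶠ v in cofinite, ∀ i j, (Mfin v)⁻¹ i j ∈ v.adicCompletionIntegers K) :
    (((mkG Minf Mfin hinf hfin hM hM')⁻¹ : A0.G K) : Matrix (Fin 2) (Fin 2) (A0.Adl K))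
      = mkM (fun u => (Minf u)⁻¹) (fun v => (Mfin v)⁻¹) hM' := rfl

/-! ## Integrality of the components of an element -/

theorem eventually_integral (g : A0.G K) :
    ∀ᶠ v in cofinite, ∀ i j, A0.finComp v g i j ∈ v.adicCompletionIntegers K := by
  have h : ∀ i j : Fin 2, ∀ᶠ v in cofinite,
      A0.finComp v g i j ∈ v.adicCompletionIntegers K := fun i j =>
    ((g : Matrix (Fin 2) (Fin 2) (A0.Adl K)) i j).2.2
  have h' : ∀ i : Fin 2, ∀ᶠ v in cofinite, ∀ j,
      A0.finComp v g i j ∈ v.adicCompletionIntegers K := fun i =>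
    (Filter.eventually_all).mpr (h i)
  exact (Filter.eventually_all).mpr h'

theorem eventually_integral_inv (g : A0.G K) :
    ∀ᶠ v in cofinite, ∀ i j, (A0.finComp v g)⁻¹ i j ∈ v.adicCompletionIntegers K := by
  refine (eventually_integral g⁻¹).mono fun v h i j => ?_
  rw [← finComp_inv]
  exact h i j

end Fermat.Agent.LT.A2.H151

end

end
-- ===== PACK-END LT/A2/H151/Mk.lean

-- ===== PACK-BEGIN LT/A2/H201/ProdIntGeom.lean
section




/-!
# Row LT, tower A2, leaf A2.03.1.1.02 `WX467.ProdIntC` -- adelic geometry (helper201)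

OFF-MAIN.  The open subgroups `𝔸_T = {x : x_v ∈ 𝒪_v for v ∉ T}`, the coordinate maps, the
reference box, and the identification of `prodFn f f'` with a function of finitely many
coordinates on `𝔸_T × 𝔸_T` (zero outside).
-/

set_option autoImplicit false
set_option linter.unusedSectionVars false
set_option linter.style.haveILetI false

open IsDedekindDomain NumberField AutomorphicForm MeasureTheory Set
open scoped MatrixGroups Topology ENNReal

noncomputable section

namespace Fermat.Agent.LT.A2.H201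

open Fermat.Agent.LT.H556 Fermat.Agent.LT.A2 Fermat.Agent.LT.A2.WX467 Fermat.Agent.LT.T1.H671

variable {K : Type} [Field K] [NumberField K]

/-- The coordinate of an adele at the infinite place `u`. -/
def pInf201 (u : InfinitePlace K) (x : A0.Adl K) : u.Completion := x.1 u

/-- The coordinate of an adele at the finite place `v`. -/
def pFin201 (v : HeightOneSpectrum (𝓞 K)) (x : A0.Adl K) : v.adicCompletion K := x.2 v

theorem continuous_pInf201 (u : InfinitePlace K) : Continuous (pInf201 (K := K) u) :=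
  (continuous_apply u).comp continuous_fst

theorem continuous_pFin201 (v : HeightOneSpectrum (𝓞 K)) : Continuous (pFin201 (K := K) v) :=
  (continuous_eval671 v).comp continuous_snd

theorem pInf_add201 (u : InfinitePlace K) (x y : A0.Adl K) :
    pInf201 u (x + y) = pInf201 u x + pInf201 u y := rfl

theorem pFin_add201 (v : HeightOneSpectrum (𝓞 K)) (x y : A0.Adl K) :
    pFin201 v (x + y) = pFin201 v x + pFin201 v y := rfl

/-- The open subgroup `𝔸_T` of the adeles which are integral outside `T`. -/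
def AT201 (T : Finset (HeightOneSpectrum (𝓞 K))) : AddSubgroup (A0.Adl K) where
  carrier := {x | ∀ v, v ∉ T → pFin201 v x ∈ v.adicCompletionIntegers K}
  zero_mem' := fun v _ => zero_mem (v.adicCompletionIntegers K)
  add_mem' := fun {x y} hx hy v hv => by
    rw [pFin_add201]
    exact add_mem (hx v hv) (hy v hv)
  neg_mem' := fun {x} hx v hv => by
    have : pFin201 v (-x) = -pFin201 v x := rfl
    rw [this]
    exact neg_mem (hx v hv)

theorem mem_AT201 (T : Finset (HeightOneSpectrum (𝓞 K))) (x : A0.Adl K) :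
    x ∈ AT201 T ↔ ∀ v, v ∉ T → pFin201 v x ∈ v.adicCompletionIntegers K := Iff.rfl

theorem isOpen_AT201 (T : Finset (HeightOneSpectrum (𝓞 K))) :
    IsOpen ((AT201 T : AddSubgroup (A0.Adl K)) : Set (A0.Adl K)) := by
  have h1 : IsOpen {f : FiniteAdeleRing (𝓞 K) K |
      ∀ v, v ∉ T → f v ∈ v.adicCompletionIntegers K} :=
    RestrictedProduct.isOpen_forall_imp_mem
      (R := fun v : HeightOneSpectrum (𝓞 K) => v.adicCompletion K)
      (A := fun v => (v.adicCompletionIntegers K : Set (v.adicCompletion K)))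
      (fun _ => Valued.isOpen_valuationSubring _) (p := fun v => v ∉ T)
  exact h1.preimage (continuous_snd (X := InfiniteAdeleRing K) (Y := FiniteAdeleRing (𝓞 K) K))

open scoped Classical in
/-- The adele with prescribed coordinates at the infinite places and at the places of `T`, zero
elsewhere. -/
def mkAdele201 (T : Finset (HeightOneSpectrum (𝓞 K))) (a : ∀ u : InfinitePlace K, u.Completion)
    (b : ∀ v : ↥T, (v : HeightOneSpectrum (𝓞 K)).adicCompletion K) : A0.Adl K :=
  (a, ⟨fun v => if h : v ∈ T then b ⟨v, h⟩ else 0, by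
    have hfin : {v : HeightOneSpectrum (𝓞 K) | v ∈ T}.Finite := T.finite_toSet
    refine Filter.eventually_cofinite.2 (hfin.subset ?_)
    intro v hv
    by_contra hvT
    apply hv
    simp only [dif_neg (show ¬ v ∈ T from hvT)]
    exact zero_mem _⟩)

theorem pInf_mkAdele201 (T : Finset (HeightOneSpectrum (𝓞 K)))
    (a : ∀ u : InfinitePlace K, u.Completion)
    (b : ∀ v : ↥T, (v : HeightOneSpectrum (𝓞 K)).adicCompletion K) (u : InfinitePlace K) :
    pInf201 u (mkAdele201 T a b) = a u := rfl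

theorem pFin_mkAdele_mem201 (T : Finset (HeightOneSpectrum (𝓞 K)))
    (a : ∀ u : InfinitePlace K, u.Completion)
    (b : ∀ v : ↥T, (v : HeightOneSpectrum (𝓞 K)).adicCompletion K) (v : ↥T) :
    pFin201 v.1 (mkAdele201 T a b) = b v := by
  classical
  show (if h : v.1 ∈ T then b ⟨v.1, h⟩ else 0) = b v
  rw [dif_pos v.2]

theorem pFin_mkAdele_not_mem201 (T : Finset (HeightOneSpectrum (𝓞 K)))
    (a : ∀ u : InfinitePlace K, u.Completion)
    (b : ∀ v : ↥T, (v : HeightOneSpectrum (𝓞 K)).adicCompletion K)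
    (v : HeightOneSpectrum (𝓞 K)) (hv : v ∉ T) :
    pFin201 v (mkAdele201 T a b) = 0 := by
  classical
  show (if h : v ∈ T then b ⟨v, h⟩ else (0 : v.adicCompletion K)) = 0
  rw [dif_neg hv]

theorem mkAdele_mem201 (T : Finset (HeightOneSpectrum (𝓞 K)))
    (a : ∀ u : InfinitePlace K, u.Completion)
    (b : ∀ v : ↥T, (v : HeightOneSpectrum (𝓞 K)).adicCompletion K) :
    mkAdele201 T a b ∈ AT201 T := by
  intro v hv
  rw [pFin_mkAdele_not_mem201 T a b v hv]
  exact zero_mem _

/-! ## The reference box -/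

/-- A compact neighbourhood of `0` in the completion at `u`. -/
def EInf201 (u : InfinitePlace K) : Set u.Completion :=
  Classical.choose (exists_compact_mem_nhds (0 : u.Completion))

theorem isCompact_EInf201 (u : InfinitePlace K) : IsCompact (EInf201 u) :=
  (Classical.choose_spec (exists_compact_mem_nhds (0 : u.Completion))).1

theorem EInf_mem_nhds201 (u : InfinitePlace K) : EInf201 u ∈ 𝓝 (0 : u.Completion) :=
  (Classical.choose_spec (exists_compact_mem_nhds (0 : u.Completion))).2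

theorem interior_EInf_nonempty201 (u : InfinitePlace K) : (interior (EInf201 u)).Nonempty :=
  ⟨0, mem_interior_iff_mem_nhds.2 (EInf_mem_nhds201 u)⟩

/-- The integers of `K_v` as a set. -/
def EFin201 (v : HeightOneSpectrum (𝓞 K)) : Set (v.adicCompletion K) :=
  (v.adicCompletionIntegers K : Set (v.adicCompletion K))

theorem isCompact_EFin201 (v : HeightOneSpectrum (𝓞 K)) : IsCompact (EFin201 (K := K) v) :=
  Fermat.Agent.LT.H11.LC.isCompact_integers_h11 K v

theorem isOpen_EFin201 (v : HeightOneSpectrum (𝓞 K)) : IsOpen (EFin201 (K := K) v) :=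
  Valued.isOpen_valuationSubring _

theorem interior_EFin_nonempty201 (v : HeightOneSpectrum (𝓞 K)) :
    (interior (EFin201 (K := K) v)).Nonempty := by
  rw [(isOpen_EFin201 v).interior_eq]
  exact ⟨0, zero_mem (v.adicCompletionIntegers K)⟩

/-- The reference box of the adeles. -/
def W201 (K : Type) [Field K] [NumberField K] : Set (A0.Adl K) :=
  {x | (∀ u, pInf201 u x ∈ EInf201 u) ∧ ∀ v, pFin201 v x ∈ EFin201 v}

theorem boxSrc_eq_W201 (T : Finset (HeightOneSpectrum (𝓞 K))) :
    boxSrc201 (AT201 T) (fun u : InfinitePlace K => pInf201 u)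
      (fun v : ↥T => pFin201 (v : HeightOneSpectrum (𝓞 K)))
      (fun u : InfinitePlace K => EInf201 u)
      (fun v : ↥T => EFin201 (v : HeightOneSpectrum (𝓞 K))) = W201 K := by
  ext x
  constructor
  · rintro ⟨h1, h2, h3⟩
    refine ⟨h2, fun v => ?_⟩
    by_cases hv : v ∈ T
    · exact h3 ⟨v, hv⟩
    · exact h1 v hv
  · rintro ⟨h1, h2⟩
    exact ⟨fun v _ => h2 v, h1, fun v => h2 v.1⟩

theorem W_eq_prod201 :
    W201 K = ((univ.pi fun u : InfinitePlace K => EInf201 u) ×ˢ intAdeles671 K :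
      Set (InfiniteAdeleRing K × FiniteAdeleRing (𝓞 K) K)) := by
  ext x
  constructor
  · rintro ⟨h1, h2⟩
    exact ⟨fun u _ => h1 u, fun v => h2 v⟩
  · rintro ⟨h1, h2⟩
    exact ⟨fun u => h1 u (mem_univ u), fun v => h2 v⟩

theorem isCompact_W201 : IsCompact (W201 K) := by
  rw [W_eq_prod201]
  exact (isCompact_univ_pi fun u => isCompact_EInf201 u).prod (isCompact_intAdeles671 K)

theorem W_mem_nhds201 : W201 K ∈ 𝓝 (0 : A0.Adl K) := by
  rw [W_eq_prod201]
  have h1 : (univ.pi fun u : InfinitePlace K => EInf201 u) ∈ 𝓝 (0 : InfiniteAdeleRing K) :=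
    set_pi_mem_nhds finite_univ fun u _ => EInf_mem_nhds201 u
  have h2 : intAdeles671 K ∈ 𝓝 (0 : FiniteAdeleRing (𝓞 K) K) :=
    (isOpen_intAdeles671 K).mem_nhds (zero_mem_intAdeles671 K)
  exact prod_mem_nhds h1 h2

/-! ## `prodFn` as a function of finitely many coordinates -/

theorem stdFn_of_mem201 (v : HeightOneSpectrum (𝓞 K))
    (ξ : v.adicCompletion K × v.adicCompletion K)
    (h1 : ξ.1 ∈ v.adicCompletionIntegers K) (h2 : ξ.2 ∈ v.adicCompletionIntegers K) :
    stdFn v ξ = 1 := by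
  unfold stdFn
  rw [if_pos ⟨h1, h2⟩]

theorem stdFn_of_not_mem201 (v : HeightOneSpectrum (𝓞 K))
    (ξ : v.adicCompletion K × v.adicCompletion K)
    (h : ¬ (ξ.1 ∈ v.adicCompletionIntegers K ∧ ξ.2 ∈ v.adicCompletionIntegers K)) :
    stdFn v ξ = 0 := by
  unfold stdFn
  rw [if_neg h]

theorem finite_not_integral201 (x : A0.Adl K) :
    {v : HeightOneSpectrum (𝓞 K) | pFin201 v x ∉ v.adicCompletionIntegers K}.Finite :=
  Filter.eventually_cofinite.1 x.2.2

theorem prodFn_eq_indicator201 (T : Finset (HeightOneSpectrum (𝓞 K)))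
    (f : ∀ u : InfinitePlace K, u.Completion × u.Completion → ℂ)
    (f' : ∀ v : HeightOneSpectrum (𝓞 K), v.adicCompletion K × v.adicCompletion K → ℂ)
    (hf' : ∀ v, v ∉ T → f' v = stdFn v) :
    prodFn f f' = (((AT201 T).prod (AT201 T) : AddSubgroup (A0.Adl K × A0.Adl K)) :
        Set (A0.Adl K × A0.Adl K)).indicator
      (fun ξ => boxFn201 f (fun v : ↥T => f' (v : HeightOneSpectrum (𝓞 K)))
        (boxMap201 (fun u : InfinitePlace K => pInf201 u)
          (fun v : ↥T => pFin201 (v : HeightOneSpectrum (𝓞 K))) ξ)) := by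
  classical
  funext ξ
  by_cases hξ : ξ ∈ (((AT201 T).prod (AT201 T) : AddSubgroup (A0.Adl K × A0.Adl K)) :
        Set (A0.Adl K × A0.Adl K))
  · rw [Set.indicator_of_mem hξ]
    have hξ' : ξ.1 ∈ AT201 T ∧ ξ.2 ∈ AT201 T := AddSubgroup.mem_prod.1 hξ
    unfold prodFn boxFn201 boxMap201
    congr 1
    have hsupp : Function.mulSupport (fun v : HeightOneSpectrum (𝓞 K) => f' v (finVec v ξ))
        ⊆ (T : Set (HeightOneSpectrum (𝓞 K))) := by
      intro v hv
      by_contra hvT
      apply hv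
      have hvT' : v ∉ T := hvT
      show f' v (finVec v ξ) = 1
      rw [hf' v hvT']
      exact stdFn_of_mem201 v _ (hξ'.1 v hvT') (hξ'.2 v hvT')
    rw [finprod_eq_prod_of_mulSupport_subset _ hsupp]
    exact (Finset.prod_coe_sort T (fun v => f' v (finVec v ξ))).symm
  · rw [Set.indicator_of_notMem hξ]
    have hξ' : ¬ (ξ.1 ∈ AT201 T ∧ ξ.2 ∈ AT201 T) := fun h => hξ (AddSubgroup.mem_prod.2 h)
    have hex : ∃ v, v ∉ T ∧ ¬ (pFin201 v ξ.1 ∈ v.adicCompletionIntegers K ∧
        pFin201 v ξ.2 ∈ v.adicCompletionIntegers K) := by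
      by_contra hcon
      refine hξ' ⟨fun v hv => ?_, fun v hv => ?_⟩
      · by_contra h; exact hcon ⟨v, hv, fun h' => h h'.1⟩
      · by_contra h; exact hcon ⟨v, hv, fun h' => h h'.2⟩
    obtain ⟨v₀, hv₀T, hv₀⟩ := hex
    have hzero : f' v₀ (finVec v₀ ξ) = 0 := by
      rw [hf' v₀ hv₀T]
      exact stdFn_of_not_mem201 v₀ _ hv₀
    have hfin : (Function.mulSupport
        (fun v : HeightOneSpectrum (𝓞 K) => f' v (finVec v ξ))).Finite := by
      refine ((T.finite_toSet.union (finite_not_integral201 ξ.1)).union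
        (finite_not_integral201 ξ.2)).subset ?_
      intro v hv
      by_contra hcon
      apply hv
      have h1 : v ∉ T := fun h => hcon (Or.inl (Or.inl h))
      have h2 : pFin201 v ξ.1 ∈ v.adicCompletionIntegers K := by
        by_contra h; exact hcon (Or.inl (Or.inr h))
      have h3 : pFin201 v ξ.2 ∈ v.adicCompletionIntegers K := by
        by_contra h; exact hcon (Or.inr h)
      show f' v (finVec v ξ) = 1
      rw [hf' v h1]
      exact stdFn_of_mem201 v _ h2 h3
    unfold prodFn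
    rw [finprod_eq_zero _ v₀ hzero hfin, mul_zero]

end Fermat.Agent.LT.A2.H201

end
end
-- ===== PACK-END LT/A2/H201/ProdIntGeom.lean

-- ===== PACK-BEGIN LT/A2/H276/WeylElts.lean
section


/-!
# Row LT, tower A2, leaf A2.03.1.4 `WX467.WeylC` (helper276), OFF-MAIN: the elements

The elements `n(x)`, `w`, `t(a)` of `SL₂(𝔸_K)` as elements of `A0.G K`, and the relations
`(w n(1))³ = 1`, `w⁴ = 1`, `w n(a) w = t(-a⁻¹) n(-a) w n(-a⁻¹)`.
-/

set_option autoImplicit false

open IsDedekindDomain NumberField AutomorphicForm MeasureTheory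
open scoped MatrixGroups Topology

noncomputable section

namespace Fermat.Agent.LT.A2.H276

open Fermat.Agent.LT.H130 Fermat.Agent.LT.H556 Fermat.Agent.LT.A2 Fermat.Agent.LT.A2.WX467
open Fermat.Agent.LT.T1.H793

/-! ## Matrix identities over a commutative ring -/

section Generic

variable {R : Type*} [CommRing R]

theorem mat_unip_mul276 (x y : R) :
    (!![1, x; 0, 1] : Matrix (Fin 2) (Fin 2) R) * !![1, y; 0, 1] = !![1, x + y; 0, 1] := by
  ext i j
  fin_cases i <;> fin_cases j <;> simp [Matrix.mul_apply, Fin.sum_univ_two, add_comm]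

theorem mat_unip_zero276 : (!![1, 0; 0, 1] : Matrix (Fin 2) (Fin 2) R) = 1 := by
  ext i j
  fin_cases i <;> fin_cases j <;> simp

theorem mat_weyl_mul_inv276 :
    (!![0, 1; -1, 0] : Matrix (Fin 2) (Fin 2) R) * !![0, -1; 1, 0] = 1 := by
  ext i j
  fin_cases i <;> fin_cases j <;> simp [Matrix.mul_apply, Fin.sum_univ_two]

theorem mat_weyl_inv_mul276 :
    (!![0, -1; 1, 0] : Matrix (Fin 2) (Fin 2) R) * !![0, 1; -1, 0] = 1 := by
  ext i j
  fin_cases i <;> fin_cases j <;> simp [Matrix.mul_apply, Fin.sum_univ_two]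

theorem mat_diag_mul276 (a b c d : R) :
    (!![a, 0; 0, b] : Matrix (Fin 2) (Fin 2) R) * !![c, 0; 0, d] = !![a * c, 0; 0, b * d] := by
  ext i j
  fin_cases i <;> fin_cases j <;> simp [Matrix.mul_apply, Fin.sum_univ_two]

/-- `(w n(1))³ = 1` -/
theorem mat_rel_three276 :
    ((!![0, 1; -1, 0] : Matrix (Fin 2) (Fin 2) R) * !![1, 1; 0, 1]) *
      ((!![0, 1; -1, 0] : Matrix (Fin 2) (Fin 2) R) * !![1, 1; 0, 1]) *
      ((!![0, 1; -1, 0] : Matrix (Fin 2) (Fin 2) R) * !![1, 1; 0, 1]) = 1 := by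
  ext i j
  fin_cases i <;> fin_cases j <;> simp [Matrix.mul_apply, Fin.sum_univ_two]

/-- `w⁴ = 1` -/
theorem mat_rel_four276 :
    (!![0, 1; -1, 0] : Matrix (Fin 2) (Fin 2) R) * !![0, 1; -1, 0] *
      (!![0, 1; -1, 0] * !![0, 1; -1, 0]) = 1 := by
  ext i j
  fin_cases i <;> fin_cases j <;> simp [Matrix.mul_apply, Fin.sum_univ_two]

/-- `w n(a) w = t(-a⁻¹) n(-a) w n(-a⁻¹)`, with `b = a⁻¹`. -/
theorem mat_rel_diag276 (a b : R) (hab : a * b = 1) :
    (!![0, 1; -1, 0] : Matrix (Fin 2) (Fin 2) R) * !![1, a; 0, 1] * !![0, 1; -1, 0]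
      = !![-b, 0; 0, -a] * !![1, -a; 0, 1] * !![0, 1; -1, 0] * !![1, -b; 0, 1] := by
  have hba : b * a = 1 := by rw [mul_comm]; exact hab
  ext i j
  fin_cases i <;> fin_cases j <;>
    simp [Matrix.mul_apply, Fin.sum_univ_two, hab, hba]

end Generic

variable {K : Type} [Field K] [NumberField K]

/-! ## The elements -/

/-- `n(x) = [[1, x], [0, 1]]` -/
def nU276 (x : A0.Adl K) : A0.G K where
  val := !![1, x; 0, 1]
  inv := !![1, -x; 0, 1]
  val_inv := by rw [mat_unip_mul276, add_neg_cancel, mat_unip_zero276]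
  inv_val := by rw [mat_unip_mul276, neg_add_cancel, mat_unip_zero276]

theorem isUpperUnip_nU276 : IsUpperUnip (nU276 (K := K)) := fun _ => rfl

/-- `w = [[0, 1], [-1, 0]]` -/
def wE276 : A0.G K where
  val := !![0, 1; -1, 0]
  inv := !![0, -1; 1, 0]
  val_inv := mat_weyl_mul_inv276
  inv_val := mat_weyl_inv_mul276

theorem isWeyl_wE276 : IsWeyl (wE276 (K := K)) := rfl

/-- `t(a) = diag(a, a⁻¹)` -/
def tA276 (a : (A0.Adl K)ˣ) : A0.G K where
  val := !![(a : A0.Adl K), 0; 0, ((a⁻¹ : (A0.Adl K)ˣ) : A0.Adl K)]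
  inv := !![((a⁻¹ : (A0.Adl K)ˣ) : A0.Adl K), 0; 0, (a : A0.Adl K)]
  val_inv := by rw [mat_diag_mul276, Units.mul_inv, Units.inv_mul, mat_unip_zero276]
  inv_val := by rw [mat_diag_mul276, Units.mul_inv, Units.inv_mul, mat_unip_zero276]

theorem isDiagSLA_tA276 (a : (A0.Adl K)ˣ) : WL.IsDiagSLA (tA276 a) a := rfl

theorem nU276_val (x : A0.Adl K) :
    ((nU276 x : A0.G K) : Matrix (Fin 2) (Fin 2) (A0.Adl K)) = !![1, x; 0, 1] := rfl

theorem wE276_val :
    ((wE276 : A0.G K) : Matrix (Fin 2) (Fin 2) (A0.Adl K)) = !![0, 1; -1, 0] := rfl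

theorem tA276_val (a : (A0.Adl K)ˣ) :
    ((tA276 a : A0.G K) : Matrix (Fin 2) (Fin 2) (A0.Adl K))
      = !![(a : A0.Adl K), 0; 0, ((a⁻¹ : (A0.Adl K)ˣ) : A0.Adl K)] := rfl

/-! ## The relations -/

theorem rel_three276 :
    (wE276 (K := K) * nU276 1) * (wE276 * nU276 1) * (wE276 * nU276 1) = 1 := by
  apply Units.ext
  simp only [Units.val_mul, nU276_val, wE276_val, Units.val_one]
  exact mat_rel_three276

theorem rel_four276 : (wE276 (K := K)) * wE276 * (wE276 * wE276) = 1 := by
  apply Units.ext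
  simp only [Units.val_mul, wE276_val, Units.val_one]
  exact mat_rel_four276

theorem rel_diag276 (a : (A0.Adl K)ˣ) :
    (wE276 (K := K)) * nU276 (a : A0.Adl K) * wE276
      = tA276 (-a⁻¹) * nU276 (-(a : A0.Adl K)) * wE276
          * nU276 (-((a⁻¹ : (A0.Adl K)ˣ) : A0.Adl K)) := by
  apply Units.ext
  simp only [Units.val_mul, nU276_val, wE276_val, tA276_val]
  rw [inv_neg, inv_inv, Units.val_neg, Units.val_neg]
  exact mat_rel_diag276 (a : A0.Adl K) ((a⁻¹ : (A0.Adl K)ˣ) : A0.Adl K) a.mul_inv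

end Fermat.Agent.LT.A2.H276

end

end
-- ===== PACK-END LT/A2/H276/WeylElts.lean

-- ===== PACK-BEGIN LT/A2/H441/Asm.lean
section



/-!
# Row LT, tower A2, leaf A2.03.1.1.11 `WX467.AsmC` (helper441): the assembly of `DataC`

OFF-MAIN.  `asmC441 : WX467.AsmC`, VERBATIM against `LT/A2/H467/DataSpec.lean`
(helper467@8b34cad8f, sha256 72cb2b55afa8db8d).

`S = S_ψ ∪ S_tor ∪ {v ∣ 𝔡}`; local components by choice (`LocBadC` at `v ∈ S`, `LocGoodC` at
`v ∉ S`, `LocCpxC` at the infinite places); level `𝔡 · ∏_{v ∈ S} v ^ (N_v + 1)`; `η = ∏ η_v`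
(so `eta_prod` is `rfl`); the constant `c` from `ProdIntC` after the local Haar facts.
-/

set_option autoImplicit false

open IsDedekindDomain NumberField AutomorphicForm MeasureTheory
open scoped MatrixGroups Topology

noncomputable section

namespace Fermat.Agent.LT.A2.H441

open Fermat.Agent.LT.H130 Fermat.Agent.LT.H556 Fermat.Agent.LT.A2 Fermat.Agent.LT.A2.WX467

/-- A local quadratic character takes the value `1` at `1`. -/
theorem eta_one_of_locAx441 {k : Type} [Field k] [TopologicalSpace k] {absv : k → ℝ} {t n : k}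
    {ψ : k → ℂ} {μ : @Measure k (borel k)} {γ : ℂ} {η : k → ℂ}
    {F : Matrix (Fin 2) (Fin 2) k → Matrix (Fin 2) (Fin 2) k → k × k → ℂ}
    (h : LocAx absv t n ψ μ γ η F) : η 1 = 1 := by
  have h1 := h.eta_mul 1 1 one_ne_zero one_ne_zero
  rw [mul_one] at h1
  rcases h.eta_sq 1 one_ne_zero with h2 | h2
  · exact h2
  · rw [h2] at h1
    norm_num at h1

/-- **A2.03.1.1.11 ASM**: the assembly of `DataC`. -/
theorem asmC441 : WX467.AsmC := by
  intro hpsi hint htor harith hind hgood hbad hcpx K _ _ t n χT hT1 hχ hallcpx 𝔡 h𝔡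
  classical
  -- the global objects
  obtain ⟨ψ, hψ, Sψ, hSψ⟩ := hpsi K hT1
  obtain ⟨μ, μT, DT, hmeas⟩ := htor K t n hT1 hχ.irred
  obtain ⟨Stor, hStor⟩ := harith K t n χT hT1 hχ
  have hfin : {v : HeightOneSpectrum (𝓞 K) | v.asIdeal ∣ 𝔡}.Finite := Ideal.finite_factors h𝔡
  -- the set of the places which are not good
  let S : Finset (HeightOneSpectrum (𝓞 K)) := Sψ ∪ Stor ∪ hfin.toFinset
  have hSψ' : ∀ v, v ∉ S → v ∉ Sψ := fun v hv h =>
    hv (Finset.mem_union_left _ (Finset.mem_union_left _ h))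
  have hStor' : ∀ v, v ∉ S → v ∉ Stor := fun v hv h =>
    hv (Finset.mem_union_left _ (Finset.mem_union_right _ h))
  have hSd : ∀ v, v ∉ S → ¬ v.asIdeal ∣ 𝔡 := fun v hv h =>
    hv (Finset.mem_union_right _ (hfin.mem_toFinset.2 h))
  have hga : ∀ v, v ∉ S → GoodArith t n χT ψ v := fun v hv =>
    goodArith_of467 (hStor v (hStor' v hv)) (hSψ v (hSψ' v hv))
  -- the local components
  choose Nb ψb μb γb ηb Fb Tb hb using fun v => hbad K t n χT ψ v hT1 hχ hψ
  choose ψg μg γg ηg Fg Tg hg using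
    fun (v : HeightOneSpectrum (𝓞 K)) (hv : v ∉ S) => hgood K t n χT ψ v hT1 hχ hψ (hga v hv)
  choose ψc μc γc ηc Fc hc using fun u => hcpx K t n χT ψ u hT1 hχ hψ (hallcpx u)
  -- the level and the eigensystem
  have h𝔫 : asmLevel441 𝔡 S Nb ≠ ⊥ := asmLevel441_ne_bot h𝔡 S Nb
  have hnd : ∀ v, v ∉ S → ¬ v.asIdeal ∣ asmLevel441 𝔡 S Nb := fun v hv =>
    asmLevel441_not_dvd 𝔡 S Nb hv (hSd v hv)
  have hSof : ∀ v : HeightOneSpectrum (𝓞 K), ¬ v.asIdeal ∣ asmLevel441 𝔡 S Nb → v ∉ S :=
    fun v hv h => hv (asmLevel441_dvd 𝔡 S Nb h)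
  obtain ⟨π, hπl, hπ⟩ := hind K t n χT ψ hχ (asmLevel441 𝔡 S Nb) h𝔫
    (fun v hv => hga v (hSof v hv))
  -- the product data, with a free constant
  let L : ℂ → WData K := fun c =>
    { t := t
      n := n
      χT := χT
      ψ := ψ
      μ := μ
      μT := μT
      DT := DT
      π := π
      η := fun a =>
        (∏ u : InfinitePlace K, ηc u ((a : A0.Adl K).1 u)) *
          ∏ᶠ v : HeightOneSpectrum (𝓞 K),
            (if h : v ∈ S then ηb v else ηg v h) ((a : A0.Adl K).2 v)
      c := c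
      ψinf := ψc
      μinf := μc
      γinf := γc
      ηinf := ηc
      Finf := Fc
      ψfin := fun v => if h : v ∈ S then ψb v else ψg v h
      μfin := fun v => if h : v ∈ S then μb v else μg v h
      γfin := fun v => if h : v ∈ S then γb v else γg v h
      ηfin := fun v => if h : v ∈ S then ηb v else ηg v h
      Ffin := fun v => if h : v ∈ S then Fb v else Fg v h
      Tlev := fun v => if h : v ∈ S then Tb v else Tg v h }
  have hM : ∀ c, Matches (L c) t n χT ψ := fun c => ⟨rfl, rfl, rfl, rfl⟩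
  have hMb : ∀ c v, v ∈ S → MatchesFin (L c) v (ψb v) (μb v) (γb v) (ηb v) (Fb v) (Tb v) :=
    fun c v hv => ⟨dif_pos hv, dif_pos hv, dif_pos hv, dif_pos hv, dif_pos hv, dif_pos hv⟩
  have hMg : ∀ c v (hv : v ∉ S),
      MatchesFin (L c) v (ψg v hv) (μg v hv) (γg v hv) (ηg v hv) (Fg v hv) (Tg v hv) :=
    fun c v hv => ⟨dif_neg hv, dif_neg hv, dif_neg hv, dif_neg hv, dif_neg hv, dif_neg hv⟩
  have hMc : ∀ c u, MatchesInf (L c) u (ψc u) (μc u) (γc u) (ηc u) (Fc u) :=
    fun c u => ⟨rfl, rfl, rfl, rfl, rfl⟩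
  have hlev : ∀ c, (L c).π.level = asmLevel441 𝔡 S Nb := fun c => hπl
  -- the local certificates
  have hCpx : ∀ c u, CpxAt (L c) u := fun c u => hc u (L c) (hM c) (hMc c u)
  have hFin : ∀ c v, FinAt (L c) v := by
    intro c v
    by_cases hv : v ∈ S
    · refine hb v (L c) (hM c) (hMb c v hv) ?_
      rw [hlev c]
      exact asmLevel441_le_pow' 𝔡 S Nb hv
    · refine (hg v hv (L c) (hM c) (hMg c v hv) ?_).1
      rw [hlev c]
      exact hnd v hv
  have hηc1 : ∀ u, ηc u 1 = 1 := fun u => (hCpx 0 u).eta_one 1 one_ne_zero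
  have hηf1 : ∀ v, (L 0).ηfin v 1 = 1 := fun v => eta_one_of_locAx441 (hFin 0 v).ax
  have hGood : ∀ c v, ¬ v.asIdeal ∣ (L c).π.level → GoodAt (L c) v := by
    intro c v hvl
    rw [hlev c] at hvl
    have hv : v ∉ S := hSof v hvl
    refine (hg v hv (L c) (hM c) (hMg c v hv) ?_).2 ?_
    · rw [hlev c]
      exact hvl
    · intro a ha
      show (∏ u : InfinitePlace K, ηc u ((a : A0.Adl K).1 u)) *
          ∏ᶠ w : HeightOneSpectrum (𝓞 K),
            (if h : w ∈ S then ηb w else ηg w h) ((a : A0.Adl K).2 w) = _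
      have h1 : (∏ u : InfinitePlace K, ηc u ((a : A0.Adl K).1 u)) = 1 := by
        refine Finset.prod_eq_one fun u _ => ?_
        rw [ha.1 u]
        exact hηc1 u
      have h2 : (∏ᶠ w : HeightOneSpectrum (𝓞 K),
            (if h : w ∈ S then ηb w else ηg w h) ((a : A0.Adl K).2 w))
          = (if h : v ∈ S then ηb v else ηg v h) ((a : A0.Adl K).2 v) := by
        refine finprod_eq_single _ v fun w hw => ?_
        rw [ha.2 w hw]
        exact hηf1 w
      rw [h1, h2, one_mul, dif_neg hv]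
  -- the constant
  have hcov : IsCovolOne μ := (hmeas (L 0).toKData rfl rfl rfl rfl rfl).covol
  obtain ⟨c, hc'⟩ := hint K hT1 μ μc (L 0).μfin hcov (fun u => (hCpx 0 u).ax.haar)
    (fun v => (hFin 0 v).ax.haar)
    ⟨S, fun v hv => (hGood 0 v (by rw [hlev 0]; exact hnd v hv)).meas_one⟩
  -- the assembly
  refine ⟨L c, rfl, rfl, rfl, ?_, ?_⟩
  · rw [hlev c]
    exact asmLevel441_le 𝔡 S Nb
  · exact
      { torus := hχ
        char := hψ
        measured := hmeas (L c).toKData rfl rfl rfl rfl rfl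
        induced := hπ
        cpx := hCpx c
        fin := hFin c
        good := hGood c
        eta_prod := fun _ => rfl
        prod_int := hc' }

end Fermat.Agent.LT.A2.H441

end

end
-- ===== PACK-END LT/A2/H441/Asm.lean

-- ===== PACK-BEGIN LT/A2/H456/Loc.lean
section


/-!
# Row LT, tower A2, leaf A2.02 `TorusCharC` -- top assembly, part 3 (helper456), OFF-MAIN

Adeles and ideles supported at one finite place; torus elements supported at one finite place
with a rational component.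
-/

set_option autoImplicit false

open IsDedekindDomain NumberField AutomorphicForm
open scoped MatrixGroups

noncomputable section

namespace Fermat.Agent.LT.A2.H456

open Fermat.Agent.LT.H130 Fermat.Agent.LT.H556 Fermat.Agent.LT.A2 Fermat.Agent.LT.A2.H83

section Adele

variable {K : Type} [Field K] [NumberField K]

open Classical in
/-- The finite adele with component `x` at `v` and `1` elsewhere. -/
def fOne456 (v : HeightOneSpectrum (𝓞 K)) (x : v.adicCompletion K) : FiniteAdeleRing (𝓞 K) K :=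
  RestrictedProduct.mulSingle (fun v : HeightOneSpectrum (𝓞 K) => v.adicCompletionIntegers K) v x

open Classical in
/-- The finite adele with component `x` at `v` and `0` elsewhere. -/
def fZero456 (v : HeightOneSpectrum (𝓞 K)) (x : v.adicCompletion K) : FiniteAdeleRing (𝓞 K) K :=
  RestrictedProduct.single (fun v : HeightOneSpectrum (𝓞 K) => v.adicCompletionIntegers K) v x

theorem fin_mul_apply456 (a b : FiniteAdeleRing (𝓞 K) K) (v : HeightOneSpectrum (𝓞 K)) :
    (a * b) v = a v * b v := rfl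

theorem fin_add_apply456 (a b : FiniteAdeleRing (𝓞 K) K) (v : HeightOneSpectrum (𝓞 K)) :
    (a + b) v = a v + b v := rfl

theorem fin_one_apply456 (v : HeightOneSpectrum (𝓞 K)) :
    (1 : FiniteAdeleRing (𝓞 K) K) v = 1 := rfl

theorem fin_zero_apply456 (v : HeightOneSpectrum (𝓞 K)) :
    (0 : FiniteAdeleRing (𝓞 K) K) v = 0 := rfl

theorem fOne456_same (v : HeightOneSpectrum (𝓞 K)) (x : v.adicCompletion K) :
    fOne456 v x v = x := by
  classical
  exact RestrictedProduct.mulSingle_eq_same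
    (fun v : HeightOneSpectrum (𝓞 K) => v.adicCompletionIntegers K) v x

theorem fOne456_ne (v : HeightOneSpectrum (𝓞 K)) (x : v.adicCompletion K)
    {v' : HeightOneSpectrum (𝓞 K)} (h : v' ≠ v) : fOne456 v x v' = 1 := by
  classical
  exact RestrictedProduct.mulSingle_eq_of_ne
    (fun v : HeightOneSpectrum (𝓞 K) => v.adicCompletionIntegers K) x h

theorem fZero456_same (v : HeightOneSpectrum (𝓞 K)) (x : v.adicCompletion K) :
    fZero456 v x v = x := by
  classical
  exact RestrictedProduct.single_eq_same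
    (fun v : HeightOneSpectrum (𝓞 K) => v.adicCompletionIntegers K) v x

theorem fZero456_ne (v : HeightOneSpectrum (𝓞 K)) (x : v.adicCompletion K)
    {v' : HeightOneSpectrum (𝓞 K)} (h : v' ≠ v) : fZero456 v x v' = 0 := by
  classical
  exact RestrictedProduct.single_eq_of_ne
    (fun v : HeightOneSpectrum (𝓞 K) => v.adicCompletionIntegers K) x h

theorem fOne456_mul (v : HeightOneSpectrum (𝓞 K)) (x y : v.adicCompletion K) :
    fOne456 v (x * y) = fOne456 v x * fOne456 v y := by
  apply FiniteAdeleRing.ext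
  intro v'
  by_cases h : v' = v
  · subst h
    rw [fin_mul_apply456, fOne456_same, fOne456_same, fOne456_same]
  · rw [fin_mul_apply456, fOne456_ne _ _ h, fOne456_ne _ _ h, fOne456_ne _ _ h, mul_one]

theorem fOne456_one (v : HeightOneSpectrum (𝓞 K)) : fOne456 v (1 : v.adicCompletion K) = 1 := by
  apply FiniteAdeleRing.ext
  intro v'
  by_cases h : v' = v
  · subst h
    rw [fOne456_same]; rfl
  · rw [fOne456_ne _ _ h]; rfl

/-- The adele `(1_∞, x at v, 1 elsewhere)`. -/
def aLoc456 (v : HeightOneSpectrum (𝓞 K)) (x : v.adicCompletion K) : A0.Adl K :=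
  ((1 : InfiniteAdeleRing K), fOne456 v x)

/-- The adele `(0_∞, x at v, 0 elsewhere)`. -/
def bLoc456 (v : HeightOneSpectrum (𝓞 K)) (x : v.adicCompletion K) : A0.Adl K :=
  ((0 : InfiniteAdeleRing K), fZero456 v x)

theorem aLoc456_fst (v : HeightOneSpectrum (𝓞 K)) (x : v.adicCompletion K) :
    (aLoc456 v x).1 = 1 := rfl

theorem aLoc456_snd (v : HeightOneSpectrum (𝓞 K)) (x : v.adicCompletion K) :
    (aLoc456 v x).2 = fOne456 v x := rfl

theorem bLoc456_fst (v : HeightOneSpectrum (𝓞 K)) (x : v.adicCompletion K) :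
    (bLoc456 v x).1 = 0 := rfl

theorem bLoc456_snd (v : HeightOneSpectrum (𝓞 K)) (x : v.adicCompletion K) :
    (bLoc456 v x).2 = fZero456 v x := rfl

theorem aLoc456_mul (v : HeightOneSpectrum (𝓞 K)) (x y : v.adicCompletion K) :
    aLoc456 v (x * y) = aLoc456 v x * aLoc456 v y := by
  apply adl_ext456
  · rw [adl_fst_mul456, aLoc456_fst, aLoc456_fst, aLoc456_fst, mul_one]
  · rw [adl_snd_mul456, aLoc456_snd, aLoc456_snd, aLoc456_snd, fOne456_mul]

theorem aLoc456_one (v : HeightOneSpectrum (𝓞 K)) : aLoc456 v (1 : v.adicCompletion K) = 1 := by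
  apply adl_ext456
  · rfl
  · rw [aLoc456_snd, fOne456_one]; rfl

/-- The monoid homomorphism `K_v → 𝔸_K`, `x ↦ (1_∞, x at v, 1 elsewhere)`. -/
def aLocHom456 (v : HeightOneSpectrum (𝓞 K)) : v.adicCompletion K →* A0.Adl K where
  toFun := aLoc456 v
  map_one' := aLoc456_one v
  map_mul' := aLoc456_mul v

/-- The idele with component `x` at `v`, `1` elsewhere. -/
def idl456 (v : HeightOneSpectrum (𝓞 K)) : (v.adicCompletion K)ˣ →* (A0.Adl K)ˣ :=
  Units.map (aLocHom456 v)

theorem idl456_val (v : HeightOneSpectrum (𝓞 K)) (x : (v.adicCompletion K)ˣ) :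
    ((idl456 v x : (A0.Adl K)ˣ) : A0.Adl K) = aLoc456 v x := rfl

theorem idl456_isIdeleAt (v : HeightOneSpectrum (𝓞 K)) (x : (v.adicCompletion K)ˣ) :
    IsIdeleAt v (idl456 v x) := by
  constructor
  · intro u
    rw [idl456_val, aLoc456_fst]; rfl
  · intro w' hw'
    rw [idl456_val, aLoc456_snd, fOne456_ne _ _ hw']

theorem idl456_at (v : HeightOneSpectrum (𝓞 K)) (x : (v.adicCompletion K)ˣ) :
    ((idl456 v x : (A0.Adl K)ˣ) : A0.Adl K).2 v = x := by
  rw [idl456_val, aLoc456_snd, fOne456_same]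

/-! ## Components of inverses and products of ideles -/

theorem idele_fst_mul_inv456 (z : (A0.Adl K)ˣ) (u : InfinitePlace K) :
    (z : A0.Adl K).1 u * ((z⁻¹ : (A0.Adl K)ˣ) : A0.Adl K).1 u = 1 := by
  have h : (z : A0.Adl K) * ((z⁻¹ : (A0.Adl K)ˣ) : A0.Adl K) = 1 := Units.mul_inv z
  have h1 := congrArg (fun a : A0.Adl K => a.1 u) h
  exact h1

theorem idele_snd_mul_inv456 (z : (A0.Adl K)ˣ) (v : HeightOneSpectrum (𝓞 K)) :
    (z : A0.Adl K).2 v * ((z⁻¹ : (A0.Adl K)ˣ) : A0.Adl K).2 v = 1 := by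
  have h : (z : A0.Adl K) * ((z⁻¹ : (A0.Adl K)ˣ) : A0.Adl K) = 1 := Units.mul_inv z
  have h1 := congrArg (fun a : A0.Adl K => a.2 v) h
  exact h1

theorem isIdeleAt_mul456 {v : HeightOneSpectrum (𝓞 K)} {x y : (A0.Adl K)ˣ}
    (hx : IsIdeleAt v x) (hy : IsIdeleAt v y) : IsIdeleAt v (x * y) := by
  constructor
  · intro u
    rw [Units.val_mul, adl_fst_mul456]
    show (x : A0.Adl K).1 u * (y : A0.Adl K).1 u = 1
    rw [hx.1 u, hy.1 u, mul_one]
  · intro w' hw'
    rw [Units.val_mul, adl_snd_mul456, fin_mul_apply456, hx.2 w' hw', hy.2 w' hw',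
      mul_one]

theorem isIdeleAt_inv456 {v : HeightOneSpectrum (𝓞 K)} {x : (A0.Adl K)ˣ}
    (hx : IsIdeleAt v x) : IsIdeleAt v x⁻¹ := by
  constructor
  · intro u
    have h := idele_fst_mul_inv456 x u
    rw [hx.1 u, one_mul] at h
    exact h
  · intro w' hw'
    have h := idele_snd_mul_inv456 x w'
    rw [hx.2 w' hw', one_mul] at h
    exact h

theorem val_inv_idele456 (x : (A0.Adl K)ˣ) (v : HeightOneSpectrum (𝓞 K)) :
    Valued.v (((x⁻¹ : (A0.Adl K)ˣ) : A0.Adl K).2 v) = (Valued.v ((x : A0.Adl K).2 v))⁻¹ := by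
  have h := idele_snd_mul_inv456 x v
  have h1 := congrArg Valued.v h
  rw [map_mul, map_one] at h1
  exact eq_inv_of_mul_eq_one_right h1

/-- Two ideles supported at `w` with the same valuation at `w` have the same value under a
character unramified at `w`. -/
theorem chi_eq_of_unram456 {χ : (A0.Adl K)ˣ →* ℂˣ} {v : HeightOneSpectrum (𝓞 K)}
    (hχ : UnramAt χ v) {x z : (A0.Adl K)ˣ} (hx : IsIdeleAt v x) (hz : IsIdeleAt v z)
    (hv : Valued.v ((x : A0.Adl K).2 v) = Valued.v ((z : A0.Adl K).2 v)) : χ x = χ z := by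
  have h1 : χ (x * z⁻¹) = 1 := by
    apply hχ
    refine ⟨isIdeleAt_mul456 hx (isIdeleAt_inv456 hz), ?_⟩
    rw [Units.val_mul, adl_snd_mul456, fin_mul_apply456, map_mul, val_inv_idele456, hv]
    apply mul_inv_cancel₀
    intro h0
    have hne : (z : A0.Adl K).2 v ≠ 0 := by
      intro h00
      have h := idele_snd_mul_inv456 z v
      rw [h00, zero_mul] at h
      exact zero_ne_one h
    exact hne ((map_eq_zero _).mp h0)
  rw [map_mul, map_inv, mul_inv_eq_one] at h1
  exact h1

end Adele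

end Fermat.Agent.LT.A2.H456

end

end
-- ===== PACK-END LT/A2/H456/Loc.lean

-- ===== PACK-BEGIN LT/A2/H467/WeilExTopTC.lean
section


/-!
# Row LT, tower A2, station A2.03.1 `WL.WeilExC` -- TOP v2 (helper467), ADDITIVE

`WeilExSpec.lean` (966c0978) and `DataSpec.lean` (72cb2b55) are UNCHANGED.

FAIL #16448 (helper637): `OrbC` as typed in `WeilExSpec.lean` is quantified over ALL number
fields; at a REAL place `CpxAt` is satisfiable, the local family is even in `ξ_u`, and if
`χT(-1_u) = -1` the orbital integral vanishes identically, so `OrbOut.ne_zero` can fail.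
(`χT = 1` on `T(K_u)` needs `T(K_u)` connected, i.e. `u` complex.)

`OrbTCC` = `OrbC` with the hypothesis `∀ u, u.IsComplex` (in scope in `WL.WeilExC`).
`weilEx_of_leaves_tc467` takes `OrbTCC`, and the output of tower T1 for TOTALLY COMPLEX fields
only.  The other leaves are those of v1, VERBATIM.
-/

set_option autoImplicit false

open IsDedekindDomain NumberField AutomorphicForm MeasureTheory

noncomputable section

namespace Fermat.Agent.LT.A2.WX467

open Fermat.Agent.LT.H130 Fermat.Agent.LT.H556 Fermat.Agent.LT.A2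

/-- **A2.03.1.8b ORB (totally complex fields).**  `OrbC` with the hypothesis that all infinite
places are complex: then `χT = 1` on the connected groups `T(K_u)`, the orbital integrand at
`(1, 1)` is `≥ 0` and `> 0` at `1`. -/
def OrbTCC : Prop :=
  ∀ (K : Type) [Field K] [NumberField K] (L : WData K),
    (∀ u : InfinitePlace K, u.IsComplex) →
    T1.T1Out K → L.IsGood → BorelOut L.toKData L.η → L.toKData.IsRegular →
    DecayOut L.toKData → OrbOut L.toKData

theorem orbTCC_of_orbC467 (h : OrbC) : OrbTCC :=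
  fun K _ _ L _ hT1 hgood hB hreg hdecay => h K L hT1 hgood hB hreg hdecay

/-- **The top of the station, v2**: `WL.WeilExC` from the leaves (`OrbTCC` instead of `OrbC`),
the output of tower T1 at the TOTALLY COMPLEX fields and `Poisson2C`. -/
theorem weilEx_of_leaves_tc467
    (hT1 : ∀ (K : Type) [Field K] [NumberField K],
      (∀ u : InfinitePlace K, u.IsComplex) → T1.T1Out K)
    (hP : Poisson2C)
    (hData : DataC) (hBorel : BorelC) (hReg : RegC) (hWeyl : WeylC) (hRat : RatC)
    (hRInv : RightInvC) (hStd : StdLocC) (hOrb : OrbTCC) : WL.WeilExC := by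
  intro K _ _ t n χT hχ hcpx 𝔡 h𝔡
  have hT := hT1 K hcpx
  obtain ⟨L, ht, hn, hχT, hlev, hgood⟩ := hData K t n χT hT hχ hcpx 𝔡 h𝔡
  have hB := hBorel K L hT hgood
  obtain ⟨hreg, hdecay⟩ := hReg K L hT hgood
  have hW := hWeyl hP K L hT hgood hB hreg
  have hR := hRat K L.toKData L.η hT hB hW
  obtain ⟨hri, hinv⟩ := hRInv K L hT hgood hB
  have hS := hStd K L hT hgood
  have hO := hOrb K L hcpx hT hgood hB hreg hdecay
  have hind : InducedDataT t n χT L.toKData.π := by
    have h := hgood.induced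
    rw [ht, hn, hχT] at h
    exact h
  refine ⟨L.toKData, L.η, ht, hn, hχT, hlev, ?_, hind, ?_⟩
  · exact
      { torus := hgood.torus
        char := hgood.char
        measured := hgood.measured
        weil :=
          { unip := hB.unip
            weyl := hW.weyl
            diagK := hR.diagK
            torK := hR.torK
            tor1 := hB.tor1 }
        regular := hreg
        right_inv := hri }
  · exact
      { quad :=
          { mul := hB.eta_mul
            sq := hB.eta_sq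
            cont := hB.eta_cont
            rat := hW.rat
            norm := hB.eta_norm }
        diagA := hB.diagA
        torA := hB.torA
        good_int := fun v hv => (hgood.good v hv).good_int
        good_char := fun v hv => (hgood.good v hv).good_char
        good_norm := fun v hv => (hgood.good v hv).good_norm
        good_eta := fun v hv => (hgood.good v hv).good_eta
        good_psi := fun v hv => (hgood.good v hv).good_psi
        good_std := hS.good_std
        good_inv := hinv.good_inv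
        cpx := hS.cpx
        cpx_inv := hinv.cpx_inv
        decay := hdecay
        orb_dom := hO.orb_dom
        ne_zero := hO.ne_zero }

end Fermat.Agent.LT.A2.WX467

end

end
-- ===== PACK-END LT/A2/H467/WeilExTopTC.lean

-- ===== PACK-BEGIN LT/A2/H637/OrbCut.lean
section


/-!
# Row LT, tower A2, leaf A2.03.1.8 `WX467.OrbC` -- part 2: cutting by idempotents (helper637)

OFF-MAIN.  For an idempotent `e` of a commutative ring `R` the map `M ↦ e M + (1 - e)` is a
monoid endomorphism of `M₂(R)`; on `GL₂(𝔸_K)` it replaces the components of `g` at the places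
outside the support of `e` by `1`.  Orthogonal idempotents give commuting factors:
`cut (e + e') g = cut e g * cut e' g`.  Roots in the torus over an algebraically closed field.

No sorry, nothing assumed.
-/

set_option autoImplicit false
set_option linter.style.haveILetI false

open IsDedekindDomain NumberField AutomorphicForm MeasureTheory
open scoped MatrixGroups Topology ENNReal

noncomputable section

namespace Fermat.Agent.LT.A2.H637

open Fermat.Agent.LT.H130 Fermat.Agent.LT.H556 Fermat.Agent.LT.A2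

/-! ## The cut of a matrix by an idempotent -/

section Cut

variable {R : Type*} [CommRing R]

/-- `e M + (1 - e)`. -/
def cutMat637 (e : R) (M : Matrix (Fin 2) (Fin 2) R) : Matrix (Fin 2) (Fin 2) R :=
  e • M + (1 - e) • (1 : Matrix (Fin 2) (Fin 2) R)

theorem cutMat_apply637 (e : R) (M : Matrix (Fin 2) (Fin 2) R) (i j : Fin 2) :
    cutMat637 e M i j = e * M i j + (1 - e) * (1 : Matrix (Fin 2) (Fin 2) R) i j := by
  simp [cutMat637]

theorem cutMat_one637 (e : R) : cutMat637 e (1 : Matrix (Fin 2) (Fin 2) R) = 1 := by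
  rw [cutMat637, ← add_smul, add_sub_cancel, one_smul]

theorem cutMat_mul637 {e : R} (he : e * e = e) (M N : Matrix (Fin 2) (Fin 2) R) :
    cutMat637 e (M * N) = cutMat637 e M * cutMat637 e N := by
  have h1 : e * (1 - e) = 0 := by rw [mul_sub, mul_one, he, sub_self]
  have h2 : (1 - e) * e = 0 := by rw [mul_comm, h1]
  have h3 : (1 - e) * (1 - e) = 1 - e := by rw [sub_mul, one_mul, h1, sub_zero]
  simp only [cutMat637, add_mul, mul_add, Matrix.smul_mul, Matrix.mul_smul, smul_smul,
    Matrix.one_mul, Matrix.mul_one, he, h1, h2, h3, zero_smul, add_zero, zero_add]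

/-- The cut as a monoid endomorphism of `M₂(R)`. -/
def cutHom637 (e : R) (he : e * e = e) :
    Matrix (Fin 2) (Fin 2) R →* Matrix (Fin 2) (Fin 2) R where
  toFun := cutMat637 e
  map_one' := cutMat_one637 e
  map_mul' := cutMat_mul637 he

/-- The cut as an endomorphism of `GL₂(R)`. -/
def cut637 (e : R) (he : e * e = e) : GL (Fin 2) R →* GL (Fin 2) R :=
  Units.map (cutHom637 e he)

theorem cut_val637 (e : R) (he : e * e = e) (g : GL (Fin 2) R) :
    ((cut637 e he g : GL (Fin 2) R) : Matrix (Fin 2) (Fin 2) R)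
      = cutMat637 e (g : Matrix (Fin 2) (Fin 2) R) := rfl

theorem cut_inv_val637 (e : R) (he : e * e = e) (g : GL (Fin 2) R) :
    (((cut637 e he g)⁻¹ : GL (Fin 2) R) : Matrix (Fin 2) (Fin 2) R)
      = cutMat637 e ((g⁻¹ : GL (Fin 2) R) : Matrix (Fin 2) (Fin 2) R) := rfl

theorem cutMat_zero637 (M : Matrix (Fin 2) (Fin 2) R) : cutMat637 (0 : R) M = 1 := by
  simp [cutMat637]

theorem cutMat_one_left637 (M : Matrix (Fin 2) (Fin 2) R) : cutMat637 (1 : R) M = M := by
  simp [cutMat637]

theorem cutMat_add637 {e e' : R} (h : e * e' = 0) (M : Matrix (Fin 2) (Fin 2) R) :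
    cutMat637 (e + e') M = cutMat637 e M * cutMat637 e' M := by
  have h' : e' * e = 0 := by rw [mul_comm, h]
  have h1 : e' * (1 - e) = e' := by rw [mul_sub, mul_one, h', sub_zero]
  have h2 : (1 - e') * e = e := by rw [sub_mul, one_mul, h', sub_zero]
  have h3 : (1 - e') * (1 - e) = 1 - (e + e') := by linear_combination h'
  simp only [cutMat637, add_mul, mul_add, Matrix.smul_mul, Matrix.mul_smul, smul_smul,
    Matrix.one_mul, Matrix.mul_one, h', h1, h2, h3, zero_smul, zero_add, add_smul]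
  abel

theorem cutMat_torMat637 (t n e a b : R) :
    cutMat637 e (torMat t n a b) = torMat t n (e * a + (1 - e)) (e * b) := by
  ext i j
  fin_cases i <;> fin_cases j <;> simp [cutMat_apply637, torMat] <;> ring

/-- The cut commutes with ring homomorphisms. -/
theorem map_cutMat637 {R' : Type*} [CommRing R'] (f : R →+* R') (e : R)
    (M : Matrix (Fin 2) (Fin 2) R) :
    (cutMat637 e M).map f = cutMat637 (f e) (M.map f) := by
  ext i j
  simp only [Matrix.map_apply, cutMat_apply637, map_add, map_mul, map_sub, map_one]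
  congr 2
  by_cases hij : i = j
  · subst hij; simp
  · simp [Matrix.one_apply_ne hij]

theorem map_torMat637 {R' : Type*} [CommRing R'] (f : R →+* R') (t n a b : R) :
    (torMat t n a b).map f = torMat (f t) (f n) (f a) (f b) := by
  ext i j
  fin_cases i <;> fin_cases j <;> simp [torMat]

end Cut

/-! ## Roots in the torus over an algebraically closed field -/

section Roots

variable {F : Type*} [Field F]

/-- The coordinates of `(α + β ω)^k`. -/
def torPow637 (t n α β : F) : ℕ → F × F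
  | 0 => (1, 0)
  | k + 1 => ((torPow637 t n α β k).1 * α - n * ((torPow637 t n α β k).2 * β),
      (torPow637 t n α β k).1 * β + (torPow637 t n α β k).2 * α
        + t * ((torPow637 t n α β k).2 * β))

theorem torMat_pow637 (t n α β : F) (k : ℕ) :
    torMat t n α β ^ k = torMat t n (torPow637 t n α β k).1 (torPow637 t n α β k).2 := by
  induction k with
  | zero => rw [pow_zero]; exact (torMat_one637 t n).symm
  | succ k ih => rw [pow_succ, ih, torMat_mul637]; rfl

theorem torPow_eval637 (t n α β ω : F) (hω : ω ^ 2 = t * ω - n) (k : ℕ) :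
    (torPow637 t n α β k).1 + ω * (torPow637 t n α β k).2 = (α + ω * β) ^ k := by
  induction k with
  | zero => simp [torPow637]
  | succ k ih =>
    rw [pow_succ, ← ih]
    simp only [torPow637]
    linear_combination (-(torPow637 t n α β k).2 * β) * hω

/-- `k`-th roots in the torus `T(F)`, `F` algebraically closed, `t² ≠ 4 n`. -/
theorem exists_torMat_pow637 [IsAlgClosed F] (t n a b : F) (hdisc : t ^ 2 - 4 * n ≠ 0)
    (h2 : (2 : F) ≠ 0) (hdet : a ^ 2 + t * a * b + n * b ^ 2 ≠ 0) {k : ℕ} (hk : 0 < k) :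
    ∃ α β : F, torMat t n α β ^ k = torMat t n a b ∧ α ^ 2 + t * α * β + n * β ^ 2 ≠ 0 := by
  obtain ⟨s, hs⟩ := IsAlgClosed.exists_eq_mul_self (t ^ 2 - 4 * n)
  have hs0 : s ≠ 0 := by
    rintro rfl
    exact hdisc (by rw [hs, mul_zero])
  set ω₁ : F := (t + s) / 2 with hω₁
  set ω₂ : F := (t - s) / 2 with hω₂
  have hsum : ω₁ + ω₂ = t := by rw [hω₁, hω₂]; field_simp; ring
  have hprod : ω₁ * ω₂ = n := by
    rw [hω₁, hω₂]
    field_simp
    linear_combination hs
  have hdiff : ω₁ - ω₂ = s := by rw [hω₁, hω₂]; field_simp; ring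
  have hr1 : ω₁ ^ 2 = t * ω₁ - n := by rw [← hsum, ← hprod]; ring
  have hr2 : ω₂ ^ 2 = t * ω₂ - n := by rw [← hsum, ← hprod]; ring
  have hfac : a ^ 2 + t * a * b + n * b ^ 2 = (a + ω₁ * b) * (a + ω₂ * b) := by
    rw [← hsum, ← hprod]; ring
  have hl1 : a + ω₁ * b ≠ 0 := fun h => hdet (by rw [hfac, h, zero_mul])
  have hl2 : a + ω₂ * b ≠ 0 := fun h => hdet (by rw [hfac, h, mul_zero])
  obtain ⟨ρ₁, hρ₁⟩ := IsAlgClosed.exists_pow_nat_eq (a + ω₁ * b) hk
  obtain ⟨ρ₂, hρ₂⟩ := IsAlgClosed.exists_pow_nat_eq (a + ω₂ * b) hk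
  have hρ₁0 : ρ₁ ≠ 0 := by
    rintro rfl
    rw [zero_pow hk.ne'] at hρ₁
    exact hl1 hρ₁.symm
  have hρ₂0 : ρ₂ ≠ 0 := by
    rintro rfl
    rw [zero_pow hk.ne'] at hρ₂
    exact hl2 hρ₂.symm
  set β : F := (ρ₁ - ρ₂) / s with hβ
  set α : F := ρ₁ - ω₁ * β with hα
  have e1 : α + ω₁ * β = ρ₁ := by rw [hα]; ring
  have e2 : α + ω₂ * β = ρ₂ := by
    rw [hα, hβ]
    have : (ω₂ - ω₁) * ((ρ₁ - ρ₂) / s) = -(ρ₁ - ρ₂) := by
      rw [← neg_sub ω₁ ω₂, hdiff]; field_simp
    linear_combination this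
  refine ⟨α, β, ?_, ?_⟩
  · rw [torMat_pow637]
    have p1 := torPow_eval637 t n α β ω₁ hr1 k
    have p2 := torPow_eval637 t n α β ω₂ hr2 k
    rw [e1, hρ₁] at p1
    rw [e2, hρ₂] at p2
    have hy : (torPow637 t n α β k).2 = b := by
      have : s * ((torPow637 t n α β k).2 - b) = 0 := by
        rw [← hdiff]; linear_combination p1 - p2
      rcases mul_eq_zero.mp this with h | h
      · exact absurd h hs0
      · exact sub_eq_zero.mp h
    have hx : (torPow637 t n α β k).1 = a := by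
      rw [hy] at p1; linear_combination p1
    rw [hx, hy]
  · have : α ^ 2 + t * α * β + n * β ^ 2 = (α + ω₁ * β) * (α + ω₂ * β) := by
      rw [← hsum, ← hprod]; ring
    rw [this, e1, e2]
    exact mul_ne_zero hρ₁0 hρ₂0

end Roots

end Fermat.Agent.LT.A2.H637

end

end
-- ===== PACK-END LT/A2/H637/OrbCut.lean

-- ===== PACK-BEGIN LT/A2/H792/Diag.lean
section


/-!
# Row LT, tower A2, leaf A2.03.8.6 `H142.RecInertC` (helper792) -- part 3: diagonal elements

OFF-MAIN.  The local diagonal matrices as adelic matrices, their determinants, the certificates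
`WL.IsDiagSLA`, `WL.IsDiagOneA`, partners trivial at `v`.  Complete proofs, nothing assumed.
-/

set_option autoImplicit false

open IsDedekindDomain NumberField AutomorphicForm MeasureTheory
open scoped MatrixGroups

noncomputable section

namespace Fermat.Agent.LT.A2.H792

open Fermat.Agent.LT.H556 Fermat.Agent.LT.H556.A0 Fermat.Agent.LT.H129 Fermat.Agent.LT.A2
open Fermat.Agent.LT.A2.H593

variable {K : Type} [Field K] [NumberField K]

/-! ## Local diagonal matrices -/

section LocalDiag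

variable {F : Type*} [Field F]

theorem diag129_congr792 {x x' y y' : F} (hx : x = x') (hy : y = y') (h1 : x ≠ 0) (h2 : y ≠ 0)
    (h1' : x' ≠ 0) (h2' : y' ≠ 0) : diag129 x y h1 h2 = diag129 x' y' h1' h2' := by
  subst hx; subst hy; rfl

theorem coe_diag129_792 (x y : F) (hx : x ≠ 0) (hy : y ≠ 0) :
    ((diag129 x y hx hy : GL (Fin 2) F) : Matrix (Fin 2) (Fin 2) F) = !![x, 0; 0, y] := rfl

theorem diag129_mul792 (x y x' y' : F) (hx : x ≠ 0) (hy : y ≠ 0) (hx' : x' ≠ 0) (hy' : y' ≠ 0) :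
    diag129 x y hx hy * diag129 x' y' hx' hy'
      = diag129 (x * x') (y * y') (mul_ne_zero hx hx') (mul_ne_zero hy hy') := by
  apply ext_mat129
  rw [Matrix.GeneralLinearGroup.coe_mul, coe_diag129_792, coe_diag129_792, coe_diag129_792]
  ext i j
  fin_cases i <;> fin_cases j <;> simp [Matrix.mul_apply, Fin.sum_univ_two]

theorem diag129_one792 : diag129 (1 : F) 1 one_ne_zero one_ne_zero = 1 := by
  apply ext_mat129
  rw [coe_diag129_792]
  ext i j
  fin_cases i <;> fin_cases j <;> simp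

theorem diag129_inv792 (x y : F) (hx : x ≠ 0) (hy : y ≠ 0) :
    (diag129 x y hx hy)⁻¹ = diag129 x⁻¹ y⁻¹ (inv_ne_zero hx) (inv_ne_zero hy) := by
  rw [inv_eq_iff_mul_eq_one, diag129_mul792,
    diag129_congr792 (mul_inv_cancel₀ hx) (mul_inv_cancel₀ hy) _ _ one_ne_zero one_ne_zero,
    diag129_one792]

theorem det_diag129_792 (x y : F) (hx : x ≠ 0) (hy : y ≠ 0) :
    ((diag129 x y hx hy : GL (Fin 2) F) : Matrix (Fin 2) (Fin 2) F).det = x * y := by
  rw [coe_diag129_792, Matrix.det_fin_two_of]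
  ring

end LocalDiag

/-! ## Determinants of local elements -/

/-- The determinant of a local element is the local idele of its determinant. -/
theorem det_locFin792 (v : HeightOneSpectrum (𝓞 K)) (x : GL (Fin 2) (v.adicCompletion K))
    (c : v.adicCompletion K) (hc : c ≠ 0)
    (h : (x : Matrix (Fin 2) (Fin 2) (v.adicCompletion K)).det = c) :
    Matrix.GeneralLinearGroup.det (locFin129 v x) = idl792 v c hc := by
  apply idele_ext792
  · intro w
    rw [det_inf792, infCompHom129_locFin129, idl792_inf]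
    simp
  · intro v'
    rw [det_fin792]
    by_cases hv : v' = v
    · subst hv
      rw [finComp_locFin129, idl792_same, h]
    · rw [← coe_finCompHom129, finCompHom129_locFin129_of_ne v _ hv, idl792_of_ne v _ _ hv]
      simp

/-- The adelic matrix of a local diagonal matrix. -/
theorem coe_locFin_diag792 (v : HeightOneSpectrum (𝓞 K)) (x y : v.adicCompletion K)
    (hx : x ≠ 0) (hy : y ≠ 0) :
    ((locFin129 v (diag129 x y hx hy) : G K) : Matrix (Fin 2) (Fin 2) (Adl K))
      = !![(idl792 v x hx : Adl K), 0; 0, (idl792 v y hy : Adl K)] := by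
  apply adeleMatrix_ext129
  · intro w
    rw [coe_locFin129, locMat129_map_inf]
    ext i j
    fin_cases i <;> fin_cases j <;>
      simp [idl792_inf, adl_zero_inf792]
  · intro v'
    rw [coe_locFin129]
    by_cases hv : v' = v
    · subst hv
      rw [locMat129_map_same, coe_diag129_792]
      ext i j
      fin_cases i <;> fin_cases j <;>
        simp [idl792_same, adl_zero_fin792]
    · rw [locMat129_map_of_ne v _ hv]
      ext i j
      fin_cases i <;> fin_cases j <;>
        simp [idl792_of_ne v _ _ hv, adl_zero_fin792]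

theorem isDiagSLA792 (v : HeightOneSpectrum (𝓞 K)) (x : v.adicCompletion K) (hx : x ≠ 0) :
    WL.IsDiagSLA (locFin129 v (diag129 x x⁻¹ hx (inv_ne_zero hx))) (idl792 v x hx) := by
  unfold WL.IsDiagSLA
  rw [coe_locFin_diag792, idl792_inv]

theorem isDiagOneA792 (v : HeightOneSpectrum (𝓞 K)) (x : v.adicCompletion K) (hx : x ≠ 0) :
    WL.IsDiagOneA (locFin129 v (diag129 1 x one_ne_zero hx)) (idl792 v x hx) := by
  unfold WL.IsDiagOneA
  rw [coe_locFin_diag792, idl792_one, Units.val_one]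

/-- The scalar local elements are in the torus. -/
theorem inTorus_scalar792 (t n : K) (v : HeightOneSpectrum (𝓞 K)) (y : v.adicCompletion K)
    (hy : y ≠ 0) : InTorus t n (locFin129 v (diag129 y y hy hy)) := by
  apply inTorus_locFin792 t n v _ y 0
  rw [coe_diag129_792]
  ext i j
  fin_cases i <;> fin_cases j <;> simp [torMat]

theorem isScalarUnif792 (v : HeightOneSpectrum (𝓞 K)) {ϖ : v.adicCompletion K}
    (hϖ : Valued.v ϖ = WithZero.exp (-1 : ℤ)) :
    IsScalarUniformizerAt v
      (locFin129 v (diag129 ϖ ϖ (unif_ne_zero129 v hϖ) (unif_ne_zero129 v hϖ))) := by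
  refine ⟨isLocalAtFin_locFin129 v _, ϖ, hϖ, ?_⟩
  rw [finComp_locFin129, coe_diag129_792]
  ext i j
  fin_cases i <;> fin_cases j <;> simp

/-! ## Partners trivial at `v` -/

/-- An element of `GL₂(𝔸_K)⁺` which is trivial at `v` has an admissible partner which is trivial
at `v`. -/
theorem exists_adm_triv792 {t n : K} {v : HeightOneSpectrum (𝓞 K)} {g : G K}
    (hg : TrivAtFin v g) (hG : InGPlus t n g) :
    ∃ m : G K, Adm t n g m ∧ TrivAtFin v m := by
  obtain ⟨m, ⟨A, B, hAB⟩, hdet⟩ := hG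
  set lam : G K := locFin129 v (finCompHom129 v m) with hlam
  have hlamT : InTorus t n lam := by
    apply inTorus_locFin792 t n v _ (A.2 v) (B.2 v)
    rw [coe_finCompHom129]
    exact finComp_torMat792 v hAB
  have hdet1 : (finComp v m).det = 1 := by
    rw [← det_fin792, ← hdet, det_fin792, hg]
    simp
  have hlamdet : Matrix.GeneralLinearGroup.det lam = 1 := by
    rw [hlam, det_locFin792 v _ 1 one_ne_zero (by rw [coe_finCompHom129]; exact hdet1),
      idl792_one]
  refine ⟨lam⁻¹ * m, ⟨inTorus_mul593 (inTorus_inv593 hlamT) ⟨A, B, hAB⟩, ?_⟩, ?_⟩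
  · rw [map_mul, map_inv, hlamdet, inv_one, one_mul, hdet]
  · rw [trivAtFin_iff129, map_mul, map_inv, hlam, finCompHom129_locFin129, inv_mul_cancel]

end Fermat.Agent.LT.A2.H792

end

end
-- ===== PACK-END LT/A2/H792/Diag.lean

-- ===== PACK-BEGIN LT/A2/H848/ArchBound.lean
section



/-!
# Row LT, tower A2, sub-leaf A2.03.1.3.6 `H753.ArchBoundC` (helper848)

OFF-MAIN.  Imports: Mathlib and the byte-identical copy of `LT/A2/H753/RegSpec.lean`
(sha256 1258ecf1) with its closure (`LT/A2/H467/WeilExSpec.lean` 966c0978, ...).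

The entries of `infMat u p.1`, `infMat u p.2` and of their inverses are bounded on a compact set
of pairs (`(infMat u g)⁻¹ = infMat u g⁻¹`); `CpxAt.decay` gives `A_u`, `δ_u`;
`A = ∏_u max A_u 0`, `δ ≤ δ_u` for all `u`.
-/

set_option autoImplicit false

open IsDedekindDomain NumberField AutomorphicForm MeasureTheory
open scoped MatrixGroups Topology

noncomputable section

namespace Fermat.Agent.LT.A2.H848

open Fermat.Agent.LT.H130 Fermat.Agent.LT.H556 Fermat.Agent.LT.A2 Fermat.Agent.LT.A2.WX467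
open Fermat.Agent.LT.A2.H753

variable {K : Type} [Field K] [NumberField K]

/-- The component at the infinite place `u`, a ring homomorphism. -/
def infHom848 (u : InfinitePlace K) : A0.Adl K →+* u.Completion :=
  (Pi.evalRingHom (fun w : InfinitePlace K => w.Completion) u).comp
    (RingHom.fst (InfiniteAdeleRing K) (FiniteAdeleRing (𝓞 K) K))

theorem infMat_eq848 (u : InfinitePlace K) (g : A0.G K) :
    infMat u g = (infHom848 u).mapMatrix (g : Matrix (Fin 2) (Fin 2) (A0.Adl K)) := by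
  ext i j
  rfl

theorem infMat_mul848 (u : InfinitePlace K) (g h : A0.G K) :
    infMat u (g * h) = infMat u g * infMat u h := by
  rw [infMat_eq848, infMat_eq848, infMat_eq848, Units.val_mul, map_mul]

theorem infMat_one848 (u : InfinitePlace K) : infMat u (1 : A0.G K) = 1 := by
  rw [infMat_eq848, Units.val_one, map_one]

/-- `(infMat u g)⁻¹ = infMat u g⁻¹`. -/
theorem infMat_inv848 (u : InfinitePlace K) (g : A0.G K) :
    (infMat u g)⁻¹ = infMat u g⁻¹ := by
  apply Matrix.inv_eq_right_inv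
  rw [← infMat_mul848, mul_inv_cancel, infMat_one848]

/-- The entries of `infMat u g` are continuous in `g`. -/
theorem continuous_infMat848 (u : InfinitePlace K) (i j : Fin 2) :
    Continuous fun g : A0.G K => infMat u g i j := by
  have h1 : Continuous fun g : A0.G K => (g : Matrix (Fin 2) (Fin 2) (A0.Adl K)) :=
    Units.continuous_val
  have h2 : Continuous fun g : A0.G K => (g : Matrix (Fin 2) (Fin 2) (A0.Adl K)) i j :=
    (continuous_apply j).comp ((continuous_apply i).comp h1)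
  have h3 : Continuous fun x : A0.Adl K => x.1 u :=
    (continuous_apply u).comp continuous_fst
  exact h3.comp h2

/-- A positive lower bound of finitely many positive numbers. -/
theorem exists_pos_le848 {ι : Type} [Fintype ι] (f : ι → ℝ) (hf : ∀ i, 0 < f i) :
    ∃ δ : ℝ, 0 < δ ∧ ∀ i, δ ≤ f i := by
  classical
  by_cases h : Nonempty ι
  · refine ⟨Finset.univ.inf' Finset.univ_nonempty f, ?_, fun i => Finset.inf'_le f (Finset.mem_univ i)⟩
    rw [Finset.lt_inf'_iff]
    exact fun i _ => hf i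
  · exact ⟨1, one_pos, fun i => (h ⟨i⟩).elim⟩

/-- The total size of a pair at the infinite places. -/
def size848 (p : A0.G K × A0.G K) : ℝ :=
  ∑ u : InfinitePlace K, ∑ i : Fin 2, ∑ j : Fin 2,
    (‖infMat u p.1 i j‖ + ‖infMat u p.2 i j‖ + ‖infMat u p.1⁻¹ i j‖ + ‖infMat u p.2⁻¹ i j‖)

theorem continuous_size848 : Continuous (size848 (K := K)) := by
  unfold size848
  refine continuous_finsetSum _ fun u _ => continuous_finsetSum _ fun i _ =>
    continuous_finsetSum _ fun j _ => ?_
  have c1 : Continuous fun p : A0.G K × A0.G K => infMat u p.1 i j :=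
    (continuous_infMat848 u i j).comp continuous_fst
  have c2 : Continuous fun p : A0.G K × A0.G K => infMat u p.2 i j :=
    (continuous_infMat848 u i j).comp continuous_snd
  have c3 : Continuous fun p : A0.G K × A0.G K => infMat u p.1⁻¹ i j :=
    (continuous_infMat848 u i j).comp (continuous_inv.comp continuous_fst)
  have c4 : Continuous fun p : A0.G K × A0.G K => infMat u p.2⁻¹ i j :=
    (continuous_infMat848 u i j).comp (continuous_inv.comp continuous_snd)
  exact ((c1.norm.add c2.norm).add c3.norm).add c4.norm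

theorem entry_le_size848 (p : A0.G K × A0.G K) (u : InfinitePlace K) (i j : Fin 2) :
    ‖infMat u p.1 i j‖ + ‖infMat u p.2 i j‖ + ‖infMat u p.1⁻¹ i j‖ + ‖infMat u p.2⁻¹ i j‖
      ≤ size848 p := by
  unfold size848
  have hnn : ∀ (u : InfinitePlace K) (i j : Fin 2),
      0 ≤ ‖infMat u p.1 i j‖ + ‖infMat u p.2 i j‖ + ‖infMat u p.1⁻¹ i j‖
        + ‖infMat u p.2⁻¹ i j‖ := fun u i j => by positivity
  have h1 := Finset.single_le_sum (f := fun j : Fin 2 =>
    ‖infMat u p.1 i j‖ + ‖infMat u p.2 i j‖ + ‖infMat u p.1⁻¹ i j‖ + ‖infMat u p.2⁻¹ i j‖)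
    (fun j _ => hnn u i j) (Finset.mem_univ j)
  have h2 := Finset.single_le_sum (f := fun i : Fin 2 => ∑ j : Fin 2,
    (‖infMat u p.1 i j‖ + ‖infMat u p.2 i j‖ + ‖infMat u p.1⁻¹ i j‖ + ‖infMat u p.2⁻¹ i j‖))
    (fun i _ => Finset.sum_nonneg fun j _ => hnn u i j) (Finset.mem_univ i)
  have h3 := Finset.single_le_sum (f := fun u : InfinitePlace K => ∑ i : Fin 2, ∑ j : Fin 2,
    (‖infMat u p.1 i j‖ + ‖infMat u p.2 i j‖ + ‖infMat u p.1⁻¹ i j‖ + ‖infMat u p.2⁻¹ i j‖))
    (fun u _ => Finset.sum_nonneg fun i _ => Finset.sum_nonneg fun j _ => hnn u i j)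
    (Finset.mem_univ u)
  exact h1.trans (h2.trans h3)

/-- **A2.03.1.3.6** -/
theorem archBoundC848 : ArchBoundC := by
  intro hDict K _ _ L hgood C hC
  classical
  -- the bound of the entries on `C`
  obtain ⟨R, hR⟩ : ∃ R : ℝ, ∀ p ∈ C, size848 p ≤ R := by
    obtain ⟨R, hR⟩ := hC.bddAbove_image (continuous_size848 (K := K)).continuousOn
    exact ⟨R, fun p hp => hR ⟨p, hp, rfl⟩⟩
  -- the local constants
  have hdec := fun u : InfinitePlace K => (hgood.cpx u).decay R
  choose A δ hδ hbound using hdec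
  obtain ⟨δ₀, hδ₀, hδ₀le⟩ := exists_pos_le848 δ hδ
  refine ⟨∏ u : InfinitePlace K, max (A u) 0, δ₀,
    Finset.prod_nonneg fun u _ => le_max_right _ _, hδ₀, ?_⟩
  intro p hp hadm ξ
  have hloc := (hDict K L p.1 p.2 hadm).2
  have hentries : ∀ (u : InfinitePlace K) (i j : Fin 2),
      ‖infMat u p.1 i j‖ ≤ R ∧ ‖infMat u p.2 i j‖ ≤ R ∧ ‖(infMat u p.1)⁻¹ i j‖ ≤ R ∧
        ‖(infMat u p.2)⁻¹ i j‖ ≤ R := by
    intro u i j
    have h := (entry_le_size848 p u i j).trans (hR p hp)
    rw [infMat_inv848, infMat_inv848]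
    have n1 := norm_nonneg (infMat u p.1 i j)
    have n2 := norm_nonneg (infMat u p.2 i j)
    have n3 := norm_nonneg (infMat u p.1⁻¹ i j)
    have n4 := norm_nonneg (infMat u p.2⁻¹ i j)
    refine ⟨by linarith, by linarith, by linarith, by linarith⟩
  -- the local bounds
  have hu : ∀ u : InfinitePlace K,
      ‖L.Finf u (infMat u p.1) (infMat u p.2) (infVec u ξ)‖
        ≤ max (A u) 0 * Real.exp (-δ u * (‖ξ.1.1 u‖ ^ 2 + ‖ξ.2.1 u‖ ^ 2)) := by
    intro u
    have h := hbound u (infMat u p.1) (infMat u p.2) (hloc u) (hentries u) (infVec u ξ)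
    refine h.trans ?_
    exact mul_le_mul_of_nonneg_right (le_max_left _ _) (Real.exp_pos _).le
  unfold archPart archSq
  rw [norm_prod]
  calc ∏ u : InfinitePlace K, ‖L.Finf u (infMat u p.1) (infMat u p.2) (infVec u ξ)‖
      ≤ ∏ u : InfinitePlace K,
          (max (A u) 0 * Real.exp (-δ u * (‖ξ.1.1 u‖ ^ 2 + ‖ξ.2.1 u‖ ^ 2))) :=
        Finset.prod_le_prod (fun u _ => norm_nonneg _) fun u _ => hu u
    _ = (∏ u : InfinitePlace K, max (A u) 0)
          * Real.exp (∑ u : InfinitePlace K, -δ u * (‖ξ.1.1 u‖ ^ 2 + ‖ξ.2.1 u‖ ^ 2)) := by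
        rw [Finset.prod_mul_distrib, Real.exp_sum]
    _ ≤ (∏ u : InfinitePlace K, max (A u) 0)
          * Real.exp (-δ₀ * ∑ w : InfinitePlace K, (‖ξ.1.1 w‖ ^ 2 + ‖ξ.2.1 w‖ ^ 2)) := by
        refine mul_le_mul_of_nonneg_left ?_ (Finset.prod_nonneg fun u _ => le_max_right _ _)
        apply Real.exp_le_exp.mpr
        rw [Finset.mul_sum]
        refine Finset.sum_le_sum fun u _ => ?_
        have hs : 0 ≤ ‖ξ.1.1 u‖ ^ 2 + ‖ξ.2.1 u‖ ^ 2 := by positivity
        have := mul_le_mul_of_nonneg_right (hδ₀le u) hs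
        linarith

example : ArchBoundC := archBoundC848

end Fermat.Agent.LT.A2.H848

end

end
-- ===== PACK-END LT/A2/H848/ArchBound.lean

-- ===== PACK-BEGIN LT/T2/H557/Cutoff.lean
section


/-!
# Row LT, tower T2, station T2.10 (`SMO_AA`), leaf T2.10.10 `CutoffC` (helper557), OFF-MAIN

Registry row 1103.  Proves `Fermat.Agent.LT.T2.H941.CutoffC K` and `Leaf10 K` VERBATIM against
`LT/T2/H941/SmoSpec.lean` (helper941@8afa9067a, sha256 41255efa7193), for every number field `K`
(the hypothesis `T1.T1Out K` of the leaf is not used).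

THE KIRILLOV CUT-OFF at a finite place `v`.  `C = 𝔪 𝒪_v = ϖ^e 𝒪_v` (`idealClosure_ball557`),
`ψ_v` of conductor exponent `d`, `z = (y₀)_v`.
* If `|z| > exp (d + e)` then `W_Φ(diag(y₀,1) g) = 0` for every `Φ` of level `U(𝔪)`
  (`wh_support557`) and the empty combination works.
* Otherwise `cutoff_local557` gives `cᵢ`, `uᵢ` with `∑ cᵢ ψ_v(t uᵢ)` = the indicator function of
  the orbit of `z` on the ball `|t| ≤ exp (d + e)`; `W_{R(n(uᵢ))Φ}(diag(y,1) g) = ψ_v(y_v uᵢ)
  W_Φ(diag(y,1) g)` (`wh_rt_unip557`), `W_Φ(diag(y,1) g) = 0` outside the ball and `W_Φ` is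
  constant on the orbit (`wh_orbit557`).  The level is `𝔪' = 𝔪 v^{2L}`, `|uᵢ| ≤ exp L`
  (`inLevelGroup_conj557`).
-/

set_option autoImplicit false
set_option linter.unusedSectionVars false
set_option linter.style.haveILetI false

open IsDedekindDomain NumberField MeasureTheory
open Fermat.Agent.LT.H556.A0
open Fermat.Agent.LT.T2.H941 Fermat.Agent.LT.T2.H333 Fermat.Agent.LT.T3.H237

noncomputable section

namespace Fermat.Agent.LT.T2.H557

variable {K : Type} [Field K] [NumberField K]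

/-- Outside the ball `|y_v| ≤ exp (d + e)` the Whittaker coefficient of a function of level
`U(𝔪)` vanishes. -/
theorem wh_zero_of_large557 [MeasurableSpace (Adl K)] [BorelSpace (Adl K)]
    {ψ : AddChar (Adl K) Circle} {ν : Measure (Adl K)} {D : Set (Adl K)}
    (hdata : IsWhitData ψ ν D) {Φ : G K → ℂ}
    (hleft : ∀ (γ : GL (Fin 2) K) (g : G K), Φ (T1.ratG K γ * g) = Φ g)
    {𝔪 : Ideal (𝓞 K)} (hΦ : IsLevel 𝔪 Φ) {v : HeightOneSpectrum (𝓞 K)} {e : ℕ}
    (hC : ∀ x : v.adicCompletion K,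
      x ∈ idealClosure 𝔪 v ↔ Valued.v x ≤ WithZero.exp (-(e : ℤ)))
    {d : ℤ}
    (hχ2 : ∃ x : v.adicCompletion K, Valued.v x = WithZero.exp (d + 1) ∧ locChar557 ψ v x ≠ 1)
    (y : (Adl K)ˣ) {g : G K} (hg : TrivAtFin v g)
    (hy : ¬ Valued.v (evF333 v (y : Adl K)) ≤ WithZero.exp (d + e)) :
    wh ψ ν D Φ (tor y * g) = 0 := by
  obtain ⟨x₀, hx₀, hχx₀⟩ := hχ2
  have ht0 : evF333 v (y : Adl K) ≠ 0 := evF333_unit_ne_zero557 v y
  have hvt := val_eq_exp_log557 v ht0
  have hlog : d + e + 1 ≤ WithZero.log (Valued.v (evF333 v (y : Adl K))) := by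
    have h4 : WithZero.exp (d + e) < Valued.v (evF333 v (y : Adl K)) := not_le.mp hy
    rw [hvt, WithZero.exp_lt_exp] at h4
    omega
  refine wh_support557 hdata hleft hΦ hC y hg (t := x₀ / evF333 v (y : Adl K)) ?_ ?_
  · rw [map_div₀, hx₀, hvt, ← WithZero.exp_sub, WithZero.exp_le_exp]
    omega
  · rw [mul_loc557, mul_div_cancel₀ _ ht0]
    exact hχx₀

/-- **T2.10.10 = A.8 KIRILLOV CUT-OFF at a finite place**, for every number field. -/
theorem cutoffC557 (K : Type) [Field K] [NumberField K] : CutoffC K := by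
  letI : MeasurableSpace (Adl K) := borel (Adl K)
  haveI : BorelSpace (Adl K) := ⟨rfl⟩
  show ∀ (ψ : AddChar (Adl K) Circle) (ν : Measure (Adl K)) (D : Set (Adl K)),
    IsWhitData ψ ν D → _
  intro ψ ν D hdata v d hcond 𝔪 h𝔪 y₀ hy₀
  obtain ⟨e, hC, he0, -, hCL⟩ := idealClosure_ball557 𝔪 h𝔪 v
  obtain ⟨hχ1, hχ2⟩ := locChar557_cond hcond
  have hz0 : evF333 v (y₀ : Adl K) ≠ 0 := evF333_unit_ne_zero557 v y₀
  have hψc : Continuous ψ := hdata.1.cont
  have hDfin : ν D < ⊤ := hdata.2.2.2.2.2.2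
  by_cases hR : Valued.v (evF333 v (y₀ : Adl K)) ≤ WithZero.exp (d + e)
  · -- the main case
    obtain ⟨n, c, u, hu, hsum⟩ :=
      cutoff_local557 v (locChar557 ψ v) d hχ1 hχ2 e (evF333 v (y₀ : Adl K)) hz0 hR
    have huL : ∀ i, Valued.v (u i) ≤ WithZero.exp
        (((d + max (e : ℤ) 1 - WithZero.log (Valued.v (evF333 v (y₀ : Adl K)))).toNat : ℕ) : ℤ) :=
      fun i => le_trans (hu i) (WithZero.exp_le_exp.mpr (Int.self_le_toNat _))
    refine ⟨n, c, fun i => T3.unip K (loc557 v (u i)),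
      𝔪 * v.asIdeal ^ (2 * (d + max (e : ℤ) 1
        - WithZero.log (Valued.v (evF333 v (y₀ : Adl K)))).toNat), ?_, Ideal.mul_le_left, ?_, ?_, ?_⟩
    · rw [← Ideal.zero_eq_bot]
      exact mul_ne_zero h𝔪 (pow_ne_zero _ v.ne_bot)
    · intro v' hv' hdvd
      rcases v'.prime.dvd_or_dvd hdvd with h | h
      · exact h
      · exfalso
        have h1 : v'.asIdeal ∣ v.asIdeal := v'.prime.dvd_of_dvd_pow h
        have hle : v.asIdeal ≤ v'.asIdeal := Ideal.le_of_dvd h1
        have heq : v.asIdeal = v'.asIdeal := v.isMaximal.eq_of_le v'.isPrime.ne_top hle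
        exact hv' (HeightOneSpectrum.ext heq.symm)
    · intro i
      refine ⟨u i, isUnipAt_unip_loc557 v (u i), fun hv hval => ?_⟩
      have he : e = 0 := he0 hv
      have hval' : Valued.v (evF333 v (y₀ : Adl K)) = WithZero.exp d := hval
      refine le_trans (hu i) (WithZero.exp_le_exp.mpr ?_)
      rw [hval', WithZero.log_exp, he]
      simp
    · intro Φ hΦc hΦb hleft hlev
      refine ⟨isLevel_lin557 c _
        (fun i k hk => inLevelGroup_conj557 hC _ (hCL _) (huL i) hk) hlev, ?_⟩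
      intro y hy g hg
      have ht0 : evF333 v (y : Adl K) ≠ 0 := evF333_unit_ne_zero557 v y
      have hW : wh ψ ν D (lin c (fun i => T3.unip K (loc557 v (u i))) Φ) (tor y * g)
          = (∑ i, c i * ((locChar557 ψ v (evF333 v (y : Adl K) * u i) : Circle) : ℂ))
            * wh ψ ν D Φ (tor y * g) := by
        rw [wh_lin557 hψc hDfin hΦc hΦb, Finset.sum_mul]
        refine Finset.sum_congr rfl fun i _ => ?_
        rw [wh_rt_unip557 hdata hleft y hg (u i), mul_loc557, locChar557_apply, mul_assoc]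
      have horb : InOrbit 𝔪 v y y₀ ↔
          (Valued.v (evF333 v (y : Adl K) * (evF333 v (y₀ : Adl K))⁻¹ - 1)
              ≤ WithZero.exp (-(e : ℤ)) ∧
            Valued.v (evF333 v (y₀ : Adl K) * (evF333 v (y : Adl K))⁻¹ - 1)
              ≤ WithZero.exp (-(e : ℤ))) := by
        have e1 : ((y * y₀⁻¹ : (Adl K)ˣ) : Adl K).2 v
            = evF333 v (y : Adl K) * (evF333 v (y₀ : Adl K))⁻¹ := by
          show evF333 v ((y * y₀⁻¹ : (Adl K)ˣ) : Adl K) = _
          rw [Units.val_mul, map_mul, evF333_inv557]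
        have e2 : ((y₀ * y⁻¹ : (Adl K)ˣ) : Adl K).2 v
            = evF333 v (y₀ : Adl K) * (evF333 v (y : Adl K))⁻¹ := by
          show evF333 v ((y₀ * y⁻¹ : (Adl K)ˣ) : Adl K) = _
          rw [Units.val_mul, map_mul, evF333_inv557]
        unfold InOrbit
        rw [hC, hC, e1, e2]
      by_cases htR : Valued.v (evF333 v (y : Adl K)) ≤ WithZero.exp (d + e)
      · obtain ⟨hs1, hs0⟩ := hsum _ ht0 htR
        constructor
        · intro ho
          rw [hW, hs1 (horb.1 ho), one_mul]
          exact wh_orbit557 hlev hy hy₀ ho hg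
        · intro ho
          rw [hW, hs0 (fun h => ho (horb.2 h)), zero_mul]
      · have hW0 : wh ψ ν D Φ (tor y * g) = 0 :=
          wh_zero_of_large557 hdata hleft hlev hC hχ2 y hg htR
        constructor
        · intro ho
          rw [hW, hW0, mul_zero, ← wh_orbit557 hlev hy hy₀ ho hg, hW0]
        · intro _
          rw [hW, hW0, mul_zero]
  · -- `y₀` outside the ball: the empty combination
    refine ⟨0, fun i => i.elim0, fun i => i.elim0, 𝔪, h𝔪, le_rfl, fun _ _ h => h,
      fun i => i.elim0, ?_⟩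
    intro Φ hΦc hΦb hleft hlev
    have hzero : lin (fun i : Fin 0 => i.elim0) (fun i : Fin 0 => i.elim0) Φ
        = fun _ : G K => (0 : ℂ) := by
      funext x
      simp [lin]
    rw [hzero]
    refine ⟨fun k _ g => rfl, fun y hy g hg => ?_⟩
    have hlin0 : wh ψ ν D (fun _ : G K => (0 : ℂ)) (tor y * g) = 0 := by
      simp [wh]
    have hW0 : wh ψ ν D Φ (tor y₀ * g) = 0 :=
      wh_zero_of_large557 hdata hleft hlev hC hχ2 y₀ hg hR
    exact ⟨fun _ => by rw [hlin0, hW0], fun _ => hlin0⟩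

/-- The registry leaf T2.10.10, verbatim. -/
theorem leaf10_557 (K : Type) [Field K] [NumberField K] : Leaf10 K :=
  fun _ => cutoffC557 K

end Fermat.Agent.LT.T2.H557

end

end
-- ===== PACK-END LT/T2/H557/Cutoff.lean

-- ===== PACK-BEGIN LT/T7/H57/FoldSpec2.lean
section



/-!
# Row LT, tower T7, LEAF `FoldWhitC` -- CUT of the node `FoldC57`, level 2 (helper57)

OFF-MAIN.  Definitions, frozen Props.  The PROVED top is in `FoldTop2.lean`.

```
FoldC57 K  ⇐  FundXC57 K + CoreC57 K + BoxIntC57 K + ZInvC57 K        (`foldC_of57`)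
```

Coordinates of the Borel subgroup: `P = 𝔸 × 𝔸ˣ × 𝔸ˣ`, `ι(x, y, z) = n(x) · diag(y, 1) · z`,
left Haar measure `|y|⁻¹ dν(x) dτ(y) dτ(z)`.  The box
`box Y = {x ∈ D, y ∈ FX, z ∈ FX, |y| ≥ Y, 1 ≤ |y| |z|² < 2}` is a fundamental domain of `B(K)` in
the part of `ι⁻¹(slab)` of height `≥ Y`.

* `FundXC57` : a measurable fundamental domain of `Kˣ` in the ideles exists.
* `CoreC57`  : steps (1) + (2): for `Φ` continuous, bounded, left `GL₂(K)`-invariant and right
  invariant under `U(𝔪) K_∞`: `∫_F Φ cnt = c₀ ∫_{box Y} Φ(ι p) |y|⁻¹ dp`.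
* `BoxIntC57`: step (3): for `Φ` invariant under the centre the integral over the box is
  `V ∫_{y ∈ FX, |y| ≥ Y} (∫_D Φ(n(x) a(y)) dν) |y|⁻¹ dτ` (Fubini; the volume of
  `Kˣ \ {z : 1 ≤ t |z|² < 2}` is a constant `V`: Fujisaki + invariance); finiteness of the volumes.
* `ZInvC57`  : `S`-forms of level `𝔪` are invariant under the centre (weak approximation).
-/

set_option autoImplicit false

open AutomorphicForm IsDedekindDomain NumberField Filter Topology MeasureTheory
open scoped ComplexConjugate ENNReal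

noncomputable section

namespace Fermat.Agent.LT.T7.H57

open Fermat.Agent.LT.H556 Fermat.Agent.LT.H556.A0 Fermat.Agent.LT.T7 Fermat.Agent.LT.T7.Rigid

attribute [local instance] Fermat.Agent.LT.T5.instMeasurableSpaceG

variable (K : Type) [Field K] [NumberField K]

/-! ## Vocabulary -/

/-- The scalar matrix of an idele. -/
def zA57 (z : (Adl K)ˣ) : G K :=
  ⟨!![(z : Adl K), 0; 0, (z : Adl K)],
    !![((z⁻¹ : (Adl K)ˣ) : Adl K), 0; 0, ((z⁻¹ : (Adl K)ˣ) : Adl K)],
    by ext i j; fin_cases i <;> fin_cases j <;> simp [Matrix.mul_apply, Fin.sum_univ_two],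
    by ext i j; fin_cases i <;> fin_cases j <;> simp [Matrix.mul_apply, Fin.sum_univ_two]⟩

/-- The coordinates of the Borel subgroup: `ι(x, y, z) = n(x) · diag(y, 1) · z`. -/
def iota57 (p : Adl K × (Adl K)ˣ × (Adl K)ˣ) : G K :=
  Fermat.Agent.LT.T3.unip K p.1 * dgA p.2.1 * zA57 K p.2.2

/-- The box. -/
def box57 (D : Set (Adl K)) (FX : Set (Adl K)ˣ) (Y : ℝ) : Set (Adl K × (Adl K)ˣ × (Adl K)ˣ) :=
  {p | p.1 ∈ D ∧ p.2.1 ∈ FX ∧ p.2.2 ∈ FX ∧ Y ≤ nrm57 K p.2.1 ∧
    1 ≤ nrm57 K p.2.1 * nrm57 K p.2.2 ^ 2 ∧ nrm57 K p.2.1 * nrm57 K p.2.2 ^ 2 < 2}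

/-- `Φ` is right invariant under `U(𝔪)` and under the maximal compact subgroups at the infinite
places. -/
def IsRightC57 (𝔪 : Ideal (𝓞 K)) (Φ : G K → ℂ) : Prop :=
  IsLevelInv 𝔪 Φ ∧ ∀ (w : InfinitePlace K) (k : G K), IsArchCompact w k →
    ∀ g : G K, Φ (g * k) = Φ g

/-- `Φ` is invariant under the centre. -/
def IsZInv57 (Φ : G K → ℂ) : Prop :=
  ∀ (z : (Adl K)ˣ) (g : G K), Φ (g * zA57 K z) = Φ g

/-! ## The Props -/

/-- **LEAF FUND-X.**  A measurable fundamental domain of `Kˣ` in the ideles. -/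
def FundXC57 : Prop :=
  letI : MeasurableSpace (Adl K)ˣ := borel (Adl K)ˣ
  ∀ τ : Measure (Adl K)ˣ, τ.IsHaarMeasure →
    ∃ FX : Set (Adl K)ˣ, MeasurableSet FX ∧ IsFundamentalDomain (ratU57 K).range FX τ

/-- **NODE CORE** = steps (1) + (2): unfolding `GL₂(K) → B(K)` on the frame and the Haar measure
in Iwasawa coordinates. -/
def CoreC57 : Prop :=
  letI : MeasurableSpace (Adl K) := borel (Adl K)
  letI : MeasurableSpace (Adl K)ˣ := borel (Adl K)ˣ
  TotCplx K →
  ∀ (μ : Measure (G K)) (F : Set (G K)), Fermat.Agent.LT.T5.IsFrame μ F →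
  ∀ (ν : Measure (Adl K)) (D : Set (Adl K)), ν.IsAddHaarMeasure → MeasurableSet D →
    IsAddFundamentalDomain ((algebraMap K (Adl K)).toAddMonoidHom.range) D ν → ν D < ⊤ →
  ∀ τ : Measure (Adl K)ˣ, τ.IsHaarMeasure →
  ∀ (S : Finset (HeightOneSpectrum (𝓞 K))) (𝔪 : Ideal (𝓞 K)), IsSupp S 𝔪 →
  ∀ FX : Set (Adl K)ˣ, MeasurableSet FX → IsFundamentalDomain (ratU57 K).range FX τ →
    (∀ Y : ℝ, 0 < Y →
      ∫⁻ p in box57 K D FX Y, ENNReal.ofReal ((nrm57 K p.2.1)⁻¹) ∂(ν.prod (τ.prod τ)) < ⊤) →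
    ∃ c₀ : ℝ, 0 < c₀ ∧
      ∀ Φ : G K → ℂ, Continuous Φ → (∃ C : ℝ, ∀ g : G K, ‖Φ g‖ ≤ C) → IsLeftInv57 K Φ →
        IsRightC57 K 𝔪 Φ →
        ∀ Y : ℝ, 0 < Y →
          ∫ g in F, Φ g * (((cnt 𝔪 Y g : ℕ) : ℝ) : ℂ) ∂μ
            = (c₀ : ℂ) * ∫ p in box57 K D FX Y,
                Φ (iota57 K p) * (((nrm57 K p.2.1)⁻¹ : ℝ) : ℂ) ∂(ν.prod (τ.prod τ))

/-- **LEAF BOX-INT** = step (3): Fubini on the box, the integral over the centre, the volumes. -/
def BoxIntC57 : Prop :=
  letI : MeasurableSpace (Adl K) := borel (Adl K)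
  letI : MeasurableSpace (Adl K)ˣ := borel (Adl K)ˣ
  ∀ (ν : Measure (Adl K)) (D : Set (Adl K)), ν.IsAddHaarMeasure → MeasurableSet D →
    IsAddFundamentalDomain ((algebraMap K (Adl K)).toAddMonoidHom.range) D ν → ν D < ⊤ →
  ∀ τ : Measure (Adl K)ˣ, τ.IsHaarMeasure →
  ∀ FX : Set (Adl K)ˣ, MeasurableSet FX → IsFundamentalDomain (ratU57 K).range FX τ →
    ∃ V : ℝ, 0 < V ∧
      (∀ Y : ℝ, 0 < Y →
        ∫⁻ y in FX ∩ halfX57 K Y, ENNReal.ofReal ((nrm57 K y)⁻¹) ∂τ < ⊤) ∧
      (∀ Y : ℝ, 0 < Y →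
        ∫⁻ p in box57 K D FX Y, ENNReal.ofReal ((nrm57 K p.2.1)⁻¹) ∂(ν.prod (τ.prod τ)) < ⊤) ∧
      ∀ Φ : G K → ℂ, Continuous Φ → (∃ C : ℝ, ∀ g : G K, ‖Φ g‖ ≤ C) → IsZInv57 K Φ →
        ∀ Y : ℝ, 0 < Y →
          ∫ p in box57 K D FX Y,
              Φ (iota57 K p) * (((nrm57 K p.2.1)⁻¹ : ℝ) : ℂ) ∂(ν.prod (τ.prod τ))
            = (V : ℂ) * ∫ y in FX ∩ halfX57 K Y,
                (∫ x in D, Φ (Fermat.Agent.LT.T3.unip K x * dgA y) ∂ν)
                  * (((nrm57 K y)⁻¹ : ℝ) : ℂ) ∂τ

/-- **LEAF Z-INV.**  An `S`-form of level `𝔪` (`𝔪` supported in `S`) is invariant under the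
centre `𝔸ˣ`. -/
def ZInvC57 : Prop :=
  TotCplx K →
  ∀ (S : Finset (HeightOneSpectrum (𝓞 K))) (𝔪 : Ideal (𝓞 K)), IsSupp S 𝔪 →
  ∀ (π : HeckeEigensystem K ℂ) (φ : G K → ℂ), IsSForm π S φ → IsLevelInv 𝔪 φ →
    ∀ (z : (Adl K)ˣ) (g : G K), φ (g * zA57 K z) = φ g

end Fermat.Agent.LT.T7.H57

end

end
-- ===== PACK-END LT/T7/H57/FoldSpec2.lean

-- ===== PACK-BEGIN LT/T7/H267/Mix.lean
section


/-!
# Row LT, tower T7, leaf T7.14.6b.0 `Rigid.MixC` (helper267, OFF-MAIN)

`mixC267 K : Fermat.Agent.LT.T7.Rigid.MixC K`, verbatim against the byte-identical copy of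
`T7/H62/RigidWhit.lean` (helper62).  Mathlib only (restricted product).

For ideles `y, y'` and a finite set `S` of finite places: the idele with the components of `y`
at `S` and the components of `y'` at all other places (finite outside `S`, and infinite).

Extras (own names): `idele_ext267` (an idele is determined by its components), `localIdele267`
(component `t ≠ 0` at `v`, `1` elsewhere) and `exists_isUnifIdele267`.
-/

set_option autoImplicit false

open IsDedekindDomain NumberField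

noncomputable section

namespace Fermat.Agent.LT.T7.Rigid.H267

open Fermat.Agent.LT.H556 Fermat.Agent.LT.H556.A0 Fermat.Agent.LT.T7 Fermat.Agent.LT.T7.Rigid

variable {K : Type} [Field K] [NumberField K]

/-! ## Mixing finite adeles -/

open scoped Classical in
/-- The finite adele with the components of `a` at `S` and those of `b` elsewhere. -/
def mixFin267 (S : Finset (HeightOneSpectrum (𝓞 K))) (a b : FiniteAdeleRing (𝓞 K) K) :
    FiniteAdeleRing (𝓞 K) K :=
  ⟨fun v => if v ∈ S then a v else b v, by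
    have hS : ∀ᶠ v in Filter.cofinite, v ∉ S := by
      rw [Filter.eventually_cofinite]
      simp
    filter_upwards [b.2, hS] with v hb hv
    rw [if_neg hv]
    exact hb⟩

open scoped Classical in
theorem mixFin267_apply (S : Finset (HeightOneSpectrum (𝓞 K))) (a b : FiniteAdeleRing (𝓞 K) K)
    (v : HeightOneSpectrum (𝓞 K)) : mixFin267 S a b v = if v ∈ S then a v else b v := rfl

theorem mixFin267_of_mem (S : Finset (HeightOneSpectrum (𝓞 K)))
    (a b : FiniteAdeleRing (𝓞 K) K) {v : HeightOneSpectrum (𝓞 K)} (hv : v ∈ S) :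
    mixFin267 S a b v = a v := by
  rw [mixFin267_apply, if_pos hv]

theorem mixFin267_of_notMem (S : Finset (HeightOneSpectrum (𝓞 K)))
    (a b : FiniteAdeleRing (𝓞 K) K) {v : HeightOneSpectrum (𝓞 K)} (hv : v ∉ S) :
    mixFin267 S a b v = b v := by
  rw [mixFin267_apply, if_neg hv]

theorem mixFin267_mul (S : Finset (HeightOneSpectrum (𝓞 K)))
    (a b a' b' : FiniteAdeleRing (𝓞 K) K) :
    mixFin267 S a b * mixFin267 S a' b' = mixFin267 S (a * a') (b * b') := by
  refine FiniteAdeleRing.ext K fun v => ?_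
  have hmul : ∀ p q : FiniteAdeleRing (𝓞 K) K, (p * q) v = p v * q v := fun _ _ => rfl
  rw [hmul]
  by_cases hv : v ∈ S
  · rw [mixFin267_of_mem S _ _ hv, mixFin267_of_mem S _ _ hv, mixFin267_of_mem S _ _ hv, hmul]
  · rw [mixFin267_of_notMem S _ _ hv, mixFin267_of_notMem S _ _ hv,
      mixFin267_of_notMem S _ _ hv, hmul]

theorem mixFin267_one (S : Finset (HeightOneSpectrum (𝓞 K))) :
    mixFin267 S (1 : FiniteAdeleRing (𝓞 K) K) 1 = 1 := by
  refine FiniteAdeleRing.ext K fun v => ?_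
  by_cases hv : v ∈ S
  · rw [mixFin267_of_mem S _ _ hv]
  · rw [mixFin267_of_notMem S _ _ hv]

/-! ## Mixing ideles -/

/-- The adele with the finite components of `x` at `S` and all other components those of
`x'`. -/
def mixAdl267 (S : Finset (HeightOneSpectrum (𝓞 K))) (x x' : Adl K) : Adl K :=
  (x'.1, mixFin267 S x.2 x'.2)

theorem mixAdl267_mul (S : Finset (HeightOneSpectrum (𝓞 K))) (x x' u u' : Adl K) :
    mixAdl267 S x x' * mixAdl267 S u u' = mixAdl267 S (x * u) (x' * u') := by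
  refine Prod.ext rfl ?_
  exact mixFin267_mul S x.2 x'.2 u.2 u'.2

theorem mixAdl267_one (S : Finset (HeightOneSpectrum (𝓞 K))) :
    mixAdl267 S (1 : Adl K) 1 = 1 := by
  refine Prod.ext rfl ?_
  exact mixFin267_one S

/-- The idele with the components of `y` at `S` and those of `y'` elsewhere. -/
def mixIdele267 (S : Finset (HeightOneSpectrum (𝓞 K))) (y y' : (Adl K)ˣ) : (Adl K)ˣ :=
  Units.mkOfMulEqOne (mixAdl267 S (y : Adl K) (y' : Adl K))
    (mixAdl267 S ((y⁻¹ : (Adl K)ˣ) : Adl K) ((y'⁻¹ : (Adl K)ˣ) : Adl K)) (by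
      rw [mixAdl267_mul, Units.mul_inv, Units.mul_inv, mixAdl267_one])

theorem mixIdele267_sameAt (S : Finset (HeightOneSpectrum (𝓞 K))) (y y' : (Adl K)ˣ) :
    SameAt S (mixIdele267 S y y') y :=
  fun _ hv => mixFin267_of_mem S _ _ hv

theorem mixIdele267_sameOff (S : Finset (HeightOneSpectrum (𝓞 K))) (y y' : (Adl K)ˣ) :
    SameOff S (mixIdele267 S y y') y' :=
  ⟨fun _ hv => mixFin267_of_notMem S _ _ hv, fun _ => rfl⟩

/-! ## Extras: ideles by components, local ideles, uniformiser ideles -/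

/-- An idele is determined by its components. -/
theorem idele_ext267 {y z : (Adl K)ˣ}
    (hinf : ∀ w : InfinitePlace K, (y : Adl K).1 w = (z : Adl K).1 w)
    (hfin : ∀ v : HeightOneSpectrum (𝓞 K), (y : Adl K).2 v = (z : Adl K).2 v) : y = z :=
  Units.ext (Prod.ext (funext hinf) (FiniteAdeleRing.ext K hfin))

open scoped Classical in
/-- The finite adele with component `t` at `v` and `1` elsewhere. -/
def localFin267 (v : HeightOneSpectrum (𝓞 K)) (t : v.adicCompletion K) :
    FiniteAdeleRing (𝓞 K) K :=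
  RestrictedProduct.mulSingle (fun v : HeightOneSpectrum (𝓞 K) => v.adicCompletionIntegers K) v t

theorem localFin267_same (v : HeightOneSpectrum (𝓞 K)) (t : v.adicCompletion K) :
    localFin267 v t v = t := by
  classical
  exact RestrictedProduct.mulSingle_eq_same _ v t

theorem localFin267_of_ne (v : HeightOneSpectrum (𝓞 K)) (t : v.adicCompletion K)
    {v' : HeightOneSpectrum (𝓞 K)} (h : v' ≠ v) : localFin267 v t v' = 1 := by
  classical
  exact RestrictedProduct.mulSingle_eq_of_ne _ t h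

theorem localFin267_mul (v : HeightOneSpectrum (𝓞 K)) (t u : v.adicCompletion K) :
    localFin267 v t * localFin267 v u = localFin267 v (t * u) := by
  refine FiniteAdeleRing.ext K fun v' => ?_
  have hmul : ∀ p q : FiniteAdeleRing (𝓞 K) K, (p * q) v' = p v' * q v' := fun _ _ => rfl
  rw [hmul]
  by_cases h : v' = v
  · subst h
    rw [localFin267_same, localFin267_same, localFin267_same]
  · rw [localFin267_of_ne v _ h, localFin267_of_ne v _ h, localFin267_of_ne v _ h, one_mul]

theorem localFin267_one (v : HeightOneSpectrum (𝓞 K)) :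
    localFin267 v (1 : v.adicCompletion K) = 1 := by
  refine FiniteAdeleRing.ext K fun v' => ?_
  by_cases h : v' = v
  · subst h
    rw [localFin267_same]
    rfl
  · rw [localFin267_of_ne v _ h]
    rfl

/-- The idele with component `t ≠ 0` at the finite place `v` and `1` at every other place. -/
def localIdele267 (v : HeightOneSpectrum (𝓞 K)) (t : v.adicCompletion K) (ht : t ≠ 0) :
    (Adl K)ˣ :=
  Units.mkOfMulEqOne ((1, localFin267 v t) : Adl K) ((1, localFin267 v t⁻¹) : Adl K) (by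
    refine Prod.ext (mul_one _) ?_
    show localFin267 v t * localFin267 v t⁻¹ = 1
    rw [localFin267_mul, mul_inv_cancel₀ ht, localFin267_one])

theorem localIdele267_inf (v : HeightOneSpectrum (𝓞 K)) (t : v.adicCompletion K) (ht : t ≠ 0)
    (w : InfinitePlace K) : ((localIdele267 v t ht : (Adl K)ˣ) : Adl K).1 w = 1 := rfl

theorem localIdele267_same (v : HeightOneSpectrum (𝓞 K)) (t : v.adicCompletion K) (ht : t ≠ 0) :
    ((localIdele267 v t ht : (Adl K)ˣ) : Adl K).2 v = t :=
  localFin267_same v t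

theorem localIdele267_of_ne (v : HeightOneSpectrum (𝓞 K)) (t : v.adicCompletion K) (ht : t ≠ 0)
    {v' : HeightOneSpectrum (𝓞 K)} (h : v' ≠ v) :
    ((localIdele267 v t ht : (Adl K)ˣ) : Adl K).2 v' = 1 :=
  localFin267_of_ne v t h

/-- There is a uniformiser idele at every finite place. -/
theorem exists_isUnifIdele267 (v : HeightOneSpectrum (𝓞 K)) : ∃ t : (Adl K)ˣ, IsUnifIdele v t := by
  obtain ⟨π, hπ⟩ := v.valuation_exists_uniformizer K
  have hval : Valued.v (algebraMap K (v.adicCompletion K) π) = WithZero.exp (-1 : ℤ) := by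
    rw [← hπ]
    exact HeightOneSpectrum.valuedAdicCompletion_eq_valuation' v π
  have hne : algebraMap K (v.adicCompletion K) π ≠ 0 := by
    intro h0
    rw [h0, map_zero] at hval
    exact WithZero.exp_ne_zero hval.symm
  refine ⟨localIdele267 v _ hne, localIdele267_inf v _ hne,
    fun v' h => localIdele267_of_ne v _ hne h, ?_⟩
  rw [localIdele267_same]
  exact hval

/-! ## The leaf -/

/-- **LEAF MIX**, proved. -/
theorem mixC267 (K : Type) [Field K] [NumberField K] : MixC K :=
  fun S y y' => ⟨mixIdele267 S y y', mixIdele267_sameAt S y y', mixIdele267_sameOff S y y'⟩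

end Fermat.Agent.LT.T7.Rigid.H267

end

end
-- ===== PACK-END LT/T7/H267/Mix.lean

-- ===== PACK-BEGIN LT/T7/H37/ThinClosed.lean
section










/-!
# Row LT, tower T7, node T7.13 `ThinC` (sub-architect helper37): STATE OF THE NODE

OFF-MAIN.  Pattern of `LT/T1/Closed.lean` (helper54) / `LT/T8/Closed.lean` (helper19).

`thin_of_open : ThinOpen → DictFQC → SqrtC → T7.ThinC`; `ThinOpen` lists the leaves of the node
still to be proved, one field each.  `DictFQC` (T7.06) and `SqrtC` (T7.09) are leaves of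
`LT/T7/Spec.lean` itself and stay hypotheses.  Closed leaves are discharged by byte-identical
copies of the volunteers' files.

| leaf | registry | state |
|---|---|---|
| T7.13a `DegenC` | 1269 | CLOSED helper682 `degenC682` (H682/Degen.lean d01bb211) |
| T7.13b `NormSplitC` | 1270 | CLOSED helper8 `normSplitC_h8` (H8/NormSplit.lean 0ac6ec8f, on H922/DictFQ.lean 80550eb1 of helper922) |
| T7.13e `ClassOneC` | 1272 | CLOSED helper91 `classOneC91` (H91/ClassOne.lean 1348db5f) |
| T7.13f `NormEmbC` | 1272 | CLOSED helper91 `normEmbC91` |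
| T7.13g `HoroFC` = `H468.HoroCF468` (adelic half) | 1273 | CLOSED helper468 `horoCF468` (H468/{HoroF 941ba567, HoroFFam f312386d, HoroFBase 8a32ceb2, IwasawaC e0ee5b4c}.lean, on MS4A-D of helper51 and T8/H864/{Local,Coset} of helper864) |
| T7.13h `NonconstFC` | 1274 | CLOSED helper949 `nonconstFC949` (H949/Nonconst.lean 3879cc2d) |
| T7.13j `MSFC` | 1276 | CLOSED helper236 `msfC236` (H236/{MSF 59258a8e, MSFCore 18a285bc}.lean) |
| T7.13k `DirichletC` | 1277 | CLOSED helper980 `dirichletC980` (H980/{Dirichlet 9cd4555c, DirichletCore 5f826c54}.lean) |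
| T7.13c `ChebFC` | 1271 | OPEN, helper341 (asset FrobDivO1 of helper849) |
| T7.13i `HoroCoeffFC` (Fourier analysis on `ℂ / M 𝓞_K`) | 1275 | OPEN, helper768; or the package of helper47 for `SqMass468C` (row 1353) |
-/

set_option autoImplicit false

namespace Fermat.Agent.LT.T7.H37

open Fermat.Agent.LT.T7 Fermat.Agent.LT.T7.H468

/-- The classical half from the ONE leaf still open on it (`NormEmbC`, `NonconstFC`, `MSFC`
are closed). -/
theorem sqMass468C_of_horoCoeff (hCo : HoroCoeffFC) : SqMass468C :=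
  sqMass468C_of Fermat.Agent.LT.T7.H91.normEmbC91 Fermat.Agent.LT.T7.H949.nonconstFC949 hCo
    Fermat.Agent.LT.T7.H236.msfC236

/-- THE OPEN PART of node T7.13: the leaves still to be proved.  (`sqMass` is closed by
`sqMass468C_of_horoCoeff` from `HoroCoeffFC`, row 1275, or directly by row 1353.) -/
structure ThinOpen : Prop where
  chebF : ChebFC
  sqMass : SqMass468C

/-- STATE OF THE NODE: the open leaves (and the two dictionary leaves of the tower) give
`T7.ThinC`. -/
theorem thin_of_open (O : ThinOpen) (hFQ : DictFQC) (hR : SqrtC) : ThinC :=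
  thinTop468 hFQ hR Fermat.Agent.LT.T7.H682.degenC682 Fermat.Agent.LT.T7.H8.normSplitC_h8
    O.chebF Fermat.Agent.LT.T7.H91.classOneC91 Fermat.Agent.LT.T7.H468.horoCF468 O.sqMass
    Fermat.Agent.LT.T7.H980.dirichletC980

/-- The same with `DictFQC` discharged (helper922 `dictFQC922`). -/
theorem thin_of_open' (O : ThinOpen) (hR : SqrtC) : ThinC :=
  thin_of_open O Fermat.Agent.LT.T7.H922.dictFQC922 hR

/-- The same with `DictFQC` (helper922) and `SqrtC` (helper546 `sqrtC_h546`, H546/Sqrt.lean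
a5c736d2) discharged: THE NODE from its open leaves alone. -/
theorem thin_of_open'' (O : ThinOpen) : ThinC :=
  thin_of_open' O Fermat.Agent.LT.T7.H546.sqrtC_h546

end Fermat.Agent.LT.T7.H37

end
-- ===== PACK-END LT/T7/H37/ThinClosed.lean

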