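import Mathlib
import Fermat.Agent.Pack.LT2.E14L0
import Fermat.Agent.Pack.LT2.E14L3
import Fermat.Agent.Pack.LT2.E14L1
import Fermat.Agent.Pack.LT2.E14L2
import Fermat.Agent.Pack.LT2.E10L3
import Fermat.Agent.Pack.LT2.E0L0
import Fermat.Agent.Pack.LT2.E0L3
import Fermat.Agent.Pack.LT2.E2L1
import Fermat.Agent.Pack.LT2.E13L1
import Fermat.Agent.Pack.LT2.E15L2
import Fermat.Agent.Pack.LT2.E0L2
import Fermat.Agent.Pack.LT2.E3L1
import Fermat.Agent.Pack.LT2.E0L1
import Fermat.Agent.Pack.LT2.E7L3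
import Fermat.Agent.Pack.LT2.E9L2
import Fermat.Agent.Pack.LT2.E11L2
import Fermat.Agent.Pack.LT2.E12L1
import Fermat.Agent.Pack.LT2.E13L3
import Fermat.Agent.Pack.LT2.E15L1

set_option linter.all false

-- ===== PACK-BEGIN LT/A2/H124/PairCore.lean
section


/-!
# Row LT, tower A2, leaf A2.03.8.5.1 `H254.PairC254` -- part 1: algebra and valuations (helper124)

OFF-MAIN.  Mathlib + the Spec closure of `LT/A2/H254/RecSplitSpec.lean` (helper254, byte-identical
copy).  Nothing is assumed.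

* `torMat` is closed under multiplication and adjugation, `det (a + b M) = a² + t a b + n b²`;
* `pair_core124`: in a field with a valuation with values in `ℤᵐ⁰`, if `t`, `n` are integral,
  `t² - 4n` is a unit, `x`, `y` are integral and `x² + t x y + n y² = ϖ` is a uniformiser, then
  `v (y (2 x + t y)) ≤ exp (-1)` is impossible (`y` is a unit, so the trace `s = 2x + t y` would
  have positive valuation, against `s² - 4ϖ = y² (t² - 4n)`).
-/

set_option autoImplicit false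

open scoped Matrix

noncomputable section

namespace Fermat.Agent.LT.A2.H124

open Fermat.Agent.LT.A2

/-! ## `torMat` -/

section TorMat

variable {R : Type*} [CommRing R]

theorem torMat_mul124 (t n a b c d : R) :
    torMat t n a b * torMat t n c d
      = torMat t n (a * c - n * (b * d)) (a * d + b * c + t * (b * d)) := by
  unfold torMat
  rw [Matrix.mul_fin_two]
  refine Matrix.ext fun i j => ?_
  fin_cases i <;> fin_cases j <;> simp <;> ring

theorem torMat_adjugate124 (t n a b : R) :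
    (torMat t n a b).adjugate = torMat t n (a + t * b) (-b) := by
  unfold torMat
  rw [Matrix.adjugate_fin_two_of]
  refine Matrix.ext fun i j => ?_
  fin_cases i <;> fin_cases j <;> simp

theorem torMat_det124 (t n a b : R) :
    (torMat t n a b).det = a ^ 2 + t * a * b + n * b ^ 2 := by
  unfold torMat
  rw [Matrix.det_fin_two_of]
  ring

theorem torMat_map124 {S : Type*} [CommRing S] (f : R →+* S) (t n a b : R) :
    (torMat t n a b).map f = torMat (f t) (f n) (f a) (f b) := by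
  unfold torMat
  refine Matrix.ext fun i j => ?_
  fin_cases i <;> fin_cases j <;> simp

theorem torMat_one124 (t n : R) : torMat t n 1 0 = 1 := by
  unfold torMat
  refine Matrix.ext fun i j => ?_
  fin_cases i <;> fin_cases j <;> simp

end TorMat

/-! ## The valuation argument -/

section Val

open WithZero

variable {F : Type*} [Field F] (val : Valuation F (WithZero (Multiplicative ℤ)))

theorem lt_one_iff_le_exp124 (a : WithZero (Multiplicative ℤ)) :
    a < 1 ↔ a ≤ exp (-1 : ℤ) := by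
  have h := WithZero.lt_mul_exp_iff_le (x := a) (y := exp (-1 : ℤ)) exp_ne_zero
  rw [← exp_add] at h
  simpa using h

theorem exp_neg_one_lt_one124 : (exp (-1 : ℤ) : WithZero (Multiplicative ℤ)) < 1 := by
  rw [← exp_zero, exp_lt_exp]; norm_num

/-- `v(x²) < 1 ⇒ v(x) < 1`. -/
theorem val_lt_one_of_sq124 {x : F} (h : val (x ^ 2) < 1) : val x < 1 := by
  by_contra hx
  rw [not_lt] at hx
  have : (1 : WithZero (Multiplicative ℤ)) ≤ val (x ^ 2) := by
    rw [map_pow]
    exact one_le_pow₀ hx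
  exact absurd h (not_lt.mpr this)

/-- A product of two elements of valuation `≤ exp (-1)` has valuation `≤ exp (-2)`. -/
theorem val_mul_le_exp2_124 {x y : F} (hx : val x ≤ exp (-1 : ℤ)) (hy : val y ≤ exp (-1 : ℤ)) :
    val (x * y) ≤ exp (-2 : ℤ) := by
  rw [map_mul, show (-2 : ℤ) = -1 + -1 by norm_num, exp_add]
  exact mul_le_mul' hx hy

/-- **The core**: the element `x + y ω` of norm a uniformiser is not divisible by its conjugate
up to a unit. -/
theorem pair_core124 (T N x y ϖ : F) (hT : val T ≤ 1) (hN : val N ≤ 1)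
    (hdisc : val (T ^ 2 - 4 * N) = 1) (hx : val x ≤ 1) (hy : val y ≤ 1)
    (hdet : x ^ 2 + T * x * y + N * y ^ 2 = ϖ) (hϖ : val ϖ = exp (-1 : ℤ))
    (h : val (y * (2 * x + T * y)) ≤ exp (-1 : ℤ)) : False := by
  have he : (exp (-1 : ℤ) : WithZero (Multiplicative ℤ)) < 1 := exp_neg_one_lt_one124
  -- Step A: `y` is a unit
  have hy1 : val y = 1 := by
    by_contra hne
    have hylt : val y < 1 := lt_of_le_of_ne hy hne
    have hyle : val y ≤ exp (-1 : ℤ) := (lt_one_iff_le_exp124 _).mp hylt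
    -- `x² = ϖ - y (T x + N y)`
    have hTxNy : val (T * x + N * y) ≤ 1 := by
      refine le_trans (val.map_add _ _) (max_le ?_ ?_)
      · rw [map_mul]; exact mul_le_one' hT hx
      · rw [map_mul]; exact mul_le_one' hN hy
    have hx2 : x ^ 2 = ϖ - y * (T * x + N * y) := by rw [← hdet]; ring
    have hx2lt : val (x ^ 2) < 1 := by
      rw [hx2]
      refine lt_of_le_of_lt (val.map_sub _ _) (max_lt ?_ ?_)
      · rw [hϖ]; exact he
      · rw [map_mul]
        calc val y * val (T * x + N * y) ≤ val y * 1 := mul_le_mul' le_rfl hTxNy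
          _ = val y := mul_one _
          _ < 1 := hylt
    have hxlt : val x < 1 := val_lt_one_of_sq124 val hx2lt
    have hxle : val x ≤ exp (-1 : ℤ) := (lt_one_iff_le_exp124 _).mp hxlt
    -- then `ϖ` has valuation `≤ exp (-2)`
    have h1 : val (x ^ 2) ≤ exp (-2 : ℤ) := by
      rw [pow_two]; exact val_mul_le_exp2_124 val hxle hxle
    have h2 : val (T * x * y) ≤ exp (-2 : ℤ) := by
      rw [mul_assoc, map_mul]
      calc val T * val (x * y) ≤ 1 * val (x * y) := mul_le_mul' hT le_rfl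
        _ = val (x * y) := one_mul _
        _ ≤ exp (-2 : ℤ) := val_mul_le_exp2_124 val hxle hyle
    have h3 : val (N * y ^ 2) ≤ exp (-2 : ℤ) := by
      rw [pow_two, map_mul]
      calc val N * val (y * y) ≤ 1 * val (y * y) := mul_le_mul' hN le_rfl
        _ = val (y * y) := one_mul _
        _ ≤ exp (-2 : ℤ) := val_mul_le_exp2_124 val hyle hyle
    have h4 : val ϖ ≤ exp (-2 : ℤ) := by
      rw [← hdet]
      refine le_trans (val.map_add _ _) (max_le ?_ h3)
      exact le_trans (val.map_add _ _) (max_le h1 h2)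
    rw [hϖ, exp_le_exp] at h4
    norm_num at h4
  -- Step B: the trace `s = 2 x + T y` has valuation `< 1`
  have hs : val (2 * x + T * y) ≤ exp (-1 : ℤ) := by
    rw [map_mul, hy1, one_mul] at h
    exact h
  have hslt : val (2 * x + T * y) < 1 := lt_of_le_of_lt hs he
  -- Step C: `s² - 4 ϖ = y² (T² - 4 N)`
  have hid : (2 * x + T * y) ^ 2 - 4 * ϖ = y ^ 2 * (T ^ 2 - 4 * N) := by
    rw [← hdet]; ring
  have hR : val (y ^ 2 * (T ^ 2 - 4 * N)) = 1 := by
    rw [map_mul, map_pow, hy1, hdisc]; simp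
  have h4 : val (4 : F) ≤ 1 := by
    have h2 : val (2 : F) ≤ 1 := by
      have : (2 : F) = 1 + 1 := by norm_num
      rw [this]
      exact le_trans (val.map_add _ _) (max_le (le_of_eq val.map_one) (le_of_eq val.map_one))
    have : (4 : F) = 2 * 2 := by norm_num
    rw [this, map_mul]
    exact mul_le_one' h2 h2
  have hL : val ((2 * x + T * y) ^ 2 - 4 * ϖ) < 1 := by
    refine lt_of_le_of_lt (val.map_sub _ _) (max_lt ?_ ?_)
    · rw [map_pow, pow_two]
      calc val (2 * x + T * y) * val (2 * x + T * y) ≤ 1 * val (2 * x + T * y) :=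
            mul_le_mul' hslt.le le_rfl
        _ = val (2 * x + T * y) := one_mul _
        _ < 1 := hslt
    · rw [map_mul, hϖ]
      calc val (4 : F) * exp (-1 : ℤ) ≤ 1 * exp (-1 : ℤ) := mul_le_mul' h4 le_rfl
        _ = exp (-1 : ℤ) := one_mul _
        _ < 1 := he
  rw [hid, hR] at hL
  exact lt_irrefl _ hL

end Val

end Fermat.Agent.LT.A2.H124

end

end
-- ===== PACK-END LT/A2/H124/PairCore.lean

-- ===== PACK-BEGIN LT/A2/H54/LocFinSpec.lean
section


/-!
# Row LT, tower A2, station A2.03.1.1.06 `WX467.LocRepC` -- THE CUT (sub-architect helper54)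

OFF-MAIN.  Definitions, frozen Props and the PROVED top `locRepC_of_leaves54`.
No holes, no opaque constant, nothing assumed.

THE LOCAL WEIL REPRESENTATION at a finite place, `k = K_v`, `Q(x, y) = x² + t x y + n y²`,
`B(ξ, y) = Q(ξ + y) - Q(ξ) - Q(y)`, `ψ` a nontrivial character of `k`, `μ` a Haar measure of `k`.

## The construction (everything is EXPLICIT, nothing is chosen by the leaves except `c`, `G`)

* `ftL Φ ξ = ∫ Φ(y) ψ(B(ξ, y)) dy` (the Fourier transform of `LocAx.weyl`).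
* `rOp h Φ` for `h = [[a, b], [c, d]]` (Bruhat formulas):
  `c = 0`:  `η(a) |a| ψ(a b Q(ξ)) Φ(a ξ)`;
  `c ≠ 0`:  `γ η(-c) |c|⁻¹ ∫ ψ((a Q(ξ) - B(ξ, y) + d Q(y)) / c) Φ(y) dy`.
* `lopL m Φ ξ = |det m|^{-1/2} Φ(m⁻¹ ξ)`.
* THE FAMILY: `Fof Φ g m = lopL m (rOp (d(det m)⁻¹ g) Φ)`, `d(a) = diag(1, a)`.

With this definition `LocAx.tor` is pure algebra, and `unip`, `diag`, `weyl` only need the
LEFT rules `rOp (n(x) h) = ψ(x Q) · rOp h`, `rOp (t(a) h) = T_a (rOp h)`,
`rOp (w h) = γ FT (rOp h)` for `det h = 1`.  NO presentation of `SL₂`, NO induction on words,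
NO multiplicativity `r(g g') = r(g) r(g')` is needed.  The left rule for `w` is, case by case
(`c = 0`; `c ≠ 0, a = 0`; `c ≠ 0, a ≠ 0`): the dilation `y ↦ a y`; Fourier inversion
`FT FT Φ = c Φ(-·)` with `γ² c = η(-1)`; THE GAUSS IDENTITY
`FT(ψ(a Q) · FT Φ)(ξ) = G(a) ∫ Φ(z) ψ(-Q(z + ξ) / a) dz` with `γ |a| G(a) = η(-a)`.

## The certificates

* `FourierCert c G`: `FT` preserves Schwartz--Bruhat functions, inversion with the constant
  `c > 0`, change of variables for invertible matrices, the Gauss identity with `G`.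
* `EtaCert c G γ η`: `η` is a character of order `≤ 2` of `k^×`, trivial on the norms,
  continuous, `γ² c = η(-1)`, `γ |a| G(a) = η(-a)`.
  Construction (`LeafEta`): `g(a) = |a| G(a)`, `γ = 1 / g(-1)`, `η(a) = γ g(-a)`;
  `g` is constant on the cosets of the norms (`LeafGaussNorm`), `g(a) g(-a) = c`
  (`LeafGaussProd`), `g(a s)² = g(a)²` for a sum `s` of two norms (`LeafGaussSum`), the norms
  have index `≤ 2` (`LeafNormIndex`), and if there is a non-norm there is one which is a sum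
  of two norms (`LeafNonNormSum`); continuity from `LeafSqOpen`.

## Leaves (registry rows A2.03.1.1.06.xx)

01 `LeafHaar`, 02 `LeafCov`, 03 `LeafFtSb`, 04 `LeafInv`, 05 `LeafGauss`, 06 `LeafGaussNorm`,
07 `LeafGaussProd`, 08 `LeafGaussSum`, 09 `LeafNormIndex`, 10 `LeafNonNormSum`,
11 `LeafSqOpen`, 12 `LeafEta`, 13 `LeafBorelOp`, 14 `LeafWeylOp`, 15 `LeafRopSb`,
16 `LeafAxUnip`, 17 `LeafAxDiag`, 18 `LeafAxWeyl`, 19 `LeafAxTor`, 20 `LeafAxReg`.
-/

set_option autoImplicit false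

open IsDedekindDomain NumberField MeasureTheory
open scoped Topology

noncomputable section

namespace Fermat.Agent.LT.A2.LF54

open Fermat.Agent.LT.A2 Fermat.Agent.LT.A2.WX467

/-! ## 1. Vocabulary -/

section Vocab

variable {k : Type} [NormedField k]

/-- Schwartz--Bruhat functions on `k²`: locally constant with compact support. -/
def IsSB (Φ : k × k → ℂ) : Prop := IsLocallyConstant Φ ∧ HasCompactSupport Φ

/-- The Fourier transform of `LocAx.weyl`: `ftL Φ ξ = ∫ Φ(y) ψ(B(ξ, y)) dy`. -/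
def ftL (t n : k) (ψ : k → ℂ) (μ : @Measure k (borel k)) (Φ : k × k → ℂ) (ξ : k × k) : ℂ :=
  intL μ fun y => Φ y * ψ (bfL t n ξ y)

/-- `a` is a value of the norm form `Q`. -/
def IsNormL (t n a : k) : Prop := ∃ x y : k, qfL t n (x, y) = a

open scoped Classical in
/-- **The Bruhat formulas** of the Weil representation, `h = [[a, b], [c, d]]`. -/
def rOp (t n : k) (ψ : k → ℂ) (μ : @Measure k (borel k)) (γ : ℂ) (η : k → ℂ)
    (h : Matrix (Fin 2) (Fin 2) k) (Φ : k × k → ℂ) (ξ : k × k) : ℂ :=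
  if h 1 0 = 0 then
    η (h 0 0) * ((‖h 0 0‖ : ℝ) : ℂ) * ψ (h 0 0 * h 0 1 * qfL t n ξ) * Φ (h 0 0 • ξ)
  else
    γ * η (-(h 1 0)) * ((‖h 1 0‖⁻¹ : ℝ) : ℂ) *
      intL μ fun y =>
        ψ ((h 0 0 * qfL t n ξ - bfL t n ξ y + h 1 1 * qfL t n y) / h 1 0) * Φ y

/-- The action of the torus: `lopL m Φ ξ = |det m|^{-1/2} Φ(m⁻¹ ξ)`. -/
def lopL (m : Matrix (Fin 2) (Fin 2) k) (Φ : k × k → ℂ) (ξ : k × k) : ℂ :=
  (((Real.sqrt ‖m.det‖)⁻¹ : ℝ) : ℂ) * Φ (actL m⁻¹ ξ)

/-- **THE FAMILY** with initial vector `Φ`: `Fof Φ g m = L(m) r(d(det m)⁻¹ g) Φ`. -/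
def Fof (t n : k) (ψ : k → ℂ) (μ : @Measure k (borel k)) (γ : ℂ) (η : k → ℂ)
    (Φ : k × k → ℂ) (g m : Matrix (Fin 2) (Fin 2) k) : k × k → ℂ :=
  lopL m (rOp t n ψ μ γ η (!![1, 0; 0, (m.det)⁻¹] * g) Φ)

/-- The standing hypotheses: nonzero discriminant, `ψ` a nontrivial continuous unitary
character, `μ` a Haar measure. -/
structure Ctx (t n : k) (ψ : k → ℂ) (μ : @Measure k (borel k)) : Prop where
  disc : t ^ 2 - 4 * n ≠ 0
  char : IsCharL ψ
  haar : IsHaarL μ

/-- `FT` preserves Schwartz--Bruhat functions. -/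
def FtSbP (t n : k) (ψ : k → ℂ) (μ : @Measure k (borel k)) : Prop :=
  ∀ Φ : k × k → ℂ, IsSB Φ → IsSB (ftL t n ψ μ Φ)

/-- Fourier inversion with the constant `c`. -/
def InvP (t n : k) (ψ : k → ℂ) (μ : @Measure k (borel k)) (c : ℝ) : Prop :=
  ∀ Φ : k × k → ℂ, IsSB Φ → ∀ ξ : k × k,
    ftL t n ψ μ (ftL t n ψ μ Φ) ξ = (c : ℂ) * Φ (-ξ)

/-- Change of variables for an invertible matrix: `∫ f(m y) dy = |det m|⁻¹ ∫ f(y) dy`. -/
def CovP (μ : @Measure k (borel k)) : Prop :=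
  ∀ m : Matrix (Fin 2) (Fin 2) k, m.det ≠ 0 → ∀ f : k × k → ℂ, IsSB f →
    intL μ (fun y => f (actL m y)) = ((‖m.det‖⁻¹ : ℝ) : ℂ) * intL μ f

/-- **The Gauss identity** with the function `G`:
`FT(ψ(a Q) · FT Φ)(ξ) = G(a) ∫ Φ(z) ψ(-Q(z + ξ) / a) dz`. -/
def GaussP (t n : k) (ψ : k → ℂ) (μ : @Measure k (borel k)) (G : k → ℂ) : Prop :=
  ∀ a : k, a ≠ 0 → ∀ Φ : k × k → ℂ, IsSB Φ → ∀ ξ : k × k,
    ftL t n ψ μ (fun y => ψ (a * qfL t n y) * ftL t n ψ μ Φ y) ξ
      = G a * intL μ fun z => Φ z * ψ (-(qfL t n (z + ξ)) / a)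

/-- **The Fourier certificate.** -/
structure FourierCert (t n : k) (ψ : k → ℂ) (μ : @Measure k (borel k)) (c : ℝ) (G : k → ℂ) :
    Prop where
  c_pos : 0 < c
  ft_sb : FtSbP t n ψ μ
  inv : InvP t n ψ μ c
  cov : CovP μ
  gauss : GaussP t n ψ μ G

/-- `‖N‖ G(a N) = G(a)` for the nonzero values `N` of the norm form. -/
def GaussNormP (t n : k) (G : k → ℂ) : Prop :=
  ∀ a : k, a ≠ 0 → ∀ x y : k, qfL t n (x, y) ≠ 0 →
    ((‖qfL t n (x, y)‖ : ℝ) : ℂ) * G (a * qfL t n (x, y)) = G a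

/-- `‖a‖² G(a) G(-a) = c`. -/
def GaussProdP (c : ℝ) (G : k → ℂ) : Prop :=
  ∀ a : k, a ≠ 0 → ((‖a‖ ^ 2 : ℝ) : ℂ) * (G a * G (-a)) = (c : ℂ)

/-- `(‖s‖ G(a s))² = G(a)²` for a nonzero sum `s` of two values of the norm form. -/
def GaussSumP (t n : k) (G : k → ℂ) : Prop :=
  ∀ a : k, a ≠ 0 → ∀ x₁ y₁ x₂ y₂ : k, qfL t n (x₁, y₁) + qfL t n (x₂, y₂) ≠ 0 →
    (((‖qfL t n (x₁, y₁) + qfL t n (x₂, y₂)‖ : ℝ) : ℂ)
        * G (a * (qfL t n (x₁, y₁) + qfL t n (x₂, y₂)))) ^ 2 = G a ^ 2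

/-- The values of the norm form have index `≤ 2` in `k^×`. -/
def NormIndexP (t n : k) : Prop :=
  ∀ a b : k, a ≠ 0 → b ≠ 0 → ¬ IsNormL t n a → ¬ IsNormL t n b → IsNormL t n (a * b)

/-- If there is a non-norm, there is one which is a sum of two norms. -/
def NonNormSumP (t n : k) : Prop :=
  (∃ a : k, a ≠ 0 ∧ ¬ IsNormL t n a) →
    ∃ x₁ y₁ x₂ y₂ : k, qfL t n (x₁, y₁) + qfL t n (x₂, y₂) ≠ 0 ∧
      ¬ IsNormL t n (qfL t n (x₁, y₁) + qfL t n (x₂, y₂))

/-- The squares contain a neighbourhood of `1`. -/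
def SqOpenP (k : Type) [NormedField k] : Prop :=
  ∃ ε : ℝ, 0 < ε ∧ ∀ x : k, ‖x - 1‖ < ε → ∃ y : k, y ^ 2 = x

/-- **The certificate of `(γ, η)`.**  The first four fields are those of `LocAx`, VERBATIM. -/
structure EtaCert (t n : k) (c : ℝ) (G : k → ℂ) (γ : ℂ) (η : k → ℂ) : Prop where
  eta_mul : ∀ a b : k, a ≠ 0 → b ≠ 0 → η (a * b) = η a * η b
  eta_sq : ∀ a : k, a ≠ 0 → η a = 1 ∨ η a = -1
  eta_norm : ∀ μ' : Matrix (Fin 2) (Fin 2) k, InTorL t n μ' → μ'.det ≠ 0 → η μ'.det = 1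
  eta_cont : ContinuousOn η {a | a ≠ 0}
  w2 : γ ^ 2 * (c : ℂ) = η (-1)
  gauss_eta : ∀ a : k, a ≠ 0 → γ * ((‖a‖ : ℝ) : ℂ) * G a = η (-a)

/-- The LEFT rules of the upper triangular group, and `rOp 1 = id`. -/
structure BorelOpP (t n : k) (ψ : k → ℂ) (μ : @Measure k (borel k)) (γ : ℂ) (η : k → ℂ) :
    Prop where
  one : ∀ Φ : k × k → ℂ, IsSB Φ → rOp t n ψ μ γ η 1 Φ = Φ
  unip : ∀ (x : k) (h : Matrix (Fin 2) (Fin 2) k), h.det = 1 → ∀ Φ : k × k → ℂ, IsSB Φ →
    ∀ ξ : k × k, rOp t n ψ μ γ η (!![1, x; 0, 1] * h) Φ ξ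
      = ψ (x * qfL t n ξ) * rOp t n ψ μ γ η h Φ ξ
  diag : ∀ a : k, a ≠ 0 → ∀ h : Matrix (Fin 2) (Fin 2) k, h.det = 1 →
    ∀ Φ : k × k → ℂ, IsSB Φ → ∀ ξ : k × k,
      rOp t n ψ μ γ η (!![a, 0; 0, a⁻¹] * h) Φ ξ
        = η a * ((‖a‖ : ℝ) : ℂ) * rOp t n ψ μ γ η h Φ (a • ξ)

/-- The LEFT rule of the Weyl element. -/
def WeylOpP (t n : k) (ψ : k → ℂ) (μ : @Measure k (borel k)) (γ : ℂ) (η : k → ℂ) : Prop :=
  ∀ h : Matrix (Fin 2) (Fin 2) k, h.det = 1 → ∀ Φ : k × k → ℂ, IsSB Φ → ∀ ξ : k × k,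
    rOp t n ψ μ γ η (!![0, 1; -1, 0] * h) Φ ξ = γ * ftL t n ψ μ (rOp t n ψ μ γ η h Φ) ξ

/-- `rOp h` preserves Schwartz--Bruhat functions. -/
def RopSbP (t n : k) (ψ : k → ℂ) (μ : @Measure k (borel k)) (γ : ℂ) (η : k → ℂ) : Prop :=
  ∀ h : Matrix (Fin 2) (Fin 2) k, h.det = 1 → ∀ Φ : k × k → ℂ, IsSB Φ →
    IsSB (rOp t n ψ μ γ η h Φ)

/-- The field `unip` of `LocAx` for a family `F`. -/
def AxUnipP (t n : k) (ψ : k → ℂ)
    (F : Matrix (Fin 2) (Fin 2) k → Matrix (Fin 2) (Fin 2) k → k × k → ℂ) : Prop :=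
  ∀ (x : k) (g m : Matrix (Fin 2) (Fin 2) k) (ξ : k × k), AdmL t n g m →
    F (!![1, x; 0, 1] * g) m ξ = ψ (x * qfL t n ξ) * F g m ξ

/-- The field `weyl` of `LocAx` for a family `F`. -/
def AxWeylP (t n : k) (ψ : k → ℂ) (μ : @Measure k (borel k)) (γ : ℂ)
    (F : Matrix (Fin 2) (Fin 2) k → Matrix (Fin 2) (Fin 2) k → k × k → ℂ) : Prop :=
  ∀ (g m : Matrix (Fin 2) (Fin 2) k) (ξ : k × k), AdmL t n g m →
    F (!![0, 1; -1, 0] * g) m ξ = γ * intL μ fun y => F g m y * ψ (bfL t n ξ y)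

/-- The field `diag` of `LocAx` for a family `F` (module `‖·‖`). -/
def AxDiagP (t n : k) (η : k → ℂ)
    (F : Matrix (Fin 2) (Fin 2) k → Matrix (Fin 2) (Fin 2) k → k × k → ℂ) : Prop :=
  ∀ a : k, a ≠ 0 → ∀ (g m : Matrix (Fin 2) (Fin 2) k) (ξ : k × k), AdmL t n g m →
    F (!![a, 0; 0, a⁻¹] * g) m ξ = η a * ((‖a‖ : ℝ) : ℂ) * F g m (a • ξ)

/-- The field `tor` of `LocAx` for a family `F` (module `‖·‖`). -/
def AxTorP (t n : k)
    (F : Matrix (Fin 2) (Fin 2) k → Matrix (Fin 2) (Fin 2) k → k × k → ℂ) : Prop :=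
  ∀ μ' : Matrix (Fin 2) (Fin 2) k, InTorL t n μ' → μ'.det ≠ 0 →
    ∀ (g m : Matrix (Fin 2) (Fin 2) k) (ξ : k × k), AdmL t n g m →
      ((Real.sqrt ‖μ'.det‖ : ℝ) : ℂ) * F (!![1, 0; 0, μ'.det] * g) (μ' * m) ξ
        = F g m (actL μ'⁻¹ ξ)

/-- Regularity of a family: Schwartz--Bruhat members (hence continuous and integrable). -/
structure AxRegP (t n : k) (μ : @Measure k (borel k))
    (F : Matrix (Fin 2) (Fin 2) k → Matrix (Fin 2) (Fin 2) k → k × k → ℂ) : Prop where
  sb : ∀ g m : Matrix (Fin 2) (Fin 2) k, AdmL t n g m →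
    IsLocallyConstant (F g m) ∧ HasCompactSupport (F g m)
  cont : ∀ g m : Matrix (Fin 2) (Fin 2) k, AdmL t n g m → Continuous (F g m)
  integrable : ∀ g m : Matrix (Fin 2) (Fin 2) k, AdmL t n g m → IntegrableL μ (F g m)

end Vocab

/-! ## 2. The leaves

Every leaf is a statement about `k = v.adicCompletion K`, `K` a number field, `v` a finite place,
with ARBITRARY `t n : k` (not only the images of elements of `K`). -/

section Leaves

/-- **01 HAAR.**  There is a Haar measure on `K_v` (Borel σ-algebra).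
`K_v` is locally compact (tower T1, `LocCompC` of helper11); Mathlib `addHaar`. -/
def LeafHaar : Prop :=
  ∀ (K : Type) [Field K] [NumberField K] (v : HeightOneSpectrum (𝓞 K)),
    ∃ μ : @Measure (v.adicCompletion K) (borel (v.adicCompletion K)), IsHaarL μ

/-- **02 COV.**  Change of variables on `K_v²` for an invertible matrix, module `‖det m‖`:
shears (Fubini and invariance), the swap, diagonal matrices (`μ(a S) = ‖a‖ μ(S)`:
`[𝒪_v : a 𝒪_v] = ‖a‖⁻¹`). -/
def LeafCov : Prop :=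
  ∀ (K : Type) [Field K] [NumberField K] (v : HeightOneSpectrum (𝓞 K))
    (μ : @Measure (v.adicCompletion K) (borel (v.adicCompletion K))), IsHaarL μ → CovP μ

/-- **03 FT-SB.**  The Fourier transform of a Schwartz--Bruhat function is Schwartz--Bruhat:
for the indicator function of `y₀ + Λ`, `FT = ψ(B(·, y₀)) μ(Λ) 1_{Λ^⊥}`, and `Λ^⊥` is a
lattice because `ψ` is nontrivial and `B` is nondegenerate. -/
def LeafFtSb : Prop :=
  ∀ (K : Type) [Field K] [NumberField K] (v : HeightOneSpectrum (𝓞 K))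
    (t n : v.adicCompletion K) (ψ : v.adicCompletion K → ℂ)
    (μ : @Measure (v.adicCompletion K) (borel (v.adicCompletion K))),
    Ctx t n ψ μ → FtSbP t n ψ μ

/-- **04 INV.**  Fourier inversion on `S(K_v²)`: `FT FT Φ = c Φ(-·)`, `c = μ(Λ) μ(Λ^⊥) > 0`. -/
def LeafInv : Prop :=
  ∀ (K : Type) [Field K] [NumberField K] (v : HeightOneSpectrum (𝓞 K))
    (t n : v.adicCompletion K) (ψ : v.adicCompletion K → ℂ)
    (μ : @Measure (v.adicCompletion K) (borel (v.adicCompletion K))),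
    Ctx t n ψ μ → ∃ c : ℝ, 0 < c ∧ InvP t n ψ μ c

/-- **05 GAUSS (Weil 1964, § 14, th. 2).**  The Gauss identity, with
`G(a) = ∫_{Λ} ψ(a Q(y)) dy` for every large lattice `Λ`: cut the outer integral at a large
lattice, Fubini, complete the square `a Q(y) + B(y, u) = a Q(y + u / a) - Q(u) / a`. -/
def LeafGauss : Prop :=
  ∀ (K : Type) [Field K] [NumberField K] (v : HeightOneSpectrum (𝓞 K))
    (t n : v.adicCompletion K) (ψ : v.adicCompletion K → ℂ)
    (μ : @Measure (v.adicCompletion K) (borel (v.adicCompletion K))),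
    Ctx t n ψ μ → ∃ G : v.adicCompletion K → ℂ, GaussP t n ψ μ G

/-- **06 GAUSS-NORM.**  `‖N‖ G(a N) = G(a)`: the Gauss identity for `Φ ∘ m`, `m` the
multiplication by `x + y ω` (`Q(m ξ) = N Q(ξ)`, `B(m ξ, y) = B(ξ, m̄ y)`, `CovP`). -/
def LeafGaussNorm : Prop :=
  ∀ (K : Type) [Field K] [NumberField K] (v : HeightOneSpectrum (𝓞 K))
    (t n : v.adicCompletion K) (ψ : v.adicCompletion K → ℂ)
    (μ : @Measure (v.adicCompletion K) (borel (v.adicCompletion K))) (c : ℝ)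
    (G : v.adicCompletion K → ℂ),
    Ctx t n ψ μ → FourierCert t n ψ μ c G → GaussNormP t n G

/-- **07 GAUSS-PROD.**  `‖a‖² G(a) G(-a) = c`: with `X_a = FT M_a FT`,
`X_a X_{-a} = c²` by inversion and `X_a X_{-a} = c ‖a‖² G(a) G(-a)` by the Gauss identity. -/
def LeafGaussProd : Prop :=
  ∀ (K : Type) [Field K] [NumberField K] (v : HeightOneSpectrum (𝓞 K))
    (t n : v.adicCompletion K) (ψ : v.adicCompletion K → ℂ)
    (μ : @Measure (v.adicCompletion K) (borel (v.adicCompletion K))) (c : ℝ)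
    (G : v.adicCompletion K → ℂ),
    Ctx t n ψ μ → FourierCert t n ψ μ c G → GaussProdP c G

/-- **08 GAUSS-SUM.**  `(‖s‖ G(a s))² = G(a)²` for `s = N(x) + N(y) ≠ 0`: the Gauss identity on
`k⁴` for `Q ⊕ Q` (constant `G(a)²`, products of Schwartz--Bruhat functions span) and the
similitude `A(u, v) = (x u - ȳ v, y u + x̄ v)` of `Q ⊕ Q` with multiplier `s`, `|det A| = ‖s‖²`. -/
def LeafGaussSum : Prop :=
  ∀ (K : Type) [Field K] [NumberField K] (v : HeightOneSpectrum (𝓞 K))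
    (t n : v.adicCompletion K) (ψ : v.adicCompletion K → ℂ)
    (μ : @Measure (v.adicCompletion K) (borel (v.adicCompletion K))) (c : ℝ)
    (G : v.adicCompletion K → ℂ),
    Ctx t n ψ μ → FourierCert t n ψ μ c G → GaussSumP t n G

/-- **09 NORM-INDEX (STATION).**  The nonzero values of a binary form with nonzero discriminant
over `K_v` form a subgroup of index `≤ 2` of `K_v^×` (`v` dyadic included).  Local norm index
of a quadratic extension: Hilbert 90 (`N m = 1`, `m ≠ -1` ⟹ `m = (1 + m) / (1 + m)‾`) and the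
index of the squares in `k^×` and `E^×`, or the Herbrand quotient of `E^×`. -/
def LeafNormIndex : Prop :=
  ∀ (K : Type) [Field K] [NumberField K] (v : HeightOneSpectrum (𝓞 K))
    (t n : v.adicCompletion K), t ^ 2 - 4 * n ≠ 0 → NormIndexP t n

/-- **10 NON-NORM-SUM.**  If the norms are not everything, some sum of two norms is a nonzero
non-norm: otherwise `N ∪ {0}` is closed under addition, contains `1`, hence `-1` (it is closed
in `k` and `pʲ - 1 → -1`), and all squares, hence `2 x = (x + 1)² - x² - 1`. -/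
def LeafNonNormSum : Prop :=
  ∀ (K : Type) [Field K] [NumberField K] (v : HeightOneSpectrum (𝓞 K))
    (t n : v.adicCompletion K), t ^ 2 - 4 * n ≠ 0 → NonNormSumP t n

/-- **11 SQ-OPEN.**  The squares of `K_v` contain a neighbourhood of `1` (Hensel, or the
binomial series; `‖x - 1‖ < ‖4‖`). -/
def LeafSqOpen : Prop :=
  ∀ (K : Type) [Field K] [NumberField K] (v : HeightOneSpectrum (𝓞 K)),
    SqOpenP (v.adicCompletion K)

/-- **12 ETA.**  The constant `γ` and the character `η` (see the header). -/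
def LeafEta : Prop :=
  ∀ (K : Type) [Field K] [NumberField K] (v : HeightOneSpectrum (𝓞 K))
    (t n : v.adicCompletion K) (ψ : v.adicCompletion K → ℂ)
    (μ : @Measure (v.adicCompletion K) (borel (v.adicCompletion K))) (c : ℝ)
    (G : v.adicCompletion K → ℂ),
    Ctx t n ψ μ → FourierCert t n ψ μ c G → GaussNormP t n G → GaussProdP c G →
    GaussSumP t n G → NormIndexP t n → NonNormSumP t n → SqOpenP (v.adicCompletion K) →
    ∃ (γ : ℂ) (η : v.adicCompletion K → ℂ), EtaCert t n c G γ η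

/-- **13 BOREL-OP.**  The left rules of `n(x)`, `t(a)` and `rOp 1 = id`: algebra on the Bruhat
formulas (`η` multiplicative, `η(a⁻¹) = η(a)`, `Q(a ξ) = a² Q(ξ)`). -/
def LeafBorelOp : Prop :=
  ∀ (K : Type) [Field K] [NumberField K] (v : HeightOneSpectrum (𝓞 K))
    (t n : v.adicCompletion K) (ψ : v.adicCompletion K → ℂ)
    (μ : @Measure (v.adicCompletion K) (borel (v.adicCompletion K))) (c : ℝ)
    (G : v.adicCompletion K → ℂ) (γ : ℂ) (η : v.adicCompletion K → ℂ),
    Ctx t n ψ μ → EtaCert t n c G γ η → BorelOpP t n ψ μ γ η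

/-- **14 WEYL-OP.**  The left rule of `w` (three cases, see the header). -/
def LeafWeylOp : Prop :=
  ∀ (K : Type) [Field K] [NumberField K] (v : HeightOneSpectrum (𝓞 K))
    (t n : v.adicCompletion K) (ψ : v.adicCompletion K → ℂ)
    (μ : @Measure (v.adicCompletion K) (borel (v.adicCompletion K))) (c : ℝ)
    (G : v.adicCompletion K → ℂ) (γ : ℂ) (η : v.adicCompletion K → ℂ),
    Ctx t n ψ μ → FourierCert t n ψ μ c G → EtaCert t n c G γ η → WeylOpP t n ψ μ γ η

/-- **15 ROP-SB.**  `rOp h Φ` is Schwartz--Bruhat: `ψ ∘ Q` is locally constant, `FtSbP`. -/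
def LeafRopSb : Prop :=
  ∀ (K : Type) [Field K] [NumberField K] (v : HeightOneSpectrum (𝓞 K))
    (t n : v.adicCompletion K) (ψ : v.adicCompletion K → ℂ)
    (μ : @Measure (v.adicCompletion K) (borel (v.adicCompletion K))) (γ : ℂ)
    (η : v.adicCompletion K → ℂ),
    Ctx t n ψ μ → FtSbP t n ψ μ → RopSbP t n ψ μ γ η

/-- **16 AX-UNIP.**  `d(δ)⁻¹ n(x) = n(x δ) d(δ)⁻¹` and `Q(m⁻¹ ξ) = Q(ξ) / det m`. -/
def LeafAxUnip : Prop :=
  ∀ (K : Type) [Field K] [NumberField K] (v : HeightOneSpectrum (𝓞 K))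
    (t n : v.adicCompletion K) (ψ : v.adicCompletion K → ℂ)
    (μ : @Measure (v.adicCompletion K) (borel (v.adicCompletion K))) (γ : ℂ)
    (η : v.adicCompletion K → ℂ),
    Ctx t n ψ μ → BorelOpP t n ψ μ γ η →
    ∀ Φ : v.adicCompletion K × v.adicCompletion K → ℂ, IsSB Φ →
      AxUnipP t n ψ (Fof t n ψ μ γ η Φ)

/-- **17 AX-DIAG.**  `d(δ)⁻¹ t(a) = t(a) d(δ)⁻¹`. -/
def LeafAxDiag : Prop :=
  ∀ (K : Type) [Field K] [NumberField K] (v : HeightOneSpectrum (𝓞 K))
    (t n : v.adicCompletion K) (ψ : v.adicCompletion K → ℂ)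
    (μ : @Measure (v.adicCompletion K) (borel (v.adicCompletion K))) (γ : ℂ)
    (η : v.adicCompletion K → ℂ),
    Ctx t n ψ μ → BorelOpP t n ψ μ γ η →
    ∀ Φ : v.adicCompletion K × v.adicCompletion K → ℂ, IsSB Φ →
      AxDiagP t n η (Fof t n ψ μ γ η Φ)

/-- **18 AX-WEYL.**  `d(δ)⁻¹ w = t(δ) w d(δ)⁻¹`, `δ = det m`; `FT (L(m) f) = η(δ) L(m) T_δ FT f`
(`CovP` for `m`, `B(ξ, m z) = B(δ m⁻¹ ξ, z)`), `η(δ) = 1`. -/
def LeafAxWeyl : Prop :=
  ∀ (K : Type) [Field K] [NumberField K] (v : HeightOneSpectrum (𝓞 K))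
    (t n : v.adicCompletion K) (ψ : v.adicCompletion K → ℂ)
    (μ : @Measure (v.adicCompletion K) (borel (v.adicCompletion K))) (c : ℝ)
    (G : v.adicCompletion K → ℂ) (γ : ℂ) (η : v.adicCompletion K → ℂ),
    Ctx t n ψ μ → CovP μ → EtaCert t n c G γ η → BorelOpP t n ψ μ γ η →
    WeylOpP t n ψ μ γ η → RopSbP t n ψ μ γ η →
    ∀ Φ : v.adicCompletion K × v.adicCompletion K → ℂ, IsSB Φ →
      AxWeylP t n ψ μ γ (Fof t n ψ μ γ η Φ)

/-- **19 AX-TOR.**  Pure algebra: `d((α δ)⁻¹) d(α) = d(δ⁻¹)`, `(μ' m)⁻¹ = m⁻¹ μ'⁻¹`. -/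
def LeafAxTor : Prop :=
  ∀ (K : Type) [Field K] [NumberField K] (v : HeightOneSpectrum (𝓞 K))
    (t n : v.adicCompletion K) (ψ : v.adicCompletion K → ℂ)
    (μ : @Measure (v.adicCompletion K) (borel (v.adicCompletion K))) (γ : ℂ)
    (η : v.adicCompletion K → ℂ)
    (Φ : v.adicCompletion K × v.adicCompletion K → ℂ),
    AxTorP t n (Fof t n ψ μ γ η Φ)

/-- **20 AX-REG.**  The members of the family are Schwartz--Bruhat, continuous, integrable. -/
def LeafAxReg : Prop :=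
  ∀ (K : Type) [Field K] [NumberField K] (v : HeightOneSpectrum (𝓞 K))
    (t n : v.adicCompletion K) (ψ : v.adicCompletion K → ℂ)
    (μ : @Measure (v.adicCompletion K) (borel (v.adicCompletion K))) (γ : ℂ)
    (η : v.adicCompletion K → ℂ),
    Ctx t n ψ μ → RopSbP t n ψ μ γ η →
    ∀ Φ : v.adicCompletion K × v.adicCompletion K → ℂ, IsSB Φ →
      AxRegP t n μ (Fof t n ψ μ γ η Φ)

/-- **The leaves of the station.** -/
structure Leaves : Prop where
  haar : LeafHaar
  cov : LeafCov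
  ftSb : LeafFtSb
  inv : LeafInv
  gauss : LeafGauss
  gaussNorm : LeafGaussNorm
  gaussProd : LeafGaussProd
  gaussSum : LeafGaussSum
  normIndex : LeafNormIndex
  nonNormSum : LeafNonNormSum
  sqOpen : LeafSqOpen
  eta : LeafEta
  borelOp : LeafBorelOp
  weylOp : LeafWeylOp
  ropSb : LeafRopSb
  axUnip : LeafAxUnip
  axDiag : LeafAxDiag
  axWeyl : LeafAxWeyl
  axTor : LeafAxTor
  axReg : LeafAxReg

end Leaves

/-! ## 3. The top (PROVED) -/

section Top

variable {k : Type} [NormedField k]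

/-- `Fof Φ 1 1 = Φ` from `rOp 1 = id`. -/
theorem fof_one_one54 (t n : k) (ψ : k → ℂ) (μ : @Measure k (borel k)) (γ : ℂ) (η : k → ℂ)
    (hB : BorelOpP t n ψ μ γ η) (Φ : k × k → ℂ) (hΦ : IsSB Φ) :
    Fof t n ψ μ γ η Φ 1 1 = Φ := by
  have h1 : (!![1, 0; 0, ((1 : Matrix (Fin 2) (Fin 2) k).det)⁻¹] * (1 : Matrix (Fin 2) (Fin 2) k))
      = 1 := by
    rw [Matrix.det_one, inv_one, mul_one]
    exact Matrix.one_fin_two.symm
  funext ξ
  unfold Fof lopL
  rw [h1, hB.one Φ hΦ]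
  simp [actL, Matrix.det_one]

/-- The local axioms of the family `Fof Φ` from the certificates. -/
theorem locAx_of_parts54 (t n : k) (ψ : k → ℂ) (μ : @Measure k (borel k)) (c : ℝ) (G : k → ℂ)
    (γ : ℂ) (η : k → ℂ) (hctx : Ctx t n ψ μ) (hE : EtaCert t n c G γ η)
    (F : Matrix (Fin 2) (Fin 2) k → Matrix (Fin 2) (Fin 2) k → k × k → ℂ)
    (hU : AxUnipP t n ψ F) (hW : AxWeylP t n ψ μ γ F) (hD : AxDiagP t n η F)
    (hT : AxTorP t n F) (hR : AxRegP t n μ F) :
    LocAx (fun x => ‖x‖) t n ψ μ γ η F where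
  unip := hU
  weyl := hW
  diag := hD
  tor := hT
  eta_mul := hE.eta_mul
  eta_sq := hE.eta_sq
  eta_norm := hE.eta_norm
  eta_cont := hE.eta_cont
  haar := hctx.haar
  psi_char := ⟨hctx.char.1, hctx.char.2.1, hctx.char.2.2.1⟩
  cont := hR.cont
  integrable := hR.integrable

end Top

/-- **The top of the station**: `WX467.LocRepC` from the leaves. -/
theorem locRepC_of_leaves54 (L : Leaves) : WX467.LocRepC := by
  intro K _ _ v t n ψv hd hψ
  obtain ⟨μ, hμ⟩ := L.haar K v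
  have hd' : (algebraMap K (v.adicCompletion K) t) ^ 2
      - 4 * (algebraMap K (v.adicCompletion K) n) ≠ 0 := by
    intro h
    apply hd
    have hinj : Function.Injective (algebraMap K (v.adicCompletion K)) :=
      (algebraMap K (v.adicCompletion K)).injective
    apply hinj
    rw [map_sub, map_pow, map_mul, map_ofNat, map_zero]
    exact h
  have hctx : Ctx (algebraMap K (v.adicCompletion K) t) (algebraMap K (v.adicCompletion K) n)
      ψv μ := ⟨hd', hψ, hμ⟩
  obtain ⟨c, hc, hinv⟩ := L.inv K v _ _ ψv μ hctx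
  obtain ⟨G, hG⟩ := L.gauss K v _ _ ψv μ hctx
  have hsb := L.ftSb K v _ _ ψv μ hctx
  have hcov := L.cov K v μ hμ
  have hF : FourierCert (algebraMap K (v.adicCompletion K) t)
      (algebraMap K (v.adicCompletion K) n) ψv μ c G := ⟨hc, hsb, hinv, hcov, hG⟩
  obtain ⟨γ, η, hE⟩ := L.eta K v _ _ ψv μ c G hctx hF
    (L.gaussNorm K v _ _ ψv μ c G hctx hF) (L.gaussProd K v _ _ ψv μ c G hctx hF)
    (L.gaussSum K v _ _ ψv μ c G hctx hF) (L.normIndex K v _ _ hd')
    (L.nonNormSum K v _ _ hd') (L.sqOpen K v)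
  have hB := L.borelOp K v _ _ ψv μ c G γ η hctx hE
  have hW := L.weylOp K v _ _ ψv μ c G γ η hctx hF hE
  have hS := L.ropSb K v _ _ ψv μ γ η hctx hsb
  refine ⟨μ, γ, η, fun Φ hlc hcs => ?_⟩
  have hΦ : IsSB Φ := ⟨hlc, hcs⟩
  have hR := L.axReg K v _ _ ψv μ γ η hctx hS Φ hΦ
  refine ⟨Fof _ _ ψv μ γ η Φ, ?_, hR.sb, fof_one_one54 _ _ ψv μ γ η hB Φ hΦ⟩
  exact locAx_of_parts54 _ _ ψv μ c G γ η hctx hE _
    (L.axUnip K v _ _ ψv μ γ η hctx hB Φ hΦ)
    (L.axWeyl K v _ _ ψv μ c G γ η hctx hcov hE hB hW hS Φ hΦ)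
    (L.axDiag K v _ _ ψv μ γ η hctx hB Φ hΦ)
    (L.axTor K v _ _ ψv μ γ η Φ) hR

end Fermat.Agent.LT.A2.LF54

end

end
-- ===== PACK-END LT/A2/H54/LocFinSpec.lean

-- ===== PACK-BEGIN LT/A2/H293/Chain.lean
section



/-!
# Row LT, tower A2, leaf A2.03.1.1.09 `LocBadOfRepC` (helper293) -- part 2: the algebraic core

OFF-MAIN.  Pure algebra with the local axioms `WX467.LocAx` over any field `k`:

* `chain293`: for `A = [[p, q], [r, s]] ∈ SL₂(k)`, `p ≠ 0`, written as
  `A = t(-1) w n(-r/p) w t(p) n(q/p)`, the function `F A 1` is the initial vector `F 1 1` as soon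
  as the three multipliers act trivially (`ψ(q/p · Q) = 1` on the support of `F 1 1`,
  `η(p) |p| Φ(p ξ) = Φ(ξ)`, `ψ(r/p · Q) = 1` on the support of `F w 1`);
* `rightInv293`: right invariance under a pair `(k₀, κ)` from `LocUniqC`, the axiom `tor` and
  `F (d(δ)⁻¹ k₀) 1 = F 1 1`, `F 1 1 ∘ κ⁻¹ = F 1 1`.
-/

set_option autoImplicit false

open MeasureTheory

noncomputable section

namespace Fermat.Agent.LT.A2.H293

open Fermat.Agent.LT.A2 Fermat.Agent.LT.A2.WX467

variable {k : Type} [Field k]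

theorem torMat_one_zero293 (t n : k) : torMat t n 1 0 = 1 := by
  unfold torMat
  ext i j
  fin_cases i <;> fin_cases j <;> simp

theorem inTorL_one293 (t n : k) : InTorL t n (1 : Matrix (Fin 2) (Fin 2) k) :=
  ⟨1, 0, (torMat_one_zero293 t n).symm⟩

theorem admL_one293 (t n : k) {g : Matrix (Fin 2) (Fin 2) k} (hg : g.det = 1) :
    AdmL t n g 1 :=
  ⟨inTorL_one293 t n, by rw [hg, Matrix.det_one], by rw [Matrix.det_one]; exact one_ne_zero⟩

theorem torMat_mul293 (t n a b a' b' : k) :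
    torMat t n a b * torMat t n a' b'
      = torMat t n (a * a' - n * b * b') (a * b' + b * a' + t * b * b') := by
  unfold torMat
  ext i j
  fin_cases i <;> fin_cases j <;> simp [Matrix.mul_apply, Fin.sum_univ_two] <;> ring

theorem inTorL_mul293 {t n : k} {κ κ' : Matrix (Fin 2) (Fin 2) k} (h : InTorL t n κ)
    (h' : InTorL t n κ') : InTorL t n (κ * κ') := by
  obtain ⟨a, b, rfl⟩ := h
  obtain ⟨a', b', rfl⟩ := h'
  exact ⟨_, _, torMat_mul293 t n a b a' b'⟩

theorem det_torMat293 (t n a b : k) : (torMat t n a b).det = a ^ 2 + t * a * b + n * b ^ 2 := by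
  unfold torMat
  rw [Matrix.det_fin_two_of]
  ring

theorem actL_torMat293 (t n a b : k) (ξ : k × k) :
    actL (torMat t n a b) ξ = (a * ξ.1 - n * b * ξ.2, a * ξ.2 + b * ξ.1 + t * b * ξ.2) := by
  unfold actL torMat
  refine Prod.ext ?_ ?_
  · simp; ring
  · simp; ring

theorem actL_mul293 (A B : Matrix (Fin 2) (Fin 2) k) (ξ : k × k) :
    actL (A * B) ξ = actL A (actL B ξ) := by
  unfold actL
  refine Prod.ext ?_ ?_
  · simp [Matrix.mul_apply, Fin.sum_univ_two]; ring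
  · simp [Matrix.mul_apply, Fin.sum_univ_two]; ring

theorem actL_one293 (ξ : k × k) : actL (1 : Matrix (Fin 2) (Fin 2) k) ξ = ξ := by
  unfold actL
  refine Prod.ext ?_ ?_
  · simp
  · simp

/-- The matrix identity behind the chain: `[[p, q], [r, s]] = t(-1) w n(-r/p) w t(p) n(q/p)`. -/
theorem chain_matrix293 {p q r s : k} (hp : p ≠ 0) (hdet : p * s - q * r = 1) :
    (!![(-1 : k), 0; 0, (-1 : k)⁻¹] * (!![0, 1; -1, 0] * (!![1, -(r / p); 0, 1] *
      (!![0, 1; -1, 0] * (!![p, 0; 0, p⁻¹] * (!![1, q / p; 0, 1] * 1))))))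
      = !![p, q; r, s] := by
  have hs : s = (1 + q * r) / p := by
    field_simp
    linear_combination hdet
  ext i j
  fin_cases i <;> fin_cases j <;>
    simp [Matrix.mul_apply, Fin.sum_univ_two, inv_neg] <;> field_simp <;>
    first
      | done
      | (rw [hs]; field_simp; try ring)
      | ring

theorem weyl_sq_matrix293 :
    (!![(-1 : k), 0; 0, (-1 : k)⁻¹] * (!![0, 1; -1, 0] * (!![0, 1; -1, 0] * 1)))
      = (1 : Matrix (Fin 2) (Fin 2) k) := by
  ext i j
  fin_cases i <;> fin_cases j <;> simp [Matrix.mul_apply, Fin.sum_univ_two, inv_neg]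

variable [TopologicalSpace k]

/-- **The chain.** -/
theorem chain293 {absv : k → ℝ} {t n : k} {ψ : k → ℂ} {μ : @Measure k (borel k)} {γ : ℂ}
    {η : k → ℂ} {F : Matrix (Fin 2) (Fin 2) k → Matrix (Fin 2) (Fin 2) k → k × k → ℂ}
    (hax : LocAx absv t n ψ μ γ η F) {p q r s : k} (hp : p ≠ 0) (hdet : p * s - q * r = 1)
    (h1 : ∀ ξ : k × k, ψ (q / p * qfL t n ξ) * F 1 1 ξ = F 1 1 ξ)
    (h2 : ∀ ξ : k × k, η p * ((absv p : ℝ) : ℂ) * F 1 1 (p • ξ) = F 1 1 ξ)
    (h3 : ∀ ξ : k × k, ψ (-(r / p) * qfL t n ξ) * F (!![0, 1; -1, 0] * 1) 1 ξ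
      = F (!![0, 1; -1, 0] * 1) 1 ξ) :
    F !![p, q; r, s] 1 = F 1 1 := by
  have hd1 : (1 : Matrix (Fin 2) (Fin 2) k).det = 1 := Matrix.det_one
  have dN : ∀ x : k, (!![1, x; 0, 1] : Matrix (Fin 2) (Fin 2) k).det = 1 := by
    intro x; rw [Matrix.det_fin_two_of]; ring
  have dW : (!![0, 1; -1, 0] : Matrix (Fin 2) (Fin 2) k).det = 1 := by
    rw [Matrix.det_fin_two_of]; ring
  have dT : ∀ a : k, a ≠ 0 → (!![a, 0; 0, a⁻¹] : Matrix (Fin 2) (Fin 2) k).det = 1 := by
    intro a ha; rw [Matrix.det_fin_two_of]; field_simp; ring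
  have hm1 : (-1 : k) ≠ 0 := neg_ne_zero.mpr one_ne_zero
  -- the intermediate matrices
  set g1 : Matrix (Fin 2) (Fin 2) k := !![1, q / p; 0, 1] * 1 with hg1
  set g2 : Matrix (Fin 2) (Fin 2) k := !![p, 0; 0, p⁻¹] * g1 with hg2
  set g3 : Matrix (Fin 2) (Fin 2) k := !![0, 1; -1, 0] * g2 with hg3
  set g4 : Matrix (Fin 2) (Fin 2) k := !![1, -(r / p); 0, 1] * g3 with hg4
  set g5 : Matrix (Fin 2) (Fin 2) k := !![0, 1; -1, 0] * g4 with hg5
  have a0 : AdmL t n (1 : Matrix (Fin 2) (Fin 2) k) 1 := admL_one293 t n hd1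
  have a1 : AdmL t n g1 1 := admL_one293 t n (by rw [hg1, Matrix.det_mul, dN, hd1, mul_one])
  have a2 : AdmL t n g2 1 := admL_one293 t n (by rw [hg2, Matrix.det_mul, dT p hp, a1.2.1, hd1, mul_one])
  have a3 : AdmL t n g3 1 := admL_one293 t n (by rw [hg3, Matrix.det_mul, dW, a2.2.1, hd1, mul_one])
  have a4 : AdmL t n g4 1 := admL_one293 t n (by rw [hg4, Matrix.det_mul, dN, a3.2.1, hd1, mul_one])
  have a5 : AdmL t n g5 1 := admL_one293 t n (by rw [hg5, Matrix.det_mul, dW, a4.2.1, hd1, mul_one])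
  have aW : AdmL t n ((!![0, 1; -1, 0] : Matrix (Fin 2) (Fin 2) k) * 1) 1 :=
    admL_one293 t n (by rw [Matrix.det_mul, dW, hd1, mul_one])
  have aWW : AdmL t n ((!![0, 1; -1, 0] : Matrix (Fin 2) (Fin 2) k) * (!![0, 1; -1, 0] * 1)) 1 :=
    admL_one293 t n (by rw [Matrix.det_mul, Matrix.det_mul, dW, hd1, mul_one, mul_one])
  have e1 : F g1 1 = F 1 1 := by
    funext ξ
    rw [hg1, hax.unip (q / p) 1 1 ξ a0]
    exact h1 ξ
  have e2 : F g2 1 = F 1 1 := by
    funext ξ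
    rw [hg2, hax.diag p hp g1 1 ξ a1, e1]
    exact h2 ξ
  have e3 : F g3 1 = F (!![0, 1; -1, 0] * 1) 1 := by
    funext ξ
    rw [hg3, hax.weyl g2 1 ξ a2, hax.weyl 1 1 ξ a0, e2]
  have e4 : F g4 1 = F (!![0, 1; -1, 0] * 1) 1 := by
    funext ξ
    rw [hg4, hax.unip (-(r / p)) g3 1 ξ a3, e3]
    exact h3 ξ
  have e5 : F g5 1 = F (!![0, 1; -1, 0] * (!![0, 1; -1, 0] * 1)) 1 := by
    funext ξ
    rw [hg5, hax.weyl g4 1 ξ a4, hax.weyl _ 1 ξ aW, e4]
  have e6 : F (!![(-1 : k), 0; 0, (-1 : k)⁻¹] * g5) 1 = F 1 1 := by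
    funext ξ
    rw [hax.diag (-1) hm1 g5 1 ξ a5, e5, ← hax.diag (-1) hm1 _ 1 ξ aWW, weyl_sq_matrix293]
  rw [← chain_matrix293 hp hdet]
  exact e6

/-- **Right invariance from uniqueness.** -/
theorem rightInv293 (huniq : LocUniqC) {absv : k → ℝ} {t n : k} {ψ : k → ℂ}
    {μ : @Measure k (borel k)} {γ : ℂ} {η : k → ℂ}
    {F : Matrix (Fin 2) (Fin 2) k → Matrix (Fin 2) (Fin 2) k → k × k → ℂ}
    (hpos : ∀ a : k, a ≠ 0 → 0 < absv a)
    (hax : LocAx absv t n ψ μ γ η F) {k₀ κ : Matrix (Fin 2) (Fin 2) k}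
    (hκ : InTorL t n κ) (hdet : k₀.det = κ.det) (hne : κ.det ≠ 0) (habs : absv κ.det = 1)
    (hA : F !![k₀ 0 0, k₀ 0 1; κ.det⁻¹ * k₀ 1 0, κ.det⁻¹ * k₀ 1 1] 1 = F 1 1)
    (hΦ : ∀ ξ : k × k, F 1 1 (actL κ⁻¹ ξ) = F 1 1 ξ) :
    ∀ (g m : Matrix (Fin 2) (Fin 2) k) (ξ : k × k), AdmL t n g m →
      F (g * k₀) (m * κ) ξ = F g m ξ := by
  have hadm : ∀ g m : Matrix (Fin 2) (Fin 2) k, AdmL t n g m → AdmL t n (g * k₀) (m * κ) := by
    intro g m h
    refine ⟨inTorL_mul293 h.1 hκ, ?_, ?_⟩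
    · rw [Matrix.det_mul, Matrix.det_mul, h.2.1, hdet]
    · rw [Matrix.det_mul]
      exact mul_ne_zero h.2.2 hne
  have hax' : LocAx absv t n ψ μ γ η (fun g m => F (g * k₀) (m * κ)) :=
    { unip := fun x g m ξ h => by
        have := hax.unip x (g * k₀) (m * κ) ξ (hadm g m h)
        rw [← Matrix.mul_assoc] at this
        exact this
      weyl := fun g m ξ h => by
        have := hax.weyl (g * k₀) (m * κ) ξ (hadm g m h)
        rw [← Matrix.mul_assoc] at this
        exact this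
      diag := fun a ha g m ξ h => by
        have := hax.diag a ha (g * k₀) (m * κ) ξ (hadm g m h)
        rw [← Matrix.mul_assoc] at this
        exact this
      tor := fun μ' hμ' hd g m ξ h => by
        have := hax.tor μ' hμ' hd (g * k₀) (m * κ) ξ (hadm g m h)
        rw [← Matrix.mul_assoc, ← Matrix.mul_assoc] at this
        exact this
      eta_mul := hax.eta_mul
      eta_sq := hax.eta_sq
      eta_norm := hax.eta_norm
      eta_cont := hax.eta_cont
      haar := hax.haar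
      psi_char := hax.psi_char
      cont := fun g m h => hax.cont _ _ (hadm g m h)
      integrable := fun g m h => hax.integrable _ _ (hadm g m h) }
  -- the initial vector of the translated family
  have hdA : (!![k₀ 0 0, k₀ 0 1; κ.det⁻¹ * k₀ 1 0, κ.det⁻¹ * k₀ 1 1] :
      Matrix (Fin 2) (Fin 2) k).det = 1 := by
    rw [Matrix.det_fin_two_of]
    have h0 : k₀.det = k₀ 0 0 * k₀ 1 1 - k₀ 0 1 * k₀ 1 0 := Matrix.det_fin_two k₀
    have : k₀ 0 0 * (κ.det⁻¹ * k₀ 1 1) - k₀ 0 1 * (κ.det⁻¹ * k₀ 1 0)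
        = κ.det⁻¹ * (k₀ 0 0 * k₀ 1 1 - k₀ 0 1 * k₀ 1 0) := by ring
    rw [this, ← h0, hdet, inv_mul_cancel₀ hne]
  have hk₀ : !![1, 0; 0, κ.det] * !![k₀ 0 0, k₀ 0 1; κ.det⁻¹ * k₀ 1 0, κ.det⁻¹ * k₀ 1 1]
      = k₀ := by
    ext i j
    fin_cases i <;> fin_cases j <;> simp [Matrix.mul_apply, Fin.sum_univ_two, hne]
  have h11 : F (1 * k₀) (1 * κ) = F 1 1 := by
    funext ξ
    have h := hax.tor κ hκ hne _ 1 ξ (admL_one293 t n hdA)
    rw [hk₀, habs, Real.sqrt_one, Complex.ofReal_one, one_mul, hA, hΦ] at h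
    rw [Matrix.one_mul, Matrix.one_mul]
    rw [Matrix.mul_one] at h
    exact h
  intro g m ξ h
  have := huniq k absv t n ψ μ γ η F (fun g m => F (g * k₀) (m * κ)) hpos hax hax' h11.symm g m h
  exact (congrFun this ξ).symm

end Fermat.Agent.LT.A2.H293

end

end
-- ===== PACK-END LT/A2/H293/Chain.lean

-- ===== PACK-BEGIN LT/A2/H488/FormBasic.lean
section



/-!
# Row LT, tower A2, leaf A2.03.8.5.4 `H254.FormC254` (helper488): basic lemmas

OFF-MAIN.  Imports = byte-identical copies of `LT/A2/H254/RecSplitSpec.lean` (helper254@51dfc4e4e,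
sha256 947dfa59) and `LT/A2/H142/HeckeBasic.lean` (helper142@8080e2c63, sha256 e5f69b2f).
Complete proofs, nothing assumed.

* `diagSL488 a = diag(a, a⁻¹)`, `diagOne488 a = diag(1, a)` for an idele `a`;
* components of the determinant idele of an element supported at `v`;
* `adNorm` of an idele supported at `v`;
* `actV` is an action, linear in the vector.
-/

set_option autoImplicit false

open IsDedekindDomain NumberField AutomorphicForm MeasureTheory
open scoped MatrixGroups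

noncomputable section

namespace Fermat.Agent.LT.A2.H488

open Fermat.Agent.LT.H556 Fermat.Agent.LT.H556.A0 Fermat.Agent.LT.H129
open Fermat.Agent.LT.A2.H142 Fermat.Agent.LT.A2.H254 Fermat.Agent.LT.A2.WL

variable {K : Type} [Field K] [NumberField K]

/-! ## Diagonal elements attached to an idele -/

/-- `t(a) = diag(a, a⁻¹)`. -/
def diagSL488 (a : (Adl K)ˣ) : G K where
  val := !![(a : Adl K), 0; 0, ((a⁻¹ : (Adl K)ˣ) : Adl K)]
  inv := !![((a⁻¹ : (Adl K)ˣ) : Adl K), 0; 0, (a : Adl K)]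
  val_inv := by
    rw [Matrix.mul_fin_two, Matrix.one_fin_two]
    simp
  inv_val := by
    rw [Matrix.mul_fin_two, Matrix.one_fin_two]
    simp

/-- `d(a) = diag(1, a)`. -/
def diagOne488 (a : (Adl K)ˣ) : G K where
  val := !![1, 0; 0, (a : Adl K)]
  inv := !![1, 0; 0, ((a⁻¹ : (Adl K)ˣ) : Adl K)]
  val_inv := by
    rw [Matrix.mul_fin_two, Matrix.one_fin_two]
    simp
  inv_val := by
    rw [Matrix.mul_fin_two, Matrix.one_fin_two]
    simp

theorem coe_diagSL488 (a : (Adl K)ˣ) :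
    ((diagSL488 a : G K) : Matrix (Fin 2) (Fin 2) (Adl K))
      = !![(a : Adl K), 0; 0, ((a⁻¹ : (Adl K)ˣ) : Adl K)] := rfl

theorem coe_diagOne488 (a : (Adl K)ˣ) :
    ((diagOne488 a : G K) : Matrix (Fin 2) (Fin 2) (Adl K)) = !![1, 0; 0, (a : Adl K)] := rfl

theorem isDiagSLA_diagSL488 (a : (Adl K)ˣ) : IsDiagSLA (diagSL488 a) a := rfl

theorem isDiagOneA_diagOne488 (a : (Adl K)ˣ) : IsDiagOneA (diagOne488 a) a := rfl

theorem det_diagSL488 (a : (Adl K)ˣ) : Matrix.GeneralLinearGroup.det (diagSL488 a) = 1 := by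
  apply Units.ext
  rw [Matrix.GeneralLinearGroup.val_det_apply, coe_diagSL488, Matrix.det_fin_two_of]
  simp

theorem det_diagOne488 (a : (Adl K)ˣ) : Matrix.GeneralLinearGroup.det (diagOne488 a) = a := by
  apply Units.ext
  rw [Matrix.GeneralLinearGroup.val_det_apply, coe_diagOne488, Matrix.det_fin_two_of]
  simp

theorem coe_diagSL_mul_diagOne488 (a : (Adl K)ˣ) :
    ((diagSL488 a * diagOne488 a : G K) : Matrix (Fin 2) (Fin 2) (Adl K))
      = !![(a : Adl K), 0; 0, 1] := by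
  rw [Matrix.GeneralLinearGroup.coe_mul, coe_diagSL488, coe_diagOne488, Matrix.mul_fin_two]
  simp

/-! ## The determinant idele of an element supported at `v` -/

theorem evI_det488 (w : InfinitePlace K) (g : G K) :
    ((Matrix.GeneralLinearGroup.det g : (Adl K)ˣ) : Adl K).1 w
      = ((g : Matrix (Fin 2) (Fin 2) (Adl K)).map (evI129 w)).det := by
  have h := RingHom.map_det (evI129 w) (g : Matrix (Fin 2) (Fin 2) (Adl K))
  rw [RingHom.mapMatrix_apply] at h
  rw [← h, Matrix.GeneralLinearGroup.val_det_apply]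
  rfl

theorem evF_det488 (v : HeightOneSpectrum (𝓞 K)) (g : G K) :
    ((Matrix.GeneralLinearGroup.det g : (Adl K)ˣ) : Adl K).2 v = (finComp v g).det := by
  have h := RingHom.map_det (evF129 v) (g : Matrix (Fin 2) (Fin 2) (Adl K))
  rw [RingHom.mapMatrix_apply] at h
  rw [← coe_finCompHom129, coe_finCompHom129_map, ← h, Matrix.GeneralLinearGroup.val_det_apply]
  rfl

theorem map_evI_of_local488 {v : HeightOneSpectrum (𝓞 K)} {g : G K} (hg : IsLocalAtFin v g)
    (w : InfinitePlace K) : (g : Matrix (Fin 2) (Fin 2) (Adl K)).map (evI129 w) = 1 := by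
  have h := (isLocalAtFin_iff129 v g).1 hg
  have h1 := h.1 w
  rw [← coe_infCompHom129_map, h1]
  rfl

theorem map_evF_of_local488 {v : HeightOneSpectrum (𝓞 K)} {g : G K} (hg : IsLocalAtFin v g)
    {v' : HeightOneSpectrum (𝓞 K)} (hv : v' ≠ v) :
    (g : Matrix (Fin 2) (Fin 2) (Adl K)).map (evF129 v') = 1 := by
  have h := (isLocalAtFin_iff129 v g).1 hg
  have h1 := h.2 v' hv
  rw [← coe_finCompHom129_map, h1]
  rfl

theorem map_evF_same488 (v : HeightOneSpectrum (𝓞 K)) (g : G K) :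
    (g : Matrix (Fin 2) (Fin 2) (Adl K)).map (evF129 v) = finComp v g := rfl

theorem det_inf_of_local488 {v : HeightOneSpectrum (𝓞 K)} {g : G K} (hg : IsLocalAtFin v g)
    (w : InfinitePlace K) :
    ((Matrix.GeneralLinearGroup.det g : (Adl K)ˣ) : Adl K).1 w = 1 := by
  rw [evI_det488, map_evI_of_local488 hg, Matrix.det_one]

theorem det_fin_of_local488 {v : HeightOneSpectrum (𝓞 K)} {g : G K} (hg : IsLocalAtFin v g)
    {v' : HeightOneSpectrum (𝓞 K)} (hv : v' ≠ v) :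
    ((Matrix.GeneralLinearGroup.det g : (Adl K)ˣ) : Adl K).2 v' = 1 := by
  rw [evF_det488]
  have := map_evF_of_local488 hg hv
  rw [map_evF_same488] at this
  rw [this, Matrix.det_one]

theorem isLocalAtFin_pow488 {v : HeightOneSpectrum (𝓞 K)} {g : G K} (hg : IsLocalAtFin v g)
    (j : ℕ) : IsLocalAtFin v (g ^ j) := by
  induction j with
  | zero => rw [pow_zero]; exact isLocalAtFin_one129 v
  | succ j ih => rw [pow_succ]; exact isLocalAtFin_mul129 ih hg

theorem finComp_pow488 (v : HeightOneSpectrum (𝓞 K)) (g : G K) (j : ℕ) :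
    finComp v (g ^ j) = finComp v g ^ j := by
  rw [← coe_finCompHom129, map_pow, Units.val_pow_eq_pow_val, coe_finCompHom129]

theorem finComp_mul488 (v : HeightOneSpectrum (𝓞 K)) (g h : G K) :
    finComp v (g * h) = finComp v g * finComp v h := by
  rw [← coe_finCompHom129, map_mul, Units.val_mul, coe_finCompHom129, coe_finCompHom129]

/-! ## The torus -/

theorem inTorus_pow488 {t n : K} {m : G K} (hm : InTorus t n m) (j : ℕ) :
    InTorus t n (m ^ j) := by
  induction j with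
  | zero => rw [pow_zero]; exact inTorus_one142 t n
  | succ j ih => rw [pow_succ]; exact inTorus_mul142 ih hm

theorem chi_pow488 {t n : K} {χT : G K → ℂ} (hχ : IsTorusChar t n χT) {m : G K}
    (hm : InTorus t n m) (j : ℕ) : χT (m ^ j) = χT m ^ j := by
  induction j with
  | zero => rw [pow_zero, pow_zero]; exact hχ.one
  | succ j ih => rw [pow_succ, pow_succ, hχ.mul _ _ (inTorus_pow488 hm j) hm, ih]

/-! ## The action on vectors -/

theorem actV_mul488 (m m' : G K) (ξ : Adl K × Adl K) :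
    actV (m * m') ξ = actV m (actV m' ξ) := by
  unfold actV
  rw [Matrix.GeneralLinearGroup.coe_mul]
  simp only [Matrix.mul_apply, Fin.sum_univ_two]
  ext <;> ring

theorem actV_one488 (ξ : Adl K × Adl K) : actV (1 : G K) ξ = ξ := by
  unfold actV
  simp

theorem actV_inv_mul488 (m : G K) (ξ : Adl K × Adl K) : actV m⁻¹ (actV m ξ) = ξ := by
  rw [← actV_mul488, inv_mul_cancel, actV_one488]

/-- A scalar matrix acts by the scalar. -/
theorem actV_of_scalar488 {z : G K} {c : Adl K}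
    (hz : (z : Matrix (Fin 2) (Fin 2) (Adl K)) = Matrix.diagonal (fun _ => c))
    (ξ : Adl K × Adl K) : actV z ξ = c • ξ := by
  unfold actV
  rw [hz]
  ext <;> simp

end Fermat.Agent.LT.A2.H488

end

end
-- ===== PACK-END LT/A2/H488/FormBasic.lean

-- ===== PACK-BEGIN LT/A2/H751/TorusMeas.lean
section





/-!
# Row LT, tower A2, pre-leaf TORUS-MEAS (helper751): the torus fields of `KData.IsMeasured`

OFF-MAIN.  `torusMeas751`: for `X² - tX + n` without root in `K`, from `T1.LocCompC`,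
`T1.DiscreteC` and `T1.EllipticCompactC` there are a measure `μT` on `GL₂(𝔸_K)` and a set `DT`
with the eight torus fields of `KData.IsMeasured` (helper950, `LT/A2/Kernel.lean`), VERBATIM:

* `μT` = image of a Haar measure of the closed subgroup `T¹(𝔸_K)`;
* `DT` = strict Borel fundamental domain of `T¹(K)` inside a compact set
  (`torus1_cocompact751` + helper558 `exists_strict_fundDom558`).

`covolOne751`: a Haar measure of `𝔸_K` of covolume one, from `T1.AddFundDomC`.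
`isMeasured_of751`: the two together give `KData.IsMeasured`.
-/

set_option autoImplicit false

open IsDedekindDomain NumberField MeasureTheory
open scoped Topology

noncomputable section

namespace Fermat.Agent.LT.A2.H751

open Fermat.Agent.LT.H556 Fermat.Agent.LT.A2 Fermat.Agent.LT.A2.H546
open Fermat.Agent.LT

variable {K : Type} [Field K] [NumberField K]

/-- **The eight torus fields of `KData.IsMeasured`** for the coordinates `t`, `n`. -/
structure TorusMeasured751 (t n : K) (μT : @Measure (A0.G K) (borel (A0.G K)))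
    (DT : Set (A0.G K)) : Prop where
  carried : μT {m | ¬ InTorus1 t n m} = 0
  inv : ∀ m' : A0.G K, InTorus1 t n m' → ∀ S : Set (A0.G K),
    μT ((fun m => m' * m) '' S) = μT S
  compact_lt : ∀ C : Set (A0.G K), IsCompact C → μT C < ⊤
  open_pos : ∀ U : Set (A0.G K), IsOpen U → (∃ m, m ∈ U ∧ InTorus1 t n m) → 0 < μT U
  dom_sub : ∀ m ∈ DT, InTorus1 t n m
  dom_meas : @MeasurableSet (A0.G K) (borel (A0.G K)) DT
  dom_compact : ∃ C : Set (A0.G K), IsCompact C ∧ DT ⊆ C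
  dom_fund : ∀ m : A0.G K, InTorus1 t n m →
    ∃! y : A0.G K, InTorusRat t n y ∧ InTorus1 t n y ∧ y * m ∈ DT

/-- The torus fields and a measure of covolume one give `KData.IsMeasured`. -/
theorem isMeasured_of751 (D : KData K) (h1 : IsCovolOne D.μ)
    (h2 : TorusMeasured751 D.t D.n D.μT D.DT) : D.IsMeasured :=
  ⟨h1, h2.carried, h2.inv, h2.compact_lt, h2.open_pos, h2.dom_sub, h2.dom_meas, h2.dom_compact,
    h2.dom_fund⟩

/-! ## The subgroups -/

/-- `T¹(𝔸_K)` as a subgroup of `GL₂(𝔸_K)`. -/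
def torus1Sub751 (t n : K) : Subgroup (A0.G K) where
  carrier := {m | InTorus1 t n m}
  mul_mem' := fun h h' => inTorus1_mul_h546 h h'
  one_mem' := inTorus1_one_h546 t n
  inv_mem' := fun h => inTorus1_inv_h546 h

/-- `T¹(K)` as a subgroup of `GL₂(𝔸_K)`. -/
def torus1Rat751 (t n : K) : Subgroup (A0.G K) where
  carrier := {y | InTorusRat t n y ∧ InTorus1 t n y}
  mul_mem' := fun h h' => ⟨inTorusRat_mul_h546 h.1 h'.1, inTorus1_mul_h546 h.2 h'.2⟩
  one_mem' := ⟨inTorusRat_one_h546 t n, inTorus1_one_h546 t n⟩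
  inv_mem' := fun h => ⟨inTorusRat_inv_h546 h.1 h.2.2, inTorus1_inv_h546 h.2⟩

theorem mem_torus1Sub751 (t n : K) (m : A0.G K) : m ∈ torus1Sub751 t n ↔ InTorus1 t n m :=
  Iff.rfl

theorem mem_torus1Rat751 (t n : K) (y : A0.G K) :
    y ∈ torus1Rat751 t n ↔ InTorusRat t n y ∧ InTorus1 t n y := Iff.rfl

/-- `InTorus` in entry form. -/
theorem inTorus_iff751 (t n : K) (m : A0.G K) : InTorus t n m ↔
    (m : Matrix (Fin 2) (Fin 2) (A0.Adl K)) 0 1
        = -(algebraMap K (A0.Adl K) n * (m : Matrix (Fin 2) (Fin 2) (A0.Adl K)) 1 0) ∧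
      (m : Matrix (Fin 2) (Fin 2) (A0.Adl K)) 1 1
        = (m : Matrix (Fin 2) (Fin 2) (A0.Adl K)) 0 0
          + algebraMap K (A0.Adl K) t * (m : Matrix (Fin 2) (Fin 2) (A0.Adl K)) 1 0 := by
  constructor
  · rintro ⟨a, b, h⟩
    rw [h]
    simp [torMat]
  · rintro ⟨h1, h2⟩
    refine ⟨(m : Matrix (Fin 2) (Fin 2) (A0.Adl K)) 0 0,
      (m : Matrix (Fin 2) (Fin 2) (A0.Adl K)) 1 0, ?_⟩
    unfold torMat
    ext i j
    fin_cases i <;> fin_cases j
    · simp
    · simpa using h1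
    · simp
    · simpa using h2

theorem isClosed_torus1_751 [T2Space (A0.Adl K)] (t n : K) :
    IsClosed {m : A0.G K | InTorus1 t n m} := by
  have hent : ∀ i j : Fin 2,
      Continuous fun m : A0.G K => (m : Matrix (Fin 2) (Fin 2) (A0.Adl K)) i j :=
    fun i j => Continuous.matrix_elem Units.continuous_val i j
  have hset : {m : A0.G K | InTorus1 t n m}
      = {m : A0.G K | (m : Matrix (Fin 2) (Fin 2) (A0.Adl K)) 0 1
            = -(algebraMap K (A0.Adl K) n * (m : Matrix (Fin 2) (Fin 2) (A0.Adl K)) 1 0)}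
        ∩ {m : A0.G K | (m : Matrix (Fin 2) (Fin 2) (A0.Adl K)) 1 1
            = (m : Matrix (Fin 2) (Fin 2) (A0.Adl K)) 0 0
              + algebraMap K (A0.Adl K) t * (m : Matrix (Fin 2) (Fin 2) (A0.Adl K)) 1 0}
        ∩ {m : A0.G K | (m : Matrix (Fin 2) (Fin 2) (A0.Adl K)).det = 1} := by
    ext m
    simp only [Set.mem_setOf_eq, Set.mem_inter_iff, InTorus1, inTorus_iff751]
    constructor
    · rintro ⟨⟨h1, h2⟩, h3⟩
      refine ⟨⟨h1, h2⟩, ?_⟩
      rw [← Matrix.GeneralLinearGroup.val_det_apply, h3]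
      rfl
    · rintro ⟨⟨h1, h2⟩, h3⟩
      refine ⟨⟨h1, h2⟩, ?_⟩
      apply Units.ext
      rw [Matrix.GeneralLinearGroup.val_det_apply, h3]
      rfl
  rw [hset]
  refine (IsClosed.inter ?_ ?_).inter ?_
  · exact isClosed_eq (hent 0 1) ((continuous_const.mul (hent 1 0)).neg)
  · exact isClosed_eq (hent 1 1) ((hent 0 0).add (continuous_const.mul (hent 1 0)))
  · exact isClosed_eq (Continuous.matrix_det Units.continuous_val) continuous_const


/-! ## The measure -/

section Measure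

/-- The image of a Haar measure of the closed subgroup `T¹(𝔸_K)`. -/
theorem torusHaar751 (t n : K) (hLC : T1.LocCompC K) :
    ∃ μT : @Measure (A0.G K) (borel (A0.G K)),
      μT {m | ¬ InTorus1 t n m} = 0 ∧
      (∀ m' : A0.G K, InTorus1 t n m' → ∀ S : Set (A0.G K),
        μT ((fun m => m' * m) '' S) = μT S) ∧
      (∀ C : Set (A0.G K), IsCompact C → μT C < ⊤) ∧
      (∀ U : Set (A0.G K), IsOpen U → (∃ m, m ∈ U ∧ InTorus1 t n m) → 0 < μT U) := by
  obtain ⟨⟨hlcA, ht2A, hscA⟩, hlcG, ht2G, hscG⟩ := hLC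
  letI : MeasurableSpace (A0.G K) := borel (A0.G K)
  haveI : BorelSpace (A0.G K) := ⟨rfl⟩
  have hcl : IsClosed ((torus1Sub751 t n : Subgroup (A0.G K)) : Set (A0.G K)) :=
    isClosed_torus1_751 t n
  haveI : LocallyCompactSpace (torus1Sub751 t n) := hcl.locallyCompactSpace
  set μH : Measure (torus1Sub751 t n) := Measure.haar with hμH
  have hemb : MeasurableEmbedding (Subtype.val : torus1Sub751 t n → A0.G K) :=
    MeasurableEmbedding.subtype_coe hcl.measurableSet
  refine ⟨Measure.map Subtype.val μH, ?_, ?_, ?_, ?_⟩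
  · rw [hemb.map_apply]
    have : (Subtype.val : torus1Sub751 t n → A0.G K) ⁻¹' {m | ¬ InTorus1 t n m} = ∅ := by
      ext ⟨m, hm⟩
      simp only [Set.mem_preimage, Set.mem_setOf_eq, Set.mem_empty_iff_false, iff_false,
        not_not]
      exact hm
    rw [this, measure_empty]
  · intro m' hm' S
    rw [hemb.map_apply, hemb.map_apply]
    have : (Subtype.val : torus1Sub751 t n → A0.G K) ⁻¹' ((fun m => m' * m) '' S)
        = (fun h : torus1Sub751 t n => (⟨m', hm'⟩ : torus1Sub751 t n)⁻¹ * h) ⁻¹'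
            (Subtype.val ⁻¹' S) := by
      ext ⟨h, hh⟩
      simp only [Set.mem_preimage, Set.mem_image]
      constructor
      · rintro ⟨s, hs, hsh⟩
        have e : s = m'⁻¹ * h := by rw [← hsh]; group
        rw [e] at hs
        exact hs
      · intro hs
        refine ⟨m'⁻¹ * h, hs, ?_⟩
        change m' * (m'⁻¹ * h) = h
        group
    rw [this, measure_preimage_mul]
  · intro C hC
    rw [hemb.map_apply]
    exact (hcl.isClosedEmbedding_subtypeVal.isCompact_preimage hC).measure_lt_top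
  · rintro U hU ⟨m, hmU, hm⟩
    rw [hemb.map_apply]
    exact (hU.preimage continuous_subtype_val).measure_pos μH ⟨⟨m, hm⟩, hmU⟩

end Measure

/-! ## The fundamental domain -/

section FundDom

theorem nontrivial_adl751 (K : Type) [Field K] [NumberField K] : Nontrivial (A0.Adl K) := by
  obtain ⟨w⟩ := (inferInstance : Nonempty (InfinitePlace K))
  refine ⟨⟨1, 0, fun h => ?_⟩⟩
  have := congrArg (prInf751 w) h
  rw [map_one, map_zero] at this
  exact one_ne_zero this

theorem countable_torus1Rat751 (t n : K) : Countable (torus1Rat751 t n) := by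
  classical
  haveI := countable_numberField751 K
  have hex : ∀ y : torus1Rat751 t n, ∃ p : K × K,
      ((y : A0.G K) : Matrix (Fin 2) (Fin 2) (A0.Adl K))
        = torMat (algebraMap K (A0.Adl K) t) (algebraMap K (A0.Adl K) n)
            (algebraMap K (A0.Adl K) p.1) (algebraMap K (A0.Adl K) p.2) := by
    rintro ⟨y, ⟨a, b, h⟩, -⟩
    exact ⟨(a, b), h⟩
  choose f hf using hex
  have hinj : Function.Injective f := by
    intro y y' h
    apply Subtype.ext
    apply Units.ext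
    rw [hf y, hf y', h]
  exact hinj.countable

theorem torus1Rat_le_gam751 (t n : K) : torus1Rat751 t n ≤ T1.Gam K := by
  rintro y ⟨⟨a, b, h⟩, -, hdet⟩
  haveI := nontrivial_adl751 K
  have hinj : Function.Injective (algebraMap K (A0.Adl K)) := (algebraMap K (A0.Adl K)).injective
  have hd1 : ((Matrix.GeneralLinearGroup.det y : (A0.Adl K)ˣ) : A0.Adl K) = 1 := by
    rw [hdet]; rfl
  rw [Matrix.GeneralLinearGroup.val_det_apply, h, torMat_det_h546] at hd1
  have hdK : (torMat t n a b).det = 1 := by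
    rw [torMat_det_h546]
    apply hinj
    rw [map_one, ← hd1]
    simp only [map_add, map_mul]
  refine ⟨Matrix.GeneralLinearGroup.mkOfDetNeZero (torMat t n a b)
    (by rw [hdK]; exact one_ne_zero), ?_⟩
  apply Units.ext
  rw [ratG_val751, h, ← torMat_map751]
  rfl

theorem discrete_torus1Rat751 (t n : K) (hD : T1.DiscreteC K) :
    DiscreteTopology (torus1Rat751 t n) := by
  haveI : DiscreteTopology (T1.Gam K) := hD.1
  exact DiscreteTopology.of_continuous_injective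
    (f := Subgroup.inclusion (torus1Rat_le_gam751 t n))
    (continuous_inclusion (torus1Rat_le_gam751 t n))
    (Subgroup.inclusion_injective (torus1Rat_le_gam751 t n))

/-- **TORUS-MEAS.**  The eight torus fields of `KData.IsMeasured`. -/
theorem torusMeas751 (t n : K) (hirr : ∀ x : K, x ^ 2 - t * x + n ≠ 0)
    (hLC : T1.LocCompC K) (hD : T1.DiscreteC K) (hE : T1.EllipticCompactC K) :
    ∃ (μT : @Measure (A0.G K) (borel (A0.G K))) (DT : Set (A0.G K)),
      TorusMeasured751 t n μT DT := by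
  obtain ⟨μT, h1, h2, h3, h4⟩ := torusHaar751 t n hLC
  obtain ⟨C, hC, hcov⟩ := torus1_cocompact751 t n hirr hE
  obtain ⟨⟨hlcA, ht2A, hscA⟩, hlcG, ht2G, hscG⟩ := hLC
  letI : MeasurableSpace (A0.G K) := borel (A0.G K)
  haveI : BorelSpace (A0.G K) := ⟨rfl⟩
  haveI := countable_torus1Rat751 t n
  haveI := discrete_torus1Rat751 t n hD
  have hX : MeasurableSet {m : A0.G K | InTorus1 t n m} := (isClosed_torus1_751 t n).measurableSet
  obtain ⟨F, hFm, hFsub, hFu⟩ := T1.H558.exists_strict_fundDom558 (torus1Rat751 t n)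
    {m : A0.G K | InTorus1 t n m} C hX hC.isClosed.measurableSet
    (fun γ g hg => inTorus1_mul_h546 γ.2.2 hg)
    (fun g hg => by
      obtain ⟨y, hy1, hy2, hy3⟩ := hcov g hg
      exact ⟨⟨y, hy1, hy2⟩, hy3⟩)
  refine ⟨μT, F, h1, h2, h3, h4, fun m hm => (hFsub hm).2, hFm,
    ⟨C, hC, fun m hm => (hFsub hm).1⟩, ?_⟩
  intro m hm
  obtain ⟨γ, hγ, hγu⟩ := hFu m hm
  refine ⟨(γ : A0.G K), ⟨γ.2.1, γ.2.2, hγ⟩, ?_⟩
  rintro y ⟨hy1, hy2, hy3⟩
  have := hγu ⟨y, hy1, hy2⟩ hy3
  exact congrArg Subtype.val this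

end FundDom


/-! ## The measure of covolume one on `𝔸_K` -/

section Covol

/-- **A Haar measure of `𝔸_K` of covolume one** (from `T1.LocCompC`, `T1.AddFundDomC`). -/
theorem covolOne751 (K : Type) [Field K] [NumberField K] (hLC : T1.LocCompC K)
    (hAF : T1.AddFundDomC K) :
    ∃ μ : @Measure (A0.Adl K) (borel (A0.Adl K)), IsCovolOne μ := by
  obtain ⟨⟨hlcA, ht2A, hscA⟩, -⟩ := hLC
  letI : MeasurableSpace (A0.Adl K) := borel (A0.Adl K)
  haveI : BorelSpace (A0.Adl K) := ⟨rfl⟩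
  haveI := countable_numberField751 K
  haveI : Countable (T1.princ K) := by
    have : Function.Surjective (fun x : K => (⟨algebraMap K (A0.Adl K) x, ⟨x, rfl⟩⟩ : T1.princ K)) := by
      rintro ⟨y, x, rfl⟩
      exact ⟨x, rfl⟩
    exact this.countable
  set μ₀ : Measure (A0.Adl K) := Measure.addHaar with hμ₀
  obtain ⟨D₀, hD₀m, hD₀f, -, hpos, hfin⟩ := hAF μ₀ inferInstance
  have hc0 : (μ₀ D₀)⁻¹ ≠ 0 := ENNReal.inv_ne_zero.mpr hfin.ne
  have hct : (μ₀ D₀)⁻¹ ≠ ⊤ := ENNReal.inv_ne_top.mpr hpos.ne'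
  haveI hH : ((μ₀ D₀)⁻¹ • μ₀).IsAddHaarMeasure := Measure.IsAddHaarMeasure.smul μ₀ hc0 hct
  refine ⟨(μ₀ D₀)⁻¹ • μ₀, hH, ?_⟩
  intro S hS
  have hD₀' : IsAddFundamentalDomain (T1.princ K) D₀ ((μ₀ D₀)⁻¹ • μ₀) :=
    hD₀f.mono (Measure.AbsolutelyContinuous.smul_left (Measure.AbsolutelyContinuous.refl _) _)
  have hS' : IsAddFundamentalDomain (T1.princ K) S ((μ₀ D₀)⁻¹ • μ₀) := hS
  rw [hS'.measure_eq hD₀', Measure.smul_apply, smul_eq_mul, ENNReal.inv_mul_cancel hpos.ne' hfin.ne]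

end Covol


/-! ## Packaged forms -/

section Pack

/-- Both measures from the output of tower T1. -/
theorem exists_measured751 (t n : K) (hirr : ∀ x : K, x ^ 2 - t * x + n ≠ 0)
    (hT1 : T1.T1Out K) :
    ∃ (μ : @Measure (A0.Adl K) (borel (A0.Adl K))) (μT : @Measure (A0.G K) (borel (A0.G K)))
      (DT : Set (A0.G K)), IsCovolOne μ ∧ TorusMeasured751 t n μT DT := by
  obtain ⟨μ, hμ⟩ := covolOne751 K hT1.locComp hT1.addFundDom
  obtain ⟨μT, DT, h⟩ := torusMeas751 t n hirr hT1.locComp hT1.discrete hT1.ellipticCompact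
  exact ⟨μ, μT, DT, hμ, h⟩

/-- **`KData.IsMeasured` can always be arranged**: for any torus character, additive character,
Weil family and eigensystem there are measures and a fundamental domain making the data
measured. -/
theorem exists_isMeasured751 (t n : K) (hirr : ∀ x : K, x ^ 2 - t * x + n ≠ 0)
    (hT1 : T1.T1Out K) (χT : A0.G K → ℂ) (ψ : A0.Adl K → ℂ)
    (F : A0.G K → A0.G K → A0.Adl K × A0.Adl K → ℂ) (π : AutomorphicForm.HeckeEigensystem K ℂ) :
    ∃ D : KData K, D.t = t ∧ D.n = n ∧ D.χT = χT ∧ D.ψ = ψ ∧ D.F = F ∧ D.π = π ∧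
      D.IsMeasured := by
  obtain ⟨μ, μT, DT, hμ, h⟩ := exists_measured751 t n hirr hT1
  exact ⟨⟨t, n, χT, ψ, μ, μT, DT, F, π⟩, rfl, rfl, rfl, rfl, rfl, rfl,
    isMeasured_of751 _ hμ h⟩

end Pack

end Fermat.Agent.LT.A2.H751

end

end
-- ===== PACK-END LT/A2/H751/TorusMeas.lean

-- ===== PACK-BEGIN LT/A2/H753/RegTop.lean
section


/-!
# Row LT, tower A2, leaf A2.03.1.3 `WX467.RegC` -- the PROVED top (helper753)

    regC_of_leaves753 : DictC → ContProdC → SuppProdC → LatticeC → StdAAC → LocConstC →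
      ArchBoundC → ArchContC → FinCoverC → WX467.RegC
-/

set_option autoImplicit false

open IsDedekindDomain NumberField AutomorphicForm MeasureTheory
open scoped MatrixGroups Topology

noncomputable section

namespace Fermat.Agent.LT.A2.H753

open Fermat.Agent.LT.H130 Fermat.Agent.LT.H556 Fermat.Agent.LT.A2 Fermat.Agent.LT.A2.WX467

variable {K : Type} [Field K] [NumberField K]

/-- The product family is the product of its infinite part and of its finite part. -/
theorem F_eq753 (L : WData K) (g m : A0.G K) (ξ : A0.Adl K × A0.Adl K) :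
    L.toKData.F g m ξ = archPart L g m ξ * finPart L g m ξ := rfl

/-- The finite part only depends on the finite local functions. -/
theorem finPart_congr753 (L : WData K) {g m g' m' : A0.G K}
    (h : ∀ v : HeightOneSpectrum (𝓞 K),
      L.Ffin v (A0.finComp v g') (A0.finComp v m') = L.Ffin v (A0.finComp v g) (A0.finComp v m))
    (ξ : A0.Adl K × A0.Adl K) : finPart L g' m' ξ = finPart L g m ξ := by
  unfold finPart
  exact finprod_congr fun v => by rw [h v]

/-- Uniform support and bound of the finite part on a compact set of pairs. -/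
theorem uniform_fin753 (hDict : DictC) (hSupp : SuppProdC) (hStd : StdAAC) (hLoc : LocConstC)
    (hFC : FinCoverC) (L : WData K) (hgood : L.IsGood)
    (C : Set (A0.G K × A0.G K)) (hC : IsCompact C) :
    ∃ (B : Set (FiniteAdeleRing (𝓞 K) K × FiniteAdeleRing (𝓞 K) K)) (M : ℝ),
      IsCompact B ∧ 0 ≤ M ∧ ∀ p : A0.G K × A0.G K, p ∈ C → Adm L.t L.n p.1 p.2 →
        ∀ ξ : A0.Adl K × A0.Adl K,
          (finPt ξ ∉ B → finPart L p.1 p.2 ξ = 0) ∧ ‖finPart L p.1 p.2 ξ‖ ≤ M := by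
  obtain ⟨U, hU, hUc⟩ := hLoc hDict K L hgood
  obtain ⟨Q, hQP, hQ⟩ := hFC (A0.G K × A0.G K) C {p | Adm L.t L.n p.1 p.2} U hC hU
  have hq : ∀ q ∈ Q, ∃ (B : Set (FiniteAdeleRing (𝓞 K) K × FiniteAdeleRing (𝓞 K) K)) (M : ℝ),
      IsCompact B ∧ 0 ≤ M ∧ ∀ ξ : A0.Adl K × A0.Adl K,
        (finPt ξ ∉ B → finPart L q.1 q.2 ξ = 0) ∧ ‖finPart L q.1 q.2 ξ‖ ≤ M := by
    intro q hqQ
    have hadm : Adm L.t L.n q.1 q.2 := hQP q hqQ
    have hloc := (hDict K L q.1 q.2 hadm).1
    exact hSupp K (fun v => L.Ffin v (A0.finComp v q.1) (A0.finComp v q.2))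
      (fun v => ⟨(hgood.fin v).ax.cont _ _ (hloc v), ((hgood.fin v).sb _ _ (hloc v)).2⟩)
      (hStd hDict K L hgood q.1 q.2 hadm)
  choose! Bq Mq hBq using hq
  refine ⟨⋃ q ∈ Q, Bq q, ∑ q ∈ Q, Mq q, Q.isCompact_biUnion fun q hqQ => (hBq q hqQ).1,
    Finset.sum_nonneg fun q hqQ => (hBq q hqQ).2.1, ?_⟩
  intro p hp hadm ξ
  obtain ⟨q, hqQ, hqU⟩ := hQ p hp hadm
  have hfin : finPart L p.1 p.2 ξ = finPart L q.1 q.2 ξ :=
    finPart_congr753 L (hUc q p (hQP q hqQ) hadm hqU) ξ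
  rw [hfin]
  refine ⟨fun hnot => ((hBq q hqQ).2.2 ξ).1 fun hin => hnot ?_, ?_⟩
  · exact Set.mem_biUnion hqQ hin
  · exact (((hBq q hqQ).2.2 ξ).2).trans
      (Finset.single_le_sum (f := Mq) (fun r hr => (hBq r hr).2.1) hqQ)

/-- **The top of the leaf `RegC`.** -/
theorem regC_of_leaves753 (hDict : DictC) (hCont : ContProdC) (hSupp : SuppProdC)
    (hLat : LatticeC) (hStd : StdAAC) (hLoc : LocConstC) (hAB : ArchBoundC) (hAC : ArchContC)
    (hFC : FinCoverC) : RegC := by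
  intro K _ _ L _ hgood
  -- the local facts at an admissible pair
  have hfc : ∀ g m : A0.G K, Adm L.t L.n g m → ∀ v : HeightOneSpectrum (𝓞 K),
      Continuous (L.Ffin v (A0.finComp v g) (A0.finComp v m)) := fun g m h v =>
    (hgood.fin v).ax.cont _ _ ((hDict K L g m h).1 v)
  have hic : ∀ g m : A0.G K, Adm L.t L.n g m → ∀ u : InfinitePlace K,
      Continuous (L.Finf u (infMat u g) (infMat u m)) := fun g m h u =>
    (hgood.cpx u).ax.cont _ _ ((hDict K L g m h).2 u)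
  -- the bound of the family on a compact set of pairs
  have hbound : ∀ C : Set (A0.G K × A0.G K), IsCompact C →
      ∃ (B : Set (FiniteAdeleRing (𝓞 K) K × FiniteAdeleRing (𝓞 K) K)) (A δ : ℝ),
        IsCompact B ∧ 0 ≤ A ∧ 0 < δ ∧
        ∀ p : A0.G K × A0.G K, p ∈ C → Adm L.t L.n p.1 p.2 → ∀ ξ : A0.Adl K × A0.Adl K,
          (finPt ξ ∉ B → L.toKData.F p.1 p.2 ξ = 0) ∧
          ‖L.toKData.F p.1 p.2 ξ‖ ≤ A * Real.exp (-δ * archSq ξ) := by
    intro C hC
    obtain ⟨B, M, hB, hM, hBM⟩ := uniform_fin753 hDict hSupp hStd hLoc hFC L hgood C hC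
    obtain ⟨A, δ, hA, hδ, hAδ⟩ := hAB hDict K L hgood C hC
    refine ⟨B, A * M, δ, hB, mul_nonneg hA hM, hδ, fun p hp hadm ξ => ⟨fun hnot => ?_, ?_⟩⟩
    · rw [F_eq753, (hBM p hp hadm ξ).1 hnot, mul_zero]
    · rw [F_eq753, norm_mul]
      calc ‖archPart L p.1 p.2 ξ‖ * ‖finPart L p.1 p.2 ξ‖
          ≤ (A * Real.exp (-δ * archSq ξ)) * M :=
            mul_le_mul (hAδ p hp hadm ξ) (hBM p hp hadm ξ).2 (norm_nonneg _)
              (mul_nonneg hA (Real.exp_pos _).le)
        _ = A * M * Real.exp (-δ * archSq ξ) := by ring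
  -- summability on a compact set of pairs and a compact set of translations
  have hsum : ∀ (C : Set (A0.G K × A0.G K)) (C' : Set (A0.Adl K × A0.Adl K)), IsCompact C →
      IsCompact C' → ∃ b : K × K → ℝ, Summable b ∧
        ∀ (ξ : K × K) (p : A0.G K × A0.G K) (x : A0.Adl K × A0.Adl K), p ∈ C →
          Adm L.t L.n p.1 p.2 → x ∈ C' → ‖L.toKData.F p.1 p.2 (x + ratV ξ)‖ ≤ b ξ := by
    intro C C' hC hC'
    obtain ⟨B, A, δ, hB, hA, hδ, hBA⟩ := hbound C hC
    obtain ⟨b, hb, hb0, hbb⟩ := hLat K B C' δ hB hC' hδ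
    refine ⟨fun ξ => A * b ξ, hb.mul_left A, fun ξ p x hp hadm hx => ?_⟩
    by_cases hin : finPt (x + ratV ξ) ∈ B
    · exact ((hBA p hp hadm _).2).trans (mul_le_mul_of_nonneg_left (hbb ξ x hx hin) hA)
    · rw [(hBA p hp hadm _).1 hin, norm_zero]
      exact mul_nonneg hA (hb0 ξ)
  refine ⟨⟨?_, ?_, ?_, ?_, ?_⟩, ?_⟩
  · -- cont
    intro g m h
    exact hCont K _ _ (hic g m h) (hfc g m h) (hStd hDict K L hgood g m h)
  · -- integrable
    intro g m h
    exact (hgood.prod_int.2 _ _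
      (fun u => ⟨hic g m h u, (hgood.cpx u).ax.integrable _ _ ((hDict K L g m h).2 u)⟩)
      (fun v => ⟨hfc g m h v, (hgood.fin v).ax.integrable _ _ ((hDict K L g m h).1 v)⟩)
      (hStd hDict K L hgood g m h)).1
  · -- shift_summable
    intro g m h C hC
    obtain ⟨b, hb, hbb⟩ := hsum {(g, m)} C isCompact_singleton hC
    exact ⟨b, hb, fun ξ x hx => hbb ξ (g, m) x rfl h hx⟩
  · -- cont_pair
    intro ξ p₀ hp₀
    obtain ⟨U, hU, hUc⟩ := hLoc hDict K L hgood
    have hA : ContinuousWithinAt (fun p : A0.G K × A0.G K => archPart L p.1 p.2 ξ)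
        {p | Adm L.t L.n p.1 p.2} p₀ := hAC hDict K L hgood ξ p₀ hp₀
    have hnhds : {p : A0.G K × A0.G K | p₀⁻¹ * p ∈ U} ∈ 𝓝 p₀ := by
      have hc : ContinuousAt (fun p : A0.G K × A0.G K => p₀⁻¹ * p) p₀ :=
        (continuous_const.mul continuous_id).continuousAt
      have h1 : (fun p : A0.G K × A0.G K => p₀⁻¹ * p) p₀ = 1 := inv_mul_cancel p₀
      exact hc (by rw [h1]; exact hU)
    have hev : (fun p : A0.G K × A0.G K => L.toKData.F p.1 p.2 ξ)
        =ᶠ[𝓝[{p | Adm L.t L.n p.1 p.2}] p₀]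
        fun p => archPart L p.1 p.2 ξ * finPart L p₀.1 p₀.2 ξ := by
      filter_upwards [mem_nhdsWithin_of_mem_nhds hnhds, self_mem_nhdsWithin] with p hpU hp
      rw [F_eq753, finPart_congr753 L (hUc p₀ p hp₀ hp hpU) ξ]
    exact (hA.mul continuousWithinAt_const).congr_of_eventuallyEq hev (F_eq753 L p₀.1 p₀.2 ξ)
  · -- loc_summable
    intro C hC
    obtain ⟨b, hb, hbb⟩ := hsum C {0} hC isCompact_singleton
    refine ⟨b, hb, fun ξ p hp hadm => ?_⟩
    have := hbb ξ p 0 hp hadm rfl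
    rwa [zero_add] at this
  · -- DecayOut
    intro C hC
    obtain ⟨B, A, δ, hB, hA, hδ, hBA⟩ := hbound C hC
    exact ⟨B, A, δ, hB, hδ, fun p hp hadm ξ => hBA p hp hadm ξ⟩

end Fermat.Agent.LT.A2.H753

end

end
-- ===== PACK-END LT/A2/H753/RegTop.lean

-- ===== PACK-BEGIN LT/A2/H79/Dict.lean
section



/-!
# Row LT, tower A2, leaf A2.03.1.3.0 `H753.DictC` (helper79, registry 1294)

OFF-MAIN.  `dictC_79 : H753.DictC`, VERBATIM against `LT/A2/H753/RegSpec.lean` (helper753).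

A global admissible pair `(g, m)` is locally admissible at every place: the components
`x ↦ x.2 v`, `x ↦ x.1 u` are ring homomorphisms `𝔸_K → K_v`, `𝔸_K → K_u`, so they commute with the
determinant and with the entries of `torMat`; the determinant of an element of `GL₂(𝔸_K)` is a
unit, so its components are not zero.
-/

set_option autoImplicit false

open IsDedekindDomain NumberField AutomorphicForm MeasureTheory
open scoped MatrixGroups Topology

noncomputable section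

namespace Fermat.Agent.LT.A2.H79

open Fermat.Agent.LT.H130 Fermat.Agent.LT.H556 Fermat.Agent.LT.A2 Fermat.Agent.LT.A2.WX467
open Fermat.Agent.LT.A2.H753

variable {K : Type} [Field K] [NumberField K]

/-- The component at the finite place `v`, as a ring homomorphism. -/
def finHom79 (v : HeightOneSpectrum (𝓞 K)) : A0.Adl K →+* v.adicCompletion K where
  toFun x := x.2 v
  map_one' := rfl
  map_mul' _ _ := rfl
  map_zero' := rfl
  map_add' _ _ := rfl

/-- The component at the infinite place `u`, as a ring homomorphism. -/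
def infHom79 (u : InfinitePlace K) : A0.Adl K →+* u.Completion where
  toFun x := x.1 u
  map_one' := rfl
  map_mul' _ _ := rfl
  map_zero' := rfl
  map_add' _ _ := rfl

theorem finHom79_apply (v : HeightOneSpectrum (𝓞 K)) (x : A0.Adl K) : finHom79 v x = x.2 v := rfl

theorem infHom79_apply (u : InfinitePlace K) (x : A0.Adl K) : infHom79 u x = x.1 u := rfl

theorem finHom79_alg (v : HeightOneSpectrum (𝓞 K)) (t : K) :
    finHom79 v (algebraMap K (A0.Adl K) t) = algebraMap K (v.adicCompletion K) t := rfl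

theorem infHom79_alg (u : InfinitePlace K) (t : K) :
    infHom79 u (algebraMap K (A0.Adl K) t) = algebraMap K u.Completion t := rfl

theorem finComp_eq79 (v : HeightOneSpectrum (𝓞 K)) (g : A0.G K) :
    A0.finComp v g = (finHom79 v).mapMatrix (g : Matrix (Fin 2) (Fin 2) (A0.Adl K)) := rfl

theorem infMat_eq79 (u : InfinitePlace K) (g : A0.G K) :
    infMat u g = (infHom79 u).mapMatrix (g : Matrix (Fin 2) (Fin 2) (A0.Adl K)) := rfl

/-- The abstract statement: a ring homomorphism to a field maps admissible pairs to locally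
admissible pairs. -/
theorem admL_of_hom79 {k : Type} [Field k] (f : A0.Adl K →+* k) (t n : K) (g m : A0.G K)
    (h : Adm t n g m) :
    AdmL (f (algebraMap K (A0.Adl K) t)) (f (algebraMap K (A0.Adl K) n))
      (f.mapMatrix (g : Matrix (Fin 2) (Fin 2) (A0.Adl K)))
      (f.mapMatrix (m : Matrix (Fin 2) (Fin 2) (A0.Adl K))) := by
  obtain ⟨⟨a, b, hm⟩, hdet⟩ := h
  have hdet' : (g : Matrix (Fin 2) (Fin 2) (A0.Adl K)).det
      = (m : Matrix (Fin 2) (Fin 2) (A0.Adl K)).det := by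
    have := congrArg (fun x : (A0.Adl K)ˣ => (x : A0.Adl K)) hdet
    simpa using this
  refine ⟨⟨f a, f b, ?_⟩, ?_, ?_⟩
  · rw [hm]
    ext i j
    fin_cases i <;> fin_cases j <;> simp [torMat]
  · rw [← RingHom.map_det, ← RingHom.map_det, hdet']
  · rw [← RingHom.map_det]
    have hu : IsUnit ((m : Matrix (Fin 2) (Fin 2) (A0.Adl K)).det) :=
      ⟨Matrix.GeneralLinearGroup.det m, rfl⟩
    exact (hu.map f).ne_zero

/-- **A2.03.1.3.0 `DictC`**, VERBATIM against `RegSpec.DictC`. -/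
theorem dictC_79 : H753.DictC := by
  intro K _ _ L g m h
  refine ⟨fun v => ?_, fun u => ?_⟩
  · exact admL_of_hom79 (finHom79 v) L.t L.n g m h
  · exact admL_of_hom79 (infHom79 u) L.t L.n g m h

end Fermat.Agent.LT.A2.H79

end

end
-- ===== PACK-END LT/A2/H79/Dict.lean

-- ===== PACK-BEGIN LT/A2/H904/LiftBddElem.lean
section


/-!
# Row LT, tower A2, leaf A2.03.4 `WL.LiftBddC`: the archimedean scalar ideles (helper904)

OFF-MAIN.  For a totally complex field: the idele `posId c` (`c ∈ ℂˣ` at every infinite place, `1`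
at the finite places), its module, and the decomposition of the elements of the ray and of the
centre of `T1.SiegelCompactC`.
-/

set_option autoImplicit false

open IsDedekindDomain NumberField AutomorphicForm MeasureTheory
open scoped MatrixGroups Topology

noncomputable section

namespace Fermat.Agent.LT.A2.H904

open Fermat.Agent.LT.H130 Fermat.Agent.LT.H556

variable {K : Type} [Field K] [NumberField K]

/-- The adele with component `c` at every (complex) infinite place and `1` at the finite places,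
as a monoid homomorphism. -/
def posAdl (hcpx : ∀ u : InfinitePlace K, u.IsComplex) : ℂ →* A0.Adl K where
  toFun c := (fun w => (InfinitePlace.Completion.ringEquivComplexOfIsComplex (hcpx w)).symm c, 1)
  map_one' := by
    refine Prod.ext ?_ rfl
    funext w
    change (InfinitePlace.Completion.ringEquivComplexOfIsComplex (hcpx w)).symm 1 = 1
    simp
  map_mul' c c' := by
    refine Prod.ext ?_ ?_
    · funext w
      change (InfinitePlace.Completion.ringEquivComplexOfIsComplex (hcpx w)).symm (c * c')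
        = (InfinitePlace.Completion.ringEquivComplexOfIsComplex (hcpx w)).symm c
          * (InfinitePlace.Completion.ringEquivComplexOfIsComplex (hcpx w)).symm c'
      simp
    · change (1 : FiniteAdeleRing (𝓞 K) K) = 1 * 1
      simp

/-- The idele `posId c`. -/
def posId (hcpx : ∀ u : InfinitePlace K, u.IsComplex) : ℂˣ →* (A0.Adl K)ˣ :=
  Units.map (posAdl hcpx)

theorem posId_fst (hcpx : ∀ u : InfinitePlace K, u.IsComplex) (c : ℂˣ) (w : InfinitePlace K) :
    InfinitePlace.Completion.extensionEmbedding w (((posId hcpx c : (A0.Adl K)ˣ) : A0.Adl K).1 w)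
      = (c : ℂ) := by
  change InfinitePlace.Completion.extensionEmbedding w
    ((InfinitePlace.Completion.ringEquivComplexOfIsComplex (hcpx w)).symm (c : ℂ)) = _
  rw [← InfinitePlace.Completion.ringEquivComplexOfIsComplex_apply (hcpx w)]
  simp

theorem posId_snd (hcpx : ∀ u : InfinitePlace K, u.IsComplex) (c : ℂˣ) :
    ((posId hcpx c : (A0.Adl K)ˣ) : A0.Adl K).2 = 1 := rfl

theorem norm_posId_fst (hcpx : ∀ u : InfinitePlace K, u.IsComplex) (c : ℂˣ)
    (w : InfinitePlace K) :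
    ‖((posId hcpx c : (A0.Adl K)ˣ) : A0.Adl K).1 w‖ = ‖(c : ℂ)‖ := by
  rw [← posId_fst hcpx c w]
  exact ((InfinitePlace.Completion.isometry_extensionEmbedding w).norm_map_of_map_zero
    (map_zero _) _).symm

/-- The module of `posId c`. -/
theorem adNorm_posId (hcpx : ∀ u : InfinitePlace K, u.IsComplex) (c : ℂˣ) :
    T1.adNorm K ((posId hcpx c : (A0.Adl K)ˣ) : A0.Adl K)
      = ‖(c : ℂ)‖ ^ (∑ w : InfinitePlace K, w.mult) := by
  unfold T1.adNorm
  have h2 : (∏ᶠ v : HeightOneSpectrum (𝓞 K),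
      ‖((posId hcpx c : (A0.Adl K)ˣ) : A0.Adl K).2 v‖) = 1 := by
    rw [posId_snd]
    have : ∀ v : HeightOneSpectrum (𝓞 K),
        ‖(1 : FiniteAdeleRing (𝓞 K) K) v‖ = 1 := by
      intro v
      have : (1 : FiniteAdeleRing (𝓞 K) K) v = 1 := rfl
      rw [this]
      exact norm_one
    simp only [this]
    exact finprod_one
  rw [h2, mul_one]
  simp only [norm_posId_fst]
  rw [Finset.prod_pow_eq_pow_sum]

/-! ## Extensionality for adeles -/

theorem adl_ext {x y : A0.Adl K}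
    (h1 : ∀ w : InfinitePlace K, InfinitePlace.Completion.extensionEmbedding w (x.1 w)
      = InfinitePlace.Completion.extensionEmbedding w (y.1 w))
    (h2 : ∀ v : HeightOneSpectrum (𝓞 K), x.2 v = y.2 v) : x = y := by
  refine Prod.ext ?_ ?_
  · funext w
    exact (InfinitePlace.Completion.extensionEmbedding w).injective (h1 w)
  · exact RestrictedProduct.ext _ _ h2

/-- A central element of `GL₂(𝔸_K)` is `cen c` for an idele `c`. -/
theorem exists_cen_of_isCentral {z : A0.G K} (hz : T1.IsCentral K z) :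
    ∃ c : (A0.Adl K)ˣ, z = cen c := by
  obtain ⟨c, hc⟩ := hz
  have h1 : c * ((z⁻¹ : A0.G K) : Matrix (Fin 2) (Fin 2) (A0.Adl K)) 0 0 = 1 := by
    have := congrArg (fun M : Matrix (Fin 2) (Fin 2) (A0.Adl K) => M 0 0)
      (congrArg Units.val (mul_inv_cancel z))
    simp only [Units.val_mul, hc] at this
    simpa [Matrix.mul_apply, Fin.sum_univ_two] using this
  refine ⟨⟨c, ((z⁻¹ : A0.G K) : Matrix (Fin 2) (Fin 2) (A0.Adl K)) 0 0, h1,
    by rw [mul_comm]; exact h1⟩, ?_⟩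
  apply Units.ext
  rw [hc, cen, dg_val]
  ext i j
  fin_cases i <;> fin_cases j <;> simp

/-- The positive real `σ` as a unit of `ℂ`. -/
def posUnit (σ : ℝ) (hσ : 0 < σ) : ℂˣ :=
  Units.mk0 ((σ : ℝ) : ℂ) (by exact_mod_cast hσ.ne')

theorem norm_posUnit (σ : ℝ) (hσ : 0 < σ) : ‖((posUnit σ hσ : ℂˣ) : ℂ)‖ = σ := by
  simp [posUnit, abs_of_pos hσ]

/-- An element of the ray of `T1.SiegelCompactC` is `t(σ) · σ`, `σ = √s`. -/
theorem isRay_eq (hcpx : ∀ u : InfinitePlace K, u.IsComplex) {a : A0.G K} {s : ℝ}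
    (ha : T1.IsRay K a s) (hs : 0 < s) :
    a = tSL (posId hcpx (posUnit (Real.sqrt s) (Real.sqrt_pos.mpr hs)))
      * cen (posId hcpx (posUnit (Real.sqrt s) (Real.sqrt_pos.mpr hs))) := by
  set σU := posId hcpx (posUnit (Real.sqrt s) (Real.sqrt_pos.mpr hs)) with hσU
  obtain ⟨hfin, hinf⟩ := ha
  have hI : ∀ (w : InfinitePlace K) (i j : Fin 2),
      InfinitePlace.Completion.extensionEmbedding w
        (((a : Matrix (Fin 2) (Fin 2) (A0.Adl K)) i j).1 w)
        = (!![(s : ℂ), 0; 0, 1] : Matrix (Fin 2) (Fin 2) ℂ) i j := by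
    intro w i j
    have := congrArg (fun M : Matrix (Fin 2) (Fin 2) ℂ => M i j) (hinf w)
    exact this
  have hF : ∀ (v : HeightOneSpectrum (𝓞 K)) (i j : Fin 2),
      ((a : Matrix (Fin 2) (Fin 2) (A0.Adl K)) i j).2 v
        = (1 : Matrix (Fin 2) (Fin 2) (v.adicCompletion K)) i j := by
    intro v i j
    have := congrArg (fun M : Matrix (Fin 2) (Fin 2) (v.adicCompletion K) => M i j) (hfin v)
    exact this
  have hσ1 : ∀ w : InfinitePlace K, InfinitePlace.Completion.extensionEmbedding w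
      (((σU : (A0.Adl K)ˣ) : A0.Adl K).1 w) = ((Real.sqrt s : ℝ) : ℂ) := by
    intro w
    rw [hσU, posId_fst]
    rfl
  have hσ2 : ((σU : (A0.Adl K)ˣ) : A0.Adl K).2 = 1 := posId_snd hcpx _
  have h00 : (a : Matrix (Fin 2) (Fin 2) (A0.Adl K)) 0 0 = ((σU * σU : (A0.Adl K)ˣ) : A0.Adl K) := by
    apply adl_ext
    · intro w
      rw [hI w 0 0]
      have : ((((σU * σU : (A0.Adl K)ˣ) : A0.Adl K)).1 w)
          = ((σU : (A0.Adl K)ˣ) : A0.Adl K).1 w * ((σU : (A0.Adl K)ˣ) : A0.Adl K).1 w := rfl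
      rw [this, map_mul, hσ1 w, ← Complex.ofReal_mul, Real.mul_self_sqrt hs.le]
      simp
    · intro v
      rw [hF v 0 0]
      have : ((((σU * σU : (A0.Adl K)ˣ) : A0.Adl K)).2 v)
          = ((σU : (A0.Adl K)ˣ) : A0.Adl K).2 v * ((σU : (A0.Adl K)ˣ) : A0.Adl K).2 v := rfl
      rw [this, hσ2]
      change (1 : Matrix (Fin 2) (Fin 2) (v.adicCompletion K)) 0 0 = (1 : v.adicCompletion K) * 1
      simp
  have h01 : (a : Matrix (Fin 2) (Fin 2) (A0.Adl K)) 0 1 = 0 := by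
    apply adl_ext
    · intro w
      rw [hI w 0 1]
      change _ = InfinitePlace.Completion.extensionEmbedding w 0
      simp
    · intro v
      rw [hF v 0 1]
      change (1 : Matrix (Fin 2) (Fin 2) (v.adicCompletion K)) 0 1 = (0 : v.adicCompletion K)
      simp
  have h10 : (a : Matrix (Fin 2) (Fin 2) (A0.Adl K)) 1 0 = 0 := by
    apply adl_ext
    · intro w
      rw [hI w 1 0]
      change _ = InfinitePlace.Completion.extensionEmbedding w 0
      simp
    · intro v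
      rw [hF v 1 0]
      change (1 : Matrix (Fin 2) (Fin 2) (v.adicCompletion K)) 1 0 = (0 : v.adicCompletion K)
      simp
  have h11 : (a : Matrix (Fin 2) (Fin 2) (A0.Adl K)) 1 1 = 1 := by
    apply adl_ext
    · intro w
      rw [hI w 1 1]
      change _ = InfinitePlace.Completion.extensionEmbedding w 1
      simp
    · intro v
      rw [hF v 1 1]
      change (1 : Matrix (Fin 2) (Fin 2) (v.adicCompletion K)) 1 1 = (1 : v.adicCompletion K)
      simp
  rw [tSL, cen, dg_mul]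
  apply Units.ext
  rw [dg_val, Matrix.eta_fin_two (a : Matrix (Fin 2) (Fin 2) (A0.Adl K)), h00, h01, h10, h11]
  simp

end Fermat.Agent.LT.A2.H904

end

end
-- ===== PACK-END LT/A2/H904/LiftBddElem.lean

-- ===== PACK-BEGIN LT/A2/H965/CentVal.lean
section


/-!
# Row LT, tower A2, leaf A2.03.8.3 `H142.CentC` (helper965), part 3: the local torus — OFF-MAIN

Valuation lemmas for the quadratic algebra `𝒪[ω]`, `ω² - t ω + n = 0`, with unit discriminant:
if `N(x) = x x̄` is a uniformiser then `x̄² ≢ 0 mod ϖ` (the algebra `𝒪[ω]/ϖ` is reduced).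
-/

set_option autoImplicit false

open IsDedekindDomain NumberField AutomorphicForm MeasureTheory
open scoped MatrixGroups

noncomputable section

namespace Fermat.Agent.LT.A2.H965

open Fermat.Agent.LT.H556 Fermat.Agent.LT.H556.A0 Fermat.Agent.LT.H129 Fermat.Agent.LT.A2

section Val

variable {F Γ : Type*} [Field F] [LinearOrderedCommGroupWithZero Γ] (v : Valuation F Γ)

theorem val_two_le965 : v (2 : F) ≤ 1 := by
  have h : (2 : F) = 1 + 1 := by norm_num
  rw [h]
  exact (v.map_add_le_max' 1 1).trans (by simp)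

theorem val_four_le965 : v (4 : F) ≤ 1 := by
  have h : (4 : F) = 2 * 2 := by norm_num
  rw [h, map_mul]
  exact mul_le_one' (val_two_le965 v) (val_two_le965 v)

theorem val_mul_lt_one_left965 {x y : F} (hx : v x < 1) (hy : v y ≤ 1) : v (x * y) < 1 := by
  rw [map_mul]
  calc v x * v y ≤ v x * 1 := mul_le_mul_right hy _
    _ = v x := mul_one _
    _ < 1 := hx

theorem val_mul_lt_one_right965 {x y : F} (hx : v x ≤ 1) (hy : v y < 1) : v (x * y) < 1 := by
  rw [mul_comm]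
  exact val_mul_lt_one_left965 v hy hx

/-- **Reducedness of `𝒪[ω]/ϖ`** (unit discriminant): if the square of `α + β ω` vanishes modulo
the maximal ideal then so do `α` and `β`. -/
theorem val_lemma965 {t n α β : F} (ht : v t ≤ 1) (hn : v n ≤ 1) (hα : v α ≤ 1) (hβ : v β ≤ 1)
    (hdisc : v (t ^ 2 - 4 * n) = 1)
    (h1 : v (α * α - n * β * β) < 1) (h2 : v (α * β + α * β + t * β * β) < 1) :
    v α < 1 ∧ v β < 1 := by
  have hβ1 : v β < 1 := by
    by_contra hcon
    have hβe : v β = 1 := le_antisymm hβ (not_lt.1 hcon)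
    have e1 : α * β + α * β + t * β * β = β * (2 * α + t * β) := by ring
    have h3 : v (2 * α + t * β) < 1 := by
      rw [e1, map_mul, hβe, one_mul] at h2
      exact h2
    have h4 : v (t * β - 2 * α) ≤ 1 := by
      refine (v.map_sub _ _).trans (max_le ?_ ?_)
      · rw [map_mul]; exact mul_le_one' ht hβ
      · rw [map_mul]; exact mul_le_one' (val_two_le965 v) hα
    have key : (t ^ 2 - 4 * n) * β ^ 2
        = (2 * α + t * β) * (t * β - 2 * α) + 4 * (α * α - n * β * β) := by ring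
    have hL : v ((t ^ 2 - 4 * n) * β ^ 2) = 1 := by
      rw [map_mul, hdisc, map_pow, hβe, one_pow, one_mul]
    have hR : v ((2 * α + t * β) * (t * β - 2 * α) + 4 * (α * α - n * β * β)) < 1 :=
      lt_of_le_of_lt (v.map_add_le_max' _ _)
        (max_lt (val_mul_lt_one_left965 v h3 h4)
          (val_mul_lt_one_right965 v (val_four_le965 v) h1))
    rw [key] at hL
    exact absurd hL hR.ne
  refine ⟨?_, hβ1⟩
  by_contra hcon
  have hαe : v α = 1 := le_antisymm hα (not_lt.1 hcon)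
  have e2 : α * α = (α * α - n * β * β) + n * β * β := by ring
  have h5 : v (n * β * β) < 1 :=
    val_mul_lt_one_right965 v (by rw [map_mul]; exact mul_le_one' hn hβ) hβ1
  have h6 : v (α * α) < 1 := by
    rw [e2]
    exact lt_of_le_of_lt (v.map_add_le_max' _ _) (max_lt h1 h5)
  rw [map_mul, hαe, one_mul] at h6
  exact lt_irrefl _ h6

end Val

/-! ## Torus matrices and ring homomorphisms -/

theorem torMat_map965 {R S : Type*} [CommRing R] [CommRing S] (f : R →+* S) (t n a b : R) :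
    (torMat t n a b).map f = torMat (f t) (f n) (f a) (f b) := by
  unfold torMat
  ext i j
  fin_cases i <;> fin_cases j <;> simp

theorem torMat_adjugate965 {R : Type*} [CommRing R] (t n a b : R) :
    Matrix.adjugate (torMat t n a b) = torMat t n (a + t * b) (-b) := by
  unfold torMat
  rw [Matrix.adjugate_fin_two_of]
  ext i j
  fin_cases i <;> fin_cases j <;> simp

end Fermat.Agent.LT.A2.H965

end

end
-- ===== PACK-END LT/A2/H965/CentVal.lean

-- ===== PACK-BEGIN LT/A2/H965/ContProd.lean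
section


/-!
# Row LT, tower A2, leaf A2.03.1.3.1 `H753.ContProdC` (helper965) — OFF-MAIN

`contProdC965 : H753.ContProdC`: a product of continuous local functions which are standard at
almost all finite places is continuous on `𝔸_K²`.

`prodFn f f' ξ = (∏_u f u ξ_u) · ∏ᶠ_v f' v ξ_v`, and with `f' v = stdFn v` off the finite set
`S`: `∏ᶠ_v f' v ξ_v = 1_E(ξ) · ∏_{v ∈ S} f' v ξ_v`, `E = {ξ : ∀ v ∉ S, ξ_v ∈ 𝒪_v²}` open and
closed in the restricted product topology.
-/

set_option autoImplicit false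

open IsDedekindDomain NumberField AutomorphicForm MeasureTheory
open scoped MatrixGroups Topology

noncomputable section

namespace Fermat.Agent.LT.A2.H965

open Fermat.Agent.LT.H130 Fermat.Agent.LT.H556 Fermat.Agent.LT.A2 Fermat.Agent.LT.A2.WX467

variable {K : Type} [Field K] [NumberField K]

/-! ## Continuity of the components -/

theorem continuous_evalFin965 (v : HeightOneSpectrum (𝓞 K)) :
    Continuous (fun x : FiniteAdeleRing (𝓞 K) K => x v) :=
  RestrictedProduct.continuous_eval v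

theorem continuous_evalInf965 (u : InfinitePlace K) :
    Continuous (fun x : InfiniteAdeleRing K => x u) :=
  continuous_apply u

theorem continuous_infVec965 (u : InfinitePlace K) : Continuous (infVec (K := K) u) := by
  unfold infVec
  exact ((continuous_evalInf965 u).comp (continuous_fst.comp continuous_fst)).prodMk
    ((continuous_evalInf965 u).comp (continuous_fst.comp continuous_snd))

theorem continuous_finVec965 (v : HeightOneSpectrum (𝓞 K)) : Continuous (finVec (K := K) v) := by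
  unfold finVec
  exact ((continuous_evalFin965 v).comp (continuous_snd.comp continuous_fst)).prodMk
    ((continuous_evalFin965 v).comp (continuous_snd.comp continuous_snd))

/-! ## The set `E` -/

/-- The finite adeles which are integral outside `S`. -/
def intOff965 (S : Finset (HeightOneSpectrum (𝓞 K))) : Set (FiniteAdeleRing (𝓞 K) K) :=
  {x | ∀ v, v ∉ S → x v ∈ v.adicCompletionIntegers K}

theorem isOpen_intOff965 (S : Finset (HeightOneSpectrum (𝓞 K))) :
    IsOpen (intOff965 (K := K) S) :=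
  RestrictedProduct.isOpen_forall_imp_mem
    (R := fun v : HeightOneSpectrum (𝓞 K) => v.adicCompletion K)
    (A := fun v : HeightOneSpectrum (𝓞 K) => v.adicCompletionIntegers K)
    (fun v => Valued.isOpen_valuationSubring _) (p := fun v => v ∉ S)

theorem isClosed_intOff965 (S : Finset (HeightOneSpectrum (𝓞 K))) :
    IsClosed (intOff965 (K := K) S) := by
  have e : intOff965 (K := K) S
      = ⋂ v : HeightOneSpectrum (𝓞 K), ⋂ (_ : v ∉ S),
          (fun x : FiniteAdeleRing (𝓞 K) K => x v) ⁻¹'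
            (v.adicCompletionIntegers K : Set (v.adicCompletion K)) := by
    ext x
    simp only [intOff965, Set.mem_setOf_eq, Set.mem_iInter, Set.mem_preimage, SetLike.mem_coe]
  rw [e]
  exact isClosed_iInter fun v => isClosed_iInter fun _ =>
    (Valued.isClosed_valuationSubring _).preimage (continuous_evalFin965 v)

/-- The vectors of `𝔸_K²` which are integral outside `S`. -/
def vecIntOff965 (S : Finset (HeightOneSpectrum (𝓞 K))) : Set (A0.Adl K × A0.Adl K) :=
  {ξ | ξ.1.2 ∈ intOff965 S ∧ ξ.2.2 ∈ intOff965 S}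

theorem isClopen_vecIntOff965 (S : Finset (HeightOneSpectrum (𝓞 K))) :
    IsClopen (vecIntOff965 (K := K) S) := by
  have h1 : Continuous (fun ξ : A0.Adl K × A0.Adl K => ξ.1.2) := continuous_snd.comp continuous_fst
  have h2 : Continuous (fun ξ : A0.Adl K × A0.Adl K => ξ.2.2) := continuous_snd.comp continuous_snd
  constructor
  · exact ((isClosed_intOff965 S).preimage h1).inter ((isClosed_intOff965 S).preimage h2)
  · exact ((isOpen_intOff965 S).preimage h1).inter ((isOpen_intOff965 S).preimage h2)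

/-! ## The finite part -/

theorem stdFn_of_mem965 (v : HeightOneSpectrum (𝓞 K))
    {ξ : v.adicCompletion K × v.adicCompletion K}
    (h : ξ.1 ∈ v.adicCompletionIntegers K ∧ ξ.2 ∈ v.adicCompletionIntegers K) :
    stdFn v ξ = 1 := by
  unfold stdFn
  exact if_pos h

theorem stdFn_of_not_mem965 (v : HeightOneSpectrum (𝓞 K))
    {ξ : v.adicCompletion K × v.adicCompletion K}
    (h : ¬ (ξ.1 ∈ v.adicCompletionIntegers K ∧ ξ.2 ∈ v.adicCompletionIntegers K)) :
    stdFn v ξ = 0 := by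
  unfold stdFn
  exact if_neg h

/-- A finite adele is integral at almost all places. -/
theorem finite_not_int965 (x : FiniteAdeleRing (𝓞 K) K) :
    {v : HeightOneSpectrum (𝓞 K) | x v ∉ v.adicCompletionIntegers K}.Finite :=
  Filter.eventually_cofinite.1 x.2

/-- The finite part of the product, for local functions standard outside `S`. -/
theorem finprod_eq_indicator965
    (f' : ∀ v : HeightOneSpectrum (𝓞 K), v.adicCompletion K × v.adicCompletion K → ℂ)
    (S : Finset (HeightOneSpectrum (𝓞 K))) (hS : ∀ v, v ∉ S → f' v = stdFn v)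
    (ξ : A0.Adl K × A0.Adl K) :
    (∏ᶠ v : HeightOneSpectrum (𝓞 K), f' v (finVec v ξ))
      = (vecIntOff965 S).indicator (fun ξ => ∏ v ∈ S, f' v (finVec v ξ)) ξ := by
  by_cases hξ : ξ ∈ vecIntOff965 S
  · rw [Set.indicator_of_mem hξ]
    apply finprod_eq_prod_of_mulSupport_subset
    intro v hv
    by_contra hvS
    have hvS' : v ∉ S := fun h => hvS (Finset.mem_coe.2 h)
    apply (Function.mem_mulSupport.1 hv)
    rw [hS v hvS']
    exact stdFn_of_mem965 v ⟨hξ.1 v hvS', hξ.2 v hvS'⟩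
  · rw [Set.indicator_of_notMem hξ]
    -- a place outside `S` at which `ξ` is not integral
    have hex : ∃ v, v ∉ S ∧ ¬ ((finVec v ξ).1 ∈ v.adicCompletionIntegers K
        ∧ (finVec v ξ).2 ∈ v.adicCompletionIntegers K) := by
      by_contra hcon
      apply hξ
      constructor
      · intro v hv
        by_contra h1
        exact hcon ⟨v, hv, fun h => h1 h.1⟩
      · intro v hv
        by_contra h1
        exact hcon ⟨v, hv, fun h => h1 h.2⟩
    obtain ⟨v, hvS, hv⟩ := hex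
    have hzero : f' v (finVec v ξ) = 0 := by
      rw [hS v hvS]
      exact stdFn_of_not_mem965 v hv
    refine finprod_eq_zero _ v hzero ?_
    -- finiteness of the support
    have hfin : ((S : Set (HeightOneSpectrum (𝓞 K)))
        ∪ ({v | ξ.1.2 v ∉ v.adicCompletionIntegers K}
          ∪ {v | ξ.2.2 v ∉ v.adicCompletionIntegers K})).Finite :=
      S.finite_toSet.union ((finite_not_int965 ξ.1.2).union (finite_not_int965 ξ.2.2))
    refine hfin.subset fun w hw => ?_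
    by_contra hcon
    simp only [Set.mem_union, Finset.mem_coe, Set.mem_setOf_eq, not_or, not_not] at hcon
    apply (Function.mem_mulSupport.1 hw)
    rw [hS w hcon.1]
    exact stdFn_of_mem965 w ⟨hcon.2.1, hcon.2.2⟩

/-! ## The leaf -/

/-- **R1 CONT-PROD** (`H753.ContProdC`). -/
theorem contProdC965 : H753.ContProdC := by
  intro K _ _ f f' hf hf' hstd
  obtain ⟨S, hS⟩ := hstd
  have e : prodFn f f' = fun ξ => (∏ u : InfinitePlace K, f u (infVec u ξ))
      * (vecIntOff965 S).indicator (fun ξ => ∏ v ∈ S, f' v (finVec v ξ)) ξ := by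
    funext ξ
    unfold prodFn
    rw [finprod_eq_indicator965 f' S hS ξ]
  rw [e]
  refine Continuous.mul ?_ ?_
  · exact continuous_finsetProd _ fun u _ => (hf u).comp (continuous_infVec965 u)
  · exact (isClopen_vecIntOff965 S).continuous_indicator
      (continuous_finsetProd _ fun v _ => (hf' v).comp (continuous_finVec965 v))

end Fermat.Agent.LT.A2.H965

end

end
-- ===== PACK-END LT/A2/H965/ContProd.lean

-- ===== PACK-BEGIN LT/A2/H98/FinCover.lean
section



/-!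
# Row LT, tower A2, leaf A2.03.1.3.8 `H753.FinCoverC` (helper98)

OFF-MAIN.  The frozen Prop `H753.FinCoverC` of helper753's `RegSpec.lean`, verbatim, from the
Mathlib-only core `finCover98`.
-/

set_option autoImplicit false

namespace Fermat.Agent.LT.A2.H98

/-- **R8 FIN-COVER**, the frozen Prop of `RegSpec.lean`. -/
theorem finCoverC98 : Fermat.Agent.LT.A2.H753.FinCoverC := by
  intro H _ _ _ C P U hC hU
  exact finCover98 C P U hC hU

end Fermat.Agent.LT.A2.H98

end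
-- ===== PACK-END LT/A2/H98/FinCover.lean

-- ===== PACK-BEGIN LT/T2/H868/CountC.lean
section





/-!
# Row LT, tower T2, sub-leaf T2.03c.1 `LeafCount`, part C (helper868): THE COUNT

OFF-MAIN.  Vocabulary: `LT/H556/A0.lean` (66d3374a), `LT/T1/Spec.lean` (e8ae48d6), byte-identical.

`countCore868 : T1Out K → ∀ C compact ⊆ GL₂(𝔸_K), ∃ B c, 0 < c ∧ ∀ x t, HasHeight x t → c ≤ t →
  ∀ T : Finset (GL₂(K)), (∀ δ ∈ T, ∃ ω ∈ C, δ x = x ω) → #T ≤ B t`
(= `T2.H767.CountC K`, stated here in the vocabulary of T1 only).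

Proof.  `T1.SiegelCompactC` with `c = 1`: `x = β z a ω₀`.  For `δ' = β⁻¹ δ β`:
`δ' a = a (ω₀ ω ω₀⁻¹)`, so the entries `p, q, r, u` of `δ'` satisfy `p = c₀₀`, `q = σ c₀₁`,
`r σ = c₁₀`, `u = c₁₁` with `c_ij` in the compact entry sets of `Ω C Ω⁻¹`.  Hence `p, u` lie in
fixed finite sets, `r` in a fixed finite set (`shrink868`), and there are at most
`C₂ s ^ [K : ℚ] ≤ C₂ M t` possible `q` (`packing868`).
-/

set_option autoImplicit false
set_option linter.style.haveILetI false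
set_option linter.unusedVariables false
set_option linter.unusedSectionVars false

open IsDedekindDomain NumberField MeasureTheory
open scoped ENNReal NNReal

noncomputable section

namespace Fermat.Agent.LT.T2.H868

open Fermat.Agent.LT.H556.A0
open Fermat.Agent.LT.T1
open Fermat.Agent.LT.T1.H868

variable {K : Type} [Field K] [NumberField K]

/-! ## Group theory -/

theorem isCentral_comm868 {z : G K} (hz : IsCentral K z) (g : G K) : z * g = g * z := by
  obtain ⟨c, hc⟩ := hz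
  apply Units.ext
  rw [Units.val_mul, Units.val_mul, hc]
  ext i j
  rw [Matrix.diagonal_mul, Matrix.mul_diagonal, mul_comm]

theorem conj_identity_gen868 {H : Type*} [Group H] {z b d a ω₀ ω x : H}
    (hz : ∀ g : H, z * g = g * z)
    (hx : x = b * z * a * ω₀) (h : d * x = x * ω) :
    b⁻¹ * d * b * a = a * (ω₀ * ω * ω₀⁻¹) := by
  subst hx
  have h1 : b * z * a * ω₀ = z * (b * a * ω₀) := by
    rw [← hz b]
    simp only [mul_assoc]
  rw [h1] at h
  have h2 : d * (z * (b * a * ω₀)) = z * (d * (b * a * ω₀)) := by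
    rw [← mul_assoc, ← hz d, mul_assoc]
  have h4 : z * (d * (b * a * ω₀)) = z * (b * a * ω₀ * ω) := by
    rw [← h2, h, mul_assoc]
  have h3 : d * (b * a * ω₀) = b * a * ω₀ * ω := mul_left_cancel h4
  calc b⁻¹ * d * b * a = b⁻¹ * (d * (b * a * ω₀)) * ω₀⁻¹ := by group
    _ = b⁻¹ * (b * a * ω₀ * ω) * ω₀⁻¹ := by rw [h3]
    _ = a * (ω₀ * ω * ω₀⁻¹) := by group

theorem conj_identity868 {z b d a ω₀ ω x : G K} (hz : ∀ g : G K, z * g = g * z)
    (hx : x = b * z * a * ω₀) (h : d * x = x * ω) :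
    b⁻¹ * d * b * a = a * (ω₀ * ω * ω₀⁻¹) :=
  conj_identity_gen868 hz hx h

/-! ## The entries -/

/-- The set of `(i, j)`-entries of the elements of `Ω C Ω⁻¹`. -/
def entrySet868 (Ω C : Set (G K)) (i j : Fin 2) : Set (Adl K) :=
  (fun p : G K × G K × G K =>
      ((p.1 * p.2.1 * p.2.2⁻¹ : G K) : Matrix (Fin 2) (Fin 2) (Adl K)) i j) '' (Ω ×ˢ C ×ˢ Ω)

theorem isCompact_entrySet868 {Ω C : Set (G K)} (hΩ : IsCompact Ω) (hC : IsCompact C)
    (i j : Fin 2) : IsCompact (entrySet868 Ω C i j) := by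
  refine (hΩ.prod (hC.prod hΩ)).image ?_
  have h1 : Continuous fun p : G K × G K × G K => (p.1 * p.2.1 * p.2.2⁻¹ : G K) :=
    (continuous_fst.mul (continuous_fst.comp continuous_snd)).mul
      (continuous_snd.comp continuous_snd).inv
  exact (Units.continuous_val.comp h1).matrix_elem i j

theorem mem_entrySet868 {Ω C : Set (G K)} {ω₀ ω : G K} (h0 : ω₀ ∈ Ω) (h : ω ∈ C) (i j : Fin 2) :
    ((ω₀ * ω * ω₀⁻¹ : G K) : Matrix (Fin 2) (Fin 2) (Adl K)) i j ∈ entrySet868 Ω C i j :=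
  ⟨(ω₀, ω, ω₀), ⟨h0, h, h0⟩, rfl⟩

theorem entries_of_conj868 {a : G K} {s : ℝ} {σ : (Adl K)ˣ} (hσ : RayData868 a s σ)
    (δ' : GL (Fin 2) K) (c₁ : G K) (h : ratG K δ' * a = a * c₁) :
    algebraMap K (Adl K) ((δ' : Matrix (Fin 2) (Fin 2) K) 0 0)
        = (c₁ : Matrix (Fin 2) (Fin 2) (Adl K)) 0 0 ∧
      algebraMap K (Adl K) ((δ' : Matrix (Fin 2) (Fin 2) K) 0 1)
        = (σ : Adl K) * (c₁ : Matrix (Fin 2) (Fin 2) (Adl K)) 0 1 ∧
      algebraMap K (Adl K) ((δ' : Matrix (Fin 2) (Fin 2) K) 1 0) * (σ : Adl K)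
        = (c₁ : Matrix (Fin 2) (Fin 2) (Adl K)) 1 0 ∧
      algebraMap K (Adl K) ((δ' : Matrix (Fin 2) (Fin 2) K) 1 1)
        = (c₁ : Matrix (Fin 2) (Fin 2) (Adl K)) 1 1 := by
  have hm : ((ratG K δ' : G K) : Matrix (Fin 2) (Fin 2) (Adl K))
      * (a : Matrix (Fin 2) (Fin 2) (Adl K))
      = (a : Matrix (Fin 2) (Fin 2) (Adl K)) * (c₁ : Matrix (Fin 2) (Fin 2) (Adl K)) := by
    rw [← Units.val_mul, ← Units.val_mul, h]
  have hD : ∀ i j, ((ratG K δ' : G K) : Matrix (Fin 2) (Fin 2) (Adl K)) i j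
      = algebraMap K (Adl K) ((δ' : Matrix (Fin 2) (Fin 2) K) i j) := fun i j =>
    Matrix.GeneralLinearGroup.map_apply _ i j δ'
  rw [hσ.mat] at hm
  have e00 := congrFun (congrFun hm 0) 0
  have e01 := congrFun (congrFun hm 0) 1
  have e10 := congrFun (congrFun hm 1) 0
  have e11 := congrFun (congrFun hm 1) 1
  simp only [Matrix.mul_apply, Fin.sum_univ_two, hD, Matrix.of_apply, Matrix.cons_val_zero,
    Matrix.cons_val_one, Matrix.cons_val', Matrix.cons_val_fin_one, mul_zero, zero_mul,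
    add_zero, zero_add, mul_one, one_mul] at e00 e01 e10 e11
  refine ⟨?_, e01, e10, e11⟩
  rw [mul_comm] at e00
  exact (Units.mul_right_inj σ).1 e00

/-! ## THE COUNT -/

/-- **T2.03c.1, THE COUNT** (body of `T2.H767.CountC K`). -/
theorem countCore868 (hT : T1Out K) :
    ∀ C : Set (G K), IsCompact C →
      ∃ B c : ℝ, 0 < c ∧
        ∀ (x : G K) (t : ℝ), HasHeight K x t → c ≤ t →
          ∀ T : Finset (GL (Fin 2) K),
            (∀ δ ∈ T, ∃ ω ∈ C, ratG K δ * x = x * ω) → (T.card : ℝ) ≤ B * t := by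
  classical
  intro C hC
  have hLC := hT.locComp
  obtain ⟨⟨hlc, ht2, hsc⟩, hlcG, ht2G, hscG⟩ := hLC
  haveI := hlc
  haveI := ht2
  haveI := hsc
  obtain ⟨Ω, m, M, hΩ, hm, hmM, hS⟩ := hT.siegelCompact 1 one_pos
  set s₀ : ℝ := min 1 m with hs₀
  have hs₀0 : 0 < s₀ := lt_min one_pos hm
  -- the four entry sets
  have hE := fun i j => isCompact_entrySet868 hΩ hC i j
  have hP := finite_K_in_compact868 hT.adeleLattice (hE 0 0)
  have hU := finite_K_in_compact868 hT.adeleLattice (hE 1 1)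
  obtain ⟨E', hE'c, hE'⟩ := shrink868 (hE 1 0) hs₀0
  have hR := finite_K_in_compact868 hT.adeleLattice hE'c
  obtain ⟨C₂, hC₂, hpack⟩ := packing868 hT.locComp hT.addFundDom hT.adNorm (hE 0 1) hs₀0
  set P₀ : Finset K := hP.toFinset with hP₀
  set U₀ : Finset K := hU.toFinset with hU₀
  set R₀ : Finset K := hR.toFinset with hR₀
  have hM0 : 0 < M := lt_of_lt_of_le hm hmM
  refine ⟨(P₀.card : ℝ) * (R₀.card : ℝ) * (U₀.card : ℝ) * C₂ * M, 1, one_pos, ?_⟩
  intro x t hx ht T hTx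
  have ht0 : 0 < t := lt_of_lt_of_le one_pos ht
  obtain ⟨β, z, a, ω₀, s, hβ, hz, hs, ha, hω₀, hxe, hms, hsM⟩ := hS x t hx ht
  -- `s ≥ s₀`
  have hn : Module.finrank ℚ K ≠ 0 := (Module.finrank_pos (R := ℚ) (M := K)).ne'
  have hss₀ : s₀ ≤ s := by
    by_cases h1 : 1 ≤ s
    · exact (min_le_left _ _).trans h1
    · have h1' : s ≤ 1 := (not_le.1 h1).le
      have h2 : s ^ Module.finrank ℚ K ≤ s := pow_le_of_le_one hs.le h1' hn
      have h3 : m ≤ m * t := le_mul_of_one_le_right hm.le ht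
      exact (min_le_right _ _).trans (h3.trans (hms.trans h2))
  obtain ⟨σ, hσ⟩ := exists_rayData868 hs ha
  -- the conjugates
  set φ : GL (Fin 2) K → GL (Fin 2) K := fun δ => β⁻¹ * δ * β with hφ
  have hkey : ∀ δ ∈ T, ∃ c₁ : G K, ratG K (φ δ) * a = a * c₁ ∧
      ∀ i j, (c₁ : Matrix (Fin 2) (Fin 2) (Adl K)) i j ∈ entrySet868 Ω C i j := by
    intro δ hδ
    obtain ⟨ω, hω, h⟩ := hTx δ hδ
    refine ⟨ω₀ * ω * ω₀⁻¹, ?_, fun i j => mem_entrySet868 hω₀ hω i j⟩
    have := conj_identity868 (isCentral_comm868 hz) hxe h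
    rw [← this]
    simp only [hφ, map_mul, map_inv]
  -- the four entries
  set ψ : GL (Fin 2) K → K × K × K × K := fun δ =>
    (((φ δ : GL (Fin 2) K) : Matrix (Fin 2) (Fin 2) K) 0 0,
      ((φ δ : GL (Fin 2) K) : Matrix (Fin 2) (Fin 2) K) 0 1,
      ((φ δ : GL (Fin 2) K) : Matrix (Fin 2) (Fin 2) K) 1 0,
      ((φ δ : GL (Fin 2) K) : Matrix (Fin 2) (Fin 2) K) 1 1) with hψ
  have hψinj : Function.Injective ψ := by
    intro δ₁ δ₂ h
    have h' : φ δ₁ = φ δ₂ := by
      apply Units.ext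
      rw [Matrix.eta_fin_two ((φ δ₁ : GL (Fin 2) K) : Matrix (Fin 2) (Fin 2) K),
        Matrix.eta_fin_two ((φ δ₂ : GL (Fin 2) K) : Matrix (Fin 2) (Fin 2) K)]
      have h00 := congrArg (fun p : K × K × K × K => p.1) h
      have h01 := congrArg (fun p : K × K × K × K => p.2.1) h
      have h10 := congrArg (fun p : K × K × K × K => p.2.2.1) h
      have h11 := congrArg (fun p : K × K × K × K => p.2.2.2) h
      simp only [hψ] at h00 h01 h10 h11
      rw [h00, h01, h10, h11]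
    simp only [hφ] at h'
    exact mul_left_cancel (mul_right_cancel h')
  set Tq : Finset K := T.image fun δ => ((φ δ : GL (Fin 2) K) : Matrix (Fin 2) (Fin 2) K) 0 1
    with hTq
  have hTqcard : (Tq.card : ℝ) ≤ C₂ * s ^ Module.finrank ℚ K := by
    refine hpack a s σ hσ hss₀ Tq fun q hq => ?_
    rw [hTq, Finset.mem_image] at hq
    obtain ⟨δ, hδ, rfl⟩ := hq
    obtain ⟨c₁, hc₁, hmem⟩ := hkey δ hδ
    exact ⟨_, hmem 0 1, (entries_of_conj868 hσ (φ δ) c₁ hc₁).2.1⟩
  have hmaps : Set.MapsTo ψ (T : Set (GL (Fin 2) K))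
      ((P₀ ×ˢ Tq ×ˢ R₀ ×ˢ U₀ : Finset (K × K × K × K)) : Set (K × K × K × K)) := by
    intro δ hδ
    have hδ' : δ ∈ T := hδ
    obtain ⟨c₁, hc₁, hmem⟩ := hkey δ hδ'
    obtain ⟨e00, e01, e10, e11⟩ := entries_of_conj868 hσ (φ δ) c₁ hc₁
    rw [Finset.mem_coe, Finset.mem_product, Finset.mem_product, Finset.mem_product]
    refine ⟨?_, ?_, ?_, ?_⟩
    · rw [hP₀, Set.Finite.mem_toFinset]
      change algebraMap K (Adl K) (((φ δ : GL (Fin 2) K) : Matrix (Fin 2) (Fin 2) K) 0 0)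
        ∈ entrySet868 Ω C 0 0
      rw [e00]
      exact hmem 0 0
    · change ((φ δ : GL (Fin 2) K) : Matrix (Fin 2) (Fin 2) K) 0 1 ∈ Tq
      rw [hTq]
      exact Finset.mem_image_of_mem
        (fun δ => ((φ δ : GL (Fin 2) K) : Matrix (Fin 2) (Fin 2) K) 0 1) hδ'
    · rw [hR₀, Set.Finite.mem_toFinset]
      change algebraMap K (Adl K) (((φ δ : GL (Fin 2) K) : Matrix (Fin 2) (Fin 2) K) 1 0) ∈ E'
      refine hE' a s σ hσ hss₀ _ ?_
      rw [e10]
      exact hmem 1 0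
    · rw [hU₀, Set.Finite.mem_toFinset]
      change algebraMap K (Adl K) (((φ δ : GL (Fin 2) K) : Matrix (Fin 2) (Fin 2) K) 1 1)
        ∈ entrySet868 Ω C 1 1
      rw [e11]
      exact hmem 1 1
  have hcard := Finset.card_le_card_of_injOn ψ hmaps hψinj.injOn
  rw [Finset.card_product, Finset.card_product, Finset.card_product] at hcard
  have hcardR : (T.card : ℝ)
      ≤ (P₀.card : ℝ) * ((Tq.card : ℝ) * ((R₀.card : ℝ) * (U₀.card : ℝ))) := by
    exact_mod_cast hcard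
  have hq2 : (Tq.card : ℝ) ≤ C₂ * (M * t) :=
    hTqcard.trans (mul_le_mul_of_nonneg_left hsM hC₂)
  calc (T.card : ℝ) ≤ (P₀.card : ℝ) * ((Tq.card : ℝ) * ((R₀.card : ℝ) * (U₀.card : ℝ))) :=
        hcardR
    _ ≤ (P₀.card : ℝ) * ((C₂ * (M * t)) * ((R₀.card : ℝ) * (U₀.card : ℝ))) := by
        gcongr
    _ = (P₀.card : ℝ) * (R₀.card : ℝ) * (U₀.card : ℝ) * C₂ * M * t := by ring

end Fermat.Agent.LT.T2.H868

end

end
-- ===== PACK-END LT/T2/H868/CountC.lean

-- ===== PACK-BEGIN LT/T7/H189/ParsBdd.lean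
section



/-!
# Row LT, tower T7, node T7.14 `RigidC`, leaf T7.14.6a-F.2 `ParsBddC57` (registry 1912) -- helper189

OFF-MAIN.  `parsBddC_of_parseval189 K : ParsevalC57 K → ParsBddC57 K`, VERBATIM against
`LT/T7/H57/FoldSpec.lean` (helper57@bf22be140, sha256 `cb77c17ea9a53933`).

`|W₁ W̄₁'| ≤ (|W₁|² + |W₁'|²) / 2`, and `ParsevalC57` for the pairs `(φ₁, φ₁)`, `(φ₁', φ₁')` gives
`∑_α |W(torK α g)|² = ν(D) ∫_D |φ(n(x) g)|² dν ≤ ν(D)² C²`.  Constant: `ν(D)² (C₁² + C₁'²) / 2`.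
-/

set_option autoImplicit false
set_option linter.style.haveILetI false

open AutomorphicForm IsDedekindDomain NumberField Filter Topology MeasureTheory
open scoped ComplexConjugate ENNReal

noncomputable section

namespace Fermat.Agent.LT.T7.H189

open Fermat.Agent.LT.H556 Fermat.Agent.LT.H556.A0 Fermat.Agent.LT.T7 Fermat.Agent.LT.T7.Rigid
open Fermat.Agent.LT.T7.H57

attribute [local instance] Fermat.Agent.LT.T5.instMeasurableSpaceG

variable (K : Type) [Field K] [NumberField K]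

/-- The period of `|φ|²` is bounded by `C² ν(D)`. -/
theorem norm_per_le189 {m : MeasurableSpace (Adl K)} (ν : Measure (Adl K)) (D : Set (Adl K))
    (hfin : ν D < ⊤) (φ : G K → ℂ) (C : ℝ) (hb : ∀ g : G K, ‖φ g‖ ≤ C) (g : G K) :
    ‖per57 K ν D φ φ g‖ ≤ C ^ 2 * (ν D).toReal := by
  unfold per57
  refine norm_setIntegral_le_of_norm_le_const hfin fun x _ => ?_
  rw [norm_mul, RCLike.norm_conj, pow_two]
  have h0 : 0 ≤ ‖φ (Fermat.Agent.LT.T3.unip K x * g)‖ := norm_nonneg _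
  exact mul_le_mul (hb _) (hb _) h0 (h0.trans (hb _))

/-- The diagonal case of Parseval: `∑_α |W(torK α g)|² ≤ ν(D)² C²`. -/
theorem diag_parseval189 (hP : ParsevalC57 K) :
    letI : MeasurableSpace (Adl K) := borel (Adl K)
    ∀ ψ : AddChar (Adl K) Circle, Fermat.Agent.LT.T3.IsStdChar K ψ →
      Fermat.Agent.LT.T3.IsNonDeg K ψ →
    ∀ (ν : Measure (Adl K)) (D : Set (Adl K)), ν.IsAddHaarMeasure → MeasurableSet D →
      IsAddFundamentalDomain ((algebraMap K (Adl K)).toAddMonoidHom.range) D ν → ν D < ⊤ →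
    ∀ (φ : G K → ℂ) (C : ℝ), Continuous φ → (∀ g : G K, ‖φ g‖ ≤ C) → IsLeftInv57 K φ →
      IsCuspidalFn φ → ∀ g : G K,
        Summable (fun α : Kˣ => ‖whit ψ ν D φ (Fermat.Agent.LT.T3.torK K α * g)‖ ^ 2) ∧
        ∑' α : Kˣ, ‖whit ψ ν D φ (Fermat.Agent.LT.T3.torK K α * g)‖ ^ 2
          ≤ (ν D).toReal * (C ^ 2 * (ν D).toReal) := by
  letI : MeasurableSpace (Adl K) := borel (Adl K)
  intro ψ hψ hnd ν D hν hD hfd hfin φ C hc hb hi hcu g
  obtain ⟨hs, he⟩ := hP ψ hψ hnd ν D hν hD hfd hfin φ φ hc ⟨C, hb⟩ hi hcu hc ⟨C, hb⟩ hi hcu g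
  have hterm : ∀ α : Kˣ, ww57 K ψ ν D φ φ (Fermat.Agent.LT.T3.torK K α * g)
      = ((‖whit ψ ν D φ (Fermat.Agent.LT.T3.torK K α * g)‖ ^ 2 : ℝ) : ℂ) := by
    intro α
    unfold ww57
    rw [Complex.mul_conj, Complex.normSq_eq_norm_sq]
  simp_rw [hterm] at hs he
  have hs' : Summable (fun α : Kˣ => ‖whit ψ ν D φ (Fermat.Agent.LT.T3.torK K α * g)‖ ^ 2) :=
    Complex.summable_ofReal.mp hs
  refine ⟨hs', ?_⟩
  rw [← Complex.ofReal_tsum] at he
  have hnn : 0 ≤ ∑' α : Kˣ, ‖whit ψ ν D φ (Fermat.Agent.LT.T3.torK K α * g)‖ ^ 2 :=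
    tsum_nonneg fun α => by positivity
  have h1 : ∑' α : Kˣ, ‖whit ψ ν D φ (Fermat.Agent.LT.T3.torK K α * g)‖ ^ 2
      = ‖(((ν D).toReal : ℝ) : ℂ) * per57 K ν D φ φ g‖ := by
    rw [he, Complex.norm_real, Real.norm_of_nonneg hnn]
  rw [h1, norm_mul, Complex.norm_real, Real.norm_of_nonneg ENNReal.toReal_nonneg]
  exact mul_le_mul_of_nonneg_left (norm_per_le189 K ν D hfin φ C hb g) ENNReal.toReal_nonneg

/-- **T7.14.6a-F.2 `ParsBddC57`** from `ParsevalC57`. -/
theorem parsBddC_of_parseval189 (hP : ParsevalC57 K) : ParsBddC57 K := by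
  letI : MeasurableSpace (Adl K) := borel (Adl K)
  intro ψ hψ hnd ν D hν hD hfd hfin φ₁ φ₁' hc₁ hb₁ hi₁ hcu₁ hc₁' hb₁' hi₁' hcu₁'
  obtain ⟨C₁, hC₁⟩ := hb₁
  obtain ⟨C₁', hC₁'⟩ := hb₁'
  refine ⟨((ν D).toReal * (C₁ ^ 2 * (ν D).toReal)
    + (ν D).toReal * (C₁' ^ 2 * (ν D).toReal)) / 2, fun g => ?_⟩
  obtain ⟨hs₁, hle₁⟩ :=
    diag_parseval189 K hP ψ hψ hnd ν D hν hD hfd hfin φ₁ C₁ hc₁ hC₁ hi₁ hcu₁ g
  obtain ⟨hs₁', hle₁'⟩ :=
    diag_parseval189 K hP ψ hψ hnd ν D hν hD hfd hfin φ₁' C₁' hc₁' hC₁' hi₁' hcu₁' g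
  have hpt : ∀ α : Kˣ, ‖ww57 K ψ ν D φ₁ φ₁' (Fermat.Agent.LT.T3.torK K α * g)‖
      ≤ (‖whit ψ ν D φ₁ (Fermat.Agent.LT.T3.torK K α * g)‖ ^ 2
        + ‖whit ψ ν D φ₁' (Fermat.Agent.LT.T3.torK K α * g)‖ ^ 2) / 2 := by
    intro α
    unfold ww57
    rw [norm_mul, RCLike.norm_conj]
    nlinarith [sq_nonneg (‖whit ψ ν D φ₁ (Fermat.Agent.LT.T3.torK K α * g)‖
      - ‖whit ψ ν D φ₁' (Fermat.Agent.LT.T3.torK K α * g)‖)]
  have hsum : Summable (fun α : Kˣ =>
      (‖whit ψ ν D φ₁ (Fermat.Agent.LT.T3.torK K α * g)‖ ^ 2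
        + ‖whit ψ ν D φ₁' (Fermat.Agent.LT.T3.torK K α * g)‖ ^ 2) / 2) :=
    (hs₁.add hs₁').div_const 2
  have hsw : Summable (fun α : Kˣ =>
      ‖ww57 K ψ ν D φ₁ φ₁' (Fermat.Agent.LT.T3.torK K α * g)‖) :=
    Summable.of_nonneg_of_le (fun α => norm_nonneg _) hpt hsum
  calc ∑' α : Kˣ, ‖ww57 K ψ ν D φ₁ φ₁' (Fermat.Agent.LT.T3.torK K α * g)‖
      ≤ ∑' α : Kˣ, (‖whit ψ ν D φ₁ (Fermat.Agent.LT.T3.torK K α * g)‖ ^ 2
        + ‖whit ψ ν D φ₁' (Fermat.Agent.LT.T3.torK K α * g)‖ ^ 2) / 2 :=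
        hsw.tsum_le_tsum hpt hsum
    _ = (∑' α : Kˣ, ‖whit ψ ν D φ₁ (Fermat.Agent.LT.T3.torK K α * g)‖ ^ 2
        + ∑' α : Kˣ, ‖whit ψ ν D φ₁' (Fermat.Agent.LT.T3.torK K α * g)‖ ^ 2) / 2 := by
        rw [tsum_div_const, hs₁.tsum_add hs₁']
    _ ≤ ((ν D).toReal * (C₁ ^ 2 * (ν D).toReal)
        + (ν D).toReal * (C₁' ^ 2 * (ν D).toReal)) / 2 := by
        linarith

/-- VERBATIM check. -/
example (hP : ParsevalC57 K) : Fermat.Agent.LT.T7.H57.ParsBddC57 K :=
  parsBddC_of_parseval189 K hP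

end Fermat.Agent.LT.T7.H189

end

end
-- ===== PACK-END LT/T7/H189/ParsBdd.lean

-- ===== PACK-BEGIN LT/T7/Level2.lean
section











/-!
# Row LT, tower T7 (architect helper797): LEVEL 2 of the node `TraceWordsRegP` (cyclic case)

OFF-MAIN.  Definitions, frozen Props, PROVED assembly.  No `sorry`, nothing assumed.
ADDITIVE (new names only).  Vocabulary: A0, `T5/Spec.lean` v4, `T7/Matching.lean`.

    traceWordsRegP_of : SupplyC P K K' → SpecUpC K K' → SpecDownC K K' → SpecIdC K K'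
                          → TraceWordsRegP P K K'
    (SpecIdC K K' is PROVED in `Matching.lean` from the two towers of T5 and the leaf `GeomC`.)

## The three nodes

Setting: `K'/K` cyclic of odd prime degree `ℓ`, `K` totally complex, `Φ` a cusp form over `K'`
(A0), constant on the fibres, with the EK condition `P`.

* **`SupplyC P K K'`** (geometric half; T3 + T5 + T6): there is an `L2Data` with `IsL2Data`:
  the generator `σ`, the frames, a BASE LEVEL `𝔑₀ ⊆ Φ.level` of `K'`, the set `S' = {w ∣ 𝔑₀}`,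
  a place `u` of `K` with the `σ`-orbit `o 0, …, o (ℓ-1)` over it (`ℓ` DISTINCT places: `u`
  splits), in `S'`, prime to `Φ.level`, and, FOR EVERY `g ∈ GL₂(𝔸_{K'})` supported at the BAD
  places (`S'` minus the orbit): a level `𝔫 g` of `K` (`u ∣ 𝔫 g`, `𝔑_g = (𝔫 g) 𝒪_{K'} ⊆ 𝔑₀`, same
  prime divisors as `𝔑₀`; the level DEPENDS ON `g`: the matching at the bad places,
  `T6.BadMatchC`, gives a function `f` bi-invariant under `U(m)` with `m` depending on `φ`), and
  TWO FAMILIES of test functions `φ' g X k m` (over `K'`, level `𝔑_g`), `f g X k m` (over `K`,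
  level `𝔫 g`), indexed by a word `X` outside `S'`, the central shift `k ∈ ℤ` and the Iwahori
  depth `m ∈ ℕ` at `o 0`, such that
  - every member is a product of two Eisenstein-killing test functions (`IsEKProd`), and is
    regular (`T5.IsTwRegular`) for `m ≥ m₀ g X`;
  - `φ' g X k m` and `f g X k m` are MATCHED (`IsGlobMatch`) for `m ≥ m₀ g X`;
  - (OP-up) on a cusp function `ψ` of the BASE level `𝔑₀` which is invariant under the positive
    scalars at infinity and under the Iwahori subgroups along the orbit, with joint eigen-data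
    `C` outside `S'` (`IsEigFn`):
    `R(φ' g X k m) ψ = X(C) · c_g(C) · [U g U] Z^k 𝒰^m ψ`,
    `[U g U] = ` the sum of the right translates over a system of representatives of
    `U(𝔑₀) g U(𝔑₀) / U(𝔑₀)`, `Z` = translation by a scalar uniformiser at `o 0`, `𝒰 = q^{-1/2}`
    times the sum of the right translates over `I t I / I` at `o 0`; `c_g(C)` = the scalar of
    the Eisenstein-killing base (built for the level `𝔑_g`), `c_g(C) ≠ 0` on the class of `Φ`
    (THIS is where `P` is used);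
  - (OP-down) on such a `ψ` over `K` with eigen-data `c` and every `Ĉ` = base change of `c`:
    `R(f g X k m) ψ = X(Ĉ) · R(f g [] 0 0) Z^k 𝒰^m ψ`; `R(f g [] 0 0)` preserves the eigen-classes
    and commutes with `Z` and `𝒰` at `u`;
  - (KILL) every member kills the cusp functions (of level `𝔑_g`, resp. `𝔫 g`) orthogonal to the
    invariant ones (upstairs: of the base level `𝔑₀`), and the orthogonal projection on the
    invariant ones exists (averaging over `U(𝔑₀) / U(𝔑_g)`, over `I / U` along the orbit and over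
    the compact torus `A_∞ / ⟨r⟩ Λ`, ruling R1).
* **`SpecUpC K K'`** (spectral half upstairs + NON-VANISHING; T2 + linear algebra + multiplicity
  one in module form): for such data there are `g`, a complete orthonormal sequence `e'` and
  atoms `(C, b', l', y)` with `specSide (φ' g X k m) = ∑ X(C_t) y_t b'_t^k l'_t^m` for
  `m ≥ m₀ g X`, and the total coefficient of the class of `Φ` at ONE point `(b₀, l₀)` is not `0`.
* **`SpecDownC K K'`** (spectral half downstairs + REALISATION): for such data and every `g` there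
  are `e` and atoms `(c, Ĉ, b, l, x)`, `Ĉ_i` the base change of `c_i`, with
  `specSide (f g X k m) = ∑ X(Ĉ_i) x_i b_i^k l_i^m` for `m ≥ m₀ g X`; an atom with `Ĉ_i`
  spherical of parameter `0` is realised by a cusp form as in A0.

## Proofs (sketch; the sub-architects cut them)

SUPPLY.  `φ₁, φ₂` = Eisenstein-killing test functions of `T3` for the level `𝔑_g` (product
structure: Hecke polynomial at the EK place(s) ⊗ archimedean factor ⊗ unit `e_{U(𝔑₀)}` elsewhere,
Iwahori along the orbit); `φ' g X k m = (X · φ₁) ⋆ [U g U] ⋆ φ₂ ⋆ ρ_{k,m}`, `ρ_{k,m} = q^{-m/2} 1_{ϖ^k I t^m I} / vol I` at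
`o 0`; regular for `m ≥ m₀` by `T5.RegularOfIwahoriZ` (closed, helper32) - the compact set depends
on `(g, X)` but NOT on `k`.  `f g X k m`: local matching of T6 place by place (`FundLemmaC` and
`SatakeEigenC` outside `S'`, `SplitMatchC` at `u` and at the split infinite places, `BadMatchC` at
the bad places: the matching is NOT multiplicative there, so downstairs `f = f₁ ⋆ f₂` with the
unit `e_{U(𝔫 g)}` in `f₁` and the matched function of `1_{U g U}` in `f₂`), all constants absorbed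
in `f`; global orbital integral = volume × product of local ones.  KILL: `♮`-averaging.
SPEC-UP.  Eigenbasis of `T2` (class of T5), classes of finite dimension; the classes which are
not `σ`-stable contribute `0`; on a stable class `V_C`: joint generalised eigenspaces `W` of the
commuting operators `Z_j, 𝒰_j` along the orbit, `R(σ)` permutes them, only the stable ones
contribute, `tr([U g U] Z^k 𝒰^m R(σ) | W) = b^k l^m tr([U g U] R(σ) | W)` (nilpotency trick,
asset helper822); summability by Weyl's inequality + `T2.HSBound`; shape of `(b, l)`: asset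
helper822 `RegParam`; non-vanishing: multiplicity one in module form (helper963, from
`T2.H941.MatchC`) + asset helper616 `RegTrace`.
SPEC-DOWN.  The same without `σ` (commuting operators: simultaneous triangular form).
-/

set_option autoImplicit false

open AutomorphicForm IsDedekindDomain NumberField MeasureTheory
open scoped ComplexConjugate

noncomputable section

namespace Fermat.Agent.LT.T7

open Fermat.Agent.LT.H556 Fermat.Agent.LT.H556.A0

attribute [local instance] Fermat.Agent.LT.T5.instMeasurableSpaceG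

/-! ## 1. Operators on functions on `GL₂(𝔸_K)` -/

section Ops

variable {K : Type} [Field K] [NumberField K]

/-- The sum of the right translates by the elements of `H`. -/
def cosetOp (H : Finset (G K)) (ψ : G K → ℂ) : G K → ℂ := fun x => ∑ h ∈ H, ψ (x * h)

/-- The normalised Iwahori operator `𝒰 = q_w^{-1/2} ∑_{h ∈ H} R(h)` at `w`. -/
def iwOp (w : HeightOneSpectrum (𝓞 K)) (H : Finset (G K)) (ψ : G K → ℂ) : G K → ℂ :=
  fun x => ((Real.sqrt (Ideal.absNorm w.asIdeal : ℝ) : ℝ) : ℂ)⁻¹ * ∑ h ∈ H, ψ (x * h)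

/-- The translation by `z ^ k`. -/
def shiftOp (z : G K) (k : ℤ) (ψ : G K → ℂ) : G K → ℂ := fun x => ψ (x * z ^ k)

/-- A full system of representatives of `I_w diag(ϖ_w, 1) I_w / I_w`: `q_w` elements supported
at `w`, in the double coset, pairwise inequivalent modulo the Iwahori subgroup on the right. -/
def IsIwCosetSystem (w : HeightOneSpectrum (𝓞 K)) (H : Finset (G K)) : Prop :=
  H.card = Ideal.absNorm w.asIdeal ∧
    (∀ h ∈ H, IsLocalAtFin w h ∧ T5.InIwahoriCoset w 1 h) ∧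
    ∀ h ∈ H, ∀ h' ∈ H, h ≠ h' → ¬ T5.InIwahori w (h⁻¹ * h')

/-- A full system of representatives of `U(𝔫) g U(𝔫) / U(𝔫)`. -/
def IsDblCosetSystem (𝔫 : Ideal (𝓞 K)) (g : G K) (H : Finset (G K)) : Prop :=
  (∀ h ∈ H, ∃ u₁ u₂ : G K, InLevelGroup 𝔫 u₁ ∧ InLevelGroup 𝔫 u₂ ∧ h = u₁ * g * u₂) ∧
    (∀ h ∈ H, ∀ h' ∈ H, h ≠ h' → ¬ InLevelGroup 𝔫 (h⁻¹ * h')) ∧
    ∀ u : G K, InLevelGroup 𝔫 u → ∃ h ∈ H, InLevelGroup 𝔫 (h⁻¹ * (u * g))

/-- `ψ` is right invariant under the Iwahori subgroups at the places `o 0, …, o (l-1)`. -/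
def IsIwInv (l : ℕ) (o : ℕ → HeightOneSpectrum (𝓞 K)) (ψ : G K → ℂ) : Prop :=
  ∀ h : G K, (∀ w : InfinitePlace K, TrivAtInf w h) →
    (∀ v : HeightOneSpectrum (𝓞 K), (∀ j < l, v ≠ o j) → TrivAtFin v h) →
    (∀ j < l, T5.InIwahori (o j) h) → ∀ x : G K, ψ (x * h) = ψ x

/-- `ψ` is an eigenfunction of the sphere means at the (complex) place `w`, with eigenvalue
function `m` (`A0.MeanValueComplex` is the case `m = sph0`). -/
def MeanEig (ψ : G K → ℂ) (w : InfinitePlace K) (m : ℝ → ℂ) : Prop :=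
  ∀ d : ℝ, 0 < d → ∀ Y : ℝ → ℝ → G K,
    (∀ α β : ℝ, IsLocalAtInf w (Y α β) ∧ infComp w (Y α β) = rotZ α * rotY β * torus d) →
    ∀ g : G K,
      (∫ α in (0 : ℝ)..(2 * Real.pi), ∫ β in (0 : ℝ)..Real.pi,
          ψ (g * Y α β) * ((Real.sin β : ℝ) : ℂ)) = m d * ψ g

/-- The INVARIANT cusp functions: cusp functions of level `𝔫` (trivial `K_∞`-type, invariant
under the ray generator `r`) which are invariant under the positive scalars at every infinite
place and under the Iwahori subgroups along the orbit. -/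
structure IsWFn (𝔫 : Ideal (𝓞 K)) (r : G K) (l : ℕ) (o : ℕ → HeightOneSpectrum (𝓞 K))
    (ψ : G K → ℂ) : Prop where
  cusp : T5.IsCuspFn 𝔫 T5.trivType r ψ
  arch_scalar : ∀ (w : InfinitePlace K) (z : G K), IsArchPosScalar w z →
    ∀ g : G K, ψ (g * z) = ψ g
  iw : IsIwInv l o ψ

/-- An invariant cusp function with joint eigen-data `C`: eigenfunction of the Hecke operators at
the places prime to `𝔫` and of the sphere means at the infinite places. -/
structure IsEigFn (𝔫 : Ideal (𝓞 K)) (r : G K) (l : ℕ) (o : ℕ → HeightOneSpectrum (𝓞 K))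
    (ψ : G K → ℂ) (C : EigData K) : Prop where
  inv : IsWFn 𝔫 r l o ψ
  hecke : ∀ v : HeightOneSpectrum (𝓞 K), ¬ v.asIdeal ∣ 𝔫 → IsHeckeEigenAt ψ v (C.a v) (C.b v)
  mean : ∀ w : InfinitePlace K, MeanEig ψ w (C.m w)

/-- `φ` is a product of two Eisenstein-killing test functions with Eisenstein-killing adjoints
(the hypothesis of `T5.STFsigma`). -/
def IsEKProd (𝔫 : Ideal (𝓞 K)) (R : Frame5 K) (φ : G K → ℂ) : Prop :=
  T5.IsTestFn 𝔫 T5.trivType φ ∧
    ∃ φ₁ φ₂ : G K → ℂ, T5.IsTestFn 𝔫 T5.trivType φ₁ ∧ T5.IsTestFn 𝔫 T5.trivType φ₂ ∧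
      T5.IsEK R.μ φ₁ ∧ T5.IsEK R.μ (T5.adjointFn φ₁) ∧
      T5.IsEK R.μ φ₂ ∧ T5.IsEK R.μ (T5.adjointFn φ₂) ∧ φ = T5.conv R.μ φ₁ φ₂

theorem isAdm5_of_ekProd {s : T5.AdelicAut K} {l : ℕ} {k : Subfield K} {𝔫 : Ideal (𝓞 K)}
    {R : Frame5 K} {φ : G K → ℂ} (h : IsEKProd 𝔫 R φ) (hr : T5.IsTwRegular s l k φ) :
    IsAdm5 s l k 𝔫 R φ :=
  ⟨h.1, hr, h.2⟩

theorem isRegParam_mono {R R' : ℝ} (h : R ≤ R') {b l : ℂ} (hp : IsRegParam R b l) :
    IsRegParam R' b l :=
  ⟨hp.1, hp.2.1.trans h, hp.2.2⟩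

end Ops

/-! ## 2. The data of level 2 -/

section Data

variable (K K' : Type) [Field K] [NumberField K] [Field K'] [NumberField K'] [Algebra K K']

/-- The data supplied by the geometric half. -/
structure L2Data where
  /-- the degree -/
  l : ℕ
  /-- the generator of the Galois group with its extension to the adeles -/
  s : T5.AdelicAut K'
  /-- the image of `K` in `K'` -/
  k : Subfield K'
  /-- the frame downstairs -/
  R : Frame5 K
  /-- the frame upstairs -/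
  R' : Frame5 K'
  /-- the base level upstairs -/
  𝔑₀ : Ideal (𝓞 K')
  /-- the places of `K'` dividing the base level -/
  S' : Finset (HeightOneSpectrum (𝓞 K'))
  /-- the regular place of `K` -/
  u : HeightOneSpectrum (𝓞 K)
  /-- the `σ`-orbit over `u` -/
  o : ℕ → HeightOneSpectrum (𝓞 K')
  /-- the level downstairs for the bad element `g` -/
  𝔫 : G K' → Ideal (𝓞 K)
  /-- the scalar of the Eisenstein-killing base on the eigen-classes -/
  c : G K' → EigData K' → ℂ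
  /-- the family upstairs -/
  φ' : G K' → List (Gen K') → ℤ → ℕ → G K' → ℂ
  /-- the family downstairs -/
  f : G K' → List (Gen K') → ℤ → ℕ → G K → ℂ
  /-- the regular depth -/
  m₀ : G K' → List (Gen K') → ℕ

variable {K K'}

/-- The data of the comparison for the bad element `g`: levels `𝔫 g` and `(𝔫 g) 𝒪_{K'}`. -/
def L2Data.comp (Dt : L2Data K K') (g : G K') : CompData K K' where
  l := Dt.l
  s := Dt.s
  k := Dt.k
  𝔫 := Dt.𝔫 g
  𝔑 := Ideal.map (algebraMap (𝓞 K) (𝓞 K')) (Dt.𝔫 g)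
  R := Dt.R
  R' := Dt.R'

/-- The level upstairs for the bad element `g`. -/
def L2Data.𝔑 (Dt : L2Data K K') (g : G K') : Ideal (𝓞 K') :=
  Ideal.map (algebraMap (𝓞 K) (𝓞 K')) (Dt.𝔫 g)

/-- `g` is supported at the bad places: the places of `S'` outside the orbit. -/
def L2Data.IsBad (Dt : L2Data K K') (g : G K') : Prop :=
  (∀ w : InfinitePlace K', TrivAtInf w g) ∧
    ∀ v : HeightOneSpectrum (𝓞 K'), (v ∉ Dt.S' ∨ ∃ j < Dt.l, v = Dt.o j) → TrivAtFin v g

/-- `Ĉ` (over `K'`) is the base change of the eigen-data `c` (over `K`): the finite part outside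
`S'` as in `IsBCEig`, the archimedean part by restriction of the places. -/
def IsBCData (c : EigData K) (C : EigData K') (S' : Finset (HeightOneSpectrum (𝓞 K'))) : Prop :=
  (∀ w : HeightOneSpectrum (𝓞 K'), w ∉ S' →
      ∀ (v : HeightOneSpectrum (𝓞 K)) (f : ℕ), HasResDeg K K' v w f →
        C.a w = satakePow f (c.a v) (c.b v) ∧ C.b w = c.b v ^ f) ∧
    ∀ (w : InfinitePlace K') (d : ℝ), C.m w d = c.m (w.comap (algebraMap K K')) d

/-- **THE PROPERTIES OF THE DATA OF LEVEL 2.**  See the header. -/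
structure IsL2Data (ℓ : ℕ) (Φ : HeckeEigensystem K' ℂ) (Dt : L2Data K K') : Prop where
  deg : Dt.l = ℓ
  comp : ∀ g : G K', Dt.IsBad g → IsCompData (Dt.comp g)
  level_le : Dt.𝔑₀ ≤ Φ.level
  level_g : ∀ g : G K', Dt.IsBad g → Dt.𝔑 g ≤ Dt.𝔑₀
  mem_S' : ∀ w : HeightOneSpectrum (𝓞 K'), w ∈ Dt.S' ↔ w.asIdeal ∣ Dt.𝔑₀
  mem_S'_g : ∀ g : G K', Dt.IsBad g →
    ∀ w : HeightOneSpectrum (𝓞 K'), w ∈ Dt.S' ↔ w.asIdeal ∣ Dt.𝔑 g
  const : ∀ w : HeightOneSpectrum (𝓞 K'), w ∉ Dt.S' →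
    ∀ w' : HeightOneSpectrum (𝓞 K'), w' ∉ Dt.S' → ∀ v : HeightOneSpectrum (𝓞 K),
      PlaceOver K K' v w → PlaceOver K K' v w' → Φ.a w = Φ.a w' ∧ Φ.b w = Φ.b w'
  orbit_rel : ∀ j : ℕ, T5.PlaceRel Dt.s (Dt.o j) (Dt.o (j + 1))
  orbit_ne : ∀ j : ℕ, 0 < j → j < ℓ → Dt.o j ≠ Dt.o 0
  orbit_over : ∀ j : ℕ, PlaceOver K K' Dt.u (Dt.o j)
  orbit_level : ∀ j : ℕ, Dt.o j ∈ Dt.S'
  orbit_good : ∀ j : ℕ, ¬ (Dt.o j).asIdeal ∣ Φ.level
  u_level : ∀ g : G K', Dt.IsBad g → Dt.u.asIdeal ∣ Dt.𝔫 g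
  /-- the members upstairs are products of Eisenstein-killing test functions -/
  ekprod_up : ∀ (g : G K') (X : List (Gen K')) (k : ℤ) (m : ℕ), Dt.IsBad g →
    (∀ x ∈ X, x.Out Dt.S') → IsEKProd (Dt.𝔑 g) Dt.R' (Dt.φ' g X k m)
  /-- the members downstairs are products of Eisenstein-killing test functions -/
  ekprod_down : ∀ (g : G K') (X : List (Gen K')) (k : ℤ) (m : ℕ), Dt.IsBad g →
    (∀ x ∈ X, x.Out Dt.S') → IsEKProd (Dt.𝔫 g) Dt.R (Dt.f g X k m)
  /-- regularity upstairs from the depth `m₀ g X` on -/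
  reg_up : ∀ (g : G K') (X : List (Gen K')) (k : ℤ) (m : ℕ), Dt.IsBad g →
    (∀ x ∈ X, x.Out Dt.S') → Dt.m₀ g X ≤ m →
    T5.IsTwRegular Dt.s Dt.l Dt.k (Dt.φ' g X k m)
  /-- regularity downstairs from the depth `m₀ g X` on -/
  reg_down : ∀ (g : G K') (X : List (Gen K')) (k : ℤ) (m : ℕ), Dt.IsBad g →
    (∀ x ∈ X, x.Out Dt.S') → Dt.m₀ g X ≤ m →
    T5.IsTwRegular (T5.AdelicAut.id K) 1 ⊤ (Dt.f g X k m)
  /-- the members are matched from the depth `m₀ g X` on -/
  matched : ∀ (g : G K') (X : List (Gen K')) (k : ℤ) (m : ℕ), Dt.IsBad g →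
    (∀ x ∈ X, x.Out Dt.S') → Dt.m₀ g X ≤ m →
    IsGlobMatch (Dt.comp g) (Dt.φ' g X k m) (Dt.f g X k m)
  /-- the scalar of the base does not vanish on the class of `Φ` -/
  base_ne : ∀ g : G K', Dt.IsBad g →
    ∀ C : EigData K', C.AgreeOut Dt.S' (eigOf Φ) → Dt.c g C ≠ 0
  /-- (OP-up) -/
  op_up : ∀ (g : G K') (X : List (Gen K')) (k : ℤ) (m : ℕ), Dt.IsBad g →
    (∀ x ∈ X, x.Out Dt.S') →
    ∀ (ψ : G K' → ℂ) (C : EigData K'), IsEigFn Dt.𝔑₀ Dt.R'.r ℓ Dt.o ψ C →
    ∀ (Hg H : Finset (G K')) (z : G K'), IsDblCosetSystem Dt.𝔑₀ g Hg →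
      IsIwCosetSystem (Dt.o 0) H → IsScalarUniformizerAt (Dt.o 0) z →
      ∀ x : G K', T5.Rconv Dt.R'.μ (Dt.φ' g X k m) ψ x
        = wordEv X C * Dt.c g C * cosetOp Hg (shiftOp z k ((iwOp (Dt.o 0) H)^[m] ψ)) x
  /-- (KILL-up) -/
  kill_up : ∀ (g : G K') (X : List (Gen K')) (k : ℤ) (m : ℕ), Dt.IsBad g →
    (∀ x ∈ X, x.Out Dt.S') →
    ∀ ψ : G K' → ℂ, T5.IsCuspFn (Dt.𝔑 g) T5.trivType Dt.R'.r ψ →
      (∀ χ : G K' → ℂ, IsWFn Dt.𝔑₀ Dt.R'.r ℓ Dt.o χ →
        T5.innerD Dt.R'.μ Dt.R'.F ψ χ = 0) →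
      ∀ x : G K', T5.Rconv Dt.R'.μ (Dt.φ' g X k m) ψ x = 0
  /-- the orthogonal projection on the invariant cusp functions upstairs -/
  proj_up : ∀ g : G K', Dt.IsBad g →
    ∀ ψ : G K' → ℂ, T5.IsCuspFn (Dt.𝔑 g) T5.trivType Dt.R'.r ψ →
    ∃ ψ₁ : G K' → ℂ, IsWFn Dt.𝔑₀ Dt.R'.r ℓ Dt.o ψ₁ ∧
      ∀ χ : G K' → ℂ, IsWFn Dt.𝔑₀ Dt.R'.r ℓ Dt.o χ →
        T5.innerD Dt.R'.μ Dt.R'.F (fun x => ψ x - ψ₁ x) χ = 0
  /-- (OP-down) -/
  op_down : ∀ (g : G K') (X : List (Gen K')) (k : ℤ) (m : ℕ), Dt.IsBad g →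
    (∀ x ∈ X, x.Out Dt.S') →
    ∀ (ψ : G K → ℂ) (c : EigData K) (C : EigData K'),
      IsEigFn (Dt.𝔫 g) Dt.R.r 1 (fun _ => Dt.u) ψ c → IsBCData c C Dt.S' →
    ∀ (H : Finset (G K)) (z : G K), IsIwCosetSystem Dt.u H → IsScalarUniformizerAt Dt.u z →
      ∀ x : G K, T5.Rconv Dt.R.μ (Dt.f g X k m) ψ x
        = wordEv X C
          * T5.Rconv Dt.R.μ (Dt.f g [] 0 0) (shiftOp z k ((iwOp Dt.u H)^[m] ψ)) x
  /-- the base downstairs preserves the eigen-classes -/
  class_down : ∀ g : G K', Dt.IsBad g → ∀ (ψ : G K → ℂ) (c : EigData K),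
    IsEigFn (Dt.𝔫 g) Dt.R.r 1 (fun _ => Dt.u) ψ c →
    IsEigFn (Dt.𝔫 g) Dt.R.r 1 (fun _ => Dt.u) (T5.Rconv Dt.R.μ (Dt.f g [] 0 0) ψ) c
  /-- the base downstairs commutes with the operators at `u` -/
  comm_down : ∀ g : G K', Dt.IsBad g → ∀ ψ : G K → ℂ,
    IsWFn (Dt.𝔫 g) Dt.R.r 1 (fun _ => Dt.u) ψ →
    ∀ (H : Finset (G K)) (z : G K), IsIwCosetSystem Dt.u H → IsScalarUniformizerAt Dt.u z →
      (∀ x : G K, T5.Rconv Dt.R.μ (Dt.f g [] 0 0) (iwOp Dt.u H ψ) x
        = iwOp Dt.u H (T5.Rconv Dt.R.μ (Dt.f g [] 0 0) ψ) x) ∧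
      ∀ (k : ℤ) (x : G K), T5.Rconv Dt.R.μ (Dt.f g [] 0 0) (shiftOp z k ψ) x
        = shiftOp z k (T5.Rconv Dt.R.μ (Dt.f g [] 0 0) ψ) x
  /-- (KILL-down) -/
  kill_down : ∀ (g : G K') (X : List (Gen K')) (k : ℤ) (m : ℕ), Dt.IsBad g →
    (∀ x ∈ X, x.Out Dt.S') →
    ∀ ψ : G K → ℂ, T5.IsCuspFn (Dt.𝔫 g) T5.trivType Dt.R.r ψ →
      (∀ χ : G K → ℂ, IsWFn (Dt.𝔫 g) Dt.R.r 1 (fun _ => Dt.u) χ →
        T5.innerD Dt.R.μ Dt.R.F ψ χ = 0) →
      ∀ x : G K, T5.Rconv Dt.R.μ (Dt.f g X k m) ψ x = 0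
  /-- the orthogonal projection on the invariant cusp functions downstairs -/
  proj_down : ∀ g : G K', Dt.IsBad g →
    ∀ ψ : G K → ℂ, T5.IsCuspFn (Dt.𝔫 g) T5.trivType Dt.R.r ψ →
    ∃ ψ₁ : G K → ℂ, IsWFn (Dt.𝔫 g) Dt.R.r 1 (fun _ => Dt.u) ψ₁ ∧
      ∀ χ : G K → ℂ, IsWFn (Dt.𝔫 g) Dt.R.r 1 (fun _ => Dt.u) χ →
        T5.innerD Dt.R.μ Dt.R.F (fun x => ψ x - ψ₁ x) χ = 0

end Data

/-! ## 3. The three nodes -/

section Nodes

variable (P : EKCond)
variable (K K' : Type) [Field K] [NumberField K] [Field K'] [NumberField K'] [Algebra K K']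

/-- **NODE T7.L2.1 = SUPPLY** (geometric half: T3 + T5 + T6).  See the header. -/
def SupplyC : Prop :=
  ∀ ℓ : ℕ, IsCycExt K K' ℓ → ℓ ≠ 2 → TotCplx K →
    ∀ Φ : HeckeEigensystem K' ℂ, A0.IsCuspAdelicSph0 K' Φ → ConstOnFibres K Φ → P K' Φ →
      ∃ Dt : L2Data K K', IsL2Data ℓ Φ Dt

/-- **NODE T7.L2.2 = SPEC-UP** (spectral half upstairs + non-vanishing).  See the header. -/
def SpecUpC : Prop :=
  ∀ ℓ : ℕ, IsCycExt K K' ℓ → ℓ ≠ 2 → TotCplx K →
    ∀ Φ : HeckeEigensystem K' ℂ, A0.IsCuspAdelicSph0 K' Φ → ConstOnFibres K Φ →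
      ∀ Dt : L2Data K K', IsL2Data ℓ Φ Dt →
      ∃ (g : G K') (e' : ℕ → G K' → ℂ) (ι' : Type) (C : ι' → EigData K') (b' l' : ι' → ℂ)
        (R : ℝ) (y : ι' → ℂ),
        Dt.IsBad g ∧
        T5.IsCuspONB (Dt.𝔑 g) T5.trivType Dt.R'.r Dt.R'.μ Dt.R'.F e' ∧
        Summable (fun j => ‖y j‖) ∧ (∀ j, (C j).IsUnitaryOut Dt.S') ∧
        (∀ j, IsRegParam R (b' j) (l' j)) ∧
        (∀ X : List (Gen K'), (∀ x ∈ X, x.Out Dt.S') → ∀ (k : ℤ) (m : ℕ), Dt.m₀ g X ≤ m →
          specSide Dt.s Dt.R' e' (Dt.φ' g X k m)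
            = ∑' j, wordEv X (C j) * y j * b' j ^ k * l' j ^ m) ∧
        ∃ b₀ l₀ : ℂ,
          (∑' j : {j : {j : ι' // b' j = b₀ ∧ l' j = l₀} //
              (C j.1).AgreeOut Dt.S' (eigOf Φ)}, y j.1.1) ≠ 0

/-- **NODE T7.L2.3 = SPEC-DOWN** (spectral half downstairs + realisation).  See the header. -/
def SpecDownC : Prop :=
  ∀ ℓ : ℕ, IsCycExt K K' ℓ → ℓ ≠ 2 → TotCplx K →
    ∀ Φ : HeckeEigensystem K' ℂ, A0.IsCuspAdelicSph0 K' Φ → ConstOnFibres K Φ →
      ∀ Dt : L2Data K K', IsL2Data ℓ Φ Dt → ∀ g : G K', Dt.IsBad g →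
      ∃ (e : ℕ → G K → ℂ) (ι : Type) (c : ι → HeckeEigensystem K ℂ) (Ch : ι → EigData K')
        (b l : ι → ℂ) (R : ℝ) (x : ι → ℂ),
        T5.IsCuspONB (Dt.𝔫 g) T5.trivType Dt.R.r Dt.R.μ Dt.R.F e ∧
        Summable (fun i => ‖x i‖) ∧ (∀ i, (Ch i).IsUnitaryOut Dt.S') ∧
        (∀ i, IsBCEig K K' (c i) (Ch i) Dt.S') ∧
        (∀ i, IsRegParam R (b i) (l i)) ∧
        (∀ X : List (Gen K'), (∀ x ∈ X, x.Out Dt.S') → ∀ (k : ℤ) (m : ℕ), Dt.m₀ g X ≤ m →
          specSide (T5.AdelicAut.id K) Dt.R e (Dt.f g X k m)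
            = ∑' i, wordEv X (Ch i) * x i * b i ^ k * l i ^ m) ∧
        ∀ i, (Ch i).IsSph0 → A0.IsCuspAdelicSph0 K (c i)

variable {P K K'}

/-- **THE ASSEMBLY OF LEVEL 2**: the regular trace identity for words from the three nodes and
the spectral identity for matched pairs. -/
theorem traceWordsRegP_of (hS : SupplyC P K K') (hU : SpecUpC K K') (hD : SpecDownC K K')
    (hI : SpecIdC K K') : TraceWordsRegP P K K' := by
  intro ℓ hcyc hℓ hcplx Φ hΦ hconst hP
  obtain ⟨Dt, hDt⟩ := hS ℓ hcyc hℓ hcplx Φ hΦ hconst hP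
  obtain ⟨g, e', ι', C, b', l', R', y, hg, he', hy, hUB, hp', hexp', hne⟩ :=
    hU ℓ hcyc hℓ hcplx Φ hΦ hconst Dt hDt
  obtain ⟨e, ι, c, Ch, b, l, R, x, he, hx, hUA, hbc, hp, hexp, hreal⟩ :=
    hD ℓ hcyc hℓ hcplx Φ hΦ hconst Dt hDt g hg
  refine ⟨Dt.S', ι, ι', c, Ch, C, b, l, b', l', max R R', x, y, hx, hy, hUA, hUB, hbc,
    fun i => isRegParam_mono (le_max_left _ _) (hp i),
    fun j => isRegParam_mono (le_max_right _ _) (hp' j), ?_, hne, hreal⟩
  intro X hX
  refine ⟨Dt.m₀ g X, fun m hm k => ?_⟩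
  have hid := (hI (Dt.comp g) (hDt.comp g hg) (Dt.φ' g X k m) (Dt.f g X k m)
    (isAdm5_of_ekProd (hDt.ekprod_up g X k m hg hX) (hDt.reg_up g X k m hg hX hm))
    (isAdm5_of_ekProd (hDt.ekprod_down g X k m hg hX) (hDt.reg_down g X k m hg hX hm))
    (hDt.matched g X k m hg hX hm) e' e he' he).2.2
  rw [← hexp X hX k m hm, ← hexp' X hX k m hm]
  exact hid.symm

end Nodes

end Fermat.Agent.LT.T7

end

end
-- ===== PACK-END LT/T7/Level2.lean

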