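import Mathlib
import Fermat.Agent.Pack.LT2.E14L3
import Fermat.Agent.Pack.LT2.E14L1
import Fermat.Agent.Pack.LT2.E14L0
import Fermat.Agent.Pack.LT2.E14L2
import Fermat.Agent.Pack.LT2.E3L0
import Fermat.Agent.Pack.LT2.E0L1
import Fermat.Agent.Pack.LT2.E2L2
import Fermat.Agent.Pack.LT2.E13L3
import Fermat.Agent.Pack.L1B.E2L0
import Fermat.Agent.Pack.S43GC.G0E11L1
import Fermat.Agent.Pack.LT2.E15L2
import Fermat.Agent.Pack.LT2.E3L1
import Fermat.Agent.Pack.LT2.E6L3
import Fermat.Agent.Pack.LT2.E15L1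
import Fermat.Agent.Pack.LT2.E15L3
import Fermat.Agent.Pack.LT2.E15L0

set_option linter.all false

-- ===== PACK-BEGIN LT/A2/H798/CpxSpec.lean
section


/-!
# Row LT, tower A2, station A2.03.1.1.10 `WX467.LocCpxC` -- THE CUT (sub-architect helper798)

OFF-MAIN.  Definitions, frozen Props, the PROVED middle `cpxPack_of_leaves798` and the PROVED top
`locCpxC_of_leaves798`.  No holes, no opaque constant, nothing assumed.

    WX467.LocCpxC  ⟸  TransportC + CpxPackC + CharFormC + LocNontrivC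
    CpxPackC       ⟸  UnipC + DiagC + TorC + WeylC + RegC + DecayC + RightInvC
                                                      (`cpxPack_of_leaves798`, PROVED here)

## The local Weil family at a complex place, IN CLOSED FORM

Everything is written on `ℂ` (the completion `K_u` is `ℂ` by `extensionEmbedding`; `TransportC`
is the plumbing).  Let `ω₁ ≠ ω₂` be the roots of `X² - tX + n`, so `t = ω₁ + ω₂`, `n = ω₁ ω₂`,
`z_i = ξ₁ + ω_i ξ₂` the split coordinates (`Q(ξ) = z₁ z₂`), `ψ(x) = exp(4πi Re(c x))`, `c ≠ 0`,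
the Haar measure = LEBESGUE measure of `ℂ`, `η = 1`, module `|a| = ‖a‖²`, and

    γ = 4 ‖c‖² ‖ω₁ - ω₂‖²                                                   (`gamC`)

(`γ⁻¹ · Lebesgue` on `ℂ²` in the coordinates `ξ` is the self-dual measure for `ψ ∘ B`).  For
matrices `g`, `m` put `λ_i = m₀₀ + m₁₀ ω_i` (the eigenvalue of `m ∈ T` on `z_i`),
`N = ‖g₁₀‖² + ‖g₁₁‖²`, `B = g₀₀ conj(g₁₀) + g₀₁ conj(g₁₁)`.  Then

    F g m ξ = (‖λ₁ λ₂‖ / N) · exp( - 2π‖c‖ (‖λ₂ z₁‖² + ‖λ₁ z₂‖²) / N + 4πi Re(c B z₁ z₂) / N )   (`FC`)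

This IS `L(m) r(h) Φ₀`, `h = d(det m)⁻¹ g ∈ SL₂(ℂ)`, `Φ₀ = exp(-2π‖c‖(‖z₁‖² + ‖z₂‖²))`: in the
partial Fourier transform `z₂ ↦ v` the Weil representation is `Φ^((z₁, v) h)` (JL Prop. 1.6),
`Φ₀^ = exp(-2π‖c‖ ‖(z₁, v)‖²)`, and the inverse transform of `exp(-2π‖c‖ ‖(z₁, v) h‖²)` is the
Gaussian integral `D⁻¹ exp(-2π‖c‖ ‖z‖² / D + 4πi Re(c β z₁ z₂) / D)`, `D = ‖h₁₀‖² + ‖h₁₁‖²`,
`β = h₀₀ conj(h₁₀) + h₀₁ conj(h₁₁)` (`A D - ‖β‖² = ‖det h‖² = 1`).
All the identities below were checked NUMERICALLY (random admissible pairs; the Weyl formula by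
quadrature on `ℂ²`) before the freeze.

* `unip`: `n(x) g` has the same bottom row, `B ↦ B + x N`.
* `diag`: `t(a) g`: `N ↦ N / ‖a‖²`, `B ↦ (a / conj a) B`.
* `tor`:  `d(δ') g`, `μ' m`: `N ↦ ‖δ'‖² N`, `B ↦ conj(δ') B`, `λ_i ↦ λ'_i λ_i`
  (`[1, ω_i] μ' = λ'_i [1, ω_i]`), `z_i(μ'⁻¹ ξ) = z_i(ξ) / λ'_i`.
* `weyl`: `w g` has rows `(g₁, -g₀)`: `N ↦ M = ‖g₀₀‖² + ‖g₀₁‖²`, `B ↦ - conj B`,
  `M N - ‖B‖² = ‖det g‖² = ‖λ₁ λ₂‖²`; change of variables `y ↦ (z₁(y), z₂(y))` (Jacobian
  `‖ω₁ - ω₂‖²`) and twice the Gaussian integral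
  `∫_ℂ exp(-π a ‖v‖² + p Re v + q Im v) dv = a⁻¹ exp((p² + q²) / (4 π a))`, `a > 0`, `p q : ℂ`
  (Mathlib `GaussianFourier.integral_cexp_neg_mul_sum_add` on `Fin 2 → ℝ`, or
  `integral_cexp_quadratic` twice), Fubini.
* `right_inv`: `k` unitary preserves `N` and `B`; `κ ∈ T` unitary has `‖λ_i(κ)‖ = 1`.
-/

set_option autoImplicit false

open IsDedekindDomain NumberField AutomorphicForm MeasureTheory
open scoped MatrixGroups Topology ComplexConjugate

noncomputable section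

namespace Fermat.Agent.LT.A2.CX798

open Fermat.Agent.LT.H130 Fermat.Agent.LT.H556 Fermat.Agent.LT.A2 Fermat.Agent.LT.A2.WX467

/-! ## 1. The closed form on `ℂ` -/

/-- The additive character `ψ_c(x) = exp(4πi Re(c x))` of `ℂ`. -/
def psiC (c x : ℂ) : ℂ :=
  Complex.exp (4 * Real.pi * Complex.I * (((c * x).re : ℝ) : ℂ))

/-- `λ_ω(m) = m₀₀ + m₁₀ ω`: the eigenvalue of `m = a + b M_ω` on the split coordinate
`ξ₁ + ω ξ₂`. -/
def lam (ω : ℂ) (m : Matrix (Fin 2) (Fin 2) ℂ) : ℂ := m 0 0 + m 1 0 * ω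

/-- The squared norm of the bottom row. -/
def rowN (g : Matrix (Fin 2) (Fin 2) ℂ) : ℝ := ‖g 1 0‖ ^ 2 + ‖g 1 1‖ ^ 2

/-- The hermitian product of the top row with the bottom row. -/
def rowB (g : Matrix (Fin 2) (Fin 2) ℂ) : ℂ := g 0 0 * conj (g 1 0) + g 0 1 * conj (g 1 1)

/-- **The local Weil family at a complex place, in closed form** (see the header). -/
def FC (c ω₁ ω₂ : ℂ) (g m : Matrix (Fin 2) (Fin 2) ℂ) (ξ : ℂ × ℂ) : ℂ :=
  ((‖lam ω₁ m * lam ω₂ m‖ / rowN g : ℝ) : ℂ) *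
    Complex.exp
      (((-(2 * Real.pi * ‖c‖ *
          (‖lam ω₂ m * (ξ.1 + ω₁ * ξ.2)‖ ^ 2 + ‖lam ω₁ m * (ξ.1 + ω₂ * ξ.2)‖ ^ 2) / rowN g) : ℝ) : ℂ)
        + 4 * Real.pi * Complex.I *
          (((c * rowB g * ((ξ.1 + ω₁ * ξ.2) * (ξ.1 + ω₂ * ξ.2))).re / rowN g : ℝ) : ℂ))

/-- The constant of the Weyl formula for the Lebesgue measure of `ℂ`. -/
def gamC (c ω₁ ω₂ : ℂ) : ℂ := ((4 * ‖c‖ ^ 2 * ‖ω₁ - ω₂‖ ^ 2 : ℝ) : ℂ)

/-- The Lebesgue measure of `ℂ`, as a measure for the Borel σ-algebra. -/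
def volC : @Measure ℂ (borel ℂ) := (volume : Measure ℂ)

/-! ## 2. The leaves on `ℂ` (Mathlib + the six small definitions above + `LocAx` vocabulary) -/

/-- **CX.01 UNIP.** -/
def UnipC : Prop :=
  ∀ (c ω₁ ω₂ x : ℂ) (g m : Matrix (Fin 2) (Fin 2) ℂ) (ξ : ℂ × ℂ),
    AdmL (ω₁ + ω₂) (ω₁ * ω₂) g m →
    FC c ω₁ ω₂ (!![1, x; 0, 1] * g) m ξ
      = psiC c (x * qfL (ω₁ + ω₂) (ω₁ * ω₂) ξ) * FC c ω₁ ω₂ g m ξ

/-- **CX.02 DIAG.** -/
def DiagC : Prop :=
  ∀ (c ω₁ ω₂ a : ℂ), a ≠ 0 → ∀ (g m : Matrix (Fin 2) (Fin 2) ℂ) (ξ : ℂ × ℂ),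
    AdmL (ω₁ + ω₂) (ω₁ * ω₂) g m →
    FC c ω₁ ω₂ (!![a, 0; 0, a⁻¹] * g) m ξ
      = (1 : ℂ) * ((‖a‖ ^ 2 : ℝ) : ℂ) * FC c ω₁ ω₂ g m (a • ξ)

/-- **CX.03 TOR.** -/
def TorC : Prop :=
  ∀ (c ω₁ ω₂ : ℂ) (μ' : Matrix (Fin 2) (Fin 2) ℂ), InTorL (ω₁ + ω₂) (ω₁ * ω₂) μ' →
    μ'.det ≠ 0 → ∀ (g m : Matrix (Fin 2) (Fin 2) ℂ) (ξ : ℂ × ℂ),
    AdmL (ω₁ + ω₂) (ω₁ * ω₂) g m →
    ((Real.sqrt (‖μ'.det‖ ^ 2) : ℝ) : ℂ) * FC c ω₁ ω₂ (!![1, 0; 0, μ'.det] * g) (μ' * m) ξ
      = FC c ω₁ ω₂ g m (actL μ'⁻¹ ξ)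

/-- **CX.04 WEYL** (the Gaussian integral; the only analytic leaf). -/
def WeylC : Prop :=
  ∀ (c ω₁ ω₂ : ℂ), c ≠ 0 → ω₁ ≠ ω₂ → ∀ (g m : Matrix (Fin 2) (Fin 2) ℂ) (ξ : ℂ × ℂ),
    AdmL (ω₁ + ω₂) (ω₁ * ω₂) g m →
    FC c ω₁ ω₂ (!![0, 1; -1, 0] * g) m ξ
      = gamC c ω₁ ω₂ *
          intL volC fun y => FC c ω₁ ω₂ g m y * psiC c (bfL (ω₁ + ω₂) (ω₁ * ω₂) ξ y)

/-- **CX.05 REG**: continuity, integrability, joint continuity on the admissible pairs. -/
def RegC : Prop :=
  ∀ (c ω₁ ω₂ : ℂ), c ≠ 0 → ω₁ ≠ ω₂ →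
    (∀ g m : Matrix (Fin 2) (Fin 2) ℂ, AdmL (ω₁ + ω₂) (ω₁ * ω₂) g m →
      Continuous (FC c ω₁ ω₂ g m) ∧ IntegrableL volC (FC c ω₁ ω₂ g m)) ∧
    ContinuousOn
      (fun q : (Matrix (Fin 2) (Fin 2) ℂ × Matrix (Fin 2) (Fin 2) ℂ) × (ℂ × ℂ) =>
        FC c ω₁ ω₂ q.1.1 q.1.2 q.2)
      {q | AdmL (ω₁ + ω₂) (ω₁ * ω₂) q.1.1 q.1.2}

/-- **CX.06 DECAY**: uniform Gaussian decay on the bounded sets of admissible pairs
(`N ≤ 2R²`, `N ≥ 1 / (2R²)` from `(g g⁻¹)₁₁ = 1`, `‖λ_i‖⁻¹ = ‖λ_i(m⁻¹)‖ ≤ R (1 + ‖ω_i‖)`,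
`‖z₁‖² + ‖z₂‖² ≥ c₀ (‖ξ₁‖² + ‖ξ₂‖²)`). -/
def DecayC : Prop :=
  ∀ (c ω₁ ω₂ : ℂ), c ≠ 0 → ω₁ ≠ ω₂ → ∀ R : ℝ, ∃ A δ : ℝ, 0 < δ ∧
    ∀ g m : Matrix (Fin 2) (Fin 2) ℂ, AdmL (ω₁ + ω₂) (ω₁ * ω₂) g m →
      (∀ i j : Fin 2, ‖g i j‖ ≤ R ∧ ‖m i j‖ ≤ R ∧ ‖g⁻¹ i j‖ ≤ R ∧ ‖m⁻¹ i j‖ ≤ R) →
      ∀ ξ : ℂ × ℂ, ‖FC c ω₁ ω₂ g m ξ‖ ≤ A * Real.exp (-δ * (‖ξ.1‖ ^ 2 + ‖ξ.2‖ ^ 2))

/-- **CX.07 RIGHT-INV**: invariance under the pairs `(k, κ)`, `k ∈ U(2)`, `κ ∈ T ∩ U(2)`,
`det k = det κ`. -/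
def RightInvC : Prop :=
  ∀ (c ω₁ ω₂ : ℂ) (k κ : Matrix (Fin 2) (Fin 2) ℂ),
    k * k.conjTranspose = 1 → κ * κ.conjTranspose = 1 →
    InTorL (ω₁ + ω₂) (ω₁ * ω₂) κ → k.det = κ.det →
    ∀ (g m : Matrix (Fin 2) (Fin 2) ℂ) (ξ : ℂ × ℂ), AdmL (ω₁ + ω₂) (ω₁ * ω₂) g m →
      FC c ω₁ ω₂ (g * k) (m * κ) ξ = FC c ω₁ ω₂ g m ξ

/-! ## 3. The package on `ℂ` -/

/-- The certificate `CpxAt` on `ℂ`, for the closed form. -/
structure CpxPack (c ω₁ ω₂ : ℂ) : Prop where
  ax : LocAx (fun x : ℂ => ‖x‖ ^ 2) (ω₁ + ω₂) (ω₁ * ω₂) (psiC c) volC (gamC c ω₁ ω₂)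
    (fun _ => 1) (FC c ω₁ ω₂)
  gauss : ∀ ξ : ℂ × ℂ, FC c ω₁ ω₂ 1 1 ξ
    = Complex.exp (-((2 * Real.pi * ‖c‖ *
        (‖ξ.1 + ω₁ * ξ.2‖ ^ 2 + ‖ξ.1 + ω₂ * ξ.2‖ ^ 2) : ℝ) : ℂ))
  right_inv : ∀ k κ : Matrix (Fin 2) (Fin 2) ℂ,
    k * k.conjTranspose = 1 → κ * κ.conjTranspose = 1 →
    InTorL (ω₁ + ω₂) (ω₁ * ω₂) κ → k.det = κ.det →
    ∀ (g m : Matrix (Fin 2) (Fin 2) ℂ) (ξ : ℂ × ℂ), AdmL (ω₁ + ω₂) (ω₁ * ω₂) g m →
      FC c ω₁ ω₂ (g * k) (m * κ) ξ = FC c ω₁ ω₂ g m ξ
  cont : ContinuousOn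
    (fun q : (Matrix (Fin 2) (Fin 2) ℂ × Matrix (Fin 2) (Fin 2) ℂ) × (ℂ × ℂ) =>
      FC c ω₁ ω₂ q.1.1 q.1.2 q.2)
    {q | AdmL (ω₁ + ω₂) (ω₁ * ω₂) q.1.1 q.1.2}
  decay : ∀ R : ℝ, ∃ A δ : ℝ, 0 < δ ∧
    ∀ g m : Matrix (Fin 2) (Fin 2) ℂ, AdmL (ω₁ + ω₂) (ω₁ * ω₂) g m →
      (∀ i j : Fin 2, ‖g i j‖ ≤ R ∧ ‖m i j‖ ≤ R ∧ ‖g⁻¹ i j‖ ≤ R ∧ ‖m⁻¹ i j‖ ≤ R) →
      ∀ ξ : ℂ × ℂ, ‖FC c ω₁ ω₂ g m ξ‖ ≤ A * Real.exp (-δ * (‖ξ.1‖ ^ 2 + ‖ξ.2‖ ^ 2))

/-- **The middle Prop**: the closed form is a certificate on `ℂ`. -/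
def CpxPackC : Prop := ∀ c ω₁ ω₂ : ℂ, c ≠ 0 → ω₁ ≠ ω₂ → CpxPack c ω₁ ω₂

/-! ## 4. The global leaves and the transport -/

/-- **CX.08 CHAR-FORM**: the continuous unitary characters of `ℂ` are the `ψ_c`
(a continuous homomorphism `ℝ → S¹` is `t ↦ exp(i a t)`: dyadic bisection near `0`). -/
def CharFormC : Prop :=
  ∀ χ : ℂ → ℂ, Continuous χ → (∀ x y : ℂ, χ (x + y) = χ x * χ y) → (∀ x : ℂ, ‖χ x‖ = 1) →
    ∃ c : ℂ, ∀ x : ℂ, χ x = psiC c x

/-- **CX.09 LOC-NONTRIV** (strong approximation): a nontrivial continuous character of `𝔸_K`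
trivial on `K` is nontrivial on `K_u`, `u` an infinite place (`K + K_u` is dense in `𝔸_K`:
approximation at the finite places (Chinese remainder theorem), then Minkowski
(Mathlib `NumberField.mixedEmbedding.exists_ne_zero_mem_ideal_lt`): a nonzero `k_ε` in a given
ideal, `< ε` at every infinite place `w ≠ u`, and rounding of `y / k_ε` to `𝓞 K`). -/
def LocNontrivC : Prop :=
  ∀ (K : Type) [Field K] [NumberField K] (ψ : A0.Adl K → ℂ) (u : InfinitePlace K),
    T1.T1Out K → IsAdeleChar ψ → ∃ x : A0.Adl K, WL.AdlAtInf u x ∧ ψ x ≠ 1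

/-- **CX.10 TRANSPORT** (plumbing): `K_u ≅ ℂ` by `extensionEmbedding` (a ring isomorphism and
an isometry), `ψ_u` = the restriction of `ψ` to `K_u` (`= ψ_c`, `c ≠ 0`), `μ_u` = the image of
the Lebesgue measure, `γ_u = gamC`, `η_u = 1`, `F_u g m ξ = FC (e g) (e m) (e ξ)`, `ω₁`, `ω₂` =
the roots of `X² - u(t) X + u(n)` in `ℂ` (distinct: `X² - tX + n` has no root in `K`). -/
def TransportC : Prop := CpxPackC → CharFormC → LocNontrivC → LocCpxC

/-! ## 5. The middle and the top (PROVED) -/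

theorem psiC_add798 (c x y : ℂ) : psiC c (x + y) = psiC c x * psiC c y := by
  unfold psiC
  rw [← Complex.exp_add]
  congr 1
  rw [mul_add, Complex.add_re]
  push_cast
  ring

theorem norm_psiC798 (c x : ℂ) : ‖psiC c x‖ = 1 := by
  unfold psiC
  rw [Complex.norm_exp]
  simp

theorem continuous_psiC798 (c : ℂ) : Continuous (psiC c) := by
  unfold psiC
  fun_prop

theorem haar_volC798 :
    (letI : MeasurableSpace ℂ := borel ℂ
      ∀ (x : ℂ) (S : Set ℂ), volC ((fun y => x + y) '' S) = volC S) ∧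
      (∀ C : Set ℂ, IsCompact C → volC C < ⊤) ∧
      ∀ U : Set ℂ, IsOpen U → U.Nonempty → 0 < volC U := by
  refine ⟨?_, ?_, ?_⟩
  · intro x S
    have h : (fun y : ℂ => x + y) '' S = (fun y : ℂ => -x + y) ⁻¹' S := by
      ext z
      constructor
      · rintro ⟨y, hy, rfl⟩
        show -x + (x + y) ∈ S
        rw [neg_add_cancel_left]
        exact hy
      · intro hz
        exact ⟨-x + z, hz, by simp⟩
    rw [h]
    exact measure_preimage_add (volume : Measure ℂ) (-x) S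
  · intro C hC
    exact IsCompact.measure_lt_top (μ := (volume : Measure ℂ)) hC
  · intro U hU hne
    exact IsOpen.measure_pos (volume : Measure ℂ) hU hne

theorem FC_one_one798 (c ω₁ ω₂ : ℂ) (ξ : ℂ × ℂ) :
    FC c ω₁ ω₂ 1 1 ξ
      = Complex.exp (-((2 * Real.pi * ‖c‖ *
          (‖ξ.1 + ω₁ * ξ.2‖ ^ 2 + ‖ξ.1 + ω₂ * ξ.2‖ ^ 2) : ℝ) : ℂ)) := by
  have hN : rowN (1 : Matrix (Fin 2) (Fin 2) ℂ) = 1 := by
    simp [rowN]
  have hB : rowB (1 : Matrix (Fin 2) (Fin 2) ℂ) = 0 := by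
    simp [rowB]
  have hl : ∀ ω : ℂ, lam ω (1 : Matrix (Fin 2) (Fin 2) ℂ) = 1 := by
    intro ω
    simp [lam]
  unfold FC
  rw [hN, hB, hl, hl]
  simp

/-- **The middle**: the package on `ℂ` from the leaves on `ℂ`. -/
theorem cpxPack_of_leaves798 (hU : UnipC) (hD : DiagC) (hT : TorC) (hW : _root_.Fermat.Agent.LT.A2.CX798.WeylC) (hR : _root_.Fermat.Agent.LT.A2.CX798.RegC)
    (hDec : DecayC) (hRI : _root_.Fermat.Agent.LT.A2.CX798.RightInvC) : CpxPackC := by
  intro c ω₁ ω₂ hc hω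
  obtain ⟨hreg, hcont⟩ := hR c ω₁ ω₂ hc hω
  exact
    { ax :=
        { unip := fun x g m ξ h => hU c ω₁ ω₂ x g m ξ h
          weyl := fun g m ξ h => hW c ω₁ ω₂ hc hω g m ξ h
          diag := fun a ha g m ξ h => hD c ω₁ ω₂ a ha g m ξ h
          tor := fun μ' hμ hdet g m ξ h => hT c ω₁ ω₂ μ' hμ hdet g m ξ h
          eta_mul := fun _ _ _ _ => (one_mul (1 : ℂ)).symm
          eta_sq := fun _ _ => Or.inl rfl
          eta_norm := fun _ _ _ => rfl
          eta_cont := continuousOn_const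
          haar := haar_volC798
          psi_char := ⟨continuous_psiC798 c, psiC_add798 c, norm_psiC798 c⟩
          cont := fun g m h => (hreg g m h).1
          integrable := fun g m h => (hreg g m h).2 }
      gauss := FC_one_one798 c ω₁ ω₂
      right_inv := fun k κ hk hκ hT' hdet g m ξ h => hRI c ω₁ ω₂ k κ hk hκ hT' hdet g m ξ h
      cont := hcont
      decay := hDec c ω₁ ω₂ hc hω }

/-- **The top of the station `LocCpxC`.** -/
theorem locCpxC_of_leaves798 (hU : UnipC) (hD : DiagC) (hT : TorC) (hW : _root_.Fermat.Agent.LT.A2.CX798.WeylC) (hR : _root_.Fermat.Agent.LT.A2.CX798.RegC)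
    (hDec : DecayC) (hRI : _root_.Fermat.Agent.LT.A2.CX798.RightInvC) (hChar : CharFormC) (hNon : LocNontrivC)
    (hTr : TransportC) : LocCpxC :=
  hTr (cpxPack_of_leaves798 hU hD hT hW hR hDec hRI) hChar hNon

end Fermat.Agent.LT.A2.CX798

end

end
-- ===== PACK-END LT/A2/H798/CpxSpec.lean

-- ===== PACK-BEGIN LT/A2/H142/HeckeTop.lean
section


/-!
# Row LT, tower A2, leaf A2.03.8 `WL.WhitHeckeC`: THE TOP (helper142)

OFF-MAIN.  `whitHecke_of_leaves142 : CentC → LocalAlgC → RecSplitC → RecInertC → WL.WhitHeckeC`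
(`RInvC`, `UnipC` are proved in `HeckeBasic.lean`), via `H129.isHeckeEigenAt_of_one129`.
-/

set_option autoImplicit false

open IsDedekindDomain NumberField AutomorphicForm MeasureTheory
open scoped MatrixGroups

noncomputable section

namespace Fermat.Agent.LT.A2.H142

open Fermat.Agent.LT.H556 Fermat.Agent.LT.H556.A0 Fermat.Agent.LT.H129

variable {K : Type} [Field K] [NumberField K]

/-! ## Local elements commute with elements which are trivial at `v` -/

theorem locFin_comm142 (v : HeightOneSpectrum (𝓞 K)) (y : GL (Fin 2) (v.adicCompletion K))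
    {g' : G K} (hg' : TrivAtFin v g') : locFin129 v y * g' = g' * locFin129 v y := by
  rw [trivAtFin_iff129] at hg'
  apply G_ext129
  · intro w
    rw [map_mul, map_mul, infCompHom129_locFin129, one_mul, mul_one]
  · intro v'
    rw [map_mul, map_mul]
    by_cases h : v' = v
    · subst h
      rw [hg', one_mul, mul_one]
    · rw [finCompHom129_locFin129_of_ne v y h, one_mul, mul_one]

/-- Every `g` is (local at `v`) · (trivial at `v`). -/
theorem exists_local_decomp142 (v : HeightOneSpectrum (𝓞 K)) (g : G K) :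
    ∃ g' : G K, TrivAtFin v g' ∧ g = locFin129 v (finCompHom129 v g) * g' := by
  refine ⟨(locFin129 v (finCompHom129 v g))⁻¹ * g, ?_, ?_⟩
  · rw [trivAtFin_iff129, map_mul, map_inv, finCompHom129_locFin129, inv_mul_cancel]
  · rw [mul_inv_cancel_left]

/-! ## The adele supported at `v` -/

theorem adv142_fst (v : HeightOneSpectrum (𝓞 K)) (x : v.adicCompletion K)
    (w : InfinitePlace K) : (adv142 v x).1 w = 0 := rfl

theorem adv142_snd_same (v : HeightOneSpectrum (𝓞 K)) (x : v.adicCompletion K) :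
    (adv142 v x).2 v = x := finSingle129_same v false x

theorem adv142_snd_of_ne (v : HeightOneSpectrum (𝓞 K)) (x : v.adicCompletion K)
    {v' : HeightOneSpectrum (𝓞 K)} (h : v' ≠ v) : (adv142 v x).2 v' = 0 := by
  show finSingle129 v false x v' = 0
  rw [finSingle129_of_ne v false x h]
  rfl

theorem adlAtFin_adv142 (v : HeightOneSpectrum (𝓞 K)) (x : v.adicCompletion K) :
    WL.AdlAtFin v (adv142 v x) :=
  ⟨fun w => adv142_fst v x w, fun _ h => adv142_snd_of_ne v x h⟩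

theorem eq_adv142_of_adlAtFin {v : HeightOneSpectrum (𝓞 K)} {x : Adl K}
    (h : WL.AdlAtFin v x) : x = adv142 v (x.2 v) := by
  apply adele_ext129
  · intro w
    rw [h.1 w, adv142_fst]
  · intro v'
    by_cases hv : v' = v
    · subst hv
      rw [adv142_snd_same]
    · rw [h.2 v' hv, adv142_snd_of_ne v _ hv]

theorem adv142_add (v : HeightOneSpectrum (𝓞 K)) (x y : v.adicCompletion K) :
    adv142 v (x + y) = adv142 v x + adv142 v y := by
  apply adele_ext129
  · intro w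
    show (adv142 v (x + y)).1 w = (adv142 v x).1 w + (adv142 v y).1 w
    rw [adv142_fst, adv142_fst, adv142_fst, add_zero]
  · intro v'
    show (adv142 v (x + y)).2 v' = (adv142 v x).2 v' + (adv142 v y).2 v'
    by_cases hv : v' = v
    · subst hv
      rw [adv142_snd_same, adv142_snd_same, adv142_snd_same]
    · rw [adv142_snd_of_ne v _ hv, adv142_snd_of_ne v _ hv, adv142_snd_of_ne v _ hv, add_zero]

/-! ## The upper unipotent parametrisation -/

/-- The upper unipotent parametrisation `x ↦ !![1, x; 0, 1]` of `GL₂(𝔸_K)`. -/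
def nU142 (x : Adl K) : G K where
  val := !![1, x; 0, 1]
  inv := !![1, -x; 0, 1]
  val_inv := by
    ext i j
    fin_cases i <;> fin_cases j <;> simp [Matrix.mul_apply, Fin.sum_univ_two]
  inv_val := by
    ext i j
    fin_cases i <;> fin_cases j <;> simp [Matrix.mul_apply, Fin.sum_univ_two]

theorem isUpperUnip_nU142 : IsUpperUnip (nU142 (K := K)) := fun _ => rfl

theorem map_unip142 {R S : Type*} [CommRing R] [CommRing S] (f : R →+* S) (a : R) :
    (!![1, a; 0, 1] : Matrix (Fin 2) (Fin 2) R).map f = !![1, f a; 0, 1] := by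
  ext i j
  fin_cases i <;> fin_cases j <;> simp [Matrix.map_apply]

theorem one_eq_unip142 {S : Type*} [CommRing S] :
    (1 : Matrix (Fin 2) (Fin 2) S) = !![1, 0; 0, 1] := by
  ext i j
  fin_cases i <;> fin_cases j <;> simp

theorem nU142_adv (v : HeightOneSpectrum (𝓞 K)) (y : v.adicCompletion K) :
    nU142 (adv142 v y) = locFin129 v (upperU129 y) := by
  apply Units.ext
  rw [coe_locFin129]
  show (!![1, adv142 v y; 0, 1] : Matrix (Fin 2) (Fin 2) (Adl K))
    = locMat129 v ((upperU129 y : GL (Fin 2) (v.adicCompletion K)) :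
        Matrix (Fin 2) (Fin 2) (v.adicCompletion K))
  have hc : ((upperU129 y : GL (Fin 2) (v.adicCompletion K)) :
      Matrix (Fin 2) (Fin 2) (v.adicCompletion K)) = !![1, y; 0, 1] := rfl
  rw [hc]
  apply adeleMatrix_ext129
  · intro w
    rw [locMat129_map_inf, map_unip142, one_eq_unip142]
    have : evI129 w (adv142 v y) = 0 := adv142_fst v y w
    rw [this]
  · intro v'
    by_cases h : v' = v
    · subst h
      rw [locMat129_map_same, map_unip142]
      have : evF129 v' (adv142 v' y) = y := adv142_snd_same v' y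
      rw [this]
    · rw [locMat129_map_of_ne v _ h, map_unip142, one_eq_unip142]
      have : evF129 v' (adv142 v y) = 0 := adv142_snd_of_ne v y h
      rw [this]

/-! ## The standard coset system -/

theorem stdHecke129_eq142 (v : HeightOneSpectrum (𝓞 K)) (ϖ : v.adicCompletion K) (h : ϖ ≠ 0)
    (c : Option (𝓞 K ⧸ v.asIdeal)) :
    stdHecke129 v ϖ h c = locFin129 v (stdLoc142 v ϖ h c) := by
  cases c <;> rfl

theorem finite_residue142 (v : HeightOneSpectrum (𝓞 K)) : Finite (𝓞 K ⧸ v.asIdeal) := by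
  apply Nat.finite_of_card_ne_zero
  rw [← Submodule.cardQuot_apply, ← Ideal.absNorm_apply]
  exact ne_of_gt (lt_trans Nat.zero_lt_one (NumberField.HeightOneSpectrum.one_lt_absNorm v))

theorem stdHecke129_injective142 (v : HeightOneSpectrum (𝓞 K)) {ϖ : v.adicCompletion K}
    (hϖ : Valued.v ϖ = WithZero.exp (-1 : ℤ)) :
    Function.Injective (stdHecke129 v ϖ (unif_ne_zero129 v hϖ)) := by
  intro a b hab
  by_contra hne
  apply stdHecke129_not_int v hϖ hne
  rw [hab, inv_mul_cancel]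
  intro i j
  have : finComp v (1 : G K) = 1 := by
    rw [← coe_finCompHom129, map_one]; rfl
  rw [this]
  by_cases hij : i = j
  · subst hij; simpa using (v.adicCompletionIntegers K).one_mem
  · simpa [hij] using (v.adicCompletionIntegers K).zero_mem

open scoped Classical in
theorem isHeckeCosetSystem_std142 (v : HeightOneSpectrum (𝓞 K)) {ϖ : v.adicCompletion K}
    (hϖ : Valued.v ϖ = WithZero.exp (-1 : ℤ)) [Fintype (𝓞 K ⧸ v.asIdeal)] :
    IsHeckeCosetSystem v
      ((Finset.univ : Finset (Option (𝓞 K ⧸ v.asIdeal))).image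
        (stdHecke129 v ϖ (unif_ne_zero129 v hϖ))) := by
  refine ⟨?_, ?_, ?_⟩
  · rw [Finset.card_image_of_injective _ (stdHecke129_injective142 v hϖ), Finset.card_univ,
      Fintype.card_option, Ideal.absNorm_apply, Submodule.cardQuot_apply,
      Nat.card_eq_fintype_card]
  · intro h hh
    obtain ⟨a, -, rfl⟩ := Finset.mem_image.mp hh
    exact stdHecke129_props v hϖ a
  · intro h hh h' hh' hne
    obtain ⟨a, -, rfl⟩ := Finset.mem_image.mp hh
    obtain ⟨b, -, rfl⟩ := Finset.mem_image.mp hh'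
    exact stdHecke129_not_int v hϖ (fun e => hne (by rw [e]))

theorem isScalarUniformizerAt_std142 (v : HeightOneSpectrum (𝓞 K)) {ϖ : v.adicCompletion K}
    (hϖ : Valued.v ϖ = WithZero.exp (-1 : ℤ)) :
    IsScalarUniformizerAt v
      (locFin129 v (diag129 ϖ ϖ (unif_ne_zero129 v hϖ) (unif_ne_zero129 v hϖ))) := by
  refine ⟨isLocalAtFin_locFin129 v _, ϖ, hϖ, ?_⟩
  rw [finComp_locFin129]
  show (!![ϖ, 0; 0, ϖ] : Matrix (Fin 2) (Fin 2) (v.adicCompletion K)) = _
  ext i j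
  fin_cases i <;> fin_cases j <;> simp

theorem isLocalMaxCptAt_locFin142 (v : HeightOneSpectrum (𝓞 K))
    {k : GL (Fin 2) (v.adicCompletion K)} (hk : IsMaxCpt129 (v.adicCompletionIntegers K) k) :
    IsLocalMaxCptAt129 v (locFin129 v k) := by
  refine ⟨isLocalAtFin_locFin129 v k, ?_, ?_⟩
  · rw [← isInt129_finCompHom_iff, finCompHom129_locFin129]
    exact hk.1
  · rw [← isInt129_finCompHom_iff, map_inv, finCompHom129_locFin129]
    exact hk.2

/-! ## The top -/

theorem split_of_not_inert142 {t n : K} {v : HeightOneSpectrum (𝓞 K)}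
    (h : ¬ WL.IsInertAt t n v) : IsSplitAt142 t n v := by
  by_contra hns
  apply h
  intro m hm hloc hint hval
  exact hns ⟨m, hm, hloc, hint, hval⟩

/-- **The top of the cut of `WL.WhitHeckeC`.** -/
theorem whitHecke_of_leaves142 (hC : CentC) (hL : LocalAlgC) (hS : RecSplitC) (hI : RecInertC) :
    WL.WhitHeckeC := by
  classical
  intro K _ _ D η t1 good std ind W whit v hv
  have ctx : HCtx D η W v := ⟨t1, good, std, ind, whit, hv⟩
  have hR := rInvC142 K D W good whit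
  have hU := unipC142 K D W good whit
  obtain ⟨ϖ, hϖ⟩ := exists_unif129 v
  have hϖ0 := unif_ne_zero129 v hϖ
  haveI : Finite (𝓞 K ⧸ v.asIdeal) := finite_residue142 v
  letI : Fintype (𝓞 K ⧸ v.asIdeal) := Fintype.ofFinite _
  refine isHeckeEigenAt_of_one129 hv W hR (D.π.a v) (D.π.b v)
    (isHeckeCosetSystem_std142 v hϖ) ?_ (isScalarUniformizerAt_std142 v hϖ)
    (hC K D η W v ctx _ (isScalarUniformizerAt_std142 v hϖ))
  intro g
  obtain ⟨g', hg', hg⟩ := exists_local_decomp142 v g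
  set x := finCompHom129 v g with hx
  -- the local function
  set w : GL (Fin 2) (v.adicCompletion K) → ℂ := fun y => W (locFin129 v y * g') with hw
  set ψv : v.adicCompletion K → ℂ := fun y => D.ψ (adv142 v y) with hψv
  have h1 : ∀ y y' : v.adicCompletion K, ψv (y + y') = ψv y * ψv y' := by
    intro y y'
    show D.ψ (adv142 v (y + y')) = D.ψ (adv142 v y) * D.ψ (adv142 v y')
    rw [adv142_add, good.char.map_add]
  have h2 : ∀ y : v.adicCompletion K, y ∈ v.adicCompletionIntegers K → ψv y = 1 := by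
    intro y hy
    refine (std.good_psi v hv).1 (adv142 v y) (adlAtFin_adv142 v y) ?_
    rw [adv142_snd_same]
    exact hy
  have h3 : ∃ y : v.adicCompletion K, Valued.v y = WithZero.exp (1 : ℤ) ∧ ψv y ≠ 1 := by
    obtain ⟨y, hy1, hy2, hy3⟩ := (std.good_psi v hv).2
    refine ⟨y.2 v, hy2, ?_⟩
    show D.ψ (adv142 v (y.2 v)) ≠ 1
    rw [← eq_adv142_of_adlAtFin hy1]
    exact hy3
  have h4 : ∀ k : GL (Fin 2) (v.adicCompletion K),
      IsMaxCpt129 (v.adicCompletionIntegers K) k →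
      ∀ y : GL (Fin 2) (v.adicCompletion K), w (y * k) = w y := by
    intro k hk y
    show W (locFin129 v (y * k) * g') = W (locFin129 v y * g')
    rw [map_mul, mul_assoc, locFin_comm142 v k hg', ← mul_assoc]
    exact hR _ (inLevelGroup_of_localMaxCpt129 hv (isLocalMaxCptAt_locFin142 v hk)) _
  have h5 : ∀ (y : v.adicCompletion K) (z : GL (Fin 2) (v.adicCompletion K)),
      w (upperU129 y * z) = ψv y * w z := by
    intro y z
    show W (locFin129 v (upperU129 y * z) * g') = D.ψ (adv142 v y) * W (locFin129 v z * g')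
    rw [map_mul, mul_assoc, ← nU142_adv]
    exact hU nU142 isUpperUnip_nU142 _ _
  have h6 : ∀ y : GL (Fin 2) (v.adicCompletion K),
      w (y * diag129 ϖ ϖ hϖ0 hϖ0) = D.π.b v * w y := by
    intro y
    show W (locFin129 v (y * diag129 ϖ ϖ hϖ0 hϖ0) * g') = D.π.b v * W (locFin129 v y * g')
    rw [map_mul, mul_assoc, locFin_comm142 v _ hg', ← mul_assoc]
    exact hC K D η W v ctx _ (isScalarUniformizerAt_std142 v hϖ) _
  have hrec : Rec142 v (fun j => w (dgl142 v ϖ hϖ0 j)) (D.π.a v) (D.π.b v) := by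
    by_cases hin : WL.IsInertAt D.t D.n v
    · exact hI K D η W v ctx hin ϖ hϖ g' hg'
    · exact hS K D η W v ctx (split_of_not_inert142 hin) ϖ hϖ g' hg'
  have key := hL K v ϖ hϖ ψv w (D.π.a v) (D.π.b v) h1 h2 h3 h4 h5 h6 hrec x
  rw [finsum_eq_sum_of_fintype] at key
  have hWg : W g = w x := by
    show W g = W (locFin129 v x * g')
    rw [← hg]
  rw [Finset.sum_image (fun a _ b _ h => stdHecke129_injective142 v hϖ h), hWg]
  have hsum : ∀ c : Option (𝓞 K ⧸ v.asIdeal),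
      W (g * stdHecke129 v ϖ hϖ0 c) = w (x * stdLoc142 v ϖ hϖ0 c) := by
    intro c
    show W (g * stdHecke129 v ϖ hϖ0 c) = W (locFin129 v (x * stdLoc142 v ϖ hϖ0 c) * g')
    rw [stdHecke129_eq142, map_mul, mul_assoc (locFin129 v x), locFin_comm142 v _ hg',
      ← mul_assoc, ← hg]
  rw [Finset.sum_congr rfl (fun c _ => hsum c)]
  exact key

end Fermat.Agent.LT.A2.H142

end

end
-- ===== PACK-END LT/A2/H142/HeckeTop.lean

-- ===== PACK-BEGIN LT/A2/H293/LocEmb.lean
section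



/-!
# Row LT, tower A2, leaf A2.03.1.1.09 `LocBadOfRepC` (helper293) -- part 1: the local embedding

OFF-MAIN.  The embedding `ι_v : K_v → 𝔸_K` (component `y` at `v`, `0` elsewhere), its continuity,
and the local component `ψ_v = ψ ∘ ι_v` of a character of `𝔸_K`.
-/

set_option autoImplicit false

open IsDedekindDomain NumberField

noncomputable section

namespace Fermat.Agent.LT.A2.H293

open Fermat.Agent.LT.H556 Fermat.Agent.LT.A2

variable {K : Type} [Field K] [NumberField K]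

open scoped Classical

/-- The finite adele with component `y` at `v` and `0` elsewhere. -/
def finEmb293 (v : HeightOneSpectrum (𝓞 K)) (y : v.adicCompletion K) :
    FiniteAdeleRing (𝓞 K) K :=
  RestrictedProduct.single (fun v : HeightOneSpectrum (𝓞 K) => v.adicCompletionIntegers K) v y

/-- The adele with component `y` at `v` and `0` elsewhere. -/
def locEmb293 (v : HeightOneSpectrum (𝓞 K)) (y : v.adicCompletion K) : A0.Adl K :=
  ((0 : InfiniteAdeleRing K), finEmb293 v y)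

theorem locEmb293_fin_same (v : HeightOneSpectrum (𝓞 K)) (y : v.adicCompletion K) :
    (locEmb293 v y).2 v = y :=
  RestrictedProduct.single_eq_same _ v y

theorem locEmb293_fin_of_ne (v : HeightOneSpectrum (𝓞 K)) (y : v.adicCompletion K)
    {v' : HeightOneSpectrum (𝓞 K)} (h : v' ≠ v) : (locEmb293 v y).2 v' = 0 :=
  RestrictedProduct.single_eq_of_ne _ y h

theorem locEmb293_inf (v : HeightOneSpectrum (𝓞 K)) (y : v.adicCompletion K)
    (w : InfinitePlace K) : (locEmb293 v y).1 w = 0 := rfl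

theorem adlAtFin_locEmb293 (v : HeightOneSpectrum (𝓞 K)) (y : v.adicCompletion K) :
    WL.AdlAtFin v (locEmb293 v y) :=
  ⟨fun w => locEmb293_inf v y w, fun _ h => locEmb293_fin_of_ne v y h⟩

/-- An adele supported at `v` is the image of its component at `v`. -/
theorem eq_locEmb293_of_adlAtFin {v : HeightOneSpectrum (𝓞 K)} {x : A0.Adl K}
    (h : WL.AdlAtFin v x) : x = locEmb293 v (x.2 v) := by
  refine Prod.ext ?_ ?_
  · funext w
    exact h.1 w
  · refine RestrictedProduct.ext _ _ fun v' => ?_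
    by_cases hv : v' = v
    · subst hv
      exact (locEmb293_fin_same v' _).symm
    · exact (h.2 v' hv).trans (locEmb293_fin_of_ne v _ hv).symm

theorem locEmb293_add (v : HeightOneSpectrum (𝓞 K)) (y z : v.adicCompletion K) :
    locEmb293 v (y + z) = locEmb293 v y + locEmb293 v z := by
  refine Prod.ext ?_ ?_
  · show (0 : InfiniteAdeleRing K) = 0 + 0
    rw [add_zero]
  · refine RestrictedProduct.ext _ _ fun v' => ?_
    by_cases hv : v' = v
    · subst hv
      have e1 := locEmb293_fin_same v' (y + z)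
      have e2 := locEmb293_fin_same v' y
      have e3 := locEmb293_fin_same v' z
      show (locEmb293 v' (y + z)).2 v' = (locEmb293 v' y).2 v' + (locEmb293 v' z).2 v'
      exact e1.trans (by rw [e2, e3])
    · have e1 := locEmb293_fin_of_ne v (y + z) hv
      have e2 := locEmb293_fin_of_ne v y hv
      have e3 := locEmb293_fin_of_ne v z hv
      show (locEmb293 v (y + z)).2 v' = (locEmb293 v y).2 v' + (locEmb293 v z).2 v'
      exact e1.trans (by rw [e2, e3, add_zero])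

theorem locEmb293_zero (v : HeightOneSpectrum (𝓞 K)) : locEmb293 v (0 : v.adicCompletion K) = 0 := by
  have h := locEmb293_add v (0 : v.adicCompletion K) 0
  rw [add_zero] at h
  exact left_eq_add.mp h

end Fermat.Agent.LT.A2.H293

end

end
-- ===== PACK-END LT/A2/H293/LocEmb.lean

-- ===== PACK-BEGIN LT/A2/H926/Partner.lean
section


/-!
# Row LT, tower A2, sub-leaf A2.03.8.5.3 `H254.PartnerC254` (helper926), OFF-MAIN

`partnerC254_926 : Fermat.Agent.LT.A2.H254.PartnerC254`, verbatim the Prop of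
`LT/A2/H254/RecSplitSpec.lean` (helper254@51dfc4e4e, sha256 947dfa59, byte-identical copy).

`g'` trivial at `v`, `(g', m)` admissible.  Put `m' = m · loc_v(m_v)⁻¹`.
* `m'` is trivial at `v`;
* `m' = torMat t n a' b'` with `a'`, `b'` the coordinates `a`, `b` of `m` with the component at
  `v` replaced by `1`, resp. `0` (checked place by place);
* `det loc_v(m_v) = 1` because `det m_v = det g'_v = 1`, so `det m' = det m = det g'`.
-/

set_option autoImplicit false

open IsDedekindDomain NumberField AutomorphicForm MeasureTheory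
open scoped MatrixGroups

noncomputable section

namespace Fermat.Agent.LT.A2.H926

open Fermat.Agent.LT.H556 Fermat.Agent.LT.H556.A0 Fermat.Agent.LT.H129
open Fermat.Agent.LT.A2 Fermat.Agent.LT.A2.H254

/-- A ring homomorphism maps torus matrices to torus matrices. -/
lemma torMat_map926p {R S : Type*} [CommRing R] [CommRing S] (f : R →+* S) (t n a b : R) :
    (torMat t n a b).map f = torMat (f t) (f n) (f a) (f b) := by
  unfold torMat
  ext i j
  fin_cases i <;> fin_cases j <;> simp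

/-- `torMat t n 1 0 = 1`. -/
lemma torMat_one926p {R : Type*} [CommRing R] (t n : R) : torMat t n 1 0 = 1 := by
  unfold torMat
  ext i j
  fin_cases i <;> fin_cases j <;> simp

variable {K : Type} [Field K] [NumberField K]

/-- The adele `x` with the component at `v` replaced by `c`. -/
def replaceAt926 (v : HeightOneSpectrum (𝓞 K)) (x : Adl K) (c : v.adicCompletion K) : Adl K :=
  (x.1, x.2 - finSingle129 v false (x.2 v) + finSingle129 v false c)

lemma replaceAt926_inf (v : HeightOneSpectrum (𝓞 K)) (x : Adl K) (c : v.adicCompletion K)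
    (w : InfinitePlace K) : evI129 w (replaceAt926 v x c) = evI129 w x := rfl

lemma replaceAt926_same (v : HeightOneSpectrum (𝓞 K)) (x : Adl K) (c : v.adicCompletion K) :
    evF129 v (replaceAt926 v x c) = c := by
  change x.2 v - finSingle129 v false (x.2 v) v + finSingle129 v false c v = c
  rw [finSingle129_same, finSingle129_same]
  ring

lemma replaceAt926_of_ne (v : HeightOneSpectrum (𝓞 K)) (x : Adl K) (c : v.adicCompletion K)
    {v' : HeightOneSpectrum (𝓞 K)} (h : v' ≠ v) :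
    evF129 v' (replaceAt926 v x c) = evF129 v' x := by
  simp only [evF129_apply, replaceAt926]
  change x.2 v' - finSingle129 v false (x.2 v) v' + finSingle129 v false c v' = x.2 v'
  rw [finSingle129_of_ne v _ _ h, finSingle129_of_ne v _ _ h]
  simp

/-- The determinant of the local embedding of an element of determinant one is one. -/
lemma det_locFin926 (v : HeightOneSpectrum (𝓞 K)) (x : GL (Fin 2) (v.adicCompletion K))
    (hx : Matrix.GeneralLinearGroup.det x = 1) :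
    Matrix.GeneralLinearGroup.det (locFin129 v x) = 1 := by
  apply Units.ext
  rw [Matrix.GeneralLinearGroup.val_det_apply, coe_locFin129, Units.val_one]
  apply adele_ext129
  · intro w
    have h := RingHom.map_det (evI129 w)
      (locMat129 v (x : Matrix (Fin 2) (Fin 2) (v.adicCompletion K)))
    rw [RingHom.mapMatrix_apply, locMat129_map_inf, Matrix.det_one] at h
    exact h
  · intro v'
    have h := RingHom.map_det (evF129 v')
      (locMat129 v (x : Matrix (Fin 2) (Fin 2) (v.adicCompletion K)))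
    rw [RingHom.mapMatrix_apply] at h
    by_cases hv : v' = v
    · subst hv
      rw [locMat129_map_same] at h
      have hx' : (x : Matrix (Fin 2) (Fin 2) (v'.adicCompletion K)).det = 1 := by
        have := congrArg Units.val hx
        rwa [Matrix.GeneralLinearGroup.val_det_apply] at this
      rw [hx'] at h
      exact h
    · rw [locMat129_map_of_ne v _ hv, Matrix.det_one] at h
      exact h

/-- **A2.03.8.5.3 PARTNER**, verbatim `H254.PartnerC254`. -/
theorem partnerC254_926 : PartnerC254 := by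
  intro K _ _ t n v g' hg' hplus
  obtain ⟨m, ⟨a, b, hab⟩, hdet⟩ := hplus
  have hg1 : finCompHom129 v g' = 1 := (trivAtFin_iff129 v g').mp hg'
  -- the component of `m` at `v` has determinant one
  have hdetv : Matrix.GeneralLinearGroup.det (finCompHom129 v m) = 1 := by
    have h1 : Matrix.GeneralLinearGroup.det (finCompHom129 v m)
        = Matrix.GeneralLinearGroup.det (finCompHom129 v g') := by
      unfold finCompHom129
      rw [Matrix.GeneralLinearGroup.map_det, Matrix.GeneralLinearGroup.map_det, hdet]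
    rw [h1, hg1, map_one]
  have hL := det_locFin926 v (finCompHom129 v m) hdetv
  refine ⟨m * (locFin129 v (finCompHom129 v m))⁻¹, ⟨?_, ?_⟩, ?_⟩
  · -- in the torus
    refine ⟨replaceAt926 v a 1, replaceAt926 v b 0, ?_⟩
    rw [Units.val_mul, ← map_inv, coe_locFin129]
    apply adeleMatrix_ext129
    · intro w
      rw [Matrix.map_mul, locMat129_map_inf, mul_one, hab, torMat_map926p, torMat_map926p,
        replaceAt926_inf, replaceAt926_inf]
    · intro v'
      rw [Matrix.map_mul]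
      by_cases hv : v' = v
      · subst hv
        rw [locMat129_map_same, ← coe_finCompHom129_map, ← Matrix.GeneralLinearGroup.coe_mul,
          mul_inv_cancel, torMat_map926p, replaceAt926_same, replaceAt926_same, torMat_one926p]
        rfl
      · rw [locMat129_map_of_ne v _ hv, mul_one, hab, torMat_map926p, torMat_map926p,
          replaceAt926_of_ne v _ _ hv, replaceAt926_of_ne v _ _ hv]
  · -- the determinant
    rw [map_mul, map_inv, hL, inv_one, mul_one, hdet]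
  · -- trivial at `v`
    rw [trivAtFin_iff129, map_mul, map_inv, finCompHom129_locFin129, mul_inv_cancel]

end Fermat.Agent.LT.A2.H926

end

end
-- ===== PACK-END LT/A2/H926/Partner.lean

-- ===== PACK-BEGIN LT/A2/H361/LocFinSpec.lean
section


/-!
# Row LT, tower A2, station `DataC`, sub-station LOC-FIN -- THE CUT (sub-architect helper361)

OFF-MAIN.  Definitions, frozen Props and the PROVED top `pkg_of_leaves361`.  No holes.

TARGET (`PkgC`): at every finite place `v` of every number field `K`, for ALL `t n : K_v` with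
`t² - 4n ≠ 0`, EVERY nontrivial continuous unitary character `ψ` of `K_v` and EVERY Haar measure
`μ` of `K_v` there are `γ`, `η`, `R` with `WeilPkg ‖·‖ t n ψ μ γ η R` (`LocFinPkg.lean`).

    PkgC ⟸ SBIntC + HaarGL2C + FTSBC + FTInvC + GaussC          (ANALYSIS on `S(K_v²)`)
          + NormIndexC + NormOpenC + SumNormC                     (ARITHMETIC of the norm form)
          + ConstIdC + EtaC                                       (the constants `γ`, `η`)
          + CellC + TorExtC                                       (ABSTRACT algebra of `SL₂`)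
          + AsmC                                                  (assembly)

## The mathematics (notation: `F = ftL`, `N(x) Φ = ψ(xQ) Φ`, `T₀(a) Φ = |a| Φ(a·)`, `S = S(k²)`)

* `F² Φ = κ Φ(-·)` (`FTInvC`), `F T₀(a) = T₀(a⁻¹) F` (`HaarGL2C`, `A = a·1`).
* GAUSS (`GaussC`): `F N(a) F Φ (ξ) = G(a) ψ(-Q(ξ)/a) · (F N(-1/a) Φ)(-ξ/a)`; formally
  `G(a) = ∫ ψ(a Q(y)) dy` (the integral over a large lattice; it is stationary).  Put
  `c(a) = G(a) |a|` (`cL`).  Then `F N(a) F = c(a) N(-1/a) T₀(-1/a) F N(-1/a)`.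
* CONSTANTS (`ConstIdC`), formal consequences: `c(a) ≠ 0`; `c(a N(λ)) = c(a)` (change of
  variable `y ↦ λ y`); (I1) `c(a) c(-a) = κ` (from `(F N(a) F)(F N(-a) F) = κ²`);
  (I2) `c(a) c((ab-1)/a) = c(b) c(b(ab-1))` (the two ways to reduce `F N(a) F N(b) F`).
* ETA (`EtaC`): `γ := 1 / c(-1)`, `η(b) := c(-b) / c(-1)`.  `η = 1` on the norms; the norm group
  has index `≤ 2` (`NormIndexC`), so `η` is a character as soon as `z := η(ε)` (`ε` a non-norm)
  has `z² = 1`: if `-1` is a norm, (I1) gives `η(ε) η(-ε) = η(-1) = 1`; if not, take norms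
  `m`, `1` with `m + 1` a non-norm (`SumNormC`) and use (I2) in the form
  `η(1) η(m) = η(m+1) η(m(m+1))`.  Then `γ² κ = η(-1)` (I1 at `a = 1`) and `γ c(a) = η(-a)`:
  these are exactly `W² = T(-1)` and `W N(a) W = T(-1/a) N(-a) W N(-1/a)` for `W = γ F`,
  `T(a) = η(a) T₀(a)`.
* CELLS (`CellC`, any field, any monoid): operators `N, T, W` with the six relations
  `R1 … R6` (`CellRel`) define `r : SL₂(k) → M` by `r [[a,b],[0,a⁻¹]] = N(ab) T(a)` and
  `r [[a,b],[c,d]] = N(a/c) W T(-c) N(d/c)` (`c ≠ 0`); `r (g s) = r g · r s` is checked for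
  `g ∈ {n(x), t(u), w}` cell by cell (the case `w`, `a c ≠ 0` is `R6`).
* TORUS (`TorExtC`): `R (g, m) := r (g d(det m)⁻¹) · D(m)`, `D(m) Φ = |det m|^{-1/2} Φ(m⁻¹ ·)`.
* NORM INDEX (`NormIndexC`), elementary, NO class field theory: split case: the norm is
  surjective; field case `L = k[ω]`: `[k^× : k^×²] = 4/|2|` and `[N L^× : k^×²] =
  [L¹ : (L¹)²] = 2/|2|` (Hilbert 90 `z = y/σy`; the squaring map on `1 + ϖ^n 𝒪` and, by the
  Cayley transform `x ↦ (1 + xθ)/(1 - xθ)`, `θ² = t² - 4n`, on `L¹` near `1`; index calculus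
  `q(A) = q(B)` for `B ⊂ A` of finite index, `q = [A : A²] / #A[2]`).

Everything is a TRUE statement.  Mathlib only, except the byte-identical Spec closure.
-/

set_option autoImplicit false
set_option linter.unusedSectionVars false

open IsDedekindDomain NumberField MeasureTheory
open scoped Topology

noncomputable section

namespace Fermat.Agent.LT.A2.LF361

open Fermat.Agent.LT.A2.WX467

/-! ## 1. Local Props (a topological field `k`) -/

section Local

variable {k : Type} [Field k] [TopologicalSpace k]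

/-- Schwartz--Bruhat functions are integrable for `μ × μ`. -/
def SBIntAt (μ : @Measure k (borel k)) : Prop :=
  ∀ Φ : k × k → ℂ, IsSB Φ → IntegrableL μ Φ

/-- Linear change of variable on `k²`: `∫ f(A y) dy = |det A|⁻¹ ∫ f(y) dy`. -/
def HaarGL2At (absv : k → ℝ) (μ : @Measure k (borel k)) : Prop :=
  ∀ A : Matrix (Fin 2) (Fin 2) k, A.det ≠ 0 → ∀ f : k × k → ℂ, IsSB f →
    intL μ (fun y => f (actL A y)) = (((absv A.det)⁻¹ : ℝ) : ℂ) * intL μ f

/-- The Fourier transform preserves the Schwartz--Bruhat functions. -/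
def FTSBAt (t n : k) (ψ : k → ℂ) (μ : @Measure k (borel k)) : Prop :=
  ∀ Φ : k × k → ℂ, IsSB Φ → IsSB (ftL t n ψ μ Φ)

/-- Fourier inversion with constant `κ > 0`: `F (F Φ) (ξ) = κ Φ(-ξ)`. -/
def FTInvAt (t n : k) (ψ : k → ℂ) (μ : @Measure k (borel k)) (κ : ℝ) : Prop :=
  0 < κ ∧ ∀ Φ : k × k → ℂ, IsSB Φ → ∀ ξ : k × k,
    ftL t n ψ μ (ftL t n ψ μ Φ) ξ = (κ : ℂ) * Φ (-ξ)

/-- The Gauss identity with constant `gs a = G(a)`:
`F (ψ(aQ) · F Φ) (ξ) = G(a) ψ(-Q(ξ)/a) · F (ψ(-Q/a) Φ) (-ξ/a)`. -/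
def GaussAt (t n : k) (ψ : k → ℂ) (μ : @Measure k (borel k)) (gs : k → ℂ) : Prop :=
  ∀ a : k, a ≠ 0 → ∀ Φ : k × k → ℂ, IsSB Φ → ∀ ξ : k × k,
    ftL t n ψ μ (fun y => ψ (a * qfL t n y) * ftL t n ψ μ Φ y) ξ
      = gs a * (ψ (-(a⁻¹ * qfL t n ξ)) *
          ftL t n ψ μ (fun y => ψ (-(a⁻¹ * qfL t n y)) * Φ y) ((-a⁻¹) • ξ))

/-- `a` is a value of the norm form `Q(x, y) = x² + t x y + n y²`. -/
def IsNormL (t n : k) (a : k) : Prop := ∃ x y : k, qfL t n (x, y) = a

/-- The group of the nonzero norms has index `≤ 2` in `k^×`. -/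
def NormIndexAt (t n : k) : Prop :=
  ∃ ε : k, ε ≠ 0 ∧ ∀ a : k, a ≠ 0 → IsNormL t n a ∨ IsNormL t n (a * ε)

/-- If `-1` is not a norm, the sum of two nonzero norms can be a nonzero non-norm. -/
def SumNormAt (t n : k) : Prop :=
  ¬ IsNormL t n (-1) →
    ∃ a b : k, a ≠ 0 ∧ b ≠ 0 ∧ IsNormL t n a ∧ IsNormL t n b ∧ a + b ≠ 0 ∧
      ¬ IsNormL t n (a + b)

/-- `c(a) = G(a) |a|`. -/
def cL (absv : k → ℝ) (gs : k → ℂ) (a : k) : ℂ := gs a * ((absv a : ℝ) : ℂ)

/-- The identities between the constants `κ` and `c(a) = G(a) |a|`. -/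
structure ConstIdOut (absv : k → ℝ) (t n : k) (κ : ℝ) (gs : k → ℂ) : Prop where
  ne_zero : ∀ a : k, a ≠ 0 → gs a ≠ 0
  inv : ∀ a b : k, a ≠ 0 → b ≠ 0 → IsNormL t n b → cL absv gs (a * b) = cL absv gs a
  i1 : ∀ a : k, a ≠ 0 → cL absv gs a * cL absv gs (-a) = (κ : ℂ)
  i2 : ∀ a b : k, a ≠ 0 → b ≠ 0 → a * b ≠ 1 →
    cL absv gs a * cL absv gs ((a * b - 1) / a) = cL absv gs b * cL absv gs (b * (a * b - 1))

/-- The constants `γ`, `η` of the Weil representation. -/
structure EtaOut (absv : k → ℝ) (t n : k) (κ : ℝ) (gs : k → ℂ) (γ : ℂ) (η : k → ℂ) :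
    Prop where
  eta_mul : ∀ a b : k, a ≠ 0 → b ≠ 0 → η (a * b) = η a * η b
  eta_sq : ∀ a : k, a ≠ 0 → η a = 1 ∨ η a = -1
  eta_norm : ∀ b : k, b ≠ 0 → IsNormL t n b → η b = 1
  eta_cont : ContinuousOn η {a | a ≠ 0}
  /-- `W² = T(-1)`. -/
  r5 : γ ^ 2 * (κ : ℂ) = η (-1)
  /-- `W N(a) W = T(-1/a) N(-a) W N(-1/a)`. -/
  r6 : ∀ a : k, a ≠ 0 → γ * cL absv gs a = η (-a)

end Local

/-! ## 2. Abstract algebra of `SL₂` (any field, any monoid) -/

section Abstract

/-- The six relations `R1 … R6` between `N(x)`, `T(a)`, `W` in a monoid `M`. -/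
structure CellRel (k M : Type) [Field k] [Monoid M] (N T : k → M) (W : M) : Prop where
  n_add : ∀ x y : k, N x * N y = N (x + y)
  n_zero : N 0 = 1
  t_mul : ∀ a b : k, a ≠ 0 → b ≠ 0 → T a * T b = T (a * b)
  t_one : T 1 = 1
  t_n : ∀ a x : k, a ≠ 0 → T a * N x = N (a ^ 2 * x) * T a
  w_t : ∀ a : k, a ≠ 0 → W * T a = T a⁻¹ * W
  w_sq : W * W = T (-1)
  w_n_w : ∀ a : k, a ≠ 0 → W * N a * W = T (-a⁻¹) * N (-a) * W * N (-a⁻¹)

/-- A representation of `SL₂(k)` (matrices of determinant `1`) in `M` with the values `N`, `T`,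
`W` on the generators. -/
structure IsSLRep (k M : Type) [Field k] [Monoid M] (N T : k → M) (W : M)
    (r : Matrix (Fin 2) (Fin 2) k → M) : Prop where
  one : r 1 = 1
  mul : ∀ s s' : Matrix (Fin 2) (Fin 2) k, s.det = 1 → s'.det = 1 → r (s * s') = r s * r s'
  unip : ∀ x : k, r (nMat x) = N x
  weyl : r wMat = W
  diag : ∀ a : k, a ≠ 0 → r (tMat a) = T a

/-- **Leaf CELL (abstract; Mathlib only).**  Operators with the relations `R1 … R6` define a
representation of `SL₂(k)`: `r [[a,b],[0,a⁻¹]] = N(ab) T(a)`,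
`r [[a,b],[c,d]] = N(a/c) W T(-c) N(d/c)` for `c ≠ 0`; `r (g s) = r g · r s` for the generators
`g = n(x), t(u), w` by cells (see the header), then for all `g` by the Bruhat decomposition. -/
def CellC : Prop :=
  ∀ (k M : Type) [Field k] [Monoid M] (N T : k → M) (W : M),
    CellRel k M N T W → ∃ r : Matrix (Fin 2) (Fin 2) k → M, IsSLRep k M N T W r

/-- The relations between the torus operators `D(m)` and the generators. -/
structure TorRel (k M : Type) [Field k] [Monoid M] (t n : k) (N T : k → M) (W : M)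
    (D : Matrix (Fin 2) (Fin 2) k → M) : Prop where
  d_one : D 1 = 1
  d_mul : ∀ m m' : Matrix (Fin 2) (Fin 2) k, InTorL t n m → m.det ≠ 0 → InTorL t n m' →
    m'.det ≠ 0 → D (m * m') = D m * D m'
  d_n : ∀ m : Matrix (Fin 2) (Fin 2) k, InTorL t n m → m.det ≠ 0 →
    ∀ x : k, D m * N x = N (x * (m.det)⁻¹) * D m
  d_t : ∀ m : Matrix (Fin 2) (Fin 2) k, InTorL t n m → m.det ≠ 0 →
    ∀ a : k, a ≠ 0 → D m * T a = T a * D m
  d_w : ∀ m : Matrix (Fin 2) (Fin 2) k, InTorL t n m → m.det ≠ 0 →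
    D m * W = W * T m.det * D m

/-- **Leaf TORUS-EXT (abstract; Mathlib only).**  `R (g, m) := r (g · d(det m)⁻¹) · D(m)` is
multiplicative on the admissible pairs: `D(m) r(s) = r (d s d⁻¹) D(m)`, `d = d(det m)`, holds on
the generators (`d n(x) d⁻¹ = n(x / det m)`, `d t(a) d⁻¹ = t(a)`, `d w d⁻¹ = w t(det m)`), hence on
`SL₂(k)` (Bruhat decomposition + `IsSLRep.mul`). -/
def TorExtC : Prop :=
  ∀ (k M : Type) [Field k] [Monoid M] (t n : k) (N T : k → M) (W : M)
    (r : Matrix (Fin 2) (Fin 2) k → M) (D : Matrix (Fin 2) (Fin 2) k → M),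
    IsSLRep k M N T W r → TorRel k M t n N T W D →
    ∃ R : Matrix (Fin 2) (Fin 2) k → Matrix (Fin 2) (Fin 2) k → M,
      R 1 1 = 1 ∧
      (∀ g m g' m' : Matrix (Fin 2) (Fin 2) k, AdmL t n g m → AdmL t n g' m' →
        R (g * g') (m * m') = R g m * R g' m') ∧
      (∀ s : Matrix (Fin 2) (Fin 2) k, s.det = 1 → R s 1 = r s) ∧
      (∀ m : Matrix (Fin 2) (Fin 2) k, InTorL t n m → m.det ≠ 0 → R (dMat m.det) m = D m)

end Abstract

/-! ## 3. The leaves at a finite place -/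

section Leaves

/-- **Leaf SB-INT.**  Schwartz--Bruhat functions on `K_v²` are integrable for `μ × μ`
(`K_v` is second countable, so `borel (K_v × K_v)` is the product σ-algebra; `μ` is finite on
compact sets). -/
def SBIntC : Prop :=
  ∀ (K : Type) [Field K] [NumberField K] (v : HeightOneSpectrum (𝓞 K))
    (μ : @Measure (v.adicCompletion K) (borel (v.adicCompletion K))),
    _root_.Fermat.Agent.LT.A2.LF361.IsHaarL μ → SBIntAt μ

/-- **Leaf HAAR-GL2.**  `∫ f(A y) dy = ‖det A‖⁻¹ ∫ f(y) dy` on `K_v²` (the norm of `K_v` is the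
module: `μ(a S) = ‖a‖ μ(S)`; elementary matrices, or `A 𝒪² ` versus `𝒪²` by the elementary
divisors). -/
def HaarGL2C : Prop :=
  ∀ (K : Type) [Field K] [NumberField K] (v : HeightOneSpectrum (𝓞 K))
    (μ : @Measure (v.adicCompletion K) (borel (v.adicCompletion K))),
    _root_.Fermat.Agent.LT.A2.LF361.IsHaarL μ → HaarGL2At (fun x : v.adicCompletion K => ‖x‖) μ

/-- **Leaf FT-SB.**  The Fourier transform of a Schwartz--Bruhat function is Schwartz--Bruhat:
`F(1_{y₀ + Λ})(ξ) = ψ(B(ξ, y₀)) μ²(Λ) 1_{Λ^⊥}(ξ)`; `Λ^⊥` is a lattice because `B` is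
nondegenerate (`t² - 4n ≠ 0`) and `ψ` has a conductor. -/
def FTSBC : Prop :=
  ∀ (K : Type) [Field K] [NumberField K] (v : HeightOneSpectrum (𝓞 K))
    (t n : v.adicCompletion K) (ψ : v.adicCompletion K → ℂ)
    (μ : @Measure (v.adicCompletion K) (borel (v.adicCompletion K))),
    t ^ 2 - 4 * n ≠ 0 → _root_.Fermat.Agent.LT.A2.LF361.IsCharL ψ → (∃ x, ψ x ≠ 1) → _root_.Fermat.Agent.LT.A2.LF361.IsHaarL μ → FTSBAt t n ψ μ

/-- **Leaf FT-INV.**  Fourier inversion on `S(K_v²)`: `F (F Φ) = κ Φ(-·)`,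
`κ = μ²(Λ) μ²(Λ^⊥) > 0` (independent of the lattice `Λ`; `Λ^⊥⊥ = Λ`). -/
def FTInvC : Prop :=
  ∀ (K : Type) [Field K] [NumberField K] (v : HeightOneSpectrum (𝓞 K))
    (t n : v.adicCompletion K) (ψ : v.adicCompletion K → ℂ)
    (μ : @Measure (v.adicCompletion K) (borel (v.adicCompletion K))),
    t ^ 2 - 4 * n ≠ 0 → _root_.Fermat.Agent.LT.A2.LF361.IsCharL ψ → (∃ x, ψ x ≠ 1) → _root_.Fermat.Agent.LT.A2.LF361.IsHaarL μ → ∃ κ : ℝ, FTInvAt t n ψ μ κ

/-- **Leaf GAUSS.**  The Gauss identity (Weil 1964 §14, Thm 2; Jacquet--Langlands Lemma 1.2):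
for `Φ` Schwartz--Bruhat exchange the integrals over a large lattice `Λ_j`, complete the square
`a Q(y) + B(y, u) = a Q(y + u/a) - Q(u)/a`, and use that `∫_{Λ_j} ψ(a Q(y)) dy` is stationary in
`j` (on a shell the integral over each coset of a small lattice vanishes). -/
def GaussC : Prop :=
  ∀ (K : Type) [Field K] [NumberField K] (v : HeightOneSpectrum (𝓞 K))
    (t n : v.adicCompletion K) (ψ : v.adicCompletion K → ℂ)
    (μ : @Measure (v.adicCompletion K) (borel (v.adicCompletion K))),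
    t ^ 2 - 4 * n ≠ 0 → _root_.Fermat.Agent.LT.A2.LF361.IsCharL ψ → (∃ x, ψ x ≠ 1) → _root_.Fermat.Agent.LT.A2.LF361.IsHaarL μ →
    ∃ gs : v.adicCompletion K → ℂ, GaussAt t n ψ μ gs

/-- **Leaf NORM-INDEX.**  The norm group of the quadratic algebra `K_v[ω]`, `ω² - tω + n = 0`,
has index `≤ 2` in `K_v^×` (header: elementary proof; all residue characteristics, `2`
included). -/
def NormIndexC : Prop :=
  ∀ (K : Type) [Field K] [NumberField K] (v : HeightOneSpectrum (𝓞 K))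
    (t n : v.adicCompletion K), t ^ 2 - 4 * n ≠ 0 → NormIndexAt t n

/-- **Leaf NORM-OPEN.**  The norms contain a neighbourhood of `1` (squares: Hensel for
`x² = a`, `‖a - 1‖ < ‖4‖`; `Q(x, 0) = x²`). -/
def NormOpenC : Prop :=
  ∀ (K : Type) [Field K] [NumberField K] (v : HeightOneSpectrum (𝓞 K))
    (t n : v.adicCompletion K),
    ∃ δ : ℝ, 0 < δ ∧ ∀ a : v.adicCompletion K, ‖a - 1‖ < δ → IsNormL t n a

/-- **Leaf SUM-NORM.**  If `-1` is not a norm, some sum of two norms is a nonzero non-norm: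
otherwise `p^j - 1 = 1 + ⋯ + 1` is a norm for all `j`, `1 - p^j → 1` is a norm for `j` large
(`NormOpenC`; `p` the residue characteristic), and `-1 = (p^j - 1)/(1 - p^j)` is a norm
(the nonzero norms form a group: Brahmagupta). -/
def SumNormC : Prop :=
  ∀ (K : Type) [Field K] [NumberField K] (v : HeightOneSpectrum (𝓞 K))
    (t n : v.adicCompletion K),
    (∃ δ : ℝ, 0 < δ ∧ ∀ a : v.adicCompletion K, ‖a - 1‖ < δ → IsNormL t n a) →
    SumNormAt t n

/-- **Leaf CONST-ID.**  The identities between the constants: formal consequences of Fourier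
inversion, of the change of variable and of the Gauss identity (header). -/
def ConstIdC : Prop :=
  ∀ (K : Type) [Field K] [NumberField K] (v : HeightOneSpectrum (𝓞 K))
    (t n : v.adicCompletion K) (ψ : v.adicCompletion K → ℂ)
    (μ : @Measure (v.adicCompletion K) (borel (v.adicCompletion K))),
    t ^ 2 - 4 * n ≠ 0 → _root_.Fermat.Agent.LT.A2.LF361.IsCharL ψ → (∃ x, ψ x ≠ 1) → _root_.Fermat.Agent.LT.A2.LF361.IsHaarL μ →
    SBIntAt μ → HaarGL2At (fun x : v.adicCompletion K => ‖x‖) μ → FTSBAt t n ψ μ →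
    ∀ (κ : ℝ) (gs : v.adicCompletion K → ℂ), FTInvAt t n ψ μ κ → GaussAt t n ψ μ gs →
      ConstIdOut (fun x : v.adicCompletion K => ‖x‖) t n κ gs

/-- **Leaf ETA.**  The constants `γ = 1 / c(-1)` and `η(b) = c(-b) / c(-1)` (header).  Only the
function `c` and the arithmetic of the norm form occur; no integral. -/
def EtaC : Prop :=
  ∀ (K : Type) [Field K] [NumberField K] (v : HeightOneSpectrum (𝓞 K))
    (t n : v.adicCompletion K) (κ : ℝ) (gs : v.adicCompletion K → ℂ), 0 < κ →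
    ConstIdOut (fun x : v.adicCompletion K => ‖x‖) t n κ gs →
    NormIndexAt t n →
    (∃ δ : ℝ, 0 < δ ∧ ∀ a : v.adicCompletion K, ‖a - 1‖ < δ → IsNormL t n a) →
    SumNormAt t n →
    ∃ (γ : ℂ) (η : v.adicCompletion K → ℂ),
      EtaOut (fun x : v.adicCompletion K => ‖x‖) t n κ gs γ η

/-- **Leaf ASM.**  The package from the analytic facts, the constants and the abstract algebra:
`M := Function.End {Φ // IsSB Φ}`; `N(x)`, `T(a) = η(a) T₀(a)`, `W = γ F`, `D(m)` preserve the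
Schwartz--Bruhat functions; `CellRel` (R4 from `HaarGL2At`, R5 from `FTInvAt` and `r5`, R6 from
`GaussAt` and `r6`) and `TorRel` (from `HaarGL2At`, `eta_norm`); then `CellC`, `TorExtC`, and
`R g m Φ := R' g m ⟨Φ, _⟩` on the Schwartz--Bruhat functions (`0` elsewhere). -/
def AsmC : Prop :=
  ∀ (K : Type) [Field K] [NumberField K] (v : HeightOneSpectrum (𝓞 K))
    (t n : v.adicCompletion K) (ψ : v.adicCompletion K → ℂ)
    (μ : @Measure (v.adicCompletion K) (borel (v.adicCompletion K))),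
    t ^ 2 - 4 * n ≠ 0 → _root_.Fermat.Agent.LT.A2.LF361.IsCharL ψ → (∃ x, ψ x ≠ 1) → _root_.Fermat.Agent.LT.A2.LF361.IsHaarL μ →
    SBIntAt μ → HaarGL2At (fun x : v.adicCompletion K => ‖x‖) μ → FTSBAt t n ψ μ →
    ∀ (κ : ℝ) (gs : v.adicCompletion K → ℂ) (γ : ℂ) (η : v.adicCompletion K → ℂ),
      FTInvAt t n ψ μ κ → GaussAt t n ψ μ gs →
      EtaOut (fun x : v.adicCompletion K => ‖x‖) t n κ gs γ η →
      CellC → TorExtC →
      ∃ R : Matrix (Fin 2) (Fin 2) (v.adicCompletion K) →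
          Matrix (Fin 2) (Fin 2) (v.adicCompletion K) →
          (v.adicCompletion K × v.adicCompletion K → ℂ) →
          v.adicCompletion K × v.adicCompletion K → ℂ,
        WeilPkg (fun x : v.adicCompletion K => ‖x‖) t n ψ μ γ η R

/-- **THE TARGET of LOC-FIN**: the local Weil representation exists at every finite place, for
every nondegenerate norm form, every nontrivial character and every Haar measure. -/
def PkgC : Prop :=
  ∀ (K : Type) [Field K] [NumberField K] (v : HeightOneSpectrum (𝓞 K))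
    (t n : v.adicCompletion K) (ψ : v.adicCompletion K → ℂ)
    (μ : @Measure (v.adicCompletion K) (borel (v.adicCompletion K))),
    t ^ 2 - 4 * n ≠ 0 → _root_.Fermat.Agent.LT.A2.LF361.IsCharL ψ → (∃ x, ψ x ≠ 1) → _root_.Fermat.Agent.LT.A2.LF361.IsHaarL μ →
    ∃ (γ : ℂ) (η : v.adicCompletion K → ℂ)
      (R : Matrix (Fin 2) (Fin 2) (v.adicCompletion K) →
          Matrix (Fin 2) (Fin 2) (v.adicCompletion K) →
          (v.adicCompletion K × v.adicCompletion K → ℂ) →
          v.adicCompletion K × v.adicCompletion K → ℂ),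
      WeilPkg (fun x : v.adicCompletion K => ‖x‖) t n ψ μ γ η R

end Leaves

/-! ## 4. The top (PROVED) -/

/-- **The top of LOC-FIN**: the package from the thirteen leaves. -/
theorem pkg_of_leaves361 (hInt : SBIntC) (hGL : HaarGL2C) (hSB : FTSBC) (hInv : FTInvC)
    (hGauss : GaussC) (hIdx : NormIndexC) (hOpen : NormOpenC) (hSum : SumNormC)
    (hConst : ConstIdC) (hEta : EtaC) (hCell : CellC) (hTor : TorExtC) (hAsm : _root_.Fermat.Agent.LT.A2.LF361.AsmC) :
    PkgC := by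
  intro K _ _ v t n ψ μ hd hψ hψ1 hμ
  have h1 := hInt K v μ hμ
  have h2 := hGL K v μ hμ
  have h3 := hSB K v t n ψ μ hd hψ hψ1 hμ
  obtain ⟨κ, hκ⟩ := hInv K v t n ψ μ hd hψ hψ1 hμ
  obtain ⟨gs, hgs⟩ := hGauss K v t n ψ μ hd hψ hψ1 hμ
  have hc := hConst K v t n ψ μ hd hψ hψ1 hμ h1 h2 h3 κ gs hκ hgs
  have ho := hOpen K v t n
  obtain ⟨γ, η, hη⟩ := hEta K v t n κ gs hκ.1 hc (hIdx K v t n hd) ho (hSum K v t n ho)
  obtain ⟨R, hR⟩ := hAsm K v t n ψ μ hd hψ hψ1 hμ h1 h2 h3 κ gs γ η hκ hgs hη hCell hTor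
  exact ⟨γ, η, R, hR⟩

/-- **For the consumers** (LOC-GOOD, LOC-BAD, ASM of `DataC`): at a finite place, for every
Schwartz--Bruhat `Φ₀`, a family with `LocAx`, `F 1 1 = Φ₀`, Schwartz--Bruhat values, and the
package behind it. -/
theorem locFin_of_pkg361 (hPkg : PkgC) (hInt : SBIntC)
    (K : Type) [Field K] [NumberField K] (v : HeightOneSpectrum (𝓞 K))
    (t n : v.adicCompletion K) (ψ : v.adicCompletion K → ℂ)
    (μ : @Measure (v.adicCompletion K) (borel (v.adicCompletion K)))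
    (hd : t ^ 2 - 4 * n ≠ 0) (hψ : _root_.Fermat.Agent.LT.A2.LF361.IsCharL ψ) (hψ1 : ∃ x, ψ x ≠ 1) (hμ : _root_.Fermat.Agent.LT.A2.LF361.IsHaarL μ) :
    ∃ (γ : ℂ) (η : v.adicCompletion K → ℂ)
      (R : Matrix (Fin 2) (Fin 2) (v.adicCompletion K) →
          Matrix (Fin 2) (Fin 2) (v.adicCompletion K) →
          (v.adicCompletion K × v.adicCompletion K → ℂ) →
          v.adicCompletion K × v.adicCompletion K → ℂ),
      WeilPkg (fun x : v.adicCompletion K => ‖x‖) t n ψ μ γ η R ∧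
      ∀ Φ₀ : v.adicCompletion K × v.adicCompletion K → ℂ, IsSB Φ₀ →
        LocAx (fun x : v.adicCompletion K => ‖x‖) t n ψ μ γ η (fun g m => R g m Φ₀) ∧
        R 1 1 Φ₀ = Φ₀ ∧
        ∀ g m : Matrix (Fin 2) (Fin 2) (v.adicCompletion K), AdmL t n g m →
          IsLocallyConstant (R g m Φ₀) ∧ HasCompactSupport (R g m Φ₀) := by
  obtain ⟨γ, η, R, hR⟩ := hPkg K v t n ψ μ hd hψ hψ1 hμ
  refine ⟨γ, η, R, hR, fun Φ₀ h₀ => ⟨?_, hR.one Φ₀ h₀, fun g m hgm => hR.sb g m hgm Φ₀ h₀⟩⟩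
  exact locAx_of_pkg361 hR hμ hψ (hInt K v μ hμ) Φ₀ h₀

end Fermat.Agent.LT.A2.LF361

end

end
-- ===== PACK-END LT/A2/H361/LocFinSpec.lean

-- ===== PACK-BEGIN LT/A2/H416/Loc.lean
section


/-!
# Row LT, tower A2, leaf A2.03.7 WHIT-MEAN (helper416): local adeles, ideles and matrices at a
complex place

OFF-MAIN.  `locAdlHom w`, `locIdl w`, `cIdl hw : ℂˣ →* 𝔸_Kˣ` (idele supported at the complex place
`w`), `locAdd w` (adele supported at `w`), `nU416` (upper unipotent matrices); the entries of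
`T0.locInfComplex hw M`; `[[y, x], [0, 1]] = n(x) · diag(√y, 1/√y) · √y`; the module and the
quadratic character of an idele supported at `w`.
-/

set_option autoImplicit false
set_option linter.unusedSectionVars false
open IsDedekindDomain NumberField AutomorphicForm MeasureTheory
open scoped MatrixGroups Topology Classical
noncomputable section
namespace Fermat.Agent.LT.A2.H416
open Fermat.Agent.LT.H130 Fermat.Agent.LT.H556 Fermat.Agent.LT.A2 Fermat.Agent.LT.H470
open Fermat.Agent.LT.T8.H864 Fermat.Agent.LT.H556.T0 Fermat.Agent.LT.A2.H971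

variable {K : Type} [Field K] [NumberField K]

/-- The infinite adele with component `x` at `w` and `c` elsewhere. -/
def updInf (c : (w' : InfinitePlace K) → w'.Completion) (w : InfinitePlace K)
    (x : w.Completion) : InfiniteAdeleRing K :=
  Function.update c w x

theorem updInf_self (c : (w' : InfinitePlace K) → w'.Completion) (w : InfinitePlace K)
    (x : w.Completion) : updInf c w x w = x :=
  Function.update_self w x c

theorem updInf_of_ne (c : (w' : InfinitePlace K) → w'.Completion) {w w' : InfinitePlace K}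
    (h : w' ≠ w) (x : w.Completion) : updInf c w x w' = c w' :=
  Function.update_of_ne h x c

/-- The adele with component `x` at `w` and `1` elsewhere, multiplicatively. -/
def locAdlHom (w : InfinitePlace K) : w.Completion →* A0.Adl K where
  toFun x := (updInf (fun _ => 1) w x, 1)
  map_one' := by
    refine Prod.ext ?_ rfl
    funext w'
    by_cases h : w' = w
    · subst h; exact updInf_self (K := K) (fun _ => 1) w' 1
    · exact updInf_of_ne (K := K) (fun _ => 1) h 1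
  map_mul' x y := by
    refine Prod.ext ?_ (mul_one 1).symm
    funext w'
    by_cases h : w' = w
    · subst h
      show updInf (K := K) (fun _ => 1) w' (x * y) w'
        = updInf (K := K) (fun _ => 1) w' x w' * updInf (K := K) (fun _ => 1) w' y w'
      rw [updInf_self, updInf_self, updInf_self]
    · show updInf (K := K) (fun _ => 1) w (x * y) w'
        = updInf (K := K) (fun _ => 1) w x w' * updInf (K := K) (fun _ => 1) w y w'
      rw [updInf_of_ne _ h, updInf_of_ne _ h, updInf_of_ne _ h, mul_one]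

theorem locAdlHom_fst_self (w : InfinitePlace K) (x : w.Completion) :
    (locAdlHom w x).1 w = x := updInf_self (K := K) (fun _ => 1) w x

theorem locAdlHom_fst_of_ne {w w' : InfinitePlace K} (h : w' ≠ w) (x : w.Completion) :
    (locAdlHom w x).1 w' = 1 := updInf_of_ne (K := K) (fun _ => 1) h x

theorem locAdlHom_snd (w : InfinitePlace K) (x : w.Completion) (v : HeightOneSpectrum (𝓞 K)) :
    (locAdlHom w x).2 v = 1 := rfl

/-- The idele with component `u` at `w` and `1` elsewhere. -/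
def locIdl (w : InfinitePlace K) : (w.Completion)ˣ →* (A0.Adl K)ˣ := Units.map (locAdlHom w)

theorem coe_locIdl (w : InfinitePlace K) (u : (w.Completion)ˣ) :
    ((locIdl w u : (A0.Adl K)ˣ) : A0.Adl K) = locAdlHom w (u : w.Completion) := rfl

/-- The adele with component `x` at `w` and `0` elsewhere. -/
def locAdd (w : InfinitePlace K) (x : w.Completion) : A0.Adl K :=
  (updInf (fun _ => 0) w x, 0)

theorem locAdd_fst_self (w : InfinitePlace K) (x : w.Completion) :
    (locAdd w x).1 w = x := updInf_self (K := K) (fun _ => 0) w x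

theorem locAdd_fst_of_ne {w w' : InfinitePlace K} (h : w' ≠ w) (x : w.Completion) :
    (locAdd w x).1 w' = 0 := updInf_of_ne (K := K) (fun _ => 0) h x

theorem locAdd_snd (w : InfinitePlace K) (x : w.Completion) (v : HeightOneSpectrum (𝓞 K)) :
    (locAdd w x).2 v = 0 := rfl

theorem adlAtInf_locAdd (w : InfinitePlace K) (x : w.Completion) :
    WL.AdlAtInf w (locAdd w x) :=
  ⟨fun _ h => locAdd_fst_of_ne h x, fun v => locAdd_snd w x v⟩

/-- The upper unipotent matrices. -/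
def nU416 (x : A0.Adl K) : A0.G K :=
  ⟨!![1, x; 0, 1], !![1, -x; 0, 1], by
      ext i j; fin_cases i <;> fin_cases j <;> simp [Matrix.mul_apply, Fin.sum_univ_two],
    by ext i j; fin_cases i <;> fin_cases j <;> simp [Matrix.mul_apply, Fin.sum_univ_two]⟩

theorem isUpperUnip_nU416 : IsUpperUnip (nU416 (K := K)) := fun _ => rfl


/-! ## Entries of the local elements at a complex place -/

theorem coe_locInfComplex_apply {w : InfinitePlace K} (hw : w.IsComplex) (M : GL (Fin 2) ℂ)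
    (i j : Fin 2) :
    ((locInfComplex hw M : A0.G K) : Matrix (Fin 2) (Fin 2) (A0.Adl K)) i j
      = ((infEntry w i j (cplxHom hw ((M : Matrix (Fin 2) (Fin 2) ℂ) i j)), finOne i j) :
          A0.Adl K) := rfl

theorem entry_diag_eq (w : InfinitePlace K) (i : Fin 2) (x : w.Completion) :
    ((infEntry w i i x, finOne i i) : A0.Adl K) = locAdlHom w x := by
  refine adl_ext (fun w' => ?_) (fun v => ?_)
  · show infEntry w i i x w' = (locAdlHom w x).1 w'
    by_cases h : w' = w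
    · subst h
      rw [infEntry_self, locAdlHom_fst_self]
    · rw [infEntry_of_ne h, locAdlHom_fst_of_ne h, Matrix.one_apply_eq]
  · show (1 : Matrix (Fin 2) (Fin 2) (v.adicCompletion K)) i i = 1
    rw [Matrix.one_apply_eq]

theorem entry_off_eq (w : InfinitePlace K) {i j : Fin 2} (hij : i ≠ j) (x : w.Completion) :
    ((infEntry w i j x, finOne i j) : A0.Adl K) = locAdd w x := by
  refine adl_ext (fun w' => ?_) (fun v => ?_)
  · show infEntry w i j x w' = (locAdd w x).1 w'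
    by_cases h : w' = w
    · subst h
      rw [infEntry_self, locAdd_fst_self]
    · rw [infEntry_of_ne h, locAdd_fst_of_ne h, Matrix.one_apply_ne hij]
  · show (1 : Matrix (Fin 2) (Fin 2) (v.adicCompletion K)) i j = 0
    rw [Matrix.one_apply_ne hij]

theorem locAdd_zero (w : InfinitePlace K) : locAdd w (0 : w.Completion) = 0 := by
  refine adl_ext (fun w' => ?_) (fun v => rfl)
  show (locAdd w 0).1 w' = 0
  by_cases h : w' = w
  · subst h; rw [locAdd_fst_self]
  · rw [locAdd_fst_of_ne h]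

/-- The unipotent element at `w`. -/
theorem locInfComplex_upperU_one {w : InfinitePlace K} (hw : w.IsComplex) (x : ℂ) :
    (locInfComplex hw (upperU x 1 one_ne_zero) : A0.G K) = nU416 (locAdd w (cplxHom hw x)) := by
  refine Units.ext (Matrix.ext fun i j => ?_)
  rw [coe_locInfComplex_apply, coe_upperU]
  fin_cases i <;> fin_cases j
  · show ((infEntry w 0 0 (cplxHom hw ((1 : ℝ) : ℂ)), finOne 0 0) : A0.Adl K) = 1
    rw [entry_diag_eq, Complex.ofReal_one, map_one, map_one]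
    rfl
  · show ((infEntry w 0 1 (cplxHom hw x), finOne 0 1) : A0.Adl K) = locAdd w (cplxHom hw x)
    rw [entry_off_eq w (by decide)]
  · show ((infEntry w 1 0 (cplxHom hw 0), finOne 1 0) : A0.Adl K) = 0
    rw [entry_off_eq w (by decide), map_zero, locAdd_zero]
    rfl
  · show ((infEntry w 1 1 (cplxHom hw 1), finOne 1 1) : A0.Adl K) = 1
    rw [entry_diag_eq, map_one, map_one]
    rfl

/-- `diag(s, s⁻¹)` in `GL₂(ℂ)`. -/
def dgC (s : ℂˣ) : GL (Fin 2) ℂ :=
  ⟨!![(s : ℂ), 0; 0, ((s⁻¹ : ℂˣ) : ℂ)], !![((s⁻¹ : ℂˣ) : ℂ), 0; 0, (s : ℂ)], by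
      ext i j; fin_cases i <;> fin_cases j <;> simp [Matrix.mul_apply, Fin.sum_univ_two],
    by ext i j; fin_cases i <;> fin_cases j <;> simp [Matrix.mul_apply, Fin.sum_univ_two]⟩

theorem coe_dgC (s : ℂˣ) :
    ((dgC s : GL (Fin 2) ℂ) : Matrix (Fin 2) (Fin 2) ℂ) = !![(s : ℂ), 0; 0, ((s⁻¹ : ℂˣ) : ℂ)] :=
  rfl

/-- The idele with component `s` at the complex place `w`. -/
def cIdl {w : InfinitePlace K} (hw : w.IsComplex) : ℂˣ →* (A0.Adl K)ˣ :=
  (locIdl w).comp (Units.map (cplxHom hw).toMonoidHom)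

theorem coe_cIdl {w : InfinitePlace K} (hw : w.IsComplex) (s : ℂˣ) :
    ((cIdl hw s : (A0.Adl K)ˣ) : A0.Adl K) = locAdlHom w (cplxHom hw (s : ℂ)) := rfl

/-- The diagonal element `t(a)` at `w`. -/
theorem isDiagSLA_dgC {w : InfinitePlace K} (hw : w.IsComplex) (s : ℂˣ) :
    WL.IsDiagSLA (locInfComplex hw (dgC s) : A0.G K) (cIdl hw s) := by
  unfold WL.IsDiagSLA
  refine Matrix.ext fun i j => ?_
  rw [coe_locInfComplex_apply, coe_dgC, ← map_inv, coe_cIdl, coe_cIdl]
  fin_cases i <;> fin_cases j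
  · show ((infEntry w 0 0 (cplxHom hw (s : ℂ)), finOne 0 0) : A0.Adl K) = _
    rw [entry_diag_eq]; rfl
  · show ((infEntry w 0 1 (cplxHom hw 0), finOne 0 1) : A0.Adl K) = 0
    rw [entry_off_eq w (by decide), map_zero, locAdd_zero]
    rfl
  · show ((infEntry w 1 0 (cplxHom hw 0), finOne 1 0) : A0.Adl K) = 0
    rw [entry_off_eq w (by decide), map_zero, locAdd_zero]
    rfl
  · show ((infEntry w 1 1 (cplxHom hw ((s⁻¹ : ℂˣ) : ℂ)), finOne 1 1) : A0.Adl K) = _
    rw [entry_diag_eq]; rfl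


/-! ## Norms, characters -/

theorem norm_cplxHom {w : InfinitePlace K} (hw : w.IsComplex) (z : ℂ) :
    ‖cplxHom hw z‖ = ‖z‖ := by
  have h := (InfinitePlace.Completion.isometry_extensionEmbedding w).norm_map_of_map_zero
    (map_zero _) (cplxHom hw z)
  rw [extensionEmbedding_cplxHom] at h
  exact h.symm

/-- The module of the idele `s` at the complex place `w` is `|s|²`. -/
theorem adNorm_cIdl {w : InfinitePlace K} (hw : w.IsComplex) (s : ℂˣ) :
    T1.adNorm K ((cIdl hw s : (A0.Adl K)ˣ) : A0.Adl K) = ‖(s : ℂ)‖ ^ 2 := by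
  rw [coe_cIdl]
  unfold T1.adNorm
  have h1 : (∏ᶠ v : HeightOneSpectrum (𝓞 K), ‖(locAdlHom w (cplxHom hw (s : ℂ))).2 v‖) = 1 := by
    refine finprod_eq_one_of_forall_eq_one fun v => ?_
    rw [locAdlHom_snd, norm_one]
  have h2 : (∏ w' : InfinitePlace K, ‖(locAdlHom w (cplxHom hw (s : ℂ))).1 w'‖ ^ w'.mult)
      = ‖(s : ℂ)‖ ^ 2 := by
    rw [Finset.prod_eq_single w]
    · rw [locAdlHom_fst_self, norm_cplxHom, hw.mult_eq_two]
    · intro w' _ h
      rw [locAdlHom_fst_of_ne h, norm_one, one_pow]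
    · intro h
      exact absurd (Finset.mem_univ w) h
  rw [h1, h2, mul_one]

/-- A quadratic character is trivial on the ideles supported at a complex place. -/
theorem quadChar_cIdl {t n : K} {η : (A0.Adl K)ˣ → ℂ} (hη : WL.IsQuadChar t n η)
    {w : InfinitePlace K} (hw : w.IsComplex) (s : ℂˣ) : η (cIdl hw s) = 1 := by
  obtain ⟨σ, hσ⟩ : ∃ σ : ℂ, σ ^ 2 = (s : ℂ) :=
    IsAlgClosed.exists_pow_nat_eq (s : ℂ) (by norm_num)
  have hσ0 : σ ≠ 0 := by
    intro h
    rw [h] at hσ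
    exact s.ne_zero (by rw [← hσ]; simp)
  have hs : s = Units.mk0 σ hσ0 * Units.mk0 σ hσ0 := by
    ext
    rw [Units.val_mul, Units.val_mk0, ← hσ, sq]
  rw [hs, map_mul, hη.mul]
  rcases hη.sq (cIdl hw (Units.mk0 σ hσ0)) with h | h <;> rw [h] <;> norm_num

/-- `[[y, x], [0, 1]] = n(x) · diag(√y, 1/√y) · √y`. -/
theorem upperU_eq_mul (x : ℂ) {y : ℝ} (hy : 0 < y) :
    upperU x y hy.ne' = upperU x 1 one_ne_zero
      * dgC (Units.mk0 ((Real.sqrt y : ℝ) : ℂ)
          (Complex.ofReal_ne_zero.2 (Real.sqrt_pos.2 hy).ne'))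
      * scalarU (Real.sqrt y) (Real.sqrt_pos.2 hy).ne' := by
  have hs : ((Real.sqrt y : ℝ) : ℂ) * ((Real.sqrt y : ℝ) : ℂ) = (y : ℂ) := by
    rw [← Complex.ofReal_mul, Real.mul_self_sqrt hy.le]
  have hs0 : ((Real.sqrt y : ℝ) : ℂ) ≠ 0 := Complex.ofReal_ne_zero.2 (Real.sqrt_pos.2 hy).ne'
  refine Units.ext ?_
  rw [Units.val_mul, Units.val_mul, coe_upperU, coe_upperU, coe_dgC, coe_scalarU]
  ext i j
  fin_cases i <;> fin_cases j <;>
    simp [Matrix.mul_apply, Matrix.diagonal_apply, hs, hs0]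

end Fermat.Agent.LT.A2.H416
end

end
-- ===== PACK-END LT/A2/H416/Loc.lean

-- ===== PACK-BEGIN LT/A2/H593/Unfold.lean
section


/-!
# Row LT, tower A2, leaf A2.03.6 `WL.WhitSumC` (helper593) -- part 3: the unfolding bound

OFF-MAIN.  `T¹(𝔸) = ⨆_{y ∈ T¹(K)} y⁻¹ DT`, hence
`‖∫_{T¹(𝔸)} f‖ ≤ ∑_{y ∈ T¹(K)} vol(DT) sup_{DT} ‖f(y⁻¹ ·)‖`; applied to the orbital integral:
`‖W(diag(β, 1) g)‖ ≤ vol(DT) ∑_{Q(ξ) = β} b'(ξ)`.  Complete proofs, nothing assumed.
-/

set_option autoImplicit false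
set_option linter.style.haveILetI false

open IsDedekindDomain NumberField AutomorphicForm MeasureTheory
open scoped MatrixGroups Topology ENNReal

noncomputable section

namespace Fermat.Agent.LT.A2.H593

open Fermat.Agent.LT.H130 Fermat.Agent.LT.H556 Fermat.Agent.LT.A2

variable {K : Type} [Field K] [NumberField K]

local notation "ι" => algebraMap K (A0.Adl K)

theorem countable_nf593 : Countable K :=
  (Module.finBasis ℚ K).equivFun.toEquiv.injective.countable

/-- **Unfolding**: the integral over `T¹(𝔸_K)` is bounded by the sum over `T¹(K)` of the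
suprema over the translates of the fundamental domain. -/
theorem unfold_bound593 {D : KData K} (hM : D.IsMeasured) (f : A0.G K → ℂ)
    (c : K × K → ℝ≥0∞)
    (hf : ∀ p : K × K, qK593 D.t D.n p = 1 → ∀ m₁ ∈ D.DT,
      ‖f ((yel593 D.t D.n p)⁻¹ * m₁)‖ₑ ≤ c p) :
    ‖D.intT {m | InTorus1 D.t D.n m} f‖ₑ
      ≤ ∑' p : {p : K × K // qK593 D.t D.n p = 1}, c p.1 * D.μT D.DT := by
  letI : MeasurableSpace (A0.G K) := borel (A0.G K)
  haveI : BorelSpace (A0.G K) := ⟨rfl⟩
  haveI : Countable K := countable_nf593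
  set S : {p : K × K // qK593 D.t D.n p = 1} → Set (A0.G K) :=
    fun p => (fun m => (yel593 D.t D.n p.1)⁻¹ * m) '' D.DT with hS
  have hcover : {m | InTorus1 D.t D.n m} = ⋃ p, S p := by
    ext m
    simp only [Set.mem_ofPred_eq, Set.mem_iUnion]
    constructor
    · intro hm
      obtain ⟨y, ⟨hyrat, hy1, hyDT⟩, -⟩ := hM.dom_fund m hm
      obtain ⟨p, hp0, rfl⟩ := exists_yel593 hyrat
      have hp1 : qK593 D.t D.n p = 1 := by
        have h1 := yel_det593 hp0
        rw [hy1.2] at h1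
        apply ι_injective593
        rw [← h1, map_one]; rfl
      exact ⟨⟨p, hp1⟩, yel593 D.t D.n p * m, hyDT, by simp⟩
    · rintro ⟨p, m₁, hm₁, rfl⟩
      exact inTorus1_mul593 (inTorus1_inv593 (yel_tor1_593 p.2)) (hM.dom_sub m₁ hm₁)
  have hmeasS : ∀ p, MeasurableSet (S p) := by
    intro p
    have h := ((Homeomorph.mulLeft (yel593 D.t D.n p.1)⁻¹).toMeasurableEquiv).measurableSet_image
      (s := D.DT)
    exact h.mpr hM.dom_meas
  have hdisj : Pairwise (Function.onFun Disjoint S) := by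
    intro p q hpq
    rw [Function.onFun, Set.disjoint_left]
    rintro m ⟨m₁, hm₁, rfl⟩ ⟨m₂, hm₂, hm₂'⟩
    apply hpq
    have hp0 : qK593 D.t D.n p.1 ≠ 0 := by rw [p.2]; exact one_ne_zero
    have hq0 : qK593 D.t D.n q.1 ≠ 0 := by rw [q.2]; exact one_ne_zero
    have hm : InTorus1 D.t D.n ((yel593 D.t D.n p.1)⁻¹ * m₁) :=
      inTorus1_mul593 (inTorus1_inv593 (yel_tor1_593 p.2)) (hM.dom_sub m₁ hm₁)
    obtain ⟨y, -, hyu⟩ := hM.dom_fund _ hm
    have h1 := hyu (yel593 D.t D.n p.1) ⟨yel_rat593 hp0, yel_tor1_593 p.2, by simpa using hm₁⟩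
    have h2 := hyu (yel593 D.t D.n q.1) ⟨yel_rat593 hq0, yel_tor1_593 q.2, by
      have : (yel593 D.t D.n p.1)⁻¹ * m₁ = (yel593 D.t D.n q.1)⁻¹ * m₂ := hm₂'.symm
      rw [this]; simpa using hm₂⟩
    exact Subtype.ext (yel_inj593 hp0 hq0 (h1.trans h2.symm))
  calc ‖D.intT {m | InTorus1 D.t D.n m} f‖ₑ
      ≤ ∫⁻ m in {m | InTorus1 D.t D.n m}, ‖f m‖ₑ ∂D.μT :=
        enorm_integral_le_lintegral_enorm _
    _ = ∑' p, ∫⁻ m in S p, ‖f m‖ₑ ∂D.μT := by
        rw [hcover, lintegral_iUnion hmeasS hdisj]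
    _ ≤ ∑' p : {p : K × K // qK593 D.t D.n p = 1}, c p.1 * D.μT D.DT := by
        refine ENNReal.tsum_le_tsum fun p => ?_
        calc ∫⁻ m in S p, ‖f m‖ₑ ∂D.μT ≤ ∫⁻ _ in S p, c p.1 ∂D.μT :=
              setLIntegral_mono' (hmeasS p) (fun m hm => by
                obtain ⟨m₁, hm₁, rfl⟩ := hm
                exact hf p.1 p.2 m₁ hm₁)
          _ = c p.1 * D.μT (S p) := setLIntegral_const _ _
          _ = c p.1 * D.μT D.DT := by
              rw [hS]
              simp only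
              rw [hM.inv _ (inTorus1_inv593 (yel_tor1_593 p.2))]

end Fermat.Agent.LT.A2.H593

end

end
-- ===== PACK-END LT/A2/H593/Unfold.lean

-- ===== PACK-BEGIN LT/A2/H965/CentW.lean
section


/-!
# Row LT, tower A2, leaf A2.03.8.3 `H142.CentC` (helper965), part 2: the central character of `W`
— OFF-MAIN

For a scalar matrix `z = diag(a, a)`, `a` an idele:
* `F (z g) (z m) ξ = η(a) F g m ξ` (`diagA` for `t(a)`, `torA` for `μ = z`, `z = t(a) d(a²)`,
  `|a|_𝔸 |a²|_𝔸^{-1/2} = 1`);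
* `W (g z) = η(a) χT(z) W(g)`.
-/

set_option autoImplicit false

open IsDedekindDomain NumberField AutomorphicForm MeasureTheory
open scoped MatrixGroups

noncomputable section

namespace Fermat.Agent.LT.A2.H965

open Fermat.Agent.LT.H556 Fermat.Agent.LT.H556.A0 Fermat.Agent.LT.H129 Fermat.Agent.LT.A2

variable {K : Type} [Field K] [NumberField K]

/-- `t(a) = diag(a, a⁻¹)`. -/
def tA965 (a : (Adl K)ˣ) : G K :=
  Matrix.GeneralLinearGroup.mk'' !![(a : Adl K), 0; 0, ((a⁻¹ : (Adl K)ˣ) : Adl K)]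
    (by rw [Matrix.det_fin_two_of]; simp)

/-- `d(a) = diag(1, a)`. -/
def dA965 (a : (Adl K)ˣ) : G K :=
  Matrix.GeneralLinearGroup.mk'' !![1, 0; 0, (a : Adl K)]
    (by rw [Matrix.det_fin_two_of]; simp)

theorem coe_tA965 (a : (Adl K)ˣ) :
    ((tA965 a : G K) : Matrix (Fin 2) (Fin 2) (Adl K))
      = !![(a : Adl K), 0; 0, ((a⁻¹ : (Adl K)ˣ) : Adl K)] := rfl

theorem coe_dA965 (a : (Adl K)ˣ) :
    ((dA965 a : G K) : Matrix (Fin 2) (Fin 2) (Adl K)) = !![1, 0; 0, (a : Adl K)] := rfl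

theorem isDiagSLA_tA965 (a : (Adl K)ˣ) : WL.IsDiagSLA (tA965 a) a := coe_tA965 a

theorem isDiagOneA_dA965 (a : (Adl K)ˣ) : WL.IsDiagOneA (dA965 a) a := coe_dA965 a

theorem det_dA965 (a : (Adl K)ˣ) : Matrix.GeneralLinearGroup.det (dA965 a) = a := by
  apply Units.ext
  rw [Matrix.GeneralLinearGroup.val_det_apply, coe_dA965, Matrix.det_fin_two_of]
  ring

/-- The determinant of `diag(a, a)`. -/
theorem det_of_diagonal965 {z : G K} {a : (Adl K)ˣ}
    (hz : (z : Matrix (Fin 2) (Fin 2) (Adl K)) = Matrix.diagonal (fun _ => (a : Adl K))) :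
    Matrix.GeneralLinearGroup.det z = a * a := by
  apply Units.ext
  rw [Matrix.GeneralLinearGroup.val_det_apply, hz, Matrix.det_diagonal, Fin.prod_univ_two,
    Units.val_mul]

/-- `diag(a, a) = t(a) d(a²)`. -/
theorem diagonal_eq_tA_mul_dA965 {z : G K} {a : (Adl K)ˣ}
    (hz : (z : Matrix (Fin 2) (Fin 2) (Adl K)) = Matrix.diagonal (fun _ => (a : Adl K))) :
    z = tA965 a * dA965 (Matrix.GeneralLinearGroup.det z) := by
  apply Units.ext
  rw [Matrix.GeneralLinearGroup.coe_mul, coe_tA965, coe_dA965, det_of_diagonal965 hz, hz]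
  ext i j
  fin_cases i <;> fin_cases j <;> simp [Matrix.mul_apply, Fin.sum_univ_two]

/-- The inverse of `diag(a, a)`. -/
theorem inv_of_diagonal965 {z : G K} {a : (Adl K)ˣ}
    (hz : (z : Matrix (Fin 2) (Fin 2) (Adl K)) = Matrix.diagonal (fun _ => (a : Adl K))) :
    ((z⁻¹ : G K) : Matrix (Fin 2) (Fin 2) (Adl K))
      = Matrix.diagonal (fun _ => ((a⁻¹ : (Adl K)ˣ) : Adl K)) := by
  have hprod : (z : Matrix (Fin 2) (Fin 2) (Adl K))
      * Matrix.diagonal (fun _ => ((a⁻¹ : (Adl K)ˣ) : Adl K)) = 1 := by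
    rw [hz, Matrix.diagonal_mul_diagonal]
    simp
  calc ((z⁻¹ : G K) : Matrix (Fin 2) (Fin 2) (Adl K))
      = ((z⁻¹ : G K) : Matrix (Fin 2) (Fin 2) (Adl K))
          * ((z : Matrix (Fin 2) (Fin 2) (Adl K))
            * Matrix.diagonal (fun _ => ((a⁻¹ : (Adl K)ˣ) : Adl K))) := by
        rw [hprod, mul_one]
    _ = Matrix.diagonal (fun _ => ((a⁻¹ : (Adl K)ˣ) : Adl K)) := by
        rw [← mul_assoc, ← Matrix.GeneralLinearGroup.coe_mul, inv_mul_cancel,
          Matrix.GeneralLinearGroup.coe_one, one_mul]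

/-- `z⁻¹ (a ξ) = ξ` for `z = diag(a, a)`. -/
theorem actV_inv_smul965 {z : G K} {a : (Adl K)ˣ}
    (hz : (z : Matrix (Fin 2) (Fin 2) (Adl K)) = Matrix.diagonal (fun _ => (a : Adl K)))
    (ξ : Adl K × Adl K) : actV z⁻¹ ((a : Adl K) • ξ) = ξ := by
  have h1 : ((a⁻¹ : (Adl K)ˣ) : Adl K) * (a : Adl K) = 1 := Units.inv_mul a
  unfold actV
  rw [inv_of_diagonal965 hz]
  ext
  · simp only [Matrix.diagonal_apply_eq, Prod.smul_fst, Prod.smul_snd, smul_eq_mul, ne_eq,
      Fin.zero_eq_one_iff, Nat.succ_ne_self, not_false_eq_true, Matrix.diagonal_apply_ne,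
      zero_mul, add_zero]
    rw [← mul_assoc, h1, one_mul]
  · simp only [Matrix.diagonal_apply_eq, Prod.smul_fst, Prod.smul_snd, smul_eq_mul, ne_eq,
      Fin.one_eq_zero_iff, Nat.succ_ne_self, not_false_eq_true, Matrix.diagonal_apply_ne,
      zero_mul, zero_add]
    rw [← mul_assoc, h1, one_mul]

/-- **The key identity**: `F (z g) (z m) ξ = η(a) F g m ξ` for `z = diag(a, a)`. -/
theorem F_scalar965 (D : KData K) (η : (Adl K)ˣ → ℂ) (hstd : WL.IsStd D η)
    (hAd : T1.AdNormC K) {z : G K} {a : (Adl K)ˣ}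
    (hz : (z : Matrix (Fin 2) (Fin 2) (Adl K)) = Matrix.diagonal (fun _ => (a : Adl K)))
    (g m : G K) (ξ : Adl K × Adl K) (hadm : Adm D.t D.n g m) :
    D.F (z * g) (z * m) ξ = η a * D.F g m ξ := by
  have hzT : InTorus D.t D.n z := inTorus_of_diagonal965 D.t D.n hz
  set d : G K := dA965 (Matrix.GeneralLinearGroup.det z) with hd
  have hzsd : z = tA965 a * d := diagonal_eq_tA_mul_dA965 hz
  have hadm' : Adm D.t D.n (d * g) (z * m) := by
    refine ⟨inTorus_mul965 hzT hadm.1, ?_⟩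
    rw [map_mul, map_mul, hd, det_dA965, hadm.2]
  have h1 := hstd.torA z d hzT (isDiagOneA_dA965 _) g m ((a : Adl K) • ξ) hadm
  have h2 := hstd.diagA (tA965 a) a (isDiagSLA_tA965 a) (d * g) (z * m) ξ hadm'
  rw [actV_inv_smul965 hz] at h1
  have hpos : 0 < T1.adNorm K (a : Adl K) := hAd.1 a
  have hsqrt : Real.sqrt (T1.adNorm K
      ((Matrix.GeneralLinearGroup.det z : (Adl K)ˣ) : Adl K)) = T1.adNorm K (a : Adl K) := by
    rw [det_of_diagonal965 hz, hAd.2.1 a a, Real.sqrt_mul_self hpos.le]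
  rw [hsqrt] at h1
  have e : z * g = tA965 a * (d * g) := by rw [← mul_assoc, ← hzsd]
  rw [e, h2, mul_assoc, h1]

/-- `GL₂(𝔸)⁺` is stable under the scalar matrices. -/
theorem inGPlus_scalar_iff965 (t n : K) {z : G K} {a : (Adl K)ˣ}
    (hz : (z : Matrix (Fin 2) (Fin 2) (Adl K)) = Matrix.diagonal (fun _ => (a : Adl K)))
    (g : G K) : InGPlus t n (z * g) ↔ InGPlus t n g := by
  have hzT : InTorus t n z := inTorus_of_diagonal965 t n hz
  constructor
  · rintro ⟨m', hm', hdet⟩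
    refine ⟨z⁻¹ * m', inTorus_mul965 (inTorus_inv965 hzT) hm', ?_⟩
    rw [map_mul, map_inv, ← hdet, map_mul, inv_mul_cancel_left]
  · rintro ⟨m, hm, hdet⟩
    exact ⟨z * m, inTorus_mul965 hzT hm, by rw [map_mul, map_mul, hdet]⟩

/-- **The central character of the Whittaker function**: `W (g z) = η(a) χT(z) W(g)` for
`z = diag(a, a)`. -/
theorem W_scalar965 (D : KData K) (η : (Adl K)ˣ → ℂ) (W : G K → ℂ) (hgood : D.Good)
    (hstd : WL.IsStd D η) (hAd : T1.AdNormC K) (hW : D.IsWhit W) {z : G K} {a : (Adl K)ˣ}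
    (hz : (z : Matrix (Fin 2) (Fin 2) (Adl K)) = Matrix.diagonal (fun _ => (a : Adl K)))
    (g : G K) : W (g * z) = η a * D.χT z * W g := by
  have hzT : InTorus D.t D.n z := inTorus_of_diagonal965 D.t D.n hz
  rw [central_of_diagonal965 hz g]
  by_cases hg : InGPlus D.t D.n g
  · obtain ⟨mg, hadm⟩ := hg
    have hadm' : Adm D.t D.n (z * g) (z * mg) :=
      ⟨inTorus_mul965 hzT hadm.1, by rw [map_mul, map_mul, hadm.2]⟩
    rw [hW.formula (z * g) (z * mg) hadm', hW.formula g mg hadm]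
    unfold KData.intT
    letI : MeasurableSpace (G K) := borel (G K)
    rw [← integral_const_mul]
    apply integral_congr_ae
    have hcar : ∀ᵐ m ∂D.μT, InTorus1 D.t D.n m := ae_iff.2 hgood.measured.carried
    filter_upwards [ae_restrict_of_ae hcar] with m hm
    have hmm : InTorus D.t D.n (m * mg) := inTorus_mul965 hm.1 hadm.1
    have hadm_m : Adm D.t D.n g (m * mg) := by
      refine ⟨hmm, ?_⟩
      rw [map_mul, hm.2, one_mul, hadm.2]
    have e : m * (z * mg) = z * (m * mg) := by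
      rw [← mul_assoc, central_of_diagonal965 hz m, mul_assoc]
    rw [e, F_scalar965 D η hstd hAd hz g (m * mg) (1, 0) hadm_m,
      hgood.torus.mul z (m * mg) hzT hmm]
    ring
  · have hg' : ¬ InGPlus D.t D.n (z * g) := fun h => hg ((inGPlus_scalar_iff965 D.t D.n hz g).1 h)
    rw [hW.off g hg, hW.off (z * g) hg', mul_zero]

end Fermat.Agent.LT.A2.H965

end

end
-- ===== PACK-END LT/A2/H965/CentW.lean

-- ===== PACK-BEGIN LT/A2/H999/LGLocal.lean
section





/-!
# Row LT, tower A2, leaf A2.03.1.1.08 `WX467.LocGoodOfRepC` (helper999), part 1: dictionary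

OFF-MAIN.  The dictionary between local objects at a finite place `v` (elements of `K_v`,
matrices over `K_v`) and adelic objects supported at `v`:

* `toAdl v y` : the adele with component `y` at `v` and `0` elsewhere (continuous, additive);
* `psiLoc v ψ` : the local component at `v` of a character `ψ` of the adeles;
* `toIdele v a` : the idele with component `a` at `v` and `1` elsewhere;
* the local components of the elements of the torus.
-/

set_option autoImplicit false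

open IsDedekindDomain NumberField AutomorphicForm MeasureTheory
open scoped MatrixGroups Topology RestrictedProduct

noncomputable section

namespace Fermat.Agent.LT.A2.H999

open Fermat.Agent.LT.H130 Fermat.Agent.LT.H556 Fermat.Agent.LT.A2 Fermat.Agent.LT.A2.WX467
open Fermat.Agent.LT.H129

variable {K : Type} [Field K] [NumberField K] (v : HeightOneSpectrum (𝓞 K))

/-! ## Adeles supported at `v` -/

/-- The adele with component `y` at `v` and `0` at every other place. -/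
def toAdl (y : v.adicCompletion K) : A0.Adl K := (0, finSingle129 v false y)

theorem toAdl_fin_same (y : v.adicCompletion K) : (toAdl v y).2 v = y :=
  finSingle129_same v false y

theorem toAdl_fin_ne (y : v.adicCompletion K) {v' : HeightOneSpectrum (𝓞 K)} (h : v' ≠ v) :
    (toAdl v y).2 v' = 0 := by
  have h1 : finSingle129 v false y v' = 0 := by
    have := finSingle129_of_ne v false y h
    simpa using this
  exact h1

theorem toAdl_inf (y : v.adicCompletion K) (w : InfinitePlace K) : (toAdl v y).1 w = 0 := rfl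

theorem adlAtFin_toAdl (y : v.adicCompletion K) : WL.AdlAtFin v (toAdl v y) :=
  ⟨fun w => toAdl_inf v y w, fun _ h => toAdl_fin_ne v y h⟩

theorem eq_toAdl_of_adlAtFin {x : A0.Adl K} (hx : WL.AdlAtFin v x) : x = toAdl v (x.2 v) := by
  refine adele_ext129 (fun w => ?_) (fun v' => ?_)
  · rw [hx.1 w, toAdl_inf]
  · by_cases h : v' = v
    · subst h; rw [toAdl_fin_same]
    · rw [hx.2 v' h, toAdl_fin_ne v _ h]

theorem toAdl_add (y z : v.adicCompletion K) : toAdl v (y + z) = toAdl v y + toAdl v z := by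
  refine adele_ext129 (fun w => ?_) (fun v' => ?_)
  · show (0 : w.Completion) = 0 + 0
    simp
  · show (toAdl v (y + z)).2 v' = (toAdl v y).2 v' + (toAdl v z).2 v'
    by_cases h : v' = v
    · subst h; simp only [toAdl_fin_same]
    · simp only [toAdl_fin_ne v _ h, add_zero]

theorem toAdl_zero : toAdl v (0 : v.adicCompletion K) = 0 := by
  have h := toAdl_add v (0 : v.adicCompletion K) 0
  rw [add_zero] at h
  exact left_eq_add.mp h

/-- `y ↦ toAdl v y` is continuous. -/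
theorem continuous_toAdl : Continuous (toAdl (K := K) v) := by
  classical
  have hS : Filter.cofinite ≤ Filter.principal ({v}ᶜ : Set (HeightOneSpectrum (𝓞 K))) := by
    rw [Filter.le_principal_iff]
    simp
  let f : v.adicCompletion K →
      Πʳ i : HeightOneSpectrum (𝓞 K), [i.adicCompletion K, i.adicCompletionIntegers K]_[
        Filter.principal ({v}ᶜ : Set (HeightOneSpectrum (𝓞 K)))] :=
    fun y => ⟨Pi.single v y, by
      rw [Filter.eventually_principal]
      intro i hi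
      have hi' : i ≠ v := hi
      rw [Pi.single_eq_of_ne hi']
      exact zero_mem _⟩
  have hf : Continuous f := by
    rw [RestrictedProduct.continuous_rng_of_principal_iff_forall]
    intro i
    by_cases h : i = v
    · subst h
      have : ((fun x : Πʳ i : HeightOneSpectrum (𝓞 K),
          [i.adicCompletion K, i.adicCompletionIntegers K]_[
            Filter.principal ({i}ᶜ : Set (HeightOneSpectrum (𝓞 K)))] => x i) ∘ f) = id := by
        funext y
        show Pi.single i y i = y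
        simp
      rw [this]
      exact continuous_id
    · have : ((fun x : Πʳ i : HeightOneSpectrum (𝓞 K),
          [i.adicCompletion K, i.adicCompletionIntegers K]_[
            Filter.principal ({v}ᶜ : Set (HeightOneSpectrum (𝓞 K)))] => x i) ∘ f)
          = fun _ => 0 := by
        funext y
        show Pi.single v y i = 0
        exact Pi.single_eq_of_ne h y
      rw [this]
      exact continuous_const
  have hsingle : (fun y : v.adicCompletion K => finSingle129 v false y)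
      = RestrictedProduct.inclusion _ _ hS ∘ f := by
    funext y
    apply RestrictedProduct.ext
    intro i
    show finSingle129 v false y i = Pi.single v y i
    by_cases h : i = v
    · subst h
      rw [finSingle129_same]
      simp
    · rw [Pi.single_eq_of_ne h]
      have := finSingle129_of_ne v false y h
      simpa using this
  have h2 : Continuous (fun y : v.adicCompletion K => finSingle129 v false y) := by
    rw [hsingle]
    exact (RestrictedProduct.continuous_inclusion hS).comp hf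
  exact continuous_const.prodMk h2

/-! ## The local component of a character of the adeles -/

/-- The local component at `v` of a function on the adeles. -/
def psiLoc (ψ : A0.Adl K → ℂ) (y : v.adicCompletion K) : ℂ := ψ (toAdl v y)

theorem psiLoc_eq (ψ : A0.Adl K → ℂ) {x : A0.Adl K} (hx : WL.AdlAtFin v x) :
    ψ x = psiLoc v ψ (x.2 v) := by
  unfold psiLoc
  rw [← eq_toAdl_of_adlAtFin v hx]

theorem psiLoc_add {ψ : A0.Adl K → ℂ} (hψ : IsAdeleChar ψ) (y z : v.adicCompletion K) :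
    psiLoc v ψ (y + z) = psiLoc v ψ y * psiLoc v ψ z := by
  unfold psiLoc
  rw [toAdl_add, hψ.map_add]

theorem psiLoc_norm {ψ : A0.Adl K → ℂ} (hψ : IsAdeleChar ψ) (y : v.adicCompletion K) :
    ‖psiLoc v ψ y‖ = 1 := hψ.norm_one _

theorem psiLoc_continuous {ψ : A0.Adl K → ℂ} (hψ : IsAdeleChar ψ) :
    Continuous (psiLoc v ψ) := hψ.cont.comp (continuous_toAdl v)

theorem psiLoc_zero {ψ : A0.Adl K → ℂ} (hψ : IsAdeleChar ψ) : psiLoc v ψ 0 = 1 := by
  have h := psiLoc_add v hψ 0 0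
  rw [add_zero] at h
  have hn : psiLoc v ψ 0 ≠ 0 := by
    intro h0
    have := psiLoc_norm v hψ 0
    rw [h0, norm_zero] at this
    exact zero_ne_one this
  have h' : psiLoc v ψ 0 * 1 = psiLoc v ψ 0 * psiLoc v ψ 0 := by rw [mul_one]; exact h
  exact (mul_left_cancel₀ hn h').symm

theorem psiLoc_neg {ψ : A0.Adl K → ℂ} (hψ : IsAdeleChar ψ) (y : v.adicCompletion K) :
    psiLoc v ψ (-y) = (psiLoc v ψ y)⁻¹ := by
  have h := psiLoc_add v hψ y (-y)
  rw [add_neg_cancel, psiLoc_zero v hψ] at h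
  exact eq_inv_of_mul_eq_one_right h.symm

theorem psiLoc_int {ψ : A0.Adl K → ℂ} (hg : GoodPsi ψ v) {y : v.adicCompletion K}
    (hy : y ∈ v.adicCompletionIntegers K) : psiLoc v ψ y = 1 := by
  unfold psiLoc
  refine hg.1 _ (adlAtFin_toAdl v y) ?_
  rw [toAdl_fin_same]
  exact hy

theorem psiLoc_nontriv {ψ : A0.Adl K → ℂ} (hg : GoodPsi ψ v) :
    ∃ y : v.adicCompletion K, Valued.v y = WithZero.exp (1 : ℤ) ∧ psiLoc v ψ y ≠ 1 := by
  obtain ⟨x, hx, hv, hne⟩ := hg.2
  refine ⟨x.2 v, hv, ?_⟩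
  rw [← psiLoc_eq v ψ hx]
  exact hne

theorem isCharL_psiLoc {ψ : A0.Adl K → ℂ} (hψ : IsAdeleChar ψ) (hg : GoodPsi ψ v) :
    IsCharL (psiLoc v ψ) := by
  obtain ⟨y, -, hy⟩ := psiLoc_nontriv v hg
  exact ⟨psiLoc_continuous v hψ, psiLoc_add v hψ, psiLoc_norm v hψ, y, hy⟩

/-! ## Ideles supported at `v` -/

/-- The adele with component `y` at `v` and `1` at every other place. -/
def toAdlOne (y : v.adicCompletion K) : A0.Adl K := (1, finSingle129 v true y)

theorem toAdlOne_fin_same (y : v.adicCompletion K) : (toAdlOne v y).2 v = y :=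
  finSingle129_same v true y

theorem toAdlOne_fin_ne (y : v.adicCompletion K) {v' : HeightOneSpectrum (𝓞 K)} (h : v' ≠ v) :
    (toAdlOne v y).2 v' = 1 := by
  have h1 : finSingle129 v true y v' = 1 := by
    have := finSingle129_of_ne v true y h
    simpa using this
  exact h1

theorem toAdlOne_inf (y : v.adicCompletion K) (w : InfinitePlace K) : (toAdlOne v y).1 w = 1 :=
  rfl

/-- `toAdlOne` as a monoid homomorphism. -/
def toAdlOneHom : v.adicCompletion K →* A0.Adl K where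
  toFun := toAdlOne v
  map_one' := by
    refine adele_ext129 (fun w => rfl) (fun v' => ?_)
    show (toAdlOne v 1).2 v' = 1
    by_cases h : v' = v
    · subst h; rw [toAdlOne_fin_same]
    · rw [toAdlOne_fin_ne v _ h]
  map_mul' y z := by
    refine adele_ext129 (fun w => ?_) (fun v' => ?_)
    · show (1 : w.Completion) = 1 * 1
      simp
    · show (toAdlOne v (y * z)).2 v' = (toAdlOne v y).2 v' * (toAdlOne v z).2 v'
      by_cases h : v' = v
      · subst h; simp only [toAdlOne_fin_same]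
      · simp only [toAdlOne_fin_ne v _ h, mul_one]

/-- The idele with component `a` at `v` and `1` at every other place. -/
def toIdele : (v.adicCompletion K)ˣ →* (A0.Adl K)ˣ := Units.map (toAdlOneHom v)

theorem coe_toIdele (a : (v.adicCompletion K)ˣ) :
    ((toIdele v a : (A0.Adl K)ˣ) : A0.Adl K) = toAdlOne v (a : v.adicCompletion K) := rfl

theorem isIdeleAt_toIdele (a : (v.adicCompletion K)ˣ) : IsIdeleAt v (toIdele v a) :=
  ⟨fun u => by rw [coe_toIdele]; rfl, fun w' h => by rw [coe_toIdele]; exact toAdlOne_fin_ne v _ h⟩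

theorem toIdele_fin_same (a : (v.adicCompletion K)ˣ) :
    ((toIdele v a : (A0.Adl K)ˣ) : A0.Adl K).2 v = (a : v.adicCompletion K) := by
  rw [coe_toIdele]; exact toAdlOne_fin_same v _

theorem isUnitIdeleAt_toIdele (a : (v.adicCompletion K)ˣ)
    (ha : Valued.v (a : v.adicCompletion K) = 1) : IsUnitIdeleAt v (toIdele v a) :=
  ⟨isIdeleAt_toIdele v a, by rw [toIdele_fin_same]; exact ha⟩

theorem isUnifIdeleAt_toIdele (a : (v.adicCompletion K)ˣ)
    (ha : Valued.v (a : v.adicCompletion K) = WithZero.exp (-1 : ℤ)) :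
    IsUnifIdeleAt v (toIdele v a) :=
  ⟨isIdeleAt_toIdele v a, by rw [toIdele_fin_same]; exact ha⟩

/-! ## The torus: local components -/

theorem map_torMat {R S : Type} [CommRing R] [CommRing S] (f : R →+* S) (t n a b : R) :
    (torMat t n a b).map f = torMat (f t) (f n) (f a) (f b) := by
  ext i j
  fin_cases i <;> fin_cases j <;> simp [torMat]

theorem torMat_one_zero {R : Type} [CommRing R] (t n : R) : torMat t n 1 0 = 1 := by
  ext i j
  fin_cases i <;> fin_cases j <;> simp [torMat]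

theorem torMat_mul {R : Type} [CommRing R] (t n a b a' b' : R) :
    torMat t n a b * torMat t n a' b'
      = torMat t n (a * a' - n * (b * b')) (a * b' + a' * b + t * (b * b')) := by
  ext i j
  fin_cases i <;> fin_cases j <;> simp [torMat, Matrix.mul_apply, Fin.sum_univ_two] <;> ring

theorem det_torMat {R : Type} [CommRing R] (t n a b : R) :
    (torMat t n a b).det = a ^ 2 + t * a * b + n * b ^ 2 := by
  simp [torMat, Matrix.det_fin_two]
  ring

theorem finComp_eq_map (κ : A0.G K) :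
    A0.finComp v κ = (κ : Matrix (Fin 2) (Fin 2) (A0.Adl K)).map (evF129 v) := rfl

theorem finComp_det (κ : A0.G K) :
    (A0.finComp v κ).det
      = ((Matrix.GeneralLinearGroup.det κ : (A0.Adl K)ˣ) : A0.Adl K).2 v := by
  rw [finComp_eq_map]
  show _ = evF129 v (κ : Matrix (Fin 2) (Fin 2) (A0.Adl K)).det
  rw [RingHom.map_det]
  rfl

theorem finComp_inv (κ : A0.G K) : A0.finComp v κ⁻¹ = (A0.finComp v κ)⁻¹ := by
  rw [← coe_finCompHom129, ← coe_finCompHom129, map_inv, Matrix.coe_units_inv]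

theorem finComp_mul (g h : A0.G K) : A0.finComp v (g * h) = A0.finComp v g * A0.finComp v h := by
  rw [← coe_finCompHom129, ← coe_finCompHom129, ← coe_finCompHom129, map_mul]
  rfl

/-- The local component of an element of the torus is in the local torus. -/
theorem inTorL_of_inTorus {t n : K} {κ : A0.G K} (h : InTorus t n κ) :
    InTorL (algebraMap K (v.adicCompletion K) t) (algebraMap K (v.adicCompletion K) n)
      (A0.finComp v κ) := by
  obtain ⟨a, b, hab⟩ := h
  refine ⟨a.2 v, b.2 v, ?_⟩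
  rw [finComp_eq_map, hab, map_torMat]
  rfl

/-- An element supported at `v` whose local component is in the local torus is in the torus. -/
theorem inTorus_of_local {t n : K} {κ : A0.G K} (hloc : A0.IsLocalAtFin v κ)
    (h : InTorL (algebraMap K (v.adicCompletion K) t) (algebraMap K (v.adicCompletion K) n)
      (A0.finComp v κ)) : InTorus t n κ := by
  obtain ⟨a, b, hab⟩ := h
  refine ⟨toAdlOne v a, toAdl v b, ?_⟩
  refine adeleMatrix_ext129 (fun w => ?_) (fun v' => ?_)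
  · rw [map_torMat]
    have h1 : (κ : Matrix (Fin 2) (Fin 2) (A0.Adl K)).map (evI129 w) = 1 :=
      Matrix.ext fun i j => hloc.1 w i j
    rw [h1]
    have e1 : evI129 w (toAdlOne v a) = 1 := rfl
    have e2 : evI129 w (toAdl v b) = 0 := rfl
    rw [e1, e2, torMat_one_zero]
  · rw [map_torMat]
    by_cases hv : v' = v
    · subst hv
      have e1 : evF129 v' (toAdlOne v' a) = a := toAdlOne_fin_same v' a
      have e2 : evF129 v' (toAdl v' b) = b := toAdl_fin_same v' b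
      rw [e1, e2]
      exact hab
    · have h1 : (κ : Matrix (Fin 2) (Fin 2) (A0.Adl K)).map (evF129 v') = 1 := hloc.2 v' hv
      rw [h1]
      have e1 : evF129 v' (toAdlOne v a) = 1 := toAdlOne_fin_ne v a hv
      have e2 : evF129 v' (toAdl v b) = 0 := toAdl_fin_ne v b hv
      rw [e1, e2, torMat_one_zero]

/-- The integral points of the local torus. -/
def torInt (t n : K) : Set (Matrix (Fin 2) (Fin 2) (v.adicCompletion K)) :=
  {κ | InTorL (algebraMap K (v.adicCompletion K) t) (algebraMap K (v.adicCompletion K) n) κ ∧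
    κ.det ≠ 0 ∧ (∀ i j : Fin 2, κ i j ∈ v.adicCompletionIntegers K) ∧
    ∀ i j : Fin 2, κ⁻¹ i j ∈ v.adicCompletionIntegers K}

/-- An element supported at `v` with local component in `T(𝒪_v)` is in `T(𝒪_v)` (adelic form). -/
theorem inTorusIntAt_of_local {t n : K} {κ : A0.G K} (hloc : A0.IsLocalAtFin v κ)
    (h : A0.finComp v κ ∈ torInt v t n) : WL.InTorusIntAt t n v κ := by
  refine ⟨inTorus_of_local v hloc h.1, hloc, h.2.2.1, ?_⟩
  intro i j
  rw [finComp_inv]
  exact h.2.2.2 i j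

/-- The local component of an element of `T(𝒪_v)` (adelic form) is in `T(𝒪_v)`. -/
theorem local_of_inTorusIntAt {t n : K} {κ : A0.G K} (h : WL.InTorusIntAt t n v κ) :
    A0.finComp v κ ∈ torInt v t n := by
  refine ⟨inTorL_of_inTorus v h.1, ?_, h.2.2.1, ?_⟩
  · rw [finComp_det]
    exact (Units.map (evF129 v).toMonoidHom (Matrix.GeneralLinearGroup.det κ)).ne_zero
  · intro i j
    rw [← finComp_inv]
    exact h.2.2.2 i j

/-- Every unit of `𝒪_v` is the determinant of an element of `T(𝒪_v)`, at a good place. -/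
theorem exists_torInt_det {t n : K} {χT : A0.G K → ℂ} (hg : GoodTor t n χT v)
    {a : v.adicCompletion K} (ha : Valued.v a = 1) :
    ∃ κ ∈ torInt v t n, κ.det = a := by
  have ha0 : a ≠ 0 := by
    intro h
    rw [h, map_zero] at ha
    exact zero_ne_one ha
  obtain ⟨κ, hκ, hdet⟩ := hg.2.2 (toIdele v (Units.mk0 a ha0))
    (isUnitIdeleAt_toIdele v _ ha)
  refine ⟨A0.finComp v κ, local_of_inTorusIntAt v hκ, ?_⟩
  rw [finComp_det, hdet, toIdele_fin_same]
  rfl

end Fermat.Agent.LT.A2.H999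

end
end
-- ===== PACK-END LT/A2/H999/LGLocal.lean

-- ===== PACK-BEGIN LT/CFT/H1/Wall.lean
section




/-!
# Row LT, tower CFT, sub-tower REC2 (helper1), OFF-MAIN : THE WALL OF REC2 (PROVED)

`reciprocityTC : LocalCycloNormSharpSpec → NormPosSpec → HassePrinciple2Spec →
  ∀ I, ReciprocityTCSpec I`.

The reciprocity law `∑_v inv_v (x_v) = 0` for the `2`-primary part of `Br(K)`, `K = ℚ̄^U`
totally complex, for EVERY local invariant system `I`, from exactly THREE open leaves: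
* L5' `LocalCycloNormSharpSpec` (local, Mathlib + main `H413`),
* G6  `NormPosSpec` (global, elementary),
* HP2 `HassePrinciple2Spec` (sub-tower G2: the inequalities at `p = 2`).
-/

set_option autoImplicit false

namespace Fermat.Agent.LT.CFT.H1

open Fermat.Agent.S55.G.Rec

/-- **REC2** from the three open leaves. -/
theorem reciprocityTC (hL5 : LocalCycloNormSharpSpec) (hG6 : NormPosSpec)
    (hHP : HassePrinciple2Spec) (I : LocalInvSystem) : ReciprocityTCSpec I :=
  reciprocityTC_of_leaves hL5 hG6 hHP stepA2 stepB2 stepC2 H181.supportFinite I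

end Fermat.Agent.LT.CFT.H1

end
-- ===== PACK-END LT/CFT/H1/Wall.lean

-- ===== PACK-BEGIN LT/CFT/H1/L5/Main.lean
section




/-!
# Row LT, tower CFT, sub-tower REC2 (helper1), OFF-MAIN : leaf L5' = `LocalCycloNormSharpSpec`
(PROVED, every prime `ℓ`, `2` included)

`localCycloNormSharp : LocalCycloNormSharpSpec`.

GLOBAL route, no local class field theory.  `m = ℓ^e`, `W ≤ G_{ℚ_ℓ}` containing the group of
`ℚ̄_ℓ/ℚ_ℓ(μ_m)`, `C = c(W) ≤ (ℤ/m)ˣ`, `U₀ = c⁻¹(C) ≤ G_ℚ`, `K₀ = ℚ̄^{U₀} = ℚ(μ_m)^C`.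
* `locSub ℓ 1 U₀ = W` and `{1}` is a system of representatives of `U₀ \ G_ℚ / D_ℓ`
  (`c ∘ loc` is surjective), so by main G1 (`H934.orbitNorm`) the local norm of a global element
  is its global norm;
* `K₀` is dense in the fixed field of `W` (main `H904.mem_closure_of_isFixedBy`) and the local
  norm maps `1 + ℓ^e 𝒪` into `1 + ℓ^e ℤ_ℓ`; so the unit residue of `N(b)` is the unit residue of a
  global norm, which lies in `C` (`unitResidue_norm_mem`).
-/

set_option autoImplicit false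
set_option linter.style.haveILetI false

noncomputable section

namespace Fermat.Agent.LT.CFT.H1.L5

open Fermat.Agent.S55.G.Rec Fermat.Agent.S55.G.Rec.H511 Fermat.Agent.S55.H413

local notation "Qb" => AlgebraicClosure ℚ
local notation "GQ" => (AlgebraicClosure ℚ ≃ₐ[ℚ] AlgebraicClosure ℚ)

/-! ## `ℓ`-adic estimates -/

section Padic

variable (ℓ : ℕ) [hℓ : Fact ℓ.Prime]

/-- The norm estimate: `‖y - ℓ^k · t‖ ≤ ‖ℓ‖^(k + m)` where `k = v(y)` and `t` is the canonical
lift of the residue mod `ℓ^m` of the unit part of `y`.  (Copy of main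
`H413.norm_sub_unitResidue_le`.) -/
theorem norm_sub_unitResidue_le' (m : ℕ) (y : ℚ_[ℓ]ˣ) :
    ‖(y : ℚ_[ℓ]) - (ℓ : ℚ_[ℓ]) ^ ((y : ℚ_[ℓ]).valuation) *
        (((unitResidue ℓ m y : (ZMod (ℓ ^ m))ˣ) : ZMod (ℓ ^ m)).val : ℚ_[ℓ])‖
      ≤ ‖(ℓ : ℚ_[ℓ])‖ ^ ((y : ℚ_[ℓ]).valuation + m) := by
  have : NeZero (ℓ ^ m) := ⟨(pow_pos hℓ.out.pos _).ne'⟩
  set u : ℤ_[ℓ] := ((unitPart ℓ y : ℤ_[ℓ]ˣ) : ℤ_[ℓ]) with hu
  set t : ℕ := ((unitResidue ℓ m y : (ZMod (ℓ ^ m))ˣ) : ZMod (ℓ ^ m)).val with ht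
  have h1 : PadicInt.toZModPow m (u - (t : ℤ_[ℓ])) = 0 := by
    rw [map_sub, map_natCast, ht, ZMod.natCast_zmod_val, coe_unitResidue, sub_self]
  have h2 : u - (t : ℤ_[ℓ]) ∈ (Ideal.span {(ℓ : ℤ_[ℓ]) ^ m} : Ideal ℤ_[ℓ]) := by
    rw [← PadicInt.ker_toZModPow]
    exact h1
  have h3 : ‖u - (t : ℤ_[ℓ])‖ ≤ (ℓ : ℝ) ^ (-m : ℤ) :=
    (PadicInt.norm_le_pow_iff_mem_span_pow _ _).2 h2
  have hy' := eq_unitPart_mul ℓ y
  rw [← hu] at hy'
  have h4 : (y : ℚ_[ℓ]) - (ℓ : ℚ_[ℓ]) ^ ((y : ℚ_[ℓ]).valuation) * (t : ℚ_[ℓ]) =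
      (ℓ : ℚ_[ℓ]) ^ ((y : ℚ_[ℓ]).valuation) * ((u - (t : ℤ_[ℓ]) : ℤ_[ℓ]) : ℚ_[ℓ]) := by
    rw [PadicInt.coe_sub, PadicInt.coe_natCast]
    linear_combination hy'
  have hℓn : ‖(ℓ : ℚ_[ℓ])‖ ≠ 0 := by
    rw [Padic.norm_p]
    exact inv_ne_zero (by exact_mod_cast hℓ.out.ne_zero)
  rw [h4, norm_mul, zpow_add₀ hℓn, norm_zpow]
  refine mul_le_mul_of_nonneg_left ?_ (by positivity)
  rw [PadicInt.padic_norm_e_of_padicInt, Padic.norm_p, zpow_natCast, inv_pow, ← zpow_natCast,
    ← zpow_neg]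
  exact h3

/-- Units which are `≡ 1 mod ℓ^m` have trivial unit residue. -/
theorem unitResidue_eq_one_of_norm_sub_one_le (m : ℕ) (hm : 0 < m) (z : ℚ_[ℓ]ˣ)
    (hz : ‖(z : ℚ_[ℓ]) - 1‖ ≤ ‖(ℓ : ℚ_[ℓ])‖ ^ m) : unitResidue ℓ m z = 1 := by
  have hℓ1 : ‖(ℓ : ℚ_[ℓ])‖ < 1 := Padic.norm_p_lt_one
  have hlt : ‖(z : ℚ_[ℓ]) - 1‖ < 1 :=
    hz.trans_lt (pow_lt_one₀ (norm_nonneg _) hℓ1 hm.ne')
  have hnorm : ‖(z : ℚ_[ℓ])‖ = 1 := by
    have h1 : (z : ℚ_[ℓ]) = 1 + ((z : ℚ_[ℓ]) - 1) := by ring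
    rw [h1]
    have h2 : ‖((z : ℚ_[ℓ]) - 1)‖ < ‖(1 : ℚ_[ℓ])‖ := by rwa [norm_one]
    rw [IsUltrametricDist.norm_add_eq_max_of_norm_ne_norm (ne_of_gt h2), norm_one,
      max_eq_left hlt.le]
  have hval : (z : ℚ_[ℓ]).valuation = 0 := by
    have h1 := Padic.norm_eq_zpow_neg_valuation z.ne_zero
    rw [hnorm] at h1
    have hℓr : (1 : ℝ) < (ℓ : ℝ) := by exact_mod_cast hℓ.out.one_lt
    have h2 : ((ℓ : ℝ) ^ (-(z : ℚ_[ℓ]).valuation)) = (ℓ : ℝ) ^ (0 : ℤ) := by
      rw [← h1, zpow_zero]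
    have h3 := zpow_right_injective₀ (by positivity) hℓr.ne' h2
    omega
  have hu : (((unitPart ℓ z : ℤ_[ℓ]ˣ) : ℤ_[ℓ]) : ℚ_[ℓ]) = (z : ℚ_[ℓ]) := by
    rw [coe_unitPart, hval]
    simp
  apply Units.ext
  rw [coe_unitResidue, Units.val_one]
  have h4 : ((unitPart ℓ z : ℤ_[ℓ]ˣ) : ℤ_[ℓ]) - 1 ∈
      (Ideal.span {(ℓ : ℤ_[ℓ]) ^ m} : Ideal ℤ_[ℓ]) := by
    rw [← PadicInt.norm_le_pow_iff_mem_span_pow]
    have h5 : ‖((unitPart ℓ z : ℤ_[ℓ]ˣ) : ℤ_[ℓ]) - 1‖ = ‖(z : ℚ_[ℓ]) - 1‖ := by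
      rw [← hu]
      simp [PadicInt.norm_def]
    rw [h5]
    refine hz.trans_eq ?_
    rw [Padic.norm_p, inv_pow, zpow_neg, zpow_natCast]
  rw [← PadicInt.ker_toZModPow, RingHom.mem_ker, map_sub, map_one, sub_eq_zero] at h4
  exact h4

end Padic

/-! ## The theorem -/

/-- **Leaf L5'**: norms from the subfields of `ℚ_ℓ(μ_{ℓ^e})`, sharp form, every prime `ℓ`. -/
theorem localCycloNormSharp : LocalCycloNormSharpSpec := by
  classical
  intro ℓ hℓ e he W hW b hb
  obtain ⟨n, rfl⟩ : ∃ n, e = n + 1 := ⟨e - 1, by omega⟩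
  haveI hne : NeZero (ℓ ^ (n + 1)) := ⟨(pow_pos hℓ.out.pos _).ne'⟩
  -- the groups
  set cl : (PadicAlgCl ℓ ≃ₐ[ℚ_[ℓ]] PadicAlgCl ℓ) →* (ZMod (ℓ ^ (n + 1)))ˣ :=
    (cyc (ℓ ^ (n + 1))).comp (localGaloisToGlobal ℓ) with hcl
  set C : Subgroup (ZMod (ℓ ^ (n + 1)))ˣ := W.map cl with hC
  set U₀ : Subgroup GQ := C.comap (cyc (ℓ ^ (n + 1))) with hU₀
  have hU : IsOpenQ U₀ := isOpenQ_comap_cyc (ℓ ^ (n + 1)) C
  have hker : cl.ker ≤ W := fun τ hτ =>
    hW τ (loc_fixes_of_cyc_eq_one (ℓ ^ (n + 1)) ℓ τ (MonoidHom.mem_ker.mp hτ))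
  have hWeq : locSub ℓ 1 U₀ = W := by
    ext τ
    rw [mem_locSub, one_mul, inv_one, mul_one]
    show cl τ ∈ W.map cl ↔ τ ∈ W
    constructor
    · rintro ⟨w, hw, hwτ⟩
      have h1 : τ * w⁻¹ ∈ cl.ker := by
        rw [MonoidHom.mem_ker, map_mul, map_inv, hwτ, mul_inv_cancel]
      have h2 := W.mul_mem (hker h1) hw
      rwa [inv_mul_cancel_right] at h2
    · exact fun h => Subgroup.mem_map_of_mem cl h
  have hVopen : IsOpenL ℓ (locSub ℓ 1 U₀) := isOpenL_locSub ℓ 1 U₀ hU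
  haveI hWfin : W.FiniteIndex := by
    rw [← hWeq]
    exact RelNormH707.finiteIndex_of_isOpenL ℓ hVopen
  haveI : Finite ((PadicAlgCl ℓ ≃ₐ[ℚ_[ℓ]] PadicAlgCl ℓ) ⧸ W) :=
    Subgroup.finite_quotient_of_finiteIndex
  haveI : Fintype ((PadicAlgCl ℓ ≃ₐ[ℚ_[ℓ]] PadicAlgCl ℓ) ⧸ W) := Fintype.ofFinite _
  -- `{1}` is a system of representatives
  have hR : IsDoubleCosetReps U₀ (localGaloisToGlobal ℓ).range {1} := by
    intro g
    obtain ⟨τ, hτ⟩ := exists_loc_cyc_eq ℓ n (cyc (ℓ ^ (n + 1)) g)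
    refine ⟨1, ⟨Finset.mem_singleton_self 1, g * (localGaloisToGlobal ℓ τ)⁻¹, ?_,
      localGaloisToGlobal ℓ τ, ⟨τ, rfl⟩, by group⟩, fun r hr => Finset.mem_singleton.mp hr.1⟩
    show cyc (ℓ ^ (n + 1)) (g * (localGaloisToGlobal ℓ τ)⁻¹) ∈ C
    rw [map_mul, map_inv, hτ, mul_inv_cancel]
    exact C.one_mem
  -- density
  have hbfix : IsFixedBy ℓ (locSub ℓ 1 U₀) (b : PadicAlgCl ℓ) := by
    intro τ hτ
    rw [hWeq] at hτ
    exact congrArg Units.val (hb τ hτ)
  have hdense := H904.mem_closure_of_isFixedBy ℓ hU 1 (b : PadicAlgCl ℓ) hbfix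
  have hℓ0 : (ℓ : PadicAlgCl ℓ) ≠ 0 := Nat.cast_ne_zero.mpr hℓ.out.ne_zero
  have hnormℓ : ‖(ℓ : PadicAlgCl ℓ)‖ = ‖(ℓ : ℚ_[ℓ])‖ := by
    rw [← PadicAlgCl.norm_extends, map_natCast]
  have hℓpos : 0 < ‖(ℓ : PadicAlgCl ℓ)‖ := norm_pos_iff.mpr hℓ0
  have hℓle : ‖(ℓ : PadicAlgCl ℓ)‖ ≤ 1 := by
    rw [hnormℓ]; exact (Padic.norm_p_lt_one).le
  have hbpos : 0 < ‖(b : PadicAlgCl ℓ)‖ := norm_pos_iff.mpr b.ne_zero
  set ε : ℝ := ‖(ℓ : PadicAlgCl ℓ)‖ ^ (n + 1) with hε
  have hεpos : 0 < ε := pow_pos hℓpos _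
  have hεle : ε ≤ 1 := pow_le_one₀ hℓpos.le hℓle
  rw [Metric.mem_closure_iff] at hdense
  obtain ⟨_, ⟨x₀, rfl⟩, hx₀⟩ := hdense (ε * ‖(b : PadicAlgCl ℓ)‖) (mul_pos hεpos hbpos)
  rw [dist_eq_norm, H904.locEmb_apply, inv_one, AlgEquiv.one_apply] at hx₀
  -- the global element
  have hιnorm : ‖padicEmbedding ℓ (x₀ : Qb)‖ = ‖(b : PadicAlgCl ℓ)‖ := by
    have hlt : ‖(b : PadicAlgCl ℓ) - padicEmbedding ℓ (x₀ : Qb)‖ < ‖(b : PadicAlgCl ℓ)‖ :=
      hx₀.trans_le (mul_le_of_le_one_left hbpos.le hεle)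
    have h1 : padicEmbedding ℓ (x₀ : Qb) =
        (b : PadicAlgCl ℓ) + (padicEmbedding ℓ (x₀ : Qb) - (b : PadicAlgCl ℓ)) := by ring
    rw [h1]
    have hlt' : ‖padicEmbedding ℓ (x₀ : Qb) - (b : PadicAlgCl ℓ)‖ < ‖(b : PadicAlgCl ℓ)‖ := by
      rwa [← norm_neg, neg_sub]
    rw [IsUltrametricDist.norm_add_eq_max_of_norm_ne_norm (ne_of_gt hlt'), max_eq_left hlt'.le]
  have hx₀ne : (x₀ : Qb) ≠ 0 := by
    intro h
    rw [h, map_zero, norm_zero] at hιnorm
    exact hbpos.ne hιnorm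
  set a : Qbˣ := Units.mk0 (x₀ : Qb) hx₀ne with ha_def
  have ha : GFixed U₀ a := by
    intro u hu
    apply Units.ext
    show u (x₀ : Qb) = (x₀ : Qb)
    exact x₀.2 ⟨u, hu⟩
  have hιa : ((locPushMul ℓ 1 a : (PadicAlgCl ℓ)ˣ) : PadicAlgCl ℓ) = padicEmbedding ℓ (x₀ : Qb) := by
    rw [locPushMul_coe, inv_one, AlgEquiv.one_apply, ha_def, Units.val_mk0]
  have hιfix : LFixed ℓ W (locPushMul ℓ 1 a) := by
    have := H934.lFixed_locPushMul ℓ ha 1
    rwa [hWeq] at this
  -- the global norm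
  obtain ⟨⟨y, hy⟩, hprod⟩ := H934.orbitNorm U₀ hU a ha
  have hG1 := hprod ℓ {1} hR
  rw [Finset.prod_singleton, hWeq] at hG1
  have hyloc : ((relNorm W (locPushMul ℓ 1 a) : (PadicAlgCl ℓ)ˣ) : PadicAlgCl ℓ) =
      algebraMap ℚ_[ℓ] (PadicAlgCl ℓ) ((y : ℚ) : ℚ_[ℓ]) := by
    rw [← hG1, locPushMul_coe, inv_one, AlgEquiv.one_apply, hy, AlgHom.commutes, map_ratCast,
      eq_ratCast]
  -- the quotient `x = b / ι a`
  set x : (PadicAlgCl ℓ)ˣ := b * (locPushMul ℓ 1 a)⁻¹ with hx_def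
  have hxfix : LFixed ℓ W x := by
    intro τ hτ
    rw [hx_def, smul_mul', smul_inv', hb τ hτ, hιfix τ hτ]
  have hbx : b = locPushMul ℓ 1 a * x := by
    rw [hx_def, mul_comm b, mul_inv_cancel_left]
  have hxclose : ‖(x : PadicAlgCl ℓ) - 1‖ ≤ ε := by
    have h1 : (x : PadicAlgCl ℓ) - 1 =
        ((b : PadicAlgCl ℓ) - padicEmbedding ℓ (x₀ : Qb)) * (padicEmbedding ℓ (x₀ : Qb))⁻¹ := by
      have hne : padicEmbedding ℓ (x₀ : Qb) ≠ 0 := by
        rw [← norm_pos_iff, hιnorm]; exact hbpos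
      rw [hx_def, Units.val_mul, Units.val_inv_eq_inv_val, hιa]
      field_simp
    rw [h1, norm_mul, norm_inv, hιnorm]
    rw [← div_eq_mul_inv, div_le_iff₀ hbpos]
    exact hx₀.le
  -- the norm of `x` is close to `1`
  have hNx : ‖((relNorm W x : (PadicAlgCl ℓ)ˣ) : PadicAlgCl ℓ) - 1‖ ≤ ε := by
    rw [H934.relNorm_eq_prod, Units.coe_prod]
    have h := (norm_prod_sub_prod_le (Finset.univ :
      Finset ((PadicAlgCl ℓ ≃ₐ[ℚ_[ℓ]] PadicAlgCl ℓ) ⧸ W))
      (fun t => (((Quotient.out t : PadicAlgCl ℓ ≃ₐ[ℚ_[ℓ]] PadicAlgCl ℓ) • x :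
        (PadicAlgCl ℓ)ˣ) : PadicAlgCl ℓ)) (fun _ => (1 : PadicAlgCl ℓ)) ε hεpos.le hεle
      (fun t _ => by
        rw [norm_one, mul_one]
        have h2 : (((Quotient.out t : PadicAlgCl ℓ ≃ₐ[ℚ_[ℓ]] PadicAlgCl ℓ) • x :
            (PadicAlgCl ℓ)ˣ) : PadicAlgCl ℓ) - 1 =
            (Quotient.out t : PadicAlgCl ℓ ≃ₐ[ℚ_[ℓ]] PadicAlgCl ℓ) ((x : PadicAlgCl ℓ) - 1) := by
          rw [map_sub, map_one]
          rfl
        rw [h2, VdegH707.norm_algEquiv]
        exact hxclose)).2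
    simpa using h
  -- rationality
  obtain ⟨yb, hyb0, hyb⟩ := RelNormH707.relNorm_rational_local ℓ hb
  obtain ⟨z, hz0, hz⟩ := RelNormH707.relNorm_rational_local ℓ hxfix
  have hy0 : ((y : ℚ) : ℚ_[ℓ]) ≠ 0 := by
    rw [Rat.cast_ne_zero]; exact y.ne_zero
  have hmul : yb = ((y : ℚ) : ℚ_[ℓ]) * z := by
    apply (algebraMap ℚ_[ℓ] (PadicAlgCl ℓ)).injective
    rw [map_mul, ← hyb, ← hyloc, ← hz, ← Units.val_mul, ← RelNormH707.relNorm_mul, ← hbx]
  have hzclose : ‖z - 1‖ ≤ ‖(ℓ : ℚ_[ℓ])‖ ^ (n + 1) := by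
    have h1 : ‖algebraMap ℚ_[ℓ] (PadicAlgCl ℓ) (z - 1)‖ = ‖z - 1‖ :=
      PadicAlgCl.norm_extends ℓ _
    rw [← h1, map_sub, map_one, ← hz, ← hnormℓ]
    exact hNx
  -- the unit residue
  have hres : unitResidue ℓ (n + 1) (Units.mk0 yb hyb0) ∈ C := by
    have h1 : Units.mk0 yb hyb0 = toPadicUnits ℓ y * Units.mk0 z hz0 := by
      apply Units.ext
      rw [Units.val_mul, Units.val_mk0, Units.val_mk0, coe_toPadicUnits]
      exact hmul
    rw [h1, map_mul, unitResidue_eq_one_of_norm_sub_one_le ℓ (n + 1) (Nat.succ_pos n)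
      (Units.mk0 z hz0) (by rw [Units.val_mk0]; exact hzclose), mul_one]
    exact unitResidue_norm_mem ℓ (n + 1) C a ha y hy
  obtain ⟨τ, hτW, hτ⟩ := hres
  refine ⟨yb.valuation,
    ((unitResidue ℓ (n + 1) (Units.mk0 yb hyb0) : (ZMod (ℓ ^ (n + 1)))ˣ) :
      ZMod (ℓ ^ (n + 1))).val, τ, hτW, ?_, ?_⟩
  · intro ξ hξ
    rw [loc_acts (ℓ ^ (n + 1)) ℓ τ ξ hξ]
    have h2 : cyc (ℓ ^ (n + 1)) (localGaloisToGlobal ℓ τ) =
        unitResidue ℓ (n + 1) (Units.mk0 yb hyb0) := hτ
    rw [h2]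
  · have key := norm_sub_unitResidue_le' ℓ (n + 1) (Units.mk0 yb hyb0)
    rw [Units.val_mk0] at key
    have e1 : ((relNorm W b : (PadicAlgCl ℓ)ˣ) : PadicAlgCl ℓ) -
        (ℓ : PadicAlgCl ℓ) ^ yb.valuation *
          ((((unitResidue ℓ (n + 1) (Units.mk0 yb hyb0) : (ZMod (ℓ ^ (n + 1)))ˣ) :
            ZMod (ℓ ^ (n + 1))).val : ℕ) : PadicAlgCl ℓ) =
        algebraMap ℚ_[ℓ] (PadicAlgCl ℓ) (yb - (ℓ : ℚ_[ℓ]) ^ yb.valuation *
          ((((unitResidue ℓ (n + 1) (Units.mk0 yb hyb0) : (ZMod (ℓ ^ (n + 1)))ˣ) :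
            ZMod (ℓ ^ (n + 1))).val : ℕ) : ℚ_[ℓ])) := by
      rw [hyb, map_sub, map_mul, map_zpow₀, map_natCast, map_natCast]
    have e2 : (ℓ : PadicAlgCl ℓ) = algebraMap ℚ_[ℓ] (PadicAlgCl ℓ) (ℓ : ℚ_[ℓ]) := by
      rw [map_natCast]
    rw [e1, e2]
    have hn1 : ∀ x : ℚ_[ℓ], ‖algebraMap ℚ_[ℓ] (PadicAlgCl ℓ) x‖ = ‖x‖ :=
      fun x => PadicAlgCl.norm_extends ℓ x
    rw [hn1, hn1]
    exact_mod_cast key

end Fermat.Agent.LT.CFT.H1.L5

end
end
-- ===== PACK-END LT/CFT/H1/L5/Main.lean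

-- ===== PACK-BEGIN LT/T3/H263/SatSys.lean
section


/-!
# Row LT, tower T3, station T3.18a, leaf AS.1 `SatakeLocC` (helper263), OFF-MAIN -- part 2

Abstract nonarchimedean local field `k` with residue data `D`.  The algebraic half of a Satake
pair `(f, A)`:

* `IsRep263 f R`   : `R` is a system of pairwise inequivalent representatives of cosets
                     `h GL₂(𝒪)` covering the support of `f`;
* `sum_rep_eq263`  : the sum `∑_{h ∈ R} f h Φ(y h)` does not depend on `R`;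
* `IsSatAlg263 D f A` : `f` is bi-invariant, has a system of representatives, `A` is finitely
                     supported and `f` acts on every eigenfunction of `T`, `S` with parameters
                     `√q (z₁ + z₂)`, `z₁ z₂` by `∑ A(m) z₁^{m₁} z₂^{m₂}` -- over EVERY system;
* closure of `IsSatAlg263` under `0`, `+`, scalar multiples;
* the base case `T_{n,m}`, `A_{n,m} = (√q)^n 1{m₁, m₂ ≥ m, m₁ + m₂ = n + 2m}`.
-/

set_option autoImplicit false

open scoped Classical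

noncomputable section

namespace Fermat.Agent.LT.T3.H263

open Fermat.Agent.LT.T6 Fermat.Agent.LT.T6.H305

variable {k : Type} [Field k] [Valued k Γ₀]

/-- Right invariance under `GL₂(𝒪)`. -/
def IsRInv263 (f : GL (Fin 2) k → ℂ) : Prop :=
  ∀ u g : GL (Fin 2) k, InK u → f (g * u) = f g

/-- Left invariance under `GL₂(𝒪)`. -/
def IsLInv263 (f : GL (Fin 2) k → ℂ) : Prop :=
  ∀ u g : GL (Fin 2) k, InK u → f (u * g) = f g

/-- `R` is pairwise inequivalent modulo `GL₂(𝒪)` on the right. -/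
def IsIneq263 (R : Finset (GL (Fin 2) k)) : Prop :=
  ∀ h ∈ R, ∀ h' ∈ R, InK (h⁻¹ * h') → h = h'

/-- `R` is a system of representatives covering the support of `f`. -/
def IsRep263 (f : GL (Fin 2) k → ℂ) (R : Finset (GL (Fin 2) k)) : Prop :=
  IsIneq263 R ∧ ∀ g : GL (Fin 2) k, f g ≠ 0 → ∃ h ∈ R, InK (h⁻¹ * g)

theorem rinv_of_coset263 {f : GL (Fin 2) k → ℂ} (hf : IsRInv263 f) {a b : GL (Fin 2) k}
    (hK : InK (b⁻¹ * a)) : f a = f b := by
  have e : a = b * (b⁻¹ * a) := by group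
  rw [e]
  exact hf _ b hK

theorem inK_symm263 {a b : GL (Fin 2) k} (hK : InK (a⁻¹ * b)) : InK (b⁻¹ * a) := by
  have e : b⁻¹ * a = (a⁻¹ * b)⁻¹ := by group
  rw [e]
  exact inK_inv hK

theorem inK_trans263 {a b c : GL (Fin 2) k} (h1 : InK (a⁻¹ * b)) (h2 : InK (b⁻¹ * c)) :
    InK (a⁻¹ * c) := by
  have e : a⁻¹ * c = (a⁻¹ * b) * (b⁻¹ * c) := by group
  rw [e]
  exact inK_mul h1 h2

/-- The sum over a system of representatives does not depend on the system. -/
theorem sum_rep_eq263 {f Φ : GL (Fin 2) k → ℂ} (hf : IsRInv263 f) (hΦ : IsRInv263 Φ)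
    {R R' : Finset (GL (Fin 2) k)} (hR : IsRep263 f R) (hR' : IsRep263 f R')
    (y : GL (Fin 2) k) :
    ∑ h ∈ R, f h * Φ (y * h) = ∑ h ∈ R', f h * Φ (y * h) := by
  have key : ∀ {R₁ R₂ : Finset (GL (Fin 2) k)}, IsRep263 f R₁ → IsRep263 f R₂ →
      ∀ a ∈ R₁.filter (fun h => f h ≠ 0),
        ∃ b ∈ R₂.filter (fun h => f h ≠ 0), InK ((id b)⁻¹ * id a) := by
    intro R₁ R₂ _ h₂ a ha
    rw [Finset.mem_filter] at ha
    obtain ⟨b, hb, hK⟩ := h₂.2 a ha.2
    refine ⟨b, Finset.mem_filter.2 ⟨hb, ?_⟩, hK⟩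
    rw [← rinv_of_coset263 hf hK]
    exact ha.2
  rw [← Finset.sum_filter_of_ne (s := R) (p := fun h => f h ≠ 0)
      (fun h _ hne => left_ne_zero_of_mul hne),
    ← Finset.sum_filter_of_ne (s := R') (p := fun h => f h ≠ 0)
      (fun h _ hne => left_ne_zero_of_mul hne)]
  refine sum_eq_of_systems _ _ id id (fun h => f h * Φ (y * h)) ?_ (key hR hR') (key hR' hR)
    ?_ ?_
  · intro u g hu
    show f (g * u) * Φ (y * (g * u)) = f g * Φ (y * g)
    rw [hf u g hu, ← mul_assoc, hΦ u (y * g) hu]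
  · intro a ha a' ha' hK
    exact hR.1 a (Finset.mem_filter.1 ha).1 a' (Finset.mem_filter.1 ha').1 hK
  · intro a ha a' ha' hK
    exact hR'.1 a (Finset.mem_filter.1 ha).1 a' (Finset.mem_filter.1 ha').1 hK

/-- Two pairwise inequivalent systems have a common pairwise inequivalent refinement. -/
theorem exists_rep_merge263 (R₁ R₂ : Finset (GL (Fin 2) k)) (h₁ : IsIneq263 R₁)
    (h₂ : IsIneq263 R₂) :
    ∃ R : Finset (GL (Fin 2) k), IsIneq263 R ∧
      ∀ g : GL (Fin 2) k, ((∃ h ∈ R₁, InK (h⁻¹ * g)) ∨ ∃ h ∈ R₂, InK (h⁻¹ * g)) →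
        ∃ h ∈ R, InK (h⁻¹ * g) := by
  refine ⟨R₁ ∪ R₂.filter (fun h => ∀ h₁ ∈ R₁, ¬ InK (h₁⁻¹ * h)), ?_, ?_⟩
  · intro h hh h' hh' hK
    rw [Finset.mem_union, Finset.mem_filter] at hh hh'
    rcases hh with hh | ⟨hh, hn⟩ <;> rcases hh' with hh' | ⟨hh', hn'⟩
    · exact h₁ h hh h' hh' hK
    · exact absurd hK (hn' h hh)
    · exact absurd (inK_symm263 hK) (hn h' hh')
    · exact h₂ h hh h' hh' hK
  · rintro g (⟨h, hh, hK⟩ | ⟨h, hh, hK⟩)
    · exact ⟨h, Finset.mem_union_left _ hh, hK⟩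
    · by_cases hc : ∀ h₁ ∈ R₁, ¬ InK (h₁⁻¹ * h)
      · exact ⟨h, Finset.mem_union_right _ (Finset.mem_filter.2 ⟨hh, hc⟩), hK⟩
      · push Not at hc
        obtain ⟨h₁, hh₁, hK₁⟩ := hc
        exact ⟨h₁, Finset.mem_union_left _ hh₁, inK_trans263 hK₁ hK⟩

/-- An eigenfunction of `T = T_{1,0}` and `S = T_{0,1}`, right invariant under `GL₂(𝒪)`. -/
structure IsEig263 (D : ResData k) (Φ : GL (Fin 2) k → ℂ) (t s : ℂ) : Prop where
  inv : IsRInv263 Φ
  hS : ∀ g, Φ (g * D.sc 1) = s * Φ g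
  hT : ∀ g, Φ (g * D.um 0 1 0) + ∑ d ∈ D.T, Φ (g * D.um 1 0 d) = t * Φ g

/-- `√q` as a complex number, `q = #T`. -/
def sq263 (D : ResData k) : ℂ := ((Real.sqrt (D.T.card : ℝ) : ℝ) : ℂ)

theorem sq_sq263 (D : ResData k) : sq263 D ^ 2 = (D.T.card : ℂ) := by
  unfold sq263
  rw [← Complex.ofReal_pow, Real.sq_sqrt (Nat.cast_nonneg _)]
  simp

/-- The Laurent polynomial `∑ A(m) z₁^{m₁} z₂^{m₂}`. -/
def laur263 (A : ℤ × ℤ → ℂ) (z₁ z₂ : ℂ) : ℂ := ∑ᶠ m : ℤ × ℤ, A m * z₁ ^ m.1 * z₂ ^ m.2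

/-- `f` acts on the eigenfunctions with Satake parameters `z₁, z₂` by the Laurent polynomial of
`A`, the sum being taken over ANY system of representatives covering the support of `f`. -/
def ActsBy263 (D : ResData k) (f : GL (Fin 2) k → ℂ) (A : ℤ × ℤ → ℂ) : Prop :=
  ∀ (Φ : GL (Fin 2) k → ℂ) (z₁ z₂ : ℂ), z₁ * z₂ ≠ 0 →
    IsEig263 D Φ (sq263 D * (z₁ + z₂)) (z₁ * z₂) →
    ∀ R : Finset (GL (Fin 2) k), IsRep263 f R → ∀ y : GL (Fin 2) k,
      ∑ h ∈ R, f h * Φ (y * h) = laur263 A z₁ z₂ * Φ y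

/-- The algebraic half of a Satake pair. -/
structure IsSatAlg263 (D : ResData k) (f : GL (Fin 2) k → ℂ) (A : ℤ × ℤ → ℂ) : Prop where
  linv : IsLInv263 f
  rinv : IsRInv263 f
  rep : ∃ R : Finset (GL (Fin 2) k), IsRep263 f R
  fin : (Function.support A).Finite
  acts : ActsBy263 D f A

theorem laur_support263 (A : ℤ × ℤ → ℂ) (z₁ z₂ : ℂ) :
    Function.support (fun m : ℤ × ℤ => A m * z₁ ^ m.1 * z₂ ^ m.2) ⊆ Function.support A := by
  intro m hm
  rw [Function.mem_support] at hm ⊢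
  intro h0
  apply hm
  rw [h0, zero_mul, zero_mul]

theorem laur_add263 {A B : ℤ × ℤ → ℂ} (hA : (Function.support A).Finite)
    (hB : (Function.support B).Finite) (z₁ z₂ : ℂ) :
    laur263 (fun m => A m + B m) z₁ z₂ = laur263 A z₁ z₂ + laur263 B z₁ z₂ := by
  unfold laur263
  rw [← finsum_add_distrib (hA.subset (laur_support263 A z₁ z₂))
    (hB.subset (laur_support263 B z₁ z₂))]
  refine finsum_congr (fun m => ?_)
  ring

theorem laur_smul263 (c : ℂ) (A : ℤ × ℤ → ℂ) (z₁ z₂ : ℂ) :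
    laur263 (fun m => c * A m) z₁ z₂ = c * laur263 A z₁ z₂ := by
  unfold laur263
  rw [mul_finsum]
  refine finsum_congr (fun m => ?_)
  ring

theorem laur_zero263 (z₁ z₂ : ℂ) : laur263 (fun _ => 0) z₁ z₂ = 0 := by
  unfold laur263
  simp

/-! ## Closure properties -/

theorem isSatAlg_zero263 (D : ResData k) : IsSatAlg263 D (fun _ => 0) (fun _ => 0) := by
  refine ⟨fun _ _ _ => rfl, fun _ _ _ => rfl, ⟨∅, ?_, ?_⟩, ?_, ?_⟩
  · intro h hh
    simp at hh
  · intro g hg
    exact absurd rfl hg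
  · simp [Function.support]
  · intro Φ z₁ z₂ _ _ R _ y
    rw [laur_zero263]
    simp

theorem isSatAlg_smul263 (D : ResData k) {f : GL (Fin 2) k → ℂ} {A : ℤ × ℤ → ℂ}
    (h : IsSatAlg263 D f A) (c : ℂ) :
    IsSatAlg263 D (fun g => c * f g) (fun m => c * A m) := by
  obtain ⟨R₀, hR₀⟩ := h.rep
  refine ⟨?_, ?_, ⟨R₀, hR₀.1, ?_⟩, ?_, ?_⟩
  · intro u g hu
    show c * f (u * g) = c * f g
    rw [h.linv u g hu]
  · intro u g hu
    show c * f (g * u) = c * f g
    rw [h.rinv u g hu]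
  · intro g hg
    exact hR₀.2 g (right_ne_zero_of_mul hg)
  · refine h.fin.subset ?_
    intro m hm
    rw [Function.mem_support] at hm ⊢
    exact right_ne_zero_of_mul hm
  · intro Φ z₁ z₂ hz hΦ R hR y
    rw [laur_smul263]
    by_cases hc : c = 0
    · subst hc
      simp
    · have hR' : IsRep263 f R := ⟨hR.1, fun g hg => hR.2 g (mul_ne_zero hc hg)⟩
      have := h.acts Φ z₁ z₂ hz hΦ R hR' y
      rw [mul_assoc, ← this, Finset.mul_sum]
      refine Finset.sum_congr rfl (fun x _ => ?_)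
      ring

theorem isSatAlg_add263 (D : ResData k) {f₁ f₂ : GL (Fin 2) k → ℂ} {A₁ A₂ : ℤ × ℤ → ℂ}
    (h₁ : IsSatAlg263 D f₁ A₁) (h₂ : IsSatAlg263 D f₂ A₂) :
    IsSatAlg263 D (fun g => f₁ g + f₂ g) (fun m => A₁ m + A₂ m) := by
  obtain ⟨R₁, hR₁⟩ := h₁.rep
  obtain ⟨R₂, hR₂⟩ := h₂.rep
  obtain ⟨R₀, hR₀, hcov⟩ := exists_rep_merge263 R₁ R₂ hR₁.1 hR₂.1
  have hrep₁ : IsRep263 f₁ R₀ := ⟨hR₀, fun g hg => hcov g (Or.inl (hR₁.2 g hg))⟩
  have hrep₂ : IsRep263 f₂ R₀ := ⟨hR₀, fun g hg => hcov g (Or.inr (hR₂.2 g hg))⟩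
  have hrep : IsRep263 (fun g => f₁ g + f₂ g) R₀ := by
    refine ⟨hR₀, fun g hg => ?_⟩
    by_cases h0 : f₁ g = 0
    · refine hrep₂.2 g ?_
      intro h0'
      apply hg
      show f₁ g + f₂ g = 0
      rw [h0, h0', add_zero]
    · exact hrep₁.2 g h0
  have hrinv : IsRInv263 (fun g => f₁ g + f₂ g) := by
    intro u g hu
    show f₁ (g * u) + f₂ (g * u) = f₁ g + f₂ g
    rw [h₁.rinv u g hu, h₂.rinv u g hu]
  refine ⟨?_, hrinv, ⟨R₀, hrep⟩, ?_, ?_⟩
  · intro u g hu
    show f₁ (u * g) + f₂ (u * g) = f₁ g + f₂ g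
    rw [h₁.linv u g hu, h₂.linv u g hu]
  · refine (h₁.fin.union h₂.fin).subset ?_
    intro m hm
    rw [Function.mem_support] at hm
    by_contra hcon
    rw [Set.mem_union, Function.mem_support, Function.mem_support] at hcon
    push Not at hcon
    apply hm
    rw [hcon.1, hcon.2, add_zero]
  · intro Φ z₁ z₂ hz hΦ R hR y
    rw [sum_rep_eq263 hrinv hΦ.inv hR hrep y, laur_add263 h₁.fin h₂.fin, add_mul,
      ← h₁.acts Φ z₁ z₂ hz hΦ R₀ hrep₁ y, ← h₂.acts Φ z₁ z₂ hz hΦ R₀ hrep₂ y,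
      ← Finset.sum_add_distrib]
    refine Finset.sum_congr rfl (fun x _ => ?_)
    ring

/-! ## The base case -/

/-- `T_{n,m}`, the indicator function of `InS263 n m`. -/
def Tind263 (n : ℕ) (m : ℤ) (h : GL (Fin 2) k) : ℂ := if InS263 n m h then 1 else 0

/-- `A_{n,m} = (√q)^n 1{m₁, m₂ ≥ m, m₁ + m₂ = n + 2m}`. -/
def Acoef263 (D : ResData k) (n : ℕ) (m : ℤ) (x : ℤ × ℤ) : ℂ :=
  if m ≤ x.1 ∧ m ≤ x.2 ∧ x.1 + x.2 = (n : ℤ) + 2 * m then sq263 D ^ n else 0

/-- The complete homogeneous polynomial `h_n(z₁, z₂)`. -/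
def hom263 (z₁ z₂ : ℂ) (n : ℕ) : ℂ :=
  ∑ p ∈ Finset.HasAntidiagonal.antidiagonal n, z₁ ^ p.1 * z₂ ^ p.2

theorem hom_zero263 (z₁ z₂ : ℂ) : hom263 z₁ z₂ 0 = 1 := by
  simp [hom263]

theorem hom_succ263 (z₁ z₂ : ℂ) (n : ℕ) :
    hom263 z₁ z₂ (n + 1) = z₁ ^ (n + 1) + z₂ * hom263 z₁ z₂ n := by
  unfold hom263
  rw [sum_ad_succ' (fun i j => z₁ ^ i * z₂ ^ j) n, Finset.mul_sum]
  congr 1
  · simp
  · refine Finset.sum_congr rfl (fun p _ => ?_)
    ring

theorem hom_succ_succ263 (z₁ z₂ : ℂ) (n : ℕ) :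
    hom263 z₁ z₂ (n + 2) = (z₁ + z₂) * hom263 z₁ z₂ (n + 1) - z₁ * z₂ * hom263 z₁ z₂ n := by
  rw [hom_succ263 z₁ z₂ (n + 1)]
  have h := hom_succ263 z₁ z₂ n
  linear_combination (-z₁) * h

theorem alpha_eq263 (q : ℕ) (w z₁ z₂ : ℂ) (hw : w ^ 2 = (q : ℂ)) (n : ℕ) :
    alpha (w * (z₁ + z₂)) (z₁ * z₂) q n = w ^ n * hom263 z₁ z₂ n := by
  have key : ∀ n : ℕ, alpha (w * (z₁ + z₂)) (z₁ * z₂) q n = w ^ n * hom263 z₁ z₂ n ∧
      alpha (w * (z₁ + z₂)) (z₁ * z₂) q (n + 1) = w ^ (n + 1) * hom263 z₁ z₂ (n + 1) := by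
    intro n
    induction n with
    | zero =>
      refine ⟨?_, ?_⟩
      · rw [alpha_zero, hom_zero263, pow_zero, one_mul]
      · rw [alpha_one, hom_succ263, hom_zero263]
        ring
    | succ n ih =>
      refine ⟨ih.2, ?_⟩
      rw [alpha_succ_succ, ih.1, ih.2, hom_succ_succ263, ← hw]
      ring
  exact (key n).1

theorem acoef_support263 (D : ResData k) (n : ℕ) (m : ℤ) :
    Function.support (Acoef263 D n m)
      ⊆ ((Finset.HasAntidiagonal.antidiagonal n).image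
          (fun p : ℕ × ℕ => ((m + (p.1 : ℤ), m + (p.2 : ℤ)) : ℤ × ℤ)) : Finset (ℤ × ℤ)) := by
  intro x hx
  rw [Function.mem_support] at hx
  unfold Acoef263 at hx
  split_ifs at hx with hc
  · obtain ⟨h1, h2, h3⟩ := hc
    rw [Finset.mem_coe, Finset.mem_image]
    refine ⟨((x.1 - m).toNat, (x.2 - m).toNat), ?_, ?_⟩
    · rw [Finset.HasAntidiagonal.mem_antidiagonal]
      omega
    · ext
      · simp only
        omega
      · simp only
        omega
  · exact absurd rfl hx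

theorem laur_acoef263 (D : ResData k) (n : ℕ) (m : ℤ) (z₁ z₂ : ℂ) (hz : z₁ * z₂ ≠ 0) :
    laur263 (Acoef263 D n m) z₁ z₂ = (z₁ * z₂) ^ m * (sq263 D ^ n * hom263 z₁ z₂ n) := by
  have hz₁ : z₁ ≠ 0 := left_ne_zero_of_mul hz
  have hz₂ : z₂ ≠ 0 := right_ne_zero_of_mul hz
  unfold laur263
  rw [finsum_eq_sum_of_support_subset _
    ((laur_support263 (Acoef263 D n m) z₁ z₂).trans (acoef_support263 D n m))]
  rw [Finset.sum_image]
  · unfold hom263
    rw [Finset.mul_sum, Finset.mul_sum]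
    refine Finset.sum_congr rfl (fun p hp => ?_)
    rw [Finset.HasAntidiagonal.mem_antidiagonal] at hp
    have hc : m ≤ m + (p.1 : ℤ) ∧ m ≤ m + (p.2 : ℤ) ∧
        m + (p.1 : ℤ) + (m + (p.2 : ℤ)) = (n : ℤ) + 2 * m := by
      refine ⟨by omega, by omega, by omega⟩
    unfold Acoef263
    rw [if_pos hc, zpow_add₀ hz₁, zpow_add₀ hz₂, zpow_natCast, zpow_natCast, mul_zpow]
    ring
  · intro p _ p' _ hpp
    simp only [Prod.mk.injEq] at hpp
    ext
    · omega
    · omega

theorem tind_rinv263 (n : ℕ) (m : ℤ) : IsRInv263 (Tind263 (k := k) n m) := by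
  intro u g hu
  unfold Tind263
  rw [inS_mul_right_iff263 hu]

theorem tind_linv263 (n : ℕ) (m : ℤ) : IsLInv263 (Tind263 (k := k) n m) := by
  intro u g hu
  unfold Tind263
  have h : InS263 n m (u * g) ↔ InS263 n m g := by
    constructor
    · intro hS
      have := inS_mul_left263 hS (inK_inv hu)
      rwa [inv_mul_cancel_left] at this
    · intro hS
      exact inS_mul_left263 hS hu
  rw [h]

theorem tind_rep263 (D : ResData k) (n : ℕ) (m : ℤ) :
    IsRep263 (Tind263 (k := k) n m) ((Res.Jdx263 D n).image (D.fam m)) := by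
  refine ⟨?_, ?_⟩
  · intro h hh h' hh' hK
    obtain ⟨x, hx, rfl⟩ := Finset.mem_image.1 hh
    obtain ⟨x', hx', rfl⟩ := Finset.mem_image.1 hh'
    rw [Res.fam_inj263 D m hx hx' hK]
  · intro g hg
    have hS : InS263 n m g := by
      by_contra hcon
      apply hg
      unfold Tind263
      rw [if_neg hcon]
    obtain ⟨x, hx, hK⟩ := Res.fam_cover263 D m n g hS
    exact ⟨D.fam m x, Finset.mem_image.2 ⟨x, hx, rfl⟩, hK⟩

theorem isSatAlg_tind263 (D : ResData k) (n : ℕ) (m : ℤ) :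
    IsSatAlg263 D (Tind263 n m) (Acoef263 D n m) := by
  refine ⟨tind_linv263 n m, tind_rinv263 n m, ⟨_, tind_rep263 D n m⟩, ?_, ?_⟩
  · exact (Finset.finite_toSet _).subset (acoef_support263 D n m)
  · intro Φ z₁ z₂ hz hΦ R hR y
    rw [sum_rep_eq263 (tind_rinv263 n m) hΦ.inv hR (tind_rep263 D n m) y, Finset.sum_image]
    · have e : ∀ x ∈ Res.Jdx263 D n,
          Tind263 n m (D.fam m x) * Φ (y * D.fam m x) = Φ (y * D.fam m x) := by
        intro x hx
        unfold Tind263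
        rw [if_pos (Res.inS_fam263 D m hx), one_mul]
      rw [Finset.sum_congr rfl e, Res.sum_Jdx_fam263 D Φ (z₁ * z₂) hz hΦ.hS m n y,
        D.Aall_eq Φ _ _ hΦ.inv hΦ.hS hΦ.hT n y, alpha_eq263 _ _ _ _ (sq_sq263 D),
        laur_acoef263 D n m z₁ z₂ hz]
      ring
    · intro x hx x' hx' hxx
      apply Res.fam_inj263 D m hx hx'
      rw [hxx, inv_mul_cancel]
      exact inK_one

end Fermat.Agent.LT.T3.H263

end

end
-- ===== PACK-END LT/T3/H263/SatSys.lean

-- ===== PACK-BEGIN LT/T5/H32/RegularZ.lean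
section





/-!
# Row LT, tower T5, leaf T5.09Z `RegularOfIwahoriZ` — VERBATIM, UNCONDITIONAL (helper32)

OFF-MAIN.  `regularOfIwahoriZ32 s l k : T5.RegularOfIwahoriZ s l k` for EVERY `s : AdelicAut K`,
`l`, `k`, against `LT/T5/SpecZ.lean` (additive to `Spec.lean` v4 f2d97e70).  Requested by the chief
of T1-T7 (helper797, `T7/Reg.lean`): regular support up to a CENTRAL SHIFT at the regular place.

THE PROOF IS THE PROOF OF helper942 (`LT/T5/H942/RegularOfIwahori.lean`, `regularOfIwahori942`),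
copied line by line; only step (c) changes: at `o 0` the norm `N(g)` is
`d · (k₁ diag(c, 1) k₂')` with `c = c₀ / d`, and `tr² / det` does not see the scalar `d`.
-/

set_option autoImplicit false

open IsDedekindDomain NumberField

noncomputable section

namespace Fermat.Agent.LT.T5.H32

open Fermat.Agent.LT.H556.A0 Fermat.Agent.LT.T5 Fermat.Agent.LT.H942 Fermat.Agent.LT.T5.H942

variable {K : Type} [Field K] [NumberField K]

/-- **T5.09Z `RegularOfIwahoriZ`, verbatim and unconditional** (the proof of helper942 for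
T5.09, with the scalar `d` at `o 0` carried through step (c)). -/
theorem regularOfIwahoriZ32 (s : AdelicAut K) (l : ℕ) (k : Subfield K) :
    RegularOfIwahoriZ s l k := by
  classical
  intro hc o C hC ho _hne
  have hl : 0 < l := hc.pos
  -- the compact set `N(C)` and its bounds
  have hC' : IsCompact (normG942 s l '' C) := hC.image (continuous_normG942 s l)
  obtain ⟨S, B, hB, hSB⟩ := exists_bound_of_compact942 hC'
  set O : Finset (HeightOneSpectrum (𝓞 K)) := (Finset.range l).image o with hOdef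
  have hOmem : ∀ v : HeightOneSpectrum (𝓞 K), v ∈ O ↔ ∃ j < l, v = o j := by
    intro v
    rw [hOdef, Finset.mem_image]
    constructor
    · rintro ⟨j, hj, rfl⟩
      exact ⟨j, Finset.mem_range.1 hj, rfl⟩
    · rintro ⟨j, hj, rfl⟩
      exact ⟨j, Finset.mem_range.2 hj, rfl⟩
  set M : ℝ := (B + 3) ^ (Module.finrank ℚ K + (S ∪ O).card) with hMdef
  have hM1 : 1 ≤ M := one_le_pow₀ (by linarith)
  have hMpos : 0 < M := lt_of_lt_of_le one_pos hM1
  -- the threshold
  obtain ⟨ρ, hρ0, hρ1, hρ⟩ := exists_norm_base942 (o 0)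
  obtain ⟨m₀, hm₀⟩ := exists_pow_lt_of_lt_one (inv_pos.2 hMpos) hρ1
  refine ⟨max m₀ 1, fun m hm φ hφ x δ z hz hne0 => ?_⟩
  have hm1 : 1 ≤ m := le_trans (le_max_right _ _) hm
  have hmm₀ : m₀ ≤ m := le_trans (le_max_left _ _) hm
  have hρm : ρ ^ m < M⁻¹ :=
    lt_of_le_of_lt (pow_le_pow_of_le_one hρ0.le hρ1.le hmm₀) hm₀
  have hρm1 : ρ ^ m < 1 := pow_lt_one₀ hρ0.le hρ1 (by omega)
  -- the point of the support
  set g : G K := x⁻¹ * ratG δ * s.onG x * z with hgdef
  obtain ⟨⟨k₁, k₂, c₀, d, hk₁, hk₂, hd0', hcv₀, hgc⟩, hiw, h, hhC, hagree⟩ := hφ g hne0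
  set c : (o 0).adicCompletion K := c₀ / d with hcdef
  have hcv : Valued.v c = WithZero.exp (-(m : ℤ)) := by
    rw [hcdef, map_div₀, hcv₀, mul_div_assoc, div_self ((map_ne_zero _).2 hd0'), mul_one]
  have hcn : ‖c‖ = ρ ^ m := hρ c m hcv
  -- (a) the norm
  obtain ⟨Z, hZ, hN⟩ := normG_twisted942 s l k hc x δ hz
  set γ : GL (Fin 2) K := s.normUpTo l δ with hγdef
  set t : K := (γ : Matrix (Fin 2) (Fin 2) K).trace ^ 2 / (γ : Matrix (Fin 2) (Fin 2) K).det
    with htdef
  have hfr : ∀ v : HeightOneSpectrum (𝓞 K), FinitePlace.mk v t =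
      ‖(finComp v (normG942 s l g)).trace‖ ^ 2 / ‖(finComp v (normG942 s l g)).det‖ := by
    intro v
    rw [hN, ratio_mul_scalar_fin942 v _ hZ, ← finitePlace_ratio_eq942 v γ x]
  have hir : ∀ w : InfinitePlace K, w t =
      ‖(infComp w (normG942 s l g)).trace‖ ^ 2 / ‖(infComp w (normG942 s l g)).det‖ := by
    intro w
    rw [hN, ratio_mul_scalar_inf942 w _ hZ, ← infinitePlace_ratio_eq942 w γ x]
  -- (b) outside the orbit
  have hag := agreeOutside_normG942 s l k hc o ho hagree l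
  obtain ⟨hint, hbf, hbi⟩ := hSB (normG942 s l h) ⟨h, hhC, rfl⟩
  have hnotO : ∀ v : HeightOneSpectrum (𝓞 K), v ∉ O →
      v ∉ {v : HeightOneSpectrum (𝓞 K) | ∃ j < l, v = o j} := fun v hv hv' =>
    hv ((hOmem v).2 hv')
  have hout : ∀ v : HeightOneSpectrum (𝓞 K), v ∉ O → v ∉ S → FinitePlace.mk v t ≤ 1 := by
    intro v hvO hvS
    rw [hfr v, hag.2 v (hnotO v hvO), div_le_one (norm_det_finComp_pos942 v _)]
    exact regular_adelic_of_integral942 v _ (hint v hvS).1 (hint v hvS).2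
  have hSb : ∀ v ∈ S, v ∉ O → FinitePlace.mk v t ≤ B := by
    intro v _ hvO
    rw [hfr v, hag.2 v (hnotO v hvO), div_le_iff₀ (norm_det_finComp_pos942 v _)]
    exact hbf v
  have hinfb : ∀ w : InfinitePlace K, w t ≤ B := by
    intro w
    rw [hir w, hag.1 w, div_le_iff₀ (norm_det_infComp_pos942 w _)]
    exact hbi w
  -- (c) at `o 0`
  have hu : FinitePlace.mk (o 0) t = (ρ ^ m)⁻¹ := by
    have hsplit : normG942 s l g = g * s.onG (normG942 s (l - 1) g) := by
      have e : l = (l - 1) + 1 := by omega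
      conv_lhs => rw [e]
      rfl
    have hR := inIwahori_onG_normG942 s l k hc o ho g hiw
    have hk₂R : InIwahori (o 0) (k₂ * s.onG (normG942 s (l - 1) g)) :=
      inIwahori_mul942 (o 0) hk₂ hR
    have hdiag : (!![c₀, 0; 0, d] : Matrix (Fin 2) (Fin 2) ((o 0).adicCompletion K))
        = d • Matrix.diagonal ![c, 1] := by
      ext i j
      fin_cases i <;> fin_cases j <;> simp [hcdef, mul_div_cancel₀ _ hd0']
    have hcomp : finComp (o 0) (normG942 s l g)
        = d • (finComp (o 0) k₁ * Matrix.diagonal ![c, 1]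
          * finComp (o 0) (k₂ * s.onG (normG942 s (l - 1) g))) := by
      rw [hsplit, finComp_mul942, hgc, hdiag, finComp_mul942]
      simp only [Matrix.mul_smul, Matrix.smul_mul, Matrix.mul_assoc]
    have hc1 : Valued.v c < 1 := by
      rw [← Valued.toNormedField.norm_lt_one_iff, hcn]
      exact hρm1
    have hI₁ := isIwahoriMat_of_inIwahori942 (o 0) hk₁
    have hI₂ := isIwahoriMat_of_inIwahori942 (o 0) hk₂R
    have htr1 : ‖(finComp (o 0) k₁ * Matrix.diagonal ![c, 1]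
        * finComp (o 0) (k₂ * s.onG (normG942 s (l - 1) g))).trace‖ = 1 :=
      (norm_eq_one_iff_valued942 (o 0) _).2 (iwahori_regular_trace hI₁ hI₂ hc1)
    have hdet1 : ‖(finComp (o 0) k₁ * Matrix.diagonal ![c, 1]
        * finComp (o 0) (k₂ * s.onG (normG942 s (l - 1) g))).det‖ = ‖c‖ := by
      rw [Matrix.det_mul, Matrix.det_mul, Matrix.det_diagonal, norm_mul, norm_mul,
        (norm_eq_one_iff_valued942 (o 0) _).2 hI₁.det,
        (norm_eq_one_iff_valued942 (o 0) _).2 hI₂.det]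
      simp [Fin.prod_univ_two]
    have hdn : ‖d‖ ≠ 0 := norm_ne_zero_iff.2 hd0'
    rw [hfr (o 0), hcomp, Matrix.trace_smul, Matrix.det_smul, Fintype.card_fin, smul_eq_mul,
      norm_mul, norm_mul, norm_pow, htr1, hdet1, hcn]
    field_simp
  -- (d) the characteristic polynomial of `γ` has no root in `k`
  have hτσ := trace_normUpTo_fixed942 s l k hc δ
  have hdσ := det_normUpTo_fixed942 s l k hc δ
  have hτk : (γ : Matrix (Fin 2) (Fin 2) K).trace ∈ k := (hc.fixed _).2 hτσ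
  have hdk : (γ : Matrix (Fin 2) (Fin 2) K).det ∈ k := (hc.fixed _).2 hdσ
  have hd0 : (γ : Matrix (Fin 2) (Fin 2) K).det ≠ 0 := (Matrix.isUnits_det_units γ).ne_zero
  refine isEllRegOver_of_no_root942 k γ ⟨_, hτk⟩ ⟨_, hdk⟩ rfl rfl fun lam hlam => ?_
  -- a root `lam ∈ k`
  have hlamK : (lam : K) ^ 2 - (γ : Matrix (Fin 2) (Fin 2) K).trace * (lam : K)
      + (γ : Matrix (Fin 2) (Fin 2) K).det = 0 := by
    have := congrArg (Subtype.val : k → K) hlam
    simpa using this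
  set τ : K := (γ : Matrix (Fin 2) (Fin 2) K).trace with hτdef
  set d : K := (γ : Matrix (Fin 2) (Fin 2) K).det with hddef
  have hx0 : (lam : K) ≠ 0 := by
    intro h0
    apply hd0
    rw [h0] at hlamK
    simpa using hlamK
  have hprod : (lam : K) * (τ - lam) = d := by linear_combination -hlamK
  have hy0 : τ - (lam : K) ≠ 0 := by
    intro h0
    apply hd0
    rw [← hprod, h0, mul_zero]
  set r : K := (τ - lam) / lam with hrdef
  have hr0 : r ≠ 0 := div_ne_zero hy0 hx0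
  have hrk : r ∈ k := k.div_mem (k.sub_mem hτk lam.2) lam.2
  have hrσ : s.σ r = r := (hc.fixed r).1 hrk
  have hrσ' : s.σ r⁻¹ = r⁻¹ := by rw [map_inv₀, hrσ]
  have htr : t = r + 2 + r⁻¹ := by
    rw [htdef, ← hprod, hrdef]
    field_simp
    ring
  have hcore := orbit_regular_core942 (o 0) O S hB hr0
    (fun v hv => by
      obtain ⟨j, -, rfl⟩ := (hOmem v).1 hv
      exact ⟨one_lt_orbit942 s o ho hrσ j, one_lt_orbit942 s o ho hrσ' j⟩)
    (fun v hvO hvS => by rw [← htr]; exact hout v hvO hvS)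
    (fun v hv hvO => by rw [← htr]; exact hSb v hv hvO)
    (fun w => by rw [← htr]; exact hinfb w)
  rw [← htr, hu] at hcore
  -- `(ρ^m)⁻¹ ≤ M` contradicts `ρ^m < M⁻¹`
  have hρmpos : 0 < ρ ^ m := pow_pos hρ0 m
  have : M⁻¹ ≤ ρ ^ m := by
    rw [inv_le_comm₀ hMpos hρmpos]
    exact hcore
  exact absurd hρm (not_lt.2 this)

/-- The frame of T4. -/
theorem regularOfIwahoriZ_id32 : RegularOfIwahoriZ (AdelicAut.id K) 1 ⊤ :=
  regularOfIwahoriZ32 _ _ _

/-- T5.09 again, from T5.09Z. -/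
theorem regularOfIwahori32 (s : AdelicAut K) (l : ℕ) (k : Subfield K) : RegularOfIwahori s l k :=
  regularOfIwahori_of_Z (regularOfIwahoriZ32 s l k)

end Fermat.Agent.LT.T5.H32

end

end
-- ===== PACK-END LT/T5/H32/RegularZ.lean

-- ===== PACK-BEGIN LT/T5/H74/KerCusp.lean
section




/-!
# Row LT, tower T5, sub-leaf T5.04b `KerCuspC74` (helper74): THE KERNEL IS CUSPIDAL

OFF-MAIN.  `kerCuspC_T1_74 : T1.T1Out K → KerCuspC74 𝔫 τ` : for an Eisenstein-killing test function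
`φ` (operator form of T5/Spec v4) the function `x ↦ K_φ(x, z)` has vanishing constant term, for
EVERY `z`.

Proof.  Let `c(y) = ∫_D K_φ(n(t) g, y) dt`.  For `β ∈ C_c(GL₂(𝔸_K))` with periodisation `ψ_β`,
`∫_G c β = ∫_D (∫_G K_φ(n(t) g, y) β(y) dy) dt = ∫_D R(φ)ψ_β(n(t) g) dt = 0`
(Fubini, `Rconv_per74`, `cuspidal_Rconv74`).  `c` is continuous, so `c = 0`
(take `β = conj(c) χ`, `χ` a bump; a Haar measure is positive on open sets).
-/

set_option autoImplicit false

open IsDedekindDomain NumberField MeasureTheory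
open scoped MatrixGroups ComplexConjugate Pointwise ENNReal

noncomputable section

namespace Fermat.Agent.LT.T5.H74

open Fermat.Agent.LT.H556.A0 Fermat.Agent.LT.T5

attribute [local instance] Fermat.Agent.LT.T5.instMeasurableSpaceG

variable {K : Type} [Field K] [NumberField K]

/-- A continuous function which is orthogonal to every continuous function of compact support
vanishes (Haar measure on a locally compact group). -/
theorem eq_zero_of_forall_integral_mul74 [LocallyCompactSpace (G K)]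
    (μ : Measure (G K)) [μ.IsHaarMeasure] (c : G K → ℂ) (hc : Continuous c)
    (h : ∀ β : G K → ℂ, Continuous β → HasCompactSupport β → ∫ y, c y * β y ∂μ = 0)
    (y₀ : G K) : c y₀ = 0 := by
  have : BorelSpace (G K) := borelSpaceG74
  obtain ⟨χ, hχ1, -, hχc, hχ01⟩ := exists_continuous_one_zero_of_isCompact
    (isCompact_singleton (x := y₀)) isClosed_empty (Set.disjoint_empty _)
  -- the real function `|c|² χ`
  set u : G K → ℝ := fun y => Complex.normSq (c y) * χ y with hu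
  have hucont : Continuous u := (Complex.continuous_normSq.comp hc).mul χ.continuous
  have hucs : HasCompactSupport u := hχc.mul_left
  have hu0 : 0 ≤ u := fun y => mul_nonneg (Complex.normSq_nonneg _) (hχ01 y).1
  have huint : Integrable u μ := hucont.integrable_of_hasCompactSupport hucs
  have hβ := h (fun y => conj (c y) * ((χ y : ℝ) : ℂ))
    ((Complex.continuous_conj.comp hc).mul (Complex.continuous_ofReal.comp χ.continuous))
    (HasCompactSupport.mul_left
      (hχc.comp_left (g := fun t : ℝ => (t : ℂ)) Complex.ofReal_zero))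
  have he : ∀ y : G K, c y * (conj (c y) * ((χ y : ℝ) : ℂ)) = ((u y : ℝ) : ℂ) := by
    intro y
    rw [← mul_assoc, Complex.mul_conj, hu]
    push_cast
    rfl
  rw [integral_congr_ae (Filter.Eventually.of_forall he), integral_complex_ofReal] at hβ
  have hint0 : ∫ y, u y ∂μ = 0 := by exact_mod_cast hβ
  have hae : u =ᵐ[μ] 0 := (integral_eq_zero_iff_of_nonneg hu0 huint).1 hint0
  have hzero : u = 0 := (Continuous.ae_eq_iff_eq μ hucont continuous_const).1 hae
  have hy : u y₀ = 0 := congrFun hzero y₀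
  rw [hu] at hy
  simp only at hy
  rw [hχ1 (Set.mem_singleton y₀)] at hy
  simpa using hy

section Main

variable [MeasurableSpace (Adl K)] [BorelSpace (Adl K)]
  [LocallyCompactSpace (Adl K)] [SecondCountableTopology (Adl K)]
  [LocallyCompactSpace (G K)] [SecondCountableTopology (G K)]

/-- **The kernel of an Eisenstein-killing function is cuspidal in the first variable**
(integral form, with the topological facts as instances). -/
theorem integral_ker0_unip_eq_zero74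
    (hcoc : ∃ C : Set (Adl K), IsCompact C ∧ ∀ x : Adl K, ∃ ξ : K,
      x - algebraMap K (Adl K) ξ ∈ C)
    (μ : Measure (G K)) [μ.IsHaarMeasure] [μ.IsMulRightInvariant]
    (r : G K) (hr : IsRayGen r) (hfin : LocFin74 r)
    (φ : G K → ℂ) (hφ : Continuous φ) (hφc : HasCompactSupport φ) (hek : IsEK μ φ)
    (μ' : Measure (Adl K)) [μ'.IsAddHaarMeasure] (D : Set (Adl K))
    (hD : IsAddFundamentalDomain ((algebraMap K (Adl K)).toAddMonoidHom.range) D μ')
    (g z : G K) :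
    ∫ t in D, ker0 r φ (T3.unip K t * g) z ∂μ' = 0 := by
  have : BorelSpace (G K) := borelSpaceG74
  have hcen : ∀ g : G K, r * g = g * r := isRayGen_central74 r hr
  have hDfin : μ' D < ⊤ := T3.H237.measure_fundDom_lt_top237 K μ' hcoc D hD
  have : IsFiniteMeasure (μ'.restrict D) := ⟨by rw [Measure.restrict_apply_univ]; exact hDfin⟩
  obtain ⟨M, -, hM⟩ := norm_ker0_unip_le74 hcoc r hcen hfin φ hφ hφc g
  have hcontK : Continuous fun p : Adl K × G K => ker0 r φ (T3.unip K p.1 * g) p.2 := by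
    have h := continuous_ker0_74 r hcen hfin φ hφ hφc
    have h2 : Continuous fun p : Adl K × G K => ((T3.unip K p.1 * g, p.2) : G K × G K) :=
      Continuous.prodMk ((continuous_unip74.comp continuous_fst).mul continuous_const)
        continuous_snd
    show Continuous ((fun q : G K × G K => ker0 r φ q.1 q.2) ∘
      fun p : Adl K × G K => ((T3.unip K p.1 * g, p.2) : G K × G K))
    exact Continuous.comp h h2
  -- the constant term as a function of the second variable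
  set c : G K → ℂ := fun y => ∫ t in D, ker0 r φ (T3.unip K t * g) y ∂μ' with hc
  have hccont : Continuous c := by
    refine continuous_of_dominated (bound := fun _ => M) ?_ ?_ ?_ ?_
    · intro y
      have h2 : Continuous fun t : Adl K => ((t, y) : Adl K × G K) :=
        Continuous.prodMk continuous_id continuous_const
      have h3 : Continuous ((fun p : Adl K × G K => ker0 r φ (T3.unip K p.1 * g) p.2) ∘
          fun t : Adl K => ((t, y) : Adl K × G K)) := hcontK.comp h2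
      exact h3.aestronglyMeasurable
    · intro y
      exact Filter.Eventually.of_forall fun t => hM t y
    · exact integrable_const _
    · refine Filter.Eventually.of_forall fun t => ?_
      exact continuous_ker0_right74 r hcen hfin φ hφ hφc (T3.unip K t * g)
  refine eq_zero_of_forall_integral_mul74 μ c hccont ?_ z
  intro β hβ hβc
  have hβi : Integrable β μ := hβ.integrable_of_hasCompactSupport hβc
  -- Fubini
  have hint : Integrable
      (Function.uncurry fun (t : Adl K) (y : G K) => ker0 r φ (T3.unip K t * g) y * β y)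
      ((μ'.restrict D).prod μ) := by
    have hb : Integrable (fun p : Adl K × G K => (fun _ : Adl K => M) p.1 * (fun y => ‖β y‖) p.2)
        ((μ'.restrict D).prod μ) :=
      Integrable.mul_prod (integrable_const M) hβi.norm
    refine hb.mono' ?_ (Filter.Eventually.of_forall ?_)
    · exact (hcontK.mul (hβ.comp continuous_snd)).aestronglyMeasurable
    · rintro ⟨t, y⟩
      show ‖ker0 r φ (T3.unip K t * g) y * β y‖ ≤ M * ‖β y‖
      rw [norm_mul]
      exact mul_le_mul_of_nonneg_right (hM t y) (norm_nonneg _)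
  have h1 : ∫ y, c y * β y ∂μ
      = ∫ y, (∫ t in D, ker0 r φ (T3.unip K t * g) y * β y ∂μ') ∂μ := by
    refine integral_congr_ae (Filter.Eventually.of_forall fun y => ?_)
    exact (integral_mul_const (β y) (fun t => ker0 r φ (T3.unip K t * g) y)).symm
  rw [h1, ← integral_integral_swap hint]
  have h2 : ∀ t : Adl K, ∫ y, ker0 r φ (T3.unip K t * g) y * β y ∂μ
      = Rconv μ φ (per74 r β) (T3.unip K t * g) :=
    fun t => (Rconv_per74 μ r hcen hfin φ β hφ hφc hβ hβc (T3.unip K t * g)).symm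
  rw [integral_congr_ae (Filter.Eventually.of_forall h2)]
  exact cuspidal_Rconv74 hcoc μ φ hφ hφc hek r hr (per74 r β)
    (isAutFn_per74 r hcen hfin β hβ hβc) (per_mul_ray74 r β) μ' D hD g

end Main

/-- **T5.04b `KerCuspC74`** from the interface Props of T1 (in the form of T3). -/
theorem kerCuspC_of74 (𝔫 : Ideal (𝓞 K)) (τ : G K → ℂ) (hloc : T3.InLocCompC K)
    (hlat : T3.InLatticeC K) (hfin : LocFinC74 K) : KerCuspC74 𝔫 τ := by
  obtain ⟨⟨hlcA, -, hscA⟩, hlcG, -, hscG⟩ := hloc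
  intro μ F r hF hr φ hφ hek _ z _ μ' hμ' D hD n hn g
  letI : MeasurableSpace (Adl K) := borel (Adl K)
  have : BorelSpace (Adl K) := ⟨rfl⟩
  have hn' : n = T3.unip K := eq_unip74 n hn
  subst hn'
  have := hF.haar
  have := isMulRightInvariant_of_frame74 μ F hF
  exact integral_ker0_unip_eq_zero74 hlat.2.2 μ r hr (hfin r hr) φ hφ.cont hφ.supp hek μ' D hD g z

/-- **T5.04b `KerCuspC74`**, from the output of T1. -/
theorem kerCuspC_T1_74 (𝔫 : Ideal (𝓞 K)) (τ : G K → ℂ) (h : T1.T1Out K) : KerCuspC74 𝔫 τ :=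
  kerCuspC_of74 𝔫 τ h.locComp h.adeleLattice (locFinC_of_T1_74 h.adNorm h.discrete)

/-- **T5.04 `LeafRange`** from the output of T1 and the uniform row bound ALONE. -/
theorem leafRange_rowBound74 (𝔫 : Ideal (𝓞 K)) (τ : G K → ℂ) (h : T1.T1Out K)
    (hrow : RowBoundC74 𝔫 τ) : LeafRange 𝔫 τ :=
  leafRange_T1_74 𝔫 τ h hrow (kerCuspC_T1_74 𝔫 τ h)

end Fermat.Agent.LT.T5.H74

end

end
-- ===== PACK-END LT/T5/H74/KerCusp.lean

-- ===== PACK-BEGIN LT/T7/H385/WhitMeas.lean
section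



/-!
# Row LT, tower T7, node T7.14 `RigidC`, leaf T7.14.6a-F.3 `WhitMeasC57` (registry 1913)

OFF-MAIN (helper385).  `whitMeasC385 : T1.LocCompC K → H57.WhitMeasC57 K`, VERBATIM Prop of
`LT/T7/H57/FoldSpec.lean` (helper57@bf22be140, sha256 cb77c17e).

Proof.  `g ↦ W_φ(g) = ∫_D φ(n(x) g) ψ̄(x) dν(x)` is CONTINUOUS on `GL₂(𝔸_K)` (dominated
convergence: `φ` continuous and bounded, `ν D < ∞`, `GL₂(𝔸_K)` first countable by `T1.LocCompC`),
`y ↦ diag(y, 1)` is continuous on the ideles, and a continuous function is Borel measurable.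
-/

set_option autoImplicit false
set_option linter.style.haveILetI false
set_option linter.unusedVariables false

open AutomorphicForm IsDedekindDomain NumberField Filter Topology MeasureTheory
open scoped ComplexConjugate ENNReal

noncomputable section

namespace Fermat.Agent.LT.T7.H385

open Fermat.Agent.LT.H556 Fermat.Agent.LT.H556.A0 Fermat.Agent.LT.T7 Fermat.Agent.LT.T7.Rigid

attribute [local instance] Fermat.Agent.LT.T5.instMeasurableSpaceG

variable (K : Type) [Field K] [NumberField K]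

/-- `x ↦ n(x)` is continuous. -/
theorem continuous_unip385 : Continuous (Fermat.Agent.LT.T3.unip K) := by
  rw [Units.continuous_iff]
  constructor
  · refine continuous_matrix fun i j => ?_
    fin_cases i <;> fin_cases j
    · exact continuous_const
    · exact continuous_id
    · exact continuous_const
    · exact continuous_const
  · refine continuous_matrix fun i j => ?_
    fin_cases i <;> fin_cases j
    · exact continuous_const
    · exact continuous_neg
    · exact continuous_const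
    · exact continuous_const

/-- `y ↦ diag(y, 1)` is continuous on the ideles. -/
theorem continuous_dgA385 : Continuous (dgA : (Adl K)ˣ → G K) := by
  rw [Units.continuous_iff]
  constructor
  · refine continuous_matrix fun i j => ?_
    fin_cases i <;> fin_cases j
    · exact Units.continuous_val
    · exact continuous_const
    · exact continuous_const
    · exact continuous_const
  · refine continuous_matrix fun i j => ?_
    fin_cases i <;> fin_cases j
    · exact Units.continuous_coe_inv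
    · exact continuous_const
    · exact continuous_const
    · exact continuous_const

/-- The Whittaker function of a bounded continuous function is continuous on `GL₂(𝔸_K)`. -/
theorem continuous_whit385 [FirstCountableTopology (G K)]
    (ψ : AddChar (Adl K) Circle) (hψ : Continuous ψ)
    (ν : @Measure (Adl K) (borel (Adl K))) (D : Set (Adl K))
    (hD : MeasurableSet[borel (Adl K)] D) (hfin : ν D < ⊤)
    (φ : G K → ℂ) (hφ : Continuous φ) (hb : ∃ C : ℝ, ∀ g : G K, ‖φ g‖ ≤ C) :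
    Continuous fun g : G K => @whit K _ _ (borel (Adl K)) ψ ν D φ g := by
  letI : MeasurableSpace (Adl K) := borel (Adl K)
  haveI : BorelSpace (Adl K) := ⟨rfl⟩
  obtain ⟨C, hC⟩ := hb
  unfold whit
  refine continuous_of_dominated (bound := fun _ => C) ?_ ?_ ?_ ?_
  · intro g
    have hc : Continuous fun x : Adl K =>
        φ (Fermat.Agent.LT.T3.unip K x * g) * conj ((ψ x : Circle) : ℂ) := by
      refine Continuous.mul ?_ ?_
      · exact hφ.comp ((continuous_unip385 K).mul continuous_const)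
      · exact Complex.continuous_conj.comp (continuous_subtype_val.comp hψ)
    exact hc.aestronglyMeasurable
  · intro g
    refine Filter.Eventually.of_forall fun x => ?_
    rw [norm_mul, RCLike.norm_conj, Circle.norm_coe, mul_one]
    exact hC _
  · exact integrableOn_const hfin.ne
  · refine Filter.Eventually.of_forall fun x => ?_
    refine Continuous.mul ?_ continuous_const
    exact hφ.comp (continuous_const.mul continuous_id)

/-- **T7.14.6a-F.3 `WhitMeasC57`** from the local compactness package of T1. -/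
theorem whitMeasC385 (hT1 : Fermat.Agent.LT.T1.LocCompC K) : H57.WhitMeasC57 K := by
  obtain ⟨-, -, -, hsc⟩ := hT1
  haveI : SecondCountableTopology (G K) := hsc
  intro ψ hψ ν D _ hD hfin φ hφ hb
  letI : MeasurableSpace (Adl K)ˣ := borel (Adl K)ˣ
  haveI : BorelSpace (Adl K)ˣ := ⟨rfl⟩
  have h1 := continuous_whit385 K ψ hψ.cont ν D hD hfin φ hφ hb
  exact (h1.comp (continuous_dgA385 K)).measurable

end Fermat.Agent.LT.T7.H385

end

end
-- ===== PACK-END LT/T7/H385/WhitMeas.lean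

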