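import Mathlib
import Fermat.Agent.Pack.LT2.E16L0
import Fermat.Agent.Pack.LT2.E16L2
import Fermat.Agent.Pack.LT2.E9L3
import Fermat.Agent.Pack.LT2.E16L3
import Fermat.Agent.Pack.LT2.E2L1
import Fermat.Agent.Pack.LT2.E3L2
import Fermat.Agent.Pack.LT2.E0L3
import Fermat.Agent.Pack.LT2.E15L2

set_option linter.all false

-- ===== PACK-BEGIN LT/A2/H254/Meas.lean
section


/-!
# Row LT, tower A2, leaf A2.03.8.5.11 `H254.MeasC254` (helper254)

Abstract unfolding: a Borel measure `μT` on a topological group, invariant under the left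
translations by the elements of a measurable subgroup `T1 = ⨆_{i ∈ ℤ} ρ^i U`; then
`∫_{T1} f = ∑_i ∫_U f(ρ^i u) du` for `f` integrable on `T1`.

Mathlib only (the import is needed for the statement).  OFF-MAIN, no `sorry`.
-/

set_option autoImplicit false
set_option linter.style.haveILetI false

open MeasureTheory

noncomputable section

namespace Fermat.Agent.LT.A2.H254

/-- **A2.03.8.5.11**: the abstract unfolding. -/
theorem measC254 : MeasC254 := by
  intro G _ _ _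
  letI : MeasurableSpace G := borel G
  haveI : BorelSpace G := ⟨rfl⟩
  intro μT T1 U ρ hT1 hU hUsub hmul hinv hρ hinvμ hdec f hf
  -- powers of `ρ` lie in `T1`
  have hone : (1 : G) ∈ T1 := by
    have := hmul ρ hρ ρ⁻¹ (hinv ρ hρ)
    rwa [mul_inv_cancel] at this
  have hpowN : ∀ k : ℕ, ρ ^ k ∈ T1 := by
    intro k
    induction k with
    | zero => rw [pow_zero]; exact hone
    | succ k ih => rw [pow_succ]; exact hmul _ ih _ hρ
  have hpow : ∀ i : ℤ, ρ ^ i ∈ T1 := by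
    intro i
    rcases Int.eq_nat_or_neg i with ⟨k, rfl | rfl⟩
    · rw [zpow_natCast]; exact hpowN k
    · rw [zpow_neg, zpow_natCast]; exact hinv _ (hpowN k)
  -- the pieces
  let P : ℤ → Set G := fun i => (fun u => ρ ^ i * u) '' U
  have hPeq : ∀ i : ℤ, P i = (fun m => ρ ^ (-i) * m) ⁻¹' U := by
    intro i
    ext m
    constructor
    · rintro ⟨u, hu, rfl⟩
      show ρ ^ (-i) * (ρ ^ i * u) ∈ U
      rw [← mul_assoc, ← zpow_add, neg_add_cancel, zpow_zero, one_mul]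
      exact hu
    · intro hm
      refine ⟨ρ ^ (-i) * m, hm, ?_⟩
      show ρ ^ i * (ρ ^ (-i) * m) = m
      rw [← mul_assoc, ← zpow_add, add_neg_cancel, zpow_zero, one_mul]
  have hcont : ∀ a : G, Continuous fun m : G => a * m := fun a =>
    continuous_const.mul continuous_id
  have hPmeas : ∀ i : ℤ, MeasurableSet (P i) := by
    intro i
    rw [hPeq i]
    exact (hcont _).measurable hU
  have hPdisj : Pairwise (Function.onFun Disjoint P) := by
    intro i i' hii'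
    rw [Function.onFun, Set.disjoint_left]
    intro m hm hm'
    rw [hPeq i] at hm
    rw [hPeq i'] at hm'
    have hmT : m ∈ T1 := by
      have h1 : ρ ^ (-i) * m ∈ T1 := hUsub hm
      have h2 := hmul _ (hpow i) _ h1
      rwa [← mul_assoc, ← zpow_add, add_neg_cancel, zpow_zero, one_mul] at h2
    obtain ⟨i₀, _, huniq⟩ := hdec m hmT
    exact hii' ((huniq i hm).trans (huniq i' hm').symm)
  have hPunion : (⋃ i : ℤ, P i) = T1 := by
    ext m
    rw [Set.mem_iUnion]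
    constructor
    · rintro ⟨i, u, hu, rfl⟩
      exact hmul _ (hpow i) _ (hUsub hu)
    · intro hm
      obtain ⟨i, hi, _⟩ := hdec m hm
      exact ⟨i, by rw [hPeq i]; exact hi⟩
  -- the unfolding over the union
  have hsum : HasSum (fun i : ℤ => ∫ m in P i, f m ∂μT) (∫ m in ⋃ i : ℤ, P i, f m ∂μT) :=
    hasSum_integral_iUnion hPmeas hPdisj (by rw [hPunion]; exact hf)
  rw [hPunion] at hsum
  -- change of variables in every piece
  have hpiece : ∀ i : ℤ, ∫ m in P i, f m ∂μT = ∫ u in U, f (ρ ^ i * u) ∂μT := by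
    intro i
    have hemb : MeasurableEmbedding (fun u : G => ρ ^ i * u) :=
      (Homeomorph.mulLeft (ρ ^ i)).measurableEmbedding
    have hmap : Measure.map (fun u : G => ρ ^ i * u) μT = μT := by
      ext S hS
      rw [Measure.map_apply (hcont _).measurable hS]
      have himg : (fun u : G => ρ ^ i * u) ⁻¹' S = (fun m => ρ ^ (-i) * m) '' S := by
        ext m
        constructor
        · intro hm
          refine ⟨ρ ^ i * m, hm, ?_⟩
          show ρ ^ (-i) * (ρ ^ i * m) = m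
          rw [← mul_assoc, ← zpow_add, neg_add_cancel, zpow_zero, one_mul]
        · rintro ⟨s, hs, rfl⟩
          show ρ ^ i * (ρ ^ (-i) * s) ∈ S
          rw [← mul_assoc, ← zpow_add, add_neg_cancel, zpow_zero, one_mul]
          exact hs
      rw [himg]
      exact hinvμ _ (hpow (-i)) S
    have hmp : MeasurePreserving (fun u : G => ρ ^ i * u) μT μT :=
      ⟨(hcont _).measurable, hmap⟩
    exact hmp.setIntegral_image_emb hemb f U
  have e : (fun i : ℤ => ∫ u in U, f (ρ ^ i * u) ∂μT) = fun i : ℤ => ∫ m in P i, f m ∂μT :=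
    funext fun i => (hpiece i).symm
  rw [e]
  exact hsum

end Fermat.Agent.LT.A2.H254

end

end
-- ===== PACK-END LT/A2/H254/Meas.lean

-- ===== PACK-BEGIN LT/A2/H293/TorusLev.lean
section




/-!
# Row LT, tower A2, leaf A2.03.1.1.09 `LocBadOfRepC` (helper293) -- part 4: the level group of
the torus and the initial vector

OFF-MAIN.  A field `k` valued in `ℤᵐ⁰`, `t, n ∈ k` with `|t|, |n| ≤ exp e`, `M ≥ 1`:

* `SM293 k M e = {(a, b) : a ∈ 1 + ϖ^M 𝒪, b ∈ ϖ^{M+e} 𝒪}` (a subgroup of `L^×` in the coordinates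
  `1, ω`);
* `tlev293 t n M e` = the matrices `a + b M_ω`, `(a, b) ∈ SM293`;
* `phi293 k M e` = the indicator function of `SM293`.
-/

set_option autoImplicit false

open Filter Topology

noncomputable section

namespace Fermat.Agent.LT.A2.H293

open Fermat.Agent.LT.T6 Fermat.Agent.LT.H129 Fermat.Agent.LT.A2 Fermat.Agent.LT.A2.WX467

variable {k : Type} [Field k] [Valued k Γ₀]

/-- `{(a, b) : a ∈ 1 + ϖ^M 𝒪, b ∈ ϖ^{M+e} 𝒪}`. -/
def SM293 (k : Type) [Field k] [Valued k Γ₀] (M e : ℕ) : Set (k × k) :=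
  {ξ | ξ.1 - 1 ∈ ball293 k M ∧ ξ.2 ∈ ball293 k (M + e)}

/-- The level group of the torus. -/
def tlev293 (t n : k) (M e : ℕ) : Set (Matrix (Fin 2) (Fin 2) k) :=
  {κ | ∃ ξ : k × k, ξ ∈ SM293 k M e ∧ κ = torMat t n ξ.1 ξ.2}

open scoped Classical in
/-- The indicator function of `SM293`. -/
def phi293 (k : Type) [Field k] [Valued k Γ₀] (M e : ℕ) (ξ : k × k) : ℂ :=
  if ξ ∈ SM293 k M e then 1 else 0

theorem phi_of_mem293 {M e : ℕ} {ξ : k × k} (h : ξ ∈ SM293 k M e) : phi293 k M e ξ = 1 := by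
  unfold phi293
  rw [if_pos h]

theorem phi_of_not_mem293 {M e : ℕ} {ξ : k × k} (h : ξ ∉ SM293 k M e) : phi293 k M e ξ = 0 := by
  unfold phi293
  rw [if_neg h]

theorem mem_of_phi_ne_zero293 {M e : ℕ} {ξ : k × k} (h : phi293 k M e ξ ≠ 0) :
    ξ ∈ SM293 k M e := by
  by_contra hcon
  exact h (phi_of_not_mem293 hcon)

theorem one_zero_mem_SM293 (M e : ℕ) : ((1 : k), (0 : k)) ∈ SM293 k M e := by
  refine ⟨?_, zero_mem_ball293 _⟩
  show (1 : k) - 1 ∈ ball293 k M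
  rw [sub_self]
  exact zero_mem_ball293 _

section Group

variable {t n : k} {M e : ℕ} (ht : Valued.v t ≤ WithZero.exp (e : ℤ))
  (hn : Valued.v n ≤ WithZero.exp (e : ℤ))

include ht hn

theorem SM_mul293 {a b a' b' : k} (h : (a, b) ∈ SM293 k M e) (h' : (a', b') ∈ SM293 k M e) :
    (a * a' - n * b * b', a * b' + b * a' + t * b * b') ∈ SM293 k M e := by
  obtain ⟨h1, h2⟩ := h
  obtain ⟨h1', h2'⟩ := h'
  have h1 : a - 1 ∈ ball293 k M := h1
  have h2 : b ∈ ball293 k (M + e) := h2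
  have h1' : a' - 1 ∈ ball293 k M := h1'
  have h2' : b' ∈ ball293 k (M + e) := h2'
  have va : Valued.v a ≤ 1 := val_le_one_of_sub293 h1
  have va' : Valued.v a' ≤ 1 := val_le_one_of_sub293 h1'
  have vb' : Valued.v b' ≤ 1 := val_le_one_of_mem293 h2'
  have htb : t * b ∈ ball293 k M := scale_mem_ball293 ht h2
  have hnb : n * b ∈ ball293 k M := scale_mem_ball293 hn h2
  refine ⟨?_, ?_⟩
  · show a * a' - n * b * b' - 1 ∈ ball293 k M
    have e1 : a * a' - n * b * b' - 1 = (a - 1) * (a' - 1) + (a - 1) + (a' - 1) - n * b * b' := by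
      ring
    rw [e1]
    refine sub_mem_ball293 (add_mem_ball293 (add_mem_ball293 ?_ h1) h1') ?_
    · exact mul_mem_ball293 (val_le_one_of_mem293 h1) h1'
    · exact mul_mem_ball293' hnb vb'
  · show a * b' + b * a' + t * b * b' ∈ ball293 k (M + e)
    refine add_mem_ball293 (add_mem_ball293 ?_ ?_) ?_
    · exact mul_mem_ball293 va h2'
    · exact mul_mem_ball293' h2 va'
    · exact mul_mem_ball293 (val_le_one_of_mem293 htb) h2'

theorem SM_qf293 {ξ : k × k} (h : ξ ∈ SM293 k M e) : qfL t n ξ - 1 ∈ ball293 k M := by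
  obtain ⟨h1, h2⟩ := h
  have va : Valued.v ξ.1 ≤ 1 := val_le_one_of_sub293 h1
  have vb : Valued.v ξ.2 ≤ 1 := val_le_one_of_mem293 h2
  have htb : t * ξ.2 ∈ ball293 k M := scale_mem_ball293 ht h2
  have hnb : n * ξ.2 ∈ ball293 k M := scale_mem_ball293 hn h2
  have e1 : qfL t n ξ - 1 = (ξ.1 + 1) * (ξ.1 - 1) + ξ.1 * (t * ξ.2) + ξ.2 * (n * ξ.2) := by
    unfold qfL
    ring
  rw [e1]
  refine add_mem_ball293 (add_mem_ball293 ?_ ?_) ?_
  · refine mul_mem_ball293 ?_ h1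
    refine le_trans (Valuation.map_add _ _ _) (max_le va ?_)
    rw [map_one]
  · exact mul_mem_ball293 va htb
  · exact mul_mem_ball293 vb hnb

theorem SM_qf_val293 (hM : 1 ≤ M) {ξ : k × k} (h : ξ ∈ SM293 k M e) :
    Valued.v (qfL t n ξ) = 1 :=
  val_eq_one_of_sub293 hM (SM_qf293 ht hn h)

theorem SM_qf_ne293 (hM : 1 ≤ M) {ξ : k × k} (h : ξ ∈ SM293 k M e) : qfL t n ξ ≠ 0 :=
  ne_zero_of_sub293 hM (SM_qf293 ht hn h)

theorem SM_inv293 (hM : 1 ≤ M) {ξ : k × k} (h : ξ ∈ SM293 k M e) :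
    ((ξ.1 + t * ξ.2) / qfL t n ξ, -ξ.2 / qfL t n ξ) ∈ SM293 k M e := by
  have hQ := SM_qf293 ht hn h
  have hQ1 := SM_qf_val293 ht hn hM h
  have hQ0 := SM_qf_ne293 ht hn hM h
  obtain ⟨h1, h2⟩ := h
  have htb : t * ξ.2 ∈ ball293 k M := scale_mem_ball293 ht h2
  have vQi : Valued.v (qfL t n ξ)⁻¹ ≤ 1 := by rw [map_inv₀, hQ1, inv_one]
  refine ⟨?_, ?_⟩
  · show (ξ.1 + t * ξ.2) / qfL t n ξ - 1 ∈ ball293 k M
    have e1 : (ξ.1 + t * ξ.2) / qfL t n ξ - 1
        = ((ξ.1 - 1) + t * ξ.2 - (qfL t n ξ - 1)) * (qfL t n ξ)⁻¹ := by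
      field_simp
      ring
    rw [e1]
    exact mul_mem_ball293' (sub_mem_ball293 (add_mem_ball293 h1 htb) hQ) vQi
  · show -ξ.2 / qfL t n ξ ∈ ball293 k (M + e)
    rw [div_eq_mul_inv]
    exact mul_mem_ball293' (neg_mem_ball293 h2) vQi

omit ht hn in
theorem torMat_inv293 {a b : k} (hQ : qfL t n (a, b) ≠ 0) :
    (torMat t n a b)⁻¹ = torMat t n ((a + t * b) / qfL t n (a, b)) (-b / qfL t n (a, b)) := by
  apply Matrix.inv_eq_right_inv
  rw [torMat_mul293, ← torMat_one_zero293 t n]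
  have hq : qfL t n (a, b) = a ^ 2 + t * a * b + n * b ^ 2 := rfl
  have hQ' : a ^ 2 + t * a * b + n * b ^ 2 ≠ 0 := hQ
  have e1 : a * ((a + t * b) / qfL t n (a, b)) - n * b * (-b / qfL t n (a, b)) = 1 := by
    have e : a * ((a + t * b) / qfL t n (a, b)) - n * b * (-b / qfL t n (a, b))
        = (a ^ 2 + t * a * b + n * b ^ 2) / qfL t n (a, b) := by ring
    rw [e, ← hq, div_self hQ]
  have e2 : a * (-b / qfL t n (a, b)) + b * ((a + t * b) / qfL t n (a, b))
      + t * b * (-b / qfL t n (a, b)) = 0 := by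
    ring
  rw [e1, e2]

omit ht hn in
theorem det_torMat_qf293 (a b : k) : (torMat t n a b).det = qfL t n (a, b) := by
  rw [det_torMat293]
  rfl

theorem tlev_tor293 (hM : 1 ≤ M) {κ : Matrix (Fin 2) (Fin 2) k} (h : κ ∈ tlev293 t n M e) :
    InTorL t n κ ∧ κ.det ≠ 0 := by
  obtain ⟨ξ, hξ, rfl⟩ := h
  refine ⟨⟨ξ.1, ξ.2, rfl⟩, ?_⟩
  rw [det_torMat_qf293]
  exact SM_qf_ne293 ht hn hM hξ

theorem tlev_det_val293 (hM : 1 ≤ M) {κ : Matrix (Fin 2) (Fin 2) k}
    (h : κ ∈ tlev293 t n M e) : Valued.v κ.det = 1 := by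
  obtain ⟨ξ, hξ, rfl⟩ := h
  rw [det_torMat_qf293]
  exact SM_qf_val293 ht hn hM hξ

theorem tlev_mul293 {κ κ' : Matrix (Fin 2) (Fin 2) k} (h : κ ∈ tlev293 t n M e)
    (h' : κ' ∈ tlev293 t n M e) : κ * κ' ∈ tlev293 t n M e := by
  obtain ⟨ξ, hξ, rfl⟩ := h
  obtain ⟨ξ', hξ', rfl⟩ := h'
  exact ⟨_, SM_mul293 ht hn (a := ξ.1) (b := ξ.2) (a' := ξ'.1) (b' := ξ'.2) hξ hξ',
    torMat_mul293 t n _ _ _ _⟩

theorem tlev_inv293 (hM : 1 ≤ M) {κ : Matrix (Fin 2) (Fin 2) k} (h : κ ∈ tlev293 t n M e) :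
    κ⁻¹ ∈ tlev293 t n M e := by
  obtain ⟨ξ, hξ, rfl⟩ := h
  exact ⟨_, SM_inv293 ht hn hM hξ, torMat_inv293 (SM_qf_ne293 ht hn hM hξ)⟩

omit ht hn in
theorem tlev_one293 : (1 : Matrix (Fin 2) (Fin 2) k) ∈ tlev293 t n M e :=
  ⟨(1, 0), one_zero_mem_SM293 M e, (torMat_one_zero293 t n).symm⟩

theorem tlev_pow293 {κ : Matrix (Fin 2) (Fin 2) k} (h : κ ∈ tlev293 t n M e) (j : ℕ) :
    κ ^ j ∈ tlev293 t n M e := by
  induction j with
  | zero => rw [pow_zero]; exact tlev_one293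
  | succ j ih => rw [pow_succ]; exact tlev_mul293 ht hn ih h

/-- The entries of `κ - 1`, `κ ∈ tlev293`, are in `ϖ^M 𝒪`. -/
theorem tlev_entries293 {κ : Matrix (Fin 2) (Fin 2) k} (h : κ ∈ tlev293 t n M e)
    (i j : Fin 2) : (κ - 1) i j ∈ ball293 k M := by
  obtain ⟨ξ, ⟨h1, h2⟩, rfl⟩ := h
  have h1 : ξ.1 - 1 ∈ ball293 k M := h1
  have h2 : ξ.2 ∈ ball293 k (M + e) := h2
  have htb : t * ξ.2 ∈ ball293 k M := scale_mem_ball293 ht h2
  have hnb : n * ξ.2 ∈ ball293 k M := scale_mem_ball293 hn h2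
  have hb : ξ.2 ∈ ball293 k M := ball_anti293 (Nat.le_add_right M e) h2
  unfold torMat
  fin_cases i <;> fin_cases j
  · simpa using h1
  · simpa using neg_mem_ball293 hnb
  · simpa using hb
  · have : ξ.1 + t * ξ.2 - 1 ∈ ball293 k M := by
      have e1 : ξ.1 + t * ξ.2 - 1 = (ξ.1 - 1) + t * ξ.2 := by ring
      rw [e1]
      exact add_mem_ball293 h1 htb
    simpa using this

theorem actL_mem293 {κ : Matrix (Fin 2) (Fin 2) k} (h : κ ∈ tlev293 t n M e) {ξ : k × k}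
    (hξ : ξ ∈ SM293 k M e) : actL κ ξ ∈ SM293 k M e := by
  obtain ⟨ζ, hζ, rfl⟩ := h
  rw [actL_torMat293]
  exact SM_mul293 ht hn (a := ζ.1) (b := ζ.2) (a' := ξ.1) (b' := ξ.2) hζ hξ

/-- The initial vector is invariant under the level group of the torus. -/
theorem phi_inv293 (hM : 1 ≤ M) {κ : Matrix (Fin 2) (Fin 2) k} (h : κ ∈ tlev293 t n M e)
    (ξ : k × k) : phi293 k M e (actL κ⁻¹ ξ) = phi293 k M e ξ := by
  have hdet : IsUnit κ.det := (tlev_tor293 ht hn hM h).2.isUnit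
  by_cases hξ : ξ ∈ SM293 k M e
  · rw [phi_of_mem293 hξ, phi_of_mem293 (actL_mem293 ht hn (tlev_inv293 ht hn hM h) hξ)]
  · rw [phi_of_not_mem293 hξ, phi_of_not_mem293]
    intro hcon
    apply hξ
    have := actL_mem293 ht hn h hcon
    rw [← actL_mul293, Matrix.mul_nonsing_inv _ hdet, actL_one293] at this
    exact this

omit ht hn in
theorem smul_eq_actL293 (t n p : k) (ξ : k × k) : p • ξ = actL (torMat t n p 0) ξ := by
  rw [actL_torMat293]
  refine Prod.ext ?_ ?_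
  · simp
  · simp

theorem phi_smul293 (hM : 1 ≤ M) {p : k} (hp : p - 1 ∈ ball293 k M) (ξ : k × k) :
    phi293 k M e (p • ξ) = phi293 k M e ξ := by
  have hp0 : p ≠ 0 := ne_zero_of_sub293 hM hp
  have hmem : torMat t n p⁻¹ 0 ∈ tlev293 t n M e :=
    ⟨(p⁻¹, 0), ⟨inv_sub_one_mem293 hM hp, zero_mem_ball293 _⟩, rfl⟩
  have hinv : (torMat t n p⁻¹ 0)⁻¹ = torMat t n p 0 := by
    apply Matrix.inv_eq_right_inv
    rw [torMat_mul293, ← torMat_one_zero293 t n]
    have e1 : p⁻¹ * p - n * 0 * 0 = 1 := by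
      rw [inv_mul_cancel₀ hp0]; ring
    have e2 : p⁻¹ * 0 + 0 * p + t * 0 * 0 = (0 : k) := by ring
    rw [e1, e2]
  have := phi_inv293 ht hn hM hmem ξ
  rw [hinv, ← smul_eq_actL293] at this
  exact this

/-- `supp Φ ∩ T¹ (1, 0) ⊆ Tlev`. -/
theorem phi_orb293 (hM : 1 ≤ M) {κ : Matrix (Fin 2) (Fin 2) k} (hκ : InTorL t n κ)
    (hdet : κ.det = 1) (h : phi293 k M e (actL κ⁻¹ (1, 0)) ≠ 0) : κ ∈ tlev293 t n M e := by
  obtain ⟨a, b, rfl⟩ := hκ
  have hQ : qfL t n (a, b) = 1 := by rw [← det_torMat_qf293]; exact hdet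
  have hQ0 : qfL t n (a, b) ≠ 0 := by rw [hQ]; exact one_ne_zero
  have hmem := mem_of_phi_ne_zero293 h
  rw [torMat_inv293 hQ0, actL_torMat293] at hmem
  have hinv : (torMat t n a b)⁻¹ ∈ tlev293 t n M e := by
    rw [torMat_inv293 hQ0]
    refine ⟨(_, _), ?_, rfl⟩
    simpa using hmem
  have := tlev_inv293 ht hn hM hinv
  rw [Matrix.nonsing_inv_nonsing_inv _ (by rw [hdet]; exact isUnit_one)] at this
  exact this

end Group

/-- The level group contains a neighbourhood of `1` in the torus. -/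
theorem tlev_nhds293 (t n : k) (M e : ℕ) :
    ∃ U ∈ 𝓝 (1 : Matrix (Fin 2) (Fin 2) k), ∀ κ ∈ U, InTorL t n κ → κ ∈ tlev293 t n M e := by
  refine ⟨{κ | κ 0 0 - 1 ∈ ball293 k M ∧ κ 1 0 ∈ ball293 k (M + e)}, ?_, ?_⟩
  · have hc1 : Continuous fun κ : Matrix (Fin 2) (Fin 2) k => κ 0 0 - 1 :=
      (continuous_id.matrix_elem 0 0).sub continuous_const
    have hc2 : Continuous fun κ : Matrix (Fin 2) (Fin 2) k => κ 1 0 :=
      continuous_id.matrix_elem 1 0
    have ho : IsOpen {κ : Matrix (Fin 2) (Fin 2) k |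
        κ 0 0 - 1 ∈ ball293 k M ∧ κ 1 0 ∈ ball293 k (M + e)} :=
      ((isOpen_ball293 M).preimage hc1).inter ((isOpen_ball293 (M + e)).preimage hc2)
    refine ho.mem_nhds ⟨?_, ?_⟩
    · show (1 : Matrix (Fin 2) (Fin 2) k) 0 0 - 1 ∈ ball293 k M
      simp [zero_mem_ball293]
    · show (1 : Matrix (Fin 2) (Fin 2) k) 1 0 ∈ ball293 k (M + e)
      simp [zero_mem_ball293]
  · rintro κ ⟨h1, h2⟩ ⟨a, b, rfl⟩
    refine ⟨(a, b), ⟨?_, ?_⟩, rfl⟩
    · simpa [torMat] using h1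
    · simpa [torMat] using h2

theorem isClosed_SM293 (M e : ℕ) : IsClosed (SM293 k M e) := by
  have hc1 : Continuous fun ξ : k × k => ξ.1 - 1 := continuous_fst.sub continuous_const
  exact ((isClosed_ball293 M).preimage hc1).inter ((isClosed_ball293 (M + e)).preimage
    continuous_snd)

theorem isOpen_SM293 (M e : ℕ) : IsOpen (SM293 k M e) := by
  have hc1 : Continuous fun ξ : k × k => ξ.1 - 1 := continuous_fst.sub continuous_const
  exact ((isOpen_ball293 M).preimage hc1).inter ((isOpen_ball293 (M + e)).preimage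
    continuous_snd)

theorem isCompact_SM293 (hO : IsCompact (ball293 k 0)) (M e : ℕ) : IsCompact (SM293 k M e) := by
  refine IsCompact.of_isClosed_subset (hO.prod hO) (isClosed_SM293 M e) ?_
  rintro ξ ⟨h1, h2⟩
  refine ⟨?_, ?_⟩
  · show Valued.v ξ.1 ≤ WithZero.exp (-((0 : ℕ) : ℤ))
    have := val_le_one_of_sub293 h1
    simpa using this
  · show Valued.v ξ.2 ≤ WithZero.exp (-((0 : ℕ) : ℤ))
    have := val_le_one_of_mem293 h2
    simpa using this

theorem isLocallyConstant_phi293 (M e : ℕ) : IsLocallyConstant (phi293 k M e) := by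
  rw [IsLocallyConstant.iff_exists_open]
  intro ξ
  by_cases hξ : ξ ∈ SM293 k M e
  · refine ⟨SM293 k M e, isOpen_SM293 M e, hξ, fun y hy => ?_⟩
    rw [phi_of_mem293 hy, phi_of_mem293 hξ]
  · refine ⟨(SM293 k M e)ᶜ, (isClosed_SM293 M e).isOpen_compl, hξ, fun y hy => ?_⟩
    rw [phi_of_not_mem293 hy, phi_of_not_mem293 hξ]

theorem hasCompactSupport_phi293 (hO : IsCompact (ball293 k 0)) (M e : ℕ) :
    HasCompactSupport (phi293 k M e) :=
  HasCompactSupport.intro (isCompact_SM293 hO M e) fun _ hξ => phi_of_not_mem293 hξ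

theorem phi_pos293 (M e : ℕ) :
    (∀ ξ : k × k, 0 ≤ (phi293 k M e ξ).re ∧ (phi293 k M e ξ).im = 0) ∧
      phi293 k M e (1, 0) ≠ 0 := by
  refine ⟨fun ξ => ?_, ?_⟩
  · by_cases hξ : ξ ∈ SM293 k M e
    · rw [phi_of_mem293 hξ]; simp
    · rw [phi_of_not_mem293 hξ]; simp
  · rw [phi_of_mem293 (one_zero_mem_SM293 M e)]
    exact one_ne_zero

end Fermat.Agent.LT.A2.H293

end

end
-- ===== PACK-END LT/A2/H293/TorusLev.lean

-- ===== PACK-BEGIN LT/A2/H312/LocNontriv.lean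
section



/-!
# Row LT, tower A2, leaf A2.03.1.1.10.09 `CX798.LocNontrivC` (helper312)

OFF-MAIN.  `locNontrivC312 : CX798.LocNontrivC`: a nontrivial continuous character of `𝔸_K`
trivial on `K` is nontrivial on `K_u`, `u` an infinite place (strong approximation, from the
compactness of `𝔸_K / K` = `T1.AdeleLatticeC` and Minkowski's theorem).
-/

set_option autoImplicit false
set_option linter.unusedSectionVars false

open IsDedekindDomain NumberField Filter Topology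
open scoped NNReal
open Fermat.Agent.LT.H556.A0

noncomputable section

namespace Fermat.Agent.LT.A2.H312

variable {K : Type} [Field K] [NumberField K]

open Classical in
/-- the part of an adele at the infinite place `u` -/
def atU (u : InfinitePlace K) (r : Adl K) : Adl K :=
  ((fun w => if w = u then r.1 w else 0 : InfiniteAdeleRing K), (0 : FiniteAdeleRing (𝓞 K) K))

open Classical in
theorem atU_inf_self (u : InfinitePlace K) (r : Adl K) : (atU u r).1 u = r.1 u := by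
  show (if u = u then r.1 u else 0) = r.1 u
  rw [if_pos rfl]

open Classical in
theorem atU_inf_of_ne {u w : InfinitePlace K} (h : w ≠ u) (r : Adl K) : (atU u r).1 w = 0 := by
  show (if w = u then r.1 w else 0) = 0
  rw [if_neg h]

theorem atU_fin (u : InfinitePlace K) (r : Adl K) (v : HeightOneSpectrum (𝓞 K)) :
    (atU u r).2 v = 0 := rfl

theorem atU_atInf (u : InfinitePlace K) (r : Adl K) :
    Fermat.Agent.LT.A2.WL.AdlAtInf u (atU u r) :=
  ⟨fun _ hw => atU_inf_of_ne hw r, fun v => atU_fin u r v⟩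

theorem sub_inf (w : InfinitePlace K) (x y : Adl K) : (x - y).1 w = x.1 w - y.1 w := rfl

theorem sub_fin (v : HeightOneSpectrum (𝓞 K)) (x y : Adl K) : (x - y).2 v = x.2 v - y.2 v := rfl

/-- convergence to zero in the adeles of a sequence which is integral at every finite place -/
theorem tendsto_zero_of_components312 (y : ℕ → Adl K)
    (hint : ∀ n (v : HeightOneSpectrum (𝓞 K)), ‖(y n).2 v‖ ≤ 1)
    (hinf : ∀ w : InfinitePlace K, Tendsto (fun n => (y n).1 w) atTop (𝓝 0))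
    (hfin : ∀ v : HeightOneSpectrum (𝓞 K), Tendsto (fun n => (y n).2 v) atTop (𝓝 0)) :
    Tendsto y atTop (𝓝 0) := by
  have h1 : Tendsto (fun n => (y n).1) atTop (𝓝 (0 : InfiniteAdeleRing K)) := by
    refine tendsto_pi_nhds.2 fun w => ?_
    exact hinf w
  -- the finite part through the structure map
  let y' : ℕ → ((v : HeightOneSpectrum (𝓞 K)) →
      ((v.adicCompletionIntegers K : Set (v.adicCompletion K)) : Type)) :=
    fun n v => ⟨(y n).2 v, by
      have := hint n v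
      rw [Valued.toNormedField.norm_le_one_iff] at this
      exact (HeightOneSpectrum.mem_adicCompletionIntegers (𝓞 K) K v).2 this⟩
  let z₀ : (v : HeightOneSpectrum (𝓞 K)) →
      ((v.adicCompletionIntegers K : Set (v.adicCompletion K)) : Type) :=
    fun v => ⟨0, zero_mem _⟩
  have h2' : Tendsto y' atTop (𝓝 z₀) := by
    refine tendsto_pi_nhds.2 fun v => ?_
    rw [tendsto_subtype_rng]
    exact hfin v
  have hcont := (RestrictedProduct.isEmbedding_structureMap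
    (R := fun v : HeightOneSpectrum (𝓞 K) => v.adicCompletion K)
    (A := fun v : HeightOneSpectrum (𝓞 K) =>
      (v.adicCompletionIntegers K : Set (v.adicCompletion K)))
    (𝓕 := Filter.cofinite)).continuous
  have h2'' := (hcont.tendsto z₀).comp h2'
  have e1 : (fun n => (y n).2) = (RestrictedProduct.structureMap
      (fun v : HeightOneSpectrum (𝓞 K) => v.adicCompletion K)
      (fun v : HeightOneSpectrum (𝓞 K) =>
        (v.adicCompletionIntegers K : Set (v.adicCompletion K))) Filter.cofinite) ∘ y' := by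
    funext n
    apply RestrictedProduct.ext
    intro v
    rfl
  have e2 : (RestrictedProduct.structureMap
      (fun v : HeightOneSpectrum (𝓞 K) => v.adicCompletion K)
      (fun v : HeightOneSpectrum (𝓞 K) =>
        (v.adicCompletionIntegers K : Set (v.adicCompletion K))) Filter.cofinite) z₀
      = (0 : FiniteAdeleRing (𝓞 K) K) := by
    apply RestrictedProduct.ext
    intro v
    rfl
  have h2 : Tendsto (fun n => (y n).2) atTop (𝓝 (0 : FiniteAdeleRing (𝓞 K) K)) := by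
    rw [e1, ← e2]
    exact h2''
  exact h1.prodMk_nhds h2

/-- **A2.03.1.1.10.09 `LocNontrivC`.** -/
theorem locNontrivC312 : Fermat.Agent.LT.A2.CX798.LocNontrivC := by
  intro K _ _ ψ u hT hψ
  by_contra hcon
  push Not at hcon
  obtain ⟨x₀, hx₀⟩ := hψ.nontriv
  apply hx₀
  obtain ⟨_, _, C, hC, hcov⟩ := hT.adeleLattice
  have hseq : ∀ n : ℕ, ∃ y : Adl K, ψ x₀ = ψ y ∧
      (∀ w : InfinitePlace K, ‖y.1 w‖ ≤ 1 / ((n : ℝ) + 1)) ∧
      ∀ v : HeightOneSpectrum (𝓞 K), ‖y.2 v‖ ≤ nrmF v ((n.factorial : ℕ) : 𝓞 K) := by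
    intro n
    have hε : (0 : ℝ) < 1 / ((n : ℝ) + 1) := by positivity
    obtain ⟨k, hk1, hk2⟩ := strong_approx312 hC hcov u hε (factorial_ne_zero312 (K := K) n) x₀
    refine ⟨(x₀ - algebraMap K (Adl K) k) - atU u (x₀ - algebraMap K (Adl K) k), ?_, ?_, ?_⟩
    · have e : x₀ = algebraMap K (Adl K) k
          + (((x₀ - algebraMap K (Adl K) k) - atU u (x₀ - algebraMap K (Adl K) k))
            + atU u (x₀ - algebraMap K (Adl K) k)) := by
        abel
      conv_lhs => rw [e]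
      rw [hψ.map_add, hψ.map_add, hψ.triv, hcon _ (atU_atInf u _), one_mul, mul_one]
    · intro w
      rw [sub_inf]
      by_cases hw : w = u
      · subst hw
        rw [atU_inf_self, sub_self, norm_zero]
        exact hε.le
      · rw [atU_inf_of_ne hw, sub_zero]
        exact (hk1 w hw).le
    · intro v
      rw [sub_fin, atU_fin, sub_zero]
      exact hk2 v
  choose y hy1 hy2 hy3 using hseq
  have hlim : Tendsto y atTop (𝓝 0) := by
    apply tendsto_zero_of_components312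
    · intro n v
      exact le_trans (hy3 n v) (nrmF_le_one v _)
    · intro w
      exact squeeze_zero_norm (fun n => hy2 n w) tendsto_one_div_add_atTop_nhds_zero_nat
    · intro v
      exact squeeze_zero_norm (fun n => hy3 n v) (nrmF_factorial_tendsto312 v)
  have h1 : Tendsto (fun n => ψ (y n)) atTop (𝓝 (ψ 0)) := (hψ.cont.tendsto 0).comp hlim
  have h2 : (fun n => ψ (y n)) = fun _ => ψ x₀ := funext fun n => (hy1 n).symm
  rw [h2] at h1
  have h3 : ψ x₀ = ψ 0 := tendsto_nhds_unique tendsto_const_nhds h1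
  have h0 : ψ 0 = 1 := by
    have := hψ.triv 0
    rwa [map_zero] at this
  rw [h3, h0]

end Fermat.Agent.LT.A2.H312

end
end
-- ===== PACK-END LT/A2/H312/LocNontriv.lean

-- ===== PACK-BEGIN LT/A2/H314/Decomp.lean
section



/-!
# Row LT, tower A2, leaf A2.03.8.5.8 `H254.DecompC254` (helper314): CLOSED

OFF-MAIN.  `decompC314 : H254.DecompC254`, verbatim and unconditional (and the spare
`torGroupC314 : H254.TorGroupC254`).

Spec: `LT/A2/H254/IntSpec.lean` (helper254@ddb43b08e, sha256 e654c419, byte-identical copy) and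
its closure.  The local theorem is `local_decomp314` (`LT/A2/H314/TorGL.lean`, Mathlib only):
the hypothesis `ninv` of the split pair is not used (it follows from `t² - 4n` being a unit).

`ρ = μ μ̄⁻¹ ∈ T¹`: `det μ = det μ̄` as ideles (both are `ϖ` at `v` and `1` elsewhere).
`ρ^(-i) m ∈ U ⇔ (ρ^(-i) m)_v ∈ GL₂(𝒪_v)`, and `(ρ^(-i) m)_v = (M M̄⁻¹)^(-i) X`.
-/

set_option autoImplicit false

open IsDedekindDomain NumberField

noncomputable section

namespace Fermat.Agent.LT.A2.H314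

open Fermat.Agent.LT.H556 Fermat.Agent.LT.H556.A0 Fermat.Agent.LT.H129
open Fermat.Agent.LT.A2 Fermat.Agent.LT.A2.H142 Fermat.Agent.LT.A2.H254

variable {K : Type} [Field K] [NumberField K]

theorem torMat_eq314 {R : Type*} [CommRing R] (t n a b : R) :
    torMat t n a b = torM314 t n a b := rfl

theorem inTorus_iff314 (t n : K) (m : G K) :
    InTorus t n m ↔ m ∈ torSub314 (algebraMap K (Adl K) t) (algebraMap K (Adl K) n) :=
  Iff.rfl

theorem evF_algebraMap314 (v : HeightOneSpectrum (𝓞 K)) (x : K) :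
    evF129 v (algebraMap K (Adl K) x) = algebraMap K (v.adicCompletion K) x := rfl

/-- The component at `v` of an element of the torus lies in the local torus. -/
theorem finComp_mem_torSub314 (v : HeightOneSpectrum (𝓞 K)) {t n : K} {m : G K}
    (h : InTorus t n m) :
    finCompHom129 v m ∈ torSub314 (algebraMap K (v.adicCompletion K) t)
      (algebraMap K (v.adicCompletion K) n) := by
  obtain ⟨a, b, hab⟩ := h
  refine ⟨evF129 v a, evF129 v b, ?_⟩
  rw [coe_finCompHom129_map, hab, torMat_eq314, torM314_map, evF_algebraMap314,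
    evF_algebraMap314]

/-- The determinant of the component at `v`. -/
theorem det_finComp314 (v : HeightOneSpectrum (𝓞 K)) (g : G K) :
    (finComp v g).det = evF129 v ((Matrix.GeneralLinearGroup.det g : (Adl K)ˣ) : Adl K) := by
  rw [← coe_finCompHom129, coe_finCompHom129_map, Matrix.GeneralLinearGroup.val_det_apply,
    RingHom.map_det]
  rfl

/-- The determinant of the component at the infinite place `w`. -/
theorem det_infComp314 (w : InfinitePlace K) (g : G K) :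
    ((infCompHom129 w g : GL (Fin 2) w.Completion) : Matrix (Fin 2) (Fin 2) w.Completion).det
      = evI129 w ((Matrix.GeneralLinearGroup.det g : (Adl K)ˣ) : Adl K) := by
  rw [coe_infCompHom129_map, Matrix.GeneralLinearGroup.val_det_apply, RingHom.map_det]
  rfl

/-- Two elements supported at `v` with the same determinant at `v` have the same determinant. -/
theorem det_eq_of_local314 {v : HeightOneSpectrum (𝓞 K)} {g h : G K} (hg : IsLocalAtFin v g)
    (hh : IsLocalAtFin v h) (hdet : (finComp v g).det = (finComp v h).det) :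
    Matrix.GeneralLinearGroup.det g = Matrix.GeneralLinearGroup.det h := by
  apply Units.ext
  apply adele_ext129
  · intro w
    have h1 := det_infComp314 w g
    have h2 := det_infComp314 w h
    rw [(trivAtInf_iff129 w g).mp (hg.1 w)] at h1
    rw [(trivAtInf_iff129 w h).mp (hh.1 w)] at h2
    rw [evI129_apply] at h1 h2
    rw [← h1, ← h2]
  · intro v'
    by_cases hv : v' = v
    · subst hv
      have h1 := det_finComp314 v' g
      have h2 := det_finComp314 v' h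
      rw [evF129_apply] at h1 h2
      rw [← h1, ← h2, hdet]
    · have h1 := det_finComp314 v' g
      have h2 := det_finComp314 v' h
      rw [← coe_finCompHom129, (trivAtFin_iff129 v' g).mp (hg.2 v' hv)] at h1
      rw [← coe_finCompHom129, (trivAtFin_iff129 v' h).mp (hh.2 v' hv)] at h2
      rw [evF129_apply] at h1 h2
      rw [← h1, ← h2]

/-- The norm-one torus is closed under products. -/
theorem inTorus1_mul314 {t n : K} {a b : G K} (ha : InTorus1 t n a) (hb : InTorus1 t n b) :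
    InTorus1 t n (a * b) :=
  ⟨(inTorus_iff314 t n _).mpr (mul_mem ((inTorus_iff314 t n a).mp ha.1)
    ((inTorus_iff314 t n b).mp hb.1)), by rw [map_mul, ha.2, hb.2, one_mul]⟩

/-- The norm-one torus is closed under inverses. -/
theorem inTorus1_inv314 {t n : K} {a : G K} (ha : InTorus1 t n a) : InTorus1 t n a⁻¹ :=
  ⟨(inTorus_iff314 t n _).mpr (inv_mem ((inTorus_iff314 t n a).mp ha.1)),
    by rw [map_inv, ha.2, inv_one]⟩

/-- The norm-one torus is closed under integral powers. -/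
theorem inTorus1_zpow314 {t n : K} {a : G K} (ha : InTorus1 t n a) (i : ℤ) :
    InTorus1 t n (a ^ i) :=
  ⟨(inTorus_iff314 t n _).mpr (zpow_mem ((inTorus_iff314 t n a).mp ha.1) i),
    by rw [map_zpow, ha.2, one_zpow]⟩

/-- Integrality at `v` in terms of the valuation. -/
theorem isIntegralAt_iff314 (v : HeightOneSpectrum (𝓞 K)) (g : G K) :
    IsIntegralAt v g ↔ IsIntM314 (Valued.v : Valuation (v.adicCompletion K) _)
      ((finCompHom129 v g : GL (Fin 2) (v.adicCompletion K)) :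
        Matrix (Fin 2) (Fin 2) (v.adicCompletion K)) :=
  Iff.rfl

/-- **A2.03.8.5.8 DECOMP**: `H254.DecompC254`, verbatim and unconditional. -/
theorem decompC314 : DecompC254 := by
  intro K _ _ t n v ht hn hdisc ϖ hϖ μ μb hp
  have hρ : InTorus1 t n (μ * μb⁻¹) := by
    refine ⟨(inTorus_iff314 t n _).mpr (mul_mem ((inTorus_iff314 t n μ).mp hp.tor)
      (inv_mem ((inTorus_iff314 t n μb).mp hp.torb))), ?_⟩
    rw [map_mul, map_inv, det_eq_of_local314 hp.loc hp.locb (by rw [hp.det, hp.detb]),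
      mul_inv_cancel]
  refine ⟨hρ, fun m hm => ?_⟩
  have hdisc' : Valued.v ((algebraMap K (v.adicCompletion K) t) ^ 2
      - 4 * algebraMap K (v.adicCompletion K) n) = 1 := by
    have e : algebraMap K (v.adicCompletion K) (t ^ 2 - 4 * n)
        = (algebraMap K (v.adicCompletion K) t) ^ 2
          - 4 * algebraMap K (v.adicCompletion K) n := by
      rw [map_sub, map_pow, map_mul, map_ofNat]
    rw [← e]
    exact hdisc
  have hXdet : ((finCompHom129 v m : GL (Fin 2) (v.adicCompletion K)) :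
      Matrix (Fin 2) (Fin 2) (v.adicCompletion K)).det = 1 := by
    rw [coe_finCompHom129, det_finComp314, hm.2, Units.val_one, map_one]
  have hloc := local_decomp314 (val := (Valued.v : Valuation (v.adicCompletion K) _))
    ht hn hdisc' hϖ (M := finCompHom129 v μ) (Mb := finCompHom129 v μb)
    (X := finCompHom129 v m) (finComp_mem_torSub314 v hp.tor)
    ((isIntegralAt_iff314 v μ).mp hp.int) hp.det hp.mul (finComp_mem_torSub314 v hm.1) hXdet
  refine (existsUnique_congr fun i => ?_).mpr hloc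
  have hmem : InTorus1 t n ((μ * μb⁻¹) ^ (-i) * m) := inTorus1_mul314 (inTorus1_zpow314 hρ _) hm
  have hmap : finCompHom129 v ((μ * μb⁻¹) ^ (-i) * m)
      = (finCompHom129 v μ * (finCompHom129 v μb)⁻¹) ^ (-i) * finCompHom129 v m := by
    rw [map_mul, map_zpow, map_mul, map_inv]
  constructor
  · rintro ⟨_, h1, h2⟩
    rw [isIntegralAt_iff314, hmap] at h1
    rw [isIntegralAt_iff314, map_inv, hmap] at h2
    exact ⟨h1, h2⟩
  · rintro ⟨h1, h2⟩
    refine ⟨hmem, ?_, ?_⟩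
    · rw [isIntegralAt_iff314, hmap]
      exact h1
    · rw [isIntegralAt_iff314, map_inv, hmap]
      exact h2

/-- **A2.03.8.5.6 TOR-GROUP** (spare): `H254.TorGroupC254`, verbatim and unconditional. -/
theorem torGroupC314 : TorGroupC254 :=
  fun _ _ _ _ _ => ⟨fun _ _ ha hb => inTorus1_mul314 ha hb, fun _ ha => inTorus1_inv314 ha⟩

end Fermat.Agent.LT.A2.H314

end

end
-- ===== PACK-END LT/A2/H314/Decomp.lean

-- ===== PACK-BEGIN LT/A2/H333/AxUnip.lean
section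


/-!
# Row LT, tower A2, leaf A2.03.1.1.06.16 `LF54.LeafAxUnip` (helper333)

OFF-MAIN.  Proves `LF54.LeafAxUnip` VERBATIM against `LT/A2/H54/LocFinSpec.lean`
(helper54@26071c838, sha256 8ccd9c5c6ed3304a), for every normed field (`axUnip333`).

`d(δ)⁻¹ n(x) = n(x δ) d(δ)⁻¹`, the left rule `BorelOpP.unip` for `n(x δ)`, and
`Q(m⁻¹ ξ) = Q(ξ) / det m` for `m ∈ T(k)`.
-/

set_option autoImplicit false
set_option linter.unnecessarySeqFocus false

open IsDedekindDomain NumberField MeasureTheory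
open scoped Topology

noncomputable section

namespace Fermat.Agent.LT.A2.H333

open Fermat.Agent.LT.A2 Fermat.Agent.LT.A2.WX467 Fermat.Agent.LT.A2.LF54

section Gen

variable {k : Type} [NormedField k]

/-- `d(δ⁻¹) n(x) = n(x δ) d(δ⁻¹)`. -/
theorem diag_unip333 (x δ : k) (hδ : δ ≠ 0) :
    (!![1, 0; 0, δ⁻¹] : Matrix (Fin 2) (Fin 2) k) * !![1, x; 0, 1]
      = !![1, x * δ; 0, 1] * !![1, 0; 0, δ⁻¹] := by
  rw [Matrix.mul_fin_two, Matrix.mul_fin_two]
  ext i j
  fin_cases i <;> fin_cases j <;> simp <;> field_simp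

/-- `Q(m⁻¹ ξ) = Q(ξ) / det m` for `m ∈ T(k)`. -/
theorem qfL_inv333 (t n a b : k) (hdet : (torMat t n a b).det ≠ 0) (ξ : k × k) :
    qfL t n (actL (torMat t n a b)⁻¹ ξ) = qfL t n ξ / (torMat t n a b).det := by
  have hd : (torMat t n a b).det = a * (a + t * b) + n * b * b := by
    unfold torMat
    rw [Matrix.det_fin_two_of]
    ring
  have hne : a * (a + t * b) + n * b * b ≠ 0 := by rwa [hd] at hdet
  have hinv : (torMat t n a b)⁻¹
      = (a * (a + t * b) + n * b * b)⁻¹ • !![a + t * b, n * b; -b, a] := by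
    rw [Matrix.inv_def, hd, Ring.inverse_eq_inv']
    congr 1
    unfold torMat
    rw [Matrix.adjugate_fin_two_of]
    simp
  rw [hinv, hd]
  have hQ : qfL t n ((a + t * b) * ξ.1 + n * b * ξ.2, -b * ξ.1 + a * ξ.2)
      = (a * (a + t * b) + n * b * b) * qfL t n ξ := by
    unfold qfL
    ring
  have hact : actL ((a * (a + t * b) + n * b * b)⁻¹ • !![a + t * b, n * b; -b, a]) ξ
      = ((a * (a + t * b) + n * b * b)⁻¹ * ((a + t * b) * ξ.1 + n * b * ξ.2),
          (a * (a + t * b) + n * b * b)⁻¹ * (-b * ξ.1 + a * ξ.2)) := by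
    unfold actL
    simp only [Matrix.smul_apply, Matrix.of_apply, Matrix.cons_val', Matrix.cons_val_zero,
      Matrix.cons_val_one, Matrix.cons_val_fin_one, smul_eq_mul]
    ext <;> simp <;> ring
  have hsc : ∀ c u w : k, qfL t n (c * u, c * w) = c ^ 2 * qfL t n (u, w) := by
    intro c u w
    unfold qfL
    ring
  rw [hact, hsc, hQ, div_eq_mul_inv]
  have hc : (a * (a + t * b) + n * b * b)⁻¹ * (a * (a + t * b) + n * b * b) = 1 :=
    inv_mul_cancel₀ hne
  calc ((a * (a + t * b) + n * b * b)⁻¹) ^ 2 * ((a * (a + t * b) + n * b * b) * qfL t n ξ)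
      = ((a * (a + t * b) + n * b * b)⁻¹ * (a * (a + t * b) + n * b * b))
          * (qfL t n ξ * (a * (a + t * b) + n * b * b)⁻¹) := by ring
    _ = qfL t n ξ * (a * (a + t * b) + n * b * b)⁻¹ := by rw [hc, one_mul]

/-- **AX-UNIP** over any normed field. -/
theorem axUnip333 (t n : k) (ψ : k → ℂ) (μ : @Measure k (borel k)) (γ : ℂ) (η : k → ℂ)
    (hB : BorelOpP t n ψ μ γ η) (Φ : k × k → ℂ) (hΦ : IsSB Φ) :
    AxUnipP t n ψ (Fof t n ψ μ γ η Φ) := by
  intro x g m ξ hadm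
  obtain ⟨⟨a, b, hm⟩, hgm, hne⟩ := hadm
  unfold Fof lopL
  have h1 : (!![1, 0; 0, (m.det)⁻¹] : Matrix (Fin 2) (Fin 2) k) * (!![1, x; 0, 1] * g)
      = !![1, x * m.det; 0, 1] * (!![1, 0; 0, (m.det)⁻¹] * g) := by
    rw [← mul_assoc, diag_unip333 x m.det hne, mul_assoc]
  have h2 : ((!![1, 0; 0, (m.det)⁻¹] : Matrix (Fin 2) (Fin 2) k) * g).det = 1 := by
    rw [Matrix.det_mul, Matrix.det_fin_two_of, hgm, one_mul, mul_zero, sub_zero,
      inv_mul_cancel₀ hne]
  rw [h1, hB.unip (x * m.det) _ h2 Φ hΦ]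
  have h3 : qfL t n (actL m⁻¹ ξ) = qfL t n ξ / m.det := by
    rw [hm] at hne ⊢
    exact qfL_inv333 t n a b hne ξ
  rw [h3]
  have h4 : x * m.det * (qfL t n ξ / m.det) = x * qfL t n ξ := by
    field_simp
  rw [h4]
  ring

end Gen

/-- **A2.03.1.1.06.16 AX-UNIP** (`LF54.LeafAxUnip`, verbatim). -/
theorem leafAxUnip333 : LeafAxUnip := by
  intro K _ _ v t n ψ μ γ η _ hB Φ hΦ
  exact axUnip333 t n ψ μ γ η hB Φ hΦ

end Fermat.Agent.LT.A2.H333

end

end
-- ===== PACK-END LT/A2/H333/AxUnip.lean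

-- ===== PACK-BEGIN LT/A2/H496/FTSB.lean
section




/-!
# Row LT, tower A2, station LOC-FIN, leaf `A2.03.1.1.LF.03` = `LF361.FTSBC` (helper496)

OFF-MAIN.  The Fourier transform `ftL` on `K_v²` preserves the Schwartz--Bruhat functions.

`ftsbC496 : LF361.FTSBC`, VERBATIM the Prop of `LT/A2/H361/LocFinSpec.lean`
(helper361@1f89b04c5, sha256 3a143d6b3ef16b24).

Proof (no decomposition into indicator functions is needed).  Let `k` be a nonarchimedean local
field (nontrivially normed, ultrametric, proper), `Φ` locally constant with compact support.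

* `ψ` is trivial on a ball (`char_trivial_ball496`): a continuous unitary character maps a small
  ball, which is a subgroup, into `{|z - 1| < 1}`, and the only subgroup of the circle in there is
  trivial (doubling: `1 - Re z²  ≥ 3 (1 - Re z)` for `Re z ≥ 1/2`).
* `Φ` is uniformly locally constant (`sb_uniform496`, Lebesgue number).
* `F = ftL Φ` is locally constant: `B(ξ', y)` is small for `ξ'` small and `y` in the (bounded)
  support of `Φ`, so the two integrands agree pointwise.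
* `F` has compact support: `F(ξ) = ψ(B(ξ, λ)) F(ξ)` for `λ` in a small ball `Λ` (translation
  invariance of `μ × μ`), so `F(ξ) ≠ 0` forces `ψ(B(ξ, c λ)) = 1` for all `|c| ≤ 1`, hence
  `|B(ξ, λ)| < |x₀|` (`ψ x₀ ≠ 1`), and `ξ` is bounded because the Gram determinant `4n - t²` of
  `B` is not zero.

Imports: Mathlib, the Spec closure of helper361 (byte-identical), `LT/H767/LocalCompact.lean`
(helper767, byte-identical: compactness of the integers of `K_v`).
-/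

set_option autoImplicit false
set_option linter.unusedSectionVars false
set_option linter.style.haveILetI false

open IsDedekindDomain NumberField MeasureTheory
open scoped Topology Valued

noncomputable section

namespace Fermat.Agent.LT.A2.LF496

open Fermat.Agent.LT.A2.WX467 Fermat.Agent.LT.A2.LF361

/-! ## 1. The circle has no small subgroups -/

/-- For `‖w‖ = 1`: `‖w - 1‖ < 1` iff `Re w > 1/2`. -/
theorem re_gt_half_of_norm_sub_one_lt496 {w : ℂ} (hw : ‖w‖ = 1) (h : ‖w - 1‖ < 1) :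
    1 / 2 < w.re := by
  have h1 : ‖w - 1‖ ^ 2 < 1 := by
    have h0 := norm_nonneg (w - 1)
    nlinarith
  have h2 : ‖w‖ ^ 2 = 1 := by rw [hw]; norm_num
  rw [← Complex.normSq_eq_norm_sq, Complex.normSq_apply] at h1 h2
  simp only [Complex.sub_re, Complex.one_re, Complex.sub_im, Complex.one_im, sub_zero] at h1
  nlinarith

/-- For `‖w‖ = 1`: `Re w² = 2 (Re w)² - 1`. -/
theorem re_sq_of_norm_one496 {w : ℂ} (hw : ‖w‖ = 1) : (w ^ 2).re = 2 * w.re ^ 2 - 1 := by
  have h2 : ‖w‖ ^ 2 = 1 := by rw [hw]; norm_num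
  rw [← Complex.normSq_eq_norm_sq, Complex.normSq_apply] at h2
  rw [pow_two, Complex.mul_re]
  nlinarith

/-- A point `z` of the unit circle all of whose powers are at distance `< 1` from `1` is `1`. -/
theorem eq_one_of_pow_near_one496 {z : ℂ} (hz : ‖z‖ = 1) (h : ∀ m : ℕ, ‖z ^ m - 1‖ < 1) :
    z = 1 := by
  have hn : ∀ j : ℕ, ‖z ^ (2 ^ j)‖ = 1 := fun j => by rw [norm_pow, hz, one_pow]
  have hhalf : ∀ j : ℕ, 1 / 2 < (z ^ (2 ^ j)).re := fun j =>
    re_gt_half_of_norm_sub_one_lt496 (hn j) (h _)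
  have hle : ∀ j : ℕ, (z ^ (2 ^ j)).re ≤ 1 := fun j =>
    (Complex.re_le_norm _).trans (hn j).le
  have hgrow : ∀ j : ℕ, 3 ^ j * (1 - z.re) ≤ 1 - (z ^ (2 ^ j)).re := by
    intro j
    induction j with
    | zero => simp
    | succ j ih =>
      have e : z ^ (2 ^ (j + 1)) = (z ^ (2 ^ j)) ^ 2 := by
        rw [← pow_mul, pow_succ]
      rw [e, re_sq_of_norm_one496 (hn j)]
      have h1 := hhalf j
      have h2 := hle j
      have h3 : (3 : ℝ) ^ (j + 1) * (1 - z.re) = 3 * (3 ^ j * (1 - z.re)) := by ring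
      rw [h3]
      nlinarith
  have hre : z.re = 1 := by
    have hle1 : z.re ≤ 1 := by simpa using hle 0
    by_contra hne
    have hpos : 0 < 1 - z.re := by
      rcases lt_or_eq_of_le hle1 with h1 | h1
      · linarith
      · exact absurd h1 hne
    obtain ⟨j, hj⟩ := pow_unbounded_of_one_lt ((1 - z.re)⁻¹) (by norm_num : (1 : ℝ) < 3)
    have h1 := hgrow j
    have h2 := hhalf j
    have h3 : 1 < 3 ^ j * (1 - z.re) := by
      have := mul_lt_mul_of_pos_right hj hpos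
      rwa [inv_mul_cancel₀ hpos.ne'] at this
    linarith
  have h2 : ‖z‖ ^ 2 = 1 := by rw [hz]; norm_num
  rw [← Complex.normSq_eq_norm_sq, Complex.normSq_apply, hre] at h2
  have him : z.im = 0 := by nlinarith
  exact Complex.ext (by simpa using hre) (by simpa using him)

/-! ## 2. A nonarchimedean local field -/

section Field

variable {k : Type} [NontriviallyNormedField k] [IsUltrametricDist k]

theorem char_zero496 {ψ : k → ℂ} (hψ : _root_.Fermat.Agent.LT.A2.LF361.IsCharL ψ) : ψ 0 = 1 := by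
  have h1 : ψ 0 = ψ 0 * ψ 0 := by
    have := hψ.2.1 0 0
    rwa [add_zero] at this
  have h2 : ψ 0 ≠ 0 := by
    intro h
    have := hψ.2.2 0
    rw [h, norm_zero] at this
    exact zero_ne_one this
  have h3 : ψ 0 * (ψ 0 - 1) = 0 := by
    rw [mul_sub, mul_one, ← h1, sub_self]
  rcases mul_eq_zero.mp h3 with h | h
  · exact absurd h h2
  · exact sub_eq_zero.mp h

theorem char_nsmul496 {ψ : k → ℂ} (hψ : _root_.Fermat.Agent.LT.A2.LF361.IsCharL ψ) (x : k) (m : ℕ) :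
    ψ ((m : k) * x) = ψ x ^ m := by
  induction m with
  | zero => simp [char_zero496 hψ]
  | succ m ih =>
    rw [Nat.cast_succ, add_mul, one_mul, hψ.2.1, ih, pow_succ]

/-- A continuous unitary character of `k` is trivial on a ball. -/
theorem char_trivial_ball496 {ψ : k → ℂ} (hψ : _root_.Fermat.Agent.LT.A2.LF361.IsCharL ψ) :
    ∃ δ : ℝ, 0 < δ ∧ ∀ x : k, ‖x‖ < δ → ψ x = 1 := by
  have hc : ContinuousAt ψ 0 := hψ.1.continuousAt
  rw [Metric.continuousAt_iff] at hc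
  obtain ⟨δ, hδ, hball⟩ := hc 1 one_pos
  refine ⟨δ, hδ, fun x hx => ?_⟩
  apply eq_one_of_pow_near_one496 (hψ.2.2 x)
  intro m
  have hm : ‖(m : k) * x‖ < δ := by
    rw [norm_mul]
    have h1 : ‖(m : k)‖ ≤ 1 := IsUltrametricDist.norm_natCast_le_one k m
    calc ‖(m : k)‖ * ‖x‖ ≤ 1 * ‖x‖ := mul_le_mul_of_nonneg_right h1 (norm_nonneg _)
      _ = ‖x‖ := one_mul _
      _ < δ := hx
  have := hball (x := (m : k) * x) (by rwa [dist_zero_right])
  rwa [char_zero496 hψ, char_nsmul496 hψ, dist_eq_norm] at this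

/-! ### The bilinear form -/

theorem bfL_add_left496 (t n : k) (ξ ξ' y : k × k) :
    bfL t n (ξ + ξ') y = bfL t n ξ y + bfL t n ξ' y := by
  simp only [bfL, qfL, Prod.fst_add, Prod.snd_add]
  ring

theorem bfL_add_right496 (t n : k) (ξ y l : k × k) :
    bfL t n ξ (y + l) = bfL t n ξ y + bfL t n ξ l := by
  simp only [bfL, qfL, Prod.fst_add, Prod.snd_add]
  ring

theorem bfL_smul_right496 (t n : k) (ξ l : k × k) (c : k) :
    bfL t n ξ (c • l) = c * bfL t n ξ l := by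
  simp only [bfL, qfL, Prod.fst_add, Prod.snd_add, Prod.smul_fst, Prod.smul_snd, smul_eq_mul]
  ring

theorem bfL_e1_496 (t n : k) (ξ : k × k) (a : k) :
    bfL t n ξ (a, 0) = a * (2 * ξ.1 + t * ξ.2) := by
  simp only [bfL, qfL, Prod.fst_add, Prod.snd_add]
  ring

theorem bfL_e2_496 (t n : k) (ξ : k × k) (a : k) :
    bfL t n ξ (0, a) = a * (t * ξ.1 + 2 * n * ξ.2) := by
  simp only [bfL, qfL, Prod.fst_add, Prod.snd_add]
  ring

theorem bfL_expand496 (t n : k) (ξ y : k × k) :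
    bfL t n ξ y = 2 * ξ.1 * y.1 + t * ξ.1 * y.2 + t * ξ.2 * y.1 + 2 * n * ξ.2 * y.2 := by
  simp only [bfL, qfL, Prod.fst_add, Prod.snd_add]
  ring

/-- `|B(ξ, y)| ≤ C |ξ| |y|`. -/
theorem norm_bfL_le496 (t n : k) (ξ y : k × k) :
    ‖bfL t n ξ y‖ ≤ (‖(2 : k)‖ + ‖t‖ + ‖t‖ + ‖(2 : k) * n‖) * (‖ξ‖ * ‖y‖) := by
  rw [bfL_expand496]
  have h1 : ‖ξ.1‖ ≤ ‖ξ‖ := norm_fst_le ξ
  have h2 : ‖ξ.2‖ ≤ ‖ξ‖ := norm_snd_le ξ
  have h3 : ‖y.1‖ ≤ ‖y‖ := norm_fst_le y
  have h4 : ‖y.2‖ ≤ ‖y‖ := norm_snd_le y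
  have n1 := norm_nonneg ξ.1
  have n2 := norm_nonneg ξ.2
  have n3 := norm_nonneg y.1
  have n4 := norm_nonneg y.2
  have a1 : ‖2 * ξ.1 * y.1‖ ≤ ‖(2 : k)‖ * (‖ξ‖ * ‖y‖) := by
    rw [norm_mul, norm_mul, mul_assoc]
    exact mul_le_mul_of_nonneg_left (mul_le_mul h1 h3 n3 (norm_nonneg ξ)) (norm_nonneg _)
  have a2 : ‖t * ξ.1 * y.2‖ ≤ ‖t‖ * (‖ξ‖ * ‖y‖) := by
    rw [norm_mul, norm_mul, mul_assoc]
    exact mul_le_mul_of_nonneg_left (mul_le_mul h1 h4 n4 (norm_nonneg ξ)) (norm_nonneg _)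
  have a3 : ‖t * ξ.2 * y.1‖ ≤ ‖t‖ * (‖ξ‖ * ‖y‖) := by
    rw [norm_mul, norm_mul, mul_assoc]
    exact mul_le_mul_of_nonneg_left (mul_le_mul h2 h3 n3 (norm_nonneg ξ)) (norm_nonneg _)
  have a4 : ‖2 * n * ξ.2 * y.2‖ ≤ ‖(2 : k) * n‖ * (‖ξ‖ * ‖y‖) := by
    rw [norm_mul, norm_mul, mul_assoc]
    exact mul_le_mul_of_nonneg_left (mul_le_mul h2 h4 n4 (norm_nonneg ξ)) (norm_nonneg _)
  calc ‖2 * ξ.1 * y.1 + t * ξ.1 * y.2 + t * ξ.2 * y.1 + 2 * n * ξ.2 * y.2‖
      ≤ ‖2 * ξ.1 * y.1‖ + ‖t * ξ.1 * y.2‖ + ‖t * ξ.2 * y.1‖ + ‖2 * n * ξ.2 * y.2‖ :=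
        norm_add₄_le
    _ ≤ (‖(2 : k)‖ + ‖t‖ + ‖t‖ + ‖(2 : k) * n‖) * (‖ξ‖ * ‖y‖) := by
        rw [add_mul, add_mul, add_mul]
        linarith

/-! ### Schwartz--Bruhat functions are uniformly locally constant -/

theorem sb_uniform496 {Φ : k × k → ℂ} (hΦ : IsSB Φ) :
    ∃ δ : ℝ, 0 < δ ∧ ∀ y l : k × k, ‖l‖ < δ → Φ (y + l) = Φ y := by
  obtain ⟨hlc, hcs⟩ := hΦ
  have hopen : ∀ i : k × k, IsOpen {x | Φ x = Φ i} := fun i => hlc.isOpen_fiber (Φ i)
  have hcover : tsupport Φ ⊆ ⋃ i : k × k, {x | Φ x = Φ i} := fun x _ =>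
    Set.mem_iUnion.2 ⟨x, rfl⟩
  obtain ⟨δ, hδ, hleb⟩ := lebesgue_number_lemma_of_metric hcs hopen hcover
  have key : ∀ y ∈ tsupport Φ, ∀ l : k × k, ‖l‖ < δ → Φ (y + l) = Φ y := by
    intro y hy l hl
    obtain ⟨i, hi⟩ := hleb y hy
    have h1 : y + l ∈ Metric.ball y δ := by
      rw [Metric.mem_ball, dist_eq_norm, add_sub_cancel_left]
      exact hl
    have h2 : y ∈ Metric.ball y δ := Metric.mem_ball_self hδ
    have e1 : Φ (y + l) = Φ i := hi h1
    have e2 : Φ y = Φ i := hi h2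
    rw [e1, e2]
  refine ⟨δ, hδ, fun y l hl => ?_⟩
  by_cases hy : y ∈ tsupport Φ
  · exact key y hy l hl
  · by_cases hy' : y + l ∈ tsupport Φ
    · have := key (y + l) hy' (-l) (by rwa [norm_neg])
      rw [add_neg_cancel_right] at this
      exact this.symm
    · rw [image_eq_zero_of_notMem_tsupport hy, image_eq_zero_of_notMem_tsupport hy']

/-! ### Local constancy of the Fourier transform -/

theorem ftL_add_small496 (t n : k) {ψ : k → ℂ} (μ : @Measure k (borel k)) (hψ : _root_.Fermat.Agent.LT.A2.LF361.IsCharL ψ)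
    {Φ : k × k → ℂ} (hΦ : IsSB Φ) :
    ∃ δ : ℝ, 0 < δ ∧ ∀ ξ ξ' : k × k, ‖ξ'‖ < δ →
      ftL t n ψ μ Φ (ξ + ξ') = ftL t n ψ μ Φ ξ := by
  obtain ⟨δψ, hδψ, htriv⟩ := char_trivial_ball496 hψ
  obtain ⟨M, hM⟩ := hΦ.2.isBounded.exists_norm_le
  set C : ℝ := ‖(2 : k)‖ + ‖t‖ + ‖t‖ + ‖(2 : k) * n‖ + 1 with hC
  have hCpos : 0 < C := by
    have := norm_nonneg (2 : k)
    have := norm_nonneg t
    have := norm_nonneg ((2 : k) * n)
    rw [hC]; linarith
  set M' : ℝ := max M 0 + 1 with hM'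
  have hM'pos : 0 < M' := by
    have := le_max_right M 0
    rw [hM']; linarith
  refine ⟨δψ / (C * M'), div_pos hδψ (mul_pos hCpos hM'pos), fun ξ ξ' hξ' => ?_⟩
  unfold ftL intL
  congr 1
  funext y
  show Φ y * ψ (bfL t n (ξ + ξ') y) = Φ y * ψ (bfL t n ξ y)
  by_cases hy : Φ y = 0
  · rw [hy, zero_mul, zero_mul]
  · have hyS : y ∈ tsupport Φ := subset_tsupport Φ hy
    have hyM : ‖y‖ ≤ M' := by
      have := hM y hyS
      have := le_max_left M 0
      rw [hM']; linarith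
    have hsmall : ‖bfL t n ξ' y‖ < δψ := by
      have h1 := norm_bfL_le496 t n ξ' y
      have h2 : ‖ξ'‖ * ‖y‖ ≤ ‖ξ'‖ * M' :=
        mul_le_mul_of_nonneg_left hyM (norm_nonneg _)
      have h3 : ‖ξ'‖ * M' < δψ / (C * M') * M' := mul_lt_mul_of_pos_right hξ' hM'pos
      have h4 : δψ / (C * M') * M' = δψ / C := by
        field_simp
      have h5 : (‖(2 : k)‖ + ‖t‖ + ‖t‖ + ‖(2 : k) * n‖) * (‖ξ'‖ * ‖y‖) ≤ C * (‖ξ'‖ * ‖y‖) := by
        apply mul_le_mul_of_nonneg_right _ (mul_nonneg (norm_nonneg _) (norm_nonneg _))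
        rw [hC]; linarith
      have h6 : C * (‖ξ'‖ * ‖y‖) < C * (δψ / C) := by
        apply mul_lt_mul_of_pos_left _ hCpos
        calc ‖ξ'‖ * ‖y‖ ≤ ‖ξ'‖ * M' := h2
          _ < δψ / (C * M') * M' := h3
          _ = δψ / C := h4
      have h7 : C * (δψ / C) = δψ := by field_simp
      linarith
    rw [bfL_add_left496, hψ.2.1, htriv _ hsmall, mul_one]

theorem ftL_locallyConstant496 (t n : k) {ψ : k → ℂ} (μ : @Measure k (borel k))
    (hψ : _root_.Fermat.Agent.LT.A2.LF361.IsCharL ψ) {Φ : k × k → ℂ} (hΦ : IsSB Φ) :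
    IsLocallyConstant (ftL t n ψ μ Φ) := by
  obtain ⟨δ, hδ, h⟩ := ftL_add_small496 t n μ hψ hΦ
  rw [IsLocallyConstant.iff_exists_open]
  intro ξ
  refine ⟨Metric.ball ξ δ, Metric.isOpen_ball, Metric.mem_ball_self hδ, fun x' hx' => ?_⟩
  have e : x' = ξ + (x' - ξ) := by abel
  rw [e]
  apply h
  rwa [Metric.mem_ball, dist_eq_norm] at hx'

/-! ### Translation invariance of `μ × μ` -/

section Haar

variable [ProperSpace k]

/-- The integral over `k²` is invariant under translations. -/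
theorem intL_add_right496 {μ : @Measure k (borel k)} (hμ : _root_.Fermat.Agent.LT.A2.LF361.IsHaarL μ) (g : k × k → ℂ)
    (l : k × k) : intL μ (fun y => g (y + l)) = intL μ g := by
  letI : MeasurableSpace k := borel k
  haveI : BorelSpace k := ⟨rfl⟩
  haveI : IsFiniteMeasureOnCompacts μ := ⟨fun C hC => hμ.2.1 C hC⟩
  have hpres : ∀ a : k, MeasurePreserving (fun y : k => y + a) μ μ := by
    intro a
    have hm : Measurable (fun y : k => y + a) := (continuous_add_const a).measurable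
    refine ⟨hm, ?_⟩
    ext S hS
    rw [Measure.map_apply hm hS]
    have e : (fun y : k => y + a) ⁻¹' S = (fun y : k => -a + y) '' S := by
      ext y
      simp only [Set.mem_preimage, Set.mem_image]
      constructor
      · intro hy
        exact ⟨y + a, hy, by ring⟩
      · rintro ⟨z, hz, rfl⟩
        have : -a + z + a = z := by ring
        rwa [this]
    rw [e]
    exact hμ.1 (-a) S
  have hprod : MeasurePreserving (Prod.map (fun y : k => y + l.1) (fun y : k => y + l.2))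
      (μ.prod μ) (μ.prod μ) := (hpres l.1).prod (hpres l.2)
  let e₁ : k ≃ᵐ k := (Homeomorph.addRight l.1).toMeasurableEquiv
  let e₂ : k ≃ᵐ k := (Homeomorph.addRight l.2).toMeasurableEquiv
  let e : k × k ≃ᵐ k × k := MeasurableEquiv.prodCongr e₁ e₂
  have he : (e : k × k → k × k) = Prod.map (fun y : k => y + l.1) (fun y : k => y + l.2) := by
    funext y
    rfl
  have hpe : MeasurePreserving e (μ.prod μ) (μ.prod μ) := by
    rw [he]
    exact hprod
  have := hpe.integral_comp' g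
  unfold intL
  rw [← this]
  rfl

/-- `F(ξ) = ψ(B(ξ, λ)) F(ξ)` when `Φ` is invariant under the translation by `λ`. -/
theorem ftL_eq_mul496 (t n : k) {ψ : k → ℂ} {μ : @Measure k (borel k)} (hψ : _root_.Fermat.Agent.LT.A2.LF361.IsCharL ψ)
    (hμ : _root_.Fermat.Agent.LT.A2.LF361.IsHaarL μ) {Φ : k × k → ℂ} (l : k × k) (hl : ∀ y, Φ (y + l) = Φ y) (ξ : k × k) :
    ftL t n ψ μ Φ ξ = ψ (bfL t n ξ l) * ftL t n ψ μ Φ ξ := by
  have h1 : ftL t n ψ μ Φ ξ
      = intL μ (fun y => (fun z => Φ z * ψ (bfL t n ξ z)) (y + l)) := by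
    unfold ftL
    exact (intL_add_right496 hμ (fun z => Φ z * ψ (bfL t n ξ z)) l).symm
  have h2 : (fun y => (fun z => Φ z * ψ (bfL t n ξ z)) (y + l))
      = fun y => ψ (bfL t n ξ l) * (Φ y * ψ (bfL t n ξ y)) := by
    funext y
    show Φ (y + l) * ψ (bfL t n ξ (y + l)) = ψ (bfL t n ξ l) * (Φ y * ψ (bfL t n ξ y))
    rw [hl, bfL_add_right496, hψ.2.1]
    ring
  rw [h2] at h1
  have h3 : intL μ (fun y => ψ (bfL t n ξ l) * (Φ y * ψ (bfL t n ξ y)))
      = ψ (bfL t n ξ l) * intL μ (fun y => Φ y * ψ (bfL t n ξ y)) := by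
    unfold intL
    exact integral_const_mul _ _
  rw [h3] at h1
  exact h1

/-- The support of the Fourier transform is bounded. -/
theorem ftL_support_bounded496 (t n : k) {ψ : k → ℂ} {μ : @Measure k (borel k)}
    (hD : t ^ 2 - 4 * n ≠ 0) (hψ : _root_.Fermat.Agent.LT.A2.LF361.IsCharL ψ) (hne : ∃ x, ψ x ≠ 1) (hμ : _root_.Fermat.Agent.LT.A2.LF361.IsHaarL μ)
    {Φ : k × k → ℂ} (hΦ : IsSB Φ) :
    ∃ R : ℝ, ∀ ξ : k × k, ftL t n ψ μ Φ ξ ≠ 0 → ‖ξ‖ ≤ R := by
  obtain ⟨δ, hδ, hinv⟩ := sb_uniform496 hΦ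
  obtain ⟨ϖ, hϖ0, hϖδ⟩ := NormedField.exists_norm_lt k hδ
  obtain ⟨x₀, hx₀⟩ := hne
  have hDn : 0 < ‖t ^ 2 - 4 * n‖ := norm_pos_iff.2 hD
  set R₁ : ℝ := ‖x₀‖ / ‖ϖ‖ with hR₁
  have hR₁0 : 0 ≤ R₁ := div_nonneg (norm_nonneg _) (norm_nonneg _)
  set Cc : ℝ := ‖t‖ + ‖(2 : k) * n‖ + ‖(2 : k)‖ with hCc
  have hCc0 : 0 ≤ Cc := by
    have := norm_nonneg (2 : k)
    have := norm_nonneg t
    have := norm_nonneg ((2 : k) * n)
    rw [hCc]; linarith
  refine ⟨Cc * R₁ / ‖t ^ 2 - 4 * n‖, fun ξ hξ => ?_⟩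
  -- `ψ (B(ξ, λ)) = 1` on the small ball
  have h1 : ∀ l : k × k, ‖l‖ < δ → ψ (bfL t n ξ l) = 1 := by
    intro l hl
    have h := ftL_eq_mul496 t n hψ hμ l (fun y => hinv y l hl) ξ
    have h' : (ψ (bfL t n ξ l) - 1) * ftL t n ψ μ Φ ξ = 0 := by
      rw [sub_mul, one_mul, ← h, sub_self]
    rcases mul_eq_zero.mp h' with h0 | h0
    · exact sub_eq_zero.mp h0
    · exact absurd h0 hξ
  -- hence `|B(ξ, λ)| < |x₀|` on the small ball
  have h2 : ∀ l : k × k, ‖l‖ < δ → ‖bfL t n ξ l‖ < ‖x₀‖ := by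
    intro l hl
    by_contra hcon
    rw [not_lt] at hcon
    have hx₀0 : x₀ ≠ 0 := by
      intro h0
      rw [h0, char_zero496 hψ] at hx₀
      exact hx₀ rfl
    have hb0 : bfL t n ξ l ≠ 0 := by
      intro h0
      rw [h0, norm_zero] at hcon
      exact hx₀0 (norm_le_zero_iff.mp hcon)
    set c : k := x₀ / bfL t n ξ l with hc
    have hc1 : ‖c‖ ≤ 1 := by
      rw [hc, norm_div]
      exact (div_le_one (norm_pos_iff.2 hb0)).2 hcon
    have hcl : ‖c • l‖ < δ := by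
      rw [norm_smul]
      calc ‖c‖ * ‖l‖ ≤ 1 * ‖l‖ := mul_le_mul_of_nonneg_right hc1 (norm_nonneg _)
        _ = ‖l‖ := one_mul _
        _ < δ := hl
    have := h1 (c • l) hcl
    rw [bfL_smul_right496, hc, div_mul_cancel₀ _ hb0] at this
    exact hx₀ this
  have hl1 : ‖((ϖ, 0) : k × k)‖ < δ := by
    rw [Prod.norm_def]
    simpa using hϖδ
  have hl2 : ‖((0, ϖ) : k × k)‖ < δ := by
    rw [Prod.norm_def]
    simpa using hϖδ
  have hu := h2 _ hl1
  have hw := h2 _ hl2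
  rw [bfL_e1_496, norm_mul] at hu
  rw [bfL_e2_496, norm_mul] at hw
  set u : k := 2 * ξ.1 + t * ξ.2 with hu_def
  set w : k := t * ξ.1 + 2 * n * ξ.2 with hw_def
  have hu' : ‖u‖ ≤ R₁ := by
    rw [hR₁, le_div_iff₀ hϖ0, mul_comm]
    exact hu.le
  have hw' : ‖w‖ ≤ R₁ := by
    rw [hR₁, le_div_iff₀ hϖ0, mul_comm]
    exact hw.le
  have e1 : (t ^ 2 - 4 * n) * ξ.1 = t * w - 2 * n * u := by
    rw [hu_def, hw_def]; ring
  have e2 : (t ^ 2 - 4 * n) * ξ.2 = t * u - 2 * w := by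
    rw [hu_def, hw_def]; ring
  have b1 : ‖t ^ 2 - 4 * n‖ * ‖ξ.1‖ ≤ Cc * R₁ := by
    rw [← norm_mul, e1]
    calc ‖t * w - 2 * n * u‖ ≤ ‖t * w‖ + ‖2 * n * u‖ := norm_sub_le _ _
      _ = ‖t‖ * ‖w‖ + ‖(2 : k) * n‖ * ‖u‖ := by rw [norm_mul, norm_mul (2 * n) u]
      _ ≤ ‖t‖ * R₁ + ‖(2 : k) * n‖ * R₁ :=
          add_le_add (mul_le_mul_of_nonneg_left hw' (norm_nonneg _))
            (mul_le_mul_of_nonneg_left hu' (norm_nonneg _))
      _ ≤ Cc * R₁ := by
          rw [hCc]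
          have := mul_nonneg (norm_nonneg (2 : k)) hR₁0
          nlinarith
  have b2 : ‖t ^ 2 - 4 * n‖ * ‖ξ.2‖ ≤ Cc * R₁ := by
    rw [← norm_mul, e2]
    calc ‖t * u - 2 * w‖ ≤ ‖t * u‖ + ‖2 * w‖ := norm_sub_le _ _
      _ = ‖t‖ * ‖u‖ + ‖(2 : k)‖ * ‖w‖ := by rw [norm_mul, norm_mul 2 w]
      _ ≤ ‖t‖ * R₁ + ‖(2 : k)‖ * R₁ :=
          add_le_add (mul_le_mul_of_nonneg_left hu' (norm_nonneg _))
            (mul_le_mul_of_nonneg_left hw' (norm_nonneg _))
      _ ≤ Cc * R₁ := by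
          rw [hCc]
          have := mul_nonneg (norm_nonneg ((2 : k) * n)) hR₁0
          nlinarith
  rw [Prod.norm_def, max_le_iff]
  constructor
  · rw [le_div_iff₀ hDn, mul_comm]
    exact b1
  · rw [le_div_iff₀ hDn, mul_comm]
    exact b2

/-- **The Fourier transform preserves the Schwartz--Bruhat functions** (general nonarchimedean
local field). -/
theorem ftsb_general496 (t n : k) {ψ : k → ℂ} {μ : @Measure k (borel k)}
    (hD : t ^ 2 - 4 * n ≠ 0) (hψ : _root_.Fermat.Agent.LT.A2.LF361.IsCharL ψ) (hne : ∃ x, ψ x ≠ 1) (hμ : _root_.Fermat.Agent.LT.A2.LF361.IsHaarL μ) :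
    FTSBAt t n ψ μ := by
  intro Φ hΦ
  refine ⟨ftL_locallyConstant496 t n μ hψ hΦ, ?_⟩
  obtain ⟨R, hR⟩ := ftL_support_bounded496 t n hD hψ hne hμ hΦ
  refine HasCompactSupport.of_support_subset_isCompact (isCompact_closedBall (0 : k × k) R) ?_
  intro ξ hξ
  rw [mem_closedBall_zero_iff]
  exact hR ξ hξ

end Haar

end Field

/-! ## 3. The leaf -/

/-- **LEAF `A2.03.1.1.LF.03` = `LF361.FTSBC`**: at every finite place of every number field the
Fourier transform preserves the Schwartz--Bruhat functions. -/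
theorem ftsbC496 : FTSBC := by
  intro K _ _ v t n ψ μ hD hψ hne hμ
  haveI : ProperSpace (v.adicCompletion K) :=
    Valued.integer.properSpace_iff_compactSpace_integer.mpr
      (Fermat.Agent.LT.H767.compactSpace_integer_adicCompletion K v)
  exact ftsb_general496 t n hD hψ hne hμ

end Fermat.Agent.LT.A2.LF496

end

end
-- ===== PACK-END LT/A2/H496/FTSB.lean

-- ===== PACK-BEGIN LT/A2/H488/Form.lean
section


/-!
# Row LT, tower A2, leaf A2.03.8.5.4 `H254.FormC254` (helper488): THE PROOF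

OFF-MAIN.  `formC254_488 : H254.FormC254`, VERBATIM the `Prop` of `LT/A2/H254/RecSplitSpec.lean`
(helper254@51dfc4e4e, sha256 947dfa59).  Complete proofs, nothing assumed.

`g_j = diag(ϖ^j, 1)_v g' = t(A) d(A) g'` with the idele `A = det(μ^j)` (`ϖ^j` at `v`, `1` at every
other place); `IsWhit.formula` at the partner `μ^j m'`; `diagA` (`η(A) = 1` by `quad.norm`,
`|A|_𝔸 = q^{-j}`); `torA` with `μ' = μ^j`; `A μ^{-j} = μ̄^j` as adelic matrices; `χT`
multiplicative; the integrands agree on `T¹` and `μT` is carried by `T¹`.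
-/

set_option autoImplicit false

open IsDedekindDomain NumberField AutomorphicForm MeasureTheory
open scoped MatrixGroups

noncomputable section

namespace Fermat.Agent.LT.A2.H488

open Fermat.Agent.LT.H556 Fermat.Agent.LT.H556.A0 Fermat.Agent.LT.H129
open Fermat.Agent.LT.A2.H142 Fermat.Agent.LT.A2.H254 Fermat.Agent.LT.A2.WL

variable {K : Type} [Field K] [NumberField K]

/-! ## The module of an idele supported at `v` -/

theorem norm_unif488f (v : HeightOneSpectrum (𝓞 K)) {ϖ : v.adicCompletion K}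
    (hϖ : Valued.v ϖ = WithZero.exp (-1 : ℤ)) :
    ‖ϖ‖ = ((Ideal.absNorm v.asIdeal : ℝ))⁻¹ := by
  have h : ‖ϖ‖ = (Ideal.absNorm v.asIdeal : ℝ) ^ (-1 : ℤ) := by
    rw [FinitePlace.norm_def, hϖ, WithZeroMulInt.toNNReal_neg_apply _ WithZero.exp_ne_zero]
    push_cast
    congr 1
  rw [h, zpow_neg_one]

theorem adNorm_of_local488 (v : HeightOneSpectrum (𝓞 K)) (x : Adl K)
    (h1 : ∀ w : InfinitePlace K, x.1 w = 1)
    (h2 : ∀ v' : HeightOneSpectrum (𝓞 K), v' ≠ v → x.2 v' = 1) :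
    T1.adNorm K x = ‖x.2 v‖ := by
  unfold T1.adNorm
  rw [Finset.prod_eq_one (fun w _ => by rw [h1 w, norm_one, one_pow]), one_mul]
  exact finprod_eq_single _ v (fun v' hv' => by rw [h2 v' hv', norm_one])

/-! ## The leaf -/

/-- **A2.03.8.5.4 FORM**, verbatim `H254.FormC254`. -/
theorem formC254_488 : FormC254 := by
  intro K _ _ D η W v hctx ϖ hϖ μ μb hp g' m' hadm j
  have hgood := hctx.good
  have hstd := hctx.std
  have hχ := hgood.torus
  have hW := hctx.whit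
  -- the idele `A = det (μ ^ j)`
  have hμj : InTorus D.t D.n (μ ^ j) := inTorus_pow488 hp.tor j
  have hlocj : IsLocalAtFin v (μ ^ j) := isLocalAtFin_pow488 hp.loc j
  obtain ⟨A, hA⟩ : ∃ A : (Adl K)ˣ, A = Matrix.GeneralLinearGroup.det (μ ^ j) := ⟨_, rfl⟩
  have hA_inf : ∀ w : InfinitePlace K, (A : Adl K).1 w = 1 := fun w => by
    rw [hA]; exact det_inf_of_local488 hlocj w
  have hA_ne : ∀ v' : HeightOneSpectrum (𝓞 K), v' ≠ v → (A : Adl K).2 v' = 1 := fun v' hv' => by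
    rw [hA]; exact det_fin_of_local488 hlocj hv'
  have hA_v : (A : Adl K).2 v = ϖ ^ j := by
    rw [hA, evF_det488, finComp_pow488, Matrix.det_pow, hp.det]
  have hAI : ∀ w : InfinitePlace K, evI129 w (A : Adl K) = 1 := hA_inf
  have hAFne : ∀ v' : HeightOneSpectrum (𝓞 K), v' ≠ v → evF129 v' (A : Adl K) = 1 := hA_ne
  have hAF : evF129 v (A : Adl K) = ϖ ^ j := hA_v
  -- `diag(ϖ^j, 1)_v = t(A) d(A)`
  have hgj : locFin129 v (dgl142 v ϖ (unif_ne_zero129 v hϖ) j) = diagSL488 A * diagOne488 A := by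
    apply Units.ext
    rw [coe_diagSL_mul_diagOne488, coe_locFin129]
    apply adeleMatrix_ext129
    · intro w
      rw [locMat129_map_inf]
      ext a b
      fin_cases a <;> fin_cases b <;> simp [-evI129_apply, -evF129_apply, hAI w]
    · intro v'
      by_cases h : v' = v
      · subst h
        rw [locMat129_map_same]
        ext a b
        fin_cases a <;> fin_cases b <;> simp [-evI129_apply, -evF129_apply, hAF, dgl142, diag129]
      · rw [locMat129_map_of_ne v _ h]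
        ext a b
        fin_cases a <;> fin_cases b <;> simp [-evI129_apply, -evF129_apply, hAFne v' h]
  -- `μ^j μ̄^j` is the scalar `A`
  have hz : ((μ ^ j * μb ^ j : G K) : Matrix (Fin 2) (Fin 2) (Adl K))
      = Matrix.diagonal (fun _ => (A : Adl K)) := by
    have hlocbj : IsLocalAtFin v (μb ^ j) := isLocalAtFin_pow488 hp.locb j
    have hloc := isLocalAtFin_mul129 hlocj hlocbj
    apply adeleMatrix_ext129
    · intro w
      rw [map_evI_of_local488 hloc w]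
      ext a b
      fin_cases a <;> fin_cases b <;> simp [-evI129_apply, -evF129_apply, hAI w]
    · intro v'
      by_cases h : v' = v
      · subst h
        rw [map_evF_same488, finComp_mul488, finComp_pow488, finComp_pow488]
        have hc : Commute (finComp v' μ) (finComp v' μb) := by
          have h1 := congrArg (finComp v') (inTorus_comm142 hp.tor hp.torb)
          rw [finComp_mul488, finComp_mul488] at h1
          exact h1
        rw [← hc.mul_pow, hp.mul, Matrix.diagonal_pow]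
        ext a b
        fin_cases a <;> fin_cases b <;> simp [-evI129_apply, -evF129_apply, hAF]
      · rw [map_evF_of_local488 hloc h]
        ext a b
        fin_cases a <;> fin_cases b <;> simp [-evI129_apply, -evF129_apply, hAFne v' h]
  have hact : actV (μ ^ j)⁻¹ ((A : Adl K) • ((1 : Adl K), (0 : Adl K)))
      = actV (μb ^ j) ((1 : Adl K), (0 : Adl K)) := by
    rw [← actV_of_scalar488 hz, actV_mul488, actV_inv_mul488]
  -- the module of `A`
  have hq0 : (0 : ℝ) ≤ (Ideal.absNorm v.asIdeal : ℝ) := Nat.cast_nonneg _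
  have hN : T1.adNorm K (A : Adl K) = (((Ideal.absNorm v.asIdeal : ℝ))⁻¹) ^ j := by
    rw [adNorm_of_local488 v _ hA_inf hA_ne, hA_v, norm_pow, norm_unif488f v hϖ]
  have hsN : Real.sqrt (T1.adNorm K (A : Adl K))
      = ((Real.sqrt (Ideal.absNorm v.asIdeal : ℝ))⁻¹) ^ j := by
    rw [hN]
    have hr0 : (0 : ℝ) ≤ ((Real.sqrt (Ideal.absNorm v.asIdeal : ℝ))⁻¹) ^ j :=
      pow_nonneg (inv_nonneg.2 (Real.sqrt_nonneg _)) j
    have hsq : (((Ideal.absNorm v.asIdeal : ℝ))⁻¹) ^ j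
        = (((Real.sqrt (Ideal.absNorm v.asIdeal : ℝ))⁻¹) ^ j) ^ 2 := by
      rw [← pow_mul, mul_comm, pow_mul, inv_pow _ 2, Real.sq_sqrt hq0]
    rw [hsq, Real.sqrt_sq hr0]
  have hNs : ((T1.adNorm K (A : Adl K) : ℝ) : ℂ)
      = ((Real.sqrt (T1.adNorm K (A : Adl K)) : ℝ) : ℂ)
        * ((Real.sqrt (T1.adNorm K (A : Adl K)) : ℝ) : ℂ) := by
    rw [← Complex.ofReal_mul, Real.mul_self_sqrt]
    rw [hN]
    exact pow_nonneg (inv_nonneg.2 hq0) j
  have hsC : ((Real.sqrt (T1.adNorm K (A : Adl K)) : ℝ) : ℂ) * sqC142 v ^ j = 1 := by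
    rw [hsN]
    unfold sqC142
    push_cast
    rw [← mul_pow, inv_mul_cancel₀, one_pow]
    intro h0
    have := sqC142_ne_zero v
    unfold sqC142 at this
    exact this h0
  have hη : η A = 1 := by rw [hA]; exact hstd.quad.norm (μ ^ j) hμj
  -- admissibility
  have hadm1 : Adm D.t D.n (diagOne488 A * g') (μ ^ j * m') :=
    adm_mul142 ⟨hμj, by rw [det_diagOne488, hA]⟩ hadm
  have hadm0 : Adm D.t D.n (locFin129 v (dgl142 v ϖ (unif_ne_zero129 v hϖ) j) * g')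
      (μ ^ j * m') := by
    rw [hgj, mul_assoc]
    have h1 : Adm D.t D.n (diagSL488 A) (1 : G K) :=
      ⟨inTorus_one142 D.t D.n, by rw [det_diagSL488, map_one]⟩
    have h2 := adm_mul142 h1 hadm1
    rwa [one_mul] at h2
  -- the integrands
  have key : ∀ m₀ : G K, InTorus1 D.t D.n m₀ →
      D.F (locFin129 v (dgl142 v ϖ (unif_ne_zero129 v hϖ) j) * g') (m₀ * (μ ^ j * m')) (1, 0)
          * D.χT (m₀ * (μ ^ j * m'))
        = (((Real.sqrt (T1.adNorm K (A : Adl K)) : ℝ) : ℂ) * D.χT μ ^ j)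
          * orbFn254 D g' m' (actV (μb ^ j) (1, 0)) m₀ := by
    intro m₀ h0
    have hadm2 : Adm D.t D.n (diagOne488 A * g') (m₀ * (μ ^ j * m')) :=
      adm_torus1_mul142 h0 hadm1
    have hadm3 : Adm D.t D.n g' (m₀ * m') := adm_torus1_mul142 h0 hadm
    have hcomm : m₀ * (μ ^ j * m') = μ ^ j * (m₀ * m') := by
      rw [← mul_assoc, inTorus_comm142 h0.1 hμj, mul_assoc]
    have hdA : IsDiagOneA (diagOne488 A) (Matrix.GeneralLinearGroup.det (μ ^ j)) := by
      rw [← hA]; exact isDiagOneA_diagOne488 A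
    have htor := hstd.torA (μ ^ j) (diagOne488 A) hμj hdA g' (m₀ * m')
      ((A : Adl K) • ((1 : Adl K), (0 : Adl K))) hadm3
    rw [← hA, hact] at htor
    rw [hgj, mul_assoc,
      hstd.diagA (diagSL488 A) A (isDiagSLA_diagSL488 A) _ _ _ hadm2, hη, hcomm,
      hχ.mul _ _ hμj hadm3.1, chi_pow488 hχ hp.tor, hNs]
    unfold orbFn254
    rw [← htor]
    ring
  rw [show om142 W v ϖ (unif_ne_zero129 v hϖ) g' j
      = W (locFin129 v (dgl142 v ϖ (unif_ne_zero129 v hϖ) j) * g') from rfl,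
    hW.formula _ _ hadm0, intT_congr142 D hgood.measured key, intT_const_mul142]
  show sqC142 v ^ j * ((((Real.sqrt (T1.adNorm K (A : Adl K)) : ℝ) : ℂ) * D.χT μ ^ j)
      * D.intT {m | InTorus1 D.t D.n m} (orbFn254 D g' m' (actV (μb ^ j) (1, 0))))
    = D.χT μ ^ j * D.intT (T1set254 D.t D.n) (orbFn254 D g' m' (actV (μb ^ j) (1, 0)))
  have : T1set254 D.t D.n = {m | InTorus1 D.t D.n m} := rfl
  rw [this]
  linear_combination (D.χT μ ^ j * D.intT {m | InTorus1 D.t D.n m}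
    (orbFn254 D g' m' (actV (μb ^ j) (1, 0)))) * hsC

end Fermat.Agent.LT.A2.H488

end

end
-- ===== PACK-END LT/A2/H488/Form.lean

-- ===== PACK-BEGIN LT/A2/H492/CpxReg.lean
section


/-!
# Row LT, tower A2, leaf A2.03.1.1.10.05 `CX798.RegC` (helper492)

OFF-MAIN.  `regC492 : CX798.RegC` VERBATIM (Spec `LT/A2/H798/CpxSpec.lean` of helper798, byte-identical
copy): for `c ≠ 0`, `ω₁ ≠ ω₂` the closed form `FC c ω₁ ω₂ g m` of the local Weil family at a
complex place is continuous and integrable on `ℂ × ℂ` for every admissible pair `(g, m)`, and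
jointly continuous on the admissible pairs.

Proof.  On an admissible pair `N = rowN g > 0` (`det g ≠ 0`) and `λ₁ λ₂ = det m ≠ 0`.
`‖FC g m ξ‖ = (‖λ₁ λ₂‖ / N) exp(-2π‖c‖ (‖λ₂ z₁‖² + ‖λ₁ z₂‖²) / N)`, and
`‖ω₁ - ω₂‖² (‖ξ₁‖² + ‖ξ₂‖²) ≤ 2 (1 + ‖ω₁‖² + ‖ω₂‖²) (‖z₁‖² + ‖z₂‖²)`, so `FC g m` is dominated by
a product of two Gaussians on `ℂ` (`integrable_exp_neg_mul_sq` on `ℝ`, twice).
The pointwise Gaussian bound `norm_FC_le492` has explicit constants (reusable for `DecayC`).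
-/

set_option autoImplicit false

open MeasureTheory
open scoped ComplexConjugate

noncomputable section

namespace Fermat.Agent.LT.A2.H492

open Fermat.Agent.LT.A2 Fermat.Agent.LT.A2.WX467 Fermat.Agent.LT.A2.CX798

/-! ## 1. Algebra of the admissible pairs -/

theorem rowN_nonneg492 (g : Matrix (Fin 2) (Fin 2) ℂ) : 0 ≤ rowN g := by
  unfold rowN
  positivity

theorem rowN_pos492 {g : Matrix (Fin 2) (Fin 2) ℂ} (h : g.det ≠ 0) : 0 < rowN g := by
  rcases (rowN_nonneg492 g).lt_or_eq with h1 | h1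
  · exact h1
  · exfalso
    unfold rowN at h1
    have ha : ‖g 1 0‖ ^ 2 = 0 := by nlinarith [sq_nonneg ‖g 1 0‖, sq_nonneg ‖g 1 1‖]
    have hb : ‖g 1 1‖ ^ 2 = 0 := by nlinarith [sq_nonneg ‖g 1 0‖, sq_nonneg ‖g 1 1‖]
    have h10 : g 1 0 = 0 := norm_eq_zero.mp ((pow_eq_zero_iff (two_ne_zero)).mp ha)
    have h11 : g 1 1 = 0 := norm_eq_zero.mp ((pow_eq_zero_iff (two_ne_zero)).mp hb)
    apply h
    rw [Matrix.det_fin_two, h10, h11]
    ring

theorem lam_mul_lam492 (ω₁ ω₂ : ℂ) {m : Matrix (Fin 2) (Fin 2) ℂ}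
    (hm : InTorL (ω₁ + ω₂) (ω₁ * ω₂) m) : lam ω₁ m * lam ω₂ m = m.det := by
  obtain ⟨a, b, rfl⟩ := hm
  simp [lam, torMat, Matrix.det_fin_two]
  ring

theorem adm_facts492 {ω₁ ω₂ : ℂ} {g m : Matrix (Fin 2) (Fin 2) ℂ}
    (h : AdmL (ω₁ + ω₂) (ω₁ * ω₂) g m) :
    0 < rowN g ∧ lam ω₁ m ≠ 0 ∧ lam ω₂ m ≠ 0 := by
  obtain ⟨hT, hdet, hne⟩ := h
  have hl := lam_mul_lam492 ω₁ ω₂ hT
  refine ⟨rowN_pos492 (hdet ▸ hne), ?_, ?_⟩
  · intro h0
    apply hne
    rw [← hl, h0, zero_mul]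
  · intro h0
    apply hne
    rw [← hl, h0, mul_zero]

/-! ## 2. The norm of the closed form and the Gaussian bound -/

/-- The real part of the exponent of `FC`. -/
def expo492 (c ω₁ ω₂ : ℂ) (g m : Matrix (Fin 2) (Fin 2) ℂ) (ξ : ℂ × ℂ) : ℝ :=
  -(2 * Real.pi * ‖c‖ *
      (‖lam ω₂ m * (ξ.1 + ω₁ * ξ.2)‖ ^ 2 + ‖lam ω₁ m * (ξ.1 + ω₂ * ξ.2)‖ ^ 2) / rowN g)

theorem re_aux492 (x y : ℝ) :
    ((x : ℂ) + 4 * Real.pi * Complex.I * (y : ℂ)).re = x := by
  simp [Complex.add_re, Complex.mul_re]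

theorem norm_FC492 (c ω₁ ω₂ : ℂ) (g m : Matrix (Fin 2) (Fin 2) ℂ) (ξ : ℂ × ℂ) :
    ‖FC c ω₁ ω₂ g m ξ‖
      = |‖lam ω₁ m * lam ω₂ m‖ / rowN g| * Real.exp (expo492 c ω₁ ω₂ g m ξ) := by
  unfold FC expo492
  rw [norm_mul, Complex.norm_real, Real.norm_eq_abs, Complex.norm_exp, re_aux492]

theorem coord_bound492 (ω₁ ω₂ : ℂ) (ξ : ℂ × ℂ) :
    ‖ω₁ - ω₂‖ ^ 2 * (‖ξ.1‖ ^ 2 + ‖ξ.2‖ ^ 2)
      ≤ 2 * (1 + ‖ω₁‖ ^ 2 + ‖ω₂‖ ^ 2) *
          (‖ξ.1 + ω₁ * ξ.2‖ ^ 2 + ‖ξ.1 + ω₂ * ξ.2‖ ^ 2) := by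
  have e2 : (ω₁ - ω₂) * ξ.2 = (ξ.1 + ω₁ * ξ.2) - (ξ.1 + ω₂ * ξ.2) := by ring
  have e1 : (ω₁ - ω₂) * ξ.1 = ω₁ * (ξ.1 + ω₂ * ξ.2) - ω₂ * (ξ.1 + ω₁ * ξ.2) := by ring
  have n2 : ‖ω₁ - ω₂‖ * ‖ξ.2‖ ≤ ‖ξ.1 + ω₁ * ξ.2‖ + ‖ξ.1 + ω₂ * ξ.2‖ := by
    rw [← norm_mul, e2]
    exact norm_sub_le _ _
  have n1 : ‖ω₁ - ω₂‖ * ‖ξ.1‖ ≤ ‖ω₁‖ * ‖ξ.1 + ω₂ * ξ.2‖ + ‖ω₂‖ * ‖ξ.1 + ω₁ * ξ.2‖ := by
    rw [← norm_mul, e1]
    calc ‖ω₁ * (ξ.1 + ω₂ * ξ.2) - ω₂ * (ξ.1 + ω₁ * ξ.2)‖
        ≤ ‖ω₁ * (ξ.1 + ω₂ * ξ.2)‖ + ‖ω₂ * (ξ.1 + ω₁ * ξ.2)‖ := norm_sub_le _ _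
      _ = ‖ω₁‖ * ‖ξ.1 + ω₂ * ξ.2‖ + ‖ω₂‖ * ‖ξ.1 + ω₁ * ξ.2‖ := by rw [norm_mul, norm_mul]
  have hd : 0 ≤ ‖ω₁ - ω₂‖ := norm_nonneg _
  have hx1 : 0 ≤ ‖ξ.1‖ := norm_nonneg _
  have hx2 : 0 ≤ ‖ξ.2‖ := norm_nonneg _
  generalize ‖ξ.1 + ω₁ * ξ.2‖ = z₁ at n1 n2 ⊢
  generalize ‖ξ.1 + ω₂ * ξ.2‖ = z₂ at n1 n2 ⊢
  generalize ‖ω₁ - ω₂‖ = d at n1 n2 hd ⊢
  generalize ‖ω₁‖ = a₁ at n1 ⊢
  generalize ‖ω₂‖ = a₂ at n1 ⊢
  generalize ‖ξ.1‖ = x₁ at n1 hx1 ⊢
  generalize ‖ξ.2‖ = x₂ at n2 hx2 ⊢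
  have s1 : (d * x₁) ^ 2 ≤ (a₁ * z₂ + a₂ * z₁) ^ 2 :=
    pow_le_pow_left₀ (mul_nonneg hd hx1) n1 2
  have s2 : (d * x₂) ^ 2 ≤ (z₁ + z₂) ^ 2 := pow_le_pow_left₀ (mul_nonneg hd hx2) n2 2
  nlinarith [sq_nonneg (z₁ - z₂), sq_nonneg (a₁ * z₂ - a₂ * z₁),
    mul_nonneg (sq_nonneg a₁) (sq_nonneg z₁), mul_nonneg (sq_nonneg a₂) (sq_nonneg z₂)]

/-- **Pointwise Gaussian bound with explicit constants.**  If `rowN g > 0`, `λ₁, λ₂ ≠ 0` and
`ω₁ ≠ ω₂`, then with
`δ = 2π‖c‖ · min(‖λ₁‖², ‖λ₂‖²) · ‖ω₁ - ω₂‖² / (rowN g · 2 (1 + ‖ω₁‖² + ‖ω₂‖²))`: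
`Re(exponent) ≤ -δ (‖ξ₁‖² + ‖ξ₂‖²)`. -/
def delta492 (c ω₁ ω₂ : ℂ) (g m : Matrix (Fin 2) (Fin 2) ℂ) : ℝ :=
  2 * Real.pi * ‖c‖ / rowN g * min (‖lam ω₁ m‖ ^ 2) (‖lam ω₂ m‖ ^ 2) *
    (‖ω₁ - ω₂‖ ^ 2 / (2 * (1 + ‖ω₁‖ ^ 2 + ‖ω₂‖ ^ 2)))

theorem delta_pos492 {c ω₁ ω₂ : ℂ} (hc : c ≠ 0) (hω : ω₁ ≠ ω₂)
    {g m : Matrix (Fin 2) (Fin 2) ℂ} (hN : 0 < rowN g) (h1 : lam ω₁ m ≠ 0)
    (h2 : lam ω₂ m ≠ 0) : 0 < delta492 c ω₁ ω₂ g m := by
  unfold delta492
  have hc' : 0 < ‖c‖ := norm_pos_iff.mpr hc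
  have hd : 0 < ‖ω₁ - ω₂‖ := norm_pos_iff.mpr (sub_ne_zero.mpr hω)
  have hl1 : 0 < ‖lam ω₁ m‖ := norm_pos_iff.mpr h1
  have hl2 : 0 < ‖lam ω₂ m‖ := norm_pos_iff.mpr h2
  have hmin : 0 < min (‖lam ω₁ m‖ ^ 2) (‖lam ω₂ m‖ ^ 2) := lt_min (by positivity) (by positivity)
  positivity

theorem expo_le492 (c ω₁ ω₂ : ℂ) {g m : Matrix (Fin 2) (Fin 2) ℂ} (hN : 0 < rowN g)
    (ξ : ℂ × ℂ) :
    expo492 c ω₁ ω₂ g m ξ ≤ -(delta492 c ω₁ ω₂ g m * (‖ξ.1‖ ^ 2 + ‖ξ.2‖ ^ 2)) := by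
  unfold expo492 delta492
  rw [neg_le_neg_iff]
  have hC : (0 : ℝ) < 2 * (1 + ‖ω₁‖ ^ 2 + ‖ω₂‖ ^ 2) := by positivity
  have hP : 0 ≤ 2 * Real.pi * ‖c‖ / rowN g := by positivity
  have hb := coord_bound492 ω₁ ω₂ ξ
  set Z : ℝ := ‖ξ.1 + ω₁ * ξ.2‖ ^ 2 + ‖ξ.1 + ω₂ * ξ.2‖ ^ 2 with hZ
  set ℓ : ℝ := min (‖lam ω₁ m‖ ^ 2) (‖lam ω₂ m‖ ^ 2) with hℓ
  have hℓ0 : 0 ≤ ℓ := le_min (by positivity) (by positivity)
  have hZ0 : 0 ≤ Z := by positivity
  -- the coordinate change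
  have h1 : ‖ω₁ - ω₂‖ ^ 2 / (2 * (1 + ‖ω₁‖ ^ 2 + ‖ω₂‖ ^ 2)) * (‖ξ.1‖ ^ 2 + ‖ξ.2‖ ^ 2) ≤ Z := by
    rw [div_mul_eq_mul_div, div_le_iff₀ hC]
    linarith
  -- the eigenvalues
  have h2 : ℓ * Z ≤ ‖lam ω₂ m * (ξ.1 + ω₁ * ξ.2)‖ ^ 2 + ‖lam ω₁ m * (ξ.1 + ω₂ * ξ.2)‖ ^ 2 := by
    rw [norm_mul, norm_mul, mul_pow, mul_pow, hZ, mul_add]
    have ha : ℓ * ‖ξ.1 + ω₁ * ξ.2‖ ^ 2 ≤ ‖lam ω₂ m‖ ^ 2 * ‖ξ.1 + ω₁ * ξ.2‖ ^ 2 :=
      mul_le_mul_of_nonneg_right (min_le_right _ _) (by positivity)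
    have hb' : ℓ * ‖ξ.1 + ω₂ * ξ.2‖ ^ 2 ≤ ‖lam ω₁ m‖ ^ 2 * ‖ξ.1 + ω₂ * ξ.2‖ ^ 2 :=
      mul_le_mul_of_nonneg_right (min_le_left _ _) (by positivity)
    linarith
  calc 2 * Real.pi * ‖c‖ / rowN g * ℓ *
          (‖ω₁ - ω₂‖ ^ 2 / (2 * (1 + ‖ω₁‖ ^ 2 + ‖ω₂‖ ^ 2))) * (‖ξ.1‖ ^ 2 + ‖ξ.2‖ ^ 2)
      = 2 * Real.pi * ‖c‖ / rowN g * (ℓ *
          (‖ω₁ - ω₂‖ ^ 2 / (2 * (1 + ‖ω₁‖ ^ 2 + ‖ω₂‖ ^ 2)) * (‖ξ.1‖ ^ 2 + ‖ξ.2‖ ^ 2))) := by
        ring
    _ ≤ 2 * Real.pi * ‖c‖ / rowN g * (ℓ * Z) :=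
        mul_le_mul_of_nonneg_left (mul_le_mul_of_nonneg_left h1 hℓ0) hP
    _ ≤ 2 * Real.pi * ‖c‖ / rowN g *
          (‖lam ω₂ m * (ξ.1 + ω₁ * ξ.2)‖ ^ 2 + ‖lam ω₁ m * (ξ.1 + ω₂ * ξ.2)‖ ^ 2) :=
        mul_le_mul_of_nonneg_left h2 hP
    _ = 2 * Real.pi * ‖c‖ *
          (‖lam ω₂ m * (ξ.1 + ω₁ * ξ.2)‖ ^ 2 + ‖lam ω₁ m * (ξ.1 + ω₂ * ξ.2)‖ ^ 2) / rowN g := by
        ring

theorem norm_FC_le492 (c ω₁ ω₂ : ℂ) {g m : Matrix (Fin 2) (Fin 2) ℂ} (hN : 0 < rowN g)
    (ξ : ℂ × ℂ) :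
    ‖FC c ω₁ ω₂ g m ξ‖ ≤ ‖lam ω₁ m * lam ω₂ m‖ / rowN g *
      Real.exp (-(delta492 c ω₁ ω₂ g m * (‖ξ.1‖ ^ 2 + ‖ξ.2‖ ^ 2))) := by
  rw [norm_FC492, abs_of_nonneg (by positivity)]
  exact mul_le_mul_of_nonneg_left (Real.exp_le_exp.mpr (expo_le492 c ω₁ ω₂ hN ξ)) (by positivity)

/-! ## 3. Continuity in `ξ` -/

theorem continuous_FC492 (c ω₁ ω₂ : ℂ) (g m : Matrix (Fin 2) (Fin 2) ℂ) :
    Continuous (FC c ω₁ ω₂ g m) := by
  unfold FC
  fun_prop

/-! ## 4. Integrability -/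

theorem integrable_gauss492 {δ : ℝ} (hδ : 0 < δ) :
    Integrable (fun z : ℂ => Real.exp (-(δ * ‖z‖ ^ 2))) := by
  have h1 : Integrable (fun p : ℝ × ℝ => Real.exp (-δ * p.1 ^ 2) * Real.exp (-δ * p.2 ^ 2))
      ((volume : Measure ℝ).prod volume) :=
    Integrable.mul_prod (integrable_exp_neg_mul_sq hδ) (integrable_exp_neg_mul_sq hδ)
  have h2 := (Complex.volume_preserving_equiv_real_prod.integrable_comp_emb
    Complex.measurableEquivRealProd.measurableEmbedding).mpr h1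
  refine h2.congr (Filter.Eventually.of_forall fun z => ?_)
  simp only [Function.comp_apply, Complex.measurableEquivRealProd_apply]
  rw [← Real.exp_add]
  congr 1
  rw [Complex.sq_norm, Complex.normSq_apply]
  ring

theorem integrable_FC492 {c ω₁ ω₂ : ℂ} (hc : c ≠ 0) (hω : ω₁ ≠ ω₂)
    {g m : Matrix (Fin 2) (Fin 2) ℂ} (h : AdmL (ω₁ + ω₂) (ω₁ * ω₂) g m) :
    IntegrableL volC (FC c ω₁ ω₂ g m) := by
  obtain ⟨hN, h1, h2⟩ := adm_facts492 h
  have hδ := delta_pos492 hc hω hN h1 h2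
  show Integrable (FC c ω₁ ω₂ g m) ((volume : Measure ℂ).prod (volume : Measure ℂ))
  have hG := integrable_gauss492 hδ
  have hdom : Integrable (fun ξ : ℂ × ℂ => ‖lam ω₁ m * lam ω₂ m‖ / rowN g *
      (Real.exp (-(delta492 c ω₁ ω₂ g m * ‖ξ.1‖ ^ 2)) *
        Real.exp (-(delta492 c ω₁ ω₂ g m * ‖ξ.2‖ ^ 2))))
      ((volume : Measure ℂ).prod (volume : Measure ℂ)) :=
    (Integrable.mul_prod hG hG).const_mul _
  refine hdom.mono' (continuous_FC492 c ω₁ ω₂ g m).aestronglyMeasurable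
    (Filter.Eventually.of_forall fun ξ => ?_)
  refine (norm_FC_le492 c ω₁ ω₂ hN ξ).trans (le_of_eq ?_)
  rw [← Real.exp_add]
  congr 2
  ring

/-! ## 5. Joint continuity on the admissible pairs -/

theorem continuousOn_FC492 (c ω₁ ω₂ : ℂ) :
    ContinuousOn
      (fun q : (Matrix (Fin 2) (Fin 2) ℂ × Matrix (Fin 2) (Fin 2) ℂ) × (ℂ × ℂ) =>
        FC c ω₁ ω₂ q.1.1 q.1.2 q.2)
      {q | AdmL (ω₁ + ω₂) (ω₁ * ω₂) q.1.1 q.1.2} := by
  have hsub : {q : (Matrix (Fin 2) (Fin 2) ℂ × Matrix (Fin 2) (Fin 2) ℂ) × (ℂ × ℂ) |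
      AdmL (ω₁ + ω₂) (ω₁ * ω₂) q.1.1 q.1.2} ⊆ {q | rowN q.1.1 ≠ 0} :=
    fun q hq => (adm_facts492 hq).1.ne'
  refine ContinuousOn.mono ?_ hsub
  have hN : Continuous (fun q : (Matrix (Fin 2) (Fin 2) ℂ × Matrix (Fin 2) (Fin 2) ℂ) × (ℂ × ℂ)
      => rowN q.1.1) := by
    unfold rowN
    fun_prop
  have hB : Continuous (fun q : (Matrix (Fin 2) (Fin 2) ℂ × Matrix (Fin 2) (Fin 2) ℂ) × (ℂ × ℂ)
      => rowB q.1.1) := by
    unfold rowB
    fun_prop
  have hL : ∀ ω : ℂ, Continuous (fun q : (Matrix (Fin 2) (Fin 2) ℂ × Matrix (Fin 2) (Fin 2) ℂ) ×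
      (ℂ × ℂ) => lam ω q.1.2) := by
    intro ω
    unfold lam
    fun_prop
  have hL1 := hL ω₁
  have hL2 := hL ω₂
  have hz : ∀ ω : ℂ, Continuous (fun q : (Matrix (Fin 2) (Fin 2) ℂ × Matrix (Fin 2) (Fin 2) ℂ) ×
      (ℂ × ℂ) => q.2.1 + ω * q.2.2) := by
    intro ω
    fun_prop
  have hA : Continuous (fun q : (Matrix (Fin 2) (Fin 2) ℂ × Matrix (Fin 2) (Fin 2) ℂ) ×
      (ℂ × ℂ) => ‖lam ω₁ q.1.2 * lam ω₂ q.1.2‖) := (hL1.mul hL2).norm
  have hE : Continuous (fun q : (Matrix (Fin 2) (Fin 2) ℂ × Matrix (Fin 2) (Fin 2) ℂ) ×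
      (ℂ × ℂ) => 2 * Real.pi * ‖c‖ *
        (‖lam ω₂ q.1.2 * (q.2.1 + ω₁ * q.2.2)‖ ^ 2 + ‖lam ω₁ q.1.2 * (q.2.1 + ω₂ * q.2.2)‖ ^ 2)) :=
    continuous_const.mul
      (((hL2.mul (hz ω₁)).norm.pow 2).add ((hL1.mul (hz ω₂)).norm.pow 2))
  have hR : Continuous (fun q : (Matrix (Fin 2) (Fin 2) ℂ × Matrix (Fin 2) (Fin 2) ℂ) ×
      (ℂ × ℂ) => (c * rowB q.1.1 * ((q.2.1 + ω₁ * q.2.2) * (q.2.1 + ω₂ * q.2.2))).re) :=
    Complex.continuous_re.comp ((continuous_const.mul hB).mul ((hz ω₁).mul (hz ω₂)))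
  have hne : ∀ q ∈ {q : (Matrix (Fin 2) (Fin 2) ℂ × Matrix (Fin 2) (Fin 2) ℂ) × (ℂ × ℂ) |
      rowN q.1.1 ≠ 0}, rowN q.1.1 ≠ 0 := fun q hq => hq
  have c1 := Complex.continuous_ofReal.comp_continuousOn
    (hA.continuousOn.div hN.continuousOn hne)
  have c2 := Complex.continuous_ofReal.comp_continuousOn
    ((hE.continuousOn.div hN.continuousOn hne).neg)
  have c3 := Complex.continuous_ofReal.comp_continuousOn
    (hR.continuousOn.div hN.continuousOn hne)
  have c4 : ContinuousOn (fun _ : (Matrix (Fin 2) (Fin 2) ℂ × Matrix (Fin 2) (Fin 2) ℂ) ×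
      (ℂ × ℂ) => 4 * (Real.pi : ℂ) * Complex.I) {q | rowN q.1.1 ≠ 0} := continuousOn_const
  exact (c1.mul (Complex.continuous_exp.comp_continuousOn (c2.add (c4.mul c3)))).congr
    (fun q _ => rfl)

/-! ## 6. The leaf -/

/-- **Leaf A2.03.1.1.10.05** `CX798.RegC`, VERBATIM. -/
theorem regC492 : CX798.RegC := by
  intro c ω₁ ω₂ hc hω
  exact ⟨fun g m h => ⟨continuous_FC492 c ω₁ ω₂ g m, integrable_FC492 hc hω h⟩,
    continuousOn_FC492 c ω₁ ω₂⟩

end Fermat.Agent.LT.A2.H492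

end

end
-- ===== PACK-END LT/A2/H492/CpxReg.lean

-- ===== PACK-BEGIN LT/T7/H568/IdeleCoordSpec.lean
section



/-!
# Row LT, tower T7, node T7.14.6c.4 `IdeleCoordC568`: SUB-SPEC (helper568)

OFF-MAIN.  Definitions and frozen sub-leaf Props only (the proved assembly is in
`IdeleCoordTop.lean`).  Nothing is assumed, no `sorry`.

## The cut

`H = {y : y_v ∈ 1 + 𝔪 𝒪_v (v ∈ S), y_v ∈ 𝒪_vˣ (v ∉ S)}` is an open subgroup of the ideles,
the support is the disjoint union of the cosets `E_𝔞 = z_𝔞 H` (`𝔞` prime to `S`), and the image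
of `τ|_H` under `rad` is a non-zero scaling-invariant measure on the positive orthant which is
finite on compact boxes, hence `κ ∏ dr_w / r_w`.

* `CosetC568`    (algebra)   `E_𝔞 = z_𝔞 H` with `rad (z_𝔞 y) = rad y`.
* `HOpenC568`    (topology)  `H` is open in the idele group.
* `HCompactC568` (topology)  `H ∩ {a ≤ rad ≤ b}` is compact.
* `ScaleC568`    (algebra)   scaling of the radii lifts to a translation of the ideles fixing `H`.
* `HaarPosC568`  (Mathlib only) uniqueness of Haar measure on the positive orthant, in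
  coordinates.
* `TonelliSumC568` (Mathlib only) integration over a countable disjoint union of pieces, with
  the junk-value cases.
-/

set_option autoImplicit false
set_option linter.unusedSectionVars false
set_option linter.unusedVariables false

open AutomorphicForm IsDedekindDomain NumberField Filter Topology MeasureTheory
open scoped ComplexConjugate ENNReal

noncomputable section

namespace Fermat.Agent.LT.T7.H568

open Fermat.Agent.LT.H556 Fermat.Agent.LT.H556.A0 Fermat.Agent.LT.T7 Fermat.Agent.LT.T7.Rigid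

variable {K : Type} [Field K] [NumberField K]

/-! ## Vocabulary -/

/-- The coset of the ideal `𝔞` in the support. -/
def cosetSet568 (S : Finset (HeightOneSpectrum (𝓞 K))) (𝔪 : Ideal (𝓞 K)) (y₀ : (Adl K)ˣ)
    (𝔞 : Ideal (𝓞 K)) : Set (Adl K)ˣ :=
  {y | OnSupp568 S 𝔪 y₀ y ∧ idl568 S y = 𝔞}

/-- The open subgroup `H`: `y_v ∈ 1 + 𝔪 𝒪_v` for `v ∈ S`, `y_v ∈ 𝒪_vˣ` for `v ∉ S`. -/
def hSub568 (S : Finset (HeightOneSpectrum (𝓞 K))) (𝔪 : Ideal (𝓞 K)) : Set (Adl K)ˣ :=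
  {y | InCell S 𝔪 1 y ∧ ∀ v : HeightOneSpectrum (𝓞 K), v ∉ S → ordI v y = 0}

/-- The box `a ≤ r_w ≤ b` in the radii. -/
def radBox568 (a b : ℝ) : Set (Adl K)ˣ :=
  {y | ∀ w : InfinitePlace K, a ≤ rad568 y w ∧ rad568 y w ≤ b}

variable (K) in
/-- The measure `∏_w dr_w / r_w` on the positive orthant. -/
def posHaar568 : Measure (InfinitePlace K → ℝ) :=
  (volume.restrict (Pos568 K)).withDensity
    fun r => ENNReal.ofReal (∏ w : InfinitePlace K, r w)⁻¹

/-! ## The sub-leaves -/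

variable (K)

/-- **T7.14.6c.4a COSET (algebra).**  For `𝔞 ≠ 0` prime to `S` there is an idele `z` (trivial
at the infinite places, `y₀` at `S`, `ϖ_v ^ ord_v 𝔞` outside `S`) with `E_𝔞 = z H`. -/
def CosetC568 : Prop :=
  ∀ (S : Finset (HeightOneSpectrum (𝓞 K))) (𝔪 : Ideal (𝓞 K)) (y₀ : (Adl K)ˣ), IsSupp S 𝔪 →
    ∀ 𝔞 : Ideal (𝓞 K), PrimeTo568 S 𝔞 →
      ∃ z : (Adl K)ˣ, (∀ y : (Adl K)ˣ, rad568 (z * y) = rad568 y) ∧
        ∀ y : (Adl K)ˣ, z * y ∈ cosetSet568 S 𝔪 y₀ 𝔞 ↔ y ∈ hSub568 S 𝔪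

/-- **T7.14.6c.4b H-OPEN (topology of the ideles).**  `H` is open. -/
def HOpenC568 : Prop :=
  ∀ (S : Finset (HeightOneSpectrum (𝓞 K))) (𝔪 : Ideal (𝓞 K)), IsSupp S 𝔪 →
    IsOpen (hSub568 S 𝔪)

/-- **T7.14.6c.4c H-COMPACT (topology of the ideles).**  `H ∩ {a ≤ rad ≤ b}` is compact. -/
def HCompactC568 : Prop :=
  ∀ (S : Finset (HeightOneSpectrum (𝓞 K))) (𝔪 : Ideal (𝓞 K)), IsSupp S 𝔪 →
    ∀ a b : ℝ, 0 < a → a ≤ b → IsCompact (hSub568 S 𝔪 ∩ radBox568 (K := K) a b)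

/-- **T7.14.6c.4d SCALE (algebra).**  Scaling of the radii by `t > 0` lifts to the translation
by an idele which is trivial at the finite places. -/
def ScaleC568 : Prop :=
  TotCplx K →
  ∀ t : InfinitePlace K → ℝ, (∀ w, 0 < t w) →
    ∃ z : (Adl K)ˣ, ∀ y : (Adl K)ˣ,
      rad568 (z * y) = (fun w => t w * rad568 y w) ∧
      ∀ (S : Finset (HeightOneSpectrum (𝓞 K))) (𝔪 : Ideal (𝓞 K)),
        (z * y ∈ hSub568 S 𝔪 ↔ y ∈ hSub568 S 𝔪)

end Fermat.Agent.LT.T7.H568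

namespace Fermat.Agent.LT.T7.H568

/-- **T7.14.6c.4e HAAR-POS (Mathlib only).**  A non-zero measure on `ι → ℝ` which is carried by
the positive orthant, invariant under the scalings `r ↦ t r` (`t > 0`) and finite on the boxes
`[a, b]^ι` (`0 < a`) is `κ ∏ dr_i / r_i`. -/
def HaarPosC568 : Prop :=
  ∀ (ι : Type) [Fintype ι] (ρ : Measure (ι → ℝ)),
    ρ {r | ¬ ∀ i, 0 < r i} = 0 →
    (∀ t : ι → ℝ, (∀ i, 0 < t i) → ρ.map (fun r i => t i * r i) = ρ) →
    (∀ a b : ℝ, 0 < a → a ≤ b → ρ {r | ∀ i, a ≤ r i ∧ r i ≤ b} < ⊤) →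
    ρ ≠ 0 →
    ∃ κ : ℝ, 0 < κ ∧
      ∀ h : (ι → ℝ) → ℝ≥0∞, Measurable h →
        ∫⁻ r, h r ∂ρ
          = ENNReal.ofReal κ
              * ∫⁻ r in {r : ι → ℝ | ∀ i, 0 < r i}, h r * ENNReal.ofReal (∏ i, r i)⁻¹

open Classical in
/-- **T7.14.6c.4f TONELLI-SUM (Mathlib only).**  Integration over a countable disjoint union
of pieces `E_a = {x ∈ E : ind x = a}` on each of which the image of `τ` under `φ` is `κ ν`;
both sides are the junk value `0` simultaneously. -/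
def TonelliSumC568 : Prop :=
  ∀ (X R A : Type) [MeasurableSpace X] [MeasurableSpace R] [Countable A]
    (τ : Measure X) (ν : Measure R) (φ : X → R) (ind : X → A) (E : Set X) (P : A → Prop)
    (κ : ℝ), 0 < κ → Measurable φ →
    (∀ a, P a → MeasurableSet {x | x ∈ E ∧ ind x = a}) →
    (∀ a, P a → ∀ h : R → ℝ≥0∞, Measurable h →
      ∫⁻ x in {x | x ∈ E ∧ ind x = a}, h (φ x) ∂τ = ENNReal.ofReal κ * ∫⁻ r, h r ∂ν) →
    ∀ (b : A → ℂ) (g : R → A → ℝ), (∀ a, Measurable fun r => g r a) → (∀ r a, 0 ≤ g r a) →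
      (∀ a, P a → Integrable (fun r => g r a) ν) → (∀ a, ¬ P a → b a = 0) →
      ∫ x, (if x ∈ E then b (ind x) * ((g (φ x) (ind x) : ℝ) : ℂ) else 0) ∂τ
        = (κ : ℂ) * ∑' a : A, b a * ((∫ r, g r a ∂ν : ℝ) : ℂ)

end Fermat.Agent.LT.T7.H568

end

end
-- ===== PACK-END LT/T7/H568/IdeleCoordSpec.lean

-- ===== PACK-BEGIN LT/T7/H502/NormVal.lean
section
/-
T7.14.6c.1 (helper502): `NormValC568`, VERBATIM against `LT/T7/H568/IdeleSpec.lean`
(helper568@4cfb36664, sha256 ce2f0c61e936d040).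

On the support of the model Kirillov functions the ideal `idl568 S y` is non-zero and prime to
`S`, and `|y|_𝔸 = ∏_w r_w^{[K_w:ℝ]} · t₀ / N(idl568 S y)`.
-/



set_option autoImplicit false

open AutomorphicForm IsDedekindDomain NumberField Filter Topology

noncomputable section

namespace Fermat.Agent.LT.T7.H502

open Fermat.Agent.LT.H556 Fermat.Agent.LT.H556.A0 Fermat.Agent.LT.T7 Fermat.Agent.LT.T7.Rigid
open Fermat.Agent.LT.T7.H568

variable {K : Type} [Field K] [NumberField K]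

/-! ## The norm of the completion in terms of the valuation -/

theorem norm_eq_zpow502 (v : HeightOneSpectrum (𝓞 K)) (x : v.adicCompletion K) (hx : x ≠ 0) :
    ‖x‖ = (Ideal.absNorm v.asIdeal : ℝ) ^ (WithZero.log (Valued.v x)) := by
  have hv : (Valued.v x : WithZero (Multiplicative ℤ)) ≠ 0 := (Valuation.ne_zero_iff _).2 hx
  rw [NumberField.FinitePlace.norm_def, WithZeroMulInt.toNNReal_neg_apply _ hv,
    WithZero.toAdd_unzero_eq_log]
  push_cast
  rfl

theorem norm_eq_one_of_val502 (v : HeightOneSpectrum (𝓞 K)) (x : v.adicCompletion K)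
    (hx : Valued.v x = 1) : ‖x‖ = 1 := by
  have hx0 : x ≠ 0 := by
    intro h
    rw [h, map_zero] at hx
    exact zero_ne_one hx
  rw [norm_eq_zpow502 v x hx0, hx, WithZero.log_one, zpow_zero]

/-! ## Ideles: components at the finite places -/

theorem snd_mul_inv502 (y : (Adl K)ˣ) (v : HeightOneSpectrum (𝓞 K)) :
    (y : Adl K).2 v * ((y⁻¹ : (Adl K)ˣ) : Adl K).2 v = 1 := by
  have h1 : ((y : Adl K) * ((y⁻¹ : (Adl K)ˣ) : Adl K)).2 v = (1 : Adl K).2 v := by
    rw [Units.mul_inv]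
  exact h1

theorem eventually_int502 (x : Adl K) :
    ∀ᶠ v : HeightOneSpectrum (𝓞 K) in cofinite, Valued.v (x.2 v) ≤ 1 := by
  let z : RestrictedProduct (fun v : HeightOneSpectrum (𝓞 K) => v.adicCompletion K)
      (fun v => (v.adicCompletionIntegers K : Set (v.adicCompletion K))) cofinite := x.2
  have h : ∀ᶠ v : HeightOneSpectrum (𝓞 K) in cofinite,
      z v ∈ (v.adicCompletionIntegers K : Set (v.adicCompletion K)) :=
    z.2
  exact h

theorem eventually_val_eq_one502 (y : (Adl K)ˣ) :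
    ∀ᶠ v : HeightOneSpectrum (𝓞 K) in cofinite, Valued.v ((y : Adl K).2 v) = 1 := by
  filter_upwards [eventually_int502 (y : Adl K),
    eventually_int502 ((y⁻¹ : (Adl K)ˣ) : Adl K)] with v h1 h2
  have hm := snd_mul_inv502 y v
  have hv : Valued.v ((y : Adl K).2 v) * Valued.v (((y⁻¹ : (Adl K)ˣ) : Adl K).2 v) = 1 := by
    rw [← map_mul, hm, map_one]
  refine le_antisymm h1 ?_
  by_contra hlt
  rw [not_le] at hlt
  have hne : Valued.v (((y⁻¹ : (Adl K)ˣ) : Adl K).2 v) ≠ 0 := by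
    intro h0
    rw [h0, mul_zero] at hv
    exact zero_ne_one hv
  have : Valued.v ((y : Adl K).2 v) * Valued.v (((y⁻¹ : (Adl K)ˣ) : Adl K).2 v) < 1 := by
    calc Valued.v ((y : Adl K).2 v) * Valued.v (((y⁻¹ : (Adl K)ˣ) : Adl K).2 v)
        < 1 * Valued.v (((y⁻¹ : (Adl K)ˣ) : Adl K).2 v) :=
          mul_lt_mul_of_pos_right hlt (zero_lt_iff.2 hne)
      _ ≤ 1 * 1 := by gcongr
      _ = 1 := one_mul 1
  exact absurd hv this.ne

theorem finite_val_ne_one502 (y : (Adl K)ˣ) :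
    {v : HeightOneSpectrum (𝓞 K) | Valued.v ((y : Adl K).2 v) ≠ 1}.Finite := by
  have := eventually_val_eq_one502 y
  rwa [Filter.eventually_cofinite] at this

theorem ordI_eq_zero_of_val502 (y : (Adl K)ˣ) (v : HeightOneSpectrum (𝓞 K))
    (h : Valued.v ((y : Adl K).2 v) = 1) : ordI v y = 0 := by
  unfold ordI
  rw [h, WithZero.log_one, neg_zero]

theorem norm_snd_eq502 (y : (Adl K)ˣ) (v : HeightOneSpectrum (𝓞 K)) :
    ‖(y : Adl K).2 v‖ = (Ideal.absNorm v.asIdeal : ℝ) ^ (-(ordI v y)) := by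
  rw [norm_eq_zpow502 v _ (unit_snd_ne_zero568 y v)]
  unfold ordI
  rw [neg_neg]

/-! ## The cell at the places of `S` -/

theorem val_lt_one_of_mem_closure502 (𝔪 : Ideal (𝓞 K)) (v : HeightOneSpectrum (𝓞 K))
    (hv : v.asIdeal ∣ 𝔪) (u : v.adicCompletion K) (hu : u ∈ idealClosure 𝔪 v) :
    Valued.v u < 1 := by
  unfold idealClosure at hu
  rw [Metric.mem_closure_iff] at hu
  obtain ⟨b, ⟨x, hx, rfl⟩, hb⟩ := hu 1 one_pos
  have hxv : Valued.v (algebraMap K (v.adicCompletion K) (algebraMap (𝓞 K) K x)) < 1 := by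
    have hxm : x ∈ v.asIdeal := Ideal.le_of_dvd hv hx
    have h1 : algebraMap K (v.adicCompletion K) (algebraMap (𝓞 K) K x)
        = ((algebraMap (𝓞 K) K x : K) : v.adicCompletion K) := rfl
    rw [h1, HeightOneSpectrum.valuedAdicCompletion_eq_valuation',
      HeightOneSpectrum.valuation_lt_one_iff_mem]
    exact hxm
  rw [dist_eq_norm, Valued.toNormedField.norm_lt_one_iff] at hb
  calc Valued.v u
      = Valued.v ((u - algebraMap K (v.adicCompletion K) (algebraMap (𝓞 K) K x))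
          + algebraMap K (v.adicCompletion K) (algebraMap (𝓞 K) K x)) := by
        rw [sub_add_cancel]
    _ ≤ max (Valued.v (u - algebraMap K (v.adicCompletion K) (algebraMap (𝓞 K) K x)))
          (Valued.v (algebraMap K (v.adicCompletion K) (algebraMap (𝓞 K) K x))) :=
        Valuation.map_add _ _ _
    _ < 1 := max_lt hb hxv

theorem norm_cell502 (S : Finset (HeightOneSpectrum (𝓞 K))) (𝔪 : Ideal (𝓞 K))
    (y₀ y : (Adl K)ˣ) (hsupp : IsSupp S 𝔪) (hy : InCell S 𝔪 y₀ y)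
    (v : HeightOneSpectrum (𝓞 K)) (hv : v ∈ S) :
    ‖(y : Adl K).2 v‖ = ‖(y₀ : Adl K).2 v‖ := by
  obtain ⟨u, hu, hyu⟩ := hy v hv
  have hlt := val_lt_one_of_mem_closure502 𝔪 v ((hsupp.2 v).2 hv) u hu
  have h1 : Valued.v (1 + u) = 1 := Valuation.map_one_add_of_lt _ hlt
  rw [hyu, norm_mul, norm_eq_one_of_val502 v _ h1, mul_one]

/-! ## The ideal of an idele outside `S` -/

open Classical in
/-- The factor of `idl568` at the place `v`. -/
def idlF502 (S : Finset (HeightOneSpectrum (𝓞 K))) (y : (Adl K)ˣ)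
    (v : HeightOneSpectrum (𝓞 K)) : Ideal (𝓞 K) :=
  if v ∈ S then (1 : Ideal (𝓞 K)) else v.asIdeal ^ (ordI v y).toNat

theorem idl568_eq502 (S : Finset (HeightOneSpectrum (𝓞 K))) (y : (Adl K)ˣ) :
    idl568 S y = ∏ᶠ v : HeightOneSpectrum (𝓞 K), idlF502 S y v := rfl

theorem idlF_eq_one502 (S : Finset (HeightOneSpectrum (𝓞 K))) (y : (Adl K)ˣ)
    (v : HeightOneSpectrum (𝓞 K)) (h : Valued.v ((y : Adl K).2 v) = 1) :
    idlF502 S y v = 1 := by
  unfold idlF502
  split_ifs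
  · rfl
  · rw [ordI_eq_zero_of_val502 y v h, Int.toNat_zero, pow_zero]

theorem idlF_ne_bot502 (S : Finset (HeightOneSpectrum (𝓞 K))) (y : (Adl K)ˣ)
    (v : HeightOneSpectrum (𝓞 K)) : idlF502 S y v ≠ ⊥ := by
  unfold idlF502
  split_ifs
  · rw [Ideal.one_eq_top]
    exact top_ne_bot
  · exact pow_ne_zero _ v.ne_bot

theorem idlF_not_le502 (S : Finset (HeightOneSpectrum (𝓞 K))) (y : (Adl K)ˣ)
    (v v₀ : HeightOneSpectrum (𝓞 K)) (hv₀ : v₀ ∈ S) : ¬ idlF502 S y v ≤ v₀.asIdeal := by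
  unfold idlF502
  split_ifs with hv
  · rw [Ideal.one_eq_top, top_le_iff]
    exact v₀.isPrime.ne_top
  · intro hle
    have h1 : v.asIdeal ≤ v₀.asIdeal := v₀.isPrime.le_of_pow_le hle
    have h2 : v.asIdeal = v₀.asIdeal :=
      (v.isMaximal.eq_of_le v₀.isPrime.ne_top h1)
    have h3 : v = v₀ := HeightOneSpectrum.ext h2
    exact hv (h3 ▸ hv₀)

theorem idl_eq_prod502 (S : Finset (HeightOneSpectrum (𝓞 K))) (y : (Adl K)ˣ)
    (T : Finset (HeightOneSpectrum (𝓞 K)))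
    (hT : ∀ v : HeightOneSpectrum (𝓞 K), Valued.v ((y : Adl K).2 v) ≠ 1 → v ∈ T) :
    idl568 S y = ∏ v ∈ T, idlF502 S y v := by
  rw [idl568_eq502]
  refine finprod_eq_prod_of_mulSupport_subset _ ?_
  intro v hv
  rw [Function.mem_mulSupport] at hv
  by_contra hvT
  refine hv (idlF_eq_one502 S y v ?_)
  by_contra h
  exact hvT (Finset.mem_coe.2 (hT v h))

theorem primeTo_idl502 (S : Finset (HeightOneSpectrum (𝓞 K))) (y : (Adl K)ˣ) :
    PrimeTo568 S (idl568 S y) := by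
  classical
  have hT : ∀ v : HeightOneSpectrum (𝓞 K), Valued.v ((y : Adl K).2 v) ≠ 1 →
      v ∈ (finite_val_ne_one502 y).toFinset := fun v hv => by
    rw [Set.Finite.mem_toFinset]
    exact hv
  rw [idl_eq_prod502 S y _ hT]
  refine ⟨?_, fun v₀ hv₀ hle => ?_⟩
  · rw [← Ideal.zero_eq_bot, Finset.prod_ne_zero_iff]
    intro v _
    exact idlF_ne_bot502 S y v
  · obtain ⟨v, -, hv⟩ := (Ideal.IsPrime.prod_le v₀.isPrime).1 hle
    exact idlF_not_le502 S y v v₀ hv₀ hv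

/-! ## The norm of an idele on the support -/

open Classical in
theorem absNorm_idlF502 (S : Finset (HeightOneSpectrum (𝓞 K))) (y : (Adl K)ˣ)
    (v : HeightOneSpectrum (𝓞 K)) :
    (Ideal.absNorm (idlF502 S y v) : ℝ)
      = if v ∈ S then 1 else (Ideal.absNorm v.asIdeal : ℝ) ^ (ordI v y).toNat := by
  unfold idlF502
  split_ifs
  · simp
  · rw [map_pow]
    push_cast
    rfl

theorem norm_snd_off502 (y : (Adl K)ˣ)
    (v : HeightOneSpectrum (𝓞 K)) (hv : 0 ≤ ordI v y) :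
    ‖(y : Adl K).2 v‖ = 1 / (Ideal.absNorm v.asIdeal : ℝ) ^ (ordI v y).toNat := by
  rw [norm_snd_eq502, zpow_neg, one_div]
  congr 1
  conv_lhs => rw [← Int.toNat_of_nonneg hv]
  rw [zpow_natCast]

/-- **T7.14.6c.1 `NormValC568`.** -/
theorem normValC502 (K : Type) [Field K] [NumberField K] : NormValC568 K := by
  classical
  intro S 𝔪 y₀ hsupp y hy
  obtain ⟨hcell, hord⟩ := hy
  refine ⟨primeTo_idl502 S y, ?_⟩
  set T : Finset (HeightOneSpectrum (𝓞 K)) := S ∪ (finite_val_ne_one502 y).toFinset with hTdef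
  have hT : ∀ v : HeightOneSpectrum (𝓞 K), Valued.v ((y : Adl K).2 v) ≠ 1 → v ∈ T :=
    fun v hv => Finset.mem_union_right _ (by rw [Set.Finite.mem_toFinset]; exact hv)
  have hST : S ⊆ T := Finset.subset_union_left
  -- the finite part of the norm
  have hfin : ∏ᶠ v : HeightOneSpectrum (𝓞 K), ‖(y : Adl K).2 v‖
      = ∏ v ∈ T, ‖(y : Adl K).2 v‖ := by
    refine finprod_eq_prod_of_mulSupport_subset _ ?_
    intro v hv
    rw [Function.mem_mulSupport] at hv
    by_contra hvT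
    refine hv (norm_eq_one_of_val502 v _ ?_)
    by_contra h
    exact hvT (Finset.mem_coe.2 (hT v h))
  -- the factors
  have hfac : ∀ v ∈ T, ‖(y : Adl K).2 v‖
      = (if v ∈ S then ‖(y₀ : Adl K).2 v‖ else 1)
        / (if v ∈ S then 1 else (Ideal.absNorm v.asIdeal : ℝ) ^ (ordI v y).toNat) := by
    intro v _
    by_cases hv : v ∈ S
    · rw [if_pos hv, if_pos hv, div_one]
      exact norm_cell502 S 𝔪 y₀ y hsupp hcell v hv
    · rw [if_neg hv, if_neg hv]
      exact norm_snd_off502 y v (hord v hv)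
  have hA : ∏ v ∈ T, (if v ∈ S then ‖(y₀ : Adl K).2 v‖ else 1) = cellNorm568 S y₀ := by
    rw [Finset.prod_ite_mem, Finset.inter_eq_right.2 hST]
    rfl
  have hB : ∏ v ∈ T, (if v ∈ S then 1 else (Ideal.absNorm v.asIdeal : ℝ) ^ (ordI v y).toNat)
      = (Ideal.absNorm (idl568 S y) : ℝ) := by
    rw [idl_eq_prod502 S y T hT, map_prod]
    push_cast
    refine Finset.prod_congr rfl fun v _ => ?_
    rw [absNorm_idlF502]
  unfold Fermat.Agent.LT.T5.adNorm
  rw [hfin, Finset.prod_congr rfl hfac, Finset.prod_div_distrib, hA, hB, mul_div_assoc]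
  rfl

end Fermat.Agent.LT.T7.H502

end

end
-- ===== PACK-END LT/T7/H502/NormVal.lean

-- ===== PACK-BEGIN LT/T7/H122/ArchInt.lean
section



/-!
# Row LT, tower T7, leaf T7.14.6c.3 `ArchIntC568` (helper122)

OFF-MAIN.  Proves `H568.ArchIntC568 K` VERBATIM against
`LT/T7/H568/IdeleSpec.lean` (helper568@4cfb36664, sha256 `ce2f0c61…`), for every number field.

Route (weight trick): `cosh u ≥ 1 + u²/4` gives `K₀(t) ≤ e^{-t} √(π/t)` for `t > 0`, hence
`K₀(c r)² / r · r² ≤ (π/c) e^{-2 c r}`; on the region `T ≤ ∏ r_w²` (all places complex), so the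
integrand is at most `T⁻¹ ∏_w (π/c_w) e^{-2 c_w r_w} 1_{r_w > 0}`, a product of integrable
functions of one variable.
-/

set_option autoImplicit false

open MeasureTheory NumberField Set

noncomputable section

namespace Fermat.Agent.LT.T7.H122

open Fermat.Agent.LT.T7 Fermat.Agent.LT.T7.Rigid Fermat.Agent.LT.T7.H568

theorem cosh_lower122 {u : ℝ} (hu : 0 ≤ u) : 1 + u ^ 2 / 4 ≤ Real.cosh u := by
  have h1 := Real.quadratic_le_exp_of_nonneg hu
  have h2 := Real.add_one_le_exp (-u)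
  rw [Real.cosh_eq]
  linarith

theorem besselK0_nonneg122 (t : ℝ) : 0 ≤ besselK0 t := by
  unfold besselK0
  exact setIntegral_nonneg measurableSet_Ioi (fun u _ => (Real.exp_pos _).le)

theorem besselK0_le122 {t : ℝ} (ht : 0 < t) :
    besselK0 t ≤ Real.exp (-t) * Real.sqrt (Real.pi / t) := by
  unfold besselK0
  have ht4 : 0 < t / 4 := by positivity
  have hg : IntegrableOn (fun u : ℝ => Real.exp (-t) * Real.exp (-(t / 4) * u ^ 2)) (Ioi 0) :=
    ((integrable_exp_neg_mul_sq ht4).const_mul _).integrableOn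
  have hle : ∫ u in Ioi (0 : ℝ), Real.exp (-t * Real.cosh u)
      ≤ ∫ u in Ioi (0 : ℝ), Real.exp (-t) * Real.exp (-(t / 4) * u ^ 2) := by
    apply integral_mono_of_nonneg
    · exact Filter.Eventually.of_forall (fun u => (Real.exp_pos _).le)
    · exact hg
    · refine (ae_restrict_iff' measurableSet_Ioi).2 (Filter.Eventually.of_forall fun u hu => ?_)
      show Real.exp (-t * Real.cosh u) ≤ Real.exp (-t) * Real.exp (-(t / 4) * u ^ 2)
      rw [← Real.exp_add]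
      apply Real.exp_le_exp.2
      have := cosh_lower122 (le_of_lt hu)
      nlinarith
  refine hle.trans (le_of_eq ?_)
  rw [integral_const_mul, integral_gaussian_Ioi]
  have e1 : Real.pi / (t / 4) = 2 ^ 2 * (Real.pi / t) := by
    field_simp
    ring
  rw [e1, Real.sqrt_mul (by positivity), Real.sqrt_sq (by norm_num)]
  ring

theorem besselK0_sq_mul_le122 {c r : ℝ} (hc : 0 < c) (hr : 0 < r) :
    besselK0 (c * r) ^ 2 / r * r ^ 2 ≤ Real.pi / c * Real.exp (-(2 * c) * r) := by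
  have hcr : 0 < c * r := mul_pos hc hr
  have h0 := besselK0_nonneg122 (c * r)
  have h1 := besselK0_le122 hcr
  have h2 : besselK0 (c * r) ^ 2 ≤ (Real.exp (-(c * r)) * Real.sqrt (Real.pi / (c * r))) ^ 2 :=
    pow_le_pow_left₀ h0 h1 2
  have h3 : (Real.exp (-(c * r)) * Real.sqrt (Real.pi / (c * r))) ^ 2
      = Real.exp (-(2 * c) * r) * (Real.pi / (c * r)) := by
    rw [mul_pow, Real.sq_sqrt (by positivity), ← Real.exp_nat_mul]
    congr 2
    push_cast
    ring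
  rw [h3] at h2
  have e : besselK0 (c * r) ^ 2 / r * r ^ 2 = besselK0 (c * r) ^ 2 * r := by
    field_simp
  rw [e]
  calc besselK0 (c * r) ^ 2 * r ≤ Real.exp (-(2 * c) * r) * (Real.pi / (c * r)) * r :=
        mul_le_mul_of_nonneg_right h2 hr.le
    _ = Real.pi / c * Real.exp (-(2 * c) * r) := by
        field_simp

/-- **T7.14.6c.3 ARCH-INT**, VERBATIM. -/
theorem archIntC122 (K : Type) [Field K] [NumberField K] : ArchIntC568 K := by
  intro hK c hc T hT
  have hh : ∀ w : InfinitePlace K, Integrable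
      ((Ioi (0 : ℝ)).indicator (fun x : ℝ => Real.pi / c w * Real.exp (-(2 * c w) * x)))
      volume := fun w => by
    rw [integrable_indicator_iff measurableSet_Ioi]
    exact (exp_neg_integrableOn_Ioi 0 (by have := hc w; positivity)).const_mul _
  have hG : Integrable (fun r : InfinitePlace K → ℝ =>
      ∏ w, (Ioi (0 : ℝ)).indicator (fun x : ℝ => Real.pi / c w * Real.exp (-(2 * c w) * x))
        (r w)) volume := by
    rw [volume_pi]
    exact Integrable.fintype_prod hh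
  have hG' := hG.const_mul T⁻¹
  have hmeasR : MeasurableSet (region568 (K := K) T) := by
    have e : region568 (K := K) T
        = Pos568 K ∩ {r | T ≤ ∏ w : InfinitePlace K, r w ^ w.mult} := by
      ext r
      simp [Pos568, region568]
    rw [e]
    exact measurableSet_Pos568.inter (measurableSet_le measurable_const measurable_prodMult568)
  have hFm : Measurable (fun r : InfinitePlace K → ℝ =>
      ∏ w : InfinitePlace K, besselK0 (c w * r w) ^ 2 / r w) := by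
    refine Finset.measurable_prod _ (fun w _ => ?_)
    exact ((measurable_besselK0_568.comp (measurable_const.mul (measurable_pi_apply w))).pow_const
      2).div (measurable_pi_apply w)
  refine Integrable.mono' hG'.integrableOn hFm.aestronglyMeasurable ?_
  refine (ae_restrict_iff' hmeasR).2 (Filter.Eventually.of_forall fun r hr => ?_)
  obtain ⟨hpos, hTr⟩ := hr
  have hmult : ∀ w : InfinitePlace K, w.mult = 2 := fun w => by
    simp [InfinitePlace.mult, InfinitePlace.not_isReal_iff_isComplex.2 (hK w)]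
  simp only [hmult] at hTr
  have hF0 : ∀ w : InfinitePlace K, 0 ≤ besselK0 (c w * r w) ^ 2 / r w := fun w =>
    div_nonneg (sq_nonneg _) (hpos w).le
  have hFnn : 0 ≤ ∏ w : InfinitePlace K, besselK0 (c w * r w) ^ 2 / r w :=
    Finset.prod_nonneg fun w _ => hF0 w
  rw [Real.norm_of_nonneg hFnn]
  have hind : ∀ w : InfinitePlace K,
      (Ioi (0 : ℝ)).indicator (fun x : ℝ => Real.pi / c w * Real.exp (-(2 * c w) * x)) (r w)
        = Real.pi / c w * Real.exp (-(2 * c w) * r w) := fun w =>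
    indicator_of_mem (mem_Ioi.2 (hpos w)) _
  simp only [hind]
  have hstep : (∏ w : InfinitePlace K, besselK0 (c w * r w) ^ 2 / r w)
        * ∏ w : InfinitePlace K, r w ^ 2
      ≤ ∏ w : InfinitePlace K, Real.pi / c w * Real.exp (-(2 * c w) * r w) := by
    rw [← Finset.prod_mul_distrib]
    refine Finset.prod_le_prod (fun w _ => mul_nonneg (hF0 w) (sq_nonneg _)) (fun w _ => ?_)
    exact besselK0_sq_mul_le122 (hc w) (hpos w)
  have hTinv : 0 < T⁻¹ := inv_pos.2 hT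
  calc (∏ w : InfinitePlace K, besselK0 (c w * r w) ^ 2 / r w)
      = T⁻¹ * ((∏ w : InfinitePlace K, besselK0 (c w * r w) ^ 2 / r w) * T) := by
        field_simp
    _ ≤ T⁻¹ * ((∏ w : InfinitePlace K, besselK0 (c w * r w) ^ 2 / r w)
          * ∏ w : InfinitePlace K, r w ^ 2) :=
        mul_le_mul_of_nonneg_left (mul_le_mul_of_nonneg_left hTr hFnn) hTinv.le
    _ ≤ T⁻¹ * ∏ w : InfinitePlace K, Real.pi / c w * Real.exp (-(2 * c w) * r w) :=
        mul_le_mul_of_nonneg_left hstep hTinv.le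

example (K : Type) [Field K] [NumberField K] : H568.ArchIntC568 K := archIntC122 K

end Fermat.Agent.LT.T7.H122

end

end
-- ===== PACK-END LT/T7/H122/ArchInt.lean

-- ===== PACK-BEGIN LT/T7/H57/FoldTop.lean
section



/-!
# Row LT, tower T7, LEAF `FoldWhitC` -- the PROVED top of the cut of level 1 (helper57)

`foldWhitC_of57 : T1.AdNormC K → FoldC57 K → ParsevalC57 K → ParsBddC57 K → WhitMeasC57 K →
  UnfoldXC57 K → Rigid.FoldWhitC K`, VERBATIM vs `RigidStrip.lean` 9f2a8c04.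
-/

set_option autoImplicit false
set_option linter.style.haveILetI false

open AutomorphicForm IsDedekindDomain NumberField Filter Topology MeasureTheory
open scoped ComplexConjugate ENNReal

noncomputable section

namespace Fermat.Agent.LT.T7.H57

open Fermat.Agent.LT.H556 Fermat.Agent.LT.H556.A0 Fermat.Agent.LT.T7 Fermat.Agent.LT.T7.Rigid

attribute [local instance] Fermat.Agent.LT.T5.instMeasurableSpaceG

variable {K : Type} [Field K] [NumberField K]

theorem dgA_ratU57 (α : Kˣ) (y : (Adl K)ˣ) :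
    dgA (ratU57 K α * y) = Fermat.Agent.LT.T3.torK K α * dgA y := by
  apply Units.ext
  ext i j
  fin_cases i <;> fin_cases j <;>
    simp [dgA, Fermat.Agent.LT.T3.torK, ratU57, Matrix.mul_apply, Fin.sum_univ_two]

theorem nrm57_ratU (hN : Fermat.Agent.LT.T1.AdNormC K) (α : Kˣ) (y : (Adl K)ˣ) :
    nrm57 K (ratU57 K α * y) = nrm57 K y := by
  have h1 := hN.2.1 (ratU57 K α) y
  have h2 := hN.2.2.1 α
  change Fermat.Agent.LT.T1.adNorm K ((ratU57 K α * y : (Adl K)ˣ) : Adl K)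
    = Fermat.Agent.LT.T1.adNorm K (y : Adl K)
  rw [h1]
  change Fermat.Agent.LT.T1.adNorm K (Fermat.Agent.LT.T1.ratUnit K α : Adl K) * _ = _
  rw [h2, one_mul]

theorem continuous_nrm57 (hN : Fermat.Agent.LT.T1.AdNormC K) :
    Continuous (nrm57 K) := hN.2.2.2

theorem nrm57_pos (hN : Fermat.Agent.LT.T1.AdNormC K) (y : (Adl K)ˣ) : 0 < nrm57 K y :=
  hN.1 y

theorem measurableSet_halfX57 (hN : Fermat.Agent.LT.T1.AdNormC K) (Y : ℝ) :
    @MeasurableSet _ (borel (Adl K)ˣ) (halfX57 K Y) := by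
  letI : MeasurableSpace (Adl K)ˣ := borel (Adl K)ˣ
  haveI : BorelSpace (Adl K)ˣ := ⟨rfl⟩
  exact (isClosed_le continuous_const (continuous_nrm57 hN)).measurableSet

/-- **TOP of the cut of level 1.** -/
theorem foldWhitC_of57 (hN : Fermat.Agent.LT.T1.AdNormC K) (hF : FoldC57 K)
    (hP : ParsevalC57 K) (hB : ParsBddC57 K) (hM : WhitMeasC57 K) (hU : UnfoldXC57 K) :
    FoldWhitC K := by
  letI : MeasurableSpace (Adl K) := borel (Adl K)
  letI : MeasurableSpace (Adl K)ˣ := borel (Adl K)ˣ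
  haveI : BorelSpace (Adl K) := ⟨rfl⟩
  haveI : BorelSpace (Adl K)ˣ := ⟨rfl⟩
  intro hcplx μ F hfr ψ hψ hnd ν D hν hDm hD hDfin τ hτ S 𝔪 hS
  obtain ⟨c, FX, hc, hFXm, hFX, hvol, hfold⟩ :=
    hF hcplx μ F hfr ν D hν hDm hD hDfin τ hτ S 𝔪 hS
  haveI := hν
  haveI : Countable K := Finsupp.Countable.of_moduleFinite (R := ℚ) (M := K)
  haveI : Countable ((algebraMap K (Adl K)).toAddMonoidHom.range) :=
    (Set.countable_range (algebraMap K (Adl K)).toAddMonoidHom).to_subtype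
  have hνD0 : ν D ≠ 0 := hD.measure_ne_zero (NeZero.ne ν)
  have hνD : 0 < (ν D).toReal := ENNReal.toReal_pos hνD0 hDfin.ne
  refine ⟨c / (ν D).toReal, div_pos hc hνD, ?_⟩
  intro π π' φ₁ φ₁' h1 h1' hl hl' Y hY
  rw [hfold π π' φ₁ φ₁' h1 h1' hl hl' Y hY]
  -- the data of the two forms
  have hpars := hP ψ hψ hnd ν D hν hDm hD hDfin φ₁ φ₁' h1.cont h1.bdd h1.left_inv h1.cuspidal
    h1'.cont h1'.bdd h1'.left_inv h1'.cuspidal
  obtain ⟨Cb, hCb⟩ := hB ψ hψ hnd ν D hν hDm hD hDfin φ₁ φ₁' h1.cont h1.bdd h1.left_inv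
    h1.cuspidal h1'.cont h1'.bdd h1'.left_inv h1'.cuspidal
  have hW1 := hM ψ hψ ν D hν hDm hDfin φ₁ h1.cont h1.bdd
  have hW1' := hM ψ hψ ν D hν hDm hDfin φ₁' h1'.cont h1'.bdd
  have hHm : MeasurableSet (halfX57 K Y) := measurableSet_halfX57 hN Y
  have hnm : Measurable (nrm57 K) := (continuous_nrm57 hN).measurable
  -- the function on the ideles
  set w : (Adl K)ˣ → ℂ := fun y =>
    ww57 K ψ ν D φ₁ φ₁' (dgA y) * (((nrm57 K y)⁻¹ : ℝ) : ℂ) with hw
  have hwm : Measurable w := by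
    have hc1 : Measurable fun y : (Adl K)ˣ => conj (whit ψ ν D φ₁' (dgA y)) :=
      Complex.continuous_conj.measurable.comp hW1'
    have hc2 : Measurable fun y : (Adl K)ˣ => (((nrm57 K y)⁻¹ : ℝ) : ℂ) :=
      Complex.measurable_ofReal.comp hnm.inv
    exact (hW1.mul hc1).mul hc2
  set u : (Adl K)ˣ → ℂ := (halfX57 K Y).indicator w with hu
  have hum : Measurable u := hwm.indicator hHm
  -- translates
  have hu_tr : ∀ (α : Kˣ) (y : (Adl K)ˣ), u (ratU57 K α * y)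
      = (halfX57 K Y).indicator (fun y => ww57 K ψ ν D φ₁ φ₁'
          (Fermat.Agent.LT.T3.torK K α * dgA y) * (((nrm57 K y)⁻¹ : ℝ) : ℂ)) y := by
    intro α y
    by_cases hy : y ∈ halfX57 K Y
    · have hy' : ratU57 K α * y ∈ halfX57 K Y := by
        change Y ≤ nrm57 K (ratU57 K α * y)
        rw [nrm57_ratU hN]
        exact hy
      rw [hu, Set.indicator_of_mem hy', Set.indicator_of_mem hy, hw]
      simp only [dgA_ratU57, nrm57_ratU hN]
    · have hy' : ratU57 K α * y ∉ halfX57 K Y := by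
        intro h
        apply hy
        change Y ≤ nrm57 K y
        rw [← nrm57_ratU hN α y]
        exact h
      rw [hu, Set.indicator_of_notMem hy', Set.indicator_of_notMem hy]
  -- the Parseval series
  have hsum : ∀ y : (Adl K)ˣ, ∑' α : Kˣ, u (ratU57 K α * y)
      = (halfX57 K Y).indicator (fun y => (((ν D).toReal : ℝ) : ℂ)
          * (per57 K ν D φ₁ φ₁' (dgA y) * (((nrm57 K y)⁻¹ : ℝ) : ℂ))) y := by
    intro y
    simp only [hu_tr]
    by_cases hy : y ∈ halfX57 K Y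
    · simp only [Set.indicator_of_mem hy]
      rw [tsum_mul_right, ← (hpars (dgA y)).2]
      ring
    · simp only [Set.indicator_of_notMem hy, tsum_zero]
  -- the bound
  have hbound : ∫⁻ y in FX, ∑' α : Kˣ, ‖u (ratU57 K α * y)‖ₑ ∂τ < ⊤ := by
    have hle : ∀ y : (Adl K)ˣ, ∑' α : Kˣ, ‖u (ratU57 K α * y)‖ₑ
        ≤ (halfX57 K Y).indicator
            (fun y => ENNReal.ofReal Cb * ENNReal.ofReal ((nrm57 K y)⁻¹)) y := by
      intro y
      simp only [hu_tr]
      by_cases hy : y ∈ halfX57 K Y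
      · simp only [Set.indicator_of_mem hy]
        have hpos : 0 ≤ (nrm57 K y)⁻¹ := inv_nonneg.mpr (nrm57_pos hN y).le
        have h1 : ∀ α : Kˣ, ‖ww57 K ψ ν D φ₁ φ₁' (Fermat.Agent.LT.T3.torK K α * dgA y)
              * (((nrm57 K y)⁻¹ : ℝ) : ℂ)‖ₑ
            = ENNReal.ofReal ‖ww57 K ψ ν D φ₁ φ₁' (Fermat.Agent.LT.T3.torK K α * dgA y)‖
                * ENNReal.ofReal ((nrm57 K y)⁻¹) := by
          intro α
          rw [← ofReal_norm, norm_mul, Complex.norm_real, Real.norm_of_nonneg hpos,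
            ENNReal.ofReal_mul (norm_nonneg _)]
        simp only [h1]
        rw [ENNReal.tsum_mul_right]
        gcongr
        have hs : Summable fun α : Kˣ =>
            ‖ww57 K ψ ν D φ₁ φ₁' (Fermat.Agent.LT.T3.torK K α * dgA y)‖ :=
          (hpars (dgA y)).1.norm
        rw [← ENNReal.ofReal_tsum_of_nonneg (fun _ => norm_nonneg _) hs]
        exact ENNReal.ofReal_le_ofReal (hCb (dgA y))
      · simp only [Set.indicator_of_notMem hy, enorm_zero, tsum_zero, le_refl]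
    calc ∫⁻ y in FX, ∑' α : Kˣ, ‖u (ratU57 K α * y)‖ₑ ∂τ
        ≤ ∫⁻ y in FX, (halfX57 K Y).indicator
            (fun y => ENNReal.ofReal Cb * ENNReal.ofReal ((nrm57 K y)⁻¹)) y ∂τ :=
          lintegral_mono hle
      _ = ∫⁻ y in FX ∩ halfX57 K Y, ENNReal.ofReal Cb * ENNReal.ofReal ((nrm57 K y)⁻¹) ∂τ := by
          rw [lintegral_indicator hHm, Measure.restrict_restrict hHm, Set.inter_comm]
      _ = ENNReal.ofReal Cb * ∫⁻ y in FX ∩ halfX57 K Y, ENNReal.ofReal ((nrm57 K y)⁻¹) ∂τ := by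
          rw [lintegral_const_mul']
          exact ENNReal.ofReal_ne_top
      _ < ⊤ := ENNReal.mul_lt_top ENNReal.ofReal_lt_top (hvol Y hY)
  have hunf := hU τ hτ FX hFX u hum hbound
  -- conclusion
  have e1 : ∫ y in FX, ∑' α : Kˣ, u (ratU57 K α * y) ∂τ
      = (((ν D).toReal : ℝ) : ℂ) * ∫ y in FX ∩ halfX57 K Y,
          per57 K ν D φ₁ φ₁' (dgA y) * (((nrm57 K y)⁻¹ : ℝ) : ℂ) ∂τ := by
    simp only [hsum]
    rw [integral_indicator hHm, Measure.restrict_restrict hHm, Set.inter_comm,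
      integral_const_mul]
  have e2 : ∫ y, u y ∂τ = ∫ y in {y : (Adl K)ˣ | Y ≤ Fermat.Agent.LT.T5.adNorm (y : Adl K)},
      whit ψ ν D φ₁ (dgA y) * conj (whit ψ ν D φ₁' (dgA y))
        * (((Fermat.Agent.LT.T5.adNorm (y : Adl K))⁻¹ : ℝ) : ℂ) ∂τ := by
    rw [hu, integral_indicator hHm]
    rfl
  rw [← e2, ← hunf, e1]
  have hne : (((ν D).toReal : ℝ) : ℂ) ≠ 0 := by
    exact_mod_cast hνD.ne'
  push_cast
  field_simp

end Fermat.Agent.LT.T7.H57

end

end
-- ===== PACK-END LT/T7/H57/FoldTop.lean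

-- ===== PACK-BEGIN LT/T7/H139/Content.lean
section



/-!
# Row LT, tower T7, leaf T7.14.3e `ContentC` (helper139, registry #1956)

OFF-MAIN.  Proves `H671.ContentC K` for every number field `K`: the content idele of a nonzero
rational row twisted by `g ∈ GL₂(𝔸_K)`.

The idele is `a_v :=` the component of larger norm of `r = ξ g` at `v`.  It is nonzero at every
`v` since `ξ = r g⁻¹`, integral at almost every `v` since `r₀, r₁` are finite adeles, and of norm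
`≥ 1` at almost every `v` since `ξ_j = r₀ (g⁻¹)₀ⱼ + r₁ (g⁻¹)₁ⱼ` with `(g⁻¹)ᵢⱼ` integral and
`‖ξ_j‖_v = 1` at almost every `v` (for a `j` with `ξ_j ≠ 0`).
-/

set_option autoImplicit false

open AutomorphicForm IsDedekindDomain NumberField Filter Topology

noncomputable section

namespace Fermat.Agent.LT.T7.H139

open Fermat.Agent.LT.H556 Fermat.Agent.LT.H556.A0 Fermat.Agent.LT.T7 Fermat.Agent.LT.T7.Rigid

variable {K : Type} [Field K] [NumberField K]

/-- The `v`-component of the finite part of an adele. -/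
def fcAt139 (v : HeightOneSpectrum (𝓞 K)) (x : Adl K) : v.adicCompletion K := x.2 v

theorem fcAt139_add (v : HeightOneSpectrum (𝓞 K)) (x y : Adl K) :
    fcAt139 v (x + y) = fcAt139 v x + fcAt139 v y := rfl

theorem fcAt139_mul (v : HeightOneSpectrum (𝓞 K)) (x y : Adl K) :
    fcAt139 v (x * y) = fcAt139 v x * fcAt139 v y := rfl

theorem fcAt139_algebraMap (v : HeightOneSpectrum (𝓞 K)) (k : K) :
    fcAt139 v (algebraMap K (Adl K) k) = (k : v.adicCompletion K) := rfl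

/-- `ξ = (ξ g) g⁻¹`, entrywise. -/
theorem rowOf_inv139 (g : G K) (ξ : Fin 2 → K) (j : Fin 2) :
    algebraMap K (Adl K) (ξ j) =
      rowOf ξ g 0 * ((g⁻¹ : G K) : Matrix (Fin 2) (Fin 2) (Adl K)) 0 j
      + rowOf ξ g 1 * ((g⁻¹ : G K) : Matrix (Fin 2) (Fin 2) (Adl K)) 1 j := by
  have h : (g : Matrix (Fin 2) (Fin 2) (Adl K)) * ((g⁻¹ : G K) : Matrix (Fin 2) (Fin 2) (Adl K))
      = 1 := by
    rw [← Units.val_mul, mul_inv_cancel, Units.val_one]
  have h00 := congrFun (congrFun h 0) 0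
  have h01 := congrFun (congrFun h 0) 1
  have h10 := congrFun (congrFun h 1) 0
  have h11 := congrFun (congrFun h 1) 1
  simp only [Matrix.mul_apply, Fin.sum_univ_two, Matrix.one_apply_eq] at h00 h01 h10 h11
  rw [Matrix.one_apply_ne (by decide)] at h01 h10
  revert j
  refine Fin.forall_fin_two.mpr ⟨?_, ?_⟩
  · simp only [rowOf]
    linear_combination -(algebraMap K (Adl K) (ξ 0)) * h00 - (algebraMap K (Adl K) (ξ 1)) * h10
  · simp only [rowOf]
    linear_combination -(algebraMap K (Adl K) (ξ 0)) * h01 - (algebraMap K (Adl K) (ξ 1)) * h11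

/-- The `v`-component of `ξ = (ξ g) g⁻¹`. -/
theorem rowOf_inv_at139 (g : G K) (ξ : Fin 2 → K) (j : Fin 2) (v : HeightOneSpectrum (𝓞 K)) :
    ((ξ j : K) : v.adicCompletion K) =
      (rowOf ξ g 0).2 v * (((g⁻¹ : G K) : Matrix (Fin 2) (Fin 2) (Adl K)) 0 j).2 v
      + (rowOf ξ g 1).2 v * (((g⁻¹ : G K) : Matrix (Fin 2) (Fin 2) (Adl K)) 1 j).2 v := by
  exact congrArg (fcAt139 v) (rowOf_inv139 g ξ j)

/-- The coercion `K → K_v` is injective. -/
theorem coe_eq_zero139 (v : HeightOneSpectrum (𝓞 K)) (k : K)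
    (h : ((k : K) : v.adicCompletion K) = 0) : k = 0 := by
  have hinj : Function.Injective (algebraMap K (v.adicCompletion K)) :=
    (algebraMap K (v.adicCompletion K)).injective
  have h' : algebraMap K (v.adicCompletion K) k = algebraMap K (v.adicCompletion K) 0 :=
    h.trans (map_zero _).symm
  exact hinj h'

/-- The row `ξ g` is nonzero at every finite place. -/
theorem rowOf_ne_zero_at139 (g : G K) (ξ : Fin 2 → K) (hξ : ξ ≠ 0)
    (v : HeightOneSpectrum (𝓞 K)) :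
    ¬ ((rowOf ξ g 0).2 v = 0 ∧ (rowOf ξ g 1).2 v = 0) := by
  rintro ⟨h0, h1⟩
  apply hξ
  funext j
  have h := rowOf_inv_at139 g ξ j v
  rw [h0, h1, zero_mul, zero_mul, add_zero] at h
  exact coe_eq_zero139 v (ξ j) h

/-- Integrality in terms of the norm. -/
theorem mem_integers_iff_norm139 (v : HeightOneSpectrum (𝓞 K)) (x : v.adicCompletion K) :
    x ∈ v.adicCompletionIntegers K ↔ ‖x‖ ≤ 1 := by
  rw [HeightOneSpectrum.mem_adicCompletionIntegers]
  exact Valued.toNormedField.norm_le_one_iff.symm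

/-- `Valued.v x = 1` in terms of the norm. -/
theorem valued_eq_one_iff_norm139 (v : HeightOneSpectrum (𝓞 K)) (x : v.adicCompletion K) :
    Valued.v x = 1 ↔ ‖x‖ = 1 := by
  constructor
  · intro h
    exact le_antisymm (Valued.toNormedField.norm_le_one_iff.mpr h.le)
      (Valued.toNormedField.one_le_norm_iff.mpr h.ge)
  · intro h
    exact le_antisymm (Valued.toNormedField.norm_le_one_iff.mp h.le)
      (Valued.toNormedField.one_le_norm_iff.mp h.ge)

/-- The ultrametric inequality in `K_v`. -/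
theorem norm_add_le_max139 (v : HeightOneSpectrum (𝓞 K)) (x y : v.adicCompletion K) :
    ‖x + y‖ ≤ max ‖x‖ ‖y‖ :=
  IsUltrametricDist.norm_add_le_max x y

/-- A finite adele is integral at almost every place, norm form. -/
theorem eventually_norm_le_one139 (x : FiniteAdeleRing (𝓞 K) K) :
    ∀ᶠ v : HeightOneSpectrum (𝓞 K) in cofinite, ‖x v‖ ≤ 1 := by
  have h : ∀ᶠ v : HeightOneSpectrum (𝓞 K) in cofinite, x v ∈ v.adicCompletionIntegers K := x.2
  filter_upwards [h] with v hv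
  exact (mem_integers_iff_norm139 v (x v)).mp hv

/-- A nonzero element of `K` has norm one at almost every place. -/
theorem eventually_norm_eq_one139 (k : K) (hk : k ≠ 0) :
    ∀ᶠ v : HeightOneSpectrum (𝓞 K) in cofinite, ‖((k : K) : v.adicCompletion K)‖ = 1 := by
  have hu : IsUnit (algebraMap K (FiniteAdeleRing (𝓞 K) K) k) :=
    (IsUnit.mk0 k hk).map (algebraMap K (FiniteAdeleRing (𝓞 K) K))
  have h := (FiniteAdeleRing.isUnit_iff.mp hu).2
  filter_upwards [h] with v hv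
  exact (valued_eq_one_iff_norm139 v _).mp hv

open scoped Classical in
/-- The component of larger norm of the row `ξ g` at `v`. -/
def contentFun139 (g : G K) (ξ : Fin 2 → K) (v : HeightOneSpectrum (𝓞 K)) :
    v.adicCompletion K :=
  if ‖(rowOf ξ g 1).2 v‖ ≤ ‖(rowOf ξ g 0).2 v‖ then (rowOf ξ g 0).2 v else (rowOf ξ g 1).2 v

theorem norm_contentFun139 (g : G K) (ξ : Fin 2 → K) (v : HeightOneSpectrum (𝓞 K)) :
    ‖contentFun139 g ξ v‖ = max ‖(rowOf ξ g 0).2 v‖ ‖(rowOf ξ g 1).2 v‖ := by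
  unfold contentFun139
  split_ifs with h
  · exact (max_eq_left h).symm
  · exact (max_eq_right (le_of_lt (not_le.mp h))).symm

theorem contentFun_ne_zero139 (g : G K) (ξ : Fin 2 → K) (hξ : ξ ≠ 0)
    (v : HeightOneSpectrum (𝓞 K)) : contentFun139 g ξ v ≠ 0 := by
  intro h
  have hn : ‖contentFun139 g ξ v‖ = 0 := by rw [h, norm_zero]
  rw [norm_contentFun139] at hn
  have h0 : ‖(rowOf ξ g 0).2 v‖ ≤ 0 := hn ▸ le_max_left _ _
  have h1 : ‖(rowOf ξ g 1).2 v‖ ≤ 0 := hn ▸ le_max_right _ _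
  exact rowOf_ne_zero_at139 g ξ hξ v ⟨norm_le_zero_iff.mp h0, norm_le_zero_iff.mp h1⟩

theorem eventually_norm_contentFun_le139 (g : G K) (ξ : Fin 2 → K) :
    ∀ᶠ v : HeightOneSpectrum (𝓞 K) in cofinite, ‖contentFun139 g ξ v‖ ≤ 1 := by
  filter_upwards [eventually_norm_le_one139 (rowOf ξ g 0).2,
    eventually_norm_le_one139 (rowOf ξ g 1).2] with v h0 h1
  rw [norm_contentFun139]
  exact max_le h0 h1

theorem eventually_norm_contentFun_ge139 (g : G K) (ξ : Fin 2 → K) (hξ : ξ ≠ 0) :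
    ∀ᶠ v : HeightOneSpectrum (𝓞 K) in cofinite, 1 ≤ ‖contentFun139 g ξ v‖ := by
  obtain ⟨j, hj⟩ : ∃ j, ξ j ≠ 0 := by
    by_contra hcon
    exact hξ (funext fun i => by_contra fun hi => hcon ⟨i, hi⟩)
  filter_upwards [eventually_norm_eq_one139 (ξ j) hj,
    eventually_norm_le_one139 (((g⁻¹ : G K) : Matrix (Fin 2) (Fin 2) (Adl K)) 0 j).2,
    eventually_norm_le_one139 (((g⁻¹ : G K) : Matrix (Fin 2) (Fin 2) (Adl K)) 1 j).2]
    with v h1 hg0 hg1
  rw [norm_contentFun139, ← h1, rowOf_inv_at139 g ξ j v]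
  refine (norm_add_le_max139 v _ _).trans (max_le_max ?_ ?_)
  · rw [norm_mul]
    exact mul_le_of_le_one_right (norm_nonneg _) hg0
  · rw [norm_mul]
    exact mul_le_of_le_one_right (norm_nonneg _) hg1

/-- The content adele. -/
def contentAdele139 (g : G K) (ξ : Fin 2 → K) : FiniteAdeleRing (𝓞 K) K :=
  ⟨fun v => contentFun139 g ξ v, by
    filter_upwards [eventually_norm_contentFun_le139 g ξ] with v hv
    exact (mem_integers_iff_norm139 v _).mpr hv⟩

theorem contentAdele139_apply (g : G K) (ξ : Fin 2 → K) (v : HeightOneSpectrum (𝓞 K)) :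
    contentAdele139 g ξ v = contentFun139 g ξ v := rfl

theorem isUnit_contentAdele139 (g : G K) (ξ : Fin 2 → K) (hξ : ξ ≠ 0) :
    IsUnit (contentAdele139 g ξ) := by
  rw [FiniteAdeleRing.isUnit_iff]
  refine ⟨fun v => contentFun_ne_zero139 g ξ hξ v, ?_⟩
  filter_upwards [eventually_norm_contentFun_le139 g ξ,
    eventually_norm_contentFun_ge139 g ξ hξ] with v h1 h2
  exact (valued_eq_one_iff_norm139 v _).mpr (le_antisymm h1 h2)

variable (K)

/-- **T7.14.3e `ContentC`**: the content idele of a nonzero rational row twisted by `g`. -/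
theorem contentC139 : H671.ContentC K := by
  intro g ξ hξ
  refine ⟨(isUnit_contentAdele139 g ξ hξ).unit, fun v => ?_⟩
  rw [IsUnit.unit_spec, contentAdele139_apply, norm_contentFun139]

end Fermat.Agent.LT.T7.H139

end
end
-- ===== PACK-END LT/T7/H139/Content.lean

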