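import Mathlib
import Fermat.Agent.Pack.LT2.E16L0
import Fermat.Agent.Pack.LT2.E16L1
import Fermat.Agent.Pack.LT2.E16L2
import Fermat.Agent.Pack.LT2.E15L3
import Fermat.Agent.Pack.LT2.E9L3
import Fermat.Agent.Pack.LT2.E11L2
import Fermat.Agent.Pack.LT2.E12L2
import Fermat.Agent.Pack.LT2.E15L2
import Fermat.Agent.Pack.LT2.E3L3
import Fermat.Agent.Pack.LT2.E14L2
import Fermat.Agent.Pack.LT2.E15L1
import Fermat.Agent.Pack.LT2.E6L3
import Fermat.Agent.Pack.LT2.E2L1
import Fermat.Agent.Pack.LT2.E4L2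
import Fermat.Agent.Pack.LT2.E10L1
import Fermat.Agent.Pack.LT2.E10L3

set_option linter.all false

-- ===== PACK-BEGIN LT/A2/H112/Exp.lean
section


/-!
# Row LT, tower A2, leaf A2.09 `ExpC` (helper112) -- the unfolding

OFF-MAIN.  `expC_h112 : Fermat.Agent.LT.A2.ExpC` (VERBATIM the Prop of `LT/A2/Kernel.lean`,
origin/helper950@c68f91cb0, sha256 b74c9a55fd05d60f).

For good data `D`, a theta lift `φ` and a Whittaker function `W`:

* `W(n(x) g) = ψ(x) W(g)`   (`unip` with `Q(1, 0) = 1`);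
* `φ(g) = ∑_{α ∈ K^×} W(diag(α, 1) g)`:  on `GL₂(𝔸)⁺` the kernel is summed over the fibres of `Q`;
  the fibre over `0` is `{0}` (anisotropy) and its term is killed by `∫_{DT} χT = 0`; the fibre over
  `α ≠ 0` is empty (then `W(diag(α,1) g) = 0` by Hasse's norm theorem) or one orbit of `T¹(K)`
  (then the sum over the orbit unfolds `∫_{DT}` to `∫_{T¹(𝔸)}`, which is `W(diag(α,1) g)` by the
  key identity of `Diag.lean`).  Outside `GL₂(𝔸)⁺` both sides are translated by `diag(δ, 1)`.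
-/

set_option autoImplicit false
set_option linter.unusedSectionVars false

open IsDedekindDomain NumberField AutomorphicForm MeasureTheory
open scoped MatrixGroups Pointwise

noncomputable section

namespace Fermat.Agent.LT.A2.H112

open Fermat.Agent.LT.H130 Fermat.Agent.LT.H556 Fermat.Agent.LT.A2

variable {K : Type} [Field K] [NumberField K]

attribute [local instance] measG112 borelG112

variable (D : KData K) {g mg : A0.G K}

/-- `W(diag(α,1) g) = ∫_{T¹(𝔸)} h(m, ξ₀) dm` for every `ξ₀` with `Q(ξ₀) = α`. -/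
theorem whit_eq_integral112 (hG : D.Good) {W : A0.G K → ℂ} (hW : D.IsWhit W)
    {d : Kˣ → A0.G K} (hd : IsRatDiag d) (α : Kˣ) (ξ₀ : K × K)
    (hξ₀ : qK D.t D.n ξ₀ = (α : K)) (hadm : Adm D.t D.n g mg) :
    W (d α * g) = ∫ m, hfun D g mg m ξ₀ ∂D.μT := by
  have hM := hG.measured
  set y : A0.G K := tK D.t D.n (conjK D.t ξ₀) (qK_conjK_ne_zero112 hξ₀) with hy
  have hy_rat : InTorusRat D.t D.n y := inTorusRat_tK _ _ _ _
  have hy_tor : InTorus D.t D.n y := inTorusRat_inTorus112 hy_rat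
  have hy_det : ((Matrix.GeneralLinearGroup.det y : (A0.Adl K)ˣ) : A0.Adl K)
      = algebraMap K (A0.Adl K) (α : K) := by
    rw [hy, det_tK, qK_conjK, hξ₀]
  have hadm' : Adm D.t D.n (d α * g) (y * mg) := by
    refine ⟨inTorus_mul112 hy_tor hadm.1, ?_⟩
    rw [map_mul, map_mul, hadm.2]
    congr 1
    apply Units.ext
    rw [det_ratDiag112 hd, hy_det]
  rw [hW.formula _ _ hadm']
  show ∫ m in {m | InTorus1 D.t D.n m},
      D.F (d α * g) (m * (y * mg)) (1, 0) * D.χT (m * (y * mg)) ∂D.μT = _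
  rw [restrict_torus1 D hM]
  apply integral_congr_ae
  filter_upwards [ae_mem_torus1 D hM] with m hm
  have hadm'' : Adm D.t D.n g (m * mg) := adm_torus1_mul112 hadm hm
  have e1 : m * (y * mg) = y * (m * mg) := by
    rw [← mul_assoc, torus_comm112 hm.1 hy_tor, mul_assoc]
  rw [e1, hy, key_identity112 D hG.weil hd α ξ₀ hξ₀ g (m * mg) hadm'', ← hy,
    hG.torus.mul _ _ hy_tor hadm''.1, hG.torus.rat _ hy_rat, one_mul]
  rfl

/-- `W(diag(α,1) g) = 0` if `α` is not a value of `Q` (Hasse's norm theorem). -/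
theorem whit_eq_zero112 (hH : HasseNormC) (hG : D.Good) {W : A0.G K → ℂ} (hW : D.IsWhit W)
    {d : Kˣ → A0.G K} (hd : IsRatDiag d) (α : Kˣ)
    (hempty : ∀ ξ : K × K, qK D.t D.n ξ ≠ (α : K)) (hadm : Adm D.t D.n g mg) :
    W (d α * g) = 0 := by
  apply hW.off
  rintro ⟨m', hm'1, hm'2⟩
  have hT : InTorus D.t D.n (m' * mg⁻¹) := inTorus_mul112 hm'1 (inTorus_inv112 hadm.1)
  have hdet : ((Matrix.GeneralLinearGroup.det (m' * mg⁻¹) : (A0.Adl K)ˣ) : A0.Adl K)
      = algebraMap K (A0.Adl K) (α : K) := by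
    rw [← det_ratDiag112 hd α]
    congr 1
    rw [map_mul, map_inv, ← hm'2, ← hadm.2, map_mul, mul_inv_cancel_right]
  obtain ⟨y, ⟨a, b, hab⟩, hydet⟩ := hH K D.t D.n hG.torus.irred (α : K) (m' * mg⁻¹) hT hdet
  apply hempty (a, b)
  apply algebraMap_inj112
  rw [← hydet]
  exact (det_of_coord112 (c := (a, b)) hab).symm

/-- The expansion on `GL₂(𝔸_K)⁺`. -/
theorem hasSum_whit112 (hH : HasseNormC) (hG : D.Good) {φ W : A0.G K → ℂ}
    (hφ : D.IsLift φ) (hW : D.IsWhit W) {d : Kˣ → A0.G K} (hd : IsRatDiag d)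
    (hadm : Adm D.t D.n g mg) : HasSum (fun α : Kˣ => W (d α * g)) (φ g) := by
  classical
  have h1 := (hasSum_Ifun112 D hG hadm hφ).tsum_fiberwise (qK D.t D.n)
  have h2 : ∀ c : K, (∑' ξ : ↥((qK D.t D.n) ⁻¹' {c}), Ifun D g mg ξ)
      = if hc : c = 0 then 0 else W (d (Units.mk0 c hc) * g) := by
    intro c
    by_cases hc : c = 0
    · rw [dif_pos hc]
      have : ∀ ξ : ↥((qK D.t D.n) ⁻¹' {c}), Ifun D g mg ξ = 0 := by
        rintro ⟨ξ, hξ⟩
        have hξ' : qK D.t D.n ξ = 0 := by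
          have : qK D.t D.n ξ = c := hξ
          rw [this, hc]
        show Ifun D g mg ξ = 0
        rw [(qK_eq_zero_iff hG.torus.irred ξ).mp hξ']
        exact Ifun_zero112 D hG hadm
      rw [tsum_congr this, tsum_zero]
    · rw [dif_neg hc]
      by_cases hfib : ∃ ξ₀ : K × K, qK D.t D.n ξ₀ = c
      · obtain ⟨ξ₀, hξ₀⟩ := hfib
        have hξ₀ne : ξ₀ ≠ 0 := by
          intro h
          apply hc
          rw [← hξ₀, h]
          simp [qK]
        rw [whit_eq_integral112 D hG hW hd (Units.mk0 c hc) ξ₀ hξ₀ hadm,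
          integral_hfun_eq_tsum112 D hG hadm hξ₀ne]
        exact ((fiberEquiv hG.torus.irred hc ξ₀ hξ₀).tsum_eq
          (fun ξ : ↥((qK D.t D.n) ⁻¹' {c}) => Ifun D g mg ξ)).symm
      · have hempty : ∀ ξ : K × K, qK D.t D.n ξ ≠ c := fun ξ h => hfib ⟨ξ, h⟩
        have : IsEmpty ↥((qK D.t D.n) ⁻¹' {c}) := ⟨fun ξ => hempty ξ.1 ξ.2⟩
        rw [tsum_empty]
        exact (whit_eq_zero112 D hH hG hW hd (Units.mk0 c hc) hempty hadm).symm
  rw [funext h2] at h1
  have hinj : Function.Injective (fun α : Kˣ => (α : K)) := Units.val_injective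
  have hrange : ∀ x : K, x ∉ Set.range (fun α : Kˣ => (α : K)) →
      (fun c : K => if hc : c = 0 then (0 : ℂ) else W (d (Units.mk0 c hc) * g)) x = 0 := by
    intro x hx
    have hx0 : x = 0 := by
      by_contra h
      exact hx ⟨Units.mk0 x h, rfl⟩
    simp [hx0]
  have h3 := (hinj.hasSum_iff hrange).mpr h1
  have h4 : ((fun c : K => if hc : c = 0 then (0 : ℂ) else W (d (Units.mk0 c hc) * g))
      ∘ fun α : Kˣ => (α : K)) = fun α : Kˣ => W (d α * g) := by
    funext α
    simp only [Function.comp]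
    rw [dif_neg α.ne_zero, Units.mk0_val]
  rw [h4] at h3
  exact h3

/-- `W(n(x) g) = ψ(x) W(g)`. -/
theorem whit_unip112 (hG : D.Good) {W : A0.G K → ℂ} (hW : D.IsWhit W)
    {nU : A0.Adl K → A0.G K} (hU : IsUpperUnip nU) (x : A0.Adl K) (g : A0.G K) :
    W (nU x * g) = D.ψ x * W g := by
  by_cases hg : InGPlus D.t D.n g
  · obtain ⟨mg, hadm⟩ := hg
    have hM := hG.measured
    rw [hW.formula _ mg (adm_unip112 hU x hadm), hW.formula g mg hadm]
    show ∫ m in {m | InTorus1 D.t D.n m},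
        D.F (nU x * g) (m * mg) (1, 0) * D.χT (m * mg) ∂D.μT
      = D.ψ x * ∫ m in {m | InTorus1 D.t D.n m},
          D.F g (m * mg) (1, 0) * D.χT (m * mg) ∂D.μT
    rw [restrict_torus1 D hM, ← integral_const_mul]
    apply integral_congr_ae
    filter_upwards [ae_mem_torus1 D hM] with m hm
    rw [hG.weil.unip nU hU x g (m * mg) _ (adm_torus1_mul112 hadm hm)]
    have : qf D.t D.n ((1 : A0.Adl K), (0 : A0.Adl K)) = 1 := by simp [qf]
    rw [this, mul_one, mul_assoc]
  · rw [hW.off g hg, hW.off _ (fun h => hg ((inGPlus_unip_iff112 hU x).mp h)), mul_zero]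

theorem det_ratG112 (γ : GL (Fin 2) K) :
    ((Matrix.GeneralLinearGroup.det (ratG γ : A0.G K) : (A0.Adl K)ˣ) : A0.Adl K)
      = algebraMap K (A0.Adl K) ((Matrix.GeneralLinearGroup.det γ : Kˣ) : K) := by
  rw [coe_det112]
  show ((γ : Matrix (Fin 2) (Fin 2) K).map (algebraMap K (A0.Adl K))).det = _
  rw [Matrix.GeneralLinearGroup.val_det_apply]
  exact (RingHom.map_det (algebraMap K (A0.Adl K)) _).symm

/-- The expansion, everywhere. -/
theorem expansion112 (hH : HasseNormC) (hG : D.Good) {φ W : A0.G K → ℂ}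
    (hφ : D.IsLift φ) (hW : D.IsWhit W) {d : Kˣ → A0.G K} (hd : IsRatDiag d) (g : A0.G K) :
    φ g = ∑' α : Kˣ, W (d α * g) := by
  by_cases hex : ∃ γ : GL (Fin 2) K, InGPlus D.t D.n (ratG γ * g)
  · obtain ⟨γ, m', hm'⟩ := hex
    set δ : Kˣ := Matrix.GeneralLinearGroup.det γ with hδ
    have hadm2 : Adm D.t D.n (d δ * g) m' := by
      refine ⟨hm'.1, ?_⟩
      rw [← hm'.2, map_mul, map_mul]
      congr 1
      apply Units.ext
      rw [det_ratDiag112 hd, det_ratG112]
    have h1 := (hasSum_whit112 D hH hG hφ hW hd hadm2).tsum_eq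
    have h2 : φ (d δ * g) = φ g := by
      rw [ratDiag_eq112 hd δ]
      exact hφ.left_inv _ g
    rw [← h2, ← h1]
    have h3 : ∀ α : Kˣ, W (d α * (d δ * g)) = W (d (α * δ) * g) := by
      intro α
      rw [ratDiag_mul112 hd, mul_assoc]
    rw [tsum_congr h3]
    exact (Equiv.mulRight δ).tsum_eq (fun α => W (d α * g))
  · have hex' : ∀ γ : GL (Fin 2) K, ¬ InGPlus D.t D.n (ratG γ * g) :=
      fun γ h => hex ⟨γ, h⟩
    rw [hφ.off g hex']
    have : ∀ α : Kˣ, W (d α * g) = 0 := fun α =>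
      hW.off _ (by rw [ratDiag_eq112 hd α]; exact hex' _)
    rw [tsum_congr this, tsum_zero]

/-- **Leaf A2.09 `ExpC`** (unfolding), VERBATIM the Prop of `LT/A2/Kernel.lean`. -/
theorem expC_h112 : ExpC := by
  intro hH K _ _ D hG _ φ W hφ hW
  exact ⟨fun nU hU x g => whit_unip112 D hG hW hU x g,
    fun d hd g => expansion112 D hH hG hφ hW hd g⟩

end Fermat.Agent.LT.A2.H112

end

end
-- ===== PACK-END LT/A2/H112/Exp.lean

-- ===== PACK-BEGIN LT/A2/H151/Trunc.lean
section


/-!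
# Row LT, tower A2, leaf A2.03.1.6 `WX467.RightInvC` -- part 4: truncations (helper151, OFF-MAIN)

The truncation `trunc S g` of `g ∈ GL₂(𝔸_K)` to a finite set `S` of finite places (the components
of `g` at the infinite places and at the places of `S`, the identity elsewhere), and its
convergence to `g` along `S` (`tendsto_trunc`).
No holes, nothing assumed.
-/

set_option autoImplicit false

open IsDedekindDomain NumberField AutomorphicForm MeasureTheory Filter
open scoped MatrixGroups Topology RestrictedProduct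

noncomputable section

namespace Fermat.Agent.LT.A2.H151

open Fermat.Agent.LT.H130 Fermat.Agent.LT.H556 Fermat.Agent.LT.A2 Fermat.Agent.LT.A2.WX467

variable {K : Type} [Field K] [NumberField K]

open Classical in
/-- Convergence of the truncations of a finite adele. -/
theorem tendsto_truncFin (x : FiniteAdeleRing (𝓞 K) K)
    (c : ∀ v : HeightOneSpectrum (𝓞 K), v.adicCompletion K)
    (hc : ∀ v, c v ∈ v.adicCompletionIntegers K)
    (y : Finset (HeightOneSpectrum (𝓞 K)) → FiniteAdeleRing (𝓞 K) K)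
    (hy : ∀ S v, y S v = if v ∈ S then x v else c v) :
    Tendsto y atTop (𝓝 x) := by
  have hx : ∀ᶠ v in cofinite, x v ∈ v.adicCompletionIntegers K := x.2
  set T : Set (HeightOneSpectrum (𝓞 K)) := {v | x v ∈ v.adicCompletionIntegers K} with hT
  have hTc : (cofinite : Filter (HeightOneSpectrum (𝓞 K))) ≤ 𝓟 T :=
    Filter.le_principal_iff.mpr hx
  -- the lifts to the restricted product along `𝓟 T`
  let x' : Πʳ v : HeightOneSpectrum (𝓞 K),
      [v.adicCompletion K, (v.adicCompletionIntegers K : Set (v.adicCompletion K))]_[𝓟 T] :=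
    ⟨fun v => x v, Filter.eventually_principal.mpr fun v hv => hv⟩
  let y' : Finset (HeightOneSpectrum (𝓞 K)) → Πʳ v : HeightOneSpectrum (𝓞 K),
      [v.adicCompletion K, (v.adicCompletionIntegers K : Set (v.adicCompletion K))]_[𝓟 T] :=
    fun S => ⟨fun v => y S v, Filter.eventually_principal.mpr fun v hv => by
      show y S v ∈ v.adicCompletionIntegers K
      rw [hy]
      split_ifs
      · exact hv
      · exact hc v⟩
  have h1 : Tendsto y' atTop (𝓝 x') := by
    rw [RestrictedProduct.isEmbedding_coe_of_principal.tendsto_nhds_iff, tendsto_pi_nhds]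
    intro v
    apply tendsto_nhds_of_eventually_eq
    filter_upwards [Filter.eventually_ge_atTop ({v} : Finset (HeightOneSpectrum (𝓞 K)))]
      with S hS
    have hvS : v ∈ S := hS (Finset.mem_singleton_self v)
    show y S v = x v
    rw [hy, if_pos hvS]
  have h2 := (RestrictedProduct.continuous_inclusion hTc).tendsto x' |>.comp h1
  exact h2

open Classical in
/-- Convergence of the truncations of an adele. -/
theorem tendsto_truncAdl (x : A0.Adl K)
    (c : ∀ v : HeightOneSpectrum (𝓞 K), v.adicCompletion K)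
    (hc : ∀ v, c v ∈ v.adicCompletionIntegers K)
    (y : Finset (HeightOneSpectrum (𝓞 K)) → A0.Adl K)
    (hy1 : ∀ S u, (y S).1 u = x.1 u)
    (hy2 : ∀ S v, (y S).2 v = if v ∈ S then x.2 v else c v) :
    Tendsto y atTop (𝓝 x) := by
  have h1 : Tendsto (fun S => (y S).1) atTop (𝓝 x.1) := by
    have : (fun S => (y S).1) = fun _ => x.1 := by
      funext S
      exact funext (hy1 S)
    rw [this]
    exact tendsto_const_nhds
  have h2 : Tendsto (fun S => (y S).2) atTop (𝓝 x.2) :=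
    tendsto_truncFin x.2 c hc (fun S => (y S).2) hy2
  exact Tendsto.prodMk_nhds h1 h2

theorem one_integral (v : HeightOneSpectrum (𝓞 K)) (i j : Fin 2) :
    (1 : Matrix (Fin 2) (Fin 2) (v.adicCompletion K)) i j ∈ v.adicCompletionIntegers K := by
  by_cases h : i = j
  · subst h
    rw [Matrix.one_apply_eq]
    exact one_mem _
  · rw [Matrix.one_apply_ne h]
    exact zero_mem _

open Classical in
/-- The truncation of a matrix over the adeles. -/
def truncM (S : Finset (HeightOneSpectrum (𝓞 K))) (M : Matrix (Fin 2) (Fin 2) (A0.Adl K)) :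
    Matrix (Fin 2) (Fin 2) (A0.Adl K) :=
  mkM (fun u => M.map (pInf u)) (fun v => if v ∈ S then M.map (pFin v) else 1)
    (by
      have h : ∀ i j : Fin 2, ∀ᶠ v in cofinite, (M i j).2 v ∈ v.adicCompletionIntegers K :=
        fun i j => (M i j).2.2
      have h' : ∀ᶠ v in cofinite, ∀ i j : Fin 2, (M i j).2 v ∈ v.adicCompletionIntegers K :=
        Filter.eventually_all.mpr fun i => Filter.eventually_all.mpr (h i)
      refine h'.mono fun v hv i j => ?_
      split_ifs
      · exact hv i j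
      · exact one_integral v i j)

open Classical in
/-- Convergence of the truncations of a matrix. -/
theorem tendsto_truncM (M : Matrix (Fin 2) (Fin 2) (A0.Adl K)) :
    Tendsto (fun S => truncM S M) atTop (𝓝 M) := by
  refine tendsto_pi_nhds.mpr fun i => tendsto_pi_nhds.mpr fun j => ?_
  refine tendsto_truncAdl (M i j)
    (fun v => (1 : Matrix (Fin 2) (Fin 2) (v.adicCompletion K)) i j)
    (fun v => one_integral v i j) (fun S => truncM S M i j) (fun S u => rfl) (fun S v => ?_)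
  show (if v ∈ S then M.map (pFin v) else 1) i j = _
  split_ifs <;> rfl

open Classical in
/-- The truncation of `g` to the finite set `S` of finite places. -/
def trunc (S : Finset (HeightOneSpectrum (𝓞 K))) (g : A0.G K) : A0.G K :=
  mkG (fun u => infMat u g) (fun v => if v ∈ S then A0.finComp v g else 1)
    (fun u => infMat_det_ne_zero u g)
    (fun v => by
      split_ifs
      · exact finComp_det_ne_zero v g
      · rw [Matrix.det_one]; exact one_ne_zero)
    ((eventually_integral g).mono fun v hv i j => by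
      split_ifs
      · exact hv i j
      · exact one_integral v i j)
    ((eventually_integral_inv g).mono fun v hv i j => by
      split_ifs
      · exact hv i j
      · rw [inv_one]; exact one_integral v i j)

theorem infMat_trunc (S : Finset (HeightOneSpectrum (𝓞 K))) (g : A0.G K) (u : InfinitePlace K) :
    infMat u (trunc S g) = infMat u g :=
  infMat_mkG _ _ _ _ _ _ u

open Classical in
theorem finComp_trunc (S : Finset (HeightOneSpectrum (𝓞 K))) (g : A0.G K)
    (v : HeightOneSpectrum (𝓞 K)) :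
    A0.finComp v (trunc S g) = if v ∈ S then A0.finComp v g else 1 :=
  finComp_mkG _ _ _ _ _ _ v

theorem finComp_trunc_mem {S : Finset (HeightOneSpectrum (𝓞 K))} (g : A0.G K)
    {v : HeightOneSpectrum (𝓞 K)} (hv : v ∈ S) :
    A0.finComp v (trunc S g) = A0.finComp v g := by
  classical
  rw [finComp_trunc, if_pos hv]

theorem finComp_trunc_notMem {S : Finset (HeightOneSpectrum (𝓞 K))} (g : A0.G K)
    {v : HeightOneSpectrum (𝓞 K)} (hv : v ∉ S) :
    A0.finComp v (trunc S g) = 1 := by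
  classical
  rw [finComp_trunc, if_neg hv]

theorem trunc_val (S : Finset (HeightOneSpectrum (𝓞 K))) (g : A0.G K) :
    ((trunc S g : A0.G K) : Matrix (Fin 2) (Fin 2) (A0.Adl K))
      = truncM S (g : Matrix (Fin 2) (Fin 2) (A0.Adl K)) := rfl

theorem trunc_inv_val (S : Finset (HeightOneSpectrum (𝓞 K))) (g : A0.G K) :
    (((trunc S g)⁻¹ : A0.G K) : Matrix (Fin 2) (Fin 2) (A0.Adl K))
      = truncM S ((g⁻¹ : A0.G K) : Matrix (Fin 2) (Fin 2) (A0.Adl K)) := by
  classical
  refine adlMatrix_ext (fun u => ?_) (fun v => ?_)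
  · rw [← infMat_eq_map, infMat_inv, infMat_trunc]
    unfold truncM
    rw [mkM_mapInf, ← infMat_eq_map, infMat_inv]
  · rw [← finComp_eq_map, finComp_inv, finComp_trunc]
    unfold truncM
    rw [mkM_mapFin, ← finComp_eq_map, finComp_inv]
    split_ifs
    · rfl
    · rw [inv_one]

/-- **Convergence of the truncations** in `GL₂(𝔸_K)`. -/
theorem tendsto_trunc (g : A0.G K) : Tendsto (fun S => trunc S g) atTop (𝓝 g) := by
  rw [Units.isInducing_embedProduct.tendsto_nhds_iff]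
  have h1 : Tendsto (fun S => ((trunc S g : A0.G K) : Matrix (Fin 2) (Fin 2) (A0.Adl K))) atTop
      (𝓝 (g : Matrix (Fin 2) (Fin 2) (A0.Adl K))) := by
    simp only [trunc_val]
    exact tendsto_truncM _
  have h2 : Tendsto (fun S => (((trunc S g)⁻¹ : A0.G K) : Matrix (Fin 2) (Fin 2) (A0.Adl K)))
      atTop (𝓝 ((g⁻¹ : A0.G K) : Matrix (Fin 2) (Fin 2) (A0.Adl K))) := by
    simp only [trunc_inv_val]
    exact tendsto_truncM _
  exact Tendsto.prodMk_nhds h1 ((MulOpposite.continuous_op.tendsto _).comp h2)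

end Fermat.Agent.LT.A2.H151

end

end
-- ===== PACK-END LT/A2/H151/Trunc.lean

-- ===== PACK-BEGIN LT/A2/H227/AxTor.lean
section


/-!
# Row LT, wall A2, station A2.03.1.1.06 (local finite Weil family), leaf 19 `LeafAxTor` (helper227)

OFF-MAIN.  `leafAxTor227 : LF54.LeafAxTor`, VERBATIM, no hypothesis.

Pure algebra, valid over every normed field `k` (`axTor_general227`):
`d((det μ' m)⁻¹) d(det μ') = d((det m)⁻¹)`, `(μ' m)⁻¹ = m⁻¹ μ'⁻¹`, `actL (A B) = actL A ∘ actL B`,
`√‖det (μ' m)‖ = √‖det μ'‖ √‖det m‖`.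
-/

set_option autoImplicit false

open IsDedekindDomain NumberField MeasureTheory
open scoped Topology

noncomputable section

namespace Fermat.Agent.LT.A2.H227

open Fermat.Agent.LT.A2 Fermat.Agent.LT.A2.WX467 Fermat.Agent.LT.A2.LF54

/-- `actL` is an action: `actL (A B) ξ = actL A (actL B ξ)`. -/
theorem actL_mul227 {k : Type} [Field k] (A B : Matrix (Fin 2) (Fin 2) k) (ξ : k × k) :
    actL (A * B) ξ = actL A (actL B ξ) := by
  unfold actL
  simp only [Matrix.mul_apply, Fin.sum_univ_two]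
  refine Prod.ext ?_ ?_ <;> ring

/-- `d((det μ' · det m)⁻¹) d(det μ') = d((det m)⁻¹)`. -/
theorem diag_mul227 {k : Type} [Field k] (a b : k) (ha : a ≠ 0) :
    (!![1, 0; 0, (a * b)⁻¹] : Matrix (Fin 2) (Fin 2) k) * !![1, 0; 0, a] = !![1, 0; 0, b⁻¹] := by
  ext i j
  fin_cases i <;> fin_cases j <;> simp [Matrix.mul_apply, Fin.sum_univ_two]
  field_simp

/-- **AX-TOR over any normed field.** -/
theorem axTor_general227 {k : Type} [NormedField k] (t n : k) (ψ : k → ℂ)
    (μ : @Measure k (borel k)) (γ : ℂ) (η : k → ℂ) (Φ : k × k → ℂ) :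
    AxTorP t n (Fof t n ψ μ γ η Φ) := by
  intro μ' _ hdet g m ξ _
  have h1 : (!![1, 0; 0, ((μ' * m).det)⁻¹] * (!![1, 0; 0, μ'.det] * g)
      : Matrix (Fin 2) (Fin 2) k) = !![1, 0; 0, (m.det)⁻¹] * g := by
    rw [← Matrix.mul_assoc, Matrix.det_mul, diag_mul227 _ _ hdet]
  have hs : Real.sqrt ‖μ'.det‖ ≠ 0 := by
    rw [Real.sqrt_ne_zero (norm_nonneg _)]
    exact norm_ne_zero_iff.mpr hdet
  unfold Fof lopL
  rw [h1, Matrix.mul_inv_rev, actL_mul227, Matrix.det_mul, norm_mul,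
    Real.sqrt_mul (norm_nonneg _), mul_inv, ← mul_assoc]
  congr 1
  push_cast
  rw [← mul_assoc, mul_inv_cancel₀ (by exact_mod_cast hs), one_mul]

/-- **Leaf 19 AX-TOR**, verbatim. -/
theorem leafAxTor227 : LeafAxTor := by
  intro K _ _ v t n ψ μ γ η Φ
  exact axTor_general227 t n ψ μ γ η Φ

end Fermat.Agent.LT.A2.H227

end

end
-- ===== PACK-END LT/A2/H227/AxTor.lean

-- ===== PACK-BEGIN LT/A2/H247/GaussProdAbs.lean
section


/-!
# Row LT, tower A2, station A2.03.1.1.06, leaf 07 `LF54.LeafGaussProd` -- abstract core (helper247)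

OFF-MAIN.  For ANY normed field `k`, a locally constant unitary character `ψ`, a Fourier
certificate `FourierCert t n ψ μ c G` and ONE Schwartz--Bruhat function which is not identically
zero:  `‖a‖² G(a) G(-a) = c`.

Route (memo of helper54, par. 4): `X_a = FT M_a FT`.  By inversion `X_a X_{-a} Φ = c² Φ`; by the
Gauss identity (twice), completion of the square and the dilation rule
`X_a X_{-a} Φ = c ‖a‖² G(a) G(-a) Φ`.  Only the certificate is used (no integrability, no Fubini).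
-/

set_option autoImplicit false

open MeasureTheory
open scoped Topology

noncomputable section

namespace Fermat.Agent.LT.A2.H247

open Fermat.Agent.LT.A2 Fermat.Agent.LT.A2.WX467 Fermat.Agent.LT.A2.LF54

section Abs

variable {k : Type} [NormedField k]

/-! ## Characters -/

theorem psi_zero247 (ψ : k → ℂ) (hmul : ∀ x y : k, ψ (x + y) = ψ x * ψ y)
    (hone : ∀ x : k, ‖ψ x‖ = 1) : ψ 0 = 1 := by
  have h0 : ψ 0 ≠ 0 := by
    intro h
    have := hone 0
    rw [h, norm_zero] at this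
    exact zero_ne_one this
  have h1 : ψ 0 = ψ 0 * ψ 0 := by
    conv_lhs => rw [← add_zero (0 : k)]
    exact hmul 0 0
  have h2 : ψ 0 * 1 = ψ 0 * ψ 0 := by rw [mul_one]; exact h1
  exact (mul_left_cancel₀ h0 h2).symm

theorem psi_mul_of_add_eq_zero247 (ψ : k → ℂ) (hmul : ∀ x y : k, ψ (x + y) = ψ x * ψ y)
    (hone : ∀ x : k, ‖ψ x‖ = 1) {x y : k} (h : x + y = 0) : ψ x * ψ y = 1 := by
  rw [← hmul, h]
  exact psi_zero247 ψ hmul hone

/-! ## Algebra of the forms -/

theorem qfL_neg247 (t n : k) (y : k × k) : qfL t n (-y) = qfL t n y := by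
  simp only [qfL, Prod.fst_neg, Prod.snd_neg]
  ring

theorem qfL_smul247 (t n s : k) (y : k × k) : qfL t n (s • y) = s ^ 2 * qfL t n y := by
  simp only [qfL, Prod.smul_fst, Prod.smul_snd, smul_eq_mul]
  ring

theorem bfL_smul_left247 (t n s : k) (ξ y : k × k) :
    bfL t n (s • ξ) y = s * bfL t n ξ y := by
  simp only [bfL, qfL, Prod.smul_fst, Prod.smul_snd, smul_eq_mul, Prod.fst_add, Prod.snd_add]
  ring

theorem bfL_smul_right247 (t n s : k) (ξ y : k × k) :
    bfL t n ξ (s • y) = s * bfL t n ξ y := by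
  simp only [bfL, qfL, Prod.smul_fst, Prod.smul_snd, smul_eq_mul, Prod.fst_add, Prod.snd_add]
  ring

theorem bfL_neg_right247 (t n : k) (ξ y : k × k) :
    bfL t n ξ (-y) = bfL t n (-ξ) y := by
  simp only [bfL, qfL, Prod.fst_neg, Prod.snd_neg, Prod.fst_add, Prod.snd_add]
  ring

theorem qfL_add247 (t n : k) (z ξ : k × k) :
    qfL t n (z + ξ) = qfL t n z + qfL t n ξ + bfL t n ξ z := by
  simp only [bfL, qfL, Prod.fst_add, Prod.snd_add]
  ring

theorem continuous_qfL247 (t n : k) : Continuous (qfL t n) := by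
  unfold qfL
  fun_prop

theorem continuous_bfL247 (t n : k) (ξ : k × k) : Continuous (bfL t n ξ) := by
  unfold bfL qfL
  fun_prop

/-! ## The integral -/

theorem intL_congr247 (μ : @Measure k (borel k)) {f g : k × k → ℂ} (h : ∀ y, f y = g y) :
    intL μ f = intL μ g := by
  have : f = g := funext h
  rw [this]

theorem intL_const_mul247 (μ : @Measure k (borel k)) (z : ℂ) (f : k × k → ℂ) :
    intL μ (fun y => z * f y) = z * intL μ f := by
  unfold intL
  exact integral_const_mul z f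

theorem ftL_congr247 (t n : k) (ψ : k → ℂ) (μ : @Measure k (borel k)) {f g : k × k → ℂ}
    (h : ∀ y, f y = g y) (ξ : k × k) : ftL t n ψ μ f ξ = ftL t n ψ μ g ξ := by
  have : f = g := funext h
  rw [this]

theorem ftL_const_mul247 (t n : k) (ψ : k → ℂ) (μ : @Measure k (borel k)) (z : ℂ)
    (f : k × k → ℂ) (ξ : k × k) :
    ftL t n ψ μ (fun y => z * f y) ξ = z * ftL t n ψ μ f ξ := by
  unfold ftL
  rw [← intL_const_mul247]
  apply intL_congr247
  intro y
  ring

/-! ## Schwartz--Bruhat bookkeeping -/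

theorem isSB_lc_mul247 {Φ g : k × k → ℂ} (hΦ : IsSB Φ) (hg : IsLocallyConstant g) :
    IsSB (fun y => g y * Φ y) := by
  refine ⟨?_, ?_⟩
  · exact hg.mul hΦ.1
  · exact hΦ.2.mul_left

theorem isSB_mul_lc247 {Φ g : k × k → ℂ} (hΦ : IsSB Φ) (hg : IsLocallyConstant g) :
    IsSB (fun y => Φ y * g y) := by
  refine ⟨?_, ?_⟩
  · exact hΦ.1.mul hg
  · exact hΦ.2.mul_right

theorem isSB_comp_smul247 {Φ : k × k → ℂ} (hΦ : IsSB Φ) {s : k} (hs : s ≠ 0) :
    IsSB (fun y => Φ (s • y)) := by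
  refine ⟨?_, ?_⟩
  · exact hΦ.1.comp_continuous (continuous_const_smul s)
  · exact hΦ.2.comp_homeomorph (Homeomorph.smulOfNeZero s hs)

theorem lc_psi_comp247 {ψ : k → ℂ} (hlc : IsLocallyConstant ψ) {f : k × k → k}
    (hf : Continuous f) : IsLocallyConstant (fun y => ψ (f y)) :=
  hlc.comp_continuous hf


/-! ## Change of variables for a dilation -/

theorem cov_smul247 (μ : @Measure k (borel k)) (hcov : CovP μ) {s : k} (hs : s ≠ 0)
    {f : k × k → ℂ} (hf : IsSB f) :
    intL μ (fun y => f (s • y)) = (((‖s‖ ^ 2)⁻¹ : ℝ) : ℂ) * intL μ f := by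
  have hdet : (!![s, 0; 0, s] : Matrix (Fin 2) (Fin 2) k).det = s * s := by
    rw [Matrix.det_fin_two_of]
    ring
  have hdet0 : (!![s, 0; 0, s] : Matrix (Fin 2) (Fin 2) k).det ≠ 0 := by
    rw [hdet]
    exact mul_ne_zero hs hs
  have h := hcov !![s, 0; 0, s] hdet0 f hf
  have hact : ∀ y : k × k, actL (!![s, 0; 0, s] : Matrix (Fin 2) (Fin 2) k) y = s • y := by
    intro y
    apply Prod.ext
    · simp [actL]
    · simp [actL]
  have h2 : intL μ (fun y => f (s • y))
      = intL μ (fun y => f (actL (!![s, 0; 0, s] : Matrix (Fin 2) (Fin 2) k) y)) := by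
    apply intL_congr247
    intro y
    rw [hact]
  rw [h2, h, hdet, norm_mul, pow_two]

/-! ## The operators -/

variable (t n : k) (ψ : k → ℂ) (μ : @Measure k (borel k))

/-- `M_a Φ = ψ(a Q) · Φ`. -/
def mOp247 (a : k) (Φ : k × k → ℂ) : k × k → ℂ := fun y => ψ (a * qfL t n y) * Φ y

/-- `X_a = FT M_a FT`. -/
def xOp247 (a : k) (Φ : k × k → ℂ) : k × k → ℂ :=
  ftL t n ψ μ (fun y => ψ (a * qfL t n y) * ftL t n ψ μ Φ y)

theorem isSB_mOp247 (hlc : IsLocallyConstant ψ) (a : k) {Φ : k × k → ℂ} (hΦ : IsSB Φ) :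
    IsSB (mOp247 t n ψ a Φ) := by
  unfold mOp247
  exact isSB_lc_mul247 hΦ
    (lc_psi_comp247 hlc (f := fun y => a * qfL t n y)
      (continuous_const.mul (continuous_qfL247 t n)))

theorem isSB_xOp247 (hlc : IsLocallyConstant ψ) (hsb : FtSbP t n ψ μ) (a : k)
    {Φ : k × k → ℂ} (hΦ : IsSB Φ) : IsSB (xOp247 t n ψ μ a Φ) := by
  unfold xOp247
  exact hsb _ (isSB_mOp247 t n ψ hlc a (hsb Φ hΦ))

/-- Completion of the square: the right-hand side of the Gauss identity as a Fourier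
transform. -/
theorem kform247 (hmul : ∀ x y : k, ψ (x + y) = ψ x * ψ y) {a : k} (ha : a ≠ 0)
    (Φ : k × k → ℂ) (ξ : k × k) :
    intL μ (fun z => Φ z * ψ (-(qfL t n (z + ξ)) / a))
      = ψ (-(a⁻¹) * qfL t n ξ)
          * ftL t n ψ μ (mOp247 t n ψ (-(a⁻¹)) Φ) ((-(a⁻¹)) • ξ) := by
  unfold ftL mOp247
  rw [← intL_const_mul247]
  apply intL_congr247
  intro z
  have harg : -(qfL t n (z + ξ)) / a
      = -(a⁻¹) * qfL t n ξ + (-(a⁻¹) * qfL t n z + bfL t n ((-(a⁻¹)) • ξ) z) := by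
    rw [bfL_smul_left247, qfL_add247]
    field_simp
    ring
  rw [harg, hmul, hmul]
  ring

/-- The Gauss identity in operator form:
`X_a Φ (ξ) = G(a) ψ(-Q(ξ)/a) FT(M_{-1/a} Φ)(-ξ/a)`. -/
theorem xOp_eq247 (hmul : ∀ x y : k, ψ (x + y) = ψ x * ψ y) {G : k → ℂ}
    (hG : GaussP t n ψ μ G) {a : k} (ha : a ≠ 0) {Φ : k × k → ℂ} (hΦ : IsSB Φ) (ξ : k × k) :
    xOp247 t n ψ μ a Φ ξ
      = G a * (ψ (-(a⁻¹) * qfL t n ξ)
          * ftL t n ψ μ (mOp247 t n ψ (-(a⁻¹)) Φ) ((-(a⁻¹)) • ξ)) := by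
  unfold xOp247
  rw [hG a ha Φ hΦ ξ, kform247 t n ψ μ hmul ha Φ ξ]


/-- The dilation rule `FT D_s = ‖s‖⁻² D_{1/s} FT`. -/
theorem ft_dilate247 (hlc : IsLocallyConstant ψ) (hcov : CovP μ) {s : k} (hs : s ≠ 0)
    {Ψ : k × k → ℂ} (hΨ : IsSB Ψ) (η : k × k) :
    ftL t n ψ μ (fun y => Ψ (s • y)) η
      = (((‖s‖ ^ 2)⁻¹ : ℝ) : ℂ) * ftL t n ψ μ Ψ (s⁻¹ • η) := by
  have hf : IsSB (fun y => Ψ y * ψ (bfL t n (s⁻¹ • η) y)) :=
    isSB_mul_lc247 hΨ (lc_psi_comp247 hlc (continuous_bfL247 t n (s⁻¹ • η)))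
  have h := cov_smul247 μ hcov hs hf
  have h1 : ftL t n ψ μ (fun y => Ψ (s • y)) η
      = intL μ (fun y => (fun y => Ψ y * ψ (bfL t n (s⁻¹ • η) y)) (s • y)) := by
    unfold ftL
    apply intL_congr247
    intro y
    show Ψ (s • y) * ψ (bfL t n η y) = Ψ (s • y) * ψ (bfL t n (s⁻¹ • η) (s • y))
    rw [bfL_smul_left247, bfL_smul_right247, ← mul_assoc, inv_mul_cancel₀ hs, one_mul]
  rw [h1, h]
  rfl

/-- `X_a X_{-a} Φ = c² Φ` by inversion. -/
theorem xx_inv247 (hmul : ∀ x y : k, ψ (x + y) = ψ x * ψ y) (hone : ∀ x : k, ‖ψ x‖ = 1)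
    (hlc : IsLocallyConstant ψ) {c : ℝ} (hsb : FtSbP t n ψ μ) (hinv : InvP t n ψ μ c)
    (hcov : CovP μ) (a : k) {Φ : k × k → ℂ} (hΦ : IsSB Φ) (ξ : k × k) :
    xOp247 t n ψ μ a (xOp247 t n ψ μ (-a) Φ) ξ = (c : ℂ) * ((c : ℂ) * Φ ξ) := by
  have hFΦ : IsSB (ftL t n ψ μ Φ) := hsb Φ hΦ
  have hM : IsSB (mOp247 t n ψ (-a) (ftL t n ψ μ Φ)) := isSB_mOp247 t n ψ hlc (-a) hFΦ
  have hneg : (-1 : k) ≠ 0 := neg_ne_zero.mpr one_ne_zero
  -- the inner function
  have h1 : ∀ y : k × k,
      ψ (a * qfL t n y) * ftL t n ψ μ (xOp247 t n ψ μ (-a) Φ) y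
        = (c : ℂ) * ftL t n ψ μ Φ ((-1 : k) • y) := by
    intro y
    have hx : xOp247 t n ψ μ (-a) Φ = ftL t n ψ μ (mOp247 t n ψ (-a) (ftL t n ψ μ Φ)) := rfl
    rw [hx, hinv _ hM y]
    unfold mOp247
    rw [qfL_neg247, neg_one_smul]
    have hp : ψ (a * qfL t n y) * ψ (-a * qfL t n y) = 1 :=
      psi_mul_of_add_eq_zero247 ψ hmul hone (by ring)
    calc ψ (a * qfL t n y) * ((c : ℂ) * (ψ (-a * qfL t n y) * ftL t n ψ μ Φ (-y)))
        = (ψ (a * qfL t n y) * ψ (-a * qfL t n y)) * ((c : ℂ) * ftL t n ψ μ Φ (-y)) := by ring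
      _ = (c : ℂ) * ftL t n ψ μ Φ (-y) := by rw [hp, one_mul]
  have h2 : xOp247 t n ψ μ a (xOp247 t n ψ μ (-a) Φ) ξ
      = ftL t n ψ μ (fun y => (c : ℂ) * ftL t n ψ μ Φ ((-1 : k) • y)) ξ := by
    unfold xOp247
    exact ftL_congr247 t n ψ μ h1 ξ
  rw [h2, ftL_const_mul247, ft_dilate247 t n ψ μ hlc hcov hneg hFΦ ξ]
  have h3 : ((-1 : k))⁻¹ • ξ = -ξ := by
    rw [inv_neg, inv_one, neg_one_smul]
  rw [h3, hinv Φ hΦ (-ξ), neg_neg]
  simp

/-- `X_a X_{-a} Φ = c ‖a‖² G(a) G(-a) Φ` by the Gauss identity. -/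
theorem xx_gauss247 (hmul : ∀ x y : k, ψ (x + y) = ψ x * ψ y) (hone : ∀ x : k, ‖ψ x‖ = 1)
    (hlc : IsLocallyConstant ψ) {c : ℝ} {G : k → ℂ} (hsb : FtSbP t n ψ μ)
    (hinv : InvP t n ψ μ c) (hcov : CovP μ) (hG : GaussP t n ψ μ G) {a : k} (ha : a ≠ 0)
    {Φ : k × k → ℂ} (hΦ : IsSB Φ) (ξ : k × k) :
    xOp247 t n ψ μ a (xOp247 t n ψ μ (-a) Φ) ξ
      = (c : ℂ) * (((‖a‖ ^ 2 : ℝ) : ℂ) * (G a * G (-a))) * Φ ξ := by
  have hna : -a ≠ 0 := neg_ne_zero.mpr ha
  have hai : a⁻¹ ≠ 0 := inv_ne_zero ha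
  have hX : IsSB (xOp247 t n ψ μ (-a) Φ) := isSB_xOp247 t n ψ μ hlc hsb (-a) hΦ
  have hM2 : IsSB (mOp247 t n ψ a⁻¹ Φ) := isSB_mOp247 t n ψ hlc a⁻¹ hΦ
  have hΨ2 : IsSB (ftL t n ψ μ (mOp247 t n ψ a⁻¹ Φ)) := hsb _ hM2
  rw [xOp_eq247 t n ψ μ hmul hG ha hX ξ]
  -- the function under the outer Fourier transform
  have h1 : ∀ y : k × k, mOp247 t n ψ (-(a⁻¹)) (xOp247 t n ψ μ (-a) Φ) y
      = G (-a) * ftL t n ψ μ (mOp247 t n ψ a⁻¹ Φ) (a⁻¹ • y) := by
    intro y
    have hx := xOp_eq247 t n ψ μ hmul hG hna hΦ y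
    have hneg : -((-a)⁻¹) = a⁻¹ := by rw [inv_neg, neg_neg]
    rw [hneg] at hx
    show ψ (-(a⁻¹) * qfL t n y) * xOp247 t n ψ μ (-a) Φ y = _
    rw [hx]
    have hp : ψ (-(a⁻¹) * qfL t n y) * ψ (a⁻¹ * qfL t n y) = 1 :=
      psi_mul_of_add_eq_zero247 ψ hmul hone (by ring)
    calc ψ (-(a⁻¹) * qfL t n y)
          * (G (-a) * (ψ (a⁻¹ * qfL t n y)
              * ftL t n ψ μ (mOp247 t n ψ a⁻¹ Φ) (a⁻¹ • y)))
        = (ψ (-(a⁻¹) * qfL t n y) * ψ (a⁻¹ * qfL t n y))
            * (G (-a) * ftL t n ψ μ (mOp247 t n ψ a⁻¹ Φ) (a⁻¹ • y)) := by ring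
      _ = G (-a) * ftL t n ψ μ (mOp247 t n ψ a⁻¹ Φ) (a⁻¹ • y) := by rw [hp, one_mul]
  rw [ftL_congr247 t n ψ μ h1, ftL_const_mul247,
    ft_dilate247 t n ψ μ hlc hcov hai hΨ2]
  have h3 : (a⁻¹)⁻¹ • (-(a⁻¹)) • ξ = -ξ := by
    rw [inv_inv, smul_smul, mul_neg, mul_inv_cancel₀ ha, neg_one_smul]
  rw [h3, hinv _ hM2 (-ξ), neg_neg]
  have hnorm : (((‖a⁻¹‖ ^ 2)⁻¹ : ℝ) : ℂ) = ((‖a‖ ^ 2 : ℝ) : ℂ) := by
    rw [norm_inv, inv_pow, inv_inv]
  rw [hnorm]
  have hp : ψ (-(a⁻¹) * qfL t n ξ) * ψ (a⁻¹ * qfL t n ξ) = 1 :=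
    psi_mul_of_add_eq_zero247 ψ hmul hone (by ring)
  show G a * (ψ (-(a⁻¹) * qfL t n ξ) * (G (-a) * (((‖a‖ ^ 2 : ℝ) : ℂ)
      * ((c : ℂ) * (ψ (a⁻¹ * qfL t n ξ) * Φ ξ))))) = _
  calc G a * (ψ (-(a⁻¹) * qfL t n ξ) * (G (-a) * (((‖a‖ ^ 2 : ℝ) : ℂ)
          * ((c : ℂ) * (ψ (a⁻¹ * qfL t n ξ) * Φ ξ)))))
      = (ψ (-(a⁻¹) * qfL t n ξ) * ψ (a⁻¹ * qfL t n ξ))
          * ((c : ℂ) * (((‖a‖ ^ 2 : ℝ) : ℂ) * (G a * G (-a))) * Φ ξ) := by ring
    _ = (c : ℂ) * (((‖a‖ ^ 2 : ℝ) : ℂ) * (G a * G (-a))) * Φ ξ := by rw [hp, one_mul]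

/-- **GAUSS-PROD, abstract form.**  `‖a‖² G(a) G(-a) = c` from the Fourier certificate, for a
locally constant unitary character and as soon as ONE Schwartz--Bruhat function is not
identically zero. -/
theorem gaussProd_abs247 (hmul : ∀ x y : k, ψ (x + y) = ψ x * ψ y)
    (hone : ∀ x : k, ‖ψ x‖ = 1) (hlc : IsLocallyConstant ψ) {c : ℝ} {G : k → ℂ}
    (hF : FourierCert t n ψ μ c G)
    (hex : ∃ Φ : k × k → ℂ, IsSB Φ ∧ ∃ ξ : k × k, Φ ξ ≠ 0) :
    GaussProdP c G := by
  intro a ha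
  obtain ⟨Φ, hΦ, ξ, hξ⟩ := hex
  have e1 := xx_inv247 t n ψ μ hmul hone hlc hF.ft_sb hF.inv hF.cov a hΦ ξ
  have e2 := xx_gauss247 t n ψ μ hmul hone hlc hF.ft_sb hF.inv hF.cov hF.gauss ha hΦ ξ
  rw [e1] at e2
  have hc : (c : ℂ) ≠ 0 := by
    exact_mod_cast hF.c_pos.ne'
  have e3 : (c : ℂ) * ((c : ℂ) * Φ ξ)
      = (c : ℂ) * ((((‖a‖ ^ 2 : ℝ) : ℂ) * (G a * G (-a))) * Φ ξ) := by
    rw [e2]; ring
  have e4 := mul_left_cancel₀ hc e3
  exact (mul_right_cancel₀ hξ e4).symm

end Abs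

end Fermat.Agent.LT.A2.H247

end

end
-- ===== PACK-END LT/A2/H247/GaussProdAbs.lean

-- ===== PACK-BEGIN LT/A2/H456/Loc2.lean
section


/-!
# Row LT, tower A2, leaf A2.02 `TorusCharC` -- top assembly, part 4 (helper456), OFF-MAIN

Torus elements supported at one finite place, with a rational component.
-/

set_option autoImplicit false

open IsDedekindDomain NumberField AutomorphicForm
open scoped MatrixGroups

noncomputable section

namespace Fermat.Agent.LT.A2.H456

open Fermat.Agent.LT.H130 Fermat.Agent.LT.H556 Fermat.Agent.LT.A2 Fermat.Agent.LT.A2.H83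

section Comp

variable {K : Type} [Field K] [NumberField K]

theorem adl_fst_sub456 (a b : A0.Adl K) : (a - b).1 = a.1 - b.1 := rfl
theorem adl_fst_neg456 (a : A0.Adl K) : (-a).1 = -a.1 := rfl
theorem adl_fst_pow456 (a : A0.Adl K) (k : ℕ) : (a ^ k).1 = a.1 ^ k := rfl
theorem adl_snd_pow456 (a : A0.Adl K) (k : ℕ) : (a ^ k).2 = a.2 ^ k := rfl

theorem inf_mul_apply456 (a b : InfiniteAdeleRing K) (u : InfinitePlace K) :
    (a * b) u = a u * b u := rfl
theorem inf_add_apply456 (a b : InfiniteAdeleRing K) (u : InfinitePlace K) :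
    (a + b) u = a u + b u := rfl
theorem inf_sub_apply456 (a b : InfiniteAdeleRing K) (u : InfinitePlace K) :
    (a - b) u = a u - b u := rfl
theorem inf_neg_apply456 (a : InfiniteAdeleRing K) (u : InfinitePlace K) :
    (-a) u = -a u := rfl
theorem inf_pow_apply456 (a : InfiniteAdeleRing K) (k : ℕ) (u : InfinitePlace K) :
    (a ^ k) u = a u ^ k := rfl
theorem inf_one_apply456 (u : InfinitePlace K) : (1 : InfiniteAdeleRing K) u = 1 := rfl
theorem inf_zero_apply456 (u : InfinitePlace K) : (0 : InfiniteAdeleRing K) u = 0 := rfl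

theorem fin_sub_apply456 (a b : FiniteAdeleRing (𝓞 K) K) (v : HeightOneSpectrum (𝓞 K)) :
    (a - b) v = a v - b v := rfl
theorem fin_neg_apply456 (a : FiniteAdeleRing (𝓞 K) K) (v : HeightOneSpectrum (𝓞 K)) :
    (-a) v = -a v := rfl
theorem fin_pow_apply456 (a : FiniteAdeleRing (𝓞 K) K) (k : ℕ) (v : HeightOneSpectrum (𝓞 K)) :
    (a ^ k) v = a v ^ k := rfl
theorem fin_algebraMap_apply456 (x : K) (v : HeightOneSpectrum (𝓞 K)) :
    (algebraMap K (FiniteAdeleRing (𝓞 K) K) x) v = algebraMap K (v.adicCompletion K) x := rfl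

theorem adl_eq_aLoc456 {X : A0.Adl K} {v : HeightOneSpectrum (𝓞 K)} {c : v.adicCompletion K}
    (h1 : ∀ u, X.1 u = 1) (h2 : X.2 v = c) (h3 : ∀ v', v' ≠ v → X.2 v' = 1) :
    X = aLoc456 v c := by
  apply adl_ext456
  · funext u
    rw [h1 u]; rfl
  · apply FiniteAdeleRing.ext
    intro v'
    by_cases h : v' = v
    · subst h
      rw [h2, aLoc456_snd, fOne456_same]
    · rw [h3 v' h, aLoc456_snd, fOne456_ne _ _ h]

theorem adl_eq_bLoc456 {X : A0.Adl K} {v : HeightOneSpectrum (𝓞 K)} {c : v.adicCompletion K}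
    (h1 : ∀ u, X.1 u = 0) (h2 : X.2 v = c) (h3 : ∀ v', v' ≠ v → X.2 v' = 0) :
    X = bLoc456 v c := by
  apply adl_ext456
  · funext u
    rw [h1 u]; rfl
  · apply FiniteAdeleRing.ext
    intro v'
    by_cases h : v' = v
    · subst h
      rw [h2, bLoc456_snd, fZero456_same]
    · rw [h3 v' h, bLoc456_snd, fZero456_ne _ _ h]

end Comp

section LocT

variable {K : Type} [Field K] [NumberField K] (t n : K)

local notation "tA" => algebraMap K (A0.Adl K) t
local notation "nA" => algebraMap K (A0.Adl K) n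

/-- The norm form `N(x + y ω) = x² + t x y + n y²`. -/
def nf456 (x y : K) : K := x ^ 2 + t * x * y + n * y ^ 2

/-- The product in the coordinates `1, ω`. -/
def tm1_456 (x y x' y' : K) : K := x * x' - n * (y * y')

/-- The product in the coordinates `1, ω`. -/
def tm2_456 (x y x' y' : K) : K := x * y' + y * x' + t * (y * y')

variable (v : HeightOneSpectrum (𝓞 K))

/-- The adelic coordinates of the torus element supported at `v` with component `x + y ω`. -/
def locA456 (x : K) : A0.Adl K := aLoc456 v (algebraMap K (v.adicCompletion K) x)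

/-- The adelic coordinates of the torus element supported at `v` with component `x + y ω`. -/
def locB456 (y : K) : A0.Adl K := bLoc456 v (algebraMap K (v.adicCompletion K) y)

theorem locA456_fst (x : K) (u : InfinitePlace K) : (locA456 v x).1 u = 1 := rfl
theorem locB456_fst (x : K) (u : InfinitePlace K) : (locB456 v x).1 u = 0 := rfl
theorem locA456_same (x : K) : (locA456 v x).2 v = algebraMap K (v.adicCompletion K) x :=
  fOne456_same _ _
theorem locB456_same (x : K) : (locB456 v x).2 v = algebraMap K (v.adicCompletion K) x :=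
  fZero456_same _ _
theorem locA456_ne (x : K) {v' : HeightOneSpectrum (𝓞 K)} (h : v' ≠ v) :
    (locA456 v x).2 v' = 1 := fOne456_ne _ _ h
theorem locB456_ne (x : K) {v' : HeightOneSpectrum (𝓞 K)} (h : v' ≠ v) :
    (locB456 v x).2 v' = 0 := fZero456_ne _ _ h

theorem locA456_one : locA456 v 1 = 1 := by
  unfold locA456
  rw [map_one, aLoc456_one]

theorem locB456_zero : locB456 v 0 = 0 := by
  symm
  apply adl_eq_bLoc456
  · intro u; rfl
  · rw [map_zero]; rfl
  · intro v' _; rfl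

theorem loc_nf456 (x y : K) :
    locA456 v x ^ 2 + tA * locA456 v x * locB456 v y + nA * locB456 v y ^ 2
      = locA456 v (nf456 t n x y) := by
  apply adl_eq_aLoc456
  · intro u
    simp only [adl_fst_add456, adl_fst_mul456, adl_fst_pow456, inf_add_apply456,
      inf_mul_apply456, inf_pow_apply456, locA456_fst, locB456_fst]
    ring
  · simp only [adl_snd_add456, adl_snd_mul456, adl_snd_pow456, fin_add_apply456,
      fin_mul_apply456, fin_pow_apply456, locA456_same, locB456_same, algebraMap_adl_snd456,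
      fin_algebraMap_apply456, nf456, map_add, map_mul, map_pow]
  · intro v' hv'
    simp only [adl_snd_add456, adl_snd_mul456, adl_snd_pow456, fin_add_apply456,
      fin_mul_apply456, fin_pow_apply456, locA456_ne v _ hv', locB456_ne v _ hv']
    ring

theorem loc_tm1_456 (x y x' y' : K) :
    locA456 v x * locA456 v x' - nA * (locB456 v y * locB456 v y')
      = locA456 v (tm1_456 n x y x' y') := by
  apply adl_eq_aLoc456
  · intro u
    simp only [adl_fst_sub456, adl_fst_mul456, inf_sub_apply456,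
      inf_mul_apply456, locA456_fst, locB456_fst]
    ring
  · simp only [adl_snd_sub456, adl_snd_mul456, fin_sub_apply456,
      fin_mul_apply456, locA456_same, locB456_same, algebraMap_adl_snd456,
      fin_algebraMap_apply456, tm1_456, map_sub, map_mul]
  · intro v' hv'
    simp only [adl_snd_sub456, adl_snd_mul456, fin_sub_apply456,
      fin_mul_apply456, locA456_ne v _ hv', locB456_ne v _ hv']
    ring

theorem loc_tm2_456 (x y x' y' : K) :
    locA456 v x * locB456 v y' + locB456 v y * locA456 v x' + tA * (locB456 v y * locB456 v y')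
      = locB456 v (tm2_456 t x y x' y') := by
  apply adl_eq_bLoc456
  · intro u
    simp only [adl_fst_add456, adl_fst_mul456, inf_add_apply456,
      inf_mul_apply456, locA456_fst, locB456_fst]
    ring
  · simp only [adl_snd_add456, adl_snd_mul456, fin_add_apply456,
      fin_mul_apply456, locA456_same, locB456_same, algebraMap_adl_snd456,
      fin_algebraMap_apply456, tm2_456, map_add, map_mul]
  · intro v' hv'
    simp only [adl_snd_add456, adl_snd_mul456, fin_add_apply456,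
      fin_mul_apply456, locA456_ne v _ hv', locB456_ne v _ hv']
    ring

theorem isUnit_locA456 {c : K} (hc : c ≠ 0) : IsUnit (locA456 v c) := by
  have h0 : algebraMap K (v.adicCompletion K) c ≠ 0 := by
    rw [Ne, map_eq_zero]; exact hc
  have := (idl456 v (Units.mk0 _ h0)).isUnit
  rw [idl456_val] at this
  exact this

/-- The matrix of the torus element supported at `v` with rational component `x + y ω`. -/
def locMat456 (x y : K) : Matrix (Fin 2) (Fin 2) (A0.Adl K) :=
  torMat tA nA (locA456 v x) (locB456 v y)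

theorem locMat456_det (x y : K) :
    (locMat456 t n v x y).det = locA456 v (nf456 t n x y) := by
  unfold locMat456
  rw [torMat_det456, loc_nf456]

/-- The torus element supported at `v` with rational component `x + y ω`. -/
def locT456 (x y : K) (h : nf456 t n x y ≠ 0) : A0.G K :=
  Matrix.GeneralLinearGroup.mk'' (locMat456 t n v x y)
    (by rw [locMat456_det]; exact isUnit_locA456 v h)

theorem locT456_val (x y : K) (h : nf456 t n x y ≠ 0) :
    ((locT456 t n v x y h : A0.G K) : Matrix (Fin 2) (Fin 2) (A0.Adl K))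
      = torMat tA nA (locA456 v x) (locB456 v y) := rfl

theorem locT456_inTorus (x y : K) (h : nf456 t n x y ≠ 0) :
    InTorus t n (locT456 t n v x y h) := ⟨_, _, locT456_val t n v x y h⟩

theorem locT456_det (x y : K) (h : nf456 t n x y ≠ 0) :
    ((Matrix.GeneralLinearGroup.det (locT456 t n v x y h) : (A0.Adl K)ˣ) : A0.Adl K)
      = locA456 v (nf456 t n x y) := by
  rw [Matrix.GeneralLinearGroup.val_det_apply]
  exact locMat456_det t n v x y

theorem locT456_mul (x y x' y' : K) (h : nf456 t n x y ≠ 0) (h' : nf456 t n x' y' ≠ 0)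
    (h'' : nf456 t n (tm1_456 n x y x' y') (tm2_456 t x y x' y') ≠ 0) :
    locT456 t n v x y h * locT456 t n v x' y' h'
      = locT456 t n v (tm1_456 n x y x' y') (tm2_456 t x y x' y') h'' := by
  apply Units.ext
  rw [Units.val_mul, locT456_val, locT456_val, locT456_val, torMat_mul456, loc_tm1_456,
    loc_tm2_456]

end LocT

end Fermat.Agent.LT.A2.H456

end

end
-- ===== PACK-END LT/A2/H456/Loc2.lean

-- ===== PACK-BEGIN LT/A2/H487/RopSb.lean
section


/-!
# Row LT, tower A2, leaf A2.03.1.1.06.15 `LF54.LeafRopSb` (helper487), OFF-MAIN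

`leafRopSb_h487 : LF54.LeafRopSb`, VERBATIM against `LT/A2/H54/LocFinSpec.lean`
(helper54@26071c838, sha256 8ccd9c5c6ed3304a), byte-identical copy.  Mathlib only.

Proof.  A continuous unitary character `ψ` of an ultrametric normed field is trivial on a ball
(`ψ = 1` near `0` up to `< 1`, the ball is stable under `x ↦ x + x`, and a unit complex number
`z` with `‖z^(2^j) - 1‖ < 1` for all `j` is `1`: `1 - Re z^(2^(j+1)) ≥ 3 (1 - Re z^(2^j))`), hence
locally constant.  `c = 0`: `rOp h Φ = const · (ψ ∘ (a b Q)) · Φ(a ·)`.  `c ≠ 0`: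
`rOp h Φ = const · (ψ ∘ (a Q / c)) · FT(ψ(d Q / c) Φ)(- · / c)`.
-/

set_option autoImplicit false

open IsDedekindDomain NumberField MeasureTheory
open scoped Topology

noncomputable section

namespace Fermat.Agent.LT.A2.H487

open Fermat.Agent.LT.A2 Fermat.Agent.LT.A2.WX467 Fermat.Agent.LT.A2.LF54

/-! ## 1. Unit complex numbers -/

/-- A unit complex number at distance `< 1` from `1` has real part `> 1/2`. -/
theorem re_gt_half487 (w : ℂ) (hw : ‖w‖ = 1) (h : ‖w - 1‖ < 1) : 1 / 2 < w.re := by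
  have h1 : ‖w - 1‖ ^ 2 < 1 := by
    have h0 : 0 ≤ ‖w - 1‖ := norm_nonneg _
    nlinarith
  have h2 : ‖w‖ ^ 2 = 1 := by rw [hw]; norm_num
  rw [Complex.sq_norm, Complex.normSq_apply] at h1 h2
  simp only [Complex.sub_re, Complex.sub_im, Complex.one_re, Complex.one_im, sub_zero] at h1
  nlinarith

/-- The real part of the square of a unit complex number. -/
theorem re_sq487 (w : ℂ) (hw : ‖w‖ = 1) : (w ^ 2).re = 2 * w.re ^ 2 - 1 := by
  have h2 : ‖w‖ ^ 2 = 1 := by rw [hw]; norm_num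
  rw [Complex.sq_norm, Complex.normSq_apply] at h2
  rw [pow_two, Complex.mul_re]
  nlinarith

/-- A unit complex number all of whose powers `z^(2^j)` are at distance `< 1` from `1` is `1`. -/
theorem eq_one_of_pow_close487 (z : ℂ) (hz : ‖z‖ = 1)
    (h : ∀ j : ℕ, ‖z ^ (2 ^ j) - 1‖ < 1) : z = 1 := by
  have hn : ∀ j : ℕ, ‖z ^ (2 ^ j)‖ = 1 := fun j => by rw [norm_pow, hz, one_pow]
  have hre : ∀ j : ℕ, 1 / 2 < (z ^ (2 ^ j)).re := fun j => re_gt_half487 _ (hn j) (h j)
  have hle : ∀ j : ℕ, (z ^ (2 ^ j)).re ≤ 1 := fun j => by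
    have := Complex.re_le_norm (z ^ (2 ^ j))
    rw [hn j] at this
    exact this
  have hstep : ∀ j : ℕ, 3 ^ j * (1 - z.re) ≤ 1 - (z ^ (2 ^ j)).re := by
    intro j
    induction j with
    | zero => simp
    | succ j ih =>
      have e : z ^ (2 ^ (j + 1)) = (z ^ (2 ^ j)) ^ 2 := by
        rw [← pow_mul, pow_succ]
      rw [e, re_sq487 _ (hn j)]
      have h1 := hre j
      have h2 := hle j
      have h3 : (3 : ℝ) ^ (j + 1) * (1 - z.re) = 3 * (3 ^ j * (1 - z.re)) := by ring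
      rw [h3]
      nlinarith
  have hre1 : z.re = 1 := by
    by_contra hne
    have hlt : z.re < 1 := by
      have h0 := hle 0
      simp only [pow_zero, pow_one] at h0
      exact lt_of_le_of_ne h0 hne
    have hpos : 0 < 1 - z.re := by linarith
    obtain ⟨j, hj⟩ := pow_unbounded_of_one_lt (1 / (1 - z.re)) (by norm_num : (1 : ℝ) < 3)
    have h4 : 1 < 3 ^ j * (1 - z.re) := by
      rw [div_lt_iff₀ hpos] at hj
      exact hj
    have h5 := hstep j
    have h6 := hre j
    linarith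
  have h2 : ‖z‖ ^ 2 = 1 := by rw [hz]; norm_num
  rw [Complex.sq_norm, Complex.normSq_apply, hre1] at h2
  have him : z.im = 0 := by
    have : z.im * z.im = 0 := by linarith
    exact mul_self_eq_zero.mp this
  apply Complex.ext
  · simpa using hre1
  · simpa using him

/-! ## 2. Characters of an ultrametric field are locally constant -/

section Ultra

variable {k : Type} [NormedField k] [IsUltrametricDist k]

/-- A continuous unitary additive character is trivial on a ball. -/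
theorem char_trivial_near487 (ψ : k → ℂ) (hψ : IsCharL ψ) :
    ∃ δ : ℝ, 0 < δ ∧ ∀ x : k, ‖x‖ < δ → ψ x = 1 := by
  obtain ⟨hcont, hadd, hnorm, -⟩ := hψ
  have h0 : ψ 0 = 1 := by
    have h1 : ψ 0 = ψ 0 * ψ 0 := by
      have := hadd 0 0
      rwa [add_zero] at this
    have h2 : ψ 0 ≠ 0 := by
      intro h
      have := hnorm 0
      rw [h, norm_zero] at this
      exact zero_ne_one this
    have h3 : ψ 0 * 1 = ψ 0 * ψ 0 := by rw [mul_one]; exact h1
    exact (mul_left_cancel₀ h2 h3).symm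
  have hc0 : ContinuousAt ψ 0 := hcont.continuousAt
  rw [Metric.continuousAt_iff] at hc0
  obtain ⟨δ, hδ, hball⟩ := hc0 1 one_pos
  refine ⟨δ, hδ, fun x hx => ?_⟩
  have hpow : ∀ j : ℕ, ∃ y : k, ‖y‖ < δ ∧ ψ y = ψ x ^ (2 ^ j) := by
    intro j
    induction j with
    | zero => exact ⟨x, hx, by simp⟩
    | succ j ih =>
      obtain ⟨y, hy, hyψ⟩ := ih
      refine ⟨y + y, ?_, ?_⟩
      · have := IsUltrametricDist.norm_add_le_max y y
        rw [max_self] at this
        exact lt_of_le_of_lt this hy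
      · rw [hadd, hyψ, ← pow_add]
        congr 1
        rw [pow_succ]
        ring
  apply eq_one_of_pow_close487 _ (hnorm x)
  intro j
  obtain ⟨y, hy, hyψ⟩ := hpow j
  have := hball (x := y) (by rwa [dist_zero_right])
  rwa [h0, hyψ, dist_eq_norm] at this

/-- A continuous unitary additive character of an ultrametric field is locally constant. -/
theorem char_locallyConstant487 (ψ : k → ℂ) (hψ : IsCharL ψ) : IsLocallyConstant ψ := by
  obtain ⟨δ, hδ, htriv⟩ := char_trivial_near487 ψ hψ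
  rw [IsLocallyConstant.iff_eventually_eq]
  intro x
  filter_upwards [Metric.ball_mem_nhds x hδ] with y hy
  have e : y = x + (y - x) := by ring
  rw [e, hψ.2.1, htriv (y - x) (by rwa [Metric.mem_ball, dist_eq_norm] at hy), mul_one]

/-! ## 3. Schwartz--Bruhat functions -/

omit [IsUltrametricDist k] in
theorem continuous_qfL487 (t n : k) : Continuous (qfL t n) := by
  unfold qfL
  fun_prop

omit [IsUltrametricDist k] in
theorem isSB_lc_mul487 {f Φ : k × k → ℂ} (hf : IsLocallyConstant f) (hΦ : IsSB Φ) :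
    IsSB (fun ξ => f ξ * Φ ξ) :=
  ⟨hf.mul hΦ.1, HasCompactSupport.mul_left (f := f) hΦ.2⟩

theorem isSB_const_mul487 (c : ℂ) {Φ : k × k → ℂ} (hΦ : IsSB Φ) :
    IsSB (fun ξ => c * Φ ξ) :=
  isSB_lc_mul487 (IsLocallyConstant.const c) hΦ

omit [IsUltrametricDist k] in
theorem isSB_dilate487 (a : k) (ha : a ≠ 0) {Φ : k × k → ℂ} (hΦ : IsSB Φ) :
    IsSB (fun ξ => Φ (a • ξ)) := by
  refine ⟨hΦ.1.comp_continuous (continuous_const_smul a), ?_⟩
  exact hΦ.2.comp_homeomorph (Homeomorph.smulOfNeZero a ha)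

theorem char_qf_lc487 (t n : k) (ψ : k → ℂ) (hψ : IsCharL ψ) (s : k) :
    IsLocallyConstant (fun ξ : k × k => ψ (s * qfL t n ξ)) :=
  (char_locallyConstant487 ψ hψ).comp_continuous (continuous_const.mul (continuous_qfL487 t n))

omit [IsUltrametricDist k] in
theorem bfL_smul487 (t n s : k) (ξ y : k × k) :
    bfL t n (s • ξ) y = s * bfL t n ξ y := by
  simp only [bfL, qfL, Prod.fst_add, Prod.snd_add, Prod.smul_fst, Prod.smul_snd, smul_eq_mul]
  ring

/-! ## 4. The leaf -/

/-- `rOp h` preserves Schwartz--Bruhat functions (ultrametric field). -/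
theorem ropSbP487 (t n : k) (ψ : k → ℂ) (μ : @Measure k (borel k)) (γ : ℂ) (η : k → ℂ)
    (hψ : IsCharL ψ) (hFt : FtSbP t n ψ μ) : RopSbP t n ψ μ γ η := by
  intro h hdet Φ hΦ
  have hadd := hψ.2.1
  by_cases hc : h 1 0 = 0
  · -- the Borel case
    have ha : h 0 0 ≠ 0 := by
      intro h00
      rw [Matrix.det_fin_two, hc, h00] at hdet
      simp at hdet
    have e : rOp t n ψ μ γ η h Φ
        = fun ξ => (η (h 0 0) * ((‖h 0 0‖ : ℝ) : ℂ))
            * (ψ ((h 0 0 * h 0 1) * qfL t n ξ) * Φ (h 0 0 • ξ)) := by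
      funext ξ
      unfold rOp
      rw [if_pos hc]
      ring
    rw [e]
    exact isSB_const_mul487 _
      (isSB_lc_mul487 (char_qf_lc487 t n ψ hψ _) (isSB_dilate487 _ ha hΦ))
  · -- the big cell
    have hci : -(h 1 0)⁻¹ ≠ 0 := neg_ne_zero.mpr (inv_ne_zero hc)
    set Φ' : k × k → ℂ := fun y => ψ ((h 1 1 / h 1 0) * qfL t n y) * Φ y with hΦ'
    have hΦ'sb : IsSB Φ' := isSB_lc_mul487 (char_qf_lc487 t n ψ hψ _) hΦ
    have e : rOp t n ψ μ γ η h Φ
        = fun ξ => (γ * η (-(h 1 0)) * ((‖h 1 0‖⁻¹ : ℝ) : ℂ))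
            * (ψ ((h 0 0 / h 1 0) * qfL t n ξ) * ftL t n ψ μ Φ' (-(h 1 0)⁻¹ • ξ)) := by
      funext ξ
      unfold rOp
      rw [if_neg hc]
      congr 1
      have hint : (fun y => ψ ((h 0 0 * qfL t n ξ - bfL t n ξ y + h 1 1 * qfL t n y) / h 1 0) * Φ y)
          = fun y => ψ ((h 0 0 / h 1 0) * qfL t n ξ)
              * (Φ' y * ψ (bfL t n (-(h 1 0)⁻¹ • ξ) y)) := by
        funext y
        have e1 : (h 0 0 * qfL t n ξ - bfL t n ξ y + h 1 1 * qfL t n y) / h 1 0
            = (h 0 0 / h 1 0) * qfL t n ξ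
              + ((h 1 1 / h 1 0) * qfL t n y + bfL t n (-(h 1 0)⁻¹ • ξ) y) := by
          rw [bfL_smul487]
          field_simp
          ring
        rw [e1, hadd, hadd, hΦ']
        ring
      rw [hint]
      unfold ftL intL
      exact integral_const_mul _ _
    rw [e]
    exact isSB_const_mul487 _
      (isSB_lc_mul487 (char_qf_lc487 t n ψ hψ _) (isSB_dilate487 _ hci (hFt Φ' hΦ'sb)))

end Ultra

/-- **Leaf A2.03.1.1.06.15 `LF54.LeafRopSb`.** -/
theorem leafRopSb_h487 : LeafRopSb := by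
  intro K _ _ v t n ψ μ γ η hctx hFt
  exact ropSbP487 t n ψ μ γ η hctx.char hFt

end Fermat.Agent.LT.A2.H487

end

end
-- ===== PACK-END LT/A2/H487/RopSb.lean

-- ===== PACK-BEGIN LT/T7/H550/IdeleKit.lean
section




/-!
# Row LT, tower T7, node T7.14 `RigidC`, leaf T7.14.6b.5 `TorusAsmC`: ideles by components

OFF-MAIN (helper550, 2nd seat of row 1832).  On `LT/T7/H62/RigidWhit.lean` (helper62) and
`LT/H129/HeckeLevel.lean` (helper129), byte-identical copies.

* `mkIdT550 a b hb` : the idele with components `a w` at the infinite places, `b v` at the finite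
  places; `repFT550 y v t` : the idele `y` with the component at `v` replaced by `t`;
  `atFT550 v t` : the idele supported at `v`; `glueT550 S y c` : components of `y` on `S`, of `c`
  elsewhere (`mixC550 : Rigid.MixC K`);
* `dgA` is multiplicative; `dgA u ∈ U(𝔪)` for a unit idele `u` which is `1` at the infinite
  places and at the primes of `𝔪`.
-/

set_option autoImplicit false

open IsDedekindDomain NumberField MeasureTheory AutomorphicForm
open Fermat.Agent.LT.H556.A0
open Fermat.Agent.LT.H129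
open Fermat.Agent.LT.T7 Fermat.Agent.LT.T7.Rigid

noncomputable section

namespace Fermat.Agent.LT.T7.H550

variable {K : Type} [Field K] [NumberField K]

/-! ## 1. Components of ideles -/

theorem adele_extT550 {x y : Adl K} (hI : ∀ w : InfinitePlace K, x.1 w = y.1 w)
    (hF : ∀ v : HeightOneSpectrum (𝓞 K), x.2 v = y.2 v) : x = y :=
  Prod.ext (funext hI) (RestrictedProduct.ext _ _ hF)

theorem idele_extT550 {y z : (Adl K)ˣ}
    (hI : ∀ w : InfinitePlace K, (y : Adl K).1 w = (z : Adl K).1 w)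
    (hF : ∀ v : HeightOneSpectrum (𝓞 K), (y : Adl K).2 v = (z : Adl K).2 v) : y = z :=
  Units.ext (adele_extT550 hI hF)

/-- The component of an idele at a finite place, as a unit. -/
def uF550 (v : HeightOneSpectrum (𝓞 K)) : (Adl K)ˣ →* (v.adicCompletion K)ˣ :=
  Units.map (evF129 v).toMonoidHom

/-- The component of an idele at an infinite place, as a unit. -/
def uI550 (w : InfinitePlace K) : (Adl K)ˣ →* (w.Completion)ˣ :=
  Units.map (evI129 w).toMonoidHom

theorem uF_val550 (v : HeightOneSpectrum (𝓞 K)) (c : (Adl K)ˣ) :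
    ((uF550 v c : (v.adicCompletion K)ˣ) : v.adicCompletion K) = (c : Adl K).2 v := rfl

theorem uI_val550 (w : InfinitePlace K) (c : (Adl K)ˣ) :
    ((uI550 w c : (w.Completion)ˣ) : w.Completion) = (c : Adl K).1 w := rfl

theorem comp_mulFT550 (v : HeightOneSpectrum (𝓞 K)) (y z : (Adl K)ˣ) :
    ((y * z : (Adl K)ˣ) : Adl K).2 v = (y : Adl K).2 v * (z : Adl K).2 v := by
  rw [← uF_val550, ← uF_val550, ← uF_val550, map_mul, Units.val_mul]

theorem comp_mulIT550 (w : InfinitePlace K) (y z : (Adl K)ˣ) :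
    ((y * z : (Adl K)ˣ) : Adl K).1 w = (y : Adl K).1 w * (z : Adl K).1 w := by
  rw [← uI_val550, ← uI_val550, ← uI_val550, map_mul, Units.val_mul]

theorem comp_oneFT550 (v : HeightOneSpectrum (𝓞 K)) : (((1 : (Adl K)ˣ)) : Adl K).2 v = 1 := by
  rw [← uF_val550, map_one, Units.val_one]

theorem comp_oneIT550 (w : InfinitePlace K) : (((1 : (Adl K)ˣ)) : Adl K).1 w = 1 := by
  rw [← uI_val550, map_one, Units.val_one]

theorem comp_invFT550 (v : HeightOneSpectrum (𝓞 K)) (y : (Adl K)ˣ) :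
    ((y⁻¹ : (Adl K)ˣ) : Adl K).2 v = ((y : Adl K).2 v)⁻¹ := by
  rw [← uF_val550, ← uF_val550, map_inv, Units.val_inv_eq_inv_val]

theorem comp_invIT550 (w : InfinitePlace K) (y : (Adl K)ˣ) :
    ((y⁻¹ : (Adl K)ˣ) : Adl K).1 w = ((y : Adl K).1 w)⁻¹ := by
  rw [← uI_val550, ← uI_val550, map_inv, Units.val_inv_eq_inv_val]

theorem comp_powFT550 (v : HeightOneSpectrum (𝓞 K)) (y : (Adl K)ˣ) (n : ℕ) :
    ((y ^ n : (Adl K)ˣ) : Adl K).2 v = ((y : Adl K).2 v) ^ n := by
  rw [← uF_val550, ← uF_val550, map_pow, Units.val_pow_eq_pow_val]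

theorem comp_powIT550 (w : InfinitePlace K) (y : (Adl K)ˣ) (n : ℕ) :
    ((y ^ n : (Adl K)ˣ) : Adl K).1 w = ((y : Adl K).1 w) ^ n := by
  rw [← uI_val550, ← uI_val550, map_pow, Units.val_pow_eq_pow_val]

theorem comp_ne_zeroFT550 (v : HeightOneSpectrum (𝓞 K)) (y : (Adl K)ˣ) :
    (y : Adl K).2 v ≠ 0 := by
  rw [← uF_val550]
  exact (uF550 v y).ne_zero

theorem val_comp_ne_zeroT550 (v : HeightOneSpectrum (𝓞 K)) (y : (Adl K)ˣ) :
    Valued.v ((y : Adl K).2 v) ≠ 0 :=
  (Valuation.ne_zero_iff _).2 (comp_ne_zeroFT550 v y)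

/-- The components of an idele are units of `𝒪_v` at almost all `v`. -/
theorem eventually_unitT550 (c : (Adl K)ˣ) :
    ∀ᶠ v : HeightOneSpectrum (𝓞 K) in Filter.cofinite,
      Valued.v (((uF550 v c : (v.adicCompletion K)ˣ)) : v.adicCompletion K) = 1 := by
  have h1 : ∀ᶠ v : HeightOneSpectrum (𝓞 K) in Filter.cofinite,
      (c : Adl K).2 v ∈ v.adicCompletionIntegers K := (c : Adl K).2.2
  have h2 : ∀ᶠ v : HeightOneSpectrum (𝓞 K) in Filter.cofinite,
      ((c⁻¹ : (Adl K)ˣ) : Adl K).2 v ∈ v.adicCompletionIntegers K :=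
    ((c⁻¹ : (Adl K)ˣ) : Adl K).2.2
  filter_upwards [h1, h2] with v hv1 hv2
  rw [HeightOneSpectrum.mem_adicCompletionIntegers] at hv1 hv2
  rw [comp_invFT550, map_inv₀] at hv2
  rw [uF_val550]
  exact le_antisymm hv1 ((inv_le_one₀ (zero_lt_iff.2 (val_comp_ne_zeroT550 v c))).1 hv2)

theorem finite_badT550 (c : (Adl K)ˣ) :
    {v : HeightOneSpectrum (𝓞 K) | ¬ Valued.v ((c : Adl K).2 v) = 1}.Finite :=
  Filter.eventually_cofinite.1 (eventually_unitT550 c)

/-! ## 2. The idele with given components -/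

/-- The idele with components `a w` at the infinite places and `b v` at the finite places. -/
def mkIdT550 (a : ∀ w : InfinitePlace K, (w.Completion)ˣ)
    (b : ∀ v : HeightOneSpectrum (𝓞 K), (v.adicCompletion K)ˣ)
    (hb : ∀ᶠ v : HeightOneSpectrum (𝓞 K) in Filter.cofinite,
      Valued.v ((b v : (v.adicCompletion K)ˣ) : v.adicCompletion K) = 1) : (Adl K)ˣ where
  val := ((fun w => ((a w : (w.Completion)ˣ) : w.Completion)),
    ⟨fun v => ((b v : (v.adicCompletion K)ˣ) : v.adicCompletion K), by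
      filter_upwards [hb] with v hv
      rw [SetLike.mem_coe, HeightOneSpectrum.mem_adicCompletionIntegers, hv]⟩)
  inv := ((fun w => (((a w)⁻¹ : (w.Completion)ˣ) : w.Completion)),
    ⟨fun v => (((b v)⁻¹ : (v.adicCompletion K)ˣ) : v.adicCompletion K), by
      filter_upwards [hb] with v hv
      rw [SetLike.mem_coe, HeightOneSpectrum.mem_adicCompletionIntegers,
        Units.val_inv_eq_inv_val, map_inv₀, hv, inv_one]⟩)
  val_inv := by
    refine adele_extT550 (fun w => ?_) (fun v => ?_)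
    · show ((a w : (w.Completion)ˣ) : w.Completion) * (((a w)⁻¹ : (w.Completion)ˣ) : w.Completion)
        = 1
      exact Units.mul_inv _
    · show ((b v : (v.adicCompletion K)ˣ) : v.adicCompletion K)
        * (((b v)⁻¹ : (v.adicCompletion K)ˣ) : v.adicCompletion K) = 1
      exact Units.mul_inv _
  inv_val := by
    refine adele_extT550 (fun w => ?_) (fun v => ?_)
    · show (((a w)⁻¹ : (w.Completion)ˣ) : w.Completion) * ((a w : (w.Completion)ˣ) : w.Completion)
        = 1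
      exact Units.inv_mul _
    · show (((b v)⁻¹ : (v.adicCompletion K)ˣ) : v.adicCompletion K)
        * ((b v : (v.adicCompletion K)ˣ) : v.adicCompletion K) = 1
      exact Units.inv_mul _

theorem mkId_FT550 (a : ∀ w : InfinitePlace K, (w.Completion)ˣ)
    (b : ∀ v : HeightOneSpectrum (𝓞 K), (v.adicCompletion K)ˣ)
    (hb : ∀ᶠ v : HeightOneSpectrum (𝓞 K) in Filter.cofinite,
      Valued.v ((b v : (v.adicCompletion K)ˣ) : v.adicCompletion K) = 1)
    (v : HeightOneSpectrum (𝓞 K)) :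
    ((mkIdT550 a b hb : (Adl K)ˣ) : Adl K).2 v
      = ((b v : (v.adicCompletion K)ˣ) : v.adicCompletion K) :=
  rfl

theorem mkId_IT550 (a : ∀ w : InfinitePlace K, (w.Completion)ˣ)
    (b : ∀ v : HeightOneSpectrum (𝓞 K), (v.adicCompletion K)ˣ)
    (hb : ∀ᶠ v : HeightOneSpectrum (𝓞 K) in Filter.cofinite,
      Valued.v ((b v : (v.adicCompletion K)ˣ) : v.adicCompletion K) = 1)
    (w : InfinitePlace K) :
    ((mkIdT550 a b hb : (Adl K)ˣ) : Adl K).1 w = ((a w : (w.Completion)ˣ) : w.Completion) :=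
  rfl

/-! ## 3. Gluing (`MixC`) -/

open scoped Classical in
theorem glue_auxT550 (S : Finset (HeightOneSpectrum (𝓞 K))) (y c : (Adl K)ˣ) :
    ∀ᶠ v : HeightOneSpectrum (𝓞 K) in Filter.cofinite,
      Valued.v (((if v ∈ S then uF550 v y else uF550 v c : (v.adicCompletion K)ˣ)) :
        v.adicCompletion K) = 1 := by
  filter_upwards [eventually_unitT550 y, eventually_unitT550 c] with v h1 h2
  by_cases h : v ∈ S
  · rw [if_pos h]; exact h1
  · rw [if_neg h]; exact h2

open scoped Classical in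
/-- The idele with the components of `y` on `S` and those of `c` at all the other places
(finite and infinite). -/
def glueT550 (S : Finset (HeightOneSpectrum (𝓞 K))) (y c : (Adl K)ˣ) : (Adl K)ˣ :=
  mkIdT550 (fun w => uI550 w c) (fun v => if v ∈ S then uF550 v y else uF550 v c)
    (glue_auxT550 S y c)

open scoped Classical in
theorem glue_memT550 (S : Finset (HeightOneSpectrum (𝓞 K))) (y c : (Adl K)ˣ)
    {v : HeightOneSpectrum (𝓞 K)} (h : v ∈ S) :
    ((glueT550 S y c : (Adl K)ˣ) : Adl K).2 v = (y : Adl K).2 v := by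
  unfold glueT550
  rw [mkId_FT550, if_pos h, uF_val550]

open scoped Classical in
theorem glue_not_memT550 (S : Finset (HeightOneSpectrum (𝓞 K))) (y c : (Adl K)ˣ)
    {v : HeightOneSpectrum (𝓞 K)} (h : v ∉ S) :
    ((glueT550 S y c : (Adl K)ˣ) : Adl K).2 v = (c : Adl K).2 v := by
  unfold glueT550
  rw [mkId_FT550, if_neg h, uF_val550]

theorem glue_infT550 (S : Finset (HeightOneSpectrum (𝓞 K))) (y c : (Adl K)ˣ)
    (w : InfinitePlace K) : ((glueT550 S y c : (Adl K)ˣ) : Adl K).1 w = (c : Adl K).1 w := by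
  unfold glueT550
  rw [mkId_IT550, uI_val550]

/-- **LEAF MIX** (`Rigid.MixC`), by the gluing. -/
theorem mixC550 (K : Type) [Field K] [NumberField K] : MixC K := fun S y y' =>
  ⟨glueT550 S y y', fun _ hv => glue_memT550 S y y' hv,
    fun _ hv => glue_not_memT550 S y y' hv, fun w => glue_infT550 S y y' w⟩

/-! ## 4. Replacing one component -/

/-- The idele `y` with the component at the finite place `v` replaced by the one of `c`. -/
def repFT550 (y : (Adl K)ˣ) (v : HeightOneSpectrum (𝓞 K)) (c : (Adl K)ˣ) : (Adl K)ˣ :=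
  glueT550 {v} c y

theorem repF_selfT550 (y : (Adl K)ˣ) (v : HeightOneSpectrum (𝓞 K)) (c : (Adl K)ˣ) :
    ((repFT550 y v c : (Adl K)ˣ) : Adl K).2 v = (c : Adl K).2 v :=
  glue_memT550 {v} c y (Finset.mem_singleton_self v)

theorem repF_neT550 (y : (Adl K)ˣ) {v v' : HeightOneSpectrum (𝓞 K)} (h : v' ≠ v)
    (c : (Adl K)ˣ) : ((repFT550 y v c : (Adl K)ˣ) : Adl K).2 v' = (y : Adl K).2 v' :=
  glue_not_memT550 {v} c y (fun hm => h (Finset.mem_singleton.1 hm))

theorem repF_infT550 (y : (Adl K)ˣ) (v : HeightOneSpectrum (𝓞 K)) (c : (Adl K)ˣ)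
    (w : InfinitePlace K) : ((repFT550 y v c : (Adl K)ˣ) : Adl K).1 w = (y : Adl K).1 w :=
  glue_infT550 {v} c y w

/-- The idele `y` with all the infinite components replaced by `1`. -/
def finPartT550 (y : (Adl K)ˣ) : (Adl K)ˣ :=
  mkIdT550 (fun _ => 1) (fun v => uF550 v y) (eventually_unitT550 y)

theorem finPart_FT550 (y : (Adl K)ˣ) (v : HeightOneSpectrum (𝓞 K)) :
    ((finPartT550 y : (Adl K)ˣ) : Adl K).2 v = (y : Adl K).2 v := by
  unfold finPartT550
  rw [mkId_FT550, uF_val550]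

theorem finPart_IT550 (y : (Adl K)ˣ) (w : InfinitePlace K) :
    ((finPartT550 y : (Adl K)ˣ) : Adl K).1 w = 1 := by
  unfold finPartT550
  rw [mkId_IT550, Units.val_one]

/-! ## 5. The torus -/

theorem dgA_mul550 (y z : (Adl K)ˣ) : dgA (y * z) = dgA y * dgA z := by
  apply Units.ext
  ext i j
  fin_cases i <;> fin_cases j <;> simp [dgA, Matrix.mul_apply, Fin.sum_univ_two]

theorem dgA_inv550 (y : (Adl K)ˣ) : (dgA y)⁻¹ = dgA y⁻¹ := by
  apply Units.ext
  ext i j
  fin_cases i <;> fin_cases j <;> simp [dgA]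

theorem finComp_dgA550 (v : HeightOneSpectrum (𝓞 K)) (y : (Adl K)ˣ) :
    finComp v (dgA y) = !![(y : Adl K).2 v, 0; 0, 1] := by
  ext i j
  fin_cases i <;> fin_cases j <;> rfl

theorem trivAtFin_dgA550 {v : HeightOneSpectrum (𝓞 K)} {y : (Adl K)ˣ}
    (h : (y : Adl K).2 v = 1) : TrivAtFin v (dgA y) := by
  show finComp v (dgA y) = 1
  rw [finComp_dgA550, Matrix.one_fin_two, h]

theorem trivAtInf_dgA550 {w : InfinitePlace K} {y : (Adl K)ˣ}
    (h : (y : Adl K).1 w = 1) : TrivAtInf w (dgA y) := by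
  intro i j
  fin_cases i <;> fin_cases j
  · exact h
  · rfl
  · rfl
  · rfl

/-- `diag(u, 1) ∈ U(𝔪)` for an idele `u` which is `1` at the infinite places and at the places
of `S`, and a unit at the other finite places (the primes of `𝔪` lie in `S`). -/
theorem inLevelGroup_dgA_unit550 {𝔪 : Ideal (𝓞 K)} {S : Finset (HeightOneSpectrum (𝓞 K))}
    (hS : ∀ v : HeightOneSpectrum (𝓞 K), v.asIdeal ∣ 𝔪 → v ∈ S) {u : (Adl K)ˣ}
    (hI : ∀ w : InfinitePlace K, (u : Adl K).1 w = 1)
    (h1 : ∀ v ∈ S, (u : Adl K).2 v = 1)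
    (h2 : ∀ v : HeightOneSpectrum (𝓞 K), v ∉ S → Valued.v ((u : Adl K).2 v) = 1) :
    InLevelGroup 𝔪 (dgA u) := by
  refine ⟨fun w => trivAtInf_dgA550 (hI w), fun v i j => ?_⟩
  rw [dgA_inv550, finComp_dgA550, finComp_dgA550, comp_invFT550]
  by_cases hv : v ∈ S
  · rw [h1 v hv, inv_one, ← Matrix.one_fin_two, sub_self]
    exact ⟨zero_mem_idealClosure129 𝔪 v, zero_mem_idealClosure129 𝔪 v⟩
  · have hdiv : ¬ v.asIdeal ∣ 𝔪 := fun h => hv (hS v h)
    have hu : Valued.v ((u : Adl K).2 v) = 1 := h2 v hv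
    have hu' : Valued.v (((u : Adl K).2 v)⁻¹) = 1 := by rw [map_inv₀, hu, inv_one]
    have key : ∀ x : v.adicCompletion K, Valued.v x = 1 → ∀ i j : Fin 2,
        ((!![x, 0; 0, 1] : Matrix (Fin 2) (Fin 2) (v.adicCompletion K)) - 1) i j
          ∈ idealClosure 𝔪 v := by
      intro x hx i j
      apply dense_ideal129 hdiv
      fin_cases i <;> fin_cases j
      · show Valued.v (x - 1) ≤ 1
        refine le_trans (Valuation.map_sub _ _ _) (max_le (le_of_eq hx) ?_)
        rw [map_one]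
      · show Valued.v ((0 : v.adicCompletion K) - 0) ≤ 1
        rw [sub_zero, map_zero]; exact zero_le_one
      · show Valued.v ((0 : v.adicCompletion K) - 0) ≤ 1
        rw [sub_zero, map_zero]; exact zero_le_one
      · show Valued.v ((1 : v.adicCompletion K) - 1) ≤ 1
        rw [sub_self, map_zero]; exact zero_le_one
    exact ⟨key _ hu i j, key _ hu' i j⟩

end Fermat.Agent.LT.T7.H550

end

end
-- ===== PACK-END LT/T7/H550/IdeleKit.lean

-- ===== PACK-BEGIN LT/T7/H555/Orth.lean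
section





/-!
# Row LT, tower T7, leaf T7.14.4: `OrthC` (Hecke orthogonality on the frame) (helper555)

OFF-MAIN.  Spec: helper62 `LT/T7/H62/RigidAut.lean` (`Rigid.OrthC K`), byte-identical copy.

* `hecke_selfadj555`: for `φ, φ'` bounded continuous, left invariant under `GL₂(K)`, right
  invariant under the positive scalars at the infinite places, Hecke eigenfunctions at `v` with
  eigenvalues `(a, 1)`, `(a', 1)`: `a ⟨φ, φ'⟩ = conj a' ⟨φ, φ'⟩` on every frame.
  (Symmetric coset system `h_x`, `h_x⁻¹ z = h'_x` is again a coset system, `z` the scalar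
  uniformiser; translation on the frame: `FrameShift.lean`.)
* `orthC555 K : Rigid.OrthC K` — UNCONDITIONAL.  (`a'` is real if `φ' ≠ 0`, by
  helper250's `innerD_ne_zero250n`; the hypothesis `TotCplx K` is not used.)
-/

set_option autoImplicit false

open IsDedekindDomain NumberField MeasureTheory AutomorphicForm
open Fermat.Agent.LT.H556.A0
open Fermat.Agent.LT
open scoped ComplexConjugate

noncomputable section

namespace Fermat.Agent.LT.T7.H555

open Fermat.Agent.LT.T7.H250 Fermat.Agent.LT.H129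

attribute [local instance] Fermat.Agent.LT.T5.instMeasurableSpaceG

variable {K : Type} [Field K] [NumberField K]

/-- **Self-adjointness of the Hecke operator at `v`** on the frame. -/
theorem hecke_selfadj555 {μ : Measure (G K)} {F : Set (G K)} (hF : T5.IsFrame μ F)
    {φ φ' : G K → ℂ} (hc : Continuous φ) (hc' : Continuous φ')
    (hb : ∃ C : ℝ, ∀ g : G K, ‖φ g‖ ≤ C) (hb' : ∃ C : ℝ, ∀ g : G K, ‖φ' g‖ ≤ C)
    (hl : ∀ (γ : GL (Fin 2) K) (g : G K), φ (T5.ratG γ * g) = φ g)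
    (hl' : ∀ (γ : GL (Fin 2) K) (g : G K), φ' (T5.ratG γ * g) = φ' g)
    (hs : ∀ (w : InfinitePlace K) (z : G K), IsArchPosScalar w z → ∀ g : G K, φ (g * z) = φ g)
    (hs' : ∀ (w : InfinitePlace K) (z : G K), IsArchPosScalar w z →
      ∀ g : G K, φ' (g * z) = φ' g)
    (v : HeightOneSpectrum (𝓞 K)) (a a' : ℂ)
    (hh : IsHeckeEigenAt φ v a 1) (hh' : IsHeckeEigenAt φ' v a' 1) :
    a * T5.innerD μ F φ φ' = conj a' * T5.innerD μ F φ φ' := by
  classical
  obtain ⟨π, hπ⟩ := exists_unif129 v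
  have hπ0 := unif_ne_zero129 v hπ
  obtain ⟨H, H', hH, hH', hsum, hsum'⟩ := exists_sym_dual555 v hπ
  have hfin : Finite (𝓞 K ⧸ v.asIdeal) := by
    apply Nat.finite_of_card_ne_zero
    rw [← Submodule.cardQuot_apply, ← Ideal.absNorm_apply]
    exact ne_of_gt (lt_trans Nat.zero_lt_one (NumberField.HeightOneSpectrum.one_lt_absNorm v))
  have hfint : Fintype (𝓞 K ⧸ v.asIdeal) := Fintype.ofFinite _
  set q : ℂ := ((Real.sqrt (Ideal.absNorm v.asIdeal : ℝ) : ℝ) : ℂ) with hq
  have hq0 : q ≠ 0 := by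
    rw [hq, Ne, Complex.ofReal_eq_zero, Real.sqrt_eq_zero', not_le]
    have := NumberField.HeightOneSpectrum.one_lt_absNorm v
    have h1 : (1 : ℝ) < (Ideal.absNorm v.asIdeal : ℝ) := by exact_mod_cast this
    linarith
  have hqc : conj q = q := by rw [hq, Complex.conj_ofReal]
  -- translation of each term
  have htr : ∀ x : Option (𝓞 K ⧸ v.asIdeal),
      ∫ g in F, φ (g * symHecke555 v π hπ0 x) * conj (φ' g) ∂μ
        = ∫ g in F, φ g * conj (φ' (g * dualHecke555 v π hπ0 x)) ∂μ := by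
    intro x
    rw [inner_translate555 hF hc hc' hb hb' hl hl' hs hs']
    congr 1
    funext g
    have := hh'.2 _ (isScalarUniformizerAt_scalU555 v hπ) (g * (symHecke555 v π hπ0 x)⁻¹)
    rw [one_mul, mul_assoc, sym_inv_mul_scal555] at this
    rw [this]
  obtain ⟨C, hC⟩ := hb
  obtain ⟨C', hC'⟩ := hb'
  have hint1 : ∀ x : Option (𝓞 K ⧸ v.asIdeal),
      Integrable (fun g => φ (g * symHecke555 v π hπ0 x) * conj (φ' g)) (μ.restrict F) := by
    intro x
    refine integrableOn_frame555 hF ?_ ⟨C * C', fun g => ?_⟩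
    · exact (hc.comp (continuous_id.mul continuous_const)).mul
        (Complex.continuous_conj.comp hc')
    · rw [norm_mul, RCLike.norm_conj]
      exact mul_le_mul (hC _) (hC' _) (norm_nonneg _) ((norm_nonneg _).trans (hC g))
  have hint2 : ∀ x : Option (𝓞 K ⧸ v.asIdeal),
      Integrable (fun g => φ g * conj (φ' (g * dualHecke555 v π hπ0 x))) (μ.restrict F) := by
    intro x
    refine integrableOn_frame555 hF ?_ ⟨C * C', fun g => ?_⟩
    · exact hc.mul (Complex.continuous_conj.comp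
        (hc'.comp (continuous_id.mul continuous_const)))
    · rw [norm_mul, RCLike.norm_conj]
      exact mul_le_mul (hC _) (hC' _) (norm_nonneg _) ((norm_nonneg _).trans (hC g))
  have e1 : ∫ g in F, (q * a * φ g) * conj (φ' g) ∂μ
      = ∑ x : Option (𝓞 K ⧸ v.asIdeal),
          ∫ g in F, φ (g * symHecke555 v π hπ0 x) * conj (φ' g) ∂μ := by
    rw [← integral_finsetSum _ (fun x _ => hint1 x)]
    congr 1
    funext g
    rw [← hh.1 H hH g, hsum ℂ (fun h => φ (g * h)), finsum_eq_sum_of_fintype, Finset.sum_mul]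
  have e2 : ∫ g in F, φ g * conj (q * a' * φ' g) ∂μ
      = ∑ x : Option (𝓞 K ⧸ v.asIdeal),
          ∫ g in F, φ g * conj (φ' (g * dualHecke555 v π hπ0 x)) ∂μ := by
    rw [← integral_finsetSum _ (fun x _ => hint2 x)]
    congr 1
    funext g
    rw [← hh'.1 H' hH' g, hsum' ℂ (fun h => φ' (g * h)), finsum_eq_sum_of_fintype, map_sum,
      Finset.mul_sum]
  have e3 : ∫ g in F, (q * a * φ g) * conj (φ' g) ∂μ = q * a * T5.innerD μ F φ φ' := by
    unfold T5.innerD
    rw [← integral_const_mul]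
    congr 1
    funext g
    ring
  have e4 : ∫ g in F, φ g * conj (q * a' * φ' g) ∂μ = q * conj a' * T5.innerD μ F φ φ' := by
    unfold T5.innerD
    rw [← integral_const_mul]
    congr 1
    funext g
    rw [map_mul, map_mul, hqc]
    ring
  have key : q * a * T5.innerD μ F φ φ' = q * conj a' * T5.innerD μ F φ φ' := by
    rw [← e3, ← e4, e1, e2]
    exact Finset.sum_congr rfl fun x _ => htr x
  rw [mul_assoc, mul_assoc] at key
  exact mul_left_cancel₀ hq0 key

/-- **LEAF T7.14.4 `OrthC`** (unconditional): `S`-forms of `π`, `π'` with `a_v ≠ a'_v` at some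
`v ∉ S` are orthogonal on every frame. -/
theorem orthC555 (K : Type) [Field K] [NumberField K] : Rigid.OrthC K := by
  intro _ μ F hF π π' S φ φ' hφ hφ' hv
  obtain ⟨v, hvS, hne⟩ := hv
  have h1 := hecke_selfadj555 hF hφ.cont hφ'.cont hφ.bdd hφ'.bdd hφ.left_inv hφ'.left_inv
    hφ.arch_scalar hφ'.arch_scalar v _ _ (hφ.hecke v hvS) (hφ'.hecke v hvS)
  by_cases hz : ∃ g, φ' g ≠ 0
  · have h2 := hecke_selfadj555 hF hφ'.cont hφ'.cont hφ'.bdd hφ'.bdd hφ'.left_inv hφ'.left_inv
      hφ'.arch_scalar hφ'.arch_scalar v _ _ (hφ'.hecke v hvS) (hφ'.hecke v hvS)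
    have hn : T5.innerD μ F φ' φ' ≠ 0 :=
      innerD_ne_zero250n hF hφ'.cont hφ'.bdd hφ'.left_inv hφ'.arch_scalar hz
    have hreal : conj (π'.a v) = π'.a v := (mul_right_cancel₀ hn h2).symm
    rw [hreal] at h1
    by_contra h0
    exact hne (mul_right_cancel₀ h0 h1)
  · have hz' : ∀ g, φ' g = 0 := fun g => by
      by_contra h
      exact hz ⟨g, h⟩
    unfold T5.innerD
    simp [hz']

/-- Type check against the frozen Prop of the spec. -/
example (K : Type) [Field K] [NumberField K] : Fermat.Agent.LT.T7.Rigid.OrthC K := orthC555 K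

end Fermat.Agent.LT.T7.H555

end
end
-- ===== PACK-END LT/T7/H555/Orth.lean

-- ===== PACK-BEGIN LT/T7/H250/ClassDec.lean
section





/-!
# Row LT, tower T7, node T7.14, leaf T7.14.3g `H671.ClassDecC` (registry row 1958; helper250)

OFF-MAIN.  Typed against byte-identical copies of `LT/T7/H671/LimSpec.lean` (helper671,
sha256 `4ba8fdf5…`), `LT/T7/H671/{ConeOrbit bcfc7ac8, ConeCount 1a3c77af, AdelicPair daa04071,
CountSpec 4766156d}.lean`, `LT/T7/H849/CountBd.lean` (helper849, `404f435d…`: finiteness of the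
points of bounded height) and their closure (`RigidAut e1add0c1`, `T5/Spec f2d97e70`, `T1/Spec
e8ae48d6`, A0).

    classDecC_of250 : ContentC K → UnitsC K → ScaleC K → T1.AdNormC K → TotCplx K → ClassDecC K
    classDecC_of_T1Out250 : ContentC K → UnitsC K → ScaleC K → T1.T1Out K → TotCplx K → ClassDecC K

(conclusion VERBATIM).  `TotCplx K` is used ONLY through `H849.cntSet_finite849` (finiteness of
`cntB671`; without finiteness the statement is about junk values of `ncard`); the consumer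
`CountLimC K` provides it.

## Proof

For `x ∈ ℙ¹(K)` choose (`ContentC`, the class representatives, the cone) `i = ι x` and
`l = lam x ∈ Kˣ` with `l · x.rep` primitive for `g · c_i` and `(l x.rep g)_∞` in the cone.
`Φ (x, ζ) = ζ · (lam x · x.rep · g c_{ι x})_∞` (`ζ` a root of unity) maps
`cntB671 𝔪 B g × torsion K` to the union of the sets `primSet671 𝔪 (B ‖c_i‖) (g c_i)`:

* it lands in `primSet` of `ι x` (`phi_mem250c`: the gauge of a primitive row is
  `rowNorm · ‖c_i‖`, `ScaleC`; units preserve the gauge, primitivity and the congruence);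
* it is injective (`phi_inj250c`: `ξ ↦ (ξ h)_∞` is injective);
* every point of `primSet` of `i` is a value at some `x` with `ι x = i` (`phi_surj250c`:
  uniqueness of the class and of the primitive representative up to units, `UnitsC`; a unit which
  keeps a point of the cone in the cone is a root of unity).

Counting (`sum_ncard_fibres250c`, no number fields) gives the formula.
-/

set_option autoImplicit false
set_option linter.unusedSectionVars false

open AutomorphicForm IsDedekindDomain NumberField Filter Topology MeasureTheory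
open NumberField.mixedEmbedding NumberField.InfinitePlace

noncomputable section

namespace Fermat.Agent.LT.T7.H250

open Fermat.Agent.LT.H556 Fermat.Agent.LT.H556.A0 Fermat.Agent.LT.T7 Fermat.Agent.LT.T7.Rigid
open Fermat.Agent.LT.T7.H671

variable {K : Type} [Field K] [NumberField K]

/-! ## 1. Components of rows -/

theorem adl_snd_mul250c (a b : Adl K) (v : HeightOneSpectrum (𝓞 K)) :
    (a * b).2 v = a.2 v * b.2 v := rfl

theorem adl_snd_add250c (a b : Adl K) (v : HeightOneSpectrum (𝓞 K)) :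
    (a + b).2 v = a.2 v + b.2 v := rfl

theorem algebraMap_snd250c (x : K) (v : HeightOneSpectrum (𝓞 K)) :
    (algebraMap K (Adl K) x).2 v = algebraMap K (v.adicCompletion K) x := rfl

theorem finIdl_fst250c (a : (FiniteAdeleRing (𝓞 K) K)ˣ) :
    ((finIdl671 a : (Adl K)ˣ) : Adl K).1 = 1 := rfl

theorem finIdl_snd250c (a : (FiniteAdeleRing (𝓞 K) K)ˣ) :
    ((finIdl671 a : (Adl K)ˣ) : Adl K).2 = (a : FiniteAdeleRing (𝓞 K) K) := rfl

/-- The row of `g · a` for a finite scalar idele `a`. -/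
theorem rowOf_mul_scF250c (ξ : Fin 2 → K) (g : G K) (a : (FiniteAdeleRing (𝓞 K) K)ˣ)
    (j : Fin 2) :
    rowOf ξ (g * scF671 a) j = rowOf ξ g j * ((finIdl671 a : (Adl K)ˣ) : Adl K) := by
  have h : ∀ i : Fin 2, ((g * scF671 a : G K) : Matrix (Fin 2) (Fin 2) (Adl K)) i j
      = (g : Matrix (Fin 2) (Fin 2) (Adl K)) i j * ((finIdl671 a : (Adl K)ˣ) : Adl K) := by
    intro i
    rw [Units.val_mul, Matrix.mul_apply, Fin.sum_univ_two]
    fin_cases j <;> simp [scF671, dgF671]
  unfold rowOf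
  rw [h 0, h 1]
  ring

theorem rowOf_mul_scF_fst250c (ξ : Fin 2 → K) (g : G K) (a : (FiniteAdeleRing (𝓞 K) K)ˣ)
    (j : Fin 2) : (rowOf ξ (g * scF671 a) j).1 = (rowOf ξ g j).1 := by
  rw [rowOf_mul_scF250c, adl_fst_mul671, finIdl_fst250c, mul_one]

theorem rowOf_mul_scF_snd250c (ξ : Fin 2 → K) (g : G K) (a : (FiniteAdeleRing (𝓞 K) K)ˣ)
    (j : Fin 2) (v : HeightOneSpectrum (𝓞 K)) :
    (rowOf ξ (g * scF671 a) j).2 v = (rowOf ξ g j).2 v * (a : FiniteAdeleRing (𝓞 K) K) v := by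
  rw [rowOf_mul_scF250c, adl_snd_mul250c, finIdl_snd250c]

theorem pairOf_mul_scF250c (ξ : Fin 2 → K) (g : G K) (a : (FiniteAdeleRing (𝓞 K) K)ˣ) :
    pairOf671 (rowOf ξ (g * scF671 a)) = pairOf671 (rowOf ξ g) := by
  unfold pairOf671 infMixed671
  rw [rowOf_mul_scF_fst250c, rowOf_mul_scF_fst250c]

theorem rowOf_smul_snd250c (l : K) (ξ : Fin 2 → K) (g : G K) (j : Fin 2)
    (v : HeightOneSpectrum (𝓞 K)) :
    (rowOf (l • ξ) g j).2 v = algebraMap K (v.adicCompletion K) l * (rowOf ξ g j).2 v := by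
  rw [rowOf_smul671, adl_snd_mul250c, algebraMap_snd250c]

theorem pairOf_smul250c (l : K) (ξ : Fin 2 → K) (g : G K) :
    pairOf671 (rowOf (l • ξ) g)
      = (mixedEmbedding K l * (pairOf671 (rowOf ξ g)).1,
          mixedEmbedding K l * (pairOf671 (rowOf ξ g)).2) := by
  unfold pairOf671
  rw [rowOf_smul671, infMixed671_mul, infMixed671_mul, infMixed671_algebraMap]

theorem pairOf_unit_smul250c (u : (𝓞 K)ˣ) (ξ : Fin 2 → K) (g : G K) :
    pairOf671 (rowOf (((u : 𝓞 K) : K) • ξ) g) = unitPair671 u (pairOf671 (rowOf ξ g)) := by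
  rw [pairOf_smul250c, unitPair671_eq_mul]

/-! ## 2. Rows of nonzero vectors do not vanish at any infinite place -/

theorem rowOf_mul_inv250c (ξ : Fin 2 → K) (g : G K) (k : Fin 2) :
    rowOf ξ g 0 * ((g⁻¹ : G K) : Matrix (Fin 2) (Fin 2) (Adl K)) 0 k
      + rowOf ξ g 1 * ((g⁻¹ : G K) : Matrix (Fin 2) (Fin 2) (Adl K)) 1 k
      = algebraMap K (Adl K) (ξ k) := by
  have e0 : (g : Matrix (Fin 2) (Fin 2) (Adl K))
      * ((g⁻¹ : G K) : Matrix (Fin 2) (Fin 2) (Adl K)) = 1 := by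
    rw [← Units.val_mul, mul_inv_cancel]
    rfl
  have h : ∀ i : Fin 2,
      (g : Matrix (Fin 2) (Fin 2) (Adl K)) i 0
          * ((g⁻¹ : G K) : Matrix (Fin 2) (Fin 2) (Adl K)) 0 k
        + (g : Matrix (Fin 2) (Fin 2) (Adl K)) i 1
          * ((g⁻¹ : G K) : Matrix (Fin 2) (Fin 2) (Adl K)) 1 k
        = (1 : Matrix (Fin 2) (Fin 2) (Adl K)) i k := by
    intro i
    rw [← e0, Matrix.mul_apply, Fin.sum_univ_two]
  have key : rowOf ξ g 0 * ((g⁻¹ : G K) : Matrix (Fin 2) (Fin 2) (Adl K)) 0 k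
      + rowOf ξ g 1 * ((g⁻¹ : G K) : Matrix (Fin 2) (Fin 2) (Adl K)) 1 k
      = algebraMap K (Adl K) (ξ 0) * (1 : Matrix (Fin 2) (Fin 2) (Adl K)) 0 k
        + algebraMap K (Adl K) (ξ 1) * (1 : Matrix (Fin 2) (Fin 2) (Adl K)) 1 k := by
    rw [← h 0, ← h 1]
    unfold rowOf
    ring
  rw [key]
  have hall : ∀ k' : Fin 2,
      algebraMap K (Adl K) (ξ 0) * (1 : Matrix (Fin 2) (Fin 2) (Adl K)) 0 k'
        + algebraMap K (Adl K) (ξ 1) * (1 : Matrix (Fin 2) (Fin 2) (Adl K)) 1 k'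
        = algebraMap K (Adl K) (ξ k') := by
    rw [Fin.forall_fin_two]
    constructor <;> simp
  exact hall k

theorem adl_fst_apply_mul250c (a b : Adl K) (w : InfinitePlace K) :
    (a * b).1 w = a.1 w * b.1 w := rfl

theorem adl_fst_apply_add250c (a b : Adl K) (w : InfinitePlace K) :
    (a + b).1 w = a.1 w + b.1 w := rfl

/-- The norm at `w` of the image of `x ∈ K` in the adeles. -/
theorem norm_algebraMap_fst250c (x : K) (w : InfinitePlace K) :
    ‖(algebraMap K (Adl K) x).1 w‖ = w x := by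
  rw [← normAtPlace_infMixed671, infMixed671_algebraMap, normAtPlace_apply]

/-- A row of a nonzero vector does not vanish at any infinite place. -/
theorem row_ne_zero_at250c {ξ : Fin 2 → K} (hξ : ξ ≠ 0) (g : G K) (w : InfinitePlace K) :
    (rowOf ξ g 0).1 w ≠ 0 ∨ (rowOf ξ g 1).1 w ≠ 0 := by
  by_contra hcon
  push Not at hcon
  apply hξ
  funext k
  have h := congrArg (fun a : Adl K => ‖a.1 w‖) (rowOf_mul_inv250c ξ g k)
  simp only [adl_fst_apply_add250c, adl_fst_apply_mul250c, hcon.1, hcon.2, zero_mul, add_zero,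
    norm_zero] at h
  rw [norm_algebraMap_fst250c] at h
  by_contra hk
  exact (w.pos_iff.mpr hk).ne' h.symm

theorem pairGauge_pos250c {ξ : Fin 2 → K} (hξ : ξ ≠ 0) (g : G K) :
    0 < pairGauge671 (pairOf671 (rowOf ξ g)) := by
  rw [pairGauge671_pairOf]
  refine Finset.prod_pos fun w _ => Real.rpow_pos_of_pos ?_ _
  rcases row_ne_zero_at250c hξ g w with h | h
  · have := norm_pos_iff.2 h
    positivity
  · have := norm_pos_iff.2 h
    positivity

theorem pairGauge_zero250c : pairGauge671 (0 : Pair671 K) = 0 := by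
  have h := pairGauge671_smul (0 : ℝ) (0 : Pair671 K)
  rw [zero_smul, abs_zero, zero_pow (Module.finrank_pos).ne', zero_mul] at h
  exact h

/-- `ξ ↦ (ξ g)_∞` is injective. -/
theorem pairOf_rowOf_injective250c (g : G K) {ξ ξ' : Fin 2 → K}
    (h : pairOf671 (rowOf ξ g) = pairOf671 (rowOf ξ' g)) : ξ = ξ' := by
  by_contra hne
  have hη : ξ - ξ' ≠ 0 := sub_ne_zero.mpr hne
  have h1 := pairGauge_pos250c hη g
  have h2 : pairOf671 (rowOf (ξ - ξ') g) = 0 := by
    rw [sub_eq_add_neg, rowOf_add671, rowOf_neg671, pairOf671_add, pairOf671_neg, h,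
      add_neg_cancel]
  rw [h2, pairGauge_zero250c] at h1
  exact lt_irrefl _ h1

theorem ne_zero_of_mem_cone250c {ξ : Fin 2 → K} {g : G K}
    (h : pairOf671 (rowOf ξ g) ∈ pairCone671 K) : ξ ≠ 0 := by
  intro h0
  have h1 := pairGauge671_ne_zero_of_mem_cone h
  rw [h0, rowOf_zero671, pairOf671_zero] at h1
  exact h1 pairGauge_zero250c

/-! ## 3. Local heights at the finite places -/

/-- The local height `max(|r₀|_v, |r₁|_v)`. -/
def locH250c (r : Fin 2 → Adl K) (v : HeightOneSpectrum (𝓞 K)) : ℝ :=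
  max ‖(r 0).2 v‖ ‖(r 1).2 v‖

theorem isPrimRow_iff250c (r : Fin 2 → Adl K) : IsPrimRow671 r ↔ ∀ v, locH250c r v = 1 :=
  Iff.rfl

theorem finNorm_eq250c (r : Fin 2 → Adl K) : finNorm671 r = ∏ᶠ v, locH250c r v := rfl

theorem locH_nonneg250c (r : Fin 2 → Adl K) (v : HeightOneSpectrum (𝓞 K)) :
    0 ≤ locH250c r v := le_max_of_le_left (norm_nonneg _)

/-- The local height of the row of `l ξ` for `g · a`. -/
theorem locH_smul_scF250c (l : K) (ξ : Fin 2 → K) (g : G K)
    (a : (FiniteAdeleRing (𝓞 K) K)ˣ) (v : HeightOneSpectrum (𝓞 K)) :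
    locH250c (rowOf (l • ξ) (g * scF671 a)) v
      = ‖algebraMap K (v.adicCompletion K) l‖ * locH250c (rowOf ξ g) v
        * ‖(a : FiniteAdeleRing (𝓞 K) K) v‖ := by
  have e1 : ∀ j : Fin 2, ‖(rowOf (l • ξ) (g * scF671 a) j).2 v‖
      = ‖algebraMap K (v.adicCompletion K) l‖
        * (‖(rowOf ξ g j).2 v‖ * ‖(a : FiniteAdeleRing (𝓞 K) K) v‖) := by
    intro j
    rw [rowOf_smul_snd250c, rowOf_mul_scF_snd250c, norm_mul, norm_mul]
  unfold locH250c
  rw [e1 0, e1 1, ← mul_max_of_nonneg _ _ (norm_nonneg _),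
    ← max_mul_of_nonneg _ _ (norm_nonneg _), mul_assoc]

theorem locH_scF250c (ξ : Fin 2 → K) (g : G K)
    (a : (FiniteAdeleRing (𝓞 K) K)ˣ) (v : HeightOneSpectrum (𝓞 K)) :
    locH250c (rowOf ξ (g * scF671 a)) v
      = locH250c (rowOf ξ g) v * ‖(a : FiniteAdeleRing (𝓞 K) K) v‖ := by
  have h := locH_smul_scF250c (1 : K) ξ g a v
  rw [one_smul, map_one, norm_one, one_mul] at h
  exact h

theorem locH_smul250c (l : K) (ξ : Fin 2 → K) (g : G K) (v : HeightOneSpectrum (𝓞 K)) :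
    locH250c (rowOf (l • ξ) g) v
      = ‖algebraMap K (v.adicCompletion K) l‖ * locH250c (rowOf ξ g) v := by
  unfold locH250c
  rw [rowOf_smul_snd250c, rowOf_smul_snd250c, norm_mul, norm_mul,
    mul_max_of_nonneg _ _ (norm_nonneg _)]

/-- The components of a finite idele are nonzero. -/
theorem finIdele_apply_ne_zero250c (a : (FiniteAdeleRing (𝓞 K) K)ˣ)
    (v : HeightOneSpectrum (𝓞 K)) : (a : FiniteAdeleRing (𝓞 K) K) v ≠ 0 := by
  intro h
  have e : ((a : FiniteAdeleRing (𝓞 K) K) * ((a⁻¹ : (FiniteAdeleRing (𝓞 K) K)ˣ) :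
      FiniteAdeleRing (𝓞 K) K)) v = 1 := by
    rw [Units.mul_inv]
    rfl
  have e' : ((a : FiniteAdeleRing (𝓞 K) K) * ((a⁻¹ : (FiniteAdeleRing (𝓞 K) K)ˣ) :
      FiniteAdeleRing (𝓞 K) K)) v
      = (a : FiniteAdeleRing (𝓞 K) K) v
        * ((a⁻¹ : (FiniteAdeleRing (𝓞 K) K)ˣ) : FiniteAdeleRing (𝓞 K) K) v := rfl
  rw [e', h, zero_mul] at e
  exact zero_ne_one e

theorem norm_finIdele_pos250c (a : (FiniteAdeleRing (𝓞 K) K)ˣ)
    (v : HeightOneSpectrum (𝓞 K)) : 0 < ‖(a : FiniteAdeleRing (𝓞 K) K) v‖ :=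
  norm_pos_iff.2 (finIdele_apply_ne_zero250c a v)

theorem norm_finIdele_inv250c (a : (FiniteAdeleRing (𝓞 K) K)ˣ)
    (v : HeightOneSpectrum (𝓞 K)) :
    ‖((a⁻¹ : (FiniteAdeleRing (𝓞 K) K)ˣ) : FiniteAdeleRing (𝓞 K) K) v‖
      = ‖(a : FiniteAdeleRing (𝓞 K) K) v‖⁻¹ := by
  have e : ((a⁻¹ : (FiniteAdeleRing (𝓞 K) K)ˣ) : FiniteAdeleRing (𝓞 K) K) v
      * (a : FiniteAdeleRing (𝓞 K) K) v = 1 := by
    have e1 : (((a⁻¹ : (FiniteAdeleRing (𝓞 K) K)ˣ) : FiniteAdeleRing (𝓞 K) K)
        * (a : FiniteAdeleRing (𝓞 K) K)) v = 1 := by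
      rw [Units.inv_mul]
      rfl
    exact e1
  have h := congrArg norm e
  rw [norm_mul, norm_one] at h
  exact eq_inv_of_mul_eq_one_left h

theorem finprod_pos250c {ι : Type*} (f : ι → ℝ) (hf : ∀ i, 0 < f i) : 0 < ∏ᶠ i, f i := by
  by_cases hfin : (Function.mulSupport f).Finite
  · rw [finprod_eq_prod f hfin]
    exact Finset.prod_pos fun i _ => hf i
  · rw [finprod_of_infinite_mulSupport hfin]
    exact one_pos

theorem finNormI_pos250c (a : (FiniteAdeleRing (𝓞 K) K)ˣ) : 0 < finNormI671 a :=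
  finprod_pos250c _ fun v => norm_finIdele_pos250c a v

/-- The finite norm of a row which is primitive after the twist by `a`. -/
theorem finNorm_of_prim250c {ξ : Fin 2 → K} {g : G K} {a : (FiniteAdeleRing (𝓞 K) K)ˣ}
    (h : IsPrimRow671 (rowOf ξ (g * scF671 a))) :
    finNorm671 (rowOf ξ g) = (finNormI671 a)⁻¹ := by
  have h1 : ∀ v, locH250c (rowOf ξ g) v = ‖(a : FiniteAdeleRing (𝓞 K) K) v‖⁻¹ := by
    intro v
    have h2 := h v
    change locH250c (rowOf ξ (g * scF671 a)) v = 1 at h2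
    rw [locH_scF250c] at h2
    exact eq_inv_of_mul_eq_one_left h2
  rw [finNorm_eq250c]
  simp only [h1]
  unfold finNormI671
  exact finprod_inv_distrib _

/-- The norm of a unit of `𝓞 K` at a finite place is `1`. -/
theorem norm_unit_fin250c (u : (𝓞 K)ˣ) (v : HeightOneSpectrum (𝓞 K)) :
    ‖algebraMap K (v.adicCompletion K) (((u : 𝓞 K) : K))‖ = 1 := by
  have h1 : ∀ x : 𝓞 K, ‖algebraMap K (v.adicCompletion K) ((x : K))‖ ≤ 1 := by
    intro x
    rw [Fermat.Agent.LT.T7.H849.norm_le_one_iff849]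
    exact v.coe_mem_adicCompletionIntegers (K := K) x
  have h2 := h1 (u : 𝓞 K)
  have h3 := h1 ((u⁻¹ : (𝓞 K)ˣ) : 𝓞 K)
  have h4 : algebraMap K (v.adicCompletion K) (((u : 𝓞 K) : K))
      * algebraMap K (v.adicCompletion K) ((((u⁻¹ : (𝓞 K)ˣ) : 𝓞 K) : K)) = 1 := by
    rw [← map_mul, ← map_mul, Units.mul_inv, map_one, map_one]
  have h5 := congrArg norm h4
  rw [norm_mul, norm_one] at h5
  have hpos : 0 ≤ ‖algebraMap K (v.adicCompletion K) (((u : 𝓞 K) : K))‖ := norm_nonneg _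
  have hpos' : 0 ≤ ‖algebraMap K (v.adicCompletion K) ((((u⁻¹ : (𝓞 K)ˣ) : 𝓞 K) : K))‖ :=
    norm_nonneg _
  nlinarith

/-! ## 4. The congruence clause is invariant under scaling -/

theorem cong_of_scale250c {𝔪 : Ideal (𝓞 K)} {r r' : Fin 2 → Adl K}
    (s : ∀ v : HeightOneSpectrum (𝓞 K), v.adicCompletion K)
    (hr : ∀ (j : Fin 2) (v : HeightOneSpectrum (𝓞 K)), (r' j).2 v = s v * (r j).2 v)
    (h : Cong671 𝔪 r) : Cong671 𝔪 r' := by
  intro v hv
  obtain ⟨t, ht, e⟩ := h v hv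
  refine ⟨t, ht, ?_⟩
  rw [hr 0 v, hr 1 v, e]
  ring

theorem cong_of_scale_inv250c {𝔪 : Ideal (𝓞 K)} {r r' : Fin 2 → Adl K}
    (s : ∀ v : HeightOneSpectrum (𝓞 K), v.adicCompletion K) (hs : ∀ v, s v ≠ 0)
    (hr : ∀ (j : Fin 2) (v : HeightOneSpectrum (𝓞 K)), (r' j).2 v = s v * (r j).2 v)
    (h : Cong671 𝔪 r') : Cong671 𝔪 r := by
  intro v hv
  obtain ⟨t, ht, e⟩ := h v hv
  refine ⟨t, ht, ?_⟩
  rw [hr 0 v, hr 1 v] at e
  apply mul_left_cancel₀ (hs v)
  rw [e]
  ring

theorem cong_iff_scale250c {𝔪 : Ideal (𝓞 K)} {r r' : Fin 2 → Adl K}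
    (s : ∀ v : HeightOneSpectrum (𝓞 K), v.adicCompletion K) (hs : ∀ v, s v ≠ 0)
    (hr : ∀ (j : Fin 2) (v : HeightOneSpectrum (𝓞 K)), (r' j).2 v = s v * (r j).2 v) :
    Cong671 𝔪 r' ↔ Cong671 𝔪 r :=
  ⟨cong_of_scale_inv250c s hs hr, cong_of_scale250c s hr⟩

/-- The congruence clause for `l ξ`, `g · a` and for `ξ`, `g` (`l ≠ 0`). -/
theorem cong_smul_scF_iff250c (𝔪 : Ideal (𝓞 K)) {l : K} (hl : l ≠ 0) (ξ : Fin 2 → K) (g : G K)
    (a : (FiniteAdeleRing (𝓞 K) K)ˣ) :
    Cong671 𝔪 (rowOf (l • ξ) (g * scF671 a)) ↔ Cong671 𝔪 (rowOf ξ g) := by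
  refine cong_iff_scale250c
    (fun v => algebraMap K (v.adicCompletion K) l * (a : FiniteAdeleRing (𝓞 K) K) v)
    (fun v => mul_ne_zero ?_ (finIdele_apply_ne_zero250c a v)) ?_
  · exact (map_ne_zero _).mpr hl
  · intro j v
    rw [rowOf_smul_snd250c, rowOf_mul_scF_snd250c]
    ring

/-! ## 5. Primitive representatives -/

theorem smul_ne_zero250c {l : K} (hl : l ≠ 0) {ξ : Fin 2 → K} (hξ : ξ ≠ 0) : l • ξ ≠ 0 :=
  smul_ne_zero hl hξ

/-- The gauge of a primitive row. -/
theorem gauge_of_prim250c (hS : ScaleC K) {ξ : Fin 2 → K} {g : G K}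
    {a : (FiniteAdeleRing (𝓞 K) K)ˣ} (l : Kˣ)
    (h : IsPrimRow671 (rowOf ((l : K) • ξ) (g * scF671 a))) :
    pairGauge671 (pairOf671 (rowOf ((l : K) • ξ) (g * scF671 a)))
      = rowNorm (rowOf ξ g) * finNormI671 a := by
  have h1 := rowNorm_eq671 (rowOf ((l : K) • ξ) g)
  rw [hS g ξ l, finNorm_of_prim250c h, ← pairOf_mul_scF250c _ g a] at h1
  rw [h1, mul_assoc, inv_mul_cancel₀ (finNormI_pos250c a).ne', mul_one]

section ClassRep

variable {n : ℕ} {c : Fin n → (FiniteAdeleRing (𝓞 K) K)ˣ}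

/-- Existence of a primitive representative in the cone. -/
theorem exists_prim250c (hC : ContentC K) (hc : IsClassRep671 c) (g : G K) {ξ : Fin 2 → K}
    (hξ : ξ ≠ 0) :
    ∃ (i : Fin n) (l : Kˣ), IsPrimRow671 (rowOf ((l : K) • ξ) (g * scF671 (c i))) ∧
      pairOf671 (rowOf ((l : K) • ξ) (g * scF671 (c i))) ∈ pairCone671 K := by
  obtain ⟨a, ha⟩ := hC g ξ hξ
  obtain ⟨i, l, hl⟩ := hc.1 a⁻¹
  have hprim : IsPrimRow671 (rowOf ((l : K) • ξ) (g * scF671 (c i))) := by
    intro v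
    change locH250c (rowOf ((l : K) • ξ) (g * scF671 (c i))) v = 1
    have e1 : locH250c (rowOf ξ g) v = ‖(a : FiniteAdeleRing (𝓞 K) K) v‖ := (ha v).symm
    have e2 := hl v
    rw [norm_finIdele_inv250c] at e2
    rw [locH_smul_scF250c, e1, mul_right_comm, ← e2,
      inv_mul_cancel₀ (norm_finIdele_pos250c a v).ne']
  have hlξ : (l : K) • ξ ≠ 0 := smul_ne_zero (Units.ne_zero l) hξ
  obtain ⟨u, hu⟩ := exists_unit_smul_mem_pairCone671
    (pairGauge_pos250c hlξ (g * scF671 (c i))).ne'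
  have hu0 : ((u : 𝓞 K) : K) ≠ 0 := NumberField.Units.coe_ne_zero u
  refine ⟨i, Units.mk0 _ hu0 * l, ?_, ?_⟩
  · intro v
    change locH250c (rowOf (((Units.mk0 _ hu0 * l : Kˣ) : K) • ξ) (g * scF671 (c i))) v = 1
    have e : ((Units.mk0 _ hu0 * l : Kˣ) : K) • ξ = ((u : 𝓞 K) : K) • ((l : K) • ξ) := by
      rw [Units.val_mul, Units.val_mk0, mul_smul]
    rw [e, locH_smul250c, norm_unit_fin250c, one_mul]
    exact hprim v
  · have e : ((Units.mk0 _ hu0 * l : Kˣ) : K) • ξ = ((u : 𝓞 K) : K) • ((l : K) • ξ) := by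
      rw [Units.val_mul, Units.val_mk0, mul_smul]
    rw [e, pairOf_unit_smul250c]
    exact hu

/-- Uniqueness of the class and of the primitive representative up to units. -/
theorem prim_unique250c (hU : UnitsC K) (hc : IsClassRep671 c) (g : G K) {ξ : Fin 2 → K}
    {i i' : Fin n} {l l' : Kˣ}
    (h : IsPrimRow671 (rowOf ((l : K) • ξ) (g * scF671 (c i))))
    (h' : IsPrimRow671 (rowOf ((l' : K) • ξ) (g * scF671 (c i')))) :
    i = i' ∧ ∃ u : (𝓞 K)ˣ, (l' : K) = ((u : 𝓞 K) : K) * (l : K) := by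
  have e : ∀ v : HeightOneSpectrum (𝓞 K),
      ‖algebraMap K (v.adicCompletion K) (l : K)‖ * ‖(c i : FiniteAdeleRing (𝓞 K) K) v‖
        = ‖algebraMap K (v.adicCompletion K) (l' : K)‖
          * ‖(c i' : FiniteAdeleRing (𝓞 K) K) v‖ := by
    intro v
    have h1 := h v
    have h2 := h' v
    change locH250c (rowOf ((l : K) • ξ) (g * scF671 (c i))) v = 1 at h1
    change locH250c (rowOf ((l' : K) • ξ) (g * scF671 (c i'))) v = 1 at h2
    rw [locH_smul_scF250c] at h1 h2
    have hm : locH250c (rowOf ξ g) v ≠ 0 := by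
      intro h0
      rw [h0, mul_zero, zero_mul] at h1
      exact zero_ne_one h1
    apply mul_right_cancel₀ hm
    calc ‖algebraMap K (v.adicCompletion K) (l : K)‖ * ‖(c i : FiniteAdeleRing (𝓞 K) K) v‖
          * locH250c (rowOf ξ g) v = 1 := by rw [mul_right_comm]; exact h1
      _ = ‖algebraMap K (v.adicCompletion K) (l' : K)‖
          * ‖(c i' : FiniteAdeleRing (𝓞 K) K) v‖ * locH250c (rowOf ξ g) v := by
          rw [mul_right_comm]; exact h2.symm
  have hlpos : ∀ v : HeightOneSpectrum (𝓞 K),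
      0 < ‖algebraMap K (v.adicCompletion K) (l : K)‖ := fun v =>
    norm_pos_iff.2 ((map_ne_zero _).mpr (Units.ne_zero l))
  have hnorm : ∀ v : HeightOneSpectrum (𝓞 K),
      ‖algebraMap K (v.adicCompletion K) ((l' * l⁻¹ : Kˣ) : K)‖
        = ‖algebraMap K (v.adicCompletion K) (l' : K)‖
          / ‖algebraMap K (v.adicCompletion K) (l : K)‖ := by
    intro v
    rw [Units.val_mul, Units.val_inv_eq_inv_val, map_mul, map_inv₀, norm_mul, norm_inv,
      div_eq_mul_inv]
  have hi : i = i' := by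
    refine hc.2 i i' ⟨l' * l⁻¹, fun v => ?_⟩
    rw [hnorm v, div_mul_eq_mul_div, ← e v, mul_div_assoc, mul_comm,
      div_mul_cancel₀ _ (hlpos v).ne']
  refine ⟨hi, ?_⟩
  subst hi
  have hone : ∀ v : HeightOneSpectrum (𝓞 K),
      ‖algebraMap K (v.adicCompletion K) ((l' * l⁻¹ : Kˣ) : K)‖ = 1 := by
    intro v
    rw [hnorm v]
    have h3 := mul_right_cancel₀ (norm_finIdele_pos250c (c i) v).ne' (e v)
    rw [h3, div_self (by rw [← h3]; exact (hlpos v).ne')]
  obtain ⟨u, hu⟩ := hU (l' * l⁻¹) hone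
  refine ⟨u, ?_⟩
  rw [hu, Units.val_mul, Units.val_inv_eq_inv_val, mul_assoc,
    inv_mul_cancel₀ (Units.ne_zero l), mul_one]

end ClassRep

/-! ## 6. Points of the projective line -/

theorem proj_eq_of_smul250c {x x' : Projectivization K (Fin 2 → K)} {l l' : K} (hl : l ≠ 0)
    (hl' : l' ≠ 0) (h : l • x.rep = l' • x'.rep) : x = x' := by
  rw [← x.mk_rep, ← x'.mk_rep, Projectivization.mk_eq_mk_iff]
  refine ⟨Units.mk0 (l⁻¹ * l') (mul_ne_zero (inv_ne_zero hl) hl'), ?_⟩
  rw [Units.smul_def, Units.val_mk0, mul_smul, ← h, smul_smul, inv_mul_cancel₀ hl, one_smul]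

/-! ## 7. The leaf -/

/-- The points of bounded height are finite in number (helper849, `cntSet_finite849`). -/
theorem cntB_finite250c (hN : Fermat.Agent.LT.T1.AdNormC K) (hK : TotCplx K)
    (𝔪 : Ideal (𝓞 K)) (g : G K) {B : ℝ} (hB : 0 < B) : (cntB671 𝔪 B g).Finite := by
  have hD : 0 < Fermat.Agent.LT.T5.adNorm
      (Matrix.det (g : Matrix (Fin 2) (Fin 2) (Adl K))) := by
    have h := hN.1 (Matrix.GeneralLinearGroup.det g)
    rw [Matrix.GeneralLinearGroup.val_det_apply] at h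
    exact h
  have hY : 0 < Fermat.Agent.LT.T5.adNorm
      (Matrix.det (g : Matrix (Fin 2) (Fin 2) (Adl K))) / B ^ 2 := div_pos hD (pow_pos hB 2)
  refine (Fermat.Agent.LT.T7.H849.cntSet_finite849 hN hK 𝔪 g hY).subset ?_
  intro x hx
  refine ⟨?_, hx.2⟩
  have h0 : 0 ≤ rowNorm (rowOf x.rep g) := Fermat.Agent.LT.T7.H849.rowNorm_nonneg849 hK _
  have h1 : rowNorm (rowOf x.rep g) ^ 2 ≤ B ^ 2 := pow_le_pow_left₀ h0 hx.1 2
  calc rowNorm (rowOf x.rep g) ^ 2
        * (Fermat.Agent.LT.T5.adNorm (Matrix.det (g : Matrix (Fin 2) (Fin 2) (Adl K))) / B ^ 2)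
      ≤ B ^ 2
        * (Fermat.Agent.LT.T5.adNorm (Matrix.det (g : Matrix (Fin 2) (Fin 2) (Adl K))) / B ^ 2) :=
        mul_le_mul_of_nonneg_right h1 hY.le
    _ = Fermat.Agent.LT.T5.adNorm (Matrix.det (g : Matrix (Fin 2) (Fin 2) (Adl K))) := by
        field_simp

/-- Counting along a map with prescribed fibres (no number fields). -/
theorem sum_ncard_fibres250c {X T P : Type*} [Fintype T] {n : ℕ} (A : Finset X)
    (ι : X → Fin n) (Φ : X × T → P) (Z : Fin n → Set P)
    (hmem : ∀ x ∈ A, ∀ t : T, Φ (x, t) ∈ Z (ι x))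
    (hinj : ∀ q q' : X × T, ι q.1 = ι q'.1 → Φ q = Φ q' → q = q')
    (hsurj : ∀ i, ∀ p ∈ Z i, ∃ x ∈ A, ∃ t : T, ι x = i ∧ Φ (x, t) = p) :
    ∑ i : Fin n, (Z i).ncard = A.card * Fintype.card T := by
  classical
  have hncard : ∀ i, (Z i).ncard
      = ((A ×ˢ (Finset.univ : Finset T)).filter (fun q : X × T => ι q.1 = i)).card := by
    intro i
    have himg : Z i = Φ '' (↑((A ×ˢ (Finset.univ : Finset T)).filter
        (fun q : X × T => ι q.1 = i)) : Set (X × T)) := by
      ext p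
      constructor
      · intro hp
        obtain ⟨x, hx, t, hi, hp'⟩ := hsurj i p hp
        exact ⟨(x, t), Finset.mem_coe.2 (Finset.mem_filter.2
          ⟨Finset.mem_product.2 ⟨hx, Finset.mem_univ _⟩, hi⟩), hp'⟩
      · rintro ⟨⟨x, t⟩, hq, rfl⟩
        have hq' := Finset.mem_filter.1 (Finset.mem_coe.1 hq)
        have h1 := hmem x (Finset.mem_product.1 hq'.1).1 t
        have h2 : ι x = i := hq'.2
        rw [h2] at h1
        exact h1
    have hinjOn : Set.InjOn Φ (↑((A ×ˢ (Finset.univ : Finset T)).filter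
        (fun q : X × T => ι q.1 = i)) : Set (X × T)) := by
      intro q hq q' hq' hqq
      have h1 := Finset.mem_filter.1 (Finset.mem_coe.1 hq)
      have h2 := Finset.mem_filter.1 (Finset.mem_coe.1 hq')
      exact hinj q q' (h1.2.trans h2.2.symm) hqq
    rw [himg, hinjOn.ncard_image, Set.ncard_coe_finset]
  have hsum : ∑ i : Fin n,
      ((A ×ˢ (Finset.univ : Finset T)).filter (fun q : X × T => ι q.1 = i)).card
      = (A ×ˢ (Finset.univ : Finset T)).card :=
    (Finset.card_eq_sum_card_fiberwise (f := fun q : X × T => ι q.1) (t := Finset.univ)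
      (fun q _ => Finset.mem_univ _)).symm
  simp only [hncard]
  rw [hsum, Finset.card_product, Finset.card_univ]

section Phi

variable {n : ℕ} (c : Fin n → (FiniteAdeleRing (𝓞 K) K)ˣ) (g : G K)
  (ι : Projectivization K (Fin 2 → K) → Fin n) (lam : Projectivization K (Fin 2 → K) → Kˣ)

/-- The chosen primitive point of the cone over `x`, moved by the root of unity `ζ`. -/
def phi250c (q : Projectivization K (Fin 2 → K) × NumberField.Units.torsion K) : Pair671 K :=
  unitPair671 (q.2 : (𝓞 K)ˣ)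
    (pairOf671 (rowOf ((lam q.1 : K) • q.1.rep) (g * scF671 (c (ι q.1)))))

theorem phi_eq250c (x : Projectivization K (Fin 2 → K)) (ζ : NumberField.Units.torsion K) :
    phi250c c g ι lam (x, ζ)
      = pairOf671 (rowOf ((((ζ : (𝓞 K)ˣ) : 𝓞 K) : K) • ((lam x : K) • x.rep))
          (g * scF671 (c (ι x)))) :=
  (pairOf_unit_smul250c _ _ _).symm

variable {c g ι lam}

theorem phi_mem250c (hS : ScaleC K)
    (hprim : ∀ x, IsPrimRow671 (rowOf ((lam x : K) • x.rep) (g * scF671 (c (ι x)))))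
    (hcone : ∀ x, pairOf671 (rowOf ((lam x : K) • x.rep) (g * scF671 (c (ι x))))
      ∈ pairCone671 K)
    {𝔪 : Ideal (𝓞 K)} {B : ℝ} {x : Projectivization K (Fin 2 → K)} (hx : x ∈ cntB671 𝔪 B g)
    (ζ : NumberField.Units.torsion K) :
    phi250c c g ι lam (x, ζ)
      ∈ primSet671 𝔪 (B * finNormI671 (c (ι x))) (g * scF671 (c (ι x))) := by
  have hζ : (ζ : (𝓞 K)ˣ) ∈ NumberField.Units.torsion K := ζ.2
  refine ⟨(unit_smul_mem_pairCone671_iff (hcone x) _).mpr hζ, ?_,
    (((ζ : (𝓞 K)ˣ) : 𝓞 K) : K) • ((lam x : K) • x.rep), (phi_eq250c c g ι lam x ζ).symm, ?_, ?_⟩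
  · show pairGauge671 (unitPair671 _ _) ≤ _
    rw [pairGauge671_unit_smul, gauge_of_prim250c hS (lam x) (hprim x)]
    exact mul_le_mul_of_nonneg_right hx.1 (finNormI_pos250c _).le
  · intro v
    change locH250c _ v = 1
    rw [locH_smul250c, norm_unit_fin250c, one_mul]
    exact hprim x v
  · rw [smul_smul]
    exact (cong_smul_scF_iff250c 𝔪
      (mul_ne_zero (NumberField.Units.coe_ne_zero _) (Units.ne_zero _)) x.rep g _).mpr hx.2

theorem phi_inj250c (q q' : Projectivization K (Fin 2 → K) × NumberField.Units.torsion K)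
    (hι : ι q.1 = ι q'.1) (hΦ : phi250c c g ι lam q = phi250c c g ι lam q') : q = q' := by
  obtain ⟨x, ζ⟩ := q
  obtain ⟨x', ζ'⟩ := q'
  rw [phi_eq250c, phi_eq250c] at hΦ
  have hι' : ι x = ι x' := hι
  rw [hι'] at hΦ
  have h1 := pairOf_rowOf_injective250c _ hΦ
  rw [smul_smul, smul_smul] at h1
  have hx : x = x' := proj_eq_of_smul250c
    (mul_ne_zero (NumberField.Units.coe_ne_zero _) (Units.ne_zero _))
    (mul_ne_zero (NumberField.Units.coe_ne_zero _) (Units.ne_zero _)) h1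
  subst hx
  have h2 : (((ζ : (𝓞 K)ˣ) : 𝓞 K) : K) = (((ζ' : (𝓞 K)ˣ) : 𝓞 K) : K) := by
    have h3 : ((((ζ : (𝓞 K)ˣ) : 𝓞 K) : K) * (lam x : K)
        - (((ζ' : (𝓞 K)ˣ) : 𝓞 K) : K) * (lam x : K)) • x.rep = 0 := by
      rw [sub_smul, h1, sub_self]
    rcases smul_eq_zero.1 h3 with h4 | h4
    · exact mul_right_cancel₀ (Units.ne_zero (lam x)) (sub_eq_zero.1 h4)
    · exact absurd h4 x.rep_nonzero
  have h5 : (ζ : (𝓞 K)ˣ) = ζ' := Units.ext (RingOfIntegers.ext h2)
  exact Prod.ext rfl (Subtype.ext h5)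

theorem phi_surj250c (hU : UnitsC K) (hS : ScaleC K) (hc : IsClassRep671 c)
    (hprim : ∀ x, IsPrimRow671 (rowOf ((lam x : K) • x.rep) (g * scF671 (c (ι x)))))
    (hcone : ∀ x, pairOf671 (rowOf ((lam x : K) • x.rep) (g * scF671 (c (ι x))))
      ∈ pairCone671 K)
    {𝔪 : Ideal (𝓞 K)} {B : ℝ} (i : Fin n) {p : Pair671 K}
    (hp : p ∈ primSet671 𝔪 (B * finNormI671 (c i)) (g * scF671 (c i))) :
    ∃ x ∈ cntB671 𝔪 B g, ∃ ζ : NumberField.Units.torsion K,
      ι x = i ∧ phi250c c g ι lam (x, ζ) = p := by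
  obtain ⟨hpc, hpg, ξ, hp, hξprim, hξcong⟩ := hp
  have hξ : ξ ≠ 0 := by
    rw [← hp] at hpc
    exact ne_zero_of_mem_cone250c hpc
  obtain ⟨l₀, hl₀⟩ := Projectivization.exists_smul_eq_mk_rep K ξ hξ
  have hξeq : ξ = ((l₀⁻¹ : Kˣ) : K) • (Projectivization.mk K ξ hξ).rep := by
    rw [← hl₀, Units.smul_def, smul_smul, Units.val_inv_eq_inv_val,
      inv_mul_cancel₀ (Units.ne_zero l₀), one_smul]
  generalize Projectivization.mk K ξ hξ = x at hξeq
  have hξprim' : IsPrimRow671 (rowOf (((l₀⁻¹ : Kˣ) : K) • x.rep) (g * scF671 (c i))) := by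
    rw [← hξeq]
    exact hξprim
  obtain ⟨hi, u, hu⟩ := prim_unique250c hU hc g (hprim x) hξprim'
  subst hi
  have hξeq2 : ξ = ((u : 𝓞 K) : K) • ((lam x : K) • x.rep) := by
    rw [hξeq, hu, mul_smul]
  have hpu : p = unitPair671 u
      (pairOf671 (rowOf ((lam x : K) • x.rep) (g * scF671 (c (ι x))))) := by
    rw [← hp, hξeq2, pairOf_unit_smul250c]
  have hut : u ∈ NumberField.Units.torsion K := by
    rw [hpu] at hpc
    exact (unit_smul_mem_pairCone671_iff (hcone x) u).mp hpc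
  have hxB : x ∈ cntB671 𝔪 B g := by
    constructor
    · have h1 : pairGauge671 p = rowNorm (rowOf x.rep g) * finNormI671 (c (ι x)) := by
        rw [hpu, pairGauge671_unit_smul, gauge_of_prim250c hS (lam x) (hprim x)]
      rw [h1] at hpg
      exact le_of_mul_le_mul_right hpg (finNormI_pos250c _)
    · rw [hξeq] at hξcong
      exact (cong_smul_scF_iff250c 𝔪 (Units.ne_zero _) x.rep g _).mp hξcong
  exact ⟨x, hxB, ⟨u, hut⟩, rfl, hpu.symm⟩

end Phi

/-- **T7.14.3g CLASS-DEC** (for a totally complex field; `TotCplx K` is only used for the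
finiteness of the set of points of bounded height, `H849.cntSet_finite849`). -/
theorem classDecC_of250 (hC : ContentC K) (hU : UnitsC K) (hS : ScaleC K)
    (hN : Fermat.Agent.LT.T1.AdNormC K) (hK : TotCplx K) : ClassDecC K := by
  intro n c hc 𝔪 g B hB
  classical
  have : Fintype (NumberField.Units.torsion K) := Fintype.ofFinite _
  choose ι lam hprim hcone using
    fun x : Projectivization K (Fin 2 → K) => exists_prim250c hC hc g x.rep_nonzero
  have hfin := cntB_finite250c hN hK 𝔪 g hB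
  have hcount := sum_ncard_fibres250c hfin.toFinset ι (phi250c c g ι lam)
    (fun i => primSet671 𝔪 (B * finNormI671 (c i)) (g * scF671 (c i)))
    (fun x hx ζ => phi_mem250c hS hprim hcone (hfin.mem_toFinset.1 hx) ζ)
    (fun q q' => phi_inj250c q q')
    (fun i p hp => by
      obtain ⟨x, hx, ζ, hi, hpx⟩ := phi_surj250c hU hS hc hprim hcone i hp
      exact ⟨x, hfin.mem_toFinset.2 hx, ζ, hi, hpx⟩)
  have hA : hfin.toFinset.card = (cntB671 𝔪 B g).ncard :=
    (Set.ncard_eq_toFinset_card _ hfin).symm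
  have hT : Fintype.card (NumberField.Units.torsion K) = NumberField.Units.torsionOrder K :=
    (Nat.card_eq_fintype_card).symm
  rw [hA, hT] at hcount
  rw [← Nat.cast_sum, hcount]
  push_cast
  ring

/-- The leaf in the form of the registry row (with the hypothesis `TotCplx K`, which the
consumer `CountLimC K` provides). -/
theorem classDecC_of_T1Out250 (hC : ContentC K) (hU : UnitsC K) (hS : ScaleC K)
    (hT : Fermat.Agent.LT.T1.T1Out K) (hK : TotCplx K) : ClassDecC K :=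
  classDecC_of250 hC hU hS hT.adNorm hK

end Fermat.Agent.LT.T7.H250

end

end
-- ===== PACK-END LT/T7/H250/ClassDec.lean

-- ===== PACK-BEGIN LT/T7/H236/Lat.lean
section



/-!
# Row LT, tower T7, leaf T7.14.3c.L `LatC227` (helper236)

OFF-MAIN.  `latC236 (K) : H227.LatC227 K`, VERBATIM against `LT/T7/H227/CovolSpec.lean`
(helper227@3432677a3, sha256 `52f0b3fe…`) on `LT/T7/H671/AdelicPair.lean` (`daa04071…`),
byte-identical copies.  UNCONDITIONAL.

Route (the one of the registry row 1896):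

1. `pairOf671 (rowOf x g) = rmul236 G (ι x₀, ι x₁)`, `G` = the infinite part of `g` in the mixed
   space, `rmul236` = right multiplication of a pair by a `2 × 2` matrix; `rmul236 G` and
   `rmul236 G'` (`G'` from `g⁻¹`) are inverse to each other.
2. Denominators (`exists_denominator236`, copied from helper767 `H767/StrongApprox.lean` and
   renamed): `d ∈ 𝓞 K`, `d ≠ 0`, with `d · (g⁻¹)_{ij}` integral at every finite place; then
   `x g` integral implies `d x ∈ 𝓞 K²` (`mem_integers_of_valuation_le_one`).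
   So `p ↦ ι(d) · rmul236 G' p` is continuous, injective and maps `latG671 g` into
   `ι(𝓞 K) × ι(𝓞 K)`, which is discrete: `latG671 g` is discrete.
3. `d'` with `d' · g_{ij}` integral: `rmul236 G (ι(d') a, ι(d') b) ∈ latG671 g` for
   `a, b ∈ ι(𝓞 K)`; `ι(𝓞 K)` spans the mixed space and the map is a linear surjection.
-/

set_option autoImplicit false
set_option linter.unusedSectionVars false
set_option linter.unusedVariables false

open NumberField NumberField.mixedEmbedding NumberField.InfinitePlace IsDedekindDomain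
  IsDedekindDomain.HeightOneSpectrum MeasureTheory
open scoped ENNReal Matrix

noncomputable section

namespace Fermat.Agent.LT.T7.H236

open Fermat.Agent.LT.H556 Fermat.Agent.LT.H556.A0 Fermat.Agent.LT.T7.Rigid
  Fermat.Agent.LT.T7.H671 Fermat.Agent.LT.T7.H227

variable {K : Type} [Field K] [NumberField K]

/-! ## 1. Denominators (helper767, copied and renamed) -/

theorem valued_algebraMap236 (v : HeightOneSpectrum (𝓞 K)) (k : K) :
    Valued.v (algebraMap K (v.adicCompletion K) k) = v.valuation K k :=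
  valuedAdicCompletion_eq_valuation' v k

theorem valued_algebraMap_int_le_one236 (v : HeightOneSpectrum (𝓞 K)) (a : 𝓞 K) :
    Valued.v (algebraMap K (v.adicCompletion K) (algebraMap (𝓞 K) K a)) ≤ 1 := by
  rw [valued_algebraMap236]
  exact valuation_le_one v a

theorem exists_int_mul_le_one236 (v : HeightOneSpectrum (𝓞 K)) (x : v.adicCompletion K) :
    ∃ d : 𝓞 K, d ≠ 0 ∧
      Valued.v (algebraMap K (v.adicCompletion K) (algebraMap (𝓞 K) K d) * x) ≤ 1 := by
  obtain ⟨π, hπ, hπ0⟩ := Submodule.exists_mem_ne_zero_of_ne_bot v.ne_bot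
  set P0 : v.adicCompletion K := algebraMap K (v.adicCompletion K) (algebraMap (𝓞 K) K π) with hP0
  have hP1 : ‖P0‖ < 1 := by
    rw [Valued.toNormedField.norm_lt_one_iff, hP0, valued_algebraMap236]
    exact (valuation_lt_one_iff_mem v π).mpr hπ
  obtain ⟨n, hn⟩ := exists_pow_lt_of_lt_one (show (0 : ℝ) < 1 / (‖x‖ + 1) by positivity) hP1
  refine ⟨π ^ n, pow_ne_zero _ hπ0, ?_⟩
  rw [← Valued.toNormedField.norm_le_one_iff, map_pow, map_pow, norm_mul, norm_pow]
  have h1 : ‖P0‖ ^ n * ‖x‖ ≤ 1 / (‖x‖ + 1) * (‖x‖ + 1) := by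
    apply mul_le_mul hn.le (by linarith) (norm_nonneg _) (by positivity)
  have h2 : 1 / (‖x‖ + 1) * (‖x‖ + 1) = 1 := by
    field_simp
  linarith

theorem exists_denominator236 (a : FiniteAdeleRing (𝓞 K) K) :
    ∃ d : 𝓞 K, d ≠ 0 ∧ ∀ v : HeightOneSpectrum (𝓞 K),
      Valued.v (algebraMap K (v.adicCompletion K) (algebraMap (𝓞 K) K d) * a v) ≤ 1 := by
  classical
  have hfin : {v : HeightOneSpectrum (𝓞 K) | ¬ a v ∈ v.adicCompletionIntegers K}.Finite :=
    Filter.eventually_cofinite.mp a.2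
  choose δ hδ0 hδ using fun v : HeightOneSpectrum (𝓞 K) => exists_int_mul_le_one236 v (a v)
  refine ⟨∏ v ∈ hfin.toFinset, δ v, Finset.prod_ne_zero_iff.mpr fun v _ => hδ0 v, fun v => ?_⟩
  by_cases hv : v ∈ hfin.toFinset
  · rw [← Finset.mul_prod_erase _ _ hv]
    have key : algebraMap K (v.adicCompletion K)
          (algebraMap (𝓞 K) K (δ v * ∏ x ∈ hfin.toFinset.erase v, δ x)) * a v
        = (algebraMap K (v.adicCompletion K) (algebraMap (𝓞 K) K (δ v)) * a v) *
          algebraMap K (v.adicCompletion K)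
            (algebraMap (𝓞 K) K (∏ x ∈ hfin.toFinset.erase v, δ x)) := by
      rw [map_mul, map_mul]; ring
    rw [key, map_mul]
    calc _ ≤ 1 * 1 := mul_le_mul' (hδ v) (valued_algebraMap_int_le_one236 v _)
      _ = 1 := one_mul 1
  · have hav : Valued.v (a v) ≤ 1 := by
      by_contra h
      exact hv (hfin.mem_toFinset.mpr h)
    rw [map_mul]
    calc _ ≤ 1 * 1 := mul_le_mul' (valued_algebraMap_int_le_one236 v _) hav
      _ = 1 := one_mul 1

/-- The image of `k ∈ K` in `K_v`. -/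
abbrev loc236 (v : HeightOneSpectrum (𝓞 K)) (k : K) : v.adicCompletion K :=
  algebraMap K (v.adicCompletion K) k

theorem int_loc236 (v : HeightOneSpectrum (𝓞 K)) (a : 𝓞 K) :
    loc236 v (a : K) ∈ v.adicCompletionIntegers K :=
  (mem_adicCompletionIntegers (𝓞 K) K v).mpr (valued_algebraMap_int_le_one236 v a)

/-- A common denominator of the finite parts of the entries of a matrix. -/
theorem exists_den_mat236 (A : Fin 2 → Fin 2 → Adl K) :
    ∃ d : 𝓞 K, d ≠ 0 ∧ ∀ (v : HeightOneSpectrum (𝓞 K)) (i j : Fin 2),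
      loc236 v (d : K) * (A i j).2 v ∈ v.adicCompletionIntegers K := by
  choose δ hδ0 hδ using fun ij : Fin 2 × Fin 2 => exists_denominator236 (A ij.1 ij.2).2
  have hδ' : ∀ (ij : Fin 2 × Fin 2) (v : HeightOneSpectrum (𝓞 K)),
      loc236 v (δ ij : K) * (A ij.1 ij.2).2 v ∈ v.adicCompletionIntegers K :=
    fun ij v => (mem_adicCompletionIntegers (𝓞 K) K v).mpr (hδ ij v)
  refine ⟨δ (0, 0) * δ (0, 1) * δ (1, 0) * δ (1, 1),
    mul_ne_zero (mul_ne_zero (mul_ne_zero (hδ0 _) (hδ0 _)) (hδ0 _)) (hδ0 _), fun v i j => ?_⟩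
  have hcast : loc236 v ((δ (0, 0) * δ (0, 1) * δ (1, 0) * δ (1, 1) : 𝓞 K) : K)
      = loc236 v (δ (0, 0) : K) * loc236 v (δ (0, 1) : K) * loc236 v (δ (1, 0) : K)
          * loc236 v (δ (1, 1) : K) := by
    simp only [loc236, map_mul]
  rw [hcast]
  have h00 := hδ' (0, 0) v
  have h01 := hδ' (0, 1) v
  have h10 := hδ' (1, 0) v
  have h11 := hδ' (1, 1) v
  have i00 := int_loc236 v (δ (0, 0))
  have i01 := int_loc236 v (δ (0, 1))
  have i10 := int_loc236 v (δ (1, 0))
  have i11 := int_loc236 v (δ (1, 1))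
  fin_cases i <;> fin_cases j
  · have e : loc236 v (δ (0, 0) : K) * loc236 v (δ (0, 1) : K) * loc236 v (δ (1, 0) : K)
          * loc236 v (δ (1, 1) : K) * (A 0 0).2 v
        = (loc236 v (δ (0, 0) : K) * (A 0 0).2 v) *
          (loc236 v (δ (0, 1) : K) * loc236 v (δ (1, 0) : K) * loc236 v (δ (1, 1) : K)) := by
      ring
    exact e ▸ mul_mem h00 (mul_mem (mul_mem i01 i10) i11)
  · have e : loc236 v (δ (0, 0) : K) * loc236 v (δ (0, 1) : K) * loc236 v (δ (1, 0) : K)
          * loc236 v (δ (1, 1) : K) * (A 0 1).2 v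
        = (loc236 v (δ (0, 1) : K) * (A 0 1).2 v) *
          (loc236 v (δ (0, 0) : K) * loc236 v (δ (1, 0) : K) * loc236 v (δ (1, 1) : K)) := by
      ring
    exact e ▸ mul_mem h01 (mul_mem (mul_mem i00 i10) i11)
  · have e : loc236 v (δ (0, 0) : K) * loc236 v (δ (0, 1) : K) * loc236 v (δ (1, 0) : K)
          * loc236 v (δ (1, 1) : K) * (A 1 0).2 v
        = (loc236 v (δ (1, 0) : K) * (A 1 0).2 v) *
          (loc236 v (δ (0, 0) : K) * loc236 v (δ (0, 1) : K) * loc236 v (δ (1, 1) : K)) := by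
      ring
    exact e ▸ mul_mem h10 (mul_mem (mul_mem i00 i01) i11)
  · have e : loc236 v (δ (0, 0) : K) * loc236 v (δ (0, 1) : K) * loc236 v (δ (1, 0) : K)
          * loc236 v (δ (1, 1) : K) * (A 1 1).2 v
        = (loc236 v (δ (1, 1) : K) * (A 1 1).2 v) *
          (loc236 v (δ (0, 0) : K) * loc236 v (δ (0, 1) : K) * loc236 v (δ (1, 0) : K)) := by
      ring
    exact e ▸ mul_mem h11 (mul_mem (mul_mem i00 i01) i10)

/-- An element of `K` which is integral at every finite place is in `𝓞 K`. -/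
theorem exists_int_of_loc236 (k : K)
    (h : ∀ v : HeightOneSpectrum (𝓞 K), loc236 v k ∈ v.adicCompletionIntegers K) :
    ∃ z : 𝓞 K, (z : K) = k := by
  have h1 : ∀ v : HeightOneSpectrum (𝓞 K), v.valuation K k ≤ 1 := by
    intro v
    rw [← valued_algebraMap236 v k]
    exact (mem_adicCompletionIntegers (𝓞 K) K v).mp (h v)
  obtain ⟨z, hz⟩ := mem_integers_of_valuation_le_one K k h1
  exact ⟨z, hz⟩

/-! ## 2. Right multiplication of pairs by `2 × 2` matrices -/

/-- Right multiplication of the pair `p` by the matrix `A` with entries in the mixed space. -/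
def rmul236 (A : Fin 2 → Fin 2 → mixedSpace K) (p : Pair671 K) : Pair671 K :=
  (p.1 * A 0 0 + p.2 * A 1 0, p.1 * A 0 1 + p.2 * A 1 1)

theorem rmul_rmul236 (A B : Fin 2 → Fin 2 → mixedSpace K)
    (h : ∀ i j : Fin 2, A i 0 * B 0 j + A i 1 * B 1 j = if i = j then 1 else 0)
    (p : Pair671 K) : rmul236 B (rmul236 A p) = p := by
  have h00 : A 0 0 * B 0 0 + A 0 1 * B 1 0 = 1 := by simpa using h 0 0
  have h01 : A 0 0 * B 0 1 + A 0 1 * B 1 1 = 0 := by simpa using h 0 1
  have h10 : A 1 0 * B 0 0 + A 1 1 * B 1 0 = 0 := by simpa using h 1 0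
  have h11 : A 1 0 * B 0 1 + A 1 1 * B 1 1 = 1 := by simpa using h 1 1
  unfold rmul236
  refine Prod.ext ?_ ?_
  · show (p.1 * A 0 0 + p.2 * A 1 0) * B 0 0 + (p.1 * A 0 1 + p.2 * A 1 1) * B 1 0 = p.1
    linear_combination p.1 * h00 + p.2 * h10
  · show (p.1 * A 0 0 + p.2 * A 1 0) * B 0 1 + (p.1 * A 0 1 + p.2 * A 1 1) * B 1 1 = p.2
    linear_combination p.1 * h01 + p.2 * h11

theorem continuous_rmul236 (A : Fin 2 → Fin 2 → mixedSpace K) : Continuous (rmul236 A) := by
  unfold rmul236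
  fun_prop

/-- The entries of `g`. -/
def mat236 (g : G K) : Fin 2 → Fin 2 → Adl K :=
  fun i j => (g : Matrix (Fin 2) (Fin 2) (Adl K)) i j

/-- The infinite parts of the entries, in the mixed space. -/
def infMat236 (A : Fin 2 → Fin 2 → Adl K) : Fin 2 → Fin 2 → mixedSpace K :=
  fun i j => infMixed671 (A i j)

theorem mat_mul_inv236 (g : G K) (i j : Fin 2) :
    mat236 g i 0 * mat236 g⁻¹ 0 j + mat236 g i 1 * mat236 g⁻¹ 1 j
      = if i = j then 1 else 0 := by
  have h : (g : Matrix (Fin 2) (Fin 2) (Adl K)) * ((g⁻¹ : G K) : Matrix (Fin 2) (Fin 2) (Adl K))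
      = 1 := by
    rw [← Units.val_mul, mul_inv_cancel, Units.val_one]
  have h2 := congrFun (congrFun h i) j
  rw [Matrix.mul_apply, Fin.sum_univ_two, Matrix.one_apply] at h2
  exact h2

theorem mat_inv_mul236 (g : G K) (i j : Fin 2) :
    mat236 g⁻¹ i 0 * mat236 g 0 j + mat236 g⁻¹ i 1 * mat236 g 1 j
      = if i = j then 1 else 0 := by
  have h := mat_mul_inv236 g⁻¹ i j
  rwa [inv_inv] at h

theorem infMat_mul236 (A B : Fin 2 → Fin 2 → Adl K)
    (h : ∀ i j : Fin 2, A i 0 * B 0 j + A i 1 * B 1 j = if i = j then 1 else 0)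
    (i j : Fin 2) :
    infMat236 A i 0 * infMat236 B 0 j + infMat236 A i 1 * infMat236 B 1 j
      = if i = j then 1 else 0 := by
  unfold infMat236
  rw [← infMixed671_mul, ← infMixed671_mul, ← infMixed671_add, h i j]
  split_ifs
  · exact infMixed671_one
  · exact infMixed671_zero

/-- The pair of a rational vector. -/
def iota236 (x : Fin 2 → K) : Pair671 K := (mixedEmbedding K (x 0), mixedEmbedding K (x 1))

theorem pairOf_rowOf236 (x : Fin 2 → K) (g : G K) :
    pairOf671 (rowOf x g) = rmul236 (infMat236 (mat236 g)) (iota236 x) := by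
  unfold pairOf671 rowOf rmul236 infMat236 mat236 iota236
  rw [infMixed671_add, infMixed671_add, infMixed671_mul, infMixed671_mul, infMixed671_mul,
    infMixed671_mul, infMixed671_algebraMap, infMixed671_algebraMap]

theorem rmul_inv_pairOf236 (x : Fin 2 → K) (g : G K) :
    rmul236 (infMat236 (mat236 g⁻¹)) (pairOf671 (rowOf x g)) = iota236 x := by
  rw [pairOf_rowOf236]
  exact rmul_rmul236 _ _ (infMat_mul236 _ _ (mat_mul_inv236 g)) _

/-! ## 3. Integrality -/

theorem snd_mul236 (a b : Adl K) (v : HeightOneSpectrum (𝓞 K)) :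
    (a * b).2 v = a.2 v * b.2 v := rfl

theorem snd_add236 (a b : Adl K) (v : HeightOneSpectrum (𝓞 K)) :
    (a + b).2 v = a.2 v + b.2 v := rfl

theorem snd_algebraMap236 (k : K) (v : HeightOneSpectrum (𝓞 K)) :
    (algebraMap K (Adl K) k).2 v = loc236 v k := rfl

/-- `x = (x g) g⁻¹`, entry `j`. -/
theorem rowOf_mul_inv236 (x : Fin 2 → K) (g : G K) (j : Fin 2) :
    rowOf x g 0 * mat236 g⁻¹ 0 j + rowOf x g 1 * mat236 g⁻¹ 1 j = algebraMap K (Adl K) (x j) := by
  have h0 := mat_mul_inv236 g 0 j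
  have h1 := mat_mul_inv236 g 1 j
  have e : rowOf x g 0 * mat236 g⁻¹ 0 j + rowOf x g 1 * mat236 g⁻¹ 1 j
      = algebraMap K (Adl K) (x 0) * (mat236 g 0 0 * mat236 g⁻¹ 0 j + mat236 g 0 1 * mat236 g⁻¹ 1 j)
        + algebraMap K (Adl K) (x 1) *
          (mat236 g 1 0 * mat236 g⁻¹ 0 j + mat236 g 1 1 * mat236 g⁻¹ 1 j) := by
    unfold rowOf mat236
    ring
  rw [e, h0, h1]
  fin_cases j
  · simp
  · simp

/-- If `x g` is integral and `d` is a denominator of `g⁻¹`, then `d x` is integral. -/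
theorem exists_int_of_isIntRow236 (g : G K) (d : 𝓞 K)
    (hd : ∀ (v : HeightOneSpectrum (𝓞 K)) (i j : Fin 2),
      loc236 v (d : K) * (mat236 g⁻¹ i j).2 v ∈ v.adicCompletionIntegers K)
    (x : Fin 2 → K) (hx : IsIntRow671 (rowOf x g)) (j : Fin 2) :
    ∃ z : 𝓞 K, (z : K) = (d : K) * x j := by
  refine exists_int_of_loc236 _ fun v => ?_
  have h := congrArg (fun a : Adl K => a.2 v) (rowOf_mul_inv236 x g j)
  simp only [snd_add236, snd_mul236, snd_algebraMap236] at h
  have e : loc236 v ((d : K) * x j)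
      = (rowOf x g 0).2 v * (loc236 v (d : K) * (mat236 g⁻¹ 0 j).2 v)
        + (rowOf x g 1).2 v * (loc236 v (d : K) * (mat236 g⁻¹ 1 j).2 v) := by
    have e1 : loc236 v ((d : K) * x j) = loc236 v (d : K) * loc236 v (x j) := by
      simp only [loc236, map_mul]
    rw [e1, ← h]
    ring
  rw [e]
  exact add_mem (mul_mem (hx v 0) (hd v 0 j)) (mul_mem (hx v 1) (hd v 1 j))

/-- If `d'` is a denominator of `g` and `z ∈ 𝓞 K²`, then `(d' z) g` is integral. -/
theorem isIntRow_of_int236 (g : G K) (d' : 𝓞 K)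
    (hd : ∀ (v : HeightOneSpectrum (𝓞 K)) (i j : Fin 2),
      loc236 v (d' : K) * (mat236 g i j).2 v ∈ v.adicCompletionIntegers K)
    (z : Fin 2 → 𝓞 K) :
    IsIntRow671 (rowOf (fun i => (d' : K) * (z i : K)) g) := by
  intro v j
  have e : (rowOf (fun i => (d' : K) * (z i : K)) g j).2 v
      = loc236 v (z 0 : K) * (loc236 v (d' : K) * (mat236 g 0 j).2 v)
        + loc236 v (z 1 : K) * (loc236 v (d' : K) * (mat236 g 1 j).2 v) := by
    unfold rowOf
    rw [snd_add236, snd_mul236, snd_mul236, snd_algebraMap236, snd_algebraMap236]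
    have e1 : ∀ i : Fin 2, loc236 v ((d' : K) * (z i : K))
        = loc236 v (d' : K) * loc236 v (z i : K) := fun i => by
      simp only [loc236, map_mul]
    rw [e1 0, e1 1]
    unfold mat236
    ring
  rw [e]
  exact add_mem (mul_mem (int_loc236 v (z 0)) (hd v 0 j))
    (mul_mem (int_loc236 v (z 1)) (hd v 1 j))

theorem mem_integerLattice236 (z : 𝓞 K) :
    mixedEmbedding K (z : K) ∈ mixedEmbedding.integerLattice K := ⟨z, rfl⟩

theorem exists_of_mem_integerLattice236 {a : mixedSpace K}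
    (h : a ∈ mixedEmbedding.integerLattice K) : ∃ z : 𝓞 K, mixedEmbedding K (z : K) = a := by
  obtain ⟨z, hz⟩ := h
  exact ⟨z, hz⟩

/-! ## 4. Discreteness -/

/-- `p ↦ ι(d) · (p G')`. -/
def phi236 (g : G K) (d : 𝓞 K) (p : Pair671 K) : Pair671 K :=
  (mixedEmbedding K (d : K) * (rmul236 (infMat236 (mat236 g⁻¹)) p).1,
    mixedEmbedding K (d : K) * (rmul236 (infMat236 (mat236 g⁻¹)) p).2)

theorem continuous_phi236 (g : G K) (d : 𝓞 K) : Continuous (phi236 g d) := by
  unfold phi236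
  have h := continuous_rmul236 (infMat236 (mat236 g⁻¹))
  fun_prop

theorem mixed_inv_mul236 {k : K} (hk : k ≠ 0) :
    mixedEmbedding K k⁻¹ * mixedEmbedding K k = 1 := by
  rw [← map_mul, inv_mul_cancel₀ hk, map_one]

theorem mixed_mul_inv236 {k : K} (hk : k ≠ 0) :
    mixedEmbedding K k * mixedEmbedding K k⁻¹ = 1 := by
  rw [← map_mul, mul_inv_cancel₀ hk, map_one]

theorem mixed_cancel236 {k : K} (hk : k ≠ 0) {a b : mixedSpace K}
    (h : mixedEmbedding K k * a = mixedEmbedding K k * b) : a = b := by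
  have h1 := congrArg (fun t => mixedEmbedding K k⁻¹ * t) h
  simp only [← mul_assoc, mixed_inv_mul236 hk, one_mul] at h1
  exact h1

theorem coe_ne_zero236 {d : 𝓞 K} (hd : d ≠ 0) : (d : K) ≠ 0 := by
  intro h
  exact hd (RingOfIntegers.coe_eq_zero_iff.mp h)

theorem injective_phi236 (g : G K) {d : 𝓞 K} (hd : d ≠ 0) :
    Function.Injective (phi236 g d) := by
  intro p q h
  unfold phi236 at h
  have h1 := mixed_cancel236 (coe_ne_zero236 hd) (congrArg Prod.fst h)
  have h2 := mixed_cancel236 (coe_ne_zero236 hd) (congrArg Prod.snd h)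
  have h3 : rmul236 (infMat236 (mat236 g⁻¹)) p = rmul236 (infMat236 (mat236 g⁻¹)) q :=
    Prod.ext h1 h2
  have h4 := congrArg (rmul236 (infMat236 (mat236 g))) h3
  rwa [rmul_rmul236 _ _ (infMat_mul236 _ _ (mat_inv_mul236 g)),
    rmul_rmul236 _ _ (infMat_mul236 _ _ (mat_inv_mul236 g))] at h4

theorem phi_mem236 (g : G K) (d : 𝓞 K)
    (hd : ∀ (v : HeightOneSpectrum (𝓞 K)) (i j : Fin 2),
      loc236 v (d : K) * (mat236 g⁻¹ i j).2 v ∈ v.adicCompletionIntegers K)
    {p : Pair671 K} (hp : p ∈ latG671 g) :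
    (phi236 g d p).1 ∈ mixedEmbedding.integerLattice K ∧
      (phi236 g d p).2 ∈ mixedEmbedding.integerLattice K := by
  obtain ⟨x, hx, rfl⟩ := mem_latG671.mp hp
  unfold phi236
  rw [rmul_inv_pairOf236]
  obtain ⟨z0, hz0⟩ := exists_int_of_isIntRow236 g d hd x hx 0
  obtain ⟨z1, hz1⟩ := exists_int_of_isIntRow236 g d hd x hx 1
  constructor
  · show mixedEmbedding K (d : K) * mixedEmbedding K (x 0) ∈ _
    rw [← map_mul, ← hz0]
    exact mem_integerLattice236 z0
  · show mixedEmbedding K (d : K) * mixedEmbedding K (x 1) ∈ _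
    rw [← map_mul, ← hz1]
    exact mem_integerLattice236 z1

/-- An open neighbourhood of `0` in the mixed space which meets `ι(𝓞 K)` in `0` only. -/
theorem exists_open_integerLattice236 :
    ∃ U : Set (mixedSpace K), IsOpen U ∧ (0 : mixedSpace K) ∈ U ∧
      ∀ a ∈ mixedEmbedding.integerLattice K, a ∈ U → a = 0 := by
  have h0 : IsOpen ({0} : Set (mixedEmbedding.integerLattice K)) := isOpen_discrete _
  obtain ⟨U, hU, hUeq⟩ := isOpen_induced_iff.mp h0
  refine ⟨U, hU, ?_, ?_⟩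
  · have : (0 : mixedEmbedding.integerLattice K) ∈ Subtype.val ⁻¹' U := by
      rw [hUeq]
      exact Set.mem_singleton _
    exact this
  · intro a ha haU
    have : (⟨a, ha⟩ : mixedEmbedding.integerLattice K) ∈ Subtype.val ⁻¹' U := haU
    rw [hUeq] at this
    exact congrArg Subtype.val (Set.mem_singleton_iff.mp this)

theorem discrete_latG236 (g : G K) : DiscreteTopology (latG671 g) := by
  obtain ⟨d, hd0, hd⟩ := exists_den_mat236 (mat236 g⁻¹)
  obtain ⟨U, hU, h0U, hUL⟩ := exists_open_integerLattice236 (K := K)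
  apply discreteTopology_of_isOpen_singleton_zero
  have hW : IsOpen (phi236 g d ⁻¹' (U ×ˢ U)) :=
    (hU.prod hU).preimage (continuous_phi236 g d)
  have heq : ({0} : Set (latG671 g)) = Subtype.val ⁻¹' (phi236 g d ⁻¹' (U ×ˢ U)) := by
    ext p
    constructor
    · intro hp
      rw [Set.mem_singleton_iff] at hp
      subst hp
      show phi236 g d (0 : Pair671 K) ∈ U ×ˢ U
      have hz : phi236 g d (0 : Pair671 K) = 0 := by
        unfold phi236 rmul236
        simp
      rw [hz]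
      exact ⟨h0U, h0U⟩
    · intro hp
      have hp' : phi236 g d (p : Pair671 K) ∈ U ×ˢ U := hp
      obtain ⟨hm1, hm2⟩ := phi_mem236 g d hd p.2
      have e1 : (phi236 g d (p : Pair671 K)).1 = 0 := hUL _ hm1 hp'.1
      have e2 : (phi236 g d (p : Pair671 K)).2 = 0 := hUL _ hm2 hp'.2
      have e : phi236 g d (p : Pair671 K) = phi236 g d 0 := by
        have hz : phi236 g d (0 : Pair671 K) = 0 := by
          unfold phi236 rmul236
          simp
        rw [hz]
        exact Prod.ext e1 e2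
      have := injective_phi236 g hd0 e
      rw [Set.mem_singleton_iff]
      exact Subtype.ext this
  rw [heq]
  exact hW.preimage continuous_subtype_val

/-! ## 5. Spanning -/

/-- `p ↦ (ι(d') p) G`, as a linear map. -/
def psi236 (g : G K) (d' : 𝓞 K) : Pair671 K →ₗ[ℝ] Pair671 K where
  toFun p := rmul236 (infMat236 (mat236 g))
    (mixedEmbedding K (d' : K) * p.1, mixedEmbedding K (d' : K) * p.2)
  map_add' p q := by
    unfold rmul236
    refine Prod.ext ?_ ?_
    · simp only [Prod.fst_add, Prod.snd_add]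
      ring
    · simp only [Prod.fst_add, Prod.snd_add]
      ring
  map_smul' c p := by
    unfold rmul236
    refine Prod.ext ?_ ?_
    · simp only [Prod.smul_fst, Prod.smul_snd, RingHom.id_apply, mul_smul_comm, smul_mul_assoc,
        smul_add]
    · simp only [Prod.smul_fst, Prod.smul_snd, RingHom.id_apply, mul_smul_comm, smul_mul_assoc,
        smul_add]

theorem psi_apply236 (g : G K) (d' : 𝓞 K) (p : Pair671 K) :
    psi236 g d' p = rmul236 (infMat236 (mat236 g))
      (mixedEmbedding K (d' : K) * p.1, mixedEmbedding K (d' : K) * p.2) := rfl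

theorem surjective_psi236 (g : G K) {d' : 𝓞 K} (hd : d' ≠ 0) :
    Function.Surjective (psi236 g d') := by
  intro q
  refine ⟨(mixedEmbedding K (d' : K)⁻¹ * (rmul236 (infMat236 (mat236 g⁻¹)) q).1,
    mixedEmbedding K (d' : K)⁻¹ * (rmul236 (infMat236 (mat236 g⁻¹)) q).2), ?_⟩
  rw [psi_apply236]
  simp only [← mul_assoc, mixed_mul_inv236 (coe_ne_zero236 hd), one_mul]
  exact rmul_rmul236 _ _ (infMat_mul236 _ _ (mat_inv_mul236 g)) q

theorem psi_mem236 (g : G K) (d' : 𝓞 K)
    (hd : ∀ (v : HeightOneSpectrum (𝓞 K)) (i j : Fin 2),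
      loc236 v (d' : K) * (mat236 g i j).2 v ∈ v.adicCompletionIntegers K)
    {p : Pair671 K} (h1 : p.1 ∈ mixedEmbedding.integerLattice K)
    (h2 : p.2 ∈ mixedEmbedding.integerLattice K) : psi236 g d' p ∈ latG671 g := by
  obtain ⟨z0, hz0⟩ := exists_of_mem_integerLattice236 h1
  obtain ⟨z1, hz1⟩ := exists_of_mem_integerLattice236 h2
  refine mem_latG671.mpr ⟨fun i => (d' : K) * ((![z0, z1] i : 𝓞 K) : K),
    isIntRow_of_int236 g d' hd ![z0, z1], ?_⟩
  rw [pairOf_rowOf236, psi_apply236]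
  congr 1
  unfold iota236
  refine Prod.ext ?_ ?_
  · show mixedEmbedding K ((d' : K) * (z0 : K)) = mixedEmbedding K (d' : K) * p.1
    rw [map_mul, hz0]
  · show mixedEmbedding K ((d' : K) * (z1 : K)) = mixedEmbedding K (d' : K) * p.2
    rw [map_mul, hz1]

open scoped Classical in
theorem span_latG236 (g : G K) : Submodule.span ℝ (latG671 g : Set (Pair671 K)) = ⊤ := by
  obtain ⟨d', hd0, hd⟩ := exists_den_mat236 (mat236 g)
  have hL : Submodule.span ℝ ((mixedEmbedding.integerLattice K : Set (mixedSpace K)))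
      = ⊤ := IsZLattice.span_top
  have hLL : Submodule.span ℝ
      (((mixedEmbedding.integerLattice K : Set (mixedSpace K))) ×ˢ
        ((mixedEmbedding.integerLattice K : Set (mixedSpace K)))) = ⊤ := by
    rw [Submodule.span_prod_eq ℝ (zero_mem _) (zero_mem _), hL, Submodule.prod_top]
  have hsub : (psi236 g d') ''
      (((mixedEmbedding.integerLattice K : Set (mixedSpace K))) ×ˢ
        ((mixedEmbedding.integerLattice K : Set (mixedSpace K))))
      ⊆ (latG671 g : Set (Pair671 K)) := by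
    rintro _ ⟨p, hp, rfl⟩
    exact psi_mem236 g d' hd hp.1 hp.2
  rw [eq_top_iff]
  calc (⊤ : Submodule ℝ (Pair671 K))
      = LinearMap.range (psi236 g d') :=
        (LinearMap.range_eq_top.mpr (surjective_psi236 g hd0)).symm
    _ = Submodule.map (psi236 g d') ⊤ := (Submodule.map_top _).symm
    _ = Submodule.span ℝ ((psi236 g d') ''
          (((mixedEmbedding.integerLattice K : Set (mixedSpace K))) ×ˢ
            ((mixedEmbedding.integerLattice K : Set (mixedSpace K))))) := by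
        rw [Submodule.span_image, hLL]
    _ ≤ Submodule.span ℝ (latG671 g : Set (Pair671 K)) := Submodule.span_mono hsub

/-! ## 6. The leaf -/

open scoped Classical in
/-- **T7.14.3c.L LAT**: `latG671 g` is a lattice of `(K_∞)²`. -/
theorem latC236 (K : Type) [Field K] [NumberField K] : H227.LatC227 K := by
  intro g
  refine ⟨discrete_latG236 g, ?_⟩
  let _ := discrete_latG236 g
  exact ⟨span_latG236 g⟩

end Fermat.Agent.LT.T7.H236

end

end
-- ===== PACK-END LT/T7/H236/Lat.lean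

-- ===== PACK-BEGIN LT/T7/H71/Tail.lean
section






/-!
# Row LT, tower T7, node T7.14, leaf T7.14.3j `TailC` (helper71), OFF-MAIN

`tailC_of71 : IdeleClassC K → CovolC K → H671.TailC K` and, in the form of the registry row,
`tailC71 : IdeleClassC K → CovolC K → T1.T1Out K → H671.TailC K` (the hypothesis `T1Out` is not
used: the product formula is Mathlib's `NumberField.prod_abs_eq_one`).

For a finite idele `a` write `‖a_v‖ = ‖l‖_v ‖c_v‖` with `c` one of the finitely many class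
representatives and `l ∈ Kˣ`.  Then `latG (h a⁻¹) = l · latG (h c⁻¹)` (`latG_scale71`), the lattice
`latG (h c⁻¹)` is stable under the units, so the points of `l · latG (h c⁻¹)` in the cone with
gauge `≤ B` inject into the points of `latG (h c⁻¹)` in the cone with gauge `≤ B / |N l|`
(`TailLat.ncard_mulK_le71`), `|N l|⁻¹ = ∏_v ‖l‖_v = finNormI a / finNormI c` (product formula), and
each of the finitely many lattices has a bound `C B²` (`TailLat.exists_coneBound71`).
-/

set_option autoImplicit false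
set_option linter.unusedSectionVars false

open AutomorphicForm IsDedekindDomain NumberField Filter Topology MeasureTheory
open NumberField.mixedEmbedding NumberField.InfinitePlace

noncomputable section

namespace Fermat.Agent.LT.T7.H71

open Fermat.Agent.LT.H556 Fermat.Agent.LT.H556.A0 Fermat.Agent.LT.T7 Fermat.Agent.LT.T7.Rigid
open Fermat.Agent.LT.T7.H671

variable {K : Type} [Field K] [NumberField K]

/-! ## Components of `x · (1, b)` -/

theorem finIdl_fst71 (b : (FiniteAdeleRing (𝓞 K) K)ˣ) :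
    ((finIdl671 b : (Adl K)ˣ) : Adl K).1 = 1 := rfl

theorem finIdl_snd71 (b : (FiniteAdeleRing (𝓞 K) K)ˣ) :
    ((finIdl671 b : (Adl K)ˣ) : Adl K).2 = (b : FiniteAdeleRing (𝓞 K) K) := rfl

theorem infMixed_mul_finIdl71 (x : Adl K) (b : (FiniteAdeleRing (𝓞 K) K)ˣ) :
    infMixed671 (x * ((finIdl671 b : (Adl K)ˣ) : Adl K)) = infMixed671 x := by
  unfold infMixed671
  rw [adl_fst_mul671, finIdl_fst71, mul_one]

theorem snd_mul_finIdl71 (x : Adl K) (b : (FiniteAdeleRing (𝓞 K) K)ˣ)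
    (v : HeightOneSpectrum (𝓞 K)) :
    (x * ((finIdl671 b : (Adl K)ˣ) : Adl K)).2 v = x.2 v * (b : FiniteAdeleRing (𝓞 K) K) v :=
  rfl

theorem norm_inv_apply71 (b : (FiniteAdeleRing (𝓞 K) K)ˣ) (v : HeightOneSpectrum (𝓞 K)) :
    ‖((b⁻¹ : (FiniteAdeleRing (𝓞 K) K)ˣ) : FiniteAdeleRing (𝓞 K) K) v‖
      = ‖(b : FiniteAdeleRing (𝓞 K) K) v‖⁻¹ := by
  have h1 : ((b⁻¹ : (FiniteAdeleRing (𝓞 K) K)ˣ) : FiniteAdeleRing (𝓞 K) K) v
      * (b : FiniteAdeleRing (𝓞 K) K) v = 1 := by
    have h2 : ((b⁻¹ : (FiniteAdeleRing (𝓞 K) K)ˣ) : FiniteAdeleRing (𝓞 K) K)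
        * (b : FiniteAdeleRing (𝓞 K) K) = 1 := b.inv_mul
    have h3 := congrArg (fun y : FiniteAdeleRing (𝓞 K) K => y v) h2
    exact h3
  have h4 := congrArg norm h1
  rw [norm_mul, norm_one] at h4
  exact eq_inv_of_mul_eq_one_left h4

theorem norm_apply_pos71 (b : (FiniteAdeleRing (𝓞 K) K)ˣ) (v : HeightOneSpectrum (𝓞 K)) :
    0 < ‖(b : FiniteAdeleRing (𝓞 K) K) v‖ :=
  norm_pos_iff.mpr ((FiniteAdeleRing.isUnit_iff.mp b.isUnit).1 v)

/-! ## Rows -/

theorem rowOf_mul_scF71 (ξ : Fin 2 → K) (h : G K) (b : (FiniteAdeleRing (𝓞 K) K)ˣ)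
    (j : Fin 2) :
    rowOf ξ (h * scF671 b) j = rowOf ξ h j * ((finIdl671 b : (Adl K)ˣ) : Adl K) := by
  have hm : ((h * scF671 b : G K) : Matrix (Fin 2) (Fin 2) (Adl K))
      = (h : Matrix (Fin 2) (Fin 2) (Adl K)) * (scF671 b : Matrix (Fin 2) (Fin 2) (Adl K)) :=
    rfl
  have hs : (scF671 b : Matrix (Fin 2) (Fin 2) (Adl K))
      = !![((finIdl671 b : (Adl K)ˣ) : Adl K), 0; 0, ((finIdl671 b : (Adl K)ˣ) : Adl K)] := rfl
  unfold rowOf
  rw [hm, hs]
  fin_cases j <;> simp [Matrix.mul_apply, Fin.sum_univ_two] <;> ring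

theorem pairOf_rowOf_mul_scF71 (ξ : Fin 2 → K) (h : G K) (b : (FiniteAdeleRing (𝓞 K) K)ˣ) :
    pairOf671 (rowOf ξ (h * scF671 b)) = pairOf671 (rowOf ξ h) := by
  unfold pairOf671
  rw [rowOf_mul_scF71, rowOf_mul_scF71, infMixed_mul_finIdl71, infMixed_mul_finIdl71]

theorem isIntRow671_iff71 (r : Fin 2 → Adl K) :
    IsIntRow671 r ↔ ∀ (v : HeightOneSpectrum (𝓞 K)) (j : Fin 2), ‖(r j).2 v‖ ≤ 1 := by
  unfold IsIntRow671
  refine forall_congr' fun v => forall_congr' fun j => ?_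
  rw [HeightOneSpectrum.mem_adicCompletionIntegers, Valued.toNormedField.norm_le_one_iff]

/-- Integrality of `ξ (h b⁻¹)` in terms of `ξ h`. -/
theorem isIntRow_mul_scF_inv71 (ξ : Fin 2 → K) (h : G K) (b : (FiniteAdeleRing (𝓞 K) K)ˣ) :
    IsIntRow671 (rowOf ξ (h * scF671 b⁻¹)) ↔
      ∀ (v : HeightOneSpectrum (𝓞 K)) (j : Fin 2),
        ‖(rowOf ξ h j).2 v‖ ≤ ‖(b : FiniteAdeleRing (𝓞 K) K) v‖ := by
  rw [isIntRow671_iff71]
  refine forall_congr' fun v => forall_congr' fun j => ?_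
  rw [rowOf_mul_scF71, snd_mul_finIdl71, norm_mul, norm_inv_apply71,
    ← div_eq_mul_inv, div_le_one (norm_apply_pos71 b v)]

theorem snd_algebraMap_mul71 (c : K) (x : Adl K) (v : HeightOneSpectrum (𝓞 K)) :
    (algebraMap K (Adl K) c * x).2 v = algebraMap K (v.adicCompletion K) c * x.2 v := rfl

theorem pairOf_smul71 (c : K) (r : Fin 2 → Adl K) :
    pairOf671 (fun j => algebraMap K (Adl K) c * r j) = mulK71 c (pairOf671 r) := by
  unfold pairOf671 mulK71
  rw [infMixed671_mul, infMixed671_mul, infMixed671_algebraMap]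

/-! ## The lattices -/

theorem norm_algebraMap_unit71 (u : (𝓞 K)ˣ) (v : HeightOneSpectrum (𝓞 K)) :
    ‖algebraMap K (v.adicCompletion K) ((u : 𝓞 K) : K)‖ ≤ 1 := by
  rw [Valued.toNormedField.norm_le_one_iff]
  have h := HeightOneSpectrum.valuedAdicCompletion_eq_valuation' v (((u : 𝓞 K) : K))
  have h1 : Valued.v (algebraMap K (v.adicCompletion K) ((u : 𝓞 K) : K))
      = v.valuation K ((u : 𝓞 K) : K) := h
  rw [h1]
  exact HeightOneSpectrum.valuation_le_one v (u : 𝓞 K)

/-- `latG671 g` is stable under the units. -/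
theorem latG_unit_stable71 (g : G K) (u : (𝓞 K)ˣ) (p : Pair671 K) (hp : p ∈ latG671 g) :
    unitPair671 u p ∈ latG671 g := by
  obtain ⟨x, hx, rfl⟩ := mem_latG671.mp hp
  refine mem_latG671.mpr ⟨((u : 𝓞 K) : K) • x, ?_, ?_⟩
  · rw [rowOf_smul671, isIntRow671_iff71]
    intro v j
    rw [snd_algebraMap_mul71, norm_mul]
    have h1 := norm_algebraMap_unit71 u v
    have h2 := (isIntRow671_iff71 _).mp hx v j
    calc ‖algebraMap K (v.adicCompletion K) ((u : 𝓞 K) : K)‖ * ‖(rowOf x g j).2 v‖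
        ≤ 1 * 1 := mul_le_mul h1 h2 (norm_nonneg _) zero_le_one
      _ = 1 := one_mul 1
  · rw [rowOf_smul671, pairOf_smul71, unitPair671_eq_mulK71]

/-- **Scaling.**  If `‖a_v‖ = ‖l‖_v ‖c_v‖` at every finite place, then
`latG (h a⁻¹) ⊆ l · latG (h c⁻¹)`. -/
theorem latG_scale71 (h : G K) (a c : (FiniteAdeleRing (𝓞 K) K)ˣ) (l : Kˣ)
    (hl : ∀ v : HeightOneSpectrum (𝓞 K), ‖(a : FiniteAdeleRing (𝓞 K) K) v‖
      = ‖algebraMap K (v.adicCompletion K) (l : K)‖ * ‖(c : FiniteAdeleRing (𝓞 K) K) v‖)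
    (p : Pair671 K) (hp : p ∈ latG671 (h * scF671 a⁻¹)) :
    mulK71 ((l : K)⁻¹) p ∈ latG671 (h * scF671 c⁻¹) := by
  obtain ⟨x, hx, rfl⟩ := mem_latG671.mp hp
  rw [isIntRow_mul_scF_inv71] at hx
  refine mem_latG671.mpr ⟨((l : K)⁻¹) • x, ?_, ?_⟩
  · rw [isIntRow_mul_scF_inv71]
    intro v j
    rw [rowOf_smul671, snd_algebraMap_mul71, norm_mul, map_inv₀, norm_inv]
    have hlpos : 0 < ‖algebraMap K (v.adicCompletion K) (l : K)‖ :=
      norm_pos_iff.mpr ((map_ne_zero _).mpr l.ne_zero)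
    rw [inv_mul_le_iff₀ hlpos, ← hl v]
    exact hx v j
  · rw [pairOf_rowOf_mul_scF71, pairOf_rowOf_mul_scF71, rowOf_smul671, pairOf_smul71]

/-! ## The product formula -/

theorem hasFiniteMulSupport_fin71 (b : (FiniteAdeleRing (𝓞 K) K)ˣ) :
    (Function.mulSupport fun v : HeightOneSpectrum (𝓞 K) =>
      ‖(b : FiniteAdeleRing (𝓞 K) K) v‖).Finite := by
  have h := (FiniteAdeleRing.isUnit_iff.mp b.isUnit).2
  rw [Filter.eventually_cofinite] at h
  refine h.subset fun v hv => ?_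
  simp only [Function.mem_mulSupport] at hv
  simp only [Set.mem_ofPred_eq]
  intro h1
  apply hv
  rw [le_antisymm_iff, Valued.toNormedField.norm_le_one_iff,
    Valued.toNormedField.one_le_norm_iff]
  exact ⟨h1.le, h1.ge⟩

theorem finNormI_pos71 (b : (FiniteAdeleRing (𝓞 K) K)ˣ) : 0 < finNormI671 b := by
  unfold finNormI671
  exact finprod_induction (fun r : ℝ => 0 < r) one_pos (fun _ _ => mul_pos)
    fun v => norm_apply_pos71 b v

theorem finprod_norm_algebraMap71 (l : Kˣ) :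
    ∏ᶠ v : HeightOneSpectrum (𝓞 K), ‖algebraMap K (v.adicCompletion K) (l : K)‖
      = (nrm71 (l : K))⁻¹ := by
  have h1 : (∏ᶠ v : HeightOneSpectrum (𝓞 K), ‖algebraMap K (v.adicCompletion K) (l : K)‖)
      = ∏ᶠ w : FinitePlace K, w (l : K) :=
    finprod_eq_of_bijective (f := fun v : HeightOneSpectrum (𝓞 K) =>
      ‖algebraMap K (v.adicCompletion K) (l : K)‖) (g := fun w : FinitePlace K => w (l : K))
      FinitePlace.equivHeightOneSpectrum.symm FinitePlace.equivHeightOneSpectrum.symm.bijective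
      (fun _ => rfl)
  have h2 := prod_abs_eq_one (K := K) l.ne_zero
  rw [h1]
  exact eq_inv_of_mul_eq_one_right h2

theorem hasFiniteMulSupport_alg71 (l : Kˣ) :
    (Function.mulSupport fun v : HeightOneSpectrum (𝓞 K) =>
      ‖algebraMap K (v.adicCompletion K) (l : K)‖).Finite := by
  have h := FinitePlace.hasFiniteMulSupport (K := K) l.ne_zero
  have h2 := h.preimage (FinitePlace.equivHeightOneSpectrum (K := K)).symm.injective.injOn
  refine h2.subset fun v hv => ?_
  exact hv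

/-- `finNormI a = |N l|⁻¹ · finNormI c` if `‖a_v‖ = ‖l‖_v ‖c_v‖` at every finite place. -/
theorem finNormI_scale71 (a c : (FiniteAdeleRing (𝓞 K) K)ˣ) (l : Kˣ)
    (hl : ∀ v : HeightOneSpectrum (𝓞 K), ‖(a : FiniteAdeleRing (𝓞 K) K) v‖
      = ‖algebraMap K (v.adicCompletion K) (l : K)‖ * ‖(c : FiniteAdeleRing (𝓞 K) K) v‖) :
    finNormI671 a = (nrm71 (l : K))⁻¹ * finNormI671 c := by
  unfold finNormI671
  rw [← finprod_norm_algebraMap71 l,
    ← finprod_mul_distrib (hasFiniteMulSupport_alg71 l) (hasFiniteMulSupport_fin71 c)]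
  exact finprod_congr hl

/-! ## The leaf -/

open scoped Classical in
/-- **T7.14.3j `TailC`.**  Uniform bound for the lattice points of the cone in the lattices of
`h · a⁻¹`, `a` a finite idele. -/
theorem tailC_of71 (hcls : IdeleClassC K) (hcov : CovolC K) : TailC K := by
  intro h
  obtain ⟨n, c, hc⟩ := hcls
  obtain ⟨c₀, hc₀, hcv⟩ := hcov
  have hb : ∀ i : Fin n, ∃ C : ℝ, 0 ≤ C ∧ ∀ B : ℝ,
      ((coneSet71 ((latG671 (h * scF671 (c i)⁻¹) : Submodule ℤ (Pair671 K)) :
        Set (Pair671 K)) B).ncard : ℝ) ≤ C * B ^ 2 := by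
    intro i
    obtain ⟨hd, hz, -⟩ := hcv (h * scF671 (c i)⁻¹)
    exact exists_coneBound71 _
  choose Cb hCb0 hCb using hb
  refine ⟨∑ i, Cb i / finNormI671 (c i) ^ 2, fun a B => ?_⟩
  obtain ⟨i, l, hl⟩ := hc.1 a
  have hfin : (coneSet71 ((latG671 (h * scF671 (c i)⁻¹) : Submodule ℤ (Pair671 K)) :
      Set (Pair671 K)) (B / nrm71 (l : K))).Finite := by
    obtain ⟨hd, hz, -⟩ := hcv (h * scF671 (c i)⁻¹)
    exact finite_coneSet71 _ _
  have h1 := ncard_mulK_le71
    ((latG671 (h * scF671 (c i)⁻¹) : Submodule ℤ (Pair671 K)) : Set (Pair671 K))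
    (fun u p hp => latG_unit_stable71 _ u p hp) l.ne_zero B
    (coneLat671 B (h * scF671 a⁻¹))
    (fun p hp => ⟨hp.1, hp.2.1, latG_scale71 h a (c i) l hl p hp.2.2⟩) hfin
  have h2 := hCb i (B / nrm71 (l : K))
  have h3 := finNormI_scale71 a (c i) l hl
  have hcpos := finNormI_pos71 (c i)
  have hnpos := nrm71_pos (K := K) l.ne_zero
  have h4 : Cb i * (B / nrm71 (l : K)) ^ 2
      = Cb i / finNormI671 (c i) ^ 2 * B ^ 2 * finNormI671 a ^ 2 := by
    rw [h3]
    field_simp
  have h5 : Cb i / finNormI671 (c i) ^ 2 ≤ ∑ j, Cb j / finNormI671 (c j) ^ 2 :=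
    Finset.single_le_sum (f := fun j => Cb j / finNormI671 (c j) ^ 2)
      (fun j _ => div_nonneg (hCb0 j) (sq_nonneg _)) (Finset.mem_univ i)
  calc ((coneLat671 B (h * scF671 a⁻¹)).ncard : ℝ)
      ≤ ((coneSet71 ((latG671 (h * scF671 (c i)⁻¹) : Submodule ℤ (Pair671 K)) :
          Set (Pair671 K)) (B / nrm71 (l : K))).ncard : ℝ) := Nat.cast_le.mpr h1
    _ ≤ Cb i * (B / nrm71 (l : K)) ^ 2 := h2
    _ = Cb i / finNormI671 (c i) ^ 2 * B ^ 2 * finNormI671 a ^ 2 := h4
    _ ≤ (∑ j, Cb j / finNormI671 (c j) ^ 2) * B ^ 2 * finNormI671 a ^ 2 := by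
        have hB : 0 ≤ B ^ 2 * finNormI671 a ^ 2 := by positivity
        rw [mul_assoc, mul_assoc]
        exact mul_le_mul_of_nonneg_right h5 hB

/-- **T7.14.3j `TailC`**, in the form of the registry row. -/
theorem tailC71 (hcls : IdeleClassC K) (hcov : CovolC K)
    (_ht1 : Fermat.Agent.LT.T1.T1Out K) : TailC K :=
  tailC_of71 hcls hcov

end Fermat.Agent.LT.T7.H71

end

end
-- ===== PACK-END LT/T7/H71/Tail.lean

-- ===== PACK-BEGIN LT/T7/H683/TorusIdele.lean
section




/-!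
# Row LT, tower T7, node T7.14 `RigidC`, level 5: LEAF `TorusAsmC`, part 1 (helper683)

OFF-MAIN.  Components of ideles, the exponent `ordI`, the torus elements `dgA y` and the level
groups.  Mathlib + the vocabulary of `RigidWhit.lean`; the density of the level ideal at the
places prime to the level is `integers_subset_idealClosure566` (helper566).  Complete proofs.
-/

set_option autoImplicit false

open AutomorphicForm IsDedekindDomain NumberField Filter Topology MeasureTheory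
open scoped ComplexConjugate

noncomputable section

namespace Fermat.Agent.LT.T7.H683

open Fermat.Agent.LT.H556 Fermat.Agent.LT.H556.A0 Fermat.Agent.LT.T7 Fermat.Agent.LT.T7.Rigid
open Fermat.Agent.LT.T1.H793

variable {K : Type} [Field K] [NumberField K]

/-! ## Components of ideles -/

/-- The component at the finite place `v`, as a homomorphism of unit groups. -/
def finU683 (v : HeightOneSpectrum (𝓞 K)) : (Adl K)ˣ →* (v.adicCompletion K)ˣ :=
  Units.map ((projFin793 v : Adl K →+* v.adicCompletion K) : Adl K →* v.adicCompletion K)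

/-- The component at the infinite place `w`, as a homomorphism of unit groups. -/
def infU683 (w : InfinitePlace K) : (Adl K)ˣ →* (w.Completion)ˣ :=
  Units.map ((projInf793 w : Adl K →+* w.Completion) : Adl K →* w.Completion)

theorem finU683_coe (v : HeightOneSpectrum (𝓞 K)) (y : (Adl K)ˣ) :
    ((finU683 v y : (v.adicCompletion K)ˣ) : v.adicCompletion K) = (y : Adl K).2 v := rfl

theorem infU683_coe (w : InfinitePlace K) (y : (Adl K)ˣ) :
    ((infU683 w y : (w.Completion)ˣ) : w.Completion) = (y : Adl K).1 w := rfl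

theorem fin_eq_one_iff683 (v : HeightOneSpectrum (𝓞 K)) (y : (Adl K)ˣ) :
    (y : Adl K).2 v = 1 ↔ finU683 v y = 1 := by
  rw [← finU683_coe, Units.val_eq_one]

theorem inf_eq_one_iff683 (w : InfinitePlace K) (y : (Adl K)ˣ) :
    (y : Adl K).1 w = 1 ↔ infU683 w y = 1 := by
  rw [← infU683_coe, Units.val_eq_one]

theorem fin_ne_zero683 (v : HeightOneSpectrum (𝓞 K)) (y : (Adl K)ˣ) : (y : Adl K).2 v ≠ 0 := by
  rw [← finU683_coe]
  exact Units.ne_zero _

theorem val_fin_ne_zero683 (v : HeightOneSpectrum (𝓞 K)) (y : (Adl K)ˣ) :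
    Valued.v ((y : Adl K).2 v) ≠ 0 :=
  (Valuation.ne_zero_iff _).2 (fin_ne_zero683 v y)

theorem fin_mul683 (v : HeightOneSpectrum (𝓞 K)) (y y' : (Adl K)ˣ) :
    ((y * y' : (Adl K)ˣ) : Adl K).2 v = (y : Adl K).2 v * (y' : Adl K).2 v := rfl

theorem fin_inv683 (v : HeightOneSpectrum (𝓞 K)) (y : (Adl K)ˣ) :
    ((y⁻¹ : (Adl K)ˣ) : Adl K).2 v = ((y : Adl K).2 v)⁻¹ := by
  rw [← finU683_coe, ← finU683_coe, map_inv, Units.val_inv_eq_inv_val]

theorem inf_mul683 (w : InfinitePlace K) (y y' : (Adl K)ˣ) :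
    ((y * y' : (Adl K)ˣ) : Adl K).1 w = (y : Adl K).1 w * (y' : Adl K).1 w := rfl

theorem inf_inv683 (w : InfinitePlace K) (y : (Adl K)ˣ) :
    ((y⁻¹ : (Adl K)ˣ) : Adl K).1 w = ((y : Adl K).1 w)⁻¹ := by
  rw [← infU683_coe, ← infU683_coe, map_inv, Units.val_inv_eq_inv_val]

/-- An idele is determined by its components. -/
theorem idele_ext683 {y y' : (Adl K)ˣ}
    (h1 : ∀ w : InfinitePlace K, (y : Adl K).1 w = (y' : Adl K).1 w)
    (h2 : ∀ v : HeightOneSpectrum (𝓞 K), (y : Adl K).2 v = (y' : Adl K).2 v) : y = y' :=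
  Units.ext (adl_ext793 h1 h2)

/-- The idele with the finite components of `y` and the infinite components `1`. -/
def finPart683 (y : (Adl K)ˣ) : (Adl K)ˣ :=
  ⟨((1 : InfiniteAdeleRing K), (y : Adl K).2), ((1 : InfiniteAdeleRing K), ((y⁻¹ : (Adl K)ˣ) : Adl K).2),
    Prod.ext (one_mul 1)
      (show (y : Adl K).2 * ((y⁻¹ : (Adl K)ˣ) : Adl K).2 = 1 from congrArg Prod.snd y.mul_inv),
    Prod.ext (one_mul 1)
      (show ((y⁻¹ : (Adl K)ˣ) : Adl K).2 * (y : Adl K).2 = 1 from congrArg Prod.snd y.inv_mul)⟩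

theorem finPart683_fin (y : (Adl K)ˣ) (v : HeightOneSpectrum (𝓞 K)) :
    ((finPart683 y : (Adl K)ˣ) : Adl K).2 v = (y : Adl K).2 v := rfl

theorem finPart683_inf (y : (Adl K)ˣ) (w : InfinitePlace K) :
    ((finPart683 y : (Adl K)ˣ) : Adl K).1 w = 1 := rfl

/-! ## The exponent -/

theorem ordI_mul683 (v : HeightOneSpectrum (𝓞 K)) (y y' : (Adl K)ˣ) :
    ordI v (y * y') = ordI v y + ordI v y' := by
  unfold ordI
  rw [fin_mul683, map_mul, WithZero.log_mul (val_fin_ne_zero683 v y) (val_fin_ne_zero683 v y')]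
  ring

theorem ordI_one683 (v : HeightOneSpectrum (𝓞 K)) : ordI v (1 : (Adl K)ˣ) = 0 := by
  unfold ordI
  have h : ((1 : (Adl K)ˣ) : Adl K).2 v = 1 := rfl
  rw [h, map_one, WithZero.log_one, neg_zero]

theorem ordI_inv683 (v : HeightOneSpectrum (𝓞 K)) (y : (Adl K)ˣ) :
    ordI v y⁻¹ = -ordI v y := by
  have h := ordI_mul683 v y y⁻¹
  rw [mul_inv_cancel, ordI_one683] at h
  linarith

theorem ordI_pow683 (v : HeightOneSpectrum (𝓞 K)) (y : (Adl K)ˣ) (n : ℕ) :
    ordI v (y ^ n) = n * ordI v y := by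
  induction n with
  | zero => simp [ordI_one683]
  | succ n ih => rw [pow_succ, ordI_mul683, ih]; push_cast; ring

theorem ordI_prod683 {ι : Type} (T : Finset ι) (g : ι → (Adl K)ˣ)
    (v : HeightOneSpectrum (𝓞 K)) :
    ordI v (∏ i ∈ T, g i) = ∑ i ∈ T, ordI v (g i) := by
  classical
  induction T using Finset.induction_on with
  | empty => simp [ordI_one683]
  | insert i T hi ih => rw [Finset.prod_insert hi, Finset.sum_insert hi, ordI_mul683, ih]

theorem ordI_eq_zero_of_val683 {v : HeightOneSpectrum (𝓞 K)} {y : (Adl K)ˣ}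
    (h : Valued.v ((y : Adl K).2 v) = 1) : ordI v y = 0 := by
  unfold ordI
  rw [h, WithZero.log_one, neg_zero]

theorem val_eq_one_of_ordI683 {v : HeightOneSpectrum (𝓞 K)} {y : (Adl K)ˣ}
    (h : ordI v y = 0) : Valued.v ((y : Adl K).2 v) = 1 := by
  unfold ordI at h
  have h' : WithZero.log (Valued.v ((y : Adl K).2 v)) = 0 := by linarith
  have h2 := WithZero.exp_log (val_fin_ne_zero683 v y)
  rw [h'] at h2
  rw [← h2]
  rfl

theorem ordI_congr683 {v : HeightOneSpectrum (𝓞 K)} {y y' : (Adl K)ˣ}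
    (h : (y : Adl K).2 v = (y' : Adl K).2 v) : ordI v y = ordI v y' := by
  unfold ordI
  rw [h]

theorem ordI_unif683 {v : HeightOneSpectrum (𝓞 K)} {t : (Adl K)ˣ} (ht : IsUnifIdele v t) :
    ordI v t = 1 := by
  unfold ordI
  rw [ht.2.2, WithZero.log_exp]
  norm_num

theorem ordI_unif_ne683 {v v' : HeightOneSpectrum (𝓞 K)} {t : (Adl K)ˣ} (ht : IsUnifIdele v t)
    (hv : v' ≠ v) : ordI v' t = 0 :=
  ordI_eq_zero_of_val683 (by rw [ht.2.1 v' hv, map_one])

/-- The exponents of an idele vanish at almost all places. -/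
theorem ordI_finite683 (y : (Adl K)ˣ) :
    {v : HeightOneSpectrum (𝓞 K) | ordI v y ≠ 0}.Finite := by
  have h1 : ∀ᶠ v in Filter.cofinite, (y : Adl K).2 v ∈ v.adicCompletionIntegers K :=
    (y : Adl K).2.2
  have h2 : ∀ᶠ v in Filter.cofinite,
      ((y⁻¹ : (Adl K)ˣ) : Adl K).2 v ∈ v.adicCompletionIntegers K :=
    ((y⁻¹ : (Adl K)ˣ) : Adl K).2.2
  have h3 : ∀ᶠ v in Filter.cofinite, ordI v y = 0 := by
    filter_upwards [h1, h2] with v hv1 hv2
    rw [HeightOneSpectrum.mem_adicCompletionIntegers] at hv1 hv2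
    apply ordI_eq_zero_of_val683
    rw [fin_inv683, map_inv₀] at hv2
    refine le_antisymm hv1 ?_
    have hne := val_fin_ne_zero683 v y
    exact (inv_le_one₀ (zero_lt_iff.2 hne)).1 hv2
  exact Filter.eventually_cofinite.1 h3

/-! ## Uniformiser ideles -/

/-- Uniformiser ideles exist (from `MixC` and a principal idele). -/
theorem exists_unif683 (hM : MixC K) (v : HeightOneSpectrum (𝓞 K)) :
    ∃ t : (Adl K)ˣ, IsUnifIdele v t := by
  classical
  obtain ⟨π₀, hπ₀⟩ := HeightOneSpectrum.valuation_exists_uniformizer K v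
  have hne : π₀ ≠ 0 := by
    intro h0
    rw [h0, map_zero] at hπ₀
    exact WithZero.exp_ne_zero.symm hπ₀ |>.elim
  let p : (Adl K)ˣ := Units.map ((algebraMap K (Adl K) : K →+* Adl K) : K →* Adl K)
    (Units.mk0 π₀ hne)
  obtain ⟨t, ht1, ht2⟩ := hM {v} p 1
  refine ⟨t, fun w => ht2.2 w, fun v' hv' => ?_, ?_⟩
  · exact ht2.1 v' (by simpa using hv')
  · rw [ht1 v (by simp)]
    have hp : (p : Adl K).2 v = algebraMap K (v.adicCompletion K) π₀ := rfl
    rw [hp, Fermat.Agent.LT.T2.H566.valued_algebraMap566, hπ₀]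

end Fermat.Agent.LT.T7.H683

end

end
-- ===== PACK-END LT/T7/H683/TorusIdele.lean

-- ===== PACK-BEGIN LT/T7/H724/ArchU.lean
section






/-!
# Row LT, tower T7, leaf T7.14.6b.3 `ARCH-U` (registry row 1719): CLOSED (helper724)

OFF-MAIN.  `archUniqC724 K : Rigid.ArchUniqC K` against `LT/T7/H62/RigidWhit.lean` of helper62
(sha256 ba7c5f11b9432cbd, helper62@401662996), byte-identical copy.

Proof.  At a complex place `w`: local embedding `(j, ι)` (`locEmbC_h546`, helper546), the local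
character `ψ ∘ ι` is `x ↦ exp(i Re(c̄ x))` (`charClassC98`, helper98) with `c ≠ 0` (`ψ` is
non-degenerate); for `g` trivial at `w` the function `h ↦ f(j(h) g)` is a local Whittaker
function of parameter `0`, hence `f(a(t) g) = |t_w| K₀(|c| |t_w|) / K₀(|c|) · f(g)` for an idele
`t` at `w` (`locWhit_explicit724`).  Then induction on the set of infinite places where `y` and
`y'` differ.

* `atInf724 w y`      : the idele with the component of `y` at `w` and `1` elsewhere
* `idele_ext724`      : an idele is determined by its components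
* `isLocWhit_arch724` : `h ↦ f(j(h) g)` is a local Whittaker function
* `arch_step724`      : the explicit factor at one place
* `archUniqC724`      : `Rigid.ArchUniqC K`

Standard axioms only.
-/

set_option autoImplicit false

open IsDedekindDomain NumberField MeasureTheory AutomorphicForm
open Fermat.Agent.LT.H556.A0

noncomputable section

namespace Fermat.Agent.LT.T7.H724

open Fermat.Agent.LT Fermat.Agent.LT.T2 Fermat.Agent.LT.T2.H941 Fermat.Agent.LT.T2.H973
open Fermat.Agent.LT.T1.H793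

variable {K : Type} [Field K] [NumberField K]

open scoped Classical

/-- The adele with the component `a` at the infinite place `w` and `1` elsewhere. -/
def oneAt724 (w : InfinitePlace K) (a : w.Completion) : Adl K :=
  ((Pi.mulSingle w a : InfiniteAdeleRing K), (1 : FiniteAdeleRing (𝓞 K) K))

theorem oneAt_same724 (w : InfinitePlace K) (a : w.Completion) : (oneAt724 w a).1 w = a := by
  show (Pi.mulSingle w a : InfiniteAdeleRing K) w = _
  exact Pi.mulSingle_eq_same _ _

theorem oneAt_ne724 (w : InfinitePlace K) (a : w.Completion) {w' : InfinitePlace K}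
    (hne : w' ≠ w) : (oneAt724 w a).1 w' = 1 := by
  show (Pi.mulSingle w a : InfiniteAdeleRing K) w' = _
  exact Pi.mulSingle_eq_of_ne hne _

theorem oneAt_fin724 (w : InfinitePlace K) (a : w.Completion) (v : HeightOneSpectrum (𝓞 K)) :
    (oneAt724 w a).2 v = 1 := rfl

theorem oneAt_mul724 (w : InfinitePlace K) {a b : w.Completion} (hab : a * b = 1) :
    oneAt724 w a * oneAt724 w b = 1 := by
  refine adl_ext793 (fun w' => ?_) (fun v => ?_)
  · rw [map_mul, map_one]
    show (oneAt724 w a).1 w' * (oneAt724 w b).1 w' = 1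
    by_cases hne : w' = w
    · subst hne
      rw [oneAt_same724, oneAt_same724, hab]
    · rw [oneAt_ne724 w a hne, oneAt_ne724 w b hne, one_mul]
  · rw [map_mul, map_one]
    show (oneAt724 w a).2 v * (oneAt724 w b).2 v = 1
    rw [oneAt_fin724, oneAt_fin724, one_mul]

theorem idele_comp_mul_inv724 (y : (Adl K)ˣ) (w : InfinitePlace K) :
    (y : Adl K).1 w * ((y⁻¹ : (Adl K)ˣ) : Adl K).1 w = 1 := by
  have h1 : ((y : Adl K) * ((y⁻¹ : (Adl K)ˣ) : Adl K)).1 w = 1 := by
    rw [Units.mul_inv]; rfl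
  exact h1

theorem idele_comp_inv_mul724 (y : (Adl K)ˣ) (w : InfinitePlace K) :
    ((y⁻¹ : (Adl K)ˣ) : Adl K).1 w * (y : Adl K).1 w = 1 := by
  rw [mul_comm]
  exact idele_comp_mul_inv724 y w

/-- The idele with the component of `y` at the infinite place `w` and `1` elsewhere. -/
def atInf724 (w : InfinitePlace K) (y : (Adl K)ˣ) : (Adl K)ˣ :=
  ⟨oneAt724 w ((y : Adl K).1 w), oneAt724 w (((y⁻¹ : (Adl K)ˣ) : Adl K).1 w),
    oneAt_mul724 w (idele_comp_mul_inv724 y w), oneAt_mul724 w (idele_comp_inv_mul724 y w)⟩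

theorem atInf_val724 (w : InfinitePlace K) (y : (Adl K)ˣ) :
    ((atInf724 w y : (Adl K)ˣ) : Adl K) = oneAt724 w ((y : Adl K).1 w) := rfl

theorem atInf_inv724 (w : InfinitePlace K) (y : (Adl K)ˣ) :
    (((atInf724 w y)⁻¹ : (Adl K)ˣ) : Adl K)
      = oneAt724 w (((y⁻¹ : (Adl K)ˣ) : Adl K).1 w) := rfl

theorem isIdeleAtInf_atInf724 (w : InfinitePlace K) (y : (Adl K)ˣ) :
    IsIdeleAtInf w (atInf724 w y) := by
  refine ⟨fun w' hne => ?_, fun v => ?_⟩
  · rw [atInf_val724]
    exact oneAt_ne724 w _ hne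
  · rw [atInf_val724]
    rfl

/-- An idele is determined by its components. -/
theorem idele_ext724 {y y' : (Adl K)ˣ}
    (h1 : ∀ w : InfinitePlace K, (y : Adl K).1 w = (y' : Adl K).1 w)
    (h2 : ∀ v : HeightOneSpectrum (𝓞 K), (y : Adl K).2 v = (y' : Adl K).2 v) : y = y' :=
  Units.ext (adl_ext793 h1 h2)

theorem dgA_eq_tor724 (y : (Adl K)ˣ) : Rigid.dgA y = tor y := rfl

theorem tor_mul724 (y y' : (Adl K)ˣ) : tor (y * y') = tor y * tor y' := by
  apply Units.ext
  have ht : ∀ z : (Adl K)ˣ,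
      ((tor z : G K) : Matrix (Fin 2) (Fin 2) (Adl K)) = !![(z : Adl K), 0; 0, 1] := fun _ => rfl
  rw [Units.val_mul, ht, ht, ht, Matrix.mul_fin_two]
  simp

/-- `diag(y, 1)` is trivial at `w` if `y_w = 1`. -/
theorem trivAtInf_tor724 {w : InfinitePlace K} {y : (Adl K)ˣ} (hy : (y : Adl K).1 w = 1) :
    TrivAtInf w (tor y) := by
  have ht : ((tor y : G K) : Matrix (Fin 2) (Fin 2) (Adl K)) = !![(y : Adl K), 0; 0, 1] := rfl
  intro i j
  rw [ht]
  fin_cases i <;> fin_cases j
  · simp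
    exact hy
  · simp
    rfl
  · simp
    rfl
  · simp
    rfl

/-- `h ↦ f(j(h) g)` is a local Whittaker function of parameter `0` for `ψ ∘ ι`
(`g` trivial at `w`). -/
theorem isLocWhit_arch724 {ψ : AddChar (Adl K) Circle} {f : G K → ℂ}
    (hf : Rigid.IsArchWhit ψ f) {w : InfinitePlace K} (hw : w.IsComplex)
    {j : GL (Fin 2) ℂ →* G K} {ι : ℂ →+ Adl K} (hj : IsLocEmb w j ι)
    {g : G K} (hg : TrivAtInf w g) :
    IsLocWhit (ψ.compAddMonoidHom ι) (fun h : GL (Fin 2) ℂ => f (j h * g)) := by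
  have hnr : ¬ w.IsReal := InfinitePlace.not_isReal_iff_isComplex.mpr hw
  refine ⟨?_, ?_, ?_, ?_, ?_, ?_⟩
  · exact hf.cont.comp (hj.cont.mul continuous_const)
  · obtain ⟨C, hC⟩ := hf.bdd
    exact ⟨C, fun h => hC _⟩
  · intro x h
    show f (j (nC x * h) * g) = ((ψ (ι x) : Circle) : ℂ) * f (j h * g)
    rw [map_mul, hj.unip, mul_assoc, hf.equiv]
  · intro u h hu
    show f (j (h * u) * g) = f (j h * g)
    have hk : IsArchCompact w (j u) :=
      ⟨hj.loc u, by rw [hj.comp]; exact hu, fun hr => absurd hr hnr⟩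
    rw [map_mul, mul_assoc, hj.comm u g hg, ← mul_assoc]
    exact hf.arch_compact w (j u) hk _
  · intro z h r hr hz
    show f (j (h * z) * g) = f (j h * g)
    have hk : IsArchPosScalar w (j z) :=
      ⟨hj.loc z, r, hr, by rw [hj.comp]; exact hz⟩
    rw [map_mul, mul_assoc, hj.comm z g hg, ← mul_assoc]
    exact hf.arch_scalar w (j z) hk _
  · intro d hd Y hY h
    have h3 := hf.mean_complex w hw d hd (fun α β => j (Y α β))
      (fun α β => ⟨hj.loc _, by rw [hj.comp]; exact hY α β⟩) (j h * g)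
    have e : ∀ α β : ℝ, f (j (h * Y α β) * g) = f (j h * g * j (Y α β)) := by
      intro α β
      rw [map_mul, mul_assoc, hj.comm (Y α β) g hg, ← mul_assoc]
    simp only [e]
    exact h3

/-- The components of `ι x`: `x` at `w`, `0` elsewhere. -/
theorem iota_comp_arch724 {w : InfinitePlace K} {j : GL (Fin 2) ℂ →* G K} {ι : ℂ →+ Adl K}
    (hj : IsLocEmb w j ι) (x : ℂ) :
    InfinitePlace.Completion.extensionEmbedding w ((ι x).1 w) = x ∧
      (∀ w' : InfinitePlace K, w' ≠ w → (ι x).1 w' = 0) ∧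
      ∀ v : HeightOneSpectrum (𝓞 K), (ι x).2 v = 0 := by
  have hu : ((j (nC x) : G K) : Matrix (Fin 2) (Fin 2) (Adl K)) 0 1 = ι x := by
    rw [hj.unip x]
    rfl
  refine ⟨?_, ?_, ?_⟩
  · have h1 := congrFun (congrFun (hj.comp (nC x)) 0) 1
    unfold infComp at h1
    rw [hu] at h1
    rw [h1]
    rfl
  · intro w' hne
    have h1 := (hj.loc (nC x)).1 w' hne 0 1
    rw [hu] at h1
    rw [h1]
    rfl
  · intro v
    have h1 := congrFun (congrFun ((hj.loc (nC x)).2 v) 0) 1
    unfold finComp at h1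
    rw [hu] at h1
    rw [h1]
    rfl

/-- For a non-degenerate character `ψ` the local character `ψ ∘ ι` at `w` is non-trivial. -/
theorem locChar_nontriv_arch724 {ψ : AddChar (Adl K) Circle} (hnd : T3.IsNonDeg K ψ)
    {w : InfinitePlace K} {j : GL (Fin 2) ℂ →* G K} {ι : ℂ →+ Adl K}
    (hj : IsLocEmb w j ι) : ∃ x : ℂ, ψ (ι x) ≠ 1 := by
  by_contra hcon
  have hall : ∀ x : ℂ, ψ (ι x) = 1 := by
    intro x
    by_contra hx
    exact hcon ⟨x, hx⟩
  obtain ⟨h1w, h1ne, h1f⟩ := iota_comp_arch724 hj 1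
  have h1w' : (ι 1).1 w = 1 := by
    apply (InfinitePlace.Completion.extensionEmbedding w).injective
    rw [h1w, map_one]
  have hz : ι 1 = 0 := by
    apply hnd
    intro y
    have e : ι 1 * y = ι (InfinitePlace.Completion.extensionEmbedding w (y.1 w)) := by
      obtain ⟨hw2, hne2, hf2⟩ :=
        iota_comp_arch724 hj (InfinitePlace.Completion.extensionEmbedding w (y.1 w))
      refine adl_ext793 (fun w' => ?_) (fun v => ?_)
      · rw [map_mul]
        show (ι 1).1 w' * y.1 w' = (ι _).1 w'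
        by_cases hww : w' = w
        · subst hww
          rw [h1w', one_mul]
          exact ((InfinitePlace.Completion.extensionEmbedding w').injective hw2).symm
        · rw [h1ne w' hww, hne2 w' hww, zero_mul]
      · rw [map_mul]
        show (ι 1).2 v * y.2 v = (ι _).2 v
        rw [h1f v, hf2 v, zero_mul]
    rw [e]
    exact hall _
  rw [hz] at h1w'
  exact zero_ne_one h1w'

/-- `chiOf 0` is trivial. -/
theorem chiOf_zero_arch724 (x : ℂ) : chiOf 0 x = 1 := by
  unfold chiOf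
  rw [map_zero, zero_mul, Complex.zero_re, Complex.ofReal_zero, mul_zero, Complex.exp_zero]

/-- **The explicit factor at one complex place.** -/
theorem arch_step724 {ψ : AddChar (Adl K) Circle} (hψ : T3.IsStdChar K ψ)
    (hnd : T3.IsNonDeg K ψ) {w : InfinitePlace K} (hw : w.IsComplex) :
    ∃ c : ℝ, 0 < c ∧
      ∀ f : G K → ℂ, Rigid.IsArchWhit ψ f →
        ∀ t : (Adl K)ˣ, IsIdeleAtInf w t → ∀ g : G K, TrivAtInf w g →
          f (tor t * g)
            = ((‖(t : Adl K).1 w‖ * besK724 (c * ‖(t : Adl K).1 w‖) / besK724 c : ℝ) : ℂ)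
                * f g := by
  obtain ⟨j, ι, hj⟩ := H546.locEmbC_h546 K w hw
  set χ : AddChar ℂ Circle := ψ.compAddMonoidHom ι with hχdef
  have hχv : ∀ x : ℂ, χ x = ψ (ι x) := fun x => rfl
  have hχ : Continuous χ := by
    have : (χ : ℂ → Circle) = fun x => ψ (ι x) := funext hχv
    rw [this]
    exact hψ.cont.comp hj.contAdd
  obtain ⟨c, hc⟩ := H98.charClassC98 χ hχ
  have hc0 : c ≠ 0 := by
    intro h0
    obtain ⟨x, hx⟩ := locChar_nontriv_arch724 hnd hj
    apply hx
    have h1 := hc x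
    rw [h0, chiOf_zero_arch724, hχv] at h1
    exact Circle.ext (by rw [h1]; rfl)
  refine ⟨‖c‖, norm_pos_iff.mpr hc0, ?_⟩
  intro f hf t ht g hg
  have hLW := isLocWhit_arch724 hf hw hj hg
  have yne : InfinitePlace.Completion.extensionEmbedding w ((t : Adl K).1 w) ≠ 0 := by
    rw [Ne, map_eq_zero]
    intro h0
    have h1 := idele_comp_mul_inv724 t w
    rw [h0, zero_mul] at h1
    exact zero_ne_one h1
  have h4 := locWhit_explicit724 c hc0 χ hc _ hLW (Units.mk0 _ yne)
  have h5 : tor t = j (tC (Units.mk0 _ yne)) := hj.tor t ht (Units.mk0 _ yne) rfl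
  have hnorm : ‖((Units.mk0 _ yne : ℂˣ) : ℂ)‖ = ‖(t : Adl K).1 w‖ := by
    rw [Units.val_mk0]
    exact (InfinitePlace.Completion.isometry_extensionEmbedding w).norm_map_of_map_zero
      (map_zero _) _
  rw [hnorm] at h4
  rw [h5]
  have h6 : f (j 1 * g) = f g := by rw [map_one, one_mul]
  rw [← h6]
  exact h4

/-- **Registry row 1719: `Rigid.ArchUniqC K`, CLOSED.** -/
theorem archUniqC724 (K : Type) [Field K] [NumberField K] : Rigid.ArchUniqC K := by
  intro hT ψ hψ hnd
  have hex : ∀ w : InfinitePlace K, ∃ c : ℝ, 0 < c ∧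
      ∀ f : G K → ℂ, Rigid.IsArchWhit ψ f →
        ∀ t : (Adl K)ˣ, IsIdeleAtInf w t → ∀ g : G K, TrivAtInf w g →
          f (tor t * g)
            = ((‖(t : Adl K).1 w‖ * besK724 (c * ‖(t : Adl K).1 w‖) / besK724 c : ℝ) : ℂ)
                * f g := fun w => arch_step724 hψ hnd (hT w)
  choose c hc hstep using hex
  refine ⟨c, hc, ?_⟩
  intro f hf
  -- the local factor
  set κ : InfinitePlace K → (Adl K)ˣ → ℝ :=
    fun w y => ‖(y : Adl K).1 w‖ * besK724 (c w * ‖(y : Adl K).1 w‖) with hκ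
  have hprof : ∀ y : (Adl K)ˣ, Rigid.archProfile c y = ∏ w : InfinitePlace K, κ w y :=
    fun y => rfl
  -- induction on the set of places where `y` and `y'` may differ
  have hB : ∀ s : Finset (InfinitePlace K), ∀ y y' : (Adl K)ˣ,
      (∀ v : HeightOneSpectrum (𝓞 K), (y : Adl K).2 v = (y' : Adl K).2 v) →
      (∀ w : InfinitePlace K, w ∉ s → (y : Adl K).1 w = (y' : Adl K).1 w) →
      f (tor y) * ((∏ w ∈ s, κ w y' : ℝ) : ℂ) = f (tor y') * ((∏ w ∈ s, κ w y : ℝ) : ℂ) := by
    intro s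
    induction s using Finset.induction_on with
    | empty =>
      intro y y' hfin hinf
      have hyy : y = y' := idele_ext724 (fun w => hinf w (Finset.notMem_empty w)) hfin
      rw [hyy]
    | insert w₀ s hw₀ ih =>
      intro y y' hfin hinf
      set t := atInf724 w₀ y with ht
      set t' := atInf724 w₀ y' with ht'
      set y₀ : (Adl K)ˣ := t⁻¹ * y with hy₀
      set y'' : (Adl K)ˣ := t' * y₀ with hy''
      have hy₀w : (y₀ : Adl K).1 w₀ = 1 := by
        show (((t⁻¹ : (Adl K)ˣ) : Adl K) * (y : Adl K)).1 w₀ = 1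
        rw [ht, atInf_inv724]
        show (oneAt724 w₀ _).1 w₀ * (y : Adl K).1 w₀ = 1
        rw [oneAt_same724]
        exact idele_comp_inv_mul724 y w₀
      have hy₀ne : ∀ w : InfinitePlace K, w ≠ w₀ → (y₀ : Adl K).1 w = (y : Adl K).1 w := by
        intro w hne
        show (((t⁻¹ : (Adl K)ˣ) : Adl K) * (y : Adl K)).1 w = _
        rw [ht, atInf_inv724]
        show (oneAt724 w₀ _).1 w * (y : Adl K).1 w = _
        rw [oneAt_ne724 w₀ _ hne, one_mul]
      have hy₀fin : ∀ v : HeightOneSpectrum (𝓞 K), (y₀ : Adl K).2 v = (y : Adl K).2 v := by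
        intro v
        show (((t⁻¹ : (Adl K)ˣ) : Adl K) * (y : Adl K)).2 v = _
        rw [ht, atInf_inv724]
        show (oneAt724 w₀ _).2 v * (y : Adl K).2 v = _
        rw [oneAt_fin724, one_mul]
      have hg₀ : TrivAtInf w₀ (tor y₀) := trivAtInf_tor724 hy₀w
      have hyt : y = t * y₀ := by rw [hy₀, mul_inv_cancel_left]
      have e1 := hstep w₀ f hf t (isIdeleAtInf_atInf724 w₀ y) (tor y₀) hg₀
      have e2 := hstep w₀ f hf t' (isIdeleAtInf_atInf724 w₀ y') (tor y₀) hg₀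
      rw [← tor_mul724, ← hyt] at e1
      rw [← tor_mul724, ← hy''] at e2
      have htw : (t : Adl K).1 w₀ = (y : Adl K).1 w₀ := by
        rw [ht, atInf_val724, oneAt_same724]
      have htw' : (t' : Adl K).1 w₀ = (y' : Adl K).1 w₀ := by
        rw [ht', atInf_val724, oneAt_same724]
      rw [htw] at e1
      rw [htw'] at e2
      -- the components of `y''`
      have hy''w : (y'' : Adl K).1 w₀ = (y' : Adl K).1 w₀ := by
        show ((t' : Adl K) * (y₀ : Adl K)).1 w₀ = _
        show (t' : Adl K).1 w₀ * (y₀ : Adl K).1 w₀ = _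
        rw [hy₀w, mul_one, htw']
      have hy''ne : ∀ w : InfinitePlace K, w ≠ w₀ → (y'' : Adl K).1 w = (y : Adl K).1 w := by
        intro w hne
        show (t' : Adl K).1 w * (y₀ : Adl K).1 w = _
        rw [hy₀ne w hne, ht', atInf_val724, oneAt_ne724 w₀ _ hne, one_mul]
      have hy''fin : ∀ v : HeightOneSpectrum (𝓞 K), (y'' : Adl K).2 v = (y' : Adl K).2 v := by
        intro v
        show (t' : Adl K).2 v * (y₀ : Adl K).2 v = _
        rw [hy₀fin v, ht', atInf_val724, oneAt_fin724, one_mul, hfin v]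
      have e3 := ih y'' y' hy''fin (fun w hws => by
        by_cases hne : w = w₀
        · rw [hne]; exact hy''w
        · rw [hy''ne w hne]
          exact hinf w (fun hmem => by
            rcases Finset.mem_insert.mp hmem with h | h
            · exact hne h
            · exact hws h))
      have e4 : ∏ w ∈ s, κ w y'' = ∏ w ∈ s, κ w y := by
        refine Finset.prod_congr rfl fun w hws => ?_
        have hne : w ≠ w₀ := fun h => hw₀ (h ▸ hws)
        show ‖(y'' : Adl K).1 w‖ * besK724 (c w * ‖(y'' : Adl K).1 w‖)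
          = ‖(y : Adl K).1 w‖ * besK724 (c w * ‖(y : Adl K).1 w‖)
        rw [hy''ne w hne]
      rw [e4] at e3
      rw [Finset.prod_insert hw₀, Finset.prod_insert hw₀]
      have hk : besK724 (c w₀) ≠ 0 := (besK_pos724 (hc w₀)).ne'
      have hkc : ((besK724 (c w₀) : ℝ) : ℂ) ≠ 0 := by
        rw [Ne, Complex.ofReal_eq_zero]; exact hk
      have a1 : f (tor y) * ((besK724 (c w₀) : ℝ) : ℂ) = ((κ w₀ y : ℝ) : ℂ) * f (tor y₀) := by
        rw [e1]
        show _ = ((‖(y : Adl K).1 w₀‖ * besK724 (c w₀ * ‖(y : Adl K).1 w₀‖) : ℝ) : ℂ)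
          * f (tor y₀)
        push_cast
        field_simp
      have a2 : f (tor y'') * ((besK724 (c w₀) : ℝ) : ℂ) = ((κ w₀ y' : ℝ) : ℂ) * f (tor y₀) := by
        rw [e2]
        show _ = ((‖(y' : Adl K).1 w₀‖ * besK724 (c w₀ * ‖(y' : Adl K).1 w₀‖) : ℝ) : ℂ)
          * f (tor y₀)
        push_cast
        field_simp
      apply mul_right_cancel₀ hkc
      calc f (tor y) * ((κ w₀ y' * ∏ w ∈ s, κ w y' : ℝ) : ℂ) * ((besK724 (c w₀) : ℝ) : ℂ)
          = (f (tor y) * ((besK724 (c w₀) : ℝ) : ℂ)) * ((κ w₀ y' : ℝ) : ℂ)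
              * ((∏ w ∈ s, κ w y' : ℝ) : ℂ) := by push_cast; ring
        _ = ((κ w₀ y : ℝ) : ℂ) * (((κ w₀ y' : ℝ) : ℂ) * f (tor y₀))
              * ((∏ w ∈ s, κ w y' : ℝ) : ℂ) := by rw [a1]; ring
        _ = ((κ w₀ y : ℝ) : ℂ) * ((f (tor y'') * ((∏ w ∈ s, κ w y' : ℝ) : ℂ))
              * ((besK724 (c w₀) : ℝ) : ℂ)) := by rw [← a2]; ring
        _ = ((κ w₀ y : ℝ) : ℂ) * ((f (tor y') * ((∏ w ∈ s, κ w y : ℝ) : ℂ))
              * ((besK724 (c w₀) : ℝ) : ℂ)) := by rw [e3]
        _ = f (tor y') * ((κ w₀ y * ∏ w ∈ s, κ w y : ℝ) : ℂ) * ((besK724 (c w₀) : ℝ) : ℂ) := by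
            push_cast; ring
  intro y y' hfin
  have h := hB Finset.univ y y' hfin (fun w hw => absurd (Finset.mem_univ w) hw)
  rw [dgA_eq_tor724, dgA_eq_tor724, hprof, hprof]
  exact h

end Fermat.Agent.LT.T7.H724

end

end
-- ===== PACK-END LT/T7/H724/ArchU.lean

-- ===== PACK-BEGIN LT/T7/H91/ParsevalC57.lean
section




/-!
# Row LT, tower T7, leaf T7.14.6a-F.1 `ParsevalC57` (registry 1915): PROVED (helper91)

OFF-MAIN.  Spec: `Fermat/Agent/LT/T7/H57/FoldSpec.lean` (helper57@bf22be140, sha256 cb77c17e),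
byte-identical copy; nothing of it is re-defined.

* `parsevalC57_of91 : T3.InLocCompC K → T3.CompleteNDC K → T3.HaarScaleC K → H57.ParsevalC57 K`
  (adapter to `parsevalWhitC91`, registry 1801).
* `parsevalC57_of_t1_91 : T1.T1Out K → T3.CompleteNDC K → H57.ParsevalC57 K`
  (`InLocCompC` = `T1.LocCompC`, `HaarScaleC` by `T3.H354.haarScaleC_of`).
-/

set_option autoImplicit false
set_option linter.style.haveILetI false

open IsDedekindDomain NumberField MeasureTheory ComplexConjugate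
open Fermat.Agent.LT.H556.A0

noncomputable section

namespace Fermat.Agent.LT.T7.H91

open Fermat.Agent.LT.T3 Fermat.Agent.LT.T7.Rigid

variable (K : Type) [Field K] [NumberField K]

/-- **T7.14.6a-F.1** (registry 1915): `ParsevalC57` from the closed Props of tower T3. -/
theorem parsevalC57_of91 (hLC : InLocCompC K) (hC : CompleteNDC K) (hS : HaarScaleC K) :
    H57.ParsevalC57 K := by
  letI : MeasurableSpace (Adl K) := borel (Adl K)
  intro ψ hψ hnd ν D hν _ hD hfin φ₁ φ₁' hc₁ hb₁ hl₁ hcusp₁ hc₂ hb₂ hl₂ _ g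
  obtain ⟨hsum, heq⟩ := parsevalWhitC91 K hLC hC hS ψ hψ hnd ν D hν hD hfin φ₁ φ₁' hc₁ hc₂
    hb₁ hb₂ hl₁ hl₂ hcusp₁ g
  exact ⟨Summable.of_norm hsum, heq⟩

/-- `ParsevalC57` from the output of tower T1 and the completeness of the characters. -/
theorem parsevalC57_of_t1_91 (h : Fermat.Agent.LT.T1.T1Out K) (hC : CompleteNDC K) :
    H57.ParsevalC57 K :=
  parsevalC57_of91 K h.locComp hC (H354.haarScaleC_of K h.locComp h.addFundDom)

end Fermat.Agent.LT.T7.H91

end
end
-- ===== PACK-END LT/T7/H91/ParsevalC57.lean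

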