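import Mathlib
import Fermat.Agent.Pack.LT2.E16L3
import Fermat.Agent.Pack.LT2.E16L2
import Fermat.Agent.Pack.LT2.E16L1
import Fermat.Agent.Pack.LT2.E0L1
import Fermat.Agent.Pack.LT2.E2L2
import Fermat.Agent.Pack.LT2.E2L3
import Fermat.Agent.Pack.LT2.E15L2
import Fermat.Agent.Pack.LT2.E6L1
import Fermat.Agent.Pack.LT2.E3L3
import Fermat.Agent.Pack.LT2.E15L1
import Fermat.Agent.Pack.LT2.E9L2
import Fermat.Agent.Pack.LT2.E4L1
import Fermat.Agent.Pack.LT2.E2L0
import Fermat.Agent.Pack.LT2.E15L3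
import Fermat.Agent.Pack.LT2.E10L0

set_option linter.all false

-- ===== PACK-BEGIN LT/A2/H125/CxUnip.lean
section


/-!
# Row LT, tower A2, leaf A2.03.1.1.10.01 `CX798.UnipC` (helper125)

OFF-MAIN.  `unipC125 : CX798.UnipC`, VERBATIM on `LT/A2/H798/CpxSpec.lean` (helper798,
sha256 8ca2dc507058b836).  `n(x) g` has the bottom row of `g`, so `rowN` is unchanged and
`rowB ↦ rowB + x · rowN`; `Q(ξ) = z₁ z₂`.  The admissibility hypothesis is not used (for
`rowN g = 0` both sides vanish).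
-/

set_option autoImplicit false

open scoped ComplexConjugate

noncomputable section

namespace Fermat.Agent.LT.A2.H125

open Fermat.Agent.LT.A2 Fermat.Agent.LT.A2.WX467 Fermat.Agent.LT.A2.CX798

theorem rowN_unip125 (x : ℂ) (g : Matrix (Fin 2) (Fin 2) ℂ) :
    rowN (!![1, x; 0, 1] * g) = rowN g := by
  simp [rowN, Matrix.mul_apply, Fin.sum_univ_two]

theorem rowB_unip125 (x : ℂ) (g : Matrix (Fin 2) (Fin 2) ℂ) :
    rowB (!![1, x; 0, 1] * g) = rowB g + x * ((rowN g : ℝ) : ℂ) := by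
  have h1 : ∀ z : ℂ, z * conj z = ((‖z‖ : ℝ) : ℂ) ^ 2 := by
    intro z
    rw [Complex.mul_conj, Complex.normSq_eq_norm_sq]
    push_cast
    rfl
  have e00 : (!![1, x; 0, 1] * g) 0 0 = g 0 0 + x * g 1 0 := by
    simp [Matrix.mul_apply, Fin.sum_univ_two]
  have e01 : (!![1, x; 0, 1] * g) 0 1 = g 0 1 + x * g 1 1 := by
    simp [Matrix.mul_apply, Fin.sum_univ_two]
  have e10 : (!![1, x; 0, 1] * g) 1 0 = g 1 0 := by
    simp [Matrix.mul_apply, Fin.sum_univ_two]
  have e11 : (!![1, x; 0, 1] * g) 1 1 = g 1 1 := by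
    simp [Matrix.mul_apply, Fin.sum_univ_two]
  unfold rowB rowN
  rw [e00, e01, e10, e11]
  push_cast
  rw [← h1 (g 1 0), ← h1 (g 1 1)]
  ring

theorem qfL_split125 (ω₁ ω₂ : ℂ) (ξ : ℂ × ℂ) :
    qfL (ω₁ + ω₂) (ω₁ * ω₂) ξ = (ξ.1 + ω₁ * ξ.2) * (ξ.1 + ω₂ * ξ.2) := by
  unfold qfL
  ring

/-- **CX.01 UNIP.** -/
theorem unipC125 : UnipC := by
  intro c ω₁ ω₂ x g m ξ _
  unfold FC psiC
  rw [rowN_unip125, rowB_unip125, qfL_split125]
  by_cases hN : rowN g = 0
  · simp [hN]
  · have key : (c * (rowB g + x * ((rowN g : ℝ) : ℂ))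
          * ((ξ.1 + ω₁ * ξ.2) * (ξ.1 + ω₂ * ξ.2))).re / rowN g
        = (c * (x * ((ξ.1 + ω₁ * ξ.2) * (ξ.1 + ω₂ * ξ.2)))).re
          + (c * rowB g * ((ξ.1 + ω₁ * ξ.2) * (ξ.1 + ω₂ * ξ.2))).re / rowN g := by
      have h2 : c * (rowB g + x * ((rowN g : ℝ) : ℂ))
            * ((ξ.1 + ω₁ * ξ.2) * (ξ.1 + ω₂ * ξ.2))
          = c * rowB g * ((ξ.1 + ω₁ * ξ.2) * (ξ.1 + ω₂ * ξ.2))
            + ((rowN g : ℝ) : ℂ) * (c * (x * ((ξ.1 + ω₁ * ξ.2) * (ξ.1 + ω₂ * ξ.2)))) := by
        ring
      rw [h2, Complex.add_re, Complex.re_ofReal_mul]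
      field_simp
      ring
    rw [key]
    generalize ((‖lam ω₁ m * lam ω₂ m‖ / rowN g : ℝ) : ℂ) = P
    generalize (-(2 * Real.pi * ‖c‖ * (‖lam ω₂ m * (ξ.1 + ω₁ * ξ.2)‖ ^ 2
      + ‖lam ω₁ m * (ξ.1 + ω₂ * ξ.2)‖ ^ 2) / rowN g) : ℝ) = A
    generalize (c * (x * ((ξ.1 + ω₁ * ξ.2) * (ξ.1 + ω₂ * ξ.2)))).re = R₁
    generalize (c * rowB g * ((ξ.1 + ω₁ * ξ.2) * (ξ.1 + ω₂ * ξ.2))).re / rowN g = R₂
    have hE : ((A : ℝ) : ℂ) + 4 * Real.pi * Complex.I * ((R₁ + R₂ : ℝ) : ℂ)
        = 4 * Real.pi * Complex.I * ((R₁ : ℝ) : ℂ)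
          + (((A : ℝ) : ℂ) + 4 * Real.pi * Complex.I * ((R₂ : ℝ) : ℂ)) := by
      push_cast
      ring
    rw [hE, Complex.exp_add]
    ring

end Fermat.Agent.LT.A2.H125

end

end
-- ===== PACK-END LT/A2/H125/CxUnip.lean

-- ===== PACK-BEGIN LT/A2/H144/GaussNormCore.lean
section


/-!
# Row LT, tower A2, leaf A2.03.1.1.06.06 `LF54.LeafGaussNorm` -- the core (helper144)

OFF-MAIN.  Generic part: a normed field `k`, the binary form `Q(x, y) = x² + t x y + n y²`,
the similitude `m = torMat t n x y` (`Q(m ξ) = N Q(ξ)`, `N = Q(x, y) = det m`).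

* `gaussNorm_identity144d`: for every Schwartz--Bruhat `Φ'` and every `ξ`,
  `‖N‖ * (G (a N) * I') = G a * I'`, `I' = ∫ Φ'(z) ψ(-Q(z + m ξ) / (a N)) dz`,
  from the Fourier certificate (two times the Gauss identity, three times the change of
  variables) and the local constancy of `ψ`.
* `char_locConst144d`: a continuous unitary character of an ultrametric normed field is
  locally constant (no small subgroups in the circle).
-/

set_option autoImplicit false

open MeasureTheory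
open scoped Topology

noncomputable section

namespace Fermat.Agent.LT.A2.H144

open Fermat.Agent.LT.A2 Fermat.Agent.LT.A2.WX467 Fermat.Agent.LT.A2.LF54

/-! ## A. Algebra -/

section Algebra

variable {k : Type} [Field k]

theorem actL_add144d (m : Matrix (Fin 2) (Fin 2) k) (ξ η : k × k) :
    actL m (ξ + η) = actL m ξ + actL m η := by
  unfold actL
  ext
  · simp only [Prod.fst_add, Prod.snd_add]; ring
  · simp only [Prod.fst_add, Prod.snd_add]; ring

theorem actL_zero144d (m : Matrix (Fin 2) (Fin 2) k) : actL m (0 : k × k) = 0 := by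
  unfold actL
  ext <;> simp

theorem actL_smulMat144d (c : k) (m : Matrix (Fin 2) (Fin 2) k) (ξ : k × k) :
    actL (c • m) ξ = c • actL m ξ := by
  unfold actL
  ext
  · simp only [Matrix.smul_apply, smul_eq_mul, Prod.smul_fst]; ring
  · simp only [Matrix.smul_apply, smul_eq_mul, Prod.smul_snd]; ring

theorem qfL_smul144d (t n c : k) (ξ : k × k) : qfL t n (c • ξ) = c ^ 2 * qfL t n ξ := by
  unfold qfL
  simp only [Prod.smul_fst, Prod.smul_snd, smul_eq_mul]
  ring

theorem qfL_zero144d (t n : k) : qfL t n (0 : k × k) = 0 := by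
  unfold qfL
  simp

theorem bfL_smul_left144d (t n c : k) (ξ y : k × k) :
    bfL t n (c • ξ) y = c * bfL t n ξ y := by
  unfold bfL qfL
  simp only [Prod.smul_fst, Prod.smul_snd, smul_eq_mul, Prod.fst_add, Prod.snd_add]
  ring

theorem qfL_torMat144d (t n x y : k) (ξ : k × k) :
    qfL t n (actL (torMat t n x y) ξ) = qfL t n (x, y) * qfL t n ξ := by
  unfold qfL actL torMat
  simp only [Matrix.of_apply, Matrix.cons_val', Matrix.cons_val_zero, Matrix.cons_val_one,
    Matrix.cons_val_fin_one]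
  ring

theorem bfL_torMat144d (t n x y : k) (ξ η : k × k) :
    bfL t n (actL (torMat t n x y) ξ) (actL (torMat t n x y) η)
      = qfL t n (x, y) * bfL t n ξ η := by
  unfold bfL
  rw [← actL_add144d, qfL_torMat144d, qfL_torMat144d, qfL_torMat144d]
  ring

theorem det_torMat144d (t n x y : k) : (torMat t n x y).det = qfL t n (x, y) := by
  unfold torMat qfL
  rw [Matrix.det_fin_two_of]
  ring

theorem det_smulMat144d (c : k) (m : Matrix (Fin 2) (Fin 2) k) :
    (c • m).det = c ^ 2 * m.det := by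
  rw [Matrix.det_fin_two, Matrix.det_fin_two]
  simp only [Matrix.smul_apply, smul_eq_mul]
  ring

/-- An explicit left inverse of `actL m`, `det m ≠ 0`. -/
theorem actL_adj_cancel144d (m : Matrix (Fin 2) (Fin 2) k) (hd : m.det ≠ 0) (ξ : k × k) :
    actL (m.det⁻¹ • m.adjugate) (actL m ξ) = ξ := by
  rw [actL_smulMat144d]
  have h : actL m.adjugate (actL m ξ) = m.det • ξ := by
    rw [Matrix.adjugate_fin_two, Matrix.det_fin_two]
    unfold actL
    ext
    · simp only [Matrix.of_apply, Matrix.cons_val', Matrix.cons_val_zero, Matrix.cons_val_one,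
        Matrix.cons_val_fin_one, Prod.smul_fst, smul_eq_mul]
      ring
    · simp only [Matrix.of_apply, Matrix.cons_val', Matrix.cons_val_zero, Matrix.cons_val_one,
        Matrix.cons_val_fin_one, Prod.smul_snd, smul_eq_mul]
      ring
  rw [h, smul_smul, inv_mul_cancel₀ hd, one_smul]

end Algebra

/-! ## B. Topology: Schwartz--Bruhat functions -/

section Topology

variable {k : Type} [NormedField k]

theorem continuous_actL144d (m : Matrix (Fin 2) (Fin 2) k) : Continuous (actL m) := by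
  unfold actL
  fun_prop

theorem continuous_qfL144d (t n : k) : Continuous (qfL t n) := by
  unfold qfL
  fun_prop

theorem continuous_bfL144d (t n : k) (ξ : k × k) : Continuous (bfL t n ξ) := by
  unfold bfL
  have h := continuous_qfL144d t n
  fun_prop

/-- `Φ ∘ m` is Schwartz--Bruhat for `det m ≠ 0`. -/
theorem isSB_comp_actL144d (m : Matrix (Fin 2) (Fin 2) k) (hd : m.det ≠ 0) (Φ : k × k → ℂ)
    (hΦ : IsSB Φ) : IsSB (fun w => Φ (actL m w)) := by
  refine ⟨hΦ.1.comp_continuous (continuous_actL144d m), ?_⟩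
  refine HasCompactSupport.intro
    (hΦ.2.isCompact.image (continuous_actL144d (m.det⁻¹ • m.adjugate))) ?_
  intro w hw
  by_contra hne
  apply hw
  refine ⟨actL m w, ?_, actL_adj_cancel144d m hd w⟩
  exact subset_tsupport _ hne

/-- A Schwartz--Bruhat function times a locally constant function. -/
theorem isSB_mul_right144d (Φ g : k × k → ℂ) (hΦ : IsSB Φ) (hg : IsLocallyConstant g) :
    IsSB (fun z => Φ z * g z) :=
  ⟨hΦ.1.mul hg, hΦ.2.mul_right⟩

/-- A locally constant function times a Schwartz--Bruhat function. -/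
theorem isSB_mul_left144d (Φ g : k × k → ℂ) (hΦ : IsSB Φ) (hg : IsLocallyConstant g) :
    IsSB (fun z => g z * Φ z) :=
  ⟨hg.mul hΦ.1, hΦ.2.mul_left⟩

theorem intL_const_mul144d (μ : @Measure k (borel k)) (r : ℂ) (f : k × k → ℂ) :
    intL μ (fun y => r * f y) = r * intL μ f := by
  unfold intL
  exact integral_const_mul r f

end Topology

/-! ## C. The identity -/

section Identity

variable {k : Type} [NormedField k]

/-- **The identity behind `GaussNormP`**: `‖N‖ (G (a N) I') = G a I'` for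
`I' = ∫ Φ'(z) ψ(-Q(z + m ξ) / (a N)) dz`, `m = torMat t n x y`, `N = Q(x, y) ≠ 0`. -/
theorem gaussNorm_identity144d (t n : k) (ψ : k → ℂ) (μ : @Measure k (borel k)) (c : ℝ)
    (G : k → ℂ) (hψ : IsLocallyConstant ψ) (hF : FourierCert t n ψ μ c G)
    (a : k) (ha : a ≠ 0) (x y : k) (hN : qfL t n (x, y) ≠ 0)
    (Φ' : k × k → ℂ) (hΦ' : IsSB Φ') (ξ : k × k) :
    ((‖qfL t n (x, y)‖ : ℝ) : ℂ) * (G (a * qfL t n (x, y)) *
        intL μ (fun z => Φ' z *
          ψ (-(qfL t n (z + actL (torMat t n x y) ξ)) / (a * qfL t n (x, y)))))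
      = G a * intL μ (fun z => Φ' z *
          ψ (-(qfL t n (z + actL (torMat t n x y) ξ)) / (a * qfL t n (x, y)))) := by
  set N : k := qfL t n (x, y) with hNdef
  set m : Matrix (Fin 2) (Fin 2) k := torMat t n x y with hmdef
  have hdet : m.det = N := det_torMat144d t n x y
  have hdet0 : m.det ≠ 0 := by rw [hdet]; exact hN
  have haN : a * N ≠ 0 := mul_ne_zero ha hN
  have hnorm0 : ((‖N‖ : ℝ) : ℂ) ≠ 0 := by
    rw [Ne, Complex.ofReal_eq_zero, norm_eq_zero]; exact hN
  -- the function `Φ = Φ' ∘ m`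
  set Φ : k × k → ℂ := fun w => Φ' (actL m w) with hΦdef
  have hΦ : IsSB Φ := isSB_comp_actL144d m hdet0 Φ' hΦ'
  -- the integral `I'`
  set I' : ℂ := intL μ (fun z => Φ' z * ψ (-(qfL t n (z + actL m ξ)) / (a * N))) with hI'
  -- (3) `I = ‖N‖⁻¹ I'`
  have h3 : intL μ (fun w => Φ w * ψ (-(qfL t n (w + ξ)) / a))
      = ((‖N‖⁻¹ : ℝ) : ℂ) * I' := by
    have hsb : IsSB (fun z => Φ' z * ψ (-(qfL t n (z + actL m ξ)) / (a * N))) := by
      refine isSB_mul_right144d Φ' _ hΦ' ?_
      refine hψ.comp_continuous (f := fun z : k × k => -(qfL t n (z + actL m ξ)) / (a * N)) ?_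
      have h := continuous_qfL144d t n
      fun_prop
    have h := hF.cov m hdet0 _ hsb
    rw [hdet] at h
    rw [← h]
    refine congrArg (intL μ) (funext fun w => ?_)
    show Φ' (actL m w) * ψ (-(qfL t n (w + ξ)) / a)
      = Φ' (actL m w) * ψ (-(qfL t n (actL m w + actL m ξ)) / (a * N))
    rw [← actL_add144d, hmdef, qfL_torMat144d, ← hNdef]
    congr 2
    field_simp
  -- (5) `FT Φ' (m' u) = ‖N‖ FT Φ u`, `m' = N⁻¹ m`
  set m' : Matrix (Fin 2) (Fin 2) k := N⁻¹ • m with hm'def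
  have hdet' : m'.det = N⁻¹ := by
    rw [hm'def, det_smulMat144d, hdet]
    field_simp
  have hdet'0 : m'.det ≠ 0 := by rw [hdet']; exact inv_ne_zero hN
  have h5 : ∀ u : k × k, ftL t n ψ μ Φ' (actL m' u)
      = ((‖N‖ : ℝ) : ℂ) * ftL t n ψ μ Φ u := by
    intro u
    have hsb : IsSB (fun z => Φ' z * ψ (bfL t n (actL m' u) z)) := by
      refine isSB_mul_right144d Φ' _ hΦ' ?_
      exact hψ.comp_continuous (continuous_bfL144d t n _)
    have h := hF.cov m hdet0 _ hsb
    rw [hdet] at h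
    have h' : ftL t n ψ μ Φ u = ((‖N‖⁻¹ : ℝ) : ℂ) * ftL t n ψ μ Φ' (actL m' u) := by
      unfold ftL
      rw [← h]
      refine congrArg (intL μ) (funext fun w => ?_)
      show Φ' (actL m w) * ψ (bfL t n u w)
        = Φ' (actL m w) * ψ (bfL t n (actL m' u) (actL m w))
      rw [hm'def, actL_smulMat144d, bfL_smul_left144d, hmdef, bfL_torMat144d, ← hNdef,
        ← mul_assoc, inv_mul_cancel₀ hN, one_mul]
    rw [h', ← mul_assoc, ← Complex.ofReal_mul, mul_inv_cancel₀ (norm_ne_zero_iff.mpr hN),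
      Complex.ofReal_one, one_mul]
  -- (4) the outer change of variables
  have hsbF : IsSB (fun y => ψ (a * N * qfL t n y) * ftL t n ψ μ Φ' y *
      ψ (bfL t n (actL m ξ) y)) := by
    refine isSB_mul_right144d _ _ (isSB_mul_left144d _ _ (hF.ft_sb Φ' hΦ') ?_) ?_
    · refine hψ.comp_continuous (f := fun y : k × k => a * N * qfL t n y) ?_
      have h := continuous_qfL144d t n
      fun_prop
    · exact hψ.comp_continuous (continuous_bfL144d t n _)
  have h4 := hF.cov m' hdet'0 _ hsbF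
  rw [hdet', norm_inv, inv_inv] at h4
  -- the Gauss identity for `(a N, Φ', m ξ)` and for `(a, Φ, ξ)`
  have hG1 := hF.gauss (a * N) haN Φ' hΦ' (actL m ξ)
  have hG2 := hF.gauss a ha Φ hΦ ξ
  have hL : intL μ (fun u => ψ (a * N * qfL t n (actL m' u)) * ftL t n ψ μ Φ' (actL m' u) *
      ψ (bfL t n (actL m ξ) (actL m' u)))
      = ((‖N‖ : ℝ) : ℂ) * ftL t n ψ μ (fun y => ψ (a * qfL t n y) * ftL t n ψ μ Φ y) ξ := by
    unfold ftL
    rw [← intL_const_mul144d]
    refine congrArg (intL μ) (funext fun u => ?_)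
    have e1 : a * N * qfL t n (actL m' u) = a * qfL t n u := by
      rw [hm'def, actL_smulMat144d, qfL_smul144d, hmdef, qfL_torMat144d, ← hNdef]
      field_simp
    have e2 : bfL t n (actL m ξ) (actL m' u) = bfL t n ξ u := by
      have hsym : ∀ p q : k × k, bfL t n p q = bfL t n q p := by
        intro p q
        unfold bfL
        rw [add_comm p q]
        ring
      rw [hsym, hm'def, actL_smulMat144d, bfL_smul_left144d, hmdef, bfL_torMat144d, ← hNdef,
        ← mul_assoc, inv_mul_cancel₀ hN, one_mul, hsym]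
    have e3 := h5 u
    unfold ftL at e3
    rw [e1, e2, e3]
    ring
  have hLHS : ftL t n ψ μ (fun y => ψ (a * N * qfL t n y) * ftL t n ψ μ Φ' y) (actL m ξ)
      = intL μ (fun y => ψ (a * N * qfL t n y) * ftL t n ψ μ Φ' y *
          ψ (bfL t n (actL m ξ) y)) := rfl
  -- assembly
  rw [hLHS] at hG1
  rw [hL, hG2, h3] at h4
  rw [hG1] at h4
  -- `h4 : ‖N‖ * (G a * (‖N‖⁻¹ * I')) = ‖N‖ * (G (a N) * I')`
  have h6 : ((‖N‖ : ℝ) : ℂ) * (G a * (((‖N‖⁻¹ : ℝ) : ℂ) * I')) = G a * I' := by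
    rw [Complex.ofReal_inv]
    field_simp
  rw [h6] at h4
  exact h4.symm

end Identity

/-! ## D. Characters of an ultrametric field are locally constant -/

section Character

/-- No small subgroups: if all the powers of `z` are at distance `≤ 1/2` from `1`, then
`z = 1`. -/
theorem eq_one_of_pow_near144d (z : ℂ) (h : ∀ j : ℕ, ‖z ^ j - 1‖ ≤ 1 / 2) : z = 1 := by
  by_contra hz
  have hz1 : 0 < ‖z - 1‖ := norm_pos_iff.mpr (sub_ne_zero.mpr hz)
  -- real parts
  have hre : ∀ j : ℕ, (1 : ℝ) / 2 ≤ (z ^ j).re := by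
    intro j
    have h1 : |(z ^ j - 1).re| ≤ ‖z ^ j - 1‖ := Complex.abs_re_le_norm _
    have h2 := h j
    have h3 : (z ^ j - 1).re = (z ^ j).re - 1 := by simp
    rw [h3] at h1
    have := (abs_le.mp (h1.trans h2)).1
    linarith
  have hsum : ∀ N : ℕ, (N : ℝ) / 2 ≤ ‖∑ j ∈ Finset.range N, z ^ j‖ := by
    intro N
    have h1 : (N : ℝ) / 2 ≤ (∑ j ∈ Finset.range N, z ^ j).re := by
      rw [Complex.re_sum]
      calc (N : ℝ) / 2 = ∑ _j ∈ Finset.range N, (1 : ℝ) / 2 := by
            rw [Finset.sum_const, Finset.card_range, nsmul_eq_mul]; ring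
        _ ≤ ∑ j ∈ Finset.range N, (z ^ j).re := Finset.sum_le_sum fun j _ => hre j
    exact h1.trans ((le_abs_self _).trans (Complex.abs_re_le_norm _))
  obtain ⟨N, hNbig⟩ := exists_nat_gt (1 / ‖z - 1‖)
  have h1 : (∑ j ∈ Finset.range N, z ^ j) * (z - 1) = z ^ N - 1 := geom_sum_mul z N
  have h2 : ‖∑ j ∈ Finset.range N, z ^ j‖ * ‖z - 1‖ ≤ 1 / 2 := by
    rw [← norm_mul, h1]; exact h N
  have h3 : (N : ℝ) / 2 * ‖z - 1‖ ≤ 1 / 2 :=
    (mul_le_mul_of_nonneg_right (hsum N) hz1.le).trans h2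
  have h4 : 1 < (N : ℝ) * ‖z - 1‖ := by
    rw [div_lt_iff₀ hz1] at hNbig
    exact hNbig
  linarith

variable {k : Type} [NormedField k] [IsUltrametricDist k]

/-- A continuous unitary character of an ultrametric normed field is trivial on a ball. -/
theorem char_trivial_ball144d (ψ : k → ℂ) (hψ : IsCharL ψ) :
    ∃ ε : ℝ, 0 < ε ∧ ∀ x : k, ‖x‖ < ε → ψ x = 1 := by
  obtain ⟨hc, hadd, hnorm, -⟩ := hψ
  have h0 : ψ 0 = 1 := by
    have h1 : ψ 0 = ψ 0 * ψ 0 := by
      conv_lhs => rw [← add_zero (0 : k)]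
      exact hadd 0 0
    have h2 : ψ 0 ≠ 0 := by
      intro h
      have := hnorm 0
      rw [h, norm_zero] at this
      exact zero_ne_one this
    have h3 : ψ 0 * 1 = ψ 0 * ψ 0 := by rw [mul_one]; exact h1
    exact (mul_left_cancel₀ h2 h3).symm
  have hpow : ∀ (x : k) (j : ℕ), ψ ((j : k) * x) = ψ x ^ j := by
    intro x j
    induction j with
    | zero => simp [h0]
    | succ j ih =>
      rw [Nat.cast_succ, add_mul, one_mul, hadd, ih, pow_succ]
  have hnb : {y : ℂ | ‖y - 1‖ < 1 / 2} ∈ 𝓝 (ψ 0) := by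
    rw [h0]
    have : {y : ℂ | ‖y - 1‖ < 1 / 2} = Metric.ball 1 (1 / 2) := by
      ext y
      simp [Metric.mem_ball, dist_eq_norm]
    rw [this]
    exact Metric.ball_mem_nhds _ (by norm_num)
  have hpre := hc.continuousAt.preimage_mem_nhds hnb
  obtain ⟨ε, hε, hball⟩ := Metric.mem_nhds_iff.mp hpre
  refine ⟨ε, hε, fun x hx => ?_⟩
  apply eq_one_of_pow_near144d
  intro j
  rw [← hpow]
  have hj : ‖(j : k) * x‖ < ε := by
    rw [norm_mul]
    have h1 : ‖(j : k)‖ ≤ 1 := IsUltrametricDist.norm_natCast_le_one k j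
    calc ‖(j : k)‖ * ‖x‖ ≤ 1 * ‖x‖ := mul_le_mul_of_nonneg_right h1 (norm_nonneg _)
      _ = ‖x‖ := one_mul _
      _ < ε := hx
  have hmem : (j : k) * x ∈ Metric.ball (0 : k) ε := by
    rw [Metric.mem_ball, dist_zero_right]; exact hj
  exact le_of_lt (hball hmem)

/-- A continuous unitary character of an ultrametric normed field is locally constant. -/
theorem char_locConst144d (ψ : k → ℂ) (hψ : IsCharL ψ) : IsLocallyConstant ψ := by
  obtain ⟨ε, hε, htriv⟩ := char_trivial_ball144d ψ hψ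
  rw [IsLocallyConstant.iff_eventually_eq]
  intro x
  have hb : Metric.ball x ε ∈ 𝓝 x := Metric.ball_mem_nhds x hε
  filter_upwards [hb] with y hy
  have h1 : y = x + (y - x) := by ring
  rw [h1, hψ.2.1, htriv (y - x) (by rwa [Metric.mem_ball, dist_eq_norm] at hy), mul_one]

end Character

end Fermat.Agent.LT.A2.H144

end

end
-- ===== PACK-END LT/A2/H144/GaussNormCore.lean

-- ===== PACK-BEGIN LT/A2/H276/WeylPsi.lean
section


/-!
# Row LT, tower A2, leaf A2.03.1.4 `WX467.WeylC` (helper276), OFF-MAIN: `ψ = ∏ ψ_v`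

* `F_apply276`, `eventually_Ffin_apply_eq_one276`: the product family at a vector, almost all
  factors are `1`;
* `F_one_ne_zero276`: `F 1 1 (1, 0) ≠ 0`;
* `psi_eq_prod276`: `ψ(x) = ∏_u ψ_u(x_u) ∏_v ψ_v(x_v)` for every adele `x`, from `BorelOut.unip`
  and the local axioms `LocAx.unip` at `g = m = 1`, `ξ = (1, 0)`.
-/

set_option autoImplicit false

open IsDedekindDomain NumberField AutomorphicForm MeasureTheory
open scoped MatrixGroups Topology

noncomputable section

namespace Fermat.Agent.LT.A2.H276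

open Fermat.Agent.LT.H130 Fermat.Agent.LT.H556 Fermat.Agent.LT.A2 Fermat.Agent.LT.A2.WX467
open Fermat.Agent.LT.T1.H793

/-! ## `finprod` helpers -/

theorem hasFiniteMulSupport_of_eventually276 {ι M : Type*} [One M] {f : ι → M}
    (h : ∀ᶠ i in Filter.cofinite, f i = 1) : Function.HasFiniteMulSupport f := by
  rw [Filter.eventually_cofinite] at h
  exact h

theorem finprod_ne_zero276 {ι : Type*} {f : ι → ℂ} (h : ∀ i, f i ≠ 0) : ∏ᶠ i, f i ≠ 0 := by
  by_cases hf : Function.HasFiniteMulSupport f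
  · rw [finprod_eq_prod f hf]
    exact Finset.prod_ne_zero_iff.2 fun i _ => h i
  · rw [finprod_of_infinite_mulSupport hf]
    exact one_ne_zero

variable {K : Type} [Field K] [NumberField K]

/-! ## The product family at a vector -/

theorem F_apply276 (L : WData K) (g m : A0.G K) (ξ : A0.Adl K × A0.Adl K) :
    L.F g m ξ = (∏ u : InfinitePlace K, L.Finf u (infMat u g) (infMat u m) (infVec u ξ)) *
      ∏ᶠ v : HeightOneSpectrum (𝓞 K),
        L.Ffin v (A0.finComp v g) (A0.finComp v m) (finVec v ξ) := rfl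

theorem stdFn_of_integral276 (v : HeightOneSpectrum (𝓞 K))
    (ξ : v.adicCompletion K × v.adicCompletion K)
    (h1 : ξ.1 ∈ v.adicCompletionIntegers K) (h2 : ξ.2 ∈ v.adicCompletionIntegers K) :
    stdFn v ξ = 1 := by
  unfold stdFn
  rw [if_pos ⟨h1, h2⟩]

theorem stdFn_of_not_integral276 (v : HeightOneSpectrum (𝓞 K))
    (ξ : v.adicCompletion K × v.adicCompletion K)
    (h : ¬ (ξ.1 ∈ v.adicCompletionIntegers K ∧ ξ.2 ∈ v.adicCompletionIntegers K)) :
    stdFn v ξ = 0 := by
  unfold stdFn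
  rw [if_neg h]

theorem eventually_finVec_integral276 (ξ : A0.Adl K × A0.Adl K) :
    ∀ᶠ v : HeightOneSpectrum (𝓞 K) in Filter.cofinite,
      (finVec v ξ).1 ∈ v.adicCompletionIntegers K ∧
        (finVec v ξ).2 ∈ v.adicCompletionIntegers K := by
  filter_upwards [eventually_integral276 ξ.1, eventually_integral276 ξ.2] with v h1 h2
  exact ⟨h1, h2⟩

/-- almost all factors of the product family are `1` -/
theorem eventually_Ffin_apply_eq_one276 (L : WData K) (hL : L.IsGood) {g m : A0.G K}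
    (h : Adm L.t L.n g m) (ξ : A0.Adl K × A0.Adl K) :
    ∀ᶠ v : HeightOneSpectrum (𝓞 K) in Filter.cofinite,
      L.Ffin v (A0.finComp v g) (A0.finComp v m) (finVec v ξ) = 1 := by
  filter_upwards [eventually_Ffin_eq_std276 L hL h, eventually_finVec_integral276 ξ]
    with v h1 h2
  rw [h1]
  exact stdFn_of_integral276 v _ h2.1 h2.2

/-- almost all local characters are `1` at an adele -/
theorem eventually_psifin_eq_one276 (L : WData K) (hL : L.IsGood) (x : A0.Adl K) :
    ∀ᶠ v : HeightOneSpectrum (𝓞 K) in Filter.cofinite, L.ψfin v (projFin793 v x) = 1 := by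
  filter_upwards [eventually_not_dvd276 L.π.level_ne_bot, eventually_integral276 x]
    with v hv hx
  exact psifin_integral276 L hL v hv _ hx

/-! ## Non-vanishing of the initial vector at `(1, 0)` -/

theorem Finf_one_ne_zero276 (L : WData K) (hL : L.IsGood) (u : InfinitePlace K)
    (ξ : u.Completion × u.Completion) : L.Finf u 1 1 ξ ≠ 0 := by
  obtain ⟨c, -, -, hg⟩ := (hL.cpx u).gauss
  obtain ⟨s, hs⟩ := IsAlgClosed.exists_eq_mul_self
    ((u.embedding L.t) ^ 2 - 4 * u.embedding L.n)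
  have h := hg ((u.embedding L.t + s) / 2) ((u.embedding L.t - s) / 2) (by ring)
    (by
      have : (u.embedding L.t + s) / 2 * ((u.embedding L.t - s) / 2)
          = ((u.embedding L.t) ^ 2 - s * s) / 4 := by ring
      rw [this, ← hs]; ring) ξ
  rw [h]
  exact Complex.exp_ne_zero _

theorem F_one_ne_zero276 (L : WData K) (hL : L.IsGood) (ξ : A0.Adl K × A0.Adl K)
    (hξ : ∀ v : HeightOneSpectrum (𝓞 K), finVec v ξ = (1, 0)) : L.F 1 1 ξ ≠ 0 := by
  rw [F_apply276]
  refine mul_ne_zero (Finset.prod_ne_zero_iff.2 fun u _ => ?_) (finprod_ne_zero276 fun v => ?_)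
  · rw [infMat_one276]
    exact Finf_one_ne_zero276 L hL u _
  · rw [finComp_one276, hξ v]
    exact (hL.fin v).pos.2

/-! ## The quadratic form in components -/

theorem infVec_eq276 (u : InfinitePlace K) (ξ : A0.Adl K × A0.Adl K) :
    infVec u ξ = (projInf793 u ξ.1, projInf793 u ξ.2) := rfl

theorem finVec_eq276 (v : HeightOneSpectrum (𝓞 K)) (ξ : A0.Adl K × A0.Adl K) :
    finVec v ξ = (projFin793 v ξ.1, projFin793 v ξ.2) := rfl

theorem projInf_qf276 (t n : K) (u : InfinitePlace K) (ξ : A0.Adl K × A0.Adl K) :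
    projInf793 u (qf t n ξ)
      = qfL (algebraMap K u.Completion t) (algebraMap K u.Completion n) (infVec u ξ) := by
  unfold qf qfL
  rw [map_add, map_add, map_mul, map_mul, map_mul, map_pow, map_pow]
  rfl

theorem projFin_qf276 (t n : K) (v : HeightOneSpectrum (𝓞 K)) (ξ : A0.Adl K × A0.Adl K) :
    projFin793 v (qf t n ξ)
      = qfL (algebraMap K (v.adicCompletion K) t) (algebraMap K (v.adicCompletion K) n)
          (finVec v ξ) := by
  unfold qf qfL
  rw [map_add, map_add, map_mul, map_mul, map_mul, map_pow, map_pow]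
  rfl

theorem projInf_bf276 (t n : K) (u : InfinitePlace K) (ξ y : A0.Adl K × A0.Adl K) :
    projInf793 u (bf t n ξ y)
      = bfL (algebraMap K u.Completion t) (algebraMap K u.Completion n) (infVec u ξ)
          (infVec u y) := by
  unfold bf bfL
  rw [map_sub, map_sub, projInf_qf276, projInf_qf276, projInf_qf276]
  rfl

theorem projFin_bf276 (t n : K) (v : HeightOneSpectrum (𝓞 K)) (ξ y : A0.Adl K × A0.Adl K) :
    projFin793 v (bf t n ξ y)
      = bfL (algebraMap K (v.adicCompletion K) t) (algebraMap K (v.adicCompletion K) n)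
          (finVec v ξ) (finVec v y) := by
  unfold bf bfL
  rw [map_sub, map_sub, projFin_qf276, projFin_qf276, projFin_qf276]
  rfl

/-! ## `ψ = ∏ ψ_v` -/

/-- the product of the local characters -/
def psiProd276 (L : WData K) (x : A0.Adl K) : ℂ :=
  (∏ u : InfinitePlace K, L.ψinf u (projInf793 u x)) *
    ∏ᶠ v : HeightOneSpectrum (𝓞 K), L.ψfin v (projFin793 v x)

/-- the base vector `(1, 0)` -/
def e1_276 : A0.Adl K × A0.Adl K := (1, 0)

theorem qf_e1_276 (t n : K) : qf t n (e1_276 (K := K)) = 1 := by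
  unfold qf e1_276
  simp

theorem qfL_e1_276 {k : Type} [Field k] (t n : k) : qfL t n ((1 : k), (0 : k)) = 1 := by
  unfold qfL
  simp

theorem infVec_e1_276 (u : InfinitePlace K) : infVec u (e1_276 (K := K)) = (1, 0) := rfl

theorem finVec_e1_276 (v : HeightOneSpectrum (𝓞 K)) : finVec v (e1_276 (K := K)) = (1, 0) :=
  rfl

theorem psi_eq_prod276 (L : WData K) (hL : L.IsGood) (hB : BorelOut L.toKData L.η)
    (x : A0.Adl K) : L.ψ x = psiProd276 L x := by
  have hadm : Adm L.t L.n (1 : A0.G K) 1 := adm_one276 L.t L.n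
  have h1 := hB.unip nU276 isUpperUnip_nU276 x 1 1 e1_276 hadm
  have h0 : L.F 1 1 e1_276 ≠ 0 := F_one_ne_zero276 L hL e1_276 finVec_e1_276
  -- the local computation
  have h2 : L.F (nU276 x * 1) 1 e1_276 = psiProd276 L x * L.F 1 1 e1_276 := by
    rw [F_apply276, F_apply276, psiProd276]
    have hu : ∀ u : InfinitePlace K,
        L.Finf u (infMat u (nU276 x * 1)) (infMat u 1) (infVec u e1_276)
          = L.ψinf u (projInf793 u x) * L.Finf u (infMat u 1) (infMat u 1) (infVec u e1_276) := by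
      intro u
      rw [infMat_mul276, infMat_unip276 u isUpperUnip_nU276,
        (hL.cpx u).ax.unip _ _ _ _ (admL_inf276 L.t L.n u hadm), infVec_e1_276]
      congr 2
      rw [qfL_e1_276, mul_one]
    have hv : ∀ v : HeightOneSpectrum (𝓞 K),
        L.Ffin v (A0.finComp v (nU276 x * 1)) (A0.finComp v 1) (finVec v e1_276)
          = L.ψfin v (projFin793 v x)
            * L.Ffin v (A0.finComp v 1) (A0.finComp v 1) (finVec v e1_276) := by
      intro v
      rw [finComp_mul276, finComp_unip276 v isUpperUnip_nU276,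
        (hL.fin v).ax.unip _ _ _ _ (admL_fin276 L.t L.n v hadm), finVec_e1_276]
      congr 2
      rw [qfL_e1_276, mul_one]
    rw [Finset.prod_congr rfl fun u _ => hu u, finprod_congr hv, Finset.prod_mul_distrib,
      finprod_mul_distrib
        (hasFiniteMulSupport_of_eventually276 (eventually_psifin_eq_one276 L hL x))
        (hasFiniteMulSupport_of_eventually276
          (eventually_Ffin_apply_eq_one276 L hL hadm e1_276))]
    ring
  have h3 : L.ψ (x * qf L.t L.n e1_276) * L.F 1 1 e1_276 = psiProd276 L x * L.F 1 1 e1_276 :=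
    h1.symm.trans h2
  rw [qf_e1_276, mul_one] at h3
  exact mul_right_cancel₀ h0 h3

end Fermat.Agent.LT.A2.H276

end

end
-- ===== PACK-END LT/A2/H276/WeylPsi.lean

-- ===== PACK-BEGIN LT/A2/H323/Gauss/Leaf.lean
section






/-!
# Row LT, tower A2, leaf A2.03.1.1.06.05 `LF54.LeafGauss` (helper323), OFF-MAIN : THE LEAF

`leafGauss323 : LF54.LeafGauss`, VERBATIM against `LT/A2/H54/LocFinSpec.lean` (helper54,
sha256 8ccd9c5c): THE GAUSS IDENTITY of Weil at a finite place,

    FT(ψ(a Q) · FT Φ)(ξ) = G(a) ∫ Φ(z) ψ(-Q(z + ξ) / a) dz,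

from the abstract form `gauss_identity323` (`Core.lean`) for `V = k × k`, `ν = μ × μ`.

Reusable for the other leaves of the station (FT-SB, INV, COV, ...):
* `properSpace_adicCompletion323` : `K_v` is a proper metric space;
* `isUltrametricDist_prod323` : `k × k` is ultrametric;
* `qData323` : the binary form `x² + t x y + n y²` with `t² - 4 n ≠ 0` is `QData323`;
* `haarInst323` : the Mathlib instances of a measure with `WX467.IsHaarL`;
* `gaussP_of_ctx323` : the Gauss identity over any proper second countable ultrametric normed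
  field.
-/

set_option autoImplicit false
set_option linter.style.haveILetI false
set_option linter.unusedSectionVars false

open IsDedekindDomain NumberField MeasureTheory
open Fermat.Agent.LT.A2 Fermat.Agent.LT.A2.WX467 Fermat.Agent.LT.A2.LF54

noncomputable section

namespace Fermat.Agent.LT.A2.H323

section Abstract

variable {k : Type} [NormedField k]

/-- `k × k` is ultrametric. -/
theorem isUltrametricDist_prod323 [IsUltrametricDist k] : IsUltrametricDist (k × k) := by
  apply IsUltrametricDist.isUltrametricDist_of_forall_norm_add_le_max_norm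
  intro x y
  rw [Prod.norm_def, Prod.norm_def, Prod.norm_def]
  apply max_le
  · calc ‖(x + y).1‖ = ‖x.1 + y.1‖ := rfl
      _ ≤ max ‖x.1‖ ‖y.1‖ := IsUltrametricDist.norm_add_le_max _ _
      _ ≤ _ := max_le_max (le_max_left _ _) (le_max_left _ _)
  · calc ‖(x + y).2‖ = ‖x.2 + y.2‖ := rfl
      _ ≤ max ‖x.2‖ ‖y.2‖ := IsUltrametricDist.norm_add_le_max _ _
      _ ≤ _ := max_le_max (le_max_right _ _) (le_max_right _ _)

/-- The binary quadratic form with nonzero discriminant is a nondegenerate quadratic form. -/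
theorem qData323 (t n : k) (hdisc : t ^ 2 - 4 * n ≠ 0) :
    QData323 k (k × k) (qfL t n) (fun y z => bfL t n y z) where
  contQ := by
    unfold qfL
    fun_prop
  contB := by
    unfold bfL qfL
    fun_prop
  add := fun y z => by
    simp only [bfL]
    ring
  B_add := fun y z z' => by
    simp only [bfL, qfL, Prod.fst_add, Prod.snd_add]
    ring
  B_symm := fun y z => by
    simp only [bfL, qfL, Prod.fst_add, Prod.snd_add]
    ring
  B_smul := fun c y z => by
    simp only [bfL, qfL, Prod.fst_add, Prod.snd_add, Prod.smul_fst, Prod.smul_snd, smul_eq_mul]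
    ring
  Q_smul := fun c y => by
    simp only [qfL, Prod.smul_fst, Prod.smul_snd, smul_eq_mul]
    ring
  nondeg := by
    have hD : 0 < ‖t ^ 2 - 4 * n‖ := norm_pos_iff.mpr hdisc
    refine ⟨(‖t‖ + ‖(2 : k)‖ * ‖n‖ + ‖(2 : k)‖) / ‖t ^ 2 - 4 * n‖, fun y M hy => ?_⟩
    have h1 := hy (1, 0) (by rw [Prod.norm_def]; simp)
    have h2 := hy (0, 1) (by rw [Prod.norm_def]; simp)
    have e1 : bfL t n y (1, 0) = 2 * y.1 + t * y.2 := by
      simp only [bfL, qfL, Prod.fst_add, Prod.snd_add]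
      ring
    have e2 : bfL t n y (0, 1) = t * y.1 + 2 * n * y.2 := by
      simp only [bfL, qfL, Prod.fst_add, Prod.snd_add]
      ring
    rw [e1] at h1
    rw [e2] at h2
    have hM : 0 ≤ M := (norm_nonneg _).trans h1
    have f1 : (t ^ 2 - 4 * n) * y.1
        = t * (t * y.1 + 2 * n * y.2) - 2 * n * (2 * y.1 + t * y.2) := by ring
    have f2 : (t ^ 2 - 4 * n) * y.2
        = t * (2 * y.1 + t * y.2) - 2 * (t * y.1 + 2 * n * y.2) := by ring
    have g1 : ‖t ^ 2 - 4 * n‖ * ‖y.1‖ ≤ (‖t‖ + ‖(2 : k)‖ * ‖n‖) * M := by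
      rw [← norm_mul, f1]
      calc ‖t * (t * y.1 + 2 * n * y.2) - 2 * n * (2 * y.1 + t * y.2)‖
          ≤ ‖t * (t * y.1 + 2 * n * y.2)‖ + ‖2 * n * (2 * y.1 + t * y.2)‖ := norm_sub_le _ _
        _ = ‖t‖ * ‖t * y.1 + 2 * n * y.2‖ + ‖(2 : k)‖ * ‖n‖ * ‖2 * y.1 + t * y.2‖ := by
            rw [norm_mul, norm_mul, norm_mul]
        _ ≤ ‖t‖ * M + ‖(2 : k)‖ * ‖n‖ * M := by gcongr
        _ = (‖t‖ + ‖(2 : k)‖ * ‖n‖) * M := by ring
    have g2 : ‖t ^ 2 - 4 * n‖ * ‖y.2‖ ≤ (‖t‖ + ‖(2 : k)‖) * M := by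
      rw [← norm_mul, f2]
      calc ‖t * (2 * y.1 + t * y.2) - 2 * (t * y.1 + 2 * n * y.2)‖
          ≤ ‖t * (2 * y.1 + t * y.2)‖ + ‖2 * (t * y.1 + 2 * n * y.2)‖ := norm_sub_le _ _
        _ = ‖t‖ * ‖2 * y.1 + t * y.2‖ + ‖(2 : k)‖ * ‖t * y.1 + 2 * n * y.2‖ := by
            rw [norm_mul, norm_mul]
        _ ≤ ‖t‖ * M + ‖(2 : k)‖ * M := by gcongr
        _ = (‖t‖ + ‖(2 : k)‖) * M := by ring
    have p1 : 0 ≤ ‖(2 : k)‖ * M := mul_nonneg (norm_nonneg _) hM
    have p2 : 0 ≤ ‖(2 : k)‖ * ‖n‖ * M := mul_nonneg (mul_nonneg (norm_nonneg _) (norm_nonneg _)) hM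
    rw [Prod.norm_def, div_mul_eq_mul_div, le_div_iff₀ hD]
    rcases le_total ‖y.1‖ ‖y.2‖ with h | h
    · rw [max_eq_right h]
      nlinarith
    · rw [max_eq_left h]
      nlinarith

/-- The Mathlib instances of a measure with `WX467.IsHaarL`. -/
theorem haarInst323 [LocallyCompactSpace k] (μ : @Measure k (borel k)) (h : IsHaarL μ) :
    letI : MeasurableSpace k := borel k
    μ.IsAddLeftInvariant ∧ IsFiniteMeasureOnCompacts μ ∧ μ.IsOpenPosMeasure := by
  letI : MeasurableSpace k := borel k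
  haveI : BorelSpace k := ⟨rfl⟩
  obtain ⟨hinv, hfin, hpos⟩ := h
  refine ⟨?_, ⟨hfin⟩, ⟨fun U hU hne => (hpos U hU hne).ne'⟩⟩
  refine (forall_measure_preimage_add_iff μ).1 fun x A _ => ?_
  have e : (fun y => x + y) ⁻¹' A = (fun y => -x + y) '' A := by
    rw [Set.image_add_left, neg_neg]
  rw [e]
  exact hinv (-x) A

/-- **The Gauss identity** over a proper second countable ultrametric normed field. -/
theorem gaussP_of_ctx323 [IsUltrametricDist k] [ProperSpace k] [SecondCountableTopology k]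
    (t n : k) (ψ : k → ℂ) (μ : @Measure k (borel k)) (h : Ctx t n ψ μ) :
    ∃ G : k → ℂ, GaussP t n ψ μ G := by
  letI : MeasurableSpace k := borel k
  haveI : BorelSpace k := ⟨rfl⟩
  obtain ⟨hdisc, hchar, hhaar⟩ := h
  obtain ⟨i1, i2, i3⟩ := haarInst323 μ hhaar
  haveI := i1
  haveI := i2
  haveI := i3
  haveI : IsUltrametricDist (k × k) := isUltrametricDist_prod323
  have hQ := qData323 t n hdisc
  have hψ : CharData323 k ψ := ⟨hchar.1, hchar.2.1, hchar.2.2.1, hchar.2.2.2⟩
  have key := fun (a : k) (ha : a ≠ 0) => gauss_identity323 (μ.prod μ) hQ hψ a ha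
  choose g hg using key
  classical
  refine ⟨fun a => if ha : a ≠ 0 then g a ha else 0, fun a ha Φ hΦ ξ => ?_⟩
  beta_reduce
  rw [dif_pos ha]
  exact hg a ha Φ hΦ.1 hΦ.2 ξ

end Abstract

/-- `K_v` is a proper metric space. -/
theorem properSpace_adicCompletion323 (K : Type) [Field K] [NumberField K]
    (v : HeightOneSpectrum (𝓞 K)) : ProperSpace (v.adicCompletion K) := by
  haveI := Fermat.Agent.LT.H11.LC.locallyCompactSpace_adicCompletion_h11 K v
  obtain ⟨π, hπ, hπ0⟩ := Submodule.exists_mem_ne_zero_of_ne_bot v.ne_bot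
  have hval : Valued.v (algebraMap K (v.adicCompletion K) (algebraMap (𝓞 K) K π))
      = v.valuation K (algebraMap (𝓞 K) K π) :=
    HeightOneSpectrum.valuedAdicCompletion_eq_valuation' v _
  have hP1 : ‖algebraMap K (v.adicCompletion K) (algebraMap (𝓞 K) K π)‖ < 1 := by
    rw [Valued.toNormedField.norm_lt_one_iff, hval]
    exact (HeightOneSpectrum.valuation_lt_one_iff_mem v π).mpr hπ
  have hP0 : algebraMap K (v.adicCompletion K) (algebraMap (𝓞 K) K π) ≠ 0 := by
    have hπK : algebraMap (𝓞 K) K π ≠ 0 := by simpa using hπ0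
    simpa using hπK
  letI : NontriviallyNormedField (v.adicCompletion K) :=
    { (inferInstance : NormedField (v.adicCompletion K)) with
      non_trivial := ⟨(algebraMap K (v.adicCompletion K) (algebraMap (𝓞 K) K π))⁻¹, by
        rw [norm_inv]
        exact (one_lt_inv₀ (norm_pos_iff.mpr hP0)).mpr hP1⟩ }
  exact ProperSpace.of_nontriviallyNormedField_of_weaklyLocallyCompactSpace (v.adicCompletion K)

/-- **Leaf 05 GAUSS** (`LF54.LeafGauss`). -/
theorem leafGauss323 : LF54.LeafGauss := by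
  intro K _ _ v t n ψ μ hctx
  haveI := properSpace_adicCompletion323 K v
  haveI := Fermat.Agent.LT.H11.SC.secondCountableTopology_adicCompletion_h11 K v
  exact gaussP_of_ctx323 t n ψ μ hctx

end Fermat.Agent.LT.A2.H323

end

end
-- ===== PACK-END LT/A2/H323/Gauss/Leaf.lean

-- ===== PACK-BEGIN LT/T7/H236/KirVal.lean
section



/-!
# Row LT, tower T7, leaf T7.14.6c.2 `KirValC568` (helper236)

OFF-MAIN.  `kirValC236 (K) : H568.NormValC568 K → H568.KirValC568 K` (the ALLOWED FORM of the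
registry row 1819), VERBATIM against `LT/T7/H568/IdeleSpec.lean` (helper568@4cfb36664, sha256
`ce2f0c61…`) on `LT/T7/H62/RigidStrip.lean` (`9f2a8c04…`), byte-identical copies.

Route: an idele is a unit at almost all places (`finite_ordI236`), so all the `finprod`s are
finite products over the places where `ord_v y ≠ 0`; off the support either the cell condition
fails or one local factor vanishes; on the support `ord_v (idl y) = ord_v y` outside `S` and `0`
on `S` (`ordAt_finprod236`), `N(idl y) = ∏ N v ^ ord_v y` (`absNorm_finprod236`), the squares of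
the factors `N v ^ (-ord_v y / 2)` give `N(idl y)⁻¹`, `archProfile² = ∏ r_w² · archW` and
`NormValC568` gives `|y|_𝔸 = ∏ r_w² · t₀ / N(idl y)` (`mult = 2`, `K` totally complex).
-/

set_option autoImplicit false
set_option linter.unusedSectionVars false
set_option linter.unusedVariables false

open AutomorphicForm IsDedekindDomain NumberField Filter Topology MeasureTheory
open scoped ComplexConjugate

noncomputable section

namespace Fermat.Agent.LT.T7.H236

open Fermat.Agent.LT.H556 Fermat.Agent.LT.H556.A0 Fermat.Agent.LT.T7 Fermat.Agent.LT.T7.Rigid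
open Fermat.Agent.LT.T7.H568

variable {K : Type} [Field K] [NumberField K]

/-! ## 1. An idele is a unit at almost all places -/

theorem val_eq_one_of_int236 (y : (Adl K)ˣ) (v : HeightOneSpectrum (𝓞 K))
    (ha : (y : Adl K).2 v ∈ v.adicCompletionIntegers K)
    (hb : ((y⁻¹ : (Adl K)ˣ) : Adl K).2 v ∈ v.adicCompletionIntegers K) :
    Valued.v ((y : Adl K).2 v) = 1 := by
  have hmul : (y : Adl K).2 v * ((y⁻¹ : (Adl K)ˣ) : Adl K).2 v = 1 := by
    have h := congrArg (fun x : Adl K => x.2 v) (Units.mul_inv y)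
    exact h
  have hval : Valued.v ((y : Adl K).2 v) * Valued.v (((y⁻¹ : (Adl K)ˣ) : Adl K).2 v) = 1 := by
    rw [← map_mul, hmul, map_one]
  rw [HeightOneSpectrum.mem_adicCompletionIntegers] at ha hb
  rcases lt_or_eq_of_le ha with hlt | heq
  · exfalso
    have h4 : Valued.v ((y : Adl K).2 v) * Valued.v (((y⁻¹ : (Adl K)ˣ) : Adl K).2 v)
        ≤ Valued.v ((y : Adl K).2 v) * 1 := mul_le_mul_right hb _
    rw [hval, mul_one] at h4
    exact absurd (lt_of_le_of_lt h4 hlt) (lt_irrefl _)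
  · exact heq

theorem ordI_eq_zero_of_val236 (y : (Adl K)ˣ) (v : HeightOneSpectrum (𝓞 K))
    (h : Valued.v ((y : Adl K).2 v) = 1) : ordI v y = 0 := by
  unfold ordI
  rw [h]
  simp

theorem finite_ordI236 (y : (Adl K)ˣ) : {v : HeightOneSpectrum (𝓞 K) | ordI v y ≠ 0}.Finite := by
  have h1 : ∀ᶠ v in Filter.cofinite, (y : Adl K).2 v ∈ v.adicCompletionIntegers K :=
    (y : Adl K).2.2
  have h2 : ∀ᶠ v in Filter.cofinite,
      ((y⁻¹ : (Adl K)ˣ) : Adl K).2 v ∈ v.adicCompletionIntegers K :=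
    ((y⁻¹ : (Adl K)ˣ) : Adl K).2.2
  have h3 := h1.and h2
  rw [Filter.eventually_cofinite] at h3
  refine h3.subset ?_
  intro v hv
  simp only [Set.mem_ofPred_eq] at hv ⊢
  intro ⟨ha, hb⟩
  exact hv (ordI_eq_zero_of_val236 y v (val_eq_one_of_int236 y v ha hb))

/-! ## 2. Finite products of prime powers -/

theorem mk_ne236 {v w : HeightOneSpectrum (𝓞 K)} (h : w ≠ v) :
    Associates.mk w.asIdeal ≠ Associates.mk v.asIdeal := fun e =>
  h (HeightOneSpectrum.ext (Associates.mk_injective e))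

theorem ordAt_one236 (w : HeightOneSpectrum (𝓞 K)) : ordAt w (1 : Ideal (𝓞 K)) = 0 := by
  unfold ordAt
  rw [Associates.mk_one, Associates.factors_one]
  exact Associates.count_zero w.associates_irreducible

theorem ordAt_pow_self236 (v : HeightOneSpectrum (𝓞 K)) (m : ℕ) :
    ordAt v (v.asIdeal ^ m) = m := by
  unfold ordAt
  rw [Associates.mk_pow,
    Associates.count_pow (Associates.mk_ne_zero.mpr v.ne_bot) v.associates_irreducible,
    Associates.count_self v.associates_irreducible, mul_one]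

theorem ordAt_pow_of_ne236 {v w : HeightOneSpectrum (𝓞 K)} (h : w ≠ v) (m : ℕ) :
    ordAt w (v.asIdeal ^ m) = 0 := by
  unfold ordAt
  rw [Associates.mk_pow,
    Associates.count_pow (Associates.mk_ne_zero.mpr v.ne_bot) w.associates_irreducible,
    Associates.count_eq_zero_of_ne w.associates_irreducible v.associates_irreducible (mk_ne236 h),
    mul_zero]

theorem ordAt_mul236 (w : HeightOneSpectrum (𝓞 K)) {I J : Ideal (𝓞 K)} (hI : I ≠ ⊥)
    (hJ : J ≠ ⊥) : ordAt w (I * J) = ordAt w I + ordAt w J := by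
  unfold ordAt
  rw [← Associates.mk_mul_mk,
    Associates.count_mul (Associates.mk_ne_zero.mpr hI) (Associates.mk_ne_zero.mpr hJ)
      w.associates_irreducible]

theorem prod_pow_ne_bot236 (e : HeightOneSpectrum (𝓞 K) → ℕ)
    (T : Finset (HeightOneSpectrum (𝓞 K))) : (∏ v ∈ T, v.asIdeal ^ e v) ≠ ⊥ := by
  rw [← Ideal.zero_eq_bot]
  exact Finset.prod_ne_zero_iff.mpr fun v _ => pow_ne_zero _ v.ne_bot

open Classical in
theorem ordAt_prod236 (e : HeightOneSpectrum (𝓞 K) → ℕ)
    (T : Finset (HeightOneSpectrum (𝓞 K))) (w : HeightOneSpectrum (𝓞 K)) :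
    ordAt w (∏ v ∈ T, v.asIdeal ^ e v) = if w ∈ T then e w else 0 := by
  induction T using Finset.induction_on with
  | empty =>
    rw [Finset.prod_empty, ordAt_one236, if_neg (Finset.notMem_empty w)]
  | insert v T hv ih =>
    rw [Finset.prod_insert hv, ordAt_mul236 w (pow_ne_zero _ v.ne_bot) (prod_pow_ne_bot236 e T),
      ih]
    by_cases hwv : w = v
    · subst hwv
      rw [ordAt_pow_self236, if_neg hv, if_pos (Finset.mem_insert_self _ _), add_zero]
    · rw [ordAt_pow_of_ne236 hwv, zero_add]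
      by_cases hwT : w ∈ T
      · rw [if_pos hwT, if_pos (Finset.mem_insert_of_mem hwT)]
      · rw [if_neg hwT, if_neg]
        intro h
        rcases Finset.mem_insert.mp h with h | h
        · exact hwv h
        · exact hwT h

/-- The finite product of prime powers with exponents of finite support, as a product over a
`Finset` containing the support. -/
theorem finprod_pow_eq236 (e : HeightOneSpectrum (𝓞 K) → ℕ)
    (T : Finset (HeightOneSpectrum (𝓞 K))) (hT : ∀ v, e v ≠ 0 → v ∈ T) :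
    (∏ᶠ v : HeightOneSpectrum (𝓞 K), v.asIdeal ^ e v) = ∏ v ∈ T, v.asIdeal ^ e v := by
  refine finprod_eq_prod_of_mulSupport_subset _ ?_
  intro v hv
  rw [Function.mem_mulSupport] at hv
  refine Finset.mem_coe.mpr (hT v ?_)
  intro h0
  exact hv (by rw [h0, pow_zero])

theorem ordAt_finprod236 (e : HeightOneSpectrum (𝓞 K) → ℕ)
    (T : Finset (HeightOneSpectrum (𝓞 K))) (hT : ∀ v, e v ≠ 0 → v ∈ T)
    (w : HeightOneSpectrum (𝓞 K)) :
    ordAt w (∏ᶠ v : HeightOneSpectrum (𝓞 K), v.asIdeal ^ e v) = e w := by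
  rw [finprod_pow_eq236 e T hT, ordAt_prod236]
  split_ifs with h
  · rfl
  · by_contra hne
    exact h (hT w (fun h0 => hne h0.symm))

theorem finprod_pow_ne_bot236 (e : HeightOneSpectrum (𝓞 K) → ℕ)
    (T : Finset (HeightOneSpectrum (𝓞 K))) (hT : ∀ v, e v ≠ 0 → v ∈ T) :
    (∏ᶠ v : HeightOneSpectrum (𝓞 K), v.asIdeal ^ e v) ≠ ⊥ := by
  rw [finprod_pow_eq236 e T hT]
  exact prod_pow_ne_bot236 e T

theorem absNorm_finprod236 (e : HeightOneSpectrum (𝓞 K) → ℕ)
    (T : Finset (HeightOneSpectrum (𝓞 K))) (hT : ∀ v, e v ≠ 0 → v ∈ T) :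
    ((Ideal.absNorm (∏ᶠ v : HeightOneSpectrum (𝓞 K), v.asIdeal ^ e v) : ℕ) : ℝ)
      = ∏ v ∈ T, nv v ^ e v := by
  rw [finprod_pow_eq236 e T hT, map_prod, Nat.cast_prod]
  refine Finset.prod_congr rfl fun v _ => ?_
  rw [map_pow, Nat.cast_pow]
  rfl

theorem nv_pos236 (v : HeightOneSpectrum (𝓞 K)) : 0 < nv v := by
  unfold nv
  have : Ideal.absNorm v.asIdeal ≠ 0 := fun h0 => v.ne_bot (Ideal.absNorm_eq_zero_iff.mp h0)
  exact_mod_cast Nat.pos_of_ne_zero this

/-! ## 3. The exponents of the idele outside `S` -/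

open Classical in
/-- The exponent of `idl568 S y` at `v`. -/
def expo236 (S : Finset (HeightOneSpectrum (𝓞 K))) (y : (Adl K)ˣ)
    (v : HeightOneSpectrum (𝓞 K)) : ℕ :=
  if v ∈ S then 0 else (ordI v y).toNat

theorem expo_mem236 (S : Finset (HeightOneSpectrum (𝓞 K))) (y : (Adl K)ˣ)
    {v : HeightOneSpectrum (𝓞 K)} (h : v ∈ S) : expo236 S y v = 0 := by
  unfold expo236
  rw [if_pos h]

theorem expo_notMem236 (S : Finset (HeightOneSpectrum (𝓞 K))) (y : (Adl K)ˣ)
    {v : HeightOneSpectrum (𝓞 K)} (h : v ∉ S) : expo236 S y v = (ordI v y).toNat := by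
  unfold expo236
  rw [if_neg h]

theorem expo_supp236 (S : Finset (HeightOneSpectrum (𝓞 K))) (y : (Adl K)ˣ)
    (v : HeightOneSpectrum (𝓞 K)) (h : expo236 S y v ≠ 0) :
    v ∈ (finite_ordI236 y).toFinset := by
  rw [Set.Finite.mem_toFinset, Set.mem_ofPred_eq]
  intro h0
  apply h
  by_cases hv : v ∈ S
  · exact expo_mem236 S y hv
  · rw [expo_notMem236 S y hv, h0]
    rfl

theorem idl_eq236 (S : Finset (HeightOneSpectrum (𝓞 K))) (y : (Adl K)ˣ) :
    idl568 S y = ∏ᶠ v : HeightOneSpectrum (𝓞 K), v.asIdeal ^ expo236 S y v := by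
  unfold idl568
  refine finprod_congr fun v => ?_
  by_cases hv : v ∈ S
  · rw [if_pos hv, expo_mem236 S y hv, pow_zero]
  · rw [if_neg hv, expo_notMem236 S y hv]

theorem ordAt_idl236 (S : Finset (HeightOneSpectrum (𝓞 K))) (y : (Adl K)ˣ)
    (w : HeightOneSpectrum (𝓞 K)) : ordAt w (idl568 S y) = expo236 S y w := by
  rw [idl_eq236]
  exact ordAt_finprod236 _ _ (expo_supp236 S y) w

theorem idl_ne_bot236 (S : Finset (HeightOneSpectrum (𝓞 K))) (y : (Adl K)ˣ) :
    idl568 S y ≠ ⊥ := by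
  rw [idl_eq236]
  exact finprod_pow_ne_bot236 _ _ (expo_supp236 S y)

theorem absNorm_idl236 (S : Finset (HeightOneSpectrum (𝓞 K))) (y : (Adl K)ˣ) :
    ((Ideal.absNorm (idl568 S y) : ℕ) : ℝ)
      = ∏ v ∈ (finite_ordI236 y).toFinset, nv v ^ expo236 S y v := by
  rw [idl_eq236]
  exact absNorm_finprod236 _ _ (expo_supp236 S y)

theorem idl_primeTo236 (S : Finset (HeightOneSpectrum (𝓞 K))) (y : (Adl K)ˣ) :
    ¬ (idl568 S y = ⊥ ∨ ∃ v ∈ (S : Set (HeightOneSpectrum (𝓞 K))), idl568 S y ≤ v.asIdeal) := by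
  rintro (h | ⟨v, hv, hle⟩)
  · exact idl_ne_bot236 S y h
  · have h1 : ordAt v (idl568 S y) ≠ 0 := by
      unfold ordAt
      rw [Associates.count_ne_zero_iff_dvd (idl_ne_bot236 S y) v.irreducible, Ideal.dvd_iff_le]
      exact hle
    rw [ordAt_idl236, expo_mem236 S y (Finset.mem_coe.mp hv)] at h1
    exact h1 rfl

/-! ## 4. The finite part of the Kirillov function -/

theorem hpoly_zero236 (a : ℂ) : hpoly a 0 = 1 := rfl

theorem locFactor_zero236 (v : HeightOneSpectrum (𝓞 K)) (a : ℂ) : locFactor v a 0 = 1 := by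
  unfold locFactor
  rw [if_pos le_rfl]
  simp [hpoly_zero236]

theorem locFactor_neg236 (v : HeightOneSpectrum (𝓞 K)) (a : ℂ) {m : ℤ} (h : m < 0) :
    locFactor v a m = 0 := by
  unfold locFactor
  rw [if_neg (not_le.mpr h)]

theorem locFactor_nonneg236 (v : HeightOneSpectrum (𝓞 K)) (a : ℂ) {m : ℤ} (h : 0 ≤ m) :
    locFactor v a m = ((nv v ^ (-(m : ℝ) / 2) : ℝ) : ℂ) * hpoly a m.toNat := by
  unfold locFactor
  rw [if_pos h]

open Classical in
/-- The local factor of `kir` at `v`. -/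
def fac236 (a : HeightOneSpectrum (𝓞 K) → ℂ) (S : Finset (HeightOneSpectrum (𝓞 K)))
    (y : (Adl K)ˣ) (v : HeightOneSpectrum (𝓞 K)) : ℂ :=
  if v ∈ S then 1 else locFactor v (a v) (ordI v y)

open Classical in
/-- The normalising factor `N v ^ (-ord_v y / 2)` at `v ∉ S`. -/
def pf236 (S : Finset (HeightOneSpectrum (𝓞 K))) (y : (Adl K)ˣ)
    (v : HeightOneSpectrum (𝓞 K)) : ℝ :=
  if v ∈ S then 1 else nv v ^ (-(ordI v y : ℝ) / 2)

theorem fac_supp236 (a : HeightOneSpectrum (𝓞 K) → ℂ) (S : Finset (HeightOneSpectrum (𝓞 K)))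
    (y : (Adl K)ˣ) :
    Function.mulSupport (fac236 a S y) ⊆ ((finite_ordI236 y).toFinset : Set _) := by
  intro v hv
  rw [Function.mem_mulSupport] at hv
  rw [Finset.mem_coe, Set.Finite.mem_toFinset, Set.mem_ofPred_eq]
  intro h0
  apply hv
  unfold fac236
  split_ifs
  · rfl
  · rw [h0, locFactor_zero236]

theorem finprod_fac236 (a : HeightOneSpectrum (𝓞 K) → ℂ) (S : Finset (HeightOneSpectrum (𝓞 K)))
    (y : (Adl K)ˣ) :
    (∏ᶠ v : HeightOneSpectrum (𝓞 K), fac236 a S y v)
      = ∏ v ∈ (finite_ordI236 y).toFinset, fac236 a S y v :=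
  finprod_eq_prod_of_mulSupport_subset _ (fac_supp236 a S y)

theorem kir_eq236 (a : HeightOneSpectrum (𝓞 K) → ℂ) (S : Finset (HeightOneSpectrum (𝓞 K)))
    (𝔪 : Ideal (𝓞 K)) (y₀ : (Adl K)ˣ) (c : InfinitePlace K → ℝ) (y : (Adl K)ˣ)
    (h : InCell S 𝔪 y₀ y) :
    kir a S 𝔪 y₀ c y
      = ((archProfile c y : ℝ) : ℂ) * ∏ v ∈ (finite_ordI236 y).toFinset, fac236 a S y v := by
  rw [← finprod_fac236]
  unfold kir
  rw [if_pos h, mul_one]
  rfl

theorem kir_eq_zero236 (a : HeightOneSpectrum (𝓞 K) → ℂ) (S : Finset (HeightOneSpectrum (𝓞 K)))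
    (𝔪 : Ideal (𝓞 K)) (y₀ : (Adl K)ˣ) (c : InfinitePlace K → ℝ) (y : (Adl K)ˣ)
    (h : ¬ OnSupp568 S 𝔪 y₀ y) : kir a S 𝔪 y₀ c y = 0 := by
  by_cases hc : InCell S 𝔪 y₀ y
  · have hex : ∃ v : HeightOneSpectrum (𝓞 K), v ∉ S ∧ ordI v y < 0 := by
      by_contra hcon
      apply h
      refine ⟨hc, fun v hv => ?_⟩
      by_contra hneg
      exact hcon ⟨v, hv, not_le.mp hneg⟩
    obtain ⟨v, hvS, hv⟩ := hex
    rw [kir_eq236 a S 𝔪 y₀ c y hc]
    have hvT : v ∈ (finite_ordI236 y).toFinset := by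
      rw [Set.Finite.mem_toFinset, Set.mem_ofPred_eq]
      exact ne_of_lt hv
    have h0 : fac236 a S y v = 0 := by
      unfold fac236
      rw [if_neg hvS, locFactor_neg236 v (a v) hv]
    rw [Finset.prod_eq_zero hvT h0, mul_zero]
  · unfold kir
    rw [if_neg hc, mul_zero, zero_mul]

theorem fac_onSupp236 (a : HeightOneSpectrum (𝓞 K) → ℂ) (S : Finset (HeightOneSpectrum (𝓞 K)))
    (y : (Adl K)ˣ) (h : ∀ v : HeightOneSpectrum (𝓞 K), v ∉ S → 0 ≤ ordI v y)
    (v : HeightOneSpectrum (𝓞 K)) :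
    fac236 a S y v = ((pf236 S y v : ℝ) : ℂ) * hpoly (a v) (expo236 S y v) := by
  by_cases hv : v ∈ S
  · unfold fac236 pf236
    rw [if_pos hv, if_pos hv, expo_mem236 S y hv, hpoly_zero236]
    simp
  · unfold fac236 pf236
    rw [if_neg hv, if_neg hv, expo_notMem236 S y hv, locFactor_nonneg236 v (a v) (h v hv)]

theorem coef_idl236 (a : HeightOneSpectrum (𝓞 K) → ℂ) (S : Finset (HeightOneSpectrum (𝓞 K)))
    (y : (Adl K)ˣ) :
    coef a (S : Set (HeightOneSpectrum (𝓞 K))) (idl568 S y)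
      = ∏ v ∈ (finite_ordI236 y).toFinset, hpoly (a v) (expo236 S y v) := by
  unfold coef
  rw [if_neg (idl_primeTo236 S y)]
  have hfun : (fun v : HeightOneSpectrum (𝓞 K) => hpoly (a v) (ordAt v (idl568 S y)))
      = fun v => hpoly (a v) (expo236 S y v) := by
    funext v
    rw [ordAt_idl236]
  rw [hfun]
  refine finprod_eq_prod_of_mulSupport_subset _ ?_
  intro v hv
  rw [Function.mem_mulSupport] at hv
  refine Finset.mem_coe.mpr (expo_supp236 S y v ?_)
  intro h0
  exact hv (by rw [h0, hpoly_zero236])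

theorem pf_sq236 (S : Finset (HeightOneSpectrum (𝓞 K))) (y : (Adl K)ˣ)
    (h : ∀ v : HeightOneSpectrum (𝓞 K), v ∉ S → 0 ≤ ordI v y) (v : HeightOneSpectrum (𝓞 K)) :
    pf236 S y v * pf236 S y v * nv v ^ expo236 S y v = 1 := by
  by_cases hv : v ∈ S
  · unfold pf236
    rw [if_pos hv, expo_mem236 S y hv, pow_zero]
    norm_num
  · unfold pf236
    rw [if_neg hv, expo_notMem236 S y hv]
    have hpos := nv_pos236 v
    have hm : (((ordI v y).toNat : ℕ) : ℝ) = (ordI v y : ℝ) := by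
      have : (((ordI v y).toNat : ℕ) : ℤ) = ordI v y := Int.toNat_of_nonneg (h v hv)
      exact_mod_cast this
    rw [← Real.rpow_natCast, hm, ← Real.rpow_add hpos, ← Real.rpow_add hpos]
    have : -(ordI v y : ℝ) / 2 + -(ordI v y : ℝ) / 2 + (ordI v y : ℝ) = 0 := by ring
    rw [this, Real.rpow_zero]

theorem prod_pf_sq236 (S : Finset (HeightOneSpectrum (𝓞 K))) (y : (Adl K)ˣ)
    (h : ∀ v : HeightOneSpectrum (𝓞 K), v ∉ S → 0 ≤ ordI v y) :
    (∏ v ∈ (finite_ordI236 y).toFinset, pf236 S y v) *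
        (∏ v ∈ (finite_ordI236 y).toFinset, pf236 S y v) *
        ((Ideal.absNorm (idl568 S y) : ℕ) : ℝ) = 1 := by
  rw [absNorm_idl236, ← Finset.prod_mul_distrib, ← Finset.prod_mul_distrib]
  exact Finset.prod_eq_one fun v _ => pf_sq236 S y h v

theorem kir_onSupp236 (a : HeightOneSpectrum (𝓞 K) → ℂ) (S : Finset (HeightOneSpectrum (𝓞 K)))
    (𝔪 : Ideal (𝓞 K)) (y₀ : (Adl K)ˣ) (c : InfinitePlace K → ℝ) (y : (Adl K)ˣ)
    (h : OnSupp568 S 𝔪 y₀ y) :
    kir a S 𝔪 y₀ c y
      = ((archProfile c y : ℝ) : ℂ) *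
          (((∏ v ∈ (finite_ordI236 y).toFinset, pf236 S y v : ℝ) : ℂ) *
            coef a (S : Set (HeightOneSpectrum (𝓞 K))) (idl568 S y)) := by
  rw [kir_eq236 a S 𝔪 y₀ c y h.1, coef_idl236]
  congr 1
  rw [Finset.prod_congr rfl fun v _ => fac_onSupp236 a S y h.2 v, Finset.prod_mul_distrib]
  push_cast
  rfl

/-! ## 5. The archimedean part -/

theorem rad_ne_zero236 (y : (Adl K)ˣ) (w : InfinitePlace K) : rad568 y w ≠ 0 := by
  unfold rad568
  rw [norm_ne_zero_iff]
  intro h
  have h1 : ((y : Adl K) * ((y⁻¹ : (Adl K)ˣ) : Adl K)).1 w = (1 : Adl K).1 w := by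
    rw [Units.mul_inv]
  have h2 : ((y : Adl K) * ((y⁻¹ : (Adl K)ˣ) : Adl K)).1 w
      = (y : Adl K).1 w * ((y⁻¹ : (Adl K)ˣ) : Adl K).1 w := rfl
  have h3 : (1 : Adl K).1 w = 1 := rfl
  rw [h2, h3, h, zero_mul] at h1
  exact zero_ne_one h1

theorem archProfile_sq236 (hK : TotCplx K) (c : InfinitePlace K → ℝ) (y : (Adl K)ˣ) :
    archProfile c y * archProfile c y
      = (∏ w : InfinitePlace K, rad568 y w ^ w.mult) * archW568 c (rad568 y) := by
  unfold archProfile archW568
  rw [← Finset.prod_mul_distrib, ← Finset.prod_mul_distrib]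
  refine Finset.prod_congr rfl fun w _ => ?_
  have hm : w.mult = 2 := by
    unfold InfinitePlace.mult
    rw [if_neg (InfinitePlace.not_isReal_iff_isComplex.mpr (hK w))]
  rw [hm]
  unfold rad568
  ring

theorem prod_rad_ne_zero236 (y : (Adl K)ˣ) :
    (∏ w : InfinitePlace K, rad568 y w ^ w.mult) ≠ 0 :=
  Finset.prod_ne_zero_iff.mpr fun w _ => pow_ne_zero _ (rad_ne_zero236 y w)

/-! ## 6. The leaf -/

/-- **T7.14.6c.2 KIR-VAL** in the allowed form. -/
theorem kirValC236 (K : Type) [Field K] [NumberField K] :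
    H568.NormValC568 K → H568.KirValC568 K := by
  classical
  intro hN hK S 𝔪 y₀ c hsupp a a' y
  by_cases hy : OnSupp568 S 𝔪 y₀ y
  · rw [if_pos hy]
    obtain ⟨-, hnorm⟩ := hN S 𝔪 y₀ hsupp y hy
    rw [kir_onSupp236 a S 𝔪 y₀ c y hy, kir_onSupp236 a' S 𝔪 y₀ c y hy, hnorm]
    set P : ℝ := ∏ v ∈ (finite_ordI236 y).toFinset, pf236 S y v with hP
    set R : ℝ := ∏ w : InfinitePlace K, rad568 y w ^ w.mult with hR
    set N : ℝ := ((Ideal.absNorm (idl568 S y) : ℕ) : ℝ) with hNdef
    have hPN : P * P * N = 1 := prod_pf_sq236 S y hy.2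
    have hA : archProfile c y * archProfile c y = R * archW568 c (rad568 y) :=
      archProfile_sq236 hK c y
    have hR0 : R ≠ 0 := prod_rad_ne_zero236 y
    have ht0 : cellNorm568 S y₀ ≠ 0 := ne_of_gt (cellNorm_pos568 S y₀)
    have hN0 : N ≠ 0 := by
      intro h0
      rw [h0, mul_zero] at hPN
      exact zero_ne_one hPN
    unfold coef2
    rw [map_mul, map_mul, Complex.conj_ofReal, Complex.conj_ofReal]
    have hPNc : ((P : ℝ) : ℂ) * ((P : ℝ) : ℂ) * ((N : ℝ) : ℂ) = 1 := by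
      exact_mod_cast hPN
    have hAc : ((archProfile c y : ℝ) : ℂ) * ((archProfile c y : ℝ) : ℂ)
        = ((R : ℝ) : ℂ) * ((archW568 c (rad568 y) : ℝ) : ℂ) := by
      exact_mod_cast hA
    have hR0c : ((R : ℝ) : ℂ) ≠ 0 := Complex.ofReal_ne_zero.mpr hR0
    have ht0c : ((cellNorm568 S y₀ : ℝ) : ℂ) ≠ 0 := Complex.ofReal_ne_zero.mpr ht0
    have hN0c : ((N : ℝ) : ℂ) ≠ 0 := Complex.ofReal_ne_zero.mpr hN0
    push_cast
    field_simp
    linear_combination
      (coef a (S : Set (HeightOneSpectrum (𝓞 K))) (idl568 S y) *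
        conj (coef a' (S : Set (HeightOneSpectrum (𝓞 K))) (idl568 S y)) *
        ((P : ℝ) : ℂ) * ((P : ℝ) : ℂ) * ((N : ℝ) : ℂ)) * hAc +
      (coef a (S : Set (HeightOneSpectrum (𝓞 K))) (idl568 S y) *
        conj (coef a' (S : Set (HeightOneSpectrum (𝓞 K))) (idl568 S y)) *
        ((R : ℝ) : ℂ) * ((archW568 c (rad568 y) : ℝ) : ℂ)) * hPNc
  · rw [if_neg hy, kir_eq_zero236 a S 𝔪 y₀ c y hy, zero_mul, zero_mul]

end Fermat.Agent.LT.T7.H236

end

end
-- ===== PACK-END LT/T7/H236/KirVal.lean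

-- ===== PACK-BEGIN LT/T7/H319/NormMeas.lean
section



/-!
# Row LT, tower T7, leaf T7.14.6c.5 `NormMeasC568` (registry 1821; helper319)

OFF-MAIN.  Imports (byte-identical copies) `LT/T7/H568/IdeleSpec.lean` (helper568@4cfb36664) and
`LT/T1/H309/AdNorm.lean` (helper309, sha256 `d3463a0f…`, the file of the closed tower T1,
helper54@272e43fd2).  No definition.

`normMeasC319 K : H568.NormMeasC568 K`: `{y : Y ≤ |y|_𝔸}` is a Borel set of the idele group.

Proof.  The idele norm is CONTINUOUS on the idele group (`continuous_adNorm309`, tower T1; the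
modules `T1.adNorm` and `T5.adNorm` are the same expression), so the set is closed.
-/

set_option autoImplicit false
set_option linter.style.haveILetI false

open IsDedekindDomain NumberField MeasureTheory
open Fermat.Agent.LT.H556.A0

noncomputable section

namespace Fermat.Agent.LT.T7.H319

variable (K : Type) [Field K] [NumberField K]

/-- The module of tower T5 is the module of tower T1. -/
theorem adNorm_T5_eq_T1_319 (x : Adl K) :
    Fermat.Agent.LT.T5.adNorm x = Fermat.Agent.LT.T1.adNorm K x := rfl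

/-- The idele norm (in the form of tower T5) is continuous on the idele group. -/
theorem continuous_adNorm_T5_319 :
    Continuous fun y : (Adl K)ˣ => Fermat.Agent.LT.T5.adNorm (y : Adl K) :=
  Fermat.Agent.LT.T1.H309.continuous_adNorm309 K

/-- `{y : Y ≤ |y|_𝔸}` is closed in the idele group. -/
theorem isClosed_le_adNorm319 (Y : ℝ) :
    IsClosed {y : (Adl K)ˣ | Y ≤ Fermat.Agent.LT.T5.adNorm (y : Adl K)} :=
  isClosed_le continuous_const (continuous_adNorm_T5_319 K)

/-- **T7.14.6c.5 `NormMeasC568`** (verbatim, `LT/T7/H568/IdeleSpec.lean`). -/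
theorem normMeasC319 : Fermat.Agent.LT.T7.H568.NormMeasC568 K := by
  letI : MeasurableSpace (Adl K)ˣ := borel (Adl K)ˣ
  haveI : BorelSpace (Adl K)ˣ := ⟨rfl⟩
  intro Y
  exact (isClosed_le_adNorm319 K Y).measurableSet

end Fermat.Agent.LT.T7.H319

end

end
-- ===== PACK-END LT/T7/H319/NormMeas.lean

-- ===== PACK-BEGIN LT/T7/H671/LimBasic.lean
section





/-!
# Row LT, tower T7, leaf `CountLimC`: basic lemmas for the vocabulary of `LimSpec.lean` (helper671)

OFF-MAIN.  No `sorry`, nothing assumed.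
-/

set_option autoImplicit false

open AutomorphicForm IsDedekindDomain NumberField Filter Topology MeasureTheory
open NumberField.mixedEmbedding NumberField.InfinitePlace

noncomputable section

namespace Fermat.Agent.LT.T7.H671

open Fermat.Agent.LT.H556 Fermat.Agent.LT.H556.A0 Fermat.Agent.LT.T7 Fermat.Agent.LT.T7.Rigid

variable {K : Type} [Field K] [NumberField K]

/-! ## The diagonal matrices of finite ideles -/

theorem finIdl671_fst (a : (FiniteAdeleRing (𝓞 K) K)ˣ) :
    ((finIdl671 a : (Adl K)ˣ) : Adl K).1 = 1 := rfl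

theorem finIdl671_snd (a : (FiniteAdeleRing (𝓞 K) K)ˣ) :
    ((finIdl671 a : (Adl K)ˣ) : Adl K).2 = (a : FiniteAdeleRing (𝓞 K) K) := rfl

theorem finIdl671_mul (a b : (FiniteAdeleRing (𝓞 K) K)ˣ) :
    finIdl671 (a * b) = finIdl671 a * finIdl671 b := by
  apply Units.ext
  rw [Units.val_mul, finIdl671_val, finIdl671_val, finIdl671_val]
  refine Prod.ext ?_ ?_
  · show (1 : InfiniteAdeleRing K) = 1 * 1
    rw [one_mul]
  · show ((a * b : (FiniteAdeleRing (𝓞 K) K)ˣ) : FiniteAdeleRing (𝓞 K) K)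
      = (a : FiniteAdeleRing (𝓞 K) K) * (b : FiniteAdeleRing (𝓞 K) K)
    rw [Units.val_mul]

theorem finIdl671_one : finIdl671 (1 : (FiniteAdeleRing (𝓞 K) K)ˣ) = 1 := by
  apply Units.ext
  rw [finIdl671_val]
  rfl

theorem dgF671_val (a b : (FiniteAdeleRing (𝓞 K) K)ˣ) :
    ((dgF671 a b : G K) : Matrix (Fin 2) (Fin 2) (Adl K))
      = !![((finIdl671 a : (Adl K)ˣ) : Adl K), 0; 0, ((finIdl671 b : (Adl K)ˣ) : Adl K)] := rfl

theorem dgF671_mul (a b a' b' : (FiniteAdeleRing (𝓞 K) K)ˣ) :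
    dgF671 a b * dgF671 a' b' = dgF671 (a * a') (b * b') := by
  apply Units.ext
  rw [Units.val_mul, dgF671_val, dgF671_val, dgF671_val, finIdl671_mul, finIdl671_mul]
  ext i j
  fin_cases i <;> fin_cases j <;> simp [Matrix.mul_apply, Fin.sum_univ_two]

theorem dgF671_one : dgF671 (1 : (FiniteAdeleRing (𝓞 K) K)ˣ) 1 = 1 := by
  apply Units.ext
  rw [dgF671_val, finIdl671_one]
  ext i j
  fin_cases i <;> fin_cases j <;> simp

theorem scF671_one : scF671 (1 : (FiniteAdeleRing (𝓞 K) K)ˣ) = 1 := dgF671_one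

theorem rowOf_mul_dgF671 (ξ : Fin 2 → K) (h : G K) (a b : (FiniteAdeleRing (𝓞 K) K)ˣ) :
    rowOf ξ (h * dgF671 a b) = rowDg671 a b (rowOf ξ h) := by
  funext j
  unfold rowOf rowDg671
  rw [Units.val_mul, dgF671_val]
  fin_cases j <;> simp [Matrix.mul_apply, Fin.sum_univ_two] <;> ring

theorem rowDg671_zero_fst (a b : (FiniteAdeleRing (𝓞 K) K)ˣ) (r : Fin 2 → Adl K) :
    (rowDg671 a b r 0).1 = (r 0).1 := by
  show (r 0).1 * 1 = (r 0).1
  rw [mul_one]

theorem rowDg671_one_fst (a b : (FiniteAdeleRing (𝓞 K) K)ˣ) (r : Fin 2 → Adl K) :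
    (rowDg671 a b r 1).1 = (r 1).1 := by
  show (r 1).1 * 1 = (r 1).1
  rw [mul_one]

theorem rowDg671_zero_snd (a b : (FiniteAdeleRing (𝓞 K) K)ˣ) (r : Fin 2 → Adl K)
    (v : HeightOneSpectrum (𝓞 K)) :
    (rowDg671 a b r 0).2 v = (r 0).2 v * (a : FiniteAdeleRing (𝓞 K) K) v := rfl

theorem rowDg671_one_snd (a b : (FiniteAdeleRing (𝓞 K) K)ˣ) (r : Fin 2 → Adl K)
    (v : HeightOneSpectrum (𝓞 K)) :
    (rowDg671 a b r 1).2 v = (r 1).2 v * (b : FiniteAdeleRing (𝓞 K) K) v := rfl

theorem pairOf671_rowDg (a b : (FiniteAdeleRing (𝓞 K) K)ˣ) (r : Fin 2 → Adl K) :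
    pairOf671 (rowDg671 a b r) = pairOf671 r := by
  unfold pairOf671 infMixed671
  rw [rowDg671_zero_fst, rowDg671_one_fst]

theorem pairOf671_rowOf_mul_dgF (ξ : Fin 2 → K) (h : G K) (a b : (FiniteAdeleRing (𝓞 K) K)ˣ) :
    pairOf671 (rowOf ξ (h * dgF671 a b)) = pairOf671 (rowOf ξ h) := by
  rw [rowOf_mul_dgF671, pairOf671_rowDg]

/-! ## Norms -/

theorem adNorm_finIdl671 (a : (FiniteAdeleRing (𝓞 K) K)ˣ) :
    Fermat.Agent.LT.T5.adNorm ((finIdl671 a : (Adl K)ˣ) : Adl K) = finNormI671 a := by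
  unfold Fermat.Agent.LT.T5.adNorm finNormI671
  rw [finIdl671_fst, finIdl671_snd]
  have h1 : ∏ w : InfinitePlace K, ‖(1 : InfiniteAdeleRing K) w‖ ^ w.mult = 1 := by
    refine Finset.prod_eq_one fun w _ => ?_
    have : (1 : InfiniteAdeleRing K) w = 1 := rfl
    rw [this, norm_one, one_pow]
  rw [h1, one_mul]

theorem finNormI671_pos (a : (FiniteAdeleRing (𝓞 K) K)ˣ) : 0 < finNormI671 a := by
  rw [← adNorm_finIdl671]
  exact Fermat.Agent.LT.T1.H309.adNorm_pos309 K (finIdl671 a)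

theorem finNormI671_mul (a b : (FiniteAdeleRing (𝓞 K) K)ˣ) :
    finNormI671 (a * b) = finNormI671 a * finNormI671 b := by
  rw [← adNorm_finIdl671, ← adNorm_finIdl671, ← adNorm_finIdl671, finIdl671_mul]
  exact Fermat.Agent.LT.T1.H309.adNorm_mul309 K (finIdl671 a) (finIdl671 b)

theorem finNormI671_one : finNormI671 (1 : (FiniteAdeleRing (𝓞 K) K)ˣ) = 1 := by
  unfold finNormI671
  have : ∀ v : HeightOneSpectrum (𝓞 K),
      ‖((1 : (FiniteAdeleRing (𝓞 K) K)ˣ) : FiniteAdeleRing (𝓞 K) K) v‖ = 1 := fun v => by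
    have h : ((1 : (FiniteAdeleRing (𝓞 K) K)ˣ) : FiniteAdeleRing (𝓞 K) K) v = 1 := rfl
    rw [h, norm_one]
  simp only [this, finprod_one]

theorem finNormI671_inv (a : (FiniteAdeleRing (𝓞 K) K)ˣ) :
    finNormI671 a⁻¹ = (finNormI671 a)⁻¹ := by
  have h := finNormI671_mul a a⁻¹
  rw [mul_inv_cancel, finNormI671_one] at h
  exact eq_inv_of_mul_eq_one_right h.symm

theorem det_dgF671 (a b : (FiniteAdeleRing (𝓞 K) K)ˣ) :
    Matrix.det ((dgF671 a b : G K) : Matrix (Fin 2) (Fin 2) (Adl K))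
      = ((finIdl671 a * finIdl671 b : (Adl K)ˣ) : Adl K) := by
  rw [dgF671_val, Matrix.det_fin_two_of, mul_zero, sub_zero, Units.val_mul]

theorem adNorm_det_mul_dgF671 (h : G K) (a b : (FiniteAdeleRing (𝓞 K) K)ˣ) :
    Fermat.Agent.LT.T5.adNorm
        (Matrix.det ((h * dgF671 a b : G K) : Matrix (Fin 2) (Fin 2) (Adl K)))
      = Fermat.Agent.LT.T5.adNorm (Matrix.det (h : Matrix (Fin 2) (Fin 2) (Adl K)))
        * finNormI671 a * finNormI671 b := by
  rw [Units.val_mul, Matrix.det_mul, det_dgF671]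
  have hd : Matrix.det (h : Matrix (Fin 2) (Fin 2) (Adl K))
      = ((Matrix.GeneralLinearGroup.det h : (Adl K)ˣ) : Adl K) := rfl
  rw [hd, ← Units.val_mul]
  have h1 := Fermat.Agent.LT.T1.H309.adNorm_mul309 K (Matrix.GeneralLinearGroup.det h)
    (finIdl671 a * finIdl671 b)
  have h2 := Fermat.Agent.LT.T1.H309.adNorm_mul309 K (finIdl671 a) (finIdl671 b)
  have e1 : Fermat.Agent.LT.T5.adNorm
      (((Matrix.GeneralLinearGroup.det h * (finIdl671 a * finIdl671 b) : (Adl K)ˣ)) : Adl K)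
      = Fermat.Agent.LT.T1.adNorm K
        (((Matrix.GeneralLinearGroup.det h * (finIdl671 a * finIdl671 b) : (Adl K)ˣ)) : Adl K) :=
    rfl
  rw [e1, h1, h2]
  have e2 : Fermat.Agent.LT.T1.adNorm K ((finIdl671 a : (Adl K)ˣ) : Adl K) = finNormI671 a :=
    adNorm_finIdl671 a
  have e3 : Fermat.Agent.LT.T1.adNorm K ((finIdl671 b : (Adl K)ˣ) : Adl K) = finNormI671 b :=
    adNorm_finIdl671 b
  rw [e2, e3, mul_assoc]
  rfl

theorem adNorm_det_pos671 (h : G K) :
    0 < Fermat.Agent.LT.T5.adNorm (Matrix.det (h : Matrix (Fin 2) (Fin 2) (Adl K))) :=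
  Fermat.Agent.LT.T1.H309.adNorm_pos309 K (Matrix.GeneralLinearGroup.det h)

/-! ## Injectivity of `ξ ↦ (ξ h)_∞` -/

theorem rowOf_inv_fst671 (ξ : Fin 2 → K) (h : G K) (k : Fin 2) :
    (algebraMap K (Adl K) (ξ k)).1
      = (rowOf ξ h 0).1 * ((((h⁻¹ : G K) : Matrix (Fin 2) (Fin 2) (Adl K)) 0 k)).1
        + (rowOf ξ h 1).1 * ((((h⁻¹ : G K) : Matrix (Fin 2) (Fin 2) (Adl K)) 1 k)).1 := by
  have hmul : (h : Matrix (Fin 2) (Fin 2) (Adl K)) * ((h⁻¹ : G K) : Matrix (Fin 2) (Fin 2) (Adl K))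
      = 1 := by
    rw [← Units.val_mul, mul_inv_cancel, Units.val_one]
  have h0 : ∀ i : Fin 2, (h : Matrix (Fin 2) (Fin 2) (Adl K)) i 0
        * ((h⁻¹ : G K) : Matrix (Fin 2) (Fin 2) (Adl K)) 0 k
      + (h : Matrix (Fin 2) (Fin 2) (Adl K)) i 1
        * ((h⁻¹ : G K) : Matrix (Fin 2) (Fin 2) (Adl K)) 1 k
      = (1 : Matrix (Fin 2) (Fin 2) (Adl K)) i k := fun i => by
    rw [← hmul, Matrix.mul_apply, Fin.sum_univ_two]
  have key : algebraMap K (Adl K) (ξ k)
      = rowOf ξ h 0 * ((h⁻¹ : G K) : Matrix (Fin 2) (Fin 2) (Adl K)) 0 k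
        + rowOf ξ h 1 * ((h⁻¹ : G K) : Matrix (Fin 2) (Fin 2) (Adl K)) 1 k := by
    unfold rowOf
    have e : (algebraMap K (Adl K) (ξ 0) * (h : Matrix (Fin 2) (Fin 2) (Adl K)) 0 0
          + algebraMap K (Adl K) (ξ 1) * (h : Matrix (Fin 2) (Fin 2) (Adl K)) 1 0)
          * ((h⁻¹ : G K) : Matrix (Fin 2) (Fin 2) (Adl K)) 0 k
        + (algebraMap K (Adl K) (ξ 0) * (h : Matrix (Fin 2) (Fin 2) (Adl K)) 0 1
          + algebraMap K (Adl K) (ξ 1) * (h : Matrix (Fin 2) (Fin 2) (Adl K)) 1 1)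
          * ((h⁻¹ : G K) : Matrix (Fin 2) (Fin 2) (Adl K)) 1 k
        = algebraMap K (Adl K) (ξ 0) * ((h : Matrix (Fin 2) (Fin 2) (Adl K)) 0 0
            * ((h⁻¹ : G K) : Matrix (Fin 2) (Fin 2) (Adl K)) 0 k
          + (h : Matrix (Fin 2) (Fin 2) (Adl K)) 0 1
            * ((h⁻¹ : G K) : Matrix (Fin 2) (Fin 2) (Adl K)) 1 k)
          + algebraMap K (Adl K) (ξ 1) * ((h : Matrix (Fin 2) (Fin 2) (Adl K)) 1 0
            * ((h⁻¹ : G K) : Matrix (Fin 2) (Fin 2) (Adl K)) 0 k
          + (h : Matrix (Fin 2) (Fin 2) (Adl K)) 1 1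
            * ((h⁻¹ : G K) : Matrix (Fin 2) (Fin 2) (Adl K)) 1 k) := by ring
    rw [e, h0 0, h0 1]
    have hk : k = 0 ∨ k = 1 := by
      fin_cases k
      · exact Or.inl rfl
      · exact Or.inr rfl
    rcases hk with rfl | rfl <;> simp
  have := congrArg Prod.fst key
  rw [this]
  rfl

theorem infMixed671_eq_zero_iff (a : Adl K) : infMixed671 a = 0 ↔ a.1 = 0 := by
  unfold infMixed671
  exact (InfiniteAdeleRing.ringEquiv_mixedSpace K).map_eq_zero_iff

/-- `ξ ↦ (ξ h)_∞` is injective. -/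
theorem eq_zero_of_pairOf_rowOf_eq_zero671 {ξ : Fin 2 → K} {h : G K}
    (h0 : pairOf671 (rowOf ξ h) = 0) : ξ = 0 := by
  have h1 : infMixed671 (rowOf ξ h 0) = 0 := congrArg Prod.fst h0
  have h2 : infMixed671 (rowOf ξ h 1) = 0 := congrArg Prod.snd h0
  rw [infMixed671_eq_zero_iff] at h1 h2
  funext k
  have hk := rowOf_inv_fst671 ξ h k
  rw [h1, h2, zero_mul, zero_mul, add_zero] at hk
  have hinj : Function.Injective (algebraMap K (InfiniteAdeleRing K)) :=
    (algebraMap K (InfiniteAdeleRing K)).injective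
  have hk' : algebraMap K (InfiniteAdeleRing K) (ξ k) = 0 := hk
  rw [← map_zero (algebraMap K (InfiniteAdeleRing K))] at hk'
  exact hinj hk'

theorem rowOf_sub671 (x y : Fin 2 → K) (g : G K) : rowOf (x - y) g = rowOf x g - rowOf y g := by
  rw [sub_eq_add_neg, rowOf_add671, rowOf_neg671, ← sub_eq_add_neg]

theorem pairOf671_sub (r s : Fin 2 → Adl K) : pairOf671 (r - s) = pairOf671 r - pairOf671 s := by
  rw [sub_eq_add_neg, pairOf671_add, pairOf671_neg, ← sub_eq_add_neg]

theorem pairOf_rowOf_injective671 (h : G K) :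
    Function.Injective fun ξ : Fin 2 → K => pairOf671 (rowOf ξ h) := by
  intro ξ η he
  have : pairOf671 (rowOf (ξ - η) h) = 0 := by
    rw [rowOf_sub671, pairOf671_sub]
    exact sub_eq_zero.mpr he
  exact sub_eq_zero.mp (eq_zero_of_pairOf_rowOf_eq_zero671 this)

end Fermat.Agent.LT.T7.H671

end

end
-- ===== PACK-END LT/T7/H671/LimBasic.lean

-- ===== PACK-BEGIN LT/T7/H502/IdeleClass.lean
section
/-
T7.14.3d (helper502): `IdeleClassC`, VERBATIM against `LT/T7/H671/LimSpec.lean`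
(helper671@9970285d6, sha256 4ba8fdf5f43f3db7).

Finitely many classes of finite ideles modulo `Kˣ` and the units at the finite places: the
fractional ideal of a finite idele, its class in `ClassGroup (𝓞 K)` (finite), and a choice of
pairwise inequivalent representatives.
-/



set_option autoImplicit false

open IsDedekindDomain NumberField Filter
open scoped nonZeroDivisors

noncomputable section

namespace Fermat.Agent.LT.T7.H502

open Fermat.Agent.LT.T7.H671

variable {K : Type} [Field K] [NumberField K]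

/-! ## The norm of the completion in terms of the valuation -/

theorem ic_norm_eq_zpow502 (v : HeightOneSpectrum (𝓞 K)) (x : v.adicCompletion K) (hx : x ≠ 0) :
    ‖x‖ = (Ideal.absNorm v.asIdeal : ℝ) ^ (WithZero.log (Valued.v x)) := by
  have hv : (Valued.v x : WithZero (Multiplicative ℤ)) ≠ 0 := (Valuation.ne_zero_iff _).2 hx
  rw [NumberField.FinitePlace.norm_def, WithZeroMulInt.toNNReal_neg_apply _ hv,
    WithZero.toAdd_unzero_eq_log]
  push_cast
  rfl

theorem ic_absNorm_pos502 (v : HeightOneSpectrum (𝓞 K)) :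
    0 < (Ideal.absNorm v.asIdeal : ℝ) := by
  have := HeightOneSpectrum.one_lt_absNorm v
  exact_mod_cast (zero_lt_one.trans this)

/-! ## Finite ideles -/

/-- The order of the finite idele `a` at `v`. -/
def icOrd502 (a : (FiniteAdeleRing (𝓞 K) K)ˣ) (v : HeightOneSpectrum (𝓞 K)) : ℤ :=
  -(WithZero.log (Valued.v ((a : FiniteAdeleRing (𝓞 K) K) v)))

theorem ic_mul_inv502 (a : (FiniteAdeleRing (𝓞 K) K)ˣ) (v : HeightOneSpectrum (𝓞 K)) :
    (a : FiniteAdeleRing (𝓞 K) K) v * ((a⁻¹ : (FiniteAdeleRing (𝓞 K) K)ˣ) :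
      FiniteAdeleRing (𝓞 K) K) v = 1 := by
  have h1 : ((a : FiniteAdeleRing (𝓞 K) K) * ((a⁻¹ : (FiniteAdeleRing (𝓞 K) K)ˣ) :
      FiniteAdeleRing (𝓞 K) K)) v = (1 : FiniteAdeleRing (𝓞 K) K) v := by
    rw [Units.mul_inv]
  exact h1

theorem ic_ne_zero502 (a : (FiniteAdeleRing (𝓞 K) K)ˣ) (v : HeightOneSpectrum (𝓞 K)) :
    (a : FiniteAdeleRing (𝓞 K) K) v ≠ 0 := by
  intro h
  have := ic_mul_inv502 a v
  rw [h, zero_mul] at this
  exact zero_ne_one this

theorem ic_eventually_int502 (x : FiniteAdeleRing (𝓞 K) K) :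
    ∀ᶠ v : HeightOneSpectrum (𝓞 K) in cofinite, Valued.v (x v) ≤ 1 := by
  let z : RestrictedProduct (fun v : HeightOneSpectrum (𝓞 K) => v.adicCompletion K)
      (fun v => (v.adicCompletionIntegers K : Set (v.adicCompletion K))) cofinite := x
  have h : ∀ᶠ v : HeightOneSpectrum (𝓞 K) in cofinite,
      z v ∈ (v.adicCompletionIntegers K : Set (v.adicCompletion K)) :=
    z.2
  exact h

theorem ic_eventually_one502 (a : (FiniteAdeleRing (𝓞 K) K)ˣ) :
    ∀ᶠ v : HeightOneSpectrum (𝓞 K) in cofinite,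
      Valued.v ((a : FiniteAdeleRing (𝓞 K) K) v) = 1 := by
  filter_upwards [ic_eventually_int502 (a : FiniteAdeleRing (𝓞 K) K),
    ic_eventually_int502 ((a⁻¹ : (FiniteAdeleRing (𝓞 K) K)ˣ) : FiniteAdeleRing (𝓞 K) K)]
    with v h1 h2
  have hm := ic_mul_inv502 a v
  have hv : Valued.v ((a : FiniteAdeleRing (𝓞 K) K) v)
      * Valued.v (((a⁻¹ : (FiniteAdeleRing (𝓞 K) K)ˣ) : FiniteAdeleRing (𝓞 K) K) v) = 1 := by
    rw [← map_mul, hm, map_one]
  refine le_antisymm h1 ?_
  by_contra hlt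
  rw [not_le] at hlt
  have hne : Valued.v (((a⁻¹ : (FiniteAdeleRing (𝓞 K) K)ˣ) : FiniteAdeleRing (𝓞 K) K) v)
      ≠ 0 := by
    intro h0
    rw [h0, mul_zero] at hv
    exact zero_ne_one hv
  have : Valued.v ((a : FiniteAdeleRing (𝓞 K) K) v)
      * Valued.v (((a⁻¹ : (FiniteAdeleRing (𝓞 K) K)ˣ) : FiniteAdeleRing (𝓞 K) K) v) < 1 := by
    calc Valued.v ((a : FiniteAdeleRing (𝓞 K) K) v)
          * Valued.v (((a⁻¹ : (FiniteAdeleRing (𝓞 K) K)ˣ) : FiniteAdeleRing (𝓞 K) K) v)
        < 1 * Valued.v (((a⁻¹ : (FiniteAdeleRing (𝓞 K) K)ˣ) : FiniteAdeleRing (𝓞 K) K) v) :=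
          mul_lt_mul_of_pos_right hlt (zero_lt_iff.2 hne)
      _ ≤ 1 * 1 := by gcongr
      _ = 1 := one_mul 1
  exact absurd hv this.ne

theorem ic_eventually_ord502 (a : (FiniteAdeleRing (𝓞 K) K)ˣ) :
    ∀ᶠ v : HeightOneSpectrum (𝓞 K) in cofinite, icOrd502 a v = 0 := by
  filter_upwards [ic_eventually_one502 a] with v hv
  unfold icOrd502
  rw [hv, WithZero.log_one, neg_zero]

theorem ic_finite_ord502 (a : (FiniteAdeleRing (𝓞 K) K)ˣ) :
    {v : HeightOneSpectrum (𝓞 K) | icOrd502 a v ≠ 0}.Finite := by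
  have := ic_eventually_ord502 a
  rwa [Filter.eventually_cofinite] at this

theorem ic_norm502 (a : (FiniteAdeleRing (𝓞 K) K)ˣ) (v : HeightOneSpectrum (𝓞 K)) :
    ‖(a : FiniteAdeleRing (𝓞 K) K) v‖ = (Ideal.absNorm v.asIdeal : ℝ) ^ (-(icOrd502 a v)) := by
  rw [ic_norm_eq_zpow502 v _ (ic_ne_zero502 a v)]
  unfold icOrd502
  rw [neg_neg]

/-! ## The fractional ideal of a finite idele -/

/-- The fractional ideal `∏_v v ^ ord_v a`. -/
def icIdeal502 (a : (FiniteAdeleRing (𝓞 K) K)ˣ) : FractionalIdeal (𝓞 K)⁰ K :=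
  ∏ᶠ v : HeightOneSpectrum (𝓞 K), (v.asIdeal : FractionalIdeal (𝓞 K)⁰ K) ^ icOrd502 a v

theorem ic_count502 (a : (FiniteAdeleRing (𝓞 K) K)ˣ) (v : HeightOneSpectrum (𝓞 K)) :
    FractionalIdeal.count K v (icIdeal502 a) = icOrd502 a v :=
  FractionalIdeal.count_finprod K v _ (ic_eventually_ord502 a)

theorem icIdeal_ne_zero502 (a : (FiniteAdeleRing (𝓞 K) K)ˣ) : icIdeal502 a ≠ 0 := by
  classical
  unfold icIdeal502
  have hs : (Function.mulSupport fun v : HeightOneSpectrum (𝓞 K) =>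
      (v.asIdeal : FractionalIdeal (𝓞 K)⁰ K) ^ icOrd502 a v)
      ⊆ ((ic_finite_ord502 a).toFinset : Set (HeightOneSpectrum (𝓞 K))) := by
    intro v hv
    rw [Function.mem_mulSupport] at hv
    rw [Finset.mem_coe, Set.Finite.mem_toFinset]
    intro h0
    apply hv
    rw [h0, zpow_zero]
  rw [finprod_eq_prod_of_mulSupport_subset _ hs, Finset.prod_ne_zero_iff]
  intro v _
  exact zpow_ne_zero _ (FractionalIdeal.coeIdeal_ne_zero.mpr v.ne_bot)

/-! ## Principal fractional ideals -/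

theorem ic_log_valuation502 (v : HeightOneSpectrum (𝓞 K)) (x : K) (hx : x ≠ 0) :
    WithZero.log (v.valuation K x)
      = -(FractionalIdeal.count K v (FractionalIdeal.spanSingleton (𝓞 K)⁰ x)) := by
  classical
  obtain ⟨n, d, hd, rfl⟩ := IsFractionRing.div_surjective (A := 𝓞 K) x
  have hd0 : d ≠ 0 := nonZeroDivisors.ne_zero hd
  have hn0 : n ≠ 0 := by
    rintro rfl
    simp at hx
  have hI : FractionalIdeal.spanSingleton (𝓞 K)⁰ (algebraMap (𝓞 K) K n / algebraMap (𝓞 K) K d)
      = FractionalIdeal.spanSingleton (𝓞 K)⁰ ((algebraMap (𝓞 K) K) d)⁻¹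
        * ((Ideal.span {n} : Ideal (𝓞 K)) : FractionalIdeal (𝓞 K)⁰ K) := by
    rw [FractionalIdeal.coeIdeal_span_singleton, FractionalIdeal.spanSingleton_mul_spanSingleton,
      inv_mul_eq_div]
  have hne : FractionalIdeal.spanSingleton (𝓞 K)⁰
      (algebraMap (𝓞 K) K n / algebraMap (𝓞 K) K d) ≠ 0 :=
    FractionalIdeal.spanSingleton_ne_zero_iff.2 hx
  rw [FractionalIdeal.count_well_defined K v hne hI, map_div₀,
    HeightOneSpectrum.valuation_of_algebraMap, HeightOneSpectrum.valuation_of_algebraMap,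
    HeightOneSpectrum.intValuation_if_neg v hn0, HeightOneSpectrum.intValuation_if_neg v hd0,
    WithZero.log_div WithZero.exp_ne_zero WithZero.exp_ne_zero, WithZero.log_exp,
    WithZero.log_exp]
  ring

theorem ic_norm_principal502 (v : HeightOneSpectrum (𝓞 K)) (x : K) (hx : x ≠ 0) :
    ‖algebraMap K (v.adicCompletion K) x‖
      = (Ideal.absNorm v.asIdeal : ℝ)
          ^ (-(FractionalIdeal.count K v (FractionalIdeal.spanSingleton (𝓞 K)⁰ x))) := by
  have hx' : algebraMap K (v.adicCompletion K) x ≠ 0 := by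
    rw [Ne, map_eq_zero]
    exact hx
  have h1 : algebraMap K (v.adicCompletion K) x = ((x : K) : v.adicCompletion K) := rfl
  rw [ic_norm_eq_zpow502 v _ hx', h1, HeightOneSpectrum.valuedAdicCompletion_eq_valuation',
    ic_log_valuation502 v x hx]

/-! ## The equivalence relation -/

/-- `a` and `b` differ by an element of `Kˣ` and units at the finite places. -/
def icRel502 (a b : (FiniteAdeleRing (𝓞 K) K)ˣ) : Prop :=
  ∃ l : Kˣ, ∀ v : HeightOneSpectrum (𝓞 K),
    ‖(a : FiniteAdeleRing (𝓞 K) K) v‖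
      = ‖algebraMap K (v.adicCompletion K) (l : K)‖ * ‖(b : FiniteAdeleRing (𝓞 K) K) v‖

theorem icRel_refl502 (a : (FiniteAdeleRing (𝓞 K) K)ˣ) : icRel502 a a :=
  ⟨1, fun v => by simp⟩

theorem icRel_symm502 {a b : (FiniteAdeleRing (𝓞 K) K)ˣ} (h : icRel502 a b) : icRel502 b a := by
  obtain ⟨l, hl⟩ := h
  refine ⟨l⁻¹, fun v => ?_⟩
  have hl0 : ‖algebraMap K (v.adicCompletion K) (l : K)‖ ≠ 0 := by
    rw [norm_ne_zero_iff, Ne, map_eq_zero]
    exact l.ne_zero
  rw [hl v, Units.val_inv_eq_inv_val, map_inv₀, norm_inv, ← mul_assoc, inv_mul_cancel₀ hl0,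
    one_mul]

theorem icRel_trans502 {a b c : (FiniteAdeleRing (𝓞 K) K)ˣ} (h : icRel502 a b)
    (h' : icRel502 b c) : icRel502 a c := by
  obtain ⟨l, hl⟩ := h
  obtain ⟨l', hl'⟩ := h'
  refine ⟨l * l', fun v => ?_⟩
  rw [hl v, hl' v, Units.val_mul, map_mul, norm_mul, mul_assoc]

/-- The class of the fractional ideal of a finite idele. -/
def icCls502 (a : (FiniteAdeleRing (𝓞 K) K)ˣ) : ClassGroup (𝓞 K) :=
  ClassGroup.mk K (Units.mk0 (icIdeal502 a) (icIdeal_ne_zero502 a))

theorem icRel_of_cls502 {a b : (FiniteAdeleRing (𝓞 K) K)ˣ} (h : icCls502 a = icCls502 b) :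
    icRel502 a b := by
  unfold icCls502 at h
  set Ia : (FractionalIdeal (𝓞 K)⁰ K)ˣ := Units.mk0 (icIdeal502 a) (icIdeal_ne_zero502 a)
    with hIa
  set Ib : (FractionalIdeal (𝓞 K)⁰ K)ˣ := Units.mk0 (icIdeal502 b) (icIdeal_ne_zero502 b)
    with hIb
  have h1 : ClassGroup.mk K (Ia * Ib⁻¹) = 1 := by
    rw [map_mul, map_inv, h, mul_inv_cancel]
  rw [ClassGroup.mk_eq_one_iff] at h1
  obtain ⟨x, hx⟩ := (FractionalIdeal.isPrincipal_iff _).1 h1
  have hx0 : x ≠ 0 := by
    rintro rfl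
    rw [FractionalIdeal.spanSingleton_zero] at hx
    exact (Ia * Ib⁻¹).ne_zero hx
  have hab : icIdeal502 a = FractionalIdeal.spanSingleton (𝓞 K)⁰ x * icIdeal502 b := by
    have h2 : ((Ia * Ib⁻¹ : (FractionalIdeal (𝓞 K)⁰ K)ˣ) : FractionalIdeal (𝓞 K)⁰ K)
        = icIdeal502 a * (icIdeal502 b)⁻¹ := by
      rw [Units.val_mul, Units.val_inv_eq_inv_val]
      rfl
    rw [h2] at hx
    rw [← hx, mul_assoc, inv_mul_cancel₀ (icIdeal_ne_zero502 b), mul_one]
  refine ⟨Units.mk0 x hx0, fun v => ?_⟩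
  have hc : icOrd502 a v
      = FractionalIdeal.count K v (FractionalIdeal.spanSingleton (𝓞 K)⁰ x) + icOrd502 b v := by
    rw [← ic_count502 a v, ← ic_count502 b v, hab,
      FractionalIdeal.count_mul K v (FractionalIdeal.spanSingleton_ne_zero_iff.2 hx0)
        (icIdeal_ne_zero502 b)]
  rw [ic_norm502 a v, ic_norm502 b v, Units.val_mk0, ic_norm_principal502 v x hx0, hc,
    neg_add, zpow_add₀ (ic_absNorm_pos502 v).ne']

/-! ## The representatives -/

/-- **T7.14.3d `IdeleClassC`.** -/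
theorem ideleClassC502 (K : Type) [Field K] [NumberField K] : IdeleClassC K := by
  classical
  -- the classes which occur, with chosen ideles
  let P : Type := {γ : ClassGroup (𝓞 K) // ∃ a : (FiniteAdeleRing (𝓞 K) K)ˣ, icCls502 a = γ}
  let r₀ : P → (FiniteAdeleRing (𝓞 K) K)ˣ := fun γ => Classical.choose γ.2
  have hr₀ : ∀ γ : P, icCls502 (r₀ γ) = γ.1 := fun γ => Classical.choose_spec γ.2
  let st : Setoid P :=
    { r := fun γ γ' => icRel502 (r₀ γ) (r₀ γ')
      iseqv := ⟨fun γ => icRel_refl502 _, fun h => icRel_symm502 h,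
        fun h h' => icRel_trans502 h h'⟩ }
  have hP : Finite P := Subtype.finite
  have hQ : Finite (Quotient st) := Quotient.finite st
  let e : Quotient st ≃ Fin (Nat.card (Quotient st)) := Finite.equivFin (Quotient st)
  refine ⟨Nat.card (Quotient st), fun i => r₀ (Quotient.out (e.symm i)), ?_, ?_⟩
  · intro a
    let γ : P := ⟨icCls502 a, a, rfl⟩
    refine ⟨e (Quotient.mk st γ), ?_⟩
    have h1 : icRel502 a (r₀ γ) := icRel_of_cls502 (hr₀ γ).symm
    have h2 : icRel502 (r₀ (Quotient.out (Quotient.mk st γ))) (r₀ γ) :=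
      Quotient.mk_out (s := st) γ
    have h3 : icRel502 a (r₀ (Quotient.out (e.symm (e (Quotient.mk st γ))))) := by
      rw [Equiv.symm_apply_apply]
      exact icRel_trans502 h1 (icRel_symm502 h2)
    exact h3
  · intro i j hij
    have h1 : Quotient.mk st (Quotient.out (e.symm i))
        = Quotient.mk st (Quotient.out (e.symm j)) := Quotient.sound hij
    rw [Quotient.out_eq, Quotient.out_eq] at h1
    exact e.symm.injective h1

end Fermat.Agent.LT.T7.H502

end

end
-- ===== PACK-END LT/T7/H502/IdeleClass.lean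

-- ===== PACK-BEGIN LT/T7/H227/CovolTop.lean
section






/-!
# Row LT, tower T7, leaf T7.14.3c `CovolC`: PROVED TOP (helper227), OFF-MAIN

`covolC_of_leaves227 : TopoC227 K → LatC227 K → SliceC227 K → StrictC227 K → H671.CovolC K`.
-/

set_option autoImplicit false
set_option linter.unusedSectionVars false
set_option linter.unusedVariables false
set_option maxHeartbeats 400000

open NumberField NumberField.mixedEmbedding NumberField.InfinitePlace IsDedekindDomain
  MeasureTheory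
open scoped ENNReal Matrix Classical

noncomputable section

namespace Fermat.Agent.LT.T7.H227

open Fermat.Agent.LT.H556 Fermat.Agent.LT.H556.A0 Fermat.Agent.LT.T7.Rigid
  Fermat.Agent.LT.T7.H671

variable {K : Type} [Field K] [NumberField K]

/-- Right multiplication of rows by `g`. -/
def vm227 (g : G K) (r : Fin 2 → Adl K) : Fin 2 → Adl K :=
  r ᵥ* (g : Matrix (Fin 2) (Fin 2) (Adl K))

theorem vm_vm_inv227 (g : G K) (r : Fin 2 → Adl K) : vm227 g⁻¹ (vm227 g r) = r := by
  unfold vm227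
  rw [Matrix.vecMul_vecMul, ← Units.val_mul, mul_inv_cancel, Units.val_one, Matrix.vecMul_one]

theorem vm_inv_vm227 (g : G K) (r : Fin 2 → Adl K) : vm227 g (vm227 g⁻¹ r) = r := by
  unfold vm227
  rw [Matrix.vecMul_vecMul, ← Units.val_mul, inv_mul_cancel, Units.val_one, Matrix.vecMul_one]

theorem preimage_vm227 (g : G K) (X : Set (Fin 2 → Adl K)) :
    vm227 g ⁻¹' X = vm227 g⁻¹ '' X := by
  ext r
  constructor
  · intro hr
    exact ⟨vm227 g r, hr, vm_vm_inv227 g r⟩
  · rintro ⟨y, hy, rfl⟩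
    show vm227 g (vm227 g⁻¹ y) ∈ X
    rw [vm_inv_vm227]
    exact hy

theorem continuous_vm227 (g : G K) : Continuous (vm227 g) := by
  unfold vm227
  exact Continuous.matrix_vecMul continuous_id continuous_const

theorem emb_injective227 : Function.Injective (emb227 K) := by
  intro x y h
  funext j
  have := congrFun h j
  exact AdeleRing.algebraMap_injective (𝓞 K) K this

theorem countable_princ2_227 : Countable (princ2_227 K) := by
  have := Fermat.Agent.LT.T1.H848.countable_numberField848 K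
  exact (AddMonoidHom.rangeRestrict_surjective (emb227 K)).countable

/-- From pairs `x ∈ K²` to elements of the subgroup `princ2_227 K`. -/
theorem existsUnique_princ2_227 (P : (Fin 2 → Adl K) → Prop) (r : Fin 2 → Adl K)
    (h : ∃! x : Fin 2 → K, P (emb227 K x + r)) :
    ∃! ξ : princ2_227 K, P ((ξ : Fin 2 → Adl K) + r) := by
  obtain ⟨x, hx, hu⟩ := h
  refine ⟨⟨emb227 K x, ⟨x, rfl⟩⟩, hx, ?_⟩
  rintro ⟨_, ⟨y, rfl⟩⟩ hy
  have := hu y hy
  subst this
  rfl

/-- The fundamental domain of a basis of a lattice is a STRICT fundamental domain. -/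
theorem strict_lattice227 {E : Type*} [NormedAddCommGroup E] [NormedSpace ℝ E]
    [FiniteDimensional ℝ E] (L : Submodule ℤ E) [DiscreteTopology L] [IsZLattice ℝ L]
    {ι : Type*} [Finite ι] (b : Module.Basis ι ℤ L) (e : E) :
    ∃! l : L, (l : E) + e ∈ ZSpan.fundamentalDomain (b.ofZLatticeBasis ℝ L) := by
  have hspan := Module.Basis.ofZLatticeBasis_span ℝ L b
  obtain ⟨v, hv, hu⟩ := ZSpan.exist_unique_vadd_mem_fundamentalDomain (b.ofZLatticeBasis ℝ L) e
  have hvL : (v : E) ∈ L := hspan.le v.2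
  refine ⟨⟨v.1, hvL⟩, hv, ?_⟩
  intro l hl
  have hl' : (l : E) ∈ Submodule.span ℤ (Set.range (b.ofZLatticeBasis ℝ L)) := hspan.ge l.2
  have h1 := hu ⟨l.1, hl'⟩ hl
  have h2 : (l : E) = (v : E) := congrArg Subtype.val h1
  exact Subtype.ext h2

theorem adNorm_one227 : Fermat.Agent.LT.T1.adNorm K (1 : Adl K) = 1 := by
  have h := Fermat.Agent.LT.T1.H309.adNorm_mul309 (K := K) 1 1
  have hpos := Fermat.Agent.LT.T1.H309.adNorm_pos309 (K := K) 1
  rw [mul_one] at h
  simp only [Units.val_one] at h hpos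
  have h2 : Fermat.Agent.LT.T1.adNorm K (1 : Adl K) * (Fermat.Agent.LT.T1.adNorm K (1 : Adl K) - 1)
      = 0 := by
    rw [mul_sub, mul_one, ← h, sub_self]
  rcases mul_eq_zero.mp h2 with h3 | h3
  · exact absurd h3 (ne_of_gt hpos)
  · linarith

theorem adNorm_det_inv227 (g : G K) :
    Fermat.Agent.LT.T1.adNorm K (Matrix.det ((g⁻¹ : G K) : Matrix (Fin 2) (Fin 2) (Adl K)))
      = (Fermat.Agent.LT.T1.adNorm K (Matrix.det (g : Matrix (Fin 2) (Fin 2) (Adl K))))⁻¹ := by
  have h := Fermat.Agent.LT.T1.H309.adNorm_mul309 (K := K)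
    (Matrix.GeneralLinearGroup.det g⁻¹) (Matrix.GeneralLinearGroup.det g)
  have hpos := Fermat.Agent.LT.T1.H309.adNorm_pos309 (K := K) (Matrix.GeneralLinearGroup.det g)
  rw [← map_mul, inv_mul_cancel, map_one, Units.val_one, adNorm_one227] at h
  have e1 : ((Matrix.GeneralLinearGroup.det g⁻¹ : (Adl K)ˣ) : Adl K)
      = Matrix.det ((g⁻¹ : G K) : Matrix (Fin 2) (Fin 2) (Adl K)) := rfl
  have e2 : ((Matrix.GeneralLinearGroup.det g : (Adl K)ˣ) : Adl K)
      = Matrix.det (g : Matrix (Fin 2) (Fin 2) (Adl K)) := rfl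
  rw [e1, e2] at h
  rw [e2] at hpos
  exact eq_inv_of_mul_eq_one_left h.symm

theorem adNorm_det_pos227 (g : G K) :
    0 < Fermat.Agent.LT.T1.adNorm K (Matrix.det (g : Matrix (Fin 2) (Fin 2) (Adl K))) :=
  Fermat.Agent.LT.T1.H309.adNorm_pos309 (K := K) (Matrix.GeneralLinearGroup.det g)

/-! ## The top -/

section Top

attribute [local instance] Fermat.Agent.LT.T1.H671.locallyCompact_adele671
  Fermat.Agent.LT.T1.H671.secondCountable_adele671

/-- The set `E_g(D) = {r : r g ∈ U, pairOf671 (r g) ∈ D}`. -/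
def fdSet227 (g : G K) (D : Set (Pair671 K)) : Set (Fin 2 → Adl K) :=
  vm227 g ⁻¹' (intRows227 K ∩ pairOf671 ⁻¹' D)

/-- The measure of `E_g(D)`. -/
theorem measure_fdSet227 [MeasurableSpace (Fin 2 → Adl K)] [BorelSpace (Fin 2 → Adl K)]
    (μ : Measure (Fin 2 → Adl K)) [μ.IsAddHaarMeasure] (c : ℝ≥0∞)
    (hc : ∀ A : Set (Pair671 K), MeasurableSet A →
      μ (intRows227 K ∩ pairOf671 ⁻¹' A) = c * volume A)
    (g : G K) (D : Set (Pair671 K)) (hD : MeasurableSet D) :
    μ (fdSet227 g D)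
      = ENNReal.ofReal
          (Fermat.Agent.LT.T1.adNorm K (Matrix.det (g : Matrix (Fin 2) (Fin 2) (Adl K))))⁻¹
        * (c * volume D) := by
  unfold fdSet227
  rw [preimage_vm227, ← hc D hD, ← adNorm_det_inv227]
  exact Fermat.Agent.LT.T1.H671.haarScale_GL2_vecMul671 μ g⁻¹ _

/-- `E_g(D)` is a fundamental domain of `K²` in `𝔸²`. -/
theorem isAddFundamentalDomain_fdSet227 [MeasurableSpace (Fin 2 → Adl K)]
    [BorelSpace (Fin 2 → Adl K)] (μ : Measure (Fin 2 → Adl K))
    (hT : TopoC227 K) (hF : StrictC227 K) (g : G K) (D : Set (Pair671 K))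
    (hDm : MeasurableSet D)
    (hD : ∀ e : Pair671 K, ∃! l : latG671 g, (l : Pair671 K) + e ∈ D) :
    IsAddFundamentalDomain (princ2_227 K) (fdSet227 g D) μ := by
  obtain ⟨hUo, hpc⟩ := hT
  have hm : MeasurableSet (fdSet227 g D) := by
    unfold fdSet227
    exact (continuous_vm227 g).measurable (hUo.measurableSet.inter (hpc.measurable hDm))
  refine IsAddFundamentalDomain.mk' hm.nullMeasurableSet ?_
  intro r
  have h := existsUnique_princ2_227
    (fun y => IsIntRow671 (y ᵥ* (g : Matrix (Fin 2) (Fin 2) (Adl K)))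
      ∧ pairOf671 (y ᵥ* (g : Matrix (Fin 2) (Fin 2) (Adl K))) ∈ D) r (hF g D hD r)
  exact h

theorem adNorm_det_one227 :
    Fermat.Agent.LT.T1.adNorm K (Matrix.det (((1 : G K) : G K) : Matrix (Fin 2) (Fin 2) (Adl K)))
      = 1 := by
  rw [Units.val_one, Matrix.det_one, adNorm_one227]

/-- **THE TOP of T7.14.3c**: the covolume of `latG671 g` is `c₀ ‖det g‖_𝔸`. -/
theorem covolC_of_leaves227 (hT : TopoC227 K) (hL : LatC227 K) (hS : SliceC227 K)
    (hF : StrictC227 K) : CovolC K := by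
  letI : MeasurableSpace (Fin 2 → Adl K) := borel (Fin 2 → Adl K)
  haveI : BorelSpace (Fin 2 → Adl K) := ⟨rfl⟩
  have hHaarP := haarPair671 K
  have hBorelP := borelPair671 K
  let μ : Measure (Fin 2 → Adl K) := Measure.addHaar
  haveI hμH : μ.IsAddHaarMeasure := inferInstance
  obtain ⟨c, hc0, hctop, hc⟩ := hS μ hμH
  haveI := countable_princ2_227 (K := K)
  -- the data at each `g`
  have key : ∀ g : G K, ∃ (hd : DiscreteTopology (latG671 g)) (hz : IsZLattice ℝ (latG671 g)),
      ∃ D : Set (Pair671 K), IsAddFundamentalDomain (princ2_227 K) (fdSet227 g D) μ ∧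
        μ (fdSet227 g D) = ENNReal.ofReal
            (Fermat.Agent.LT.T1.adNorm K (Matrix.det (g : Matrix (Fin 2) (Fin 2) (Adl K))))⁻¹
          * (c * ENNReal.ofReal (ZLattice.covolume (latG671 g) volume)) := by
    intro g
    obtain ⟨hd, hz⟩ := hL g
    let b := Module.Free.chooseBasis ℤ (latG671 g)
    set D : Set (Pair671 K) :=
      ZSpan.fundamentalDomain (b.ofZLatticeBasis ℝ (latG671 g)) with hDdef
    have hDm : MeasurableSet D := ZSpan.fundamentalDomain_measurableSet _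
    have hfd : IsAddFundamentalDomain (latG671 g) D volume :=
      ZLattice.isAddFundamentalDomain b volume
    have hcov : ZLattice.covolume (latG671 g) volume = volume.real D :=
      ZLattice.covolume_eq_measure_fundamentalDomain _ _ hfd
    have hfin : volume D ≠ ⊤ :=
      (ZSpan.fundamentalDomain_isBounded (b.ofZLatticeBasis ℝ (latG671 g))).measure_lt_top.ne
    have hvol : volume D = ENNReal.ofReal (ZLattice.covolume (latG671 g) volume) := by
      rw [hcov, Measure.real, ENNReal.ofReal_toReal hfin]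
    refine ⟨hd, hz, D, isAddFundamentalDomain_fdSet227 μ hT hF g D hDm
      (strict_lattice227 (latG671 g) b), ?_⟩
    rw [measure_fdSet227 μ c hc g D hDm, hvol]
  obtain ⟨hd1, hz1, D1, hfd1, hμ1⟩ := key 1
  have hV1 : 0 < ZLattice.covolume (latG671 (1 : G K)) volume := ZLattice.covolume_pos _ _
  refine ⟨ZLattice.covolume (latG671 (1 : G K)) volume, hV1, fun g => ?_⟩
  obtain ⟨hd, hz, D, hfd, hμg⟩ := key g
  refine ⟨hd, hz, ?_⟩
  have hVg : 0 < ZLattice.covolume (latG671 g) volume := ZLattice.covolume_pos _ _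
  have hN := adNorm_det_pos227 g
  have heq : μ (fdSet227 g D) = μ (fdSet227 1 D1) := hfd.measure_eq hfd1
  rw [hμg, hμ1, adNorm_det_one227, inv_one, ENNReal.ofReal_one, one_mul, mul_left_comm,
    ← ENNReal.ofReal_mul (inv_nonneg.mpr hN.le)] at heq
  have h2 := (ENNReal.mul_right_inj hc0 hctop).mp heq
  have h3 := (ENNReal.ofReal_eq_ofReal_iff (mul_nonneg (inv_nonneg.mpr hN.le) hVg.le) hV1.le).mp h2
  show ZLattice.covolume (latG671 g) volume
    = ZLattice.covolume (latG671 (1 : G K)) volume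
      * Fermat.Agent.LT.T1.adNorm K (Matrix.det (g : Matrix (Fin 2) (Fin 2) (Adl K)))
  rw [← h3]
  field_simp

end Top

end Fermat.Agent.LT.T7.H227

end

end
-- ===== PACK-END LT/T7/H227/CovolTop.lean

-- ===== PACK-BEGIN LT/T7/H600/Topo.lean
section


/-!
# Row LT, tower T7, leaf T7.14.3c.T `H227.TopoC227` (helper600)

OFF-MAIN.  `topoC600 K : H227.TopoC227 K`, VERBATIM against `LT/T7/H227/CovolSpec.lean`
(helper227, sha256 52f0b3fe53f9c623).

* the rows which are integral at every finite place form an open set: the integral finite adeles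
  are open in the restricted product, and the finite part of a coordinate is continuous;
* `pairOf671` is continuous: `ringEquiv_mixedSpace` is given coordinatewise by the (isometric)
  embeddings of the completions.
-/

set_option autoImplicit false
set_option linter.unusedSectionVars false

open NumberField NumberField.mixedEmbedding NumberField.InfinitePlace IsDedekindDomain
  MeasureTheory
open scoped ENNReal Matrix

noncomputable section

namespace Fermat.Agent.LT.T7.H600

open Fermat.Agent.LT.H556 Fermat.Agent.LT.H556.A0 Fermat.Agent.LT.T7.Rigid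
  Fermat.Agent.LT.T7.H671 Fermat.Agent.LT.T7

variable (K : Type) [Field K] [NumberField K]

/-- The integral finite adeles are open. -/
theorem isOpen_integralFinAdeles600 :
    IsOpen {t : FiniteAdeleRing (𝓞 K) K | ∀ v, t v ∈ v.adicCompletionIntegers K} :=
  RestrictedProduct.isOpen_forall_mem (fun _ => Valued.isOpen_valuationSubring _)

/-- The finite part of a coordinate of a row is continuous. -/
theorem continuous_finCoord600 (j : Fin 2) :
    Continuous fun r : Fin 2 → Adl K => (r j).2 :=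
  continuous_snd.comp (continuous_apply j)

/-- The infinite part of a coordinate of a row is continuous. -/
theorem continuous_infCoord600 (j : Fin 2) :
    Continuous fun r : Fin 2 → Adl K => (r j).1 :=
  continuous_fst.comp (continuous_apply j)

/-- The integral rows are open. -/
theorem isOpen_intRows600 : IsOpen (H227.intRows227 K) := by
  have hEq : H227.intRows227 K = ⋂ j : Fin 2, (fun r : Fin 2 → Adl K => (r j).2) ⁻¹'
      {t : FiniteAdeleRing (𝓞 K) K | ∀ v, t v ∈ v.adicCompletionIntegers K} := by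
    ext r
    simp only [H227.intRows227, IsIntRow671, Set.mem_ofPred_eq, Set.mem_iInter, Set.mem_preimage]
    constructor
    · intro h j v
      exact h v j
    · intro h v j
      exact h j v
  rw [hEq]
  exact isOpen_iInter_of_finite fun j =>
    (isOpen_integralFinAdeles600 K).preimage (continuous_finCoord600 K j)

/-- `ringEquiv_mixedSpace` is continuous. -/
theorem continuous_ringEquiv_mixedSpace600 :
    Continuous fun x : InfiniteAdeleRing K => InfiniteAdeleRing.ringEquiv_mixedSpace K x := by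
  have hEq : (fun x : InfiniteAdeleRing K => InfiniteAdeleRing.ringEquiv_mixedSpace K x)
      = fun x => (fun (v : {w : InfinitePlace K // IsReal w}) =>
            InfinitePlace.Completion.extensionEmbeddingOfIsReal v.2 (x v),
          fun (v : {w : InfinitePlace K // IsComplex w}) =>
            InfinitePlace.Completion.extensionEmbedding v.1 (x v)) := by
    funext x
    exact InfiniteAdeleRing.ringEquiv_mixedSpace_apply K x
  rw [hEq]
  refine Continuous.prodMk (continuous_pi fun v => ?_) (continuous_pi fun v => ?_)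
  · exact (InfinitePlace.Completion.isometry_extensionEmbeddingOfIsReal v.2).continuous.comp
      (continuous_apply v.1)
  · exact (InfinitePlace.Completion.isometry_extensionEmbedding v.1).continuous.comp
      (continuous_apply v.1)

/-- `infMixed671` is continuous. -/
theorem continuous_infMixed600 : Continuous (infMixed671 : Adl K → mixedSpace K) :=
  (continuous_ringEquiv_mixedSpace600 K).comp continuous_fst

/-- `pairOf671` is continuous. -/
theorem continuous_pairOf600 : Continuous (pairOf671 : (Fin 2 → Adl K) → Pair671 K) :=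
  Continuous.prodMk ((continuous_infMixed600 K).comp (continuous_apply 0))
    ((continuous_infMixed600 K).comp (continuous_apply 1))

/-- **T7.14.3c.T (topology).** -/
theorem topoC600 : H227.TopoC227 K :=
  ⟨isOpen_intRows600 K, continuous_pairOf600 K⟩

end Fermat.Agent.LT.T7.H600

end

end
-- ===== PACK-END LT/T7/H600/Topo.lean

-- ===== PACK-BEGIN LT/T7/H404/Strict.lean
section




/-!
# Row LT, tower T7, leaf T7.14.3c.F `StrictC227` (spare of helper404)

OFF-MAIN.  `strictC404 K : H227.StrictC227 K`, VERBATIM against `LT/T7/H227/CovolSpec.lean`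
(helper227).  Pure algebra: additive strong approximation at the finite places
(`H767.exists_sub_mem_integers`, `H767.exists_denominator` of helper767) and linear algebra over
the adele ring.  No measure, no topology.

* existence: a common denominator `d` of the finite part of `g`; `x₁ ∈ K²` with
  `x₁ + r ∈ d 𝒪̂²` at the finite places, so `(x₁ + r) g` is integral; then the translate by the
  element of `latG671 g` which moves the infinite part into `D`;
* uniqueness: the difference `ξ` of two solutions gives an element of `latG671 g` which fixes a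
  point of `D`, so `pairOf671 (ξ g) = 0`, so the infinite part of `ξ g` vanishes, so `ξ = 0`
  (`g` is invertible, `K → K_∞` is injective).
-/

set_option autoImplicit false
set_option linter.unusedSectionVars false

open NumberField NumberField.mixedEmbedding NumberField.InfinitePlace IsDedekindDomain
  MeasureTheory
open scoped Matrix

noncomputable section

namespace Fermat.Agent.LT.T7.H404

open Fermat.Agent.LT.H556 Fermat.Agent.LT.H556.A0 Fermat.Agent.LT.T7.Rigid
  Fermat.Agent.LT.T7.H671 Fermat.Agent.LT.T7.H227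

variable {K : Type} [Field K] [NumberField K]

/-! ## Rows -/

theorem emb_vecMul404 (x : Fin 2 → K) (g : G K) :
    (emb227 K x) ᵥ* (g : Matrix (Fin 2) (Fin 2) (Adl K)) = rowOf x g := by
  funext j
  simp [emb227, rowOf, Matrix.vecMul, dotProduct, Fin.sum_univ_two]

theorem emb_add404 (x y : Fin 2 → K) : emb227 K (x + y) = emb227 K x + emb227 K y :=
  map_add _ _ _

theorem vecMul_fin404 (w : Fin 2 → Adl K) (M : Matrix (Fin 2) (Fin 2) (Adl K)) (j : Fin 2)
    (v : HeightOneSpectrum (𝓞 K)) :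
    ((w ᵥ* M) j).2 v = (w 0).2 v * (M 0 j).2 v + (w 1).2 v * (M 1 j).2 v := by
  have h : (w ᵥ* M) j = w 0 * M 0 j + w 1 * M 1 j := by
    simp [Matrix.vecMul, dotProduct, Fin.sum_univ_two]
  rw [h]
  rfl

theorem emb_fin404 (x : Fin 2 → K) (i : Fin 2) (v : HeightOneSpectrum (𝓞 K)) :
    (emb227 K x i).2 v = algebraMap K (v.adicCompletion K) (x i) := rfl

theorem add_fin404 (a b : Fin 2 → Adl K) (i : Fin 2) (v : HeightOneSpectrum (𝓞 K)) :
    ((a + b) i).2 v = (a i).2 v + (b i).2 v := rfl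

/-! ## A common denominator of a matrix -/

theorem exists_common_denominator404 (M : Matrix (Fin 2) (Fin 2) (Adl K)) :
    ∃ d : 𝓞 K, d ≠ 0 ∧ ∀ (i j : Fin 2) (v : HeightOneSpectrum (𝓞 K)),
      Valued.v (algebraMap K (v.adicCompletion K) (algebraMap (𝓞 K) K d) * (M i j).2 v) ≤ 1 := by
  classical
  choose δ hδ0 hδ using fun p : Fin 2 × Fin 2 =>
    Fermat.Agent.LT.H767.exists_denominator K (M p.1 p.2).2
  refine ⟨∏ p : Fin 2 × Fin 2, δ p, Finset.prod_ne_zero_iff.mpr fun p _ => hδ0 p, ?_⟩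
  intro i j v
  have hmem : (i, j) ∈ (Finset.univ : Finset (Fin 2 × Fin 2)) := Finset.mem_univ _
  rw [← Finset.mul_prod_erase _ _ hmem]
  have key : algebraMap K (v.adicCompletion K)
        (algebraMap (𝓞 K) K (δ (i, j) * ∏ p ∈ Finset.univ.erase (i, j), δ p)) * (M i j).2 v
      = (algebraMap K (v.adicCompletion K) (algebraMap (𝓞 K) K (δ (i, j))) * (M i j).2 v) *
        algebraMap K (v.adicCompletion K)
          (algebraMap (𝓞 K) K (∏ p ∈ Finset.univ.erase (i, j), δ p)) := by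
    rw [map_mul, map_mul]; ring
  rw [key, map_mul]
  calc _ ≤ (1 : WithZero (Multiplicative ℤ)) * 1 :=
        mul_le_mul' (hδ (i, j) v) (Fermat.Agent.LT.H767.valued_algebraMap_int_le_one K v _)
    _ = 1 := one_mul 1

/-! ## Existence of an integral translate -/

theorem exists_int_translate404 (g : G K) (r : Fin 2 → Adl K) :
    ∃ x : Fin 2 → K,
      IsIntRow671 ((emb227 K x + r) ᵥ* (g : Matrix (Fin 2) (Fin 2) (Adl K))) := by
  classical
  obtain ⟨d, hd0, hd⟩ := exists_common_denominator404 (g : Matrix (Fin 2) (Fin 2) (Adl K))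
  set dK : K := algebraMap (𝓞 K) K d with hdK
  have hdK0 : dK ≠ 0 := by
    rw [hdK]; simpa using hd0
  -- the finite adeles `d⁻¹ r_i`
  let a : Fin 2 → FiniteAdeleRing (𝓞 K) K := fun i =>
    algebraMap K (FiniteAdeleRing (𝓞 K) K) dK⁻¹ * (r i).2
  choose k hk using fun i : Fin 2 => Fermat.Agent.LT.H767.exists_sub_mem_integers K (a i)
  refine ⟨fun i => -(dK * k i), ?_⟩
  intro v j
  rw [vecMul_fin404]
  -- each coordinate of `x + r` is `d` times an integral element
  have hcoord : ∀ i : Fin 2,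
      ((emb227 K (fun i => -(dK * k i)) + r) i).2 v
        = algebraMap K (v.adicCompletion K) dK
            * (a i v - algebraMap K (v.adicCompletion K) (k i)) := by
    intro i
    rw [add_fin404, emb_fin404]
    have ha : a i v = algebraMap K (v.adicCompletion K) dK⁻¹ * (r i).2 v := rfl
    have hone : algebraMap K (v.adicCompletion K) dK
        * algebraMap K (v.adicCompletion K) dK⁻¹ = 1 := by
      rw [← map_mul, mul_inv_cancel₀ hdK0, map_one]
    rw [ha, map_neg, map_mul]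
    calc -(algebraMap K (v.adicCompletion K) dK * algebraMap K (v.adicCompletion K) (k i))
          + (r i).2 v
        = (algebraMap K (v.adicCompletion K) dK * algebraMap K (v.adicCompletion K) dK⁻¹)
            * (r i).2 v
          - algebraMap K (v.adicCompletion K) dK * algebraMap K (v.adicCompletion K) (k i) := by
          rw [hone]; ring
      _ = _ := by ring
  have hterm : ∀ i : Fin 2,
      ((emb227 K (fun i => -(dK * k i)) + r) i).2 v
          * ((g : Matrix (Fin 2) (Fin 2) (Adl K)) i j).2 v ∈ v.adicCompletionIntegers K := by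
    intro i
    rw [hcoord i]
    have e : algebraMap K (v.adicCompletion K) dK
          * (a i v - algebraMap K (v.adicCompletion K) (k i))
          * ((g : Matrix (Fin 2) (Fin 2) (Adl K)) i j).2 v
        = (a i v - algebraMap K (v.adicCompletion K) (k i))
          * (algebraMap K (v.adicCompletion K) dK
              * ((g : Matrix (Fin 2) (Fin 2) (Adl K)) i j).2 v) := by ring
    rw [e]
    refine mul_mem (hk i v) ?_
    rw [HeightOneSpectrum.mem_adicCompletionIntegers]
    exact hd i j v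
  exact add_mem (hterm 0) (hterm 1)

/-! ## The infinite part -/

/-- The projection to the infinite adeles. -/
def prInf404 (K : Type) [Field K] [NumberField K] : Adl K →+* InfiniteAdeleRing K :=
  RingHom.fst _ _

theorem prInf404_apply (a : Adl K) : prInf404 K a = a.1 := rfl

theorem infMixed671_eq_zero404 {a : Adl K} (h : infMixed671 a = 0) : a.1 = 0 := by
  unfold infMixed671 at h
  exact (InfiniteAdeleRing.ringEquiv_mixedSpace K).injective (h.trans (map_zero _).symm)

/-- If the infinite part of `ξ g` vanishes then `ξ = 0`. -/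
theorem eq_zero_of_pairOf_rowOf404 (g : G K) (ξ : Fin 2 → K)
    (h : pairOf671 (rowOf ξ g) = 0) : ξ = 0 := by
  classical
  have h0 : infMixed671 (rowOf ξ g 0) = 0 := congrArg Prod.fst h
  have h1 : infMixed671 (rowOf ξ g 1) = 0 := congrArg Prod.snd h
  have hz : ∀ j : Fin 2, prInf404 K (rowOf ξ g j) = 0 := by
    intro j
    fin_cases j
    · exact infMixed671_eq_zero404 h0
    · exact infMixed671_eq_zero404 h1
  -- transport the row to the infinite adeles and invert `g`
  set f : Adl K →+* InfiniteAdeleRing K := prInf404 K with hf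
  set M : Matrix (Fin 2) (Fin 2) (Adl K) := (g : Matrix (Fin 2) (Fin 2) (Adl K)) with hM
  set N : Matrix (Fin 2) (Fin 2) (Adl K) := ((g⁻¹ : G K) : Matrix (Fin 2) (Fin 2) (Adl K))
    with hN
  have hMN : M * N = 1 := by
    rw [hM, hN, ← Matrix.GeneralLinearGroup.coe_mul, mul_inv_cancel]
    rfl
  have hrow : (⇑f ∘ emb227 K ξ) ᵥ* M.map ⇑f = 0 := by
    funext j
    rw [← RingHom.map_vecMul, emb_vecMul404]
    exact hz j
  have hmap : M.map ⇑f * N.map ⇑f = 1 := by
    rw [← Matrix.map_mul, hMN, Matrix.map_one _ (map_zero f) (map_one f)]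
  have hemb : (⇑f ∘ emb227 K ξ) = 0 := by
    have := congrArg (fun w => w ᵥ* N.map ⇑f) hrow
    simp only [Matrix.vecMul_vecMul, hmap, Matrix.vecMul_one, Matrix.zero_vecMul] at this
    exact this
  funext i
  have hi : f (emb227 K ξ i) = 0 := congrFun hemb i
  have hi' : algebraMap K (InfiniteAdeleRing K) (ξ i) = 0 := hi
  have hinj : Function.Injective (algebraMap K (InfiniteAdeleRing K)) :=
    (algebraMap K (InfiniteAdeleRing K)).injective
  exact hinj (hi'.trans (map_zero _).symm)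

/-! ## The leaf -/

/-- **T7.14.3c.F `StrictC227`.** -/
theorem strictC404 (K : Type) [Field K] [NumberField K] : StrictC227 K := by
  classical
  intro g D hD r
  -- existence
  obtain ⟨x₁, hx₁⟩ := exists_int_translate404 g r
  obtain ⟨l, hl, -⟩ := hD (pairOf671 ((emb227 K x₁ + r) ᵥ* (g : Matrix (Fin 2) (Fin 2) (Adl K))))
  obtain ⟨ξ, hξint, hξ⟩ := mem_latG671.mp l.2
  have hsplit : ∀ y : Fin 2 → K,
      (emb227 K (y + x₁) + r) ᵥ* (g : Matrix (Fin 2) (Fin 2) (Adl K))
        = rowOf y g + (emb227 K x₁ + r) ᵥ* (g : Matrix (Fin 2) (Fin 2) (Adl K)) := by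
    intro y
    rw [emb_add404, add_assoc, Matrix.add_vecMul, emb_vecMul404]
  refine ⟨ξ + x₁, ⟨?_, ?_⟩, ?_⟩
  · rw [hsplit]
    exact isIntRow671_add hξint hx₁
  · rw [hsplit, pairOf671_add, hξ]
    exact hl
  · -- uniqueness
    rintro y ⟨hyint, hyD⟩
    -- `ζ = y - (ξ + x₁)`
    set x := ξ + x₁ with hx
    have hxint : IsIntRow671 ((emb227 K x + r) ᵥ* (g : Matrix (Fin 2) (Fin 2) (Adl K))) := by
      rw [hx, hsplit]; exact isIntRow671_add hξint hx₁
    have hxD : pairOf671 ((emb227 K x + r) ᵥ* (g : Matrix (Fin 2) (Fin 2) (Adl K))) ∈ D := by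
      rw [hx, hsplit, pairOf671_add, hξ]; exact hl
    set ζ : Fin 2 → K := y - x with hζ
    have hyx : y = ζ + x := by rw [hζ]; abel
    have hrowy : (emb227 K y + r) ᵥ* (g : Matrix (Fin 2) (Fin 2) (Adl K))
        = rowOf ζ g + (emb227 K x + r) ᵥ* (g : Matrix (Fin 2) (Fin 2) (Adl K)) := by
      rw [hyx, emb_add404, add_assoc, Matrix.add_vecMul, emb_vecMul404]
    have hζint : IsIntRow671 (rowOf ζ g) := by
      have e : rowOf ζ g = (emb227 K y + r) ᵥ* (g : Matrix (Fin 2) (Fin 2) (Adl K))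
          + -((emb227 K x + r) ᵥ* (g : Matrix (Fin 2) (Fin 2) (Adl K))) := by
        rw [hrowy]; abel
      rw [e]
      exact isIntRow671_add hyint (isIntRow671_neg hxint)
    -- two elements of the lattice move the same point into `D`
    let e₀ : Pair671 K := pairOf671 ((emb227 K x + r) ᵥ* (g : Matrix (Fin 2) (Fin 2) (Adl K)))
    obtain ⟨l₀, -, huniq⟩ := hD e₀
    have hmemζ : pairOf671 (rowOf ζ g) ∈ latG671 g := mem_latG671.mpr ⟨ζ, hζint, rfl⟩
    have h1 : (⟨pairOf671 (rowOf ζ g), hmemζ⟩ : latG671 g) = l₀ := by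
      apply huniq
      show pairOf671 (rowOf ζ g) + e₀ ∈ D
      have : pairOf671 (rowOf ζ g) + e₀
          = pairOf671 ((emb227 K y + r) ᵥ* (g : Matrix (Fin 2) (Fin 2) (Adl K))) := by
        rw [hrowy, pairOf671_add]
      rw [this]
      exact hyD
    have h2 : (0 : latG671 g) = l₀ := by
      apply huniq
      show ((0 : latG671 g) : Pair671 K) + e₀ ∈ D
      rw [ZeroMemClass.coe_zero, zero_add]
      exact hxD
    have h3 : pairOf671 (rowOf ζ g) = 0 := by
      have := congrArg (fun l : latG671 g => (l : Pair671 K)) (h1.trans h2.symm)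
      simpa using this
    have hζ0 : ζ = 0 := eq_zero_of_pairOf_rowOf404 g ζ h3
    rw [hyx, hζ0, zero_add]

end Fermat.Agent.LT.T7.H404

end

end
-- ===== PACK-END LT/T7/H404/Strict.lean

-- ===== PACK-BEGIN LT/T7/H811/UnfoldX.lean
section


/-!
# Row LT, tower T7, node T7.14 `RigidC`, leaf T7.14.6a-F.4 `UnfoldXC57` (registry 1914)
# helper811, OFF-MAIN

`unfoldXC811 (K) : H57.UnfoldXC57 K`, UNCONDITIONAL: for a Haar measure `τ` of the ideles, a
fundamental domain `FX` of the principal ideles and a measurable `u` with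
`∫⁻_FX ∑_α ‖u(α y)‖ₑ dτ < ∞`:  `∫_FX ∑_α u(α y) dτ = ∫ u dτ`.

Proof: the general statement `unfold_general811` for a topological group with its Borel
σ-algebra, a left invariant measure and an injective homomorphism from a countable group
(Mathlib: `IsFundamentalDomain.lintegral_eq_tsum''`, `integral_eq_tsum''`, `lintegral_tsum`,
`integral_tsum`); `K` is countable (finite dimensional over `ℚ`), `K → 𝔸_K` is injective.
-/

set_option autoImplicit false

open MeasureTheory
open scoped ENNReal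

noncomputable section

namespace Fermat.Agent.LT.T7.H811

/-- A number field is countable. -/
theorem countable_numberField811 (K : Type) [Field K] [NumberField K] : Countable K :=
  (Module.finBasis ℚ K).equivFun.injective.countable

section General

variable {G : Type*} [Group G] [TopologicalSpace G] [IsTopologicalGroup G] [MeasurableSpace G]
  [BorelSpace G] {ι : Type*} [Group ι] [Countable ι]

/-- Unfolding along an injective homomorphism from a countable group, non-negative functions. -/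
theorem lintegral_unfold811 (f : ι →* G) (hf : Function.Injective f) (τ : Measure G)
    [τ.IsMulLeftInvariant] (FX : Set G) (hFX : IsFundamentalDomain f.range FX τ)
    (v : G → ℝ≥0∞) (hv : Measurable v) :
    ∫⁻ y, v y ∂τ = ∫⁻ y in FX, ∑' α : ι, v (f α * y) ∂τ := by
  have : Countable f.range := (MonoidHom.ofInjective hf).symm.injective.countable
  rw [hFX.lintegral_eq_tsum'' v]
  rw [← (MonoidHom.ofInjective hf).toEquiv.tsum_eq
    (fun g : f.range => ∫⁻ x in FX, v (g • x) ∂τ)]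
  rw [lintegral_tsum (μ := τ.restrict FX) (f := fun (α : ι) (y : G) => v (f α * y))
    (fun α => (hv.comp (measurable_const_mul (f α))).aemeasurable)]
  rfl

/-- Unfolding along an injective homomorphism from a countable group. -/
theorem unfold_general811 (f : ι →* G) (hf : Function.Injective f) (τ : Measure G)
    [τ.IsMulLeftInvariant] (FX : Set G) (hFX : IsFundamentalDomain f.range FX τ)
    (u : G → ℂ) (hu : Measurable u)
    (hfin : ∫⁻ y in FX, ∑' α : ι, ‖u (f α * y)‖ₑ ∂τ < ⊤) :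
    ∫ y in FX, ∑' α : ι, u (f α * y) ∂τ = ∫ y, u y ∂τ := by
  have : Countable f.range := (MonoidHom.ofInjective hf).symm.injective.countable
  have hnorm := lintegral_unfold811 f hf τ FX hFX (fun y => ‖u y‖ₑ) hu.enorm
  have hint : Integrable u τ := by
    refine ⟨hu.aestronglyMeasurable, ?_⟩
    rw [hasFiniteIntegral_iff_enorm, hnorm]
    exact hfin
  rw [hFX.integral_eq_tsum'' u hint]
  rw [← (MonoidHom.ofInjective hf).toEquiv.tsum_eq
    (fun g : f.range => ∫ x in FX, u (g • x) ∂τ)]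
  have hmeas : ∀ α : ι, AEStronglyMeasurable (fun y => u (f α * y)) (τ.restrict FX) :=
    fun α => (hu.comp (measurable_const_mul (f α))).aestronglyMeasurable
  rw [integral_tsum hmeas]
  · rfl
  · rw [← lintegral_tsum (μ := τ.restrict FX) (f := fun (α : ι) (y : G) => ‖u (f α * y)‖ₑ)
      (fun α => (hu.enorm.comp (measurable_const_mul (f α))).aemeasurable)]
    exact hfin.ne

end General

open Fermat.Agent.LT.H556.A0 in
theorem ratU57_injective811 (K : Type) [Field K] [NumberField K] :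
    Function.Injective (H57.ratU57 K) := by
  unfold H57.ratU57
  exact Units.map_injective (NumberField.AdeleRing.algebraMap_injective (NumberField.RingOfIntegers K) K)

/-- **T7.14.6a-F.4 `UnfoldXC57`, unconditional.** -/
theorem unfoldXC811 (K : Type) [Field K] [NumberField K] : H57.UnfoldXC57 K := by
  unfold H57.UnfoldXC57
  let _ : MeasurableSpace (Fermat.Agent.LT.H556.A0.Adl K)ˣ :=
    borel (Fermat.Agent.LT.H556.A0.Adl K)ˣ
  have : BorelSpace (Fermat.Agent.LT.H556.A0.Adl K)ˣ := ⟨rfl⟩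
  have : Countable K := countable_numberField811 K
  have : Countable Kˣ := (Units.val_injective (α := K)).countable
  intro τ hτ FX hFX u hu hfin
  have := hτ
  exact unfold_general811 (H57.ratU57 K) (ratU57_injective811 K) τ FX hFX u hu hfin

end Fermat.Agent.LT.T7.H811

end

end
-- ===== PACK-END LT/T7/H811/UnfoldX.lean

-- ===== PACK-BEGIN LT/T7/H941/HeckeRec.lean
section





/-!
# Row LT, tower T7, node T7.14.6b, LEAF T7.14.6b.2 `HeckeRecC` -- VERBATIM (helper941, spare)

OFF-MAIN.  `heckeRecC941 : Rigid.HeckeRecC K`, unconditional, for every number field `K`.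

Proof.  `y = y_v · y'`, `y_v` the local idele of the component of `y` at `v`, `y'` trivial at `v`.
By the solved recursion `whit_unram941` (T2.10.07 of helper255 in the vocabulary of
`RigidStrip.lean`): `W(a(z y')) = L(ord_v z) · W(a(y'))` for every idele `z` supported at `v`,
`L = Rigid.locFactor v (π.a v)`.  For `z = y_v, y_v t, y_v t⁻¹` the exponents are `n, n + 1,
n - 1`, `n = ord_v y`, and `L(n) = 0` for `n < 0`, `q L(n+1) + L(n-1) = √q a L(n)` for `n ≥ 0`.

Imports (byte-identical copies): `LT/T7/H62/RigidWhit.lean` (helper62@401662996),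
`LT/T2/H23/Idele.lean` (helper23), `LT/T2/H255/UnramTorus.lean` (helper255).
-/

set_option autoImplicit false
set_option linter.unusedSectionVars false
set_option linter.unusedVariables false
set_option linter.style.haveILetI false

open AutomorphicForm IsDedekindDomain NumberField MeasureTheory
open IsDedekindDomain.HeightOneSpectrum
open Fermat.Agent.LT.H556 Fermat.Agent.LT.H556.A0

noncomputable section

namespace Fermat.Agent.LT.T7.H941

open Fermat.Agent.LT Fermat.Agent.LT.T2.H941 Fermat.Agent.LT.T2.H255 Fermat.Agent.LT.T2.H23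
open Fermat.Agent.LT.T7

variable {K : Type} [Field K] [NumberField K]

/-! ## 1. The exponent of an idele -/

theorem val_comp_ne_zero941 (v : HeightOneSpectrum (𝓞 K)) (y : (Adl K)ˣ) :
    Valued.v ((y : Adl K).2 v) ≠ 0 :=
  (Valuation.ne_zero_iff _).mpr (idele_comp_ne_zero255 v y)

theorem ordI_mul941 (v : HeightOneSpectrum (𝓞 K)) (y y' : (Adl K)ˣ) :
    Rigid.ordI v (y * y') = Rigid.ordI v y + Rigid.ordI v y' := by
  unfold Rigid.ordI
  have h : ((y * y' : (Adl K)ˣ) : Adl K).2 v = (y : Adl K).2 v * (y' : Adl K).2 v := rfl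
  rw [h, map_mul, WithZero.log_mul (val_comp_ne_zero941 v y) (val_comp_ne_zero941 v y')]
  ring

theorem ordI_one941 (v : HeightOneSpectrum (𝓞 K)) : Rigid.ordI v (1 : (Adl K)ˣ) = 0 := by
  have h := ordI_mul941 v (1 : (Adl K)ˣ) 1
  rw [mul_one] at h
  omega

theorem ordI_inv941 (v : HeightOneSpectrum (𝓞 K)) (y : (Adl K)ˣ) :
    Rigid.ordI v y⁻¹ = -Rigid.ordI v y := by
  have h := ordI_mul941 v y y⁻¹
  rw [mul_inv_cancel, ordI_one941] at h
  omega

theorem ordI_congr941 (v : HeightOneSpectrum (𝓞 K)) {y y' : (Adl K)ˣ}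
    (h : (y : Adl K).2 v = (y' : Adl K).2 v) : Rigid.ordI v y = Rigid.ordI v y' := by
  unfold Rigid.ordI
  rw [h]

theorem ordI_unif941 {v : HeightOneSpectrum (𝓞 K)} {t : (Adl K)ˣ} (ht : Rigid.IsUnifIdele v t) :
    Rigid.ordI v t = 1 := by
  unfold Rigid.ordI
  rw [ht.2.2, WithZero.log_exp]
  ring

theorem isIdeleAtFin_unif941 {v : HeightOneSpectrum (𝓞 K)} {t : (Adl K)ˣ}
    (ht : Rigid.IsUnifIdele v t) : IsIdeleAtFin v t :=
  ⟨ht.1, ht.2.1⟩

theorem isIdeleAtFin_mul941 {v : HeightOneSpectrum (𝓞 K)} {y y' : (Adl K)ˣ}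
    (hy : IsIdeleAtFin v y) (hy' : IsIdeleAtFin v y') : IsIdeleAtFin v (y * y') := by
  refine ⟨fun w => ?_, fun v' hv' => ?_⟩
  · have h : ((y * y' : (Adl K)ˣ) : Adl K).1 w = (y : Adl K).1 w * (y' : Adl K).1 w := rfl
    rw [h, hy.1 w, hy'.1 w, mul_one]
  · have h : ((y * y' : (Adl K)ˣ) : Adl K).2 v' = (y : Adl K).2 v' * (y' : Adl K).2 v' := rfl
    rw [h, hy.2 v' hv', hy'.2 v' hv', mul_one]

theorem isIdeleAtFin_inv941 {v : HeightOneSpectrum (𝓞 K)} {y : (Adl K)ˣ}
    (hy : IsIdeleAtFin v y) : IsIdeleAtFin v y⁻¹ := by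
  have e : y = iF23 v (cF23 v y) := eq_iF23_of_isIdeleAtFin23 hy
  rw [e, ← map_inv]
  exact isIdeleAtFin_iF23 v _

/-! ## 2. The local factor -/

theorem locFactor_neg941 (v : HeightOneSpectrum (𝓞 K)) (a : ℂ) {n : ℤ} (hn : n < 0) :
    Rigid.locFactor v a n = 0 := by
  unfold Rigid.locFactor
  rw [if_neg (by omega)]

theorem locFactor_nat941 (v : HeightOneSpectrum (𝓞 K)) (a : ℂ) (m : ℕ) :
    Rigid.locFactor v a (m : ℤ)
      = (((Real.sqrt (Ideal.absNorm v.asIdeal : ℝ) : ℝ) : ℂ)⁻¹) ^ m * Rigid.hpoly a m := by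
  unfold Rigid.locFactor
  rw [if_pos (by omega), rpow_neg_half941, Int.toNat_natCast]

/-- `q L(n+1) + L(n-1) = √q a L(n)` for `n ≥ 0`. -/
theorem locFactor_rec941 (v : HeightOneSpectrum (𝓞 K)) (a : ℂ) {n : ℤ} (hn : 0 ≤ n) :
    ((Rigid.nv v : ℝ) : ℂ) * Rigid.locFactor v a (n + 1) + Rigid.locFactor v a (n - 1)
      = ((Real.sqrt (Rigid.nv v) : ℝ) : ℂ) * a * Rigid.locFactor v a n := by
  have hpos : (0 : ℝ) < (Ideal.absNorm v.asIdeal : ℝ) := by
    have h := NumberField.HeightOneSpectrum.one_lt_absNorm v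
    exact_mod_cast (by omega : 0 < Ideal.absNorm v.asIdeal)
  have hs : ((Real.sqrt (Ideal.absNorm v.asIdeal : ℝ) : ℝ) : ℂ) ≠ 0 := by
    exact_mod_cast (Real.sqrt_pos.mpr hpos).ne'
  have hq : ((Rigid.nv v : ℝ) : ℂ)
      = ((Real.sqrt (Ideal.absNorm v.asIdeal : ℝ) : ℝ) : ℂ)
        * ((Real.sqrt (Ideal.absNorm v.asIdeal : ℝ) : ℝ) : ℂ) := by
    rw [← Complex.ofReal_mul, Real.mul_self_sqrt (Nat.cast_nonneg _)]
    rfl
  have hsq : ((Real.sqrt (Rigid.nv v) : ℝ) : ℂ)
      = ((Real.sqrt (Ideal.absNorm v.asIdeal : ℝ) : ℝ) : ℂ) := rfl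
  rw [hq, hsq]
  obtain ⟨m, rfl⟩ := Int.eq_ofNat_of_zero_le hn
  cases m with
  | zero =>
    have e1 : ((0 : ℕ) : ℤ) + 1 = ((1 : ℕ) : ℤ) := by norm_num
    have e2 : ((0 : ℕ) : ℤ) - 1 < 0 := by norm_num
    rw [e1, locFactor_neg941 v a e2, locFactor_nat941, locFactor_nat941]
    simp only [Rigid.hpoly, pow_one, pow_zero, mul_one, add_zero]
    generalize ((Real.sqrt (Ideal.absNorm v.asIdeal : ℝ) : ℝ) : ℂ) = s at hs ⊢
    have hst : s * s⁻¹ = 1 := mul_inv_cancel₀ hs
    linear_combination (s * a) * hst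
  | succ k =>
    have e1 : ((k + 1 : ℕ) : ℤ) + 1 = ((k + 2 : ℕ) : ℤ) := by push_cast; ring
    have e2 : ((k + 1 : ℕ) : ℤ) - 1 = ((k : ℕ) : ℤ) := by push_cast; ring
    rw [e1, e2, locFactor_nat941, locFactor_nat941, locFactor_nat941]
    have h2 : Rigid.hpoly a (k + 2) = a * Rigid.hpoly a (k + 1) - Rigid.hpoly a k := rfl
    rw [h2]
    generalize Rigid.hpoly a (k + 1) = H1
    generalize Rigid.hpoly a k = H0
    generalize ((Real.sqrt (Ideal.absNorm v.asIdeal : ℝ) : ℝ) : ℂ) = s at hs ⊢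
    have hst : s * s⁻¹ = 1 := mul_inv_cancel₀ hs
    linear_combination
      ((s * s⁻¹ + 1) * s⁻¹ ^ k * (a * H1 - H0) - s⁻¹ ^ k * a * H1) * hst

/-! ## 3. The leaf -/

/-- **LEAF T7.14.6b.2 `HeckeRecC`**, verbatim, unconditional. -/
theorem heckeRecC941 : Rigid.HeckeRecC K := by
  intro hcplx ψ hstd hnd ν D hνH hDm hDf hDfin π S φ hun hφ v hv y t ht
  have hW : IsWhitData ψ ν D := isWhitData_of941 hstd hnd hun hνH hDm hDf hDfin
  have hd : IsCondExp ψ v 0 := isCondExp_zero_of_unramOutside941 hun hv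
  obtain ⟨𝔪, h𝔪, hsupp, hlev⟩ := hφ.level_inv
  have hK : IsKv v φ :=
    T2.H333.isKv_of_isLevel333 𝔪 v φ (fun h => hv (hsupp v h)) hlev
  have hE : IsHeckeEigenAt φ v (π.a v) 1 := hφ.hecke v hv
  -- the decomposition `y = y_v · y'`
  have hyv : IsIdeleAtFin v (iF23 v (cF23 v y)) := isIdeleAtFin_iF23 v _
  have hy' : TrivAtFin v (Rigid.dgA (y * (iF23 v (cF23 v y))⁻¹)) := by
    apply trivAtFin_tor23
    rw [map_mul, map_inv, cF23_iF23_same23, mul_inv_cancel]
  have key : ∀ z : (Adl K)ˣ, IsIdeleAtFin v z →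
      Rigid.whit ψ ν D φ (Rigid.dgA (z * (y * (iF23 v (cF23 v y))⁻¹)))
        = Rigid.locFactor v (π.a v) (Rigid.ordI v z)
          * Rigid.whit ψ ν D φ (Rigid.dgA (y * (iF23 v (cF23 v y))⁻¹)) := by
    intro z hz
    have e : Rigid.dgA (z * (y * (iF23 v (cF23 v y))⁻¹))
        = Rigid.dgA z * Rigid.dgA (y * (iF23 v (cF23 v y))⁻¹) := tor_mul23 _ _
    rw [e]
    exact whit_unram941 hW hd hφ.cont hφ.bdd hφ.left_inv hK hE hz hy'
  have hord : Rigid.ordI v (iF23 v (cF23 v y)) = Rigid.ordI v y :=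
    ordI_congr941 v (iF23_val_same23 v _)
  have htF : IsIdeleAtFin v t := isIdeleAtFin_unif941 ht
  have e0 : y = iF23 v (cF23 v y) * (y * (iF23 v (cF23 v y))⁻¹) := by
    rw [mul_comm y, ← mul_assoc, mul_inv_cancel, one_mul]
  have e1 : y * t = (iF23 v (cF23 v y) * t) * (y * (iF23 v (cF23 v y))⁻¹) := by
    rw [mul_comm (iF23 v (cF23 v y)) t, mul_assoc, ← e0, mul_comm]
  have e2 : y * t⁻¹ = (iF23 v (cF23 v y) * t⁻¹) * (y * (iF23 v (cF23 v y))⁻¹) := by
    rw [mul_comm (iF23 v (cF23 v y)) t⁻¹, mul_assoc, ← e0, mul_comm]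
  have k0 := key _ hyv
  have k1 := key _ (isIdeleAtFin_mul941 hyv htF)
  have k2 := key _ (isIdeleAtFin_mul941 hyv (isIdeleAtFin_inv941 htF))
  rw [← e0, hord] at k0
  rw [← e1, ordI_mul941, hord, ordI_unif941 ht] at k1
  rw [← e2, ordI_mul941, hord, ordI_inv941, ordI_unif941 ht] at k2
  refine ⟨fun hn => ?_, fun hn => ?_⟩
  · rw [k0, locFactor_neg941 v _ hn, zero_mul]
  · rw [k0, k1, k2]
    have hrec := locFactor_rec941 v (π.a v) hn
    have e3 : Rigid.ordI v y + -1 = Rigid.ordI v y - 1 := by ring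
    rw [e3]
    linear_combination
      (Rigid.whit ψ ν D φ (Rigid.dgA (y * (iF23 v (cF23 v y))⁻¹))) * hrec

end Fermat.Agent.LT.T7.H941

end

end
-- ===== PACK-END LT/T7/H941/HeckeRec.lean

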