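import Mathlib
import Fermat.Agent.Pack.LT2.E16L2
import Fermat.Agent.Pack.LT2.E16L1
import Fermat.Agent.Pack.LT2.E16L0
import Fermat.Agent.Pack.LT2.E3L0
import Fermat.Agent.Pack.LT2.E16L3
import Fermat.Agent.Pack.LT2.E0L3
import Fermat.Agent.Pack.LT2.E15L1
import Fermat.Agent.Pack.LT2.E15L3
import Fermat.Agent.Pack.LT2.E15L2
import Fermat.Agent.Pack.LT2.E12L2
import Fermat.Agent.Pack.LT2.E13L2
import Fermat.Agent.Pack.LT2.E13L0

set_option linter.all false

-- ===== PACK-BEGIN LT/A2/H124/Pair.lean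
section


/-!
# Row LT, tower A2, leaf A2.03.8.5.1 `H254.PairC254` (helper124)

OFF-MAIN.  `pairC124 : H254.PairC254`, VERBATIM against `LT/A2/H254/RecSplitSpec.lean`
(helper254@51dfc4e4e, sha256 947dfa59, byte-identical copy).  Mathlib + `LT/H129` + the Spec
closure only.  Nothing is assumed.

At a split place `v ∤ π.level` take the integral element `m₁ ∈ T(K_v)` of `IsSplitAt142`
(`det m₁` a uniformiser), correct its determinant by `κ ∈ T(𝒪_v)` with `det κ = ϖ / det m₁`
(`IsStd.good_norm`): `μ = m₁ κ`.  `μ̄` is the adjugate of `μ`.  If `μ⁻¹ μ̄` were integral at `v`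
then `(adj μ_v)² = ϖ Y` with `Y` integral, and the entry `(1, 0)`, which is `-y (2x + t y)` for
`μ_v = x + y M_ω`, would be divisible by `ϖ`: impossible by `pair_core124` (the discriminant
`t² - 4n` is a unit at `v`: `good_int`).
-/

set_option autoImplicit false

open IsDedekindDomain NumberField AutomorphicForm MeasureTheory
open scoped MatrixGroups

noncomputable section

namespace Fermat.Agent.LT.A2.H124

open Fermat.Agent.LT.H556 Fermat.Agent.LT.H556.A0 Fermat.Agent.LT.H129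
open Fermat.Agent.LT.A2 Fermat.Agent.LT.A2.H142 Fermat.Agent.LT.A2.H254

variable {K : Type} [Field K] [NumberField K]

/-! ## Components -/

theorem evF_algebraMap124 (v : HeightOneSpectrum (𝓞 K)) (x : K) :
    evF129 v (algebraMap K (Adl K) x) = algebraMap K (v.adicCompletion K) x := rfl

theorem finComp_eq_map124 (v : HeightOneSpectrum (𝓞 K)) (g : G K) :
    finComp v g = (g : Matrix (Fin 2) (Fin 2) (Adl K)).map (evF129 v) := rfl

theorem finComp_mul124 (v : HeightOneSpectrum (𝓞 K)) (g h : G K) :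
    finComp v (g * h) = finComp v g * finComp v h := by
  rw [← coe_finCompHom129, ← coe_finCompHom129, ← coe_finCompHom129, map_mul]
  rfl

theorem det_finComp124 (v : HeightOneSpectrum (𝓞 K)) (g : G K) :
    (finComp v g).det
      = ((Matrix.GeneralLinearGroup.det g : (Adl K)ˣ) : Adl K).2 v := by
  rw [finComp_eq_map124]
  have h := RingHom.map_det (evF129 v) (g : Matrix (Fin 2) (Fin 2) (Adl K))
  rw [RingHom.mapMatrix_apply] at h
  rw [← h]
  rfl

/-! ## The torus -/

theorem inTorus_mul124 {t n : K} {m m' : G K} (h : InTorus t n m) (h' : InTorus t n m') :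
    InTorus t n (m * m') := by
  obtain ⟨a, b, hab⟩ := h
  obtain ⟨c, d, hcd⟩ := h'
  exact ⟨a * c - algebraMap K (Adl K) n * (b * d),
    a * d + b * c + algebraMap K (Adl K) t * (b * d), by
      rw [Matrix.GeneralLinearGroup.coe_mul, hab, hcd, torMat_mul124]⟩

/-- The component at `v` of an element of the torus, in torus coordinates. -/
theorem finComp_torus124 {t n : K} {m : G K} (h : InTorus t n m)
    (v : HeightOneSpectrum (𝓞 K)) :
    ∃ x y : v.adicCompletion K, finComp v m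
      = torMat (algebraMap K (v.adicCompletion K) t) (algebraMap K (v.adicCompletion K) n) x y := by
  obtain ⟨a, b, hab⟩ := h
  refine ⟨evF129 v a, evF129 v b, ?_⟩
  rw [finComp_eq_map124, hab, torMat_map124, evF_algebraMap124, evF_algebraMap124]

/-! ## The idele with a given component at `v` -/

/-- The idele with component `u` at `v` and `1` elsewhere. -/
def unitIdele124 (v : HeightOneSpectrum (𝓞 K)) (u : v.adicCompletion K) (hu : u ≠ 0) :
    (Adl K)ˣ where
  val := (1, finSingle129 v true u)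
  inv := (1, finSingle129 v true u⁻¹)
  val_inv := by
    refine adele_ext129 (fun w => ?_) (fun v' => ?_)
    · show ((1 : InfiniteAdeleRing K) * 1) w = (1 : InfiniteAdeleRing K) w
      rw [mul_one]
    · show finSingle129 v true u v' * finSingle129 v true u⁻¹ v' = 1
      by_cases h : v' = v
      · subst h
        rw [finSingle129_same, finSingle129_same, mul_inv_cancel₀ hu]
      · rw [finSingle129_of_ne v _ _ h, finSingle129_of_ne v _ _ h]
        simp
  inv_val := by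
    refine adele_ext129 (fun w => ?_) (fun v' => ?_)
    · show ((1 : InfiniteAdeleRing K) * 1) w = (1 : InfiniteAdeleRing K) w
      rw [mul_one]
    · show finSingle129 v true u⁻¹ v' * finSingle129 v true u v' = 1
      by_cases h : v' = v
      · subst h
        rw [finSingle129_same, finSingle129_same, inv_mul_cancel₀ hu]
      · rw [finSingle129_of_ne v _ _ h, finSingle129_of_ne v _ _ h]
        simp

theorem unitIdele124_same (v : HeightOneSpectrum (𝓞 K)) (u : v.adicCompletion K) (hu : u ≠ 0) :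
    ((unitIdele124 v u hu : (Adl K)ˣ) : Adl K).2 v = u :=
  finSingle129_same v true u

theorem unitIdele124_isIdeleAt (v : HeightOneSpectrum (𝓞 K)) (u : v.adicCompletion K)
    (hu : u ≠ 0) : IsIdeleAt v (unitIdele124 v u hu) := by
  refine ⟨fun w => rfl, fun v' h => ?_⟩
  show finSingle129 v true u v' = 1
  rw [finSingle129_of_ne v _ _ h]
  simp

/-! ## The adjugate -/

/-- The adjugate of `g ∈ GL₂(𝔸_K)`, as an element of `GL₂(𝔸_K)`. -/
def adjG124 (g : G K) : G K where
  val := (g : Matrix (Fin 2) (Fin 2) (Adl K)).adjugate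
  inv := ((g⁻¹ : G K) : Matrix (Fin 2) (Fin 2) (Adl K)).adjugate
  val_inv := by
    rw [← Matrix.adjugate_mul_distrib, ← Matrix.GeneralLinearGroup.coe_mul, inv_mul_cancel]
    simp
  inv_val := by
    rw [← Matrix.adjugate_mul_distrib, ← Matrix.GeneralLinearGroup.coe_mul, mul_inv_cancel]
    simp

theorem coe_adjG124 (g : G K) :
    ((adjG124 g : G K) : Matrix (Fin 2) (Fin 2) (Adl K))
      = (g : Matrix (Fin 2) (Fin 2) (Adl K)).adjugate := rfl

theorem finComp_adjG124 (v : HeightOneSpectrum (𝓞 K)) (g : G K) :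
    finComp v (adjG124 g) = (finComp v g).adjugate := by
  rw [finComp_eq_map124, finComp_eq_map124, coe_adjG124]
  have h := RingHom.map_adjugate (evF129 v) (g : Matrix (Fin 2) (Fin 2) (Adl K))
  rw [RingHom.mapMatrix_apply, RingHom.mapMatrix_apply] at h
  exact h

theorem finCompHom_adjG124_of_triv (v : HeightOneSpectrum (𝓞 K)) (g : G K)
    (h : finCompHom129 v g = 1) : finCompHom129 v (adjG124 g) = 1 := by
  apply Units.ext
  rw [coe_finCompHom129, finComp_adjG124, ← coe_finCompHom129, h]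
  simp

theorem infCompHom_adjG124_of_triv (w : InfinitePlace K) (g : G K)
    (h : infCompHom129 w g = 1) : infCompHom129 w (adjG124 g) = 1 := by
  apply Units.ext
  rw [coe_infCompHom129_map, coe_adjG124]
  have h2 := RingHom.map_adjugate (evI129 w) (g : Matrix (Fin 2) (Fin 2) (Adl K))
  rw [RingHom.mapMatrix_apply, RingHom.mapMatrix_apply] at h2
  rw [h2, ← coe_infCompHom129_map, h]
  simp

theorem isLocalAtFin_adjG124 {v : HeightOneSpectrum (𝓞 K)} {g : G K} (h : IsLocalAtFin v g) :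
    IsLocalAtFin v (adjG124 g) := by
  rw [isLocalAtFin_iff129] at *
  exact ⟨fun w => infCompHom_adjG124_of_triv w g (h.1 w),
    fun v' hv => finCompHom_adjG124_of_triv v' g (h.2 v' hv)⟩

theorem inTorus_adjG124 {t n : K} {g : G K} (h : InTorus t n g) : InTorus t n (adjG124 g) := by
  obtain ⟨a, b, hab⟩ := h
  exact ⟨a + algebraMap K (Adl K) t * b, -b, by
    rw [coe_adjG124, hab, torMat_adjugate124]⟩

theorem isIntegralAt_adjG124 {v : HeightOneSpectrum (𝓞 K)} {g : G K} (h : IsIntegralAt v g) :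
    IsIntegralAt v (adjG124 g) := by
  intro i j
  rw [finComp_adjG124, Matrix.adjugate_fin_two]
  fin_cases i <;> fin_cases j
  · simpa using h 1 1
  · simpa using neg_mem (h 0 1)
  · simpa using neg_mem (h 1 0)
  · simpa using h 0 0

theorem isIntegralAt_mul124 {v : HeightOneSpectrum (𝓞 K)} {g h : G K} (hg : IsIntegralAt v g)
    (hh : IsIntegralAt v h) : IsIntegralAt v (g * h) := by
  intro i j
  rw [finComp_mul124, Matrix.mul_apply]
  exact sum_mem fun k _ => mul_mem (hg i k) (hh k j)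

/-- If `adj M = M Y` for `M = x + y M_ω` of determinant `ϖ`, then the entry `(1, 0)` of `ϖ Y` is
`- y (2 x + T y)`. -/
theorem adj_entry124 {F : Type*} [Field F] (T N x y ϖ : F) (M Y : Matrix (Fin 2) (Fin 2) F)
    (hM : M = torMat T N x y) (hdet : M.det = ϖ) (hadj : M.adjugate = M * Y) :
    y * (2 * x + T * y) = -(ϖ * Y 1 0) := by
  have hsq : M.adjugate * M.adjugate = ϖ • Y := by
    calc M.adjugate * M.adjugate = M.adjugate * (M * Y) := by rw [← hadj]
      _ = (M.adjugate * M) * Y := by rw [mul_assoc]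
      _ = ϖ • Y := by rw [Matrix.adjugate_mul, hdet, Matrix.smul_mul, one_mul]
  have hentry := congrFun (congrFun hsq 1) 0
  rw [hM, torMat_adjugate124, torMat_mul124] at hentry
  have h2 : (ϖ • Y) 1 0 = ϖ * Y 1 0 := rfl
  rw [h2] at hentry
  rw [← hentry]
  simp [torMat]
  ring

/-! ## The leaf -/

/-- **A2.03.8.5.1 PAIR**: at a split place there is a split pair for every uniformiser. -/
theorem pairC124 : PairC254 := by
  intro K _ _ D η W v hctx hsplit ϖ hϖ
  obtain ⟨m₁, hm₁tor, hm₁loc, hm₁int, hm₁det⟩ := hsplit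
  have hϖ0 : ϖ ≠ 0 := unif_ne_zero129 v hϖ
  have hd0 : (finComp v m₁).det ≠ 0 := by
    intro h0
    rw [h0, map_zero] at hm₁det
    exact WithZero.exp_ne_zero hm₁det.symm
  -- the unit `u = ϖ / det m₁`
  set u : v.adicCompletion K := ϖ / (finComp v m₁).det with hu
  have hu0 : u ≠ 0 := div_ne_zero hϖ0 hd0
  have huv : Valued.v u = 1 := by
    rw [hu, map_div₀, hϖ, hm₁det]
    exact div_self WithZero.exp_ne_zero
  have hunit : IsUnitIdeleAt v (unitIdele124 v u hu0) :=
    ⟨unitIdele124_isIdeleAt v u hu0, by rw [unitIdele124_same]; exact huv⟩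
  obtain ⟨κ, ⟨hκtor, hκloc, hκint, _⟩, hκdet⟩ := hctx.std.good_norm v hctx.hv _ hunit
  have hκd : (finComp v κ).det = u := by
    rw [det_finComp124, hκdet, unitIdele124_same]
  -- `μ = m₁ κ`
  have hμtor : InTorus D.t D.n (m₁ * κ) := inTorus_mul124 hm₁tor hκtor
  have hμloc : IsLocalAtFin v (m₁ * κ) := isLocalAtFin_mul129 hm₁loc hκloc
  have hμint : IsIntegralAt v (m₁ * κ) := isIntegralAt_mul124 hm₁int hκint
  have hμdet : (finComp v (m₁ * κ)).det = ϖ := by
    rw [finComp_mul124, Matrix.det_mul, hκd, hu, mul_div_cancel₀ _ hd0]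
  refine ⟨m₁ * κ, adjG124 (m₁ * κ), hμtor, inTorus_adjG124 hμtor, hμloc,
    isLocalAtFin_adjG124 hμloc, hμint, isIntegralAt_adjG124 hμint, hμdet, ?_, ?_, ?_⟩
  · -- `det μ̄_v = ϖ`
    rw [finComp_adjG124, Matrix.det_adjugate, hμdet]
    simp
  · -- `μ_v μ̄_v = ϖ`
    rw [finComp_adjG124, Matrix.mul_adjugate, hμdet]
    exact Matrix.smul_one_eq_diagonal ϖ
  · -- `μ⁻¹ μ̄` is not integral at `v`
    intro hY
    obtain ⟨x, y, hxy⟩ := finComp_torus124 hμtor v
    set T : v.adicCompletion K := algebraMap K (v.adicCompletion K) D.t with hT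
    set N : v.adicCompletion K := algebraMap K (v.adicCompletion K) D.n with hN
    obtain ⟨hTi, hNi, hdisc⟩ := hctx.std.good_int v hctx.hv
    have hdisc' : Valued.v (T ^ 2 - 4 * N) = 1 := by
      have h4 : algebraMap K (v.adicCompletion K) (D.t ^ 2 - 4 * D.n) = T ^ 2 - 4 * N := by
        rw [map_sub, map_pow, map_mul, map_ofNat]
      rw [← h4]
      exact hdisc
    -- `adj μ_v = μ_v Y`
    have hadj : (finComp v (m₁ * κ)).adjugate
        = finComp v (m₁ * κ) * finComp v ((m₁ * κ)⁻¹ * adjG124 (m₁ * κ)) := by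
      rw [← finComp_mul124, mul_inv_cancel_left, finComp_adjG124]
    have he := adj_entry124 T N x y ϖ _ _ hxy hμdet hadj
    have hx : Valued.v x ≤ 1 := by
      have := hμint 0 0
      rw [hxy] at this
      have h2 : x ∈ v.adicCompletionIntegers K := by simpa [torMat] using this
      exact (HeightOneSpectrum.mem_adicCompletionIntegers (𝓞 K) K v).mp h2
    have hy : Valued.v y ≤ 1 := by
      have := hμint 1 0
      rw [hxy] at this
      have h2 : y ∈ v.adicCompletionIntegers K := by simpa [torMat] using this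
      exact (HeightOneSpectrum.mem_adicCompletionIntegers (𝓞 K) K v).mp h2
    have hdet' : x ^ 2 + T * x * y + N * y ^ 2 = ϖ := by
      rw [← hμdet, hxy, torMat_det124]
    have hYint : Valued.v (finComp v ((m₁ * κ)⁻¹ * adjG124 (m₁ * κ)) 1 0) ≤ 1 := hY 1 0
    refine pair_core124 (Valued.v : Valuation (v.adicCompletion K) _) T N x y ϖ hTi hNi hdisc'
      hx hy hdet' hϖ ?_
    rw [he, Valuation.map_neg, map_mul, hϖ]
    calc WithZero.exp (-1 : ℤ) * Valued.v (finComp v ((m₁ * κ)⁻¹ * adjG124 (m₁ * κ)) 1 0)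
        ≤ WithZero.exp (-1 : ℤ) * 1 := mul_le_mul' le_rfl hYint
      _ = WithZero.exp (-1 : ℤ) := mul_one _

end Fermat.Agent.LT.A2.H124

end

end
-- ===== PACK-END LT/A2/H124/Pair.lean

-- ===== PACK-BEGIN LT/A2/H201/ProdInt.lean
section


/-!
# Row LT, tower A2, leaf A2.03.1.1.02 `WX467.ProdIntC` (helper201)

OFF-MAIN.  `prodIntC201 : WX467.ProdIntC` VERBATIM (Spec `LT/A2/H467/DataSpec.lean`,
helper467@8b34cad8f, sha256 72cb2b55afa8db8d).

Route: for a finite set `T` of finite places the push-forward of `(μ × μ)|_{𝔸_T × 𝔸_T}` to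
`∏_{u ∣ ∞} K_u² × ∏_{v ∈ T} K_v²` is translation invariant and finite on one box, hence a multiple
of the product of the local measures (uniqueness of Haar measures); the constant is computed on
the reference box `W × W` and does not depend on `T` because `μ_v(𝒪_v) = 1` outside `S`.
`prodFn f f'` vanishes outside `𝔸_T × 𝔸_T` and is a function of the coordinates in
`∞ ∪ T` on it, as soon as `f'_v = stdFn v` outside `T`.
-/

set_option autoImplicit false
set_option linter.unusedSectionVars false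
set_option linter.style.haveILetI false

open IsDedekindDomain NumberField AutomorphicForm MeasureTheory Set
open scoped MatrixGroups Topology ENNReal

noncomputable section

namespace Fermat.Agent.LT.A2.H201

open Fermat.Agent.LT.H556 Fermat.Agent.LT.A2 Fermat.Agent.LT.A2.WX467 Fermat.Agent.LT.T1.H671

/-- A measure with the three properties of `IsHaarL` is an additive Haar measure. -/
theorem isAddHaarMeasure_of_isHaarL201 {k : Type} [Field k] [TopologicalSpace k]
    [IsTopologicalRing k] (μ : @Measure k (borel k)) (h : IsHaarL μ) :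
    @Measure.IsAddHaarMeasure k _ _ (borel k) μ := by
  letI : MeasurableSpace k := borel k
  haveI : BorelSpace k := ⟨rfl⟩
  have hinv : μ.IsAddLeftInvariant := by
    refine ⟨fun x => ?_⟩
    ext S hS
    rw [Measure.map_apply (measurable_const_add x) hS]
    have h1 : (fun y => x + y) ⁻¹' S = (fun y => -x + y) '' S := by
      ext y
      constructor
      · intro hy
        exact ⟨x + y, hy, by simp⟩
      · rintro ⟨z, hz, rfl⟩
        simpa using hz
    rw [h1]
    exact h.1 (-x) S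
  exact
    { toIsFiniteMeasureOnCompacts := ⟨fun C hC => h.2.1 C hC⟩
      toIsAddLeftInvariant := hinv
      toIsOpenPosMeasure := ⟨fun U hU hne => (h.2.2 U hU hne).ne'⟩ }

variable {K : Type} [Field K] [NumberField K]

/-- The integral of the standard function. -/
theorem intL_stdFn201 (v : HeightOneSpectrum (𝓞 K))
    (μ : @Measure (v.adicCompletion K) (borel (v.adicCompletion K)))
    (hμ : @Measure.IsAddHaarMeasure _ _ _ (borel (v.adicCompletion K)) μ) :
    intL μ (stdFn v) = ((μ (EFin201 v) * μ (EFin201 v)).toReal : ℂ) := by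
  classical
  letI : MeasurableSpace (v.adicCompletion K) := borel _
  haveI : BorelSpace (v.adicCompletion K) := ⟨rfl⟩
  haveI : SecondCountableTopology (v.adicCompletion K) :=
    Fermat.Agent.LT.H11.SC.secondCountableTopology_adicCompletion_h11 K v
  haveI : LocallyCompactSpace (v.adicCompletion K) :=
    Fermat.Agent.LT.H11.LC.locallyCompactSpace_adicCompletion_h11 K v
  haveI : SigmaFinite μ := inferInstance
  have h1 : stdFn v = (EFin201 v ×ˢ EFin201 v).indicator (fun _ => (1 : ℂ)) := by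
    funext ξ
    by_cases hξ : ξ.1 ∈ v.adicCompletionIntegers K ∧ ξ.2 ∈ v.adicCompletionIntegers K
    · rw [stdFn_of_mem201 v ξ hξ.1 hξ.2, Set.indicator_of_mem]
      exact ⟨hξ.1, hξ.2⟩
    · rw [stdFn_of_not_mem201 v ξ hξ, Set.indicator_of_notMem]
      exact fun h => hξ ⟨h.1, h.2⟩
  have hm : MeasurableSet (EFin201 v ×ˢ EFin201 v) :=
    (isOpen_EFin201 v).measurableSet.prod (isOpen_EFin201 v).measurableSet
  unfold intL
  rw [h1, integral_indicator_const _ hm, measureReal_def, Measure.prod_prod]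
  simp

/-- **A2.03.1.1.02 PROD-INT**, VERBATIM. -/
theorem prodIntC201 : ProdIntC := by
  intro K _ _ _hT1 μ μinf μfin hμ hinf hfin hS
  obtain ⟨S, hS⟩ := hS
  classical
  letI mX : MeasurableSpace (A0.Adl K) := borel _
  haveI bX : BorelSpace (A0.Adl K) := ⟨rfl⟩
  letI mInf : ∀ u : InfinitePlace K, MeasurableSpace u.Completion := fun u => borel _
  haveI bInf : ∀ u : InfinitePlace K, BorelSpace u.Completion := fun u => ⟨rfl⟩
  letI mFin : ∀ v : HeightOneSpectrum (𝓞 K), MeasurableSpace (v.adicCompletion K) :=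
    fun v => borel _
  haveI bFin : ∀ v : HeightOneSpectrum (𝓞 K), BorelSpace (v.adicCompletion K) :=
    fun v => ⟨rfl⟩
  haveI : LocallyCompactSpace (A0.Adl K) :=
    Fermat.Agent.LT.H11.LC.locallyCompactSpace_adeleRing_h11 K
  haveI : SecondCountableTopology (A0.Adl K) :=
    Fermat.Agent.LT.H11.SC.secondCountableTopology_adeleRing_h11 K
  haveI : ∀ u : InfinitePlace K, SecondCountableTopology u.Completion :=
    fun u => Fermat.Agent.LT.H11.SC.secondCountableTopology_infCompletion_h11 K u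
  haveI : ∀ v : HeightOneSpectrum (𝓞 K), SecondCountableTopology (v.adicCompletion K) :=
    fun v => Fermat.Agent.LT.H11.SC.secondCountableTopology_adicCompletion_h11 K v
  haveI : ∀ v : HeightOneSpectrum (𝓞 K), LocallyCompactSpace (v.adicCompletion K) :=
    fun v => Fermat.Agent.LT.H11.LC.locallyCompactSpace_adicCompletion_h11 K v
  haveI hμH : μ.IsAddHaarMeasure := hμ.1
  haveI hinfH : ∀ u : InfinitePlace K, (μinf u).IsAddHaarMeasure :=
    fun u => isAddHaarMeasure_of_isHaarL201 (μinf u) (hinf u)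
  haveI hfinH : ∀ v : HeightOneSpectrum (𝓞 K), (μfin v).IsAddHaarMeasure :=
    fun v => isAddHaarMeasure_of_isHaarL201 (μfin v) (hfin v)
  -- the local masses of the box
  set gI : InfinitePlace K → ℝ≥0∞ := fun u => μinf u (EInf201 u) * μinf u (EInf201 u) with hgI
  set gF : HeightOneSpectrum (𝓞 K) → ℝ≥0∞ :=
    fun v => μfin v (EFin201 v) * μfin v (EFin201 v) with hgF
  have hgF1 : ∀ v, v ∉ S → gF v = 1 := by
    intro v hv
    have : μfin v (EFin201 v) = 1 := hS v hv
    simp [hgF, this]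
  have hgI0 : ∀ u, gI u ≠ 0 := fun u =>
    mul_ne_zero (Measure.measure_pos_of_nonempty_interior _ (interior_EInf_nonempty201 u)).ne'
      (Measure.measure_pos_of_nonempty_interior _ (interior_EInf_nonempty201 u)).ne'
  have hgItop : ∀ u, gI u ≠ ∞ := fun u =>
    ENNReal.mul_ne_top (isCompact_EInf201 u).measure_lt_top.ne
      (isCompact_EInf201 u).measure_lt_top.ne
  have hgF0 : ∀ v, gF v ≠ 0 := fun v =>
    mul_ne_zero (Measure.measure_pos_of_nonempty_interior _ (interior_EFin_nonempty201 v)).ne'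
      (Measure.measure_pos_of_nonempty_interior _ (interior_EFin_nonempty201 v)).ne'
  have hgFtop : ∀ v, gF v ≠ ∞ := fun v =>
    ENNReal.mul_ne_top (isCompact_EFin201 v).measure_lt_top.ne
      (isCompact_EFin201 v).measure_lt_top.ne
  set D : ℝ≥0∞ := (∏ u, gI u) * ∏ v ∈ S, gF v with hD
  have hD0 : D ≠ 0 :=
    mul_ne_zero (Finset.prod_ne_zero_iff.2 fun u _ => hgI0 u)
      (Finset.prod_ne_zero_iff.2 fun v _ => hgF0 v)
  have hDtop : D ≠ ∞ :=
    ENNReal.mul_ne_top (ENNReal.prod_ne_top fun u _ => hgItop u)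
      (ENNReal.prod_ne_top fun v _ => hgFtop v)
  have hW0 : μ (W201 K) ≠ 0 := (Measure.measure_pos_of_mem_nhds μ W_mem_nhds201).ne'
  have hWtop : μ (W201 K) ≠ ∞ := isCompact_W201.measure_lt_top.ne
  set c0 : ℝ≥0∞ := μ (W201 K) * μ (W201 K) / D with hc0
  have hc00 : c0 ≠ 0 := ENNReal.div_ne_zero.2 ⟨mul_ne_zero hW0 hW0, hDtop⟩
  have hc0top : c0 ≠ ∞ := ENNReal.div_ne_top (ENNReal.mul_ne_top hWtop hWtop) hD0
  refine ⟨((c0.toReal : ℝ) : ℂ), ⟨?_, ?_⟩⟩
  · exact_mod_cast (ENNReal.toReal_pos hc00 hc0top).ne'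
  · intro f f' hf hf' hstd
    obtain ⟨S', hS'⟩ := hstd
    set T : Finset (HeightOneSpectrum (𝓞 K)) := S ∪ S' with hT
    have hST : S ⊆ T := Finset.subset_union_left
    have hf'T : ∀ v, v ∉ T → f' v = stdFn v := fun v hv =>
      hS' v (fun h => hv (Finset.mem_union_right _ h))
    have hsurj : ∀ (a : ∀ u : InfinitePlace K, u.Completion)
        (b : ∀ v : ↥T, (v : HeightOneSpectrum (𝓞 K)).adicCompletion K),
        ∃ x ∈ AT201 T, (∀ u, pInf201 u x = a u) ∧
          ∀ v : ↥T, pFin201 (v : HeightOneSpectrum (𝓞 K)) x = b v :=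
      fun a b => ⟨mkAdele201 T a b, mkAdele_mem201 T a b, fun u => pInf_mkAdele201 T a b u,
        fun v => pFin_mkAdele_mem201 T a b v⟩
    have key := integral_box201 (X := A0.Adl K) (ι₁ := InfinitePlace K) (ι₂ := ↥T)
      (k₁ := fun u => u.Completion)
      (k₂ := fun v => (v : HeightOneSpectrum (𝓞 K)).adicCompletion K) μ μinf
      (fun v : ↥T => μfin (v : HeightOneSpectrum (𝓞 K)))
      (fun u => pInf201 u) (fun v : ↥T => pFin201 (v : HeightOneSpectrum (𝓞 K)))
      (fun u => continuous_pInf201 u) (fun v => continuous_pFin201 _)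
      (fun u x y => pInf_add201 u x y) (fun v x y => pFin_add201 _ x y)
      (AT201 T) (isOpen_AT201 T) hsurj
      (fun u => EInf201 u) (fun v : ↥T => EFin201 (v : HeightOneSpectrum (𝓞 K)))
      (fun u => isCompact_EInf201 u) (fun v => isCompact_EFin201 _)
      (fun u => interior_EInf_nonempty201 u) (fun v => interior_EFin_nonempty201 _)
      (by rw [boxSrc_eq_W201]; exact hWtop)
      f (fun v : ↥T => f' (v : HeightOneSpectrum (𝓞 K)))
      (fun u => (hf u).1) (fun v => (hf' _).1) (fun u => (hf u).2) (fun v => (hf' _).2)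
    rw [boxSrc_eq_W201] at key
    rw [prodFn_eq_indicator201 T f f' hf'T]
    refine ⟨key.1, ?_⟩
    have hconst : (∏ u, gI u) * ∏ v : ↥T, gF (v : HeightOneSpectrum (𝓞 K)) = D := by
      rw [hD, Finset.prod_coe_sort T gF]
      congr 1
      exact (Finset.prod_subset hST fun v _ hv => hgF1 v hv).symm
    have hprod : ∏ᶠ v : HeightOneSpectrum (𝓞 K), intL (μfin v) (f' v)
        = ∏ v : ↥T, ∫ y, f' (v : HeightOneSpectrum (𝓞 K)) y
            ∂((μfin (v : HeightOneSpectrum (𝓞 K))).prod (μfin (v : HeightOneSpectrum (𝓞 K)))) := by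
      have hsupp : Function.mulSupport (fun v : HeightOneSpectrum (𝓞 K) => intL (μfin v) (f' v))
          ⊆ (T : Set (HeightOneSpectrum (𝓞 K))) := by
        intro v hv
        by_contra hvT
        apply hv
        have hvT' : v ∉ T := hvT
        have hvS : v ∉ S := fun h => hvT' (hST h)
        show intL (μfin v) (f' v) = 1
        rw [hf'T v hvT', intL_stdFn201 v (μfin v) (hfinH v)]
        have : μfin v (EFin201 v) = 1 := hS v hvS
        simp [this]
      rw [finprod_eq_prod_of_mulSupport_subset _ hsupp]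
      exact (Finset.prod_coe_sort T (fun v => intL (μfin v) (f' v))).symm
    have hval := key.2
    rw [hconst] at hval
    rw [hprod]
    exact hval

end Fermat.Agent.LT.A2.H201

end
end
-- ===== PACK-END LT/A2/H201/ProdInt.lean

-- ===== PACK-BEGIN LT/A2/H254/IntTop.lean
section


/-!
# Row LT, tower A2, leaf A2.03.8.5.5 `H254.IntC254`: THE PROVED TOP (helper254)

    int_of_leaves254 : TorGroupC254 → T1MeasC254 → DecompC254 → SuppC254 → IntegrableC254 →
        MeasC254 → IntC254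

OFF-MAIN.  No `sorry`, nothing assumed.
-/

set_option autoImplicit false
set_option linter.style.haveILetI false

open IsDedekindDomain NumberField AutomorphicForm MeasureTheory
open scoped MatrixGroups

noncomputable section

namespace Fermat.Agent.LT.A2.H254

open Fermat.Agent.LT.H556 Fermat.Agent.LT.H556.A0 Fermat.Agent.LT.H129
open Fermat.Agent.LT.A2.H142

/-- The finite sum `∑_{k ≤ j} x^{-k}` over the integers `-j ≤ i ≤ 0`. -/
theorem hasSum_window254 (x I : ℂ) (j : ℕ) :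
    HasSum (fun i : ℤ => if -(j : ℤ) ≤ i ∧ i ≤ 0 then x ^ i * I else 0)
      ((∑ k ∈ Finset.range (j + 1), x ^ (-(k : ℤ))) * I) := by
  classical
  have hinj : Set.InjOn (fun k : ℕ => -(k : ℤ)) (Finset.range (j + 1) : Set ℕ) := by
    intro a _ b _ h
    simpa using h
  have h1 : HasSum (fun i : ℤ => if -(j : ℤ) ≤ i ∧ i ≤ 0 then x ^ i * I else 0)
      (∑ i ∈ (Finset.range (j + 1)).image (fun k : ℕ => -(k : ℤ)),
        (if -(j : ℤ) ≤ i ∧ i ≤ 0 then x ^ i * I else 0)) :=
    hasSum_sum_of_ne_finset_zero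
    (by
      intro i hi
      rw [if_neg]
      rintro ⟨h1, h2⟩
      apply hi
      rw [Finset.mem_image]
      refine ⟨(-i).toNat, ?_, ?_⟩
      · rw [Finset.mem_range]; omega
      · omega)
  rw [Finset.sum_image hinj] at h1
  have h2 : (∑ k ∈ Finset.range (j + 1),
      (if -(j : ℤ) ≤ -(k : ℤ) ∧ -(k : ℤ) ≤ 0 then x ^ (-(k : ℤ)) * I else 0))
      = (∑ k ∈ Finset.range (j + 1), x ^ (-(k : ℤ))) * I := by
    rw [Finset.sum_mul]
    refine Finset.sum_congr rfl fun k hk => ?_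
    rw [if_pos]
    rw [Finset.mem_range] at hk
    constructor <;> omega
  rw [h2] at h1
  exact h1

/-- `α^j ∑_{k ≤ j} (α/β)^{-k} = h_j(α, β)`. -/
theorem pow_mul_window254 (α β : ℂ) (hα : α ≠ 0) (hβ : β ≠ 0) (j : ℕ) :
    α ^ j * ∑ k ∈ Finset.range (j + 1), (α / β) ^ (-(k : ℤ)) = hsum254 α β j := by
  unfold hsum254
  rw [Finset.mul_sum]
  refine Finset.sum_congr rfl fun k hk => ?_
  have hk' : k ≤ j := Nat.lt_succ_iff.mp (Finset.mem_range.mp hk)
  rw [zpow_neg, zpow_natCast, div_pow, inv_div]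
  have : α ^ j = α ^ (j - k) * α ^ k := by rw [← pow_add]; congr 1; omega
  rw [this]
  field_simp

/-- **The top of the measure leaf.** -/
theorem int_of_leaves254 (hTG : TorGroupC254) (hTM : T1MeasC254) (hDec : DecompC254)
    (hSupp : SuppC254) (hIntg : IntegrableC254) (hMeas : MeasC254) : IntC254 := by
  intro K _ _ D η W v hctx ϖ hϖ μ μb hp g' m' hg' hm' hadm j
  letI : MeasurableSpace (G K) := borel (G K)
  have hgi := hctx.std.good_int v hctx.hv
  obtain ⟨hρ, hdec⟩ := hDec K D.t D.n v hgi.1 hgi.2.1 hgi.2.2 ϖ hϖ μ μb hp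
  obtain ⟨hT1m, hUm⟩ := hTM K hctx.t1.locComp D.t D.n v
  obtain ⟨hmul, hinv⟩ := hTG K D.t D.n
  have hUsub : Uset254 D.t D.n v ⊆ T1set254 D.t D.n := fun m hm => hm.1
  have hinvμ := hctx.good.measured.inv
  -- the values of `χT` are roots of unity
  obtain ⟨k, hk, hfin⟩ := hctx.good.torus.fin_order
  have hα : D.χT μ ≠ 0 := by
    intro h
    have := hfin μ hp.tor
    rw [h, zero_pow hk.ne'] at this
    exact zero_ne_one this
  have hβ : D.χT μb ≠ 0 := by
    intro h
    have := hfin μb hp.torb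
    rw [h, zero_pow hk.ne'] at this
    exact zero_ne_one this
  -- the unfolding, for every `j`
  have key : ∀ j : ℕ,
      D.intT (T1set254 D.t D.n) (orbFn254 D g' m' (actV (μb ^ j) (1, 0)))
        = (∑ k ∈ Finset.range (j + 1), (D.χT μ / D.χT μb) ^ (-(k : ℤ))) *
            D.intT (Uset254 D.t D.n v) (orbFn254 D g' m' (1, 0)) := by
    intro j
    have hs := hMeas (G K) D.μT (T1set254 D.t D.n) (Uset254 D.t D.n v) (μ * μb⁻¹) hT1m hUm hUsub
      (fun a ha b hb => hmul a b ha hb) (fun a ha => hinv a ha) hρ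
      (fun m' hm' S => hinvμ m' hm' S) hdec
      (orbFn254 D g' m' (actV (μb ^ j) (1, 0)))
      (hIntg K D η W v hctx ϖ hϖ μ μb hp g' m' hadm j)
    have hterm : ∀ i : ℤ,
        ∫ u in Uset254 D.t D.n v,
            orbFn254 D g' m' (actV (μb ^ j) (1, 0)) ((μ * μb⁻¹) ^ i * u) ∂D.μT
          = if -(j : ℤ) ≤ i ∧ i ≤ 0 then
              (D.χT μ / D.χT μb) ^ i * D.intT (Uset254 D.t D.n v) (orbFn254 D g' m' (1, 0))
            else 0 := by
      intro i
      rw [setIntegral_congr_fun hUm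
        (fun u hu => hSupp K D η W v hctx ϖ hϖ μ μb hp g' m' hg' hm' hadm j i u hu)]
      by_cases h : -(j : ℤ) ≤ i ∧ i ≤ 0
      · simp only [if_pos h]
        rw [integral_const_mul]
        rfl
      · simp only [if_neg h]
        simp
    have hs' : HasSum (fun i : ℤ => if -(j : ℤ) ≤ i ∧ i ≤ 0 then
        (D.χT μ / D.χT μb) ^ i * D.intT (Uset254 D.t D.n v) (orbFn254 D g' m' (1, 0)) else 0)
        (∫ m in T1set254 D.t D.n, orbFn254 D g' m' (actV (μb ^ j) (1, 0)) m ∂D.μT) := by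
      have e : (fun i : ℤ => ∫ u in Uset254 D.t D.n v,
          orbFn254 D g' m' (actV (μb ^ j) (1, 0)) ((μ * μb⁻¹) ^ i * u) ∂D.μT)
          = fun i : ℤ => if -(j : ℤ) ≤ i ∧ i ≤ 0 then
            (D.χT μ / D.χT μb) ^ i * D.intT (Uset254 D.t D.n v) (orbFn254 D g' m' (1, 0))
            else 0 := funext hterm
      rw [← e]
      exact hs
    exact hs'.unique (hasSum_window254 _ _ j)
  have hact : actV (1 : G K) ((1 : Adl K), (0 : Adl K)) = ((1 : Adl K), (0 : Adl K)) := by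
    simp [actV]
  have key0 := key 0
  simp only [pow_zero, zero_add, Finset.range_one, Finset.sum_singleton, Nat.cast_zero, neg_zero,
    zpow_zero, one_mul] at key0
  rw [hact] at key0
  rw [key j, key0, ← mul_assoc, pow_mul_window254 _ _ hα hβ j]

end Fermat.Agent.LT.A2.H254

end

end
-- ===== PACK-END LT/A2/H254/IntTop.lean

-- ===== PACK-BEGIN LT/A2/H267/AxReg.lean
section


/-!
# Row LT, tower A2, leaf A2.03.1.1.06.20 `LF54.LeafAxReg` (helper267, OFF-MAIN)

`leafAxReg267 : Fermat.Agent.LT.A2.LF54.LeafAxReg`, verbatim against the byte-identical copy of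
`A2/H54/LocFinSpec.lean` (helper54).

The members `Fof Φ g m = L(m) r(d(det m)⁻¹ g) Φ` of the family are Schwartz--Bruhat: `rOp h Φ` is
Schwartz--Bruhat for `det h = 1` (hypothesis `RopSbP`), and `L(m)` is the composition with the
linear homeomorphism `actL m⁻¹` of `k²` times a constant.  Continuity is then clear, and
integrability for `μ × μ` (product of the Borel σ-algebras) follows because `K_v` is second
countable (`K` is countable and dense in `K_v`), so that the product σ-algebra is the Borel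
σ-algebra of `K_v²`.
-/

set_option autoImplicit false

open IsDedekindDomain NumberField MeasureTheory
open scoped Topology

noncomputable section

namespace Fermat.Agent.LT.A2.LF54.H267

open Fermat.Agent.LT.A2 Fermat.Agent.LT.A2.WX467 Fermat.Agent.LT.A2.LF54

/-! ## `K_v` is second countable -/

/-- A number field is countable. -/
theorem countable_numberField267 (K : Type) [Field K] [NumberField K] : Countable K :=
  (Module.finBasis ℚ K).equivFun.injective.countable

/-- `K_v` is separable. -/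
theorem separable_adic267 (K : Type) [Field K] [NumberField K] (v : HeightOneSpectrum (𝓞 K)) :
    TopologicalSpace.SeparableSpace (v.adicCompletion K) := by
  have := countable_numberField267 K
  exact ⟨⟨Set.range (algebraMap K (v.adicCompletion K)), Set.countable_range _,
    HeightOneSpectrum.denseRange_algebraMap (K := K) v⟩⟩

/-- `K_v` is second countable. -/
theorem secondCountable_adic267 (K : Type) [Field K] [NumberField K]
    (v : HeightOneSpectrum (𝓞 K)) : SecondCountableTopology (v.adicCompletion K) := by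
  have := separable_adic267 K v
  infer_instance

/-! ## The linear action on `k²` -/

section Act

variable {k : Type} [NormedField k]

theorem actL_one267 (ξ : k × k) : actL (1 : Matrix (Fin 2) (Fin 2) k) ξ = ξ := by
  simp [actL]

theorem actL_mul267 (A B : Matrix (Fin 2) (Fin 2) k) (ξ : k × k) :
    actL (A * B) ξ = actL A (actL B ξ) := by
  simp only [actL, Matrix.mul_apply, Fin.sum_univ_two]
  ext <;> ring

theorem continuous_actL267 (A : Matrix (Fin 2) (Fin 2) k) : Continuous (actL A) := by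
  unfold actL
  fun_prop

/-- The homeomorphism `actL m⁻¹` of `k²`, `det m ≠ 0`. -/
def actHomeo267 (m : Matrix (Fin 2) (Fin 2) k) (hm : m.det ≠ 0) : (k × k) ≃ₜ (k × k) where
  toFun := actL m⁻¹
  invFun := actL m
  left_inv ξ := by
    rw [← actL_mul267, Matrix.mul_nonsing_inv m (isUnit_iff_ne_zero.mpr hm), actL_one267]
  right_inv ξ := by
    rw [← actL_mul267, Matrix.nonsing_inv_mul m (isUnit_iff_ne_zero.mpr hm), actL_one267]
  continuous_toFun := continuous_actL267 _
  continuous_invFun := continuous_actL267 _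

/-- `L(m)` preserves Schwartz--Bruhat functions. -/
theorem isSB_lopL267 (m : Matrix (Fin 2) (Fin 2) k) (hm : m.det ≠ 0) (f : k × k → ℂ)
    (hf : IsSB f) : IsSB (lopL m f) := by
  refine ⟨?_, ?_⟩
  · exact (hf.1.comp_continuous (continuous_actL267 m⁻¹)).comp
      (fun z => (((Real.sqrt ‖m.det‖)⁻¹ : ℝ) : ℂ) * z)
  · have h1 : HasCompactSupport (f ∘ (actHomeo267 m hm)) := hf.2.comp_homeomorph _
    exact h1.mul_left (f := fun _ => (((Real.sqrt ‖m.det‖)⁻¹ : ℝ) : ℂ))

end Act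

/-! ## The leaf -/

/-- The members of the family are Schwartz--Bruhat. -/
theorem isSB_fof267 {k : Type} [NormedField k] (t n : k) (ψ : k → ℂ)
    (μ : @Measure k (borel k)) (γ : ℂ) (η : k → ℂ) (hS : RopSbP t n ψ μ γ η)
    (Φ : k × k → ℂ) (hΦ : IsSB Φ) (g m : Matrix (Fin 2) (Fin 2) k) (h : AdmL t n g m) :
    IsSB (Fof t n ψ μ γ η Φ g m) := by
  obtain ⟨-, hdet, hm⟩ := h
  have h1 : (!![1, 0; 0, (m.det)⁻¹] * g).det = 1 := by
    rw [Matrix.det_mul, Matrix.det_fin_two_of, hdet]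
    field_simp
    ring
  exact isSB_lopL267 m hm _ (hS _ h1 Φ hΦ)

/-- **Leaf 20 AX-REG**, proved. -/
theorem leafAxReg267 : LeafAxReg := by
  intro K _ _ v t n ψ μ γ η hctx hS Φ hΦ
  have key := isSB_fof267 t n ψ μ γ η hS Φ hΦ
  refine ⟨fun g m h => key g m h, fun g m h => (key g m h).1.continuous, fun g m h => ?_⟩
  let _ : MeasurableSpace (v.adicCompletion K) := borel _
  have : BorelSpace (v.adicCompletion K) := ⟨rfl⟩
  have := secondCountable_adic267 K v
  have : IsFiniteMeasureOnCompacts μ := ⟨fun C hC => hctx.haar.2.1 C hC⟩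
  exact (key g m h).1.continuous.integrable_of_hasCompactSupport (key g m h).2

end Fermat.Agent.LT.A2.LF54.H267

end

end
-- ===== PACK-END LT/A2/H267/AxReg.lean

-- ===== PACK-BEGIN LT/A2/H286/AxWeyl.lean
section


/-!
# Row LT, tower A2, leaf A2.03.1.1.06.18 `LF54.LeafAxWeyl` (helper286)

OFF-MAIN.  The field `weyl` of `LocAx` for the family `Fof Φ`.

`d(δ)⁻¹ w = t(δ) w d(δ)⁻¹` (`δ = det m`), the left rules of `t(δ)` and of `w`, `η(δ) = 1`,
and the change of variables `y = m z` with `B(ξ, m z) = B(δ m⁻¹ ξ, z)` for `m` in the torus.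

The function `z ↦ f(z) ψ(B(ξ', z))` is Schwartz--Bruhat for a Schwartz--Bruhat `f`: no local
constancy of `ψ` is used, only `rOp 1 = id`, the left rule of `n(x)` and `RopSbP`
(`ψ(B(ξ', z)) = ψ(Q(z + ξ')) ψ(-Q(ξ')) ψ(-Q(z))`, translations).  The proof is valid over any
normed field.
-/

set_option autoImplicit false

open IsDedekindDomain NumberField MeasureTheory
open scoped Topology

noncomputable section

namespace Fermat.Agent.LT.A2.H286

open Fermat.Agent.LT.A2 Fermat.Agent.LT.A2.WX467 Fermat.Agent.LT.A2.LF54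

section General

variable {k : Type} [NormedField k]

/-- Translations preserve Schwartz--Bruhat functions. -/
theorem isSB_comp_add286 (f : k × k → ℂ) (hf : IsSB f) (a : k × k) :
    IsSB (fun z => f (z + a)) := by
  refine ⟨hf.1.comp_continuous (continuous_id.add continuous_const), ?_⟩
  exact hf.2.comp_homeomorph (Homeomorph.addRight a)

/-- Constant multiples of Schwartz--Bruhat functions. -/
theorem isSB_const_mul286 (f : k × k → ℂ) (hf : IsSB f) (c : ℂ) :
    IsSB (fun z => c * f z) := by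
  refine ⟨hf.1.comp (fun w => c * w), ?_⟩
  exact HasCompactSupport.mul_left (f := fun _ => c) hf.2

/-- `ψ(x Q) · f` is Schwartz--Bruhat (left rule of `n(x)`, `rOp 1 = id`, `RopSbP`). -/
theorem isSB_psiQ_mul286 (t n : k) (ψ : k → ℂ) (μ : @Measure k (borel k)) (γ : ℂ) (η : k → ℂ)
    (hB : BorelOpP t n ψ μ γ η) (hS : RopSbP t n ψ μ γ η) (x : k)
    (f : k × k → ℂ) (hf : IsSB f) :
    IsSB (fun ξ => ψ (x * qfL t n ξ) * f ξ) := by
  have h1 : (!![1, x; 0, 1] * (1 : Matrix (Fin 2) (Fin 2) k)).det = 1 := by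
    simp [Matrix.det_fin_two]
  have h2 := hS (!![1, x; 0, 1] * 1) h1 f hf
  have e : rOp t n ψ μ γ η (!![1, x; 0, 1] * 1) f = fun ξ => ψ (x * qfL t n ξ) * f ξ := by
    funext ξ
    rw [hB.unip x 1 Matrix.det_one f hf ξ, hB.one f hf]
  rwa [e] at h2

/-- `f · ψ(B(ξ', ·))` is Schwartz--Bruhat. -/
theorem isSB_mul_psiB286 (t n : k) (ψ : k → ℂ) (μ : @Measure k (borel k)) (γ : ℂ) (η : k → ℂ)
    (hψ : ∀ x y : k, ψ (x + y) = ψ x * ψ y)
    (hB : BorelOpP t n ψ μ γ η) (hS : RopSbP t n ψ μ γ η) (ξ' : k × k)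
    (f : k × k → ℂ) (hf : IsSB f) :
    IsSB (fun z => f z * ψ (bfL t n ξ' z)) := by
  have h1 := isSB_psiQ_mul286 t n ψ μ γ η hB hS (-1) f hf
  have h2 := isSB_comp_add286 _ h1 (-ξ')
  have h3 := isSB_psiQ_mul286 t n ψ μ γ η hB hS 1 _ h2
  have h4 := isSB_comp_add286 _ h3 ξ'
  have h5 := isSB_const_mul286 _ h4 (ψ (-(qfL t n ξ')))
  have e : (fun z => f z * ψ (bfL t n ξ' z))
      = fun z => ψ (-(qfL t n ξ')) *
          (ψ (1 * qfL t n (z + ξ')) * (ψ (-1 * qfL t n (z + ξ' + -ξ')) * f (z + ξ' + -ξ'))) := by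
    funext z
    have hz : z + ξ' + -ξ' = z := by abel
    have hb : bfL t n ξ' z = -(qfL t n ξ') + (1 * qfL t n (z + ξ') + -1 * qfL t n z) := by
      unfold bfL
      rw [add_comm ξ' z]
      ring
    rw [hz, hb, hψ, hψ]
    ring
  rw [e]
  exact h5

/-- `intL` of a constant multiple. -/
theorem intL_const_mul286 (μ : @Measure k (borel k)) (c : ℂ) (f : k × k → ℂ) :
    intL μ (fun y => c * f y) = c * intL μ f := by
  unfold intL
  exact integral_const_mul c f

/-- The inverse of an invertible `2 × 2` matrix, acting on pairs. -/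
theorem actL_inv286 (m : Matrix (Fin 2) (Fin 2) k) (ξ : k × k) :
    actL m⁻¹ ξ = ((m.det)⁻¹ * (m 1 1 * ξ.1 - m 0 1 * ξ.2),
      (m.det)⁻¹ * (-(m 1 0) * ξ.1 + m 0 0 * ξ.2)) := by
  unfold actL
  rw [Matrix.inv_def, Ring.inverse_eq_inv', Matrix.adjugate_fin_two]
  simp only [Matrix.smul_apply, Matrix.of_apply, Matrix.cons_val', Matrix.cons_val_zero,
    Matrix.cons_val_one, Matrix.cons_val_fin_one, smul_eq_mul]
  ext <;> simp <;> ring

/-- `m (m⁻¹ y) = y`. -/
theorem actL_actL_inv286 (m : Matrix (Fin 2) (Fin 2) k) (hm : m.det ≠ 0) (y : k × k) :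
    actL m (actL m⁻¹ y) = y := by
  rw [actL_inv286]
  have hd : m.det = m 0 0 * m 1 1 - m 0 1 * m 1 0 := Matrix.det_fin_two m
  unfold actL
  ext
  · simp only
    field_simp
    rw [hd]
    ring
  · simp only
    field_simp
    rw [hd]
    ring

/-- The adjoint of a torus matrix for `B`: `B(ξ, m z) = B(adj(m) ξ, z)`. -/
theorem bfL_tor_adj286 (t n a b : k) (ξ z : k × k) :
    bfL t n ξ (actL (torMat t n a b) z)
      = bfL t n ((a + t * b) * ξ.1 + n * b * ξ.2, -b * ξ.1 + a * ξ.2) z := by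
  simp only [bfL, qfL, actL, torMat, Prod.fst_add, Prod.snd_add, Matrix.of_apply,
    Matrix.cons_val', Matrix.cons_val_zero, Matrix.cons_val_one, Matrix.cons_val_fin_one]
  ring

/-- `δ • m⁻¹ ξ = adj(m) ξ` for a torus matrix. -/
theorem smul_actL_inv_tor286 (t n a b : k) (hδ : (torMat t n a b).det ≠ 0) (ξ : k × k) :
    (torMat t n a b).det • actL (torMat t n a b)⁻¹ ξ
      = ((a + t * b) * ξ.1 + n * b * ξ.2, -b * ξ.1 + a * ξ.2) := by
  rw [actL_inv286]
  have hδ' : (torMat t n a b).det * ((torMat t n a b).det)⁻¹ = 1 := mul_inv_cancel₀ hδ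
  generalize (torMat t n a b).det = d at hδ'
  ext
  · simp only [Prod.smul_fst, smul_eq_mul, torMat, Matrix.of_apply,
      Matrix.cons_val', Matrix.cons_val_zero, Matrix.cons_val_one, Matrix.cons_val_fin_one]
    rw [← mul_assoc, hδ']
    ring
  · simp only [Prod.smul_snd, smul_eq_mul, torMat, Matrix.of_apply,
      Matrix.cons_val', Matrix.cons_val_zero, Matrix.cons_val_one, Matrix.cons_val_fin_one]
    rw [← mul_assoc, hδ']
    ring

/-- **The field `weyl` of `LocAx` for the family `Fof Φ`**, over any normed field. -/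
theorem axWeyl_general286 (t n : k) (ψ : k → ℂ) (μ : @Measure k (borel k)) (c : ℝ)
    (G : k → ℂ) (γ : ℂ) (η : k → ℂ) (hctx : Ctx t n ψ μ) (hcov : CovP μ)
    (hE : EtaCert t n c G γ η) (hB : BorelOpP t n ψ μ γ η) (hW : WeylOpP t n ψ μ γ η)
    (hS : RopSbP t n ψ μ γ η) (Φ : k × k → ℂ) (hΦ : IsSB Φ) :
    AxWeylP t n ψ μ γ (Fof t n ψ μ γ η Φ) := by
  intro g m ξ hadm
  obtain ⟨⟨a, b, hm⟩, hdet, hδ⟩ := hadm
  have hh : (!![1, 0; 0, (m.det)⁻¹] * g).det = 1 := by
    rw [Matrix.det_mul, Matrix.det_fin_two_of, hdet]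
    field_simp
    ring
  have hwh : (!![0, 1; -1, 0] * (!![1, 0; 0, (m.det)⁻¹] * g)).det = 1 := by
    rw [Matrix.det_mul, hh, Matrix.det_fin_two_of]
    norm_num
  have hmat : !![1, 0; 0, (m.det)⁻¹] * (!![0, 1; -1, 0] * g)
      = !![m.det, 0; 0, (m.det)⁻¹] * (!![0, 1; -1, 0] * (!![1, 0; 0, (m.det)⁻¹] * g)) := by
    rw [← Matrix.mul_assoc, ← Matrix.mul_assoc, ← Matrix.mul_assoc]
    congr 1
    ext i j
    fin_cases i <;> fin_cases j <;> simp [Matrix.mul_apply, Fin.sum_univ_two, hδ]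
  have hfSB : IsSB (rOp t n ψ μ γ η (!![1, 0; 0, (m.det)⁻¹] * g) Φ) := hS _ hh Φ hΦ
  have hη : η m.det = 1 := hE.eta_norm m ⟨a, b, hm⟩ hδ
  have hL : Fof t n ψ μ γ η Φ (!![0, 1; -1, 0] * g) m ξ
      = (((Real.sqrt ‖m.det‖)⁻¹ : ℝ) : ℂ) * (((‖m.det‖ : ℝ) : ℂ) *
          (γ * ftL t n ψ μ (rOp t n ψ μ γ η (!![1, 0; 0, (m.det)⁻¹] * g) Φ)
            (m.det • actL m⁻¹ ξ))) := by
    unfold Fof lopL
    rw [hmat, hB.diag m.det hδ _ hwh Φ hΦ, hW _ hh Φ hΦ, hη, one_mul]
  have hFSB := isSB_mul_psiB286 t n ψ μ γ η hctx.char.2.1 hB hS (m.det • actL m⁻¹ ξ)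
    (rOp t n ψ μ γ η (!![1, 0; 0, (m.det)⁻¹] * g) Φ) hfSB
  have hminv : (m⁻¹).det ≠ 0 := by
    rw [Matrix.det_nonsing_inv, Ring.inverse_eq_inv']
    exact inv_ne_zero hδ
  have hnorm : ((‖(m⁻¹).det‖⁻¹ : ℝ) : ℂ) = ((‖m.det‖ : ℝ) : ℂ) := by
    rw [Matrix.det_nonsing_inv, Ring.inverse_eq_inv', norm_inv, inv_inv]
  have hc := hcov m⁻¹ hminv _ hFSB
  have hkey : ∀ y : k × k, bfL t n (m.det • actL m⁻¹ ξ) (actL m⁻¹ y) = bfL t n ξ y := by
    intro y
    have h1 := bfL_tor_adj286 t n a b ξ (actL m⁻¹ y)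
    rw [← smul_actL_inv_tor286 t n a b (hm ▸ hδ) ξ, ← hm, actL_actL_inv286 m hδ y] at h1
    exact h1.symm
  have e : (fun y => Fof t n ψ μ γ η Φ g m y * ψ (bfL t n ξ y))
      = fun y => (((Real.sqrt ‖m.det‖)⁻¹ : ℝ) : ℂ) *
          ((fun z => rOp t n ψ μ γ η (!![1, 0; 0, (m.det)⁻¹] * g) Φ z
            * ψ (bfL t n (m.det • actL m⁻¹ ξ) z)) (actL m⁻¹ y)) := by
    funext y
    unfold Fof lopL
    simp only
    rw [hkey y]
    ring
  rw [hL, e, intL_const_mul286, hc, hnorm]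
  unfold ftL
  ring

end General

/-- **Leaf A2.03.1.1.06.18 `LF54.LeafAxWeyl`.** -/
theorem leafAxWeyl286 : LF54.LeafAxWeyl := by
  intro K _ _ v t n ψ μ c G γ η hctx hcov hE hB hW hS Φ hΦ
  exact axWeyl_general286 t n ψ μ c G γ η hctx hcov hE hB hW hS Φ hΦ


end Fermat.Agent.LT.A2.H286

end

end
-- ===== PACK-END LT/A2/H286/AxWeyl.lean

-- ===== PACK-BEGIN LT/A2/H293/Cont.lean
section




/-!
# Row LT, tower A2, leaf A2.03.1.1.09 `LocBadOfRepC` (helper293) -- part 7: continuity of the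
local embeddings

OFF-MAIN.  `K_v → 𝔸_K` (`locEmb293`) and `GL₂(K_v) → GL₂(𝔸_K)` (`locFin129`) are continuous.
-/

set_option autoImplicit false

open IsDedekindDomain NumberField Filter Topology

noncomputable section

namespace Fermat.Agent.LT.A2.H293

open Fermat.Agent.LT.H129 Fermat.Agent.LT.H556 Fermat.Agent.LT.A2

variable {K : Type} [Field K] [NumberField K]

open scoped Classical

theorem continuous_finEmb293 (v : HeightOneSpectrum (𝓞 K)) :
    Continuous (finEmb293 (K := K) v) := by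
  have hS : (cofinite : Filter (HeightOneSpectrum (𝓞 K)))
      ≤ 𝓟 ({v}ᶜ : Set (HeightOneSpectrum (𝓞 K))) := by
    rw [le_principal_iff]
    exact (Set.finite_singleton v).compl_mem_cofinite
  let g : v.adicCompletion K →
      RestrictedProduct (fun v : HeightOneSpectrum (𝓞 K) => v.adicCompletion K)
        (fun v : HeightOneSpectrum (𝓞 K) =>
          (v.adicCompletionIntegers K : Set (v.adicCompletion K)))
        (𝓟 ({v}ᶜ : Set (HeightOneSpectrum (𝓞 K)))) :=
    fun y => ⟨Pi.single v y, by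
      rw [eventually_principal]
      intro v' hv'
      have : v' ≠ v := hv'
      rw [Pi.single_eq_of_ne this]
      exact zero_mem _⟩
  have hg : Continuous g := by
    rw [RestrictedProduct.continuous_rng_of_principal]
    exact continuous_single v
  have he : finEmb293 (K := K) v = RestrictedProduct.inclusion _ _ hS ∘ g := by
    funext y
    rfl
  rw [he]
  exact (RestrictedProduct.continuous_inclusion hS).comp hg

theorem continuous_locEmb293 (v : HeightOneSpectrum (𝓞 K)) :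
    Continuous (locEmb293 (K := K) v) := by
  unfold locEmb293
  exact Continuous.prodMk continuous_const (continuous_finEmb293 v)

theorem continuous_mulSingle293 (v : HeightOneSpectrum (𝓞 K)) :
    Continuous (fun y : v.adicCompletion K =>
      (RestrictedProduct.mulSingle
        (fun v : HeightOneSpectrum (𝓞 K) => v.adicCompletionIntegers K) v y :
        FiniteAdeleRing (𝓞 K) K)) := by
  have hS : (cofinite : Filter (HeightOneSpectrum (𝓞 K)))
      ≤ 𝓟 ({v}ᶜ : Set (HeightOneSpectrum (𝓞 K))) := by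
    rw [le_principal_iff]
    exact (Set.finite_singleton v).compl_mem_cofinite
  let g : v.adicCompletion K →
      RestrictedProduct (fun v : HeightOneSpectrum (𝓞 K) => v.adicCompletion K)
        (fun v : HeightOneSpectrum (𝓞 K) =>
          (v.adicCompletionIntegers K : Set (v.adicCompletion K)))
        (𝓟 ({v}ᶜ : Set (HeightOneSpectrum (𝓞 K)))) :=
    fun y => ⟨Pi.mulSingle v y, by
      rw [eventually_principal]
      intro v' hv'
      have : v' ≠ v := hv'
      rw [Pi.mulSingle_eq_of_ne this]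
      exact one_mem _⟩
  have hg : Continuous g := by
    rw [RestrictedProduct.continuous_rng_of_principal]
    exact continuous_mulSingle v
  have he : (fun y : v.adicCompletion K =>
      (RestrictedProduct.mulSingle
        (fun v : HeightOneSpectrum (𝓞 K) => v.adicCompletionIntegers K) v y :
        FiniteAdeleRing (𝓞 K) K)) = RestrictedProduct.inclusion _ _ hS ∘ g := by
    funext y
    rfl
  rw [he]
  exact (RestrictedProduct.continuous_inclusion hS).comp hg

theorem continuous_finSingle293 (v : HeightOneSpectrum (𝓞 K)) (d : Bool) :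
    Continuous (finSingle129 (K := K) v d) := by
  cases d
  · have : finSingle129 (K := K) v false = finEmb293 v := by
      funext y
      unfold finSingle129 finEmb293
      rw [if_neg Bool.false_ne_true]
    rw [this]
    exact continuous_finEmb293 v
  · have : finSingle129 (K := K) v true = fun y : v.adicCompletion K =>
        (RestrictedProduct.mulSingle
          (fun v : HeightOneSpectrum (𝓞 K) => v.adicCompletionIntegers K) v y :
          FiniteAdeleRing (𝓞 K) K) := by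
      funext y
      unfold finSingle129
      rw [if_pos rfl]
    rw [this]
    exact continuous_mulSingle293 v

theorem continuous_locMat293 (v : HeightOneSpectrum (𝓞 K)) :
    Continuous (locMat129 (K := K) v) := by
  refine continuous_matrix fun i j => ?_
  unfold locMat129
  exact Continuous.prodMk continuous_const
    ((continuous_finSingle293 v _).comp (continuous_id.matrix_elem i j))

theorem continuous_locFin293 (v : HeightOneSpectrum (𝓞 K)) :
    Continuous (locFin129 (K := K) v) := by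
  rw [Units.continuous_iff]
  refine ⟨?_, ?_⟩
  · exact (continuous_locMat293 v).comp Units.continuous_val
  · exact (continuous_locMat293 v).comp Units.continuous_coe_inv

end Fermat.Agent.LT.A2.H293

end

end
-- ===== PACK-END LT/A2/H293/Cont.lean

-- ===== PACK-BEGIN LT/A2/H322/SuppTools.lean
section





/-!
# Row LT, tower A2, leaf A2.03.8.5.9 `H254.SuppC254` (helper322): tools

OFF-MAIN.  On `LT/A2/H254/IntSpec.lean` (helper254@ddb43b08e, sha256 e654c419) and the assets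
`LT/A2/H333/Plus.lean` (helper333, torus group), `LT/A2/H926/Partner.lean` (helper926, local
components of torus elements), byte-identical copies.

* `actV_mul322`: `actV` is an action;
* `inTorus_comm322`, `inTorus_zpow322`, `inTorus1_*`: the torus is commutative, closed under
  integral powers; `T¹`;
* `chi_zpow322`: `χT (m ^ i) = χT m ^ i` on the torus;
* `inTorus_loc322`, `inTorus1_loc322`: the local component at `v` of an element of `T` (`T¹`) is in
  `T` (`T¹`);
* `finComp_torus322`: the component at `v` of a torus element is a torus matrix over `K_v`;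
  `intM_of_col322`: it is integral as soon as its first column is (for `t`, `n` integral).
-/

set_option autoImplicit false

open IsDedekindDomain NumberField AutomorphicForm MeasureTheory
open scoped MatrixGroups

noncomputable section

namespace Fermat.Agent.LT.A2.H322

open Fermat.Agent.LT.H556 Fermat.Agent.LT.H556.A0 Fermat.Agent.LT.H129
open Fermat.Agent.LT.A2 Fermat.Agent.LT.A2.H142 Fermat.Agent.LT.A2.H254
open Fermat.Agent.LT.A2.H333 Fermat.Agent.LT.A2.H926

variable {K : Type} [Field K] [NumberField K]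

/-! ## The action on vectors -/

theorem actV_mul322 (a b : G K) (ξ : Adl K × Adl K) : actV (a * b) ξ = actV a (actV b ξ) := by
  unfold actV
  rw [Units.val_mul]
  simp only [Matrix.mul_apply, Fin.sum_univ_two]
  apply Prod.ext <;> ring

theorem actV_e1_322 (a : G K) :
    actV a ((1 : Adl K), (0 : Adl K))
      = ((a : Matrix (Fin 2) (Fin 2) (Adl K)) 0 0, (a : Matrix (Fin 2) (Fin 2) (Adl K)) 1 0) := by
  unfold actV
  simp

/-! ## The torus -/

theorem inTorus_comm322 {t n : K} {m m' : G K} (h : InTorus t n m) (h' : InTorus t n m') :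
    m * m' = m' * m := by
  obtain ⟨a, b, hab⟩ := h
  obtain ⟨a', b', hab'⟩ := h'
  apply Units.ext
  rw [Units.val_mul, Units.val_mul, hab, hab', torMat_mul333, torMat_mul333]
  congr 1 <;> ring

theorem inTorus_zpow322 {t n : K} {m : G K} (h : InTorus t n m) (i : ℤ) :
    InTorus t n (m ^ i) := by
  cases i with
  | ofNat k => rw [Int.ofNat_eq_natCast, zpow_natCast]; exact inTorus_pow333 h k
  | negSucc k => rw [zpow_negSucc]; exact inTorus_inv333 (inTorus_pow333 h (k + 1))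

theorem inTorus1_mul322 {t n : K} {m m' : G K} (h : InTorus1 t n m) (h' : InTorus1 t n m') :
    InTorus1 t n (m * m') :=
  ⟨inTorus_mul333 h.1 h'.1, by rw [map_mul, h.2, h'.2, mul_one]⟩

theorem inTorus1_inv322 {t n : K} {m : G K} (h : InTorus1 t n m) : InTorus1 t n m⁻¹ :=
  ⟨inTorus_inv333 h.1, by rw [map_inv, h.2, inv_one]⟩

theorem inTorus1_zpow322 {t n : K} {m : G K} (h : InTorus1 t n m) (i : ℤ) :
    InTorus1 t n (m ^ i) :=
  ⟨inTorus_zpow322 h.1 i, by rw [map_zpow, h.2, one_zpow]⟩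

/-! ## The torus character -/

theorem chi_ne_zero322 {t n : K} {χT : G K → ℂ} (hχ : IsTorusChar t n χT) {m : G K}
    (h : InTorus t n m) : χT m ≠ 0 := by
  obtain ⟨k, hk, hkm⟩ := hχ.fin_order
  intro h0
  have := hkm m h
  rw [h0, zero_pow hk.ne'] at this
  exact zero_ne_one this

theorem chi_inv322 {t n : K} {χT : G K → ℂ} (hχ : IsTorusChar t n χT) {m : G K}
    (h : InTorus t n m) : χT m⁻¹ = (χT m)⁻¹ := by
  have h1 := hχ.mul m m⁻¹ h (inTorus_inv333 h)
  rw [mul_inv_cancel, hχ.one] at h1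
  exact eq_inv_of_mul_eq_one_right h1.symm

theorem chi_pow322 {t n : K} {χT : G K → ℂ} (hχ : IsTorusChar t n χT) {m : G K}
    (h : InTorus t n m) (k : ℕ) : χT (m ^ k) = χT m ^ k := by
  induction k with
  | zero => rw [pow_zero, pow_zero, hχ.one]
  | succ k ih => rw [pow_succ, pow_succ, hχ.mul _ _ (inTorus_pow333 h k) h, ih]

theorem chi_zpow322 {t n : K} {χT : G K → ℂ} (hχ : IsTorusChar t n χT) {m : G K}
    (h : InTorus t n m) (i : ℤ) : χT (m ^ i) = χT m ^ i := by
  cases i with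
  | ofNat k => rw [Int.ofNat_eq_natCast, zpow_natCast, zpow_natCast]; exact chi_pow322 hχ h k
  | negSucc k =>
    rw [zpow_negSucc, zpow_negSucc, chi_inv322 hχ (inTorus_pow333 h (k + 1)), chi_pow322 hχ h]

/-! ## Local components of torus elements -/

/-- `m · loc_v(m_v)⁻¹` is in the torus (the coordinates of `m` with the component at `v` replaced
by `1`, `0`). -/
theorem inTorus_mul_loc_inv322 {t n : K} (v : HeightOneSpectrum (𝓞 K)) {m : G K}
    (h : InTorus t n m) : InTorus t n (m * (locFin129 v (finCompHom129 v m))⁻¹) := by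
  obtain ⟨a, b, hab⟩ := h
  refine ⟨replaceAt926 v a 1, replaceAt926 v b 0, ?_⟩
  rw [Units.val_mul, ← map_inv, coe_locFin129]
  apply adeleMatrix_ext129
  · intro w
    rw [Matrix.map_mul, locMat129_map_inf, mul_one, hab, torMat_map926p, torMat_map926p,
      replaceAt926_inf, replaceAt926_inf]
  · intro v'
    rw [Matrix.map_mul]
    by_cases hv : v' = v
    · subst hv
      rw [locMat129_map_same, ← coe_finCompHom129_map, ← Matrix.GeneralLinearGroup.coe_mul,
        mul_inv_cancel, torMat_map926p, replaceAt926_same, replaceAt926_same, torMat_one926p]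
      rfl
    · rw [locMat129_map_of_ne v _ hv, mul_one, hab, torMat_map926p, torMat_map926p,
        replaceAt926_of_ne v _ _ hv, replaceAt926_of_ne v _ _ hv]

/-- The local component at `v` of a torus element is a torus element. -/
theorem inTorus_loc322 {t n : K} (v : HeightOneSpectrum (𝓞 K)) {m : G K}
    (h : InTorus t n m) : InTorus t n (locFin129 v (finCompHom129 v m)) := by
  have h1 := inTorus_mul333 (inTorus_inv333 (inTorus_mul_loc_inv322 v h)) h
  have h2 : (m * (locFin129 v (finCompHom129 v m))⁻¹)⁻¹ * m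
      = locFin129 v (finCompHom129 v m) := by group
  rwa [h2] at h1

/-- The local component at `v` of an element of `T¹` is in `T¹`. -/
theorem inTorus1_loc322 {t n : K} (v : HeightOneSpectrum (𝓞 K)) {m : G K}
    (h : InTorus1 t n m) : InTorus1 t n (locFin129 v (finCompHom129 v m)) := by
  refine ⟨inTorus_loc322 v h.1, det_locFin926 v _ ?_⟩
  unfold finCompHom129
  rw [Matrix.GeneralLinearGroup.map_det, h.2, map_one]

/-- The component at `v` of a torus element is a torus matrix over `K_v`. -/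
theorem finComp_torus322 {t n : K} (v : HeightOneSpectrum (𝓞 K)) {m : G K}
    (h : InTorus t n m) : ∃ a b : v.adicCompletion K,
      finComp v m = torMat (algebraMap K (v.adicCompletion K) t)
        (algebraMap K (v.adicCompletion K) n) a b := by
  obtain ⟨a, b, hab⟩ := h
  refine ⟨evF129 v a, evF129 v b, ?_⟩
  rw [← coe_finCompHom129, coe_finCompHom129_map, hab, torMat_map926p]
  rfl

/-- A torus matrix over `K_v` (with `t`, `n` integral) is integral as soon as its first column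
is. -/
theorem intM_of_col322 {t n : K} (v : HeightOneSpectrum (𝓞 K))
    (ht : Valued.v (algebraMap K (v.adicCompletion K) t) ≤ 1)
    (hn : Valued.v (algebraMap K (v.adicCompletion K) n) ≤ 1) {m : G K}
    (h : InTorus t n m) (h0 : finComp v m 0 0 ∈ v.adicCompletionIntegers K)
    (h1 : finComp v m 1 0 ∈ v.adicCompletionIntegers K) : IntM322 v (finComp v m) := by
  obtain ⟨a, b, hab⟩ := finComp_torus322 v h
  rw [hab] at h0 h1 ⊢
  have ha : a ∈ v.adicCompletionIntegers K := by simpa [torMat] using h0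
  have hb : b ∈ v.adicCompletionIntegers K := by simpa [torMat] using h1
  have ht' := (mem_int_iff322 _).mpr ht
  have hn' := (mem_int_iff322 _).mpr hn
  intro i j
  fin_cases i <;> fin_cases j
  · simpa [torMat] using ha
  · simpa [torMat] using mul_mem hn' hb
  · simpa [torMat] using hb
  · simpa [torMat] using add_mem ha (mul_mem ht' hb)

end Fermat.Agent.LT.A2.H322

end

end
-- ===== PACK-END LT/A2/H322/SuppTools.lean

-- ===== PACK-BEGIN LT/A2/H416/LocalW.lean
section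


/-!
# Row LT, tower A2, leaf A2.03.7 WHIT-MEAN (helper416): the Whittaker function on the Borel
subgroup at a complex place

OFF-MAIN.  `whit_unip416` (`W(n(x) g) = ψ(x) W(g)`), `whit_diag416` (`diagA` at the complex place),
`whit_upper416`:

    W(g₀ · [[y, x], [0, 1]]_w) = ψ(x_w) · y · ∫_{T¹} F g₀ (m m₁) (√y e₁) χT(m m₁) dμT(m)

for `g₀` trivial at `w`, `(g₀, m₁)` admissible, `W` right invariant under the positive scalars.
-/

set_option autoImplicit false
set_option linter.unusedSectionVars false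
set_option linter.style.haveILetI false
open IsDedekindDomain NumberField AutomorphicForm MeasureTheory
open scoped MatrixGroups Topology Classical
noncomputable section
namespace Fermat.Agent.LT.A2.H416
open Fermat.Agent.LT.H130 Fermat.Agent.LT.H556 Fermat.Agent.LT.A2 Fermat.Agent.LT.H470
open Fermat.Agent.LT.T8.H864 Fermat.Agent.LT.H556.T0 Fermat.Agent.LT.A2.H971

variable {K : Type} [Field K] [NumberField K]

/-! ## Determinants -/

theorem det_nU416 (x : A0.Adl K) : Matrix.GeneralLinearGroup.det (nU416 x) = 1 := by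
  refine Units.ext ?_
  rw [Matrix.GeneralLinearGroup.val_det_apply]
  show (!![1, x; 0, 1] : Matrix (Fin 2) (Fin 2) (A0.Adl K)).det = 1
  rw [Matrix.det_fin_two_of]
  simp

/-- The determinant of a local element at `w`. -/
theorem coe_det_locInf (w : InfinitePlace K) (X : GL (Fin 2) w.Completion) :
    ((Matrix.GeneralLinearGroup.det (locInf w X) : (A0.Adl K)ˣ) : A0.Adl K)
      = locAdlHom w (X : Matrix (Fin 2) (Fin 2) w.Completion).det := by
  rw [Matrix.GeneralLinearGroup.val_det_apply, coe_locInf]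
  refine adl_ext (fun w' => ?_) (fun v => ?_)
  · rw [RingHom.map_det]
    show ((locInfMat w (X : Matrix (Fin 2) (Fin 2) w.Completion)).map (evInf w')).det
      = (locAdlHom w (X : Matrix (Fin 2) (Fin 2) w.Completion).det).1 w'
    by_cases h : w' = w
    · subst h
      rw [locInfMat_map_evInf_self, locAdlHom_fst_self]
    · rw [locInfMat_map_evInf_of_ne h, locAdlHom_fst_of_ne h, Matrix.det_one]
  · rw [RingHom.map_det]
    show ((locInfMat w (X : Matrix (Fin 2) (Fin 2) w.Completion)).map (evFin v)).det = 1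
    rw [locInfMat_map_evFin, Matrix.det_one]

theorem det_locInf (w : InfinitePlace K) (X : GL (Fin 2) w.Completion) :
    Matrix.GeneralLinearGroup.det (locInf w X)
      = locIdl w (Matrix.GeneralLinearGroup.det X) :=
  Units.ext (by rw [coe_det_locInf, coe_locIdl, Matrix.GeneralLinearGroup.val_det_apply])

theorem det_locInfComplex {w : InfinitePlace K} (hw : w.IsComplex) (M : GL (Fin 2) ℂ) :
    Matrix.GeneralLinearGroup.det (locInfComplex hw M : A0.G K)
      = cIdl hw (Matrix.GeneralLinearGroup.det M) := by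
  show Matrix.GeneralLinearGroup.det (locInf w (Matrix.GeneralLinearGroup.map (cplxHom hw) M)) = _
  rw [det_locInf]
  refine Units.ext ?_
  rw [coe_locIdl, coe_cIdl, Matrix.GeneralLinearGroup.val_det_apply,
    Matrix.GeneralLinearGroup.val_det_apply]
  congr 1
  exact ((cplxHom hw).map_det _).symm

theorem det_locInfComplex_of_det_one {w : InfinitePlace K} (hw : w.IsComplex) {M : GL (Fin 2) ℂ}
    (h : (M : Matrix (Fin 2) (Fin 2) ℂ).det = 1) :
    Matrix.GeneralLinearGroup.det (locInfComplex hw M : A0.G K) = 1 := by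
  rw [det_locInfComplex]
  have : Matrix.GeneralLinearGroup.det M = 1 :=
    Units.ext (by rw [Matrix.GeneralLinearGroup.val_det_apply, h]; rfl)
  rw [this, map_one]

theorem det_dgC (s : ℂˣ) : ((dgC s : GL (Fin 2) ℂ) : Matrix (Fin 2) (Fin 2) ℂ).det = 1 := by
  rw [coe_dgC, Matrix.det_fin_two_of]
  simp

/-! ## Admissibility -/

theorem adm_mul_left_of_det_one {t n : K} {u g m : A0.G K}
    (hu : Matrix.GeneralLinearGroup.det u = 1) :
    Adm t n (u * g) m ↔ Adm t n g m := by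
  unfold Adm
  rw [map_mul, hu, one_mul]

theorem inGPlus_mul_left_of_det_one {t n : K} {u g : A0.G K}
    (hu : Matrix.GeneralLinearGroup.det u = 1) :
    InGPlus t n (u * g) ↔ InGPlus t n g := by
  unfold InGPlus
  exact exists_congr fun m => adm_mul_left_of_det_one hu

theorem qf_e1 (t n : K) : qf t n ((1 : A0.Adl K), (0 : A0.Adl K)) = 1 := by
  simp [qf]


/-! ## Integrals over the norm-one torus -/

theorem intT_congr416 (D : KData K) {S : Set (A0.G K)}
    (hS : @MeasurableSet (A0.G K) (borel (A0.G K)) S) {f f' : A0.G K → ℂ}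
    (h : ∀ m ∈ S, f m = f' m) : D.intT S f = D.intT S f' := by
  letI : MeasurableSpace (A0.G K) := borel (A0.G K)
  exact setIntegral_congr_fun hS h

theorem intT_const_mul416 (D : KData K) (S : Set (A0.G K)) (c : ℂ) (f : A0.G K → ℂ) :
    D.intT S (fun m => c * f m) = c * D.intT S f := by
  letI : MeasurableSpace (A0.G K) := borel (A0.G K)
  exact integral_const_mul c f

theorem measurableSet_torus1_416 (hT1 : T1.T1Out K) (t n : K) :
    @MeasurableSet (A0.G K) (borel (A0.G K)) {m : A0.G K | InTorus1 t n m} := by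
  obtain ⟨⟨_, hT2A, _⟩, _, _, _⟩ := hT1.locComp
  have := hT2A
  letI : MeasurableSpace (A0.G K) := borel (A0.G K)
  haveI : BorelSpace (A0.G K) := ⟨rfl⟩
  exact (isClosed_inTorus1_971 t n).measurableSet

/-- **UNIP**: `W(n(x) g) = ψ(x) W(g)`. -/
theorem whit_unip416 (D : KData K) (hT1 : T1.T1Out K) (hgood : D.Good) {W : A0.G K → ℂ}
    (hW : D.IsWhit W) (x : A0.Adl K) (g : A0.G K) : W (nU416 x * g) = D.ψ x * W g := by
  by_cases hg : InGPlus D.t D.n g
  · obtain ⟨mg, hadm⟩ := hg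
    have hadm' : Adm D.t D.n (nU416 x * g) mg := (adm_mul_left_of_det_one (det_nU416 x)).2 hadm
    rw [hW.formula _ mg hadm', hW.formula g mg hadm, ← intT_const_mul416]
    refine intT_congr416 D (measurableSet_torus1_416 hT1 D.t D.n) fun m hm => ?_
    have h := hgood.weil.unip nU416 isUpperUnip_nU416 x g (m * mg) (1, 0)
      (adm_torus1_mul971 hm hadm)
    rw [h, qf_e1, mul_one, mul_assoc]
  · have hg' : ¬ InGPlus D.t D.n (nU416 x * g) := fun h =>
      hg ((inGPlus_mul_left_of_det_one (det_nU416 x)).1 h)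
    rw [hW.off _ hg', hW.off _ hg, mul_zero]

/-- **DIAG**: `W(t(a) g) = |s|² ∫ F g (m m_g) (a e₁) χT(m m_g) dm`, `a` the idele `s` at the
complex place `w`. -/
theorem whit_diag416 (D : KData K) (η : (A0.Adl K)ˣ → ℂ) (hT1 : T1.T1Out K)
    (hstd : WL.IsStd D η) {W : A0.G K → ℂ} (hW : D.IsWhit W) {w : InfinitePlace K}
    (hw : w.IsComplex) (s : ℂˣ) {g mg : A0.G K} (hadm : Adm D.t D.n g mg) :
    W (locInfComplex hw (dgC s) * g)
      = ((‖(s : ℂ)‖ ^ 2 : ℝ) : ℂ) * D.intT {m | InTorus1 D.t D.n m}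
          (fun m => D.F g (m * mg) ((cIdl hw s : A0.Adl K) • ((1 : A0.Adl K), (0 : A0.Adl K)))
            * D.χT (m * mg)) := by
  have hdet : Matrix.GeneralLinearGroup.det (locInfComplex hw (dgC s) : A0.G K) = 1 :=
    det_locInfComplex_of_det_one hw (det_dgC s)
  have hadm' : Adm D.t D.n (locInfComplex hw (dgC s) * g) mg :=
    (adm_mul_left_of_det_one hdet).2 hadm
  rw [hW.formula _ mg hadm', ← intT_const_mul416]
  refine intT_congr416 D (measurableSet_torus1_416 hT1 D.t D.n) fun m hm => ?_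
  have h := hstd.diagA _ _ (isDiagSLA_dgC hw s) g (m * mg) (1, 0) (adm_torus1_mul971 hm hadm)
  rw [h, quadChar_cIdl hstd.quad hw s, adNorm_cIdl hw s, one_mul, mul_assoc]


/-- `√y` as a unit of `ℂ`. -/
def sqU (y : ℝ) (hy : 0 < y) : ℂˣ :=
  Units.mk0 ((Real.sqrt y : ℝ) : ℂ) (Complex.ofReal_ne_zero.2 (Real.sqrt_pos.2 hy).ne')

theorem coe_sqU (y : ℝ) (hy : 0 < y) : ((sqU y hy : ℂˣ) : ℂ) = ((Real.sqrt y : ℝ) : ℂ) := rfl

theorem norm_sqU_sq (y : ℝ) (hy : 0 < y) : ‖((sqU y hy : ℂˣ) : ℂ)‖ ^ 2 = y := by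
  rw [coe_sqU, Complex.norm_real, Real.norm_eq_abs, abs_of_pos (Real.sqrt_pos.2 hy),
    Real.sq_sqrt hy.le]

/-- **The Whittaker function on the Borel subgroup at `w`**:
`W(g₀ [[y, x], [0, 1]]_w) = ψ(x_w) · y · ∫ F g₀ (m m₁) (√y e₁) χT(m m₁) dm`. -/
theorem whit_upper416 (D : KData K) (η : (A0.Adl K)ˣ → ℂ) (hT1 : T1.T1Out K) (hgood : D.Good)
    (hstd : WL.IsStd D η) {W : A0.G K → ℂ} (hW : D.IsWhit W) {w : InfinitePlace K}
    (hw : w.IsComplex)
    (hs : ∀ z : A0.G K, A0.IsArchPosScalar w z → ∀ g : A0.G K, W (g * z) = W g)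
    {g₀ m₁ : A0.G K} (hg₀ : A0.TrivAtInf w g₀) (hadm : Adm D.t D.n g₀ m₁) (x : ℂ) {y : ℝ}
    (hy : 0 < y) :
    W (g₀ * locInfComplex hw (upperU x y hy.ne'))
      = D.ψ (locAdd w (cplxHom hw x)) * (((y : ℝ) : ℂ) * D.intT {m | InTorus1 D.t D.n m}
          (fun m => D.F g₀ (m * m₁)
              ((cIdl hw (sqU y hy) : A0.Adl K) • ((1 : A0.Adl K), (0 : A0.Adl K)))
            * D.χT (m * m₁))) := by
  rw [upperU_eq_mul x hy, map_mul, ← mul_assoc,
    hs _ (isArchPosScalar_locInfComplex hw _ (Real.sqrt y) (Real.sqrt_pos.2 hy) (coe_scalarU _ _))]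
  have hcomm : g₀ * locInfComplex hw (upperU x 1 one_ne_zero * dgC (sqU y hy))
      = locInfComplex hw (upperU x 1 one_ne_zero * dgC (sqU y hy)) * g₀ :=
    mul_locInf_comm_of_trivAtInf hg₀ _
  show W (g₀ * locInfComplex hw (upperU x 1 one_ne_zero * dgC (sqU y hy))) = _
  rw [hcomm, map_mul, mul_assoc, locInfComplex_upperU_one, whit_unip416 D hT1 hgood hW,
    whit_diag416 D η hT1 hstd hW hw (sqU y hy) hadm, norm_sqU_sq]

end Fermat.Agent.LT.A2.H416
end

end
-- ===== PACK-END LT/A2/H416/LocalW.lean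

-- ===== PACK-BEGIN LT/A2/H487/Tor.lean
section


/-!
# Row LT, tower A2, leaf A2.03.1.1.10.03 `CX798.TorC` (helper487), OFF-MAIN

`torC_h487 : CX798.TorC`, VERBATIM against `LT/A2/H798/CpxSpec.lean`
(helper798@5f07fac26, sha256 8ca2dc507058b836), byte-identical copy.  Mathlib only.

Proof.  `μ' = torMat t n a b`, `t = ω₁ + ω₂`, `n = ω₁ ω₂`, `λ'_i = a + b ω_i`:
`det μ' = λ'₁ λ'₂`, `lam ω_i (μ' m) = λ'_i lam ω_i m` (`ω_i² = t ω_i - n`),
`z_i (μ'⁻¹ ξ) = z_i ξ / λ'_i`, `rowN (d g) = ‖det μ'‖² rowN g`, `rowB (d g) = conj (det μ') rowB g`.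
-/

set_option autoImplicit false

open scoped ComplexConjugate

noncomputable section

namespace Fermat.Agent.LT.A2.H487

open Fermat.Agent.LT.A2 Fermat.Agent.LT.A2.WX467 Fermat.Agent.LT.A2.CX798

/-- `det (torMat t n a b) = (a + b ω₁)(a + b ω₂)`. -/
theorem det_torMat487 (ω₁ ω₂ a b : ℂ) :
    (torMat (ω₁ + ω₂) (ω₁ * ω₂) a b).det = (a + b * ω₁) * (a + b * ω₂) := by
  simp only [torMat, Matrix.det_fin_two_of]
  ring

/-- `lam ω₁ (μ' m) = λ'₁ lam ω₁ m`. -/
theorem lam_one_torMat487 (ω₁ ω₂ a b : ℂ) (m : Matrix (Fin 2) (Fin 2) ℂ) :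
    lam ω₁ (torMat (ω₁ + ω₂) (ω₁ * ω₂) a b * m) = (a + b * ω₁) * lam ω₁ m := by
  simp only [lam, torMat, Matrix.mul_apply, Fin.sum_univ_two, Matrix.of_apply,
    Matrix.cons_val', Matrix.cons_val_zero, Matrix.cons_val_one, Matrix.empty_val',
    Matrix.cons_val_fin_one]
  ring

/-- `lam ω₂ (μ' m) = λ'₂ lam ω₂ m`. -/
theorem lam_two_torMat487 (ω₁ ω₂ a b : ℂ) (m : Matrix (Fin 2) (Fin 2) ℂ) :
    lam ω₂ (torMat (ω₁ + ω₂) (ω₁ * ω₂) a b * m) = (a + b * ω₂) * lam ω₂ m := by
  simp only [lam, torMat, Matrix.mul_apply, Fin.sum_univ_two, Matrix.of_apply,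
    Matrix.cons_val', Matrix.cons_val_zero, Matrix.cons_val_one, Matrix.empty_val',
    Matrix.cons_val_fin_one]
  ring

/-- The inverse of `torMat`, entrywise. -/
theorem inv_torMat487 (ω₁ ω₂ a b : ℂ) :
    (torMat (ω₁ + ω₂) (ω₁ * ω₂) a b)⁻¹
      = ((a + b * ω₁) * (a + b * ω₂))⁻¹ •
          !![a + (ω₁ + ω₂) * b, ω₁ * ω₂ * b; -b, a] := by
  rw [Matrix.inv_def, Ring.inverse_eq_inv', det_torMat487]
  congr 1
  simp only [torMat, Matrix.adjugate_fin_two_of, neg_neg]

/-- The first split coordinate of `μ'⁻¹ ξ`. -/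
theorem z_one_actL487 (ω₁ ω₂ a b : ℂ)
    (hdet : (torMat (ω₁ + ω₂) (ω₁ * ω₂) a b).det ≠ 0) (ξ : ℂ × ℂ) :
    (actL (torMat (ω₁ + ω₂) (ω₁ * ω₂) a b)⁻¹ ξ).1
        + ω₁ * (actL (torMat (ω₁ + ω₂) (ω₁ * ω₂) a b)⁻¹ ξ).2
      = (ξ.1 + ω₁ * ξ.2) / (a + b * ω₁) := by
  have hd := hdet
  rw [det_torMat487] at hd
  have h1 : a + b * ω₁ ≠ 0 := left_ne_zero_of_mul hd
  have h2 : a + b * ω₂ ≠ 0 := right_ne_zero_of_mul hd
  rw [inv_torMat487 ω₁ ω₂ a b]
  simp only [actL, Matrix.smul_apply, Matrix.of_apply, Matrix.cons_val', Matrix.cons_val_zero,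
    Matrix.cons_val_one, Matrix.empty_val', Matrix.cons_val_fin_one, smul_eq_mul]
  field_simp
  ring

/-- The second split coordinate of `μ'⁻¹ ξ`. -/
theorem z_two_actL487 (ω₁ ω₂ a b : ℂ)
    (hdet : (torMat (ω₁ + ω₂) (ω₁ * ω₂) a b).det ≠ 0) (ξ : ℂ × ℂ) :
    (actL (torMat (ω₁ + ω₂) (ω₁ * ω₂) a b)⁻¹ ξ).1
        + ω₂ * (actL (torMat (ω₁ + ω₂) (ω₁ * ω₂) a b)⁻¹ ξ).2
      = (ξ.1 + ω₂ * ξ.2) / (a + b * ω₂) := by
  have hd := hdet
  rw [det_torMat487] at hd
  have h1 : a + b * ω₁ ≠ 0 := left_ne_zero_of_mul hd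
  have h2 : a + b * ω₂ ≠ 0 := right_ne_zero_of_mul hd
  rw [inv_torMat487 ω₁ ω₂ a b]
  simp only [actL, Matrix.smul_apply, Matrix.of_apply, Matrix.cons_val', Matrix.cons_val_zero,
    Matrix.cons_val_one, Matrix.empty_val', Matrix.cons_val_fin_one, smul_eq_mul]
  field_simp
  ring

/-- `rowN (d(δ) g) = ‖δ‖² rowN g`. -/
theorem rowN_diag487 (δ : ℂ) (g : Matrix (Fin 2) (Fin 2) ℂ) :
    rowN (!![1, 0; 0, δ] * g) = ‖δ‖ ^ 2 * rowN g := by
  simp only [rowN, Matrix.mul_apply, Fin.sum_univ_two, Matrix.of_apply, Matrix.cons_val',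
    Matrix.cons_val_zero, Matrix.cons_val_one, Matrix.empty_val', Matrix.cons_val_fin_one,
    zero_mul, zero_add, norm_mul]
  ring

/-- `rowB (d(δ) g) = conj δ · rowB g`. -/
theorem rowB_diag487 (δ : ℂ) (g : Matrix (Fin 2) (Fin 2) ℂ) :
    rowB (!![1, 0; 0, δ] * g) = conj δ * rowB g := by
  simp only [rowB, Matrix.mul_apply, Fin.sum_univ_two, Matrix.of_apply, Matrix.cons_val',
    Matrix.cons_val_zero, Matrix.cons_val_one, Matrix.empty_val', Matrix.cons_val_fin_one,
    zero_mul, zero_add, one_mul, add_zero, map_mul]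
  ring

/-- `Re (x conj δ) / ‖δ‖² = Re (x / δ)`. -/
theorem re_div487 (x δ : ℂ) (hδ : δ ≠ 0) :
    (x * conj δ).re / ‖δ‖ ^ 2 = (x / δ).re := by
  have hn : (‖δ‖ ^ 2 : ℝ) ≠ 0 := by positivity
  have h : x / δ = x * conj δ * (((‖δ‖ ^ 2 : ℝ) : ℂ))⁻¹ := by
    have hc : ((‖δ‖ ^ 2 : ℝ) : ℂ) = δ * conj δ := by
      rw [Complex.mul_conj, Complex.normSq_eq_norm_sq]
    have hcδ : conj δ ≠ 0 := by
      simpa using hδ
    rw [hc]
    field_simp
  rw [h, ← Complex.ofReal_inv, Complex.re_mul_ofReal]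
  field_simp

/-- **Leaf A2.03.1.1.10.03 `CX798.TorC`.** -/
theorem torC_h487 : TorC := by
  intro c ω₁ ω₂ μ' hμ hdet g m ξ hadm
  obtain ⟨a, b, rfl⟩ := hμ
  have hd := hdet
  rw [det_torMat487] at hd
  have h1 : a + b * ω₁ ≠ 0 := left_ne_zero_of_mul hd
  have h2 : a + b * ω₂ ≠ 0 := right_ne_zero_of_mul hd
  have hn1 : ‖a + b * ω₁‖ ≠ 0 := norm_ne_zero_iff.mpr h1
  have hn2 : ‖a + b * ω₂‖ ≠ 0 := norm_ne_zero_iff.mpr h2
  -- the bottom row of `g` is not zero
  have hN : rowN g ≠ 0 := by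
    intro h0
    have hg : g.det ≠ 0 := by rw [hadm.2.1]; exact hadm.2.2
    apply hg
    have h10 : ‖g 1 0‖ ^ 2 = 0 := by
      have := sq_nonneg ‖g 1 0‖
      have := sq_nonneg ‖g 1 1‖
      unfold rowN at h0
      linarith
    have h11 : ‖g 1 1‖ ^ 2 = 0 := by
      have := sq_nonneg ‖g 1 0‖
      have := sq_nonneg ‖g 1 1‖
      unfold rowN at h0
      linarith
    have e10 : g 1 0 = 0 := by
      have := pow_eq_zero_iff (n := 2) (by norm_num) |>.mp h10
      exact norm_eq_zero.mp this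
    have e11 : g 1 1 = 0 := by
      have := pow_eq_zero_iff (n := 2) (by norm_num) |>.mp h11
      exact norm_eq_zero.mp this
    rw [Matrix.det_fin_two, e10, e11]
    ring
  unfold FC
  rw [lam_one_torMat487, lam_two_torMat487, z_one_actL487 ω₁ ω₂ a b hdet,
    z_two_actL487 ω₁ ω₂ a b hdet, rowN_diag487, rowB_diag487, det_torMat487]
  set z₁ : ℂ := ξ.1 + ω₁ * ξ.2 with hz₁
  set z₂ : ℂ := ξ.1 + ω₂ * ξ.2 with hz₂
  set l₁ : ℂ := lam ω₁ m with hl₁
  set l₂ : ℂ := lam ω₂ m with hl₂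
  set p₁ : ℂ := a + b * ω₁ with hp₁
  set p₂ : ℂ := a + b * ω₂ with hp₂
  set N : ℝ := rowN g with hNdef
  set B : ℂ := rowB g with hBdef
  have hsq : Real.sqrt (‖p₁ * p₂‖ ^ 2) = ‖p₁‖ * ‖p₂‖ := by
    rw [Real.sqrt_sq (norm_nonneg _), norm_mul]
  -- the three real identities
  have hpre : Real.sqrt (‖p₁ * p₂‖ ^ 2) * (‖p₁ * l₁ * (p₂ * l₂)‖ / (‖p₁ * p₂‖ ^ 2 * N))
      = ‖l₁ * l₂‖ / N := by
    rw [hsq]
    simp only [norm_mul]
    field_simp
  have hre : -(2 * Real.pi * ‖c‖ * (‖p₂ * l₂ * z₁‖ ^ 2 + ‖p₁ * l₁ * z₂‖ ^ 2)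
        / (‖p₁ * p₂‖ ^ 2 * N))
      = -(2 * Real.pi * ‖c‖ * (‖l₂ * (z₁ / p₁)‖ ^ 2 + ‖l₁ * (z₂ / p₂)‖ ^ 2) / N) := by
    simp only [norm_mul, norm_div]
    field_simp
  have him : (c * (conj (p₁ * p₂) * B) * (z₁ * z₂)).re / (‖p₁ * p₂‖ ^ 2 * N)
      = (c * B * (z₁ / p₁ * (z₂ / p₂))).re / N := by
    have e1 : c * (conj (p₁ * p₂) * B) * (z₁ * z₂) = (c * B * (z₁ * z₂)) * conj (p₁ * p₂) := by
      ring
    have e2 : c * B * (z₁ / p₁ * (z₂ / p₂)) = (c * B * (z₁ * z₂)) / (p₁ * p₂) := by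
      field_simp
    rw [e1, e2, ← re_div487 _ _ hd, div_div]
  rw [← mul_assoc, ← Complex.ofReal_mul, hpre, hre, him]

end Fermat.Agent.LT.A2.H487

end

end
-- ===== PACK-END LT/A2/H487/Tor.lean

-- ===== PACK-BEGIN LT/T7/H555/Fold.lean
section




/-!
# Row LT, tower T7, ASSIST for T7.14.6a `FoldWhitC`, step (1): folding over `B(K) \ GL₂(K)`
(helper555)

OFF-MAIN.  On helper62 `RigidAut.lean` (`rowOf`, `rowNorm`, `cntSet`, `cnt`), helper724
`CountMeas.lean` (measurability of `{g | x ∈ cntSet 𝔪 Y g}`, countability of `ℙ¹(K)`), helper309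
`AdNorm.lean` (product formula), helper250 `NormPos.lean`, byte-identical copies.

* `gamX555 x : GL₂(K)` : a matrix with bottom row `x.rep`, for `x ∈ ℙ¹(K)`
  (a system of representatives of `B(K) \ GL₂(K)`).
* `foldSet555 𝔪 Y` : the set `E` of the `g` with `rowNorm(bottom row)² · Y ≤ ‖det g‖` and bottom
  row `(c, d)`, `c_v ∈ 𝔪 d_v` at the places `v ∣ 𝔪`:  `x ∈ cntSet 𝔪 Y g ↔ γ_x g ∈ E`
  (`mem_cntSet_iff555`).
* `foldDom555 F = ⋃ₓ γ_x F` : Borel, inside the slab, STRICT fundamental domain for the left action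
  of `B(K)` on the slab (`measurableSet_foldDom555`, `foldDom_sub_slab555`,
  `foldDom_strict555`).
* `lintegral_fold555` : `∑ₓ ∫⁻_{F ∩ {x ∈ cntSet}} f dμ = ∫⁻_{foldDom F ∩ E} f dμ` for measurable
  `f ≥ 0`, left invariant under `GL₂(K)`.
* `integral_fold555` : if `μ (foldDom F ∩ E) < ∞` then for `Φ` bounded measurable left invariant
  under `GL₂(K)`:  `∫_F Φ · cnt 𝔪 Y dμ = ∫_{foldDom F ∩ E} Φ dμ`, and `cntSet 𝔪 Y g` is finite for
  almost every `g ∈ F` (`ae_finite_cntSet555`).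
-/

set_option autoImplicit false

open IsDedekindDomain NumberField MeasureTheory AutomorphicForm
open Fermat.Agent.LT.H556 Fermat.Agent.LT.H556.A0
open Fermat.Agent.LT
open scoped ComplexConjugate ENNReal

noncomputable section

namespace Fermat.Agent.LT.T7.H555

open Fermat.Agent.LT.T7.H250 Fermat.Agent.LT.T7.Rigid Fermat.Agent.LT.T7.H724

attribute [local instance] Fermat.Agent.LT.T5.instMeasurableSpaceG

variable {K : Type} [Field K] [NumberField K]

/-! ## 1. Rows -/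

/-- The bottom row of `g`. -/
def botRow555 (g : G K) : Fin 2 → Adl K := fun j => (g : Matrix (Fin 2) (Fin 2) (Adl K)) 1 j

/-- The set `E(𝔪, Y)`: height `≥ Y` and bottom row in `B(𝔸) K₀(𝔪)`. -/
def foldSet555 (𝔪 : Ideal (𝓞 K)) (Y : ℝ) : Set (G K) :=
  {g | rowNorm (botRow555 g) ^ 2 * Y
        ≤ T5.adNorm (Matrix.det (g : Matrix (Fin 2) (Fin 2) (Adl K))) ∧
    ∀ v : HeightOneSpectrum (𝓞 K), v.asIdeal ∣ 𝔪 →
      ∃ t ∈ idealClosure 𝔪 v, (botRow555 g 0).2 v = t * (botRow555 g 1).2 v}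

theorem ratG_apply555 (γ : GL (Fin 2) K) (i j : Fin 2) :
    ((T5.ratG γ : G K) : Matrix (Fin 2) (Fin 2) (Adl K)) i j
      = algebraMap K (Adl K) ((γ : Matrix (Fin 2) (Fin 2) K) i j) :=
  Matrix.GeneralLinearGroup.map_apply _ i j γ

/-- `(c, d) · g` is the bottom row of `γ g` if `(c, d)` is the bottom row of `γ`. -/
theorem rowOf_eq_botRow555 (γ : GL (Fin 2) K) (x : Fin 2 → K)
    (hx : ∀ j, (γ : Matrix (Fin 2) (Fin 2) K) 1 j = x j) (g : G K) :
    rowOf x g = botRow555 (T5.ratG γ * g) := by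
  funext j
  unfold rowOf botRow555
  rw [Units.val_mul, Matrix.mul_apply, Fin.sum_univ_two, ratG_apply555, ratG_apply555, hx, hx]

/-- The bottom row of `g` is `(0, 1) · g`. -/
theorem rowOf_std555 (g : G K) : rowOf ![0, 1] g = botRow555 g := by
  funext j
  unfold rowOf botRow555
  simp

/-- Product formula: left multiplication by `GL₂(K)` preserves the module of the determinant. -/
theorem detN_ratG_mul555 (γ : GL (Fin 2) K) (g : G K) :
    detN250n (T5.ratG γ * g) = detN250n g := by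
  rw [detN_mul555]
  have h1 : detN250n (T5.ratG γ) = 1 := by
    unfold detN250n
    have hdet : Matrix.det ((T5.ratG γ : G K) : Matrix (Fin 2) (Fin 2) (Adl K))
        = algebraMap K (Adl K) (Matrix.det (γ : Matrix (Fin 2) (Fin 2) K)) := by
      rw [Matrix.det_fin_two, Matrix.det_fin_two]
      simp only [ratG_apply555, map_sub, map_mul]
    rw [hdet]
    have hne : Matrix.det (γ : Matrix (Fin 2) (Fin 2) K) ≠ 0 :=
      (Matrix.GeneralLinearGroup.det γ).ne_zero
    exact Fermat.Agent.LT.T1.H309.adNorm_algebraMap309 K _ hne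
  rw [h1, one_mul]

/-! ## 2. Representatives of `B(K) \ GL₂(K)` -/

open scoped Classical in
/-- The matrix `[[1, 0], [c, d]]` (or `[[0, 1], [c, 0]]` if `d = 0`) for `(c, d) = x.rep`. -/
def gamM555 (x : Projectivization K (Fin 2 → K)) : Matrix (Fin 2) (Fin 2) K :=
  if x.rep 1 = 0 then !![0, 1; x.rep 0, x.rep 1] else !![1, 0; x.rep 0, x.rep 1]

theorem gamM_row555 (x : Projectivization K (Fin 2 → K)) (j : Fin 2) :
    gamM555 x 1 j = x.rep j := by
  unfold gamM555
  by_cases h : x.rep 1 = 0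
  · rw [if_pos h]
    fin_cases j <;> simp
  · rw [if_neg h]
    fin_cases j <;> simp

theorem gamDet555 (x : Projectivization K (Fin 2 → K)) : (gamM555 x).det ≠ 0 := by
  unfold gamM555
  by_cases h : x.rep 1 = 0
  · rw [if_pos h, Matrix.det_fin_two_of]
    have h0 : x.rep 0 ≠ 0 := by
      intro h0
      apply x.rep_nonzero
      funext j
      fin_cases j
      · exact h0
      · exact h
    simpa using h0
  · rw [if_neg h, Matrix.det_fin_two_of]
    simpa using h

/-- A matrix of `GL₂(K)` with bottom row `x.rep`. -/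
def gamX555 (x : Projectivization K (Fin 2 → K)) : GL (Fin 2) K :=
  Matrix.GeneralLinearGroup.mkOfDetNeZero (gamM555 x) (gamDet555 x)

theorem gamX_row555 (x : Projectivization K (Fin 2 → K)) (j : Fin 2) :
    (gamX555 x : Matrix (Fin 2) (Fin 2) K) 1 j = x.rep j :=
  gamM_row555 x j

theorem gamX_injective555 : Function.Injective (gamX555 (K := K)) := by
  intro x y h
  have hr : x.rep = y.rep := by
    funext j
    rw [← gamX_row555 x j, ← gamX_row555 y j, h]
  rw [← x.mk_rep, ← y.mk_rep]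
  congr 1

/-- **The counting set in terms of the set `E`.** -/
theorem mem_cntSet_iff555 (𝔪 : Ideal (𝓞 K)) (Y : ℝ) (g : G K)
    (x : Projectivization K (Fin 2 → K)) :
    x ∈ cntSet 𝔪 Y g ↔ T5.ratG (gamX555 x) * g ∈ foldSet555 𝔪 Y := by
  have hrow := rowOf_eq_botRow555 (gamX555 x) x.rep (gamX_row555 x) g
  have hdet := detN_ratG_mul555 (gamX555 x) g
  unfold detN250n at hdet
  unfold cntSet foldSet555
  simp only [Set.mem_ofPred_eq]
  rw [hrow, hdet]

/-! ## 3. The fundamental domain of `B(K)` in the slab -/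

/-- The translate `γ_x F`. -/
def foldPiece555 (F : Set (G K)) (x : Projectivization K (Fin 2 → K)) : Set (G K) :=
  (fun g : G K => T5.ratG (gamX555 x) * g) '' F

/-- The fundamental domain `⋃ₓ γ_x F` of `B(K)`. -/
def foldDom555 (F : Set (G K)) : Set (G K) := ⋃ x, foldPiece555 F x

theorem mem_foldPiece_iff555 (F : Set (G K)) (x : Projectivization K (Fin 2 → K)) (g : G K) :
    g ∈ foldPiece555 F x ↔ (T5.ratG (gamX555 x))⁻¹ * g ∈ F := by
  unfold foldPiece555
  constructor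
  · rintro ⟨f, hf, rfl⟩
    rwa [inv_mul_cancel_left]
  · intro h
    exact ⟨_, h, mul_inv_cancel_left _ _⟩

theorem ratG_mul_mem_foldPiece_iff555 (F : Set (G K)) (x : Projectivization K (Fin 2 → K))
    (g : G K) : T5.ratG (gamX555 x) * g ∈ foldPiece555 F x ↔ g ∈ F := by
  rw [mem_foldPiece_iff555, inv_mul_cancel_left]

theorem measurableSet_foldPiece555 {F : Set (G K)} (hF : MeasurableSet F)
    (x : Projectivization K (Fin 2 → K)) : MeasurableSet (foldPiece555 F x) := by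
  have hbs : BorelSpace (G K) := ⟨rfl⟩
  have hc : Continuous fun g : G K => (T5.ratG (gamX555 x))⁻¹ * g :=
    continuous_const.mul continuous_id
  have : foldPiece555 F x = (fun g : G K => (T5.ratG (gamX555 x))⁻¹ * g) ⁻¹' F := by
    ext g
    exact mem_foldPiece_iff555 F x g
  rw [this]
  exact hc.measurable hF

theorem measurableSet_foldDom555 {F : Set (G K)} (hF : MeasurableSet F) :
    MeasurableSet (foldDom555 F) := by
  have : Countable (Projectivization K (Fin 2 → K)) := countable_proj724 K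
  exact MeasurableSet.iUnion fun x => measurableSet_foldPiece555 hF x

theorem foldPiece_disjoint555 {μ : Measure (G K)} {F : Set (G K)} (hF : T5.IsFrame μ F) :
    Pairwise (Function.onFun Disjoint (foldPiece555 F)) := by
  intro x y hne
  rw [Function.onFun, Set.disjoint_left]
  intro g hgx hgy
  apply hne
  rw [mem_foldPiece_iff555] at hgx hgy
  -- `f = γ_x⁻¹ g ∈ F` and `γ_y⁻¹ γ_x f = γ_y⁻¹ g ∈ F`
  set f : G K := (T5.ratG (gamX555 x))⁻¹ * g with hf
  have h1 : T5.ratG 1 * f ∈ F := by rw [map_one, one_mul]; exact hgx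
  have h2 : T5.ratG ((gamX555 y)⁻¹ * gamX555 x) * f ∈ F := by
    rw [map_mul, map_inv, hf, mul_assoc, mul_inv_cancel_left]
    exact hgy
  have huniq := (hF.strict f (hF.sub hgx)).unique h1 h2
  have hxy : gamX555 x = gamX555 y := by
    have := congrArg (fun t => gamX555 y * t) huniq
    simp only [mul_one, mul_inv_cancel_left] at this
    exact this.symm
  exact gamX_injective555 hxy

theorem foldDom_sub_slab555 {μ : Measure (G K)} {F : Set (G K)} (hF : T5.IsFrame μ F) :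
    foldDom555 F ⊆ T5.slab K := by
  intro g hg
  obtain ⟨x, hx⟩ := Set.mem_iUnion.mp hg
  obtain ⟨f, hf, rfl⟩ := hx
  have := hF.sub hf
  rw [mem_slab_iff250n] at this ⊢
  rw [detN_ratG_mul555]
  exact this

theorem measurableSet_foldSet555 (𝔪 : Ideal (𝓞 K)) (Y : ℝ) :
    MeasurableSet (foldSet555 (K := K) 𝔪 Y) := by
  have : Countable (HeightOneSpectrum (𝓞 K)) := countable_places724 K
  have h : foldSet555 (K := K) 𝔪 Y
      = {g : G K | rowNorm (rowOf ![0, 1] g) ^ 2 * Y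
          ≤ T5.adNorm (Matrix.det (g : Matrix (Fin 2) (Fin 2) (Adl K)))}
        ∩ ⋂ v : HeightOneSpectrum (𝓞 K),
          {g : G K | v.asIdeal ∣ 𝔪 → ∃ t ∈ idealClosure 𝔪 v,
            (rowOf ![0, 1] g 0).2 v = t * (rowOf ![0, 1] g 1).2 v} := by
    ext g
    simp only [foldSet555, rowOf_std555, Set.mem_ofPred_eq, Set.mem_inter_iff, Set.mem_iInter]
  rw [h]
  refine MeasurableSet.inter ?_ (MeasurableSet.iInter fun v => ?_)
  · exact measurableSet_le (((measurable_rowNorm724 ![0, 1]).pow_const 2).mul_const Y)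
      measurable_adNormDet724
  · by_cases hv : v.asIdeal ∣ 𝔪
    · simp only [hv, forall_const]
      exact measurableSet_cong724 𝔪 ![0, 1] v
    · simp only [hv, IsEmpty.forall_iff, Set.ofPred_true]
      exact MeasurableSet.univ

theorem preimage_piece555 (F : Set (G K)) (𝔪 : Ideal (𝓞 K)) (Y : ℝ)
    (x : Projectivization K (Fin 2 → K)) :
    (fun g : G K => T5.ratG (gamX555 x) * g) ⁻¹' (foldPiece555 F x ∩ foldSet555 𝔪 Y)
      = F ∩ {g | x ∈ cntSet 𝔪 Y g} := by
  ext g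
  simp only [Set.mem_preimage, Set.mem_inter_iff, Set.mem_ofPred_eq,
    ratG_mul_mem_foldPiece_iff555, mem_cntSet_iff555]

theorem foldDom_inter555 (F : Set (G K)) (𝔪 : Ideal (𝓞 K)) (Y : ℝ) :
    foldDom555 F ∩ foldSet555 𝔪 Y = ⋃ x, (foldPiece555 F x ∩ foldSet555 𝔪 Y) := by
  unfold foldDom555
  rw [Set.iUnion_inter]

theorem foldPieceInter_disjoint555 {μ : Measure (G K)} {F : Set (G K)} (hF : T5.IsFrame μ F)
    (𝔪 : Ideal (𝓞 K)) (Y : ℝ) :
    Pairwise (Function.onFun Disjoint fun x => foldPiece555 F x ∩ foldSet555 𝔪 Y) := by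
  intro x y hne
  exact (foldPiece_disjoint555 hF hne).mono Set.inter_subset_left Set.inter_subset_left

/-! ## 4. The folding identities -/

theorem measurePreserving_ratG555 {μ : Measure (G K)} {F : Set (G K)} (hF : T5.IsFrame μ F)
    (γ : GL (Fin 2) K) : MeasurePreserving (fun g : G K => T5.ratG γ * g) μ μ := by
  have hbs : BorelSpace (G K) := ⟨rfl⟩
  have := hF.haar
  exact measurePreserving_mul_left μ _

theorem measurableEmbedding_ratG555 (γ : GL (Fin 2) K) :
    MeasurableEmbedding (fun g : G K => T5.ratG γ * g) := by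
  have hbs : BorelSpace (G K) := ⟨rfl⟩
  exact (Homeomorph.mulLeft (T5.ratG γ)).measurableEmbedding

/-- **Folding, `ℝ≥0∞` form.** -/
theorem lintegral_fold555 {μ : Measure (G K)} {F : Set (G K)} (hF : T5.IsFrame μ F)
    (𝔪 : Ideal (𝓞 K)) (Y : ℝ) (f : G K → ℝ≥0∞)
    (hinv : ∀ (γ : GL (Fin 2) K) (g : G K), f (T5.ratG γ * g) = f g) :
    ∑' x : Projectivization K (Fin 2 → K), ∫⁻ g in F ∩ {g | x ∈ cntSet 𝔪 Y g}, f g ∂μ
      = ∫⁻ g in foldDom555 F ∩ foldSet555 𝔪 Y, f g ∂μ := by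
  have : Countable (Projectivization K (Fin 2 → K)) := countable_proj724 K
  rw [foldDom_inter555, lintegral_iUnion
    (fun x => (measurableSet_foldPiece555 hF.meas x).inter (measurableSet_foldSet555 𝔪 Y))
    (foldPieceInter_disjoint555 hF 𝔪 Y) f]
  congr 1
  funext x
  have h := (measurePreserving_ratG555 hF (gamX555 x)).setLIntegral_comp_preimage_emb
    (measurableEmbedding_ratG555 (gamX555 x)) f (foldPiece555 F x ∩ foldSet555 𝔪 Y)
  rw [preimage_piece555] at h
  simp only [hinv] at h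
  exact h

/-- The sum of the measures of the pieces. -/
theorem tsum_measure_fold555 {μ : Measure (G K)} {F : Set (G K)} (hF : T5.IsFrame μ F)
    (𝔪 : Ideal (𝓞 K)) (Y : ℝ) :
    ∑' x : Projectivization K (Fin 2 → K), μ (F ∩ {g | x ∈ cntSet 𝔪 Y g})
      = μ (foldDom555 F ∩ foldSet555 𝔪 Y) := by
  have h := lintegral_fold555 hF 𝔪 Y (fun _ => 1) (fun _ _ => rfl)
  simpa using h

/-- If the set `foldDom F ∩ E` has finite measure, then the counting set is finite for almost
every `g ∈ F`. -/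
theorem ae_finite_cntSet555 {μ : Measure (G K)} {F : Set (G K)} (hF : T5.IsFrame μ F)
    (𝔪 : Ideal (𝓞 K)) (Y : ℝ) (hfin : μ (foldDom555 F ∩ foldSet555 𝔪 Y) < ⊤) :
    ∀ᵐ g ∂(μ.restrict F), (cntSet 𝔪 Y g).Finite := by
  have : Countable (Projectivization K (Fin 2 → K)) := countable_proj724 K
  set S : Projectivization K (Fin 2 → K) → Set (G K) := fun x => {g | x ∈ cntSet 𝔪 Y g} with hS
  have hSm : ∀ x, MeasurableSet (S x) := fun x => measurableSet_mem_cntSet724 𝔪 Y x
  set u : G K → ℝ≥0∞ := fun g => ∑' x, (S x).indicator (fun _ => (1 : ℝ≥0∞)) g with hu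
  have hum : Measurable u :=
    Measurable.ennreal_tsum fun x => measurable_const.indicator (hSm x)
  have hint : ∫⁻ g in F, u g ∂μ = μ (foldDom555 F ∩ foldSet555 𝔪 Y) := by
    rw [hu, lintegral_tsum fun x => (measurable_const.indicator (hSm x)).aemeasurable,
      ← tsum_measure_fold555 hF 𝔪 Y]
    congr 1
    funext x
    rw [lintegral_indicator (hSm x), setLIntegral_const, one_mul,
      Measure.restrict_apply (hSm x), Set.inter_comm]
  have hae := ae_lt_top hum (by rw [hint]; exact hfin.ne)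
  filter_upwards [hae] with g hg
  by_contra hinf
  have hinf' : Infinite (cntSet 𝔪 Y g) := Set.infinite_coe_iff.mpr hinf
  have hug : u g = ⊤ := by
    show ∑' x, (S x).indicator (fun _ => (1 : ℝ≥0∞)) g = ⊤
    have e : (fun x => (S x).indicator (fun _ => (1 : ℝ≥0∞)) g)
        = (cntSet 𝔪 Y g).indicator (fun _ => (1 : ℝ≥0∞)) := by
      funext x
      by_cases hx : x ∈ cntSet 𝔪 Y g
      · rw [Set.indicator_of_mem hx, Set.indicator_of_mem (show g ∈ S x from hx)]
      · rw [Set.indicator_of_notMem hx, Set.indicator_of_notMem (show g ∉ S x from hx)]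
    rw [e, ← tsum_subtype]
    exact ENNReal.tsum_const_eq_top_of_ne_zero one_ne_zero
  rw [hug] at hg
  exact lt_irrefl _ hg

/-- **Folding, complex form.**  If `foldDom F ∩ E` has finite measure, then for every bounded
measurable `Φ`, left invariant under `GL₂(K)`:
`∫_F Φ · cnt 𝔪 Y dμ = ∫_{foldDom F ∩ E} Φ dμ`. -/
theorem integral_fold555 {μ : Measure (G K)} {F : Set (G K)} (hF : T5.IsFrame μ F)
    (𝔪 : Ideal (𝓞 K)) (Y : ℝ) (hfin : μ (foldDom555 F ∩ foldSet555 𝔪 Y) < ⊤)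
    {Φ : G K → ℂ} (hm : Measurable Φ) (hb : ∃ C : ℝ, ∀ g : G K, ‖Φ g‖ ≤ C)
    (hinv : ∀ (γ : GL (Fin 2) K) (g : G K), Φ (T5.ratG γ * g) = Φ g) :
    ∫ g in F, Φ g * (((cnt 𝔪 Y g : ℕ) : ℝ) : ℂ) ∂μ
      = ∫ g in foldDom555 F ∩ foldSet555 𝔪 Y, Φ g ∂μ := by
  classical
  have hbs : BorelSpace (G K) := ⟨rfl⟩
  have : Countable (Projectivization K (Fin 2 → K)) := countable_proj724 K
  obtain ⟨C, hC⟩ := hb
  set S : Projectivization K (Fin 2 → K) → Set (G K) := fun x => {g | x ∈ cntSet 𝔪 Y g} with hS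
  have hSm : ∀ x, MeasurableSet (S x) := fun x => measurableSet_mem_cntSet724 𝔪 Y x
  -- the right hand side
  have hR : ∫ g in foldDom555 F ∩ foldSet555 𝔪 Y, Φ g ∂μ
      = ∑' x, ∫ g in F ∩ S x, Φ g ∂μ := by
    have hio : IntegrableOn Φ (⋃ x, (foldPiece555 F x ∩ foldSet555 𝔪 Y)) μ := by
      rw [← foldDom_inter555]
      exact Measure.integrableOn_of_bounded (M := C) hfin.ne hm.aestronglyMeasurable
        (Filter.Eventually.of_forall hC)
    rw [foldDom_inter555, integral_iUnion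
      (fun x => (measurableSet_foldPiece555 hF.meas x).inter (measurableSet_foldSet555 𝔪 Y))
      (foldPieceInter_disjoint555 hF 𝔪 Y) hio]
    congr 1
    funext x
    have h := (measurePreserving_ratG555 hF (gamX555 x)).setIntegral_preimage_emb
      (measurableEmbedding_ratG555 (gamX555 x)) Φ (foldPiece555 F x ∩ foldSet555 𝔪 Y)
    rw [preimage_piece555] at h
    simp only [hinv] at h
    exact h.symm
  -- the left hand side
  have hae := ae_finite_cntSet555 hF 𝔪 Y hfin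
  have hL1 : ∫ g in F, Φ g * (((cnt 𝔪 Y g : ℕ) : ℝ) : ℂ) ∂μ
      = ∫ g in F, ∑' x, (S x).indicator Φ g ∂μ := by
    refine integral_congr_ae ?_
    filter_upwards [hae] with g hg
    have e : (fun x => (S x).indicator Φ g)
        = fun x => if x ∈ hg.toFinset then Φ g else 0 := by
      funext x
      by_cases hx : x ∈ cntSet 𝔪 Y g
      · rw [Set.indicator_of_mem (show g ∈ S x from hx), if_pos (hg.mem_toFinset.mpr hx)]
      · rw [Set.indicator_of_notMem (show g ∉ S x from hx),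
          if_neg (fun h => hx (hg.mem_toFinset.mp h))]
    show Φ g * (((cnt 𝔪 Y g : ℕ) : ℝ) : ℂ) = ∑' x, (S x).indicator Φ g
    rw [e, tsum_eq_sum (s := hg.toFinset) (fun x hx => if_neg hx),
      Finset.sum_ite_mem, Finset.inter_self, Finset.sum_const, nsmul_eq_mul, mul_comm]
    congr 1
    have hcard : cnt 𝔪 Y g = hg.toFinset.card := by
      unfold cnt
      rw [Nat.card_coe_set_eq, Set.ncard_eq_toFinset_card _ hg]
    rw [hcard, Complex.ofReal_natCast]
  have hsumfin : ∑' x, ∫⁻ g, ‖(S x).indicator Φ g‖ₑ ∂(μ.restrict F) ≠ ⊤ := by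
    have hle : ∀ x, ∫⁻ g, ‖(S x).indicator Φ g‖ₑ ∂(μ.restrict F)
        ≤ ENNReal.ofReal C * μ (F ∩ S x) := by
      intro x
      calc ∫⁻ g, ‖(S x).indicator Φ g‖ₑ ∂(μ.restrict F)
          ≤ ∫⁻ g, (S x).indicator (fun _ => ENNReal.ofReal C) g ∂(μ.restrict F) := by
            refine lintegral_mono fun g => ?_
            by_cases hg : g ∈ S x
            · rw [Set.indicator_of_mem hg, Set.indicator_of_mem hg]
              rw [← ofReal_norm]
              exact ENNReal.ofReal_le_ofReal (hC g)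
            · rw [Set.indicator_of_notMem hg, Set.indicator_of_notMem hg, enorm_zero]
        _ = ENNReal.ofReal C * μ (F ∩ S x) := by
            rw [lintegral_indicator (hSm x), setLIntegral_const,
              Measure.restrict_apply (hSm x), Set.inter_comm]
    refine ne_of_lt (lt_of_le_of_lt (ENNReal.tsum_le_tsum hle) ?_)
    rw [ENNReal.tsum_mul_left, tsum_measure_fold555 hF 𝔪 Y]
    exact ENNReal.mul_lt_top ENNReal.ofReal_lt_top hfin
  have hL2 : ∫ g in F, ∑' x, (S x).indicator Φ g ∂μ = ∑' x, ∫ g in F ∩ S x, Φ g ∂μ := by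
    rw [integral_tsum (fun x => (hm.indicator (hSm x)).aestronglyMeasurable) hsumfin]
    congr 1
    funext x
    rw [integral_indicator (hSm x), Measure.restrict_restrict (hSm x), Set.inter_comm]
  rw [hL1, hL2, hR]

/-- **Folding, `ℝ≥0∞` form with the extended counting function** (the left hand side of
helper57's `CorePosC57`): for measurable `Φ ≥ 0`, left invariant under `GL₂(K)`,
`∫⁻_F Φ · encard (cntSet 𝔪 Y) dμ = ∫⁻_{foldDom F ∩ E} Φ dμ`. -/
theorem lintegral_encard_fold555 {μ : Measure (G K)} {F : Set (G K)} (hF : T5.IsFrame μ F)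
    (𝔪 : Ideal (𝓞 K)) (Y : ℝ) {Φ : G K → ℝ≥0∞} (hm : Measurable Φ)
    (hinv : ∀ (γ : GL (Fin 2) K) (g : G K), Φ (T5.ratG γ * g) = Φ g) :
    ∫⁻ g in F, Φ g * (((cntSet 𝔪 Y g).encard : ℕ∞) : ℝ≥0∞) ∂μ
      = ∫⁻ g in foldDom555 F ∩ foldSet555 𝔪 Y, Φ g ∂μ := by
  have : Countable (Projectivization K (Fin 2 → K)) := countable_proj724 K
  set S : Projectivization K (Fin 2 → K) → Set (G K) := fun x => {g | x ∈ cntSet 𝔪 Y g} with hS
  have hSm : ∀ x, MeasurableSet (S x) := fun x => measurableSet_mem_cntSet724 𝔪 Y x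
  have hpt : ∀ g : G K, Φ g * (((cntSet 𝔪 Y g).encard : ℕ∞) : ℝ≥0∞)
      = ∑' x, (S x).indicator Φ g := by
    intro g
    rw [← ENNReal.tsum_set_one, ← ENNReal.tsum_mul_left, tsum_subtype (cntSet 𝔪 Y g)
      (fun _ => Φ g * 1)]
    congr 1
    funext x
    by_cases hx : x ∈ cntSet 𝔪 Y g
    · rw [Set.indicator_of_mem hx, Set.indicator_of_mem (show g ∈ S x from hx), mul_one]
    · rw [Set.indicator_of_notMem hx, Set.indicator_of_notMem (show g ∉ S x from hx)]
  simp only [hpt]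
  rw [lintegral_tsum fun x => (hm.indicator (hSm x)).aemeasurable,
    ← lintegral_fold555 hF 𝔪 Y Φ hinv]
  congr 1
  funext x
  rw [lintegral_indicator (hSm x), Measure.restrict_restrict (hSm x), Set.inter_comm]

/-! ## 5. `foldDom F` is a strict fundamental domain of `B(K)` -/

theorem botRow_inv_ne_zero555 (γ : GL (Fin 2) K) :
    (fun j => ((γ⁻¹ : GL (Fin 2) K) : Matrix (Fin 2) (Fin 2) K) 1 j) ≠ 0 := by
  intro h
  have h0 : ((γ⁻¹ : GL (Fin 2) K) : Matrix (Fin 2) (Fin 2) K) 1 0 = 0 := congrFun h 0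
  have h1 : ((γ⁻¹ : GL (Fin 2) K) : Matrix (Fin 2) (Fin 2) K) 1 1 = 0 := congrFun h 1
  have hdet : Matrix.det ((γ⁻¹ : GL (Fin 2) K) : Matrix (Fin 2) (Fin 2) K) ≠ 0 :=
    (Matrix.GeneralLinearGroup.det γ⁻¹).ne_zero
  apply hdet
  rw [Matrix.det_fin_two, h0, h1]
  ring

/-- **`foldDom F` is a strict fundamental domain** for the left action of the upper triangular
matrices of `GL₂(K)` on the slab. -/
theorem foldDom_strict555 {μ : Measure (G K)} {F : Set (G K)} (hF : T5.IsFrame μ F)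
    (g : G K) (hg : g ∈ T5.slab K) :
    ∃! β : GL (Fin 2) K, (β : Matrix (Fin 2) (Fin 2) K) 1 0 = 0 ∧
      T5.ratG β * g ∈ foldDom555 F := by
  obtain ⟨γ, hγ, huniq⟩ := hF.strict g hg
  set u : Fin 2 → K := fun j => ((γ⁻¹ : GL (Fin 2) K) : Matrix (Fin 2) (Fin 2) K) 1 j with hu
  have hu0 : u ≠ 0 := botRow_inv_ne_zero555 γ
  set x : Projectivization K (Fin 2 → K) := Projectivization.mk K u hu0 with hx
  -- the key: if `γ_y γ` is upper triangular then `y = x`
  have key : ∀ y : Projectivization K (Fin 2 → K),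
      ((gamX555 y * γ : GL (Fin 2) K) : Matrix (Fin 2) (Fin 2) K) 1 0 = 0 → y = x := by
    intro y hy
    set β' : GL (Fin 2) K := gamX555 y * γ with hβ'
    have hgy : gamX555 y = β' * γ⁻¹ := by rw [hβ', mul_inv_cancel_right]
    have hrep : y.rep = (β' : Matrix (Fin 2) (Fin 2) K) 1 1 • u := by
      funext j
      rw [← gamX_row555 y j, hgy, Units.val_mul, Matrix.mul_apply, Fin.sum_univ_two, hy,
        zero_mul, zero_add]
      rfl
    have hb : (β' : Matrix (Fin 2) (Fin 2) K) 1 1 ≠ 0 := by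
      intro hb
      apply y.rep_nonzero
      rw [hrep, hb, zero_smul]
    rw [← y.mk_rep, hx, Projectivization.mk_eq_mk_iff]
    exact ⟨Units.mk0 _ hb, by rw [hrep]; rfl⟩
  -- existence
  have hex : ((gamX555 x * γ : GL (Fin 2) K) : Matrix (Fin 2) (Fin 2) K) 1 0 = 0 := by
    have hmk : Projectivization.mk K x.rep x.rep_nonzero = Projectivization.mk K u hu0 :=
      x.mk_rep
    obtain ⟨a, ha⟩ := (Projectivization.mk_eq_mk_iff K _ _ _ _).mp hmk
    have hone : ((γ⁻¹ * γ : GL (Fin 2) K) : Matrix (Fin 2) (Fin 2) K) 1 0 = 0 := by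
      rw [inv_mul_cancel]
      simp
    rw [Units.val_mul, Matrix.mul_apply, Fin.sum_univ_two] at hone
    rw [Units.val_mul, Matrix.mul_apply, Fin.sum_univ_two, gamX_row555, gamX_row555, ← ha]
    simp only [Pi.smul_apply, Units.smul_def, smul_eq_mul, hu]
    rw [mul_assoc, mul_assoc, ← mul_add, hone, mul_zero]
  refine ⟨gamX555 x * γ, ⟨hex, ?_⟩, ?_⟩
  · rw [map_mul, mul_assoc]
    exact Set.mem_iUnion.mpr ⟨x, ⟨_, hγ, rfl⟩⟩
  · rintro β' ⟨hβ0, hβF⟩
    obtain ⟨y, hy⟩ := Set.mem_iUnion.mp hβF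
    rw [mem_foldPiece_iff555, ← mul_assoc, ← map_inv, ← map_mul] at hy
    have hγ' : (gamX555 y)⁻¹ * β' = γ := huniq _ hy
    have hβ' : β' = gamX555 y * γ := by rw [← hγ', mul_inv_cancel_left]
    have hyx : y = x := key y (by rw [← hβ']; exact hβ0)
    rw [hβ', hyx]

end Fermat.Agent.LT.T7.H555

end
end
-- ===== PACK-END LT/T7/H555/Fold.lean

-- ===== PACK-BEGIN LT/T7/H753/UnitsScale.lean
section



/-!
# Row LT, tower T7, node T7.14.3f: the leaves `UnitsC` and `ScaleC` of `H671/LimSpec.lean`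

OFF-MAIN (helper753).  Registry row 1957.  Both leaves are proved unconditionally.

* `unitsC753 K : H671.UnitsC K` : an element of `Kˣ` of norm one at every finite place is a unit of
  `𝓞 K` (`HeightOneSpectrum.mem_integers_of_valuation_le_one` for `l` and `l⁻¹`).
* `scaleC753 K : H671.ScaleC K` : `rowNorm ((l ξ) g) = rowNorm (ξ g)` for `l ∈ Kˣ` (product formula
  `NumberField.prod_abs_eq_one`; the finite product splits because `max(|r₀|_v, |r₁|_v) = 1` at
  almost every `v` for the row `r = ξ g`, `ξ ≠ 0`, `g ∈ GL₂(𝔸_K)`).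
-/

set_option autoImplicit false

open IsDedekindDomain NumberField

noncomputable section

namespace Fermat.Agent.LT.T7.H753

open Fermat.Agent.LT.H556 Fermat.Agent.LT.H556.A0 Fermat.Agent.LT.T7 Fermat.Agent.LT.T7.Rigid
open Fermat.Agent.LT.T7.H671

variable (K : Type) [Field K] [NumberField K]

/-! ## `UnitsC` -/

/-- Norm `≤ 1` at every finite place implies integrality. -/
theorem mem_range_of_norm_le753 (x : K)
    (h : ∀ v : HeightOneSpectrum (𝓞 K), ‖algebraMap K (v.adicCompletion K) x‖ ≤ 1) :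
    x ∈ (algebraMap (𝓞 K) K).range := by
  refine HeightOneSpectrum.mem_integers_of_valuation_le_one K x fun v => ?_
  have h1 := h v
  rw [Valued.toNormedField.norm_le_one_iff] at h1
  have h2 : Valued.v (algebraMap K (v.adicCompletion K) x) = v.valuation K x :=
    HeightOneSpectrum.valuedAdicCompletion_eq_valuation' v x
  rw [← h2]
  exact h1

/-- **LEAF UNITS** of `H671/LimSpec.lean`. -/
theorem unitsC753 : UnitsC K := by
  intro l hl
  have h1 : (l : K) ∈ (algebraMap (𝓞 K) K).range :=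
    mem_range_of_norm_le753 K _ fun v => (hl v).le
  have h2 : ((l⁻¹ : Kˣ) : K) ∈ (algebraMap (𝓞 K) K).range := by
    refine mem_range_of_norm_le753 K _ fun v => ?_
    rw [Units.val_inv_eq_inv_val, map_inv₀, norm_inv, hl v, inv_one]
  obtain ⟨y, hy⟩ := h1
  obtain ⟨y', hy'⟩ := h2
  have hyy : y * y' = 1 := by
    apply FaithfulSMul.algebraMap_injective (𝓞 K) K
    rw [map_mul, hy, hy', map_one]
    exact Units.mul_inv l
  refine ⟨⟨y, y', hyy, by rw [mul_comm]; exact hyy⟩, ?_⟩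
  exact hy

/-! ## `ScaleC` -/

variable {K}

/-- The norm of a principal adele at an infinite place. -/
theorem infNorm753 (x : K) (w : InfinitePlace K) :
    ‖(algebraMap K (Adl K) x).1 w‖ = w x := by
  have h0 := InfinitePlace.Completion.norm_coe w ((WithAbs.equiv w.1).symm x)
  rw [(WithAbs.equiv w.1).apply_symm_apply] at h0
  exact h0

/-- The norm of a principal adele at a finite place. -/
theorem finNormAlg753 (x : K) (v : HeightOneSpectrum (𝓞 K)) :
    ‖(algebraMap K (Adl K) x).2 v‖ = (FinitePlace.equivHeightOneSpectrum.symm v) x := rfl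

/-- A nonzero element of `K` has norm one at almost every finite place. -/
theorem finite_norm_ne_one753 {x : K} (hx : x ≠ 0) :
    (Function.mulSupport fun v : HeightOneSpectrum (𝓞 K) =>
      ‖(algebraMap K (Adl K) x).2 v‖).Finite := by
  have h2 : (Function.mulSupport fun w : FinitePlace K => w x).Finite :=
    FinitePlace.hasFiniteMulSupport hx
  refine (h2.image FinitePlace.equivHeightOneSpectrum).subset ?_
  intro v hv
  exact ⟨FinitePlace.equivHeightOneSpectrum.symm v, hv, Equiv.apply_symm_apply _ _⟩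

/-- The product formula, for the components of the principal adele. -/
theorem prod_norm_alg753 {x : K} (hx : x ≠ 0) :
    (∏ w : InfinitePlace K, w x ^ w.mult) *
      ∏ᶠ v : HeightOneSpectrum (𝓞 K), ‖(algebraMap K (Adl K) x).2 v‖ = 1 := by
  rw [finprod_eq_of_bijective (f := fun v : HeightOneSpectrum (𝓞 K) =>
      ‖(algebraMap K (Adl K) x).2 v‖) (g := fun w : FinitePlace K => w x)
      FinitePlace.equivHeightOneSpectrum.symm FinitePlace.equivHeightOneSpectrum.symm.bijective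
      (fun _ => rfl)]
  exact prod_abs_eq_one hx

/-- An adele is integral at almost every finite place. -/
theorem eventually_norm_le_one753 (a : Adl K) :
    ∀ᶠ v : HeightOneSpectrum (𝓞 K) in Filter.cofinite, ‖a.2 v‖ ≤ 1 := by
  have h : ∀ᶠ v : HeightOneSpectrum (𝓞 K) in Filter.cofinite,
      a.2 v ∈ v.adicCompletionIntegers K := a.2.2
  refine h.mono fun v hv => ?_
  rw [HeightOneSpectrum.mem_adicCompletionIntegers] at hv
  rw [Valued.toNormedField.norm_le_one_iff]
  exact hv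

/-- A nonzero element of `K` has norm one at almost every finite place (filter form). -/
theorem eventually_norm_eq_one753 {x : K} (hx : x ≠ 0) :
    ∀ᶠ v : HeightOneSpectrum (𝓞 K) in Filter.cofinite, ‖(algebraMap K (Adl K) x).2 v‖ = 1 := by
  rw [Filter.eventually_cofinite]
  exact finite_norm_ne_one753 hx

theorem adl_snd_add753 (a b : Adl K) (v : HeightOneSpectrum (𝓞 K)) :
    (a + b).2 v = a.2 v + b.2 v := rfl

theorem adl_snd_mul753 (a b : Adl K) (v : HeightOneSpectrum (𝓞 K)) :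
    (a * b).2 v = a.2 v * b.2 v := rfl

theorem adl_fst_mul753 (a b : Adl K) (w : InfinitePlace K) :
    (a * b).1 w = a.1 w * b.1 w := rfl

/-- Ultrametric bound for `a b + c d` at a finite place. -/
theorem norm_lin_le753 (v : HeightOneSpectrum (𝓞 K)) (a b c d : Adl K) :
    ‖(a * b + c * d).2 v‖ ≤ max (‖a.2 v‖ * ‖b.2 v‖) (‖c.2 v‖ * ‖d.2 v‖) := by
  rw [adl_snd_add753, adl_snd_mul753, adl_snd_mul753, ← norm_mul, ← norm_mul]
  exact IsUltrametricDist.norm_add_le_max _ _

/-- `ξ = (ξ g) g⁻¹`. -/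
theorem rowOf_mul_inv753 (g : G K) (ξ : Fin 2 → K) (i : Fin 2) :
    algebraMap K (Adl K) (ξ i)
      = rowOf ξ g 0 * ((g⁻¹ : G K) : Matrix (Fin 2) (Fin 2) (Adl K)) 0 i
        + rowOf ξ g 1 * ((g⁻¹ : G K) : Matrix (Fin 2) (Fin 2) (Adl K)) 1 i := by
  have hmul : ∀ k i : Fin 2,
      (g : Matrix (Fin 2) (Fin 2) (Adl K)) k 0
          * ((g⁻¹ : G K) : Matrix (Fin 2) (Fin 2) (Adl K)) 0 i
        + (g : Matrix (Fin 2) (Fin 2) (Adl K)) k 1
          * ((g⁻¹ : G K) : Matrix (Fin 2) (Fin 2) (Adl K)) 1 i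
        = (1 : Matrix (Fin 2) (Fin 2) (Adl K)) k i := by
    intro k i
    have h := congrFun (congrFun (Units.mul_inv g) k) i
    rw [Matrix.mul_apply, Fin.sum_univ_two] at h
    exact h
  have h0 := hmul 0 i
  have h1 := hmul 1 i
  have key : rowOf ξ g 0 * ((g⁻¹ : G K) : Matrix (Fin 2) (Fin 2) (Adl K)) 0 i
        + rowOf ξ g 1 * ((g⁻¹ : G K) : Matrix (Fin 2) (Fin 2) (Adl K)) 1 i
      = algebraMap K (Adl K) (ξ 0) * (1 : Matrix (Fin 2) (Fin 2) (Adl K)) 0 i
        + algebraMap K (Adl K) (ξ 1) * (1 : Matrix (Fin 2) (Fin 2) (Adl K)) 1 i := by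
    rw [← h0, ← h1]
    simp only [rowOf]
    ring
  rw [key, Matrix.one_apply, Matrix.one_apply]
  fin_cases i <;> simp

/-- For `ξ ≠ 0` the row `ξ g` is primitive at almost every finite place. -/
theorem finite_mulSupport_max753 (g : G K) (ξ : Fin 2 → K) (hξ : ξ ≠ 0) :
    (Function.mulSupport fun v : HeightOneSpectrum (𝓞 K) =>
      max ‖(rowOf ξ g 0).2 v‖ ‖(rowOf ξ g 1).2 v‖).Finite := by
  obtain ⟨i0, hi0⟩ : ∃ i, ξ i ≠ 0 := by
    by_contra h
    exact hξ (funext fun i => by_contra fun hi => h ⟨i, hi⟩)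
  have h1 : ∀ᶠ v : HeightOneSpectrum (𝓞 K) in Filter.cofinite, ∀ i j : Fin 2,
      ‖((g : Matrix (Fin 2) (Fin 2) (Adl K)) i j).2 v‖ ≤ 1 := by
    rw [Filter.eventually_all]
    intro i
    rw [Filter.eventually_all]
    intro j
    exact eventually_norm_le_one753 _
  have h2 : ∀ᶠ v : HeightOneSpectrum (𝓞 K) in Filter.cofinite, ∀ i j : Fin 2,
      ‖(((g⁻¹ : G K) : Matrix (Fin 2) (Fin 2) (Adl K)) i j).2 v‖ ≤ 1 := by
    rw [Filter.eventually_all]
    intro i
    rw [Filter.eventually_all]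
    intro j
    exact eventually_norm_le_one753 _
  have h3 : ∀ᶠ v : HeightOneSpectrum (𝓞 K) in Filter.cofinite, ∀ i : Fin 2,
      ‖(algebraMap K (Adl K) (ξ i)).2 v‖ ≤ 1 := by
    rw [Filter.eventually_all]
    intro i
    exact eventually_norm_le_one753 _
  have h4 := eventually_norm_eq_one753 (K := K) hi0
  have h5 : ∀ᶠ v : HeightOneSpectrum (𝓞 K) in Filter.cofinite,
      max ‖(rowOf ξ g 0).2 v‖ ‖(rowOf ξ g 1).2 v‖ = 1 := by
    filter_upwards [h1, h2, h3, h4] with v hg hgi hx hx0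
    have hr : ∀ j : Fin 2, ‖(rowOf ξ g j).2 v‖ ≤ 1 := by
      intro j
      refine (norm_lin_le753 v _ _ _ _).trans (max_le ?_ ?_)
      · exact mul_le_one₀ (hx 0) (norm_nonneg _) (hg 0 j)
      · exact mul_le_one₀ (hx 1) (norm_nonneg _) (hg 1 j)
    refine le_antisymm (max_le (hr 0) (hr 1)) ?_
    have h6 : ‖(algebraMap K (Adl K) (ξ i0)).2 v‖
        ≤ max (‖(rowOf ξ g 0).2 v‖ * ‖(((g⁻¹ : G K) : Matrix (Fin 2) (Fin 2) (Adl K)) 0 i0).2 v‖)
            (‖(rowOf ξ g 1).2 v‖ * ‖(((g⁻¹ : G K) : Matrix (Fin 2) (Fin 2) (Adl K)) 1 i0).2 v‖) := by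
      rw [rowOf_mul_inv753 g ξ i0]
      exact norm_lin_le753 v _ _ _ _
    rw [hx0] at h6
    refine h6.trans (max_le_max ?_ ?_)
    · exact mul_le_of_le_one_right (norm_nonneg _) (hgi 0 i0)
    · exact mul_le_of_le_one_right (norm_nonneg _) (hgi 1 i0)
  rw [Filter.eventually_cofinite] at h5
  exact h5

/-- The infinite factor of `rowNorm` scales by `|l|_w ^ mult`. -/
theorem inf_factor_scale753 (c : K) (r : Fin 2 → Adl K) (w : InfinitePlace K) :
    (‖(algebraMap K (Adl K) c * r 0).1 w‖ ^ 2 + ‖(algebraMap K (Adl K) c * r 1).1 w‖ ^ 2)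
        ^ ((w.mult : ℝ) / 2)
      = w c ^ w.mult * (‖(r 0).1 w‖ ^ 2 + ‖(r 1).1 w‖ ^ 2) ^ ((w.mult : ℝ) / 2) := by
  rw [adl_fst_mul753, adl_fst_mul753, norm_mul, norm_mul, infNorm753]
  have ht : (0 : ℝ) ≤ w c := apply_nonneg w c
  have hS : (0 : ℝ) ≤ ‖(r 0).1 w‖ ^ 2 + ‖(r 1).1 w‖ ^ 2 := by positivity
  have e1 : (w c * ‖(r 0).1 w‖) ^ 2 + (w c * ‖(r 1).1 w‖) ^ 2
      = w c ^ 2 * (‖(r 0).1 w‖ ^ 2 + ‖(r 1).1 w‖ ^ 2) := by ring
  rw [e1, Real.mul_rpow (by positivity) hS]
  congr 1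
  rw [← Real.rpow_natCast (w c) 2, ← Real.rpow_mul ht, ← Real.rpow_natCast (w c) w.mult]
  congr 1
  push_cast
  ring

/-- **LEAF SCALE** of `H671/LimSpec.lean`. -/
theorem scaleC753 (K : Type) [Field K] [NumberField K] : ScaleC K := by
  intro g ξ l
  by_cases hξ : ξ = 0
  · rw [hξ, smul_zero]
  have hl : (l : K) ≠ 0 := l.ne_zero
  rw [rowOf_smul671]
  unfold rowNorm
  have hfin : ∀ v : HeightOneSpectrum (𝓞 K),
      max ‖(algebraMap K (Adl K) (l : K) * rowOf ξ g 0).2 v‖
          ‖(algebraMap K (Adl K) (l : K) * rowOf ξ g 1).2 v‖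
        = ‖(algebraMap K (Adl K) (l : K)).2 v‖
          * max ‖(rowOf ξ g 0).2 v‖ ‖(rowOf ξ g 1).2 v‖ := by
    intro v
    rw [adl_snd_mul753, adl_snd_mul753, norm_mul, norm_mul,
      mul_max_of_nonneg _ _ (norm_nonneg _)]
  simp only [hfin, inf_factor_scale753]
  rw [Finset.prod_mul_distrib,
    finprod_mul_distrib (finite_norm_ne_one753 hl) (finite_mulSupport_max753 g ξ hξ)]
  have hp := prod_norm_alg753 (K := K) hl
  calc (∏ w : InfinitePlace K, w (l : K) ^ w.mult)
          * (∏ w : InfinitePlace K,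
              (‖(rowOf ξ g 0).1 w‖ ^ 2 + ‖(rowOf ξ g 1).1 w‖ ^ 2) ^ ((w.mult : ℝ) / 2))
          * ((∏ᶠ v : HeightOneSpectrum (𝓞 K), ‖(algebraMap K (Adl K) (l : K)).2 v‖)
            * ∏ᶠ v : HeightOneSpectrum (𝓞 K), max ‖(rowOf ξ g 0).2 v‖ ‖(rowOf ξ g 1).2 v‖)
      = ((∏ w : InfinitePlace K, w (l : K) ^ w.mult)
          * ∏ᶠ v : HeightOneSpectrum (𝓞 K), ‖(algebraMap K (Adl K) (l : K)).2 v‖)
          * ((∏ w : InfinitePlace K,
              (‖(rowOf ξ g 0).1 w‖ ^ 2 + ‖(rowOf ξ g 1).1 w‖ ^ 2) ^ ((w.mult : ℝ) / 2))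
            * ∏ᶠ v : HeightOneSpectrum (𝓞 K),
                max ‖(rowOf ξ g 0).2 v‖ ‖(rowOf ξ g 1).2 v‖) := by ring
    _ = _ := by rw [hp, one_mul]

end Fermat.Agent.LT.T7.H753

end

end
-- ===== PACK-END LT/T7/H753/UnitsScale.lean

-- ===== PACK-BEGIN LT/T7/H267/SieveId.lean
section


/-!
# Row LT, tower T7, leaf T7.14.3i `H671.SieveIdC` (helper267, OFF-MAIN)

`sieveIdC267 K : Fermat.Agent.LT.T7.H671.SieveIdC K`, verbatim against the byte-identical copy of
`T7/H671/LimSpec.lean` (helper671).  Mathlib + the spec closure only.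

Purely local, place by place.  With `x = r₀_u`, `y = r₁_u`, `m = μ_u`, `p = (ϖ u)_u`:

* the row of `T` at `u ∉ T` is integral iff `‖x‖ ≤ ‖m‖`, `‖y‖ ≤ 1` (`locInt_of_notMem267`);
* the row of `T` at `u ∈ T`, `u ∣ 𝔪`, is integral iff `‖x‖ ≤ ‖m‖`, `‖y‖ ≤ ‖p‖`;
* the row of `T` at `u ∈ T`, `u ∤ 𝔪`, is integral iff `‖x‖ ≤ ‖m‖ ‖p‖`, `‖y‖ ≤ ‖p‖`;
* discreteness (`norm_eq_one_of267`): `‖x‖ ≤ 1` and not `‖x‖ ≤ ‖p‖ = q⁻¹` give `‖x‖ = 1`.
-/

set_option autoImplicit false

open IsDedekindDomain NumberField WithZeroMulInt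
open scoped NNReal

noncomputable section

namespace Fermat.Agent.LT.T7.H671.H267

open Fermat.Agent.LT.H556 Fermat.Agent.LT.H556.A0 Fermat.Agent.LT.T7 Fermat.Agent.LT.T7.H671

section Norm

variable {K : Type} [Field K] [NumberField K] (v : HeightOneSpectrum (𝓞 K))

theorem norm_eq_toNNReal267 (x : v.adicCompletion K) :
    ‖x‖ = ((toNNReal (HeightOneSpectrum.absNorm_ne_zero v) (Valued.v x) : ℝ≥0) : ℝ) :=
  FinitePlace.norm_def v x

theorem norm_le_norm_iff267 (x y : v.adicCompletion K) :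
    ‖x‖ ≤ ‖y‖ ↔ Valued.v x ≤ Valued.v y := by
  rw [norm_eq_toNNReal267, norm_eq_toNNReal267, NNReal.coe_le_coe]
  exact (toNNReal_strictMono (HeightOneSpectrum.one_lt_absNorm_nnreal v)).le_iff_le

theorem norm_le_one_iff267 (x : v.adicCompletion K) : ‖x‖ ≤ 1 ↔ Valued.v x ≤ 1 := by
  have := norm_le_norm_iff267 v x 1
  rwa [norm_one, map_one] at this

theorem mem_int_iff267 (x : v.adicCompletion K) :
    x ∈ v.adicCompletionIntegers K ↔ ‖x‖ ≤ 1 := by
  rw [norm_le_one_iff267, HeightOneSpectrum.mem_adicCompletionIntegers]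

theorem toNNReal_exp_neg_one267 :
    toNNReal (HeightOneSpectrum.absNorm_ne_zero v) (WithZero.exp (-1 : ℤ))
      = ((Ideal.absNorm v.asIdeal : ℕ) : ℝ≥0)⁻¹ := by
  rw [toNNReal_neg_apply _ WithZero.exp_ne_zero, WithZero.toAdd_unzero_eq_log,
    WithZero.log_exp, zpow_neg_one]

theorem valued_eq_of_norm267 (π : v.adicCompletion K)
    (hπ : ‖π‖ = ((Ideal.absNorm v.asIdeal : ℕ) : ℝ)⁻¹) : Valued.v π = WithZero.exp (-1 : ℤ) := by
  apply (toNNReal_strictMono (HeightOneSpectrum.one_lt_absNorm_nnreal v)).injective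
  rw [toNNReal_exp_neg_one267]
  apply NNReal.coe_injective
  rw [← norm_eq_toNNReal267, hπ]
  push_cast
  rfl

/-- Discreteness: an integral element which is not divisible by the uniformiser is a unit. -/
theorem norm_eq_one_of267 (x π : v.adicCompletion K)
    (hπ : ‖π‖ = ((Ideal.absNorm v.asIdeal : ℕ) : ℝ)⁻¹) (h1 : ‖x‖ ≤ 1) (h2 : ¬ ‖x‖ ≤ ‖π‖) :
    ‖x‖ = 1 := by
  rw [norm_le_one_iff267] at h1
  rw [norm_le_norm_iff267, valued_eq_of_norm267 v π hπ] at h2
  have hx0 : Valued.v x ≠ 0 := by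
    intro h0
    rw [h0] at h2
    exact h2 zero_le
  have hv : Valued.v x = 1 := by
    rw [← WithZero.exp_log hx0] at h1 h2 ⊢
    rw [← WithZero.exp_zero, WithZero.exp_le_exp] at h1
    rw [WithZero.exp_le_exp] at h2
    rw [← WithZero.exp_zero, WithZero.exp_inj]
    omega
  apply le_antisymm
  · rw [norm_le_one_iff267, hv]
  · have := (norm_le_norm_iff267 v 1 x).mpr (by rw [map_one, hv])
    rwa [norm_one] at this

end Norm

/-! ## Components of finite ideles -/

section Comp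

variable {K : Type} [Field K] [NumberField K]

/-- The component at `u`, as a monoid homomorphism on the finite ideles. -/
def compHom267 (u : HeightOneSpectrum (𝓞 K)) :
    (FiniteAdeleRing (𝓞 K) K)ˣ →* u.adicCompletion K where
  toFun a := (a : FiniteAdeleRing (𝓞 K) K) u
  map_one' := rfl
  map_mul' _ _ := rfl

theorem compHom267_apply (u : HeightOneSpectrum (𝓞 K)) (a : (FiniteAdeleRing (𝓞 K) K)ˣ) :
    compHom267 u a = (a : FiniteAdeleRing (𝓞 K) K) u := rfl

theorem compHom267_ne_zero (u : HeightOneSpectrum (𝓞 K)) (a : (FiniteAdeleRing (𝓞 K) K)ˣ) :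
    compHom267 u a ≠ 0 := by
  intro h0
  have h1 : compHom267 u a * compHom267 u a⁻¹ = 1 := by
    rw [← map_mul, mul_inv_cancel, map_one]
  rw [h0, zero_mul] at h1
  exact zero_ne_one h1

/-- The components of `eB`. -/
theorem compHom267_eB_of_mem (ϖ : HeightOneSpectrum (𝓞 K) → (FiniteAdeleRing (𝓞 K) K)ˣ)
    (hϖ : IsUnifFamily671 ϖ) (T : Finset (HeightOneSpectrum (𝓞 K)))
    {u : HeightOneSpectrum (𝓞 K)} (hu : u ∈ T) :
    compHom267 u (eB671 ϖ T) = (compHom267 u (ϖ u))⁻¹ := by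
  unfold eB671
  rw [map_prod, Finset.prod_eq_single_of_mem u hu, map_inv]
  intro v _ hvu
  rw [map_inv, compHom267_apply, (hϖ v).2 u (Ne.symm hvu), inv_one]

theorem compHom267_eB_of_notMem (ϖ : HeightOneSpectrum (𝓞 K) → (FiniteAdeleRing (𝓞 K) K)ˣ)
    (hϖ : IsUnifFamily671 ϖ) (T : Finset (HeightOneSpectrum (𝓞 K)))
    {u : HeightOneSpectrum (𝓞 K)} (hu : u ∉ T) :
    compHom267 u (eB671 ϖ T) = 1 := by
  unfold eB671
  rw [map_prod]
  refine Finset.prod_eq_one fun v hv => ?_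
  have hvu : u ≠ v := fun h => hu (h ▸ hv)
  rw [map_inv, compHom267_apply, (hϖ v).2 u hvu, inv_one]

/-- The components of `eA`. -/
theorem compHom267_eA_of_mem (𝔪 : Ideal (𝓞 K)) (μ : (FiniteAdeleRing (𝓞 K) K)ˣ)
    (ϖ : HeightOneSpectrum (𝓞 K) → (FiniteAdeleRing (𝓞 K) K)ˣ)
    (hϖ : IsUnifFamily671 ϖ) (T : Finset (HeightOneSpectrum (𝓞 K)))
    {u : HeightOneSpectrum (𝓞 K)} (hu : u ∈ T) (hum : ¬ u.asIdeal ∣ 𝔪) :
    compHom267 u (eA671 𝔪 μ ϖ T) = (compHom267 u μ)⁻¹ * (compHom267 u (ϖ u))⁻¹ := by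
  classical
  unfold eA671
  have hu' : u ∈ T.filter (fun v => ¬ v.asIdeal ∣ 𝔪) := Finset.mem_filter.mpr ⟨hu, hum⟩
  rw [map_mul, map_inv, map_prod, Finset.prod_eq_single_of_mem u hu', map_inv]
  intro v _ hvu
  rw [map_inv, compHom267_apply, (hϖ v).2 u (Ne.symm hvu), inv_one]

theorem compHom267_eA_of_not (𝔪 : Ideal (𝓞 K)) (μ : (FiniteAdeleRing (𝓞 K) K)ˣ)
    (ϖ : HeightOneSpectrum (𝓞 K) → (FiniteAdeleRing (𝓞 K) K)ˣ)
    (hϖ : IsUnifFamily671 ϖ) (T : Finset (HeightOneSpectrum (𝓞 K)))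
    {u : HeightOneSpectrum (𝓞 K)} (hu : ¬ (u ∈ T ∧ ¬ u.asIdeal ∣ 𝔪)) :
    compHom267 u (eA671 𝔪 μ ϖ T) = (compHom267 u μ)⁻¹ := by
  classical
  unfold eA671
  rw [map_mul, map_inv, map_prod]
  have h1 : ∏ v ∈ T.filter (fun v => ¬ v.asIdeal ∣ 𝔪), compHom267 u (ϖ v)⁻¹ = 1 := by
    refine Finset.prod_eq_one fun v hv => ?_
    have hvu : u ≠ v := by
      rintro rfl
      exact hu ⟨(Finset.mem_filter.mp hv).1, (Finset.mem_filter.mp hv).2⟩
    rw [map_inv, compHom267_apply, (hϖ v).2 u hvu, inv_one]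
  rw [h1, mul_one]

/-- The components of the row `rowDg671 a b r`. -/
theorem rowDg671_zero_apply (a b : (FiniteAdeleRing (𝓞 K) K)ˣ) (r : Fin 2 → Adl K)
    (u : HeightOneSpectrum (𝓞 K)) :
    (rowDg671 a b r 0).2 u = (r 0).2 u * compHom267 u a := rfl

theorem rowDg671_one_apply (a b : (FiniteAdeleRing (𝓞 K) K)ˣ) (r : Fin 2 → Adl K)
    (u : HeightOneSpectrum (𝓞 K)) :
    (rowDg671 a b r 1).2 u = (r 1).2 u * compHom267 u b := rfl

end Comp

/-! ## Local integrality of the sieve rows -/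

section Loc

variable {K : Type} [Field K] [NumberField K]

/-- The row `rowDg671 a b r` is integral at `u`. -/
def LocInt267 (a b : (FiniteAdeleRing (𝓞 K) K)ˣ) (r : Fin 2 → Adl K)
    (u : HeightOneSpectrum (𝓞 K)) : Prop :=
  (r 0).2 u * compHom267 u a ∈ u.adicCompletionIntegers K ∧
    (r 1).2 u * compHom267 u b ∈ u.adicCompletionIntegers K

theorem isIntRow_iff267 (a b : (FiniteAdeleRing (𝓞 K) K)ˣ) (r : Fin 2 → Adl K) :
    IsIntRow671 (rowDg671 a b r) ↔ ∀ u : HeightOneSpectrum (𝓞 K), LocInt267 a b r u := by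
  constructor
  · intro h u
    exact ⟨h u 0, h u 1⟩
  · intro h u j
    fin_cases j
    · exact (h u).1
    · exact (h u).2

theorem mul_inv_mem_iff267 (u : HeightOneSpectrum (𝓞 K)) (x c : u.adicCompletion K)
    (hc : c ≠ 0) : x * c⁻¹ ∈ u.adicCompletionIntegers K ↔ ‖x‖ ≤ ‖c‖ := by
  rw [mem_int_iff267, norm_mul, norm_inv, mul_inv_le_iff₀ (norm_pos_iff.mpr hc), one_mul]

variable (𝔪 : Ideal (𝓞 K)) (μ : (FiniteAdeleRing (𝓞 K) K)ˣ)
  (ϖ : HeightOneSpectrum (𝓞 K) → (FiniteAdeleRing (𝓞 K) K)ˣ) (hϖ : IsUnifFamily671 ϖ)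
  (r : Fin 2 → Adl K)

include hϖ

/-- At `u ∉ T` the row of `T` is the row of `∅`. -/
theorem locInt_of_notMem267 (T : Finset (HeightOneSpectrum (𝓞 K)))
    {u : HeightOneSpectrum (𝓞 K)} (hu : u ∉ T) :
    LocInt267 (eA671 𝔪 μ ϖ T) (eB671 ϖ T) r u ↔
      (‖(r 0).2 u‖ ≤ ‖compHom267 u μ‖ ∧ ‖(r 1).2 u‖ ≤ 1) := by
  unfold LocInt267
  rw [compHom267_eA_of_not 𝔪 μ ϖ hϖ T (fun h => hu h.1), compHom267_eB_of_notMem ϖ hϖ T hu,
    mul_inv_mem_iff267 u _ _ (compHom267_ne_zero u μ), mul_one, mem_int_iff267]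

/-- At `u ∈ T`, `u ∣ 𝔪`. -/
theorem locInt_of_mem_of_dvd267 (T : Finset (HeightOneSpectrum (𝓞 K)))
    {u : HeightOneSpectrum (𝓞 K)} (hu : u ∈ T) (hum : u.asIdeal ∣ 𝔪) :
    LocInt267 (eA671 𝔪 μ ϖ T) (eB671 ϖ T) r u ↔
      (‖(r 0).2 u‖ ≤ ‖compHom267 u μ‖ ∧ ‖(r 1).2 u‖ ≤ ‖compHom267 u (ϖ u)‖) := by
  unfold LocInt267
  rw [compHom267_eA_of_not 𝔪 μ ϖ hϖ T (fun h => h.2 hum), compHom267_eB_of_mem ϖ hϖ T hu,
    mul_inv_mem_iff267 u _ _ (compHom267_ne_zero u μ),
    mul_inv_mem_iff267 u _ _ (compHom267_ne_zero u (ϖ u))]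

/-- At `u ∈ T`, `u ∤ 𝔪`. -/
theorem locInt_of_mem_of_not_dvd267 (T : Finset (HeightOneSpectrum (𝓞 K)))
    {u : HeightOneSpectrum (𝓞 K)} (hu : u ∈ T) (hum : ¬ u.asIdeal ∣ 𝔪) :
    LocInt267 (eA671 𝔪 μ ϖ T) (eB671 ϖ T) r u ↔
      (‖(r 0).2 u‖ ≤ ‖compHom267 u μ‖ * ‖compHom267 u (ϖ u)‖ ∧
        ‖(r 1).2 u‖ ≤ ‖compHom267 u (ϖ u)‖) := by
  unfold LocInt267
  rw [compHom267_eA_of_mem 𝔪 μ ϖ hϖ T hu hum, compHom267_eB_of_mem ϖ hϖ T hu, ← mul_inv,
    mul_inv_mem_iff267 u _ _ (mul_ne_zero (compHom267_ne_zero u μ) (compHom267_ne_zero u (ϖ u))),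
    mul_inv_mem_iff267 u _ _ (compHom267_ne_zero u (ϖ u)), norm_mul]

theorem norm_unif_le_one267 (u : HeightOneSpectrum (𝓞 K)) : ‖compHom267 u (ϖ u)‖ ≤ 1 := by
  rw [compHom267_apply, (hϖ u).1]
  apply inv_le_one_of_one_le₀
  have := HeightOneSpectrum.one_lt_absNorm u
  exact_mod_cast this.le

/-- At `u ∈ T` the row of `T` is the row of `{u}`. -/
theorem locInt_of_mem267 (T : Finset (HeightOneSpectrum (𝓞 K)))
    {u : HeightOneSpectrum (𝓞 K)} (hu : u ∈ T) :
    LocInt267 (eA671 𝔪 μ ϖ T) (eB671 ϖ T) r u ↔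
      LocInt267 (eA671 𝔪 μ ϖ {u}) (eB671 ϖ {u}) r u := by
  by_cases hum : u.asIdeal ∣ 𝔪
  · rw [locInt_of_mem_of_dvd267 𝔪 μ ϖ hϖ r T hu hum,
      locInt_of_mem_of_dvd267 𝔪 μ ϖ hϖ r {u} (Finset.mem_singleton_self u) hum]
  · rw [locInt_of_mem_of_not_dvd267 𝔪 μ ϖ hϖ r T hu hum,
      locInt_of_mem_of_not_dvd267 𝔪 μ ϖ hϖ r {u} (Finset.mem_singleton_self u) hum]

/-- Integral for `{u}` at `u` implies integral for `∅` at `u`. -/
theorem locInt_empty_of_single267 (u : HeightOneSpectrum (𝓞 K))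
    (h : LocInt267 (eA671 𝔪 μ ϖ {u}) (eB671 ϖ {u}) r u) :
    LocInt267 (eA671 𝔪 μ ϖ ∅) (eB671 ϖ ∅) r u := by
  rw [locInt_of_notMem267 𝔪 μ ϖ hϖ r ∅ (Finset.notMem_empty u)]
  have hp := norm_unif_le_one267 ϖ hϖ u
  by_cases hum : u.asIdeal ∣ 𝔪
  · rw [locInt_of_mem_of_dvd267 𝔪 μ ϖ hϖ r {u} (Finset.mem_singleton_self u) hum] at h
    exact ⟨h.1, h.2.trans hp⟩
  · rw [locInt_of_mem_of_not_dvd267 𝔪 μ ϖ hϖ r {u} (Finset.mem_singleton_self u) hum] at h
    refine ⟨h.1.trans ?_, h.2.trans hp⟩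
    exact mul_le_of_le_one_right (norm_nonneg _) hp

/-- **Part (2)**: integrality for `T`. -/
theorem isIntRow_T_iff267 (T : Finset (HeightOneSpectrum (𝓞 K))) :
    IsIntRow671 (rowDg671 (eA671 𝔪 μ ϖ T) (eB671 ϖ T) r) ↔
      IsIntRow671 (rowDg671 (eA671 𝔪 μ ϖ ∅) (eB671 ϖ ∅) r) ∧
        ∀ v ∈ T, IsIntRow671 (rowDg671 (eA671 𝔪 μ ϖ {v}) (eB671 ϖ {v}) r) := by
  simp only [isIntRow_iff267]
  constructor
  · intro h
    have h0 : ∀ u : HeightOneSpectrum (𝓞 K), LocInt267 (eA671 𝔪 μ ϖ ∅) (eB671 ϖ ∅) r u := by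
      intro u
      by_cases hu : u ∈ T
      · exact locInt_empty_of_single267 𝔪 μ ϖ hϖ r u
          ((locInt_of_mem267 𝔪 μ ϖ hϖ r T hu).mp (h u))
      · rw [locInt_of_notMem267 𝔪 μ ϖ hϖ r ∅ (Finset.notMem_empty u),
          ← locInt_of_notMem267 𝔪 μ ϖ hϖ r T hu]
        exact h u
    refine ⟨h0, fun v hv u => ?_⟩
    by_cases huv : u = v
    · subst huv
      exact (locInt_of_mem267 𝔪 μ ϖ hϖ r T hv).mp (h u)
    · have hu : u ∉ ({v} : Finset (HeightOneSpectrum (𝓞 K))) := by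
        rw [Finset.mem_singleton]
        exact huv
      rw [locInt_of_notMem267 𝔪 μ ϖ hϖ r {v} hu,
        ← locInt_of_notMem267 𝔪 μ ϖ hϖ r ∅ (Finset.notMem_empty u)]
      exact h0 u
  · rintro ⟨h0, hT⟩ u
    by_cases hu : u ∈ T
    · exact (locInt_of_mem267 𝔪 μ ϖ hϖ r T hu).mpr (hT u hu u)
    · rw [locInt_of_notMem267 𝔪 μ ϖ hϖ r T hu,
        ← locInt_of_notMem267 𝔪 μ ϖ hϖ r ∅ (Finset.notMem_empty u)]
      exact h0 u

end Loc

/-! ## Primitive and congruent rows -/

section Prim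

variable {K : Type} [Field K] [NumberField K]

variable (𝔪 : Ideal (𝓞 K)) (μ : (FiniteAdeleRing (𝓞 K) K)ˣ)
  (ϖ : HeightOneSpectrum (𝓞 K) → (FiniteAdeleRing (𝓞 K) K)ˣ) (hμ : IsLevelIdele671 𝔪 μ)
  (hϖ : IsUnifFamily671 ϖ) (r : Fin 2 → Adl K)

include hϖ in
theorem norm_unif_lt_one267 (u : HeightOneSpectrum (𝓞 K)) : ‖compHom267 u (ϖ u)‖ < 1 := by
  rw [compHom267_apply, (hϖ u).1]
  apply inv_lt_one_of_one_lt₀
  have := HeightOneSpectrum.one_lt_absNorm u
  exact_mod_cast this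

include hμ hϖ

/-- **Part (1)**: the primitive congruent rows. -/
theorem prim_cong_iff267 :
    (IsPrimRow671 r ∧ Cong671 𝔪 r) ↔
      IsIntRow671 (rowDg671 (eA671 𝔪 μ ϖ ∅) (eB671 ϖ ∅) r) ∧
        ∀ v : HeightOneSpectrum (𝓞 K),
          ¬ IsIntRow671 (rowDg671 (eA671 𝔪 μ ϖ {v}) (eB671 ϖ {v}) r) := by
  simp only [isIntRow_iff267]
  have hm1 : ∀ u : HeightOneSpectrum (𝓞 K), u.asIdeal ∣ 𝔪 → ‖compHom267 u μ‖ < 1 :=
    fun u hu => hμ.2.1 u hu
  have hm0 : ∀ u : HeightOneSpectrum (𝓞 K), ¬ u.asIdeal ∣ 𝔪 → compHom267 u μ = 1 :=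
    fun u hu => hμ.2.2.1 u hu
  have hcl : ∀ (u : HeightOneSpectrum (𝓞 K)) (t : u.adicCompletion K),
      t ∈ idealClosure 𝔪 u ↔ ‖t‖ ≤ ‖compHom267 u μ‖ := by
    intro u t
    rw [hμ.1 u]
    exact Iff.rfl
  constructor
  · rintro ⟨hprim, hcong⟩
    have hloc : ∀ u : HeightOneSpectrum (𝓞 K), ‖(r 0).2 u‖ ≤ ‖compHom267 u μ‖ ∧
        ‖(r 1).2 u‖ ≤ 1 ∧ (u.asIdeal ∣ 𝔪 → ‖(r 1).2 u‖ = 1) := by
      intro u
      have hmax : max ‖(r 0).2 u‖ ‖(r 1).2 u‖ = 1 := hprim u
      have hx1 : ‖(r 0).2 u‖ ≤ 1 := hmax ▸ le_max_left _ _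
      have hy1 : ‖(r 1).2 u‖ ≤ 1 := hmax ▸ le_max_right _ _
      by_cases hum : u.asIdeal ∣ 𝔪
      · obtain ⟨t, ht, hxt⟩ := hcong u hum
        have htm : ‖t‖ ≤ ‖compHom267 u μ‖ := (hcl u t).mp ht
        have hx : ‖(r 0).2 u‖ ≤ ‖compHom267 u μ‖ := by
          rw [hxt, norm_mul]
          calc ‖t‖ * ‖(r 1).2 u‖ ≤ ‖compHom267 u μ‖ * 1 :=
                mul_le_mul htm hy1 (norm_nonneg _) (norm_nonneg _)
            _ = ‖compHom267 u μ‖ := mul_one _
        refine ⟨hx, hy1, fun _ => ?_⟩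
        rcases max_choice ‖(r 0).2 u‖ ‖(r 1).2 u‖ with h | h
        · rw [h] at hmax
          have := hm1 u hum
          linarith
        · rw [h] at hmax
          exact hmax
      · refine ⟨?_, hy1, fun h => absurd h hum⟩
        rw [hm0 u hum, norm_one]
        exact hx1
    refine ⟨fun u => (locInt_of_notMem267 𝔪 μ ϖ hϖ r ∅ (Finset.notMem_empty u)).mpr
      ⟨(hloc u).1, (hloc u).2.1⟩, fun v hv => ?_⟩
    have hv' := hv v
    have hp := norm_unif_lt_one267 ϖ hϖ v
    by_cases hvm : v.asIdeal ∣ 𝔪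
    · rw [locInt_of_mem_of_dvd267 𝔪 μ ϖ hϖ r {v} (Finset.mem_singleton_self v) hvm] at hv'
      have := (hloc v).2.2 hvm
      linarith [hv'.2]
    · rw [locInt_of_mem_of_not_dvd267 𝔪 μ ϖ hϖ r {v} (Finset.mem_singleton_self v) hvm,
        hm0 v hvm, norm_one, one_mul] at hv'
      have hmax : max ‖(r 0).2 v‖ ‖(r 1).2 v‖ = 1 := hprim v
      have : max ‖(r 0).2 v‖ ‖(r 1).2 v‖ ≤ ‖compHom267 v (ϖ v)‖ := max_le hv'.1 hv'.2
      linarith
  · rintro ⟨h0, hno⟩
    have hE : ∀ u : HeightOneSpectrum (𝓞 K),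
        ‖(r 0).2 u‖ ≤ ‖compHom267 u μ‖ ∧ ‖(r 1).2 u‖ ≤ 1 :=
      fun u => (locInt_of_notMem267 𝔪 μ ϖ hϖ r ∅ (Finset.notMem_empty u)).mp (h0 u)
    have hnot : ∀ v : HeightOneSpectrum (𝓞 K),
        ¬ LocInt267 (eA671 𝔪 μ ϖ {v}) (eB671 ϖ {v}) r v := by
      intro v hv
      apply hno v
      intro u
      by_cases huv : u = v
      · subst huv
        exact hv
      · have hu : u ∉ ({v} : Finset (HeightOneSpectrum (𝓞 K))) := by
          rw [Finset.mem_singleton]
          exact huv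
        rw [locInt_of_notMem267 𝔪 μ ϖ hϖ r {v} hu]
        exact hE u
    have hunif : ∀ v : HeightOneSpectrum (𝓞 K),
        ‖compHom267 v (ϖ v)‖ = ((Ideal.absNorm v.asIdeal : ℕ) : ℝ)⁻¹ := fun v => (hϖ v).1
    constructor
    · intro v
      show max ‖(r 0).2 v‖ ‖(r 1).2 v‖ = 1
      have hn := hnot v
      by_cases hvm : v.asIdeal ∣ 𝔪
      · rw [locInt_of_mem_of_dvd267 𝔪 μ ϖ hϖ r {v} (Finset.mem_singleton_self v) hvm] at hn
        have hy : ‖(r 1).2 v‖ = 1 :=
          norm_eq_one_of267 v _ _ (hunif v) (hE v).2 (fun h => hn ⟨(hE v).1, h⟩)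
        rw [hy]
        exact max_eq_right ((hE v).1.trans (hm1 v hvm).le)
      · rw [locInt_of_mem_of_not_dvd267 𝔪 μ ϖ hϖ r {v} (Finset.mem_singleton_self v) hvm,
          hm0 v hvm, norm_one, one_mul] at hn
        have hx1 : ‖(r 0).2 v‖ ≤ 1 := by
          have := (hE v).1
          rwa [hm0 v hvm, norm_one] at this
        by_cases hx : ‖(r 0).2 v‖ ≤ ‖compHom267 v (ϖ v)‖
        · have hy : ‖(r 1).2 v‖ = 1 :=
            norm_eq_one_of267 v _ _ (hunif v) (hE v).2 (fun h => hn ⟨hx, h⟩)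
          rw [hy]
          exact max_eq_right hx1
        · have hx' : ‖(r 0).2 v‖ = 1 := norm_eq_one_of267 v _ _ (hunif v) hx1 hx
          rw [hx']
          exact max_eq_left (hE v).2
    · intro v hvm
      have hn := hnot v
      rw [locInt_of_mem_of_dvd267 𝔪 μ ϖ hϖ r {v} (Finset.mem_singleton_self v) hvm] at hn
      have hy : ‖(r 1).2 v‖ = 1 :=
        norm_eq_one_of267 v _ _ (hunif v) (hE v).2 (fun h => hn ⟨(hE v).1, h⟩)
      have hy0 : (r 1).2 v ≠ 0 := by
        intro h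
        rw [h, norm_zero] at hy
        exact zero_ne_one hy
      refine ⟨(r 0).2 v / (r 1).2 v, ?_, ?_⟩
      · rw [hcl, norm_div, hy, div_one]
        exact (hE v).1
      · rw [div_mul_cancel₀ _ hy0]

end Prim

/-! ## The leaf -/

/-- **LEAF SIEVE-ID**, proved. -/
theorem sieveIdC267 (K : Type) [Field K] [NumberField K] : SieveIdC K := by
  intro 𝔪 _ μ ϖ hμ hϖ r
  exact ⟨prim_cong_iff267 𝔪 μ ϖ hμ hϖ r, fun T => isIntRow_T_iff267 𝔪 μ ϖ hϖ r T⟩

end Fermat.Agent.LT.T7.H671.H267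

end

end
-- ===== PACK-END LT/T7/H267/SieveId.lean

-- ===== PACK-BEGIN LT/T7/H941/LocLevel.lean
section






/-!
# Row LT, tower T7, node T7.14.6b.1 `LocC` (helper941, spare) -- part 1: levels and cells

OFF-MAIN.  Ideal-theoretic bookkeeping for the localisation at `S`:

* `idealClosure_mul_pow941`: `(𝔪 v'^k) 𝒪_v = 𝔪 𝒪_v` for `v ≠ v'`;
* `scale_ideal941`, `isLevel_rt_tor941`: the level of a right translate by a torus element, with
  an IDEAL `𝔞` (prime factors under control) instead of a principal ideal;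
* `exists_scale_ideal941`: `𝔞 = (∏_{v ∈ S} v)^k` works for an idele supported in `S`;
* `inOrbit_congr941`, `inCell_of_orbit941`, `orbit_of_inCell941`: the cells of `RigidStrip.lean`
  and the orbits of `SmoSpec.lean`.
-/

set_option autoImplicit false
set_option linter.unusedSectionVars false
set_option linter.unusedVariables false
set_option linter.style.haveILetI false

open IsDedekindDomain NumberField IsDedekindDomain.HeightOneSpectrum
open Fermat.Agent.LT.H556 Fermat.Agent.LT.H556.A0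

noncomputable section

namespace Fermat.Agent.LT.T7.H941

open Fermat.Agent.LT Fermat.Agent.LT.T2.H941 Fermat.Agent.LT.T2.H23 Fermat.Agent.LT.T2
open Fermat.Agent.LT.T7

variable {K : Type} [Field K] [NumberField K]

/-! ## 1. The closure of an ideal -/

theorem add_mem_idealClosure941 {𝔫 : Ideal (𝓞 K)} {v : HeightOneSpectrum (𝓞 K)}
    {x y : v.adicCompletion K} (hx : x ∈ idealClosure 𝔫 v) (hy : y ∈ idealClosure 𝔫 v) :
    x + y ∈ idealClosure 𝔫 v := by
  let f : 𝓞 K →+ v.adicCompletion K :=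
    ((algebraMap K (v.adicCompletion K)).comp (algebraMap (𝓞 K) K)).toAddMonoidHom
  let H : AddSubgroup (v.adicCompletion K) := AddSubgroup.map f 𝔫.toAddSubgroup
  have e : idealClosure 𝔫 v = (H.topologicalClosure : Set (v.adicCompletion K)) := by
    rw [AddSubgroup.topologicalClosure_coe]
    rfl
  rw [e] at hx hy ⊢
  exact H.topologicalClosure.add_mem hx hy

/-- `(𝔪 a^k) 𝒪_v = 𝔪 𝒪_v` for `v ≠ a`. -/
theorem idealClosure_mul_pow941 (𝔪 : Ideal (𝓞 K)) {a v : HeightOneSpectrum (𝓞 K)} (h : v ≠ a)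
    (k : ℕ) : idealClosure (𝔪 * a.asIdeal ^ k) v = idealClosure 𝔪 v := by
  apply Set.Subset.antisymm
  · exact idealClosure_mono23 Ideal.mul_le_left v
  · obtain ⟨p, hpa, hpv⟩ := exists_notMem23 (v := a) (v₀ := v) (Ne.symm h)
    have hpk : p ^ k ∉ v.asIdeal := fun hmem => hpv (v.isPrime.mem_of_pow_mem k hmem)
    have htv : Valued.v (((algebraMap (𝓞 K) K (p ^ k) : K) : v.adicCompletion K)) = 1 := by
      rw [val_int23]
      exact (intValuation_eq_one_iff).mpr hpk
    have ht0 : (((algebraMap (𝓞 K) K (p ^ k) : K) : v.adicCompletion K)) ≠ 0 := by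
      intro h0
      rw [h0, map_zero] at htv
      exact zero_ne_one htv
    refine closure_minimal ?_ isClosed_closure
    rintro _ ⟨n, hn, rfl⟩
    have hnt : p ^ k * n ∈ 𝔪 * a.asIdeal ^ k := by
      have h1 : n * p ^ k ∈ 𝔪 * a.asIdeal ^ k :=
        Ideal.mul_mem_mul hn (Ideal.pow_mem_pow hpa k)
      rwa [mul_comm n (p ^ k)] at h1
    have hc : Valued.v ((((algebraMap (𝓞 K) K (p ^ k) : K) : v.adicCompletion K))⁻¹) ≤ 1 := by
      rw [map_inv₀, htv, inv_one]
    have hmem := mul_mem_idealClosure23 (v := v) hc hnt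
    have e : ((((algebraMap (𝓞 K) K (p ^ k) : K) : v.adicCompletion K))⁻¹)
        * ((algebraMap (𝓞 K) K (p ^ k * n) : K) : v.adicCompletion K)
        = algebraMap K (v.adicCompletion K) (algebraMap (𝓞 K) K n) := by
      have e1 : ((algebraMap (𝓞 K) K (p ^ k * n) : K) : v.adicCompletion K)
          = ((algebraMap (𝓞 K) K (p ^ k) : K) : v.adicCompletion K)
            * algebraMap K (v.adicCompletion K) (algebraMap (𝓞 K) K n) := by
        show algebraMap K (v.adicCompletion K) (algebraMap (𝓞 K) K (p ^ k * n))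
          = algebraMap K (v.adicCompletion K) (algebraMap (𝓞 K) K (p ^ k))
            * algebraMap K (v.adicCompletion K) (algebraMap (𝓞 K) K n)
        rw [map_mul, map_mul]
      rw [e1, ← mul_assoc, inv_mul_cancel₀ ht0, one_mul]
    rw [e] at hmem
    exact hmem

/-- The ideal version of `scale_mem_idealClosure23`. -/
theorem scale_ideal941 {𝔞 𝔫 : Ideal (𝓞 K)} {v : HeightOneSpectrum (𝓞 K)}
    {τ : v.adicCompletion K}
    (hτ : ∀ a ∈ 𝔞, Valued.v (τ * ((algebraMap (𝓞 K) K a : K) : v.adicCompletion K)) ≤ 1)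
    {x : v.adicCompletion K} (hx : x ∈ idealClosure (𝔞 * 𝔫) v) :
    τ * x ∈ idealClosure 𝔫 v := by
  have hcl : IsClosed {x : v.adicCompletion K | τ * x ∈ idealClosure 𝔫 v} :=
    (isClosed_closure (s := _)).preimage (continuous_const_mul τ)
  refine closure_minimal ?_ hcl hx
  rintro _ ⟨m, hm, rfl⟩
  show τ * algebraMap K (v.adicCompletion K) (algebraMap (𝓞 K) K m) ∈ idealClosure 𝔫 v
  refine Submodule.mul_induction_on hm ?_ ?_
  · intro a ha n hn
    have e : τ * algebraMap K (v.adicCompletion K) (algebraMap (𝓞 K) K (a * n))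
        = (τ * ((algebraMap (𝓞 K) K a : K) : v.adicCompletion K))
          * ((algebraMap (𝓞 K) K n : K) : v.adicCompletion K) := by
      show τ * algebraMap K (v.adicCompletion K) (algebraMap (𝓞 K) K (a * n))
        = (τ * algebraMap K (v.adicCompletion K) (algebraMap (𝓞 K) K a))
          * algebraMap K (v.adicCompletion K) (algebraMap (𝓞 K) K n)
      rw [map_mul, map_mul]
      ring
    rw [e]
    exact mul_mem_idealClosure23 (hτ a ha) hn
  · intro x y hx hy
    have e : τ * algebraMap K (v.adicCompletion K) (algebraMap (𝓞 K) K (x + y))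
        = τ * algebraMap K (v.adicCompletion K) (algebraMap (𝓞 K) K x)
          + τ * algebraMap K (v.adicCompletion K) (algebraMap (𝓞 K) K y) := by
      rw [map_add, map_add]
      ring
    rw [e]
    exact add_mem_idealClosure941 hx hy

/-! ## 2. The level of a right translate by a torus element -/

theorem conj_entries941 {𝔞 𝔫 : Ideal (𝓞 K)} (τ : (Adl K)ˣ)
    (h1 : ∀ v : HeightOneSpectrum (𝓞 K), ∀ a ∈ 𝔞,
      Valued.v ((τ : Adl K).2 v * ((algebraMap (𝓞 K) K a : K) : v.adicCompletion K)) ≤ 1)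
    (h2 : ∀ v : HeightOneSpectrum (𝓞 K), ∀ a ∈ 𝔞,
      Valued.v (((τ⁻¹ : (Adl K)ˣ) : Adl K).2 v
        * ((algebraMap (𝓞 K) K a : K) : v.adicCompletion K)) ≤ 1)
    (u : G K) (v : HeightOneSpectrum (𝓞 K))
    (hu : ∀ i j : Fin 2, (finComp v u - 1) i j ∈ idealClosure (𝔞 * 𝔫) v)
    (i j : Fin 2) :
    (finComp v ((tor τ)⁻¹ * u * tor τ) - 1) i j ∈ idealClosure 𝔫 v := by
  have hle : 𝔞 * 𝔫 ≤ 𝔫 := Ideal.mul_le_right
  have hba : ((τ⁻¹ : (Adl K)ˣ) : Adl K).2 v * (τ : Adl K).2 v = 1 := by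
    rw [← A2.H743.snd_mul743, Units.inv_mul, A2.H743.snd_one743]
  rw [H333.finComp_mul333, H333.finComp_mul333, ← tor_inv23, finComp_tor23, finComp_tor23]
  set U := finComp v u with hU
  set a := (τ : Adl K).2 v with ha
  set b := ((τ⁻¹ : (Adl K)ˣ) : Adl K).2 v with hb
  have m00 := idealClosure_mono23 hle v (hu 0 0)
  have m01 := scale_ideal941 (h2 v) (hu 0 1)
  have m10 := scale_ideal941 (h1 v) (hu 1 0)
  have m11 := idealClosure_mono23 hle v (hu 1 1)
  rw [conj_diag23 a b hba U]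
  fin_cases i <;> fin_cases j
  · exact m00
  · exact m01
  · exact m10
  · exact m11

theorem isLevel_rt_tor941 {𝔞 𝔫 : Ideal (𝓞 K)} (τ : (Adl K)ˣ)
    (hI : ∀ w : InfinitePlace K, cI23 w τ = 1)
    (h1 : ∀ v : HeightOneSpectrum (𝓞 K), ∀ a ∈ 𝔞,
      Valued.v ((τ : Adl K).2 v * ((algebraMap (𝓞 K) K a : K) : v.adicCompletion K)) ≤ 1)
    (h2 : ∀ v : HeightOneSpectrum (𝓞 K), ∀ a ∈ 𝔞,
      Valued.v (((τ⁻¹ : (Adl K)ˣ) : Adl K).2 v
        * ((algebraMap (𝓞 K) K a : K) : v.adicCompletion K)) ≤ 1)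
    {f : G K → ℂ} (hf : IsLevel 𝔫 f) : IsLevel (𝔞 * 𝔫) (rt (tor τ) f) := by
  intro u hu g
  show f (g * u * tor τ) = f (g * tor τ)
  have e : g * u * tor τ = g * tor τ * ((tor τ)⁻¹ * u * tor τ) := by group
  rw [e]
  apply hf
  refine ⟨fun w => ?_, fun v i j => ⟨?_, ?_⟩⟩
  · exact trivAtInf_mul23 (trivAtInf_mul23 (trivAtInf_inv23 (trivAtInf_tor23 (hI w))) (hu.1 w))
      (trivAtInf_tor23 (hI w))
  · exact conj_entries941 τ h1 h2 u v (fun i j => (hu.2 v i j).1) i j
  · have e2 : ((tor τ)⁻¹ * u * tor τ)⁻¹ = (tor τ)⁻¹ * u⁻¹ * tor τ := by group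
    rw [e2]
    exact conj_entries941 τ h1 h2 u⁻¹ v (fun i j => (hu.2 v i j).2) i j

/-- For an idele supported in `S` the ideal `(∏_{v ∈ S} v)^k` scales `τ` and `τ⁻¹` into the
integers, for a suitable `k`. -/
theorem exists_scale_ideal941 (S : Finset (HeightOneSpectrum (𝓞 K))) (τ : (Adl K)ˣ)
    (hτ : ∀ v : HeightOneSpectrum (𝓞 K), v ∉ S → cF23 v τ = 1) :
    ∃ k : ℕ,
      (∀ v : HeightOneSpectrum (𝓞 K), ∀ a ∈ (∏ v ∈ S, v.asIdeal) ^ k,
        Valued.v ((τ : Adl K).2 v * ((algebraMap (𝓞 K) K a : K) : v.adicCompletion K)) ≤ 1) ∧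
      ∀ v : HeightOneSpectrum (𝓞 K), ∀ a ∈ (∏ v ∈ S, v.asIdeal) ^ k,
        Valued.v (((τ⁻¹ : (Adl K)ˣ) : Adl K).2 v
          * ((algebraMap (𝓞 K) K a : K) : v.adicCompletion K)) ≤ 1 := by
  classical
  set k : ℕ := ∑ v ∈ S, (WithZero.log (Valued.v ((τ : Adl K).2 v))).natAbs with hk
  have hle : ∀ v ∈ S, (∏ v ∈ S, v.asIdeal) ^ k ≤ v.asIdeal ^ k := fun v hv =>
    Ideal.pow_right_mono (Ideal.le_of_dvd (Finset.dvd_prod_of_mem _ hv)) k
  have hNv : ∀ v ∈ S, ∀ a ∈ (∏ v ∈ S, v.asIdeal) ^ k,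
      Valued.v (((algebraMap (𝓞 K) K a : K) : v.adicCompletion K))
        ≤ WithZero.exp (-(k : ℤ)) := by
    intro v hv a ha
    rw [val_int23, intValuation_le_pow_iff_mem]
    exact hle v hv ha
  have hN1 : ∀ (v : HeightOneSpectrum (𝓞 K)) (a : 𝓞 K),
      Valued.v (((algebraMap (𝓞 K) K a : K) : v.adicCompletion K)) ≤ 1 := by
    intro v a
    rw [val_int23]
    exact intValuation_le_one v _
  have hkv : ∀ v ∈ S, (WithZero.log (Valued.v ((τ : Adl K).2 v))).natAbs ≤ k := fun v hv =>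
    Finset.single_le_sum (f := fun v => (WithZero.log (Valued.v ((τ : Adl K).2 v))).natAbs)
      (fun _ _ => Nat.zero_le _) hv
  have hτ0 : ∀ v : HeightOneSpectrum (𝓞 K), Valued.v ((τ : Adl K).2 v) ≠ 0 := fun v =>
    (Valuation.ne_zero_iff _).2 (A2.H743.idele_snd_ne_zero743 τ v)
  have hb1 : ∀ v ∈ S, Valued.v ((τ : Adl K).2 v) ≤ WithZero.exp (k : ℤ) := by
    intro v hv
    rw [← WithZero.exp_log (hτ0 v), WithZero.exp_le_exp]
    have := hkv v hv
    omega
  have hb2 : ∀ v ∈ S, Valued.v (((τ⁻¹ : (Adl K)ˣ) : Adl K).2 v) ≤ WithZero.exp (k : ℤ) := by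
    intro v hv
    have e := val_cF23_mul_inv23 v τ
    have e2 : Valued.v (((τ⁻¹ : (Adl K)ˣ) : Adl K).2 v) = (Valued.v ((τ : Adl K).2 v))⁻¹ :=
      eq_inv_of_mul_eq_one_right e
    rw [e2, ← WithZero.exp_log (hτ0 v), ← WithZero.exp_neg, WithZero.exp_le_exp]
    have := hkv v hv
    omega
  have hfin : ∀ (x : ∀ v : HeightOneSpectrum (𝓞 K), v.adicCompletion K),
      (∀ v ∈ S, Valued.v (x v) ≤ WithZero.exp (k : ℤ)) → (∀ v ∉ S, x v = 1) →
      ∀ v : HeightOneSpectrum (𝓞 K), ∀ a ∈ (∏ v ∈ S, v.asIdeal) ^ k,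
        Valued.v (x v * ((algebraMap (𝓞 K) K a : K) : v.adicCompletion K)) ≤ 1 := by
    intro x hx1 hx2 v a ha
    by_cases hv : v ∈ S
    · rw [map_mul]
      calc Valued.v (x v) * Valued.v (((algebraMap (𝓞 K) K a : K) : v.adicCompletion K))
          ≤ WithZero.exp (k : ℤ) * WithZero.exp (-(k : ℤ)) :=
            mul_le_mul' (hx1 v hv) (hNv v hv a ha)
        _ = 1 := by rw [← WithZero.exp_add, add_neg_cancel, WithZero.exp_zero]
    · rw [hx2 v hv, one_mul]
      exact hN1 v a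
  refine ⟨k, ?_, ?_⟩
  · exact hfin (fun v => (τ : Adl K).2 v) hb1 (fun v hv => (cF23_eq_one_iff23 v τ).mp (hτ v hv))
  · refine hfin (fun v => ((τ⁻¹ : (Adl K)ˣ) : Adl K).2 v) hb2 (fun v hv => ?_)
    have := hτ v hv
    rw [← cF23_eq_one_iff23, map_inv, this, inv_one]

/-! ## 3. Orbits and cells -/

/-- `InOrbit` depends on the components at `v` and on the closure of the ideal at `v` only. -/
theorem inOrbit_congr941 {𝔪 𝔪' : Ideal (𝓞 K)} {v : HeightOneSpectrum (𝓞 K)}
    {y y' y₀ y₀' : (Adl K)ˣ} (hy : cF23 v y = cF23 v y') (hy₀ : cF23 v y₀ = cF23 v y₀')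
    (hc : idealClosure 𝔪 v = idealClosure 𝔪' v) :
    InOrbit 𝔪 v y y₀ ↔ InOrbit 𝔪' v y' y₀' := by
  unfold InOrbit
  have e1 : ((y * y₀⁻¹ : (Adl K)ˣ) : Adl K).2 v = ((y' * y₀'⁻¹ : (Adl K)ˣ) : Adl K).2 v := by
    rw [← cF23_val23, ← cF23_val23, map_mul, map_mul, map_inv, map_inv, hy, hy₀]
  have e2 : ((y₀ * y⁻¹ : (Adl K)ˣ) : Adl K).2 v = ((y₀' * y'⁻¹ : (Adl K)ˣ) : Adl K).2 v := by
    rw [← cF23_val23, ← cF23_val23, map_mul, map_mul, map_inv, map_inv, hy, hy₀]
  rw [e1, e2, hc]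

theorem comp_mul_inv941 (v : HeightOneSpectrum (𝓞 K)) (y y₀ : (Adl K)ˣ) :
    ((y * y₀⁻¹ : (Adl K)ˣ) : Adl K).2 v * (y₀ : Adl K).2 v = (y : Adl K).2 v := by
  rw [← cF23_val23, ← cF23_val23, ← cF23_val23, ← Units.val_mul, ← map_mul, inv_mul_cancel_right]

/-- An orbit lies in the cell. -/
theorem inCell_of_orbit941 {S : Finset (HeightOneSpectrum (𝓞 K))} {𝔠 : Ideal (𝓞 K)}
    {y₀ y : (Adl K)ˣ} (h : ∀ v ∈ S, InOrbit 𝔠 v y y₀) : Rigid.InCell S 𝔠 y₀ y := by
  intro v hv
  refine ⟨_, (h v hv).1, ?_⟩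
  have e := comp_mul_inv941 v y y₀
  rw [mul_add, mul_one, mul_sub, mul_one, mul_comm, e]
  ring

/-- The cell lies in the orbit, at the places dividing the ideal. -/
theorem orbit_of_inCell941 {S : Finset (HeightOneSpectrum (𝓞 K))} {𝔠 : Ideal (𝓞 K)}
    (h𝔠 : 𝔠 ≠ ⊥) (hS : ∀ v ∈ S, v.asIdeal ∣ 𝔠)
    {y₀ y : (Adl K)ˣ} (h : Rigid.InCell S 𝔠 y₀ y) : ∀ v ∈ S, InOrbit 𝔠 v y y₀ := by
  intro v hv
  obtain ⟨u, hu, hyu⟩ := h v hv
  obtain ⟨e, hC, -, he1, -⟩ := T2.H557.idealClosure_ball557 𝔠 h𝔠 v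
  have he : 1 ≤ e := he1 (hS v hv)
  have hu' : Valued.v u ≤ WithZero.exp (-(e : ℤ)) := (hC u).1 hu
  have hult : Valued.v u < 1 := by
    refine lt_of_le_of_lt hu' ?_
    rw [← WithZero.exp_zero, WithZero.exp_lt_exp]
    omega
  have h1u : Valued.v (1 + u) = 1 := by
    have := Valuation.map_one_add_of_lt (v := (Valued.v : Valuation (v.adicCompletion K) _)) hult
    exact this
  have h1u0 : (1 : v.adicCompletion K) + u ≠ 0 := by
    intro h0
    rw [h0, map_zero] at h1u
    exact zero_ne_one h1u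
  have hy₀0 : (y₀ : Adl K).2 v ≠ 0 := A2.H743.idele_snd_ne_zero743 y₀ v
  have hy0 : (y : Adl K).2 v ≠ 0 := A2.H743.idele_snd_ne_zero743 y v
  have q1 : ((y * y₀⁻¹ : (Adl K)ˣ) : Adl K).2 v = 1 + u := by
    have e1 := comp_mul_inv941 v y y₀
    rw [hyu, mul_comm ((y₀ : Adl K).2 v)] at e1
    exact mul_right_cancel₀ hy₀0 e1
  have q2 : ((y₀ * y⁻¹ : (Adl K)ˣ) : Adl K).2 v = (1 + u)⁻¹ := by
    have e1 := comp_mul_inv941 v y₀ y
    rw [hyu] at e1
    have e2 : ((y₀ * y⁻¹ : (Adl K)ˣ) : Adl K).2 v * (1 + u) = 1 := by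
      have e3 : ((y₀ * y⁻¹ : (Adl K)ˣ) : Adl K).2 v * (1 + u) * (y₀ : Adl K).2 v
          = 1 * (y₀ : Adl K).2 v := by
        linear_combination e1
      exact mul_right_cancel₀ hy₀0 e3
    exact eq_inv_of_mul_eq_one_left e2
  refine ⟨?_, ?_⟩
  · rw [q1, add_sub_cancel_left]
    exact hu
  · rw [q2, hC]
    have e4 : (1 + u)⁻¹ - 1 = -u * (1 + u)⁻¹ := by
      field_simp
      ring
    rw [e4, map_mul, Valuation.map_neg, map_inv₀, h1u, inv_one, mul_one]
    exact hu'

end Fermat.Agent.LT.T7.H941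

end

end
-- ===== PACK-END LT/T7/H941/LocLevel.lean

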