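import Mathlib
import Fermat.Agent.Pack.LT2.E17L1
import Fermat.Agent.Pack.LT2.E13L0
import Fermat.Agent.Pack.LT2.E0L1
import Fermat.Agent.Pack.LT2.E16L3
import Fermat.Agent.Pack.LT2.E16L0
import Fermat.Agent.Pack.LT2.E4L2
import Fermat.Agent.Pack.LT2.E16L2
import Fermat.Agent.Pack.LT2.E0L2
import Fermat.Agent.Pack.LT2.E2L1
import Fermat.Agent.Pack.LT2.E5L3
import Fermat.Agent.Pack.LT2.E6L1
import Fermat.Agent.Pack.LT2.E8L2
import Fermat.Agent.Pack.LT2.E6L0
import Fermat.Agent.Pack.LT2.E8L3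
import Fermat.Agent.Pack.LT2.E8L1
import Fermat.Agent.Pack.LT2.E8L0
import Fermat.Agent.Pack.LT2.E10L1
import Fermat.Agent.Pack.LT2.E13L2
import Fermat.Agent.Pack.LT2.E13L1
import Fermat.Agent.Pack.LT2.E16L1
import Fermat.Agent.Pack.LT2.E12L3
import Fermat.Agent.Pack.LT2.E15L1
import Fermat.Agent.Pack.LT2.E6L2
import Fermat.Agent.Pack.LT2.E5L1
import Fermat.Agent.Pack.LT2.E17L0

set_option linter.all false

-- ===== PACK-BEGIN LT/A2/H112/ExpAt.lean
section



/-!
# Row LT, tower A2, leaf A2.09b `ExpAtC` (Spec v2) (helper112)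

OFF-MAIN.  `expAtC_h112 : Fermat.Agent.LT.A2.ExpAtC` (VERBATIM the Prop of `LT/A2/TopTC.lean`,
origin/helper950@1a40ac0ee, sha256 a69a6790dbd13651): the unfolding with Hasse's norm theorem
assumed for the ONE torus `(K, D.t, D.n)` only.  Same proof as `Exp.lean`; Hasse's theorem is
used once, in `whit_eq_zero_at112`.
-/

set_option autoImplicit false
set_option linter.unusedSectionVars false

open IsDedekindDomain NumberField AutomorphicForm MeasureTheory
open scoped MatrixGroups Pointwise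

noncomputable section

namespace Fermat.Agent.LT.A2.H112

open Fermat.Agent.LT.H130 Fermat.Agent.LT.H556 Fermat.Agent.LT.A2

variable {K : Type} [Field K] [NumberField K]

attribute [local instance] measG112 borelG112

variable (D : KData K) {g mg : A0.G K}

/-- `W(diag(α,1) g) = 0` if `α` is not a value of `Q` (Hasse's norm theorem for ONE torus). -/
theorem whit_eq_zero_at112 (hH : HasseNormAt K D.t D.n) {W : A0.G K → ℂ}
    (hW : D.IsWhit W) {d : Kˣ → A0.G K} (hd : IsRatDiag d) (α : Kˣ)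
    (hempty : ∀ ξ : K × K, qK D.t D.n ξ ≠ (α : K)) (hadm : Adm D.t D.n g mg) :
    W (d α * g) = 0 := by
  apply hW.off
  rintro ⟨m', hm'1, hm'2⟩
  have hT : InTorus D.t D.n (m' * mg⁻¹) := inTorus_mul112 hm'1 (inTorus_inv112 hadm.1)
  have hdet : ((Matrix.GeneralLinearGroup.det (m' * mg⁻¹) : (A0.Adl K)ˣ) : A0.Adl K)
      = algebraMap K (A0.Adl K) (α : K) := by
    rw [← det_ratDiag112 hd α]
    congr 1
    rw [map_mul, map_inv, ← hm'2, ← hadm.2, map_mul, mul_inv_cancel_right]
  obtain ⟨y, ⟨a, b, hab⟩, hydet⟩ := hH (α : K) (m' * mg⁻¹) hT hdet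
  apply hempty (a, b)
  apply algebraMap_inj112
  rw [← hydet]
  exact (det_of_coord112 (c := (a, b)) hab).symm

/-- The expansion on `GL₂(𝔸_K)⁺`. -/
theorem hasSum_whit_at112 (hH : HasseNormAt K D.t D.n) (hG : D.Good) {φ W : A0.G K → ℂ}
    (hφ : D.IsLift φ) (hW : D.IsWhit W) {d : Kˣ → A0.G K} (hd : IsRatDiag d)
    (hadm : Adm D.t D.n g mg) : HasSum (fun α : Kˣ => W (d α * g)) (φ g) := by
  classical
  have h1 := (hasSum_Ifun112 D hG hadm hφ).tsum_fiberwise (qK D.t D.n)
  have h2 : ∀ c : K, (∑' ξ : ↥((qK D.t D.n) ⁻¹' {c}), Ifun D g mg ξ)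
      = if hc : c = 0 then 0 else W (d (Units.mk0 c hc) * g) := by
    intro c
    by_cases hc : c = 0
    · rw [dif_pos hc]
      have : ∀ ξ : ↥((qK D.t D.n) ⁻¹' {c}), Ifun D g mg ξ = 0 := by
        rintro ⟨ξ, hξ⟩
        have hξ' : qK D.t D.n ξ = 0 := by
          have : qK D.t D.n ξ = c := hξ
          rw [this, hc]
        show Ifun D g mg ξ = 0
        rw [(qK_eq_zero_iff hG.torus.irred ξ).mp hξ']
        exact Ifun_zero112 D hG hadm
      rw [tsum_congr this, tsum_zero]
    · rw [dif_neg hc]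
      by_cases hfib : ∃ ξ₀ : K × K, qK D.t D.n ξ₀ = c
      · obtain ⟨ξ₀, hξ₀⟩ := hfib
        have hξ₀ne : ξ₀ ≠ 0 := by
          intro h
          apply hc
          rw [← hξ₀, h]
          simp [qK]
        rw [whit_eq_integral112 D hG hW hd (Units.mk0 c hc) ξ₀ hξ₀ hadm,
          integral_hfun_eq_tsum112 D hG hadm hξ₀ne]
        exact ((fiberEquiv hG.torus.irred hc ξ₀ hξ₀).tsum_eq
          (fun ξ : ↥((qK D.t D.n) ⁻¹' {c}) => Ifun D g mg ξ)).symm
      · have hempty : ∀ ξ : K × K, qK D.t D.n ξ ≠ c := fun ξ h => hfib ⟨ξ, h⟩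
        have : IsEmpty ↥((qK D.t D.n) ⁻¹' {c}) := ⟨fun ξ => hempty ξ.1 ξ.2⟩
        rw [tsum_empty]
        exact (whit_eq_zero_at112 D hH hW hd (Units.mk0 c hc) hempty hadm).symm
  rw [funext h2] at h1
  have hinj : Function.Injective (fun α : Kˣ => (α : K)) := Units.val_injective
  have hrange : ∀ x : K, x ∉ Set.range (fun α : Kˣ => (α : K)) →
      (fun c : K => if hc : c = 0 then (0 : ℂ) else W (d (Units.mk0 c hc) * g)) x = 0 := by
    intro x hx
    have hx0 : x = 0 := by
      by_contra h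
      exact hx ⟨Units.mk0 x h, rfl⟩
    simp [hx0]
  have h3 := (hinj.hasSum_iff hrange).mpr h1
  have h4 : ((fun c : K => if hc : c = 0 then (0 : ℂ) else W (d (Units.mk0 c hc) * g))
      ∘ fun α : Kˣ => (α : K)) = fun α : Kˣ => W (d α * g) := by
    funext α
    simp only [Function.comp]
    rw [dif_neg α.ne_zero, Units.mk0_val]
  rw [h4] at h3
  exact h3

/-- The expansion, everywhere. -/
theorem expansion_at112 (hH : HasseNormAt K D.t D.n) (hG : D.Good) {φ W : A0.G K → ℂ}
    (hφ : D.IsLift φ) (hW : D.IsWhit W) {d : Kˣ → A0.G K} (hd : IsRatDiag d) (g : A0.G K) :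
    φ g = ∑' α : Kˣ, W (d α * g) := by
  by_cases hex : ∃ γ : GL (Fin 2) K, InGPlus D.t D.n (ratG γ * g)
  · obtain ⟨γ, m', hm'⟩ := hex
    set δ : Kˣ := Matrix.GeneralLinearGroup.det γ with hδ
    have hadm2 : Adm D.t D.n (d δ * g) m' := by
      refine ⟨hm'.1, ?_⟩
      rw [← hm'.2, map_mul, map_mul]
      congr 1
      apply Units.ext
      rw [det_ratDiag112 hd, det_ratG112]
    have h1 := (hasSum_whit_at112 D hH hG hφ hW hd hadm2).tsum_eq
    have h2 : φ (d δ * g) = φ g := by
      rw [ratDiag_eq112 hd δ]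
      exact hφ.left_inv _ g
    rw [← h2, ← h1]
    have h3 : ∀ α : Kˣ, W (d α * (d δ * g)) = W (d (α * δ) * g) := by
      intro α
      rw [ratDiag_mul112 hd, mul_assoc]
    rw [tsum_congr h3]
    exact (Equiv.mulRight δ).tsum_eq (fun α => W (d α * g))
  · have hex' : ∀ γ : GL (Fin 2) K, ¬ InGPlus D.t D.n (ratG γ * g) :=
      fun γ h => hex ⟨γ, h⟩
    rw [hφ.off g hex']
    have : ∀ α : Kˣ, W (d α * g) = 0 := fun α =>
      hW.off _ (by rw [ratDiag_eq112 hd α]; exact hex' _)
    rw [tsum_congr this, tsum_zero]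

/-- **Leaf A2.09b `ExpAtC`** (Spec v2), VERBATIM the Prop of `LT/A2/TopTC.lean`. -/
theorem expAtC_h112 : ExpAtC := by
  intro K _ _ D hH hG _ φ W hφ hW
  exact ⟨fun nU hU x g => whit_unip112 D hG hW hU x g,
    fun d hd g => expansion_at112 D hH hG hφ hW hd g⟩

end Fermat.Agent.LT.A2.H112

end

end
-- ===== PACK-END LT/A2/H112/ExpAt.lean

-- ===== PACK-BEGIN LT/A2/H247/GaussProd.lean
section



/-!
# Row LT, tower A2, station A2.03.1.1.06, leaf 07: `LF54.LeafGaussProd` (helper247)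

OFF-MAIN.  `leafGaussProd247 : LF54.LeafGaussProd`, VERBATIM against
`LT/A2/H54/LocFinSpec.lean` (helper54@26071c838, sha256 8ccd9c5c6ed3304a).

* abstract core: `GaussProdAbs.lean` (`gaussProd_abs247`);
* `isLocallyConstant_char247`: a continuous unitary character of an ultrametric normed field is
  locally constant (no small subgroups in the circle: `nss247`);
* `exists_sb247`: the indicator function of `𝒪_v × 𝒪_v` is Schwartz--Bruhat and not zero
  (`𝒪_v` compact: `LT/H11/LC.lean` of helper11, byte-identical copy).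
-/

set_option autoImplicit false

open IsDedekindDomain NumberField MeasureTheory
open scoped Topology

noncomputable section

namespace Fermat.Agent.LT.A2.H247

open Fermat.Agent.LT.A2 Fermat.Agent.LT.A2.WX467 Fermat.Agent.LT.A2.LF54

/-! ## No small subgroups -/

theorem unit_facts247 (w : ℂ) (hw : ‖w‖ = 1) :
    w.re * w.re + w.im * w.im = 1 ∧ (w ^ 2).re = 2 * (w.re * w.re) - 1 := by
  have h1 : w.re * w.re + w.im * w.im = 1 := by
    have := Complex.normSq_eq_norm_sq w
    rw [hw, Complex.normSq_apply] at this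
    simpa using this
  refine ⟨h1, ?_⟩
  rw [pow_two, Complex.mul_re]
  linarith

theorem re_gt_half247 (w : ℂ) (hw : ‖w‖ = 1) (h : ‖w - 1‖ < 1) : 1 - w.re < 1 / 2 := by
  have h1 := (unit_facts247 w hw).1
  have h2 : ‖w - 1‖ ^ 2 < 1 := by
    have h0 : 0 ≤ ‖w - 1‖ := norm_nonneg _
    nlinarith
  have h3 := Complex.normSq_eq_norm_sq (w - 1)
  rw [Complex.normSq_apply] at h3
  simp only [Complex.sub_re, Complex.one_re, Complex.sub_im, Complex.one_im, sub_zero] at h3
  nlinarith

/-- A complex number of absolute value `1` all of whose powers are at distance `< 1` from `1`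
is `1`. -/
theorem nss247 (z : ℂ) (hz : ‖z‖ = 1) (h : ∀ m : ℕ, ‖z ^ m - 1‖ < 1) : z = 1 := by
  have hn : ∀ m : ℕ, ‖z ^ (2 ^ m)‖ = 1 := fun m => by rw [norm_pow, hz, one_pow]
  have hd : ∀ m : ℕ, 1 - (z ^ (2 ^ m)).re < 1 / 2 := fun m =>
    re_gt_half247 _ (hn m) (h _)
  have hd0 : ∀ m : ℕ, 0 ≤ 1 - (z ^ (2 ^ m)).re := by
    intro m
    have h1 := (unit_facts247 _ (hn m)).1
    nlinarith [mul_self_nonneg (z ^ (2 ^ m)).im, mul_self_nonneg ((z ^ (2 ^ m)).re - 1)]
  have hstep : ∀ m : ℕ, 3 * (1 - (z ^ (2 ^ m)).re) ≤ 1 - (z ^ (2 ^ (m + 1))).re := by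
    intro m
    have h2 := (unit_facts247 _ (hn m)).2
    have h3 : z ^ (2 ^ (m + 1)) = (z ^ (2 ^ m)) ^ 2 := by
      rw [← pow_mul, pow_succ]
    rw [h3, h2]
    have ha := hd m
    have hb := hd0 m
    nlinarith
  have hind : ∀ m : ℕ, (3 : ℝ) ^ m * (1 - z.re) ≤ 1 - (z ^ (2 ^ m)).re := by
    intro m
    induction m with
    | zero => simp
    | succ m ih =>
      calc (3 : ℝ) ^ (m + 1) * (1 - z.re) = 3 * ((3 : ℝ) ^ m * (1 - z.re)) := by ring
        _ ≤ 3 * (1 - (z ^ (2 ^ m)).re) := by linarith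
        _ ≤ 1 - (z ^ (2 ^ (m + 1))).re := hstep m
  have hre : z.re = 1 := by
    by_contra hne
    have h0 : 0 ≤ 1 - z.re := by simpa using hd0 0
    have hpos : 0 < 1 - z.re := lt_of_le_of_ne h0 (fun h' => hne (by linarith))
    obtain ⟨m, hm⟩ := pow_unbounded_of_one_lt (1 / (1 - z.re)) (by norm_num : (1 : ℝ) < 3)
    have h1 : 1 < (3 : ℝ) ^ m * (1 - z.re) := by
      rwa [div_lt_iff₀ hpos] at hm
    have h2 := hind m
    have h3 := hd m
    linarith
  have him : z.im = 0 := by
    have h1 := (unit_facts247 z hz).1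
    rw [hre] at h1
    have : z.im * z.im = 0 := by linarith
    exact mul_self_eq_zero.mp this
  exact Complex.ext (by simpa using hre) (by simpa using him)

/-! ## Characters of an ultrametric field are locally constant -/

theorem isLocallyConstant_char247 {k : Type} [NormedField k] [IsUltrametricDist k]
    (ψ : k → ℂ) (hc : Continuous ψ) (hmul : ∀ x y : k, ψ (x + y) = ψ x * ψ y)
    (hone : ∀ x : k, ‖ψ x‖ = 1) : IsLocallyConstant ψ := by
  have h0 : ψ 0 = 1 := psi_zero247 ψ hmul hone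
  have hU : ψ ⁻¹' (Metric.ball (1 : ℂ) 1) ∈ 𝓝 (0 : k) := by
    apply hc.continuousAt.preimage_mem_nhds
    rw [h0]
    exact Metric.ball_mem_nhds 1 one_pos
  obtain ⟨ε, hε, hball⟩ := Metric.mem_nhds_iff.1 hU
  have hpow : ∀ (x : k) (m : ℕ), ψ ((m : k) * x) = ψ x ^ m := by
    intro x m
    induction m with
    | zero => simp [h0]
    | succ m ih =>
      have : ((m + 1 : ℕ) : k) * x = (m : k) * x + x := by push_cast; ring
      rw [this, hmul, ih, pow_succ]
  have hker : ∀ x : k, ‖x‖ < ε → ψ x = 1 := by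
    intro x hx
    apply nss247 (ψ x) (hone x)
    intro m
    rw [← hpow]
    have hm : (m : k) * x ∈ Metric.ball (0 : k) ε := by
      rw [mem_ball_zero_iff, norm_mul]
      calc ‖(m : k)‖ * ‖x‖ ≤ 1 * ‖x‖ :=
            mul_le_mul_of_nonneg_right (IsUltrametricDist.norm_natCast_le_one k m)
              (norm_nonneg x)
        _ = ‖x‖ := one_mul _
        _ < ε := hx
    have := hball hm
    rw [Set.mem_preimage, Metric.mem_ball, dist_eq_norm] at this
    exact this
  rw [IsLocallyConstant.iff_exists_open]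
  intro x
  refine ⟨Metric.ball x ε, Metric.isOpen_ball, Metric.mem_ball_self hε, fun y hy => ?_⟩
  have hy' : ‖y - x‖ < ε := by
    rwa [Metric.mem_ball, dist_eq_norm] at hy
  have : y = x + (y - x) := by ring
  rw [this, hmul, hker _ hy', mul_one]

/-! ## A Schwartz--Bruhat function which is not zero -/

theorem exists_sb247 (K : Type) [Field K] [NumberField K] (v : HeightOneSpectrum (𝓞 K)) :
    ∃ Φ : v.adicCompletion K × v.adicCompletion K → ℂ, IsSB Φ ∧ ∃ ξ, Φ ξ ≠ 0 := by
  have hcl : IsClopen (v.adicCompletionIntegers K : Set (v.adicCompletion K)) :=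
    ⟨Valued.isClosed_valuationSubring (v.adicCompletion K),
      Valued.isOpen_valuationSubring (v.adicCompletion K)⟩
  have hcp : IsCompact (v.adicCompletionIntegers K : Set (v.adicCompletion K)) :=
    Fermat.Agent.LT.H11.LC.isCompact_integers_h11 K v
  have hS : IsClopen ((v.adicCompletionIntegers K : Set (v.adicCompletion K)) ×ˢ
      (v.adicCompletionIntegers K : Set (v.adicCompletion K))) := hcl.prod hcl
  refine ⟨⇑(LocallyConstant.charFn ℂ hS), ⟨(LocallyConstant.charFn ℂ hS).isLocallyConstant, ?_⟩,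
    (0, 0), ?_⟩
  · apply HasCompactSupport.intro (hcp.prod hcp)
    intro x hx
    exact (LocallyConstant.charFn_eq_zero ℂ x hS).2 hx
  · have : ((0 : v.adicCompletion K), (0 : v.adicCompletion K)) ∈
        (v.adicCompletionIntegers K : Set (v.adicCompletion K)) ×ˢ
          (v.adicCompletionIntegers K : Set (v.adicCompletion K)) :=
      ⟨zero_mem _, zero_mem _⟩
    rw [(LocallyConstant.charFn_eq_one ℂ _ hS).2 this]
    exact one_ne_zero

/-! ## The leaf -/

/-- **A2.03.1.1.06.07 GAUSS-PROD**: `‖a‖² G(a) G(-a) = c`. -/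
theorem leafGaussProd247 : LF54.LeafGaussProd := by
  intro K _ _ v t n ψ μ c G hctx hF
  exact gaussProd_abs247 t n ψ μ hctx.char.2.1 hctx.char.2.2.1
    (isLocallyConstant_char247 ψ hctx.char.1 hctx.char.2.1 hctx.char.2.2.1) hF
    (exists_sb247 K v)

end Fermat.Agent.LT.A2.H247

end

end
-- ===== PACK-END LT/A2/H247/GaussProd.lean

-- ===== PACK-BEGIN LT/A2/H593/WhitSum.lean
section



/-!
# Row LT, tower A2, leaf A2.03.6 `WL.WhitSumC` (helper593) -- part 4: the leaf

OFF-MAIN.  `whitSumAtC593 : WL.WhitSumAtC` (A2.03.6b, Spec v2.1 `TopTC.lean`) and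
`whitSumC_of_hasse593 : HasseNormC → WL.WhitSumC` (A2.03.6, Spec v1).

The Whittaker function `W(diag(α, 1) g)` vanishes unless `α det g` is a norm of `T(𝔸_K)`; for `g` in
`GL₂(𝔸_K)⁺` this means that `α` is a norm of `T(𝔸_K)`, i.e. (HASSE) `α = Q(p)`, `p ∈ K²`, and then
`W(diag(α, 1) g) = ∫_{T¹(𝔸)} F g (m m_g) \bar p χT(m m_g) dm` (`torK`, `diagK`), which is unfolded
over `T¹(K)` (`tor1`, `IsMeasured`) and bounded by `vol(DT) ∑_{Q(ξ) = α} b'(ξ)`, `b'` the bound of
`IsRegular.loc_summable` on a compact set of admissible pairs (`TorusOpenC`, local compactness of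
`GL₂(𝔸_K)` from tower T1).  Complete proofs, nothing assumed.
-/

set_option autoImplicit false
set_option linter.style.haveILetI false

open IsDedekindDomain NumberField AutomorphicForm MeasureTheory
open scoped MatrixGroups Topology ENNReal Pointwise

noncomputable section

namespace Fermat.Agent.LT.A2.H593

open Fermat.Agent.LT.H130 Fermat.Agent.LT.H556 Fermat.Agent.LT.A2

variable {K : Type} [Field K] [NumberField K]

local notation "ι" => algebraMap K (A0.Adl K)

/-- The bound: the sum of `|b'|` over the fibre `Q = β`. -/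
def fibSum593 (t n : K) (b' : K × K → ℝ) (β : Kˣ) : ℝ :=
  ∑' ξ : {ξ : K × K // qK593 t n ξ = (β : K)}, |b' ξ.1|

omit [NumberField K] in
theorem fibSum_nonneg593 (t n : K) (b' : K × K → ℝ) (β : Kˣ) : 0 ≤ fibSum593 t n b' β :=
  tsum_nonneg fun _ => abs_nonneg _

omit [NumberField K] in
theorem fibSum_summable593 (t n : K) {b' : K × K → ℝ} (hb' : Summable b') :
    Summable (fibSum593 t n b') := by
  have hinj : Function.Injective
      (fun x : (Σ β : Kˣ, {ξ : K × K // qK593 t n ξ = (β : K)}) => x.2.1) := by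
    rintro ⟨β, ξ, hξ⟩ ⟨β', ξ', hξ'⟩ h
    simp only at h
    subst h
    have : β = β' := Units.ext (hξ.symm.trans hξ')
    subst this
    rfl
  have h1 : Summable (fun x : (Σ β : Kˣ, {ξ : K × K // qK593 t n ξ = (β : K)}) => |b' x.2.1|) :=
    hb'.abs.comp_injective hinj
  exact h1.sigma

/-- The norm of `χT` is `1` on the torus. -/
theorem norm_χT593 {t n : K} {χT : A0.G K → ℂ} (hχ : IsTorusChar t n χT) {m : A0.G K}
    (hm : InTorus t n m) : ‖χT m‖ = 1 := by
  obtain ⟨k, hk, hpow⟩ := hχ.fin_order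
  have h1 : ‖χT m‖ ^ k = 1 := by rw [← norm_pow, hpow m hm, norm_one]
  exact (pow_eq_one_iff_of_nonneg (norm_nonneg _) hk.ne').mp h1

/-- **The bound of one term**, for `g` with an admissible partner `m_g` such that the pairs
`(g, m₁ m_g)`, `m₁ ∈ DT`, lie in a set `P` on which `‖F · · ξ‖ ≤ b' ξ`. -/
theorem whit_bound593 {D : KData K} (hH : HasseNormAt K D.t D.n) (hG : D.Good)
    {W : A0.G K → ℂ}
    (hW : D.IsWhit W) {b' : K × K → ℝ} (hb' : Summable b') {P : Set (A0.G K × A0.G K)}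
    (hP : ∀ (ξ : K × K) (p : A0.G K × A0.G K), p ∈ P → Adm D.t D.n p.1 p.2 →
      ‖D.F p.1 p.2 (ratV ξ)‖ ≤ b' ξ)
    (hfin : D.μT D.DT ≠ ⊤)
    {g mg : A0.G K} (hadm : Adm D.t D.n g mg) (hmem : ∀ m₁ ∈ D.DT, (g, m₁ * mg) ∈ P) (β : Kˣ) :
    ‖W (rdiag593 β 1 * g)‖ ≤ (D.μT D.DT).toReal * fibSum593 D.t D.n b' β := by
  have hnn : 0 ≤ (D.μT D.DT).toReal * fibSum593 D.t D.n b' β :=
    mul_nonneg ENNReal.toReal_nonneg (fibSum_nonneg593 _ _ _ _)
  by_cases hplus : InGPlus D.t D.n (rdiag593 β 1 * g)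
  swap
  · rw [hW.off _ hplus, norm_zero]; exact hnn
  obtain ⟨m', hm'⟩ := hplus
  -- HASSE: `β` is a rational norm
  have hμ : InTorus D.t D.n (m' * mg⁻¹) := inTorus_mul593 hm'.1 (inTorus_inv593 hadm.1)
  have hμdet : ((Matrix.GeneralLinearGroup.det (m' * mg⁻¹) : (A0.Adl K)ˣ) : A0.Adl K)
      = ι (β : K) := by
    rw [map_mul, map_inv, ← hm'.2, ← hadm.2, map_mul, mul_inv_cancel_right, rdiag_det593]
    simp
  obtain ⟨y, hyrat, hydet⟩ := hH (β : K) (m' * mg⁻¹) hμ hμdet
  obtain ⟨p, hp0, rfl⟩ := exists_yel593 hyrat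
  have hp : qK593 D.t D.n p = (β : K) := by
    apply ι_injective593
    rw [← yel_det593 hp0, hydet]
  -- the formula for `W`
  have hadm2 : Adm D.t D.n (rdiag593 β 1 * g) (yel593 D.t D.n p * mg) := by
    refine ⟨inTorus_mul593 (inTorus_of_rat593 hyrat) hadm.1, ?_⟩
    rw [map_mul, map_mul, hadm.2]
    congr 1
    apply Units.ext
    rw [rdiag_det593, yel_det593 hp0, hp]
    simp
  rw [hW.formula _ _ hadm2]
  -- unfolding
  have hbound := unfold_bound593 hG.measured
    (fun m => D.F (rdiag593 β 1 * g) (m * (yel593 D.t D.n p * mg)) (1, 0)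
      * D.χT (m * (yel593 D.t D.n p * mg)))
    (fun q => ENNReal.ofReal |b' (pact593 D.t D.n q (conj593 D.t p))|) (by
      intro q hq m₁ hm₁
      have hq0 : qK593 D.t D.n q ≠ 0 := by rw [hq]; exact one_ne_zero
      have hq1 : InTorus1 D.t D.n (yel593 D.t D.n q)⁻¹ := inTorus1_inv593 (yel_tor1_593 hq)
      have hm₁T : InTorus1 D.t D.n m₁ := hG.measured.dom_sub m₁ hm₁
      have hmT : InTorus1 D.t D.n ((yel593 D.t D.n q)⁻¹ * m₁) := inTorus1_mul593 hq1 hm₁T
      have hadm₁ : Adm D.t D.n g (m₁ * mg) := adm_mul_tor1_593 hadm hm₁T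
      have hcomm : (yel593 D.t D.n q)⁻¹ * m₁ * (yel593 D.t D.n p * mg)
          = yel593 D.t D.n p * ((yel593 D.t D.n q)⁻¹ * (m₁ * mg)) := by
        rw [← mul_assoc, inTorus_comm593 hmT.1 (inTorus_of_rat593 hyrat), mul_assoc, mul_assoc]
      have hT : InTorus D.t D.n ((yel593 D.t D.n q)⁻¹ * m₁ * (yel593 D.t D.n p * mg)) :=
        inTorus_mul593 hmT.1 (inTorus_mul593 (inTorus_of_rat593 hyrat) hadm.1)
      rw [← ofReal_norm, norm_mul, norm_χT593 hG.torus hT, mul_one, hcomm,
        F_rdiag593 hG.weil (adm_mul_tor1_593 hadm₁ hq1) β hp,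
        hG.weil.tor1 _ hq1 _ _ _ hadm₁, inv_inv, actV_yel593 hq0]
      exact ENNReal.ofReal_le_ofReal ((hP _ _ (hmem m₁ hm₁) hadm₁).trans (le_abs_self _)))
  -- the sum over `T¹(K)` is a part of the sum over the fibre
  have hinj : Function.Injective
      (fun q : {q : K × K // qK593 D.t D.n q = 1} =>
        (⟨pact593 D.t D.n q.1 (conj593 D.t p), by
          rw [qK_pact593, q.2, one_mul, qK_conj593, hp]⟩ :
          {ξ : K × K // qK593 D.t D.n ξ = (β : K)})) := by
    intro q q' h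
    have h' : pact593 D.t D.n q.1 (conj593 D.t p) = pact593 D.t D.n q'.1 (conj593 D.t p) :=
      congrArg Subtype.val h
    exact Subtype.ext (pact_injective593 hG.torus.irred (by rw [qK_conj593]; exact hp0) h')
  have hsum : ∑' q : {q : K × K // qK593 D.t D.n q = 1},
      ENNReal.ofReal |b' (pact593 D.t D.n q.1 (conj593 D.t p))| * D.μT D.DT
      ≤ ENNReal.ofReal ((D.μT D.DT).toReal * fibSum593 D.t D.n b' β) := by
    rw [ENNReal.tsum_mul_right, mul_comm, ENNReal.ofReal_mul ENNReal.toReal_nonneg,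
      ENNReal.ofReal_toReal hfin]
    gcongr
    rw [fibSum593, ENNReal.ofReal_tsum_of_nonneg (fun _ => abs_nonneg _) (hb'.abs.subtype _)]
    exact ENNReal.tsum_comp_le_tsum_of_injective hinj
      (fun ξ : {ξ : K × K // qK593 D.t D.n ξ = (β : K)} => ENNReal.ofReal |b' ξ.1|)
  have hfinal := hbound.trans hsum
  rw [← ofReal_norm] at hfinal
  exact (ENNReal.ofReal_le_ofReal_iff hnn).mp hfinal

/-- `GL₂(𝔸_K)⁺` is a neighbourhood of `1` (`TorusOpenC`). -/
theorem gplus_nhds593 (hopen : WL.TorusOpenC) {t n : K} (hirr : ∀ x : K, x ^ 2 - t * x + n ≠ 0) :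
    {g : A0.G K | InGPlus t n g} ∈ 𝓝 (1 : A0.G K) := by
  obtain ⟨U, hU, hUsub⟩ := hopen K t n hirr 1 1 (adm_one593 t n) Set.univ Filter.univ_mem
  refine Filter.mem_of_superset hU fun g hg => ?_
  obtain ⟨m, -, hm⟩ := hUsub g hg
  exact ⟨m, hm⟩

/-- **The local form of the leaf**: every point has a neighbourhood on which the terms
`W(diag(α, 1) g)`, `g ∈ C`, are bounded by a summable family. -/
theorem whit_local593 (hopen : WL.TorusOpenC) {D : KData K} (hH : HasseNormAt K D.t D.n)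
    (hT1 : T1.T1Out K) (hG : D.Good) {W : A0.G K → ℂ} (hW : D.IsWhit W)
    {C : Set (A0.G K)} (hC : IsCompact C) (g₀ : A0.G K) :
    ∃ U ∈ 𝓝 g₀, ∃ b : Kˣ → ℝ, Summable b ∧ (∀ α, 0 ≤ b α) ∧
      ∀ (α : Kˣ) (g : A0.G K), g ∈ U → g ∈ C → ‖W (rdiag593 α 1 * g)‖ ≤ b α := by
  haveI : LocallyCompactSpace (A0.G K) := hT1.locComp.2.1
  by_cases h : ∃ α₀ : Kˣ, InGPlus D.t D.n (rdiag593 α₀ 1 * g₀)
  · obtain ⟨α₀, m₀, hadm₀⟩ := h
    obtain ⟨V, hVc, hV⟩ := exists_compact_mem_nhds m₀
    obtain ⟨U', hU', hU'sub⟩ := hopen K D.t D.n hG.torus.irred _ _ hadm₀ V hV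
    obtain ⟨CDT, hCDT, hDTsub⟩ := hG.measured.dom_compact
    have hcont : Continuous fun g : A0.G K => rdiag593 α₀ 1 * g := continuous_const.mul continuous_id
    set P : Set (A0.G K × A0.G K) := ((fun g : A0.G K => rdiag593 α₀ 1 * g) '' C) ×ˢ (CDT * V)
      with hPdef
    have hPc : IsCompact P := (hC.image hcont).prod (hCDT.mul hVc)
    obtain ⟨b', hb', hP⟩ := hG.regular.loc_summable P hPc
    have hfin : D.μT D.DT ≠ ⊤ :=
      ((measure_mono hDTsub).trans_lt (hG.measured.compact_lt CDT hCDT)).ne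
    refine ⟨(fun g : A0.G K => rdiag593 α₀ 1 * g) ⁻¹' U', hcont.continuousAt.preimage_mem_nhds hU',
      fun α => (D.μT D.DT).toReal * fibSum593 D.t D.n b' (α * α₀⁻¹), ?_, ?_, ?_⟩
    · have h1 : Summable (fun β : Kˣ => (D.μT D.DT).toReal * fibSum593 D.t D.n b' β) :=
        (fibSum_summable593 D.t D.n hb').mul_left _
      exact ((Equiv.mulRight α₀⁻¹).summable_iff).mpr h1
    · intro α
      exact mul_nonneg ENNReal.toReal_nonneg (fibSum_nonneg593 _ _ _ _)
    · intro α g hgU hgC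
      obtain ⟨mg, hmgV, hadm⟩ := hU'sub _ hgU
      have hfac : rdiag593 α 1 * g = rdiag593 (α * α₀⁻¹) 1 * (rdiag593 α₀ 1 * g) := by
        rw [← mul_assoc, rdiag_mul593]; simp
      rw [hfac]
      refine whit_bound593 hH hG hW hb' hP hfin hadm (fun m₁ hm₁ => ?_) _
      exact ⟨⟨g, hgC, rfl⟩, Set.mul_mem_mul (hDTsub hm₁) hmgV⟩
  · push Not at h
    refine ⟨(fun g : A0.G K => g₀⁻¹ * g) ⁻¹' {g : A0.G K | InGPlus D.t D.n g}, ?_, fun _ => 0,
      summable_zero, fun _ => le_rfl, ?_⟩
    · have hcont : Continuous fun g : A0.G K => g₀⁻¹ * g := continuous_const.mul continuous_id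
      apply hcont.continuousAt.preimage_mem_nhds
      simp only [inv_mul_cancel]
      exact gplus_nhds593 hopen hG.torus.irred
    · intro α g hgU _
      have hoff : ¬ InGPlus D.t D.n (rdiag593 α 1 * g) := by
        intro hplus
        apply h α
        have : rdiag593 α 1 * g₀ = rdiag593 α 1 * g * (g₀⁻¹ * g)⁻¹ := by group
        rw [this]
        exact inGPlus_mul593 hplus (inGPlus_inv593 hgU)
      rw [hW.off _ hoff, norm_zero]

/-- **A2.03.6b WHIT-SUM with Hasse** (Spec v2.1): normal summability of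
`α ↦ W(diag(α, 1) g)` on the compact sets. -/
theorem whitSumAtC593 : WL.WhitSumAtC := by
  intro hopen K _ _ D η hH hT1 hG _ W hW C hC
  choose U hU b hbs hbn hbound using fun g₀ => whit_local593 hopen hH hT1 hG hW hC g₀
  obtain ⟨s, -, hs⟩ := hC.elim_nhds_subcover U (fun x _ => hU x)
  refine ⟨fun α => ∑ x ∈ s, b x α, summable_sum fun x _ => hbs x, ?_⟩
  intro d hd α g hg
  obtain ⟨x, hxs, hgx⟩ : ∃ x ∈ s, g ∈ U x := by
    have := hs hg
    simpa only [Set.mem_iUnion, exists_prop] using this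
  rw [isRatDiag_eq593 hd α]
  exact (hbound x α g hgx hg).trans
    (Finset.single_le_sum (f := fun x => b x α) (fun i _ => hbn i α) hxs)

/-- **A2.03.6 WHIT-SUM** (Spec v1) from HASSE. -/
theorem whitSumC_of_hasse593 (hH : HasseNormC) : WL.WhitSumC :=
  fun hopen K _ _ D η hT1 hG hstd W hW =>
    whitSumAtC593 hopen K D η (hasseNormAt_of_hasseNormC hH K D.t D.n hG.torus.irred)
      hT1 hG hstd W hW

end Fermat.Agent.LT.A2.H593

end

end
-- ===== PACK-END LT/A2/H593/WhitSum.lean

-- ===== PACK-BEGIN LT/A2/H753/LocConst.lean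
section



/-!
# Row LT, leaf A2.03.1.3.5 `H753.LocConstC` (R5) -- spare proof (helper753)

`locConstC753 : LocConstC`.  `U = N × N`, `N` the set of the `k ∈ G` such that `k`, `k⁻¹` are
integral at every finite place and, at the places `v` dividing the level, `k_v ≡ 1`,
`k_v⁻¹ ≡ 1` modulo the closure of the level and `k_v` lies in the neighbourhood of
`FinAt.tlev_nhds`.  For admissible pairs `p`, `p' = p (k, κ)`: `κ_v` is in the torus
(`inTorL_mul753`, `inTorL_inv753`), `det k_v = det κ_v`, and `FinAt.right_inv` applies.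

Uses (byte-identical copies): `H905/StdAA.lean` (helper905: `finComp_mul905`, `finComp_inv905`,
`mem_idealClosure_of_not_dvd905`, ...) and `T2/H131/WeakApprox.lean` (helper131: the closure of a
nonzero ideal contains a ball).
-/
set_option autoImplicit false

open IsDedekindDomain NumberField AutomorphicForm MeasureTheory
open scoped MatrixGroups Topology

noncomputable section

namespace Fermat.Agent.LT.A2.H753

open Fermat.Agent.LT.H130 Fermat.Agent.LT.H556 Fermat.Agent.LT.A2 Fermat.Agent.LT.A2.WX467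
open Fermat.Agent.LT.A2.H905

/-! ## The torus is stable under products and inverses -/

section Torus

variable {k : Type} [Field k]

theorem inTorL_mul753 (t n : k) {m m' : Matrix (Fin 2) (Fin 2) k} (h : InTorL t n m)
    (h' : InTorL t n m') : InTorL t n (m * m') := by
  obtain ⟨a, b, rfl⟩ := h
  obtain ⟨a', b', rfl⟩ := h'
  refine ⟨a * a' - n * b * b', a * b' + b * a' + t * b * b', ?_⟩
  unfold torMat
  ext i j
  fin_cases i <;> fin_cases j <;> simp [Matrix.mul_apply, Fin.sum_univ_two] <;> ring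

theorem inTorL_inv753 (t n : k) {m : Matrix (Fin 2) (Fin 2) k} (h : InTorL t n m) :
    InTorL t n m⁻¹ := by
  obtain ⟨a, b, rfl⟩ := h
  refine ⟨Ring.inverse (torMat t n a b).det * (a + t * b),
    Ring.inverse (torMat t n a b).det * (-b), ?_⟩
  rw [Matrix.inv_def]
  unfold torMat
  rw [Matrix.adjugate_fin_two_of]
  ext i j
  fin_cases i <;> fin_cases j <;> simp [Matrix.smul_apply] <;> ring

end Torus

variable {K : Type} [Field K] [NumberField K]

/-! ## Continuity of the components -/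

theorem continuous_finEntry753 (v : HeightOneSpectrum (𝓞 K)) (i j : Fin 2) :
    Continuous fun g : A0.G K => A0.finComp v g i j := by
  have h0 : Continuous fun g : A0.G K => (g : Matrix (Fin 2) (Fin 2) (A0.Adl K)) :=
    Units.continuous_val
  have h1 : Continuous fun g : A0.G K => (g : Matrix (Fin 2) (Fin 2) (A0.Adl K)) i j :=
    (continuous_apply j).comp ((continuous_apply i).comp h0)
  have h2 : Continuous fun x : A0.Adl K => x.2 := continuous_snd
  have h3 : Continuous fun x : FiniteAdeleRing (𝓞 K) K => x v :=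
    RestrictedProduct.continuous_eval v
  exact h3.comp (h2.comp h1)

theorem continuous_finAdEntry753 (i j : Fin 2) :
    Continuous fun g : A0.G K => ((g : Matrix (Fin 2) (Fin 2) (A0.Adl K)) i j).2 := by
  have h0 : Continuous fun g : A0.G K => (g : Matrix (Fin 2) (Fin 2) (A0.Adl K)) :=
    Units.continuous_val
  have h1 : Continuous fun g : A0.G K => (g : Matrix (Fin 2) (Fin 2) (A0.Adl K)) i j :=
    (continuous_apply j).comp ((continuous_apply i).comp h0)
  exact continuous_snd.comp h1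

theorem continuous_finComp753 (v : HeightOneSpectrum (𝓞 K)) :
    Continuous fun g : A0.G K => A0.finComp v g :=
  continuous_pi fun i => continuous_pi fun j => continuous_finEntry753 v i j

/-! ## Neighbourhoods of `1` -/

/-- Near `1` all the entries are integral at all the finite places. -/
theorem eventually_integral753 :
    ∀ᶠ g in 𝓝 (1 : A0.G K), ∀ (v : HeightOneSpectrum (𝓞 K)) (i j : Fin 2),
      A0.finComp v g i j ∈ v.adicCompletionIntegers K := by
  have hI : IsOpen {t : FiniteAdeleRing (𝓞 K) K | ∀ v, t v ∈ v.adicCompletionIntegers K} :=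
    RestrictedProduct.isOpen_forall_mem (fun v => Valued.isOpen_valuationSubring _)
  have h : ∀ i j : Fin 2, ∀ᶠ g in 𝓝 (1 : A0.G K), ∀ v : HeightOneSpectrum (𝓞 K),
      A0.finComp v g i j ∈ v.adicCompletionIntegers K := by
    intro i j
    have h1 : (fun g : A0.G K => ((g : Matrix (Fin 2) (Fin 2) (A0.Adl K)) i j).2) 1
        ∈ {t : FiniteAdeleRing (𝓞 K) K | ∀ v, t v ∈ v.adicCompletionIntegers K} := by
      intro v
      change ((1 : Matrix (Fin 2) (Fin 2) (A0.Adl K)) i j).2 v ∈ v.adicCompletionIntegers K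
      rw [Matrix.one_apply]
      split_ifs
      · exact one_mem _
      · exact zero_mem _
    exact (continuous_finAdEntry753 i j).continuousAt.eventually (hI.mem_nhds h1)
  filter_upwards [Filter.eventually_all.2 fun i => Filter.eventually_all.2 fun j => h i j]
    with g hg v i j
  exact hg i j v

/-- A property which holds near `1` holds for the inverses of the points near `1`. -/
theorem eventually_inv753 {P : A0.G K → Prop} (h : ∀ᶠ g in 𝓝 (1 : A0.G K), P g) :
    ∀ᶠ g in 𝓝 (1 : A0.G K), P g⁻¹ := by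
  have h1 := (continuous_inv (G := A0.G K)).tendsto 1
  rw [inv_one] at h1
  exact h1.eventually h

/-- The closure of a nonzero ideal is a neighbourhood of `0`. -/
theorem idealClosure_mem_nhds753 (𝔫 : Ideal (𝓞 K)) (h𝔫 : 𝔫 ≠ ⊥) (v : HeightOneSpectrum (𝓞 K)) :
    A0.idealClosure 𝔫 v ∈ 𝓝 (0 : v.adicCompletion K) := by
  obtain ⟨N, hN⟩ := T2.H131.exists_ball_subset_idealClosure_h131 𝔫 h𝔫 v
  obtain ⟨c, hc, hcv⟩ := T2.H131.exists_valued_eq_exp_h131 v (-(N : ℤ))
  refine Filter.mem_of_superset (T2.H131.ball_mem_nhds_h131 0 c hc) fun y hy => hN y ?_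
  have hy' : Valued.v (y - 0) < Valued.v c := hy
  rw [sub_zero, hcv] at hy'
  exact hy'.le

/-- Near `1` the components at `v` are `≡ 1` modulo the closure of a nonzero ideal. -/
theorem eventually_lev753 (𝔫 : Ideal (𝓞 K)) (h𝔫 : 𝔫 ≠ ⊥) (v : HeightOneSpectrum (𝓞 K)) :
    ∀ᶠ g in 𝓝 (1 : A0.G K), ∀ i j : Fin 2, (A0.finComp v g - 1) i j ∈ A0.idealClosure 𝔫 v := by
  refine Filter.eventually_all.2 fun i => Filter.eventually_all.2 fun j => ?_
  have hc : Continuous fun g : A0.G K =>
      A0.finComp v g i j - (1 : Matrix (Fin 2) (Fin 2) (v.adicCompletion K)) i j :=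
    (continuous_finEntry753 v i j).sub continuous_const
  have h0 : A0.finComp v (1 : A0.G K) i j
      - (1 : Matrix (Fin 2) (Fin 2) (v.adicCompletion K)) i j = 0 := by
    rw [finComp_one905, sub_self]
  have hca : Filter.Tendsto (fun g : A0.G K =>
      A0.finComp v g i j - (1 : Matrix (Fin 2) (Fin 2) (v.adicCompletion K)) i j)
      (𝓝 (1 : A0.G K)) (𝓝 0) := by
    have := hc.tendsto (1 : A0.G K)
    rwa [h0] at this
  exact hca.eventually (idealClosure_mem_nhds753 𝔫 h𝔫 v)

/-- Near `1` the component at `v` lies in a given neighbourhood of `1`. -/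
theorem eventually_nhds753 (v : HeightOneSpectrum (𝓞 K))
    {U : Set (Matrix (Fin 2) (Fin 2) (v.adicCompletion K))} (hU : U ∈ 𝓝 1) :
    ∀ᶠ g in 𝓝 (1 : A0.G K), A0.finComp v g ∈ U := by
  have hca : Filter.Tendsto (fun g : A0.G K => A0.finComp v g) (𝓝 (1 : A0.G K)) (𝓝 1) := by
    have := (continuous_finComp753 v).tendsto (1 : A0.G K)
    rwa [finComp_one905] at this
  exact hca.eventually hU

/-! ## The leaf -/

/-- The conditions on one factor `k` of a pair near `1`. -/
def NearOne (L : WData K)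
    (U : ∀ v : HeightOneSpectrum (𝓞 K), Set (Matrix (Fin 2) (Fin 2) (v.adicCompletion K)))
    (k : A0.G K) : Prop :=
  (∀ (v : HeightOneSpectrum (𝓞 K)) (i j : Fin 2),
      A0.finComp v k i j ∈ v.adicCompletionIntegers K) ∧
  (∀ (v : HeightOneSpectrum (𝓞 K)) (i j : Fin 2),
      A0.finComp v k⁻¹ i j ∈ v.adicCompletionIntegers K) ∧
  (∀ v : HeightOneSpectrum (𝓞 K), v.asIdeal ∣ L.π.level →
      (∀ i j : Fin 2, (A0.finComp v k - 1) i j ∈ A0.idealClosure L.π.level v) ∧
      (∀ i j : Fin 2, (A0.finComp v k⁻¹ - 1) i j ∈ A0.idealClosure L.π.level v) ∧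
      A0.finComp v k ∈ U v)

theorem eventually_nearOne753 (L : WData K)
    (U : ∀ v : HeightOneSpectrum (𝓞 K), Set (Matrix (Fin 2) (Fin 2) (v.adicCompletion K)))
    (hU : ∀ v, U v ∈ 𝓝 1) : ∀ᶠ k in 𝓝 (1 : A0.G K), NearOne L U k := by
  have hlev : {v : HeightOneSpectrum (𝓞 K) | v.asIdeal ∣ L.π.level}.Finite :=
    Ideal.finite_factors L.π.level_ne_bot
  have h3 : ∀ᶠ k in 𝓝 (1 : A0.G K),
      ∀ v ∈ {v : HeightOneSpectrum (𝓞 K) | v.asIdeal ∣ L.π.level},
      (∀ i j : Fin 2, (A0.finComp v k - 1) i j ∈ A0.idealClosure L.π.level v) ∧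
      (∀ i j : Fin 2, (A0.finComp v k⁻¹ - 1) i j ∈ A0.idealClosure L.π.level v) ∧
      A0.finComp v k ∈ U v := by
    rw [Filter.eventually_all_finite hlev]
    intro v _
    exact (eventually_lev753 L.π.level L.π.level_ne_bot v).and
      ((eventually_inv753 (eventually_lev753 L.π.level L.π.level_ne_bot v)).and
        (eventually_nhds753 v (hU v)))
  filter_upwards [eventually_integral753 (K := K), eventually_inv753 eventually_integral753, h3]
    with k h1 h2 h3
  exact ⟨h1, h2, fun v hv => h3 v hv⟩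

/-- **LEAF A2.03.1.3.5 `LocConstC`** (R5). -/
theorem locConstC753 : LocConstC := by
  intro hDict K _ _ L hgood
  classical
  -- the neighbourhoods of `tlev_nhds`
  choose U hU hUT using fun v : HeightOneSpectrum (𝓞 K) => (hgood.fin v).tlev_nhds
  have hN := eventually_nearOne753 L U hU
  refine ⟨{k | NearOne L U k} ×ˢ {k | NearOne L U k}, prod_mem_nhds hN hN, ?_⟩
  intro p p' hp hp' hpp' v
  obtain ⟨hk, hκ⟩ : NearOne L U (p.1⁻¹ * p'.1) ∧ NearOne L U (p.2⁻¹ * p'.2) := hpp'
  set k : A0.G K := p.1⁻¹ * p'.1 with hkdef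
  set κ : A0.G K := p.2⁻¹ * p'.2 with hκdef
  have hF := hgood.fin v
  obtain ⟨htor, hdet, hdet0⟩ := (hDict K L p.1 p.2 hp).1 v
  obtain ⟨htor', hdet', hdet0'⟩ := (hDict K L p'.1 p'.2 hp').1 v
  have e1 : A0.finComp v p'.1 = A0.finComp v p.1 * A0.finComp v k := by
    rw [← finComp_mul905, hkdef, mul_inv_cancel_left]
  have e2 : A0.finComp v p'.2 = A0.finComp v p.2 * A0.finComp v κ := by
    rw [← finComp_mul905, hκdef, mul_inv_cancel_left]
  -- the torus
  have hκtor : InTorL (L.tfin v) (L.nfin v) (A0.finComp v κ) := by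
    have h1 : A0.finComp v κ = (A0.finComp v p.2)⁻¹ * A0.finComp v p'.2 := by
      rw [finComp_inv905, ← finComp_mul905]
    rw [h1]
    exact inTorL_mul753 _ _ (inTorL_inv753 _ _ htor) htor'
  -- the determinants
  have hdetk : (A0.finComp v k).det = (A0.finComp v κ).det := by
    have h1 : (A0.finComp v p.1).det * (A0.finComp v k).det
        = (A0.finComp v p.1).det * (A0.finComp v κ).det := by
      rw [← Matrix.det_mul, ← e1, hdet', e2, Matrix.det_mul, hdet]
    have h2 : (A0.finComp v p.1).det ≠ 0 := finComp_det_ne_zero905 v p.1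
    exact mul_left_cancel₀ h2 h1
  -- the level groups
  have hInLev : InLevL L.π.level v (A0.finComp v k) := by
    refine ⟨finComp_det_ne_zero905 v k, fun i j => ?_⟩
    rw [finComp_inv905]
    by_cases hv : v.asIdeal ∣ L.π.level
    · exact ⟨(hk.2.2 v hv).1 i j, (hk.2.2 v hv).2.1 i j⟩
    · exact ⟨mem_idealClosure_of_not_dvd905 L.π.level v hv _
          (sub_one_integral905 v _ (hk.1 v) i j),
        mem_idealClosure_of_not_dvd905 L.π.level v hv _
          (sub_one_integral905 v _ (hk.2.1 v) i j)⟩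
  have hTlev : A0.finComp v κ ∈ L.Tlev v := by
    by_cases hv : v.asIdeal ∣ L.π.level
    · exact hUT v _ (hκ.2.2 v hv).2.2 hκtor
    · rw [(hgood.good v hv).tlev]
      refine ⟨hκtor, finComp_det_ne_zero905 v κ, hκ.1 v, ?_⟩
      rw [finComp_inv905]
      exact hκ.2.1 v
  funext ξ
  rw [e1, e2]
  exact hF.right_inv _ _ hInLev hTlev hdetk _ _ ξ ⟨htor, hdet, hdet0⟩

end Fermat.Agent.LT.A2.H753

end

end
-- ===== PACK-END LT/A2/H753/LocConst.lean

-- ===== PACK-BEGIN LT/A2/H833/TorGroup.lean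
section


/-!
# Row LT, tower A2, sub-leaf A2.03.8.5.6 `H254.TorGroupC254` -- helper833, OFF-MAIN

`torGroupC833 : H254.TorGroupC254` VERBATIM against `LT/A2/H254/IntSpec.lean`
(helper254@ddb43b08e, sha256 e654c419, byte-identical copy with its import closure).

`T¹(𝔸_K)` is closed under products and inverses:
`torMat(a,b) torMat(c,d) = torMat(ac - n bd, ad + bc + t bd)` (`torMat_mul833`), the inverse of an
element of determinant `1` is its adjugate, and `adjugate (torMat(a,b)) = torMat(a + t b, -b)`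
(`torMat_adjugate833`); the determinant is multiplicative.
-/

set_option autoImplicit false

open IsDedekindDomain NumberField AutomorphicForm MeasureTheory
open scoped MatrixGroups

noncomputable section

namespace Fermat.Agent.LT.A2.H833

open Fermat.Agent.LT.H556 Fermat.Agent.LT.H556.A0
open Fermat.Agent.LT.A2

/-- `(a + b ω)(c + d ω) = (ac - n bd) + (ad + bc + t bd) ω` for `ω² = t ω - n`. -/
theorem torMat_mul833 {R : Type*} [CommRing R] (t n a b c d : R) :
    torMat t n a b * torMat t n c d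
      = torMat t n (a * c - n * (b * d)) (a * d + b * c + t * (b * d)) := by
  unfold torMat
  ext i j
  fin_cases i <;> fin_cases j <;> simp [Matrix.mul_apply, Fin.sum_univ_two] <;> ring

/-- The adjugate of `torMat(a, b)` is `torMat(a + t b, -b)` (the conjugate of `a + b ω`). -/
theorem torMat_adjugate833 {R : Type*} [CommRing R] (t n a b : R) :
    (torMat t n a b).adjugate = torMat t n (a + t * b) (-b) := by
  unfold torMat
  rw [Matrix.adjugate_fin_two_of]
  ext i j
  fin_cases i <;> fin_cases j <;> simp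

variable {K : Type} [Field K] [NumberField K]

theorem inTorus_mul833 (t n : K) {a b : G K} (ha : InTorus t n a) (hb : InTorus t n b) :
    InTorus t n (a * b) := by
  obtain ⟨a₁, a₂, ha⟩ := ha
  obtain ⟨b₁, b₂, hb⟩ := hb
  refine ⟨a₁ * b₁ - algebraMap K (Adl K) n * (a₂ * b₂),
    a₁ * b₂ + a₂ * b₁ + algebraMap K (Adl K) t * (a₂ * b₂), ?_⟩
  rw [Units.val_mul, ha, hb, torMat_mul833]

/-- The inverse of an element of determinant `1` is its adjugate. -/
theorem inv_val_of_det_one833 {a : G K} (ha : Matrix.GeneralLinearGroup.det a = 1) :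
    ((a⁻¹ : G K) : Matrix (Fin 2) (Fin 2) (Adl K))
      = (a : Matrix (Fin 2) (Fin 2) (Adl K)).adjugate := by
  have hdet : Matrix.det (a : Matrix (Fin 2) (Fin 2) (Adl K)) = 1 := by
    rw [← Matrix.GeneralLinearGroup.val_det_apply, ha, Units.val_one]
  have h1 : (a : Matrix (Fin 2) (Fin 2) (Adl K)).adjugate * (a : Matrix (Fin 2) (Fin 2) (Adl K))
      = 1 := by
    rw [Matrix.adjugate_mul, hdet, one_smul]
  have e : (a : Matrix (Fin 2) (Fin 2) (Adl K)) * ((a⁻¹ : G K) : Matrix (Fin 2) (Fin 2) (Adl K))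
      = 1 := by
    rw [← Units.val_mul, mul_inv_cancel, Units.val_one]
  calc ((a⁻¹ : G K) : Matrix (Fin 2) (Fin 2) (Adl K))
      = ((a : Matrix (Fin 2) (Fin 2) (Adl K)).adjugate * (a : Matrix (Fin 2) (Fin 2) (Adl K)))
          * ((a⁻¹ : G K) : Matrix (Fin 2) (Fin 2) (Adl K)) := by rw [h1, one_mul]
    _ = (a : Matrix (Fin 2) (Fin 2) (Adl K)).adjugate := by rw [mul_assoc, e, mul_one]

theorem inTorus_inv833 (t n : K) {a : G K} (ha : InTorus1 t n a) : InTorus t n a⁻¹ := by
  obtain ⟨⟨a₁, a₂, hval⟩, hdet⟩ := ha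
  refine ⟨a₁ + algebraMap K (Adl K) t * a₂, -a₂, ?_⟩
  rw [inv_val_of_det_one833 hdet, hval, torMat_adjugate833]

/-- **A2.03.8.5.6 TOR-GROUP** (registry row 1232), VERBATIM. -/
theorem torGroupC833 : H254.TorGroupC254 := by
  intro K _ _ t n
  refine ⟨fun a b ha hb => ⟨inTorus_mul833 t n ha.1 hb.1, ?_⟩,
    fun a ha => ⟨inTorus_inv833 t n ha, ?_⟩⟩
  · rw [map_mul, ha.2, hb.2, one_mul]
  · rw [map_inv, ha.2, inv_one]

/-- Type check against the frozen Prop. -/
example : Fermat.Agent.LT.A2.H254.TorGroupC254 := torGroupC833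

end Fermat.Agent.LT.A2.H833

end

end
-- ===== PACK-END LT/A2/H833/TorGroup.lean

-- ===== PACK-BEGIN LT/A2/H904/LiftBddScale.lean
section


/-!
# Row LT, tower A2, leaf A2.03.4 `WL.LiftBddC`: the scaling formulas (helper904)

OFF-MAIN.  From the certificate `WL.IsStd`: the Weil family under central elements and under
`t(a) = diag(a, a⁻¹)`;  `‖η‖ = 1`, `‖χT‖ = 1` on the torus.
-/

set_option autoImplicit false

open IsDedekindDomain NumberField AutomorphicForm MeasureTheory
open scoped MatrixGroups Topology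

noncomputable section

namespace Fermat.Agent.LT.A2.H904

open Fermat.Agent.LT.H130 Fermat.Agent.LT.H556

variable {K : Type} [Field K] [NumberField K]

theorem norm_eta_eq_one {t n : K} {η : (A0.Adl K)ˣ → ℂ} (hq : WL.IsQuadChar t n η)
    (a : (A0.Adl K)ˣ) : ‖η a‖ = 1 := by
  rcases hq.sq a with h | h <;> simp [h]

theorem norm_chiT_eq_one {t n : K} {χT : A0.G K → ℂ} (hχ : IsTorusChar t n χT) {m : A0.G K}
    (hm : InTorus t n m) : ‖χT m‖ = 1 := by
  obtain ⟨k, hk, h⟩ := hχ.fin_order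
  have h2 : ‖χT m‖ ^ k = 1 := by rw [← norm_pow, h m hm, norm_one]
  exact (pow_eq_one_iff_of_nonneg (norm_nonneg _) hk.ne').mp h2

theorem adm_tSL {t n : K} {g m : A0.G K} (a : (A0.Adl K)ˣ) (hadm : Adm t n g m) :
    Adm t n (tSL a * g) m :=
  ⟨hadm.1, by rw [map_mul, det_tSL, one_mul, hadm.2]⟩

theorem adm_cen {t n : K} {g m : A0.G K} (c : (A0.Adl K)ˣ) (hadm : Adm t n g m) :
    Adm t n (cen c * g) (cen c * m) :=
  ⟨inTorus_mul (inTorus_cen t n c) hadm.1, by rw [map_mul, map_mul, hadm.2]⟩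

theorem adm_torus1 {t n : K} {g m m' : A0.G K} (hm' : InTorus1 t n m') (hadm : Adm t n g m) :
    Adm t n g (m' * m) :=
  ⟨inTorus_mul hm'.1 hadm.1, by rw [map_mul, hm'.2, one_mul, hadm.2]⟩

/-- The Weil family under `t(a)`. -/
theorem F_tSL (D : KData K) (η : (A0.Adl K)ˣ → ℂ) (hstd : WL.IsStd D η) (a : (A0.Adl K)ˣ)
    (g m : A0.G K) (ξ : A0.Adl K × A0.Adl K) (hadm : Adm D.t D.n g m) :
    D.F (tSL a * g) m ξ
      = η a * ((T1.adNorm K (a : A0.Adl K) : ℝ) : ℂ) * D.F g m ((a : A0.Adl K) • ξ) :=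
  hstd.diagA (tSL a) a (isDiagSLA_tSL a) g m ξ hadm

/-- The Weil family under the centre: the central character is `η`. -/
theorem F_cen (D : KData K) (η : (A0.Adl K)ˣ → ℂ) (hstd : WL.IsStd D η) (hN : T1.AdNormC K)
    (c : (A0.Adl K)ˣ) (g m : A0.G K) (ξ : A0.Adl K × A0.Adl K) (hadm : Adm D.t D.n g m) :
    D.F (cen c * g) (cen c * m) ξ = η c * D.F g m ξ := by
  have hadm1 : Adm D.t D.n (dOne (c * c) * g) (cen c * m) :=
    ⟨inTorus_mul (inTorus_cen _ _ c) hadm.1, by
      rw [map_mul, map_mul, det_dOne, det_cen, hadm.2]⟩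
  have h1 := hstd.diagA (tSL c) c (isDiagSLA_tSL c) (dOne (c * c) * g) (cen c * m) ξ hadm1
  have hd : WL.IsDiagOneA (dOne (c * c)) (Matrix.GeneralLinearGroup.det (cen c)) := by
    rw [det_cen]; exact isDiagOneA_dOne _
  have h2 := hstd.torA (cen c) (dOne (c * c)) (inTorus_cen _ _ c) hd g m
    ((c : A0.Adl K) • ξ) hadm
  rw [actV_cen_inv_smul, det_cen] at h2
  have hpos : 0 < T1.adNorm K (c : A0.Adl K) := hN.1 c
  have hsq : Real.sqrt (T1.adNorm K (((c * c : (A0.Adl K)ˣ)) : A0.Adl K))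
      = T1.adNorm K (c : A0.Adl K) := by
    rw [hN.2.1 c c, Real.sqrt_mul_self hpos.le]
  rw [hsq] at h2
  have hne : ((T1.adNorm K (c : A0.Adl K) : ℝ) : ℂ) ≠ 0 := by
    exact_mod_cast hpos.ne'
  have hg : cen c * g = tSL c * (dOne (c * c) * g) := by rw [cen_eq, mul_assoc]
  rw [hg, h1, mul_assoc, h2]

/-- The Weil family under `z t(a)`, `z` central. -/
theorem F_scale (D : KData K) (η : (A0.Adl K)ˣ → ℂ) (hstd : WL.IsStd D η) (hN : T1.AdNormC K)
    (ζ a : (A0.Adl K)ˣ) (g m : A0.G K) (ξ : A0.Adl K × A0.Adl K) (hadm : Adm D.t D.n g m) :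
    D.F (cen ζ * (tSL a * g)) (cen ζ * m) ξ
      = η ζ * (η a * ((T1.adNorm K (a : A0.Adl K) : ℝ) : ℂ) * D.F g m ((a : A0.Adl K) • ξ)) := by
  rw [F_cen D η hstd hN ζ (tSL a * g) m ξ (adm_tSL a hadm), F_tSL D η hstd a g m ξ hadm]

theorem norm_F_scale (D : KData K) (η : (A0.Adl K)ˣ → ℂ) (hstd : WL.IsStd D η)
    (hN : T1.AdNormC K)
    (ζ a : (A0.Adl K)ˣ) (g m : A0.G K) (ξ : A0.Adl K × A0.Adl K) (hadm : Adm D.t D.n g m) :
    ‖D.F (cen ζ * (tSL a * g)) (cen ζ * m) ξ‖
      = T1.adNorm K (a : A0.Adl K) * ‖D.F g m ((a : A0.Adl K) • ξ)‖ := by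
  rw [F_scale D η hstd hN ζ a g m ξ hadm, norm_mul, norm_mul, norm_mul,
    norm_eta_eq_one hstd.quad, norm_eta_eq_one hstd.quad, one_mul, one_mul,
    Complex.norm_real, Real.norm_of_nonneg (hN.1 a).le]

end Fermat.Agent.LT.A2.H904

end

end
-- ===== PACK-END LT/A2/H904/LiftBddScale.lean

-- ===== PACK-BEGIN LT/A2/H922/T1Meas.lean
section



/-!
# Row LT, tower A2, leaf A2.03.8.5.7 `H254.T1MeasC254` (helper922) -- OFF-MAIN

`t1MeasC922 : Fermat.Agent.LT.A2.H254.T1MeasC254`, VERBATIM the Prop of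
`LT/A2/H254/IntSpec.lean` (helper254@ddb43b08e, sha256 e654c4196f24).

`T¹(𝔸_K)` and `U` are closed in `G K = GL₂(𝔸_K)` (units topology), hence Borel:
* `InTorus t n m ↔ m₀₁ = -(n m₁₀) ∧ m₁₁ = m₀₀ + t m₁₀` (equalisers of continuous maps into the
  Hausdorff ring `𝔸_K`), `det m = 1` likewise;
* `IsIntegralAt v m`: the evaluation `x ↦ x.2 v` of the restricted product is continuous and
  `𝒪_v` is closed in `K_v`; the inverse is continuous on the group of units.
Only `T2Space (Adl K)` of `T1.LocCompC K` is used.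
-/

set_option autoImplicit false
set_option linter.style.haveILetI false

open IsDedekindDomain NumberField AutomorphicForm MeasureTheory
open scoped MatrixGroups

noncomputable section

namespace Fermat.Agent.LT.A2.H922

open Fermat.Agent.LT.H556 Fermat.Agent.LT.H556.A0 Fermat.Agent.LT.A2.H254
open Fermat.Agent.LT.A2

variable {K : Type} [Field K] [NumberField K]

/-- The entries of the matrix of `g ∈ G K` depend continuously on `g`. -/
theorem continuous_entry922 (i j : Fin 2) :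
    Continuous fun g : G K => (g : Matrix (Fin 2) (Fin 2) (Adl K)) i j := by
  have h1 : Continuous fun g : G K => (g : Matrix (Fin 2) (Fin 2) (Adl K)) :=
    Units.continuous_val
  exact h1.matrix_elem i j

/-- The component at the finite place `v` of an entry depends continuously on `g`. -/
theorem continuous_finComp922 (v : HeightOneSpectrum (𝓞 K)) (i j : Fin 2) :
    Continuous fun g : G K => finComp v g i j := by
  have h1 : Continuous fun x : Adl K => x.2 v :=
    (RestrictedProduct.continuous_eval v).comp continuous_snd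
  exact h1.comp (continuous_entry922 i j)

/-- Characterisation of the torus by two linear equations on the entries. -/
theorem inTorus_iff922 (t n : K) (m : G K) :
    InTorus t n m ↔
      (m : Matrix (Fin 2) (Fin 2) (Adl K)) 0 1
          = -(algebraMap K (Adl K) n * (m : Matrix (Fin 2) (Fin 2) (Adl K)) 1 0) ∧
        (m : Matrix (Fin 2) (Fin 2) (Adl K)) 1 1
          = (m : Matrix (Fin 2) (Fin 2) (Adl K)) 0 0
            + algebraMap K (Adl K) t * (m : Matrix (Fin 2) (Fin 2) (Adl K)) 1 0 := by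
  constructor
  · rintro ⟨a, b, h⟩
    rw [h]
    simp [torMat]
  · rintro ⟨h1, h2⟩
    refine ⟨(m : Matrix (Fin 2) (Fin 2) (Adl K)) 0 0,
      (m : Matrix (Fin 2) (Fin 2) (Adl K)) 1 0, ?_⟩
    ext i j
    fin_cases i <;> fin_cases j
    · simp [torMat]
    · simpa [torMat] using h1
    · simp [torMat]
    · simpa [torMat] using h2

/-- `T(𝔸_K)` is closed. -/
theorem isClosed_inTorus922 [T2Space (Adl K)] (t n : K) :
    IsClosed {m : G K | InTorus t n m} := by
  have h : {m : G K | InTorus t n m} =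
      {m : G K | (m : Matrix (Fin 2) (Fin 2) (Adl K)) 0 1
          = -(algebraMap K (Adl K) n * (m : Matrix (Fin 2) (Fin 2) (Adl K)) 1 0)} ∩
        {m : G K | (m : Matrix (Fin 2) (Fin 2) (Adl K)) 1 1
          = (m : Matrix (Fin 2) (Fin 2) (Adl K)) 0 0
            + algebraMap K (Adl K) t * (m : Matrix (Fin 2) (Fin 2) (Adl K)) 1 0} := by
    ext m
    exact inTorus_iff922 t n m
  rw [h]
  refine IsClosed.inter ?_ ?_
  · exact isClosed_eq (continuous_entry922 0 1)
      ((continuous_const.mul (continuous_entry922 1 0)).neg)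
  · exact isClosed_eq (continuous_entry922 1 1)
      ((continuous_entry922 0 0).add (continuous_const.mul (continuous_entry922 1 0)))

/-- `{det = 1}` is closed. -/
theorem isClosed_det_one922 [T2Space (Adl K)] :
    IsClosed {m : G K | Matrix.GeneralLinearGroup.det m = 1} := by
  have h : {m : G K | Matrix.GeneralLinearGroup.det m = 1} =
      {m : G K | Matrix.det (m : Matrix (Fin 2) (Fin 2) (Adl K)) = 1} := by
    ext m
    simp only [Set.mem_ofPred_eq]
    rw [← Units.val_inj]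
    rfl
  rw [h]
  exact isClosed_eq (Continuous.matrix_det Units.continuous_val) continuous_const

/-- `T¹(𝔸_K)` is closed. -/
theorem isClosed_T1set922 [T2Space (Adl K)] (t n : K) : IsClosed (T1set254 t n) := by
  have h : T1set254 t n = {m : G K | InTorus t n m} ∩
      {m : G K | Matrix.GeneralLinearGroup.det m = 1} := rfl
  rw [h]
  exact (isClosed_inTorus922 t n).inter isClosed_det_one922

/-- `{m | m integral at v}` is closed. -/
theorem isClosed_isIntegralAt922 (v : HeightOneSpectrum (𝓞 K)) :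
    IsClosed {m : G K | IsIntegralAt v m} := by
  have h : {m : G K | IsIntegralAt v m} =
      ⋂ i : Fin 2, ⋂ j : Fin 2,
        (fun g : G K => finComp v g i j) ⁻¹' (v.adicCompletionIntegers K : Set _) := by
    ext m
    simp only [Set.mem_ofPred_eq, Set.mem_iInter, Set.mem_preimage, SetLike.mem_coe]
    rfl
  rw [h]
  refine isClosed_iInter fun i => isClosed_iInter fun j => ?_
  exact (Valued.isClosed_valuationSubring (v.adicCompletion K)).preimage
    (continuous_finComp922 v i j)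

/-- `U` is closed. -/
theorem isClosed_Uset922 [T2Space (Adl K)] (t n : K) (v : HeightOneSpectrum (𝓞 K)) :
    IsClosed (Uset254 t n v) := by
  have h : Uset254 t n v = T1set254 t n ∩
      ({m : G K | IsIntegralAt v m} ∩ (fun m : G K => m⁻¹) ⁻¹' {m : G K | IsIntegralAt v m}) :=
    rfl
  rw [h]
  exact (isClosed_T1set922 t n).inter
    ((isClosed_isIntegralAt922 v).inter ((isClosed_isIntegralAt922 v).preimage continuous_inv))

/-- **LEAF A2.03.8.5.7 `T1MeasC254`.** -/
theorem t1MeasC922 : T1MeasC254 := by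
  intro K _ _ hloc t n v
  haveI : T2Space (Adl K) := hloc.1.2.1
  letI : MeasurableSpace (G K) := borel (G K)
  haveI : BorelSpace (G K) := ⟨rfl⟩
  exact ⟨(isClosed_T1set922 t n).measurableSet, (isClosed_Uset922 t n v).measurableSet⟩

end Fermat.Agent.LT.A2.H922

end

end
-- ===== PACK-END LT/A2/H922/T1Meas.lean

-- ===== PACK-BEGIN LT/T2/H868/Count.lean
section








/-!
# Row LT, tower T2, sub-leaf T2.03c.1 `LeafCount` (helper868, spare / second proof)

OFF-MAIN.  `leafCount868 K : T2.H767.LeafCount K` VERBATIM against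
`LT/T2/H767/LocalL2Spec.lean` (50e6aa79, helper767@74f29da2e), on `LT/T1/Spec.lean` (e8ae48d6),
`LT/T2/Spec.lean` v3 (b934629a), `LT/T2/H386/GPSSpec.lean` (fb5aa9e8), `LT/H556/A0.lean`
(66d3374a), byte-identical copies.  The proof is `countCore868` (`CountC.lean`), which uses of
`T1Out K` only `locComp`, `adeleLattice`, `addFundDom`, `adNorm`, `siegelCompact`.
-/

set_option autoImplicit false

open IsDedekindDomain NumberField MeasureTheory

noncomputable section

namespace Fermat.Agent.LT.T2.H868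

open Fermat.Agent.LT.H556.A0

/-- **T2.03c.1** THE COUNT. -/
theorem countC868 (K : Type) [Field K] [NumberField K] (hT : T1.T1Out K) : H767.CountC K :=
  countCore868 hT

/-- **T2.03c.1** `LeafCount`. -/
theorem leafCount868 (K : Type) [Field K] [NumberField K] : H767.LeafCount K :=
  fun hT => countC868 K hT

example (K : Type) [Field K] [NumberField K] : T1.T1Out K → H767.CountC K := leafCount868 K

end Fermat.Agent.LT.T2.H868

end

end
-- ===== PACK-END LT/T2/H868/Count.lean

-- ===== PACK-BEGIN LT/T2/H941/SmoClosed.lean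
section




















/-!
# Row LT, tower T2, station T2.10 `SMO_AA`: INTEGRATION of the closed leaves (helper941)

OFF-MAIN.  Pattern of `LT/T2/Closed.lean` (helper130) and `LT/T3/Closed.lean` (helper14).  Closed
leaves are imported as byte-identical copies of the owners' files and rebuilt on the
sub-architect's box against `LT/T2/H941/SmoSpec.lean` v2 (sha256 14c4d13ef051), `LT/T2/Spec.lean`
v3 (b934629ad535), `LT/T1/Spec.lean` (e8ae48d6010e), `LT/T3/Spec.lean` (44de320b8621),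
`LT/H556/A0.lean` (66d3374a79ca).

| leaf | Prop | owner | file (sha256) | state |
|---|---|---|---|---|
| T2.10.01 | `ParityC` (optional, real places) | - | - | open, NOT needed for totally complex `K` |
| T2.10.02 | `WhitDataExistsC` | helper655 | `LT/T2/H655/WhitData.lean` (d40554daf513) | CLOSED |
| T2.10.03 | `WhitDetC` | helper79 | `LT/T2/H79/WhitDet.lean` (ade16f45d5c6) | CLOSED |
| T2.10.04 | `WeakApproxC` | helper131 | `LT/T2/H131/WeakApprox.lean` (ef5b2b3b0d87), `WeakApproxLeaf.lean` (dcd610429d4a) | CLOSED |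
| T2.10.05 | `ExtendC` (assembly) | helper439 | `LT/T2/H439/Extend.lean` (6dd57529aa53), `Gen.lean` (2bf31190820c), `Mult.lean` (ae9704f9406a), on `LT/H129/*`, `LT/T2/H429/Loc.lean`, `LT/T1/H793/*`, `LT/T1/H919/SiegelTools.lean` | CLOSED |
| T2.10.06 | `CondExistsC` | helper729 | `LT/T2/H729/CondExists.lean` (b3e924b0a262), `CondExistsLeaf.lean` (ffecc9a2d877) | CLOSED |
| T2.10.07 | `UnramTorusC` | helper255 (2nd owner; claimant helper881) | `LT/T2/H255/UnramTorus.lean` (4fb85dfd5caa), `UnramHecke.lean` (8b4b9ad3e441), `UnramLocal.lean` (c4fa3b1b3950), `WhitEquiv.lean` (0d7a394b7709), on `LT/H129/*` | CLOSED |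
| T2.10.08 | `ArchTorusC` | helper973 (sub-architect; 11 sub-leaves, rows 1199-1209: helper8, 264, 600, 546, 98, 309, 944, 59, 655, 708, 864) | `LT/T2/H973/ArchClosed.lean` (f5452ef82935), `ArchTop.lean` (de01e677b02f), `ArchSpec.lean` (6e234a4a0ea7) + the sub-leaf files | CLOSED |
| T2.10.09 | `ArchTorusRealC` (optional, real place) | - | - | open, NOT needed for totally complex `K` |
| T2.10.10 | `CutoffC` | helper557 | `LT/T2/H557/Cutoff.lean` (c212a442e866), `CutWhit`, `CutLevel`, `CutMat`, `CutLoc`, `CutLocal`, on `LT/H11/LC.lean`, `LT/T3/H237/ConstTerm.lean` | CLOSED |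
| T2.10.11 | `TorusMatchC` (assembly) | helper23 | `LT/T2/H23/TorusMatch.lean` (3d9e2b0ba070), `Idele`, `Whit`, `Level`, `Factor`, `Chain`, `Local` (2038 l.), on `LT/A2/H743/SingleAdele.lean` | CLOSED |
| T2.10.12 | `Aut0C` | helper952 | `LT/T2/H952/Aut0.lean` (6117cf10f8ad) | CLOSED |
| T2.10.13 | `PairC` | helper250 | `LT/T2/H250/PairC.lean` (5a21c301b629) | CLOSED |
| T2.10.14 | `HeckeAdjC` | helper886 | `LT/T2/H886/HeckeAdj.lean` (a445432913b7), `LT/H886/DoubleCoset.lean` (b089b141991b), on `LT/H129/*` (helper129) | CLOSED |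
| T2.10.15 | `HeckeStripC` | helper879 | `LT/T2/H879/HeckeStrip.lean` (175bbdeb9217), `StripLocal.lean` (a6a998ba9c75), `StripGlobal.lean` (35a7c729daf2), on `LT/H129/*` | CLOSED |
| T2.10.16 | `BookC` | helper333 | `LT/T2/H333/Book.lean` (0b93b13da85c) | CLOSED |

INPUTS of the other towers, all CLOSED from `T1.T1Out K`:
`T2.FrameExists` (helper245, `LT/T2/H245/Leaf01.lean`, 63cfff4c0258),
`T3.GoodCharExistsC` (helper276, `LT/T3/H276/GoodChar.lean`, 5fd14ccb02dc),
`T3.CompleteNDC` (helper57, `LT/T3/H57/Leaves.lean`, 0d8cd503a404),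
`T3.HaarScaleC` (helper354, `LT/T3/H354/HaarScale.lean`, a806a6e8af16).

STATE (v5, 15:00Z 28 Sep): ALL 14 LEAVES OF THE WALL ARE CLOSED.  `SmoOpen K` has NO field left
(it is kept, as `True`-like structure, so that the statements of v1-v4 stay valid):
`smoAA_totCplx : (∀ w, w.IsComplex) → T1.T1Out K → T2.SMO_AA K` and
`match_totCplx`, `torusMatch_totCplx`.  Only the two OPTIONAL leaves of the real places
(`SmoOpenReal K`) are open; they are not needed for a totally complex field.

`SmoOpen K` = the leaves that are still open (the case of the wall: `K` totally complex);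
`SmoOpenReal K` = the two optional leaves of the real places.

* `smoAA_of_open_totCplx : (∀ w, w.IsComplex) → T1.T1Out K → SmoOpen K → T2.SMO_AA K`,
* `smoAA_of_open : T1.T1Out K → SmoOpen K → SmoOpenReal K → T2.SMO_AA K`,
* STAGE B is CLOSED: `orth_closed : T1.T1Out K → OrthC K`
  (`orth_of_strip : T1.T1Out K → Leaf15 K → OrthC K` is kept),
* STAGE A (`MatchC`) from the open leaves: `match_of_open : T1.T1Out K → SmoOpen K → MatchC K`
  for a totally complex field.
-/

set_option autoImplicit false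

open IsDedekindDomain NumberField MeasureTheory
open Fermat.Agent.LT.H556.A0

noncomputable section

namespace Fermat.Agent.LT.T2.H941

variable (K : Type) [Field K] [NumberField K]

/-! ## The state of the station -/

/-- THE OPEN PART of station T2.10 (`K` totally complex): the leaves still to be proved.
v5: NO field is left. -/
structure SmoOpen (K : Type) [Field K] [NumberField K] : Prop where

/-- The two OPTIONAL leaves (real places); not needed for a totally complex field. -/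
structure SmoOpenReal : Prop where
  /-- T2.10.01 (registry 1094): `ParityC`. -/
  l01 : _root_.Fermat.Agent.LT.T2.H941.Leaf01 K
  /-- T2.10.09 (registry 1102): `ArchTorusRealC`. -/
  l09 : _root_.Fermat.Agent.LT.T2.H941.Leaf09 K

/-! ## The closed inputs of the other towers -/

/-- `T2.FrameExists` closed (helper245). -/
theorem frameExists_closed (h : T1.T1Out K) : T2.FrameExists K :=
  (T2.H245.leaf01_245 K h).1

/-- `T3.GoodCharExistsC` closed (helper276). -/
theorem goodCharExists_closed (h : T1.T1Out K) : T3.GoodCharExistsC K :=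
  T3.H276.leaf_goodChar276 K h.locComp

/-- `T3.CompleteNDC` closed (helper57). -/
theorem completeND_closed (h : T1.T1Out K) : T3.CompleteNDC K :=
  T3.H57.completeND57 K h.locComp h.adeleLattice h.addFundDom
    (T3.H57.perpND57 K h.locComp h.adeleLattice)

/-- `T3.HaarScaleC` closed (helper354). -/
theorem haarScale_closed (h : T1.T1Out K) : T3.HaarScaleC K :=
  T3.H354.haarScaleC_of K h.locComp h.addFundDom

/-! ## The closed leaves -/

/-- T2.10.02 closed (helper655). -/
theorem whitDataExists_closed (h : T1.T1Out K) : WhitDataExistsC K :=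
  T2.H655.leaf02_655 K h (goodCharExists_closed K h)

/-- T2.10.03 closed (helper79). -/
theorem whitDet_closed (h : T1.T1Out K) : WhitDetC K :=
  T2.H79.leaf03_79 K h (completeND_closed K h) (haarScale_closed K h)

/-- T2.10.04 closed (helper131). -/
theorem weakApprox_closed : WeakApproxC K :=
  T2.H131.leaf04_h131 K

/-- T2.10.06 closed (helper729). -/
theorem condExists_closed : CondExistsC K :=
  T2.H729.condExistsC729 K

/-- T2.10.07 closed (helper255). -/
theorem unramTorus_closed : UnramTorusC K :=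
  T2.H255.unramTorusC255 K

/-- T2.10.12 closed (helper952). -/
theorem aut0_closed : Aut0C K :=
  T2.H952.aut0C952 K

/-- T2.10.13 closed (helper250). -/
theorem pair_closed (h : T1.T1Out K) : PairC K :=
  T2.H250.leaf13_250 K h

/-- T2.10.14 closed (helper886). -/
theorem heckeAdj_closed (h : T1.T1Out K) : HeckeAdjC K :=
  T2.H886.leaf14_886 K h (pair_closed K h)

/-- T2.10.15 closed (helper879). -/
theorem heckeStrip_closed (h : T1.T1Out K) : HeckeStripC K :=
  T2.H879.heckeStripC_of_pairC879 (pair_closed K h)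

/-- T2.10.16 closed (helper333). -/
theorem book_closed : BookC K :=
  T2.H333.bookC333 K

/-! ## The stages from the open leaves -/

/-- `ExtendC` from its assembly leaf. -/
theorem extend_of_leaf (h : T1.T1Out K) (l05 : _root_.Fermat.Agent.LT.T2.H941.Leaf05 K) : ExtendC K :=
  l05 h (whitDet_closed K h) (weakApprox_closed K)

/-- T2.10.05 closed (helper439). -/
theorem extend_closed (h : T1.T1Out K) : ExtendC K :=
  extend_of_leaf K h (T2.H439.leaf05_h439 K)

/-- T2.10.08 closed (helper973 and the owners of the rows 1199-1209). -/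
theorem archTorus_closed (h : T1.T1Out K) : ArchTorusC K :=
  T2.H973.leaf08_973 K h

/-- T2.10.10 closed (helper557). -/
theorem cutoff_closed : CutoffC K :=
  T2.H557.cutoffC557 K

/-- **STAGE B** (`OrthC`) is closed up to the leaf T2.10.15 `HeckeStripC`. -/
theorem orth_of_strip (h : T1.T1Out K) (l15 : Leaf15 K) : OrthC K :=
  orth_of K (aut0_closed K) (pair_closed K h) (heckeAdj_closed K h) (l15 h (pair_closed K h))
    (book_closed K) h.heckeCoset (frameExists_closed K h)

/-- **STAGE B** (`OrthC`) is CLOSED. -/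
theorem orth_closed (h : T1.T1Out K) : OrthC K :=
  orth_of_strip K h (fun _ hP => T2.H879.heckeStripC_of_pairC879 hP)

/-- T2.10.11, as an implication, closed (helper23). -/
theorem leaf11_closed : Leaf11 K :=
  T2.H23.leaf11_23 K

/-- `ArchTorusRealC` is vacuous over a totally complex field. -/
theorem archTorusReal_of_totCplx (hcx : ∀ w : InfinitePlace K, w.IsComplex) :
    ArchTorusRealC K := by
  intro ψ ν D _ w hw
  exact absurd (hcx w) (InfinitePlace.not_isComplex_iff_isReal.mpr hw)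

/-- `TorusMatchC` from the open leaves (`K` totally complex). -/
theorem torusMatch_of_open (hcx : ∀ w : InfinitePlace K, w.IsComplex) (h : T1.T1Out K)
    (_O : SmoOpen K) : TorusMatchC K :=
  leaf11_closed K h (extend_closed K h) (condExists_closed K) (unramTorus_closed K)
    (archTorus_closed K h) (archTorusReal_of_totCplx K hcx) (cutoff_closed K)

/-- **STAGE A** (`MatchC`) from the open leaves (`K` totally complex). -/
theorem match_of_open (hcx : ∀ w : InfinitePlace K, w.IsComplex) (h : T1.T1Out K)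
    (O : SmoOpen K) : MatchC K :=
  match_of K (whitDataExists_closed K h) (torusMatch_of_open K hcx h O)
    (extend_closed K h)

/-- **STATE OF THE STATION**: `SMO_AA` from the output of T1 and the open leaves. -/
theorem smoAA_of_open (h : T1.T1Out K) (_O : SmoOpen K) (R : SmoOpenReal K) : T2.SMO_AA K :=
  top K h (goodCharExists_closed K h) (completeND_closed K h) (haarScale_closed K h)
    (frameExists_closed K h) R.l01 (T2.H655.leaf02_655 K) (T2.H79.leaf03_79 K)
    (T2.H131.leaf04_h131 K) (T2.H439.leaf05_h439 K) (T2.H729.leaf06_729 K)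
    (T2.H255.leaf07_255 K) (T2.H973.leaf08_973 K) R.l09 (T2.H557.leaf10_557 K)
    (T2.H23.leaf11_23 K)
    (T2.H952.aut0C952 K) (T2.H250.leaf13_250 K) (T2.H886.leaf14_886 K)
    (fun _ hP => T2.H879.heckeStripC_of_pairC879 hP)
    (T2.H333.leaf16_333 K)

/-- **STATE OF THE STATION, the case of the wall** (`K` totally complex): `SMO_AA` from the output
of T1 (no open leaf is left). -/
theorem smoAA_of_open_totCplx (hcx : ∀ w : InfinitePlace K, w.IsComplex) (h : T1.T1Out K)
    (_O : SmoOpen K) : T2.SMO_AA K :=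
  top_totCplx K hcx h (goodCharExists_closed K h) (completeND_closed K h) (haarScale_closed K h)
    (frameExists_closed K h) (T2.H655.leaf02_655 K) (T2.H79.leaf03_79 K)
    (T2.H131.leaf04_h131 K) (T2.H439.leaf05_h439 K) (T2.H729.leaf06_729 K)
    (T2.H255.leaf07_255 K) (T2.H973.leaf08_973 K) (T2.H557.leaf10_557 K)
    (T2.H23.leaf11_23 K)
    (T2.H952.aut0C952 K) (T2.H250.leaf13_250 K) (T2.H886.leaf14_886 K)
    (fun _ hP => T2.H879.heckeStripC_of_pairC879 hP)
    (T2.H333.leaf16_333 K)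

/-! ## The station is CLOSED for totally complex fields -/

/-- Nothing is open. -/
theorem smoOpen_closed : SmoOpen K := ⟨⟩

/-- `TorusMatchC` for a totally complex field. -/
theorem torusMatch_totCplx (hcx : ∀ w : InfinitePlace K, w.IsComplex) (h : T1.T1Out K) :
    TorusMatchC K :=
  torusMatch_of_open K hcx h (smoOpen_closed K)

/-- **STAGE A** (`MatchC`) for a totally complex field. -/
theorem match_totCplx (hcx : ∀ w : InfinitePlace K, w.IsComplex) (h : T1.T1Out K) : MatchC K :=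
  match_of_open K hcx h (smoOpen_closed K)

/-- **STATION T2.10 CLOSED for totally complex fields**: strong multiplicity one for the adelic
cusp forms of parameter `0`, from the output of tower T1. -/
theorem smoAA_totCplx (hcx : ∀ w : InfinitePlace K, w.IsComplex) (h : T1.T1Out K) :
    T2.SMO_AA K :=
  smoAA_of_open_totCplx K hcx h (smoOpen_closed K)

/-- Every number field: `SMO_AA` from the output of T1 and the two optional leaves of the real
places. -/
theorem smoAA_of_real (h : T1.T1Out K) (R : SmoOpenReal K) : T2.SMO_AA K :=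
  smoAA_of_open K h (smoOpen_closed K) R

end Fermat.Agent.LT.T2.H941

end

end
-- ===== PACK-END LT/T2/H941/SmoClosed.lean

-- ===== PACK-BEGIN LT/T3/H263/SatMeasure.lean
section



/-!
# Row LT, tower T3, station T3.18a, leaf AS.1 `SatakeLocC` (helper263), OFF-MAIN -- part 3

Abstract nonarchimedean local field `k` with residue data `D` and COMPACT ring of integers.
The `N`-integral of `T_{n,m}`:

    ∫ T_{n,m} [[c₁, x], [0, c₂]] dν₀(x) = ν₀(𝒪) q^{-(m₁+m₂)/2} A_{n,m}(m₁, m₂),  m_i = ord c_i,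

for every Haar measure `ν₀` of `k`: the integrand is the indicator function of `ϖ^m 𝒪` when
`m₁, m₂ ≥ m`, `m₁ + m₂ = n + 2m` and `0` otherwise, and `ν₀(ϖ^m 𝒪) = q^{-m} ν₀(𝒪)` by the
decomposition `ϖ^m 𝒪 = ⊔_{d ∈ T} (ϖ^m d + ϖ^{m+1} 𝒪)`.
-/

set_option autoImplicit false

open scoped Classical

open MeasureTheory

noncomputable section

namespace Fermat.Agent.LT.T3.H263

open Fermat.Agent.LT.T6 Fermat.Agent.LT.T6.H305 Fermat.Agent.LT.T3.AS

variable {k : Type} [Field k] [Valued k Γ₀]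

/-- The additive valuation (junk value at `0`). -/
def ord263 (c : k) : ℤ := - WithZero.log (Valued.v c)

theorem val_eq_exp_ord263 {c : k} (hc : c ≠ 0) : Valued.v c = WithZero.exp (-ord263 c) := by
  unfold ord263
  rw [neg_neg, WithZero.exp_log]
  exact (Valuation.ne_zero_iff _).2 hc

/-- The ball `ϖ^m 𝒪`. -/
def ball263 (m : ℤ) : Set k := {x | Valued.v x ≤ WithZero.exp (-m)}

theorem exp_mul_exp263 (a b : ℤ) :
    (WithZero.exp a : Γ₀) * WithZero.exp b = WithZero.exp (a + b) :=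
  (WithZero.exp_add a b).symm

theorem val_le_exp_iff263 (D : ResData k) (m : ℤ) (x : k) :
    Valued.v x ≤ WithZero.exp (-m) ↔ Valued.v (D.ϖ ^ (-m) * x) ≤ 1 := by
  rw [map_mul, D.val_zpow, neg_neg]
  constructor
  · intro h
    calc (WithZero.exp m : Γ₀) * Valued.v x ≤ WithZero.exp m * WithZero.exp (-m) :=
          mul_le_mul' le_rfl h
      _ = 1 := by rw [exp_mul_exp263, add_neg_cancel, WithZero.exp_zero]
  · intro h
    have e : Valued.v x = WithZero.exp (-m) * (WithZero.exp m * Valued.v x) := by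
      rw [← mul_assoc, exp_mul_exp263, neg_add_cancel, WithZero.exp_zero, one_mul]
    rw [e]
    calc (WithZero.exp (-m) : Γ₀) * (WithZero.exp m * Valued.v x)
        ≤ WithZero.exp (-m) * 1 := mul_le_mul' le_rfl h
      _ = WithZero.exp (-m) := mul_one _

theorem ball_zero263 : ball263 (k := k) 0 = {x : k | Valued.v x ≤ 1} := by
  unfold ball263
  rw [neg_zero, WithZero.exp_zero]

theorem isClosed_ball263 (D : ResData k) (m : ℤ) : IsClosed (ball263 (k := k) m) := by
  have e : ball263 (k := k) m = (fun x => D.ϖ ^ (-m) * x) ⁻¹' {x : k | Valued.v x ≤ 1} := by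
    ext x
    exact val_le_exp_iff263 D m x
  rw [e]
  have hc : IsClosed {x : k | Valued.v x ≤ 1} := Valued.isClosed_valuationSubring k
  exact hc.preimage (by fun_prop)

/-- `ϖ^m 𝒪 = ⊔_{d ∈ T} (ϖ^m d + ϖ^{m+1} 𝒪)`. -/
theorem ball_eq_iUnion263 (D : ResData k) (m : ℤ) :
    ball263 (k := k) m
      = ⋃ d ∈ D.T, (fun x => -(D.ϖ ^ m * d) + x) ⁻¹' ball263 (m + 1) := by
  ext x
  simp only [Set.mem_iUnion, Set.mem_preimage, ball263, Set.mem_ofPred_eq, exists_prop]
  constructor
  · intro hx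
    have h1 : Valued.v (D.ϖ ^ (-m) * x) ≤ 1 := (val_le_exp_iff263 D m x).1 hx
    obtain ⟨d, hd, hlt⟩ := D.cov _ h1
    refine ⟨d, hd, ?_⟩
    have hone : D.ϖ ^ m * D.ϖ ^ (-m) = 1 := by
      rw [← zpow_add₀ D.ϖ_ne_zero, add_neg_cancel, zpow_zero]
    have e : -(D.ϖ ^ m * d) + x = D.ϖ ^ m * (D.ϖ ^ (-m) * x - d) := by
      linear_combination (-x) * hone
    rw [e, map_mul, D.val_zpow]
    have h2 := (lt_one_iff_le_exp _).1 hlt
    calc (WithZero.exp (-m) : Γ₀) * Valued.v (D.ϖ ^ (-m) * x - d)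
        ≤ WithZero.exp (-m) * WithZero.exp (-1 : ℤ) := mul_le_mul' le_rfl h2
      _ = WithZero.exp (-(m + 1)) := by
          rw [exp_mul_exp263]
          congr 1
          ring
  · rintro ⟨d, hd, hx⟩
    have e : x = (-(D.ϖ ^ m * d) + x) + D.ϖ ^ m * d := by ring
    rw [e]
    refine Valuation.map_add_le _ (hx.trans ?_) ?_
    · rw [WithZero.exp_le_exp]
      omega
    · rw [map_mul, D.val_zpow]
      calc (WithZero.exp (-m) : Γ₀) * Valued.v d ≤ WithZero.exp (-m) * 1 :=
            mul_le_mul' le_rfl (D.int d hd)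
        _ = WithZero.exp (-m) := mul_one _

theorem ball_pieces_disjoint263 (D : ResData k) (m : ℤ) :
    (D.T : Set k).PairwiseDisjoint
      (fun d => (fun x => -(D.ϖ ^ m * d) + x) ⁻¹' ball263 (k := k) (m + 1)) := by
  intro d hd d' hd' hne
  rw [Function.onFun, Set.disjoint_left]
  intro x hx hx'
  simp only [Set.mem_preimage, ball263, Set.mem_ofPred_eq] at hx hx'
  have e : D.ϖ ^ m * (d' - d) = (-(D.ϖ ^ m * d) + x) - (-(D.ϖ ^ m * d') + x) := by ring
  have h1 : Valued.v (D.ϖ ^ m * (d' - d)) ≤ WithZero.exp (-(m + 1)) := by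
    rw [e]
    exact Valuation.map_sub_le _ hx hx'
  rw [map_mul, D.val_zpow, D.sep d' hd' d hd (Ne.symm hne), mul_one, WithZero.exp_le_exp] at h1
  omega

theorem card_pos263 (D : ResData k) : 0 < D.T.card :=
  Finset.card_pos.2 ⟨0, D.zero_mem⟩

section Meas

variable [MeasurableSpace k] [BorelSpace k]

theorem measurableSet_ball263 (D : ResData k) (m : ℤ) : MeasurableSet (ball263 (k := k) m) :=
  (isClosed_ball263 D m).measurableSet

theorem measure_ball_succ263 (D : ResData k) (ν : Measure k) [ν.IsAddHaarMeasure] (m : ℤ) :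
    ν (ball263 m) = (D.T.card : ENNReal) * ν (ball263 (m + 1)) := by
  rw [ball_eq_iUnion263 D m, measure_biUnion_finset (ball_pieces_disjoint263 D m)]
  · rw [Finset.sum_congr rfl (fun d _ => measure_preimage_add ν (-(D.ϖ ^ m * d)) _),
      Finset.sum_const, nsmul_eq_mul]
  · intro d _
    exact ((isClosed_ball263 D (m + 1)).preimage (by fun_prop)).measurableSet

theorem measure_ball_nat263 (D : ResData k) (ν : Measure k) [ν.IsAddHaarMeasure] (n : ℕ) :
    ν (ball263 0) = (D.T.card : ENNReal) ^ n * ν (ball263 (n : ℤ)) := by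
  induction n with
  | zero => simp
  | succ n ih =>
    rw [ih, measure_ball_succ263 D ν (n : ℤ), pow_succ, mul_assoc]
    push_cast
    rfl

theorem measure_ball_neg263 (D : ResData k) (ν : Measure k) [ν.IsAddHaarMeasure] (n : ℕ) :
    ν (ball263 (-(n : ℤ))) = (D.T.card : ENNReal) ^ n * ν (ball263 0) := by
  induction n with
  | zero => simp
  | succ n ih =>
    rw [measure_ball_succ263 D ν (-((n + 1 : ℕ) : ℤ))]
    have e : -((n + 1 : ℕ) : ℤ) + 1 = -(n : ℤ) := by
      push_cast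
      ring
    rw [e, ih, pow_succ, ← mul_assoc, mul_comm ((D.T.card : ENNReal) ^ n)]

/-- `ν₀(ϖ^m 𝒪) = q^{-m} ν₀(𝒪)`. -/
theorem measure_ball_real263 (D : ResData k) (ν : Measure k) [ν.IsAddHaarMeasure] (m : ℤ) :
    (ν (ball263 m)).toReal = (D.T.card : ℝ) ^ (-m) * (ν (ball263 0)).toReal := by
  have hq : (D.T.card : ℝ) ≠ 0 := by
    have := card_pos263 D
    positivity
  obtain ⟨n, rfl | rfl⟩ := Int.eq_nat_or_neg m
  · have h := congrArg ENNReal.toReal (measure_ball_nat263 D ν n)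
    rw [ENNReal.toReal_mul, ENNReal.toReal_pow, ENNReal.toReal_natCast] at h
    rw [h, zpow_neg, zpow_natCast, ← mul_assoc, inv_mul_cancel₀ (pow_ne_zero _ hq), one_mul]
  · have h := congrArg ENNReal.toReal (measure_ball_neg263 D ν n)
    rw [ENNReal.toReal_mul, ENNReal.toReal_pow, ENNReal.toReal_natCast] at h
    rw [h, neg_neg, zpow_natCast]

theorem measure_ball_ne_top263 (D : ResData k) (hcpt : IsCompact {x : k | Valued.v x ≤ 1})
    (ν : Measure k) [ν.IsAddHaarMeasure] (m : ℤ) : ν (ball263 m) ≠ ⊤ := by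
  have h0 : ν (ball263 0) ≠ ⊤ := by
    rw [ball_zero263]
    exact hcpt.measure_lt_top.ne
  obtain ⟨n, rfl | rfl⟩ := Int.eq_nat_or_neg m
  · refine ne_top_of_le_ne_top h0 (measure_mono ?_)
    intro x hx
    have hx' : Valued.v x ≤ WithZero.exp (-(n : ℤ)) := hx
    show Valued.v x ≤ WithZero.exp (-(0 : ℤ))
    refine le_trans hx' ?_
    rw [WithZero.exp_le_exp]
    omega
  · rw [measure_ball_neg263 D ν n]
    exact ENNReal.mul_ne_top (ENNReal.pow_ne_top (ENNReal.natCast_ne_top _)) h0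

end Meas

/-! ## The `N`-integral -/

/-- The abstract form of `AS.HasSatakeN`, with integrability. -/
def HasN263 (D : ResData k) (f : GL (Fin 2) k → ℂ) (A : ℤ × ℤ → ℂ) : Prop :=
  letI : MeasurableSpace k := borel k
  ∀ ν₀ : Measure k, ν₀.IsAddHaarMeasure → ∀ c₁ c₂ : kˣ,
    Integrable (fun x => f (upperGL c₁ c₂ x)) ν₀ ∧
    ∫ x, f (upperGL c₁ c₂ x) ∂ν₀
      = ((ν₀ {x : k | Valued.v x ≤ 1}).toReal : ℂ)
        * ((((D.T.card : ℝ)) ^ (-(((ord263 (c₁ : k) + ord263 (c₂ : k) : ℤ) : ℝ)) / 2) : ℝ) : ℂ)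
        * A (ord263 (c₁ : k), ord263 (c₂ : k))

theorem hasN_zero263 (D : ResData k) : HasN263 D (fun _ => 0) (fun _ => 0) := by
  letI : MeasurableSpace k := borel k
  intro ν₀ _ c₁ c₂
  refine ⟨integrable_zero _ _ _, ?_⟩
  simp

theorem hasN_add263 (D : ResData k) {f₁ f₂ : GL (Fin 2) k → ℂ} {A₁ A₂ : ℤ × ℤ → ℂ}
    (h₁ : HasN263 D f₁ A₁) (h₂ : HasN263 D f₂ A₂) :
    HasN263 D (fun g => f₁ g + f₂ g) (fun m => A₁ m + A₂ m) := by
  letI : MeasurableSpace k := borel k
  intro ν₀ hν₀ c₁ c₂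
  obtain ⟨i₁, e₁⟩ := h₁ ν₀ hν₀ c₁ c₂
  obtain ⟨i₂, e₂⟩ := h₂ ν₀ hν₀ c₁ c₂
  refine ⟨i₁.add i₂, ?_⟩
  rw [integral_add i₁ i₂, e₁, e₂]
  ring

theorem hasN_smul263 (D : ResData k) {f : GL (Fin 2) k → ℂ} {A : ℤ × ℤ → ℂ}
    (h : HasN263 D f A) (c : ℂ) :
    HasN263 D (fun g => c * f g) (fun m => c * A m) := by
  letI : MeasurableSpace k := borel k
  intro ν₀ hν₀ c₁ c₂
  obtain ⟨i₁, e₁⟩ := h ν₀ hν₀ c₁ c₂
  refine ⟨i₁.const_mul c, ?_⟩
  rw [integral_const_mul, e₁]
  ring

omit [Valued k Γ₀] in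
theorem upperGL_apply263 (c₁ c₂ : kˣ) (x : k) :
    ((upperGL c₁ c₂ x : GL (Fin 2) k) : Matrix (Fin 2) (Fin 2) k) = !![(c₁ : k), x; 0, (c₂ : k)] :=
  rfl

/-- The condition on `(m₁, m₂) = (ord c₁, ord c₂)`. -/
def Cond263 (n : ℕ) (m : ℤ) (x : ℤ × ℤ) : Prop :=
  m ≤ x.1 ∧ m ≤ x.2 ∧ x.1 + x.2 = (n : ℤ) + 2 * m

theorem inS_upper263 (n : ℕ) (m : ℤ) (c₁ c₂ : kˣ) (x : k) :
    InS263 n m (upperGL c₁ c₂ x)
      ↔ Cond263 n m (ord263 (c₁ : k), ord263 (c₂ : k)) ∧ x ∈ ball263 m := by
  have v₁ := val_eq_exp_ord263 (c := (c₁ : k)) c₁.ne_zero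
  have v₂ := val_eq_exp_ord263 (c := (c₂ : k)) c₂.ne_zero
  have hdet : Valued.v ((upperGL c₁ c₂ x : GL (Fin 2) k) : Matrix (Fin 2) (Fin 2) k).det
      = WithZero.exp (-(ord263 (c₁ : k) + ord263 (c₂ : k))) := by
    rw [upperGL_apply263, Matrix.det_fin_two_of, mul_zero, sub_zero, map_mul, v₁, v₂,
      exp_mul_exp263]
    congr 1
    ring
  unfold InS263 Cond263
  rw [hdet, WithZero.exp_inj]
  constructor
  · rintro ⟨hent, hd⟩
    have h00 := hent 0 0
    have h01 := hent 0 1
    have h11 := hent 1 1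
    rw [upperGL_apply263] at h00 h01 h11
    simp only [Matrix.of_apply, Matrix.cons_val', Matrix.cons_val_zero, Matrix.cons_val_one,
      Matrix.cons_val_fin_one] at h00 h01 h11
    rw [v₁, WithZero.exp_le_exp] at h00
    rw [v₂, WithZero.exp_le_exp] at h11
    refine ⟨⟨by omega, by omega, by omega⟩, h01⟩
  · rintro ⟨⟨h1, h2, h3⟩, hx⟩
    refine ⟨fun i j => ?_, by omega⟩
    rw [upperGL_apply263]
    fin_cases i <;> fin_cases j
    · simp only [Fin.zero_eta, Matrix.of_apply, Matrix.cons_val', Matrix.cons_val_zero,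
        Matrix.cons_val_fin_one]
      rw [v₁, WithZero.exp_le_exp]
      omega
    · exact hx
    · simp
    · simp only [Fin.mk_one, Matrix.of_apply, Matrix.cons_val', Matrix.cons_val_one,
        Matrix.cons_val_fin_one]
      rw [v₂, WithZero.exp_le_exp]
      omega

theorem tind_upper263 (n : ℕ) (m : ℤ) (c₁ c₂ : kˣ) :
    (fun x : k => Tind263 n m (upperGL c₁ c₂ x))
      = if Cond263 n m (ord263 (c₁ : k), ord263 (c₂ : k))
          then (ball263 (k := k) m).indicator (fun _ => (1 : ℂ)) else fun _ => 0 := by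
  funext x
  unfold Tind263
  by_cases hc : Cond263 n m (ord263 (c₁ : k), ord263 (c₂ : k))
  · rw [if_pos hc]
    by_cases hx : x ∈ ball263 (k := k) m
    · rw [if_pos ((inS_upper263 n m c₁ c₂ x).2 ⟨hc, hx⟩), Set.indicator_of_mem hx]
    · rw [if_neg (fun h => hx ((inS_upper263 n m c₁ c₂ x).1 h).2),
        Set.indicator_of_notMem hx]
  · rw [if_neg hc, if_neg (fun h => hc ((inS_upper263 n m c₁ c₂ x).1 h).1)]

theorem rpow_half_mul263 (q : ℝ) (hq : 0 < q) (n : ℕ) (m : ℤ) :
    q ^ (-(((n : ℤ) + 2 * m : ℤ) : ℝ) / 2) * Real.sqrt q ^ n = q ^ (-m) := by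
  rw [Real.sqrt_eq_rpow, ← Real.rpow_natCast (q ^ (1 / 2 : ℝ)) n, ← Real.rpow_mul hq.le,
    ← Real.rpow_add hq, ← Real.rpow_intCast]
  congr 1
  push_cast
  ring

theorem hasN_tind263 (D : ResData k) (hcpt : IsCompact {x : k | Valued.v x ≤ 1})
    (n : ℕ) (m : ℤ) : HasN263 D (Tind263 n m) (Acoef263 D n m) := by
  letI : MeasurableSpace k := borel k
  haveI : BorelSpace k := ⟨rfl⟩
  intro ν₀ hν₀ c₁ c₂
  haveI := hν₀
  rw [tind_upper263]
  by_cases hc : Cond263 n m (ord263 (c₁ : k), ord263 (c₂ : k))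
  · rw [if_pos hc]
    refine ⟨?_, ?_⟩
    · rw [integrable_indicator_iff (measurableSet_ball263 D m)]
      exact integrableOn_const (measure_ball_ne_top263 D hcpt ν₀ m)
    · rw [integral_indicator_const _ (measurableSet_ball263 D m)]
      have hA : Acoef263 D n m (ord263 (c₁ : k), ord263 (c₂ : k)) = sq263 D ^ n := by
        unfold Acoef263
        exact if_pos hc
      have hsum : ord263 (c₁ : k) + ord263 (c₂ : k) = (n : ℤ) + 2 * m := hc.2.2
      rw [hA, hsum, Measure.real, measure_ball_real263 D ν₀ m, ball_zero263]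
      have hq : (0 : ℝ) < (D.T.card : ℝ) := by
        have := card_pos263 D
        positivity
      have key := rpow_half_mul263 (D.T.card : ℝ) hq n m
      unfold sq263
      rw [Complex.real_smul, mul_one, mul_assoc, ← Complex.ofReal_pow, ← Complex.ofReal_mul,
        key, ← Complex.ofReal_mul, mul_comm]
  · rw [if_neg hc]
    refine ⟨integrable_zero _ _ _, ?_⟩
    have hA : Acoef263 D n m (ord263 (c₁ : k), ord263 (c₂ : k)) = 0 := by
      unfold Acoef263
      exact if_neg hc
    rw [hA]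
    simp

end Fermat.Agent.LT.T3.H263

end

end
-- ===== PACK-END LT/T3/H263/SatMeasure.lean

-- ===== PACK-BEGIN LT/T7/H290/BorelExch.lean
section




/-!
# Row LT, tower T7, LEAF `FoldWhitC`, node `CorePosC57`: EXCHANGE of fundamental domains on the
Borel coordinates `P = 𝔸 × 𝔸ˣ × 𝔸ˣ` (helper290)

OFF-MAIN.  No `sorry`, nothing assumed.
-/

set_option autoImplicit false
set_option linter.unusedSectionVars false
set_option linter.style.haveILetI false

open AutomorphicForm IsDedekindDomain NumberField Filter Topology MeasureTheory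
open scoped ComplexConjugate ENNReal

noncomputable section

namespace Fermat.Agent.LT.T7.Rigid.H290

open Fermat.Agent.LT.H556 Fermat.Agent.LT.H556.A0 Fermat.Agent.LT.T7 Fermat.Agent.LT.T7.Rigid
open Fermat.Agent.LT.T7.H57

variable (K : Type) [Field K] [NumberField K]

/-- The Borel σ-algebra of the adeles (local instance of this file). -/
local instance instMA290 : MeasurableSpace (Adl K) := borel (Adl K)

local instance instBA290 : BorelSpace (Adl K) := ⟨rfl⟩

/-- The Borel σ-algebra of the ideles (local instance of this file). -/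
local instance instMI290 : MeasurableSpace (Adl K)ˣ := borel (Adl K)ˣ

local instance instBI290 : BorelSpace (Adl K)ˣ := ⟨rfl⟩

/-! ## 1. Unfolding on `𝔸` and on the ideles, `ℝ≥0∞` form -/

theorem countable_K290 : Countable K := Finsupp.Countable.of_moduleFinite (R := ℚ) (M := K)

/-- Unfolding over `K` in the adeles. -/
theorem lintegral_unfold_add290
    (ν : Measure (Adl K)) [ν.IsAddHaarMeasure] {D : Set (Adl K)}
    (hD : IsAddFundamentalDomain ((algebraMap K (Adl K)).toAddMonoidHom.range) D ν)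
    (f : Adl K → ℝ≥0∞) (hf : Measurable f) :
    ∫⁻ x, f x ∂ν = ∫⁻ x in D, (∑' ξ : K, f (x + algebraMap K (Adl K) ξ)) ∂ν := by
  have : Countable K := countable_K290 K
  set Γ : AddSubgroup (Adl K) := (algebraMap K (Adl K)).toAddMonoidHom.range with hΓ
  have hinj : Function.Injective (algebraMap K (Adl K)).toAddMonoidHom :=
    NumberField.AdeleRing.algebraMap_injective (𝓞 K) K
  let e : K ≃+ Γ := AddMonoidHom.ofInjective hinj
  have : Countable Γ := e.symm.injective.countable
  have hm : ∀ ξ : K, AEMeasurable (fun x => f (x + algebraMap K (Adl K) ξ)) (ν.restrict D) :=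
    fun ξ => (hf.comp (measurable_id.add_const _)).aemeasurable
  rw [hD.lintegral_eq_tsum'' f, lintegral_tsum hm, ← e.toEquiv.tsum_eq]
  refine tsum_congr fun ξ => ?_
  refine lintegral_congr fun x => ?_
  change f ((e ξ : Adl K) + x) = f (x + algebraMap K (Adl K) ξ)
  rw [add_comm]
  rfl

/-- Unfolding over `Kˣ` in the ideles. -/
theorem lintegral_unfold_mul290
    (τ : Measure (Adl K)ˣ) [τ.IsHaarMeasure] {FX : Set (Adl K)ˣ}
    (hFX : IsFundamentalDomain (ratU57 K).range FX τ)
    (f : (Adl K)ˣ → ℝ≥0∞) (hf : Measurable f) :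
    ∫⁻ y, f y ∂τ = ∫⁻ y in FX, (∑' α : Kˣ, f (ratU57 K α * y)) ∂τ := by
  have : Countable K := countable_K290 K
  have : Countable Kˣ := Function.Injective.countable (f := Units.val) Units.val_injective
  have hinj : Function.Injective (ratU57 K) := by
    intro a b hab
    have h1 : ((ratU57 K a : (Adl K)ˣ) : Adl K) = ((ratU57 K b : (Adl K)ˣ) : Adl K) := by rw [hab]
    exact Units.ext (NumberField.AdeleRing.algebraMap_injective (𝓞 K) K h1)
  let e : Kˣ ≃* (ratU57 K).range := MonoidHom.ofInjective hinj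
  have : Countable (ratU57 K).range := e.symm.injective.countable
  have hm : ∀ α : Kˣ, AEMeasurable (fun y => f (ratU57 K α * y)) (τ.restrict FX) :=
    fun α => (hf.comp (measurable_const_mul _)).aemeasurable
  rw [hFX.lintegral_eq_tsum'' f, lintegral_tsum hm, ← e.toEquiv.tsum_eq]
  refine tsum_congr fun α => ?_
  rfl

/-! ## 2. The measures as sums of translates of their restrictions to fundamental domains -/

theorem countable_Kx290 : Countable Kˣ :=
  haveI := countable_K290 K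
  Function.Injective.countable (f := Units.val) Units.val_injective

theorem ratU_injective290 : Function.Injective (ratU57 K) := by
  intro a b hab
  have h1 : ((ratU57 K a : (Adl K)ˣ) : Adl K) = ((ratU57 K b : (Adl K)ˣ) : Adl K) := by rw [hab]
  exact Units.ext (NumberField.AdeleRing.algebraMap_injective (𝓞 K) K h1)

/-- `ν = ∑_ξ (x ↦ x + ξ)_* (ν|_D)`. -/
theorem sum_map_add290 (ν : Measure (Adl K)) [ν.IsAddHaarMeasure] {D : Set (Adl K)}
    (hD : IsAddFundamentalDomain ((algebraMap K (Adl K)).toAddMonoidHom.range) D ν) :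
    Measure.sum (fun ξ : K => Measure.map (fun x : Adl K => x + algebraMap K (Adl K) ξ)
      (ν.restrict D)) = ν := by
  have : Countable K := countable_K290 K
  refine Measure.ext_of_lintegral _ fun f hf => ?_
  have hm : ∀ ξ : K, AEMeasurable (fun x => f (x + algebraMap K (Adl K) ξ)) (ν.restrict D) :=
    fun ξ => (hf.comp (measurable_id.add_const _)).aemeasurable
  rw [lintegral_sum_measure, lintegral_unfold_add290 K ν hD f hf, lintegral_tsum hm]
  refine tsum_congr fun ξ => ?_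
  exact lintegral_map hf (measurable_id.add_const _)

/-- `τ = ∑_α (y ↦ α y)_* (τ|_FX)`. -/
theorem sum_map_mul290 (τ : Measure (Adl K)ˣ) [τ.IsHaarMeasure] {FX : Set (Adl K)ˣ}
    (hFX : IsFundamentalDomain (ratU57 K).range FX τ) :
    Measure.sum (fun α : Kˣ => Measure.map (fun y : (Adl K)ˣ => ratU57 K α * y)
      (τ.restrict FX)) = τ := by
  have : Countable Kˣ := countable_Kx290 K
  refine Measure.ext_of_lintegral _ fun f hf => ?_
  have hm : ∀ α : Kˣ, AEMeasurable (fun y => f (ratU57 K α * y)) (τ.restrict FX) :=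
    fun α => (hf.comp (measurable_const_mul _)).aemeasurable
  rw [lintegral_sum_measure, lintegral_unfold_mul290 K τ hFX f hf, lintegral_tsum hm]
  refine tsum_congr fun α => ?_
  exact lintegral_map hf (measurable_const_mul _)

/-- The twisted form: `ν = ∑_ξ (x ↦ α x + ξ)_* (ν|_D)` for `α ∈ Kˣ`. -/
theorem sum_map_affine290 (hS : Fermat.Agent.LT.T3.HaarScaleC K)
    (ν : Measure (Adl K)) [hν : ν.IsAddHaarMeasure] {D : Set (Adl K)}
    (hD : IsAddFundamentalDomain ((algebraMap K (Adl K)).toAddMonoidHom.range) D ν) (α : Kˣ) :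
    Measure.sum (fun ξ : K => Measure.map
      (fun x : Adl K => algebraMap K (Adl K) (α : K) * x + algebraMap K (Adl K) ξ)
      (ν.restrict D)) = ν := by
  have : Countable K := countable_K290 K
  have hm : Measurable fun x : Adl K => algebraMap K (Adl K) (α : K) * x :=
    (continuous_const.mul continuous_id).measurable
  have h1 : Measure.map (fun x : Adl K => algebraMap K (Adl K) (α : K) * x) ν = ν := hS ν hν α
  conv_rhs => rw [← h1, ← sum_map_add290 K ν hD]
  rw [Measure.map_sum hm.aemeasurable]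
  rw [← Measure.sum_comp_equiv (Equiv.mulLeft₀ (α : K) α.ne_zero)]
  congr 1
  funext ξ
  have hadd : Measurable fun x : Adl K => x + algebraMap K (Adl K) ξ :=
    measurable_id.add_const _
  rw [Measure.map_map hm hadd]
  change Measure.map (fun x : Adl K => algebraMap K (Adl K) (α : K) * x
    + algebraMap K (Adl K) ((α : K) * ξ)) (ν.restrict D) = _
  congr 1
  funext x
  simp [mul_add]

/-! ## 3. The action of `B(K)` on the coordinates and the exchange formula -/

/-- The action of `(ξ, α, δ) ∈ K × Kˣ × Kˣ` (the upper triangular matrix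
`[[α δ, ξ δ], [0, δ]]`) on the Borel coordinates: `(x, y, z) ↦ (α x + ξ, α y, δ z)`. -/
def actB (t : K × Kˣ × Kˣ) (p : Adl K × (Adl K)ˣ × (Adl K)ˣ) : Adl K × (Adl K)ˣ × (Adl K)ˣ :=
  (algebraMap K (Adl K) (t.2.1 : K) * p.1 + algebraMap K (Adl K) t.1,
    ratU57 K t.2.1 * p.2.1, ratU57 K t.2.2 * p.2.2)

theorem actB_eq_prodMap (t : K × Kˣ × Kˣ) :
    actB K t = Prod.map
      (fun x : Adl K => algebraMap K (Adl K) (t.2.1 : K) * x + algebraMap K (Adl K) t.1)
      (Prod.map (fun y : (Adl K)ˣ => ratU57 K t.2.1 * y)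
        (fun z : (Adl K)ˣ => ratU57 K t.2.2 * z)) := rfl

theorem measurable_affine290 (α : Kˣ) (ξ : K) :
    Measurable fun x : Adl K => algebraMap K (Adl K) (α : K) * x + algebraMap K (Adl K) ξ :=
  ((continuous_const.mul continuous_id).add continuous_const).measurable

theorem measurable_actB290 [SecondCountableTopology (Adl K)] (t : K × Kˣ × Kˣ) :
    Measurable (actB K t) := by
  rw [actB_eq_prodMap]
  exact (measurable_affine290 K t.2.1 t.1).prodMap
    ((measurable_const_mul _).prodMap (measurable_const_mul _))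

/-- **The measure of the Borel coordinates is the sum of the translates of its restriction to
the box `D × FX × FX`.** -/
theorem sum_map_actB290 (hS : Fermat.Agent.LT.T3.HaarScaleC K)
    (ν : Measure (Adl K)) [ν.IsAddHaarMeasure] [SFinite ν] {D : Set (Adl K)}
    (hD : IsAddFundamentalDomain ((algebraMap K (Adl K)).toAddMonoidHom.range) D ν)
    (τ : Measure (Adl K)ˣ) [τ.IsHaarMeasure] [SFinite τ] {FX : Set (Adl K)ˣ}
    (hFX : IsFundamentalDomain (ratU57 K).range FX τ) :
    Measure.sum (fun t : K × Kˣ × Kˣ => Measure.map (actB K t)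
      ((ν.prod (τ.prod τ)).restrict (D ×ˢ (FX ×ˢ FX)))) = ν.prod (τ.prod τ) := by
  have : Countable K := countable_K290 K
  have : Countable Kˣ := countable_Kx290 K
  have hR : (ν.prod (τ.prod τ)).restrict (D ×ˢ (FX ×ˢ FX))
      = (ν.restrict D).prod ((τ.restrict FX).prod (τ.restrict FX)) := by
    rw [Measure.prod_restrict, Measure.prod_restrict]
  have hττ : τ.prod τ = Measure.sum (fun q : Kˣ × Kˣ =>
      Measure.map (Prod.map (fun y : (Adl K)ˣ => ratU57 K q.1 * y)
        (fun z : (Adl K)ˣ => ratU57 K q.2 * z)) ((τ.restrict FX).prod (τ.restrict FX))) := by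
    conv_lhs => rw [← sum_map_mul290 K τ hFX]
    rw [Measure.prod_sum]
    congr 1
    funext q
    exact Measure.map_prod_map _ _ (measurable_const_mul _) (measurable_const_mul _)
  have hq : ∀ q : Kˣ × Kˣ, ν.prod (Measure.map (Prod.map (fun y : (Adl K)ˣ => ratU57 K q.1 * y)
        (fun z : (Adl K)ˣ => ratU57 K q.2 * z)) ((τ.restrict FX).prod (τ.restrict FX)))
      = Measure.sum (fun ξ : K => Measure.map (actB K (ξ, q))
          ((ν.prod (τ.prod τ)).restrict (D ×ˢ (FX ×ˢ FX)))) := by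
    intro q
    conv_lhs => rw [← sum_map_affine290 K hS ν hD q.1]
    rw [Measure.prod_sum_left]
    congr 1
    funext ξ
    rw [hR, actB_eq_prodMap]
    exact Measure.map_prod_map _ _ (measurable_affine290 K q.1 ξ)
      ((measurable_const_mul _).prodMap (measurable_const_mul _))
  conv_rhs => rw [hττ, Measure.prod_sum_right]
  simp_rw [hq]
  rw [Measure.sum_sum]
  rw [← Measure.sum_comp_equiv (Equiv.prodComm K (Kˣ × Kˣ))]
  rfl

/-- **Unfolding on the Borel coordinates.** -/
theorem lintegral_unfold_actB290 [SecondCountableTopology (Adl K)]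
    (hS : Fermat.Agent.LT.T3.HaarScaleC K)
    (ν : Measure (Adl K)) [ν.IsAddHaarMeasure] [SFinite ν] {D : Set (Adl K)}
    (hD : IsAddFundamentalDomain ((algebraMap K (Adl K)).toAddMonoidHom.range) D ν)
    (τ : Measure (Adl K)ˣ) [τ.IsHaarMeasure] [SFinite τ] {FX : Set (Adl K)ˣ}
    (hFX : IsFundamentalDomain (ratU57 K).range FX τ)
    (H : Adl K × (Adl K)ˣ × (Adl K)ˣ → ℝ≥0∞) (hH : Measurable H) :
    ∫⁻ p, H p ∂(ν.prod (τ.prod τ))
      = ∫⁻ p in D ×ˢ (FX ×ˢ FX), (∑' t : K × Kˣ × Kˣ, H (actB K t p)) ∂(ν.prod (τ.prod τ)) := by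
  have : Countable K := countable_K290 K
  have : Countable Kˣ := countable_Kx290 K
  have hm : ∀ t : K × Kˣ × Kˣ, AEMeasurable (fun p => H (actB K t p))
      ((ν.prod (τ.prod τ)).restrict (D ×ˢ (FX ×ˢ FX))) :=
    fun t => (hH.comp (measurable_actB290 K t)).aemeasurable
  conv_lhs => rw [← sum_map_actB290 K hS ν hD τ hFX]
  rw [lintegral_sum_measure, lintegral_tsum hm]
  refine tsum_congr fun t => ?_
  exact lintegral_map hH (measurable_actB290 K t)

end Fermat.Agent.LT.T7.Rigid.H290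

end

end
-- ===== PACK-END LT/T7/H290/BorelExch.lean

-- ===== PACK-BEGIN LT/T7/H568/IdeleCoordTop.lean
section



/-!
# Row LT, tower T7, node T7.14.6c.4 `IdeleCoordC568`: PROVED ASSEMBLY (helper568)

OFF-MAIN.

    ideleCoordC_of_leaves568 :
      CosetC568 K → HOpenC568 K → HCompactC568 K → ScaleC568 K → HaarPosC568 → TonelliSumC568 →
        IdeleCoordC568 K
-/

set_option autoImplicit false
set_option linter.unusedSectionVars false
set_option linter.unusedVariables false

open AutomorphicForm IsDedekindDomain NumberField Filter Topology MeasureTheory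
open scoped ComplexConjugate ENNReal

noncomputable section

namespace Fermat.Agent.LT.T7.H568

open Fermat.Agent.LT.H556 Fermat.Agent.LT.H556.A0 Fermat.Agent.LT.T7 Fermat.Agent.LT.T7.Rigid

variable {K : Type} [Field K] [NumberField K]

/-! ## Elementary facts -/

theorem unit_fst_ne_zero568 (y : (Adl K)ˣ) (w : InfinitePlace K) :
    (y : Adl K).1 w ≠ 0 := by
  intro h
  have h1 : ((y : Adl K) * ((y⁻¹ : (Adl K)ˣ) : Adl K)).1 w = (1 : Adl K).1 w := by
    rw [Units.mul_inv]
  have h2 : ((y : Adl K) * ((y⁻¹ : (Adl K)ˣ) : Adl K)).1 w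
      = (y : Adl K).1 w * ((y⁻¹ : (Adl K)ˣ) : Adl K).1 w := rfl
  have h3 : (1 : Adl K).1 w = 1 := rfl
  rw [h2, h3, h, zero_mul] at h1
  exact zero_ne_one h1

theorem rad_pos568 (y : (Adl K)ˣ) (w : InfinitePlace K) : 0 < rad568 y w :=
  norm_pos_iff.mpr (unit_fst_ne_zero568 y w)

theorem continuous_rad568 : Continuous (rad568 : (Adl K)ˣ → InfinitePlace K → ℝ) := by
  refine continuous_pi fun w => ?_
  have h1 : Continuous fun y : (Adl K)ˣ => (y : Adl K) := Units.continuous_val
  have h2 : Continuous fun x : Adl K => x.1 := continuous_fst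
  have h3 : Continuous fun x : InfiniteAdeleRing K => x w := continuous_apply w
  exact continuous_norm.comp (h3.comp (h2.comp h1))

theorem one_mem_hSub568 (S : Finset (HeightOneSpectrum (𝓞 K))) (𝔪 : Ideal (𝓞 K)) :
    (1 : (Adl K)ˣ) ∈ hSub568 S 𝔪 := by
  refine ⟨fun v _ => ⟨0, ?_, ?_⟩, fun v _ => ?_⟩
  · refine subset_closure ⟨0, 𝔪.zero_mem, ?_⟩
    simp
  · simp
  · have h1 : ((1 : (Adl K)ˣ) : Adl K).2 v = 1 := rfl
    unfold ordI
    rw [h1, map_one, WithZero.log_one, neg_zero]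

instance countable_ideal568 : Countable (Ideal (𝓞 K)) := by
  have hcov : (Set.univ : Set (Ideal (𝓞 K)))
      = ⋃ n : ℕ, {I : Ideal (𝓞 K) | Ideal.absNorm I = n} := by
    ext I
    simp
  have hfin : ∀ n : ℕ, ({I : Ideal (𝓞 K) | Ideal.absNorm I = n}).Countable :=
    fun n => (Ideal.finite_setOfPred_absNorm_eq n).countable
  have : (Set.univ : Set (Ideal (𝓞 K))).Countable := by
    rw [hcov]
    exact Set.countable_iUnion hfin
  exact Set.countable_univ_iff.mp this


theorem measurableSet_box568 (ι : Type) [Fintype ι] (a b : ℝ) :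
    MeasurableSet {r : ι → ℝ | ∀ i, a ≤ r i ∧ r i ≤ b} := by
  have : {r : ι → ℝ | ∀ i, a ≤ r i ∧ r i ≤ b}
      = ⋂ i : ι, {r | a ≤ r i ∧ r i ≤ b} := by
    ext r; simp
  rw [this]
  exact MeasurableSet.iInter fun i =>
    (measurableSet_le measurable_const (measurable_pi_apply i)).inter
      (measurableSet_le (measurable_pi_apply i) measurable_const)

theorem measurable_dens568 :
    Measurable fun r : InfinitePlace K → ℝ =>
      ENNReal.ofReal (∏ w : InfinitePlace K, r w)⁻¹ :=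
  ENNReal.measurable_ofReal.comp
    (Finset.measurable_prod _ fun w _ => measurable_pi_apply w).inv

/-! ## The image of `τ|_H` under `rad` -/

section Haar

variable [MeasurableSpace (Adl K)ˣ] [BorelSpace (Adl K)ˣ]

theorem measurable_rad568 : Measurable (rad568 : (Adl K)ˣ → InfinitePlace K → ℝ) :=
  continuous_rad568.measurable

/-- The image of `τ|_H` under `rad` is `κ ∏ dr / r`. -/
theorem lintegral_hSub568 (hB : HOpenC568 K) (hC : HCompactC568 K) (hD : ScaleC568 K)
    (hE : HaarPosC568) (hcplx : TotCplx K) (τ : Measure (Adl K)ˣ) [τ.IsHaarMeasure]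
    (S : Finset (HeightOneSpectrum (𝓞 K))) (𝔪 : Ideal (𝓞 K)) (hsupp : IsSupp S 𝔪) :
    ∃ κ : ℝ, 0 < κ ∧ ∀ h : (InfinitePlace K → ℝ) → ℝ≥0∞, Measurable h →
      ∫⁻ y in hSub568 S 𝔪, h (rad568 y) ∂τ
        = ENNReal.ofReal κ * ∫⁻ r, h r ∂(posHaar568 K) := by
  classical
  have hHo : IsOpen (hSub568 S 𝔪) := hB S 𝔪 hsupp
  have hHm : MeasurableSet (hSub568 S 𝔪) := hHo.measurableSet
  have hrad : Measurable (rad568 : (Adl K)ˣ → InfinitePlace K → ℝ) := measurable_rad568
  set ρ : Measure (InfinitePlace K → ℝ) := (τ.restrict (hSub568 S 𝔪)).map rad568 with hρ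
  have hρapp : ∀ B : Set (InfinitePlace K → ℝ), MeasurableSet B →
      ρ B = τ (rad568 ⁻¹' B ∩ hSub568 S 𝔪) := by
    intro B hBm
    rw [hρ, Measure.map_apply hrad hBm, Measure.restrict_apply (hrad hBm)]
  -- (i) carried by the positive orthant
  have h1 : ρ {r | ¬ ∀ w, 0 < r w} = 0 := by
    have hm : MeasurableSet {r : InfinitePlace K → ℝ | ¬ ∀ w, 0 < r w} :=
      (measurableSet_Pos568 (K := K)).compl
    rw [hρapp _ hm]
    have : rad568 ⁻¹' {r : InfinitePlace K → ℝ | ¬ ∀ w, 0 < r w} ∩ hSub568 S 𝔪 = ∅ := by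
      ext y
      simp only [Set.mem_inter_iff, Set.mem_preimage, Set.mem_setOf_eq, Set.mem_empty_iff_false,
        iff_false, not_and]
      intro hy
      exact absurd (fun w => rad_pos568 y w) hy
    rw [this, measure_empty]
  -- (ii) invariant under scalings
  have h2 : ∀ t : InfinitePlace K → ℝ, (∀ w, 0 < t w) →
      ρ.map (fun r w => t w * r w) = ρ := by
    intro t ht
    obtain ⟨z, hz⟩ := hD hcplx t ht
    have hmt : Measurable fun (r : InfinitePlace K → ℝ) (w : InfinitePlace K) => t w * r w :=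
      measurable_pi_lambda _ fun w => measurable_const.mul (measurable_pi_apply w)
    refine Measure.ext fun B hBm => ?_
    rw [Measure.map_apply hmt hBm, hρapp _ (hmt hBm), hρapp _ hBm]
    have hset : rad568 ⁻¹' ((fun (r : InfinitePlace K → ℝ) (w : InfinitePlace K) =>
          t w * r w) ⁻¹' B) ∩ hSub568 S 𝔪
        = (fun y => z * y) ⁻¹' (rad568 ⁻¹' B ∩ hSub568 S 𝔪) := by
      ext y
      simp only [Set.mem_inter_iff, Set.mem_preimage]
      rw [(hz y).1, (hz y).2 S 𝔪]
    rw [hset, measure_preimage_mul]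
  -- (iii) finite on boxes
  have h3 : ∀ a b : ℝ, 0 < a → a ≤ b →
      ρ {r : InfinitePlace K → ℝ | ∀ w, a ≤ r w ∧ r w ≤ b} < ⊤ := by
    intro a b ha hab
    rw [hρapp _ (measurableSet_box568 _ a b)]
    have hset : rad568 ⁻¹' {r : InfinitePlace K → ℝ | ∀ w, a ≤ r w ∧ r w ≤ b} ∩ hSub568 S 𝔪
        = hSub568 S 𝔪 ∩ radBox568 (K := K) a b := by
      ext y
      simp only [Set.mem_inter_iff, Set.mem_preimage, Set.mem_setOf_eq, radBox568]
      exact and_comm
    rw [hset]
    exact (hC S 𝔪 hsupp a b ha hab).measure_lt_top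
  -- (iv) non-zero
  have h4 : ρ ≠ 0 := by
    intro h0
    have hu : ρ Set.univ = τ (hSub568 S 𝔪) := by
      rw [hρapp _ MeasurableSet.univ, Set.preimage_univ, Set.univ_inter]
    have hpos : 0 < τ (hSub568 S 𝔪) := hHo.measure_pos τ ⟨1, one_mem_hSub568 S 𝔪⟩
    rw [h0] at hu
    simp only [Measure.coe_zero, Pi.zero_apply] at hu
    rw [← hu] at hpos
    exact lt_irrefl _ hpos
  obtain ⟨κ, hκ, hform⟩ := hE (InfinitePlace K) ρ h1 h2 h3 h4
  refine ⟨κ, hκ, fun h hh => ?_⟩
  have e1 : ∫⁻ y in hSub568 S 𝔪, h (rad568 y) ∂τ = ∫⁻ r, h r ∂ρ := by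
    rw [hρ, lintegral_map hh hrad]
  have e2 : ∫⁻ r, h r ∂(posHaar568 K)
      = ∫⁻ r in {r : InfinitePlace K → ℝ | ∀ w, 0 < r w},
          h r * ENNReal.ofReal (∏ w : InfinitePlace K, r w)⁻¹ := by
    unfold posHaar568
    rw [lintegral_withDensity_eq_lintegral_mul _ measurable_dens568 hh]
    refine lintegral_congr fun r => ?_
    simp only [Pi.mul_apply]
    rw [mul_comm]
  rw [e1, hform h hh, e2]

/-- The cosets are measurable and carry the same image measure. -/
theorem lintegral_coset568 (hA : CosetC568 K) (hB : HOpenC568 K)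
    (τ : Measure (Adl K)ˣ) [τ.IsHaarMeasure]
    (S : Finset (HeightOneSpectrum (𝓞 K))) (𝔪 : Ideal (𝓞 K)) (y₀ : (Adl K)ˣ)
    (hsupp : IsSupp S 𝔪) (𝔞 : Ideal (𝓞 K)) (h𝔞 : PrimeTo568 S 𝔞) :
    MeasurableSet (cosetSet568 S 𝔪 y₀ 𝔞) ∧
      ∀ h : (InfinitePlace K → ℝ) → ℝ≥0∞, Measurable h →
        ∫⁻ y in cosetSet568 S 𝔪 y₀ 𝔞, h (rad568 y) ∂τ
          = ∫⁻ y in hSub568 S 𝔪, h (rad568 y) ∂τ := by
  classical
  have hHm : MeasurableSet (hSub568 S 𝔪) := (hB S 𝔪 hsupp).measurableSet
  obtain ⟨z, hzr, hzc⟩ := hA S 𝔪 y₀ hsupp 𝔞 h𝔞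
  have hmem : ∀ y : (Adl K)ˣ, y ∈ cosetSet568 S 𝔪 y₀ 𝔞 ↔ z⁻¹ * y ∈ hSub568 S 𝔪 := by
    intro y
    rw [← hzc (z⁻¹ * y), mul_inv_cancel_left]
  have hradz : ∀ y : (Adl K)ˣ, rad568 (z⁻¹ * y) = rad568 y := by
    intro y
    rw [← hzr (z⁻¹ * y), mul_inv_cancel_left]
  have hset : cosetSet568 S 𝔪 y₀ 𝔞 = (fun y => z⁻¹ * y) ⁻¹' hSub568 S 𝔪 := by
    ext y
    exact hmem y
  have hEm : MeasurableSet (cosetSet568 S 𝔪 y₀ 𝔞) := by
    rw [hset]
    exact hHm.preimage (measurable_const_mul z⁻¹)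
  refine ⟨hEm, fun h hh => ?_⟩
  rw [← lintegral_indicator hEm, ← lintegral_indicator hHm]
  have hfun : (fun y => (cosetSet568 S 𝔪 y₀ 𝔞).indicator (fun y => h (rad568 y)) y)
      = fun y => (hSub568 S 𝔪).indicator (fun y => h (rad568 y)) (z⁻¹ * y) := by
    funext y
    by_cases hy : y ∈ cosetSet568 S 𝔪 y₀ 𝔞
    · rw [Set.indicator_of_mem hy, Set.indicator_of_mem ((hmem y).mp hy), hradz]
    · rw [Set.indicator_of_notMem hy,
        Set.indicator_of_notMem (fun hh' => hy ((hmem y).mpr hh'))]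
  rw [hfun]
  exact lintegral_mul_left_eq_self (μ := τ)
    ((hSub568 S 𝔪).indicator fun y => h (rad568 y)) z⁻¹

end Haar


/-! ## The density `1 / ∏ r` -/

theorem dens_lt_top568 (μ : Measure (InfinitePlace K → ℝ)) :
    ∀ᵐ r ∂μ, ENNReal.ofReal (∏ w : InfinitePlace K, r w)⁻¹ < ⊤ :=
  Filter.Eventually.of_forall fun _ => ENNReal.ofReal_lt_top

theorem dens_toReal568 {r : InfinitePlace K → ℝ} (hr : r ∈ Pos568 K) (x : ℝ) :
    (ENNReal.ofReal (∏ w : InfinitePlace K, r w)⁻¹).toReal • x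
      = x / ∏ w : InfinitePlace K, r w := by
  have hpos : 0 < ∏ w : InfinitePlace K, r w := Finset.prod_pos fun w _ => hr w
  rw [ENNReal.toReal_ofReal (inv_nonneg.mpr hpos.le), smul_eq_mul, div_eq_mul_inv, mul_comm]

theorem integrable_posHaar568 {f : (InfinitePlace K → ℝ) → ℝ}
    (hf : IntegrableOn (fun r : InfinitePlace K → ℝ => f r / ∏ w : InfinitePlace K, r w)
      (Pos568 K) volume) :
    Integrable f (posHaar568 K) := by
  unfold posHaar568
  rw [integrable_withDensity_iff_integrable_smul' measurable_dens568 (dens_lt_top568 _)]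
  refine (integrable_congr ?_).mp hf
  refine (ae_restrict_iff' (measurableSet_Pos568 (K := K))).mpr
    (Filter.Eventually.of_forall fun r hr => ?_)
  exact (dens_toReal568 hr (f r)).symm

theorem integral_posHaar568 (f : (InfinitePlace K → ℝ) → ℝ) :
    ∫ r, f r ∂(posHaar568 K)
      = ∫ r in Pos568 K, f r / ∏ w : InfinitePlace K, r w := by
  unfold posHaar568
  rw [integral_withDensity_eq_integral_toReal_smul measurable_dens568 (dens_lt_top568 _)]
  refine setIntegral_congr_fun (measurableSet_Pos568 (K := K)) fun r hr => ?_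
  exact dens_toReal568 hr (f r)

/-! ## The assembly -/

/-- **T7.14.6c.4 `IdeleCoordC568` from its sub-leaves.** -/
theorem ideleCoordC_of_leaves568 (hA : CosetC568 K) (hB : HOpenC568 K) (hC : HCompactC568 K)
    (hD : ScaleC568 K) (hE : HaarPosC568) (hF : TonelliSumC568) : IdeleCoordC568 K := by
  classical
  let _ : MeasurableSpace (Adl K)ˣ := borel (Adl K)ˣ
  have : BorelSpace (Adl K)ˣ := ⟨rfl⟩
  intro hcplx τ hτ S 𝔪 y₀ hsupp
  have : τ.IsHaarMeasure := hτ
  obtain ⟨κ, hκ, hH⟩ := lintegral_hSub568 hB hC hD hE hcplx τ S 𝔪 hsupp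
  refine ⟨κ, hκ, ?_⟩
  intro b g hgm hg0 hgi hb0
  have key := hF (Adl K)ˣ (InfinitePlace K → ℝ) (Ideal (𝓞 K)) τ (posHaar568 K) rad568
    (idl568 S) {y | OnSupp568 S 𝔪 y₀ y} (PrimeTo568 S) κ hκ measurable_rad568
    (fun 𝔞 h𝔞 => (lintegral_coset568 hA hB τ S 𝔪 y₀ hsupp 𝔞 h𝔞).1)
    (fun 𝔞 h𝔞 h hh => by
      have e := (lintegral_coset568 hA hB τ S 𝔪 y₀ hsupp 𝔞 h𝔞).2 h hh
      have e' := hH h hh
      exact e.trans e')
    b g hgm hg0 (fun 𝔞 h𝔞 => integrable_posHaar568 (hgi 𝔞 h𝔞)) hb0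
  simp only [integral_posHaar568] at key
  exact key

end Fermat.Agent.LT.T7.H568

end

end
-- ===== PACK-END LT/T7/H568/IdeleCoordTop.lean

-- ===== PACK-BEGIN LT/T7/H627/Scale.lean
section




/-!
# Row LT, tower T7, leaf T7.14.6c.4d `ScaleC568`, helper627 (spare)

OFF-MAIN.  `scaleC627 K : H568.ScaleC568 K` VERBATIM against the byte-identical copy of
`LT/T7/H568/IdeleCoordSpec.lean` (helper568@fef45a303, sha256 `e8caee7a`).  The idele is
`infIdele627 t` (`LT/T2/H627/Adelic.lean`): `t_w` at the infinite places, `1` at the finite ones.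
-/

set_option autoImplicit false
set_option linter.unusedSectionVars false

open IsDedekindDomain NumberField
open Fermat.Agent.LT.H556.A0

noncomputable section

namespace Fermat.Agent.LT.T7.H627

open Fermat.Agent.LT.T7 Fermat.Agent.LT.T7.Rigid Fermat.Agent.LT.T7.H568
open Fermat.Agent.LT.T2.H627

variable {K : Type} [Field K] [NumberField K]

theorem infIdele_mul_snd627 (t : InfinitePlace K → ℝ) (ht : ∀ w, t w ≠ 0) (y : (Adl K)ˣ)
    (v : HeightOneSpectrum (𝓞 K)) :
    (((infIdele627 t ht * y : (Adl K)ˣ) : Adl K)).2 v = (y : Adl K).2 v := by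
  rw [Units.val_mul, infIdele627_val]
  show ((1 : FiniteAdeleRing (𝓞 K) K) * (y : Adl K).2) v = (y : Adl K).2 v
  rw [one_mul]

theorem infIdele_mul_fst627 (t : InfinitePlace K → ℝ) (ht : ∀ w, t w ≠ 0) (y : (Adl K)ˣ)
    (w : InfinitePlace K) :
    (((infIdele627 t ht * y : (Adl K)ˣ) : Adl K)).1 w = eR627 w (t w) * (y : Adl K).1 w := by
  rw [Units.val_mul, infIdele627_val]
  rfl

/-- **T7.14.6c.4d `ScaleC568`**, VERBATIM (`TotCplx` is not used). -/
theorem scaleC627 (K : Type) [Field K] [NumberField K] : ScaleC568 K := by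
  intro _ t ht
  have ht' : ∀ w, t w ≠ 0 := fun w => (ht w).ne'
  refine ⟨infIdele627 t ht', fun y => ⟨?_, fun S 𝔪 => ?_⟩⟩
  · funext w
    show ‖(((infIdele627 t ht' * y : (Adl K)ˣ) : Adl K)).1 w‖ = t w * ‖(y : Adl K).1 w‖
    rw [infIdele_mul_fst627, norm_mul, norm_eR627, abs_of_pos (ht w)]
  · have hI : InCell S 𝔪 1 (infIdele627 t ht' * y) ↔ InCell S 𝔪 1 y := by
      unfold InCell
      simp only [infIdele_mul_snd627]
    have hO : ∀ v : HeightOneSpectrum (𝓞 K),
        ordI v (infIdele627 t ht' * y) = ordI v y := by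
      intro v
      unfold ordI
      rw [infIdele_mul_snd627]
    unfold hSub568
    simp only [Set.mem_ofPred_eq, hI, hO]

end Fermat.Agent.LT.T7.H627

end

end
-- ===== PACK-END LT/T7/H627/Scale.lean

-- ===== PACK-BEGIN LT/T7/H122/HOpen.lean
section




/-!
# Row LT, tower T7, leaf T7.14.6c.4b `HOpenC568` (helper122)

OFF-MAIN.  Proves `H568.HOpenC568 K` VERBATIM against
`LT/T7/H568/IdeleCoordSpec.lean` (helper568@fef45a303, sha256 `e8caee7a…`), for every number
field.

Route: `H = {y : y_f ∈ B, (y⁻¹)_f ∈ B, y_v - 1 ∈ closure 𝔪 (v ∈ S)}` with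
`B = ∏ 𝒪_v` (open in the finite adeles, `RestrictedProduct.isOpen_forall_mem`); the closure of
`𝔪 ≠ 0` in `K_v` is open (it contains a ball: `mem_idealClosure_of_le496`, and is closed under
addition); the maps `y ↦ y_f`, `y ↦ (y⁻¹)_f` and the evaluations are continuous.
-/

set_option autoImplicit false

open IsDedekindDomain NumberField Topology
open IsDedekindDomain.HeightOneSpectrum

noncomputable section

namespace Fermat.Agent.LT.T7.H122

open Fermat.Agent.LT.H556 Fermat.Agent.LT.H556.A0 Fermat.Agent.LT.T7 Fermat.Agent.LT.T7.Rigid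
  Fermat.Agent.LT.T7.H568 Fermat.Agent.LT.T7.H496 Fermat.Agent.LT.H767

variable {K : Type} [Field K] [NumberField K]

theorem idealClosure_add122 (𝔫 : Ideal (𝓞 K)) (v : HeightOneSpectrum (𝓞 K))
    {x y : v.adicCompletion K} (hx : x ∈ idealClosure 𝔫 v) (hy : y ∈ idealClosure 𝔫 v) :
    x + y ∈ idealClosure 𝔫 v := by
  unfold idealClosure at hx hy ⊢
  refine map_mem_closure₂ continuous_add hx hy ?_
  rintro _ ⟨a, ha, rfl⟩ _ ⟨b, hb, rfl⟩
  exact ⟨a + b, 𝔫.add_mem ha hb, by simp⟩

/-- The closure of a non-zero ideal in `K_v` is open. -/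
theorem isOpen_idealClosure122 {𝔫 : Ideal (𝓞 K)} (h𝔫 : 𝔫 ≠ ⊥) (v : HeightOneSpectrum (𝓞 K)) :
    IsOpen (idealClosure 𝔫 v) := by
  obtain ⟨d, hd, hd0⟩ := Submodule.exists_mem_ne_zero_of_ne_bot h𝔫
  have hD0 : imF496 v d ≠ 0 := imF496_ne_zero v hd0
  rw [Metric.isOpen_iff]
  intro x hx
  refine ⟨‖imF496 v d‖, norm_pos_iff.mpr hD0, fun y hy => ?_⟩
  rw [Metric.mem_ball, dist_eq_norm] at hy
  have hz : y - x ∈ idealClosure 𝔫 v :=
    mem_idealClosure_of_le496 𝔫 v hd hd0 _ (le_of_lt (Valued.toNormedField.norm_lt_iff.mp hy))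
  have e : y = x + (y - x) := by ring
  rw [e]
  exact idealClosure_add122 𝔫 v hx hz

/-- The closure of an ideal divisible by `v` lies in the maximal ideal of `𝒪_v`. -/
theorem valued_lt_one_of_mem_idealClosure122 {𝔫 : Ideal (𝓞 K)} {v : HeightOneSpectrum (𝓞 K)}
    (hv : v.asIdeal ∣ 𝔫) {u : v.adicCompletion K} (hu : u ∈ idealClosure 𝔫 v) :
    Valued.v u < 1 := by
  rw [idealClosure, Metric.mem_closure_iff] at hu
  obtain ⟨_, ⟨a, ha, rfl⟩, hdist⟩ := hu 1 one_pos
  rw [dist_eq_norm] at hdist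
  have h1 : Valued.v (u - algebraMap K (v.adicCompletion K) (algebraMap (𝓞 K) K a)) < 1 :=
    Valued.toNormedField.norm_lt_one_iff.mp hdist
  have h2 : Valued.v (algebraMap K (v.adicCompletion K) (algebraMap (𝓞 K) K a)) < 1 := by
    rw [valued_algebraMap]
    exact (valuation_lt_one_iff_mem v a).mpr (Ideal.le_of_dvd hv ha)
  have e : u = (u - algebraMap K (v.adicCompletion K) (algebraMap (𝓞 K) K a))
      + algebraMap K (v.adicCompletion K) (algebraMap (𝓞 K) K a) := by ring
  rw [e]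
  exact lt_of_le_of_lt (Valuation.map_add _ _ _) (max_lt h1 h2)

theorem unit_inv_snd122 (y : (Adl K)ˣ) (v : HeightOneSpectrum (𝓞 K)) :
    ((y⁻¹ : (Adl K)ˣ) : Adl K).2 v = ((y : Adl K).2 v)⁻¹ := by
  have h1 : ((y : Adl K) * ((y⁻¹ : (Adl K)ˣ) : Adl K)).2 v = (1 : Adl K).2 v := by
    rw [Units.mul_inv]
  have h2 : ((y : Adl K) * ((y⁻¹ : (Adl K)ˣ) : Adl K)).2 v
      = (y : Adl K).2 v * ((y⁻¹ : (Adl K)ˣ) : Adl K).2 v := rfl
  have h3 : (1 : Adl K).2 v = 1 := rfl
  rw [h2, h3] at h1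
  exact eq_inv_of_mul_eq_one_right h1

/-- The description of `H` by open conditions. -/
theorem mem_hSub_iff122 (S : Finset (HeightOneSpectrum (𝓞 K))) (𝔪 : Ideal (𝓞 K))
    (hS : IsSupp S 𝔪) (y : (Adl K)ˣ) :
    y ∈ hSub568 S 𝔪 ↔
      (∀ v : HeightOneSpectrum (𝓞 K), (y : Adl K).2 v ∈ v.adicCompletionIntegers K) ∧
      (∀ v : HeightOneSpectrum (𝓞 K),
        ((y⁻¹ : (Adl K)ˣ) : Adl K).2 v ∈ v.adicCompletionIntegers K) ∧
      ∀ v ∈ S, (y : Adl K).2 v - 1 ∈ idealClosure 𝔪 v := by
  have h1S : ∀ v : HeightOneSpectrum (𝓞 K), ((1 : (Adl K)ˣ) : Adl K).2 v = 1 := fun v => rfl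
  constructor
  · rintro ⟨hcell, hord⟩
    have hval : ∀ v : HeightOneSpectrum (𝓞 K), Valued.v ((y : Adl K).2 v) = 1 := by
      intro v
      by_cases hv : v ∈ S
      · obtain ⟨u, hu, hy⟩ := hcell v hv
        rw [hy, h1S, one_mul]
        exact Valuation.map_one_add_of_lt _
          (valued_lt_one_of_mem_idealClosure122 ((hS.2 v).2 hv) hu)
      · have h0 := hord v hv
        unfold ordI at h0
        have hne : Valued.v ((y : Adl K).2 v) ≠ 0 :=
          (Valuation.ne_zero_iff _).2 (unit_snd_ne_zero568 y v)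
        have h0' : WithZero.log (Valued.v ((y : Adl K).2 v)) = 0 := neg_eq_zero.mp h0
        rw [← WithZero.exp_log hne, h0']
        rfl
    refine ⟨fun v => ?_, fun v => ?_, fun v hv => ?_⟩
    · rw [HeightOneSpectrum.mem_adicCompletionIntegers, hval v]
    · rw [HeightOneSpectrum.mem_adicCompletionIntegers, unit_inv_snd122, map_inv₀, hval v,
        inv_one]
    · obtain ⟨u, hu, hy⟩ := hcell v hv
      rw [hy, h1S, one_mul, add_sub_cancel_left]
      exact hu
  · rintro ⟨hA, hB, hC⟩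
    refine ⟨fun v hv => ⟨(y : Adl K).2 v - 1, hC v hv, ?_⟩, fun v _ => ?_⟩
    · rw [h1S, one_mul, add_sub_cancel]
    · have h1 : Valued.v ((y : Adl K).2 v) ≤ 1 :=
        (HeightOneSpectrum.mem_adicCompletionIntegers _ _ _).1 (hA v)
      have h2 : Valued.v (((y⁻¹ : (Adl K)ˣ) : Adl K).2 v) ≤ 1 :=
        (HeightOneSpectrum.mem_adicCompletionIntegers _ _ _).1 (hB v)
      rw [unit_inv_snd122, map_inv₀] at h2
      have hne : Valued.v ((y : Adl K).2 v) ≠ 0 :=
        (Valuation.ne_zero_iff _).2 (unit_snd_ne_zero568 y v)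
      have h3 : 1 ≤ Valued.v ((y : Adl K).2 v) := by
        have := (inv_le_one₀ (zero_lt_iff.2 hne)).1 h2
        exact this
      have h4 : Valued.v ((y : Adl K).2 v) = 1 := le_antisymm h1 h3
      unfold ordI
      rw [h4, WithZero.log_one, neg_zero]

/-- **T7.14.6c.4b H-OPEN**, VERBATIM. -/
theorem hOpenC122 (K : Type) [Field K] [NumberField K] : HOpenC568 K := by
  intro S 𝔪 hS
  have hBopen : IsOpen {f : FiniteAdeleRing (𝓞 K) K |
      ∀ v : HeightOneSpectrum (𝓞 K), f v ∈ v.adicCompletionIntegers K} :=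
    RestrictedProduct.isOpen_forall_mem
      (fun v => Valued.isOpen_valuationSubring (v.adicCompletion K))
  have hc1 : Continuous fun y : (Adl K)ˣ => (y : Adl K).2 :=
    continuous_snd.comp Units.continuous_val
  have hc2 : Continuous fun y : (Adl K)ˣ => ((y⁻¹ : (Adl K)ˣ) : Adl K).2 :=
    continuous_snd.comp Units.continuous_coe_inv
  have e : hSub568 S 𝔪
      = ((fun y : (Adl K)ˣ => (y : Adl K).2) ⁻¹' {f : FiniteAdeleRing (𝓞 K) K |
          ∀ v : HeightOneSpectrum (𝓞 K), f v ∈ v.adicCompletionIntegers K})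
        ∩ (((fun y : (Adl K)ˣ => ((y⁻¹ : (Adl K)ˣ) : Adl K).2) ⁻¹'
          {f : FiniteAdeleRing (𝓞 K) K |
            ∀ v : HeightOneSpectrum (𝓞 K), f v ∈ v.adicCompletionIntegers K})
        ∩ ⋂ v ∈ S, (fun y : (Adl K)ˣ => (y : Adl K).2 v - 1) ⁻¹' (idealClosure 𝔪 v)) := by
    ext y
    rw [mem_hSub_iff122 S 𝔪 hS y]
    simp only [Set.mem_inter_iff, Set.mem_preimage, Set.mem_ofPred_eq, Set.mem_iInter]
  rw [e]
  refine (hBopen.preimage hc1).inter ((hBopen.preimage hc2).inter ?_)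
  refine isOpen_biInter_finset (fun v _ => ?_)
  have hcv : Continuous fun y : (Adl K)ˣ => (y : Adl K).2 v - 1 :=
    ((RestrictedProduct.continuous_eval v).comp hc1).sub continuous_const
  exact (isOpen_idealClosure122 hS.1 v).preimage hcv

example (K : Type) [Field K] [NumberField K] : H568.HOpenC568 K := hOpenC122 K

end Fermat.Agent.LT.T7.H122

end

end
-- ===== PACK-END LT/T7/H122/HOpen.lean

-- ===== PACK-BEGIN LT/T7/H683/TorusRec.lean
section



/-!
# Row LT, tower T7, node T7.14 `RigidC`, level 5: LEAF `TorusAsmC`, part 3 (helper683)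

OFF-MAIN.  The Hecke recursion at one place and at a finite set of places, for an arbitrary
function `W` on the ideles (pure algebra).  Complete proofs.
-/

set_option autoImplicit false

open AutomorphicForm IsDedekindDomain NumberField Filter Topology MeasureTheory
open scoped ComplexConjugate

noncomputable section

namespace Fermat.Agent.LT.T7.H683

open Fermat.Agent.LT.H556 Fermat.Agent.LT.H556.A0 Fermat.Agent.LT.T7 Fermat.Agent.LT.T7.Rigid

variable {K : Type} [Field K] [NumberField K]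

/-- The Hecke recursion at `v` for the function `W` on the ideles, uniformiser `t`. -/
def HeckeAt683 (W : (Adl K)ˣ → ℂ) (v : HeightOneSpectrum (𝓞 K)) (a : ℂ) (t : (Adl K)ˣ) : Prop :=
  ∀ y : (Adl K)ˣ, (ordI v y < 0 → W y = 0) ∧
    (0 ≤ ordI v y →
      ((nv v : ℝ) : ℂ) * W (y * t) + W (y * t⁻¹) = ((Real.sqrt (nv v) : ℝ) : ℂ) * a * W y)

theorem nv_pos683 (v : HeightOneSpectrum (𝓞 K)) : 0 < nv v := by
  unfold nv
  have h : Ideal.absNorm v.asIdeal ≠ 0 := by
    rw [Ne, Ideal.absNorm_eq_zero_iff]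
    exact v.ne_bot
  exact_mod_cast Nat.pos_of_ne_zero h

theorem locFactor_nat683 (v : HeightOneSpectrum (𝓞 K)) (a : ℂ) (n : ℕ) :
    locFactor v a (n : ℤ) = (((Real.sqrt (nv v) : ℝ) : ℂ)⁻¹) ^ n * hpoly a n := by
  unfold locFactor
  rw [if_pos (Int.natCast_nonneg n), Int.toNat_natCast]
  congr 1
  have hq := nv_pos683 v
  have h1 : nv v ^ (-((n : ℤ) : ℝ) / 2) = (Real.sqrt (nv v))⁻¹ ^ n := by
    rw [Real.sqrt_eq_rpow, ← Real.rpow_neg hq.le, ← Real.rpow_natCast, ← Real.rpow_mul hq.le]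
    congr 1
    push_cast
    ring
  rw [h1]
  push_cast
  rfl

theorem locFactor_zero683 (v : HeightOneSpectrum (𝓞 K)) (a : ℂ) : locFactor v a 0 = 1 := by
  have h := locFactor_nat683 v a 0
  simpa [hpoly] using h

theorem locFactor_neg683 (v : HeightOneSpectrum (𝓞 K)) (a : ℂ) {m : ℤ} (hm : m < 0) :
    locFactor v a m = 0 := by
  unfold locFactor
  rw [if_neg (not_le.2 hm)]

/-- The recursion at one place: `W(y₀ tⁿ) = locFactor v a n · W(y₀)` if `ord_v y₀ = 0`. -/
theorem hecke_pow683 {W : (Adl K)ˣ → ℂ} {v : HeightOneSpectrum (𝓞 K)} {a : ℂ} {t : (Adl K)ˣ}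
    (ht : IsUnifIdele v t) (hrec : HeckeAt683 W v a t) (y₀ : (Adl K)ˣ) (h0 : ordI v y₀ = 0)
    (n : ℕ) : W (y₀ * t ^ n) = locFactor v a (n : ℤ) * W y₀ := by
  have hq := nv_pos683 v
  have hs : (0 : ℝ) < Real.sqrt (nv v) := Real.sqrt_pos.2 hq
  have hσ : ((Real.sqrt (nv v) : ℝ) : ℂ) ≠ 0 := by exact_mod_cast hs.ne'
  have hqσ : ((nv v : ℝ) : ℂ) = ((Real.sqrt (nv v) : ℝ) : ℂ) ^ 2 := by
    rw [← Complex.ofReal_pow, Real.sq_sqrt hq.le]
  have hord : ∀ k : ℕ, ordI v (y₀ * t ^ k) = k := by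
    intro k
    rw [ordI_mul683, ordI_pow683, h0, ordI_unif683 ht]
    ring
  obtain ⟨σ, hσdef⟩ : ∃ σ : ℂ, σ = ((Real.sqrt (nv v) : ℝ) : ℂ) := ⟨_, rfl⟩
  rw [← hσdef] at hσ hqσ
  have hτ : σ * σ⁻¹ = 1 := mul_inv_cancel₀ hσ
  have hsq : σ ^ 2 ≠ 0 := pow_ne_zero 2 hσ
  have hloc : ∀ k : ℕ, locFactor v a (k : ℤ) = σ⁻¹ ^ k * hpoly a k := by
    intro k
    rw [locFactor_nat683, hσdef]
  have hrec' : ∀ y : (Adl K)ˣ, 0 ≤ ordI v y →
      σ ^ 2 * W (y * t) + W (y * t⁻¹) = σ * a * W y := by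
    intro y hy
    have h := (hrec y).2 hy
    rw [hqσ, ← hσdef] at h
    exact h
  have key : ∀ k : ℕ, W (y₀ * t ^ k) = locFactor v a (k : ℤ) * W y₀ ∧
      W (y₀ * t ^ (k + 1)) = locFactor v a ((k + 1 : ℕ) : ℤ) * W y₀ := by
    intro k
    induction k with
    | zero =>
      have h1 : W (y₀ * t ^ 0) = locFactor v a ((0 : ℕ) : ℤ) * W y₀ := by
        rw [pow_zero, mul_one, Nat.cast_zero, locFactor_zero683, one_mul]
      refine ⟨h1, ?_⟩
      have hr := hrec' y₀ (by rw [h0])
      have hneg : W (y₀ * t⁻¹) = 0 := by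
        refine (hrec (y₀ * t⁻¹)).1 ?_
        rw [ordI_mul683, ordI_inv683, h0, ordI_unif683 ht]
        norm_num
      rw [hneg, add_zero] at hr
      rw [zero_add, pow_one, hloc]
      have hp1 : hpoly a 1 = a := by rw [hpoly]
      rw [hp1, pow_one]
      apply mul_left_cancel₀ hsq
      linear_combination hr + (-(σ * a * W y₀)) * hτ
    | succ k ih =>
      refine ⟨ih.2, ?_⟩
      have hr := hrec' (y₀ * t ^ (k + 1)) (by rw [hord]; positivity)
      have e1 : y₀ * t ^ (k + 1) * t = y₀ * t ^ (k + 1 + 1) := by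
        rw [mul_assoc, ← pow_succ]
      have e2 : y₀ * t ^ (k + 1) * t⁻¹ = y₀ * t ^ k := by
        rw [pow_succ, ← mul_assoc, mul_inv_cancel_right]
      rw [e1, e2, ih.1, ih.2, hloc, hloc] at hr
      rw [hloc]
      have hp : hpoly a (k + 1 + 1) = a * hpoly a (k + 1) - hpoly a k := by
        rw [hpoly]
      rw [hp]
      apply mul_left_cancel₀ hsq
      linear_combination hr + (-(a * hpoly a (k + 1) * W y₀ * σ⁻¹ ^ k * σ * σ⁻¹)
        + hpoly a k * W y₀ * σ⁻¹ ^ k * (1 + σ * σ⁻¹)) * hτ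
  exact (key n).1

/-- The recursion at a finite set of places. -/
theorem hecke_prod683 {W : (Adl K)ˣ → ℂ} {a : HeightOneSpectrum (𝓞 K) → ℂ}
    (t : HeightOneSpectrum (𝓞 K) → (Adl K)ˣ) (ht : ∀ v, IsUnifIdele v (t v))
    (n : HeightOneSpectrum (𝓞 K) → ℕ) (T : Finset (HeightOneSpectrum (𝓞 K)))
    (hrec : ∀ v ∈ T, HeckeAt683 W v (a v) (t v)) (y₀ : (Adl K)ˣ)
    (h0 : ∀ v ∈ T, ordI v y₀ = 0) :
    W (y₀ * ∏ v ∈ T, t v ^ n v) = (∏ v ∈ T, locFactor v (a v) (n v : ℤ)) * W y₀ := by
  classical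
  induction T using Finset.induction_on generalizing y₀ with
  | empty => simp
  | insert v T hv ih =>
    rw [Finset.prod_insert hv, Finset.prod_insert hv, ← mul_assoc]
    have hrec' : ∀ v' ∈ T, HeckeAt683 W v' (a v') (t v') := fun v' hv' =>
      hrec v' (Finset.mem_insert_of_mem hv')
    have h0' : ∀ v' ∈ T, ordI v' (y₀ * t v ^ n v) = 0 := by
      intro v' hv'
      have hne : v' ≠ v := fun h => hv (h ▸ hv')
      rw [ordI_mul683, ordI_pow683, h0 v' (Finset.mem_insert_of_mem hv'),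
        ordI_unif_ne683 (ht v) hne]
      ring
    rw [ih hrec' (y₀ * t v ^ n v) h0',
      hecke_pow683 (ht v) (hrec v (Finset.mem_insert_self v T)) y₀
        (h0 v (Finset.mem_insert_self v T)) (n v)]
    ring

open Classical in
/-- The exponents of a product of powers of uniformisers. -/
theorem ordI_unif_prod683 (t : HeightOneSpectrum (𝓞 K) → (Adl K)ˣ)
    (ht : ∀ v, IsUnifIdele v (t v)) (n : HeightOneSpectrum (𝓞 K) → ℕ)
    (T : Finset (HeightOneSpectrum (𝓞 K))) (v : HeightOneSpectrum (𝓞 K)) :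
    ordI v (∏ v' ∈ T, t v' ^ n v') = if v ∈ T then (n v : ℤ) else 0 := by
  classical
  rw [ordI_prod683]
  have h : ∀ v' ∈ T, ordI v (t v' ^ n v') = if v = v' then (n v' : ℤ) else 0 := by
    intro v' _
    rw [ordI_pow683]
    by_cases hvv : v = v'
    · subst hvv
      rw [if_pos rfl, ordI_unif683 (ht v), mul_one]
    · rw [if_neg hvv, ordI_unif_ne683 (ht v') hvv, mul_zero]
  rw [Finset.sum_congr rfl h, Finset.sum_ite_eq]

/-- The components of a product of powers of uniformisers at the places outside the set. -/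
theorem fin_unif_prod683 (t : HeightOneSpectrum (𝓞 K) → (Adl K)ˣ)
    (ht : ∀ v, IsUnifIdele v (t v)) (n : HeightOneSpectrum (𝓞 K) → ℕ)
    (T : Finset (HeightOneSpectrum (𝓞 K))) {v : HeightOneSpectrum (𝓞 K)} (hv : v ∉ T) :
    ((∏ v' ∈ T, t v' ^ n v' : (Adl K)ˣ) : Adl K).2 v = 1 := by
  rw [fin_eq_one_iff683, map_prod]
  refine Finset.prod_eq_one fun v' hv' => ?_
  have hne : v ≠ v' := fun h => hv (h ▸ hv')
  rw [map_pow, (fin_eq_one_iff683 v (t v')).1 ((ht v').2.1 v hne), one_pow]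

theorem inf_unif_prod683 (t : HeightOneSpectrum (𝓞 K) → (Adl K)ˣ)
    (ht : ∀ v, IsUnifIdele v (t v)) (n : HeightOneSpectrum (𝓞 K) → ℕ)
    (T : Finset (HeightOneSpectrum (𝓞 K))) (w : InfinitePlace K) :
    ((∏ v' ∈ T, t v' ^ n v' : (Adl K)ˣ) : Adl K).1 w = 1 := by
  rw [inf_eq_one_iff683, map_prod]
  refine Finset.prod_eq_one fun v' _ => ?_
  rw [map_pow, (inf_eq_one_iff683 w (t v')).1 ((ht v').1 w), one_pow]

end Fermat.Agent.LT.T7.H683

end

end
-- ===== PACK-END LT/T7/H683/TorusRec.lean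

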