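import Mathlib
import Fermat.Agent.Pack.LT2.E17L2
import Fermat.Agent.Pack.LT2.E2L2
import Fermat.Agent.Pack.LT2.E16L3
import Fermat.Agent.Pack.LT2.E16L1
import Fermat.Agent.Pack.LT2.E16L0
import Fermat.Agent.Pack.LT2.E16L2
import Fermat.Agent.Pack.LT2.E4L1
import Fermat.Agent.Pack.LT2.E0L3
import Fermat.Agent.Pack.LT2.E11L3
import Fermat.Agent.Pack.LT2.E0L0
import Fermat.Agent.Pack.LT2.E12L3
import Fermat.Agent.Pack.LT2.E17L1
import Fermat.Agent.Pack.LT2.E17L0
import Fermat.Agent.Pack.LT2.E15L2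
import Fermat.Agent.Pack.LT2.E2L1
import Fermat.Agent.Pack.LT2.E17L3

set_option linter.all false

-- ===== PACK-BEGIN LT/A2/H276/WeylProd.lean
section



/-!
# Row LT, tower A2, leaf A2.03.1.4 `WX467.WeylC` (helper276), OFF-MAIN: the Weyl formula with
the constant `Γ c⁻¹`

`weyl_prod276 : F (w g) m ξ = Γ c⁻¹ ∫ F g m y ψ(B(ξ, y)) dy`, `Γ = ∏_u γ_u ∏_v γ_v`, from the
local axioms `LocAx.weyl` and the product formula for the integrals `ProdInt`.
-/

set_option autoImplicit false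
set_option linter.style.haveILetI false

open IsDedekindDomain NumberField AutomorphicForm MeasureTheory
open scoped MatrixGroups Topology

noncomputable section

namespace Fermat.Agent.LT.A2.H276

open Fermat.Agent.LT.H130 Fermat.Agent.LT.H556 Fermat.Agent.LT.A2 Fermat.Agent.LT.A2.WX467
open Fermat.Agent.LT.T1.H793

/-! ## Local factors -/

section Local

variable {k : Type} [Field k] [TopologicalSpace k] [IsTopologicalRing k]

theorem continuous_bfL276 (t n : k) (ξ : k × k) :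
    Continuous (fun y : k × k => bfL t n ξ y) := by
  unfold bfL qfL
  fun_prop

/-- the local integrand of the Weyl formula is continuous and integrable -/
theorem local_factor276 [SecondCountableTopology k] {absv : k → ℝ} {t n : k} {ψ : k → ℂ}
    {μ : @Measure k (borel k)} {γ : ℂ} {η : k → ℂ}
    {F : Matrix (Fin 2) (Fin 2) k → Matrix (Fin 2) (Fin 2) k → k × k → ℂ}
    (ax : LocAx absv t n ψ μ γ η F) (g m : Matrix (Fin 2) (Fin 2) k) (h : AdmL t n g m)
    (ξ : k × k) :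
    Continuous (fun y => F g m y * ψ (bfL t n ξ y)) ∧
      IntegrableL μ (fun y => F g m y * ψ (bfL t n ξ y)) := by
  have hc : Continuous (fun y : k × k => ψ (bfL t n ξ y)) :=
    ax.psi_char.1.comp (continuous_bfL276 t n ξ)
  refine ⟨(ax.cont g m h).mul hc, ?_⟩
  have hi := ax.integrable g m h
  unfold IntegrableL at hi ⊢
  letI : MeasurableSpace k := borel k
  haveI : BorelSpace k := ⟨rfl⟩
  exact hi.mul_bdd (c := 1) hc.aestronglyMeasurable
    (Filter.Eventually.of_forall fun y => le_of_eq (ax.psi_char.2.2 _))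

end Local

variable {K : Type} [Field K] [NumberField K]

/-! ## The integral of the standard function -/

theorem stdFn_eq_indicator276 (v : HeightOneSpectrum (𝓞 K)) :
    stdFn v = Set.indicator
      ((v.adicCompletionIntegers K : Set (v.adicCompletion K)) ×ˢ
        (v.adicCompletionIntegers K : Set (v.adicCompletion K))) (fun _ => (1 : ℂ)) := by
  classical
  funext ξ
  by_cases h : ξ.1 ∈ v.adicCompletionIntegers K ∧ ξ.2 ∈ v.adicCompletionIntegers K
  · rw [stdFn_of_integral276 v ξ h.1 h.2, Set.indicator_of_mem (Set.mem_prod.2 h)]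
  · rw [stdFn_of_not_integral276 v ξ h, Set.indicator_of_notMem]
    exact fun h' => h (Set.mem_prod.1 h')

theorem intL_stdFn276 (v : HeightOneSpectrum (𝓞 K))
    (μ : @Measure (v.adicCompletion K) (borel (v.adicCompletion K)))
    (hfin : ∀ C : Set (v.adicCompletion K), IsCompact C → μ C < ⊤)
    (h1 : μ (v.adicCompletionIntegers K : Set (v.adicCompletion K)) = 1) :
    intL μ (stdFn v) = 1 := by
  unfold intL
  letI : MeasurableSpace (v.adicCompletion K) := borel (v.adicCompletion K)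
  haveI : BorelSpace (v.adicCompletion K) := ⟨rfl⟩
  haveI := Fermat.Agent.LT.H11.SC.secondCountableTopology_adicCompletion_h11 K v
  haveI := Fermat.Agent.LT.H11.LC.locallyCompactSpace_adicCompletion_h11 K v
  haveI : IsFiniteMeasureOnCompacts μ := ⟨fun C hC => hfin C hC⟩
  have hO : MeasurableSet (v.adicCompletionIntegers K : Set (v.adicCompletion K)) :=
    (Valued.isOpen_valuationSubring (v.adicCompletion K)).measurableSet
  rw [stdFn_eq_indicator276, integral_indicator_const _ (hO.prod hO), Measure.real,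
    Measure.prod_prod, h1]
  simp

/-! ## The constant `Γ` -/

/-- `Γ = ∏_u γ_u ∏_v γ_v` -/
def Gam276 (L : WData K) : ℂ :=
  (∏ u : InfinitePlace K, L.γinf u) * ∏ᶠ v : HeightOneSpectrum (𝓞 K), L.γfin v

theorem eventually_gamma_eq_one276 (L : WData K) (hL : L.IsGood) :
    ∀ᶠ v : HeightOneSpectrum (𝓞 K) in Filter.cofinite, L.γfin v = 1 := by
  filter_upwards [eventually_not_dvd276 L.π.level_ne_bot] with v hv
  exact (hL.good v hv).gamma_one

/-! ## The local integrands -/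

/-- the local integrand at an infinite place -/
def fInf276 (L : WData K) (g m : A0.G K) (ξ : A0.Adl K × A0.Adl K) (u : InfinitePlace K)
    (y : u.Completion × u.Completion) : ℂ :=
  L.Finf u (infMat u g) (infMat u m) y * L.ψinf u (bfL (L.tinf u) (L.ninf u) (infVec u ξ) y)

/-- the local integrand at a finite place -/
def fFin276 (L : WData K) (g m : A0.G K) (ξ : A0.Adl K × A0.Adl K)
    (v : HeightOneSpectrum (𝓞 K)) (y : v.adicCompletion K × v.adicCompletion K) : ℂ :=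
  L.Ffin v (A0.finComp v g) (A0.finComp v m) y *
    L.ψfin v (bfL (L.tfin v) (L.nfin v) (finVec v ξ) y)

theorem qfL_integral276 (v : HeightOneSpectrum (𝓞 K)) (t n : v.adicCompletion K)
    (ht : t ∈ v.adicCompletionIntegers K) (hn : n ∈ v.adicCompletionIntegers K)
    (ξ : v.adicCompletion K × v.adicCompletion K) (h1 : ξ.1 ∈ v.adicCompletionIntegers K)
    (h2 : ξ.2 ∈ v.adicCompletionIntegers K) : qfL t n ξ ∈ v.adicCompletionIntegers K := by
  unfold qfL
  exact add_mem (add_mem (pow_mem h1 2) (mul_mem (mul_mem ht h1) h2)) (mul_mem hn (pow_mem h2 2))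

theorem bfL_integral276 (v : HeightOneSpectrum (𝓞 K)) (t n : v.adicCompletion K)
    (ht : t ∈ v.adicCompletionIntegers K) (hn : n ∈ v.adicCompletionIntegers K)
    (ξ y : v.adicCompletion K × v.adicCompletion K) (h1 : ξ.1 ∈ v.adicCompletionIntegers K)
    (h2 : ξ.2 ∈ v.adicCompletionIntegers K) (h3 : y.1 ∈ v.adicCompletionIntegers K)
    (h4 : y.2 ∈ v.adicCompletionIntegers K) : bfL t n ξ y ∈ v.adicCompletionIntegers K := by
  unfold bfL
  refine sub_mem (sub_mem (qfL_integral276 v t n ht hn _ ?_ ?_)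
    (qfL_integral276 v t n ht hn _ h1 h2)) (qfL_integral276 v t n ht hn _ h3 h4)
  · exact add_mem h1 h3
  · exact add_mem h2 h4

/-- almost all local integrands are the standard function -/
theorem eventually_fFin_eq_std276 (L : WData K) (hL : L.IsGood) {g m : A0.G K}
    (h : Adm L.t L.n g m) (ξ : A0.Adl K × A0.Adl K) :
    ∀ᶠ v : HeightOneSpectrum (𝓞 K) in Filter.cofinite, fFin276 L g m ξ v = stdFn v := by
  filter_upwards [eventually_Ffin_eq_std276 L hL h, eventually_finVec_integral276 ξ,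
    eventually_not_dvd276 L.π.level_ne_bot] with v h1 h2 hv
  funext y
  unfold fFin276
  rw [h1]
  by_cases hy : y.1 ∈ v.adicCompletionIntegers K ∧ y.2 ∈ v.adicCompletionIntegers K
  · have hb : bfL (L.tfin v) (L.nfin v) (finVec v ξ) y ∈ v.adicCompletionIntegers K :=
      bfL_integral276 v _ _ (hL.good v hv).good_int.1 (hL.good v hv).good_int.2.1 _ _
        h2.1 h2.2 hy.1 hy.2
    rw [psifin_integral276 L hL v hv _ hb, mul_one]
  · rw [stdFn_of_not_integral276 v y hy, zero_mul]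

/-! ## The Weyl formula with the constant `Γ c⁻¹` -/

theorem fInf_good276 (L : WData K) (hL : L.IsGood) {g m : A0.G K} (h : Adm L.t L.n g m)
    (ξ : A0.Adl K × A0.Adl K) (u : InfinitePlace K) :
    Continuous (fInf276 L g m ξ u) ∧ IntegrableL (L.μinf u) (fInf276 L g m ξ u) := by
  haveI := Fermat.Agent.LT.H11.SC.secondCountableTopology_infCompletion_h11 K u
  exact local_factor276 (hL.cpx u).ax _ _ (admL_inf276 L.t L.n u h) _

theorem fFin_good276 (L : WData K) (hL : L.IsGood) {g m : A0.G K} (h : Adm L.t L.n g m)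
    (ξ : A0.Adl K × A0.Adl K) (v : HeightOneSpectrum (𝓞 K)) :
    Continuous (fFin276 L g m ξ v) ∧ IntegrableL (L.μfin v) (fFin276 L g m ξ v) := by
  haveI := Fermat.Agent.LT.H11.SC.secondCountableTopology_adicCompletion_h11 K v
  exact local_factor276 (hL.fin v).ax _ _ (admL_fin276 L.t L.n v h) _

/-- the product of the local integrands is the global integrand -/
theorem prodFn_eq276 (L : WData K) (hL : L.IsGood) (hB : BorelOut L.toKData L.η)
    {g m : A0.G K} (h : Adm L.t L.n g m) (ξ y : A0.Adl K × A0.Adl K) :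
    prodFn (fInf276 L g m ξ) (fFin276 L g m ξ) y = L.F g m y * L.ψ (bf L.t L.n ξ y) := by
  rw [psi_eq_prod276 L hL hB, psiProd276, F_apply276]
  unfold prodFn
  have e1 : ∀ u : InfinitePlace K, fInf276 L g m ξ u (infVec u y)
      = L.Finf u (infMat u g) (infMat u m) (infVec u y)
        * L.ψinf u (projInf793 u (bf L.t L.n ξ y)) := by
    intro u
    rw [projInf_bf276]
    rfl
  have e2 : ∀ v : HeightOneSpectrum (𝓞 K), fFin276 L g m ξ v (finVec v y)
      = L.Ffin v (A0.finComp v g) (A0.finComp v m) (finVec v y)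
        * L.ψfin v (projFin793 v (bf L.t L.n ξ y)) := by
    intro v
    rw [projFin_bf276]
    rfl
  rw [Finset.prod_congr rfl fun u _ => e1 u, finprod_congr e2, Finset.prod_mul_distrib,
    finprod_mul_distrib
      (hasFiniteMulSupport_of_eventually276 (eventually_Ffin_apply_eq_one276 L hL h y))
      (hasFiniteMulSupport_of_eventually276 (eventually_psifin_eq_one276 L hL _))]
  ring

/-- almost all local integrals are `1` -/
theorem eventually_intL_eq_one276 (L : WData K) (hL : L.IsGood) {g m : A0.G K}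
    (h : Adm L.t L.n g m) (ξ : A0.Adl K × A0.Adl K) :
    ∀ᶠ v : HeightOneSpectrum (𝓞 K) in Filter.cofinite,
      intL (L.μfin v) (fFin276 L g m ξ v) = 1 := by
  filter_upwards [eventually_fFin_eq_std276 L hL h ξ, eventually_not_dvd276 L.π.level_ne_bot]
    with v h1 hv
  rw [h1]
  exact intL_stdFn276 v _ (hL.fin v).ax.haar.2.1 (hL.good v hv).meas_one

/-- **The Weyl formula with the constant `Γ c⁻¹`.** -/
theorem weyl_prod276 (L : WData K) (hL : L.IsGood) (hB : BorelOut L.toKData L.η)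
    {w g m : A0.G K} (hw : IsWeyl w) (h : Adm L.t L.n g m) (ξ : A0.Adl K × A0.Adl K) :
    L.F (w * g) m ξ
      = Gam276 L * L.c⁻¹ * integral2 L.μ (fun y => L.F g m y * L.ψ (bf L.t L.n ξ y)) := by
  classical
  -- the product formula for the integrals
  have hS : ∃ S : Finset (HeightOneSpectrum (𝓞 K)), ∀ v, v ∉ S → fFin276 L g m ξ v = stdFn v := by
    have hev := eventually_fFin_eq_std276 L hL h ξ
    rw [Filter.eventually_cofinite] at hev
    refine ⟨hev.toFinset, fun v hv => ?_⟩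
    by_contra hne
    exact hv (hev.mem_toFinset.2 hne)
  obtain ⟨-, hval⟩ := hL.prod_int.2 (fInf276 L g m ξ) (fFin276 L g m ξ)
    (fun u => fInf_good276 L hL h ξ u) (fun v => fFin_good276 L hL h ξ v) hS
  have hfun : (fun y => L.F g m y * L.ψ (bf L.t L.n ξ y))
      = prodFn (fInf276 L g m ξ) (fFin276 L g m ξ) := by
    funext y
    exact (prodFn_eq276 L hL hB h ξ y).symm
  rw [hfun, hval]
  -- the local Weyl formulas
  rw [F_apply276]
  have eu : ∀ u : InfinitePlace K,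
      L.Finf u (infMat u (w * g)) (infMat u m) (infVec u ξ)
        = L.γinf u * intL (L.μinf u) (fInf276 L g m ξ u) := by
    intro u
    rw [infMat_mul276, infMat_weyl276 u hw,
      (hL.cpx u).ax.weyl _ _ _ (admL_inf276 L.t L.n u h)]
    rfl
  have ev : ∀ v : HeightOneSpectrum (𝓞 K),
      L.Ffin v (A0.finComp v (w * g)) (A0.finComp v m) (finVec v ξ)
        = L.γfin v * intL (L.μfin v) (fFin276 L g m ξ v) := by
    intro v
    rw [finComp_mul276, finComp_weyl276 v hw,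
      (hL.fin v).ax.weyl _ _ _ (admL_fin276 L.t L.n v h)]
    rfl
  rw [Finset.prod_congr rfl fun u _ => eu u, finprod_congr ev, Finset.prod_mul_distrib,
    finprod_mul_distrib
      (hasFiniteMulSupport_of_eventually276 (eventually_gamma_eq_one276 L hL))
      (hasFiniteMulSupport_of_eventually276 (eventually_intL_eq_one276 L hL h ξ)), Gam276]
  have hc : L.c ≠ 0 := hL.prod_int.1
  field_simp

end Fermat.Agent.LT.A2.H276

end

end
-- ===== PACK-END LT/A2/H276/WeylProd.lean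

-- ===== PACK-BEGIN LT/A2/H61/CpxDiag.lean
section


/-!
# Row LT, tower A2, station A2.03.1.1.10, leaf CX.02 `CX798.DiagC` (helper61)

OFF-MAIN.  `diagC_h61 : CX798.DiagC`, VERBATIM against
`Fermat/Agent/LT/A2/H798/CpxSpec.lean` (helper798@5f07fac26, sha256 8ca2dc507058b836; the spec
closure is vendored byte-identical).  Pure algebra on the closed form `FC`:

* `rowN (t(a) g) = rowN g / ‖a‖²`,
* `rowB (t(a) g) = (a / conj a) * rowB g`,
* `(a / conj a) * ‖a‖² = a²` and `z_i (a ξ) = a z_i (ξ)`.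

The hypothesis `AdmL` is not used (for `rowN g = 0` both sides vanish).
-/

set_option autoImplicit false

open scoped ComplexConjugate

noncomputable section

namespace Fermat.Agent.LT.A2.CX798.H61

open Fermat.Agent.LT.A2.CX798 Fermat.Agent.LT.A2.WX467

theorem rowN_diag_h61 (a : ℂ) (ha : a ≠ 0) (g : Matrix (Fin 2) (Fin 2) ℂ) :
    rowN (!![a, 0; 0, a⁻¹] * g) = rowN g / ‖a‖ ^ 2 := by
  have hna : ‖a‖ ≠ 0 := norm_ne_zero_iff.mpr ha
  unfold rowN
  simp only [Matrix.mul_apply, Fin.sum_univ_two, Matrix.of_apply, Matrix.cons_val',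
    Matrix.cons_val_zero, Matrix.cons_val_one, Matrix.cons_val_fin_one, zero_mul, zero_add,
    norm_mul, norm_inv]
  field_simp

theorem rowB_diag_h61 (a : ℂ) (ha : a ≠ 0) (g : Matrix (Fin 2) (Fin 2) ℂ) :
    rowB (!![a, 0; 0, a⁻¹] * g) = (a / conj a) * rowB g := by
  have hca : conj a ≠ 0 := (map_ne_zero (starRingEnd ℂ)).mpr ha
  unfold rowB
  simp only [Matrix.mul_apply, Fin.sum_univ_two, Matrix.of_apply, Matrix.cons_val',
    Matrix.cons_val_zero, Matrix.cons_val_one, Matrix.cons_val_fin_one, zero_mul, zero_add,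
    add_zero, map_mul, map_inv₀]
  field_simp

theorem normSq_cast_h61 (a : ℂ) : ((‖a‖ ^ 2 : ℝ) : ℂ) = a * conj a := by
  rw [Complex.mul_conj, Complex.normSq_eq_norm_sq]

/-- **CX.02 DIAG**, without the admissibility hypothesis. -/
theorem FC_diag_h61 (c ω₁ ω₂ a : ℂ) (ha : a ≠ 0) (g m : Matrix (Fin 2) (Fin 2) ℂ)
    (ξ : ℂ × ℂ) :
    FC c ω₁ ω₂ (!![a, 0; 0, a⁻¹] * g) m ξ
      = (1 : ℂ) * ((‖a‖ ^ 2 : ℝ) : ℂ) * FC c ω₁ ω₂ g m (a • ξ) := by
  have hna : ‖a‖ ≠ 0 := norm_ne_zero_iff.mpr ha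
  have hca : conj a ≠ 0 := (map_ne_zero (starRingEnd ℂ)).mpr ha
  unfold FC
  rw [rowN_diag_h61 a ha, rowB_diag_h61 a ha]
  set N : ℝ := rowN g with hN
  set B : ℂ := rowB g with hB
  set l₁ : ℂ := lam ω₁ m with hl₁
  set l₂ : ℂ := lam ω₂ m with hl₂
  have h1 : (a • ξ).1 = a * ξ.1 := rfl
  have h2 : (a • ξ).2 = a * ξ.2 := rfl
  rw [h1, h2]
  set z₁ : ℂ := ξ.1 + ω₁ * ξ.2 with hz₁
  set z₂ : ℂ := ξ.1 + ω₂ * ξ.2 with hz₂
  have e1 : a * ξ.1 + ω₁ * (a * ξ.2) = a * z₁ := by rw [hz₁]; ring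
  have e2 : a * ξ.1 + ω₂ * (a * ξ.2) = a * z₂ := by rw [hz₂]; ring
  rw [e1, e2]
  -- the coefficient
  have hcoef : ‖l₁ * l₂‖ / (N / ‖a‖ ^ 2) = ‖a‖ ^ 2 * (‖l₁ * l₂‖ / N) := by
    rw [div_div_eq_mul_div]; ring
  -- the real part of the exponent
  have hre : -(2 * Real.pi * ‖c‖ * (‖l₂ * z₁‖ ^ 2 + ‖l₁ * z₂‖ ^ 2) / (N / ‖a‖ ^ 2))
      = -(2 * Real.pi * ‖c‖ * (‖l₂ * (a * z₁)‖ ^ 2 + ‖l₁ * (a * z₂)‖ ^ 2) / N) := by
    rw [div_div_eq_mul_div]
    simp only [norm_mul]
    ring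
  -- the imaginary part of the exponent
  have him : (c * (a / conj a * B) * (z₁ * z₂)).re / (N / ‖a‖ ^ 2)
      = (c * B * (a * z₁ * (a * z₂))).re / N := by
    rw [div_div_eq_mul_div]
    congr 1
    have hprod : c * B * (a * z₁ * (a * z₂))
        = c * (a / conj a * B) * (z₁ * z₂) * ((‖a‖ ^ 2 : ℝ) : ℂ) := by
      rw [normSq_cast_h61]
      field_simp
    rw [hprod, Complex.re_mul_ofReal]
  rw [hcoef, hre, him]
  push_cast
  ring

/-- **CX.02 DIAG**: `CX798.DiagC`, verbatim. -/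
theorem diagC_h61 : DiagC := by
  intro c ω₁ ω₂ a ha g m ξ _
  exact FC_diag_h61 c ω₁ ω₂ a ha g m ξ

end Fermat.Agent.LT.A2.CX798.H61

end

end
-- ===== PACK-END LT/A2/H61/CpxDiag.lean

-- ===== PACK-BEGIN LT/A2/H724/CxDecay.lean
section


/-!
# Row LT, tower A2, leaf A2.03.1.1.10.06 `CX798.DecayC` (helper724, registry row 1487)

OFF-MAIN.  Uniform Gaussian decay of the closed form `FC` of the local Weil family at a complex
place on the bounded sets of admissible pairs.  Imports the cut `LT/A2/H798/CpxSpec.lean`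
(helper798@5f07fac26, sha256 8ca2dc50) byte-identically; nothing is assumed.

`‖FC g m ξ‖ = (‖λ₁ λ₂‖ / N) exp(-2π‖c‖ (‖λ₂ z₁‖² + ‖λ₁ z₂‖²) / N)`, and for entries of
`g, m, g⁻¹, m⁻¹` bounded by `R`: `1 / (2R²) ≤ N ≤ 2R²` (`(g g⁻¹)₁₁ = 1`), `‖λ₁ λ₂‖ = ‖det m‖ ≤ 2R²`,
`λ_i(m) λ_i(m⁻¹) = 1` so `‖λ_i‖ ≥ 1 / (R (1 + ‖ω_i‖))`, and
`‖ξ₁‖² + ‖ξ₂‖² ≤ C (‖z₁‖² + ‖z₂‖²)` because `ω₁ ≠ ω₂`.
-/

set_option autoImplicit false

open scoped ComplexConjugate

noncomputable section

namespace Fermat.Agent.LT.A2.H724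

open Fermat.Agent.LT.A2 Fermat.Agent.LT.A2.WX467 Fermat.Agent.LT.A2.CX798

/-- The norm of the closed form. -/
theorem norm_FC724 (c ω₁ ω₂ : ℂ) (g m : Matrix (Fin 2) (Fin 2) ℂ) (ξ : ℂ × ℂ) :
    ‖FC c ω₁ ω₂ g m ξ‖ = |‖lam ω₁ m * lam ω₂ m‖ / rowN g| *
      Real.exp (-(2 * Real.pi * ‖c‖ *
        (‖lam ω₂ m * (ξ.1 + ω₁ * ξ.2)‖ ^ 2 + ‖lam ω₁ m * (ξ.1 + ω₂ * ξ.2)‖ ^ 2) / rowN g)) := by
  unfold FC
  rw [norm_mul, Complex.norm_exp, Complex.norm_real, Real.norm_eq_abs]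
  congr 2
  rw [Complex.add_re, Complex.ofReal_re]
  have : (4 * (Real.pi : ℂ) * Complex.I *
      (((c * rowB g * ((ξ.1 + ω₁ * ξ.2) * (ξ.1 + ω₂ * ξ.2))).re / rowN g : ℝ) : ℂ)).re = 0 := by
    have e : (4 * (Real.pi : ℂ) * Complex.I *
      (((c * rowB g * ((ξ.1 + ω₁ * ξ.2) * (ξ.1 + ω₂ * ξ.2))).re / rowN g : ℝ) : ℂ))
        = ((4 * Real.pi *
          ((c * rowB g * ((ξ.1 + ω₁ * ξ.2) * (ξ.1 + ω₂ * ξ.2))).re / rowN g) : ℝ) : ℂ)
            * Complex.I := by
      push_cast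
      ring
    rw [e, Complex.re_ofReal_mul, Complex.I_re, mul_zero]
  rw [this, add_zero]

/-- `λ_ω(m) λ_ω(m⁻¹) = 1` on the torus, `ω` a root of `X² - tX + n`. -/
theorem lam_mul_lam_inv724 (ω₁ ω₂ a b : ℂ)
    (hdet : (torMat (ω₁ + ω₂) (ω₁ * ω₂) a b).det ≠ 0) :
    lam ω₁ (torMat (ω₁ + ω₂) (ω₁ * ω₂) a b) * lam ω₁ (torMat (ω₁ + ω₂) (ω₁ * ω₂) a b)⁻¹ = 1 ∧
    lam ω₂ (torMat (ω₁ + ω₂) (ω₁ * ω₂) a b) * lam ω₂ (torMat (ω₁ + ω₂) (ω₁ * ω₂) a b)⁻¹ = 1 := by
  have hd : (torMat (ω₁ + ω₂) (ω₁ * ω₂) a b).det = (a + b * ω₁) * (a + b * ω₂) := by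
    rw [torMat, Matrix.det_fin_two_of]
    ring
  have h1 : a + b * ω₁ ≠ 0 := fun h => hdet (by rw [hd, h, zero_mul])
  have h2 : a + b * ω₂ ≠ 0 := fun h => hdet (by rw [hd, h, mul_zero])
  have hinv : (torMat (ω₁ + ω₂) (ω₁ * ω₂) a b)⁻¹
      = ((a + b * ω₁) * (a + b * ω₂))⁻¹ • !![a + (ω₁ + ω₂) * b, ω₁ * ω₂ * b; -b, a] := by
    rw [Matrix.inv_def, hd, Ring.inverse_eq_inv', torMat, Matrix.adjugate_fin_two_of]
    simp
  have l0 : ∀ ω : ℂ, lam ω (torMat (ω₁ + ω₂) (ω₁ * ω₂) a b) = a + b * ω := by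
    intro ω
    simp [lam, torMat]
  have l1 : ∀ ω : ℂ, lam ω (torMat (ω₁ + ω₂) (ω₁ * ω₂) a b)⁻¹
      = ((a + b * ω₁) * (a + b * ω₂))⁻¹ * (a + (ω₁ + ω₂) * b - b * ω) := by
    intro ω
    rw [hinv]
    simp [lam]
    ring
  constructor
  · rw [l0, l1]
    field_simp
    ring
  · rw [l0, l1]
    field_simp
    ring

/-- The split coordinates control the coordinates. -/
theorem coord_le724 (ω₁ ω₂ : ℂ) (ξ : ℂ × ℂ) :
    ‖ω₁ - ω₂‖ ^ 2 * (‖ξ.1‖ ^ 2 + ‖ξ.2‖ ^ 2)
      ≤ 2 * (1 + ‖ω₁‖ ^ 2 + ‖ω₂‖ ^ 2) *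
        (‖ξ.1 + ω₁ * ξ.2‖ ^ 2 + ‖ξ.1 + ω₂ * ξ.2‖ ^ 2) := by
  set z₁ := ξ.1 + ω₁ * ξ.2 with hz₁
  set z₂ := ξ.1 + ω₂ * ξ.2 with hz₂
  have e2 : (ω₁ - ω₂) * ξ.2 = z₁ - z₂ := by rw [hz₁, hz₂]; ring
  have e1 : (ω₁ - ω₂) * ξ.1 = ω₁ * z₂ - ω₂ * z₁ := by rw [hz₁, hz₂]; ring
  have n2 : ‖ω₁ - ω₂‖ * ‖ξ.2‖ ≤ ‖z₁‖ + ‖z₂‖ := by
    rw [← norm_mul, e2]
    exact norm_sub_le _ _
  have n1 : ‖ω₁ - ω₂‖ * ‖ξ.1‖ ≤ ‖ω₁‖ * ‖z₂‖ + ‖ω₂‖ * ‖z₁‖ := by
    rw [← norm_mul, e1]
    calc ‖ω₁ * z₂ - ω₂ * z₁‖ ≤ ‖ω₁ * z₂‖ + ‖ω₂ * z₁‖ := norm_sub_le _ _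
      _ = ‖ω₁‖ * ‖z₂‖ + ‖ω₂‖ * ‖z₁‖ := by rw [norm_mul, norm_mul]
  have p0 : 0 ≤ ‖ω₁ - ω₂‖ := norm_nonneg _
  have p1 : 0 ≤ ‖ξ.1‖ := norm_nonneg _
  have p2 : 0 ≤ ‖ξ.2‖ := norm_nonneg _
  have q1 : 0 ≤ ‖z₁‖ := norm_nonneg _
  have q2 : 0 ≤ ‖z₂‖ := norm_nonneg _
  have w1 : 0 ≤ ‖ω₁‖ := norm_nonneg _
  have w2 : 0 ≤ ‖ω₂‖ := norm_nonneg _
  have s2 : (‖ω₁ - ω₂‖ * ‖ξ.2‖) ^ 2 ≤ (‖z₁‖ + ‖z₂‖) ^ 2 :=
    pow_le_pow_left₀ (mul_nonneg p0 p2) n2 2
  have s1 : (‖ω₁ - ω₂‖ * ‖ξ.1‖) ^ 2 ≤ (‖ω₁‖ * ‖z₂‖ + ‖ω₂‖ * ‖z₁‖) ^ 2 :=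
    pow_le_pow_left₀ (mul_nonneg p0 p1) n1 2
  have c2 : (‖z₁‖ + ‖z₂‖) ^ 2 ≤ 2 * (‖z₁‖ ^ 2 + ‖z₂‖ ^ 2) := by
    nlinarith [sq_nonneg (‖z₁‖ - ‖z₂‖)]
  have c1 : (‖ω₁‖ * ‖z₂‖ + ‖ω₂‖ * ‖z₁‖) ^ 2
      ≤ (‖ω₁‖ ^ 2 + ‖ω₂‖ ^ 2) * (‖z₁‖ ^ 2 + ‖z₂‖ ^ 2) := by
    nlinarith [sq_nonneg (‖ω₁‖ * ‖z₁‖ - ‖ω₂‖ * ‖z₂‖)]
  have hz : 0 ≤ ‖z₁‖ ^ 2 + ‖z₂‖ ^ 2 := by positivity
  have hw : 0 ≤ ‖ω₁‖ ^ 2 + ‖ω₂‖ ^ 2 := by positivity
  nlinarith [mul_nonneg hw hz]

/-- **Leaf A2.03.1.1.10.06 `CX798.DecayC`.** -/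
theorem decayC724 : DecayC := by
  intro c ω₁ ω₂ hc hω R
  by_cases hR : R ≤ 0
  · refine ⟨0, 1, one_pos, ?_⟩
    intro g m hadm hbd ξ
    exfalso
    have hg : ∀ i j, g i j = 0 := by
      intro i j
      have := (hbd i j).1
      exact norm_le_zero_iff.mp (this.trans hR)
    have hdet : g.det = 0 := by
      rw [Matrix.det_fin_two, hg 0 0, hg 0 1]
      ring
    exact hadm.2.2 (hadm.2.1 ▸ hdet)
  rw [not_le] at hR
  have hcpos : 0 < ‖c‖ := norm_pos_iff.mpr hc
  have hωpos : 0 < ‖ω₁ - ω₂‖ := norm_pos_iff.mpr (sub_ne_zero.mpr hω)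
  -- the constants
  set W : ℝ := 1 + ‖ω₁‖ + ‖ω₂‖ with hW
  have hWpos : 0 < W := by positivity
  set C₀ : ℝ := 2 * (1 + ‖ω₁‖ ^ 2 + ‖ω₂‖ ^ 2) with hC₀
  have hC₀pos : 0 < C₀ := by positivity
  set δ : ℝ := 2 * Real.pi * ‖c‖ * (‖ω₁ - ω₂‖ ^ 2 / C₀) / ((R * W) ^ 2 * (2 * R ^ 2)) with hδ
  have hδpos : 0 < δ := by positivity
  refine ⟨4 * R ^ 4, δ, hδpos, ?_⟩
  intro g m hadm hbd ξ
  obtain ⟨⟨a, b, hm⟩, hdetgm, hdetm⟩ := hadm
  have hdetg : g.det ≠ 0 := hdetgm ▸ hdetm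
  -- bounds on `N`
  have hN_le : rowN g ≤ 2 * R ^ 2 := by
    unfold rowN
    have h0 := (hbd 1 0).1
    have h1 := (hbd 1 1).1
    have a0 : ‖g 1 0‖ ^ 2 ≤ R ^ 2 := pow_le_pow_left₀ (norm_nonneg _) h0 2
    have a1 : ‖g 1 1‖ ^ 2 ≤ R ^ 2 := pow_le_pow_left₀ (norm_nonneg _) h1 2
    linarith
  have hN_ge : 1 / (2 * R ^ 2) ≤ rowN g := by
    have hone : g 1 0 * g⁻¹ 0 1 + g 1 1 * g⁻¹ 1 1 = 1 := by
      have := Matrix.mul_nonsing_inv g (isUnit_iff_ne_zero.mpr hdetg)
      have h11 := congrFun (congrFun this 1) 1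
      rw [Matrix.mul_apply, Fin.sum_univ_two] at h11
      simpa using h11
    have hle : (1 : ℝ) ≤ (‖g 1 0‖ + ‖g 1 1‖) * R := by
      calc (1 : ℝ) = ‖g 1 0 * g⁻¹ 0 1 + g 1 1 * g⁻¹ 1 1‖ := by rw [hone, norm_one]
        _ ≤ ‖g 1 0 * g⁻¹ 0 1‖ + ‖g 1 1 * g⁻¹ 1 1‖ := norm_add_le _ _
        _ = ‖g 1 0‖ * ‖g⁻¹ 0 1‖ + ‖g 1 1‖ * ‖g⁻¹ 1 1‖ := by rw [norm_mul, norm_mul]
        _ ≤ ‖g 1 0‖ * R + ‖g 1 1‖ * R := by
            gcongr
            · exact (hbd 0 1).2.2.1
            · exact (hbd 1 1).2.2.1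
        _ = (‖g 1 0‖ + ‖g 1 1‖) * R := by ring
    have hsq : 1 ≤ (‖g 1 0‖ + ‖g 1 1‖) ^ 2 * R ^ 2 := by
      have := pow_le_pow_left₀ zero_le_one hle 2
      rw [one_pow, mul_pow] at this
      exact this
    have h2 : (‖g 1 0‖ + ‖g 1 1‖) ^ 2 ≤ 2 * rowN g := by
      unfold rowN
      nlinarith [sq_nonneg (‖g 1 0‖ - ‖g 1 1‖)]
    rw [div_le_iff₀ (by positivity)]
    have hR2 : 0 ≤ R ^ 2 := by positivity
    nlinarith [mul_le_mul_of_nonneg_right h2 hR2]
  have hNpos : 0 < rowN g := lt_of_lt_of_le (by positivity) hN_ge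
  -- the prefactor
  have hlam : lam ω₁ m * lam ω₂ m = m.det := by
    rw [hm, torMat, Matrix.det_fin_two_of]
    simp [lam]
    ring
  have hdet_le : ‖m.det‖ ≤ 2 * R ^ 2 := by
    rw [Matrix.det_fin_two]
    calc ‖m 0 0 * m 1 1 - m 0 1 * m 1 0‖ ≤ ‖m 0 0 * m 1 1‖ + ‖m 0 1 * m 1 0‖ := norm_sub_le _ _
      _ = ‖m 0 0‖ * ‖m 1 1‖ + ‖m 0 1‖ * ‖m 1 0‖ := by rw [norm_mul, norm_mul]
      _ ≤ R * R + R * R := by
          gcongr
          · exact (hbd 0 0).2.1
          · exact (hbd 1 1).2.1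
          · exact (hbd 0 1).2.1
          · exact (hbd 1 0).2.1
      _ = 2 * R ^ 2 := by ring
  have hpre : |‖lam ω₁ m * lam ω₂ m‖ / rowN g| ≤ 4 * R ^ 4 := by
    rw [abs_of_nonneg (div_nonneg (norm_nonneg _) hNpos.le), hlam, div_le_iff₀ hNpos]
    calc ‖m.det‖ ≤ 2 * R ^ 2 := hdet_le
      _ = 4 * R ^ 4 * (1 / (2 * R ^ 2)) := by
          field_simp
          ring
      _ ≤ 4 * R ^ 4 * rowN g := by
          gcongr
  -- lower bounds for `λ_i`
  have hdetm' : (torMat (ω₁ + ω₂) (ω₁ * ω₂) a b).det ≠ 0 := hm ▸ hdetm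
  obtain ⟨hl1, hl2⟩ := lam_mul_lam_inv724 ω₁ ω₂ a b hdetm'
  rw [← hm] at hl1 hl2
  have hlinv : ∀ ω : ℂ, ‖lam ω m⁻¹‖ ≤ R * (1 + ‖ω‖) := by
    intro ω
    unfold lam
    calc ‖m⁻¹ 0 0 + m⁻¹ 1 0 * ω‖ ≤ ‖m⁻¹ 0 0‖ + ‖m⁻¹ 1 0 * ω‖ := norm_add_le _ _
      _ = ‖m⁻¹ 0 0‖ + ‖m⁻¹ 1 0‖ * ‖ω‖ := by rw [norm_mul]
      _ ≤ R + R * ‖ω‖ := by
          gcongr
          · exact (hbd 0 0).2.2.2
          · exact (hbd 1 0).2.2.2
      _ = R * (1 + ‖ω‖) := by ring
  have hlow : ∀ ω : ℂ, 1 + ‖ω‖ ≤ W → lam ω m * lam ω m⁻¹ = 1 → 1 ≤ ‖lam ω m‖ * (R * W) := by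
    intro ω hWω h
    have h1 : ‖lam ω m‖ * ‖lam ω m⁻¹‖ = 1 := by rw [← norm_mul, h, norm_one]
    calc (1 : ℝ) = ‖lam ω m‖ * ‖lam ω m⁻¹‖ := h1.symm
      _ ≤ ‖lam ω m‖ * (R * (1 + ‖ω‖)) := by
          gcongr
          exact hlinv ω
      _ ≤ ‖lam ω m‖ * (R * W) := by
          gcongr
  have hW1 : 1 + ‖ω₁‖ ≤ W := by
    rw [hW]
    linarith [norm_nonneg ω₂]
  have hW2 : 1 + ‖ω₂‖ ≤ W := by
    rw [hW]
    linarith [norm_nonneg ω₁]
  have hRW : 0 < R * W := mul_pos hR hWpos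
  have hsq : ∀ ω : ℂ, 1 + ‖ω‖ ≤ W → lam ω m * lam ω m⁻¹ = 1 →
      ∀ z : ℂ, ‖z‖ ^ 2 ≤ (R * W) ^ 2 * ‖lam ω m * z‖ ^ 2 := by
    intro ω hWω h z
    have h1 := hlow ω hWω h
    have h2 : (1 : ℝ) ≤ (‖lam ω m‖ * (R * W)) ^ 2 := by
      have := pow_le_pow_left₀ zero_le_one h1 2
      rwa [one_pow] at this
    have e : ‖lam ω m * z‖ ^ 2 = ‖lam ω m‖ ^ 2 * ‖z‖ ^ 2 := by rw [norm_mul, mul_pow]
    rw [e]
    have hz : 0 ≤ ‖z‖ ^ 2 := by positivity
    calc ‖z‖ ^ 2 = 1 * ‖z‖ ^ 2 := (one_mul _).symm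
      _ ≤ (‖lam ω m‖ * (R * W)) ^ 2 * ‖z‖ ^ 2 := by gcongr
      _ = (R * W) ^ 2 * (‖lam ω m‖ ^ 2 * ‖z‖ ^ 2) := by ring
  -- the exponent
  set S : ℝ := ‖ξ.1‖ ^ 2 + ‖ξ.2‖ ^ 2 with hS
  set Z : ℝ := ‖ξ.1 + ω₁ * ξ.2‖ ^ 2 + ‖ξ.1 + ω₂ * ξ.2‖ ^ 2 with hZ
  set Q : ℝ := ‖lam ω₂ m * (ξ.1 + ω₁ * ξ.2)‖ ^ 2 + ‖lam ω₁ m * (ξ.1 + ω₂ * ξ.2)‖ ^ 2 with hQ
  have hQ0 : 0 ≤ Q := by positivity
  have hSZ : ‖ω₁ - ω₂‖ ^ 2 / C₀ * S ≤ Z := by
    rw [div_mul_eq_mul_div, div_le_iff₀ hC₀pos, mul_comm Z C₀]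
    exact coord_le724 ω₁ ω₂ ξ
  have hZQ : Z ≤ (R * W) ^ 2 * Q := by
    rw [hZ, hQ, mul_add]
    exact add_le_add (hsq ω₂ hW2 hl2 _) (hsq ω₁ hW1 hl1 _)
  have hexp : δ * S ≤ 2 * Real.pi * ‖c‖ * Q / rowN g := by
    have hpc : 0 ≤ 2 * Real.pi * ‖c‖ := by positivity
    have hden : 0 < (R * W) ^ 2 * (2 * R ^ 2) := by positivity
    calc δ * S = 2 * Real.pi * ‖c‖ * (‖ω₁ - ω₂‖ ^ 2 / C₀ * S) / ((R * W) ^ 2 * (2 * R ^ 2)) := by
          rw [hδ]
          ring
      _ ≤ 2 * Real.pi * ‖c‖ * ((R * W) ^ 2 * Q) / ((R * W) ^ 2 * (2 * R ^ 2)) :=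
          div_le_div_of_nonneg_right (mul_le_mul_of_nonneg_left (hSZ.trans hZQ) hpc) hden.le
      _ = 2 * Real.pi * ‖c‖ * Q / (2 * R ^ 2) := by
          field_simp
      _ ≤ 2 * Real.pi * ‖c‖ * Q / rowN g := by
          gcongr
  rw [norm_FC724]
  have hE : Real.exp (-(2 * Real.pi * ‖c‖ * Q / rowN g)) ≤ Real.exp (-δ * S) := by
    apply Real.exp_le_exp.mpr
    rw [neg_mul]
    exact neg_le_neg hexp
  calc |‖lam ω₁ m * lam ω₂ m‖ / rowN g| * Real.exp (-(2 * Real.pi * ‖c‖ * Q / rowN g))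
      ≤ 4 * R ^ 4 * Real.exp (-δ * S) := by
        gcongr

end Fermat.Agent.LT.A2.H724

end

end
-- ===== PACK-END LT/A2/H724/CxDecay.lean

-- ===== PACK-BEGIN LT/A2/H792/RecInert.lean
section


/-!
# Row LT, tower A2, leaf A2.03.8.6 `H142.RecInertC` (helper792): THE RECURSION AT AN INERT PLACE

OFF-MAIN.  `recInertC792 : H142.RecInertC`, complete proof, nothing assumed.

Let `v ∤ π.level` be inert, `ϖ` a uniformiser, `g'` trivial at `v`, `ω_j = W(diag(ϖ^j, 1)_v g')`.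

* `ω_j = 0` for `j` odd: the norm of an element of `T(K_v)` has even valuation
  (`aniso_even792`), so `diag(ϖ^j, 1)_v g' ∉ GL₂(𝔸_K)⁺` (`not_inGPlus_of_odd792`), `IsWhit.off`.
* `ω_{2i} = q^{-i} χT(z)^i W(g')`, `z = ϖ · 1₂`: `diag(y², 1) = t(y²) d(det μ)`, `μ = y · 1₂`,
  `y = ϖ^i`; `diagA`, `torA`, `tor1` and `good_std` (the elements of `T¹(𝔸_K)` are integral at
  `v`, `isIntegralAt_of_inTorus1_792`) give the pointwise identity of the integrands
  `F (x g') (m μ m_{g'}) e₁ = η(y²) |y²| |y²|^{-1/2} F g' (m m_{g'}) e₁`; the measure `μT` is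
  carried by `T¹(𝔸_K)` (`whit_diag792`).
* `a = 0`, `b = -χT(z)` (`InducedAtT`, second half), hence the recursion.
-/

set_option autoImplicit false

open IsDedekindDomain NumberField AutomorphicForm MeasureTheory
open scoped MatrixGroups

noncomputable section

namespace Fermat.Agent.LT.A2.H792

open Fermat.Agent.LT.H556 Fermat.Agent.LT.H556.A0 Fermat.Agent.LT.H129 Fermat.Agent.LT.A2
open Fermat.Agent.LT.A2.H593 Fermat.Agent.LT.A2.H142

variable {K : Type} [Field K] [NumberField K]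

/-! ## The vector `μ⁻¹ (a e₁)` -/

theorem actV_scalar792 (v : HeightOneSpectrum (𝓞 K)) (y : v.adicCompletion K) (hy : y ≠ 0) :
    actV (locFin129 v (diag129 y y hy hy))⁻¹
        ((idl792 v (y * y) (mul_ne_zero hy hy) : Adl K) • ((1 : Adl K), (0 : Adl K)))
      = ((idl792 v y hy : Adl K), (0 : Adl K)) := by
  rw [← map_inv, diag129_inv792]
  unfold actV
  rw [coe_locFin_diag792, idl792_inv, idl792_mul]
  refine Prod.ext ?_ ?_
  · show ((idl792 v y hy)⁻¹ : (Adl K)ˣ).val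
        * (((idl792 v y hy * idl792 v y hy : (Adl K)ˣ) : Adl K) * 1)
        + 0 * (((idl792 v y hy * idl792 v y hy : (Adl K)ˣ) : Adl K) * 0) = _
    rw [mul_one, mul_zero, mul_zero, add_zero, ← Units.val_mul, inv_mul_cancel_left]
  · show 0 * (((idl792 v y hy * idl792 v y hy : (Adl K)ˣ) : Adl K) * 1)
        + ((idl792 v y hy)⁻¹ : (Adl K)ˣ).val
          * (((idl792 v y hy * idl792 v y hy : (Adl K)ˣ) : Adl K) * 0) = _
    rw [mul_zero, mul_zero, zero_mul, add_zero]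

theorem agree_idl792 (v : HeightOneSpectrum (𝓞 K)) (y : v.adicCompletion K) (hy : y ≠ 0) :
    WL.AgreeOffFin v ((idl792 v y hy : Adl K), (0 : Adl K)) ((1 : Adl K), (0 : Adl K)) :=
  ⟨fun w => ⟨idl792_inf v y hy w, rfl⟩, fun _ h => ⟨idl792_of_ne v y hy h, rfl⟩⟩

theorem vecInt_idl792 (v : HeightOneSpectrum (𝓞 K)) (y : v.adicCompletion K) (hy : y ≠ 0)
    (hy1 : Valued.v y ≤ 1) :
    WL.VecIntegralAt v ((idl792 v y hy : Adl K), (0 : Adl K)) := by
  constructor
  · show (idl792 v y hy : Adl K).2 v ∈ v.adicCompletionIntegers K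
    rw [idl792_same]
    exact hy1
  · exact (v.adicCompletionIntegers K).zero_mem

theorem vecInt_e1_792 (v : HeightOneSpectrum (𝓞 K)) :
    WL.VecIntegralAt v ((1 : Adl K), (0 : Adl K)) :=
  ⟨(v.adicCompletionIntegers K).one_mem, (v.adicCompletionIntegers K).zero_mem⟩

/-! ## The pointwise identity -/

section Pointwise

variable {D : KData K} {η : (Adl K)ˣ → ℂ} {W : G K → ℂ} {v : HeightOneSpectrum (𝓞 K)}

/-- `F g' (m m_{g'}) ξ = F g' (m m_{g'}) e₁` for `m ∈ T¹(𝔸_K)`, `g'`, `m_{g'}` trivial at `v`,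
`ξ` integral at `v` with the components of `e₁` outside `v`. -/
theorem F_std792 (hctx : HCtx D η W v) (hc : InertCtx792 D.t D.n v) {g' mg m : G K}
    (hadm : Adm D.t D.n g' mg) (hg' : TrivAtFin v g') (hmg : TrivAtFin v mg)
    (hm : InTorus1 D.t D.n m) {ξ : Adl K × Adl K}
    (hag : WL.AgreeOffFin v ξ ((1 : Adl K), (0 : Adl K))) (hint : WL.VecIntegralAt v ξ) :
    D.F g' (m * mg) ξ = D.F g' (m * mg) ((1 : Adl K), (0 : Adl K)) := by
  have hminv : IsIntegralAt v m⁻¹ := isIntegralAt_of_inTorus1_792 hc (inTorus1_inv593 hm)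
  rw [hctx.good.weil.tor1 m hm g' mg ξ hadm, hctx.good.weil.tor1 m hm g' mg _ hadm]
  exact (hctx.std.good_std v hctx.hv g' mg hadm hg' hmg).2 _ _ (actV_agree792 v m⁻¹ hag)
    (actV_integral792 v hminv hint) (actV_integral792 v hminv (vecInt_e1_792 v))

/-- The integrand at `diag(y², 1)_v g'`. -/
theorem F_diag792 (hctx : HCtx D η W v) (hc : InertCtx792 D.t D.n v)
    (y : v.adicCompletion K) (hy0 : y ≠ 0) (hy : Valued.v y ≤ 1) {g' mg m : G K}
    (hadm : Adm D.t D.n g' mg) (hg' : TrivAtFin v g') (hmg : TrivAtFin v mg)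
    (hm : InTorus1 D.t D.n m) :
    D.F (locFin129 v (diag129 (y * y) 1 (mul_ne_zero hy0 hy0) one_ne_zero) * g')
        (m * (locFin129 v (diag129 y y hy0 hy0) * mg)) ((1 : Adl K), (0 : Adl K))
        * D.χT (m * (locFin129 v (diag129 y y hy0 hy0) * mg))
      = (((‖y‖ : ℝ) : ℂ) * D.χT (locFin129 v (diag129 y y hy0 hy0)))
        * (D.F g' (m * mg) ((1 : Adl K), (0 : Adl K)) * D.χT (m * mg)) := by
  have hyy : y * y ≠ 0 := mul_ne_zero hy0 hy0
  set a : (Adl K)ˣ := idl792 v (y * y) hyy with ha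
  set μ' : G K := locFin129 v (diag129 y y hy0 hy0) with hμ'
  set s : G K := locFin129 v (diag129 (y * y) (y * y)⁻¹ hyy (inv_ne_zero hyy)) with hs
  set d : G K := locFin129 v (diag129 1 (y * y) one_ne_zero hyy) with hd
  have hμT : InTorus D.t D.n μ' := inTorus_scalar792 D.t D.n v y hy0
  have hdetμ : Matrix.GeneralLinearGroup.det μ' = a :=
    det_locFin792 v _ (y * y) hyy (det_diag129_792 y y hy0 hy0)
  have hdetd : Matrix.GeneralLinearGroup.det d = a :=
    det_locFin792 v _ (y * y) hyy (by rw [det_diag129_792, one_mul])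
  have hsA : WL.IsDiagSLA s a := isDiagSLA792 v (y * y) hyy
  have hdA : WL.IsDiagOneA d (Matrix.GeneralLinearGroup.det μ') := by
    rw [hdetμ]; exact isDiagOneA792 v (y * y) hyy
  have hx : locFin129 v (diag129 (y * y) 1 hyy one_ne_zero) = s * d := by
    rw [hs, hd, ← map_mul, diag129_mul792]
    congr 1
    exact diag129_congr792 (mul_one _).symm (inv_mul_cancel₀ hyy).symm _ _ _ _
  -- the partner
  have hM : Adm D.t D.n g' (m * mg) := adm_mul_tor1_593 hadm hm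
  have hcomm : m * (μ' * mg) = μ' * (m * mg) := by
    rw [← mul_assoc, inTorus_comm593 hm.1 hμT, mul_assoc]
  have hdM : Adm D.t D.n (d * g') (μ' * (m * mg)) :=
    ⟨inTorus_mul593 hμT hM.1, by rw [map_mul, map_mul, hdetd, hdetμ, hM.2]⟩
  -- the module
  have hna : T1.adNorm K (a : Adl K) = ‖y‖ ^ 2 := by
    rw [ha, adNorm_idl792, norm_mul, sq]
  have hy_ne : (‖y‖ : ℝ) ≠ 0 := norm_ne_zero_iff.mpr hy0
  have hsq : Real.sqrt (T1.adNorm K ((Matrix.GeneralLinearGroup.det μ' : (Adl K)ˣ) : Adl K))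
      = ‖y‖ := by
    rw [hdetμ, hna, Real.sqrt_sq (norm_nonneg y)]
  -- the quadratic character
  have hηa : η a = 1 := by
    have e : a = idl792 v y hy0 * idl792 v y hy0 := idl792_mul v y y hy0 hy0
    rw [e, hctx.std.quad.mul]
    rcases hctx.std.quad.sq (idl792 v y hy0) with h | h <;> rw [h] <;> norm_num
  -- the three formulas
  have h1 := hctx.std.diagA s a hsA (d * g') (μ' * (m * mg)) ((1 : Adl K), (0 : Adl K)) hdM
  have h2 := hctx.std.torA μ' d hμT hdA g' (m * mg)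
    ((a : Adl K) • ((1 : Adl K), (0 : Adl K))) hM
  have h3 : D.F g' (m * mg) (actV μ'⁻¹ ((a : Adl K) • ((1 : Adl K), (0 : Adl K))))
      = D.F g' (m * mg) ((1 : Adl K), (0 : Adl K)) := by
    rw [hμ', ha, actV_scalar792 v y hy0]
    exact F_std792 hctx hc hadm hg' hmg hm (agree_idl792 v y hy0) (vecInt_idl792 v y hy0 hy)
  rw [hsq, h3] at h2
  have hyC : ((‖y‖ : ℝ) : ℂ) ≠ 0 := by exact_mod_cast hy_ne
  have h4 : D.F (d * g') (μ' * (m * mg)) ((a : Adl K) • ((1 : Adl K), (0 : Adl K)))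
      = ((‖y‖ : ℝ) : ℂ)⁻¹ * D.F g' (m * mg) ((1 : Adl K), (0 : Adl K)) := by
    rw [← h2, inv_mul_cancel_left₀ hyC]
  rw [hcomm, hx, mul_assoc s d g', h1, h4, hηa, hna,
    hctx.good.torus.mul μ' (m * mg) hμT hM.1]
  push_cast
  field_simp

end Pointwise

/-! ## The values at the even powers -/

section Even

variable {D : KData K} {η : (Adl K)ˣ → ℂ} {W : G K → ℂ} {v : HeightOneSpectrum (𝓞 K)}

/-- `W(diag(y², 1)_v g') = |y|_v χT(y · 1₂) W(g')` for `y` integral, `g'` trivial at `v`. -/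
theorem whit_diag792 (hctx : HCtx D η W v) (hc : InertCtx792 D.t D.n v)
    (y : v.adicCompletion K) (hy0 : y ≠ 0) (hy : Valued.v y ≤ 1) (g' : G K)
    (hg' : TrivAtFin v g') :
    W (locFin129 v (diag129 (y * y) 1 (mul_ne_zero hy0 hy0) one_ne_zero) * g')
      = (((‖y‖ : ℝ) : ℂ) * D.χT (locFin129 v (diag129 y y hy0 hy0))) * W g' := by
  have hyy : y * y ≠ 0 := mul_ne_zero hy0 hy0
  have hμT : InTorus D.t D.n (locFin129 v (diag129 y y hy0 hy0)) :=
    inTorus_scalar792 D.t D.n v y hy0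
  have hxadm : Adm D.t D.n (locFin129 v (diag129 (y * y) 1 hyy one_ne_zero))
      (locFin129 v (diag129 y y hy0 hy0)) :=
    ⟨hμT, by
      rw [det_locFin792 v _ (y * y) hyy (by rw [det_diag129_792, mul_one]),
        det_locFin792 v _ (y * y) hyy (det_diag129_792 y y hy0 hy0)]⟩
  by_cases hG : InGPlus D.t D.n g'
  · obtain ⟨mg, hadm, hmg⟩ := exists_adm_triv792 hg' hG
    rw [hctx.whit.formula _ _ (adm_mul593 hxadm hadm), hctx.whit.formula g' mg hadm]
    unfold KData.intT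
    let _ : MeasurableSpace (G K) := borel (G K)
    rw [← integral_const_mul]
    apply integral_congr_ae
    have hae : ∀ᵐ m ∂D.μT, InTorus1 D.t D.n m := by
      rw [ae_iff]
      exact hctx.good.measured.carried
    filter_upwards [ae_restrict_of_ae hae] with m hm
    exact F_diag792 hctx hc y hy0 hy hadm hg' hmg hm
  · have hG' : ¬ InGPlus D.t D.n (locFin129 v (diag129 (y * y) 1 hyy one_ne_zero) * g') := by
      intro h
      apply hG
      have := inGPlus_mul593 (inGPlus_inv593 ⟨_, hxadm⟩) h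
      rwa [inv_mul_cancel_left] at this
    rw [hctx.whit.off _ hG', hctx.whit.off _ hG, mul_zero]

/-- `χT(ϖ^i · 1₂) = χT(ϖ · 1₂)^i`. -/
theorem chi_scalar_pow792 (hctx : HCtx D η W v) (ϖ : v.adicCompletion K) (h : ϖ ≠ 0) (i : ℕ) :
    D.χT (locFin129 v (diag129 (ϖ ^ i) (ϖ ^ i) (pow_ne_zero i h) (pow_ne_zero i h)))
      = D.χT (locFin129 v (diag129 ϖ ϖ h h)) ^ i := by
  induction i with
  | zero =>
    have e : diag129 (ϖ ^ 0) (ϖ ^ 0) (pow_ne_zero 0 h) (pow_ne_zero 0 h) = 1 :=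
      (diag129_congr792 (pow_zero ϖ) (pow_zero ϖ) _ _ one_ne_zero one_ne_zero).trans
        diag129_one792
    rw [e, map_one, hctx.good.torus.one, pow_zero]
  | succ i ih =>
    have e : diag129 (ϖ ^ (i + 1)) (ϖ ^ (i + 1)) (pow_ne_zero (i + 1) h) (pow_ne_zero (i + 1) h)
        = diag129 (ϖ ^ i) (ϖ ^ i) (pow_ne_zero i h) (pow_ne_zero i h) * diag129 ϖ ϖ h h := by
      rw [diag129_mul792]
      exact diag129_congr792 (pow_succ ϖ i) (pow_succ ϖ i) _ _ _ _
    rw [e, map_mul, hctx.good.torus.mul _ _ (inTorus_scalar792 D.t D.n v _ _)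
      (inTorus_scalar792 D.t D.n v _ _), ih, pow_succ]

end Even

/-! ## The recursion -/

section Main

variable {D : KData K} {η : (Adl K)ˣ → ℂ} {W : G K → ℂ} {v : HeightOneSpectrum (𝓞 K)}

theorem finComp_dgl_mul792 (v : HeightOneSpectrum (𝓞 K)) (x : GL (Fin 2) (v.adicCompletion K))
    {g' : G K} (hg' : TrivAtFin v g') :
    finComp v (locFin129 v x * g') = (x : Matrix (Fin 2) (Fin 2) (v.adicCompletion K)) := by
  rw [← coe_finCompHom129, map_mul, finCompHom129_locFin129, (trivAtFin_iff129 v g').mp hg',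
    mul_one]

/-- `ω_j = 0` for `j` odd. -/
theorem om_odd792 (hctx : HCtx D η W v) (hc : InertCtx792 D.t D.n v)
    (ϖ : v.adicCompletion K) (hϖ : Valued.v ϖ = WithZero.exp (-1 : ℤ)) (g' : G K)
    (hg' : TrivAtFin v g') (i : ℕ) :
    om142 W v ϖ (unif_ne_zero129 v hϖ) g' (2 * i + 1) = 0 := by
  unfold om142
  apply hctx.whit.off
  apply not_inGPlus_of_odd792 hc (j := -((2 * i + 1 : ℕ) : ℤ))
  · rw [even_neg, Int.even_coe_nat]
    simp
  · rw [finComp_dgl_mul792 v _ hg']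
    unfold dgl142
    rw [det_diag129_792, mul_one, map_pow, hϖ, ← WithZero.exp_nsmul]
    congr 1
    simp

/-- `ω_{2i} = q^{-i} χT(ϖ · 1₂)^i W(g')`. -/
theorem om_even792 (hctx : HCtx D η W v) (hc : InertCtx792 D.t D.n v)
    (ϖ : v.adicCompletion K) (hϖ : Valued.v ϖ = WithZero.exp (-1 : ℤ)) (g' : G K)
    (hg' : TrivAtFin v g') (i : ℕ) :
    om142 W v ϖ (unif_ne_zero129 v hϖ) g' (2 * i)
      = ((qC142 v)⁻¹ ^ i * D.χT (locFin129 v (diag129 ϖ ϖ (unif_ne_zero129 v hϖ)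
          (unif_ne_zero129 v hϖ))) ^ i) * W g' := by
  have h := unif_ne_zero129 v hϖ
  have hy : Valued.v (ϖ ^ i) ≤ 1 := by
    rw [map_pow, hϖ]
    refine pow_le_one₀ zero_le ?_
    rw [← WithZero.exp_zero, WithZero.exp_le_exp]
    norm_num
  have e : dgl142 v ϖ h (2 * i)
      = diag129 (ϖ ^ i * ϖ ^ i) 1 (mul_ne_zero (pow_ne_zero i h) (pow_ne_zero i h))
          one_ne_zero :=
    diag129_congr792 (by ring) rfl _ _ _ _
  unfold om142
  rw [e, whit_diag792 hctx hc (ϖ ^ i) (pow_ne_zero i h) hy g' hg',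
    chi_scalar_pow792 hctx ϖ h i, norm_pow, norm_unif792 v hϖ]
  unfold qC142
  push_cast
  rfl

/-- **A2.03.8.6 REC-INERT**: the recursion at an inert place. -/
theorem recInertC792 : H142.RecInertC := by
  intro K _ _ D η W v hctx hin ϖ hϖ g' hg'
  have hc : InertCtx792 D.t D.n v := inertCtx_of792 (hctx.std.good_int v hctx.hv) hin
  obtain ⟨ha, hb⟩ := (hctx.ind v hctx.hv).2 hin _ (isScalarUnif792 v hϖ)
  have hq : qC142 v ≠ 0 := by
    unfold qC142
    have : (Ideal.absNorm v.asIdeal : ℕ) ≠ 0 :=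
      ne_of_gt (lt_trans Nat.zero_lt_one (NumberField.HeightOneSpectrum.one_lt_absNorm v))
    exact_mod_cast this
  refine ⟨?_, fun j => ?_⟩
  · have h1 : om142 W v ϖ (unif_ne_zero129 v hϖ) g' 1 = 0 :=
      om_odd792 hctx hc ϖ hϖ g' hg' 0
    rw [ha, h1, mul_zero, mul_zero, zero_mul]
  · rw [ha, hb, mul_zero, zero_mul]
    rcases Nat.even_or_odd' j with ⟨i, rfl | rfl⟩
    · have e1 : 2 * i + 2 = 2 * (i + 1) := by ring
      rw [e1, om_even792 hctx hc ϖ hϖ g' hg' (i + 1), om_even792 hctx hc ϖ hϖ g' hg' i,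
        pow_succ, pow_succ]
      have hqq : qC142 v * (qC142 v)⁻¹ = 1 := mul_inv_cancel₀ hq
      linear_combination ((qC142 v)⁻¹ ^ i
        * D.χT (locFin129 v (diag129 ϖ ϖ (unif_ne_zero129 v hϖ) (unif_ne_zero129 v hϖ))) ^ i
        * D.χT (locFin129 v (diag129 ϖ ϖ (unif_ne_zero129 v hϖ) (unif_ne_zero129 v hϖ)))
        * W g') * hqq
    · have e1 : 2 * i + 1 + 2 = 2 * (i + 1) + 1 := by ring
      rw [e1, om_odd792 hctx hc ϖ hϖ g' hg' (i + 1), om_odd792 hctx hc ϖ hϖ g' hg' i,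
        mul_zero, mul_zero, add_zero]

end Main

end Fermat.Agent.LT.A2.H792

end

end
-- ===== PACK-END LT/A2/H792/RecInert.lean

-- ===== PACK-BEGIN LT/A2/H826/Integrable.lean
section


/-!
# Row LT, tower A2, sub-leaf A2.03.8.5.10 `H254.IntegrableC254` (helper826), OFF-MAIN

`integrableC254_826 : Fermat.Agent.LT.A2.H254.IntegrableC254`, VERBATIM against
`LT/A2/H254/IntSpec.lean` (helper254, sha256 `e654c419…`).

Route:
* the torus `T(𝔸_K)` is the commutant of `Π = torMat t n 0 1` in `GL₂(𝔸_K)` (`inTorus_iff826`),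
  hence a commutative subgroup;
* `torA` with `μ' = (μ̄ʲ)⁻¹`: `F g' (m m') (μ̄ʲ e₁) = c · F (d g') (m (μ' m')) e₁`,
  `c = |det μ'|^{1/2}`, `d = diag(1, det μ')`;
* `orb_dom` at the one-point compact set `{(d g', μ' m')}` dominates the right side on `T¹`;
  `|χT| = 1` on the torus (`fin_order`);
* measurability: `T¹` is closed (`T2Space (𝔸_K)` from `T1.LocCompC`), the integrand is continuous
  on `T¹` (`cont_pair`, `IsTorusChar.cont`).
-/

set_option autoImplicit false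
set_option linter.style.haveILetI false

open IsDedekindDomain NumberField AutomorphicForm MeasureTheory
open scoped MatrixGroups

noncomputable section

namespace Fermat.Agent.LT.A2.H826

open Fermat.Agent.LT.H556 Fermat.Agent.LT.H556.A0 Fermat.Agent.LT.H129
open Fermat.Agent.LT.A2 Fermat.Agent.LT.A2.H142 Fermat.Agent.LT.A2.H254

/-! ## 1. The torus as a commutant -/

section Torus

variable {R : Type*} [CommRing R]

/-- A matrix is `torMat t n a b` iff it commutes with `Π = torMat t n 0 1`. -/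
theorem torMat_iff_comm826 (t n : R) (X : Matrix (Fin 2) (Fin 2) R) :
    (∃ a b : R, X = torMat t n a b) ↔ X * torMat t n 0 1 = torMat t n 0 1 * X := by
  constructor
  · rintro ⟨a, b, rfl⟩
    ext i j
    fin_cases i <;> fin_cases j <;>
      simp [torMat, Matrix.mul_apply, Fin.sum_univ_two] <;> ring
  · intro h
    refine ⟨X 0 0, X 1 0, ?_⟩
    have e00 := congrFun (congrFun h 0) 0
    have e10 := congrFun (congrFun h 1) 0
    simp [torMat, Matrix.mul_apply, Fin.sum_univ_two] at e00 e10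
    ext i j
    fin_cases i <;> fin_cases j
    · simp [torMat]
    · simp [torMat, e00]
    · simp [torMat]
    · simp [torMat, e10]

/-- Entry form: a matrix is `torMat t n a b` iff two linear relations hold. -/
theorem torMat_iff_entries826 (t n : R) (X : Matrix (Fin 2) (Fin 2) R) :
    (∃ a b : R, X = torMat t n a b) ↔ X 0 1 = -(n * X 1 0) ∧ X 1 1 = X 0 0 + t * X 1 0 := by
  constructor
  · rintro ⟨a, b, rfl⟩
    simp [torMat]
  · rintro ⟨h1, h2⟩
    refine ⟨X 0 0, X 1 0, ?_⟩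
    ext i j
    fin_cases i <;> fin_cases j
    · simp [torMat]
    · simp [torMat, h1]
    · simp [torMat]
    · simp [torMat, h2]

end Torus

/-! ## 2. The torus in `GL₂(𝔸_K)` -/

section Adelic

variable {K : Type} [Field K] [NumberField K]

theorem inTorus_iff826 (t n : K) (m : G K) :
    InTorus t n m ↔
      (m : Matrix (Fin 2) (Fin 2) (Adl K))
          * torMat (algebraMap K (Adl K) t) (algebraMap K (Adl K) n) 0 1
        = torMat (algebraMap K (Adl K) t) (algebraMap K (Adl K) n) 0 1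
          * (m : Matrix (Fin 2) (Fin 2) (Adl K)) :=
  torMat_iff_comm826 _ _ _

theorem inTorus_mul826 {t n : K} {a b : G K} (ha : InTorus t n a) (hb : InTorus t n b) :
    InTorus t n (a * b) := by
  rw [inTorus_iff826] at ha hb ⊢
  rw [Units.val_mul, Matrix.mul_assoc, hb, ← Matrix.mul_assoc, ha, Matrix.mul_assoc]

theorem inTorus_one826 (t n : K) : InTorus t n (1 : G K) := by
  rw [inTorus_iff826]
  simp

theorem inTorus_inv826 {t n : K} {a : G K} (ha : InTorus t n a) : InTorus t n a⁻¹ := by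
  rw [inTorus_iff826] at ha ⊢
  have h1 : ((a⁻¹ : G K) : Matrix (Fin 2) (Fin 2) (Adl K)) * (a : Matrix (Fin 2) (Fin 2) (Adl K))
      = 1 := by
    rw [← Units.val_mul, inv_mul_cancel]; rfl
  have h2 : (a : Matrix (Fin 2) (Fin 2) (Adl K)) * ((a⁻¹ : G K) : Matrix (Fin 2) (Fin 2) (Adl K))
      = 1 := by
    rw [← Units.val_mul, mul_inv_cancel]; rfl
  set P := torMat (algebraMap K (Adl K) t) (algebraMap K (Adl K) n) 0 1
  set A := (a : Matrix (Fin 2) (Fin 2) (Adl K))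
  set B := ((a⁻¹ : G K) : Matrix (Fin 2) (Fin 2) (Adl K))
  calc B * P = B * P * (A * B) := by rw [h2, Matrix.mul_one]
    _ = B * (P * A) * B := by simp only [Matrix.mul_assoc]
    _ = B * (A * P) * B := by rw [ha]
    _ = (B * A) * P * B := by simp only [Matrix.mul_assoc]
    _ = P * B := by rw [h1, Matrix.one_mul]

theorem inTorus_pow826 {t n : K} {a : G K} (ha : InTorus t n a) (j : ℕ) :
    InTorus t n (a ^ j) := by
  induction j with
  | zero => simpa using inTorus_one826 t n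
  | succ j ih => rw [pow_succ]; exact inTorus_mul826 ih ha

/-- The torus is commutative. -/
theorem inTorus_comm826 {t n : K} {a b : G K} (ha : InTorus t n a) (hb : InTorus t n b) :
    a * b = b * a := by
  obtain ⟨a₁, a₂, ha⟩ := ha
  obtain ⟨b₁, b₂, hb⟩ := hb
  apply Units.ext
  rw [Units.val_mul, Units.val_mul]
  show (a : Matrix (Fin 2) (Fin 2) (Adl K)) * (b : Matrix (Fin 2) (Fin 2) (Adl K))
    = (b : Matrix (Fin 2) (Fin 2) (Adl K)) * (a : Matrix (Fin 2) (Fin 2) (Adl K))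
  rw [ha, hb]
  ext i j
  fin_cases i <;> fin_cases j <;>
    simp [torMat, Matrix.mul_apply, Fin.sum_univ_two] <;> ring

theorem adm_mul826 {t n : K} {g' m' m : G K} (hm : InTorus1 t n m) (h : Adm t n g' m') :
    Adm t n g' (m * m') :=
  ⟨inTorus_mul826 hm.1 h.1, by rw [map_mul, hm.2, one_mul, h.2]⟩

/-- `diag(1, a)`, `a` an idele. -/
def diagOne826 (a : (Adl K)ˣ) : G K :=
  ⟨!![1, 0; 0, (a : Adl K)], !![1, 0; 0, ((a⁻¹ : (Adl K)ˣ) : Adl K)],
    by ext i j; fin_cases i <;> fin_cases j <;> simp [Matrix.mul_apply, Fin.sum_univ_two],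
    by ext i j; fin_cases i <;> fin_cases j <;> simp [Matrix.mul_apply, Fin.sum_univ_two]⟩

theorem isDiagOneA_diagOne826 (a : (Adl K)ˣ) : WL.IsDiagOneA (diagOne826 a) a := rfl

theorem det_diagOne826 (a : (Adl K)ˣ) : Matrix.GeneralLinearGroup.det (diagOne826 a) = a := by
  apply Units.ext
  show (!![1, 0; 0, (a : Adl K)] : Matrix (Fin 2) (Fin 2) (Adl K)).det = a
  simp [Matrix.det_fin_two]

/-- `|χT| = 1` on the torus. -/
theorem norm_chiT826 {t n : K} {χT : G K → ℂ} (h : IsTorusChar t n χT) {m : G K}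
    (hm : InTorus t n m) : ‖χT m‖ = 1 := by
  obtain ⟨k, hk, hpow⟩ := h.fin_order
  have h1 : ‖χT m‖ ^ k = 1 := by rw [← norm_pow, hpow m hm, norm_one]
  exact (pow_eq_one_iff_of_nonneg (norm_nonneg _) (Nat.pos_iff_ne_zero.mp hk)).mp h1

/-- `T¹(𝔸_K)` is closed. -/
theorem isClosed_T1set826 [T2Space (Adl K)] (t n : K) : IsClosed (T1set254 t n) := by
  have hval : Continuous fun m : G K => (m : Matrix (Fin 2) (Fin 2) (Adl K)) :=
    Units.continuous_val
  have hset : T1set254 t n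
      = {m : G K | (m : Matrix (Fin 2) (Fin 2) (Adl K)) 0 1
            = -(algebraMap K (Adl K) n * (m : Matrix (Fin 2) (Fin 2) (Adl K)) 1 0)}
        ∩ {m : G K | (m : Matrix (Fin 2) (Fin 2) (Adl K)) 1 1
            = (m : Matrix (Fin 2) (Fin 2) (Adl K)) 0 0
              + algebraMap K (Adl K) t * (m : Matrix (Fin 2) (Fin 2) (Adl K)) 1 0}
        ∩ {m : G K | (m : Matrix (Fin 2) (Fin 2) (Adl K)).det = 1} := by
    ext m
    simp only [T1set254, InTorus1, InTorus, Set.mem_ofPred_eq, Set.mem_inter_iff]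
    rw [torMat_iff_entries826]
    constructor
    · rintro ⟨⟨h1, h2⟩, h3⟩
      refine ⟨⟨h1, h2⟩, ?_⟩
      have := congrArg (fun u : (Adl K)ˣ => (u : Adl K)) h3
      simpa using this
    · rintro ⟨⟨h1, h2⟩, h3⟩
      refine ⟨⟨h1, h2⟩, ?_⟩
      apply Units.ext
      simpa using h3
  rw [hset]
  refine (IsClosed.inter ?_ ?_).inter ?_
  · exact isClosed_eq (hval.matrix_elem 0 1)
      ((continuous_const.mul (hval.matrix_elem 1 0)).neg)
  · exact isClosed_eq (hval.matrix_elem 1 1)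
      ((hval.matrix_elem 0 0).add (continuous_const.mul (hval.matrix_elem 1 0)))
  · exact isClosed_eq hval.matrix_det continuous_const

end Adelic

/-! ## 3. The leaf -/

/-- **A2.03.8.5.10 `IntegrableC254`**, VERBATIM. -/
theorem integrableC254_826 : IntegrableC254 := by
  intro K _ _ D η W v hctx ϖ hϖ μ μb hp g' m' hadm j
  letI : MeasurableSpace (G K) := borel (G K)
  haveI : BorelSpace (G K) := ⟨rfl⟩
  obtain ⟨⟨_, hT2, _⟩, _, _, _⟩ := hctx.t1.locComp
  haveI := hT2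
  have htor := hctx.good.torus
  have hT1meas : MeasurableSet (T1set254 D.t D.n) := (isClosed_T1set826 D.t D.n).measurableSet
  -- the element `μ' = (μ̄ʲ)⁻¹` of the torus
  obtain ⟨μ', hμ'⟩ : ∃ x : G K, x = (μb ^ j)⁻¹ := ⟨_, rfl⟩
  have hμ'inv : μ'⁻¹ = μb ^ j := by rw [hμ', inv_inv]
  have hμ'tor : InTorus D.t D.n μ' := by
    rw [hμ']; exact inTorus_inv826 (inTorus_pow826 hp.torb j)
  obtain ⟨d, hd⟩ : ∃ x : G K, x = diagOne826 (Matrix.GeneralLinearGroup.det μ') := ⟨_, rfl⟩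
  have hdA : WL.IsDiagOneA d (Matrix.GeneralLinearGroup.det μ') := by
    rw [hd]; exact isDiagOneA_diagOne826 _
  have hadm2 : Adm D.t D.n (d * g') (μ' * m') :=
    ⟨inTorus_mul826 hμ'tor hadm.1, by rw [map_mul, map_mul, hd, det_diagOne826, hadm.2]⟩
  obtain ⟨h, hh_int, hh_bd⟩ := hctx.std.orb_dom {(d * g', μ' * m')} isCompact_singleton
  obtain ⟨c, hc⟩ : ∃ x : ℝ, x = Real.sqrt (T1.adNorm K
      ((Matrix.GeneralLinearGroup.det μ' : (Adl K)ˣ) : Adl K)) := ⟨_, rfl⟩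
  have hc0 : 0 ≤ c := by rw [hc]; exact Real.sqrt_nonneg _
  -- the pointwise identity
  have hform : ∀ m : G K, InTorus1 D.t D.n m →
      D.F g' (m * m') (actV (μb ^ j) (1, 0))
        = (c : ℂ) * D.F (d * g') (m * (μ' * m')) (1, 0) := by
    intro m hm
    have hadm1 : Adm D.t D.n g' (m * m') := adm_mul826 hm hadm
    have h1 := hctx.std.torA μ' d hμ'tor hdA g' (m * m') (1, 0) hadm1
    have h2 : μ' * (m * m') = m * (μ' * m') := by
      rw [← mul_assoc, inTorus_comm826 hμ'tor hm.1, mul_assoc]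
    rw [h2, hμ'inv, ← hc] at h1
    exact h1.symm
  -- continuity on `T¹`
  have hcont : ContinuousOn (orbFn254 D g' m' (actV (μb ^ j) (1, 0))) (T1set254 D.t D.n) := by
    have hφ : Continuous fun m : G K => ((g', m * m') : G K × G K) :=
      continuous_const.prodMk (continuous_id.mul continuous_const)
    have h1 : ContinuousOn (fun m : G K => D.F g' (m * m') (actV (μb ^ j) (1, 0)))
        (T1set254 D.t D.n) :=
      (hctx.good.regular.cont_pair (actV (μb ^ j) (1, 0))).comp hφ.continuousOn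
        (fun m hm => adm_mul826 hm hadm)
    have hψ : Continuous fun m : G K => m * m' := continuous_id.mul continuous_const
    have h2 : ContinuousOn (fun m : G K => D.χT (m * m')) (T1set254 D.t D.n) :=
      htor.cont.comp hψ.continuousOn (fun m hm => inTorus_mul826 hm.1 hadm.1)
    exact h1.mul h2
  -- domination
  show Integrable (orbFn254 D g' m' (actV (μb ^ j) (1, 0)))
    (D.μT.restrict (T1set254 D.t D.n))
  have hh_int' : Integrable (fun m => c * h m) (D.μT.restrict (T1set254 D.t D.n)) :=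
    Integrable.const_mul hh_int c
  refine Integrable.mono' hh_int' (hcont.aestronglyMeasurable hT1meas) ?_
  refine (ae_restrict_iff' hT1meas).mpr (Filter.Eventually.of_forall fun m hm => ?_)
  have hm1 : InTorus1 D.t D.n m := hm
  have hb := hh_bd (d * g', μ' * m') (Set.mem_singleton _) hadm2 m hm1
  show ‖D.F g' (m * m') (actV (μb ^ j) (1, 0)) * D.χT (m * m')‖ ≤ c * h m
  rw [norm_mul, norm_chiT826 htor (inTorus_mul826 hm1.1 hadm.1), mul_one, hform m hm1, norm_mul,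
    Complex.norm_real, Real.norm_of_nonneg hc0]
  exact mul_le_mul_of_nonneg_left hb hc0

end Fermat.Agent.LT.A2.H826

end

end
-- ===== PACK-END LT/A2/H826/Integrable.lean

-- ===== PACK-BEGIN LT/A2/H833/LeafCov.lean
section




/-!
# Row LT, tower A2, leaf A2.03.1.1.06.02 `LF54.LeafCov` (helper833) -- OFF-MAIN

Spec bytes: `A2/H54/LocFinSpec.lean` = helper54@26071c838 (sha256 8ccd9c5c), its closure
(`A2/H467/{DataSpec,WeilExSpec}`, `A2/{Kernel,Spec,Theta,WeilLocal}`, ...) byte-identical;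
assets: `T1/H849/ScaleFin.lean` (helper849@7272d0b01, sha256 e574eaeb: the module of `K_v`,
`distribHaarChar K_v y = ‖y‖`) and `H11/{LC,SC}.lean` (helper11: `K_v` is locally compact and
second countable), byte-identical copies.

PROVED here: `leafCov833 : LF54.LeafCov`, VERBATIM: for a finite place `v` of a number field, a
Haar measure `μ` of `K_v` (Borel), an invertible matrix `m` and a Schwartz--Bruhat function `f`
on `K_v²`:  `∫ f(m y) dy = ‖det m‖⁻¹ ∫ f(y) dy`.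

Proof: the image of `μ × μ` under `y ↦ m y` is `‖det m‖⁻¹ (μ × μ)`
(`map_actL833`).  By `Matrix.diagonal_transvection_induction_of_det_ne_zero` it is enough to
treat products (composition of the images), diagonal matrices (`Measure.map_prod_map` and the
module formula in each variable) and transvections (a skew product of translations,
`MeasurePreserving.skew_product`; the upper transvection is conjugate to the lower one by the
swap).  Only the continuity of `f` is used.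
-/

set_option autoImplicit false

open IsDedekindDomain NumberField MeasureTheory MeasureTheory.Measure
open scoped NNReal ENNReal Pointwise

noncomputable section

namespace Fermat.Agent.LT.A2.H833

open Fermat.Agent.LT.A2 Fermat.Agent.LT.A2.WX467 Fermat.Agent.LT.A2.LF54
open Fermat.Agent.LT.H11.LC Fermat.Agent.LT.H11.SC Fermat.Agent.LT.T1.H849

section General

variable {k : Type} [NormedField k]

theorem continuous_actL833 (m : Matrix (Fin 2) (Fin 2) k) : Continuous (actL m) := by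
  unfold actL
  fun_prop

theorem actL_mul833 (A B : Matrix (Fin 2) (Fin 2) k) (y : k × k) :
    actL (A * B) y = actL A (actL B y) := by
  simp only [actL, Matrix.mul_apply, Fin.sum_univ_two]
  refine Prod.ext ?_ ?_ <;> simp only <;> ring

variable [MeasurableSpace k] [BorelSpace k] [SecondCountableTopology k]

theorem measurable_actL833 (m : Matrix (Fin 2) (Fin 2) k) : Measurable (actL m) :=
  (continuous_actL833 m).measurable

/-- The lower shear preserves the product measure. -/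
theorem map_shear833 (μ : Measure k) [SFinite μ] [μ.IsAddLeftInvariant] (c : k) :
    Measure.map (fun p : k × k => (p.1, c * p.1 + p.2)) (μ.prod μ) = μ.prod μ := by
  have hgm : Measurable (Function.uncurry fun x y : k => c * x + y) := by
    have : Continuous (Function.uncurry fun x y : k => c * x + y) := by
      unfold Function.uncurry
      fun_prop
    exact this.measurable
  have h := (MeasurePreserving.id μ).skew_product (μc := μ) (μd := μ)
    (g := fun x y : k => c * x + y) hgm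
    (Filter.Eventually.of_forall fun x => map_add_left_eq_self μ (c * x))
  exact h.map_eq

/-- **The image of `μ × μ` under an invertible matrix.** -/
theorem map_actL833 (μ : Measure k) [SFinite μ] [μ.IsAddLeftInvariant]
    (hs : ∀ a : k, a ≠ 0 → Measure.map (fun y => a * y) μ = ENNReal.ofReal ‖a‖⁻¹ • μ)
    (m : Matrix (Fin 2) (Fin 2) k) (hm : m.det ≠ 0) :
    Measure.map (actL m) (μ.prod μ) = ENNReal.ofReal ‖m.det‖⁻¹ • (μ.prod μ) := by
  refine Matrix.diagonal_transvection_induction_of_det_ne_zero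
    (fun m => Measure.map (actL m) (μ.prod μ) = ENNReal.ofReal ‖m.det‖⁻¹ • (μ.prod μ))
    m hm ?_ ?_ ?_
  · intro D hD
    have hD' : D 0 * D 1 ≠ 0 := by
      simpa [Matrix.det_diagonal, Fin.prod_univ_two] using hD
    have h0 : D 0 ≠ 0 := left_ne_zero_of_mul hD'
    have h1 : D 1 ≠ 0 := right_ne_zero_of_mul hD'
    have e : actL (Matrix.diagonal D) = Prod.map (fun y => D 0 * y) (fun y => D 1 * y) := by
      funext y
      refine Prod.ext ?_ ?_ <;> simp [actL, Matrix.diagonal]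
    show Measure.map (actL (Matrix.diagonal D)) (μ.prod μ)
      = ENNReal.ofReal ‖(Matrix.diagonal D).det‖⁻¹ • (μ.prod μ)
    rw [e, ← Measure.map_prod_map μ μ (measurable_const_mul _) (measurable_const_mul _),
      hs _ h0, hs _ h1, Measure.prod_smul_left, Measure.prod_smul_right, smul_smul,
      Matrix.det_diagonal, Fin.prod_univ_two, norm_mul, mul_inv,
      ENNReal.ofReal_mul (by positivity)]
  · intro t
    show Measure.map (actL t.toMatrix) (μ.prod μ)
      = ENNReal.ofReal ‖t.toMatrix.det‖⁻¹ • (μ.prod μ)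
    rw [Matrix.TransvectionStruct.det, norm_one, inv_one, ENNReal.ofReal_one, one_smul]
    obtain ⟨i, j, hij, c⟩ := t
    fin_cases i <;> fin_cases j
    · exact absurd rfl hij
    · have e : actL (Matrix.TransvectionStruct.toMatrix ⟨(0 : Fin 2), 1, hij, c⟩)
          = Prod.swap ∘ (fun p : k × k => (p.1, c * p.1 + p.2)) ∘ Prod.swap := by
        funext y
        simp [actL, Matrix.TransvectionStruct.toMatrix, Matrix.transvection, Matrix.single,
          add_comm]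
      have hm1 : Measurable (fun p : k × k => (p.1, c * p.1 + p.2)) := by
        have : Continuous (fun p : k × k => (p.1, c * p.1 + p.2)) := by fun_prop
        exact this.measurable
      show Measure.map (actL (Matrix.TransvectionStruct.toMatrix ⟨(0 : Fin 2), 1, hij, c⟩))
        (μ.prod μ) = μ.prod μ
      rw [e, ← Measure.map_map measurable_swap (hm1.comp measurable_swap),
        ← Measure.map_map hm1 measurable_swap, Measure.prod_swap, map_shear833,
        Measure.prod_swap]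
    · have e : actL (Matrix.TransvectionStruct.toMatrix ⟨(1 : Fin 2), 0, hij, c⟩)
          = (fun p : k × k => (p.1, c * p.1 + p.2)) := by
        funext y
        simp [actL, Matrix.TransvectionStruct.toMatrix, Matrix.transvection, Matrix.single]
      show Measure.map (actL (Matrix.TransvectionStruct.toMatrix ⟨(1 : Fin 2), 0, hij, c⟩))
        (μ.prod μ) = μ.prod μ
      rw [e, map_shear833]
    · exact absurd rfl hij
  · intro A B hA hB PA PB
    have e : actL (A * B) = actL A ∘ actL B := funext (actL_mul833 A B)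
    show Measure.map (actL (A * B)) (μ.prod μ) = ENNReal.ofReal ‖(A * B).det‖⁻¹ • (μ.prod μ)
    rw [e, ← Measure.map_map (measurable_actL833 A) (measurable_actL833 B), PB,
      Measure.map_smul, PA, smul_smul, Matrix.det_mul, norm_mul, mul_inv,
      ENNReal.ofReal_mul (by positivity), mul_comm]

end General

/-! ## The leaf -/

/-- **A2.03.1.1.06.02 `LF54.LeafCov`**, VERBATIM. -/
theorem leafCov833 : LeafCov := by
  intro K _ _ v μ hμ m hm f hf
  let _ : MeasurableSpace (v.adicCompletion K) := borel (v.adicCompletion K)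
  have : BorelSpace (v.adicCompletion K) := ⟨rfl⟩
  have : LocallyCompactSpace (v.adicCompletion K) := locallyCompactSpace_adicCompletion_h11 K v
  have : SecondCountableTopology (v.adicCompletion K) :=
    secondCountableTopology_adicCompletion_h11 K v
  obtain ⟨hinv, hcpt, hpos⟩ := hμ
  have : μ.IsAddLeftInvariant := ⟨fun x => by
    ext S hS
    rw [Measure.map_apply (measurable_const_add x) hS]
    have e : (fun y => x + y) ⁻¹' S = (fun y => -x + y) '' S := by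
      ext y
      constructor
      · intro h
        exact ⟨x + y, h, by ring⟩
      · rintro ⟨z, hz, rfl⟩
        show x + (-x + z) ∈ S
        rw [add_neg_cancel_left]
        exact hz
    rw [e, hinv]⟩
  have : IsFiniteMeasureOnCompacts μ := ⟨fun C hC => hcpt C hC⟩
  have : μ.IsOpenPosMeasure := ⟨fun U hU hne => (hpos U hU hne).ne'⟩
  have : μ.IsAddHaarMeasure := {}
  have hs : ∀ a : v.adicCompletion K, a ≠ 0 →
      Measure.map (fun y => a * y) μ = ENNReal.ofReal ‖a‖⁻¹ • μ := by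
    intro a ha
    ext S hS
    rw [Measure.map_apply (measurable_const_mul a) hS, Measure.smul_apply]
    have e : (fun y => a * y) ⁻¹' S = (Units.mk0 a ha)⁻¹ • S := by
      rw [← Set.preimage_smul]
      rfl
    rw [e, ← distribHaarChar_mul μ, distribHaarChar_adicCompletion849, smul_eq_mul]
    congr 1
    rw [Units.val_inv_eq_inv_val, Units.val_mk0, ← enorm_eq_nnnorm, ← ofReal_norm_eq_enorm,
      norm_inv]
  have key := map_actL833 μ hs m hm
  show ∫ y, f (actL m y) ∂(μ.prod μ) = ((‖m.det‖⁻¹ : ℝ) : ℂ) * ∫ y, f y ∂(μ.prod μ)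
  rw [← integral_map (measurable_actL833 m).aemeasurable
    hf.1.continuous.aestronglyMeasurable, key, integral_smul_measure,
    ENNReal.toReal_ofReal (by positivity), Complex.real_smul]

end Fermat.Agent.LT.A2.H833

end

end
-- ===== PACK-END LT/A2/H833/LeafCov.lean

-- ===== PACK-BEGIN LT/A2/H894/WeylC.lean
section



/-!
# Row LT, tower A2, station A2.03.1.1.10, leaf CX.04 `CX798.WeylC` (helper894)

OFF-MAIN.  `weylC894 : CX798.WeylC`, VERBATIM against helper798@5f07fac26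
`Fermat/Agent/LT/A2/H798/CpxSpec.lean` (sha256 8ca2dc507058b836).  The analysis is in
`WeylGauss.lean` (Mathlib only): the complex Gaussian integral `gaussC894`, the two-variable
Gaussian in split coordinates `gaussC2_894`, the change of variables `integral_split894`
and the core identity `weyl_core894`.
-/

set_option autoImplicit false

open MeasureTheory Complex
open scoped ComplexConjugate Real

noncomputable section

namespace Fermat.Agent.LT.A2.H894

open Fermat.Agent.LT.A2 Fermat.Agent.LT.A2.WX467 Fermat.Agent.LT.A2.CX798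

theorem rowN_weyl894 (g : Matrix (Fin 2) (Fin 2) ℂ) :
    rowN (!![0, 1; -1, 0] * g) = ‖g 0 0‖ ^ 2 + ‖g 0 1‖ ^ 2 := by
  simp [rowN, Matrix.mul_apply, Fin.sum_univ_two]

theorem rowB_weyl894 (g : Matrix (Fin 2) (Fin 2) ℂ) :
    rowB (!![0, 1; -1, 0] * g) = -conj (rowB g) := by
  simp [rowB, Matrix.mul_apply, Fin.sum_univ_two]
  ring

/-- Lagrange's identity for the rows of `g`. -/
theorem lagrange894 (g : Matrix (Fin 2) (Fin 2) ℂ) :
    (‖g 0 0‖ ^ 2 + ‖g 0 1‖ ^ 2) * rowN g = ‖rowB g‖ ^ 2 + ‖g.det‖ ^ 2 := by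
  apply Complex.ofReal_injective
  unfold rowN rowB
  push_cast
  rw [← Complex.mul_conj' (g 0 0), ← Complex.mul_conj' (g 0 1), ← Complex.mul_conj' (g 1 0),
    ← Complex.mul_conj' (g 1 1), ← Complex.mul_conj', ← Complex.mul_conj', Matrix.det_fin_two]
  simp only [map_mul, map_add, map_sub, Complex.conj_conj]
  ring

theorem bfL_split894 (ω₁ ω₂ : ℂ) (ξ y : ℂ × ℂ) :
    bfL (ω₁ + ω₂) (ω₁ * ω₂) ξ y
      = (ξ.1 + ω₁ * ξ.2) * (y.1 + ω₂ * y.2) + (y.1 + ω₁ * y.2) * (ξ.1 + ω₂ * ξ.2) := by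
  simp only [bfL, qfL, Prod.fst_add, Prod.snd_add]
  ring

/-- **CX.04 WEYL.** -/
theorem weylC894 : CX798.WeylC := by
  intro c ω₁ ω₂ hc hω g m ξ hAdm
  obtain ⟨⟨a, b, hm⟩, hdet, hdetne⟩ := hAdm
  have hdetm : m.det = lam ω₁ m * lam ω₂ m := by
    rw [hm]
    simp only [lam, torMat, Matrix.det_fin_two_of, Matrix.of_apply, Matrix.cons_val', Matrix.cons_val_zero,
      Matrix.cons_val_one, Matrix.cons_val_fin_one]
    ring
  have hll : lam ω₁ m * lam ω₂ m ≠ 0 := by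
    rw [← hdetm]
    exact hdetne
  have hl₁ : lam ω₁ m ≠ 0 := left_ne_zero_of_mul hll
  have hl₂ : lam ω₂ m ≠ 0 := right_ne_zero_of_mul hll
  have hlag := lagrange894 g
  rw [hdet, hdetm] at hlag
  have hNnn : 0 ≤ rowN g := by
    unfold rowN
    positivity
  have hMnn : 0 ≤ ‖g 0 0‖ ^ 2 + ‖g 0 1‖ ^ 2 := by positivity
  have hpos : 0 < (‖g 0 0‖ ^ 2 + ‖g 0 1‖ ^ 2) * rowN g := by
    rw [hlag]
    have : 0 < ‖lam ω₁ m * lam ω₂ m‖ := norm_pos_iff.mpr hll
    positivity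
  have hN : 0 < rowN g := by
    rcases hNnn.lt_or_eq with h | h
    · exact h
    · rw [← h, mul_zero] at hpos
      exact absurd hpos (lt_irrefl _)
  have hM : 0 < ‖g 0 0‖ ^ 2 + ‖g 0 1‖ ^ 2 := by
    rcases hMnn.lt_or_eq with h | h
    · exact h
    · rw [← h, zero_mul] at hpos
      exact absurd hpos (lt_irrefl _)
  have key := weyl_core894 c ω₁ ω₂ hc hω (lam ω₁ m) (lam ω₂ m) (rowB g) (rowN g)
    (‖g 0 0‖ ^ 2 + ‖g 0 1‖ ^ 2) hl₁ hl₂ hN hM hlag ξ
  have hL : FC c ω₁ ω₂ (!![0, 1; -1, 0] * g) m ξ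
      = ((‖lam ω₁ m * lam ω₂ m‖ / (‖g 0 0‖ ^ 2 + ‖g 0 1‖ ^ 2) : ℝ) : ℂ) *
        cexp (((-(2 * π * ‖c‖ *
            (‖lam ω₂ m * (ξ.1 + ω₁ * ξ.2)‖ ^ 2 + ‖lam ω₁ m * (ξ.1 + ω₂ * ξ.2)‖ ^ 2)
              / (‖g 0 0‖ ^ 2 + ‖g 0 1‖ ^ 2)) : ℝ) : ℂ)
          + 4 * (π : ℂ) * Complex.I *
            (((c * (-conj (rowB g)) * ((ξ.1 + ω₁ * ξ.2) * (ξ.1 + ω₂ * ξ.2))).re
              / (‖g 0 0‖ ^ 2 + ‖g 0 1‖ ^ 2) : ℝ) : ℂ)) := by
    unfold FC
    rw [rowN_weyl894, rowB_weyl894]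
  rw [hL, key]
  unfold gamC intL volC
  congr 1
  show ∫ y : ℂ × ℂ, _ ∂((volume : Measure ℂ).prod (volume : Measure ℂ))
    = ∫ y : ℂ × ℂ, _ ∂((volume : Measure ℂ).prod (volume : Measure ℂ))
  congr 1
  funext y
  unfold FC psiC
  rw [bfL_split894]

end Fermat.Agent.LT.A2.H894

end

end
-- ===== PACK-END LT/A2/H894/WeylC.lean

-- ===== PACK-BEGIN LT/CFT/H1/Wall2.lean
section



/-!
# Row LT, tower CFT, sub-tower REC2 (helper1), OFF-MAIN : THE WALL OF REC2, version 2 (PROVED)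

`reciprocityTC2 : LocalCycloNormSharpSpec → HassePrinciple2Spec → ∀ I, ReciprocityTCSpec I`.

Leaf G6 (`NormPosSpec`) is proved (`NormPos.lean`); TWO open leaves remain:
* L5' `LocalCycloNormSharpSpec` (local norms from subfields of `ℚ_ℓ(μ_{ℓ^e})`, no sign),
* HP2 `HassePrinciple2Spec` (sub-tower G2: the inequalities at `p = 2`).
-/

set_option autoImplicit false

namespace Fermat.Agent.LT.CFT.H1

open Fermat.Agent.S55.G.Rec

/-- **REC2** from the two open leaves. -/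
theorem reciprocityTC2 (hL5 : LocalCycloNormSharpSpec) (hHP : HassePrinciple2Spec)
    (I : LocalInvSystem) : ReciprocityTCSpec I :=
  reciprocityTC hL5 normPos hHP I

end Fermat.Agent.LT.CFT.H1

end
-- ===== PACK-END LT/CFT/H1/Wall2.lean

-- ===== PACK-BEGIN LT/T7/H216/BoxSpec.lean
section



/-!
# Row LT, tower T7, LEAF `BoxIntC57` (registry 2058) -- CUT (helper216), OFF-MAIN

Definitions, frozen sub-leaf Props and the PROVED top.  No hole, nothing assumed.
Imports: Mathlib + `LT/T7/H57/FoldSpec2.lean` (helper57@1b7c508ec, sha256 9d46bc8cd952ee09,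
byte-identical copy) and its closure.

```
T1.T1Out K → BoxIntC57 K  ⇐  HaarLogC216 + IdeleRayC216 K + NormInvC216 K + NormFinC216 K
                               + CalcC216 + BoxFubiniC216 K           (`boxInt_of_leaves216`)
```

`m = pushN216 K τ FX` is the push-forward of `τ|FX` under the idele norm `nrm57`.

* `HaarLogC216`   (B.1, Mathlib only): a non-zero measure on `ℝ`, carried by `(0, ∞)`, invariant
  under all dilations `t ↦ s t` (`s > 0`), finite on `[1, 2]`, is `V₀ · dt/t` with `0 < V₀ < ∞`.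
* `IdeleRayC216`  (B.2): a continuous section of the idele norm over `(0, ∞)` (the ray at one
  infinite place).
* `NormInvC216`   (B.3): `m` is invariant under all dilations (translate the fundamental domain by
  an idele of norm `s`; `IsFundamentalDomain.smul_of_comm`, `measure_set_eq`, product formula).
* `NormFinC216`   (B.4): `m [a, b] < ∞` (Fujisaki: `nrm⁻¹ [a, b] ⊆ Kˣ · C · j [a, b]`, a compact
  set; `IsFundamentalDomain.measure_eq_tsum`).
* `NormPushC216`  (node, PROVED from B.1-B.4 in `normPush_of_leaves216`):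
  `∫⁻_{FX} f (nrm y) dτ = V₀ ∫⁻_{t > 0} f t dt/t` for every measurable `f ≥ 0`.
* `CalcC216`      (B.5, Mathlib only): `∫_{t ≥ Y} t⁻² dt < ∞` and
  `∫_{t > 0, 1 ≤ c t² < 2} dt/t = log 2 / 2`, as lower integrals.
* `BoxFubiniC216` (B.6, helper216): `CalcC216 → NormPushC216 K → BoxIntC57 K` (Tonelli / Fubini on
  the box; the `z`-integral is the constant `V = V₀ log 2 / 2`).
-/

set_option autoImplicit false

open AutomorphicForm IsDedekindDomain NumberField Filter Topology MeasureTheory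
open scoped ComplexConjugate ENNReal

noncomputable section

namespace Fermat.Agent.LT.T7.H216

open Fermat.Agent.LT.H556 Fermat.Agent.LT.H556.A0 Fermat.Agent.LT.T7 Fermat.Agent.LT.T7.Rigid
open Fermat.Agent.LT.T7.H57

variable (K : Type) [Field K] [NumberField K]

/-! ## Vocabulary -/

/-- The measure `dt / t` on `(0, ∞)`. -/
def dtt216 : Measure ℝ :=
  (volume.restrict (Set.Ioi (0 : ℝ))).withDensity fun t => ENNReal.ofReal t⁻¹

/-- The push-forward of `τ|FX` under the idele norm. -/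
def pushN216 {_ : MeasurableSpace (Adl K)ˣ} (τ : Measure (Adl K)ˣ) (FX : Set (Adl K)ˣ) :
    Measure ℝ :=
  Measure.map (nrm57 K) (τ.restrict FX)

/-! ## The Props -/

/-- **B.1 (Mathlib only).**  Uniqueness of the Haar measure of `(0, ∞)`. -/
def HaarLogC216 : Prop :=
  ∀ m : Measure ℝ, m (Set.Iic 0) = 0 →
    (∀ s : ℝ, 0 < s → Measure.map (fun t : ℝ => s * t) m = m) →
    m (Set.Icc 1 2) < ⊤ → m ≠ 0 →
    ∃ V₀ : ℝ, 0 < V₀ ∧ m = ENNReal.ofReal V₀ • dtt216

/-- **B.2.**  A continuous section of the idele norm over `(0, ∞)`. -/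
def IdeleRayC216 : Prop :=
  ∃ j : ℝ → (Adl K)ˣ, ContinuousOn j (Set.Ioi 0) ∧ ∀ s : ℝ, 0 < s → nrm57 K (j s) = s

/-- **B.3.**  The push-forward of `τ|FX` under the norm is invariant under all dilations. -/
def NormInvC216 : Prop :=
  letI : MeasurableSpace (Adl K)ˣ := borel (Adl K)ˣ
  Fermat.Agent.LT.T1.T1Out K → (∀ s : ℝ, 0 < s → ∃ y : (Adl K)ˣ, nrm57 K y = s) →
  ∀ τ : Measure (Adl K)ˣ, τ.IsHaarMeasure →
  ∀ FX : Set (Adl K)ˣ, MeasurableSet FX → IsFundamentalDomain (ratU57 K).range FX τ →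
    ∀ s : ℝ, 0 < s → Measure.map (fun t : ℝ => s * t) (pushN216 K τ FX) = pushN216 K τ FX

/-- **B.4.**  The push-forward of `τ|FX` under the norm is finite on the compact intervals of
`(0, ∞)`. -/
def NormFinC216 : Prop :=
  letI : MeasurableSpace (Adl K)ˣ := borel (Adl K)ˣ
  Fermat.Agent.LT.T1.T1Out K → IdeleRayC216 K →
  ∀ τ : Measure (Adl K)ˣ, τ.IsHaarMeasure →
  ∀ FX : Set (Adl K)ˣ, MeasurableSet FX → IsFundamentalDomain (ratU57 K).range FX τ →
    ∀ a b : ℝ, 0 < a → a ≤ b → pushN216 K τ FX (Set.Icc a b) < ⊤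

/-- **NODE NormPush** (proved from B.1-B.4). -/
def NormPushC216 : Prop :=
  letI : MeasurableSpace (Adl K)ˣ := borel (Adl K)ˣ
  ∀ τ : Measure (Adl K)ˣ, τ.IsHaarMeasure →
  ∀ FX : Set (Adl K)ˣ, MeasurableSet FX → IsFundamentalDomain (ratU57 K).range FX τ →
    ∃ V₀ : ℝ, 0 < V₀ ∧ ∀ f : ℝ → ℝ≥0∞, Measurable f →
      ∫⁻ y in FX, f (nrm57 K y) ∂τ
        = ENNReal.ofReal V₀ * ∫⁻ t in Set.Ioi (0 : ℝ), ENNReal.ofReal t⁻¹ * f t

/-- **B.5 (Mathlib only).**  The two one-variable integrals: `∫_{t ≥ Y} t⁻² dt < ∞` and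
`∫_{t > 0, 1 ≤ c t² < 2} dt / t = log 2 / 2`. -/
def CalcC216 : Prop :=
  (∀ Y : ℝ, 0 < Y →
    ∫⁻ t in Set.Ioi (0 : ℝ),
      ENNReal.ofReal t⁻¹ * (Set.Ici Y).indicator (fun u : ℝ => ENNReal.ofReal u⁻¹) t < ⊤) ∧
  ∀ c : ℝ, 0 < c →
    ∫⁻ t in Set.Ioi (0 : ℝ),
      ENNReal.ofReal t⁻¹ *
        {u : ℝ | 1 ≤ c * u ^ 2 ∧ c * u ^ 2 < 2}.indicator (fun _ : ℝ => (1 : ℝ≥0∞)) t
      = ENNReal.ofReal (Real.log 2 / 2)

/-- **B.6.**  The box integral from `NormPush` (Tonelli / Fubini). -/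
def BoxFubiniC216 : Prop :=
  Fermat.Agent.LT.T1.T1Out K → CalcC216 → NormPushC216 K → BoxIntC57 K

end Fermat.Agent.LT.T7.H216

end

end
-- ===== PACK-END LT/T7/H216/BoxSpec.lean

-- ===== PACK-BEGIN LT/T7/H293/FundX.lean
section




/-!
# Row LT, tower T7, leaf T7.14.6a-F.5 `H57.FundXC57` (helper293, registry 2057)

OFF-MAIN.  A measurable (strict) fundamental domain of `Kˣ` in the ideles:

* `fundXC_of293 : T1.LocCompC K → T1.AdeleLatticeC K → H57.FundXC57 K`;
* `fundXC293 : T1.T1Out K → H57.FundXC57 K`.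

`Kˣ` is discrete in the ideles (`K` is discrete in `𝔸_K` and the topology of the units is finer),
hence countable (the ideles are second countable); the abstract construction of a strict Borel
fundamental domain is `T1.H558.exists_strict_fundDom558` (helper558), and
`IsFundamentalDomain.mk'` concludes.
-/

set_option autoImplicit false

open IsDedekindDomain NumberField Filter Topology MeasureTheory

noncomputable section

namespace Fermat.Agent.LT.T7.H293

open Fermat.Agent.LT Fermat.Agent.LT.H556 Fermat.Agent.LT.H556.A0 Fermat.Agent.LT.T7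
  Fermat.Agent.LT.T7.H57

variable (K : Type) [Field K] [NumberField K]

/-- `Kˣ` is discrete in the ideles. -/
theorem discrete_ratU293 (hL : T1.AdeleLatticeC K) : DiscreteTopology (ratU57 K).range := by
  have hd : DiscreteTopology (T1.princ K) := hL.1
  let f : (ratU57 K).range → T1.princ K := fun γ =>
    ⟨((γ : (Adl K)ˣ) : Adl K), by
      obtain ⟨_, α, rfl⟩ := γ
      exact ⟨(α : K), rfl⟩⟩
  have hf : Continuous f :=
    Continuous.subtype_mk (Units.continuous_val.comp continuous_subtype_val) _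
  have hinj : Function.Injective f := by
    intro γ γ' h
    have h' : ((γ : (Adl K)ˣ) : Adl K) = ((γ' : (Adl K)ˣ) : Adl K) := congrArg Subtype.val h
    exact Subtype.ext (Units.ext h')
  exact DiscreteTopology.of_continuous_injective hf hinj

/-- The ideles are second countable. -/
theorem secondCountable_ideles293 (hLC : T1.LocCompC K) :
    SecondCountableTopology (Adl K)ˣ := by
  have h1 : SecondCountableTopology (Adl K) := hLC.1.2.2
  have h2 : SecondCountableTopology (Adl K)ᵐᵒᵖ :=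
    (MulOpposite.opHomeomorph (M := Adl K)).symm.secondCountableTopology
  exact Units.isEmbedding_embedProduct.secondCountableTopology

/-- **T7.14.6a-F.5 `FundXC57`** from local compactness and the lattice property. -/
theorem fundXC_of293 (hLC : T1.LocCompC K) (hL : T1.AdeleLatticeC K) : FundXC57 K := by
  unfold FundXC57
  let _ : MeasurableSpace (Adl K)ˣ := borel (Adl K)ˣ
  have hb : BorelSpace (Adl K)ˣ := ⟨rfl⟩
  intro τ _
  have hsc : SecondCountableTopology (Adl K)ˣ := secondCountable_ideles293 K hLC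
  have hdt : DiscreteTopology (ratU57 K).range := discrete_ratU293 K hL
  have hct : Countable (ratU57 K).range :=
    TopologicalSpace.separableSpace_iff_countable.mp inferInstance
  obtain ⟨F, hFm, -, hF⟩ := T1.H558.exists_strict_fundDom558 (ratU57 K).range Set.univ Set.univ
    MeasurableSet.univ MeasurableSet.univ (fun _ _ _ => trivial) (fun _ _ => ⟨1, trivial⟩)
  exact ⟨F, hFm, IsFundamentalDomain.mk' hFm.nullMeasurableSet fun x => hF x trivial⟩

/-- **T7.14.6a-F.5 `FundXC57`** from the output of tower T1. -/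
theorem fundXC293 (h : T1.T1Out K) : FundXC57 K :=
  fundXC_of293 K h.locComp h.adeleLattice

example : T1.T1Out K → FundXC57 K := fundXC293 K

end Fermat.Agent.LT.T7.H293

end

end
-- ===== PACK-END LT/T7/H293/FundX.lean

-- ===== PACK-BEGIN LT/T7/H37/ThinNode.lean
section



/-!
# Row LT, tower T7, node T7.13 `ThinC` (sub-architect helper37): THE NODE FROM ONE LEAF

OFF-MAIN, ADDITIVE (after the freeze of 14:45Z): `ThinSpec.lean`, `ThinAdapt.lean`,
`ThinClosed.lean` are unchanged in bytes; this file only adds new names.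

`T7.13c ChebFC` is CLOSED by helper341 (`chebFC341`, registry row 1271,
`LT/T7/H341/{ChebF f0501f44, ChebAux c743e3aa, ChebSplit db139abf, ChebTr f08ba369,
ChebGrp bbf19f7d}.lean`, byte-identical copies).  So 9 of the 10 leaves of the node are closed
and ONE Prop is left, in either of its two forms:

* `SqMass468C` (row 1353, the classical half in one piece, package of helper47), or
* `HoroCoeffFC` (row 1275, Fourier analysis on `ℂ / M 𝓞_K`, helper768).

    thinC_of_sqMass37    : SqMass468C  → T7.ThinC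
    thinC_of_horoCoeff37 : HoroCoeffFC → T7.ThinC
-/

set_option autoImplicit false

namespace Fermat.Agent.LT.T7.H37

open Fermat.Agent.LT.T7 Fermat.Agent.LT.T7.H468

/-- `ChebFC` is closed (helper341). -/
theorem chebFC_closed37 : ChebFC := Fermat.Agent.LT.T7.H341.chebFC341

/-- The open part of the node with `ChebFC` discharged. -/
theorem thinOpen_of_sqMass37 (h : SqMass468C) : ThinOpen := ⟨chebFC_closed37, h⟩

/-- **THE NODE T7.13 FROM ITS ONE OPEN LEAF** (form of row 1353). -/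
theorem thinC_of_sqMass37 (h : SqMass468C) : ThinC :=
  thin_of_open'' (thinOpen_of_sqMass37 h)

/-- **THE NODE T7.13 FROM ITS ONE OPEN LEAF** (form of row 1275). -/
theorem thinC_of_horoCoeff37 (h : HoroCoeffFC) : ThinC :=
  thinC_of_sqMass37 (sqMass468C_of_horoCoeff h)

end Fermat.Agent.LT.T7.H37

end
-- ===== PACK-END LT/T7/H37/ThinNode.lean

-- ===== PACK-BEGIN LT/T7/H550/TorusCore.lean
section



/-!
# Row LT, tower T7, node T7.14 `RigidC`, leaf T7.14.6b.5 `TorusAsmC`: the abstract core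

OFF-MAIN (helper550, 2nd seat of row 1832).  `W : (Adl K)ˣ → ℂ` is ANY function on the ideles (in
the application `y ↦ whit ψ ν D φ (dgA y)`).

`torus_core550`: if `W` satisfies the Hecke recursion at the places outside `S` and is invariant
under the unit ideles supported outside `S`, then for every idele `z` with `z_∞ = 1`
`W z = W (z^S) · ∏ᶠ_{v ∉ S} locFactor v (a v) (ord_v z)`, `z^S` = the idele with the components
of `z` on `S` and `1` elsewhere.
-/

set_option autoImplicit false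

open IsDedekindDomain NumberField MeasureTheory AutomorphicForm
open Fermat.Agent.LT.H556.A0
open Fermat.Agent.LT.H129
open Fermat.Agent.LT.T7 Fermat.Agent.LT.T7.Rigid

noncomputable section

namespace Fermat.Agent.LT.T7.H550

variable {K : Type} [Field K] [NumberField K]

/-! ## 1. The exponent -/

theorem ordI_mul550 (v : HeightOneSpectrum (𝓞 K)) (y z : (Adl K)ˣ) :
    ordI v (y * z) = ordI v y + ordI v z := by
  unfold ordI
  rw [comp_mulFT550, map_mul,
    WithZero.log_mul (val_comp_ne_zeroT550 v y) (val_comp_ne_zeroT550 v z)]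
  ring

theorem ordI_inv550 (v : HeightOneSpectrum (𝓞 K)) (y : (Adl K)ˣ) :
    ordI v y⁻¹ = -ordI v y := by
  have h := ordI_mul550 v y y⁻¹
  have h1 : ordI v (1 : (Adl K)ˣ) = 0 := by
    unfold ordI
    rw [comp_oneFT550, map_one, WithZero.log_one, neg_zero]
  rw [mul_inv_cancel, h1] at h
  linarith

theorem ordI_of_comp_one550 {v : HeightOneSpectrum (𝓞 K)} {y : (Adl K)ˣ}
    (h : (y : Adl K).2 v = 1) : ordI v y = 0 := by
  unfold ordI
  rw [h, map_one, WithZero.log_one, neg_zero]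

theorem ordI_unif550 {v : HeightOneSpectrum (𝓞 K)} {t : (Adl K)ˣ} (ht : IsUnifIdele v t) :
    ordI v t = 1 := by
  unfold ordI
  rw [ht.2.2, WithZero.log_exp, neg_neg]

theorem ordI_pow550 (v : HeightOneSpectrum (𝓞 K)) (t : (Adl K)ˣ) (m : ℕ) :
    ordI v (t ^ m) = m * ordI v t := by
  induction m with
  | zero =>
    rw [pow_zero, Nat.cast_zero, zero_mul]
    unfold ordI
    rw [comp_oneFT550, map_one, WithZero.log_one, neg_zero]
  | succ m ih =>
    rw [pow_succ, ordI_mul550, ih]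
    push_cast
    ring

theorem val_eq_exp_ordI550 (v : HeightOneSpectrum (𝓞 K)) (y : (Adl K)ˣ) :
    Valued.v ((y : Adl K).2 v) = WithZero.exp (-ordI v y) := by
  unfold ordI
  rw [neg_neg, WithZero.exp_log (val_comp_ne_zeroT550 v y)]

theorem ordI_eq_zero_of_val550 {v : HeightOneSpectrum (𝓞 K)} {y : (Adl K)ˣ}
    (h : Valued.v ((y : Adl K).2 v) = 1) : ordI v y = 0 := by
  unfold ordI
  rw [h, WithZero.log_one, neg_zero]

theorem ordI_congr550 {v : HeightOneSpectrum (𝓞 K)} {y z : (Adl K)ˣ}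
    (h : (y : Adl K).2 v = (z : Adl K).2 v) : ordI v y = ordI v z := by
  unfold ordI
  rw [h]

/-! ## 2. The local factor -/

theorem nv_pos550 (v : HeightOneSpectrum (𝓞 K)) : 0 < nv v :=
  lt_of_lt_of_le one_pos (one_le_nv v)

theorem locFactor_neg550 (v : HeightOneSpectrum (𝓞 K)) (a : ℂ) {m : ℤ} (h : m < 0) :
    locFactor v a m = 0 := by
  unfold locFactor
  rw [if_neg (not_le.2 h)]

theorem locFactor_nat550 (v : HeightOneSpectrum (𝓞 K)) (a : ℂ) (m : ℕ) :
    locFactor v a (m : ℤ) = (((Real.sqrt (nv v))⁻¹ : ℝ) : ℂ) ^ m * hpoly a m := by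
  unfold locFactor
  rw [if_pos (Int.natCast_nonneg m), Int.toNat_natCast]
  congr 1
  have h0 : (0 : ℝ) ≤ nv v := (nv_pos550 v).le
  have e : nv v ^ (-((m : ℤ) : ℝ) / 2) = ((Real.sqrt (nv v))⁻¹) ^ m := by
    rw [Real.sqrt_eq_rpow, ← Real.rpow_neg h0, ← Real.rpow_natCast, ← Real.rpow_mul h0]
    congr 1
    push_cast
    ring
  rw [e]
  push_cast
  rfl

theorem locFactor_zero550 (v : HeightOneSpectrum (𝓞 K)) (a : ℂ) : locFactor v a 0 = 1 := by
  have h := locFactor_nat550 v a 0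
  simpa [hpoly] using h

/-! ## 3. Local ideles and uniformisers -/

open scoped Classical in
theorem atF_auxT550 (v : HeightOneSpectrum (𝓞 K)) (x : (v.adicCompletion K)ˣ) :
    ∀ᶠ v' : HeightOneSpectrum (𝓞 K) in Filter.cofinite,
      Valued.v (((Function.update
        (fun v' : HeightOneSpectrum (𝓞 K) => (1 : (v'.adicCompletion K)ˣ)) v x v' :
          (v'.adicCompletion K)ˣ)) : v'.adicCompletion K) = 1 := by
  rw [Filter.eventually_cofinite]
  refine (Set.finite_singleton v).subset fun v' hv' => ?_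
  by_contra hne
  apply hv'
  have hne' : v' ≠ v := hne
  rw [Function.update_of_ne hne', Units.val_one, map_one]

open scoped Classical in
/-- The idele with component `x` at `v` and `1` at every other place. -/
def atFT550 (v : HeightOneSpectrum (𝓞 K)) (x : (v.adicCompletion K)ˣ) : (Adl K)ˣ :=
  mkIdT550 (fun _ => 1)
    (Function.update (fun v' : HeightOneSpectrum (𝓞 K) => (1 : (v'.adicCompletion K)ˣ)) v x)
    (atF_auxT550 v x)

open scoped Classical in
theorem atF_selfT550 (v : HeightOneSpectrum (𝓞 K)) (x : (v.adicCompletion K)ˣ) :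
    ((atFT550 v x : (Adl K)ˣ) : Adl K).2 v = (x : v.adicCompletion K) := by
  unfold atFT550
  rw [mkId_FT550, Function.update_self]

open scoped Classical in
theorem atF_neT550 {v v' : HeightOneSpectrum (𝓞 K)} (h : v' ≠ v) (x : (v.adicCompletion K)ˣ) :
    ((atFT550 v x : (Adl K)ˣ) : Adl K).2 v' = 1 := by
  unfold atFT550
  rw [mkId_FT550, Function.update_of_ne h, Units.val_one]

theorem atF_infT550 (v : HeightOneSpectrum (𝓞 K)) (x : (v.adicCompletion K)ˣ)
    (w : InfinitePlace K) : ((atFT550 v x : (Adl K)ˣ) : Adl K).1 w = 1 := by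
  unfold atFT550
  rw [mkId_IT550, Units.val_one]

/-- Uniformiser ideles exist. -/
theorem exists_unifIdele550 (v : HeightOneSpectrum (𝓞 K)) : ∃ t : (Adl K)ˣ, IsUnifIdele v t := by
  obtain ⟨ϖ, hϖ⟩ := exists_unif129 (K := K) (v := v)
  have hne : ϖ ≠ 0 := by
    intro h
    rw [h, map_zero] at hϖ
    exact WithZero.exp_ne_zero.symm hϖ
  refine ⟨atFT550 v (Units.mk0 ϖ hne), fun w => atF_infT550 v _ w,
    fun v' h => atF_neT550 h _, ?_⟩
  rw [atF_selfT550, Units.val_mk0, hϖ]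

/-! ## 4. One place -/

/-- The hypotheses on `W` at the places outside `S`. -/
structure IsRecW550 (a : HeightOneSpectrum (𝓞 K) → ℂ) (S : Finset (HeightOneSpectrum (𝓞 K)))
    (W : (Adl K)ˣ → ℂ) : Prop where
  hrec : ∀ v : HeightOneSpectrum (𝓞 K), v ∉ S → ∀ y t : (Adl K)ˣ, IsUnifIdele v t →
    (ordI v y < 0 → W y = 0) ∧
    (0 ≤ ordI v y →
      ((nv v : ℝ) : ℂ) * W (y * t) + W (y * t⁻¹) = ((Real.sqrt (nv v) : ℝ) : ℂ) * a v * W y)
  hunit : ∀ y u : (Adl K)ˣ, (∀ w : InfinitePlace K, (u : Adl K).1 w = 1) →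
    (∀ v ∈ S, (u : Adl K).2 v = 1) →
    (∀ v : HeightOneSpectrum (𝓞 K), v ∉ S → Valued.v ((u : Adl K).2 v) = 1) →
    W (y * u) = W y

/-- The recursion at one place: `W (y tᵐ) = locFactor m · W y` for `ord_v y = 0`. -/
theorem rec_pow550 {a : HeightOneSpectrum (𝓞 K) → ℂ} {S : Finset (HeightOneSpectrum (𝓞 K))}
    {W : (Adl K)ˣ → ℂ} (hW : IsRecW550 a S W) {v : HeightOneSpectrum (𝓞 K)} (hv : v ∉ S)
    {y t : (Adl K)ˣ} (ht : IsUnifIdele v t) (hy : ordI v y = 0) :
    ∀ m : ℕ, W (y * t ^ m) = locFactor v (a v) (m : ℤ) * W y ∧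
      W (y * t ^ (m + 1)) = locFactor v (a v) ((m + 1 : ℕ) : ℤ) * W y := by
  have hq : (0 : ℝ) < nv v := nv_pos550 v
  have hqc : ((nv v : ℝ) : ℂ) ≠ 0 := by exact_mod_cast hq.ne'
  have hs : (0 : ℝ) < Real.sqrt (nv v) := Real.sqrt_pos.2 hq
  -- `s = q r`, `q r² = 1` for `s = √q`, `r = 1 / √q`
  have hsr : ((Real.sqrt (nv v) : ℝ) : ℂ)
      = ((nv v : ℝ) : ℂ) * (((Real.sqrt (nv v))⁻¹ : ℝ) : ℂ) := by
    rw [← Complex.ofReal_mul]
    congr 1
    have := Real.mul_self_sqrt hq.le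
    field_simp
    linarith
  have hqr2 : ((nv v : ℝ) : ℂ) * ((((Real.sqrt (nv v))⁻¹ : ℝ) : ℂ)
      * (((Real.sqrt (nv v))⁻¹ : ℝ) : ℂ)) = 1 := by
    rw [← Complex.ofReal_mul, ← Complex.ofReal_mul, ← Complex.ofReal_one]
    congr 1
    have := Real.mul_self_sqrt hq.le
    field_simp
    linarith
  have hord : ∀ m : ℕ, ordI v (y * t ^ m) = m := by
    intro m
    rw [ordI_mul550, hy, ordI_pow550, ordI_unif550 ht]
    ring
  -- the first step
  have h1 : W (y * t ^ 1) = locFactor v (a v) ((1 : ℕ) : ℤ) * W y := by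
    have hneg : W (y * t⁻¹) = 0 := by
      refine ((hW.hrec v hv (y * t⁻¹) t ht).1 ?_)
      rw [ordI_mul550, hy, ordI_inv550, ordI_unif550 ht]
      norm_num
    have hr := (hW.hrec v hv y t ht).2 (by rw [hy])
    rw [hneg, add_zero] at hr
    rw [pow_one, locFactor_nat550, pow_one]
    have hp : hpoly (a v) 1 = a v := rfl
    rw [hp]
    apply mul_left_cancel₀ hqc
    linear_combination hr + (a v * W y) * hsr
  intro m
  induction m with
  | zero =>
    refine ⟨?_, by simpa using h1⟩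
    rw [pow_zero, mul_one, Nat.cast_zero, locFactor_zero550, one_mul]
  | succ m ih =>
    refine ⟨ih.2, ?_⟩
    have hr := (hW.hrec v hv (y * t ^ (m + 1)) t ht).2 (by rw [hord]; positivity)
    have e1 : y * t ^ (m + 1) * t = y * t ^ (m + 1 + 1) := by rw [mul_assoc, ← pow_succ]
    have e2 : y * t ^ (m + 1) * t⁻¹ = y * t ^ m := by
      rw [pow_succ, mul_assoc, mul_assoc, mul_inv_cancel, mul_one]
    rw [e1, e2, ih.1, ih.2, locFactor_nat550, locFactor_nat550] at hr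
    rw [locFactor_nat550]
    have hp : hpoly (a v) (m + 1 + 1) = a v * hpoly (a v) (m + 1) - hpoly (a v) m := rfl
    rw [hp]
    apply mul_left_cancel₀ hqc
    linear_combination hr
      + (a v * (((Real.sqrt (nv v))⁻¹ : ℝ) : ℂ) ^ (m + 1) * hpoly (a v) (m + 1) * W y) * hsr
      + ((((Real.sqrt (nv v))⁻¹ : ℝ) : ℂ) ^ m * hpoly (a v) m * W y) * hqr2

/-- **One place.**  `W y = locFactor (ord_v y) · W (y with the component at v replaced by 1)`. -/
theorem one_place550 {a : HeightOneSpectrum (𝓞 K) → ℂ} {S : Finset (HeightOneSpectrum (𝓞 K))}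
    {W : (Adl K)ˣ → ℂ} (hW : IsRecW550 a S W) {v : HeightOneSpectrum (𝓞 K)} (hv : v ∉ S)
    (y : (Adl K)ˣ) :
    W y = locFactor v (a v) (ordI v y) * W (repFT550 y v 1) := by
  obtain ⟨t, ht⟩ := exists_unifIdele550 v
  rcases lt_or_ge (ordI v y) 0 with hneg | hpos
  · rw [(hW.hrec v hv y t ht).1 hneg, locFactor_neg550 v (a v) hneg, zero_mul]
  · obtain ⟨m, hm⟩ := Int.eq_ofNat_of_zero_le hpos
    set y₁ : (Adl K)ˣ := repFT550 y v 1 with hy₁
    have hy₁0 : ordI v y₁ = 0 :=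
      ordI_of_comp_one550 (by rw [hy₁, repF_selfT550, comp_oneFT550])
    have hrec := (rec_pow550 hW hv ht hy₁0 m).1
    rw [hm, ← hrec]
    -- the unit part
    have hu : W (y₁ * t ^ m * ((y₁ * t ^ m)⁻¹ * y)) = W (y₁ * t ^ m) := by
      refine hW.hunit _ _ (fun w => ?_) (fun v' hv' => ?_) (fun v' _ => ?_)
      · rw [comp_mulIT550, comp_invIT550, comp_mulIT550, comp_powIT550, ht.1 w, hy₁,
          repF_infT550, one_pow, mul_one]
        exact inv_mul_cancel₀ (by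
          rw [← uI_val550]; exact (uI550 w y).ne_zero)
      · have hne : v' ≠ v := fun h => hv (h ▸ hv')
        rw [comp_mulFT550, comp_invFT550, comp_mulFT550, comp_powFT550, ht.2.1 v' hne, hy₁,
          repF_neT550 y hne, one_pow, mul_one]
        exact inv_mul_cancel₀ (comp_ne_zeroFT550 v' y)
      · by_cases hne : v' = v
        · subst hne
          have h1 : ordI v' ((y₁ * t ^ m)⁻¹ * y) = 0 := by
            rw [ordI_mul550, ordI_inv550, ordI_mul550, hy₁0, ordI_pow550, ordI_unif550 ht, hm]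
            ring
          rw [val_eq_exp_ordI550, h1, neg_zero, WithZero.exp_zero]
        · rw [comp_mulFT550, comp_invFT550, comp_mulFT550, comp_powFT550, ht.2.1 v' hne, hy₁,
            repF_neT550 y hne, one_pow, mul_one,
            inv_mul_cancel₀ (comp_ne_zeroFT550 v' y), map_one]
    rw [mul_inv_cancel_left] at hu
    exact hu

/-! ## 5. Finitely many places -/

open Classical in
/-- **THE CORE.**  For an idele `z` which is `1` at the infinite places:
`W z = W (z^S) · ∏ᶠ_{v ∉ S} locFactor v (a v) (ord_v z)`. -/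
theorem torus_core550 {a : HeightOneSpectrum (𝓞 K) → ℂ} {S : Finset (HeightOneSpectrum (𝓞 K))}
    {W : (Adl K)ˣ → ℂ} (hW : IsRecW550 a S W) (z : (Adl K)ˣ)
    (hz : ∀ w : InfinitePlace K, (z : Adl K).1 w = 1) :
    W z = W (glueT550 S z 1)
      * ∏ᶠ v : HeightOneSpectrum (𝓞 K), (if v ∈ S then 1 else locFactor v (a v) (ordI v z)) := by
  -- induction over a finite set of places
  have hT : ∀ (T : Finset (HeightOneSpectrum (𝓞 K))) (z : (Adl K)ˣ),
      (∀ w : InfinitePlace K, (z : Adl K).1 w = 1) →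
      (∀ v : HeightOneSpectrum (𝓞 K), v ∉ S → v ∉ T → Valued.v ((z : Adl K).2 v) = 1) →
      W z = W (glueT550 S z 1)
        * ∏ v ∈ T, (if v ∈ S then 1 else locFactor v (a v) (ordI v z)) := by
    intro T
    induction T using Finset.induction_on with
    | empty =>
      intro z hz hzT
      rw [Finset.prod_empty, mul_one]
      have hu : W (glueT550 S z 1 * ((glueT550 S z 1)⁻¹ * z)) = W (glueT550 S z 1) := by
        refine hW.hunit _ _ (fun w => ?_) (fun v hv => ?_) (fun v hv => ?_)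
        · rw [comp_mulIT550, comp_invIT550, glue_infT550, comp_oneIT550, inv_one, one_mul, hz w]
        · rw [comp_mulFT550, comp_invFT550, glue_memT550 S z 1 hv]
          exact inv_mul_cancel₀ (comp_ne_zeroFT550 v z)
        · rw [comp_mulFT550, comp_invFT550, glue_not_memT550 S z 1 hv, comp_oneFT550, inv_one,
            one_mul]
          exact hzT v hv (Finset.notMem_empty v)
      rw [mul_inv_cancel_left] at hu
      exact hu
    | insert v T hvT ih =>
      intro z hz hzT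
      rw [Finset.prod_insert hvT]
      by_cases hvS : v ∈ S
      · rw [if_pos hvS, one_mul]
        refine ih z hz (fun v' hv' hv'T => hzT v' hv' ?_)
        intro hmem
        rcases Finset.mem_insert.1 hmem with h | h
        · exact hv' (h ▸ hvS)
        · exact hv'T h
      · rw [if_neg hvS, one_place550 hW hvS z]
        have hglue : glueT550 S (repFT550 z v 1) 1 = glueT550 S z 1 := by
          refine idele_extT550 (fun w => ?_) (fun v' => ?_)
          · rw [glue_infT550, glue_infT550]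
          · by_cases hv' : v' ∈ S
            · rw [glue_memT550 S _ 1 hv', glue_memT550 S _ 1 hv',
                repF_neT550 z (fun h : v' = v => hvS (h ▸ hv'))]
            · rw [glue_not_memT550 S _ 1 hv', glue_not_memT550 S _ 1 hv']
        have hprod : ∏ v' ∈ T, (if v' ∈ S then (1 : ℂ)
              else locFactor v' (a v') (ordI v' (repFT550 z v 1)))
            = ∏ v' ∈ T, (if v' ∈ S then (1 : ℂ) else locFactor v' (a v') (ordI v' z)) := by
          refine Finset.prod_congr rfl fun v' hv' => ?_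
          have hne : v' ≠ v := fun h => hvT (h ▸ hv')
          rw [ordI_congr550 (repF_neT550 z hne 1)]
        rw [ih (repFT550 z v 1) (fun w => by rw [repF_infT550, hz w]) (fun v' hv' hv'T => ?_),
          hglue, hprod]
        · ring
        · by_cases h : v' = v
          · subst h
            rw [repF_selfT550, comp_oneFT550, map_one]
          · rw [repF_neT550 z h]
            refine hzT v' hv' ?_
            intro hmem
            rcases Finset.mem_insert.1 hmem with h' | h'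
            · exact h h'
            · exact hv'T h'
  have hfin := finite_badT550 z
  rw [hT hfin.toFinset z hz (fun v _ hvT => by
    by_contra hcon
    exact hvT ((Set.Finite.mem_toFinset _).2 hcon))]
  congr 1
  symm
  refine finprod_eq_prod_of_mulSupport_subset _ ?_
  intro v hv
  rw [Function.mem_mulSupport] at hv
  rw [Finset.mem_coe, Set.Finite.mem_toFinset]
  intro hval
  apply hv
  by_cases hvS : v ∈ S
  · rw [if_pos hvS]
  · rw [if_neg hvS, ordI_eq_zero_of_val550 hval, locFactor_zero550]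

end Fermat.Agent.LT.T7.H550

end

end
-- ===== PACK-END LT/T7/H550/TorusCore.lean

-- ===== PACK-BEGIN LT/T7/H546/Coset.lean
section



/-!
# Row LT, tower T7, leaf T7.14.6c.4a `CosetC568` (helper546)

OFF-MAIN.  Imports: Mathlib and the vendored byte-identical spec closure of
`LT/T7/H568/IdeleCoordSpec.lean` (helper568@fef45a303).

For a non-zero ideal `𝔞` prime to `S` the idele `z` with components `1` at the infinite places,
`y₀_v` at `v ∈ S` and `ϖ_v ^ ord_v 𝔞` at `v ∉ S` satisfies `rad (z y) = rad y` and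
`z y ∈ E_𝔞 ↔ y ∈ H`.
-/

set_option autoImplicit false
set_option linter.unusedSectionVars false
set_option linter.unusedVariables false

open AutomorphicForm IsDedekindDomain NumberField Filter Topology MeasureTheory
open scoped ComplexConjugate ENNReal

noncomputable section

namespace Fermat.Agent.LT.T7.H546

open Fermat.Agent.LT.H556 Fermat.Agent.LT.H556.A0 Fermat.Agent.LT.T7 Fermat.Agent.LT.T7.Rigid
open Fermat.Agent.LT.T7.H568

variable {K : Type} [Field K] [NumberField K]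

/-! ## Local uniformisers -/

/-- The multiplicity of `v` in `𝔞`. -/
def cnt546 (𝔞 : Ideal (𝓞 K)) (v : HeightOneSpectrum (𝓞 K)) : ℕ :=
  (Associates.mk v.asIdeal).count (Associates.mk 𝔞).factors

theorem exists_unif_h546 (v : HeightOneSpectrum (𝓞 K)) :
    ∃ π : v.adicCompletion K, Valued.v π = WithZero.exp (-1 : ℤ) := by
  obtain ⟨r, hr⟩ := v.valuation_exists_uniformizer' K
  refine ⟨algebraMap (𝓞 K) (v.adicCompletion K) r, ?_⟩
  exact (HeightOneSpectrum.valuedAdicCompletion_eq_valuation v r).trans hr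

/-- A uniformiser of `K_v`. -/
def unif546 (v : HeightOneSpectrum (𝓞 K)) : v.adicCompletion K :=
  Classical.choose (exists_unif_h546 v)

theorem unif_val_h546 (v : HeightOneSpectrum (𝓞 K)) :
    Valued.v (unif546 v) = WithZero.exp (-1 : ℤ) :=
  Classical.choose_spec (exists_unif_h546 v)

theorem unif_ne_zero_h546 (v : HeightOneSpectrum (𝓞 K)) : unif546 v ≠ 0 := by
  intro h
  have h1 := unif_val_h546 v
  rw [h, map_zero] at h1
  exact WithZero.exp_ne_zero h1.symm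

theorem unif_pow_val_h546 (v : HeightOneSpectrum (𝓞 K)) (n : ℕ) :
    Valued.v ((unif546 v) ^ n) = WithZero.exp (-(n : ℤ)) := by
  rw [map_pow, unif_val_h546, ← WithZero.exp_nsmul]
  congr 1
  simp

/-! ## The idele `z` -/

open Classical in
/-- The finite components of `z`. -/
def zF546 (S : Finset (HeightOneSpectrum (𝓞 K))) (y₀ : (Adl K)ˣ) (𝔞 : Ideal (𝓞 K)) :
    (v : HeightOneSpectrum (𝓞 K)) → v.adicCompletion K :=
  fun v => if v ∈ S then (y₀ : Adl K).2 v else (unif546 v) ^ (cnt546 𝔞 v)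

open Classical in
/-- The finite components of `z⁻¹`. -/
def zG546 (S : Finset (HeightOneSpectrum (𝓞 K))) (y₀ : (Adl K)ˣ) (𝔞 : Ideal (𝓞 K)) :
    (v : HeightOneSpectrum (𝓞 K)) → v.adicCompletion K :=
  fun v => if v ∈ S then ((y₀⁻¹ : (Adl K)ˣ) : Adl K).2 v else ((unif546 v) ^ (cnt546 𝔞 v))⁻¹

theorem unit_mul_inv_snd_h546 (y : (Adl K)ˣ) (v : HeightOneSpectrum (𝓞 K)) :
    (y : Adl K).2 v * ((y⁻¹ : (Adl K)ˣ) : Adl K).2 v = 1 := by
  have h1 : ((y : Adl K) * ((y⁻¹ : (Adl K)ˣ) : Adl K)).2 v = (1 : Adl K).2 v := by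
    rw [Units.mul_inv]
  exact h1

theorem zF_mul_zG_h546 (S : Finset (HeightOneSpectrum (𝓞 K))) (y₀ : (Adl K)ˣ)
    (𝔞 : Ideal (𝓞 K)) (v : HeightOneSpectrum (𝓞 K)) : zF546 S y₀ 𝔞 v * zG546 S y₀ 𝔞 v = 1 := by
  unfold zF546 zG546
  by_cases hv : v ∈ S
  · rw [if_pos hv, if_pos hv]
    exact unit_mul_inv_snd_h546 y₀ v
  · rw [if_neg hv, if_neg hv]
    exact mul_inv_cancel₀ (pow_ne_zero _ (unif_ne_zero_h546 v))

theorem zF_mem_h546 (S : Finset (HeightOneSpectrum (𝓞 K))) (y₀ : (Adl K)ˣ) (𝔞 : Ideal (𝓞 K)) :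
    ∀ᶠ v : HeightOneSpectrum (𝓞 K) in Filter.cofinite,
      zF546 S y₀ 𝔞 v ∈ (v.adicCompletionIntegers K : Set (v.adicCompletion K)) := by
  filter_upwards [S.finite_toSet.compl_mem_cofinite] with v hv
  have hvS : v ∉ S := by simpa using hv
  unfold zF546
  rw [if_neg hvS]
  show (unif546 v) ^ (cnt546 𝔞 v) ∈ v.adicCompletionIntegers K
  rw [HeightOneSpectrum.mem_adicCompletionIntegers, unif_pow_val_h546, ← WithZero.exp_zero,
    WithZero.exp_le_exp]
  omega

theorem zG_mem_h546 (S : Finset (HeightOneSpectrum (𝓞 K))) (y₀ : (Adl K)ˣ) {𝔞 : Ideal (𝓞 K)}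
    (h𝔞 : 𝔞 ≠ ⊥) :
    ∀ᶠ v : HeightOneSpectrum (𝓞 K) in Filter.cofinite,
      zG546 S y₀ 𝔞 v ∈ (v.adicCompletionIntegers K : Set (v.adicCompletion K)) := by
  have h1 := Associates.finite_factors (I := 𝔞) h𝔞
  filter_upwards [S.finite_toSet.compl_mem_cofinite, h1] with v hv hc
  have hvS : v ∉ S := by simpa using hv
  have hc0 : cnt546 𝔞 v = 0 := by
    unfold cnt546
    exact_mod_cast hc
  unfold zG546
  rw [if_neg hvS, hc0, pow_zero, inv_one]
  exact one_mem (v.adicCompletionIntegers K)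

/-- The idele `z`. -/
def zIdele546 (S : Finset (HeightOneSpectrum (𝓞 K))) (y₀ : (Adl K)ˣ) {𝔞 : Ideal (𝓞 K)}
    (h𝔞 : 𝔞 ≠ ⊥) : (Adl K)ˣ where
  val := ((1 : InfiniteAdeleRing K), RestrictedProduct.mk (zF546 S y₀ 𝔞) (zF_mem_h546 S y₀ 𝔞))
  inv := ((1 : InfiniteAdeleRing K), RestrictedProduct.mk (zG546 S y₀ 𝔞) (zG_mem_h546 S y₀ h𝔞))
  val_inv := by
    refine Prod.ext (mul_one _) (RestrictedProduct.ext _ _ fun v => ?_)
    exact zF_mul_zG_h546 S y₀ 𝔞 v
  inv_val := by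
    refine Prod.ext (mul_one _) (RestrictedProduct.ext _ _ fun v => ?_)
    exact (mul_comm _ _).trans (zF_mul_zG_h546 S y₀ 𝔞 v)

theorem zIdele_fst_h546 (S : Finset (HeightOneSpectrum (𝓞 K))) (y₀ : (Adl K)ˣ)
    {𝔞 : Ideal (𝓞 K)} (h𝔞 : 𝔞 ≠ ⊥) (w : InfinitePlace K) :
    ((zIdele546 S y₀ h𝔞 : (Adl K)ˣ) : Adl K).1 w = 1 := rfl

theorem zIdele_snd_h546 (S : Finset (HeightOneSpectrum (𝓞 K))) (y₀ : (Adl K)ˣ)
    {𝔞 : Ideal (𝓞 K)} (h𝔞 : 𝔞 ≠ ⊥) (v : HeightOneSpectrum (𝓞 K)) :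
    ((zIdele546 S y₀ h𝔞 : (Adl K)ˣ) : Adl K).2 v = zF546 S y₀ 𝔞 v := rfl

theorem mul_snd_h546 (a b : (Adl K)ˣ) (v : HeightOneSpectrum (𝓞 K)) :
    ((a * b : (Adl K)ˣ) : Adl K).2 v = (a : Adl K).2 v * (b : Adl K).2 v := rfl

theorem mul_fst_h546 (a b : (Adl K)ˣ) (w : InfinitePlace K) :
    ((a * b : (Adl K)ˣ) : Adl K).1 w = (a : Adl K).1 w * (b : Adl K).1 w := rfl

/-! ## Orders -/

theorem val_ne_zero_h546 (y : (Adl K)ˣ) (v : HeightOneSpectrum (𝓞 K)) :
    Valued.v ((y : Adl K).2 v) ≠ 0 :=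
  (Valuation.ne_zero_iff _).mpr (unit_snd_ne_zero568 y v)

theorem ordI_mul_h546 (v : HeightOneSpectrum (𝓞 K)) (a b : (Adl K)ˣ) :
    ordI v (a * b) = ordI v a + ordI v b := by
  unfold ordI
  rw [mul_snd_h546, map_mul, WithZero.log_mul (val_ne_zero_h546 a v) (val_ne_zero_h546 b v)]
  ring

theorem ordI_z_h546 (S : Finset (HeightOneSpectrum (𝓞 K))) (y₀ : (Adl K)ˣ)
    {𝔞 : Ideal (𝓞 K)} (h𝔞 : 𝔞 ≠ ⊥) {v : HeightOneSpectrum (𝓞 K)} (hv : v ∉ S) :
    ordI v (zIdele546 S y₀ h𝔞) = (cnt546 𝔞 v : ℤ) := by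
  unfold ordI
  rw [zIdele_snd_h546]
  unfold zF546
  rw [if_neg hv, unif_pow_val_h546, WithZero.log_exp, neg_neg]

/-- The order of an idele vanishes at almost all places. -/
theorem ordI_eventually_zero_h546 (y : (Adl K)ˣ) :
    ∀ᶠ v : HeightOneSpectrum (𝓞 K) in Filter.cofinite, ordI v y = 0 := by
  have h1 : ∀ᶠ v : HeightOneSpectrum (𝓞 K) in Filter.cofinite,
      (y : Adl K).2 v ∈ (v.adicCompletionIntegers K : Set (v.adicCompletion K)) :=
    ((y : Adl K).2).2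
  have h2 : ∀ᶠ v : HeightOneSpectrum (𝓞 K) in Filter.cofinite,
      ((y⁻¹ : (Adl K)ˣ) : Adl K).2 v ∈ (v.adicCompletionIntegers K : Set (v.adicCompletion K)) :=
    (((y⁻¹ : (Adl K)ˣ) : Adl K).2).2
  filter_upwards [h1, h2] with v hv1 hv2
  have e1 : Valued.v ((y : Adl K).2 v) ≤ 1 :=
    (HeightOneSpectrum.mem_adicCompletionIntegers (𝓞 K) K v).mp hv1
  have e2 : Valued.v (((y⁻¹ : (Adl K)ˣ) : Adl K).2 v) ≤ 1 :=
    (HeightOneSpectrum.mem_adicCompletionIntegers (𝓞 K) K v).mp hv2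
  have e3 : Valued.v ((y : Adl K).2 v) * Valued.v (((y⁻¹ : (Adl K)ˣ) : Adl K).2 v) = 1 := by
    rw [← map_mul, unit_mul_inv_snd_h546, map_one]
  have e4 : Valued.v ((y : Adl K).2 v) = 1 := by
    rcases lt_or_eq_of_le e1 with h | h
    · exfalso
      have : Valued.v ((y : Adl K).2 v) * Valued.v (((y⁻¹ : (Adl K)ˣ) : Adl K).2 v) < 1 := by
        calc Valued.v ((y : Adl K).2 v) * Valued.v (((y⁻¹ : (Adl K)ˣ) : Adl K).2 v)
            ≤ Valued.v ((y : Adl K).2 v) * 1 := mul_le_mul_right e2 _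
          _ = Valued.v ((y : Adl K).2 v) := mul_one _
          _ < 1 := h
      rw [e3] at this
      exact lt_irrefl _ this
    · exact h
  unfold ordI
  rw [e4, WithZero.log_one, neg_zero]

/-! ## The ideal of an idele -/

/-- The multiplicity of `v₀` in a finite product of prime powers. -/
theorem count_finprod_pow_h546 (e : HeightOneSpectrum (𝓞 K) → ℕ)
    (he : ∀ᶠ v : HeightOneSpectrum (𝓞 K) in Filter.cofinite, e v = 0)
    (v₀ : HeightOneSpectrum (𝓞 K)) :
    FractionalIdeal.count K v₀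
        (((∏ᶠ v : HeightOneSpectrum (𝓞 K), v.asIdeal ^ e v : Ideal (𝓞 K)) :
          FractionalIdeal (nonZeroDivisors (𝓞 K)) K))
      = (e v₀ : ℤ) := by
  rw [FractionalIdeal.coeIdeal_finprod (nonZeroDivisors (𝓞 K)) K le_rfl]
  have h1 : (fun v : HeightOneSpectrum (𝓞 K) =>
      ((v.asIdeal ^ e v : Ideal (𝓞 K)) : FractionalIdeal (nonZeroDivisors (𝓞 K)) K))
      = fun v => (v.asIdeal : FractionalIdeal (nonZeroDivisors (𝓞 K)) K) ^ ((e v : ℕ) : ℤ) := by
    funext v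
    rw [FractionalIdeal.coeIdeal_pow, zpow_natCast]
  rw [h1]
  exact FractionalIdeal.count_finprod K v₀ (fun v => ((e v : ℕ) : ℤ))
    (by filter_upwards [he] with v hv; simp [hv])

open Classical in
/-- The exponents of `idl568 S y`. -/
def expo546 (S : Finset (HeightOneSpectrum (𝓞 K))) (y : (Adl K)ˣ)
    (v : HeightOneSpectrum (𝓞 K)) : ℕ :=
  if v ∈ S then 0 else (ordI v y).toNat

theorem idl_eq_finprod_h546 (S : Finset (HeightOneSpectrum (𝓞 K))) (y : (Adl K)ˣ) :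
    idl568 S y = ∏ᶠ v : HeightOneSpectrum (𝓞 K), v.asIdeal ^ expo546 S y v := by
  unfold idl568
  apply finprod_congr
  intro v
  unfold expo546
  by_cases hv : v ∈ S
  · rw [if_pos hv, if_pos hv, pow_zero]
  · rw [if_neg hv, if_neg hv]

theorem expo_eventually_zero_h546 (S : Finset (HeightOneSpectrum (𝓞 K))) (y : (Adl K)ˣ) :
    ∀ᶠ v : HeightOneSpectrum (𝓞 K) in Filter.cofinite, expo546 S y v = 0 := by
  filter_upwards [ordI_eventually_zero_h546 y] with v hv
  unfold expo546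
  by_cases hvS : v ∈ S
  · rw [if_pos hvS]
  · rw [if_neg hvS, hv]
    rfl

theorem count_idl_h546 (S : Finset (HeightOneSpectrum (𝓞 K))) (y : (Adl K)ˣ)
    (v₀ : HeightOneSpectrum (𝓞 K)) :
    FractionalIdeal.count K v₀
        ((idl568 S y : Ideal (𝓞 K)) : FractionalIdeal (nonZeroDivisors (𝓞 K)) K)
      = (expo546 S y v₀ : ℤ) := by
  rw [idl_eq_finprod_h546]
  exact count_finprod_pow_h546 _ (expo_eventually_zero_h546 S y) v₀

theorem cnt_eq_zero_h546 {𝔞 : Ideal (𝓞 K)} (h𝔞 : 𝔞 ≠ ⊥) {v : HeightOneSpectrum (𝓞 K)}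
    (hv : ¬ 𝔞 ≤ v.asIdeal) : cnt546 𝔞 v = 0 := by
  unfold cnt546
  by_contra hne
  apply hv
  have hirr : Irreducible (Associates.mk v.asIdeal) := v.associates_irreducible
  have hdvd : Associates.mk v.asIdeal ∣ Associates.mk 𝔞 := by
    have h0 : Associates.mk 𝔞 ≠ 0 := Associates.mk_ne_zero.mpr h𝔞
    exact (Associates.le_of_count_ne_zero h0 hirr hne)
  rw [Associates.mk_dvd_mk] at hdvd
  exact Ideal.le_of_dvd hdvd

/-! ## The leaf -/

/-- **T7.14.6c.4a `CosetC568`.** -/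
theorem cosetC546 (K : Type) [Field K] [NumberField K] : CosetC568 K := by
  intro S 𝔪 y₀ _ 𝔞 hprime
  obtain ⟨h𝔞, hS⟩ := hprime
  refine ⟨zIdele546 S y₀ h𝔞, ?_, ?_⟩
  · intro y
    funext w
    unfold rad568
    rw [mul_fst_h546, zIdele_fst_h546, one_mul]
  · intro y
    have hcell : InCell S 𝔪 y₀ (zIdele546 S y₀ h𝔞 * y) ↔ InCell S 𝔪 1 y := by
      unfold InCell
      constructor
      · intro h v hv
        obtain ⟨u, hu, he⟩ := h v hv
        refine ⟨u, hu, ?_⟩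
        rw [mul_snd_h546, zIdele_snd_h546] at he
        unfold zF546 at he
        rw [if_pos hv] at he
        have h1 : ((1 : (Adl K)ˣ) : Adl K).2 v = 1 := rfl
        rw [h1, one_mul]
        exact mul_left_cancel₀ (unit_snd_ne_zero568 y₀ v) he
      · intro h v hv
        obtain ⟨u, hu, he⟩ := h v hv
        refine ⟨u, hu, ?_⟩
        have h1 : ((1 : (Adl K)ˣ) : Adl K).2 v = 1 := rfl
        rw [h1, one_mul] at he
        rw [mul_snd_h546, zIdele_snd_h546]
        unfold zF546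
        rw [if_pos hv, he]
    have hord : ∀ v : HeightOneSpectrum (𝓞 K), v ∉ S →
        ordI v (zIdele546 S y₀ h𝔞 * y) = (cnt546 𝔞 v : ℤ) + ordI v y := by
      intro v hv
      rw [ordI_mul_h546, ordI_z_h546 S y₀ h𝔞 hv]
    constructor
    · rintro ⟨⟨hc, hnn⟩, hidl⟩
      refine ⟨hcell.mp hc, fun v hv => ?_⟩
      have h1 := count_idl_h546 S (zIdele546 S y₀ h𝔞 * y) v
      rw [hidl, FractionalIdeal.count_coe K v h𝔞] at h1
      unfold expo546 at h1
      rw [if_neg hv] at h1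
      have h2 := hnn v hv
      have h3 : ((ordI v (zIdele546 S y₀ h𝔞 * y)).toNat : ℤ)
          = ordI v (zIdele546 S y₀ h𝔞 * y) := Int.toNat_of_nonneg h2
      have h4 := hord v hv
      have h5 : ((Associates.mk v.asIdeal).count (Associates.mk 𝔞).factors : ℤ)
          = (cnt546 𝔞 v : ℤ) := rfl
      omega
    · rintro ⟨hc, hz⟩
      refine ⟨⟨hcell.mpr hc, fun v hv => ?_⟩, ?_⟩
      · rw [hord v hv, hz v hv]
        omega
      · rw [idl_eq_finprod_h546]
        refine Eq.trans ?_ (Ideal.finprod_heightOneSpectrum_factorization h𝔞)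
        apply finprod_congr
        intro v
        unfold HeightOneSpectrum.maxPowDividing expo546
        by_cases hv : v ∈ S
        · rw [if_pos hv]
          have h0 := cnt_eq_zero_h546 h𝔞 (hS v hv)
          unfold cnt546 at h0
          rw [h0]
        · rw [if_neg hv, hord v hv, hz v hv, add_zero, Int.toNat_natCast]
          rfl

end Fermat.Agent.LT.T7.H546

end

end
-- ===== PACK-END LT/T7/H546/Coset.lean

-- ===== PACK-BEGIN LT/T7/H671/LimPrim.lean
section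





/-!
# Row LT, tower T7, leaf `CountLimC`: the node `PrimC` (single class) (helper671)

OFF-MAIN.  No `sorry`, nothing assumed.

`primC_of671 : CovolC K → LocalIdeleC K → SieveIdC K → TailC K → PlaceSumC K → PrimC K`:
the sieve (`Sieve.lean`) applied to the lattices `latG671 (h · E_T⁻¹)`, counted in the cone by
`tendsto_card_pairCone671` (`ConeCount.lean`), with
`κ₀ = vol(body) / (c₀ N𝔪) · ∏_{v ∣ 𝔪} (1 - N v⁻¹) ∏_{v ∤ 𝔪} (1 - N v⁻²)`.
-/

set_option autoImplicit false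

open AutomorphicForm IsDedekindDomain NumberField Filter Topology MeasureTheory
open NumberField.mixedEmbedding NumberField.InfinitePlace Module
open scoped Pointwise

noncomputable section

namespace Fermat.Agent.LT.T7.H671

open Fermat.Agent.LT.H556 Fermat.Agent.LT.H556.A0 Fermat.Agent.LT.T7 Fermat.Agent.LT.T7.Rigid

variable {K : Type} [Field K] [NumberField K]

/-! ## Finiteness -/

theorem coneLe_subset671 {B : ℝ} (hB : 0 < B) :
    {p : Pair671 K | p ∈ pairCone671 K ∧ pairGauge671 p ≤ B}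
      ⊆ (B ^ ((finrank ℚ K : ℝ)⁻¹)) • pairBody671 K := by
  intro p hp
  have hd : 0 < finrank ℚ K := finrank_pos
  set t : ℝ := B ^ ((finrank ℚ K : ℝ)⁻¹) with ht
  have htpos : 0 < t := Real.rpow_pos_of_pos hB _
  have htd : t ^ finrank ℚ K = B := by
    have hd0 : ((finrank ℚ K : ℕ) : ℝ) ≠ 0 := by exact_mod_cast hd.ne'
    rw [ht, ← Real.rpow_natCast, ← Real.rpow_mul hB.le, inv_mul_cancel₀ hd0, Real.rpow_one]
  refine ⟨t⁻¹ • p, ⟨smul_mem_pairCone671 hp.1 (inv_pos.mpr htpos), ?_⟩, ?_⟩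
  · rw [pairGauge671_smul, abs_of_pos (inv_pos.mpr htpos), inv_pow, htd]
    have h1 : B⁻¹ * pairGauge671 p ≤ 1 := by
      rw [inv_mul_le_iff₀ hB, mul_one]
      exact hp.2
    have h0 : 0 ≤ B⁻¹ * pairGauge671 p := mul_nonneg (inv_pos.mpr hB).le (pairGauge671_nonneg p)
    exact pow_le_one₀ h0 h1
  · show t • (t⁻¹ • p) = p
    rw [smul_smul, mul_inv_cancel₀ htpos.ne', one_smul]

open scoped Classical in
theorem coneLe_isBounded671 (B : ℝ) :
    Bornology.IsBounded {p : Pair671 K | p ∈ pairCone671 K ∧ pairGauge671 p ≤ B} := by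
  rcases le_or_gt B 0 with hB | hB
  · have : {p : Pair671 K | p ∈ pairCone671 K ∧ pairGauge671 p ≤ B} = ∅ := by
      ext p
      simp only [Set.mem_ofPred_eq, Set.mem_empty_iff_false, iff_false, not_and, not_le]
      intro hp
      have h1 := pairGauge671_ne_zero_of_mem_cone hp
      have h2 := pairGauge671_nonneg p
      exact lt_of_le_of_lt hB (lt_of_le_of_ne h2 (Ne.symm h1))
    rw [this]
    exact Bornology.isBounded_empty
  · have h1 : Bornology.IsBounded ((B ^ ((finrank ℚ K : ℝ)⁻¹)) • pairBody671 K) :=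
      (isBounded_pairBody671 K).smul₀ (B ^ ((finrank ℚ K : ℝ)⁻¹))
    exact h1.subset (coneLe_subset671 hB)

open scoped Classical in
theorem coneLat_finite671 (L : Submodule ℤ (Pair671 K)) [DiscreteTopology L] (B : ℝ) :
    {p : Pair671 K | p ∈ pairCone671 K ∧ pairGauge671 p ≤ B ∧ p ∈ L}.Finite := by
  have hclosed : IsClosed (L : Set (Pair671 K)) := by
    have : IsClosed (L.toAddSubgroup : Set (Pair671 K)) := AddSubgroup.isClosed_of_discrete
    exact this
  have hdisc : IsDiscrete (L : Set (Pair671 K)) := by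
    have h : DiscreteTopology (L : Set (Pair671 K)) := ‹DiscreteTopology L›
    exact ⟨h⟩
  refine (Metric.finite_isBounded_inter_isClosed hdisc (coneLe_isBounded671 B) hclosed).subset ?_
  intro p hp
  exact ⟨⟨hp.1, hp.2.1⟩, hp.2.2⟩

/-! ## Norms of the sieve ideles -/

/-- `finNormI671` as a monoid homomorphism. -/
def finNormHom671 : (FiniteAdeleRing (𝓞 K) K)ˣ →* ℝ where
  toFun := finNormI671
  map_one' := finNormI671_one
  map_mul' := finNormI671_mul

theorem finNormI671_prod {ι : Type*} (s : Finset ι) (f : ι → (FiniteAdeleRing (𝓞 K) K)ˣ) :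
    finNormI671 (∏ i ∈ s, f i) = ∏ i ∈ s, finNormI671 (f i) :=
  map_prod (finNormHom671 (K := K)) f s

theorem finNormI671_unif {ϖ : HeightOneSpectrum (𝓞 K) → (FiniteAdeleRing (𝓞 K) K)ˣ}
    (hϖ : IsUnifFamily671 ϖ) (v : HeightOneSpectrum (𝓞 K)) :
    finNormI671 (ϖ v) = ((Ideal.absNorm v.asIdeal : ℕ) : ℝ)⁻¹ := by
  unfold finNormI671
  rw [finprod_eq_single _ v, (hϖ v).1]
  intro u hu
  rw [(hϖ v).2 u hu, norm_one]

theorem absNorm_pos671 (v : HeightOneSpectrum (𝓞 K)) :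
    (1 : ℝ) < ((Ideal.absNorm v.asIdeal : ℕ) : ℝ) := by
  exact_mod_cast NumberField.HeightOneSpectrum.one_lt_absNorm v

theorem betaS671_pos (𝔪 : Ideal (𝓞 K)) (v : HeightOneSpectrum (𝓞 K)) : 0 < betaS671 𝔪 v := by
  have h := absNorm_pos671 v
  unfold betaS671
  split_ifs <;> positivity

theorem betaS671_lt_one (𝔪 : Ideal (𝓞 K)) (v : HeightOneSpectrum (𝓞 K)) : betaS671 𝔪 v < 1 := by
  have h := absNorm_pos671 v
  have h1 : ((Ideal.absNorm v.asIdeal : ℕ) : ℝ)⁻¹ < 1 := inv_lt_one_of_one_lt₀ h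
  have h0 : 0 < ((Ideal.absNorm v.asIdeal : ℕ) : ℝ)⁻¹ := by positivity
  unfold betaS671
  split_ifs
  · exact h1
  · calc (((Ideal.absNorm v.asIdeal : ℕ) : ℝ)⁻¹) ^ 2
        < 1 ^ 2 := by gcongr
      _ = 1 := one_pow 2

theorem summable_betaS671 (hP : PlaceSumC K) {𝔪 : Ideal (𝓞 K)} (h𝔪 : 𝔪 ≠ ⊥) :
    Summable (betaS671 𝔪) := by
  classical
  have h2 : Summable fun v : HeightOneSpectrum (𝓞 K) => nv v ^ (-(2 : ℝ)) := hP 2 (by norm_num)
  have hfin : {v : HeightOneSpectrum (𝓞 K) | v.asIdeal ∣ 𝔪}.Finite := Ideal.finite_factors h𝔪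
  have hdiff : Summable fun v : HeightOneSpectrum (𝓞 K) =>
      betaS671 𝔪 v - nv v ^ (-(2 : ℝ)) := by
    refine summable_of_ne_finset_zero (s := hfin.toFinset) fun v hv => ?_
    rw [Set.Finite.mem_toFinset, Set.mem_ofPred_eq] at hv
    unfold betaS671 nv
    rw [if_neg hv, Real.rpow_neg (Nat.cast_nonneg _), Real.rpow_two, inv_pow, sub_self]
  have := hdiff.add h2
  refine this.congr fun v => ?_
  ring

theorem finNorm_sieve671 {𝔪 : Ideal (𝓞 K)} {μ : (FiniteAdeleRing (𝓞 K) K)ˣ}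
    {ϖ : HeightOneSpectrum (𝓞 K) → (FiniteAdeleRing (𝓞 K) K)ˣ}
    (hμ : IsLevelIdele671 𝔪 μ) (hϖ : IsUnifFamily671 ϖ)
    (T : Finset (HeightOneSpectrum (𝓞 K))) :
    finNormI671 (eA671 𝔪 μ ϖ T) * finNormI671 (eB671 ϖ T)
      = ((Ideal.absNorm 𝔪 : ℕ) : ℝ) * ∏ v ∈ T, (betaS671 𝔪 v)⁻¹ := by
  classical
  unfold eA671 eB671
  rw [finNormI671_mul, finNormI671_inv, hμ.2.2.2, inv_inv, finNormI671_prod, finNormI671_prod,
    Finset.prod_filter, mul_assoc, ← Finset.prod_mul_distrib]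
  congr 1
  refine Finset.prod_congr rfl fun v _ => ?_
  rw [finNormI671_inv, finNormI671_unif hϖ, inv_inv]
  unfold betaS671
  by_cases hv : v.asIdeal ∣ 𝔪
  · rw [if_neg (not_not.mpr hv), if_pos hv, one_mul, inv_inv]
  · rw [if_pos hv, if_neg hv, inv_pow, inv_inv, sq]

/-! ## The lattices of the sieve -/

theorem mem_latG_mul_dgF671 {h : G K} {a b : (FiniteAdeleRing (𝓞 K) K)ˣ} {p : Pair671 K} :
    p ∈ latG671 (h * dgF671 a b)
      ↔ ∃ ξ : Fin 2 → K, IsIntRow671 (rowDg671 a b (rowOf ξ h)) ∧ pairOf671 (rowOf ξ h) = p := by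
  rw [mem_latG671]
  constructor
  · rintro ⟨ξ, h1, h2⟩
    rw [rowOf_mul_dgF671] at h1
    rw [pairOf671_rowOf_mul_dgF] at h2
    exact ⟨ξ, h1, h2⟩
  · rintro ⟨ξ, h1, h2⟩
    refine ⟨ξ, ?_, ?_⟩
    · rw [rowOf_mul_dgF671]
      exact h1
    · rw [pairOf671_rowOf_mul_dgF]
      exact h2

/-- The sieve matrix `E_T⁻¹ diag(μ,1)⁻¹`. -/
def eMat671 (𝔪 : Ideal (𝓞 K)) (μ : (FiniteAdeleRing (𝓞 K) K)ˣ)
    (ϖ : HeightOneSpectrum (𝓞 K) → (FiniteAdeleRing (𝓞 K) K)ˣ)
    (T : Finset (HeightOneSpectrum (𝓞 K))) : G K :=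
  dgF671 (eA671 𝔪 μ ϖ T) (eB671 ϖ T)

section Sieve

variable {𝔪 : Ideal (𝓞 K)} {μ : (FiniteAdeleRing (𝓞 K) K)ˣ}
  {ϖ : HeightOneSpectrum (𝓞 K) → (FiniteAdeleRing (𝓞 K) K)ˣ}

theorem mem_latG_eMat_iff671 (hS : SieveIdC K) (h𝔪 : 𝔪 ≠ ⊥) (hμ : IsLevelIdele671 𝔪 μ)
    (hϖ : IsUnifFamily671 ϖ) (h : G K) (T : Finset (HeightOneSpectrum (𝓞 K))) (p : Pair671 K) :
    p ∈ latG671 (h * eMat671 𝔪 μ ϖ T)
      ↔ p ∈ latG671 (h * eMat671 𝔪 μ ϖ ∅) ∧ ∀ v ∈ T, p ∈ latG671 (h * eMat671 𝔪 μ ϖ {v}) := by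
  unfold eMat671
  simp only [mem_latG_mul_dgF671]
  constructor
  · rintro ⟨ξ, h1, h2⟩
    have := ((hS 𝔪 h𝔪 μ ϖ hμ hϖ (rowOf ξ h)).2 T).mp h1
    exact ⟨⟨ξ, this.1, h2⟩, fun v hv => ⟨ξ, this.2 v hv, h2⟩⟩
  · rintro ⟨⟨ξ, h1, h2⟩, h3⟩
    refine ⟨ξ, ((hS 𝔪 h𝔪 μ ϖ hμ hϖ (rowOf ξ h)).2 T).mpr ⟨h1, fun v hv => ?_⟩, h2⟩
    obtain ⟨ξ', h4, h5⟩ := h3 v hv
    have : ξ' = ξ := pairOf_rowOf_injective671 h (h5.trans h2.symm)
    rw [← this]
    exact h4

theorem prim_iff_sieve671 (hS : SieveIdC K) (h𝔪 : 𝔪 ≠ ⊥) (hμ : IsLevelIdele671 𝔪 μ)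
    (hϖ : IsUnifFamily671 ϖ) (h : G K) (p : Pair671 K) :
    (∃ ξ : Fin 2 → K, pairOf671 (rowOf ξ h) = p ∧ IsPrimRow671 (rowOf ξ h) ∧
        Cong671 𝔪 (rowOf ξ h))
      ↔ p ∈ latG671 (h * eMat671 𝔪 μ ϖ ∅) ∧ ∀ v, p ∉ latG671 (h * eMat671 𝔪 μ ϖ {v}) := by
  unfold eMat671
  simp only [mem_latG_mul_dgF671]
  constructor
  · rintro ⟨ξ, h1, h2, h3⟩
    have hkey := (hS 𝔪 h𝔪 μ ϖ hμ hϖ (rowOf ξ h)).1.mp ⟨h2, h3⟩
    refine ⟨⟨ξ, hkey.1, h1⟩, fun v => ?_⟩
    rintro ⟨ξ', h4, h5⟩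
    have hξ : ξ' = ξ := pairOf_rowOf_injective671 h (h5.trans h1.symm)
    rw [hξ] at h4
    exact hkey.2 v h4
  · rintro ⟨⟨ξ, h1, h2⟩, h3⟩
    have := (hS 𝔪 h𝔪 μ ϖ hμ hϖ (rowOf ξ h)).1.mpr ⟨h1, fun v hv => h3 v ⟨ξ, hv, h2⟩⟩
    exact ⟨ξ, h2, this.1, this.2⟩

theorem eMat671_singleton_of_not_dvd {v : HeightOneSpectrum (𝓞 K)} (hv : ¬ v.asIdeal ∣ 𝔪) :
    eMat671 𝔪 μ ϖ {v} = eMat671 𝔪 μ ϖ ∅ * scF671 (ϖ v)⁻¹ := by
  classical
  unfold eMat671 scF671
  rw [dgF671_mul]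
  congr 1
  · unfold eA671
    rw [Finset.filter_singleton, if_pos hv, Finset.prod_singleton, Finset.filter_empty,
      Finset.prod_empty, mul_one]
  · unfold eB671
    rw [Finset.prod_singleton, Finset.prod_empty, one_mul]

end Sieve

/-! ## The node -/

theorem ncard_coneLat_eq671 (B : ℝ) (g : G K) :
    (Nat.card {x : Pair671 K // x ∈ pairCone671 K ∧ pairGauge671 x ≤ B ∧ x ∈ latG671 g} : ℝ)
      = ((coneLat671 B g).ncard : ℝ) := by
  rw [← Nat.card_coe_set_eq]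
  rfl

open scoped Classical in
/-- **NODE PRIM.** -/
theorem primC_of671 (hC : CovolC K) (hLI : LocalIdeleC K) (hS : SieveIdC K) (hT : TailC K)
    (hP : PlaceSumC K) : PrimC K := by
  intro 𝔪 h𝔪
  obtain ⟨μ, hμ⟩ := hLI.1 𝔪 h𝔪
  obtain ⟨ϖ, hϖ⟩ := hLI.2
  obtain ⟨c₀, hc₀, hcov⟩ := hC
  have hβ0 : ∀ v, 0 ≤ betaS671 𝔪 v := fun v => (betaS671_pos 𝔪 v).le
  have hβ1 : ∀ v, betaS671 𝔪 v < 1 := betaS671_lt_one 𝔪
  have hβs := summable_betaS671 hP h𝔪
  obtain ⟨L, -, hL⟩ := exists_prod_limit671 hβ0 (fun v => (hβ1 v).le)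
  have hLpos : 0 < L := prod_limit_pos671 hβ0 hβ1 hβs hL
  set V : ℝ := (volume (pairBody671 K)).toReal with hVdef
  have hV : 0 < V :=
    ENNReal.toReal_pos (volume_pairBody671_pos K).ne' (volume_pairBody671_lt_top K).ne
  have hN : (0 : ℝ) < ((Ideal.absNorm 𝔪 : ℕ) : ℝ) := by
    have : Ideal.absNorm 𝔪 ≠ 0 := fun h0 => h𝔪 (Ideal.absNorm_eq_zero_iff.mp h0)
    exact_mod_cast Nat.pos_of_ne_zero this
  refine ⟨V / (c₀ * ((Ideal.absNorm 𝔪 : ℕ) : ℝ)) * L, by positivity, fun h => ?_⟩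
  set D : ℝ := Fermat.Agent.LT.T5.adNorm (Matrix.det (h : Matrix (Fin 2) (Fin 2) (Adl K)))
    with hDdef
  have hD : 0 < D := adNorm_det_pos671 h
  -- the sieve data
  set X : Set (Pair671 K) := {p | p ∈ pairCone671 K ∧ p ∈ latG671 (h * eMat671 𝔪 μ ϖ ∅)} with hX
  set A : HeightOneSpectrum (𝓞 K) → Set (Pair671 K) :=
    fun v => (latG671 (h * eMat671 𝔪 μ ϖ {v}) : Set (Pair671 K)) with hA
  have hsv : ∀ (B : ℝ) (T : Finset (HeightOneSpectrum (𝓞 K))),
      sv671 X pairGauge671 A B T ∅ = coneLat671 B (h * eMat671 𝔪 μ ϖ T) := by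
    intro B T
    ext p
    unfold sv671 coneLat671
    simp only [Set.mem_ofPred_eq, hX, hA, Finset.notMem_empty, false_imp_iff, implies_true,
      and_true, SetLike.mem_coe]
    rw [mem_latG_eMat_iff671 hS h𝔪 hμ hϖ h T p]
    tauto
  have hall : ∀ B : ℝ, svAll671 X pairGauge671 A B = primSet671 𝔪 B h := by
    intro B
    ext p
    unfold svAll671 primSet671
    simp only [Set.mem_ofPred_eq, hX, hA, SetLike.mem_coe]
    rw [prim_iff_sieve671 hS h𝔪 hμ hϖ h p]
    tauto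
  have hfinT : ∀ (B : ℝ) (T : Finset (HeightOneSpectrum (𝓞 K))),
      (coneLat671 B (h * eMat671 𝔪 μ ϖ T)).Finite := by
    intro B T
    obtain ⟨hd, -, -⟩ := hcov (h * eMat671 𝔪 μ ϖ T)
    exact coneLat_finite671 (latG671 (h * eMat671 𝔪 μ ϖ T)) B
  have hfin : ∀ B : ℝ, {x | x ∈ X ∧ pairGauge671 x ≤ B}.Finite := by
    intro B
    refine (hfinT B ∅).subset ?_
    intro p hp
    exact ⟨hp.1.1, hp.2, hp.1.2⟩
  -- the limits
  have hlim : ∀ T : Finset (HeightOneSpectrum (𝓞 K)), Tendsto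
      (fun B : ℝ => ((sv671 X pairGauge671 A B T ∅).ncard : ℝ) / B ^ 2) atTop
      (𝓝 (V / (c₀ * ((Ideal.absNorm 𝔪 : ℕ) : ℝ) * D) * ∏ v ∈ T, betaS671 𝔪 v)) := by
    intro T
    obtain ⟨hd, hz, hcovT⟩ := hcov (h * eMat671 𝔪 μ ϖ T)
    have hmain := tendsto_card_pairCone671 (latG671 (h * eMat671 𝔪 μ ϖ T))
    simp only [ncard_coneLat_eq671] at hmain
    simp only [hsv]
    have hval : (volume (pairBody671 K)).toReal
          / ZLattice.covolume (latG671 (h * eMat671 𝔪 μ ϖ T)) volume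
        = V / (c₀ * ((Ideal.absNorm 𝔪 : ℕ) : ℝ) * D) * ∏ v ∈ T, betaS671 𝔪 v := by
      rw [hcovT]
      unfold eMat671
      rw [adNorm_det_mul_dgF671, mul_assoc D, finNorm_sieve671 hμ hϖ T, Finset.prod_inv_distrib]
      have hprod : 0 < ∏ v ∈ T, betaS671 𝔪 v := Finset.prod_pos fun v _ => betaS671_pos 𝔪 v
      rw [← hVdef]
      field_simp
    rw [hval] at hmain
    exact hmain
  -- the tail
  obtain ⟨C, hCb⟩ := hT (h * eMat671 𝔪 μ ϖ ∅)
  have hC0 : 0 ≤ C := by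
    have h1 := hCb 1 1
    rw [finNormI671_one] at h1
    have h2 : (0 : ℝ) ≤ ((coneLat671 1 (h * eMat671 𝔪 μ ϖ ∅ * scF671 (1 : _)⁻¹)).ncard : ℝ) :=
      Nat.cast_nonneg _
    linarith
  set δ : HeightOneSpectrum (𝓞 K) → ℝ :=
    fun v => if v.asIdeal ∣ 𝔪 then C else C * betaS671 𝔪 v with hδdef
  have hδ0 : ∀ v, 0 ≤ δ v := by
    intro v
    simp only [hδdef]
    split_ifs
    · exact hC0
    · exact mul_nonneg hC0 (hβ0 v)
  have hδ : Summable δ := by
    have hfinm : {v : HeightOneSpectrum (𝓞 K) | v.asIdeal ∣ 𝔪}.Finite := Ideal.finite_factors h𝔪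
    have hdiff : Summable fun v : HeightOneSpectrum (𝓞 K) => δ v - C * betaS671 𝔪 v := by
      refine summable_of_ne_finset_zero (s := hfinm.toFinset) fun v hv => ?_
      rw [Set.Finite.mem_toFinset, Set.mem_ofPred_eq] at hv
      simp only [hδdef]
      rw [if_neg hv, sub_self]
    have := hdiff.add (hβs.mul_left C)
    refine this.congr fun v => ?_
    ring
  have htail : ∀ (v : HeightOneSpectrum (𝓞 K)) (B : ℝ),
      ((sv671 X pairGauge671 A B {v} ∅).ncard : ℝ) ≤ δ v * B ^ 2 := by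
    intro v B
    rw [hsv]
    by_cases hv : v.asIdeal ∣ 𝔪
    · have hsub : coneLat671 B (h * eMat671 𝔪 μ ϖ {v}) ⊆ coneLat671 B (h * eMat671 𝔪 μ ϖ ∅) := by
        intro p hp
        exact ⟨hp.1, hp.2.1, ((mem_latG_eMat_iff671 hS h𝔪 hμ hϖ h {v} p).mp hp.2.2).1⟩
      have h1 : ((coneLat671 B (h * eMat671 𝔪 μ ϖ {v})).ncard : ℝ)
          ≤ ((coneLat671 B (h * eMat671 𝔪 μ ϖ ∅)).ncard : ℝ) := by
        exact_mod_cast Set.ncard_le_ncard hsub (hfinT B ∅)
      have h2 := hCb 1 B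
      rw [inv_one, scF671_one, mul_one, finNormI671_one] at h2
      simp only [hδdef]
      rw [if_pos hv]
      calc ((coneLat671 B (h * eMat671 𝔪 μ ϖ {v})).ncard : ℝ)
          ≤ ((coneLat671 B (h * eMat671 𝔪 μ ϖ ∅)).ncard : ℝ) := h1
        _ ≤ C * B ^ 2 * 1 ^ 2 := h2
        _ = C * B ^ 2 := by ring
    · have h2 := hCb (ϖ v) B
      rw [mul_assoc, ← eMat671_singleton_of_not_dvd hv, finNormI671_unif hϖ] at h2
      simp only [hδdef]
      rw [if_neg hv]
      unfold betaS671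
      rw [if_neg hv]
      calc ((coneLat671 B (h * eMat671 𝔪 μ ϖ {v})).ncard : ℝ)
          ≤ C * B ^ 2 * (((Ideal.absNorm v.asIdeal : ℕ) : ℝ)⁻¹) ^ 2 := h2
        _ = C * (((Ideal.absNorm v.asIdeal : ℕ) : ℝ)⁻¹) ^ 2 * B ^ 2 := by ring
  have hres := sieve_tendsto671 hfin hlim hδ hδ0 htail hL
  simp only [hall] at hres
  have hfinal : V / (c₀ * ((Ideal.absNorm 𝔪 : ℕ) : ℝ) * D) * L
      = V / (c₀ * ((Ideal.absNorm 𝔪 : ℕ) : ℝ)) * L / D := by
    field_simp
  rw [hfinal] at hres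
  exact hres

end Fermat.Agent.LT.T7.H671

end

end
-- ===== PACK-END LT/T7/H671/LimPrim.lean

-- ===== PACK-BEGIN LT/T7/H683/TorusLevel.lean
section



/-!
# Row LT, tower T7, node T7.14 `RigidC`, level 5: LEAF `TorusAsmC`, part 2 (helper683)

OFF-MAIN.  The torus elements `dgA u` of the unit ideles outside `S` are in every level group
`U(𝔪)`, `𝔪` supported in `S`; the Whittaker function is right invariant under them.
Complete proofs.
-/

set_option autoImplicit false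

open AutomorphicForm IsDedekindDomain NumberField Filter Topology MeasureTheory
open scoped ComplexConjugate

noncomputable section

namespace Fermat.Agent.LT.T7.H683

open Fermat.Agent.LT.H556 Fermat.Agent.LT.H556.A0 Fermat.Agent.LT.T7 Fermat.Agent.LT.T7.Rigid
open Fermat.Agent.LT.T1.H793 Fermat.Agent.LT.T2.H566

variable {K : Type} [Field K] [NumberField K]

/-! ## The torus -/

theorem dgA_val683 (y : (Adl K)ˣ) :
    ((dgA y : G K) : Matrix (Fin 2) (Fin 2) (Adl K)) = !![(y : Adl K), 0; 0, 1] := rfl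

theorem dgA_mul683 (y y' : (Adl K)ˣ) : dgA (y * y') = dgA y * dgA y' := by
  apply Units.ext
  rw [Units.val_mul, dgA_val683, dgA_val683, dgA_val683]
  ext i j
  fin_cases i <;> fin_cases j <;> simp [Matrix.mul_apply, Fin.sum_univ_two]

theorem dgA_inv683 (y : (Adl K)ˣ) : (dgA y)⁻¹ = dgA y⁻¹ := Units.ext rfl

/-- The unit ideles outside `S`: components `1` at the infinite places and at the places of `S`,
units at the other finite places. -/
def IsUnitOff683 (S : Finset (HeightOneSpectrum (𝓞 K))) (u : (Adl K)ˣ) : Prop :=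
  (∀ w : InfinitePlace K, (u : Adl K).1 w = 1) ∧
    (∀ v ∈ S, (u : Adl K).2 v = 1) ∧
    ∀ v : HeightOneSpectrum (𝓞 K), v ∉ S → Valued.v ((u : Adl K).2 v) = 1

theorem IsUnitOff683.inv {S : Finset (HeightOneSpectrum (𝓞 K))} {u : (Adl K)ˣ}
    (hu : IsUnitOff683 S u) : IsUnitOff683 S u⁻¹ := by
  refine ⟨fun w => ?_, fun v hv => ?_, fun v hv => ?_⟩
  · rw [inf_inv683, hu.1 w, inv_one]
  · rw [fin_inv683, hu.2.1 v hv, inv_one]
  · rw [fin_inv683, map_inv₀, hu.2.2 v hv, inv_one]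

theorem finComp_dgA_sub_one683 {𝔪 : Ideal (𝓞 K)} {S : Finset (HeightOneSpectrum (𝓞 K))}
    (hsupp : ∀ v : HeightOneSpectrum (𝓞 K), v.asIdeal ∣ 𝔪 → v ∈ S) {u : (Adl K)ˣ}
    (hu : IsUnitOff683 S u) (v : HeightOneSpectrum (𝓞 K)) (i j : Fin 2) :
    (finComp v (dgA u) - 1) i j ∈ idealClosure 𝔪 v := by
  have h00 : (u : Adl K).2 v - 1 ∈ idealClosure 𝔪 v := by
    by_cases hv : v ∈ S
    · rw [hu.2.1 v hv, sub_self]
      exact zero_mem_idealClosure566 𝔪 v
    · refine integers_subset_idealClosure566 𝔪 v (fun h => hv (hsupp v h)) ?_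
      rw [HeightOneSpectrum.mem_adicCompletionIntegers]
      refine (Valuation.map_sub _ _ _).trans ?_
      rw [hu.2.2 v hv, map_one, max_self]
  have h0 : (0 : v.adicCompletion K) ∈ idealClosure 𝔪 v := zero_mem_idealClosure566 𝔪 v
  have hz : ((0 : Adl K)).2 v = 0 := rfl
  have ho : ((1 : Adl K)).2 v = 1 := rfl
  fin_cases i <;> fin_cases j
  · simpa [finComp, dgA_val683] using h00
  · simpa [finComp, dgA_val683, hz] using h0
  · simpa [finComp, dgA_val683, hz] using h0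
  · simpa [finComp, dgA_val683, ho] using h0

theorem inLevelGroup_dgA683 {𝔪 : Ideal (𝓞 K)} {S : Finset (HeightOneSpectrum (𝓞 K))}
    (hsupp : ∀ v : HeightOneSpectrum (𝓞 K), v.asIdeal ∣ 𝔪 → v ∈ S) {u : (Adl K)ˣ}
    (hu : IsUnitOff683 S u) : InLevelGroup 𝔪 (dgA u) := by
  refine ⟨fun w i j => ?_, fun v i j => ⟨finComp_dgA_sub_one683 hsupp hu v i j, ?_⟩⟩
  · have hz : ((0 : Adl K)).1 w = 0 := rfl
    have ho : ((1 : Adl K)).1 w = 1 := rfl
    fin_cases i <;> fin_cases j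
    · simpa [dgA_val683] using hu.1 w
    · simp [dgA_val683, hz]
    · simp [dgA_val683, hz]
    · simp [dgA_val683, ho]
  · rw [dgA_inv683]
    exact finComp_dgA_sub_one683 hsupp hu.inv v i j

/-! ## The Whittaker function -/

theorem whit_mul_right683 {m : MeasurableSpace (Adl K)} (ψ : AddChar (Adl K) Circle)
    (ν : Measure (Adl K)) (D : Set (Adl K)) {φ : G K → ℂ} {u : G K}
    (hu : ∀ g : G K, φ (g * u) = φ g) (g : G K) :
    whit ψ ν D φ (g * u) = whit ψ ν D φ g := by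
  unfold whit
  refine congrArg (fun F : Adl K → ℂ => ∫ x in D, F x ∂ν) ?_
  funext x
  rw [← mul_assoc, hu]

/-- The Whittaker function of an `S`-form on the torus is invariant under the unit ideles
outside `S`. -/
theorem whit_dgA_unit683 {m : MeasurableSpace (Adl K)} (ψ : AddChar (Adl K) Circle)
    (ν : Measure (Adl K)) (D : Set (Adl K)) {π : HeckeEigensystem K ℂ}
    {S : Finset (HeightOneSpectrum (𝓞 K))} {φ : G K → ℂ} (hφ : IsSForm π S φ)
    {u : (Adl K)ˣ} (hu : IsUnitOff683 S u) (y : (Adl K)ˣ) :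
    whit ψ ν D φ (dgA (y * u)) = whit ψ ν D φ (dgA y) := by
  obtain ⟨𝔪, -, hsupp, hinv⟩ := hφ.level_inv
  rw [dgA_mul683]
  exact whit_mul_right683 ψ ν D (hinv (dgA u) (inLevelGroup_dgA683 hsupp hu)) (dgA y)

end Fermat.Agent.LT.T7.H683

end

end
-- ===== PACK-END LT/T7/H683/TorusLevel.lean

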