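import Mathlib
import Fermat.Agent.Pack.LT2.E17L1
import Fermat.Agent.Pack.LT2.E14L3
import Fermat.Agent.Pack.LT2.E16L2
import Fermat.Agent.Pack.LT2.E16L1
import Fermat.Agent.Pack.LT2.E16L3
import Fermat.Agent.Pack.LT2.E6L0
import Fermat.Agent.Pack.LT2.E0L2
import Fermat.Agent.Pack.LT2.E2L1
import Fermat.Agent.Pack.LT2.E5L3
import Fermat.Agent.Pack.LT2.E6L1
import Fermat.Agent.Pack.LT2.E8L2
import Fermat.Agent.Pack.LT2.E10L0
import Fermat.Agent.Pack.LT2.E11L0
import Fermat.Agent.Pack.LT2.E13L1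
import Fermat.Agent.Pack.LT2.E14L0
import Fermat.Agent.Pack.LT2.E11L3
import Fermat.Agent.Pack.LT2.E16L0
import Fermat.Agent.Pack.LT2.E17L0
import Fermat.Agent.Pack.LT2.E6L3
import Fermat.Agent.Pack.LT2.E17L3
import Fermat.Agent.Pack.LT2.E15L2
import Fermat.Agent.Pack.LT2.E17L2
import Fermat.Agent.Pack.LT2.E15L1
import Fermat.Agent.Pack.LT2.E0L1
import Fermat.Agent.Pack.LT2.E2L3
import Fermat.Agent.Pack.LT2.E10L1
import Fermat.Agent.Pack.LT2.E12L1

set_option linter.all false

-- ===== PACK-BEGIN LT/A2/H151/Chi.lean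
section


/-!
# Row LT, tower A2, leaf A2.03.1.6 `WX467.RightInvC` -- part 5: the torus character
(helper151, OFF-MAIN)

* the torus in components (`inTorus_of_components`);
* `χT (m ^ N) = χT m ^ N`;
* **`chi_eq_one_of_tlev`**: `χT κ = 1` for `κ ∈ T(𝔸_K)` trivial at the infinite places with all
  finite components in the local level groups `Tlev v` (truncations, `FinAt.chi_triv`,
  continuity of `χT` on the torus).
No holes, nothing assumed.
-/

set_option autoImplicit false

open IsDedekindDomain NumberField AutomorphicForm MeasureTheory Filter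
open scoped MatrixGroups Topology RestrictedProduct

noncomputable section

namespace Fermat.Agent.LT.A2.H151

open Fermat.Agent.LT.H130 Fermat.Agent.LT.H556 Fermat.Agent.LT.A2 Fermat.Agent.LT.A2.WX467

variable {K : Type} [Field K] [NumberField K]

/-! ## The torus in components -/

theorem inTorL_iff {k : Type} [Field k] (t n : k) (M : Matrix (Fin 2) (Fin 2) k) :
    InTorL t n M ↔ M = torMat t n (M 0 0) (M 1 0) := by
  constructor
  · rintro ⟨a, b, rfl⟩
    simp [torMat]
  · intro h
    exact ⟨_, _, h⟩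

theorem inTorL_one {k : Type} [Field k] (t n : k) :
    InTorL t n (1 : Matrix (Fin 2) (Fin 2) k) :=
  ⟨1, 0, (torMat_one t n).symm⟩

theorem inTorL_inf_of_inTorus {t n : K} {g : A0.G K} (h : InTorus t n g) (u : InfinitePlace K) :
    InTorL (algebraMap K u.Completion t) (algebraMap K u.Completion n) (infMat u g) := by
  obtain ⟨a, b, hab⟩ := h
  refine ⟨pInf u a, pInf u b, ?_⟩
  rw [infMat_eq_map, hab, torMat_map]
  rfl

theorem inTorL_fin_of_inTorus {t n : K} {g : A0.G K} (h : InTorus t n g)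
    (v : HeightOneSpectrum (𝓞 K)) :
    InTorL (algebraMap K (v.adicCompletion K) t) (algebraMap K (v.adicCompletion K) n)
      (A0.finComp v g) := by
  obtain ⟨a, b, hab⟩ := h
  refine ⟨pFin v a, pFin v b, ?_⟩
  rw [finComp_eq_map, hab, torMat_map]
  rfl

/-- An element of `GL₂(𝔸_K)` with all components in the local tori is in the torus. -/
theorem inTorus_of_components {t n : K} {g : A0.G K}
    (h1 : ∀ u : InfinitePlace K,
      InTorL (algebraMap K u.Completion t) (algebraMap K u.Completion n) (infMat u g))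
    (h2 : ∀ v : HeightOneSpectrum (𝓞 K),
      InTorL (algebraMap K (v.adicCompletion K) t) (algebraMap K (v.adicCompletion K) n)
        (A0.finComp v g)) : InTorus t n g := by
  refine ⟨(g : Matrix (Fin 2) (Fin 2) (A0.Adl K)) 0 0,
    (g : Matrix (Fin 2) (Fin 2) (A0.Adl K)) 1 0, ?_⟩
  refine adlMatrix_ext (fun u => ?_) (fun v => ?_)
  · rw [torMat_map]
    exact (inTorL_iff _ _ _).mp (h1 u)
  · rw [torMat_map]
    exact (inTorL_iff _ _ _).mp (h2 v)

theorem inTorus_one (t n : K) : InTorus t n (1 : A0.G K) :=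
  ⟨1, 0, by rw [Units.val_one, torMat_one]⟩

theorem inTorus_mul {t n : K} {m m' : A0.G K} (h : InTorus t n m) (h' : InTorus t n m') :
    InTorus t n (m * m') := by
  obtain ⟨a, b, hab⟩ := h
  obtain ⟨a', b', hab'⟩ := h'
  exact ⟨_, _, by rw [Units.val_mul, hab, hab', torMat_mul]⟩

theorem inTorus_pow {t n : K} {m : A0.G K} (h : InTorus t n m) (N : ℕ) :
    InTorus t n (m ^ N) := by
  induction N with
  | zero => rw [pow_zero]; exact inTorus_one t n
  | succ N ih => rw [pow_succ]; exact inTorus_mul ih h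

theorem chi_pow {t n : K} {χT : A0.G K → ℂ} (hχ : IsTorusChar t n χT) {m : A0.G K}
    (h : InTorus t n m) (N : ℕ) : χT (m ^ N) = χT m ^ N := by
  induction N with
  | zero => rw [pow_zero, pow_zero]; exact hχ.one
  | succ N ih => rw [pow_succ, pow_succ, hχ.mul _ _ (inTorus_pow h N) h, ih]

/-- `χT` is trivial on the `N`-th powers of the torus, `N` the order of `χT`. -/
theorem chi_eq_one_of_pow {t n : K} {χT : A0.G K → ℂ} (hχ : IsTorusChar t n χT) :
    ∃ N : ℕ, 0 < N ∧ ∀ m : A0.G K, InTorus t n m → χT (m ^ N) = 1 := by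
  obtain ⟨N, hN, h⟩ := hχ.fin_order
  exact ⟨N, hN, fun m hm => by rw [chi_pow hχ hm, h m hm]⟩

/-! ## Powers in components -/

theorem infMat_pow (u : InfinitePlace K) (g : A0.G K) (N : ℕ) :
    infMat u (g ^ N) = infMat u g ^ N := by
  induction N with
  | zero => rw [pow_zero, pow_zero, infMat_one]
  | succ N ih => rw [pow_succ, pow_succ, infMat_mul, ih]

theorem finComp_pow (v : HeightOneSpectrum (𝓞 K)) (g : A0.G K) (N : ℕ) :
    A0.finComp v (g ^ N) = A0.finComp v g ^ N := by
  induction N with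
  | zero => rw [pow_zero, pow_zero, finComp_one]
  | succ N ih => rw [pow_succ, pow_succ, finComp_mul, ih]

/-! ## Trivial components -/

theorem infMat_eq_one_of_triv {u : InfinitePlace K} {g : A0.G K} (h : A0.TrivAtInf u g) :
    infMat u g = 1 :=
  Matrix.ext fun i j => h i j

theorem triv_of_infMat_eq_one {u : InfinitePlace K} {g : A0.G K} (h : infMat u g = 1) :
    A0.TrivAtInf u g := fun i j => congrFun (congrFun h i) j

/-! ## The character on the elements with components in the level groups -/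

theorem trunc_empty {κ : A0.G K} (hinf : ∀ u : InfinitePlace K, infMat u κ = 1) :
    trunc ∅ κ = 1 := by
  refine gl_ext (fun u => ?_) (fun v => ?_)
  · rw [infMat_trunc, hinf, infMat_one]
  · rw [finComp_trunc_notMem κ (Finset.notMem_empty v), finComp_one]

open Classical in
theorem trunc_insert {κ : A0.G K} (hinf : ∀ u : InfinitePlace K, infMat u κ = 1)
    {v : HeightOneSpectrum (𝓞 K)} {S : Finset (HeightOneSpectrum (𝓞 K))} (hv : v ∉ S) :
    trunc (insert v S) κ = trunc {v} κ * trunc S κ := by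
  refine gl_ext (fun u => ?_) (fun v' => ?_)
  · rw [infMat_mul, infMat_trunc, infMat_trunc, infMat_trunc, hinf, one_mul]
  · rw [finComp_mul]
    by_cases h : v' = v
    · subst h
      rw [finComp_trunc_mem κ (Finset.mem_insert_self _ _),
        finComp_trunc_mem κ (Finset.mem_singleton_self _), finComp_trunc_notMem κ hv, mul_one]
    · by_cases h' : v' ∈ S
      · rw [finComp_trunc_mem κ (Finset.mem_insert_of_mem h'), finComp_trunc_mem κ h',
          finComp_trunc_notMem κ (by simpa using h), one_mul]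
      · rw [finComp_trunc_notMem κ (by simp [h, h']), finComp_trunc_notMem κ h',
          finComp_trunc_notMem κ (by simpa using h), one_mul]

theorem inTorus_trunc {t n : K} {κ : A0.G K} (hκ : InTorus t n κ)
    (S : Finset (HeightOneSpectrum (𝓞 K))) : InTorus t n (trunc S κ) := by
  classical
  refine inTorus_of_components (fun u => ?_) (fun v => ?_)
  · rw [infMat_trunc]
    exact inTorL_inf_of_inTorus hκ u
  · rw [finComp_trunc]
    split_ifs
    · exact inTorL_fin_of_inTorus hκ v
    · exact inTorL_one _ _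

/-- **The character is trivial on the elements of the torus, trivial at the infinite places, with
all finite components in the local level groups.** -/
theorem chi_eq_one_of_tlev (L : WData K) (hG : L.IsGood) {κ : A0.G K}
    (hκ : InTorus L.t L.n κ) (hinf : ∀ u : InfinitePlace K, infMat u κ = 1)
    (hfin : ∀ v : HeightOneSpectrum (𝓞 K), A0.finComp v κ ∈ L.Tlev v) : L.χT κ = 1 := by
  classical
  have hS : ∀ S : Finset (HeightOneSpectrum (𝓞 K)), L.χT (trunc S κ) = 1 := by
    intro S
    induction S using Finset.induction_on with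
    | empty => rw [trunc_empty hinf]; exact hG.torus.one
    | insert v S hv ih =>
      rw [trunc_insert hinf hv, hG.torus.mul _ _ (inTorus_trunc hκ _) (inTorus_trunc hκ _), ih,
        mul_one]
      refine (hG.fin v).chi_triv _ ⟨fun u => ?_, fun v' hv' => ?_⟩ ?_
      · apply triv_of_infMat_eq_one
        rw [infMat_trunc, hinf]
      · exact finComp_trunc_notMem κ (by simpa using hv')
      · rw [finComp_trunc_mem κ (Finset.mem_singleton_self _)]
        exact hfin v
  have h1 : Tendsto (fun S => trunc S κ) atTop (𝓝[{m | InTorus L.t L.n m}] κ) :=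
    tendsto_nhdsWithin_iff.mpr ⟨tendsto_trunc κ,
      Filter.Eventually.of_forall fun S => inTorus_trunc hκ S⟩
  have h2 : Tendsto (fun S => L.χT (trunc S κ)) atTop (𝓝 (L.χT κ)) :=
    (hG.torus.cont κ hκ).tendsto.comp h1
  have h3 : Tendsto (fun S : Finset (HeightOneSpectrum (𝓞 K)) => L.χT (trunc S κ)) atTop
      (𝓝 1) := by
    simp only [hS]
    exact tendsto_const_nhds
  exact tendsto_nhds_unique h2 h3

end Fermat.Agent.LT.A2.H151

end

end
-- ===== PACK-END LT/A2/H151/Chi.lean

-- ===== PACK-BEGIN LT/A2/H621/TorusMeasC.lean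
section



/-!
# Row LT, tower A2, leaf A2.03.1.1.03 `WX467.TorusMeasC` (helper621)

OFF-MAIN.  ADAPTER: the leaf `TorusMeasC` of the cut `LT/A2/H467/DataSpec.lean` (helper467,
sha256 72cb2b55afa8) from the pre-leaf TORUS-MEAS of helper751 (`LT/A2/H751/TorusMeas.lean`,
sha256 1d583b95ef2f: `exists_measured751`, `isMeasured_of751`).

    torusMeasC621 : WX467.TorusMeasC                      (VERBATIM, no hypothesis)

No hole, nothing assumed; both files are imported byte-identical.
-/

set_option autoImplicit false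

open IsDedekindDomain NumberField MeasureTheory

noncomputable section

namespace Fermat.Agent.LT.A2.H621

open Fermat.Agent.LT.H556 Fermat.Agent.LT.A2 Fermat.Agent.LT

/-- A datum whose components are measures of covolume one and torus-measured is measured
(the form of `isMeasured_of751` with the components as parameters). -/
theorem isMeasured_of_components621 {K : Type} [Field K] [NumberField K] {t n : K}
    {μ : @Measure (A0.Adl K) (borel (A0.Adl K))} {μT : @Measure (A0.G K) (borel (A0.G K))}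
    {DT : Set (A0.G K)} (hμ : IsCovolOne μ) (hT : H751.TorusMeasured751 t n μT DT)
    (D : KData K) (ht : D.t = t) (hn : D.n = n) (h1 : D.μ = μ) (h2 : D.μT = μT)
    (h3 : D.DT = DT) : D.IsMeasured := by
  subst ht hn h1 h2 h3
  exact H751.isMeasured_of751 D hμ hT

/-- **A2.03.1.1.03 TORUS-MEAS**, the leaf of helper467's cut, VERBATIM. -/
theorem torusMeasC621 : WX467.TorusMeasC := by
  intro K _ _ t n hT1 hirr
  obtain ⟨μ, μT, DT, hμ, hT⟩ := H751.exists_measured751 t n hirr hT1
  exact ⟨μ, μT, DT, fun D ht hn h1 h2 h3 =>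
    isMeasured_of_components621 hμ hT D ht hn h1 h2 h3⟩

end Fermat.Agent.LT.A2.H621

end

end
-- ===== PACK-END LT/A2/H621/TorusMeasC.lean

-- ===== PACK-BEGIN LT/A2/H637/OrbChar.lean
section


/-!
# Row LT, tower A2, leaf A2.03.1.8 `WX467.OrbC` -- part 3: the torus character on the support
(helper637)

OFF-MAIN.  For a torus character `χT` (finite order, continuous on `T(𝔸_K)`) over a totally
complex field, trivial on the local level groups `Tlev v` (`FinAt.chi_triv`):
`χT m = 1` for every `m ∈ T(𝔸_K)` all of whose finite components are in `Tlev v`.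

* the part at infinity `cut e_∞ m` is a `k`-th power in `T(𝔸_K)` (`K_u ≅ ℂ` is algebraically
  closed), `k` the order of `χT`;
* the part at a finite set `S` of places is a product of local elements;
* the tail `cut (1 - e_∞ - e_S) m` tends to `1` along `S`, and `χT` is continuous.

No sorry, nothing assumed.
-/

set_option autoImplicit false
set_option linter.style.haveILetI false

open IsDedekindDomain NumberField AutomorphicForm MeasureTheory
open scoped MatrixGroups Topology ENNReal

noncomputable section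

namespace Fermat.Agent.LT.A2.H637

open Fermat.Agent.LT.H130 Fermat.Agent.LT.H556 Fermat.Agent.LT.A2

variable {K : Type} [Field K] [NumberField K]

/-! ## Components of adeles -/

theorem adl_ext637 {x y : A0.Adl K} (h1 : ∀ u : InfinitePlace K, x.1 u = y.1 u)
    (h2 : ∀ v : HeightOneSpectrum (𝓞 K), x.2 v = y.2 v) : x = y :=
  Prod.ext (funext h1) (RestrictedProduct.ext _ _ h2)

/-- The projection to the completion at the infinite place `u`. -/
def prInf637 (u : InfinitePlace K) : A0.Adl K →+* u.Completion where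
  toFun x := x.1 u
  map_one' := rfl
  map_mul' _ _ := rfl
  map_zero' := rfl
  map_add' _ _ := rfl

/-- The projection to the completion at the finite place `v`. -/
def prFin637 (v : HeightOneSpectrum (𝓞 K)) : A0.Adl K →+* v.adicCompletion K where
  toFun x := x.2 v
  map_one' := rfl
  map_mul' _ _ := rfl
  map_zero' := rfl
  map_add' _ _ := rfl

@[simp] theorem prInf_apply637 (u : InfinitePlace K) (x : A0.Adl K) : prInf637 u x = x.1 u := rfl

@[simp] theorem prFin_apply637 (v : HeightOneSpectrum (𝓞 K)) (x : A0.Adl K) :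
    prFin637 v x = x.2 v := rfl

theorem mat_ext637 {M N : Matrix (Fin 2) (Fin 2) (A0.Adl K)}
    (h1 : ∀ u : InfinitePlace K, M.map (prInf637 u) = N.map (prInf637 u))
    (h2 : ∀ v : HeightOneSpectrum (𝓞 K), M.map (prFin637 v) = N.map (prFin637 v)) : M = N := by
  ext i j
  refine adl_ext637 (fun u => ?_) (fun v => ?_)
  · have := congrFun (congrFun (h1 u) i) j
    simpa using this
  · have := congrFun (congrFun (h2 v) i) j
    simpa using this

theorem finComp_eq_map637 (v : HeightOneSpectrum (𝓞 K)) (g : A0.G K) :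
    A0.finComp v g = (g : Matrix (Fin 2) (Fin 2) (A0.Adl K)).map (prFin637 v) := rfl

theorem infMat_eq_map637 (u : InfinitePlace K) (g : A0.G K) :
    WX467.infMat u g = (g : Matrix (Fin 2) (Fin 2) (A0.Adl K)).map (prInf637 u) := rfl

theorem map_one_mat637 {R R' : Type*} [CommRing R] [CommRing R'] (f : R →+* R') :
    (1 : Matrix (Fin 2) (Fin 2) R).map f = 1 := by
  ext i j
  by_cases hij : i = j
  · subst hij; simp
  · simp [Matrix.one_apply_ne hij]

theorem finComp_one637 (v : HeightOneSpectrum (𝓞 K)) : A0.finComp v (1 : A0.G K) = 1 := by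
  rw [finComp_eq_map637, Units.val_one, map_one_mat637]

theorem infMat_one637 (u : InfinitePlace K) : WX467.infMat u (1 : A0.G K) = 1 := by
  rw [infMat_eq_map637, Units.val_one, map_one_mat637]

/-! ## The idempotents -/

/-- The idempotent of the infinite places. -/
def eInf637 : A0.Adl K := ((1 : InfiniteAdeleRing K), (0 : FiniteAdeleRing (𝓞 K) K))

open Classical in
/-- The integral family `1_S`. -/
def indFam637 (S : Finset (HeightOneSpectrum (𝓞 K))) :
    ∀ v : HeightOneSpectrum (𝓞 K), v.adicCompletionIntegers K :=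
  fun v => if v ∈ S then 1 else 0

/-- The idempotent of the finite set `S` of finite places. -/
def eFin637 (S : Finset (HeightOneSpectrum (𝓞 K))) : A0.Adl K :=
  ((0 : InfiniteAdeleRing K), RestrictedProduct.structureMap _ _ _ (indFam637 S))

theorem eInf_fst637 (u : InfinitePlace K) : (eInf637 : A0.Adl K).1 u = 1 := rfl

theorem eInf_snd637 (v : HeightOneSpectrum (𝓞 K)) : (eInf637 : A0.Adl K).2 v = 0 := rfl

theorem eFin_fst637 (S : Finset (HeightOneSpectrum (𝓞 K))) (u : InfinitePlace K) :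
    (eFin637 S).1 u = 0 := rfl

theorem eFin_snd_mem637 {S : Finset (HeightOneSpectrum (𝓞 K))} {v : HeightOneSpectrum (𝓞 K)}
    (hv : v ∈ S) : (eFin637 S).2 v = 1 := by
  show ((indFam637 S v : v.adicCompletionIntegers K) : v.adicCompletion K) = 1
  simp [indFam637, hv]

theorem eFin_snd_notMem637 {S : Finset (HeightOneSpectrum (𝓞 K))}
    {v : HeightOneSpectrum (𝓞 K)} (hv : v ∉ S) : (eFin637 S).2 v = 0 := by
  show ((indFam637 S v : v.adicCompletionIntegers K) : v.adicCompletion K) = 0
  simp [indFam637, hv]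

theorem eInf_idem637 : (eInf637 : A0.Adl K) * eInf637 = eInf637 :=
  adl_ext637 (fun u => by show (1 : u.Completion) * 1 = 1; rw [mul_one])
    (fun v => by show (0 : v.adicCompletion K) * 0 = 0; rw [mul_zero])

theorem eFin_idem637 (S : Finset (HeightOneSpectrum (𝓞 K))) :
    eFin637 S * eFin637 S = eFin637 S := by
  refine adl_ext637 (fun u => by show (0 : u.Completion) * 0 = 0; rw [mul_zero]) (fun v => ?_)
  show (eFin637 S).2 v * (eFin637 S).2 v = (eFin637 S).2 v
  by_cases hv : v ∈ S
  · rw [eFin_snd_mem637 hv, mul_one]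
  · rw [eFin_snd_notMem637 hv, mul_zero]

theorem eInf_mul_eFin637 (S : Finset (HeightOneSpectrum (𝓞 K))) :
    (eInf637 : A0.Adl K) * eFin637 S = 0 :=
  adl_ext637 (fun u => by show (1 : u.Completion) * 0 = 0; rw [mul_zero])
    (fun v => by
      show (0 : v.adicCompletion K) * (eFin637 S).2 v = 0
      rw [zero_mul])

theorem eFin_mul_eFin637 {S S' : Finset (HeightOneSpectrum (𝓞 K))} (h : Disjoint S S') :
    eFin637 S * eFin637 S' = 0 := by
  refine adl_ext637 (fun u => by show (0 : u.Completion) * 0 = 0; rw [mul_zero]) (fun v => ?_)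
  show (eFin637 S).2 v * (eFin637 S').2 v = 0
  by_cases hv : v ∈ S
  · rw [eFin_snd_notMem637 (Finset.disjoint_left.mp h hv), mul_zero]
  · rw [eFin_snd_notMem637 hv, zero_mul]

open Classical in
theorem eFin_insert637 {S : Finset (HeightOneSpectrum (𝓞 K))} {v : HeightOneSpectrum (𝓞 K)}
    (hv : v ∉ S) : eFin637 (insert v S) = eFin637 {v} + eFin637 S := by
  refine adl_ext637 (fun u => by show (0 : u.Completion) = 0 + 0; rw [add_zero]) (fun w => ?_)
  show (eFin637 (insert v S)).2 w = (eFin637 {v}).2 w + (eFin637 S).2 w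
  by_cases hw : w = v
  · subst hw
    rw [eFin_snd_mem637 (Finset.mem_insert_self _ _), eFin_snd_mem637 (Finset.mem_singleton_self _),
      eFin_snd_notMem637 hv, add_zero]
  · by_cases hwS : w ∈ S
    · rw [eFin_snd_mem637 (Finset.mem_insert_of_mem hwS), eFin_snd_mem637 hwS,
        eFin_snd_notMem637 (by simpa using hw), zero_add]
    · rw [eFin_snd_notMem637 (by simp [hw, hwS]), eFin_snd_notMem637 hwS,
        eFin_snd_notMem637 (by simpa using hw), zero_add]

theorem eFin_empty637 : eFin637 (∅ : Finset (HeightOneSpectrum (𝓞 K))) = 0 :=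
  adl_ext637 (fun _ => rfl) (fun v => eFin_snd_notMem637 (Finset.notMem_empty v))

/-- The idempotent of the places outside `S` and the infinite places. -/
def eTail637 (S : Finset (HeightOneSpectrum (𝓞 K))) : A0.Adl K := 1 - eInf637 - eFin637 S

theorem eTail_idem637 (S : Finset (HeightOneSpectrum (𝓞 K))) :
    eTail637 S * eTail637 S = eTail637 S := by
  have h1 := eInf_idem637 (K := K)
  have h2 := eFin_idem637 S
  have h3 := eInf_mul_eFin637 S
  rw [eTail637]
  linear_combination h1 + h2 + 2 * h3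

theorem eInf_add_eFin_idem637 (S : Finset (HeightOneSpectrum (𝓞 K))) :
    (eInf637 + eFin637 S) * (eInf637 + eFin637 S) = eInf637 + eFin637 S := by
  have h1 := eInf_idem637 (K := K)
  have h2 := eFin_idem637 S
  have h3 := eInf_mul_eFin637 S
  linear_combination h1 + h2 + 2 * h3

theorem eTail_orth637 (S : Finset (HeightOneSpectrum (𝓞 K))) :
    (eInf637 + eFin637 S) * eTail637 S = 0 := by
  have h := eInf_add_eFin_idem637 S
  rw [eTail637]
  linear_combination -h

theorem eTail_sum637 (S : Finset (HeightOneSpectrum (𝓞 K))) :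
    (eInf637 + eFin637 S) + eTail637 S = 1 := by
  rw [eTail637]; ring

/-- The idempotents of the finite sets tend to the idempotent of the finite places. -/
theorem tendsto_eFin637 :
    Filter.Tendsto (fun S : Finset (HeightOneSpectrum (𝓞 K)) => eFin637 S) Filter.atTop
      (𝓝 (1 - eInf637)) := by
  have h0 : Filter.Tendsto (fun S : Finset (HeightOneSpectrum (𝓞 K)) => indFam637 S)
      Filter.atTop (𝓝 (fun _ => 1)) := by
    rw [tendsto_pi_nhds]
    intro v
    refine tendsto_const_nhds.congr' ?_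
    filter_upwards [Filter.eventually_ge_atTop ({v} : Finset (HeightOneSpectrum (𝓞 K)))]
      with S hS
    have hv : v ∈ S := hS (Finset.mem_singleton_self v)
    simp [indFam637, hv]
  have h1 : Filter.Tendsto (fun S : Finset (HeightOneSpectrum (𝓞 K)) =>
      RestrictedProduct.structureMap (fun v : HeightOneSpectrum (𝓞 K) => v.adicCompletion K)
        (fun v => (v.adicCompletionIntegers K : Set (v.adicCompletion K))) Filter.cofinite
        (indFam637 S)) Filter.atTop
      (𝓝 (RestrictedProduct.structureMap _ _ _ (fun _ => 1))) :=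
    (RestrictedProduct.isEmbedding_structureMap.continuous.tendsto _).comp h0
  have h2 : (1 - eInf637 : A0.Adl K)
      = ((0 : InfiniteAdeleRing K),
          (RestrictedProduct.structureMap (fun v : HeightOneSpectrum (𝓞 K) => v.adicCompletion K)
            (fun v => (v.adicCompletionIntegers K : Set (v.adicCompletion K))) Filter.cofinite
            (fun _ => 1) : FiniteAdeleRing (𝓞 K) K)) := by
    refine adl_ext637 (fun u => ?_) (fun v => ?_)
    · show (1 : u.Completion) - 1 = 0
      rw [sub_self]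
    · show (1 : v.adicCompletion K) - 0 = ((1 : v.adicCompletionIntegers K) : v.adicCompletion K)
      simp
  rw [h2]
  exact Filter.Tendsto.prodMk_nhds tendsto_const_nhds h1

theorem tendsto_eTail637 :
    Filter.Tendsto (fun S : Finset (HeightOneSpectrum (𝓞 K)) => eTail637 S) Filter.atTop
      (𝓝 0) := by
  have h : Filter.Tendsto (fun S : Finset (HeightOneSpectrum (𝓞 K)) =>
      (1 - eInf637 : A0.Adl K) - eFin637 S) Filter.atTop (𝓝 ((1 - eInf637) - (1 - eInf637))) :=
    tendsto_const_nhds.sub tendsto_eFin637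
  rw [sub_self] at h
  exact h

/-! ## The cut on `GL₂(𝔸_K)` -/

theorem inTorus_cut637 {t n : K} (e : A0.Adl K) (he : e * e = e) {m : A0.G K}
    (h : InTorus t n m) : InTorus t n (cut637 e he m) := by
  obtain ⟨a, b, hab⟩ := h
  exact ⟨e * a + (1 - e), e * b, by rw [cut_val637, hab, cutMat_torMat637]⟩

theorem finComp_cut_one637 (e : A0.Adl K) (he : e * e = e) (v : HeightOneSpectrum (𝓞 K))
    (hv : e.2 v = 1) (m : A0.G K) : A0.finComp v (cut637 e he m) = A0.finComp v m := by
  rw [finComp_eq_map637, finComp_eq_map637, cut_val637, map_cutMat637, prFin_apply637, hv,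
    cutMat_one_left637]

theorem finComp_cut_zero637 (e : A0.Adl K) (he : e * e = e) (v : HeightOneSpectrum (𝓞 K))
    (hv : e.2 v = 0) (m : A0.G K) : A0.finComp v (cut637 e he m) = 1 := by
  rw [finComp_eq_map637, cut_val637, map_cutMat637, prFin_apply637, hv, cutMat_zero637]

theorem trivAtInf_cut637 (e : A0.Adl K) (he : e * e = e) (u : InfinitePlace K)
    (hu : e.1 u = 0) (m : A0.G K) : A0.TrivAtInf u (cut637 e he m) := by
  intro i j
  have h : ((cut637 e he m : A0.G K) : Matrix (Fin 2) (Fin 2) (A0.Adl K)).map (prInf637 u)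
      = 1 := by
    rw [cut_val637, map_cutMat637, prInf_apply637, hu, cutMat_zero637]
  exact congrFun (congrFun h i) j

/-! ## The torus character -/

section Char

variable {t n : K} {χT : A0.G K → ℂ}

theorem chi_pow637 (hχ : IsTorusChar t n χT) {r : A0.G K} (hr : InTorus t n r) (k : ℕ) :
    InTorus t n (r ^ k) ∧ χT (r ^ k) = χT r ^ k := by
  induction k with
  | zero =>
    exact ⟨by rw [pow_zero]; exact inTorus_one637 t n, by rw [pow_zero, pow_zero]; exact hχ.one⟩
  | succ k ih =>
    refine ⟨by rw [pow_succ]; exact inTorus_mul637 ih.1 hr, ?_⟩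
    rw [pow_succ, hχ.mul _ _ ih.1 hr, ih.2, pow_succ]

theorem disc_ne_zero637 (hχ : IsTorusChar t n χT) : t ^ 2 - 4 * n ≠ 0 := by
  intro h
  refine hχ.irred (t / 2) ?_
  field_simp
  linear_combination -h

/-- The part at infinity of an element of the torus is a `k`-th power: `χT = 1` on it. -/
theorem chi_cut_inf637 (hχ : IsTorusChar t n χT) (hcpx : ∀ u : InfinitePlace K, u.IsComplex)
    {m : A0.G K} (hm : InTorus t n m) : χT (cut637 eInf637 eInf_idem637 m) = 1 := by
  obtain ⟨k, hk, hord⟩ := hχ.fin_order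
  obtain ⟨a, b, hab⟩ := hm
  have hdisc := disc_ne_zero637 hχ
  have hunit : IsUnit (m : Matrix (Fin 2) (Fin 2) (A0.Adl K)).det :=
    (Matrix.isUnit_iff_isUnit_det _).mp m.isUnit
  have hloc : ∀ u : InfinitePlace K, ∃ α β : u.Completion,
      torMat (algebraMap K u.Completion t) (algebraMap K u.Completion n) α β ^ k
        = torMat (algebraMap K u.Completion t) (algebraMap K u.Completion n) (a.1 u) (b.1 u)
      ∧ α ^ 2 + algebraMap K u.Completion t * α * β + algebraMap K u.Completion n * β ^ 2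
          ≠ 0 := by
    intro u
    haveI : IsAlgClosed u.Completion := IsAlgClosed.of_ringEquiv ℂ u.Completion
      (InfinitePlace.Completion.ringEquivComplexOfIsComplex (hcpx u)).symm
    refine exists_torMat_pow637 _ _ _ _ ?_ ?_ ?_ hk
    · have h : algebraMap K u.Completion (t ^ 2 - 4 * n) ≠ 0 := (map_ne_zero _).mpr hdisc
      rw [map_sub, map_pow, map_mul, map_ofNat] at h
      exact h
    · have h : algebraMap K u.Completion 2 ≠ 0 := (map_ne_zero _).mpr two_ne_zero
      rw [map_ofNat] at h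
      exact h
    · have h := (hunit.map (prInf637 u)).ne_zero
      rw [hab, torMat_det637] at h
      exact h
  choose α β hαβ hQ using hloc
  set αA : A0.Adl K := ((fun u => α u : InfiniteAdeleRing K), (1 : FiniteAdeleRing (𝓞 K) K))
    with hαA
  set βA : A0.Adl K := ((fun u => β u : InfiniteAdeleRing K), (0 : FiniteAdeleRing (𝓞 K) K))
    with hβA
  set rM : Matrix (Fin 2) (Fin 2) (A0.Adl K) :=
    torMat (algebraMap K (A0.Adl K) t) (algebraMap K (A0.Adl K) n) αA βA with hrM
  have hdetr : IsUnit rM.det := by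
    rw [hrM, torMat_det637]
    refine IsUnit.of_mul_eq_one
      (((fun u => (α u ^ 2 + algebraMap K u.Completion t * α u * β u
          + algebraMap K u.Completion n * β u ^ 2)⁻¹ : InfiniteAdeleRing K),
        (1 : FiniteAdeleRing (𝓞 K) K)) : A0.Adl K) ?_
    refine adl_ext637 (fun u => ?_) (fun v => ?_)
    · exact mul_inv_cancel₀ (hQ u)
    · show ((1 : v.adicCompletion K) ^ 2 + algebraMap K (v.adicCompletion K) t * 1 * 0
        + algebraMap K (v.adicCompletion K) n * 0 ^ 2) * 1 = 1
      ring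
  set r : A0.G K := Matrix.GeneralLinearGroup.mk'' rM hdetr with hr
  have hrval : (r : Matrix (Fin 2) (Fin 2) (A0.Adl K)) = rM := rfl
  have hrT : InTorus t n r := ⟨αA, βA, hrval⟩
  have hpow : r ^ k = cut637 eInf637 eInf_idem637 m := by
    apply Units.ext
    rw [Units.val_pow_eq_pow_val, hrval, cut_val637, hab, cutMat_torMat637]
    refine mat_ext637 (fun u => ?_) (fun v => ?_)
    · rw [← RingHom.mapMatrix_apply, map_pow, RingHom.mapMatrix_apply, hrM, map_torMat637,
        map_torMat637]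
      have e1 : prInf637 u (eInf637 * a + (1 - eInf637)) = a.1 u := by
        show 1 * a.1 u + (1 - 1) = a.1 u
        ring
      have e2 : prInf637 u (eInf637 * b) = b.1 u := by
        show 1 * b.1 u = b.1 u
        ring
      rw [e1, e2]
      exact hαβ u
    · rw [← RingHom.mapMatrix_apply, map_pow, RingHom.mapMatrix_apply, hrM, map_torMat637,
        map_torMat637]
      have e1 : prFin637 v αA = 1 := rfl
      have e2 : prFin637 v βA = 0 := rfl
      have e3 : prFin637 v (eInf637 * a + (1 - eInf637)) = 1 := by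
        show 0 * a.2 v + (1 - 0) = 1
        ring
      have e4 : prFin637 v (eInf637 * b) = 0 := by
        show 0 * b.2 v = 0
        ring
      rw [e1, e2, e3, e4, torMat_one637, one_pow]
  rw [← hpow, (chi_pow637 hχ hrT k).2]
  exact hord r hrT

/-- The part at a finite set of finite places is a product of local elements. -/
theorem chi_cut_fin637 (hχ : IsTorusChar t n χT)
    (Tlev : ∀ v : HeightOneSpectrum (𝓞 K), Set (Matrix (Fin 2) (Fin 2) (v.adicCompletion K)))
    (htriv : ∀ (v : HeightOneSpectrum (𝓞 K)) (κ : A0.G K), A0.IsLocalAtFin v κ →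
      A0.finComp v κ ∈ Tlev v → χT κ = 1)
    {m : A0.G K} (hm : InTorus t n m) (hlev : ∀ v, A0.finComp v m ∈ Tlev v)
    (S : Finset (HeightOneSpectrum (𝓞 K))) :
    χT (cut637 (eFin637 S) (eFin_idem637 S) m) = 1 := by
  classical
  induction S using Finset.induction_on with
  | empty =>
    have h1 : cut637 (eFin637 ∅) (eFin_idem637 ∅) m = 1 :=
      Units.ext (by rw [cut_val637, eFin_empty637, cutMat_zero637]; rfl)
    rw [h1]
    exact hχ.one
  | insert v S hv ih =>
    have hdec : cut637 (eFin637 (insert v S)) (eFin_idem637 _) m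
        = cut637 (eFin637 {v}) (eFin_idem637 _) m * cut637 (eFin637 S) (eFin_idem637 S) m :=
      Units.ext (by
        rw [Units.val_mul, cut_val637, cut_val637, cut_val637, eFin_insert637 hv,
          cutMat_add637 (eFin_mul_eFin637 (Finset.disjoint_singleton_left.mpr hv))])
    rw [hdec, hχ.mul _ _ (inTorus_cut637 _ _ hm) (inTorus_cut637 _ _ hm), ih, mul_one]
    refine htriv v _ ⟨fun u => trivAtInf_cut637 _ _ u (eFin_fst637 _ u) m, fun v' hv' => ?_⟩ ?_
    · exact finComp_cut_zero637 _ _ v' (eFin_snd_notMem637 (by simpa using hv')) m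
    · rw [finComp_cut_one637 _ _ v (eFin_snd_mem637 (Finset.mem_singleton_self v)) m]
      exact hlev v

/-- **The torus character is trivial on the elements with finite components in the level
groups** (totally complex base field). -/
theorem chi_eq_one637 (hχ : IsTorusChar t n χT) (hcpx : ∀ u : InfinitePlace K, u.IsComplex)
    (Tlev : ∀ v : HeightOneSpectrum (𝓞 K), Set (Matrix (Fin 2) (Fin 2) (v.adicCompletion K)))
    (htriv : ∀ (v : HeightOneSpectrum (𝓞 K)) (κ : A0.G K), A0.IsLocalAtFin v κ →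
      A0.finComp v κ ∈ Tlev v → χT κ = 1)
    {m : A0.G K} (hm : InTorus t n m) (hlev : ∀ v, A0.finComp v m ∈ Tlev v) : χT m = 1 := by
  have hconst : ∀ S : Finset (HeightOneSpectrum (𝓞 K)),
      χT (cut637 (eTail637 S) (eTail_idem637 S) m) = χT m := by
    intro S
    have hdec : m = cut637 eInf637 eInf_idem637 m * cut637 (eFin637 S) (eFin_idem637 S) m
        * cut637 (eTail637 S) (eTail_idem637 S) m := by
      apply Units.ext
      rw [Units.val_mul, Units.val_mul, cut_val637, cut_val637, cut_val637,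
        ← cutMat_add637 (eInf_mul_eFin637 S), ← cutMat_add637 (eTail_orth637 S),
        eTail_sum637, cutMat_one_left637]
    have h1 := chi_cut_inf637 hχ hcpx hm
    have h2 := chi_cut_fin637 hχ Tlev htriv hm hlev S
    conv_rhs => rw [hdec]
    rw [hχ.mul _ _ (inTorus_mul637 (inTorus_cut637 _ _ hm) (inTorus_cut637 _ _ hm))
        (inTorus_cut637 _ _ hm),
      hχ.mul _ _ (inTorus_cut637 _ _ hm) (inTorus_cut637 _ _ hm), h1, h2, one_mul, one_mul]
  have hc : ∀ M : Matrix (Fin 2) (Fin 2) (A0.Adl K),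
      Filter.Tendsto (fun S : Finset (HeightOneSpectrum (𝓞 K)) => cutMat637 (eTail637 S) M)
        Filter.atTop (𝓝 1) := by
    intro M
    have hcont : Continuous fun e : A0.Adl K => cutMat637 e M :=
      (continuous_id.smul continuous_const).add
        ((continuous_const.sub continuous_id).smul continuous_const)
    have h := (hcont.tendsto 0).comp tendsto_eTail637
    rw [cutMat_zero637] at h
    exact h
  have htend : Filter.Tendsto
      (fun S : Finset (HeightOneSpectrum (𝓞 K)) => cut637 (eTail637 S) (eTail_idem637 S) m)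
      Filter.atTop (𝓝 1) := by
    rw [Units.isInducing_embedProduct.tendsto_nhds_iff]
    exact Filter.Tendsto.prodMk_nhds (hc _) ((MulOpposite.continuous_op.tendsto _).comp (hc _))
  have hwithin : Filter.Tendsto
      (fun S : Finset (HeightOneSpectrum (𝓞 K)) => cut637 (eTail637 S) (eTail_idem637 S) m)
      Filter.atTop (𝓝[{m | InTorus t n m}] 1) :=
    tendsto_nhdsWithin_iff.mpr
      ⟨htend, Filter.Eventually.of_forall fun S => inTorus_cut637 _ _ hm⟩
  have hlim := (hχ.cont 1 (inTorus_one637 t n)).tendsto.comp hwithin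
  have hlim' : Filter.Tendsto (fun _ : Finset (HeightOneSpectrum (𝓞 K)) => χT m) Filter.atTop
      (𝓝 (χT 1)) := hlim.congr fun S => hconst S
  have h := tendsto_nhds_unique hlim' tendsto_const_nhds
  rw [← h]
  exact hχ.one

end Char

end Fermat.Agent.LT.A2.H637

end

end
-- ===== PACK-END LT/A2/H637/OrbChar.lean

-- ===== PACK-BEGIN LT/A2/H83/SBKit.lean
section


/-!
# Row LT, tower A2, station LOC-FIN (cut LF54 of helper54): a small toolkit (helper83), OFF-MAIN

For a normed field `k` with an ultrametric distance (`k = K_v`):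

* `psi_locConst83`: a continuous unitary character of `k` is locally constant
  (it is trivial on a ball, a subgroup; a subgroup of the circle inside `‖z - 1‖ < 1` is trivial);
* `IsSB` is stable under multiplication by locally constant functions and under substitution of
  a homeomorphism (`isSB_mul_left83`, `isSB_mul_right83`, `isSB_comp_smul83`);
* `intL` : constants, congruence, and the dilation `y ↦ a • y` from `CovP`.

Mathlib + the Spec closure only.
-/

set_option autoImplicit false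
set_option linter.unusedSectionVars false
set_option linter.unusedSimpArgs false
set_option linter.style.haveILetI false

open IsDedekindDomain NumberField MeasureTheory
open scoped Topology

noncomputable section

namespace Fermat.Agent.LT.A2.H83

open Fermat.Agent.LT.A2 Fermat.Agent.LT.A2.WX467 Fermat.Agent.LT.A2.LF54

section Circle

/-- A sequence on the unit circle with `z (m + 1) = z m ^ 2` which stays in `‖z - 1‖ < 1`
is constant equal to `1`. -/
theorem circle_rigid83 (z : ℕ → ℂ) (hz : ∀ m, ‖z m‖ = 1) (hsq : ∀ m, z (m + 1) = z m ^ 2)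
    (hnear : ∀ m, ‖z m - 1‖ < 1) : z 0 = 1 := by
  have hnorm : ∀ m, (z m).re ^ 2 + (z m).im ^ 2 = 1 := by
    intro m
    have h1 := hz m
    have h2 : ‖z m‖ ^ 2 = 1 := by rw [h1]; norm_num
    rw [Complex.sq_norm, Complex.normSq_apply] at h2
    nlinarith [h2]
  have hlt : ∀ m, 1 - (z m).re < 1 / 2 := by
    intro m
    have h1 := hnear m
    have h2 : ‖z m - 1‖ ^ 2 < 1 := by
      have h0 : 0 ≤ ‖z m - 1‖ := norm_nonneg _
      nlinarith
    rw [Complex.sq_norm, Complex.normSq_apply] at h2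
    simp only [Complex.sub_re, Complex.one_re, Complex.sub_im, Complex.one_im, sub_zero] at h2
    nlinarith [hnorm m]
  have hge : ∀ m, 0 ≤ 1 - (z m).re := by
    intro m
    nlinarith [hnorm m, sq_nonneg (z m).im, sq_nonneg ((z m).re - 1), sq_nonneg ((z m).re + 1)]
  have hstep : ∀ m, 3 * (1 - (z m).re) ≤ 1 - (z (m + 1)).re := by
    intro m
    have h1 : (z (m + 1)).re = (z m).re ^ 2 - (z m).im ^ 2 := by
      rw [hsq m, pow_two, Complex.mul_re]
      ring
    rw [h1]
    nlinarith [hnorm m, hlt m, hge m]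
  have hpow : ∀ m, 3 ^ m * (1 - (z 0).re) ≤ 1 - (z m).re := by
    intro m
    induction m with
    | zero => simp
    | succ m ih =>
      calc 3 ^ (m + 1) * (1 - (z 0).re) = 3 * (3 ^ m * (1 - (z 0).re)) := by ring
        _ ≤ 3 * (1 - (z m).re) := by linarith
        _ ≤ 1 - (z (m + 1)).re := hstep m
  have hzero : 1 - (z 0).re ≤ 0 := by
    by_contra hcon
    push Not at hcon
    obtain ⟨N, hN⟩ := exists_nat_gt (1 / (1 - (z 0).re))
    have h3 : (N : ℝ) ≤ 3 ^ N := by
      have : (N : ℝ) < 2 ^ N := by exact_mod_cast Nat.lt_two_pow_self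
      have h23 : (2 : ℝ) ^ N ≤ 3 ^ N := pow_le_pow_left₀ (by norm_num) (by norm_num) N
      linarith
    have h4 : 1 < (N : ℝ) * (1 - (z 0).re) := by
      rw [div_lt_iff₀ hcon] at hN
      exact hN
    have h5 := hpow N
    have h6 := hlt N
    nlinarith
  have hre : (z 0).re = 1 := by
    have := hge 0
    linarith
  have him : (z 0).im = 0 := by
    have := hnorm 0
    rw [hre] at this
    nlinarith
  exact Complex.ext (by rw [hre]; rfl) (by rw [him]; rfl)

end Circle

section Psi

variable {k : Type} [NormedField k] [IsUltrametricDist k]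

/-- `‖m • x‖ ≤ ‖x‖` in an ultrametric normed field. -/
theorem norm_two_pow_mul_le83 (m : ℕ) (x : k) : ‖(2 : k) ^ m * x‖ ≤ ‖x‖ := by
  rw [norm_mul, norm_pow]
  have h2 : ‖(2 : k)‖ ≤ 1 := by
    have := IsUltrametricDist.norm_natCast_le_one k 2
    simpa using this
  calc ‖(2 : k)‖ ^ m * ‖x‖ ≤ 1 * ‖x‖ :=
        mul_le_mul_of_nonneg_right (pow_le_one₀ (norm_nonneg _) h2) (norm_nonneg _)
    _ = ‖x‖ := one_mul _

/-- A continuous unitary character of `k` is trivial on a ball. -/
theorem psi_eq_one_near83 (ψ : k → ℂ) (hc : Continuous ψ)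
    (hadd : ∀ x y : k, ψ (x + y) = ψ x * ψ y) (hnorm : ∀ x : k, ‖ψ x‖ = 1) :
    ∃ ε : ℝ, 0 < ε ∧ ∀ x : k, ‖x‖ < ε → ψ x = 1 := by
  have h0 : ψ 0 = 1 := by
    have h1 := hadd 0 0
    rw [add_zero] at h1
    have h2 : ψ 0 ≠ 0 := by
      intro h
      have := hnorm 0
      rw [h, norm_zero] at this
      exact zero_ne_one this
    have h3 : ψ 0 * 1 = ψ 0 * ψ 0 := by rw [mul_one]; exact h1
    exact (mul_left_cancel₀ h2 h3).symm
  have hcont : ContinuousAt ψ 0 := hc.continuousAt
  rw [Metric.continuousAt_iff] at hcont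
  obtain ⟨ε, hε, hball⟩ := hcont 1 one_pos
  refine ⟨ε, hε, fun x hx => ?_⟩
  have hpow : ∀ m : ℕ, ψ ((2 : k) ^ (m + 1) * x) = ψ ((2 : k) ^ m * x) ^ 2 := by
    intro m
    rw [pow_two, ← hadd]
    congr 1
    ring
  have key := circle_rigid83 (fun m => ψ ((2 : k) ^ m * x)) (fun m => hnorm _) hpow
    (fun m => by
      have h1 : dist ((2 : k) ^ m * x) 0 < ε := by
        rw [dist_zero_right]
        exact lt_of_le_of_lt (norm_two_pow_mul_le83 m x) hx
      have h2 := hball h1
      rw [h0, dist_eq_norm] at h2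
      exact h2)
  simpa using key

/-- A continuous unitary character of `k` is locally constant. -/
theorem psi_locConst83 (ψ : k → ℂ) (hc : Continuous ψ)
    (hadd : ∀ x y : k, ψ (x + y) = ψ x * ψ y) (hnorm : ∀ x : k, ‖ψ x‖ = 1) :
    IsLocallyConstant ψ := by
  obtain ⟨ε, hε, h1⟩ := psi_eq_one_near83 ψ hc hadd hnorm
  rw [IsLocallyConstant.iff_exists_open]
  intro x
  refine ⟨Metric.ball x ε, Metric.isOpen_ball, Metric.mem_ball_self hε, fun y hy => ?_⟩
  have h2 : ψ y = ψ (x + (y - x)) := by congr 1; ring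
  rw [h2, hadd, h1 (y - x) (by rw [← dist_eq_norm]; exact hy), mul_one]

/-- `ψ 0 = 1`. -/
theorem psi_zero83 (ψ : k → ℂ) (hadd : ∀ x y : k, ψ (x + y) = ψ x * ψ y)
    (hnorm : ∀ x : k, ‖ψ x‖ = 1) : ψ 0 = 1 := by
  have h1 := hadd 0 0
  rw [add_zero] at h1
  have h2 : ψ 0 ≠ 0 := by
    intro h
    have := hnorm 0
    rw [h, norm_zero] at this
    exact zero_ne_one this
  have h3 : ψ 0 * 1 = ψ 0 * ψ 0 := by rw [mul_one]; exact h1
  exact (mul_left_cancel₀ h2 h3).symm

end Psi

section SB

variable {k : Type} [NormedField k]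

/-- `IsSB` is stable under multiplication on the left by a locally constant function. -/
theorem isSB_mul_left83 {Φ : k × k → ℂ} (hΦ : LF54.IsSB Φ) {g : k × k → ℂ}
    (hg : IsLocallyConstant g) : LF54.IsSB (fun y => g y * Φ y) := by
  refine ⟨?_, ?_⟩
  · exact hg.mul hΦ.1
  · exact hΦ.2.mul_left

/-- `IsSB` is stable under multiplication on the right by a locally constant function. -/
theorem isSB_mul_right83 {Φ : k × k → ℂ} (hΦ : LF54.IsSB Φ) {g : k × k → ℂ}
    (hg : IsLocallyConstant g) : LF54.IsSB (fun y => Φ y * g y) := by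
  refine ⟨?_, ?_⟩
  · exact hΦ.1.mul hg
  · exact hΦ.2.mul_right

/-- `IsSB` is stable under the dilations. -/
theorem isSB_comp_smul83 {Φ : k × k → ℂ} (hΦ : LF54.IsSB Φ) {a : k} (ha : a ≠ 0) :
    LF54.IsSB (fun y => Φ (a • y)) := by
  refine ⟨?_, ?_⟩
  · exact hΦ.1.comp_continuous (continuous_const_smul a)
  · exact hΦ.2.comp_homeomorph (Homeomorph.smulOfNeZero a ha)

/-- `ψ ∘ P` is locally constant for `P` continuous. -/
theorem locConst_psi_comp83 [IsUltrametricDist k] {ψ : k → ℂ} (hψ : WX467.IsCharL ψ)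
    {P : k × k → k} (hP : Continuous P) : IsLocallyConstant (fun y => ψ (P y)) :=
  (psi_locConst83 ψ hψ.1 hψ.2.1 hψ.2.2.1).comp_continuous hP

theorem continuous_qfL83 (t n : k) : Continuous (qfL t n) := by
  unfold qfL
  fun_prop

theorem continuous_bfL_right83 (t n : k) (ξ : k × k) : Continuous (fun y => bfL t n ξ y) := by
  unfold bfL qfL
  fun_prop

end SB

section Int

variable {k : Type} [NormedField k]

theorem intL_const_mul83 (μ : @Measure k (borel k)) (c : ℂ) (f : k × k → ℂ) :
    intL μ (fun y => c * f y) = c * intL μ f := by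
  unfold intL
  exact MeasureTheory.integral_const_mul c f

theorem intL_congr83 (μ : @Measure k (borel k)) {f g : k × k → ℂ} (h : ∀ y, f y = g y) :
    intL μ f = intL μ g := by
  have : f = g := funext h
  rw [this]

/-- The dilation `y ↦ a • y` from `CovP`: `∫ f(a y) dy = ‖a‖⁻² ∫ f`. -/
theorem intL_smul83 {μ : @Measure k (borel k)} (hcov : CovP μ) {a : k} (ha : a ≠ 0)
    {f : k × k → ℂ} (hf : LF54.IsSB f) :
    intL μ (fun y => f (a • y)) = (((‖a‖ ^ 2)⁻¹ : ℝ) : ℂ) * intL μ f := by
  have hdet : (!![a, 0; 0, a] : Matrix (Fin 2) (Fin 2) k).det = a ^ 2 := by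
    rw [Matrix.det_fin_two_of]; ring
  have h := hcov (!![a, 0; 0, a]) (by rw [hdet]; exact pow_ne_zero 2 ha) f hf
  rw [hdet, norm_pow] at h
  rw [← h]
  apply intL_congr83
  intro y
  congr 1
  unfold actL
  ext <;> simp

end Int

end Fermat.Agent.LT.A2.H83

end

end
-- ===== PACK-END LT/A2/H83/SBKit.lean

-- ===== PACK-BEGIN LT/A2/H798/CxTransport.lean
section


/-!
# Row LT, tower A2, leaf A2.03.1.1.10.10 `CX798.TransportC` (helper798, OFF-MAIN)

The plumbing `K_u ≅ ℂ` for a complex place `u`: from the certificate `CpxPackC` of the closed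
form on `ℂ`, the classification `CharFormC` of the characters of `ℂ` and the local
non-triviality `LocNontrivC` of the adele character to `WX467.LocCpxC`.
-/

set_option autoImplicit false
set_option linter.unusedSectionVars false
set_option linter.unusedVariables false
set_option linter.style.haveILetI false

open IsDedekindDomain NumberField AutomorphicForm MeasureTheory
open scoped MatrixGroups Topology ComplexConjugate

noncomputable section

namespace Fermat.Agent.LT.A2.CX798

open Fermat.Agent.LT.H130 Fermat.Agent.LT.H556 Fermat.Agent.LT.A2 Fermat.Agent.LT.A2.WX467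

/-! ## 1. Matrices and forms under a homomorphism of fields -/

section Hom

variable {k : Type} [Field k] (φ : k →+* ℂ)

theorem map_unip798 (x : k) :
    (!![1, x; 0, 1] : Matrix (Fin 2) (Fin 2) k).map φ = !![1, φ x; 0, 1] := by
  ext i j
  fin_cases i <;> fin_cases j <;> simp

theorem map_weyl798 :
    (!![0, 1; -1, 0] : Matrix (Fin 2) (Fin 2) k).map φ = !![0, 1; -1, 0] := by
  ext i j
  fin_cases i <;> fin_cases j <;> simp

theorem map_diag798 (a : k) :
    (!![a, 0; 0, a⁻¹] : Matrix (Fin 2) (Fin 2) k).map φ = !![φ a, 0; 0, (φ a)⁻¹] := by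
  ext i j
  fin_cases i <;> fin_cases j <;> simp

theorem map_dOne798 (a : k) :
    (!![1, 0; 0, a] : Matrix (Fin 2) (Fin 2) k).map φ = !![1, 0; 0, φ a] := by
  ext i j
  fin_cases i <;> fin_cases j <;> simp

theorem map_torMat798 (t n a b : k) :
    (torMat t n a b).map φ = torMat (φ t) (φ n) (φ a) (φ b) := by
  ext i j
  fin_cases i <;> fin_cases j <;> simp [torMat]

theorem map_mul798 (A B : Matrix (Fin 2) (Fin 2) k) :
    (A * B).map φ = A.map φ * B.map φ := Matrix.map_mul

theorem map_one798 : (1 : Matrix (Fin 2) (Fin 2) k).map φ = 1 :=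
  Matrix.map_one φ (map_zero φ) (map_one φ)

theorem det_map798 (A : Matrix (Fin 2) (Fin 2) k) : (A.map φ).det = φ A.det :=
  (RingHom.map_det φ A).symm

theorem map_inv798 (A : Matrix (Fin 2) (Fin 2) k) : (A⁻¹).map φ = (A.map φ)⁻¹ := by
  rw [Matrix.inv_def, Matrix.inv_def, det_map798, Ring.inverse_eq_inv', Ring.inverse_eq_inv',
    ← map_inv₀]
  have h := RingHom.map_adjugate φ A
  ext i j
  have hij := congrFun (congrFun h i) j
  simp only [Matrix.map_apply, Matrix.smul_apply, smul_eq_mul, map_mul]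
  congr 1

theorem inTorL_map798 {t n : k} {m : Matrix (Fin 2) (Fin 2) k} (h : InTorL t n m) :
    InTorL (φ t) (φ n) (m.map φ) := by
  obtain ⟨a, b, rfl⟩ := h
  exact ⟨φ a, φ b, map_torMat798 φ t n a b⟩

theorem admL_map798 {t n : k} {g m : Matrix (Fin 2) (Fin 2) k} (h : AdmL t n g m) :
    AdmL (φ t) (φ n) (g.map φ) (m.map φ) := by
  obtain ⟨h1, h2, h3⟩ := h
  refine ⟨inTorL_map798 φ h1, ?_, ?_⟩
  · rw [det_map798, det_map798, h2]
  · rw [det_map798]
    exact fun h0 => h3 ((map_eq_zero φ).1 h0)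

/-- The pair of images. -/
def mapV798 (ξ : k × k) : ℂ × ℂ := (φ ξ.1, φ ξ.2)

theorem qfL_map798 (t n : k) (ξ : k × k) :
    φ (qfL t n ξ) = qfL (φ t) (φ n) (mapV798 φ ξ) := by
  simp [qfL, mapV798]

theorem bfL_map798 (t n : k) (ξ y : k × k) :
    φ (bfL t n ξ y) = bfL (φ t) (φ n) (mapV798 φ ξ) (mapV798 φ y) := by
  simp [bfL, qfL, mapV798]

theorem actL_map798 (m : Matrix (Fin 2) (Fin 2) k) (ξ : k × k) :
    mapV798 φ (actL m ξ) = actL (m.map φ) (mapV798 φ ξ) := by
  simp [actL, mapV798]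

theorem smul_map798 (a : k) (ξ : k × k) : mapV798 φ (a • ξ) = φ a • mapV798 φ ξ := by
  simp [mapV798]

end Hom

/-! ## 2. The completion at a complex place -/

section Place

variable {K : Type} [Field K] [NumberField K] (u : InfinitePlace K) (hu : u.IsComplex)

/-- The embedding `K_u → ℂ`. -/
abbrev emb798 : u.Completion →+* ℂ := InfinitePlace.Completion.extensionEmbedding u

theorem norm_emb798 (x : u.Completion) : ‖emb798 u x‖ = ‖x‖ :=
  (InfinitePlace.Completion.isometry_extensionEmbedding u).norm_map_of_map_zero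
    (map_zero _) x

theorem emb_algebraMap798 (a : K) : emb798 u (algebraMap K u.Completion a) = u.embedding a := by
  have h := InfinitePlace.Completion.extensionEmbedding_coe u ((WithAbs.equiv u.1).symm a)
  rw [RingEquiv.apply_symm_apply] at h
  exact h

/-- The homeomorphism `K_u ≃ ℂ`. -/
def homeo798 : u.Completion ≃ₜ ℂ :=
  (InfinitePlace.Completion.isometryEquivComplexOfIsComplex hu).toHomeomorph

theorem homeo_apply798 (x : u.Completion) : homeo798 u hu x = emb798 u x := rfl

theorem emb_symm798 (z : ℂ) : emb798 u ((homeo798 u hu).symm z) = z :=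
  (homeo798 u hu).apply_symm_apply z

theorem symm_emb798 (x : u.Completion) : (homeo798 u hu).symm (emb798 u x) = x :=
  (homeo798 u hu).symm_apply_apply x

/-- The measurable equivalence `K_u ≃ ℂ` for the Borel σ-algebras. -/
def mequiv798 : @MeasurableEquiv u.Completion ℂ (borel u.Completion) (borel ℂ) :=
  letI : MeasurableSpace u.Completion := borel u.Completion
  haveI : BorelSpace u.Completion := ⟨rfl⟩
  (homeo798 u hu).toMeasurableEquiv

theorem mequiv_apply798 (x : u.Completion) : mequiv798 u hu x = emb798 u x := rfl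

/-- The image of the Lebesgue measure of `ℂ` on `K_u`. -/
def muU798 : @Measure u.Completion (borel u.Completion) :=
  letI : MeasurableSpace u.Completion := borel u.Completion
  Measure.map (mequiv798 u hu).symm volC

theorem muU_apply798 (S : Set u.Completion) : muU798 u hu S = volC (emb798 u '' S) := by
  letI : MeasurableSpace u.Completion := borel u.Completion
  have h := MeasurableEquiv.map_apply (μ := volC) (mequiv798 u hu).symm S
  rw [muU798, h]
  congr 1
  ext z
  constructor
  · intro hz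
    exact ⟨(mequiv798 u hu).symm z, hz, (mequiv798 u hu).apply_symm_apply z⟩
  · rintro ⟨x, hx, rfl⟩
    show (mequiv798 u hu).symm (mequiv798 u hu x) ∈ S
    rw [(mequiv798 u hu).symm_apply_apply]
    exact hx

theorem intL_muU798 (f : u.Completion × u.Completion → ℂ) :
    intL (muU798 u hu) f
      = intL volC fun y => f ((homeo798 u hu).symm y.1, (homeo798 u hu).symm y.2) := by
  letI : MeasurableSpace u.Completion := borel u.Completion
  unfold intL muU798
  haveI : SFinite volC := inferInstanceAs (SFinite (volume : Measure ℂ))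
  rw [Measure.map_prod_map volC volC (mequiv798 u hu).symm.measurable
    (mequiv798 u hu).symm.measurable]
  exact integral_map_equiv
    (MeasurableEquiv.prodCongr (mequiv798 u hu).symm (mequiv798 u hu).symm) f

theorem integrableL_muU798 (f : u.Completion × u.Completion → ℂ)
    (h : IntegrableL volC fun y => f ((homeo798 u hu).symm y.1, (homeo798 u hu).symm y.2)) :
    IntegrableL (muU798 u hu) f := by
  letI : MeasurableSpace u.Completion := borel u.Completion
  unfold IntegrableL muU798 at *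
  haveI : SFinite volC := inferInstanceAs (SFinite (volume : Measure ℂ))
  rw [Measure.map_prod_map volC volC (mequiv798 u hu).symm.measurable
    (mequiv798 u hu).symm.measurable]
  exact (integrable_map_equiv
    (MeasurableEquiv.prodCongr (mequiv798 u hu).symm (mequiv798 u hu).symm) f).2 h

theorem haar_muU798 :
    (letI : MeasurableSpace u.Completion := borel u.Completion
      ∀ (x : u.Completion) (S : Set u.Completion),
        muU798 u hu ((fun y => x + y) '' S) = muU798 u hu S) ∧
      (∀ C : Set u.Completion, IsCompact C → muU798 u hu C < ⊤) ∧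
      ∀ U : Set u.Completion, IsOpen U → U.Nonempty → 0 < muU798 u hu U := by
  obtain ⟨h1, h2, h3⟩ := haar_volC798
  refine ⟨?_, ?_, ?_⟩
  · intro x S
    rw [muU_apply798, muU_apply798]
    have h : emb798 u '' ((fun y => x + y) '' S) = (fun z => emb798 u x + z) '' (emb798 u '' S) := by
      ext z
      constructor
      · rintro ⟨_, ⟨y, hy, rfl⟩, rfl⟩
        exact ⟨emb798 u y, ⟨y, hy, rfl⟩, (map_add _ _ _).symm⟩
      · rintro ⟨_, ⟨y, hy, rfl⟩, rfl⟩
        exact ⟨x + y, ⟨y, hy, rfl⟩, map_add _ _ _⟩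
    rw [h]
    exact h1 (emb798 u x) _
  · intro C hC
    rw [muU_apply798]
    exact h2 _ (hC.image (homeo798 u hu).continuous)
  · intro U hU hne
    rw [muU_apply798]
    exact h3 _ ((homeo798 u hu).isOpenMap U hU) (hne.image _)

end Place

/-! ## 3. The local axioms on `K_u` -/

section Ax

variable {K : Type} [Field K] [NumberField K] (u : InfinitePlace K)

/-- The family on `K_u`. -/
def FU798 (c ω₁ ω₂ : ℂ) (g m : Matrix (Fin 2) (Fin 2) u.Completion)
    (ξ : u.Completion × u.Completion) : ℂ :=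
  FC c ω₁ ω₂ (g.map (emb798 u)) (m.map (emb798 u)) (mapV798 (emb798 u) ξ)

theorem admL_emb798 {ω₁ ω₂ : ℂ} {tK nK : K} (hT : ω₁ + ω₂ = u.embedding tK)
    (hN : ω₁ * ω₂ = u.embedding nK) {g m : Matrix (Fin 2) (Fin 2) u.Completion}
    (h : AdmL (algebraMap K u.Completion tK) (algebraMap K u.Completion nK) g m) :
    AdmL (ω₁ + ω₂) (ω₁ * ω₂) (g.map (emb798 u)) (m.map (emb798 u)) := by
  have h1 := admL_map798 (emb798 u) h
  rw [emb_algebraMap798, emb_algebraMap798] at h1
  rw [hT, hN]
  exact h1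

theorem inTorL_emb798 {ω₁ ω₂ : ℂ} {tK nK : K} (hT : ω₁ + ω₂ = u.embedding tK)
    (hN : ω₁ * ω₂ = u.embedding nK) {m : Matrix (Fin 2) (Fin 2) u.Completion}
    (h : InTorL (algebraMap K u.Completion tK) (algebraMap K u.Completion nK) m) :
    InTorL (ω₁ + ω₂) (ω₁ * ω₂) (m.map (emb798 u)) := by
  have h1 := inTorL_map798 (emb798 u) h
  rw [emb_algebraMap798, emb_algebraMap798] at h1
  rw [hT, hN]
  exact h1

theorem mapV_symm798 (hu : u.IsComplex) (y : ℂ × ℂ) :
    mapV798 (emb798 u) ((homeo798 u hu).symm y.1, (homeo798 u hu).symm y.2) = y := by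
  refine Prod.ext ?_ ?_
  · exact emb_symm798 u hu y.1
  · exact emb_symm798 u hu y.2

theorem continuous_mapV798 (hu : u.IsComplex) : Continuous (mapV798 (emb798 u)) := by
  unfold mapV798
  exact ((homeo798 u hu).continuous.comp continuous_fst).prodMk
    ((homeo798 u hu).continuous.comp continuous_snd)

theorem continuous_mapM798 (hu : u.IsComplex) :
    Continuous fun g : Matrix (Fin 2) (Fin 2) u.Completion => g.map (emb798 u) :=
  Continuous.matrix_map continuous_id (homeo798 u hu).continuous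

theorem mult_eq_two798 (hu : u.IsComplex) : u.mult = 2 := InfinitePlace.mult_isComplex ⟨u, hu⟩

theorem locAx_transport798 (hu : u.IsComplex) (c ω₁ ω₂ : ℂ) (tK nK : K) (hT : ω₁ + ω₂ = u.embedding tK)
    (hN : ω₁ * ω₂ = u.embedding nK) (P : CpxPack c ω₁ ω₂) :
    LocAx (fun x : u.Completion => ‖x‖ ^ u.mult) (algebraMap K u.Completion tK)
      (algebraMap K u.Completion nK) (fun y => psiC c (emb798 u y)) (muU798 u hu)
      (gamC c ω₁ ω₂) (fun _ => 1) (FU798 u c ω₁ ω₂) := by
  have hqf : ∀ ξ : u.Completion × u.Completion,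
      emb798 u (qfL (algebraMap K u.Completion tK) (algebraMap K u.Completion nK) ξ)
        = qfL (ω₁ + ω₂) (ω₁ * ω₂) (mapV798 (emb798 u) ξ) := by
    intro ξ
    rw [qfL_map798, emb_algebraMap798, emb_algebraMap798, hT, hN]
  have hbf : ∀ ξ y : u.Completion × u.Completion,
      emb798 u (bfL (algebraMap K u.Completion tK) (algebraMap K u.Completion nK) ξ y)
        = bfL (ω₁ + ω₂) (ω₁ * ω₂) (mapV798 (emb798 u) ξ) (mapV798 (emb798 u) y) := by
    intro ξ y
    rw [bfL_map798, emb_algebraMap798, emb_algebraMap798, hT, hN]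
  refine
    { unip := ?_
      weyl := ?_
      diag := ?_
      tor := ?_
      eta_mul := fun _ _ _ _ => (one_mul (1 : ℂ)).symm
      eta_sq := fun _ _ => Or.inl rfl
      eta_norm := fun _ _ _ => rfl
      eta_cont := continuousOn_const
      haar := haar_muU798 u hu
      psi_char := ?_
      cont := ?_
      integrable := ?_ }
  · intro x g m ξ h
    have h' := admL_emb798 u hT hN h
    unfold FU798
    rw [map_mul798, map_unip798, P.ax.unip (emb798 u x) _ _ _ h']
    congr 2
    rw [map_mul, hqf]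
  · intro g m ξ h
    have h' := admL_emb798 u hT hN h
    unfold FU798
    rw [map_mul798, map_weyl798, P.ax.weyl _ _ _ h', intL_muU798]
    congr 2
    funext y
    rw [hbf, mapV_symm798 u hu]
  · intro a ha g m ξ h
    have h' := admL_emb798 u hT hN h
    unfold FU798
    rw [map_mul798, map_diag798,
      P.ax.diag (emb798 u a) ((map_ne_zero (emb798 u)).2 ha) _ _ _ h', mult_eq_two798 u hu,
      norm_emb798, smul_map798]
  · intro μ' hμ hdet g m ξ h
    have h' := admL_emb798 u hT hN h
    have hμ' := inTorL_emb798 u hT hN hμ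
    have hdet' : (μ'.map (emb798 u)).det ≠ 0 := by
      rw [det_map798]
      exact (map_ne_zero (emb798 u)).2 hdet
    unfold FU798
    rw [map_mul798, map_mul798, map_dOne798, actL_map798, map_inv798, ← det_map798,
      ← P.ax.tor _ hμ' hdet' _ _ _ h', mult_eq_two798 u hu, det_map798, norm_emb798]
  · exact ⟨(continuous_psiC798 c).comp (homeo798 u hu).continuous,
      fun x y => by rw [map_add, psiC_add798], fun x => norm_psiC798 c _⟩
  · intro g m h
    have h' := admL_emb798 u hT hN h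
    unfold FU798
    exact (P.ax.cont _ _ h').comp (continuous_mapV798 u hu)
  · intro g m h
    have h' := admL_emb798 u hT hN h
    apply integrableL_muU798 u hu
    have h2 := P.ax.integrable _ _ h'
    have h3 : (fun y : ℂ × ℂ => FU798 u c ω₁ ω₂ g m
        ((homeo798 u hu).symm y.1, (homeo798 u hu).symm y.2))
        = FC c ω₁ ω₂ (g.map (emb798 u)) (m.map (emb798 u)) := by
      funext y
      unfold FU798
      rw [mapV_symm798 u hu]
    rw [h3]
    exact h2

end Ax

/-! ## 4. The adeles supported at `u`, the local character, the roots -/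

section Global

variable {K : Type} [Field K] [NumberField K] (u : InfinitePlace K)

/-- The adele supported at `u` with component `y`. -/
def inj798 (y : u.Completion) : A0.Adl K :=
  open Classical in
  (show InfiniteAdeleRing K × FiniteAdeleRing (𝓞 K) K from (Pi.single u y, 0))

theorem inj_fst_same798 (y : u.Completion) : (inj798 u y).1 u = y := by
  classical
  show (Pi.single u y : (v : InfinitePlace K) → v.Completion) u = y
  exact Pi.single_eq_same u y

theorem inj_fst_ne798 (y : u.Completion) {w : InfinitePlace K} (hw : w ≠ u) :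
    (inj798 u y).1 w = 0 := by
  classical
  show (Pi.single u y : (v : InfinitePlace K) → v.Completion) w = 0
  exact Pi.single_eq_of_ne hw y

theorem inj_snd798 (y : u.Completion) : (inj798 u y).2 = 0 := rfl

theorem continuous_inj798 : Continuous (inj798 u) := by
  classical
  unfold inj798
  exact (continuous_single (A := fun v : InfinitePlace K => v.Completion) u).prodMk
    continuous_const

theorem inj_add798 (x y : u.Completion) : inj798 u (x + y) = inj798 u x + inj798 u y := by
  classical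
  refine Prod.ext ?_ ?_
  · show (Pi.single u (x + y) : (v : InfinitePlace K) → v.Completion)
      = Pi.single u x + Pi.single u y
    exact Pi.single_add u x y
  · show (0 : FiniteAdeleRing (𝓞 K) K) = 0 + 0
    rw [add_zero]

theorem adlAtInf_inj798 (y : u.Completion) : WL.AdlAtInf u (inj798 u y) :=
  ⟨fun w hw => inj_fst_ne798 u y hw, fun v => rfl⟩

theorem eq_inj_of_adlAtInf798 {x : A0.Adl K} (hx : WL.AdlAtInf u x) :
    x = inj798 u (x.1 u) := by
  refine Prod.ext ?_ ?_
  · funext w
    by_cases hw : w = u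
    · subst hw
      exact (inj_fst_same798 w (x.1 w)).symm
    · rw [inj_fst_ne798 u _ hw]
      exact hx.1 w hw
  · rw [inj_snd798]
    exact RestrictedProduct.ext _ _ fun v => hx.2 v

theorem psiC_zero798 (x : ℂ) : psiC 0 x = 1 := by
  simp [psiC]

/-- The local character: `ψ` on the adeles supported at `u` is `ψ_c`, `c ≠ 0`. -/
theorem exists_local_char798 (hu : u.IsComplex) (hChar : CharFormC) (hNon : LocNontrivC)
    (ψ : A0.Adl K → ℂ) (hT1 : T1.T1Out K) (hψ : IsAdeleChar ψ) :
    ∃ c : ℂ, c ≠ 0 ∧ ∀ y : u.Completion, ψ (inj798 u y) = psiC c (emb798 u y) := by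
  obtain ⟨c, hc⟩ := hChar (fun z => ψ (inj798 u ((homeo798 u hu).symm z)))
    (hψ.cont.comp ((continuous_inj798 u).comp (homeo798 u hu).symm.continuous))
    (fun x y => by
      show ψ (inj798 u ((homeo798 u hu).symm (x + y))) = _
      have h : (homeo798 u hu).symm (x + y)
          = (homeo798 u hu).symm x + (homeo798 u hu).symm y := by
        apply (homeo798 u hu).injective
        rw [Homeomorph.apply_symm_apply, homeo_apply798, map_add, emb_symm798, emb_symm798]
      rw [h, inj_add798, hψ.map_add])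
    (fun x => hψ.norm_one _)
  have hy : ∀ y : u.Completion, ψ (inj798 u y) = psiC c (emb798 u y) := by
    intro y
    have := hc (emb798 u y)
    simp only [symm_emb798] at this
    exact this
  refine ⟨c, ?_, hy⟩
  rintro rfl
  obtain ⟨x, hx, hne⟩ := hNon K ψ u hT1 hψ
  apply hne
  rw [eq_inj_of_adlAtInf798 u hx, hy, psiC_zero798]

/-- The roots of `X² - u(t) X + u(n)`: distinct when `X² - tX + n` has no root in `K`. -/
theorem exists_roots798 (t n : K) (hirr : ∀ x : K, x ^ 2 - t * x + n ≠ 0) :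
    ∃ ω₁ ω₂ : ℂ, ω₁ ≠ ω₂ ∧ ω₁ + ω₂ = u.embedding t ∧ ω₁ * ω₂ = u.embedding n := by
  obtain ⟨s, hs⟩ := IsAlgClosed.exists_pow_nat_eq
    ((u.embedding t) ^ 2 - 4 * u.embedding n) (n := 2) (by norm_num)
  have hdisc : t ^ 2 - 4 * n ≠ 0 := by
    intro h0
    apply hirr (t / 2)
    have : (t / 2) ^ 2 - t * (t / 2) + n = -(t ^ 2 - 4 * n) / 4 := by ring
    rw [this, h0]
    simp
  have hs0 : s ≠ 0 := by
    rintro rfl
    apply hdisc
    apply u.embedding.injective
    have h4 : u.embedding (4 : K) = 4 := map_ofNat u.embedding 4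
    rw [map_sub, map_pow, map_mul, map_zero, h4, ← hs]
    simp
  refine ⟨(u.embedding t + s) / 2, (u.embedding t - s) / 2, ?_, ?_, ?_⟩
  · intro h
    apply hs0
    have : s = (u.embedding t + s) / 2 - (u.embedding t - s) / 2 := by ring
    rw [this, h, sub_self]
  · ring
  · have : (u.embedding t + s) / 2 * ((u.embedding t - s) / 2)
        = ((u.embedding t) ^ 2 - s ^ 2) / 4 := by ring
    rw [this, hs]
    ring

/-- Two pairs with the same sum and product. -/
theorem pair_eq798 {a b c d : ℂ} (hs : a + b = c + d) (hp : a * b = c * d) :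
    (a = c ∧ b = d) ∨ (a = d ∧ b = c) := by
  have h : (a - c) * (a - d) = 0 := by
    have hb : b = c + d - a := by rw [← hs]; ring
    rw [hb] at hp
    linear_combination -hp
  rcases mul_eq_zero.1 h with h1 | h1
  · have hac : a = c := sub_eq_zero.1 h1
    left
    refine ⟨hac, ?_⟩
    rw [hac] at hs
    exact add_left_cancel hs
  · have had : a = d := sub_eq_zero.1 h1
    right
    refine ⟨had, ?_⟩
    rw [had, add_comm c d] at hs
    exact add_left_cancel hs

end Global

/-! ## 5. The leaf -/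

section Leaf

variable {K : Type} [Field K] [NumberField K] (u : InfinitePlace K)

theorem embMat_eq798 (k : Matrix (Fin 2) (Fin 2) u.Completion) :
    embMat u k = k.map (emb798 u) := rfl

theorem FU_one_one798 (c ω₁ ω₂ : ℂ) (P : CpxPack c ω₁ ω₂) (ξ : u.Completion × u.Completion) :
    FU798 u c ω₁ ω₂ 1 1 ξ = gaussL u c ω₁ ω₂ ξ := by
  unfold FU798 gaussL
  rw [map_one798, P.gauss]
  rfl

theorem gaussL_swap798 (c ω₁ ω₂ : ℂ) (ξ : u.Completion × u.Completion) :
    gaussL u c ω₁ ω₂ ξ = gaussL u c ω₂ ω₁ ξ := by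
  unfold gaussL
  rw [add_comm (‖_‖ ^ 2)]

theorem right_inv_transport798 (hu : u.IsComplex) (c ω₁ ω₂ : ℂ) (tK nK : K)
    (hT : ω₁ + ω₂ = u.embedding tK) (hN : ω₁ * ω₂ = u.embedding nK) (P : CpxPack c ω₁ ω₂)
    (k κ : Matrix (Fin 2) (Fin 2) u.Completion)
    (hk : embMat u k * (embMat u k).conjTranspose = 1)
    (hκ : embMat u κ * (embMat u κ).conjTranspose = 1)
    (hκT : InTorL (algebraMap K u.Completion tK) (algebraMap K u.Completion nK) κ)
    (hdet : k.det = κ.det) (g m : Matrix (Fin 2) (Fin 2) u.Completion)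
    (ξ : u.Completion × u.Completion)
    (h : AdmL (algebraMap K u.Completion tK) (algebraMap K u.Completion nK) g m) :
    FU798 u c ω₁ ω₂ (g * k) (m * κ) ξ = FU798 u c ω₁ ω₂ g m ξ := by
  unfold FU798
  rw [map_mul798, map_mul798]
  refine P.right_inv _ _ ?_ ?_ (inTorL_emb798 u hT hN hκT) ?_ _ _ _ (admL_emb798 u hT hN h)
  · rw [← embMat_eq798]
    exact hk
  · rw [← embMat_eq798]
    exact hκ
  · rw [det_map798, det_map798, hdet]

theorem cont_transport798 (hu : u.IsComplex) (c ω₁ ω₂ : ℂ) (tK nK : K)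
    (hT : ω₁ + ω₂ = u.embedding tK) (hN : ω₁ * ω₂ = u.embedding nK) (P : CpxPack c ω₁ ω₂) :
    ContinuousOn
      (fun q : (Matrix (Fin 2) (Fin 2) u.Completion × Matrix (Fin 2) (Fin 2) u.Completion) ×
          (u.Completion × u.Completion) => FU798 u c ω₁ ω₂ q.1.1 q.1.2 q.2)
      {q | AdmL (algebraMap K u.Completion tK) (algebraMap K u.Completion nK) q.1.1 q.1.2} := by
  have hΦ : Continuous
      (fun q : (Matrix (Fin 2) (Fin 2) u.Completion × Matrix (Fin 2) (Fin 2) u.Completion) ×
          (u.Completion × u.Completion) =>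
        (((q.1.1.map (emb798 u), q.1.2.map (emb798 u)), mapV798 (emb798 u) q.2) :
          (Matrix (Fin 2) (Fin 2) ℂ × Matrix (Fin 2) (Fin 2) ℂ) × (ℂ × ℂ))) :=
    (((continuous_mapM798 u hu).comp (continuous_fst.comp continuous_fst)).prodMk
      ((continuous_mapM798 u hu).comp (continuous_snd.comp continuous_fst))).prodMk
      ((continuous_mapV798 u hu).comp continuous_snd)
  have hmaps : Set.MapsTo
      (fun q : (Matrix (Fin 2) (Fin 2) u.Completion × Matrix (Fin 2) (Fin 2) u.Completion) ×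
          (u.Completion × u.Completion) =>
        (((q.1.1.map (emb798 u), q.1.2.map (emb798 u)), mapV798 (emb798 u) q.2) :
          (Matrix (Fin 2) (Fin 2) ℂ × Matrix (Fin 2) (Fin 2) ℂ) × (ℂ × ℂ)))
      {q | AdmL (algebraMap K u.Completion tK) (algebraMap K u.Completion nK) q.1.1 q.1.2}
      {q | AdmL (ω₁ + ω₂) (ω₁ * ω₂) q.1.1 q.1.2} :=
    fun q hq => admL_emb798 u hT hN hq
  have h := ContinuousOn.comp P.cont hΦ.continuousOn hmaps
  unfold FU798
  exact h

theorem decay_transport798 (hu : u.IsComplex) (c ω₁ ω₂ : ℂ) (tK nK : K)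
    (hT : ω₁ + ω₂ = u.embedding tK) (hN : ω₁ * ω₂ = u.embedding nK) (P : CpxPack c ω₁ ω₂)
    (R : ℝ) : ∃ A δ : ℝ, 0 < δ ∧
      ∀ g m : Matrix (Fin 2) (Fin 2) u.Completion,
        AdmL (algebraMap K u.Completion tK) (algebraMap K u.Completion nK) g m →
        (∀ i j : Fin 2, ‖g i j‖ ≤ R ∧ ‖m i j‖ ≤ R ∧ ‖g⁻¹ i j‖ ≤ R ∧ ‖m⁻¹ i j‖ ≤ R) →
        ∀ ξ : u.Completion × u.Completion,
          ‖FU798 u c ω₁ ω₂ g m ξ‖ ≤ A * Real.exp (-δ * (‖ξ.1‖ ^ 2 + ‖ξ.2‖ ^ 2)) := by
  obtain ⟨A, δ, hδ, hA⟩ := P.decay R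
  refine ⟨A, δ, hδ, fun g m h hb ξ => ?_⟩
  have h1 := hA (g.map (emb798 u)) (m.map (emb798 u)) (admL_emb798 u hT hN h) (by
    intro i j
    obtain ⟨b1, b2, b3, b4⟩ := hb i j
    refine ⟨?_, ?_, ?_, ?_⟩
    · rw [Matrix.map_apply, norm_emb798]
      exact b1
    · rw [Matrix.map_apply, norm_emb798]
      exact b2
    · rw [← map_inv798, Matrix.map_apply, norm_emb798]
      exact b3
    · rw [← map_inv798, Matrix.map_apply, norm_emb798]
      exact b4) (mapV798 (emb798 u) ξ)
  unfold FU798
  have h2 : ‖(mapV798 (emb798 u) ξ).1‖ = ‖ξ.1‖ := norm_emb798 u ξ.1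
  have h3 : ‖(mapV798 (emb798 u) ξ).2‖ = ‖ξ.2‖ := norm_emb798 u ξ.2
  rw [h2, h3] at h1
  exact h1

/-- **Leaf CX.10 (transport).** -/
theorem transportC798 : TransportC := by
  intro hPack hChar hNon K _ _ t n χT ψ u hT1 hχ hψ hu
  obtain ⟨c, hc, hloc⟩ := exists_local_char798 u hu hChar hNon ψ hT1 hψ
  obtain ⟨ω₁, ω₂, hω, hsum, hprod⟩ := exists_roots798 u t n hχ.irred
  have P := hPack c ω₁ ω₂ hc hω
  refine ⟨fun y => psiC c (emb798 u y), muU798 u hu, gamC c ω₁ ω₂, fun _ => 1,
    FU798 u c ω₁ ω₂, ?_⟩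
  intro L' hM hMI
  obtain ⟨ht, hn, hχT, hψL⟩ := hM
  obtain ⟨h1, h2, h3, h4, h5⟩ := hMI
  refine
    { ax := ?_
      psi := ?_
      eta_one := ?_
      gauss := ?_
      right_inv := ?_
      cont := ?_
      decay := ?_ }
  · rw [WData.tinf, WData.ninf, ht, hn, h1, h2, h3, h4, h5]
    exact locAx_transport798 u hu c ω₁ ω₂ t n hsum hprod P
  · intro x hx
    rw [hψL, h1]
    calc ψ x = ψ (inj798 u (x.1 u)) := congrArg ψ (eq_inj_of_adlAtInf798 u hx)
      _ = psiC c (emb798 u (x.1 u)) := hloc _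
  · intro a _
    rw [h4]
  · refine ⟨c, hc, ?_, ?_⟩
    · intro x
      rw [h1]
      rfl
    · intro ω₁' ω₂' hs hp ξ
      rw [h5, FU_one_one798 u c ω₁ ω₂ P]
      rw [ht] at hs
      rw [hn] at hp
      rcases pair_eq798 (hs.trans hsum.symm) (hp.trans hprod.symm) with ⟨e1, e2⟩ | ⟨e1, e2⟩
      · rw [e1, e2]
      · rw [e1, e2]
        exact gaussL_swap798 u c ω₁ ω₂ ξ
  · intro k κ hk hκ hκT hdet g m ξ h
    rw [h5]
    rw [WData.tinf, WData.ninf, ht, hn] at hκT h
    exact right_inv_transport798 u hu c ω₁ ω₂ t n hsum hprod P k κ hk hκ hκT hdet g m ξ h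
  · rw [h5, WData.tinf, WData.ninf, ht, hn]
    exact cont_transport798 u hu c ω₁ ω₂ t n hsum hprod P
  · intro R
    rw [h5, WData.tinf, WData.ninf, ht, hn]
    exact decay_transport798 u hu c ω₁ ω₂ t n hsum hprod P R

end Leaf

end Fermat.Agent.LT.A2.CX798

end

end
-- ===== PACK-END LT/A2/H798/CxTransport.lean

-- ===== PACK-BEGIN LT/A2/H820/CharForm.lean
section


/-!
# Row LT, tower A2, leaf A2.03.1.1.10.08 `CX798.CharFormC` (helper820)

OFF-MAIN.  The continuous unitary characters of `ℂ` are the `ψ_c`.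

A continuous `f : ℝ → ℂ` with `f (s + t) = f s * f t`, `f 0 = 1` is an exponential: with
`F t = ∫₀ᵗ f`, some `F δ ≠ 0` (as `F' 0 = 1`), and `f t * F δ = F (t + δ) - F t`, so `f` is
differentiable with `f' = a f`, `a = (f δ - 1) / F δ`; hence `f t * exp (-a t)` is constant.
If `‖f‖ = 1` then `Re a = 0`.  Apply this to `t ↦ χ t` and `t ↦ χ (t i)`.
-/

set_option autoImplicit false

open MeasureTheory intervalIntegral

namespace Fermat.Agent.LT.A2.H820

/-- A continuous multiplicative function `ℝ → ℂ` with `f 0 ≠ 0`-type normalisation is an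
exponential. -/
theorem exists_exp_of_mul820 (f : ℝ → ℂ) (hf : Continuous f)
    (hadd : ∀ s t : ℝ, f (s + t) = f s * f t) (h0 : f 0 = 1) :
    ∃ a : ℂ, ∀ t : ℝ, f t = Complex.exp (a * t) := by
  -- the primitive
  set F : ℝ → ℂ := fun t => ∫ s in (0 : ℝ)..t, f s with hF
  have hFd : ∀ t : ℝ, HasDerivAt F (f t) t := fun t =>
    (hf.integral_hasStrictDerivAt 0 t).hasDerivAt
  -- some value of the primitive is nonzero
  obtain ⟨δ, hδ⟩ : ∃ δ : ℝ, F δ ≠ 0 := by
    by_contra hcon
    have hcon : ∀ δ : ℝ, F δ = 0 := fun δ => by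
      by_contra h
      exact hcon ⟨δ, h⟩
    have hF0 : F = fun _ => (0 : ℂ) := funext hcon
    have h1 : HasDerivAt F (f 0) 0 := hFd 0
    rw [hF0] at h1
    have h2 : HasDerivAt (fun _ : ℝ => (0 : ℂ)) 0 0 := hasDerivAt_const 0 0
    have := h1.unique h2
    rw [h0] at this
    exact one_ne_zero this
  -- the functional equation for the primitive
  have hkey : ∀ t : ℝ, f t * F δ = F (t + δ) - F t := by
    intro t
    have e1 : f t * F δ = ∫ s in (0 : ℝ)..δ, f (t + s) := by
      rw [hF]
      simp only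
      rw [← intervalIntegral.integral_const_mul]
      refine intervalIntegral.integral_congr ?_
      intro s _
      exact (hadd t s).symm
    have e2 : (∫ s in (0 : ℝ)..δ, f (t + s)) = ∫ s in (t + 0)..(t + δ), f s :=
      intervalIntegral.integral_comp_add_left f t
    rw [e1, e2, add_zero]
    rw [hF]
    simp only
    have hi : ∀ a b : ℝ, IntervalIntegrable f volume a b := fun a b =>
      hf.intervalIntegrable a b
    rw [intervalIntegral.integral_interval_sub_left (hi 0 (t + δ)) (hi 0 t)]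
  set a : ℂ := (f δ - 1) / F δ with ha
  have hfd : ∀ t : ℝ, HasDerivAt f (a * f t) t := by
    intro t
    have hf_eq : f = fun t => (F (t + δ) - F t) / F δ := by
      funext s
      rw [← hkey s]
      field_simp
    have h1 : HasDerivAt (fun s : ℝ => F (s + δ)) (f (t + δ)) t := by
      have := (hFd (t + δ)).comp_add_const t δ
      simpa using this
    have h2 : HasDerivAt (fun s : ℝ => (F (s + δ) - F s) / F δ) ((f (t + δ) - f t) / F δ) t :=
      (h1.sub (hFd t)).div_const _
    have h3 : (f (t + δ) - f t) / F δ = a * f t := by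
      rw [ha, hadd]
      field_simp
    rw [h3] at h2
    refine h2.congr_of_eventuallyEq (Filter.Eventually.of_forall fun s => ?_)
    exact congrFun hf_eq s
  refine ⟨a, ?_⟩
  -- `g t = f t * exp (-a t)` is constant
  set g : ℝ → ℂ := fun t => f t * Complex.exp (-(a * t)) with hg
  have hgd : ∀ t : ℝ, HasDerivAt g 0 t := by
    intro t
    have he : HasDerivAt (fun s : ℝ => Complex.exp (-(a * s))) (Complex.exp (-(a * t)) * (-a)) t := by
      have hlin : HasDerivAt (fun s : ℝ => -(a * (s : ℂ))) (-a) t := by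
        have h := ((hasDerivAt_id t).ofReal_comp.const_mul a).neg
        have h' : HasDerivAt (fun s : ℝ => -(a * (s : ℂ))) (-(a * ((1 : ℝ) : ℂ))) t := h
        simpa using h'
      exact hlin.cexp
    have := (hfd t).mul he
    have hz : a * f t * Complex.exp (-(a * t)) + f t * (Complex.exp (-(a * t)) * (-a)) = 0 := by
      ring
    rw [hz] at this
    exact this
  have hconst : ∀ t : ℝ, g t = g 0 := by
    intro t
    have hdiff : Differentiable ℝ g := fun s => (hgd s).differentiableAt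
    have hderiv : ∀ s, deriv g s = 0 := fun s => (hgd s).deriv
    exact is_const_of_deriv_eq_zero hdiff hderiv t 0
  intro t
  have h1 := hconst t
  rw [hg] at h1
  simp only [Complex.ofReal_zero, mul_zero, neg_zero, Complex.exp_zero, mul_one, h0] at h1
  have h2 : f t = f t * Complex.exp (-(a * t)) * Complex.exp (a * t) := by
    rw [mul_assoc, ← Complex.exp_add]
    simp
  rw [h2, h1, one_mul]

/-- A continuous unitary character of `ℝ` is `t ↦ exp (i a t)`. -/
theorem exists_real_exp_of_unitary820 (f : ℝ → ℂ) (hf : Continuous f)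
    (hadd : ∀ s t : ℝ, f (s + t) = f s * f t) (hn : ∀ t : ℝ, ‖f t‖ = 1) :
    ∃ a : ℝ, ∀ t : ℝ, f t = Complex.exp (Complex.I * ((a * t : ℝ) : ℂ)) := by
  have h0 : f 0 = 1 := by
    have h := hadd 0 0
    rw [add_zero] at h
    have hne : f 0 ≠ 0 := by
      intro hz
      have := hn 0
      rw [hz, norm_zero] at this
      exact zero_ne_one this
    have : f 0 * 1 = f 0 * f 0 := by rw [mul_one]; exact h
    exact (mul_left_cancel₀ hne this).symm
  obtain ⟨a, ha⟩ := exists_exp_of_mul820 f hf hadd h0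
  have hre : a.re = 0 := by
    have h1 := hn 1
    rw [ha 1, Complex.norm_exp] at h1
    simp only [Complex.ofReal_one, mul_one] at h1
    exact Real.exp_eq_one_iff _ |>.mp h1
  refine ⟨a.im, fun t => ?_⟩
  rw [ha t]
  congr 1
  apply Complex.ext <;> simp [hre]
  

theorem charForm_aux820 (χ : ℂ → ℂ) (hc : Continuous χ)
    (hadd : ∀ x y : ℂ, χ (x + y) = χ x * χ y) (hn : ∀ x : ℂ, ‖χ x‖ = 1) :
    ∃ c : ℂ, ∀ x : ℂ, χ x = Complex.exp (4 * Real.pi * Complex.I * (((c * x).re : ℝ) : ℂ)) := by
  obtain ⟨a, ha⟩ := exists_real_exp_of_unitary820 (fun t : ℝ => χ (t : ℂ))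
    (hc.comp Complex.continuous_ofReal)
    (fun s t => by
      show χ ((s + t : ℝ) : ℂ) = _
      rw [Complex.ofReal_add]
      exact hadd _ _)
    (fun t => hn _)
  obtain ⟨b, hb⟩ := exists_real_exp_of_unitary820 (fun t : ℝ => χ ((t : ℂ) * Complex.I))
    (hc.comp (Complex.continuous_ofReal.mul continuous_const))
    (fun s t => by
      show χ (((s + t : ℝ) : ℂ) * Complex.I) = _
      rw [Complex.ofReal_add, add_mul]
      exact hadd _ _)
    (fun t => hn _)
  refine ⟨((a : ℂ) - Complex.I * (b : ℂ)) / (4 * Real.pi), fun x => ?_⟩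
  have hx : x = (x.re : ℂ) + (x.im : ℂ) * Complex.I := (Complex.re_add_im x).symm
  have h1 : χ x = χ (x.re : ℂ) * χ ((x.im : ℂ) * Complex.I) := by
    conv_lhs => rw [hx]
    exact hadd _ _
  have h2 := ha x.re
  have h3 := hb x.im
  rw [h1, h2, h3, ← Complex.exp_add]
  congr 1
  have hpi : (Real.pi : ℝ) ≠ 0 := Real.pi_ne_zero
  have hre : ((((a : ℂ) - Complex.I * (b : ℂ)) / (4 * Real.pi)) * x).re
      = (a * x.re + b * x.im) / (4 * Real.pi) := by
    have : (((a : ℂ) - Complex.I * (b : ℂ)) / (4 * Real.pi)) * x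
        = (((a : ℂ) - Complex.I * (b : ℂ)) * x) / ((4 * Real.pi : ℝ) : ℂ) := by
      push_cast
      ring
    rw [this, Complex.div_ofReal_re]
    congr 1
    simp [Complex.mul_re]
  rw [hre]
  push_cast
  field_simp

/-- **Leaf A2.03.1.1.10.08 `CharFormC`.** -/
theorem charFormC820 : Fermat.Agent.LT.A2.CX798.CharFormC := by
  intro χ hc hadd hn
  obtain ⟨c, h⟩ := charForm_aux820 χ hc hadd hn
  exact ⟨c, fun x => by rw [h x]; rfl⟩

end Fermat.Agent.LT.A2.H820

end
-- ===== PACK-END LT/A2/H820/CharForm.lean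

-- ===== PACK-BEGIN LT/A2/H887/NonNormSum.lean
section




/-!
# Row LT, tower A2, leaf A2.03.1.1.06.10 `LF54.LeafNonNormSum` (helper887) -- OFF-MAIN

If the norm form `Q(x, y) = x² + t x y + n y²` over `K_v` misses a nonzero value, then some
nonzero sum of two values is missed.

Proof by contradiction.  Suppose every nonzero sum of two values is a value.  Then the set `N`
of values contains `0`, `1` and all squares, and it is closed under addition and (always) under
multiplication, so it contains every natural number.  With `m = N(v)` the absolute norm of `v`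
we have `|4 m| < 1`, so `1 - 4 m` is a square `s²` (Newton iteration, helper129), hence
`-1 = (s / (4 m - 1))² (4 m - 1)` is a value, hence `2 x = (x + 1)² + (-1) x² + (-1)` and
`x = 2 (x / 2)` are values for all `x`: nothing is missed.  No compactness is needed, and the
hypothesis `t² - 4 n ≠ 0` is not used.
-/

set_option autoImplicit false

open IsDedekindDomain NumberField

noncomputable section

namespace Fermat.Agent.LT.A2.H887

open Fermat.Agent.LT.A2 Fermat.Agent.LT.A2.WX467 Fermat.Agent.LT.A2.LF54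

section Alg

variable {k : Type} [NormedField k]

/-- The norm form is multiplicative. -/
theorem qfL_mul887 (t n x y x' y' : k) :
    qfL t n (x, y) * qfL t n (x', y')
      = qfL t n (x * x' - n * y * y', x * y' + x' * y + t * y * y') := by
  simp only [qfL]
  ring

theorem isNormL_zero887 (t n : k) : IsNormL t n 0 := ⟨0, 0, by simp [qfL]⟩

theorem isNormL_sq887 (t n c : k) : IsNormL t n (c ^ 2) := ⟨c, 0, by simp [qfL]⟩

theorem isNormL_one887 (t n : k) : IsNormL t n 1 := by
  simpa using isNormL_sq887 t n 1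

theorem isNormL_mul887 {t n a b : k} (ha : IsNormL t n a) (hb : IsNormL t n b) :
    IsNormL t n (a * b) := by
  obtain ⟨x, y, rfl⟩ := ha
  obtain ⟨x', y', rfl⟩ := hb
  exact ⟨_, _, (qfL_mul887 t n x y x' y').symm⟩

/-- The negation of the conclusion of `NonNormSumP`: the values are closed under nonzero sums. -/
def SumClosed887 (t n : k) : Prop :=
  ∀ x₁ y₁ x₂ y₂ : k, qfL t n (x₁, y₁) + qfL t n (x₂, y₂) ≠ 0 →
    IsNormL t n (qfL t n (x₁, y₁) + qfL t n (x₂, y₂))

theorem isNormL_add887 {t n : k} (H : SumClosed887 t n) {a b : k}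
    (ha : IsNormL t n a) (hb : IsNormL t n b) : IsNormL t n (a + b) := by
  obtain ⟨x, y, rfl⟩ := ha
  obtain ⟨x', y', rfl⟩ := hb
  by_cases h0 : qfL t n (x, y) + qfL t n (x', y') = 0
  · rw [h0]; exact isNormL_zero887 t n
  · exact H x y x' y' h0

theorem isNormL_natCast887 {t n : k} (H : SumClosed887 t n) (m : ℕ) : IsNormL t n (m : k) := by
  induction m with
  | zero => simpa using isNormL_zero887 t n
  | succ m ih =>
    rw [Nat.cast_succ]
    exact isNormL_add887 H ih (isNormL_one887 t n)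

/-- If `-1` is a value and `2 ≠ 0`, everything is a value. -/
theorem isNormL_all887 {t n : k} (H : SumClosed887 t n) (h2 : (2 : k) ≠ 0)
    (hneg : IsNormL t n (-1)) (x : k) : IsNormL t n x := by
  have hdouble : ∀ z : k, IsNormL t n (2 * z) := by
    intro z
    have h1 : IsNormL t n ((z + 1) ^ 2 + (-1) * z ^ 2 + (-1)) :=
      isNormL_add887 H
        (isNormL_add887 H (isNormL_sq887 t n (z + 1)) (isNormL_mul887 hneg (isNormL_sq887 t n z)))
        hneg
    have e : (z + 1) ^ 2 + (-1) * z ^ 2 + (-1) = 2 * z := by ring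
    rwa [e] at h1
  have := hdouble (x / 2)
  rwa [mul_div_cancel₀ x h2] at this

/-- The abstract form: if `1 - 4 m` is a square for some natural `m ≥ 1` with `4 m ≠ 1`, and
`2 ≠ 0`, then `NonNormSumP` holds. -/
theorem nonNormSumP_of_sq887 (t n : k) (h2 : (2 : k) ≠ 0) (m : ℕ) (hm : 1 ≤ m)
    (hne : (4 : k) * (m : k) - 1 ≠ 0) (s : k) (hs : s ^ 2 = 1 - 4 * (m : k)) :
    NonNormSumP t n := by
  rintro ⟨a, _, ha⟩
  by_contra hcon
  have H : SumClosed887 t n := by
    intro x₁ y₁ x₂ y₂ h0
    by_contra hN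
    exact hcon ⟨x₁, y₁, x₂, y₂, h0, hN⟩
  have hcast : ((4 * m - 1 : ℕ) : k) = 4 * (m : k) - 1 := by
    have : 1 ≤ 4 * m := by omega
    rw [Nat.cast_sub this]
    push_cast
    ring
  have hnat : IsNormL t n (4 * (m : k) - 1) := by
    rw [← hcast]
    exact isNormL_natCast887 H _
  have hneg : IsNormL t n (-1) := by
    have h1 : IsNormL t n ((s / (4 * (m : k) - 1)) ^ 2 * (4 * (m : k) - 1)) :=
      isNormL_mul887 (isNormL_sq887 t n _) hnat
    have e : (s / (4 * (m : k) - 1)) ^ 2 * (4 * (m : k) - 1) = -1 := by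
      rw [div_pow, hs]
      field_simp
      ring
    rwa [e] at h1
  exact ha (isNormL_all887 H h2 hneg a)

end Alg

section Adic

variable (K : Type) [Field K] [NumberField K] (v : HeightOneSpectrum (𝓞 K))

/-- The absolute norm of `v` has valuation `< 1` in `K_v`. -/
theorem valued_absNorm_lt_one887 :
    Valued.v ((Ideal.absNorm v.asIdeal : ℕ) : v.adicCompletion K) < 1 := by
  have hmem : ((Ideal.absNorm v.asIdeal : ℕ) : 𝓞 K) ∈ v.asIdeal := Ideal.absNorm_mem v.asIdeal
  have h1 : v.valuation K (algebraMap (𝓞 K) K ((Ideal.absNorm v.asIdeal : ℕ) : 𝓞 K)) < 1 :=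
    (HeightOneSpectrum.valuation_lt_one_iff_mem v _).mpr hmem
  have h2 := HeightOneSpectrum.valuedAdicCompletion_eq_valuation' (K := K) v
    (algebraMap (𝓞 K) K ((Ideal.absNorm v.asIdeal : ℕ) : 𝓞 K))
  have e : ((Ideal.absNorm v.asIdeal : ℕ) : v.adicCompletion K)
      = algebraMap K (v.adicCompletion K)
          (algebraMap (𝓞 K) K ((Ideal.absNorm v.asIdeal : ℕ) : 𝓞 K)) := by
    rw [map_natCast, map_natCast]
  rw [e]
  exact lt_of_eq_of_lt h2 h1

theorem two_ne_zero_adic887 : (2 : v.adicCompletion K) ≠ 0 := by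
  have hinj : Function.Injective (algebraMap K (v.adicCompletion K)) :=
    (algebraMap K (v.adicCompletion K)).injective
  intro h
  have h2 : algebraMap K (v.adicCompletion K) 2 = algebraMap K (v.adicCompletion K) 0 := by
    rw [map_ofNat, map_zero]
    exact h
  exact two_ne_zero (hinj h2)

/-- **Leaf A2.03.1.1.06.10.** -/
theorem leafNonNormSum887 : LeafNonNormSum := by
  intro K _ _ v t n _
  set m : ℕ := Ideal.absNorm v.asIdeal with hm
  have hv : Valued.v ((m : ℕ) : v.adicCompletion K) < 1 := valued_absNorm_lt_one887 K v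
  have hv4 : Valued.v ((4 : v.adicCompletion K) * (m : v.adicCompletion K)) < 1 := by
    rw [map_mul]
    have h4 : Valued.v (4 : v.adicCompletion K) ≤ 1 := by
      have e4 : (4 : v.adicCompletion K) = ((4 : ℕ) : v.adicCompletion K) := by norm_cast
      have hint : ((4 : ℕ) : v.adicCompletion K) ∈ v.adicCompletionIntegers K :=
        natCast_mem _ 4
      rw [e4]
      exact hint
    calc Valued.v (4 : v.adicCompletion K) * Valued.v (m : v.adicCompletion K)
        ≤ 1 * Valued.v (m : v.adicCompletion K) := mul_le_mul' h4 le_rfl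
      _ = Valued.v (m : v.adicCompletion K) := one_mul _
      _ < 1 := hv
  have hm1 : 1 ≤ m := by
    rcases Nat.eq_zero_or_pos m with h0 | h0
    · exfalso
      rw [h0, Nat.cast_zero, map_zero] at hv
      -- `0 < 1` is fine; use the ideal instead
      have : Ideal.absNorm v.asIdeal = 0 := h0
      rw [Ideal.absNorm_eq_zero_iff] at this
      exact v.ne_bot this
    · exact h0
  have hne : (4 : v.adicCompletion K) * (m : v.adicCompletion K) - 1 ≠ 0 := by
    intro h
    have h1 : (4 : v.adicCompletion K) * (m : v.adicCompletion K) = 1 := sub_eq_zero.mp h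
    rw [h1, map_one] at hv4
    exact lt_irrefl _ hv4
  obtain ⟨Y, hY⟩ := Fermat.Agent.LT.H129.exists_fixed129 (k := v.adicCompletion K) hv
  have hs : (2 * Y - 1) ^ 2 = 1 - 4 * (m : v.adicCompletion K) := by
    have : (2 * Y - 1) ^ 2 = 1 - 4 * (Y - Y ^ 2) := by ring
    rw [this]
    congr 2
    rw [sub_eq_iff_eq_add]
    rw [add_comm]
    exact hY
  exact nonNormSumP_of_sq887 t n (two_ne_zero_adic887 K v) m hm1 hne (2 * Y - 1) hs

end Adic

end Fermat.Agent.LT.A2.H887

end
end
-- ===== PACK-END LT/A2/H887/NonNormSum.lean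

-- ===== PACK-BEGIN LT/A2/H999/LGMeasure.lean
section


/-!
# Row LT, tower A2, leaf A2.03.1.1.08 `WX467.LocGoodOfRepC` (helper999), part 2: integrals

OFF-MAIN.  Measure theory at a finite place `v`: for a Haar measure `μ` of `K_v` with
`μ(𝒪_v) = 1` and a character `ψ_v` of conductor `𝒪_v`,

* the integral of `ψ_v(c y)` over `𝒪_v` is `1` if `c ∈ 𝒪_v` and `0` otherwise;
* the Fourier transform of `stdFn v` (for the bilinear form of `x² + t x y + n y²`, `t`, `n`
  integral, `t² - 4 n` a unit) is `stdFn v`;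
* the rescaling of the local axioms.
-/

set_option autoImplicit false

open IsDedekindDomain NumberField AutomorphicForm MeasureTheory
open scoped MatrixGroups Topology RestrictedProduct

noncomputable section

namespace Fermat.Agent.LT.A2.H999

open Fermat.Agent.LT.H130 Fermat.Agent.LT.H556 Fermat.Agent.LT.A2 Fermat.Agent.LT.A2.WX467
open Fermat.Agent.LT.H129

variable {K : Type} [Field K] [NumberField K] (v : HeightOneSpectrum (𝓞 K))

/-- The Borel σ-algebra of `K_v` (local). -/
local instance borelMS999 : MeasurableSpace (v.adicCompletion K) := borel _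

local instance borelSp999 : BorelSpace (v.adicCompletion K) := ⟨rfl⟩

local instance secCount999 : SecondCountableTopology (v.adicCompletion K) :=
  Fermat.Agent.LT.H11.SC.secondCountableTopology_adicCompletion_h11 K v

local instance locCpt999 : LocallyCompactSpace (v.adicCompletion K) :=
  Fermat.Agent.LT.H11.LC.locallyCompactSpace_adicCompletion_h11 K v

/-- The set `𝒪_v`. -/
def intSet : Set (v.adicCompletion K) := (v.adicCompletionIntegers K : Set (v.adicCompletion K))

theorem mem_intSet {x : v.adicCompletion K} : x ∈ intSet v ↔ Valued.v x ≤ 1 :=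
  HeightOneSpectrum.mem_adicCompletionIntegers (𝓞 K) K v

theorem mem_intSet' {x : v.adicCompletion K} : x ∈ intSet v ↔ x ∈ v.adicCompletionIntegers K :=
  Iff.rfl

theorem isOpen_intSet : IsOpen (intSet v) := Valued.isOpen_valuationSubring _

theorem isCompact_intSet : IsCompact (intSet v) :=
  Fermat.Agent.LT.H11.LC.isCompact_integers_h11 K v

theorem measurableSet_intSet : MeasurableSet (intSet v) := (isOpen_intSet v).measurableSet

theorem zero_mem_intSet : (0 : v.adicCompletion K) ∈ intSet v := zero_mem _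

theorem one_mem_intSet : (1 : v.adicCompletion K) ∈ intSet v := one_mem _

theorem add_mem_intSet {x y : v.adicCompletion K} (hx : x ∈ intSet v) (hy : y ∈ intSet v) :
    x + y ∈ intSet v := add_mem hx hy

theorem mul_mem_intSet {x y : v.adicCompletion K} (hx : x ∈ intSet v) (hy : y ∈ intSet v) :
    x * y ∈ intSet v := mul_mem hx hy

theorem neg_mem_intSet {x : v.adicCompletion K} (hx : x ∈ intSet v) : -x ∈ intSet v :=
  neg_mem hx

theorem sub_mem_intSet {x y : v.adicCompletion K} (hx : x ∈ intSet v) (hy : y ∈ intSet v) :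
    x - y ∈ intSet v := sub_mem hx hy

/-! ## Haar measures -/

section Haar

variable {v}
variable {μ : Measure (v.adicCompletion K)}

theorem haar_addLeftInv (hμ : IsHaarL μ) : μ.IsAddLeftInvariant := by
  refine ⟨fun x => ?_⟩
  ext S hS
  rw [Measure.map_apply (measurable_const_add x) hS]
  have h := hμ.1 (-x) S
  have hset : (fun y => x + y) ⁻¹' S = (fun y => -x + y) '' S := by
    ext y
    constructor
    · intro hy
      exact ⟨x + y, hy, by simp⟩
    · rintro ⟨z, hz, rfl⟩
      show x + (-x + z) ∈ S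
      simpa using hz
  rw [hset]
  exact h

theorem haar_finiteOnCompacts (hμ : IsHaarL μ) : IsFiniteMeasureOnCompacts μ :=
  ⟨fun _ hC => hμ.2.1 _ hC⟩

theorem haar_sigmaFinite (hμ : IsHaarL μ) : SigmaFinite μ := by
  have := haar_finiteOnCompacts hμ
  infer_instance

theorem haar_int_pos (hμ : IsHaarL μ) : 0 < μ (intSet v) :=
  hμ.2.2 _ (isOpen_intSet v) ⟨0, zero_mem_intSet v⟩

theorem haar_int_lt_top (hμ : IsHaarL μ) : μ (intSet v) < ⊤ :=
  hμ.2.1 _ (isCompact_intSet v)

theorem isHaarL_smul (hμ : IsHaarL μ) {s : ENNReal} (hs0 : s ≠ 0) (hs : s ≠ ⊤) :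
    IsHaarL (s • μ) := by
  refine ⟨fun x S => ?_, fun C hC => ?_, fun U hU hne => ?_⟩
  · show s * μ _ = s * μ S
    rw [hμ.1 x S]
  · show s * μ C < ⊤
    exact ENNReal.mul_lt_top (lt_top_iff_ne_top.mpr hs) (hμ.2.1 C hC)
  · show 0 < s * μ U
    exact ENNReal.mul_pos hs0 (hμ.2.2 U hU hne).ne'

end Haar

/-! ## Characters of conductor `𝒪_v` -/

/-- `ψ` is an additive unitary continuous character of `K_v` with conductor `𝒪_v`. -/
structure IsStdChar (ψ : v.adicCompletion K → ℂ) : Prop where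
  cont : Continuous ψ
  add : ∀ x y : v.adicCompletion K, ψ (x + y) = ψ x * ψ y
  norm : ∀ x : v.adicCompletion K, ‖ψ x‖ = 1
  int : ∀ x : v.adicCompletion K, x ∈ intSet v → ψ x = 1
  nontriv : ∃ x : v.adicCompletion K, Valued.v x = WithZero.exp (1 : ℤ) ∧ ψ x ≠ 1

theorem isStdChar_psiLoc {ψ : A0.Adl K → ℂ} (hψ : IsAdeleChar ψ) (hg : GoodPsi ψ v) :
    IsStdChar v (psiLoc v ψ) :=
  ⟨psiLoc_continuous v hψ, psiLoc_add v hψ, psiLoc_norm v hψ,
    fun _ hx => psiLoc_int v hg hx, psiLoc_nontriv v hg⟩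

section Char

variable {v}
variable {ψ : v.adicCompletion K → ℂ}

theorem IsStdChar.isCharL (hψ : IsStdChar v ψ) : IsCharL ψ := by
  obtain ⟨x, -, hx⟩ := hψ.nontriv
  exact ⟨hψ.cont, hψ.add, hψ.norm, x, hx⟩

theorem IsStdChar.zero (hψ : IsStdChar v ψ) : ψ 0 = 1 := hψ.int 0 (zero_mem_intSet v)

/-- If `c ∉ 𝒪_v` then `ψ(c ·)` is not trivial on `𝒪_v`. -/
theorem IsStdChar.exists_ne_one (hψ : IsStdChar v ψ) {c : v.adicCompletion K}
    (hc : c ∉ intSet v) : ∃ y ∈ intSet v, ψ (c * y) ≠ 1 := by
  obtain ⟨x, hx, hne⟩ := hψ.nontriv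
  have hc0 : c ≠ 0 := by
    rintro rfl
    exact hc (zero_mem_intSet v)
  have hcv : (1 : WithZero (Multiplicative ℤ)) < Valued.v c := by
    rw [mem_intSet] at hc
    exact not_le.mp hc
  have hcv' : WithZero.exp (1 : ℤ) ≤ Valued.v c := by
    have hne0 : Valued.v c ≠ 0 := (Valuation.ne_zero_iff _).mpr hc0
    obtain ⟨m, hm⟩ : ∃ m : ℤ, Valued.v c = WithZero.exp m := ⟨WithZero.log (Valued.v c),
      (WithZero.exp_log hne0).symm⟩
    rw [hm] at hcv ⊢
    rw [← WithZero.exp_zero, WithZero.exp_lt_exp] at hcv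
    rw [WithZero.exp_le_exp]
    omega
  refine ⟨c⁻¹ * x, ?_, ?_⟩
  · rw [mem_intSet, map_mul, map_inv₀, hx]
    have hne0 : Valued.v c ≠ 0 := (Valuation.ne_zero_iff _).mpr hc0
    rw [inv_mul_le_iff₀ (zero_lt_iff.mpr hne0), mul_one]
    exact hcv'
  · rw [← mul_assoc, mul_inv_cancel₀ hc0, one_mul]
    exact hne

end Char

/-! ## The integral of a character over `𝒪_v` -/

section CharInt

variable {v}
variable {μ : Measure (v.adicCompletion K)} {ψ : v.adicCompletion K → ℂ}

/-- The integral over `𝒪_v` is invariant under the translations by the elements of `𝒪_v`. -/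
theorem setIntegral_int_translate (hμ : IsHaarL μ) (f : v.adicCompletion K → ℂ)
    {y₀ : v.adicCompletion K} (hy₀ : y₀ ∈ intSet v) :
    ∫ y in intSet v, f (y₀ + y) ∂μ = ∫ y in intSet v, f y ∂μ := by
  have hinv := haar_addLeftInv hμ
  rw [← integral_indicator (measurableSet_intSet v), ← integral_indicator (measurableSet_intSet v)]
  rw [← integral_add_left_eq_self (μ := μ) ((intSet v).indicator f) y₀]
  congr 1
  funext y
  by_cases hy : y ∈ intSet v
  · have hy' : y₀ + y ∈ intSet v := add_mem_intSet v hy₀ hy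
    rw [Set.indicator_of_mem hy, Set.indicator_of_mem hy']
  · have hy' : y₀ + y ∉ intSet v := by
      intro h
      apply hy
      have := sub_mem_intSet v h hy₀
      simpa using this
    rw [Set.indicator_of_notMem hy, Set.indicator_of_notMem hy']

/-- `∫_{𝒪_v} ψ(c y) dy = μ(𝒪_v)` if `c ∈ 𝒪_v`. -/
theorem setIntegral_char_of_mem (hψ : IsStdChar v ψ) {c : v.adicCompletion K}
    (hc : c ∈ intSet v) :
    ∫ y in intSet v, ψ (c * y) ∂μ = ((μ (intSet v)).toReal : ℂ) := by
  have h1 : ∫ y in intSet v, ψ (c * y) ∂μ = ∫ _y in intSet v, (1 : ℂ) ∂μ := by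
    refine setIntegral_congr_fun (measurableSet_intSet v) ?_
    intro y hy
    exact hψ.int _ (mul_mem_intSet v hc hy)
  rw [h1, setIntegral_const]
  simp [Measure.real]

/-- `∫_{𝒪_v} ψ(c y) dy = 0` if `c ∉ 𝒪_v`. -/
theorem setIntegral_char_of_notMem (hμ : IsHaarL μ) (hψ : IsStdChar v ψ)
    {c : v.adicCompletion K} (hc : c ∉ intSet v) :
    ∫ y in intSet v, ψ (c * y) ∂μ = 0 := by
  obtain ⟨y₀, hy₀, hne⟩ := hψ.exists_ne_one hc
  have h := setIntegral_int_translate hμ (fun y => ψ (c * y)) hy₀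
  have h2 : ∫ y in intSet v, ψ (c * (y₀ + y)) ∂μ
      = ψ (c * y₀) * ∫ y in intSet v, ψ (c * y) ∂μ := by
    rw [← integral_const_mul]
    congr 1
    funext y
    rw [mul_add, hψ.add]
  rw [h2] at h
  have h3 : (ψ (c * y₀) - 1) * ∫ y in intSet v, ψ (c * y) ∂μ = 0 := by
    rw [sub_mul, h, one_mul, sub_self]
  rcases mul_eq_zero.mp h3 with h4 | h4
  · exact absurd (sub_eq_zero.mp h4) hne
  · exact h4

end CharInt

/-! ## The Fourier transform of `stdFn v` -/

section FT

variable {v}
variable {μ : Measure (v.adicCompletion K)} {ψ : v.adicCompletion K → ℂ}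

theorem bfL_eq (t n : v.adicCompletion K) (ξ y : v.adicCompletion K × v.adicCompletion K) :
    bfL t n ξ y = (2 * ξ.1 + t * ξ.2) * y.1 + (t * ξ.1 + 2 * n * ξ.2) * y.2 := by
  unfold bfL qfL
  simp only [Prod.fst_add, Prod.snd_add]
  ring

theorem stdFn_of_mem {y : v.adicCompletion K × v.adicCompletion K} (h1 : y.1 ∈ intSet v)
    (h2 : y.2 ∈ intSet v) : stdFn v y = 1 := by
  unfold stdFn
  exact if_pos ⟨h1, h2⟩

theorem stdFn_of_notMem {y : v.adicCompletion K × v.adicCompletion K}
    (h : ¬ (y.1 ∈ intSet v ∧ y.2 ∈ intSet v)) : stdFn v y = 0 := by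
  unfold stdFn
  exact if_neg h

theorem stdFn_mul_eq_indicator (h : v.adicCompletion K × v.adicCompletion K → ℂ)
    (y : v.adicCompletion K × v.adicCompletion K) :
    stdFn v y * h y = (intSet v ×ˢ intSet v).indicator h y := by
  by_cases hy : y.1 ∈ intSet v ∧ y.2 ∈ intSet v
  · rw [stdFn_of_mem hy.1 hy.2, one_mul, Set.indicator_of_mem (Set.mem_prod.mpr hy)]
  · rw [stdFn_of_notMem hy, zero_mul, Set.indicator_of_notMem]
    exact fun h' => hy (Set.mem_prod.mp h')

/-- The integral of `stdFn v · h` is the integral of `h` over `𝒪_v × 𝒪_v`. -/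
theorem intL_std_mul (hμ : IsHaarL μ) (h : v.adicCompletion K × v.adicCompletion K → ℂ) :
    intL μ (fun y => stdFn v y * h y)
      = ∫ y, h y ∂((μ.restrict (intSet v)).prod (μ.restrict (intSet v))) := by
  have := haar_sigmaFinite hμ
  unfold intL
  rw [Measure.prod_restrict]
  rw [← integral_indicator ((measurableSet_intSet v).prod (measurableSet_intSet v))]
  congr 1
  funext y
  exact stdFn_mul_eq_indicator h y

theorem intL_std_mul_char (hμ : IsHaarL μ) (hψ : IsStdChar v ψ) (c₁ c₂ : v.adicCompletion K) :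
    intL μ (fun y => stdFn v y * ψ (c₁ * y.1 + c₂ * y.2))
      = (∫ y in intSet v, ψ (c₁ * y) ∂μ) * ∫ y in intSet v, ψ (c₂ * y) ∂μ := by
  have := haar_sigmaFinite hμ
  rw [intL_std_mul hμ]
  rw [← integral_prod_mul]
  congr 1
  funext y
  exact hψ.add _ _

theorem mem_intSet_of_unit_mul {d x : v.adicCompletion K} (hd : Valued.v d = 1)
    (h : d * x ∈ intSet v) : x ∈ intSet v := by
  rw [mem_intSet, map_mul, hd, one_mul] at h
  exact (mem_intSet v).mpr h

theorem two_mem_intSet : (2 : v.adicCompletion K) ∈ intSet v := by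
  have : (2 : v.adicCompletion K) = 1 + 1 := by norm_num
  rw [this]
  exact add_mem_intSet v (one_mem_intSet v) (one_mem_intSet v)

/-- The arithmetic of a good place, in local terms. -/
structure IsGoodQ (t n : v.adicCompletion K) : Prop where
  t_int : t ∈ intSet v
  n_int : n ∈ intSet v
  disc : Valued.v (t ^ 2 - 4 * n) = 1

theorem IsGoodQ.grad_mem {t n : v.adicCompletion K} (hq : IsGoodQ t n)
    {ξ : v.adicCompletion K × v.adicCompletion K} (h1 : ξ.1 ∈ intSet v) (h2 : ξ.2 ∈ intSet v) :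
    2 * ξ.1 + t * ξ.2 ∈ intSet v ∧ t * ξ.1 + 2 * n * ξ.2 ∈ intSet v :=
  ⟨add_mem_intSet v (mul_mem_intSet v two_mem_intSet h1) (mul_mem_intSet v hq.t_int h2),
    add_mem_intSet v (mul_mem_intSet v hq.t_int h1)
      (mul_mem_intSet v (mul_mem_intSet v two_mem_intSet hq.n_int) h2)⟩

theorem IsGoodQ.mem_of_grad_mem {t n : v.adicCompletion K} (hq : IsGoodQ t n)
    {ξ : v.adicCompletion K × v.adicCompletion K} (h1 : 2 * ξ.1 + t * ξ.2 ∈ intSet v)
    (h2 : t * ξ.1 + 2 * n * ξ.2 ∈ intSet v) : ξ.1 ∈ intSet v ∧ ξ.2 ∈ intSet v := by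
  constructor
  · refine mem_intSet_of_unit_mul hq.disc ?_
    have e : (t ^ 2 - 4 * n) * ξ.1
        = t * (t * ξ.1 + 2 * n * ξ.2) - 2 * n * (2 * ξ.1 + t * ξ.2) := by ring
    rw [e]
    exact sub_mem_intSet v (mul_mem_intSet v hq.t_int h2)
      (mul_mem_intSet v (mul_mem_intSet v two_mem_intSet hq.n_int) h1)
  · refine mem_intSet_of_unit_mul hq.disc ?_
    have e : (t ^ 2 - 4 * n) * ξ.2
        = t * (2 * ξ.1 + t * ξ.2) - 2 * (t * ξ.1 + 2 * n * ξ.2) := by ring
    rw [e]
    exact sub_mem_intSet v (mul_mem_intSet v hq.t_int h1)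
      (mul_mem_intSet v two_mem_intSet h2)

theorem IsGoodQ.qfL_mem {t n : v.adicCompletion K} (hq : IsGoodQ t n)
    {ξ : v.adicCompletion K × v.adicCompletion K} (h1 : ξ.1 ∈ intSet v) (h2 : ξ.2 ∈ intSet v) :
    qfL t n ξ ∈ intSet v := by
  unfold qfL
  refine add_mem_intSet v (add_mem_intSet v ?_ ?_) ?_
  · rw [pow_two]; exact mul_mem_intSet v h1 h1
  · exact mul_mem_intSet v (mul_mem_intSet v hq.t_int h1) h2
  · rw [pow_two]; exact mul_mem_intSet v hq.n_int (mul_mem_intSet v h2 h2)

/-- **The Fourier transform of `stdFn v` is `stdFn v`** (`μ(𝒪_v) = 1`, `ψ` of conductor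
`𝒪_v`, good `t`, `n`). -/
theorem ft_stdFn (hμ : IsHaarL μ) (hμ1 : μ (intSet v) = 1) (hψ : IsStdChar v ψ)
    {t n : v.adicCompletion K} (hq : IsGoodQ t n)
    (ξ : v.adicCompletion K × v.adicCompletion K) :
    intL μ (fun y => stdFn v y * ψ (bfL t n ξ y)) = stdFn v ξ := by
  have e : (fun y : v.adicCompletion K × v.adicCompletion K => stdFn v y * ψ (bfL t n ξ y))
      = fun y => stdFn v y * ψ ((2 * ξ.1 + t * ξ.2) * y.1 + (t * ξ.1 + 2 * n * ξ.2) * y.2) := by
    funext y
    rw [bfL_eq]
  rw [e, intL_std_mul_char hμ hψ]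
  by_cases hξ : ξ.1 ∈ intSet v ∧ ξ.2 ∈ intSet v
  · obtain ⟨h1, h2⟩ := hq.grad_mem hξ.1 hξ.2
    rw [setIntegral_char_of_mem hψ h1, setIntegral_char_of_mem hψ h2, hμ1,
      stdFn_of_mem hξ.1 hξ.2]
    simp
  · rw [stdFn_of_notMem hξ]
    by_cases h1 : 2 * ξ.1 + t * ξ.2 ∈ intSet v
    · have h2 : t * ξ.1 + 2 * n * ξ.2 ∉ intSet v := fun h2 => hξ (hq.mem_of_grad_mem h1 h2)
      rw [setIntegral_char_of_notMem hμ hψ h2, mul_zero]
    · rw [setIntegral_char_of_notMem hμ hψ h1, zero_mul]

end FT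

/-! ## Rescaling -/

section Rescale

variable {v}
variable {μ : Measure (v.adicCompletion K)}

theorem intL_smul (hμ : IsHaarL μ) (s : ENNReal)
    (f : v.adicCompletion K × v.adicCompletion K → ℂ) :
    intL (s • μ) f = ((s.toReal ^ 2 : ℝ) : ℂ) * intL μ f := by
  have := haar_sigmaFinite hμ
  unfold intL
  rw [Measure.prod_smul_left, Measure.prod_smul_right, integral_smul_measure,
    integral_smul_measure, smul_smul]
  rw [pow_two]
  simp only [Complex.real_smul]

theorem integrableL_smul {s : ENNReal} (hs : s ≠ ⊤)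
    {f : v.adicCompletion K × v.adicCompletion K → ℂ} (hμ : IsHaarL μ) (hf : IntegrableL μ f) :
    IntegrableL (s • μ) f := by
  have := haar_sigmaFinite hμ
  unfold IntegrableL at hf ⊢
  rw [Measure.prod_smul_left, Measure.prod_smul_right]
  exact (hf.smul_measure hs).smul_measure hs

/-- **Rescaling**: `(μ, γ) ↦ (s μ, s⁻² γ)` preserves the local axioms. -/
theorem locAx_rescale {absv : v.adicCompletion K → ℝ} {t n : v.adicCompletion K}
    {ψ : v.adicCompletion K → ℂ} {γ : ℂ} {η : v.adicCompletion K → ℂ}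
    {F : Matrix (Fin 2) (Fin 2) (v.adicCompletion K) →
      Matrix (Fin 2) (Fin 2) (v.adicCompletion K) →
      v.adicCompletion K × v.adicCompletion K → ℂ}
    (h : LocAx absv t n ψ μ γ η F) {s : ENNReal} (hs0 : s ≠ 0) (hs : s ≠ ⊤) :
    LocAx absv t n ψ (s • μ) (γ * (((s.toReal ^ 2 : ℝ) : ℂ))⁻¹) η F where
  unip := h.unip
  weyl := by
    intro g m ξ hgm
    rw [h.weyl g m ξ hgm, intL_smul h.haar]
    have hs2 : ((s.toReal ^ 2 : ℝ) : ℂ) ≠ 0 := by
      have : s.toReal ≠ 0 := ENNReal.toReal_ne_zero.mpr ⟨hs0, hs⟩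
      exact_mod_cast pow_ne_zero 2 this
    field_simp
  diag := h.diag
  tor := h.tor
  eta_mul := h.eta_mul
  eta_sq := h.eta_sq
  eta_norm := h.eta_norm
  eta_cont := h.eta_cont
  haar := isHaarL_smul h.haar hs0 hs
  psi_char := h.psi_char
  cont := h.cont
  integrable := fun g m hgm => integrableL_smul hs h.haar (h.integrable g m hgm)

end Rescale

end Fermat.Agent.LT.A2.H999

end
end
-- ===== PACK-END LT/A2/H999/LGMeasure.lean

-- ===== PACK-BEGIN LT/T2/H386/SoftCore.lean
section













/-!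
# Row LT, T2.03b in the CORE form (helper386): the kernel estimate with the hypotheses used

OFF-MAIN.  `kernelEst_core386`: for ONE continuous `f` of compact support satisfying the
conclusion of `FDBound`, the kernel estimate holds for every continuous, bounded, left
`GL₂(K)`-invariant `ψ` with constant term `Ψ`.  No level, no `K_∞`-type, no smoothness is used
here.  (Serves the class of A0 and the class of T5; request of helper465.)
-/

set_option autoImplicit false
set_option linter.unusedSectionVars false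
set_option linter.style.haveILetI false

open IsDedekindDomain NumberField MeasureTheory
open scoped Pointwise
open Fermat.Agent.LT.H556.A0

noncomputable section

namespace Fermat.Agent.LT.T2.H386

open Fermat.Agent.LT.T2

attribute [local instance] Fermat.Agent.LT.T2.borelG

variable {K : Type} [Field K] [NumberField K]

attribute [local instance] borelAdl386 borelSpaceAdl386 borelSpaceG386

/-- The conclusion of `FDBound` for ONE function `f`. -/
def FDBoundFor386 (f : G K → ℂ) : Prop :=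
  ∀ 𝒟 : Set (Adl K), IsCompact 𝒟 → ∀ N : ℕ,
    ∃ (C c : ℝ) (M : ℕ) (W : Set (G K)), 0 ≤ C ∧ 0 < c ∧ IsCompact W ∧
      ∀ (x : G K) (t : ℝ), T1.HasHeight K x t → c ≤ t →
        ∃ (β : GL (Fin 2) K) (x' : G K), T1.IsUpperRat K β ∧ x = T1.ratG K β * x' ∧
          (∀ v ∈ 𝒟, conjUnip386 x' v ∈ W) ∧
          ∀ vs : List (Adl K), vs.length = M → (∀ v ∈ vs, v ∈ 𝒟) →
            ∀ h : G K, ‖fdiff386 x' vs f h‖ * t ^ N ≤ C

/-- The conclusion of `KernelEst` for ONE function `f`, for all continuous, bounded, left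
`GL₂(K)`-invariant `ψ`. -/
def KernelEstFor386 (F : Frame K) (f : G K → ℂ) : Prop :=
  ∀ N : ℕ, ∃ (C c : ℝ) (Ω : Set (G K)), 0 ≤ C ∧ 0 < c ∧ IsCompact Ω ∧
    ∀ ψ Ψ : G K → ℂ, Continuous ψ → (∃ C : ℝ, ∀ g : G K, ‖ψ g‖ ≤ C) →
      (∀ (γ : GL (Fin 2) K) (g : G K),
        ψ (Matrix.GeneralLinearGroup.map (algebraMap K (Adl K)) γ * g) = ψ g) →
      IsConstTerm ψ Ψ →
        ∀ (x : G K) (t : ℝ), T1.HasHeight K x t → c ≤ t →
          ‖conv F f ψ x - conv F f Ψ x‖ * t ^ N ≤ C * ∫ h in Ω, ‖ψ (x * h)‖ ∂F.μ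

/-- **T2.03b, core form**: the soft part of the Gelfand--Piatetski-Shapiro estimate. -/
theorem kernelEst_core386 (hT1 : T1.T1Out K) (F : Frame K) (f : G K → ℂ)
    (hfcont : Continuous f) (hfcpt : HasCompactSupport f) (hFD : FDBoundFor386 f) :
    KernelEstFor386 F f := by
  intro N
  obtain ⟨⟨hA1, hA2, hA3⟩, hG1, hG2, hG3⟩ := hT1.locComp
  haveI := hA1
  haveI := hA2
  haveI := hA3
  haveI := hG1
  haveI := hG2
  haveI := hG3
  haveI := F.haar
  obtain ⟨D, hDm, hD, hDc, hD0, hDtop⟩ :=
    hT1.addFundDom (Measure.addHaar : Measure (Adl K)) inferInstance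
  set ν : Measure (Adl K) := Measure.addHaar with hν
  obtain ⟨C, c, M, W, hC, hc, hW, H⟩ := hFD (closure D) hDc N
  refine ⟨2 * C, c, suppSeq386 W (tsupport f) (M + 1), by positivity, hc,
    isCompact_suppSeq386 hW hfcpt (M + 1), ?_⟩
  intro ψ Ψ hψc hψb hψl hΨ x t hx ht
  obtain ⟨β, x', hβ, hxx', hWx', hfd⟩ := H x t hx ht
  have htpos : 0 < t := lt_of_lt_of_le hc ht
  have htN : 0 < t ^ N := pow_pos htpos N
  let S : SoftCore386 K :=
    ⟨F.μ, F.haar, ν, inferInstance, D, hDm, hD, hDc, hD0.ne', hDtop.ne, ψ, Ψ, hψc, hψb, hΨ⟩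
  -- transfer from `x` to `x'`
  have eψ : ∀ h, ψ (x * h) = ψ (x' * h) := by
    intro h
    rw [hxx', mul_assoc]
    exact hψl β (x' * h)
  have eΨ : ∀ h, Ψ (x * h) = Ψ (x' * h) := by
    intro h
    rw [hxx', mul_assoc]
    exact constTerm_ratGCore386 hψl hΨ ν inferInstance D hD hD0.ne' hDtop.ne β hβ (x' * h)
  have e1 : conv F f ψ x = ∫ h, ψ (x' * h) * f h ∂F.μ := by
    show ∫ h, ψ (x * h) * f h ∂F.μ = _
    simp_rw [eψ]
  have e2 : conv F f Ψ x = ∫ h, Ψ (x' * h) * f h ∂F.μ := by
    show ∫ h, Ψ (x * h) * f h ∂F.μ = _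
    simp_rw [eΨ]
  have hid := (S.int_ker x' hfcont hfcpt M).1
  -- the bound of the kernel
  obtain ⟨Cf, hCf⟩ := hfcpt.exists_bound_of_continuous hfcont
  have hB : ∀ vs : List (Adl K), vs.length = M + 0 → (∀ v ∈ vs, v ∈ closure D) →
      ∀ h, ‖fdiff386 x' vs f h‖ ≤ C / t ^ N := by
    intro vs hvs hvsD h
    rw [le_div_iff₀ htN]
    exact hfd vs (by simpa using hvs) hvsD h
  have hkM : ∀ h, ‖ker386 ν D x' M f h‖ ≤ C / t ^ N := fun h =>
    fdiff386_ker_bound ν D (closure D) subset_closure hD0.ne' hDtop.ne hDc x' hfcont Cf hCf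
      (C / t ^ N) M 0 hB [] rfl (fun _ hv => absurd hv (List.not_mem_nil)) h
  have hk : ∀ h, ‖ker386 ν D x' (M + 1) f h‖ ≤ 2 * (C / t ^ N) := by
    intro h
    calc ‖ker386 ν D x' (M + 1) f h‖
        ≤ ‖ker386 ν D x' M f h‖ + ‖avgOp386 ν D x' (ker386 ν D x' M f) h‖ := norm_sub_le _ _
      _ ≤ C / t ^ N + C / t ^ N :=
        add_le_add (hkM h) (norm_avgOp386_le ν D hD0.ne' hDtop.ne x' _ hkM h)
      _ = 2 * (C / t ^ N) := by ring
  -- the support of the kernel
  have hprops := ker386_props ν D hD0.ne' hDtop.ne hDc x' hfcont Cf hCf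
    (W := W) (T := tsupport f) (fun v hv => hWx' v (subset_closure hv))
    (fun y hy => subset_closure hy) (M + 1)
  have hks := hprops.2.2
  set Ω := suppSeq386 W (tsupport f) (M + 1) with hΩ
  have hΩc : IsCompact Ω := isCompact_suppSeq386 hW hfcpt (M + 1)
  -- the estimate
  have hint : Integrable (fun h => ψ (x' * h) * ker386 ν D x' (M + 1) f h) F.μ :=
    S.integrable_mul386 x' hψc hprops.1
      (HasCompactSupport.intro hΩc (fun y hy => by
        by_contra hne
        exact hy (hks y hne)))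
  have hψΩ : IntegrableOn (fun h => ‖ψ (x' * h)‖) Ω F.μ :=
    (hψc.comp (continuous_const.mul continuous_id)).norm.continuousOn.integrableOn_compact hΩc
  have h1 : ‖∫ h, ψ (x' * h) * ker386 ν D x' (M + 1) f h ∂F.μ‖
      ≤ ∫ h in Ω, ‖ψ (x' * h)‖ * (2 * (C / t ^ N)) ∂F.μ := by
    refine le_trans (norm_integral_le_integral_norm _) ?_
    rw [← integral_indicator hΩc.isClosed.measurableSet]
    refine integral_mono hint.norm
      ((integrable_indicator_iff hΩc.isClosed.measurableSet).mpr (hψΩ.mul_const _))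
      (fun h => ?_)
    show ‖ψ (x' * h) * ker386 ν D x' (M + 1) f h‖
      ≤ Ω.indicator (fun h => ‖ψ (x' * h)‖ * (2 * (C / t ^ N))) h
    by_cases hh : ker386 ν D x' (M + 1) f h = 0
    · rw [hh, mul_zero, norm_zero]
      refine Set.indicator_nonneg (fun y _ => ?_) h
      exact mul_nonneg (norm_nonneg _) (by positivity)
    · rw [Set.indicator_of_mem (hks h hh), norm_mul]
      exact mul_le_mul_of_nonneg_left (hk h) (norm_nonneg _)
  rw [e1, e2, ← hid]
  have h2 : ∫ h in Ω, ‖ψ (x' * h)‖ * (2 * (C / t ^ N)) ∂F.μ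
      = (∫ h in Ω, ‖ψ (x * h)‖ ∂F.μ) * (2 * (C / t ^ N)) := by
    rw [integral_mul_const]
    simp_rw [eψ]
  rw [h2] at h1
  calc ‖∫ h, ψ (x' * h) * ker386 ν D x' (M + 1) f h ∂F.μ‖ * t ^ N
      ≤ ((∫ h in Ω, ‖ψ (x * h)‖ ∂F.μ) * (2 * (C / t ^ N))) * t ^ N :=
        mul_le_mul_of_nonneg_right h1 htN.le
    _ = 2 * C * ∫ h in Ω, ‖ψ (x * h)‖ ∂F.μ := by
        field_simp

end Fermat.Agent.LT.T2.H386

end

end
-- ===== PACK-END LT/T2/H386/SoftCore.lean

-- ===== PACK-BEGIN LT/T7/H627/TonelliSum.lean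
section



/-!
# Row LT, tower T7, leaf T7.14.6c.4f `TonelliSumC568` (Mathlib only), helper627 (spare)

OFF-MAIN.  `tonelliSumC627 : H568.TonelliSumC568` VERBATIM against the byte-identical copy of
`LT/T7/H568/IdeleCoordSpec.lean` (helper568@fef45a303, sha256 `e8caee7a`).

The integrand is the pointwise sum of its pieces `F_a`; `integral_tsum` in the convergent case;
in the divergent case the integrand is not integrable and the series is not summable, so both
sides are the junk value `0`.
-/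

set_option autoImplicit false
set_option linter.unusedSectionVars false

open MeasureTheory Set
open scoped ENNReal NNReal

noncomputable section

namespace Fermat.Agent.LT.T7.H627

open Classical in
/-- **T7.14.6c.4f `TonelliSumC568`**, VERBATIM. -/
theorem tonelliSumC627 : Fermat.Agent.LT.T7.H568.TonelliSumC568 := by
  intro X R A _ _ _ τ ν φ ind E P κ hκ hφ hEm hpush b g hgm hg0 hgi hb
  -- the pieces
  set F : A → X → ℂ := fun a x =>
    if x ∈ E ∧ ind x = a then b a * ((g (φ x) a : ℝ) : ℂ) else 0 with hF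
  set I : A → ℝ := fun a => ∫ r, g r a ∂ν with hI
  have hI0 : ∀ a, 0 ≤ I a := fun a => integral_nonneg fun r => hg0 r a
  -- the integrand is the sum of the pieces
  have hsum : ∀ x, (if x ∈ E then b (ind x) * ((g (φ x) (ind x) : ℝ) : ℂ) else 0)
      = ∑' a, F a x := by
    intro x
    rw [tsum_eq_single (ind x)]
    · by_cases hx : x ∈ E
      · simp [hF, hx]
      · simp [hF, hx]
    · intro a ha
      have : ¬ (x ∈ E ∧ ind x = a) := fun h => ha h.2.symm
      simp [hF, this]
  have hnorm : ∀ x, ‖(if x ∈ E then b (ind x) * ((g (φ x) (ind x) : ℝ) : ℂ) else 0)‖ₑ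
      = ∑' a, ‖F a x‖ₑ := by
    intro x
    rw [tsum_eq_single (ind x)]
    · by_cases hx : x ∈ E
      · simp [hF, hx]
      · simp [hF, hx]
    · intro a ha
      have : ¬ (x ∈ E ∧ ind x = a) := fun h => ha h.2.symm
      simp [hF, this]
  -- measurability of the pieces
  have hFm : ∀ a, Measurable (F a) := by
    intro a
    by_cases hP : P a
    · have h1 : Measurable fun x => b a * ((g (φ x) a : ℝ) : ℂ) :=
        measurable_const.mul (Complex.measurable_ofReal.comp ((hgm a).comp hφ))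
      exact Measurable.ite (hEm a hP) h1 measurable_const
    · have h0 : F a = fun _ => 0 := by
        funext x
        simp [hF, hb a hP]
      rw [h0]
      exact measurable_const
  -- the two integrals of a piece
  have hpiece_l : ∀ a, ∫⁻ x, ‖F a x‖ₑ ∂τ = ‖b a‖ₑ * (ENNReal.ofReal κ * ENNReal.ofReal (I a)) := by
    intro a
    by_cases hP : P a
    · have e1 : ∀ x, ‖F a x‖ₑ
          = ({x | x ∈ E ∧ ind x = a}).indicator
              (fun x => ‖b a‖ₑ * ENNReal.ofReal (g (φ x) a)) x := by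
        intro x
        by_cases hx : x ∈ E ∧ ind x = a
        · rw [indicator_of_mem (show x ∈ {x | x ∈ E ∧ ind x = a} from hx)]
          simp only [hF, if_pos hx, enorm_mul]
          congr 1
          rw [← ofReal_norm, Complex.norm_real, Real.norm_eq_abs,
            abs_of_nonneg (hg0 _ _)]
        · rw [indicator_of_notMem (show x ∉ {x | x ∈ E ∧ ind x = a} from hx)]
          simp [hF, hx]
      simp_rw [e1]
      have e2 : ∫⁻ x in {x | x ∈ E ∧ ind x = a}, ‖b a‖ₑ * ENNReal.ofReal (g (φ x) a) ∂τ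
          = ‖b a‖ₑ * ∫⁻ x in {x | x ∈ E ∧ ind x = a}, ENNReal.ofReal (g (φ x) a) ∂τ :=
        lintegral_const_mul _ (show Measurable fun x => ENNReal.ofReal (g (φ x) a) from
          ENNReal.measurable_ofReal.comp ((hgm a).comp hφ))
      rw [lintegral_indicator (hEm a hP), e2,
        hpush a hP (fun r => ENNReal.ofReal (g r a)) (ENNReal.measurable_ofReal.comp (hgm a)),
        ← ofReal_integral_eq_lintegral_ofReal (hgi a hP)
          (Filter.Eventually.of_forall fun r => hg0 r a)]
    · have h0 : ∀ x, ‖F a x‖ₑ = 0 := fun x => by simp [hF, hb a hP]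
      simp_rw [h0]
      rw [lintegral_zero, hb a hP, enorm_zero, zero_mul]
  have hpiece : ∀ a, ∫ x, F a x ∂τ = b a * (((κ * I a : ℝ)) : ℂ) := by
    intro a
    by_cases hP : P a
    · have e1 : F a = ({x | x ∈ E ∧ ind x = a}).indicator
          (fun x => b a * ((g (φ x) a : ℝ) : ℂ)) := by
        funext x
        by_cases hx : x ∈ E ∧ ind x = a
        · rw [indicator_of_mem (show x ∈ {x | x ∈ E ∧ ind x = a} from hx)]
          simp only [hF, if_pos hx]
        · rw [indicator_of_notMem (show x ∉ {x | x ∈ E ∧ ind x = a} from hx)]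
          simp only [hF, if_neg hx]
      rw [e1, integral_indicator (hEm a hP), integral_const_mul, integral_complex_ofReal]
      congr 2
      rw [integral_eq_lintegral_of_nonneg_ae (Filter.Eventually.of_forall fun x => hg0 _ _)
        ((hgm a).comp hφ).aestronglyMeasurable,
        hpush a hP (fun r => ENNReal.ofReal (g r a)) (ENNReal.measurable_ofReal.comp (hgm a)),
        ← ofReal_integral_eq_lintegral_ofReal (hgi a hP)
          (Filter.Eventually.of_forall fun r => hg0 r a),
        ← ENNReal.ofReal_mul hκ.le, ENNReal.toReal_ofReal (mul_nonneg hκ.le (hI0 a))]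
    · have h0 : F a = fun _ => 0 := by
        funext x
        simp [hF, hb a hP]
      rw [h0, integral_zero, hb a hP, zero_mul]
  simp_rw [hsum]
  by_cases hfin : ∑' a, ∫⁻ x, ‖F a x‖ₑ ∂τ = ⊤
  · -- both sides are junk
    have hni : ¬ Integrable (fun x => ∑' a, F a x) τ := by
      intro hint
      have h1 := hint.2
      rw [HasFiniteIntegral] at h1
      have h2 : ∫⁻ x, ‖∑' a, F a x‖ₑ ∂τ = ∑' a, ∫⁻ x, ‖F a x‖ₑ ∂τ := by
        simp_rw [← hsum, hnorm]
        exact lintegral_tsum fun a => (hFm a).enorm.aemeasurable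
      rw [h2, hfin] at h1
      exact lt_irrefl _ h1
    have hns : ¬ Summable fun a => b a * ((I a : ℝ) : ℂ) := by
      intro hs
      have hs' : Summable fun a => ‖b a * ((I a : ℝ) : ℂ)‖ := hs.norm
      have h1 : ∑' a, ENNReal.ofReal ‖b a * ((I a : ℝ) : ℂ)‖ ≠ ⊤ := by
        rw [← ENNReal.ofReal_tsum_of_nonneg (fun a => norm_nonneg _) hs']
        exact ENNReal.ofReal_ne_top
      have h2 : ∀ a, ∫⁻ x, ‖F a x‖ₑ ∂τ
          = ENNReal.ofReal κ * ENNReal.ofReal ‖b a * ((I a : ℝ) : ℂ)‖ := by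
        intro a
        rw [hpiece_l a, norm_mul, Complex.norm_real, Real.norm_eq_abs, abs_of_nonneg (hI0 a),
          ENNReal.ofReal_mul (norm_nonneg _), ofReal_norm]
        ring
      simp_rw [h2] at hfin
      rw [ENNReal.tsum_mul_left] at hfin
      exact ENNReal.mul_ne_top ENNReal.ofReal_ne_top h1 hfin
    rw [integral_undef hni, tsum_eq_zero_of_not_summable hns, mul_zero]
  · rw [integral_tsum (fun a => (hFm a).aestronglyMeasurable) hfin]
    simp_rw [hpiece]
    rw [← tsum_mul_left]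
    refine tsum_congr fun a => ?_
    push_cast
    ring

end Fermat.Agent.LT.T7.H627

end

end
-- ===== PACK-END LT/T7/H627/TonelliSum.lean

-- ===== PACK-BEGIN LT/T7/H378/HCompact.lean
section




/-!
# Row LT, tower T7, leaf T7.14.6c.4c `HCompactC568` (helper378, OFF-MAIN)

`hCompactC378 K : Fermat.Agent.LT.T7.H568.HCompactC568 K` :
for a support pair `(S, 𝔪)` and `0 < a ≤ b` the set `H ∩ {a ≤ rad ≤ b}` is compact in the
idele group `(𝔸_K)ˣ`.

Proof.  `H ∩ {a ≤ rad ≤ b}` is the preimage under the closed embedding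
`y ↦ (y, y⁻¹) : (𝔸_K)ˣ → 𝔸_K × 𝔸_Kᵐᵒᵖ` of the compact set `Z₁ × Z₂`, where
`Z₁ = {x ∈ box b : a ≤ ‖x_w‖, x_v - 1 ∈ 𝔪 𝒪_v (v ∈ S)}` (closed in the compact box of
helper919) and `Z₂ = box a⁻¹`.

No definition is re-defined: `hSub568`, `radBox568`, `rad568` are those of helper568,
`InCell`, `ordI`, `IsSupp` those of helper62, `idealClosure` that of helper556 and `box919`
that of helper919.
-/

set_option autoImplicit false
set_option linter.unusedSectionVars false
set_option linter.unusedVariables false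

open IsDedekindDomain NumberField
open Fermat.Agent.LT.H556 Fermat.Agent.LT.H556.A0 Fermat.Agent.LT.T7 Fermat.Agent.LT.T7.Rigid
open Fermat.Agent.LT.T7.H568 Fermat.Agent.LT.T1.H919

noncomputable section

namespace Fermat.Agent.LT.T7.H378

variable {K : Type} [Field K] [NumberField K]

/-! ## Local facts -/

/-- The open unit ball of `K_v` is closed. -/
lemma isClosed_lt_one378 (v : HeightOneSpectrum (𝓞 K)) :
    IsClosed {z : v.adicCompletion K | Valued.v z < 1} := by
  have := Valued.isClosed_ball (v.adicCompletion K) (1 : _)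
  simpa only [Valuation.restrict_lt_one_iff] using this

/-- If `v ∣ 𝔪` then `𝔪 𝒪_v` lies in the open unit ball. -/
lemma idealClosure_subset_lt_one378 {𝔪 : Ideal (𝓞 K)} {v : HeightOneSpectrum (𝓞 K)}
    (hv : v.asIdeal ∣ 𝔪) :
    idealClosure 𝔪 v ⊆ {z : v.adicCompletion K | Valued.v z < 1} := by
  refine closure_minimal ?_ (isClosed_lt_one378 v)
  rintro _ ⟨x, hx, rfl⟩
  show Valued.v (algebraMap K (v.adicCompletion K) (algebraMap (𝓞 K) K x)) < 1
  have key : Valued.v (algebraMap K (v.adicCompletion K) (algebraMap (𝓞 K) K x))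
      = v.valuation K (algebraMap (𝓞 K) K x) :=
    HeightOneSpectrum.valuedAdicCompletion_eq_valuation' v _
  rw [key, HeightOneSpectrum.valuation_lt_one_iff_mem]
  exact Ideal.le_of_dvd hv hx

/-- `|1 + u|_v = 1` for `u ∈ 𝔪 𝒪_v`, `v ∣ 𝔪`. -/
lemma valued_one_add378 {𝔪 : Ideal (𝓞 K)} {v : HeightOneSpectrum (𝓞 K)}
    (hv : v.asIdeal ∣ 𝔪) {u : v.adicCompletion K} (hu : u ∈ idealClosure 𝔪 v) :
    Valued.v (1 + u) = 1 :=
  Valuation.map_one_add_of_lt _ (idealClosure_subset_lt_one378 hv hu)

/-- The finite components of an idele and of its inverse are inverse to each other. -/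
lemma fin_mul_inv378 (y : (Adl K)ˣ) (v : HeightOneSpectrum (𝓞 K)) :
    (y : Adl K).2 v * ((y⁻¹ : (Adl K)ˣ) : Adl K).2 v = 1 := by
  have h : (y : Adl K) * ((y⁻¹ : (Adl K)ˣ) : Adl K) = 1 := Units.mul_inv y
  have h2 := congrArg (fun x : Adl K => x.2 v) h
  exact h2

/-- The infinite components of an idele and of its inverse are inverse to each other. -/
lemma inf_mul_inv378 (y : (Adl K)ˣ) (w : InfinitePlace K) :
    (y : Adl K).1 w * ((y⁻¹ : (Adl K)ˣ) : Adl K).1 w = 1 := by
  have h : (y : Adl K) * ((y⁻¹ : (Adl K)ˣ) : Adl K) = 1 := Units.mul_inv y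
  have h2 := congrArg (fun x : Adl K => x.1 w) h
  exact h2

lemma valued_mul_inv378 (y : (Adl K)ˣ) (v : HeightOneSpectrum (𝓞 K)) :
    Valued.v ((y : Adl K).2 v) * Valued.v (((y⁻¹ : (Adl K)ˣ) : Adl K).2 v) = 1 := by
  rw [← map_mul, fin_mul_inv378, map_one]

lemma norm_mul_inv378 (y : (Adl K)ˣ) (w : InfinitePlace K) :
    ‖(y : Adl K).1 w‖ * ‖((y⁻¹ : (Adl K)ˣ) : Adl K).1 w‖ = 1 := by
  rw [← norm_mul, inf_mul_inv378, norm_one]

/-- `ordI v y = 0` iff `|y_v|_v = 1`. -/
lemma ordI_eq_zero_iff378 (y : (Adl K)ˣ) (v : HeightOneSpectrum (𝓞 K)) :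
    ordI v y = 0 ↔ Valued.v ((y : Adl K).2 v) = 1 := by
  have hne : Valued.v ((y : Adl K).2 v) ≠ 0 := by
    intro h0
    have := valued_mul_inv378 y v
    rw [h0, zero_mul] at this
    exact zero_ne_one this
  unfold ordI
  constructor
  · intro h
    have h1 : WithZero.log (Valued.v ((y : Adl K).2 v)) = 0 := by
      have := neg_eq_zero.mp h
      exact this
    have h2 := WithZero.exp_log hne
    rw [h1] at h2
    rw [← h2]
    rfl
  · intro h
    rw [h, WithZero.log_one, neg_zero]

/-- Both of `x`, `y` have valuation `≤ 1` and `|x| |y| = 1`: then `|x| = 1`. -/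
lemma eq_one_of_le_one_of_mul378 {Γ : Type*} [LinearOrderedCommGroupWithZero Γ] {x y : Γ}
    (hx : x ≤ 1) (hy : y ≤ 1) (hxy : x * y = 1) : x = 1 := by
  refine le_antisymm hx ?_
  by_contra hlt
  rw [not_le] at hlt
  have hy0 : y ≠ 0 := by
    intro h0
    rw [h0, mul_zero] at hxy
    exact zero_ne_one hxy
  have : x * y < 1 * 1 := by
    calc x * y < 1 * y := by
          exact mul_lt_mul_of_pos_right hlt (zero_lt_iff.mpr hy0)
      _ ≤ 1 * 1 := by
          rw [one_mul, one_mul]; exact hy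
  rw [hxy, one_mul] at this
  exact lt_irrefl _ this

/-! ## The compact model -/

/-- The compact set `Z₁`. -/
def zOne378 (S : Finset (HeightOneSpectrum (𝓞 K))) (𝔪 : Ideal (𝓞 K)) (a b : ℝ) :
    Set (Adl K) :=
  box919 K b ∩ ({x : Adl K | ∀ w : InfinitePlace K, a ≤ ‖x.1 w‖} ∩
    {x : Adl K | ∀ v ∈ S, x.2 v - 1 ∈ idealClosure 𝔪 v})

lemma isCompact_zOne378 (S : Finset (HeightOneSpectrum (𝓞 K))) (𝔪 : Ideal (𝓞 K)) (a b : ℝ) :
    IsCompact (zOne378 S 𝔪 a b) := by
  refine (isCompact_box919 b).inter_right (IsClosed.inter ?_ ?_)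
  · have e : {x : Adl K | ∀ w : InfinitePlace K, a ≤ ‖x.1 w‖}
        = ⋂ w : InfinitePlace K, {x : Adl K | a ≤ ‖x.1 w‖} := by
      ext x
      simp only [Set.mem_ofPred_eq, Set.mem_iInter]
    rw [e]
    exact isClosed_iInter fun w =>
      isClosed_le continuous_const (continuous_norm.comp (continuous_projInf919 w))
  · have e : {x : Adl K | ∀ v ∈ S, x.2 v - 1 ∈ idealClosure 𝔪 v}
        = ⋂ v ∈ S, (fun x : Adl K => x.2 v - 1) ⁻¹' idealClosure 𝔪 v := by
      ext x
      simp only [Set.mem_ofPred_eq, Set.mem_iInter, Set.mem_preimage]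
    rw [e]
    refine isClosed_biInter fun v _ => ?_
    have hc : Continuous (fun x : Adl K => x.2 v - 1) :=
      (continuous_projFin919 v).sub continuous_const
    exact (isClosed_closure (s := _)).preimage hc

lemma isCompact_zTwo378 (R : ℝ) :
    IsCompact (MulOpposite.unop ⁻¹' (box919 K R) : Set (Adl K)ᵐᵒᵖ) := by
  have := (isCompact_box919 (K := K) R).image (MulOpposite.continuous_op)
  convert this using 1
  ext x
  simp only [Set.mem_preimage, Set.mem_image]
  constructor
  · intro hx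
    exact ⟨x.unop, hx, MulOpposite.op_unop x⟩
  · rintro ⟨y, hy, rfl⟩
    exact hy

/-- `H ∩ {a ≤ rad ≤ b}` is the preimage of `Z₁ × Z₂`. -/
lemma hSub_inter_radBox_eq378 {S : Finset (HeightOneSpectrum (𝓞 K))} {𝔪 : Ideal (𝓞 K)}
    (hS : IsSupp S 𝔪) {a b : ℝ} (ha : 0 < a) :
    hSub568 S 𝔪 ∩ radBox568 (K := K) a b
      = (Units.embedProduct (Adl K)) ⁻¹'
          ((zOne378 S 𝔪 a b) ×ˢ (MulOpposite.unop ⁻¹' (box919 K a⁻¹))) := by
  ext y
  constructor
  · rintro ⟨⟨hcell, hord⟩, hrad⟩
    -- all finite components are units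
    have hval : ∀ v : HeightOneSpectrum (𝓞 K), Valued.v ((y : Adl K).2 v) = 1 := by
      intro v
      by_cases hv : v ∈ S
      · obtain ⟨u, hu, hyu⟩ := hcell v hv
        have h1 : ((1 : (Adl K)ˣ) : Adl K).2 v = 1 := rfl
        rw [hyu, h1, one_mul]
        exact valued_one_add378 ((hS.2 v).mpr hv) hu
      · exact (ordI_eq_zero_iff378 y v).mp (hord v hv)
    have hvalinv : ∀ v : HeightOneSpectrum (𝓞 K),
        Valued.v (((y⁻¹ : (Adl K)ˣ) : Adl K).2 v) = 1 := by
      intro v
      have := valued_mul_inv378 y v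
      rw [hval v, one_mul] at this
      exact this
    refine ⟨⟨⟨fun w => (hrad w).2, fun v => ?_⟩, fun w => (hrad w).1, fun v hv => ?_⟩,
      fun w => ?_, fun v => ?_⟩
    · show Valued.v ((y : Adl K).2 v) ≤ 1
      exact (hval v).le
    · obtain ⟨u, hu, hyu⟩ := hcell v hv
      have h1 : ((1 : (Adl K)ˣ) : Adl K).2 v = 1 := rfl
      have : (y : Adl K).2 v - 1 = u := by
        rw [hyu, h1, one_mul]; ring
      show (y : Adl K).2 v - 1 ∈ idealClosure 𝔪 v
      rw [this]
      exact hu
    · show ‖((y⁻¹ : (Adl K)ˣ) : Adl K).1 w‖ ≤ a⁻¹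
      have hpos : 0 < ‖(y : Adl K).1 w‖ := lt_of_lt_of_le ha (hrad w).1
      have h := norm_mul_inv378 y w
      have e : ‖((y⁻¹ : (Adl K)ˣ) : Adl K).1 w‖ = ‖(y : Adl K).1 w‖⁻¹ :=
        eq_inv_of_mul_eq_one_right h
      rw [e]
      exact inv_anti₀ ha (hrad w).1
    · show Valued.v (((y⁻¹ : (Adl K)ˣ) : Adl K).2 v) ≤ 1
      exact (hvalinv v).le
  · rintro ⟨⟨⟨hb, hint⟩, hA, hI⟩, hinvb, hinvint⟩
    refine ⟨⟨fun v hv => ?_, fun v hv => ?_⟩, fun w => ⟨hA w, hb w⟩⟩
    · refine ⟨(y : Adl K).2 v - 1, hI v hv, ?_⟩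
      have h1 : ((1 : (Adl K)ˣ) : Adl K).2 v = 1 := rfl
      rw [h1, one_mul]; ring
    · rw [ordI_eq_zero_iff378]
      have h1 : Valued.v ((y : Adl K).2 v) ≤ 1 := hint v
      have h2 : Valued.v (((y⁻¹ : (Adl K)ˣ) : Adl K).2 v) ≤ 1 := hinvint v
      exact eq_one_of_le_one_of_mul378 h1 h2 (valued_mul_inv378 y v)

/-! ## The leaf -/

/-- **T7.14.6c.4c H-COMPACT.**  `H ∩ {a ≤ rad ≤ b}` is compact in the idele group. -/
theorem hCompactC378 (K : Type) [Field K] [NumberField K] :
    Fermat.Agent.LT.T7.H568.HCompactC568 K := by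
  intro S 𝔪 hS a b ha hab
  have : T2Space (Adl K) := Fermat.Agent.LT.H11.LC.t2Space_adeleRing_h11 K
  rw [hSub_inter_radBox_eq378 hS ha]
  exact Units.isClosedEmbedding_embedProduct.isCompact_preimage
    ((isCompact_zOne378 S 𝔪 a b).prod (isCompact_zTwo378 a⁻¹))

end Fermat.Agent.LT.T7.H378

end

end
-- ===== PACK-END LT/T7/H378/HCompact.lean

-- ===== PACK-BEGIN LT/T7/H555/FoldIwa.lean
section





/-!
# Row LT, tower T7, ASSIST for T7.14.6a `FoldWhitC`, step (2a): the set `E` in Iwasawa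
coordinates (helper555)

OFF-MAIN.  On `Fold.lean` (helper555), helper793 `T1/H793/{Height, SiegelSep, Iwasawa}.lean`
(tower T1, byte-identical copies).

* `rowNorm_smul555` : `rowNorm (c • r) = ‖c‖_𝔸 · rowNorm r` for an idele `c`.
* `rowNorm_botRow_std555` : the bottom row of `k ∈ K⁰` has `rowNorm = 1`.
* `rowNorm_botRow_mul555`, `adNorm_det_mul555` : for `g = b k`, `b` upper triangular, `k ∈ K⁰`:
  `rowNorm (bottom row of g) = ‖b₁₁‖_𝔸` and `‖det g‖_𝔸 = ‖b₀₀‖_𝔸 ‖b₁₁‖_𝔸`.
* **`mem_foldSet_mul_iff555`** : `b k ∈ E(𝔪, Y) ↔ Y ≤ ‖b₀₀‖_𝔸 / ‖b₁₁‖_𝔸 ∧ k ∈ K₀(𝔪)` (bottom row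
  `(c, d)` of `k` with `c_v ∈ 𝔪 d_v` for `v ∣ 𝔪`).
* `mem_foldSet_iff_hasHeight555` : `g ∈ E(𝔪, Y)` implies `Y ≤ t` for every height `t` of `g`
  (`T1.HasHeight`).
* `foldSet_upper_mul555` : `E` is stable under left multiplication by upper triangular `b` with
  `‖b₀₀‖_𝔸 = ‖b₁₁‖_𝔸` (in particular by `B(K)`, `N(𝔸)`, `Z(𝔸)`).
-/

set_option autoImplicit false

open IsDedekindDomain NumberField MeasureTheory AutomorphicForm
open Fermat.Agent.LT.H556 Fermat.Agent.LT.H556.A0
open Fermat.Agent.LT

noncomputable section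

namespace Fermat.Agent.LT.T7.H555

open Fermat.Agent.LT.T7.H250 Fermat.Agent.LT.T7.Rigid Fermat.Agent.LT.T1.H793

variable {K : Type} [Field K] [NumberField K]

/-! ## 1. Scaling of the row norm -/

theorem rpow_sq_half555 (a : ℝ) (ha : 0 ≤ a) (m : ℕ) : (a ^ 2) ^ ((m : ℝ) / 2) = a ^ m := by
  rw [← Real.rpow_natCast a 2, ← Real.rpow_mul ha]
  have : ((2 : ℕ) : ℝ) * ((m : ℝ) / 2) = (m : ℝ) := by push_cast; ring
  rw [this, Real.rpow_natCast]

/-- `rowNorm (c • r) = ‖c‖_𝔸 · rowNorm r` for an idele `c`. -/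
theorem rowNorm_smul555 (c : (Adl K)ˣ) (r : Fin 2 → Adl K)
    (hr : Function.HasFiniteMulSupport
      fun v : HeightOneSpectrum (𝓞 K) => max ‖(r 0).2 v‖ ‖(r 1).2 v‖) :
    rowNorm (fun j => (c : Adl K) * r j) = T5.adNorm (c : Adl K) * rowNorm r := by
  unfold rowNorm T5.adNorm
  have hinf : ∀ w : InfinitePlace K,
      (‖((c : Adl K) * r 0).1 w‖ ^ 2 + ‖((c : Adl K) * r 1).1 w‖ ^ 2) ^ ((w.mult : ℝ) / 2)
        = ‖(c : Adl K).1 w‖ ^ w.mult
          * (‖(r 0).1 w‖ ^ 2 + ‖(r 1).1 w‖ ^ 2) ^ ((w.mult : ℝ) / 2) := by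
    intro w
    have e0 : ‖((c : Adl K) * r 0).1 w‖ = ‖(c : Adl K).1 w‖ * ‖(r 0).1 w‖ := by
      rw [← norm_mul]; rfl
    have e1 : ‖((c : Adl K) * r 1).1 w‖ = ‖(c : Adl K).1 w‖ * ‖(r 1).1 w‖ := by
      rw [← norm_mul]; rfl
    rw [e0, e1, mul_pow, mul_pow, ← mul_add,
      Real.mul_rpow (sq_nonneg _) (add_nonneg (sq_nonneg _) (sq_nonneg _)),
      rpow_sq_half555 _ (norm_nonneg _)]
  have hfin : ∀ v : HeightOneSpectrum (𝓞 K),
      max ‖((c : Adl K) * r 0).2 v‖ ‖((c : Adl K) * r 1).2 v‖
        = ‖(c : Adl K).2 v‖ * max ‖(r 0).2 v‖ ‖(r 1).2 v‖ := by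
    intro v
    have e0 : ‖((c : Adl K) * r 0).2 v‖ = ‖(c : Adl K).2 v‖ * ‖(r 0).2 v‖ := by
      rw [← norm_mul]; rfl
    have e1 : ‖((c : Adl K) * r 1).2 v‖ = ‖(c : Adl K).2 v‖ * ‖(r 1).2 v‖ := by
      rw [← norm_mul]; rfl
    rw [e0, e1, mul_max_of_nonneg _ _ (norm_nonneg _)]
  simp only [hinf, hfin]
  rw [Finset.prod_mul_distrib,
    finprod_mul_distrib (Fermat.Agent.LT.T1.H309.hasFiniteMulSupport309 K c) hr]
  ring

/-! ## 2. The bottom row of an element of `K⁰` -/

theorem inf_row_std555 {k : G K} (hk : Fermat.Agent.LT.T1.IsStdCompact K k)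
    (w : InfinitePlace K) :
    ‖(botRow555 k 0).1 w‖ ^ 2 + ‖(botRow555 k 1).1 w‖ ^ 2 = 1 := by
  have hU := (hk.2 w).1
  have e11 := congrFun (congrFun hU 1) 1
  rw [Matrix.mul_apply, Fin.sum_univ_two] at e11
  simp only [Matrix.conjTranspose_apply, Matrix.one_apply_eq] at e11
  have h0 : ‖infComp w k 1 0‖ = ‖(botRow555 k 0).1 w‖ := norm_extensionEmbedding793 w _
  have h1 : ‖infComp w k 1 1‖ = ‖(botRow555 k 1).1 w‖ := norm_extensionEmbedding793 w _
  rw [← h0, ← h1]
  have e := congrArg Complex.re e11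
  rw [Complex.add_re, Complex.one_re] at e
  have f0 : (infComp w k 1 0 * star (infComp w k 1 0)).re = ‖infComp w k 1 0‖ ^ 2 := by
    rw [Complex.star_def, Complex.mul_conj, Complex.ofReal_re, Complex.normSq_eq_norm_sq]
  have f1 : (infComp w k 1 1 * star (infComp w k 1 1)).re = ‖infComp w k 1 1‖ ^ 2 := by
    rw [Complex.star_def, Complex.mul_conj, Complex.ofReal_re, Complex.normSq_eq_norm_sq]
  rw [f0, f1] at e
  exact e

theorem fin_row_std555 {k : G K} (hk : Fermat.Agent.LT.T1.IsStdCompact K k)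
    (v : HeightOneSpectrum (𝓞 K)) :
    max ‖(botRow555 k 0).2 v‖ ‖(botRow555 k 1).2 v‖ = 1 := by
  have hle : ∀ (g : G K), IsIntegralAt v g → ∀ i j,
      ‖((g : Matrix (Fin 2) (Fin 2) (Adl K)) i j).2 v‖ ≤ 1 := fun g hg i j =>
    Valued.toNormedField.norm_le_one_iff.mpr
      ((HeightOneSpectrum.mem_adicCompletionIntegers (𝓞 K) K v).mp (hg i j))
  have h0 := hle k (hk.1 v).1 1 0
  have h1 := hle k (hk.1 v).1 1 1
  have g0 := hle k⁻¹ (hk.1 v).2 0 1
  have g1 := hle k⁻¹ (hk.1 v).2 1 1
  apply le_antisymm (max_le h0 h1)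
  by_contra hlt
  rw [not_le, max_lt_iff] at hlt
  -- `k₁₀ k'₀₁ + k₁₁ k'₁₁ = 1`
  have hone : finComp v k 1 0 * finComp v k⁻¹ 0 1 + finComp v k 1 1 * finComp v k⁻¹ 1 1 = 1 := by
    have := congrFun (congrFun (finComp_mul793 v k k⁻¹) 1) 1
    rw [mul_inv_cancel, finComp_one793, Matrix.mul_apply, Fin.sum_univ_two,
      Matrix.one_apply_eq] at this
    exact this.symm
  have hv1 : Valued.v (finComp v k 1 0 * finComp v k⁻¹ 0 1) < 1 := by
    rw [← Valued.toNormedField.norm_lt_one_iff, norm_mul]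
    calc ‖finComp v k 1 0‖ * ‖finComp v k⁻¹ 0 1‖ ≤ ‖finComp v k 1 0‖ * 1 :=
          mul_le_mul_of_nonneg_left g0 (norm_nonneg _)
      _ < 1 := by rw [mul_one]; exact hlt.1
  have hv2 : Valued.v (finComp v k 1 1 * finComp v k⁻¹ 1 1) < 1 := by
    rw [← Valued.toNormedField.norm_lt_one_iff, norm_mul]
    calc ‖finComp v k 1 1‖ * ‖finComp v k⁻¹ 1 1‖ ≤ ‖finComp v k 1 1‖ * 1 :=
          mul_le_mul_of_nonneg_left g1 (norm_nonneg _)
      _ < 1 := by rw [mul_one]; exact hlt.2
  have hsum := Valuation.map_add_lt (Valued.v) hv1 hv2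
  rw [hone, map_one] at hsum
  exact lt_irrefl _ hsum

theorem hasFiniteMulSupport_std555 {k : G K} (hk : Fermat.Agent.LT.T1.IsStdCompact K k) :
    Function.HasFiniteMulSupport
      fun v : HeightOneSpectrum (𝓞 K) => max ‖(botRow555 k 0).2 v‖ ‖(botRow555 k 1).2 v‖ := by
  have : (fun v : HeightOneSpectrum (𝓞 K) => max ‖(botRow555 k 0).2 v‖ ‖(botRow555 k 1).2 v‖)
      = fun _ => 1 := funext fun v => fin_row_std555 hk v
  rw [this]
  unfold Function.HasFiniteMulSupport
  simp

/-- The bottom row of an element of `K⁰` has row norm `1`. -/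
theorem rowNorm_botRow_std555 {k : G K} (hk : Fermat.Agent.LT.T1.IsStdCompact K k) :
    rowNorm (botRow555 k) = 1 := by
  unfold rowNorm
  simp only [inf_row_std555 hk, fin_row_std555 hk, Real.one_rpow, Finset.prod_const_one,
    finprod_one, mul_one]

/-! ## 3. The set `E` in Iwasawa coordinates -/

/-- The bottom row of `b g`, `b` upper triangular, is `b₁₁ •` the bottom row of `g`. -/
theorem botRow_upper_mul555 {b : G K} (hb : Fermat.Agent.LT.T1.IsUpper K b) (g : G K)
    (j : Fin 2) :
    botRow555 (b * g) j = (b : Matrix (Fin 2) (Fin 2) (Adl K)) 1 1 * botRow555 g j := by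
  have h : (b : Matrix (Fin 2) (Fin 2) (Adl K)) 1 0 = 0 := hb
  unfold botRow555
  rw [Units.val_mul, Matrix.mul_apply, Fin.sum_univ_two, h, zero_mul, zero_add]

/-- `rowNorm (bottom row of b k) = ‖b₁₁‖_𝔸`. -/
theorem rowNorm_botRow_mul555 {b k : G K} (hb : Fermat.Agent.LT.T1.IsUpper K b)
    (hk : Fermat.Agent.LT.T1.IsStdCompact K k) :
    rowNorm (botRow555 (b * k)) = T5.adNorm ((b : Matrix (Fin 2) (Fin 2) (Adl K)) 1 1) := by
  obtain ⟨c, hc⟩ := (isUnit_diag793 hb).2
  have h : botRow555 (b * k) = fun j => (c : Adl K) * botRow555 k j := by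
    funext j
    rw [botRow_upper_mul555 hb, hc]
  rw [h, rowNorm_smul555 c _ (hasFiniteMulSupport_std555 hk), rowNorm_botRow_std555 hk, mul_one,
    hc]

/-- `‖det (b k)‖_𝔸 = ‖b₀₀‖_𝔸 ‖b₁₁‖_𝔸`. -/
theorem adNorm_det_mul555 {b k : G K} (hb : Fermat.Agent.LT.T1.IsUpper K b)
    (hk : Fermat.Agent.LT.T1.IsStdCompact K k) :
    T5.adNorm (Matrix.det ((b * k : G K) : Matrix (Fin 2) (Fin 2) (Adl K)))
      = T5.adNorm ((b : Matrix (Fin 2) (Fin 2) (Adl K)) 0 0)
        * T5.adNorm ((b : Matrix (Fin 2) (Fin 2) (Adl K)) 1 1) := by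
  have h1 := detN_mul555 b k
  unfold detN250n at h1
  have h2 : T5.adNorm (Matrix.det (k : Matrix (Fin 2) (Fin 2) (Adl K))) = 1 :=
    adNorm_det_std793 hk
  rw [h1, h2, mul_one, det_upper793 hb]
  obtain ⟨c0, hc0⟩ := (isUnit_diag793 hb).1
  obtain ⟨c1, hc1⟩ := (isUnit_diag793 hb).2
  rw [← hc0, ← hc1, ← Units.val_mul]
  exact Fermat.Agent.LT.T1.H309.adNorm_mul309 K c0 c1

theorem adNorm_pos_of_isUnit555 {x : Adl K} (hx : IsUnit x) : 0 < T5.adNorm x := by
  obtain ⟨c, rfl⟩ := hx
  exact Fermat.Agent.LT.T1.H309.adNorm_pos309 K c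

/-- **The set `E(𝔪, Y)` in Iwasawa coordinates**: `b k ∈ E ↔ Y ≤ ‖b₀₀‖ / ‖b₁₁‖` and the bottom
row `(c, d)` of `k` satisfies `c_v ∈ 𝔪 d_v` at every `v ∣ 𝔪`. -/
theorem mem_foldSet_mul_iff555 (𝔪 : Ideal (𝓞 K)) (Y : ℝ) {b k : G K}
    (hb : Fermat.Agent.LT.T1.IsUpper K b) (hk : Fermat.Agent.LT.T1.IsStdCompact K k) :
    b * k ∈ foldSet555 𝔪 Y ↔
      Y ≤ T5.adNorm ((b : Matrix (Fin 2) (Fin 2) (Adl K)) 0 0)
          / T5.adNorm ((b : Matrix (Fin 2) (Fin 2) (Adl K)) 1 1) ∧
      ∀ v : HeightOneSpectrum (𝓞 K), v.asIdeal ∣ 𝔪 →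
        ∃ t ∈ idealClosure 𝔪 v, (botRow555 k 0).2 v = t * (botRow555 k 1).2 v := by
  have hpos : 0 < T5.adNorm ((b : Matrix (Fin 2) (Fin 2) (Adl K)) 1 1) :=
    adNorm_pos_of_isUnit555 (isUnit_diag793 hb).2
  obtain ⟨c, hc⟩ := (isUnit_diag793 hb).2
  unfold foldSet555
  simp only [Set.mem_ofPred_eq]
  rw [rowNorm_botRow_mul555 hb hk, adNorm_det_mul555 hb hk]
  refine and_congr ?_ (forall_congr' fun v => imp_congr_right fun _ => ?_)
  · rw [le_div_iff₀ hpos]
    constructor
    · intro h
      nlinarith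
    · intro h
      nlinarith
  · have hne : (c : Adl K).2 v ≠ 0 := Fermat.Agent.LT.T1.H309.fin_ne_zero309 K c v
    have e : ∀ j, (botRow555 (b * k) j).2 v = (c : Adl K).2 v * (botRow555 k j).2 v := by
      intro j
      rw [botRow_upper_mul555 hb, ← hc]
      rfl
    simp only [e]
    refine exists_congr fun t => and_congr_right fun _ => ?_
    constructor
    · intro h
      have h' : (c : Adl K).2 v * (botRow555 k 0).2 v
          = (c : Adl K).2 v * (t * (botRow555 k 1).2 v) := by rw [h]; ring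
      exact mul_left_cancel₀ hne h'
    · intro h
      rw [h]
      ring

/-- If `g ∈ E(𝔪, Y)` then `Y ≤ t` for every height `t` of `g`. -/
theorem le_height_of_mem_foldSet555 (𝔪 : Ideal (𝓞 K)) (Y : ℝ) {g : G K}
    (hg : g ∈ foldSet555 𝔪 Y) (t : ℝ) (ht : Fermat.Agent.LT.T1.HasHeight K g t) : Y ≤ t := by
  obtain ⟨b, k, hb, hk, rfl, rfl⟩ := ht
  exact ((mem_foldSet_mul_iff555 𝔪 Y hb hk).mp hg).1

/-- **Scaling of `E` under the left action of `B(𝔸)`**: `b g ∈ E(𝔪, Y) ↔ g ∈ E(𝔪, Y ‖b₁₁‖ / ‖b₀₀‖)`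
for `b` upper triangular. -/
theorem upper_mul_mem_foldSet_iff555 (𝔪 : Ideal (𝓞 K)) (Y : ℝ) {b : G K}
    (hb : Fermat.Agent.LT.T1.IsUpper K b) (g : G K) :
    b * g ∈ foldSet555 𝔪 Y ↔
      g ∈ foldSet555 𝔪 (Y * (T5.adNorm ((b : Matrix (Fin 2) (Fin 2) (Adl K)) 1 1)
        / T5.adNorm ((b : Matrix (Fin 2) (Fin 2) (Adl K)) 0 0))) := by
  obtain ⟨b', k, hb', hk, rfl⟩ := iwasawaC793 K g
  have hbb : Fermat.Agent.LT.T1.IsUpper K (b * b') := isUpper_mul793 hb hb'
  rw [← mul_assoc, mem_foldSet_mul_iff555 𝔪 Y hbb hk, mem_foldSet_mul_iff555 𝔪 _ hb' hk,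
    mul_apply_zero_zero793 hb', mul_apply_one_one793 hb]
  refine and_congr ?_ Iff.rfl
  obtain ⟨c0, hc0⟩ := (isUnit_diag793 hb).1
  obtain ⟨c1, hc1⟩ := (isUnit_diag793 hb).2
  obtain ⟨d0, hd0⟩ := (isUnit_diag793 hb').1
  obtain ⟨d1, hd1⟩ := (isUnit_diag793 hb').2
  rw [← hc0, ← hc1, ← hd0, ← hd1, ← Units.val_mul, ← Units.val_mul]
  have m0 : T5.adNorm ((c0 * d0 : (Adl K)ˣ) : Adl K)
      = T5.adNorm (c0 : Adl K) * T5.adNorm (d0 : Adl K) :=
    Fermat.Agent.LT.T1.H309.adNorm_mul309 K c0 d0
  have m1 : T5.adNorm ((c1 * d1 : (Adl K)ˣ) : Adl K)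
      = T5.adNorm (c1 : Adl K) * T5.adNorm (d1 : Adl K) :=
    Fermat.Agent.LT.T1.H309.adNorm_mul309 K c1 d1
  rw [m0, m1]
  have p0 : 0 < T5.adNorm (c0 : Adl K) := Fermat.Agent.LT.T1.H309.adNorm_pos309 K c0
  have p1 : 0 < T5.adNorm (c1 : Adl K) := Fermat.Agent.LT.T1.H309.adNorm_pos309 K c1
  have q0 : 0 < T5.adNorm (d0 : Adl K) := Fermat.Agent.LT.T1.H309.adNorm_pos309 K d0
  have q1 : 0 < T5.adNorm (d1 : Adl K) := Fermat.Agent.LT.T1.H309.adNorm_pos309 K d1
  rw [le_div_iff₀ (mul_pos p1 q1), le_div_iff₀ q1]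
  constructor
  · intro h
    have : Y * (T5.adNorm (c1 : Adl K) / T5.adNorm (c0 : Adl K)) * T5.adNorm (d1 : Adl K)
        = (Y * (T5.adNorm (c1 : Adl K) * T5.adNorm (d1 : Adl K))) / T5.adNorm (c0 : Adl K) := by
      field_simp
    rw [this, div_le_iff₀ p0]
    linarith
  · intro h
    have : Y * (T5.adNorm (c1 : Adl K) / T5.adNorm (c0 : Adl K)) * T5.adNorm (d1 : Adl K)
        = (Y * (T5.adNorm (c1 : Adl K) * T5.adNorm (d1 : Adl K))) / T5.adNorm (c0 : Adl K) := by
      field_simp
    rw [this, div_le_iff₀ p0] at h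
    linarith

/-- `E` is stable under left multiplication by upper triangular elements with
`‖b₀₀‖_𝔸 = ‖b₁₁‖_𝔸`. -/
theorem foldSet_upper_mul555 (𝔪 : Ideal (𝓞 K)) (Y : ℝ) {b : G K}
    (hb : Fermat.Agent.LT.T1.IsUpper K b)
    (hn : T5.adNorm ((b : Matrix (Fin 2) (Fin 2) (Adl K)) 0 0)
      = T5.adNorm ((b : Matrix (Fin 2) (Fin 2) (Adl K)) 1 1)) (g : G K) :
    b * g ∈ foldSet555 𝔪 Y ↔ g ∈ foldSet555 𝔪 Y := by
  rw [upper_mul_mem_foldSet_iff555 𝔪 Y hb g, hn,
    div_self (adNorm_pos_of_isUnit555 (isUnit_diag793 hb).2).ne', mul_one]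

/-- `E` is left invariant under the upper triangular matrices of `GL₂(K)` (product formula). -/
theorem foldSet_ratUpper_mul555 (𝔪 : Ideal (𝓞 K)) (Y : ℝ) (β : GL (Fin 2) K)
    (hβ : (β : Matrix (Fin 2) (Fin 2) K) 1 0 = 0) (g : G K) :
    T5.ratG β * g ∈ foldSet555 𝔪 Y ↔ g ∈ foldSet555 𝔪 Y := by
  have hup : Fermat.Agent.LT.T1.IsUpper K (T5.ratG β) := by
    show ((T5.ratG β : G K) : Matrix (Fin 2) (Fin 2) (Adl K)) 1 0 = 0
    rw [ratG_apply555, hβ, map_zero]
  have hdet : (β : Matrix (Fin 2) (Fin 2) K) 0 0 * (β : Matrix (Fin 2) (Fin 2) K) 1 1 ≠ 0 := by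
    have h := (Matrix.GeneralLinearGroup.det β).ne_zero
    have e : ((Matrix.GeneralLinearGroup.det β : Kˣ) : K)
        = Matrix.det (β : Matrix (Fin 2) (Fin 2) K) := rfl
    rw [e, Matrix.det_fin_two, hβ, mul_zero, sub_zero] at h
    exact h
  refine foldSet_upper_mul555 𝔪 Y hup ?_ g
  rw [ratG_apply555, ratG_apply555]
  have e0 : T5.adNorm (algebraMap K (Adl K) ((β : Matrix (Fin 2) (Fin 2) K) 0 0)) = 1 :=
    Fermat.Agent.LT.T1.H309.adNorm_algebraMap309 K _ (left_ne_zero_of_mul hdet)
  have e1 : T5.adNorm (algebraMap K (Adl K) ((β : Matrix (Fin 2) (Fin 2) K) 1 1)) = 1 :=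
    Fermat.Agent.LT.T1.H309.adNorm_algebraMap309 K _ (right_ne_zero_of_mul hdet)
  rw [e0, e1]

end Fermat.Agent.LT.T7.H555

end
end
-- ===== PACK-END LT/T7/H555/FoldIwa.lean

-- ===== PACK-BEGIN LT/T7/H671/LimTop.lean
section




/-!
# Row LT, tower T7, leaf `CountLimC`: the TOP reduction (helper671)

OFF-MAIN.  No `sorry`, nothing assumed.

`countLimC_of671 : IdeleClassC K → ClassDecC K → PrimC K → CountLimC K`, with
`κ = (number of idele classes) · κ₀ / torsionOrder K`.
-/

set_option autoImplicit false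

open AutomorphicForm IsDedekindDomain NumberField Filter Topology MeasureTheory
open NumberField.mixedEmbedding NumberField.InfinitePlace

noncomputable section

namespace Fermat.Agent.LT.T7.H671

open Fermat.Agent.LT.H556 Fermat.Agent.LT.H556.A0 Fermat.Agent.LT.T7 Fermat.Agent.LT.T7.Rigid

variable {K : Type} [Field K] [NumberField K]

theorem rowNorm_nonneg671 (r : Fin 2 → Adl K) : 0 ≤ rowNorm r := by
  unfold rowNorm
  refine mul_nonneg (Finset.prod_nonneg fun w _ => ?_) (finprod_nonneg fun v => ?_)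
  · exact Real.rpow_nonneg (by positivity) _
  · exact le_max_of_le_left (norm_nonneg _)

/-- The counting set in terms of `B = √(‖det g‖ / Y)`. -/
theorem cntSet_eq_cntB671 (𝔪 : Ideal (𝓞 K)) (g : G K) {Y : ℝ} (hY : 0 < Y) :
    cntSet 𝔪 Y g = cntB671 𝔪
      (Real.sqrt (Fermat.Agent.LT.T5.adNorm
        (Matrix.det (g : Matrix (Fin 2) (Fin 2) (Adl K))) / Y)) g := by
  ext x
  unfold cntSet cntB671 Cong671
  simp only [Set.mem_ofPred_eq]
  refine and_congr_left fun _ => ?_
  rw [Real.le_sqrt (rowNorm_nonneg671 _) (div_nonneg (adNorm_det_pos671 g).le hY.le),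
    le_div_iff₀ hY]

theorem cnt_eq_ncard_cntB671 (𝔪 : Ideal (𝓞 K)) (g : G K) {Y : ℝ} (hY : 0 < Y) :
    cnt 𝔪 Y g = (cntB671 𝔪
      (Real.sqrt (Fermat.Agent.LT.T5.adNorm
        (Matrix.det (g : Matrix (Fin 2) (Fin 2) (Adl K))) / Y)) g).ncard := by
  unfold cnt
  rw [cntSet_eq_cntB671 𝔪 g hY, Nat.card_coe_set_eq]

theorem tendsto_sqrt_div671 {D : ℝ} (hD : 0 < D) :
    Tendsto (fun Y : ℝ => Real.sqrt (D / Y)) (𝓝[>] (0 : ℝ)) atTop := by
  have h1 : Tendsto (fun Y : ℝ => D * Y⁻¹) (𝓝[>] (0 : ℝ)) atTop :=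
    Tendsto.const_mul_atTop hD tendsto_inv_nhdsGT_zero
  have h2 := Real.tendsto_sqrt_atTop.comp h1
  refine h2.congr fun Y => ?_
  simp [div_eq_mul_inv]

/-- **TOP.**  `CountLimC` from the idele classes, the class decomposition and the single class
limit. -/
theorem countLimC_of671 (hI : IdeleClassC K) (hD : ClassDecC K) (hP : PrimC K) : CountLimC K := by
  intro _ 𝔪 h𝔪
  obtain ⟨n, c, hc⟩ := hI
  obtain ⟨κ₀, hκ₀, hlim⟩ := hP 𝔪 h𝔪
  have hn : 0 < n := by
    obtain ⟨i, -⟩ := hc.1 1
    exact Fin.pos i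
  have hw : (0 : ℝ) < (NumberField.Units.torsionOrder K : ℝ) := by
    exact_mod_cast NumberField.Units.torsionOrder_pos K
  refine ⟨(n : ℝ) * κ₀ / (NumberField.Units.torsionOrder K : ℝ), by positivity, fun g => ?_⟩
  set D : ℝ := Fermat.Agent.LT.T5.adNorm (Matrix.det (g : Matrix (Fin 2) (Fin 2) (Adl K)))
    with hDdef
  have hDpos : 0 < D := adNorm_det_pos671 g
  set Bf : ℝ → ℝ := fun Y => Real.sqrt (D / Y) with hBf
  have hBtend : Tendsto Bf (𝓝[>] (0 : ℝ)) atTop := tendsto_sqrt_div671 hDpos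
  -- the terms
  have hterm : ∀ i : Fin n, Tendsto
      (fun Y : ℝ => ((primSet671 𝔪 (Bf Y * finNormI671 (c i)) (g * scF671 (c i))).ncard : ℝ)
        / (Bf Y * finNormI671 (c i)) ^ 2) (𝓝[>] (0 : ℝ))
      (𝓝 (κ₀ / (D * finNormI671 (c i) ^ 2))) := by
    intro i
    have h1 : Tendsto (fun Y : ℝ => Bf Y * finNormI671 (c i)) (𝓝[>] (0 : ℝ)) atTop :=
      Tendsto.atTop_mul_const (finNormI671_pos (c i)) hBtend
    have h2 := (hlim (g * scF671 (c i))).comp h1
    have h3 : Fermat.Agent.LT.T5.adNorm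
        (Matrix.det ((g * scF671 (c i) : G K) : Matrix (Fin 2) (Fin 2) (Adl K)))
        = D * finNormI671 (c i) ^ 2 := by
      unfold scF671
      rw [adNorm_det_mul_dgF671]
      ring
    rw [h3] at h2
    exact h2
  -- the sum
  have hsum : Tendsto (fun Y : ℝ => D / (NumberField.Units.torsionOrder K : ℝ) *
      ∑ i : Fin n, finNormI671 (c i) ^ 2 *
        (((primSet671 𝔪 (Bf Y * finNormI671 (c i)) (g * scF671 (c i))).ncard : ℝ)
          / (Bf Y * finNormI671 (c i)) ^ 2)) (𝓝[>] (0 : ℝ))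
      (𝓝 (D / (NumberField.Units.torsionOrder K : ℝ) *
        ∑ i : Fin n, finNormI671 (c i) ^ 2 * (κ₀ / (D * finNormI671 (c i) ^ 2)))) :=
    (tendsto_finsetSum _ fun i _ => (hterm i).const_mul _).const_mul _
  have hval : D / (NumberField.Units.torsionOrder K : ℝ) *
        ∑ i : Fin n, finNormI671 (c i) ^ 2 * (κ₀ / (D * finNormI671 (c i) ^ 2))
      = (n : ℝ) * κ₀ / (NumberField.Units.torsionOrder K : ℝ) := by
    have : ∀ i : Fin n, finNormI671 (c i) ^ 2 * (κ₀ / (D * finNormI671 (c i) ^ 2)) = κ₀ / D := by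
      intro i
      have hpos := finNormI671_pos (c i)
      field_simp
    simp only [this, Finset.sum_const, Finset.card_univ, Fintype.card_fin, nsmul_eq_mul]
    field_simp
  rw [hval] at hsum
  refine hsum.congr' ?_
  have hmem : ∀ᶠ Y : ℝ in 𝓝[>] (0 : ℝ), 0 < Y := self_mem_nhdsWithin
  refine hmem.mono fun Y hY => ?_
  have hBpos : 0 < Bf Y := Real.sqrt_pos.mpr (div_pos hDpos hY)
  have hB2 : Bf Y ^ 2 = D / Y := Real.sq_sqrt (div_pos hDpos hY).le
  have hdec := hD n c hc 𝔪 g (Bf Y) hBpos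
  beta_reduce
  rw [cnt_eq_ncard_cntB671 𝔪 g hY]
  have hcnt : ((cntB671 𝔪 (Bf Y) g).ncard : ℝ)
      = (∑ i : Fin n, ((primSet671 𝔪 (Bf Y * finNormI671 (c i)) (g * scF671 (c i))).ncard : ℝ))
        / (NumberField.Units.torsionOrder K : ℝ) := by
    rw [← hdec]
    field_simp
  show _ = Y * ((cntB671 𝔪 (Bf Y) g).ncard : ℝ)
  rw [hcnt]
  have hY0 : Y ≠ 0 := hY.ne'
  have hD0 : D ≠ 0 := hDpos.ne'
  have hterm2 : ∀ i : Fin n, finNormI671 (c i) ^ 2 *
        (((primSet671 𝔪 (Bf Y * finNormI671 (c i)) (g * scF671 (c i))).ncard : ℝ)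
          / (Bf Y * finNormI671 (c i)) ^ 2)
      = ((primSet671 𝔪 (Bf Y * finNormI671 (c i)) (g * scF671 (c i))).ncard : ℝ) / Bf Y ^ 2 := by
    intro i
    have hpos := finNormI671_pos (c i)
    field_simp
  simp only [hterm2]
  rw [← Finset.sum_div, hB2]
  field_simp

end Fermat.Agent.LT.T7.H671

end

end
-- ===== PACK-END LT/T7/H671/LimTop.lean

-- ===== PACK-BEGIN LT/T7/H227/CovolOfSlice.lean
section






/-!
# Row LT, tower T7, leaf T7.14.3c `CovolC` (helper671): assembly modulo `SliceC227` (OFF-MAIN)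

`covolC_of_slice227 : SliceC227 K → H671.CovolC K`, from

* `covolC_of_leaves227` (helper227, `CovolTop.lean`),
* `topoC600`   (helper600, row 1895),
* `latC236`    (helper236, row 1896),
* `strictC404` (helper404, row 1942, spare of row 1898).

The last leaf `SliceC227` is row 1897.
-/

set_option autoImplicit false

namespace Fermat.Agent.LT.T7.H227

/-- `CovolC` from the slice leaf alone (the other three leaves are proved). -/
theorem covolC_of_slice227 (K : Type) [Field K] [NumberField K] (hS : SliceC227 K) :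
    Fermat.Agent.LT.T7.H671.CovolC K :=
  covolC_of_leaves227 (Fermat.Agent.LT.T7.H600.topoC600 K) (Fermat.Agent.LT.T7.H236.latC236 K)
    hS (Fermat.Agent.LT.T7.H404.strictC404 K)

end Fermat.Agent.LT.T7.H227

end
-- ===== PACK-END LT/T7/H227/CovolOfSlice.lean

-- ===== PACK-BEGIN LT/T7/H138/Slice.lean
section





/-!
# Row LT, tower T7, leaf T7.14.3c.S `H227.SliceC227` (spare, helper138)

OFF-MAIN.  `sliceC138 K : H227.SliceC227 K`, VERBATIM against `LT/T7/H227/CovolSpec.lean`
(helper227, sha256 52f0b3fe53f9).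

For a Haar measure `μ` of `𝔸² = Fin 2 → Adl K` the measure `A ↦ μ (U ∩ pairOf671 ⁻¹' A)` of
`(K_∞)²` (`U` = the rows which are integral at every finite place) is `c · volume` with
`0 < c < ∞`.

Route: `pushMeas_eq_smul138` (`LT/A2/H138/PushHaar.lean`, Mathlib only) with `G = 𝔸²`,
`W = U` (an open subgroup), `P = pairOf671` (continuous, additive), the section
`(K_∞)² → 𝔸²` = extension by zero at the finite places, and `W ∩ ker P` contained in the compact
set `({0} × ∏_v 𝒪_v)²`.  `c ≠ 0` because `U` is open and not empty.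
Topology (`U` open, `pairOf671` continuous): `LT/T7/H600/Topo.lean` (helper600, byte copy);
compactness of `𝒪_v`: `LT/H11/LC.lean` (helper11, byte copy).
-/

set_option autoImplicit false
set_option linter.unusedSectionVars false
set_option linter.style.haveILetI false

open NumberField NumberField.mixedEmbedding NumberField.InfinitePlace IsDedekindDomain
  MeasureTheory Set
open scoped ENNReal NNReal Matrix RestrictedProduct Classical

noncomputable section

namespace Fermat.Agent.LT.T7.H138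

open Fermat.Agent.LT.H556 Fermat.Agent.LT.H556.A0 Fermat.Agent.LT.T7.Rigid
  Fermat.Agent.LT.T7.H671 Fermat.Agent.LT.T7 Fermat.Agent.LT.H11 Fermat.Agent.LT.A2.H138

variable (K : Type) [Field K] [NumberField K]

/-- The integral rows, as a subgroup. -/
def rowsW138 : AddSubgroup (Fin 2 → Adl K) where
  carrier := H227.intRows227 K
  zero_mem' := isIntRow671_zero
  add_mem' := fun ha hb => isIntRow671_add ha hb
  neg_mem' := fun ha => isIntRow671_neg ha

theorem coe_rowsW138 : (rowsW138 K : Set (Fin 2 → Adl K)) = H227.intRows227 K := rfl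

/-- `pairOf671` as an additive homomorphism. -/
def pairHom138 : (Fin 2 → Adl K) →+ Pair671 K where
  toFun := pairOf671
  map_zero' := pairOf671_zero
  map_add' := pairOf671_add

theorem pairHom_apply138 (r : Fin 2 → Adl K) : pairHom138 K r = pairOf671 r := rfl

variable {K}

/-- The section of `ringEquiv_mixedSpace`, place by place. -/
def secInf138 (m : mixedSpace K) : InfiniteAdeleRing K := fun v =>
  if h : IsReal v then (Completion.isometryEquivRealOfIsReal h).symm (m.1 ⟨v, h⟩)
  else (Completion.isometryEquivComplexOfIsComplex (not_isReal_iff_isComplex.1 h)).symm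
    (m.2 ⟨v, not_isReal_iff_isComplex.1 h⟩)

theorem secInf_of_real138 (m : mixedSpace K) {v : InfinitePlace K} (h : IsReal v) :
    secInf138 m v = (Completion.isometryEquivRealOfIsReal h).symm (m.1 ⟨v, h⟩) := by
  unfold secInf138
  rw [dif_pos h]

theorem secInf_of_complex138 (m : mixedSpace K) {v : InfinitePlace K} (h : IsComplex v) :
    secInf138 m v = (Completion.isometryEquivComplexOfIsComplex h).symm (m.2 ⟨v, h⟩) := by
  unfold secInf138
  rw [dif_neg (not_isReal_iff_isComplex.2 h)]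

theorem continuous_secInf138 : Continuous (secInf138 (K := K)) := by
  refine continuous_pi fun v => ?_
  by_cases h : IsReal v
  · have hEq : (fun m : mixedSpace K => secInf138 m v)
        = fun m => (Completion.isometryEquivRealOfIsReal h).symm (m.1 ⟨v, h⟩) := by
      funext m
      exact secInf_of_real138 m h
    rw [hEq]
    exact (Completion.isometryEquivRealOfIsReal h).symm.continuous.comp
      ((continuous_apply _).comp continuous_fst)
  · have h' : IsComplex v := not_isReal_iff_isComplex.1 h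
    have hEq : (fun m : mixedSpace K => secInf138 m v)
        = fun m => (Completion.isometryEquivComplexOfIsComplex h').symm (m.2 ⟨v, h'⟩) := by
      funext m
      exact secInf_of_complex138 m h'
    rw [hEq]
    exact (Completion.isometryEquivComplexOfIsComplex h').symm.continuous.comp
      ((continuous_apply _).comp continuous_snd)

theorem ringEquiv_secInf138 (m : mixedSpace K) :
    InfiniteAdeleRing.ringEquiv_mixedSpace K (secInf138 m) = m := by
  rw [InfiniteAdeleRing.ringEquiv_mixedSpace_apply]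
  refine Prod.ext ?_ ?_
  · funext v
    change Completion.extensionEmbeddingOfIsReal v.2 (secInf138 m v.1) = m.1 v
    rw [secInf_of_real138 m v.2]
    exact (Completion.isometryEquivRealOfIsReal v.2).apply_symm_apply _
  · funext v
    change Completion.extensionEmbedding v.1 (secInf138 m v.1) = m.2 v
    rw [secInf_of_complex138 m v.2]
    exact (Completion.isometryEquivComplexOfIsComplex v.2).apply_symm_apply _

/-- The adele with infinite part `secInf138 m` and finite part `0`. -/
def secAd138 (m : mixedSpace K) : Adl K := (secInf138 m, 0)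

theorem continuous_secAd138 : Continuous (secAd138 (K := K)) :=
  continuous_secInf138.prodMk continuous_const

theorem infMixed_secAd138 (m : mixedSpace K) : infMixed671 (secAd138 m) = m :=
  ringEquiv_secInf138 m

/-- The section of `pairOf671`: extension by zero at the finite places. -/
def secRow138 (p : Pair671 K) : Fin 2 → Adl K := ![secAd138 p.1, secAd138 p.2]

theorem continuous_secRow138 : Continuous (secRow138 (K := K)) := by
  refine continuous_pi fun j => ?_
  fin_cases j
  · exact continuous_secAd138.comp continuous_fst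
  · exact continuous_secAd138.comp continuous_snd

theorem pairOf_secRow138 (p : Pair671 K) : pairOf671 (secRow138 p) = p := by
  unfold pairOf671
  refine Prod.ext ?_ ?_
  · exact infMixed_secAd138 p.1
  · exact infMixed_secAd138 p.2

theorem secRow_mem138 (p : Pair671 K) : secRow138 p ∈ rowsW138 K := by
  intro v j
  fin_cases j
  · exact zero_mem _
  · exact zero_mem _

variable (K)

/-- The integral finite adeles. -/
def intFin138 : Set (FiniteAdeleRing (𝓞 K) K) :=
  {a | ∀ v, a v ∈ v.adicCompletionIntegers K}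

theorem isCompact_intFin138 : IsCompact (intFin138 K) := by
  haveI : ∀ v : HeightOneSpectrum (𝓞 K), CompactSpace (v.adicCompletionIntegers K) :=
    fun v => LC.compactSpace_integers_h11 K v
  have h := isCompact_range
    (RestrictedProduct.isEmbedding_structureMap
      (R := fun v : HeightOneSpectrum (𝓞 K) => v.adicCompletion K)
      (A := fun v => (v.adicCompletionIntegers K : Set (v.adicCompletion K)))
      (𝓕 := Filter.cofinite)).continuous
  rw [RestrictedProduct.range_structureMap] at h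
  exact h

/-- `{0} × ∏_v 𝒪_v`. -/
def kerAd138 : Set (Adl K) := ({0} : Set (InfiniteAdeleRing K)) ×ˢ intFin138 K

theorem isCompact_kerAd138 : IsCompact (kerAd138 K) :=
  isCompact_singleton.prod (isCompact_intFin138 K)

/-- A compact set containing `W ∩ ker P`. -/
def kerRow138 : Set (Fin 2 → Adl K) := Set.pi Set.univ fun _ => kerAd138 K

theorem isCompact_kerRow138 : IsCompact (kerRow138 K) :=
  isCompact_univ_pi fun _ => isCompact_kerAd138 K

variable {K}

theorem infMixed_eq_zero138 {a : Adl K} (h : infMixed671 a = 0) : a.1 = 0 := by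
  unfold infMixed671 at h
  exact (map_eq_zero_iff _ (InfiniteAdeleRing.ringEquiv_mixedSpace K).injective).1 h

theorem mem_kerRow138 (r : Fin 2 → Adl K) (hW : r ∈ rowsW138 K) (hP : pairHom138 K r = 0) :
    r ∈ kerRow138 K := by
  rw [pairHom_apply138] at hP
  have h0 : infMixed671 (r 0) = 0 := congrArg Prod.fst hP
  have h1 : infMixed671 (r 1) = 0 := congrArg Prod.snd hP
  intro j _
  have hj : (r j).1 = 0 := by
    fin_cases j
    · exact infMixed_eq_zero138 h0
    · exact infMixed_eq_zero138 h1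
  exact ⟨hj, fun v => hW v j⟩

variable (K)

/-- The volume of `(K_∞)²`. -/
def volPair138 : Measure (Pair671 K) := volume

theorem isAddHaar_volPair138 : (volPair138 K).IsAddHaarMeasure :=
  Measure.prod.instIsAddHaarMeasure (volume : Measure (mixedSpace K))
    (volume : Measure (mixedSpace K))

/-- **T7.14.3c.S (slice).** -/
theorem sliceC138 : H227.SliceC227 K := by
  letI : MeasurableSpace (Fin 2 → Adl K) := borel (Fin 2 → Adl K)
  haveI : BorelSpace (Fin 2 → Adl K) := ⟨rfl⟩
  intro μ hμ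
  haveI := hμ
  haveI := isAddHaar_volPair138 K
  have hP : Continuous (pairHom138 K) := H600.continuous_pairOf600 K
  obtain ⟨κ, hκ⟩ := pushMeas_eq_smul138 (H := Pair671 K) μ (volPair138 K) (rowsW138 K)
    (pairHom138 K) hP secRow138 continuous_secRow138 pairOf_secRow138 secRow_mem138
    (kerRow138 K) (isCompact_kerRow138 K) mem_kerRow138
  have hval : ∀ A : Set (Pair671 K), MeasurableSet A →
      μ (H227.intRows227 K ∩ pairOf671 ⁻¹' A) = (κ : ℝ≥0∞) * volume A := by
    intro A hA
    have h := congrArg (fun m : Measure (Pair671 K) => m A) hκ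
    simp only [pushMeas_apply138 μ hP.measurable hA, Measure.smul_apply, ENNReal.smul_def,
      smul_eq_mul] at h
    rw [Set.inter_comm]
    exact h
  refine ⟨(κ : ℝ≥0∞), ?_, ENNReal.coe_ne_top, hval⟩
  intro hz
  have h := hval Set.univ MeasurableSet.univ
  rw [hz, zero_mul, Set.preimage_univ, Set.inter_univ] at h
  have hne : (H227.intRows227 K).Nonempty := ⟨0, isIntRow671_zero⟩
  exact (H600.isOpen_intRows600 K).measure_ne_zero μ hne h

end Fermat.Agent.LT.T7.H138

end

end
-- ===== PACK-END LT/T7/H138/Slice.lean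

-- ===== PACK-BEGIN LT/T7/H941/LocForm.lean
section





/-!
# Row LT, tower T7, node T7.14.6b.1 `LocC` (helper941, spare) -- part 3: stability of `S`-forms

OFF-MAIN.  A finite combination `lin c g φ = ∑ᵢ cᵢ R(gᵢ) φ` of right translates of an `S`-form
`φ` of `π` by elements `gᵢ` supported at the places of `S` is an `S`-form of `π` as soon as it
has a level with prime factors in `S` (`isSForm_lin941`): the invariances at the infinite places
and the Hecke relations at `v ∉ S` by commutation, the mean value property by linearity of the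
integral (the family of `A0.MeanValueComplex` is continuous: `continuous_family600`), the
cuspidality by `cuspidal_lin_sub23`.
-/

set_option autoImplicit false
set_option linter.unusedSectionVars false
set_option linter.unusedVariables false
set_option linter.style.haveILetI false

open AutomorphicForm IsDedekindDomain NumberField IsDedekindDomain.HeightOneSpectrum MeasureTheory
open Fermat.Agent.LT.H556 Fermat.Agent.LT.H556.A0

noncomputable section

namespace Fermat.Agent.LT.T7.H941

open Fermat.Agent.LT Fermat.Agent.LT.T2.H941 Fermat.Agent.LT.T2.H23 Fermat.Agent.LT.T2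
open Fermat.Agent.LT.T7

variable {K : Type} [Field K] [NumberField K]

/-- Right invariance under an element commuting with the `gᵢ`. -/
theorem lin_inv941 {φ : G K → ℂ} {n : ℕ} (c : Fin n → ℂ) (g : Fin n → G K) {z : G K}
    (hz : ∀ i, z * g i = g i * z) {b : ℂ} (hφ : ∀ x : G K, φ (x * z) = b * φ x) (x : G K) :
    lin c g φ (x * z) = b * lin c g φ x := by
  rw [lin_apply23, lin_apply23, Finset.mul_sum]
  refine Finset.sum_congr rfl fun i _ => ?_
  rw [mul_assoc x z, hz i, ← mul_assoc, hφ]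
  ring

/-- The Hecke relations at a place where the `gᵢ` are trivial. -/
theorem hecke_lin941 {φ : G K → ℂ} {v : HeightOneSpectrum (𝓞 K)} {a b : ℂ}
    (hE : IsHeckeEigenAt φ v a b) {n : ℕ} (c : Fin n → ℂ) (g : Fin n → G K)
    (hg : ∀ i, TrivAtFin v (g i)) : IsHeckeEigenAt (lin c g φ) v a b := by
  have hcomm : ∀ h : G K, IsLocalAtFin v h → ∀ i, h * g i = g i * h := by
    intro h hh i
    refine comm_of_disj23 (fun v' => ?_) (fun w' => Or.inl (hh.1 w'))
    by_cases e : v' = v
    · right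
      rw [e]
      exact hg i
    · left
      exact hh.2 v' e
  refine ⟨fun H hH g₀ => ?_, fun z hz g₀ => ?_⟩
  · have e1 : ∀ h ∈ H, lin c g φ (g₀ * h) = ∑ i, c i * φ (g₀ * g i * h) := by
      intro h hh
      rw [lin_apply23]
      refine Finset.sum_congr rfl fun i _ => ?_
      rw [mul_assoc g₀ h, hcomm h (hH.2.1 h hh).1 i, ← mul_assoc]
    rw [Finset.sum_congr rfl e1, Finset.sum_comm, lin_apply23, Finset.mul_sum]
    refine Finset.sum_congr rfl fun i _ => ?_
    rw [← Finset.mul_sum, hE.1 H hH (g₀ * g i)]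
    ring
  · exact lin_inv941 c g (hcomm z hz.1) (fun x => hE.2 z hz x) g₀

/-- The mean value property of a combination of right translates by elements which are trivial
at the infinite places. -/
theorem meanValueComplex_lin941 {φ : G K → ℂ} (hc : Continuous φ) {w : InfinitePlace K}
    (hM : MeanValueComplex φ w) {n : ℕ} (c : Fin n → ℂ) (g : Fin n → G K)
    (hg : ∀ i, ∀ w' : InfinitePlace K, TrivAtInf w' (g i)) :
    MeanValueComplex (lin c g φ) w := by
  intro d hd Y hY g₀
  have hYc := T2.H600.continuous_family600 w d Y hY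
  have hcomm : ∀ (α β : ℝ) (i : Fin n), Y α β * g i = g i * Y α β := fun α β i =>
    comm_of_disj23 (fun v => Or.inl ((hY α β).1.2 v)) (fun w' => Or.inr (hg i w'))
  obtain ⟨F, hF⟩ : ∃ F : Fin n → ℝ → ℝ → ℂ,
      F = fun i α β => c i * (φ (g₀ * g i * Y α β) * ((Real.sin β : ℝ) : ℂ)) := ⟨_, rfl⟩
  have hFc : ∀ i, Continuous (Function.uncurry (F i)) := by
    intro i
    have h1 : Continuous fun p : ℝ × ℝ => g₀ * g i * Y p.1 p.2 := continuous_const.mul hYc
    have h3 : Continuous fun p : ℝ × ℝ => ((Real.sin p.2 : ℝ) : ℂ) :=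
      Complex.continuous_ofReal.comp (Real.continuous_sin.comp continuous_snd)
    rw [hF]
    exact continuous_const.mul ((hc.comp h1).mul h3)
  have e1 : ∀ α β : ℝ, lin c g φ (g₀ * Y α β) * ((Real.sin β : ℝ) : ℂ) = ∑ i, F i α β := by
    intro α β
    rw [lin_apply23, Finset.sum_mul, hF]
    refine Finset.sum_congr rfl fun i _ => ?_
    rw [mul_assoc g₀, hcomm α β i, ← mul_assoc g₀]
    ring
  have hin : ∀ (α : ℝ) (i : Fin n), IntervalIntegrable (F i α) volume 0 Real.pi := fun α i =>
    ((hFc i).comp (Continuous.prodMk continuous_const continuous_id)).intervalIntegrable _ _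
  have hout : ∀ i : Fin n, IntervalIntegrable
      (fun α => ∫ β in (0 : ℝ)..Real.pi, F i α β) volume 0 (2 * Real.pi) := fun i =>
    (intervalIntegral.continuous_parametric_intervalIntegral_of_continuous'
      (hFc i) 0 Real.pi).intervalIntegrable _ _
  have hval : ∀ i : Fin n,
      (∫ α in (0 : ℝ)..(2 * Real.pi), ∫ β in (0 : ℝ)..Real.pi, F i α β)
        = c i * (((4 * Real.pi * (d / Real.sinh d) : ℝ) : ℂ) * φ (g₀ * g i)) := by
    intro i
    have h := hM d hd Y hY (g₀ * g i)
    rw [← h, ← intervalIntegral.integral_const_mul]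
    refine intervalIntegral.integral_congr fun α _ => ?_
    show (∫ β in (0 : ℝ)..Real.pi, F i α β)
      = c i * ∫ β in (0 : ℝ)..Real.pi, φ (g₀ * g i * Y α β) * ((Real.sin β : ℝ) : ℂ)
    rw [← intervalIntegral.integral_const_mul, hF]
  calc (∫ α in (0 : ℝ)..(2 * Real.pi), ∫ β in (0 : ℝ)..Real.pi,
          lin c g φ (g₀ * Y α β) * ((Real.sin β : ℝ) : ℂ))
      = ∫ α in (0 : ℝ)..(2 * Real.pi), ∑ i, ∫ β in (0 : ℝ)..Real.pi, F i α β := by
        refine intervalIntegral.integral_congr fun α _ => ?_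
        show (∫ β in (0 : ℝ)..Real.pi, lin c g φ (g₀ * Y α β) * ((Real.sin β : ℝ) : ℂ))
          = ∑ i, ∫ β in (0 : ℝ)..Real.pi, F i α β
        rw [← intervalIntegral.integral_finsetSum (fun i _ => hin α i)]
        exact intervalIntegral.integral_congr fun β _ => e1 α β
    _ = ∑ i, ∫ α in (0 : ℝ)..(2 * Real.pi), ∫ β in (0 : ℝ)..Real.pi, F i α β :=
        intervalIntegral.integral_finsetSum (fun i _ => hout i)
    _ = ∑ i, c i * (((4 * Real.pi * (d / Real.sinh d) : ℝ) : ℂ) * φ (g₀ * g i)) :=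
        Finset.sum_congr rfl fun i _ => hval i
    _ = ((4 * Real.pi * (d / Real.sinh d) : ℝ) : ℂ) * lin c g φ g₀ := by
        rw [lin_apply23, Finset.mul_sum]
        refine Finset.sum_congr rfl fun i _ => ?_
        ring

/-- Cuspidality of a combination of right translates. -/
theorem cuspidal_lin941 (hA : T1.AddFundDomC K) {φ : G K → ℂ} (hc : Continuous φ)
    (hb : ∃ C : ℝ, ∀ g : G K, ‖φ g‖ ≤ C) (hcu : IsCuspidalFn φ) {n : ℕ} (c : Fin n → ℂ)
    (g : Fin n → G K) : IsCuspidalFn (lin c g φ) := by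
  have h := cuspidal_lin_sub23 hA c g (fun i : Fin 0 => i.elim0) (fun i : Fin 0 => i.elim0)
    hc hb hcu hc hb hcu
  have e : (fun x => lin c g φ x - lin (fun i : Fin 0 => i.elim0) (fun i : Fin 0 => i.elim0) φ x)
      = lin c g φ := by
    funext x
    simp [lin]
  rw [e] at h
  exact h

/-- **Stability of the `S`-forms** under finite combinations of right translates by elements
supported at `S`. -/
theorem isSForm_lin941 (hcplx : TotCplx K) (hA : T1.AddFundDomC K)
    {π : HeckeEigensystem K ℂ} {S : Finset (HeightOneSpectrum (𝓞 K))} {φ : G K → ℂ}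
    (hφ : Rigid.IsSForm π S φ) {n : ℕ} (c : Fin n → ℂ) (g : Fin n → G K)
    (hg : ∀ i, GSuppIn23 S (g i)) {𝔪 : Ideal (𝓞 K)} (h𝔪 : 𝔪 ≠ ⊥)
    (hsupp : ∀ v : HeightOneSpectrum (𝓞 K), v.asIdeal ∣ 𝔪 → v ∈ S)
    (hlev : IsLevel 𝔪 (lin c g φ)) : Rigid.IsSForm π S (lin c g φ) where
  cont := continuous_lin23 c g hφ.cont
  bdd := bdd_lin23 c g hφ.bdd
  left_inv := leftInv_lin23 c g hφ.left_inv
  level_inv := ⟨𝔪, h𝔪, hsupp, hlev⟩
  arch_scalar := by
    intro w z hz x
    have h := lin_inv941 c g (z := z) (b := 1)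
      (fun i => comm_of_disj23 (fun v => Or.inl (hz.1.2 v)) (fun w' => Or.inr ((hg i).1 w')))
      (fun x => by rw [one_mul]; exact hφ.arch_scalar w z hz x) x
    rw [one_mul] at h
    exact h
  arch_compact := by
    intro w z hz x
    have h := lin_inv941 c g (z := z) (b := 1)
      (fun i => comm_of_disj23 (fun v => Or.inl (hz.1.2 v)) (fun w' => Or.inr ((hg i).1 w')))
      (fun x => by rw [one_mul]; exact hφ.arch_compact w z hz x) x
    rw [one_mul] at h
    exact h
  mean_complex := fun w hw =>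
    meanValueComplex_lin941 hφ.cont (hφ.mean_complex w hw) c g (fun i => (hg i).1)
  mean_real := fun w hw => absurd hw (InfinitePlace.not_isReal_iff_isComplex.mpr (hcplx w))
  cuspidal := cuspidal_lin941 hA hφ.cont hφ.bdd hφ.cuspidal c g
  hecke := fun v hv => hecke_lin941 (hφ.hecke v hv) c g (fun i => (hg i).2 v hv)

/-- A right translate is a combination with one term. -/
theorem rt_eq_lin941 (h : G K) (f : G K → ℂ) :
    rt h f = lin (fun _ : Fin 1 => (1 : ℂ)) (fun _ : Fin 1 => h) f := by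
  funext x
  simp [lin, rt]

end Fermat.Agent.LT.T7.H941

end

end
-- ===== PACK-END LT/T7/H941/LocForm.lean

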