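import Mathlib
import Fermat.Agent.Pack.LT2.E17L2
import Fermat.Agent.Pack.LT2.E0L3
import Fermat.Agent.Pack.LT2.E16L0
import Fermat.Agent.Pack.LT2.E16L2
import Fermat.Agent.Pack.LT2.E0L1
import Fermat.Agent.Pack.LT2.E16L3
import Fermat.Agent.Pack.LT2.E15L3
import Fermat.Agent.Pack.LT2.E10L2
import Fermat.Agent.Pack.LT2.E16L1
import Fermat.Agent.Pack.LT2.E17L0
import Fermat.Agent.Pack.LT2.E12L2
import Fermat.Agent.Pack.LT2.E4L2
import Fermat.Agent.Pack.LT2.E17L3
import Fermat.Agent.Pack.LT2.E8L0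

set_option linter.all false

-- ===== PACK-BEGIN LT/A2/H144/GaussNorm.lean
section



/-!
# Row LT, tower A2, leaf A2.03.1.1.06.06 `LF54.LeafGaussNorm` -- PROVED (helper144)

OFF-MAIN.  `leafGaussNorm144 : LF54.LeafGaussNorm`, VERBATIM, unconditional.

`‖N‖ G(a N) = G(a)` for the nonzero values `N = Q(x, y)` of the norm form: the identity
`‖N‖ (G(a N) I') = G(a) I'` of `GaussNormCore.lean` (the Gauss identity for `Φ'` and for
`Φ' ∘ m`, `m` the multiplication by `x + y ω`, and the change of variables) with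
`Φ'` = the indicator function of `Λ × Λ`, `Λ` a small closed ball of `K_v` (compact and open),
`ξ = 0`: then `I' = μ(Λ)² ≠ 0`.

Input from the tree: `H767.compactSpace_integer_adicCompletion` (`𝒪_v` is compact; Mathlib only),
a byte-identical copy of the file of helper767 as vendored by helper54.
-/

set_option autoImplicit false

open IsDedekindDomain NumberField MeasureTheory
open scoped Topology

noncomputable section

namespace Fermat.Agent.LT.A2.H144

open Fermat.Agent.LT.A2 Fermat.Agent.LT.A2.WX467 Fermat.Agent.LT.A2.LF54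

section Measure

variable {k : Type} [NormedField k]

/-- The indicator function of `Λ × Λ` is Schwartz--Bruhat for `Λ` compact and open. -/
theorem isSB_indicator144d (Λ : Set k) (hΛc : IsCompact Λ) (hΛo : IsOpen Λ) :
    IsSB (Set.indicator (Λ ×ˢ Λ) (fun _ : k × k => (1 : ℂ))) := by
  have hcl : IsClosed (Λ ×ˢ Λ) := hΛc.isClosed.prod hΛc.isClosed
  have hop : IsOpen (Λ ×ˢ Λ) := hΛo.prod hΛo
  refine ⟨?_, ?_⟩
  · rw [IsLocallyConstant.iff_eventually_eq]
    intro z
    by_cases hz : z ∈ Λ ×ˢ Λ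
    · filter_upwards [hop.mem_nhds hz] with w hw
      rw [Set.indicator_of_mem hw, Set.indicator_of_mem hz]
    · have hz' : z ∈ (Λ ×ˢ Λ)ᶜ := hz
      filter_upwards [hcl.isOpen_compl.mem_nhds hz'] with w hw
      rw [Set.indicator_of_notMem hw, Set.indicator_of_notMem hz]
  · refine HasCompactSupport.intro (hΛc.prod hΛc) ?_
    intro z hz
    exact Set.indicator_of_notMem hz _

/-- The integral of the indicator function of `Λ × Λ` is not zero. -/
theorem intL_indicator_ne144d [ProperSpace k] (μ : @Measure k (borel k)) (hμ : IsHaarL μ)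
    (Λ : Set k)
    (hΛc : IsCompact Λ) (hΛo : IsOpen Λ) (hΛne : Λ.Nonempty) :
    intL μ (Set.indicator (Λ ×ˢ Λ) (fun _ : k × k => (1 : ℂ))) ≠ 0 := by
  let _ : MeasurableSpace k := borel k
  have : BorelSpace k := ⟨rfl⟩
  have : IsFiniteMeasureOnCompacts μ := ⟨fun K hK => hμ.2.1 K hK⟩
  have : SigmaFinite μ := inferInstance
  have hm : MeasurableSet Λ := hΛc.isClosed.measurableSet
  have hmm : MeasurableSet (Λ ×ˢ Λ) := hm.prod hm
  have hpos : 0 < μ Λ := hμ.2.2 Λ hΛo hΛne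
  have hfin : μ Λ < ⊤ := hμ.2.1 Λ hΛc
  unfold intL
  rw [integral_indicator_const _ hmm, measureReal_def, Measure.prod_prod, ENNReal.toReal_mul]
  have h1 : (μ Λ).toReal ≠ 0 := (ENNReal.toReal_pos hpos.ne' hfin.ne).ne'
  simp [h1]

end Measure

/-- **A2.03.1.1.06.06 GAUSS-NORM**, VERBATIM. -/
theorem leafGaussNorm144 : LF54.LeafGaussNorm := by
  intro K _ _ v t n ψ μ c G hctx hF a ha x y hN
  have hcpt : CompactSpace (Valued.integer (v.adicCompletion K)) :=
    H767.compactSpace_integer_adicCompletion K v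
  have hproper : ProperSpace (v.adicCompletion K) :=
    Valued.integer.properSpace_iff_compactSpace_integer.mpr hcpt
  have hψlc : IsLocallyConstant ψ := char_locConst144d ψ hctx.char
  obtain ⟨ε, hε, htriv⟩ := char_trivial_ball144d ψ hctx.char
  -- the function `g z = -Q(z + m 0) / (a N)` is small near `0`
  set g : v.adicCompletion K × v.adicCompletion K → v.adicCompletion K :=
    fun z => -(qfL t n (z + actL (torMat t n x y) 0)) / (a * qfL t n (x, y)) with hg
  have hgc : Continuous g := by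
    have h := continuous_qfL144d t n
    rw [hg]
    fun_prop
  have hg0 : g 0 = 0 := by
    rw [hg]
    show -(qfL t n (0 + actL (torMat t n x y) 0)) / (a * qfL t n (x, y)) = 0
    rw [actL_zero144d, add_zero, qfL_zero144d, neg_zero, zero_div]
  have hnb : g ⁻¹' Metric.ball 0 ε ∈ 𝓝 (0 : v.adicCompletion K × v.adicCompletion K) := by
    apply hgc.continuousAt.preimage_mem_nhds
    rw [hg0]
    exact Metric.ball_mem_nhds _ hε
  obtain ⟨δ, hδ, hball⟩ := Metric.mem_nhds_iff.mp hnb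
  -- a small nonzero element
  obtain ⟨c0, hc0pos, hc0⟩ : ∃ c0 : v.adicCompletion K, 0 < ‖c0‖ ∧ ‖c0‖ < δ := by
    exact @NormedField.exists_norm_lt (v.adicCompletion K)
      (Valued.toNontriviallyNormedField (v.adicCompletion K) (WithZero (Multiplicative ℤ)))
      δ hδ
  -- the lattice
  set Λ : Set (v.adicCompletion K) := Metric.closedBall 0 ‖c0‖ with hΛ
  have hΛc : IsCompact Λ := isCompact_closedBall _ _
  have hΛo : IsOpen Λ := IsUltrametricDist.isOpen_closedBall _ hc0pos.ne'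
  have hΛne : Λ.Nonempty := ⟨0, Metric.mem_closedBall_self hc0pos.le⟩
  have hone : ∀ z ∈ Λ ×ˢ Λ, ψ (g z) = 1 := by
    intro z hz
    apply htriv
    have hz1 : ‖z.1‖ ≤ ‖c0‖ := by simpa [hΛ] using hz.1
    have hz2 : ‖z.2‖ ≤ ‖c0‖ := by simpa [hΛ] using hz.2
    have hzb : z ∈ Metric.ball (0 : v.adicCompletion K × v.adicCompletion K) δ := by
      rw [Metric.mem_ball, dist_zero_right, Prod.norm_def]
      exact lt_of_le_of_lt (max_le hz1 hz2) hc0
    have := hball hzb
    rwa [Set.mem_preimage, Metric.mem_ball, dist_zero_right] at this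
  -- the identity for the indicator function
  have hid := gaussNorm_identity144d t n ψ μ c G hψlc hF a ha x y hN
    (Set.indicator (Λ ×ˢ Λ) (fun _ => (1 : ℂ))) (isSB_indicator144d Λ hΛc hΛo) 0
  have hI : intL μ (fun z => Set.indicator (Λ ×ˢ Λ) (fun _ => (1 : ℂ)) z *
      ψ (-(qfL t n (z + actL (torMat t n x y) 0)) / (a * qfL t n (x, y))))
      = intL μ (Set.indicator (Λ ×ˢ Λ) (fun _ => (1 : ℂ))) := by
    refine congrArg (intL μ) (funext fun z => ?_)
    by_cases hz : z ∈ Λ ×ˢ Λ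
    · have := hone z hz
      rw [hg] at this
      rw [this, mul_one]
    · rw [Set.indicator_of_notMem hz, zero_mul]
  rw [hI] at hid
  have hne := intL_indicator_ne144d μ hctx.haar Λ hΛc hΛo hΛne
  rw [← mul_assoc] at hid
  exact mul_right_cancel₀ hne hid

end Fermat.Agent.LT.A2.H144

end

end
-- ===== PACK-END LT/A2/H144/GaussNorm.lean

-- ===== PACK-BEGIN LT/A2/H569/BorelTop.lean
section


/-!
# Row LT, tower A2, leaf A2.03.1.2 `WX467.BorelC` -- part 3 (helper569): the leaf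

OFF-MAIN.  `borelC569 : WX467.BorelC` (registry row 1136), VERBATIM against
`LT/A2/H467/WeilExSpec.lean` (helper467).  No hypothesis is left: the output of tower T1 is not
used.
-/

set_option autoImplicit false

open IsDedekindDomain NumberField AutomorphicForm MeasureTheory
open scoped MatrixGroups Topology

noncomputable section

namespace Fermat.Agent.LT.A2.H569

open Fermat.Agent.LT.H130 Fermat.Agent.LT.H556 Fermat.Agent.LT.A2 Fermat.Agent.LT.A2.WX467
open Fermat.Agent.LT.T1.H793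

variable {K : Type} [Field K] [NumberField K]

/-! ## Generalities -/

theorem hasFiniteMulSupport_of_eventually569 {ι M : Type*} [One M] {f : ι → M}
    (h : ∀ᶠ i in Filter.cofinite, f i = 1) : Function.HasFiniteMulSupport f := by
  rw [Filter.eventually_cofinite] at h
  exact h

theorem map_fin_two569 {R S : Type*} (f : R → S) (a b c d : R) :
    (!![a, b; c, d] : Matrix (Fin 2) (Fin 2) R).map f = !![f a, f b; f c, f d] := by
  ext i j
  fin_cases i <;> fin_cases j <;> rfl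

theorem sqrt_finset_prod569 {ι : Type*} (s : Finset ι) (N : ι → ℝ) (hN : ∀ i, 0 ≤ N i) :
    Real.sqrt (∏ i ∈ s, N i) = ∏ i ∈ s, Real.sqrt (N i) := by
  classical
  induction s using Finset.induction_on with
  | empty => simp
  | insert a s ha ih =>
    rw [Finset.prod_insert ha, Finset.prod_insert ha, Real.sqrt_mul (hN a), ih]

theorem sqrt_finprod569 {ι : Type*} (N : ι → ℝ) (hN : ∀ i, 0 ≤ N i)
    (hfin : Function.HasFiniteMulSupport N) :
    Real.sqrt (∏ᶠ i, N i) = ∏ᶠ i, Real.sqrt (N i) := by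
  have hfin' : (Function.mulSupport N).Finite := hfin
  have hsub0 : Function.mulSupport N ⊆ (hfin'.toFinset : Set ι) := by
    rw [Set.Finite.coe_toFinset]
  have hsub : Function.mulSupport (fun i => Real.sqrt (N i)) ⊆ (hfin'.toFinset : Set ι) := by
    intro i hi
    rw [Function.mem_mulSupport] at hi
    rw [Set.Finite.coe_toFinset, Function.mem_mulSupport]
    intro h1
    apply hi
    rw [h1, Real.sqrt_one]
  rw [finprod_eq_prod_of_mulSupport_subset N hsub0,
    finprod_eq_prod_of_mulSupport_subset _ hsub, sqrt_finset_prod569 _ _ hN]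

/-- The product family, unfolded. -/
theorem F_eq569 (L : WData K) (g m : A0.G K) (ξ : A0.Adl K × A0.Adl K) :
    L.toKData.F g m ξ
      = (∏ u : InfinitePlace K, L.Finf u (infMat u g) (infMat u m) (infVec u ξ)) *
        ∏ᶠ v : HeightOneSpectrum (𝓞 K),
          L.Ffin v (A0.finComp v g) (A0.finComp v m) (finVec v ξ) := rfl

/-! ## Ideles at almost all places -/

theorem eventually_unit569 (a : (A0.Adl K)ˣ) :
    ∀ᶠ v : HeightOneSpectrum (𝓞 K) in Filter.cofinite, Valued.v ((a : A0.Adl K).2 v) = 1 :=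
  Fermat.Agent.LT.T1.H638.eventually_valued_eq_one638 K a

theorem hasFiniteMulSupport_norm569 (a : (A0.Adl K)ˣ) :
    Function.HasFiniteMulSupport fun v : HeightOneSpectrum (𝓞 K) => ‖(a : A0.Adl K).2 v‖ :=
  Fermat.Agent.LT.T1.H638.hasFiniteMulSupport_norm638 K a

theorem etafin_eq_one569 (L : WData K) (hL : L.IsGood) (v : HeightOneSpectrum (𝓞 K))
    (hv : ¬ v.asIdeal ∣ L.π.level) (x : v.adicCompletion K) (hx : Valued.v x = 1) :
    L.ηfin v x = 1 :=
  (hL.good v hv).eta_unram x hx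

theorem hasFiniteMulSupport_etafin569 (L : WData K) (hL : L.IsGood) (a : (A0.Adl K)ˣ) :
    Function.HasFiniteMulSupport fun v : HeightOneSpectrum (𝓞 K) =>
      L.ηfin v ((a : A0.Adl K).2 v) := by
  apply hasFiniteMulSupport_of_eventually569
  filter_upwards [eventually_good569 L.π, eventually_unit569 a] with v hv ha
  exact etafin_eq_one569 L hL v hv _ ha

theorem etainf_eq_one569 (L : WData K) (hL : L.IsGood) (a : (A0.Adl K)ˣ) (u : InfinitePlace K) :
    L.ηinf u ((a : A0.Adl K).1 u) = 1 :=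
  (hL.cpx u).eta_one _ (inf_ne_zero569 a u)

/-- `η` is the product of the local characters at the finite places. -/
theorem eta_eq569 (L : WData K) (hL : L.IsGood) (a : (A0.Adl K)ˣ) :
    L.η a = ∏ᶠ v : HeightOneSpectrum (𝓞 K), L.ηfin v ((a : A0.Adl K).2 v) := by
  rw [hL.eta_prod a, Finset.prod_eq_one fun u _ => etainf_eq_one569 L hL a u, one_mul]

/-! ## `unip` -/

theorem unip569 (L : WData K) (hL : L.IsGood) (nU : A0.Adl K → A0.G K) (hn : IsUpperUnip nU)
    (x : A0.Adl K) (g m : A0.G K) (ξ : A0.Adl K × A0.Adl K) (h : Adm L.t L.n g m) :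
    L.toKData.F (nU x * g) m ξ = L.ψ (x * qf L.t L.n ξ) * L.toKData.F g m ξ := by
  have hinf : ∀ u : InfinitePlace K,
      L.Finf u (infMat u (nU x * g)) (infMat u m) (infVec u ξ)
        = L.ψinf u ((x * qf L.t L.n ξ).1 u)
          * L.Finf u (infMat u g) (infMat u m) (infVec u ξ) := by
    intro u
    have hnu : infMat u (nU x) = !![1, x.1 u; 0, 1] := by
      rw [infMat_eq569, hn x, map_fin_two569]
      rfl
    rw [infMat_mul569, hnu]
    exact (hL.cpx u).ax.unip (x.1 u) _ _ _ (admL_inf569 h u)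
  have hfin : ∀ v : HeightOneSpectrum (𝓞 K),
      L.Ffin v (A0.finComp v (nU x * g)) (A0.finComp v m) (finVec v ξ)
        = L.ψfin v ((x * qf L.t L.n ξ).2 v)
          * L.Ffin v (A0.finComp v g) (A0.finComp v m) (finVec v ξ) := by
    intro v
    have hnv : A0.finComp v (nU x) = !![1, x.2 v; 0, 1] := by
      rw [finComp_eq569, hn x, map_fin_two569]
      rfl
    rw [finComp_mul569, hnv]
    exact (hL.fin v).ax.unip (x.2 v) _ _ _ (admL_fin569 h v)
  rw [F_eq569, F_eq569, psi_prod569 L hL]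
  simp only [hinf, hfin]
  rw [Finset.prod_mul_distrib,
    finprod_mul_distrib (hasFiniteMulSupport_psifin569 L hL _)
      (hasFiniteMulSupport_Ffin569 L hL h ξ)]
  ring

/-! ## `torA` and `tor1` -/

theorem det_diagOne569 {d : A0.G K} {a : (A0.Adl K)ˣ} (hd : WL.IsDiagOneA d a) :
    Matrix.GeneralLinearGroup.det d = a := by
  apply Units.ext
  rw [Matrix.GeneralLinearGroup.val_det_apply, hd, Matrix.det_fin_two_of]
  ring

theorem adm_tor569 {t n : K} {μ' d g m : A0.G K} (hμ : InTorus t n μ')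
    (hd : WL.IsDiagOneA d (Matrix.GeneralLinearGroup.det μ')) (h : Adm t n g m) :
    Adm t n (d * g) (μ' * m) := by
  refine ⟨inTorus_mul569 hμ h.1, ?_⟩
  rw [map_mul, map_mul, det_diagOne569 hd, h.2]

theorem torA569 (L : WData K) (hL : L.IsGood) (μ' d : A0.G K) (hμ : InTorus L.t L.n μ')
    (hd : WL.IsDiagOneA d (Matrix.GeneralLinearGroup.det μ'))
    (g m : A0.G K) (ξ : A0.Adl K × A0.Adl K) (h : Adm L.t L.n g m) :
    ((Real.sqrt (Fermat.Agent.LT.T1.adNorm K
        ((Matrix.GeneralLinearGroup.det μ' : (A0.Adl K)ˣ) : A0.Adl K)) : ℝ) : ℂ)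
        * L.toKData.F (d * g) (μ' * m) ξ
      = L.toKData.F g m (actV μ'⁻¹ ξ) := by
  set a : (A0.Adl K)ˣ := Matrix.GeneralLinearGroup.det μ' with ha
  have hinf : ∀ u : InfinitePlace K,
      L.Finf u (infMat u g) (infMat u m) (infVec u (actV μ'⁻¹ ξ))
        = ((Real.sqrt (‖(a : A0.Adl K).1 u‖ ^ u.mult) : ℝ) : ℂ)
          * L.Finf u (infMat u (d * g)) (infMat u (μ' * m)) (infVec u ξ) := by
    intro u
    have hdu : infMat u d = !![1, 0; 0, (infMat u μ').det] := by
      rw [infMat_eq569, hd, map_fin_two569, infMat_det569]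
      rfl
    rw [infMat_mul569, infMat_mul569, hdu]
    have h1 := (hL.cpx u).ax.tor (infMat u μ') (inTorL_inf569 hμ u)
      (infMat_det_ne_zero569 u μ') (infMat u g) (infMat u m) (infVec u ξ) (admL_inf569 h u)
    rw [← infMat_inv569] at h1
    rw [infMat_det569] at h1 ⊢
    exact h1.symm
  have hfin : ∀ v : HeightOneSpectrum (𝓞 K),
      L.Ffin v (A0.finComp v g) (A0.finComp v m) (finVec v (actV μ'⁻¹ ξ))
        = ((Real.sqrt ‖(a : A0.Adl K).2 v‖ : ℝ) : ℂ)
          * L.Ffin v (A0.finComp v (d * g)) (A0.finComp v (μ' * m)) (finVec v ξ) := by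
    intro v
    have hdv : A0.finComp v d = !![1, 0; 0, (A0.finComp v μ').det] := by
      rw [finComp_eq569, hd, map_fin_two569, finComp_det569]
      rfl
    rw [finComp_mul569, finComp_mul569, hdv]
    have h1 := (hL.fin v).ax.tor (A0.finComp v μ') (inTorL_fin569 hμ v)
      (finComp_det_ne_zero569 v μ') (A0.finComp v g) (A0.finComp v m) (finVec v ξ)
      (admL_fin569 h v)
    rw [← finComp_inv569] at h1
    rw [finComp_det569] at h1 ⊢
    exact h1.symm
  have hadm : Adm L.t L.n (d * g) (μ' * m) := adm_tor569 hμ hd h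
  have hN : Function.HasFiniteMulSupport fun v : HeightOneSpectrum (𝓞 K) =>
      ‖(a : A0.Adl K).2 v‖ := hasFiniteMulSupport_norm569 a
  have hsq : Function.HasFiniteMulSupport fun v : HeightOneSpectrum (𝓞 K) =>
      Real.sqrt ‖(a : A0.Adl K).2 v‖ := by
    refine hN.subset ?_
    intro v hv
    rw [Function.mem_mulSupport] at hv ⊢
    intro h1
    apply hv
    rw [h1, Real.sqrt_one]
  have hsqc : Function.HasFiniteMulSupport fun v : HeightOneSpectrum (𝓞 K) =>
      ((Real.sqrt ‖(a : A0.Adl K).2 v‖ : ℝ) : ℂ) := by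
    refine hsq.subset ?_
    intro v hv
    rw [Function.mem_mulSupport] at hv ⊢
    intro h1
    apply hv
    rw [h1, Complex.ofReal_one]
  have hnorm : ((Real.sqrt (Fermat.Agent.LT.T1.adNorm K (a : A0.Adl K)) : ℝ) : ℂ)
      = (∏ u : InfinitePlace K, ((Real.sqrt (‖(a : A0.Adl K).1 u‖ ^ u.mult) : ℝ) : ℂ))
        * ∏ᶠ v : HeightOneSpectrum (𝓞 K), ((Real.sqrt ‖(a : A0.Adl K).2 v‖ : ℝ) : ℂ) := by
    have hdef : Fermat.Agent.LT.T1.adNorm K (a : A0.Adl K)
        = (∏ u : InfinitePlace K, ‖(a : A0.Adl K).1 u‖ ^ u.mult)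
          * ∏ᶠ v : HeightOneSpectrum (𝓞 K), ‖(a : A0.Adl K).2 v‖ := rfl
    have hA : 0 ≤ ∏ u : InfinitePlace K, ‖(a : A0.Adl K).1 u‖ ^ u.mult :=
      Finset.prod_nonneg fun u _ => pow_nonneg (norm_nonneg _) _
    rw [hdef, Real.sqrt_mul hA,
      sqrt_finset_prod569 _ (fun u : InfinitePlace K => ‖(a : A0.Adl K).1 u‖ ^ u.mult)
        (fun u => pow_nonneg (norm_nonneg _) _),
      sqrt_finprod569 (fun v : HeightOneSpectrum (𝓞 K) => ‖(a : A0.Adl K).2 v‖)
        (fun v => norm_nonneg _) hN, Complex.ofReal_mul, Complex.ofReal_prod]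
    congr 1
    exact map_finprod Complex.ofRealHom hsq
  rw [F_eq569, F_eq569, hnorm]
  simp only [hinf, hfin]
  rw [Finset.prod_mul_distrib,
    finprod_mul_distrib hsqc (hasFiniteMulSupport_Ffin569 L hL hadm ξ)]
  ring

theorem tor1_569 (L : WData K) (hL : L.IsGood) (m' : A0.G K) (hm' : InTorus1 L.t L.n m')
    (g m : A0.G K) (ξ : A0.Adl K × A0.Adl K) (h : Adm L.t L.n g m) :
    L.toKData.F g (m' * m) ξ = L.toKData.F g m (actV m'⁻¹ ξ) := by
  have hd : WL.IsDiagOneA (1 : A0.G K) (Matrix.GeneralLinearGroup.det m') := by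
    unfold WL.IsDiagOneA
    rw [hm'.2, Units.val_one, Units.val_one]
    exact Matrix.one_fin_two
  have h1 := torA569 L hL m' 1 hm'.1 hd g m ξ h
  rw [one_mul] at h1
  rw [← h1, hm'.2]
  have hone : Fermat.Agent.LT.T1.adNorm K (((1 : (A0.Adl K)ˣ) : (A0.Adl K)ˣ) : A0.Adl K) = 1 := by
    unfold Fermat.Agent.LT.T1.adNorm
    have e1 : ∀ u : InfinitePlace K, ‖((1 : (A0.Adl K)ˣ) : A0.Adl K).1 u‖ ^ u.mult = 1 := by
      intro u
      have : ((1 : (A0.Adl K)ˣ) : A0.Adl K).1 u = 1 := rfl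
      rw [this, norm_one, one_pow]
    have e2 : ∀ v : HeightOneSpectrum (𝓞 K), ‖((1 : (A0.Adl K)ˣ) : A0.Adl K).2 v‖ = 1 := by
      intro v
      have : ((1 : (A0.Adl K)ˣ) : A0.Adl K).2 v = 1 := rfl
      rw [this, norm_one]
    rw [Finset.prod_eq_one fun u _ => e1 u, finprod_eq_one_of_forall_eq_one e2, one_mul]
  rw [hone, Real.sqrt_one, Complex.ofReal_one, one_mul]

/-! ## `diagA` -/

theorem diagA569 (L : WData K) (hL : L.IsGood) (s : A0.G K) (a : (A0.Adl K)ˣ)
    (hs : WL.IsDiagSLA s a) (g m : A0.G K) (ξ : A0.Adl K × A0.Adl K)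
    (h : Adm L.t L.n g m) :
    L.toKData.F (s * g) m ξ
      = L.η a * ((Fermat.Agent.LT.T1.adNorm K (a : A0.Adl K) : ℝ) : ℂ)
        * L.toKData.F g m ((a : A0.Adl K) • ξ) := by
  have hinf : ∀ u : InfinitePlace K,
      L.Finf u (infMat u (s * g)) (infMat u m) (infVec u ξ)
        = L.ηinf u ((a : A0.Adl K).1 u) * ((‖(a : A0.Adl K).1 u‖ ^ u.mult : ℝ) : ℂ)
          * L.Finf u (infMat u g) (infMat u m) (infVec u ((a : A0.Adl K) • ξ)) := by
    intro u
    have hsu : infMat u s = !![(a : A0.Adl K).1 u, 0; 0, ((a : A0.Adl K).1 u)⁻¹] := by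
      rw [infMat_eq569, hs, map_fin_two569, ← inf_inv569]
      rfl
    rw [infMat_mul569, hsu]
    exact (hL.cpx u).ax.diag _ (inf_ne_zero569 a u) _ _ _ (admL_inf569 h u)
  have hfin : ∀ v : HeightOneSpectrum (𝓞 K),
      L.Ffin v (A0.finComp v (s * g)) (A0.finComp v m) (finVec v ξ)
        = L.ηfin v ((a : A0.Adl K).2 v) * ((‖(a : A0.Adl K).2 v‖ : ℝ) : ℂ)
          * L.Ffin v (A0.finComp v g) (A0.finComp v m) (finVec v ((a : A0.Adl K) • ξ)) := by
    intro v
    have hsv : A0.finComp v s = !![(a : A0.Adl K).2 v, 0; 0, ((a : A0.Adl K).2 v)⁻¹] := by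
      rw [finComp_eq569, hs, map_fin_two569, ← fin_inv569]
      rfl
    rw [finComp_mul569, hsv]
    exact (hL.fin v).ax.diag _ (fin_ne_zero569 a v) _ _ _ (admL_fin569 h v)
  have hN : Function.HasFiniteMulSupport fun v : HeightOneSpectrum (𝓞 K) =>
      ‖(a : A0.Adl K).2 v‖ := hasFiniteMulSupport_norm569 a
  have hNc : Function.HasFiniteMulSupport fun v : HeightOneSpectrum (𝓞 K) =>
      ((‖(a : A0.Adl K).2 v‖ : ℝ) : ℂ) := by
    refine hN.subset ?_
    intro v hv
    rw [Function.mem_mulSupport] at hv ⊢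
    intro h1
    apply hv
    rw [h1, Complex.ofReal_one]
  have hη := hasFiniteMulSupport_etafin569 L hL a
  have hnorm : ((Fermat.Agent.LT.T1.adNorm K (a : A0.Adl K) : ℝ) : ℂ)
      = (∏ u : InfinitePlace K, ((‖(a : A0.Adl K).1 u‖ ^ u.mult : ℝ) : ℂ))
        * ∏ᶠ v : HeightOneSpectrum (𝓞 K), ((‖(a : A0.Adl K).2 v‖ : ℝ) : ℂ) := by
    have hdef : Fermat.Agent.LT.T1.adNorm K (a : A0.Adl K)
        = (∏ u : InfinitePlace K, ‖(a : A0.Adl K).1 u‖ ^ u.mult)
          * ∏ᶠ v : HeightOneSpectrum (𝓞 K), ‖(a : A0.Adl K).2 v‖ := rfl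
    rw [hdef, Complex.ofReal_mul, Complex.ofReal_prod]
    congr 1
    exact map_finprod Complex.ofRealHom hN
  have hηN : Function.HasFiniteMulSupport fun v : HeightOneSpectrum (𝓞 K) =>
      L.ηfin v ((a : A0.Adl K).2 v) * ((‖(a : A0.Adl K).2 v‖ : ℝ) : ℂ) := hη.mul hNc
  rw [F_eq569, F_eq569, hnorm, hL.eta_prod a]
  simp only [hinf, hfin]
  rw [Finset.prod_mul_distrib, Finset.prod_mul_distrib,
    finprod_mul_distrib hηN (hasFiniteMulSupport_Ffin569 L hL h _),
    finprod_mul_distrib hη hNc]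
  ring

/-! ## The quadratic character -/

theorem eta_mul569 (L : WData K) (hL : L.IsGood) (a b : (A0.Adl K)ˣ) :
    L.η (a * b) = L.η a * L.η b := by
  rw [eta_eq569 L hL, eta_eq569 L hL, eta_eq569 L hL,
    ← finprod_mul_distrib (hasFiniteMulSupport_etafin569 L hL a)
      (hasFiniteMulSupport_etafin569 L hL b)]
  apply finprod_congr
  intro v
  exact (hL.fin v).ax.eta_mul _ _ (fin_ne_zero569 a v) (fin_ne_zero569 b v)

theorem finset_prod_sq569 {ι : Type*} (s : Finset ι) (f : ι → ℂ)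
    (hf : ∀ i ∈ s, f i = 1 ∨ f i = -1) : (∏ i ∈ s, f i) = 1 ∨ (∏ i ∈ s, f i) = -1 := by
  classical
  induction s using Finset.induction_on with
  | empty => left; simp
  | insert a s ha ih =>
    rw [Finset.prod_insert ha]
    have h1 := hf a (Finset.mem_insert_self a s)
    have h2 := ih fun i hi => hf i (Finset.mem_insert_of_mem hi)
    rcases h1 with h1 | h1 <;> rcases h2 with h2 | h2 <;> rw [h1, h2] <;> simp

theorem eta_sq569 (L : WData K) (hL : L.IsGood) (a : (A0.Adl K)ˣ) :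
    L.η a = 1 ∨ L.η a = -1 := by
  have hfin' : (Function.mulSupport fun v : HeightOneSpectrum (𝓞 K) =>
      L.ηfin v ((a : A0.Adl K).2 v)).Finite := hasFiniteMulSupport_etafin569 L hL a
  have hsub0 : (Function.mulSupport fun v : HeightOneSpectrum (𝓞 K) =>
      L.ηfin v ((a : A0.Adl K).2 v)) ⊆ (hfin'.toFinset : Set (HeightOneSpectrum (𝓞 K))) := by
    rw [Set.Finite.coe_toFinset]
  rw [eta_eq569 L hL, finprod_eq_prod_of_mulSupport_subset _ hsub0]
  apply finset_prod_sq569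
  intro v _
  exact (hL.fin v).ax.eta_sq _ (fin_ne_zero569 a v)

theorem eta_norm569 (L : WData K) (hL : L.IsGood) (m : A0.G K) (hm : InTorus L.t L.n m) :
    L.η (Matrix.GeneralLinearGroup.det m) = 1 := by
  rw [eta_eq569 L hL]
  apply finprod_eq_one_of_forall_eq_one
  intro v
  have h1 := (hL.fin v).ax.eta_norm (A0.finComp v m) (inTorL_fin569 hm v)
    (finComp_det_ne_zero569 v m)
  rw [finComp_det569] at h1
  exact h1

theorem eta_cont569 (L : WData K) (hL : L.IsGood) : Continuous L.η := by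
  classical
  have hη : L.η = fun a : (A0.Adl K)ˣ =>
      ∏ᶠ v : HeightOneSpectrum (𝓞 K), L.ηfin v ((a : A0.Adl K).2 v) :=
    funext fun a => eta_eq569 L hL a
  rw [hη, continuous_iff_continuousAt]
  intro x₀
  have hbad : {v : HeightOneSpectrum (𝓞 K) | v.asIdeal ∣ L.π.level}.Finite :=
    Ideal.finite_factors L.π.level_ne_bot
  have hun : {v : HeightOneSpectrum (𝓞 K) | ¬ Valued.v ((x₀ : A0.Adl K).2 v) = 1}.Finite := by
    have := eventually_unit569 x₀
    rwa [Filter.eventually_cofinite] at this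
  set S : Set (HeightOneSpectrum (𝓞 K)) :=
    {v | v.asIdeal ∣ L.π.level} ∪ {v | ¬ Valued.v ((x₀ : A0.Adl K).2 v) = 1} with hS
  have hSfin : S.Finite := hbad.union hun
  let O : Set (FiniteAdeleRing (𝓞 K) K) :=
    {f | ∀ v, v ∉ S → f v ∈ v.adicCompletionIntegers K}
  have hO : IsOpen O := Fermat.Agent.LT.T1.H638.isOpen_integral_outside638 K S
  let U : Set (A0.Adl K)ˣ :=
    {x | (x : A0.Adl K).2 ∈ O ∧ ((x⁻¹ : (A0.Adl K)ˣ) : A0.Adl K).2 ∈ O}
  have hU : IsOpen U := by
    apply IsOpen.inter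
    · exact hO.preimage
        ((Fermat.Agent.LT.T1.H638.continuous_finHom638 K).comp Units.continuous_val)
    · exact hO.preimage
        ((Fermat.Agent.LT.T1.H638.continuous_finHom638 K).comp Units.continuous_coe_inv)
  have hx₀ : x₀ ∈ U := by
    constructor
    · intro v hv
      have h1 : Valued.v ((x₀ : A0.Adl K).2 v) = 1 := by
        by_contra hne
        exact hv (Or.inr hne)
      rw [HeightOneSpectrum.mem_adicCompletionIntegers]
      exact h1.le
    · intro v hv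
      have h1 : Valued.v ((x₀ : A0.Adl K).2 v) = 1 := by
        by_contra hne
        exact hv (Or.inr hne)
      have h2 := Fermat.Agent.LT.T1.H638.snd_mul_inv638 K x₀ v
      have h3 : Valued.v ((x₀ : A0.Adl K).2 v)
          * Valued.v (((x₀⁻¹ : (A0.Adl K)ˣ) : A0.Adl K).2 v) = 1 := by
        rw [← map_mul, h2, map_one]
      rw [h1, one_mul] at h3
      rw [HeightOneSpectrum.mem_adicCompletionIntegers]
      exact h3.le
  have hloc : ∀ x ∈ U, ∏ᶠ v : HeightOneSpectrum (𝓞 K), L.ηfin v ((x : A0.Adl K).2 v)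
      = ∏ v ∈ hSfin.toFinset, L.ηfin v ((x : A0.Adl K).2 v) := by
    intro x hx
    apply finprod_eq_prod_of_mulSupport_subset
    intro v hv
    rw [Function.mem_mulSupport] at hv
    by_contra hvS
    have hvS' : v ∉ S := by simpa using hvS
    apply hv
    have hgood : ¬ v.asIdeal ∣ L.π.level := fun hd => hvS' (Or.inl hd)
    apply etafin_eq_one569 L hL v hgood
    have h1 := hx.1 v hvS'
    have h2 := hx.2 v hvS'
    rw [HeightOneSpectrum.mem_adicCompletionIntegers] at h1 h2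
    exact Fermat.Agent.LT.T1.H638.valued_eq_one_of_mul_eq_one638 K v _ _
      (Fermat.Agent.LT.T1.H638.snd_mul_inv638 K x v) h1 h2
  have hcont : Continuous fun x : (A0.Adl K)ˣ =>
      ∏ v ∈ hSfin.toFinset, L.ηfin v ((x : A0.Adl K).2 v) := by
    apply continuous_finsetProd
    intro v _
    have hev : Continuous fun x : (A0.Adl K)ˣ => (x : A0.Adl K).2 v :=
      (RestrictedProduct.continuous_eval v).comp
        ((Fermat.Agent.LT.T1.H638.continuous_finHom638 K).comp Units.continuous_val)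
    exact (hL.fin v).ax.eta_cont.comp_continuous hev fun x => fin_ne_zero569 x v
  refine hcont.continuousAt.congr ?_
  filter_upwards [hU.mem_nhds hx₀] with x hx
  exact (hloc x hx).symm

/-! ## The leaf -/

/-- **A2.03.1.2 BOREL** (registry row 1136), VERBATIM. -/
theorem borelC569 : BorelC := by
  intro K _ _ L _ hL
  exact
    { unip := fun nU hn x g m ξ h => unip569 L hL nU hn x g m ξ h
      tor1 := fun m' hm' g m ξ h => tor1_569 L hL m' hm' g m ξ h
      diagA := fun s a hs g m ξ h => diagA569 L hL s a hs g m ξ h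
      torA := fun μ' d hμ hd g m ξ h => torA569 L hL μ' d hμ hd g m ξ h
      eta_mul := eta_mul569 L hL
      eta_sq := eta_sq569 L hL
      eta_cont := eta_cont569 L hL
      eta_norm := fun m hm => eta_norm569 L hL m hm }

end Fermat.Agent.LT.A2.H569

end
end
-- ===== PACK-END LT/A2/H569/BorelTop.lean

-- ===== PACK-BEGIN LT/A2/H64/BorelOp.lean
section


/-!
# Row LT, tower A2, leaf A2.03.1.1.06.13 `LF54.LeafBorelOp` (helper64)

OFF-MAIN.  `leafBorelOp64 : LF54.LeafBorelOp` VERBATIM, unconditional.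

The left rules of `n(x)` and `t(a)` and `rOp 1 = id` for the explicit Bruhat formulas `LF54.rOp`,
over ANY normed field `k` (`borelOpP64`): pure algebra.  Used: `ψ` additive and unitary
(`ψ 0 = 1`), `η` multiplicative with values `± 1` (`η 1 = 1`, `η a⁻¹ = η a`),
`Q (a ξ) = a² Q ξ`, `B (a ξ, y) = a B (ξ, y)`, and `∫ c f = c ∫ f` (no integrability needed).
`Ctx.disc`, `Ctx.haar`, `IsSB Φ`, `EtaCert.eta_norm / eta_cont / w2 / gauss_eta` are not used.
-/

set_option autoImplicit false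

open IsDedekindDomain NumberField MeasureTheory

noncomputable section

namespace Fermat.Agent.LT.A2.H64

open Fermat.Agent.LT.A2 Fermat.Agent.LT.A2.WX467 Fermat.Agent.LT.A2.LF54

section General

variable {k : Type} [NormedField k]

theorem psi_zero64 {ψ : k → ℂ} (h : IsCharL ψ) : ψ 0 = 1 := by
  obtain ⟨-, hadd, hnorm, -⟩ := h
  have h0 : ψ 0 = ψ 0 * ψ 0 := by simpa using hadd 0 0
  have hne : ψ 0 ≠ 0 := by
    intro h
    have := hnorm 0
    rw [h, norm_zero] at this
    exact zero_ne_one this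
  have h1 : ψ 0 * 1 = ψ 0 * ψ 0 := by rw [mul_one]; exact h0
  exact (mul_left_cancel₀ hne h1).symm

theorem eta_one64 {η : k → ℂ} (hmul : ∀ a b : k, a ≠ 0 → b ≠ 0 → η (a * b) = η a * η b)
    (hsq : ∀ a : k, a ≠ 0 → η a = 1 ∨ η a = -1) : η 1 = 1 := by
  have h1 := hmul 1 1 one_ne_zero one_ne_zero
  rw [mul_one] at h1
  rcases hsq 1 one_ne_zero with h | h
  · exact h
  · rw [h] at h1
    norm_num at h1

theorem eta_inv64 {η : k → ℂ} (hmul : ∀ a b : k, a ≠ 0 → b ≠ 0 → η (a * b) = η a * η b)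
    (hsq : ∀ a : k, a ≠ 0 → η a = 1 ∨ η a = -1) {a : k} (ha : a ≠ 0) : η a⁻¹ = η a := by
  have h1 := hmul a a⁻¹ ha (inv_ne_zero ha)
  rw [mul_inv_cancel₀ ha, eta_one64 hmul hsq] at h1
  rcases hsq a ha with h | h
  · rw [h, one_mul] at h1
    rw [h, ← h1]
  · rw [h] at h1 ⊢
    linear_combination h1

theorem qfL_smul64 (t n a : k) (ξ : k × k) : qfL t n (a • ξ) = a ^ 2 * qfL t n ξ := by
  simp only [qfL, Prod.smul_fst, Prod.smul_snd, smul_eq_mul]
  ring

theorem bfL_smul64 (t n a : k) (ξ y : k × k) : bfL t n (a • ξ) y = a * bfL t n ξ y := by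
  simp only [bfL, qfL, Prod.smul_fst, Prod.smul_snd, smul_eq_mul, Prod.fst_add, Prod.snd_add]
  ring

theorem intL_const_mul64 (μ : @Measure k (borel k)) (c : ℂ) (f : k × k → ℂ) :
    intL μ (fun y => c * f y) = c * intL μ f := by
  unfold intL
  exact integral_const_mul c f

/-- **The left rules of the upper triangular group**, over any normed field. -/
theorem borelOpP64 {t n : k} {ψ : k → ℂ} {μ : @Measure k (borel k)} {γ : ℂ} {η : k → ℂ}
    (hψ : IsCharL ψ) (hmul : ∀ a b : k, a ≠ 0 → b ≠ 0 → η (a * b) = η a * η b)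
    (hsq : ∀ a : k, a ≠ 0 → η a = 1 ∨ η a = -1) : BorelOpP t n ψ μ γ η := by
  have hadd := hψ.2.1
  refine ⟨?_, ?_, ?_⟩
  · -- `rOp 1 = id`
    intro Φ _
    funext ξ
    have h10 : (1 : Matrix (Fin 2) (Fin 2) k) 1 0 = 0 := by simp
    have h00 : (1 : Matrix (Fin 2) (Fin 2) k) 0 0 = 1 := by simp
    have h01 : (1 : Matrix (Fin 2) (Fin 2) k) 0 1 = 0 := by simp
    unfold rOp
    rw [if_pos h10, h00, h01, eta_one64 hmul hsq, norm_one, mul_zero, zero_mul, psi_zero64 hψ,
      one_smul]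
    simp
  · -- `n(x)`
    intro x h hdet Φ _ ξ
    have e10 : (!![1, x; 0, 1] * h) 1 0 = h 1 0 := by
      simp [Matrix.mul_apply, Fin.sum_univ_two]
    have e00 : (!![1, x; 0, 1] * h) 0 0 = h 0 0 + x * h 1 0 := by
      simp [Matrix.mul_apply, Fin.sum_univ_two]
    have e01 : (!![1, x; 0, 1] * h) 0 1 = h 0 1 + x * h 1 1 := by
      simp [Matrix.mul_apply, Fin.sum_univ_two]
    have e11 : (!![1, x; 0, 1] * h) 1 1 = h 1 1 := by
      simp [Matrix.mul_apply, Fin.sum_univ_two]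
    rw [Matrix.det_fin_two] at hdet
    unfold rOp
    rw [e10, e00, e01, e11]
    by_cases hc : h 1 0 = 0
    · rw [if_pos hc, if_pos hc]
      rw [hc, mul_zero, sub_zero] at hdet
      have harg : (h 0 0 + x * 0) * (h 0 1 + x * h 1 1) * qfL t n ξ
          = x * qfL t n ξ + h 0 0 * h 0 1 * qfL t n ξ := by
        have : (h 0 0 + x * 0) * (h 0 1 + x * h 1 1) * qfL t n ξ
            = x * (h 0 0 * h 1 1) * qfL t n ξ + h 0 0 * h 0 1 * qfL t n ξ := by ring
        rw [this, hdet, mul_one]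
      rw [hc, harg, hadd, mul_zero, add_zero]
      ring
    · rw [if_neg hc, if_neg hc]
      have hfun : (fun y : k × k =>
          ψ (((h 0 0 + x * h 1 0) * qfL t n ξ - bfL t n ξ y + h 1 1 * qfL t n y) / h 1 0) * Φ y)
          = fun y => ψ (x * qfL t n ξ) *
              (ψ ((h 0 0 * qfL t n ξ - bfL t n ξ y + h 1 1 * qfL t n y) / h 1 0) * Φ y) := by
        funext y
        have : ((h 0 0 + x * h 1 0) * qfL t n ξ - bfL t n ξ y + h 1 1 * qfL t n y) / h 1 0
            = x * qfL t n ξ + (h 0 0 * qfL t n ξ - bfL t n ξ y + h 1 1 * qfL t n y) / h 1 0 := by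
          field_simp
          ring
        rw [this, hadd, mul_assoc]
      rw [hfun, intL_const_mul64]
      ring
  · -- `t(a)`
    intro a ha h hdet Φ _ ξ
    have e10 : (!![a, 0; 0, a⁻¹] * h) 1 0 = a⁻¹ * h 1 0 := by
      simp [Matrix.mul_apply, Fin.sum_univ_two]
    have e00 : (!![a, 0; 0, a⁻¹] * h) 0 0 = a * h 0 0 := by
      simp [Matrix.mul_apply, Fin.sum_univ_two]
    have e01 : (!![a, 0; 0, a⁻¹] * h) 0 1 = a * h 0 1 := by
      simp [Matrix.mul_apply, Fin.sum_univ_two]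
    have e11 : (!![a, 0; 0, a⁻¹] * h) 1 1 = a⁻¹ * h 1 1 := by
      simp [Matrix.mul_apply, Fin.sum_univ_two]
    rw [Matrix.det_fin_two] at hdet
    unfold rOp
    rw [e10, e00, e01, e11]
    by_cases hc : h 1 0 = 0
    · have hc' : a⁻¹ * h 1 0 = 0 := by rw [hc, mul_zero]
      rw [if_pos hc', if_pos hc]
      rw [hc, mul_zero, sub_zero] at hdet
      have h00 : h 0 0 ≠ 0 := by
        intro h0
        rw [h0, zero_mul] at hdet
        exact zero_ne_one hdet
      rw [hmul a (h 0 0) ha h00, norm_mul, qfL_smul64, smul_smul]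
      have harg : a * h 0 0 * (a * h 0 1) * qfL t n ξ = h 0 0 * h 0 1 * (a ^ 2 * qfL t n ξ) := by
        ring
      have hsm : (a * h 0 0) • ξ = (h 0 0 * a) • ξ := by rw [mul_comm]
      rw [harg, hsm]
      push_cast
      ring
    · have hc' : a⁻¹ * h 1 0 ≠ 0 := mul_ne_zero (inv_ne_zero ha) hc
      rw [if_neg hc', if_neg hc]
      have hfun : (fun y : k × k =>
          ψ ((a * h 0 0 * qfL t n ξ - bfL t n ξ y + a⁻¹ * h 1 1 * qfL t n y) / (a⁻¹ * h 1 0))
            * Φ y)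
          = fun y => ψ ((h 0 0 * qfL t n (a • ξ) - bfL t n (a • ξ) y + h 1 1 * qfL t n y)
              / h 1 0) * Φ y := by
        funext y
        have : (a * h 0 0 * qfL t n ξ - bfL t n ξ y + a⁻¹ * h 1 1 * qfL t n y) / (a⁻¹ * h 1 0)
            = (h 0 0 * qfL t n (a • ξ) - bfL t n (a • ξ) y + h 1 1 * qfL t n y) / h 1 0 := by
          rw [qfL_smul64, bfL_smul64]
          field_simp
        rw [this]
      have hη : η (-(a⁻¹ * h 1 0)) = η a * η (-(h 1 0)) := by
        have : -(a⁻¹ * h 1 0) = a⁻¹ * (-(h 1 0)) := by ring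
        rw [this, hmul a⁻¹ (-(h 1 0)) (inv_ne_zero ha) (neg_ne_zero.2 hc), eta_inv64 hmul hsq ha]
      have hnorm : ((‖a⁻¹ * h 1 0‖⁻¹ : ℝ) : ℂ) = ((‖a‖ : ℝ) : ℂ) * ((‖h 1 0‖⁻¹ : ℝ) : ℂ) := by
        rw [norm_mul, norm_inv, mul_inv, inv_inv]
        push_cast
        ring
      rw [hfun, hη, hnorm]
      ring

end General

/-- **Leaf A2.03.1.1.06.13 `LF54.LeafBorelOp`.** -/
theorem leafBorelOp64 : LF54.LeafBorelOp := by
  intro K _ _ v t n ψ μ c G γ η hctx hη
  exact borelOpP64 hctx.char hη.eta_mul hη.eta_sq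

end Fermat.Agent.LT.A2.H64

end

end
-- ===== PACK-END LT/A2/H64/BorelOp.lean

-- ===== PACK-BEGIN LT/A2/H709/FtSb.lean
section



/-!
# Row LT, tower A2, leaf A2.03.1.1.06.03 `LF54.LeafFtSb` (helper709, registry row 1580)

OFF-MAIN.  Imports: `A2/H54/LocFinSpec.lean` (helper54@26071c838, sha256 8ccd9c5c, byte copy) and
`H11/LC.lean` (helper11, byte copy: `K_v` is locally compact).

`leafFtSb709 : LeafFtSb` VERBATIM: the Fourier transform `ξ ↦ ∫ Φ(y) ψ(B(ξ, y)) dy` of a
Schwartz--Bruhat function on `K_v²` is Schwartz--Bruhat.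

General form `ftSbP_general709`: any ultrametric proper normed field `k`.  No lattices:
* `Φ` is UNIFORMLY locally constant (`sb_uniform709`, Lebesgue number) with bounded support;
* `ψ` is trivial on a ball around `0` (`psi_trivial_near709`: the `2ⁿ`-th powers of a point
  `z ≠ 1` of the unit circle leave the ball `‖z - 1‖ < 1`, `circle_eq_one709`);
* `FT Φ (ξ + ζ) = FT Φ ξ` for small `ζ` (`ψ(B(ζ, y)) = 1` on the support of `Φ`);
* `FT Φ ξ = ψ(B(ξ, l)) FT Φ ξ` for small `l` (translation invariance of the integral), so on the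
  support of `FT Φ` the two linear forms `2ξ₁ + tξ₂`, `tξ₁ + 2nξ₂` are bounded by `‖x₀‖ / δ`
  (`ψ x₀ ≠ 1`), and `ξ` is bounded because `t² - 4n ≠ 0`.
Reusable: `intL_translate709`, `intL_mul_const709`, `psi_bfL_eq_one709`, `bfL_eq709`,
`properSpace_adicCompletion709`.
-/

set_option autoImplicit false
set_option linter.style.haveILetI false


open IsDedekindDomain NumberField MeasureTheory
open scoped Topology

noncomputable section

namespace Fermat.Agent.LT.A2.H709

open Fermat.Agent.LT.A2 Fermat.Agent.LT.A2.WX467 Fermat.Agent.LT.A2.LF54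

/-! ## 1. A point of the unit circle whose `2ⁿ`-th powers stay near `1` is `1` -/

theorem norm_sq_sub_one_ge709 {w : ℂ} (hw : ‖w‖ = 1) (h : ‖w - 1‖ < 1) :
    3 / 2 * ‖w - 1‖ ≤ ‖w ^ 2 - 1‖ := by
  have hpar := parallelogram_law_with_norm ℝ w 1
  rw [hw, norm_one] at hpar
  have h0 : 0 ≤ ‖w - 1‖ := norm_nonneg _
  have h1 : 0 ≤ ‖w + 1‖ := norm_nonneg _
  have h2 : (3 / 2 : ℝ) ≤ ‖w + 1‖ := by nlinarith
  have h3 : w ^ 2 - 1 = (w - 1) * (w + 1) := by ring
  rw [h3, norm_mul]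
  nlinarith

theorem circle_eq_one709 {z : ℂ} (hz : ‖z‖ = 1) (h : ∀ n : ℕ, ‖z ^ (2 ^ n) - 1‖ < 1) :
    z = 1 := by
  have hstep : ∀ n : ℕ, (3 / 2 : ℝ) ^ n * ‖z - 1‖ ≤ ‖z ^ (2 ^ n) - 1‖ := by
    intro n
    induction n with
    | zero => simp
    | succ n ih =>
      have hw : ‖z ^ (2 ^ n)‖ = 1 := by rw [norm_pow, hz, one_pow]
      have h1 := norm_sq_sub_one_ge709 hw (h n)
      have h2 : (z ^ (2 ^ n)) ^ 2 = z ^ (2 ^ (n + 1)) := by
        rw [← pow_mul, pow_succ]
      rw [h2] at h1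
      calc (3 / 2 : ℝ) ^ (n + 1) * ‖z - 1‖ = 3 / 2 * ((3 / 2 : ℝ) ^ n * ‖z - 1‖) := by ring
        _ ≤ 3 / 2 * ‖z ^ (2 ^ n) - 1‖ := by gcongr
        _ ≤ _ := h1
  by_contra hne
  have hpos : 0 < ‖z - 1‖ := norm_pos_iff.2 (sub_ne_zero.2 hne)
  obtain ⟨n, hn⟩ := pow_unbounded_of_one_lt (1 / ‖z - 1‖) (by norm_num : (1 : ℝ) < 3 / 2)
  have h1 := hstep n
  have h2 := h n
  have h3 : 1 < (3 / 2 : ℝ) ^ n * ‖z - 1‖ := by
    rw [div_lt_iff₀ hpos] at hn
    exact hn
  linarith


/-! ## 2. General facts (`k` a normed field) -/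

section General

variable {k : Type} [NormedField k]

theorem bfL_eq709 (t n : k) (ξ y : k × k) :
    bfL t n ξ y = 2 * ξ.1 * y.1 + t * (ξ.1 * y.2 + ξ.2 * y.1) + 2 * n * ξ.2 * y.2 := by
  unfold bfL qfL
  simp only [Prod.fst_add, Prod.snd_add]
  ring

theorem bfL_add_left709 (t n : k) (ξ ζ y : k × k) :
    bfL t n (ξ + ζ) y = bfL t n ξ y + bfL t n ζ y := by
  simp only [bfL_eq709, Prod.fst_add, Prod.snd_add]
  ring

theorem bfL_add_right709 (t n : k) (ξ y z : k × k) :
    bfL t n ξ (y + z) = bfL t n ξ y + bfL t n ξ z := by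
  simp only [bfL_eq709, Prod.fst_add, Prod.snd_add]
  ring

theorem norm_bfL_le709 (t n : k) (ξ y : k × k) :
    ‖bfL t n ξ y‖ ≤ (‖(2 : k)‖ + 2 * ‖t‖ + ‖2 * n‖) * (‖ξ‖ * ‖y‖) := by
  rw [bfL_eq709]
  have h1 : ‖ξ.1‖ ≤ ‖ξ‖ := norm_fst_le ξ
  have h2 : ‖ξ.2‖ ≤ ‖ξ‖ := norm_snd_le ξ
  have h3 : ‖y.1‖ ≤ ‖y‖ := norm_fst_le y
  have h4 : ‖y.2‖ ≤ ‖y‖ := norm_snd_le y
  have hξ : 0 ≤ ‖ξ‖ := norm_nonneg _
  have hy : 0 ≤ ‖y‖ := norm_nonneg _
  have e1 : ‖2 * ξ.1 * y.1‖ ≤ ‖(2 : k)‖ * (‖ξ‖ * ‖y‖) := by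
    rw [norm_mul, norm_mul, mul_assoc]
    gcongr
  have e2 : ‖t * (ξ.1 * y.2 + ξ.2 * y.1)‖ ≤ 2 * ‖t‖ * (‖ξ‖ * ‖y‖) := by
    rw [norm_mul]
    have : ‖ξ.1 * y.2 + ξ.2 * y.1‖ ≤ ‖ξ‖ * ‖y‖ + ‖ξ‖ * ‖y‖ := by
      refine (norm_add_le _ _).trans ?_
      rw [norm_mul, norm_mul]
      gcongr
    calc ‖t‖ * ‖ξ.1 * y.2 + ξ.2 * y.1‖ ≤ ‖t‖ * (‖ξ‖ * ‖y‖ + ‖ξ‖ * ‖y‖) := by gcongr
      _ = 2 * ‖t‖ * (‖ξ‖ * ‖y‖) := by ring
  have e3 : ‖2 * n * ξ.2 * y.2‖ ≤ ‖2 * n‖ * (‖ξ‖ * ‖y‖) := by
    rw [norm_mul, norm_mul, mul_assoc]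
    gcongr
  calc ‖2 * ξ.1 * y.1 + t * (ξ.1 * y.2 + ξ.2 * y.1) + 2 * n * ξ.2 * y.2‖
      ≤ ‖2 * ξ.1 * y.1‖ + ‖t * (ξ.1 * y.2 + ξ.2 * y.1)‖ + ‖2 * n * ξ.2 * y.2‖ :=
        norm_add₃_le
    _ ≤ _ := by linarith

theorem psi_zero709 {ψ : k → ℂ} (hψ : IsCharL ψ) : ψ 0 = 1 := by
  have h1 := hψ.2.1 0 0
  rw [add_zero] at h1
  have h2 : ψ 0 ≠ 0 := by
    intro h
    have := hψ.2.2.1 0
    rw [h, norm_zero] at this
    exact zero_ne_one this
  exact (mul_right_cancel₀ h2 (by rw [one_mul]; exact h1)).symm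

theorem psi_nsmul709 {ψ : k → ℂ} (hψ : IsCharL ψ) (m : ℕ) (x : k) :
    ψ ((m : k) * x) = ψ x ^ m := by
  induction m with
  | zero => simp [psi_zero709 hψ]
  | succ m ih =>
    have : ((m + 1 : ℕ) : k) * x = (m : k) * x + x := by push_cast; ring
    rw [this, hψ.2.1, ih, pow_succ]

/-- A continuous unitary character of a non-archimedean field is trivial near `0`. -/
theorem psi_trivial_near709 [IsUltrametricDist k] {ψ : k → ℂ} (hψ : IsCharL ψ) :
    ∃ ε : ℝ, 0 < ε ∧ ∀ x : k, ‖x‖ < ε → ψ x = 1 := by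
  have hc : ContinuousAt ψ 0 := hψ.1.continuousAt
  rw [Metric.continuousAt_iff] at hc
  obtain ⟨ε, hε, h⟩ := hc 1 one_pos
  refine ⟨ε, hε, fun x hx => ?_⟩
  refine circle_eq_one709 (hψ.2.2.1 x) fun m => ?_
  have h1 : ‖((2 ^ m : ℕ) : k) * x‖ < ε := by
    rw [norm_mul]
    have := IsUltrametricDist.norm_natCast_le_one k (2 ^ m)
    calc ‖((2 ^ m : ℕ) : k)‖ * ‖x‖ ≤ 1 * ‖x‖ := by gcongr
      _ = ‖x‖ := one_mul _
      _ < ε := hx
  have h2 := h (x := ((2 ^ m : ℕ) : k) * x) (by rwa [dist_zero_right])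
  rw [psi_zero709 hψ, psi_nsmul709 hψ, dist_eq_norm] at h2
  exact h2

/-- A Schwartz--Bruhat function is uniformly locally constant. -/
theorem sb_uniform709 {Φ : k × k → ℂ} (hΦ : IsSB Φ) :
    ∃ δ : ℝ, 0 < δ ∧ ∀ y z : k × k, dist y z < δ → Φ y = Φ z := by
  have hcomp : IsCompact (tsupport Φ) := hΦ.2
  obtain ⟨δ, hδ, h⟩ := lebesgue_number_lemma_of_metric (s := tsupport Φ)
    (c := fun y : k × k => {z | Φ z = Φ y}) hcomp
    (fun y => hΦ.1.isOpen_fiber (Φ y)) (fun y _ => Set.mem_iUnion.2 ⟨y, rfl⟩)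
  have key : ∀ y ∈ tsupport Φ, ∀ z : k × k, dist y z < δ → Φ y = Φ z := by
    intro y hy z hyz
    obtain ⟨i, hi⟩ := h y hy
    have h1 : Φ y = Φ i := hi (Metric.mem_ball_self hδ)
    have h2 : Φ z = Φ i := hi (by rw [Metric.mem_ball, dist_comm]; exact hyz)
    rw [h1, h2]
  refine ⟨δ, hδ, fun y z hyz => ?_⟩
  by_cases hy : y ∈ tsupport Φ
  · exact key y hy z hyz
  · by_cases hz : z ∈ tsupport Φ
    · exact (key z hz y (by rwa [dist_comm])).symm
    · rw [image_eq_zero_of_notMem_tsupport hy, image_eq_zero_of_notMem_tsupport hz]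

theorem sb_bounded709 {Φ : k × k → ℂ} (hΦ : IsSB Φ) :
    ∃ R : ℝ, 0 < R ∧ ∀ y : k × k, Φ y ≠ 0 → ‖y‖ ≤ R := by
  have hb : Bornology.IsBounded (tsupport Φ) := hΦ.2.isBounded
  obtain ⟨R, hR⟩ := hb.subset_closedBall 0
  refine ⟨max R 1, lt_max_of_lt_right one_pos, fun y hy => ?_⟩
  have h1 : y ∈ tsupport Φ := subset_tsupport Φ hy
  have h2 := hR h1
  rw [mem_closedBall_zero_iff] at h2
  exact h2.trans (le_max_left _ _)


/-- The Fourier transform of a Schwartz--Bruhat function is locally constant. -/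
theorem ft_locallyConstant709 [IsUltrametricDist k] {t n : k} {ψ : k → ℂ}
    (μ : @Measure k (borel k)) (hψ : IsCharL ψ) {Φ : k × k → ℂ} (hΦ : IsSB Φ) :
    IsLocallyConstant (ftL t n ψ μ Φ) := by
  obtain ⟨ε, hε, hψε⟩ := psi_trivial_near709 hψ
  obtain ⟨R, hR, hΦR⟩ := sb_bounded709 hΦ
  set C : ℝ := ‖(2 : k)‖ + 2 * ‖t‖ + ‖2 * n‖ + 1 with hC
  have hCpos : 0 < C := by positivity
  have hinv : ∀ ξ ζ : k × k, ‖ζ‖ < ε / (C * R) → ftL t n ψ μ Φ (ξ + ζ) = ftL t n ψ μ Φ ξ := by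
    intro ξ ζ hζ
    unfold ftL
    congr 1
    funext y
    by_cases hy : Φ y = 0
    · rw [hy, zero_mul, zero_mul]
    · have hyR := hΦR y hy
      have h1 : ‖bfL t n ζ y‖ < ε := by
        have h2 := norm_bfL_le709 t n ζ y
        have h3 : ‖ζ‖ * ‖y‖ ≤ ‖ζ‖ * R := by gcongr
        have h4 : ‖ζ‖ * (C * R) < ε := by
          rwa [lt_div_iff₀ (by positivity)] at hζ
        have h5 : 0 ≤ ‖ζ‖ * ‖y‖ := by positivity
        have h6 : 0 ≤ ‖ζ‖ * R := by positivity
        calc ‖bfL t n ζ y‖ ≤ (‖(2 : k)‖ + 2 * ‖t‖ + ‖2 * n‖) * (‖ζ‖ * ‖y‖) := h2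
          _ ≤ C * (‖ζ‖ * ‖y‖) := by
              rw [hC]; nlinarith [norm_nonneg (2 : k), norm_nonneg t, norm_nonneg (2 * n)]
          _ ≤ C * (‖ζ‖ * R) := by gcongr
          _ = ‖ζ‖ * (C * R) := by ring
          _ < ε := h4
      rw [bfL_add_left709, hψ.2.1, hψε _ h1, mul_one]
  rw [IsLocallyConstant.iff_eventually_eq]
  intro ξ
  have hpos : 0 < ε / (C * R) := by positivity
  filter_upwards [Metric.ball_mem_nhds ξ hpos] with ξ' hξ'
  have h1 : ξ' = ξ + (ξ' - ξ) := by ring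
  rw [h1]
  refine hinv ξ (ξ' - ξ) ?_
  rwa [Metric.mem_ball, dist_eq_norm] at hξ'


/-- The integral over `k²` is invariant under translations. -/
theorem intL_translate709 [ProperSpace k] (μ : @Measure k (borel k)) (hμ : IsHaarL μ)
    (f : k × k → ℂ) (l : k × k) : intL μ (fun y => f (y + l)) = intL μ f := by
  letI : MeasurableSpace k := borel k
  haveI : BorelSpace k := ⟨rfl⟩
  haveI hinv : μ.IsAddLeftInvariant := by
    refine ⟨fun x => ?_⟩
    ext s hs
    rw [Measure.map_apply (measurable_const_add x) hs]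
    have h1 : (fun y => x + y) ⁻¹' s = (fun y => -x + y) '' s := by
      ext y
      simp only [Set.mem_preimage, Set.mem_image]
      constructor
      · intro hy
        exact ⟨x + y, hy, by ring⟩
      · rintro ⟨z, hz, rfl⟩
        have : x + (-x + z) = z := by ring
        rwa [this]
    rw [h1]
    exact hμ.1 (-x) s
  haveI : IsFiniteMeasureOnCompacts μ := ⟨fun C hC => hμ.2.1 C hC⟩
  haveI : SigmaFinite μ := inferInstance
  haveI : (μ.prod μ).IsAddRightInvariant := inferInstance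
  exact integral_add_right_eq_self (μ := μ.prod μ) f l


theorem intL_mul_const709 (μ : @Measure k (borel k)) (f : k × k → ℂ) (c : ℂ) :
    intL μ (fun y => f y * c) = intL μ f * c := by
  letI : MeasurableSpace k := borel k
  exact integral_mul_const c f

/-- Where the Fourier transform does not vanish, `ψ(B(ξ, l)) = 1` for all small `l`. -/
theorem psi_bfL_eq_one709 [ProperSpace k] {t n : k} {ψ : k → ℂ} {μ : @Measure k (borel k)}
    (h : Ctx t n ψ μ) {Φ : k × k → ℂ} {δ : ℝ}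
    (hδ : ∀ y z : k × k, dist y z < δ → Φ y = Φ z) {ξ : k × k}
    (hξ : ftL t n ψ μ Φ ξ ≠ 0) (l : k × k) (hl : ‖l‖ < δ) : ψ (bfL t n ξ l) = 1 := by
  have h1 : ftL t n ψ μ Φ ξ = ftL t n ψ μ Φ ξ * ψ (bfL t n ξ l) := by
    have h2 := intL_translate709 μ h.haar (fun y => Φ y * ψ (bfL t n ξ y)) l
    have h3 : (fun y : k × k => Φ (y + l) * ψ (bfL t n ξ (y + l)))
        = fun y => (Φ y * ψ (bfL t n ξ y)) * ψ (bfL t n ξ l) := by
      funext y
      have h4 : Φ (y + l) = Φ y := by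
        refine hδ _ _ ?_
        rw [dist_eq_norm]
        have : y + l - y = l := by ring
        rwa [this]
      rw [h4, bfL_add_right709, h.char.2.1, mul_assoc]
    rw [h3, intL_mul_const709] at h2
    exact h2.symm
  have h5 : ftL t n ψ μ Φ ξ * (ψ (bfL t n ξ l) - 1) = 0 := by
    rw [mul_sub, mul_one, ← h1, sub_self]
  rcases mul_eq_zero.1 h5 with h6 | h6
  · exact absurd h6 hξ
  · exact sub_eq_zero.1 h6

/-- The support of the Fourier transform of a Schwartz--Bruhat function is bounded. -/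
theorem ft_support709 [ProperSpace k] {t n : k} {ψ : k → ℂ} {μ : @Measure k (borel k)}
    (h : Ctx t n ψ μ) {Φ : k × k → ℂ} (hΦ : IsSB Φ) :
    ∃ R : ℝ, ∀ ξ : k × k, ftL t n ψ μ Φ ξ ≠ 0 → ‖ξ‖ ≤ R := by
  obtain ⟨δ, hδ, hΦδ⟩ := sb_uniform709 hΦ
  obtain ⟨x₀, hx₀⟩ := h.char.2.2.2
  set M : ℝ := ‖x₀‖ / δ with hM
  have hM0 : 0 ≤ M := by positivity
  set D : k := t ^ 2 - 4 * n with hD
  have hD0 : D ≠ 0 := h.disc
  have hDpos : 0 < ‖D‖ := norm_pos_iff.2 hD0
  refine ⟨(‖t‖ + ‖2 * n‖ + ‖(2 : k)‖) * M / ‖D‖, fun ξ hξ => ?_⟩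
  have hone := fun l hl => psi_bfL_eq_one709 h hΦδ hξ l hl
  -- the two linear forms
  set α : k := 2 * ξ.1 + t * ξ.2 with hα
  set β : k := t * ξ.1 + 2 * n * ξ.2 with hβ
  have hbound : ∀ (c : k) (e : k × k), (∀ s : k, bfL t n ξ (s • e) = c * s) → ‖e‖ ≤ 1 →
      ‖c‖ ≤ M := by
    intro c e he he1
    by_contra hcon
    rw [not_le] at hcon
    have hc0 : c ≠ 0 := by
      intro h0
      rw [h0, norm_zero] at hcon
      exact absurd hcon (not_lt.2 hM0)
    have hcpos : 0 < ‖c‖ := norm_pos_iff.2 hc0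
    have hl : ‖(x₀ / c) • e‖ < δ := by
      rw [norm_smul, norm_div]
      have h1 : ‖x₀‖ / ‖c‖ < δ := by
        rw [div_lt_iff₀ hcpos]
        rw [hM, div_lt_iff₀ hδ] at hcon
        linarith [mul_comm δ ‖c‖]
      have h2 : 0 ≤ ‖x₀‖ / ‖c‖ := by positivity
      calc ‖x₀‖ / ‖c‖ * ‖e‖ ≤ ‖x₀‖ / ‖c‖ * 1 := by gcongr
        _ = ‖x₀‖ / ‖c‖ := mul_one _
        _ < δ := h1
    have h3 := hone _ hl
    rw [he, mul_div_cancel₀ _ hc0] at h3
    exact hx₀ h3
  have hα' : ‖α‖ ≤ M := by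
    refine hbound α (1, 0) (fun s => ?_) ?_
    · rw [bfL_eq709]
      simp only [Prod.smul_mk, smul_eq_mul, mul_one, mul_zero]
      rw [hα]; ring
    · simp [Prod.norm_def]
  have hβ' : ‖β‖ ≤ M := by
    refine hbound β (0, 1) (fun s => ?_) ?_
    · rw [bfL_eq709]
      simp only [Prod.smul_mk, smul_eq_mul, mul_one, mul_zero]
      rw [hβ]; ring
    · simp [Prod.norm_def]
  have e1 : D * ξ.1 = t * β - 2 * n * α := by rw [hD, hα, hβ]; ring
  have e2 : D * ξ.2 = t * α - 2 * β := by rw [hD, hα, hβ]; ring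
  have n1 : ‖D‖ * ‖ξ.1‖ ≤ (‖t‖ + ‖2 * n‖ + ‖(2 : k)‖) * M := by
    rw [← norm_mul, e1]
    have h1 : ‖t * β - 2 * n * α‖ ≤ ‖t‖ * ‖β‖ + ‖2 * n‖ * ‖α‖ := by
      refine (norm_sub_le _ _).trans ?_
      rw [norm_mul, norm_mul]
    have h2 : ‖t‖ * ‖β‖ ≤ ‖t‖ * M := by gcongr
    have h3 : ‖2 * n‖ * ‖α‖ ≤ ‖2 * n‖ * M := by gcongr
    have h4 : 0 ≤ ‖(2 : k)‖ * M := by positivity
    nlinarith
  have n2 : ‖D‖ * ‖ξ.2‖ ≤ (‖t‖ + ‖2 * n‖ + ‖(2 : k)‖) * M := by
    rw [← norm_mul, e2]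
    have h1 : ‖t * α - 2 * β‖ ≤ ‖t‖ * ‖α‖ + ‖(2 : k)‖ * ‖β‖ := by
      refine (norm_sub_le _ _).trans ?_
      rw [norm_mul, norm_mul]
    have h2 : ‖t‖ * ‖α‖ ≤ ‖t‖ * M := by gcongr
    have h3 : ‖(2 : k)‖ * ‖β‖ ≤ ‖(2 : k)‖ * M := by gcongr
    have h4 : 0 ≤ ‖2 * n‖ * M := by positivity
    nlinarith
  rw [le_div_iff₀ hDpos, Prod.norm_def, max_mul_of_nonneg _ _ hDpos.le]
  refine max_le ?_ ?_
  · rw [mul_comm]; exact n1
  · rw [mul_comm]; exact n2

/-- **FT preserves Schwartz--Bruhat functions** (general form). -/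
theorem ftSbP_general709 [IsUltrametricDist k] [ProperSpace k] {t n : k} {ψ : k → ℂ}
    {μ : @Measure k (borel k)} (h : Ctx t n ψ μ) : FtSbP t n ψ μ := by
  intro Φ hΦ
  refine ⟨ft_locallyConstant709 μ h.char hΦ, ?_⟩
  obtain ⟨R, hR⟩ := ft_support709 h hΦ
  refine HasCompactSupport.intro (isCompact_closedBall (0 : k × k) R) fun ξ hξ => ?_
  by_contra hne
  exact hξ (mem_closedBall_zero_iff.2 (hR ξ hne))

end General


/-! ## 3. The completions `K_v` -/

section Adic

variable (K : Type) [Field K] [NumberField K] (v : HeightOneSpectrum (𝓞 K))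

/-- `K_v` is a proper metric space. -/
theorem properSpace_adicCompletion709 : ProperSpace (v.adicCompletion K) := by
  haveI : LocallyCompactSpace (v.adicCompletion K) :=
    Fermat.Agent.LT.H11.LC.locallyCompactSpace_adicCompletion_h11 K v
  obtain ⟨a, ha, ha0⟩ := Submodule.exists_mem_ne_zero_of_ne_bot v.ne_bot
  set x : v.adicCompletion K := algebraMap K (v.adicCompletion K) (algebraMap (𝓞 K) K a) with hx
  have hx1 : ‖x‖ < 1 := by
    rw [Valued.toNormedField.norm_lt_one_iff]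
    have h2 : Valued.v x = v.valuation K (algebraMap (𝓞 K) K a) :=
      HeightOneSpectrum.valuedAdicCompletion_eq_valuation' v _
    rw [h2]
    exact (HeightOneSpectrum.valuation_lt_one_iff_mem v a).2 ha
  have hx0 : x ≠ 0 := by
    rw [hx, Ne, map_eq_zero, map_eq_zero_iff _ (IsFractionRing.injective (𝓞 K) K)]
    exact ha0
  letI : NontriviallyNormedField (v.adicCompletion K) :=
    { (inferInstance : NormedField (v.adicCompletion K)) with
      non_trivial := ⟨x⁻¹, by
        rw [norm_inv]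
        exact (one_lt_inv₀ (norm_pos_iff.2 hx0)).2 hx1⟩ }
  exact ProperSpace.of_locallyCompactSpace (v.adicCompletion K)

/-- **A2.03.1.1.06.03 FT-SB** (`LF54.LeafFtSb`, VERBATIM). -/
theorem leafFtSb709 : LeafFtSb := by
  intro K _ _ v t n ψ μ h
  haveI : ProperSpace (v.adicCompletion K) := properSpace_adicCompletion709 K v
  exact ftSbP_general709 h

end Adic

end Fermat.Agent.LT.A2.H709

end
end
-- ===== PACK-END LT/A2/H709/FtSb.lean

-- ===== PACK-BEGIN LT/A2/H724/LeafHaar.lean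
section



/-!
# Row LT, tower A2, leaf A2.03.1.1.06.01 `LF54.LeafHaar` (helper724, registry row 1578)

OFF-MAIN.  A Haar measure on `K_v` for the Borel σ-algebra: `K_v` is locally compact
(`LT/H11/LC.lean` of helper11, Mathlib only, byte-identical), Mathlib `addHaar`.
Imports the cut `LT/A2/H54/LocFinSpec.lean` (helper54@26071c838, sha256 8ccd9c5c) byte-identically.
-/

set_option autoImplicit false

open IsDedekindDomain NumberField MeasureTheory

noncomputable section

namespace Fermat.Agent.LT.A2.H724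

open Fermat.Agent.LT.A2 Fermat.Agent.LT.A2.WX467

/-- The Haar measure of a locally compact topological field, for the Borel σ-algebra, has the
three properties of `WX467.IsHaarL`. -/
theorem isHaarL_addHaar724 (k : Type) [Field k] [TopologicalSpace k] [IsTopologicalRing k]
    [LocallyCompactSpace k] :
    ∃ μ : @Measure k (borel k), IsHaarL μ := by
  let _ : MeasurableSpace k := borel k
  have : BorelSpace k := ⟨rfl⟩
  refine ⟨(Measure.addHaar : Measure k), ?_, ?_, ?_⟩
  · intro x S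
    have h : (fun y : k => x + y) '' S = (fun y : k => -x + y) ⁻¹' S := by
      ext z
      constructor
      · rintro ⟨y, hy, rfl⟩
        show -x + (x + y) ∈ S
        rw [neg_add_cancel_left]
        exact hy
      · intro hz
        exact ⟨-x + z, hz, by simp⟩
    rw [h]
    exact measure_preimage_add (Measure.addHaar : Measure k) (-x) S
  · intro C hC
    exact IsCompact.measure_lt_top (μ := (Measure.addHaar : Measure k)) hC
  · intro U hU hne
    exact IsOpen.measure_pos (Measure.addHaar : Measure k) hU hne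

/-- **Leaf A2.03.1.1.06.01 `LF54.LeafHaar`.** -/
theorem leafHaar724 : LF54.LeafHaar := by
  intro K _ _ v
  have : LocallyCompactSpace (v.adicCompletion K) :=
    Fermat.Agent.LT.H11.LC.locallyCompactSpace_adicCompletion_h11 K v
  exact isHaarL_addHaar724 (v.adicCompletion K)

end Fermat.Agent.LT.A2.H724

end

end
-- ===== PACK-END LT/A2/H724/LeafHaar.lean

-- ===== PACK-BEGIN LT/A2/H793/Eta.lean
section


/-!
# Row LT, tower A2, leaf A2.03.1.1.06.12 `LF54.LeafEta` (helper793, OFF-MAIN)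

The Weil constant `γ` and the quadratic character `η` from the Gauss function `G`:
`g(a) = ‖a‖ G(a)`, `γ = 1 / g(-1)`, `η(a) = γ g(-a)`.

`leafEta793 : LF54.LeafEta`, VERBATIM vs `LT/A2/H54/LocFinSpec.lean`
(helper54@26071c838, sha256 8ccd9c5c).  Pure algebra (memo of helper54, par. 3), for every
normed field: `etaCert_exists793`.
-/

set_option autoImplicit false

open IsDedekindDomain NumberField MeasureTheory
open scoped Topology

noncomputable section

namespace Fermat.Agent.LT.A2.H793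

open Fermat.Agent.LT.A2 Fermat.Agent.LT.A2.WX467 Fermat.Agent.LT.A2.LF54

section Algebra

variable {k : Type} [NormedField k]

/-- `g(a) = ‖a‖ G(a)`. -/
def gFn793 (G : k → ℂ) (a : k) : ℂ := ((‖a‖ : ℝ) : ℂ) * G a

/-- `γ = 1 / g(-1)`. -/
def gammaFn793 (G : k → ℂ) : ℂ := (gFn793 G (-1))⁻¹

/-- `η(a) = γ g(-a)`. -/
def etaFn793 (G : k → ℂ) (a : k) : ℂ := gammaFn793 G * gFn793 G (-a)

variable {t n : k} {c : ℝ} {G : k → ℂ}

theorem g_mul_g_neg793 (hP : GaussProdP c G) {a : k} (ha : a ≠ 0) :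
    gFn793 G a * gFn793 G (-a) = (c : ℂ) := by
  have h := hP a ha
  unfold gFn793
  rw [norm_neg]
  rw [← h]
  push_cast
  ring

theorem g_ne_zero793 (hc : 0 < c) (hP : GaussProdP c G) {a : k} (ha : a ≠ 0) :
    gFn793 G a ≠ 0 := by
  intro h0
  have h := g_mul_g_neg793 hP ha
  rw [h0, zero_mul] at h
  have : (c : ℂ) ≠ 0 := by exact_mod_cast hc.ne'
  exact this h.symm

theorem g_mul_norm793 (hN : GaussNormP t n G) {a : k} (ha : a ≠ 0) (x y : k)
    (hxy : qfL t n (x, y) ≠ 0) : gFn793 G (a * qfL t n (x, y)) = gFn793 G a := by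
  have h := hN a ha x y hxy
  unfold gFn793
  rw [norm_mul, ← h]
  push_cast
  ring

theorem g_mul_sum_sq793 (hS : GaussSumP t n G) {a : k} (ha : a ≠ 0) (x₁ y₁ x₂ y₂ : k)
    (hs : qfL t n (x₁, y₁) + qfL t n (x₂, y₂) ≠ 0) :
    gFn793 G (a * (qfL t n (x₁, y₁) + qfL t n (x₂, y₂))) ^ 2 = gFn793 G a ^ 2 := by
  have h := hS a ha x₁ y₁ x₂ y₂ hs
  unfold gFn793
  rw [norm_mul, mul_pow ((‖a‖ : ℝ) : ℂ) (G a), ← h]
  push_cast
  ring

theorem gamma_mul_g793 (hc : 0 < c) (hP : GaussProdP c G) :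
    gammaFn793 G * gFn793 G (-1) = 1 := by
  unfold gammaFn793
  exact inv_mul_cancel₀ (g_ne_zero793 hc hP (neg_ne_zero.2 one_ne_zero))

/-- `η(a N) = η(a)` for a nonzero value `N` of the norm form. -/
theorem eta_mul_norm793 (hN : GaussNormP t n G) {a : k} (ha : a ≠ 0) (x y : k)
    (hxy : qfL t n (x, y) ≠ 0) : etaFn793 G (a * qfL t n (x, y)) = etaFn793 G a := by
  unfold etaFn793
  rw [← neg_mul, g_mul_norm793 hN (neg_ne_zero.2 ha) x y hxy]

/-- `η = 1` on the nonzero values of the norm form. -/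
theorem eta_norm_val793 (hc : 0 < c) (hN : GaussNormP t n G) (hP : GaussProdP c G) (x y : k)
    (hxy : qfL t n (x, y) ≠ 0) : etaFn793 G (qfL t n (x, y)) = 1 := by
  have h := eta_mul_norm793 hN (one_ne_zero : (1 : k) ≠ 0) x y hxy
  rw [one_mul] at h
  rw [h]
  unfold etaFn793
  exact gamma_mul_g793 hc hP

theorem eta_of_isNorm793 (hc : 0 < c) (hN : GaussNormP t n G) (hP : GaussProdP c G) {a : k}
    (ha : a ≠ 0) (h : IsNormL t n a) : etaFn793 G a = 1 := by
  obtain ⟨x, y, rfl⟩ := h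
  exact eta_norm_val793 hc hN hP x y ha

/-- squares are values of the norm form -/
theorem qfL_sq793 (t n y : k) : qfL t n (y, 0) = y ^ 2 := by
  unfold qfL
  ring

/-- `η(a y²) = η(a)`. -/
theorem eta_mul_sq793 (hN : GaussNormP t n G) {a y : k} (ha : a ≠ 0) (hy : y ≠ 0) :
    etaFn793 G (a * y ^ 2) = etaFn793 G a := by
  rw [← qfL_sq793 t n y]
  exact eta_mul_norm793 hN ha y 0 (by rw [qfL_sq793]; exact pow_ne_zero 2 hy)

/-- On the non-norms `η` is constant, with square `1`. -/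
theorem eta_nonNorm793 (hc : 0 < c) (hN : GaussNormP t n G) (hP : GaussProdP c G)
    (hS : GaussSumP t n G) (hI : NormIndexP t n) (hU : NonNormSumP t n) {a : k} (ha : a ≠ 0)
    (hna : ¬ IsNormL t n a) :
    ∃ ε : ℂ, ε ^ 2 = 1 ∧ ∀ b : k, b ≠ 0 → ¬ IsNormL t n b → etaFn793 G b = ε := by
  obtain ⟨x₁, y₁, x₂, y₂, hs, hns⟩ := hU ⟨a, ha, hna⟩
  set s : k := qfL t n (x₁, y₁) + qfL t n (x₂, y₂) with hsdef
  refine ⟨etaFn793 G s, ?_, ?_⟩
  · unfold etaFn793
    have h1 : gFn793 G (-s) ^ 2 = gFn793 G (-1) ^ 2 := by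
      have := g_mul_sum_sq793 hS (neg_ne_zero.2 (one_ne_zero : (1 : k) ≠ 0)) x₁ y₁ x₂ y₂ hs
      rw [neg_one_mul] at this
      exact this
    rw [mul_pow, h1, ← mul_pow, gamma_mul_g793 hc hP, one_pow]
  · intro b hb hnb
    obtain ⟨x, y, hxy⟩ := hI b s hb hs hnb hns
    have hbs : b * s ≠ 0 := mul_ne_zero hb hs
    have hsi : s⁻¹ ≠ 0 := inv_ne_zero hs
    have e : b = s * qfL t n (x, y) * s⁻¹ ^ 2 := by
      rw [hxy]
      field_simp
    have h1 : etaFn793 G (s * qfL t n (x, y) * s⁻¹ ^ 2) = etaFn793 G (s * qfL t n (x, y)) :=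
      eta_mul_sq793 hN (by rw [hxy]; exact mul_ne_zero hs hbs) hsi
    have h2 : etaFn793 G (s * qfL t n (x, y)) = etaFn793 G s :=
      eta_mul_norm793 hN hs x y (by rw [hxy]; exact hbs)
    rw [e, h1, h2]

theorem det_torMat793 (t n a b : k) : (torMat t n a b).det = qfL t n (a, b) := by
  unfold torMat qfL
  rw [Matrix.det_fin_two_of]
  ring

/-- **The certificate of `(γ, η)`** over any normed field. -/
theorem etaCert_exists793 (t n : k) (c : ℝ) (G : k → ℂ) (hc : 0 < c)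
    (hN : GaussNormP t n G) (hP : GaussProdP c G) (hS : GaussSumP t n G)
    (hI : NormIndexP t n) (hU : NonNormSumP t n) (hSq : SqOpenP k) :
    EtaCert t n c G (gammaFn793 G) (etaFn793 G) where
  eta_mul := by
    intro a b ha hb
    by_cases hna : IsNormL t n a
    · obtain ⟨x, y, rfl⟩ := hna
      rw [mul_comm, eta_mul_norm793 hN hb x y ha, eta_norm_val793 hc hN hP x y ha, one_mul]
    · by_cases hnb : IsNormL t n b
      · obtain ⟨x, y, rfl⟩ := hnb
        rw [eta_mul_norm793 hN ha x y hb, eta_norm_val793 hc hN hP x y hb, mul_one]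
      · obtain ⟨ε, hε, hall⟩ := eta_nonNorm793 hc hN hP hS hI hU ha hna
        rw [hall a ha hna, hall b hb hnb,
          eta_of_isNorm793 hc hN hP (mul_ne_zero ha hb) (hI a b ha hb hna hnb), ← pow_two, hε]
  eta_sq := by
    intro a ha
    by_cases hna : IsNormL t n a
    · exact Or.inl (eta_of_isNorm793 hc hN hP ha hna)
    · obtain ⟨ε, hε, hall⟩ := eta_nonNorm793 hc hN hP hS hI hU ha hna
      rw [hall a ha hna]
      have hfac : (ε - 1) * (ε + 1) = 0 := by linear_combination hε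
      rcases mul_eq_zero.1 hfac with h | h
      · exact Or.inl (by linear_combination h)
      · exact Or.inr (by linear_combination h)
  eta_norm := by
    rintro μ' ⟨a, b, rfl⟩ hdet
    rw [det_torMat793] at hdet ⊢
    exact eta_norm_val793 hc hN hP a b hdet
  eta_cont := by
    obtain ⟨ε, hε, hsq⟩ := hSq
    intro a ha
    have ha' : a ≠ 0 := ha
    have hpos : 0 < ε * ‖a‖ := mul_pos hε (norm_pos_iff.2 ha')
    have hev : ∀ᶠ b in 𝓝[{a : k | a ≠ 0}] a, etaFn793 G b = etaFn793 G a := by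
      have hball : Metric.ball a (ε * ‖a‖) ∈ 𝓝[{a : k | a ≠ 0}] a :=
        mem_nhdsWithin_of_mem_nhds (Metric.ball_mem_nhds a hpos)
      filter_upwards [hball, self_mem_nhdsWithin] with b hb hb0
      have hb0' : b ≠ 0 := hb0
      have h1 : ‖b / a - 1‖ < ε := by
        have e : b / a - 1 = (b - a) / a := by field_simp
        rw [e, norm_div, div_lt_iff₀ (norm_pos_iff.2 ha')]
        rw [Metric.mem_ball, dist_eq_norm] at hb
        exact hb
      obtain ⟨y, hy⟩ := hsq (b / a) h1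
      have hy0 : y ≠ 0 := by
        rintro rfl
        rw [zero_pow two_ne_zero] at hy
        exact div_ne_zero hb0' ha' hy.symm
      have e2 : b = a * y ^ 2 := by
        rw [hy]
        field_simp
      rw [e2]
      exact eta_mul_sq793 hN ha' hy0
    exact continuousWithinAt_const.congr_of_eventuallyEq hev rfl
  w2 := by
    have h1 := g_mul_g_neg793 hP (one_ne_zero : (1 : k) ≠ 0)
    have h2 := gamma_mul_g793 (G := G) hc hP
    unfold etaFn793
    rw [neg_neg, ← h1]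
    linear_combination (gammaFn793 G * gFn793 G 1) * h2
  gauss_eta := by
    intro a _
    unfold etaFn793 gFn793
    rw [neg_neg]
    ring

end Algebra

/-- **A2.03.1.1.06.12 = `LF54.LeafEta`**, verbatim. -/
theorem leafEta793 : LeafEta := by
  intro K _ _ v t n ψ μ c G _ hF hN hP hS hI hU hSq
  exact ⟨gammaFn793 G, etaFn793 G, etaCert_exists793 t n c G hF.c_pos hN hP hS hI hU hSq⟩

end Fermat.Agent.LT.A2.H793

end

end
-- ===== PACK-END LT/A2/H793/Eta.lean

-- ===== PACK-BEGIN LT/A2/H863/AxDiag.lean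
section



/-!
# Row LT, tower A2, leaf A2.03.1.1.06.17 (`LF54.LeafAxDiag`) -- helper863, OFF-MAIN

**`leafAxDiag_863 : Fermat.Agent.LT.A2.LF54.LeafAxDiag`**, VERBATIM against
`Fermat/Agent/LT/A2/H54/LocFinSpec.lean` (helper54, sha256 8ccd9c5c6ed3304a).

The field `diag` of `LocAx` for the family `Fof Φ g m = L(m) r(d(det m)⁻¹ g) Φ`:
`d(δ)⁻¹ t(a) = t(a) d(δ)⁻¹` (diagonal matrices commute), the left rule `BorelOpP.diag` of `rOp`,
and `m⁻¹ (a ξ) = a (m⁻¹ ξ)`.  Proved for every normed field (`axDiag_863`); `Ctx` is not used.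

Mathlib + the frozen Spec closure only; every proof is complete.
-/

set_option autoImplicit false

open IsDedekindDomain NumberField MeasureTheory

noncomputable section

namespace Fermat.Agent.LT.A2.H863

open Fermat.Agent.LT.A2 Fermat.Agent.LT.A2.WX467 Fermat.Agent.LT.A2.LF54

theorem diag_comm_863 {k : Type} [Field k] (a δ : k) (g : Matrix (Fin 2) (Fin 2) k) :
    !![1, 0; 0, δ] * (!![a, 0; 0, a⁻¹] * g) = !![a, 0; 0, a⁻¹] * (!![1, 0; 0, δ] * g) := by
  rw [← Matrix.mul_assoc, ← Matrix.mul_assoc]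
  congr 1
  ext i j
  fin_cases i <;> fin_cases j <;> simp [Matrix.mul_apply, Fin.sum_univ_two, mul_comm]

theorem actL_smul_863 {k : Type} [Field k] (m : Matrix (Fin 2) (Fin 2) k) (a : k) (ξ : k × k) :
    actL m (a • ξ) = a • actL m ξ := by
  unfold actL
  ext
  · simp only [Prod.smul_fst, Prod.smul_snd, smul_eq_mul]
    ring
  · simp only [Prod.smul_fst, Prod.smul_snd, smul_eq_mul]
    ring

/-- The field `diag` for `Fof`, over any normed field. -/
theorem axDiag_863 {k : Type} [NormedField k] (t n : k) (ψ : k → ℂ) (μ : @Measure k (borel k))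
    (γ : ℂ) (η : k → ℂ) (hB : BorelOpP t n ψ μ γ η) (Φ : k × k → ℂ) (hΦ : IsSB Φ) :
    AxDiagP t n η (Fof t n ψ μ γ η Φ) := by
  intro a ha g m ξ hadm
  obtain ⟨-, hdet, hdet0⟩ := hadm
  have hdet1 : (!![1, 0; 0, (m.det)⁻¹] * g).det = 1 := by
    rw [Matrix.det_mul, Matrix.det_fin_two_of, hdet, one_mul, mul_zero, sub_zero,
      inv_mul_cancel₀ hdet0]
  unfold Fof lopL
  rw [diag_comm_863, hB.diag a ha _ hdet1 Φ hΦ, actL_smul_863]
  ring

/-- **Leaf 17 AX-DIAG.** -/
theorem leafAxDiag_863 : LeafAxDiag := by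
  intro K _ _ v t n ψ μ γ η _ hB Φ hΦ
  exact axDiag_863 t n ψ μ γ η hB Φ hΦ

end Fermat.Agent.LT.A2.H863

end

end
-- ===== PACK-END LT/A2/H863/AxDiag.lean

-- ===== PACK-BEGIN LT/A2/H949/SqOpen.lean
section



/-!
# Row LT, tower A2, leaf A2.03.1.1.06.11 `LF54.LeafSqOpen` (helper949), OFF-MAIN

Registry row 1588.  Spec bytes: `LT/A2/H54/LocFinSpec.lean` of `origin/helper54@26071c838`
(sha256 `8ccd9c5c6ed3304a…`).

`leafSqOpen949 : LF54.LeafSqOpen`: the squares of `K_v` contain a neighbourhood of `1`.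
In ANY complete normed field with `2 ≠ 0`, every `x` with `‖x - 1‖ < ‖2‖² / 8` is a square:
`y = 1 + z`, `z` the fixed point of the contraction `z ↦ (x - 1 - z²) / 2` on the closed ball of
radius `‖2‖ / 4` (Banach fixed point theorem; no Hensel, no ultrametric inequality).
-/

set_option autoImplicit false

open Metric IsDedekindDomain NumberField

namespace Fermat.Agent.LT.A2.H949


/-- In a complete normed field with `2 ≠ 0`, every `x` with `‖x - 1‖ < ‖2‖² / 8` is a square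
(fixed point of the contraction `z ↦ (x - 1 - z²) / 2` on the ball of radius `‖2‖ / 4`). -/
theorem exists_sq_of_norm_sub_one_lt949 {k : Type*} [NormedField k] [CompleteSpace k]
    (h2 : (2 : k) ≠ 0) (x : k) (hx : ‖x - 1‖ < ‖(2 : k)‖ ^ 2 / 8) : ∃ y : k, y ^ 2 = x := by
  set c : ℝ := ‖(2 : k)‖ with hc
  have hcpos : 0 < c := norm_pos_iff.mpr h2
  set u : k := x - 1 with hu
  set T : k → k := fun z => (u - z ^ 2) / 2 with hT
  set s : Set k := closedBall (0 : k) (c / 4) with hs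
  have hsc : IsComplete s := isClosed_closedBall.isComplete
  have hmem : ∀ z : k, z ∈ s ↔ ‖z‖ ≤ c / 4 := fun z => mem_closedBall_zero_iff
  have hsf : Set.MapsTo T s s := by
    intro z hz
    rw [hmem] at hz ⊢
    have h1 : ‖T z‖ = ‖u - z ^ 2‖ / c := by
      rw [hT]
      simp only
      rw [norm_div]
    have h2' : ‖u - z ^ 2‖ ≤ ‖u‖ + ‖z‖ ^ 2 := by
      have := norm_sub_le u (z ^ 2)
      rwa [norm_pow] at this
    have h3 : ‖z‖ ^ 2 ≤ (c / 4) ^ 2 := pow_le_pow_left₀ (norm_nonneg z) hz 2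
    rw [h1, div_le_iff₀ hcpos]
    nlinarith
  have hlip : ContractingWith (1 / 2 : NNReal) (hsf.restrict T s s) := by
    refine ⟨by norm_num, LipschitzWith.of_dist_le_mul fun a b => ?_⟩
    have ha : ‖(a : k)‖ ≤ c / 4 := (hmem a).mp a.2
    have hb : ‖(b : k)‖ ≤ c / 4 := (hmem b).mp b.2
    rw [Subtype.dist_eq, Subtype.dist_eq, dist_eq_norm, dist_eq_norm]
    have e : T (a : k) - T (b : k) = ((b : k) - a) * ((b : k) + a) / 2 := by
      rw [hT]
      simp only
      ring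
    have e' : (hsf.restrict T s s a : k) - (hsf.restrict T s s b : k) = T (a : k) - T (b : k) :=
      rfl
    rw [e', e, norm_div, norm_mul]
    have h4 : ‖(b : k) + a‖ ≤ c / 2 := by
      have := norm_add_le (b : k) (a : k)
      linarith
    have h5 : ‖(b : k) - a‖ = ‖(a : k) - b‖ := norm_sub_rev _ _
    rw [h5, div_le_iff₀ hcpos]
    have h6 : (0 : ℝ) ≤ ‖(a : k) - b‖ := norm_nonneg _
    have h7 : ((1 / 2 : NNReal) : ℝ) = 1 / 2 := by norm_num
    rw [h7]
    nlinarith
  have h0 : (0 : k) ∈ s := by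
    rw [hmem, norm_zero]
    positivity
  obtain ⟨y, -, hy, -⟩ := hlip.exists_fixedPoint' hsc hsf h0 (edist_ne_top _ _)
  refine ⟨1 + y, ?_⟩
  have hy' : (u - y ^ 2) / 2 = y := hy
  have hy2 : u - y ^ 2 = 2 * y := by
    field_simp at hy'
    linear_combination hy'
  have : x = 1 + u := by rw [hu]; ring
  rw [this]
  linear_combination -hy2


/-- `SqOpenP` for every complete normed field in which `2 ≠ 0`. -/
theorem sqOpenP_of_complete949 (k : Type) [NormedField k] [CompleteSpace k] (h2 : (2 : k) ≠ 0) :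
    Fermat.Agent.LT.A2.LF54.SqOpenP k :=
  ⟨‖(2 : k)‖ ^ 2 / 8, by
    have : 0 < ‖(2 : k)‖ := norm_pos_iff.mpr h2
    positivity, fun x hx => exists_sq_of_norm_sub_one_lt949 h2 x hx⟩

/-- **Leaf A2.03.1.1.06.11 SQ-OPEN** (`LF54.LeafSqOpen`, VERBATIM). -/
theorem leafSqOpen949 : Fermat.Agent.LT.A2.LF54.LeafSqOpen := by
  intro K _ _ v
  have h2 : (2 : v.adicCompletion K) ≠ 0 := by
    have : CharZero (v.adicCompletion K) :=
      charZero_of_injective_algebraMap (algebraMap K (v.adicCompletion K)).injective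
    exact two_ne_zero
  exact sqOpenP_of_complete949 (v.adicCompletion K) h2

end Fermat.Agent.LT.A2.H949

end
-- ===== PACK-END LT/A2/H949/SqOpen.lean

-- ===== PACK-BEGIN LT/A2/H955/CpxRightInv.lean
section


/-!
# Row LT, tower A2, leaf A2.03.1.1.10.07 `CX798.RightInvC` (helper955)

OFF-MAIN.  `rightInvC955 : CX798.RightInvC` VERBATIM against
`LT/A2/H798/CpxSpec.lean` (helper798@5f07fac26, sha256 `8ca2dc507058b836`).

Proof: for `k k* = 1` the hermitian products of the rows of `g k` are those of the rows of `g`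
(`herm_unitary955`), so `rowN (g k) = rowN g`, `rowB (g k) = rowB g`; for `κ = torMat t n a b`
the row `[1, ω]` (`ω` a root of `X² - tX + n`) is a left eigenvector with eigenvalue
`lam ω κ = a + b ω`, so `lam ω (m κ) = lam ω m * lam ω κ` and `‖lam ω κ‖ = 1` when `κ κ* = 1`.
The hypothesis `det k = det κ` is not used.
-/

set_option autoImplicit false

open scoped ComplexConjugate

noncomputable section

namespace Fermat.Agent.LT.A2.CX798.H955

open Fermat.Agent.LT.A2 Fermat.Agent.LT.A2.WX467 Fermat.Agent.LT.A2.CX798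

/-- The four scalar equations of `k k* = 1`. -/
theorem unitary_entries955 {k : Matrix (Fin 2) (Fin 2) ℂ} (hk : k * k.conjTranspose = 1) :
    (k 0 0 * conj (k 0 0) + k 0 1 * conj (k 0 1) = 1) ∧
    (k 0 0 * conj (k 1 0) + k 0 1 * conj (k 1 1) = 0) ∧
    (k 1 0 * conj (k 0 0) + k 1 1 * conj (k 0 1) = 0) ∧
    (k 1 0 * conj (k 1 0) + k 1 1 * conj (k 1 1) = 1) := by
  have h00 := congrFun (congrFun hk 0) 0
  have h01 := congrFun (congrFun hk 0) 1
  have h10 := congrFun (congrFun hk 1) 0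
  have h11 := congrFun (congrFun hk 1) 1
  simp only [Matrix.mul_apply, Fin.sum_univ_two, Matrix.conjTranspose_apply, Complex.star_def,
    Matrix.one_apply_eq] at h00 h11
  simp only [Matrix.mul_apply, Fin.sum_univ_two, Matrix.conjTranspose_apply, Complex.star_def]
    at h01 h10
  rw [Matrix.one_apply_ne (by decide)] at h01 h10
  exact ⟨h00, h01, h10, h11⟩

/-- The hermitian product of two rows is invariant under a unitary matrix. -/
theorem herm_unitary955 {k : Matrix (Fin 2) (Fin 2) ℂ} (hk : k * k.conjTranspose = 1)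
    (x0 x1 y0 y1 : ℂ) :
    (x0 * k 0 0 + x1 * k 1 0) * conj (y0 * k 0 0 + y1 * k 1 0)
        + (x0 * k 0 1 + x1 * k 1 1) * conj (y0 * k 0 1 + y1 * k 1 1)
      = x0 * conj y0 + x1 * conj y1 := by
  obtain ⟨e00, e01, e10, e11⟩ := unitary_entries955 hk
  simp only [map_add, map_mul]
  linear_combination (x0 * conj y0) * e00 + (x0 * conj y1) * e01 + (x1 * conj y0) * e10
    + (x1 * conj y1) * e11

theorem normSq_cast955 (z : ℂ) : ((‖z‖ ^ 2 : ℝ) : ℂ) = z * conj z := by
  rw [Complex.mul_conj, Complex.normSq_eq_norm_sq]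

theorem rowN_cast955 (g : Matrix (Fin 2) (Fin 2) ℂ) :
    ((rowN g : ℝ) : ℂ) = g 1 0 * conj (g 1 0) + g 1 1 * conj (g 1 1) := by
  unfold rowN
  rw [Complex.ofReal_add, normSq_cast955, normSq_cast955]

/-- `rowN (g k) = rowN g` for `k` unitary. -/
theorem rowN_mul_unitary955 {k : Matrix (Fin 2) (Fin 2) ℂ} (hk : k * k.conjTranspose = 1)
    (g : Matrix (Fin 2) (Fin 2) ℂ) : rowN (g * k) = rowN g := by
  apply Complex.ofReal_injective
  rw [rowN_cast955, rowN_cast955]
  simp only [Matrix.mul_apply, Fin.sum_univ_two]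
  exact herm_unitary955 hk (g 1 0) (g 1 1) (g 1 0) (g 1 1)

/-- `rowB (g k) = rowB g` for `k` unitary. -/
theorem rowB_mul_unitary955 {k : Matrix (Fin 2) (Fin 2) ℂ} (hk : k * k.conjTranspose = 1)
    (g : Matrix (Fin 2) (Fin 2) ℂ) : rowB (g * k) = rowB g := by
  unfold rowB
  simp only [Matrix.mul_apply, Fin.sum_univ_two]
  exact herm_unitary955 hk (g 0 0) (g 0 1) (g 1 0) (g 1 1)

/-- `lam ω` is multiplicative on the torus, `ω` a root of `X² - tX + n`. -/
theorem lam_mul955 (ω₁ ω₂ ω : ℂ) (hω : ω = ω₁ ∨ ω = ω₂) {m κ : Matrix (Fin 2) (Fin 2) ℂ}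
    (hm : InTorL (ω₁ + ω₂) (ω₁ * ω₂) m) (hκ : InTorL (ω₁ + ω₂) (ω₁ * ω₂) κ) :
    lam ω (m * κ) = lam ω m * lam ω κ := by
  obtain ⟨a, b, rfl⟩ := hm
  obtain ⟨a', b', rfl⟩ := hκ
  unfold lam torMat
  simp only [Matrix.mul_apply, Fin.sum_univ_two, Matrix.of_apply, Matrix.cons_val', Matrix.cons_val_zero,
    Matrix.cons_val_one, Matrix.empty_val', Matrix.cons_val_fin_one]
  rcases hω with rfl | rfl <;> ring

/-- `‖lam ω κ‖ = 1` for a unitary element of the torus, `ω` a root of `X² - tX + n`. -/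
theorem norm_lam_unitary955 (ω₁ ω₂ ω : ℂ) (hω : ω = ω₁ ∨ ω = ω₂)
    {κ : Matrix (Fin 2) (Fin 2) ℂ} (hκu : κ * κ.conjTranspose = 1)
    (hκ : InTorL (ω₁ + ω₂) (ω₁ * ω₂) κ) : ‖lam ω κ‖ = 1 := by
  have h := herm_unitary955 hκu 1 ω 1 ω
  obtain ⟨a, b, rfl⟩ := hκ
  have e0 : (1 : ℂ) * torMat (ω₁ + ω₂) (ω₁ * ω₂) a b 0 0
      + ω * torMat (ω₁ + ω₂) (ω₁ * ω₂) a b 1 0 = a + b * ω := by
    unfold torMat
    simp only [Matrix.of_apply, Matrix.cons_val', Matrix.cons_val_zero, Matrix.cons_val_one,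
      Matrix.empty_val', Matrix.cons_val_fin_one]
    ring
  have e1 : (1 : ℂ) * torMat (ω₁ + ω₂) (ω₁ * ω₂) a b 0 1
      + ω * torMat (ω₁ + ω₂) (ω₁ * ω₂) a b 1 1 = ω * (a + b * ω) := by
    unfold torMat
    simp only [Matrix.of_apply, Matrix.cons_val', Matrix.cons_val_zero, Matrix.cons_val_one,
      Matrix.empty_val', Matrix.cons_val_fin_one]
    rcases hω with rfl | rfl <;> ring
  rw [e0, e1] at h
  have hl : lam ω (torMat (ω₁ + ω₂) (ω₁ * ω₂) a b) = a + b * ω := by
    unfold lam torMat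
    simp only [Matrix.of_apply, Matrix.cons_val', Matrix.cons_val_zero, Matrix.cons_val_one,
      Matrix.empty_val', Matrix.cons_val_fin_one]
  rw [hl]
  set l : ℂ := a + b * ω with hldef
  -- `(l conj l - 1) (1 + ω conj ω) = 0`
  have h2 : (l * conj l - 1) * (1 + ω * conj ω) = 0 := by
    simp only [map_mul, map_one] at h
    linear_combination h
  have h3 : (1 : ℂ) + ω * conj ω ≠ 0 := by
    rw [Complex.mul_conj]
    have : (0 : ℝ) < 1 + Complex.normSq ω := by
      have := Complex.normSq_nonneg ω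
      linarith
    have h4 : ((1 + Complex.normSq ω : ℝ) : ℂ) ≠ 0 := by exact_mod_cast this.ne'
    simpa using h4
  have h5 : l * conj l = 1 := by
    rcases mul_eq_zero.mp h2 with h6 | h6
    · exact sub_eq_zero.mp h6
    · exact absurd h6 h3
  rw [Complex.mul_conj] at h5
  have h6 : Complex.normSq l = 1 := by exact_mod_cast h5
  rw [Complex.normSq_eq_norm_sq] at h6
  have h7 : (0 : ℝ) ≤ ‖l‖ := norm_nonneg l
  nlinarith [h6, h7]

/-- **CX.07 RIGHT-INV.** -/
theorem rightInvC955 : _root_.Fermat.Agent.LT.A2.CX798.RightInvC := by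
  intro c ω₁ ω₂ k κ hk hκu hκ _ g m ξ hadm
  obtain ⟨hm, -, -⟩ := hadm
  have hN := rowN_mul_unitary955 hk g
  have hB := rowB_mul_unitary955 hk g
  have hl1 := lam_mul955 ω₁ ω₂ ω₁ (Or.inl rfl) hm hκ
  have hl2 := lam_mul955 ω₁ ω₂ ω₂ (Or.inr rfl) hm hκ
  have hn1 := norm_lam_unitary955 ω₁ ω₂ ω₁ (Or.inl rfl) hκu hκ
  have hn2 := norm_lam_unitary955 ω₁ ω₂ ω₂ (Or.inr rfl) hκu hκ
  have a1 : ‖lam ω₁ (m * κ) * lam ω₂ (m * κ)‖ = ‖lam ω₁ m * lam ω₂ m‖ := by
    rw [hl1, hl2, norm_mul, norm_mul, norm_mul, norm_mul, hn1, hn2, mul_one, mul_one]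
  have a2 : ‖lam ω₂ (m * κ) * (ξ.1 + ω₁ * ξ.2)‖ = ‖lam ω₂ m * (ξ.1 + ω₁ * ξ.2)‖ := by
    rw [hl2, norm_mul, norm_mul, norm_mul, hn2, mul_one]
  have a3 : ‖lam ω₁ (m * κ) * (ξ.1 + ω₂ * ξ.2)‖ = ‖lam ω₁ m * (ξ.1 + ω₂ * ξ.2)‖ := by
    rw [hl1, norm_mul, norm_mul, norm_mul, hn1, mul_one]
  unfold FC
  rw [hN, hB, a1, a2, a3]

end Fermat.Agent.LT.A2.CX798.H955

end

end
-- ===== PACK-END LT/A2/H955/CpxRightInv.lean

-- ===== PACK-BEGIN LT/A2/H965/CentLoc.lean
section


/-!
# Row LT, tower A2, leaf A2.03.8.3 `H142.CentC` (helper965), part 4: the split case, locally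
— OFF-MAIN

`M ∈ GL₂(F)` a torus matrix `torMat t n A B` with integral entries and `det M` a uniformiser,
`Z = diag(c, c)` a scalar uniformiser, unit discriminant.  Then `Z M⁻¹` is integral with
determinant a uniformiser, and `M⁻¹ (Z M⁻¹)` is NOT integral.
-/

set_option autoImplicit false

open IsDedekindDomain NumberField AutomorphicForm MeasureTheory
open scoped MatrixGroups

noncomputable section

namespace Fermat.Agent.LT.A2.H965

open Fermat.Agent.LT.H556 Fermat.Agent.LT.H556.A0 Fermat.Agent.LT.H129 Fermat.Agent.LT.A2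

section Loc

variable {F : Type*} [Field F] (v : Valuation F (WithZero (Multiplicative ℤ)))

/-- The entries of a torus matrix with integral parameters are integral. -/
theorem torMat_val_le965 {t n a b : F} (ht : v t ≤ 1) (hn : v n ≤ 1) (ha : v a ≤ 1)
    (hb : v b ≤ 1) (i j : Fin 2) : v (torMat t n a b i j) ≤ 1 := by
  have h1 : v (n * b) ≤ 1 := by rw [map_mul]; exact mul_le_one' hn hb
  have h2 : v (t * b) ≤ 1 := by rw [map_mul]; exact mul_le_one' ht hb
  unfold torMat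
  fin_cases i <;> fin_cases j
  · simpa using ha
  · simpa using h1
  · simpa using hb
  · simpa using (v.map_add_le_max' a (t * b)).trans (max_le ha h2)

/-- The inverse of an element of `GL₂(F)` as a matrix. -/
theorem coe_inv_eq965 (M : GL (Fin 2) F) :
    ((M⁻¹ : GL (Fin 2) F) : Matrix (Fin 2) (Fin 2) F)
      = ((M : Matrix (Fin 2) (Fin 2) F).det)⁻¹
        • Matrix.adjugate (M : Matrix (Fin 2) (Fin 2) F) := by
  rw [Matrix.coe_units_inv, Matrix.inv_def, Ring.inverse_eq_inv']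

theorem det_ne_zero965 (M : GL (Fin 2) F) : (M : Matrix (Fin 2) (Fin 2) F).det ≠ 0 := by
  have h : IsUnit (M : Matrix (Fin 2) (Fin 2) F).det :=
    (Matrix.isUnit_iff_isUnit_det _).1 M.isUnit
  exact h.ne_zero

variable {t n A B c : F} {M Z : GL (Fin 2) F}

/-- `Z M⁻¹` as a matrix. -/
theorem coe_Z_mul_inv965 (hZ : (Z : Matrix (Fin 2) (Fin 2) F) = Matrix.diagonal (fun _ => c)) :
    ((Z * M⁻¹ : GL (Fin 2) F) : Matrix (Fin 2) (Fin 2) F)
      = (c * ((M : Matrix (Fin 2) (Fin 2) F).det)⁻¹)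
        • Matrix.adjugate (M : Matrix (Fin 2) (Fin 2) F) := by
  rw [Matrix.GeneralLinearGroup.coe_mul, coe_inv_eq965, hZ]
  ext i j
  rw [Matrix.diagonal_mul, Matrix.smul_apply, Matrix.smul_apply, smul_eq_mul, smul_eq_mul,
    mul_assoc]

/-- `M⁻¹ (Z M⁻¹)` as a matrix. -/
theorem coe_inv_mul_Z_mul_inv965
    (hZ : (Z : Matrix (Fin 2) (Fin 2) F) = Matrix.diagonal (fun _ => c)) :
    ((M⁻¹ * (Z * M⁻¹) : GL (Fin 2) F) : Matrix (Fin 2) (Fin 2) F)
      = (((M : Matrix (Fin 2) (Fin 2) F).det)⁻¹ * (c * ((M : Matrix (Fin 2) (Fin 2) F).det)⁻¹))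
        • (Matrix.adjugate (M : Matrix (Fin 2) (Fin 2) F)
          * Matrix.adjugate (M : Matrix (Fin 2) (Fin 2) F)) := by
  rw [Matrix.GeneralLinearGroup.coe_mul, coe_Z_mul_inv965 hZ, coe_inv_eq965, Matrix.smul_mul,
    Matrix.mul_smul, smul_smul]

/-- (c) `Z M⁻¹` is integral. -/
theorem split_integral965 (ht : v t ≤ 1) (hn : v n ≤ 1) (hA : v A ≤ 1) (hB : v B ≤ 1)
    (hM : (M : Matrix (Fin 2) (Fin 2) F) = torMat t n A B)
    (hdet : v (M : Matrix (Fin 2) (Fin 2) F).det = WithZero.exp (-1 : ℤ))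
    (hZ : (Z : Matrix (Fin 2) (Fin 2) F) = Matrix.diagonal (fun _ => c))
    (hc : v c = WithZero.exp (-1 : ℤ)) (i j : Fin 2) :
    v (((Z * M⁻¹ : GL (Fin 2) F) : Matrix (Fin 2) (Fin 2) F) i j) ≤ 1 := by
  rw [coe_Z_mul_inv965 hZ, Matrix.smul_apply, smul_eq_mul, map_mul, map_mul, map_inv₀, hdet, hc,
    mul_inv_cancel₀ WithZero.exp_ne_zero, one_mul, hM, torMat_adjugate965]
  have htB : v (t * B) ≤ 1 := by rw [map_mul]; exact mul_le_one' ht hB
  have hnB : v (-B) ≤ 1 := by rw [Valuation.map_neg]; exact hB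
  exact torMat_val_le965 v ht hn ((v.map_add_le_max' A (t * B)).trans (max_le hA htB)) hnB i j

/-- (d) the determinant of `Z M⁻¹` is a uniformiser. -/
theorem split_det965
    (hdet : v (M : Matrix (Fin 2) (Fin 2) F).det = WithZero.exp (-1 : ℤ))
    (hZ : (Z : Matrix (Fin 2) (Fin 2) F) = Matrix.diagonal (fun _ => c))
    (hc : v c = WithZero.exp (-1 : ℤ)) :
    v ((Z * M⁻¹ : GL (Fin 2) F) : Matrix (Fin 2) (Fin 2) F).det = WithZero.exp (-1 : ℤ) := by
  have h1 : ((M⁻¹ : GL (Fin 2) F) : Matrix (Fin 2) (Fin 2) F).det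
      * (M : Matrix (Fin 2) (Fin 2) F).det = 1 := by
    rw [← Matrix.det_mul, ← Matrix.GeneralLinearGroup.coe_mul, inv_mul_cancel,
      Matrix.GeneralLinearGroup.coe_one, Matrix.det_one]
  have h2 : v ((M⁻¹ : GL (Fin 2) F) : Matrix (Fin 2) (Fin 2) F).det
      = (WithZero.exp (-1 : ℤ))⁻¹ := by
    have := congrArg v h1
    rw [map_mul, hdet, map_one] at this
    exact eq_inv_of_mul_eq_one_left this
  rw [Matrix.GeneralLinearGroup.coe_mul, Matrix.det_mul, hZ, Matrix.det_diagonal,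
    Fin.prod_univ_two, map_mul, map_mul, hc, h2, mul_inv_cancel_right₀ WithZero.exp_ne_zero]

/-- (e) `M⁻¹ (Z M⁻¹)` is not integral (unit discriminant). -/
theorem split_not_integral965 (ht : v t ≤ 1) (hn : v n ≤ 1) (hA : v A ≤ 1) (hB : v B ≤ 1)
    (hdisc : v (t ^ 2 - 4 * n) = 1)
    (hM : (M : Matrix (Fin 2) (Fin 2) F) = torMat t n A B)
    (hdet : v (M : Matrix (Fin 2) (Fin 2) F).det = WithZero.exp (-1 : ℤ))
    (hZ : (Z : Matrix (Fin 2) (Fin 2) F) = Matrix.diagonal (fun _ => c))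
    (hc : v c = WithZero.exp (-1 : ℤ)) :
    ¬ ∀ i j : Fin 2, v (((M⁻¹ * (Z * M⁻¹) : GL (Fin 2) F) : Matrix (Fin 2) (Fin 2) F) i j) ≤ 1 := by
  intro hint
  set α : F := A + t * B with hα
  set β : F := -B with hβ
  have htB : v (t * B) ≤ 1 := by rw [map_mul]; exact mul_le_one' ht hB
  have hαv : v α ≤ 1 := (v.map_add_le_max' A (t * B)).trans (max_le hA htB)
  have hβv : v β ≤ 1 := by rw [hβ, Valuation.map_neg]; exact hB
  have hexp : (WithZero.exp (-1 : ℤ) : WithZero (Multiplicative ℤ)) < 1 := by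
    rw [← WithZero.exp_zero, WithZero.exp_lt_exp]; norm_num
  have hk : v (((M : Matrix (Fin 2) (Fin 2) F).det)⁻¹
      * (c * ((M : Matrix (Fin 2) (Fin 2) F).det)⁻¹)) = (WithZero.exp (-1 : ℤ))⁻¹ := by
    rw [map_mul, map_mul, map_inv₀, hdet, hc, mul_inv_cancel₀ WithZero.exp_ne_zero, mul_one]
  have hsq : Matrix.adjugate (M : Matrix (Fin 2) (Fin 2) F)
      * Matrix.adjugate (M : Matrix (Fin 2) (Fin 2) F)
      = torMat t n (α * α - n * β * β) (α * β + α * β + t * β * β) := by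
    rw [hM, torMat_adjugate965, torMat_mul965]
  have hentry : ∀ i j : Fin 2,
      v (torMat t n (α * α - n * β * β) (α * β + α * β + t * β * β) i j) < 1 := by
    intro i j
    have h := hint i j
    rw [coe_inv_mul_Z_mul_inv965 hZ, Matrix.smul_apply, smul_eq_mul, map_mul, hk, hsq] at h
    have h' : v (torMat t n (α * α - n * β * β) (α * β + α * β + t * β * β) i j)
        ≤ WithZero.exp (-1 : ℤ) := by
      have := mul_le_mul_right h (WithZero.exp (-1 : ℤ))
      rwa [← mul_assoc, mul_inv_cancel₀ WithZero.exp_ne_zero, one_mul, mul_one] at this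
    exact lt_of_le_of_lt h' hexp
  have h00 : v (α * α - n * β * β) < 1 := by
    have := hentry 0 0
    simpa [torMat] using this
  have h10 : v (α * β + α * β + t * β * β) < 1 := by
    have := hentry 1 0
    simpa [torMat] using this
  obtain ⟨hα1, hβ1⟩ := val_lemma965 v ht hn hαv hβv hdisc h00 h10
  have hB1 : v B ≤ WithZero.exp (-1 : ℤ) := by
    apply withZero_le_exp_neg_one129
    rwa [hβ, Valuation.map_neg] at hβ1
  have hA1 : v A ≤ WithZero.exp (-1 : ℤ) := by
    apply withZero_le_exp_neg_one129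
    have e : A = α + t * β := by rw [hα, hβ]; ring
    rw [e]
    exact lt_of_le_of_lt (v.map_add_le_max' _ _)
      (max_lt hα1 (val_mul_lt_one_right965 v ht hβ1))
  have hdet' : (M : Matrix (Fin 2) (Fin 2) F).det = A * A + t * A * B + n * B * B := by
    rw [hM, torMat_det965]; ring
  have hT1 : v (A * A) ≤ WithZero.exp (-1 : ℤ) * WithZero.exp (-1 : ℤ) := by
    rw [map_mul]; exact mul_le_mul' hA1 hA1
  have hT2 : v (t * A * B) ≤ WithZero.exp (-1 : ℤ) * WithZero.exp (-1 : ℤ) := by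
    rw [map_mul, map_mul]
    calc v t * v A * v B ≤ 1 * WithZero.exp (-1 : ℤ) * WithZero.exp (-1 : ℤ) :=
          mul_le_mul' (mul_le_mul' ht hA1) hB1
      _ = WithZero.exp (-1 : ℤ) * WithZero.exp (-1 : ℤ) := by rw [one_mul]
  have hT3 : v (n * B * B) ≤ WithZero.exp (-1 : ℤ) * WithZero.exp (-1 : ℤ) := by
    rw [map_mul, map_mul]
    calc v n * v B * v B ≤ 1 * WithZero.exp (-1 : ℤ) * WithZero.exp (-1 : ℤ) :=
          mul_le_mul' (mul_le_mul' hn hB1) hB1
      _ = WithZero.exp (-1 : ℤ) * WithZero.exp (-1 : ℤ) := by rw [one_mul]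
  have hT12 : v (A * A + t * A * B) ≤ WithZero.exp (-1 : ℤ) * WithZero.exp (-1 : ℤ) :=
    (v.map_add_le_max' _ _).trans (max_le hT1 hT2)
  have hle : v (M : Matrix (Fin 2) (Fin 2) F).det
      ≤ WithZero.exp (-1 : ℤ) * WithZero.exp (-1 : ℤ) := by
    rw [hdet']
    exact (v.map_add_le_max' _ _).trans (max_le hT12 hT3)
  rw [hdet, ← WithZero.exp_add, WithZero.exp_le_exp] at hle
  norm_num at hle

end Loc

end Fermat.Agent.LT.A2.H965

end

end
-- ===== PACK-END LT/A2/H965/CentLoc.lean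

-- ===== PACK-BEGIN LT/T5/H873/HS0Top.lean
section





/-!
# Row LT, tower T5: T5.02 `LeafHS0` and T5.04 `LeafRange` FROM TOWER T2 (helper873)

OFF-MAIN.  The spectral side of T5 hangs on ONE estimate of tower T2, `T2.GPSKillT`
(`T2/SpecTau.lean`, helper130, sha256 4d2b0fc2; leaves T2.22 `LeafT03` + T2.23 `LeafT13`):

* `leafHS0_of_gpsKillT873 : T1.T1Out K → T2.GPSKillT K 𝔫 τ → T5.LeafHS0 𝔫 τ`;
* `leafRange_of_gpsKillT873 : T1.T1Out K → T2.GPSKillT K 𝔫 τ → H74.KerCuspC74 𝔫 τ →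
    T5.LeafRange 𝔫 τ` (on the delivery `H74.leafRange_of74` of helper74).
-/

set_option autoImplicit false

open IsDedekindDomain NumberField MeasureTheory
open scoped MatrixGroups ComplexConjugate ContDiff Topology

noncomputable section

namespace Fermat.Agent.LT.T5.H873

open Fermat.Agent.LT.H556.A0 Fermat.Agent.LT.T5

attribute [local instance] Fermat.Agent.LT.T5.instMeasurableSpaceG

variable {K : Type} [Field K] [NumberField K]

/-- The sup bound of T5 from tower T2 and the output of tower T1. -/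
theorem supBoundC_of_T2_873 (h1 : T1.T1Out K) (𝔫 : Ideal (𝓞 K)) (τ : G K → ℂ)
    (h : T2.GPSKillT K 𝔫 τ) : SupBoundC 𝔫 τ :=
  supBoundC_of_gpsKillT873 h1.locComp h1.adeleLattice h1.addFundDom 𝔫 τ h

/-- **T5.02 `LeafHS0` from `T2.GPSKillT`** and the output of tower T1. -/
theorem leafHS0_of_gpsKillT873 (h1 : T1.T1Out K) (𝔫 : Ideal (𝓞 K)) (τ : G K → ℂ)
    (h : T2.GPSKillT K 𝔫 τ) : LeafHS0 𝔫 τ :=
  leafHS0_of_T1Out873 h1 𝔫 τ (supBoundC_of_T2_873 h1 𝔫 τ h)

/-- **T5.04 `LeafRange` from `T2.GPSKillT`**, the cuspidality of the kernel and the output of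
tower T1. -/
theorem leafRange_of_gpsKillT873 (h1 : T1.T1Out K) (𝔫 : Ideal (𝓞 K)) (τ : G K → ℂ)
    (h : T2.GPSKillT K 𝔫 τ) (hcusp : H74.KerCuspC74 𝔫 τ) : LeafRange 𝔫 τ :=
  leafRange_of_supBound873 h1.locComp h1.discrete h1.adNorm h1.locComp h1.adeleLattice
    h1.addFundDom 𝔫 τ (supBoundC_of_T2_873 h1 𝔫 τ h) hcusp

end Fermat.Agent.LT.T5.H873

end

end
-- ===== PACK-END LT/T5/H873/HS0Top.lean

-- ===== PACK-BEGIN LT/T7/H57/FoldSpec3.lean
section



/-!
# Row LT, tower T7, LEAF `FoldWhitC` -- CUT of the node `CoreC57`, level 3 (helper57)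

OFF-MAIN.  Definitions, frozen Props.

```
CoreC57 K  ⇐  CorePosC57 K  +  CoreOfPosC57 K (= CorePosC57 K → CoreC57 K)
```

* `CorePosC57`  (NODE): the unfolding identity for NON-NEGATIVE measurable `Φ : G → ℝ≥0∞` with the
  extended counting function `encard (cntSet 𝔪 Y g)`; no integrability question.
* `CoreOfPosC57` (LEAF, measure-theoretic glue): `Φ ≡ 1` and the finiteness of the volume of the
  box give `encard < ∞` a.e. on `F`, hence `cnt = encard` a.e.; a bounded continuous complex `Φ` is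
  the combination of the four non-negative functions `(Re Φ)^±`, `(Im Φ)^±`.
-/

set_option autoImplicit false

open AutomorphicForm IsDedekindDomain NumberField Filter Topology MeasureTheory
open scoped ComplexConjugate ENNReal

noncomputable section

namespace Fermat.Agent.LT.T7.H57

open Fermat.Agent.LT.H556 Fermat.Agent.LT.H556.A0 Fermat.Agent.LT.T7 Fermat.Agent.LT.T7.Rigid

attribute [local instance] Fermat.Agent.LT.T5.instMeasurableSpaceG

variable (K : Type) [Field K] [NumberField K]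

/-- Left invariance under `GL₂(K)`, for functions with values in `ℝ≥0∞`. -/
def IsLeftInvE57 (Φ : G K → ℝ≥0∞) : Prop :=
  ∀ (γ : GL (Fin 2) K) (g : G K),
    Φ (Matrix.GeneralLinearGroup.map (algebraMap K (Adl K)) γ * g) = Φ g

/-- Right invariance under `U(𝔪)` and the maximal compact subgroups at the infinite places, for
functions with values in `ℝ≥0∞`. -/
def IsRightCE57 (𝔪 : Ideal (𝓞 K)) (Φ : G K → ℝ≥0∞) : Prop :=
  (∀ u : G K, InLevelGroup 𝔪 u → ∀ g : G K, Φ (g * u) = Φ g) ∧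
    ∀ (w : InfinitePlace K) (k : G K), IsArchCompact w k → ∀ g : G K, Φ (g * k) = Φ g

/-- **NODE CORE-POS.**  The unfolding identity for non-negative functions. -/
def CorePosC57 : Prop :=
  letI : MeasurableSpace (Adl K) := borel (Adl K)
  letI : MeasurableSpace (Adl K)ˣ := borel (Adl K)ˣ
  TotCplx K →
  ∀ (μ : Measure (G K)) (F : Set (G K)), Fermat.Agent.LT.T5.IsFrame μ F →
  ∀ (ν : Measure (Adl K)) (D : Set (Adl K)), ν.IsAddHaarMeasure → MeasurableSet D →
    IsAddFundamentalDomain ((algebraMap K (Adl K)).toAddMonoidHom.range) D ν → ν D < ⊤ →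
  ∀ τ : Measure (Adl K)ˣ, τ.IsHaarMeasure →
  ∀ (S : Finset (HeightOneSpectrum (𝓞 K))) (𝔪 : Ideal (𝓞 K)), IsSupp S 𝔪 →
  ∀ FX : Set (Adl K)ˣ, MeasurableSet FX → IsFundamentalDomain (ratU57 K).range FX τ →
    ∃ c₀ : ℝ, 0 < c₀ ∧
      ∀ Φ : G K → ℝ≥0∞, Measurable Φ → IsLeftInvE57 K Φ → IsRightCE57 K 𝔪 Φ →
        ∀ Y : ℝ, 0 < Y →
          ∫⁻ g in F, Φ g * (((cntSet 𝔪 Y g).encard : ℕ∞) : ℝ≥0∞) ∂μ
            = ENNReal.ofReal c₀ * ∫⁻ p in box57 K D FX Y,
                Φ (iota57 K p) * ENNReal.ofReal ((nrm57 K p.2.1)⁻¹) ∂(ν.prod (τ.prod τ))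

/-- **LEAF CORE-OF-POS** (glue): from non-negative functions and `encard` to bounded continuous
complex functions and `cnt = Nat.card`. -/
def CoreOfPosC57 : Prop := CorePosC57 K → CoreC57 K

variable {K}

/-- **TOP of the cut of level 3.** -/
theorem coreC_of57 (hP : CorePosC57 K) (hG : CoreOfPosC57 K) : CoreC57 K := hG hP

end Fermat.Agent.LT.T7.H57

end

end
-- ===== PACK-END LT/T7/H57/FoldSpec3.lean

-- ===== PACK-BEGIN LT/T7/H627/HaarPos.lean
section



/-!
# Row LT, tower T7, leaf T7.14.6c.4e `HaarPosC568` (Mathlib only), helper627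

OFF-MAIN.  `haarPosC627 : H568.HaarPosC568` VERBATIM against the byte-identical copy of
`LT/T7/H568/IdeleCoordSpec.lean` (helper568@fef45a303, sha256 `e8caee7a`).

Route: `ρ' = Log_* ρ` is a translation invariant measure on `ι → ℝ` which is finite on compact
sets, hence `c · volume` (`Measure.isAddLeftInvariant_eq_smul`); `ρ = Exp_* ρ'` and the change of
variables `r = Exp x` (`lintegral_image_eq_lintegral_abs_det_fderiv_mul`).
-/

set_option autoImplicit false
set_option linter.unusedSectionVars false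

open MeasureTheory Set
open scoped ENNReal NNReal

noncomputable section

namespace Fermat.Agent.LT.T7.H627

variable {ι : Type} [Fintype ι]

/-- Coordinatewise exponential. -/
def expV627 (x : ι → ℝ) : ι → ℝ := fun i => Real.exp (x i)

/-- Coordinatewise logarithm. -/
def logV627 (r : ι → ℝ) : ι → ℝ := fun i => Real.log (r i)

theorem measurable_expV627 : Measurable (expV627 (ι := ι)) :=
  measurable_pi_lambda _ fun i => Real.measurable_exp.comp (measurable_pi_apply i)

theorem measurable_logV627 : Measurable (logV627 (ι := ι)) :=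
  measurable_pi_lambda _ fun i => Real.measurable_log.comp (measurable_pi_apply i)

theorem logV_expV627 (x : ι → ℝ) : logV627 (expV627 x) = x :=
  funext fun i => Real.log_exp (x i)

theorem expV_logV627 {r : ι → ℝ} (hr : ∀ i, 0 < r i) : expV627 (logV627 r) = r :=
  funext fun i => Real.exp_log (hr i)

theorem expV_injective627 : Function.Injective (expV627 (ι := ι)) := fun x y h => by
  rw [← logV_expV627 x, ← logV_expV627 y, h]

theorem range_expV627 : range (expV627 (ι := ι)) = {r | ∀ i, 0 < r i} := by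
  ext r
  constructor
  · rintro ⟨x, rfl⟩ i
    exact Real.exp_pos _
  · intro hr
    exact ⟨logV627 r, expV_logV627 hr⟩

/-- The derivative of the coordinatewise exponential. -/
def dExpV627 (x : ι → ℝ) : (ι → ℝ) →L[ℝ] (ι → ℝ) :=
  ContinuousLinearMap.pi fun i => Real.exp (x i) • ContinuousLinearMap.proj i

theorem hasFDerivAt_expV627 (x : ι → ℝ) : HasFDerivAt (expV627 (ι := ι)) (dExpV627 x) x := by
  unfold expV627 dExpV627
  rw [hasFDerivAt_pi]
  intro i
  have h1 : HasFDerivAt (fun f : ι → ℝ => f i)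
      (ContinuousLinearMap.proj (R := ℝ) (φ := fun _ : ι => ℝ) i) x :=
    hasFDerivAt_apply (𝕜 := ℝ) i x
  exact (Real.hasDerivAt_exp (x i)).comp_hasFDerivAt x h1

theorem det_dExpV627 (x : ι → ℝ) : (dExpV627 x).det = ∏ i, Real.exp (x i) := by
  classical
  have h : ((dExpV627 x : (ι → ℝ) →L[ℝ] (ι → ℝ)) : (ι → ℝ) →ₗ[ℝ] (ι → ℝ))
      = Matrix.toLin' (Matrix.diagonal fun i => Real.exp (x i)) := by
    refine LinearMap.ext fun v => funext fun i => ?_
    rw [Matrix.toLin'_apply, Matrix.mulVec_diagonal]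
    rfl
  rw [ContinuousLinearMap.det, h, LinearMap.det_toLin', Matrix.det_diagonal]

/-- The change of variables `r = Exp x`. -/
theorem lintegral_expV627 (h : (ι → ℝ) → ℝ≥0∞) :
    ∫⁻ x, h (expV627 x)
      = ∫⁻ r in {r : ι → ℝ | ∀ i, 0 < r i}, h r * ENNReal.ofReal (∏ i, r i)⁻¹ := by
  have key := lintegral_image_eq_lintegral_abs_det_fderiv_mul (volume : Measure (ι → ℝ))
    (s := univ) (f := expV627) (f' := dExpV627) MeasurableSet.univ
    (fun x _ => (hasFDerivAt_expV627 x).hasFDerivWithinAt)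
    (expV_injective627.injOn) (fun r => h r * ENNReal.ofReal (∏ i, r i)⁻¹)
  rw [image_univ, range_expV627] at key
  rw [key, Measure.restrict_univ]
  refine lintegral_congr fun x => ?_
  have hpos : 0 < ∏ i, Real.exp (x i) := Finset.prod_pos fun i _ => Real.exp_pos _
  rw [det_dExpV627, abs_of_pos hpos]
  have e : ∏ i, expV627 x i = ∏ i, Real.exp (x i) := rfl
  rw [e, mul_comm, mul_assoc, ← ENNReal.ofReal_mul (inv_nonneg.mpr hpos.le),
    inv_mul_cancel₀ hpos.ne', ENNReal.ofReal_one, mul_one]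

theorem measurable_scale627 (t : ι → ℝ) : Measurable fun (r : ι → ℝ) (i : ι) => t i * r i :=
  measurable_pi_lambda _ fun i =>
    Measurable.const_mul (f := fun r : ι → ℝ => r i) (measurable_pi_apply i) (t i)

/-- **T7.14.6c.4e `HaarPosC568`**, VERBATIM. -/
theorem haarPosC627 : Fermat.Agent.LT.T7.H568.HaarPosC568 := by
  intro ι _ ρ hsupp hinv hfin hne
  have hae : ∀ᵐ r ∂ρ, ∀ i, 0 < r i := by
    rw [ae_iff]
    exact hsupp
  -- the measure in logarithmic coordinates
  have hinv' : (ρ.map logV627).IsAddLeftInvariant := by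
    refine ⟨fun a => ?_⟩
    have ht : ∀ i, 0 < expV627 a i := fun i => Real.exp_pos _
    have h1 := hinv (expV627 a) ht
    have h2 : (fun x : ι → ℝ => a + x) ∘ logV627
        =ᵐ[ρ] logV627 ∘ fun (r : ι → ℝ) (i : ι) => expV627 a i * r i := by
      filter_upwards [hae] with r hr
      funext i
      show a i + Real.log (r i) = Real.log (Real.exp (a i) * r i)
      rw [Real.log_mul (Real.exp_pos _).ne' (hr i).ne', Real.log_exp]
    calc Measure.map (fun x => a + x) (ρ.map logV627)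
        = ρ.map ((fun x : ι → ℝ => a + x) ∘ logV627) :=
          Measure.map_map (measurable_const_add a) measurable_logV627
      _ = ρ.map (logV627 ∘ fun (r : ι → ℝ) (i : ι) => expV627 a i * r i) :=
          Measure.map_congr h2
      _ = (ρ.map fun (r : ι → ℝ) (i : ι) => expV627 a i * r i).map logV627 :=
          (Measure.map_map measurable_logV627 (measurable_scale627 _)).symm
      _ = ρ.map logV627 := by rw [h1]
  have hfc : IsFiniteMeasureOnCompacts (ρ.map logV627) := by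
    refine ⟨fun C hC => ?_⟩
    obtain ⟨n, hn0, hn⟩ := hC.isBounded.subset_closedBall_lt 0 (0 : ι → ℝ)
    have hsub : logV627 ⁻¹' Metric.closedBall (0 : ι → ℝ) n
        ⊆ {r : ι → ℝ | ∀ i, Real.exp (-n) ≤ r i ∧ r i ≤ Real.exp n}
          ∪ {r | ¬ ∀ i, 0 < r i} := by
      intro r hr
      by_cases hpos : ∀ i, 0 < r i
      · left
        intro i
        have h1 : ‖logV627 r‖ ≤ n := by
          have := hr
          rwa [mem_preimage, mem_closedBall_zero_iff] at this
        have h2 : ‖logV627 r i‖ ≤ n := (norm_le_pi_norm (logV627 r) i).trans h1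
        rw [Real.norm_eq_abs, abs_le] at h2
        constructor
        · rw [← Real.le_log_iff_exp_le (hpos i)]
          exact h2.1
        · rw [← Real.log_le_iff_le_exp (hpos i)]
          exact h2.2
      · right
        exact hpos
    calc (ρ.map logV627) C ≤ (ρ.map logV627) (Metric.closedBall 0 n) := measure_mono hn
      _ = ρ (logV627 ⁻¹' Metric.closedBall 0 n) :=
          Measure.map_apply measurable_logV627 Metric.isClosed_closedBall.measurableSet
      _ ≤ ρ ({r : ι → ℝ | ∀ i, Real.exp (-n) ≤ r i ∧ r i ≤ Real.exp n}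
            ∪ {r | ¬ ∀ i, 0 < r i}) := measure_mono hsub
      _ ≤ ρ {r : ι → ℝ | ∀ i, Real.exp (-n) ≤ r i ∧ r i ≤ Real.exp n}
            + ρ {r | ¬ ∀ i, 0 < r i} := measure_union_le _ _
      _ < ⊤ := by
          rw [hsupp, add_zero]
          exact hfin _ _ (Real.exp_pos _) (Real.exp_le_exp.mpr (by linarith))
  have hsmul : ρ.map logV627
      = Measure.addHaarScalarFactor (ρ.map logV627) (volume : Measure (ι → ℝ)) •
          (volume : Measure (ι → ℝ)) :=
    Measure.isAddLeftInvariant_eq_smul _ _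
  set c : ℝ≥0 := Measure.addHaarScalarFactor (ρ.map logV627) (volume : Measure (ι → ℝ))
    with hc
  have hback : ρ = (ρ.map logV627).map expV627 := by
    rw [Measure.map_map measurable_expV627 measurable_logV627]
    have h3 : expV627 ∘ logV627 =ᵐ[ρ] (id : (ι → ℝ) → (ι → ℝ)) := by
      filter_upwards [hae] with r hr
      exact expV_logV627 hr
    rw [Measure.map_congr h3, Measure.map_id]
  have hc0 : c ≠ 0 := by
    intro h0
    apply hne
    rw [hback, hsmul, h0, zero_smul, Measure.map_zero]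
  refine ⟨(c : ℝ), by
    have : (0 : ℝ≥0) < c := pos_iff_ne_zero.mpr hc0
    exact_mod_cast this, fun h hh => ?_⟩
  have e1 : ∫⁻ r, h r ∂ρ = ∫⁻ x, h (expV627 x) ∂(ρ.map logV627) := by
    conv_lhs => rw [hback]
    exact lintegral_map hh measurable_expV627
  rw [e1, hsmul, lintegral_smul_measure, lintegral_expV627, ENNReal.ofReal_coe_nnreal,
    ENNReal.smul_def, smul_eq_mul]

end Fermat.Agent.LT.T7.H627

end

end
-- ===== PACK-END LT/T7/H627/HaarPos.lean

-- ===== PACK-BEGIN LT/T7/H57/FoldTop2.lean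
section



/-!
# Row LT, tower T7, LEAF `FoldWhitC` -- the PROVED top of the cut of level 2 (helper57)

`foldC_of57 : FundXC57 K → CoreC57 K → BoxIntC57 K → ZInvC57 K → FoldC57 K`.
-/

set_option autoImplicit false
set_option linter.style.haveILetI false

open AutomorphicForm IsDedekindDomain NumberField Filter Topology MeasureTheory
open scoped ComplexConjugate ENNReal

noncomputable section

namespace Fermat.Agent.LT.T7.H57

open Fermat.Agent.LT.H556 Fermat.Agent.LT.H556.A0 Fermat.Agent.LT.T7 Fermat.Agent.LT.T7.Rigid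

attribute [local instance] Fermat.Agent.LT.T5.instMeasurableSpaceG

variable {K : Type} [Field K] [NumberField K]

/-- **TOP of the cut of level 2.** -/
theorem foldC_of57 (hX : FundXC57 K) (hC : CoreC57 K) (hB : BoxIntC57 K) (hZ : ZInvC57 K) :
    FoldC57 K := by
  letI : MeasurableSpace (Adl K) := borel (Adl K)
  letI : MeasurableSpace (Adl K)ˣ := borel (Adl K)ˣ
  intro hcplx μ F hfr ν D hν hDm hD hDfin τ hτ S 𝔪 hS
  obtain ⟨FX, hFXm, hFX⟩ := hX τ hτ
  obtain ⟨V, hV, hvol, hbox, hint⟩ := hB ν D hν hDm hD hDfin τ hτ FX hFXm hFX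
  obtain ⟨c₀, hc₀, hcore⟩ := hC hcplx μ F hfr ν D hν hDm hD hDfin τ hτ S 𝔪 hS FX hFXm hFX hbox
  refine ⟨c₀ * V, FX, mul_pos hc₀ hV, hFXm, hFX, hvol, ?_⟩
  intro π π' φ₁ φ₁' h1 h1' hl hl' Y hY
  set Φ : G K → ℂ := fun g => φ₁ g * conj (φ₁' g) with hΦ
  have hΦc : Continuous Φ := h1.cont.mul (Complex.continuous_conj.comp h1'.cont)
  have hΦb : ∃ C : ℝ, ∀ g : G K, ‖Φ g‖ ≤ C := by
    obtain ⟨C1, hC1⟩ := h1.bdd
    obtain ⟨C2, hC2⟩ := h1'.bdd
    refine ⟨C1 * C2, fun g => ?_⟩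
    rw [hΦ]
    simp only [norm_mul, RCLike.norm_conj]
    exact mul_le_mul (hC1 g) (hC2 g) (norm_nonneg _) ((norm_nonneg _).trans (hC1 g))
  have hΦl : IsLeftInv57 K Φ := fun γ g => by
    simp only [hΦ]
    rw [h1.left_inv γ g, h1'.left_inv γ g]
  have hΦr : IsRightC57 K 𝔪 Φ := by
    refine ⟨fun u hu g => ?_, fun w k hk g => ?_⟩
    · simp only [hΦ]
      rw [hl u hu g, hl' u hu g]
    · simp only [hΦ]
      rw [h1.arch_compact w k hk g, h1'.arch_compact w k hk g]
  have hΦz : IsZInv57 K Φ := fun z g => by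
    simp only [hΦ]
    rw [hZ hcplx S 𝔪 hS π φ₁ h1 hl z g, hZ hcplx S 𝔪 hS π' φ₁' h1' hl' z g]
  have e1 := hcore Φ hΦc hΦb hΦl hΦr Y hY
  have e2 := hint Φ hΦc hΦb hΦz Y hY
  calc ∫ g in F, φ₁ g * conj (φ₁' g) * (((cnt 𝔪 Y g : ℕ) : ℝ) : ℂ) ∂μ
      = (c₀ : ℂ) * ∫ p in box57 K D FX Y,
          Φ (iota57 K p) * (((nrm57 K p.2.1)⁻¹ : ℝ) : ℂ) ∂(ν.prod (τ.prod τ)) := e1
    _ = (c₀ : ℂ) * ((V : ℂ) * ∫ y in FX ∩ halfX57 K Y,
          (∫ x in D, Φ (Fermat.Agent.LT.T3.unip K x * dgA y) ∂ν)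
            * (((nrm57 K y)⁻¹ : ℝ) : ℂ) ∂τ) := by rw [e2]
    _ = ((c₀ * V : ℝ) : ℂ) * ∫ y in FX ∩ halfX57 K Y,
          per57 K ν D φ₁ φ₁' (dgA y) * (((nrm57 K y)⁻¹ : ℝ) : ℂ) ∂τ := by
        push_cast
        rw [mul_assoc]
        rfl

end Fermat.Agent.LT.T7.H57

end

end
-- ===== PACK-END LT/T7/H57/FoldTop2.lean

-- ===== PACK-BEGIN LT/T7/H816/ZInv.lean
section





/-!
# Row LT, tower T7, node T7.14, LEAF `ZInvC57` (registry 2059) -- helper816, OFF-MAIN

`zInvC816 : ZInvC57 K` (UNCONDITIONAL; the hypothesis `TotCplx K` is not used).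

An `S`-form `φ` of level `𝔪` (`𝔪` supported in `S`) is invariant under the centre `𝔸ˣ`.

Proof.  `M = stab816 φ` is the subgroup of the `u` with `φ(g u) = φ(g)` for all `g`.
* `M` contains the level group `U(𝔪)`, the positive scalars and the compact subgroups at the
  infinite places and the scalar uniformisers at the places `v ∉ S` (Hecke eigenvalue `1`).
* `scalar_mem816`: a subgroup with these properties contains the scalar matrix of every idele
  `c` with `c_v ∈ 1 + 𝔪 𝒪_v`, `c_v⁻¹ ∈ 1 + 𝔪 𝒪_v` at the places dividing `𝔪` (finite induction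
  over the places: helper439 `mem_of_finset439`, `infMk_mem439`).
* `exists_rat_approx816`: weak approximation (helper131 `weakApprox_h131`): for every idele `z`
  there is `ξ ∈ Kˣ` with `ξ⁻¹ z` of this form.
* The scalar matrix of `ξ` is central and rational: left invariance.

Assets (byte-identical copies): helper57 `LT/T7/H57/FoldSpec2.lean` (sha256 9d46bc8cd952) and its
closure; helper439 `LT/T2/H439/Gen.lean` (2bf31190820c) and its closure; helper131
`LT/T2/H131/WeakApprox.lean` (ef5b2b3b0d87).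
-/

set_option autoImplicit false
set_option linter.style.haveILetI false
set_option linter.unusedSectionVars false

open IsDedekindDomain NumberField AutomorphicForm
open Fermat.Agent.LT.H556.A0
open Fermat.Agent.LT.H129
open Fermat.Agent.LT.T1.H793
open Fermat.Agent.LT.T1.H919
open Fermat.Agent.LT.T2.H429
open Fermat.Agent.LT.T2.H439
open Fermat.Agent.LT.T2.H131

noncomputable section

namespace Fermat.Agent.LT.T7.H816

variable {K : Type} [Field K] [NumberField K]

/-! ## The stabiliser -/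

/-- The subgroup of the `u` with `φ(g u) = φ(g)` for all `g`. -/
def stab816 (φ : G K → ℂ) : Subgroup (G K) where
  carrier := {u | ∀ g : G K, φ (g * u) = φ g}
  one_mem' := fun g => by rw [mul_one]
  mul_mem' := by
    intro u u' hu hu' g
    rw [← mul_assoc, hu' (g * u), hu g]
  inv_mem' := by
    intro u hu g
    have h := hu (g * u⁻¹)
    rw [inv_mul_cancel_right] at h
    exact h.symm

theorem mem_stab816 {φ : G K → ℂ} {u : G K} :
    u ∈ stab816 φ ↔ ∀ g : G K, φ (g * u) = φ g := Iff.rfl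

/-! ## Local scalars -/

/-- Scalar uniformisers exist. -/
theorem exists_scalarUnif816 (v : HeightOneSpectrum (𝓞 K)) :
    ∃ z : G K, IsScalarUniformizerAt v z := by
  obtain ⟨c, hc0, hc⟩ := exists_valued_eq_exp_h131 (K := K) v (-1)
  refine ⟨locFin129 v (scalarG919 (Units.mk0 c hc0)), isLocalAtFin_locFin129 v _, c, hc, ?_⟩
  rw [finComp_locFin129, scalarG919_val]
  rfl

/-- Local scalars at a finite place prime to the level. -/
theorem locFin_scalar_mem816 (M : Subgroup (G K)) (𝔪 : Ideal (𝓞 K))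
    (hlev : ∀ u : G K, InLevelGroup 𝔪 u → u ∈ M)
    {v : HeightOneSpectrum (𝓞 K)} (hv : ¬ v.asIdeal ∣ 𝔪)
    (hunif : ∀ z : G K, IsScalarUniformizerAt v z → z ∈ M) (c : (v.adicCompletion K)ˣ) :
    locFin129 v (scalarG919 c) ∈ M := by
  obtain ⟨z, hzu⟩ := exists_scalarUnif816 (K := K) v
  have hzM : z ∈ M := hunif z hzu
  obtain ⟨hloc, ϖ, hϖ, hzϖ⟩ := hzu
  have hϖ0 : ϖ ≠ 0 := unif_ne_zero129 v hϖ
  set p : (v.adicCompletion K)ˣ := Units.mk0 ϖ hϖ0 with hp
  have hz_eq : z = locFin129 v (scalarG919 p) := by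
    rw [eq_locFin129_of_isLocalAtFin hloc]
    congr 1
    apply Units.ext
    rw [coe_finCompHom129, hzϖ, scalarG919_val]
    rfl
  have hc0 : Valued.v (c : v.adicCompletion K) ≠ 0 :=
    (Valuation.ne_zero_iff _).2 c.ne_zero
  set n : ℤ := WithZero.log (Valued.v (c : v.adicCompletion K)) with hn
  have hcn : Valued.v (c : v.adicCompletion K) = WithZero.exp n := (WithZero.exp_log hc0).symm
  have hd : Valued.v (((c * p ^ n : (v.adicCompletion K)ˣ)) : v.adicCompletion K) = 1 := by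
    rw [Units.val_mul, Units.val_zpow_eq_zpow_val, map_mul, map_zpow₀, hcn]
    show WithZero.exp n * Valued.v ϖ ^ n = 1
    rw [hϖ, ← WithZero.exp_zsmul, ← WithZero.exp_add]
    simp
  have hlev' := locFin_scalar_unit_level439 hv (c * p ^ n) hd
  have e : locFin129 v (scalarG919 c)
      = locFin129 v (scalarG919 (c * p ^ n)) * (z ^ n)⁻¹ := by
    rw [hz_eq, ← map_zpow, ← scalarG919_zpow439, ← map_inv, scalarG919_inv439, ← map_mul,
      ← scalarG919_mul439, mul_inv_cancel_right]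
  rw [e]
  exact M.mul_mem (hlev _ hlev') (M.inv_mem (M.zpow_mem hzM n))

/-- Local scalars congruent to `1` modulo the level lie in the level group. -/
theorem locFin_scalar_level816 (𝔪 : Ideal (𝓞 K)) (v : HeightOneSpectrum (𝓞 K))
    (d : (v.adicCompletion K)ˣ)
    (h1 : (d : v.adicCompletion K) - 1 ∈ idealClosure 𝔪 v)
    (h2 : ((d⁻¹ : (v.adicCompletion K)ˣ) : v.adicCompletion K) - 1 ∈ idealClosure 𝔪 v) :
    InLevelGroup 𝔪 (locFin129 v (scalarG919 d)) := by
  have hloc := isLocalAtFin_locFin129 v (scalarG919 d)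
  have hloc' := isLocalAtFin_inv129 hloc
  have key : ∀ e : (v.adicCompletion K)ˣ, (e : v.adicCompletion K) - 1 ∈ idealClosure 𝔪 v →
      ∀ i j : Fin 2, (finComp v (locFin129 v (scalarG919 e)) - 1) i j ∈ idealClosure 𝔪 v := by
    intro e he i j
    rw [finComp_locFin129, scalarG919_val, Matrix.sub_apply]
    by_cases hij : i = j
    · subst hij
      rw [Matrix.diagonal_apply_eq, Matrix.one_apply_eq]
      exact he
    · rw [Matrix.diagonal_apply_ne _ hij, Matrix.one_apply_ne hij, sub_zero]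
      exact zero_mem_idealClosure129 𝔪 v
  refine ⟨hloc.1, fun v' i j => ?_⟩
  by_cases h : v' = v
  · subst h
    refine ⟨key d h1 i j, ?_⟩
    rw [← map_inv, scalarG919_inv439]
    exact key d⁻¹ h2 i j
  · have e1 : finComp v' (locFin129 v (scalarG919 d)) = 1 := hloc.2 v' h
    have e2 : finComp v' (locFin129 v (scalarG919 d))⁻¹ = 1 := hloc'.2 v' h
    rw [e1, e2, sub_self]
    exact ⟨zero_mem_idealClosure129 𝔪 v', zero_mem_idealClosure129 𝔪 v'⟩

/-- Local scalars at an infinite place: the product of a positive real scalar and of a scalar of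
absolute value `1`. -/
theorem locInf_scalar_mem816 (M : Subgroup (G K))
    (hpos : ∀ (w : InfinitePlace K) (z : G K), IsArchPosScalar w z → z ∈ M)
    (hcpt : ∀ (w : InfinitePlace K) (k : G K), IsArchCompact w k → k ∈ M)
    (w : InfinitePlace K) (c : (w.Completion)ˣ) :
    locInf429 w (scalarG919 c) ∈ M := by
  set r : ℝ := ‖(c : w.Completion)‖ with hr
  have hr0 : 0 < r := norm_pos_iff.2 c.ne_zero
  have hρ0 : realTo919 w r ≠ 0 := by
    intro h
    have h1 := norm_realTo919 w r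
    rw [h, norm_zero] at h1
    exact hr0.ne' (abs_eq_zero.1 h1.symm)
  set ρ : (w.Completion)ˣ := Units.mk0 (realTo919 w r) hρ0 with hρ
  have hρv : (ρ : w.Completion) = realTo919 w r := rfl
  have hP : IsArchPosScalar w (locInf429 w (scalarG919 ρ)) := by
    refine ⟨isLocalAtInf_locInf429 w _, r, hr0, ?_⟩
    rw [infComp_locInf429, scalarG919_val, map_diagonal439, hρv, extensionEmbedding_realTo919]
  set ζ : ℂ := InfinitePlace.Completion.extensionEmbedding w
    (((c * ρ⁻¹ : (w.Completion)ˣ)) : w.Completion) with hζ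
  have hζ1 : ‖ζ‖ = 1 := by
    rw [hζ, norm_extensionEmbedding793, Units.val_mul, norm_mul, Units.val_inv_eq_inv_val,
      norm_inv, hρv, norm_realTo919, abs_of_pos hr0]
    exact mul_inv_cancel₀ hr0.ne'
  have hζ2 : ζ * (starRingEnd ℂ) ζ = 1 := by
    rw [Complex.mul_conj, Complex.normSq_eq_norm_sq, hζ1]
    simp
  have hQ : IsArchCompact w (locInf429 w (scalarG919 (c * ρ⁻¹))) := by
    refine ⟨isLocalAtInf_locInf429 w _, ?_, ?_⟩
    · rw [infComp_locInf429, scalarG919_val, map_diagonal439, Matrix.diagonal_conjTranspose,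
        Matrix.diagonal_mul_diagonal]
      have : (fun i : Fin 2 => ζ * star (fun _ : Fin 2 => ζ) i) = fun _ => (1 : ℂ) := by
        funext i
        exact hζ2
      rw [← hζ, this, Matrix.diagonal_one]
    · intro hw
      rw [infComp_locInf429, scalarG919_val, map_diagonal439, Matrix.det_diagonal,
        Fin.prod_univ_two, ← hζ]
      have hreal : ζ = ((InfinitePlace.Completion.extensionEmbeddingOfIsReal hw
          (((c * ρ⁻¹ : (w.Completion)ˣ)) : w.Completion) : ℝ) : ℂ) := by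
        rw [hζ, InfinitePlace.Completion.extensionEmbeddingOfIsReal_apply]
      have hconj : (starRingEnd ℂ) ζ = ζ := by
        rw [hreal, Complex.conj_ofReal]
      rw [hconj] at hζ2
      exact hζ2
  have e : locInf429 w (scalarG919 c)
      = locInf429 w (scalarG919 ρ) * locInf429 w (scalarG919 (c * ρ⁻¹)) := by
    rw [← map_mul, ← scalarG919_mul439, mul_comm c, mul_inv_cancel_left]
  rw [e]
  exact M.mul_mem (hpos w _ hP) (hcpt w _ hQ)

/-! ## Central elements -/

/-- **Central elements.**  A subgroup of `GL₂(𝔸_K)` which contains the level group `U(𝔪)`, the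
positive scalars and the compact subgroups at the infinite places and the scalar uniformisers at
the places prime to `𝔪` contains the scalar matrix of every idele which is congruent to `1`
modulo `𝔪` at the places dividing `𝔪`. -/
theorem scalar_mem816 (M : Subgroup (G K)) (𝔪 : Ideal (𝓞 K))
    (S : Finset (HeightOneSpectrum (𝓞 K)))
    (hS : ∀ v : HeightOneSpectrum (𝓞 K), v.asIdeal ∣ 𝔪 → v ∈ S)
    (hlev : ∀ u : G K, InLevelGroup 𝔪 u → u ∈ M)
    (hpos : ∀ (w : InfinitePlace K) (z : G K), IsArchPosScalar w z → z ∈ M)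
    (hcpt : ∀ (w : InfinitePlace K) (k : G K), IsArchCompact w k → k ∈ M)
    (hunif : ∀ v : HeightOneSpectrum (𝓞 K), ¬ v.asIdeal ∣ 𝔪 →
      ∀ z : G K, IsScalarUniformizerAt v z → z ∈ M)
    (c : (Adl K)ˣ)
    (hc : ∀ v : HeightOneSpectrum (𝓞 K), v.asIdeal ∣ 𝔪 →
      (c : Adl K).2 v - 1 ∈ idealClosure 𝔪 v ∧
        ((c⁻¹ : (Adl K)ˣ) : Adl K).2 v - 1 ∈ idealClosure 𝔪 v) :
    scalarG919 c ∈ M := by
  classical
  set zI : G K := infMk429 K (fun w => scalarG919 (unitI439 w c)) with hzI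
  have hzIM : zI ∈ M :=
    infMk_mem439 _ _ (fun w => locInf_scalar_mem816 M hpos hcpt w _)
  set zF : G K := scalarG919 c * zI⁻¹ with hzF
  have hFI : ∀ w : InfinitePlace K, infCompHom129 w zF = 1 := by
    intro w
    rw [hzF, map_mul, map_inv, infCompHom_scalar439, hzI, infCompHom_infMk429, mul_inv_cancel]
  have hFF : ∀ v : HeightOneSpectrum (𝓞 K), finCompHom129 v zF = scalarG919 (unitF439 v c) := by
    intro v
    rw [hzF, map_mul, map_inv, finCompHom_scalar439, hzI, finCompHom_infMk429, inv_one, mul_one]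
  have transfer : ∀ v : HeightOneSpectrum (𝓞 K),
      InLevelGroup 𝔪 (locFin129 v (scalarG919 (unitF439 v c))) → ∀ i j : Fin 2,
        (finComp v zF - 1) i j ∈ idealClosure 𝔪 v ∧
          (finComp v zF⁻¹ - 1) i j ∈ idealClosure 𝔪 v := by
    intro v hlev' i j
    have h := hlev'.2 v i j
    have e1 : finComp v (locFin129 v (scalarG919 (unitF439 v c))) = finComp v zF := by
      rw [← coe_finCompHom129, ← coe_finCompHom129, finCompHom129_locFin129, hFF]
    have e2 : finComp v (locFin129 v (scalarG919 (unitF439 v c)))⁻¹ = finComp v zF⁻¹ := by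
      rw [← coe_finCompHom129, ← coe_finCompHom129, map_inv, map_inv,
        finCompHom129_locFin129, hFF]
    rw [e1, e2] at h
    exact h
  have hcong : ∀ v : HeightOneSpectrum (𝓞 K), v.asIdeal ∣ 𝔪 →
      InLevelGroup 𝔪 (locFin129 v (scalarG919 (unitF439 v c))) := by
    intro v hdiv
    refine locFin_scalar_level816 𝔪 v (unitF439 v c) ?_ ?_
    · rw [unitF439_val]
      exact (hc v hdiv).1
    · rw [← map_inv, unitF439_val]
      exact (hc v hdiv).2
  have hzFM : zF ∈ M := by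
    refine mem_of_finset439 M 𝔪 hlev ((finite_bad439 c).toFinset ∪ S) zF hFI ?_ ?_
    · intro v hv i j
      rw [Finset.mem_union, not_or, Set.Finite.mem_toFinset, Set.mem_ofPred_eq, not_not] at hv
      have hdiv : ¬ v.asIdeal ∣ 𝔪 := fun h => hv.2 (hS v h)
      exact transfer v (locFin_scalar_unit_level439 hdiv (unitF439 v c)
        (by rw [unitF439_val]; exact hv.1)) i j
    · intro v _
      rw [hFF]
      by_cases hdiv : v.asIdeal ∣ 𝔪
      · exact hlev _ (hcong v hdiv)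
      · exact locFin_scalar_mem816 M 𝔪 hlev hdiv (hunif v hdiv) _
  have : scalarG919 c = zF * zI := by
    rw [hzF, inv_mul_cancel_right]
  rw [this]
  exact M.mul_mem hzFM hzIM

/-! ## Weak approximation -/

/-- The idele of a nonzero element of `K`. -/
def ratI816 (K : Type) [Field K] [NumberField K] : Kˣ →* (Adl K)ˣ :=
  Units.map (algebraMap K (Adl K)).toMonoidHom

theorem ratI816_fin (ξ : Kˣ) (v : HeightOneSpectrum (𝓞 K)) :
    ((ratI816 K ξ : (Adl K)ˣ) : Adl K).2 v = algebraMap K (v.adicCompletion K) (ξ : K) := rfl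

/-- The scalar matrix of a rational idele is rational. -/
theorem scalar_ratI816 (ξ : Kˣ) :
    scalarG919 (ratI816 K ξ)
      = Matrix.GeneralLinearGroup.map (algebraMap K (Adl K)) (scalarG919 ξ) :=
  (map_scalarG919_439 (algebraMap K (Adl K)) ξ).symm

/-- A small multiple of `exp k`. -/
theorem exp_bound816 (N : ℕ) (k : ℤ) :
    WithZero.exp (-(((N : ℤ) - k + 1).toNat : ℤ)) < WithZero.exp k ∧
      WithZero.exp (-(((N : ℤ) - k + 1).toNat : ℤ)) * (WithZero.exp k)⁻¹
        ≤ WithZero.exp (-(N : ℤ)) := by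
  have h := Int.self_le_toNat ((N : ℤ) - k + 1)
  constructor
  · rw [WithZero.exp_lt_exp]
    omega
  · rw [← WithZero.exp_neg, ← WithZero.exp_add, WithZero.exp_le_exp]
    omega

/-- **Weak approximation for the ideles.**  For every idele `z` there is `ξ ∈ Kˣ` such that
`ξ⁻¹ z` is congruent to `1` modulo `𝔪` at the places of `S`. -/
theorem exists_rat_approx816 (S : Finset (HeightOneSpectrum (𝓞 K))) (𝔪 : Ideal (𝓞 K))
    (h𝔪 : 𝔪 ≠ ⊥) (z : (Adl K)ˣ) :
    ∃ ξ : Kˣ, ∀ v ∈ S,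
      (((ratI816 K ξ)⁻¹ * z : (Adl K)ˣ) : Adl K).2 v - 1 ∈ idealClosure 𝔪 v ∧
        ((((ratI816 K ξ)⁻¹ * z)⁻¹ : (Adl K)ˣ) : Adl K).2 v - 1 ∈ idealClosure 𝔪 v := by
  classical
  choose N hN using fun v : HeightOneSpectrum (𝓞 K) =>
    exists_ball_subset_idealClosure_h131 𝔪 h𝔪 v
  -- the local components of `z`
  have hz0 : ∀ v : HeightOneSpectrum (𝓞 K), (z : Adl K).2 v ≠ 0 := fun v => by
    rw [← unitF439_val]
    exact (unitF439 v z).ne_zero
  have hzv0 : ∀ v : HeightOneSpectrum (𝓞 K), Valued.v ((z : Adl K).2 v) ≠ 0 := fun v =>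
    (Valuation.ne_zero_iff _).2 (hz0 v)
  set k : HeightOneSpectrum (𝓞 K) → ℤ := fun v => WithZero.log (Valued.v ((z : Adl K).2 v))
    with hk
  have hzk : ∀ v : HeightOneSpectrum (𝓞 K),
      Valued.v ((z : Adl K).2 v) = WithZero.exp (k v) := fun v =>
    (WithZero.exp_log (hzv0 v)).symm
  set e : HeightOneSpectrum (𝓞 K) → ℕ := fun v => ((N v : ℤ) - k v + 1).toNat with he
  obtain ⟨ξ₀, hξ₀⟩ := weakApprox_h131 S (fun v => (z : Adl K).2 v) e
  -- the estimates
  have main : ∀ ξ : Kˣ, (∀ v ∈ S,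
      Valued.v (algebraMap K (v.adicCompletion K) (ξ : K) - (z : Adl K).2 v)
        ≤ WithZero.exp (-(e v : ℤ))) → ∀ v ∈ S,
      (((ratI816 K ξ)⁻¹ * z : (Adl K)ˣ) : Adl K).2 v - 1 ∈ idealClosure 𝔪 v ∧
        ((((ratI816 K ξ)⁻¹ * z)⁻¹ : (Adl K)ˣ) : Adl K).2 v - 1 ∈ idealClosure 𝔪 v := by
    intro ξ hξ v hv
    set a : v.adicCompletion K := algebraMap K (v.adicCompletion K) (ξ : K) with ha
    set b : v.adicCompletion K := (z : Adl K).2 v with hb
    have hb0 : b ≠ 0 := hz0 v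
    have hvb : Valued.v b = WithZero.exp (k v) := hzk v
    have hab : Valued.v (a - b) ≤ WithZero.exp (-(e v : ℤ)) := hξ v hv
    obtain ⟨hlt, hle⟩ := exp_bound816 (N v) (k v)
    have hablt : Valued.v (a - b) < Valued.v b := by
      rw [hvb]
      exact lt_of_le_of_lt hab hlt
    have hva : Valued.v a = Valued.v b := Valuation.map_eq_of_sub_lt _ hablt
    have ha0 : a ≠ 0 := by
      intro h
      rw [h, map_zero] at hva
      exact hzv0 v hva.symm
    have hsmall : Valued.v (a - b) * (Valued.v b)⁻¹ ≤ WithZero.exp (-(N v : ℤ)) := by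
      rw [hvb]
      exact le_trans (mul_le_mul_left hab _) hle
    have c1 : (((ratI816 K ξ)⁻¹ * z : (Adl K)ˣ) : Adl K).2 v = a⁻¹ * b := by
      rw [← unitF439_val, map_mul, map_inv, Units.val_mul, Units.val_inv_eq_inv_val,
        unitF439_val, unitF439_val, ratI816_fin]
    have c2 : ((((ratI816 K ξ)⁻¹ * z)⁻¹ : (Adl K)ˣ) : Adl K).2 v = b⁻¹ * a := by
      rw [← unitF439_val, map_inv, map_mul, map_inv, mul_inv, inv_inv, Units.val_mul,
        Units.val_inv_eq_inv_val, unitF439_val, unitF439_val, ratI816_fin, mul_comm]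
    rw [c1, c2]
    constructor
    · apply hN v
      have : a⁻¹ * b - 1 = -((a - b) * a⁻¹) := by
        field_simp
        ring
      rw [this, Valuation.map_neg, map_mul, map_inv₀, hva]
      exact hsmall
    · apply hN v
      have : b⁻¹ * a - 1 = (a - b) * b⁻¹ := by
        field_simp
      rw [this, map_mul, map_inv₀]
      exact hsmall
  by_cases h0 : ξ₀ = 0
  · -- then `S` is empty
    refine ⟨1, fun v hv => ?_⟩
    exfalso
    have h := hξ₀ v hv
    rw [h0, map_zero, zero_sub, Valuation.map_neg, hzk v] at h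
    have hlt := (exp_bound816 (N v) (k v)).1
    exact absurd (lt_of_le_of_lt h hlt) (lt_irrefl _)
  · exact ⟨Units.mk0 ξ₀ h0, main (Units.mk0 ξ₀ h0) hξ₀⟩

/-! ## The leaf -/

/-- The scalar matrix of helper57 is the scalar matrix of helper919. -/
theorem zA57_eq816 (z : (Adl K)ˣ) : Fermat.Agent.LT.T7.H57.zA57 K z = scalarG919 z := by
  apply Units.ext
  rw [scalarG919_val]
  show !![(z : Adl K), 0; 0, (z : Adl K)] = Matrix.diagonal (fun _ => (z : Adl K))
  ext i j
  fin_cases i <;> fin_cases j <;> simp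

/-- **LEAF Z-INV** (registry 2059), unconditional: an `S`-form of level `𝔪` (`𝔪` supported in
`S`) is invariant under the centre. -/
theorem zInvC816 (K : Type) [Field K] [NumberField K] : Fermat.Agent.LT.T7.H57.ZInvC57 K := by
  intro _ S 𝔪 hS π φ hφ hlev z g
  obtain ⟨ξ, hξ⟩ := exists_rat_approx816 S 𝔪 hS.1 z
  have hM : scalarG919 ((ratI816 K ξ)⁻¹ * z) ∈ stab816 φ := by
    refine scalar_mem816 (stab816 φ) 𝔪 S (fun v hv => (hS.2 v).1 hv)
      (fun u hu => hlev u hu) (fun w z' hz' => hφ.arch_scalar w z' hz')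
      (fun w k hk => hφ.arch_compact w k hk) ?_ _ (fun v hv => hξ v ((hS.2 v).1 hv))
    intro v hv z' hz' g'
    have h := (hφ.hecke v (fun hvS => hv ((hS.2 v).2 hvS))).2 z' hz' g'
    rw [one_mul] at h
    exact h
  have hz : z = ratI816 K ξ * ((ratI816 K ξ)⁻¹ * z) := by
    rw [mul_inv_cancel_left]
  rw [zA57_eq816]
  conv_lhs => rw [hz]
  rw [scalarG919_mul439, ← mul_assoc, hM (g * scalarG919 (ratI816 K ξ)), ← scalarG919_comm,
    scalar_ratI816, hφ.left_inv]

end Fermat.Agent.LT.T7.H816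

end

end
-- ===== PACK-END LT/T7/H816/ZInv.lean

-- ===== PACK-BEGIN LT/T7/H941/LocCut.lean
section





/-!
# Row LT, tower T7, node T7.14.6b.1 `LocC` (helper941, spare) -- part 2: the chain of cut-offs

OFF-MAIN.

* `cutProp941`: the Kirillov cut-off of helper557 (`cutoffC557`, T2.10.10) with the EXPLICIT level
  `𝔪' = 𝔪 a^k` (same proof; the statement `CutoffC` hides the level).
* `chain941`: the chain of helper23 (`step23`) over a finite set `L` with the explicit cell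
  `{Y : Y ∈ y₀ (1 + 𝔪₀ 𝒪_v), v ∈ L}`: as the level changes at the place of the cut only, the
  closure of the level at the places still to be cut is the closure of `𝔪₀`.
-/

set_option autoImplicit false
set_option linter.unusedSectionVars false
set_option linter.unusedVariables false
set_option linter.style.haveILetI false

open IsDedekindDomain NumberField IsDedekindDomain.HeightOneSpectrum MeasureTheory
open Fermat.Agent.LT.H556 Fermat.Agent.LT.H556.A0

noncomputable section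

namespace Fermat.Agent.LT.T7.H941

open Fermat.Agent.LT Fermat.Agent.LT.T2.H941 Fermat.Agent.LT.T2.H23 Fermat.Agent.LT.T2
open Fermat.Agent.LT.T2.H333 Fermat.Agent.LT.T3.H237 Fermat.Agent.LT.T2.H557
open Fermat.Agent.LT.T7

variable {K : Type} [Field K] [NumberField K]

/-! ## 1. The cut-off with its level -/

/-- **The Kirillov cut-off at a finite place with the explicit level `𝔪 a^k`** (helper557). -/
theorem cutProp941 :
    letI : MeasurableSpace (Adl K) := borel (Adl K)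
    ∀ (ψ : AddChar (Adl K) Circle) (ν : Measure (Adl K)) (D : Set (Adl K)), IsWhitData ψ ν D →
    ∀ (v : HeightOneSpectrum (𝓞 K)) (𝔪 : Ideal (𝓞 K)), 𝔪 ≠ ⊥ →
      ∀ s : (v.adicCompletion K)ˣ, ∃ (n : ℕ) (c : Fin n → ℂ) (p : Fin n → G K) (k : ℕ),
        CutProp23 (wh ψ ν D) v 𝔪 (iF23 v s) n c p (𝔪 * v.asIdeal ^ k) := by
  letI : MeasurableSpace (Adl K) := borel (Adl K)
  haveI : BorelSpace (Adl K) := ⟨rfl⟩
  intro ψ ν D hdata v 𝔪 h𝔪 s
  obtain ⟨d, hcond⟩ := T2.H729.condExistsC729 (K := K) ψ hdata.1 hdata.2.1 v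
  obtain ⟨y₀, hy₀d⟩ : ∃ y₀ : (Adl K)ˣ, y₀ = iF23 v s := ⟨_, rfl⟩
  have hy₀ : IsIdeleAtFin v y₀ := by rw [hy₀d]; exact isIdeleAtFin_iF23 v s
  rw [← hy₀d]
  obtain ⟨e, hC, he0, -, hCL⟩ := idealClosure_ball557 𝔪 h𝔪 v
  obtain ⟨hχ1, hχ2⟩ := locChar557_cond hcond
  have hz0 : evF333 v (y₀ : Adl K) ≠ 0 := evF333_unit_ne_zero557 v y₀
  have hψc : Continuous ψ := hdata.1.cont
  have hDfin : ν D < ⊤ := hdata.2.2.2.2.2.2
  by_cases hR : Valued.v (evF333 v (y₀ : Adl K)) ≤ WithZero.exp (d + e)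
  · -- the main case
    obtain ⟨n, c, u, hu, hsum⟩ :=
      cutoff_local557 v (locChar557 ψ v) d hχ1 hχ2 e (evF333 v (y₀ : Adl K)) hz0 hR
    have huL : ∀ i, Valued.v (u i) ≤ WithZero.exp
        (((d + max (e : ℤ) 1 - WithZero.log (Valued.v (evF333 v (y₀ : Adl K)))).toNat : ℕ) : ℤ) :=
      fun i => le_trans (hu i) (WithZero.exp_le_exp.mpr (Int.self_le_toNat _))
    refine ⟨n, c, fun i => T3.unip K (loc557 v (u i)),
      2 * (d + max (e : ℤ) 1
        - WithZero.log (Valued.v (evF333 v (y₀ : Adl K)))).toNat, ?_, Ideal.mul_le_left, ?_, ?_, ?_⟩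
    · rw [← Ideal.zero_eq_bot]
      exact mul_ne_zero h𝔪 (pow_ne_zero _ v.ne_bot)
    · intro v' hv' hdvd
      rcases v'.prime.dvd_or_dvd hdvd with h | h
      · exact h
      · exfalso
        have h1 : v'.asIdeal ∣ v.asIdeal := v'.prime.dvd_of_dvd_pow h
        have hle : v.asIdeal ≤ v'.asIdeal := Ideal.le_of_dvd h1
        have heq : v.asIdeal = v'.asIdeal := v.isMaximal.eq_of_le v'.isPrime.ne_top hle
        exact hv' (HeightOneSpectrum.ext heq.symm)
    · intro i
      exact (isUnipAt_unip_loc557 v (u i)).1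
    · intro Φ hG
      obtain ⟨hΦc, hΦb, hleft, hlev⟩ := hG
      refine ⟨isLevel_lin557 c _
        (fun i k hk => inLevelGroup_conj557 hC _ (hCL _) (huL i) hk) hlev, ?_⟩
      intro y hy g hg
      have ht0 : evF333 v (y : Adl K) ≠ 0 := evF333_unit_ne_zero557 v y
      have hW : wh ψ ν D (lin c (fun i => T3.unip K (loc557 v (u i))) Φ) (tor y * g)
          = (∑ i, c i * ((locChar557 ψ v (evF333 v (y : Adl K) * u i) : Circle) : ℂ))
            * wh ψ ν D Φ (tor y * g) := by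
        rw [wh_lin557 hψc hDfin hΦc hΦb, Finset.sum_mul]
        refine Finset.sum_congr rfl fun i _ => ?_
        rw [wh_rt_unip557 hdata hleft y hg (u i), mul_loc557, locChar557_apply, mul_assoc]
      have horb : InOrbit 𝔪 v y y₀ ↔
          (Valued.v (evF333 v (y : Adl K) * (evF333 v (y₀ : Adl K))⁻¹ - 1)
              ≤ WithZero.exp (-(e : ℤ)) ∧
            Valued.v (evF333 v (y₀ : Adl K) * (evF333 v (y : Adl K))⁻¹ - 1)
              ≤ WithZero.exp (-(e : ℤ))) := by
        have e1 : ((y * y₀⁻¹ : (Adl K)ˣ) : Adl K).2 v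
            = evF333 v (y : Adl K) * (evF333 v (y₀ : Adl K))⁻¹ := by
          show evF333 v ((y * y₀⁻¹ : (Adl K)ˣ) : Adl K) = _
          rw [Units.val_mul, map_mul, evF333_inv557]
        have e2 : ((y₀ * y⁻¹ : (Adl K)ˣ) : Adl K).2 v
            = evF333 v (y₀ : Adl K) * (evF333 v (y : Adl K))⁻¹ := by
          show evF333 v ((y₀ * y⁻¹ : (Adl K)ˣ) : Adl K) = _
          rw [Units.val_mul, map_mul, evF333_inv557]
        unfold InOrbit
        rw [hC, hC, e1, e2]
      by_cases htR : Valued.v (evF333 v (y : Adl K)) ≤ WithZero.exp (d + e)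
      · obtain ⟨hs1, hs0⟩ := hsum _ ht0 htR
        constructor
        · intro ho
          rw [hW, hs1 (horb.1 ho), one_mul]
          exact wh_orbit557 hlev hy hy₀ ho hg
        · intro ho
          rw [hW, hs0 (fun h => ho (horb.2 h)), zero_mul]
      · have hW0 : wh ψ ν D Φ (tor y * g) = 0 :=
          wh_zero_of_large557 hdata hleft hlev hC hχ2 y hg htR
        constructor
        · intro ho
          rw [hW, hW0, mul_zero, ← wh_orbit557 hlev hy hy₀ ho hg, hW0]
        · intro _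
          rw [hW, hW0, mul_zero]
  · -- `y₀` outside the ball: the empty combination
    have e0 : 𝔪 * v.asIdeal ^ 0 = 𝔪 := by
      rw [pow_zero, Ideal.one_eq_top, Ideal.mul_top]
    refine ⟨0, fun i => i.elim0, fun i => i.elim0, 0, ?_⟩
    rw [e0]
    refine ⟨h𝔪, le_rfl, fun _ _ h => h, fun i => i.elim0, ?_⟩
    intro Φ hG
    obtain ⟨hΦc, hΦb, hleft, hlev⟩ := hG
    have hzero : lin (fun i : Fin 0 => i.elim0) (fun i : Fin 0 => i.elim0) Φ
        = fun _ : G K => (0 : ℂ) := by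
      funext x
      simp [lin]
    rw [hzero]
    refine ⟨fun k _ g => rfl, fun y hy g hg => ?_⟩
    have hlin0 : wh ψ ν D (fun _ : G K => (0 : ℂ)) (tor y * g) = 0 := by
      simp [wh]
    have hW0 : wh ψ ν D Φ (tor y₀ * g) = 0 :=
      wh_zero_of_large557 hdata hleft hlev hC hχ2 y₀ hg hR
    exact ⟨fun _ => by rw [hlin0, hW0], fun _ => hlin0⟩

/-! ## 2. The chain with the explicit cell -/

/-- The predicate of a chain may be replaced by an equivalent one. -/
theorem chainProp_congr941 {W : (G K → ℂ) → G K → ℂ} {L : Finset (HeightOneSpectrum (𝓞 K))}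
    {𝔪₀ : Ideal (𝓞 K)} {y₀ : (Adl K)ˣ} {n : ℕ} {c : Fin n → ℂ} {g : Fin n → G K}
    {𝔪 : Ideal (𝓞 K)} {P Q : (Adl K)ˣ → Prop} (hPQ : ∀ Y : (Adl K)ˣ, P Y ↔ Q Y)
    (h : ChainProp23 W L 𝔪₀ y₀ n c g 𝔪 P) : ChainProp23 W L 𝔪₀ y₀ n c g 𝔪 Q := by
  obtain ⟨h1, h2, h3, h4, h5, h6⟩ := h
  refine ⟨h1, h2, h3, h4, (hPQ y₀).1 h5, fun f hf => ⟨(h6 f hf).1, fun Y hY h hh => ?_⟩⟩
  obtain ⟨a1, a2⟩ := (h6 f hf).2 Y hY h hh
  exact ⟨fun hq => a1 ((hPQ Y).2 hq), fun hq => a2 (fun hp => hq ((hPQ Y).1 hp))⟩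

/-- **The chain with the explicit cell**: the cut-off at all places of a finite set `L`, for the
level `𝔪₀` and the point `y₀`; the final level differs from `𝔪₀` at the places of `L` only. -/
theorem chain941 (W : (G K → ℂ) → G K → ℂ)
    (hcut : ∀ (a : HeightOneSpectrum (𝓞 K)) (𝔪 : Ideal (𝓞 K)), 𝔪 ≠ ⊥ →
      ∀ s : (a.adicCompletion K)ˣ, ∃ (n : ℕ) (c : Fin n → ℂ) (p : Fin n → G K) (k : ℕ),
        CutProp23 W a 𝔪 (iF23 a s) n c p (𝔪 * a.asIdeal ^ k))
    (L : Finset (HeightOneSpectrum (𝓞 K))) :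
    ∀ 𝔪₀ : Ideal (𝓞 K), 𝔪₀ ≠ ⊥ → ∀ y₀ : (Adl K)ˣ, SuppIn23 L y₀ →
      ∃ (n : ℕ) (c : Fin n → ℂ) (g : Fin n → G K) (𝔪 : Ideal (𝓞 K)),
        ChainProp23 W L 𝔪₀ y₀ n c g 𝔪 (fun Y => ∀ v ∈ L, InOrbit 𝔪₀ v Y y₀) ∧
        ∀ v : HeightOneSpectrum (𝓞 K), v ∉ L → idealClosure 𝔪 v = idealClosure 𝔪₀ v := by
  classical
  induction L using Finset.induction_on with
  | empty =>
    intro 𝔪₀ h𝔪₀ y₀ hy₀
    refine ⟨1, fun _ => 1, fun _ => 1, 𝔪₀, ⟨h𝔪₀, le_refl _, fun v _ h => h,
      fun _ => ⟨fun w => trivAtInf_one23 w, fun v _ => trivAtFin_one23 v⟩,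
      fun v hv => absurd hv (Finset.notMem_empty v), ?_⟩, fun _ _ => rfl⟩
    intro f hf
    have e : lin (fun _ : Fin 1 => (1 : ℂ)) (fun _ : Fin 1 => (1 : G K)) f = f := by
      funext x
      simp [lin]
    rw [e]
    refine ⟨hf.2.2.2, fun Y hY h _ => ⟨fun _ => ?_, fun hn => absurd
      (fun v hv => absurd hv (Finset.notMem_empty v)) hn⟩⟩
    rw [eq_one_of_suppIn_empty23 hY, eq_one_of_suppIn_empty23 hy₀]
  | insert a L' ha ih =>
    intro 𝔪₀ h𝔪₀ y₀ hy₀
    have hy₀' : SuppIn23 L' (y₀ * (iF23 a (cF23 a y₀))⁻¹) := suppIn_split23 hy₀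
    obtain ⟨n', c', g', 𝔪', hIH, hclos'⟩ := ih 𝔪₀ h𝔪₀ _ hy₀'
    obtain ⟨n, c, p, k, hc⟩ := hcut a 𝔪' hIH.1 (cF23 a y₀)
    have hstep := step23 W ha hy₀' (cF23 a y₀) hIH hc
    rw [mul_comm _ (y₀ * _), inv_mul_cancel_right] at hstep
    refine ⟨_, _, _, _, chainProp_congr941 (fun Y => ?_) hstep, fun v hv => ?_⟩
    · -- the cell
      have hA : InOrbit 𝔪' a (iF23 a (cF23 a Y)) (iF23 a (cF23 a y₀)) ↔ InOrbit 𝔪₀ a Y y₀ :=
        inOrbit_congr941 (cF23_iF23_same23 a _) (cF23_iF23_same23 a _) (hclos' a ha)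
      have hB : ∀ v ∈ L', (InOrbit 𝔪₀ v (Y * (iF23 a (cF23 a Y))⁻¹)
          (y₀ * (iF23 a (cF23 a y₀))⁻¹) ↔ InOrbit 𝔪₀ v Y y₀) := by
        intro v hv
        have hva : v ≠ a := fun e => ha (e ▸ hv)
        refine inOrbit_congr941 ?_ ?_ rfl
        · rw [map_mul, map_inv, cF23_iF23_ne23 a _ hva, inv_one, mul_one]
        · rw [map_mul, map_inv, cF23_iF23_ne23 a _ hva, inv_one, mul_one]
      constructor
      · rintro ⟨o1, o2⟩ v hv
        rcases Finset.mem_insert.1 hv with rfl | hv'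
        · exact hA.1 o1
        · exact (hB v hv').1 (o2 v hv')
      · intro h
        exact ⟨hA.2 (h a (Finset.mem_insert_self a L')),
          fun v hv => (hB v hv).2 (h v (Finset.mem_insert_of_mem hv))⟩
    · -- the closure of the level outside `insert a L'`
      have hva : v ≠ a := fun e => hv (e ▸ Finset.mem_insert_self a L')
      have hvL : v ∉ L' := fun h => hv (Finset.mem_insert_of_mem h)
      rw [idealClosure_mul_pow941 𝔪' hva k]
      exact hclos' v hvL

end Fermat.Agent.LT.T7.H941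

end

end
-- ===== PACK-END LT/T7/H941/LocCut.lean

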