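import Mathlib
import Fermat.Agent.Pack.LT2.E18L3
import Fermat.Agent.Pack.LT2.E2L1
import Fermat.Agent.Pack.LT2.E18L0
import Fermat.Agent.Pack.LT2.E7L3
import Fermat.Agent.Pack.LT2.E3L0
import Fermat.Agent.Pack.LT2.E1L3
import Fermat.Agent.Pack.LT2.E18L2
import Fermat.Agent.Pack.LT2.E17L0
import Fermat.Agent.Pack.LT2.E15L1
import Fermat.Agent.Pack.LT2.E10L1
import Fermat.Agent.Pack.LT2.E8L0
import Fermat.Agent.Pack.LT2.E4L3
import Fermat.Agent.Pack.LT2.E7L2

set_option linter.all false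

-- ===== PACK-BEGIN LT/T7/H57/FoldSpec4.lean
section



/-!
# Row LT, tower T7, LEAF `FoldWhitC` -- CUT of the node `CorePosC57`, level 4 (helper57)

OFF-MAIN.  Definitions, frozen Props.  The PROVED top is in `FoldTop4.lean`.

```
CorePosC57 K  ⇐  WeightIdC57 K + WConstC57 K + InnerC57 K + WeightExC57 K + CntSumC57 K
```

THE WEIGHT TRICK.  `P = 𝔸 × 𝔸ˣ × 𝔸ˣ`, `ι(x, y, z) = n(x) diag(y, 1) z`, `ω(p) = |y|⁻¹`,
`λ = ν ⊗ τ ⊗ τ` (so `ω λ` is a LEFT Haar measure of `B(𝔸)` in coordinates),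
`Ω = B(𝔸) U(𝔪) K_∞ = {g : g₂₁ ∈ 𝔪 g₂₂ at every v ∣ 𝔪}` (open), `hgt(g) = |det g| / rowNorm(bottom row)²`
(`= |y|` for `g = ι(x, y, z) k`).  For measurable `Fn, β ≥ 0` (Tonelli, left invariance of `μ`):

    ∫_G Fn · w_β dμ = ∫_G (∫_P Fn(ι(p) g) ω(p) dλ(p)) β(g) dμ(g),   w_β(g) = ∫_P β(ι(p)⁻¹ g) ω dλ.

If `β` is right `U(𝔪) K_∞`-invariant, `w_β` is left `B(𝔸)`- and right `U(𝔪) K_∞`-invariant, hence
CONSTANT on `Ω`.  For `Fn = ∑_x Φ · 1_{E_Y} · 1_{γ_x F}` (`x ∈ ℙ¹(K)`, `γ_x ∈ GL₂(K)` with bottom row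
`x`) the inner integral at `g = ι(p₀) k ∈ Ω` is `hgt(g) · ∫_{box Y} Φ(ι p) ω dλ` (right translation
of the left Haar measure + unfolding of `B(K)` in the coordinates).  No quotient measure, no
measurable section, no uniqueness of invariant measures on homogeneous spaces.
-/

set_option autoImplicit false

open AutomorphicForm IsDedekindDomain NumberField Filter Topology MeasureTheory
open scoped ComplexConjugate ENNReal

noncomputable section

namespace Fermat.Agent.LT.T7.H57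

open Fermat.Agent.LT.H556 Fermat.Agent.LT.H556.A0 Fermat.Agent.LT.T7 Fermat.Agent.LT.T7.Rigid

attribute [local instance] Fermat.Agent.LT.T5.instMeasurableSpaceG

variable (K : Type) [Field K] [NumberField K]

/-! ## Vocabulary -/

/-- The coordinate space of the Borel subgroup. -/
abbrev PB57 : Type := Adl K × (Adl K)ˣ × (Adl K)ˣ

/-- The weight `ω(p) = |y|⁻¹`. -/
def om57 (p : PB57 K) : ℝ≥0∞ := ENNReal.ofReal ((nrm57 K p.2.1)⁻¹)

/-- The bottom row of `g`. -/
def botRow57 (g : G K) : Fin 2 → Adl K := fun j => (g : Matrix (Fin 2) (Fin 2) (Adl K)) 1 j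

/-- The open set `Ω = B(𝔸) U(𝔪) K_∞`. -/
def Om57 (𝔪 : Ideal (𝓞 K)) : Set (G K) :=
  {g | ∀ v : HeightOneSpectrum (𝓞 K), v.asIdeal ∣ 𝔪 →
    ∃ t ∈ idealClosure 𝔪 v, (botRow57 K g 0).2 v = t * (botRow57 K g 1).2 v}

/-- The part of `Ω` of height `≥ Y`. -/
def EY57 (𝔪 : Ideal (𝓞 K)) (Y : ℝ) : Set (G K) :=
  {g | rowNorm (botRow57 K g) ^ 2 * Y
        ≤ Fermat.Agent.LT.T5.adNorm (Matrix.det (g : Matrix (Fin 2) (Fin 2) (Adl K))) ∧
    g ∈ Om57 K 𝔪}

/-- The height. -/
def hgt57 (g : G K) : ℝ :=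
  Fermat.Agent.LT.T5.adNorm (Matrix.det (g : Matrix (Fin 2) (Fin 2) (Adl K)))
    / rowNorm (botRow57 K g) ^ 2

open Classical in
/-- The matrix `γ_x` with bottom row `x.rep` and determinant `1`. -/
def gamMat57 (x : Projectivization K (Fin 2 → K)) : Matrix (Fin 2) (Fin 2) K :=
  if x.rep 0 = 0 then !![(x.rep 1)⁻¹, 0; x.rep 0, x.rep 1]
  else !![0, -(x.rep 0)⁻¹; x.rep 0, x.rep 1]

theorem det_gamMat57 (x : Projectivization K (Fin 2 → K)) : (gamMat57 K x).det = 1 := by
  unfold gamMat57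
  split_ifs with h
  · have h1 : x.rep 1 ≠ 0 := by
      intro h1
      apply x.rep_nonzero
      funext i
      fin_cases i
      · exact h
      · exact h1
    rw [Matrix.det_fin_two_of, h]
    field_simp
    ring
  · rw [Matrix.det_fin_two_of]
    field_simp
    ring

/-- `γ_x ∈ GL₂(K)`. -/
def gam57 (x : Projectivization K (Fin 2 → K)) : GL (Fin 2) K :=
  Matrix.GeneralLinearGroup.mkOfDetNeZero (gamMat57 K x)
    (by rw [det_gamMat57]; exact one_ne_zero)

/-- `γ_x` in `GL₂(𝔸_K)`. -/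
def gamA57 (x : Projectivization K (Fin 2 → K)) : G K :=
  Matrix.GeneralLinearGroup.map (algebraMap K (Adl K)) (gam57 K x)

/-- The summand of the unfolded function. -/
def fnX57 (𝔪 : Ideal (𝓞 K)) (F : Set (G K)) (Φ : G K → ℝ≥0∞) (Y : ℝ)
    (x : Projectivization K (Fin 2 → K)) (g : G K) : ℝ≥0∞ :=
  Φ g * (EY57 K 𝔪 Y).indicator 1 g * ({h : G K | (gamA57 K x)⁻¹ * h ∈ F}).indicator 1 g

/-- The unfolded function `∑_x Φ · 1_{E_Y} · 1_{γ_x F}`. -/
def fnE57 (𝔪 : Ideal (𝓞 K)) (F : Set (G K)) (Φ : G K → ℝ≥0∞) (Y : ℝ) (g : G K) : ℝ≥0∞ :=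
  ∑' x : Projectivization K (Fin 2 → K), fnX57 K 𝔪 F Φ Y x g

/-- `w_β(g) = ∫_P β(ι(p)⁻¹ g) ω(p) dλ(p)`. -/
def wB57 {mA : MeasurableSpace (Adl K)} {mX : MeasurableSpace (Adl K)ˣ}
    (ν : Measure (Adl K)) (τ : Measure (Adl K)ˣ) (β : G K → ℝ≥0∞) (g : G K) : ℝ≥0∞ :=
  ∫⁻ p : PB57 K, β ((iota57 K p)⁻¹ * g) * om57 K p ∂(ν.prod (τ.prod τ))

/-! ## The Props -/

/-- **LEAF WEIGHT-ID** (Tonelli + left invariance of `μ`). -/
def WeightIdC57 : Prop :=
  letI : MeasurableSpace (Adl K) := borel (Adl K)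
  letI : MeasurableSpace (Adl K)ˣ := borel (Adl K)ˣ
  ∀ μ : Measure (G K), μ.IsHaarMeasure →
  ∀ ν : Measure (Adl K), ν.IsAddHaarMeasure →
  ∀ τ : Measure (Adl K)ˣ, τ.IsHaarMeasure →
  ∀ Fn β : G K → ℝ≥0∞, Measurable Fn → Measurable β →
    ∫⁻ g, Fn g * wB57 K ν τ β g ∂μ
      = ∫⁻ g, (∫⁻ p : PB57 K, Fn (iota57 K p * g) * om57 K p ∂(ν.prod (τ.prod τ))) * β g ∂μ

/-- **LEAF W-CONST**: `w_β` is constant on `Ω`. -/
def WConstC57 : Prop :=
  letI : MeasurableSpace (Adl K) := borel (Adl K)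
  letI : MeasurableSpace (Adl K)ˣ := borel (Adl K)ˣ
  TotCplx K →
  ∀ ν : Measure (Adl K), ν.IsAddHaarMeasure →
  ∀ τ : Measure (Adl K)ˣ, τ.IsHaarMeasure →
  ∀ (S : Finset (HeightOneSpectrum (𝓞 K))) (𝔪 : Ideal (𝓞 K)), IsSupp S 𝔪 →
  ∀ β : G K → ℝ≥0∞, Measurable β → IsRightCE57 K 𝔪 β →
    ∀ g ∈ Om57 K 𝔪, wB57 K ν τ β g = wB57 K ν τ β 1

/-- **LEAF INNER**: the inner integral of the unfolded function at a point of `Ω`. -/
def InnerC57 : Prop :=
  letI : MeasurableSpace (Adl K) := borel (Adl K)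
  letI : MeasurableSpace (Adl K)ˣ := borel (Adl K)ˣ
  TotCplx K →
  ∀ (μ : Measure (G K)) (F : Set (G K)), Fermat.Agent.LT.T5.IsFrame μ F →
  ∀ (ν : Measure (Adl K)) (D : Set (Adl K)), ν.IsAddHaarMeasure → MeasurableSet D →
    IsAddFundamentalDomain ((algebraMap K (Adl K)).toAddMonoidHom.range) D ν → ν D < ⊤ →
  ∀ τ : Measure (Adl K)ˣ, τ.IsHaarMeasure →
  ∀ (S : Finset (HeightOneSpectrum (𝓞 K))) (𝔪 : Ideal (𝓞 K)), IsSupp S 𝔪 →
  ∀ FX : Set (Adl K)ˣ, MeasurableSet FX → IsFundamentalDomain (ratU57 K).range FX τ →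
  ∀ Φ : G K → ℝ≥0∞, Measurable Φ → IsLeftInvE57 K Φ → IsRightCE57 K 𝔪 Φ →
    ∀ Y : ℝ, 0 < Y → ∀ g ∈ Om57 K 𝔪,
      ∫⁻ p : PB57 K, fnE57 K 𝔪 F Φ Y (iota57 K p * g) * om57 K p ∂(ν.prod (τ.prod τ))
        = ENNReal.ofReal (hgt57 K g) * ∫⁻ p in box57 K D FX Y,
            Φ (iota57 K p) * om57 K p ∂(ν.prod (τ.prod τ))

/-- **LEAF WEIGHT-EX**: a good weight `β` exists. -/
def WeightExC57 : Prop :=
  letI : MeasurableSpace (Adl K) := borel (Adl K)
  letI : MeasurableSpace (Adl K)ˣ := borel (Adl K)ˣ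
  TotCplx K →
  ∀ μ : Measure (G K), μ.IsHaarMeasure →
  ∀ ν : Measure (Adl K), ν.IsAddHaarMeasure →
  ∀ τ : Measure (Adl K)ˣ, τ.IsHaarMeasure →
  ∀ (S : Finset (HeightOneSpectrum (𝓞 K))) (𝔪 : Ideal (𝓞 K)), IsSupp S 𝔪 →
    ∃ β : G K → ℝ≥0∞, Measurable β ∧ IsRightCE57 K 𝔪 β ∧ (∀ g, g ∉ Om57 K 𝔪 → β g = 0) ∧
      0 < wB57 K ν τ β 1 ∧ wB57 K ν τ β 1 < ⊤ ∧
      Measurable (fun g : G K => ENNReal.ofReal (hgt57 K g) * β g) ∧
      0 < ∫⁻ g, ENNReal.ofReal (hgt57 K g) * β g ∂μ ∧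
      ∫⁻ g, ENNReal.ofReal (hgt57 K g) * β g ∂μ < ⊤

/-- **LEAF CNT-SUM**: the unfolded function is measurable and its integral is the integral of
`Φ · encard (cntSet)` over the frame. -/
def CntSumC57 : Prop :=
  TotCplx K →
  ∀ (μ : Measure (G K)) (F : Set (G K)), Fermat.Agent.LT.T5.IsFrame μ F →
  ∀ (S : Finset (HeightOneSpectrum (𝓞 K))) (𝔪 : Ideal (𝓞 K)), IsSupp S 𝔪 →
  ∀ Φ : G K → ℝ≥0∞, Measurable Φ → IsLeftInvE57 K Φ →
    ∀ Y : ℝ, 0 < Y →
      Measurable (fnE57 K 𝔪 F Φ Y) ∧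
      ∫⁻ g, fnE57 K 𝔪 F Φ Y g ∂μ
        = ∫⁻ g in F, Φ g * (((cntSet 𝔪 Y g).encard : ℕ∞) : ℝ≥0∞) ∂μ

end Fermat.Agent.LT.T7.H57

end

end
-- ===== PACK-END LT/T7/H57/FoldSpec4.lean

-- ===== PACK-BEGIN LT/T7/H57/FoldSpec5.lean
section



/-!
# Row LT, tower T7, LEAF `FoldWhitC` -- CUT of the nodes `InnerC57`, `WConstC57`, level 5 (helper57)

OFF-MAIN.  Definitions, frozen Props.  The PROVED tops are in `FoldTop5.lean`.

```
WConstC57 K ⇐ OmDecompC57 K + PLTransC57 K + MeasIotaC57 K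
InnerC57 K  ⇐ T1.AdNormC K + OmDecompC57 K + RowInvC57 K + BorelUnfC57 K + BruhatSumC57 K
                + PRTransC57 K + MeasIotaC57 K + IotaCoordC57 K + CntSumC57 K (measurability)
```

Coordinates: `P = 𝔸 × 𝔸ˣ × 𝔸ˣ`, `ι(x, y, z) = n(x) diag(y, 1) z = [[y z, x z], [0, z]]`,
`ι(p ⋆ p₀) = ι(p) ι(p₀)` for `(x, y, z) ⋆ (x₀, y₀, z₀) = (x + y x₀, y y₀, z z₀)`;
`B(K)` in coordinates: `q = (ξ, η, ζ) ∈ K × Kˣ × Kˣ`, `b_q = [[η ζ, ξ ζ], [0, ζ]]`,
`b_q ι(x, y, z) = ι(ξ + η x, η y, ζ z)`.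

* `OmDecompC57` : `Ω = B(𝔸) · U(𝔪) K_∞` (Iwasawa + congruence at `v ∣ 𝔪`), in the form: for
  `g ∈ Ω` there is `p₀` such that `k = ι(p₀)⁻¹ g` fixes (on the right) every function which is
  right invariant under the generators of `U(𝔪) K_∞`.
* `RowInvC57`   : `rowNorm (bottom row)`, `|det|` and `Ω` are right invariant under the
  generators.
* `BorelUnfC57` : unfolding of `B(K)` in the coordinates:
  `∫_P f ω dλ = ∫_{D × FX × FX} ∑_q f(q · p) ω dλ`.
* `BruhatSumC57`: `∑_q fnE(b_q h) = Φ(h) 1_{E_Y ∩ slab}(h)` (`GL₂(K) = ⊔_x B(K) γ_x`, the frame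
  is strict).
* `PRTransC57`  : `∫_P f(p ⋆ p₀) ω dλ = |y₀| ∫_P f ω dλ`.
* `PLTransC57`  : `∫_P f(p₀ ⋆ p) ω dλ = ∫_P f ω dλ`.
* `MeasIotaC57` : `p ↦ ι(p) k` and `p ↦ ι(p)⁻¹` are measurable.
* `IotaCoordC57`: `hgt(ι p) = |y|`, `ι p ∈ E_Y ∩ slab ↔ Y ≤ |y| ∧ 1 ≤ |y| |z|² < 2`.
-/

set_option autoImplicit false

open AutomorphicForm IsDedekindDomain NumberField Filter Topology MeasureTheory
open scoped ComplexConjugate ENNReal

noncomputable section

namespace Fermat.Agent.LT.T7.H57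

open Fermat.Agent.LT.H556 Fermat.Agent.LT.H556.A0 Fermat.Agent.LT.T7 Fermat.Agent.LT.T7.Rigid

attribute [local instance] Fermat.Agent.LT.T5.instMeasurableSpaceG

variable (K : Type) [Field K] [NumberField K]

/-! ## Vocabulary -/

/-- The coordinates of `B(K)`. -/
abbrev PK57 : Type := K × Kˣ × Kˣ

/-- The product of `B(𝔸)` in the coordinates. -/
def mulP57 (p p₀ : PB57 K) : PB57 K :=
  (p.1 + (p.2.1 : Adl K) * p₀.1, p.2.1 * p₀.2.1, p.2.2 * p₀.2.2)

/-- The inverse of `B(𝔸)` in the coordinates. -/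
def invP57 (p : PB57 K) : PB57 K :=
  (-(((p.2.1)⁻¹ : (Adl K)ˣ) : Adl K) * p.1, (p.2.1)⁻¹, (p.2.2)⁻¹)

/-- The action of `B(K)` in the coordinates: `(ξ, η, ζ) · (x, y, z) = (ξ + η x, η y, ζ z)`. -/
def actB57 (q : PK57 K) (p : PB57 K) : PB57 K :=
  (algebraMap K (Adl K) q.1 + algebraMap K (Adl K) (q.2.1 : K) * p.1,
    ratU57 K q.2.1 * p.2.1, ratU57 K q.2.2 * p.2.2)

/-- The matrix `b_q = [[η ζ, ξ ζ], [0, ζ]]`. -/
def ratBMat57 (q : PK57 K) : Matrix (Fin 2) (Fin 2) K :=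
  !![(q.2.1 : K) * (q.2.2 : K), q.1 * (q.2.2 : K); 0, (q.2.2 : K)]

theorem det_ratBMat57 (q : PK57 K) : (ratBMat57 K q).det ≠ 0 := by
  unfold ratBMat57
  rw [Matrix.det_fin_two_of]
  simp

/-- `b_q ∈ GL₂(K)`. -/
def ratB57 (q : PK57 K) : GL (Fin 2) K :=
  Matrix.GeneralLinearGroup.mkOfDetNeZero (ratBMat57 K q) (det_ratBMat57 K q)

/-! ## The Props -/

/-- **LEAF OM-DECOMP**: `Ω = B(𝔸) U(𝔪) K_∞`. -/
def OmDecompC57 : Prop :=
  TotCplx K →
  ∀ (S : Finset (HeightOneSpectrum (𝓞 K))) (𝔪 : Ideal (𝓞 K)), IsSupp S 𝔪 →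
  ∀ g ∈ Om57 K 𝔪, ∃ p₀ : PB57 K,
    ∀ Ψ : G K → ℝ≥0∞, IsRightCE57 K 𝔪 Ψ →
      ∀ h : G K, Ψ (h * ((iota57 K p₀)⁻¹ * g)) = Ψ h

/-- **LEAF ROW-INV**: right invariance of `rowNorm (bottom row)`, `|det|`, `Ω` under the
generators of `U(𝔪) K_∞`. -/
def RowInvC57 : Prop :=
  TotCplx K →
  ∀ (S : Finset (HeightOneSpectrum (𝓞 K))) (𝔪 : Ideal (𝓞 K)), IsSupp S 𝔪 →
    (∀ u : G K, InLevelGroup 𝔪 u → ∀ g : G K,
      rowNorm (botRow57 K (g * u)) = rowNorm (botRow57 K g) ∧
      Fermat.Agent.LT.T5.adNorm (Matrix.det ((g * u : G K) : Matrix (Fin 2) (Fin 2) (Adl K)))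
        = Fermat.Agent.LT.T5.adNorm (Matrix.det (g : Matrix (Fin 2) (Fin 2) (Adl K))) ∧
      (g * u ∈ Om57 K 𝔪 ↔ g ∈ Om57 K 𝔪)) ∧
    (∀ (w : InfinitePlace K) (k : G K), IsArchCompact w k → ∀ g : G K,
      rowNorm (botRow57 K (g * k)) = rowNorm (botRow57 K g) ∧
      Fermat.Agent.LT.T5.adNorm (Matrix.det ((g * k : G K) : Matrix (Fin 2) (Fin 2) (Adl K)))
        = Fermat.Agent.LT.T5.adNorm (Matrix.det (g : Matrix (Fin 2) (Fin 2) (Adl K))) ∧
      (g * k ∈ Om57 K 𝔪 ↔ g ∈ Om57 K 𝔪))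

/-- **LEAF BOREL-UNF**: unfolding of `B(K)` in the coordinates. -/
def BorelUnfC57 : Prop :=
  letI : MeasurableSpace (Adl K) := borel (Adl K)
  letI : MeasurableSpace (Adl K)ˣ := borel (Adl K)ˣ
  ∀ (ν : Measure (Adl K)) (D : Set (Adl K)), ν.IsAddHaarMeasure → MeasurableSet D →
    IsAddFundamentalDomain ((algebraMap K (Adl K)).toAddMonoidHom.range) D ν →
  ∀ τ : Measure (Adl K)ˣ, τ.IsHaarMeasure →
  ∀ FX : Set (Adl K)ˣ, MeasurableSet FX → IsFundamentalDomain (ratU57 K).range FX τ →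
  ∀ f : PB57 K → ℝ≥0∞, Measurable f →
    ∫⁻ p, f p * om57 K p ∂(ν.prod (τ.prod τ))
      = ∫⁻ p in D ×ˢ (FX ×ˢ FX), (∑' q : PK57 K, f (actB57 K q p)) * om57 K p
          ∂(ν.prod (τ.prod τ))

/-- **LEAF BRUHAT-SUM**: the sum of the unfolded function over `B(K)`. -/
def BruhatSumC57 : Prop :=
  ∀ (μ : Measure (G K)) (F : Set (G K)), Fermat.Agent.LT.T5.IsFrame μ F →
  ∀ (𝔪 : Ideal (𝓞 K)) (Φ : G K → ℝ≥0∞), IsLeftInvE57 K Φ →
    ∀ (Y : ℝ) (h : G K),
      ∑' q : PK57 K, fnE57 K 𝔪 F Φ Y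
          (Matrix.GeneralLinearGroup.map (algebraMap K (Adl K)) (ratB57 K q) * h)
        = Φ h * ({g : G K | g ∈ EY57 K 𝔪 Y ∧ g ∈ Fermat.Agent.LT.T5.slab K}).indicator 1 h

/-- **LEAF P-RTRANS**: right translation of the left Haar measure of `B(𝔸)`. -/
def PRTransC57 : Prop :=
  letI : MeasurableSpace (Adl K) := borel (Adl K)
  letI : MeasurableSpace (Adl K)ˣ := borel (Adl K)ˣ
  ∀ ν : Measure (Adl K), ν.IsAddHaarMeasure →
  ∀ τ : Measure (Adl K)ˣ, τ.IsHaarMeasure →
  ∀ f : PB57 K → ℝ≥0∞, Measurable f → ∀ p₀ : PB57 K,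
    ∫⁻ p, f (mulP57 K p p₀) * om57 K p ∂(ν.prod (τ.prod τ))
      = ENNReal.ofReal (nrm57 K p₀.2.1) * ∫⁻ p, f p * om57 K p ∂(ν.prod (τ.prod τ))

/-- **LEAF P-LTRANS**: left invariance of the left Haar measure of `B(𝔸)`. -/
def PLTransC57 : Prop :=
  letI : MeasurableSpace (Adl K) := borel (Adl K)
  letI : MeasurableSpace (Adl K)ˣ := borel (Adl K)ˣ
  ∀ ν : Measure (Adl K), ν.IsAddHaarMeasure →
  ∀ τ : Measure (Adl K)ˣ, τ.IsHaarMeasure →
  ∀ f : PB57 K → ℝ≥0∞, Measurable f → ∀ p₀ : PB57 K,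
    ∫⁻ p, f (mulP57 K p₀ p) * om57 K p ∂(ν.prod (τ.prod τ))
      = ∫⁻ p, f p * om57 K p ∂(ν.prod (τ.prod τ))

/-- **LEAF MEAS-IOTA**: measurability of the coordinates. -/
def MeasIotaC57 : Prop :=
  letI : MeasurableSpace (Adl K) := borel (Adl K)
  letI : MeasurableSpace (Adl K)ˣ := borel (Adl K)ˣ
  (∀ k : G K, Measurable fun p : PB57 K => iota57 K p * k) ∧
    Measurable fun p : PB57 K => (iota57 K p)⁻¹

/-- **LEAF IOTA-COORD**: the height and the sets `E_Y`, `slab` in the coordinates. -/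
def IotaCoordC57 : Prop :=
  ∀ p : PB57 K, hgt57 K (iota57 K p) = nrm57 K p.2.1 ∧
    ∀ (𝔪 : Ideal (𝓞 K)) (Y : ℝ),
      (iota57 K p ∈ EY57 K 𝔪 Y ∧ iota57 K p ∈ Fermat.Agent.LT.T5.slab K) ↔
        (Y ≤ nrm57 K p.2.1 ∧ 1 ≤ nrm57 K p.2.1 * nrm57 K p.2.2 ^ 2 ∧
          nrm57 K p.2.1 * nrm57 K p.2.2 ^ 2 < 2)

end Fermat.Agent.LT.T7.H57

end

end
-- ===== PACK-END LT/T7/H57/FoldSpec5.lean

-- ===== PACK-BEGIN LT/T7/H290/CoreSpec.lean
section




/-!
# Row LT, tower T7, LEAF `FoldWhitC`, node `CorePosC57` -- CUT, level 4 (helper290)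

OFF-MAIN.  Definitions and frozen Props.  The PROVED assembly is `LT/T7/H290/CoreTop.lean`:

```
CorePosC57 K  ⇐  T1.T1Out K + T3.HaarScaleC K        (closed: helper54, helper671)
               + FOLD (helper555 `LT/T7/H555/Fold.lean`, closed)
               + CellInvC290 K + CellIwasawaC290 K + CellCoordC290 K     (ALGEBRA, open)
               + ThetaSetC290 K                                           (TOPOLOGY, open)
               + measure theory on the Borel coordinates (helper290, `BorelExch.lean`)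
```

Vocabulary: `ι = iota57 : 𝔸 × 𝔸ˣ × 𝔸ˣ → GL₂(𝔸)`, `ι(x, y, z) = n(x) · diag(y, 1) · z`
(helper57 `FoldSpec2`); `𝒰(𝔪) = U(𝔪) K_∞` = `IsCpt290 𝔪`; `Ω = ι(P) 𝒰(𝔪)`.
-/

set_option autoImplicit false

open AutomorphicForm IsDedekindDomain NumberField Filter Topology MeasureTheory
open scoped ComplexConjugate ENNReal

noncomputable section

namespace Fermat.Agent.LT.T7.Rigid.H290

open Fermat.Agent.LT.H556 Fermat.Agent.LT.H556.A0 Fermat.Agent.LT.T7 Fermat.Agent.LT.T7.Rigid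
open Fermat.Agent.LT.T7.H57

attribute [local instance] Fermat.Agent.LT.T5.instMeasurableSpaceG

variable {K : Type} [Field K] [NumberField K]

/-! ## Vocabulary -/

/-- The compact group `𝒰(𝔪) = U(𝔪) · K_∞`: congruent to `1` modulo `𝔪` at the finite places
(`GL₂(𝒪_v)` at `v ∤ 𝔪`), unitary (of determinant one at the real places) at the infinite
places. -/
def IsCpt290 (𝔪 : Ideal (𝓞 K)) (κ : G K) : Prop :=
  (∀ (v : HeightOneSpectrum (𝓞 K)) (i j : Fin 2),
      (finComp v κ - 1) i j ∈ idealClosure 𝔪 v ∧ (finComp v κ⁻¹ - 1) i j ∈ idealClosure 𝔪 v) ∧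
    ∀ w : InfinitePlace K, infComp w κ * (infComp w κ).conjTranspose = 1 ∧
      (w.IsReal → (infComp w κ).det = 1)

/-- The bottom row of `g`. -/
def botRow290 (g : G K) : Fin 2 → Adl K := fun j => (g : Matrix (Fin 2) (Fin 2) (Adl K)) 1 j

/-- The cusp set `E(𝔪, Y)`: height `≥ Y` and the congruence clause for the bottom row
(same body as `foldSet555` of helper555, and as the clause of `cntSet` for the row `(0, 1)`). -/
def cuspSet290 (𝔪 : Ideal (𝓞 K)) (Y : ℝ) : Set (G K) :=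
  {g | rowNorm (botRow290 g) ^ 2 * Y
        ≤ Fermat.Agent.LT.T5.adNorm (Matrix.det (g : Matrix (Fin 2) (Fin 2) (Adl K))) ∧
    ∀ v : HeightOneSpectrum (𝓞 K), v.asIdeal ∣ 𝔪 →
      ∃ t ∈ idealClosure 𝔪 v, (botRow290 g 0).2 v = t * (botRow290 g 1).2 v}

/-- The height `‖det g‖ / rowNorm(bottom row)²`. -/
def hgt290 (g : G K) : ℝ :=
  Fermat.Agent.LT.T5.adNorm (Matrix.det (g : Matrix (Fin 2) (Fin 2) (Adl K)))
    / rowNorm (botRow290 g) ^ 2

/-- The left Haar measure of the Borel coordinates: `|y|⁻¹ dν(x) dτ(y) dτ(z)`. -/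
def lamB290 {mA : MeasurableSpace (Adl K)} {mI : MeasurableSpace (Adl K)ˣ}
    (ν : Measure (Adl K)) (τ : Measure (Adl K)ˣ) : Measure (Adl K × (Adl K)ˣ × (Adl K)ˣ) :=
  (ν.prod (τ.prod τ)).withDensity fun p => ENNReal.ofReal ((nrm57 K p.2.1)⁻¹)

variable (K)

/-! ## The Props of level 4 -/

/-- **LEAF CELL-INV** (algebra: an element of `𝒰(𝔪)` is the product of an element of `U(𝔪)` and
of one element of the compact group at each infinite place).  A function right invariant under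
`U(𝔪)` and under the compact groups at the infinite places is right invariant under `𝒰(𝔪)`. -/
def CellInvC290 : Prop :=
  TotCplx K →
  ∀ 𝔪 : Ideal (𝓞 K), 𝔪 ≠ ⊥ →
  ∀ Φ : G K → ℝ≥0∞, IsRightCE57 K 𝔪 Φ →
    ∀ κ : G K, IsCpt290 𝔪 κ → ∀ g : G K, Φ (g * κ) = Φ g

/-- **LEAF CELL-IWASAWA** (Iwasawa decomposition with level: `T1.IwasawaC` + the congruence
clause at `v ∣ 𝔪`: `k_v ∈ GL₂(𝒪_v)` with bottom row `(c, d)`, `c ∈ 𝔪 d`, is
`[[*, *], [0, d]] · [[1, 0], [c/d, 1]]`).  Every element of the cusp set is `ι(p) κ` with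
`κ ∈ 𝒰(𝔪)`. -/
def CellIwasawaC290 : Prop :=
  TotCplx K → Fermat.Agent.LT.T1.T1Out K →
  ∀ 𝔪 : Ideal (𝓞 K), 𝔪 ≠ ⊥ → ∀ Y : ℝ, 0 < Y →
    ∀ g ∈ cuspSet290 (K := K) 𝔪 Y, ∃ (p : Adl K × (Adl K)ˣ × (Adl K)ˣ) (κ : G K),
      IsCpt290 𝔪 κ ∧ g = iota57 K p * κ

/-- **LEAF CELL-COORD** (algebra, finprod over the places).  On `ι(P) 𝒰(𝔪)`: the cusp set is
`{|y| ≥ Y}`, the height is `|y|`, the module of the determinant is `|y| |z|²`; `𝒰(𝔪)` is a
group. -/
def CellCoordC290 : Prop :=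
  TotCplx K → Fermat.Agent.LT.T1.T1Out K →
  ∀ 𝔪 : Ideal (𝓞 K), 𝔪 ≠ ⊥ →
    (∀ (p : Adl K × (Adl K)ˣ × (Adl K)ˣ) (κ : G K), IsCpt290 𝔪 κ →
      (∀ Y : ℝ, 0 < Y → (iota57 K p * κ ∈ cuspSet290 (K := K) 𝔪 Y ↔ Y ≤ nrm57 K p.2.1)) ∧
      hgt290 (iota57 K p * κ) = nrm57 K p.2.1 ∧
      Fermat.Agent.LT.T5.adNorm
          (Matrix.det ((iota57 K p * κ : G K) : Matrix (Fin 2) (Fin 2) (Adl K)))
        = nrm57 K p.2.1 * nrm57 K p.2.2 ^ 2) ∧
    (∀ κ κ' : G K, IsCpt290 𝔪 κ → IsCpt290 𝔪 κ' → IsCpt290 𝔪 (κ * κ'⁻¹))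

/-- **LEAF THETA-SET** (topology).  There is a Borel set `𝒱 ⊆ Ω = ι(P) 𝒰(𝔪)`, right invariant
under `𝒰(𝔪)`, of finite non-zero Haar measure, on which `|y|` is bounded, and such that
`W = {q : ι(q)⁻¹ ∈ 𝒱}` has finite non-zero measure for `λ = |y|⁻¹ dν dτ dτ`.
(Take `𝒱 = 𝒱₀ 𝒰(𝔪) ∩ Ω` with `𝒱₀` a compact neighbourhood of `1`: `𝒰(𝔪)` is compact, `Ω` is
closed and contains the open set `G_∞ × U(𝔪)_f`, `ι` is a closed embedding, `λ` is finite on
compact sets and positive on open sets.) -/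
def ThetaSetC290 : Prop :=
  letI : MeasurableSpace (Adl K) := borel (Adl K)
  letI : MeasurableSpace (Adl K)ˣ := borel (Adl K)ˣ
  TotCplx K → Fermat.Agent.LT.T1.T1Out K →
  ∀ μ : Measure (G K), μ.IsHaarMeasure →
  ∀ ν : Measure (Adl K), ν.IsAddHaarMeasure →
  ∀ τ : Measure (Adl K)ˣ, τ.IsHaarMeasure →
  ∀ 𝔪 : Ideal (𝓞 K), 𝔪 ≠ ⊥ →
    ∃ V : Set (G K), MeasurableSet V ∧
      (∀ g ∈ V, ∃ (p : Adl K × (Adl K)ˣ × (Adl K)ˣ) (κ : G K), IsCpt290 𝔪 κ ∧
        g = iota57 K p * κ) ∧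
      (∀ g ∈ V, ∀ κ : G K, IsCpt290 𝔪 κ → g * κ ∈ V) ∧
      μ V ≠ 0 ∧ μ V ≠ ⊤ ∧
      (∃ M : ℝ, ∀ (p : Adl K × (Adl K)ˣ × (Adl K)ˣ) (κ : G K), IsCpt290 𝔪 κ →
        iota57 K p * κ ∈ V → nrm57 K p.2.1 ≤ M) ∧
      lamB290 ν τ {q | (iota57 K q)⁻¹ ∈ V} ≠ 0 ∧ lamB290 ν τ {q | (iota57 K q)⁻¹ ∈ V} ≠ ⊤

end Fermat.Agent.LT.T7.Rigid.H290

end

end
-- ===== PACK-END LT/T7/H290/CoreSpec.lean

-- ===== PACK-BEGIN LT/T7/H290/BorelTrans.lean
section




/-!
# Row LT, tower T7, LEAF `FoldWhitC`, node `CorePosC57`: the group of Borel coordinates and the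
translation rules for `λ = |y|⁻¹ dν dτ dτ` (helper290)

OFF-MAIN.  No `sorry`, nothing assumed.
-/

set_option autoImplicit false
set_option linter.unusedSectionVars false
set_option linter.style.haveILetI false

open AutomorphicForm IsDedekindDomain NumberField Filter Topology MeasureTheory
open scoped ComplexConjugate ENNReal

noncomputable section

namespace Fermat.Agent.LT.T7.Rigid.H290

open Fermat.Agent.LT.H556 Fermat.Agent.LT.H556.A0 Fermat.Agent.LT.T7 Fermat.Agent.LT.T7.Rigid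
open Fermat.Agent.LT.T7.H57

attribute [local instance] Fermat.Agent.LT.T5.instMeasurableSpaceG
attribute [local instance] instMA290 instBA290 instMI290 instBI290

variable (K : Type) [Field K] [NumberField K]

/-! ## 1. The group law in coordinates -/

/-- The product in Borel coordinates. -/
def pmul (p q : Adl K × (Adl K)ˣ × (Adl K)ˣ) : Adl K × (Adl K)ˣ × (Adl K)ˣ :=
  (p.1 + (p.2.1 : Adl K) * q.1, p.2.1 * q.2.1, p.2.2 * q.2.2)

/-- The inverse in Borel coordinates. -/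
def pinv (p : Adl K × (Adl K)ˣ × (Adl K)ˣ) : Adl K × (Adl K)ˣ × (Adl K)ˣ :=
  (-(((p.2.1⁻¹ : (Adl K)ˣ) : Adl K) * p.1), p.2.1⁻¹, p.2.2⁻¹)

theorem iota_val (p : Adl K × (Adl K)ˣ × (Adl K)ˣ) :
    ((iota57 K p : G K) : Matrix (Fin 2) (Fin 2) (Adl K))
      = !![(p.2.1 : Adl K) * (p.2.2 : Adl K), p.1 * (p.2.2 : Adl K); 0, (p.2.2 : Adl K)] := by
  ext i j
  fin_cases i <;> fin_cases j <;>
    simp [iota57, Fermat.Agent.LT.T3.unip, dgA, zA57, Matrix.mul_apply, Fin.sum_univ_two]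

theorem iota_pmul (p q : Adl K × (Adl K)ˣ × (Adl K)ˣ) :
    iota57 K (pmul K p q) = iota57 K p * iota57 K q := by
  apply Units.ext
  rw [Units.val_mul, iota_val, iota_val, iota_val]
  ext i j
  fin_cases i <;> fin_cases j <;>
    simp [pmul, Matrix.mul_apply, Fin.sum_univ_two] <;> ring

theorem pmul_pinv (p : Adl K × (Adl K)ˣ × (Adl K)ˣ) : pmul K p (pinv K p) = (0, 1, 1) := by
  simp [pmul, pinv]

theorem pinv_pmul (p : Adl K × (Adl K)ˣ × (Adl K)ˣ) : pmul K (pinv K p) p = (0, 1, 1) := by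
  simp [pmul, pinv]

theorem iota_one : iota57 K ((0 : Adl K), (1 : (Adl K)ˣ), (1 : (Adl K)ˣ)) = 1 := by
  apply Units.ext
  rw [iota_val]
  ext i j
  fin_cases i <;> fin_cases j <;> simp

theorem iota_pinv (p : Adl K × (Adl K)ˣ × (Adl K)ˣ) :
    iota57 K (pinv K p) = (iota57 K p)⁻¹ := by
  rw [eq_inv_iff_mul_eq_one, ← iota_pmul, pinv_pmul, iota_one]

theorem pmul_assoc (p q r : Adl K × (Adl K)ˣ × (Adl K)ˣ) :
    pmul K (pmul K p q) r = pmul K p (pmul K q r) := by
  simp only [pmul, Units.val_mul, mul_assoc, Prod.mk.injEq, and_self, and_true]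
  ring

theorem pmul_pinv_cancel_left (p q : Adl K × (Adl K)ˣ × (Adl K)ˣ) :
    pmul K p (pmul K (pinv K p) q) = q := by
  rw [← pmul_assoc, pmul_pinv]
  simp [pmul]

theorem pinv_pmul_cancel_left (p q : Adl K × (Adl K)ˣ × (Adl K)ˣ) :
    pmul K (pinv K p) (pmul K p q) = q := by
  rw [← pmul_assoc, pinv_pmul]
  simp [pmul]

/-! ## 2. The module -/

theorem nrm_pos290 (hN : Fermat.Agent.LT.T1.AdNormC K) (y : (Adl K)ˣ) : 0 < nrm57 K y :=
  hN.1 y

theorem nrm_mul290 (hN : Fermat.Agent.LT.T1.AdNormC K) (y y' : (Adl K)ˣ) :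
    nrm57 K (y * y') = nrm57 K y * nrm57 K y' :=
  hN.2.1 y y'

theorem nrm_one290 (hN : Fermat.Agent.LT.T1.AdNormC K) : nrm57 K (1 : (Adl K)ˣ) = 1 := by
  have h := nrm_mul290 K hN 1 1
  rw [mul_one] at h
  have hp := nrm_pos290 K hN 1
  nlinarith [h]

theorem nrm_inv290 (hN : Fermat.Agent.LT.T1.AdNormC K) (y : (Adl K)ˣ) :
    nrm57 K y⁻¹ = (nrm57 K y)⁻¹ := by
  have h := nrm_mul290 K hN y y⁻¹
  rw [mul_inv_cancel, nrm_one290 K hN] at h
  exact eq_inv_of_mul_eq_one_right h.symm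

theorem nrm_ratU290 (hN : Fermat.Agent.LT.T1.AdNormC K) (α : Kˣ) : nrm57 K (ratU57 K α) = 1 :=
  hN.2.2.1 α

theorem continuous_nrm290 (hN : Fermat.Agent.LT.T1.AdNormC K) : Continuous (nrm57 K) :=
  hN.2.2.2

/-- The weight `|y|⁻¹`. -/
def wB (p : Adl K × (Adl K)ˣ × (Adl K)ˣ) : ℝ≥0∞ := ENNReal.ofReal ((nrm57 K p.2.1)⁻¹)

theorem measurable_wB (hN : Fermat.Agent.LT.T1.AdNormC K) : Measurable (wB K) := by
  unfold wB
  have h1 : Measurable (nrm57 K) := (continuous_nrm290 K hN).measurable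
  exact ENNReal.measurable_ofReal.comp ((h1.comp (measurable_fst.comp measurable_snd)).inv)

theorem lamB_eq (ν : Measure (Adl K)) (τ : Measure (Adl K)ˣ) :
    lamB290 ν τ = (ν.prod (τ.prod τ)).withDensity (wB K) := rfl

theorem wB_pmul_left (hN : Fermat.Agent.LT.T1.AdNormC K) (a p : Adl K × (Adl K)ˣ × (Adl K)ˣ) :
    wB K p = ENNReal.ofReal (nrm57 K a.2.1) * wB K (pmul K a p) := by
  unfold wB pmul
  simp only
  rw [nrm_mul290 K hN, ← ENNReal.ofReal_mul (nrm_pos290 K hN _).le]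
  congr 1
  have h1 := (nrm_pos290 K hN a.2.1).ne'
  have h2 := (nrm_pos290 K hN p.2.1).ne'
  field_simp

theorem wB_pmul_right (hN : Fermat.Agent.LT.T1.AdNormC K) (p q : Adl K × (Adl K)ˣ × (Adl K)ˣ) :
    wB K p = ENNReal.ofReal (nrm57 K q.2.1) * wB K (pmul K p q) := by
  unfold wB pmul
  simp only
  rw [nrm_mul290 K hN, ← ENNReal.ofReal_mul (nrm_pos290 K hN _).le]
  congr 1
  have h1 := (nrm_pos290 K hN q.2.1).ne'
  have h2 := (nrm_pos290 K hN p.2.1).ne'
  field_simp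

theorem wB_actB (hN : Fermat.Agent.LT.T1.AdNormC K) (t : K × Kˣ × Kˣ)
    (p : Adl K × (Adl K)ˣ × (Adl K)ˣ) : wB K (actB K t p) = wB K p := by
  unfold wB actB
  simp only
  rw [nrm_mul290 K hN, nrm_ratU290 K hN, one_mul]

/-! ## 3. Translations -/

section trans

variable [SecondCountableTopology (Adl K)]

theorem secondCountable_units290 : SecondCountableTopology (Adl K)ˣ := by
  haveI : SecondCountableTopology (Adl K)ᵐᵒᵖ :=
    (MulOpposite.opHomeomorph (M := Adl K)).symm.secondCountableTopology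
  exact Units.isEmbedding_embedProduct.secondCountableTopology

attribute [local instance] secondCountable_units290

theorem measurable_val290 : Measurable fun y : (Adl K)ˣ => (y : Adl K) :=
  Units.continuous_val.measurable

theorem measurable_pmul_right (q : Adl K × (Adl K)ˣ × (Adl K)ˣ) :
    Measurable fun p : Adl K × (Adl K)ˣ × (Adl K)ˣ => pmul K p q := by
  unfold pmul
  refine Measurable.prodMk ?_ (Measurable.prodMk ?_ ?_)
  · exact measurable_fst.add
      (((measurable_val290 K).comp (measurable_fst.comp measurable_snd)).mul_const _)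
  · exact (measurable_fst.comp measurable_snd).mul_const _
  · exact (measurable_snd.comp measurable_snd).mul_const _

theorem measurable_pmul_left (a : Adl K × (Adl K)ˣ × (Adl K)ˣ) :
    Measurable fun p : Adl K × (Adl K)ˣ × (Adl K)ˣ => pmul K a p := by
  unfold pmul
  refine Measurable.prodMk ?_ (Measurable.prodMk ?_ ?_)
  · exact (measurable_fst.const_mul _).const_add _
  · exact (measurable_fst.comp measurable_snd).const_mul _
  · exact (measurable_snd.comp measurable_snd).const_mul _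

/-- Right translations preserve `ν × τ × τ`. -/
theorem measurePreserving_pmul_right (ν : Measure (Adl K)) [ν.IsAddHaarMeasure] [SFinite ν]
    (τ : Measure (Adl K)ˣ) [τ.IsHaarMeasure] [SFinite τ]
    (q : Adl K × (Adl K)ˣ × (Adl K)ˣ) :
    MeasurePreserving (fun p : Adl K × (Adl K)ˣ × (Adl K)ˣ => pmul K p q)
      (ν.prod (τ.prod τ)) (ν.prod (τ.prod τ)) := by
  have h1 : MeasurePreserving (Prod.map (fun y : (Adl K)ˣ => q.2.1 * y)
      (fun z : (Adl K)ˣ => q.2.2 * z)) (τ.prod τ) (τ.prod τ) :=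
    (measurePreserving_mul_left τ q.2.1).prod (measurePreserving_mul_left τ q.2.2)
  have hg : Measurable (Function.uncurry fun (a : (Adl K)ˣ × (Adl K)ˣ) (x : Adl K) =>
      x + (a.1 : Adl K) * q.1) :=
    measurable_snd.add (((measurable_val290 K).comp (measurable_fst.comp measurable_fst)).mul_const _)
  have h2 := h1.skew_product (μc := ν) (μd := ν)
    (g := fun (a : (Adl K)ˣ × (Adl K)ˣ) (x : Adl K) => x + (a.1 : Adl K) * q.1) hg
    (Filter.Eventually.of_forall fun a => (measurePreserving_add_right ν _).map_eq)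
  have h3 := (Measure.measurePreserving_swap (μ := τ.prod τ) (ν := ν)).comp
    (h2.comp (Measure.measurePreserving_swap (μ := ν) (ν := τ.prod τ)))
  have he : (fun p : Adl K × (Adl K)ˣ × (Adl K)ˣ => pmul K p q)
      = Prod.swap ∘ (fun p : ((Adl K)ˣ × (Adl K)ˣ) × Adl K =>
          (Prod.map (fun y : (Adl K)ˣ => q.2.1 * y) (fun z : (Adl K)ˣ => q.2.2 * z) p.1,
            (fun (a : (Adl K)ˣ × (Adl K)ˣ) (x : Adl K) => x + (a.1 : Adl K) * q.1) p.1 p.2))
        ∘ Prod.swap := by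
    funext p
    refine Prod.ext rfl (Prod.ext ?_ ?_)
    · exact mul_comm _ _
    · exact mul_comm _ _
  rw [he]
  exact h3

/-- `ν (y · X)`-scaling as a push-forward: `(x ↦ y x)_* ν = |y|⁻¹ ν`. -/
theorem map_mul_left_adele290 (hN : Fermat.Agent.LT.T1.AdNormC K)
    (hSc : ∀ μ : Measure (Adl K), μ.IsAddHaarMeasure → ∀ (x : (Adl K)ˣ) (X : Set (Adl K)),
      μ ((fun y : Adl K => (x : Adl K) * y) '' X)
        = ENNReal.ofReal (Fermat.Agent.LT.T1.adNorm K (x : Adl K)) * μ X)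
    (ν : Measure (Adl K)) [hν : ν.IsAddHaarMeasure] (y : (Adl K)ˣ) :
    Measure.map (fun x : Adl K => (y : Adl K) * x) ν
      = ENNReal.ofReal ((nrm57 K y)⁻¹) • ν := by
  have hm : Measurable fun x : Adl K => (y : Adl K) * x :=
    (continuous_const.mul continuous_id).measurable
  ext X hX
  rw [Measure.map_apply hm hX, Measure.smul_apply, smul_eq_mul]
  have hpre : (fun x : Adl K => (y : Adl K) * x) ⁻¹' X
      = (fun x : Adl K => ((y⁻¹ : (Adl K)ˣ) : Adl K) * x) '' X := by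
    ext x
    constructor
    · intro hx
      exact ⟨(y : Adl K) * x, hx, by simp [← mul_assoc]⟩
    · rintro ⟨x', hx', rfl⟩
      simpa [← mul_assoc] using hx'
  rw [hpre, hSc ν hν y⁻¹ X]
  congr 2
  exact nrm_inv290 K hN y

/-- Left translations scale `ν × τ × τ` by `|y|⁻¹`. -/
theorem map_pmul_left290 (hN : Fermat.Agent.LT.T1.AdNormC K)
    (hSc : ∀ μ : Measure (Adl K), μ.IsAddHaarMeasure → ∀ (x : (Adl K)ˣ) (X : Set (Adl K)),
      μ ((fun y : Adl K => (x : Adl K) * y) '' X)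
        = ENNReal.ofReal (Fermat.Agent.LT.T1.adNorm K (x : Adl K)) * μ X)
    (ν : Measure (Adl K)) [ν.IsAddHaarMeasure] [SFinite ν]
    (τ : Measure (Adl K)ˣ) [τ.IsHaarMeasure] [SFinite τ]
    (a : Adl K × (Adl K)ˣ × (Adl K)ˣ) :
    Measure.map (fun p : Adl K × (Adl K)ˣ × (Adl K)ˣ => pmul K a p) (ν.prod (τ.prod τ))
      = ENNReal.ofReal ((nrm57 K a.2.1)⁻¹) • (ν.prod (τ.prod τ)) := by
  have hf : Measurable fun x : Adl K => a.1 + (a.2.1 : Adl K) * x :=
    (continuous_const.add (continuous_const.mul continuous_id)).measurable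
  have hm : Measurable fun x : Adl K => (a.2.1 : Adl K) * x :=
    (continuous_const.mul continuous_id).measurable
  have h1 : Measure.map (fun x : Adl K => a.1 + (a.2.1 : Adl K) * x) ν
      = ENNReal.ofReal ((nrm57 K a.2.1)⁻¹) • ν := by
    have hc : (fun x : Adl K => a.1 + (a.2.1 : Adl K) * x)
        = (fun x : Adl K => a.1 + x) ∘ fun x : Adl K => (a.2.1 : Adl K) * x := rfl
    rw [hc, ← Measure.map_map (measurable_const_add _) hm, map_mul_left_adele290 K hN hSc ν,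
      Measure.map_smul, (measurePreserving_add_left ν a.1).map_eq]
  have h2 : Measure.map (Prod.map (fun y : (Adl K)ˣ => a.2.1 * y)
      (fun z : (Adl K)ˣ => a.2.2 * z)) (τ.prod τ) = τ.prod τ :=
    ((measurePreserving_mul_left τ a.2.1).prod (measurePreserving_mul_left τ a.2.2)).map_eq
  have he : (fun p : Adl K × (Adl K)ˣ × (Adl K)ˣ => pmul K a p)
      = Prod.map (fun x : Adl K => a.1 + (a.2.1 : Adl K) * x)
          (Prod.map (fun y : (Adl K)ˣ => a.2.1 * y) (fun z : (Adl K)ˣ => a.2.2 * z)) := rfl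
  rw [he, ← Measure.map_prod_map _ _ hf
    ((measurable_const_mul _).prodMap (measurable_const_mul _)), h1, h2]
  exact Measure.prod_smul_left _

/-- **`λ` is left invariant.** -/
theorem lintegral_lamB_pmul_left290 (hN : Fermat.Agent.LT.T1.AdNormC K)
    (hSc : ∀ μ : Measure (Adl K), μ.IsAddHaarMeasure → ∀ (x : (Adl K)ˣ) (X : Set (Adl K)),
      μ ((fun y : Adl K => (x : Adl K) * y) '' X)
        = ENNReal.ofReal (Fermat.Agent.LT.T1.adNorm K (x : Adl K)) * μ X)
    (ν : Measure (Adl K)) [ν.IsAddHaarMeasure] [SFinite ν]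
    (τ : Measure (Adl K)ˣ) [τ.IsHaarMeasure] [SFinite τ]
    (a : Adl K × (Adl K)ˣ × (Adl K)ˣ) (h : Adl K × (Adl K)ˣ × (Adl K)ˣ → ℝ≥0∞)
    (hh : Measurable h) :
    ∫⁻ p, h (pmul K a p) ∂(lamB290 ν τ) = ∫⁻ p, h p ∂(lamB290 ν τ) := by
  have hw := measurable_wB K hN
  have hL := measurable_pmul_left K a
  have hhL : Measurable fun p => h (pmul K a p) := hh.comp hL
  rw [lamB_eq, lintegral_withDensity_eq_lintegral_mul _ hw hhL,
    lintegral_withDensity_eq_lintegral_mul _ hw hh]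
  have h1 : ∀ p, (wB K * fun p => h (pmul K a p)) p
      = ENNReal.ofReal (nrm57 K a.2.1) * (wB K * h) (pmul K a p) := by
    intro p
    simp only [Pi.mul_apply]
    rw [wB_pmul_left K hN a p, mul_assoc]
  simp_rw [h1]
  have hwhL : Measurable fun p => (wB K * h) (pmul K a p) := (hw.mul hh).comp hL
  rw [lintegral_const_mul _ hwhL]
  have hmap := lintegral_map (μ := ν.prod (τ.prod τ)) (hw.mul hh) hL
  rw [← hmap, map_pmul_left290 K hN hSc ν τ a, lintegral_smul_measure,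
    smul_eq_mul, ← mul_assoc, ← ENNReal.ofReal_mul (nrm_pos290 K hN _).le,
    mul_inv_cancel₀ (nrm_pos290 K hN _).ne', ENNReal.ofReal_one, one_mul]

/-- **Right translation by `q` multiplies `λ` by `|y_q|`.** -/
theorem lintegral_lamB_pmul_right290 (hN : Fermat.Agent.LT.T1.AdNormC K)
    (ν : Measure (Adl K)) [ν.IsAddHaarMeasure] [SFinite ν]
    (τ : Measure (Adl K)ˣ) [τ.IsHaarMeasure] [SFinite τ]
    (q : Adl K × (Adl K)ˣ × (Adl K)ˣ) (h : Adl K × (Adl K)ˣ × (Adl K)ˣ → ℝ≥0∞)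
    (hh : Measurable h) :
    ∫⁻ p, h (pmul K p q) ∂(lamB290 ν τ)
      = ENNReal.ofReal (nrm57 K q.2.1) * ∫⁻ p, h p ∂(lamB290 ν τ) := by
  have hw := measurable_wB K hN
  have hR := measurable_pmul_right K q
  have hhR : Measurable fun p => h (pmul K p q) := hh.comp hR
  rw [lamB_eq, lintegral_withDensity_eq_lintegral_mul _ hw hhR,
    lintegral_withDensity_eq_lintegral_mul _ hw hh]
  have h1 : ∀ p, (wB K * fun p => h (pmul K p q)) p
      = ENNReal.ofReal (nrm57 K q.2.1) * (wB K * h) (pmul K p q) := by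
    intro p
    simp only [Pi.mul_apply]
    rw [wB_pmul_right K hN p q, mul_assoc]
  simp_rw [h1]
  have hwhR : Measurable fun p => (wB K * h) (pmul K p q) := (hw.mul hh).comp hR
  rw [lintegral_const_mul _ hwhR]
  congr 1
  exact (measurePreserving_pmul_right K ν τ q).lintegral_comp (hw.mul hh)

end trans

end Fermat.Agent.LT.T7.Rigid.H290

end

end
-- ===== PACK-END LT/T7/H290/BorelTrans.lean

-- ===== PACK-BEGIN LT/T7/H290/BorelUnf.lean
section





/-!
# Row LT, tower T7, LEAF `FoldWhitC`, cut of helper57, leaves `BorelUnfC57`, `PRTransC57`,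
`PLTransC57` (helper290)

OFF-MAIN.  No `sorry`, nothing assumed.  Frozen bytes: `LT/T7/H57/FoldSpec5.lean`
(helper57@6a1f79c59, sha256 8a9bba37).
-/

set_option autoImplicit false
set_option linter.unusedSectionVars false
set_option linter.style.haveILetI false

open AutomorphicForm IsDedekindDomain NumberField Filter Topology MeasureTheory
open scoped ComplexConjugate ENNReal

noncomputable section

namespace Fermat.Agent.LT.T7.Rigid.H290

open Fermat.Agent.LT.H556 Fermat.Agent.LT.H556.A0 Fermat.Agent.LT.T7 Fermat.Agent.LT.T7.Rigid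
open Fermat.Agent.LT.T7.H57

attribute [local instance] Fermat.Agent.LT.T5.instMeasurableSpaceG
attribute [local instance] instMA290 instBA290 instMI290 instBI290

variable (K : Type) [Field K] [NumberField K]

theorem actB57_eq (q : PK57 K) (p : PB57 K) : actB57 K q p = actB K q p := by
  unfold actB57 actB
  rw [add_comm]

theorem om57_eq : om57 K = wB K := rfl

/-- **T7.14.6a-F.14 `BorelUnfC57`**, verbatim. -/
theorem borelUnfC_of290 (hN : Fermat.Agent.LT.T1.AdNormC K) (hLC : Fermat.Agent.LT.T1.LocCompC K)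
    (hS : Fermat.Agent.LT.T3.HaarScaleC K) : BorelUnfC57 K := by
  intro ν D hν hDm hD τ hτ FX hFXm hFX f hf
  haveI : LocallyCompactSpace (Adl K) := hLC.1.1
  haveI : T2Space (Adl K) := hLC.1.2.1
  haveI : SecondCountableTopology (Adl K) := hLC.1.2.2
  haveI : SecondCountableTopology (Adl K)ˣ := secondCountable_units290 K
  haveI := hν
  haveI := hτ
  have hw := measurable_wB K hN
  have h := lintegral_unfold_actB290 K hS ν hD τ hFX (fun p => f p * om57 K p)
    (hf.mul (by rw [om57_eq]; exact hw))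
  rw [h]
  refine lintegral_congr fun p => ?_
  rw [← ENNReal.tsum_mul_right]
  refine tsum_congr fun q => ?_
  rw [actB57_eq, om57_eq, wB_actB K hN]

/-- **T7.14.6a-F.16 `PRTransC57`**, verbatim. -/
theorem pRTransC_of290 (hN : Fermat.Agent.LT.T1.AdNormC K)
    (hLC : Fermat.Agent.LT.T1.LocCompC K) : PRTransC57 K := by
  intro ν hν τ hτ f hf p₀
  haveI : LocallyCompactSpace (Adl K) := hLC.1.1
  haveI : T2Space (Adl K) := hLC.1.2.1
  haveI : SecondCountableTopology (Adl K) := hLC.1.2.2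
  haveI : SecondCountableTopology (Adl K)ˣ := secondCountable_units290 K
  haveI := hν
  haveI := hτ
  have hw := measurable_wB K hN
  have h := lintegral_lamB_pmul_right290 K hN ν τ p₀ f hf
  rw [lamB_eq, lintegral_withDensity_eq_lintegral_mul _ hw hf,
    lintegral_withDensity_eq_lintegral_mul _ hw
      (show Measurable fun p => f (pmul K p p₀) from hf.comp (measurable_pmul_right K p₀))] at h
  simp only [Pi.mul_apply, mul_comm (wB K _)] at h
  exact h

/-- **T7.14.6a-F.17 `PLTransC57`**, verbatim (spare). -/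
theorem pLTransC_of290 (hN : Fermat.Agent.LT.T1.AdNormC K)
    (hLC : Fermat.Agent.LT.T1.LocCompC K)
    (hSc : ∀ μ : Measure (Adl K), μ.IsAddHaarMeasure → ∀ (x : (Adl K)ˣ) (X : Set (Adl K)),
      μ ((fun y : Adl K => (x : Adl K) * y) '' X)
        = ENNReal.ofReal (Fermat.Agent.LT.T1.adNorm K (x : Adl K)) * μ X) : PLTransC57 K := by
  intro ν hν τ hτ f hf p₀
  haveI : LocallyCompactSpace (Adl K) := hLC.1.1
  haveI : T2Space (Adl K) := hLC.1.2.1
  haveI : SecondCountableTopology (Adl K) := hLC.1.2.2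
  haveI : SecondCountableTopology (Adl K)ˣ := secondCountable_units290 K
  haveI := hν
  haveI := hτ
  have hw := measurable_wB K hN
  have h := lintegral_lamB_pmul_left290 K hN hSc ν τ p₀ f hf
  rw [lamB_eq, lintegral_withDensity_eq_lintegral_mul _ hw hf,
    lintegral_withDensity_eq_lintegral_mul _ hw
      (show Measurable fun p => f (pmul K p₀ p) from hf.comp (measurable_pmul_left K p₀))] at h
  simp only [Pi.mul_apply, mul_comm (wB K _)] at h
  exact h

end Fermat.Agent.LT.T7.Rigid.H290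

end

end
-- ===== PACK-END LT/T7/H290/BorelUnf.lean

-- ===== PACK-BEGIN LT/T7/H317/PLTrans.lean
section




/-!
# Row LT, tower T7, leaf T7.14.6a-F.17 `PLTransC57` (registry 2215)

OFF-MAIN (helper317).  Left invariance of the left Haar measure `|y|⁻¹ dν(x) dτ(y) dτ(z)` of
`B(𝔸)` in the coordinates `P = 𝔸 × 𝔸ˣ × 𝔸ˣ`:
`∫_P f(p₀ ⋆ p) ω dλ = ∫_P f ω dλ`, `p₀ ⋆ (x, y, z) = (x₀ + y₀ x, y₀ y, z₀ z)`.

* `plTransC_of317 : T1.AdNormC K → T1.LocCompC K → T1.H671.HaarScaleC K → H57.PLTransC57 K`;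
* `plTransC317 : T1.AdNormC K → T1.LocCompC K → H57.PLTransC57 K` (with `haarScaleC671` of
  helper671, byte-identical copy of its closure).

Proof: the map `T p = p₀ ⋆ p` is a product of three measurable maps; the image of `λ = ν ⊗ τ ⊗ τ`
under `T` is `|y₀|⁻¹ λ` (Haar scaling of `ν` by the idele `y₀`, invariance of `ν` under
translations, left invariance of `τ`), and `ω(p) = |y₀| ω(T p)`.
-/

set_option autoImplicit false
set_option linter.style.haveILetI false

open IsDedekindDomain NumberField MeasureTheory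
open scoped ENNReal

noncomputable section

namespace Fermat.Agent.LT.T7.H317

open Fermat.Agent.LT.H556 Fermat.Agent.LT.H556.A0 Fermat.Agent.LT Fermat.Agent.LT.T7.H57

variable (K : Type) [Field K] [NumberField K]

theorem nrm57_eq317 (y : (Adl K)ˣ) : nrm57 K y = T1.adNorm K (y : Adl K) := rfl

theorem units_sct317 [SecondCountableTopology (Adl K)] : SecondCountableTopology (Adl K)ˣ := by
  haveI : SecondCountableTopology (Adl K)ᵐᵒᵖ :=
    (MulOpposite.opHomeomorph (M := Adl K)).symm.isEmbedding.secondCountableTopology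
  exact (Units.isEmbedding_embedProduct (M := Adl K)).secondCountableTopology

theorem units_lc317 [LocallyCompactSpace (Adl K)] [T2Space (Adl K)] :
    LocallyCompactSpace (Adl K)ˣ := by
  haveI : LocallyCompactSpace (Adl K)ᵐᵒᵖ :=
    (MulOpposite.opHomeomorph (M := Adl K)).symm.isClosedEmbedding.locallyCompactSpace
  exact (Units.isClosedEmbedding_embedProduct (α := Adl K)).locallyCompactSpace

theorem plTransC_of317 (hN : T1.AdNormC K) (hLC : T1.LocCompC K)
    (hS : T1.H671.HaarScaleC K) : PLTransC57 K := by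
  unfold PLTransC57
  letI mA : MeasurableSpace (Adl K) := borel (Adl K)
  letI mX : MeasurableSpace (Adl K)ˣ := borel (Adl K)ˣ
  haveI : BorelSpace (Adl K) := ⟨rfl⟩
  haveI : BorelSpace (Adl K)ˣ := ⟨rfl⟩
  haveI := hLC.1.1
  haveI := hLC.1.2.1
  haveI := hLC.1.2.2
  haveI : SecondCountableTopology (Adl K)ˣ := units_sct317 K
  haveI : LocallyCompactSpace (Adl K)ˣ := units_lc317 K
  show ∀ ν : Measure (Adl K), ν.IsAddHaarMeasure →
    ∀ τ : Measure (Adl K)ˣ, τ.IsHaarMeasure →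
    ∀ f : PB57 K → ℝ≥0∞, Measurable f → ∀ p₀ : PB57 K,
      ∫⁻ p, f (mulP57 K p₀ p) * om57 K p ∂(ν.prod (τ.prod τ))
        = ∫⁻ p, f p * om57 K p ∂(ν.prod (τ.prod τ))
  intro ν hν τ hτ f hf p₀
  haveI := hν
  haveI := hτ
  obtain ⟨x₀, y₀, z₀⟩ := p₀
  obtain ⟨hNpos, hNmul, -, hNcont⟩ := hN
  have hy₀pos : 0 < nrm57 K y₀ := hNpos y₀
  set c : ℝ≥0∞ := ENNReal.ofReal (nrm57 K y₀) with hc
  have hc0 : c ≠ 0 := by
    rw [hc]
    exact (ENNReal.ofReal_pos.mpr hy₀pos).ne'
  have hctop : c ≠ ⊤ := ENNReal.ofReal_ne_top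
  -- the norm of the inverse
  have hone : nrm57 K (1 : (Adl K)ˣ) = 1 := by
    have h1 := hNmul 1 1
    rw [mul_one] at h1
    have h2 : 0 < T1.adNorm K ((1 : (Adl K)ˣ) : Adl K) := hNpos 1
    rw [nrm57_eq317]
    nlinarith
  have hinv : nrm57 K y₀⁻¹ = (nrm57 K y₀)⁻¹ := by
    have h1 := hNmul y₀ y₀⁻¹
    rw [mul_inv_cancel] at h1
    have h2 : nrm57 K y₀ * nrm57 K y₀⁻¹ = 1 := by
      rw [nrm57_eq317, nrm57_eq317, ← h1, ← nrm57_eq317, hone]
    exact eq_inv_of_mul_eq_one_right h2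
  -- the three maps
  set A : Adl K → Adl K := fun x => x₀ + (y₀ : Adl K) * x with hAdef
  set Ly : (Adl K)ˣ → (Adl K)ˣ := fun y => y₀ * y with hLydef
  set Lz : (Adl K)ˣ → (Adl K)ˣ := fun z => z₀ * z with hLzdef
  have hA : Measurable A :=
    (continuous_const.add (continuous_const.mul continuous_id)).measurable
  have hLy : Measurable Ly := (continuous_const.mul continuous_id).measurable
  have hLz : Measurable Lz := (continuous_const.mul continuous_id).measurable
  have hT : (fun p : PB57 K => mulP57 K (x₀, y₀, z₀) p) = Prod.map A (Prod.map Ly Lz) := by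
    funext p
    rfl
  have hTm : Measurable (Prod.map A (Prod.map Ly Lz)) := hA.prodMap (hLy.prodMap hLz)
  -- images of the measures
  have hmapA : Measure.map A ν = c⁻¹ • ν := by
    ext S hSm
    rw [Measure.map_apply hA hSm, Measure.smul_apply, smul_eq_mul]
    have hpre : A ⁻¹' S
        = (fun u : Adl K => ((y₀⁻¹ : (Adl K)ˣ) : Adl K) * u) '' ((fun u => x₀ + u) ⁻¹' S) := by
      ext x
      constructor
      · intro hx
        refine ⟨(y₀ : Adl K) * x, hx, ?_⟩
        simp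
      · rintro ⟨u, hu, rfl⟩
        show x₀ + (y₀ : Adl K) * (((y₀⁻¹ : (Adl K)ˣ) : Adl K) * u) ∈ S
        rw [← mul_assoc, Units.mul_inv, one_mul]
        exact hu
    rw [hpre, hS ν hν y₀⁻¹, measure_preimage_add, ← nrm57_eq317, hinv,
      ENNReal.ofReal_inv_of_pos hy₀pos]
  have hmapLy : Measure.map Ly τ = τ := map_mul_left_eq_self τ y₀
  have hmapLz : Measure.map Lz τ = τ := map_mul_left_eq_self τ z₀
  have hmapT : Measure.map (Prod.map A (Prod.map Ly Lz)) (ν.prod (τ.prod τ))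
      = c⁻¹ • (ν.prod (τ.prod τ)) := by
    rw [← Measure.map_prod_map _ _ hA (hLy.prodMap hLz), ← Measure.map_prod_map _ _ hLy hLz,
      hmapA, hmapLy, hmapLz, Measure.prod_smul_left]
  -- the weight
  have hnrm : Measurable fun y : (Adl K)ˣ => nrm57 K y := hNcont.measurable
  have hom : Measurable (om57 K) := by
    unfold om57
    exact ENNReal.measurable_ofReal.comp
      ((hnrm.comp (measurable_fst.comp measurable_snd)).inv)
  have homT : ∀ p : PB57 K, om57 K p = c * om57 K (Prod.map A (Prod.map Ly Lz) p) := by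
    intro p
    show ENNReal.ofReal ((nrm57 K p.2.1)⁻¹)
      = ENNReal.ofReal (nrm57 K y₀) * ENNReal.ofReal ((nrm57 K (y₀ * p.2.1))⁻¹)
    have h1 : nrm57 K (y₀ * p.2.1) = nrm57 K y₀ * nrm57 K p.2.1 := hNmul y₀ p.2.1
    rw [h1, ← ENNReal.ofReal_mul hy₀pos.le]
    congr 1
    field_simp
  have hg : Measurable fun q : PB57 K => f q * (c * om57 K q) :=
    hf.mul (measurable_const.mul hom)
  calc ∫⁻ p, f (mulP57 K (x₀, y₀, z₀) p) * om57 K p ∂(ν.prod (τ.prod τ))
      = ∫⁻ p, (fun q : PB57 K => f q * (c * om57 K q)) (Prod.map A (Prod.map Ly Lz) p)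
          ∂(ν.prod (τ.prod τ)) := by
        refine lintegral_congr (fun p => ?_)
        show f (mulP57 K (x₀, y₀, z₀) p) * om57 K p = _
        rw [homT p]
        rfl
    _ = ∫⁻ q, f q * (c * om57 K q) ∂(Measure.map (Prod.map A (Prod.map Ly Lz))
          (ν.prod (τ.prod τ))) := (lintegral_map hg hTm).symm
    _ = c⁻¹ * ∫⁻ q, f q * (c * om57 K q) ∂(ν.prod (τ.prod τ)) := by
        rw [hmapT, lintegral_smul_measure, smul_eq_mul]
    _ = c⁻¹ * (c * ∫⁻ q, f q * om57 K q ∂(ν.prod (τ.prod τ))) := by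
        congr 1
        rw [← lintegral_const_mul c
          (show Measurable (fun q : PB57 K => f q * om57 K q) from hf.mul hom)]
        refine lintegral_congr (fun q => ?_)
        ring
    _ = ∫⁻ q, f q * om57 K q ∂(ν.prod (τ.prod τ)) := by
        rw [← mul_assoc, ENNReal.inv_mul_cancel hc0 hctop, one_mul]

/-- **T7.14.6a-F.17 `PLTransC57`** with the Haar scaling of helper671. -/
theorem plTransC317 (hN : T1.AdNormC K) (hLC : T1.LocCompC K) : PLTransC57 K :=
  plTransC_of317 K hN hLC (T1.H671.haarScaleC671 K)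

end Fermat.Agent.LT.T7.H317

end

end
-- ===== PACK-END LT/T7/H317/PLTrans.lean

-- ===== PACK-BEGIN LT/T7/H360/CellCoord.lean
section






/-!
# Row LT, tower T7, leaf `CellCoordC290` (registry 2230, helper360)

OFF-MAIN.  `cellCoordC360 K : H290.CellCoordC290 K` VERBATIM against
`LT/T7/H290/CoreSpec.lean` (origin/helper290@706aa9d8d, sha256 7937517f69ece6df).

On `ι(P) 𝒰(𝔪)`: the bottom row of `ι(x, y, z) κ` is `z · (bottom row of κ)`, the bottom row of
`κ ∈ 𝒰(𝔪)` has local norm one at every place (unitary at the infinite places, primitive at the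
finite places), `det (ι(x, y, z) κ) = y z² det κ` and `det κ` has local norm one everywhere.
-/

set_option autoImplicit false

open AutomorphicForm IsDedekindDomain NumberField

noncomputable section

namespace Fermat.Agent.LT.T7.Rigid.H360

open Fermat.Agent.LT.H556 Fermat.Agent.LT.H556.A0 Fermat.Agent.LT.T7 Fermat.Agent.LT.T7.Rigid
open Fermat.Agent.LT.T7.H57 Fermat.Agent.LT.T7.Rigid.H290

variable {K : Type} [Field K] [NumberField K]

/-! ## Components -/

/-- The component at the infinite place `w`, in the completion. -/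
def infProj360 (w : InfinitePlace K) : Adl K →+* w.Completion :=
  (Pi.evalRingHom (fun v : InfinitePlace K => v.Completion) w).comp
    (RingHom.fst (InfiniteAdeleRing K) (FiniteAdeleRing (𝓞 K) K))

theorem infProj360_apply (w : InfinitePlace K) (x : Adl K) : infProj360 w x = x.1 w := rfl

theorem finHom360_apply (v : HeightOneSpectrum (𝓞 K)) (x : Adl K) :
    Fermat.Agent.LT.T5.finHom v x = x.2 v := rfl

theorem infHom360_apply (w : InfinitePlace K) (x : Adl K) :
    Fermat.Agent.LT.T5.infHom w x = InfinitePlace.Completion.extensionEmbedding w (x.1 w) := rfl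

omit [NumberField K] in
theorem norm_extEmb360 (w : InfinitePlace K) (x : w.Completion) :
    ‖InfinitePlace.Completion.extensionEmbedding w x‖ = ‖x‖ :=
  (InfinitePlace.Completion.isometry_extensionEmbedding w).norm_map_of_map_zero (map_zero _) x

theorem norm_infHom360 (w : InfinitePlace K) (x : Adl K) :
    ‖Fermat.Agent.LT.T5.infHom w x‖ = ‖x.1 w‖ := by
  rw [infHom360_apply, norm_extEmb360]

theorem inf_mul360 (w : InfinitePlace K) (a b : Adl K) : (a * b).1 w = a.1 w * b.1 w :=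
  map_mul (infProj360 w) a b

theorem fin_mul360 (v : HeightOneSpectrum (𝓞 K)) (a b : Adl K) : (a * b).2 v = a.2 v * b.2 v :=
  map_mul (Fermat.Agent.LT.T5.finHom v) a b

theorem finComp_mul360 (v : HeightOneSpectrum (𝓞 K)) (a b : G K) :
    finComp v (a * b) = finComp v a * finComp v b := by
  rw [Fermat.Agent.LT.T5.finComp_eq_map, Fermat.Agent.LT.T5.finComp_eq_map,
    Fermat.Agent.LT.T5.finComp_eq_map, Units.val_mul, Matrix.map_mul]

theorem finComp_one360 (v : HeightOneSpectrum (𝓞 K)) : finComp v (1 : G K) = 1 := by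
  rw [Fermat.Agent.LT.T5.finComp_eq_map, Units.val_one,
    Matrix.map_one _ (map_zero _) (map_one _)]

theorem infComp_mul360 (w : InfinitePlace K) (a b : G K) :
    infComp w (a * b) = infComp w a * infComp w b := by
  rw [Fermat.Agent.LT.T5.infComp_eq_map, Fermat.Agent.LT.T5.infComp_eq_map,
    Fermat.Agent.LT.T5.infComp_eq_map, Units.val_mul, Matrix.map_mul]

theorem infComp_one360 (w : InfinitePlace K) : infComp w (1 : G K) = 1 := by
  rw [Fermat.Agent.LT.T5.infComp_eq_map, Units.val_one,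
    Matrix.map_one _ (map_zero _) (map_one _)]

theorem finComp_det360 (v : HeightOneSpectrum (𝓞 K)) (g : G K) :
    (Matrix.det (g : Matrix (Fin 2) (Fin 2) (Adl K))).2 v = (finComp v g).det := by
  rw [Fermat.Agent.LT.T5.finComp_eq_map, ← finHom360_apply, RingHom.map_det]
  rfl

theorem infComp_det360 (w : InfinitePlace K) (g : G K) :
    Fermat.Agent.LT.T5.infHom w (Matrix.det (g : Matrix (Fin 2) (Fin 2) (Adl K)))
      = (infComp w g).det := by
  rw [Fermat.Agent.LT.T5.infComp_eq_map, RingHom.map_det]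
  rfl

/-! ## The compact group at one place -/

section Cpt

variable {𝔪 : Ideal (𝓞 K)} {κ : G K}

theorem norm_one_entry_le360 (v : HeightOneSpectrum (𝓞 K)) (i j : Fin 2) :
    ‖(1 : Matrix (Fin 2) (Fin 2) (v.adicCompletion K)) i j‖ ≤ 1 := by
  by_cases h : i = j
  · subst h
    rw [Matrix.one_apply_eq, norm_one]
  · rw [Matrix.one_apply_ne h, norm_zero]
    exact zero_le_one

theorem cpt_fin_le360 (hκ : IsCpt290 𝔪 κ) (v : HeightOneSpectrum (𝓞 K)) (i j : Fin 2) :
    ‖finComp v κ i j‖ ≤ 1 := by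
  have h1 := norm_le_one_of_mem_idealClosure360 𝔪 v (hκ.1 v i j).1
  have e : finComp v κ i j
      = (finComp v κ - 1) i j + (1 : Matrix (Fin 2) (Fin 2) (v.adicCompletion K)) i j := by
    rw [Matrix.sub_apply, sub_add_cancel]
  rw [e]
  exact (norm_add_le_max360 v _ _).trans (max_le h1 (norm_one_entry_le360 v i j))

theorem cpt_fin_inv_le360 (hκ : IsCpt290 𝔪 κ) (v : HeightOneSpectrum (𝓞 K)) (i j : Fin 2) :
    ‖finComp v κ⁻¹ i j‖ ≤ 1 := by
  have h1 := norm_le_one_of_mem_idealClosure360 𝔪 v (hκ.1 v i j).2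
  have e : finComp v κ⁻¹ i j
      = (finComp v κ⁻¹ - 1) i j + (1 : Matrix (Fin 2) (Fin 2) (v.adicCompletion K)) i j := by
    rw [Matrix.sub_apply, sub_add_cancel]
  rw [e]
  exact (norm_add_le_max360 v _ _).trans (max_le h1 (norm_one_entry_le360 v i j))

theorem norm_det_le360 (v : HeightOneSpectrum (𝓞 K))
    {M : Matrix (Fin 2) (Fin 2) (v.adicCompletion K)} (hM : ∀ i j, ‖M i j‖ ≤ 1) :
    ‖M.det‖ ≤ 1 := by
  rw [Matrix.det_fin_two]
  refine (norm_sub_le_max360 v _ _).trans (max_le ?_ ?_)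
  · rw [norm_mul]
    exact mul_le_one₀ (hM 0 0) (norm_nonneg _) (hM 1 1)
  · rw [norm_mul]
    exact mul_le_one₀ (hM 0 1) (norm_nonneg _) (hM 1 0)

theorem cpt_fin_det360 (hκ : IsCpt290 𝔪 κ) (v : HeightOneSpectrum (𝓞 K)) :
    ‖(finComp v κ).det‖ = 1 := by
  refine norm_eq_one_of_mul_eq_one360 v (b := (finComp v κ⁻¹).det)
    (norm_det_le360 v (cpt_fin_le360 hκ v)) (norm_det_le360 v (cpt_fin_inv_le360 hκ v)) ?_
  rw [← Matrix.det_mul, ← finComp_mul360, mul_inv_cancel, finComp_one360, Matrix.det_one]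

/-- The bottom row of `κ_v` is primitive. -/
theorem cpt_fin_row360 (hκ : IsCpt290 𝔪 κ) (v : HeightOneSpectrum (𝓞 K)) :
    max ‖finComp v κ 1 0‖ ‖finComp v κ 1 1‖ = 1 := by
  refine le_antisymm (max_le (cpt_fin_le360 hκ v 1 0) (cpt_fin_le360 hκ v 1 1)) ?_
  have hd := cpt_fin_det360 hκ v
  rw [Matrix.det_fin_two] at hd
  have h1 := norm_sub_le_max360 v (finComp v κ 0 0 * finComp v κ 1 1)
    (finComp v κ 0 1 * finComp v κ 1 0)
  rw [hd, norm_mul, norm_mul] at h1
  have ha : ‖finComp v κ 0 0‖ * ‖finComp v κ 1 1‖ ≤ ‖finComp v κ 1 1‖ :=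
    mul_le_of_le_one_left (norm_nonneg _) (cpt_fin_le360 hκ v 0 0)
  have hb : ‖finComp v κ 0 1‖ * ‖finComp v κ 1 0‖ ≤ ‖finComp v κ 1 0‖ :=
    mul_le_of_le_one_left (norm_nonneg _) (cpt_fin_le360 hκ v 0 1)
  rcases le_max_iff.1 h1 with h2 | h2
  · exact le_max_of_le_right (h2.trans ha)
  · exact le_max_of_le_left (h2.trans hb)

theorem cpt_inf_row360 (hκ : IsCpt290 𝔪 κ) (w : InfinitePlace K) :
    ‖((κ : Matrix (Fin 2) (Fin 2) (Adl K)) 1 0).1 w‖ ^ 2
      + ‖((κ : Matrix (Fin 2) (Fin 2) (Adl K)) 1 1).1 w‖ ^ 2 = 1 := by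
  have h := unitary_row_one360 (hκ.2 w).1
  have e : ∀ j : Fin 2, ‖infComp w κ 1 j‖ = ‖((κ : Matrix (Fin 2) (Fin 2) (Adl K)) 1 j).1 w‖ :=
    fun j => norm_extEmb360 w _
  rwa [e 0, e 1] at h

theorem cpt_inf_det360 (hκ : IsCpt290 𝔪 κ) (w : InfinitePlace K) :
    ‖(Matrix.det (κ : Matrix (Fin 2) (Fin 2) (Adl K))).1 w‖ = 1 := by
  rw [← norm_infHom360, infComp_det360]
  exact unitary_norm_det360 (hκ.2 w).1

/-- The module of the determinant of an element of `𝒰(𝔪)` is one. -/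
theorem cpt_adNorm_det360 (hκ : IsCpt290 𝔪 κ) :
    Fermat.Agent.LT.T5.adNorm (Matrix.det (κ : Matrix (Fin 2) (Fin 2) (Adl K))) = 1 := by
  unfold Fermat.Agent.LT.T5.adNorm
  have hinf : ∀ w : InfinitePlace K,
      ‖(Matrix.det (κ : Matrix (Fin 2) (Fin 2) (Adl K))).1 w‖ ^ w.mult = 1 := fun w => by
    rw [cpt_inf_det360 hκ w, one_pow]
  have hfin : ∀ v : HeightOneSpectrum (𝓞 K),
      ‖(Matrix.det (κ : Matrix (Fin 2) (Fin 2) (Adl K))).2 v‖ = 1 := fun v => by
    rw [finComp_det360, cpt_fin_det360 hκ v]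
  simp only [hinf, hfin, Finset.prod_const_one, finprod_one, mul_one]

end Cpt

/-! ## The Borel coordinates -/

theorem iota_val360 (p : Adl K × (Adl K)ˣ × (Adl K)ˣ) :
    ((iota57 K p : G K) : Matrix (Fin 2) (Fin 2) (Adl K))
      = !![(p.2.1 : Adl K) * (p.2.2 : Adl K), p.1 * (p.2.2 : Adl K); 0, (p.2.2 : Adl K)] := by
  unfold iota57
  rw [Units.val_mul, Units.val_mul]
  show (!![1, p.1; 0, 1] : Matrix (Fin 2) (Fin 2) (Adl K)) * !![(p.2.1 : Adl K), 0; 0, 1]
      * !![(p.2.2 : Adl K), 0; 0, (p.2.2 : Adl K)] = _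
  ext i j
  fin_cases i <;> fin_cases j <;> simp [Matrix.mul_apply, Fin.sum_univ_two]

theorem botRow_iota_mul360 (p : Adl K × (Adl K)ˣ × (Adl K)ˣ) (κ : G K) (j : Fin 2) :
    botRow290 (iota57 K p * κ) j
      = (p.2.2 : Adl K) * (κ : Matrix (Fin 2) (Fin 2) (Adl K)) 1 j := by
  unfold botRow290
  rw [Units.val_mul, Matrix.mul_apply, Fin.sum_univ_two, iota_val360]
  simp

theorem det_iota_mul360 (p : Adl K × (Adl K)ˣ × (Adl K)ˣ) (κ : G K) :
    Matrix.det ((iota57 K p * κ : G K) : Matrix (Fin 2) (Fin 2) (Adl K))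
      = ((p.2.1 * p.2.2 * p.2.2 * Matrix.GeneralLinearGroup.det κ : (Adl K)ˣ) : Adl K) := by
  rw [Units.val_mul, Matrix.det_mul, iota_val360, Matrix.det_fin_two_of, Units.val_mul,
    Units.val_mul, Units.val_mul, Matrix.GeneralLinearGroup.val_det_apply]
  ring

/-- The row norm of the bottom row of `ι(p) κ` is `|z|`. -/
theorem rowNorm_iota_mul360 {𝔪 : Ideal (𝓞 K)} (p : Adl K × (Adl K)ˣ × (Adl K)ˣ) {κ : G K}
    (hκ : IsCpt290 𝔪 κ) :
    rowNorm (botRow290 (iota57 K p * κ)) = nrm57 K p.2.2 := by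
  unfold rowNorm nrm57 Fermat.Agent.LT.T5.adNorm
  have hinf : ∀ w : InfinitePlace K,
      (‖(botRow290 (iota57 K p * κ) 0).1 w‖ ^ 2 + ‖(botRow290 (iota57 K p * κ) 1).1 w‖ ^ 2)
          ^ ((w.mult : ℝ) / 2)
        = ‖((p.2.2 : (Adl K)ˣ) : Adl K).1 w‖ ^ w.mult := by
    intro w
    rw [botRow_iota_mul360, botRow_iota_mul360, inf_mul360, inf_mul360, norm_mul, norm_mul,
      mul_pow, mul_pow, ← mul_add, cpt_inf_row360 hκ w, mul_one, ← Real.rpow_two,
      ← Real.rpow_mul (norm_nonneg _)]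
    have e : (2 : ℝ) * ((w.mult : ℝ) / 2) = (w.mult : ℝ) := by ring
    rw [e, Real.rpow_natCast]
  have hfin : ∀ v : HeightOneSpectrum (𝓞 K),
      max ‖(botRow290 (iota57 K p * κ) 0).2 v‖ ‖(botRow290 (iota57 K p * κ) 1).2 v‖
        = ‖((p.2.2 : (Adl K)ˣ) : Adl K).2 v‖ := by
    intro v
    rw [botRow_iota_mul360, botRow_iota_mul360, fin_mul360, fin_mul360, norm_mul, norm_mul,
      ← mul_max_of_nonneg _ _ (norm_nonneg _)]
    have h := cpt_fin_row360 hκ v
    have e : ∀ j : Fin 2, finComp v κ 1 j = ((κ : Matrix (Fin 2) (Fin 2) (Adl K)) 1 j).2 v :=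
      fun _ => rfl
    rw [e 0, e 1] at h
    rw [h, mul_one]
  simp only [hinf, hfin]

/-! ## The leaf -/

variable (K)

/-- **LEAF CELL-COORD** (`H290.CellCoordC290`, VERBATIM). -/
theorem cellCoordC360 : CellCoordC290 K := by
  intro _ hT1 𝔪 _
  obtain ⟨hpos, hmul, -, -⟩ := hT1.adNorm
  have hpos' : ∀ x : (Adl K)ˣ, 0 < nrm57 K x := fun x => hpos x
  have hmul' : ∀ x y : (Adl K)ˣ, nrm57 K (x * y) = nrm57 K x * nrm57 K y :=
    fun x y => hmul x y
  refine ⟨?_, ?_⟩
  · intro p κ hκ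
    have hrow := rowNorm_iota_mul360 p hκ
    have hdet : Fermat.Agent.LT.T5.adNorm
        (Matrix.det ((iota57 K p * κ : G K) : Matrix (Fin 2) (Fin 2) (Adl K)))
          = nrm57 K p.2.1 * nrm57 K p.2.2 ^ 2 := by
      have hκd : nrm57 K (Matrix.GeneralLinearGroup.det κ) = 1 := by
        unfold nrm57
        rw [Matrix.GeneralLinearGroup.val_det_apply]
        exact cpt_adNorm_det360 hκ
      rw [det_iota_mul360]
      show nrm57 K (p.2.1 * p.2.2 * p.2.2 * Matrix.GeneralLinearGroup.det κ) = _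
      rw [hmul', hmul', hmul', hκd]
      ring
    have hz := hpos' p.2.2
    have hz2 : 0 < nrm57 K p.2.2 ^ 2 := pow_pos hz 2
    refine ⟨?_, ?_, hdet⟩
    · intro Y _
      constructor
      · rintro ⟨h, -⟩
        rw [hrow, hdet, mul_comm] at h
        exact le_of_mul_le_mul_right h hz2
      · intro hY
        refine ⟨?_, ?_⟩
        · rw [hrow, hdet, mul_comm]
          exact mul_le_mul_of_nonneg_right hY hz2.le
        · intro v hv
          have h10 := (hκ.1 v 1 0).1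
          have h11 := (hκ.1 v 1 1).1
          rw [Matrix.sub_apply, Matrix.one_apply_ne (by decide : (1 : Fin 2) ≠ 0),
            sub_zero] at h10
          rw [Matrix.sub_apply, Matrix.one_apply_eq] at h11
          have hn11 : ‖finComp v κ 1 1‖ = 1 :=
            norm_eq_one_of_sub_one_lt360 v (norm_lt_one_of_mem_idealClosure360 𝔪 v hv h11)
          have hne : finComp v κ 1 1 ≠ 0 := by
            intro h0
            rw [h0, norm_zero] at hn11
            exact zero_ne_one hn11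
          have hinv : (finComp v κ 1 1)⁻¹ ∈ v.adicCompletionIntegers K := by
            rw [← norm_le_one_iff360, norm_inv, hn11, inv_one]
          refine ⟨(finComp v κ 1 1)⁻¹ * finComp v κ 1 0,
            mul_mem_idealClosure360 𝔪 v hinv h10, ?_⟩
          rw [botRow_iota_mul360, botRow_iota_mul360, fin_mul360, fin_mul360]
          show _ * finComp v κ 1 0 = _ * (_ * finComp v κ 1 1)
          field_simp
    · unfold hgt290
      rw [hrow, hdet]
      field_simp
  · intro κ κ' hκ hκ'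
    refine ⟨?_, ?_⟩
    · intro v i j
      have key : ∀ A B : Matrix (Fin 2) (Fin 2) (v.adicCompletion K),
          (∀ i j, (A - 1) i j ∈ idealClosure 𝔪 v) → (∀ i j, (B - 1) i j ∈ idealClosure 𝔪 v) →
          ∀ i j, (A * B - 1) i j ∈ idealClosure 𝔪 v := by
        intro A B hA hB i j
        have e : A * B - 1 = (A - 1) * (B - 1) + (A - 1) + (B - 1) := by
          noncomm_ring
        rw [e, Matrix.add_apply, Matrix.add_apply, Matrix.mul_apply, Fin.sum_univ_two]
        exact add_mem_idealClosure360 𝔪 v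
          (add_mem_idealClosure360 𝔪 v
            (add_mem_idealClosure360 𝔪 v
              (mul_mem_idealClosure360' 𝔪 v (hA i 0) (hB 0 j))
              (mul_mem_idealClosure360' 𝔪 v (hA i 1) (hB 1 j)))
            (hA i j)) (hB i j)
      refine ⟨?_, ?_⟩
      · rw [finComp_mul360]
        exact key _ _ (fun i j => (hκ.1 v i j).1) (fun i j => (hκ'.1 v i j).2) i j
      · rw [mul_inv_rev, inv_inv, finComp_mul360]
        exact key _ _ (fun i j => (hκ'.1 v i j).1) (fun i j => (hκ.1 v i j).2) i j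
    · intro w
      obtain ⟨hU, hUd⟩ := hκ.2 w
      obtain ⟨hU', hUd'⟩ := hκ'.2 w
      have hVU : infComp w κ'⁻¹ * infComp w κ' = 1 := by
        rw [← infComp_mul360, inv_mul_cancel, infComp_one360]
      have hV : infComp w κ'⁻¹ = (infComp w κ').conjTranspose := by
        calc infComp w κ'⁻¹
            = infComp w κ'⁻¹ * (infComp w κ' * (infComp w κ').conjTranspose) := by
              rw [hU', mul_one]
          _ = (infComp w κ'⁻¹ * infComp w κ') * (infComp w κ').conjTranspose := by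
              rw [mul_assoc]
          _ = (infComp w κ').conjTranspose := by rw [hVU, one_mul]
      have hU'' : (infComp w κ').conjTranspose * infComp w κ' = 1 :=
        mul_eq_one_comm.1 hU'
      refine ⟨?_, ?_⟩
      · rw [infComp_mul360, hV, Matrix.conjTranspose_mul, Matrix.conjTranspose_conjTranspose,
          mul_assoc, ← mul_assoc (infComp w κ').conjTranspose, hU'', one_mul, hU]
      · intro hw
        have hdV : (infComp w κ'⁻¹).det = 1 := by
          have h := congrArg Matrix.det hVU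
          rw [Matrix.det_mul, hUd' hw, mul_one, Matrix.det_one] at h
          exact h
        rw [infComp_mul360, Matrix.det_mul, hUd hw, hdV, mul_one]

end Fermat.Agent.LT.T7.Rigid.H360

end

end
-- ===== PACK-END LT/T7/H360/CellCoord.lean

-- ===== PACK-BEGIN LT/T7/H389/PRTrans.lean
section




/-!
# Row LT, tower T7, LEAF T7.14.6a-F.16 `PRTransC57` (registry 2214, owner helper389)

OFF-MAIN.  `pRTransC389 : T1.AdNormC K → T1.LocCompC K → H57.PRTransC57 K`, VERBATIM against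
`Fermat/Agent/LT/T7/H57/FoldSpec5.lean` (helper57@6a1f79c59, sha256 8a9bba37).

Proof: Tonelli on `𝔸 × 𝔸ˣ × 𝔸ˣ`, translation invariance of `ν` in `x` for fixed `y`, invariance of
`τ` in `z` and `y` (the idele group is commutative), `|y y₀| = |y| |y₀|`
(abstract core: `PRTransAbs.lean`, Mathlib only).
-/

set_option autoImplicit false
set_option linter.style.haveILetI false

open AutomorphicForm IsDedekindDomain NumberField Filter Topology MeasureTheory
open scoped ENNReal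

noncomputable section

namespace Fermat.Agent.LT.T7.H389

open Fermat.Agent.LT.H556 Fermat.Agent.LT.H556.A0 Fermat.Agent.LT.T7 Fermat.Agent.LT.T7.H57

variable (K : Type) [Field K] [NumberField K]

/-- **LEAF P-RTRANS** (registry 2214). -/
theorem pRTransC389 (hN : Fermat.Agent.LT.T1.AdNormC K) (hL : Fermat.Agent.LT.T1.LocCompC K) :
    PRTransC57 K := by
  obtain ⟨hpos, hmul, -, hcont⟩ := hN
  obtain ⟨⟨hlc, ht2, hsc⟩, -⟩ := hL
  haveI : LocallyCompactSpace (Adl K) := hlc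
  haveI : T2Space (Adl K) := ht2
  haveI : SecondCountableTopology (Adl K) := hsc
  unfold PRTransC57
  letI : MeasurableSpace (Adl K) := borel (Adl K)
  letI : MeasurableSpace (Adl K)ˣ := borel (Adl K)ˣ
  haveI : BorelSpace (Adl K) := ⟨rfl⟩
  haveI : BorelSpace (Adl K)ˣ := ⟨rfl⟩
  haveI : SecondCountableTopology (Adl K)ᵐᵒᵖ :=
    (MulOpposite.opHomeomorph (M := Adl K)).symm.secondCountableTopology
  haveI : SecondCountableTopology (Adl K)ˣ :=
    Units.isEmbedding_embedProduct.secondCountableTopology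
  intro ν hν τ hτ f hf p₀
  have hNpos : ∀ y : (Adl K)ˣ, 0 < nrm57 K y := fun y => hpos y
  have hNmul : ∀ y y' : (Adl K)ˣ, nrm57 K (y * y') = nrm57 K y * nrm57 K y' :=
    fun y y' => hmul y y'
  have hNmeas : Measurable fun y : (Adl K)ˣ => nrm57 K y := by
    have h : Continuous fun y : (Adl K)ˣ => nrm57 K y := hcont
    exact h.measurable
  have hc : Measurable fun y : (Adl K)ˣ => (y : Adl K) * p₀.1 :=
    (Units.continuous_val.mul continuous_const).measurable
  have key := prtrans_abs389 ν τ (fun y : (Adl K)ˣ => nrm57 K y) hNpos hNmul hNmeas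
    (fun y : (Adl K)ˣ => (y : Adl K) * p₀.1) hc f hf p₀.2.1 p₀.2.2
  exact key

end Fermat.Agent.LT.T7.H389

end

end
-- ===== PACK-END LT/T7/H389/PRTrans.lean

-- ===== PACK-BEGIN LT/T7/H553/RowInv.lean
section



/-!
# Row LT, tower T7, LEAF T7.14.6a-F.13 `RowInvC57` (helper553, registry row 2211)

OFF-MAIN, never land.  `rowInvC553 (h : T1.T1Out K) : H57.RowInvC57 K`, VERBATIM vs
`LT/T7/H57/FoldSpec5.lean` (sha256 8a9bba37, helper57@6a1f79c59).  UNCONDITIONAL (the hypotheses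
`T1.T1Out K`, `TotCplx K`, `IsSupp S 𝔪` are not used).

Right invariance of `rowNorm (bottom row)`, `|det|` and `Ω` under the generators of `U(𝔪) K_∞`.

* `u` in the level group: `u_w = 1` at the infinite places; at a finite place `v` the matrices
  `u_v`, `u_v⁻¹` have entries of norm `≤ 1` (`idealClosure 𝔪 v` lies in the closed unit ball), so
  `max(|c|, |d|)_v` is unchanged (ultrametric inequality, both directions) and `|det u_v| = 1`.
  `Ω`: for `v ∣ 𝔪` the set `I = idealClosure 𝔪 v` is closed, stable under `+`, `-`, `·` and lies in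
  the open unit ball; if `c = t d` then `(c, d) u_v = d (a, 1 + s)` with `a, s ∈ I`, and
  `a (1 + s)⁻¹ = ∑ a (-s)ⁿ ∈ I` (geometric series, `I` is closed).
* `k` an archimedean compact at `w`: only the factor at `w` changes; `|c|² + |d|²` is invariant
  under a unitary matrix and `|det k_w| = 1`.
-/

set_option autoImplicit false

open AutomorphicForm IsDedekindDomain NumberField Filter Topology MeasureTheory
open scoped ComplexConjugate ENNReal

noncomputable section

namespace Fermat.Agent.LT.T7.H553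

open Fermat.Agent.LT.H556 Fermat.Agent.LT.H556.A0 Fermat.Agent.LT.T7 Fermat.Agent.LT.T7.Rigid
open Fermat.Agent.LT.T7.H57

variable {K : Type} [Field K] [NumberField K]

/-! ## 1. The closure of an ideal at a finite place -/

section IdealClosure

variable (𝔪 : Ideal (𝓞 K)) (v : HeightOneSpectrum (𝓞 K))

theorem zero_mem_idealClosure553 : (0 : v.adicCompletion K) ∈ idealClosure 𝔪 v :=
  subset_closure ⟨0, 𝔪.zero_mem, by simp⟩

variable {𝔪 v}

theorem add_mem_idealClosure553 {x y : v.adicCompletion K} (hx : x ∈ idealClosure 𝔪 v)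
    (hy : y ∈ idealClosure 𝔪 v) : x + y ∈ idealClosure 𝔪 v := by
  unfold idealClosure at hx hy ⊢
  refine map_mem_closure₂ (f := fun a b => a + b) continuous_add hx hy ?_
  rintro _ ⟨a, ha, rfl⟩ _ ⟨b, hb, rfl⟩
  exact ⟨a + b, 𝔪.add_mem ha hb, by simp⟩

theorem neg_mem_idealClosure553 {x : v.adicCompletion K} (hx : x ∈ idealClosure 𝔪 v) :
    -x ∈ idealClosure 𝔪 v := by
  unfold idealClosure at hx ⊢
  refine map_mem_closure (f := fun a => -a) continuous_neg hx ?_
  rintro _ ⟨a, ha, rfl⟩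
  exact ⟨-a, 𝔪.neg_mem ha, by simp⟩

theorem mul_mem_idealClosure553 {x y : v.adicCompletion K} (hx : x ∈ idealClosure 𝔪 v)
    (hy : y ∈ idealClosure 𝔪 v) : x * y ∈ idealClosure 𝔪 v := by
  unfold idealClosure at hx hy ⊢
  refine map_mem_closure₂ (f := fun a b => a * b) continuous_mul hx hy ?_
  rintro _ ⟨a, ha, rfl⟩ _ ⟨b, hb, rfl⟩
  exact ⟨a * b, 𝔪.mul_mem_left a hb, by simp⟩

theorem norm_le_one_of_mem_idealClosure553 {x : v.adicCompletion K}
    (hx : x ∈ idealClosure 𝔪 v) : ‖x‖ ≤ 1 := by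
  have hcl : IsClosed {y : v.adicCompletion K | ‖y‖ ≤ 1} :=
    isClosed_le continuous_norm continuous_const
  have hsub : idealClosure 𝔪 v ⊆ {y : v.adicCompletion K | ‖y‖ ≤ 1} := by
    refine closure_minimal ?_ hcl
    rintro _ ⟨a, -, rfl⟩
    exact NumberField.FinitePlace.norm_le_one K v a
  exact hsub hx

theorem norm_lt_one_of_mem_idealClosure553 (hv : v.asIdeal ∣ 𝔪) {x : v.adicCompletion K}
    (hx : x ∈ idealClosure 𝔪 v) : ‖x‖ < 1 := by
  have hcl : IsClosed {y : v.adicCompletion K | ‖y‖ < 1} := by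
    have h := IsUltrametricDist.isClosed_ball (0 : v.adicCompletion K) 1
    have he : {y : v.adicCompletion K | ‖y‖ < 1} = Metric.ball (0 : v.adicCompletion K) 1 := by
      ext y
      simp [Metric.mem_ball, dist_zero_right]
    rw [he]
    exact h
  have hsub : idealClosure 𝔪 v ⊆ {y : v.adicCompletion K | ‖y‖ < 1} := by
    refine closure_minimal ?_ hcl
    rintro _ ⟨a, ha, rfl⟩
    exact (NumberField.FinitePlace.norm_lt_one_iff_mem K v a).2 (Ideal.le_of_dvd hv ha)
  exact hsub hx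

theorem mul_pow_neg_mem_idealClosure553 {a s : v.adicCompletion K}
    (ha : a ∈ idealClosure 𝔪 v) (hs : s ∈ idealClosure 𝔪 v) (n : ℕ) :
    a * (-s) ^ n ∈ idealClosure 𝔪 v := by
  induction n with
  | zero => simpa using ha
  | succ n ih =>
    have h : a * (-s) ^ (n + 1) = (a * (-s) ^ n) * (-s) := by ring
    rw [h]
    exact mul_mem_idealClosure553 ih (neg_mem_idealClosure553 hs)

/-- The geometric series: `a (1 + s)⁻¹ ∈ I` for `a, s ∈ I`, `|s| < 1`. -/
theorem mul_inv_one_add_mem_idealClosure553 {a s : v.adicCompletion K}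
    (ha : a ∈ idealClosure 𝔪 v) (hs : s ∈ idealClosure 𝔪 v) (hs1 : ‖s‖ < 1) :
    a * (1 + s)⁻¹ ∈ idealClosure 𝔪 v := by
  have hgeo : HasSum (fun n : ℕ => (-s) ^ n) (1 - (-s))⁻¹ :=
    hasSum_geometric_of_norm_lt_one (by rwa [norm_neg])
  have h2 : HasSum (fun n : ℕ => a * (-s) ^ n) (a * (1 + s)⁻¹) := by
    have h3 := hgeo.mul_left a
    rwa [sub_neg_eq_add] at h3
  have hmem : ∀ N : ℕ, (∑ n ∈ Finset.range N, a * (-s) ^ n) ∈ idealClosure 𝔪 v := by
    intro N
    induction N with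
    | zero =>
      rw [Finset.sum_range_zero]
      exact zero_mem_idealClosure553 𝔪 v
    | succ N ih =>
      rw [Finset.sum_range_succ]
      exact add_mem_idealClosure553 ih (mul_pow_neg_mem_idealClosure553 ha hs N)
  have hcl : IsClosed (idealClosure 𝔪 v) := isClosed_closure
  exact hcl.mem_of_tendsto h2.tendsto_sum_nat (Eventually.of_forall hmem)

end IdealClosure

/-! ## 2. Local linear algebra -/

section Local

/-- Ultrametric: a matrix with entries of norm `≤ 1` does not increase `max(|c|, |d|)`. -/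
theorem max_row_le553 {F : Type*} [NormedField F] [IsUltrametricDist F]
    (U : Matrix (Fin 2) (Fin 2) F) (hU : ∀ i j, ‖U i j‖ ≤ 1) (c d : F) :
    max ‖c * U 0 0 + d * U 1 0‖ ‖c * U 0 1 + d * U 1 1‖ ≤ max ‖c‖ ‖d‖ := by
  have key : ∀ j : Fin 2, ‖c * U 0 j + d * U 1 j‖ ≤ max ‖c‖ ‖d‖ := by
    intro j
    refine (IsUltrametricDist.norm_add_le_max _ _).trans (max_le_max ?_ ?_)
    · rw [norm_mul]
      exact mul_le_of_le_one_right (norm_nonneg _) (hU 0 j)
    · rw [norm_mul]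
      exact mul_le_of_le_one_right (norm_nonneg _) (hU 1 j)
  exact max_le (key 0) (key 1)

/-- Ultrametric: a matrix of `GL₂` of the unit ball preserves `max(|c|, |d|)`. -/
theorem max_row_eq553 {F : Type*} [NormedField F] [IsUltrametricDist F]
    (U U' : Matrix (Fin 2) (Fin 2) F) (hU : ∀ i j, ‖U i j‖ ≤ 1) (hU' : ∀ i j, ‖U' i j‖ ≤ 1)
    (hUU' : U * U' = 1) (c d : F) :
    max ‖c * U 0 0 + d * U 1 0‖ ‖c * U 0 1 + d * U 1 1‖ = max ‖c‖ ‖d‖ := by
  refine le_antisymm (max_row_le553 U hU c d) ?_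
  have h00 : U 0 0 * U' 0 0 + U 0 1 * U' 1 0 = 1 := by
    have := congrFun (congrFun hUU' 0) 0
    simpa [Matrix.mul_apply, Fin.sum_univ_two] using this
  have h01 : U 0 0 * U' 0 1 + U 0 1 * U' 1 1 = 0 := by
    have := congrFun (congrFun hUU' 0) 1
    simpa [Matrix.mul_apply, Fin.sum_univ_two] using this
  have h10 : U 1 0 * U' 0 0 + U 1 1 * U' 1 0 = 0 := by
    have := congrFun (congrFun hUU' 1) 0
    simpa [Matrix.mul_apply, Fin.sum_univ_two] using this
  have h11 : U 1 0 * U' 0 1 + U 1 1 * U' 1 1 = 1 := by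
    have := congrFun (congrFun hUU' 1) 1
    simpa [Matrix.mul_apply, Fin.sum_univ_two] using this
  have hc : c = (c * U 0 0 + d * U 1 0) * U' 0 0 + (c * U 0 1 + d * U 1 1) * U' 1 0 := by
    linear_combination (-c) * h00 + (-d) * h10
  have hd : d = (c * U 0 0 + d * U 1 0) * U' 0 1 + (c * U 0 1 + d * U 1 1) * U' 1 1 := by
    linear_combination (-c) * h01 + (-d) * h11
  have h := max_row_le553 U' hU' (c * U 0 0 + d * U 1 0) (c * U 0 1 + d * U 1 1)
  rw [← hc, ← hd] at h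
  exact h

/-- Ultrametric: the determinant of a matrix of `GL₂` of the unit ball has norm `1`. -/
theorem norm_det_eq_one553 {F : Type*} [NormedField F] [IsUltrametricDist F]
    (U U' : Matrix (Fin 2) (Fin 2) F) (hU : ∀ i j, ‖U i j‖ ≤ 1) (hU' : ∀ i j, ‖U' i j‖ ≤ 1)
    (hUU' : U * U' = 1) : ‖U.det‖ = 1 := by
  have hdet : ∀ V : Matrix (Fin 2) (Fin 2) F, (∀ i j, ‖V i j‖ ≤ 1) → ‖V.det‖ ≤ 1 := by
    intro V hV
    rw [Matrix.det_fin_two, sub_eq_add_neg]
    refine (IsUltrametricDist.norm_add_le_max _ _).trans (max_le ?_ ?_)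
    · rw [norm_mul]
      exact mul_le_one₀ (hV 0 0) (norm_nonneg _) (hV 1 1)
    · rw [norm_neg, norm_mul]
      exact mul_le_one₀ (hV 0 1) (norm_nonneg _) (hV 1 0)
  have h1 : ‖U.det‖ * ‖U'.det‖ = 1 := by
    rw [← norm_mul, ← Matrix.det_mul, hUU', Matrix.det_one, norm_one]
  have ha := hdet U hU
  have hb := hdet U' hU'
  have hna := norm_nonneg U.det
  have hnb := norm_nonneg U'.det
  nlinarith

/-- A unitary matrix preserves `|x|² + |y|²` (row vectors). -/
theorem unitary_row_norm553 (M : Matrix (Fin 2) (Fin 2) ℂ) (hM : M * M.conjTranspose = 1)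
    (x y : ℂ) :
    ‖x * M 0 0 + y * M 1 0‖ ^ 2 + ‖x * M 0 1 + y * M 1 1‖ ^ 2 = ‖x‖ ^ 2 + ‖y‖ ^ 2 := by
  have h00 : M 0 0 * conj (M 0 0) + M 0 1 * conj (M 0 1) = 1 := by
    have := congrFun (congrFun hM 0) 0
    simpa [Matrix.mul_apply, Fin.sum_univ_two, Matrix.conjTranspose_apply] using this
  have h01 : M 0 0 * conj (M 1 0) + M 0 1 * conj (M 1 1) = 0 := by
    have := congrFun (congrFun hM 0) 1
    simpa [Matrix.mul_apply, Fin.sum_univ_two, Matrix.conjTranspose_apply] using this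
  have h10 : M 1 0 * conj (M 0 0) + M 1 1 * conj (M 0 1) = 0 := by
    have := congrFun (congrFun hM 1) 0
    simpa [Matrix.mul_apply, Fin.sum_univ_two, Matrix.conjTranspose_apply] using this
  have h11 : M 1 0 * conj (M 1 0) + M 1 1 * conj (M 1 1) = 1 := by
    have := congrFun (congrFun hM 1) 1
    simpa [Matrix.mul_apply, Fin.sum_univ_two, Matrix.conjTranspose_apply] using this
  have hsq : ∀ z : ℂ, z * conj z = ((‖z‖ ^ 2 : ℝ) : ℂ) := by
    intro z
    rw [Complex.mul_conj, Complex.normSq_eq_norm_sq]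
  have key : (x * M 0 0 + y * M 1 0) * conj (x * M 0 0 + y * M 1 0)
      + (x * M 0 1 + y * M 1 1) * conj (x * M 0 1 + y * M 1 1) = x * conj x + y * conj y := by
    simp only [map_add, map_mul]
    linear_combination (x * conj x) * h00 + (x * conj y) * h01 + (y * conj x) * h10
      + (y * conj y) * h11
  rw [hsq, hsq, hsq, hsq] at key
  exact_mod_cast key

/-- The determinant of a unitary matrix has norm `1`. -/
theorem unitary_norm_det553 (M : Matrix (Fin 2) (Fin 2) ℂ) (hM : M * M.conjTranspose = 1) :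
    ‖M.det‖ = 1 := by
  have h1 : M.det * conj M.det = 1 := by
    have := congrArg Matrix.det hM
    rw [Matrix.det_mul, Matrix.det_conjTranspose, Matrix.det_one] at this
    exact this
  have h2 : ((‖M.det‖ ^ 2 : ℝ) : ℂ) = 1 := by
    rw [← h1, Complex.mul_conj, Complex.normSq_eq_norm_sq]
  have h3 : ‖M.det‖ ^ 2 = 1 := by exact_mod_cast h2
  have h4 := norm_nonneg M.det
  nlinarith

end Local

/-! ## 3. Components of products -/

section Components

theorem coe_mul553 (g h : G K) :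
    ((g * h : G K) : Matrix (Fin 2) (Fin 2) (Adl K))
      = (g : Matrix (Fin 2) (Fin 2) (Adl K)) * (h : Matrix (Fin 2) (Fin 2) (Adl K)) :=
  Units.val_mul g h

theorem botRow_mul553 (g h : G K) (j : Fin 2) :
    botRow57 K (g * h) j
      = botRow57 K g 0 * (h : Matrix (Fin 2) (Fin 2) (Adl K)) 0 j
        + botRow57 K g 1 * (h : Matrix (Fin 2) (Fin 2) (Adl K)) 1 j := by
  show ((g * h : G K) : Matrix (Fin 2) (Fin 2) (Adl K)) 1 j
    = (g : Matrix (Fin 2) (Fin 2) (Adl K)) 1 0 * (h : Matrix (Fin 2) (Fin 2) (Adl K)) 0 j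
      + (g : Matrix (Fin 2) (Fin 2) (Adl K)) 1 1 * (h : Matrix (Fin 2) (Fin 2) (Adl K)) 1 j
  rw [coe_mul553, Matrix.mul_apply, Fin.sum_univ_two]

theorem botRow_mul_fin553 (g h : G K) (v : HeightOneSpectrum (𝓞 K)) (j : Fin 2) :
    (botRow57 K (g * h) j).2 v
      = (botRow57 K g 0).2 v * finComp v h 0 j + (botRow57 K g 1).2 v * finComp v h 1 j := by
  rw [botRow_mul553]
  rfl

theorem botRow_mul_inf553 (g h : G K) (w : InfinitePlace K) (j : Fin 2) :
    (botRow57 K (g * h) j).1 w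
      = (botRow57 K g 0).1 w * ((h : Matrix (Fin 2) (Fin 2) (Adl K)) 0 j).1 w
        + (botRow57 K g 1).1 w * ((h : Matrix (Fin 2) (Fin 2) (Adl K)) 1 j).1 w := by
  rw [botRow_mul553]
  rfl

/-- The component at the infinite place `w`, in the completion. -/
def infR553 (w : InfinitePlace K) : Adl K →+* w.Completion :=
  (Pi.evalRingHom (fun v : InfinitePlace K => v.Completion) w).comp
    (RingHom.fst (InfiniteAdeleRing K) (FiniteAdeleRing (𝓞 K) K))

theorem infR_apply553 (w : InfinitePlace K) (x : Adl K) : infR553 w x = x.1 w := rfl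

theorem trivAtInf_iff553 (w : InfinitePlace K) (g : G K) :
    TrivAtInf w g ↔ (g : Matrix (Fin 2) (Fin 2) (Adl K)).map (infR553 w) = 1 := by
  constructor
  · intro h
    exact Matrix.ext fun i j => h i j
  · intro h i j
    exact congrFun (congrFun h i) j

theorem map_infR_mul553 (w : InfinitePlace K) (g h : G K) :
    ((g * h : G K) : Matrix (Fin 2) (Fin 2) (Adl K)).map (infR553 w)
      = (g : Matrix (Fin 2) (Fin 2) (Adl K)).map (infR553 w)
        * (h : Matrix (Fin 2) (Fin 2) (Adl K)).map (infR553 w) := by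
  rw [coe_mul553, Matrix.map_mul]

theorem finComp_mul553 (v : HeightOneSpectrum (𝓞 K)) (g h : G K) :
    finComp v (g * h) = finComp v g * finComp v h := by
  rw [Fermat.Agent.LT.T5.finComp_eq_map, Fermat.Agent.LT.T5.finComp_eq_map,
    Fermat.Agent.LT.T5.finComp_eq_map, coe_mul553, Matrix.map_mul]

theorem coe_one553 : ((1 : G K) : Matrix (Fin 2) (Fin 2) (Adl K)) = 1 := rfl

theorem finComp_one553 (v : HeightOneSpectrum (𝓞 K)) : finComp v (1 : G K) = 1 := by
  rw [Fermat.Agent.LT.T5.finComp_eq_map, coe_one553]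
  exact Matrix.map_one (Fermat.Agent.LT.T5.finHom v) (map_zero _) (map_one _)

theorem finComp_mul_inv553 (v : HeightOneSpectrum (𝓞 K)) (u : G K) :
    finComp v u * finComp v u⁻¹ = 1 := by
  rw [← finComp_mul553, mul_inv_cancel, finComp_one553]

theorem det_fin553 (v : HeightOneSpectrum (𝓞 K)) (g : G K) :
    (Matrix.det (g : Matrix (Fin 2) (Fin 2) (Adl K))).2 v = (finComp v g).det := by
  rw [Fermat.Agent.LT.T5.finComp_eq_map]
  exact RingHom.map_det (Fermat.Agent.LT.T5.finHom v) (g : Matrix (Fin 2) (Fin 2) (Adl K))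

theorem det_infHom553 (w : InfinitePlace K) (g : G K) :
    Fermat.Agent.LT.T5.infHom w (Matrix.det (g : Matrix (Fin 2) (Fin 2) (Adl K)))
      = (infComp w g).det := by
  rw [Fermat.Agent.LT.T5.infComp_eq_map]
  exact RingHom.map_det (Fermat.Agent.LT.T5.infHom w) (g : Matrix (Fin 2) (Fin 2) (Adl K))

theorem det_infR553 (w : InfinitePlace K) (g : G K) :
    (Matrix.det (g : Matrix (Fin 2) (Fin 2) (Adl K))).1 w
      = ((g : Matrix (Fin 2) (Fin 2) (Adl K)).map (infR553 w)).det :=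
  RingHom.map_det (infR553 w) (g : Matrix (Fin 2) (Fin 2) (Adl K))

theorem norm_inf553 (w : InfinitePlace K) (x : Adl K) :
    ‖x.1 w‖ = ‖Fermat.Agent.LT.T5.infHom w x‖ :=
  ((AddMonoidHomClass.isometry_iff_norm _).1
    (InfinitePlace.Completion.isometry_extensionEmbedding w) (x.1 w)).symm

theorem botRow_mul_inf_of_triv553 (g : G K) {h : G K} {w : InfinitePlace K}
    (hw : TrivAtInf w h) (j : Fin 2) :
    (botRow57 K (g * h) j).1 w = (botRow57 K g j).1 w := by
  rw [botRow_mul_inf553, hw 0 j, hw 1 j]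
  revert j
  rw [Fin.forall_fin_two]
  constructor <;> simp

theorem botRow_mul_fin_of_triv553 (g : G K) {h : G K} {v : HeightOneSpectrum (𝓞 K)}
    (hv : TrivAtFin v h) (j : Fin 2) :
    (botRow57 K (g * h) j).2 v = (botRow57 K g j).2 v := by
  have hv' : finComp v h = 1 := hv
  rw [botRow_mul_fin553, hv']
  revert j
  rw [Fin.forall_fin_two]
  constructor <;> simp

theorem norm_det_inf_of_triv553 {h : G K} {w : InfinitePlace K} (hw : TrivAtInf w h) :
    ‖(Matrix.det (h : Matrix (Fin 2) (Fin 2) (Adl K))).1 w‖ = 1 := by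
  rw [det_infR553, (trivAtInf_iff553 w h).1 hw, Matrix.det_one, norm_one]

theorem norm_det_fin_of_triv553 {h : G K} {v : HeightOneSpectrum (𝓞 K)} (hv : TrivAtFin v h) :
    ‖(Matrix.det (h : Matrix (Fin 2) (Fin 2) (Adl K))).2 v‖ = 1 := by
  have hv' : finComp v h = 1 := hv
  rw [det_fin553, hv', Matrix.det_one, norm_one]

theorem adNorm_det_mul553 (g h : G K)
    (h1 : ∀ w : InfinitePlace K, ‖(Matrix.det (h : Matrix (Fin 2) (Fin 2) (Adl K))).1 w‖ = 1)
    (h2 : ∀ v : HeightOneSpectrum (𝓞 K),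
      ‖(Matrix.det (h : Matrix (Fin 2) (Fin 2) (Adl K))).2 v‖ = 1) :
    Fermat.Agent.LT.T5.adNorm (Matrix.det ((g * h : G K) : Matrix (Fin 2) (Fin 2) (Adl K)))
      = Fermat.Agent.LT.T5.adNorm (Matrix.det (g : Matrix (Fin 2) (Fin 2) (Adl K))) := by
  rw [coe_mul553, Matrix.det_mul]
  unfold Fermat.Agent.LT.T5.adNorm
  congr 1
  · refine Finset.prod_congr rfl fun w _ => ?_
    have e : ((Matrix.det (g : Matrix (Fin 2) (Fin 2) (Adl K))
        * Matrix.det (h : Matrix (Fin 2) (Fin 2) (Adl K))).1 w)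
        = (Matrix.det (g : Matrix (Fin 2) (Fin 2) (Adl K))).1 w
          * (Matrix.det (h : Matrix (Fin 2) (Fin 2) (Adl K))).1 w := rfl
    rw [e, norm_mul, h1 w, mul_one]
  · refine finprod_congr fun v => ?_
    have e : ((Matrix.det (g : Matrix (Fin 2) (Fin 2) (Adl K))
        * Matrix.det (h : Matrix (Fin 2) (Fin 2) (Adl K))).2 v)
        = (Matrix.det (g : Matrix (Fin 2) (Fin 2) (Adl K))).2 v
          * (Matrix.det (h : Matrix (Fin 2) (Fin 2) (Adl K))).2 v := rfl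
    rw [e, norm_mul, h2 v, mul_one]

theorem rowNorm_congr553 (r r' : Fin 2 → Adl K)
    (h1 : ∀ w : InfinitePlace K,
      ‖(r 0).1 w‖ ^ 2 + ‖(r 1).1 w‖ ^ 2 = ‖(r' 0).1 w‖ ^ 2 + ‖(r' 1).1 w‖ ^ 2)
    (h2 : ∀ v : HeightOneSpectrum (𝓞 K),
      max ‖(r 0).2 v‖ ‖(r 1).2 v‖ = max ‖(r' 0).2 v‖ ‖(r' 1).2 v‖) :
    rowNorm r = rowNorm r' := by
  unfold rowNorm
  congr 1
  · exact Finset.prod_congr rfl fun w _ => by rw [h1 w]
  · exact finprod_congr h2

end Components

/-! ## 4. The level group -/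

section Level

variable {𝔪 : Ideal (𝓞 K)}

theorem norm_entry_le_one553 {v : HeightOneSpectrum (𝓞 K)}
    (U : Matrix (Fin 2) (Fin 2) (v.adicCompletion K))
    (hU : ∀ i j, (U - 1) i j ∈ idealClosure 𝔪 v) (i j : Fin 2) : ‖U i j‖ ≤ 1 := by
  have h := norm_le_one_of_mem_idealClosure553 (hU i j)
  have e : U i j = (U - 1) i j + (1 : Matrix (Fin 2) (Fin 2) (v.adicCompletion K)) i j := by
    simp
  rw [e]
  refine (IsUltrametricDist.norm_add_le_max _ _).trans (max_le h ?_)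
  by_cases hij : i = j
  · subst hij
    simp
  · simp [Matrix.one_apply_ne hij]

theorem inLevelGroup_inv553 {u : G K} (hu : InLevelGroup 𝔪 u) : InLevelGroup 𝔪 u⁻¹ := by
  refine ⟨fun w => ?_, fun v i j => ⟨(hu.2 v i j).2, by rw [inv_inv]; exact (hu.2 v i j).1⟩⟩
  rw [trivAtInf_iff553]
  have h1 := (trivAtInf_iff553 w u).1 (hu.1 w)
  have h2 := map_infR_mul553 w u u⁻¹
  rw [mul_inv_cancel, h1, one_mul, coe_one553] at h2
  rw [← h2]
  exact Matrix.map_one (infR553 w) (map_zero _) (map_one _)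

theorem rowNorm_mul_level553 {u : G K} (hu : InLevelGroup 𝔪 u) (g : G K) :
    rowNorm (botRow57 K (g * u)) = rowNorm (botRow57 K g) := by
  refine rowNorm_congr553 _ _ (fun w => ?_) (fun v => ?_)
  · rw [botRow_mul_inf_of_triv553 g (hu.1 w) 0, botRow_mul_inf_of_triv553 g (hu.1 w) 1]
  · rw [botRow_mul_fin553, botRow_mul_fin553]
    exact max_row_eq553 (finComp v u) (finComp v u⁻¹)
      (norm_entry_le_one553 _ fun i j => (hu.2 v i j).1)
      (norm_entry_le_one553 _ fun i j => (hu.2 v i j).2)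
      (finComp_mul_inv553 v u) _ _

theorem adNorm_mul_level553 {u : G K} (hu : InLevelGroup 𝔪 u) (g : G K) :
    Fermat.Agent.LT.T5.adNorm (Matrix.det ((g * u : G K) : Matrix (Fin 2) (Fin 2) (Adl K)))
      = Fermat.Agent.LT.T5.adNorm (Matrix.det (g : Matrix (Fin 2) (Fin 2) (Adl K))) := by
  refine adNorm_det_mul553 g u (fun w => norm_det_inf_of_triv553 (hu.1 w)) (fun v => ?_)
  rw [det_fin553]
  exact norm_det_eq_one553 (finComp v u) (finComp v u⁻¹)
    (norm_entry_le_one553 _ fun i j => (hu.2 v i j).1)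
    (norm_entry_le_one553 _ fun i j => (hu.2 v i j).2)
    (finComp_mul_inv553 v u)

theorem om_mul_level553 {u : G K} (hu : InLevelGroup 𝔪 u) {g : G K} (hg : g ∈ Om57 K 𝔪) :
    g * u ∈ Om57 K 𝔪 := by
  intro v hv
  obtain ⟨t, ht, hct⟩ := hg v hv
  have hU : ∀ i j, (finComp v u - 1) i j ∈ idealClosure 𝔪 v := fun i j => (hu.2 v i j).1
  have h00 : finComp v u 0 0 - 1 ∈ idealClosure 𝔪 v := by simpa using hU 0 0
  have h01 : finComp v u 0 1 ∈ idealClosure 𝔪 v := by simpa using hU 0 1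
  have h10 : finComp v u 1 0 ∈ idealClosure 𝔪 v := by simpa using hU 1 0
  have h11 : finComp v u 1 1 - 1 ∈ idealClosure 𝔪 v := by simpa using hU 1 1
  have ha : t * finComp v u 0 0 + finComp v u 1 0 ∈ idealClosure 𝔪 v := by
    have e : t * finComp v u 0 0 + finComp v u 1 0
        = (t + t * (finComp v u 0 0 - 1)) + finComp v u 1 0 := by ring
    rw [e]
    exact add_mem_idealClosure553
      (add_mem_idealClosure553 ht (mul_mem_idealClosure553 ht h00)) h10
  have hs : t * finComp v u 0 1 + (finComp v u 1 1 - 1) ∈ idealClosure 𝔪 v :=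
    add_mem_idealClosure553 (mul_mem_idealClosure553 ht h01) h11
  have hs1 := norm_lt_one_of_mem_idealClosure553 hv hs
  have hne : (1 + (t * finComp v u 0 1 + (finComp v u 1 1 - 1))) ≠ 0 := by
    intro h0
    have e : t * finComp v u 0 1 + (finComp v u 1 1 - 1) = -1 := by linear_combination h0
    rw [e, norm_neg, norm_one] at hs1
    exact lt_irrefl _ hs1
  refine ⟨(t * finComp v u 0 0 + finComp v u 1 0)
      * (1 + (t * finComp v u 0 1 + (finComp v u 1 1 - 1)))⁻¹,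
    mul_inv_one_add_mem_idealClosure553 ha hs hs1, ?_⟩
  rw [botRow_mul_fin553, botRow_mul_fin553, hct]
  have e1 : t * (botRow57 K g 1).2 v * finComp v u 0 1 + (botRow57 K g 1).2 v * finComp v u 1 1
      = (botRow57 K g 1).2 v * (1 + (t * finComp v u 0 1 + (finComp v u 1 1 - 1))) := by ring
  rw [e1]
  field_simp

theorem om_mul_level_iff553 {u : G K} (hu : InLevelGroup 𝔪 u) (g : G K) :
    g * u ∈ Om57 K 𝔪 ↔ g ∈ Om57 K 𝔪 := by
  constructor
  · intro h
    have := om_mul_level553 (inLevelGroup_inv553 hu) h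
    rwa [mul_assoc, mul_inv_cancel, mul_one] at this
  · exact om_mul_level553 hu

end Level

/-! ## 5. The archimedean compacts -/

section Arch

variable {𝔪 : Ideal (𝓞 K)}

theorem rowNorm_mul_arch553 {w : InfinitePlace K} {k : G K} (hk : IsArchCompact w k) (g : G K) :
    rowNorm (botRow57 K (g * k)) = rowNorm (botRow57 K g) := by
  refine rowNorm_congr553 _ _ (fun w' => ?_) (fun v => ?_)
  · by_cases hw : w' = w
    · subst hw
      rw [norm_inf553, norm_inf553 w' (botRow57 K (g * k) 1), norm_inf553 w' (botRow57 K g 0),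
        norm_inf553 w' (botRow57 K g 1), botRow_mul553, botRow_mul553]
      simp only [map_add, map_mul]
      exact unitary_row_norm553 (infComp w' k) hk.2.1 _ _
    · rw [botRow_mul_inf_of_triv553 g (hk.1.1 w' hw) 0,
        botRow_mul_inf_of_triv553 g (hk.1.1 w' hw) 1]
  · rw [botRow_mul_fin_of_triv553 g (hk.1.2 v) 0, botRow_mul_fin_of_triv553 g (hk.1.2 v) 1]

theorem adNorm_mul_arch553 {w : InfinitePlace K} {k : G K} (hk : IsArchCompact w k) (g : G K) :
    Fermat.Agent.LT.T5.adNorm (Matrix.det ((g * k : G K) : Matrix (Fin 2) (Fin 2) (Adl K)))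
      = Fermat.Agent.LT.T5.adNorm (Matrix.det (g : Matrix (Fin 2) (Fin 2) (Adl K))) := by
  refine adNorm_det_mul553 g k (fun w' => ?_) (fun v => norm_det_fin_of_triv553 (hk.1.2 v))
  by_cases hw : w' = w
  · subst hw
    rw [norm_inf553, det_infHom553]
    exact unitary_norm_det553 _ hk.2.1
  · exact norm_det_inf_of_triv553 (hk.1.1 w' hw)

theorem om_mul_arch_iff553 {w : InfinitePlace K} {k : G K} (hk : IsArchCompact w k) (g : G K) :
    g * k ∈ Om57 K 𝔪 ↔ g ∈ Om57 K 𝔪 := by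
  constructor
  · intro h v hv
    obtain ⟨t, ht, e⟩ := h v hv
    rw [botRow_mul_fin_of_triv553 g (hk.1.2 v) 0, botRow_mul_fin_of_triv553 g (hk.1.2 v) 1] at e
    exact ⟨t, ht, e⟩
  · intro h v hv
    obtain ⟨t, ht, e⟩ := h v hv
    refine ⟨t, ht, ?_⟩
    rw [botRow_mul_fin_of_triv553 g (hk.1.2 v) 0, botRow_mul_fin_of_triv553 g (hk.1.2 v) 1]
    exact e

end Arch

/-! ## 6. The leaf -/

/-- **LEAF T7.14.6a-F.13 ROW-INV** (`H57.RowInvC57`, VERBATIM). -/
theorem rowInvC553 (K : Type) [Field K] [NumberField K] (_h : Fermat.Agent.LT.T1.T1Out K) :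
    Fermat.Agent.LT.T7.H57.RowInvC57 K := by
  intro _ S 𝔪 _
  exact ⟨fun u hu g => ⟨rowNorm_mul_level553 hu g, adNorm_mul_level553 hu g,
      om_mul_level_iff553 hu g⟩,
    fun w k hk g => ⟨rowNorm_mul_arch553 hk g, adNorm_mul_arch553 hk g,
      om_mul_arch_iff553 hk g⟩⟩

end Fermat.Agent.LT.T7.H553

end
end
-- ===== PACK-END LT/T7/H553/RowInv.lean

-- ===== PACK-BEGIN LT/T7/H57/BruhatSum.lean
section




/-!
# Row LT, tower T7, LEAF `FoldWhitC`, leaf `BruhatSumC57` (helper57, spare of row 2213)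

OFF-MAIN.  On helper555 `Fold.lean`, `FoldIwa.lean` (byte-identical copies).

`bruhatSumC57 K : BruhatSumC57 K`, UNCONDITIONAL.
-/

set_option autoImplicit false
set_option linter.style.haveILetI false

open AutomorphicForm IsDedekindDomain NumberField Filter Topology MeasureTheory
open scoped ComplexConjugate ENNReal

noncomputable section

namespace Fermat.Agent.LT.T7.H57

open Fermat.Agent.LT.H556 Fermat.Agent.LT.H556.A0 Fermat.Agent.LT.T7 Fermat.Agent.LT.T7.Rigid
open Fermat.Agent.LT.T7.H555 Fermat.Agent.LT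

attribute [local instance] Fermat.Agent.LT.T5.instMeasurableSpaceG

variable {K : Type} [Field K] [NumberField K]

/-! ## The representatives `γ_x` -/

theorem gam57_row57 (x : Projectivization K (Fin 2 → K)) (j : Fin 2) :
    (gam57 K x : Matrix (Fin 2) (Fin 2) K) 1 j = x.rep j := by
  show gamMat57 K x 1 j = x.rep j
  unfold gamMat57
  split_ifs with h
  · fin_cases j <;> simp
  · fin_cases j <;> simp

theorem EY57_eq57 (𝔪 : Ideal (𝓞 K)) (Y : ℝ) : EY57 K 𝔪 Y = foldSet555 𝔪 Y := rfl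

theorem gamA57_eq57 (x : Projectivization K (Fin 2 → K)) :
    gamA57 K x = T5.ratG (gam57 K x) := rfl

/-! ## The matrices `b_q` -/

theorem ratB57_val (q : PK57 K) :
    ((ratB57 K q : GL (Fin 2) K) : Matrix (Fin 2) (Fin 2) K)
      = !![(q.2.1 : K) * (q.2.2 : K), q.1 * (q.2.2 : K); 0, (q.2.2 : K)] := rfl

theorem ratB57_lower (q : PK57 K) :
    ((ratB57 K q : GL (Fin 2) K) : Matrix (Fin 2) (Fin 2) K) 1 0 = 0 := by
  rw [ratB57_val]; simp

theorem ratB57_injective : Function.Injective (ratB57 K) := by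
  intro q q' h
  have hm : ((ratB57 K q : GL (Fin 2) K) : Matrix (Fin 2) (Fin 2) K)
      = ((ratB57 K q' : GL (Fin 2) K) : Matrix (Fin 2) (Fin 2) K) := by rw [h]
  rw [ratB57_val, ratB57_val] at hm
  have h11 : (q.2.2 : K) = (q'.2.2 : K) := by
    have := congrFun (congrFun hm 1) 1
    simpa using this
  have h00 : (q.2.1 : K) * (q.2.2 : K) = (q'.2.1 : K) * (q'.2.2 : K) := by
    have := congrFun (congrFun hm 0) 0
    simpa using this
  have h01 : q.1 * (q.2.2 : K) = q'.1 * (q'.2.2 : K) := by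
    have := congrFun (congrFun hm 0) 1
    simpa using this
  have hz : (q'.2.2 : K) ≠ 0 := q'.2.2.ne_zero
  rw [h11] at h00 h01
  have e1 : (q.2.1 : K) = (q'.2.1 : K) := mul_right_cancel₀ hz h00
  have e2 : q.1 = q'.1 := mul_right_cancel₀ hz h01
  exact Prod.ext e2 (Prod.ext (Units.ext e1) (Units.ext h11))

/-- Every upper triangular matrix of `GL₂(K)` is a `b_q`. -/
theorem exists_ratB57 (β : GL (Fin 2) K) (hβ : (β : Matrix (Fin 2) (Fin 2) K) 1 0 = 0) :
    ∃ q : PK57 K, ratB57 K q = β := by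
  have hdet : (β : Matrix (Fin 2) (Fin 2) K) 0 0 * (β : Matrix (Fin 2) (Fin 2) K) 1 1 ≠ 0 := by
    have h := (Matrix.GeneralLinearGroup.det β).ne_zero
    have e : ((Matrix.GeneralLinearGroup.det β : Kˣ) : K)
        = Matrix.det (β : Matrix (Fin 2) (Fin 2) K) := rfl
    rw [e, Matrix.det_fin_two, hβ, mul_zero, sub_zero] at h
    exact h
  have h0 : (β : Matrix (Fin 2) (Fin 2) K) 0 0 ≠ 0 := left_ne_zero_of_mul hdet
  have h1 : (β : Matrix (Fin 2) (Fin 2) K) 1 1 ≠ 0 := right_ne_zero_of_mul hdet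
  refine ⟨((β : Matrix (Fin 2) (Fin 2) K) 0 1 / (β : Matrix (Fin 2) (Fin 2) K) 1 1,
    Units.mk0 ((β : Matrix (Fin 2) (Fin 2) K) 0 0 / (β : Matrix (Fin 2) (Fin 2) K) 1 1)
      (div_ne_zero h0 h1),
    Units.mk0 ((β : Matrix (Fin 2) (Fin 2) K) 1 1) h1), ?_⟩
  apply Units.ext
  rw [ratB57_val]
  ext i j
  fin_cases i <;> fin_cases j
  · simp only [Units.val_mk0, Fin.zero_eta, Fin.isValue, Matrix.of_apply, Matrix.cons_val',
      Matrix.cons_val_zero, Matrix.cons_val_fin_one]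
    field_simp
  · simp only [Units.val_mk0, Fin.zero_eta, Fin.mk_one, Fin.isValue, Matrix.of_apply,
      Matrix.cons_val', Matrix.cons_val_one, Matrix.cons_val_fin_one, Matrix.cons_val_zero]
    field_simp
  · simp [hβ]
  · simp

/-! ## `GL₂(K) = ⊔ₓ B(K) γ_x` -/

/-- If `γ_y γ` is upper triangular then `y` is the class of the bottom row of `γ⁻¹`. -/
theorem bruhat_key57 (γ : GL (Fin 2) K) (y : Projectivization K (Fin 2 → K))
    (hy : ((gam57 K y * γ : GL (Fin 2) K) : Matrix (Fin 2) (Fin 2) K) 1 0 = 0) :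
    y = Projectivization.mk K
      (fun j => ((γ⁻¹ : GL (Fin 2) K) : Matrix (Fin 2) (Fin 2) K) 1 j)
      (botRow_inv_ne_zero555 γ) := by
  set u : Fin 2 → K := fun j => ((γ⁻¹ : GL (Fin 2) K) : Matrix (Fin 2) (Fin 2) K) 1 j with hu
  set β' : GL (Fin 2) K := gam57 K y * γ with hβ'
  have hgy : gam57 K y = β' * γ⁻¹ := by rw [hβ', mul_inv_cancel_right]
  have hrep : y.rep = (β' : Matrix (Fin 2) (Fin 2) K) 1 1 • u := by
    funext j
    rw [← gam57_row57 y j, hgy, Units.val_mul, Matrix.mul_apply, Fin.sum_univ_two, hy,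
      zero_mul, zero_add]
    rfl
  have hb : (β' : Matrix (Fin 2) (Fin 2) K) 1 1 ≠ 0 := by
    intro hb
    apply y.rep_nonzero
    rw [hrep, hb, zero_smul]
  rw [← y.mk_rep, Projectivization.mk_eq_mk_iff]
  exact ⟨Units.mk0 _ hb, by rw [hrep]; rfl⟩

/-- `γ_x γ` is upper triangular for `x` the class of the bottom row of `γ⁻¹`. -/
theorem bruhat_ex57 (γ : GL (Fin 2) K) :
    ((gam57 K (Projectivization.mk K
      (fun j => ((γ⁻¹ : GL (Fin 2) K) : Matrix (Fin 2) (Fin 2) K) 1 j)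
      (botRow_inv_ne_zero555 γ)) * γ : GL (Fin 2) K) : Matrix (Fin 2) (Fin 2) K) 1 0 = 0 := by
  set u : Fin 2 → K := fun j => ((γ⁻¹ : GL (Fin 2) K) : Matrix (Fin 2) (Fin 2) K) 1 j with hu
  set x : Projectivization K (Fin 2 → K) :=
    Projectivization.mk K u (botRow_inv_ne_zero555 γ) with hx
  have hmk : Projectivization.mk K x.rep x.rep_nonzero
      = Projectivization.mk K u (botRow_inv_ne_zero555 γ) := x.mk_rep
  obtain ⟨a, ha⟩ := (Projectivization.mk_eq_mk_iff K _ _ _ _).mp hmk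
  have hone : ((γ⁻¹ * γ : GL (Fin 2) K) : Matrix (Fin 2) (Fin 2) K) 1 0 = 0 := by
    rw [inv_mul_cancel]
    simp
  rw [Units.val_mul, Matrix.mul_apply, Fin.sum_univ_two] at hone
  rw [Units.val_mul, Matrix.mul_apply, Fin.sum_univ_two, gam57_row57, gam57_row57, ← ha]
  simp only [Pi.smul_apply, Units.smul_def, smul_eq_mul, hu]
  rw [mul_assoc, mul_assoc, ← mul_add, hone, mul_zero]

/-- **Bruhat**: `(q, x) ↦ γ_x⁻¹ b_q` is a bijection onto `GL₂(K)`. -/
theorem existsUnique_bruhat57 (γ : GL (Fin 2) K) :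
    ∃! p : PK57 K × Projectivization K (Fin 2 → K), (gam57 K p.2)⁻¹ * ratB57 K p.1 = γ := by
  set x : Projectivization K (Fin 2 → K) := Projectivization.mk K
      (fun j => ((γ⁻¹ : GL (Fin 2) K) : Matrix (Fin 2) (Fin 2) K) 1 j)
      (botRow_inv_ne_zero555 γ) with hx
  obtain ⟨q, hq⟩ := exists_ratB57 (gam57 K x * γ) (bruhat_ex57 γ)
  refine ⟨(q, x), ?_, ?_⟩
  · show (gam57 K x)⁻¹ * ratB57 K q = γ
    rw [hq, inv_mul_cancel_left]
  · rintro ⟨q', y⟩ h
    have h' : (gam57 K y)⁻¹ * ratB57 K q' = γ := h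
    have hb : ratB57 K q' = gam57 K y * γ := by rw [← h', mul_inv_cancel_left]
    have hyx : y = x := bruhat_key57 γ y (by rw [← hb]; exact ratB57_lower q')
    subst hyx
    have : ratB57 K q' = ratB57 K q := by rw [hb, hq]
    rw [ratB57_injective this]

/-! ## The sum -/

/-- The slab is invariant under `GL₂(K)`. -/
theorem ratG_mul_mem_slab57 (γ : GL (Fin 2) K) (h : G K) :
    T5.ratG γ * h ∈ T5.slab K ↔ h ∈ T5.slab K := by
  have := detN_ratG_mul555 γ h
  unfold Fermat.Agent.LT.T7.H250.detN250n at this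
  unfold T5.slab
  simp only [Set.mem_ofPred_eq]
  rw [this]

theorem ratG_eq57 (γ : GL (Fin 2) K) :
    T5.ratG γ = Matrix.GeneralLinearGroup.map (algebraMap K (Adl K)) γ := rfl

theorem bruhat_mul57 (b : GL (Fin 2) K) (x : Projectivization K (Fin 2 → K)) (h : G K) :
    (gamA57 K x)⁻¹ * (Matrix.GeneralLinearGroup.map (algebraMap K (Adl K)) b * h)
      = T5.ratG ((gam57 K x)⁻¹ * b) * h := by
  rw [gamA57_eq57, ← ratG_eq57, map_mul, map_inv, mul_assoc]

theorem bruhat_mem57 (F : Set (G K)) (b : GL (Fin 2) K) (x : Projectivization K (Fin 2 → K))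
    (h : G K) :
    (Matrix.GeneralLinearGroup.map (algebraMap K (Adl K)) b * h
        ∈ {g : G K | (gamA57 K x)⁻¹ * g ∈ F})
      ↔ T5.ratG ((gam57 K x)⁻¹ * b) * h ∈ F := by
  rw [← bruhat_mul57]
  exact Set.mem_ofPred_eq.to_iff

/-- The number of `(q, x)` with `γ_x⁻¹ b_q h ∈ F`. -/
theorem tsum_bruhat57 {μ : Measure (G K)} {F : Set (G K)} (hF : T5.IsFrame μ F) (h : G K) :
    ∑' p : PK57 K × Projectivization K (Fin 2 → K),
        ({g : G K | (gamA57 K p.2)⁻¹ * g ∈ F}).indicator (1 : G K → ℝ≥0∞)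
          (Matrix.GeneralLinearGroup.map (algebraMap K (Adl K)) (ratB57 K p.1) * h)
      = (T5.slab K).indicator 1 h := by
  by_cases hs : h ∈ T5.slab K
  · obtain ⟨γ, hγ, huniq⟩ := hF.strict h hs
    obtain ⟨p₀, hp₀, hp₀u⟩ := existsUnique_bruhat57 γ
    have hp₀' : (gam57 K p₀.2)⁻¹ * ratB57 K p₀.1 = γ := hp₀
    rw [Set.indicator_of_mem hs, tsum_eq_single p₀]
    · rw [Set.indicator_of_mem ((bruhat_mem57 F _ _ h).2 (by rw [hp₀']; exact hγ))]
      rfl
    · intro p hp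
      apply Set.indicator_of_notMem
      intro hmemF
      exact hp (hp₀u p (huniq _ ((bruhat_mem57 F _ _ h).1 hmemF)))
  · rw [Set.indicator_of_notMem hs]
    apply ENNReal.tsum_eq_zero.2
    intro p
    apply Set.indicator_of_notMem
    intro hmemF
    exact hs ((ratG_mul_mem_slab57 _ h).1 (hF.sub ((bruhat_mem57 F _ _ h).1 hmemF)))

/-- **`BruhatSumC57`.** -/
theorem bruhatSumC57 (K : Type) [Field K] [NumberField K] : BruhatSumC57 K := by
  intro μ F hF 𝔪 Φ hΦL Y h
  have hE : ∀ q : PK57 K,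
      (Matrix.GeneralLinearGroup.map (algebraMap K (Adl K)) (ratB57 K q) * h ∈ EY57 K 𝔪 Y)
        ↔ h ∈ EY57 K 𝔪 Y := fun q =>
    foldSet_ratUpper_mul555 𝔪 Y (ratB57 K q) (ratB57_lower q) h
  have hterm : ∀ q : PK57 K,
      fnE57 K 𝔪 F Φ Y (Matrix.GeneralLinearGroup.map (algebraMap K (Adl K)) (ratB57 K q) * h)
        = Φ h * (EY57 K 𝔪 Y).indicator 1 h
          * ∑' x : Projectivization K (Fin 2 → K),
              ({g : G K | (gamA57 K x)⁻¹ * g ∈ F}).indicator (1 : G K → ℝ≥0∞)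
                (Matrix.GeneralLinearGroup.map (algebraMap K (Adl K)) (ratB57 K q) * h) := by
    intro q
    unfold fnE57 fnX57
    rw [ENNReal.tsum_mul_left]
    congr 1
    have e1 : Φ (Matrix.GeneralLinearGroup.map (algebraMap K (Adl K)) (ratB57 K q) * h) = Φ h :=
      hΦL (ratB57 K q) h
    have e2 : (EY57 K 𝔪 Y).indicator (1 : G K → ℝ≥0∞)
        (Matrix.GeneralLinearGroup.map (algebraMap K (Adl K)) (ratB57 K q) * h)
        = (EY57 K 𝔪 Y).indicator 1 h := by
      by_cases hh : h ∈ EY57 K 𝔪 Y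
      · rw [Set.indicator_of_mem hh, Set.indicator_of_mem ((hE q).2 hh)]
        rfl
      · rw [Set.indicator_of_notMem hh, Set.indicator_of_notMem (fun h' => hh ((hE q).1 h'))]
    rw [e1, e2]
  simp_rw [hterm]
  rw [ENNReal.tsum_mul_left,
    ← ENNReal.tsum_prod (f := fun (q : PK57 K) (x : Projectivization K (Fin 2 → K)) =>
      ({g : G K | (gamA57 K x)⁻¹ * g ∈ F}).indicator (1 : G K → ℝ≥0∞)
        (Matrix.GeneralLinearGroup.map (algebraMap K (Adl K)) (ratB57 K q) * h)),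
    tsum_bruhat57 hF h, mul_assoc]
  congr 1
  by_cases h1 : h ∈ EY57 K 𝔪 Y <;> by_cases h2 : h ∈ T5.slab K
  · have h3 : h ∈ {g : G K | g ∈ EY57 K 𝔪 Y ∧ g ∈ T5.slab K} := ⟨h1, h2⟩
    rw [Set.indicator_of_mem h1, Set.indicator_of_mem h2, Set.indicator_of_mem h3]
    simp
  · have h3 : h ∉ {g : G K | g ∈ EY57 K 𝔪 Y ∧ g ∈ T5.slab K} := fun hh => h2 hh.2
    rw [Set.indicator_of_notMem h2, Set.indicator_of_notMem h3, mul_zero]
  · have h3 : h ∉ {g : G K | g ∈ EY57 K 𝔪 Y ∧ g ∈ T5.slab K} := fun hh => h1 hh.1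
    rw [Set.indicator_of_notMem h1, Set.indicator_of_notMem h3, zero_mul]
  · have h3 : h ∉ {g : G K | g ∈ EY57 K 𝔪 Y ∧ g ∈ T5.slab K} := fun hh => h1 hh.1
    rw [Set.indicator_of_notMem h1, Set.indicator_of_notMem h3, zero_mul]

end Fermat.Agent.LT.T7.H57

end

end
-- ===== PACK-END LT/T7/H57/BruhatSum.lean

-- ===== PACK-BEGIN LT/T7/H57/FoldTop4.lean
section



/-!
# Row LT, tower T7, LEAF `FoldWhitC` -- TOP of the cut of the node `CorePosC57`, level 4 (helper57)

OFF-MAIN.  PROVED: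

```
corePosC_of57 : WeightIdC57 K → WConstC57 K → InnerC57 K → WeightExC57 K → CntSumC57 K
                  → CorePosC57 K
```

with `c₀ = (∫ hgt · β dμ) / w_β(1)`.
-/

set_option autoImplicit false
set_option linter.style.haveILetI false

open AutomorphicForm IsDedekindDomain NumberField Filter Topology MeasureTheory
open scoped ComplexConjugate ENNReal

noncomputable section

namespace Fermat.Agent.LT.T7.H57

open Fermat.Agent.LT.H556 Fermat.Agent.LT.H556.A0 Fermat.Agent.LT.T7 Fermat.Agent.LT.T7.Rigid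

attribute [local instance] Fermat.Agent.LT.T5.instMeasurableSpaceG

variable {K : Type} [Field K] [NumberField K]

/-- The unfolded function vanishes outside `E_Y`. -/
theorem fnE57_eq_zero {𝔪 : Ideal (𝓞 K)} {F : Set (G K)} {Φ : G K → ℝ≥0∞} {Y : ℝ} {g : G K}
    (hg : g ∉ EY57 K 𝔪 Y) : fnE57 K 𝔪 F Φ Y g = 0 := by
  unfold fnE57 fnX57
  simp [Set.indicator_of_notMem hg]

/-- ENNReal arithmetic. -/
theorem ennreal_solve57 {w X J c : ℝ≥0∞} (hw0 : w ≠ 0) (hwt : w ≠ ⊤) (h : w * X = J * c) :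
    X = c / w * J := by
  have h1 : X = w⁻¹ * (w * X) := by
    rw [← mul_assoc, ENNReal.inv_mul_cancel hw0 hwt, one_mul]
  rw [h1, h, ENNReal.div_eq_inv_mul]
  ring

/-- **TOP of the cut of level 4.** -/
theorem corePosC_of57 (hW : WeightIdC57 K) (hC : WConstC57 K) (hI : InnerC57 K)
    (hE : WeightExC57 K) (hS : CntSumC57 K) : CorePosC57 K := by
  letI : MeasurableSpace (Adl K) := borel (Adl K)
  letI : MeasurableSpace (Adl K)ˣ := borel (Adl K)ˣ
  intro hT μ F hF ν D hν hD hfd hDfin τ hτ S 𝔪 hS𝔪 FX hFX hFXfd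
  obtain ⟨β, hβm, hβC, hβ0, hw0, hwtop, hhm, hc0, hctop⟩ :=
    hE hT μ hF.haar ν hν τ hτ S 𝔪 hS𝔪
  have hdiv_ne : (∫⁻ g, ENNReal.ofReal (hgt57 K g) * β g ∂μ) / wB57 K ν τ β 1 ≠ 0 :=
    (ENNReal.div_pos hc0.ne' hwtop.ne).ne'
  have hdiv_top : (∫⁻ g, ENNReal.ofReal (hgt57 K g) * β g ∂μ) / wB57 K ν τ β 1 ≠ ⊤ :=
    ENNReal.div_ne_top hctop.ne hw0.ne'
  refine ⟨((∫⁻ g, ENNReal.ofReal (hgt57 K g) * β g ∂μ) / wB57 K ν τ β 1).toReal,
    ENNReal.toReal_pos hdiv_ne hdiv_top, ?_⟩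
  intro Φ hΦ hΦL hΦR Y hY
  obtain ⟨hFm, hsum⟩ := hS hT μ F hF S 𝔪 hS𝔪 Φ hΦ hΦL Y hY
  rw [← hsum, ENNReal.ofReal_toReal hdiv_top]
  have hid := hW μ hF.haar ν hν τ hτ (fnE57 K 𝔪 F Φ Y) β hFm hβm
  have hL : ∫⁻ g, fnE57 K 𝔪 F Φ Y g * wB57 K ν τ β g ∂μ
      = wB57 K ν τ β 1 * ∫⁻ g, fnE57 K 𝔪 F Φ Y g ∂μ := by
    rw [← lintegral_const_mul _ hFm]
    apply lintegral_congr
    intro g
    by_cases hg : g ∈ EY57 K 𝔪 Y
    · rw [hC hT ν hν τ hτ S 𝔪 hS𝔪 β hβm hβC g hg.2, mul_comm]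
    · rw [fnE57_eq_zero hg, zero_mul, mul_zero]
  have hR : ∫⁻ g, (∫⁻ p : PB57 K, fnE57 K 𝔪 F Φ Y (iota57 K p * g) * om57 K p
        ∂(ν.prod (τ.prod τ))) * β g ∂μ
      = (∫⁻ p in box57 K D FX Y, Φ (iota57 K p) * om57 K p ∂(ν.prod (τ.prod τ)))
          * ∫⁻ g, ENNReal.ofReal (hgt57 K g) * β g ∂μ := by
    rw [← lintegral_const_mul _ hhm]
    apply lintegral_congr
    intro g
    by_cases hg : g ∈ Om57 K 𝔪
    · rw [hI hT μ F hF ν D hν hD hfd hDfin τ hτ S 𝔪 hS𝔪 FX hFX hFXfd Φ hΦ hΦL hΦR Y hY g hg]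
      ring
    · rw [hβ0 g hg, mul_zero, mul_zero, mul_zero]
  have hkey : wB57 K ν τ β 1 * ∫⁻ g, fnE57 K 𝔪 F Φ Y g ∂μ
      = (∫⁻ p in box57 K D FX Y, Φ (iota57 K p) * om57 K p ∂(ν.prod (τ.prod τ)))
          * ∫⁻ g, ENNReal.ofReal (hgt57 K g) * β g ∂μ := by
    rw [← hL, hid, hR]
  exact ennreal_solve57 hw0.ne' hwtop.ne hkey

end Fermat.Agent.LT.T7.H57

end

end
-- ===== PACK-END LT/T7/H57/FoldTop4.lean

-- ===== PACK-BEGIN LT/T7/H57/FoldTop5.lean
section




/-!
# Row LT, tower T7, LEAF `FoldWhitC` -- TOPS of the cut of level 5 (helper57)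

OFF-MAIN.  PROVED:

```
wConstC_of57 : OmDecompC57 K → PLTransC57 K → MeasIotaC57 K → WConstC57 K
innerC_of57  : T1.AdNormC K → OmDecompC57 K → RowInvC57 K → BorelUnfC57 K → BruhatSumC57 K →
                 PRTransC57 K → MeasIotaC57 K → IotaCoordC57 K → CntSumC57 K → InnerC57 K
```
-/

set_option autoImplicit false
set_option linter.style.haveILetI false

open AutomorphicForm IsDedekindDomain NumberField Filter Topology MeasureTheory
open scoped ComplexConjugate ENNReal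

noncomputable section

namespace Fermat.Agent.LT.T7.H57

open Fermat.Agent.LT.H556 Fermat.Agent.LT.H556.A0 Fermat.Agent.LT.T7 Fermat.Agent.LT.T7.Rigid

attribute [local instance] Fermat.Agent.LT.T5.instMeasurableSpaceG

variable {K : Type} [Field K] [NumberField K]

theorem iota57_val (p : PB57 K) :
    ((iota57 K p : G K) : Matrix (Fin 2) (Fin 2) (Adl K))
      = !![(p.2.1 : Adl K) * (p.2.2 : Adl K), p.1 * (p.2.2 : Adl K); 0, (p.2.2 : Adl K)] := by
  ext i j
  fin_cases i <;> fin_cases j <;>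
    simp [iota57, Fermat.Agent.LT.T3.unip, dgA, zA57, Matrix.mul_apply, Fin.sum_univ_two]

theorem iota_mulP57 (p p₀ : PB57 K) :
    iota57 K (mulP57 K p p₀) = iota57 K p * iota57 K p₀ := by
  apply Units.ext
  rw [Units.val_mul, iota57_val, iota57_val, iota57_val]
  ext i j
  fin_cases i <;> fin_cases j <;>
    simp [mulP57, Matrix.mul_apply, Fin.sum_univ_two] <;> ring

theorem iota_actB57 (q : PK57 K) (p : PB57 K) :
    iota57 K (actB57 K q p)
      = Matrix.GeneralLinearGroup.map (algebraMap K (Adl K)) (ratB57 K q) * iota57 K p := by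
  apply Units.ext
  rw [Units.val_mul, iota57_val, iota57_val]
  ext i j
  fin_cases i <;> fin_cases j <;>
    simp [actB57, ratB57, ratBMat57, ratU57, Matrix.mul_apply, Fin.sum_univ_two] <;> ring

theorem iota_one57 : iota57 K ((0, 1, 1) : PB57 K) = 1 := by
  apply Units.ext
  rw [iota57_val]
  ext i j
  fin_cases i <;> fin_cases j <;> simp

theorem mulP_invP57 (p : PB57 K) : mulP57 K (invP57 K p) p = (0, 1, 1) := by
  unfold mulP57 invP57
  simp

theorem iota_invP57 (p : PB57 K) : iota57 K (invP57 K p) = (iota57 K p)⁻¹ := by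
  rw [eq_inv_iff_mul_eq_one, ← iota_mulP57, mulP_invP57, iota_one57]


/-! ## Indicators -/

theorem isRightCE_indicator57 {𝔪 : Ideal (𝓞 K)} {A : Set (G K)}
    (h1 : ∀ u : G K, InLevelGroup 𝔪 u → ∀ g : G K, g * u ∈ A ↔ g ∈ A)
    (h2 : ∀ (w : InfinitePlace K) (k : G K), IsArchCompact w k → ∀ g : G K, g * k ∈ A ↔ g ∈ A) :
    IsRightCE57 K 𝔪 (A.indicator (1 : G K → ℝ≥0∞)) := by
  refine ⟨fun u hu g => ?_, fun w k hk g => ?_⟩
  · by_cases hg : g ∈ A
    · rw [Set.indicator_of_mem hg, Set.indicator_of_mem ((h1 u hu g).2 hg)]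
      rfl
    · rw [Set.indicator_of_notMem hg, Set.indicator_of_notMem (fun h => hg ((h1 u hu g).1 h))]
  · by_cases hg : g ∈ A
    · rw [Set.indicator_of_mem hg, Set.indicator_of_mem ((h2 w k hk g).2 hg)]
      rfl
    · rw [Set.indicator_of_notMem hg, Set.indicator_of_notMem (fun h => hg ((h2 w k hk g).1 h))]

theorem mem_iff_of_indicator57 {A : Set (G K)} {a b : G K}
    (h : A.indicator (1 : G K → ℝ≥0∞) a = A.indicator 1 b) : a ∈ A ↔ b ∈ A := by
  by_cases ha : a ∈ A <;> by_cases hb : b ∈ A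
  · exact ⟨fun _ => hb, fun _ => ha⟩
  · rw [Set.indicator_of_mem ha, Set.indicator_of_notMem hb] at h
    exact absurd h (by simp)
  · rw [Set.indicator_of_notMem ha, Set.indicator_of_mem hb] at h
    exact absurd h (by simp)
  · exact ⟨fun h' => absurd h' ha, fun h' => absurd h' hb⟩

/-! ## `w_β` is constant on `Ω` -/

/-- **TOP of the cut of `WConstC57`.** -/
theorem wConstC_of57 (hO : OmDecompC57 K) (hL : PLTransC57 K) (hM : MeasIotaC57 K) :
    WConstC57 K := by
  letI : MeasurableSpace (Adl K) := borel (Adl K)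
  letI : MeasurableSpace (Adl K)ˣ := borel (Adl K)ˣ
  intro hT ν hν τ hτ S 𝔪 hS β hβ hβC g hg
  obtain ⟨p₀, hp₀⟩ := hO hT S 𝔪 hS g hg
  have hf : Measurable (fun p : PB57 K => β ((iota57 K p)⁻¹)) := hβ.comp hM.2
  have key := hL ν hν τ hτ _ hf (invP57 K p₀)
  unfold wB57
  calc ∫⁻ p : PB57 K, β ((iota57 K p)⁻¹ * g) * om57 K p ∂(ν.prod (τ.prod τ))
      = ∫⁻ p : PB57 K, β ((iota57 K (mulP57 K (invP57 K p₀) p))⁻¹) * om57 K p
          ∂(ν.prod (τ.prod τ)) := by
        apply lintegral_congr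
        intro p
        congr 1
        have h := hp₀ β hβC ((iota57 K p)⁻¹ * iota57 K p₀)
        rw [iota_mulP57, iota_invP57, mul_inv_rev, inv_inv, ← h]
        congr 1
        group
    _ = ∫⁻ p : PB57 K, β ((iota57 K p)⁻¹) * om57 K p ∂(ν.prod (τ.prod τ)) := key
    _ = ∫⁻ p : PB57 K, β ((iota57 K p)⁻¹ * 1) * om57 K p ∂(ν.prod (τ.prod τ)) := by
        simp only [mul_one]

/-! ## The inner integral -/

/-- The box conditions on `(y, z)`. -/
def cond57 (K : Type) [Field K] [NumberField K] (Y : ℝ) : Set (PB57 K) :=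
  {p | Y ≤ nrm57 K p.2.1 ∧ 1 ≤ nrm57 K p.2.1 * nrm57 K p.2.2 ^ 2 ∧
    nrm57 K p.2.1 * nrm57 K p.2.2 ^ 2 < 2}

theorem measurableSet_cond57 (hN : Fermat.Agent.LT.T1.AdNormC K) (Y : ℝ) :
    @MeasurableSet _ (@Prod.instMeasurableSpace _ _ (borel (Adl K))
      (@Prod.instMeasurableSpace _ _ (borel (Adl K)ˣ) (borel (Adl K)ˣ))) (cond57 K Y) := by
  letI : MeasurableSpace (Adl K) := borel (Adl K)
  letI : MeasurableSpace (Adl K)ˣ := borel (Adl K)ˣ
  haveI : BorelSpace (Adl K)ˣ := ⟨rfl⟩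
  have hn : Measurable (nrm57 K) := (continuous_nrm57 hN).measurable
  have h1 : Measurable (fun p : PB57 K => nrm57 K p.2.1) :=
    hn.comp (measurable_fst.comp measurable_snd)
  have h2 : Measurable (fun p : PB57 K => nrm57 K p.2.2) :=
    hn.comp (measurable_snd.comp measurable_snd)
  have h3 : Measurable (fun p : PB57 K => nrm57 K p.2.1 * nrm57 K p.2.2 ^ 2) :=
    h1.mul (h2.pow_const 2)
  have e : cond57 K Y = {p : PB57 K | Y ≤ nrm57 K p.2.1}
      ∩ ({p : PB57 K | 1 ≤ nrm57 K p.2.1 * nrm57 K p.2.2 ^ 2}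
        ∩ {p : PB57 K | nrm57 K p.2.1 * nrm57 K p.2.2 ^ 2 < 2}) := by
    ext p
    simp only [cond57, Set.mem_inter_iff, Set.mem_ofPred_eq]
  rw [e]
  exact (measurableSet_le measurable_const h1).inter
    ((measurableSet_le measurable_const h3).inter (measurableSet_lt h3 measurable_const))

theorem box57_eq (D : Set (Adl K)) (FX : Set (Adl K)ˣ) (Y : ℝ) :
    box57 K D FX Y = cond57 K Y ∩ D ×ˢ (FX ×ˢ FX) := by
  ext p
  simp only [box57, cond57, Set.mem_inter_iff, Set.mem_ofPred_eq, Set.mem_prod]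
  tauto

/-- **TOP of the cut of `InnerC57`.** -/
theorem innerC_of57 (hN : Fermat.Agent.LT.T1.AdNormC K) (hO : OmDecompC57 K)
    (hRI : RowInvC57 K) (hU : BorelUnfC57 K) (hB : BruhatSumC57 K) (hR : PRTransC57 K)
    (hM : MeasIotaC57 K) (hIC : IotaCoordC57 K) (hS : CntSumC57 K) : InnerC57 K := by
  letI : MeasurableSpace (Adl K) := borel (Adl K)
  letI : MeasurableSpace (Adl K)ˣ := borel (Adl K)ˣ
  intro hT μ F hF ν D hν hD hfd hDfin τ hτ S 𝔪 hS𝔪 FX hFX hFXfd Φ hΦ hΦL hΦR Y hY g hg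
  obtain ⟨p₀, hp₀⟩ := hO hT S 𝔪 hS𝔪 g hg
  obtain ⟨hRu, hRk⟩ := hRI hT S 𝔪 hS𝔪
  have hg_eq : g = iota57 K p₀ * ((iota57 K p₀)⁻¹ * g) := by group
  have hFm : Measurable (fnE57 K 𝔪 F Φ Y) := (hS hT μ F hF S 𝔪 hS𝔪 Φ hΦ hΦL Y hY).1
  have hf : Measurable (fun p : PB57 K => fnE57 K 𝔪 F Φ Y (iota57 K p * ((iota57 K p₀)⁻¹ * g))) :=
    hFm.comp (hM.1 _)
  -- the height of `g`
  have hhgt : hgt57 K g = nrm57 K p₀.2.1 := by
    have hA : IsRightCE57 K 𝔪
        (({h : G K | hgt57 K h = hgt57 K (iota57 K p₀)}).indicator (1 : G K → ℝ≥0∞)) := by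
      apply isRightCE_indicator57
      · intro u hu h
        have := hRu u hu h
        simp only [Set.mem_ofPred_eq, hgt57, this.1, this.2.1]
      · intro w k hk h
        have := hRk w k hk h
        simp only [Set.mem_ofPred_eq, hgt57, this.1, this.2.1]
    have h1 := mem_iff_of_indicator57 (hp₀ _ hA (iota57 K p₀))
    rw [← hg_eq] at h1
    have h2 : hgt57 K g = hgt57 K (iota57 K p₀) := h1.2 rfl
    rw [h2, (hIC p₀).1]
  -- the indicator of `E_Y ∩ slab` is right invariant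
  have hind : IsRightCE57 K 𝔪
      (({h : G K | h ∈ EY57 K 𝔪 Y ∧ h ∈ Fermat.Agent.LT.T5.slab K}).indicator
        (1 : G K → ℝ≥0∞)) := by
    apply isRightCE_indicator57
    · intro u hu h
      have := hRu u hu h
      simp only [Set.mem_ofPred_eq, EY57, Fermat.Agent.LT.T5.slab, this.1, this.2.1, this.2.2]
    · intro w k hk h
      have := hRk w k hk h
      simp only [Set.mem_ofPred_eq, EY57, Fermat.Agent.LT.T5.slab, this.1, this.2.1, this.2.2]
  -- step 1: right translation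
  have h1 : ∫⁻ p : PB57 K, fnE57 K 𝔪 F Φ Y (iota57 K p * g) * om57 K p ∂(ν.prod (τ.prod τ))
      = ENNReal.ofReal (nrm57 K p₀.2.1) * ∫⁻ p : PB57 K,
          fnE57 K 𝔪 F Φ Y (iota57 K p * ((iota57 K p₀)⁻¹ * g)) * om57 K p
            ∂(ν.prod (τ.prod τ)) := by
    rw [← hR ν hν τ hτ _ hf p₀]
    apply lintegral_congr
    intro p
    rw [iota_mulP57, mul_assoc, ← hg_eq]
  -- step 2: unfolding
  have h2 := hU ν D hν hD hfd τ hτ FX hFX hFXfd _ hf
  -- step 3: the sum over `B(K)`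
  have h3 : ∀ p : PB57 K,
      ∑' q : PK57 K, fnE57 K 𝔪 F Φ Y (iota57 K (actB57 K q p) * ((iota57 K p₀)⁻¹ * g))
        = Φ (iota57 K p) * (cond57 K Y).indicator 1 p := by
    intro p
    have hb := hB μ F hF 𝔪 Φ hΦL Y (iota57 K p * ((iota57 K p₀)⁻¹ * g))
    simp only [iota_actB57, mul_assoc]
    rw [hb, hp₀ Φ hΦR (iota57 K p), hp₀ _ hind (iota57 K p)]
    congr 1
    by_cases hp : p ∈ cond57 K Y
    · have hm : iota57 K p ∈ {h : G K | h ∈ EY57 K 𝔪 Y ∧ h ∈ Fermat.Agent.LT.T5.slab K} :=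
        ((hIC p).2 𝔪 Y).2 hp
      rw [Set.indicator_of_mem hp, Set.indicator_of_mem hm]
      rfl
    · have hm : iota57 K p ∉ {h : G K | h ∈ EY57 K 𝔪 Y ∧ h ∈ Fermat.Agent.LT.T5.slab K} :=
        fun h => hp (((hIC p).2 𝔪 Y).1 h)
      rw [Set.indicator_of_notMem hp, Set.indicator_of_notMem hm]
  -- conclusion
  rw [h1, hhgt, h2]
  congr 1
  rw [box57_eq, ← Measure.restrict_restrict (measurableSet_cond57 hN Y),
    ← lintegral_indicator (measurableSet_cond57 hN Y)]
  apply lintegral_congr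
  intro p
  rw [h3 p]
  by_cases hp : p ∈ cond57 K Y
  · rw [Set.indicator_of_mem hp, Set.indicator_of_mem hp, Pi.one_apply, mul_one]
  · rw [Set.indicator_of_notMem hp, Set.indicator_of_notMem hp, mul_zero, zero_mul]

end Fermat.Agent.LT.T7.H57

end

end
-- ===== PACK-END LT/T7/H57/FoldTop5.lean

-- ===== PACK-BEGIN LT/T7/H607/MeasIota.lean
section



/-!
# Row LT, tower T7, leaf T7.14.6a-F.18 `MeasIotaC57` (helper607)

OFF-MAIN.  Mathlib + the spec closure of `FoldSpec5.lean` (helper57) only.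

* `continuous_iota607` : `ι : 𝔸 × 𝔸ˣ × 𝔸ˣ → GL₂(𝔸)` is continuous (no hypothesis);
* `measIotaC607 : T1.LocCompC K → H57.MeasIotaC57 K` (VERBATIM).
-/

set_option autoImplicit false

open MeasureTheory Topology

noncomputable section

namespace Fermat.Agent.LT.T7.H607

open Fermat.Agent.LT.H556 Fermat.Agent.LT.H556.A0 Fermat.Agent.LT.T7 Fermat.Agent.LT.T7.Rigid
open Fermat.Agent.LT.T7.H57

attribute [local instance] Fermat.Agent.LT.T5.instMeasurableSpaceG

variable (K : Type) [Field K] [NumberField K]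

/-- A map into `2 × 2` matrices is continuous as soon as its four entries are. -/
theorem continuous_mat607 {X : Type*} [TopologicalSpace X] {R : Type*} [TopologicalSpace R]
    {a b c d : X → R} (ha : Continuous a) (hb : Continuous b) (hc : Continuous c)
    (hd : Continuous d) :
    Continuous fun x => (!![a x, b x; c x, d x] : Matrix (Fin 2) (Fin 2) R) := by
  refine continuous_matrix fun i j => ?_
  fin_cases i <;> fin_cases j <;> simpa using by assumption

theorem continuous_unip607 : Continuous fun x : Adl K => Fermat.Agent.LT.T3.unip K x := by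
  rw [Units.continuous_iff]
  refine ⟨?_, ?_⟩
  · exact continuous_mat607 continuous_const continuous_id continuous_const continuous_const
  · exact continuous_mat607 continuous_const continuous_neg continuous_const continuous_const

theorem continuous_dgA607 : Continuous fun y : (Adl K)ˣ => (dgA y : G K) := by
  rw [Units.continuous_iff]
  refine ⟨?_, ?_⟩
  · exact continuous_mat607 Units.continuous_val continuous_const continuous_const
      continuous_const
  · exact continuous_mat607 Units.continuous_coe_inv continuous_const continuous_const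
      continuous_const

theorem continuous_zA607 : Continuous fun z : (Adl K)ˣ => zA57 K z := by
  rw [Units.continuous_iff]
  refine ⟨?_, ?_⟩
  · exact continuous_mat607 Units.continuous_val continuous_const continuous_const
      Units.continuous_val
  · exact continuous_mat607 Units.continuous_coe_inv continuous_const continuous_const
      Units.continuous_coe_inv

/-- The coordinate map of the Borel subgroup is continuous. -/
theorem continuous_iota607 : Continuous fun p : PB57 K => iota57 K p := by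
  unfold iota57
  exact (((continuous_unip607 K).comp continuous_fst).mul
    ((continuous_dgA607 K).comp (continuous_fst.comp continuous_snd))).mul
    ((continuous_zA607 K).comp (continuous_snd.comp continuous_snd))

/-- The ideles are second countable as soon as the adeles are. -/
theorem secondCountable_units607 {M : Type*} [Monoid M] [TopologicalSpace M]
    [SecondCountableTopology M] : SecondCountableTopology Mˣ := by
  have : SecondCountableTopology Mᵐᵒᵖ :=
    (MulOpposite.opHomeomorph (M := M)).symm.secondCountableTopology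
  exact Units.isInducing_embedProduct.secondCountableTopology

/-- **LEAF MEAS-IOTA** (T7.14.6a-F.18), VERBATIM. -/
theorem measIotaC607 (h : Fermat.Agent.LT.T1.LocCompC K) : MeasIotaC57 K := by
  obtain ⟨⟨-, -, hsc⟩, -, -, -⟩ := h
  have : SecondCountableTopology (Adl K) := hsc
  have : SecondCountableTopology (Adl K)ˣ := secondCountable_units607
  unfold MeasIotaC57
  let : MeasurableSpace (Adl K) := borel (Adl K)
  let : MeasurableSpace (Adl K)ˣ := borel (Adl K)ˣ
  have : BorelSpace (Adl K) := ⟨rfl⟩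
  have : BorelSpace (Adl K)ˣ := ⟨rfl⟩
  have : BorelSpace (G K) := ⟨rfl⟩
  refine ⟨fun k => ?_, ?_⟩
  · exact ((continuous_iota607 K).mul continuous_const).measurable
  · exact (continuous_iota607 K).inv.measurable

end Fermat.Agent.LT.T7.H607

end

end
-- ===== PACK-END LT/T7/H607/MeasIota.lean

-- ===== PACK-BEGIN LT/T7/H69/CntSum.lean
section




/-!
# Row LT, tower T7, node `FoldWhitC`, LEAF T7.14.6a-F.11 `CntSumC57` (helper69, registry 2209)

OFF-MAIN.  Imports the cut `LT/T7/H57/FoldSpec4.lean` (helper57, commit 6a1f79c59, sha256 bd9f6d74)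
and the measurability leaf `LT/T7/H724/CountMeas.lean` (helper724, commit 081bc9e9c, sha256
13dbea42) byte-identically.  Nothing is assumed: `T1.T1Out K`, `TotCplx K`, `IsSupp S m` and
`0 < Y` are not used, and of the frame only the left invariance of the measure and the
measurability of the domain.

For a point `x` of the projective line the matrix `gamA57 K x` has bottom row `x.rep` and
determinant `1`, so `gamA57 K x * g` lies in `EY57` exactly when `x` lies in `cntSet m Y g`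
(`mem_EY_gam69`).  The set `EY57` is measurable, being the preimage of `{g | x₀ ∈ cntSet m Y g}`
under a left translation.  Termwise integration of the sum (`lintegral_tsum`), the left invariance
of the measure and of `Φ`, and `∑_x 1[x ∈ s] = encard s`.
-/

set_option autoImplicit false

open AutomorphicForm IsDedekindDomain NumberField Filter Topology MeasureTheory
open scoped ComplexConjugate ENNReal

noncomputable section

namespace Fermat.Agent.LT.T7.H69

open Fermat.Agent.LT.H556 Fermat.Agent.LT.H556.A0 Fermat.Agent.LT.T7 Fermat.Agent.LT.T7.Rigid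
open Fermat.Agent.LT.T7.H57

attribute [local instance] Fermat.Agent.LT.T5.instMeasurableSpaceG

variable (K : Type) [Field K] [NumberField K]

/-! ## The matrix `γ_x` -/

theorem gamMat_one_zero69 (x : Projectivization K (Fin 2 → K)) :
    gamMat57 K x 1 0 = x.rep 0 := by
  unfold gamMat57
  split_ifs <;> simp

theorem gamMat_one_one69 (x : Projectivization K (Fin 2 → K)) :
    gamMat57 K x 1 1 = x.rep 1 := by
  unfold gamMat57
  split_ifs <;> simp

theorem gamA_entry69 (x : Projectivization K (Fin 2 → K)) (i j : Fin 2) :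
    (gamA57 K x : Matrix (Fin 2) (Fin 2) (Adl K)) i j = algebraMap K (Adl K) (gamMat57 K x i j) := by
  unfold gamA57
  rw [Matrix.GeneralLinearGroup.map_apply]
  rfl

theorem botRow_gamA69 (x : Projectivization K (Fin 2 → K)) (g : G K) :
    botRow57 K (gamA57 K x * g) = rowOf x.rep g := by
  funext j
  unfold botRow57 rowOf
  rw [Matrix.GeneralLinearGroup.coe_mul, Matrix.mul_apply, Fin.sum_univ_two, gamA_entry69,
    gamA_entry69, gamMat_one_zero69, gamMat_one_one69]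

theorem det_gamA69 (x : Projectivization K (Fin 2 → K)) (g : G K) :
    Matrix.det ((gamA57 K x * g : G K) : Matrix (Fin 2) (Fin 2) (Adl K))
      = Matrix.det (g : Matrix (Fin 2) (Fin 2) (Adl K)) := by
  have h1 : Matrix.det ((gamA57 K x : G K) : Matrix (Fin 2) (Fin 2) (Adl K)) = 1 := by
    have h2 : ((gamA57 K x : G K) : Matrix (Fin 2) (Fin 2) (Adl K))
        = (algebraMap K (Adl K)).mapMatrix (gamMat57 K x) := by
      ext i j
      rw [gamA_entry69]
      rfl
    rw [h2, ← RingHom.map_det, det_gamMat57, map_one]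
  rw [Matrix.GeneralLinearGroup.coe_mul, Matrix.det_mul, h1, one_mul]

/-- The key identity: `γ_x g ∈ E_Y` iff `x` is counted at `g`. -/
theorem mem_EY_gam69 (𝔪 : Ideal (𝓞 K)) (Y : ℝ) (x : Projectivization K (Fin 2 → K)) (g : G K) :
    gamA57 K x * g ∈ EY57 K 𝔪 Y ↔ x ∈ cntSet 𝔪 Y g := by
  simp only [EY57, Om57, cntSet, Set.mem_ofPred_eq, botRow_gamA69, det_gamA69]

/-! ## Measurability -/

theorem measurable_leftMul69 (a : G K) : Measurable (fun g : G K => a * g) := by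
  have : BorelSpace (G K) := ⟨rfl⟩
  exact (continuous_const.mul continuous_id).measurable

theorem measurableSet_EY69 (𝔪 : Ideal (𝓞 K)) (Y : ℝ) : MeasurableSet (EY57 K 𝔪 Y) := by
  have h0 : (![0, 1] : Fin 2 → K) ≠ 0 := by
    intro h
    have := congrFun h 1
    simp at this
  set x₀ : Projectivization K (Fin 2 → K) := Projectivization.mk K ![0, 1] h0
  have h : EY57 K 𝔪 Y
      = (fun g : G K => (gamA57 K x₀)⁻¹ * g) ⁻¹' {g : G K | x₀ ∈ cntSet 𝔪 Y g} := by
    ext g
    rw [Set.mem_preimage, Set.mem_ofPred_eq, ← mem_EY_gam69, mul_inv_cancel_left]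
  rw [h]
  exact measurable_leftMul69 K _ (H724.measurableSet_mem_cntSet724 𝔪 Y x₀)

theorem measurableSet_gamF69 (F : Set (G K)) (hF : MeasurableSet F)
    (x : Projectivization K (Fin 2 → K)) :
    MeasurableSet {h : G K | (gamA57 K x)⁻¹ * h ∈ F} :=
  measurable_leftMul69 K _ hF

theorem measurable_fnX69 (𝔪 : Ideal (𝓞 K)) (F : Set (G K)) (hF : MeasurableSet F)
    (Φ : G K → ℝ≥0∞) (hΦ : Measurable Φ) (Y : ℝ) (x : Projectivization K (Fin 2 → K)) :
    Measurable (fnX57 K 𝔪 F Φ Y x) := by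
  unfold fnX57
  exact (hΦ.mul (measurable_one.indicator (measurableSet_EY69 K 𝔪 Y))).mul
    (measurable_one.indicator (measurableSet_gamF69 K F hF x))

/-! ## The integral of one summand -/

theorem fnX_gam69 (𝔪 : Ideal (𝓞 K)) (F : Set (G K)) (Φ : G K → ℝ≥0∞) (hinv : IsLeftInvE57 K Φ)
    (Y : ℝ) (x : Projectivization K (Fin 2 → K)) (g : G K) :
    fnX57 K 𝔪 F Φ Y x (gamA57 K x * g)
      = F.indicator (fun g => Φ g * ({g : G K | x ∈ cntSet 𝔪 Y g}).indicator 1 g) g := by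
  have hΦ : Φ (gamA57 K x * g) = Φ g := hinv (gam57 K x) g
  unfold fnX57
  rw [hΦ]
  by_cases hg : g ∈ F
  · have h1 : gamA57 K x * g ∈ {h : G K | (gamA57 K x)⁻¹ * h ∈ F} := by
      rw [Set.mem_ofPred_eq, inv_mul_cancel_left]
      exact hg
    rw [Set.indicator_of_mem hg, Set.indicator_of_mem h1, Pi.one_apply, mul_one]
    by_cases hx : x ∈ cntSet 𝔪 Y g
    · have h2 : gamA57 K x * g ∈ EY57 K 𝔪 Y := (mem_EY_gam69 K 𝔪 Y x g).mpr hx
      have h3 : g ∈ {g : G K | x ∈ cntSet 𝔪 Y g} := hx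
      rw [Set.indicator_of_mem h2, Set.indicator_of_mem h3]
      rfl
    · have h2 : gamA57 K x * g ∉ EY57 K 𝔪 Y := fun h => hx ((mem_EY_gam69 K 𝔪 Y x g).mp h)
      have h3 : g ∉ {g : G K | x ∈ cntSet 𝔪 Y g} := hx
      rw [Set.indicator_of_notMem h2, Set.indicator_of_notMem h3]
  · have h1 : gamA57 K x * g ∉ {h : G K | (gamA57 K x)⁻¹ * h ∈ F} := by
      rw [Set.mem_ofPred_eq, inv_mul_cancel_left]
      exact hg
    rw [Set.indicator_of_notMem hg, Set.indicator_of_notMem h1, mul_zero]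

theorem lintegral_fnX69 (μ : Measure (G K)) [μ.IsMulLeftInvariant] (𝔪 : Ideal (𝓞 K))
    (F : Set (G K)) (hF : MeasurableSet F) (Φ : G K → ℝ≥0∞) (hinv : IsLeftInvE57 K Φ)
    (Y : ℝ) (x : Projectivization K (Fin 2 → K)) :
    ∫⁻ g, fnX57 K 𝔪 F Φ Y x g ∂μ
      = ∫⁻ g in F, Φ g * ({g : G K | x ∈ cntSet 𝔪 Y g}).indicator 1 g ∂μ := by
  have : BorelSpace (G K) := ⟨rfl⟩
  rw [← lintegral_mul_left_eq_self (fnX57 K 𝔪 F Φ Y x) (gamA57 K x)]
  simp only [fnX_gam69 K 𝔪 F Φ hinv Y x]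
  exact lintegral_indicator hF _

/-! ## The sum of the indicators -/

theorem tsum_indicator_cnt69 (𝔪 : Ideal (𝓞 K)) (Y : ℝ) (g : G K) :
    ∑' x : Projectivization K (Fin 2 → K),
        (({g : G K | x ∈ cntSet 𝔪 Y g}).indicator (1 : G K → ℝ≥0∞) g)
      = (((cntSet 𝔪 Y g).encard : ℕ∞) : ℝ≥0∞) := by
  rw [← ENNReal.tsum_set_one, tsum_subtype (cntSet 𝔪 Y g) (fun _ => (1 : ℝ≥0∞))]
  refine tsum_congr fun x => ?_
  by_cases hx : x ∈ cntSet 𝔪 Y g
  · have h3 : g ∈ {g : G K | x ∈ cntSet 𝔪 Y g} := hx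
    rw [Set.indicator_of_mem h3, Set.indicator_of_mem hx, Pi.one_apply]
  · have h3 : g ∉ {g : G K | x ∈ cntSet 𝔪 Y g} := hx
    rw [Set.indicator_of_notMem h3, Set.indicator_of_notMem hx]

/-! ## The leaf -/

/-- **LEAF T7.14.6a-F.11 `CntSumC57`.** -/
theorem cntSumC69 (_h : Fermat.Agent.LT.T1.T1Out K) : H57.CntSumC57 K := by
  intro _ μ F hfr S 𝔪 _ Φ hΦ hinv Y _
  have : Countable (Projectivization K (Fin 2 → K)) := H724.countable_proj724 K
  have : μ.IsHaarMeasure := hfr.haar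
  have hF : MeasurableSet F := hfr.meas
  have hmeas : ∀ x, Measurable (fnX57 K 𝔪 F Φ Y x) := fun x => measurable_fnX69 K 𝔪 F hF Φ hΦ Y x
  refine ⟨Measurable.ennreal_tsum hmeas, ?_⟩
  have hcnt : ∀ x : Projectivization K (Fin 2 → K),
      Measurable (fun g : G K => Φ g * ({g : G K | x ∈ cntSet 𝔪 Y g}).indicator 1 g) := fun x =>
    hΦ.mul (measurable_one.indicator (H724.measurableSet_mem_cntSet724 𝔪 Y x))
  calc ∫⁻ g, fnE57 K 𝔪 F Φ Y g ∂μ
      = ∫⁻ g, ∑' x : Projectivization K (Fin 2 → K), fnX57 K 𝔪 F Φ Y x g ∂μ := rfl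
    _ = ∑' x : Projectivization K (Fin 2 → K), ∫⁻ g, fnX57 K 𝔪 F Φ Y x g ∂μ :=
        lintegral_tsum fun x => (hmeas x).aemeasurable
    _ = ∑' x : Projectivization K (Fin 2 → K),
          ∫⁻ g in F, Φ g * ({g : G K | x ∈ cntSet 𝔪 Y g}).indicator 1 g ∂μ :=
        tsum_congr fun x => lintegral_fnX69 K μ 𝔪 F hF Φ hinv Y x
    _ = ∫⁻ g in F, ∑' x : Projectivization K (Fin 2 → K),
          Φ g * ({g : G K | x ∈ cntSet 𝔪 Y g}).indicator 1 g ∂μ :=
        (lintegral_tsum fun x => (hcnt x).aemeasurable).symm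
    _ = ∫⁻ g in F, Φ g * (((cntSet 𝔪 Y g).encard : ℕ∞) : ℝ≥0∞) ∂μ := by
        refine lintegral_congr fun g => ?_
        rw [ENNReal.tsum_mul_left, tsum_indicator_cnt69]

end Fermat.Agent.LT.T7.H69

end

end
-- ===== PACK-END LT/T7/H69/CntSum.lean

-- ===== PACK-BEGIN LT/T7/H704/OmDecomp.lean
section




/-!
# Row LT, tower T7, LEAF `OmDecompC57` (helper704): `Ω = B(𝔸) · U(𝔪) K_∞`

    omDecompC704 : T1.T1Out K → H57.OmDecompC57 K

Spec: helper57 `Fermat/Agent/LT/T7/H57/FoldSpec5.lean` (sha256 8a9bba37...), VERBATIM.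

Proof.  Iwasawa (`T1.IwasawaC`): `g = b k`, `b` upper triangular, `k` in the standard compact
group.  For `v ∣ 𝔪` the condition `g ∈ Ω` gives `k₁₀ = t k₁₁` at `v` with `t ∈ 𝔪 𝒪_v` (`b₁₁` is a
unit).  Let `β` be the adelic element with `β_v = k_v [[1, 0], [-t, 1]]` at `v ∈ S` and `β = 1` at
all other places (helper724 `mkG724`); `β` is upper triangular, hence `b β = ι(p₀)`, and
`a = ι(p₀)⁻¹ g = β⁻¹ k` has the components `[[1, 0], [t, 1]]` at `v ∈ S`, `k_v` at `v ∉ S` and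
`k_w` at the infinite places: it lies in the group generated by `U(𝔪)` and the `K_w`
(helper724 `mem_kGroup_of_comps724`, `mem_idealClosure_of_not_dvd724`).
-/

set_option autoImplicit false

open IsDedekindDomain NumberField
open scoped ENNReal

noncomputable section

namespace Fermat.Agent.LT.H704

open Fermat.Agent.LT.H556 Fermat.Agent.LT.H556.A0 Fermat.Agent.LT.T7 Fermat.Agent.LT.T7.Rigid
open Fermat.Agent.LT.T7.H57 Fermat.Agent.LT.T1.H724 Fermat.Agent.LT.T2.H724

variable {K : Type} [Field K] [NumberField K]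

/-- A function which is right invariant under the generators is right invariant under the
generated group. -/
theorem rightInv_kGroup704 {𝔪 : Ideal (𝓞 K)} {Ψ : G K → ℝ≥0∞} (hΨ : IsRightCE57 K 𝔪 Ψ)
    {a : G K} (ha : a ∈ kGroup724 𝔪) : ∀ h : G K, Ψ (h * a) = Ψ h := by
  unfold kGroup724 at ha
  induction ha using Subgroup.closure_induction with
  | mem x hx =>
    intro h
    rcases hx with hx | ⟨w, hx⟩
    · exact hΨ.1 x hx h
    · exact hΨ.2 w x hx h
  | one => intro h; rw [mul_one]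
  | mul x y _ _ hx hy => intro h; rw [← mul_assoc, hy, hx]
  | inv x _ hx =>
    intro h
    have := hx (h * x⁻¹)
    rw [inv_mul_cancel_right] at this
    exact this.symm

/-- An upper triangular element is in the image of the coordinates `ι`. -/
theorem exists_iota_of_upper704 (B : G K)
    (hB : (B : Matrix (Fin 2) (Fin 2) (Adl K)) 1 0 = 0) :
    ∃ p₀ : PB57 K, iota57 K p₀ = B := by
  have hdet : IsUnit ((B : Matrix (Fin 2) (Fin 2) (Adl K)).det) :=
    (Matrix.isUnit_iff_isUnit_det _).1 B.isUnit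
  rw [Matrix.det_fin_two, hB, mul_zero, sub_zero] at hdet
  have h00 : IsUnit ((B : Matrix (Fin 2) (Fin 2) (Adl K)) 0 0) := isUnit_of_mul_isUnit_left hdet
  have h11 : IsUnit ((B : Matrix (Fin 2) (Fin 2) (Adl K)) 1 1) := isUnit_of_mul_isUnit_right hdet
  obtain ⟨y, hy⟩ := h00
  obtain ⟨z, hz⟩ := h11
  refine ⟨((B : Matrix (Fin 2) (Fin 2) (Adl K)) 0 1 * ((z⁻¹ : (Adl K)ˣ) : Adl K), y * z⁻¹, z), ?_⟩
  apply Units.ext
  ext i j : 2
  fin_cases i <;> fin_cases j
  · simp [iota57, Fermat.Agent.LT.T3.unip, dgA, zA57, Matrix.mul_apply, Fin.sum_univ_two, hy]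
  · simp [iota57, Fermat.Agent.LT.T3.unip, dgA, zA57, Matrix.mul_apply, Fin.sum_univ_two,
      mul_assoc]
  · simp [iota57, Fermat.Agent.LT.T3.unip, dgA, zA57, Matrix.mul_apply, Fin.sum_univ_two, hB]
  · simp [iota57, Fermat.Agent.LT.T3.unip, dgA, zA57, Matrix.mul_apply, Fin.sum_univ_two, hz]

theorem isInt_mul704 {v : HeightOneSpectrum (𝓞 K)}
    {M N : Matrix (Fin 2) (Fin 2) (v.adicCompletion K)}
    (hM : ∀ i j, Valued.v (M i j) ≤ 1) (hN : ∀ i j, Valued.v (N i j) ≤ 1) :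
    ∀ i j, Valued.v ((M * N) i j) ≤ 1 := by
  intro i j
  rw [Matrix.mul_apply, Fin.sum_univ_two]
  refine (Valuation.map_add _ _ _).trans (max_le ?_ ?_)
  · rw [map_mul]
    exact mul_le_one' (hM i 0) (hN 0 j)
  · rw [map_mul]
    exact mul_le_one' (hM i 1) (hN 1 j)

theorem isInt_low704 {v : HeightOneSpectrum (𝓞 K)} {t : v.adicCompletion K}
    (ht : Valued.v t ≤ 1) :
    ∀ i j, Valued.v ((!![1, 0; t, 1] : Matrix (Fin 2) (Fin 2) (v.adicCompletion K)) i j) ≤ 1 := by
  intro i j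
  fin_cases i <;> fin_cases j <;> simp [ht]

theorem low_mul_low704 {v : HeightOneSpectrum (𝓞 K)} (t : v.adicCompletion K) :
    (!![1, 0; t, 1] : Matrix (Fin 2) (Fin 2) (v.adicCompletion K)) * !![1, 0; -t, 1] = 1 := by
  ext i j : 2
  fin_cases i <;> fin_cases j <;> simp [Matrix.mul_apply, Fin.sum_univ_two]

theorem low_mul_low'704 {v : HeightOneSpectrum (𝓞 K)} (t : v.adicCompletion K) :
    (!![1, 0; -t, 1] : Matrix (Fin 2) (Fin 2) (v.adicCompletion K)) * !![1, 0; t, 1] = 1 := by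
  ext i j : 2
  fin_cases i <;> fin_cases j <;> simp [Matrix.mul_apply, Fin.sum_univ_two]

/-- **LEAF OM-DECOMP** (helper57 `OmDecompC57`, VERBATIM). -/
theorem omDecompC704 (hT : Fermat.Agent.LT.T1.T1Out K) : OmDecompC57 K := by
  classical
  intro _ S 𝔪 hS g hg
  obtain ⟨b, k, hb, hk, rfl⟩ := hT.iwasawa g
  have hb10 : (b : Matrix (Fin 2) (Fin 2) (Adl K)) 1 0 = 0 := hb
  have hdet : IsUnit ((b : Matrix (Fin 2) (Fin 2) (Adl K)).det) :=
    (Matrix.isUnit_iff_isUnit_det _).1 b.isUnit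
  rw [Matrix.det_fin_two, hb10, mul_zero, sub_zero] at hdet
  have h11 : IsUnit ((b : Matrix (Fin 2) (Fin 2) (Adl K)) 1 1) := isUnit_of_mul_isUnit_right hdet
  have hkI : ∀ v i j, Valued.v (finComp v k i j) ≤ 1 := fun v i j =>
    (HeightOneSpectrum.mem_adicCompletionIntegers (𝓞 K) K v).1 ((hk.1 v).1 i j)
  have hkI' : ∀ v i j, Valued.v (finComp v k⁻¹ i j) ≤ 1 := fun v i j =>
    (HeightOneSpectrum.mem_adicCompletionIntegers (𝓞 K) K v).1 ((hk.1 v).2 i j)
  -- the congruence at `v ∈ S`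
  have key : ∀ v : HeightOneSpectrum (𝓞 K), ∃ t ∈ idealClosure 𝔪 v,
      (v ∈ S → finComp v k 1 0 = t * finComp v k 1 1) := by
    intro v
    by_cases hv : v ∈ S
    · obtain ⟨t, ht, e⟩ := hg v ((hS.2 v).2 hv)
      refine ⟨t, ht, fun _ => ?_⟩
      have hu : IsUnit (evFin724 v ((b : Matrix (Fin 2) (Fin 2) (Adl K)) 1 1)) :=
        h11.map (evFin724 v)
      have e0 : (botRow57 K (b * k) 0).2 v
          = evFin724 v ((b : Matrix (Fin 2) (Fin 2) (Adl K)) 1 1) * finComp v k 1 0 := by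
        change evFin724 v (((b * k : G K) : Matrix (Fin 2) (Fin 2) (Adl K)) 1 0) = _
        rw [Units.val_mul, Matrix.mul_apply, Fin.sum_univ_two, hb10, zero_mul, zero_add, map_mul]
        rfl
      have e1 : (botRow57 K (b * k) 1).2 v
          = evFin724 v ((b : Matrix (Fin 2) (Fin 2) (Adl K)) 1 1) * finComp v k 1 1 := by
        change evFin724 v (((b * k : G K) : Matrix (Fin 2) (Fin 2) (Adl K)) 1 1) = _
        rw [Units.val_mul, Matrix.mul_apply, Fin.sum_univ_two, hb10, zero_mul, zero_add, map_mul]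
        rfl
      rw [e0, e1] at e
      have e' : evFin724 v ((b : Matrix (Fin 2) (Fin 2) (Adl K)) 1 1) * finComp v k 1 0
          = evFin724 v ((b : Matrix (Fin 2) (Fin 2) (Adl K)) 1 1) * (t * finComp v k 1 1) := by
        rw [e]; ring
      exact mul_left_cancel₀ hu.ne_zero e'
    · exact ⟨0, zero_mem_idealClosure724 v 𝔪, fun h => absurd h hv⟩
  choose t ht1 ht2 using key
  have htI : ∀ v, Valued.v (t v) ≤ 1 := fun v => val_le_one_of_mem_idealClosure724 v 𝔪 (ht1 v)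
  have htI' : ∀ v, Valued.v (-t v) ≤ 1 := fun v => by rw [Valuation.map_neg]; exact htI v
  -- the local components of `β`
  let βM : ∀ v : HeightOneSpectrum (𝓞 K), Matrix (Fin 2) (Fin 2) (v.adicCompletion K) :=
    fun v => if v ∈ S then finComp v k * !![1, 0; -t v, 1] else 1
  let βN : ∀ v : HeightOneSpectrum (𝓞 K), Matrix (Fin 2) (Fin 2) (v.adicCompletion K) :=
    fun v => if v ∈ S then !![1, 0; t v, 1] * finComp v k⁻¹ else 1
  have hβM : ∀ v i j, Valued.v (βM v i j) ≤ 1 := by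
    intro v i j
    by_cases hv : v ∈ S
    · simp only [βM, if_pos hv]
      exact isInt_mul704 (hkI v) (isInt_low704 (htI' v)) i j
    · simp only [βM, if_neg hv]
      exact val_one_apply_le724 v i j
  have hβN : ∀ v i j, Valued.v (βN v i j) ≤ 1 := by
    intro v i j
    by_cases hv : v ∈ S
    · simp only [βN, if_pos hv]
      exact isInt_mul704 (isInt_low704 (htI v)) (hkI' v) i j
    · simp only [βN, if_neg hv]
      exact val_one_apply_le724 v i j
  have hβ3 : ∀ v, βM v * βN v = 1 := by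
    intro v
    by_cases hv : v ∈ S
    · simp only [βM, βN, if_pos hv]
      rw [Matrix.mul_assoc, ← Matrix.mul_assoc (!![1, 0; -t v, 1]), low_mul_low'704,
        Matrix.one_mul, finComp_mul_inv724]
    · simp only [βM, βN, if_neg hv, mul_one]
  obtain ⟨β, hβdef⟩ : ∃ β : G K, β = mkG724 (fun _ => 1) (fun _ => 1) βM βN hβM hβN
      (fun _ => mul_one 1) hβ3 := ⟨_, rfl⟩
  have hβfin : ∀ v, finComp v β = βM v := fun v => by rw [hβdef]; rfl
  have hβfin' : ∀ v, finComp v β⁻¹ = βN v := fun v => by rw [hβdef]; rfl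
  have hβinf' : ∀ w, cInf724 w β⁻¹ = 1 := fun w => by rw [hβdef]; rfl
  have hβinf : ∀ w, cInf724 w β = 1 := fun w => by rw [hβdef]; rfl
  have hβ10 : (β : Matrix (Fin 2) (Fin 2) (Adl K)) 1 0 = 0 := by
    refine adl_ext724 (fun w => ?_) (fun v => ?_)
    · rw [map_zero]
      have := congrFun (congrFun (hβinf w) 1) 0
      simpa [cInf724] using this
    · rw [map_zero]
      have h1 : evFin724 v ((β : Matrix (Fin 2) (Fin 2) (Adl K)) 1 0) = βM v 1 0 :=
        congrFun (congrFun (hβfin v) 1) 0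
      rw [h1]
      by_cases hv : v ∈ S
      · simp only [βM, if_pos hv]
        rw [Matrix.mul_apply, Fin.sum_univ_two]
        simp only [Matrix.of_apply, Matrix.cons_val', Matrix.cons_val_zero, Matrix.cons_val_one,
          Matrix.empty_val', Matrix.cons_val_fin_one]
        rw [ht2 v hv]
        ring
      · simp only [βM, if_neg hv]
        simp
  have hB : ((b * β : G K) : Matrix (Fin 2) (Fin 2) (Adl K)) 1 0 = 0 := by
    rw [Units.val_mul, Matrix.mul_apply, Fin.sum_univ_two, hb10, hβ10, zero_mul, mul_zero,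
      add_zero]
  obtain ⟨p₀, hp₀⟩ := exists_iota_of_upper704 (b * β) hB
  refine ⟨p₀, fun Ψ hΨ h => ?_⟩
  rw [hp₀]
  have ea : (b * β)⁻¹ * (b * k) = β⁻¹ * k := by group
  rw [ea]
  refine rightInv_kGroup704 hΨ ?_ h
  refine mem_kGroup_of_comps724 𝔪 Finset.univ (β⁻¹ * k) ?_ ?_ ?_
  · intro v i j
    have e1 : finComp v (β⁻¹ * k) = βN v * finComp v k := by
      rw [finComp_mul724, hβfin']
    have e2 : finComp v (β⁻¹ * k)⁻¹ = finComp v k⁻¹ * βM v := by
      rw [mul_inv_rev, inv_inv, finComp_mul724, hβfin]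
    rw [e1, e2]
    by_cases hv : v ∈ S
    · simp only [βM, βN, if_pos hv]
      rw [Matrix.mul_assoc, finComp_inv_mul724, Matrix.mul_one, ← Matrix.mul_assoc,
        finComp_inv_mul724, Matrix.one_mul]
      have hz := zero_mem_idealClosure724 v 𝔪
      have hn := neg_mem_idealClosure724 v 𝔪 (ht1 v)
      have hp := ht1 v
      constructor
      · fin_cases i <;> fin_cases j <;> simp [hz, hp]
      · fin_cases i <;> fin_cases j <;> simp [hz, hn]
    · simp only [βM, βN, if_neg hv, one_mul, mul_one]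
      have hnd : ¬ v.asIdeal ∣ 𝔪 := fun h => hv ((hS.2 v).1 h)
      constructor
      · apply mem_idealClosure_of_not_dvd724 v 𝔪 hnd
        rw [Matrix.sub_apply]
        exact (Valuation.map_sub _ _ _).trans (max_le (hkI v i j) (val_one_apply_le724 v i j))
      · apply mem_idealClosure_of_not_dvd724 v 𝔪 hnd
        rw [Matrix.sub_apply]
        exact (Valuation.map_sub _ _ _).trans (max_le (hkI' v i j) (val_one_apply_le724 v i j))
  · intro w _
    have e : infComp w (β⁻¹ * k) = infComp w k := by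
      rw [infComp_eq_cInf724, infComp_eq_cInf724, cInf_mul724, hβinf', one_mul]
    unfold CompactInf724
    rw [e]
    exact hk.2 w
  · intro w hw
    exact absurd (Finset.mem_univ w) hw

end Fermat.Agent.LT.H704

end
end
-- ===== PACK-END LT/T7/H704/OmDecomp.lean

-- ===== PACK-BEGIN LT/T7/H786/IotaCoord.lean
section



/-!
# Row LT, tower T7, leaf `IotaCoordC57` (registry row 2217) -- helper786

OFF-MAIN.  `iotaCoordC786 : T1.AdNormC K → H57.IotaCoordC57 K`, VERBATIM Prop of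
`LT/T7/H57/FoldSpec5.lean` (helper57, sha256 8a9bba37).

`ι(x, y, z) = [[y z, x z], [0, z]]`: the bottom row is `(0, z)`, `rowNorm (0, z) = ‖z‖_𝔸`,
`det = y z²`, and `‖·‖_𝔸` is multiplicative and positive on the ideles (`T1.AdNormC`).
-/

set_option autoImplicit false

open AutomorphicForm IsDedekindDomain NumberField

noncomputable section

namespace Fermat.Agent.LT.T7.H786

open Fermat.Agent.LT.H556 Fermat.Agent.LT.H556.A0 Fermat.Agent.LT.T7 Fermat.Agent.LT.T7.Rigid
open Fermat.Agent.LT.T7.H57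

variable (K : Type) [Field K] [NumberField K]

/-- The matrix of `ι(x, y, z)`. -/
theorem iota_val786 (p : PB57 K) :
    ((iota57 K p : G K) : Matrix (Fin 2) (Fin 2) (Adl K))
      = !![(p.2.1 : Adl K) * (p.2.2 : Adl K), p.1 * (p.2.2 : Adl K); 0, (p.2.2 : Adl K)] := by
  unfold iota57
  rw [Units.val_mul, Units.val_mul]
  show (!![1, p.1; 0, 1] : Matrix (Fin 2) (Fin 2) (Adl K)) * !![(p.2.1 : Adl K), 0; 0, 1]
      * !![(p.2.2 : Adl K), 0; 0, (p.2.2 : Adl K)] = _
  ext i j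
  fin_cases i <;> fin_cases j <;> simp [Matrix.mul_apply, Fin.sum_univ_two]

theorem botRow_zero786 (p : PB57 K) : botRow57 K (iota57 K p) 0 = 0 := by
  unfold botRow57
  rw [iota_val786]
  rfl

theorem botRow_one786 (p : PB57 K) : botRow57 K (iota57 K p) 1 = (p.2.2 : Adl K) := by
  unfold botRow57
  rw [iota_val786]
  rfl

theorem det_iota786 (p : PB57 K) :
    Matrix.det ((iota57 K p : G K) : Matrix (Fin 2) (Fin 2) (Adl K))
      = ((p.2.1 * p.2.2 * p.2.2 : (Adl K)ˣ) : Adl K) := by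
  rw [iota_val786, Matrix.det_fin_two_of]
  push_cast
  ring

/-- `T5.adNorm` and `T1.adNorm` are the same function. -/
theorem adNorm_eq786 (x : Adl K) :
    Fermat.Agent.LT.T5.adNorm x = Fermat.Agent.LT.T1.adNorm K x := rfl

/-- `rowNorm (0, z) = ‖z‖_𝔸`. -/
theorem rowNorm_botRow786 (p : PB57 K) :
    rowNorm (botRow57 K (iota57 K p)) = Fermat.Agent.LT.T5.adNorm ((p.2.2 : (Adl K)ˣ) : Adl K) := by
  unfold rowNorm Fermat.Agent.LT.T5.adNorm
  rw [botRow_zero786, botRow_one786]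
  congr 1
  · refine Finset.prod_congr rfl fun w _ => ?_
    have h0 : ‖((0 : Adl K)).1 w‖ = 0 := by
      have : ((0 : Adl K)).1 w = 0 := rfl
      rw [this, norm_zero]
    rw [h0]
    have hn : (0 : ℝ) ≤ ‖((p.2.2 : (Adl K)ˣ) : Adl K).1 w‖ := norm_nonneg _
    rw [show ((0 : ℝ) ^ 2 + ‖((p.2.2 : (Adl K)ˣ) : Adl K).1 w‖ ^ 2)
        = ‖((p.2.2 : (Adl K)ˣ) : Adl K).1 w‖ ^ 2 by ring]
    rw [← Real.rpow_natCast _ 2, ← Real.rpow_mul hn, ← Real.rpow_natCast _ w.mult]
    congr 1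
    push_cast
    ring
  · refine finprod_congr fun v => ?_
    have h0 : ‖((0 : Adl K)).2 v‖ = 0 := by
      have : ((0 : Adl K)).2 v = 0 := rfl
      rw [this, norm_zero]
    rw [h0]
    exact max_eq_right (norm_nonneg _)

theorem zero_mem_idealClosure786 (𝔪 : Ideal (𝓞 K)) (v : HeightOneSpectrum (𝓞 K)) :
    (0 : v.adicCompletion K) ∈ idealClosure 𝔪 v := by
  unfold idealClosure
  refine subset_closure ⟨0, 𝔪.zero_mem, ?_⟩
  simp

theorem iota_mem_Om786 (p : PB57 K) (𝔪 : Ideal (𝓞 K)) : iota57 K p ∈ Om57 K 𝔪 := by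
  intro v _
  refine ⟨0, zero_mem_idealClosure786 K 𝔪 v, ?_⟩
  rw [botRow_zero786, zero_mul]
  rfl

/-- **Leaf IOTA-COORD** (registry row 2217), VERBATIM. -/
theorem iotaCoordC786 (h : Fermat.Agent.LT.T1.AdNormC K) : IotaCoordC57 K := by
  obtain ⟨hpos, hmul, -, -⟩ := h
  intro p
  have hz : 0 < Fermat.Agent.LT.T5.adNorm ((p.2.2 : (Adl K)ˣ) : Adl K) := hpos p.2.2
  have hdet : Fermat.Agent.LT.T5.adNorm
      (Matrix.det ((iota57 K p : G K) : Matrix (Fin 2) (Fin 2) (Adl K)))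
        = nrm57 K p.2.1 * nrm57 K p.2.2 ^ 2 := by
    rw [det_iota786]
    have h1 := hmul (p.2.1 * p.2.2) p.2.2
    have h2 := hmul p.2.1 p.2.2
    unfold nrm57
    rw [adNorm_eq786, adNorm_eq786, adNorm_eq786, h1, h2]
    ring
  have hrow : rowNorm (botRow57 K (iota57 K p)) = nrm57 K p.2.2 := rowNorm_botRow786 K p
  have hz' : 0 < nrm57 K p.2.2 := hz
  refine ⟨?_, fun 𝔪 Y => ?_⟩
  · unfold hgt57
    rw [hdet, hrow]
    field_simp
  · unfold EY57 Fermat.Agent.LT.T5.slab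
    show ((_ ∧ _) ∧ (_ ∧ _)) ↔ _
    rw [hdet, hrow]
    constructor
    · rintro ⟨⟨hY, -⟩, h1, h2⟩
      refine ⟨?_, h1, h2⟩
      have hsq : 0 < nrm57 K p.2.2 ^ 2 := by positivity
      have : nrm57 K p.2.2 ^ 2 * Y ≤ nrm57 K p.2.2 ^ 2 * nrm57 K p.2.1 := by
        calc nrm57 K p.2.2 ^ 2 * Y ≤ nrm57 K p.2.1 * nrm57 K p.2.2 ^ 2 := hY
          _ = nrm57 K p.2.2 ^ 2 * nrm57 K p.2.1 := by ring
      exact le_of_mul_le_mul_left this hsq
    · rintro ⟨hY, h1, h2⟩
      refine ⟨⟨?_, iota_mem_Om786 K p 𝔪⟩, h1, h2⟩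
      have hsq : 0 ≤ nrm57 K p.2.2 ^ 2 := by positivity
      calc nrm57 K p.2.2 ^ 2 * Y ≤ nrm57 K p.2.2 ^ 2 * nrm57 K p.2.1 :=
            mul_le_mul_of_nonneg_left hY hsq
        _ = nrm57 K p.2.1 * nrm57 K p.2.2 ^ 2 := by ring

end Fermat.Agent.LT.T7.H786

end

end
-- ===== PACK-END LT/T7/H786/IotaCoord.lean

-- ===== PACK-BEGIN LT/T7/H793/ThetaCpt.lean
section






/-!
# Row LT, tower T7, leaf T7.14.6a-C.4 `ThetaSetC290` (helper793, OFF-MAIN), part 1:
# the compact group `𝒰(𝔪) = U(𝔪) K_∞`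

* `idealClosure_mul_int793` : `𝔪 𝒪_v` is an `𝒪_v`-module;
* `isCpt_one793`, `isCpt_mul793`, `isCpt_inv793` : `𝒰(𝔪)` (`H290.IsCpt290`) is a group;
* `isCompact_cptSet793` : `𝒰(𝔪)` is compact.
-/

set_option autoImplicit false

open IsDedekindDomain NumberField Topology
open Fermat.Agent.LT.H556.A0

noncomputable section

namespace Fermat.Agent.LT.T7.H793

open Fermat.Agent.LT.T1 Fermat.Agent.LT.T1.H793 Fermat.Agent.LT.T3.H57
open Fermat.Agent.LT.T7.Rigid.H290

variable {K : Type} [Field K] [NumberField K]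

/-! ## The closure of an ideal is a module over `𝒪_v` -/

lemma idealClosure_mul_int793 (𝔫 : Ideal (𝓞 K)) (v : HeightOneSpectrum (𝓞 K))
    {x y : v.adicCompletion K} (hx : x ∈ idealClosure 𝔫 v)
    (hy : y ∈ v.adicCompletionIntegers K) : x * y ∈ idealClosure 𝔫 v := by
  have h : Continuous fun p : v.adicCompletion K × v.adicCompletion K => p.1 * p.2 :=
    continuous_mul
  refine map_mem_closure₂ h hx (integers_subset_closure57 v hy) ?_
  rintro _ ⟨a, ha, rfl⟩ _ ⟨r, rfl⟩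
  exact ⟨a * r, 𝔫.mul_mem_right r ha, by simp⟩

lemma idealClosure_neg793 (𝔫 : Ideal (𝓞 K)) (v : HeightOneSpectrum (𝓞 K))
    {x : v.adicCompletion K} (hx : x ∈ idealClosure 𝔫 v) : -x ∈ idealClosure 𝔫 v := by
  have h : Continuous fun p : v.adicCompletion K => -p := continuous_neg
  refine map_mem_closure h hx ?_
  rintro _ ⟨a, ha, rfl⟩
  exact ⟨-a, 𝔫.neg_mem ha, by simp⟩

/-! ## `U(𝔪)_f` is a group -/

lemma inU0_int793 {𝔪 : Ideal (𝓞 K)} {x : G K} (hx : InU057 𝔪 x)
    (v : HeightOneSpectrum (𝓞 K)) : IsIntegralAt v x ∧ IsIntegralAt v x⁻¹ := by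
  have key : ∀ (M : Matrix (Fin 2) (Fin 2) (v.adicCompletion K)) (i j : Fin 2),
      (M - 1) i j ∈ idealClosure 𝔪 v → M i j ∈ v.adicCompletionIntegers K := by
    intro M i j h
    have h1 := idealClosure_subset57 𝔪 v h
    have h2 : (1 : Matrix (Fin 2) (Fin 2) (v.adicCompletion K)) i j
        ∈ v.adicCompletionIntegers K := by
      rw [Matrix.one_apply]
      split_ifs
      · exact one_mem _
      · exact zero_mem _
    have : M i j = (M - 1) i j + (1 : Matrix (Fin 2) (Fin 2) (v.adicCompletion K)) i j := by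
      rw [Matrix.sub_apply, sub_add_cancel]
    rw [this]
    exact add_mem h1 h2
  exact ⟨fun i j => key _ i j (hx v i j).1, fun i j => key _ i j (hx v i j).2⟩

lemma inU0_one793 (𝔪 : Ideal (𝓞 K)) : InU057 𝔪 (1 : G K) := by
  intro v i j
  rw [inv_one, finComp_one793, sub_self]
  exact ⟨zero_mem_idealClosure57 𝔪 v, zero_mem_idealClosure57 𝔪 v⟩

lemma inU0_inv793 {𝔪 : Ideal (𝓞 K)} {x : G K} (hx : InU057 𝔪 x) : InU057 𝔪 x⁻¹ := by
  intro v i j
  rw [inv_inv]
  exact ⟨(hx v i j).2, (hx v i j).1⟩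

/-- `(A - 1) B + (B - 1) = A B - 1`, entrywise in the closure of `𝔪`. -/
lemma mul_sub_one_mem793 (𝔪 : Ideal (𝓞 K)) (v : HeightOneSpectrum (𝓞 K))
    (A B : Matrix (Fin 2) (Fin 2) (v.adicCompletion K))
    (hA : ∀ i j, (A - 1) i j ∈ idealClosure 𝔪 v) (hB : ∀ i j, (B - 1) i j ∈ idealClosure 𝔪 v)
    (hBint : ∀ i j, B i j ∈ v.adicCompletionIntegers K) (i j : Fin 2) :
    (A * B - 1) i j ∈ idealClosure 𝔪 v := by
  have e : A * B - 1 = (A - 1) * B + (B - 1) := by
    rw [Matrix.sub_mul, Matrix.one_mul]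
    abel
  rw [e, Matrix.add_apply, Matrix.mul_apply, Fin.sum_univ_two]
  refine add_mem_idealClosure57 𝔪 v (add_mem_idealClosure57 𝔪 v ?_ ?_) (hB i j)
  · exact idealClosure_mul_int793 𝔪 v (hA i 0) (hBint 0 j)
  · exact idealClosure_mul_int793 𝔪 v (hA i 1) (hBint 1 j)

lemma inU0_mul793 {𝔪 : Ideal (𝓞 K)} {x y : G K} (hx : InU057 𝔪 x) (hy : InU057 𝔪 y) :
    InU057 𝔪 (x * y) := by
  intro v i j
  constructor
  · rw [finComp_mul793]
    exact mul_sub_one_mem793 𝔪 v _ _ (fun i j => (hx v i j).1) (fun i j => (hy v i j).1)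
      (fun i j => (inU0_int793 hy v).1 i j) i j
  · rw [mul_inv_rev, finComp_mul793]
    exact mul_sub_one_mem793 𝔪 v _ _ (fun i j => (hy v i j).2) (fun i j => (hx v i j).2)
      (fun i j => (inU0_int793 hx v).2 i j) i j

/-! ## `𝒰(𝔪)` is a compact group -/

lemma isCpt_iff793 (𝔪 : Ideal (𝓞 K)) (κ : G K) :
    IsCpt290 𝔪 κ ↔ InU057 𝔪 κ ∧ IsStdCompact K κ := by
  constructor
  · rintro ⟨h1, h2⟩
    exact ⟨h1, fun v => inU0_int793 h1 v, h2⟩
  · rintro ⟨h1, h2⟩
    exact ⟨h1, h2.2⟩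

lemma isCpt_one793 (𝔪 : Ideal (𝓞 K)) : IsCpt290 𝔪 (1 : G K) :=
  (isCpt_iff793 𝔪 1).mpr ⟨inU0_one793 𝔪, isStdCompact_one793⟩

lemma isCpt_mul793 {𝔪 : Ideal (𝓞 K)} {κ κ' : G K} (h : IsCpt290 𝔪 κ) (h' : IsCpt290 𝔪 κ') :
    IsCpt290 𝔪 (κ * κ') := by
  rw [isCpt_iff793] at h h' ⊢
  exact ⟨inU0_mul793 h.1 h'.1, isStdCompact_mul793 h.2 h'.2⟩

lemma isCpt_inv793 {𝔪 : Ideal (𝓞 K)} {κ : G K} (h : IsCpt290 𝔪 κ) : IsCpt290 𝔪 κ⁻¹ := by
  rw [isCpt_iff793] at h ⊢
  exact ⟨inU0_inv793 h.1, isStdCompact_inv793 h.2⟩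

/-- The set `𝒰(𝔪)`. -/
def cptSet793 (𝔪 : Ideal (𝓞 K)) : Set (G K) := {κ | IsCpt290 𝔪 κ}

lemma isClosed_inU0_793 (𝔪 : Ideal (𝓞 K)) : IsClosed {x : G K | InU057 𝔪 x} := by
  have hset : {x : G K | InU057 𝔪 x}
      = ⋂ v : HeightOneSpectrum (𝓞 K), ⋂ i : Fin 2, ⋂ j : Fin 2,
          ({k : G K | finComp v k i j - (1 : Matrix (Fin 2) (Fin 2) (v.adicCompletion K)) i j
              ∈ idealClosure 𝔪 v}
            ∩ {k : G K | finComp v k⁻¹ i j
              - (1 : Matrix (Fin 2) (Fin 2) (v.adicCompletion K)) i j ∈ idealClosure 𝔪 v}) := by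
    ext k
    simp only [Set.mem_inter_iff, Set.mem_iInter]
    rfl
  rw [hset]
  refine isClosed_iInter fun v => isClosed_iInter fun i => isClosed_iInter fun j => ?_
  have hO : IsClosed (idealClosure 𝔪 v) := isClosed_closure
  exact (hO.preimage ((continuous_finComp_entry793 v i j).sub continuous_const)).inter
    (hO.preimage ((continuous_finComp_inv_entry793 v i j).sub continuous_const))

/-- **`𝒰(𝔪)` is compact.** -/
theorem isCompact_cptSet793 (𝔪 : Ideal (𝓞 K)) : IsCompact (cptSet793 (K := K) 𝔪) := by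
  have hset : cptSet793 (K := K) 𝔪 = {k : G K | IsStdCompact K k} ∩ {x : G K | InU057 𝔪 x} := by
    ext κ
    show IsCpt290 𝔪 κ ↔ _
    rw [isCpt_iff793]
    exact ⟨fun h => ⟨h.2, h.1⟩, fun h => ⟨h.2, h.1⟩⟩
  rw [hset]
  exact (isCompact_stdCompact793 K).inter_right (isClosed_inU0_793 𝔪)

end Fermat.Agent.LT.T7.H793

end

end
-- ===== PACK-END LT/T7/H793/ThetaCpt.lean

-- ===== PACK-BEGIN LT/T7/H811/WeightId.lean
section


/-!
# Row LT, tower T7, node T7.14 `RigidC`, leaf T7.14.6a-F.9 `WeightIdC57` (registry 2207)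
# helper811, OFF-MAIN

`weightIdC811 (K) : T1.LocCompC K → T1.AdNormC K → H57.WeightIdC57 K` and
`weightIdC_of_t1_811 (K) : T1.T1Out K → H57.WeightIdC57 K`.

Tonelli twice and the left invariance of `μ`:

    ∫ Fn(g) ∫_P β(ι(p)⁻¹ g) ω dλ dμ = ∫_P ω ∫ Fn(g) β(ι(p)⁻¹ g) dμ dλ
      = ∫_P ω ∫ Fn(ι(p) g) β(g) dμ dλ = ∫ (∫_P Fn(ι(p) g) ω dλ) β(g) dμ.

The general statement is `weight_general811` (a second countable topological group with its
Borel σ-algebra and an s-finite left invariant measure; a measurable space `P` with an s-finite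
measure, a measurable map `ι : P → G`, a measurable weight).
-/

set_option autoImplicit false
set_option linter.unusedSimpArgs false
set_option linter.style.haveILetI false

open MeasureTheory
open scoped ENNReal

noncomputable section

namespace Fermat.Agent.LT.T7.H811

section General

variable {G : Type*} [Group G] [MeasurableSpace G] [MeasurableMul₂ G] [MeasurableInv G]
  {P : Type*} [MeasurableSpace P]

/-- The weight identity, general form. -/
theorem weight_general811 (μ : Measure G) [SFinite μ] [μ.IsMulLeftInvariant]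
    (lam : Measure P) [SFinite lam] (ι : P → G) (hι : Measurable ι)
    (ω : P → ℝ≥0∞) (hω : Measurable ω) (Fn β : G → ℝ≥0∞) (hF : Measurable Fn)
    (hβ : Measurable β) :
    ∫⁻ g, Fn g * (∫⁻ p, β ((ι p)⁻¹ * g) * ω p ∂lam) ∂μ
      = ∫⁻ g, (∫⁻ p, Fn (ι p * g) * ω p ∂lam) * β g ∂μ := by
  -- measurability of the two integrands on `G × P`
  have h1 : Measurable (fun q : G × P => Fn q.1 * (β ((ι q.2)⁻¹ * q.1) * ω q.2)) := by
    refine (hF.comp measurable_fst).mul (Measurable.mul ?_ (hω.comp measurable_snd))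
    exact hβ.comp (((hι.comp measurable_snd).inv).mul measurable_fst)
  have h2 : Measurable (fun q : G × P => Fn (ι q.2 * q.1) * ω q.2 * β q.1) := by
    refine Measurable.mul (Measurable.mul ?_ (hω.comp measurable_snd)) (hβ.comp measurable_fst)
    exact hF.comp ((hι.comp measurable_snd).mul measurable_fst)
  have h1' : ∀ g : G, Measurable (fun p : P => β ((ι p)⁻¹ * g) * ω p) := by
    intro g
    exact (hβ.comp ((hι.inv).mul measurable_const)).mul hω
  have h2' : ∀ g : G, Measurable (fun p : P => Fn (ι p * g) * ω p) := by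
    intro g
    exact (hF.comp (hι.mul measurable_const)).mul hω
  calc ∫⁻ g, Fn g * (∫⁻ p, β ((ι p)⁻¹ * g) * ω p ∂lam) ∂μ
      = ∫⁻ g, ∫⁻ p, Fn g * (β ((ι p)⁻¹ * g) * ω p) ∂lam ∂μ := by
        refine lintegral_congr (fun g => ?_)
        rw [lintegral_const_mul _ (h1' g)]
    _ = ∫⁻ p, ∫⁻ g, Fn g * (β ((ι p)⁻¹ * g) * ω p) ∂μ ∂lam :=
        lintegral_lintegral_swap (f := fun g p => Fn g * (β ((ι p)⁻¹ * g) * ω p)) h1.aemeasurable
    _ = ∫⁻ p, ∫⁻ g, Fn (ι p * g) * ω p * β g ∂μ ∂lam := by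
        refine lintegral_congr (fun p => ?_)
        rw [← lintegral_mul_left_eq_self (fun g => Fn g * (β ((ι p)⁻¹ * g) * ω p)) (ι p)]
        refine lintegral_congr (fun g => ?_)
        simp only [inv_mul_cancel_left]
        ring
    _ = ∫⁻ g, ∫⁻ p, Fn (ι p * g) * ω p * β g ∂lam ∂μ :=
        (lintegral_lintegral_swap (f := fun g p => Fn (ι p * g) * ω p * β g)
          h2.aemeasurable).symm
    _ = ∫⁻ g, (∫⁻ p, Fn (ι p * g) * ω p ∂lam) * β g ∂μ := by
        refine lintegral_congr (fun g => ?_)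
        rw [lintegral_mul_const _ (h2' g)]

end General

section Adelic

open Fermat.Agent.LT.H556 Fermat.Agent.LT.H556.A0

variable (K : Type) [Field K] [NumberField K]

theorem continuous_unip811 : Continuous (Fermat.Agent.LT.T3.unip K) := by
  rw [Units.continuous_iff]
  constructor
  · refine continuous_matrix (fun i j => ?_)
    fin_cases i <;> fin_cases j <;>
      simp [Fermat.Agent.LT.T3.unip, Function.comp_def] <;> fun_prop
  · refine continuous_matrix (fun i j => ?_)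
    fin_cases i <;> fin_cases j <;>
      simp [Fermat.Agent.LT.T3.unip, Function.comp_def] <;> fun_prop

theorem continuous_dgA811 : Continuous (Fermat.Agent.LT.T7.Rigid.dgA (K := K)) := by
  rw [Units.continuous_iff]
  constructor
  · refine continuous_matrix (fun i j => ?_)
    fin_cases i <;> fin_cases j <;>
      simp [Fermat.Agent.LT.T7.Rigid.dgA, Function.comp_def] <;>
      first | exact Units.continuous_val | fun_prop
  · refine continuous_matrix (fun i j => ?_)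
    fin_cases i <;> fin_cases j <;>
      simp [Fermat.Agent.LT.T7.Rigid.dgA, Function.comp_def] <;>
      first | exact Units.continuous_coe_inv | fun_prop

theorem continuous_zA811 : Continuous (H57.zA57 K) := by
  rw [Units.continuous_iff]
  constructor
  · refine continuous_matrix (fun i j => ?_)
    fin_cases i <;> fin_cases j <;>
      simp [H57.zA57, Function.comp_def] <;>
      first | exact Units.continuous_val | fun_prop
  · refine continuous_matrix (fun i j => ?_)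
    fin_cases i <;> fin_cases j <;>
      simp [H57.zA57, Function.comp_def] <;>
      first | exact Units.continuous_coe_inv | fun_prop

theorem continuous_iota811 : Continuous (H57.iota57 K) := by
  unfold H57.iota57
  exact (((continuous_unip811 K).comp continuous_fst).mul
    ((continuous_dgA811 K).comp (continuous_fst.comp continuous_snd))).mul
    ((continuous_zA811 K).comp (continuous_snd.comp continuous_snd))

attribute [local instance] Fermat.Agent.LT.T5.instMeasurableSpaceG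

/-- **T7.14.6a-F.9 `WeightIdC57`** from the local compactness and the continuity of the module
(two fields of `T1.T1Out K`). -/
theorem weightIdC811 (hL : Fermat.Agent.LT.T1.LocCompC K) (hN : Fermat.Agent.LT.T1.AdNormC K) :
    H57.WeightIdC57 K := by
  unfold H57.WeightIdC57
  obtain ⟨⟨hA1, hA2, hA3⟩, hG1, hG2, hG3⟩ := hL
  haveI := hA1
  haveI := hA2
  haveI := hA3
  haveI := hG1
  haveI := hG2
  haveI := hG3
  letI : MeasurableSpace (Adl K) := borel (Adl K)
  letI : MeasurableSpace (Adl K)ˣ := borel (Adl K)ˣ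
  haveI : BorelSpace (Adl K) := ⟨rfl⟩
  haveI : BorelSpace (Adl K)ˣ := ⟨rfl⟩
  haveI : BorelSpace (G K) := ⟨rfl⟩
  haveI : SecondCountableTopology (Adl K)ᵐᵒᵖ :=
    MulOpposite.opHomeomorph.symm.secondCountableTopology
  haveI : SecondCountableTopology (Adl K)ˣ :=
    Units.isEmbedding_embedProduct.secondCountableTopology
  intro μ hμ ν hν τ hτ Fn β hF hβ
  haveI := hμ
  haveI := hν
  haveI := hτ
  have hι : Measurable (H57.iota57 K) := (continuous_iota811 K).measurable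
  have hc : Continuous (fun y : (Adl K)ˣ => H57.nrm57 K y) := hN.2.2.2
  have hω : Measurable (H57.om57 K) := by
    unfold H57.om57
    exact ENNReal.measurable_ofReal.comp
      ((hc.measurable.comp (measurable_fst.comp measurable_snd)).inv)
  exact weight_general811 μ (ν.prod (τ.prod τ)) (H57.iota57 K) hι (H57.om57 K) hω Fn β hF hβ

/-- **T7.14.6a-F.9 `WeightIdC57`** from the output of the tower T1. -/
theorem weightIdC_of_t1_811 (h : Fermat.Agent.LT.T1.T1Out K) : H57.WeightIdC57 K :=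
  weightIdC811 K h.locComp h.adNorm

end Adelic

end Fermat.Agent.LT.T7.H811

end

end
-- ===== PACK-END LT/T7/H811/WeightId.lean

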