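import Mathlib
import Fermat.Agent.Pack.LT2.E18L1
import Fermat.Agent.Pack.LT2.E17L0
import Fermat.Agent.Pack.LT2.E16L2
import Fermat.Agent.Pack.LT2.E18L2
import Fermat.Agent.Pack.S43GC.G0E5L2
import Fermat.Agent.Pack.S43GC.G0E12L1
import Fermat.Agent.Pack.S43GC.G0E21L3
import Fermat.Agent.Pack.LT2.E18L0
import Fermat.Agent.Pack.LT2.E2L3
import Fermat.Agent.Pack.LT2.E0L1
import Fermat.Agent.Pack.LT2.E15L3
import Fermat.Agent.Pack.LT2.E17L2
import Fermat.Agent.Pack.LT2.E18L3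

set_option linter.all false

-- ===== PACK-BEGIN LT/A2/H276/WeylTheta.lean
section


/-!
# Row LT, tower A2, leaf A2.03.1.4 `WX467.WeylC` (helper276), OFF-MAIN: `Γ = c` and reciprocity

`Θ(g) = ∑_{ξ ∈ K²} F g 1 ξ` for `det g = 1`:
`Θ(n(b) g) = Θ(g)` (`b ∈ K`), `Θ(t(a) g) = η(a) Θ(g)` (`a ∈ K^×`), `Θ(w g) = Γ c⁻¹ Θ(g)`
(Poisson), `Θ(1) ≠ 0`; the relations `(w n(1))³ = 1`, `w⁴ = 1`,
`w n(a) w = t(-a⁻¹) n(-a) w n(-a⁻¹)` give `Γ c⁻¹ = 1` and `η = 1` on `K^×`.
-/

set_option autoImplicit false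

open IsDedekindDomain NumberField AutomorphicForm MeasureTheory
open scoped MatrixGroups Topology

noncomputable section

namespace Fermat.Agent.LT.A2.H276

open Fermat.Agent.LT.H130 Fermat.Agent.LT.H556 Fermat.Agent.LT.A2 Fermat.Agent.LT.A2.WX467
open Fermat.Agent.LT.T1.H793

variable {K : Type} [Field K] [NumberField K]

/-! ## Admissibility of `(g, 1)`, `det g = 1` -/

theorem adm_of_det_one276 (t n : K) {g : A0.G K} (hg : Matrix.GeneralLinearGroup.det g = 1) :
    Adm t n g 1 :=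
  ⟨inTorus_one276 t n, by rw [hg, map_one]⟩

theorem det_mul_one276 {s g : A0.G K} (hs : Matrix.GeneralLinearGroup.det s = 1)
    (hg : Matrix.GeneralLinearGroup.det g = 1) : Matrix.GeneralLinearGroup.det (s * g) = 1 := by
  rw [map_mul, hs, hg, one_mul]

theorem det_wE276 : Matrix.GeneralLinearGroup.det (wE276 (K := K)) = 1 := det_weyl276 isWeyl_wE276

theorem det_nU276 (x : A0.Adl K) : Matrix.GeneralLinearGroup.det (nU276 x) = 1 :=
  det_unip276 isUpperUnip_nU276 x

theorem det_tA276 (a : (A0.Adl K)ˣ) : Matrix.GeneralLinearGroup.det (tA276 a) = 1 :=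
  det_diagSLA276 (isDiagSLA_tA276 a)

/-! ## The theta function -/

/-- `Θ(g) = ∑_{ξ ∈ K²} F g 1 ξ` -/
def theta276 (L : WData K) (g : A0.G K) : ℂ := ∑' ξ : K × K, L.F g 1 (ratV ξ)

theorem summable_theta276 (L : WData K) (hreg : L.toKData.IsRegular) {g : A0.G K}
    (hg : Matrix.GeneralLinearGroup.det g = 1) :
    Summable (fun ξ : K × K => L.F g 1 (ratV ξ)) := by
  obtain ⟨b, hb, hbound⟩ := hreg.loc_summable {((g, 1) : A0.G K × A0.G K)} isCompact_singleton
  exact Summable.of_norm_bounded hb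
    (fun ξ => hbound ξ (g, 1) rfl (adm_of_det_one276 L.t L.n hg))

theorem qf_ratV276 (t n : K) (ξ : K × K) :
    qf t n (ratV ξ) = algebraMap K (A0.Adl K) (ξ.1 ^ 2 + t * ξ.1 * ξ.2 + n * ξ.2 ^ 2) := by
  unfold qf ratV
  simp only [map_add, map_mul, map_pow]

/-- `Θ(n(b) g) = Θ(g)`, `b ∈ K` -/
theorem theta_unip276 (L : WData K) (hL : L.IsGood) (hB : BorelOut L.toKData L.η) (b : K)
    {g : A0.G K} (hg : Matrix.GeneralLinearGroup.det g = 1) :
    theta276 L (nU276 (algebraMap K (A0.Adl K) b) * g) = theta276 L g := by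
  unfold theta276
  congr 1
  funext ξ
  have h := hB.unip nU276 isUpperUnip_nU276 (algebraMap K (A0.Adl K) b) g 1 (ratV ξ)
    (adm_of_det_one276 L.t L.n hg)
  have h2 : L.ψ (algebraMap K (A0.Adl K) b * qf L.t L.n (ratV ξ)) = 1 := by
    rw [qf_ratV276, ← map_mul]
    exact hL.char.triv _
  have h3 : L.F (nU276 (algebraMap K (A0.Adl K) b) * g) 1 (ratV ξ)
      = L.ψ (algebraMap K (A0.Adl K) b * qf L.t L.n (ratV ξ)) * L.F g 1 (ratV ξ) := h
  rw [h3, h2, one_mul]

theorem smul_ratV276 (x : Kˣ) (ξ : K × K) :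
    ((T1.ratUnit K x : (A0.Adl K)ˣ) : A0.Adl K) • ratV ξ = ratV (x • ξ) := by
  unfold ratV
  refine Prod.ext ?_ ?_
  · show ((T1.ratUnit K x : (A0.Adl K)ˣ) : A0.Adl K) * algebraMap K (A0.Adl K) ξ.1
      = algebraMap K (A0.Adl K) ((x : K) * ξ.1)
    rw [map_mul]
    rfl
  · show ((T1.ratUnit K x : (A0.Adl K)ˣ) : A0.Adl K) * algebraMap K (A0.Adl K) ξ.2
      = algebraMap K (A0.Adl K) ((x : K) * ξ.2)
    rw [map_mul]
    rfl

/-- `Θ(t(a) g) = η(a) Θ(g)`, `a ∈ K^×` -/
theorem theta_diag276 (L : WData K) (hT1 : T1.T1Out K) (hB : BorelOut L.toKData L.η) (x : Kˣ)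
    {g : A0.G K} (hg : Matrix.GeneralLinearGroup.det g = 1) :
    theta276 L (tA276 (T1.ratUnit K x) * g) = L.η (T1.ratUnit K x) * theta276 L g := by
  unfold theta276
  have hterm : ∀ ξ : K × K, L.F (tA276 (T1.ratUnit K x) * g) 1 (ratV ξ)
      = L.η (T1.ratUnit K x) * L.F g 1 (ratV (x • ξ)) := by
    intro ξ
    have h := hB.diagA (tA276 (T1.ratUnit K x)) (T1.ratUnit K x) (isDiagSLA_tA276 _) g 1
      (ratV ξ) (adm_of_det_one276 L.t L.n hg)
    have h2 : L.F (tA276 (T1.ratUnit K x) * g) 1 (ratV ξ)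
        = L.η (T1.ratUnit K x) * ((T1.adNorm K (T1.ratUnit K x : A0.Adl K) : ℝ) : ℂ)
          * L.F g 1 (((T1.ratUnit K x : (A0.Adl K)ˣ) : A0.Adl K) • ratV ξ) := h
    rw [h2, hT1.adNorm.2.2.1 x, smul_ratV276]
    simp
  rw [tsum_congr hterm, tsum_mul_left]
  congr 1
  exact (MulAction.toPerm x : Equiv.Perm (K × K)).tsum_eq (fun ξ => L.F g 1 (ratV ξ))

/-! ## The Weyl element: Poisson summation -/

theorem Gam_ne_zero276 (L : WData K) (hL : L.IsGood) (hB : BorelOut L.toKData L.η) :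
    Gam276 L ≠ 0 := by
  intro h0
  have hdet : Matrix.GeneralLinearGroup.det (wE276 (K := K))⁻¹ = 1 := by
    rw [map_inv, det_wE276, inv_one]
  have h := weyl_prod276 L hL hB (isWeyl_wE276 (K := K)) (adm_of_det_one276 L.t L.n hdet)
    e1_276
  rw [mul_inv_cancel, h0, zero_mul, zero_mul] at h
  exact F_one_ne_zero276 L hL e1_276 finVec_e1_276 h

theorem disc_ne_zero276 (t n : K) (h : ∀ x : K, x ^ 2 - t * x + n ≠ 0) : t ^ 2 - 4 * n ≠ 0 := by
  intro h0
  apply h (t / 2)
  have : (t / 2) ^ 2 - t * (t / 2) + n = -(t ^ 2 - 4 * n) / 4 := by ring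
  rw [this, h0]
  simp

/-- `Θ(w g) = Γ c⁻¹ Θ(g)` -/
theorem theta_weyl276 (hP : Poisson2C) (L : WData K) (hL : L.IsGood)
    (hB : BorelOut L.toKData L.η) (hreg : L.toKData.IsRegular) {g : A0.G K}
    (hg : Matrix.GeneralLinearGroup.det g = 1) :
    theta276 L (wE276 * g) = Gam276 L * L.c⁻¹ * theta276 L g := by
  have hadm := adm_of_det_one276 L.t L.n hg
  have hρ : Gam276 L * L.c⁻¹ ≠ 0 :=
    mul_ne_zero (Gam_ne_zero276 L hL hB) (inv_ne_zero hL.prod_int.1)
  have hw : ∀ ξ : K × K, L.F (wE276 * g) 1 (ratV ξ)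
      = Gam276 L * L.c⁻¹
        * integral2 L.μ (fun y => L.F g 1 y * L.ψ (bf L.t L.n (ratV ξ) y)) :=
    fun ξ => weyl_prod276 L hL hB isWeyl_wE276 hadm (ratV ξ)
  have hsum : Summable fun ξ : K × K =>
      ‖integral2 L.μ (fun y => L.F g 1 y * L.ψ (bf L.t L.n (ratV ξ) y))‖ := by
    have h1 := (summable_theta276 L hreg (det_mul_one276 det_wE276 hg)).norm
    have h2 := h1.mul_left ‖(Gam276 L * L.c⁻¹)⁻¹‖
    refine h2.congr fun ξ => ?_
    rw [hw ξ, ← norm_mul, ← mul_assoc, inv_mul_cancel₀ hρ, one_mul]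
  have hpo := hP K L.t L.n (disc_ne_zero276 L.t L.n hL.torus.irred) L.ψ hL.char L.μ
    hL.measured.covol (L.F g 1) (hreg.cont g 1 hadm) (hreg.integrable g 1 hadm)
    (hreg.shift_summable g 1 hadm) hsum
  unfold theta276
  rw [tsum_congr hw, tsum_mul_left, hpo]

/-! ## `Θ(1) ≠ 0` -/

/-- a complex number which is a nonnegative real -/
def IsNN276 (z : ℂ) : Prop := 0 ≤ z.re ∧ z.im = 0

theorem IsNN276.mul {z w : ℂ} (hz : IsNN276 z) (hw : IsNN276 w) : IsNN276 (z * w) := by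
  refine ⟨?_, ?_⟩
  · rw [Complex.mul_re, hz.2, zero_mul, sub_zero]
    exact mul_nonneg hz.1 hw.1
  · rw [Complex.mul_im, hz.2, hw.2, mul_zero, zero_mul, add_zero]

theorem isNN_one276 : IsNN276 1 := ⟨by simp, by simp⟩

theorem isNN_prod276 {ι : Type*} (s : Finset ι) (f : ι → ℂ) (h : ∀ i ∈ s, IsNN276 (f i)) :
    IsNN276 (∏ i ∈ s, f i) := by
  classical
  induction s using Finset.induction_on with
  | empty => simpa using isNN_one276
  | insert a s ha ih =>
    rw [Finset.prod_insert ha]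
    exact (h a (Finset.mem_insert_self a s)).mul
      (ih fun i hi => h i (Finset.mem_insert_of_mem hi))

theorem isNN_finprod276 {ι : Type*} (f : ι → ℂ) (h : ∀ i, IsNN276 (f i)) :
    IsNN276 (∏ᶠ i, f i) := by
  by_cases hf : Function.HasFiniteMulSupport f
  · rw [finprod_eq_prod f hf]
    exact isNN_prod276 _ f fun i _ => h i
  · rw [finprod_of_infinite_mulSupport hf]
    exact isNN_one276

theorem isNN_exp276 (r : ℝ) : IsNN276 (Complex.exp ((r : ℝ) : ℂ)) := by
  rw [← Complex.ofReal_exp]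
  exact ⟨by rw [Complex.ofReal_re]; exact (Real.exp_pos r).le, Complex.ofReal_im _⟩

theorem isNN_Finf276 (L : WData K) (hL : L.IsGood) (u : InfinitePlace K)
    (ξ : u.Completion × u.Completion) : IsNN276 (L.Finf u 1 1 ξ) := by
  obtain ⟨c, -, -, hg⟩ := (hL.cpx u).gauss
  obtain ⟨s, hs⟩ := IsAlgClosed.exists_eq_mul_self
    ((u.embedding L.t) ^ 2 - 4 * u.embedding L.n)
  have h := hg ((u.embedding L.t + s) / 2) ((u.embedding L.t - s) / 2) (by ring)
    (by
      have : (u.embedding L.t + s) / 2 * ((u.embedding L.t - s) / 2)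
          = ((u.embedding L.t) ^ 2 - s * s) / 4 := by ring
      rw [this, ← hs]; ring) ξ
  rw [h]
  unfold gaussL
  rw [← Complex.ofReal_neg]
  exact isNN_exp276 _

theorem isNN_F276 (L : WData K) (hL : L.IsGood) (ξ : A0.Adl K × A0.Adl K) :
    IsNN276 (L.F 1 1 ξ) := by
  rw [F_apply276]
  refine (isNN_prod276 _ _ fun u _ => ?_).mul (isNN_finprod276 _ fun v => ?_)
  · rw [infMat_one276]
    exact isNN_Finf276 L hL u _
  · rw [finComp_one276]
    exact (hL.fin v).pos.1 _

theorem ratV_e1_276 : ratV ((1 : K), (0 : K)) = e1_276 (K := K) := by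
  unfold ratV e1_276
  rw [map_one, map_zero]

theorem theta_one_ne_zero276 (L : WData K) (hL : L.IsGood) (hreg : L.toKData.IsRegular) :
    theta276 L 1 ≠ 0 := by
  have hsum := summable_theta276 L hreg (map_one (Matrix.GeneralLinearGroup.det) :
    Matrix.GeneralLinearGroup.det (1 : A0.G K) = 1)
  have hre : Summable fun ξ : K × K => (L.F 1 1 (ratV ξ)).re :=
    (Complex.hasSum_re hsum.hasSum).summable
  have h1 : (theta276 L 1).re = ∑' ξ : K × K, (L.F 1 1 (ratV ξ)).re :=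
    Complex.re_tsum hsum
  have h2 : (L.F 1 1 (ratV ((1 : K), (0 : K)))).re ≤ ∑' ξ : K × K, (L.F 1 1 (ratV ξ)).re :=
    hre.le_tsum _ fun ξ _ => (isNN_F276 L hL (ratV ξ)).1
  have h3 : 0 < (L.F 1 1 (ratV ((1 : K), (0 : K)))).re := by
    have hnn := isNN_F276 L hL (ratV ((1 : K), (0 : K)))
    refine lt_of_le_of_ne hnn.1 fun h0 => ?_
    have hne := F_one_ne_zero276 L hL e1_276 finVec_e1_276
    rw [← ratV_e1_276] at hne
    exact hne (Complex.ext h0.symm hnn.2)
  intro h0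
  rw [h0] at h1
  have : (0 : ℝ) < 0 := by
    calc (0 : ℝ) < (L.F 1 1 (ratV ((1 : K), (0 : K)))).re := h3
      _ ≤ ∑' ξ : K × K, (L.F 1 1 (ratV ξ)).re := h2
      _ = 0 := by rw [← h1]; rfl
  exact lt_irrefl _ this

end Fermat.Agent.LT.A2.H276

end

end
-- ===== PACK-END LT/A2/H276/WeylTheta.lean

-- ===== PACK-BEGIN LT/A2/H276/Weyl.lean
section


/-!
# Row LT, tower A2, leaf A2.03.1.4 `WX467.WeylC` (helper276), OFF-MAIN: the leaf

`weylC276 : WX467.WeylC`, VERBATIM vs `LT/A2/H467/WeilExSpec.lean` of helper467@50fb7012e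
(sha256 966c0978, vendored byte-identical).

* `rho_eq_one276` : `Γ c⁻¹ = 1` (`(w n(1))³ = 1`, `w⁴ = 1`, `Θ(1) ≠ 0`);
* `eta_rat276`    : `η = 1` on `K^×` (`w n(a) w = t(-a⁻¹) n(-a) w n(-a⁻¹)`).
-/

set_option autoImplicit false

open IsDedekindDomain NumberField AutomorphicForm MeasureTheory
open scoped MatrixGroups Topology

noncomputable section

namespace Fermat.Agent.LT.A2.H276

open Fermat.Agent.LT.H130 Fermat.Agent.LT.H556 Fermat.Agent.LT.A2 Fermat.Agent.LT.A2.WX467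
open Fermat.Agent.LT.T1.H793

variable {K : Type} [Field K] [NumberField K]

/-- `Θ(w n(b) h) = Γ c⁻¹ Θ(h)` -/
theorem theta_weyl_unip276 (hP : Poisson2C) (L : WData K) (hL : L.IsGood)
    (hB : BorelOut L.toKData L.η) (hreg : L.toKData.IsRegular) (b : K) {h : A0.G K}
    (hh : Matrix.GeneralLinearGroup.det h = 1) :
    theta276 L (wE276 * (nU276 (algebraMap K (A0.Adl K) b) * h))
      = Gam276 L * L.c⁻¹ * theta276 L h := by
  rw [theta_weyl276 hP L hL hB hreg (det_mul_one276 (det_nU276 _) hh),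
    theta_unip276 L hL hB b hh]

/-- `Γ c⁻¹ = 1` -/
theorem rho_eq_one276 (hP : Poisson2C) (L : WData K) (hL : L.IsGood)
    (hB : BorelOut L.toKData L.η) (hreg : L.toKData.IsRegular) : Gam276 L * L.c⁻¹ = 1 := by
  have hθ := theta_one_ne_zero276 L hL hreg
  have hd1 : Matrix.GeneralLinearGroup.det (1 : A0.G K) = 1 := map_one _
  have hn1 : nU276 (1 : A0.Adl K) = nU276 (algebraMap K (A0.Adl K) 1) := by rw [map_one]
  -- `ρ³ = 1`
  have h3 : theta276 L 1 = (Gam276 L * L.c⁻¹) ^ 3 * theta276 L 1 := by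
    have e : (1 : A0.G K)
        = wE276 * (nU276 (algebraMap K (A0.Adl K) 1) *
            (wE276 * (nU276 (algebraMap K (A0.Adl K) 1) *
              (wE276 * (nU276 (algebraMap K (A0.Adl K) 1) * 1))))) := by
      rw [← hn1, mul_one, ← rel_three276 (K := K)]
      simp only [mul_assoc]
    conv_lhs => rw [e]
    have d1 : Matrix.GeneralLinearGroup.det
        (wE276 * (nU276 (algebraMap K (A0.Adl K) 1) * (1 : A0.G K))) = 1 :=
      det_mul_one276 det_wE276 (det_mul_one276 (det_nU276 _) hd1)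
    have d2 : Matrix.GeneralLinearGroup.det
        (wE276 * (nU276 (algebraMap K (A0.Adl K) 1) *
          (wE276 * (nU276 (algebraMap K (A0.Adl K) 1) * (1 : A0.G K))))) = 1 :=
      det_mul_one276 det_wE276 (det_mul_one276 (det_nU276 _) d1)
    rw [theta_weyl_unip276 hP L hL hB hreg 1 d2, theta_weyl_unip276 hP L hL hB hreg 1 d1,
      theta_weyl_unip276 hP L hL hB hreg 1 hd1]
    ring
  -- `ρ⁴ = 1`
  have h4 : theta276 L 1 = (Gam276 L * L.c⁻¹) ^ 4 * theta276 L 1 := by
    have e : (1 : A0.G K) = wE276 * (wE276 * (wE276 * (wE276 * 1))) := by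
      rw [mul_one, ← rel_four276 (K := K)]
      simp only [mul_assoc]
    conv_lhs => rw [e]
    have d1 : Matrix.GeneralLinearGroup.det (wE276 * (1 : A0.G K)) = 1 :=
      det_mul_one276 det_wE276 hd1
    have d2 : Matrix.GeneralLinearGroup.det (wE276 * (wE276 * (1 : A0.G K))) = 1 :=
      det_mul_one276 det_wE276 d1
    have d3 : Matrix.GeneralLinearGroup.det (wE276 * (wE276 * (wE276 * (1 : A0.G K)))) = 1 :=
      det_mul_one276 det_wE276 d2
    rw [theta_weyl276 hP L hL hB hreg d3, theta_weyl276 hP L hL hB hreg d2,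
      theta_weyl276 hP L hL hB hreg d1, theta_weyl276 hP L hL hB hreg hd1]
    ring
  have e3 : (Gam276 L * L.c⁻¹) ^ 3 = 1 := by
    have := mul_right_cancel₀ hθ (show (Gam276 L * L.c⁻¹) ^ 3 * theta276 L 1
      = 1 * theta276 L 1 by rw [one_mul]; exact h3.symm)
    exact this
  have e4 : (Gam276 L * L.c⁻¹) ^ 4 = 1 := by
    have := mul_right_cancel₀ hθ (show (Gam276 L * L.c⁻¹) ^ 4 * theta276 L 1
      = 1 * theta276 L 1 by rw [one_mul]; exact h4.symm)
    exact this
  calc Gam276 L * L.c⁻¹ = (Gam276 L * L.c⁻¹) * (Gam276 L * L.c⁻¹) ^ 3 := by rw [e3, mul_one]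
    _ = (Gam276 L * L.c⁻¹) ^ 4 := by ring
    _ = 1 := e4

/-! ## Reciprocity -/

theorem ratUnit_val276 (x : Kˣ) :
    ((T1.ratUnit K x : (A0.Adl K)ˣ) : A0.Adl K) = algebraMap K (A0.Adl K) (x : K) := rfl

theorem ratUnit_inv_val276 (x : Kˣ) :
    (((T1.ratUnit K x)⁻¹ : (A0.Adl K)ˣ) : A0.Adl K) = algebraMap K (A0.Adl K) ((x⁻¹ : Kˣ) : K) := by
  rw [← map_inv]
  rfl

/-- the relation `w n(x) w = t(-x⁻¹) n(-x) w n(-x⁻¹)` for `x ∈ K^×` -/
theorem rel_diag_rat276 (x : Kˣ) :
    (wE276 (K := K)) * (nU276 (algebraMap K (A0.Adl K) (x : K)) * (wE276 * 1))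
      = tA276 (T1.ratUnit K (-x⁻¹)) * (nU276 (algebraMap K (A0.Adl K) (-(x : K))) *
          (wE276 * (nU276 (algebraMap K (A0.Adl K) (-((x⁻¹ : Kˣ) : K))) * 1))) := by
  apply Units.ext
  simp only [Units.val_mul, nU276_val, wE276_val, tA276_val, mul_one]
  rw [ratUnit_val276, ratUnit_inv_val276, inv_neg, inv_inv, Units.val_neg, Units.val_neg,
    map_neg, map_neg]
  simp only [← mul_assoc]
  refine mat_rel_diag276 (algebraMap K (A0.Adl K) (x : K))
    (algebraMap K (A0.Adl K) ((x⁻¹ : Kˣ) : K)) ?_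
  rw [← map_mul, Units.mul_inv, map_one]

/-- `η(-x⁻¹) = 1` for `x ∈ K^×` -/
theorem eta_neg_inv276 (hP : Poisson2C) (L : WData K) (hT1 : T1.T1Out K) (hL : L.IsGood)
    (hB : BorelOut L.toKData L.η) (hreg : L.toKData.IsRegular) (x : Kˣ) :
    L.η (T1.ratUnit K (-x⁻¹)) = 1 := by
  have hθ := theta_one_ne_zero276 L hL hreg
  have hρ := rho_eq_one276 hP L hL hB hreg
  have hd1 : Matrix.GeneralLinearGroup.det (1 : A0.G K) = 1 := map_one _
  have dw : Matrix.GeneralLinearGroup.det (wE276 * (1 : A0.G K)) = 1 :=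
    det_mul_one276 det_wE276 hd1
  -- the left-hand side
  have hl : theta276 L (wE276 * (nU276 (algebraMap K (A0.Adl K) (x : K)) * (wE276 * 1)))
      = theta276 L 1 := by
    rw [theta_weyl_unip276 hP L hL hB hreg _ dw, theta_weyl276 hP L hL hB hreg hd1, hρ,
      one_mul, one_mul]
  -- the right-hand side
  have dn : Matrix.GeneralLinearGroup.det
      (nU276 (algebraMap K (A0.Adl K) (-((x⁻¹ : Kˣ) : K))) * (1 : A0.G K)) = 1 :=
    det_mul_one276 (det_nU276 _) hd1
  have dwn : Matrix.GeneralLinearGroup.det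
      (wE276 * (nU276 (algebraMap K (A0.Adl K) (-((x⁻¹ : Kˣ) : K))) * (1 : A0.G K))) = 1 :=
    det_mul_one276 det_wE276 dn
  have dnwn : Matrix.GeneralLinearGroup.det
      (nU276 (algebraMap K (A0.Adl K) (-(x : K))) *
        (wE276 * (nU276 (algebraMap K (A0.Adl K) (-((x⁻¹ : Kˣ) : K))) * (1 : A0.G K)))) = 1 :=
    det_mul_one276 (det_nU276 _) dwn
  have hr : theta276 L (tA276 (T1.ratUnit K (-x⁻¹)) *
      (nU276 (algebraMap K (A0.Adl K) (-(x : K))) *
        (wE276 * (nU276 (algebraMap K (A0.Adl K) (-((x⁻¹ : Kˣ) : K))) * 1))))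
      = L.η (T1.ratUnit K (-x⁻¹)) * theta276 L 1 := by
    rw [theta_diag276 L hT1 hB _ dnwn, theta_unip276 L hL hB _ dwn,
      theta_weyl_unip276 hP L hL hB hreg _ hd1, hρ, one_mul]
  rw [rel_diag_rat276 x, hr] at hl
  have := mul_right_cancel₀ hθ (show L.η (T1.ratUnit K (-x⁻¹)) * theta276 L 1
    = 1 * theta276 L 1 by rw [one_mul]; exact hl)
  exact this

/-- `η = 1` on `K^×` -/
theorem eta_rat276 (hP : Poisson2C) (L : WData K) (hT1 : T1.T1Out K) (hL : L.IsGood)
    (hB : BorelOut L.toKData L.η) (hreg : L.toKData.IsRegular) (z : Kˣ) :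
    L.η (T1.ratUnit K z) = 1 := by
  have h := eta_neg_inv276 hP L hT1 hL hB hreg (-z⁻¹)
  rwa [inv_neg, inv_inv, neg_neg] at h

/-- **A2.03.1.4 `WeylC`**: the global Weyl formula with constant `1`, and `η = 1` on `K^×`. -/
theorem weylC276 : WX467.WeylC := by
  intro hP K _ _ L hT1 hL hB hreg
  refine ⟨fun w hw g m ξ hadm => ?_, fun x => ?_⟩
  · have h := weyl_prod276 L hL hB hw hadm ξ
    rw [rho_eq_one276 hP L hL hB hreg, one_mul] at h
    exact h
  · exact eta_rat276 hP L hT1 hL hB hreg x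

end Fermat.Agent.LT.A2.H276

end

end
-- ===== PACK-END LT/A2/H276/Weyl.lean

-- ===== PACK-BEGIN LT/A2/H409/FTInvCore.lean
section



/-!
# Row LT, tower A2, station LOC-FIN: FOURIER INVERSION on `S(k²)` (helper409)

OFF-MAIN.  `k` a nonarchimedean local field (nontrivially normed, ultrametric, proper),
`Q(x, y) = x² + t x y + n y²` with `t² - 4 n ≠ 0`, `B` its polar form, `ψ` a nontrivial continuous
unitary character of `k`, `μ` a Haar measure of `k`, `FT Φ (ξ) = ∫ Φ(y) ψ(B(ξ, y)) dy`.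

`ftInv_general409 : ∃ c > 0, ∀ Φ Schwartz--Bruhat, ∀ ξ, FT (FT Φ) ξ = c Φ(-ξ)`.

Proof (NO duality of lattices, NO index computation).  Let `M_a = {η : ‖η‖ ≤ ‖a‖}` (a compact
open subgroup, stable under the integers) and `M_a^⊥ = {z : ψ(B(η, z)) = 1 ∀ η ∈ M_a}`.

* `M_a^⊥` is closed, contains a ball (`ψ` is trivial on a ball) and is contained in the ball of
  radius `E / ‖a‖` (the Gram determinant of `B` is `4 n - t² ≠ 0`, `ψ` is nontrivial).
* orthogonality: `∫_{M_a} ψ(B(η, z)) dη = vol(M_a) 1_{M_a^⊥}(z)` (translation by `η₁ ∈ M_a`).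
* `FT Φ` is supported in `M_a` for `‖a‖` large (helper496); Fubini on `M_a × supp Φ` gives
  `FT (FT Φ) ξ = vol(M_a) ∫ Φ(y) 1_{M_a^⊥}(y + ξ) dy = vol(M_a) vol(M_a^⊥) Φ(-ξ)` as soon as `Φ`
  is invariant under the translations by `M_a^⊥`.
* So `FT FT Φ = c_a Φ(-·)` for `‖a‖ ≥ R(Φ)`; the test function `Φ₀ = 1_{M_1}` shows that `c_a`
  does not depend on `a` for `‖a‖ ≥ R(Φ₀)`.

Imports: Mathlib, `LT/A2/H496/FTSB.lean` (helper496, byte-identical; with the Spec closure of
helper361 and `LT/H767/LocalCompact.lean`).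
-/

set_option autoImplicit false
set_option linter.unusedSectionVars false
set_option linter.style.haveILetI false

open MeasureTheory
open scoped Topology

noncomputable section

namespace Fermat.Agent.LT.A2.H409

open Fermat.Agent.LT.A2.WX467 Fermat.Agent.LT.A2.LF361 Fermat.Agent.LT.A2.LF496

variable {k : Type} [NontriviallyNormedField k] [IsUltrametricDist k]

/-! ## 1. The polar form -/

theorem bfL_symm409 (t n : k) (ξ y : k × k) : bfL t n ξ y = bfL t n y ξ := by
  simp only [bfL, qfL, Prod.fst_add, Prod.snd_add]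
  ring

theorem bfL_neg_right409 (t n : k) (ξ y : k × k) : bfL t n ξ (-y) = -bfL t n ξ y := by
  simp only [bfL, qfL, Prod.fst_add, Prod.snd_add, Prod.fst_neg, Prod.snd_neg]
  ring

theorem continuous_bfL_left409 (t n : k) (z : k × k) :
    Continuous fun η : k × k => bfL t n η z := by
  unfold bfL qfL
  fun_prop

theorem continuous_bfL409 (t n : k) :
    Continuous fun p : (k × k) × (k × k) => bfL t n p.1 p.2 := by
  unfold bfL qfL
  fun_prop

theorem char_neg409 {ψ : k → ℂ} (hψ : _root_.Fermat.Agent.LT.A2.LF361.IsCharL ψ) (x : k) : ψ (-x) * ψ x = 1 := by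
  rw [← hψ.2.1, neg_add_cancel, char_zero496 hψ]

/-! ## 2. The boxes -/

/-- The box `M_a = {η : ‖η‖ ≤ ‖a‖}`. -/
def box409 (a : k) : Set (k × k) := {η | ‖η‖ ≤ ‖a‖}

theorem mem_box409 (a : k) (η : k × k) : η ∈ box409 a ↔ ‖η.1‖ ≤ ‖a‖ ∧ ‖η.2‖ ≤ ‖a‖ := by
  show ‖η‖ ≤ ‖a‖ ↔ _
  rw [Prod.norm_def, max_le_iff]

theorem box_add409 {a : k} {η η' : k × k} (h : η ∈ box409 a) (h' : η' ∈ box409 a) :
    η + η' ∈ box409 a := by
  rw [mem_box409] at *
  exact ⟨(IsUltrametricDist.norm_add_le_max _ _).trans (max_le h.1 h'.1),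
    (IsUltrametricDist.norm_add_le_max _ _).trans (max_le h.2 h'.2)⟩

theorem box_neg409 {a : k} {η : k × k} (h : η ∈ box409 a) : -η ∈ box409 a := by
  show ‖-η‖ ≤ ‖a‖
  rw [norm_neg]
  exact h

theorem box_smul409 {a c : k} (hc : ‖c‖ ≤ 1) {η : k × k} (h : η ∈ box409 a) :
    c • η ∈ box409 a := by
  show ‖c • η‖ ≤ ‖a‖
  rw [norm_smul]
  calc ‖c‖ * ‖η‖ ≤ 1 * ‖η‖ := mul_le_mul_of_nonneg_right hc (norm_nonneg _)
    _ = ‖η‖ := one_mul _
    _ ≤ ‖a‖ := h

theorem box_add_iff409 {a : k} {η η₁ : k × k} (h₁ : η₁ ∈ box409 a) :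
    η + η₁ ∈ box409 a ↔ η ∈ box409 a := by
  constructor
  · intro h
    have := box_add409 h (box_neg409 h₁)
    rwa [add_neg_cancel_right] at this
  · intro h
    exact box_add409 h h₁

theorem box_eq_prod409 (a : k) :
    box409 a = Metric.closedBall (0 : k) ‖a‖ ×ˢ Metric.closedBall (0 : k) ‖a‖ := by
  ext η
  rw [mem_box409, Set.mem_prod, mem_closedBall_zero_iff, mem_closedBall_zero_iff]

theorem isOpen_box409 {a : k} (ha : a ≠ 0) : IsOpen (box409 a) := by
  rw [box_eq_prod409]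
  exact (IsUltrametricDist.isOpen_closedBall 0 (norm_ne_zero_iff.2 ha)).prod
    (IsUltrametricDist.isOpen_closedBall 0 (norm_ne_zero_iff.2 ha))

theorem isClosed_box409 (a : k) : IsClosed (box409 a) := by
  rw [box_eq_prod409]
  exact Metric.isClosed_closedBall.prod Metric.isClosed_closedBall

theorem isCompact_box409 [ProperSpace k] (a : k) : IsCompact (box409 a) := by
  rw [box_eq_prod409]
  exact (isCompact_closedBall 0 _).prod (isCompact_closedBall 0 _)

theorem zero_mem_box409 (a : k) : (0 : k × k) ∈ box409 a := by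
  show ‖(0 : k × k)‖ ≤ ‖a‖
  rw [norm_zero]
  exact norm_nonneg _

theorem continuous_indicator_box409 {a : k} (ha : a ≠ 0) :
    Continuous ((box409 a).indicator fun _ : k × k => (1 : ℂ)) :=
  (IsClopen.continuous_indicator ⟨isClosed_box409 a, isOpen_box409 ha⟩ continuous_const)

/-! ## 3. The dual of a box -/

/-- `M_a^⊥ = {z : ψ(B(η, z)) = 1 for all η ∈ M_a}`. -/
def dual409 (t n : k) (ψ : k → ℂ) (a : k) : Set (k × k) :=
  {z | ∀ η ∈ box409 a, ψ (bfL t n η z) = 1}

theorem isClosed_dual409 (t n : k) {ψ : k → ℂ} (hψ : _root_.Fermat.Agent.LT.A2.LF361.IsCharL ψ) (a : k) :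
    IsClosed (dual409 t n ψ a) := by
  have e : dual409 t n ψ a = ⋂ η ∈ box409 a, {z | ψ (bfL t n η z) = 1} := by
    ext z
    simp only [dual409, Set.mem_ofPred_eq, Set.mem_iInter]
  rw [e]
  refine isClosed_biInter fun η _ => isClosed_eq (hψ.1.comp ?_) continuous_const
  have := continuous_bfL_left409 t n η
  have h2 : bfL t n η = fun z => bfL t n z η :=
    funext fun z => bfL_symm409 t n η z
  rw [h2]
  exact this

/-- The dual of a box contains a ball. -/
theorem dual_contains_ball409 (t n : k) {ψ : k → ℂ} (hψ : _root_.Fermat.Agent.LT.A2.LF361.IsCharL ψ) (a : k) :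
    ∃ ε : ℝ, 0 < ε ∧ ∀ z : k × k, ‖z‖ < ε → z ∈ dual409 t n ψ a := by
  obtain ⟨δψ, hδψ, htriv⟩ := char_trivial_ball496 hψ
  set C : ℝ := ‖(2 : k)‖ + ‖t‖ + ‖t‖ + ‖(2 : k) * n‖ with hC
  have hC0 : 0 ≤ C := by
    have := norm_nonneg (2 : k)
    have := norm_nonneg t
    have := norm_nonneg ((2 : k) * n)
    rw [hC]; linarith
  set D : ℝ := C * ‖a‖ + 1 with hD
  have hDpos : 0 < D := by
    have := mul_nonneg hC0 (norm_nonneg a)
    rw [hD]; linarith
  refine ⟨δψ / D, div_pos hδψ hDpos, fun z hz η hη => htriv _ ?_⟩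
  have h1 := norm_bfL_le496 t n η z
  have h2 : ‖η‖ * ‖z‖ ≤ ‖a‖ * ‖z‖ := mul_le_mul_of_nonneg_right hη (norm_nonneg _)
  have h3 : C * (‖η‖ * ‖z‖) ≤ C * (‖a‖ * ‖z‖) := mul_le_mul_of_nonneg_left h2 hC0
  have h4 : C * (‖a‖ * ‖z‖) ≤ D * ‖z‖ := by
    have e : D * ‖z‖ = C * (‖a‖ * ‖z‖) + ‖z‖ := by rw [hD]; ring
    rw [e]
    linarith [norm_nonneg z]
  have h5 : D * ‖z‖ < D * (δψ / D) := mul_lt_mul_of_pos_left hz hDpos
  have h6 : D * (δψ / D) = δψ := by field_simp
  linarith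

/-- The dual of a box is bounded, with a bound `E / ‖a‖`. -/
theorem dual_bounded409 (t n : k) (hD : t ^ 2 - 4 * n ≠ 0) {ψ : k → ℂ} (hψ : _root_.Fermat.Agent.LT.A2.LF361.IsCharL ψ)
    (hne : ∃ x, ψ x ≠ 1) :
    ∃ E : ℝ, 0 ≤ E ∧ ∀ a : k, a ≠ 0 → ∀ z ∈ dual409 t n ψ a, ‖z‖ * ‖a‖ ≤ E := by
  obtain ⟨x₀, hx₀⟩ := hne
  have hDn : 0 < ‖t ^ 2 - 4 * n‖ := norm_pos_iff.2 hD
  set Cc : ℝ := ‖t‖ + ‖(2 : k) * n‖ + ‖(2 : k)‖ with hCc
  have hCc0 : 0 ≤ Cc := by
    have := norm_nonneg (2 : k)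
    have := norm_nonneg t
    have := norm_nonneg ((2 : k) * n)
    rw [hCc]; linarith
  have hx₀0 : x₀ ≠ 0 := by
    intro h0
    rw [h0, char_zero496 hψ] at hx₀
    exact hx₀ rfl
  refine ⟨Cc * ‖x₀‖ / ‖t ^ 2 - 4 * n‖, div_nonneg (mul_nonneg hCc0 (norm_nonneg _)) hDn.le,
    fun a ha z hz => ?_⟩
  have ha0 : 0 < ‖a‖ := norm_pos_iff.2 ha
  -- `|B(η, z)| < |x₀|` on the box
  have h2 : ∀ η ∈ box409 a, ‖bfL t n η z‖ < ‖x₀‖ := by
    intro η hη
    by_contra hcon
    rw [not_lt] at hcon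
    have hb0 : bfL t n η z ≠ 0 := by
      intro h0
      rw [h0, norm_zero] at hcon
      exact hx₀0 (norm_le_zero_iff.mp hcon)
    set c : k := x₀ / bfL t n η z with hc
    have hc1 : ‖c‖ ≤ 1 := by
      rw [hc, norm_div]
      exact (div_le_one (norm_pos_iff.2 hb0)).2 hcon
    have := hz (c • η) (box_smul409 hc1 hη)
    rw [bfL_symm409, bfL_smul_right496, bfL_symm409, hc, div_mul_cancel₀ _ hb0] at this
    exact hx₀ this
  have hl1 : ((a, 0) : k × k) ∈ box409 a := by
    rw [mem_box409]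
    exact ⟨le_rfl, by simp⟩
  have hl2 : ((0, a) : k × k) ∈ box409 a := by
    rw [mem_box409]
    exact ⟨by simp, le_rfl⟩
  have hu := h2 _ hl1
  have hw := h2 _ hl2
  rw [bfL_symm409, bfL_e1_496, norm_mul] at hu
  rw [bfL_symm409, bfL_e2_496, norm_mul] at hw
  set u : k := 2 * z.1 + t * z.2 with hu_def
  set w : k := t * z.1 + 2 * n * z.2 with hw_def
  have e1 : (t ^ 2 - 4 * n) * z.1 = t * w - 2 * n * u := by
    rw [hu_def, hw_def]; ring
  have e2 : (t ^ 2 - 4 * n) * z.2 = t * u - 2 * w := by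
    rw [hu_def, hw_def]; ring
  have hu' : ‖u‖ * ‖a‖ ≤ ‖x₀‖ := by rw [mul_comm]; exact hu.le
  have hw' : ‖w‖ * ‖a‖ ≤ ‖x₀‖ := by rw [mul_comm]; exact hw.le
  have b1 : ‖t ^ 2 - 4 * n‖ * (‖z.1‖ * ‖a‖) ≤ Cc * ‖x₀‖ := by
    rw [← mul_assoc, ← norm_mul, e1]
    calc ‖t * w - 2 * n * u‖ * ‖a‖ ≤ (‖t * w‖ + ‖2 * n * u‖) * ‖a‖ :=
          mul_le_mul_of_nonneg_right (norm_sub_le _ _) ha0.le
      _ = ‖t‖ * (‖w‖ * ‖a‖) + ‖(2 : k) * n‖ * (‖u‖ * ‖a‖) := by
          rw [norm_mul, norm_mul (2 * n) u]; ring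
      _ ≤ ‖t‖ * ‖x₀‖ + ‖(2 : k) * n‖ * ‖x₀‖ :=
          add_le_add (mul_le_mul_of_nonneg_left hw' (norm_nonneg _))
            (mul_le_mul_of_nonneg_left hu' (norm_nonneg _))
      _ ≤ Cc * ‖x₀‖ := by
          rw [hCc]
          have := mul_nonneg (norm_nonneg (2 : k)) (norm_nonneg x₀)
          nlinarith
  have b2 : ‖t ^ 2 - 4 * n‖ * (‖z.2‖ * ‖a‖) ≤ Cc * ‖x₀‖ := by
    rw [← mul_assoc, ← norm_mul, e2]
    calc ‖t * u - 2 * w‖ * ‖a‖ ≤ (‖t * u‖ + ‖2 * w‖) * ‖a‖ :=
          mul_le_mul_of_nonneg_right (norm_sub_le _ _) ha0.le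
      _ = ‖t‖ * (‖u‖ * ‖a‖) + ‖(2 : k)‖ * (‖w‖ * ‖a‖) := by
          rw [norm_mul, norm_mul 2 w]; ring
      _ ≤ ‖t‖ * ‖x₀‖ + ‖(2 : k)‖ * ‖x₀‖ :=
          add_le_add (mul_le_mul_of_nonneg_left hu' (norm_nonneg _))
            (mul_le_mul_of_nonneg_left hw' (norm_nonneg _))
      _ ≤ Cc * ‖x₀‖ := by
          rw [hCc]
          have := mul_nonneg (norm_nonneg ((2 : k) * n)) (norm_nonneg x₀)
          nlinarith
  rw [Prod.norm_def, max_mul_of_nonneg _ _ ha0.le, max_le_iff]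
  constructor
  · rw [le_div_iff₀ hDn, mul_comm]
    exact b1
  · rw [le_div_iff₀ hDn, mul_comm]
    exact b2

/-! ## 4. Volumes -/

section Haar

variable [ProperSpace k]

/-- The volume of a subset of `k²` for `μ × μ`, as a real number. -/
def volR409 (μ : @Measure k (borel k)) (S : Set (k × k)) : ℝ :=
  letI : MeasurableSpace k := borel k
  (μ.prod μ).real S

theorem intL_indicator409 (μ : @Measure k (borel k)) {S : Set (k × k)} (hS : IsClosed S) :
    intL μ (S.indicator fun _ => (1 : ℂ)) = ((volR409 μ S : ℝ) : ℂ) := by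
  letI : MeasurableSpace k := borel k
  haveI : BorelSpace k := ⟨rfl⟩
  unfold intL volR409
  rw [integral_indicator_const (1 : ℂ) hS.measurableSet, Complex.real_smul, mul_one]

theorem volR_pos409 {μ : @Measure k (borel k)} (hμ : _root_.Fermat.Agent.LT.A2.LF361.IsHaarL μ) {S : Set (k × k)}
    {U C : Set (k × k)} (hU : IsOpen U) (hUne : U.Nonempty) (hUS : U ⊆ S) (hC : IsCompact C)
    (hSC : S ⊆ C) : 0 < volR409 μ S := by
  letI : MeasurableSpace k := borel k
  haveI : BorelSpace k := ⟨rfl⟩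
  haveI : IsFiniteMeasureOnCompacts μ := ⟨fun C hC => hμ.2.1 C hC⟩
  haveI : Measure.IsOpenPosMeasure μ := ⟨fun U hU hne => (hμ.2.2 U hU hne).ne'⟩
  unfold volR409
  have h1 : 0 < (μ.prod μ) S := lt_of_lt_of_le (hU.measure_pos (μ.prod μ) hUne) (measure_mono hUS)
  have h2 : (μ.prod μ) S < ⊤ := lt_of_le_of_lt (measure_mono hSC) hC.measure_lt_top
  exact ENNReal.toReal_pos h1.ne' h2.ne

theorem volR_box_pos409 {μ : @Measure k (borel k)} (hμ : _root_.Fermat.Agent.LT.A2.LF361.IsHaarL μ) {a : k} (ha : a ≠ 0) :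
    0 < volR409 μ (box409 a) :=
  volR_pos409 hμ (isOpen_box409 ha) ⟨0, zero_mem_box409 a⟩ subset_rfl (isCompact_box409 a)
    subset_rfl

theorem volR_dual_pos409 (t n : k) (hD : t ^ 2 - 4 * n ≠ 0) {ψ : k → ℂ} (hψ : _root_.Fermat.Agent.LT.A2.LF361.IsCharL ψ)
    (hne : ∃ x, ψ x ≠ 1) {μ : @Measure k (borel k)} (hμ : _root_.Fermat.Agent.LT.A2.LF361.IsHaarL μ) {a : k} (ha : a ≠ 0) :
    0 < volR409 μ (dual409 t n ψ a) := by
  obtain ⟨ε, hε, hball⟩ := dual_contains_ball409 t n hψ a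
  obtain ⟨E, hE0, hE⟩ := dual_bounded409 t n hD hψ hne
  have ha0 : 0 < ‖a‖ := norm_pos_iff.2 ha
  refine volR_pos409 hμ (U := Metric.ball 0 ε) (C := Metric.closedBall 0 (E / ‖a‖))
    Metric.isOpen_ball ⟨0, Metric.mem_ball_self hε⟩ ?_ (isCompact_closedBall _ _) ?_
  · intro z hz
    exact hball z (by rwa [mem_ball_zero_iff] at hz)
  · intro z hz
    rw [mem_closedBall_zero_iff, le_div_iff₀ ha0]
    exact hE a ha z hz

/-! ## 5. Orthogonality -/

theorem intL_const_mul409 (μ : @Measure k (borel k)) (c : ℂ) (g : k × k → ℂ) :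
    intL μ (fun y => c * g y) = c * intL μ g := by
  unfold intL
  exact integral_const_mul _ _

/-- `∫_{M_a} ψ(B(η, z)) dη = vol(M_a) 1_{M_a^⊥}(z)`. -/
theorem int_box_char409 (t n : k) {ψ : k → ℂ} (hψ : _root_.Fermat.Agent.LT.A2.LF361.IsCharL ψ) {μ : @Measure k (borel k)}
    (hμ : _root_.Fermat.Agent.LT.A2.LF361.IsHaarL μ) (a : k) (z : k × k) :
    intL μ (fun η => (box409 a).indicator (fun _ => (1 : ℂ)) η * ψ (bfL t n η z))
      = (dual409 t n ψ a).indicator (fun _ => ((volR409 μ (box409 a) : ℝ) : ℂ)) z := by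
  by_cases hz : z ∈ dual409 t n ψ a
  · rw [Set.indicator_of_mem hz]
    have e : (fun η => (box409 a).indicator (fun _ => (1 : ℂ)) η * ψ (bfL t n η z))
        = (box409 a).indicator fun _ => (1 : ℂ) := by
      funext η
      by_cases hη : η ∈ box409 a
      · rw [Set.indicator_of_mem hη, hz η hη, mul_one]
      · rw [Set.indicator_of_notMem hη, zero_mul]
    rw [e]
    exact intL_indicator409 μ (isClosed_box409 a)
  · rw [Set.indicator_of_notMem hz]
    have hz' : ∃ η₁ ∈ box409 a, ψ (bfL t n η₁ z) ≠ 1 := by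
      by_contra hcon
      push Not at hcon
      exact hz hcon
    obtain ⟨η₁, hη₁, hne⟩ := hz'
    set g : k × k → ℂ :=
      fun η => (box409 a).indicator (fun _ => (1 : ℂ)) η * ψ (bfL t n η z) with hg
    have h1 : intL μ (fun η => g (η + η₁)) = intL μ g := intL_add_right496 hμ g η₁
    have h2 : (fun η => g (η + η₁)) = fun η => ψ (bfL t n η₁ z) * g η := by
      funext η
      show (box409 a).indicator (fun _ => (1 : ℂ)) (η + η₁) * ψ (bfL t n (η + η₁) z)
        = ψ (bfL t n η₁ z) * ((box409 a).indicator (fun _ => (1 : ℂ)) η * ψ (bfL t n η z))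
      rw [bfL_add_left496, hψ.2.1]
      by_cases hη : η ∈ box409 a
      · rw [Set.indicator_of_mem hη, Set.indicator_of_mem ((box_add_iff409 hη₁).2 hη)]
        ring
      · rw [Set.indicator_of_notMem hη,
          Set.indicator_of_notMem (fun h => hη ((box_add_iff409 hη₁).1 h))]
        ring
    rw [h2, intL_const_mul409] at h1
    have h3 : (ψ (bfL t n η₁ z) - 1) * intL μ g = 0 := by
      rw [sub_mul, one_mul, h1, sub_self]
    rcases mul_eq_zero.mp h3 with h0 | h0
    · exact absurd (sub_eq_zero.mp h0) hne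
    · exact h0

/-! ## 6. The main computation -/

theorem ftft_eq409 (t n : k) (hD : t ^ 2 - 4 * n ≠ 0) {ψ : k → ℂ} (hψ : _root_.Fermat.Agent.LT.A2.LF361.IsCharL ψ)
    (hne : ∃ x, ψ x ≠ 1) {μ : @Measure k (borel k)} (hμ : _root_.Fermat.Agent.LT.A2.LF361.IsHaarL μ) {Φ : k × k → ℂ}
    (hΦ : IsSB Φ) :
    ∃ R : ℝ, 0 ≤ R ∧ ∀ a : k, R < ‖a‖ → ∀ ξ : k × k,
      ftL t n ψ μ (ftL t n ψ μ Φ) ξ
        = ((volR409 μ (box409 a) * volR409 μ (dual409 t n ψ a) : ℝ) : ℂ) * Φ (-ξ) := by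
  obtain ⟨R₁, hR₁⟩ := ftL_support_bounded496 t n hD hψ hne hμ hΦ
  obtain ⟨δ, hδ, hinv⟩ := sb_uniform496 hΦ
  obtain ⟨E, hE0, hE⟩ := dual_bounded409 t n hD hψ hne
  refine ⟨max (max R₁ (E / δ)) 0, le_max_right _ _, fun a ha ξ => ?_⟩
  have ha0 : 0 < ‖a‖ := lt_of_le_of_lt (le_max_right _ _) ha
  have hane : a ≠ 0 := norm_pos_iff.1 ha0
  have haR₁ : R₁ < ‖a‖ := lt_of_le_of_lt ((le_max_left _ _).trans (le_max_left _ _)) ha
  have haE : E / δ < ‖a‖ := lt_of_le_of_lt ((le_max_right _ _).trans (le_max_left _ _)) ha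
  have hsupp : ∀ η : k × k, η ∉ box409 a → ftL t n ψ μ Φ η = 0 := by
    intro η hη
    by_contra h0
    exact hη ((hR₁ η h0).trans haR₁.le)
  have hdual : ∀ z ∈ dual409 t n ψ a, ‖z‖ < δ := by
    intro z hz
    have h1 := hE a hane z hz
    have h2 : E < δ * ‖a‖ := by rwa [div_lt_iff₀' hδ] at haE
    by_contra hcon
    rw [not_lt] at hcon
    have h3 : δ * ‖a‖ ≤ ‖z‖ * ‖a‖ := mul_le_mul_of_nonneg_right hcon ha0.le
    linarith
  letI : MeasurableSpace k := borel k
  haveI : BorelSpace k := ⟨rfl⟩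
  haveI : IsFiniteMeasureOnCompacts μ := ⟨fun C hC => hμ.2.1 C hC⟩
  set V : ℂ := ((volR409 μ (box409 a) : ℝ) : ℂ) with hV
  set F : k × k → k × k → ℂ := fun η y =>
    (box409 a).indicator (fun _ => (1 : ℂ)) η * (Φ y * ψ (bfL t n η y)) * ψ (bfL t n ξ η)
    with hF
  -- integrability on the product
  have hFc : Continuous (Function.uncurry F) := by
    have c1 : Continuous fun p : (k × k) × (k × k) =>
        (box409 a).indicator (fun _ => (1 : ℂ)) p.1 :=
      (continuous_indicator_box409 hane).comp continuous_fst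
    have c2 : Continuous fun p : (k × k) × (k × k) => Φ p.2 :=
      hΦ.1.continuous.comp continuous_snd
    have c3 : Continuous fun p : (k × k) × (k × k) => ψ (bfL t n p.1 p.2) :=
      hψ.1.comp (continuous_bfL409 t n)
    have c4 : Continuous fun p : (k × k) × (k × k) => ψ (bfL t n ξ p.1) := by
      refine hψ.1.comp ?_
      have h2 : (fun p : (k × k) × (k × k) => bfL t n ξ p.1)
          = fun p => bfL t n p.1 ξ := funext fun p => bfL_symm409 t n ξ p.1
      rw [h2]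
      exact (continuous_bfL_left409 t n ξ).comp continuous_fst
    exact (c1.mul (c2.mul c3)).mul c4
  have hFs : HasCompactSupport (Function.uncurry F) := by
    refine HasCompactSupport.of_support_subset_isCompact
      ((isCompact_box409 a).prod hΦ.2) ?_
    intro p hp
    rw [Function.mem_support] at hp
    constructor
    · by_contra h
      apply hp
      show (box409 a).indicator (fun _ => (1 : ℂ)) p.1 * (Φ p.2 * ψ (bfL t n p.1 p.2))
        * ψ (bfL t n ξ p.1) = 0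
      rw [Set.indicator_of_notMem h, zero_mul, zero_mul]
    · by_contra h
      apply hp
      show (box409 a).indicator (fun _ => (1 : ℂ)) p.1 * (Φ p.2 * ψ (bfL t n p.1 p.2))
        * ψ (bfL t n ξ p.1) = 0
      rw [image_eq_zero_of_notMem_tsupport h, zero_mul, mul_zero, zero_mul]
  have hFint : Integrable (Function.uncurry F) ((μ.prod μ).prod (μ.prod μ)) :=
    hFc.integrable_of_hasCompactSupport hFs
  have hswap := integral_integral_swap hFint
  -- the inner integral in `y`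
  have hin1 : ∀ η : k × k, ∫ y, F η y ∂(μ.prod μ)
      = ftL t n ψ μ Φ η * ψ (bfL t n ξ η) := by
    intro η
    have e : (fun y => F η y) = fun y =>
        ((box409 a).indicator (fun _ => (1 : ℂ)) η * ψ (bfL t n ξ η))
          * (Φ y * ψ (bfL t n η y)) := by
      funext y
      simp only [hF]
      ring
    rw [e, integral_const_mul]
    show (box409 a).indicator (fun _ => (1 : ℂ)) η * ψ (bfL t n ξ η) * ftL t n ψ μ Φ η = _
    by_cases hη : η ∈ box409 a
    · rw [Set.indicator_of_mem hη]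
      ring
    · rw [hsupp η hη, mul_zero, zero_mul]
  -- the inner integral in `η`
  have hin2 : ∀ y : k × k, ∫ η, F η y ∂(μ.prod μ)
      = (V * Φ (-ξ)) * (dual409 t n ψ a).indicator (fun _ => (1 : ℂ)) (y + ξ) := by
    intro y
    have e : (fun η => F η y) = fun η =>
        Φ y * ((box409 a).indicator (fun _ => (1 : ℂ)) η * ψ (bfL t n η (y + ξ))) := by
      funext η
      simp only [hF]
      rw [bfL_add_right496, hψ.2.1, bfL_symm409 t n ξ η]
      ring
    rw [e, integral_const_mul]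
    have := int_box_char409 t n hψ hμ a (y + ξ)
    unfold intL at this
    rw [this]
    by_cases hy : y + ξ ∈ dual409 t n ψ a
    · rw [Set.indicator_of_mem hy, Set.indicator_of_mem hy, mul_one]
      have h1 : Φ y = Φ (-ξ) := by
        have := hinv (-ξ) (y + ξ) (hdual _ hy)
        rw [← this]
        congr 1
        abel
      rw [h1, hV]
      ring
    · rw [Set.indicator_of_notMem hy, Set.indicator_of_notMem hy, mul_zero, mul_zero]
  -- assemble
  have h1 : ftL t n ψ μ (ftL t n ψ μ Φ) ξ = ∫ η, ∫ y, F η y ∂(μ.prod μ) ∂(μ.prod μ) := by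
    show intL μ (fun η => ftL t n ψ μ Φ η * ψ (bfL t n ξ η)) = _
    unfold intL
    congr 1
    funext η
    exact (hin1 η).symm
  rw [h1, hswap]
  simp only [hin2]
  rw [integral_const_mul]
  have h2 : ∫ y, (dual409 t n ψ a).indicator (fun _ => (1 : ℂ)) (y + ξ) ∂(μ.prod μ)
      = ((volR409 μ (dual409 t n ψ a) : ℝ) : ℂ) := by
    have := intL_add_right496 hμ ((dual409 t n ψ a).indicator (fun _ => (1 : ℂ))) ξ
    rw [intL_indicator409 μ (isClosed_dual409 t n hψ a)] at this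
    unfold intL at this
    exact this
  rw [h2, hV]
  push_cast
  ring

/-! ## 7. Fourier inversion -/

theorem isSB_indicator_box409 {a : k} (ha : a ≠ 0) :
    IsSB ((box409 a).indicator fun _ : k × k => (1 : ℂ)) := by
  constructor
  · rw [IsLocallyConstant.iff_exists_open]
    intro x
    by_cases hx : x ∈ box409 a
    · refine ⟨box409 a, isOpen_box409 ha, hx, fun y hy => ?_⟩
      rw [Set.indicator_of_mem hy, Set.indicator_of_mem hx]
    · refine ⟨(box409 a)ᶜ, (isClosed_box409 a).isOpen_compl, hx, fun y hy => ?_⟩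
      rw [Set.indicator_of_notMem hy, Set.indicator_of_notMem hx]
  · refine HasCompactSupport.of_support_subset_isCompact (isCompact_box409 a) ?_
    intro x hx
    by_contra h
    exact hx (Set.indicator_of_notMem h _)

/-- **Fourier inversion on `S(k²)`**, `k` a nonarchimedean local field. -/
theorem ftInv_general409 (t n : k) (hD : t ^ 2 - 4 * n ≠ 0) {ψ : k → ℂ} (hψ : _root_.Fermat.Agent.LT.A2.LF361.IsCharL ψ)
    (hne : ∃ x, ψ x ≠ 1) {μ : @Measure k (borel k)} (hμ : _root_.Fermat.Agent.LT.A2.LF361.IsHaarL μ) :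
    ∃ c : ℝ, 0 < c ∧ ∀ Φ : k × k → ℂ, IsSB Φ → ∀ ξ : k × k,
      ftL t n ψ μ (ftL t n ψ μ Φ) ξ = (c : ℂ) * Φ (-ξ) := by
  set Φ₀ : k × k → ℂ := (box409 (1 : k)).indicator fun _ => (1 : ℂ) with hΦ₀
  have hΦ₀sb : IsSB Φ₀ := isSB_indicator_box409 one_ne_zero
  have hΦ₀0 : Φ₀ (-0) = 1 := by
    rw [neg_zero, hΦ₀, Set.indicator_of_mem (zero_mem_box409 1)]
  obtain ⟨R₀, hR₀0, hR₀⟩ := ftft_eq409 t n hD hψ hne hμ hΦ₀sb
  obtain ⟨a₀, ha₀⟩ := NormedField.exists_lt_norm k R₀
  have ha₀ne : a₀ ≠ 0 := norm_pos_iff.1 (lt_of_le_of_lt hR₀0 ha₀)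
  refine ⟨volR409 μ (box409 a₀) * volR409 μ (dual409 t n ψ a₀),
    mul_pos (volR_box_pos409 hμ ha₀ne) (volR_dual_pos409 t n hD hψ hne hμ ha₀ne),
    fun Φ hΦ ξ => ?_⟩
  obtain ⟨R, -, hR⟩ := ftft_eq409 t n hD hψ hne hμ hΦ
  obtain ⟨a, ha⟩ := NormedField.exists_lt_norm k (max R R₀)
  have h1 := hR a (lt_of_le_of_lt (le_max_left _ _) ha) ξ
  have h2 := hR₀ a (lt_of_le_of_lt (le_max_right _ _) ha) 0
  have h3 := hR₀ a₀ ha₀ 0
  rw [hΦ₀0, mul_one] at h2 h3
  rw [h1, ← h2, h3]

end Haar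

end Fermat.Agent.LT.A2.H409

end

end
-- ===== PACK-END LT/A2/H409/FTInvCore.lean

-- ===== PACK-BEGIN LT/A2/H409/FTInv.lean
section



/-!
# Row LT, tower A2, station LOC-FIN: the leaves FOURIER INVERSION (helper409)

OFF-MAIN.

* `leafInv409 : LF54.LeafInv`  -- registry row 1581 = A2.03.1.1.06.04, VERBATIM the Prop of
  `LT/A2/H54/LocFinSpec.lean` (helper54@26071c838, sha256 8ccd9c5c6ed3304a);
* `ftInvC409 : LF361.FTInvC`   -- the same statement in the cut of helper361 (registry row 1414 =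
  A2.03.1.1.LF.04, SPARE), VERBATIM the Prop of `LT/A2/H361/LocFinSpec.lean`
  (helper361@1f89b04c5, sha256 3a143d6b3ef16b24).

Both are instances of `ftInv_general409` (`FTInvCore.lean`): the two specs have the same `ftL`
and `IsSB` (definitionally).
-/

set_option autoImplicit false
set_option linter.style.haveILetI false

open IsDedekindDomain NumberField MeasureTheory
open scoped Topology Valued

noncomputable section

namespace Fermat.Agent.LT.A2.H409

/-- The completion at a finite place is a proper space. -/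
theorem properSpace_adicCompletion409 (K : Type) [Field K] [NumberField K]
    (v : HeightOneSpectrum (𝓞 K)) : ProperSpace (v.adicCompletion K) :=
  Valued.integer.properSpace_iff_compactSpace_integer.mpr
    (Fermat.Agent.LT.H767.compactSpace_integer_adicCompletion K v)

/-- **LEAF `A2.03.1.1.LF.04` = `LF361.FTInvC`** (cut of helper361). -/
theorem ftInvC409 : LF361.FTInvC := by
  intro K _ _ v t n ψ μ hD hψ hne hμ
  haveI : ProperSpace (v.adicCompletion K) := properSpace_adicCompletion409 K v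
  obtain ⟨c, hc, h⟩ := ftInv_general409 t n hD hψ hne hμ
  exact ⟨c, hc, h⟩

/-- **LEAF `A2.03.1.1.06.04` = `LF54.LeafInv`** (cut of helper54). -/
theorem leafInv409 : LF54.LeafInv := by
  intro K _ _ v t n ψ μ hctx
  haveI : ProperSpace (v.adicCompletion K) := properSpace_adicCompletion409 K v
  obtain ⟨c, hc, h⟩ := ftInv_general409 t n hctx.disc
    (ψ := ψ) ⟨hctx.char.1, hctx.char.2.1, hctx.char.2.2.1⟩ hctx.char.2.2.2 (μ := μ) hctx.haar
  exact ⟨c, hc, fun Φ hΦ ξ => h Φ hΦ ξ⟩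

end Fermat.Agent.LT.A2.H409

end

end
-- ===== PACK-END LT/A2/H409/FTInv.lean

-- ===== PACK-BEGIN LT/A2/H999/LGGen.lean
section


/-!
# Row LT, tower A2, leaf A2.03.1.1.08 `WX467.LocGoodOfRepC` (helper999), part 3: generation

OFF-MAIN.  For a local Weil family `F` at a good place with initial vector `stdFn v` and
`μ(𝒪_v) = 1`:

* `γ = 1` (`(w n(1))³ = 1`, `w⁴ = 1`);
* `F h 1 = stdFn v` for `h ∈ SL₂(𝒪_v)` (`SL₂(𝒪_v)` is generated by `n(x)`, `t(a)`, `w`);
* `F k κ = stdFn v` for `k ∈ GL₂(𝒪_v)`, `κ ∈ T(𝒪_v)`, `det k = det κ`;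
* right invariance under these pairs, by the uniqueness `LocUniqC`.
-/

set_option autoImplicit false

open IsDedekindDomain NumberField AutomorphicForm MeasureTheory
open scoped MatrixGroups Topology RestrictedProduct

noncomputable section

namespace Fermat.Agent.LT.A2.H999

open Fermat.Agent.LT.H130 Fermat.Agent.LT.H556 Fermat.Agent.LT.A2 Fermat.Agent.LT.A2.WX467
open Fermat.Agent.LT.H129

variable {K : Type} [Field K] [NumberField K] (v : HeightOneSpectrum (𝓞 K))

attribute [local instance] borelMS999 borelSp999 secCount999 locCpt999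

/-! ## Valuations and norms -/

section Val

variable {v}

theorem ne_zero_of_valued_eq_one {a : v.adicCompletion K} (ha : Valued.v a = 1) : a ≠ 0 := by
  rintro rfl
  rw [map_zero] at ha
  exact zero_ne_one ha

theorem norm_eq_one_of_valued {a : v.adicCompletion K} (ha : Valued.v a = 1) : ‖a‖ = 1 := by
  have h1 : ‖a‖ ≤ 1 := Valued.toNormedField.norm_le_one_iff.mpr ha.le
  have h2 : ¬ ‖a‖ < 1 := fun h => by
    have := Valued.toNormedField.norm_lt_one_iff.mp h
    rw [ha] at this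
    exact lt_irrefl _ this
  exact le_antisymm h1 (not_lt.mp h2)

theorem valued_inv_eq_one {a : v.adicCompletion K} (ha : Valued.v a = 1) :
    Valued.v a⁻¹ = 1 := by
  rw [map_inv₀, ha, inv_one]

theorem mul_mem_intSet_iff {a x : v.adicCompletion K} (ha : Valued.v a = 1) :
    a * x ∈ intSet v ↔ x ∈ intSet v := by
  rw [mem_intSet, mem_intSet, map_mul, ha, one_mul]

theorem mem_intSet_of_valued_eq_one {a : v.adicCompletion K} (ha : Valued.v a = 1) :
    a ∈ intSet v := (mem_intSet v).mpr ha.le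

theorem valued_eq_one_of_mul {a d : v.adicCompletion K} (ha : a ∈ intSet v) (hd : d ∈ intSet v)
    (h : Valued.v (a * d) = 1) : Valued.v a = 1 := by
  rw [mem_intSet] at ha hd
  refine le_antisymm ha ?_
  rw [map_mul] at h
  calc (1 : WithZero (Multiplicative ℤ)) = Valued.v a * Valued.v d := h.symm
    _ ≤ Valued.v a * 1 := mul_le_mul_right hd _
    _ = Valued.v a := mul_one _

theorem stdFn_smul {a : v.adicCompletion K} (ha : Valued.v a = 1)
    (ξ : v.adicCompletion K × v.adicCompletion K) : stdFn v (a • ξ) = stdFn v ξ := by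
  have e1 : (a • ξ).1 = a * ξ.1 := rfl
  have e2 : (a • ξ).2 = a * ξ.2 := rfl
  by_cases hξ : ξ.1 ∈ intSet v ∧ ξ.2 ∈ intSet v
  · rw [stdFn_of_mem hξ.1 hξ.2, stdFn_of_mem]
    · rw [e1]; exact (mul_mem_intSet_iff ha).mpr hξ.1
    · rw [e2]; exact (mul_mem_intSet_iff ha).mpr hξ.2
  · rw [stdFn_of_notMem hξ, stdFn_of_notMem]
    rintro ⟨h1, h2⟩
    rw [e1] at h1
    rw [e2] at h2
    exact hξ ⟨(mul_mem_intSet_iff ha).mp h1, (mul_mem_intSet_iff ha).mp h2⟩

end Val

/-! ## Matrices -/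

section Mat

variable {v}

/-- The integral matrices. -/
def IsIntM (M : Matrix (Fin 2) (Fin 2) (v.adicCompletion K)) : Prop :=
  ∀ i j : Fin 2, M i j ∈ intSet v

theorem actL_mul (A B : Matrix (Fin 2) (Fin 2) (v.adicCompletion K))
    (ξ : v.adicCompletion K × v.adicCompletion K) : actL (A * B) ξ = actL A (actL B ξ) := by
  unfold actL
  simp only [Matrix.mul_apply, Fin.sum_univ_two]
  ext <;> simp <;> ring

theorem actL_one (ξ : v.adicCompletion K × v.adicCompletion K) :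
    actL (1 : Matrix (Fin 2) (Fin 2) (v.adicCompletion K)) ξ = ξ := by
  unfold actL
  ext <;> simp

theorem IsIntM.actL_mem {M : Matrix (Fin 2) (Fin 2) (v.adicCompletion K)} (hM : IsIntM M)
    {ξ : v.adicCompletion K × v.adicCompletion K} (h1 : ξ.1 ∈ intSet v) (h2 : ξ.2 ∈ intSet v) :
    (actL M ξ).1 ∈ intSet v ∧ (actL M ξ).2 ∈ intSet v :=
  ⟨add_mem_intSet v (mul_mem_intSet v (hM 0 0) h1) (mul_mem_intSet v (hM 0 1) h2),
    add_mem_intSet v (mul_mem_intSet v (hM 1 0) h1) (mul_mem_intSet v (hM 1 1) h2)⟩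

theorem stdFn_actL {M : Matrix (Fin 2) (Fin 2) (v.adicCompletion K)} (hM : IsIntM M)
    (hM' : IsIntM M⁻¹) (hdet : M.det ≠ 0) (ξ : v.adicCompletion K × v.adicCompletion K) :
    stdFn v (actL M ξ) = stdFn v ξ := by
  have hu : IsUnit M.det := isUnit_iff_ne_zero.mpr hdet
  by_cases hξ : ξ.1 ∈ intSet v ∧ ξ.2 ∈ intSet v
  · obtain ⟨h1, h2⟩ := hM.actL_mem hξ.1 hξ.2
    rw [stdFn_of_mem hξ.1 hξ.2, stdFn_of_mem h1 h2]
  · rw [stdFn_of_notMem hξ, stdFn_of_notMem]
    rintro ⟨h1, h2⟩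
    apply hξ
    have e : ξ = actL M⁻¹ (actL M ξ) := by
      rw [← actL_mul, Matrix.nonsing_inv_mul _ hu, actL_one]
    rw [e]
    exact hM'.actL_mem h1 h2

theorem IsIntM.det_mem {M : Matrix (Fin 2) (Fin 2) (v.adicCompletion K)} (hM : IsIntM M) :
    M.det ∈ intSet v := by
  rw [Matrix.det_fin_two]
  exact sub_mem_intSet v (mul_mem_intSet v (hM 0 0) (hM 1 1))
    (mul_mem_intSet v (hM 0 1) (hM 1 0))

theorem valued_det_eq_one {M : Matrix (Fin 2) (Fin 2) (v.adicCompletion K)} (hM : IsIntM M)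
    (hM' : IsIntM M⁻¹) (hdet : M.det ≠ 0) : Valued.v M.det = 1 := by
  have h1 := (mem_intSet v).mp hM.det_mem
  have h2 := (mem_intSet v).mp hM'.det_mem
  rw [Matrix.det_nonsing_inv, Ring.inverse_eq_inv', map_inv₀] at h2
  have h0 : Valued.v M.det ≠ 0 := (Valuation.ne_zero_iff _).mpr hdet
  refine le_antisymm h1 ?_
  exact (inv_le_one₀ (zero_lt_iff.mpr h0)).mp h2

theorem IsIntM.mul {A B : Matrix (Fin 2) (Fin 2) (v.adicCompletion K)} (hA : IsIntM A)
    (hB : IsIntM B) : IsIntM (A * B) := by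
  intro i j
  rw [Matrix.mul_apply, Fin.sum_univ_two]
  exact add_mem_intSet v (mul_mem_intSet v (hA i 0) (hB 0 j))
    (mul_mem_intSet v (hA i 1) (hB 1 j))

theorem isIntM_one : IsIntM (1 : Matrix (Fin 2) (Fin 2) (v.adicCompletion K)) := by
  intro i j
  by_cases h : i = j
  · subst h; rw [Matrix.one_apply_eq]; exact one_mem_intSet v
  · rw [Matrix.one_apply_ne h]; exact zero_mem_intSet v

/-- An integral matrix with unit determinant has an integral inverse. -/
theorem IsIntM.inv {M : Matrix (Fin 2) (Fin 2) (v.adicCompletion K)} (hM : IsIntM M)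
    (hdet : Valued.v M.det = 1) : IsIntM M⁻¹ := by
  have hd : M.det⁻¹ ∈ intSet v := mem_intSet_of_valued_eq_one (valued_inv_eq_one hdet)
  rw [Matrix.inv_def, Ring.inverse_eq_inv', Matrix.adjugate_fin_two]
  intro i j
  fin_cases i <;> fin_cases j
  · exact mul_mem_intSet v hd (hM 1 1)
  · exact mul_mem_intSet v hd (neg_mem_intSet v (hM 0 1))
  · exact mul_mem_intSet v hd (neg_mem_intSet v (hM 1 0))
  · exact mul_mem_intSet v hd (hM 0 0)

end Mat

/-! ## The local torus -/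

section Tor

variable {v}
variable {t n : v.adicCompletion K}

theorem inTorL_one : InTorL t n (1 : Matrix (Fin 2) (Fin 2) (v.adicCompletion K)) :=
  ⟨1, 0, (torMat_one_zero t n).symm⟩

theorem inTorL_mul {κ κ' : Matrix (Fin 2) (Fin 2) (v.adicCompletion K)} (h : InTorL t n κ)
    (h' : InTorL t n κ') : InTorL t n (κ * κ') := by
  obtain ⟨a, b, rfl⟩ := h
  obtain ⟨a', b', rfl⟩ := h'
  exact ⟨_, _, torMat_mul t n a b a' b'⟩

theorem torMat_inv {R : Type} [Field R] (t n a b : R) :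
    (torMat t n a b)⁻¹
      = torMat t n ((torMat t n a b).det⁻¹ * (a + t * b)) ((torMat t n a b).det⁻¹ * (-b)) := by
  rw [Matrix.inv_def, Ring.inverse_eq_inv']
  generalize (torMat t n a b).det⁻¹ = δ
  rw [Matrix.adjugate_fin_two]
  ext i j
  fin_cases i <;> fin_cases j <;> simp [torMat] <;> ring

theorem inTorL_inv {κ : Matrix (Fin 2) (Fin 2) (v.adicCompletion K)} (h : InTorL t n κ) :
    InTorL t n κ⁻¹ := by
  obtain ⟨a, b, rfl⟩ := h
  exact ⟨_, _, torMat_inv t n a b⟩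

theorem admL_of_det_one (t n : v.adicCompletion K)
    {g : Matrix (Fin 2) (Fin 2) (v.adicCompletion K)} (h : g.det = 1) : AdmL t n g 1 :=
  ⟨inTorL_one, by rw [h, Matrix.det_one], by rw [Matrix.det_one]; exact one_ne_zero⟩

theorem admL_mul {g m k κ : Matrix (Fin 2) (Fin 2) (v.adicCompletion K)} (h : AdmL t n g m)
    (hκ : InTorL t n κ) (hκ0 : κ.det ≠ 0) (hdet : k.det = κ.det) :
    AdmL t n (g * k) (m * κ) :=
  ⟨inTorL_mul h.1 hκ, by rw [Matrix.det_mul, Matrix.det_mul, h.2.1, hdet],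
    by rw [Matrix.det_mul]; exact mul_ne_zero h.2.2 hκ0⟩

/-- `T(𝒪_v)`, in local terms. -/
def torIntL (t n : v.adicCompletion K) : Set (Matrix (Fin 2) (Fin 2) (v.adicCompletion K)) :=
  {κ | InTorL t n κ ∧ κ.det ≠ 0 ∧ (∀ i j : Fin 2, κ i j ∈ v.adicCompletionIntegers K) ∧
    ∀ i j : Fin 2, κ⁻¹ i j ∈ v.adicCompletionIntegers K}

theorem torInt_eq (t n : K) :
    torInt v t n
      = torIntL (algebraMap K (v.adicCompletion K) t) (algebraMap K (v.adicCompletion K) n) :=
  rfl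

theorem torIntL_one : (1 : Matrix (Fin 2) (Fin 2) (v.adicCompletion K)) ∈ torIntL t n := by
  refine ⟨inTorL_one, by rw [Matrix.det_one]; exact one_ne_zero, isIntM_one, ?_⟩
  rw [inv_one]
  exact isIntM_one

theorem torIntL_mul {κ κ' : Matrix (Fin 2) (Fin 2) (v.adicCompletion K)} (h : κ ∈ torIntL t n)
    (h' : κ' ∈ torIntL t n) : κ * κ' ∈ torIntL t n := by
  refine ⟨inTorL_mul h.1 h'.1, ?_, IsIntM.mul h.2.2.1 h'.2.2.1, ?_⟩
  · rw [Matrix.det_mul]; exact mul_ne_zero h.2.1 h'.2.1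
  · rw [Matrix.mul_inv_rev]
    exact IsIntM.mul h'.2.2.2 h.2.2.2

theorem torIntL_inv {κ : Matrix (Fin 2) (Fin 2) (v.adicCompletion K)} (h : κ ∈ torIntL t n) :
    κ⁻¹ ∈ torIntL t n := by
  have hu : IsUnit κ.det := isUnit_iff_ne_zero.mpr h.2.1
  refine ⟨inTorL_inv h.1, ?_, h.2.2.2, ?_⟩
  · rw [Matrix.det_nonsing_inv, Ring.inverse_eq_inv']
    exact inv_ne_zero h.2.1
  · rw [Matrix.nonsing_inv_nonsing_inv _ hu]
    exact h.2.2.1

end Tor

/-! ## Matrix identities -/

section Ident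

variable {R : Type} [Field R]

theorem w4_mul (g : Matrix (Fin 2) (Fin 2) R) :
    (!![0, 1; -1, 0] : Matrix (Fin 2) (Fin 2) R)
      * (!![0, 1; -1, 0] * (!![0, 1; -1, 0] * (!![0, 1; -1, 0] * g))) = g := by
  have h : (!![0, 1; -1, 0] : Matrix (Fin 2) (Fin 2) R)
      * (!![0, 1; -1, 0] * (!![0, 1; -1, 0] * !![0, 1; -1, 0])) = 1 := by
    simp [Matrix.one_fin_two]
  calc (!![0, 1; -1, 0] : Matrix (Fin 2) (Fin 2) R)
        * (!![0, 1; -1, 0] * (!![0, 1; -1, 0] * (!![0, 1; -1, 0] * g)))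
      = ((!![0, 1; -1, 0] : Matrix (Fin 2) (Fin 2) R)
        * (!![0, 1; -1, 0] * (!![0, 1; -1, 0] * !![0, 1; -1, 0]))) * g := by
        simp only [Matrix.mul_assoc]
    _ = g := by rw [h, Matrix.one_mul]

theorem wn3_one :
    (!![0, 1; -1, 0] : Matrix (Fin 2) (Fin 2) R)
      * (!![1, 1; 0, 1] * (!![0, 1; -1, 0] * (!![1, 1; 0, 1]
        * (!![0, 1; -1, 0] * (!![1, 1; 0, 1] * 1))))) = 1 := by
  simp [Matrix.one_fin_two]

theorem bruhat_eq (M : Matrix (Fin 2) (Fin 2) R) (hc : M 1 0 ≠ 0) (hdet : M.det = 1) :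
    M = !![1, M 0 0 / M 1 0; 0, 1] * (!![-(M 1 0)⁻¹, 0; 0, (-(M 1 0)⁻¹)⁻¹]
      * (!![0, 1; -1, 0] * !![1, M 1 1 / M 1 0; 0, 1])) := by
  rw [Matrix.det_fin_two] at hdet
  have hb : M 0 1 = (M 0 0 * M 1 1 - 1) / M 1 0 := by
    field_simp
    linear_combination -hdet
  ext i j
  fin_cases i <;> fin_cases j
  · simp
    field_simp
  · simp
    rw [hb]
    field_simp
    ring
  · simp
  · simp
    field_simp

theorem diagOne_cancel (δ : R) (hδ : δ ≠ 0) (k : Matrix (Fin 2) (Fin 2) R) :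
    (!![1, 0; 0, δ] : Matrix (Fin 2) (Fin 2) R) * (!![1, 0; 0, δ⁻¹] * k) = k := by
  rw [← Matrix.mul_assoc]
  have h : (!![1, 0; 0, δ] : Matrix (Fin 2) (Fin 2) R) * !![1, 0; 0, δ⁻¹] = 1 := by
    simp [Matrix.one_fin_two, hδ]
  rw [h, Matrix.one_mul]

theorem det_unipM (x : R) : (!![1, x; 0, 1] : Matrix (Fin 2) (Fin 2) R).det = 1 := by
  simp [Matrix.det_fin_two]

theorem det_weylM : (!![0, 1; -1, 0] : Matrix (Fin 2) (Fin 2) R).det = 1 := by
  simp [Matrix.det_fin_two]

theorem det_diagM (a : R) (ha : a ≠ 0) :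
    (!![a, 0; 0, a⁻¹] : Matrix (Fin 2) (Fin 2) R).det = 1 := by
  simp [Matrix.det_fin_two, ha]

theorem det_diagOneM (δ : R) : (!![1, 0; 0, δ] : Matrix (Fin 2) (Fin 2) R).det = δ := by
  simp [Matrix.det_fin_two]

theorem weyl_mul_apply (M : Matrix (Fin 2) (Fin 2) R) :
    (!![0, 1; -1, 0] : Matrix (Fin 2) (Fin 2) R) * M = !![M 1 0, M 1 1; -M 0 0, -M 0 1] := by
  ext i j
  fin_cases i <;> fin_cases j <;> simp [Matrix.mul_apply, Fin.sum_univ_two]

theorem diagOne_mul_apply (δ : R) (M : Matrix (Fin 2) (Fin 2) R) :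
    (!![1, 0; 0, δ] : Matrix (Fin 2) (Fin 2) R) * M
      = !![M 0 0, M 0 1; δ * M 1 0, δ * M 1 1] := by
  ext i j
  fin_cases i <;> fin_cases j <;> simp [Matrix.mul_apply, Fin.sum_univ_two]

end Ident

/-! ## Standard families -/

section Fam

variable {v}

/-- A local Weil family at a good place, with initial vector `stdFn v` and `μ(𝒪_v) = 1`. -/
structure IsStdFam (t n : v.adicCompletion K) (ψ : v.adicCompletion K → ℂ)
    (μ : Measure (v.adicCompletion K)) (γ : ℂ) (η : v.adicCompletion K → ℂ)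
    (F : Matrix (Fin 2) (Fin 2) (v.adicCompletion K) →
      Matrix (Fin 2) (Fin 2) (v.adicCompletion K) →
      v.adicCompletion K × v.adicCompletion K → ℂ) : Prop where
  ax : LocAx (fun x => ‖x‖) t n ψ μ γ η F
  std : F 1 1 = stdFn v
  meas : μ (intSet v) = 1
  char : IsStdChar v ψ
  good : IsGoodQ t n
  eta : ∀ a : v.adicCompletion K, Valued.v a = 1 → η a = 1

/-- The `g ∈ SL₂(K_v)` with `F g 1 = c · stdFn v`. -/
def fixSet (F : Matrix (Fin 2) (Fin 2) (v.adicCompletion K) →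
      Matrix (Fin 2) (Fin 2) (v.adicCompletion K) →
      v.adicCompletion K × v.adicCompletion K → ℂ) (c : ℂ) :
    Set (Matrix (Fin 2) (Fin 2) (v.adicCompletion K)) :=
  {g | g.det = 1 ∧ ∀ ξ, F g 1 ξ = c * stdFn v ξ}

variable {t n : v.adicCompletion K} {ψ : v.adicCompletion K → ℂ}
  {μ : Measure (v.adicCompletion K)} {γ : ℂ} {η : v.adicCompletion K → ℂ}
  {F : Matrix (Fin 2) (Fin 2) (v.adicCompletion K) →
      Matrix (Fin 2) (Fin 2) (v.adicCompletion K) →
      v.adicCompletion K × v.adicCompletion K → ℂ}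

theorem IsStdFam.one_mem (h : IsStdFam t n ψ μ γ η F) :
    (1 : Matrix (Fin 2) (Fin 2) (v.adicCompletion K)) ∈ fixSet F 1 :=
  ⟨Matrix.det_one, fun ξ => by rw [h.std, one_mul]⟩

theorem IsStdFam.fix_unip (h : IsStdFam t n ψ μ γ η F) {c : ℂ}
    {g : Matrix (Fin 2) (Fin 2) (v.adicCompletion K)} (hg : g ∈ fixSet F c)
    {x : v.adicCompletion K} (hx : x ∈ intSet v) : !![1, x; 0, 1] * g ∈ fixSet F c := by
  refine ⟨by rw [Matrix.det_mul, hg.1, det_unipM, one_mul], fun ξ => ?_⟩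
  rw [h.ax.unip x g 1 ξ (admL_of_det_one t n hg.1), hg.2 ξ]
  by_cases hξ : ξ.1 ∈ intSet v ∧ ξ.2 ∈ intSet v
  · rw [h.char.int _ (mul_mem_intSet v hx (h.good.qfL_mem hξ.1 hξ.2)), one_mul]
  · rw [stdFn_of_notMem hξ, mul_zero, mul_zero]

theorem IsStdFam.fix_weyl (h : IsStdFam t n ψ μ γ η F) {c : ℂ}
    {g : Matrix (Fin 2) (Fin 2) (v.adicCompletion K)} (hg : g ∈ fixSet F c) :
    !![0, 1; -1, 0] * g ∈ fixSet F (γ * c) := by
  refine ⟨by rw [Matrix.det_mul, hg.1, det_weylM, one_mul], fun ξ => ?_⟩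
  rw [h.ax.weyl g 1 ξ (admL_of_det_one t n hg.1)]
  have e : (fun y => F g 1 y * ψ (bfL t n ξ y))
      = fun y => c * (stdFn v y * ψ (bfL t n ξ y)) := by
    funext y
    rw [hg.2 y, mul_assoc]
  rw [e]
  have e2 : intL μ (fun y => c * (stdFn v y * ψ (bfL t n ξ y)))
      = c * intL μ (fun y => stdFn v y * ψ (bfL t n ξ y)) := by
    unfold intL
    exact integral_const_mul _ _
  rw [e2, ft_stdFn h.ax.haar h.meas h.char h.good ξ, mul_assoc]

theorem IsStdFam.fix_diag (h : IsStdFam t n ψ μ γ η F) {c : ℂ}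
    {g : Matrix (Fin 2) (Fin 2) (v.adicCompletion K)} (hg : g ∈ fixSet F c)
    {a : v.adicCompletion K} (ha : Valued.v a = 1) : !![a, 0; 0, a⁻¹] * g ∈ fixSet F c := by
  have ha0 := ne_zero_of_valued_eq_one ha
  refine ⟨by rw [Matrix.det_mul, hg.1, det_diagM a ha0, one_mul], fun ξ => ?_⟩
  rw [h.ax.diag a ha0 g 1 ξ (admL_of_det_one t n hg.1), hg.2, h.eta a ha,
    norm_eq_one_of_valued ha, stdFn_smul ha]
  simp

theorem stdFn_zero : stdFn v (0 : v.adicCompletion K × v.adicCompletion K) = 1 :=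
  stdFn_of_mem (zero_mem_intSet v) (zero_mem_intSet v)

/-- **`γ = 1`.** -/
theorem IsStdFam.gamma_eq_one (h : IsStdFam t n ψ μ γ η F) : γ = 1 := by
  have h1 := h.one_mem
  have hw4 := h.fix_weyl (h.fix_weyl (h.fix_weyl (h.fix_weyl h1)))
  have hwn3 := h.fix_weyl (h.fix_unip (h.fix_weyl (h.fix_unip (h.fix_weyl
    (h.fix_unip h1 (one_mem_intSet v))) (one_mem_intSet v))) (one_mem_intSet v))
  rw [w4_mul] at hw4
  rw [wn3_one] at hwn3
  have e4 := hw4.2 0
  have e3 := hwn3.2 0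
  rw [h.std, stdFn_zero, mul_one] at e4 e3
  calc γ = γ * (γ * (γ * (γ * 1))) := by rw [← e3, mul_one]
    _ = 1 := e4.symm

theorem IsStdFam.fix_weyl' (h : IsStdFam t n ψ μ γ η F)
    {g : Matrix (Fin 2) (Fin 2) (v.adicCompletion K)} (hg : g ∈ fixSet F 1) :
    !![0, 1; -1, 0] * g ∈ fixSet F 1 := by
  have := h.fix_weyl hg
  rw [h.gamma_eq_one, one_mul] at this
  exact this

/-- `SL₂(𝒪_v)` fixes `stdFn v`, the case of a unit in the lower left corner. -/
theorem IsStdFam.sl2_mem_of_unit (h : IsStdFam t n ψ μ γ η F)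
    {M : Matrix (Fin 2) (Fin 2) (v.adicCompletion K)} (hM : IsIntM M) (hdet : M.det = 1)
    (hc : Valued.v (M 1 0) = 1) : M ∈ fixSet F 1 := by
  have hc0 := ne_zero_of_valued_eq_one hc
  have hci : (M 1 0)⁻¹ ∈ intSet v := mem_intSet_of_valued_eq_one (valued_inv_eq_one hc)
  have h1 : (!![1, M 1 1 / M 1 0; 0, 1] : Matrix (Fin 2) (Fin 2) (v.adicCompletion K))
      ∈ fixSet F 1 := by
    have := h.fix_unip h.one_mem (x := M 1 1 / M 1 0)
      (by rw [div_eq_mul_inv]; exact mul_mem_intSet v (hM 1 1) hci)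
    rw [Matrix.mul_one] at this
    exact this
  have h2 := h.fix_weyl' h1
  have h3 := h.fix_diag h2 (a := -(M 1 0)⁻¹)
    (by rw [Valuation.map_neg]; exact valued_inv_eq_one hc)
  have h4 := h.fix_unip h3 (x := M 0 0 / M 1 0)
    (by rw [div_eq_mul_inv]; exact mul_mem_intSet v (hM 0 0) hci)
  rw [← bruhat_eq M hc0 hdet] at h4
  exact h4

/-- **`SL₂(𝒪_v)` fixes `stdFn v`.** -/
theorem IsStdFam.sl2_mem (h : IsStdFam t n ψ μ γ η F)
    {M : Matrix (Fin 2) (Fin 2) (v.adicCompletion K)} (hM : IsIntM M) (hdet : M.det = 1) :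
    M ∈ fixSet F 1 := by
  by_cases hc : Valued.v (M 1 0) = 1
  · exact h.sl2_mem_of_unit hM hdet hc
  · have hc' : Valued.v (M 1 0) < 1 := lt_of_le_of_ne ((mem_intSet v).mp (hM 1 0)) hc
    have hbc : Valued.v (-(M 0 1 * M 1 0)) < 1 := by
      rw [Valuation.map_neg, map_mul]
      calc Valued.v (M 0 1) * Valued.v (M 1 0) ≤ 1 * Valued.v (M 1 0) :=
            mul_le_mul_left ((mem_intSet v).mp (hM 0 1)) _
        _ = Valued.v (M 1 0) := one_mul _
        _ < 1 := hc'
    have had : Valued.v (M 0 0 * M 1 1) = 1 := by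
      have e : M 0 0 * M 1 1 = 1 + (M 0 1 * M 1 0) := by
        rw [Matrix.det_fin_two] at hdet
        linear_combination hdet
      rw [e]
      rw [Valuation.map_neg] at hbc
      exact Valuation.map_one_add_of_lt _ hbc
    have ha : Valued.v (M 0 0) = 1 := valued_eq_one_of_mul (hM 0 0) (hM 1 1) had
    have hwM : IsIntM ((!![0, 1; -1, 0] : Matrix (Fin 2) (Fin 2) (v.adicCompletion K)) * M) := by
      rw [weyl_mul_apply]
      intro i j
      fin_cases i <;> fin_cases j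
      · exact hM 1 0
      · exact hM 1 1
      · exact neg_mem_intSet v (hM 0 0)
      · exact neg_mem_intSet v (hM 0 1)
    have h1 := h.sl2_mem_of_unit hwM (by rw [Matrix.det_mul, det_weylM, hdet, one_mul])
      (by
        rw [weyl_mul_apply]
        show Valued.v (-M 0 0) = 1
        rw [Valuation.map_neg]
        exact ha)
    have h2 := h.fix_weyl' (h.fix_weyl' (h.fix_weyl' h1))
    rw [w4_mul] at h2
    exact h2

/-- **The pairs `(k, κ)`, `k ∈ GL₂(𝒪_v)`, `κ ∈ T(𝒪_v)`, `det k = det κ`, fix `stdFn v`.** -/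
theorem IsStdFam.level_fix (h : IsStdFam t n ψ μ γ η F)
    {k κ : Matrix (Fin 2) (Fin 2) (v.adicCompletion K)} (hk : IsIntM k)
    (hκ : κ ∈ torIntL t n) (hdet : k.det = κ.det) : F k κ = stdFn v := by
  have hδ : Valued.v κ.det = 1 := valued_det_eq_one hκ.2.2.1 hκ.2.2.2 hκ.2.1
  have hδi : κ.det⁻¹ ∈ intSet v := mem_intSet_of_valued_eq_one (valued_inv_eq_one hδ)
  have hu : IsUnit κ.det := isUnit_iff_ne_zero.mpr hκ.2.1
  set h₀ : Matrix (Fin 2) (Fin 2) (v.adicCompletion K) := !![1, 0; 0, κ.det⁻¹] * k with hh₀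
  have hint : IsIntM h₀ := by
    rw [hh₀, diagOne_mul_apply]
    intro i j
    fin_cases i <;> fin_cases j
    · exact hk 0 0
    · exact hk 0 1
    · exact mul_mem_intSet v hδi (hk 1 0)
    · exact mul_mem_intSet v hδi (hk 1 1)
  have hdet₀ : h₀.det = 1 := by
    rw [hh₀, Matrix.det_mul, det_diagOneM, hdet, inv_mul_cancel₀ hκ.2.1]
  have hfix := h.sl2_mem hint hdet₀
  funext ξ
  have htor := h.ax.tor κ hκ.1 hκ.2.1 h₀ 1 ξ (admL_of_det_one t n hdet₀)
  rw [hh₀, diagOne_cancel _ hκ.2.1, Matrix.mul_one, norm_eq_one_of_valued hδ] at htor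
  rw [← hh₀, hfix.2, one_mul] at htor
  have hκi : IsIntM (κ⁻¹)⁻¹ := by
    rw [Matrix.nonsing_inv_nonsing_inv _ hu]
    exact hκ.2.2.1
  have hdi : (κ⁻¹).det ≠ 0 := by
    rw [Matrix.det_nonsing_inv, Ring.inverse_eq_inv']
    exact inv_ne_zero hκ.2.1
  rw [stdFn_actL hκ.2.2.2 hκi hdi] at htor
  simpa using htor

/-- **Right invariance** under the pairs `(k, κ)`, from the uniqueness of the family. -/
theorem IsStdFam.right_inv (huniq : LocUniqC) (h : IsStdFam t n ψ μ γ η F)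
    {k κ : Matrix (Fin 2) (Fin 2) (v.adicCompletion K)} (hk : IsIntM k)
    (hκ : κ ∈ torIntL t n) (hdet : k.det = κ.det)
    (g m : Matrix (Fin 2) (Fin 2) (v.adicCompletion K))
    (ξ : v.adicCompletion K × v.adicCompletion K) (hgm : AdmL t n g m) :
    F (g * k) (m * κ) ξ = F g m ξ := by
  have hadm : ∀ {g m : Matrix (Fin 2) (Fin 2) (v.adicCompletion K)}, AdmL t n g m →
      AdmL t n (g * k) (m * κ) := fun hgm => admL_mul hgm hκ.1 hκ.2.1 hdet
  have hax : LocAx (fun x : v.adicCompletion K => ‖x‖) t n ψ μ γ η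
      (fun g m => F (g * k) (m * κ)) :=
    { unip := by
        intro x g m ξ hgm
        show F ((!![1, x; 0, 1] * g) * k) (m * κ) ξ = _
        rw [Matrix.mul_assoc]
        exact h.ax.unip x (g * k) (m * κ) ξ (hadm hgm)
      weyl := by
        intro g m ξ hgm
        show F ((!![0, 1; -1, 0] * g) * k) (m * κ) ξ = _
        rw [Matrix.mul_assoc]
        exact h.ax.weyl (g * k) (m * κ) ξ (hadm hgm)
      diag := by
        intro a ha g m ξ hgm
        show F ((!![a, 0; 0, a⁻¹] * g) * k) (m * κ) ξ = _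
        rw [Matrix.mul_assoc]
        exact h.ax.diag a ha (g * k) (m * κ) ξ (hadm hgm)
      tor := by
        intro μ' hμ' hμ'0 g m ξ hgm
        show _ * F ((!![1, 0; 0, μ'.det] * g) * k) ((μ' * m) * κ) ξ = _
        rw [Matrix.mul_assoc, Matrix.mul_assoc]
        exact h.ax.tor μ' hμ' hμ'0 (g * k) (m * κ) ξ (hadm hgm)
      eta_mul := h.ax.eta_mul
      eta_sq := h.ax.eta_sq
      eta_norm := h.ax.eta_norm
      eta_cont := h.ax.eta_cont
      haar := h.ax.haar
      psi_char := h.ax.psi_char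
      cont := fun g m hgm => h.ax.cont (g * k) (m * κ) (hadm hgm)
      integrable := fun g m hgm => h.ax.integrable (g * k) (m * κ) (hadm hgm) }
  have hpos : ∀ a : v.adicCompletion K, a ≠ 0 → 0 < (fun x : v.adicCompletion K => ‖x‖) a :=
    fun a ha => norm_pos_iff.mpr ha
  have h11 : (fun g m => F (g * k) (m * κ)) 1 1 = F 1 1 := by
    show F (1 * k) (1 * κ) = F 1 1
    rw [Matrix.one_mul, Matrix.one_mul, h.level_fix hk hκ hdet, h.std]
  have := huniq (v.adicCompletion K) (fun x => ‖x‖) t n ψ μ γ η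
    (fun g m => F (g * k) (m * κ)) F hpos hax h.ax h11 g m hgm
  exact congrFun this ξ

end Fam

end Fermat.Agent.LT.A2.H999

end
end
-- ===== PACK-END LT/A2/H999/LGGen.lean

-- ===== PACK-BEGIN LT/A2/H999/EtaSpec.lean
section


/-!
# Row LT, tower A2, leaf A2.03.1.1.08 `WX467.LocGoodOfRepC` (helper999): THE CUT of the inert
# sub-leaf `InertEtaC`

OFF-MAIN.  One frozen Prop, no holes, nothing assumed.

`InertEtaC`: at a good INERT place the quadratic character of a local Weil family with initial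
vector `stdFn v` (`γ = 1`, `μ(𝒪_v) = 1`, `η = 1` on the units) takes the value `-1` at the
uniformisers.

Proof (all from the axioms `LocAx`; `R(g) := F g 1`, `Φ₀ := stdFn v`; `ft_stdFn` in
`LGMeasure.lean` gives `R(w) = Φ₀`):

1. MODULE.  `w t(a) = t(a⁻¹) w` at `ξ = 0`:
   `η(a) |a| (μ(a⁻¹ 𝒪_v))² = η(a⁻¹) |a|⁻¹`, so `μ(b 𝒪_v) = ‖b‖`.
2. GAUSS.  `w n(a) w = t(-a⁻¹) n(-a) w n(-a⁻¹)` at `ξ = 0`, `a = u / c`, `u` a unit, `c` a
   uniformiser:  `∫_{𝒪_v²} ψ(u Q(y) / c) dy = η(c) ‖c‖`.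
3. FUBINI over `u ∈ 𝒪_v`:
   `(1 - ‖c‖) η(c) ‖c‖ + ‖c‖ = (μ × μ) {y ∈ 𝒪_v² | Q(y) ∈ c 𝒪_v}`.
4. INERT: `{y ∈ 𝒪_v² | Q(y) ∈ c 𝒪_v} = (c 𝒪_v)²` (if `y` is primitive and `Q(y) ∈ c 𝒪_v`, then
   `y' = y + c z`, `z = (1, 0)` or `(0, 1)` with `B(y, z)` a unit, has `v(Q(y')) = exp (-1)`),
   of measure `‖c‖²`.  Hence `η(c) = -1`.
-/

set_option autoImplicit false

open IsDedekindDomain NumberField AutomorphicForm MeasureTheory
open scoped MatrixGroups Topology RestrictedProduct

noncomputable section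

namespace Fermat.Agent.LT.A2.H999

open Fermat.Agent.LT.H130 Fermat.Agent.LT.H556 Fermat.Agent.LT.A2 Fermat.Agent.LT.A2.WX467
open Fermat.Agent.LT.H129

/-- The place is INERT for the form `x² + t x y + n y²`, in local terms: the form does not
represent a uniformiser on `𝒪_v²`. -/
def IsInertL {K : Type} [Field K] [NumberField K] (v : HeightOneSpectrum (𝓞 K))
    (t n : v.adicCompletion K) : Prop :=
  ∀ a b : v.adicCompletion K, a ∈ v.adicCompletionIntegers K → b ∈ v.adicCompletionIntegers K →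
    Valued.v (a ^ 2 + t * a * b + n * b ^ 2) ≠ WithZero.exp (-1 : ℤ)

/-- **Sub-leaf INERT-ETA.**  At a good inert place, `η_v(ϖ) = -1`. -/
def InertEtaC : Prop :=
  ∀ (K : Type) [Field K] [NumberField K] (v : HeightOneSpectrum (𝓞 K))
    (t n : v.adicCompletion K) (ψ : v.adicCompletion K → ℂ)
    (μ : @Measure (v.adicCompletion K) (borel (v.adicCompletion K)))
    (η : v.adicCompletion K → ℂ)
    (F : Matrix (Fin 2) (Fin 2) (v.adicCompletion K) →
      Matrix (Fin 2) (Fin 2) (v.adicCompletion K) →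
      v.adicCompletion K × v.adicCompletion K → ℂ),
    IsGoodQ t n → IsStdChar v ψ →
    μ (v.adicCompletionIntegers K : Set (v.adicCompletion K)) = 1 →
    LocAx (fun x => ‖x‖) t n ψ μ 1 η F → F 1 1 = stdFn v →
    (∀ a : v.adicCompletion K, Valued.v a = 1 → η a = 1) →
    IsInertL v t n →
    ∀ c : v.adicCompletion K, Valued.v c = WithZero.exp (-1 : ℤ) → η c = -1

end Fermat.Agent.LT.A2.H999

end
end
-- ===== PACK-END LT/A2/H999/EtaSpec.lean

-- ===== PACK-BEGIN LT/A2/H999/LGFin.lean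
section



/-!
# Row LT, tower A2, leaf A2.03.1.1.08 `WX467.LocGoodOfRepC` (helper999), part 4: certificates

OFF-MAIN.  The certificates `FinAt` and `GoodAt` for product data whose components at a good
place `v` are a standard family (`IsStdFam`) and `Tlev v = T(𝒪_v)`.
-/

set_option autoImplicit false

open IsDedekindDomain NumberField AutomorphicForm MeasureTheory
open scoped MatrixGroups Topology RestrictedProduct

noncomputable section

namespace Fermat.Agent.LT.A2.H999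

open Fermat.Agent.LT.H130 Fermat.Agent.LT.H556 Fermat.Agent.LT.A2 Fermat.Agent.LT.A2.WX467
open Fermat.Agent.LT.H129

variable {K : Type} [Field K] [NumberField K] (v : HeightOneSpectrum (𝓞 K))

attribute [local instance] borelMS999 borelSp999 secCount999 locCpt999

/-! ## `stdFn v` is a Schwartz--Bruhat function -/

theorem isClosed_intSet : IsClosed (intSet v) := Valued.isClosed_valuationSubring _

theorem isLocallyConstant_stdFn : IsLocallyConstant (stdFn v) := by
  rw [IsLocallyConstant.iff_eventually_eq]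
  intro x
  by_cases hx : x.1 ∈ intSet v ∧ x.2 ∈ intSet v
  · have hopen : IsOpen (intSet v ×ˢ intSet v) := (isOpen_intSet v).prod (isOpen_intSet v)
    filter_upwards [hopen.mem_nhds (Set.mem_prod.mpr hx)] with y hy
    rw [stdFn_of_mem hx.1 hx.2, stdFn_of_mem hy.1 hy.2]
  · have hcl : IsClosed (intSet v ×ˢ intSet v) := (isClosed_intSet v).prod (isClosed_intSet v)
    have hx' : x ∈ (intSet v ×ˢ intSet v)ᶜ := fun h => hx (Set.mem_prod.mp h)
    filter_upwards [hcl.isOpen_compl.mem_nhds hx'] with y hy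
    rw [stdFn_of_notMem hx, stdFn_of_notMem (fun h => hy (Set.mem_prod.mpr h))]

theorem hasCompactSupport_stdFn : HasCompactSupport (stdFn v) := by
  refine HasCompactSupport.intro ((isCompact_intSet v).prod (isCompact_intSet v)) ?_
  intro x hx
  exact stdFn_of_notMem (fun h => hx (Set.mem_prod.mpr h))

theorem stdFn_re_im (ξ : v.adicCompletion K × v.adicCompletion K) :
    0 ≤ (stdFn v ξ).re ∧ (stdFn v ξ).im = 0 := by
  by_cases hξ : ξ.1 ∈ intSet v ∧ ξ.2 ∈ intSet v
  · rw [stdFn_of_mem hξ.1 hξ.2]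
    simp
  · rw [stdFn_of_notMem hξ]
    simp

/-! ## The level group -/

theorem idealClosure_subset (𝔫 : Ideal (𝓞 K)) : A0.idealClosure 𝔫 v ⊆ intSet v := by
  unfold A0.idealClosure
  refine closure_minimal ?_ (isClosed_intSet v)
  rintro _ ⟨x, -, rfl⟩
  exact HeightOneSpectrum.coe_mem_adicCompletionIntegers (K := K) v x

variable {v}

theorem isIntM_of_sub_one {k : Matrix (Fin 2) (Fin 2) (v.adicCompletion K)}
    (h : ∀ i j : Fin 2, (k - 1) i j ∈ intSet v) : IsIntM k := by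
  intro i j
  have e : k i j = (k - 1) i j + (1 : Matrix (Fin 2) (Fin 2) (v.adicCompletion K)) i j := by
    simp
  rw [e]
  exact add_mem_intSet v (h i j) (isIntM_one i j)

theorem inLevL_isIntM {𝔫 : Ideal (𝓞 K)} {k : Matrix (Fin 2) (Fin 2) (v.adicCompletion K)}
    (h : InLevL 𝔫 v k) : IsIntM k :=
  isIntM_of_sub_one fun i j => idealClosure_subset v 𝔫 (h.2 i j).1

theorem inLevL_isIntM_inv {𝔫 : Ideal (𝓞 K)} {k : Matrix (Fin 2) (Fin 2) (v.adicCompletion K)}
    (h : InLevL 𝔫 v k) : IsIntM k⁻¹ :=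
  isIntM_of_sub_one fun i j => idealClosure_subset v 𝔫 (h.2 i j).2

theorem inLevL_valued_det {𝔫 : Ideal (𝓞 K)} {k : Matrix (Fin 2) (Fin 2) (v.adicCompletion K)}
    (h : InLevL 𝔫 v k) : Valued.v k.det = 1 :=
  valued_det_eq_one (inLevL_isIntM h) (inLevL_isIntM_inv h) h.1

/-! ## A neighbourhood of `1` in `T(𝒪_v)` -/

/-- The matrices congruent to `1` modulo the maximal ideal. -/
def nearOne (v : HeightOneSpectrum (𝓞 K)) : Set (Matrix (Fin 2) (Fin 2) (v.adicCompletion K)) :=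
  {κ | ∀ i j : Fin 2, Valued.v ((κ - 1) i j) < 1}

theorem nearOne_mem_nhds : nearOne v ∈ 𝓝 (1 : Matrix (Fin 2) (Fin 2) (v.adicCompletion K)) := by
  have hopen : IsOpen (nearOne v) := by
    have e : nearOne v = ⋂ i : Fin 2, ⋂ j : Fin 2,
        (fun κ : Matrix (Fin 2) (Fin 2) (v.adicCompletion K) => (κ - 1) i j) ⁻¹'
          {z : v.adicCompletion K | Valued.v z < 1} := by
      ext κ
      simp [nearOne]
    rw [e]
    refine isOpen_iInter_of_finite fun i => isOpen_iInter_of_finite fun j => ?_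
    refine (Fermat.Agent.LT.H11.LC.isOpen_valued_lt_one_h11 K v).preimage ?_
    exact (continuous_id.sub continuous_const).matrix_elem i j
  refine hopen.mem_nhds ?_
  intro i j
  simp

theorem nearOne_isIntM {κ : Matrix (Fin 2) (Fin 2) (v.adicCompletion K)} (h : κ ∈ nearOne v) :
    IsIntM κ :=
  isIntM_of_sub_one fun i j => (mem_intSet v).mpr (h i j).le

theorem nearOne_valued_det {κ : Matrix (Fin 2) (Fin 2) (v.adicCompletion K)}
    (h : κ ∈ nearOne v) : Valued.v κ.det = 1 := by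
  have h00 : Valued.v (κ 0 0 - 1) < 1 := by simpa using h 0 0
  have h11 : Valued.v (κ 1 1 - 1) < 1 := by simpa using h 1 1
  have h01 : Valued.v (κ 0 1) < 1 := by simpa using h 0 1
  have h10 : Valued.v (κ 1 0) < 1 := by simpa using h 1 0
  have e : κ.det = 1 + ((κ 0 0 - 1) + (κ 1 1 - 1) + (κ 0 0 - 1) * (κ 1 1 - 1) - κ 0 1 * κ 1 0) := by
    rw [Matrix.det_fin_two]
    ring
  rw [e]
  refine Valuation.map_one_add_of_lt _ ?_
  have hmul : ∀ {x y : v.adicCompletion K}, Valued.v x < 1 → Valued.v y < 1 →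
      Valued.v (x * y) < 1 := by
    intro x y hx hy
    rw [map_mul]
    calc Valued.v x * Valued.v y ≤ Valued.v x * 1 := mul_le_mul_right hy.le _
      _ = Valued.v x := mul_one _
      _ < 1 := hx
  refine Valuation.map_sub_lt _ ?_ (hmul h01 h10)
  refine Valuation.map_add_lt _ (Valuation.map_add_lt _ h00 h11) (hmul h00 h11)

/-! ## The torus -/

theorem actL_torMat_one_zero {R : Type} [Field R] (t n a b : R) :
    actL (torMat t n a b) (1, 0) = (a, b) := by
  unfold actL torMat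
  ext <;> simp

theorem isIntM_torMat {t n a b : v.adicCompletion K} (ht : t ∈ intSet v) (hn : n ∈ intSet v)
    (ha : a ∈ intSet v) (hb : b ∈ intSet v) : IsIntM (torMat t n a b) := by
  intro i j
  fin_cases i <;> fin_cases j
  · exact ha
  · exact neg_mem_intSet v (mul_mem_intSet v hn hb)
  · exact hb
  · exact add_mem_intSet v ha (mul_mem_intSet v ht hb)

/-- Inertness in local terms. -/
theorem isInertL_of_isInertAt {t n : K}
    (hq : IsGoodQ (algebraMap K (v.adicCompletion K) t) (algebraMap K (v.adicCompletion K) n))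
    (h : WL.IsInertAt t n v) :
    IsInertL v (algebraMap K (v.adicCompletion K) t) (algebraMap K (v.adicCompletion K) n) := by
  intro a b ha hb hval
  set t' := algebraMap K (v.adicCompletion K) t
  set n' := algebraMap K (v.adicCompletion K) n
  have hdet : (torMat t' n' a b).det = a ^ 2 + t' * a * b + n' * b ^ 2 := det_torMat t' n' a b
  have hdet0 : (torMat t' n' a b).det ≠ 0 := by
    rw [hdet]
    intro h0
    rw [h0, map_zero] at hval
    exact WithZero.exp_ne_zero hval.symm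
  have hfc : A0.finComp v (locFin129 v (Matrix.GeneralLinearGroup.mkOfDetNeZero _ hdet0))
      = torMat t' n' a b := finComp_locFin129 v _
  refine h (locFin129 v (Matrix.GeneralLinearGroup.mkOfDetNeZero _ hdet0)) ?_
    (isLocalAtFin_locFin129 v _) ?_ ?_
  · refine inTorus_of_local v (isLocalAtFin_locFin129 v _) ?_
    rw [hfc]
    exact ⟨a, b, rfl⟩
  · intro i j
    rw [hfc]
    exact isIntM_torMat hq.t_int hq.n_int ha hb i j
  · rw [hfc, hdet]
    exact hval

/-! ## The certificates -/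

section Cert

variable {L : WData K}

/-- **`FinAt`** from a standard family. -/
theorem finAt_of_stdFam (huniq : LocUniqC)
    (hfam : IsStdFam (L.tfin v) (L.nfin v) (L.ψfin v) (L.μfin v) (L.γfin v) (L.ηfin v)
      (L.Ffin v))
    (hsb : ∀ g m : Matrix (Fin 2) (Fin 2) (v.adicCompletion K),
      AdmL (L.tfin v) (L.nfin v) g m →
      IsLocallyConstant (L.Ffin v g m) ∧ HasCompactSupport (L.Ffin v g m))
    (hpsi : ∀ x : A0.Adl K, WL.AdlAtFin v x → L.ψ x = L.ψfin v (x.2 v))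
    (hT : L.Tlev v = torIntL (L.tfin v) (L.nfin v))
    (hga : GoodArith L.t L.n L.χT L.ψ v) : FinAt L v where
  ax := hfam.ax
  psi := hpsi
  sb := hsb
  tlev_tor := by
    intro κ hκ
    rw [hT] at hκ
    exact ⟨hκ.1, hκ.2.1⟩
  tlev_nhds := by
    refine ⟨nearOne v, nearOne_mem_nhds, fun κ hκ hκT => ?_⟩
    rw [hT]
    exact ⟨hκT, ne_zero_of_valued_eq_one (nearOne_valued_det hκ), nearOne_isIntM hκ,
      IsIntM.inv (nearOne_isIntM hκ) (nearOne_valued_det hκ)⟩
  tlev_mul := by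
    intro κ hκ κ' hκ'
    rw [hT] at hκ hκ' ⊢
    exact torIntL_mul hκ hκ'
  tlev_inv := by
    intro κ hκ
    rw [hT] at hκ ⊢
    exact torIntL_inv hκ
  right_inv := by
    intro k κ hk hκ hdet g m ξ hgm
    rw [hT] at hκ
    exact hfam.right_inv huniq (inLevL_isIntM hk) hκ hdet g m ξ hgm
  right_ex := by
    intro k hk
    obtain ⟨κ, hκ, hdet⟩ := exists_torInt_det v
      (show GoodTor L.t L.n L.χT v from ⟨hga.good_int, hga.good_char, hga.good_norm⟩)
      (inLevL_valued_det hk)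
    refine ⟨κ, ?_, hdet⟩
    rw [hT]
    exact hκ
  chi_triv := by
    intro κ hloc hmem
    rw [hT] at hmem
    exact hga.good_char κ (inTorusIntAt_of_local v hloc hmem)
  pos := by
    refine ⟨fun ξ => ?_, ?_⟩
    · rw [hfam.std]
      exact stdFn_re_im v ξ
    · rw [hfam.std, stdFn_of_mem (y := ((1 : v.adicCompletion K), (0 : v.adicCompletion K)))
        (one_mem_intSet v) (zero_mem_intSet v)]
      exact one_ne_zero
  orb := by
    intro κ hκ hdet hne
    rw [hT]
    obtain ⟨a, b, rfl⟩ := hκ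
    have hinv : (torMat (L.tfin v) (L.nfin v) a b)⁻¹
        = torMat (L.tfin v) (L.nfin v) (a + L.tfin v * b) (-b) := by
      rw [torMat_inv, hdet, inv_one, one_mul, one_mul]
    rw [hfam.std, hinv, actL_torMat_one_zero] at hne
    have hmem : a + L.tfin v * b ∈ intSet v ∧ -b ∈ intSet v := by
      by_contra hcon
      exact hne (stdFn_of_notMem hcon)
    have hb : b ∈ intSet v := by
      have := neg_mem_intSet v hmem.2
      rwa [neg_neg] at this
    have ha : a ∈ intSet v := by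
      have := sub_mem_intSet v hmem.1 (mul_mem_intSet v hfam.good.t_int hb)
      rwa [add_sub_cancel_right] at this
    have hint : IsIntM (torMat (L.tfin v) (L.nfin v) a b) :=
      isIntM_torMat hfam.good.t_int hfam.good.n_int ha hb
    have hd1 : Valued.v (torMat (L.tfin v) (L.nfin v) a b).det = 1 := by
      rw [hdet, map_one]
    exact ⟨⟨a, b, rfl⟩, ne_zero_of_valued_eq_one hd1, hint, IsIntM.inv hint hd1⟩

/-- **`GoodAt`** from a standard family. -/
theorem goodAt_of_stdFam (hinert : InertEtaC)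
    (hfam : IsStdFam (L.tfin v) (L.nfin v) (L.ψfin v) (L.μfin v) (L.γfin v) (L.ηfin v)
      (L.Ffin v))
    (hT : L.Tlev v = torIntL (L.tfin v) (L.nfin v))
    (hga : GoodArith L.t L.n L.χT L.ψ v)
    (hη : ∀ a : (A0.Adl K)ˣ, IsIdeleAt v a → L.η a = L.ηfin v ((a : A0.Adl K).2 v)) :
    GoodAt L v where
  good_int := hga.good_int
  good_char := hga.good_char
  good_norm := hga.good_norm
  good_eta := by
    refine ⟨fun a ha => ?_, fun hin a ha => ?_⟩
    · rw [hη a ha.1]
      exact hfam.eta _ ha.2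
    · rw [hη a ha.1]
      have hax := hfam.ax
      rw [hfam.gamma_eq_one] at hax
      exact hinert K v (L.tfin v) (L.nfin v) (L.ψfin v) (L.μfin v) (L.ηfin v) (L.Ffin v)
        hfam.good hfam.char hfam.meas hax hfam.std hfam.eta
        (isInertL_of_isInertAt hfam.good hin) _ ha.2
  good_psi := hga.good_psi
  gamma_one := hfam.gamma_eq_one
  meas_one := hfam.meas
  eta_unram := hfam.eta
  std := hfam.std
  tlev := by
    intro κ
    rw [hT]
    exact Iff.rfl

end Cert

end Fermat.Agent.LT.A2.H999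

end
end
-- ===== PACK-END LT/A2/H999/LGFin.lean

-- ===== PACK-BEGIN LT/A2/H999/LocGoodAsm.lean
section


/-!
# Row LT, tower A2, leaf A2.03.1.1.08 `WX467.LocGoodOfRepC` (helper999), part 5: assembly

OFF-MAIN.  `locGoodOfRepC_of_inertEta999 : InertEtaC → WX467.LocGoodOfRepC`.

The components at a good place `v`: `ψ_v` = the local component of `ψ` (`psiLoc`), the family
`F` of the local Weil representation (`LocRepC`) with initial vector `stdFn v`, its measure
rescaled to `μ_v(𝒪_v) = 1` (and `γ_v` accordingly), `Tlev v = T(𝒪_v)`.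
-/

set_option autoImplicit false

open IsDedekindDomain NumberField AutomorphicForm MeasureTheory
open scoped MatrixGroups Topology RestrictedProduct

noncomputable section

namespace Fermat.Agent.LT.A2.H999

open Fermat.Agent.LT.H130 Fermat.Agent.LT.H556 Fermat.Agent.LT.A2 Fermat.Agent.LT.A2.WX467
open Fermat.Agent.LT.H129

attribute [local instance] borelMS999 borelSp999 secCount999 locCpt999

theorem isGoodQ_of_goodArith {K : Type} [Field K] [NumberField K] {t n : K}
    {χT : A0.G K → ℂ} {ψ : A0.Adl K → ℂ} {v : HeightOneSpectrum (𝓞 K)}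
    (hg : GoodArith t n χT ψ v) :
    IsGoodQ (algebraMap K (v.adicCompletion K) t) (algebraMap K (v.adicCompletion K) n) := by
  refine ⟨(mem_intSet v).mpr hg.good_int.1, (mem_intSet v).mpr hg.good_int.2.1, ?_⟩
  have h := hg.good_int.2.2
  rw [map_sub, map_pow, map_mul, map_ofNat] at h
  exact h

/-- **A2.03.1.1.08**, modulo the inert sub-leaf. -/
theorem locGoodOfRepC_of_inertEta999 (hinert : InertEtaC) : WX467.LocGoodOfRepC := by
  intro hrep huniq K _ _ t n χT ψ v _hT1 _hχ hψ hg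
  have hq := isGoodQ_of_goodArith hg
  have hψv : IsStdChar v (psiLoc v ψ) := isStdChar_psiLoc v hψ hg.good_psi
  have hdisc : t ^ 2 - 4 * n ≠ 0 := by
    intro h0
    have h := hg.good_int.2.2
    rw [h0, map_zero, map_zero] at h
    exact zero_ne_one h
  obtain ⟨μ₀, γ₀, ηv, hF⟩ := hrep K v t n (psiLoc v ψ) hdisc hψv.isCharL
  obtain ⟨F, hax, hsb, hF11⟩ := hF (stdFn v) (isLocallyConstant_stdFn v)
    (hasCompactSupport_stdFn v)
  have hμ₀ : IsHaarL μ₀ := hax.haar
  have hs0 : (μ₀ (intSet v))⁻¹ ≠ 0 := ENNReal.inv_ne_zero.mpr (haar_int_lt_top hμ₀).ne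
  have hs : (μ₀ (intSet v))⁻¹ ≠ ⊤ := ENNReal.inv_ne_top.mpr (haar_int_pos hμ₀).ne'
  have haxv := locAx_rescale hax hs0 hs
  have hμ1 : ((μ₀ (intSet v))⁻¹ • μ₀) (intSet v) = 1 := by
    show (μ₀ (intSet v))⁻¹ * μ₀ (intSet v) = 1
    exact ENNReal.inv_mul_cancel (haar_int_pos hμ₀).ne' (haar_int_lt_top hμ₀).ne
  have hgt : GoodTor t n χT v := ⟨hg.good_int, hg.good_char, hg.good_norm⟩
  have heta : ∀ a : v.adicCompletion K, Valued.v a = 1 → ηv a = 1 := by
    intro a ha
    obtain ⟨κ, hκ, hdet⟩ := exists_torInt_det v hgt ha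
    have := hax.eta_norm κ hκ.1 hκ.2.1
    rw [hdet] at this
    exact this
  have hfam : IsStdFam (algebraMap K (v.adicCompletion K) t)
      (algebraMap K (v.adicCompletion K) n) (psiLoc v ψ) ((μ₀ (intSet v))⁻¹ • μ₀)
      (γ₀ * ((((μ₀ (intSet v))⁻¹.toReal ^ 2 : ℝ) : ℂ))⁻¹) ηv F :=
    ⟨haxv, hF11, hμ1, hψv, hq, heta⟩
  refine ⟨psiLoc v ψ, (μ₀ (intSet v))⁻¹ • μ₀,
    γ₀ * ((((μ₀ (intSet v))⁻¹.toReal ^ 2 : ℝ) : ℂ))⁻¹, ηv, F, torInt v t n, ?_⟩
  intro L' hM hMf _hlev
  obtain ⟨ht, hn, hχ', hψ'⟩ := hM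
  obtain ⟨h1, h2, h3, h4, h5, h6⟩ := hMf
  have hfam' : IsStdFam (L'.tfin v) (L'.nfin v) (L'.ψfin v) (L'.μfin v) (L'.γfin v)
      (L'.ηfin v) (L'.Ffin v) := by
    rw [h1, h2, h3, h4, h5]
    unfold WData.tfin WData.nfin
    rw [ht, hn]
    exact hfam
  have hsb' : ∀ g m : Matrix (Fin 2) (Fin 2) (v.adicCompletion K),
      AdmL (L'.tfin v) (L'.nfin v) g m →
      IsLocallyConstant (L'.Ffin v g m) ∧ HasCompactSupport (L'.Ffin v g m) := by
    rw [h5]
    unfold WData.tfin WData.nfin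
    rw [ht, hn]
    exact hsb
  have hpsi' : ∀ x : A0.Adl K, WL.AdlAtFin v x → L'.ψ x = L'.ψfin v (x.2 v) := by
    intro x hx
    rw [hψ', h1]
    exact psiLoc_eq v ψ hx
  have hT' : L'.Tlev v = torIntL (L'.tfin v) (L'.nfin v) := by
    rw [h6]
    unfold WData.tfin WData.nfin
    rw [ht, hn]
    rfl
  have hga' : GoodArith L'.t L'.n L'.χT L'.ψ v := by
    rw [ht, hn, hχ', hψ']
    exact hg
  refine ⟨finAt_of_stdFam huniq hfam' hsb' hpsi' hT' hga', fun hη => ?_⟩
  refine goodAt_of_stdFam hinert hfam' hT' hga' ?_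
  intro a ha
  rw [hη a ha, h4]

end Fermat.Agent.LT.A2.H999

end
end
-- ===== PACK-END LT/A2/H999/LocGoodAsm.lean

-- ===== PACK-BEGIN LT/A2/H999/LGEta.lean
section


/-!
# Row LT, tower A2, leaf A2.03.1.1.08 `WX467.LocGoodOfRepC` (helper999), part 6: the inert case

OFF-MAIN.  `inertEtaC999 : InertEtaC`: at a good inert place, `η_v(ϖ) = -1`.
Proof: see the header of `EtaSpec.lean`.
-/

set_option autoImplicit false

open IsDedekindDomain NumberField AutomorphicForm MeasureTheory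
open scoped MatrixGroups Topology RestrictedProduct

noncomputable section

namespace Fermat.Agent.LT.A2.H999

open Fermat.Agent.LT.H130 Fermat.Agent.LT.H556 Fermat.Agent.LT.A2 Fermat.Agent.LT.A2.WX467
open Fermat.Agent.LT.H129

variable {K : Type} [Field K] [NumberField K] {v : HeightOneSpectrum (𝓞 K)}

attribute [local instance] borelMS999 borelSp999 secCount999 locCpt999

/-! ## Valuations -/

theorem lt_one_iff_le_exp_neg_one (x : WithZero (Multiplicative ℤ)) :
    x < 1 ↔ x ≤ WithZero.exp (-1 : ℤ) := by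
  by_cases hx : x = 0
  · subst hx
    simp
  · obtain ⟨n, rfl⟩ : ∃ n : ℤ, x = WithZero.exp n := ⟨WithZero.log x, (WithZero.exp_log hx).symm⟩
    rw [← WithZero.exp_zero, WithZero.exp_lt_exp, WithZero.exp_le_exp]
    omega

section Unif

variable {c : v.adicCompletion K}

theorem unif_ne_zero (hc : Valued.v c = WithZero.exp (-1 : ℤ)) : c ≠ 0 := by
  rintro rfl
  rw [map_zero] at hc
  exact WithZero.exp_ne_zero hc.symm

theorem unif_valued_lt_one (hc : Valued.v c = WithZero.exp (-1 : ℤ)) : Valued.v c < 1 := by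
  rw [lt_one_iff_le_exp_neg_one, hc]

/-- `c⁻¹ x ∈ 𝒪_v ↔ v(x) < 1`, for a uniformiser `c`. -/
theorem inv_unif_mul_mem_iff (hc : Valued.v c = WithZero.exp (-1 : ℤ)) (x : v.adicCompletion K) :
    c⁻¹ * x ∈ intSet v ↔ Valued.v x < 1 := by
  have hc0 : Valued.v c ≠ 0 := (Valuation.ne_zero_iff _).mpr (unif_ne_zero hc)
  rw [mem_intSet, map_mul, map_inv₀, inv_mul_le_iff₀ (zero_lt_iff.mpr hc0), mul_one, hc,
    lt_one_iff_le_exp_neg_one]

theorem div_unif_mem_iff (hc : Valued.v c = WithZero.exp (-1 : ℤ)) (x : v.adicCompletion K) :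
    x / c ∈ intSet v ↔ Valued.v x < 1 := by
  rw [div_eq_inv_mul]
  exact inv_unif_mul_mem_iff hc x

theorem valued_lt_exp_neg_one_of_mul {x y : v.adicCompletion K} (hx : Valued.v x < 1)
    (hy : Valued.v y < 1) : Valued.v (x * y) < WithZero.exp (-1 : ℤ) := by
  rw [map_mul]
  have hx' := (lt_one_iff_le_exp_neg_one _).mp hx
  by_cases hy0 : Valued.v y = 0
  · rw [hy0, mul_zero]
    exact WithZero.exp_pos
  · calc Valued.v x * Valued.v y ≤ WithZero.exp (-1 : ℤ) * Valued.v y :=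
          mul_le_mul_left hx' _
      _ < WithZero.exp (-1 : ℤ) * 1 := by
          exact (mul_lt_mul_iff_right₀ WithZero.exp_pos).mpr hy
      _ = WithZero.exp (-1 : ℤ) := mul_one _

end Unif

/-! ## Anisotropy -/

section Aniso

variable {t n : v.adicCompletion K}

theorem IsGoodQ.lt_one_of_grad_lt_one (hq : IsGoodQ t n)
    {ξ : v.adicCompletion K × v.adicCompletion K}
    (h1 : Valued.v (2 * ξ.1 + t * ξ.2) < 1) (h2 : Valued.v (t * ξ.1 + 2 * n * ξ.2) < 1) :
    Valued.v ξ.1 < 1 ∧ Valued.v ξ.2 < 1 := by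
  have hmul : ∀ {a x : v.adicCompletion K}, a ∈ intSet v → Valued.v x < 1 →
      Valued.v (a * x) < 1 := by
    intro a x ha hx
    rw [map_mul]
    calc Valued.v a * Valued.v x ≤ 1 * Valued.v x := mul_le_mul_left ((mem_intSet v).mp ha) _
      _ = Valued.v x := one_mul _
      _ < 1 := hx
  have h2n : (2 * n : v.adicCompletion K) ∈ intSet v := mul_mem_intSet v two_mem_intSet hq.n_int
  constructor
  · have e : (t ^ 2 - 4 * n) * ξ.1
        = t * (t * ξ.1 + 2 * n * ξ.2) - 2 * n * (2 * ξ.1 + t * ξ.2) := by ring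
    have h := Valuation.map_sub_lt _ (hmul hq.t_int h2) (hmul h2n h1)
    rw [← e, map_mul, hq.disc, one_mul] at h
    exact h
  · have e : (t ^ 2 - 4 * n) * ξ.2
        = t * (2 * ξ.1 + t * ξ.2) - 2 * (t * ξ.1 + 2 * n * ξ.2) := by ring
    have h := Valuation.map_sub_lt _ (hmul hq.t_int h1) (hmul two_mem_intSet h2)
    rw [← e, map_mul, hq.disc, one_mul] at h
    exact h

/-- **Anisotropy** at an inert place: for `y ∈ 𝒪_v²`, `Q(y) ∈ 𝔪` iff `y ∈ 𝔪²`. -/
theorem IsInertL.qfL_lt_one_iff (hin : IsInertL v t n) (hq : IsGoodQ t n)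
    {c : v.adicCompletion K} (hc : Valued.v c = WithZero.exp (-1 : ℤ))
    {y : v.adicCompletion K × v.adicCompletion K} (hy1 : y.1 ∈ intSet v) (hy2 : y.2 ∈ intSet v) :
    Valued.v (qfL t n y) < 1 ↔ (Valued.v y.1 < 1 ∧ Valued.v y.2 < 1) := by
  have hmul : ∀ {a x : v.adicCompletion K}, a ∈ intSet v → Valued.v x < 1 →
      Valued.v (a * x) < 1 := by
    intro a x ha hx
    rw [map_mul]
    calc Valued.v a * Valued.v x ≤ 1 * Valued.v x := mul_le_mul_left ((mem_intSet v).mp ha) _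
      _ = Valued.v x := one_mul _
      _ < 1 := hx
  constructor
  · intro hQ
    by_contra hcon
    have hQ' : Valued.v (qfL t n y) < WithZero.exp (-1 : ℤ) := by
      have h1 := (lt_one_iff_le_exp_neg_one _).mp hQ
      exact lt_of_le_of_ne h1 (hin y.1 y.2 hy1 hy2)
    have hcc : Valued.v (c * c) < WithZero.exp (-1 : ℤ) :=
      valued_lt_exp_neg_one_of_mul (unif_valued_lt_one hc) (unif_valued_lt_one hc)
    obtain ⟨g1, g2⟩ := hq.grad_mem hy1 hy2
    have hgrad : Valued.v (2 * y.1 + t * y.2) = 1 ∨ Valued.v (t * y.1 + 2 * n * y.2) = 1 := by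
      by_contra hno
      rw [not_or] at hno
      exact hcon (hq.lt_one_of_grad_lt_one
        (lt_of_le_of_ne ((mem_intSet v).mp g1) hno.1)
        (lt_of_le_of_ne ((mem_intSet v).mp g2) hno.2))
    have hcint : c ∈ intSet v := (mem_intSet v).mpr (unif_valued_lt_one hc).le
    rcases hgrad with hg | hg
    · refine hin (y.1 + c) y.2 (add_mem_intSet v hy1 hcint) hy2 ?_
      have e : (y.1 + c) ^ 2 + t * (y.1 + c) * y.2 + n * y.2 ^ 2
          = c * (2 * y.1 + t * y.2) + (qfL t n y + c * c) := by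
        unfold qfL
        ring
      rw [e]
      have h1 : Valued.v (c * (2 * y.1 + t * y.2)) = WithZero.exp (-1 : ℤ) := by
        rw [map_mul, hg, mul_one, hc]
      have h2 : Valued.v (qfL t n y + c * c) < Valued.v (c * (2 * y.1 + t * y.2)) := by
        rw [h1]
        exact Valuation.map_add_lt _ hQ' hcc
      rw [Valuation.map_add_eq_of_lt_left _ h2, h1]
    · refine hin y.1 (y.2 + c) hy1 (add_mem_intSet v hy2 hcint) ?_
      have e : y.1 ^ 2 + t * y.1 * (y.2 + c) + n * (y.2 + c) ^ 2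
          = c * (t * y.1 + 2 * n * y.2) + (qfL t n y + n * (c * c)) := by
        unfold qfL
        ring
      rw [e]
      have h1 : Valued.v (c * (t * y.1 + 2 * n * y.2)) = WithZero.exp (-1 : ℤ) := by
        rw [map_mul, hg, mul_one, hc]
      have hncc : Valued.v (n * (c * c)) < WithZero.exp (-1 : ℤ) := by
        rw [map_mul]
        calc Valued.v n * Valued.v (c * c) ≤ 1 * Valued.v (c * c) :=
              mul_le_mul_left ((mem_intSet v).mp hq.n_int) _
          _ = Valued.v (c * c) := one_mul _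
          _ < WithZero.exp (-1 : ℤ) := hcc
      have h2 : Valued.v (qfL t n y + n * (c * c))
          < Valued.v (c * (t * y.1 + 2 * n * y.2)) := by
        rw [h1]
        exact Valuation.map_add_lt _ hQ' hncc
      rw [Valuation.map_add_eq_of_lt_left _ h2, h1]
  · rintro ⟨h1, h2⟩
    unfold qfL
    refine Valuation.map_add_lt _ (Valuation.map_add_lt _ ?_ ?_) ?_
    · rw [pow_two]
      exact hmul hy1 h1
    · exact hmul (mul_mem_intSet v hq.t_int hy1) h2
    · rw [pow_two]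
      exact hmul hq.n_int (hmul hy2 h2)

end Aniso

/-! ## Matrix identities -/

section Ident2

variable {R : Type} [Field R]

theorem weyl_diag_eq (a : R) :
    (!![0, 1; -1, 0] : Matrix (Fin 2) (Fin 2) R) * !![a, 0; 0, a⁻¹]
      = !![a⁻¹, 0; 0, a⁻¹⁻¹] * !![0, 1; -1, 0] := by
  ext i j
  fin_cases i <;> fin_cases j <;> simp

theorem weyl_unip_weyl_eq (a : R) (ha : a ≠ 0) :
    (!![0, 1; -1, 0] : Matrix (Fin 2) (Fin 2) R) * (!![1, a; 0, 1] * !![0, 1; -1, 0])
      = !![-a⁻¹, 0; 0, (-a⁻¹)⁻¹] * (!![1, -a; 0, 1]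
          * (!![0, 1; -1, 0] * !![1, -a⁻¹; 0, 1])) := by
  ext i j
  fin_cases i <;> fin_cases j <;> simp [ha]

end Ident2

/-! ## The Weil representation at `ξ = 0` -/

section Weil

variable {t n : v.adicCompletion K} {ψ : v.adicCompletion K → ℂ}
  {μ : Measure (v.adicCompletion K)} {η : v.adicCompletion K → ℂ}
  {F : Matrix (Fin 2) (Fin 2) (v.adicCompletion K) →
      Matrix (Fin 2) (Fin 2) (v.adicCompletion K) →
      v.adicCompletion K × v.adicCompletion K → ℂ}

theorem bfL_zero_left (t n : v.adicCompletion K) (y : v.adicCompletion K × v.adicCompletion K) :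
    bfL t n 0 y = 0 := by
  rw [bfL_eq]
  simp

theorem qfL_zero (t n : v.adicCompletion K) : qfL t n 0 = 0 := by
  unfold qfL
  simp

theorem IsStdFam.eta_one (h : IsStdFam t n ψ μ 1 η F) : η 1 = 1 := h.eta 1 (map_one _)

theorem IsStdFam.eta_ne_zero (h : IsStdFam t n ψ μ 1 η F) {a : v.adicCompletion K}
    (ha : a ≠ 0) : η a ≠ 0 := by
  rcases h.ax.eta_sq a ha with h1 | h1 <;> rw [h1] <;> norm_num

theorem IsStdFam.eta_inv (h : IsStdFam t n ψ μ 1 η F) {a : v.adicCompletion K} (ha : a ≠ 0) :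
    η a⁻¹ = η a := by
  have h1 : η a * η a⁻¹ = 1 := by
    rw [← h.ax.eta_mul a a⁻¹ ha (inv_ne_zero ha), mul_inv_cancel₀ ha, h.eta_one]
  rcases h.ax.eta_sq a ha with h2 | h2
  · rw [h2, one_mul] at h1
    rw [h1, h2]
  · rw [h2] at h1
    rw [h2]
    linear_combination -h1

/-- The value at `w`. -/
theorem IsStdFam.weyl_mem (h : IsStdFam t n ψ μ 1 η F) :
    (!![0, 1; -1, 0] : Matrix (Fin 2) (Fin 2) (v.adicCompletion K)) ∈ fixSet F 1 := by
  have := h.fix_weyl' h.one_mem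
  rw [Matrix.mul_one] at this
  exact this

/-- The value at `n(x)`, `x ∈ 𝒪_v`. -/
theorem IsStdFam.unip_mem (h : IsStdFam t n ψ μ 1 η F) {x : v.adicCompletion K}
    (hx : x ∈ intSet v) :
    (!![1, x; 0, 1] : Matrix (Fin 2) (Fin 2) (v.adicCompletion K)) ∈ fixSet F 1 := by
  have := h.fix_unip h.one_mem hx
  rw [Matrix.mul_one] at this
  exact this

/-- The formula for `t(a)`. -/
theorem IsStdFam.diag_apply (h : IsStdFam t n ψ μ 1 η F) {a : v.adicCompletion K} (ha : a ≠ 0)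
    (y : v.adicCompletion K × v.adicCompletion K) :
    F !![a, 0; 0, a⁻¹] 1 y = η a * ((‖a‖ : ℝ) : ℂ) * stdFn v (a • y) := by
  have := h.ax.diag a ha 1 1 y (admL_of_det_one t n Matrix.det_one)
  rw [Matrix.mul_one, h.std] at this
  exact this

/-- **The module**: `∫ stdFn(a y) dy = ‖a‖⁻²`. -/
theorem IsStdFam.module (h : IsStdFam t n ψ μ 1 η F) {a : v.adicCompletion K} (ha : a ≠ 0) :
    intL μ (fun y => stdFn v (a • y)) = (((‖a‖ ^ 2)⁻¹ : ℝ) : ℂ) := by
  have hL := h.ax.weyl !![a, 0; 0, a⁻¹] 1 0 (admL_of_det_one t n (det_diagM a ha))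
  have e1 : (fun y => F !![a, 0; 0, a⁻¹] 1 y * ψ (bfL t n 0 y))
      = fun y => (η a * ((‖a‖ : ℝ) : ℂ)) * stdFn v (a • y) := by
    funext y
    rw [h.diag_apply ha, bfL_zero_left, h.char.zero, mul_one]
  have e2 : intL μ (fun y => (η a * ((‖a‖ : ℝ) : ℂ)) * stdFn v (a • y))
      = (η a * ((‖a‖ : ℝ) : ℂ)) * intL μ (fun y => stdFn v (a • y)) := by
    unfold intL
    exact integral_const_mul _ _
  rw [e1, e2, one_mul, weyl_diag_eq a] at hL
  have hR := h.ax.diag a⁻¹ (inv_ne_zero ha) _ 1 0 (admL_of_det_one t n h.weyl_mem.1)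
  rw [h.weyl_mem.2, smul_zero, stdFn_zero, one_mul, mul_one, h.eta_inv ha, norm_inv] at hR
  rw [hR] at hL
  have hη := h.eta_ne_zero ha
  have hn : ((‖a‖ : ℝ) : ℂ) ≠ 0 := by
    exact_mod_cast (norm_pos_iff.mpr ha).ne'
  have h4 : η a * (intL μ (fun y => stdFn v (a • y)) * ((‖a‖ : ℝ) : ℂ) ^ 2) = η a * 1 := by
    have h3 : η a * ((‖a‖ : ℝ) : ℂ) * intL μ (fun y => stdFn v (a • y)) * ((‖a‖ : ℝ) : ℂ)
        = η a := by
      rw [← hL]
      push_cast
      field_simp
    rw [mul_one]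
    linear_combination h3
  have h5 := mul_left_cancel₀ hη h4
  push_cast
  field_simp
  exact h5

/-- **The Gauss integral** at `u / c`, `u` a unit, `c` a uniformiser. -/
theorem IsStdFam.gauss_unit (h : IsStdFam t n ψ μ 1 η F) {c u : v.adicCompletion K}
    (hc : Valued.v c = WithZero.exp (-1 : ℤ)) (hu : Valued.v u = 1) :
    intL μ (fun y => stdFn v y * ψ ((u / c) * qfL t n y)) = η c * ((‖c‖ : ℝ) : ℂ) := by
  have hc0 := unif_ne_zero hc
  have hu0 := ne_zero_of_valued_eq_one hu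
  have ha : u / c ≠ 0 := div_ne_zero hu0 hc0
  have hainv : -(u / c)⁻¹ = c * (-u⁻¹) := by
    field_simp
  have hui : Valued.v (-u⁻¹) = 1 := by
    rw [Valuation.map_neg]
    exact valued_inv_eq_one hu
  have hmem : -(u / c)⁻¹ ∈ intSet v := by
    rw [hainv]
    exact mul_mem_intSet v ((mem_intSet v).mpr (unif_valued_lt_one hc).le)
      (mem_intSet_of_valued_eq_one hui)
  have hdet1 : ((!![1, u / c; 0, 1] : Matrix (Fin 2) (Fin 2) (v.adicCompletion K))
      * !![0, 1; -1, 0]).det = 1 := by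
    rw [Matrix.det_mul, det_unipM, det_weylM, one_mul]
  have hL := h.ax.weyl _ 1 0 (admL_of_det_one t n hdet1)
  have e1 : (fun y => F (!![1, u / c; 0, 1] * !![0, 1; -1, 0]) 1 y * ψ (bfL t n 0 y))
      = fun y => stdFn v y * ψ ((u / c) * qfL t n y) := by
    funext y
    rw [h.ax.unip (u / c) _ 1 y (admL_of_det_one t n h.weyl_mem.1), h.weyl_mem.2,
      bfL_zero_left, h.char.zero, mul_one, one_mul, mul_comm]
  rw [e1, one_mul, weyl_unip_weyl_eq _ ha] at hL
  have hfix := h.fix_weyl' (h.unip_mem hmem)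
  have hdet2 : ((!![1, -(u / c); 0, 1] : Matrix (Fin 2) (Fin 2) (v.adicCompletion K))
      * (!![0, 1; -1, 0] * !![1, -(u / c)⁻¹; 0, 1])).det = 1 := by
    rw [Matrix.det_mul, det_unipM, hfix.1, one_mul]
  have hR1 := h.ax.diag (-(u / c)⁻¹) (neg_ne_zero.mpr (inv_ne_zero ha)) _ 1 0
    (admL_of_det_one t n hdet2)
  have hR2 := h.ax.unip (-(u / c)) _ 1 0 (admL_of_det_one t n hfix.1)
  rw [smul_zero, hR2, hfix.2, qfL_zero, mul_zero, h.char.zero, stdFn_zero, one_mul, mul_one,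
    mul_one] at hR1
  rw [hR1] at hL
  rw [← hL, hainv, h.ax.eta_mul c (-u⁻¹) hc0 (ne_zero_of_valued_eq_one hui), h.eta _ hui,
    mul_one, norm_mul, norm_eq_one_of_valued hui, mul_one]

/-- The Gauss integral at an integer. -/
theorem IsStdFam.gauss_int (h : IsStdFam t n ψ μ 1 η F) {a : v.adicCompletion K}
    (ha : a ∈ intSet v) :
    intL μ (fun y => stdFn v y * ψ (a * qfL t n y)) = 1 := by
  have e : (fun y => stdFn v y * ψ (a * qfL t n y))
      = fun y => stdFn v y * ψ (bfL t n 0 y) := by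
    funext y
    rw [bfL_zero_left, h.char.zero]
    by_cases hy : y.1 ∈ intSet v ∧ y.2 ∈ intSet v
    · rw [h.char.int _ (mul_mem_intSet v ha (h.good.qfL_mem hy.1 hy.2))]
    · rw [stdFn_of_notMem hy, zero_mul, zero_mul]
  rw [e, ft_stdFn h.ax.haar h.meas h.char h.good 0, stdFn_zero]

/-! ## The maximal ideal -/

/-- The maximal ideal of `𝒪_v`, as a set. -/
def maxSet (v : HeightOneSpectrum (𝓞 K)) : Set (v.adicCompletion K) :=
  {z : v.adicCompletion K | Valued.v z < 1}

theorem isOpen_maxSet : IsOpen (maxSet v) := Fermat.Agent.LT.H11.LC.isOpen_valued_lt_one_h11 K v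

theorem measurableSet_maxSet : MeasurableSet (maxSet v) := isOpen_maxSet.measurableSet

theorem maxSet_subset : maxSet v ⊆ intSet v := fun _ hz => (mem_intSet v).mpr (le_of_lt hz)

theorem stdFn_inv_unif_smul {c : v.adicCompletion K} (hc : Valued.v c = WithZero.exp (-1 : ℤ))
    (y : v.adicCompletion K × v.adicCompletion K) :
    stdFn v (c⁻¹ • y)
      = (maxSet v).indicator (fun _ => (1 : ℂ)) y.1 * (maxSet v).indicator (fun _ => (1 : ℂ)) y.2 := by
  have e1 : (c⁻¹ • y).1 = c⁻¹ * y.1 := rfl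
  have e2 : (c⁻¹ • y).2 = c⁻¹ * y.2 := rfl
  by_cases h1 : y.1 ∈ maxSet v
  · by_cases h2 : y.2 ∈ maxSet v
    · rw [Set.indicator_of_mem h1, Set.indicator_of_mem h2, mul_one]
      refine stdFn_of_mem ?_ ?_
      · rw [e1]; exact (inv_unif_mul_mem_iff hc _).mpr h1
      · rw [e2]; exact (inv_unif_mul_mem_iff hc _).mpr h2
    · rw [Set.indicator_of_notMem h2, mul_zero]
      refine stdFn_of_notMem ?_
      rintro ⟨-, h⟩
      rw [e2] at h
      exact h2 ((inv_unif_mul_mem_iff hc _).mp h)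
  · rw [Set.indicator_of_notMem h1, zero_mul]
    refine stdFn_of_notMem ?_
    rintro ⟨h, -⟩
    rw [e1] at h
    exact h1 ((inv_unif_mul_mem_iff hc _).mp h)

theorem integral_indicator_maxSet (μ : Measure (v.adicCompletion K)) :
    ∫ y, (maxSet v).indicator (fun _ => (1 : ℂ)) y ∂μ = (((μ (maxSet v)).toReal : ℝ) : ℂ) := by
  rw [integral_indicator measurableSet_maxSet, setIntegral_const]
  simp [Measure.real]

/-- **The measure of the maximal ideal** is `‖c‖`. -/
theorem IsStdFam.measure_maxSet (h : IsStdFam t n ψ μ 1 η F) {c : v.adicCompletion K}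
    (hc : Valued.v c = WithZero.exp (-1 : ℤ)) : (μ (maxSet v)).toReal = ‖c‖ := by
  have := haar_sigmaFinite h.ax.haar
  have hc0 := unif_ne_zero hc
  have h1 := h.module (inv_ne_zero hc0)
  have e : (fun y : v.adicCompletion K × v.adicCompletion K => stdFn v (c⁻¹ • y))
      = fun y => (maxSet v).indicator (fun _ => (1 : ℂ)) y.1
          * (maxSet v).indicator (fun _ => (1 : ℂ)) y.2 := by
    funext y
    exact stdFn_inv_unif_smul hc y
  have h2 : intL μ (fun y => stdFn v (c⁻¹ • y))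
      = (((μ (maxSet v)).toReal : ℝ) : ℂ) * (((μ (maxSet v)).toReal : ℝ) : ℂ) := by
    rw [e]
    unfold intL
    rw [integral_prod_mul, integral_indicator_maxSet]
  rw [h2, norm_inv, inv_pow, inv_inv] at h1
  have h3 : (μ (maxSet v)).toReal * (μ (maxSet v)).toReal = ‖c‖ ^ 2 := by
    exact_mod_cast h1
  have h4 : (μ (maxSet v)).toReal ^ 2 = ‖c‖ ^ 2 := by rw [pow_two]; exact h3
  exact (pow_left_inj₀ ENNReal.toReal_nonneg (norm_nonneg c) two_ne_zero).mp h4

/-! ## Fubini -/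

/-- The inner integral over `u ∈ 𝒪_v`, at an inert place. -/
theorem IsStdFam.inner_int (h : IsStdFam t n ψ μ 1 η F) (hin : IsInertL v t n)
    {c : v.adicCompletion K} (hc : Valued.v c = WithZero.exp (-1 : ℤ))
    {y : v.adicCompletion K × v.adicCompletion K} (hy1 : y.1 ∈ intSet v) (hy2 : y.2 ∈ intSet v) :
    ∫ u in intSet v, ψ ((u / c) * qfL t n y) ∂μ = stdFn v (c⁻¹ • y) := by
  have e : (fun u : v.adicCompletion K => ψ ((u / c) * qfL t n y))
      = fun u => ψ ((qfL t n y / c) * u) := by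
    funext u
    congr 1
    ring
  rw [e]
  have e1 : (c⁻¹ • y).1 = c⁻¹ * y.1 := rfl
  have e2 : (c⁻¹ • y).2 = c⁻¹ * y.2 := rfl
  by_cases hQ : qfL t n y / c ∈ intSet v
  · rw [setIntegral_char_of_mem h.char hQ, h.meas]
    have := (hin.qfL_lt_one_iff h.good hc hy1 hy2).mp ((div_unif_mem_iff hc _).mp hQ)
    rw [stdFn_of_mem]
    · simp
    · rw [e1]; exact (inv_unif_mul_mem_iff hc _).mpr this.1
    · rw [e2]; exact (inv_unif_mul_mem_iff hc _).mpr this.2
  · rw [setIntegral_char_of_notMem h.ax.haar h.char hQ]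
    symm
    refine stdFn_of_notMem ?_
    rintro ⟨h1, h2⟩
    rw [e1] at h1
    rw [e2] at h2
    apply hQ
    rw [div_unif_mem_iff hc]
    exact (hin.qfL_lt_one_iff h.good hc hy1 hy2).mpr
      ⟨(inv_unif_mul_mem_iff hc _).mp h1, (inv_unif_mul_mem_iff hc _).mp h2⟩

theorem stdFn_mul_stdFn_inv_unif {c : v.adicCompletion K}
    (hc : Valued.v c = WithZero.exp (-1 : ℤ)) (y : v.adicCompletion K × v.adicCompletion K) :
    stdFn v y * stdFn v (c⁻¹ • y) = stdFn v (c⁻¹ • y) := by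
  by_cases hy : y.1 ∈ intSet v ∧ y.2 ∈ intSet v
  · rw [stdFn_of_mem hy.1 hy.2, one_mul]
  · rw [stdFn_of_notMem hy, zero_mul]
    symm
    refine stdFn_of_notMem ?_
    rintro ⟨h1, h2⟩
    have e1 : (c⁻¹ • y).1 = c⁻¹ * y.1 := rfl
    have e2 : (c⁻¹ • y).2 = c⁻¹ * y.2 := rfl
    rw [e1] at h1
    rw [e2] at h2
    exact hy ⟨maxSet_subset ((inv_unif_mul_mem_iff hc _).mp h1),
      maxSet_subset ((inv_unif_mul_mem_iff hc _).mp h2)⟩

/-- **At a good inert place `η(ϖ) = -1`.** -/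
theorem IsStdFam.eta_unif (h : IsStdFam t n ψ μ 1 η F) (hin : IsInertL v t n)
    {c : v.adicCompletion K} (hc : Valued.v c = WithZero.exp (-1 : ℤ)) : η c = -1 := by
  have hμ : IsHaarL μ := h.ax.haar
  have hsf := haar_sigmaFinite hμ
  have hc0 := unif_ne_zero hc
  have hfin : IsFiniteMeasure (μ.restrict (intSet v)) :=
    ⟨by rw [Measure.restrict_apply_univ]; exact haar_int_lt_top hμ⟩
  have hcont : Continuous (Function.uncurry
      (fun (u : v.adicCompletion K) (y : v.adicCompletion K × v.adicCompletion K) =>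
        ψ ((u / c) * qfL t n y))) := by
    refine h.char.cont.comp ?_
    unfold qfL
    fun_prop
  have hint : Integrable (Function.uncurry
      (fun (u : v.adicCompletion K) (y : v.adicCompletion K × v.adicCompletion K) =>
        ψ ((u / c) * qfL t n y)))
      ((μ.restrict (intSet v)).prod ((μ.restrict (intSet v)).prod (μ.restrict (intSet v)))) := by
    refine Integrable.of_bound hcont.aestronglyMeasurable 1
      (Filter.Eventually.of_forall fun x => ?_)
    simp only [Function.uncurry]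
    rw [h.char.norm]
  have hswap := integral_integral_swap hint
  -- the left hand side
  have hL : ∫ u in intSet v, (∫ y, ψ ((u / c) * qfL t n y)
      ∂((μ.restrict (intSet v)).prod (μ.restrict (intSet v)))) ∂μ
      = η c * ((‖c‖ : ℝ) : ℂ) + (1 - η c * ((‖c‖ : ℝ) : ℂ)) * ((‖c‖ : ℝ) : ℂ) := by
    have e : ∀ u ∈ intSet v, (∫ y, ψ ((u / c) * qfL t n y)
        ∂((μ.restrict (intSet v)).prod (μ.restrict (intSet v))))
        = η c * ((‖c‖ : ℝ) : ℂ)
          + (1 - η c * ((‖c‖ : ℝ) : ℂ)) * (maxSet v).indicator (fun _ => (1 : ℂ)) u := by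
      intro u hu
      rw [← intL_std_mul hμ]
      by_cases hu1 : u ∈ maxSet v
      · rw [Set.indicator_of_mem hu1, h.gauss_int ((div_unif_mem_iff hc u).mpr hu1)]
        ring
      · rw [Set.indicator_of_notMem hu1,
          h.gauss_unit hc (le_antisymm ((mem_intSet v).mp hu) (not_lt.mp hu1))]
        ring
    rw [setIntegral_congr_fun (measurableSet_intSet v) e]
    have hi1 : Integrable (fun _ : v.adicCompletion K => η c * ((‖c‖ : ℝ) : ℂ))
        (μ.restrict (intSet v)) := integrable_const _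
    have hi2 : Integrable (fun u : v.adicCompletion K => (1 - η c * ((‖c‖ : ℝ) : ℂ))
        * (maxSet v).indicator (fun _ => (1 : ℂ)) u) (μ.restrict (intSet v)) :=
      ((integrable_const (1 : ℂ)).indicator measurableSet_maxSet).const_mul _
    rw [integral_add hi1 hi2, integral_const, integral_const_mul,
      setIntegral_indicator measurableSet_maxSet, Set.inter_eq_right.mpr maxSet_subset,
      setIntegral_const]
    simp only [Measure.real, Measure.restrict_apply_univ, h.meas, h.measure_maxSet hc]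
    rw [ENNReal.toReal_one, one_smul, Complex.real_smul, mul_one]
  -- the right hand side
  have hR : ∫ y, (∫ u in intSet v, ψ ((u / c) * qfL t n y) ∂μ)
      ∂((μ.restrict (intSet v)).prod (μ.restrict (intSet v)))
      = (((‖c‖ ^ 2 : ℝ)) : ℂ) := by
    rw [Measure.prod_restrict]
    have e : ∀ y ∈ intSet v ×ˢ intSet v, (∫ u in intSet v, ψ ((u / c) * qfL t n y) ∂μ)
        = stdFn v (c⁻¹ • y) := fun y hy => h.inner_int hin hc hy.1 hy.2
    rw [setIntegral_congr_fun ((measurableSet_intSet v).prod (measurableSet_intSet v)) e]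
    rw [← Measure.prod_restrict, ← intL_std_mul hμ]
    have e2 : (fun y => stdFn v y * stdFn v (c⁻¹ • y)) = fun y => stdFn v (c⁻¹ • y) := by
      funext y
      exact stdFn_mul_stdFn_inv_unif hc y
    rw [e2, h.module (inv_ne_zero hc0), norm_inv, inv_pow, inv_inv]
  rw [hL, hR] at hswap
  have hn0 : (0 : ℝ) < ‖c‖ := norm_pos_iff.mpr hc0
  have hn1 : ‖c‖ < 1 := Valued.toNormedField.norm_lt_one_iff.mpr (unif_valued_lt_one hc)
  have hne : (((‖c‖ * (1 - ‖c‖) : ℝ)) : ℂ) ≠ 0 := by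
    have : ‖c‖ * (1 - ‖c‖) ≠ 0 := mul_ne_zero hn0.ne' (sub_pos.mpr hn1).ne'
    exact_mod_cast this
  have hfinal : (η c + 1) * (((‖c‖ * (1 - ‖c‖) : ℝ)) : ℂ) = 0 := by
    push_cast
    push_cast at hswap
    linear_combination hswap
  rcases mul_eq_zero.mp hfinal with h1 | h1
  · exact eq_neg_of_add_eq_zero_left h1
  · exact absurd h1 hne

end Weil

/-- **The inert sub-leaf.** -/
theorem inertEtaC999 : InertEtaC := by
  intro K _ _ v t n ψ μ η F hq hψ hμ1 hax hstd hη hin c hc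
  exact IsStdFam.eta_unif ⟨hax, hstd, hμ1, hψ, hq, hη⟩ hin hc

end Fermat.Agent.LT.A2.H999

end
end
-- ===== PACK-END LT/A2/H999/LGEta.lean

-- ===== PACK-BEGIN LT/CFT/H49/HasseChase.lean
section





/-!
# Row LT, tower CFT, leaf CFT.12 (helper49), OFF-MAIN: the chase

`0 → Lˣ → J_S(L) × Div^S(L) → C_S(L) → 0`, `G = ⟨g⟩` finite cyclic, `H¹(G, C_S(L)) = 0`:
if `diag x = N_G j` for some `j ∈ J_S × Div^S` then `x = N_G ℓ` for some `ℓ ∈ Lˣ`.
-/

set_option autoImplicit false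

open IsDedekindDomain NumberField CategoryTheory groupCohomology
open Fermat.Agent.S55.G Fermat.Agent.S55.Herbrand

noncomputable section

namespace Fermat.Agent.LT.CFT.H49

variable (S : Finset Nat.Primes) (G L : Type) [Group G] [Fintype G] [Field L] [NumberField L]
  [MulSemiringAction G L]

/-- `diag : Lˣ → J_S × Div^S` is injective for `S ≠ ∅`. -/
theorem diagHom_injective49 (hS : S.Nonempty) : Function.Injective (diagHom S L) := by
  intro a b hab
  have h1 : unitsDiag S L a = unitsDiag S L b := congrArg Prod.fst hab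
  have h2 : asDiag S L ((a.toMul : Lˣ) : L) = asDiag S L ((b.toMul : Lˣ) : L) := by
    rw [← coe_unitsDiag_apply, ← coe_unitsDiag_apply, h1]
  have h3 := Fermat.Agent.S55.H963.Br.asDiag_injective hS h2
  exact Additive.toMul.injective (Units.ext h3)

/-- The norm of `(g - 1) j'` vanishes. -/
theorem sum_jdRepr_sub49 (g : G) (j' : JD S L) :
    ∑ h : G, jdRepr S G L h (jdRepr S G L g j' - j') = 0 := by
  simp only [map_sub, Finset.sum_sub_distrib]
  rw [sub_eq_zero]
  have e : ∀ h : G, jdRepr S G L h (jdRepr S G L g j') = jdRepr S G L (h * g) j' := by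
    intro h
    rw [map_mul]
    rfl
  simp only [e]
  exact Fintype.sum_equiv (Equiv.mulRight g) _ _ (fun h => rfl)

/-- **The chase.** -/
theorem chase49 (hS : S.Nonempty) (g : G) (hg : ∀ x, x ∈ Subgroup.zpowers g)
    (hH1 : Limits.IsZero (groupCohomology (CRep S G L) 1))
    (x : Additive Lˣ) (j : JD S L)
    (hj : ∑ h : G, jdRepr S G L h j = diagHom S L x) :
    ∃ ℓ : Additive Lˣ, ∑ h : G, lRepr G L h ℓ = x := by
  classical
  set A : Rep ℤ G := CRep S G L with hA
  -- the class of `j`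
  set c : CS S L := (principal S L).mkQ j with hc
  have hρ : ∀ (h : G) (y : JD S L),
      cRepr S G L h ((principal S L).mkQ y) = (principal S L).mkQ (jdRepr S G L h y) :=
    fun h y => rfl
  -- `N c = 0`
  have hN : normN (gAct A g) (Nat.card G) c = 0 := by
    rw [normN_gAct_apply A g hg]
    change ∑ h : G, cRepr S G L h c = 0
    simp only [hc, hρ]
    rw [← map_sum, hj]
    exact (Submodule.Quotient.mk_eq_zero _).2 ⟨x, rfl⟩
  -- `h¹ = 1`
  have hcard : Nat.card (groupCohomology A 1) = 1 := by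
    haveI : Subsingleton (groupCohomology A 1) :=
      (ModuleCat.isZero_iff_subsingleton).1 hH1
    exact Nat.card_unique
  have hh1 : h1 (gAct A g) (Nat.card G) = 1 := by
    rw [← card_H1_eq_h1 A g hg]
    exact hcard
  have hle : (normN (gAct A g) (Nat.card G)).ker ≤ (delta (gAct A g)).range :=
    AddSubgroup.relIndex_eq_one.1 hh1
  obtain ⟨c', hc'⟩ := hle (AddMonoidHom.mem_ker.2 hN)
  obtain ⟨j', rfl⟩ := (principal S L).mkQ_surjective c'
  -- lift
  have hc2 : (principal S L).mkQ (j - (jdRepr S G L g j' - j')) = 0 := by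
    rw [map_sub, sub_eq_zero]
    rw [delta_apply, gAct_apply] at hc'
    change cRepr S G L g ((principal S L).mkQ j') - (principal S L).mkQ j' = c at hc'
    rw [hρ, ← map_sub] at hc'
    exact hc'.symm
  obtain ⟨ℓ, hℓ⟩ := (Submodule.Quotient.mk_eq_zero _).1 hc2
  refine ⟨ℓ, ?_⟩
  apply diagHom_injective49 S L hS
  rw [map_sum]
  have e1 : ∀ h : G, diagHom S L (lRepr G L h ℓ) = jdRepr S G L h (diagHom S L ℓ) :=
    fun h => diagHom_equivariant S G L h ℓ
  simp only [e1]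
  have hℓ' : diagHom S L ℓ = j - (jdRepr S G L g j' - j') := hℓ
  rw [hℓ']
  simp only [map_sub (jdRepr S G L _) j, Finset.sum_sub_distrib]
  rw [sum_jdRepr_sub49, sub_zero, hj]

end Fermat.Agent.LT.CFT.H49

end

end
-- ===== PACK-END LT/CFT/H49/HasseChase.lean

-- ===== PACK-BEGIN LT/T3/H263/SatDecomp.lean
section


/-!
# Row LT, tower T3, station T3.18a, leaf AS.1 `SatakeLocC` (helper263), OFF-MAIN -- part 4

Abstract nonarchimedean local field `k` with residue data `D` and compact ring of integers.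
The functions `A : ℤ² → ℂ` having a Satake pair `(f, A)` form a `ℂ`-subspace `satSub263 D`; it
contains the `A_{n,m}` (parts 2 and 3), hence the symmetric delta functions

    δ_{a,d} = 1{(a, a+d), (a+d, a)} = (√q)^{-d} (A_{d,a} - q A_{d-2,a+1})     (second term: d ≥ 2),

hence every symmetric finitely supported `A`.
-/

set_option autoImplicit false

open scoped Classical

open MeasureTheory

noncomputable section

namespace Fermat.Agent.LT.T3.H263

open Fermat.Agent.LT.T6 Fermat.Agent.LT.T6.H305 Fermat.Agent.LT.T3.AS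

variable {k : Type} [Field k] [Valued k Γ₀]

/-- The space of the `A` having a Satake pair `(f, A)`. -/
def satSub263 (D : ResData k) : Submodule ℂ (ℤ × ℤ → ℂ) where
  carrier := {A | ∃ f : GL (Fin 2) k → ℂ, IsSatAlg263 D f A ∧ HasN263 D f A}
  zero_mem' := ⟨fun _ => 0, isSatAlg_zero263 D, hasN_zero263 D⟩
  add_mem' := by
    rintro A B ⟨f, hf, hf'⟩ ⟨g, hg, hg'⟩
    exact ⟨_, isSatAlg_add263 D hf hg, hasN_add263 D hf' hg'⟩
  smul_mem' := by
    rintro c A ⟨f, hf, hf'⟩
    exact ⟨_, isSatAlg_smul263 D hf c, hasN_smul263 D hf' c⟩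

theorem mem_satSub263 (D : ResData k) (A : ℤ × ℤ → ℂ) :
    A ∈ satSub263 D ↔ ∃ f : GL (Fin 2) k → ℂ, IsSatAlg263 D f A ∧ HasN263 D f A :=
  Iff.rfl

theorem acoef_mem263 (D : ResData k) (hcpt : IsCompact {x : k | Valued.v x ≤ 1})
    (n : ℕ) (m : ℤ) : Acoef263 D n m ∈ satSub263 D :=
  ⟨Tind263 n m, isSatAlg_tind263 D n m, hasN_tind263 D hcpt n m⟩

/-- The symmetric delta function at `(a, a + d)`. -/
def Dsym263 (a : ℤ) (d : ℕ) (x : ℤ × ℤ) : ℂ :=
  if (x.1 = a ∧ x.2 = a + (d : ℤ)) ∨ (x.1 = a + (d : ℤ) ∧ x.2 = a) then 1 else 0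

theorem sq_ne_zero263 (D : ResData k) : sq263 D ≠ 0 := by
  unfold sq263
  rw [Complex.ofReal_ne_zero]
  have h : (0 : ℝ) < (D.T.card : ℝ) := by
    have := card_pos263 D
    positivity
  exact (Real.sqrt_pos.2 h).ne'

theorem acoef_small263 (D : ResData k) (a : ℤ) (d : ℕ) (hd : d ≤ 1) (x : ℤ × ℤ) :
    Acoef263 D d a x = sq263 D ^ d * Dsym263 a d x := by
  unfold Acoef263 Dsym263
  by_cases h3 : (x.1 = a ∧ x.2 = a + (d : ℤ)) ∨ (x.1 = a + (d : ℤ) ∧ x.2 = a)
  · have h1 : a ≤ x.1 ∧ a ≤ x.2 ∧ x.1 + x.2 = (d : ℤ) + 2 * a := by omega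
    rw [if_pos h1, if_pos h3, mul_one]
  · have h1 : ¬ (a ≤ x.1 ∧ a ≤ x.2 ∧ x.1 + x.2 = (d : ℤ) + 2 * a) := by omega
    rw [if_neg h1, if_neg h3, mul_zero]

theorem acoef_sub263 (D : ResData k) (a : ℤ) (d : ℕ) (x : ℤ × ℤ) :
    Acoef263 D (d + 2) a x - (D.T.card : ℂ) * Acoef263 D d (a + 1) x
      = sq263 D ^ (d + 2) * Dsym263 a (d + 2) x := by
  have hq := sq_sq263 D
  unfold Acoef263 Dsym263
  by_cases h3 : (x.1 = a ∧ x.2 = a + ((d + 2 : ℕ) : ℤ)) ∨ (x.1 = a + ((d + 2 : ℕ) : ℤ) ∧ x.2 = a)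
  · have h1 : a ≤ x.1 ∧ a ≤ x.2 ∧ x.1 + x.2 = ((d + 2 : ℕ) : ℤ) + 2 * a := by omega
    have h2 : ¬ (a + 1 ≤ x.1 ∧ a + 1 ≤ x.2 ∧ x.1 + x.2 = (d : ℤ) + 2 * (a + 1)) := by omega
    rw [if_pos h1, if_neg h2, if_pos h3]
    ring
  · by_cases h1 : a ≤ x.1 ∧ a ≤ x.2 ∧ x.1 + x.2 = ((d + 2 : ℕ) : ℤ) + 2 * a
    · have h2 : a + 1 ≤ x.1 ∧ a + 1 ≤ x.2 ∧ x.1 + x.2 = (d : ℤ) + 2 * (a + 1) := by omega
      rw [if_pos h1, if_pos h2, if_neg h3, ← hq]
      ring
    · have h2 : ¬ (a + 1 ≤ x.1 ∧ a + 1 ≤ x.2 ∧ x.1 + x.2 = (d : ℤ) + 2 * (a + 1)) := by omega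
      rw [if_neg h1, if_neg h2, if_neg h3]
      ring

theorem dsym_mem263 (D : ResData k) (hcpt : IsCompact {x : k | Valued.v x ≤ 1})
    (a : ℤ) (d : ℕ) : Dsym263 a d ∈ satSub263 D := by
  have hne : ∀ n : ℕ, sq263 D ^ n ≠ 0 := fun n => pow_ne_zero n (sq_ne_zero263 D)
  rcases d with _ | _ | d
  · have e : Dsym263 a 0 = (sq263 D ^ 0)⁻¹ • Acoef263 D 0 a := by
      funext x
      rw [Pi.smul_apply, smul_eq_mul, acoef_small263 D a 0 (by omega) x, ← mul_assoc,
        inv_mul_cancel₀ (hne 0), one_mul]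
    rw [e]
    exact Submodule.smul_mem _ _ (acoef_mem263 D hcpt 0 a)
  · have e : Dsym263 a (0 + 1) = (sq263 D ^ (0 + 1))⁻¹ • Acoef263 D (0 + 1) a := by
      funext x
      rw [Pi.smul_apply, smul_eq_mul, acoef_small263 D a (0 + 1) (by omega) x, ← mul_assoc,
        inv_mul_cancel₀ (hne (0 + 1)), one_mul]
    rw [e]
    exact Submodule.smul_mem _ _ (acoef_mem263 D hcpt (0 + 1) a)
  · have e : Dsym263 a (d + 1 + 1) = (sq263 D ^ (d + 2))⁻¹ •
        (Acoef263 D (d + 2) a - (D.T.card : ℂ) • Acoef263 D d (a + 1)) := by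
      funext x
      rw [Pi.smul_apply, Pi.sub_apply, Pi.smul_apply, smul_eq_mul, smul_eq_mul,
        acoef_sub263 D a d x, ← mul_assoc, inv_mul_cancel₀ (hne (d + 2)), one_mul]
    rw [e]
    exact Submodule.smul_mem _ _ (Submodule.sub_mem _ (acoef_mem263 D hcpt (d + 2) a)
      (Submodule.smul_mem _ _ (acoef_mem263 D hcpt d (a + 1))))

/-- Every symmetric finitely supported `A` has a Satake pair. -/
theorem mem_satSub_of_symfin263 (D : ResData k) (hcpt : IsCompact {x : k | Valued.v x ≤ 1})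
    (A : ℤ × ℤ → ℂ) (hfin : (Function.support A).Finite)
    (hsym : ∀ m₁ m₂ : ℤ, A (m₁, m₂) = A (m₂, m₁)) : A ∈ satSub263 D := by
  have e : A = ∑ p ∈ hfin.toFinset.filter (fun p : ℤ × ℤ => p.1 ≤ p.2),
      A p • Dsym263 p.1 (p.2 - p.1).toNat := by
    funext x
    rw [Finset.sum_apply]
    have hx' : ∃ x' : ℤ × ℤ, x'.1 ≤ x'.2 ∧ A x = A x' ∧
        ((x.1 = x'.1 ∧ x.2 = x'.2) ∨ (x.1 = x'.2 ∧ x.2 = x'.1)) := by
      by_cases h : x.1 ≤ x.2
      · exact ⟨x, h, rfl, Or.inl ⟨rfl, rfl⟩⟩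
      · exact ⟨(x.2, x.1), by simp only; omega, hsym x.1 x.2, Or.inr ⟨rfl, rfl⟩⟩
    obtain ⟨x', hle', hAx, hxx'⟩ := hx'
    have key : ∀ p ∈ hfin.toFinset.filter (fun p : ℤ × ℤ => p.1 ≤ p.2),
        (A p • Dsym263 p.1 (p.2 - p.1).toNat) x = if p = x' then A p else 0 := by
      intro p hp
      have hle : p.1 ≤ p.2 := (Finset.mem_filter.1 hp).2
      rw [Pi.smul_apply, smul_eq_mul]
      unfold Dsym263
      by_cases hpx : p = x'
      · have hc : (x.1 = p.1 ∧ x.2 = p.1 + ((p.2 - p.1).toNat : ℤ)) ∨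
            (x.1 = p.1 + ((p.2 - p.1).toNat : ℤ) ∧ x.2 = p.1) := by
          subst hpx
          omega
        rw [if_pos hpx, if_pos hc, mul_one]
      · have hc : ¬ ((x.1 = p.1 ∧ x.2 = p.1 + ((p.2 - p.1).toNat : ℤ)) ∨
            (x.1 = p.1 + ((p.2 - p.1).toNat : ℤ) ∧ x.2 = p.1)) := by
          intro hcon
          apply hpx
          ext
          · omega
          · omega
        rw [if_neg hpx, if_neg hc, mul_zero]
    rw [Finset.sum_congr rfl key, Finset.sum_ite_eq']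
    split_ifs with hmem
    · exact hAx
    · rw [hAx]
      by_contra h0
      apply hmem
      rw [Finset.mem_filter, Set.Finite.mem_toFinset, Function.mem_support]
      exact ⟨fun h => h0 h, hle'⟩
  rw [e]
  exact Submodule.sum_mem _ (fun p _ => Submodule.smul_mem _ _ (dsym_mem263 D hcpt _ _))

end Fermat.Agent.LT.T3.H263

end

end
-- ===== PACK-END LT/T3/H263/SatDecomp.lean

-- ===== PACK-BEGIN LT/T3/H263/SatakeLoc.lean
section




/-!
# Row LT, tower T3, station T3.18a, leaf AS.1 `SatakeLocC` (helper263), OFF-MAIN -- part 5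

`satakeLocC263 K : AS.SatakeLocC K`, the frozen Prop of `LT/T3/H736/ASSpec.lean` (helper736,
sha256 a661c778): for every finite place `v` of the number field `K` and every symmetric finitely
supported `A : ℤ² → ℂ` there is a Satake pair `(f₀, A)` on `GL₂(K_v)`.

Parts 1-4 are abstract (`k` a field with a valuation in `ℤᵐ⁰`, residue data, compact integers);
here `k = K_v`:

* `K_v` is a local field with `q = N(v)`        : `T6.H176.instLocalC176` (helper176),
* `𝒪_v` is compact                               : `H11.LC.isCompact_integers_h11` (helper11),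
* Hermite forms, Hecke recursion                 : `T6.H305.*` (helper305).

All imported files of other seats are byte-identical copies.
-/

set_option autoImplicit false

open scoped Classical

open IsDedekindDomain NumberField MeasureTheory

noncomputable section

namespace Fermat.Agent.LT.T3.H263

open Fermat.Agent.LT.T6 Fermat.Agent.LT.T6.H305 Fermat.Agent.LT.T3.AS

variable {K : Type} [Field K] [NumberField K] (v : HeightOneSpectrum (𝓞 K))

theorem isIntGL_iff263 (g : GL (Fin 2) (v.adicCompletion K)) : IsIntGL v g ↔ InK g := by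
  constructor
  · intro h
    exact ⟨fun i j => (h i j).1, fun i j => (h i j).2⟩
  · intro h i j
    exact ⟨h.1 i j, h.2 i j⟩

theorem isRepSys_iff263 (f : GL (Fin 2) (v.adicCompletion K) → ℂ)
    (R : Finset (GL (Fin 2) (v.adicCompletion K))) : IsRepSys v f R ↔ IsRep263 f R := by
  constructor
  · rintro ⟨h1, h2⟩
    refine ⟨fun h hh h' hh' hK => h1 h hh h' hh' ((isIntGL_iff263 v _).2 hK), fun g hg => ?_⟩
    obtain ⟨h, hh, hK⟩ := h2 g hg
    exact ⟨h, hh, (isIntGL_iff263 v _).1 hK⟩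
  · rintro ⟨h1, h2⟩
    refine ⟨fun h hh h' hh' hK => h1 h hh h' hh' ((isIntGL_iff263 v _).1 hK), fun g hg => ?_⟩
    obtain ⟨h, hh, hK⟩ := h2 g hg
    exact ⟨h, hh, (isIntGL_iff263 v _).2 hK⟩

/-- The explicit Hecke coset system `{[[1, 0], [0, ϖ]]} ∪ {[[ϖ, d], [0, 1]] : d ∈ T}`. -/
theorem isLocCosetSys263 (D : ResData (v.adicCompletion K))
    (hD : D.T.card = Ideal.absNorm v.asIdeal) :
    IsLocCosetSys v ((D.Idx 1).image (D.fam 0)) := by
  have hJ : ∀ x ∈ D.Idx 1, x ∈ Res.Jdx263 D 1 := by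
    intro x hx
    obtain ⟨h1, h2, _⟩ := D.mem_Idx.1 hx
    exact (Res.mem_Jdx263 D).2 ⟨h1, h2⟩
  have hS : ∀ x ∈ D.Idx 1, InS263 1 0 (D.fam 0 x) := fun x hx => Res.inS_fam263 D 0 (hJ x hx)
  refine ⟨?_, ?_, ?_⟩
  · have hc : ((((D.Idx 1).image (D.fam 0)).card : ℕ) : ℂ) = ((D.T.card + 1 : ℕ) : ℂ) := by
      rw [Finset.card_eq_sum_ones, Nat.cast_sum]
      have h1 : ∑ h ∈ (D.Idx 1).image (D.fam 0), ((1 : ℕ) : ℂ)
          = ∑ x ∈ D.Idx 1, (fun _ : GL (Fin 2) (v.adicCompletion K) => (1 : ℂ)) (1 * D.fam 0 x) := by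
        rw [Nat.cast_one]
        exact D.sum_image_fam 0 1 (fun _ => (1 : ℂ))
      rw [h1, D.sum_Idx_fam_zero (fun _ => (1 : ℂ)) 1 1,
        D.Pprim_eq_Aall_of_le_one _ 1 le_rfl, D.Aall_one]
      simp
      ring
    have := Nat.cast_injective (R := ℂ) hc
    rw [this, hD]
  · intro h hh
    obtain ⟨x, hx, rfl⟩ := Finset.mem_image.1 hh
    obtain ⟨h1, h2⟩ := hS x hx
    refine ⟨fun i j => ?_, ?_⟩
    · have := h1 i j
      rw [neg_zero, WithZero.exp_zero] at this
      exact this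
    · rw [h2]
      simp
  · intro h hh h' hh' hne hint
    obtain ⟨x, hx, rfl⟩ := Finset.mem_image.1 hh
    obtain ⟨y, hy, rfl⟩ := Finset.mem_image.1 hh'
    apply hne
    have hK : InK ((D.fam 0 x)⁻¹ * D.fam 0 y) := by
      rw [inK_iff]
      refine ⟨fun i j => hint i j, ?_⟩
      have e : D.fam 0 y = D.fam 0 x * ((D.fam 0 x)⁻¹ * D.fam 0 y) := by group
      have hdet : Valued.v ((D.fam 0 y : GL (Fin 2) (v.adicCompletion K)) :
            Matrix (Fin 2) (Fin 2) (v.adicCompletion K)).det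
          = Valued.v ((D.fam 0 x * ((D.fam 0 x)⁻¹ * D.fam 0 y) :
            GL (Fin 2) (v.adicCompletion K)) :
              Matrix (Fin 2) (Fin 2) (v.adicCompletion K)).det := by
        rw [← e]
      rw [Units.val_mul, Matrix.det_mul, map_mul, (hS x hx).2, (hS y hy).2] at hdet
      have hne0 : (WithZero.exp (-(((1 : ℕ) : ℤ) + 2 * 0)) : Γ₀) ≠ 0 := WithZero.exp_ne_zero
      have := mul_left_cancel₀ hne0 (hdet.symm.trans (mul_one _).symm)
      exact this
    rw [D.fam_inj 0 hx hy hK]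

theorem isEig_of_locEigen263 (D : ResData (v.adicCompletion K))
    (hD : D.T.card = Ideal.absNorm v.asIdeal)
    {Φ₀ : GL (Fin 2) (v.adicCompletion K) → ℂ} {a b : ℂ} (h : IsLocEigen v Φ₀ a b) :
    IsEig263 D Φ₀ (sq263 D * a) b := by
  refine ⟨fun u g hu => h.right_inv u g ((isIntGL_iff263 v u).2 hu), fun g => ?_, fun g => ?_⟩
  · refine h.scalar (D.sc 1) D.ϖ D.hϖ ?_ g
    rw [ResData.sc_val, zpow_one]
    ext i j
    fin_cases i <;> fin_cases j <;> simp
  · have h1 := h.hecke _ (isLocCosetSys263 v D hD) g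
    rw [D.sum_image_fam 0 1 (fun h => Φ₀ (g * h)), D.sum_Idx_fam_zero,
      D.Pprim_eq_Aall_of_le_one Φ₀ 1 le_rfl, D.Aall_one] at h1
    rw [h1]
    unfold sq263
    rw [hD]

theorem isCompact_int263 : IsCompact {x : v.adicCompletion K | Valued.v x ≤ 1} :=
  Fermat.Agent.LT.H11.LC.isCompact_integers_h11 K v

theorem isSatakePair_of263 (D : ResData (v.adicCompletion K))
    (hD : D.T.card = Ideal.absNorm v.asIdeal)
    {f : GL (Fin 2) (v.adicCompletion K) → ℂ} {A : ℤ × ℤ → ℂ}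
    (h₁ : IsSatAlg263 D f A) (h₂ : HasN263 D f A) : IsSatakePair v f A := by
  refine ⟨?_, ?_, ?_, ?_⟩
  · intro κ κ' g hκ hκ'
    rw [h₁.rinv κ' (κ * g) ((isIntGL_iff263 v κ').1 hκ'), h₁.linv κ g ((isIntGL_iff263 v κ).1 hκ)]
  · obtain ⟨R, hR⟩ := h₁.rep
    exact ⟨R, (isRepSys_iff263 v f R).2 hR⟩
  · intro ν₀ hν₀ c₁ c₂
    have h := (h₂ ν₀ hν₀ c₁ c₂).2
    rw [hD] at h
    exact h
  · intro Φ₀ a b z₁ z₂ hΦ hz₁ hz₂ hb R hR y
    have hΦ' := isEig_of_locEigen263 v D hD hΦ
    rw [← hz₁, ← hz₂] at hΦ'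
    rw [← hz₂] at hb
    exact h₁.acts Φ₀ z₁ z₂ hb hΦ' R ((isRepSys_iff263 v f R).1 hR) y

variable (K)

/-- **AS.1 = registry T3.18a.1 `SatakeLocC`** (the frozen Prop of `LT/T3/H736/ASSpec.lean`). -/
theorem satakeLocC263 : SatakeLocC K := by
  intro v A hA
  obtain ⟨D, hD⟩ := exists_resData (Fermat.Agent.LT.T6.H176.instLocalC176 K v)
  obtain ⟨f, hf₁, hf₂⟩ := (mem_satSub263 D A).1
    (mem_satSub_of_symfin263 D (isCompact_int263 v) A hA.1 hA.2)
  exact ⟨f, isSatakePair_of263 v D hD hf₁ hf₂⟩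

end Fermat.Agent.LT.T3.H263

end

end
-- ===== PACK-END LT/T3/H263/SatakeLoc.lean

-- ===== PACK-BEGIN LT/T7/H37/ThinDone.lean
section



/-!
# Row LT, tower T7, node T7.13 `ThinC` (sub-architect helper37): THE NODE IS CLOSED

OFF-MAIN, ADDITIVE (new names only).  `thinC37 : T7.ThinC`, UNCONDITIONAL.

All ten leaves of the node are closed by byte-identical copies of the volunteers' files:

| leaf | registry | proof |
|---|---|---|
| T7.13a `DegenC` | 1269 | helper682 `degenC682` |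
| T7.13b `NormSplitC` | 1270 | helper8 `normSplitC_h8` (on helper922 `DictFQ`) |
| T7.13c `ChebFC` | 1271 | helper341 `chebFC341` |
| T7.13e `ClassOneC`, T7.13f `NormEmbC` | 1272 | helper91 `classOneC91`, `normEmbC91` |
| T7.13g `HoroFC` = `H468.HoroCF468` | 1273 | helper468 `horoCF468` (second proof: helper51) |
| T7.13h `NonconstFC` | 1274 | helper949 `nonconstFC949` |
| T7.13i `HoroCoeffFC` | 1275 | helper768 `horoCoeffFC768` |
| T7.13j `MSFC` | 1276 | helper236 `msfC236` |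
| T7.13k `DirichletC` | 1277 | helper980 `dirichletC980` |
| T7.06 `DictFQC`, T7.09 `SqrtC` (leaves of `T7/Spec.lean`) | | helper922 `dictFQC922`, helper546 `sqrtC_h546` |

A second, independent proof of the classical half (`SqMass468C`, registry row 1353, helper47
`sqMass468C47`) is kept in `ThinSpare.lean`.
-/

set_option autoImplicit false

namespace Fermat.Agent.LT.T7.H37

open Fermat.Agent.LT.T7 Fermat.Agent.LT.T7.H468

/-- `HoroCoeffFC` is closed (helper768). -/
theorem horoCoeffFC_closed37 : HoroCoeffFC := Fermat.Agent.LT.T7.H768.horoCoeffFC768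

/-- The classical half `SqMass468C`, closed. -/
theorem sqMass468C_closed37 : SqMass468C := sqMass468C_of_horoCoeff horoCoeffFC_closed37

/-- The node `MassC` of `ThinSpec.lean`, closed. -/
theorem massC_closed37 : MassC :=
  massTop468 Fermat.Agent.LT.T7.H91.classOneC91 Fermat.Agent.LT.T7.H468.horoCF468
    sqMass468C_closed37 Fermat.Agent.LT.T7.H980.dirichletC980

/-- **NODE T7.13 `ThinC`, UNCONDITIONAL.** -/
theorem thinC37 : ThinC := thinC_of_horoCoeff37 horoCoeffFC_closed37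

end Fermat.Agent.LT.T7.H37

end
-- ===== PACK-END LT/T7/H37/ThinDone.lean

-- ===== PACK-BEGIN LT/T7/H568/IdeleSum.lean
section











/-!
# Row LT, tower T7, leaf T7.14.6c `IdeleSumC`: INTEGRATION (helper568)

OFF-MAIN.  The delivered sub-leaves (byte-identical copies of the owners' files)

* `normValC502`  (helper502, row 1818), `kirValC236` (helper236, row 1819),
  `archIntC122` (helper122, row 1820), `normMeasC319` (helper319, row 1821),
  `cosetC546` (helper546, row 1901), `scaleC627`, `haarPosC627`, `tonelliSumC627`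
  (helper627, rows 1904 / 1905 / 1906)

are wired into the proved tops `ideleSumC_of_leaves568` and `ideleCoordC_of_leaves568`:

    ideleSumC_of_coord568 : IdeleCoordC568 K → Rigid.IdeleSumC K
    ideleSumC_of_open568  : HOpenC568 K → HCompactC568 K → Rigid.IdeleSumC K

The two remaining leaves are topological: `HOpenC568` (row 1902) and `HCompactC568` (row 1903).
-/

set_option autoImplicit false

open AutomorphicForm IsDedekindDomain NumberField Filter Topology MeasureTheory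

noncomputable section

namespace Fermat.Agent.LT.T7.H568

open Fermat.Agent.LT.H556 Fermat.Agent.LT.H556.A0 Fermat.Agent.LT.T7 Fermat.Agent.LT.T7.Rigid

variable (K : Type) [Field K] [NumberField K]

/-- `IdeleSumC` from the coordinate formula alone. -/
theorem ideleSumC_of_coord568 (h4 : IdeleCoordC568 K) : IdeleSumC K :=
  ideleSumC_of_leaves568
    (Fermat.Agent.LT.T7.H236.kirValC236 K (Fermat.Agent.LT.T7.H502.normValC502 K))
    (Fermat.Agent.LT.T7.H502.normValC502 K)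
    (Fermat.Agent.LT.T7.H122.archIntC122 K)
    h4
    (Fermat.Agent.LT.T7.H319.normMeasC319 (K := K))

/-- `IdeleSumC` from the leaves of the coordinate formula which are still open. -/
theorem ideleSumC_of_open568 (hB : HOpenC568 K) (hC : HCompactC568 K) : IdeleSumC K :=
  ideleSumC_of_coord568 K
    (ideleCoordC_of_leaves568 (Fermat.Agent.LT.T7.H546.cosetC546 K) hB hC
      (Fermat.Agent.LT.T7.H627.scaleC627 K) Fermat.Agent.LT.T7.H627.haarPosC627
      Fermat.Agent.LT.T7.H627.tonelliSumC627)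

end Fermat.Agent.LT.T7.H568

end

end
-- ===== PACK-END LT/T7/H568/IdeleSum.lean

-- ===== PACK-BEGIN LT/T7/H568/IdeleSumClosed.lean
section





/-!
# Row LT, tower T7, leaf T7.14.6c `IdeleSumC`: CLOSED (helper568, integrator)

OFF-MAIN.

    ideleCoordC568 (K) : IdeleCoordC568 K
    ideleSumC568 (K)   : Rigid.IdeleSumC K        -- VERBATIM vs RigidStrip 9f2a8c04, every K

Unconditional.  Leaves (byte-identical copies of the owners' files):
`normValC502` (row 1818), `kirValC236` (1819), `archIntC122` (1820), `normMeasC319` (1821),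
`cosetC546` (1901), `hOpenC122` (1902), `hCompactC378` (1903), `scaleC627` (1904),
`haarPosC627` (1905), `tonelliSumC627` (1906); tops `ideleSumC_of_leaves568`,
`ideleCoordC_of_leaves568` (helper568).
-/

set_option autoImplicit false

open AutomorphicForm IsDedekindDomain NumberField Filter Topology MeasureTheory

noncomputable section

namespace Fermat.Agent.LT.T7.H568

open Fermat.Agent.LT.H556 Fermat.Agent.LT.H556.A0 Fermat.Agent.LT.T7 Fermat.Agent.LT.T7.Rigid

variable (K : Type) [Field K] [NumberField K]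

/-- **T7.14.6c.4 `IdeleCoordC568`**, unconditional. -/
theorem ideleCoordC568 : IdeleCoordC568 K :=
  ideleCoordC_of_leaves568 (Fermat.Agent.LT.T7.H546.cosetC546 K)
    (Fermat.Agent.LT.T7.H122.hOpenC122 K) (Fermat.Agent.LT.T7.H378.hCompactC378 K)
    (Fermat.Agent.LT.T7.H627.scaleC627 K) Fermat.Agent.LT.T7.H627.haarPosC627
    Fermat.Agent.LT.T7.H627.tonelliSumC627

/-- **T7.14.6c `IdeleSumC`**, unconditional, every number field `K`. -/
theorem ideleSumC568 : IdeleSumC K :=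
  ideleSumC_of_open568 K (Fermat.Agent.LT.T7.H122.hOpenC122 K)
    (Fermat.Agent.LT.T7.H378.hCompactC378 K)

end Fermat.Agent.LT.T7.H568

end

end
-- ===== PACK-END LT/T7/H568/IdeleSumClosed.lean

-- ===== PACK-BEGIN LT/T7/H683/TorusAsm.lean
section





/-!
# Row LT, tower T7, node T7.14 `RigidC`, level 5: LEAF `TorusAsmC` (helper683)

OFF-MAIN.  `torusAsmC_683 : Rigid.TorusAsmC K` verbatim against `LT/T7/H62/RigidWhit.lean` of
helper62 (sha256 ba7c5f11):

`HeckeRecC K → ArchUniqC K → WhitInheritC K → MixC K → TorusC K`.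

Proof: `c` = the constants of `ArchUniqC`; `f(y) = W(a(y^S)) / archProfile c 1`, `y^S` the idele
of `MixC S y 1`.  For an idele `y` with `ord_v y ≥ 0` outside `S`: `y₁` = finite part of `y`,
`y₁ = y^S · ∏_{v ∈ T} t_v^{ord_v y} · u` with `u` a unit idele outside `S`, so
`W(a(y)) P(1) = W(a(y₁)) P(y)` (archimedean uniqueness), `W(a(y₁)) = W(a(y^S ∏ t_v^{n_v}))`
(level invariance) `= ∏_{v ∈ T} locFactor · W(a(y^S))` (Hecke recursion).  If `ord_v y < 0` for
some `v ∉ S` both sides vanish.  Assets: `integers_subset_idealClosure566` (helper566),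
`besselK0_pos627` (helper627).  Complete proof, nothing assumed.
-/

set_option autoImplicit false

open AutomorphicForm IsDedekindDomain NumberField Filter Topology MeasureTheory
open scoped ComplexConjugate

noncomputable section

namespace Fermat.Agent.LT.T7.H683

open Fermat.Agent.LT.H556 Fermat.Agent.LT.H556.A0 Fermat.Agent.LT.T7 Fermat.Agent.LT.T7.Rigid

variable {K : Type} [Field K] [NumberField K]

theorem archProfile_finPart683 (c : InfinitePlace K → ℝ) (y : (Adl K)ˣ) :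
    archProfile c (finPart683 y) = archProfile c (1 : (Adl K)ˣ) := by
  unfold archProfile
  refine Finset.prod_congr rfl fun w _ => ?_
  rw [finPart683_inf]
  rfl

theorem archProfile_one_pos683 {c : InfinitePlace K → ℝ} (hc : ∀ w, 0 < c w) :
    0 < archProfile c (1 : (Adl K)ˣ) := by
  unfold archProfile
  refine Finset.prod_pos fun w _ => ?_
  have h1 : ((1 : (Adl K)ˣ) : Adl K).1 w = 1 := rfl
  rw [h1, norm_one, mul_one, one_mul]
  exact Fermat.Agent.LT.T7.H627.besselK0_pos627 (hc w)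

/-- The formula on the torus, for a function `W` on the ideles with the three properties. -/
theorem torus_formula683 {W : (Adl K)ˣ → ℂ} {a : HeightOneSpectrum (𝓞 K) → ℂ}
    {S : Finset (HeightOneSpectrum (𝓞 K))} {c : InfinitePlace K → ℝ} (hc : ∀ w, 0 < c w)
    (t : HeightOneSpectrum (𝓞 K) → (Adl K)ˣ) (ht : ∀ v, IsUnifIdele v (t v))
    (hrec : ∀ v : HeightOneSpectrum (𝓞 K), v ∉ S → HeckeAt683 W v (a v) (t v))
    (hunit : ∀ u : (Adl K)ˣ, IsUnitOff683 S u → ∀ y : (Adl K)ˣ, W (y * u) = W y)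
    (harch : ∀ y y' : (Adl K)ˣ,
      (∀ v : HeightOneSpectrum (𝓞 K), (y : Adl K).2 v = (y' : Adl K).2 v) →
      W y * ((archProfile c y' : ℝ) : ℂ) = W y' * ((archProfile c y : ℝ) : ℂ))
    (y z : (Adl K)ˣ) (hz1 : SameAt S z y) (hz2 : SameOff S z 1) :
    W y = W z / ((archProfile c (1 : (Adl K)ˣ) : ℝ) : ℂ) * kirOut a S c y := by
  classical
  have hP₁ : ((archProfile c (1 : (Adl K)ˣ) : ℝ) : ℂ) ≠ 0 := by
    exact_mod_cast (archProfile_one_pos683 (K := K) hc).ne'
  have hfin := ordI_finite683 y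
  have hsupp : Function.mulSupport
      (fun v : HeightOneSpectrum (𝓞 K) =>
        if v ∈ S then (1 : ℂ) else locFactor v (a v) (ordI v y)) ⊆ {v | ordI v y ≠ 0} := by
    intro v hv
    rw [Function.mem_mulSupport] at hv
    intro h0
    apply hv
    by_cases hvS : v ∈ S
    · rw [if_pos hvS]
    · rw [if_neg hvS, h0, locFactor_zero683]
  unfold kirOut
  by_cases hneg : ∃ v : HeightOneSpectrum (𝓞 K), v ∉ S ∧ ordI v y < 0
  · obtain ⟨v, hvS, hv⟩ := hneg
    have h1 : W y = 0 := (hrec v hvS y).1 hv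
    have h2 : ∏ᶠ v : HeightOneSpectrum (𝓞 K),
        (if v ∈ S then (1 : ℂ) else locFactor v (a v) (ordI v y)) = 0 :=
      finprod_eq_zero _ v (by rw [if_neg hvS, locFactor_neg683 _ _ hv]) (hfin.subset hsupp)
    rw [h1, h2, mul_zero, mul_zero]
  · have hnn : ∀ v : HeightOneSpectrum (𝓞 K), v ∉ S → 0 ≤ ordI v y := by
      intro v hv
      by_contra h
      exact hneg ⟨v, hv, not_le.1 h⟩
    obtain ⟨T, hTdef⟩ : ∃ T : Finset (HeightOneSpectrum (𝓞 K)),
        T = hfin.toFinset.filter (fun v => v ∉ S) := ⟨_, rfl⟩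
    obtain ⟨n, hndef⟩ : ∃ n : HeightOneSpectrum (𝓞 K) → ℕ, n = fun v => (ordI v y).toNat :=
      ⟨_, rfl⟩
    have hn : ∀ v : HeightOneSpectrum (𝓞 K), v ∉ S → (n v : ℤ) = ordI v y := by
      intro v hv
      rw [hndef]
      exact Int.toNat_of_nonneg (hnn v hv)
    have hTS : ∀ v ∈ T, v ∉ S := by
      intro v hv
      rw [hTdef, Finset.mem_filter] at hv
      exact hv.2
    have hTout : ∀ v : HeightOneSpectrum (𝓞 K), v ∉ S → v ∉ T → ordI v y = 0 := by
      intro v hvS hvT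
      by_contra h
      apply hvT
      rw [hTdef, Finset.mem_filter, Set.Finite.mem_toFinset]
      exact ⟨h, hvS⟩
    have hST : ∀ v ∈ S, v ∉ T := fun v hv hvT => hTS v hvT hv
    have hz0 : ∀ v : HeightOneSpectrum (𝓞 K), v ∉ S → ordI v z = 0 := by
      intro v hv
      apply ordI_eq_zero_of_val683
      rw [hz2.1 v hv]
      have h1 : ((1 : (Adl K)ˣ) : Adl K).2 v = 1 := rfl
      rw [h1, map_one]
    obtain ⟨b, hb⟩ : ∃ b : (Adl K)ˣ, b = z * ∏ v ∈ T, t v ^ n v := ⟨_, rfl⟩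
    obtain ⟨u, hu⟩ : ∃ u : (Adl K)ˣ, u = b⁻¹ * finPart683 y := ⟨_, rfl⟩
    have hy₁ : finPart683 y = b * u := by
      rw [hu, mul_inv_cancel_left]
    have huU : IsUnitOff683 S u := by
      refine ⟨fun w => ?_, fun v hv => ?_, fun v hv => ?_⟩
      · have h1 : ((1 : (Adl K)ˣ) : Adl K).1 w = 1 := rfl
        rw [hu, hb, inf_mul683, inf_inv683, inf_mul683, hz2.2 w, inf_unif_prod683 t ht n T w,
          finPart683_inf, h1]
        simp
      · rw [hu, hb, fin_mul683, fin_inv683, fin_mul683, hz1 v hv,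
          fin_unif_prod683 t ht n T (hST v hv), finPart683_fin, mul_one]
        exact inv_mul_cancel₀ (fin_ne_zero683 v y)
      · apply val_eq_one_of_ordI683
        have h1 : ordI v (finPart683 y) = ordI v y := ordI_congr683 (finPart683_fin y v)
        rw [hu, hb, ordI_mul683, ordI_inv683, ordI_mul683, hz0 v hv,
          ordI_unif_prod683 t ht n T v, h1]
        by_cases hvT : v ∈ T
        · rw [if_pos hvT, hn v hv]
          ring
        · rw [if_neg hvT, hTout v hv hvT]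
          ring
    have hA := harch y (finPart683 y) (fun v => (finPart683_fin y v).symm)
    rw [archProfile_finPart683] at hA
    have hWy₁ : W (finPart683 y) = (∏ v ∈ T, locFactor v (a v) (n v : ℤ)) * W z := by
      rw [hy₁, hunit u huU b, hb]
      exact hecke_prod683 t ht n T (fun v hv => hrec v (hTS v hv)) z
        (fun v hv => hz0 v (hTS v hv))
    have hprod : ∏ᶠ v : HeightOneSpectrum (𝓞 K),
        (if v ∈ S then (1 : ℂ) else locFactor v (a v) (ordI v y))
          = ∏ v ∈ T, locFactor v (a v) (n v : ℤ) := by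
      rw [finprod_eq_prod_of_mulSupport_subset (s := T)]
      · refine Finset.prod_congr rfl fun v hv => ?_
        rw [if_neg (hTS v hv), hn v (hTS v hv)]
      · intro v hv
        have hv' := hv
        rw [Function.mem_mulSupport] at hv'
        have hvS : v ∉ S := fun h => hv' (if_pos h)
        rw [hTdef, Finset.coe_filter, Set.mem_ofPred_eq, Set.Finite.mem_toFinset]
        exact ⟨hsupp hv, hvS⟩
    rw [hprod]
    rw [hWy₁] at hA
    field_simp
    linear_combination hA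

/-- **LEAF TORUS-ASM**, verbatim. -/
theorem torusAsmC_683 : TorusAsmC K := by
  classical
  intro hHR hAU hWI hM hcplx ψ hstd hnd ν D hνH hDm hDf hDfin
  obtain ⟨c, hc, hAU'⟩ := hAU hcplx ψ hstd hnd
  refine ⟨c, hc, fun π S φ hun hφ => ?_⟩
  have hArch := hAU' (whit ψ ν D φ) (hWI ψ hstd ν D hνH hDm hDf hDfin π S φ hφ)
  choose t ht using exists_unif683 hM
  choose zf hzf1 hzf2 using fun y : (Adl K)ˣ => hM S y 1
  have hrec : ∀ v : HeightOneSpectrum (𝓞 K), v ∉ S →
      HeckeAt683 (fun y => whit ψ ν D φ (dgA y)) v (π.a v) (t v) := fun v hv y =>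
    hHR hcplx ψ hstd hnd ν D hνH hDm hDf hDfin π S φ hun hφ v hv y (t v) (ht v)
  refine ⟨fun y => whit ψ ν D φ (dgA (zf y)) / ((archProfile c (1 : (Adl K)ˣ) : ℝ) : ℂ),
    ?_, ?_⟩
  · intro y y' hyy'
    have hzz : zf y = zf y' := by
      refine idele_ext683 (fun w => ?_) (fun v => ?_)
      · rw [(hzf2 y).2 w, (hzf2 y').2 w]
      · by_cases hv : v ∈ S
        · rw [hzf1 y v hv, hzf1 y' v hv, hyy' v hv]
        · rw [(hzf2 y).1 v hv, (hzf2 y').1 v hv]
    simp only [hzz]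
  · intro y
    exact torus_formula683 (W := fun y => whit ψ ν D φ (dgA y)) hc t ht hrec
      (fun u hu y => whit_dgA_unit683 ψ ν D hφ hu y) (fun y y' h => hArch y y' h)
      y (zf y) (hzf1 y) (hzf2 y)

end Fermat.Agent.LT.T7.H683

end

end
-- ===== PACK-END LT/T7/H683/TorusAsm.lean

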