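import Mathlib
import Fermat.Agent.Pack.LT2.E18L2
import Fermat.Agent.Pack.LT2.E14L2
import Fermat.Agent.Pack.LT2.E17L1
import Fermat.Agent.Pack.LT2.E16L2
import Fermat.Agent.Pack.LT2.E18L0
import Fermat.Agent.Pack.LT2.E14L3
import Fermat.Agent.Pack.LT2.E14L1
import Fermat.Agent.Pack.S43GC.G0E5L2
import Fermat.Agent.Pack.S43GC.G0E21L3
import Fermat.Agent.Pack.LT2.E10L0
import Fermat.Agent.Pack.LT2.E11L3
import Fermat.Agent.Pack.LT2.E11L1
import Fermat.Agent.Pack.LT2.E10L2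
import Fermat.Agent.Pack.LT2.E10L1
import Fermat.Agent.Pack.LT2.E11L2
import Fermat.Agent.Pack.LT2.E12L1
import Fermat.Agent.Pack.LT2.E18L1
import Fermat.Agent.Pack.LT2.E1L1
import Fermat.Agent.Pack.LT2.E15L2
import Fermat.Agent.Pack.LT2.E17L2
import Fermat.Agent.Pack.LT2.E3L3
import Fermat.Agent.Pack.LT2.E17L0
import Fermat.Agent.Pack.LT2.E17L3
import Fermat.Agent.Pack.LT2.E15L1
import Fermat.Agent.Pack.LT2.E15L3
import Fermat.Agent.Pack.LT2.E6L1

set_option linter.all false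

-- ===== PACK-BEGIN LT/A2/H151/Arch.lean
section


/-!
# Row LT, tower A2, leaf A2.03.1.6 `WX467.RightInvC` -- part 6: the infinite places
(helper151, OFF-MAIN)

* `locInf w M`: the element of `GL₂(𝔸_K)` with the component `M` at the infinite place `w`,
  trivial elsewhere;
* roots in the completions at the infinite places (`exists_root_of_isComplex`,
  `exists_preimage_real`);
* scalar matrices; the invariance of a local Weil family under the pairs `(ρ, ρ)` of equal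
  scalars with `η(ρ) = 1` (`locAx_scalar`: `(ρ, ρ) = (d(ρ²) t(ρ), ρ)`).
No holes, nothing assumed.
-/

set_option autoImplicit false

open IsDedekindDomain NumberField AutomorphicForm MeasureTheory Filter
open scoped MatrixGroups Topology RestrictedProduct

noncomputable section

namespace Fermat.Agent.LT.A2.H151

open Fermat.Agent.LT.H130 Fermat.Agent.LT.H556 Fermat.Agent.LT.A2 Fermat.Agent.LT.A2.WX467

variable {K : Type} [Field K] [NumberField K]

/-! ## Elements supported at an infinite place -/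

open Classical in
/-- The element of `GL₂(𝔸_K)` with the component `M` at the infinite place `w`, trivial at every
other place. -/
def locInf (w : InfinitePlace K) (M : Matrix (Fin 2) (Fin 2) w.Completion) (hM : M.det ≠ 0) :
    A0.G K :=
  mkG (Function.update (fun u => (1 : Matrix (Fin 2) (Fin 2) u.Completion)) w M) (fun _ => 1)
    (fun u => by
      by_cases h : u = w
      · subst h
        rw [Function.update_self]
        exact hM
      · rw [Function.update_of_ne h, Matrix.det_one]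
        exact one_ne_zero)
    (fun v => by rw [Matrix.det_one]; exact one_ne_zero)
    (Filter.Eventually.of_forall fun v i j => one_integral v i j)
    (Filter.Eventually.of_forall fun v i j => by rw [inv_one]; exact one_integral v i j)

theorem infMat_locInf_same (w : InfinitePlace K) (M : Matrix (Fin 2) (Fin 2) w.Completion)
    (hM : M.det ≠ 0) : infMat w (locInf w M hM) = M := by
  classical
  unfold locInf
  rw [infMat_mkG, Function.update_self]

theorem infMat_locInf_ne (w : InfinitePlace K) (M : Matrix (Fin 2) (Fin 2) w.Completion)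
    (hM : M.det ≠ 0) {u : InfinitePlace K} (hu : u ≠ w) : infMat u (locInf w M hM) = 1 := by
  classical
  unfold locInf
  rw [infMat_mkG, Function.update_of_ne hu]

theorem finComp_locInf (w : InfinitePlace K) (M : Matrix (Fin 2) (Fin 2) w.Completion)
    (hM : M.det ≠ 0) (v : HeightOneSpectrum (𝓞 K)) : A0.finComp v (locInf w M hM) = 1 := by
  unfold locInf
  rw [finComp_mkG]

theorem locInf_congr (w : InfinitePlace K) {M M' : Matrix (Fin 2) (Fin 2) w.Completion}
    (h : M = M') (hM : M.det ≠ 0) (hM' : M'.det ≠ 0) : locInf w M hM = locInf w M' hM' := by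
  subst h
  rfl

/-- An element supported at `w` is `locInf w` of its component. -/
theorem eq_locInf {w : InfinitePlace K} {g : A0.G K} (hg : A0.IsLocalAtInf w g) :
    g = locInf w (infMat w g) (infMat_det_ne_zero w g) := by
  refine gl_ext (fun u => ?_) (fun v => ?_)
  · by_cases h : u = w
    · subst h
      rw [infMat_locInf_same]
    · rw [infMat_locInf_ne _ _ _ h]
      exact infMat_eq_one_of_triv (hg.1 u h)
  · rw [finComp_locInf]
    exact hg.2 v

theorem locInf_pow (w : InfinitePlace K) (M : Matrix (Fin 2) (Fin 2) w.Completion)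
    (hM : M.det ≠ 0) (N : ℕ) (hMN : (M ^ N).det ≠ 0) :
    locInf w M hM ^ N = locInf w (M ^ N) hMN := by
  refine gl_ext (fun u => ?_) (fun v => ?_)
  · rw [infMat_pow]
    by_cases h : u = w
    · subst h
      rw [infMat_locInf_same, infMat_locInf_same]
    · rw [infMat_locInf_ne _ _ _ h, infMat_locInf_ne _ _ _ h, one_pow]
  · rw [finComp_pow, finComp_locInf, finComp_locInf, one_pow]

/-! ## Scalar matrices -/

theorem smul_one_eq_torMat {k : Type} [Field k] (t n σ : k) :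
    (σ • (1 : Matrix (Fin 2) (Fin 2) k)) = torMat t n σ 0 := by
  ext i j
  fin_cases i <;> fin_cases j <;> simp [torMat]

theorem inTorL_smul_one {k : Type} [Field k] (t n σ : k) :
    InTorL t n (σ • (1 : Matrix (Fin 2) (Fin 2) k)) :=
  ⟨σ, 0, smul_one_eq_torMat t n σ⟩

theorem det_smul_one {k : Type} [Field k] (σ : k) :
    (σ • (1 : Matrix (Fin 2) (Fin 2) k)).det = σ ^ 2 := by
  rw [Matrix.det_smul, Matrix.det_one, mul_one, Fintype.card_fin]

theorem smul_one_pow {k : Type} [Field k] (σ : k) (N : ℕ) :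
    (σ • (1 : Matrix (Fin 2) (Fin 2) k)) ^ N = (σ ^ N) • (1 : Matrix (Fin 2) (Fin 2) k) := by
  rw [smul_pow, one_pow]

theorem embMat_smul_one (u : InfinitePlace K) (σ : u.Completion) :
    embMat u (σ • (1 : Matrix (Fin 2) (Fin 2) u.Completion))
      = (InfinitePlace.Completion.extensionEmbedding u σ) • (1 : Matrix (Fin 2) (Fin 2) ℂ) := by
  funext i j
  by_cases h : i = j
  · subst h
    simp [embMat]
  · simp [embMat, Matrix.one_apply_ne h]

theorem embMat_one (u : InfinitePlace K) :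
    embMat u (1 : Matrix (Fin 2) (Fin 2) u.Completion) = 1 := by
  have := embMat_smul_one u (1 : u.Completion)
  rwa [one_smul, map_one, one_smul] at this

/-- A scalar of norm one is unitary. -/
theorem unitary_smul_one {z : ℂ} (hz : ‖z‖ = 1) :
    (z • (1 : Matrix (Fin 2) (Fin 2) ℂ)) * (z • (1 : Matrix (Fin 2) (Fin 2) ℂ)).conjTranspose
      = 1 := by
  rw [Matrix.conjTranspose_smul, Matrix.conjTranspose_one, smul_mul_smul_comm, mul_one]
  have : z * star z = 1 := by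
    rw [Complex.star_def, Complex.mul_conj, Complex.normSq_eq_norm_sq, hz]
    simp
  rw [this, one_smul]

/-- The determinant of a unitary matrix has norm one. -/
theorem norm_det_of_unitary {U : Matrix (Fin 2) (Fin 2) ℂ} (hU : U * U.conjTranspose = 1) :
    ‖U.det‖ = 1 := by
  have h := congrArg Matrix.det hU
  rw [Matrix.det_mul, Matrix.det_conjTranspose, Matrix.det_one, Complex.star_def,
    Complex.mul_conj, Complex.normSq_eq_norm_sq] at h
  have h' : ‖U.det‖ ^ 2 = 1 := by exact_mod_cast h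
  have h0 : 0 ≤ ‖U.det‖ := norm_nonneg _
  nlinarith [sq_nonneg (‖U.det‖ - 1), sq_nonneg (‖U.det‖ + 1)]

theorem embMat_det (u : InfinitePlace K) (M : Matrix (Fin 2) (Fin 2) u.Completion) :
    (embMat u M).det = InfinitePlace.Completion.extensionEmbedding u M.det := by
  have : embMat u M = M.map (InfinitePlace.Completion.extensionEmbedding u) := rfl
  rw [this]
  exact (RingHom.map_det _ _).symm

/-! ## Roots -/

theorem extensionEmbedding_injective (u : InfinitePlace K) :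
    Function.Injective (InfinitePlace.Completion.extensionEmbedding u) :=
  (InfinitePlace.Completion.extensionEmbedding u).injective

/-- Every real number is in the image of the embedding of the completion. -/
theorem exists_preimage_real (u : InfinitePlace K) (x : ℝ) :
    ∃ y : u.Completion, InfinitePlace.Completion.extensionEmbedding u y = (x : ℂ) := by
  rcases u.isReal_or_isComplex with hu | hu
  · obtain ⟨y, hy⟩ := InfinitePlace.Completion.surjective_extensionEmbeddingOfIsReal hu x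
    refine ⟨y, ?_⟩
    rw [← InfinitePlace.Completion.extensionEmbeddingOfIsReal_apply hu, hy]
  · exact InfinitePlace.Completion.surjective_extensionEmbedding_of_isComplex hu _

/-- `N`-th roots of the elements with positive real image. -/
theorem exists_root_of_pos (u : InfinitePlace K) {N : ℕ} (hN : 0 < N) {ρ : u.Completion} {r : ℝ}
    (hr : 0 < r) (hρ : InfinitePlace.Completion.extensionEmbedding u ρ = (r : ℂ)) :
    ∃ ρ' : u.Completion, ρ' ≠ 0 ∧ ρ' ^ N = ρ := by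
  obtain ⟨y, hy⟩ := exists_preimage_real u (r ^ ((N : ℝ)⁻¹))
  have hyN : y ^ N = ρ := by
    apply extensionEmbedding_injective u
    rw [map_pow, hy, hρ, ← Complex.ofReal_pow, Real.rpow_inv_natCast_pow hr.le hN.ne']
  refine ⟨y, ?_, hyN⟩
  rintro rfl
  rw [zero_pow hN.ne'] at hyN
  rw [← hyN, map_zero] at hρ
  exact hr.ne' (by exact_mod_cast hρ.symm)

/-- `N`-th roots at a complex place. -/
theorem exists_root_of_isComplex {u : InfinitePlace K} (hu : u.IsComplex) {N : ℕ} (hN : 0 < N)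
    (d : u.Completion) : ∃ s : u.Completion, s ^ N = d := by
  obtain ⟨z, hz⟩ := IsAlgClosed.exists_pow_nat_eq
    (InfinitePlace.Completion.extensionEmbedding u d) hN
  obtain ⟨s, hs⟩ := InfinitePlace.Completion.surjective_extensionEmbedding_of_isComplex hu z
  refine ⟨s, extensionEmbedding_injective u ?_⟩
  rw [map_pow, hs, hz]

/-! ## The pairs of equal scalars -/

/-- **Invariance under the pairs `(ρ, ρ)` of equal scalars** with `η(ρ) = 1`:
`(ρ, ρ) = (d(ρ²) t(ρ), ρ)`. -/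
theorem locAx_scalar {k : Type} [Field k] [TopologicalSpace k] {absv : k → ℝ} {t n : k}
    {ψ : k → ℂ} {μ : @Measure k (borel k)} {γ : ℂ} {η : k → ℂ}
    {F : Matrix (Fin 2) (Fin 2) k → Matrix (Fin 2) (Fin 2) k → k × k → ℂ}
    (hax : LocAx absv t n ψ μ γ η F) {ρ : k} (hρ : ρ ≠ 0) (hη : η ρ = 1)
    (habs : Real.sqrt (absv (ρ ^ 2)) = absv ρ) (habs0 : absv ρ ≠ 0)
    (g m : Matrix (Fin 2) (Fin 2) k) (ξ : k × k) (hadm : AdmL t n g m) :
    F (g * (ρ • (1 : Matrix (Fin 2) (Fin 2) k))) (m * (ρ • (1 : Matrix (Fin 2) (Fin 2) k))) ξ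
      = F g m ξ := by
  have hζdet : (ρ • (1 : Matrix (Fin 2) (Fin 2) k)).det ≠ 0 := by
    rw [det_smul_one]
    exact pow_ne_zero 2 hρ
  have hadm' : AdmL t n (!![ρ, 0; 0, ρ⁻¹] * g) m := by
    refine ⟨hadm.1, ?_, hadm.2.2⟩
    rw [Matrix.det_mul, ← hadm.2.1]
    have : (!![ρ, 0; 0, ρ⁻¹] : Matrix (Fin 2) (Fin 2) k).det = 1 := by
      rw [Matrix.det_fin_two_of]
      field_simp
      ring
    rw [this, one_mul]
  have h1 := hax.tor _ (inTorL_smul_one t n ρ) hζdet (!![ρ, 0; 0, ρ⁻¹] * g) m ξ hadm'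
  have h2 := hax.diag ρ hρ g m (actL (ρ • (1 : Matrix (Fin 2) (Fin 2) k))⁻¹ ξ) hadm
  have h3 : ρ • actL (ρ • (1 : Matrix (Fin 2) (Fin 2) k))⁻¹ ξ = ξ := by
    have hinv : (ρ • (1 : Matrix (Fin 2) (Fin 2) k))⁻¹ = ρ⁻¹ • (1 : Matrix (Fin 2) (Fin 2) k) := by
      apply Matrix.inv_eq_right_inv
      rw [smul_mul_smul_comm, mul_one, mul_inv_cancel₀ hρ, one_smul]
    rw [hinv]
    ext
    · simp [actL, hρ]
    · simp [actL, hρ]
  have h4 : !![1, 0; 0, (ρ • (1 : Matrix (Fin 2) (Fin 2) k)).det] * (!![ρ, 0; 0, ρ⁻¹] * g)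
      = g * (ρ • (1 : Matrix (Fin 2) (Fin 2) k)) := by
    rw [det_smul_one, ← mul_assoc, mul_smul_comm, mul_one]
    have : (!![1, 0; 0, ρ ^ 2] * !![ρ, 0; 0, ρ⁻¹] : Matrix (Fin 2) (Fin 2) k)
        = ρ • (1 : Matrix (Fin 2) (Fin 2) k) := by
      ext i j
      fin_cases i <;> fin_cases j <;> simp [Matrix.mul_apply, Fin.sum_univ_two] <;> field_simp
    rw [this, smul_mul_assoc, one_mul]
  have h5 : (ρ • (1 : Matrix (Fin 2) (Fin 2) k)) * m
      = m * (ρ • (1 : Matrix (Fin 2) (Fin 2) k)) := by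
    rw [smul_mul_assoc, one_mul, mul_smul_comm, mul_one]
  rw [h4, h5, h2, h3, hη, one_mul, det_smul_one, habs] at h1
  exact mul_left_cancel₀ (by exact_mod_cast habs0) h1

end Fermat.Agent.LT.A2.H151

end

end
-- ===== PACK-END LT/A2/H151/Arch.lean

-- ===== PACK-BEGIN LT/A2/H151/RightInv.lean
section



/-!
# Row LT, tower A2, leaf A2.03.1.6 `WX467.RightInvC` (helper151, OFF-MAIN)

    rightInvC151 : WX467.RightInvC            (UNCONDITIONAL)

Right invariance of the product family `WData.F` of good product data: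

* `good_inv151`, `cpx_inv151` (`InvOut`): factor by factor, from `FinAt.right_inv` (the level
  group at a good place is `GL₂(𝒪_v)`: `inLevL_of_integral`; `Tlev v = T(𝒪_v)`: `GoodAt.tlev`)
  and `CpxAt.right_inv`;
* `level151`: the global `κ` is assembled from the local `κ_v` of `FinAt.right_ex` (integral at
  the good places, hence an adelic point); `χT κ = 1` by `chi_eq_one_of_tlev` (truncations,
  `FinAt.chi_triv`, continuity of `χT`);
* `arch_scalar151`: `κ = z`; `(ρ, ρ) = (d(ρ²) t(ρ), ρ)` acts by `η_w(ρ) = 1` (`locAx_scalar`);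
  `χT z = 1` because `z` is an `N`-th power in the torus, `N` the order of `χT`;
* `arch_compact151`: `κ = σ · 1`, `σ² = det k`, `σ = s ^ N` (roots in `K_w = ℂ`; `det k = 1`
  at a real place), so that `χT κ = 1`.

No holes, nothing assumed; the hypotheses `T1.T1Out K` and `BorelOut` are not used.
-/

set_option autoImplicit false

open IsDedekindDomain NumberField AutomorphicForm MeasureTheory Filter
open scoped MatrixGroups Topology RestrictedProduct

noncomputable section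

namespace Fermat.Agent.LT.A2.H151

open Fermat.Agent.LT.H130 Fermat.Agent.LT.H556 Fermat.Agent.LT.A2 Fermat.Agent.LT.A2.WX467

variable {K : Type} [Field K] [NumberField K]

/-! ## `InvOut` -/

theorem good_inv151 (L : WData K) (hG : L.IsGood) (v : HeightOneSpectrum (𝓞 K))
    (hv : ¬ v.asIdeal ∣ L.toKData.π.level) (k κ : A0.G K) (hk : WL.InMaxCompactAt v k)
    (hκ : WL.InTorusIntAt L.toKData.t L.toKData.n v κ)
    (hdet : Matrix.GeneralLinearGroup.det k = Matrix.GeneralLinearGroup.det κ)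
    (g m : A0.G K) (ξ : A0.Adl K × A0.Adl K) (hadm : Adm L.toKData.t L.toKData.n g m) :
    L.toKData.F (g * k) (m * κ) ξ = L.toKData.F g m ξ := by
  obtain ⟨hkloc, hkint, hkint'⟩ := hk
  obtain ⟨hκtor, hκloc, hκint, hκint'⟩ := hκ
  refine F_congr L (fun u => ?_) (fun v' => ?_) ξ
  · rw [infMat_mul, infMat_mul, infMat_eq_one_of_triv (hkloc.1 u),
      infMat_eq_one_of_triv (hκloc.1 u), mul_one, mul_one]
  · rw [finComp_mul, finComp_mul]
    by_cases h : v' = v
    · subst h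
      funext ξ'
      refine (hG.fin v').right_inv _ _ ?_ ?_ ?_ _ _ ξ' (admL_fin L v' hadm)
      · exact inLevL_of_integral _ v' hv (finComp_det_ne_zero v' k) hkint
          (fun i j => by rw [← finComp_inv]; exact hkint' i j)
      · rw [(hG.good v' hv).tlev]
        exact ⟨inTorL_fin_of_inTorus hκtor v', finComp_det_ne_zero v' κ, hκint,
          fun i j => by rw [← finComp_inv]; exact hκint' i j⟩
      · rw [finComp_det, finComp_det, hdet]
    · have h1 : A0.finComp v' k = 1 := hkloc.2 v' h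
      have h2 : A0.finComp v' κ = 1 := hκloc.2 v' h
      rw [h1, h2, mul_one, mul_one]

theorem cpx_inv151 (L : WData K) (hG : L.IsGood) (u : InfinitePlace K) (k κ : A0.G K)
    (hk : A0.IsArchCompact u k) (hκ : InTorus L.toKData.t L.toKData.n κ)
    (hκc : A0.IsArchCompact u κ)
    (hdet : Matrix.GeneralLinearGroup.det k = Matrix.GeneralLinearGroup.det κ)
    (g m : A0.G K) (ξ : A0.Adl K × A0.Adl K) (hadm : Adm L.toKData.t L.toKData.n g m) :
    L.toKData.F (g * k) (m * κ) ξ = L.toKData.F g m ξ := by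
  obtain ⟨hkloc, hkU, -⟩ := hk
  obtain ⟨hκloc, hκU, -⟩ := hκc
  refine F_congr L (fun u' => ?_) (fun v => ?_) ξ
  · rw [infMat_mul, infMat_mul]
    by_cases h : u' = u
    · subst h
      funext ξ'
      have hdet' : (infMat u' k).det = (infMat u' κ).det := by
        rw [infMat_det, infMat_det, hdet]
      exact (hG.cpx u').right_inv _ _ hkU hκU (inTorL_inf_of_inTorus hκ u') hdet' _ _ ξ'
        (admL_inf L u' hadm)
    · rw [infMat_eq_one_of_triv (hkloc.1 u' h), infMat_eq_one_of_triv (hκloc.1 u' h), mul_one,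
        mul_one]
  · have h1 : A0.finComp v k = 1 := hkloc.2 v
    have h2 : A0.finComp v κ = 1 := hκloc.2 v
    rw [finComp_mul, finComp_mul, h1, h2, mul_one, mul_one]

/-! ## The level group -/

theorem level151 (L : WData K) (hG : L.IsGood) (u : A0.G K)
    (hu : A0.InLevelGroup L.toKData.π.level u) :
    ∃ κ : A0.G K, Adm L.toKData.t L.toKData.n u κ ∧ L.toKData.χT κ = 1 ∧
      ∀ (g m : A0.G K) (ξ : A0.Adl K × A0.Adl K), Adm L.toKData.t L.toKData.n g m →
        L.toKData.F (g * u) (m * κ) ξ = L.toKData.F g m ξ := by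
  classical
  obtain ⟨huinf, hufin⟩ := hu
  have hlev : ∀ v : HeightOneSpectrum (𝓞 K), InLevL L.π.level v (A0.finComp v u) := fun v =>
    ⟨finComp_det_ne_zero v u, fun i j =>
      ⟨(hufin v i j).1, by rw [← finComp_inv]; exact (hufin v i j).2⟩⟩
  choose κloc hκloc hκdet using fun v => (hG.fin v).right_ex (A0.finComp v u) (hlev v)
  have hgood : ∀ᶠ v : HeightOneSpectrum (𝓞 K) in cofinite, ¬ v.asIdeal ∣ L.π.level := by
    rw [Filter.eventually_cofinite]
    simp only [not_not]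
    exact Ideal.finite_factors L.π.level_ne_bot
  have hint : ∀ᶠ v in cofinite, ∀ i j, κloc v i j ∈ v.adicCompletionIntegers K :=
    hgood.mono fun v hv => (((hG.good v hv).tlev (κloc v)).mp (hκloc v)).2.2.1
  have hint' : ∀ᶠ v in cofinite, ∀ i j, (κloc v)⁻¹ i j ∈ v.adicCompletionIntegers K :=
    hgood.mono fun v hv => (((hG.good v hv).tlev (κloc v)).mp (hκloc v)).2.2.2
  have hdet0 : ∀ v, (κloc v).det ≠ 0 := fun v => ((hG.fin v).tlev_tor _ (hκloc v)).2
  set κ : A0.G K := mkG (fun _ => 1) κloc (fun _ => by rw [Matrix.det_one]; exact one_ne_zero)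
    hdet0 hint hint' with hκdef
  have hκinf : ∀ w : InfinitePlace K, infMat w κ = 1 := fun w => infMat_mkG _ _ _ _ _ _ w
  have hκfin : ∀ v : HeightOneSpectrum (𝓞 K), A0.finComp v κ = κloc v := fun v =>
    finComp_mkG _ _ _ _ _ _ v
  have hκtor : InTorus L.t L.n κ :=
    inTorus_of_components (fun w => by rw [hκinf]; exact inTorL_one _ _)
      (fun v => by rw [hκfin]; exact ((hG.fin v).tlev_tor _ (hκloc v)).1)
  refine ⟨κ, ⟨hκtor, ?_⟩,
    chi_eq_one_of_tlev L hG hκtor hκinf (fun v => by rw [hκfin]; exact hκloc v), ?_⟩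
  · apply Units.ext
    refine adl_ext (fun w => ?_) (fun v => ?_)
    · rw [← infMat_det, ← infMat_det, hκinf, infMat_eq_one_of_triv (huinf w)]
    · rw [← finComp_det, ← finComp_det, hκfin, hκdet]
  · intro g m ξ hadm
    refine F_congr L (fun w => ?_) (fun v => ?_) ξ
    · rw [infMat_mul, infMat_mul, hκinf, infMat_eq_one_of_triv (huinf w), mul_one, mul_one]
    · rw [finComp_mul, finComp_mul, hκfin]
      funext ξ'
      exact (hG.fin v).right_inv _ _ (hlev v) (hκloc v) (hκdet v).symm _ _ ξ'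
        (admL_fin L v hadm)

/-! ## The positive real scalars -/

theorem arch_scalar151 (L : WData K) (hG : L.IsGood) (w : InfinitePlace K) (z : A0.G K)
    (hz : A0.IsArchPosScalar w z) :
    ∃ κ : A0.G K, Adm L.toKData.t L.toKData.n z κ ∧ L.toKData.χT κ = 1 ∧
      ∀ (g m : A0.G K) (ξ : A0.Adl K × A0.Adl K), Adm L.toKData.t L.toKData.n g m →
        L.toKData.F (g * z) (m * κ) ξ = L.toKData.F g m ξ := by
  obtain ⟨N, hN, hχN⟩ := chi_eq_one_of_pow hG.torus
  obtain ⟨hzloc, r, hr, hzr⟩ := hz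
  have hentry : ∀ i j : Fin 2, InfinitePlace.Completion.extensionEmbedding w (infMat w z i j)
      = (Matrix.diagonal (fun _ : Fin 2 => (r : ℂ))) i j := fun i j =>
    congrFun (congrFun hzr i) j
  set ρ : w.Completion := infMat w z 0 0 with hρdef
  have hρ : InfinitePlace.Completion.extensionEmbedding w ρ = (r : ℂ) := by
    rw [hρdef, hentry 0 0, Matrix.diagonal_apply_eq]
  have hρ0 : ρ ≠ 0 := by
    intro h
    rw [h, map_zero] at hρ
    exact hr.ne' (by exact_mod_cast hρ.symm)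
  have hzw : infMat w z = ρ • (1 : Matrix (Fin 2) (Fin 2) w.Completion) := by
    refine Matrix.ext fun i j => extensionEmbedding_injective w ?_
    rw [hentry i j]
    by_cases h : i = j
    · subst h
      rw [Matrix.diagonal_apply_eq, Matrix.smul_apply, Matrix.one_apply_eq, smul_eq_mul, mul_one,
        hρ]
    · rw [Matrix.diagonal_apply_ne _ h, Matrix.smul_apply, Matrix.one_apply_ne h, smul_zero,
        map_zero]
  obtain ⟨ρ', hρ'0, hρ'N⟩ := exists_root_of_pos w hN hr hρ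
  have hdet' : (ρ' • (1 : Matrix (Fin 2) (Fin 2) w.Completion)).det ≠ 0 := by
    rw [det_smul_one]
    exact pow_ne_zero 2 hρ'0
  have hdetN : ((ρ' • (1 : Matrix (Fin 2) (Fin 2) w.Completion)) ^ N).det ≠ 0 := by
    rw [Matrix.det_pow]
    exact pow_ne_zero N hdet'
  have hκ'tor : InTorus L.t L.n (locInf w (ρ' • (1 : Matrix (Fin 2) (Fin 2) w.Completion)) hdet') := by
    refine inTorus_of_components (fun u => ?_) (fun v => ?_)
    · by_cases h : u = w
      · subst h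
        rw [infMat_locInf_same]
        exact inTorL_smul_one _ _ _
      · rw [infMat_locInf_ne _ _ _ h]
        exact inTorL_one _ _
    · rw [finComp_locInf]
      exact inTorL_one _ _
  have hz_eq : z = locInf w (ρ' • (1 : Matrix (Fin 2) (Fin 2) w.Completion)) hdet' ^ N := by
    rw [locInf_pow _ _ _ _ hdetN]
    have h2 : infMat w z = (ρ' • (1 : Matrix (Fin 2) (Fin 2) w.Completion)) ^ N := by
      rw [hzw, smul_one_pow, hρ'N]
    exact (eq_locInf hzloc).trans (locInf_congr w h2 _ _)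
  have hztor : InTorus L.t L.n z := by
    rw [hz_eq]
    exact inTorus_pow hκ'tor N
  refine ⟨z, ⟨hztor, rfl⟩, ?_, ?_⟩
  · change L.χT z = 1
    rw [hz_eq]
    exact hχN _ hκ'tor
  · intro g m ξ hadm
    refine F_congr L (fun u => ?_) (fun v => ?_) ξ
    · rw [infMat_mul, infMat_mul]
      by_cases h : u = w
      · subst h
        funext ξ'
        rw [hzw]
        refine locAx_scalar (hG.cpx u).ax hρ0 ((hG.cpx u).eta_one ρ hρ0) ?_ ?_ _ _ ξ'
          (admL_inf L u hadm)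
        · show Real.sqrt (‖ρ ^ 2‖ ^ u.mult) = ‖ρ‖ ^ u.mult
          rw [norm_pow, ← pow_mul, mul_comm, pow_mul]
          exact Real.sqrt_sq (pow_nonneg (norm_nonneg _) _)
        · show ‖ρ‖ ^ u.mult ≠ 0
          exact pow_ne_zero _ (norm_ne_zero_iff.mpr hρ0)
      · rw [infMat_eq_one_of_triv (hzloc.1 u h), mul_one, mul_one]
    · have h1 : A0.finComp v z = 1 := hzloc.2 v
      rw [finComp_mul, finComp_mul, h1, mul_one, mul_one]

/-! ## The maximal compact subgroups -/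

theorem arch_compact151 (L : WData K) (hG : L.IsGood) (w : InfinitePlace K) (k : A0.G K)
    (hk : A0.IsArchCompact w k) :
    ∃ κ : A0.G K, Adm L.toKData.t L.toKData.n k κ ∧ L.toKData.χT κ = 1 ∧
      ∀ (g m : A0.G K) (ξ : A0.Adl K × A0.Adl K), Adm L.toKData.t L.toKData.n g m →
        L.toKData.F (g * k) (m * κ) ξ = L.toKData.F g m ξ := by
  obtain ⟨N, hN, hχN⟩ := chi_eq_one_of_pow hG.torus
  obtain ⟨hkloc, hkU, hkR⟩ := hk
  have hkU' : embMat w (infMat w k) * (embMat w (infMat w k)).conjTranspose = 1 := hkU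
  have hd0 : (infMat w k).det ≠ 0 := infMat_det_ne_zero w k
  have hdnorm : ‖InfinitePlace.Completion.extensionEmbedding w (infMat w k).det‖ = 1 := by
    rw [← embMat_det]
    exact norm_det_of_unitary hkU'
  obtain ⟨s, hs⟩ : ∃ s : w.Completion, s ^ (2 * N) = (infMat w k).det := by
    rcases w.isReal_or_isComplex with hw | hw
    · refine ⟨1, ?_⟩
      rw [one_pow]
      apply extensionEmbedding_injective w
      rw [map_one, ← embMat_det]
      exact (hkR hw).symm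
    · exact exists_root_of_isComplex hw (by positivity) _
  have hs0 : s ≠ 0 := by
    rintro rfl
    rw [zero_pow (by positivity)] at hs
    exact hd0 hs.symm
  have hσ2 : (s ^ N) ^ 2 = (infMat w k).det := by
    rw [← pow_mul, mul_comm]
    exact hs
  have hσnorm : ‖InfinitePlace.Completion.extensionEmbedding w (s ^ N)‖ = 1 := by
    have h : ‖InfinitePlace.Completion.extensionEmbedding w (s ^ N)‖ ^ 2 = 1 := by
      rw [← norm_pow, ← map_pow, hσ2, hdnorm]
    have h0 := norm_nonneg (InfinitePlace.Completion.extensionEmbedding w (s ^ N))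
    nlinarith [sq_nonneg (‖InfinitePlace.Completion.extensionEmbedding w (s ^ N)‖ - 1),
      sq_nonneg (‖InfinitePlace.Completion.extensionEmbedding w (s ^ N)‖ + 1)]
  have hdet' : (s • (1 : Matrix (Fin 2) (Fin 2) w.Completion)).det ≠ 0 := by
    rw [det_smul_one]
    exact pow_ne_zero 2 hs0
  have hκ'tor : InTorus L.t L.n (locInf w (s • (1 : Matrix (Fin 2) (Fin 2) w.Completion)) hdet') := by
    refine inTorus_of_components (fun u => ?_) (fun v => ?_)
    · by_cases h : u = w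
      · subst h
        rw [infMat_locInf_same]
        exact inTorL_smul_one _ _ _
      · rw [infMat_locInf_ne _ _ _ h]
        exact inTorL_one _ _
    · rw [finComp_locInf]
      exact inTorL_one _ _
  set κ : A0.G K := locInf w (s • (1 : Matrix (Fin 2) (Fin 2) w.Completion)) hdet' ^ N with hκdef
  have hκw : infMat w κ = (s ^ N) • (1 : Matrix (Fin 2) (Fin 2) w.Completion) := by
    rw [hκdef, infMat_pow, infMat_locInf_same, smul_one_pow]
  have hκu : ∀ u : InfinitePlace K, u ≠ w → infMat u κ = 1 := by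
    intro u hu
    rw [hκdef, infMat_pow, infMat_locInf_ne _ _ _ hu, one_pow]
  have hκv : ∀ v : HeightOneSpectrum (𝓞 K), A0.finComp v κ = 1 := by
    intro v
    rw [hκdef, finComp_pow, finComp_locInf, one_pow]
  refine ⟨κ, ⟨inTorus_pow hκ'tor N, ?_⟩, hχN _ hκ'tor, ?_⟩
  · apply Units.ext
    refine adl_ext (fun u => ?_) (fun v => ?_)
    · rw [← infMat_det, ← infMat_det]
      by_cases h : u = w
      · subst h
        rw [hκw, det_smul_one, hσ2]
      · rw [hκu u h, infMat_eq_one_of_triv (hkloc.1 u h)]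
    · have h1 : A0.finComp v k = 1 := hkloc.2 v
      rw [← finComp_det, ← finComp_det, hκv, h1]
  · intro g m ξ hadm
    refine F_congr L (fun u => ?_) (fun v => ?_) ξ
    · rw [infMat_mul, infMat_mul]
      by_cases h : u = w
      · subst h
        funext ξ'
        refine (hG.cpx u).right_inv _ _ hkU' ?_ ?_ ?_ _ _ ξ' (admL_inf L u hadm)
        · rw [hκw, embMat_smul_one]
          exact unitary_smul_one hσnorm
        · rw [hκw]
          exact inTorL_smul_one _ _ _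
        · rw [hκw, det_smul_one, hσ2]
      · rw [hκu u h, infMat_eq_one_of_triv (hkloc.1 u h), mul_one, mul_one]
    · have h1 : A0.finComp v k = 1 := hkloc.2 v
      rw [finComp_mul, finComp_mul, hκv, h1, mul_one, mul_one]

/-! ## The leaf -/

/-- **A2.03.1.6 RIGHT-INV** (`WX467.RightInvC`, VERBATIM), unconditional. -/
theorem rightInvC151 : RightInvC := by
  intro K _ _ L _ hG _
  exact ⟨⟨level151 L hG, arch_scalar151 L hG, arch_compact151 L hG⟩,
    ⟨good_inv151 L hG, cpx_inv151 L hG⟩⟩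

end Fermat.Agent.LT.A2.H151

end

end
-- ===== PACK-END LT/A2/H151/RightInv.lean

-- ===== PACK-BEGIN LT/A2/H456/Loc3.lean
section


/-!
# Row LT, tower A2, leaf A2.02 `TorusCharC` -- top assembly, part 5 (helper456), OFF-MAIN

Local conditions for the torus elements supported at one finite place; the value of `Θ` on them.
-/

set_option autoImplicit false

open IsDedekindDomain NumberField AutomorphicForm
open scoped MatrixGroups

noncomputable section

namespace Fermat.Agent.LT.A2.H456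

open Fermat.Agent.LT.H130 Fermat.Agent.LT.H556 Fermat.Agent.LT.A2 Fermat.Agent.LT.A2.H83

section LocT

variable {K : Type} [Field K] [NumberField K] (t n : K) (v : HeightOneSpectrum (𝓞 K))

local notation "tA" => algebraMap K (A0.Adl K) t
local notation "nA" => algebraMap K (A0.Adl K) n
local notation "cv" => algebraMap K (HeightOneSpectrum.adicCompletion K v)

theorem torMat_apply01_456 {R : Type*} [CommRing R] (t n a b : R) :
    torMat t n a b 0 1 = -(n * b) := by simp [torMat]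

theorem torMat_apply11_456 {R : Type*} [CommRing R] (t n a b : R) :
    torMat t n a b 1 1 = a + t * b := by simp [torMat]

theorem finComp_apply456 (v : HeightOneSpectrum (𝓞 K)) (g : A0.G K) (i j : Fin 2) :
    A0.finComp v g i j = ((g : Matrix (Fin 2) (Fin 2) (A0.Adl K)) i j).2 v := rfl

theorem finComp_locT_same456 (x y : K) (h : nf456 t n x y ≠ 0) :
    A0.finComp v (locT456 t n v x y h) = torMat (cv t) (cv n) (cv x) (cv y) := by
  refine Matrix.ext fun i j => ?_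
  rw [finComp_apply456, locT456_val]
  fin_cases i <;> fin_cases j
  · show (torMat tA nA (locA456 v x) (locB456 v y) 0 0).2 v = torMat (cv t) (cv n) (cv x) (cv y) 0 0
    rw [torMat_apply00_456, torMat_apply00_456, locA456_same]
  · show (torMat tA nA (locA456 v x) (locB456 v y) 0 1).2 v = torMat (cv t) (cv n) (cv x) (cv y) 0 1
    rw [torMat_apply01_456, torMat_apply01_456, adl_snd_neg456, adl_snd_mul456, fin_neg_apply456,
      fin_mul_apply456, locB456_same, algebraMap_adl_snd456, fin_algebraMap_apply456]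
  · show (torMat tA nA (locA456 v x) (locB456 v y) 1 0).2 v = torMat (cv t) (cv n) (cv x) (cv y) 1 0
    rw [torMat_apply10_456, torMat_apply10_456, locB456_same]
  · show (torMat tA nA (locA456 v x) (locB456 v y) 1 1).2 v = torMat (cv t) (cv n) (cv x) (cv y) 1 1
    rw [torMat_apply11_456, torMat_apply11_456, adl_snd_add456, adl_snd_mul456, fin_add_apply456,
      fin_mul_apply456, locA456_same, locB456_same, algebraMap_adl_snd456,
      fin_algebraMap_apply456]

theorem finComp_locT_ne456 (x y : K) (h : nf456 t n x y ≠ 0) {v' : HeightOneSpectrum (𝓞 K)}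
    (hv' : v' ≠ v) : A0.finComp v' (locT456 t n v x y h) = 1 := by
  refine Matrix.ext fun i j => ?_
  rw [finComp_apply456, locT456_val]
  fin_cases i <;> fin_cases j
  · show (torMat tA nA (locA456 v x) (locB456 v y) 0 0).2 v' = (1 : Matrix (Fin 2) (Fin 2) _) 0 0
    rw [torMat_apply00_456, locA456_ne v x hv', Matrix.one_apply_eq]
  · show (torMat tA nA (locA456 v x) (locB456 v y) 0 1).2 v' = (1 : Matrix (Fin 2) (Fin 2) _) 0 1
    rw [torMat_apply01_456, adl_snd_neg456, adl_snd_mul456, fin_neg_apply456,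
      fin_mul_apply456, locB456_ne v y hv', mul_zero, neg_zero,
      Matrix.one_apply_ne (by decide : (0 : Fin 2) ≠ 1)]
  · show (torMat tA nA (locA456 v x) (locB456 v y) 1 0).2 v' = (1 : Matrix (Fin 2) (Fin 2) _) 1 0
    rw [torMat_apply10_456, locB456_ne v y hv',
      Matrix.one_apply_ne (by decide : (1 : Fin 2) ≠ 0)]
  · show (torMat tA nA (locA456 v x) (locB456 v y) 1 1).2 v' = (1 : Matrix (Fin 2) (Fin 2) _) 1 1
    rw [torMat_apply11_456, adl_snd_add456, adl_snd_mul456, fin_add_apply456,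
      fin_mul_apply456, locA456_ne v x hv', locB456_ne v y hv', mul_zero, add_zero,
      Matrix.one_apply_eq]

theorem locT456_trivAtInf (x y : K) (h : nf456 t n x y ≠ 0) (u : InfinitePlace K) :
    A0.TrivAtInf u (locT456 t n v x y h) := by
  intro i j
  rw [locT456_val]
  fin_cases i <;> fin_cases j
  · show (torMat tA nA (locA456 v x) (locB456 v y) 0 0).1 u = (1 : Matrix (Fin 2) (Fin 2) _) 0 0
    rw [torMat_apply00_456, locA456_fst, Matrix.one_apply_eq]
  · show (torMat tA nA (locA456 v x) (locB456 v y) 0 1).1 u = (1 : Matrix (Fin 2) (Fin 2) _) 0 1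
    rw [torMat_apply01_456, adl_fst_neg456, adl_fst_mul456, inf_neg_apply456,
      inf_mul_apply456, locB456_fst, mul_zero, neg_zero,
      Matrix.one_apply_ne (by decide : (0 : Fin 2) ≠ 1)]
  · show (torMat tA nA (locA456 v x) (locB456 v y) 1 0).1 u = (1 : Matrix (Fin 2) (Fin 2) _) 1 0
    rw [torMat_apply10_456, locB456_fst,
      Matrix.one_apply_ne (by decide : (1 : Fin 2) ≠ 0)]
  · show (torMat tA nA (locA456 v x) (locB456 v y) 1 1).1 u = (1 : Matrix (Fin 2) (Fin 2) _) 1 1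
    rw [torMat_apply11_456, adl_fst_add456, adl_fst_mul456, inf_add_apply456,
      inf_mul_apply456, locA456_fst, locB456_fst, mul_zero, add_zero,
      Matrix.one_apply_eq]

theorem locT456_isLocalAtFin (x y : K) (h : nf456 t n x y ≠ 0) :
    A0.IsLocalAtFin v (locT456 t n v x y h) :=
  ⟨fun u => locT456_trivAtInf t n v x y h u,
    fun _ hv' => finComp_locT_ne456 t n v x y h hv'⟩

theorem locT456_isIntegralAt {x y : K} (h : nf456 t n x y ≠ 0)
    (ht : IntAt83 v t) (hn : IntAt83 v n) (hx : IntAt83 v x) (hy : IntAt83 v y) :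
    A0.IsIntegralAt v (locT456 t n v x y h) := by
  intro i j
  rw [finComp_locT_same456]
  unfold IntAt83 at ht hn hx hy
  have hx' : cv x ∈ v.adicCompletionIntegers K := hx
  have hy' : cv y ∈ v.adicCompletionIntegers K := hy
  have ht' : cv t ∈ v.adicCompletionIntegers K := ht
  have hn' : cv n ∈ v.adicCompletionIntegers K := hn
  fin_cases i <;> fin_cases j
  · show torMat (cv t) (cv n) (cv x) (cv y) 0 0 ∈ _
    rw [torMat_apply00_456]; exact hx'
  · show torMat (cv t) (cv n) (cv x) (cv y) 0 1 ∈ _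
    rw [torMat_apply01_456]; exact neg_mem (mul_mem hn' hy')
  · show torMat (cv t) (cv n) (cv x) (cv y) 1 0 ∈ _
    rw [torMat_apply10_456]; exact hy'
  · show torMat (cv t) (cv n) (cv x) (cv y) 1 1 ∈ _
    rw [torMat_apply11_456]; exact add_mem hx' (mul_mem ht' hy')

theorem intAt_of_locT456_isIntegralAt {x y : K} (h : nf456 t n x y ≠ 0)
    (hI : A0.IsIntegralAt v (locT456 t n v x y h)) : IntAt83 v x ∧ IntAt83 v y := by
  have h0 := hI 0 0
  have h1 := hI 1 0
  rw [finComp_locT_same456, torMat_apply00_456] at h0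
  rw [finComp_locT_same456, torMat_apply10_456] at h1
  exact ⟨h0, h1⟩

theorem locT456_val_det (x y : K) (h : nf456 t n x y ≠ 0) :
    Valued.v (A0.finComp v (locT456 t n v x y h)).det = val83 v (nf456 t n x y) := by
  rw [finComp_locT_same456, torMat_det456]
  unfold val83 nf456
  simp only [map_add, map_mul, map_pow]

end LocT

section ThetaLoc

variable {K L : Type} [Field K] [NumberField K] [Field L] [NumberField L] [Algebra K L]
variable {t n : K} {ω : L} {ι : FiniteAdeleRing (𝓞 K) K →+* FiniteAdeleRing (𝓞 L) L}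

theorem thetaG_locT456 (v : HeightOneSpectrum (𝓞 K)) (x y : K) (h : nf456 t n x y ≠ 0) :
    thetaG456 ω ι (locT456 t n v x y h) = theta456 ι ω (locA456 v x) (locB456 v y) :=
  thetaG456_of_eq (locT456_val t n v x y h)

theorem thetaG_locT456_fst (v : HeightOneSpectrum (𝓞 K)) (x y : K) (h : nf456 t n x y ≠ 0) :
    (thetaG456 ω ι (locT456 t n v x y h)).1 = 1 := by
  rw [thetaG_locT456]; rfl

theorem thetaG_locT456_over (hι : IsBC456 ι) (v : HeightOneSpectrum (𝓞 K)) (x y : K)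
    (h : nf456 t n x y ≠ 0) {w : HeightOneSpectrum (𝓞 L)} (hw : LiesOverPl K w v) :
    (thetaG456 ω ι (locT456 t n v x y h)).2 w
      = algebraMap L (w.adicCompletion L) (elt83 ω x y) := by
  rw [thetaG_locT456, theta456_snd, fin_add_apply456, fin_mul_apply456,
    hι _ v w x hw (locA456_same v x), hι _ v w y hw (locB456_same v y), fin_algebraMap_apply456]
  unfold elt83
  rw [map_add, map_mul]

theorem thetaG_locT456_not_over (hι : IsBC456 ι) (v : HeightOneSpectrum (𝓞 K)) (x y : K)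
    (h : nf456 t n x y ≠ 0) {w : HeightOneSpectrum (𝓞 L)} (hw : ¬ LiesOverPl K w v) :
    (thetaG456 ω ι (locT456 t n v x y h)).2 w = 1 := by
  have hne : below456 K w ≠ v := by
    intro h1
    exact hw (h1 ▸ liesOver_below456 w)
  have hA : (locA456 v x).2 (below456 K w)
      = algebraMap K ((below456 K w).adicCompletion K) 1 := by
    rw [locA456_ne v x hne, map_one]
  have hB : (locB456 v y).2 (below456 K w)
      = algebraMap K ((below456 K w).adicCompletion K) 0 := by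
    rw [locB456_ne v y hne, map_zero]
  rw [thetaG_locT456, theta456_snd, fin_add_apply456, fin_mul_apply456,
    hι _ _ w 1 (liesOver_below456 w) hA, hι _ _ w 0 (liesOver_below456 w) hB]
  simp only [map_one, map_zero, zero_mul, add_zero]

end ThetaLoc

end Fermat.Agent.LT.A2.H456

end

end
-- ===== PACK-END LT/A2/H456/Loc3.lean

-- ===== PACK-BEGIN LT/A2/H456/Idele.lean
section


/-!
# Row LT, tower A2, leaf A2.02 `TorusCharC` -- top assembly, part 6 (helper456), OFF-MAIN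

The value of a character on an idele supported at one or two finite places where it is
unramified.
-/

set_option autoImplicit false

open IsDedekindDomain NumberField AutomorphicForm
open scoped MatrixGroups

noncomputable section

namespace Fermat.Agent.LT.A2.H456

open Fermat.Agent.LT.H130 Fermat.Agent.LT.H556 Fermat.Agent.LT.A2 Fermat.Agent.LT.A2.H83

variable {K : Type} [Field K] [NumberField K]

theorem idele_snd_ne_zero456 (z : (A0.Adl K)ˣ) (v : HeightOneSpectrum (𝓞 K)) :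
    (z : A0.Adl K).2 v ≠ 0 := by
  intro h00
  have h := idele_snd_mul_inv456 z v
  rw [h00, zero_mul] at h
  exact zero_ne_one h

theorem isIdeleAt_one456 (v : HeightOneSpectrum (𝓞 K)) : IsIdeleAt v (1 : (A0.Adl K)ˣ) :=
  ⟨fun _ => rfl, fun _ _ => rfl⟩

/-- An idele with trivial infinite components, trivial outside `w₁ ≠ w₂`, is the product of its
local components. -/
theorem unit_eq_two456 {w₁ w₂ : HeightOneSpectrum (𝓞 K)} (hne : w₁ ≠ w₂) (U : (A0.Adl K)ˣ)
    (h1 : ∀ u, (U : A0.Adl K).1 u = 1)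
    (h2 : ∀ w, w ≠ w₁ → w ≠ w₂ → (U : A0.Adl K).2 w = 1) :
    U = idl456 w₁ (Units.mk0 _ (idele_snd_ne_zero456 U w₁))
      * idl456 w₂ (Units.mk0 _ (idele_snd_ne_zero456 U w₂)) := by
  apply Units.ext
  rw [Units.val_mul, idl456_val, idl456_val]
  apply adl_ext456
  · funext u
    rw [h1 u, adl_fst_mul456, aLoc456_fst, aLoc456_fst, mul_one]
    rfl
  · apply FiniteAdeleRing.ext
    intro w
    rw [adl_snd_mul456, fin_mul_apply456, aLoc456_snd, aLoc456_snd]
    by_cases hw1 : w = w₁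
    · subst hw1
      rw [fOne456_same, fOne456_ne _ _ hne, mul_one]
      rfl
    · by_cases hw2 : w = w₂
      · subst hw2
        rw [fOne456_same, fOne456_ne _ _ hw1, one_mul]
        rfl
      · rw [fOne456_ne _ _ hw1, fOne456_ne _ _ hw2, h2 w hw1 hw2, mul_one]

/-- An idele with trivial infinite components, trivial outside `w`, is its local component. -/
theorem unit_eq_one456 {w : HeightOneSpectrum (𝓞 K)} (U : (A0.Adl K)ˣ)
    (h1 : ∀ u, (U : A0.Adl K).1 u = 1)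
    (h2 : ∀ w', w' ≠ w → (U : A0.Adl K).2 w' = 1) :
    U = idl456 w (Units.mk0 _ (idele_snd_ne_zero456 U w)) := by
  apply Units.ext
  rw [idl456_val]
  apply adl_ext456
  · funext u
    rw [h1 u, aLoc456_fst]
    rfl
  · apply FiniteAdeleRing.ext
    intro w'
    rw [aLoc456_snd]
    by_cases hw1 : w' = w
    · subst hw1
      rw [fOne456_same]
      rfl
    · rw [fOne456_ne _ _ hw1, h2 w' hw1]

theorem chi_two456 {χ : (A0.Adl K)ˣ →* ℂˣ} {w₁ w₂ : HeightOneSpectrum (𝓞 K)} (hne : w₁ ≠ w₂)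
    (hχ1 : UnramAt χ w₁) (hχ2 : UnramAt χ w₂) (U : (A0.Adl K)ˣ)
    (h1 : ∀ u, (U : A0.Adl K).1 u = 1)
    (h2 : ∀ w, w ≠ w₁ → w ≠ w₂ → (U : A0.Adl K).2 w = 1)
    {z₁ z₂ : (A0.Adl K)ˣ} (hz1 : IsIdeleAt w₁ z₁) (hz2 : IsIdeleAt w₂ z₂)
    (hv1 : Valued.v ((U : A0.Adl K).2 w₁) = Valued.v ((z₁ : A0.Adl K).2 w₁))
    (hv2 : Valued.v ((U : A0.Adl K).2 w₂) = Valued.v ((z₂ : A0.Adl K).2 w₂)) :
    χ U = χ z₁ * χ z₂ := by
  conv_lhs => rw [unit_eq_two456 hne U h1 h2]
  rw [map_mul]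
  congr 1
  · apply chi_eq_of_unram456 hχ1 (idl456_isIdeleAt _ _) hz1
    rw [idl456_at]
    exact hv1
  · apply chi_eq_of_unram456 hχ2 (idl456_isIdeleAt _ _) hz2
    rw [idl456_at]
    exact hv2

theorem chi_one456 {χ : (A0.Adl K)ˣ →* ℂˣ} {w : HeightOneSpectrum (𝓞 K)}
    (hχ : UnramAt χ w) (U : (A0.Adl K)ˣ)
    (h1 : ∀ u, (U : A0.Adl K).1 u = 1)
    (h2 : ∀ w', w' ≠ w → (U : A0.Adl K).2 w' = 1)
    {z : (A0.Adl K)ˣ} (hz : IsIdeleAt w z)
    (hv : Valued.v ((U : A0.Adl K).2 w) = Valued.v ((z : A0.Adl K).2 w)) :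
    χ U = χ z :=
  chi_eq_of_unram456 hχ ⟨h1, h2⟩ hz hv

end Fermat.Agent.LT.A2.H456

end

end
-- ===== PACK-END LT/A2/H456/Idele.lean

-- ===== PACK-BEGIN LT/A2/H456/Rat.lean
section


/-!
# Row LT, tower A2, leaf A2.02 `TorusCharC` -- top assembly, part 7 (helper456), OFF-MAIN

`χT` is trivial on `T(K)`; `χT` is not trivial on `T¹(𝔸_K)`.
-/

set_option autoImplicit false

open IsDedekindDomain NumberField AutomorphicForm
open scoped MatrixGroups

noncomputable section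

namespace Fermat.Agent.LT.A2.H456

open Fermat.Agent.LT.H130 Fermat.Agent.LT.H556 Fermat.Agent.LT.A2 Fermat.Agent.LT.A2.H83

variable {K L : Type} [Field K] [NumberField K] [Field L] [NumberField L] [Algebra K L]
variable {t n : K} {ω : L} {ι : FiniteAdeleRing (𝓞 K) K →+* FiniteAdeleRing (𝓞 L) L}
  {χ : (A0.Adl L)ˣ →* ℂˣ}

/-! ## Algebra in the coordinates `1, ω` -/

theorem nf456_mul (t n x y x' y' : K) :
    nf456 t n (tm1_456 n x y x' y') (tm2_456 t x y x' y') = nf456 t n x y * nf456 t n x' y' := by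
  unfold nf456 tm1_456 tm2_456
  ring

theorem elt83_mul456 (hrel : ω ^ 2 - algebraMap K L t * ω + algebraMap K L n = 0)
    (x y x' y' : K) :
    elt83 ω (tm1_456 n x y x' y') (tm2_456 t x y x' y') = elt83 ω x y * elt83 ω x' y' := by
  unfold elt83 tm1_456 tm2_456
  simp only [map_sub, map_add, map_mul]
  linear_combination (-(algebraMap K L y * algebraMap K L y')) * hrel

theorem elt83_ne_zero456 (hrel : ω ^ 2 - algebraMap K L t * ω + algebraMap K L n = 0)
    (hirr : ∀ x : K, x ^ 2 - t * x + n ≠ 0) {x y : K} (h : x ≠ 0 ∨ y ≠ 0) :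
    elt83 ω x y ≠ 0 := by
  intro h0
  unfold elt83 at h0
  by_cases hy : y = 0
  · subst hy
    rw [map_zero, zero_mul, add_zero] at h0
    have hx : x = 0 := (map_eq_zero _).mp h0
    rcases h with h | h
    · exact h hx
    · exact h rfl
  · have hy' : algebraMap K L y ≠ 0 := by rw [Ne, map_eq_zero]; exact hy
    have hω : ω = algebraMap K L (-x / y) := by
      rw [map_div₀, map_neg, eq_div_iff hy']
      linear_combination h0
    apply hirr (-x / y)
    apply (algebraMap K L).injective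
    rw [map_zero, map_add, map_sub, map_mul, map_pow, ← hω]
    exact hrel

theorem nf456_ne_zero_imp {x y : K} (h : nf456 t n x y ≠ 0) : x ≠ 0 ∨ y ≠ 0 := by
  by_contra hc
  rw [not_or, not_not, not_not] at hc
  apply h
  unfold nf456
  rw [hc.1, hc.2]
  ring

/-! ## `rat` -/

theorem nf456_ne_zero_of_inTorusRat {m : A0.G K} {a b : K}
    (hab : (m : Matrix (Fin 2) (Fin 2) (A0.Adl K))
      = torMat (algebraMap K (A0.Adl K) t) (algebraMap K (A0.Adl K) n)
        (algebraMap K (A0.Adl K) a) (algebraMap K (A0.Adl K) b)) :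
    nf456 t n a b ≠ 0 := by
  intro h0
  have hd := det_torus456 t n hab
  have h1 : algebraMap K (A0.Adl K) a ^ 2
      + algebraMap K (A0.Adl K) t * algebraMap K (A0.Adl K) a * algebraMap K (A0.Adl K) b
      + algebraMap K (A0.Adl K) n * algebraMap K (A0.Adl K) b ^ 2
      = algebraMap K (A0.Adl K) (nf456 t n a b) := by
    unfold nf456
    simp only [map_add, map_mul, map_pow]
  rw [h1, h0, map_zero] at hd
  have h2 := Units.mul_inv (Matrix.GeneralLinearGroup.det m)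
  rw [hd, zero_mul] at h2
  have h3 : algebraMap K (A0.Adl K) 0 = algebraMap K (A0.Adl K) 1 := by
    rw [map_zero, map_one]; exact h2
  exact zero_ne_one (NumberField.AdeleRing.algebraMap_injective (𝓞 K) K h3)

theorem chiT456_rat (hrel : ω ^ 2 - algebraMap K L t * ω + algebraMap K L n = 0)
    (hirr : ∀ x : K, x ^ 2 - t * x + n ≠ 0) (hι : IsBC456 ι)
    (hInf : ∀ z : (A0.Adl L)ˣ, (∀ w : HeightOneSpectrum (𝓞 L), (z : A0.Adl L).2 w = 1) → χ z = 1)
    (hχ : IsIdeleClassChar χ) (m : A0.G K) (hm : InTorusRat t n m) :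
    chiT456 ω ι χ m = 1 := by
  obtain ⟨a, b, hab⟩ := hm
  have hT : InTorus t n m := ⟨_, _, hab⟩
  have hnf := nf456_ne_zero_of_inTorusRat hab
  have hα : elt83 ω a b ≠ 0 := elt83_ne_zero456 hrel hirr (nf456_ne_zero_imp hnf)
  rw [chiT456_eq hrel hι m hT]
  set U := unitT456 hrel hι m hT with hU
  set P : (A0.Adl L)ˣ := Units.map (algebraMap L (A0.Adl L)).toMonoidHom (Units.mk0 _ hα) with hP
  have hPU : ∀ w : HeightOneSpectrum (𝓞 L), (P : A0.Adl L).2 w = (U : A0.Adl L).2 w := by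
    intro w
    rw [hU, unitT456_val, thetaG456_of_eq hab, theta456_snd, algebraMap_adl_snd456,
      algebraMap_adl_snd456, isBC456_algebraMap hι, isBC456_algebraMap hι, fin_add_apply456,
      fin_mul_apply456, fin_algebraMap_apply456, fin_algebraMap_apply456,
      fin_algebraMap_apply456]
    show algebraMap L (w.adicCompletion L) (elt83 ω a b) = _
    unfold elt83
    rw [map_add, map_mul]
  have hZ : χ (P⁻¹ * U) = 1 := by
    apply hInf
    intro w
    rw [Units.val_mul, adl_snd_mul456, fin_mul_apply456, ← hPU w, mul_comm]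
    exact idele_snd_mul_inv456 P w
  have hPt : χ P = 1 := hχ.triv _
  rw [map_mul, map_inv, hPt, inv_one, one_mul] at hZ
  rw [hZ, Units.val_one]

end Fermat.Agent.LT.A2.H456

end

end
-- ===== PACK-END LT/A2/H456/Rat.lean

-- ===== PACK-BEGIN LT/A2/H83/WeylOp.lean
section


/-!
# Row LT, tower A2, station LOC-FIN (cut LF54 of helper54), leaf 14 `LeafWeylOp` (helper83)

OFF-MAIN.  The LEFT rule of the Weyl element for the Bruhat formulas `rOp`:
`rOp (w h) Φ = γ · FT (rOp h Φ)`, `det h = 1`, `h = [[a, b], [c, d]]`, in three cases: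

* `c = 0`: the dilation `y ↦ a y` (`CovP`);
* `c ≠ 0`, `a = 0`: the dilation by `-c⁻¹`, Fourier inversion (`InvP`), `γ² c₀ = η(-1)`;
* `c ≠ 0`, `a ≠ 0`: the dilation by `-c⁻¹`, the Gauss identity (`GaussP`) at `a c`,
  `γ ‖a c‖ G(a c) = η(-a c)`, and `d Q(z)/c - Q(z - c ξ)/(a c) = (b Q(z) + B(ξ, z) - c Q(ξ))/a`.
-/

set_option autoImplicit false
set_option linter.unusedSectionVars false
set_option linter.unusedSimpArgs false
set_option linter.style.haveILetI false

open IsDedekindDomain NumberField MeasureTheory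
open scoped Topology

noncomputable section

namespace Fermat.Agent.LT.A2.H83

open Fermat.Agent.LT.A2 Fermat.Agent.LT.A2.WX467 Fermat.Agent.LT.A2.LF54

section Forms

variable {k : Type} [NormedField k]

theorem qfL_smul83 (t n a : k) (y : k × k) : qfL t n (a • y) = a ^ 2 * qfL t n y := by
  unfold qfL
  simp only [Prod.smul_fst, Prod.smul_snd, smul_eq_mul]
  ring

theorem bfL_smul_right83 (t n a : k) (ξ y : k × k) : bfL t n ξ (a • y) = a * bfL t n ξ y := by
  unfold bfL qfL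
  simp only [Prod.smul_fst, Prod.smul_snd, smul_eq_mul, Prod.fst_add, Prod.snd_add]
  ring

theorem bfL_smul_left83 (t n a : k) (ξ y : k × k) : bfL t n (a • ξ) y = a * bfL t n ξ y := by
  unfold bfL qfL
  simp only [Prod.smul_fst, Prod.smul_snd, smul_eq_mul, Prod.fst_add, Prod.snd_add]
  ring

theorem bfL_comm83 (t n : k) (ξ y : k × k) : bfL t n ξ y = bfL t n y ξ := by
  unfold bfL qfL
  simp only [Prod.fst_add, Prod.snd_add]
  ring

theorem qfL_add83 (t n : k) (z ξ : k × k) :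
    qfL t n (z + ξ) = qfL t n z + bfL t n ξ z + qfL t n ξ := by
  unfold bfL qfL
  simp only [Prod.fst_add, Prod.snd_add]
  ring

theorem rOp_of_eq83 (t n : k) (ψ : k → ℂ) (μ : @Measure k (borel k)) (γ : ℂ) (η : k → ℂ)
    (h : Matrix (Fin 2) (Fin 2) k) (hc : h 1 0 = 0) (Φ : k × k → ℂ) (ξ : k × k) :
    rOp t n ψ μ γ η h Φ ξ
      = η (h 0 0) * ((‖h 0 0‖ : ℝ) : ℂ) * ψ (h 0 0 * h 0 1 * qfL t n ξ) * Φ (h 0 0 • ξ) := by
  unfold rOp
  rw [if_pos hc]

theorem rOp_of_ne83 (t n : k) (ψ : k → ℂ) (μ : @Measure k (borel k)) (γ : ℂ) (η : k → ℂ)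
    (h : Matrix (Fin 2) (Fin 2) k) (hc : h 1 0 ≠ 0) (Φ : k × k → ℂ) (ξ : k × k) :
    rOp t n ψ μ γ η h Φ ξ
      = γ * η (-(h 1 0)) * ((‖h 1 0‖⁻¹ : ℝ) : ℂ) *
        intL μ fun y =>
          ψ ((h 0 0 * qfL t n ξ - bfL t n ξ y + h 1 1 * qfL t n y) / h 1 0) * Φ y := by
  unfold rOp
  rw [if_neg hc]

theorem wmul_apply83 (h : Matrix (Fin 2) (Fin 2) k) :
    ((!![0, 1; -1, 0] : Matrix (Fin 2) (Fin 2) k) * h) 0 0 = h 1 0 ∧
    ((!![0, 1; -1, 0] : Matrix (Fin 2) (Fin 2) k) * h) 0 1 = h 1 1 ∧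
    ((!![0, 1; -1, 0] : Matrix (Fin 2) (Fin 2) k) * h) 1 0 = -h 0 0 ∧
    ((!![0, 1; -1, 0] : Matrix (Fin 2) (Fin 2) k) * h) 1 1 = -h 0 1 := by
  refine ⟨?_, ?_, ?_, ?_⟩ <;> simp [Matrix.mul_apply, Fin.sum_univ_two]

end Forms

section Core

variable {k : Type} [NormedField k] [IsUltrametricDist k]

/-- The inner integral of the Bruhat formula as a Fourier transform:
`∫ ψ((a Q(y) - B(y, z) + d Q(z)) / c) Φ(z) dz = ψ(a Q(y) / c) · FT(ψ(d Q / c) Φ)(-y / c)`. -/
theorem inner_eq_ft83 (t n : k) (ψ : k → ℂ) (μ : @Measure k (borel k))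
    (hadd : ∀ x y : k, ψ (x + y) = ψ x * ψ y) (a d c : k) (hc : c ≠ 0)
    (Φ : k × k → ℂ) (y : k × k) :
    (intL μ fun z => ψ ((a * qfL t n y - bfL t n y z + d * qfL t n z) / c) * Φ z)
      = ψ (a * qfL t n y / c) *
        ftL t n ψ μ (fun z => ψ (d / c * qfL t n z) * Φ z) ((-c⁻¹) • y) := by
  unfold ftL
  rw [← intL_const_mul83]
  apply intL_congr83
  intro z
  have e : (a * qfL t n y - bfL t n y z + d * qfL t n z) / c
      = a * qfL t n y / c + (d / c * qfL t n z + bfL t n ((-c⁻¹) • y) z) := by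
    rw [bfL_smul_left83]
    field_simp
    ring
  rw [e, hadd, hadd]
  ring

/-- **The left rule of the Weyl element**, abstract form. -/
theorem weylOp_core83 (t n : k) (ψ : k → ℂ) (μ : @Measure k (borel k)) (c₀ : ℝ) (G : k → ℂ)
    (γ : ℂ) (η : k → ℂ) (hctx : Ctx t n ψ μ) (hF : FourierCert t n ψ μ c₀ G)
    (hE : EtaCert t n c₀ G γ η) : WeylOpP t n ψ μ γ η := by
  intro h hdet Φ hΦ ξ
  have hψ := hctx.char
  have hadd : ∀ x y : k, ψ (x + y) = ψ x * ψ y := hψ.2.1
  obtain ⟨e00, e01, e10, e11⟩ := wmul_apply83 h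
  have hdet' : h 0 0 * h 1 1 - h 0 1 * h 1 0 = 1 := by rw [← hdet, Matrix.det_fin_two]
  have hηsq : ∀ x : k, x ≠ 0 → η x * η x = 1 := by
    intro x hx
    rcases hE.eta_sq x hx with h1 | h1 <;> rw [h1] <;> norm_num
  unfold ftL
  by_cases hc : h 1 0 = 0
  · -- `c = 0`
    have ha : h 0 0 ≠ 0 := by
      intro h0
      rw [h0, hc] at hdet'
      simp at hdet'
    have hne : ((!![0, 1; -1, 0] : Matrix (Fin 2) (Fin 2) k) * h) 1 0 ≠ 0 := by
      rw [e10]; exact neg_ne_zero.mpr ha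
    rw [rOp_of_ne83 t n ψ μ γ η _ hne, e00, e10, e11, neg_neg, norm_neg]
    -- the function `f`
    set f : k × k → ℂ := fun y =>
      ψ ((h 1 0 * qfL t n ξ - bfL t n ξ y + -h 0 1 * qfL t n y) / -h 0 0) * Φ y with hf
    have hfSB : LF54.IsSB f := by
      apply isSB_mul_left83 hΦ
      apply locConst_psi_comp83 hψ
      have h1 := continuous_bfL_right83 t n ξ
      have h2 := continuous_qfL83 t n
      fun_prop
    have hcov := intL_smul83 hF.cov ha hfSB
    have hRHS : (intL μ fun y => rOp t n ψ μ γ η h Φ y * ψ (bfL t n ξ y))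
        = (η (h 0 0) * ((‖h 0 0‖ : ℝ) : ℂ)) * intL μ (fun y => f (h 0 0 • y)) := by
      rw [← intL_const_mul83]
      apply intL_congr83
      intro y
      rw [rOp_of_eq83 t n ψ μ γ η h hc, hf]
      simp only
      have e : (h 1 0 * qfL t n ξ - bfL t n ξ (h 0 0 • y) + -h 0 1 * qfL t n (h 0 0 • y)) / -h 0 0
          = h 0 0 * h 0 1 * qfL t n y + bfL t n ξ y := by
        rw [bfL_smul_right83, qfL_smul83, hc]
        field_simp
        ring
      rw [e, hadd]
      ring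
    rw [hRHS, hcov]
    have hna : (‖h 0 0‖ : ℝ) ≠ 0 := norm_ne_zero_iff.mpr ha
    have hnaC : ((‖h 0 0‖ : ℝ) : ℂ) ≠ 0 := by exact_mod_cast hna
    push_cast
    field_simp
  · -- `c ≠ 0`
    have hnc : (‖h 1 0‖ : ℝ) ≠ 0 := norm_ne_zero_iff.mpr hc
    have hncC : ((‖h 1 0‖ : ℝ) : ℂ) ≠ 0 := by exact_mod_cast hnc
    -- `Ψ = ψ(d Q / c) Φ`
    set Ψ : k × k → ℂ := fun z => ψ (h 1 1 / h 1 0 * qfL t n z) * Φ z with hΨ
    have hΨSB : LF54.IsSB Ψ := by
      apply isSB_mul_left83 hΦ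
      apply locConst_psi_comp83 hψ
      have h2 := continuous_qfL83 t n
      fun_prop
    have hFTΨ : LF54.IsSB (LF54.ftL t n ψ μ Ψ) := hF.ft_sb Ψ hΨSB
    have hci : -(h 1 0)⁻¹ ≠ 0 := neg_ne_zero.mpr (inv_ne_zero hc)
    have hrop : ∀ y : k × k, rOp t n ψ μ γ η h Φ y
        = γ * η (-(h 1 0)) * ((‖h 1 0‖⁻¹ : ℝ) : ℂ) *
          (ψ (h 0 0 * qfL t n y / h 1 0) * LF54.ftL t n ψ μ Ψ ((-(h 1 0)⁻¹) • y)) := by
      intro y
      rw [rOp_of_ne83 t n ψ μ γ η h hc, inner_eq_ft83 t n ψ μ hadd _ _ _ hc]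
    by_cases ha : h 0 0 = 0
    · -- `a = 0`
      have heq : ((!![0, 1; -1, 0] : Matrix (Fin 2) (Fin 2) k) * h) 1 0 = 0 := by
        rw [e10, ha, neg_zero]
      rw [rOp_of_eq83 t n ψ μ γ η _ heq, e00, e01]
      set f₂ : k × k → ℂ := fun y =>
        LF54.ftL t n ψ μ Ψ y * ψ (bfL t n ((-h 1 0) • ξ) y) with hf₂
      have hf₂SB : LF54.IsSB f₂ := by
        apply isSB_mul_right83 hFTΨ
        apply locConst_psi_comp83 hψ
        exact continuous_bfL_right83 t n _
      have hcov := intL_smul83 hF.cov hci hf₂SB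
      have hinv := hF.inv Ψ hΨSB ((-h 1 0) • ξ)
      have hint : intL μ f₂ = (c₀ : ℂ) * Ψ (h 1 0 • ξ) := by
        have : intL μ f₂ = LF54.ftL t n ψ μ (LF54.ftL t n ψ μ Ψ) ((-h 1 0) • ξ) := rfl
        rw [this, hinv]
        congr 2
        rw [neg_smul, neg_neg]
      have hRHS : (intL μ fun y => rOp t n ψ μ γ η h Φ y * ψ (bfL t n ξ y))
          = (γ * η (-(h 1 0)) * ((‖h 1 0‖⁻¹ : ℝ) : ℂ)) *
            intL μ (fun y => f₂ ((-(h 1 0)⁻¹) • y)) := by
        rw [← intL_const_mul83]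
        apply intL_congr83
        intro y
        rw [hrop y, hf₂]
        simp only
        have e1 : h 0 0 * qfL t n y / h 1 0 = 0 := by rw [ha]; simp
        have e2 : bfL t n ((-h 1 0) • ξ) ((-(h 1 0)⁻¹) • y) = bfL t n ξ y := by
          rw [bfL_smul_left83, bfL_smul_right83]
          field_simp
        rw [e1, psi_zero83 ψ hadd hψ.2.2.1, e2]
        ring
      rw [hRHS, hcov, hint, hΨ]
      simp only
      have e3 : h 1 1 / h 1 0 * qfL t n (h 1 0 • ξ) = h 1 0 * h 1 1 * qfL t n ξ := by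
        rw [qfL_smul83]
        field_simp
      rw [e3]
      have hη : η (-1) * η (-(h 1 0)) = η (h 1 0) := by
        rw [← hE.eta_mul (-1) (-(h 1 0)) (by norm_num) (neg_ne_zero.mpr hc)]
        congr 1
        ring
      have hw2 := hE.w2
      have hnorm : ‖-(h 1 0)⁻¹‖ = ‖h 1 0‖⁻¹ := by rw [norm_neg, norm_inv]
      rw [hnorm]
      push_cast
      have key : γ * (γ * η (-(h 1 0)) * (‖h 1 0‖ : ℂ)⁻¹ *
          ((((‖h 1 0‖ : ℂ)⁻¹) ^ 2)⁻¹ * ((c₀ : ℂ) * (ψ (h 1 0 * h 1 1 * qfL t n ξ) * Φ (h 1 0 • ξ)))))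
          = (γ ^ 2 * (c₀ : ℂ)) * η (-(h 1 0)) * (‖h 1 0‖ : ℂ) *
            ψ (h 1 0 * h 1 1 * qfL t n ξ) * Φ (h 1 0 • ξ) := by
        field_simp
      rw [key, hw2, hη]
    · -- `a ≠ 0`
      have hne : ((!![0, 1; -1, 0] : Matrix (Fin 2) (Fin 2) k) * h) 1 0 ≠ 0 := by
        rw [e10]; exact neg_ne_zero.mpr ha
      have hna : (‖h 0 0‖ : ℝ) ≠ 0 := norm_ne_zero_iff.mpr ha
      have hnaC : ((‖h 0 0‖ : ℝ) : ℂ) ≠ 0 := by exact_mod_cast hna
      rw [rOp_of_ne83 t n ψ μ γ η _ hne, e00, e10, e11, neg_neg, norm_neg]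
      set f₃ : k × k → ℂ := fun y =>
        (ψ (h 0 0 * h 1 0 * qfL t n y) * LF54.ftL t n ψ μ Ψ y)
          * ψ (bfL t n ((-h 1 0) • ξ) y) with hf₃
      have hf₃SB : LF54.IsSB f₃ := by
        apply isSB_mul_right83
        · apply isSB_mul_left83 hFTΨ
          apply locConst_psi_comp83 hψ
          have h2 := continuous_qfL83 t n
          fun_prop
        · apply locConst_psi_comp83 hψ
          exact continuous_bfL_right83 t n _
      have hcov := intL_smul83 hF.cov hci hf₃SB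
      have hac : h 0 0 * h 1 0 ≠ 0 := mul_ne_zero ha hc
      have hgauss := hF.gauss (h 0 0 * h 1 0) hac Ψ hΨSB ((-h 1 0) • ξ)
      have hint : intL μ f₃ = G (h 0 0 * h 1 0) *
          intL μ fun z => Ψ z * ψ (-(qfL t n (z + (-h 1 0) • ξ)) / (h 0 0 * h 1 0)) := by
        have : intL μ f₃ = LF54.ftL t n ψ μ
            (fun y => ψ (h 0 0 * h 1 0 * qfL t n y) * LF54.ftL t n ψ μ Ψ y) ((-h 1 0) • ξ) := rfl
        rw [this, hgauss]
      have hRHS : (intL μ fun y => rOp t n ψ μ γ η h Φ y * ψ (bfL t n ξ y))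
          = (γ * η (-(h 1 0)) * ((‖h 1 0‖⁻¹ : ℝ) : ℂ)) *
            intL μ (fun y => f₃ ((-(h 1 0)⁻¹) • y)) := by
        rw [← intL_const_mul83]
        apply intL_congr83
        intro y
        rw [hrop y, hf₃]
        simp only
        have e1 : h 0 0 * h 1 0 * qfL t n ((-(h 1 0)⁻¹) • y) = h 0 0 * qfL t n y / h 1 0 := by
          rw [qfL_smul83]
          field_simp
        have e2 : bfL t n ((-h 1 0) • ξ) ((-(h 1 0)⁻¹) • y) = bfL t n ξ y := by
          rw [bfL_smul_left83, bfL_smul_right83]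
          field_simp
        rw [e1, e2]
        ring
      have hLHS : (intL μ fun y =>
            ψ ((h 1 0 * qfL t n ξ - bfL t n ξ y + -h 0 1 * qfL t n y) / -h 0 0) * Φ y)
          = intL μ fun z => Ψ z * ψ (-(qfL t n (z + (-h 1 0) • ξ)) / (h 0 0 * h 1 0)) := by
        apply intL_congr83
        intro z
        rw [hΨ]
        simp only
        have e : (h 1 0 * qfL t n ξ - bfL t n ξ z + -h 0 1 * qfL t n z) / -h 0 0
            = h 1 1 / h 1 0 * qfL t n z
              + -(qfL t n (z + (-h 1 0) • ξ)) / (h 0 0 * h 1 0) := by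
          rw [qfL_add83, bfL_smul_left83, qfL_smul83]
          field_simp
          linear_combination (-(qfL t n z)) * hdet'
        rw [e, hadd]
        ring
      rw [hRHS, hcov, hint, hLHS]
      have hη : η (-(h 1 0)) * η (-(h 0 0 * h 1 0)) = η (h 0 0) := by
        rw [← hE.eta_mul (-(h 1 0)) (-(h 0 0 * h 1 0)) (neg_ne_zero.mpr hc)
          (neg_ne_zero.mpr hac)]
        have : -(h 1 0) * -(h 0 0 * h 1 0) = h 0 0 * (h 1 0 * h 1 0) := by ring
        rw [this, hE.eta_mul _ _ ha (mul_ne_zero hc hc), hE.eta_mul _ _ hc hc, hηsq _ hc,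
          mul_one]
      have hge := hE.gauss_eta (h 0 0 * h 1 0) hac
      rw [norm_mul] at hge
      have hnorm : ‖-(h 1 0)⁻¹‖ = ‖h 1 0‖⁻¹ := by rw [norm_neg, norm_inv]
      rw [hnorm]
      push_cast at hge ⊢
      set I := intL μ fun z => Ψ z * ψ (-(qfL t n (z + (-h 1 0) • ξ)) / (h 0 0 * h 1 0))
      have key : γ * (γ * η (-(h 1 0)) * (‖h 1 0‖ : ℂ)⁻¹ *
          ((((‖h 1 0‖ : ℂ)⁻¹) ^ 2)⁻¹ * (G (h 0 0 * h 1 0) * I)))
          = γ * η (-(h 1 0)) * (γ * ((‖h 0 0‖ : ℂ) * (‖h 1 0‖ : ℂ)) * G (h 0 0 * h 1 0))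
            * (‖h 0 0‖ : ℂ)⁻¹ * I := by
        field_simp
      rw [key, hge]
      have : γ * η (-(h 1 0)) * η (-(h 0 0 * h 1 0)) * (‖h 0 0‖ : ℂ)⁻¹ * I
          = γ * (η (-(h 1 0)) * η (-(h 0 0 * h 1 0))) * (‖h 0 0‖ : ℂ)⁻¹ * I := by ring
      rw [this, hη]

end Core

/-- **LF54.14 `LeafWeylOp`** (helper83), VERBATIM. -/
theorem leafWeylOp_h83 : LF54.LeafWeylOp := by
  intro K _ _ v t n ψ μ c G γ η hctx hF hE
  exact weylOp_core83 t n ψ μ c G γ η hctx hF hE

end Fermat.Agent.LT.A2.H83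

end

end
-- ===== PACK-END LT/A2/H83/WeylOp.lean

-- ===== PACK-BEGIN LT/A2/H79/GaussOps.lean
section




/-!
# Row LT, tower A2, station A2.03.1.1.06: OPERATOR CALCULUS on Schwartz--Bruhat functions (helper79)

OFF-MAIN.  On `LT/A2/H54/LocFinSpec.lean` (helper54, sha256 `8ccd9c5c…`) and the kit
`LT/A2/H83/{SBKit,WeylOp}.lean` of helper83 (byte-identical copies).  Abstract: `k` is an
ultrametric normed field.

Operators on functions `k² → ℂ`: `F = ftL` (Fourier transform), `M_a` = multiplication by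
`ψ(a Q)` (`Mo79`), `D_e` = dilation `Φ(e ·)` (`Do79`), `S_s` = multiplication by the scalar `s`
(`So79`), `A_h = F M_h F` (`Ao79`), `U_h = M_e D_e F M_e` with `e = -1/h` (`Uo79`).

From a Fourier certificate (`LF54.FourierCert`):
* `ft_Do79`:  `F D_e = ‖e‖⁻² D_{1/e} F`;
* `ft_ft79`:  `F F = c D_{-1}`;
* `Ao_eq79`:  `A_h = G(h) U_h`                          (the Gauss identity);
* `Ao_Ao_neg79`:  `A_h A_{-h} = c²`;
* `Uo_Uo_neg79`:  `U_h U_{-h} = c ‖h‖²`;
* `Ao_add79`:  `A_a D_{-1} A_b = c A_{a+b}`;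
* `Uo_add79`:  `U_a D_{-1} U_b = G(f) U_{a+b}`, `f = -(a+b)/(ab)`.
-/

set_option autoImplicit false
set_option linter.unusedSectionVars false

open IsDedekindDomain NumberField MeasureTheory
open scoped Topology

noncomputable section

namespace Fermat.Agent.LT.A2.H79

open Fermat.Agent.LT.A2 Fermat.Agent.LT.A2.WX467 Fermat.Agent.LT.A2.LF54 Fermat.Agent.LT.A2.H83

/-! ## 1. The operators -/

section Ops

variable {k : Type} [NormedField k]

/-- Multiplication by `ψ(a Q)`. -/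
def Mo79 (t n : k) (ψ : k → ℂ) (a : k) (Φ : k × k → ℂ) : k × k → ℂ :=
  fun y => ψ (a * qfL t n y) * Φ y

/-- Dilation. -/
def Do79 (e : k) (Φ : k × k → ℂ) : k × k → ℂ := fun y => Φ (e • y)

/-- Multiplication by a scalar. -/
def So79 (s : ℂ) (Φ : k × k → ℂ) : k × k → ℂ := fun y => s * Φ y

theorem Mo_apply79 (t n : k) (ψ : k → ℂ) (a : k) (Φ : k × k → ℂ) (y : k × k) :
    Mo79 t n ψ a Φ y = ψ (a * qfL t n y) * Φ y := rfl

theorem Do_apply79 (e : k) (Φ : k × k → ℂ) (y : k × k) : Do79 e Φ y = Φ (e • y) := rfl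

theorem So_apply79 (s : ℂ) (Φ : k × k → ℂ) (y : k × k) : So79 s Φ y = s * Φ y := rfl

theorem Mo_Mo79 (t n : k) {ψ : k → ℂ} (hadd : ∀ x y : k, ψ (x + y) = ψ x * ψ y) (a b : k)
    (Φ : k × k → ℂ) : Mo79 t n ψ a (Mo79 t n ψ b Φ) = Mo79 t n ψ (a + b) Φ := by
  funext y
  simp only [Mo_apply79]
  rw [add_mul, hadd, mul_assoc]

theorem Mo_zero79 (t n : k) {ψ : k → ℂ} (h0 : ψ 0 = 1) (Φ : k × k → ℂ) :
    Mo79 t n ψ 0 Φ = Φ := by
  funext y
  simp only [Mo_apply79]
  rw [zero_mul, h0, one_mul]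

theorem Mo_congr79 (t n : k) (ψ : k → ℂ) {a b : k} (h : a = b) (Φ : k × k → ℂ) :
    Mo79 t n ψ a Φ = Mo79 t n ψ b Φ := by rw [h]

theorem Do_congr79 {a b : k} (h : a = b) (Φ : k × k → ℂ) : Do79 a Φ = Do79 b Φ := by rw [h]

theorem So_congr79 {a b : ℂ} (h : a = b) (Φ : k × k → ℂ) : So79 a Φ = So79 b Φ := by rw [h]

theorem Do_Mo79 (t n : k) (ψ : k → ℂ) (e h : k) (Φ : k × k → ℂ) :
    Do79 e (Mo79 t n ψ h Φ) = Mo79 t n ψ (h * e ^ 2) (Do79 e Φ) := by
  funext y
  simp only [Mo_apply79, Do_apply79]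
  rw [qfL_smul83, mul_assoc]

theorem Do_Do79 (e e' : k) (Φ : k × k → ℂ) : Do79 e (Do79 e' Φ) = Do79 (e' * e) Φ := by
  funext y
  simp only [Do_apply79]
  rw [smul_smul]

theorem Do_one79 (Φ : k × k → ℂ) : Do79 (1 : k) Φ = Φ := by
  funext y
  simp only [Do_apply79]
  rw [one_smul]

theorem So_So79 (s s' : ℂ) (Φ : k × k → ℂ) : So79 s (So79 s' Φ) = So79 (s * s') Φ := by
  funext y
  simp only [So_apply79]
  rw [mul_assoc]

theorem So_one79 (Φ : k × k → ℂ) : So79 (1 : ℂ) Φ = Φ := by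
  funext y
  simp only [So_apply79]
  rw [one_mul]

theorem Mo_So79 (t n : k) (ψ : k → ℂ) (a : k) (s : ℂ) (Φ : k × k → ℂ) :
    Mo79 t n ψ a (So79 s Φ) = So79 s (Mo79 t n ψ a Φ) := by
  funext y
  simp only [Mo_apply79, So_apply79]
  ring

theorem Do_So79 (e : k) (s : ℂ) (Φ : k × k → ℂ) : Do79 e (So79 s Φ) = So79 s (Do79 e Φ) := rfl

theorem ft_So79 (t n : k) (ψ : k → ℂ) (μ : @Measure k (borel k)) (s : ℂ) (Φ : k × k → ℂ) :
    ftL t n ψ μ (So79 s Φ) = So79 s (ftL t n ψ μ Φ) := by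
  funext ξ
  simp only [So_apply79]
  unfold ftL
  rw [← intL_const_mul83]
  apply intL_congr83
  intro y
  simp only [So_apply79]
  ring

/-! ### Stability of the Schwartz--Bruhat functions -/

theorem isSB_So79 (s : ℂ) {Φ : k × k → ℂ} (hΦ : IsSB Φ) : IsSB (So79 s Φ) :=
  isSB_mul_left83 hΦ (g := fun _ => s) (IsLocallyConstant.const s)

theorem isSB_Do79 {e : k} (he : e ≠ 0) {Φ : k × k → ℂ} (hΦ : IsSB Φ) : IsSB (Do79 e Φ) :=
  isSB_comp_smul83 hΦ he

theorem isSB_Mo79 [IsUltrametricDist k] (t n : k) {ψ : k → ℂ} (hψ : IsCharL ψ) (a : k)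
    {Φ : k × k → ℂ} (hΦ : IsSB Φ) : IsSB (Mo79 t n ψ a Φ) :=
  isSB_mul_left83 hΦ
    (locConst_psi_comp83 hψ (P := fun y => a * qfL t n y)
      (continuous_const.mul (continuous_qfL83 t n)))

end Ops

/-! ## 2. The three rules of a Fourier certificate -/

section Rules

variable {k : Type} [NormedField k] [IsUltrametricDist k]
variable {t n : k} {ψ : k → ℂ} {μ : @Measure k (borel k)} {c : ℝ} {G : k → ℂ}

/-- `F D_e = ‖e‖⁻² D_{1/e} F`. -/
theorem ft_Do79 (hψ : IsCharL ψ) (hcov : CovP μ) {e : k} (he : e ≠ 0) {Φ : k × k → ℂ}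
    (hΦ : IsSB Φ) :
    ftL t n ψ μ (Do79 e Φ)
      = So79 (((‖e‖ ^ 2)⁻¹ : ℝ) : ℂ) (Do79 e⁻¹ (ftL t n ψ μ Φ)) := by
  funext ξ
  have hf : IsSB (fun y => Φ y * ψ (bfL t n (e⁻¹ • ξ) y)) :=
    isSB_mul_right83 hΦ (locConst_psi_comp83 hψ (continuous_bfL_right83 t n _))
  have h := intL_smul83 hcov he hf
  change intL μ (fun y => Φ (e • y) * ψ (bfL t n ξ y))
    = _ * intL μ (fun y => Φ y * ψ (bfL t n (e⁻¹ • ξ) y))
  rw [← h]
  apply intL_congr83
  intro y
  rw [bfL_smul_left83, bfL_smul_right83, ← mul_assoc, inv_mul_cancel₀ he, one_mul]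

/-- `D_{1/e} F = ‖e‖² F D_e`. -/
theorem Do_ft79 (hψ : IsCharL ψ) (hcov : CovP μ) {e : k} (he : e ≠ 0) {Φ : k × k → ℂ}
    (hΦ : IsSB Φ) :
    Do79 e⁻¹ (ftL t n ψ μ Φ) = So79 (((‖e‖ ^ 2 : ℝ)) : ℂ) (ftL t n ψ μ (Do79 e Φ)) := by
  rw [ft_Do79 hψ hcov he hΦ, So_So79]
  have : (((‖e‖ ^ 2 : ℝ)) : ℂ) * (((‖e‖ ^ 2)⁻¹ : ℝ) : ℂ) = 1 := by
    rw [← Complex.ofReal_mul, mul_inv_cancel₀ (pow_ne_zero 2 (norm_ne_zero_iff.mpr he)),
      Complex.ofReal_one]
  rw [this, So_one79]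

/-- `F D_{-1} = D_{-1} F`. -/
theorem ft_neg79 (hψ : IsCharL ψ) (hcov : CovP μ) {Φ : k × k → ℂ} (hΦ : IsSB Φ) :
    ftL t n ψ μ (Do79 (-1) Φ) = Do79 (-1) (ftL t n ψ μ Φ) := by
  rw [ft_Do79 hψ hcov (neg_ne_zero.mpr one_ne_zero) hΦ]
  have h1 : (((‖(-1 : k)‖ ^ 2)⁻¹ : ℝ) : ℂ) = 1 := by
    rw [norm_neg, norm_one]; norm_num
  have h2 : ((-1 : k))⁻¹ = -1 := by rw [inv_neg, inv_one]
  rw [h1, So_one79, h2]

/-- `F F = c D_{-1}`. -/
theorem ft_ft79 (hF : FourierCert t n ψ μ c G) {Φ : k × k → ℂ} (hΦ : IsSB Φ) :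
    ftL t n ψ μ (ftL t n ψ μ Φ) = So79 (c : ℂ) (Do79 (-1) Φ) := by
  funext ξ
  rw [hF.inv Φ hΦ ξ, So_apply79, Do_apply79, neg_one_smul]

/-- `A_h = F M_h F`. -/
def Ao79 (t n : k) (ψ : k → ℂ) (μ : @Measure k (borel k)) (h : k) (Φ : k × k → ℂ) :
    k × k → ℂ :=
  ftL t n ψ μ (Mo79 t n ψ h (ftL t n ψ μ Φ))

/-- `U_h = M_e D_e F M_e`, `e = -1/h`. -/
def Uo79 (t n : k) (ψ : k → ℂ) (μ : @Measure k (borel k)) (h : k) (Φ : k × k → ℂ) :
    k × k → ℂ :=
  Mo79 t n ψ (-h⁻¹) (Do79 (-h⁻¹) (ftL t n ψ μ (Mo79 t n ψ (-h⁻¹) Φ)))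

/-- **The Gauss identity**, operator form: `A_h = G(h) U_h`. -/
theorem Ao_eq79 (hψ : IsCharL ψ) (hF : FourierCert t n ψ μ c G) {h : k} (hh : h ≠ 0)
    {Φ : k × k → ℂ} (hΦ : IsSB Φ) :
    Ao79 t n ψ μ h Φ = So79 (G h) (Uo79 t n ψ μ h Φ) := by
  funext ξ
  have hg := hF.gauss h hh Φ hΦ ξ
  change ftL t n ψ μ (fun y => ψ (h * qfL t n y) * ftL t n ψ μ Φ y) ξ = _
  rw [hg, So_apply79]
  congr 1
  change _ = ψ (-h⁻¹ * qfL t n ξ)
    * intL μ (fun z => (ψ (-h⁻¹ * qfL t n z) * Φ z) * ψ (bfL t n ((-h⁻¹) • ξ) z))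
  rw [← intL_const_mul83]
  apply intL_congr83
  intro z
  have e : -(qfL t n (z + ξ)) / h
      = -h⁻¹ * qfL t n ξ + (-h⁻¹ * qfL t n z + bfL t n ((-h⁻¹) • ξ) z) := by
    rw [bfL_smul_left83, qfL_add83]
    field_simp
    ring
  rw [e, hψ.2.1, hψ.2.1]
  ring

theorem isSB_ft79 (hF : FourierCert t n ψ μ c G) {Φ : k × k → ℂ} (hΦ : IsSB Φ) :
    IsSB (ftL t n ψ μ Φ) := hF.ft_sb Φ hΦ

theorem isSB_Ao79 (hψ : IsCharL ψ) (hF : FourierCert t n ψ μ c G) (h : k) {Φ : k × k → ℂ}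
    (hΦ : IsSB Φ) : IsSB (Ao79 t n ψ μ h Φ) :=
  hF.ft_sb _ (isSB_Mo79 t n hψ h (hF.ft_sb Φ hΦ))

theorem isSB_Uo79 (hψ : IsCharL ψ) (hF : FourierCert t n ψ μ c G) {h : k} (hh : h ≠ 0)
    {Φ : k × k → ℂ} (hΦ : IsSB Φ) : IsSB (Uo79 t n ψ μ h Φ) :=
  isSB_Mo79 t n hψ _ (isSB_Do79 (neg_ne_zero.mpr (inv_ne_zero hh))
    (hF.ft_sb _ (isSB_Mo79 t n hψ _ hΦ)))

theorem Ao_So79 (h : k) (s : ℂ) (Φ : k × k → ℂ) :
    Ao79 t n ψ μ h (So79 s Φ) = So79 s (Ao79 t n ψ μ h Φ) := by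
  unfold Ao79
  rw [ft_So79, Mo_So79, ft_So79]

theorem Uo_So79 (h : k) (s : ℂ) (Φ : k × k → ℂ) :
    Uo79 t n ψ μ h (So79 s Φ) = So79 s (Uo79 t n ψ μ h Φ) := by
  unfold Uo79
  rw [Mo_So79, ft_So79, Do_So79, Mo_So79]

end Rules

end Fermat.Agent.LT.A2.H79

end

end
-- ===== PACK-END LT/A2/H79/GaussOps.lean

-- ===== PACK-BEGIN LT/A2/H79/GaussRel.lean
section



/-!
# Row LT, tower A2, station A2.03.1.1.06: RELATIONS between the Gauss constants (helper79)

OFF-MAIN.  On `GaussOps.lean`.  Abstract: `k` an ultrametric normed field with a Fourier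
certificate `FourierCert t n ψ μ c G` and ONE Schwartz--Bruhat function which is not zero.

* `gaussProd79`:  `‖h‖² G(h) G(-h) = c`                                 (`LF54.GaussProdP`);
* `gaussAdd79`:   `c G(a + b) = G(a) G(b) G(-(a + b)/(a b))`             (Weil's relation).
-/

set_option autoImplicit false
set_option linter.unusedSectionVars false

open IsDedekindDomain NumberField MeasureTheory
open scoped Topology

noncomputable section

namespace Fermat.Agent.LT.A2.H79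

open Fermat.Agent.LT.A2 Fermat.Agent.LT.A2.WX467 Fermat.Agent.LT.A2.LF54 Fermat.Agent.LT.A2.H83

section Rel

variable {k : Type} [NormedField k] [IsUltrametricDist k]
variable {t n : k} {ψ : k → ℂ} {μ : @Measure k (borel k)} {c : ℝ} {G : k → ℂ}

theorem psi_zero79 (hψ : IsCharL ψ) : ψ 0 = 1 := psi_zero83 ψ hψ.2.1 hψ.2.2.1

/-- `A_h A_{-h} = c²`. -/
theorem Ao_Ao_neg79 (hψ : IsCharL ψ) (hF : FourierCert t n ψ μ c G) (h : k)
    {Φ : k × k → ℂ} (hΦ : IsSB Φ) :
    Ao79 t n ψ μ h (Ao79 t n ψ μ (-h) Φ) = So79 ((c : ℂ) * (c : ℂ)) Φ := by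
  have hFΦ : IsSB (ftL t n ψ μ Φ) := hF.ft_sb Φ hΦ
  have hΨ : IsSB (Mo79 t n ψ (-h) (ftL t n ψ μ Φ)) := isSB_Mo79 t n hψ _ hFΦ
  have e0 : h + -h * (-1 : k) ^ 2 = 0 := by ring
  have e1 : (-1 : k) * -1 = 1 := by ring
  unfold Ao79
  rw [ft_ft79 hF hΨ, Mo_So79, Do_Mo79, Mo_Mo79 t n hψ.2.1, Mo_congr79 t n ψ e0,
    Mo_zero79 t n (psi_zero79 hψ), ft_So79, ft_neg79 hψ hF.cov hFΦ, ft_ft79 hF hΦ, Do_So79,
    So_So79, Do_Do79, Do_congr79 e1, Do_one79]

/-- `U_h U_{-h} = c ‖h‖²`. -/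
theorem Uo_Uo_neg79 (hψ : IsCharL ψ) (hF : FourierCert t n ψ μ c G) {h : k} (hh : h ≠ 0)
    {Φ : k × k → ℂ} (hΦ : IsSB Φ) :
    Uo79 t n ψ μ h (Uo79 t n ψ μ (-h) Φ) = So79 ((c : ℂ) * ((‖h‖ ^ 2 : ℝ) : ℂ)) Φ := by
  have hinv : h⁻¹ ≠ 0 := inv_ne_zero hh
  have e' : -(-h)⁻¹ = h⁻¹ := by rw [inv_neg, neg_neg]
  have hΞ : IsSB (Mo79 t n ψ h⁻¹ Φ) := isSB_Mo79 t n hψ _ hΦ
  have hW : IsSB (ftL t n ψ μ (Mo79 t n ψ h⁻¹ Φ)) := hF.ft_sb _ hΞ
  have e0 : -h⁻¹ + h⁻¹ = 0 := by ring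
  have e1 : -1 * ((h⁻¹)⁻¹ * -h⁻¹) = 1 := by
    rw [inv_inv]; field_simp
  have es : (((‖h⁻¹‖ ^ 2)⁻¹ : ℝ) : ℂ) * (c : ℂ) = (c : ℂ) * ((‖h‖ ^ 2 : ℝ) : ℂ) := by
    rw [norm_inv, inv_pow, inv_inv, mul_comm]
  unfold Uo79
  rw [e', Mo_Mo79 t n hψ.2.1, Mo_congr79 t n ψ e0, Mo_zero79 t n (psi_zero79 hψ),
    ft_Do79 hψ hF.cov hinv hW, ft_ft79 hF hΞ, Do_So79, Do_Do79, Do_So79, So_So79, Do_Do79,
    Do_congr79 e1, Do_one79, Mo_So79, Mo_Mo79 t n hψ.2.1, Mo_congr79 t n ψ e0,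
    Mo_zero79 t n (psi_zero79 hψ), So_congr79 es]

/-- `A_a D_{-1} A_b = c A_{a+b}`. -/
theorem Ao_add79 (hψ : IsCharL ψ) (hF : FourierCert t n ψ μ c G) (a b : k)
    {Φ : k × k → ℂ} (hΦ : IsSB Φ) :
    Ao79 t n ψ μ a (Do79 (-1) (Ao79 t n ψ μ b Φ)) = So79 (c : ℂ) (Ao79 t n ψ μ (a + b) Φ) := by
  have hFΦ : IsSB (ftL t n ψ μ Φ) := hF.ft_sb Φ hΦ
  have hΘ : IsSB (Mo79 t n ψ b (ftL t n ψ μ Φ)) := isSB_Mo79 t n hψ _ hFΦ
  have hDΘ : IsSB (Do79 (-1) (Mo79 t n ψ b (ftL t n ψ μ Φ))) :=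
    isSB_Do79 (neg_ne_zero.mpr one_ne_zero) hΘ
  have e1 : (-1 : k) * -1 = 1 := by ring
  unfold Ao79
  rw [← ft_neg79 hψ hF.cov hΘ, ft_ft79 hF hDΘ, Do_Do79, Do_congr79 e1, Do_one79, Mo_So79,
    Mo_Mo79 t n hψ.2.1, ft_So79]

/-- `U_a D_{-1} U_b = G(f) U_{a+b}`, `f = -(a+b)/(ab)`. -/
theorem Uo_add79 (hψ : IsCharL ψ) (hF : FourierCert t n ψ μ c G) {a b : k} (ha : a ≠ 0)
    (hb : b ≠ 0) (hab : a + b ≠ 0) {Φ : k × k → ℂ} (hΦ : IsSB Φ) :
    Uo79 t n ψ μ a (Do79 (-1) (Uo79 t n ψ μ b Φ))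
      = So79 (G (-(a + b) / (a * b))) (Uo79 t n ψ μ (a + b) Φ) := by
  have hf : -(a + b) / (a * b) ≠ 0 :=
    div_ne_zero (neg_ne_zero.mpr hab) (mul_ne_zero ha hb)
  have hΞ : IsSB (Mo79 t n ψ (-b⁻¹) Φ) := isSB_Mo79 t n hψ _ hΦ
  have hDΞ : IsSB (Do79 b (Mo79 t n ψ (-b⁻¹) Φ)) := isSB_Do79 hb hΞ
  have hS : IsSB (Mo79 t n ψ (-(a + b)⁻¹) Φ) := isSB_Mo79 t n hψ _ hΦ
  have e1 : -b⁻¹ * -1 = b⁻¹ := by ring
  have e2 : -a⁻¹ + -b⁻¹ * (-1 : k) ^ 2 = -(a + b) / (a * b) := by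
    field_simp; ring
  have e3 : -(-(a + b) / (a * b))⁻¹ + -b⁻¹ * b ^ 2 = -(a + b)⁻¹ * b ^ 2 := by
    field_simp; ring
  have e4 : -a⁻¹ + -(-(a + b) / (a * b))⁻¹ * (-a⁻¹) ^ 2 = -(a + b)⁻¹ := by
    field_simp; ring
  have e5 : b⁻¹ * -(-(a + b) / (a * b))⁻¹ * -a⁻¹ = -(a + b)⁻¹ := by
    field_simp
  have es : ((‖b‖ ^ 2 : ℝ) : ℂ) * G (-(a + b) / (a * b)) * (((‖b‖ ^ 2)⁻¹ : ℝ) : ℂ)
      = G (-(a + b) / (a * b)) := by
    have hb2 : ((‖b‖ ^ 2 : ℝ) : ℂ) ≠ 0 :=
      Complex.ofReal_ne_zero.mpr (pow_ne_zero 2 (norm_ne_zero_iff.mpr hb))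
    rw [Complex.ofReal_inv]
    field_simp
  -- the inner part `D_{-1} U_b Φ`
  have inner : Do79 (-1) (Uo79 t n ψ μ b Φ)
      = So79 ((‖b‖ ^ 2 : ℝ) : ℂ)
          (Mo79 t n ψ (-b⁻¹ * (-1 : k) ^ 2)
            (ftL t n ψ μ (Do79 b (Mo79 t n ψ (-b⁻¹) Φ)))) := by
    unfold Uo79
    rw [Do_Mo79, Do_Do79, Do_congr79 e1, Do_ft79 hψ hF.cov hb hΞ, Mo_So79]
  -- `U_f (D_b M_{e_b} Φ)`
  have mid : Uo79 t n ψ μ (-(a + b) / (a * b)) (Do79 b (Mo79 t n ψ (-b⁻¹) Φ))
      = So79 (((‖b‖ ^ 2)⁻¹ : ℝ) : ℂ)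
          (Mo79 t n ψ (-(-(a + b) / (a * b))⁻¹)
            (Do79 (b⁻¹ * -(-(a + b) / (a * b))⁻¹)
              (ftL t n ψ μ (Mo79 t n ψ (-(a + b)⁻¹) Φ)))) := by
    unfold Uo79
    rw [Do_Mo79, Mo_Mo79 t n hψ.2.1, Mo_congr79 t n ψ e3, ← Do_Mo79,
      ft_Do79 hψ hF.cov hb hS, Do_So79, Do_Do79, Mo_So79]
  have hA := Ao_eq79 hψ hF hf hDΞ
  unfold Ao79 at hA
  rw [inner]
  unfold Uo79
  rw [Mo_So79, Mo_Mo79 t n hψ.2.1, Mo_congr79 t n ψ e2, ft_So79, hA, mid, So_So79, So_So79,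
    So_congr79 es, Do_So79, Do_Mo79, Do_Do79, Mo_So79, Mo_Mo79 t n hψ.2.1,
    Mo_congr79 t n ψ e4, Do_congr79 e5]

/-! ### Extraction of the scalars -/

/-- There is a Schwartz--Bruhat function `Ψ` with `U_h Ψ (ξ₀) ≠ 0`. -/
theorem exists_Uo_ne_zero79 (hψ : IsCharL ψ) (hF : FourierCert t n ψ μ c G) {h : k}
    (hh : h ≠ 0) {Φ₀ : k × k → ℂ} (hΦ₀ : IsSB Φ₀) {ξ₀ : k × k} (hξ₀ : Φ₀ ξ₀ ≠ 0) :
    ∃ Ψ : k × k → ℂ, IsSB Ψ ∧ Uo79 t n ψ μ h Ψ ξ₀ ≠ 0 := by
  refine ⟨Ao79 t n ψ μ (-h) Φ₀, isSB_Ao79 hψ hF _ hΦ₀, ?_⟩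
  intro h0
  have h1 := congrFun (Ao_Ao_neg79 hψ hF h hΦ₀) ξ₀
  rw [Ao_eq79 hψ hF hh (isSB_Ao79 hψ hF _ hΦ₀), So_apply79, So_apply79, h0, mul_zero] at h1
  have hc : (c : ℂ) ≠ 0 := Complex.ofReal_ne_zero.mpr hF.c_pos.ne'
  exact mul_ne_zero (mul_ne_zero hc hc) hξ₀ h1.symm

/-- **`‖h‖² G(h) G(-h) = c`.** -/
theorem gaussProd79 (hψ : IsCharL ψ) (hF : FourierCert t n ψ μ c G)
    (hne : ∃ Φ₀ : k × k → ℂ, IsSB Φ₀ ∧ ∃ ξ₀, Φ₀ ξ₀ ≠ 0) {h : k} (hh : h ≠ 0) :
    ((‖h‖ ^ 2 : ℝ) : ℂ) * (G h * G (-h)) = (c : ℂ) := by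
  obtain ⟨Φ₀, hΦ₀, ξ₀, hξ₀⟩ := hne
  have hc : (c : ℂ) ≠ 0 := Complex.ofReal_ne_zero.mpr hF.c_pos.ne'
  have h1 := Ao_Ao_neg79 hψ hF h hΦ₀
  rw [Ao_eq79 hψ hF (neg_ne_zero.mpr hh) hΦ₀, Ao_So79,
    Ao_eq79 hψ hF hh (isSB_Uo79 hψ hF (neg_ne_zero.mpr hh) hΦ₀), Uo_Uo_neg79 hψ hF hh hΦ₀,
    So_So79, So_So79] at h1
  have h2 := congrFun h1 ξ₀
  rw [So_apply79, So_apply79] at h2
  have h3 := mul_right_cancel₀ hξ₀ h2
  have h4 : (c : ℂ) * (((‖h‖ ^ 2 : ℝ) : ℂ) * (G h * G (-h))) = (c : ℂ) * (c : ℂ) := by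
    rw [← h3]; ring
  exact mul_left_cancel₀ hc h4

/-- **Weil's relation** `c G(a + b) = G(a) G(b) G(-(a + b)/(a b))`. -/
theorem gaussAdd79 (hψ : IsCharL ψ) (hF : FourierCert t n ψ μ c G)
    (hne : ∃ Φ₀ : k × k → ℂ, IsSB Φ₀ ∧ ∃ ξ₀, Φ₀ ξ₀ ≠ 0) {a b : k} (ha : a ≠ 0) (hb : b ≠ 0)
    (hab : a + b ≠ 0) :
    (c : ℂ) * G (a + b) = G a * G b * G (-(a + b) / (a * b)) := by
  obtain ⟨Φ₀, hΦ₀, ξ₀, hξ₀⟩ := hne
  obtain ⟨Ψ, hΨ, hU⟩ := exists_Uo_ne_zero79 hψ hF hab hΦ₀ hξ₀
  have h1 := Ao_add79 hψ hF a b hΨ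
  rw [Ao_eq79 hψ hF hb hΨ, Do_So79, Ao_So79,
    Ao_eq79 hψ hF ha (isSB_Do79 (neg_ne_zero.mpr one_ne_zero) (isSB_Uo79 hψ hF hb hΨ)),
    Uo_add79 hψ hF ha hb hab hΨ, Ao_eq79 hψ hF hab hΨ, So_So79, So_So79, So_So79] at h1
  have h2 := congrFun h1 ξ₀
  rw [So_apply79, So_apply79] at h2
  have h3 := mul_right_cancel₀ hU h2
  rw [← h3]; ring

end Rel

end Fermat.Agent.LT.A2.H79

end

end
-- ===== PACK-END LT/A2/H79/GaussRel.lean

-- ===== PACK-BEGIN LT/A2/H904/LiftBddAux.lean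
section


/-!
# Row LT, tower A2, leaf A2.03.4 `WL.LiftBddC`: auxiliary lemmas of the top (helper904)

OFF-MAIN.  The Gaussian majorant from `IsStd.decay`, rational diagonal matrices commute with the
diagonal elements, splitting of a sum at `ξ = 0`, the set `GL₂(K) GL₂(𝔸_K)⁺` and central
translations.
-/

set_option autoImplicit false

open IsDedekindDomain NumberField AutomorphicForm MeasureTheory
open scoped MatrixGroups Topology

noncomputable section

namespace Fermat.Agent.LT.A2.H904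

open Fermat.Agent.LT.H130 Fermat.Agent.LT.H556

variable {K : Type} [Field K] [NumberField K]

/-- The Gaussian majorant: the bound of `IsStd.decay` at the vector `σ ξ`, `ξ ∈ K²`. -/
theorem gauss_le (hcpx : ∀ u : InfinitePlace K, u.IsComplex) (D : KData K)
    {B : Set (FiniteAdeleRing (𝓞 K) K × FiniteAdeleRing (𝓞 K) K)} {A δ : ℝ}
    {p : A0.G K × A0.G K}
    (hdec : ∀ ξ : A0.Adl K × A0.Adl K,
        ((ξ.1.2, ξ.2.2) ∉ B → D.F p.1 p.2 ξ = 0) ∧
        ‖D.F p.1 p.2 ξ‖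
          ≤ A * Real.exp (-δ * ∑ w : InfinitePlace K, (‖ξ.1.1 w‖ ^ 2 + ‖ξ.2.1 w‖ ^ 2)))
    (σ : ℝ) (hσ : 0 < σ) (ξ : K × K) :
    ‖D.F p.1 p.2 (((posId hcpx (posUnit σ hσ) : (A0.Adl K)ˣ) : A0.Adl K) • ratV ξ)‖
      ≤ |A| * gaussT B δ σ ξ := by
  set σU := posId hcpx (posUnit σ hσ) with hσU
  set x : A0.Adl K × A0.Adl K := ((σU : (A0.Adl K)ˣ) : A0.Adl K) • ratV ξ with hx
  have hx1 : ∀ w : InfinitePlace K, ‖x.1.1 w‖ = σ * ‖(ratV ξ).1.1 w‖ := by
    intro w
    change ‖((σU : (A0.Adl K)ˣ) : A0.Adl K).1 w * (ratV ξ).1.1 w‖ = _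
    rw [norm_mul, hσU, norm_posId_fst, norm_posUnit]
  have hx2 : ∀ w : InfinitePlace K, ‖x.2.1 w‖ = σ * ‖(ratV ξ).2.1 w‖ := by
    intro w
    change ‖((σU : (A0.Adl K)ˣ) : A0.Adl K).1 w * (ratV ξ).2.1 w‖ = _
    rw [norm_mul, hσU, norm_posId_fst, norm_posUnit]
  have hxf1 : x.1.2 = (ratV ξ).1.2 := by
    change ((σU : (A0.Adl K)ˣ) : A0.Adl K).2 * (ratV ξ).1.2 = _
    rw [hσU, posId_snd, one_mul]
  have hxf2 : x.2.2 = (ratV ξ).2.2 := by
    change ((σU : (A0.Adl K)ˣ) : A0.Adl K).2 * (ratV ξ).2.2 = _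
    rw [hσU, posId_snd, one_mul]
  obtain ⟨h0, hle⟩ := hdec x
  by_cases hB : ((ratV ξ).1.2, (ratV ξ).2.2) ∈ B
  · have hg : gaussT B δ σ ξ = Real.exp (-(δ * σ ^ 2 *
        ∑ w : InfinitePlace K, (‖(ratV ξ).1.1 w‖ ^ 2 + ‖(ratV ξ).2.1 w‖ ^ 2))) := by
      unfold gaussT
      rw [Set.indicator_of_mem]
      exact hB
    have hsum : ∑ w : InfinitePlace K, (‖x.1.1 w‖ ^ 2 + ‖x.2.1 w‖ ^ 2)
        = σ ^ 2 * ∑ w : InfinitePlace K, (‖(ratV ξ).1.1 w‖ ^ 2 + ‖(ratV ξ).2.1 w‖ ^ 2) := by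
      rw [Finset.mul_sum]
      refine Finset.sum_congr rfl fun w _ => ?_
      rw [hx1 w, hx2 w]
      ring
    rw [hg]
    calc ‖D.F p.1 p.2 x‖
        ≤ A * Real.exp (-δ * ∑ w : InfinitePlace K, (‖x.1.1 w‖ ^ 2 + ‖x.2.1 w‖ ^ 2)) := hle
      _ ≤ |A| * Real.exp (-δ * ∑ w : InfinitePlace K, (‖x.1.1 w‖ ^ 2 + ‖x.2.1 w‖ ^ 2)) :=
          mul_le_mul_of_nonneg_right (le_abs_self A) (Real.exp_pos _).le
      _ = _ := by
          rw [hsum]
          congr 2
          ring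
  · have hg : gaussT B δ σ ξ = 0 := by
      unfold gaussT
      rw [Set.indicator_of_notMem]
      exact hB
    rw [hg, h0 (by rw [hxf1, hxf2]; exact hB)]
    simp

/-- The image in `GL₂(𝔸_K)` of a rational diagonal matrix commutes with the diagonal elements. -/
theorem ratG_diag_comm {γ : GL (Fin 2) K} {α : K}
    (hγ : (γ : Matrix (Fin 2) (Fin 2) K) = !![1, 0; 0, α]) (a b : (A0.Adl K)ˣ) :
    ratG γ * dg a b = dg a b * ratG γ := by
  apply Units.ext
  have hr : ((ratG γ : A0.G K) : Matrix (Fin 2) (Fin 2) (A0.Adl K))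
      = !![1, 0; 0, algebraMap K (A0.Adl K) α] := by
    change ((γ : Matrix (Fin 2) (Fin 2) K)).map (algebraMap K (A0.Adl K)) = _
    rw [hγ]
    ext i j
    fin_cases i <;> fin_cases j <;> simp
  rw [Units.val_mul, Units.val_mul, hr, dg_val]
  ext i j
  fin_cases i <;> fin_cases j <;> simp [Matrix.mul_apply, Fin.sum_univ_two, mul_comm]

/-- Splitting of a sum at one index, indicator form. -/
theorem tsum_split904 {ι : Type} {f : ι → ℂ} (hf : Summable f) (b : ι) :
    ∑' x, f x = f b + ∑' x, Set.indicator {x : ι | x ≠ b} f x := by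
  classical
  rw [hf.tsum_eq_add_tsum_ite b]
  congr 2
  funext x
  by_cases h : x = b
  · simp [h]
  · simp [h]

theorem ratV_zero : ratV (0 : K × K) = (0 : A0.Adl K × A0.Adl K) := by
  unfold ratV
  simp

/-- If `z a ω` lies in `GL₂(K) GL₂(𝔸_K)⁺`, `z`, `a` with determinants which are norms of scalars,
then so does `ω`. -/
theorem inP_of_mul {t n : K} (ζ a : (A0.Adl K)ˣ) {ω : A0.G K} {γ : GL (Fin 2) K}
    (h : InGPlus t n (ratG γ * (cen ζ * (tSL a * ω)))) : InGPlus t n (ratG γ * ω) := by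
  obtain ⟨m, hm, hdet⟩ := h
  refine ⟨cen ζ⁻¹ * m, inTorus_mul (inTorus_cen t n ζ⁻¹) hm, ?_⟩
  rw [map_mul, map_mul, map_mul, det_cen, det_tSL, one_mul] at hdet
  rw [map_mul, map_mul, det_cen, ← hdet]
  have : ∀ x y : (A0.Adl K)ˣ, x * y = ζ⁻¹ * ζ⁻¹ * (x * (ζ * ζ * y)) := by
    intro x y
    rw [mul_left_comm x, ← mul_assoc (ζ⁻¹ * ζ⁻¹)]
    have : ζ⁻¹ * ζ⁻¹ * (ζ * ζ) = 1 := by
      rw [mul_mul_mul_comm]; simp
    rw [this, one_mul]
  exact this _ _

end Fermat.Agent.LT.A2.H904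

end

end
-- ===== PACK-END LT/A2/H904/LiftBddAux.lean

-- ===== PACK-BEGIN LT/A2/H904/LiftBddTop.lean
section


/-!
# Row LT, tower A2, leaf A2.03.4 `WL.LiftBddC`: THE TOP (helper904)

OFF-MAIN.  `liftBdd_of_leaves : AdmCompactC → GaussSumC → CharIntZeroC → WL.LiftBddC`.
-/

set_option autoImplicit false
set_option linter.style.haveILetI false

open IsDedekindDomain NumberField AutomorphicForm MeasureTheory
open scoped MatrixGroups Topology

noncomputable section

namespace Fermat.Agent.LT.A2.H904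

open Fermat.Agent.LT.H130 Fermat.Agent.LT.H556

variable {K : Type} [Field K] [NumberField K]

/-- The bound of the theta lift at one point of the Siegel set, in terms of the data of the
compact set of pairs. -/
theorem lift_bound_at (hcpx : ∀ u : InfinitePlace K, u.IsComplex) (D : KData K)
    (η : (A0.Adl K)ˣ → ℂ) (hT1 : T1.T1Out K) (hgood : D.Good) (hstd : WL.IsStd D η)
    (hCI : (letI : MeasurableSpace (A0.G K) := borel (A0.G K)
      IntegrableOn D.χT D.DT D.μT) ∧ D.intT D.DT D.χT = 0)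
    (φ : A0.G K → ℂ) (hφ : D.IsLift φ)
    {C' : Set (A0.G K × A0.G K)}
    {B : Set (FiniteAdeleRing (𝓞 K) K × FiniteAdeleRing (𝓞 K) K)} {A δ : ℝ}
    (hdec : ∀ p : A0.G K × A0.G K, p ∈ C' → Adm D.t D.n p.1 p.2 → ∀ ξ : A0.Adl K × A0.Adl K,
        ((ξ.1.2, ξ.2.2) ∉ B → D.F p.1 p.2 ξ = 0) ∧
        ‖D.F p.1 p.2 ξ‖
          ≤ A * Real.exp (-δ * ∑ w : InfinitePlace K, (‖ξ.1.1 w‖ ^ 2 + ‖ξ.2.1 w‖ ^ 2)))
    {C₁ : ℝ} (σ : ℝ) (hσ : 0 < σ)
    (hsum : Summable (gaussT B δ σ))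
    (hle : σ ^ (∑ w : InfinitePlace K, w.mult)
      * ∑' ξ : K × K, Set.indicator {ξ : K × K | ξ ≠ 0} (gaussT B δ σ) ξ ≤ C₁)
    (ζ : (A0.Adl K)ˣ) (g₁ m₁ : A0.G K) (hadm : Adm D.t D.n g₁ m₁)
    (hmem : ∀ m ∈ D.DT, (g₁, m * m₁) ∈ C') :
    ‖φ (cen ζ * (tSL (posId hcpx (posUnit σ hσ)) * g₁))‖
      ≤ |A| * C₁ * (letI : MeasurableSpace (A0.G K) := borel (A0.G K)
          D.μT.real D.DT) := by
  letI : MeasurableSpace (A0.G K) := borel (A0.G K)
  haveI : BorelSpace (A0.G K) := ⟨rfl⟩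
  set N := ∑ w : InfinitePlace K, w.mult with hN
  set σU := posId hcpx (posUnit σ hσ) with hσU
  set g₂ := cen ζ * (tSL σU * g₁) with hg₂
  set mg₂ := cen ζ * m₁ with hmg₂
  have hadm₂ : Adm D.t D.n g₂ mg₂ := adm_cen ζ (adm_tSL σU hadm)
  have hadN : T1.adNorm K ((σU : (A0.Adl K)ˣ) : A0.Adl K) = σ ^ N := by
    rw [hσU, adNorm_posId, norm_posUnit]
  have hDT1 : ∀ m ∈ D.DT, InTorus1 D.t D.n m := hgood.measured.dom_sub
  -- the pointwise bound of the terms
  have key1 : ∀ m ∈ D.DT, ∀ ξ : K × K,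
      ‖D.F g₂ (m * mg₂) (ratV ξ)‖ ≤ σ ^ N * (|A| * gaussT B δ σ ξ) := by
    intro m hm ξ
    have hmm : m * mg₂ = cen ζ * (m * m₁) := by
      rw [hmg₂, ← mul_assoc, ← cen_comm, mul_assoc]
    have hadm' : Adm D.t D.n g₁ (m * m₁) := adm_torus1 (hDT1 m hm) hadm
    rw [hmm, hg₂, norm_F_scale D η hstd hT1.adNorm ζ σU g₁ (m * m₁) (ratV ξ) hadm', hadN]
    refine mul_le_mul_of_nonneg_left ?_ (pow_nonneg hσ.le _)
    exact gauss_le hcpx D (hdec (g₁, m * m₁) (hmem m hm) hadm') σ hσ ξ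
  -- the term `ξ = 0`
  set c₀ := D.F g₂ mg₂ 0 with hc₀
  have key2 : ∀ m ∈ D.DT, D.F g₂ (m * mg₂) (ratV 0) = c₀ := by
    intro m hm
    rw [ratV_zero, hgood.weil.tor1 m (hDT1 m hm) g₂ mg₂ 0 hadm₂, actV_zero]
  -- the remainder
  set R : A0.G K → ℂ := fun m =>
    ∑' ξ : K × K, Set.indicator {ξ : K × K | ξ ≠ 0} (fun ξ => D.F g₂ (m * mg₂) (ratV ξ)) ξ
    with hR
  have hsum' : Summable (fun ξ : K × K => σ ^ N * (|A| * gaussT B δ σ ξ)) :=
    (hsum.mul_left |A|).mul_left (σ ^ N)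
  have hgnn : ∀ ξ : K × K, 0 ≤ gaussT B δ σ ξ := by
    intro ξ
    unfold gaussT
    exact Set.indicator_nonneg (fun _ _ => (Real.exp_pos _).le) _
  have hC₁ : 0 ≤ C₁ := by
    refine le_trans ?_ hle
    refine mul_nonneg (pow_nonneg hσ.le _) (tsum_nonneg fun ξ => ?_)
    exact Set.indicator_nonneg (fun _ _ => hgnn _) _
  have key3 : ∀ m ∈ D.DT, D.theta g₂ (m * mg₂) = c₀ + R m := by
    intro m hm
    have hs : Summable (fun ξ : K × K => D.F g₂ (m * mg₂) (ratV ξ)) :=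
      Summable.of_norm_bounded hsum' (key1 m hm)
    unfold KData.theta
    rw [tsum_split904 hs 0, key2 m hm]
  have key4 : ∀ m ∈ D.DT, ‖R m‖ ≤ |A| * C₁ := by
    intro m hm
    have hs0 : Summable (Set.indicator {ξ : K × K | ξ ≠ 0} (gaussT B δ σ)) :=
      hsum.indicator _
    have hHS : HasSum (fun ξ : K × K => σ ^ N * (|A| *
        Set.indicator {ξ : K × K | ξ ≠ 0} (gaussT B δ σ) ξ))
        (σ ^ N * (|A| * ∑' ξ : K × K, Set.indicator {ξ : K × K | ξ ≠ 0} (gaussT B δ σ) ξ)) :=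
      (hs0.hasSum.mul_left |A|).mul_left (σ ^ N)
    have hb := tsum_of_norm_bounded hHS (f := fun ξ : K × K =>
      Set.indicator {ξ : K × K | ξ ≠ 0} (fun ξ => D.F g₂ (m * mg₂) (ratV ξ)) ξ) (by
        intro ξ
        by_cases h : ξ = 0
        · simp [h]
        · rw [Set.indicator_of_mem (by exact h), Set.indicator_of_mem (by exact h)]
          exact key1 m hm ξ)
    refine le_trans hb ?_
    calc σ ^ N * (|A| * ∑' ξ : K × K, Set.indicator {ξ : K × K | ξ ≠ 0} (gaussT B δ σ) ξ)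
        = |A| * (σ ^ N * ∑' ξ : K × K, Set.indicator {ξ : K × K | ξ ≠ 0} (gaussT B δ σ) ξ) := by
          ring
      _ ≤ |A| * C₁ := mul_le_mul_of_nonneg_left hle (abs_nonneg A)
  -- the integral
  rw [hφ.formula g₂ mg₂ hadm₂]
  unfold KData.intT
  have hTmg : InTorus D.t D.n mg₂ := hadm₂.1
  set h : A0.G K → ℂ := fun m => D.theta g₂ (m * mg₂) * D.χT (m * mg₂) with hh
  set h₁ : A0.G K → ℂ := fun m => c₀ * D.χT mg₂ * D.χT m with hh₁
  have hh₁int : IntegrableOn h₁ D.DT D.μT := hCI.1.const_mul _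
  have hh₁zero : ∫ m in D.DT, h₁ m ∂D.μT = 0 := by
    have h0 : ∫ m in D.DT, D.χT m ∂D.μT = 0 := hCI.2
    rw [hh₁]
    rw [integral_const_mul, h0, mul_zero]
  have hμ : D.μT D.DT < ⊤ := by
    obtain ⟨CT, hCT, hsub⟩ := hgood.measured.dom_compact
    exact lt_of_le_of_lt (measure_mono hsub) (hgood.measured.compact_lt CT hCT)
  have hdiff : ∀ m ∈ D.DT, ‖h m - h₁ m‖ ≤ |A| * C₁ := by
    intro m hm
    have hχ : D.χT (m * mg₂) = D.χT m * D.χT mg₂ :=
      hgood.torus.mul m mg₂ (hDT1 m hm).1 hTmg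
    have e : h m - h₁ m = R m * D.χT (m * mg₂) := by
      rw [hh, hh₁]
      simp only
      rw [key3 m hm, hχ]
      ring
    rw [e, norm_mul, norm_chiT_eq_one hgood.torus (inTorus_mul (hDT1 m hm).1 hTmg), mul_one]
    exact key4 m hm
  by_cases hi : IntegrableOn h D.DT D.μT
  · have e : ∫ m in D.DT, h m ∂D.μT = ∫ m in D.DT, (h m - h₁ m) ∂D.μT := by
      rw [integral_sub hi hh₁int, hh₁zero, sub_zero]
    rw [e]
    exact norm_setIntegral_le_of_norm_le_const hμ hdiff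
  · rw [integral_undef hi, norm_zero]
    exact mul_nonneg (mul_nonneg (abs_nonneg A) hC₁) measureReal_nonneg

/-- **THE TOP of the cut of A2.03.4**: the theta lift of standard good data is bounded. -/
theorem liftBdd_of_leaves (hAC : AdmCompactC) (hGS : GaussSumC) (hCI : CharIntZeroC) :
    WL.LiftBddC := by
  intro hopen K _ _ D η hcpx hT1 hgood hstd φ hφ
  letI : MeasurableSpace (A0.G K) := borel (A0.G K)
  obtain ⟨c, hc, hred⟩ := hT1.reduction
  obtain ⟨Ω, m₀, M₀, hΩ, hm₀, -, hsieg⟩ := hT1.siegelCompact c hc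
  obtain ⟨C, hC, hCprop⟩ := hAC hopen K D.t D.n hgood.torus.irred hT1.locComp Ω hΩ
  obtain ⟨CT, hCT, hDTsub⟩ := hgood.measured.dom_compact
  set C' : Set (A0.G K × A0.G K) :=
    (fun q : (A0.G K × A0.G K) × A0.G K => (q.1.1, q.2 * q.1.2)) '' (C ×ˢ CT) with hC'def
  have hC' : IsCompact C' := (hC.prod hCT).image (by fun_prop)
  obtain ⟨B, A, δ, hB, hδ, hdec⟩ := hstd.decay C' hC'
  set s₀ := min 1 (m₀ * c) with hs₀
  have hs₀pos : 0 < s₀ := lt_min one_pos (mul_pos hm₀ hc)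
  set σ₀ := Real.sqrt s₀ with hσ₀def
  have hσ₀ : 0 < σ₀ := Real.sqrt_pos.mpr hs₀pos
  obtain ⟨C₁, hC₁⟩ := hGS K B hB (∑ w : InfinitePlace K, w.mult) δ σ₀ hδ hσ₀
  have hCIK := hCI K D hT1.locComp hgood
  refine ⟨|A| * C₁ * D.μT.real D.DT, fun g => ?_⟩
  have hC₁nn : 0 ≤ C₁ := by
    refine le_trans ?_ (hC₁ σ₀ le_rfl).2
    refine mul_nonneg (pow_nonneg hσ₀.le _) (tsum_nonneg fun ξ => ?_)
    refine Set.indicator_nonneg (fun ξ _ => ?_) _
    unfold gaussT
    exact Set.indicator_nonneg (fun _ _ => (Real.exp_pos _).le) _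
  have hnn : 0 ≤ |A| * C₁ * D.μT.real D.DT :=
    mul_nonneg (mul_nonneg (abs_nonneg A) hC₁nn) measureReal_nonneg
  obtain ⟨γ₀, t₀, hH, hct⟩ := hred g
  obtain ⟨β, z, a, ω, s, hβ, hz, hs, ha, hω, hdecomp, hms, -⟩ :=
    hsieg (T1.ratG K γ₀ * g) t₀ hH hct
  obtain ⟨cU, rfl⟩ := exists_cen_of_isCentral hz
  have ha' := isRay_eq hcpx ha hs
  set σ := Real.sqrt s with hσdef
  have hσpos : 0 < σ := Real.sqrt_pos.mpr hs
  set σU := posId hcpx (posUnit σ hσpos) with hσU
  have hss : s₀ ≤ s := by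
    have h1 : m₀ * c ≤ s ^ Module.finrank ℚ K :=
      le_trans (mul_le_mul_of_nonneg_left hct hm₀.le) hms
    by_cases h : 1 ≤ s
    · exact le_trans (min_le_left _ _) h
    · rw [not_le] at h
      have : s ^ Module.finrank ℚ K ≤ s :=
        pow_le_of_le_one hs.le h.le (Module.finrank_pos).ne'
      exact le_trans (min_le_right _ _) (le_trans h1 this)
  have hσσ₀ : σ₀ ≤ σ := Real.sqrt_le_sqrt hss
  have e1 : cen cU * a * ω = cen (cU * σU) * (tSL σU * ω) := by
    rw [ha', ← cen_comm σU (tSL σU), ← mul_assoc (cen cU), cen_mul, mul_assoc]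
  have hφg : φ g = φ (cen (cU * σU) * (tSL σU * ω)) := by
    rw [← e1, ← hφ.left_inv γ₀ g]
    have : ratG γ₀ * g = ratG β * (cen cU * a * ω) := by
      change T1.ratG K γ₀ * g = T1.ratG K β * (cen cU * a * ω)
      rw [hdecomp]
      simp only [mul_assoc]
    rw [this, hφ.left_inv β]
  rw [hφg]
  by_cases hP : ∃ γ : GL (Fin 2) K,
      InGPlus D.t D.n (ratG γ * (cen (cU * σU) * (tSL σU * ω)))
  swap
  · rw [hφ.off _ (fun γ hγ => hP ⟨γ, hγ⟩), norm_zero]
    exact hnn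
  obtain ⟨γ, hγ⟩ := hP
  have hPω : ∃ γ : GL (Fin 2) K, InGPlus D.t D.n (ratG γ * ω) := ⟨γ, inP_of_mul _ _ hγ⟩
  obtain ⟨α, γ₁, m₁, hγ₁, hadm₁, hmem₁⟩ := hCprop ω hω hPω
  have e2 : ratG γ₁ * (cen (cU * σU) * (tSL σU * ω))
      = cen (cU * σU) * (tSL σU * (ratG γ₁ * ω)) := by
    rw [← mul_assoc, ← cen_comm, mul_assoc]
    congr 1
    rw [← mul_assoc, tSL, ratG_diag_comm hγ₁, mul_assoc]
  rw [← hφ.left_inv γ₁, e2]
  refine lift_bound_at hcpx D η hT1 hgood hstd hCIK φ hφ hdec σ hσpos (hC₁ σ hσσ₀).1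
    (hC₁ σ hσσ₀).2 (cU * σU) (ratG γ₁ * ω) m₁ hadm₁ ?_
  intro m hm
  exact ⟨((ratG γ₁ * ω, m₁), m), ⟨hmem₁, hDTsub hm⟩, rfl⟩

end Fermat.Agent.LT.A2.H904

end

end
-- ===== PACK-END LT/A2/H904/LiftBddTop.lean

-- ===== PACK-BEGIN LT/A2/H904/LiftBddClosed.lean
section





/-!
# Row LT, tower A2, leaf A2.03.4 `WL.LiftBddC`: CLOSED (integration, helper904)

OFF-MAIN.  Byte-identical copies of the volunteers' files, rebuilt here:

* `LT/A2/H926/AdmCompact.lean`  (helper926@3829c9173, A2.03.4.1 `AdmCompactC`),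
* `LT/A2/H139/{GaussDen,GaussLat,GaussSum}.lean` (helper139@30bb4a3b7, A2.03.4.2 `GaussSumC`),
* `LT/A2/H362/CharIntZero.lean` (helper362@cd8cedfe0, A2.03.4.3 `CharIntZeroC`).

`liftBddC904 : WL.LiftBddC`, the frozen Prop of `LT/A2/WeilLocal.lean` (helper950@17cdc7aa9)
VERBATIM and without any hypothesis beyond those inside the Prop.
-/

set_option autoImplicit false

noncomputable section

namespace Fermat.Agent.LT.A2.H904

/-- A2.03.4 from the sub-leaf A2.03.4.2 `GaussSumC` alone. -/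
theorem liftBdd_of_gaussSum (hGS : GaussSumC) : WL.LiftBddC :=
  liftBdd_of_leaves Fermat.Agent.LT.A2.H926.admCompactC_926 hGS
    Fermat.Agent.LT.A2.H362.charIntZeroC362

/-- **A2.03.4 `WL.LiftBddC`, CLOSED**: the theta lift of standard good data is bounded. -/
theorem liftBddC904 : WL.LiftBddC :=
  liftBdd_of_gaussSum Fermat.Agent.LT.A2.H139.gaussSumC139

end Fermat.Agent.LT.A2.H904

end

end
-- ===== PACK-END LT/A2/H904/LiftBddClosed.lean

-- ===== PACK-BEGIN LT/CFT/H49/HasseSemi.lean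
section




/-!
# Row LT, tower CFT, leaf CFT.12 (helper49), OFF-MAIN: the semi-local step

`x ∈ Kˣ`, `y ∈ Lˣ`, `b x = N(y) (b + P ^ (2n+2) c)` with `b ∈ ℕ` prime to `P = PS S`, `c ∈ 𝓞 K`,
`n = [L : K]`  ⟹  `x ⊗ 1 = N_G(z)` for a unit `z` of `L ⊗ ℚ_S`.
-/

set_option autoImplicit false

open IsDedekindDomain NumberField
open scoped TensorProduct
open Fermat.Agent.S55.G Fermat.Agent.S55.H963.Br

noncomputable section

namespace Fermat.Agent.LT.CFT.H49

section RS

variable (S : Finset Nat.Primes) (K : Type) [Field K] [NumberField K]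

/-- A natural number prime to `P_S` is a unit of `ℤ_S ⊗ 𝓞 K`. -/
theorem isUnit_natCast_RS49 {b : ℕ} (hb : Nat.Coprime b (PS S)) : IsUnit ((b : ℕ) : RS S K) := by
  have h := Nat.isCoprime_iff_coprime.2 hb
  obtain ⟨lam, mu, h1⟩ := h
  -- lam * b + mu * P = 1
  have h2 : ((b : ℕ) : RS S K) * ((lam : ℤ) : RS S K)
      = 1 + ((PS S : ℕ) : RS S K) * (-((mu : ℤ) : RS S K)) := by
    have := congrArg (fun z : ℤ => (z : RS S K)) h1
    simp only [Int.cast_add, Int.cast_mul, Int.cast_natCast, Int.cast_one] at this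
    linear_combination this
  have h3 : IsUnit (((b : ℕ) : RS S K) * ((lam : ℤ) : RS S K)) := by
    rw [h2]
    exact isUnit_one_add_RS S K _
  exact isUnit_of_mul_isUnit_left h3

/-- `asDiag u = 1 + P ^ M φ(r)` when `b u = b + P ^ M c`. -/
theorem asDiag_eq_one_add49 {b : ℕ} (hb : Nat.Coprime b (PS S)) (M : ℕ) (c : 𝓞 K) (u : K)
    (hu : (b : K) * u = (b : K) + ((PS S : ℕ) : K) ^ M * (c : K)) :
    ∃ r : RS S K, asDiag S K u = 1 + ((PS S : ℕ) : AS S K) ^ M * phi S K r := by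
  obtain ⟨β, hβ⟩ := isUnit_natCast_RS49 S K hb
  refine ⟨(β⁻¹ : (RS S K)ˣ) * ((1 : ZS S) ⊗ₜ[ℤ] c), ?_⟩
  have hφβ : phi S K (β : RS S K) = ((b : ℕ) : AS S K) := by
    rw [hβ, map_natCast]
  have hφc : phi S K ((1 : ZS S) ⊗ₜ[ℤ] c) = asDiag S K (c : K) := by
    rw [phi_tmul, map_one, asDiag_apply]
  have hunit : IsUnit (((b : ℕ) : AS S K)) := by
    rw [← hφβ]
    exact (β.isUnit).map (phi S K)
  have h1 : ((b : ℕ) : AS S K) * asDiag S K u
      = ((b : ℕ) : AS S K) + ((PS S : ℕ) : AS S K) ^ M * asDiag S K (c : K) := by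
    have := congrArg (asDiag S K) hu
    simpa only [map_mul, map_add, map_pow, map_natCast] using this
  have h2 : ((b : ℕ) : AS S K) * phi S K ((β⁻¹ : (RS S K)ˣ) * ((1 : ZS S) ⊗ₜ[ℤ] c))
      = asDiag S K (c : K) := by
    rw [map_mul, ← hφβ, ← mul_assoc, ← map_mul, Units.mul_inv, map_one, one_mul, hφc]
  apply hunit.mul_left_cancel
  rw [h1, mul_add, mul_one, mul_left_comm, h2]

end RS

section Norm

variable (S : Finset Nat.Primes) (K L : Type) [Field K] [NumberField K] [Field L] [NumberField L]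
  [Algebra K L]

/-- `G = Gal(L/K)` acts trivially on the image of `K ⊗ ℚ_S`. -/
theorem asAut_asMap49 (g : L ≃ₐ[K] L) (t : AS S K) :
    asAut S (L ≃ₐ[K] L) L g (asMap S K L t) = asMap S K L t := by
  induction t using TensorProduct.induction_on with
  | zero => simp
  | tmul k a =>
    rw [asMap_tmul, asAut_tmul]
    congr 1
    exact g.commutes k
  | add a b ha hb => rw [map_add, map_add, ha, hb]

theorem asMap_asDiag49 (u : K) : asMap S K L (asDiag S K u) = asDiag S L (algebraMap K L u) := by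
  rw [asDiag_apply, asMap_tmul, asDiag_apply]

variable [IsGalois K L]

/-- **The semi-local step.** -/
theorem exists_norm_eq49 (x : K) (hx : x ≠ 0) (y : L) (hy : y ≠ 0) (b : ℕ)
    (hb : Nat.Coprime b (PS S)) (c : 𝓞 K)
    (h : (b : K) * x = Algebra.norm K y *
      ((b : K) + ((PS S : ℕ) : K) ^ (2 * Nat.card (L ≃ₐ[K] L) + 2) * (c : K))) :
    ∃ z : AS S L, ∏ g : L ≃ₐ[K] L, asAut S (L ≃ₐ[K] L) L g z
      = asDiag S L (algebraMap K L x) := by
  classical
  set n := Nat.card (L ≃ₐ[K] L) with hn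
  have hn0 : 0 < n := Nat.card_pos
  have hNy : Algebra.norm K y ≠ 0 := Algebra.norm_ne_zero_iff.2 hy
  set u : K := x / Algebra.norm K y with hu
  have hxu : x = Algebra.norm K y * u := by
    rw [hu]; field_simp
  have hbu : (b : K) * u = (b : K) + ((PS S : ℕ) : K) ^ (2 * n + 2) * (c : K) := by
    have h' : Algebra.norm K y * ((b : K) * u)
        = Algebra.norm K y * ((b : K) + ((PS S : ℕ) : K) ^ (2 * n + 2) * (c : K)) := by
      rw [← h, hxu]; ring
    exact mul_left_cancel₀ hNy h'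
  obtain ⟨r, hr⟩ := asDiag_eq_one_add49 S K hb (2 * n + 2) c u hbu
  obtain ⟨t, ht⟩ := exists_pow_eq_AS S K hn0 r
  rw [← hr] at ht
  refine ⟨asDiag S L y * asMap S K L t, ?_⟩
  simp only [map_mul, Finset.prod_mul_distrib, asAut_asMap49, asAut_asDiag]
  rw [Finset.prod_const, Finset.card_univ, ← Nat.card_eq_fintype_card, ← map_pow, ht,
    asMap_asDiag49, ← map_prod, ← map_mul]
  congr 1
  have := Algebra.norm_eq_prod_automorphisms K y
  rw [hxu, map_mul, this]
  rfl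

end Norm

end Fermat.Agent.LT.CFT.H49

end

end
-- ===== PACK-END LT/CFT/H49/HasseSemi.lean

-- ===== PACK-BEGIN LT/T2/H386/SoftCore465.lean
section




/-!
# Row LT, T2.23b = `H465.LeafSoft1Core` (helper386, on request of helper465)

OFF-MAIN.  `leafSoft1Core_386 : H465.LeafSoft1Core K`, i.e.
`T1Out → 𝔫 ≠ ⊥ → FDBoundCore K 𝔫 → KernelEstCore K 𝔫`, from `kernelEst_core386`.
Typed against the byte-identical copy of `LT/T2/H465/GPSCoreCut.lean` (helper465@784c57a84,
sha256 b3d0871d) and its closure (`T2/SpecTau.lean` 4d2b0fc2, `T2/H767/LocalL2Spec.lean`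
50e6aa79).
-/

set_option autoImplicit false

open IsDedekindDomain NumberField MeasureTheory
open Fermat.Agent.LT.H556.A0

noncomputable section

namespace Fermat.Agent.LT.T2.H386

open Fermat.Agent.LT.T2

attribute [local instance] Fermat.Agent.LT.T2.borelG

variable {K : Type} [Field K] [NumberField K]

/-- **T2.23b**: the soft part in the core form of helper465. -/
theorem leafSoft1Core_386 (K : Type) [Field K] [NumberField K] : H465.LeafSoft1Core K := by
  intro hT1 𝔫 _ hFD F f hf N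
  obtain ⟨C, c, Ω, hC, hc, hΩ, hK⟩ :=
    kernelEst_core386 hT1 F f hf.cont hf.cpt (fun 𝒟 h𝒟 N => hFD f hf 𝒟 h𝒟 N) N
  exact ⟨C, c, Ω, hC, hc, hΩ, fun ψ Ψ hψ hΨ => hK ψ Ψ hψ.cont hψ.bdd hψ.left_inv hΨ⟩

/-- `H386.LeafSoft1` again, through the core form. -/
theorem leafSoft1_of_core386 (K : Type) [Field K] [NumberField K] : LeafSoft1 K := by
  intro hT1 𝔫 _ hFD F f hf N
  obtain ⟨C, c, Ω, hC, hc, hΩ, hK⟩ :=
    kernelEst_core386 hT1 F f hf.cont hf.cpt (fun 𝒟 h𝒟 N => hFD f hf 𝒟 h𝒟 N) N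
  exact ⟨C, c, Ω, hC, hc, hΩ, fun ψ Ψ hψ hΨ => hK ψ Ψ hψ.cont hψ.bdd hψ.left_inv hΨ⟩

end Fermat.Agent.LT.T2.H386

end

end
-- ===== PACK-END LT/T2/H386/SoftCore465.lean

-- ===== PACK-BEGIN LT/T2/H32/LeafT03.lean
section












/-!
# Row LT, tower T2, leaf T2.23 `LeafT03` (`GPSCoreT` = THE estimate in the class of T5): CLOSED

OFF-MAIN (integration by helper32, architect of T5; SPARE of the rows 1146, 1266, 1438).

    leafT03_32 (K) : T2.LeafT03 K       -- UNCONDITIONAL, every number field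

VERBATIM against `LT/T2/SpecTau.lean` (helper130, sha256 4d2b0fc2).  Nothing new is proved here
except the one-to-one port `USCore.lean`; the mathematics is

* the cut `GPSCoreCut.lean` and T2.23c `leafIntCore465` of helper465,
* T2.23a top `leafFDCore_of250` of helper250, with CONTR `leafContr729` (helper729),
  ALG `leafConjAlg988` (helper988), CPT `leafCpt793` (helper793), US = the proof of helper437
  (with `fdCalcC437_h8` of helper8, `levelNhdsC187` of helper187),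
* T2.23b `leafSoft1Core_386` of helper386,
* THE COUNT `leafCount868` of helper868.
-/

set_option autoImplicit false

open IsDedekindDomain NumberField

noncomputable section

namespace Fermat.Agent.LT.T2.H32

variable (K : Type) [Field K] [NumberField K]

/-- T2.23a.2 `LeafUnifSmoothCore250`, closed. -/
theorem leafUnifSmoothCore32 : H250.LeafUnifSmoothCore250 K :=
  leafUnifSmoothCore_of_leaves32 H8.fdCalcC437_h8 (H187.levelNhdsC187 K) (H793.cptC793 K)

/-- T2.23a `LeafFDCore`, closed. -/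
theorem leafFDCore32 : H465.LeafFDCore K :=
  H250.leafFDCore_of250 (H729.leafContr729 K) (leafUnifSmoothCore32 K) (H988.leafConjAlg988 K)
    (H793.leafCpt793 K)

/-- **T2.23 `LeafT03`, CLOSED**: the estimate `GPSCoreT` for every number field, every level
`𝔫 ≠ 0` and every `K_∞`-type. -/
theorem leafT03_32 : LeafT03 K :=
  H465.leafT03_of_core (leafFDCore32 K) (H386.leafSoft1Core_386 K) (H868.leafCount868 K)
    (H465.leafIntCore465 K)

end Fermat.Agent.LT.T2.H32

end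

end
-- ===== PACK-END LT/T2/H32/LeafT03.lean

-- ===== PACK-BEGIN LT/T7/H729/HaarLog.lean
section



/-!
# Row LT, tower T7, leaf T7.14.6a-F.6.1 `HaarLogC216` (helper729), OFF-MAIN

`haarLogC729 : H216.HaarLogC216` VERBATIM (frozen Prop of
`Fermat/Agent/LT/T7/H216/BoxSpec.lean`, sha256 760ee146, byte-identical copy); the proof is the
Mathlib-only core `haarLog_core729` of `H729/HaarLogCore.lean` (`dtt729 = H216.dtt216` by `rfl`).
-/

set_option autoImplicit false

namespace Fermat.Agent.LT.T7.H729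

theorem dtt729_eq216 : dtt729 = Fermat.Agent.LT.T7.H216.dtt216 := rfl

/-- **B.1 `HaarLogC216`.** -/
theorem haarLogC729 : Fermat.Agent.LT.T7.H216.HaarLogC216 := by
  intro m h0 hinv hfin hne
  obtain ⟨V₀, hV, hm⟩ := haarLog_core729 m h0 hinv hfin hne
  exact ⟨V₀, hV, by rw [hm, dtt729_eq216]⟩

end Fermat.Agent.LT.T7.H729

end
-- ===== PACK-END LT/T7/H729/HaarLog.lean

-- ===== PACK-BEGIN LT/T7/H550/TorusAsm.lean
section



/-!
# Row LT, tower T7, node T7.14 `RigidC`, leaf T7.14.6b.5 `TorusAsmC` (registry row 1832)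

OFF-MAIN (helper550, 2nd seat).  `torusAsmC550 K : Rigid.TorusAsmC K`, VERBATIM vs
`LT/T7/H62/RigidWhit.lean` (helper62, sha256 ba7c5f11b943), i.e.
`HeckeRecC K → ArchUniqC K → WhitInheritC K → MixC K → TorusC K`, for every number field `K`.

`f y = W (a(y^S)) / archProfile c 1`, `y^S` = the idele with the components of `y` on `S` and `1`
elsewhere (`glueT550 S y 1`); `K₀(c) > 0` (`besselK0_pos550`); the archimedean components by
`ArchUniqC`, the finite places outside `S` by `torus_core550`.  Also `mixC550 : MixC K`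
(`IdeleKit.lean`).
-/

set_option autoImplicit false

open IsDedekindDomain NumberField MeasureTheory AutomorphicForm
open Fermat.Agent.LT.H556.A0
open Fermat.Agent.LT.H129
open Fermat.Agent.LT.T7 Fermat.Agent.LT.T7.Rigid

noncomputable section

namespace Fermat.Agent.LT.T7.H550

variable {K : Type} [Field K] [NumberField K]

/-! ## 1. `K₀ > 0` -/

theorem half_le_cosh550 (u : ℝ) : u / 2 ≤ Real.cosh u := by
  rw [Real.cosh_eq]
  have h1 := Real.add_one_le_exp u
  have h2 := Real.exp_pos (-u)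
  linarith

theorem integrableOn_besselK0_550 {t : ℝ} (ht : 0 < t) :
    IntegrableOn (fun u : ℝ => Real.exp (-t * Real.cosh u)) (Set.Ioi 0) := by
  have h1 : IntegrableOn (fun u : ℝ => Real.exp ((-t / 2) * u)) (Set.Ioi 0) :=
    integrableOn_exp_mul_Ioi (by linarith) 0
  refine Integrable.mono' h1 ?_ ?_
  · exact (Real.continuous_exp.comp
      (continuous_const.mul Real.continuous_cosh)).aestronglyMeasurable
  · refine Filter.Eventually.of_forall fun u => ?_
    rw [Real.norm_eq_abs, abs_of_pos (Real.exp_pos _)]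
    apply Real.exp_le_exp.2
    have := half_le_cosh550 u
    nlinarith

theorem besselK0_pos550 {t : ℝ} (ht : 0 < t) : 0 < besselK0 t := by
  unfold besselK0
  rw [setIntegral_pos_iff_support_of_nonneg_ae
    (Filter.Eventually.of_forall fun u => (Real.exp_pos _).le) (integrableOn_besselK0_550 ht)]
  have hsupp : Function.support (fun u : ℝ => Real.exp (-t * Real.cosh u)) = Set.univ := by
    ext u
    simp [Function.mem_support, (Real.exp_pos _).ne']
  rw [hsupp, Set.univ_inter, Real.volume_Ioi]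
  exact ENNReal.zero_lt_top

/-! ## 2. The archimedean profile -/

theorem archProfile_congr550 (c : InfinitePlace K → ℝ) {y y' : (Adl K)ˣ}
    (h : ∀ w : InfinitePlace K, (y : Adl K).1 w = (y' : Adl K).1 w) :
    archProfile c y = archProfile c y' := by
  unfold archProfile
  refine Finset.prod_congr rfl fun w _ => ?_
  rw [h w]

theorem archProfile_one_pos550 {c : InfinitePlace K → ℝ} (hc : ∀ w, 0 < c w) :
    0 < archProfile c (1 : (Adl K)ˣ) := by
  unfold archProfile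
  refine Finset.prod_pos fun w _ => ?_
  rw [comp_oneIT550, norm_one, one_mul, mul_one]
  exact besselK0_pos550 (hc w)

/-! ## 3. The Whittaker function and the level -/

theorem whit_level550 {m : MeasurableSpace (Adl K)} (ψ : AddChar (Adl K) Circle)
    (ν : Measure (Adl K)) (D : Set (Adl K)) {𝔪 : Ideal (𝓞 K)} {φ : G K → ℂ}
    (h : ∀ u : G K, InLevelGroup 𝔪 u → ∀ g : G K, φ (g * u) = φ g) (u : G K)
    (hu : InLevelGroup 𝔪 u) (g : G K) : whit ψ ν D φ (g * u) = whit ψ ν D φ g := by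
  unfold whit
  congr 1
  funext x
  rw [← mul_assoc, h u hu]

/-! ## 4. The leaf -/

/-- **LEAF TORUS-ASM** (`Rigid.TorusAsmC`, registry row 1832). -/
theorem torusAsmC550 (K : Type) [Field K] [NumberField K] : TorusAsmC K := by
  classical
  intro hHR hAU hWI _ hcplx ψ hstd hnd ν D hνH hDm hDf hDfin
  obtain ⟨c, hc, hAU'⟩ := hAU hcplx ψ hstd hnd
  refine ⟨c, hc, fun π S φ hun hφ => ?_⟩
  have hP1 : ((archProfile c (1 : (Adl K)ˣ) : ℝ) : ℂ) ≠ 0 := by
    exact_mod_cast (archProfile_one_pos550 hc).ne'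
  have hrecW : IsRecW550 π.a S (fun y => whit ψ ν D φ (dgA y)) :=
    { hrec := fun v hv y t ht =>
        hHR hcplx ψ hstd hnd ν D hνH hDm hDf hDfin π S φ hun hφ v hv y t ht
      hunit := fun y u hI h1 h2 => by
        obtain ⟨𝔪, -, hS, hinv⟩ := hφ.level_inv
        show whit ψ ν D φ (dgA (y * u)) = whit ψ ν D φ (dgA y)
        rw [dgA_mul550]
        exact whit_level550 ψ ν D hinv _ (inLevelGroup_dgA_unit550 hS hI h1 h2) _ }
  have harch := hAU' (whit ψ ν D φ) (hWI ψ hstd ν D hνH hDm hDf hDfin π S φ hφ)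
  refine ⟨fun y => whit ψ ν D φ (dgA (glueT550 S y 1))
    / ((archProfile c (1 : (Adl K)ˣ) : ℝ) : ℂ), fun y y' h => ?_, fun y => ?_⟩
  · have e : glueT550 S y 1 = glueT550 S y' 1 := by
      refine idele_extT550 (fun w => ?_) (fun v => ?_)
      · rw [glue_infT550, glue_infT550]
      · by_cases hv : v ∈ S
        · rw [glue_memT550 S _ 1 hv, glue_memT550 S _ 1 hv, h v hv]
        · rw [glue_not_memT550 S _ 1 hv, glue_not_memT550 S _ 1 hv]
    show whit ψ ν D φ (dgA (glueT550 S y 1)) / _ = whit ψ ν D φ (dgA (glueT550 S y' 1)) / _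
    rw [e]
  · have h1 := harch y (finPartT550 y) (fun v => (finPart_FT550 y v).symm)
    have hPf : archProfile c (finPartT550 y) = archProfile c (1 : (Adl K)ˣ) :=
      archProfile_congr550 c (fun w => by rw [finPart_IT550, comp_oneIT550])
    rw [hPf] at h1
    have h2 := torus_core550 hrecW (finPartT550 y) (finPart_IT550 y)
    have hg : glueT550 S (finPartT550 y) 1 = glueT550 S y 1 := by
      refine idele_extT550 (fun w => ?_) (fun v => ?_)
      · rw [glue_infT550, glue_infT550]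
      · by_cases hv : v ∈ S
        · rw [glue_memT550 S _ 1 hv, glue_memT550 S _ 1 hv, finPart_FT550]
        · rw [glue_not_memT550 S _ 1 hv, glue_not_memT550 S _ 1 hv]
    have hprod : (∏ᶠ v : HeightOneSpectrum (𝓞 K),
          (if v ∈ S then (1 : ℂ) else locFactor v (π.a v) (ordI v (finPartT550 y))))
        = ∏ᶠ v : HeightOneSpectrum (𝓞 K),
          (if v ∈ S then (1 : ℂ) else locFactor v (π.a v) (ordI v y)) := by
      refine finprod_congr fun v => ?_
      rw [ordI_congr550 (finPart_FT550 y v)]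
    simp only [hg, hprod] at h2
    unfold kirOut
    show whit ψ ν D φ (dgA y) = whit ψ ν D φ (dgA (glueT550 S y 1))
      / ((archProfile c (1 : (Adl K)ˣ) : ℝ) : ℂ) * _
    rw [div_mul_eq_mul_div, eq_div_iff hP1, h1, h2]
    ring

end Fermat.Agent.LT.T7.H550

end

end
-- ===== PACK-END LT/T7/H550/TorusAsm.lean

-- ===== PACK-BEGIN LT/T7/H671/LimAsm.lean
section




/-!
# Row LT, tower T7, leaf `CountLimC`: assembly from the leaves of `LimSpec.lean` (helper671)

OFF-MAIN.  No `sorry`, nothing assumed.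

`countLimC_of_leaves671 : IdeleClassC K → ClassDecC K → CovolC K → LocalIdeleC K → SieveIdC K →
TailC K → PlaceSumC K → CountLimC K`.
-/

set_option autoImplicit false

open AutomorphicForm IsDedekindDomain NumberField Filter Topology MeasureTheory

noncomputable section

namespace Fermat.Agent.LT.T7.H671

open Fermat.Agent.LT.H556 Fermat.Agent.LT.H556.A0 Fermat.Agent.LT.T7 Fermat.Agent.LT.T7.Rigid

variable {K : Type} [Field K] [NumberField K]

/-- **ASSEMBLY.**  `CountLimC` from the leaves. -/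
theorem countLimC_of_leaves671 (hI : IdeleClassC K) (hCD : ClassDecC K) (hC : CovolC K)
    (hLI : LocalIdeleC K) (hS : SieveIdC K) (hT : TailC K) (hP : PlaceSumC K) : CountLimC K :=
  countLimC_of671 hI hCD (primC_of671 hC hLI hS hT hP)

end Fermat.Agent.LT.T7.H671

end

end
-- ===== PACK-END LT/T7/H671/LimAsm.lean

-- ===== PACK-BEGIN LT/T7/H227/CovolClosed.lean
section




/-!
# Row LT, tower T7, leaf T7.14.3c `CovolC` (helper671, registry row 1747): CLOSED (OFF-MAIN)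

`covolC227 K : H671.CovolC K`, UNCONDITIONAL, every number field `K`:
for every `g ∈ GL₂(𝔸_K)` the submodule `latG671 g` is a lattice of `(K_∞)²` of covolume
`c₀ · ‖det g‖_𝔸`, with `c₀ > 0` independent of `g`.

Assembly (all bytes vendored byte-identical from the owners' branches):

* `covolC_of_leaves227` (helper227, `CovolTop.lean`),
* `topoC600`   (helper600, row 1895),
* `latC236`    (helper236, row 1896),
* `sliceC138`  (helper138, row 2103, spare of row 1897),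
* `strictC404` (helper404, row 1942, spare of row 1898).
-/

set_option autoImplicit false

namespace Fermat.Agent.LT.T7.H227

/-- **T7.14.3c `CovolC`, closed.** -/
theorem covolC227 (K : Type) [Field K] [NumberField K] : Fermat.Agent.LT.T7.H671.CovolC K :=
  covolC_of_slice227 K (Fermat.Agent.LT.T7.H138.sliceC138 K)

end Fermat.Agent.LT.T7.H227

end
-- ===== PACK-END LT/T7/H227/CovolClosed.lean

-- ===== PACK-BEGIN LT/T7/H671/LocalIdele.lean
section






/-!
# Row LT, tower T7, leaf `CountLimC`: the leaf `LocalIdeleC` (registry row 1959) (helper671, spare)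

OFF-MAIN.  No `sorry`, nothing assumed.

`localIdeleC671 K : LocalIdeleC K` for every number field `K`:

* uniformiser ideles `unifIdl671 v` (a uniformiser at `v`, `1` elsewhere);
* for `𝔪 ≠ 0` the idele `levelIdl671 𝔪 = ∏_{v ∣ 𝔪} ϖ_v ^ e_v`, `e_v = multiplicity v 𝔪`:
  `𝔪 𝒪_v = {t : ‖t‖ ≤ ‖μ_v‖}` at every `v`, and `∏_v ‖μ_v‖ = (N𝔪)⁻¹`.

The density lemmas `intRange_dense671`, `mul_mem_idealClosure671` are those of helper437
(`LT/T2/H187/LevelNhds.lean`), copied with a new suffix to keep the closure small.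
-/

set_option autoImplicit false

open AutomorphicForm IsDedekindDomain NumberField Filter Topology MeasureTheory

noncomputable section

namespace Fermat.Agent.LT.T7.H671

open Fermat.Agent.LT.H556 Fermat.Agent.LT.H556.A0 Fermat.Agent.LT.T7 Fermat.Agent.LT.T7.Rigid
open Fermat.Agent.LT.T1.H671

variable {K : Type} [Field K] [NumberField K]

/-! ## Density of `𝓞 K` in `𝒪_v` (helper437) -/

/-- `𝓞 K` is dense in `𝒪_v`. -/
theorem intRange_dense671 (v : HeightOneSpectrum (𝓞 K)) {y : v.adicCompletion K}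
    (hy : Valued.v y ≤ 1) :
    y ∈ closure (Set.range
      (fun a : 𝓞 K => algebraMap K (v.adicCompletion K) (algebraMap (𝓞 K) K a))) := by
  rw [mem_closure_iff_nhds]
  intro t ht
  obtain ⟨γ, hγ⟩ := Valued.mem_nhds.1 ht
  have hne : MonoidWithZeroHom.ValueGroup₀.embedding γ.1 ≠ 0 := by
    intro h0
    simp at h0
  have hB : {z : v.adicCompletion K | Valued.v.restrict (z - y) < γ.1} ∈ 𝓝 y :=
    Valued.mem_nhds.2 ⟨γ, subset_rfl⟩
  have hO : ((v.adicCompletionIntegers K : Set (v.adicCompletion K))) ∈ 𝓝 y :=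
    (Valued.isOpen_valuationSubring _).mem_nhds hy
  obtain ⟨z, ⟨hz1, hz2⟩, k, rfl⟩ :=
    mem_closure_iff_nhds.1 ((HeightOneSpectrum.denseRange_algebraMap K v) y) _
      (Filter.inter_mem hB hO)
  have hk1 : v.valuation K k ≤ 1 := by
    rw [← HeightOneSpectrum.valuedAdicCompletion_eq_valuation']
    exact hz2
  have hk2 : Valued.v (algebraMap K (v.adicCompletion K) k - y)
      < MonoidWithZeroHom.ValueGroup₀.embedding γ.1 :=
    (Valuation.restrict_lt_iff_lt_embedding _).1 hz1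
  obtain ⟨a, ha⟩ := v.exists_valuation_sub_lt_of_integer hk1 (Units.mk0 _ hne)
  refine ⟨algebraMap K (v.adicCompletion K) (algebraMap (𝓞 K) K a), hγ ?_, ⟨a, rfl⟩⟩
  show Valued.v.restrict (algebraMap K (v.adicCompletion K) (algebraMap (𝓞 K) K a) - y) < γ.1
  rw [Valuation.restrict_lt_iff_lt_embedding]
  have e : algebraMap K (v.adicCompletion K) (algebraMap (𝓞 K) K a) - y
      = algebraMap K (v.adicCompletion K) (algebraMap (𝓞 K) K a - k)
        + (algebraMap K (v.adicCompletion K) k - y) := by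
    rw [map_sub]; ring
  rw [e]
  refine lt_of_le_of_lt (Valuation.map_add _ _ _) (max_lt ?_ hk2)
  have := HeightOneSpectrum.valuedAdicCompletion_eq_valuation' v
    (algebraMap (𝓞 K) K a - k)
  rw [Units.val_mk0] at ha
  exact this ▸ ha

/-- `d 𝒪_v ⊆ 𝔫 𝒪_v` for `d ∈ 𝔫`. -/
theorem mul_mem_idealClosure671 (v : HeightOneSpectrum (𝓞 K)) (𝔫 : Ideal (𝓞 K)) {d : 𝓞 K}
    (hd : d ∈ 𝔫) {y : v.adicCompletion K} (hy : Valued.v y ≤ 1) :
    algebraMap K (v.adicCompletion K) (algebraMap (𝓞 K) K d) * y ∈ idealClosure 𝔫 v := by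
  have h1 := Set.mem_image_of_mem
    (fun z : v.adicCompletion K => algebraMap K (v.adicCompletion K) (algebraMap (𝓞 K) K d) * z)
    (intRange_dense671 v hy)
  have h2 := image_closure_subset_closure_image
    (f := fun z : v.adicCompletion K =>
      algebraMap K (v.adicCompletion K) (algebraMap (𝓞 K) K d) * z)
    (s := Set.range
      (fun a : 𝓞 K => algebraMap K (v.adicCompletion K) (algebraMap (𝓞 K) K a)))
    (continuous_const.mul continuous_id) h1
  refine closure_mono ?_ h2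
  rintro _ ⟨_, ⟨a, rfl⟩, rfl⟩
  refine ⟨d * a, 𝔫.mul_mem_right a hd, ?_⟩
  simp only [map_mul]

/-! ## Norms and valuations -/

theorem norm_eq_zpow671 (v : HeightOneSpectrum (𝓞 K)) (y : v.adicCompletion K) (n : ℤ)
    (h : Valued.v y = WithZero.exp n) : ‖y‖ = ((Ideal.absNorm v.asIdeal : ℕ) : ℝ) ^ n := by
  have := nnnorm_eq_zpow671 v y n h
  have h2 := congrArg (fun t : NNReal => (t : ℝ)) this
  simpa using h2

theorem valued_int671 (v : HeightOneSpectrum (𝓞 K)) (x : 𝓞 K) :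
    Valued.v (algebraMap K (v.adicCompletion K) (algebraMap (𝓞 K) K x)) = v.intValuation x := by
  rw [← HeightOneSpectrum.valuation_of_algebraMap (K := K)]
  exact HeightOneSpectrum.valuedAdicCompletion_eq_valuation' v _

/-! ## The uniformiser ideles -/

/-- The idele of a uniformiser at `v`. -/
def unifIdl671 (v : HeightOneSpectrum (𝓞 K)) : (FiniteAdeleRing (𝓞 K) K)ˣ :=
  localUnit671 v (Classical.choose (exists_uniformizer_unit671 (K := K) v))

theorem valued_unifIdl671 (v : HeightOneSpectrum (𝓞 K)) :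
    Valued.v (((unifIdl671 v : (FiniteAdeleRing (𝓞 K) K)ˣ) : FiniteAdeleRing (𝓞 K) K) v)
      = WithZero.exp (-1 : ℤ) := by
  unfold unifIdl671
  rw [localUnit_same671]
  exact Classical.choose_spec (exists_uniformizer_unit671 (K := K) v)

theorem unifIdl671_of_ne {v u : HeightOneSpectrum (𝓞 K)} (h : u ≠ v) :
    ((unifIdl671 v : (FiniteAdeleRing (𝓞 K) K)ˣ) : FiniteAdeleRing (𝓞 K) K) u = 1 :=
  localUnit_of_ne671 _ h

theorem isUnifFamily_unifIdl671 : IsUnifFamily671 (unifIdl671 (K := K)) := by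
  intro v
  refine ⟨?_, fun u hu => unifIdl671_of_ne hu⟩
  rw [norm_eq_zpow671 v _ (-1) (valued_unifIdl671 v), zpow_neg_one]

/-! ## The idele of an ideal -/

/-- Evaluation at a place, as a monoid homomorphism. -/
def evalHom671 (u : HeightOneSpectrum (𝓞 K)) :
    FiniteAdeleRing (𝓞 K) K →* u.adicCompletion K where
  toFun a := a u
  map_one' := rfl
  map_mul' _ _ := rfl

theorem evalHom671_apply (u : HeightOneSpectrum (𝓞 K)) (a : FiniteAdeleRing (𝓞 K) K) :
    evalHom671 u a = a u := rfl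

/-- The idele `∏_{v ∣ 𝔪} ϖ_v ^ e_v` of the ideal `𝔪 ≠ 0`. -/
def levelIdl671 (𝔪 : Ideal (𝓞 K)) (h𝔪 : 𝔪 ≠ ⊥) : (FiniteAdeleRing (𝓞 K) K)ˣ :=
  ∏ v ∈ (Ideal.finite_factors h𝔪).toFinset, unifIdl671 v ^ multiplicity v.asIdeal 𝔪

section Level

variable {𝔪 : Ideal (𝓞 K)} (h𝔪 : 𝔪 ≠ ⊥)
include h𝔪

theorem mem_factors671 (v : HeightOneSpectrum (𝓞 K)) :
    v ∈ (Ideal.finite_factors h𝔪).toFinset ↔ v.asIdeal ∣ 𝔪 := by
  rw [Set.Finite.mem_toFinset, Set.mem_ofPred_eq]

theorem finiteMultiplicity671 (v : HeightOneSpectrum (𝓞 K)) :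
    FiniteMultiplicity v.asIdeal 𝔪 :=
  FiniteMultiplicity.of_not_isUnit
    (fun h => v.isPrime.ne_top (Ideal.isUnit_iff.mp h)) h𝔪

theorem multiplicity_pos671 {v : HeightOneSpectrum (𝓞 K)} (hv : v.asIdeal ∣ 𝔪) :
    0 < multiplicity v.asIdeal 𝔪 := by
  have := (finiteMultiplicity671 h𝔪 v).le_multiplicity_of_pow_dvd (k := 1) (by rwa [pow_one])
  exact this

theorem levelIdl671_apply (u : HeightOneSpectrum (𝓞 K)) :
    ((levelIdl671 𝔪 h𝔪 : (FiniteAdeleRing (𝓞 K) K)ˣ) : FiniteAdeleRing (𝓞 K) K) u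
      = (((unifIdl671 u : (FiniteAdeleRing (𝓞 K) K)ˣ) : FiniteAdeleRing (𝓞 K) K) u)
        ^ multiplicity u.asIdeal 𝔪 := by
  classical
  unfold levelIdl671
  rw [Units.coe_prod, ← evalHom671_apply, map_prod]
  have hterm : ∀ v : HeightOneSpectrum (𝓞 K),
      evalHom671 u (((unifIdl671 v ^ multiplicity v.asIdeal 𝔪 :
        (FiniteAdeleRing (𝓞 K) K)ˣ)) : FiniteAdeleRing (𝓞 K) K)
      = (((unifIdl671 v : (FiniteAdeleRing (𝓞 K) K)ˣ) : FiniteAdeleRing (𝓞 K) K) u)
        ^ multiplicity v.asIdeal 𝔪 := by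
    intro v
    rw [Units.val_pow_eq_pow_val, map_pow, evalHom671_apply]
  simp only [hterm]
  rw [Finset.prod_eq_single u]
  · intro v _ hvu
    rw [unifIdl671_of_ne (Ne.symm hvu), one_pow]
  · intro hu
    rw [mem_factors671 h𝔪] at hu
    rw [multiplicity_eq_zero.mpr hu, pow_zero]

theorem valued_levelIdl671 (u : HeightOneSpectrum (𝓞 K)) :
    Valued.v (((levelIdl671 𝔪 h𝔪 : (FiniteAdeleRing (𝓞 K) K)ˣ) : FiniteAdeleRing (𝓞 K) K) u)
      = WithZero.exp (-(multiplicity u.asIdeal 𝔪 : ℤ)) := by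
  rw [levelIdl671_apply, map_pow, valued_unifIdl671, ← WithZero.exp_nsmul]
  simp

theorem levelIdl671_of_not_dvd {u : HeightOneSpectrum (𝓞 K)} (hu : ¬ u.asIdeal ∣ 𝔪) :
    ((levelIdl671 𝔪 h𝔪 : (FiniteAdeleRing (𝓞 K) K)ˣ) : FiniteAdeleRing (𝓞 K) K) u = 1 := by
  rw [levelIdl671_apply, multiplicity_eq_zero.mpr hu, pow_zero]

theorem norm_levelIdl671 (u : HeightOneSpectrum (𝓞 K)) :
    ‖((levelIdl671 𝔪 h𝔪 : (FiniteAdeleRing (𝓞 K) K)ˣ) : FiniteAdeleRing (𝓞 K) K) u‖
      = (((Ideal.absNorm u.asIdeal : ℕ) : ℝ)⁻¹) ^ multiplicity u.asIdeal 𝔪 := by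
  rw [norm_eq_zpow671 u _ _ (valued_levelIdl671 h𝔪 u), zpow_neg, zpow_natCast, inv_pow]

theorem norm_levelIdl671_lt_one {u : HeightOneSpectrum (𝓞 K)} (hu : u.asIdeal ∣ 𝔪) :
    ‖((levelIdl671 𝔪 h𝔪 : (FiniteAdeleRing (𝓞 K) K)ˣ) : FiniteAdeleRing (𝓞 K) K) u‖ < 1 := by
  rw [norm_levelIdl671]
  have h1 := absNorm_pos671 u
  have h2 : ((Ideal.absNorm u.asIdeal : ℕ) : ℝ)⁻¹ < 1 := inv_lt_one_of_one_lt₀ h1
  have h3 : 0 ≤ ((Ideal.absNorm u.asIdeal : ℕ) : ℝ)⁻¹ := by positivity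
  exact pow_lt_one₀ h3 h2 (multiplicity_pos671 h𝔪 hu).ne'

/-- An element of `𝔪` of minimal valuation at `u`. -/
theorem exists_mem_intValuation_eq671 (u : HeightOneSpectrum (𝓞 K)) :
    ∃ x ∈ 𝔪, u.intValuation x = WithZero.exp (-(multiplicity u.asIdeal 𝔪 : ℤ)) := by
  have hnot : ¬ u.asIdeal ^ (multiplicity u.asIdeal 𝔪 + 1) ∣ 𝔪 :=
    (finiteMultiplicity671 h𝔪 u).not_pow_dvd_of_multiplicity_lt (Nat.lt_succ_self _)
  have hle : ¬ 𝔪 ≤ u.asIdeal ^ (multiplicity u.asIdeal 𝔪 + 1) := fun h =>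
    hnot (Ideal.dvd_iff_le.mpr h)
  obtain ⟨x, hx, hxn⟩ := SetLike.not_le_iff_exists.1 hle
  refine ⟨x, hx, ?_⟩
  have h1 : u.intValuation x ≤ WithZero.exp (-(multiplicity u.asIdeal 𝔪 : ℤ)) :=
    (u.intValuation_le_pow_iff_dvd x _).mpr
      (dvd_trans (pow_multiplicity_dvd _ _) (Ideal.dvd_span_singleton.mpr hx))
  have h2 : ¬ u.intValuation x ≤ WithZero.exp (-((multiplicity u.asIdeal 𝔪 + 1 : ℕ) : ℤ)) :=
    fun h => hxn ((u.intValuation_le_pow_iff_mem x _).mp h)
  have hx0 : u.intValuation x ≠ 0 := by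
    intro h0
    apply h2
    rw [h0]
    exact zero_le
  obtain ⟨k, hk⟩ : ∃ k : ℤ, u.intValuation x = WithZero.exp k :=
    ⟨WithZero.log (u.intValuation x), (WithZero.exp_log hx0).symm⟩
  rw [hk] at h1 h2 ⊢
  rw [WithZero.exp_le_exp] at h1 h2
  push_cast at h2
  congr 1
  omega

theorem idealClosure_eq_levelIdl671 (u : HeightOneSpectrum (𝓞 K)) :
    idealClosure 𝔪 u
      = {t | ‖t‖ ≤ ‖((levelIdl671 𝔪 h𝔪 : (FiniteAdeleRing (𝓞 K) K)ˣ) :
          FiniteAdeleRing (𝓞 K) K) u‖} := by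
  apply Set.Subset.antisymm
  · unfold idealClosure
    refine closure_minimal ?_ (isClosed_le continuous_norm continuous_const)
    rintro _ ⟨x, hx, rfl⟩
    show ‖_‖ ≤ ‖_‖
    rw [Valued.toNormedField.norm_le_iff, valued_levelIdl671, valued_int671]
    exact (u.intValuation_le_pow_iff_dvd x _).mpr
      (dvd_trans (pow_multiplicity_dvd _ _) (Ideal.dvd_span_singleton.mpr hx))
  · intro t ht
    have ht' : Valued.v t ≤ WithZero.exp (-(multiplicity u.asIdeal 𝔪 : ℤ)) := by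
      have := (Valued.toNormedField.norm_le_iff).mp ht
      rwa [valued_levelIdl671] at this
    obtain ⟨x₀, hx₀, hval⟩ := exists_mem_intValuation_eq671 h𝔪 u
    set ι := algebraMap K (u.adicCompletion K) (algebraMap (𝓞 K) K x₀) with hι
    have hιv : Valued.v ι = WithZero.exp (-(multiplicity u.asIdeal 𝔪 : ℤ)) := by
      rw [hι, valued_int671, hval]
    have hι0 : ι ≠ 0 := by
      intro h0
      rw [h0, map_zero] at hιv
      exact WithZero.exp_ne_zero hιv.symm
    have hy : Valued.v (ι⁻¹ * t) ≤ 1 := by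
      rw [map_mul, map_inv₀, hιv]
      rw [inv_mul_le_iff₀ WithZero.exp_pos, mul_one]
      exact ht'
    have := mul_mem_idealClosure671 u 𝔪 hx₀ hy
    rwa [← hι, mul_inv_cancel_left₀ hι0] at this

theorem finNormI_levelIdl671 :
    finNormI671 (levelIdl671 𝔪 h𝔪) = ((Ideal.absNorm 𝔪 : ℕ) : ℝ)⁻¹ := by
  classical
  unfold levelIdl671
  rw [finNormI671_prod]
  have hterm : ∀ v : HeightOneSpectrum (𝓞 K),
      finNormI671 (unifIdl671 v ^ multiplicity v.asIdeal 𝔪)
        = (((Ideal.absNorm v.asIdeal : ℕ) : ℝ)⁻¹) ^ multiplicity v.asIdeal 𝔪 := by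
    intro v
    have := map_pow (finNormHom671 (K := K)) (unifIdl671 v) (multiplicity v.asIdeal 𝔪)
    rw [show finNormI671 (unifIdl671 v ^ multiplicity v.asIdeal 𝔪)
      = finNormHom671 (unifIdl671 v ^ multiplicity v.asIdeal 𝔪) from rfl, this]
    show finNormI671 (unifIdl671 v) ^ _ = _
    rw [finNormI671_unif isUnifFamily_unifIdl671]
  simp only [hterm]
  -- the norm of `𝔪`
  have hfac := Ideal.finprod_heightOneSpectrum_pow_multiplicity h𝔪
  have hsupp : Function.mulSupport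
      (fun v : HeightOneSpectrum (𝓞 K) => v.asIdeal ^ multiplicity v.asIdeal 𝔪)
      ⊆ ((Ideal.finite_factors h𝔪).toFinset : Set (HeightOneSpectrum (𝓞 K))) := by
    intro v hv
    rw [Finset.mem_coe, mem_factors671 h𝔪]
    by_contra hnd
    apply hv
    show v.asIdeal ^ multiplicity v.asIdeal 𝔪 = 1
    rw [multiplicity_eq_zero.mpr hnd, pow_zero]
  rw [finprod_eq_prod_of_mulSupport_subset _ hsupp] at hfac
  have hN : Ideal.absNorm 𝔪
      = ∏ v ∈ (Ideal.finite_factors h𝔪).toFinset,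
          Ideal.absNorm v.asIdeal ^ multiplicity v.asIdeal 𝔪 := by
    conv_lhs => rw [← hfac]
    rw [map_prod]
    exact Finset.prod_congr rfl fun v _ => map_pow _ _ _
  rw [hN]
  push_cast
  rw [← Finset.prod_inv_distrib]
  exact Finset.prod_congr rfl fun v _ => (inv_pow _ _)

theorem isLevelIdele_levelIdl671 : IsLevelIdele671 𝔪 (levelIdl671 𝔪 h𝔪) :=
  ⟨fun u => idealClosure_eq_levelIdl671 h𝔪 u, fun _ hu => norm_levelIdl671_lt_one h𝔪 hu,
    fun _ hu => levelIdl671_of_not_dvd h𝔪 hu, finNormI_levelIdl671 h𝔪⟩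

end Level

/-- **T7.14.3h `LocalIdeleC`**, every number field. -/
theorem localIdeleC671 (K : Type) [Field K] [NumberField K] : LocalIdeleC K :=
  ⟨fun 𝔪 h𝔪 => ⟨levelIdl671 𝔪 h𝔪, isLevelIdele_levelIdl671 h𝔪⟩,
    ⟨unifIdl671, isUnifFamily_unifIdl671⟩⟩

end Fermat.Agent.LT.T7.H671

end

end
-- ===== PACK-END LT/T7/H671/LocalIdele.lean

-- ===== PACK-BEGIN LT/T7/H671/LimClosed.lean
section















/-!
# Row LT, tower T7, node T7.14 `RigidC`, leaf `CountC` (registry row 1519): integration (helper671)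

OFF-MAIN.  No `sorry`, nothing assumed.

**CLOSED**: `countC_closed671 K : Rigid.CountC K` and `countLimC_closed671 K : CountLimC K`,
UNCONDITIONAL, for EVERY number field `K`.  Intermediate statements:

* `countLimC_of_two671 : LocalIdeleC K → TailC K → CountLimC K`,
* `countC_of_two671    : LocalIdeleC K → TailC K → Rigid.CountC K`,
* `tailC_closed671 K   : TailC K` (helper71),
* `countLimC_of_one671 : LocalIdeleC K → CountLimC K`,
* `countC_of_one671    : LocalIdeleC K → Rigid.CountC K`.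

Inputs (all vendored byte-identical from the owners' branches):
`ideleClassC502` (helper502), `contentC139` (helper139), `unitsC753`, `scaleC753` (helper753),
`classDecC_of250` (helper250), `sieveIdC267` (helper267), `placeSumC954` (helper954),
`covolC227` (helper227, with helpers 600, 236, 138, 404), `countMeasC724` (helper724),
`countBddC263` (helper263), `adNormC309` (helper309, tower T1), `tailC_of71` (helper71).
-/

set_option autoImplicit false

open AutomorphicForm IsDedekindDomain NumberField Filter Topology MeasureTheory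

noncomputable section

namespace Fermat.Agent.LT.T7.H671

open Fermat.Agent.LT.H556 Fermat.Agent.LT.H556.A0 Fermat.Agent.LT.T7 Fermat.Agent.LT.T7.Rigid

variable (K : Type) [Field K] [NumberField K]

/-- `ClassDecC K` for a totally complex field. -/
theorem classDecC_closed671 (hK : TotCplx K) : ClassDecC K :=
  Fermat.Agent.LT.T7.H250.classDecC_of250 (Fermat.Agent.LT.T7.H139.contentC139 K)
    (Fermat.Agent.LT.T7.H753.unitsC753 K) (Fermat.Agent.LT.T7.H753.scaleC753 K)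
    (Fermat.Agent.LT.T1.H309.adNormC309 K) hK

variable {K}

/-- `CountLimC K` modulo `LocalIdeleC K` and `TailC K`. -/
theorem countLimC_of_two671 (hLI : LocalIdeleC K) (hT : TailC K) : CountLimC K := fun hK =>
  countLimC_of_leaves671 (Fermat.Agent.LT.T7.H502.ideleClassC502 K) (classDecC_closed671 K hK)
    (Fermat.Agent.LT.T7.H227.covolC227 K) hLI (Fermat.Agent.LT.T7.H671.H267.sieveIdC267 K) hT
    (Fermat.Agent.LT.T7.H954.placeSumC954 K) hK

/-- `Rigid.CountC K` modulo `LocalIdeleC K` and `TailC K`. -/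
theorem countC_of_two671 (hLI : LocalIdeleC K) (hT : TailC K) : CountC K :=
  countC_of671 (Fermat.Agent.LT.T7.H724.countMeasC724 (K := K)) (countLimC_of_two671 hLI hT)
    (Fermat.Agent.LT.T7.H263.countBddC263 K)

variable (K) in
/-- `TailC K`, closed (helper71). -/
theorem tailC_closed671 : TailC K :=
  Fermat.Agent.LT.T7.H71.tailC_of71 (Fermat.Agent.LT.T7.H502.ideleClassC502 K)
    (Fermat.Agent.LT.T7.H227.covolC227 K)

/-- `CountLimC K` modulo `LocalIdeleC K`. -/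
theorem countLimC_of_one671 (hLI : LocalIdeleC K) : CountLimC K :=
  countLimC_of_two671 hLI (tailC_closed671 K)

/-- `Rigid.CountC K` modulo `LocalIdeleC K`. -/
theorem countC_of_one671 (hLI : LocalIdeleC K) : CountC K :=
  countC_of_two671 hLI (tailC_closed671 K)

variable (K) in
/-- **T7.14.3 `CountLimC`, CLOSED**: every number field. -/
theorem countLimC_closed671 : CountLimC K :=
  countLimC_of_one671 (localIdeleC671 K)

variable (K) in
/-- **T7.14.3 LEAF `CountC` (registry row 1519), CLOSED**: every number field. -/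
theorem countC_closed671 : CountC K :=
  countC_of_one671 (localIdeleC671 K)

end Fermat.Agent.LT.T7.H671

end

end
-- ===== PACK-END LT/T7/H671/LimClosed.lean

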