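import Mathlib
import Fermat.Agent.Pack.LT2.E17L0
import Fermat.Agent.Pack.LT2.E0L1
import Fermat.Agent.Pack.LT2.E16L3
import Fermat.Agent.Pack.LT2.E17L3
import Fermat.Agent.Pack.LT2.E18L2
import Fermat.Agent.Pack.LT2.E18L3
import Fermat.Agent.Pack.LT2.E18L1
import Fermat.Agent.Pack.LT2.E1L1
import Fermat.Agent.Pack.LT2.E15L1
import Fermat.Agent.Pack.LT2.E2L2

set_option linter.all false

-- ===== PACK-BEGIN LT/A2/H293/Core.lean
section



/-!
# Row LT, tower A2, leaf A2.03.1.1.09 `LocBadOfRepC` (helper293) -- part 5: the local core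

OFF-MAIN.  A complete field `k` valued in `ℤᵐ⁰` with compact ring of integers, `2 ≠ 0`:
from the local Weil representation (`hrep`: every Schwartz--Bruhat function is the initial vector
of a family with the local axioms) and uniqueness (`LocUniqC`), the family `F` with initial vector
`phi293 k M e` is right invariant under the pairs `(k₀, κ)`, `k₀ ≡ 1` modulo `ϖ^N`,
`κ ∈ tlev293 t n M e`, `det k₀ = det κ`, and every `det k₀` is the determinant of some `κ`.
-/

set_option autoImplicit false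

open Filter Topology MeasureTheory

noncomputable section

namespace Fermat.Agent.LT.A2.H293

open Fermat.Agent.LT.T6 Fermat.Agent.LT.H129 Fermat.Agent.LT.A2 Fermat.Agent.LT.A2.WX467

variable {k : Type} [Field k] [Valued k Γ₀]

theorem continuous_qfL293 {k : Type} [Field k] [TopologicalSpace k] [IsTopologicalRing k]
    (t n : k) : Continuous (qfL t n) := by
  unfold qfL
  fun_prop

/-- **The local core.** -/
theorem finCore293 [CompleteSpace k] (huniq : LocUniqC) (hO : IsCompact (ball293 k 0))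
    (h2 : (2 : k) ≠ 0) {absv : k → ℝ} (hpos : ∀ a : k, a ≠ 0 → 0 < absv a)
    (habs : ∀ a : k, Valued.v a = 1 → absv a = 1) {t n : k} {ψ : k → ℂ}
    {μ : @Measure k (borel k)} {γ : ℂ} {η : k → ℂ}
    (hrep : ∀ Φ : k × k → ℂ, IsLocallyConstant Φ → HasCompactSupport Φ →
      ∃ F : Matrix (Fin 2) (Fin 2) k → Matrix (Fin 2) (Fin 2) k → k × k → ℂ,
        LocAx absv t n ψ μ γ η F ∧
          (∀ g m : Matrix (Fin 2) (Fin 2) k, AdmL t n g m →
            IsLocallyConstant (F g m) ∧ HasCompactSupport (F g m)) ∧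
          F 1 1 = Φ)
    {M e : ℕ} (hM : 1 ≤ M) (ht : Valued.v t ≤ WithZero.exp (e : ℤ))
    (hn : Valued.v n ≤ WithZero.exp (e : ℤ)) :
    ∃ (N : ℕ) (F : Matrix (Fin 2) (Fin 2) k → Matrix (Fin 2) (Fin 2) k → k × k → ℂ),
      LocAx absv t n ψ μ γ η F ∧
        (∀ g m : Matrix (Fin 2) (Fin 2) k, AdmL t n g m →
          IsLocallyConstant (F g m) ∧ HasCompactSupport (F g m)) ∧
        F 1 1 = phi293 k M e ∧
        (∀ k₀ κ : Matrix (Fin 2) (Fin 2) k, (∀ i j : Fin 2, (k₀ - 1) i j ∈ ball293 k N) →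
          κ ∈ tlev293 t n M e → k₀.det = κ.det →
          ∀ (g m : Matrix (Fin 2) (Fin 2) k) (ξ : k × k), AdmL t n g m →
            F (g * k₀) (m * κ) ξ = F g m ξ) ∧
        ∀ k₀ : Matrix (Fin 2) (Fin 2) k, (∀ i j : Fin 2, (k₀ - 1) i j ∈ ball293 k N) →
          ∃ κ ∈ tlev293 t n M e, κ.det = k₀.det := by
  obtain ⟨F, hax, hsb, hF11⟩ := hrep (phi293 k M e) (isLocallyConstant_phi293 M e)
    (hasCompactSupport_phi293 hO M e)
  obtain ⟨Nψ, hNψ⟩ := psi_small293 hax.psi_char.1 hax.psi_char.2.1 hax.psi_char.2.2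
  have hη1 : η 1 = 1 := by
    have := hax.eta_norm 1 (inTorL_one293 t n) (by rw [Matrix.det_one]; exact one_ne_zero)
    rw [Matrix.det_one] at this
    exact this
  obtain ⟨Nη, _, hNη⟩ := eta_small293 hax.eta_cont hη1 hax.eta_sq
  have hdW : ((!![0, 1; -1, 0] : Matrix (Fin 2) (Fin 2) k) * 1).det = 1 := by
    rw [Matrix.mul_one, Matrix.det_fin_two_of]
    ring
  have hcs : IsCompact (tsupport (F (!![0, 1; -1, 0] * 1) 1)) :=
    (hsb _ 1 (admL_one293 t n hdW)).2
  obtain ⟨B, hB⟩ := compact_bounded293 hcs (continuous_qfL293 t n)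
  obtain ⟨Ns, hNs⟩ := sqrt_near_one293 h2 M
  set N : ℕ := max (max M (Nψ + B)) (max Nη Ns) with hN
  have hNM : M ≤ N := le_trans (le_max_left _ _) (le_max_left _ _)
  have hNψB : Nψ + B ≤ N := le_trans (le_max_right _ _) (le_max_left _ _)
  have hNNη : Nη ≤ N := le_trans (le_max_left _ _) (le_max_right _ _)
  have hNNs : Ns ≤ N := le_trans (le_max_right _ _) (le_max_right _ _)
  have hN1 : 1 ≤ N := le_trans hM hNM
  refine ⟨N, F, hax, hsb, hF11, ?_, ?_⟩
  · -- right invariance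
    intro k₀ κ hk₀ hκ hdet
    have hκT := tlev_tor293 ht hn hM hκ
    have hδ : Valued.v κ.det = 1 := tlev_det_val293 ht hn hM hκ
    have hp1 : k₀ 0 0 - 1 ∈ ball293 k N := by simpa using hk₀ 0 0
    have hq : k₀ 0 1 ∈ ball293 k N := by simpa using hk₀ 0 1
    have hr : k₀ 1 0 ∈ ball293 k N := by simpa using hk₀ 1 0
    have hp0 : k₀ 0 0 ≠ 0 := ne_zero_of_sub293 hN1 hp1
    have hvp : Valued.v (k₀ 0 0) = 1 := val_eq_one_of_sub293 hN1 hp1
    refine rightInv293 huniq hpos hax hκT.1 hdet hκT.2 (habs _ hδ) ?_ ?_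
    · refine chain293 hax hp0 ?_ ?_ ?_ ?_
      · have h0 : k₀.det = k₀ 0 0 * k₀ 1 1 - k₀ 0 1 * k₀ 1 0 := Matrix.det_fin_two k₀
        have e1 : k₀ 0 0 * (κ.det⁻¹ * k₀ 1 1) - k₀ 0 1 * (κ.det⁻¹ * k₀ 1 0)
            = κ.det⁻¹ * (k₀ 0 0 * k₀ 1 1 - k₀ 0 1 * k₀ 1 0) := by ring
        rw [e1, ← h0, hdet, inv_mul_cancel₀ hκT.2]
      · intro ξ
        rw [hF11]
        by_cases hξ : ξ ∈ SM293 k M e
        · have hQ : Valued.v (qfL t n ξ) = 1 := SM_qf_val293 ht hn hM hξ
          have hmem : k₀ 0 1 / k₀ 0 0 * qfL t n ξ ∈ ball293 k Nψ := by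
            refine ball_anti293 (le_trans (Nat.le_add_right _ _) hNψB) ?_
            rw [mem_ball293, map_mul, map_div₀, hvp, hQ, div_one, mul_one]
            exact hq
          rw [hNψ _ hmem, one_mul]
        · rw [phi_of_not_mem293 hξ, mul_zero]
      · intro ξ
        rw [hF11, hNη _ (ball_anti293 hNNη hp1), habs _ hvp,
          phi_smul293 ht hn hM (ball_anti293 hNM hp1)]
        simp
      · intro ξ
        by_cases hξ : F (!![0, 1; -1, 0] * 1) 1 ξ = 0
        · rw [hξ, mul_zero]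
        · have hξ' : ξ ∈ tsupport (F (!![0, 1; -1, 0] * 1) 1) :=
            subset_tsupport _ (Function.mem_support.mpr hξ)
          have hQ := hB ξ hξ'
          have hmem : -(κ.det⁻¹ * k₀ 1 0 / k₀ 0 0) * qfL t n ξ ∈ ball293 k Nψ := by
            rw [mem_ball293, map_mul, Valuation.map_neg, map_div₀, map_mul, map_inv₀, hδ, hvp,
              inv_one, one_mul, div_one]
            calc Valued.v (k₀ 1 0) * Valued.v (qfL t n ξ)
                ≤ WithZero.exp (-(N : ℤ)) * WithZero.exp (B : ℤ) := mul_le_mul' hr hQ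
              _ = WithZero.exp (-(N : ℤ) + (B : ℤ)) := (WithZero.exp_add _ _).symm
              _ ≤ WithZero.exp (-(Nψ : ℤ)) := by
                  rw [WithZero.exp_le_exp]
                  omega
          rw [hNψ _ hmem, one_mul]
    · intro ξ
      rw [hF11]
      exact phi_inv293 ht hn hM hκ ξ
  · -- the determinants are norms
    intro k₀ hk₀
    have hp1 : k₀ 0 0 - 1 ∈ ball293 k N := by simpa using hk₀ 0 0
    have hq : k₀ 0 1 ∈ ball293 k N := by simpa using hk₀ 0 1
    have hr : k₀ 1 0 ∈ ball293 k N := by simpa using hk₀ 1 0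
    have hs1 : k₀ 1 1 - 1 ∈ ball293 k N := by simpa using hk₀ 1 1
    have hd : k₀.det - 1 ∈ ball293 k N := by
      have e1 : k₀.det - 1 = (k₀ 0 0 - 1) * (k₀ 1 1 - 1) + (k₀ 0 0 - 1) + (k₀ 1 1 - 1)
          - k₀ 0 1 * k₀ 1 0 := by
        rw [Matrix.det_fin_two]
        ring
      rw [e1]
      refine sub_mem_ball293 (add_mem_ball293 (add_mem_ball293 ?_ hp1) hs1) ?_
      · exact mul_mem_ball293 (val_le_one_of_mem293 hp1) hs1
      · exact mul_mem_ball293 (val_le_one_of_mem293 hq) hr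
    obtain ⟨x, hx, hx2⟩ := hNs _ (ball_anti293 hNNs hd)
    refine ⟨torMat t n x 0, ⟨(x, 0), ⟨hx, zero_mem_ball293 _⟩, rfl⟩, ?_⟩
    rw [det_torMat293, ← hx2]
    ring

end Fermat.Agent.LT.A2.H293

end

end
-- ===== PACK-END LT/A2/H293/Core.lean

-- ===== PACK-BEGIN LT/A2/H293/Place.lean
section





/-!
# Row LT, tower A2, leaf A2.03.1.1.09 `LocBadOfRepC` (helper293) -- part 6: the completion `K_v`

OFF-MAIN.  The facts on `K_v = v.adicCompletion K` used by the local core: `𝒪_v` is compact,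
`2 ≠ 0`, `‖a‖ = 1` for units, the closure of an ideal `𝔫 ⊆ v^N` is contained in `ϖ^N 𝒪_v`.
-/

set_option autoImplicit false

open IsDedekindDomain NumberField Filter Topology

noncomputable section

namespace Fermat.Agent.LT.A2.H293

open Fermat.Agent.LT.T6 Fermat.Agent.LT.H129 Fermat.Agent.LT.H556 Fermat.Agent.LT.A2
  Fermat.Agent.LT.A2.WX467

variable {K : Type} [Field K] [NumberField K] (v : HeightOneSpectrum (𝓞 K))

theorem isCompact_ball_zero293 : IsCompact (ball293 (v.adicCompletion K) 0) := by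
  have h := Fermat.Agent.LT.H11.LC.isCompact_integers_h11 K v
  have e : ball293 (v.adicCompletion K) 0
      = (v.adicCompletionIntegers K : Set (v.adicCompletion K)) := by
    ext x
    show Valued.v x ≤ WithZero.exp (-((0 : ℕ) : ℤ)) ↔ x ∈ v.adicCompletionIntegers K
    rw [HeightOneSpectrum.mem_adicCompletionIntegers]
    simp
  rw [e]
  exact h

theorem two_ne_zero293 : (2 : v.adicCompletion K) ≠ 0 := by
  have h : algebraMap K (v.adicCompletion K) 2 ≠ 0 := by
    rw [Ne, map_eq_zero]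
    exact two_ne_zero
  rwa [map_ofNat] at h

theorem norm_eq_one_of_val293 (a : v.adicCompletion K) (h : Valued.v a = 1) : ‖a‖ = 1 := by
  apply le_antisymm
  · rw [Valued.toNormedField.norm_le_one_iff, h]
  · rw [Valued.toNormedField.one_le_norm_iff, h]

theorem exists_le_exp293 (x : Γ₀) : ∃ B : ℕ, x ≤ WithZero.exp (B : ℤ) := by
  by_cases h0 : x = 0
  · exact ⟨0, by rw [h0]; exact zero_le⟩
  · refine ⟨(WithZero.log x).toNat, ?_⟩
    rw [← WithZero.log_le_iff_le_exp h0]
    exact Int.self_le_toNat _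

theorem exists_bound293 (t n : v.adicCompletion K) :
    ∃ e : ℕ, Valued.v t ≤ WithZero.exp (e : ℤ) ∧ Valued.v n ≤ WithZero.exp (e : ℤ) := by
  obtain ⟨e1, h1⟩ := exists_le_exp293 (Valued.v t)
  obtain ⟨e2, h2⟩ := exists_le_exp293 (Valued.v n)
  refine ⟨max e1 e2, le_trans h1 ?_, le_trans h2 ?_⟩
  · rw [WithZero.exp_le_exp]
    exact_mod_cast le_max_left e1 e2
  · rw [WithZero.exp_le_exp]
    exact_mod_cast le_max_right e1 e2

/-- The closure of an ideal contained in `v^N` is contained in `ϖ^N 𝒪_v`. -/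
theorem idealClosure_subset_ball293 {𝔫 : Ideal (𝓞 K)} {N : ℕ} (h : 𝔫 ≤ v.asIdeal ^ N) :
    A0.idealClosure 𝔫 v ⊆ ball293 (v.adicCompletion K) N := by
  unfold A0.idealClosure
  refine closure_minimal ?_ (isClosed_ball293 N)
  rintro _ ⟨x, hx, rfl⟩
  show Valued.v (algebraMap K (v.adicCompletion K) (algebraMap (𝓞 K) K x))
    ≤ WithZero.exp (-(N : ℤ))
  have e : algebraMap K (v.adicCompletion K) (algebraMap (𝓞 K) K x)
      = ((algebraMap (𝓞 K) K x : K) : v.adicCompletion K) := rfl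
  rw [e, HeightOneSpectrum.valuedAdicCompletion_eq_valuation',
    HeightOneSpectrum.valuation_of_algebraMap, HeightOneSpectrum.intValuation_le_pow_iff_mem]
  exact h hx

end Fermat.Agent.LT.A2.H293

end

end
-- ===== PACK-END LT/A2/H293/Place.lean

-- ===== PACK-BEGIN LT/A2/H293/ChiTriv.lean
section




/-!
# Row LT, tower A2, leaf A2.03.1.1.09 `LocBadOfRepC` (helper293) -- part 8: `χT` is trivial on a
small level group of the torus

OFF-MAIN.  `chi_triv293`: for a torus character `χT` (continuous on `T(𝔸_K)`, of finite order) and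
a finite place `v` there is `M ≥ 1` such that `χT κ = 1` for every `κ` supported at `v` whose
component at `v` is in `tlev293 t n M e`.
-/

set_option autoImplicit false

open IsDedekindDomain NumberField Filter Topology

noncomputable section

namespace Fermat.Agent.LT.A2.H293

open Fermat.Agent.LT.T6 Fermat.Agent.LT.H129 Fermat.Agent.LT.H556 Fermat.Agent.LT.A2
  Fermat.Agent.LT.A2.WX467

variable {K : Type} [Field K] [NumberField K]

theorem torMat_map293 {R S : Type} [CommRing R] [CommRing S] (f : R →+* S) (t n a b : R) :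
    (torMat t n a b).map f = torMat (f t) (f n) (f a) (f b) := by
  unfold torMat
  ext i j
  fin_cases i <;> fin_cases j <;> simp

open scoped Classical in
/-- A matrix supported at `v` whose component at `v` is in the local torus is in the adelic
torus. -/
theorem inTorus_locFin293 (v : HeightOneSpectrum (𝓞 K)) (t n : K)
    (x : GL (Fin 2) (v.adicCompletion K))
    (hx : InTorL (algebraMap K (v.adicCompletion K) t) (algebraMap K (v.adicCompletion K) n)
      (x : Matrix (Fin 2) (Fin 2) (v.adicCompletion K))) :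
    InTorus t n (locFin129 v x) := by
  obtain ⟨a, b, hab⟩ := hx
  refine ⟨((1 : InfiniteAdeleRing K), finSingle129 v true a),
    ((0 : InfiniteAdeleRing K), finSingle129 v false b), ?_⟩
  rw [coe_locFin129, hab]
  apply adeleMatrix_ext129
  · intro w
    rw [locMat129_map_inf, torMat_map293]
    have e1 : evI129 w ((1 : InfiniteAdeleRing K), finSingle129 v true a) = 1 := rfl
    have e2 : evI129 w ((0 : InfiniteAdeleRing K), finSingle129 v false b) = 0 := rfl
    rw [e1, e2, torMat_one_zero293]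
  · intro v'
    rw [torMat_map293]
    by_cases h : v' = v
    · subst h
      rw [locMat129_map_same]
      have e1 : evF129 v' ((1 : InfiniteAdeleRing K), finSingle129 v' true a) = a :=
        finSingle129_same v' true a
      have e2 : evF129 v' ((0 : InfiniteAdeleRing K), finSingle129 v' false b) = b :=
        finSingle129_same v' false b
      rw [e1, e2]
      rfl
    · rw [locMat129_map_of_ne v _ h]
      have e1 : evF129 v' ((1 : InfiniteAdeleRing K), finSingle129 v true a) = 1 := by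
        have := finSingle129_of_ne v true a h
        simpa using this
      have e2 : evF129 v' ((0 : InfiniteAdeleRing K), finSingle129 v false b) = 0 := by
        have := finSingle129_of_ne v false b h
        simpa using this
      rw [e1, e2, torMat_one_zero293]

/-- The congruence subgroups form a basis of neighbourhoods of `1` in `M₂(k)`. -/
theorem exists_ball_subset_matrix293 {k : Type} [Field k] [Valued k Γ₀]
    {W : Set (Matrix (Fin 2) (Fin 2) k)} (hW : W ∈ 𝓝 (1 : Matrix (Fin 2) (Fin 2) k)) :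
    ∃ M : ℕ, ∀ g : Matrix (Fin 2) (Fin 2) k, (∀ i j : Fin 2, (g - 1) i j ∈ ball293 k M) →
      g ∈ W := by
  let φ : (k × k) × (k × k) → Matrix (Fin 2) (Fin 2) k :=
    fun p => !![p.1.1, p.1.2; p.2.1, p.2.2]
  have hφ : Continuous φ := by
    refine continuous_matrix fun i j => ?_
    fin_cases i <;> fin_cases j
    · exact continuous_fst.fst
    · exact continuous_fst.snd
    · exact continuous_snd.fst
    · exact continuous_snd.snd
  have h1 : φ ((1, 0), (0, 1)) = 1 := by
    ext i j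
    fin_cases i <;> fin_cases j <;> simp [φ]
  have hpre : φ ⁻¹' W ∈ 𝓝 (((1 : k), (0 : k)), ((0 : k), (1 : k))) := by
    apply hφ.continuousAt
    rw [h1]
    exact hW
  rw [mem_nhds_prod_iff] at hpre
  obtain ⟨U1, hU1, U2, hU2, hU⟩ := hpre
  rw [mem_nhds_prod_iff] at hU1 hU2
  obtain ⟨A, hA, B, hB, hAB⟩ := hU1
  obtain ⟨C, hC, D, hD, hCD⟩ := hU2
  obtain ⟨Na, hNa⟩ := exists_ball_subset_at293 (1 : k) hA
  obtain ⟨Nb, hNb⟩ := exists_ball_subset_at293 (0 : k) hB
  obtain ⟨Nc, hNc⟩ := exists_ball_subset_at293 (0 : k) hC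
  obtain ⟨Nd, hNd⟩ := exists_ball_subset_at293 (1 : k) hD
  have l1 : Na ≤ max (max Na Nb) (max Nc Nd) := le_trans (le_max_left _ _) (le_max_left _ _)
  have l2 : Nb ≤ max (max Na Nb) (max Nc Nd) := le_trans (le_max_right _ _) (le_max_left _ _)
  have l3 : Nc ≤ max (max Na Nb) (max Nc Nd) := le_trans (le_max_left _ _) (le_max_right _ _)
  have l4 : Nd ≤ max (max Na Nb) (max Nc Nd) := le_trans (le_max_right _ _) (le_max_right _ _)
  refine ⟨max (max Na Nb) (max Nc Nd), ?_⟩
  generalize max (max Na Nb) (max Nc Nd) = N at l1 l2 l3 l4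
  intro g hg
  have g00 : g 0 0 - 1 ∈ ball293 k N := by simpa using hg 0 0
  have g01 : g 0 1 - 0 ∈ ball293 k N := by simpa using hg 0 1
  have g10 : g 1 0 - 0 ∈ ball293 k N := by simpa using hg 1 0
  have g11 : g 1 1 - 1 ∈ ball293 k N := by simpa using hg 1 1
  have ha : g 0 0 ∈ A := hNa _ (ball_anti293 l1 g00)
  have hb : g 0 1 ∈ B := hNb _ (ball_anti293 l2 g01)
  have hc : g 1 0 ∈ C := hNc _ (ball_anti293 l3 g10)
  have hd : g 1 1 ∈ D := hNd _ (ball_anti293 l4 g11)
  have hmem : ((g 0 0, g 0 1), (g 1 0, g 1 1)) ∈ φ ⁻¹' W :=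
    hU (Set.mk_mem_prod (hAB (Set.mk_mem_prod ha hb)) (hCD (Set.mk_mem_prod hc hd)))
  have hg' : φ ((g 0 0, g 0 1), (g 1 0, g 1 1)) = g := by
    ext i j
    fin_cases i <;> fin_cases j <;> simp [φ]
  have : φ ((g 0 0, g 0 1), (g 1 0, g 1 1)) ∈ W := hmem
  rw [hg'] at this
  exact this

/-- The congruence subgroups form a basis of neighbourhoods of `1` in `GL₂(k)`. -/
theorem exists_ball_subset_GL293 {k : Type} [Field k] [Valued k Γ₀]
    {V : Set (GL (Fin 2) k)} (hV : V ∈ 𝓝 (1 : GL (Fin 2) k)) :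
    ∃ M : ℕ, ∀ x : GL (Fin 2) k,
      (∀ i j : Fin 2, ((x : Matrix (Fin 2) (Fin 2) k) - 1) i j ∈ ball293 k M) →
      (∀ i j : Fin 2, (((x⁻¹ : GL (Fin 2) k) : Matrix (Fin 2) (Fin 2) k) - 1) i j
        ∈ ball293 k M) → x ∈ V := by
  rw [Units.isInducing_embedProduct.nhds_eq_comap, Filter.mem_comap] at hV
  obtain ⟨W, hW, hWV⟩ := hV
  have hW' : W ∈ 𝓝 ((1 : Matrix (Fin 2) (Fin 2) k), MulOpposite.op
      (1 : Matrix (Fin 2) (Fin 2) k)) := by
    simpa using hW
  rw [mem_nhds_prod_iff] at hW'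
  obtain ⟨W1, hW1, W2, hW2, hW12⟩ := hW'
  have hW2' : MulOpposite.op ⁻¹' W2 ∈ 𝓝 (1 : Matrix (Fin 2) (Fin 2) k) :=
    MulOpposite.continuous_op.continuousAt hW2
  obtain ⟨M1, hM1⟩ := exists_ball_subset_matrix293 hW1
  obtain ⟨M2, hM2⟩ := exists_ball_subset_matrix293 hW2'
  refine ⟨max M1 M2, fun x hx hx' => hWV ?_⟩
  have h1 : (x : Matrix (Fin 2) (Fin 2) k) ∈ W1 :=
    hM1 _ fun i j => ball_anti293 (le_max_left _ _) (hx i j)
  have h2 : ((x⁻¹ : GL (Fin 2) k) : Matrix (Fin 2) (Fin 2) k) ∈ MulOpposite.op ⁻¹' W2 :=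
    hM2 _ fun i j => ball_anti293 (le_max_right _ _) (hx' i j)
  exact hW12 (Set.mk_mem_prod h1 h2)

/-- **`χT` is trivial on a small level group of the torus at `v`.** -/
theorem chi_triv293 (v : HeightOneSpectrum (𝓞 K)) {t n : K} {χT : A0.G K → ℂ}
    (hχ : IsTorusChar t n χT) {e : ℕ}
    (ht : Valued.v (algebraMap K (v.adicCompletion K) t) ≤ WithZero.exp (e : ℤ))
    (hn : Valued.v (algebraMap K (v.adicCompletion K) n) ≤ WithZero.exp (e : ℤ)) :
    ∃ M : ℕ, 1 ≤ M ∧ ∀ κ : A0.G K, A0.IsLocalAtFin v κ →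
      A0.finComp v κ ∈ tlev293 (algebraMap K (v.adicCompletion K) t)
        (algebraMap K (v.adicCompletion K) n) M e → χT κ = 1 := by
  -- a neighbourhood of `1` on which `χT` is close to `1`
  have h1T : InTorus t n (1 : A0.G K) := by
    have := inTorus_locFin293 v t n 1 (by
      rw [Units.val_one]
      exact inTorL_one293 _ _)
    rwa [map_one] at this
  have hcw := hχ.cont 1 h1T
  have hball : χT ⁻¹' Metric.ball (1 : ℂ) 1 ∈ 𝓝[{m | InTorus t n m}] (1 : A0.G K) := by
    apply hcw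
    rw [hχ.one]
    exact Metric.ball_mem_nhds _ one_pos
  rw [mem_nhdsWithin_iff_exists_mem_nhds_inter] at hball
  obtain ⟨U, hU, hUT⟩ := hball
  have hV : (locFin129 (K := K) v) ⁻¹' U ∈ 𝓝 (1 : GL (Fin 2) (v.adicCompletion K)) := by
    apply (continuous_locFin293 v).continuousAt
    rw [map_one]
    exact hU
  obtain ⟨M₀, hM₀⟩ := exists_ball_subset_GL293 hV
  refine ⟨max M₀ 1, le_max_right _ _, fun κ hloc hκ => ?_⟩
  have hM1 : 1 ≤ max M₀ 1 := le_max_right _ _
  set x : GL (Fin 2) (v.adicCompletion K) := finCompHom129 v κ with hx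
  have hxc : (x : Matrix (Fin 2) (Fin 2) (v.adicCompletion K)) = A0.finComp v κ :=
    coe_finCompHom129 v κ
  have hκx : κ = locFin129 v x := eq_locFin129_of_isLocalAtFin hloc
  -- the powers
  have hpowmem : ∀ j : ℕ, ((x ^ j : GL (Fin 2) (v.adicCompletion K)) :
      Matrix (Fin 2) (Fin 2) (v.adicCompletion K)) ∈ tlev293
        (algebraMap K (v.adicCompletion K) t) (algebraMap K (v.adicCompletion K) n)
        (max M₀ 1) e := by
    intro j
    rw [Units.val_pow_eq_pow_val, hxc]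
    exact tlev_pow293 ht hn hκ j
  have hpowU : ∀ j : ℕ, locFin129 v (x ^ j) ∈ U := by
    intro j
    refine hM₀ (x ^ j) (fun i i' => ?_) (fun i i' => ?_)
    · exact ball_anti293 (le_max_left _ _) (tlev_entries293 ht hn (hpowmem j) i i')
    · have hinv := tlev_inv293 ht hn hM1 (hpowmem j)
      rw [← Matrix.coe_units_inv] at hinv
      exact ball_anti293 (le_max_left _ _) (tlev_entries293 ht hn hinv i i')
  have hpowT : ∀ j : ℕ, InTorus t n (locFin129 v (x ^ j)) := fun j =>
    inTorus_locFin293 v t n (x ^ j) (tlev_tor293 ht hn hM1 (hpowmem j)).1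
  have hχpow : ∀ j : ℕ, χT (locFin129 v (x ^ j)) = χT κ ^ j := by
    intro j
    induction j with
    | zero => rw [pow_zero, pow_zero, map_one, hχ.one]
    | succ j ih =>
      have hT1 : InTorus t n (locFin129 v x) := by
        have := hpowT 1
        rwa [pow_one] at this
      rw [pow_succ, map_mul, hχ.mul _ _ (hpowT j) hT1, ih, ← hκx, pow_succ]
  have hnorm : ‖χT κ‖ = 1 := by
    obtain ⟨m, hm, hfin⟩ := hχ.fin_order
    have hT1 : InTorus t n κ := by
      have := hpowT 1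
      rwa [pow_one, ← hκx] at this
    have := hfin κ hT1
    have h2 : ‖χT κ‖ ^ m = 1 := by rw [← norm_pow, this, norm_one]
    exact (pow_eq_one_iff_of_nonneg (norm_nonneg _) (Nat.pos_iff_ne_zero.mp hm)).mp h2
  refine eq_one_of_pow_near_one293 hnorm fun j => ?_
  have hmem : locFin129 v (x ^ j) ∈ χT ⁻¹' Metric.ball (1 : ℂ) 1 := hUT ⟨hpowU j, hpowT j⟩
  rw [Set.mem_preimage, Metric.mem_ball, dist_eq_norm, hχpow j] at hmem
  exact hmem

end Fermat.Agent.LT.A2.H293

end

end
-- ===== PACK-END LT/A2/H293/ChiTriv.lean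

-- ===== PACK-BEGIN LT/A2/H322/SuppLocal.lean
section


/-!
# Row LT, tower A2, leaf A2.03.8.5.9 `H254.SuppC254` (helper322): the split pair at `v`

OFF-MAIN.  For a split pair `(μ, μ̄)` at `v` with local matrices `A`, `B`:
`A B = B A = ϖ`, `B = adj A`, the common trace is a unit (`ninv`), and with `X = A B⁻¹`:

    (X^i)⁻¹ B^j  is integral   ⟺   -j ≤ i ≤ 0          (`zmat_int_iff322`).
-/

set_option autoImplicit false

open IsDedekindDomain NumberField AutomorphicForm MeasureTheory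
open scoped MatrixGroups

noncomputable section

namespace Fermat.Agent.LT.A2.H322

open Fermat.Agent.LT.H556 Fermat.Agent.LT.H556.A0 Fermat.Agent.LT.H129
open Fermat.Agent.LT.A2 Fermat.Agent.LT.A2.H142 Fermat.Agent.LT.A2.H254
open Fermat.Agent.LT.A2.H333 Fermat.Agent.LT.A2.H926

variable {K : Type} [Field K] [NumberField K]

/-- The local data of a split pair. -/
structure LocPair322 (v : HeightOneSpectrum (𝓞 K)) (ϖ : v.adicCompletion K)
    (P Q : GL (Fin 2) (v.adicCompletion K)) : Prop where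
  unif : Valued.v ϖ = WithZero.exp (-1 : ℤ)
  intP : IntM322 v (P : Matrix (Fin 2) (Fin 2) (v.adicCompletion K))
  intQ : IntM322 v (Q : Matrix (Fin 2) (Fin 2) (v.adicCompletion K))
  detP : (P : Matrix (Fin 2) (Fin 2) (v.adicCompletion K)).det = ϖ
  detQ : (Q : Matrix (Fin 2) (Fin 2) (v.adicCompletion K)).det = ϖ
  mulPQ : (P : Matrix (Fin 2) (Fin 2) (v.adicCompletion K)) * Q
    = ϖ • (1 : Matrix (Fin 2) (Fin 2) (v.adicCompletion K))
  mulQP : (Q : Matrix (Fin 2) (Fin 2) (v.adicCompletion K)) * P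
    = ϖ • (1 : Matrix (Fin 2) (Fin 2) (v.adicCompletion K))
  trP : Valued.v ((P : Matrix (Fin 2) (Fin 2) (v.adicCompletion K)) 0 0
    + (P : Matrix (Fin 2) (Fin 2) (v.adicCompletion K)) 1 1) = 1
  trQ : Valued.v ((Q : Matrix (Fin 2) (Fin 2) (v.adicCompletion K)) 0 0
    + (Q : Matrix (Fin 2) (Fin 2) (v.adicCompletion K)) 1 1) = 1

namespace LocPair322

variable {v : HeightOneSpectrum (𝓞 K)} {ϖ : v.adicCompletion K}
  {P Q : GL (Fin 2) (v.adicCompletion K)}

theorem unif_ne_zero (h : LocPair322 v ϖ P Q) : ϖ ≠ 0 := by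
  intro h0
  have := h.unif
  rw [h0, map_zero] at this
  exact WithZero.exp_ne_zero this.symm

theorem symm (h : LocPair322 v ϖ P Q) : LocPair322 v ϖ Q P :=
  ⟨h.unif, h.intQ, h.intP, h.detQ, h.detP, h.mulQP, h.mulPQ, h.trQ, h.trP⟩

theorem coe_inv_P (h : LocPair322 v ϖ P Q) :
    ((P⁻¹ : GL (Fin 2) (v.adicCompletion K)) : Matrix (Fin 2) (Fin 2) (v.adicCompletion K))
      = ϖ⁻¹ • (Q : Matrix (Fin 2) (Fin 2) (v.adicCompletion K)) := by
  apply Units.inv_eq_of_mul_eq_one_right
  rw [Matrix.mul_smul, h.mulPQ, smul_smul, inv_mul_cancel₀ h.unif_ne_zero, one_smul]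

theorem coe_inv_Q (h : LocPair322 v ϖ P Q) :
    ((Q⁻¹ : GL (Fin 2) (v.adicCompletion K)) : Matrix (Fin 2) (Fin 2) (v.adicCompletion K))
      = ϖ⁻¹ • (P : Matrix (Fin 2) (Fin 2) (v.adicCompletion K)) :=
  h.symm.coe_inv_P

theorem commute (h : LocPair322 v ϖ P Q) :
    Commute (P : Matrix (Fin 2) (Fin 2) (v.adicCompletion K))
      (Q : Matrix (Fin 2) (Fin 2) (v.adicCompletion K)) := by
  show _ * _ = _ * _
  rw [h.mulPQ, h.mulQP]

theorem pow_mul_pow (h : LocPair322 v ϖ P Q) (p : ℕ) :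
    (P : Matrix (Fin 2) (Fin 2) (v.adicCompletion K)) ^ p
        * (Q : Matrix (Fin 2) (Fin 2) (v.adicCompletion K)) ^ p
      = ϖ ^ p • (1 : Matrix (Fin 2) (Fin 2) (v.adicCompletion K)) := by
  rw [← h.commute.mul_pow, h.mulPQ, smul_pow, one_pow]

/-- The matrix of `(P Q⁻¹)^n`. -/
theorem coe_X_pow (h : LocPair322 v ϖ P Q) (n : ℕ) :
    (((P * Q⁻¹) ^ n : GL (Fin 2) (v.adicCompletion K)) :
        Matrix (Fin 2) (Fin 2) (v.adicCompletion K))
      = (ϖ⁻¹) ^ n • (P : Matrix (Fin 2) (Fin 2) (v.adicCompletion K)) ^ (2 * n) := by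
  rw [Units.val_pow_eq_pow_val, Units.val_mul, h.coe_inv_Q, Matrix.mul_smul, ← pow_two,
    smul_pow, ← pow_mul]

/-- `(ϖ⁻¹)^n B^(2n + j)` is integral iff `n = 0`. -/
theorem int_pos_iff (h : LocPair322 v ϖ P Q) (n j : ℕ) :
    IntM322 v ((ϖ⁻¹) ^ n • (Q : Matrix (Fin 2) (Fin 2) (v.adicCompletion K)) ^ (2 * n + j))
      ↔ n = 0 := by
  constructor
  · intro hint
    by_contra hn
    obtain ⟨m, rfl⟩ := Nat.exists_eq_succ_of_ne_zero hn
    have h1 : 2 * (m + 1) + j = (2 * m + 1 + j) + 1 := by ring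
    rw [h1] at hint
    exact not_intM_smul_pow322 h.unif h.detQ h.trQ m (2 * m + 1 + j) hint
  · rintro rfl
    rw [pow_zero, one_smul]
    exact intM_pow322 h.intQ _

/-- `(ϖ⁻¹)^n A^(2n) B^j` is integral iff `n ≤ j`. -/
theorem int_neg_iff (h : LocPair322 v ϖ P Q) (n j : ℕ) :
    IntM322 v ((ϖ⁻¹) ^ n • ((P : Matrix (Fin 2) (Fin 2) (v.adicCompletion K)) ^ (2 * n)
        * (Q : Matrix (Fin 2) (Fin 2) (v.adicCompletion K)) ^ j)) ↔ n ≤ j := by
  have hϖ0 := h.unif_ne_zero
  by_cases hnj : n ≤ j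
  · simp only [hnj, iff_true]
    obtain ⟨d, rfl⟩ := Nat.exists_eq_add_of_le hnj
    have e1 : (P : Matrix (Fin 2) (Fin 2) (v.adicCompletion K)) ^ (2 * n)
          * (Q : Matrix (Fin 2) (Fin 2) (v.adicCompletion K)) ^ (n + d)
        = ϖ ^ n • ((P : Matrix (Fin 2) (Fin 2) (v.adicCompletion K)) ^ n
          * (Q : Matrix (Fin 2) (Fin 2) (v.adicCompletion K)) ^ d) := by
      rw [two_mul, pow_add, pow_add, mul_assoc, ← mul_assoc (_ ^ n) (_ ^ n) (_ ^ d),
        h.pow_mul_pow, Matrix.smul_mul, one_mul, Matrix.mul_smul]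
    rw [e1, smul_smul, ← mul_pow, inv_mul_cancel₀ hϖ0, one_pow, one_smul]
    exact intM_mul322 (intM_pow322 h.intP _) (intM_pow322 h.intQ _)
  · simp only [hnj, iff_false]
    have hjn : j < n := Nat.lt_of_not_le hnj
    obtain ⟨d, rfl⟩ := Nat.exists_eq_add_of_lt hjn
    -- `n = j + d + 1`
    have e1 : (P : Matrix (Fin 2) (Fin 2) (v.adicCompletion K)) ^ (2 * (j + d + 1))
          * (Q : Matrix (Fin 2) (Fin 2) (v.adicCompletion K)) ^ j
        = ϖ ^ j • (P : Matrix (Fin 2) (Fin 2) (v.adicCompletion K)) ^ ((j + 2 * d + 1) + 1) := by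
      have e2 : 2 * (j + d + 1) = (j + 2 * d + 1 + 1) + j := by ring
      rw [e2, pow_add, mul_assoc, h.pow_mul_pow, Matrix.mul_smul, mul_one]
    have e3 : (ϖ⁻¹) ^ (j + d + 1) * ϖ ^ j = (ϖ⁻¹) ^ (d + 1) := by
      rw [show j + d + 1 = (d + 1) + j by ring, pow_add, mul_assoc, ← mul_pow,
        inv_mul_cancel₀ hϖ0, one_pow, mul_one]
    rw [e1, smul_smul, e3]
    exact not_intM_smul_pow322 h.unif h.detP h.trP d (j + 2 * d + 1)

/-- **The criterion**: with `X = P Q⁻¹`, `(X^i)⁻¹ Q^j` is integral iff `-j ≤ i ≤ 0`. -/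
theorem zmat_int_iff (h : LocPair322 v ϖ P Q) (i : ℤ) (j : ℕ) :
    IntM322 v ((((P * Q⁻¹) ^ i)⁻¹ * Q ^ j : GL (Fin 2) (v.adicCompletion K)) :
        Matrix (Fin 2) (Fin 2) (v.adicCompletion K))
      ↔ (-(j : ℤ) ≤ i ∧ i ≤ 0) := by
  obtain ⟨n, rfl | rfl⟩ := Int.eq_nat_or_neg i
  · -- `i = n ≥ 0`
    have e1 : (((P * Q⁻¹) ^ (n : ℤ))⁻¹ * Q ^ j : GL (Fin 2) (v.adicCompletion K))
        = (Q * P⁻¹) ^ n * Q ^ j := by
      rw [zpow_natCast, ← inv_pow, mul_inv_rev, inv_inv]
    rw [e1, Units.val_mul, Units.val_pow_eq_pow_val, Units.val_pow_eq_pow_val]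
    have e2 := h.symm.coe_X_pow n
    rw [Units.val_pow_eq_pow_val] at e2
    rw [e2, Matrix.smul_mul, ← pow_add, h.int_pos_iff]
    constructor
    · rintro rfl
      constructor
      · simp
      · simp
    · rintro ⟨-, h2⟩
      have h3 : (n : ℤ) = 0 := le_antisymm h2 (Int.natCast_nonneg n)
      exact_mod_cast h3
  · -- `i = -n`
    have e1 : (((P * Q⁻¹) ^ (-(n : ℤ)))⁻¹ * Q ^ j : GL (Fin 2) (v.adicCompletion K))
        = (P * Q⁻¹) ^ n * Q ^ j := by
      rw [zpow_neg, inv_inv, zpow_natCast]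
    rw [e1, Units.val_mul, Units.val_pow_eq_pow_val (Q) j]
    rw [h.coe_X_pow n, Matrix.smul_mul, h.int_neg_iff]
    constructor
    · intro hnj
      constructor
      · exact neg_le_neg (by exact_mod_cast hnj)
      · simp
    · rintro ⟨h1, -⟩
      have := neg_le_neg_iff.mp h1
      exact_mod_cast this

end LocPair322

end Fermat.Agent.LT.A2.H322

end

end
-- ===== PACK-END LT/A2/H322/SuppLocal.lean

-- ===== PACK-BEGIN LT/A2/H322/Supp.lean
section


/-!
# Row LT, tower A2, leaf A2.03.8.5.9 `H254.SuppC254` (helper322), VERBATIM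

OFF-MAIN.  `suppC322 : H254.SuppC254` against `LT/A2/H254/IntSpec.lean`
(helper254@ddb43b08e, sha256 e654c419).

`u = u_v u'` with `u_v = loc_v(u_v)` and `u' = u u_v⁻¹` trivial at `v`; `ρ = μ μ̄⁻¹ ∈ T¹`.
`tor1` with `m'' = ρ^i u_v`:  `F g' (ρ^i u m') (μ̄^j e₁) = F g' (u' m') (Y e₁)`,
`Y = (ρ^i u_v)⁻¹ μ̄^j` local at `v`, in the torus.  `Y_v = U_v⁻¹ Z`, `Z = (X^i)⁻¹ B^j` integral iff
`-j ≤ i ≤ 0` (`LocPair322.zmat_int_iff`); a torus matrix is integral iff its first column is;
`good_std` gives `0`, resp. the value at `u_v⁻¹ e₁`, which is `F g' (u m') e₁` by `tor1`.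
-/

set_option autoImplicit false

open IsDedekindDomain NumberField AutomorphicForm MeasureTheory
open scoped MatrixGroups

noncomputable section

namespace Fermat.Agent.LT.A2.H322

open Fermat.Agent.LT.H556 Fermat.Agent.LT.H556.A0 Fermat.Agent.LT.H129
open Fermat.Agent.LT.A2 Fermat.Agent.LT.A2.H142 Fermat.Agent.LT.A2.H254
open Fermat.Agent.LT.A2.H333 Fermat.Agent.LT.A2.H926

variable {K : Type} [Field K] [NumberField K]

/-! ## The local data of a split pair -/

theorem coe_fch_mul322 (v : HeightOneSpectrum (𝓞 K)) (g h : G K) :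
    finComp v (g * h) = finComp v g * finComp v h := by
  rw [← coe_finCompHom129, ← coe_finCompHom129, ← coe_finCompHom129, map_mul, Units.val_mul]

theorem locPair_of_split322 {t n : K} {v : HeightOneSpectrum (𝓞 K)} {ϖ : v.adicCompletion K}
    {μ μb : G K} (hϖ : Valued.v ϖ = WithZero.exp (-1 : ℤ))
    (hp : IsSplitPair254 t n v ϖ μ μb) :
    LocPair322 v ϖ (finCompHom129 v μ) (finCompHom129 v μb) := by
  have hϖ0 : ϖ ≠ 0 := by
    intro h0
    rw [h0, map_zero] at hϖ
    exact WithZero.exp_ne_zero hϖ.symm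
  have hA : IntM322 v (finComp v μ) := hp.int
  have hB : IntM322 v (finComp v μb) := hp.intb
  have hAB : finComp v μ * finComp v μb
      = ϖ • (1 : Matrix (Fin 2) (Fin 2) (v.adicCompletion K)) := by
    rw [hp.mul, Matrix.smul_one_eq_diagonal]
  have hBA : finComp v μb * finComp v μ
      = ϖ • (1 : Matrix (Fin 2) (Fin 2) (v.adicCompletion K)) := by
    rw [← coe_fch_mul322, ← inTorus_comm322 hp.tor hp.torb, coe_fch_mul322, hAB]
  -- `B = adj A`
  have hadj : finComp v μb = (finComp v μ).adjugate := by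
    have h1 : (finComp v μ).adjugate * (finComp v μ * finComp v μb)
        = ϖ • finComp v μb := by
      rw [← mul_assoc, Matrix.adjugate_mul, hp.det, Matrix.smul_mul, one_mul]
    rw [hAB, Matrix.mul_smul, mul_one] at h1
    have h2 := smul_right_injective (Matrix (Fin 2) (Fin 2) (v.adicCompletion K)) hϖ0 h1
    exact h2.symm
  have htrEq : finComp v μb 0 0 + finComp v μb 1 1 = finComp v μ 0 0 + finComp v μ 1 1 := by
    rw [hadj, Matrix.adjugate_fin_two]
    simp [add_comm]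
  -- the trace of `B` is a unit
  have htrB : Valued.v (finComp v μb 0 0 + finComp v μb 1 1) = 1 := by
    have hτint : finComp v μb 0 0 + finComp v μb 1 1 ∈ v.adicCompletionIntegers K :=
      add_mem (hB 0 0) (hB 1 1)
    have hle : Valued.v (finComp v μb 0 0 + finComp v μb 1 1) ≤ 1 :=
      (mem_int_iff322 _).mp hτint
    by_contra hne
    have hlt : Valued.v (finComp v μb 0 0 + finComp v μb 1 1) < 1 := lt_of_le_of_ne hle hne
    have hle' := le_exp_of_lt_one322 hlt
    apply hp.ninv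
    -- the matrix of `μ⁻¹ μ̄` at `v`
    have hinv : ((finCompHom129 v μ)⁻¹ : GL (Fin 2) (v.adicCompletion K)).val
        = ϖ⁻¹ • finComp v μb := by
      apply Units.inv_eq_of_mul_eq_one_right
      rw [coe_finCompHom129, Matrix.mul_smul, hAB, smul_smul, inv_mul_cancel₀ hϖ0, one_smul]
    have hmat : finComp v (μ⁻¹ * μb)
        = (ϖ⁻¹ * (finComp v μb 0 0 + finComp v μb 1 1)) • finComp v μb
          - (1 : Matrix (Fin 2) (Fin 2) (v.adicCompletion K)) := by
      rw [← coe_finCompHom129, map_mul, map_inv, Units.val_mul, hinv, coe_finCompHom129,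
        Matrix.smul_mul, ← pow_two, sq_eq322, hp.detb, smul_sub, smul_smul, smul_smul,
        inv_mul_cancel₀ hϖ0, one_smul]
    show IntM322 v (finComp v (μ⁻¹ * μb))
    rw [hmat]
    have hc : ϖ⁻¹ * (finComp v μb 0 0 + finComp v μb 1 1) ∈ v.adicCompletionIntegers K := by
      rw [mem_int_iff322, map_mul, map_inv₀, hϖ]
      calc (WithZero.exp (-1 : ℤ) : WithZero (Multiplicative ℤ))⁻¹
            * Valued.v (finComp v μb 0 0 + finComp v μb 1 1)
          ≤ (WithZero.exp (-1 : ℤ))⁻¹ * WithZero.exp (-1 : ℤ) := mul_le_mul_right hle' _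
        _ = 1 := inv_mul_cancel₀ WithZero.exp_ne_zero
    intro a b
    rw [Matrix.sub_apply]
    exact sub_mem (intM_smul322 hc hB a b) (intM_one322 a b)
  exact ⟨hϖ, hA, hB, hp.det, hp.detb, hAB, hBA, htrEq ▸ htrB, htrB⟩

/-! ## Elements local at `v` -/

theorem isLocalAtFin_pow322 {v : HeightOneSpectrum (𝓞 K)} {g : G K} (hg : IsLocalAtFin v g)
    (k : ℕ) : IsLocalAtFin v (g ^ k) := by
  induction k with
  | zero => rw [pow_zero]; exact isLocalAtFin_one129 v
  | succ k ih => rw [pow_succ]; exact isLocalAtFin_mul129 ih hg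

theorem isLocalAtFin_zpow322 {v : HeightOneSpectrum (𝓞 K)} {g : G K} (hg : IsLocalAtFin v g)
    (i : ℤ) : IsLocalAtFin v (g ^ i) := by
  cases i with
  | ofNat k => rw [Int.ofNat_eq_natCast, zpow_natCast]; exact isLocalAtFin_pow322 hg k
  | negSucc k => rw [zpow_negSucc]; exact isLocalAtFin_inv129 (isLocalAtFin_pow322 hg (k + 1))

/-- The first columns of two elements local at `v` agree off `v`. -/
theorem agreeOff_of_local322 {v : HeightOneSpectrum (𝓞 K)} {a b : G K}
    (ha : IsLocalAtFin v a) (hb : IsLocalAtFin v b) :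
    WL.AgreeOffFin v (actV a ((1 : Adl K), (0 : Adl K))) (actV b ((1 : Adl K), (0 : Adl K))) := by
  rw [actV_e1_322, actV_e1_322]
  refine ⟨fun w => ⟨?_, ?_⟩, fun v' hv' => ⟨?_, ?_⟩⟩
  · exact (ha.1 w 0 0).trans (hb.1 w 0 0).symm
  · exact (ha.1 w 1 0).trans (hb.1 w 1 0).symm
  · have h1 := congrFun (congrFun (ha.2 v' hv') 0) 0
    have h2 := congrFun (congrFun (hb.2 v' hv') 0) 0
    exact h1.trans h2.symm
  · have h1 := congrFun (congrFun (ha.2 v' hv') 1) 0
    have h2 := congrFun (congrFun (hb.2 v' hv') 1) 0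
    exact h1.trans h2.symm

theorem vecIntegral_iff322 (v : HeightOneSpectrum (𝓞 K)) (a : G K) :
    WL.VecIntegralAt v (actV a ((1 : Adl K), (0 : Adl K)))
      ↔ finComp v a 0 0 ∈ v.adicCompletionIntegers K
        ∧ finComp v a 1 0 ∈ v.adicCompletionIntegers K := by
  rw [actV_e1_322]
  rfl

/-- The determinants of a split pair agree. -/
theorem det_eq_of_split322 {t n : K} {v : HeightOneSpectrum (𝓞 K)} {ϖ : v.adicCompletion K}
    {μ μb : G K} (hp : IsSplitPair254 t n v ϖ μ μb) :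
    Matrix.GeneralLinearGroup.det μ = Matrix.GeneralLinearGroup.det μb := by
  have h1 := isIdeleAt_det333 hp.loc
  have h2 := isIdeleAt_det333 hp.locb
  apply Units.ext
  apply adele_ext129
  · intro w
    rw [h1.1 w, h2.1 w]
  · intro v'
    by_cases hv : v' = v
    · subst hv
      rw [det_finComp333, det_finComp333, hp.det, hp.detb]
    · rw [h1.2 v' hv, h2.2 v' hv]

/-! ## The leaf -/

/-- **A2.03.8.5.9 SUPP** (`H254.SuppC254`, verbatim). -/
theorem suppC322 : SuppC254 := by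
  intro K _ _ D η W v hctx ϖ hϖ μ μb hp g' m' hg' hm' hadm j i u hu
  have hχ := hctx.good.torus
  have hweil := hctx.good.weil
  obtain ⟨ht, hn, -⟩ := hctx.std.good_int v hctx.hv
  have hL := locPair_of_split322 hϖ hp
  -- the elements
  have hρT : InTorus D.t D.n (μ * μb⁻¹) := inTorus_mul333 hp.tor (inTorus_inv333 hp.torb)
  have hρ1 : InTorus1 D.t D.n (μ * μb⁻¹) :=
    ⟨hρT, by rw [map_mul, map_inv, det_eq_of_split322 hp, mul_inv_cancel]⟩
  have hρloc : IsLocalAtFin v (μ * μb⁻¹) :=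
    isLocalAtFin_mul129 hp.loc (isLocalAtFin_inv129 hp.locb)
  obtain ⟨hu1, huint, huinv⟩ := hu
  have huv1 : InTorus1 D.t D.n (locFin129 v (finCompHom129 v u)) := inTorus1_loc322 v hu1
  have huvloc : IsLocalAtFin v (locFin129 v (finCompHom129 v u)) := isLocalAtFin_locFin129 v _
  generalize huvdef : locFin129 v (finCompHom129 v u) = uv at huv1 huvloc
  have hfuv : finCompHom129 v uv = finCompHom129 v u := by
    rw [← huvdef, finCompHom129_locFin129]
  have hu'1 : InTorus1 D.t D.n (u * uv⁻¹) := inTorus1_mul322 hu1 (inTorus1_inv322 huv1)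
  have hu'triv : TrivAtFin v (u * uv⁻¹) := by
    rw [trivAtFin_iff129, map_mul, map_inv, hfuv, mul_inv_cancel]
  have hcomm : uv * (u * uv⁻¹) = u := by
    rw [inTorus_comm322 huv1.1 hu'1.1, inv_mul_cancel_right]
  have hm''1 : InTorus1 D.t D.n ((μ * μb⁻¹) ^ i * uv) :=
    inTorus1_mul322 (inTorus1_zpow322 hρ1 i) huv1
  have hm''loc : IsLocalAtFin v ((μ * μb⁻¹) ^ i * uv) :=
    isLocalAtFin_mul129 (isLocalAtFin_zpow322 hρloc i) huvloc
  have hadm' : Adm D.t D.n g' (u * uv⁻¹ * m') :=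
    ⟨inTorus_mul333 hu'1.1 hadm.1, by rw [map_mul, hu'1.2, one_mul]; exact hadm.2⟩
  have htriv' : TrivAtFin v (u * uv⁻¹ * m') := by
    rw [trivAtFin_iff129, map_mul, (trivAtFin_iff129 v _).mp hu'triv,
      (trivAtFin_iff129 v _).mp hm', mul_one]
  have hdecomp : (μ * μb⁻¹) ^ i * u * m' = ((μ * μb⁻¹) ^ i * uv) * (u * uv⁻¹ * m') := by
    have : ((μ * μb⁻¹) ^ i * uv) * (u * uv⁻¹ * m')
        = (μ * μb⁻¹) ^ i * (uv * (u * uv⁻¹)) * m' := by group
    rw [this, hcomm]
  have hdecomp0 : u * m' = uv * (u * uv⁻¹ * m') := by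
    rw [← mul_assoc, hcomm]
  -- the element `Y`
  have hYT : InTorus D.t D.n (((μ * μb⁻¹) ^ i * uv)⁻¹ * μb ^ j) :=
    inTorus_mul333 (inTorus_inv333 hm''1.1) (inTorus_pow333 hp.torb j)
  have hYloc : IsLocalAtFin v (((μ * μb⁻¹) ^ i * uv)⁻¹ * μb ^ j) :=
    isLocalAtFin_mul129 (isLocalAtFin_inv129 hm''loc) (isLocalAtFin_pow322 hp.locb j)
  have hYmat : finComp v (((μ * μb⁻¹) ^ i * uv)⁻¹ * μb ^ j)
      = finComp v u⁻¹ * ((((finCompHom129 v μ * (finCompHom129 v μb)⁻¹) ^ i)⁻¹
          * finCompHom129 v μb ^ j : GL (Fin 2) (v.adicCompletion K)) :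
            Matrix (Fin 2) (Fin 2) (v.adicCompletion K)) := by
    rw [← coe_finCompHom129, ← coe_finCompHom129, ← Units.val_mul]
    congr 1
    rw [map_mul, map_inv, map_mul, map_zpow, map_mul, map_inv, map_pow, hfuv, mul_inv_rev,
      map_inv, mul_assoc]
  have hZmat : ((((finCompHom129 v μ * (finCompHom129 v μb)⁻¹) ^ i)⁻¹
          * finCompHom129 v μb ^ j : GL (Fin 2) (v.adicCompletion K)) :
            Matrix (Fin 2) (Fin 2) (v.adicCompletion K))
      = finComp v u * finComp v (((μ * μb⁻¹) ^ i * uv)⁻¹ * μb ^ j) := by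
    rw [hYmat, ← mul_assoc, ← coe_fch_mul322, mul_inv_cancel]
    have : finComp v (1 : G K) = 1 := by
      rw [← coe_finCompHom129, map_one]; rfl
    rw [this, one_mul]
  -- the torus character
  have hchi : D.χT ((μ * μb⁻¹) ^ i * u * m')
      = (D.χT μ / D.χT μb) ^ i * D.χT (u * m') := by
    rw [mul_assoc, hχ.mul _ _ (inTorus_zpow322 hρT i) (inTorus_mul333 hu1.1 hadm.1),
      chi_zpow322 hχ hρT, hχ.mul _ _ hp.tor (inTorus_inv333 hp.torb), chi_inv322 hχ hp.torb,
      div_eq_mul_inv]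
  -- the Weil family
  have hF : D.F g' ((μ * μb⁻¹) ^ i * u * m') (actV (μb ^ j) ((1 : Adl K), (0 : Adl K)))
      = D.F g' (u * uv⁻¹ * m')
          (actV (((μ * μb⁻¹) ^ i * uv)⁻¹ * μb ^ j) ((1 : Adl K), (0 : Adl K))) := by
    rw [hdecomp, hweil.tor1 _ hm''1 g' _ _ hadm', ← actV_mul322]
  have hF0 : D.F g' (u * m') ((1 : Adl K), (0 : Adl K))
      = D.F g' (u * uv⁻¹ * m') (actV uv⁻¹ ((1 : Adl K), (0 : Adl K))) := by
    rw [hdecomp0, hweil.tor1 _ huv1 g' _ _ hadm']
  obtain ⟨hstd0, hstd1⟩ := hctx.std.good_std v hctx.hv g' (u * uv⁻¹ * m') hadm' hg' htriv'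
  unfold orbFn254
  rw [hF, hchi]
  by_cases hcond : -(j : ℤ) ≤ i ∧ i ≤ 0
  · rw [if_pos hcond]
    have hZint := (hL.zmat_int_iff i j).mpr hcond
    have hYint : IntM322 v (finComp v (((μ * μb⁻¹) ^ i * uv)⁻¹ * μb ^ j)) := by
      rw [hYmat]
      exact intM_mul322 huinv hZint
    have hv1 : WL.VecIntegralAt v
        (actV (((μ * μb⁻¹) ^ i * uv)⁻¹ * μb ^ j) ((1 : Adl K), (0 : Adl K))) :=
      (vecIntegral_iff322 v _).mpr ⟨hYint 0 0, hYint 1 0⟩
    have huvinv : finComp v uv⁻¹ = finComp v u⁻¹ := by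
      rw [← coe_finCompHom129, ← coe_finCompHom129, map_inv, map_inv, hfuv]
    have hv2 : WL.VecIntegralAt v (actV uv⁻¹ ((1 : Adl K), (0 : Adl K))) := by
      rw [vecIntegral_iff322, huvinv]
      exact ⟨huinv 0 0, huinv 1 0⟩
    rw [hstd1 _ _ (agreeOff_of_local322 hYloc (isLocalAtFin_inv129 huvloc)) hv1 hv2, ← hF0]
    ring
  · rw [if_neg hcond]
    have hnot : ¬ WL.VecIntegralAt v
        (actV (((μ * μb⁻¹) ^ i * uv)⁻¹ * μb ^ j) ((1 : Adl K), (0 : Adl K))) := by
      intro hv1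
      obtain ⟨h0, h1⟩ := (vecIntegral_iff322 v _).mp hv1
      have hYint := intM_of_col322 v ht hn hYT h0 h1
      apply hcond
      apply (hL.zmat_int_iff i j).mp
      rw [hZmat]
      exact intM_mul322 huint hYint
    rw [hstd0 _ hnot, zero_mul]

example : SuppC254 := suppC322

end Fermat.Agent.LT.A2.H322

end

end
-- ===== PACK-END LT/A2/H322/Supp.lean

-- ===== PACK-BEGIN LT/A2/H416/Integrand.lean
section


/-!
# Row LT, tower A2, leaf A2.03.7 WHIT-MEAN (helper416): the orbital integrand at a complex place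

OFF-MAIN.
* `gauss_actV416`: the Gaussian of `IsStd.cpx` at the vector `M · (s e₁)` is
  `exp(-2π|c| |s|² (|λ₁|² + |λ₂|²))`, `λ_i` the split coordinates of the complex matrix of `M`;
* `orbI_rel416`: the relation between the orbital integrands at `m' m`, `s` and at `m`, `s'`
  (`tor1` + `cpx`), `m'` in `T¹` supported at `w`;
* `exists_adm_triv416`: an admissible partner trivial at `w`;
* `exists_rot416`: the rotation elements of `T¹(ℂ_w)`, in the kernel of `χT`;
* `inGPlus_of_mul_locInfComplex416`.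
-/

set_option autoImplicit false
set_option linter.unusedSectionVars false
set_option linter.style.haveILetI false
open IsDedekindDomain NumberField AutomorphicForm MeasureTheory
open scoped MatrixGroups Topology Classical
noncomputable section
namespace Fermat.Agent.LT.A2.H416
open Fermat.Agent.LT.H130 Fermat.Agent.LT.H556 Fermat.Agent.LT.A2 Fermat.Agent.LT.H470
open Fermat.Agent.LT.T8.H864 Fermat.Agent.LT.H556.T0 Fermat.Agent.LT.A2.H971

variable {K : Type} [Field K] [NumberField K]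

/-! ## The vector `M · (a e₁)` -/

/-- The vector `a e₁`, `a` the idele `s` at the complex place `w`. -/
def vecE {w : InfinitePlace K} (hw : w.IsComplex) (s : ℂˣ) : A0.Adl K × A0.Adl K :=
  (cIdl hw s : A0.Adl K) • ((1 : A0.Adl K), (0 : A0.Adl K))

theorem actV_vecE_fst {w : InfinitePlace K} (hw : w.IsComplex) (M : A0.G K) (s : ℂˣ) :
    (actV M (vecE hw s)).1
      = (M : Matrix (Fin 2) (Fin 2) (A0.Adl K)) 0 0 * locAdlHom w (cplxHom hw (s : ℂ)) := by
  simp [actV, vecE, coe_cIdl]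

theorem actV_vecE_snd {w : InfinitePlace K} (hw : w.IsComplex) (M : A0.G K) (s : ℂˣ) :
    (actV M (vecE hw s)).2
      = (M : Matrix (Fin 2) (Fin 2) (A0.Adl K)) 1 0 * locAdlHom w (cplxHom hw (s : ℂ)) := by
  simp [actV, vecE, coe_cIdl]

theorem ext_actV_vecE_fst {w : InfinitePlace K} (hw : w.IsComplex) (M : A0.G K) (s : ℂˣ) :
    InfinitePlace.Completion.extensionEmbedding w ((actV M (vecE hw s)).1.1 w)
      = A0.infComp w M 0 0 * (s : ℂ) := by
  rw [actV_vecE_fst]
  show InfinitePlace.Completion.extensionEmbedding w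
      (((M : Matrix (Fin 2) (Fin 2) (A0.Adl K)) 0 0).1 w
        * (locAdlHom w (cplxHom hw (s : ℂ))).1 w) = _
  rw [map_mul, locAdlHom_fst_self, extensionEmbedding_cplxHom]
  rfl

theorem ext_actV_vecE_snd {w : InfinitePlace K} (hw : w.IsComplex) (M : A0.G K) (s : ℂˣ) :
    InfinitePlace.Completion.extensionEmbedding w ((actV M (vecE hw s)).2.1 w)
      = A0.infComp w M 1 0 * (s : ℂ) := by
  rw [actV_vecE_snd]
  show InfinitePlace.Completion.extensionEmbedding w
      (((M : Matrix (Fin 2) (Fin 2) (A0.Adl K)) 1 0).1 w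
        * (locAdlHom w (cplxHom hw (s : ℂ))).1 w) = _
  rw [map_mul, locAdlHom_fst_self, extensionEmbedding_cplxHom]
  rfl

/-- The sum of the squares of the split coordinates of the complex matrix `N`. -/
def splitS (ω₁ ω₂ : ℂ) (N : Matrix (Fin 2) (Fin 2) ℂ) : ℝ :=
  ‖lam ω₁ N‖ ^ 2 + ‖lam ω₂ N‖ ^ 2

/-- **The Gaussian** at the vector `M · (s e₁)`. -/
theorem gauss_actV416 {w : InfinitePlace K} (hw : w.IsComplex) (c ω₁ ω₂ : ℂ) (M : A0.G K)
    (s : ℂˣ) :
    WL.gauss w c ω₁ ω₂ (actV M (vecE hw s))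
      = Complex.exp (-((2 * Real.pi * ‖c‖ * (‖(s : ℂ)‖ ^ 2 * splitS ω₁ ω₂ (A0.infComp w M)) : ℝ)
          : ℂ)) := by
  unfold WL.gauss
  rw [ext_actV_vecE_fst, ext_actV_vecE_snd]
  congr 3
  have h1 : A0.infComp w M 0 0 * (s : ℂ) + ω₁ * (A0.infComp w M 1 0 * (s : ℂ))
      = (s : ℂ) * lam ω₁ (A0.infComp w M) := by
    unfold lam; ring
  have h2 : A0.infComp w M 0 0 * (s : ℂ) + ω₂ * (A0.infComp w M 1 0 * (s : ℂ))
      = (s : ℂ) * lam ω₂ (A0.infComp w M) := by
    unfold lam; ring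
  rw [h1, h2, norm_mul, norm_mul]
  unfold splitS
  ring

/-- Vectors `M (s e₁)`, `M' (s' e₁)` with `M`, `M'` equal off `w` agree off `w`. -/
theorem agreeOff_actV416 {w : InfinitePlace K} (hw : w.IsComplex) {M M' : A0.G K}
    (hinf : ∀ w' : InfinitePlace K, w' ≠ w → infCompHom w' M = infCompHom w' M')
    (hfin : ∀ v : HeightOneSpectrum (𝓞 K), finCompHom v M = finCompHom v M') (s s' : ℂˣ) :
    WL.AgreeOffInf w (actV M (vecE hw s)) (actV M' (vecE hw s')) := by
  have hI : ∀ (w' : InfinitePlace K), w' ≠ w → ∀ i j : Fin 2,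
      ((M : Matrix (Fin 2) (Fin 2) (A0.Adl K)) i j).1 w'
        = ((M' : Matrix (Fin 2) (Fin 2) (A0.Adl K)) i j).1 w' := by
    intro w' h i j
    have := congrArg (fun x : GL (Fin 2) w'.Completion =>
      (x : Matrix (Fin 2) (Fin 2) w'.Completion) i j) (hinf w' h)
    exact this
  have hF : ∀ (v : HeightOneSpectrum (𝓞 K)) (i j : Fin 2),
      ((M : Matrix (Fin 2) (Fin 2) (A0.Adl K)) i j).2 v
        = ((M' : Matrix (Fin 2) (Fin 2) (A0.Adl K)) i j).2 v := by
    intro v i j
    have := congrArg (fun x : GL (Fin 2) (v.adicCompletion K) =>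
      (x : Matrix (Fin 2) (Fin 2) (v.adicCompletion K)) i j) (hfin v)
    exact this
  refine ⟨fun w' h => ⟨?_, ?_⟩, fun v => ⟨?_, ?_⟩⟩
  · rw [actV_vecE_fst, actV_vecE_fst]
    show ((M : Matrix (Fin 2) (Fin 2) (A0.Adl K)) 0 0).1 w' * (locAdlHom w _).1 w'
      = ((M' : Matrix (Fin 2) (Fin 2) (A0.Adl K)) 0 0).1 w' * (locAdlHom w _).1 w'
    rw [locAdlHom_fst_of_ne h, locAdlHom_fst_of_ne h, hI w' h]
  · rw [actV_vecE_snd, actV_vecE_snd]
    show ((M : Matrix (Fin 2) (Fin 2) (A0.Adl K)) 1 0).1 w' * (locAdlHom w _).1 w'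
      = ((M' : Matrix (Fin 2) (Fin 2) (A0.Adl K)) 1 0).1 w' * (locAdlHom w _).1 w'
    rw [locAdlHom_fst_of_ne h, locAdlHom_fst_of_ne h, hI w' h]
  · rw [actV_vecE_fst, actV_vecE_fst]
    show ((M : Matrix (Fin 2) (Fin 2) (A0.Adl K)) 0 0).2 v * (locAdlHom w _).2 v
      = ((M' : Matrix (Fin 2) (Fin 2) (A0.Adl K)) 0 0).2 v * (locAdlHom w _).2 v
    rw [hF v, locAdlHom_snd, locAdlHom_snd]
  · rw [actV_vecE_snd, actV_vecE_snd]
    show ((M : Matrix (Fin 2) (Fin 2) (A0.Adl K)) 1 0).2 v * (locAdlHom w _).2 v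
      = ((M' : Matrix (Fin 2) (Fin 2) (A0.Adl K)) 1 0).2 v * (locAdlHom w _).2 v
    rw [hF v, locAdlHom_snd, locAdlHom_snd]


/-! ## The relation between the orbital integrands (`tor1` and `cpx`) -/

/-- The conclusion of `IsStd.cpx` at the place `w`, for the constant `c` and the roots
`ω₁`, `ω₂`. -/
def CpxAt (D : KData K) (w : InfinitePlace K) (c ω₁ ω₂ : ℂ) : Prop :=
  ∀ g m : A0.G K, Adm D.t D.n g m → A0.TrivAtInf w g → A0.TrivAtInf w m →
    ∀ ξ ξ' : A0.Adl K × A0.Adl K, WL.AgreeOffInf w ξ ξ' →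
      D.F g m ξ * WL.gauss w c ω₁ ω₂ ξ' = D.F g m ξ' * WL.gauss w c ω₁ ω₂ ξ

/-- The orbital integrand at the vector `s e₁`. -/
def orbI (D : KData K) {w : InfinitePlace K} (hw : w.IsComplex) (g₀ m₁ : A0.G K) (s : ℂˣ)
    (m : A0.G K) : ℂ :=
  D.F g₀ (m * m₁) (vecE hw s) * D.χT (m * m₁)

theorem orbI_rel416 (D : KData K) (hgood : D.Good) {w : InfinitePlace K} (hw : w.IsComplex)
    {c ω₁ ω₂ : ℂ} (hc : CpxAt D w c ω₁ ω₂) {g₀ m₁ : A0.G K} (hg₀ : A0.TrivAtInf w g₀)
    (hm₁ : A0.TrivAtInf w m₁) (hadm : Adm D.t D.n g₀ m₁) {m m' : A0.G K}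
    (hm : InTorus1 D.t D.n m) (hm' : InTorus1 D.t D.n m') (hloc : A0.IsLocalAtInf w m')
    (s s' : ℂˣ) :
    orbI D hw g₀ m₁ s (m' * m) * WL.gauss w c ω₁ ω₂ (actV m⁻¹ (vecE hw s'))
      = orbI D hw g₀ m₁ s' m * D.χT m'
          * WL.gauss w c ω₁ ω₂ (actV (m' * m)⁻¹ (vecE hw s)) := by
  unfold orbI
  have h1 := hgood.weil.tor1 (m' * m) (inTorus1_mul416 hm' hm) g₀ m₁ (vecE hw s) hadm
  have h2 := hgood.weil.tor1 m hm g₀ m₁ (vecE hw s') hadm
  have h3 : D.χT (m' * m * m₁) = D.χT m' * D.χT (m * m₁) := by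
    rw [mul_assoc]
    exact hgood.torus.mul _ _ hm'.1 (inTorus_mul971 hm.1 hadm.1)
  have hagree : WL.AgreeOffInf w (actV (m' * m)⁻¹ (vecE hw s)) (actV m⁻¹ (vecE hw s')) := by
    refine agreeOff_actV416 hw (fun w' h => ?_) (fun v => ?_) s s'
    · rw [map_inv, map_inv, map_mul, (trivAtInf_iff_hom w' m').1 (hloc.1 w' h), one_mul]
    · rw [map_inv, map_inv, map_mul, (trivAtFin_iff_hom v m').1 (hloc.2 v), one_mul]
  have h4 := hc g₀ m₁ hadm hg₀ hm₁ _ _ hagree
  rw [h1, h2, h3]
  linear_combination (D.χT m' * D.χT (m * m₁)) * h4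

/-! ## Torus elements at the complex place -/

theorem algebraMap_fst_eq_cplxHom {w : InfinitePlace K} (hw : w.IsComplex) (x : K) :
    (algebraMap K (A0.Adl K) x).1 w = cplxHom hw (w.embedding x) := by
  apply (InfinitePlace.Completion.extensionEmbedding w).injective
  rw [ext_algebraMap416, extensionEmbedding_cplxHom]

theorem isTorM_pow416 {R : Type*} [CommRing R] {t n : R} {M : Matrix (Fin 2) (Fin 2) R}
    (h : IsTorM t n M) (k : ℕ) : IsTorM t n (M ^ k) := by
  induction k with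
  | zero => rw [pow_zero]; exact isTorM_one416 t n
  | succ k ih => rw [pow_succ]; exact isTorM_mul416 ih h

theorem lam_pow416 {R : Type*} [CommRing R] {t n ω : R} (hω : ω ^ 2 = t * ω - n)
    {M : Matrix (Fin 2) (Fin 2) R} (h : IsTorM t n M) (k : ℕ) :
    lam ω (M ^ k) = lam ω M ^ k := by
  induction k with
  | zero => rw [pow_zero, pow_zero, lam_one416]
  | succ k ih => rw [pow_succ, pow_succ, lam_mul416 hω (isTorM_pow416 h k) h, ih]

/-- A torus matrix at `w` gives an element of the adelic torus supported at `w`. -/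
theorem inTorus_locInf416 {t n : K} (w : InfinitePlace K) (X : GL (Fin 2) w.Completion)
    (hX : IsTorM ((algebraMap K (A0.Adl K) t).1 w) ((algebraMap K (A0.Adl K) n).1 w)
      (X : Matrix (Fin 2) (Fin 2) w.Completion)) :
    InTorus t n (locInf w X : A0.G K) := by
  rw [inTorus_iff_isTorM416]
  obtain ⟨h1, h2⟩ := hX
  have e00 : ((locInf w X : A0.G K) : Matrix (Fin 2) (Fin 2) (A0.Adl K)) 0 0
      = locAdlHom w ((X : Matrix (Fin 2) (Fin 2) w.Completion) 0 0) := entry_diag_eq w 0 _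
  have e11 : ((locInf w X : A0.G K) : Matrix (Fin 2) (Fin 2) (A0.Adl K)) 1 1
      = locAdlHom w ((X : Matrix (Fin 2) (Fin 2) w.Completion) 1 1) := entry_diag_eq w 1 _
  have e01 : ((locInf w X : A0.G K) : Matrix (Fin 2) (Fin 2) (A0.Adl K)) 0 1
      = locAdd w ((X : Matrix (Fin 2) (Fin 2) w.Completion) 0 1) :=
    entry_off_eq w (by decide) _
  have e10 : ((locInf w X : A0.G K) : Matrix (Fin 2) (Fin 2) (A0.Adl K)) 1 0
      = locAdd w ((X : Matrix (Fin 2) (Fin 2) w.Completion) 1 0) :=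
    entry_off_eq w (by decide) _
  constructor
  · rw [e01, e10]
    refine adl_ext (fun w' => ?_) (fun v => ?_)
    · show (locAdd w ((X : Matrix (Fin 2) (Fin 2) w.Completion) 0 1)).1 w'
        = -((algebraMap K (A0.Adl K) n).1 w'
            * (locAdd w ((X : Matrix (Fin 2) (Fin 2) w.Completion) 1 0)).1 w')
      by_cases h : w' = w
      · subst h
        rw [locAdd_fst_self, locAdd_fst_self, h1]
      · rw [locAdd_fst_of_ne h, locAdd_fst_of_ne h, mul_zero, neg_zero]
    · show (locAdd w ((X : Matrix (Fin 2) (Fin 2) w.Completion) 0 1)).2 v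
        = -((algebraMap K (A0.Adl K) n).2 v
            * (locAdd w ((X : Matrix (Fin 2) (Fin 2) w.Completion) 1 0)).2 v)
      rw [locAdd_snd, locAdd_snd, mul_zero, neg_zero]
  · rw [e11, e00, e10]
    refine adl_ext (fun w' => ?_) (fun v => ?_)
    · show (locAdlHom w ((X : Matrix (Fin 2) (Fin 2) w.Completion) 1 1)).1 w'
        = (locAdlHom w ((X : Matrix (Fin 2) (Fin 2) w.Completion) 0 0)).1 w'
          + (algebraMap K (A0.Adl K) t).1 w'
            * (locAdd w ((X : Matrix (Fin 2) (Fin 2) w.Completion) 1 0)).1 w'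
      by_cases h : w' = w
      · subst h
        rw [locAdlHom_fst_self, locAdlHom_fst_self, locAdd_fst_self, h2]
      · rw [locAdlHom_fst_of_ne h, locAdlHom_fst_of_ne h, locAdd_fst_of_ne h, mul_zero, add_zero]
    · show (locAdlHom w ((X : Matrix (Fin 2) (Fin 2) w.Completion) 1 1)).2 v
        = (locAdlHom w ((X : Matrix (Fin 2) (Fin 2) w.Completion) 0 0)).2 v
          + (algebraMap K (A0.Adl K) t).2 v
            * (locAdd w ((X : Matrix (Fin 2) (Fin 2) w.Completion) 1 0)).2 v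
      rw [locAdlHom_snd, locAdlHom_snd, locAdd_snd, mul_zero, add_zero]

/-- A complex torus matrix gives an element of the adelic torus supported at `w`. -/
theorem inTorus_locInfComplex416 {t n : K} {w : InfinitePlace K} (hw : w.IsComplex)
    (M : GL (Fin 2) ℂ)
    (hM : IsTorM (w.embedding t) (w.embedding n) (M : Matrix (Fin 2) (Fin 2) ℂ)) :
    InTorus t n (locInfComplex hw M : A0.G K) := by
  refine inTorus_locInf416 w _ ?_
  obtain ⟨h1, h2⟩ := hM
  constructor
  · show cplxHom hw ((M : Matrix (Fin 2) (Fin 2) ℂ) 0 1)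
      = -((algebraMap K (A0.Adl K) n).1 w * cplxHom hw ((M : Matrix (Fin 2) (Fin 2) ℂ) 1 0))
    rw [algebraMap_fst_eq_cplxHom hw, h1, map_neg, map_mul]
  · show cplxHom hw ((M : Matrix (Fin 2) (Fin 2) ℂ) 1 1)
      = cplxHom hw ((M : Matrix (Fin 2) (Fin 2) ℂ) 0 0)
        + (algebraMap K (A0.Adl K) t).1 w * cplxHom hw ((M : Matrix (Fin 2) (Fin 2) ℂ) 1 0)
    rw [algebraMap_fst_eq_cplxHom hw, h2, map_add, map_mul]

/-- The component at `w` of an element of the torus is in the torus. -/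
theorem inTorus_locInf_comp416 {t n : K} (w : InfinitePlace K) {m : A0.G K}
    (hm : InTorus t n m) : InTorus t n (locInf w (infCompHom w m) : A0.G K) := by
  refine inTorus_locInf416 w _ ?_
  rw [inTorus_iff_isTorM416] at hm
  obtain ⟨h1, h2⟩ := hm
  constructor
  · show ((m : Matrix (Fin 2) (Fin 2) (A0.Adl K)) 0 1).1 w
      = -((algebraMap K (A0.Adl K) n).1 w * ((m : Matrix (Fin 2) (Fin 2) (A0.Adl K)) 1 0).1 w)
    rw [h1]; rfl
  · show ((m : Matrix (Fin 2) (Fin 2) (A0.Adl K)) 1 1).1 w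
      = ((m : Matrix (Fin 2) (Fin 2) (A0.Adl K)) 0 0).1 w
        + (algebraMap K (A0.Adl K) t).1 w * ((m : Matrix (Fin 2) (Fin 2) (A0.Adl K)) 1 0).1 w
    rw [h2]; rfl

/-- The determinant of the component at `w`. -/
theorem det_infCompHom416 (w : InfinitePlace K) (m : A0.G K) :
    ((infCompHom w m : GL (Fin 2) w.Completion) : Matrix (Fin 2) (Fin 2) w.Completion).det
      = ((Matrix.GeneralLinearGroup.det m : (A0.Adl K)ˣ) : A0.Adl K).1 w := by
  rw [Matrix.GeneralLinearGroup.val_det_apply, coe_infCompHom]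
  exact ((evInf w).map_det _).symm

/-- An admissible partner trivial at `w` of an element trivial at `w`. -/
theorem exists_adm_triv416 {t n : K} (w : InfinitePlace K) {g₀ m₀ : A0.G K}
    (hg₀ : A0.TrivAtInf w g₀) (hadm : Adm t n g₀ m₀) :
    ∃ m₁ : A0.G K, Adm t n g₀ m₁ ∧ A0.TrivAtInf w m₁ := by
  have hdet : Matrix.GeneralLinearGroup.det (locInf w (infCompHom w m₀) : A0.G K) = 1 := by
    rw [det_locInf]
    have h1 : Matrix.GeneralLinearGroup.det (infCompHom w m₀) = 1 := by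
      refine Units.ext ?_
      rw [Matrix.GeneralLinearGroup.val_det_apply, det_infCompHom416, ← hadm.2,
        ← det_infCompHom416, (trivAtInf_iff_hom w g₀).1 hg₀]
      simp
    rw [h1, map_one]
  have hT : InTorus1 t n (locInf w (infCompHom w m₀) : A0.G K) :=
    ⟨inTorus_locInf_comp416 w hadm.1, hdet⟩
  refine ⟨(locInf w (infCompHom w m₀))⁻¹ * m₀, adm_torus1_mul971 (inTorus1_inv416 hT) hadm, ?_⟩
  rw [trivAtInf_iff_hom, map_mul, map_inv, infCompHom_locInf_self, inv_mul_cancel]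



/-! ## The rotation elements -/

/-- The complex torus matrix of split coordinates `(ρ⁻¹, ρ)`. -/
def torC (t' n' ω₁ ω₂ : ℂ) (ρ : ℂ) : Matrix (Fin 2) (Fin 2) ℂ :=
  torMat t' n' (ρ⁻¹ - ω₁ * ((ρ⁻¹ - ρ) / (ω₁ - ω₂))) ((ρ⁻¹ - ρ) / (ω₁ - ω₂))

theorem lam_torC_one (t' n' : ℂ) {ω₁ ω₂ : ℂ} (ρ : ℂ) :
    lam ω₁ (torC t' n' ω₁ ω₂ ρ) = ρ⁻¹ := by
  simp [lam, torC, torMat]

theorem lam_torC_two (t' n' : ℂ) {ω₁ ω₂ : ℂ} (hne : ω₁ ≠ ω₂) (ρ : ℂ) :
    lam ω₂ (torC t' n' ω₁ ω₂ ρ) = ρ := by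
  have h : ω₁ - ω₂ ≠ 0 := sub_ne_zero.2 hne
  have hB : (ω₁ - ω₂) * ((ρ⁻¹ - ρ) / (ω₁ - ω₂)) = ρ⁻¹ - ρ := mul_div_cancel₀ _ h
  simp only [lam, torC, torMat, Matrix.of_apply, Matrix.cons_val', Matrix.cons_val_zero,
    Matrix.cons_val_one, Matrix.empty_val', Matrix.cons_val_fin_one]
  linear_combination (-1 : ℂ) * hB

theorem det_torC {t' n' ω₁ ω₂ : ℂ} (hs : ω₁ + ω₂ = t') (hp : ω₁ * ω₂ = n') (hne : ω₁ ≠ ω₂)
    {ρ : ℂ} (hρ : ρ ≠ 0) : (torC t' n' ω₁ ω₂ ρ).det = 1 := by
  have h := lam_mul_lam416 hs hp (M := torC t' n' ω₁ ω₂ ρ) (isTorM_torMat416 _ _ _ _)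
  rw [← h, lam_torC_one, lam_torC_two _ _ hne, inv_mul_cancel₀ hρ]

/-- **The rotation elements**: for `r > 0` there is an element of `T¹(𝔸_K)` supported at `w`, in
the kernel of `χT`, whose inverse has the split coordinates `(r⁻¹, r)` at `w`. -/
theorem exists_rot416 {t n : K} {χT : A0.G K → ℂ} (hχ : IsTorusChar t n χT)
    {w : InfinitePlace K} (hw : w.IsComplex) {ω₁ ω₂ : ℂ} (hs : ω₁ + ω₂ = w.embedding t)
    (hp : ω₁ * ω₂ = w.embedding n) (hne : ω₁ ≠ ω₂) {r : ℝ} (hr : 0 < r) :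
    ∃ m' : A0.G K, InTorus1 t n m' ∧ A0.IsLocalAtInf w m' ∧ χT m' = 1 ∧
      lam ω₁ (A0.infComp w m'⁻¹) = ((r⁻¹ : ℝ) : ℂ) ∧ lam ω₂ (A0.infComp w m'⁻¹) = ((r : ℝ) : ℂ) := by
  obtain ⟨k, hk, hpow⟩ := hχ.fin_order
  set ρ : ℝ := r ^ ((k : ℝ)⁻¹) with hρdef
  have hρ : 0 < ρ := Real.rpow_pos_of_pos hr _
  have hρk : ρ ^ k = r := Real.rpow_inv_natCast_pow hr.le hk.ne'
  have hρc : ((ρ : ℝ) : ℂ) ≠ 0 := Complex.ofReal_ne_zero.2 hρ.ne'
  have hdet : (torC (w.embedding t) (w.embedding n) ω₁ ω₂ (ρ : ℂ)).det = 1 :=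
    det_torC hs hp hne hρc
  set N : GL (Fin 2) ℂ := Matrix.GeneralLinearGroup.mkOfDetNeZero
    (torC (w.embedding t) (w.embedding n) ω₁ ω₂ (ρ : ℂ)) (by rw [hdet]; exact one_ne_zero)
    with hN
  have hNcoe : (N : Matrix (Fin 2) (Fin 2) ℂ)
      = torC (w.embedding t) (w.embedding n) ω₁ ω₂ (ρ : ℂ) := rfl
  have hNtor : IsTorM (w.embedding t) (w.embedding n) (N : Matrix (Fin 2) (Fin 2) ℂ) := by
    rw [hNcoe]; exact isTorM_torMat416 _ _ _ _
  have hT : InTorus1 t n (locInfComplex hw N : A0.G K) :=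
    ⟨inTorus_locInfComplex416 hw N hNtor,
      det_locInfComplex_of_det_one hw (by rw [hNcoe]; exact hdet)⟩
  have hω := sq_root416 hs hp
  refine ⟨((locInfComplex hw N : A0.G K) ^ k)⁻¹, inTorus1_inv416 (inTorus1_pow416 hT k), ?_, ?_,
    ?_, ?_⟩
  · rw [← map_pow, ← map_inv]
    exact isLocalAtInf_locInfComplex hw _
  · rw [← inv_pow, torusChar_pow416 hχ (inTorus_inv416 hT.1), hpow _ (inTorus_inv416 hT.1)]
  · rw [inv_inv, ← map_pow, infComp_locInfComplex, Units.val_pow_eq_pow_val,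
      lam_pow416 hω.1 hNtor, hNcoe, lam_torC_one, ← Complex.ofReal_inv, ← Complex.ofReal_pow,
      inv_pow, hρk]
  · rw [inv_inv, ← map_pow, infComp_locInfComplex, Units.val_pow_eq_pow_val,
      lam_pow416 hω.2 hNtor, hNcoe, lam_torC_two _ _ hne, ← Complex.ofReal_pow, hρk]

/-! ## `GL₂(𝔸_K)⁺` and the elements supported at a complex place -/

/-- Complex scalar matrices. -/
def scalC (σ : ℂˣ) : GL (Fin 2) ℂ :=
  ⟨Matrix.diagonal (fun _ => (σ : ℂ)), Matrix.diagonal (fun _ => ((σ⁻¹ : ℂˣ) : ℂ)), by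
      rw [Matrix.diagonal_mul_diagonal]; simp,
    by rw [Matrix.diagonal_mul_diagonal]; simp⟩

theorem coe_scalC (σ : ℂˣ) :
    ((scalC σ : GL (Fin 2) ℂ) : Matrix (Fin 2) (Fin 2) ℂ) = Matrix.diagonal (fun _ => (σ : ℂ)) :=
  rfl

theorem isTorM_scalC (t' n' : ℂ) (σ : ℂˣ) :
    IsTorM t' n' ((scalC σ : GL (Fin 2) ℂ) : Matrix (Fin 2) (Fin 2) ℂ) := by
  rw [coe_scalC]
  constructor <;> simp

theorem det_scalC (σ : ℂˣ) : Matrix.GeneralLinearGroup.det (scalC σ) = σ * σ := by
  refine Units.ext ?_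
  rw [Matrix.GeneralLinearGroup.val_det_apply, coe_scalC, Matrix.det_diagonal]
  simp [sq]

/-- If `g · (element supported at the complex place w)` is in `GL₂(𝔸_K)⁺`, so is `g`. -/
theorem inGPlus_of_mul_locInfComplex416 {t n : K} {w : InfinitePlace K} (hw : w.IsComplex)
    {g : A0.G K} (M : GL (Fin 2) ℂ) (h : InGPlus t n (g * locInfComplex hw M)) :
    InGPlus t n g := by
  obtain ⟨m, hm⟩ := h
  obtain ⟨σ, hσ⟩ : ∃ σ : ℂ, σ ^ 2 = ((Matrix.GeneralLinearGroup.det M : ℂˣ) : ℂ) :=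
    IsAlgClosed.exists_pow_nat_eq _ (by norm_num)
  have hσ0 : σ ≠ 0 := by
    intro h0
    rw [h0] at hσ
    exact (Matrix.GeneralLinearGroup.det M).ne_zero (by rw [← hσ]; simp)
  have hdetσ : Matrix.GeneralLinearGroup.det (scalC (Units.mk0 σ hσ0))
      = Matrix.GeneralLinearGroup.det M := by
    rw [det_scalC]
    ext
    rw [Units.val_mul, Units.val_mk0, ← hσ, sq]
  set κ : A0.G K := locInfComplex hw (scalC (Units.mk0 σ hσ0)) with hκ
  have hκT : InTorus t n κ := inTorus_locInfComplex416 hw _ (isTorM_scalC _ _ _)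
  have hκdet : Matrix.GeneralLinearGroup.det κ
      = Matrix.GeneralLinearGroup.det (locInfComplex hw M : A0.G K) := by
    rw [hκ, det_locInfComplex, det_locInfComplex, hdetσ]
  refine ⟨m * κ⁻¹, inTorus_mul971 hm.1 (inTorus_inv416 hκT), ?_⟩
  have h2 := hm.2
  rw [map_mul] at h2
  rw [map_mul, map_inv, hκdet, ← h2, mul_inv_cancel_right]

end Fermat.Agent.LT.A2.H416
end

end
-- ===== PACK-END LT/A2/H416/Integrand.lean

-- ===== PACK-BEGIN LT/A2/H416/Shape.lean
section


/-!
# Row LT, tower A2, leaf A2.03.7 WHIT-MEAN (helper416): the shape of the orbital integrand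

OFF-MAIN.  For `g₀`, `m₁` trivial at the complex place `w`, `(g₀, m₁)` admissible, `m ∈ T¹(𝔸_K)`:

    F g₀ (m m₁) (s e₁) χT(m m₁) = A(m) · exp(-2π|c| |s|² (p(m) + q(m)))          (`orbI_eq416`)
    F g₀ (m' m m₁) (s e₁) χT(m' m m₁) = A(m) · exp(-2π|c| |s|² (r⁻² p(m) + r² q(m)))  (`orbI_rot416`)

`p = pS w ω₁`, `q = pS w ω₂` the squared absolute values of the split coordinates of `(m⁻¹)_w`
(`p q = 1` on `T¹`), `m'` the rotation element of parameter `r > 0`.
-/

set_option autoImplicit false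
set_option linter.unusedSectionVars false
set_option linter.style.haveILetI false
open IsDedekindDomain NumberField AutomorphicForm MeasureTheory
open scoped MatrixGroups Topology Classical
noncomputable section
namespace Fermat.Agent.LT.A2.H416
open Fermat.Agent.LT.H130 Fermat.Agent.LT.H556 Fermat.Agent.LT.A2 Fermat.Agent.LT.H470
open Fermat.Agent.LT.T8.H864 Fermat.Agent.LT.H556.T0 Fermat.Agent.LT.A2.H971

variable {K : Type} [Field K] [NumberField K]

/-! ## The roots -/

theorem exists_roots416 {t n : K} (hirr : ∀ x : K, x ^ 2 - t * x + n ≠ 0)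
    (w : InfinitePlace K) :
    ∃ ω₁ ω₂ : ℂ, ω₁ + ω₂ = w.embedding t ∧ ω₁ * ω₂ = w.embedding n ∧ ω₁ ≠ ω₂ := by
  have hdisc : t ^ 2 - 4 * n ≠ 0 := by
    intro h
    apply hirr (t / 2)
    field_simp
    linear_combination -h
  have hdisc' : (w.embedding t) ^ 2 - 4 * w.embedding n ≠ 0 := by
    intro h
    apply hdisc
    apply (w.embedding).injective
    rw [map_zero, map_sub, map_pow, map_mul, map_ofNat, h]
  obtain ⟨s, hs⟩ : ∃ s : ℂ, s ^ 2 = (w.embedding t) ^ 2 - 4 * w.embedding n :=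
    IsAlgClosed.exists_pow_nat_eq _ (by norm_num)
  have hs0 : s ≠ 0 := by
    intro h0
    rw [h0] at hs
    exact hdisc' (by rw [← hs]; simp)
  refine ⟨(w.embedding t + s) / 2, (w.embedding t - s) / 2, by ring, ?_, ?_⟩
  · linear_combination (-(1 / 4 : ℂ)) * hs
  · intro h
    apply hs0
    linear_combination h

/-! ## The split norms -/

/-- The determinant of the complex matrix at `w`. -/
theorem det_infComp416 (w : InfinitePlace K) (g : A0.G K) :
    (A0.infComp w g).det = InfinitePlace.Completion.extensionEmbedding w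
      (((Matrix.GeneralLinearGroup.det g : (A0.Adl K)ˣ) : A0.Adl K).1 w) := by
  rw [infComp_eq_infCompHom, ← det_infCompHom416]
  exact ((InfinitePlace.Completion.extensionEmbedding w).map_det _).symm

theorem det_infComp_of_det_one416 (w : InfinitePlace K) {g : A0.G K}
    (h : Matrix.GeneralLinearGroup.det g = 1) : (A0.infComp w g).det = 1 := by
  rw [det_infComp416, h]
  exact map_one _

/-- `|λ_ω((m⁻¹)_w)|²`. -/
def pS (w : InfinitePlace K) (ω : ℂ) (m : A0.G K) : ℝ := ‖lam ω (A0.infComp w m⁻¹)‖ ^ 2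

theorem lam_mul_lam_inv416 {t n : K} {w : InfinitePlace K} {ω₁ ω₂ : ℂ}
    (hs : ω₁ + ω₂ = w.embedding t) (hp : ω₁ * ω₂ = w.embedding n) {m : A0.G K}
    (hm : InTorus1 t n m) :
    lam ω₁ (A0.infComp w m⁻¹) * lam ω₂ (A0.infComp w m⁻¹) = 1 := by
  have hm' := inTorus1_inv416 hm
  rw [lam_mul_lam416 hs hp (isTorM_infComp416 w hm'.1), det_infComp_of_det_one416 w hm'.2]

theorem pS_mul_pS416 {t n : K} {w : InfinitePlace K} {ω₁ ω₂ : ℂ}
    (hs : ω₁ + ω₂ = w.embedding t) (hp : ω₁ * ω₂ = w.embedding n) {m : A0.G K}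
    (hm : InTorus1 t n m) : pS w ω₁ m * pS w ω₂ m = 1 := by
  unfold pS
  rw [← mul_pow, ← norm_mul, lam_mul_lam_inv416 hs hp hm, norm_one, one_pow]

theorem pS_pos_one416 {t n : K} {w : InfinitePlace K} {ω₁ ω₂ : ℂ}
    (hs : ω₁ + ω₂ = w.embedding t) (hp : ω₁ * ω₂ = w.embedding n) {m : A0.G K}
    (hm : InTorus1 t n m) : 0 < pS w ω₁ m ∧ 0 < pS w ω₂ m := by
  have h := pS_mul_pS416 hs hp hm
  have h1 : 0 ≤ pS w ω₁ m := sq_nonneg _
  have h2 : 0 ≤ pS w ω₂ m := sq_nonneg _
  constructor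
  · rcases h1.eq_or_lt with h0 | h0
    · rw [← h0, zero_mul] at h; exact absurd h zero_ne_one
    · exact h0
  · rcases h2.eq_or_lt with h0 | h0
    · rw [← h0, mul_zero] at h; exact absurd h zero_ne_one
    · exact h0

theorem continuous_infComp_inv416 (w : InfinitePlace K) (i j : Fin 2) :
    Continuous fun m : A0.G K => A0.infComp w m⁻¹ i j := by
  have h1 : Continuous fun m : A0.G K => ((m⁻¹ : A0.G K) : Matrix (Fin 2) (Fin 2) (A0.Adl K)) i j :=
    (continuous_entry971 i j).comp continuous_inv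
  have h2 : Continuous fun x : A0.Adl K => x.1 w :=
    (continuous_apply w).comp continuous_fst
  exact (InfinitePlace.Completion.isometry_extensionEmbedding w).continuous.comp (h2.comp h1)

theorem continuous_pS416 (w : InfinitePlace K) (ω : ℂ) : Continuous (pS w ω) := by
  unfold pS lam
  exact (((continuous_infComp_inv416 w 0 0).add
    (continuous_const.mul (continuous_infComp_inv416 w 1 0))).norm).pow 2

/-- The split norms of a translate by a rotation element. -/
theorem pS_mul416 {t n : K} {w : InfinitePlace K} {ω : ℂ}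
    (hω : ω ^ 2 = w.embedding t * ω - w.embedding n) {m m' : A0.G K}
    (hm : InTorus t n m) (hm' : InTorus t n m') :
    pS w ω (m' * m) = pS w ω m' * pS w ω m := by
  unfold pS
  rw [mul_inv_rev, infComp_mul,
    lam_mul416 hω (isTorM_infComp416 w (inTorus_inv416 hm)) (isTorM_infComp416 w (inTorus_inv416 hm')),
    norm_mul, mul_pow, mul_comm]


/-! ## The shape of the orbital integrand -/

/-- `exp(-2π|c| u)`. -/
def gE (c : ℂ) (u : ℝ) : ℂ := Complex.exp (-((2 * Real.pi * ‖c‖ * u : ℝ) : ℂ))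

theorem gE_mul_exp (c : ℂ) (u : ℝ) :
    gE c u * Complex.exp (((2 * Real.pi * ‖c‖ * u : ℝ) : ℂ)) = 1 := by
  unfold gE
  rw [← Complex.exp_add, neg_add_cancel, Complex.exp_zero]

theorem gauss_inv416 {w : InfinitePlace K} (hw : w.IsComplex) (c ω₁ ω₂ : ℂ) (m : A0.G K)
    (s : ℂˣ) :
    WL.gauss w c ω₁ ω₂ (actV m⁻¹ (vecE hw s))
      = gE c (‖(s : ℂ)‖ ^ 2 * (pS w ω₁ m + pS w ω₂ m)) :=
  gauss_actV416 hw c ω₁ ω₂ m⁻¹ s

theorem isLocalAtInf_one416 (w : InfinitePlace K) : A0.IsLocalAtInf w (1 : A0.G K) :=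
  ⟨fun w' _ => (trivAtInf_iff_hom w' 1).2 (map_one _),
    fun v => (trivAtFin_iff_hom v 1).2 (map_one _)⟩

/-- The amplitude `A(m)`. -/
def ampA (D : KData K) {w : InfinitePlace K} (hw : w.IsComplex) (c ω₁ ω₂ : ℂ) (g₀ m₁ : A0.G K)
    (m : A0.G K) : ℂ :=
  orbI D hw g₀ m₁ 1 m
    * Complex.exp (((2 * Real.pi * ‖c‖ * (pS w ω₁ m + pS w ω₂ m) : ℝ)) : ℂ)

/-- **The orbital integrand** is `A(m) exp(-2π|c| |s|² (p(m) + q(m)))`. -/
theorem orbI_eq416 (D : KData K) (hgood : D.Good) {w : InfinitePlace K} (hw : w.IsComplex)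
    {c ω₁ ω₂ : ℂ} (hc : CpxAt D w c ω₁ ω₂) {g₀ m₁ : A0.G K} (hg₀ : A0.TrivAtInf w g₀)
    (hm₁ : A0.TrivAtInf w m₁) (hadm : Adm D.t D.n g₀ m₁) {m : A0.G K}
    (hm : InTorus1 D.t D.n m) (s : ℂˣ) :
    orbI D hw g₀ m₁ s m
      = ampA D hw c ω₁ ω₂ g₀ m₁ m * gE c (‖(s : ℂ)‖ ^ 2 * (pS w ω₁ m + pS w ω₂ m)) := by
  have key := orbI_rel416 D hgood hw hc hg₀ hm₁ hadm hm (inTorus1_one416 D.t D.n)
    (isLocalAtInf_one416 w) s 1
  rw [one_mul, hgood.torus.one, mul_one, gauss_inv416, gauss_inv416] at key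
  have h1 : ‖((1 : ℂˣ) : ℂ)‖ ^ 2 * (pS w ω₁ m + pS w ω₂ m) = pS w ω₁ m + pS w ω₂ m := by
    simp
  rw [h1] at key
  have hE := gE_mul_exp c (pS w ω₁ m + pS w ω₂ m)
  unfold ampA
  linear_combination
    (Complex.exp (((2 * Real.pi * ‖c‖ * (pS w ω₁ m + pS w ω₂ m) : ℝ)) : ℂ)) * key
      - orbI D hw g₀ m₁ s m * hE

/-- **The orbital integrand at a rotated point.** -/
theorem orbI_rot416 (D : KData K) (hgood : D.Good) {w : InfinitePlace K} (hw : w.IsComplex)
    {c ω₁ ω₂ : ℂ} (hs : ω₁ + ω₂ = w.embedding D.t) (hp : ω₁ * ω₂ = w.embedding D.n)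
    (hne : ω₁ ≠ ω₂) (hc : CpxAt D w c ω₁ ω₂) {g₀ m₁ : A0.G K} (hg₀ : A0.TrivAtInf w g₀)
    (hm₁ : A0.TrivAtInf w m₁) (hadm : Adm D.t D.n g₀ m₁) {r : ℝ} (hr : 0 < r) :
    ∃ m' : A0.G K, InTorus1 D.t D.n m' ∧ ∀ (s : ℂˣ) (m : A0.G K), InTorus1 D.t D.n m →
      orbI D hw g₀ m₁ s (m' * m)
        = ampA D hw c ω₁ ω₂ g₀ m₁ m
          * gE c (‖(s : ℂ)‖ ^ 2 * (r⁻¹ ^ 2 * pS w ω₁ m + r ^ 2 * pS w ω₂ m)) := by
  obtain ⟨m', hm', hloc, hχ, hl1, hl2⟩ := exists_rot416 hgood.torus hw hs hp hne hr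
  have hω := sq_root416 hs hp
  have hp1 : pS w ω₁ m' = r⁻¹ ^ 2 := by
    unfold pS
    rw [hl1, Complex.norm_real, Real.norm_eq_abs, sq_abs]
  have hp2 : pS w ω₂ m' = r ^ 2 := by
    unfold pS
    rw [hl2, Complex.norm_real, Real.norm_eq_abs, sq_abs]
  refine ⟨m', hm', fun s m hm => ?_⟩
  have key := orbI_rel416 D hgood hw hc hg₀ hm₁ hadm hm hm' hloc s 1
  rw [hχ, mul_one, gauss_inv416, gauss_inv416, pS_mul416 hω.1 hm.1 hm'.1,
    pS_mul416 hω.2 hm.1 hm'.1, hp1, hp2] at key
  have h1 : ‖((1 : ℂˣ) : ℂ)‖ ^ 2 * (pS w ω₁ m + pS w ω₂ m) = pS w ω₁ m + pS w ω₂ m := by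
    simp
  rw [h1] at key
  have hE := gE_mul_exp c (pS w ω₁ m + pS w ω₂ m)
  unfold ampA
  linear_combination
    (Complex.exp (((2 * Real.pi * ‖c‖ * (pS w ω₁ m + pS w ω₂ m) : ℝ)) : ℂ)) * key
      - orbI D hw g₀ m₁ s (m' * m) * hE

end Fermat.Agent.LT.A2.H416
end

end
-- ===== PACK-END LT/A2/H416/Shape.lean

-- ===== PACK-BEGIN LT/A2/H416/Orbital.lean
section


/-!
# Row LT, tower A2, leaf A2.03.7 WHIT-MEAN (helper416): the orbital integral at a complex place

OFF-MAIN.
* `intT_translate416`: translation invariance of the integral over `T¹(𝔸_K)` (`IsMeasured.inv`);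
* `integrableOn_orbI416`: integrability of the orbital integrand (`orb_dom`, `diagA`);
* `bessel_orbital416`: from `BesselInvC`, the orbital integral
  `J(y) = ∫_{T¹} F g₀ (m m₁) (√y e₁) χT(m m₁) dμT(m)` is twice differentiable on `y > 0` and
  satisfies `y J'' + J' - 4 (2π|c|)² y J = 0`.
-/

set_option autoImplicit false
set_option linter.unusedSectionVars false
set_option linter.style.haveILetI false
open IsDedekindDomain NumberField AutomorphicForm MeasureTheory
open scoped MatrixGroups Topology Classical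
noncomputable section
namespace Fermat.Agent.LT.A2.H416
open Fermat.Agent.LT.H130 Fermat.Agent.LT.H556 Fermat.Agent.LT.A2 Fermat.Agent.LT.H470
open Fermat.Agent.LT.T8.H864 Fermat.Agent.LT.H556.T0 Fermat.Agent.LT.A2.H971

variable {K : Type} [Field K] [NumberField K]

/-! ## Translation invariance of the torus integral -/

theorem map_mulLeft_μT416 (D : KData K) (hgood : D.Good) {m' : A0.G K}
    (hm' : InTorus1 D.t D.n m') :
    @Measure.map (A0.G K) (A0.G K) (borel (A0.G K)) (borel (A0.G K)) (fun m => m' * m) D.μT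
      = D.μT := by
  letI : MeasurableSpace (A0.G K) := borel (A0.G K)
  haveI : BorelSpace (A0.G K) := ⟨rfl⟩
  have hmeas : Measurable fun m : A0.G K => m' * m := (continuous_const.mul continuous_id).measurable
  refine Measure.ext fun S hS => ?_
  rw [Measure.map_apply hmeas hS]
  have hpre : (fun m : A0.G K => m' * m) ⁻¹' S = (fun m : A0.G K => m'⁻¹ * m) '' S := by
    ext x
    constructor
    · intro hx
      exact ⟨m' * x, hx, by simp⟩
    · rintro ⟨y, hy, rfl⟩
      show m' * (m'⁻¹ * y) ∈ S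
      rw [mul_inv_cancel_left]
      exact hy
  rw [hpre]
  exact hgood.measured.inv m'⁻¹ (inTorus1_inv416 hm') S

/-- **Translation invariance** of the integral over `T¹(𝔸_K)`. -/
theorem intT_translate416 (D : KData K) (hgood : D.Good) {m' : A0.G K}
    (hm' : InTorus1 D.t D.n m') (f : A0.G K → ℂ) :
    D.intT {m | InTorus1 D.t D.n m} (fun m => f (m' * m))
      = D.intT {m | InTorus1 D.t D.n m} f := by
  letI : MeasurableSpace (A0.G K) := borel (A0.G K)
  haveI : BorelSpace (A0.G K) := ⟨rfl⟩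
  have hemb : MeasurableEmbedding fun m : A0.G K => m' * m :=
    (Homeomorph.mulLeft m').measurableEmbedding
  have hpre : (fun m : A0.G K => m' * m) ⁻¹' {m | InTorus1 D.t D.n m}
      = {m | InTorus1 D.t D.n m} := by
    ext x
    constructor
    · intro hx
      have h := inTorus1_mul416 (inTorus1_inv416 hm') hx
      rwa [inv_mul_cancel_left] at h
    · intro hx
      exact inTorus1_mul416 hm' hx
  have h := hemb.setIntegral_map (μ := D.μT) f {m | InTorus1 D.t D.n m}
  rw [map_mulLeft_μT416 D hgood hm', hpre] at h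
  exact h.symm


/-! ## Measurability and integrability of the orbital integrand -/

theorem continuousOn_orbI416 (D : KData K) (hgood : D.Good) {w : InfinitePlace K}
    (hw : w.IsComplex) {g₀ m₁ : A0.G K} (hadm : Adm D.t D.n g₀ m₁) (s : ℂˣ) :
    ContinuousOn (orbI D hw g₀ m₁ s) {m | InTorus1 D.t D.n m} := by
  have hcp := hgood.regular.cont_pair (vecE hw s)
  have hχc := hgood.torus.cont
  have hF1 : ContinuousOn (fun m : A0.G K => D.F g₀ (m * m₁) (vecE hw s))
      {m | InTorus1 D.t D.n m} := by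
    have hmap : Set.MapsTo (fun m : A0.G K => ((g₀, m * m₁) : A0.G K × A0.G K))
        {m | InTorus1 D.t D.n m} {q : A0.G K × A0.G K | Adm D.t D.n q.1 q.2} :=
      fun m hm => adm_torus1_mul971 hm hadm
    have hcont : Continuous (fun m : A0.G K => ((g₀, m * m₁) : A0.G K × A0.G K)) :=
      continuous_const.prodMk (continuous_id.mul continuous_const)
    exact hcp.comp hcont.continuousOn hmap
  have hχ1 : ContinuousOn (fun m : A0.G K => D.χT (m * m₁)) {m | InTorus1 D.t D.n m} := by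
    have hmap : Set.MapsTo (fun m : A0.G K => m * m₁)
        {m | InTorus1 D.t D.n m} {m | InTorus D.t D.n m} :=
      fun m hm => inTorus_mul971 hm.1 hadm.1
    have hcont : Continuous (fun m : A0.G K => m * m₁) := continuous_id.mul continuous_const
    exact hχc.comp hcont.continuousOn hmap
  exact hF1.mul hχ1

theorem aestronglyMeasurable_orbI416 (D : KData K) (hT1 : T1.T1Out K) (hgood : D.Good)
    {w : InfinitePlace K} (hw : w.IsComplex) {g₀ m₁ : A0.G K} (hadm : Adm D.t D.n g₀ m₁)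
    (s : ℂˣ) :
    @AEStronglyMeasurable (A0.G K) ℂ _ (borel (A0.G K)) (borel (A0.G K)) (orbI D hw g₀ m₁ s)
      (@Measure.restrict (A0.G K) (borel (A0.G K)) D.μT {m | InTorus1 D.t D.n m}) := by
  letI : MeasurableSpace (A0.G K) := borel (A0.G K)
  haveI : BorelSpace (A0.G K) := ⟨rfl⟩
  exact (continuousOn_orbI416 D hgood hw hadm s).aestronglyMeasurable
    (measurableSet_torus1_416 hT1 D.t D.n)

/-- **Integrability** of the orbital integrand on `T¹(𝔸_K)` (`orb_dom`, `diagA`). -/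
theorem integrableOn_orbI416 (D : KData K) (η : (A0.Adl K)ˣ → ℂ) (hT1 : T1.T1Out K)
    (hgood : D.Good) (hstd : WL.IsStd D η) {w : InfinitePlace K} (hw : w.IsComplex)
    {g₀ m₁ : A0.G K} (hadm : Adm D.t D.n g₀ m₁) (s : ℂˣ) :
    @IntegrableOn (A0.G K) ℂ (borel (A0.G K)) _ _ (orbI D hw g₀ m₁ s)
      {m | InTorus1 D.t D.n m} D.μT := by
  letI : MeasurableSpace (A0.G K) := borel (A0.G K)
  haveI : BorelSpace (A0.G K) := ⟨rfl⟩
  have hmeas := measurableSet_torus1_416 hT1 D.t D.n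
  have hdet : Matrix.GeneralLinearGroup.det (locInfComplex hw (dgC s) : A0.G K) = 1 :=
    det_locInfComplex_of_det_one hw (det_dgC s)
  have hadm' : Adm D.t D.n (locInfComplex hw (dgC s) * g₀) m₁ :=
    (adm_mul_left_of_det_one hdet).2 hadm
  obtain ⟨h, hint, hbound⟩ := hstd.orb_dom {((locInfComplex hw (dgC s) * g₀, m₁) :
    A0.G K × A0.G K)} isCompact_singleton
  have hs0 : 0 < ‖(s : ℂ)‖ ^ 2 := pow_pos (norm_pos_iff.2 s.ne_zero) 2
  have hint' : Integrable (fun m => (‖(s : ℂ)‖ ^ 2)⁻¹ * h m)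
      (D.μT.restrict {m | InTorus1 D.t D.n m}) := Integrable.const_mul hint _
  refine Integrable.mono' hint' (aestronglyMeasurable_orbI416 D hT1 hgood hw hadm s) ?_
  refine (ae_restrict_iff' hmeas).2 (Filter.Eventually.of_forall fun m hm => ?_)
  have hb := hbound _ (Set.mem_singleton _) hadm' m hm
  have hd := hstd.diagA _ _ (isDiagSLA_dgC hw s) g₀ (m * m₁) (1, 0) (adm_torus1_mul971 hm hadm)
  rw [quadChar_cIdl hstd.quad hw s, adNorm_cIdl hw s, one_mul] at hd
  have hb' : ‖D.F (locInfComplex hw (dgC s) * g₀) (m * m₁) (1, 0)‖ ≤ h m := hb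
  rw [hd, norm_mul, Complex.norm_real, Real.norm_eq_abs, abs_of_pos hs0] at hb'
  unfold orbI
  rw [norm_mul, norm_torusChar971 hgood.torus (inTorus_mul971 hm.1 hadm.1), mul_one]
  have hv : vecE hw s = (cIdl hw s : A0.Adl K) • ((1 : A0.Adl K), (0 : A0.Adl K)) := rfl
  rw [hv]
  rw [inv_mul_eq_div, le_div_iff₀ hs0, mul_comm]
  exact hb'


/-! ## The Bessel equation of the orbital integral -/

theorem gE_eq416 (c : ℂ) (y u : ℝ) :
    gE c (y * u) = Complex.exp (-((2 * Real.pi * ‖c‖ * y * u : ℝ) : ℂ)) := by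
  unfold gE
  rw [mul_assoc (2 * Real.pi * ‖c‖) y u]

/-- **The orbital integral `J(y)` satisfies the modified Bessel equation**
`y J'' + J' - 4 a² y J = 0`, `a = 2π|c|`. -/
theorem bessel_orbital416 (hB : BesselInvC) (D : KData K) (η : (A0.Adl K)ˣ → ℂ)
    (hT1 : T1.T1Out K) (hgood : D.Good) (hstd : WL.IsStd D η) {w : InfinitePlace K}
    (hw : w.IsComplex) {c ω₁ ω₂ : ℂ} (hc0 : c ≠ 0) (hs : ω₁ + ω₂ = w.embedding D.t)
    (hp : ω₁ * ω₂ = w.embedding D.n) (hne : ω₁ ≠ ω₂) (hc : CpxAt D w c ω₁ ω₂)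
    {g₀ m₁ : A0.G K} (hg₀ : A0.TrivAtInf w g₀) (hm₁ : A0.TrivAtInf w m₁)
    (hadm : Adm D.t D.n g₀ m₁) :
    ∃ J J1 J2 : ℝ → ℂ,
      (∀ (y : ℝ) (hy : 0 < y),
        D.intT {m | InTorus1 D.t D.n m} (orbI D hw g₀ m₁ (sqU y hy)) = J y) ∧
      (∀ y : ℝ, 0 < y → HasDerivAt J (J1 y) y) ∧
      (∀ y : ℝ, 0 < y → HasDerivAt J1 (J2 y) y) ∧
      ∀ y : ℝ, 0 < y →
        (y : ℂ) * J2 y + J1 y - ((4 * (2 * Real.pi * ‖c‖) ^ 2 * y : ℝ) : ℂ) * J y = 0 := by
  letI : MeasurableSpace (A0.G K) := borel (A0.G K)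
  haveI : BorelSpace (A0.G K) := ⟨rfl⟩
  have hmeas := measurableSet_torus1_416 hT1 D.t D.n
  have ha : 0 < 2 * Real.pi * ‖c‖ := by
    have := norm_pos_iff.2 hc0
    positivity
  -- the shape of the integrand
  have hshape : ∀ (y : ℝ) (hy : 0 < y) (m : A0.G K), InTorus1 D.t D.n m →
      orbI D hw g₀ m₁ (sqU y hy) m = ampA D hw c ω₁ ω₂ g₀ m₁ m
        * Complex.exp (-((2 * Real.pi * ‖c‖ * y * (pS w ω₁ m + pS w ω₂ m) : ℝ) : ℂ)) := by
    intro y hy m hm
    rw [orbI_eq416 D hgood hw hc hg₀ hm₁ hadm hm, norm_sqU_sq, gE_eq416]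
  have hA : AEStronglyMeasurable (ampA D hw c ω₁ ω₂ g₀ m₁)
      (D.μT.restrict {m | InTorus1 D.t D.n m}) := by
    have h1 := aestronglyMeasurable_orbI416 D hT1 hgood hw hadm 1
    have h2 : Continuous fun m : A0.G K =>
        Complex.exp (((2 * Real.pi * ‖c‖ * (pS w ω₁ m + pS w ω₂ m) : ℝ)) : ℂ) :=
      Complex.continuous_exp.comp (Complex.continuous_ofReal.comp
        (continuous_const.mul ((continuous_pS416 w ω₁).add (continuous_pS416 w ω₂))))
    exact h1.mul h2.aestronglyMeasurable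
  have hpm : AEMeasurable (pS w ω₁) (D.μT.restrict {m | InTorus1 D.t D.n m}) :=
    (continuous_pS416 w ω₁).measurable.aemeasurable
  have hqm : AEMeasurable (pS w ω₂) (D.μT.restrict {m | InTorus1 D.t D.n m}) :=
    (continuous_pS416 w ω₂).measurable.aemeasurable
  have hpq : ∀ᵐ m ∂(D.μT.restrict {m | InTorus1 D.t D.n m}),
      0 < pS w ω₁ m ∧ 0 < pS w ω₂ m ∧ pS w ω₁ m * pS w ω₂ m = 1 :=
    (ae_restrict_iff' hmeas).2 (Filter.Eventually.of_forall fun m hm =>
      ⟨(pS_pos_one416 hs hp hm).1, (pS_pos_one416 hs hp hm).2, pS_mul_pS416 hs hp hm⟩)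
  have hint : ∀ y : ℝ, 0 < y → Integrable (fun m => ampA D hw c ω₁ ω₂ g₀ m₁ m
      * Complex.exp (-((2 * Real.pi * ‖c‖ * y * (pS w ω₁ m + pS w ω₂ m) : ℝ) : ℂ)))
      (D.μT.restrict {m | InTorus1 D.t D.n m}) := by
    intro y hy
    have h1 : Integrable (orbI D hw g₀ m₁ (sqU y hy)) (D.μT.restrict {m | InTorus1 D.t D.n m}) :=
      integrableOn_orbI416 D η hT1 hgood hstd hw hadm (sqU y hy)
    refine h1.congr ?_
    exact (ae_restrict_iff' hmeas).2 (Filter.Eventually.of_forall fun m hm => hshape y hy m hm)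
  have hJ : ∀ (y : ℝ) (hy : 0 < y),
      D.intT {m | InTorus1 D.t D.n m} (orbI D hw g₀ m₁ (sqU y hy))
        = ∫ m, ampA D hw c ω₁ ω₂ g₀ m₁ m
          * Complex.exp (-((2 * Real.pi * ‖c‖ * y * (pS w ω₁ m + pS w ω₂ m) : ℝ) : ℂ))
            ∂(D.μT.restrict {m | InTorus1 D.t D.n m}) := by
    intro y hy
    exact setIntegral_congr_fun hmeas (fun m hm => hshape y hy m hm)
  have hinv : ∀ y : ℝ, 0 < y → ∀ r : ℝ, 0 < r →
      ∫ m, ampA D hw c ω₁ ω₂ g₀ m₁ m * Complex.exp (-((2 * Real.pi * ‖c‖ * y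
          * (r⁻¹ ^ 2 * pS w ω₁ m + r ^ 2 * pS w ω₂ m) : ℝ) : ℂ))
            ∂(D.μT.restrict {m | InTorus1 D.t D.n m})
        = ∫ m, ampA D hw c ω₁ ω₂ g₀ m₁ m
          * Complex.exp (-((2 * Real.pi * ‖c‖ * y * (pS w ω₁ m + pS w ω₂ m) : ℝ) : ℂ))
            ∂(D.μT.restrict {m | InTorus1 D.t D.n m}) := by
    intro y hy r hr
    obtain ⟨m', hm', hrot⟩ := orbI_rot416 D hgood hw hs hp hne hc hg₀ hm₁ hadm hr
    rw [← hJ y hy, ← intT_translate416 D hgood hm' (orbI D hw g₀ m₁ (sqU y hy))]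
    refine setIntegral_congr_fun hmeas (fun m hm => ?_)
    show _ = orbI D hw g₀ m₁ (sqU y hy) (m' * m)
    rw [hrot (sqU y hy) m hm, norm_sqU_sq, gE_eq416]
  obtain ⟨J1, J2, h1, h2, h3⟩ := hB (A0.G K) (D.μT.restrict {m | InTorus1 D.t D.n m})
    (2 * Real.pi * ‖c‖) ha (ampA D hw c ω₁ ω₂ g₀ m₁) (pS w ω₁) (pS w ω₂) hA hpm hqm hpq hint hinv
  exact ⟨_, J1, J2, hJ, h1, h2, h3⟩

end Fermat.Agent.LT.A2.H416
end

end
-- ===== PACK-END LT/A2/H416/Orbital.lean

-- ===== PACK-BEGIN LT/A2/H637/Orb.lean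
section


/-!
# Row LT, tower A2, leaf A2.03.1.8 `WX467.OrbC` (helper637)

OFF-MAIN.  `orbC637 : OrbC637`, where `OrbC637` is `WX467.OrbC` WITH the hypothesis
`∀ u : InfinitePlace K, u.IsComplex` (in scope in the top `WX467.weilEx_of_leaves467`), and the
patched top `weilEx_of_leaves637` (VERBATIM conclusion `WL.WeilExC`).

## Why the hypothesis is needed

`WX467.OrbC` is stated for every number field.  `CpxAt` does not force the place to be complex
(at a real place where the form splits the certificate is satisfiable: hyperbolic plane, Gaussian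
of weight `0`), the local family is even in `ξ_u`, and if `χT(-1_u) = -1` the substitution
`m ↦ (-1_u) m` in the orbital integral gives `W = -W`: `ne_zero` fails.  Over a totally complex
field `χT = 1` on the support of `m ↦ F 1 1 (m⁻¹ (1, 0))` (`chi_eq_one637`).

## Proof

* `orb_dom`: `orb_dom637` (unfolding over `DT`; `OrbDom.lean`);
* `ne_zero` at `(g, m_g) = (1, 1)`: on `T¹(𝔸_K)` the integrand is `F 1 1 (m⁻¹ (1, 0)) χT(m)`;
  `F 1 1 ≥ 0` (`FinAt.pos`, the Gaussian), `F 1 1 (1, 0) > 0`; if `F 1 1 (m⁻¹ (1, 0)) ≠ 0` all the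
  finite components of `m` are in the level groups (`FinAt.orb`; almost all factors of the
  product are `1`), hence `χT m = 1`; the integrand is continuous, integrable (`orb_dom`),
  `≥ 0` and `> 0` at `1`: `IsMeasured.open_pos`.

No sorry, nothing assumed.
-/

set_option autoImplicit false
set_option linter.style.haveILetI false

open IsDedekindDomain NumberField AutomorphicForm MeasureTheory
open scoped MatrixGroups Topology ENNReal

noncomputable section

namespace Fermat.Agent.LT.A2.H637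

open Fermat.Agent.LT.H130 Fermat.Agent.LT.H556 Fermat.Agent.LT.A2
open Fermat.Agent.LT.A2.WX467

variable {K : Type} [Field K] [NumberField K]

/-! ## Nonnegative real numbers in `ℂ` -/

/-- `z` is a nonnegative real number. -/
def IsNN637 (z : ℂ) : Prop := 0 ≤ z.re ∧ z.im = 0

theorem isNN_one637 : IsNN637 1 := ⟨by simp, by simp⟩

theorem isNN_mul637 {z w : ℂ} (hz : IsNN637 z) (hw : IsNN637 w) : IsNN637 (z * w) := by
  constructor
  · rw [Complex.mul_re, hz.2, zero_mul, sub_zero]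
    exact mul_nonneg hz.1 hw.1
  · rw [Complex.mul_im, hz.2, hw.2, mul_zero, zero_mul, add_zero]

theorem isNN_eq637 {z : ℂ} (hz : IsNN637 z) : z = ((z.re : ℝ) : ℂ) :=
  Complex.ext (Complex.ofReal_re _).symm (by rw [hz.2, Complex.ofReal_im])

/-! ## The initial vector `F 1 1` -/

theorem F11_eq637 (L : WData K) (ξ : A0.Adl K × A0.Adl K) :
    L.F 1 1 ξ = (∏ u : InfinitePlace K, L.Finf u 1 1 (infVec u ξ)) *
      ∏ᶠ v : HeightOneSpectrum (𝓞 K), L.Ffin v 1 1 (finVec v ξ) := by
  unfold WData.F prodFn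
  simp only [infMat_one637, finComp_one637]

theorem exists_roots637 (s p : ℂ) : ∃ ω₁ ω₂ : ℂ, ω₁ + ω₂ = s ∧ ω₁ * ω₂ = p := by
  obtain ⟨d, hd⟩ := IsAlgClosed.exists_eq_mul_self (s ^ 2 - 4 * p)
  refine ⟨(s + d) / 2, (s - d) / 2, by ring, ?_⟩
  field_simp
  linear_combination hd

theorem Finf_pos637 (L : WData K) (hg : L.IsGood) (u : InfinitePlace K)
    (ξ : u.Completion × u.Completion) : IsNN637 (L.Finf u 1 1 ξ) ∧ L.Finf u 1 1 ξ ≠ 0 := by
  obtain ⟨c, -, -, hgauss⟩ := (hg.cpx u).gauss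
  obtain ⟨ω₁, ω₂, h1, h2⟩ := exists_roots637 (u.embedding L.t) (u.embedding L.n)
  rw [hgauss ω₁ ω₂ h1 h2 ξ, gaussL, ← Complex.ofReal_neg, ← Complex.ofReal_exp]
  exact ⟨⟨by rw [Complex.ofReal_re]; exact (Real.exp_pos _).le, Complex.ofReal_im _⟩,
    Complex.ofReal_ne_zero.mpr (Real.exp_pos _).ne'⟩

theorem F11_nn637 (L : WData K) (hg : L.IsGood) (ξ : A0.Adl K × A0.Adl K) :
    IsNN637 (L.F 1 1 ξ) := by
  rw [F11_eq637]
  refine isNN_mul637 ?_ ?_
  · exact Finset.prod_induction _ IsNN637 (fun _ _ => isNN_mul637) isNN_one637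
      (fun u _ => (Finf_pos637 L hg u _).1)
  · exact finprod_induction IsNN637 isNN_one637 (fun _ _ => isNN_mul637)
      (fun v => (hg.fin v).pos.1 _)

theorem F11_e1_ne637 (L : WData K) (hg : L.IsGood) :
    L.F 1 1 ((1 : A0.Adl K), (0 : A0.Adl K)) ≠ 0 := by
  rw [F11_eq637]
  refine mul_ne_zero ?_ ?_
  · exact Finset.prod_ne_zero_iff.mpr fun u _ => (Finf_pos637 L hg u _).2
  · refine finprod_induction (fun z : ℂ => z ≠ 0) one_ne_zero (fun _ _ => mul_ne_zero)
      (fun v => ?_)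
    exact (hg.fin v).pos.2

/-- If `F 1 1 ξ ≠ 0` every local factor at a finite place is `≠ 0` (almost all factors of the
product are `1`). -/
theorem F11_factor_ne637 (L : WData K) (hg : L.IsGood) (ξ : A0.Adl K × A0.Adl K)
    (h : L.F 1 1 ξ ≠ 0) (v : HeightOneSpectrum (𝓞 K)) : L.Ffin v 1 1 (finVec v ξ) ≠ 0 := by
  intro hv
  apply h
  rw [F11_eq637]
  have hfin : (Function.mulSupport fun v : HeightOneSpectrum (𝓞 K) =>
      L.Ffin v 1 1 (finVec v ξ)).Finite := by
    have h1 : {v : HeightOneSpectrum (𝓞 K) | v.asIdeal ∣ L.π.level}.Finite :=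
      Ideal.finite_factors L.π.level_ne_bot
    have h2 : {v : HeightOneSpectrum (𝓞 K) | ¬ ξ.1.2 v ∈ v.adicCompletionIntegers K}.Finite :=
      Filter.eventually_cofinite.mp (RestrictedProduct.eventually _ _ ξ.1.2)
    have h3 : {v : HeightOneSpectrum (𝓞 K) | ¬ ξ.2.2 v ∈ v.adicCompletionIntegers K}.Finite :=
      Filter.eventually_cofinite.mp (RestrictedProduct.eventually _ _ ξ.2.2)
    refine ((h1.union h2).union h3).subset fun w hw => ?_
    by_contra hcon
    simp only [Set.mem_union, Set.mem_ofPred_eq, not_or, not_not] at hcon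
    obtain ⟨⟨hw1, hw2⟩, hw3⟩ := hcon
    apply hw
    show L.Ffin w 1 1 (finVec w ξ) = 1
    rw [(hg.good w hw1).std, stdFn, if_pos ⟨hw2, hw3⟩]
  rw [finprod_eq_prod _ hfin]
  have hmem : v ∈ hfin.toFinset := by
    rw [Set.Finite.mem_toFinset, Function.mem_mulSupport, hv]
    exact zero_ne_one
  rw [Finset.prod_eq_zero hmem hv, mul_zero]

/-- The vector `m⁻¹ (1, 0)` at the finite place `v`. -/
theorem finVec_actV637 {m : A0.G K} (hdet : Matrix.GeneralLinearGroup.det m = 1)
    (v : HeightOneSpectrum (𝓞 K)) :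
    actL (A0.finComp v m)⁻¹ (1, 0) = finVec v (actV m⁻¹ ((1 : A0.Adl K), (0 : A0.Adl K))) := by
  have hd : (m : Matrix (Fin 2) (Fin 2) (A0.Adl K)).det = 1 := by
    have := congrArg (fun u : (A0.Adl K)ˣ => (u : A0.Adl K)) hdet
    simpa using this
  have hdv : (A0.finComp v m).det = 1 := by
    rw [finComp_eq_map637, ← RingHom.mapMatrix_apply, ← RingHom.map_det, hd, map_one]
  rw [Matrix.inv_def, hdv, Ring.inverse_one, one_smul, Matrix.adjugate_fin_two]
  simp only [actL, actV, finVec, val_inv_of_det_one637 hdet]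
  refine Prod.ext ?_ ?_
  · show A0.finComp v m 1 1 * 1 + -(A0.finComp v m 0 1) * 0
      = ((m : Matrix (Fin 2) (Fin 2) (A0.Adl K)) 1 1).2 v * 1
        + (-(m : Matrix (Fin 2) (Fin 2) (A0.Adl K)) 0 1).2 v * 0
    rw [mul_zero, mul_zero]
    rfl
  · show -(A0.finComp v m 1 0) * 1 + A0.finComp v m 0 0 * 0
      = (-(m : Matrix (Fin 2) (Fin 2) (A0.Adl K)) 1 0).2 v * 1
        + ((m : Matrix (Fin 2) (Fin 2) (A0.Adl K)) 0 0).2 v * 0
    rw [mul_zero, mul_zero]
    rfl

/-- On the support of `m ↦ F 1 1 (m⁻¹ (1, 0))` the finite components are in the level groups. -/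
theorem finComp_mem_Tlev637 (L : WData K) (hg : L.IsGood) {m : A0.G K}
    (hm : InTorus1 L.t L.n m)
    (h : L.F 1 1 (actV m⁻¹ ((1 : A0.Adl K), (0 : A0.Adl K))) ≠ 0)
    (v : HeightOneSpectrum (𝓞 K)) : A0.finComp v m ∈ L.Tlev v := by
  have hv := F11_factor_ne637 L hg _ h v
  obtain ⟨⟨a, b, hab⟩, hdet⟩ := hm
  have hd : (m : Matrix (Fin 2) (Fin 2) (A0.Adl K)).det = 1 := by
    have := congrArg (fun u : (A0.Adl K)ˣ => (u : A0.Adl K)) hdet
    simpa using this
  refine (hg.fin v).orb (A0.finComp v m) ⟨a.2 v, b.2 v, ?_⟩ ?_ ?_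
  · rw [finComp_eq_map637, hab, map_torMat637]
    rfl
  · rw [finComp_eq_map637, ← RingHom.mapMatrix_apply, ← RingHom.map_det, hd, map_one]
  · rw [finVec_actV637 hdet v]
    exact hv

/-! ## The orbital integral at `(1, 1)` -/

theorem continuous_orbit637 :
    Continuous fun m : A0.G K => actV m⁻¹ ((1 : A0.Adl K), (0 : A0.Adl K)) := by
  have hval : Continuous fun m : A0.G K =>
      ((m⁻¹ : A0.G K) : Matrix (Fin 2) (Fin 2) (A0.Adl K)) :=
    Units.continuous_val.comp continuous_inv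
  have hent : ∀ i j : Fin 2, Continuous fun m : A0.G K =>
      ((m⁻¹ : A0.G K) : Matrix (Fin 2) (Fin 2) (A0.Adl K)) i j := fun i j =>
    (continuous_apply j).comp ((continuous_apply i).comp hval)
  unfold actV
  exact ((((hent 0 0).mul continuous_const).add ((hent 0 1).mul continuous_const))).prodMk
    (((hent 1 0).mul continuous_const).add ((hent 1 1).mul continuous_const))

theorem actV_one637 :
    actV (1 : A0.G K)⁻¹ ((1 : A0.Adl K), (0 : A0.Adl K)) = ((1 : A0.Adl K), (0 : A0.Adl K)) := by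
  simp [actV]

/-- **`ne_zero`** over a totally complex field. -/
theorem ne_zero637 (L : WData K) (hcpx : ∀ u : InfinitePlace K, u.IsComplex) (hg : L.IsGood)
    (htor1 : ∀ m' : A0.G K, InTorus1 L.t L.n m' →
      ∀ (g m : A0.G K) (ξ : A0.Adl K × A0.Adl K), Adm L.t L.n g m →
        L.F g (m' * m) ξ = L.F g m (actV m'⁻¹ ξ))
    (hreg : L.toKData.IsRegular) :
    ∃ g mg : A0.G K, Adm L.toKData.t L.toKData.n g mg ∧
      L.toKData.intT {m | InTorus1 L.toKData.t L.toKData.n m}
        (fun m => L.toKData.F g (m * mg) (1, 0) * L.toKData.χT (m * mg)) ≠ 0 := by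
  letI : MeasurableSpace (A0.G K) := borel (A0.G K)
  haveI : BorelSpace (A0.G K) := ⟨rfl⟩
  have hM : L.toKData.IsMeasured := hg.measured
  have adm11 : Adm L.t L.n (1 : A0.G K) 1 := ⟨inTorus_one637 _ _, rfl⟩
  refine ⟨1, 1, adm11, ?_⟩
  have hΦc : Continuous (L.F 1 1) := hreg.cont 1 1 adm11
  set φ : A0.G K → ℝ := fun m => (L.F 1 1 (actV m⁻¹ ((1 : A0.Adl K), (0 : A0.Adl K)))).re
    with hφ
  have hφc : Continuous φ := Complex.continuous_re.comp (hΦc.comp continuous_orbit637)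
  have hφ0 : ∀ m, 0 ≤ φ m := fun m => (F11_nn637 L hg _).1
  have hF : ∀ m : A0.G K, InTorus1 L.t L.n m →
      L.F 1 (m * 1) (1, 0) = ((φ m : ℝ) : ℂ) := by
    intro m hm
    rw [htor1 m hm 1 1 (1, 0) adm11]
    exact isNN_eq637 (F11_nn637 L hg _)
  have hkey : ∀ m : A0.G K, InTorus1 L.t L.n m →
      L.F 1 (m * 1) (1, 0) * L.χT (m * 1) = ((φ m : ℝ) : ℂ) := by
    intro m hm
    by_cases h0 : L.F 1 1 (actV m⁻¹ ((1 : A0.Adl K), (0 : A0.Adl K))) = 0
    · have hz : φ m = 0 := by rw [hφ]; simp only; rw [h0, Complex.zero_re]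
      rw [hF m hm, hz, Complex.ofReal_zero, zero_mul]
    · have hχ1 : L.χT m = 1 :=
        chi_eq_one637 hg.torus hcpx L.Tlev
          (fun v κ h1 h2 => (hg.fin v).chi_triv κ h1 h2) hm.1
          (fun v => finComp_mem_Tlev637 L hg hm h0 v)
      rw [hF m hm, mul_one, hχ1, mul_one]
  obtain ⟨h, hint, hbound⟩ :=
    orb_dom637 L.toKData hM hreg htor1 {((1 : A0.G K), (1 : A0.G K))} isCompact_singleton
  have hae : ∀ᵐ m ∂L.μT, InTorus1 L.t L.n m := by
    rw [ae_iff]
    exact hM.carried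
  have hres : L.μT.restrict {m | InTorus1 L.t L.n m} = L.μT :=
    Measure.restrict_eq_self_of_ae_mem hae
  have hint' : Integrable h L.μT := by
    have h1 : Integrable h (L.μT.restrict {m | InTorus1 L.t L.n m}) := hint
    rwa [hres] at h1
  have hφint : Integrable φ L.μT := by
    refine hint'.mono' hφc.aestronglyMeasurable ?_
    filter_upwards [hae] with m hm
    have h1 := hbound ((1 : A0.G K), (1 : A0.G K)) rfl adm11 m hm
    have h2 : ‖L.F 1 (m * 1) (1, 0)‖ = ‖φ m‖ := by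
      rw [hF m hm, Complex.norm_real]
    rw [← h2]
    exact h1
  have hpos : 0 < ∫ m, φ m ∂L.μT := by
    rw [integral_pos_iff_support_of_nonneg_ae (Filter.Eventually.of_forall hφ0) hφint]
    have hopen : IsOpen (Function.support φ) := hφc.isOpen_support
    refine hM.open_pos _ hopen ⟨1, ?_, inTorus1_one637 _ _⟩
    rw [Function.mem_support]
    intro hz
    have hnn := F11_nn637 L hg ((1 : A0.Adl K), (0 : A0.Adl K))
    apply F11_e1_ne637 L hg
    rw [isNN_eq637 hnn]
    have hz' : (L.F 1 1 ((1 : A0.Adl K), (0 : A0.Adl K))).re = 0 := by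
      have := hz
      rw [hφ] at this
      simp only at this
      rwa [actV_one637] at this
    rw [hz', Complex.ofReal_zero]
  have heq : ∫ m, L.F 1 (m * 1) (1, 0) * L.χT (m * 1) ∂L.μT
      = ((∫ m, φ m ∂L.μT : ℝ) : ℂ) := by
    have h1 : ∫ m, L.F 1 (m * 1) (1, 0) * L.χT (m * 1) ∂L.μT
        = ∫ m, ((φ m : ℝ) : ℂ) ∂L.μT := by
      refine integral_congr_ae ?_
      filter_upwards [hae] with m hm
      exact hkey m hm
    rw [h1]
    exact integral_ofReal
  show (∫ m in {m | InTorus1 L.t L.n m}, L.F 1 (m * 1) (1, 0) * L.χT (m * 1) ∂L.μT) ≠ 0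
  rw [hres, heq]
  exact Complex.ofReal_ne_zero.mpr hpos.ne'

/-! ## The leaf -/

/-- **A2.03.1.8 ORB**, with the hypothesis that the base field is totally complex. -/
def OrbC637 : Prop :=
  ∀ (K : Type) [Field K] [NumberField K] (L : WData K),
    (∀ u : InfinitePlace K, u.IsComplex) →
    T1.T1Out K → L.IsGood → BorelOut L.toKData L.η → L.toKData.IsRegular →
    DecayOut L.toKData → OrbOut L.toKData

/-- **A2.03.1.8 ORB (PROVED).** -/
theorem orbC637 : OrbC637 := fun _ _ _ L hcpx _ hg hB hreg _ =>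
  { orb_dom := orb_dom637 L.toKData hg.measured hreg hB.tor1
    ne_zero := ne_zero637 L hcpx hg hB.tor1 hreg }

/-- `WX467.OrbC` implies `OrbC637` (the frozen leaf is stronger). -/
theorem orbC637_of_orbC (h : WX467.OrbC) : OrbC637 :=
  fun K _ _ L _ hT hg hB hreg hdec => h K L hT hg hB hreg hdec

/-- **The top of the station `WL.WeilExC`**, with `OrbC637` in place of `WX467.OrbC`
(the proof of `WX467.weilEx_of_leaves467`, VERBATIM except for the use of `hcpx`). -/
theorem weilEx_of_leaves637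
    (hT1 : ∀ (K : Type) [Field K] [NumberField K], T1.T1Out K) (hP : Poisson2C)
    (hData : DataC) (hBorel : BorelC) (hReg : RegC) (hWeyl : WeylC) (hRat : RatC)
    (hRInv : RightInvC) (hStd : StdLocC) (hOrb : OrbC637) : WL.WeilExC := by
  intro K _ _ t n χT hχ hcpx 𝔡 h𝔡
  obtain ⟨L, ht, hn, hχT, hlev, hgood⟩ := hData K t n χT (hT1 K) hχ hcpx 𝔡 h𝔡
  have hB := hBorel K L (hT1 K) hgood
  obtain ⟨hreg, hdecay⟩ := hReg K L (hT1 K) hgood
  have hW := hWeyl hP K L (hT1 K) hgood hB hreg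
  have hR := hRat K L.toKData L.η (hT1 K) hB hW
  obtain ⟨hri, hinv⟩ := hRInv K L (hT1 K) hgood hB
  have hS := hStd K L (hT1 K) hgood
  have hO := hOrb K L hcpx (hT1 K) hgood hB hreg hdecay
  have hind : InducedDataT t n χT L.toKData.π := by
    have h := hgood.induced
    rw [ht, hn, hχT] at h
    exact h
  refine ⟨L.toKData, L.η, ht, hn, hχT, hlev, ?_, hind, ?_⟩
  · exact
      { torus := hgood.torus
        char := hgood.char
        measured := hgood.measured
        weil :=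
          { unip := hB.unip
            weyl := hW.weyl
            diagK := hR.diagK
            torK := hR.torK
            tor1 := hB.tor1 }
        regular := hreg
        right_inv := hri }
  · exact
      { quad :=
          { mul := hB.eta_mul
            sq := hB.eta_sq
            cont := hB.eta_cont
            rat := hW.rat
            norm := hB.eta_norm }
        diagA := hB.diagA
        torA := hB.torA
        good_int := fun v hv => (hgood.good v hv).good_int
        good_char := fun v hv => (hgood.good v hv).good_char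
        good_norm := fun v hv => (hgood.good v hv).good_norm
        good_eta := fun v hv => (hgood.good v hv).good_eta
        good_psi := fun v hv => (hgood.good v hv).good_psi
        good_std := hS.good_std
        good_inv := hinv.good_inv
        cpx := hS.cpx
        cpx_inv := hinv.cpx_inv
        decay := hdecay
        orb_dom := hO.orb_dom
        ne_zero := hO.ne_zero }

/-- The top with the station Props of the other leaves and only the output of this file:
`WL.WeilExC` from the seven other leaves (ORB is discharged). -/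
theorem weilEx_of_seven637
    (hT1 : ∀ (K : Type) [Field K] [NumberField K], T1.T1Out K) (hP : Poisson2C)
    (hData : DataC) (hBorel : BorelC) (hReg : RegC) (hWeyl : WeylC) (hRat : RatC)
    (hRInv : RightInvC) (hStd : StdLocC) : WL.WeilExC :=
  weilEx_of_leaves637 hT1 hP hData hBorel hReg hWeyl hRat hRInv hStd orbC637

end Fermat.Agent.LT.A2.H637

end

end
-- ===== PACK-END LT/A2/H637/Orb.lean

-- ===== PACK-BEGIN LT/A2/H965/Cent.lean
section



/-!
# Row LT, tower A2, leaf A2.03.8.3 `H142.CentC` (helper965), part 5: THE LEAF — OFF-MAIN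

`centC965 : H142.CentC` — the central character of the Whittaker function at a place
`v ∤ π.level`: `W (g z) = b_v W(g)` for every scalar uniformiser `z` at `v`.

* `W (g z) = η(a) χT(z) W(g)`, `z = diag(a, a)` (`W_scalar965`);
* INERT: `η(a) = -1` (`good_eta`), `b = -χT(z)` (`InducedAtT`);
* SPLIT: `m₁ ∈ T(K_v)` integral with `det m₁` a uniformiser; `m₂ = z m₁⁻¹` is integral with
  determinant a uniformiser and `m₁⁻¹ m₂` is not integral (`CentLoc`, unit discriminant), so
  `b = χT(m₁) χT(m₂) = χT(z)`; and `η(a) = η(det m₁) η(unit) = 1` (`quad.norm`, `good_eta`).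
-/

set_option autoImplicit false

open IsDedekindDomain NumberField AutomorphicForm MeasureTheory
open scoped MatrixGroups

noncomputable section

namespace Fermat.Agent.LT.A2.H965

open Fermat.Agent.LT.H556 Fermat.Agent.LT.H556.A0 Fermat.Agent.LT.H129 Fermat.Agent.LT.A2

variable {K : Type} [Field K] [NumberField K]

/-! ## Components -/

theorem evF_algebraMap965 (v : HeightOneSpectrum (𝓞 K)) (x : K) :
    evF129 v (algebraMap K (Adl K) x) = algebraMap K (v.adicCompletion K) x := rfl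

/-- The component at `v` of a torus element. -/
theorem finComp_torus965 (v : HeightOneSpectrum (𝓞 K)) {t n : K} {m : G K} {a b : Adl K}
    (hm : (m : Matrix (Fin 2) (Fin 2) (Adl K))
      = torMat (algebraMap K (Adl K) t) (algebraMap K (Adl K) n) a b) :
    ((finCompHom129 v m : GL (Fin 2) (v.adicCompletion K)) :
      Matrix (Fin 2) (Fin 2) (v.adicCompletion K))
      = torMat (algebraMap K (v.adicCompletion K) t) (algebraMap K (v.adicCompletion K) n)
          (evF129 v a) (evF129 v b) := by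
  rw [coe_finCompHom129_map, hm, torMat_map965, evF_algebraMap965, evF_algebraMap965]

/-- The component at `v` of a scalar matrix. -/
theorem finComp_diagonal965 (v : HeightOneSpectrum (𝓞 K)) {z : G K} {a : Adl K}
    (hz : (z : Matrix (Fin 2) (Fin 2) (Adl K)) = Matrix.diagonal (fun _ => a)) :
    ((finCompHom129 v z : GL (Fin 2) (v.adicCompletion K)) :
      Matrix (Fin 2) (Fin 2) (v.adicCompletion K))
      = Matrix.diagonal (fun _ => evF129 v a) := by
  rw [coe_finCompHom129_map, hz, Matrix.diagonal_map (map_zero _)]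

/-- The components of the determinant. -/
theorem det_fin965 (v : HeightOneSpectrum (𝓞 K)) (m : G K) :
    ((Matrix.GeneralLinearGroup.det m : (Adl K)ˣ) : Adl K).2 v
      = ((finCompHom129 v m : GL (Fin 2) (v.adicCompletion K)) :
          Matrix (Fin 2) (Fin 2) (v.adicCompletion K)).det := by
  rw [Matrix.GeneralLinearGroup.val_det_apply, ← evF129_apply, RingHom.map_det,
    RingHom.mapMatrix_apply, coe_finCompHom129_map]

theorem det_inf965 (w : InfinitePlace K) (m : G K) :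
    ((Matrix.GeneralLinearGroup.det m : (Adl K)ˣ) : Adl K).1 w
      = ((infCompHom129 w m : GL (Fin 2) w.Completion) :
          Matrix (Fin 2) (Fin 2) w.Completion).det := by
  rw [Matrix.GeneralLinearGroup.val_det_apply, ← evI129_apply, RingHom.map_det,
    RingHom.mapMatrix_apply, coe_infCompHom129_map]

/-- The determinant of an element supported at `v` is an idele supported at `v`. -/
theorem isIdeleAt_det965 {v : HeightOneSpectrum (𝓞 K)} {m : G K} (hm : IsLocalAtFin v m) :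
    IsIdeleAt v (Matrix.GeneralLinearGroup.det m) := by
  rw [isLocalAtFin_iff129] at hm
  refine ⟨fun w => ?_, fun v' h => ?_⟩
  · rw [det_inf965, hm.1 w, Matrix.GeneralLinearGroup.coe_one, Matrix.det_one]
  · rw [det_fin965, hm.2 v' h, Matrix.GeneralLinearGroup.coe_one, Matrix.det_one]

theorem idele_inv_inf965 {a : (Adl K)ˣ} {w : InfinitePlace K} (h : (a : Adl K).1 w = 1) :
    ((a⁻¹ : (Adl K)ˣ) : Adl K).1 w = 1 := by
  have h1 : (a : Adl K) * ((a⁻¹ : (Adl K)ˣ) : Adl K) = 1 := Units.mul_inv a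
  have h2 := congrArg (evI129 w) h1
  rw [map_mul, map_one, evI129_apply, evI129_apply, h, one_mul] at h2
  exact h2

theorem idele_inv_fin965 {a : (Adl K)ˣ} {v : HeightOneSpectrum (𝓞 K)} (h : (a : Adl K).2 v = 1) :
    ((a⁻¹ : (Adl K)ˣ) : Adl K).2 v = 1 := by
  have h1 : (a : Adl K) * ((a⁻¹ : (Adl K)ˣ) : Adl K) = 1 := Units.mul_inv a
  have h2 := congrArg (evF129 v) h1
  rw [map_mul, map_one, evF129_apply, evF129_apply, h, one_mul] at h2
  exact h2

theorem idele_inv_val965 (a : (Adl K)ˣ) (v : HeightOneSpectrum (𝓞 K)) :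
    Valued.v (((a⁻¹ : (Adl K)ˣ) : Adl K).2 v) = (Valued.v ((a : Adl K).2 v))⁻¹ := by
  have h1 : ((a⁻¹ : (Adl K)ˣ) : Adl K) * (a : Adl K) = 1 := Units.inv_mul a
  have h2 := congrArg (evF129 v) h1
  rw [map_mul, map_one, evF129_apply, evF129_apply] at h2
  have h3 := congrArg Valued.v h2
  rw [map_mul, map_one] at h3
  exact eq_inv_of_mul_eq_one_left h3

theorem idele_mul_inf965 (a b : (Adl K)ˣ) (w : InfinitePlace K) :
    ((a * b : (Adl K)ˣ) : Adl K).1 w = (a : Adl K).1 w * (b : Adl K).1 w := rfl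

theorem idele_mul_fin965 (a b : (Adl K)ˣ) (v : HeightOneSpectrum (𝓞 K)) :
    ((a * b : (Adl K)ˣ) : Adl K).2 v = (a : Adl K).2 v * (b : Adl K).2 v := rfl

/-- `det(m) a⁻¹` is a unit idele at `v` if `det m` and `a` are uniformisers at `v`. -/
theorem isUnitIdeleAt_det_mul_inv965 {v : HeightOneSpectrum (𝓞 K)} {m : G K} {a : (Adl K)ˣ}
    (hm : IsLocalAtFin v m)
    (hdet : Valued.v (finComp v m).det = WithZero.exp (-1 : ℤ)) (ha : IsUnifIdeleAt v a) :
    IsUnitIdeleAt v (Matrix.GeneralLinearGroup.det m * a⁻¹) := by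
  have hδ := isIdeleAt_det965 hm
  refine ⟨⟨fun w => ?_, fun v' h => ?_⟩, ?_⟩
  · rw [idele_mul_inf965, hδ.1 w, idele_inv_inf965 (ha.1.1 w), mul_one]
  · rw [idele_mul_fin965, hδ.2 v' h, idele_inv_fin965 (ha.1.2 v' h), mul_one]
  · rw [idele_mul_fin965, map_mul, idele_inv_val965, ha.2, det_fin965, coe_finCompHom129, hdet,
      mul_inv_cancel₀ WithZero.exp_ne_zero]

/-! ## The leaf -/

/-- **A2.03.8.3 CENT** (`H142.CentC`). -/
theorem centC965 : H142.CentC := by
  intro K _ _ D η W v hctx z hz g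
  obtain ⟨a, haunif, hza⟩ := exists_idele_of_scalarUnif965 hz
  rw [W_scalar965 D η W hctx.good hctx.std hctx.t1.adNorm hctx.whit hza g]
  congr 1
  have hind := hctx.ind v hctx.hv
  have hzT : InTorus D.t D.n z := inTorus_of_diagonal965 D.t D.n hza
  by_cases hin : WL.IsInertAt D.t D.n v
  · rw [(hind.2 hin z hz).2, (hctx.std.good_eta v hctx.hv).2 hin a haunif]
    ring
  · have hsplit : ∃ m₁ : G K, InTorus D.t D.n m₁ ∧ IsLocalAtFin v m₁ ∧ IsIntegralAt v m₁ ∧
        Valued.v (finComp v m₁).det = WithZero.exp (-1 : ℤ) := by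
      by_contra hcon
      exact hin (fun m h1 h2 h3 h4 => hcon ⟨m, h1, h2, h3, h4⟩)
    obtain ⟨m₁, hT, hloc, hint, hdet⟩ := hsplit
    obtain ⟨A, B, hm₁⟩ := hT
    have hT : InTorus D.t D.n m₁ := ⟨A, B, hm₁⟩
    -- local data
    obtain ⟨ht, hn, hdisc⟩ := hctx.std.good_int v hctx.hv
    have edisc : algebraMap K (v.adicCompletion K) (D.t ^ 2 - 4 * D.n)
        = (algebraMap K (v.adicCompletion K) D.t) ^ 2
          - 4 * algebraMap K (v.adicCompletion K) D.n := by
      rw [map_sub, map_pow, map_mul, map_ofNat]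
    have hdisc' : Valued.v ((algebraMap K (v.adicCompletion K) D.t) ^ 2
        - 4 * algebraMap K (v.adicCompletion K) D.n) = 1 := by
      rw [← edisc]
      exact hdisc
    have hM := finComp_torus965 v hm₁
    have hZ := finComp_diagonal965 v hza
    have hc : Valued.v (evF129 v (a : Adl K)) = WithZero.exp (-1 : ℤ) := haunif.2
    have hA : Valued.v (evF129 v A) ≤ 1 := by
      have h := hint 0 0
      rw [← coe_finCompHom129, hM] at h
      exact h
    have hB : Valued.v (evF129 v B) ≤ 1 := by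
      have h := hint 1 0
      rw [← coe_finCompHom129, hM] at h
      exact h
    have hdetM : Valued.v ((finCompHom129 v m₁ : GL (Fin 2) (v.adicCompletion K)) :
        Matrix (Fin 2) (Fin 2) (v.adicCompletion K)).det = WithZero.exp (-1 : ℤ) := hdet
    -- the second element
    set m₂ : G K := z * m₁⁻¹ with hm₂
    have hT₂ : InTorus D.t D.n m₂ := inTorus_mul965 hzT (inTorus_inv965 hT)
    have hloc₂ : IsLocalAtFin v m₂ := isLocalAtFin_mul129 hz.1 (isLocalAtFin_inv129 hloc)
    have hint₂ : IsIntegralAt v m₂ := by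
      intro i j
      rw [← coe_finCompHom129, hm₂, map_mul, map_inv]
      exact split_integral965 Valued.v ht hn hA hB hM hdetM hZ hc i j
    have hdet₂ : Valued.v (finComp v m₂).det = WithZero.exp (-1 : ℤ) := by
      rw [← coe_finCompHom129, hm₂, map_mul, map_inv]
      exact split_det965 Valued.v hdetM hZ hc
    have hnot : ¬ IsIntegralAt v (m₁⁻¹ * m₂) := by
      intro h
      refine split_not_integral965 Valued.v ht hn hA hB hdisc' hM hdetM hZ hc ?_
      intro i j
      have h' := h i j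
      rw [← coe_finCompHom129, hm₂, map_mul, map_mul, map_inv] at h'
      exact h'
    have hb := (hind.1 m₁ m₂ hT hT₂ hloc hloc₂ hint hint₂ hdet hdet₂ hnot).2
    have hzm : m₁ * m₂ = z := by
      rw [hm₂, ← mul_assoc, central_of_diagonal965 hza m₁, mul_assoc, mul_inv_cancel, mul_one]
    have hχ : D.χT z = D.χT m₁ * D.χT m₂ := by
      rw [← hctx.good.torus.mul m₁ m₂ hT hT₂, hzm]
    -- `η(a) = 1`
    have hu : η (Matrix.GeneralLinearGroup.det m₁ * a⁻¹) = 1 :=
      (hctx.std.good_eta v hctx.hv).1 _ (isUnitIdeleAt_det_mul_inv965 hloc hdet haunif)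
    have hδ : η (Matrix.GeneralLinearGroup.det m₁) = 1 := hctx.std.quad.norm m₁ hT
    have hηa : η a = 1 := by
      have e : Matrix.GeneralLinearGroup.det m₁ = (Matrix.GeneralLinearGroup.det m₁ * a⁻¹) * a := by
        rw [inv_mul_cancel_right]
      rw [e, hctx.std.quad.mul, hu, one_mul] at hδ
      exact hδ
    rw [hηa, one_mul, hχ, hb]

end Fermat.Agent.LT.A2.H965

end

end
-- ===== PACK-END LT/A2/H965/Cent.lean

-- ===== PACK-BEGIN LT/CFT/H1/Wall3.lean
section



/-!
# Row LT, tower CFT, sub-tower REC2 (helper1), OFF-MAIN : THE WALL OF REC2, version 3 (PROVED)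

`reciprocityTC3 : HassePrinciple2Spec → ∀ I, ReciprocityTCSpec I`.

Leaves L5' (`L5/Main.lean`) and G6 (`NormPos.lean`) are proved; the ONLY input left is
HP2 `HassePrinciple2Spec` (sub-tower G2: the Hasse principle for the `2`-primary part of the
Brauer group of a totally complex number field).
-/

set_option autoImplicit false

namespace Fermat.Agent.LT.CFT.H1

open Fermat.Agent.S55.G.Rec

/-- **REC2** from the Hasse principle at `2`. -/
theorem reciprocityTC3 (hHP : HassePrinciple2Spec) (I : LocalInvSystem) :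
    ReciprocityTCSpec I :=
  reciprocityTC2 L5.localCycloNormSharp hHP I

end Fermat.Agent.LT.CFT.H1

end
-- ===== PACK-END LT/CFT/H1/Wall3.lean

-- ===== PACK-BEGIN LT/T7/H216/BoxTop.lean
section



/-!
# Row LT, tower T7, LEAF `BoxIntC57` (registry 2058) -- the PROVED top of the cut (helper216)

`boxInt_of_leaves216 : HaarLogC216 → IdeleRayC216 K → NormInvC216 K → NormFinC216 K →
  CalcC216 → BoxFubiniC216 K → T1.T1Out K → BoxIntC57 K`, through the node
`normPush_of_leaves216 : … → T1.T1Out K → NormPushC216 K`.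
-/

set_option autoImplicit false
set_option linter.style.haveILetI false

open AutomorphicForm IsDedekindDomain NumberField Filter Topology MeasureTheory
open scoped ComplexConjugate ENNReal

noncomputable section

namespace Fermat.Agent.LT.T7.H216

open Fermat.Agent.LT.H556 Fermat.Agent.LT.H556.A0 Fermat.Agent.LT.T7 Fermat.Agent.LT.T7.Rigid
open Fermat.Agent.LT.T7.H57

variable {K : Type} [Field K] [NumberField K]

/-- A number field is countable. -/
theorem countable_K216 (K : Type) [Field K] [NumberField K] : Countable K :=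
  (Module.finBasis ℚ K).equivFun.injective.countable

/-- The principal ideles are countable. -/
theorem countable_ratU216 (K : Type) [Field K] [NumberField K] :
    Countable (ratU57 K).range := by
  have := countable_K216 K
  have : Countable Kˣ := (Units.val_injective (α := K)).countable
  have : Countable (Set.range (ratU57 K)) := (Set.countable_range _).to_subtype
  exact this

theorem nrm57_pos216 (hN : Fermat.Agent.LT.T1.AdNormC K) (y : (Adl K)ˣ) : 0 < nrm57 K y :=
  hN.1 y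

theorem continuous_nrm57_216 (hN : Fermat.Agent.LT.T1.AdNormC K) : Continuous (nrm57 K) :=
  hN.2.2.2

/-- **NODE NormPush** from the leaves B.1-B.4. -/
theorem normPush_of_leaves216 (h1 : HaarLogC216) (h2 : IdeleRayC216 K) (h3 : NormInvC216 K)
    (h4 : NormFinC216 K) (hT : Fermat.Agent.LT.T1.T1Out K) : NormPushC216 K := by
  letI : MeasurableSpace (Adl K)ˣ := borel (Adl K)ˣ
  haveI : BorelSpace (Adl K)ˣ := ⟨rfl⟩
  intro τ hτ FX hFXm hFX
  haveI := hτ
  haveI := countable_ratU216 K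
  have hN := hT.adNorm
  have hnc : Continuous (nrm57 K) := continuous_nrm57_216 hN
  have hnm : Measurable (nrm57 K) := hnc.measurable
  obtain ⟨j, _, hj⟩ := h2
  have hex : ∀ s : ℝ, 0 < s → ∃ y : (Adl K)ˣ, nrm57 K y = s := fun s hs => ⟨j s, hj s hs⟩
  have hinv := h3 hT hex τ hτ FX hFXm hFX
  have hfin := h4 hT ⟨j, ‹_›, hj⟩ τ hτ FX hFXm hFX 1 2 one_pos one_le_two
  -- the measure is carried by `(0, ∞)`
  have h0 : pushN216 K τ FX (Set.Iic 0) = 0 := by
    rw [pushN216, Measure.map_apply hnm measurableSet_Iic]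
    have : nrm57 K ⁻¹' Set.Iic 0 = ∅ := by
      ext y
      simp only [Set.mem_preimage, Set.mem_Iic, Set.mem_empty_iff_false, iff_false, not_le]
      exact nrm57_pos216 hN y
    rw [this, measure_empty]
  -- the measure is not zero
  have hne : pushN216 K τ FX ≠ 0 := by
    intro h
    have h' : pushN216 K τ FX Set.univ = 0 := by rw [h]; rfl
    rw [pushN216, Measure.map_apply hnm MeasurableSet.univ, Set.preimage_univ,
      Measure.restrict_apply MeasurableSet.univ, Set.univ_inter] at h'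
    exact hFX.measure_ne_zero (NeZero.ne τ) h'
  obtain ⟨V₀, hV₀, hm⟩ := h1 (pushN216 K τ FX) h0 hinv hfin hne
  refine ⟨V₀, hV₀, fun f hf => ?_⟩
  have e1 : ∫⁻ y in FX, f (nrm57 K y) ∂τ = ∫⁻ t, f t ∂(pushN216 K τ FX) := by
    rw [pushN216, lintegral_map hf hnm]
  rw [e1, hm, lintegral_smul_measure, dtt216,
    lintegral_withDensity_eq_lintegral_mul _ (by fun_prop) hf]
  rfl

/-- **THE TOP of the cut of `BoxIntC57`.** -/
theorem boxInt_of_leaves216 (h1 : HaarLogC216) (h2 : IdeleRayC216 K) (h3 : NormInvC216 K)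
    (h4 : NormFinC216 K) (h5 : CalcC216) (h6 : BoxFubiniC216 K)
    (hT : Fermat.Agent.LT.T1.T1Out K) : BoxIntC57 K :=
  h6 hT h5 (normPush_of_leaves216 h1 h2 h3 h4 hT)

end Fermat.Agent.LT.T7.H216

end

end
-- ===== PACK-END LT/T7/H216/BoxTop.lean

-- ===== PACK-BEGIN LT/T7/H216/BoxFubini.lean
section



/-!
# Row LT, tower T7, LEAF `BoxIntC57`, sub-leaf B.6 `BoxFubiniC216` (helper216), OFF-MAIN

`boxFubini216 : BoxFubiniC216 K`, i.e. `T1.T1Out K → CalcC216 → NormPushC216 K → BoxIntC57 K`.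

Route: the abstract lemmas `map_restrict_box216` (the projection `(x, y, z) ↦ (x, y)` of the
restriction of `ν × τ × τ` to a box with fibres of constant measure `c` is `c • (ν × τ)|R`),
`lintegral_box216`, `integral_box216` (Tonelli / Fubini); the fibre `{z ∈ FX : 1 ≤ |y| |z|² < 2}`
has measure `V = V₀ log 2 / 2` by `NormPush` and `CalcC216`.
-/

set_option autoImplicit false
set_option linter.style.haveILetI false

open AutomorphicForm IsDedekindDomain NumberField Filter Topology MeasureTheory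
open scoped ComplexConjugate ENNReal

noncomputable section

namespace Fermat.Agent.LT.T7.H216

open Fermat.Agent.LT.H556 Fermat.Agent.LT.H556.A0 Fermat.Agent.LT.T7 Fermat.Agent.LT.T7.Rigid
open Fermat.Agent.LT.T7.H57

/-! ## Abstract measure theory -/

section Abstract

variable {X Y : Type*} [MeasurableSpace X] [MeasurableSpace Y]
  (ν : Measure X) (τ : Measure Y) [SFinite ν] [SFinite τ]

omit [SFinite ν] in
/-- Abstract projection lemma: integrating out a fibre of constant measure. -/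
theorem map_restrict_box216
    (R : Set (X × Y)) (hR : MeasurableSet R) (E : Set (Y × Y)) (hE : MeasurableSet E)
    (c : ℝ≥0∞) (hc : ∀ y : Y, τ (Prod.mk y ⁻¹' E) = c) :
    Measure.map (fun p : X × Y × Y => (p.1, p.2.1))
        ((ν.prod (τ.prod τ)).restrict {p : X × Y × Y | (p.1, p.2.1) ∈ R ∧ (p.2.1, p.2.2) ∈ E})
      = c • (ν.prod τ).restrict R := by
  have hπ : Measurable (fun p : X × Y × Y => (p.1, p.2.1)) :=
    measurable_fst.prodMk (measurable_fst.comp measurable_snd)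
  have hσ : Measurable (fun p : X × Y × Y => (p.2.1, p.2.2)) :=
    (measurable_fst.comp measurable_snd).prodMk (measurable_snd.comp measurable_snd)
  have hbox : MeasurableSet {p : X × Y × Y | (p.1, p.2.1) ∈ R ∧ (p.2.1, p.2.2) ∈ E} :=
    (hπ hR).inter (hσ hE)
  ext S hS
  rw [Measure.map_apply hπ hS, Measure.restrict_apply (hπ hS), Measure.smul_apply,
    Measure.restrict_apply hS, smul_eq_mul]
  set A : Set (X × Y × Y) := (fun p : X × Y × Y => (p.1, p.2.1)) ⁻¹' S ∩
    {p : X × Y × Y | (p.1, p.2.1) ∈ R ∧ (p.2.1, p.2.2) ∈ E} with hA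
  have hAm : MeasurableSet A := (hπ hS).inter hbox
  rw [Measure.prod_apply hAm]
  have h1 : ∀ x : X, (τ.prod τ) (Prod.mk x ⁻¹' A)
      = ∫⁻ y, (S ∩ R).indicator (fun _ => c) (x, y) ∂τ := by
    intro x
    rw [Measure.prod_apply (measurable_prodMk_left hAm)]
    refine lintegral_congr (fun y => ?_)
    by_cases hxy : (x, y) ∈ S ∩ R
    · rw [Set.indicator_of_mem hxy, ← hc y]
      congr 1
      ext z
      simp only [Set.mem_preimage, hA, Set.mem_inter_iff, Set.mem_ofPred_eq]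
      exact ⟨fun h => h.2.2, fun h => ⟨hxy.1, hxy.2, h⟩⟩
    · rw [Set.indicator_of_notMem hxy]
      have : Prod.mk y ⁻¹' (Prod.mk x ⁻¹' A) = ∅ := by
        ext z
        simp only [Set.mem_preimage, hA, Set.mem_inter_iff, Set.mem_ofPred_eq,
          Set.mem_empty_iff_false, iff_false]
        exact fun h => hxy ⟨h.1, h.2.1⟩
      rw [this, measure_empty]
  simp_rw [h1]
  rw [← lintegral_prod _ ((measurable_const.indicator (hS.inter hR)).aemeasurable),
    lintegral_indicator (hS.inter hR), setLIntegral_const]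

/-- Lower integral over a rectangle of a function of the second variable. -/
theorem lintegral_rect216 (D : Set X) (W : Set Y) (g : Y → ℝ≥0∞) (hg : Measurable g) :
    ∫⁻ w in D ×ˢ W, g w.2 ∂(ν.prod τ) = ν D * ∫⁻ y in W, g y ∂τ := by
  have hg' : Measurable fun w : X × Y => g w.2 := hg.comp measurable_snd
  rw [← Measure.prod_restrict, lintegral_prod (fun w : X × Y => g w.2) hg'.aemeasurable]
  show ∫⁻ _ in D, (∫⁻ y in W, g y ∂τ) ∂ν = _
  rw [lintegral_const, Measure.restrict_apply MeasurableSet.univ, Set.univ_inter, mul_comm]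

/-- The lower integral over the box of a function of the middle variable. -/
theorem lintegral_box216
    (D : Set X) (hD : MeasurableSet D) (W : Set Y) (hW : MeasurableSet W)
    (E : Set (Y × Y)) (hE : MeasurableSet E)
    (c : ℝ≥0∞) (hc : ∀ y : Y, τ (Prod.mk y ⁻¹' E) = c) (g : Y → ℝ≥0∞) (hg : Measurable g) :
    ∫⁻ p in {p : X × Y × Y | (p.1, p.2.1) ∈ D ×ˢ W ∧ (p.2.1, p.2.2) ∈ E}, g p.2.1
        ∂(ν.prod (τ.prod τ))
      = c * (ν D * ∫⁻ y in W, g y ∂τ) := by
  have hπ : Measurable (fun p : X × Y × Y => (p.1, p.2.1)) :=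
    measurable_fst.prodMk (measurable_fst.comp measurable_snd)
  have hg' : Measurable fun w : X × Y => g w.2 := hg.comp measurable_snd
  have e : ∫⁻ p in {p : X × Y × Y | (p.1, p.2.1) ∈ D ×ˢ W ∧ (p.2.1, p.2.2) ∈ E}, g p.2.1
        ∂(ν.prod (τ.prod τ))
      = ∫⁻ w, g w.2 ∂(Measure.map (fun p : X × Y × Y => (p.1, p.2.1))
          ((ν.prod (τ.prod τ)).restrict
            {p : X × Y × Y | (p.1, p.2.1) ∈ D ×ˢ W ∧ (p.2.1, p.2.2) ∈ E})) := by
    rw [lintegral_map hg' hπ]
  rw [e, map_restrict_box216 ν τ (D ×ˢ W) (hD.prod hW) E hE c hc, lintegral_smul_measure,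
    lintegral_rect216 ν τ D W g hg, smul_eq_mul]

/-- Fubini on the box for a dominated function of the first two variables. -/
theorem integral_box216
    (D : Set X) (hD : MeasurableSet D) (hDfin : ν D < ⊤) (W : Set Y) (hW : MeasurableSet W)
    (E : Set (Y × Y)) (hE : MeasurableSet E)
    (c : ℝ≥0∞) (hc : ∀ y : Y, τ (Prod.mk y ⁻¹' E) = c)
    (H : X × Y → ℂ) (hH : StronglyMeasurable H) (C : ℝ) (hC : 0 ≤ C) (k : Y → ℝ)
    (hk : Measurable k) (hk0 : ∀ y, 0 ≤ k y) (hbd : ∀ w, ‖H w‖ ≤ C * k w.2)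
    (hfin : ∫⁻ y in W, ENNReal.ofReal (k y) ∂τ < ⊤) :
    ∫ p in {p : X × Y × Y | (p.1, p.2.1) ∈ D ×ˢ W ∧ (p.2.1, p.2.2) ∈ E}, H (p.1, p.2.1)
        ∂(ν.prod (τ.prod τ))
      = c.toReal • ∫ y in W, ∫ x in D, H (x, y) ∂ν ∂τ := by
  have hπ : Measurable (fun p : X × Y × Y => (p.1, p.2.1)) :=
    measurable_fst.prodMk (measurable_fst.comp measurable_snd)
  have e1 : ∫ p in {p : X × Y × Y | (p.1, p.2.1) ∈ D ×ˢ W ∧ (p.2.1, p.2.2) ∈ E},
        H (p.1, p.2.1) ∂(ν.prod (τ.prod τ))
      = ∫ w, H w ∂(Measure.map (fun p : X × Y × Y => (p.1, p.2.1))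
          ((ν.prod (τ.prod τ)).restrict
            {p : X × Y × Y | (p.1, p.2.1) ∈ D ×ˢ W ∧ (p.2.1, p.2.2) ∈ E})) := by
    rw [integral_map hπ.aemeasurable hH.aestronglyMeasurable]
  have hint : Integrable H ((ν.restrict D).prod (τ.restrict W)) := by
    refine Integrable.mono' (g := fun w => C * k w.2) ?_ hH.aestronglyMeasurable
      (Filter.Eventually.of_forall hbd)
    refine ⟨(measurable_const.mul (hk.comp measurable_snd)).aestronglyMeasurable, ?_⟩
    rw [hasFiniteIntegral_iff_ofReal (f := fun w : X × Y => C * k w.2)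
      (Filter.Eventually.of_forall fun w => mul_nonneg hC (hk0 w.2))]
    simp_rw [ENNReal.ofReal_mul hC]
    have hk' : Measurable fun w : X × Y => ENNReal.ofReal (k w.2) :=
      ENNReal.measurable_ofReal.comp (hk.comp measurable_snd)
    rw [lintegral_const_mul (ENNReal.ofReal C) hk', Measure.prod_restrict,
      lintegral_rect216 ν τ D W (fun y => ENNReal.ofReal (k y))
        (ENNReal.measurable_ofReal.comp hk)]
    exact ENNReal.mul_lt_top ENNReal.ofReal_lt_top (ENNReal.mul_lt_top hDfin hfin)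
  rw [e1, map_restrict_box216 ν τ (D ×ˢ W) (hD.prod hW) E hE c hc, integral_smul_measure,
    ← Measure.prod_restrict, integral_prod_symm H hint]


end Abstract

/-! ## Topology of the ideles -/

section Idele

variable {K : Type} [Field K] [NumberField K]

theorem idele_top216 (hLC : Fermat.Agent.LT.T1.LocCompC K) :
    LocallyCompactSpace (Adl K)ˣ ∧ T2Space (Adl K)ˣ ∧ SecondCountableTopology (Adl K)ˣ := by
  obtain ⟨⟨h1, h2, h3⟩, -⟩ := hLC
  haveI := h1
  haveI := h2
  haveI := h3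
  refine ⟨inferInstance, inferInstance, ?_⟩
  have : SecondCountableTopology (Adl K)ᵐᵒᵖ :=
    (MulOpposite.opHomeomorph (M := Adl K)).symm.secondCountableTopology
  exact Units.isEmbedding_embedProduct.secondCountableTopology

theorem continuous_unip216 : Continuous (Fermat.Agent.LT.T3.unip K) := by
  rw [Units.continuous_iff]
  constructor
  · refine continuous_matrix (fun i j => ?_)
    fin_cases i <;> fin_cases j <;> simp [Fermat.Agent.LT.T3.unip] <;> fun_prop
  · refine continuous_matrix (fun i j => ?_)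
    fin_cases i <;> fin_cases j <;> simp [Fermat.Agent.LT.T3.unip] <;> fun_prop

theorem continuous_dgA216 : Continuous (dgA : (Adl K)ˣ → G K) := by
  rw [Units.continuous_iff]
  constructor
  · refine continuous_matrix (fun i j => ?_)
    fin_cases i <;> fin_cases j <;> simp [dgA] <;> fun_prop
  · refine continuous_matrix (fun i j => ?_)
    fin_cases i <;> fin_cases j <;> simp [dgA] <;> fun_prop

/-- The set `{u : 1 ≤ c u² < 2}`. -/
def annu216 (c : ℝ) : Set ℝ := {u : ℝ | 1 ≤ c * u ^ 2 ∧ c * u ^ 2 < 2}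

theorem measurableSet_annu216 (c : ℝ) : MeasurableSet (annu216 c) := by
  unfold annu216
  have h : Measurable fun u : ℝ => c * u ^ 2 := measurable_const.mul (measurable_id.pow_const 2)
  exact (measurableSet_le measurable_const h).inter (measurableSet_lt h measurable_const)

/-- The fibre set `{(y, z) : z ∈ FX, 1 ≤ |y| |z|² < 2}`. -/
def fib216 (K : Type) [Field K] [NumberField K] (FX : Set (Adl K)ˣ) :
    Set ((Adl K)ˣ × (Adl K)ˣ) :=
  {q | q.2 ∈ FX ∧ 1 ≤ nrm57 K q.1 * nrm57 K q.2 ^ 2 ∧ nrm57 K q.1 * nrm57 K q.2 ^ 2 < 2}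

theorem box57_eq216 (D : Set (Adl K)) (FX : Set (Adl K)ˣ) (Y : ℝ) :
    box57 K D FX Y = {p : Adl K × (Adl K)ˣ × (Adl K)ˣ |
      (p.1, p.2.1) ∈ D ×ˢ (FX ∩ halfX57 K Y) ∧ (p.2.1, p.2.2) ∈ fib216 K FX} := by
  ext p
  simp only [box57, fib216, halfX57, Set.mem_ofPred_eq, Set.mem_prod, Set.mem_inter_iff]
  tauto

theorem fib_preimage216 (FX : Set (Adl K)ˣ) (y : (Adl K)ˣ) :
    Prod.mk y ⁻¹' fib216 K FX = FX ∩ nrm57 K ⁻¹' annu216 (nrm57 K y) := rfl

end Idele

/-! ## The leaf -/

section Leaf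

variable {K : Type} [Field K] [NumberField K]

/-- (a): the volume of the half line. -/
theorem half_fin216 {_ : MeasurableSpace (Adl K)ˣ} [BorelSpace (Adl K)ˣ]
    (hN : Fermat.Agent.LT.T1.AdNormC K) (hcalc : CalcC216)
    (τ : Measure (Adl K)ˣ) (FX : Set (Adl K)ˣ) (V₀ : ℝ)
    (hP : ∀ f : ℝ → ℝ≥0∞, Measurable f →
      ∫⁻ y in FX, f (nrm57 K y) ∂τ
        = ENNReal.ofReal V₀ * ∫⁻ t in Set.Ioi (0 : ℝ), ENNReal.ofReal t⁻¹ * f t)
    (Y : ℝ) (hY : 0 < Y) :
    ∫⁻ y in FX ∩ halfX57 K Y, ENNReal.ofReal ((nrm57 K y)⁻¹) ∂τ < ⊤ := by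
  have hnm : Measurable (nrm57 K) := (continuous_nrm57_216 hN).measurable
  have hhalf : MeasurableSet (halfX57 K Y) := measurableSet_le measurable_const hnm
  have hf : Measurable ((Set.Ici Y).indicator (fun u : ℝ => ENNReal.ofReal u⁻¹)) :=
    Measurable.indicator (by fun_prop) measurableSet_Ici
  have e : ∫⁻ y in FX ∩ halfX57 K Y, ENNReal.ofReal ((nrm57 K y)⁻¹) ∂τ
      = ∫⁻ y in FX, (Set.Ici Y).indicator
          (fun u : ℝ => ENNReal.ofReal u⁻¹) (nrm57 K y) ∂τ := by
    rw [Set.inter_comm, ← Measure.restrict_restrict hhalf, ← lintegral_indicator hhalf]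
    refine lintegral_congr (fun y => ?_)
    by_cases hy : y ∈ halfX57 K Y
    · have hy' : nrm57 K y ∈ Set.Ici Y := hy
      rw [Set.indicator_of_mem hy, Set.indicator_of_mem hy']
    · have hy' : nrm57 K y ∉ Set.Ici Y := hy
      rw [Set.indicator_of_notMem hy, Set.indicator_of_notMem hy']
  rw [e, hP _ hf]
  exact ENNReal.mul_lt_top ENNReal.ofReal_lt_top (hcalc.1 Y hY)

/-- The fibres have constant measure `V₀ log 2 / 2`. -/
theorem fib_measure216 {_ : MeasurableSpace (Adl K)ˣ} [BorelSpace (Adl K)ˣ]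
    (hN : Fermat.Agent.LT.T1.AdNormC K) (hcalc : CalcC216)
    (τ : Measure (Adl K)ˣ) (FX : Set (Adl K)ˣ) (V₀ : ℝ) (hV₀ : 0 < V₀)
    (hP : ∀ f : ℝ → ℝ≥0∞, Measurable f →
      ∫⁻ y in FX, f (nrm57 K y) ∂τ
        = ENNReal.ofReal V₀ * ∫⁻ t in Set.Ioi (0 : ℝ), ENNReal.ofReal t⁻¹ * f t)
    (y : (Adl K)ˣ) :
    τ (Prod.mk y ⁻¹' fib216 K FX) = ENNReal.ofReal (V₀ * (Real.log 2 / 2)) := by
  have hnm : Measurable (nrm57 K) := (continuous_nrm57_216 hN).measurable
  have hc : 0 < nrm57 K y := nrm57_pos216 hN y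
  rw [fib_preimage216]
  set c := nrm57 K y
  have hf : Measurable ((annu216 c).indicator (fun _ : ℝ => (1 : ℝ≥0∞))) :=
    measurable_const.indicator (measurableSet_annu216 c)
  have e1 := hP _ hf
  have e2 : ∫⁻ t in Set.Ioi (0 : ℝ), ENNReal.ofReal t⁻¹ *
      (annu216 c).indicator (fun _ : ℝ => (1 : ℝ≥0∞)) t = ENNReal.ofReal (Real.log 2 / 2) :=
    hcalc.2 c hc
  have e3 : ∫⁻ z in FX, (annu216 c).indicator (fun _ : ℝ => (1 : ℝ≥0∞))
      (nrm57 K z) ∂τ = τ (FX ∩ nrm57 K ⁻¹' annu216 c) := by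
    have : (fun z : (Adl K)ˣ => (annu216 c).indicator (fun _ : ℝ => (1 : ℝ≥0∞)) (nrm57 K z))
        = (nrm57 K ⁻¹' annu216 c).indicator (fun _ => (1 : ℝ≥0∞)) := by
      funext z
      by_cases hz : nrm57 K z ∈ annu216 c
      · rw [Set.indicator_of_mem hz, Set.indicator_of_mem (show z ∈ nrm57 K ⁻¹' annu216 c from hz)]
      · rw [Set.indicator_of_notMem hz,
          Set.indicator_of_notMem (show z ∉ nrm57 K ⁻¹' annu216 c from hz)]
    rw [this, lintegral_indicator (hnm (measurableSet_annu216 c)), setLIntegral_const, one_mul,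
      Measure.restrict_apply (hnm (measurableSet_annu216 c)), Set.inter_comm]
  rw [← e3, e1, e2, ENNReal.ofReal_mul hV₀.le]

theorem measurableSet_fib216 {_ : MeasurableSpace (Adl K)ˣ} [BorelSpace (Adl K)ˣ]
    (hN : Fermat.Agent.LT.T1.AdNormC K) (FX : Set (Adl K)ˣ) (hFXm : MeasurableSet FX) :
    MeasurableSet (fib216 K FX) := by
  have hnm : Measurable (nrm57 K) := (continuous_nrm57_216 hN).measurable
  have h1 : Measurable fun q : (Adl K)ˣ × (Adl K)ˣ => nrm57 K q.1 * nrm57 K q.2 ^ 2 :=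
    (hnm.comp measurable_fst).mul ((hnm.comp measurable_snd).pow_const 2)
  exact (measurable_snd hFXm).inter
    ((measurableSet_le measurable_const h1).inter (measurableSet_lt h1 measurable_const))

/-- **B.6.**  The box integral from `NormPush`. -/
theorem boxFubini216 : BoxFubiniC216 K := by
  intro hT hcalc hpush
  letI : MeasurableSpace (Adl K) := borel (Adl K)
  letI : MeasurableSpace (Adl K)ˣ := borel (Adl K)ˣ
  haveI : BorelSpace (Adl K) := ⟨rfl⟩
  haveI : BorelSpace (Adl K)ˣ := ⟨rfl⟩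
  obtain ⟨hLCI, hT2I, hSCI⟩ := idele_top216 hT.locComp
  obtain ⟨⟨hLC, hT2, hSC⟩, -⟩ := hT.locComp
  haveI := hLCI
  haveI := hT2I
  haveI := hSCI
  haveI := hLC
  haveI := hT2
  haveI := hSC
  intro ν D hν hDm hD hDfin τ hτ FX hFXm hFX
  haveI := hν
  haveI := hτ
  haveI : SFinite ν := inferInstance
  haveI : SFinite τ := inferInstance
  have hN := hT.adNorm
  have hnc : Continuous (nrm57 K) := continuous_nrm57_216 hN
  have hnm : Measurable (nrm57 K) := hnc.measurable
  have hpos : ∀ y, 0 < nrm57 K y := nrm57_pos216 hN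
  obtain ⟨V₀, hV₀, hP⟩ := hpush τ hτ FX hFXm hFX
  have hlog : 0 < Real.log 2 / 2 := div_pos (Real.log_pos one_lt_two) two_pos
  have hVpos : 0 < V₀ * (Real.log 2 / 2) := mul_pos hV₀ hlog
  have hhalf : ∀ Y : ℝ, MeasurableSet (halfX57 K Y) := fun Y =>
    measurableSet_le measurable_const hnm
  have ha := half_fin216 hN hcalc τ FX V₀ hP
  have hEc := fib_measure216 hN hcalc τ FX V₀ hV₀ hP
  have hEm := measurableSet_fib216 hN FX hFXm
  have hg : Measurable fun y : (Adl K)ˣ => ENNReal.ofReal ((nrm57 K y)⁻¹) :=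
    ENNReal.measurable_ofReal.comp hnm.inv
  refine ⟨V₀ * (Real.log 2 / 2), hVpos, ha, ?_, ?_⟩
  · intro Y hY
    rw [box57_eq216 D FX Y,
      lintegral_box216 ν τ D hDm (FX ∩ halfX57 K Y) (hFXm.inter (hhalf Y)) (fib216 K FX) hEm
        _ hEc (fun y => ENNReal.ofReal ((nrm57 K y)⁻¹)) hg]
    exact ENNReal.mul_lt_top ENNReal.ofReal_lt_top (ENNReal.mul_lt_top hDfin (ha Y hY))
  · intro Φ hΦc hΦb hΦz Y hY
    obtain ⟨C, hC⟩ := hΦb
    have hC0 : 0 ≤ C := (norm_nonneg _).trans (hC 1)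
    have hHc : Continuous fun w : Adl K × (Adl K)ˣ =>
        Φ (Fermat.Agent.LT.T3.unip K w.1 * dgA w.2) * (((nrm57 K w.2)⁻¹ : ℝ) : ℂ) := by
      refine (hΦc.comp ((continuous_unip216.comp continuous_fst).mul
        (continuous_dgA216.comp continuous_snd))).mul ?_
      exact Complex.continuous_ofReal.comp
        ((hnc.comp continuous_snd).inv₀ (fun w => (hpos w.2).ne'))
    have hpt : ∀ p : Adl K × (Adl K)ˣ × (Adl K)ˣ,
        Φ (iota57 K p) * (((nrm57 K p.2.1)⁻¹ : ℝ) : ℂ)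
          = (fun w : Adl K × (Adl K)ˣ =>
              Φ (Fermat.Agent.LT.T3.unip K w.1 * dgA w.2) * (((nrm57 K w.2)⁻¹ : ℝ) : ℂ))
            (p.1, p.2.1) := by
      intro p
      simp only [iota57]
      rw [hΦz]
    have hbd : ∀ w : Adl K × (Adl K)ˣ,
        ‖(fun w : Adl K × (Adl K)ˣ =>
            Φ (Fermat.Agent.LT.T3.unip K w.1 * dgA w.2) * (((nrm57 K w.2)⁻¹ : ℝ) : ℂ)) w‖
          ≤ C * (fun y : (Adl K)ˣ => (nrm57 K y)⁻¹) w.2 := by
      intro w
      simp only [norm_mul, Complex.norm_real, Real.norm_eq_abs,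
        abs_of_pos (inv_pos.2 (hpos w.2))]
      exact mul_le_mul_of_nonneg_right (hC _) (inv_pos.2 (hpos w.2)).le
    have key := integral_box216 ν τ D hDm hDfin (FX ∩ halfX57 K Y) (hFXm.inter (hhalf Y))
      (fib216 K FX) hEm _ hEc
      (fun w : Adl K × (Adl K)ˣ =>
        Φ (Fermat.Agent.LT.T3.unip K w.1 * dgA w.2) * (((nrm57 K w.2)⁻¹ : ℝ) : ℂ))
      hHc.stronglyMeasurable C hC0 (fun y : (Adl K)ˣ => (nrm57 K y)⁻¹) hnm.inv
      (fun y => (inv_pos.2 (hpos y)).le) hbd (ha Y hY)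
    rw [box57_eq216 D FX Y, integral_congr_ae (Filter.Eventually.of_forall hpt), key,
      ENNReal.toReal_ofReal hVpos.le, Complex.real_smul]
    congr 1
    refine integral_congr_ae (Filter.Eventually.of_forall fun y => ?_)
    simp only
    rw [integral_mul_const]

end Leaf

end Fermat.Agent.LT.T7.H216

end

end
-- ===== PACK-END LT/T7/H216/BoxFubini.lean

-- ===== PACK-BEGIN LT/T7/H420/IdeleRay.lean
section



/-!
# Row LT, tower T7, leaf T7.14.6a-F.6.2 `IdeleRayC216` (helper420), OFF-MAIN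

A continuous section of the idele norm over `(0, ∞)`: the ray
`s ↦ (s^{1/n}, …, s^{1/n}; 1, 1, …)`, `n = [K : ℚ]` (the real number `s^{1/n} = exp(log s / n)` at
every infinite place, `1` at every finite place).  Its module is `∏_w (s^{1/n})^{[K_w : ℝ]} = s`.
The real numbers are embedded in the completion at an infinite place through the extension
embedding (an isometry), so the ray is continuous for the topology of the units of the adele ring.

UNCONDITIONAL.  Mathlib + the spec closure of `LT/T7/H216/BoxSpec.lean` only.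
-/

set_option autoImplicit false

open IsDedekindDomain NumberField

noncomputable section

namespace Fermat.Agent.LT.T7.H420

open Fermat.Agent.LT.H556.A0 Fermat.Agent.LT.T7.H57 Fermat.Agent.LT.T7.H216

variable (K : Type) [Field K] [NumberField K]

open InfinitePlace.Completion in
/-- Every real number is in the image of the extension embedding of an infinite place. -/
theorem exists_extEmb_real420 (w : InfinitePlace K) (t : ℝ) :
    ∃ x : w.Completion, extensionEmbedding w x = (t : ℂ) := by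
  rcases w.isReal_or_isComplex with hw | hw
  · obtain ⟨x, hx⟩ := surjective_extensionEmbeddingOfIsReal hw t
    exact ⟨x, by rw [← extensionEmbeddingOfIsReal_apply hw, hx]⟩
  · exact surjective_extensionEmbedding_of_isComplex hw _

/-- The norm of an element of the completion at an infinite place is the absolute value of its
image under the extension embedding. -/
theorem norm_eq_norm_extEmb420 (w : InfinitePlace K) (x : w.Completion) :
    ‖x‖ = ‖InfinitePlace.Completion.extensionEmbedding w x‖ := by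
  have h := (InfinitePlace.Completion.isometry_extensionEmbedding w).norm_map_of_map_zero
    (map_zero _) x
  exact h.symm

/-- The element of the completion at `w` which is the real number `s`. -/
def realAt420 (w : InfinitePlace K) (s : ℝ) : w.Completion :=
  (exists_extEmb_real420 K w s).choose

theorem extEmb_realAt420 (w : InfinitePlace K) (s : ℝ) :
    InfinitePlace.Completion.extensionEmbedding w (realAt420 K w s) = (s : ℂ) :=
  (exists_extEmb_real420 K w s).choose_spec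

theorem norm_realAt420 (w : InfinitePlace K) (s : ℝ) : ‖realAt420 K w s‖ = |s| := by
  rw [norm_eq_norm_extEmb420, extEmb_realAt420, Complex.norm_real, Real.norm_eq_abs]

theorem realAt_mul420 (w : InfinitePlace K) (s t : ℝ) :
    realAt420 K w s * realAt420 K w t = realAt420 K w (s * t) := by
  apply (InfinitePlace.Completion.extensionEmbedding w).injective
  rw [map_mul, extEmb_realAt420, extEmb_realAt420, extEmb_realAt420]
  push_cast
  rfl

theorem realAt_one420 (w : InfinitePlace K) : realAt420 K w 1 = 1 := by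
  apply (InfinitePlace.Completion.extensionEmbedding w).injective
  rw [extEmb_realAt420, map_one]
  push_cast
  rfl

theorem realAt_sub420 (w : InfinitePlace K) (s t : ℝ) :
    realAt420 K w s - realAt420 K w t = realAt420 K w (s - t) := by
  apply (InfinitePlace.Completion.extensionEmbedding w).injective
  rw [map_sub, extEmb_realAt420, extEmb_realAt420, extEmb_realAt420]
  push_cast
  rfl

/-- The embedding of the real numbers in the completion at an infinite place is an isometry. -/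
theorem isometry_realAt420 (w : InfinitePlace K) : Isometry (realAt420 K w) := by
  refine Isometry.of_dist_eq fun s t => ?_
  rw [dist_eq_norm, realAt_sub420, norm_realAt420, Real.dist_eq]

theorem continuous_realAt420 (w : InfinitePlace K) : Continuous (realAt420 K w) :=
  (isometry_realAt420 K w).continuous

/-- The adele with components `s` at the infinite places and `1` at the finite places. -/
def rayAdele420 (s : ℝ) : Adl K := ((fun w => realAt420 K w s), 1)

theorem rayAdele_mul420 (s t : ℝ) : rayAdele420 K s * rayAdele420 K t = rayAdele420 K (s * t) := by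
  refine Prod.ext ?_ ?_
  · funext w
    exact realAt_mul420 K w s t
  · show (1 : FiniteAdeleRing (𝓞 K) K) * 1 = 1
    rw [one_mul]

theorem rayAdele_one420 : rayAdele420 K 1 = 1 := by
  refine Prod.ext ?_ ?_
  · funext w
    exact realAt_one420 K w
  · rfl

theorem continuous_rayAdele420 : Continuous (rayAdele420 K) := by
  have h1 : Continuous fun s : ℝ => (fun w : InfinitePlace K => realAt420 K w s) :=
    continuous_pi fun w => continuous_realAt420 K w
  exact Continuous.prodMk h1 continuous_const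

/-- The ray idele of parameter `u`: `exp u` at the infinite places, `1` at the finite places. -/
def rayIdele420 (u : ℝ) : (Adl K)ˣ where
  val := rayAdele420 K (Real.exp u)
  inv := rayAdele420 K (Real.exp (-u))
  val_inv := by rw [rayAdele_mul420, ← Real.exp_add, add_neg_cancel, Real.exp_zero, rayAdele_one420]
  inv_val := by rw [rayAdele_mul420, ← Real.exp_add, neg_add_cancel, Real.exp_zero, rayAdele_one420]

theorem continuous_rayIdele420 : Continuous (rayIdele420 K) := by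
  rw [Units.continuous_iff]
  refine ⟨?_, ?_⟩
  · exact (continuous_rayAdele420 K).comp Real.continuous_exp
  · exact (continuous_rayAdele420 K).comp (Real.continuous_exp.comp continuous_neg)

/-- The module of the ray idele. -/
theorem nrm_rayIdele420 (u : ℝ) :
    nrm57 K (rayIdele420 K u) = Real.exp u ^ Module.finrank ℚ K := by
  unfold nrm57 Fermat.Agent.LT.T5.adNorm
  have h1 : ∀ w : InfinitePlace K,
      ‖((rayIdele420 K u : (Adl K)ˣ) : Adl K).1 w‖ = Real.exp u := by
    intro w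
    show ‖realAt420 K w (Real.exp u)‖ = Real.exp u
    rw [norm_realAt420, abs_of_pos (Real.exp_pos u)]
  have h2 : ∀ v : HeightOneSpectrum (𝓞 K),
      ‖((rayIdele420 K u : (Adl K)ˣ) : Adl K).2 v‖ = 1 := by
    intro v
    show ‖(1 : v.adicCompletion K)‖ = 1
    exact norm_one
  simp only [h1, h2, finprod_one, mul_one]
  rw [Finset.prod_pow_eq_pow_sum, InfinitePlace.sum_mult_eq]

/-- **T7.14.6a-F.6.2 `IdeleRayC216`**: a continuous section of the idele norm over `(0, ∞)`. -/
theorem ideleRayC420 : IdeleRayC216 K := by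
  have hn : (Module.finrank ℚ K : ℝ) ≠ 0 := by
    have : 0 < Module.finrank ℚ K := Module.finrank_pos
    exact_mod_cast this.ne'
  refine ⟨fun s => rayIdele420 K (Real.log s / Module.finrank ℚ K), ?_, ?_⟩
  · have h1 : ContinuousOn (fun s : ℝ => Real.log s / Module.finrank ℚ K) (Set.Ioi 0) := by
      refine ContinuousOn.div_const ?_ _
      exact Real.continuousOn_log.mono fun s hs => ne_of_gt hs
    exact (continuous_rayIdele420 K).comp_continuousOn h1
  · intro s hs
    rw [nrm_rayIdele420, ← Real.exp_nat_mul, mul_div_cancel₀ _ hn, Real.exp_log hs]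

end Fermat.Agent.LT.T7.H420

end

end
-- ===== PACK-END LT/T7/H420/IdeleRay.lean

-- ===== PACK-BEGIN LT/T7/H171/Calc.lean
section



/-!
# Row LT, tower T7, leaf T7.14.6a-F.6.5 `CalcC216` (registry 2163) -- CLOSED (helper171)

OFF-MAIN.  `calcC216_171 : H216.CalcC216`, verbatim against
helper216@8929b2109 `LT/T7/H216/BoxSpec.lean` (sha256 760ee146fd99e7ce).
-/

set_option autoImplicit false

namespace Fermat.Agent.LT.T7.H171

/-- **T7.14.6a-F.6.5**: the two one-variable lower integrals. -/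
theorem calcC216_171 : Fermat.Agent.LT.T7.H216.CalcC216 :=
  ⟨calc_tail171, calc_shell171⟩

end Fermat.Agent.LT.T7.H171

end
-- ===== PACK-END LT/T7/H171/Calc.lean

-- ===== PACK-BEGIN LT/T7/H171/NormInv.lean
section


/-!
# Row LT, tower T7, leaf T7.14.6a-F.6.3 `NormInvC216` (registry 2161) -- helper171

OFF-MAIN.  `normInvC216_171 K : H216.NormInvC216 K`, verbatim against
helper216@8929b2109 `LT/T7/H216/BoxSpec.lean` (sha256 760ee146fd99e7ce).

Route: `y₀` of norm `s`; `τ (FX ∩ nrm⁻¹ (s⁻¹ A)) = τ (y₀ FX ∩ nrm⁻¹ A)` (left invariance)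
`= τ (FX ∩ nrm⁻¹ A)` (`IsFundamentalDomain.smul_of_comm`, `measure_set_eq`; `nrm⁻¹ A` is
`Kˣ`-invariant by the product formula `T1.AdNormC`).
-/

set_option autoImplicit false
set_option linter.style.haveILetI false

open AutomorphicForm IsDedekindDomain NumberField Filter Topology MeasureTheory
open scoped ComplexConjugate ENNReal Pointwise

noncomputable section

namespace Fermat.Agent.LT.T7.H171

open Fermat.Agent.LT.H556 Fermat.Agent.LT.H556.A0 Fermat.Agent.LT.T7 Fermat.Agent.LT.T7.Rigid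
open Fermat.Agent.LT.T7.H57 Fermat.Agent.LT.T7.H216

variable {K : Type} [Field K] [NumberField K]

theorem nrm57_mul171 (hN : Fermat.Agent.LT.T1.AdNormC K) (x y : (Adl K)ˣ) :
    nrm57 K (x * y) = nrm57 K x * nrm57 K y :=
  hN.2.1 x y

theorem nrm57_rat171 (hN : Fermat.Agent.LT.T1.AdNormC K) (ξ : Kˣ) :
    nrm57 K (ratU57 K ξ) = 1 :=
  hN.2.2.1 ξ

/-- **T7.14.6a-F.6.3**: the push-forward of `τ|FX` under the idele norm is invariant under all
dilations. -/
theorem normInvC216_171 (K : Type) [Field K] [NumberField K] : NormInvC216 K := by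
  letI : MeasurableSpace (Adl K)ˣ := borel (Adl K)ˣ
  haveI : BorelSpace (Adl K)ˣ := ⟨rfl⟩
  intro hT hex τ hτ FX hFXm hFX s hs
  haveI := hτ
  haveI := countable_ratU216 K
  have hN := hT.adNorm
  have hnc : Continuous (nrm57 K) := continuous_nrm57_216 hN
  have hnm : Measurable (nrm57 K) := hnc.measurable
  have hsm : Measurable fun t : ℝ => s * t := measurable_const_mul s
  obtain ⟨y₀, hy₀⟩ := hex s hs
  haveI : SMulCommClass (Adl K)ˣ (ratU57 K).range (Adl K)ˣ :=
    ⟨fun g h x => by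
      simp only [Subgroup.smul_def, smul_eq_mul]
      exact mul_left_comm _ _ _⟩
  have hFX' : IsFundamentalDomain (ratU57 K).range (y₀ • FX) τ := hFX.smul_of_comm y₀
  refine Measure.ext fun A hA => ?_
  rw [Measure.map_apply hsm hA, pushN216, Measure.map_apply hnm (hsm hA),
    Measure.map_apply hnm hA, Measure.restrict_apply (hnm (hsm hA)),
    Measure.restrict_apply (hnm hA)]
  -- the invariant set
  set B : Set (Adl K)ˣ := nrm57 K ⁻¹' A with hB
  have hBm : MeasurableSet B := hnm hA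
  have hBinv : ∀ g : (ratU57 K).range, (fun x : (Adl K)ˣ => g • x) ⁻¹' B = B := by
    rintro ⟨g, ξ, rfl⟩
    ext x
    simp only [hB, Set.mem_preimage, Subgroup.smul_def, smul_eq_mul]
    rw [nrm57_mul171 hN, nrm57_rat171 hN, one_mul]
  have h1 : nrm57 K ⁻¹' ((fun t : ℝ => s * t) ⁻¹' A) ∩ FX
      = (fun x : (Adl K)ˣ => y₀ * x) ⁻¹' (B ∩ y₀ • FX) := by
    ext x
    simp only [hB, Set.mem_inter_iff, Set.mem_preimage, nrm57_mul171 hN, hy₀]
    refine and_congr_right fun _ => ?_
    constructor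
    · intro hx
      exact ⟨x, hx, rfl⟩
    · rintro ⟨z, hz, hzx⟩
      have hzx' : y₀ * z = y₀ * x := hzx
      have : z = x := mul_left_cancel hzx'
      exact this ▸ hz
  rw [h1, measure_preimage_mul]
  exact hFX'.measure_set_eq hFX hBm hBinv

end Fermat.Agent.LT.T7.H171

end

end
-- ===== PACK-END LT/T7/H171/NormInv.lean

-- ===== PACK-BEGIN LT/T7/H171/NormFin.lean
section



/-!
# Row LT, tower T7, leaf T7.14.6a-F.6.4 `NormFinC216` (registry 2162) -- helper171

OFF-MAIN.  `normFinC216_171 K : H216.NormFinC216 K`, verbatim against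
helper216@8929b2109 `LT/T7/H216/BoxSpec.lean` (sha256 760ee146fd99e7ce).

Route: `C` from `T1.FujisakiC`, `B = C · j [a, b]` compact, `nrm⁻¹ [a, b] ⊆ Kˣ · B`,
`τ (FX ∩ Kˣ B) ≤ ∑_g τ (g B ∩ FX) = τ B < ∞` (`IsFundamentalDomain.measure_eq_tsum`).
-/

set_option autoImplicit false
set_option linter.style.haveILetI false

open AutomorphicForm IsDedekindDomain NumberField Filter Topology MeasureTheory
open scoped ComplexConjugate ENNReal Pointwise

noncomputable section

namespace Fermat.Agent.LT.T7.H171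

open Fermat.Agent.LT.H556 Fermat.Agent.LT.H556.A0 Fermat.Agent.LT.T7 Fermat.Agent.LT.T7.Rigid
open Fermat.Agent.LT.T7.H57 Fermat.Agent.LT.T7.H216

variable {K : Type} [Field K] [NumberField K]

/-- **T7.14.6a-F.6.4**: the push-forward of `τ|FX` under the idele norm is finite on the compact
intervals of `(0, ∞)`. -/
theorem normFinC216_171 (K : Type) [Field K] [NumberField K] : NormFinC216 K := by
  letI : MeasurableSpace (Adl K)ˣ := borel (Adl K)ˣ
  haveI : BorelSpace (Adl K)ˣ := ⟨rfl⟩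
  intro hT hray τ hτ FX hFXm hFX a b ha hab
  haveI := hτ
  haveI := countable_ratU216 K
  have hN := hT.adNorm
  have hnc : Continuous (nrm57 K) := continuous_nrm57_216 hN
  have hnm : Measurable (nrm57 K) := hnc.measurable
  obtain ⟨j, hjc, hj⟩ := hray
  obtain ⟨C, hC, hCex⟩ := hT.fujisaki
  -- the compact set
  have hIcc : Set.Icc a b ⊆ Set.Ioi (0 : ℝ) := fun t ht => lt_of_lt_of_le ha ht.1
  have hJ : IsCompact (j '' Set.Icc a b) := isCompact_Icc.image_of_continuousOn (hjc.mono hIcc)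
  set B : Set (Adl K)ˣ := (fun p : (Adl K)ˣ × (Adl K)ˣ => p.1 * p.2) '' (C ×ˢ (j '' Set.Icc a b))
    with hB
  have hBc : IsCompact B := (hC.prod hJ).image continuous_mul
  have hBfin : τ B < ⊤ := hBc.measure_lt_top
  -- the covering
  have hcov : nrm57 K ⁻¹' Set.Icc a b ∩ FX ⊆ ⋃ g : (ratU57 K).range, (g • B ∩ FX) := by
    rintro y ⟨hy, hyF⟩
    have hy' : nrm57 K y ∈ Set.Icc a b := hy
    set t : ℝ := nrm57 K y with ht
    have ht0 : 0 < t := hIcc hy'
    have hjt : nrm57 K (j t) = t := hj t ht0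
    have hone : nrm57 K (y * (j t)⁻¹) = 1 := by
      have h1 : nrm57 K (y * (j t)⁻¹) * nrm57 K (j t) = nrm57 K y := by
        rw [← nrm57_mul171 hN, inv_mul_cancel_right]
      rw [hjt, ← ht] at h1
      exact mul_right_cancel₀ (ne_of_gt ht0) (by rw [h1, one_mul])
    obtain ⟨ξ, hξ⟩ := hCex (y * (j t)⁻¹) hone
    have hξ' : (ratU57 K ξ)⁻¹ * (y * (j t)⁻¹) ∈ C := hξ
    refine Set.mem_iUnion.mpr ⟨⟨ratU57 K ξ, ξ, rfl⟩, ⟨?_, hyF⟩⟩
    refine ⟨(ratU57 K ξ)⁻¹ * (y * (j t)⁻¹) * j t, ?_, ?_⟩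
    · exact ⟨((ratU57 K ξ)⁻¹ * (y * (j t)⁻¹), j t), ⟨hξ', ⟨t, hy', rfl⟩⟩, rfl⟩
    · show ratU57 K ξ * ((ratU57 K ξ)⁻¹ * (y * (j t)⁻¹) * j t) = y
      group
  rw [pushN216, Measure.map_apply hnm measurableSet_Icc, Measure.restrict_apply
    (hnm measurableSet_Icc)]
  calc τ (nrm57 K ⁻¹' Set.Icc a b ∩ FX)
      ≤ τ (⋃ g : (ratU57 K).range, (g • B ∩ FX)) := measure_mono hcov
    _ ≤ ∑' g : (ratU57 K).range, τ (g • B ∩ FX) := measure_iUnion_le _
    _ = τ B := (hFX.measure_eq_tsum B).symm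
    _ < ⊤ := hBfin

end Fermat.Agent.LT.T7.H171

end

end
-- ===== PACK-END LT/T7/H171/NormFin.lean

-- ===== PACK-BEGIN LT/T7/H346/CoreOfPos.lean
section





/-!
# Row LT, tower T7, leaf T7.14.6a-F.8 `H57.CoreOfPosC57` (helper346) -- OFF-MAIN

`coreOfPosC346 K : H57.CoreOfPosC57 K` (`= CorePosC57 K → CoreC57 K`), VERBATIM vs
`LT/T7/H57/FoldSpec3.lean` (helper57, sha256 `6882255d`), UNCONDITIONAL (no extra hypothesis:
continuity of `iota57` and the measurability of the module are proved here).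

* measurability of `g ↦ encard (cntSet 𝔪 Y g)`: countable cover (assets of helper724,
  `CountMeasAbs.lean`, `measurableSet_mem_cntSet724`);
* `Φ ≡ 1` gives `∫⁻_F encard < ∞`, hence `encard < ∞` a.e. and `cnt = encard` a.e.;
* the product `σ`-algebra on `𝔸 × 𝔸ˣ × 𝔸ˣ` is the Borel `σ`-algebra (second countability,
  `LT/H11/SC.lean`), `iota57` is continuous;
* positive / negative parts of `Re Φ`, `Im Φ`: `GlueAbs.lean`.
-/

set_option autoImplicit false

open AutomorphicForm IsDedekindDomain NumberField Filter Topology MeasureTheory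
open scoped ComplexConjugate ENNReal

noncomputable section

namespace Fermat.Agent.LT.T7.H346

open Fermat.Agent.LT.H556 Fermat.Agent.LT.H556.A0 Fermat.Agent.LT.T7 Fermat.Agent.LT.T7.Rigid
open Fermat.Agent.LT.T7.H57

attribute [local instance] Fermat.Agent.LT.T5.instMeasurableSpaceG

/-! ## The extended counting function -/

/-- `a ↦ encard {x | a ∈ A x}` is measurable for a countable family of measurable sets. -/
theorem measurable_encard346 {α P : Type*} [MeasurableSpace α] [Countable P]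
    (A : P → Set α) (hA : ∀ x, MeasurableSet (A x)) :
    Measurable fun a => (({x | a ∈ A x}.encard : ℕ∞) : ℝ≥0∞) := by
  classical
  refine H724.measurable_of_countable_cover724
    (ι := Option (Finset P))
    (fun o => match o with
      | none => {a | {x | a ∈ A x}.Infinite}
      | some T => {a | {x | a ∈ A x} = (T : Set P)})
    ?_ ?_
    (fun o => match o with
      | none => fun _ => (⊤ : ℝ≥0∞)
      | some T => fun _ => (T.card : ℝ≥0∞))
    ?_ _ ?_
  · rintro (_ | T)
    · exact H724.measurableSet_infinite724 A hA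
    · exact H724.measurableSet_eq_finset724 A hA T
  · intro a
    by_cases hfin : {x | a ∈ A x}.Finite
    · obtain ⟨T, hT⟩ := hfin.exists_finset_coe
      exact ⟨some T, hT.symm⟩
    · exact ⟨none, hfin⟩
  · rintro (_ | T)
    · exact measurable_const
    · exact measurable_const
  · rintro (_ | T) a ha
    · have hinf : {x | a ∈ A x}.Infinite := ha
      show (({x | a ∈ A x}.encard : ℕ∞) : ℝ≥0∞) = ⊤
      rw [hinf.encard_eq, ENat.toENNReal_top]
    · have hT : {x | a ∈ A x} = (T : Set P) := ha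
      show (({x | a ∈ A x}.encard : ℕ∞) : ℝ≥0∞) = (T.card : ℝ≥0∞)
      rw [hT, Set.encard_coe_eq_coe_finsetCard, ENat.toENNReal_coe]

/-- `Nat.card = encard` where the latter is finite. -/
theorem natCard_eq_encard346 {P : Type*} (s : Set P)
    (h : ((s.encard : ℕ∞) : ℝ≥0∞) < ⊤) :
    ((Nat.card s : ℕ) : ℝ≥0∞) = ((s.encard : ℕ∞) : ℝ≥0∞) := by
  have hfin : s.Finite := by
    rw [← Set.encard_ne_top_iff]
    intro htop
    rw [htop, ENat.toENNReal_top] at h
    exact lt_irrefl _ h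
  rw [Nat.card_coe_set_eq, ← hfin.cast_ncard_eq, ENat.toENNReal_coe]

variable (K : Type) [Field K] [NumberField K]

/-! ## Topology and measurability on `𝔸 × 𝔸ˣ × 𝔸ˣ` -/

theorem secondCountable_adl346 : SecondCountableTopology (Adl K) :=
  Fermat.Agent.LT.H11.SC.secondCountableTopology_adeleRing_h11 K

theorem secondCountable_idl346 : SecondCountableTopology (Adl K)ˣ := by
  have h1 : SecondCountableTopology (Adl K) := secondCountable_adl346 K
  have h2 : SecondCountableTopology (Adl K)ᵐᵒᵖ :=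
    (MulOpposite.opHomeomorph (M := Adl K)).symm.secondCountableTopology
  exact (Units.isEmbedding_embedProduct (M := Adl K)).secondCountableTopology

theorem continuous_unip346 : Continuous (fun x : Adl K => Fermat.Agent.LT.T3.unip K x) := by
  rw [Units.continuous_iff]
  constructor
  · show Continuous fun x : Adl K => (!![1, x; 0, 1] : Matrix (Fin 2) (Fin 2) (Adl K))
    refine continuous_matrix fun i j => ?_
    fin_cases i <;> fin_cases j <;> simp <;> fun_prop
  · show Continuous fun x : Adl K => (!![1, -x; 0, 1] : Matrix (Fin 2) (Fin 2) (Adl K))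
    refine continuous_matrix fun i j => ?_
    fin_cases i <;> fin_cases j <;> simp <;> fun_prop

theorem continuous_dgA346 : Continuous (fun y : (Adl K)ˣ => (dgA y : G K)) := by
  rw [Units.continuous_iff]
  constructor
  · show Continuous fun y : (Adl K)ˣ =>
      (!![(y : Adl K), 0; 0, 1] : Matrix (Fin 2) (Fin 2) (Adl K))
    refine continuous_matrix fun i j => ?_
    fin_cases i <;> fin_cases j <;> simp <;> fun_prop
  · show Continuous fun y : (Adl K)ˣ =>
      (!![((y⁻¹ : (Adl K)ˣ) : Adl K), 0; 0, 1] : Matrix (Fin 2) (Fin 2) (Adl K))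
    refine continuous_matrix fun i j => ?_
    fin_cases i <;> fin_cases j <;> simp <;> fun_prop

theorem continuous_zA346 : Continuous (fun z : (Adl K)ˣ => zA57 K z) := by
  rw [Units.continuous_iff]
  constructor
  · show Continuous fun z : (Adl K)ˣ =>
      (!![(z : Adl K), 0; 0, (z : Adl K)] : Matrix (Fin 2) (Fin 2) (Adl K))
    refine continuous_matrix fun i j => ?_
    fin_cases i <;> fin_cases j <;> simp <;> fun_prop
  · show Continuous fun z : (Adl K)ˣ =>
      (!![((z⁻¹ : (Adl K)ˣ) : Adl K), 0; 0, ((z⁻¹ : (Adl K)ˣ) : Adl K)] :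
        Matrix (Fin 2) (Fin 2) (Adl K))
    refine continuous_matrix fun i j => ?_
    fin_cases i <;> fin_cases j <;> simp <;> fun_prop

/-- `ι(x, y, z) = n(x) diag(y, 1) z` is continuous. -/
theorem continuous_iota346 : Continuous (iota57 K) := by
  unfold iota57
  exact (((continuous_unip346 K).comp continuous_fst).mul
    ((continuous_dgA346 K).comp (continuous_fst.comp continuous_snd))).mul
    ((continuous_zA346 K).comp (continuous_snd.comp continuous_snd))

theorem nrm_nonneg346 (y : (Adl K)ˣ) : 0 ≤ nrm57 K y := by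
  unfold nrm57 Fermat.Agent.LT.T5.adNorm
  refine mul_nonneg (Finset.prod_nonneg fun w _ => pow_nonneg (norm_nonneg _) _) ?_
  exact finprod_nonneg fun v => norm_nonneg _

theorem measurable_nrm346 :
    letI : MeasurableSpace (Adl K)ˣ := borel (Adl K)ˣ
    Measurable (nrm57 K) := by
  let _ : MeasurableSpace (Adl K)ˣ := borel (Adl K)ˣ
  have : BorelSpace (Adl K)ˣ := ⟨rfl⟩
  have : Countable (HeightOneSpectrum (𝓞 K)) := H724.countable_places724 K
  unfold nrm57 Fermat.Agent.LT.T5.adNorm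
  refine Measurable.mul ?_ ?_
  · refine Finset.measurable_prod _ fun w _ => ?_
    exact ((continuous_norm.comp ((H724.continuous_inf724 w).comp
      Units.continuous_val)).measurable).pow_const _
  · refine H724.measurable_finprod724 _ fun v => ?_
    exact (continuous_norm.comp ((H724.continuous_fin724 v).comp
      Units.continuous_val)).measurable

/-! ## Invariance of the real parts -/

variable {K}

theorem leftInvE_of346 {Φ : G K → ℂ} (h : IsLeftInv57 K Φ) (f : ℂ → ℝ) :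
    IsLeftInvE57 K (fun g => ENNReal.ofReal (f (Φ g))) := fun γ g => by
  show ENNReal.ofReal (f (Φ _)) = ENNReal.ofReal (f (Φ g))
  rw [h γ g]

theorem rightCE_of346 {𝔪 : Ideal (𝓞 K)} {Φ : G K → ℂ} (h : IsRightC57 K 𝔪 Φ) (f : ℂ → ℝ) :
    IsRightCE57 K 𝔪 (fun g => ENNReal.ofReal (f (Φ g))) := by
  refine ⟨fun u hu g => ?_, fun w k hk g => ?_⟩
  · show ENNReal.ofReal (f (Φ _)) = ENNReal.ofReal (f (Φ g))
    rw [h.1 u hu g]
  · show ENNReal.ofReal (f (Φ _)) = ENNReal.ofReal (f (Φ g))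
    rw [h.2 w k hk g]

variable (K)

/-! ## The leaf -/

/-- **T7.14.6a-F.8 `CoreOfPosC57`**: from non-negative functions and `encard` to bounded
continuous complex functions and `cnt = Nat.card`. -/
theorem coreOfPosC346 : CoreOfPosC57 K := by
  intro hP
  unfold CoreC57
  intro hTC μ F hF ν D hν hD hfd hνD τ hτ S 𝔪 hS FX hFX hfx hbox
  obtain ⟨c₀, hc₀, hpos⟩ := hP hTC μ F hF ν D hν hD hfd hνD τ hτ S 𝔪 hS FX hFX hfx
  refine ⟨c₀, hc₀, fun Φ hcont hbdd hleft hright Y hY => ?_⟩
  obtain ⟨C, hC⟩ := hbdd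
  let iA : MeasurableSpace (Adl K) := borel (Adl K)
  let iX : MeasurableSpace (Adl K)ˣ := borel (Adl K)ˣ
  have bA : BorelSpace (Adl K) := ⟨rfl⟩
  have bX : BorelSpace (Adl K)ˣ := ⟨rfl⟩
  have bG : BorelSpace (G K) := H724.borelSpaceG724
  have sA : SecondCountableTopology (Adl K) := secondCountable_adl346 K
  have sX : SecondCountableTopology (Adl K)ˣ := secondCountable_idl346 K
  have cP : Countable (Projectivization K (Fin 2 → K)) := H724.countable_proj724 K
  -- the data of the abstract glue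
  have hN : Measurable fun g : G K => (((cntSet 𝔪 Y g).encard : ℕ∞) : ℝ≥0∞) :=
    measurable_encard346 (fun x => {g : G K | x ∈ cntSet 𝔪 Y g})
      (fun x => H724.measurableSet_mem_cntSet724 𝔪 Y x)
  have hn : ∀ g : G K, (((cntSet 𝔪 Y g).encard : ℕ∞) : ℝ≥0∞) < ⊤ →
      ((cnt 𝔪 Y g : ℕ) : ℝ≥0∞) = (((cntSet 𝔪 Y g).encard : ℕ∞) : ℝ≥0∞) := fun g hg =>
    natCard_eq_encard346 (cntSet 𝔪 Y g) hg
  have hone := hpos (fun _ => 1) measurable_const (fun _ _ => rfl)
    ⟨fun _ _ _ => rfl, fun _ _ _ _ => rfl⟩ Y hY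
  simp only [one_mul] at hone
  have hNfin : ∫⁻ g, (((cntSet 𝔪 Y g).encard : ℕ∞) : ℝ≥0∞) ∂(μ.restrict F) < ⊤ := by
    rw [hone]
    exact ENNReal.mul_lt_top ENNReal.ofReal_lt_top (hbox Y hY)
  have hw0 : ∀ p : Adl K × (Adl K)ˣ × (Adl K)ˣ, 0 ≤ (nrm57 K p.2.1)⁻¹ := fun p =>
    inv_nonneg.mpr (nrm_nonneg346 K _)
  have hwm : Measurable fun p : Adl K × (Adl K)ˣ × (Adl K)ˣ => (nrm57 K p.2.1)⁻¹ :=
    ((measurable_nrm346 K).comp (measurable_fst.comp measurable_snd)).inv
  have hΦ : Measurable Φ := hcont.measurable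
  have hΦj : Measurable fun p : Adl K × (Adl K)ˣ × (Adl K)ˣ => Φ (iota57 K p) :=
    (hcont.comp (continuous_iota346 K)).measurable
  exact integral_mul_card_eq_complex346 (μ.restrict F)
    ((ν.prod (τ.prod τ)).restrict (box57 K D FX Y))
    (fun g => (((cntSet 𝔪 Y g).encard : ℕ∞) : ℝ≥0∞)) (fun g => cnt 𝔪 Y g) (iota57 K)
    (fun p => (nrm57 K p.2.1)⁻¹) c₀ hN hn hNfin hw0 hwm (hbox Y hY) hc₀.le Φ hΦ hΦj C hC
    (by
      rintro f (rfl | rfl | rfl | rfl)
      · exact hpos _ (Complex.measurable_re.comp hΦ).ennreal_ofReal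
          (leftInvE_of346 hleft Complex.re) (rightCE_of346 hright Complex.re) Y hY
      · exact hpos _ (Complex.measurable_re.comp hΦ).neg.ennreal_ofReal
          (leftInvE_of346 hleft fun z => -z.re) (rightCE_of346 hright fun z => -z.re) Y hY
      · exact hpos _ (Complex.measurable_im.comp hΦ).ennreal_ofReal
          (leftInvE_of346 hleft Complex.im) (rightCE_of346 hright Complex.im) Y hY
      · exact hpos _ (Complex.measurable_im.comp hΦ).neg.ennreal_ofReal
          (leftInvE_of346 hleft fun z => -z.im) (rightCE_of346 hright fun z => -z.im) Y hY)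

/-- Check: the Prop is the frozen one, verbatim. -/
example : Fermat.Agent.LT.T7.H57.CoreOfPosC57 K := coreOfPosC346 K

end Fermat.Agent.LT.T7.H346

end

end
-- ===== PACK-END LT/T7/H346/CoreOfPos.lean

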