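import Mathlib
import Fermat.Prelude.Def_EllipticCurve_FrobeniusTrace
import Fermat.Agent.Pack.S43GC.G0E8L2
import Fermat.Agent.Pack.S43GC.G0E23L0
import Fermat.Agent.Pack.S43GC.G0E22L2
import Fermat.Agent.Pack.LT2.E8L2
import Fermat.Agent.Pack.LT2.E9L3
import Fermat.Agent.Pack.LT2.E10L0
import Fermat.Agent.Pack.LT2.E11L1
import Fermat.Agent.Pack.LT2.E0L0
import Fermat.Agent.Pack.LT2.E2L2
import Fermat.Agent.Pack.LT2.E6L1
import Fermat.Agent.Pack.LT2.E10L2
import Fermat.Agent.Pack.S43GC.G0E11L0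
import Fermat.Agent.Pack.S43GC.G0E10L0
import Fermat.Agent.Pack.S43GC.G0E14L2
import Fermat.Agent.Pack.LT2.E6L3
import Fermat.Agent.Pack.LT2.E19L1
import Fermat.Agent.Pack.LT2.E19L2
import Fermat.Agent.Pack.S44C.G0E26L3
import Fermat.Agent.Pack.LT2.E16L3
import Fermat.Agent.Pack.LT2.E11L2
import Fermat.Agent.Pack.LT2.E19L0

set_option linter.all false

-- ===== PACK-BEGIN LT/CFT/Spec.lean
section






/-!
# Row LT, tower CFT (architect helper53), OFF-MAIN: ARTIN RECIPROCITY for finite-order characters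

Consumers: A2 (seed over `E`: the quartic character `θ` of `Gal(M/E')` and `η_{E'/E}` as Hecke
characters, helper950 / helper38), T3 (Hecke `L`-functions of these characters, helper14),
T6/T7 (`η_{E/F}`, helper797 / helper22).

## Route
Global class field theory IS ON MAIN, in the closure of S55 (plain modules
`Fermat/Agent/S55/G/**`): first inequality (general form `FI.firstIneq_card_of`, with the factor
`infDegProd`), analytic second inequality (`H963`), Hasse principle and the RECIPROCITY LAW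
`Fermat.Agent.S55.G.Rec.reciprocityFull I p : ReciprocitySpec I p`
(`∑_v inv_v (x_v) = 0` for `x ∈ Br(K)(p)`, `K = ℚ̄^U` ANY number field) for every ODD prime `p`,
with the local invariant system `Rec.Loc.localInvSystem`.

So the tower is
* `RecTC2 I` : the SAME sum formula for `p = 2` over TOTALLY COMPLEX fields (`U` without elements
  of order `2`).  Sub-tower REC2 / G2 = the p = 2 variant of S55 layer G + block REC, where
  "`p ≠ 2` / `Odd n`" is replaced by "no real place": `infDegProd = 1`, `N_{K/ℚ}(a) > 0`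
  (so the sign `ψ̄(-1)` of REC Step A disappears).
* `CycSumOfRecC I` : formal, primary decomposition of the cup class `a ∪ δχ`.
* `RayOfCycSumC I` : the dictionary from `∑_v inv_v (a ∪ δχ) = 0` (double cosets, `ℚ̄_q`) to the
  ideal-theoretic ray statement (primes of `𝓞 K`, Prelude Frobenius elements).
* `HeckeOfRayC` : the idèle class character of a ray class character.

PROVED here: `artinRay_of_leaves`, `heckeChar_of_leaves`.
All Props are TRUE statements of mathematics (Artin reciprocity, Lang ANT X §2-3, Tate's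
chapter VII §3, §10 in Cassels-Froehlich).
-/

set_option autoImplicit false

open IsDedekindDomain NumberField
open Fermat.Agent.S55.G.Rec

noncomputable section

namespace Fermat.Agent.LT.CFT

local notation "Qb" => AlgebraicClosure ℚ
local notation "GQ" => (AlgebraicClosure ℚ ≃ₐ[ℚ] AlgebraicClosure ℚ)

/-! ## 1. Vocabulary (Mathlib number fields + Prelude Frobenius elements) -/

/-- The absolute Galois group of `K`, embedded in `ℚ̄` by `j`: the elements of `G_ℚ` fixing
`j K` pointwise. -/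
def galOf {K : Type} [Field K] (j : K →+* Qb) : Subgroup GQ where
  carrier := {σ | ∀ x : K, σ (j x) = j x}
  one_mem' := fun _ => rfl
  mul_mem' := by
    intro a b ha hb x
    show a (b (j x)) = j x
    rw [hb x, ha x]
  inv_mem' := by
    intro a ha x
    have h := congrArg (a⁻¹ : GQ) (ha x)
    have h2 : (a⁻¹ : GQ) (a (j x)) = j x := AlgEquiv.symm_apply_apply a (j x)
    rw [h2] at h
    exact h.symm

/-- `K` is totally complex. -/
def TotallyComplex (K : Type) [Field K] [NumberField K] : Prop :=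
  ∀ w : InfinitePlace K, w.IsComplex

/-- The valuation subring `A` of `ℚ̄` lies over the finite place `v` of `K` (embedded by `j`). -/
def UnderPlace {K : Type} [Field K] [NumberField K] (j : K →+* Qb)
    (v : HeightOneSpectrum (𝓞 K)) (A : ValuationSubring Qb) : Prop :=
  ∀ x : 𝓞 K, x ∈ v.asIdeal ↔ j (algebraMap (𝓞 K) K x) ∈ A.nonunits

/-- `σ` is a Frobenius element of `G_K` at the finite place `v` of `K`: `σ` fixes `K`, lies in
the decomposition group of a valuation subring `A` of `ℚ̄` over `v` and acts on the residue field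
of `A` by `x ↦ x ^ N(v)` (Prelude `ValuationSubring.IsFrobeniusAt`). -/
def IsFrobAt {K : Type} [Field K] [NumberField K] (j : K →+* Qb)
    (v : HeightOneSpectrum (𝓞 K)) (σ : GQ) : Prop :=
  σ ∈ galOf j ∧ ∃ A : ValuationSubring Qb, UnderPlace j v A ∧
    A.IsFrobeniusAt σ (Nat.card (𝓞 K ⧸ v.asIdeal))

/-- `χ` is a character of finite order of `G_K` (trivial on `Gal(ℚ̄/F)` for a number field `F`). -/
def IsFiniteOrderChar {K : Type} [Field K] (j : K →+* Qb) (χ : ↥(galOf j) →* ℂˣ) : Prop :=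
  ∃ F : IntermediateField ℚ Qb, FiniteDimensional ℚ F ∧
    ∀ σ : ↥(galOf j), (σ : GQ) ∈ F.fixingSubgroup → χ σ = 1

/-- The exponent of the prime `v` in the principal ideal `(α)` (`0` if `α = 0`). -/
def ordAt {K : Type} [Field K] [NumberField K] (v : HeightOneSpectrum (𝓞 K)) (α : 𝓞 K) : ℕ :=
  (Associates.mk v.asIdeal).count (Associates.mk (Ideal.span {α})).factors

/-- **The ray statement for `(K, j, χ)` with modulus `𝔣`**: for every choice `frob` of Frobenius
elements at the primes not dividing `𝔣` and every `α ≡ 1 mod 𝔣`, `α ≠ 0`: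
`∏_v χ(Frob_v) ^ ord_v(α) = 1`. -/
def RayTrivial {K : Type} [Field K] [NumberField K] (j : K →+* Qb) (χ : ↥(galOf j) →* ℂˣ)
    (𝔣 : Ideal (𝓞 K)) : Prop :=
  ∀ frob : HeightOneSpectrum (𝓞 K) → ↥(galOf j),
    (∀ v : HeightOneSpectrum (𝓞 K), ¬ 𝔣 ≤ v.asIdeal → IsFrobAt j v (frob v : GQ)) →
    ∀ α : 𝓞 K, α ≠ 0 → α - 1 ∈ 𝔣 →
      ∏ᶠ v : HeightOneSpectrum (𝓞 K), χ (frob v) ^ ordAt v α = 1

/-! ## 2. The tower Props (consumed by A2, T3, T6/T7) -/

/-- **ARTIN RECIPROCITY, ray form** (Lang ANT X §2 Thm 3): a character of finite order of the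
absolute Galois group of a totally complex number field is trivial on a ray `P_𝔣`. -/
def ArtinRayC : Prop :=
  ∀ (K : Type) [Field K] [NumberField K] (j : K →+* Qb), TotallyComplex K →
    ∀ χ : ↥(galOf j) →* ℂˣ, IsFiniteOrderChar j χ →
      ∃ 𝔣 : Ideal (𝓞 K), 𝔣 ≠ ⊥ ∧ RayTrivial j χ 𝔣

/-- The adèle ring of `K` (the same Mathlib type as `Adl K` of helper556). -/
abbrev Adl (K : Type) [Field K] [NumberField K] : Type := NumberField.AdeleRing (𝓞 K) K

/-- The idèle `z` is supported at the finite place `v`. -/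
def IsIdeleAt {K : Type} [Field K] [NumberField K] (v : HeightOneSpectrum (𝓞 K))
    (z : (Adl K)ˣ) : Prop :=
  (∀ w : InfinitePlace K, ((z : Adl K).1 w) = 1) ∧
    ∀ v' : HeightOneSpectrum (𝓞 K), v' ≠ v → ((z : Adl K).2 v') = 1

/-- `θ` is the Hecke (idèle class) character of `χ`: continuous, trivial on the principal
idèles, and at almost all finite places `v`: trivial on the local units and equal to
`χ(Frob_v)` on the local uniformisers. -/
def IsHeckeCharOf {K : Type} [Field K] [NumberField K] (j : K →+* Qb) (χ : ↥(galOf j) →* ℂˣ)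
    (θ : (Adl K)ˣ →* ℂˣ) : Prop :=
  Continuous θ ∧
  (∀ x : Kˣ, θ (Units.map (algebraMap K (Adl K)).toMonoidHom x) = 1) ∧
  ∃ S : Finset (HeightOneSpectrum (𝓞 K)), ∀ v : HeightOneSpectrum (𝓞 K), v ∉ S →
    ∀ z : (Adl K)ˣ, IsIdeleAt v z →
      (Valued.v ((z : Adl K).2 v) = 1 → θ z = 1) ∧
      (Valued.v ((z : Adl K).2 v) = WithZero.exp (-1 : ℤ) →
        ∀ σ : ↥(galOf j), IsFrobAt j v (σ : GQ) → θ z = χ σ)

/-- **ARTIN RECIPROCITY, idèlic form**: every character of finite order of `G_K`, `K` totally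
complex, is the character of a Hecke character of `K`. -/
def HeckeCharC : Prop :=
  ∀ (K : Type) [Field K] [NumberField K] (j : K →+* Qb), TotallyComplex K →
    ∀ χ : ↥(galOf j) →* ℂˣ, IsFiniteOrderChar j χ →
      ∃ θ : (Adl K)ˣ →* ℂˣ, IsHeckeCharOf j χ θ

/-! ## 3. The middle Props (language of S55 layer G / block REC, on main) -/

/-- `U` contains no element of order `2`: the fixed field of `U` is totally complex
(Artin-Schreier). -/
def NoOrderTwo (U : Subgroup GQ) : Prop := ∀ c : GQ, c ∈ U → c * c = 1 → c = 1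

/-- **REC2**: the reciprocity law for the `2`-primary part of `Br(K)`, `K = ℚ̄^U` totally
complex.  (= `ReciprocitySpec I 2` restricted to `U` without elements of order `2`.) -/
def RecTC2 (I : LocalInvSystem) : Prop :=
  ∀ (U : Subgroup GQ), IsOpenQ U → NoOrderTwo U →
    ∀ x : gBr U, (∃ k : ℕ, 2 ^ k • x = 0) →
      ∀ R : Nat.Primes → Finset GQ, IsPlaceReps U R →
        (Function.support fun q : Nat.Primes => ∑ r ∈ R q, I.invAt q r U x).Finite ∧
          I.sumInv U R x = 0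

/-- The sum formula for ALL cup classes `a ∪ δχ` over totally complex fields. -/
def CycSumC (I : LocalInvSystem) : Prop :=
  ∀ (U : Subgroup GQ), IsOpenQ U → NoOrderTwo U →
    ∀ (n : ℕ), n ≠ 0 → ∀ χ : ↥U →* Multiplicative (ZMod n),
      groupCohomology.IsLevelConstant₁ U.subtype χ → ∀ a : Qbˣ, GFixed U a →
        ∀ R : Nat.Primes → Finset GQ, IsPlaceReps U R →
          (Function.support fun q : Nat.Primes =>
            ∑ r ∈ R q, I.invAt q r U (gcc U n χ a)).Finite ∧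
            I.sumInv U R (gcc U n χ a) = 0

/-! ## 4. The leaves of the tower (hypothesis-parametrised) -/

/-- **Leaf PRIM** (formal, ≤ 500 lines): primary decomposition.  `x = a ∪ δχ` is killed by `n`;
`x = ∑_p m_p • x` with `m_p • x` of `p`-power order; apply the reciprocity law for every `p ∣ n`
(`p` odd: main; `p = 2`: `RecTC2`); `invAt` is additive. -/
def CycSumOfRecC (I : LocalInvSystem) : Prop :=
  (∀ (p : ℕ) [Fact p.Prime], p ≠ 2 → ReciprocitySpec I p) → RecTC2 I → CycSumC I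

/-- **Leaf DICT** (the dictionary; to be split by its sub-architect): from the sum formula for
cup classes to the ray statement.  `𝔣` = product of high powers of the primes which are
ramified for `χ` or divide the order `n` of `χ`.  Unramified `v ∤ n`: main `UnramCupSpec` (L3) +
`CupLocSpec` (K1) give `inv_v = ord_v(α) · χ(Frob_v) / n`; `v ∣ 𝔣`: `α ≡ 1 mod 𝔣` is a local
`n`-th power (Hensel; tame case = main `LocalRootSpec`), so `inv_v = 0` (`CupAddSpec`). -/
def RayOfCycSumC (I : LocalInvSystem) : Prop := CycSumC I → ArtinRayC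

/-- **Leaf IDELE** (Lang ANT VII §4; weak approximation): the idèle class character of a ray class
character. -/
def HeckeOfRayC : Prop := ArtinRayC → HeckeCharC

/-! ## 5. The top -/

/-- The local invariant system of main. -/
abbrev Iloc : LocalInvSystem := Loc.localInvSystem

/-- **TOWER TOP, ray form.** -/
theorem artinRay_of_leaves (hrec2 : RecTC2 Iloc) (hprim : CycSumOfRecC Iloc)
    (hdict : RayOfCycSumC Iloc) : ArtinRayC :=
  hdict (hprim (fun p _ hp2 => reciprocityFull Iloc p hp2) hrec2)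

/-- **TOWER TOP, idèlic form.** -/
theorem heckeChar_of_leaves (hrec2 : RecTC2 Iloc) (hprim : CycSumOfRecC Iloc)
    (hdict : RayOfCycSumC Iloc) (hid : HeckeOfRayC) : HeckeCharC :=
  hid (artinRay_of_leaves hrec2 hprim hdict)

end Fermat.Agent.LT.CFT

end

end
-- ===== PACK-END LT/CFT/Spec.lean

-- ===== PACK-BEGIN LT/A2/H38/ArtinSeedSpec.lean
section




/-!
# Row LT, tower A2, branch GALSEED -- level 3: the interface with tower CFT

OFF-MAIN (helper38).  Consumes the OUTPUT of tower CFT (architect helper53),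
`Fermat.Agent.LT.CFT.HeckeCharC` (`LT/CFT/Spec.lean`, origin/helper53@aa4e97721, VERBATIM):
every character of finite order of `G_K`, `K` totally complex, is the character of a Hecke
character.

    ArtinSeedC ⟸ CFT.HeckeCharC + TotCplxLC + CharRhoC + FinOrdC + FrobLC
                                                       (`artinSeedC_of_leaves`, PROVED here)

| leaf | content | reference | size |
|---|---|---|---|
| `TotCplxLC` | `L` is totally complex | `ζ₃ ∈ E ⊂ L` | 100 on top of `TotCplxC` |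
| `CharRhoC` | `χ_ρ = θ ∘ ρ : G_L → ℂˣ`, of finite order, `G_L = ρ⁻¹ C4` | infinite Galois correspondence (`ρ⁻¹ C4` is closed) | 400 |
| `FinOrdC` | a Hecke character of a character of finite order has finite order | weak approximation: `Kˣ · ∏'_{v ∉ S} K_vˣ` is dense in the ideles | 1500 |
| `FrobLC` | for almost all `p`: `N(A ∩ L) = p ^ f`, `f` least with `ρ(σ)^f ∈ C4`, and `A ∩ L ∉ T` | decomposition groups, Neukirch ANT I (9.6) | 2000 |

Every Prop is a TRUE statement of mathematics (audit in the memo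
`origin/helper38:coord/LT-A2-GalSeed-helper38.md`).
-/

set_option autoImplicit false

open IsDedekindDomain NumberField AutomorphicForm
open scoped MatrixGroups

noncomputable section

namespace Fermat.Agent.LT.A2.H38

open Fermat.Agent.LT.H130 Fermat.Agent.LT.H556 Fermat.Agent.LT.A2

local notation "Γℚ" => (AlgebraicClosure ℚ ≃ₐ[ℚ] AlgebraicClosure ℚ)

/-- The inclusion `L ⊂ ℚ̄`. -/
def jL (ρ : Γℚ →* GL (Fin 2) (ZMod 3)) : fieldL ρ →+* AlgebraicClosure ℚ :=
  algebraMap (fieldL ρ) (AlgebraicClosure ℚ)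

/-- **TOTCPLX-L.**  `L` is totally complex (`ζ₃ ∈ E ⊂ L`). -/
def TotCplxLC : Prop :=
  ∀ (ρ : Γℚ →* GL (Fin 2) (ZMod 3)) (Ψ : GL (Fin 2) (ZMod 3) →* GL (Fin 2) (ℤ√(-2))),
    LTB.Hyp ρ Ψ → ∀ [NumberField (fieldL ρ)], CFT.TotallyComplex (fieldL ρ)

/-- **CHARRHO.**  The character `χ_ρ = θ ∘ ρ` of `G_L = ρ⁻¹(C4)`: of finite order (trivial on
`ker ρ`, whose fixed field is a number field), with values `θ(ρ σ)`. -/
def CharRhoC : Prop :=
  ∀ (ρ : Γℚ →* GL (Fin 2) (ZMod 3)) (Ψ : GL (Fin 2) (ZMod 3) →* GL (Fin 2) (ℤ√(-2))),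
    LTB.Hyp ρ Ψ →
      ∃ χ : ↥(CFT.galOf (jL ρ)) →* ℂˣ, CFT.IsFiniteOrderChar (jL ρ) χ ∧
        ∀ σ : ↥(CFT.galOf (jL ρ)), ((χ σ : ℂˣ) : ℂ) = thetaVal (ρ (σ : Γℚ))

/-- **FINORD.**  A Hecke character attached to a Galois character of finite order has finite
order: if `χ ^ n = 1` then `θ ^ n` is continuous and trivial on `Kˣ` and on `K_vˣ` for almost all
`v`, and `Kˣ · ∏'_{v ∉ S} K_vˣ` is dense in the idele group (weak approximation,
Cassels--Fröhlich II §15). -/
def FinOrdC : Prop :=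
  ∀ (K : Type) [Field K] [NumberField K] (j : K →+* AlgebraicClosure ℚ)
    (χ : ↥(CFT.galOf j) →* ℂˣ) (θ : (A0.Adl K)ˣ →* ℂˣ),
    CFT.IsFiniteOrderChar j χ → CFT.IsHeckeCharOf j χ θ → IsFiniteOrder θ

/-- **FROB-L.**  For almost all `p`, every `A | p`, every Frobenius `σ` at `A` and the place
`w = A ∩ L`: `w ∉ T` (a given finite set of places), and `N(w) = p ^ f` where `f` is the least
positive exponent with `ρ(σ) ^ f ∈ C4`, so that `σ ^ f` is a Frobenius at `A` over `L`. -/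
def FrobLC : Prop :=
  ∀ (ρ : Γℚ →* GL (Fin 2) (ZMod 3)) (Ψ : GL (Fin 2) (ZMod 3) →* GL (Fin 2) (ℤ√(-2))),
    LTB.Hyp ρ Ψ → ∀ [NumberField (fieldL ρ)],
      ∀ T : Finset (HeightOneSpectrum (𝓞 (fieldL ρ))),
        ∃ S : Finset ℕ, ∀ p : ℕ, p.Prime → p ∉ S →
          ∀ A : ValuationSubring (AlgebraicClosure ℚ), A.LiesOverPrime p →
            ∀ σ : Γℚ, A.IsFrobeniusAt σ p →
              ∀ w : HeightOneSpectrum (𝓞 (fieldL ρ)), PlaceUnder (fieldL ρ) A w →
                w ∉ T ∧ ∀ f : ℕ, IsLeastPowC4 (ρ σ) f →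
                  A.IsFrobeniusAt (σ ^ f) (Nat.card (𝓞 (fieldL ρ) ⧸ w.asIdeal))

theorem mem_galOf_of_mem_C4 (ρ : Γℚ →* GL (Fin 2) (ZMod 3)) (τ : Γℚ) (h : ρ τ ∈ C4) :
    τ ∈ CFT.galOf (jL ρ) := by
  intro x
  have hx : (x : AlgebraicClosure ℚ) ∈ fieldL ρ := x.2
  exact (IntermediateField.mem_fixedField_iff _ _).mp hx τ (Subgroup.mem_comap.mpr h)

/-- **ARTINSEED from the output of tower CFT and its transport leaves.** -/
theorem artinSeedC_of_leaves (hH : CFT.HeckeCharC) (hT : TotCplxLC) (hχ : CharRhoC)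
    (hF : FinOrdC) (hL : FrobLC) : ArtinSeedC := by
  intro ρ Ψ hyp hNL
  obtain ⟨χ, hfo, hval⟩ := hχ ρ Ψ hyp
  obtain ⟨θ, hθ⟩ := hH (fieldL ρ) (jL ρ) (hT ρ Ψ hyp) χ hfo
  have hfin : IsFiniteOrder θ := hF (fieldL ρ) (jL ρ) χ θ hfo hθ
  obtain ⟨hcont, htriv, T, hT'⟩ := hθ
  refine ⟨θ, ⟨hcont, htriv⟩, hfin, ?_⟩
  obtain ⟨S, hS⟩ := hL ρ Ψ hyp T
  refine ⟨S, fun p hp hpS A hA σ hσ w hw => ?_⟩
  obtain ⟨hwT, hfrob⟩ := hS p hp hpS A hA σ hσ w hw
  refine ⟨fun z hz => (hT' w hwT z hz.1).1 hz.2, fun f hf z hz => ?_⟩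
  have hmem : ρ (σ ^ f) ∈ C4 := by rw [map_pow]; exact hf.2.1
  have hgal : σ ^ f ∈ CFT.galOf (jL ρ) := mem_galOf_of_mem_C4 ρ _ hmem
  have hfr : CFT.IsFrobAt (jL ρ) w (σ ^ f) := ⟨hgal, A, hw, hfrob f hf⟩
  have h1 := (hT' w hwT z hz.1).2 hz.2 ⟨σ ^ f, hgal⟩ hfr
  rw [h1, hval ⟨σ ^ f, hgal⟩, map_pow]

end Fermat.Agent.LT.A2.H38

end

end
-- ===== PACK-END LT/A2/H38/ArtinSeedSpec.lean

-- ===== PACK-BEGIN LT/A2/H38/GalSeedTop.lean
section





/-!
# Row LT, tower A2, branch GALSEED -- the PROVED branch top (helper38), RUNNING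

    GalSeedC ⟸ CFT.HeckeCharC (tower CFT, helper53)
               + NumFieldsC + TotCplxC + DegTwoC                      (fields)
               + TotCplxLC + CharRhoC + FinOrdC + FrobLC              (transport of Artin)
               + LevelPrimesC + UnifIdeleC + PlaceExistsC + ConjPlaceC
               + SplitInertC + ChebG0C                                 (matching, non-invariance)

PROVED and plugged: `IotaC` (`Iota.lean`), `GroupC` (`Group.lean`).
Registry rows `A2.01.xx` (table `subtasks`, stmt `LT`).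
-/

set_option autoImplicit false

namespace Fermat.Agent.LT.A2.H38

open Fermat.Agent.LT.A2

/-- **The GALSEED branch from all its leaves and the output of tower CFT.** -/
theorem galSeedC_of_all (hH : Fermat.Agent.LT.CFT.HeckeCharC)
    (h02 : NumFieldsC) (h03 : TotCplxC) (h04 : DegTwoC) (h06 : TotCplxLC) (h07 : CharRhoC)
    (h08 : FinOrdC) (h09 : FrobLC) (hLP : LevelPrimesC) (hU : UnifIdeleC) (hP : PlaceExistsC)
    (hCP : ConjPlaceC) (hSI : SplitInertC) (hG : GroupC) (hCh : ChebG0C) : GalSeedC :=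
  galSeedC_of_leaves iotaC h02 h03 h04 (artinSeedC_of_leaves hH h06 h07 h08 h09)
    (nonInvC_of_leaves hCh hP hU hSI hG) (matchC_of_leaves hLP hU hCP hSI hG)

/-- **RUNNING TOP: the GALSEED branch from its OPEN leaves.** -/
theorem galSeedC_of_open (hH : Fermat.Agent.LT.CFT.HeckeCharC)
    (h02 : NumFieldsC) (h03 : TotCplxC) (h04 : DegTwoC) (h06 : TotCplxLC) (h07 : CharRhoC)
    (h08 : FinOrdC) (h09 : FrobLC) (hLP : LevelPrimesC) (hU : UnifIdeleC) (hP : PlaceExistsC)
    (hCP : ConjPlaceC) (hSI : SplitInertC) (hCh : ChebG0C) : GalSeedC :=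
  galSeedC_of_all hH h02 h03 h04 h06 h07 h08 h09 hLP hU hP hCP hSI groupC hCh

end Fermat.Agent.LT.A2.H38

end
-- ===== PACK-END LT/A2/H38/GalSeedTop.lean

-- ===== PACK-BEGIN LT/A2/H138/FrobL.lean
section




/-!
# Row LT, tower A2, leaf `FrobLC` (registry 817) -- CLOSED, unconditional (helper138, OFF-MAIN)

`frobLC138 : Fermat.Agent.LT.A2.H38.FrobLC` (Prop of `LT/A2/H38/ArtinSeedSpec.lean`,
origin/helper38@fd6f38a61, byte-identical copy).

Route (no decomposition-group theory of `M / L`, no discriminant): let `a ∈ 𝓞 L` be an integral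
primitive element of `L / ℚ` and `S₁` the finite set of primes dividing one of the nonzero
integers `c_β` attached to the conjugates `β ≠ a` (`β - a ∣ c_β`).  For `p ∉ S₁`, `A | p`, an
element `τ ∈ D_A` acting trivially on the residue field of `w = A ∩ L` satisfies
`τ a ≡ a mod 𝔪_A`, hence `τ a = a`, hence `τ ∈ G_L = ρ⁻¹(C4)` (closed subgroup, Krull).
With `Nat.card (𝓞 L ⧸ w) = p ^ n` and `σ` a Frobenius at `A`:
* `σ ^ n` acts trivially on `𝓞 L ⧸ w`, so `ρ(σ) ^ n ∈ C4` and `f ≤ n`;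
* `ρ(σ) ^ f ∈ C4`, so `σ ^ f` fixes `L`, so `y ^ (p ^ f) = y` on `𝓞 L ⧸ w`, so `p ^ n ≤ p ^ f`.
`S₂` = primes dividing the norm of a place of `T`.
-/

set_option autoImplicit false

open IsDedekindDomain NumberField

noncomputable section

namespace Fermat.Agent.LT.A2.H138

open Fermat.Agent.LT.A2.H38

local notation "Qb" => AlgebraicClosure ℚ
local notation "Γℚ" => (AlgebraicClosure ℚ ≃ₐ[ℚ] AlgebraicClosure ℚ)

/-! ## The subgroup `ρ⁻¹(C4)` is closed -/

theorem subC4_isClosed138 (ρ : Γℚ →* GL (Fin 2) (ZMod 3)) (hρ : Continuous ρ) :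
    IsClosed (subC4 ρ : Set Γℚ) := by
  have h : (subC4 ρ : Set Γℚ) = ρ ⁻¹' (C4 : Set (GL (Fin 2) (ZMod 3))) := rfl
  rw [h]
  exact (isClosed_discrete _).preimage hρ

/-- An element of `G_ℚ` fixing `L` pointwise lies in `ρ⁻¹(C4)`. -/
theorem mem_C4_of_fixes138 (ρ : Γℚ →* GL (Fin 2) (ZMod 3)) (hρ : Continuous ρ) {τ : Γℚ}
    (h : ∀ x ∈ fieldL ρ, τ x = x) : ρ τ ∈ C4 := by
  have := isGalois_Qb138
  have h1 := InfiniteGalois.fixingSubgroup_fixedField (k := ℚ) (K := Qb)
    ⟨subC4 ρ, subC4_isClosed138 ρ hρ⟩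
  have h2 : τ ∈ (fieldL ρ).fixingSubgroup :=
    (IntermediateField.mem_fixingSubgroup_iff _ _).mpr h
  have h3 : (fieldL ρ).fixingSubgroup = subC4 ρ := h1
  rw [h3] at h2
  exact Subgroup.mem_comap.mp h2

/-- Elements of `ρ⁻¹(C4)` fix `L` pointwise. -/
theorem fixes_of_mem_C4_138 (ρ : Γℚ →* GL (Fin 2) (ZMod 3)) {τ : Γℚ} (h : ρ τ ∈ C4)
    {x : Qb} (hx : x ∈ fieldL ρ) : τ x = x :=
  (IntermediateField.mem_fixedField_iff _ _).mp hx τ (Subgroup.mem_comap.mpr h)

/-! ## An integral primitive element -/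

theorem isIntegral_coe138 (L : IntermediateField ℚ Qb) (x : 𝓞 L) :
    IsIntegral ℤ (((x : L)) : Qb) := by
  have h := RingOfIntegers.isIntegral_coe x
  exact h.map (IsScalarTower.toAlgHom ℤ L Qb)

/-- There is `a ∈ 𝓞 L` such that every `τ ∈ G_ℚ` fixing `a` fixes `L` pointwise. -/
theorem exists_int_gen138 (L : IntermediateField ℚ Qb) [NumberField L] :
    ∃ a : 𝓞 L, ∀ τ : Γℚ, τ (((a : L)) : Qb) = (((a : L)) : Qb) → ∀ x ∈ L, τ x = x := by
  obtain ⟨α0, hα0⟩ := Field.exists_primitive_element ℚ L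
  have halg : IsAlgebraic ℚ α0 := Algebra.IsAlgebraic.isAlgebraic α0
  have hint0 : IsIntegral ℚ α0 := halg.isIntegral
  obtain ⟨m, hm⟩ := IsIntegral.exists_multiple_integral_of_isLocalization
    (nonZeroDivisors ℤ) (Rₘ := ℚ) α0 hint0
  have hm0 : (m : ℤ) ≠ 0 := nonZeroDivisors.coe_ne_zero m
  refine ⟨IsIntegralClosure.mk' (𝓞 L) (m • α0) hm, ?_⟩
  intro τ hτ x hx
  have hcoe : algebraMap (𝓞 L) L (IsIntegralClosure.mk' (𝓞 L) (m • α0) hm) = m • α0 :=
    IsIntegralClosure.algebraMap_mk' (𝓞 L) (m • α0) hm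
  have hval : (((IsIntegralClosure.mk' (𝓞 L) (m • α0) hm : 𝓞 L) : L) : Qb)
      = ((m : ℤ) : Qb) * (α0 : Qb) := by
    have h1 : ((IsIntegralClosure.mk' (𝓞 L) (m • α0) hm : 𝓞 L) : L) = m • α0 := hcoe
    rw [h1]
    have h2 : (m • α0 : L) = ((m : ℤ) : L) * α0 := by
      rw [Submonoid.smul_def, zsmul_eq_mul]
    rw [h2]
    push_cast
    rfl
  rw [hval, map_mul, map_intCast] at hτ
  have hτ0 : τ (α0 : Qb) = (α0 : Qb) := by
    have hmQ : ((m : ℤ) : Qb) ≠ 0 := by exact_mod_cast hm0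
    exact mul_left_cancel₀ hmQ hτ
  have hadj : Algebra.adjoin ℚ {α0} = ⊤ := by
    have h1 := IntermediateField.adjoin_simple_toSubalgebra_of_isAlgebraic halg
    rw [hα0] at h1
    rw [← h1]
    rfl
  have hext : (τ.toAlgHom.comp L.val : L →ₐ[ℚ] Qb) = L.val := by
    apply AlgHom.ext_of_adjoin_eq_top hadj
    intro y hy
    rw [Set.mem_singleton_iff] at hy
    subst hy
    exact hτ0
  have := congrArg (fun φ : L →ₐ[ℚ] Qb => φ ⟨x, hx⟩) hext
  exact this

/-! ## The reduction map `𝓞 L → k_A` -/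

/-- The reduction map `𝓞 L → A / 𝔪_A`. -/
def redMap138 (L : IntermediateField ℚ Qb) (A : ValuationSubring Qb) :
    𝓞 L →+* IsLocalRing.ResidueField A :=
  (IsLocalRing.residue A).comp
    (((algebraMap L Qb).comp (algebraMap (𝓞 L) L)).codRestrict A
      (fun x => mem_of_isIntegral138 A (isIntegral_coe138 L x)))

theorem redMap138_apply (L : IntermediateField ℚ Qb) (A : ValuationSubring Qb) (x : 𝓞 L) :
    redMap138 L A x = IsLocalRing.residue A
      ⟨(((x : L)) : Qb), mem_of_isIntegral138 A (isIntegral_coe138 L x)⟩ := rfl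

theorem redMap138_eq_zero_iff (L : IntermediateField ℚ Qb) (A : ValuationSubring Qb) (x : 𝓞 L) :
    redMap138 L A x = 0 ↔ (((x : L)) : Qb) ∈ A.nonunits := by
  rw [redMap138_apply, IsLocalRing.residue_eq_zero_iff,
    ValuationSubring.mem_nonunits_iff_exists_mem_maximalIdeal]
  constructor
  · intro h
    exact ⟨_, h⟩
  · rintro ⟨_, h⟩
    exact h

/-- The action of the decomposition group on the image of `𝓞 L`. -/
theorem smul_redMap138 (L : IntermediateField ℚ Qb) (A : ValuationSubring Qb) {τ : Γℚ}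
    (hτ : τ ∈ A.decompositionSubgroup ℚ) (x : 𝓞 L) :
    (⟨τ, hτ⟩ : A.decompositionSubgroup ℚ) • redMap138 L A x
      = IsLocalRing.residue A ⟨τ (((x : L)) : Qb),
          apply_mem_of_mem_decomp138 A hτ (mem_of_isIntegral138 A (isIntegral_coe138 L x))⟩ := by
  rw [redMap138_apply, residue_smul138]

/-- If `τ` fixes `x`, it fixes the class of `x`. -/
theorem smul_redMap138_of_fixed (L : IntermediateField ℚ Qb) (A : ValuationSubring Qb) {τ : Γℚ}
    (hτ : τ ∈ A.decompositionSubgroup ℚ) (x : 𝓞 L)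
    (hx : τ (((x : L)) : Qb) = (((x : L)) : Qb)) :
    (⟨τ, hτ⟩ : A.decompositionSubgroup ℚ) • redMap138 L A x = redMap138 L A x := by
  rw [smul_redMap138, redMap138_apply]
  congr 1
  exact Subtype.ext hx

/-! ## The places of `T` -/

/-- The residue characteristic of a place under `A | p` is `p`. -/
theorem natCast_mem_of_placeUnder138 (L : IntermediateField ℚ Qb) [NumberField L]
    {A : ValuationSubring Qb} {p : ℕ} (hA : A.LiesOverPrime p)
    {w : HeightOneSpectrum (𝓞 L)} (hw : PlaceUnder L A w) : ((p : ℕ) : 𝓞 L) ∈ w.asIdeal := by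
  rw [hw]
  have h : ((((p : ℕ) : 𝓞 L) : L) : Qb) = (p : Qb) := by
    push_cast
    rfl
  rw [h]
  exact hA

theorem dvd_absNorm_of_placeUnder138 (L : IntermediateField ℚ Qb) [NumberField L]
    {A : ValuationSubring Qb} {p : ℕ} (hp : p.Prime) (hA : A.LiesOverPrime p)
    {w : HeightOneSpectrum (𝓞 L)} (hw : PlaceUnder L A w) :
    p ∣ Ideal.absNorm w.asIdeal := by
  have h1 : ((Ideal.absNorm w.asIdeal : ℕ) : 𝓞 L) ∈ w.asIdeal := by
    have := Ideal.absNorm_mem w.asIdeal
    exact_mod_cast this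
  rw [hw] at h1
  have h2 : ((((Ideal.absNorm w.asIdeal : ℕ) : 𝓞 L) : L) : Qb)
      = ((Ideal.absNorm w.asIdeal : ℕ) : Qb) := by
    push_cast
    rfl
  rw [h2] at h1
  exact nat_dvd_of_mem_nonunits138 A hp hA h1

/-! ## The residue degree -/

/-- **The cardinality of the residue field of `w = A ∩ L`** in terms of a Frobenius element. -/
theorem card_quot_eq138 (ρ : Γℚ →* GL (Fin 2) (ZMod 3)) (hρ : Continuous ρ)
    [NumberField (fieldL ρ)] (a : 𝓞 (fieldL ρ))
    (ha : ∀ τ : Γℚ, τ (((a : fieldL ρ)) : Qb) = (((a : fieldL ρ)) : Qb) →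
      ∀ x ∈ fieldL ρ, τ x = x)
    {p : ℕ} (hp : p.Prime) (A : ValuationSubring Qb) (hA : A.LiesOverPrime p)
    (hsep : ∀ τ : Γℚ, τ (((a : fieldL ρ)) : Qb) - (((a : fieldL ρ)) : Qb) ∈ A.nonunits →
      τ (((a : fieldL ρ)) : Qb) = (((a : fieldL ρ)) : Qb))
    {σ : Γℚ} (hσ : A.IsFrobeniusAt σ p)
    {w : HeightOneSpectrum (𝓞 (fieldL ρ))} (hw : PlaceUnder (fieldL ρ) A w)
    {f : ℕ} (hf : IsLeastPowC4 (ρ σ) f) :
    Nat.card (𝓞 (fieldL ρ) ⧸ w.asIdeal) = p ^ f := by
  classical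
  have : w.asIdeal.IsMaximal := w.isMaximal
  let _ : Field (𝓞 (fieldL ρ) ⧸ w.asIdeal) := Ideal.Quotient.field w.asIdeal
  have : Finite (𝓞 (fieldL ρ) ⧸ w.asIdeal) :=
    Ideal.finiteQuotientOfFreeOfNeBot w.asIdeal w.ne_bot
  let _ : Fintype (𝓞 (fieldL ρ) ⧸ w.asIdeal) := Fintype.ofFinite _
  have hpw := natCast_mem_of_placeUnder138 (fieldL ρ) hA hw
  have : CharP (𝓞 (fieldL ρ) ⧸ w.asIdeal) p := by
    rw [CharP.charP_iff_prime_eq_zero hp]
    have : ((p : ℕ) : 𝓞 (fieldL ρ) ⧸ w.asIdeal)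
        = Ideal.Quotient.mk w.asIdeal ((p : ℕ) : 𝓞 (fieldL ρ)) := by
      rw [map_natCast]
    rw [this]
    exact Ideal.Quotient.eq_zero_iff_mem.mpr hpw
  obtain ⟨n, -, hcard⟩ := FiniteField.card (𝓞 (fieldL ρ) ⧸ w.asIdeal) p
  -- the embedding of the residue field of `w` in the residue field of `A`
  let ι : (𝓞 (fieldL ρ) ⧸ w.asIdeal) →+* IsLocalRing.ResidueField A :=
    Ideal.Quotient.lift w.asIdeal (redMap138 (fieldL ρ) A)
      (fun x hx => (redMap138_eq_zero_iff (fieldL ρ) A x).mpr ((hw x).mp hx))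
  have hι : ∀ x : 𝓞 (fieldL ρ), ι (Ideal.Quotient.mk w.asIdeal x) = redMap138 (fieldL ρ) A x :=
    fun x => Ideal.Quotient.lift_mk _ _ _
  have hιinj : Function.Injective ι := RingHom.injective ι
  have hσD : σ ∈ A.decompositionSubgroup ℚ := hσ.mem_decompositionSubgroup
  -- `f ≤ n`
  have hfn : f ≤ n := by
    have hFn := isFrobeniusAt_pow138 A hσ n
    obtain ⟨hσn, hxn⟩ := hFn
    have h1 : (⟨σ ^ (n : ℕ), hσn⟩ : A.decompositionSubgroup ℚ) • redMap138 (fieldL ρ) A a
        = redMap138 (fieldL ρ) A a := by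
      rw [hxn, ← hι, ← map_pow, ← hcard, FiniteField.pow_card]
    rw [redMap138_apply] at h1
    have h2 := sub_mem_nonunits_of_smul_residue138 A hσn _ h1
    have h3 := hsep (σ ^ (n : ℕ)) h2
    have h4 : ρ (σ ^ (n : ℕ)) ∈ C4 := mem_C4_of_fixes138 ρ hρ (ha _ h3)
    rw [map_pow] at h4
    by_contra hlt
    push Not at hlt
    exact hf.2.2 n n.pos hlt h4
  -- `n ≤ f`
  have hnf : (n : ℕ) ≤ f := by
    have h4 : ρ (σ ^ f) ∈ C4 := by rw [map_pow]; exact hf.2.1
    have hFf := isFrobeniusAt_pow138 A hσ f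
    obtain ⟨hσf, hxf⟩ := hFf
    have hall : ∀ y : 𝓞 (fieldL ρ) ⧸ w.asIdeal, y ^ (p ^ f) = y := by
      intro y
      obtain ⟨x, rfl⟩ := Ideal.Quotient.mk_surjective y
      apply hιinj
      rw [map_pow, hι, ← hxf]
      exact smul_redMap138_of_fixed (fieldL ρ) A hσf x
        (fixes_of_mem_C4_138 ρ h4 (SetLike.coe_mem (x : fieldL ρ)))
    have hf0 : f ≠ 0 := hf.1.ne'
    have hne : (Polynomial.X ^ p ^ f - Polynomial.X :
        Polynomial (𝓞 (fieldL ρ) ⧸ w.asIdeal)) ≠ 0 :=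
      FiniteField.X_pow_card_pow_sub_X_ne_zero _ hf0 hp.one_lt
    have hdeg : (Polynomial.X ^ p ^ f - Polynomial.X :
        Polynomial (𝓞 (fieldL ρ) ⧸ w.asIdeal)).natDegree = p ^ f :=
      FiniteField.X_pow_card_pow_sub_X_natDegree_eq _ hf0 hp.one_lt
    have hsub : (Finset.univ : Finset (𝓞 (fieldL ρ) ⧸ w.asIdeal))
        ⊆ (Polynomial.X ^ p ^ f - Polynomial.X :
          Polynomial (𝓞 (fieldL ρ) ⧸ w.asIdeal)).roots.toFinset := by
      intro y _
      rw [Multiset.mem_toFinset, Polynomial.mem_roots hne, Polynomial.IsRoot.def]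
      simp only [Polynomial.eval_sub, Polynomial.eval_pow, Polynomial.eval_X]
      rw [hall y, sub_self]
    have hle : Fintype.card (𝓞 (fieldL ρ) ⧸ w.asIdeal) ≤ p ^ f := by
      calc Fintype.card (𝓞 (fieldL ρ) ⧸ w.asIdeal)
          = (Finset.univ : Finset (𝓞 (fieldL ρ) ⧸ w.asIdeal)).card := rfl
        _ ≤ _ := Finset.card_le_card hsub
        _ ≤ _ := Multiset.toFinset_card_le _
        _ ≤ _ := Polynomial.card_roots' _
        _ = p ^ f := hdeg
    rw [hcard] at hle
    exact (Nat.pow_le_pow_iff_right hp.one_lt).mp hle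
  rw [Nat.card_eq_fintype_card, hcard, le_antisymm hnf hfn]

/-! ## The leaf -/

/-- **Leaf FROB-L (registry 817), unconditional.** -/
theorem frobLC138 : FrobLC := by
  intro ρ Ψ hyp _ T
  classical
  obtain ⟨a, ha⟩ := exists_int_gen138 (fieldL ρ)
  obtain ⟨S1, hS1⟩ := exists_sep_primes138 (isIntegral_coe138 (fieldL ρ) a)
  refine ⟨S1 ∪ T.biUnion (fun w => (Ideal.absNorm w.asIdeal).primeFactors), ?_⟩
  intro p hp hpS A hA σ hσ w hw
  rw [Finset.mem_union, not_or] at hpS
  obtain ⟨hpS1, hpS2⟩ := hpS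
  refine ⟨fun hwT => hpS2 ?_, fun f hf => ?_⟩
  · rw [Finset.mem_biUnion]
    refine ⟨w, hwT, ?_⟩
    rw [Nat.mem_primeFactors]
    refine ⟨hp, dvd_absNorm_of_placeUnder138 (fieldL ρ) hp hA hw, ?_⟩
    rw [Ne, Ideal.absNorm_eq_zero_iff]
    exact w.ne_bot
  · rw [card_quot_eq138 ρ hyp.cont a ha hp A hA (hS1 p hp hpS1 A hA) hσ hw hf]
    exact isFrobeniusAt_pow138 A hσ f

end Fermat.Agent.LT.A2.H138

end

end
-- ===== PACK-END LT/A2/H138/FrobL.lean

-- ===== PACK-BEGIN LT/A2/H144/CharRho.lean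
section



/-!
# Row LT, tower A2, branch GALSEED, leaf A2.01.07 `CharRhoC` (helper144), OFF-MAIN

`charRhoC : Fermat.Agent.LT.A2.H38.CharRhoC` (VERBATIM, `LT/A2/H38/ArtinSeedSpec.lean`,
origin/helper38@fd6f38a61): under the hypotheses of the frozen S47 the character
`χ_ρ = θ ∘ ρ` of `G_L = ρ⁻¹(C4)` exists, has finite order (it is trivial on `ker ρ`, whose fixed
field is a number field) and takes the values `thetaVal (ρ σ)`.

Route: `C4 = {1, g0, g0², g0³}`, `thetaVal (g0 ^ n) = i ^ n`, so `thetaVal` is a character of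
`C4`; `ρ⁻¹(C4)` is closed (`ρ` continuous, `GL₂(𝔽₃)` discrete), so by the infinite Galois
correspondence the elements of `G_ℚ` fixing `L` are exactly `ρ⁻¹(C4)`; `ker ρ` is open, so its
fixed field is finite over `ℚ` (`InfiniteGalois.isOpen_iff_finite`).
-/

set_option autoImplicit false

open scoped MatrixGroups

noncomputable section

namespace Fermat.Agent.LT.A2.H144

open Fermat.Agent.LT.A2.H38 Fermat.Agent.LT

local notation "Γℚ" => (AlgebraicClosure ℚ ≃ₐ[ℚ] AlgebraicClosure ℚ)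

/-! ## The character `θ` of `C4` -/

theorem g0_ne_one : g0 ≠ 1 := by
  intro h
  have := congrArg (fun u : GL (Fin 2) (ZMod 3) => (u : Matrix (Fin 2) (Fin 2) (ZMod 3)) 0 0) h
  revert this
  decide

theorem g0_sq_ne_one : g0 ^ 2 ≠ 1 := by
  intro h
  have := congrArg (fun u : GL (Fin 2) (ZMod 3) => (u : Matrix (Fin 2) (Fin 2) (ZMod 3)) 0 0) h
  revert this
  decide

theorem g0_cube_ne_one : g0 ^ 3 ≠ 1 := by
  intro h
  have := congrArg (fun u : GL (Fin 2) (ZMod 3) => (u : Matrix (Fin 2) (Fin 2) (ZMod 3)) 0 0) h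
  revert this
  decide

theorem g0_sq_ne_g0 : g0 ^ 2 ≠ g0 := by
  intro h
  have := congrArg (fun u : GL (Fin 2) (ZMod 3) => (u : Matrix (Fin 2) (Fin 2) (ZMod 3)) 0 0) h
  revert this
  decide

theorem g0_cube_ne_g0 : g0 ^ 3 ≠ g0 := by
  intro h
  have := congrArg (fun u : GL (Fin 2) (ZMod 3) => (u : Matrix (Fin 2) (Fin 2) (ZMod 3)) 0 1) h
  revert this
  decide

theorem g0_cube_ne_g0_sq : g0 ^ 3 ≠ g0 ^ 2 := by
  intro h
  have := congrArg (fun u : GL (Fin 2) (ZMod 3) => (u : Matrix (Fin 2) (Fin 2) (ZMod 3)) 0 0) h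
  revert this
  decide

theorem thetaVal_one : thetaVal 1 = 1 := by
  simp [thetaVal]

theorem thetaVal_g0 : thetaVal g0 = Complex.I := by
  simp [thetaVal, g0_ne_one]

theorem thetaVal_g0_sq : thetaVal (g0 ^ 2) = -1 := by
  simp [thetaVal, g0_sq_ne_one, g0_sq_ne_g0]

theorem thetaVal_g0_cube : thetaVal (g0 ^ 3) = -Complex.I := by
  simp [thetaVal, g0_cube_ne_one, g0_cube_ne_g0, g0_cube_ne_g0_sq]

theorem g0_pow_mod (n : ℕ) : g0 ^ n = g0 ^ (n % 4) := by
  conv_lhs => rw [← Nat.div_add_mod n 4, pow_add, pow_mul, g0_pow_four, one_pow, one_mul]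

theorem I_pow_mod (n : ℕ) : Complex.I ^ n = Complex.I ^ (n % 4) := by
  conv_lhs => rw [← Nat.div_add_mod n 4, pow_add, pow_mul, Complex.I_pow_four, one_pow, one_mul]

/-- `θ (g0 ^ n) = i ^ n`. -/
theorem thetaVal_g0_pow (n : ℕ) : thetaVal (g0 ^ n) = Complex.I ^ n := by
  rw [g0_pow_mod n, I_pow_mod n]
  have h : n % 4 < 4 := Nat.mod_lt _ (by norm_num)
  generalize n % 4 = r at h
  interval_cases r
  · simp [_root_.Fermat.Agent.LT.A2.H144.thetaVal_one]
  · simp [_root_.Fermat.Agent.LT.A2.H144.thetaVal_g0]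
  · rw [_root_.Fermat.Agent.LT.A2.H144.thetaVal_g0_sq, Complex.I_sq]
  · rw [_root_.Fermat.Agent.LT.A2.H144.thetaVal_g0_cube, pow_succ, Complex.I_sq]; ring

theorem exists_pow_of_mem_C4 {h : GL (Fin 2) (ZMod 3)} (hh : h ∈ C4) : ∃ n : ℕ, g0 ^ n = h := by
  have : h ∈ Submonoid.powers g0 := mem_powers_iff_mem_zpowers.mpr hh
  exact Submonoid.mem_powers_iff _ _ |>.mp this

theorem thetaVal_ne_zero {h : GL (Fin 2) (ZMod 3)} (hh : h ∈ C4) : thetaVal h ≠ 0 := by
  obtain ⟨n, rfl⟩ := exists_pow_of_mem_C4 hh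
  rw [thetaVal_g0_pow]
  exact pow_ne_zero _ Complex.I_ne_zero

theorem thetaVal_mul {x y : GL (Fin 2) (ZMod 3)} (hx : x ∈ C4) (hy : y ∈ C4) :
    thetaVal (x * y) = thetaVal x * thetaVal y := by
  obtain ⟨a, rfl⟩ := exists_pow_of_mem_C4 hx
  obtain ⟨b, rfl⟩ := exists_pow_of_mem_C4 hy
  rw [← pow_add, thetaVal_g0_pow, thetaVal_g0_pow, thetaVal_g0_pow, pow_add]

/-- The character `θ : C4 → ℂˣ`, `g0 ^ n ↦ i ^ n`. -/
def thetaHom : ↥C4 →* ℂˣ where
  toFun x := Units.mk0 (thetaVal (x : GL (Fin 2) (ZMod 3))) (thetaVal_ne_zero x.2)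
  map_one' := Units.ext (by simp [_root_.Fermat.Agent.LT.A2.H144.thetaVal_one])
  map_mul' x y := Units.ext (by simp [thetaVal_mul x.2 y.2])

@[simp] theorem thetaHom_val (x : ↥C4) :
    ((thetaHom x : ℂˣ) : ℂ) = thetaVal (x : GL (Fin 2) (ZMod 3)) := rfl

/-! ## `G_L = ρ⁻¹(C4)` -/

theorem isClosed_subC4 {ρ : Γℚ →* GL (Fin 2) (ZMod 3)} (hρ : Continuous ρ) :
    IsClosed ((subC4 ρ : Subgroup Γℚ) : Set Γℚ) := by
  have h : IsClosed ((C4 : Subgroup (GL (Fin 2) (ZMod 3))) : Set (GL (Fin 2) (ZMod 3))) :=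
    isClosed_discrete _
  exact h.preimage hρ

theorem galOf_jL_eq (ρ : Γℚ →* GL (Fin 2) (ZMod 3)) :
    CFT.galOf (jL ρ) = (fieldL ρ).fixingSubgroup := by
  ext σ
  rw [IntermediateField.mem_fixingSubgroup_iff]
  constructor
  · intro h x hx
    exact h ⟨x, hx⟩
  · intro h x
    exact h x.1 x.2

theorem galOf_jL_eq_subC4 {ρ : Γℚ →* GL (Fin 2) (ZMod 3)} (hρ : Continuous ρ) :
    CFT.galOf (jL ρ) = subC4 ρ := by
  rw [galOf_jL_eq]
  exact InfiniteGalois.fixingSubgroup_fixedField ⟨subC4 ρ, isClosed_subC4 hρ⟩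

theorem map_mem_C4 {ρ : Γℚ →* GL (Fin 2) (ZMod 3)} (hρ : Continuous ρ)
    (σ : ↥(CFT.galOf (jL ρ))) : ρ (σ : Γℚ) ∈ C4 := by
  have h : (σ : Γℚ) ∈ subC4 ρ := by
    rw [← galOf_jL_eq_subC4 hρ]
    exact σ.2
  exact Subgroup.mem_comap.mp h

/-! ## The fixed field of `ker ρ` is a number field -/

theorem isOpen_ker {ρ : Γℚ →* GL (Fin 2) (ZMod 3)} (hρ : Continuous ρ) :
    IsOpen ((ρ.ker : Subgroup Γℚ) : Set Γℚ) := by
  have h : IsOpen ({1} : Set (GL (Fin 2) (ZMod 3))) := isOpen_discrete _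
  have := h.preimage hρ
  have e : ((ρ.ker : Subgroup Γℚ) : Set Γℚ) = ρ ⁻¹' {1} := by
    ext σ
    simp [MonoidHom.mem_ker]
  rw [e]; exact this

theorem isClosed_ker {ρ : Γℚ →* GL (Fin 2) (ZMod 3)} (hρ : Continuous ρ) :
    IsClosed ((ρ.ker : Subgroup Γℚ) : Set Γℚ) := by
  have h : IsClosed ({1} : Set (GL (Fin 2) (ZMod 3))) := isClosed_discrete _
  have := h.preimage hρ
  have e : ((ρ.ker : Subgroup Γℚ) : Set Γℚ) = ρ ⁻¹' {1} := by
    ext σ
    simp [MonoidHom.mem_ker]
  rw [e]; exact this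

theorem fixingSubgroup_fixedField_ker {ρ : Γℚ →* GL (Fin 2) (ZMod 3)} (hρ : Continuous ρ) :
    (IntermediateField.fixedField ρ.ker).fixingSubgroup = ρ.ker :=
  InfiniteGalois.fixingSubgroup_fixedField ⟨ρ.ker, isClosed_ker hρ⟩

theorem finiteDimensional_fixedField_ker {ρ : Γℚ →* GL (Fin 2) (ZMod 3)} (hρ : Continuous ρ) :
    FiniteDimensional ℚ (IntermediateField.fixedField ρ.ker) := by
  rw [← InfiniteGalois.isOpen_iff_finite, fixingSubgroup_fixedField_ker hρ]
  exact isOpen_ker hρ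

/-! ## The leaf -/

/-- The character `χ_ρ = θ ∘ ρ` of `G_L`. -/
def chiRho {ρ : Γℚ →* GL (Fin 2) (ZMod 3)} (hρ : Continuous ρ) :
    ↥(CFT.galOf (jL ρ)) →* ℂˣ :=
  thetaHom.comp ((ρ.comp (CFT.galOf (jL ρ)).subtype).codRestrict C4 (map_mem_C4 hρ))

theorem chiRho_val {ρ : Γℚ →* GL (Fin 2) (ZMod 3)} (hρ : Continuous ρ)
    (σ : ↥(CFT.galOf (jL ρ))) : ((chiRho hρ σ : ℂˣ) : ℂ) = thetaVal (ρ (σ : Γℚ)) := rfl

/-- **Leaf A2.01.07 `CharRhoC`.** -/
theorem charRhoC : CharRhoC := by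
  intro ρ Ψ hyp
  refine ⟨chiRho hyp.cont, ⟨IntermediateField.fixedField ρ.ker,
    finiteDimensional_fixedField_ker hyp.cont, ?_⟩, chiRho_val hyp.cont⟩
  intro σ hσ
  rw [fixingSubgroup_fixedField_ker hyp.cont] at hσ
  have h1 : ρ (σ : Γℚ) = 1 := MonoidHom.mem_ker.mp hσ
  apply Units.ext
  rw [chiRho_val, h1, _root_.Fermat.Agent.LT.A2.H144.thetaVal_one]
  rfl

end Fermat.Agent.LT.A2.H144

end

end
-- ===== PACK-END LT/A2/H144/CharRho.lean

-- ===== PACK-BEGIN LT/A2/H144/TotCplxL.lean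
section



/-!
# Row LT, tower A2, branch GALSEED, leaf A2.01.06 `TotCplxLC` (helper144), OFF-MAIN

`totCplxLC : Fermat.Agent.LT.A2.H38.TotCplxLC` (VERBATIM, `LT/A2/H38/ArtinSeedSpec.lean`,
origin/helper38@fd6f38a61): `L = fieldL ρ` is totally complex.

Route (direct, independent of `TotCplxC`): a root `ζ` of `X² + X + 1` in `ℚ̄` is a cube root of
unity, hence `σ ζ = ζ ^ (ω̄ σ)` with `ω̄ = modThreeCyclotomicChar`; on `ρ⁻¹(C4)` the determinant
is `1`, so `ζ ∈ L`; a real embedding of `L` would give a real root of `X² + X + 1`.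
-/

set_option autoImplicit false

open scoped MatrixGroups
open NumberField

noncomputable section

namespace Fermat.Agent.LT.A2.H144

open Fermat.Agent.LT.A2.H38 Fermat.Agent.LT WeierstrassCurve

local notation "Γℚ" => (AlgebraicClosure ℚ ≃ₐ[ℚ] AlgebraicClosure ℚ)

/-- A root of `X² + X + 1` in `ℚ̄`. -/
theorem exists_zeta : ∃ ζ : AlgebraicClosure ℚ, ζ ^ 2 + ζ + 1 = 0 := by
  obtain ⟨ζ, hζ⟩ := IsAlgClosed.exists_root
    (Polynomial.X ^ 2 + Polynomial.X + 1 : Polynomial (AlgebraicClosure ℚ)) (by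
      have h : (Polynomial.X ^ 2 + Polynomial.X + 1 : Polynomial (AlgebraicClosure ℚ)).degree
          = 2 := by compute_degree!
      rw [h]; norm_num)
  refine ⟨ζ, ?_⟩
  simpa using hζ

theorem det_eq_one_of_mem_C4 {g : GL (Fin 2) (ZMod 3)} (hg : g ∈ C4) :
    Matrix.GeneralLinearGroup.det g = 1 := by
  obtain ⟨k, rfl⟩ := Subgroup.mem_zpowers_iff.mp hg
  rw [map_zpow, det_g0, one_zpow]

/-- An automorphism with trivial cyclotomic character modulo `3` fixes `ζ`. -/
theorem fix_zeta {ζ : AlgebraicClosure ℚ} (hζ : ζ ^ 2 + ζ + 1 = 0) (σ : Γℚ)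
    (hσ : modThreeCyclotomicChar σ = 1) : σ ζ = ζ := by
  have h3 : ζ ^ 3 = 1 := by
    have : ζ ^ 3 - 1 = (ζ - 1) * (ζ ^ 2 + ζ + 1) := by ring
    rw [hζ, mul_zero, sub_eq_zero] at this
    exact this
  have h0 : ζ ≠ 0 := by
    rintro rfl
    norm_num at h3
  have hmem : Units.mk0 ζ h0 ∈ rootsOfUnity 3 (AlgebraicClosure ℚ) := by
    rw [mem_rootsOfUnity]
    apply Units.ext
    simpa using h3
  have hspec := modularCyclotomicCharacter.spec (AlgebraicClosure ℚ)
    (IsAlgClosed.card_rootsOfUnity_eq (AlgebraicClosure ℚ) 3)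
    (σ : AlgebraicClosure ℚ ≃+* AlgebraicClosure ℚ) hmem
  have hchar : modularCyclotomicCharacter (AlgebraicClosure ℚ)
      (IsAlgClosed.card_rootsOfUnity_eq (AlgebraicClosure ℚ) 3)
      (σ : AlgebraicClosure ℚ ≃+* AlgebraicClosure ℚ) = 1 := by
    rw [← modThreeCyclotomicChar_apply]; exact hσ
  rw [hchar] at hspec
  have hval : ((1 : (ZMod 3)ˣ) : ZMod 3).val = 1 := by decide
  rw [hval, pow_one] at hspec
  simpa using hspec

theorem zeta_mem_fieldL {ρ : Γℚ →* GL (Fin 2) (ZMod 3)}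
    (hdet : ∀ σ : Γℚ, Matrix.GeneralLinearGroup.det (ρ σ) = modThreeCyclotomicChar σ)
    {ζ : AlgebraicClosure ℚ} (hζ : ζ ^ 2 + ζ + 1 = 0) : ζ ∈ fieldL ρ := by
  rw [fieldL, IntermediateField.mem_fixedField_iff]
  intro σ hσ
  have h1 : ρ σ ∈ C4 := Subgroup.mem_comap.mp hσ
  exact fix_zeta hζ σ (by rw [← hdet σ, det_eq_one_of_mem_C4 h1])

/-- **Leaf A2.01.06 `TotCplxLC`.** -/
theorem totCplxLC : TotCplxLC := by
  intro ρ Ψ hyp _ w
  obtain ⟨ζ, hζ⟩ := exists_zeta
  rcases w.isReal_or_isComplex with hr | hc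
  · exfalso
    set z : fieldL ρ := ⟨ζ, zeta_mem_fieldL hyp.det hζ⟩ with hz
    have hz2 : z ^ 2 + z + 1 = 0 := by
      apply Subtype.ext
      simpa using hζ
    have hφ : NumberField.ComplexEmbedding.IsReal w.embedding :=
      (NumberField.InfinitePlace.isReal_iff).mp hr
    have hconj : (starRingEnd ℂ) (w.embedding z) = w.embedding z := by
      have h1 := NumberField.ComplexEmbedding.conjugate_coe_eq w.embedding z
      have h2 : NumberField.ComplexEmbedding.conjugate w.embedding = w.embedding :=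
        NumberField.ComplexEmbedding.isReal_iff.mp hφ
      rw [h2] at h1
      exact h1.symm
    have him : (w.embedding z).im = 0 := Complex.conj_eq_iff_im.mp hconj
    have hre : ((w.embedding z).re : ℂ) = w.embedding z := by
      apply Complex.ext <;> simp [him]
    have heq : (w.embedding z) ^ 2 + w.embedding z + 1 = 0 := by
      have := congrArg w.embedding hz2
      simpa using this
    rw [← hre] at heq
    have hreal : (w.embedding z).re ^ 2 + (w.embedding z).re + 1 = 0 := by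
      exact_mod_cast heq
    nlinarith [sq_nonneg ((w.embedding z).re + 1 / 2)]
  · exact hc

end Fermat.Agent.LT.A2.H144

end

end
-- ===== PACK-END LT/A2/H144/TotCplxL.lean

-- ===== PACK-BEGIN LT/A2/H444/FinOrd.lean
section




/-!
# Row LT, tower A2, branch GALSEED, leaf `FinOrdC` (registry row 816, helper444)

OFF-MAIN.  `finOrdC444 : Fermat.Agent.LT.A2.H38.FinOrdC` -- the Prop of
`LT/A2/H38/ArtinSeedSpec.lean` (origin/helper38@fd6f38a61) VERBATIM, unconditional.

A Hecke character `θ` attached to a Galois character `χ` of finite order has finite order: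
`χ ^ n = 1` for `n = [M : ℚ]`, `M` the normal closure of the field cut out by `χ`; every finite
place `v` of `K` has a Frobenius element in `G_K` (`exists_frobAt444`), so `θ ^ n` is trivial on
the ideles supported at a single place `v ∉ S`; `θ ^ n` is continuous and trivial on the principal
ideles, hence trivial (`idele_char_trivial444`: weak approximation).
-/

set_option autoImplicit false
set_option linter.unusedVariables false
set_option linter.unusedSectionVars false
set_option linter.style.haveILetI false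

open IsDedekindDomain NumberField

noncomputable section

namespace Fermat.Agent.LT.A2.H444

open Fermat.Agent.LT Fermat.Agent.LT.H556 Fermat.Agent.LT.A2 Fermat.Agent.LT.A2.H38

local notation "Qb" => AlgebraicClosure ℚ
local notation "GQ" => (AlgebraicClosure ℚ ≃ₐ[ℚ] AlgebraicClosure ℚ)

/-- A character of finite order (in the sense of `CFT.IsFiniteOrderChar`) has a finite
exponent. -/
theorem exists_exponent444 {K : Type} [Field K] (j : K →+* Qb) (χ : ↥(CFT.galOf j) →* ℂˣ)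
    (h : CFT.IsFiniteOrderChar j χ) :
    ∃ n : ℕ, 0 < n ∧ ∀ σ : ↥(CFT.galOf j), χ σ ^ n = 1 := by
  obtain ⟨F, hFfin, hF⟩ := h
  haveI : Algebra.IsAlgebraic ℚ (AlgebraicClosure ℚ) := AlgebraicClosure.isAlgebraic ℚ
  haveI : IsAlgClosure ℚ (AlgebraicClosure ℚ) := ⟨inferInstance, inferInstance⟩
  haveI : Normal ℚ (AlgebraicClosure ℚ) := IsAlgClosure.normal ℚ (AlgebraicClosure ℚ)
  let M : IntermediateField ℚ Qb := IntermediateField.normalClosure ℚ F (AlgebraicClosure ℚ)
  have hFM : F ≤ M := IntermediateField.le_normalClosure F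
  haveI hMfin : FiniteDimensional ℚ M := normalClosure.is_finiteDimensional ℚ F (AlgebraicClosure ℚ)
  haveI hMnormal : Normal ℚ M := normalClosure.normal ℚ F (AlgebraicClosure ℚ)
  haveI : Finite (M ≃ₐ[ℚ] M) := inferInstance
  refine ⟨Nat.card (M ≃ₐ[ℚ] M), Nat.card_pos, fun σ => ?_⟩
  rw [← map_pow]
  apply hF
  rw [IntermediateField.mem_fixingSubgroup_iff]
  intro x hx
  have h1 : (AlgEquiv.restrictNormalHom M (σ : GQ)) ^ Nat.card (M ≃ₐ[ℚ] M) = 1 :=
    pow_card_eq_one'
  have h2 : AlgEquiv.restrictNormalHom M ((σ : GQ) ^ Nat.card (M ≃ₐ[ℚ] M)) = 1 := by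
    rw [map_pow, h1]
  have h3 := AlgEquiv.restrictNormal_commutes ((σ : GQ) ^ Nat.card (M ≃ₐ[ℚ] M)) M ⟨x, hFM hx⟩
  have h4 : ((σ : GQ) ^ Nat.card (M ≃ₐ[ℚ] M)).restrictNormal M = 1 := h2
  rw [h4] at h3
  exact h3.symm


/-- Components of an integral power of an idele. -/
theorem zpow_fin444 {K : Type} [Field K] [NumberField K] (z : (Ad444 K)ˣ) (k : ℤ)
    (v : HeightOneSpectrum (𝓞 K)) :
    ((z ^ k : (Ad444 K)ˣ) : Ad444 K).2 v = ((z : Ad444 K).2 v) ^ k := by
  have h := map_zpow (unitFin444 v) z k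
  have h2 := congrArg (fun u : (v.adicCompletion K)ˣ => (u : v.adicCompletion K)) h
  simp only [Units.val_zpow_eq_zpow_val] at h2
  exact h2

theorem zpow_inf444 {K : Type} [Field K] [NumberField K] (z : (Ad444 K)ˣ) (k : ℤ)
    (w : InfinitePlace K) :
    ((z ^ k : (Ad444 K)ˣ) : Ad444 K).1 w = ((z : Ad444 K).1 w) ^ k := by
  have h := map_zpow (unitInf444 w) z k
  have h2 := congrArg (fun u : (w.Completion)ˣ => (u : w.Completion)) h
  simp only [Units.val_zpow_eq_zpow_val] at h2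
  exact h2

/-- The local step: at a place where `θ` is the Hecke character of `χ`, the `n`-th power of `θ`
is trivial on the ideles supported at this place (`n` an exponent of `χ`). -/
theorem theta_pow_eq_one444 {K : Type} [Field K] [NumberField K] (j : K →+* Qb)
    (χ : ↥(CFT.galOf j) →* ℂˣ) (θ : (Ad444 K)ˣ →* ℂˣ) (n : ℕ)
    (hχn : ∀ σ : ↥(CFT.galOf j), χ σ ^ n = 1) (v : HeightOneSpectrum (𝓞 K))
    (hv1 : ∀ z : (Ad444 K)ˣ, CFT.IsIdeleAt v z →
      (Valued.v ((z : Ad444 K).2 v) = 1 → θ z = 1) ∧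
      (Valued.v ((z : Ad444 K).2 v) = WithZero.exp (-1 : ℤ) →
        ∀ σ : ↥(CFT.galOf j), CFT.IsFrobAt j v (σ : GQ) → θ z = χ σ))
    (z : (Ad444 K)ˣ) (hz : CFT.IsIdeleAt v z) : θ z ^ n = 1 := by
  obtain ⟨σ, hσK, A, hA, hfrob⟩ := exists_frobAt444 j v
  have hσ : σ ∈ CFT.galOf j := hσK
  have hFr : CFT.IsFrobAt j v σ := ⟨hσ, A, hA, hfrob⟩
  -- a uniformiser
  obtain ⟨ϖ, hϖ⟩ := v.valuation_exists_uniformizer K
  have hϖv : Valued.v (algebraMap K (v.adicCompletion K) ϖ) = WithZero.exp (-1 : ℤ) := by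
    rw [← hϖ]
    exact HeightOneSpectrum.valuedAdicCompletion_eq_valuation' v ϖ
  have hϖ0 : algebraMap K (v.adicCompletion K) ϖ ≠ 0 := by
    intro h
    rw [h, map_zero] at hϖv
    exact WithZero.exp_ne_zero hϖv.symm
  set π : (Ad444 K)ˣ := finIdele444 v (Units.mk0 _ hϖ0) with hπdef
  have hπ : CFT.IsIdeleAt v π :=
    ⟨fun w => finIdele444_inf v _ w, fun v' hne => finIdele444_of_ne hne _⟩
  have hπv : Valued.v ((π : Ad444 K).2 v) = WithZero.exp (-1 : ℤ) := by
    rw [hπdef, finIdele444_self]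
    exact hϖv
  have hθπ : θ π = χ ⟨σ, hσ⟩ := (hv1 π hπ).2 hπv ⟨σ, hσ⟩ hFr
  -- the valuation of `z`
  have hz0 : (z : Ad444 K).2 v ≠ 0 := (unitFin444 v z).ne_zero
  have hval0 : Valued.v ((z : Ad444 K).2 v) ≠ 0 := (Valuation.ne_zero_iff _).mpr hz0
  set k : ℤ := WithZero.log (Valued.v ((z : Ad444 K).2 v)) with hkdef
  have hk : WithZero.exp k = Valued.v ((z : Ad444 K).2 v) := WithZero.exp_log hval0
  -- the unit part
  have hu : CFT.IsIdeleAt v (z * π ^ k) := by
    refine ⟨fun w => ?_, fun v' hne => ?_⟩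
    · rw [mul_inf444, zpow_inf444, hz.1 w, hπ.1 w, one_zpow, one_mul]
    · rw [mul_fin444, zpow_fin444, hz.2 v' hne, hπ.2 v' hne, one_zpow, one_mul]
  have huv : Valued.v (((z * π ^ k : (Ad444 K)ˣ) : Ad444 K).2 v) = 1 := by
    rw [mul_fin444, zpow_fin444, map_mul, map_zpow₀, hπv, ← hk, ← WithZero.exp_zsmul,
      ← WithZero.exp_add]
    simp
  have hθu : θ (z * π ^ k) = 1 := (hv1 _ hu).1 huv
  have hzu : z = (z * π ^ k) * π ^ (-k) := by
    rw [mul_assoc, ← zpow_add, add_neg_cancel, zpow_zero, mul_one]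
  rw [hzu, map_mul, hθu, one_mul, map_zpow, hθπ, ← zpow_natCast, ← zpow_mul, mul_comm,
    zpow_mul, zpow_natCast, hχn, one_zpow]

/-- **Leaf `FinOrdC`** (registry row 816), VERBATIM. -/
theorem finOrdC444 : FinOrdC := by
  intro K _ _ j χ θ hfo hH
  obtain ⟨n, hn, hχn⟩ := exists_exponent444 j χ hfo
  obtain ⟨hcont, htriv, S, hS⟩ := hH
  refine ⟨n, hn, fun z => ?_⟩
  let ψ : (Ad444 K)ˣ →* ℂˣ := θ ^ n
  have hψ : ∀ z : (Ad444 K)ˣ, ψ z = θ z ^ n := fun z => rfl
  have hc : Continuous ψ := by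
    have h1 : (ψ : (Ad444 K)ˣ → ℂˣ) = fun z => θ z ^ n := rfl
    rw [h1]
    exact hcont.pow n
  have hK : ∀ x : Kˣ, ψ (Units.map (algebraMap K (Ad444 K)).toMonoidHom x) = 1 := by
    intro x
    rw [hψ, htriv x, one_pow]
  have hT : TrivAway444 ψ S := by
    intro v hv z hinf hfin
    rw [hψ]
    exact theta_pow_eq_one444 j χ θ n hχn v (hS v hv) z ⟨hinf, hfin⟩
  have h := idele_char_trivial444 hc hK hT z
  rw [hψ] at h
  exact h

end Fermat.Agent.LT.A2.H444

end
end
-- ===== PACK-END LT/A2/H444/FinOrd.lean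

-- ===== PACK-BEGIN LT/CFT/H861/HeckeOfRay.lean
section




/-!
# Row LT, tower CFT, leaf IDELE (helper861, OFF-MAIN): `HeckeOfRayC`

`heckeOfRay861 : Fermat.Agent.LT.CFT.HeckeOfRayC` (= `ArtinRayC → HeckeCharC`), VERBATIM against
`Fermat/Agent/LT/CFT/Spec.lean` of helper53 (origin/helper53@aa4e97721, byte-identical copy).

Ingredients: `exists_frob861` (Frobenius elements of `G_K` exist at every finite place),
`chi861` (RAY ⇒ IDELE, Mathlib only), and the independence of `χ(Frob_v)` of the choice of the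
Frobenius element at `v ∤ 𝔣`, which follows from the ray statement itself (`frob_indep861`).
The hypothesis `TotallyComplex K` is not used by this leaf.
-/

set_option autoImplicit false

open IsDedekindDomain NumberField

noncomputable section

namespace Fermat.Agent.LT.CFT.H861

open Fermat.Agent.LT.CFT

local notation "Qb" => AlgebraicClosure ℚ
local notation "GQ" => (AlgebraicClosure ℚ ≃ₐ[ℚ] AlgebraicClosure ℚ)

variable {K : Type} [Field K] [NumberField K]

/-- Frobenius elements exist, in the vocabulary of the tower Spec. -/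
theorem exists_isFrobAt861 (j : K →+* Qb) (v : HeightOneSpectrum (𝓞 K)) :
    ∃ σ : ↥(galOf j), IsFrobAt j v (σ : GQ) := by
  obtain ⟨σ, A, hσ, hA, hF⟩ := exists_frob861 j v
  exact ⟨⟨σ, hσ⟩, hσ, A, hA, hF⟩

/-- An integer `α ≡ 1 mod 𝔣` of exact order `1` at a place `v ∤ 𝔣`. -/
theorem exists_unif_ray861 {𝔣 : Ideal (𝓞 K)} (h𝔣 : 𝔣 ≠ ⊥) (v : HeightOneSpectrum (𝓞 K))
    (hv : ¬ 𝔣 ≤ v.asIdeal) :
    ∃ α : 𝓞 K, α ≠ 0 ∧ α - 1 ∈ 𝔣 ∧ ordAt v α = 1 := by
  classical
  have hv0 : fexp861 𝔣 v = 0 := by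
    by_contra h
    exact hv (Ideal.le_of_dvd ((fexp861_ne_zero_iff h𝔣 v).1 h))
  obtain ⟨π, hπ⟩ := v.intValuation_exists_uniformizer
  obtain ⟨α, hα0, hα⟩ := exists_int_approx861
    (insert v (finite_fexp861_ne_zero h𝔣).toFinset)
    (fun w => if w = v then 2 else fexp861 𝔣 w) (fun w => if w = v then π else 1)
  refine ⟨α, hα0, ?_, ?_⟩
  · rw [mem_iff_forall_intValuation_le861 h𝔣]
    intro w
    by_cases hw : fexp861 𝔣 w = 0
    · rw [hw]
      simpa using w.intValuation_le_one (α - 1)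
    · have hwv : w ≠ v := by
        rintro rfl
        exact hw hv0
      have hws : w ∈ insert v (finite_fexp861_ne_zero h𝔣).toFinset := by
        rw [Finset.mem_insert, Set.Finite.mem_toFinset]
        exact Or.inr hw
      have h1 := hα w hws
      simpa [hwv] using h1
  · have h1 := hα v (Finset.mem_insert_self _ _)
    simp only [if_true] at h1
    have h2 : v.intValuation (α - π) < v.intValuation π := by
      rw [hπ]
      refine lt_of_le_of_lt h1 ?_
      rw [WithZero.exp_lt_exp]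
      norm_num
    have h3 := Valuation.map_add_eq_of_lt_right v.intValuation h2
    rw [sub_add_cancel, hπ, v.intValuation_if_neg hα0] at h3
    have h4 := WithZero.exp_injective h3
    have h5 : ((Associates.mk v.asIdeal).count (Associates.mk (Ideal.span {α})).factors : ℤ)
        = 1 := by linarith
    exact_mod_cast h5

theorem ordAt_eq_ord861 (w : HeightOneSpectrum (𝓞 K)) (α : 𝓞 K) (hα : α ≠ 0) :
    (ordAt w α : ℤ) = ord861 w (pr861 K (unitOf861 α hα)) :=
  (ord861_pr_unitOf w α hα).symm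

theorem hasFiniteMulSupport_pow_ordAt861 (ω : HeightOneSpectrum (𝓞 K) → ℂˣ) (α : 𝓞 K)
    (hα : α ≠ 0) :
    Function.HasFiniteMulSupport fun w : HeightOneSpectrum (𝓞 K) => ω w ^ ordAt w α := by
  have h := hasFiniteMulSupport_zpow_ord861 ω (pr861 K (unitOf861 α hα))
  have e : (fun w : HeightOneSpectrum (𝓞 K) => ω w ^ ordAt w α)
      = fun w => ω w ^ ord861 w (pr861 K (unitOf861 α hα)) := by
    funext w
    rw [← ordAt_eq_ord861 w α hα, zpow_natCast]
  rw [e]
  exact h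

/-- The value `χ(Frob_v)` does not depend on the Frobenius element at `v ∤ 𝔣`. -/
theorem frob_indep861 {𝔣 : Ideal (𝓞 K)} (h𝔣 : 𝔣 ≠ ⊥) (j : K →+* Qb) (χ : ↥(galOf j) →* ℂˣ)
    (hray : RayTrivial j χ 𝔣) (frob : HeightOneSpectrum (𝓞 K) → ↥(galOf j))
    (hfrob : ∀ v : HeightOneSpectrum (𝓞 K), IsFrobAt j v (frob v : GQ))
    (v : HeightOneSpectrum (𝓞 K)) (hv : ¬ 𝔣 ≤ v.asIdeal) (σ : ↥(galOf j))
    (hσ : IsFrobAt j v (σ : GQ)) : χ (frob v) = χ σ := by
  classical
  obtain ⟨α, hα0, hαf, hαv⟩ := exists_unif_ray861 h𝔣 v hv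
  set frob' : HeightOneSpectrum (𝓞 K) → ↥(galOf j) := Function.update frob v σ with hfrob'
  have hfrob'F : ∀ w : HeightOneSpectrum (𝓞 K), IsFrobAt j w (frob' w : GQ) := by
    intro w
    by_cases hw : w = v
    · subst hw
      rw [hfrob', Function.update_self]
      exact hσ
    · rw [hfrob', Function.update_of_ne hw]
      exact hfrob w
  have h1 := hray frob (fun w _ => hfrob w) α hα0 hαf
  have h2 := hray frob' (fun w _ => hfrob'F w) α hα0 hαf
  rw [← mul_finprod_cond_ne v (hasFiniteMulSupport_pow_ordAt861 (fun w => χ (frob w)) α hα0)]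
    at h1
  rw [← mul_finprod_cond_ne v (hasFiniteMulSupport_pow_ordAt861 (fun w => χ (frob' w)) α hα0)]
    at h2
  have h3 : (∏ᶠ (w : HeightOneSpectrum (𝓞 K)) (_ : w ≠ v), χ (frob' w) ^ ordAt w α)
      = ∏ᶠ (w : HeightOneSpectrum (𝓞 K)) (_ : w ≠ v), χ (frob w) ^ ordAt w α := by
    refine finprod_congr fun w => ?_
    refine finprod_congr fun hw => ?_
    rw [hfrob', Function.update_of_ne hw]
  rw [h3, hfrob', Function.update_self, hαv, pow_one] at h2
  rw [hαv, pow_one] at h1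
  exact mul_right_cancel (h1.trans h2.symm)

/-- **Leaf IDELE of tower CFT.** -/
theorem heckeOfRay861 : HeckeOfRayC := by
  intro hArtin K _ _ j hTC χ hχ
  classical
  obtain ⟨𝔣, h𝔣, hray⟩ := hArtin K j hTC χ hχ
  choose frob hfrob using fun v : HeightOneSpectrum (𝓞 K) => exists_isFrobAt861 j v
  have hω : IsRay861 𝔣 (fun v => χ (frob v)) := fun α hα0 hαf =>
    hray frob (fun v _ => hfrob v) α hα0 hαf
  refine ⟨chi861 h𝔣 _ hω, continuous_chi861 h𝔣 hω, fun x => chi861_pr h𝔣 hω x,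
    (Ideal.finite_factors h𝔣).toFinset, fun v hv z hz => ⟨fun h1 => ?_, fun h1 σ hσ => ?_⟩⟩
  · have hv' : ¬ v.asIdeal ∣ 𝔣 := by
      rw [Set.Finite.mem_toFinset] at hv
      exact hv
    exact chi861_unit h𝔣 hω v hv' z hz.2 h1
  · have hv' : ¬ v.asIdeal ∣ 𝔣 := by
      rw [Set.Finite.mem_toFinset] at hv
      exact hv
    rw [chi861_unif h𝔣 hω v hv' z hz.2 h1]
    exact frob_indep861 h𝔣 j χ hray frob hfrob v (fun h => hv' (Ideal.dvd_iff_le.2 h)) σ hσ

end Fermat.Agent.LT.CFT.H861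

end

end
-- ===== PACK-END LT/CFT/H861/HeckeOfRay.lean

-- ===== PACK-BEGIN LT/CFT/H861/FinOrd.lean
section


/-!
# Row LT, tower CFT, helper861 (OFF-MAIN): the Hecke character HAS FINITE ORDER

Strengthening of leaf IDELE for the consumer A2 (`GalSeedC` needs `IsFiniteOrder θ`):

* `exists_exponent861` : a character of finite order of `G_K` (Spec `IsFiniteOrderChar`) has a
  finite exponent `n > 0`;
* `heckeChar_finOrd861` : from `ArtinRayC`, every such `χ` has a Hecke character `θ`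
  (`IsHeckeCharOf j χ θ`, Spec VERBATIM) WITH `θ ^ n = 1`.

So the leaf `FinOrdC` of `LT/A2/H38/ArtinSeedSpec.lean` (density of `Kˣ · ∏' K_vˣ`) is not needed
if the consumer takes `ArtinRayC` (or this statement) instead of `HeckeCharC`.
-/

set_option autoImplicit false
set_option linter.style.haveILetI false

open IsDedekindDomain NumberField

noncomputable section

namespace Fermat.Agent.LT.CFT.H861

open Fermat.Agent.LT.CFT Fermat.Agent.S54

local notation "Qb" => AlgebraicClosure ℚ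
local notation "GQ" => (AlgebraicClosure ℚ ≃ₐ[ℚ] AlgebraicClosure ℚ)

variable {K : Type} [Field K] [NumberField K]

/-- A character of finite order of `G_K` has a finite exponent. -/
theorem exists_exponent861 (j : K →+* Qb) (χ : ↥(galOf j) →* ℂˣ)
    (hχ : IsFiniteOrderChar j χ) : ∃ n : ℕ, 0 < n ∧ ∀ σ : ↥(galOf j), χ σ ^ n = 1 := by
  obtain ⟨F, hF, hχF⟩ := hχ
  haveI := isGalois_algebraicClosure_rat
  haveI : Algebra.IsAlgebraic ℚ Qb := AlgebraicClosure.isAlgebraic ℚ
  haveI : FiniteDimensional ℚ F := hF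
  have hopen : IsOpen (F.fixingSubgroup : Set GQ) := F.fixingSubgroup_isOpen
  haveI : Finite (GQ ⧸ F.fixingSubgroup) := Subgroup.quotient_finite_of_isOpen _ hopen
  haveI : F.fixingSubgroup.FiniteIndex := Subgroup.finiteIndex_of_finite_quotient
  haveI : (F.fixingSubgroup.subgroupOf (galOf j)).FiniteIndex := inferInstance
  have hle : F.fixingSubgroup.subgroupOf (galOf j) ≤ χ.ker := fun σ hσ =>
    (MonoidHom.mem_ker).2 (hχF σ (Subgroup.mem_subgroupOf.1 hσ))
  haveI : χ.ker.FiniteIndex := Subgroup.finiteIndex_of_le hle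
  refine ⟨χ.ker.index, Nat.pos_of_ne_zero Subgroup.FiniteIndex.index_ne_zero, fun σ => ?_⟩
  have h := χ.ker.pow_index_mem σ
  rw [MonoidHom.mem_ker, map_pow] at h
  exact h

/-- **IDELE with finite order.**  From the ray form of Artin reciprocity: every character of
finite order of `G_K` has a Hecke character of finite order. -/
theorem heckeChar_finOrd861 (hArtin : ArtinRayC) (K : Type) [Field K] [NumberField K]
    (j : K →+* Qb) (hTC : TotallyComplex K) (χ : ↥(galOf j) →* ℂˣ)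
    (hχ : IsFiniteOrderChar j χ) :
    ∃ θ : (Adl K)ˣ →* ℂˣ, IsHeckeCharOf j χ θ ∧ ∃ n : ℕ, 0 < n ∧ ∀ z : (Adl K)ˣ, θ z ^ n = 1 := by
  classical
  obtain ⟨𝔣, h𝔣, hray⟩ := hArtin K j hTC χ hχ
  obtain ⟨n, hn, hχn⟩ := exists_exponent861 j χ hχ
  choose frob hfrob using fun v : HeightOneSpectrum (𝓞 K) => exists_isFrobAt861 j v
  have hω : IsRay861 𝔣 (fun v => χ (frob v)) := fun α hα0 hαf =>
    hray frob (fun v _ => hfrob v) α hα0 hαf
  refine ⟨chi861 h𝔣 _ hω, ⟨continuous_chi861 h𝔣 hω, fun x => chi861_pr h𝔣 hω x,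
    (Ideal.finite_factors h𝔣).toFinset, fun v hv z hz => ⟨fun h1 => ?_, fun h1 σ hσ => ?_⟩⟩,
    n, hn, fun z => chi861_pow h𝔣 hω n (fun v => hχn (frob v)) z⟩
  · have hv' : ¬ v.asIdeal ∣ 𝔣 := by
      rw [Set.Finite.mem_toFinset] at hv
      exact hv
    exact chi861_unit h𝔣 hω v hv' z hz.2 h1
  · have hv' : ¬ v.asIdeal ∣ 𝔣 := by
      rw [Set.Finite.mem_toFinset] at hv
      exact hv
    rw [chi861_unif h𝔣 hω v hv' z hz.2 h1]
    exact frob_indep861 h𝔣 j χ hray frob hfrob v (fun h => hv' (Ideal.dvd_iff_le.2 h)) σ hσ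

end Fermat.Agent.LT.CFT.H861

end

end
-- ===== PACK-END LT/CFT/H861/FinOrd.lean

-- ===== PACK-BEGIN LT/CFT/H341/Prim.lean
section




/-!
# Row LT, tower CFT, leaf PRIM (helper341, OFF-MAIN): primary decomposition

`cycSumOfRec341 I : Fermat.Agent.LT.CFT.CycSumOfRecC I` for EVERY local invariant system `I`
(in particular for `Iloc`): the reciprocity law for the odd primes (main) and for `p = 2` over
totally complex fields (`RecTC2`) give the sum formula for all cup classes `a ∪ δχ`.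

Proof.  The classes `x ∈ Br(K)` satisfying "finite support and `∑_v inv_v (x_v) = 0`" form a
subgroup `sumZero341 I U R` of `Br(K)` (`invAt` is additive).  A subgroup containing all elements
of prime power order contains all torsion elements (`mem_of_torsion341`, Bezout).  The cup class
`a ∪ δχ` is killed by `n` (main `H174.gcc_nsmul_eq_zero` + `H496.cupAdd`).

More generally `sumFormula_of_torsion341`: the sum formula for ALL torsion classes of `Br(K)`,
`K` totally complex.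
-/

set_option autoImplicit false

open Fermat.Agent.S55.G.Rec

noncomputable section

namespace Fermat.Agent.LT.CFT.H341

local notation "Qb" => AlgebraicClosure ℚ
local notation "GQ" => (AlgebraicClosure ℚ ≃ₐ[ℚ] AlgebraicClosure ℚ)

/-! ## 1. Abstract: prime power torsion generates the torsion -/

/-- A subgroup of an abelian group which contains all elements of prime power order contains
all torsion elements. -/
theorem mem_of_torsion341 {A : Type*} [AddCommGroup A] (S : AddSubgroup A)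
    (hS : ∀ p : ℕ, p.Prime → ∀ x : A, (∃ k : ℕ, p ^ k • x = 0) → x ∈ S) :
    ∀ n : ℕ, n ≠ 0 → ∀ x : A, n • x = 0 → x ∈ S := by
  intro n
  induction n using Nat.recOnPosPrimePosCoprime with
  | prime_pow p k hp _ =>
    intro _ x hx
    exact hS p hp x ⟨k, hx⟩
  | zero => intro h; exact absurd rfl h
  | one =>
    intro _ x hx
    rw [one_smul] at hx
    rw [hx]
    exact S.zero_mem
  | coprime a b _ _ hab iha ihb =>
    intro hn x hx
    have ha0 : a ≠ 0 := fun h => hn (by rw [h, zero_mul])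
    have hb0 : b ≠ 0 := fun h => hn (by rw [h, mul_zero])
    obtain ⟨u, v, huv⟩ := (Nat.isCoprime_iff_coprime.2 hab : IsCoprime (a : ℤ) (b : ℤ))
    have h1 : a • x ∈ S := by
      refine ihb hb0 _ ?_
      rw [← mul_smul, mul_comm]
      exact hx
    have h2 : b • x ∈ S := by
      refine iha ha0 _ ?_
      rw [← mul_smul]
      exact hx
    have hx' : x = u • (a • x) + v • (b • x) := by
      have e1 : u • (a • x) = (u * (a : ℤ)) • x := by
        rw [mul_smul, natCast_zsmul]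
      have e2 : v • (b • x) = (v * (b : ℤ)) • x := by
        rw [mul_smul, natCast_zsmul]
      rw [e1, e2, ← add_smul, huv, one_smul]
    rw [hx']
    exact S.add_mem (S.zsmul_mem h1 u) (S.zsmul_mem h2 v)

/-! ## 2. The subgroup of classes satisfying the sum formula -/

lemma invAt_zero341 (I : LocalInvSystem) (q : Nat.Primes) (g : GQ) (U : Subgroup GQ) :
    I.invAt q g U 0 = 0 := by
  unfold LocalInvSystem.invAt
  simp only [map_zero]

lemma invAt_add341 (I : LocalInvSystem) (q : Nat.Primes) (g : GQ) (U : Subgroup GQ)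
    (x y : gBr U) : I.invAt q g U (x + y) = I.invAt q g U x + I.invAt q g U y := by
  unfold LocalInvSystem.invAt
  simp only [map_add]

lemma invAt_neg341 (I : LocalInvSystem) (q : Nat.Primes) (g : GQ) (U : Subgroup GQ)
    (x : gBr U) : I.invAt q g U (-x) = - I.invAt q g U x := by
  unfold LocalInvSystem.invAt
  simp only [map_neg]

/-- The row sums `q ↦ ∑_{v ∣ q} inv_v (x_v)`. -/
def invRow341 (I : LocalInvSystem) (U : Subgroup GQ) (R : Nat.Primes → Finset GQ) (x : gBr U) :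
    Nat.Primes → AddCircle (1 : ℚ) :=
  fun q => ∑ r ∈ R q, I.invAt q r U x

lemma invRow_zero341 (I : LocalInvSystem) (U : Subgroup GQ) (R : Nat.Primes → Finset GQ) :
    invRow341 I U R 0 = 0 := by
  funext q
  simp only [invRow341, invAt_zero341, Finset.sum_const_zero, Pi.zero_apply]

lemma invRow_add341 (I : LocalInvSystem) (U : Subgroup GQ) (R : Nat.Primes → Finset GQ)
    (x y : gBr U) : invRow341 I U R (x + y) = invRow341 I U R x + invRow341 I U R y := by
  funext q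
  simp only [invRow341, invAt_add341, Finset.sum_add_distrib, Pi.add_apply]

lemma invRow_neg341 (I : LocalInvSystem) (U : Subgroup GQ) (R : Nat.Primes → Finset GQ)
    (x : gBr U) : invRow341 I U R (-x) = - invRow341 I U R x := by
  funext q
  simp only [invRow341, invAt_neg341, Finset.sum_neg_distrib, Pi.neg_apply]

lemma sumInv_eq341 (I : LocalInvSystem) (U : Subgroup GQ) (R : Nat.Primes → Finset GQ)
    (x : gBr U) : I.sumInv U R x = ∑ᶠ q : Nat.Primes, invRow341 I U R x q := rfl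

/-- The classes of `Br(K)` with finitely many non-zero row sums and vanishing total sum. -/
def sumZero341 (I : LocalInvSystem) (U : Subgroup GQ) (R : Nat.Primes → Finset GQ) :
    AddSubgroup (gBr U) where
  carrier := {x | (Function.support (invRow341 I U R x)).Finite ∧
    ∑ᶠ q : Nat.Primes, invRow341 I U R x q = 0}
  zero_mem' := by
    refine ⟨?_, ?_⟩
    · rw [invRow_zero341, Function.support_zero]
      exact Set.finite_empty
    · rw [invRow_zero341]
      simp only [Pi.zero_apply, finsum_zero]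
  add_mem' := by
    rintro x y ⟨hx, hx0⟩ ⟨hy, hy0⟩
    refine ⟨?_, ?_⟩
    · rw [invRow_add341]
      exact (hx.union hy).subset (Function.support_add _ _)
    · rw [invRow_add341]
      simp only [Pi.add_apply]
      rw [finsum_add_distrib hx hy, hx0, hy0, add_zero]
  neg_mem' := by
    rintro x ⟨hx, hx0⟩
    refine ⟨?_, ?_⟩
    · rw [invRow_neg341, Function.support_neg]
      exact hx
    · rw [invRow_neg341]
      simp only [Pi.neg_apply]
      rw [finsum_neg_distrib, hx0, neg_zero]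

lemma mem_sumZero_iff341 (I : LocalInvSystem) (U : Subgroup GQ) (R : Nat.Primes → Finset GQ)
    (x : gBr U) : x ∈ sumZero341 I U R ↔
      (Function.support fun q : Nat.Primes => ∑ r ∈ R q, I.invAt q r U x).Finite ∧
        I.sumInv U R x = 0 := Iff.rfl

/-! ## 3. The sum formula for all torsion classes -/

/-- **Sum formula for torsion classes** over totally complex fields, from the reciprocity laws
for the prime power torsion. -/
theorem sumFormula_of_torsion341 (I : LocalInvSystem)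
    (hodd : ∀ (p : ℕ) [Fact p.Prime], p ≠ 2 → ReciprocitySpec I p) (h2 : RecTC2 I)
    (U : Subgroup GQ) (hU : IsOpenQ U) (hNo : NoOrderTwo U) (n : ℕ) (hn : n ≠ 0)
    (x : gBr U) (hx : n • x = 0) (R : Nat.Primes → Finset GQ) (hR : IsPlaceReps U R) :
    (Function.support fun q : Nat.Primes => ∑ r ∈ R q, I.invAt q r U x).Finite ∧
      I.sumInv U R x = 0 := by
  rw [← mem_sumZero_iff341]
  refine mem_of_torsion341 (sumZero341 I U R) ?_ n hn x hx
  intro p hp y hy
  rw [mem_sumZero_iff341]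
  by_cases hp2 : p = 2
  · subst hp2
    exact h2 U hU hNo y hy R hR
  · have : Fact p.Prime := ⟨hp⟩
    exact hodd p hp2 U hU y hy R hR

/-- **Leaf PRIM** of the tower CFT, for every local invariant system. -/
theorem cycSumOfRec341 (I : LocalInvSystem) : CycSumOfRecC I := by
  intro hodd h2 U hU hNo n hn χ hχ a ha R hR
  exact sumFormula_of_torsion341 I hodd h2 U hU hNo n hn (gcc U n χ a)
    (H174.gcc_nsmul_eq_zero H496.cupAdd U n hn χ hχ a ha) R hR

/-- **Leaf PRIM** at the local invariant system of main. -/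
theorem cycSumOfRec_Iloc341 : CycSumOfRecC Iloc := cycSumOfRec341 Iloc

end Fermat.Agent.LT.CFT.H341

end

end
-- ===== PACK-END LT/CFT/H341/Prim.lean

-- ===== PACK-BEGIN LT/CFT/SpecH.lean
section





/-!
# Row LT, tower CFT (architect helper53), OFF-MAIN: the HASSE NORM THEOREM (consumer: T6, helper22)

`HasseNormC` : `L/K` cyclic, `K` TOTALLY COMPLEX, `x ∈ Kˣ` a local norm at every finite place
(adèle-free approximation form `IsLocalNormAt`) `⟹` `x` is a norm from `L`.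
(Real places are NOT covered: over a totally complex base there is no condition at infinity.)

    HasseNormC  ⟸  HasseOfVanishC (dictionary)  +  CycVanishC (`H¹(G, C_S(L)) = 0`)

`CycVanishC` is the cyclic layer of S55 layer G for a cyclic group of ANY order over a totally
complex base: first inequality (main `G.FI.firstIneq_card_of`, `infDegProd = 1`: helper713
`FirstIneqTC`) + second inequality (main `H963.Br.indexBound`, any `n`, + descent `DescH773` +
`T.H895.cyclicCard`, as in `G.SI777.secondInequality_of` without `index_dvd_prime`).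
-/

set_option autoImplicit false

open IsDedekindDomain NumberField CategoryTheory groupCohomology
open Fermat.Agent.S55.G

noncomputable section

namespace Fermat.Agent.LT.CFT

/-- `x ∈ K` is a norm from `L` in the completion of `K` at the prime `v`, in approximation form:
for every `N`, `x = N_{L/K}(y) · (a / b)` with `y ∈ Lˣ`, `a, b ∈ 𝓞 K`, `b ∉ v`, `a ≡ b mod v ^ N`
(`x` lies in the closure of `N(Lˣ)` in `K_vˣ`, which is the group of local norms). -/
def IsLocalNormAt (K L : Type) [Field K] [NumberField K] [Field L] [NumberField L] [Algebra K L]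
    (v : HeightOneSpectrum (𝓞 K)) (x : K) : Prop :=
  ∀ N : ℕ, ∃ (y : L) (a b : 𝓞 K), y ≠ 0 ∧ b ∉ v.asIdeal ∧ a - b ∈ v.asIdeal ^ N ∧
    x * (b : K) = Algebra.norm K y * (a : K)

/-- **HASSE NORM THEOREM, cyclic extensions of totally complex fields** (Lang ANT IX §4 Thm 4;
Cassels-Fröhlich VII §9.6). -/
def HasseNormC : Prop :=
  ∀ (K L : Type) [Field K] [NumberField K] [Field L] [NumberField L] [Algebra K L]
    [IsGalois K L], TotallyComplex K → IsCyclic (L ≃ₐ[K] L) →
    ∀ x : K, x ≠ 0 → (∀ v : HeightOneSpectrum (𝓞 K), IsLocalNormAt K L v x) →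
      ∃ y : L, Algebra.norm K y = x

/-- **Leaf CYC-VANISH** (the cyclic layer, any order, totally complex base): `H¹(G, C_S(L)) = 0`
and `|H²(G, C_S(L))| = |G|`. -/
def CycVanishC : Prop :=
  ∀ (S : Finset Nat.Primes) (G L : Type) [Group G] [Finite G] [IsCyclic G] [Field L]
    [NumberField L] [MulSemiringAction G L] [FaithfulSMul G L]
    [IsTotallyComplex (FixedPoints.subfield G L)],
    S.Nonempty → IsUnramOut S G L →
      Limits.IsZero (groupCohomology (CRep S G L) 1) ∧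
        Nat.card (groupCohomology (CRep S G L) 2) = Nat.card G

/-- **Leaf HASSE-DICT**: from `H¹(G, C_S(L)) = 0` to the norm theorem.  (i) `G = ⟨g⟩`,
`0 → Lˣ → J_S(L) × Div^S(L) → C_S(L) → 0` exact (main `G-SES`): if `ker N = im (1 - g)` on
`C_S(L)` then `Kˣ ∩ N(J_S × Div^S) ⊆ N(Lˣ)` (diagram chase, 50 lines; main `Herbrand`
`card_H1_eq_h1`); (ii) `S` ⊇ ramification: `IsLocalNormAt` at `v ∤ S` gives `f_v ∣ ord_v(x)`,
so the divisor of `x` outside `S` is a norm from `Div^S(L)`; (iii) `IsLocalNormAt` at the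
`v ∣ S` gives `x ∈ N((L ⊗ ℚ_S)ˣ)`: the norm group contains `1 + P_S ^ N` (main `H963.BrHensel`)
and `L` is dense in `L ⊗ ℚ_S` (main `exists_approx_AS`). -/
def HasseOfVanishC : Prop := CycVanishC → HasseNormC

/-- **TOWER TOP (Hasse norm theorem).** -/
theorem hasseNorm_of_leaves (hv : CycVanishC) (hd : HasseOfVanishC) : HasseNormC := hd hv

end Fermat.Agent.LT.CFT

end

end
-- ===== PACK-END LT/CFT/SpecH.lean

-- ===== PACK-BEGIN LT/CFT/H49/HasseTop.lean
section






/-!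
# Row LT, tower CFT, leaf CFT.12 (helper49), OFF-MAIN: `HasseOfVanishC` from the two bricks

`hasseOfVanish_of_bricks49 : HasseWAC → HasseSetC → HasseOfVanishC`.
-/

set_option autoImplicit false

open IsDedekindDomain NumberField CategoryTheory groupCohomology
open scoped TensorProduct
open Fermat.Agent.S55.G Fermat.Agent.S55.H963.Br

noncomputable section

namespace Fermat.Agent.LT.CFT.H49

section

variable (K L : Type) [Field K] [NumberField K] [Field L] [NumberField L] [Algebra K L]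

/-- The fixed field of `Gal(L/K)` is totally complex when `K` is. -/
theorem isTotallyComplex_fixed49 (hTC : Fermat.Agent.LT.CFT.TotallyComplex K) :
    IsTotallyComplex (FixedPoints.subfield (L ≃ₐ[K] L) L) := by
  refine ⟨fun w => ?_⟩
  let e : K →+* FixedPoints.subfield (L ≃ₐ[K] L) L :=
    (algebraMap K L).codRestrict (FixedPoints.subfield (L ≃ₐ[K] L) L) (fun k g => g.commutes k)
  exact InfinitePlace.IsComplex.of_comap e (hTC (w.comap e))

end

/-- **CFT.12 from the bricks.** -/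
theorem hasseOfVanish_of_bricks49 (hWA : HasseWAC) (hSet : HasseSetC) :
    Fermat.Agent.LT.CFT.HasseOfVanishC := by
  intro hv K L _ _ _ _ _ _ hTC hcyc x hx hloc
  classical
  have hxL : algebraMap K L x ≠ 0 := by
    rw [Ne, map_eq_zero_iff _ (algebraMap K L).injective]
    exact hx
  obtain ⟨S, hSne, hunr, hord⟩ := hSet K L (Units.mk0 (algebraMap K L x) hxL)
  obtain ⟨y, b, c, hy, -, hbP, hyb⟩ := hWA K L x hx (fun v N => hloc v N) (PS S)
    (2 * Nat.card (L ≃ₐ[K] L) + 2) (PS_pos S)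
  obtain ⟨z₀, hz₀⟩ := exists_norm_eq49 S K L x hx y hy b hbP c hyb
  -- `z₀` is a unit
  have hXunit : IsUnit (asDiag S L (algebraMap K L x)) :=
    (IsUnit.mk0 _ hxL).map (asDiag S L)
  have hz₀unit : IsUnit z₀ := by
    have hdvd : z₀ ∣ ∏ g : L ≃ₐ[K] L, asAut S (L ≃ₐ[K] L) L g z₀ := by
      have h1 : asAut S (L ≃ₐ[K] L) L 1 z₀ ∣ ∏ g : L ≃ₐ[K] L, asAut S (L ≃ₐ[K] L) L g z₀ :=
        Finset.dvd_prod_of_mem _ (Finset.mem_univ 1)
      rwa [map_one] at h1
    rw [hz₀] at hdvd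
    exact isUnit_of_dvd_unit hdvd hXunit
  obtain ⟨z, hz⟩ := hz₀unit
  haveI : IsCyclic (L ≃ₐ[K] L) := hcyc
  haveI : IsTotallyComplex (FixedPoints.subfield (L ≃ₐ[K] L) L) :=
    isTotallyComplex_fixed49 K L hTC
  obtain ⟨hH1, -⟩ := hv S (L ≃ₐ[K] L) L hSne hunr
  obtain ⟨g, hg⟩ := IsCyclic.exists_generator (α := L ≃ₐ[K] L)
  have hj : ∑ h : L ≃ₐ[K] L, jdRepr S (L ≃ₐ[K] L) L h ((Additive.ofMul z, 0) : JD S L)
      = diagHom S L (Additive.ofMul (Units.mk0 (algebraMap K L x) hxL)) := by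
    refine Prod.ext ?_ ?_
    · rw [Prod.fst_sum, diagHom_fst]
      apply Additive.toMul.injective
      apply Units.ext
      rw [coe_unitsDiag_apply, toMul_sum, Units.coe_prod]
      change ∏ h : L ≃ₐ[K] L, (((jRepr (L ≃ₐ[K] L) S L h (Additive.ofMul z)).toMul : (AS S L)ˣ)
        : AS S L) = _
      simp only [coe_jRepr_apply, toMul_ofMul, hz, hz₀]
      rfl
    · rw [Prod.snd_sum, diagHom_snd, hord]
      apply Finset.sum_eq_zero
      intro h _
      change divRepr S (L ≃ₐ[K] L) L h 0 = 0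
      exact map_zero _
  obtain ⟨ℓ, hℓ⟩ := chase49 S (L ≃ₐ[K] L) L hSne g hg hH1 _ _ hj
  refine ⟨((ℓ.toMul : Lˣ) : L), ?_⟩
  apply (algebraMap K L).injective
  rw [Algebra.norm_eq_prod_automorphisms]
  have h1 := congrArg (fun a : Additive Lˣ => ((a.toMul : Lˣ) : L)) hℓ
  simp only [toMul_sum, Units.coe_prod, toMul_ofMul, Units.val_mk0] at h1
  rw [← h1]
  rfl

end Fermat.Agent.LT.CFT.H49

end

end
-- ===== PACK-END LT/CFT/H49/HasseTop.lean

-- ===== PACK-BEGIN LT/CFT/H701/NoOrderTwo.lean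
section



/-!
# Row LT, tower CFT (helper701, OFF-MAIN): entry adapters of the dictionary leaf

For a number field `K` embedded in `ℚ̄` by `j` (vocabulary of `LT/CFT/Spec.lean`, helper53):
* `isOpenQ_galOf701` : `galOf j` is open (`IsOpenQ` of S55 layer G);
* `noOrderTwo_galOf701` : `TotallyComplex K → NoOrderTwo (galOf j)` (Artin–Schreier).
So `RecTC2` / `CycSumC` apply to `U = galOf j`.
-/

set_option autoImplicit false

noncomputable section

namespace Fermat.Agent.LT.CFT.H701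

open NumberField Fermat.Agent.LT.CFT Fermat.Agent.S55.G.Rec

local notation "Qb" => AlgebraicClosure ℚ
local notation "GQ" => (AlgebraicClosure ℚ ≃ₐ[ℚ] AlgebraicClosure ℚ)

/-- `galOf j` is open in `G_ℚ`. -/
theorem isOpenQ_galOf701 {K : Type} [Field K] [NumberField K] (j : K →+* Qb) :
    IsOpenQ (galOf j) := by
  refine ⟨(j.toRatAlgHom).fieldRange, ?_, ?_⟩
  · exact (LinearMap.finiteDimensional_range (j.toRatAlgHom).toLinearMap :)
  · intro σ hσ x
    have hmem : j x ∈ (j.toRatAlgHom).fieldRange := ⟨x, rfl⟩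
    exact hσ ⟨j x, hmem⟩

/-- **Artin–Schreier**: the absolute Galois group of a totally complex number field has no
element of order two. -/
theorem noOrderTwo_galOf701 {K : Type} [Field K] [NumberField K] (j : K →+* Qb)
    (hK : TotallyComplex K) : NoOrderTwo (galOf j) :=
  fun c hc h2 => eq_one_of_mul_self_of_totallyComplex701 K j hK c hc h2

end Fermat.Agent.LT.CFT.H701

end
end
-- ===== PACK-END LT/CFT/H701/NoOrderTwo.lean

-- ===== PACK-BEGIN LT/CFT/H701/TCBridge.lean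
section




/-!
# Row LT, tower CFT (helper701, OFF-MAIN): the two shapes of "totally complex" agree

`LT/CFT/Spec.lean` (helper53) states `RecTC2` / `CycSumC` with `NoOrderTwo U` (no element of
order two in `U`); `LT/CFT/H1/Spec.lean` (helper1, sub-tower REC2) states `ReciprocityTCSpec`
with `IsTC U` (no embedding `ℚ̄ → ℂ` is real on the fixed field of `U`).

* `isTC_of_noOrderTwo701 : IsOpenQ U → NoOrderTwo U → IsTC U`  (Galois correspondence),
* `noOrderTwo_of_isTC701 : IsTC U → NoOrderTwo U`  (Artin–Schreier),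
* `isTC_galOf701 : TotallyComplex K → IsTC (galOf j)`,
* `recTC2_of_reciprocityTC701 : H1.ReciprocityTCSpec I → CFT.RecTC2 I`  (the glue REC2 ⇒ tower).
-/

set_option autoImplicit false

noncomputable section

namespace Fermat.Agent.LT.CFT.H701

open NumberField Fermat.Agent.LT.CFT Fermat.Agent.S55.G.Rec

local notation "Qb" => AlgebraicClosure ℚ
local notation "GQ" => (AlgebraicClosure ℚ ≃ₐ[ℚ] AlgebraicClosure ℚ)

/-- Galois correspondence for open subgroups: an element of `G_ℚ` which fixes the fixed field of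
an open subgroup `U` lies in `U`. -/
theorem mem_of_fixes_fixed701 (U : Subgroup GQ) (hU : IsOpenQ U) (c : GQ)
    (h : ∀ a : Qb, (∀ u ∈ U, u a = a) → c a = a) : c ∈ U := by
  obtain ⟨F, hF, hFU⟩ := hU
  have _ : Algebra.IsAlgebraic ℚ Qb := AlgebraicClosure.isAlgebraic ℚ
  have _ : IsAlgClosure ℚ Qb := ⟨inferInstance, inferInstance⟩
  have _ : IsGalois ℚ Qb := inferInstance
  have hopenF : IsOpen (F.fixingSubgroup : Set GQ) := F.fixingSubgroup_isOpen
  have hopen : IsOpen (U : Set GQ) := Subgroup.isOpen_mono hFU hopenF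
  have hclosed : IsClosed (U : Set GQ) := Subgroup.isClosed_of_isOpen U hopen
  let Uc : ClosedSubgroup GQ := ⟨U, hclosed⟩
  have hgal : (IntermediateField.fixedField Uc.toSubgroup).fixingSubgroup = Uc.toSubgroup :=
    InfiniteGalois.fixingSubgroup_fixedField Uc
  have hc : c ∈ (IntermediateField.fixedField Uc.toSubgroup).fixingSubgroup := by
    rw [IntermediateField.mem_fixingSubgroup_iff]
    intro a ha
    apply h a
    intro u hu
    exact ha ⟨u, hu⟩
  rw [hgal] at hc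
  exact hc

/-- Open subgroups without elements of order two have a totally complex fixed field
(embedding shape). -/
theorem isTC_of_noOrderTwo701 (U : Subgroup GQ) (hU : IsOpenQ U) (h : NoOrderTwo U) :
    H1.IsTC U := by
  intro φ
  obtain ⟨c, hc2, hc1, hc⟩ := exists_conj_of_embedding701 φ
  by_contra hall
  apply hc1
  apply h c ?_ hc2
  apply mem_of_fixes_fixed701 U hU c
  intro a ha
  by_contra hca
  apply hall
  refine ⟨a, ha, ?_⟩
  intro heq
  apply hca
  apply φ.injective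
  rw [hc, heq]

/-- **Artin–Schreier**: if the fixed field of `U` is totally complex (embedding shape), `U` has
no element of order two. -/
theorem noOrderTwo_of_isTC701 (U : Subgroup GQ) (h : H1.IsTC U) : NoOrderTwo U := by
  intro c hcU hc2
  by_contra hne
  obtain ⟨φ, hφ⟩ := exists_embedding_conj701 c hc2 hne
  obtain ⟨a, ha, hne'⟩ := h φ
  apply hne'
  rw [← hφ, ha c hcU]

/-- A totally complex number field embedded in `ℚ̄`: embedding shape. -/
theorem isTC_galOf701 {K : Type} [Field K] [NumberField K] (j : K →+* Qb)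
    (hK : TotallyComplex K) : H1.IsTC (galOf j) := by
  intro φ
  by_contra hall
  have hreal : ComplexEmbedding.IsReal (φ.comp j) := by
    rw [ComplexEmbedding.isReal_iff]
    ext x
    show (starRingEnd ℂ) (φ (j x)) = φ (j x)
    by_contra hx
    exact hall ⟨j x, fun u hu => hu x, hx⟩
  exact (InfinitePlace.not_isReal_iff_isComplex.mpr (hK (InfinitePlace.mk (φ.comp j))))
    (InfinitePlace.isReal_mk_iff.mpr hreal)

/-- **GLUE REC2 ⇒ tower**: the deliverable of sub-tower REC2 (helper1) gives the middle Prop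
`RecTC2` of the tower Spec (helper53). -/
theorem recTC2_of_reciprocityTC701 (I : LocalInvSystem) (h : H1.ReciprocityTCSpec I) :
    RecTC2 I :=
  fun U hU hno x hx R hR => h U hU (isTC_of_noOrderTwo701 U hU hno) x hx R hR

end Fermat.Agent.LT.CFT.H701

end
end
-- ===== PACK-END LT/CFT/H701/TCBridge.lean

-- ===== PACK-BEGIN LT/CFT/SpecX.lean
section


/-!
# Row LT, tower CFT (architect helper53), OFF-MAIN: sub-tower EX = EXISTENCE at `2`
# (consumer: T7.15 `SeedEKC`, T7.16 `MidEKC`)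

ADDITIVE: `Spec.lean`, `SpecL.lean`, `SpecC.lean`, `SpecH.lean` are frozen and unchanged.

The closed tower (`Closed.lean`) is Artin RECIPROCITY: Galois character ⟹ ray class character.
T7 needs the CONVERSE direction in the following form (proposal of helper96, #16606; the same
gap was flagged by helper681 #16633 and helper589 #16661):

* `OddRayChebC` : for `K` totally complex, `𝔑 ≠ 0`, `S` finite, `F/ℚ` finite and
  `σ ∈ [G_K, G_K]` there is a prime `w₀ ∉ S`, `w₀ ∤ 𝔑`, of PRIME absolute norm, whose class in the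
  ray class group modulo `𝔑` has ODD order (`w₀ⁿ = (a₀)`, `a₀ ≡ 1 mod 𝔑`, `n` odd), with a
  Frobenius element `φ` at `w₀` such that `φ = σ` on `F`.

THE CUT (both leaves are TRUE statements):

* `ExistOddC` (CFT.16, EXISTENCE, the hard leaf): there is a finite ABELIAN extension `H` of `K`
  inside `ℚ̄` (every commutator of `G_K` fixes `H`) and a finite set `S₁` such that every prime
  `w ∉ S₁` with a Frobenius element acting trivially on `H` has ODD order in the ray class group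
  modulo `𝔑`.  (`H` ⊇ the `2`-primary part of the ray class field modulo `𝔑`; Lang ANT XI §2,
  or the port to `p = 2` of main `S55/G/Exist121`.)
* `ChebKC` (CFT.17, CHEBOTAREV for `G_K`): for `M/ℚ` finite and `σ ∈ G_K` there is a prime `w` of
  `K` outside any finite set, of prime absolute norm, with a Frobenius element `φ`, `φ = σ` on
  `M`.  (Chebotarev over `ℚ` for the Galois closure of `M · j(K)`: main `Lib/Cheb`.)

PROVED here: `oddRayCheb_of_leaves : ExistOddC → ChebKC → OddRayChebC`.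
-/

set_option autoImplicit false

open IsDedekindDomain NumberField

noncomputable section

namespace Fermat.Agent.LT.CFT

local notation "Qb" => AlgebraicClosure ℚ
local notation "GQ" => (AlgebraicClosure ℚ ≃ₐ[ℚ] AlgebraicClosure ℚ)

/-- **ODD RAY CLASS + FROBENIUS** (interface for T7.15 / T7.16). -/
def OddRayChebC : Prop :=
  ∀ (K : Type) [Field K] [NumberField K] (j : K →+* Qb), TotallyComplex K →
    ∀ 𝔑 : Ideal (𝓞 K), 𝔑 ≠ ⊥ → ∀ S : Finset (HeightOneSpectrum (𝓞 K)),
    ∀ F : IntermediateField ℚ Qb, FiniteDimensional ℚ F →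
    ∀ σ : GQ, σ ∈ ⁅galOf j, galOf j⁆ →
      ∃ (w₀ : HeightOneSpectrum (𝓞 K)) (a₀ : 𝓞 K) (n : ℕ) (φ : GQ),
        w₀ ∉ S ∧ ¬ w₀.asIdeal ∣ 𝔑 ∧ (Ideal.absNorm w₀.asIdeal).Prime ∧ Odd n ∧
        Ideal.span {a₀} = w₀.asIdeal ^ n ∧ a₀ - 1 ∈ 𝔑 ∧
        IsFrobAt j w₀ φ ∧ ∀ x : Qb, x ∈ F → φ x = σ x

/-- **Leaf CFT.16 EXISTENCE at `2`** (the `2`-primary part of the ray class field, in the form
"split primes have odd ray class order"). -/
def ExistOddC : Prop :=
  ∀ (K : Type) [Field K] [NumberField K] (j : K →+* Qb), TotallyComplex K →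
    ∀ 𝔑 : Ideal (𝓞 K), 𝔑 ≠ ⊥ →
      ∃ (H : IntermediateField ℚ Qb) (S₁ : Finset (HeightOneSpectrum (𝓞 K))),
        FiniteDimensional ℚ H ∧
        (∀ σ : GQ, σ ∈ ⁅galOf j, galOf j⁆ → ∀ x : Qb, x ∈ H → σ x = x) ∧
        ∀ w : HeightOneSpectrum (𝓞 K), w ∉ S₁ → ∀ φ : GQ, IsFrobAt j w φ →
          (∀ x : Qb, x ∈ H → φ x = x) →
          ∃ (n : ℕ) (a₀ : 𝓞 K), Odd n ∧ Ideal.span {a₀} = w.asIdeal ^ n ∧ a₀ - 1 ∈ 𝔑

/-- **Leaf CFT.17 CHEBOTAREV for `G_K`**, degree-one primes, Frobenius elements in `G_ℚ`. -/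
def ChebKC : Prop :=
  ∀ (K : Type) [Field K] [NumberField K] (j : K →+* Qb),
    ∀ M : IntermediateField ℚ Qb, FiniteDimensional ℚ M →
    ∀ σ : GQ, σ ∈ galOf j → ∀ S : Finset (HeightOneSpectrum (𝓞 K)),
      ∃ (w : HeightOneSpectrum (𝓞 K)) (φ : GQ),
        w ∉ S ∧ (Ideal.absNorm w.asIdeal).Prime ∧ IsFrobAt j w φ ∧
        ∀ x : Qb, x ∈ M → φ x = σ x

/-- The primes dividing a nonzero ideal form a finite set. -/
theorem finite_dvd_primes53 {K : Type} [Field K] [NumberField K] (𝔑 : Ideal (𝓞 K))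
    (h𝔑 : 𝔑 ≠ ⊥) : {w : HeightOneSpectrum (𝓞 K) | w.asIdeal ∣ 𝔑}.Finite :=
  Ideal.finite_factors h𝔑

/-- **SUB-TOWER TOP.** -/
theorem oddRayCheb_of_leaves (hex : ExistOddC) (hcheb : ChebKC) : OddRayChebC := by
  classical
  intro K _ _ j hTC 𝔑 h𝔑 S F hF σ hσ
  obtain ⟨H, S₁, hH, hab, hodd⟩ := hex K j hTC 𝔑 h𝔑
  have : FiniteDimensional ℚ F := hF
  have : FiniteDimensional ℚ H := hH
  have hM : FiniteDimensional ℚ (F ⊔ H : IntermediateField ℚ Qb) :=
    IntermediateField.finiteDimensional_sup F H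
  have hσK : σ ∈ galOf j := Subgroup.commutator_le_self (galOf j) hσ
  obtain ⟨w, φ, hwS, hprime, hfrob, hφ⟩ :=
    hcheb K j (F ⊔ H) hM σ hσK (S ∪ S₁ ∪ (finite_dvd_primes53 𝔑 h𝔑).toFinset)
  have hw1 : w ∉ S := fun h => hwS (Finset.mem_union_left _ (Finset.mem_union_left _ h))
  have hw2 : w ∉ S₁ := fun h => hwS (Finset.mem_union_left _ (Finset.mem_union_right _ h))
  have hw3 : ¬ w.asIdeal ∣ 𝔑 := fun h =>
    hwS (Finset.mem_union_right _ ((Set.Finite.mem_toFinset _).2 h))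
  have hφH : ∀ x : Qb, x ∈ H → φ x = x := fun x hx => by
    rw [hφ x ((le_sup_right : H ≤ F ⊔ H) hx)]
    exact hab σ hσ x hx
  obtain ⟨n, a₀, hn, hspan, ha₀⟩ := hodd w hw2 φ hfrob hφH
  exact ⟨w, a₀, n, φ, hw1, hw3, hprime, hn, hspan, ha₀, hfrob,
    fun x hx => hφ x ((le_sup_left : F ≤ F ⊔ H) hx)⟩

end Fermat.Agent.LT.CFT

end

end
-- ===== PACK-END LT/CFT/SpecX.lean

-- ===== PACK-BEGIN LT/CFT/H881/ChebK.lean
section




/-!
# Row LT, tower CFT, sub-tower EX, leaf CFT.17 `ChebKC` (helper881)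

OFF-MAIN.  `chebKC881 : CFT.ChebKC` VERBATIM (`LT/CFT/SpecX.lean` of helper53).

Proof.  `E = M ⊔ j(K)`; qualitative Chebotarev over `ℚ` (main, `Lib.Cheb.chebotarev`) gives a prime
`ℓ` outside the primes under `S`, a valuation subring `A` of `ℚ̄` over `ℓ` and a Frobenius element
`τ` at `A` with `τ = σ` on `E`.  So `τ` fixes `j(K)`; `w = A ∩ 𝓞_K` is a prime of `K` over `ℓ`, and
`x ^ ℓ ≡ τ x = x` modulo `w` for `x ∈ 𝓞_K`: the residue field of `w` has `ℓ` elements.
-/

set_option autoImplicit false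

open IsDedekindDomain NumberField

noncomputable section

namespace Fermat.Agent.LT.CFT.H881

local notation "Qb" => AlgebraicClosure ℚ
local notation "GQ" => (AlgebraicClosure ℚ ≃ₐ[ℚ] AlgebraicClosure ℚ)

/-- A valuation subring contains the algebraic integers. -/
theorem isIntegral_memK881 {F : Type*} [Field F] (A : ValuationSubring F)
    {b : F} (hb : IsIntegral ℤ b) : b ∈ A := by
  have h1 : IsIntegral A.toSubring b := by
    obtain ⟨p, hp, hpb⟩ := hb
    refine ⟨p.map (algebraMap ℤ A.toSubring), hp.map _, ?_⟩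
    rw [Polynomial.eval₂_map]
    have : (algebraMap A.toSubring F).comp (algebraMap ℤ A.toSubring) = algebraMap ℤ F := by
      ext; simp
    rw [this]
    exact hpb
  have h2 := (IsIntegrallyClosed.isIntegral_iff (R := A) (K := F)).mp h1
  obtain ⟨y, hy⟩ := h2
  rw [← hy]
  exact y.2

/-- The Frobenius congruence of a Prelude Frobenius element. -/
theorem frob_congrK881 {A : ValuationSubring Qb} {σ : GQ} {ℓ : ℕ} (h : A.IsFrobeniusAt σ ℓ)
    {x : Qb} (hx : x ∈ A) : σ x - x ^ ℓ ∈ A.nonunits := by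
  obtain ⟨hσ, h⟩ := h
  have h1 := h (IsLocalRing.residue A ⟨x, hx⟩)
  rw [← IsLocalRing.ResidueField.residue_smul, ← map_pow, ← sub_eq_zero, ← map_sub,
    IsLocalRing.residue_eq_zero_iff, ← ValuationSubring.coe_mem_nonunits_iff] at h1
  exact h1

/-- A finite field in which `y ^ ℓ = y` for all `y` has at most `ℓ` elements. -/
theorem card_le_of_pow_eq881 {k : Type*} [Field k] [Finite k] {ℓ : ℕ} (hℓ : 1 < ℓ)
    (h : ∀ y : k, y ^ ℓ = y) : Nat.card k ≤ ℓ := by
  classical
  have := Fintype.ofFinite k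
  rw [Nat.card_eq_fintype_card]
  have hp0 := FiniteField.X_pow_card_sub_X_ne_zero k hℓ
  have hsub : (Finset.univ : Finset k)
      ⊆ (Polynomial.X ^ ℓ - Polynomial.X : Polynomial k).roots.toFinset := by
    intro y _
    rw [Multiset.mem_toFinset, Polynomial.mem_roots hp0]
    simp [h y]
  calc Fintype.card k = (Finset.univ : Finset k).card := Finset.card_univ.symm
    _ ≤ (Polynomial.X ^ ℓ - Polynomial.X : Polynomial k).roots.toFinset.card :=
        Finset.card_le_card hsub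
    _ ≤ Multiset.card (Polynomial.X ^ ℓ - Polynomial.X : Polynomial k).roots :=
        Multiset.toFinset_card_le _
    _ ≤ (Polynomial.X ^ ℓ - Polynomial.X : Polynomial k).natDegree := Polynomial.card_roots' _
    _ = ℓ := FiniteField.X_pow_card_sub_X_natDegree_eq k hℓ

/-- A finite field in which the prime `ℓ` vanishes has at least `ℓ` elements. -/
theorem le_card_of_cast_eq_zero881 {k : Type*} [Field k] [Finite k] {ℓ : ℕ} (hℓ : ℓ.Prime)
    (h : (ℓ : k) = 0) : ℓ ≤ Nat.card k := by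
  have h1 : addOrderOf (1 : k) ∣ ℓ := by
    apply addOrderOf_dvd_of_nsmul_eq_zero
    rw [nsmul_eq_mul, mul_one]; exact h
  have h2 : addOrderOf (1 : k) = ℓ := by
    rcases hℓ.eq_one_or_self_of_dvd _ h1 with h3 | h3
    · rw [AddMonoid.addOrderOf_eq_one_iff] at h3
      exact absurd h3 one_ne_zero
    · exact h3
  have h3 : addOrderOf (1 : k) ∣ Nat.card k := addOrderOf_dvd_natCard 1
  rw [h2] at h3
  exact Nat.le_of_dvd Nat.card_pos h3

/-- **Leaf CFT.17**: Chebotarev for `G_K`, degree-one primes. -/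
theorem chebKC881 : Fermat.Agent.LT.CFT.ChebKC := by
  classical
  intro K _ _ j M hM σ hσ S
  -- the image of `K` in `ℚ̄`
  let jQ : K →ₐ[ℚ] Qb := j.toRatAlgHom
  let JK : IntermediateField ℚ Qb := jQ.fieldRange
  have hJK : FiniteDimensional ℚ JK := by
    let g : K →ₗ[ℚ] JK :=
      { toFun := fun x => ⟨jQ x, ⟨x, rfl⟩⟩
        map_add' := fun x y => Subtype.ext (map_add jQ x y)
        map_smul' := fun c x => Subtype.ext (jQ.toLinearMap.map_smul c x) }
    have hg : Function.Surjective g := by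
      rintro ⟨y, x, rfl⟩
      exact ⟨x, rfl⟩
    exact Module.Finite.of_surjective g hg
  have hM' : FiniteDimensional ℚ M := hM
  have hE : FiniteDimensional ℚ (M ⊔ JK : IntermediateField ℚ Qb) :=
    IntermediateField.finiteDimensional_sup M JK
  let S' : Finset ℕ := S.image fun w => (Ideal.absNorm w.asIdeal).minFac
  obtain ⟨ℓ, A, τ, hℓ, hℓS, hAℓ, hfrob, -, hτ⟩ :=
    Fermat.Agent.Lib.Cheb.chebotarev (M ⊔ JK) hE σ S'
  have hτj : ∀ x : K, τ (j x) = j x := fun x => by
    have hx : j x ∈ (M ⊔ JK : IntermediateField ℚ Qb) :=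
      (le_sup_right : JK ≤ M ⊔ JK) ⟨x, rfl⟩
    rw [hτ _ hx]
    exact hσ x
  -- the prime of `K` under `A`
  let f : 𝓞 K →+* Qb := j.comp (algebraMap (𝓞 K) K)
  have hint : ∀ x : 𝓞 K, f x ∈ A := fun x =>
    isIntegral_memK881 A ((RingOfIntegers.isIntegral_coe x).map j.toIntAlgHom)
  let fA : 𝓞 K →+* A := f.codRestrict A.toSubring hint
  let P : Ideal (𝓞 K) := Ideal.comap fA (IsLocalRing.maximalIdeal A)
  have hP : ∀ x : 𝓞 K, x ∈ P ↔ j (algebraMap (𝓞 K) K x) ∈ A.nonunits := fun x =>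
    (ValuationSubring.coe_mem_nonunits_iff (A := A) (a := fA x)).symm
  have hPprime : P.IsPrime := Ideal.comap_isPrime fA _
  have hℓP : ((ℓ : ℕ) : 𝓞 K) ∈ P := by
    rw [hP, map_natCast, map_natCast]
    exact hAℓ
  have hPne : P ≠ ⊥ := by
    intro h
    rw [h, Ideal.mem_bot] at hℓP
    exact hℓ.ne_zero (by exact_mod_cast hℓP)
  let w : HeightOneSpectrum (𝓞 K) := ⟨P, hPprime, hPne⟩
  have hmax : P.IsMaximal := w.isMaximal
  let _ : Field (𝓞 K ⧸ P) := Ideal.Quotient.field P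
  have hfin : Finite (𝓞 K ⧸ P) := Ideal.finiteQuotientOfFreeOfNeBot P hPne
  have hpow : ∀ y : 𝓞 K ⧸ P, y ^ ℓ = y := by
    intro y
    obtain ⟨x, rfl⟩ := Ideal.Quotient.mk_surjective y
    rw [← map_pow, ← sub_eq_zero, ← map_sub, Ideal.Quotient.eq_zero_iff_mem, hP]
    have h1 := frob_congrK881 hfrob (hint x)
    have h2 : f x = j (algebraMap (𝓞 K) K x) := rfl
    rw [h2, hτj] at h1
    have h3 : j (algebraMap (𝓞 K) K (x ^ ℓ - x))
        = -(j (algebraMap (𝓞 K) K x) - j (algebraMap (𝓞 K) K x) ^ ℓ) := by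
      rw [map_sub, map_sub, map_pow, map_pow]; ring
    rw [h3, ValuationSubring.mem_nonunits_iff, Valuation.map_neg,
      ← ValuationSubring.mem_nonunits_iff]
    exact h1
  have hle : Nat.card (𝓞 K ⧸ P) ≤ ℓ := card_le_of_pow_eq881 hℓ.one_lt hpow
  have hge : ℓ ≤ Nat.card (𝓞 K ⧸ P) := by
    apply le_card_of_cast_eq_zero881 hℓ
    rw [← map_natCast (Ideal.Quotient.mk P), Ideal.Quotient.eq_zero_iff_mem]
    exact hℓP
  have hcard : Nat.card (𝓞 K ⧸ w.asIdeal) = ℓ := le_antisymm hle hge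
  have hnorm : Ideal.absNorm w.asIdeal = ℓ := by
    rw [Ideal.absNorm_apply, Submodule.cardQuot_apply]
    exact hcard
  refine ⟨w, τ, ?_, ?_, ⟨hτj, A, fun x => hP x, ?_⟩, ?_⟩
  · intro hw
    apply hℓS
    exact Finset.mem_image.2 ⟨w, hw, by rw [hnorm, hℓ.minFac_eq]⟩
  · rw [hnorm]; exact hℓ
  · rw [hcard]; exact hfrob
  · intro x hx
    exact hτ x ((le_sup_left : M ≤ M ⊔ JK) hx)

end Fermat.Agent.LT.CFT.H881

end
end
-- ===== PACK-END LT/CFT/H881/ChebK.lean

-- ===== PACK-BEGIN LT/CFT/SpecC.lean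
section



/-!
# Row LT, tower CFT (architect helper53), OFF-MAIN: the COHOMOLOGICAL route to `ArtinRayC`, in bytes

`Spec.lean` (frozen): `ArtinRayC ⟸ RecTC2 Iloc + CycSumOfRecC Iloc (PRIM) + RayOfCycSumC Iloc
(DICT)`.  Sub-tower REC2 (sub-architect helper1, `H1/{Spec,StepA,StepB,StepC,Wall}.lean`, byte
copies of `origin/helper1@d0396402d`): `H1.reciprocityTC : LocalCycloNormSharpSpec → NormPosSpec →
HassePrinciple2Spec → ∀ I, ReciprocityTCSpec I`, with the totally complex hypothesis in the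
EMBEDDING shape `H1.IsTC`.  The adapter between the two shapes is the leaf `TCOfNoOrderTwoC`.

    ArtinRayC ⟸ RayOfCycSumC Iloc (DICT) + CycSumOfRecC Iloc (PRIM) + TCOfNoOrderTwoC (adapter)
                 + H1.HassePrinciple2Spec (G2) + H1.LocalCycloNormSharpSpec (L5')
                 + H1.NormPosSpec (G6)

`artinRay_of_cohLeaves` is PROVED here.  `ArtinRayC` is closed as soon as EITHER this route or the
ideal-theoretic route (`SpecL.lean`, `artinRay_of_rayLeaves`) is closed.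
-/

set_option autoImplicit false

open Fermat.Agent.S55.G.Rec

noncomputable section

namespace Fermat.Agent.LT.CFT

local notation "GQ" => (AlgebraicClosure ℚ ≃ₐ[ℚ] AlgebraicClosure ℚ)

/-- **Leaf TC-ADAPTER**: an open subgroup of `G_ℚ` without elements of order `2` has a totally
complex fixed field.  (If `φ : ℚ̄ → ℂ` is real on the fixed field `K` of `U`, the complex
conjugation `c_φ = φ⁻¹ ∘ conj ∘ φ` of `ℚ̄` fixes `K`, so `c_φ ∈ U` because `U ⊇ Gal(ℚ̄/F)` with
`F/ℚ` finite and `U` is the group of `ℚ̄/K` (finite Galois theory over `F`); `c_φ² = 1` and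
`c_φ ≠ 1` since `c_φ` moves `√-1`.) -/
def TCOfNoOrderTwoC : Prop :=
  ∀ U : Subgroup GQ, IsOpenQ U → NoOrderTwo U → H1.IsTC U

/-- The reciprocity law at `p = 2` in the shape of `Spec.lean` from the shape of helper1. -/
theorem recTC2_of_h1 (hadapt : TCOfNoOrderTwoC) (I : LocalInvSystem)
    (hrec : H1.ReciprocityTCSpec I) : RecTC2 I :=
  fun U hU hno x hx R hR => hrec U hU (hadapt U hU hno) x hx R hR

/-- **TOWER TOP (cohomological route).** -/
theorem artinRay_of_cohLeaves (hdict : RayOfCycSumC Iloc) (hprim : CycSumOfRecC Iloc)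
    (hadapt : TCOfNoOrderTwoC) (hHP : H1.HassePrinciple2Spec)
    (hL5 : H1.LocalCycloNormSharpSpec) (hG6 : H1.NormPosSpec) : ArtinRayC :=
  artinRay_of_leaves (recTC2_of_h1 hadapt Iloc (H1.reciprocityTC hL5 hG6 hHP Iloc)) hprim hdict

/-- **TOWER TOP, idèlic form (cohomological route).** -/
theorem heckeChar_of_cohLeaves (hid : HeckeOfRayC) (hdict : RayOfCycSumC Iloc)
    (hprim : CycSumOfRecC Iloc) (hadapt : TCOfNoOrderTwoC) (hHP : H1.HassePrinciple2Spec)
    (hL5 : H1.LocalCycloNormSharpSpec) (hG6 : H1.NormPosSpec) : HeckeCharC :=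
  hid (artinRay_of_cohLeaves hdict hprim hadapt hHP hL5 hG6)

end Fermat.Agent.LT.CFT

end

end
-- ===== PACK-END LT/CFT/SpecC.lean

-- ===== PACK-BEGIN LT/T7/H96/EKCheb.lean
section




/-!
# Row LT, tower T7, leaf T7.15 `SeedEKC` (helper96) -- OFF-MAIN

## The gap and the cut

`GoodEK` asks for a place `w₀` of degree one with `ρ(Frob) = -1` whose class in the ray class
group modulo `𝔑` has ODD order (`w₀ⁿ = (a₀)`, `a₀ ≡ 1 mod 𝔑`, `(-1)ⁿ ≠ 1`).  `𝔑` is arbitrary, so
the `2`-part of the ray class group has to be controlled by a Frobenius condition: this is the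
EXISTENCE direction of class field theory (ray class characters of `2`-power order are Galois
characters), NOT the reciprocity direction exported by the closed tower CFT (`ArtinRayC`,
`HeckeCharC`: Galois characters are ray characters).

The cut: ONE new Prop in the vocabulary of `LT/CFT/Spec.lean`, in bytes as
`Fermat.Agent.LT.CFT.OddRayChebC` (`LT/CFT/SpecX.lean` of helper53, sha256 4700ce4c6b919d55),

    OddRayChebC : for `K` totally complex, `j : K → ℚ̄`, `𝔑 ≠ 0`, `S` finite, `F/ℚ` finite and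
      `σ` in the COMMUTATOR subgroup of `G_K = galOf j`: there are a place `w₀ ∉ S`, `w₀ ∤ 𝔑`, of
      prime absolute norm, an ODD `n`, `a₀ ≡ 1 mod 𝔑` with `(a₀) = w₀ⁿ`, and a Frobenius element
      `φ` at `w₀` with `φ = σ` on `F`.

(TRUE: `σ` is trivial on the ray class field `H` of `K` modulo `𝔑`; Chebotarev over `ℚ` for the
Galois closure of `F H`; the prime under a Frobenius `σ ∈ G_K` has degree one; `n = 1`.)

PROVED here: `seedEKC_of96 : CFT.OddRayChebC → SqrtC → SeedEKC` and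
`midEKC_of96 : CFT.OddRayChebC → SqrtC → MidEKC` (both VERBATIM, `T7/EK.lean`).
The dictionary: `E ∋ √-3` is totally complex; `-1 = [i, j]` in `Q8`, lifts of `i`, `j` lie in
`G_E`; `ker ρ` is open; `Ψ(-1) = -1` (an involution of `GL₂(ℤ[√-2])` which reduces to `-1`), so
`a_{w₀} = -2`, `b_{w₀} = 1` and the Satake parameters are `(-1, -1)`.
-/

set_option autoImplicit false

open AutomorphicForm FLT.ExplicitLift
open IsDedekindDomain NumberField
open scoped MatrixGroups commutatorElement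

noncomputable section

namespace Fermat.Agent.LT.T7.H96

open Fermat.Agent.LT.H130 Fermat.Agent.LT.H556 Fermat.Agent.LT.T7

local notation "Γℚ" => (AlgebraicClosure ℚ ≃ₐ[ℚ] AlgebraicClosure ℚ)
local notation "Qb" => AlgebraicClosure ℚ

/-! ## 1. `Ψ(-1) = -1` -/

/-- `ℤ[√-2]` has no zero divisors. -/
theorem zsqrtd_mul_eq_zero96 {x y : ℤ√(-2)} (h : x * y = 0) : x = 0 ∨ y = 0 := by
  have hn : x.norm * y.norm = 0 := by
    rw [← Zsqrtd.norm_mul, h]
    simp [Zsqrtd.norm]
  rcases mul_eq_zero.mp hn with h1 | h1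
  · exact Or.inl ((Zsqrtd.norm_eq_zero_iff (by norm_num) x).mp h1)
  · exact Or.inr ((Zsqrtd.norm_eq_zero_iff (by norm_num) y).mp h1)

/-- An involution of `M₂(ℤ[√-2])` which reduces to `-1` modulo `3` has trace `-2`. -/
theorem trace_of_invol96 (M : Matrix (Fin 2) (Fin 2) (ℤ√(-2))) (hM : M * M = 1)
    (h00 : red (M 0 0) = -1) (h11 : red (M 1 1) = -1) : M.trace = -2 := by
  have e := hM
  rw [Matrix.eta_fin_two M, Matrix.mul_fin_two, Matrix.one_fin_two] at e
  have e00 : M 0 0 * M 0 0 + M 0 1 * M 1 0 = 1 := by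
    have := congrFun (congrFun e 0) 0
    simpa using this
  have e01 : M 0 0 * M 0 1 + M 0 1 * M 1 1 = 0 := by
    have := congrFun (congrFun e 0) 1
    simpa using this
  have e10 : M 1 0 * M 0 0 + M 1 1 * M 1 0 = 0 := by
    have := congrFun (congrFun e 1) 0
    simpa using this
  have ht : M 0 0 + M 1 1 ≠ 0 := by
    intro h
    have := congrArg red h
    rw [map_add, h00, h11, map_zero] at this
    revert this
    decide
  have hb : M 0 1 = 0 := by
    have : M 0 1 * (M 0 0 + M 1 1) = 0 := by linear_combination e01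
    exact (zsqrtd_mul_eq_zero96 this).resolve_right ht
  have hc : M 1 0 = 0 := by
    have : M 1 0 * (M 0 0 + M 1 1) = 0 := by linear_combination e10
    exact (zsqrtd_mul_eq_zero96 this).resolve_right ht
  have ha : M 0 0 = -1 := by
    have : (M 0 0 - 1) * (M 0 0 + 1) = 0 := by
      rw [hb] at e00
      linear_combination e00
    rcases zsqrtd_mul_eq_zero96 this with h | h
    · exfalso
      have h1 : M 0 0 = 1 := by linear_combination h
      rw [h1, map_one] at h00
      revert h00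
      decide
    · linear_combination h
  have e11 : M 1 0 * M 0 1 + M 1 1 * M 1 1 = 1 := by
    have := congrFun (congrFun e 1) 1
    simpa using this
  have hd : M 1 1 = -1 := by
    have : (M 1 1 - 1) * (M 1 1 + 1) = 0 := by
      rw [hb] at e11
      linear_combination e11
    rcases zsqrtd_mul_eq_zero96 this with h | h
    · exfalso
      have h1 : M 1 1 = 1 := by linear_combination h
      rw [h1, map_one] at h11
      revert h11
      decide
    · linear_combination h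
  rw [Matrix.trace_fin_two, ha, hd]
  norm_num

/-- `tr Ψ(-1) = -2` for a section `Ψ` of the reduction. -/
theorem trPsi_neg_one96 (Ψ : GL (Fin 2) (ZMod 3) →* GL (Fin 2) (ℤ√(-2))) (ι : ℤ√(-2) →+* ℂ)
    (hlift : ∀ g, Matrix.GeneralLinearGroup.map red (Ψ g) = g) :
    trΨ Ψ ι (-1) = -2 := by
  have hM : ((Ψ (-1) : GL (Fin 2) (ℤ√(-2))) : Matrix (Fin 2) (Fin 2) (ℤ√(-2))) *
      ((Ψ (-1) : GL (Fin 2) (ℤ√(-2))) : Matrix (Fin 2) (Fin 2) (ℤ√(-2))) = 1 := by
    rw [← Units.val_mul, ← map_mul]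
    simp
  have hred : ∀ i k : Fin 2, red (((Ψ (-1) : GL (Fin 2) (ℤ√(-2))) :
      Matrix (Fin 2) (Fin 2) (ℤ√(-2))) i k)
      = ((-1 : GL (Fin 2) (ZMod 3)) : Matrix (Fin 2) (Fin 2) (ZMod 3)) i k := by
    intro i k
    rw [← Matrix.GeneralLinearGroup.map_apply, hlift]
  have h00 := hred 0 0
  have h11 := hred 1 1
  simp only [Units.val_neg, Units.val_one, Matrix.neg_apply, Matrix.one_apply_eq] at h00 h11
  unfold trΨ
  rw [trace_of_invol96 _ hM h00 h11, map_neg, map_ofNat]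

/-! ## 2. The element `-1 = [i, j]` of `Q8` -/

/-- `i ∈ Q8 ⊂ GL₂(𝔽₃)`. -/
def gI96 : GL (Fin 2) (ZMod 3) :=
  ⟨!![0, -1; 1, 0], !![0, 1; -1, 0], by decide, by decide⟩

/-- `j ∈ Q8 ⊂ GL₂(𝔽₃)`. -/
def gJ96 : GL (Fin 2) (ZMod 3) :=
  ⟨!![1, 1; 1, -1], !![-1, -1; -1, 1], by decide, by decide⟩

theorem gI_inQ8_96 : Matrix.GeneralLinearGroup.det gI96 = 1 ∧ gI96 ^ 4 = 1 := by
  constructor
  · apply Units.ext
    simp only [Matrix.GeneralLinearGroup.val_det_apply, Units.val_one, gI96,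
      Matrix.det_fin_two_of]
    decide
  · apply Units.ext
    decide

theorem gJ_inQ8_96 : Matrix.GeneralLinearGroup.det gJ96 = 1 ∧ gJ96 ^ 4 = 1 := by
  constructor
  · apply Units.ext
    simp only [Matrix.GeneralLinearGroup.val_det_apply, Units.val_one, gJ96,
      Matrix.det_fin_two_of]
    decide
  · apply Units.ext
    decide

theorem comm_gI_gJ_96 : ⁅gI96, gJ96⁆ = -1 := by
  rw [commutatorElement_def]
  apply Units.ext
  decide

theorem inQ8_neg_one96 : InQ8 (-1 : GL (Fin 2) (ZMod 3)) := by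
  constructor
  · apply Units.ext
    simp [Matrix.det_neg]
  · rw [Even.neg_one_pow (by decide)]

theorem ordQ8_neg_one96 : ordQ8 (-1 : GL (Fin 2) (ZMod 3)) = 1 := by
  unfold ordQ8
  rw [if_pos inQ8_neg_one96]

/-! ## 3. The field `E` -/

theorem subQ8_le_subSL96 (ρ : Γℚ →* GL (Fin 2) (ZMod 3)) : subQ8 ρ ≤ subSL ρ := by
  unfold subQ8
  rw [Subgroup.closure_le]
  intro σ hσ
  show σ ∈ (Matrix.GeneralLinearGroup.det.comp ρ).ker
  rw [MonoidHom.mem_ker]
  exact hσ.1

theorem fieldF_le_fieldE96 (ρ : Γℚ →* GL (Fin 2) (ZMod 3)) : fieldF ρ ≤ fieldE ρ := by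
  intro x hx
  unfold fieldE
  unfold fieldF at hx
  rw [IntermediateField.mem_fixedField_iff] at hx ⊢
  exact fun f hf => hx f (subQ8_le_subSL96 ρ hf)

/-- A number field with a square root of `-3` is totally complex. -/
theorem totallyComplex_of_sqrt96 (K : Type) [Field K] [NumberField K] (y : K)
    (hy : y * y = -3) : CFT.TotallyComplex K := by
  intro w
  rw [← InfinitePlace.not_isReal_iff_isComplex]
  intro hw
  have hφ := InfinitePlace.isReal_iff.mp hw
  have h1 : hφ.embedding y * hφ.embedding y = -3 := by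
    rw [← map_mul, hy, map_neg, map_ofNat]
  nlinarith [mul_self_nonneg (hφ.embedding y)]

/-- The elements of `ρ⁻¹(Q8)` fix `E`. -/
theorem mem_galOf_of_inQ8_96 (ρ : Γℚ →* GL (Fin 2) (ZMod 3)) (σ : Γℚ)
    (h : Matrix.GeneralLinearGroup.det (ρ σ) = 1 ∧ (ρ σ) ^ 4 = 1) :
    σ ∈ CFT.galOf (algebraMap (fieldE ρ) Qb) := by
  intro x
  have hx : (x : Qb) ∈ fieldE ρ := x.2
  unfold fieldE at hx
  rw [IntermediateField.mem_fixedField_iff] at hx
  exact hx σ (Subgroup.subset_closure h)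

/-- There is `σ` in the commutator subgroup of `G_E` with `ρ σ = -1`. -/
theorem exists_comm_neg_one96 (ρ : Γℚ →* GL (Fin 2) (ZMod 3)) (hsurj : Function.Surjective ρ) :
    ∃ σ : Γℚ, σ ∈ ⁅CFT.galOf (algebraMap (fieldE ρ) Qb), CFT.galOf (algebraMap (fieldE ρ) Qb)⁆ ∧
      ρ σ = -1 := by
  obtain ⟨σi, hi⟩ := hsurj gI96
  obtain ⟨σj, hj⟩ := hsurj gJ96
  have hmi := mem_galOf_of_inQ8_96 ρ σi (by rw [hi]; exact gI_inQ8_96)
  have hmj := mem_galOf_of_inQ8_96 ρ σj (by rw [hj]; exact gJ_inQ8_96)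
  refine ⟨⁅σi, σj⁆, Subgroup.commutator_mem_commutator hmi hmj, ?_⟩
  rw [map_commutatorElement, hi, hj, comm_gI_gJ_96]

/-- The kernel of `ρ` contains the fixing subgroup of a finite extension of `ℚ`. -/
theorem exists_fixing_le_ker96 (ρ : Γℚ →* GL (Fin 2) (ZMod 3)) (hcont : Continuous ρ) :
    ∃ F : IntermediateField ℚ Qb, FiniteDimensional ℚ F ∧
      ∀ σ τ : Γℚ, (∀ x ∈ F, τ x = σ x) → ρ τ = ρ σ := by
  have hopen : IsOpen (ρ ⁻¹' {1}) := (isOpen_discrete _).preimage hcont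
  have hmem : ρ ⁻¹' {1} ∈ nhds (1 : Γℚ) := hopen.mem_nhds (by simp)
  obtain ⟨F, hF, hFU⟩ := (krullTopology_mem_nhds_one_iff ℚ Qb _).mp hmem
  refine ⟨F, hF, fun σ τ h => ?_⟩
  have h1 : σ⁻¹ * τ ∈ F.fixingSubgroup := by
    rw [IntermediateField.mem_fixingSubgroup_iff]
    intro x hx
    rw [AlgEquiv.mul_apply, h x hx]
    exact σ.symm_apply_apply x
  have h2 : ρ (σ⁻¹ * τ) = 1 := hFU h1
  rw [map_mul, map_inv, inv_mul_eq_one] at h2
  exact h2.symm

/-- The places of `K` over the prime numbers of a finite set form a finite set. -/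
theorem finite_over_primes96 (K : Type) [Field K] [NumberField K] (S : Finset ℕ) :
    {w : HeightOneSpectrum (𝓞 K) | ∃ p ∈ S, p.Prime ∧ ((p : ℕ) : 𝓞 K) ∈ w.asIdeal}.Finite := by
  have hsub : {w : HeightOneSpectrum (𝓞 K) | ∃ p ∈ S, p.Prime ∧ ((p : ℕ) : 𝓞 K) ∈ w.asIdeal}
      ⊆ ⋃ p ∈ (S.filter Nat.Prime : Finset ℕ),
        {w : HeightOneSpectrum (𝓞 K) | w.asIdeal ∣ Ideal.span {((p : ℕ) : 𝓞 K)}} := by
    rintro w ⟨p, hpS, hp, hpw⟩
    simp only [Set.mem_iUnion, Set.mem_ofPred_eq, Finset.mem_filter]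
    exact ⟨p, ⟨hpS, hp⟩, Ideal.dvd_span_singleton.mpr hpw⟩
  refine Set.Finite.subset (Set.Finite.biUnion (Finset.finite_toSet _) ?_) hsub
  intro p hp
  have hp' : p.Prime := (Finset.mem_filter.mp hp).2
  apply Ideal.finite_factors
  rw [Ne, Ideal.zero_eq_bot, Ideal.span_singleton_eq_bot]
  exact_mod_cast hp'.ne_zero

/-! ## 4. The leaf -/

/-- The Satake parameters with `a = -2`, `b = 1` are `(-1, -1)`. -/
theorem satake_neg_one96 {z₁ z₂ : ℂ} (h1 : z₁ + z₂ = -2) (h2 : z₁ * z₂ = 1) {n : ℕ}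
    (hn : Odd n) : z₁ ^ n ≠ 1 ∧ z₂ ^ n ≠ 1 := by
  have e1 : (z₁ + 1) ^ 2 = 0 := by linear_combination z₁ * h1 - h2
  have e2 : (z₂ + 1) ^ 2 = 0 := by linear_combination z₂ * h1 - h2
  have f1 : z₁ = -1 := by
    have := pow_eq_zero_iff (two_ne_zero) |>.mp e1
    linear_combination this
  have f2 : z₂ = -1 := by
    have := pow_eq_zero_iff (two_ne_zero) |>.mp e2
    linear_combination this
  rw [f1, f2, hn.neg_one_pow]
  norm_num

/-- The elements of `ρ⁻¹(SL₂)` fix `F`. -/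
theorem mem_galOf_of_det_96 (ρ : Γℚ →* GL (Fin 2) (ZMod 3)) (σ : Γℚ)
    (h : Matrix.GeneralLinearGroup.det (ρ σ) = 1) :
    σ ∈ CFT.galOf (algebraMap (fieldF ρ) Qb) := by
  intro x
  have hx : (x : Qb) ∈ fieldF ρ := x.2
  unfold fieldF at hx
  rw [IntermediateField.mem_fixedField_iff] at hx
  refine hx σ ?_
  show σ ∈ (Matrix.GeneralLinearGroup.det.comp ρ).ker
  rw [MonoidHom.mem_ker]
  exact h

/-- There is `σ` in the commutator subgroup of `G_F` with `ρ σ = -1`. -/
theorem exists_comm_neg_one_F96 (ρ : Γℚ →* GL (Fin 2) (ZMod 3))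
    (hsurj : Function.Surjective ρ) :
    ∃ σ : Γℚ, σ ∈ ⁅CFT.galOf (algebraMap (fieldF ρ) Qb), CFT.galOf (algebraMap (fieldF ρ) Qb)⁆ ∧
      ρ σ = -1 := by
  obtain ⟨σi, hi⟩ := hsurj gI96
  obtain ⟨σj, hj⟩ := hsurj gJ96
  have hmi := mem_galOf_of_det_96 ρ σi (by rw [hi]; exact gI_inQ8_96.1)
  have hmj := mem_galOf_of_det_96 ρ σj (by rw [hj]; exact gJ_inQ8_96.1)
  refine ⟨⁅σi, σj⁆, Subgroup.commutator_mem_commutator hmi hmj, ?_⟩
  rw [map_commutatorElement, hi, hj, comm_gI_gJ_96]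

/-- **The good place** over a totally complex field `K ⊂ ℚ̄` whose absolute Galois group has an
element of its commutator subgroup with `ρ = -1`: a place `w₀` of prime absolute norm `p`,
outside `S` and the places over a finite set `SΦ` of prime numbers, prime to `𝔑`, with ray class
of odd order modulo `𝔑`, and a Frobenius element `φ` at `p` with `ρ φ = -1`. -/
theorem exists_goodPlace96 (hC : CFT.OddRayChebC) (ρ : Γℚ →* GL (Fin 2) (ZMod 3))
    (hcont : Continuous ρ) (K : IntermediateField ℚ Qb) [NumberField K]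
    (hTC : CFT.TotallyComplex K)
    (hσ : ∃ σ : Γℚ, σ ∈ ⁅CFT.galOf (algebraMap K Qb), CFT.galOf (algebraMap K Qb)⁆ ∧
      ρ σ = -1)
    (𝔑 : Ideal (𝓞 K)) (h𝔑 : 𝔑 ≠ ⊥) (S : Finset (HeightOneSpectrum (𝓞 K))) (SΦ : Finset ℕ) :
    ∃ (w₀ : HeightOneSpectrum (𝓞 K)) (a₀ : 𝓞 K) (n : ℕ) (φ : Γℚ)
      (A : ValuationSubring Qb),
      w₀ ∉ S ∧ ¬ w₀.asIdeal ∣ 𝔑 ∧ (Ideal.absNorm w₀.asIdeal).Prime ∧
      Ideal.absNorm w₀.asIdeal ∉ SΦ ∧ Odd n ∧ Ideal.span {a₀} = w₀.asIdeal ^ n ∧ a₀ - 1 ∈ 𝔑 ∧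
      ((Ideal.absNorm w₀.asIdeal : ℕ) : 𝓞 K) ∈ w₀.asIdeal ∧
      A.LiesOverPrime (Ideal.absNorm w₀.asIdeal) ∧
      A.IsFrobeniusAt φ (Ideal.absNorm w₀.asIdeal) ∧ ρ φ = -1 := by
  obtain ⟨σ, hσc, hσ1⟩ := hσ
  obtain ⟨F, hF, hFρ⟩ := exists_fixing_le_ker96 ρ hcont
  classical
  obtain ⟨w₀, a₀, n, φ, hw₀S, hw₀𝔑, hprime, hn, hspan, ha₀, hfrob, hφσ⟩ :=
    hC K (algebraMap K Qb) hTC 𝔑 h𝔑 (S ∪ (finite_over_primes96 K SΦ).toFinset) F hF σ hσc
  simp only [Finset.mem_union, Set.Finite.mem_toFinset, Set.mem_ofPred_eq, not_or, not_exists,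
    not_and] at hw₀S
  obtain ⟨hw₀S1, hw₀S2⟩ := hw₀S
  have hpw : ((Ideal.absNorm w₀.asIdeal : ℕ) : 𝓞 K) ∈ w₀.asIdeal :=
    Ideal.absNorm_mem w₀.asIdeal
  have hpS : Ideal.absNorm w₀.asIdeal ∉ SΦ := fun h => hw₀S2 _ h hprime hpw
  obtain ⟨-, A, hA, hFrob⟩ := hfrob
  have hcard : Nat.card (𝓞 K ⧸ w₀.asIdeal) = Ideal.absNorm w₀.asIdeal := by
    rw [Ideal.absNorm_apply, Submodule.cardQuot_apply]
  rw [hcard] at hFrob
  have hlies : A.LiesOverPrime (Ideal.absNorm w₀.asIdeal) := by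
    have := (hA _).mp hpw
    simpa [ValuationSubring.LiesOverPrime] using this
  exact ⟨w₀, a₀, n, φ, A, hw₀S1, hw₀𝔑, hprime, hpS, hn, hspan, ha₀, hpw, hlies, hFrob,
    by rw [hFρ σ φ hφσ, hσ1]⟩

/-- `K ⊇ F` is totally complex (`SqrtC`). -/
theorem totallyComplex_of_le96 (ρ : Γℚ →* GL (Fin 2) (ZMod 3))
    (h3 : HasSqrtNegThree (fieldF ρ)) (K : IntermediateField ℚ Qb) [NumberField K]
    (hK : fieldF ρ ≤ K) : CFT.TotallyComplex K := by
  obtain ⟨x, hx⟩ := h3
  refine totallyComplex_of_sqrt96 K ⟨(x : Qb), hK x.2⟩ ?_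
  apply Subtype.ext
  have h3 := congrArg (fun t : fieldF ρ => (t : Qb)) hx
  push_cast at h3 ⊢
  exact h3

/-- **LEAF T7.15 `SeedEKC`** (VERBATIM, `LT/T7/EK.lean`) from the class field theory input
`OddRayChebC` and the leaf `SqrtC` (T7.09). -/
theorem seedEKC_of96 (hC : CFT.OddRayChebC) (hR : SqrtC) : SeedEKC := by
  intro ρ Ψ ι hyp nfE Φ hΦ 𝔑 h𝔑 S
  obtain ⟨SΦ, hSΦ⟩ := hΦ
  have hTC : CFT.TotallyComplex (fieldE ρ) :=
    totallyComplex_of_le96 ρ (hR ρ Ψ hyp) (fieldE ρ) (fieldF_le_fieldE96 ρ)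
  obtain ⟨w₀, a₀, n, φ, A, hw₀S, hw₀𝔑, hprime, hpS, hn, hspan, ha₀, hpw, hlies, hFrob, hρφ⟩ :=
    exists_goodPlace96 hC ρ hyp.cont (fieldE ρ) hTC (exists_comm_neg_one96 ρ hyp.surj)
      𝔑 h𝔑 S SΦ
  refine ⟨w₀, a₀, n, hw₀S, hw₀𝔑, hprime, hn.pos, hspan, ha₀, ?_⟩
  obtain ⟨hdata_a, hdata_b⟩ := hSΦ _ hprime hpS A hlies φ hFrob w₀ hpw
  rw [hρφ, ordQ8_neg_one96, pow_one, trPsi_neg_one96 Ψ ι hyp.lift] at hdata_a
  intro z₁ z₂ h1 h2
  exact satake_neg_one96 (h1.trans hdata_a) (h2.trans hdata_b) hn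

theorem ordSL_neg_one96 : ordSL (-1 : GL (Fin 2) (ZMod 3)) = 1 := by
  unfold ordSL
  rw [if_pos inQ8_neg_one96.1]

/-- **LEAF T7.16 `MidEKC`** (VERBATIM, `LT/T7/EK.lean`) from the class field theory input
`OddRayChebC` and the leaf `SqrtC` (T7.09). -/
theorem midEKC_of96 (hC : CFT.OddRayChebC) (hR : SqrtC) : MidEKC := by
  intro ρ Ψ ι hyp nfF π hπ 𝔑 h𝔑 S
  obtain ⟨SΦ, hSΦ⟩ := hπ
  have hTC : CFT.TotallyComplex (fieldF ρ) :=
    totallyComplex_of_le96 ρ (hR ρ Ψ hyp) (fieldF ρ) le_rfl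
  obtain ⟨w₀, a₀, n, φ, A, hw₀S, hw₀𝔑, hprime, hpS, hn, hspan, ha₀, hpw, hlies, hFrob, hρφ⟩ :=
    exists_goodPlace96 hC ρ hyp.cont (fieldF ρ) hTC (exists_comm_neg_one_F96 ρ hyp.surj)
      𝔑 h𝔑 S SΦ
  refine ⟨w₀, a₀, n, hw₀S, hw₀𝔑, hprime, hn.pos, hspan, ha₀, ?_⟩
  obtain ⟨hdata_a, hdata_b⟩ := hSΦ _ hprime hpS A hlies φ hFrob w₀ hpw
  rw [hρφ, ordSL_neg_one96, pow_one, ordQ8_neg_one96, pow_one, satakePow_one,
    trPsi_neg_one96 Ψ ι hyp.lift] at hdata_a
  intro z₁ z₂ h1 h2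
  exact satake_neg_one96 (h1.trans hdata_a) (h2.trans hdata_b) hn

end Fermat.Agent.LT.T7.H96

end

end
-- ===== PACK-END LT/T7/H96/EKCheb.lean

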