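import Mathlib
import Fermat.Prelude.Def_LanglandsTunnell_WeightOneRealizationCarriers
import Fermat.Prelude.Def_GaloisRep_Residual
import Fermat.Prelude.Def_FLTPrelim_Ramification
import Fermat.Agent.Pack.LT2.E2L3
import Fermat.Agent.Pack.S43GC.G0E22L2
import Fermat.Agent.Pack.LT2.E16L2
import Fermat.Agent.Pack.LT2.E19L3
import Fermat.Agent.Pack.LT2.E17L0
import Fermat.Agent.Pack.LT2.E18L3
import Fermat.Agent.Pack.LT2.E19L0
import Fermat.Agent.Pack.S44C.G0E26L3
import Fermat.Agent.Pack.S44C.G0E13L3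
import Fermat.Agent.Pack.L1.E1L2
import Fermat.Agent.Pack.LT2.E2L1
import Fermat.Agent.Pack.LT2.E0L2
import Fermat.Agent.Pack.LT2.E3L0
import Fermat.Agent.Pack.LT2.E13L3
import Fermat.Agent.Pack.LT2.E13L2
import Fermat.Agent.Pack.LT2.E11L3
import Fermat.Agent.Pack.LT2.E15L3
import Fermat.Agent.Pack.L1B.E4L2
import Fermat.Agent.Pack.LT2.E7L3
import Fermat.Agent.Pack.LT2.E6L2
import Fermat.Agent.Pack.LT2.E3L2
import Fermat.Agent.Pack.S44C.G0E10L2
import Fermat.Agent.Pack.LT2.E16L0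
import Fermat.Agent.Pack.LT2.E2L0
import Fermat.Agent.Pack.LT2.E19L1

set_option linter.all false

-- ===== PACK-BEGIN LT/T6/H526/NormIdx.lean
section



/-!
# Row LT -- ASSET (helper526): the NORM INDEX of a quadratic extension of a local field is `2`

OFF-MAIN.  Nothing assumed, no hole.  From the LOCAL CLASS FIELD THEORY OF MAIN
(`Fermat.Agent.S55.L.Closed.normIndexCyclic`, landed with S55) through the adapter `LocFld.lean`.

`k` a local field of the T6 Spec (`IsLocalField k q`; ANY residue characteristic, `2` included),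
`X² - t X + n` without root in `k`, `Q(x, y) = x² + t x y + n y²` the norm form of
`k[X]/(X² - t X + n)` (= `det (x + y γ)` for `γ ∈ GL₂(k)` with trace `t` and determinant `n`):

* `h526_norm_exists_non`: some `a ≠ 0` is NOT a value of `Q`;
* `h526_norm_mul_iff`: for `a, b ≠ 0`: `a b` is a value of `Q` iff (`a` is a value iff `b` is);
  in particular the product of two non-norms is a norm, and `η(a) = ±1` (`+1` on the norms) is
  a character of `k^×` (`h526_norm_of_non_mul_non`).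
* `h526_normIndex_units`: the subgroup of the norms has index `2` in `kˣ`.

Consumers: T6.18i `CenQuatC` (the elliptic `γ` near a central non-norm are norms), A2 LOC-FIN
(`η` of the local Weil representation), T6.15 (norm criterion).
-/

set_option autoImplicit false
set_option linter.unusedSectionVars false
set_option linter.style.haveILetI false

noncomputable section

namespace Fermat.Agent.LT.T6.H526

open Fermat.Agent.LT.T6

variable {k : Type} [Field k]

/-- The quadratic algebra `k[X]/(X² - t X + n)`, `ω² = -n + t ω`. -/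
abbrev h526_Q (k : Type) [Field k] (t n : k) : Type := QuadraticAlgebra k (-n) t

theorem h526_fact {t n : k} (hirr : ∀ x : k, x ^ 2 - t * x + n ≠ 0) :
    Fact (∀ r : k, r ^ 2 ≠ -n + t * r) :=
  ⟨fun r h => hirr r (by rw [h]; ring)⟩

/-- The norm form. -/
def h526_form (t n x y : k) : k := x ^ 2 + t * x * y + n * y ^ 2

theorem h526_norm_mk (t n x y : k) :
    QuadraticAlgebra.norm (⟨x, y⟩ : h526_Q k t n) = h526_form t n x y := by
  rw [QuadraticAlgebra.norm_def]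
  simp only [h526_form]
  ring

theorem h526_algebra_norm (t n : k) (z : h526_Q k t n) :
    Algebra.norm k z = QuadraticAlgebra.norm z := by
  rw [Algebra.norm_apply, ← QuadraticAlgebra.det_toLinearMap_eq_norm]
  congr 1

section Galois

variable {t n : k} [CharZero k] [Fact (∀ r : k, r ^ 2 ≠ -n + t * r)]

/-- The conjugation of `k[X]/(X² - t X + n)`. -/
def h526_conj (t n : k) [Fact (∀ r : k, r ^ 2 ≠ -n + t * r)] :
    h526_Q k t n ≃ₐ[k] h526_Q k t n :=
  AlgEquiv.ofRingEquiv (f := starRingAut) (fun r => by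
    show star (algebraMap k (h526_Q k t n) r) = algebraMap k (h526_Q k t n) r
    rw [QuadraticAlgebra.algebraMap_eq, QuadraticAlgebra.star_mk]
    simp)

theorem h526_conj_ne_one : h526_conj (k := k) t n ≠ 1 := by
  intro h
  have h1 := DFunLike.congr_fun h (⟨0, 1⟩ : h526_Q k t n)
  have h2 : (h526_conj (k := k) t n (⟨0, 1⟩ : h526_Q k t n)).im = -1 := by
    show (star (⟨0, 1⟩ : h526_Q k t n)).im = -1
    rw [QuadraticAlgebra.star_mk]
  rw [h1] at h2
  have h3 : (1 : k) = -1 := h2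
  have h4 : (2 : k) = 0 := by linear_combination h3
  exact two_ne_zero h4

theorem h526_card_aut : Nat.card (h526_Q k t n ≃ₐ[k] h526_Q k t n) = 2 := by
  have hle : Nat.card (h526_Q k t n ≃ₐ[k] h526_Q k t n) ≤ 2 := by
    have := AlgEquiv.card_le (F := k) (K := h526_Q k t n)
    rw [QuadraticAlgebra.finrank_eq_two, ← Nat.card_eq_fintype_card] at this
    exact this
  have hnt : Nontrivial (h526_Q k t n ≃ₐ[k] h526_Q k t n) :=
    ⟨⟨h526_conj t n, 1, h526_conj_ne_one⟩⟩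
  have hgt := Finite.one_lt_card_iff_nontrivial.2 hnt
  omega

theorem h526_isGalois : IsGalois k (h526_Q k t n) :=
  IsGalois.of_card_aut_eq_finrank k _ (by rw [h526_card_aut, QuadraticAlgebra.finrank_eq_two])

theorem h526_isCyclic : IsCyclic (h526_Q k t n ≃ₐ[k] h526_Q k t n) :=
  isCyclic_of_prime_card (p := 2) h526_card_aut

end Galois

section Local

variable [Valued k Γ₀]

/-- The subgroup of `kˣ` of the non-zero values of the norm form. -/
def h526_normSub (t n : k) : Subgroup kˣ :=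
  MonoidHom.range (Units.map (Algebra.norm k : h526_Q k t n →* k))

/-- **NORM INDEX.**  The norms of a quadratic extension of a local field form a subgroup of
index `2`. -/
theorem h526_normIndex_units (q : ℕ) (hk : IsLocalField k q) (t n : k)
    (hirr : ∀ x : k, x ^ 2 - t * x + n ≠ 0) : (h526_normSub t n).index = 2 := by
  haveI := hk.char0
  haveI := h526_fact hirr
  haveI := h526_isLocalFld q hk
  haveI : IsGalois k (h526_Q k t n) := h526_isGalois
  haveI : IsCyclic (h526_Q k t n ≃ₐ[k] h526_Q k t n) := h526_isCyclic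
  have := Fermat.Agent.S55.L.Closed.normIndexCyclic k (h526_Q k t n)
  rw [QuadraticAlgebra.finrank_eq_two] at this
  exact this

theorem h526_mem_normSub (t n : k) (hirr : ∀ x : k, x ^ 2 - t * x + n ≠ 0) (u : kˣ) :
    u ∈ h526_normSub t n ↔ ∃ x y : k, h526_form t n x y = (u : k) := by
  haveI := h526_fact hirr
  constructor
  · rintro ⟨z, hz⟩
    refine ⟨(z : h526_Q k t n).re, (z : h526_Q k t n).im, ?_⟩
    have h1 := congrArg (fun w : kˣ => (w : k)) hz
    simp only [Units.coe_map] at h1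
    rw [← h1, h526_algebra_norm, ← h526_norm_mk]
  · rintro ⟨x, y, hxy⟩
    have hz0 : (⟨x, y⟩ : h526_Q k t n) ≠ 0 := by
      intro h0
      have : QuadraticAlgebra.norm (⟨x, y⟩ : h526_Q k t n) = 0 := by rw [h0]; simp
      rw [h526_norm_mk, hxy] at this
      exact u.ne_zero this
    refine ⟨Units.mk0 _ hz0, ?_⟩
    apply Units.ext
    simp only [Units.coe_map, Units.val_mk0]
    rw [h526_algebra_norm, h526_norm_mk, hxy]

/-- Some non-zero element is not a norm. -/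
theorem h526_norm_exists_non (q : ℕ) (hk : IsLocalField k q) (t n : k)
    (hirr : ∀ x : k, x ^ 2 - t * x + n ≠ 0) :
    ∃ a : k, a ≠ 0 ∧ ∀ x y : k, x ^ 2 + t * x * y + n * y ^ 2 ≠ a := by
  have hidx := h526_normIndex_units q hk t n hirr
  have hne : h526_normSub t n ≠ ⊤ := by
    intro h
    rw [← Subgroup.index_eq_one] at h
    omega
  obtain ⟨u, -, hu⟩ := SetLike.exists_of_lt (lt_top_iff_ne_top.2 hne)
  refine ⟨(u : k), u.ne_zero, fun x y hxy => hu ?_⟩
  exact (h526_mem_normSub t n hirr u).2 ⟨x, y, hxy⟩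

/-- For `a, b ≠ 0`: `a b` is a norm iff (`a` is a norm iff `b` is a norm). -/
theorem h526_norm_mul_iff (q : ℕ) (hk : IsLocalField k q) (t n : k)
    (hirr : ∀ x : k, x ^ 2 - t * x + n ≠ 0) (a b : k) (ha : a ≠ 0) (hb : b ≠ 0) :
    (∃ x y : k, x ^ 2 + t * x * y + n * y ^ 2 = a * b) ↔
      ((∃ x y : k, x ^ 2 + t * x * y + n * y ^ 2 = a) ↔
        (∃ x y : k, x ^ 2 + t * x * y + n * y ^ 2 = b)) := by
  have hidx := h526_normIndex_units q hk t n hirr
  have h := Subgroup.mul_mem_iff_of_index_two hidx (a := Units.mk0 a ha) (b := Units.mk0 b hb)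
  rw [h526_mem_normSub t n hirr, h526_mem_normSub t n hirr, h526_mem_normSub t n hirr] at h
  simpa [h526_form] using h

/-- The product of two non-norms is a norm. -/
theorem h526_norm_of_non_mul_non (q : ℕ) (hk : IsLocalField k q) (t n : k)
    (hirr : ∀ x : k, x ^ 2 - t * x + n ≠ 0) (a b : k) (ha : a ≠ 0) (hb : b ≠ 0)
    (hna : ∀ x y : k, x ^ 2 + t * x * y + n * y ^ 2 ≠ a)
    (hnb : ∀ x y : k, x ^ 2 + t * x * y + n * y ^ 2 ≠ b) :
    ∃ x y : k, x ^ 2 + t * x * y + n * y ^ 2 = a * b := by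
  rw [h526_norm_mul_iff q hk t n hirr a b ha hb]
  constructor
  · rintro ⟨x, y, h⟩
    exact absurd h (hna x y)
  · rintro ⟨x, y, h⟩
    exact absurd h (hnb x y)

end Local

end Fermat.Agent.LT.T6.H526

end
end
-- ===== PACK-END LT/T6/H526/NormIdx.lean

-- ===== PACK-BEGIN LT/A2/H258/NormIndex54.lean
section





/-!
# Row LT, tower A2, station LOC-FIN (cut of helper54), leaf 09 `LeafNormIndex` (helper258)

OFF-MAIN.  `leafNormIndex258 : LF54.LeafNormIndex`, UNCONDITIONAL, dyadic places included: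
for `t² - 4n ≠ 0` in `K_v` the product of two non-values of `Q(x, y) = x² + t x y + n y²` is a
value of `Q`.

* Split case (`X² - tX + n` has a root `α`): `Q(x, y) = (x + α y)(x + (t - α) y)` is universal.
* Field case: the local norm index theorem `H526.h526_norm_of_non_mul_non` of helper526
  (`LT/T6/H526/NormIdx.lean`, from the local class field theory of S55 ON MAIN,
  `S55.L.Closed.normIndexCyclic`) for the local field `K_v` (`H176.instLocalC176` of helper176).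

Same route as `A2/H277/NormIndex.lean` (helper277, Prop `LF361.NormIndexC`); byte-identical
copies of the files of helper526, helper176, helper54 (and of their closures).
-/

set_option autoImplicit false

open IsDedekindDomain NumberField

noncomputable section

namespace Fermat.Agent.LT.A2.H258

open Fermat.Agent.LT.A2.LF54 Fermat.Agent.LT.A2.WX467 Fermat.Agent.LT.T6

/-- Split case: the norm form of a split quadratic algebra is universal. -/
theorem isNormL_of_root258 {k : Type} [NormedField k] (t n α : k)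
    (hα : α ^ 2 - t * α + n = 0) (hdisc : t ^ 2 - 4 * n ≠ 0) (a : k) : IsNormL t n a := by
  have hne : 2 * α - t ≠ 0 := by
    intro h
    apply hdisc
    have ht : t = 2 * α := by linear_combination -h
    have hn : n = α ^ 2 := by rw [ht] at hα; linear_combination hα
    rw [ht, hn]; ring
  -- `x + α y = a`, `x + (t - α) y = 1`
  obtain ⟨y, hy⟩ : ∃ y : k, y * (2 * α - t) = a - 1 :=
    ⟨(a - 1) / (2 * α - t), div_mul_cancel₀ _ hne⟩
  refine ⟨1 - (t - α) * y, y, ?_⟩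
  unfold qfL
  simp only
  linear_combination hy + y ^ 2 * hα

/-- **Leaf 09 `LeafNormIndex`**, unconditional. -/
theorem leafNormIndex258 : LeafNormIndex := by
  intro K _ _ v t n hdisc a b ha hb hna hnb
  have hk : IsLocalField (v.adicCompletion K) (Ideal.absNorm v.asIdeal) :=
    H176.instLocalC176 K v
  by_cases hroot : ∃ x : v.adicCompletion K, x ^ 2 - t * x + n = 0
  · obtain ⟨α, hα⟩ := hroot
    exact isNormL_of_root258 t n α hα hdisc (a * b)
  · have hirr : ∀ x : v.adicCompletion K, x ^ 2 - t * x + n ≠ 0 := fun x hx => hroot ⟨x, hx⟩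
    have hna' : ∀ x y : v.adicCompletion K, x ^ 2 + t * x * y + n * y ^ 2 ≠ a :=
      fun x y h => hna ⟨x, y, h⟩
    have hnb' : ∀ x y : v.adicCompletion K, x ^ 2 + t * x * y + n * y ^ 2 ≠ b :=
      fun x y h => hnb ⟨x, y, h⟩
    obtain ⟨x, y, hxy⟩ := H526.h526_norm_of_non_mul_non _ hk t n hirr a b ha hb hna' hnb'
    exact ⟨x, y, hxy⟩

end Fermat.Agent.LT.A2.H258

end
end
-- ===== PACK-END LT/A2/H258/NormIndex54.lean

-- ===== PACK-BEGIN LT/A2/H293/Top.lean
section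



/-!
# Row LT, tower A2, leaf A2.03.1.1.09 `WX467.LocBadOfRepC` (helper293) -- the top

OFF-MAIN.  `locBadOfRepC293 : LocNontrivC293 → WX467.LocBadOfRepC`.

The statement `WX467.LocBadOfRepC` (helper467 `DataSpec.lean`) is proved from the local Weil
representation (`LocRepC`) and uniqueness (`LocUniqC`), with ONE named hypothesis:

* `LocNontrivC293`: the local component at `v` of a nontrivial character `ψ` of `𝔸_K / K` is
  nontrivial (strong approximation: `K + K_v` is dense in `𝔸_K`).  It is NEEDED: `LocRepC` asks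
  for a nontrivial `ψ_v` (`IsCharL`), and `FinAt.psi` forces `ψ_v = ψ ∘ ι_v`; for a trivial `ψ_v`
  the axiom `weyl` gives `F (w g) m` constant, hence `0` (integrable), hence `F = 0` on the
  admissible pairs, against `FinAt.pos`.

Construction (`v` any finite place, `k = K_v`):
`e` with `|t|, |n| ≤ exp e`; `M ≥ 1` with `χT = 1` on the level group
`Tlev = {a + b ω : a ∈ 1 + ϖ^M 𝒪, b ∈ ϖ^{M+e} 𝒪}` (continuity of `χT`, no small subgroups);
`Φ` = the indicator function of `Tlev` in the coordinates `1, ω`; `F` the family of `LocRepC` with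
`F 1 1 = Φ`; `N ≥ M` such that `ψ_v = 1` on `ϖ^N Q(supp Φ)` and on `ϖ^N Q(supp F(w, 1))`,
`η_v = 1` on `1 + ϖ^N 𝒪` and `1 + ϖ^N 𝒪 ⊆ (1 + ϖ^M 𝒪)²` (Hensel).
-/

set_option autoImplicit false

open IsDedekindDomain NumberField Filter Topology MeasureTheory

noncomputable section

namespace Fermat.Agent.LT.A2.H293

open Fermat.Agent.LT.T6 Fermat.Agent.LT.H129 Fermat.Agent.LT.H556 Fermat.Agent.LT.A2
  Fermat.Agent.LT.A2.WX467

/-- **Sub-leaf (strong approximation).**  The local component at a finite place `v` of a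
nontrivial continuous unitary character of `𝔸_K` trivial on `K` is nontrivial. -/
def LocNontrivC293 : Prop :=
  ∀ (K : Type) [Field K] [NumberField K] (ψ : A0.Adl K → ℂ) (v : HeightOneSpectrum (𝓞 K)),
    T1.T1Out K → IsAdeleChar ψ → ∃ x : A0.Adl K, WL.AdlAtFin v x ∧ ψ x ≠ 1

/-- **A2.03.1.1.09 / .12 `LocBadOfRepC`**, from `LocNontrivC293`. -/
theorem locBadOfRepC293 (hnt : LocNontrivC293) : LocBadOfRepC := by
  intro hrep huniq K _ _ t n χT ψ v hT1 hχ hψ
  -- the local character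
  have hψv : IsCharL (fun y : v.adicCompletion K => ψ (locEmb293 v y)) := by
    refine ⟨hψ.cont.comp (continuous_locEmb293 v), ?_, ?_, ?_⟩
    · intro x y
      show ψ (locEmb293 v (x + y)) = ψ (locEmb293 v x) * ψ (locEmb293 v y)
      rw [locEmb293_add, hψ.map_add]
    · intro x
      exact hψ.norm_one _
    · obtain ⟨x, hx, hne⟩ := hnt K ψ v hT1 hψ
      refine ⟨x.2 v, ?_⟩
      show ψ (locEmb293 v (x.2 v)) ≠ 1
      rw [← eq_locEmb293_of_adlAtFin hx]
      exact hne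
  have hdisc : t ^ 2 - 4 * n ≠ 0 := by
    intro h
    apply hχ.irred (t / 2)
    field_simp
    linear_combination -h
  obtain ⟨μv, γv, ηv, hF⟩ := hrep K v t n _ hdisc hψv
  obtain ⟨e, ht, hn⟩ := exists_bound293 v (algebraMap K (v.adicCompletion K) t)
    (algebraMap K (v.adicCompletion K) n)
  obtain ⟨M, hM1, hMχ⟩ := chi_triv293 v hχ ht hn
  obtain ⟨N, F, hax, hsb, hF11, hri, hre⟩ := finCore293 huniq (isCompact_ball_zero293 v)
    (two_ne_zero293 v) (fun a ha => norm_pos_iff.mpr ha) (norm_eq_one_of_val293 v) hF hM1 ht hn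
  refine ⟨N, fun y : v.adicCompletion K => ψ (locEmb293 v y), μv, γv, ηv, F,
    tlev293 (algebraMap K (v.adicCompletion K) t) (algebraMap K (v.adicCompletion K) n) M e, ?_⟩
  rintro L' ⟨rfl, rfl, rfl, rfl⟩ ⟨h1, rfl, rfl, rfl, rfl, h6⟩ hlev
  have hsub := idealClosure_subset_ball293 v hlev
  exact
    { ax := by
        rw [h1]
        exact hax
      psi := by
        intro x hx
        rw [h1]
        show L'.ψ x = L'.ψ (locEmb293 v (x.2 v))
        rw [← eq_locEmb293_of_adlAtFin hx]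
      sb := hsb
      tlev_tor := by
        intro κ hκ
        rw [h6] at hκ
        exact tlev_tor293 ht hn hM1 hκ
      tlev_nhds := by
        rw [h6]
        exact tlev_nhds293 _ _ M e
      tlev_mul := by
        intro κ hκ κ' hκ'
        rw [h6] at hκ hκ' ⊢
        exact tlev_mul293 ht hn hκ hκ'
      tlev_inv := by
        intro κ hκ
        rw [h6] at hκ ⊢
        exact tlev_inv293 ht hn hM1 hκ
      right_inv := by
        intro k₀ κ hk₀ hκ hdet g m ξ hadm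
        rw [h6] at hκ
        exact hri k₀ κ (fun i j => hsub (hk₀.2 i j).1) hκ hdet g m ξ hadm
      right_ex := by
        intro k₀ hk₀
        rw [h6]
        exact hre k₀ fun i j => hsub (hk₀.2 i j).1
      chi_triv := by
        intro κ hloc hκ
        rw [h6] at hκ
        exact hMχ κ hloc hκ
      pos := by
        rw [hF11]
        exact phi_pos293 M e
      orb := by
        intro κ hκ hdet hne
        rw [h6]
        rw [hF11] at hne
        exact phi_orb293 ht hn hM1 hκ hdet hne }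

end Fermat.Agent.LT.A2.H293

end

end
-- ===== PACK-END LT/A2/H293/Top.lean

-- ===== PACK-BEGIN LT/T7/H57/FoldAll.lean
section






/-!
# Row LT, tower T7, LEAF `FoldWhitC` -- the whole cut in one statement (helper57)

OFF-MAIN.  PROVED: `Rigid.FoldWhitC K` from `T1.AdNormC K` and the 18 typed leaves of the cut
(levels 1-5).
-/

set_option autoImplicit false

noncomputable section

namespace Fermat.Agent.LT.T7.H57

open Fermat.Agent.LT.T7 Fermat.Agent.LT.T7.Rigid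

variable {K : Type} [Field K] [NumberField K]

/-- The leaves of the cut of `FoldWhitC`. -/
structure FoldLeaves57 (K : Type) [Field K] [NumberField K] : Prop where
  parseval : ParsevalC57 K
  parsBdd : ParsBddC57 K
  whitMeas : WhitMeasC57 K
  unfoldX : UnfoldXC57 K
  fundX : FundXC57 K
  boxInt : BoxIntC57 K
  zInv : ZInvC57 K
  coreOfPos : CoreOfPosC57 K
  weightId : WeightIdC57 K
  weightEx : WeightExC57 K
  cntSum : CntSumC57 K
  omDecomp : OmDecompC57 K
  rowInv : RowInvC57 K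
  borelUnf : BorelUnfC57 K
  bruhatSum : BruhatSumC57 K
  pRTrans : PRTransC57 K
  pLTrans : PLTransC57 K
  measIota : MeasIotaC57 K
  iotaCoord : IotaCoordC57 K

/-- **The whole cut.** -/
theorem foldWhitC_of_leaves57 (hN : Fermat.Agent.LT.T1.AdNormC K) (L : FoldLeaves57 K) :
    Rigid.FoldWhitC K :=
  foldWhitC_of57 hN
    (foldC_of57 L.fundX
      (coreC_of57
        (corePosC_of57 L.weightId (wConstC_of57 L.omDecomp L.pLTrans L.measIota)
          (innerC_of57 hN L.omDecomp L.rowInv L.borelUnf L.bruhatSum L.pRTrans L.measIota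
            L.iotaCoord L.cntSum)
          L.weightEx L.cntSum)
        L.coreOfPos)
      L.boxInt L.zInv)
    L.parseval L.parsBdd L.whitMeas L.unfoldX

end Fermat.Agent.LT.T7.H57

end

end
-- ===== PACK-END LT/T7/H57/FoldAll.lean

-- ===== PACK-BEGIN LT/T7/H619/EKpCheb.lean
section








/-!
# Row LT, tower T7, EK places WITHOUT class field theory (helper619), part 1: Chebotarev

OFF-MAIN.  For every modulus `M` and every finite set `S` of primes there is a prime `p ∉ S`,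
`p ≡ -1 mod M`, with a Frobenius element `τ` at `p` such that `ρ τ = g8`, a fixed element of
ORDER EIGHT of `GL₂(𝔽₃)` (`det g8 = -1`, `g8 ^ 4 = -1`).

Proof.  `σ = σ₀ c`: `c` a complex conjugation (cyclotomic character `-1` modulo every `M`,
`det ρ c = -1`), `σ₀` with `ρ σ₀ = g8 (ρ c)⁻¹ ∈ SL₂(𝔽₃)` and trivial cyclotomic character modulo
`M` (the elements `(s, 1)`, `det s = 1`, lie in the image of `(ρ, χ_M)`: commutators).  Then the
Chebotarev theorem over `ℚ` of main (`Lib.Cheb.chebotarev`) in `L(ζ_M)`.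
-/

set_option autoImplicit false
set_option linter.unusedSectionVars false
set_option linter.style.haveILetI false

open scoped MatrixGroups

noncomputable section

namespace Fermat.Agent.LT.T7.H619

open Fermat.Agent.LT.H130 Fermat.Agent.LT.A2.H230 Fermat.Agent.LT.H701
open Fermat.Agent.S55.H414 Fermat.Agent.S55.Bridge

local notation "Γℚ" => (AlgebraicClosure ℚ ≃ₐ[ℚ] AlgebraicClosure ℚ)
local notation "Qb" => AlgebraicClosure ℚ

/-! ## 1. The element of order eight -/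

/-- An element of order `8` of `GL₂(𝔽₃)`. -/
def g8_619 : GL (Fin 2) (ZMod 3) := ⟨!![0, 1; 1, 1], !![2, 1; 1, 0], by decide, by decide⟩

theorem g8_pow_four619 : g8_619 ^ 4 = -1 := Units.ext (by decide)

theorem g8_sq_val619 : ((g8_619 ^ 2 : GL (Fin 2) (ZMod 3)) : Matrix (Fin 2) (Fin 2) (ZMod 3))
    = !![1, 1; 1, 2] := by decide

theorem det_g8_619 : Matrix.GeneralLinearGroup.det g8_619 = -1 := Units.ext (by decide)

theorem det_g8_ne_one619 : Matrix.GeneralLinearGroup.det g8_619 ≠ 1 := by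
  rw [det_g8_619]
  decide

theorem det_g8_sq619 : Matrix.GeneralLinearGroup.det (g8_619 ^ 2) = 1 := by
  rw [map_pow, det_g8_619]
  decide

theorem inQ8_g8_sq619 : InQ8 (g8_619 ^ 2) := by
  refine ⟨det_g8_sq619, ?_⟩
  rw [← pow_mul]
  exact Units.ext (by decide)

theorem not_inQ8_g8_619 : ¬ InQ8 g8_619 := fun h => det_g8_ne_one619 h.1

theorem ordQ8_g8_619 : ordQ8 g8_619 = 2 := by
  unfold ordQ8
  rw [if_neg not_inQ8_g8_619, if_pos inQ8_g8_sq619]

theorem ordSL_g8_619 : ordSL g8_619 = 2 := by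
  unfold ordSL
  rw [if_neg det_g8_ne_one619]

theorem ordQ8_g8_sq619 : ordQ8 (g8_619 ^ 2) = 1 := by
  unfold ordQ8
  rw [if_pos inQ8_g8_sq619]

/-! ## 2. Lifting `SL₂(𝔽₃)` with trivial cyclotomic character -/

def cx619 : GL (Fin 2) (ZMod 3) := ⟨!![0, 1; 1, 0], !![0, 1; 1, 0], by decide, by decide⟩
def cy619 : GL (Fin 2) (ZMod 3) := ⟨!![1, 1; 1, 2], !![2, 2; 2, 1], by decide, by decide⟩
def dx619 : GL (Fin 2) (ZMod 3) := ⟨!![0, 1; 2, 0], !![0, 2; 1, 0], by decide, by decide⟩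
def dy619 : GL (Fin 2) (ZMod 3) := ⟨!![0, 1; 1, 1], !![2, 1; 1, 0], by decide, by decide⟩

theorem gi_comm619 : gi_h701 = cx619 * cy619 * cx619⁻¹ * cy619⁻¹ := Units.ext (by decide)

theorem gj_comm619 : gj_h701 = dx619 * dy619 * dx619⁻¹ * dy619⁻¹ := Units.ext (by decide)

section Lift

variable {ρ : Γℚ →* GL (Fin 2) (ZMod 3)} (M : ℕ) [NeZero M]

/-- The image under `ρ` of the kernel of the cyclotomic character modulo `M`. -/
def imKer619 (ρ : Γℚ →* GL (Fin 2) (ZMod 3)) (M : ℕ) [NeZero M] :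
    Subgroup (GL (Fin 2) (ZMod 3)) :=
  (cycloPow M).ker.map ρ

theorem comm_mem_imKer619 (hsurj : Function.Surjective ρ) (x y : GL (Fin 2) (ZMod 3)) :
    x * y * x⁻¹ * y⁻¹ ∈ imKer619 ρ M := by
  obtain ⟨a, rfl⟩ := hsurj x
  obtain ⟨b, rfl⟩ := hsurj y
  refine ⟨a * b * a⁻¹ * b⁻¹, ?_, by simp⟩
  rw [SetLike.mem_coe, MonoidHom.mem_ker]
  simp only [map_mul, map_inv]
  rw [mul_comm (cycloPow M a) (cycloPow M b), mul_inv_cancel_right, mul_inv_cancel]

theorem normal_imKer619 (hsurj : Function.Surjective ρ) : (imKer619 ρ M).Normal :=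
  Subgroup.Normal.map (MonoidHom.normal_ker _) ρ hsurj

/-- Every element of determinant one is the image of an element with trivial cyclotomic
character modulo `M`. -/
theorem exists_lift_sl619 (hsurj : Function.Surjective ρ) (s : GL (Fin 2) (ZMod 3))
    (hs : Matrix.GeneralLinearGroup.det s = 1) :
    ∃ σ : Γℚ, ρ σ = s ∧ cycloPow M σ = 1 := by
  haveI := normal_imKer619 (ρ := ρ) M hsurj
  let χ := QuotientGroup.mk' (imKer619 ρ M)
  have hχ : ∀ x : GL (Fin 2) (ZMod 3), x ∈ imKer619 ρ M → χ x = 1 := fun x hx =>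
    (QuotientGroup.eq_one_iff x).mpr hx
  have hi : χ gi_h701 = 1 := by
    rw [gi_comm619]
    exact hχ _ (comm_mem_imKer619 M hsurj _ _)
  have hj : χ gj_h701 = 1 := by
    rw [gj_comm619]
    exact hχ _ (comm_mem_imKer619 M hsurj _ _)
  have hc : Commute (χ gd_h701) (χ gu_h701) := by
    have h := hχ _ (comm_mem_imKer619 M hsurj gd_h701 gu_h701)
    rw [map_mul, map_mul, map_mul, map_inv, map_inv] at h
    show χ gd_h701 * χ gu_h701 = χ gu_h701 * χ gd_h701
    have h2 : χ gd_h701 * χ gu_h701 * (χ gd_h701)⁻¹ = χ gu_h701 := by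
      rw [← mul_inv_eq_one]
      exact h
    calc χ gd_h701 * χ gu_h701 = (χ gd_h701 * χ gu_h701 * (χ gd_h701)⁻¹) * χ gd_h701 := by
          group
      _ = χ gu_h701 * χ gd_h701 := by rw [h2]
  have h1 := (hom_eq_h701 χ hi hj hc s).1 hs
  have h2 : s ∈ imKer619 ρ M := (QuotientGroup.eq_one_iff s).mp h1
  obtain ⟨σ, hσ, rfl⟩ := h2
  exact ⟨σ, rfl, MonoidHom.mem_ker.mp hσ⟩

end Lift

/-! ## 3. Complex conjugation -/

/-- An embedding of `ℚ̄` in `ℂ`. -/
theorem exists_embedding619 : Nonempty (Qb →+* ℂ) :=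
  haveI : Algebra.IsAlgebraic ℚ Qb := AlgebraicClosure.isAlgebraic ℚ
  ⟨(IsAlgClosed.lift (R := ℚ) (S := Qb) (M := ℂ)).toRingHom⟩

/-- The cyclotomic character modulo `M` of a complex conjugation is `-1`. -/
theorem cycloPow_conj619 (M : ℕ) [NeZero M] (ι : Qb →+* ℂ) (c : Γℚ)
    (hc : ∀ x : Qb, ι (c x) = (starRingEnd ℂ) (ι x)) : cycloPow M c = -1 := by
  rw [cycloPow_eq_iff]
  set ζ := zetaBar M with hζ
  have hζM : ζ ^ M = 1 := (zetaBar_spec M).pow_eq_one
  set k : ℕ := ((-1 : (ZMod M)ˣ) : ZMod M).val with hk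
  have hk1 : ((k + 1 : ℕ) : ZMod M) = 0 := by
    rw [Nat.cast_add, hk, ZMod.natCast_zmod_val, Units.val_neg, Units.val_one]
    simp
  have hdvd : M ∣ k + 1 := (ZMod.natCast_eq_zero_iff _ _).mp hk1
  have hpow : ζ * ζ ^ k = 1 := by
    rw [← pow_succ']
    obtain ⟨t, ht⟩ := hdvd
    rw [ht, pow_mul, hζM, one_pow]
  have hz : ι ζ ^ M = 1 := by rw [← map_pow, hζM, map_one]
  have hnorm : ‖ι ζ‖ = 1 := Complex.norm_eq_one_of_pow_eq_one hz (NeZero.ne M)
  have h1 : ι ζ * (starRingEnd ℂ) (ι ζ) = 1 := by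
    rw [Complex.mul_conj, Complex.normSq_eq_norm_sq, hnorm]
    norm_num
  have h2 : ι ζ * ι (ζ ^ k) = 1 := by rw [← map_mul, hpow, map_one]
  have hz0 : ι ζ ≠ 0 := by
    intro h0
    rw [h0, zero_mul] at h1
    exact zero_ne_one h1
  have h3 : ι (c ζ) = ι (ζ ^ k) := by
    rw [hc]
    exact mul_left_cancel₀ hz0 (h1.trans h2.symm)
  exact ι.injective h3

/-! ## 4. Units at a place -/

/-- An integer prime to `q` is a unit at a place over `q`. -/
theorem val_natCast_eq_one619 {A : ValuationSubring Qb} {q M : ℕ} (hq : A.LiesOverPrime q)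
    (hcop : Nat.Coprime q M) : A.valuation ((M : ℕ) : Qb) = 1 := by
  have hq' : A.valuation (q : Qb) < 1 := (A.mem_nonunits_iff).mp hq
  have hcop' : IsCoprime (q : ℤ) (M : ℤ) := by
    rw [Int.isCoprime_iff_gcd_eq_one, Int.gcd_natCast_natCast]
    exact hcop
  obtain ⟨u, w, huw⟩ := hcop'
  have h1 : (u : Qb) * (q : Qb) + (w : Qb) * (M : Qb) = 1 := by
    exact_mod_cast congrArg (Int.cast : ℤ → Qb) huw
  have hsmall : A.valuation ((u : Qb) * (q : Qb)) < 1 := by
    rw [map_mul]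
    exact (mul_le_of_le_one_left' (val_intCast_le_one u)).trans_lt hq'
  have hwn : A.valuation ((w : Qb) * (M : Qb)) = 1 := by
    have : (w : Qb) * (M : Qb) = 1 + -((u : Qb) * (q : Qb)) := by linear_combination h1
    rw [this, (A.valuation).map_add_eq_of_lt_left
      (by rw [Valuation.map_neg, map_one]; exact hsmall), map_one]
  rw [map_mul] at hwn
  have hp1 : A.valuation (M : Qb) ≤ 1 := by
    have := val_intCast_le_one (A := A) (M : ℤ)
    exact_mod_cast this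
  refine le_antisymm hp1 ?_
  calc (1 : A.ValueGroup)
      = A.valuation (w : Qb) * A.valuation (M : Qb) := hwn.symm
    _ ≤ 1 * A.valuation (M : Qb) := mul_le_mul_left (val_intCast_le_one w) _
    _ = A.valuation (M : Qb) := one_mul _

/-! ## 5. The Chebotarev step -/

/-- **Primes `p ≡ -1 mod M` with Frobenius of order eight.** -/
theorem exists_frob_order8_619 {ρ : Γℚ →* GL (Fin 2) (ZMod 3)}
    {Ψ : GL (Fin 2) (ZMod 3) →* GL (Fin 2) (ℤ√(-2))} (hyp : LTB.Hyp ρ Ψ)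
    (M : ℕ) [NeZero M] (S : Finset ℕ) :
    ∃ (p : ℕ) (A : ValuationSubring Qb) (τ : Γℚ),
      p.Prime ∧ p ∉ S ∧ A.LiesOverPrime p ∧ A.IsFrobeniusAt τ p ∧ ρ τ = g8_619 ∧
        ((p : ℕ) : ZMod M) = -1 := by
  classical
  obtain ⟨ι⟩ := exists_embedding619
  obtain ⟨c, hc⟩ := exists_conj230 ι
  have hcM : cycloPow M c = -1 := cycloPow_conj619 M ι c hc
  have hcdet : Matrix.GeneralLinearGroup.det (ρ c) = -1 := by
    rw [hyp.det]
    exact cyclo_of_conj230 ι c hc
  -- the element of `G_ℚ`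
  have hs : Matrix.GeneralLinearGroup.det (g8_619 * (ρ c)⁻¹) = 1 := by
    rw [map_mul, map_inv, hcdet, det_g8_619]
    decide
  obtain ⟨σ₀, hσ₀, hσ₀M⟩ := exists_lift_sl619 M hyp.surj _ hs
  set σ : Γℚ := σ₀ * c with hσ
  have hρσ : ρ σ = g8_619 := by
    rw [hσ, map_mul, hσ₀, inv_mul_cancel_right]
  have hσM : cycloPow M σ = -1 := by
    rw [hσ, map_mul, hσ₀M, one_mul, hcM]
  -- the field
  have hopen := isOpen_ker230 hyp.cont
  haveI hLfin : FiniteDimensional ℚ (IntermediateField.fixedField ρ.ker) :=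
    finiteDimensional_fixedField_of_isOpen230 ρ.ker hopen
  have hEfin : FiniteDimensional ℚ ↥(IntermediateField.fixedField ρ.ker ⊔ _root_.Fermat.Agent.S55.H414.cycloLevel M) :=
    IntermediateField.finiteDimensional_sup _ _
  obtain ⟨p, A, τ, hp, hpS, hA, hτ, -, hτσ⟩ :=
    Fermat.Agent.Lib.Cheb.chebotarev (IntermediateField.fixedField ρ.ker ⊔ _root_.Fermat.Agent.S55.H414.cycloLevel M)
      hEfin σ (S ∪ M.primeFactors)
  simp only [Finset.mem_union, not_or] at hpS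
  obtain ⟨hpS, hpM⟩ := hpS
  have hpndvd : ¬ p ∣ M := fun h => hpM (Nat.mem_primeFactors.mpr ⟨hp, h, NeZero.ne M⟩)
  have hcop : Nat.Coprime p M := (Nat.Prime.coprime_iff_not_dvd hp).mpr hpndvd
  -- `ρ τ = ρ σ`
  have hmem : σ⁻¹ * τ ∈ (IntermediateField.fixedField ρ.ker).fixingSubgroup := by
    rw [IntermediateField.mem_fixingSubgroup_iff]
    intro x hx
    rw [AlgEquiv.mul_apply, hτσ x (le_sup_left (b := _root_.Fermat.Agent.S55.H414.cycloLevel M) hx)]
    exact σ.symm_apply_apply x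
  rw [fixingSubgroup_fixedField_of_isOpen230 ρ.ker hopen, MonoidHom.mem_ker, map_mul, map_inv,
    inv_mul_eq_one] at hmem
  -- the cyclotomic character
  have hζ : τ (zetaBar M) = σ (zetaBar M) :=
    hτσ _ (le_sup_right (a := IntermediateField.fixedField ρ.ker) (zetaBar_mem_cycloLevel M))
  have hτM : cycloPow M τ = cycloPow M σ :=
    (cycloPow_eq_iff M τ (cycloPow M σ)).mpr (by rw [hζ]; exact cycloPow_spec M σ)
  have hfrob : ((cycloPow M τ : (ZMod M)ˣ) : ZMod M) = ((p : ℕ) : ZMod M) :=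
    coe_cycloPow_of_apply_eq_pow M τ p
      (IsFrobeniusAt_apply_root hτ (NeZero.ne M) (val_natCast_eq_one619 hA hcop)
        (zetaBar_spec M).pow_eq_one)
  refine ⟨p, A, τ, hp, hpS, hA, hτ, hmem.symm.trans hρσ, ?_⟩
  rw [← hfrob, hτM, hσM, Units.val_neg, Units.val_one]

end Fermat.Agent.LT.T7.H619

end

end
-- ===== PACK-END LT/T7/H619/EKpCheb.lean

-- ===== PACK-BEGIN LT/T7/H619/EKMLeaves.lean
section







/-!
# Row LT, tower T7, leaves T7.15M `SeedEKMC` and T7.16M `MidEKMC` (helper619)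

OFF-MAIN.  Spec: `Fermat/Agent/LT/T7/EKM.lean` (origin/helper797@cb30661f3, sha256
4b09755e2c75eed5, byte-identical copy).  NO class field theory.

`seedEKMC619 : SeedEKMC`, `midEKMC619 : MidEKMC`, VERBATIM.

Proof.  `M = 3 N(𝔑)`.  Chebotarev over `ℚ` (`exists_frob_order8_619`): a prime `p` outside the bad
set, `p ≡ -1 mod M`, with a Frobenius element `τ`, `ρ τ = g8` of order eight.  `a₀ = -p`.
Every place `w` over `p` is prime to `𝔑` (`p + 1 ∈ 𝔑`).
* over `E`: `N w = p ^ ordQ8 g8 = p²` (`absNorm_fieldE231`), `[E : ℚ] = 6 = 2 · 3`, and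
  `SeedData` reads `a_w = tr Ψ (g8²) = 0`, `b_w = 1`;
* over `F`: `N v = p ^ (order of p mod 3) = p²` (`absNorm_eq922`), `[F : ℚ] = 2 = 2 · 1`, and
  `MidData` reads `a_v = tr Ψ (g8²) = 0`, `b_v = 1` (`ordSL g8 = 2`, `ordQ8 (g8²) = 1`).
Then `goodEKM_core619`.
-/

set_option autoImplicit false
set_option linter.unusedSectionVars false
set_option linter.style.haveILetI false

open AutomorphicForm FLT.ExplicitLift
open IsDedekindDomain NumberField
open scoped MatrixGroups Pointwise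

noncomputable section

namespace Fermat.Agent.LT.T7.H619

open Fermat.Agent.LT.H130 Fermat.Agent.LT.H556 Fermat.Agent.LT.A2.H230 Fermat.Agent.LT.T7
open Fermat.Agent.Lib.Cheb.Spec Fermat.Agent.Lib.Cheb.H943
open Fermat.Agent.LT.T7.H231 Fermat.Agent.LT.T7.H922 Fermat.Agent.LT.T7.H682

local notation "Γℚ" => (AlgebraicClosure ℚ ≃ₐ[ℚ] AlgebraicClosure ℚ)
local notation "Qb" => AlgebraicClosure ℚ

/-- `tr Ψ (g8²) = 0`. -/
theorem trΨ_g8_sq619 {Ψ : GL (Fin 2) (ZMod 3) →* GL (Fin 2) (ℤ√(-2))}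
    (hΨ : ∀ g, Matrix.GeneralLinearGroup.map red (Ψ g) = g) (ι : ℤ√(-2) →+* ℂ) :
    trΨ Ψ ι (g8_619 ^ 2) = 0 := by
  have h4 : g8_619 ^ 2 * g8_619 ^ 2 = -1 := by
    rw [← pow_add]
    exact g8_pow_four619
  rw [trΨ_eq682, trace_lm_eq_zero682 hΨ (g8_619 ^ 2) h4, map_zero]

/-- The prime `p` of the datum, over any number field `K`. -/
theorem exists_prime619 {ρ : Γℚ →* GL (Fin 2) (ZMod 3)}
    {Ψ : GL (Fin 2) (ZMod 3) →* GL (Fin 2) (ℤ√(-2))} (hyp : LTB.Hyp ρ Ψ)
    {K : Type} [Field K] [NumberField K] (𝔑 : Ideal (𝓞 K)) (h𝔑 : 𝔑 ≠ ⊥)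
    (S : Finset (HeightOneSpectrum (𝓞 K))) (B : Finset ℕ) :
    ∃ (p : ℕ) (A : ValuationSubring Qb) (τ : Γℚ),
      p.Prime ∧ p ∉ B ∧ p ≠ 3 ∧ A.LiesOverPrime p ∧ A.IsFrobeniusAt τ p ∧ ρ τ = g8_619 ∧
        ((p : ℕ) : ZMod 3) = -1 ∧ ((p : ℕ) : 𝓞 K) + 1 ∈ 𝔑 ∧
        ∀ w : HeightOneSpectrum (𝓞 K), ((p : ℕ) : 𝓞 K) ∈ w.asIdeal →
          w ∉ S ∧ ¬ w.asIdeal ∣ 𝔑 := by
  classical
  have hn0 : Ideal.absNorm 𝔑 ≠ 0 := fun h => h𝔑 (Ideal.absNorm_eq_zero_iff.mp h)
  haveI : NeZero (3 * Ideal.absNorm 𝔑) := ⟨Nat.mul_ne_zero (by norm_num) hn0⟩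
  obtain ⟨p, A, τ, hp, hpB, hA, hτ, hρτ, hpM⟩ :=
    exists_frob_order8_619 hyp (3 * Ideal.absNorm 𝔑) (B ∪ S.image primeOf231 ∪ {3})
  simp only [Finset.mem_union, Finset.mem_singleton, not_or] at hpB
  obtain ⟨⟨hpB, hpS⟩, hp3⟩ := hpB
  have hdvd : 3 * Ideal.absNorm 𝔑 ∣ p + 1 := by
    rw [← ZMod.natCast_eq_zero_iff, Nat.cast_add, hpM]
    simp
  have h3 : ((p : ℕ) : ZMod 3) = -1 := by
    have h3dvd : 3 ∣ p + 1 := (Dvd.intro _ rfl).trans hdvd
    have := (ZMod.natCast_eq_zero_iff (p + 1) 3).mpr h3dvd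
    rw [Nat.cast_add, Nat.cast_one] at this
    exact eq_neg_of_add_eq_zero_left this
  have hmem : ((p : ℕ) : 𝓞 K) + 1 ∈ 𝔑 := by
    have hN : Ideal.absNorm 𝔑 ∣ p + 1 := (Dvd.intro_left _ rfl).trans hdvd
    obtain ⟨t, ht⟩ := hN
    have : ((p : ℕ) : 𝓞 K) + 1 = ((Ideal.absNorm 𝔑 : ℕ) : 𝓞 K) * ((t : ℕ) : 𝓞 K) := by
      have := congrArg (fun n : ℕ => (n : 𝓞 K)) ht
      simpa using this
    rw [this]
    exact 𝔑.mul_mem_right _ (by exact_mod_cast Ideal.absNorm_mem 𝔑)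
  refine ⟨p, A, τ, hp, hpB, hp3, hA, hτ, hρτ, h3, hmem, fun w hpw => ⟨?_, ?_⟩⟩
  · exact not_mem_of_prime_not_mem_image231 hp hpS hpw
  · intro hdiv
    have hle : 𝔑 ≤ w.asIdeal := Ideal.le_of_dvd hdiv
    have h1 : (1 : 𝓞 K) ∈ w.asIdeal := by
      have := w.asIdeal.sub_mem (hle hmem) hpw
      simpa using this
    exact w.isPrime.ne_top ((Ideal.eq_top_iff_one _).mpr h1)

/-- `[F : ℚ] = 2`. -/
theorem finrank_fieldF619 {ρ : Γℚ →* GL (Fin 2) (ZMod 3)}
    {Ψ : GL (Fin 2) (ZMod 3) →* GL (Fin 2) (ℤ√(-2))} (hyp : LTB.Hyp ρ Ψ) :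
    Module.finrank ℚ (fieldF ρ) = 2 := by
  haveI := isCyclotomicExtension_fieldF922 hyp
  rw [IsCyclotomicExtension.finrank (n := 3) (fieldF ρ)
    (Polynomial.cyclotomic.irreducible_rat (by norm_num))]
  decide

/-- **LEAF T7.15M `SeedEKMC`.** -/
theorem seedEKMC619 : SeedEKMC := by
  intro ρ Ψ ι hyp nfE Φ hseed
  haveI := nfE
  obtain ⟨S₀, hS₀⟩ := hseed
  intro 𝔑 h𝔑 S
  classical
  haveI nE := normal_fieldE231 ρ
  haveI gE : IsGalois ℚ (fieldE ρ) := isGalois_iff.mpr ⟨inferInstance, nE⟩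
  obtain ⟨BE, hBE⟩ := frobStatement (fieldE ρ)
  obtain ⟨p, A, τ, hp, hpB, -, hA, hτ, hρτ, -, hpN, hout⟩ :=
    exists_prime619 hyp 𝔑 h𝔑 S (S₀ ∪ BE)
  simp only [Finset.mem_union, not_or] at hpB
  obtain ⟨hp0, hpBE⟩ := hpB
  refine goodEKM_core619 Φ 𝔑 S hp hpN hout ?_ 2 3 (by decide) ?_ (by norm_num) ?_
  · intro w hpw
    obtain ⟨ha, hb⟩ := hS₀ p hp hp0 A hA τ hτ w hpw
    rw [hρτ, ordQ8_g8_619] at ha
    exact ⟨ha.trans (trΨ_g8_sq619 hyp.lift ι), hb⟩
  · rw [finrank_fieldE_eq231 hyp.cont hyp.surj, finrank_fieldF619 hyp]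
  · intro w hpw
    have h := absNorm_fieldE231 hyp.cont hp hA hτ
      (fun P hP hpP => (hBE p hp hpBE P hP hpP).1) w hpw
    rw [hρτ, ordQ8_g8_619] at h
    exact h

/-- **LEAF T7.16M `MidEKMC`.** -/
theorem midEKMC619 : MidEKMC := by
  intro ρ Ψ ι hyp nfF π hmid
  haveI := nfF
  obtain ⟨S₀, hS₀⟩ := hmid
  intro 𝔑 h𝔑 S
  classical
  haveI hcyc := isCyclotomicExtension_fieldF922 hyp
  obtain ⟨p, A, τ, hp, hp0, hp3, hA, hτ, hρτ, h3, hpN, hout⟩ :=
    exists_prime619 hyp 𝔑 h𝔑 S S₀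
  refine goodEKM_core619 π 𝔑 S hp hpN hout ?_ 2 1 (by decide) ?_ (by norm_num) ?_
  · intro v hpv
    obtain ⟨ha, hb⟩ := hS₀ p hp hp0 A hA τ hτ v hpv
    rw [hρτ, ordSL_g8_619, ordQ8_g8_sq619, satakePow_one, pow_one] at ha
    exact ⟨ha.trans (trΨ_g8_sq619 hyp.lift ι), hb⟩
  · rw [finrank_fieldF619 hyp]
  · intro v hpv
    have h := absNorm_eq922 (fieldF ρ) hp hp3 v hpv
    rw [h3] at h
    have ho : orderOf (-1 : ZMod 3) = 2 := by
      rw [orderOf_eq_iff (by norm_num)]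
      decide
    rw [ho] at h
    exact h

end Fermat.Agent.LT.T7.H619

end

end
-- ===== PACK-END LT/T7/H619/EKMLeaves.lean

-- ===== PACK-BEGIN LT/H19/ParArith.lean
section








/-!
# Row LT, end PAR (parity), leaf PAR-ARITH (helper19): the EVEN descent candidate does not exist

Setting of the wall (no-GL3 route, memo origin/helper391): the quadratic descent `F/ℚ`
(`F = ℚ(√-3)`) produces a cuspidal `π` over `ℚ` whose central character is `χ₋₃` (ODD: holomorphic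
of weight one) or trivial (EVEN: Maass form with `Δ = 1/4`).  Only the base change identities are
known for `π`.  This file excludes the EVEN case by the mass count of Deligne–Serre type:

* `EvenCand ρ Ψ ι N a`: `a : ℕ → ℂ` is a normalised Hecke eigensystem with TRIVIAL character at
  the primes `p ∤ N`, and at every prime `p ∤ 3N` with Frobenius `σ`, `a p = α + β`, `α β = 1` with
  `(α, β)` tied to `g = Ψ (ρ σ)` only by the base change identities
  (`g ∈ Q₈`: `α + β = tr g`;  `det ρ σ = 1`: `α³ + β³ = tr g³`;  `det ρ σ ≠ 1`: `α² + β² = tr g²`).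
* `MSBound a`: the mean square bound `∑_{n ≤ x} ‖a n‖² ≤ C x` (for a Maass cusp form: Parseval on a
  horocycle and `K₀ > 0`; this is the only analytic input, leaf MS-EVEN).
* `parArith`: `EvenCand` + `MSBound` is contradictory for surjective `ρ` of finite level:
  `‖a p‖² ≥ 2` on the primes with `det ρ(Frob_p) = -1` (density `1/2`) and `‖a p‖² = 4` on the
  primes with `ρ(Frob_p) = 1` (density `1/48`), against the Rankin bound with constant `1`.

Inputs on main: `Lib.Cheb.chebDensity`, `S48.H308.rankin_abs`, `S48.H648.sum_mul_rpow_neg_le`.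
No automorphic input.  OFF-MAIN.
-/

set_option autoImplicit false

open FLT.ExplicitLift
open scoped MatrixGroups

namespace Fermat.Agent.LT.H19

open Fermat.Agent.Lib.Cheb.Spec Fermat.Agent.Lib.Cheb.SpecQ

/-! ## Arithmetic of `ℤ[√-2]` -/

/-- `ℤ[√-2]` has no zero divisors. -/
theorem zsqrtd_eq_zero_of_mul {x y : ℤ√(-2)} (h : x * y = 0) (hx : x ≠ 0) : y = 0 := by
  have hn : (x * y).norm = 0 := by rw [h]; simp [Zsqrtd.norm]
  rw [Zsqrtd.norm_mul] at hn
  rcases mul_eq_zero.mp hn with h1 | h1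
  · exact absurd ((Zsqrtd.norm_eq_zero_iff (by norm_num) x).mp h1) hx
  · exact (Zsqrtd.norm_eq_zero_iff (by norm_num) y).mp h1

/-- `-1` is not a square in `ℤ[√-2]`. -/
theorem zsqrtd_sq_ne_neg_one (x : ℤ√(-2)) : x * x ≠ -1 := by
  intro h
  have h1 := congrArg Zsqrtd.re h
  have h2 := congrArg Zsqrtd.im h
  simp only [Zsqrtd.re_mul, Zsqrtd.im_mul, Zsqrtd.re_neg, Zsqrtd.im_neg, Zsqrtd.re_one,
    Zsqrtd.im_one] at h1 h2
  have h3 : x.re * x.im = 0 := by linarith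
  rcases mul_eq_zero.mp h3 with h0 | h0
  · rw [h0] at h1
    have : 2 * (x.im * x.im) = 1 := by linarith
    omega
  · rw [h0] at h1
    nlinarith [mul_self_nonneg x.re]

/-! ## The lift `Ψ` -/

section Lift

variable (Ψ : GL (Fin 2) (ZMod 3) →* GL (Fin 2) (ℤ√(-2)))

/-- The matrix of `Ψ g`. -/
def liftMat (g : GL (Fin 2) (ZMod 3)) : Matrix (Fin 2) (Fin 2) (ℤ√(-2)) :=
  ((Ψ g : GL (Fin 2) (ℤ√(-2))) : Matrix (Fin 2) (Fin 2) (ℤ√(-2)))

theorem liftMat_one : liftMat Ψ 1 = 1 := by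
  simp [liftMat]

theorem liftMat_mul (g h : GL (Fin 2) (ZMod 3)) :
    liftMat Ψ (g * h) = liftMat Ψ g * liftMat Ψ h := by
  simp [liftMat]

variable {Ψ}

theorem red_liftMat (hΨ : ∀ g, Matrix.GeneralLinearGroup.map red (Ψ g) = g)
    (g : GL (Fin 2) (ZMod 3)) (i j : Fin 2) :
    red (liftMat Ψ g i j) = (g : Matrix (Fin 2) (Fin 2) (ZMod 3)) i j := by
  have h2 := congrArg
    (fun x : GL (Fin 2) (ZMod 3) => (x : Matrix (Fin 2) (Fin 2) (ZMod 3)) i j) (hΨ g)
  simpa [liftMat] using h2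

/-- `Ψ (-1) = -1`: an involution congruent to `-1` modulo a prime above `3` is `-1`. -/
theorem liftMat_neg_one (hΨ : ∀ g, Matrix.GeneralLinearGroup.map red (Ψ g) = g) :
    liftMat Ψ (-1) = -1 := by
  set T := liftMat Ψ (-1) with hT
  have hTT : T * T = 1 := by
    rw [hT, ← liftMat_mul]
    have : (-1 : GL (Fin 2) (ZMod 3)) * (-1) = 1 := by simp
    rw [this, liftMat_one]
  have hr : ∀ i j, red (T i j) = (-1 : Matrix (Fin 2) (Fin 2) (ZMod 3)) i j := by
    intro i j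
    rw [hT, red_liftMat hΨ]
    simp
  have h00 : red (T 0 0) = -1 := by simpa using hr 0 0
  have h01 : red (T 0 1) = 0 := by simpa using hr 0 1
  have h10 : red (T 1 0) = 0 := by simpa using hr 1 0
  have h11 : red (T 1 1) = -1 := by simpa using hr 1 1
  set U : Matrix (Fin 2) (Fin 2) (ℤ√(-2)) := T - 1 with hU
  have hdet : U.det ≠ 0 := by
    intro h0
    have h1 : red U.det = 0 := by rw [h0, map_zero]
    rw [Matrix.det_fin_two] at h1
    simp only [hU, Matrix.sub_apply, Matrix.one_apply_eq, map_sub, map_mul, map_one,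
      h00, h01, h10, h11] at h1
    revert h1
    decide
  have hUV : U * (T + 1) = 0 := by
    rw [hU, Matrix.sub_mul, Matrix.mul_add, Matrix.mul_add, hTT]
    simp only [Matrix.mul_one, Matrix.one_mul]
    abel
  have hz : U.det • (T + 1) = 0 := by
    have h1 : U.adjugate * (U * (T + 1)) = 0 := by rw [hUV, Matrix.mul_zero]
    rw [← Matrix.mul_assoc, Matrix.adjugate_mul, Matrix.smul_mul, Matrix.one_mul] at h1
    exact h1
  have hent : ∀ i j, (T + 1) i j = 0 := by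
    intro i j
    have h1 := congrFun (congrFun hz i) j
    simp only [Matrix.smul_apply, smul_eq_mul, Matrix.zero_apply] at h1
    exact zsqrtd_eq_zero_of_mul h1 hdet
  have : T + 1 = 0 := Matrix.ext hent
  exact eq_neg_of_add_eq_zero_left this

/-- If `h * h = -1` in `GL₂(𝔽₃)` then `Ψ h` has trace `0`. -/
theorem trace_liftMat_eq_zero (hΨ : ∀ g, Matrix.GeneralLinearGroup.map red (Ψ g) = g)
    (h : GL (Fin 2) (ZMod 3)) (hh : h * h = -1) : (liftMat Ψ h).trace = 0 := by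
  set T := liftMat Ψ h with hT
  have hTT : T * T = -1 := by
    rw [hT, ← liftMat_mul, hh, liftMat_neg_one hΨ]
  have e00 : T 0 0 * T 0 0 + T 0 1 * T 1 0 = -1 := by
    have := congrFun (congrFun hTT 0) 0
    simpa [Matrix.mul_apply, Fin.sum_univ_two] using this
  have e01 : T 0 0 * T 0 1 + T 0 1 * T 1 1 = 0 := by
    have := congrFun (congrFun hTT 0) 1
    simpa [Matrix.mul_apply, Fin.sum_univ_two] using this
  rw [Matrix.trace_fin_two]
  by_contra ht
  have h1 : (T 0 0 + T 1 1) * T 0 1 = 0 := by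
    rw [← e01]; ring
  have h2 : T 0 1 = 0 := zsqrtd_eq_zero_of_mul h1 ht
  rw [h2, zero_mul, add_zero] at e00
  exact zsqrtd_sq_ne_neg_one _ e00

end Lift

/-! ## `GL₂(𝔽₃)` -/

/-- Entrywise form of: `det g = -1 ⟹ g² = 1 ∨ (g²)² = -1`. -/
theorem dich : ∀ a b c d : ZMod 3, a * d - b * c = -1 →
    (a * a + b * c = 1 ∧ a * b + b * d = 0 ∧ c * a + d * c = 0 ∧ c * b + d * d = 1) ∨
    ((a * a + b * c) * (a * a + b * c) + (a * b + b * d) * (c * a + d * c) = -1 ∧
     (a * a + b * c) * (a * b + b * d) + (a * b + b * d) * (c * b + d * d) = 0 ∧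
     (c * a + d * c) * (a * a + b * c) + (c * b + d * d) * (c * a + d * c) = 0 ∧
     (c * a + d * c) * (a * b + b * d) + (c * b + d * d) * (c * b + d * d) = -1) := by
  decide

theorem zmod3_unit_cases : ∀ x : ZMod 3, x ≠ 0 → x ≠ 1 → x = -1 := by decide

/-- For `g ∈ GL₂(𝔽₃)` with `det g ≠ 1`: `g² = 1` or `(g²)² = -1`. -/
theorem sq_dichotomy (g : GL (Fin 2) (ZMod 3)) (hg : Matrix.GeneralLinearGroup.det g ≠ 1) :
    g * g = 1 ∨ (g * g) * (g * g) = -1 := by
  set A : Matrix (Fin 2) (Fin 2) (ZMod 3) := (g : Matrix (Fin 2) (Fin 2) (ZMod 3)) with hA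
  have hdet : A.det = -1 := by
    have hu : IsUnit A.det := by
      have := (Matrix.GeneralLinearGroup.det g).isUnit
      simpa [hA] using this
    refine zmod3_unit_cases _ hu.ne_zero ?_
    intro h1
    apply hg
    ext
    simpa [hA] using h1
  rw [Matrix.det_fin_two] at hdet
  have hAA : ∀ i j, (A * A) i j = A i 0 * A 0 j + A i 1 * A 1 j := by
    intro i j
    simp [Matrix.mul_apply, Fin.sum_univ_two]
  have hB : ∀ i j, ((A * A) * (A * A)) i j =
      (A * A) i 0 * (A * A) 0 j + (A * A) i 1 * (A * A) 1 j := by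
    intro i j
    simp [Matrix.mul_apply, Fin.sum_univ_two]
  rcases dich (A 0 0) (A 0 1) (A 1 0) (A 1 1) hdet with ⟨h1, h2, h3, h4⟩ | ⟨h1, h2, h3, h4⟩
  · left
    apply Units.ext
    show A * A = 1
    rw [Matrix.eta_fin_two (A * A), hAA 0 0, hAA 0 1, hAA 1 0, hAA 1 1, h1, h2, h3, h4,
      Matrix.one_fin_two]
  · right
    apply Units.ext
    show (A * A) * (A * A) = -1
    rw [Matrix.eta_fin_two ((A * A) * (A * A)), hB 0 0, hB 0 1, hB 1 0, hB 1 1,
      hAA 0 0, hAA 0 1, hAA 1 0, hAA 1 1, h1, h2, h3, h4, Matrix.one_fin_two]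
    simp

/-- An element of determinant `≠ 1`. -/
theorem exists_det_ne_one :
    ∃ g₀ : GL (Fin 2) (ZMod 3), Matrix.GeneralLinearGroup.det g₀ ≠ 1 := by
  refine ⟨⟨!![-1, 0; 0, 1], !![-1, 0; 0, 1], by decide, by decide⟩, ?_⟩
  intro h
  have h1 := congrArg Units.val h
  simp [Matrix.det_fin_two] at h1
  revert h1
  decide

/-- At least half of the elements of `GL₂(𝔽₃)` have determinant `≠ 1`. -/
theorem card_le_two_mul_card_detNe :
    (Nat.card (GL (Fin 2) (ZMod 3)) : ℝ) ≤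
      2 * (Nat.card
        ↥({g : GL (Fin 2) (ZMod 3) | Matrix.GeneralLinearGroup.det g ≠ 1}) : ℝ) := by
  classical
  set D : Set (GL (Fin 2) (ZMod 3)) := {g | Matrix.GeneralLinearGroup.det g ≠ 1} with hD
  obtain ⟨g₀, hg₀⟩ := exists_det_ne_one
  have himg : (fun h => g₀ * h) '' Dᶜ ⊆ D := by
    rintro _ ⟨h, hh, rfl⟩
    have hh' : Matrix.GeneralLinearGroup.det h = 1 := by
      by_contra hne
      exact hh hne
    show Matrix.GeneralLinearGroup.det (g₀ * h) ≠ 1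
    rw [map_mul, hh', mul_one]
    exact hg₀
  have h1 : Dᶜ.ncard ≤ D.ncard := by
    calc Dᶜ.ncard = ((fun h => g₀ * h) '' Dᶜ).ncard :=
          (Set.ncard_image_of_injective _ (mul_right_injective g₀)).symm
      _ ≤ D.ncard := Set.ncard_le_ncard himg (Set.toFinite D)
  have h2 : D.ncard + Dᶜ.ncard = Nat.card (GL (Fin 2) (ZMod 3)) := Set.ncard_add_ncard_compl D
  have h4 : Nat.card ↥D = D.ncard := Nat.card_coe_set_eq D
  rw [h4]
  have h3 : Nat.card (GL (Fin 2) (ZMod 3)) ≤ 2 * D.ncard := by omega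
  exact_mod_cast h3

/-! ## The even candidate -/

/-- The EVEN descent candidate: a normalised Hecke eigensystem with trivial character whose Satake
parameters are tied to `Ψ ∘ ρ` by the base change identities only (see the header). -/
structure EvenCand (ρ : GQ →* GL (Fin 2) (ZMod 3))
    (Ψ : GL (Fin 2) (ZMod 3) →* GL (Fin 2) (ℤ√(-2))) (ι : ℤ√(-2) →+* ℂ) (N : ℕ)
    (a : ℕ → ℂ) : Prop where
  one : a 1 = 1
  hecke : ∀ p : ℕ, p.Prime → ¬ p ∣ N → ∀ n : ℕ,
    a (p * n) + (if p ∣ n then a (n / p) else 0) = a p * a n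
  bc : ∀ p : ℕ, p.Prime → ¬ p ∣ 3 * N → ∀ A : ValuationSubring Qb, A.LiesOverPrime p →
    ∀ σ : GQ, A.IsFrobeniusAt σ p →
      ∃ α β : ℂ, a p = α + β ∧ α * β = 1 ∧
        (Matrix.GeneralLinearGroup.det (ρ σ) = 1 → (ρ σ) ^ 4 = 1 →
          α + β = ι (liftMat Ψ (ρ σ)).trace) ∧
        (Matrix.GeneralLinearGroup.det (ρ σ) = 1 →
          α ^ 3 + β ^ 3 = ι (liftMat Ψ ((ρ σ) ^ 3)).trace) ∧
        (Matrix.GeneralLinearGroup.det (ρ σ) ≠ 1 →
          α ^ 2 + β ^ 2 = ι (liftMat Ψ ((ρ σ) ^ 2)).trace)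

section Values

variable {ρ : GQ →* GL (Fin 2) (ZMod 3)} {Ψ : GL (Fin 2) (ZMod 3) →* GL (Fin 2) (ℤ√(-2))}
  {ι : ℤ√(-2) →+* ℂ} {N : ℕ} {a : ℕ → ℂ}

/-- `‖a p‖² = 4` at the primes that split completely. -/
theorem EvenCand.four_le (hE : EvenCand ρ Ψ ι N a) {p : ℕ} (hp : p.Prime) (hpN : ¬ p ∣ 3 * N)
    {A : ValuationSubring Qb} (hA : A.LiesOverPrime p) {σ : GQ} (hσ : A.IsFrobeniusAt σ p)
    (h1 : ρ σ = 1) : 4 ≤ ‖a p‖ ^ 2 := by
  obtain ⟨α, β, hab, -, hQ, -, -⟩ := hE.bc p hp hpN A hA σ hσ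
  have h2 := hQ (by rw [h1, map_one]) (by rw [h1, one_pow])
  rw [h1, liftMat_one, Matrix.trace_one] at h2
  have h3 : a p = 2 := by
    rw [hab, h2]
    simp only [Fintype.card_fin, Nat.cast_ofNat]
    exact map_ofNat ι 2
  rw [h3]
  norm_num

/-- `‖a p‖² ≥ 2` at the primes that are inert in `ℚ(√-3)`. -/
theorem EvenCand.two_le (hE : EvenCand ρ Ψ ι N a)
    (hΨ : ∀ g, Matrix.GeneralLinearGroup.map red (Ψ g) = g)
    {p : ℕ} (hp : p.Prime) (hpN : ¬ p ∣ 3 * N)
    {A : ValuationSubring Qb} (hA : A.LiesOverPrime p) {σ : GQ} (hσ : A.IsFrobeniusAt σ p)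
    (h1 : Matrix.GeneralLinearGroup.det (ρ σ) ≠ 1) : 2 ≤ ‖a p‖ ^ 2 := by
  obtain ⟨α, β, hab, hprod, -, -, hI⟩ := hE.bc p hp hpN A hA σ hσ
  have h2 := hI h1
  have hsq : (a p) ^ 2 = α ^ 2 + β ^ 2 + 2 := by
    rw [hab]
    linear_combination 2 * hprod
  have hnorm : ‖a p‖ ^ 2 = ‖(a p) ^ 2‖ := (norm_pow _ _).symm
  rw [hnorm, hsq, h2, pow_two]
  rcases sq_dichotomy (ρ σ) h1 with h3 | h3
  · rw [h3, liftMat_one, Matrix.trace_one]
    have : ((ι ((Fintype.card (Fin 2) : ℕ) : ℤ√(-2)) : ℂ) + 2) = 4 := by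
      simp only [Fintype.card_fin, Nat.cast_ofNat]
      rw [map_ofNat ι 2]
      norm_num
    rw [this]
    norm_num
  · rw [trace_liftMat_eq_zero hΨ _ h3, map_zero, zero_add]
    norm_num

end Values

/-! ## PAR-ARITH -/

/-- **PAR-ARITH.**  For a surjective `ρ : G_ℚ → GL₂(𝔽₃)` of finite level and a section `Ψ` of the
reduction, no even candidate with a mean square bound exists. -/
theorem parArith (ρ : GQ →* GL (Fin 2) (ZMod 3))
    (Ψ : GL (Fin 2) (ZMod 3) →* GL (Fin 2) (ℤ√(-2)))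
    (hsurj : Function.Surjective ρ) (hfin : GaloisFactorsThroughFiniteLevel ρ)
    (hΨ : ∀ g, Matrix.GeneralLinearGroup.map red (Ψ g) = g)
    (ι : ℤ√(-2) →+* ℂ) (N : ℕ) (hN : N ≠ 0) (a : ℕ → ℂ)
    (hE : EvenCand ρ Ψ ι N a) (hMS : MSBound a) : False := by
  classical
  obtain ⟨E, hEfin, hρE⟩ := hfin
  obtain ⟨C, hC⟩ := rankin_of_msBound N a hE.one hE.hecke hMS
  set S : Finset ℕ := (3 * N).primeFactors with hSdef
  have hS : ∀ p : ℕ, p.Prime → p ∉ S → ¬ p ∣ 3 * N := by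
    intro p hp hpS hdvd
    exact hpS (Nat.mem_primeFactors.mpr ⟨hp, hdvd, by positivity⟩)
  have hS' : ∀ p : ℕ, p.Prime → p ∉ S → ¬ p ∣ N := fun p hp hpS hdvd =>
    hS p hp hpS (Dvd.dvd.mul_left hdvd 3)
  set D : Set (GL (Fin 2) (ZMod 3)) := {g | Matrix.GeneralLinearGroup.det g ≠ 1} with hD
  have hd1 := Fermat.Agent.Lib.Cheb.chebDensity (GL (Fin 2) (ZMod 3)) ρ E hEfin hρE D S
  have hd2 := Fermat.Agent.Lib.Cheb.chebDensity (GL (Fin 2) (ZMod 3)) ρ E hEfin hρE {1} S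
  have hrange : Set.range ρ = Set.univ := Set.range_eq_univ.mpr hsurj
  rw [hrange, Set.inter_univ] at hd1 hd2
  have hcardU : Nat.card ↥(Set.univ : Set (GL (Fin 2) (ZMod 3))) =
      Nat.card (GL (Fin 2) (ZMod 3)) := Nat.card_congr (Equiv.Set.univ _)
  rw [hcardU] at hd1 hd2
  have hGpos : (0 : ℝ) < (Nat.card (GL (Fin 2) (ZMod 3)) : ℝ) := by
    have : 0 < Nat.card (GL (Fin 2) (ZMod 3)) := Nat.card_pos
    exact_mod_cast this
  refine false_of_two_sets a N C hC _ _ _ _ hd1 hd2 ?_ ?_ ?_ ?_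
  · rintro p ⟨hp, hpS, A, τ, hA, hτ, -, hτD⟩
    exact ⟨hp, hS' p hp hpS, hE.two_le hΨ hp (hS p hp hpS) hA hτ hτD⟩
  · rintro p ⟨hp, hpS, A, τ, hA, hτ, -, hτ1⟩
    exact ⟨hp, hS' p hp hpS, hE.four_le hp (hS p hp hpS) hA hτ hτ1⟩
  · rw [mul_div_assoc', le_div_iff₀ hGpos, one_mul]
    exact card_le_two_mul_card_detNe
  · apply div_pos _ hGpos
    have : Nat.card ↥({1} : Set (GL (Fin 2) (ZMod 3))) = 1 := by simp
    rw [this]
    norm_num

end Fermat.Agent.LT.H19

end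
-- ===== PACK-END LT/H19/ParArith.lean

-- ===== PACK-BEGIN LT/H19/ParTop.lean
section



/-!
# Row LT, end PAR (parity): PAR-ARITH under the hypotheses of the frozen S47 (helper19)

`parArith_of_hyp : LTB.Hyp ρ Ψ → EvenCand ρ Ψ ι N a → MSBound a → False` (`N ≠ 0`).
Board: `Fermat/Agent/LT/H17/Board.lean` of origin/helper17 (byte-identical copy).  OFF-MAIN.
-/

set_option autoImplicit false

open FLT.ExplicitLift
open scoped MatrixGroups

namespace Fermat.Agent.LT.H19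

open Fermat.Agent.Lib.Cheb.Spec

/-- A continuous homomorphism `G_ℚ → GL₂(𝔽₃)` (discrete target) factors through a finite level. -/
theorem finiteLevel_of_continuous (ρ : GQ →* GL (Fin 2) (ZMod 3)) (hρ : Continuous ρ) :
    GaloisFactorsThroughFiniteLevel ρ := by
  have hopen : IsOpen (ρ ⁻¹' {1}) := (isOpen_discrete _).preimage hρ
  have hmem : (ρ ⁻¹' {1}) ∈ nhds (1 : GQ) := hopen.mem_nhds (by simp)
  obtain ⟨E, hE, hsub⟩ := (krullTopology_mem_nhds_one_iff ℚ Qb _).mp hmem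
  refine ⟨E, hE, fun σ hσ => ?_⟩
  have hσ' : σ ∈ E.fixingSubgroup := by
    rw [IntermediateField.mem_fixingSubgroup_iff]
    exact hσ
  exact hsub hσ'

/-- **PAR-ARITH** under the hypotheses of the frozen S47. -/
theorem parArith_of_hyp (ρ : GQ →* GL (Fin 2) (ZMod 3))
    (Ψ : GL (Fin 2) (ZMod 3) →* GL (Fin 2) (ℤ√(-2))) (h : LTB.Hyp ρ Ψ)
    (ι : ℤ√(-2) →+* ℂ) (N : ℕ) (hN : N ≠ 0) (a : ℕ → ℂ)
    (hE : EvenCand ρ Ψ ι N a) (hMS : MSBound a) : False :=
  parArith ρ Ψ h.surj (finiteLevel_of_continuous ρ h.cont) h.lift ι N hN a hE hMS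

end Fermat.Agent.LT.H19

end
-- ===== PACK-END LT/H19/ParTop.lean

-- ===== PACK-BEGIN LT/H19/Par556.lean
section




/-!
# Row LT, WALL, leaf `PAR556` of the frozen skeleton of helper556: reduction to TWO adelic sub-leaves
(helper19, OFF-MAIN)

`par556_of_two : CentralEven556 → MS556 → WT.PAR556`   (PROVED here, no hole; axioms std).

* `CentralEven556` (sub-leaf P-A, frozen Prop, TRUE): the `S_p`-eigenvalues `π.b` of a cusp form on
  `GL₂(𝔸_ℚ)` in the sense of `A0.IsCuspAdelicSph0` are the values of an EVEN Dirichlet character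
  (`𝔸^× = ℚ^× ℝ_{>0} ∏ ℤ_q^×`; invariance under `GL₂(ℚ)`, under the positive scalars, under the
  level group and under `-1 ∈ SO(2)`; Dirichlet's theorem to define `χ` on the residue classes).
* `MS556` (sub-leaf P-B, frozen Prop, TRUE): the Hecke-multiplicative sequence `a` of such a form
  (supported on the `n` prime to a level `N`) satisfies the mean square bound
  `∑_{n ≤ x} ‖a n‖² ≤ C x`.  Proof WITHOUT Rankin--Selberg, WITHOUT Bessel functions and WITHOUT the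
  Laplacian: on the horocycle of height `y` the function `u(x, y; g_f) = φ (g_∞(x, y) g_f)` is
  continuous, bounded by `sup ‖φ‖`, periodic in `x`; cuspidality kills the constant coefficient;
  the Hecke relation at `p` gives `c_{m p n}(y; δ_p g_f) = p^{-1/2} a_p c_{m n}(p y; g_f) - …`, hence
  `c_{m n}(y; δ_n g_f) = n^{-1/2} a_n c_m(n y; g_f)` for `(n, N) = 1`; `δ_n g_f` runs over FINITELY
  many classes modulo the level group; Bessel's inequality on each class and a dyadic sum give the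
  bound.  (The archimedean mean value property is NOT used: the mass count excludes every bounded
  cusp form with trivial central character and the data `BotData`.)
  TRAP: restricting the Hecke recursion to the primes `p ≡ 1 mod M` (no twist `δ_p`) is NOT enough:
  the Rankin bound then loses the constant `1` in front of `log (1 / (s - 1))`.
* The adapter (this file, pure arithmetic): `Hyp.det` and the value of the mod 3 cyclotomic
  character at Frobenius give `π.b = 1` at the primes `p ≡ 1 mod 3`; for `p ≡ 2 mod 3` a prime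
  `q ≡ -p mod 3 N₁` (Dirichlet) has `χ q = χ (-1) χ p = χ p` and `q ≡ 1 mod 3`, so `π.b = 1` at
  almost all primes; then `BotData` gives `a_p = 2` at the primes with `ρ(Frob_p) = 1` and
  `a_p² ∈ {2, 4}` at the primes with `det ρ(Frob_p) = -1`, against `parArith` (mass `≥ 1 + 1/24`).
-/

set_option autoImplicit false

open AutomorphicForm IsDedekindDomain NumberField FLT.ExplicitLift
open scoped MatrixGroups

noncomputable section

namespace Fermat.Agent.LT.H19

open Fermat.Agent.Lib.Cheb.Spec Fermat.Agent.Lib.Cheb.SpecQ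
open Fermat.Agent.LT.H130 Fermat.Agent.LT.H556

/-! ## The two adelic sub-leaves (frozen Props) -/

/-- **Sub-leaf P-A.**  The `S_p`-eigenvalues of a cusp form on `GL₂(𝔸_ℚ)` which is right invariant
under `SO(2)` and the positive scalars at the real place are the values of an EVEN Dirichlet
character. -/
def CentralEven556 : Prop :=
  ∀ π : HeckeEigensystem ℚ ℂ, A0.IsCuspAdelicSph0 ℚ π →
    ∃ (N : ℕ) (χ : DirichletCharacter ℂ N), N ≠ 0 ∧ χ (-1) = 1 ∧
      ∀ p : ℕ, p.Prime → ¬ p ∣ N →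
        ∀ w : HeightOneSpectrum (𝓞 ℚ), ((p : ℕ) : 𝓞 ℚ) ∈ w.asIdeal → π.b w = χ (p : ZMod N)

/-- **Sub-leaf P-B.**  Mean square bound for the Hecke-multiplicative sequence of a bounded cusp
form on `GL₂(𝔸_ℚ)` (Bessel's inequality on the horocycles). -/
def MS556 : Prop :=
  ∀ π : HeckeEigensystem ℚ ℂ, A0.IsCuspAdelicSph0 ℚ π →
    ∃ (N : ℕ) (a : ℕ → ℂ), N ≠ 0 ∧ a 1 = 1 ∧
      (∀ p : ℕ, p.Prime → ¬ p ∣ N →
        ∀ w : HeightOneSpectrum (𝓞 ℚ), ((p : ℕ) : 𝓞 ℚ) ∈ w.asIdeal → ∀ n : ℕ,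
          a (p * n) + π.b w * (if p ∣ n then a (n / p) else 0) = π.a w * a n) ∧
      MSBound a

/-! ## The place of `ℚ` over a prime -/

theorem natCast_mem_ratPrime19 (p : Nat.Primes) :
    (((p : ℕ) : ℕ) : 𝓞 ℚ) ∈ (ratPrime p).asIdeal := by
  have h1 : (((p : ℕ) : ℕ) : 𝓞 ℚ) ∈ (ratPrime p).asIdeal ↔
      Rat.IsIntegralClosure.intEquiv (𝓞 ℚ) (((p : ℕ) : ℕ) : 𝓞 ℚ) ∈
        (ratPrime p).asIdeal.map (Rat.IsIntegralClosure.intEquiv (𝓞 ℚ)) :=
    (Ideal.apply_mem_of_equiv_iff (f := Rat.IsIntegralClosure.intEquiv (𝓞 ℚ))).symm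
  have h2 : Rat.HeightOneSpectrum.natGenerator (ratPrime p) = (p : ℕ) :=
    congrArg Subtype.val
      (Equiv.apply_symm_apply (Rat.HeightOneSpectrum.primesEquiv (R := 𝓞 ℚ)) p)
  rw [h1, map_natCast, ← Rat.HeightOneSpectrum.natGenerator_dvd_iff, h2]

/-! ## The mod 3 cyclotomic character at Frobenius -/

theorem modThree_frob19 {q : ℕ} (hq : q.Prime) (hq3 : q ≠ 3)
    (A : ValuationSubring Qb) (hA : A.LiesOverPrime q) (σ : GQ) (hσ : A.IsFrobeniusAt σ q) :
    ((WeierstrassCurve.modThreeCyclotomicChar σ : (ZMod 3)ˣ) : ZMod 3) = (q : ZMod 3) := by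
  have : Fact (Nat.Prime 3) := ⟨Nat.prime_three⟩
  have : Fact (1 < 3) := ⟨by norm_num⟩
  have h := modularCyclotomicCharacter.unique (AlgebraicClosure ℚ)
    (IsAlgClosed.card_rootsOfUnity_eq (AlgebraicClosure ℚ) 3)
    (σ : AlgebraicClosure ℚ ≃+* AlgebraicClosure ℚ) (c := (q : ZMod 3))
    (fun t ht => by
      have htp : (t : AlgebraicClosure ℚ) ^ 3 = 1 := by
        have := (mem_rootsOfUnity 3 t).1 ht
        rw [← Units.val_pow_eq_pow_val, this, Units.val_one]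
      have h1 : (σ : AlgebraicClosure ℚ ≃+* AlgebraicClosure ℚ) (t : AlgebraicClosure ℚ)
          = (t : AlgebraicClosure ℚ) ^ q :=
        Fermat.Agent.S29.H872.frob_root_eq_pow 3 hq hq3 A hA σ hσ htp
      rw [h1, ZMod.val_natCast]
      conv_lhs => rw [← Nat.div_add_mod q 3, pow_add, pow_mul, htp, one_pow, one_mul])
  exact h.symm

/-! ## PAR-ARITH with the hypotheses that are really used -/

/-- `parArith` with the two lower bounds as hypotheses. -/
theorem parArith_weak (ρ : GQ →* GL (Fin 2) (ZMod 3))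
    (hsurj : Function.Surjective ρ) (hfin : GaloisFactorsThroughFiniteLevel ρ)
    (N : ℕ) (hN : N ≠ 0) (a : ℕ → ℂ) (h1 : a 1 = 1)
    (hT : ∀ p : ℕ, p.Prime → ¬ p ∣ N → ∀ n : ℕ,
      a (p * n) + (if p ∣ n then a (n / p) else 0) = a p * a n)
    (h4 : ∀ p : ℕ, p.Prime → ¬ p ∣ 3 * N → ∀ A : ValuationSubring Qb, A.LiesOverPrime p →
      ∀ σ : GQ, A.IsFrobeniusAt σ p → ρ σ = 1 → 4 ≤ ‖a p‖ ^ 2)
    (h2 : ∀ p : ℕ, p.Prime → ¬ p ∣ 3 * N → ∀ A : ValuationSubring Qb, A.LiesOverPrime p →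
      ∀ σ : GQ, A.IsFrobeniusAt σ p → Matrix.GeneralLinearGroup.det (ρ σ) ≠ 1 → 2 ≤ ‖a p‖ ^ 2)
    (hMS : MSBound a) : False := by
  classical
  obtain ⟨E, hEfin, hρE⟩ := hfin
  obtain ⟨C, hC⟩ := rankin_of_msBound N a h1 hT hMS
  set S : Finset ℕ := (3 * N).primeFactors with hSdef
  have hS : ∀ p : ℕ, p.Prime → p ∉ S → ¬ p ∣ 3 * N := by
    intro p hp hpS hdvd
    exact hpS (Nat.mem_primeFactors.mpr ⟨hp, hdvd, by positivity⟩)
  have hS' : ∀ p : ℕ, p.Prime → p ∉ S → ¬ p ∣ N := fun p hp hpS hdvd =>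
    hS p hp hpS (Dvd.dvd.mul_left hdvd 3)
  set D : Set (GL (Fin 2) (ZMod 3)) := {g | Matrix.GeneralLinearGroup.det g ≠ 1} with hD
  have hd1 := Fermat.Agent.Lib.Cheb.chebDensity (GL (Fin 2) (ZMod 3)) ρ E hEfin hρE D S
  have hd2 := Fermat.Agent.Lib.Cheb.chebDensity (GL (Fin 2) (ZMod 3)) ρ E hEfin hρE {1} S
  have hrange : Set.range ρ = Set.univ := Set.range_eq_univ.mpr hsurj
  rw [hrange, Set.inter_univ] at hd1 hd2
  have hcardU : Nat.card ↥(Set.univ : Set (GL (Fin 2) (ZMod 3))) =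
      Nat.card (GL (Fin 2) (ZMod 3)) := Nat.card_congr (Equiv.Set.univ _)
  rw [hcardU] at hd1 hd2
  have hGpos : (0 : ℝ) < (Nat.card (GL (Fin 2) (ZMod 3)) : ℝ) := by
    have : 0 < Nat.card (GL (Fin 2) (ZMod 3)) := Nat.card_pos
    exact_mod_cast this
  refine false_of_two_sets a N C hC _ _ _ _ hd1 hd2 ?_ ?_ ?_ ?_
  · rintro p ⟨hp, hpS, A, τ, hA, hτ, -, hτD⟩
    exact ⟨hp, hS' p hp hpS, h2 p hp (hS p hp hpS) A hA τ hτ hτD⟩
  · rintro p ⟨hp, hpS, A, τ, hA, hτ, -, hτ1⟩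
    exact ⟨hp, hS' p hp hpS, h4 p hp (hS p hp hpS) A hA τ hτ hτ1⟩
  · rw [mul_div_assoc', le_div_iff₀ hGpos, one_mul]
    exact card_le_two_mul_card_detNe
  · apply div_pos _ hGpos
    have : Nat.card ↥({1} : Set (GL (Fin 2) (ZMod 3))) = 1 := by simp
    rw [this]
    norm_num

/-! ## Group theory of `GL₂(𝔽₃)` for the stations -/

theorem zmod3_unit_sq : ∀ u : (ZMod 3)ˣ, u * u = 1 := by decide

theorem ordSL_of_det {g : GL (Fin 2) (ZMod 3)} (h : Matrix.GeneralLinearGroup.det g = 1) :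
    ordSL g = 1 := by
  unfold ordSL
  rw [if_pos h]

theorem ordSL_of_det_ne {g : GL (Fin 2) (ZMod 3)} (h : Matrix.GeneralLinearGroup.det g ≠ 1) :
    ordSL g = 2 := by
  unfold ordSL
  rw [if_neg h]

theorem inQ8_sq_of_det_ne {g : GL (Fin 2) (ZMod 3)} (h : Matrix.GeneralLinearGroup.det g ≠ 1) :
    InQ8 (g ^ 2) := by
  refine ⟨?_, ?_⟩
  · rw [map_pow, pow_two]
    exact zmod3_unit_sq _
  · rcases sq_dichotomy g h with h1 | h1
    · rw [pow_two, h1, one_pow]
    · have : (g ^ 2) ^ 4 = ((g * g) * (g * g)) * ((g * g) * (g * g)) := by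
        simp only [pow_succ, pow_zero, one_mul, mul_assoc]
      rw [this, h1]
      simp

theorem ordQ8_of_inQ8 {g : GL (Fin 2) (ZMod 3)} (h : InQ8 g) : ordQ8 g = 1 := by
  unfold ordQ8
  rw [if_pos h]

theorem inQ8_one : InQ8 (1 : GL (Fin 2) (ZMod 3)) := ⟨map_one _, one_pow _⟩

/-! ## The adapter -/

/-- **`PAR556` from the two adelic sub-leaves.** -/
theorem par556_of_two (hA : CentralEven556) (hB : MS556) : WT.PAR556 := by
  classical
  intro ρ Ψ ι hyp π hsph hBot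
  obtain ⟨N₁, χ, hN₁, hχ, hb⟩ := hA π hsph
  obtain ⟨N₂, a, hN₂, ha1, hrel, hMS⟩ := hB π hsph
  obtain ⟨S, hS⟩ := hBot
  -- the level
  set P : ℕ := ∏ p ∈ S, (if p = 0 then 1 else p) with hP
  have hPne : P ≠ 0 := by
    rw [hP]
    refine Finset.prod_ne_zero_iff.mpr (fun p _ => ?_)
    split_ifs with h0
    · exact one_ne_zero
    · exact h0
  have hSdvd : ∀ p ∈ S, p ≠ 0 → p ∣ P := by
    intro p hp h0
    have := Finset.dvd_prod_of_mem (fun p => if p = 0 then 1 else p) hp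
    simpa [h0] using this
  set N : ℕ := N₁ * N₂ * P with hNdef
  have hN : N ≠ 0 := mul_ne_zero (mul_ne_zero hN₁ hN₂) hPne
  have hgood : ∀ p : ℕ, p.Prime → ¬ p ∣ 3 * N → p ≠ 3 ∧ ¬ p ∣ N₁ ∧ ¬ p ∣ N₂ ∧ p ∉ S := by
    intro p hp hpN
    refine ⟨?_, ?_, ?_, ?_⟩
    · rintro rfl
      exact hpN (dvd_mul_right 3 N)
    · intro h
      exact hpN (Dvd.dvd.mul_left ((h.mul_right N₂).mul_right P) 3)
    · intro h
      exact hpN (Dvd.dvd.mul_left ((h.mul_left N₁).mul_right P) 3)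
    · intro h
      exact hpN (Dvd.dvd.mul_left (Dvd.dvd.mul_left (hSdvd p h hp.ne_zero) (N₁ * N₂)) 3)
  -- determinant of Frobenius
  have hdetF : ∀ p : ℕ, p.Prime → p ≠ 3 → ∀ A : ValuationSubring Qb, A.LiesOverPrime p →
      ∀ σ : GQ, A.IsFrobeniusAt σ p →
        ((Matrix.GeneralLinearGroup.det (ρ σ) : (ZMod 3)ˣ) : ZMod 3) = (p : ZMod 3) := by
    intro p hp hp3 A hA' σ hσ
    rw [hyp.det σ]
    exact modThree_frob19 hp hp3 A hA' σ hσ
  -- `π.b = 1` at the primes that split in `ℚ(√-3)`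
  have hbsplit : ∀ p : ℕ, ∀ hp : p.Prime, ¬ p ∣ 3 * N → (p : ZMod 3) = 1 →
      π.b (ratPrime ⟨p, hp⟩) = 1 := by
    intro p hp hpN hp1
    obtain ⟨hp3, -, -, hpS⟩ := hgood p hp hpN
    obtain ⟨A, σ, hA', hσ⟩ := Fermat.Agent.S54.exists_frobenius p hp
    have hdet : Matrix.GeneralLinearGroup.det (ρ σ) = 1 := by
      apply Units.ext
      rw [hdetF p hp hp3 A hA' σ hσ, hp1, Units.val_one]
    have hdata := (hS p hp hpS A hA' σ hσ (ratPrime ⟨p, hp⟩)
      (natCast_mem_ratPrime19 ⟨p, hp⟩)).2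
    rw [ordSL_of_det hdet, pow_one] at hdata
    exact hdata
  -- `π.b = 1` at almost all primes
  have hb1 : ∀ p : ℕ, ∀ hp : p.Prime, ¬ p ∣ 3 * N → π.b (ratPrime ⟨p, hp⟩) = 1 := by
    intro p hp hpN
    obtain ⟨hp3, hpN₁, -, -⟩ := hgood p hp hpN
    by_cases hp1 : (p : ZMod 3) = 1
    · exact hbsplit p hp hpN hp1
    · have hp0 : (p : ZMod 3) ≠ 0 := by
        intro h0
        rw [ZMod.natCast_eq_zero_iff] at h0
        exact hp3 ((Nat.prime_dvd_prime_iff_eq Nat.prime_three hp).mp h0).symm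
      have hpm : (p : ZMod 3) = -1 := zmod3_unit_cases _ hp0 hp1
      -- Dirichlet: a prime `q ≡ -p mod 3 N₁`, `q ∤ 3 N`
      have : NeZero (3 * N₁) := ⟨mul_ne_zero (by norm_num) hN₁⟩
      have : NeZero N₁ := ⟨hN₁⟩
      have hcop : Nat.Coprime p (3 * N₁) := by
        rw [Nat.Prime.coprime_iff_not_dvd hp]
        intro h
        rcases (Nat.Prime.dvd_mul hp).mp h with h3 | h3
        · exact hp3 ((Nat.prime_dvd_prime_iff_eq hp Nat.prime_three).mp h3)
        · exact hpN₁ h3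
      have hu : IsUnit (-(p : ZMod (3 * N₁))) :=
        ((ZMod.isUnit_iff_coprime p (3 * N₁)).mpr hcop).neg
      obtain ⟨q, hqgt, hq, hqM⟩ := Nat.forall_exists_prime_gt_and_eq_mod hu (3 * N)
      have hqN : ¬ q ∣ 3 * N := fun h =>
        absurd (Nat.le_of_dvd (Nat.pos_of_ne_zero (mul_ne_zero (by norm_num) hN)) h)
          (not_le.mpr hqgt)
      have hq3 : (q : ZMod 3) = 1 := by
        have := congrArg (ZMod.castHom (dvd_mul_right 3 N₁) (ZMod 3)) hqM
        rw [map_natCast, map_neg, map_natCast, hpm, neg_neg] at this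
        exact this
      have hqN₁ : (q : ZMod N₁) = -(p : ZMod N₁) := by
        have := congrArg (ZMod.castHom (dvd_mul_left N₁ 3) (ZMod N₁)) hqM
        rw [map_natCast, map_neg, map_natCast] at this
        exact this
      have hbq := hbsplit q hq hqN hq3
      have hχq : χ (q : ZMod N₁) = 1 := by
        rw [← hb q hq (hgood q hq hqN).2.1 (ratPrime ⟨q, hq⟩) (natCast_mem_ratPrime19 ⟨q, hq⟩)]
        exact hbq
      have hχp : χ (p : ZMod N₁) = 1 := by
        have e : (q : ZMod N₁) = (-1) * (p : ZMod N₁) := by rw [hqN₁]; ring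
        rw [e, map_mul, hχ, one_mul] at hχq
        exact hχq
      rw [hb p hp hpN₁ (ratPrime ⟨p, hp⟩) (natCast_mem_ratPrime19 ⟨p, hp⟩)]
      exact hχp
  -- `a p = π.a` at the good primes
  have hap : ∀ p : ℕ, ∀ hp : p.Prime, ¬ p ∣ 3 * N → a p = π.a (ratPrime ⟨p, hp⟩) := by
    intro p hp hpN
    have h := hrel p hp (hgood p hp hpN).2.2.1 (ratPrime ⟨p, hp⟩)
      (natCast_mem_ratPrime19 ⟨p, hp⟩) 1
    have hnd : ¬ p ∣ 1 := fun h1 => hp.one_lt.ne' (Nat.dvd_one.mp h1)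
    rw [mul_one, if_neg hnd, mul_zero, add_zero, ha1, mul_one] at h
    exact h
  -- Hecke relations with trivial character
  have hT : ∀ p : ℕ, p.Prime → ¬ p ∣ 3 * N → ∀ n : ℕ,
      a (p * n) + (if p ∣ n then a (n / p) else 0) = a p * a n := by
    intro p hp hpN n
    have h := hrel p hp (hgood p hp hpN).2.2.1 (ratPrime ⟨p, hp⟩)
      (natCast_mem_ratPrime19 ⟨p, hp⟩) n
    rw [hb1 p hp hpN, one_mul, ← hap p hp hpN] at h
    exact h
  have hsub : ∀ p : ℕ, ¬ p ∣ 3 * (3 * N) → ¬ p ∣ 3 * N := fun p h h' =>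
    h (Dvd.dvd.mul_left h' 3)
  have hι2 : ι 2 = 2 := map_ofNat ι 2
  refine parArith_weak ρ hyp.surj (finiteLevel_of_continuous ρ hyp.cont) (3 * N)
    (mul_ne_zero (by norm_num) hN) a ha1 hT ?_ ?_ hMS
  · -- primes that split completely: `a p = 2`
    intro p hp hpN A hA' σ hσ h1
    have hpN' := hsub p hpN
    have hdata := (hS p hp (hgood p hp hpN').2.2.2 A hA' σ hσ (ratPrime ⟨p, hp⟩)
      (natCast_mem_ratPrime19 ⟨p, hp⟩)).1
    rw [h1, ordSL_of_det (map_one _), pow_one, ordQ8_of_inQ8 inQ8_one, pow_one,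
      satakePow_one, satakePow_one, ← hap p hp hpN'] at hdata
    have h3 : a p = 2 := by
      rw [hdata]
      unfold trΨ
      rw [one_pow, map_one]
      simp only [Units.val_one, Matrix.trace_one, Fintype.card_fin, Nat.cast_ofNat]
      exact hι2
    rw [h3]
    norm_num
  · -- primes inert in `ℚ(√-3)`: `a p ^ 2 ∈ {2, 4}`
    intro p hp hpN A hA' σ hσ hdet
    have hpN' := hsub p hpN
    have hdata := (hS p hp (hgood p hp hpN').2.2.2 A hA' σ hσ (ratPrime ⟨p, hp⟩)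
      (natCast_mem_ratPrime19 ⟨p, hp⟩)).1
    rw [ordSL_of_det_ne hdet, ordQ8_of_inQ8 (inQ8_sq_of_det_ne hdet), pow_one, satakePow_one,
      hb1 p hp hpN', ← hap p hp hpN'] at hdata
    have hsq : (a p) ^ 2 = trΨ Ψ ι ((ρ σ) ^ 2) + 2 := by
      have e : satakePow 2 (a p) (1 : ℂ) = a p * a p - 1 * 2 := rfl
      rw [e] at hdata
      rw [← hdata]
      ring
    have hnorm : ‖a p‖ ^ 2 = ‖(a p) ^ 2‖ := (norm_pow _ _).symm
    rw [hnorm, hsq]
    have htr : trΨ Ψ ι ((ρ σ) ^ 2) = ι (liftMat Ψ ((ρ σ) * (ρ σ))).trace := by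
      rw [pow_two]
      rfl
    rw [htr]
    rcases sq_dichotomy (ρ σ) hdet with h3 | h3
    · rw [h3, liftMat_one, Matrix.trace_one]
      have : ((ι ((Fintype.card (Fin 2) : ℕ) : ℤ√(-2)) : ℂ) + 2) = 4 := by
        simp only [Fintype.card_fin, Nat.cast_ofNat]
        rw [hι2]
        norm_num
      rw [this]
      norm_num
    · rw [trace_liftMat_eq_zero hyp.lift _ h3, map_zero, zero_add]
      norm_num

end Fermat.Agent.LT.H19

end

end
-- ===== PACK-END LT/H19/Par556.lean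

-- ===== PACK-BEGIN LT/T8/Spec.lean
section



/-!
# Row LT, tower T8 (`PAR556`): SPEC of the architect (helper19), OFF-MAIN

Tower Prop = the wall leaf `WT.PAR556` of the frozen skeleton origin/helper556@0fa0be5a0, VERBATIM.

    top : CentralEven556 → HeckeSeqC → HoroC → HoroCoeffC → WT.PAR556          (PROVED here)

No Rankin--Selberg, no Bessel function, no Laplacian, no mean value property, no cuspidality, no
Haar measure on the adeles, no strong approximation.  Sub-leaves (all TRUE statements):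

* `H19.CentralEven556` (P-A, ADELIC, scalars only; `LT/H19/Par556.lean`): the `S_p`-eigenvalues are
  the values of an EVEN Dirichlet character.
* `HeckeSeqC` (HSEQ, ARITHMETIC, Mathlib only): the Hecke-multiplicative sequence with prescribed
  `a_p`, `b_p`.
* `HoroC` (MS4b, ADELIC, on `LT/H556/A0.lean` + MS2/MS3 of helper864): for every base point `g₀` the
  finite family of horocycle functions `U κ x y = φ (n(x)_∞ a(y)_∞ d(κ) g₀)`, `κ ∈ (ℤ/M)ˣ`
  (`d(κ)` = diagonal twist at the places dividing `M`), is a `HoroData`: continuous, bounded,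
  `M`-periodic in `x`, and satisfies the FUNCTION FORM of the Hecke relation at every `p ∤ M`.
* `HoroCoeffC` (MS4a, CLASSICAL, Mathlib + `LT/H51/MS1.lean`): Fourier coefficients in `x` of the
  `χ`-isotypic sums of a `HoroData` with a non-constant member are a `H51.CoeffData` with a
  non-vanishing coefficient of positive index.
* PROVED inputs: `H51.CoeffData.msBound` (MS1, helper51), `nonconst_of_small` (this file: a
  `HoroData` with ONE prime `p ≥ 7`, `‖A p‖ ≤ 2`, `‖B p‖ ≤ 1` and a non-zero value has a member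
  which is not constant in `x`), `H19.parArith_weak` (PAR-ARITH), `evenFacts` (this file: the
  arithmetic of `BotData`).

Alternative inputs (not needed by `top`): MS5 (non-constancy from `MeanValueReal`, helper646),
`msCore` of helper467 (= `nonconst_of_small` + `HoroCoeffC` + MS1 + HSEQ for `b = 1`).
-/

set_option autoImplicit false

open AutomorphicForm IsDedekindDomain NumberField FLT.ExplicitLift
open scoped MatrixGroups

noncomputable section

namespace Fermat.Agent.LT.T8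

open Fermat.Agent.Lib.Cheb.Spec Fermat.Agent.Lib.Cheb.SpecQ
open Fermat.Agent.LT.H130 Fermat.Agent.LT.H556 Fermat.Agent.LT.H19

/-! ## Definitions -/

/-- The `T_p`-eigenvalues (unitary normalisation) of `π` as a function on `ℕ`. -/
def aOf (π : HeckeEigensystem ℚ ℂ) : ℕ → ℂ := by
  classical
  exact fun p => if hp : p.Prime then π.a (ratPrime ⟨p, hp⟩) else 0

/-- The `S_p`-eigenvalues of `π` as a function on `ℕ`. -/
def bOf (π : HeckeEigensystem ℚ ℂ) : ℕ → ℂ := by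
  classical
  exact fun p => if hp : p.Prime then π.b (ratPrime ⟨p, hp⟩) else 0

theorem aOf_prime (π : HeckeEigensystem ℚ ℂ) {p : ℕ} (hp : p.Prime) :
    aOf π p = π.a (ratPrime ⟨p, hp⟩) := by
  unfold aOf
  rw [dif_pos hp]

theorem bOf_prime (π : HeckeEigensystem ℚ ℂ) {p : ℕ} (hp : p.Prime) :
    bOf π p = π.b (ratPrime ⟨p, hp⟩) := by
  unfold bOf
  rw [dif_pos hp]

/-- The class of `p` in `(ℤ/M)ˣ` (`1` if `p` is not prime to `M`). -/
def unitCls (M p : ℕ) : (ZMod M)ˣ := by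
  classical
  exact if h : Nat.Coprime p M then ZMod.unitOfCoprime p h else 1

/-- **Horocycle data** of level `M`: a finite family `U κ : ℝ × ℝ_{>0} → ℂ`, `κ ∈ (ℤ/M)ˣ`, of
bounded functions, separately continuous, `M`-periodic in `x`, with the function form of the Hecke
relation with eigenvalues `√p · A p` and `B p` at the primes `p ∤ M`:

  `∑_{j < p} U (κ p) ((x + j M) / p) (y / p) + B p · U (κ p⁻¹) (p x) (p y) = √p · A p · U κ x y`. -/
structure HoroData (M : ℕ) (A B : ℕ → ℂ) (U : (ZMod M)ˣ → ℝ → ℝ → ℂ) (C : ℝ) : Prop where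
  M_pos : 0 < M
  cont_x : ∀ κ : (ZMod M)ˣ, ∀ y : ℝ, 0 < y → Continuous (fun x : ℝ => U κ x y)
  cont_y : ∀ κ : (ZMod M)ˣ, ∀ x : ℝ, ContinuousOn (fun y : ℝ => U κ x y) (Set.Ioi 0)
  bdd : ∀ κ : (ZMod M)ˣ, ∀ x y : ℝ, 0 < y → ‖U κ x y‖ ≤ C
  periodic : ∀ κ : (ZMod M)ˣ, ∀ x y : ℝ, 0 < y → U κ (x + M) y = U κ x y
  hecke : ∀ p : ℕ, p.Prime → ¬ p ∣ M → ∀ κ : (ZMod M)ˣ, ∀ x y : ℝ, 0 < y →
    ∑ j ∈ Finset.range p, U (κ * unitCls M p) ((x + j * M) / p) (y / p)
        + B p * U (κ * (unitCls M p)⁻¹) (p * x) (p * y)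
      = ((Real.sqrt p : ℝ) : ℂ) * A p * U κ x y

/-! ## The sub-leaves (frozen Props) -/

/-- **HSEQ.**  The Hecke-multiplicative sequence with prescribed eigenvalues. -/
def HeckeSeqC : Prop :=
  ∀ A B : ℕ → ℂ, ∃ a : ℕ → ℂ, a 1 = 1 ∧
    ∀ p : ℕ, p.Prime → ∀ n : ℕ,
      a (p * n) + B p * (if p ∣ n then a (n / p) else 0) = A p * a n

/-- **MS4b (adelic).**  The horocycle family through an arbitrary base point `g₀`, of a level `M`
divisible by a prescribed `L`. -/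
def HoroC : Prop :=
  ∀ (π : HeckeEigensystem ℚ ℂ) (φ : A0.G ℚ → ℂ), A0.IsSph0CuspFormFor π φ →
    ∀ (g₀ : A0.G ℚ) (L : ℕ), L ≠ 0 →
      ∃ (M : ℕ) (U : (ZMod M)ˣ → ℝ → ℝ → ℂ) (C : ℝ),
        L ∣ M ∧ HoroData M (aOf π) (bOf π) U C ∧ U 1 0 1 = φ g₀

/-- **MS4a (classical).**  Fourier coefficients of the `χ`-isotypic sums of a horocycle family. -/
def HoroCoeffC : Prop :=
  ∀ (M : ℕ) (A B : ℕ → ℂ) (U : (ZMod M)ˣ → ℝ → ℝ → ℂ) (C : ℝ) (a : ℕ → ℂ),
    HoroData M A B U C → a 1 = 1 →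
    (∀ p : ℕ, p.Prime → ¬ p ∣ M → ∀ n : ℕ,
      a (p * n) + B p * (if p ∣ n then a (n / p) else 0) = A p * a n) →
    (∃ (κ : (ZMod M)ˣ) (x x' y : ℝ), 0 < y ∧ U κ x y ≠ U κ x' y) →
    ∃ (χ : ℕ → ℂ) (c : ℕ → ℝ → ℂ) (M₁ : ℝ),
      Fermat.Agent.LT.H51.CoeffData M a B χ c M₁ ∧
      ∃ k : ℕ, 0 < k ∧ ∃ y : ℝ, 0 < y ∧ c k y ≠ 0

/-! ## Non-constancy from one small eigenvalue (PROVED) -/

theorem unitCls_coe {M p : ℕ} (h : Nat.Coprime p M) :
    ((unitCls M p : (ZMod M)ˣ) : ZMod M) = (p : ZMod M) := by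
  unfold unitCls
  rw [dif_pos h]
  rfl

/-- A horocycle family with a non-zero value and ONE prime `p ≥ 7`, `p ∤ M`, with `‖A p‖ ≤ 2` and
`‖B p‖ ≤ 1` has a member which is not constant in `x`: otherwise the Hecke relation at `p` gives
`p · s ≤ (2 √p + 1) · s` for `s = sup ‖U‖`. -/
theorem nonconst_of_small {M : ℕ} {A B : ℕ → ℂ} {U : (ZMod M)ˣ → ℝ → ℝ → ℂ} {C : ℝ}
    (D : HoroData M A B U C)
    (hne : ∃ (κ : (ZMod M)ˣ) (x y : ℝ), 0 < y ∧ U κ x y ≠ 0)
    (hsmall : ∃ p : ℕ, p.Prime ∧ 7 ≤ p ∧ ¬ p ∣ M ∧ ‖A p‖ ≤ 2 ∧ ‖B p‖ ≤ 1) :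
    ∃ (κ : (ZMod M)ˣ) (x x' y : ℝ), 0 < y ∧ U κ x y ≠ U κ x' y := by
  by_contra hcon
  have hconst : ∀ (κ : (ZMod M)ˣ) (x x' y : ℝ), 0 < y → U κ x y = U κ x' y := by
    intro κ x x' y hy
    by_contra h
    exact hcon ⟨κ, x, x', y, hy, h⟩
  obtain ⟨p, hp, hp7, hpM, hA, hB⟩ := hsmall
  obtain ⟨κ₀, x₀, y₀, hy₀, hU₀⟩ := hne
  -- the set of values
  set T : Set ℝ := {r | ∃ (κ : (ZMod M)ˣ) (y : ℝ), 0 < y ∧ r = ‖U κ 0 y‖} with hT
  have hTne : T.Nonempty := ⟨_, κ₀, y₀, hy₀, rfl⟩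
  have hTbdd : BddAbove T := ⟨C, by rintro r ⟨κ, y, hy, rfl⟩; exact D.bdd κ 0 y hy⟩
  set s : ℝ := sSup T with hs
  have hle : ∀ (κ : (ZMod M)ˣ) (y : ℝ), 0 < y → ‖U κ 0 y‖ ≤ s := fun κ y hy =>
    le_csSup hTbdd ⟨κ, y, hy, rfl⟩
  have hs0 : 0 ≤ s := le_trans (norm_nonneg _) (hle κ₀ y₀ hy₀)
  have hp0 : (0 : ℝ) < p := Nat.cast_pos.mpr hp.pos
  have hsq : Real.sqrt p * Real.sqrt p = p := Real.mul_self_sqrt hp0.le
  have hsqpos : 0 < Real.sqrt p := Real.sqrt_pos.mpr hp0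
  -- the key inequality
  have hkey : ∀ (κ : (ZMod M)ˣ) (y : ℝ), 0 < y → (p : ℝ) * ‖U κ 0 y‖ ≤ (2 * Real.sqrt p + 1) * s := by
    intro κ y hy
    have hpy : 0 < (p : ℝ) * y := mul_pos hp0 hy
    have h := D.hecke p hp hpM (κ * (unitCls M p)⁻¹) 0 ((p : ℝ) * y) hpy
    have e1 : κ * (unitCls M p)⁻¹ * unitCls M p = κ := by
      rw [mul_assoc, inv_mul_cancel, mul_one]
    have e2 : (p : ℝ) * y / p = y := by field_simp
    rw [e1, e2] at h
    have hsum : ∑ j ∈ Finset.range p, U κ ((0 + (j : ℝ) * M) / p) y = (p : ℂ) * U κ 0 y := by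
      have hc : ∀ j ∈ Finset.range p, U κ ((0 + (j : ℝ) * M) / p) y = U κ 0 y :=
        fun j _ => hconst κ ((0 + (j : ℝ) * M) / p) 0 y hy
      rw [Finset.sum_congr rfl hc, Finset.sum_const, Finset.card_range, nsmul_eq_mul]
    rw [hsum] at h
    have h' : (p : ℂ) * U κ 0 y
        = ((Real.sqrt p : ℝ) : ℂ) * A p * U (κ * (unitCls M p)⁻¹) 0 ((p : ℝ) * y)
          - B p * U (κ * (unitCls M p)⁻¹ * (unitCls M p)⁻¹) ((p : ℝ) * 0) ((p : ℝ) * ((p : ℝ) * y)) := by
      rw [← h]; ring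
    have hn : ‖(p : ℂ) * U κ 0 y‖ = (p : ℝ) * ‖U κ 0 y‖ := by
      rw [norm_mul, Complex.norm_natCast]
    rw [← hn, h']
    refine le_trans (norm_sub_le _ _) ?_
    rw [norm_mul, norm_mul, norm_mul, Complex.norm_real, Real.norm_of_nonneg hsqpos.le]
    have b1 : ‖U (κ * (unitCls M p)⁻¹) 0 ((p : ℝ) * y)‖ ≤ s := hle _ _ hpy
    have b2 : ‖U (κ * (unitCls M p)⁻¹ * (unitCls M p)⁻¹) ((p : ℝ) * 0) ((p : ℝ) * ((p : ℝ) * y))‖
        ≤ s := by
      rw [mul_zero]
      exact hle _ _ (mul_pos hp0 hpy)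
    have t1 : Real.sqrt p * ‖A p‖ * ‖U (κ * (unitCls M p)⁻¹) 0 ((p : ℝ) * y)‖
        ≤ Real.sqrt p * 2 * s := by
      have := mul_le_mul (mul_le_mul_of_nonneg_left hA hsqpos.le) b1 (norm_nonneg _)
        (by positivity)
      exact this
    have t2 : ‖B p‖ * ‖U (κ * (unitCls M p)⁻¹ * (unitCls M p)⁻¹) ((p : ℝ) * 0)
        ((p : ℝ) * ((p : ℝ) * y))‖ ≤ 1 * s :=
      mul_le_mul hB b2 (norm_nonneg _) zero_le_one
    linarith
  -- `p s ≤ (2 √p + 1) s`
  have hsup : (p : ℝ) * s ≤ (2 * Real.sqrt p + 1) * s := by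
    have : s ≤ (2 * Real.sqrt p + 1) * s / p := by
      apply csSup_le hTne
      rintro r ⟨κ, y, hy, rfl⟩
      rw [le_div_iff₀ hp0, mul_comm]
      exact hkey κ y hy
    rw [le_div_iff₀ hp0] at this
    linarith
  -- `2 √p + 1 < p` for `p ≥ 7`
  have hp7' : (7 : ℝ) ≤ p := by exact_mod_cast hp7
  have hlt : 2 * Real.sqrt p + 1 < p := by
    have h3 : Real.sqrt p < (p - 1) / 2 := by
      rw [Real.sqrt_lt' (by linarith)]
      nlinarith
    linarith
  have hs_zero : s = 0 := by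
    by_contra hne0
    have hspos : 0 < s := lt_of_le_of_ne hs0 (Ne.symm hne0)
    nlinarith
  have : ‖U κ₀ x₀ y₀‖ ≤ 0 := by
    have h1 := hle κ₀ y₀ hy₀
    rw [hs_zero] at h1
    rw [hconst κ₀ x₀ 0 y₀ hy₀]
    exact h1
  exact hU₀ (norm_le_zero_iff.mp this)

/-! ## The arithmetic of `BotData` (PROVED) -/

/-- From `Hyp`, `BotData` and P-A: a level `N₀` outside of which `π.b = 1`, `π.a = 2` at the primes
that split completely and `2 ≤ ‖π.a‖² ≤ 4` at the primes inert in `ℚ(√-3)`. -/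
theorem evenFacts (hA : CentralEven556) {ρ : GQ →* GL (Fin 2) (ZMod 3)}
    {Ψ : GL (Fin 2) (ZMod 3) →* GL (Fin 2) (ℤ√(-2))} {ι : ℤ√(-2) →+* ℂ} (hyp : LTB.Hyp ρ Ψ)
    (π : HeckeEigensystem ℚ ℂ) (hsph : A0.IsCuspAdelicSph0 ℚ π) (hBot : BotData ρ Ψ ι π) :
    ∃ N₀ : ℕ, N₀ ≠ 0 ∧ 3 ∣ N₀ ∧
      (∀ p : ℕ, ∀ hp : p.Prime, ¬ p ∣ N₀ → π.b (ratPrime ⟨p, hp⟩) = 1) ∧
      (∀ p : ℕ, ∀ hp : p.Prime, ¬ p ∣ N₀ → ∀ A : ValuationSubring Qb, A.LiesOverPrime p →
        ∀ σ : GQ, A.IsFrobeniusAt σ p → ρ σ = 1 → π.a (ratPrime ⟨p, hp⟩) = 2) ∧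
      (∀ p : ℕ, ∀ hp : p.Prime, ¬ p ∣ N₀ → ∀ A : ValuationSubring Qb, A.LiesOverPrime p →
        ∀ σ : GQ, A.IsFrobeniusAt σ p → Matrix.GeneralLinearGroup.det (ρ σ) ≠ 1 →
          2 ≤ ‖π.a (ratPrime ⟨p, hp⟩)‖ ^ 2 ∧ ‖π.a (ratPrime ⟨p, hp⟩)‖ ^ 2 ≤ 4) ∧
      (∀ p : ℕ, p.Prime → ¬ p ∣ N₀ → ∀ A : ValuationSubring Qb, A.LiesOverPrime p →
        ∀ σ : GQ, A.IsFrobeniusAt σ p →
          ((Matrix.GeneralLinearGroup.det (ρ σ) : (ZMod 3)ˣ) : ZMod 3) = (p : ZMod 3)) := by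
  classical
  obtain ⟨N₁, χ, hN₁, hχ, hb⟩ := hA π hsph
  obtain ⟨S, hS⟩ := hBot
  set P : ℕ := ∏ p ∈ S, (if p = 0 then 1 else p) with hP
  have hPne : P ≠ 0 := by
    rw [hP]
    refine Finset.prod_ne_zero_iff.mpr (fun p _ => ?_)
    split_ifs with h0
    · exact one_ne_zero
    · exact h0
  have hSdvd : ∀ p ∈ S, p ≠ 0 → p ∣ P := by
    intro p hp h0
    have := Finset.dvd_prod_of_mem (fun p => if p = 0 then 1 else p) hp
    simpa [h0] using this
  set N : ℕ := N₁ * P with hNdef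
  have hN : N ≠ 0 := mul_ne_zero hN₁ hPne
  have hgood : ∀ p : ℕ, p.Prime → ¬ p ∣ 3 * N → p ≠ 3 ∧ ¬ p ∣ N₁ ∧ p ∉ S := by
    intro p hp hpN
    refine ⟨?_, ?_, ?_⟩
    · rintro rfl
      exact hpN (dvd_mul_right 3 N)
    · intro h
      exact hpN (Dvd.dvd.mul_left (h.mul_right P) 3)
    · intro h
      exact hpN (Dvd.dvd.mul_left (Dvd.dvd.mul_left (hSdvd p h hp.ne_zero) N₁) 3)
  have hdetF : ∀ p : ℕ, p.Prime → p ≠ 3 → ∀ A : ValuationSubring Qb, A.LiesOverPrime p →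
      ∀ σ : GQ, A.IsFrobeniusAt σ p →
        ((Matrix.GeneralLinearGroup.det (ρ σ) : (ZMod 3)ˣ) : ZMod 3) = (p : ZMod 3) := by
    intro p hp hp3 A hA' σ hσ
    rw [hyp.det σ]
    exact modThree_frob19 hp hp3 A hA' σ hσ
  have hbsplit : ∀ p : ℕ, ∀ hp : p.Prime, ¬ p ∣ 3 * N → (p : ZMod 3) = 1 →
      π.b (ratPrime ⟨p, hp⟩) = 1 := by
    intro p hp hpN hp1
    obtain ⟨hp3, -, hpS⟩ := hgood p hp hpN
    obtain ⟨A, σ, hA', hσ⟩ := Fermat.Agent.S54.exists_frobenius p hp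
    have hdet : Matrix.GeneralLinearGroup.det (ρ σ) = 1 := by
      apply Units.ext
      rw [hdetF p hp hp3 A hA' σ hσ, hp1, Units.val_one]
    have hdata := (hS p hp hpS A hA' σ hσ (ratPrime ⟨p, hp⟩)
      (natCast_mem_ratPrime19 ⟨p, hp⟩)).2
    rw [ordSL_of_det hdet, pow_one] at hdata
    exact hdata
  have hb1 : ∀ p : ℕ, ∀ hp : p.Prime, ¬ p ∣ 3 * N → π.b (ratPrime ⟨p, hp⟩) = 1 := by
    intro p hp hpN
    obtain ⟨hp3, hpN₁, -⟩ := hgood p hp hpN
    by_cases hp1 : (p : ZMod 3) = 1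
    · exact hbsplit p hp hpN hp1
    · have hp0 : (p : ZMod 3) ≠ 0 := by
        intro h0
        rw [ZMod.natCast_eq_zero_iff] at h0
        exact hp3 ((Nat.prime_dvd_prime_iff_eq Nat.prime_three hp).mp h0).symm
      have hpm : (p : ZMod 3) = -1 := zmod3_unit_cases _ hp0 hp1
      have : NeZero (3 * N₁) := ⟨mul_ne_zero (by norm_num) hN₁⟩
      have : NeZero N₁ := ⟨hN₁⟩
      have hcop : Nat.Coprime p (3 * N₁) := by
        rw [Nat.Prime.coprime_iff_not_dvd hp]
        intro h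
        rcases (Nat.Prime.dvd_mul hp).mp h with h3 | h3
        · exact hp3 ((Nat.prime_dvd_prime_iff_eq hp Nat.prime_three).mp h3)
        · exact hpN₁ h3
      have hu : IsUnit (-(p : ZMod (3 * N₁))) :=
        ((ZMod.isUnit_iff_coprime p (3 * N₁)).mpr hcop).neg
      obtain ⟨q, hqgt, hq, hqM⟩ := Nat.forall_exists_prime_gt_and_eq_mod hu (3 * N)
      have hqN : ¬ q ∣ 3 * N := fun h =>
        absurd (Nat.le_of_dvd (Nat.pos_of_ne_zero (mul_ne_zero (by norm_num) hN)) h)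
          (not_le.mpr hqgt)
      have hq3 : (q : ZMod 3) = 1 := by
        have := congrArg (ZMod.castHom (dvd_mul_right 3 N₁) (ZMod 3)) hqM
        rw [map_natCast, map_neg, map_natCast, hpm, neg_neg] at this
        exact this
      have hqN₁ : (q : ZMod N₁) = -(p : ZMod N₁) := by
        have := congrArg (ZMod.castHom (dvd_mul_left N₁ 3) (ZMod N₁)) hqM
        rw [map_natCast, map_neg, map_natCast] at this
        exact this
      have hbq := hbsplit q hq hqN hq3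
      have hχq : χ (q : ZMod N₁) = 1 := by
        rw [← hb q hq (hgood q hq hqN).2.1 (ratPrime ⟨q, hq⟩) (natCast_mem_ratPrime19 ⟨q, hq⟩)]
        exact hbq
      have hχp : χ (p : ZMod N₁) = 1 := by
        have e : (q : ZMod N₁) = (-1) * (p : ZMod N₁) := by rw [hqN₁]; ring
        rw [e, map_mul, hχ, one_mul] at hχq
        exact hχq
      rw [hb p hp hpN₁ (ratPrime ⟨p, hp⟩) (natCast_mem_ratPrime19 ⟨p, hp⟩)]
      exact hχp
  have hι2 : ι 2 = 2 := map_ofNat ι 2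
  refine ⟨3 * N, mul_ne_zero (by norm_num) hN, dvd_mul_right 3 N, hb1, ?_, ?_, ?_⟩
  · intro p hp hpN A hA' σ hσ h1
    have hdata := (hS p hp (hgood p hp hpN).2.2 A hA' σ hσ (ratPrime ⟨p, hp⟩)
      (natCast_mem_ratPrime19 ⟨p, hp⟩)).1
    rw [h1, ordSL_of_det (map_one _), pow_one, ordQ8_of_inQ8 inQ8_one, pow_one,
      satakePow_one, satakePow_one] at hdata
    rw [hdata]
    unfold trΨ
    rw [one_pow, map_one]
    simp only [Units.val_one, Matrix.trace_one, Fintype.card_fin, Nat.cast_ofNat]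
    exact hι2
  · intro p hp hpN A hA' σ hσ hdet
    have hdata := (hS p hp (hgood p hp hpN).2.2 A hA' σ hσ (ratPrime ⟨p, hp⟩)
      (natCast_mem_ratPrime19 ⟨p, hp⟩)).1
    rw [ordSL_of_det_ne hdet, ordQ8_of_inQ8 (inQ8_sq_of_det_ne hdet), pow_one, satakePow_one,
      hb1 p hp hpN] at hdata
    set t : ℂ := π.a (ratPrime ⟨p, hp⟩) with ht
    have hsq : t ^ 2 = trΨ Ψ ι ((ρ σ) ^ 2) + 2 := by
      have e : satakePow 2 t (1 : ℂ) = t * t - 1 * 2 := rfl
      rw [e] at hdata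
      rw [← hdata]
      ring
    have hnorm : ‖t‖ ^ 2 = ‖t ^ 2‖ := (norm_pow _ _).symm
    rw [hnorm, hsq]
    have htr : trΨ Ψ ι ((ρ σ) ^ 2) = ι (liftMat Ψ ((ρ σ) * (ρ σ))).trace := by
      rw [pow_two]
      rfl
    rw [htr]
    rcases sq_dichotomy (ρ σ) hdet with h3 | h3
    · rw [h3, liftMat_one, Matrix.trace_one]
      have : ((ι ((Fintype.card (Fin 2) : ℕ) : ℤ√(-2)) : ℂ) + 2) = 4 := by
        simp only [Fintype.card_fin, Nat.cast_ofNat]
        rw [hι2]
        norm_num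
      rw [this]
      norm_num
    · rw [trace_liftMat_eq_zero hyp.lift _ h3, map_zero, zero_add]
      norm_num
  · intro p hp hpN A hA' σ hσ
    exact hdetF p hp (hgood p hp hpN).1 A hA' σ hσ

/-! ## The top of the tower (PROVED) -/

/-- **T8: `PAR556` from its four sub-leaves.** -/
theorem top (hA : CentralEven556) (hSeq : HeckeSeqC) (hH : HoroC) (hCo : HoroCoeffC) :
    WT.PAR556 := by
  classical
  intro ρ Ψ ι hyp π hsph hBot
  obtain ⟨N₀, hN₀, h3N₀, hb1, ha2, hainert, hdetF⟩ := evenFacts hA hyp π hsph hBot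
  obtain ⟨φ, hφ⟩ := hsph
  obtain ⟨g₀, hg₀⟩ := hφ.ne_zero
  obtain ⟨M, U, C, hLM, hD, hlink⟩ := hH π φ hφ g₀ N₀ hN₀
  have hM : M ≠ 0 := hD.M_pos.ne'
  have hnd : ∀ p : ℕ, ¬ p ∣ M → ¬ p ∣ N₀ := fun p h h' => h (h'.trans hLM)
  obtain ⟨a, ha1, hrel⟩ := hSeq (aOf π) (bOf π)
  -- one small eigenvalue
  have hsmall : ∃ p : ℕ, p.Prime ∧ 7 ≤ p ∧ ¬ p ∣ M ∧ ‖aOf π p‖ ≤ 2 ∧ ‖bOf π p‖ ≤ 1 := by
    have hu : IsUnit (-1 : ZMod 3) := isUnit_one.neg
    obtain ⟨p, hpgt, hp, hp3⟩ := Nat.forall_exists_prime_gt_and_eq_mod hu (M + 7)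
    have hpM : ¬ p ∣ M := fun h =>
      absurd (Nat.le_of_dvd (Nat.pos_of_ne_zero hM) h) (by omega)
    obtain ⟨A, σ, hA', hσ⟩ := Fermat.Agent.S54.exists_frobenius p hp
    have hdet : Matrix.GeneralLinearGroup.det (ρ σ) ≠ 1 := by
      intro h1
      have := hdetF p hp (hnd p hpM) A hA' σ hσ
      rw [h1, Units.val_one, hp3] at this
      revert this
      decide
    have hb := (hainert p hp (hnd p hpM) A hA' σ hσ hdet).2
    refine ⟨p, hp, by omega, hpM, ?_, ?_⟩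
    · rw [aOf_prime π hp]
      have h0 := norm_nonneg (π.a (ratPrime ⟨p, hp⟩))
      nlinarith
    · rw [bOf_prime π hp, hb1 p hp (hnd p hpM), norm_one]
  have hne : ∃ (κ : (ZMod M)ˣ) (x y : ℝ), 0 < y ∧ U κ x y ≠ 0 :=
    ⟨1, 0, 1, one_pos, by rw [hlink]; exact hg₀⟩
  have hnc := nonconst_of_small hD hne hsmall
  obtain ⟨χ, c, M₁, hCD, hk⟩ := hCo M (aOf π) (bOf π) U C a hD ha1
    (fun p hp _ n => hrel p hp n) hnc
  have hMS : MSBound (Fermat.Agent.LT.H51.depleted M a) := hCD.msBound hk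
  -- the depleted sequence
  set a' : ℕ → ℂ := Fermat.Agent.LT.H51.depleted M a with ha'
  have hap : ∀ p : ℕ, ∀ hp : p.Prime, ¬ p ∣ M → a' p = π.a (ratPrime ⟨p, hp⟩) := by
    intro p hp hpM
    have hcop : Nat.Coprime p M := (Nat.Prime.coprime_iff_not_dvd hp).mpr hpM
    rw [ha', Fermat.Agent.LT.H51.depleted_of_coprime M a hp.pos hcop]
    have h := hrel p hp 1
    have hnd1 : ¬ p ∣ 1 := fun h1 => hp.one_lt.ne' (Nat.dvd_one.mp h1)
    rw [mul_one, if_neg hnd1, mul_zero, add_zero, ha1, mul_one, aOf_prime π hp] at h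
    exact h
  have ha'1 : a' 1 = 1 := by
    rw [ha', Fermat.Agent.LT.H51.depleted_of_coprime M a one_pos (Nat.coprime_one_left M), ha1]
  have hT : ∀ p : ℕ, p.Prime → ¬ p ∣ M → ∀ n : ℕ,
      a' (p * n) + (if p ∣ n then a' (n / p) else 0) = a' p * a' n := by
    intro p hp hpM n
    have hrel' : ∀ p : ℕ, p.Prime → ¬ p ∣ M → ∀ n : ℕ,
        a (p * n) + bOf π p * (if p ∣ n then a (n / p) else 0) = a p * a n := by
      intro q hq _ m
      have h := hrel q hq m
      have h1 := hrel q hq 1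
      have hnd1 : ¬ q ∣ 1 := fun h2 => hq.one_lt.ne' (Nat.dvd_one.mp h2)
      rw [mul_one, if_neg hnd1, mul_zero, add_zero, ha1, mul_one] at h1
      rw [h1]
      exact h
    have h := Fermat.Agent.LT.H51.depleted_hecke M a (bOf π) hrel' p hp hpM n
    rw [bOf_prime π hp, hb1 p hp (hnd p hpM), one_mul] at h
    exact h
  have hsub : ∀ p : ℕ, ¬ p ∣ 3 * M → ¬ p ∣ M := fun p h h' => h (Dvd.dvd.mul_left h' 3)
  refine parArith_weak ρ hyp.surj (finiteLevel_of_continuous ρ hyp.cont) M hM a' ha'1 hT ?_ ?_ hMS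
  · intro p hp hpN A hA' σ hσ h1
    have hpM := hsub p hpN
    rw [hap p hp hpM, ha2 p hp (hnd p hpM) A hA' σ hσ h1]
    norm_num
  · intro p hp hpN A hA' σ hσ hdet
    have hpM := hsub p hpN
    rw [hap p hp hpM]
    exact (hainert p hp (hnd p hpM) A hA' σ hσ hdet).1

end Fermat.Agent.LT.T8

end

end
-- ===== PACK-END LT/T8/Spec.lean

-- ===== PACK-BEGIN LT/T8/H468/Horo.lean
section



/-!
# Row LT, tower T8, sub-leaf `HoroC` (MS4b, ADELIC) (helper468, OFF-MAIN, shadow of helper51)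

`horoC468 : Fermat.Agent.LT.T8.HoroC` (PROVED, no hole), VERBATIM vs `LT/T8/Spec.lean` (helper19).

`U κ x y = φ (b(x, y)_∞ · d(k) · g₁)`, `k` a positive representative of `κ⁻¹`, `d(k)` the matrix
`[[k, 0], [0, 1]]` at the places dividing `M`, `g₁` the base point cut to the places dividing `M`
and infinity, `M` a level of the base point (`MS4.exists_level`, helper51).
-/

set_option autoImplicit false
set_option linter.unusedSectionVars false

open IsDedekindDomain NumberField AutomorphicForm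
open scoped MatrixGroups Classical WithZero

noncomputable section

namespace Fermat.Agent.LT.T8.H468

open Fermat.Agent.LT.H556.A0 Fermat.Agent.LT.T8.H864 Fermat.Agent.LT.H51.MS4
open Fermat.Agent.LT.T8

/-! ## Representatives of the classes of units -/

/-- A positive representative of a class of units modulo `M`. -/
def hrep468 (M : ℕ) (u : (ZMod M)ˣ) : ℕ := (u : ZMod M).val + M

theorem hrep468_cast {M : ℕ} (hM0 : M ≠ 0) (u : (ZMod M)ˣ) :
    ((hrep468 M u : ℕ) : ZMod M) = (u : ZMod M) := by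
  have : NeZero M := ⟨hM0⟩
  unfold hrep468
  rw [Nat.cast_add, ZMod.natCast_zmod_val, ZMod.natCast_self, add_zero]

theorem hrep468_coprime {M : ℕ} (hM0 : M ≠ 0) (u : (ZMod M)ˣ) : Nat.Coprime (hrep468 M u) M := by
  rw [← ZMod.isUnit_iff_coprime, hrep468_cast hM0]
  exact u.isUnit

theorem int_dvd_of_zmod468 {M : ℕ} (n : ℤ) (h : ((n : ℤ) : ZMod M) = 0) : (M : ℤ) ∣ n :=
  (ZMod.intCast_zmod_eq_zero_iff_dvd n M).1 h

/-! ## Small facts on the places -/

theorem not_dvd_level_vP468 (𝔫 : Ideal (𝓞 ℚ)) {M : ℕ} (hM : Ideal.absNorm 𝔫 ∣ M) {p : ℕ}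
    (hp : p.Prime) (hpM : ¬ p ∣ M) : ¬ (vP p hp).asIdeal ∣ 𝔫 := by
  intro hd
  have h1 : ((Ideal.absNorm 𝔫 : ℕ) : 𝓞 ℚ) ∈ (vP p hp).asIdeal :=
    Ideal.le_of_dvd hd (Ideal.absNorm_mem 𝔫)
  have h2 := (natCast_mem_iff _ _).1 h1
  rw [natGenerator_vP] at h2
  exact hpM (dvd_trans h2 hM)

theorem vP_notMem_TM468 {M p : ℕ} (hp : p.Prime) (hpM : ¬ p ∣ M) : vP p hp ∉ TM468 M := by
  intro h
  rw [mem_TM468, valuation_natCast_lt_one_iff, natCast_mem_iff, natGenerator_vP] at h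
  exact hpM h

theorem near_of_integralBoth468 {v : HeightOneSpectrum (𝓞 ℚ)}
    {m : GL (Fin 2) (v.adicCompletion ℚ)} (hm : IntegralBoth v m) : Near v 1 m := by
  have h1 : ∀ i j : Fin 2,
      Valued.v ((1 : Matrix (Fin 2) (Fin 2) (v.adicCompletion ℚ)) i j) ≤ 1 := by
    intro i j
    have := (integralBoth_one v i j).1
    rwa [Units.val_one] at this
  intro i j
  constructor
  · rw [Matrix.sub_apply]
    exact Valued.v.map_sub_le (hm i j).1 (h1 i j)
  · rw [Matrix.sub_apply]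
    exact Valued.v.map_sub_le (hm i j).2 (h1 i j)

/-! ## The horocycle family -/

/-- The horocycle family through `g₀` of level `M`. -/
def U468 (φ : G ℚ → ℂ) (M : ℕ) (g₀ : G ℚ) (κ : (ZMod M)ˣ) (x y : ℝ) : ℂ :=
  φ (bInf wQ_isReal x y * dK468 M (hrep468 M κ⁻¹) * g1_468 M g₀)

section Family

variable {π : HeckeEigensystem ℚ ℂ} {φ : G ℚ → ℂ} (hφ : IsSph0CuspFormFor π φ)
  {g₀ : G ℚ} {M : ℕ} (hM : Lvl468 π.level g₀ M)

include hφ hM

/-- The local condition of `transport468` at the place of `h = [[a, c], [0, 1]]_p`. -/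
theorem hfin_at_vP468 {p : ℕ} (hp : p.Prime) (hpM : ¬ p ∣ M) (a c : ℚ) (k k' : ℕ) :
    LocLevel π.level (vP p hp)
      ((finCompHom (vP p hp) (g1_468 M g₀))⁻¹ *
        ((finCompHom (vP p hp) (dK468 M k'))⁻¹ * (ratFin (vP p hp) (ut a c 1))⁻¹ *
          finCompHom (vP p hp) (dK468 M k)) *
        finCompHom (vP p hp) (g1_468 M g₀) *
        finCompHom (vP p hp) (locFinK (vP p hp) (ut a c 1))) := by
  have hv := vP_notMem_TM468 hp hpM
  rw [finCompHom_g1_468_notMem g₀ hv, finCompHom_dK468_notMem k hv,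
    finCompHom_dK468_notMem k' hv, finCompHom_locFinK_self, finCompHom_diagG]
  have e : (1 : GL (Fin 2) ((vP p hp).adicCompletion ℚ))⁻¹ *
      (1⁻¹ * (ratFin (vP p hp) (ut a c 1))⁻¹ * 1) * 1 *
        Matrix.GeneralLinearGroup.map (algebraMap ℚ ((vP p hp).adicCompletion ℚ)) (ut a c 1)
      = 1 := by
    rw [inv_one, one_mul, one_mul, mul_one, mul_one]
    exact inv_mul_cancel _
  rw [e]
  exact locLevel_one _ _

/-- The local condition of `transport468` at the places different from the one of `h`. -/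
theorem hfin_off_vP468 {p : ℕ} (hp : p.Prime) {v : HeightOneSpectrum (𝓞 ℚ)}
    (hv : v ≠ vP p hp) {a : ℚ} (c : ℚ) {k k' : ℕ}
    (hk : Nat.Coprime k M) (hk' : Nat.Coprime k' M)
    (hva : v.valuation ℚ a = 1)
    (h1 : v.valuation ℚ ((k : ℚ) - a * (k' : ℚ)) ≤ v.valuation ℚ (M : ℚ))
    (h2 : v.valuation ℚ (1 - a) ≤ 1)
    (hc : v.valuation ℚ c ≤ v.valuation ℚ (M : ℚ)) (γ : GL (Fin 2) ℚ) :
    LocLevel π.level v
      ((finCompHom v (g1_468 M g₀))⁻¹ *
        ((finCompHom v (dK468 M k'))⁻¹ * (ratFin v (ut a c 1))⁻¹ *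
          finCompHom v (dK468 M k)) *
        finCompHom v (g1_468 M g₀) *
        finCompHom v (locFinK (vP p hp) γ)) := by
  rw [locFinK_apply, finCompHom_locFin_of_ne hv, mul_one]
  exact hM.conj1 v _ (near_dK468 v c hk hk' hva h1 h2 hc)

/-- PERIOD. -/
theorem U468_periodic (κ : (ZMod M)ˣ) (x y : ℝ) (hy : 0 < y) :
    U468 φ M g₀ κ (x + M) y = U468 φ M g₀ κ x y := by
  unfold U468
  have hk : Nat.Coprime (hrep468 M κ⁻¹) M := hrep468_coprime hM.ne_zero _
  have hfin : ∀ v : HeightOneSpectrum (𝓞 ℚ), LocLevel π.level v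
      ((finCompHom v (g1_468 M g₀))⁻¹ *
        ((finCompHom v (dK468 M (hrep468 M κ⁻¹)))⁻¹ * (ratFin v (ut (1 : ℚ) (M : ℚ) 1))⁻¹ *
          finCompHom v (dK468 M (hrep468 M κ⁻¹))) *
        finCompHom v (g1_468 M g₀) * finCompHom v (1 : G ℚ)) := by
    intro v
    rw [map_one, mul_one]
    refine hM.conj1 v _ (near_dK468 v (M : ℚ) hk hk (map_one _) ?_ ?_ le_rfl)
    · rw [one_mul, sub_self, map_zero]
      exact zero_le
    · rw [sub_self, map_zero]
      exact zero_le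
  have key := transport468 hφ M g₀ (a := 1) (M : ℚ) one_ne_zero x hy.ne' (hrep468 M κ⁻¹)
    (hrep468 M κ⁻¹) 1 (fun w => map_one _) hfin
  rw [Rat.cast_one, one_mul, one_mul, Rat.cast_natCast, mul_one] at key
  exact key

/-- SUM TERM. -/
theorem U468_sum_term {p : ℕ} (hp : p.Prime) (hpM : ¬ p ∣ M) (κ : (ZMod M)ˣ) (x y : ℝ)
    (hy : 0 < y) (j : ℕ) :
    φ (bInf wQ_isReal x y * dK468 M (hrep468 M κ⁻¹) * g1_468 M g₀ *
        locFinK (vP p hp) (ut (p : ℚ) (-((j : ℚ) * (M : ℚ))) 1))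
      = U468 φ M g₀ (κ * unitCls M p) ((x + j * M) / p) (y / p) := by
  unfold U468
  have hM0 := hM.ne_zero
  have hp0 : (p : ℚ) ≠ 0 := by exact_mod_cast hp.ne_zero
  have hpR : (p : ℝ) ≠ 0 := by exact_mod_cast hp.ne_zero
  have hcop : Nat.Coprime p M := (Nat.Prime.coprime_iff_not_dvd hp).2 hpM
  set k := hrep468 M κ⁻¹ with hkdef
  set k' := hrep468 M (κ * unitCls M p)⁻¹ with hk'def
  have hk : Nat.Coprime k M := hrep468_coprime hM0 _
  have hk' : Nat.Coprime k' M := hrep468_coprime hM0 _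
  have hdvd : (M : ℤ) ∣ (k : ℤ) - (p : ℤ) * (k' : ℤ) := by
    apply int_dvd_of_zmod468
    push_cast
    rw [hkdef, hk'def, hrep468_cast hM0, hrep468_cast hM0, ← unitCls_coe hcop, ← Units.val_mul,
      mul_inv_rev, mul_inv_cancel_left, sub_self]
  have hfin : ∀ v : HeightOneSpectrum (𝓞 ℚ), LocLevel π.level v
      ((finCompHom v (g1_468 M g₀))⁻¹ *
        ((finCompHom v (dK468 M k'))⁻¹ *
          (ratFin v (ut (p : ℚ) (-((j : ℚ) * (M : ℚ))) 1))⁻¹ * finCompHom v (dK468 M k)) *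
        finCompHom v (g1_468 M g₀) *
        finCompHom v (locFinK (vP p hp) (ut (p : ℚ) (-((j : ℚ) * (M : ℚ))) 1))) := by
    intro v
    by_cases hv : v = vP p hp
    · subst hv
      exact hfin_at_vP468 hφ hM hp hpM _ _ k k'
    · refine hfin_off_vP468 hφ hM hp hv _ hk hk' (valuation_prime_eq_one hp hv) ?_ ?_ ?_ _
      · have e : (k : ℚ) - (p : ℚ) * (k' : ℚ) = (((k : ℤ) - (p : ℤ) * (k' : ℤ) : ℤ) : ℚ) := by
          push_cast
          ring
        rw [e]
        exact valuation_le_of_int_dvd468 v hdvd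
      · have e : (1 : ℚ) - (p : ℚ) = (((1 : ℤ) - (p : ℤ) : ℤ) : ℚ) := by
          push_cast
          ring
        rw [e]
        exact Fermat.Agent.LT.H51.MS4.valuation_intCast_le_one v _
      · rw [Valuation.map_neg, map_mul]
        exact mul_le_of_le_one_left' (valuation_natCast_le_one v j)
  have key := transport468 hφ M g₀ (a := (p : ℚ)) (-((j : ℚ) * (M : ℚ))) hp0
    ((x + j * M) / p) (y' := y / p) (div_ne_zero hy.ne' hpR) k k'
    (locFinK (vP p hp) (ut (p : ℚ) (-((j : ℚ) * (M : ℚ))) 1))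
    (fun w => by rw [locFinK_apply, infCompHom_locFin]) hfin
  have ex : ((p : ℚ) : ℝ) * ((x + j * M) / p) + ((-((j : ℚ) * (M : ℚ)) : ℚ) : ℝ) = x := by
    push_cast
    field_simp
    ring
  have ey : ((p : ℚ) : ℝ) * (y / p) = y := by
    push_cast
    field_simp
  rw [ex, ey] at key
  exact key

/-- LAST TERM. -/
theorem U468_last_term {p : ℕ} (hp : p.Prime) (hpM : ¬ p ∣ M) (κ : (ZMod M)ˣ) (x y : ℝ)
    (hy : 0 < y) :
    φ (bInf wQ_isReal x y * dK468 M (hrep468 M κ⁻¹) * g1_468 M g₀ *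
        locFinK (vP p hp) (ut (1 : ℚ) 0 (p : ℚ)))
      = π.b (vP p hp) * U468 φ M g₀ (κ * (unitCls M p)⁻¹) (p * x) (p * y) := by
  unfold U468
  have hM0 := hM.ne_zero
  have hp0 : (p : ℚ) ≠ 0 := by exact_mod_cast hp.ne_zero
  have hpi0 : ((p : ℚ))⁻¹ ≠ 0 := inv_ne_zero hp0
  have hpR : (p : ℝ) ≠ 0 := by exact_mod_cast hp.ne_zero
  have hcop : Nat.Coprime p M := (Nat.Prime.coprime_iff_not_dvd hp).2 hpM
  have hlev : ¬ (vP p hp).asIdeal ∣ π.level := not_dvd_level_vP468 π.level hM.dvd hp hpM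
  set k := hrep468 M κ⁻¹ with hkdef
  set k' := hrep468 M (κ * (unitCls M p)⁻¹)⁻¹ with hk'def
  have hk : Nat.Coprime k M := hrep468_coprime hM0 _
  have hk' : Nat.Coprime k' M := hrep468_coprime hM0 _
  have hdvd : (M : ℤ) ∣ (p : ℤ) * (k : ℤ) - (k' : ℤ) := by
    apply int_dvd_of_zmod468
    push_cast
    rw [hkdef, hk'def, hrep468_cast hM0, hrep468_cast hM0, ← unitCls_coe hcop, ← Units.val_mul,
      mul_inv_rev, inv_inv, sub_self]
  -- split off the scalar
  have hsplit : ut (1 : ℚ) 0 (p : ℚ) = ut ((p : ℚ))⁻¹ 0 1 * ut (p : ℚ) 0 (p : ℚ) := by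
    rw [ut_mul _ _ hpi0 one_ne_zero hp0 hp0, inv_mul_cancel₀ hp0, mul_zero, zero_mul, add_zero,
      one_mul]
  rw [hsplit, map_mul, ← mul_assoc, heckeScalarQ468 π φ hφ p hp hlev]
  congr 1
  have hfin : ∀ v : HeightOneSpectrum (𝓞 ℚ), LocLevel π.level v
      ((finCompHom v (g1_468 M g₀))⁻¹ *
        ((finCompHom v (dK468 M k'))⁻¹ *
          (ratFin v (ut ((p : ℚ))⁻¹ 0 1))⁻¹ * finCompHom v (dK468 M k)) *
        finCompHom v (g1_468 M g₀) *
        finCompHom v (locFinK (vP p hp) (ut ((p : ℚ))⁻¹ 0 1))) := by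
    intro v
    by_cases hv : v = vP p hp
    · subst hv
      exact hfin_at_vP468 hφ hM hp hpM _ _ k k'
    · have hvp : v.valuation ℚ (p : ℚ) = 1 := valuation_prime_eq_one hp hv
      refine hfin_off_vP468 hφ hM hp hv _ hk hk' ?_ ?_ ?_ ?_ _
      · rw [map_inv₀, hvp, inv_one]
      · have e : (k : ℚ) - ((p : ℚ))⁻¹ * (k' : ℚ)
            = ((((p : ℤ) * (k : ℤ) - (k' : ℤ) : ℤ) : ℚ)) / (p : ℚ) := by
          push_cast
          field_simp
        rw [e, map_div₀, hvp, div_one]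
        exact valuation_le_of_int_dvd468 v hdvd
      · have e : (1 : ℚ) - ((p : ℚ))⁻¹ = ((((p : ℤ) - 1 : ℤ) : ℚ)) / (p : ℚ) := by
          push_cast
          field_simp
        rw [e, map_div₀, hvp, div_one]
        exact Fermat.Agent.LT.H51.MS4.valuation_intCast_le_one v _
      · rw [map_zero]
        exact zero_le
  have key := transport468 hφ M g₀ (a := ((p : ℚ))⁻¹) 0 hpi0
    (p * x) (y' := p * y) (mul_ne_zero hpR hy.ne') k k'
    (locFinK (vP p hp) (ut ((p : ℚ))⁻¹ 0 1))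
    (fun w => by rw [locFinK_apply, infCompHom_locFin]) hfin
  have ex : ((((p : ℚ))⁻¹ : ℚ) : ℝ) * (p * x) + ((0 : ℚ) : ℝ) = x := by
    rw [Rat.cast_zero, add_zero, Rat.cast_inv, Rat.cast_natCast, inv_mul_cancel_left₀ hpR]
  have ey : ((((p : ℚ))⁻¹ : ℚ) : ℝ) * (p * y) = y := by
    rw [Rat.cast_inv, Rat.cast_natCast, inv_mul_cancel_left₀ hpR]
  rw [ex, ey] at key
  exact key

/-- The Hecke relation, function form. -/
theorem U468_hecke {p : ℕ} (hp : p.Prime) (hpM : ¬ p ∣ M) (κ : (ZMod M)ˣ) (x y : ℝ)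
    (hy : 0 < y) :
    ∑ j ∈ Finset.range p, U468 φ M g₀ (κ * unitCls M p) ((x + j * M) / p) (y / p)
        + bOf π p * U468 φ M g₀ (κ * (unitCls M p)⁻¹) (p * x) (p * y)
      = ((Real.sqrt p : ℝ) : ℂ) * aOf π p * U468 φ M g₀ κ x y := by
  have hlev : ¬ (vP p hp).asIdeal ∣ π.level := not_dvd_level_vP468 π.level hM.dvd hp hpM
  have key := heckeSumQ468 π φ hφ p hp hlev M hpM
    (bInf wQ_isReal x y * dK468 M (hrep468 M κ⁻¹) * g1_468 M g₀)
  rw [U468_last_term hφ hM hp hpM κ x y hy,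
    Finset.sum_congr rfl (fun j _ => U468_sum_term hφ hM hp hpM κ x y hy j)] at key
  rw [aOf_prime π hp, bOf_prime π hp]
  exact key

/-- The base point. -/
theorem U468_base : U468 φ M g₀ 1 0 1 = φ g₀ := by
  unfold U468
  have hM0 := hM.ne_zero
  set k := hrep468 M (1 : (ZMod M)ˣ)⁻¹ with hkdef
  have hk : Nat.Coprime k M := hrep468_coprime hM0 _
  have hdvd : (M : ℤ) ∣ (k : ℤ) - 1 := by
    apply int_dvd_of_zmod468
    push_cast
    rw [hkdef, hrep468_cast hM0, inv_one, Units.val_one, sub_self]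
  have hb : bInf (K := ℚ) wQ_isReal 0 1 = 1 := by
    rw [bInf, bGL_zero_one, map_one]
  rw [hb]
  refine phi_congr hφ.left_inv hφ.level_inv 1 _ _ (fun w => ?_) (fun v => ?_)
  · rw [map_mul, map_mul, map_one, map_one, infCompHom_dK468, infCompHom_g1_468, one_mul]
  · rw [map_mul, map_mul, map_one, map_one, inv_one, mul_one, one_mul]
    by_cases hv : v ∈ TM468 M
    · rw [finCompHom_g1_468_mem g₀ hv, ← mul_assoc]
      refine hM.conj v _ ?_
      rw [finCompHom_dK468_mem k hv]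
      refine near_ratFin_ut (valuation_eq_one_of_coprime v hk hv) (map_one _) ?_ ?_ ?_
      · have e : (k : ℚ) - 1 = ((((k : ℤ) - 1 : ℤ)) : ℚ) := by
          push_cast
          ring
        rw [e]
        exact valuation_le_of_int_dvd468 v hdvd
      · rw [map_zero]
        exact zero_le
      · rw [sub_self, map_zero]
        exact zero_le
    · rw [finCompHom_g1_468_notMem g₀ hv, finCompHom_dK468_notMem k hv, mul_one, mul_one]
      have hv1 := valuation_eq_one_of_notMem468 hv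
      refine locLevel_of_near_nat v ?_
      have hn : Near v 1 (finCompHom v g₀)⁻¹ :=
        (near_of_integralBoth468 (hM.integral v hv1)).inv
      refine hn.mono ?_
      have := valuation_le_of_dvd v hM.dvd
      rwa [hv1] at this

/-- CONTINUITY in `x`. -/
theorem U468_cont_x (κ : (ZMod M)ˣ) (y : ℝ) (hy : 0 < y) :
    Continuous (fun x : ℝ => U468 φ M g₀ κ x y) := by
  have h := continuousOn_comp_bInf (K := ℚ) wQ_isReal hφ.cont
    (dK468 M (hrep468 M κ⁻¹) * g1_468 M g₀)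
  have h2 : Continuous (fun x : ℝ => ((x, y) : ℝ × ℝ)) := by fun_prop
  have h3 := h.comp_continuous h2 (fun x => hy.ne')
  refine h3.congr (fun x => ?_)
  unfold U468
  rw [Function.comp_apply, mul_assoc]

/-- CONTINUITY in `y`. -/
theorem U468_cont_y (κ : (ZMod M)ˣ) (x : ℝ) :
    ContinuousOn (fun y : ℝ => U468 φ M g₀ κ x y) (Set.Ioi 0) := by
  have h := continuousOn_comp_bInf (K := ℚ) wQ_isReal hφ.cont
    (dK468 M (hrep468 M κ⁻¹) * g1_468 M g₀)
  have h2 : ContinuousOn (fun y : ℝ => ((x, y) : ℝ × ℝ)) (Set.Ioi 0) := by fun_prop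
  have h3 := h.comp h2 (fun y hy => (ne_of_gt (Set.mem_Ioi.1 hy) : y ≠ 0))
  refine h3.congr (fun y _ => ?_)
  unfold U468
  rw [Function.comp_apply, mul_assoc]

end Family

/-! ## The sub-leaf -/

/-- **Sub-leaf `HoroC` (MS4b) of tower T8**, VERBATIM. -/
theorem horoC468 : HoroC := by
  intro π φ hφ g₀ L hL
  obtain ⟨M, hLM, hM⟩ := exists_lvl468 π.level π.level_ne_bot g₀ L hL
  obtain ⟨C, hC⟩ := hφ.bdd
  refine ⟨M, U468 φ M g₀, C, hLM, ?_, U468_base hφ hM⟩
  exact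
    { M_pos := Nat.pos_of_ne_zero hM.ne_zero
      cont_x := fun κ y hy => U468_cont_x hφ hM κ y hy
      cont_y := fun κ x => U468_cont_y hφ hM κ x
      bdd := fun κ x y _ => hC _
      periodic := fun κ x y hy => U468_periodic hφ hM κ x y hy
      hecke := fun p hp hpM κ x y hy => U468_hecke hφ hM hp hpM κ x y hy }

end Fermat.Agent.LT.T8.H468

end

end
-- ===== PACK-END LT/T8/H468/Horo.lean

-- ===== PACK-BEGIN LT/T8/H47/Leaves.lean
section




/-!
# Row LT, tower T8: the sub-leaves `HeckeSeqC` and `HoroCoeffC` of the Spec of helper19, PROVED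
(helper47, OFF-MAIN)

Against `Fermat/Agent/LT/T8/Spec.lean` of origin/helper19@6d7f2471b (sha256 f64dc2b9506eecd5),
VERBATIM:

* `heckeSeqC47 : T8.HeckeSeqC`        (HSEQ, from `exists_heckeSeq47`);
* `horoCoeffC47 : T8.HoroCoeffC`      (MS4a, from `HoroData47.exists_coeffData`).

So `T8.top` reads `CentralEven556 → HoroC → WT.PAR556` (`par556_of_adelic47`): tower T8 is open in
its two ADELIC sub-leaves only.
-/

set_option autoImplicit false

open AutomorphicForm IsDedekindDomain NumberField FLT.ExplicitLift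

namespace Fermat.Agent.LT.T8.H47

open Fermat.Agent.LT.T8 Fermat.Agent.LT.H51

/-- **HSEQ**, the frozen Prop of the Spec. -/
theorem heckeSeqC47 : HeckeSeqC := by
  intro A B
  obtain ⟨a, -, h1, -, -, hrel⟩ := exists_heckeSeq47 A B
  exact ⟨a, h1, hrel⟩

theorem unitCls_eq_unitOf47 (M p : ℕ) : unitCls M p = unitOf47 M p := by
  by_cases h : Nat.Coprime p M
  · apply Units.ext
    rw [unitCls_coe h, unitOf47_coe h]
  · unfold unitCls unitOf47
    rw [dif_neg h]

/-- The horocycle data of the Spec are the horocycle data of `Horo.lean`. -/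
theorem horoData47_of_spec {M : ℕ} {A B : ℕ → ℂ} {U : (ZMod M)ˣ → ℝ → ℝ → ℂ} {C : ℝ}
    {a : ℕ → ℂ} (D : HoroData M A B U C) (ha1 : a 1 = 1)
    (hrel : ∀ p : ℕ, p.Prime → ¬ p ∣ M → ∀ n : ℕ,
      a (p * n) + B p * (if p ∣ n then a (n / p) else 0) = A p * a n) :
    HoroData47 M a B U C := by
  have hap : ∀ p : ℕ, p.Prime → ¬ p ∣ M → a p = A p := by
    intro p hp hpM
    have h := hrel p hp hpM 1
    have hnd : ¬ p ∣ 1 := fun h1 => hp.one_lt.ne' (Nat.dvd_one.mp h1)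
    rw [mul_one, if_neg hnd, mul_zero, add_zero, ha1, mul_one] at h
    exact h
  refine ⟨ha1, ?_, D.cont_x, D.cont_y, D.bdd, D.periodic, ?_⟩
  · intro p hp hpM n
    rw [hap p hp hpM]
    exact hrel p hp hpM n
  · intro p hp hpM κ x y hy
    rw [hap p hp hpM, ← unitCls_eq_unitOf47]
    exact D.hecke p hp hpM κ x y hy

/-- **MS4a**, the frozen Prop of the Spec. -/
theorem horoCoeffC47 : HoroCoeffC := by
  intro M A B U C a D ha1 hrel hnc
  have : NeZero M := ⟨D.M_pos.ne'⟩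
  obtain ⟨κ, x, x', y, hy, hne⟩ := hnc
  exact (horoData47_of_spec D ha1 hrel).exists_coeffData ⟨κ, y, x, x', hy, hne⟩

/-- Tower T8 from its two adelic sub-leaves. -/
theorem par556_of_adelic47 (hA : Fermat.Agent.LT.H19.CentralEven556) (hH : HoroC) :
    Fermat.Agent.LT.H556.WT.PAR556 :=
  top hA heckeSeqC47 hH horoCoeffC47

end Fermat.Agent.LT.T8.H47

end
-- ===== PACK-END LT/T8/H47/Leaves.lean

-- ===== PACK-BEGIN LT/T8/H468/CentralEven.lean
section



/-!
# Row LT, tower T8, sub-leaf P-A `CentralEven556` (helper468, OFF-MAIN)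

`centralEven556_h468 : Fermat.Agent.LT.H19.CentralEven556` (PROVED, no hole).

From the relation `bprod468_eq_one` (`Core.lean`): with `N = absNorm (level)`, the function
`m ↦ ∏_{p ∣ m} b_p` (with multiplicity) on the natural numbers prime to `N` depends only on the
class of `m` modulo `N`, is multiplicative and takes the value `1` on the classes `± 1`.
No density theorem is needed: every class of units has a positive representative.
-/

set_option autoImplicit false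

open IsDedekindDomain NumberField AutomorphicForm
open scoped MatrixGroups

noncomputable section

namespace Fermat.Agent.LT.T8.H468

open Fermat.Agent.LT.H556.A0
open Rat.HeightOneSpectrum
open scoped Classical

/-! ## The completely multiplicative function `bnat468` -/

/-- `∏ b_p` over the prime factors of `m` (with multiplicity). -/
def bnat468 (π : HeckeEigensystem ℚ ℂ) (m : ℕ) : ℂ := bprod468 π m.primeFactorsList

theorem bprod468_perm (π : HeckeEigensystem ℚ ℂ) {L L' : List ℕ} (h : L.Perm L') :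
    bprod468 π L = bprod468 π L' :=
  (h.map _).prod_eq

theorem bprod468_append (π : HeckeEigensystem ℚ ℂ) (L L' : List ℕ) :
    bprod468 π (L ++ L') = bprod468 π L * bprod468 π L' := by
  unfold bprod468
  rw [List.map_append, List.prod_append]

theorem bnat468_mul (π : HeckeEigensystem ℚ ℂ) {a b : ℕ} (ha : a ≠ 0) (hb : b ≠ 0) :
    bnat468 π (a * b) = bnat468 π a * bnat468 π b := by
  unfold bnat468
  rw [bprod468_perm π (Nat.perm_primeFactorsList_mul ha hb), bprod468_append]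

theorem bnat468_prime (π : HeckeEigensystem ℚ ℂ) {p : ℕ} (hp : p.Prime) :
    bnat468 π p = π.b (plc468 p) := by
  unfold bnat468
  rw [Nat.primeFactorsList_prime hp, bprod468_cons, bprod468_nil, mul_one]

/-- The relation for natural numbers: `ε m ≡ 1 mod N` with `ε = ± 1` gives `bnat468 π m = 1`. -/
theorem bnat468_eq_one (π : HeckeEigensystem ℚ ℂ) (φ : G ℚ → ℂ) (hφ : IsSph0CuspFormFor π φ)
    (N : ℕ) (hN0 : N ≠ 0) (hN : ((N : ℕ) : 𝓞 ℚ) ∈ π.level)
    (m : ℕ) (hm : m ≠ 0) (ε : ℤ) (hε : ε = 1 ∨ ε = -1)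
    (hcong : (N : ℤ) ∣ ε * (m : ℕ) - 1) : bnat468 π m = 1 := by
  unfold bnat468
  apply bprod468_eq_one π φ hφ N hN0 hN m.primeFactorsList _ ε hε
  · rw [Nat.prod_primeFactorsList hm]
    exact hcong
  · intro p hp
    have hpp : p.Prime := Nat.prime_of_mem_primeFactorsList hp
    refine ⟨hpp, ?_⟩
    intro hpN
    have hpm : p ∣ m := Nat.dvd_of_mem_primeFactorsList hp
    have h1 : (p : ℤ) ∣ ε * (m : ℕ) - 1 :=
      dvd_trans (Int.natCast_dvd_natCast.2 hpN) hcong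
    have h2 : (p : ℤ) ∣ ε * (m : ℕ) :=
      Dvd.dvd.mul_left (Int.natCast_dvd_natCast.2 hpm) ε
    have h3 : (p : ℤ) ∣ 1 := by
      have h4 := dvd_sub h2 h1
      rwa [sub_sub_cancel] at h4
    have h5 : p ∣ 1 := by exact_mod_cast h3
    exact hpp.one_lt.ne' (Nat.dvd_one.1 h5)

/-! ## Representatives of the classes of units -/

/-- A positive representative of a class of units modulo `N`. -/
def rep468 (N : ℕ) (u : (ZMod N)ˣ) : ℕ := (u : ZMod N).val + N

theorem rep468_ne_zero {N : ℕ} (hN0 : N ≠ 0) (u : (ZMod N)ˣ) : rep468 N u ≠ 0 := by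
  unfold rep468
  omega

theorem rep468_cast {N : ℕ} (hN0 : N ≠ 0) (u : (ZMod N)ˣ) :
    ((rep468 N u : ℕ) : ZMod N) = (u : ZMod N) := by
  have : NeZero N := ⟨hN0⟩
  unfold rep468
  rw [Nat.cast_add, ZMod.natCast_zmod_val, ZMod.natCast_self, add_zero]

/-- `bnat468` depends only on the class modulo `N` (on the classes of units). -/
theorem bnat468_congr (π : HeckeEigensystem ℚ ℂ) (φ : G ℚ → ℂ) (hφ : IsSph0CuspFormFor π φ)
    (N : ℕ) (hN0 : N ≠ 0) (hN : ((N : ℕ) : 𝓞 ℚ) ∈ π.level)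
    (u : (ZMod N)ˣ) (m m' : ℕ) (hm : m ≠ 0) (hm' : m' ≠ 0)
    (h : ((m : ℕ) : ZMod N) = (u : ZMod N)) (h' : ((m' : ℕ) : ZMod N) = (u : ZMod N)) :
    bnat468 π m = bnat468 π m' := by
  have hr : rep468 N u⁻¹ ≠ 0 := rep468_ne_zero hN0 _
  have key : ∀ k : ℕ, k ≠ 0 → ((k : ℕ) : ZMod N) = (u : ZMod N) →
      bnat468 π (rep468 N u⁻¹) * bnat468 π k = 1 := by
    intro k hk hku
    rw [← bnat468_mul π hr hk]
    apply bnat468_eq_one π φ hφ N hN0 hN _ (mul_ne_zero hr hk) 1 (Or.inl rfl)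
    apply (ZMod.intCast_eq_intCast_iff_dvd_sub 1 _ N).1
    push_cast
    rw [rep468_cast hN0, hku, one_mul, Units.inv_mul]
  have h1 := key m hm h
  have h2 := key m' hm' h'
  have h3 : bnat468 π (rep468 N u⁻¹) ≠ 0 := by
    intro h0
    rw [h0, zero_mul] at h1
    exact zero_ne_one h1
  exact mul_left_cancel₀ h3 (h1.trans h2.symm)

/-! ## The character -/

/-- The character on the units, with values in `ℂ`. -/
def chi0_468 (π : HeckeEigensystem ℚ ℂ) (φ : G ℚ → ℂ) (hφ : IsSph0CuspFormFor π φ)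
    (N : ℕ) (hN0 : N ≠ 0) (hN : ((N : ℕ) : 𝓞 ℚ) ∈ π.level) : (ZMod N)ˣ →* ℂ where
  toFun u := bnat468 π (rep468 N u)
  map_one' := by
    apply bnat468_eq_one π φ hφ N hN0 hN _ (rep468_ne_zero hN0 _) 1 (Or.inl rfl)
    apply (ZMod.intCast_eq_intCast_iff_dvd_sub 1 _ N).1
    push_cast
    rw [rep468_cast hN0, one_mul, Units.val_one]
  map_mul' u v := by
    rw [← bnat468_mul π (rep468_ne_zero hN0 u) (rep468_ne_zero hN0 v)]
    apply bnat468_congr π φ hφ N hN0 hN (u * v) _ _ (rep468_ne_zero hN0 _)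
      (mul_ne_zero (rep468_ne_zero hN0 u) (rep468_ne_zero hN0 v)) (rep468_cast hN0 _)
    rw [Nat.cast_mul, rep468_cast hN0, rep468_cast hN0, Units.val_mul]

theorem chi0_468_apply (π : HeckeEigensystem ℚ ℂ) (φ : G ℚ → ℂ) (hφ : IsSph0CuspFormFor π φ)
    (N : ℕ) (hN0 : N ≠ 0) (hN : ((N : ℕ) : 𝓞 ℚ) ∈ π.level) (u : (ZMod N)ˣ) :
    chi0_468 π φ hφ N hN0 hN u = bnat468 π (rep468 N u) := rfl

/-- The Dirichlet character. -/
def chi468 (π : HeckeEigensystem ℚ ℂ) (φ : G ℚ → ℂ) (hφ : IsSph0CuspFormFor π φ)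
    (N : ℕ) (hN0 : N ≠ 0) (hN : ((N : ℕ) : 𝓞 ℚ) ∈ π.level) : DirichletCharacter ℂ N :=
  MulChar.ofUnitHom (chi0_468 π φ hφ N hN0 hN).toHomUnits

theorem chi468_unit (π : HeckeEigensystem ℚ ℂ) (φ : G ℚ → ℂ) (hφ : IsSph0CuspFormFor π φ)
    (N : ℕ) (hN0 : N ≠ 0) (hN : ((N : ℕ) : 𝓞 ℚ) ∈ π.level) (u : (ZMod N)ˣ) :
    chi468 π φ hφ N hN0 hN (u : ZMod N) = bnat468 π (rep468 N u) := by
  unfold chi468
  rw [MulChar.ofUnitHom_coe, MonoidHom.coe_toHomUnits, chi0_468_apply]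

theorem chi468_neg_one (π : HeckeEigensystem ℚ ℂ) (φ : G ℚ → ℂ) (hφ : IsSph0CuspFormFor π φ)
    (N : ℕ) (hN0 : N ≠ 0) (hN : ((N : ℕ) : 𝓞 ℚ) ∈ π.level) :
    chi468 π φ hφ N hN0 hN (-1) = 1 := by
  have h1 : (-1 : ZMod N) = (((-1 : (ZMod N)ˣ) : (ZMod N)ˣ) : ZMod N) := by
    rw [Units.val_neg, Units.val_one]
  rw [h1, chi468_unit]
  apply bnat468_eq_one π φ hφ N hN0 hN _ (rep468_ne_zero hN0 _) (-1) (Or.inr rfl)
  apply (ZMod.intCast_eq_intCast_iff_dvd_sub 1 _ N).1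
  push_cast
  rw [rep468_cast hN0, Units.val_neg, Units.val_one]
  ring

theorem chi468_prime (π : HeckeEigensystem ℚ ℂ) (φ : G ℚ → ℂ) (hφ : IsSph0CuspFormFor π φ)
    (N : ℕ) (hN0 : N ≠ 0) (hN : ((N : ℕ) : 𝓞 ℚ) ∈ π.level) {p : ℕ} (hp : p.Prime)
    (hpN : ¬ p ∣ N) :
    chi468 π φ hφ N hN0 hN (p : ZMod N) = π.b (plc468 p) := by
  have hcop : Nat.Coprime p N := (Nat.Prime.coprime_iff_not_dvd hp).2 hpN
  have h1 : ((p : ℕ) : ZMod N) = ((ZMod.unitOfCoprime p hcop : (ZMod N)ˣ) : ZMod N) :=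
    (ZMod.coe_unitOfCoprime p hcop).symm
  rw [h1, chi468_unit, ← bnat468_prime π hp]
  exact bnat468_congr π φ hφ N hN0 hN (ZMod.unitOfCoprime p hcop) _ _ (rep468_ne_zero hN0 _)
    hp.ne_zero (rep468_cast hN0 _) h1

/-! ## The sub-leaf -/

/-- **Sub-leaf P-A of tower T8** (`Par556.lean`), VERBATIM. -/
theorem centralEven556_h468 : Fermat.Agent.LT.H19.CentralEven556 := by
  intro π hπ
  obtain ⟨φ, hφ⟩ := hπ
  have hN0 : Ideal.absNorm π.level ≠ 0 := by
    intro h0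
    exact π.level_ne_bot (Ideal.absNorm_eq_zero_iff.1 h0)
  have hN : (((Ideal.absNorm π.level : ℕ) : ℕ) : 𝓞 ℚ) ∈ π.level := Ideal.absNorm_mem π.level
  refine ⟨Ideal.absNorm π.level, chi468 π φ hφ _ hN0 hN, hN0, chi468_neg_one π φ hφ _ hN0 hN, ?_⟩
  intro p hp hpN w hw
  rw [eq_plc468_of_mem hp w hw]
  exact (chi468_prime π φ hφ _ hN0 hN hp hpN).symm

end Fermat.Agent.LT.T8.H468

end

end
-- ===== PACK-END LT/T8/H468/CentralEven.lean

-- ===== PACK-BEGIN LT/T8/Partial.lean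
section




/-!
# Row LT, tower T8: integration (helper19, architect), OFF-MAIN

`par556_of_horoC : HoroC → WT.PAR556`: the tower T8 with its three closed sub-leaves plugged in
(`centralEven556_h468` of helper468, `heckeSeqC47` and `horoCoeffC47` of helper47; byte-identical
copies).  The tower is open in exactly one leaf, the adelic `T8.HoroC`.
-/

set_option autoImplicit false

namespace Fermat.Agent.LT.T8

/-- **T8 with the closed sub-leaves plugged in.** -/
theorem par556_of_horoC (h : HoroC) : Fermat.Agent.LT.H556.WT.PAR556 :=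
  top Fermat.Agent.LT.T8.H468.centralEven556_h468 Fermat.Agent.LT.T8.H47.heckeSeqC47 h
    Fermat.Agent.LT.T8.H47.horoCoeffC47

end Fermat.Agent.LT.T8

end
-- ===== PACK-END LT/T8/Partial.lean

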