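import Mathlib
import Fermat.Prelude.Def_GaloisRep_ModThreeCyclotomic
import Fermat.Prelude.Def_FLTPrelim_Ramification
import Fermat.Prelude.Def_GaloisRep_Residual
import Fermat.Prelude.Def_Deformations_MatrixRepresentation
import Fermat.Agent.Pack.S44C.G0E26L3
import Fermat.Agent.Pack.S44C.G0E14L2
import Fermat.Agent.Pack.LT2.E8L2
import Fermat.Agent.Pack.LT2.E11L1
import Fermat.Agent.Pack.LT2.E19L2
import Fermat.Agent.Pack.LT2.E13L1
import Fermat.Agent.Pack.LT2.E13L2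
import Fermat.Agent.Pack.LT2.E13L0
import Fermat.Agent.Pack.LT2.E14L0
import Fermat.Agent.Pack.LT2.E0L1
import Fermat.Agent.Pack.LT2.E19L1
import Fermat.Agent.Pack.LT2.E10L0
import Fermat.Agent.Pack.S43GC.G0E22L2
import Fermat.Agent.Pack.LT2.E6L3
import Fermat.Agent.Pack.S59C.E1L2
import Fermat.Agent.Pack.S44C.G0E10L2
import Fermat.Agent.Pack.L1.E1L2
import Fermat.Agent.Pack.S44C.G0E6L2
import Fermat.Agent.Pack.L1B.E6L0
import Fermat.Agent.Pack.LT2.E19L3

set_option linter.all false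

-- ===== PACK-BEGIN LT/A2/H800/NonInv.lean
section





/-!
# Row LT, tower A2, branch GALSEED, leaf A2.01.10 `NonInvC` (helper800), OFF-MAIN

`nonInvC800 : Fermat.Agent.LT.A2.H38.NonInvC` (Spec of helper38, `LT/A2/H38/GalSeedSpec.lean`,
origin/helper38@fd6f38a61), UNCONDITIONAL.

Proof.  `ρ` factors through a finite level (`exists_level800`, Krull topology); Chebotarev over `ℚ`
(on main, `Lib.Cheb.chebotarev`) gives a prime `p` outside the exceptional set of `IsArtinOf`, a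
valuation subring `A | p` and a Frobenius `σ` at `A` with `ρ σ = g0`.  With `t` over
`t0 = [[1,1],[1,2]]` (an element of `Q8` outside `C4`) the conjugate `t σ t⁻¹` is a Frobenius at
`t • A` (`Lib.Cheb.H476.isFrobeniusAt_conj`) with `ρ`-value `t0 g0 t0⁻¹ = g0 ^ 3`.  The places
`w₁ = A ∩ L`, `w₂ = t A ∩ L` lie over the same place `v = A ∩ E` (`t` fixes `E`), and
`χ(ϖ_{w₁}) = θ(g0) = i`, `χ(ϖ_{w₂}) = θ(g0 ^ 3) = -i`; hence also `w₁ ≠ w₂`.

Reusable pieces (any later leaf of the branch may copy them):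
* `exists_level800`        : a continuous `ρ` to a discrete group factors through a finite level;
* `idealUnder800`, `exists_placeUnder800`, `placeUnder_unique800` : the place of `K ⊂ ℚ̄` under a
  valuation subring of `ℚ̄` over a prime number (`PlaceUnder` of the Spec);
* `liesOverPl800`          : `A ∩ L` lies over `A ∩ E` (`LiesOverPl` of `LT/A2/Spec.lean`);
* `exists_unifIdele800`    : uniformiser ideles exist at every finite place (`IsUnifIdeleAt`).
-/

set_option autoImplicit false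
set_option linter.style.haveILetI false

open IsDedekindDomain NumberField AutomorphicForm
open scoped MatrixGroups Pointwise

noncomputable section

namespace Fermat.Agent.LT.A2.H800

open Fermat.Agent.LT.H130 Fermat.Agent.LT.H556 Fermat.Agent.LT.A2 Fermat.Agent.LT.A2.H38

local notation "Γℚ" => (AlgebraicClosure ℚ ≃ₐ[ℚ] AlgebraicClosure ℚ)
local notation "Qb" => AlgebraicClosure ℚ

/-! ## Step A: `ρ` factors through a finite level -/

theorem exists_level800 {G : Type*} [Group G] [TopologicalSpace G] [DiscreteTopology G]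
    (ρ : Γℚ →* G) (hρ : Continuous ρ) :
    ∃ E : IntermediateField ℚ Qb, FiniteDimensional ℚ E ∧
      ∀ σ τ : Γℚ, (∀ x ∈ E, τ x = σ x) → ρ τ = ρ σ := by
  have hopen : IsOpen (ρ ⁻¹' {1}) := (isOpen_discrete _).preimage hρ
  have hmem : ρ ⁻¹' {1} ∈ nhds (1 : Γℚ) := hopen.mem_nhds (by simp)
  obtain ⟨E, hE, hsub⟩ := (krullTopology_mem_nhds_one_iff ℚ Qb _).mp hmem
  refine ⟨E, hE, fun σ τ h => ?_⟩
  have h1 : σ⁻¹ * τ ∈ E.fixingSubgroup := by
    rw [IntermediateField.mem_fixingSubgroup_iff]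
    intro x hx
    show σ⁻¹ (τ x) = x
    rw [h x hx]
    exact Fermat.Agent.Lib.Cheb.H476.inv_apply_apply σ x
  have h2 : ρ (σ⁻¹ * τ) = 1 := hsub h1
  rw [map_mul, map_inv, inv_mul_eq_one] at h2
  exact h2.symm


/-! ## Steps B, C: two Frobenius elements over one prime with `ρ`-values `g0`, `g0 ^ 3` -/

/-- An element of `Q8 ∖ C4`. -/
def t0 : GL (Fin 2) (ZMod 3) := ⟨!![1, 1; 1, 2], !![2, 2; 2, 1], by decide, by decide⟩

theorem det_t0 : Matrix.GeneralLinearGroup.det t0 = 1 := Units.ext (by decide)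

theorem t0_pow_four : t0 ^ 4 = 1 := Units.ext (by decide)

theorem t0_conj : t0 * g0 * t0⁻¹ = g0 ^ 3 := by
  rw [mul_inv_eq_iff_eq_mul]
  exact Units.ext (by decide)

theorem g0_ne_one : g0 ≠ 1 := by
  intro h
  have := congrArg (fun u : GL (Fin 2) (ZMod 3) => (u : Matrix (Fin 2) (Fin 2) (ZMod 3)) 0 0) h
  revert this
  decide

theorem g0_cube_ne_one : g0 ^ 3 ≠ 1 := by
  intro h
  have := congrArg (fun u : GL (Fin 2) (ZMod 3) => (u : Matrix (Fin 2) (Fin 2) (ZMod 3)) 0 0) h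
  revert this
  decide

theorem g0_cube_ne_g0 : g0 ^ 3 ≠ g0 := by
  intro h
  have := congrArg (fun u : GL (Fin 2) (ZMod 3) => (u : Matrix (Fin 2) (Fin 2) (ZMod 3)) 0 1) h
  revert this
  decide

theorem g0_cube_ne_g0_sq : g0 ^ 3 ≠ g0 ^ 2 := by
  intro h
  have := congrArg (fun u : GL (Fin 2) (ZMod 3) => (u : Matrix (Fin 2) (Fin 2) (ZMod 3)) 0 0) h
  revert this
  decide

theorem thetaVal_g0 : thetaVal g0 = Complex.I := by
  unfold thetaVal
  rw [if_neg g0_ne_one, if_pos rfl]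

theorem thetaVal_g0_cube : thetaVal (g0 ^ 3) = -Complex.I := by
  unfold thetaVal
  rw [if_neg g0_cube_ne_one, if_neg g0_cube_ne_g0, if_neg g0_cube_ne_g0_sq, if_pos rfl]

theorem isLeastPowC4_one {g : GL (Fin 2) (ZMod 3)} (hg : g ∈ C4) : IsLeastPowC4 g 1 := by
  refine ⟨Nat.one_pos, by rwa [pow_one], fun k hk hk1 => ?_⟩
  omega

theorem g0_mem_C4 : g0 ∈ C4 := Subgroup.mem_zpowers g0

theorem g0_cube_mem_C4 : g0 ^ 3 ∈ C4 := Subgroup.pow_mem _ _root_.Fermat.Agent.LT.A2.H800.g0_mem_C4 3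

/-- Chebotarev (on main) at `g0`, and the conjugate by an element over `t0`. -/
theorem exists_two_frob800 (ρ : Γℚ →* GL (Fin 2) (ZMod 3)) (hρ : Continuous ρ)
    (hsurj : Function.Surjective ρ) (S : Finset ℕ) :
    ∃ (p : ℕ) (A : ValuationSubring Qb) (σ t : Γℚ),
      p.Prime ∧ p ∉ S ∧ A.LiesOverPrime p ∧ A.IsFrobeniusAt σ p ∧ ρ σ = g0 ∧
      ρ t = t0 ∧ (t • A).LiesOverPrime p ∧ (t • A).IsFrobeniusAt (t * σ * t⁻¹) p ∧
      ρ (t * σ * t⁻¹) = g0 ^ 3 := by
  obtain ⟨E, hE, hlev⟩ := exists_level800 ρ hρ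
  obtain ⟨σ₀, hσ₀⟩ := hsurj g0
  obtain ⟨t, ht⟩ := hsurj t0
  obtain ⟨p, A, σ, hp, hpS, hA, hσ, -, hσσ₀⟩ := Fermat.Agent.Lib.Cheb.chebotarev E hE σ₀ S
  have hρσ : ρ σ = g0 := by rw [hlev σ₀ σ hσσ₀, hσ₀]
  refine ⟨p, A, σ, t, hp, hpS, hA, hσ, hρσ, ht,
    Fermat.Agent.Lib.Cheb.H476.liesOverPrime_smul' t hA,
    Fermat.Agent.Lib.Cheb.H476.isFrobeniusAt_conj t hσ, ?_⟩
  rw [map_mul, map_mul, map_inv, hρσ, ht, t0_conj]

/-! ## Step D: the place of a number field `K ⊂ ℚ̄` under a valuation subring of `ℚ̄` -/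

theorem coe_mem800 (K : IntermediateField ℚ Qb) (A : ValuationSubring Qb) (x : 𝓞 K) :
    (((x : K) : Qb)) ∈ A :=
  Fermat.Agent.S54.isIntegral_mem_valuationSubring A
    (map_isIntegral_int K.val (RingOfIntegers.isIntegral_coe x))

/-- The ideal of `𝓞 K` cut out by the valuation subring `A` of `ℚ̄`. -/
def idealUnder800 (K : IntermediateField ℚ Qb) (A : ValuationSubring Qb) : Ideal (𝓞 K) where
  carrier := {x | (((x : K) : Qb)) ∈ A.nonunits}
  add_mem' := fun {a b} ha hb => by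
    show ((((a + b : 𝓞 K) : K) : Qb)) ∈ A.nonunits
    have h : ((((a + b : 𝓞 K) : K) : Qb)) = ((a : K) : Qb) + ((b : K) : Qb) := by
      push_cast
      rfl
    rw [h]
    exact A.nonunits.add_mem ha hb
  zero_mem' := by
    show ((((0 : 𝓞 K) : K) : Qb)) ∈ A.nonunits
    have h : ((((0 : 𝓞 K) : K) : Qb)) = 0 := by
      push_cast
      rfl
    rw [h]
    exact A.nonunits.zero_mem
  smul_mem' := fun c b hb => by
    show ((((c • b : 𝓞 K) : K) : Qb)) ∈ A.nonunits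
    have h : ((((c • b : 𝓞 K) : K) : Qb)) = ((c : K) : Qb) * ((b : K) : Qb) := by
      rw [smul_eq_mul]
      push_cast
      rfl
    rw [h]
    obtain ⟨hb1, hb2⟩ := ValuationSubring.mem_nonunits_iff_exists_mem_maximalIdeal.mp hb
    have hc : ((c : K) : Qb) ∈ A := coe_mem800 K A c
    have := Ideal.mul_mem_left _ (⟨_, hc⟩ : A) hb2
    exact ValuationSubring.mem_nonunits_iff_exists_mem_maximalIdeal.mpr ⟨_, this⟩

theorem mem_idealUnder800 (K : IntermediateField ℚ Qb) (A : ValuationSubring Qb) (x : 𝓞 K) :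
    x ∈ idealUnder800 K A ↔ (((x : K) : Qb)) ∈ A.nonunits := Iff.rfl

theorem idealUnder800_isPrime (K : IntermediateField ℚ Qb) (A : ValuationSubring Qb) :
    (idealUnder800 K A).IsPrime := by
  constructor
  · intro h
    have h1 : (1 : 𝓞 K) ∈ idealUnder800 K A := by rw [h]; trivial
    rw [mem_idealUnder800] at h1
    have h2 : ((((1 : 𝓞 K) : K) : Qb)) = 1 := by
      push_cast
      rfl
    rw [h2, ValuationSubring.mem_nonunits_iff, map_one] at h1
    exact lt_irrefl _ h1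
  · intro a b hab
    rw [mem_idealUnder800] at hab
    have h : ((((a * b : 𝓞 K) : K) : Qb)) = ((a : K) : Qb) * ((b : K) : Qb) := by
      push_cast
      rfl
    rw [h] at hab
    by_contra hcon
    rw [not_or, mem_idealUnder800, mem_idealUnder800] at hcon
    obtain ⟨ha, hb⟩ := hcon
    have ha' : A.valuation ((a : K) : Qb) = 1 := by
      have h1 := (A.valuation_le_one_iff _).mpr (coe_mem800 K A a)
      have h2 : ¬ A.valuation ((a : K) : Qb) < 1 := fun h3 =>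
        ha (A.mem_nonunits_iff.mpr h3)
      exact le_antisymm h1 (not_lt.mp h2)
    have hb' : A.valuation ((b : K) : Qb) = 1 := by
      have h1 := (A.valuation_le_one_iff _).mpr (coe_mem800 K A b)
      have h2 : ¬ A.valuation ((b : K) : Qb) < 1 := fun h3 =>
        hb (A.mem_nonunits_iff.mpr h3)
      exact le_antisymm h1 (not_lt.mp h2)
    have h3 := A.mem_nonunits_iff.mp hab
    rw [map_mul, ha', hb', one_mul] at h3
    exact lt_irrefl _ h3

theorem natCast_mem_idealUnder800 (K : IntermediateField ℚ Qb) (A : ValuationSubring Qb)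
    {p : ℕ} (hA : A.LiesOverPrime p) : ((p : ℕ) : 𝓞 K) ∈ idealUnder800 K A := by
  rw [mem_idealUnder800]
  have h : (((((p : ℕ) : 𝓞 K) : K) : Qb)) = (p : Qb) := by
    push_cast
    rfl
  rw [h]
  exact hA

/-- The place of `K` under `A`. -/
theorem exists_placeUnder800 (K : IntermediateField ℚ Qb) [NumberField K]
    (A : ValuationSubring Qb) {p : ℕ} (hp : p.Prime) (hA : A.LiesOverPrime p) :
    ∃ w : HeightOneSpectrum (𝓞 K), PlaceUnder K A w := by
  refine ⟨⟨idealUnder800 K A, idealUnder800_isPrime K A, ?_⟩, fun x => Iff.rfl⟩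
  intro h
  have h1 := natCast_mem_idealUnder800 K A hA
  rw [h, Ideal.mem_bot] at h1
  have h2 : ((p : ℕ) : 𝓞 K) ≠ 0 := Nat.cast_ne_zero.mpr hp.ne_zero
  exact h2 h1

theorem placeUnder_unique800 (K : IntermediateField ℚ Qb) [NumberField K]
    (A : ValuationSubring Qb) {w w' : HeightOneSpectrum (𝓞 K)}
    (h : PlaceUnder K A w) (h' : PlaceUnder K A w') : w = w' := by
  apply HeightOneSpectrum.ext
  ext x
  rw [h x, h' x]

/-! ## Step E: places of `L` over places of `E` -/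

theorem liesOverPl800 (ρ : Γℚ →* GL (Fin 2) (ZMod 3)) [NumberField (fieldE ρ)]
    [NumberField (fieldL ρ)] (A : ValuationSubring Qb)
    {w : HeightOneSpectrum (𝓞 (fieldL ρ))} {v : HeightOneSpectrum (𝓞 (fieldE ρ))}
    (hw : PlaceUnder (fieldL ρ) A w) (hv : PlaceUnder (fieldE ρ) A v) :
    letI := algEL ρ
    LiesOverPl (fieldE ρ) w v := by
  letI := algEL ρ
  show w.asIdeal.comap (algebraMap (𝓞 (fieldE ρ)) (𝓞 (fieldL ρ))) = v.asIdeal
  ext x
  rw [Ideal.mem_comap, hw, hv]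
  rfl

theorem mem_subQ8_of800 (ρ : Γℚ →* GL (Fin 2) (ZMod 3)) {t : Γℚ} (ht : ρ t = t0) :
    t ∈ subQ8 ρ := by
  refine Subgroup.subset_closure ⟨?_, ?_⟩
  · rw [ht, det_t0]
  · rw [ht, t0_pow_four]

theorem placeUnder_smul800 (ρ : Γℚ →* GL (Fin 2) (ZMod 3)) [NumberField (fieldE ρ)]
    (A : ValuationSubring Qb) {t : Γℚ} (ht : t ∈ subQ8 ρ)
    {v : HeightOneSpectrum (𝓞 (fieldE ρ))} (hv : PlaceUnder (fieldE ρ) A v) :
    PlaceUnder (fieldE ρ) (t • A) v := by
  intro x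
  rw [hv x, Fermat.Agent.Lib.Cheb.H476.mem_nonunits_smul_iff]
  have hx : (((x : fieldE ρ) : Qb)) ∈ fieldE ρ := (x : fieldE ρ).2
  have h1 : t (((x : fieldE ρ) : Qb)) = (((x : fieldE ρ) : Qb)) :=
    (IntermediateField.mem_fixedField_iff _ _).mp hx t ht
  have h2 : t⁻¹ (((x : fieldE ρ) : Qb)) = (((x : fieldE ρ) : Qb)) := by
    conv_lhs => rw [← h1]
    exact Fermat.Agent.Lib.Cheb.H476.inv_apply_apply t _
  rw [h2]

/-! ## Step F: uniformiser ideles -/

theorem exists_unifIdele800 (L : Type) [Field L] [NumberField L]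
    (w : HeightOneSpectrum (𝓞 L)) : ∃ z : (A0.Adl L)ˣ, IsUnifIdeleAt w z := by
  classical
  obtain ⟨π, hπ⟩ := w.valuation_exists_uniformizer L
  have hv : Valued.v (π : w.adicCompletion L) = WithZero.exp (-1 : ℤ) := by
    rw [HeightOneSpectrum.valuedAdicCompletion_eq_valuation', hπ]
  have hne : (π : w.adicCompletion L) ≠ 0 := by
    intro h
    rw [h, map_zero] at hv
    exact WithZero.exp_ne_zero hv.symm
  let a : FiniteAdeleRing (𝓞 L) L :=
    RestrictedProduct.mulSingle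
      (fun v : HeightOneSpectrum (𝓞 L) => v.adicCompletionIntegers L) w
      (π : w.adicCompletion L)
  let b : FiniteAdeleRing (𝓞 L) L :=
    RestrictedProduct.mulSingle
      (fun v : HeightOneSpectrum (𝓞 L) => v.adicCompletionIntegers L) w
      (π : w.adicCompletion L)⁻¹
  have ha_same : a w = (π : w.adicCompletion L) :=
    RestrictedProduct.mulSingle_eq_same _ _ _
  have ha_ne : ∀ w' : HeightOneSpectrum (𝓞 L), w' ≠ w → a w' = 1 := fun w' h =>
    RestrictedProduct.mulSingle_eq_of_ne _ _ h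
  have hb_same : b w = (π : w.adicCompletion L)⁻¹ :=
    RestrictedProduct.mulSingle_eq_same _ _ _
  have hb_ne : ∀ w' : HeightOneSpectrum (𝓞 L), w' ≠ w → b w' = 1 := fun w' h =>
    RestrictedProduct.mulSingle_eq_of_ne _ _ h
  have hab : a * b = 1 := by
    apply FiniteAdeleRing.ext
    intro v
    show a v * b v = 1
    by_cases h : v = w
    · subst h
      rw [ha_same, hb_same, mul_inv_cancel₀ hne]
    · rw [ha_ne v h, hb_ne v h, mul_one]
  let x : A0.Adl L := ((1 : InfiniteAdeleRing L), a)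
  let y : A0.Adl L := ((1 : InfiniteAdeleRing L), b)
  have hxy : x * y = 1 := by
    show (((1 : InfiniteAdeleRing L) * 1, a * b) : InfiniteAdeleRing L × FiniteAdeleRing (𝓞 L) L)
      = (1, 1)
    rw [hab, mul_one]
  have hyx : y * x = 1 := by rw [mul_comm]; exact hxy
  refine ⟨⟨x, y, hxy, hyx⟩, ⟨fun u => rfl, fun w' h => ha_ne w' h⟩, ?_⟩
  show Valued.v (a w) = WithZero.exp (-1 : ℤ)
  rw [ha_same, hv]

/-! ## Step G: the leaf -/

theorem I_ne_neg_I800 : Complex.I ≠ -Complex.I := by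
  intro h
  have h1 := congrArg Complex.im h
  rw [Complex.neg_im, Complex.I_im] at h1
  norm_num at h1

/-- **Leaf A2.01.10 `NonInvC`** (tower A2, branch GALSEED, Spec of helper38). -/
theorem nonInvC800 : NonInvC := by
  intro ρ Ψ hyp hNE hNL χ hart
  letI := algEL ρ
  obtain ⟨S, hS⟩ := hart
  obtain ⟨p, A, σ, t, hp, hpS, hA, hσ, hρσ, ht, hA', hσ', hρσ'⟩ :=
    exists_two_frob800 ρ hyp.cont hyp.surj S
  obtain ⟨w₁, hw₁⟩ := exists_placeUnder800 (fieldL ρ) A hp hA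
  obtain ⟨w₂, hw₂⟩ := exists_placeUnder800 (fieldL ρ) (t • A) hp hA'
  obtain ⟨v, hv⟩ := exists_placeUnder800 (fieldE ρ) A hp hA
  have hv' : PlaceUnder (fieldE ρ) (t • A) v :=
    placeUnder_smul800 ρ A (mem_subQ8_of800 ρ ht) hv
  obtain ⟨z₁, hz₁⟩ := exists_unifIdele800 (fieldL ρ) w₁
  obtain ⟨z₂, hz₂⟩ := exists_unifIdele800 (fieldL ρ) w₂
  obtain ⟨hu₁, hval₁⟩ := hS p hp hpS A hA σ hσ w₁ hw₁
  obtain ⟨hu₂, hval₂⟩ := hS p hp hpS (t • A) hA' (t * σ * t⁻¹) hσ' w₂ hw₂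
  have hl₁ : IsLeastPowC4 (ρ σ) 1 := isLeastPowC4_one (by rw [hρσ]; exact _root_.Fermat.Agent.LT.A2.H800.g0_mem_C4)
  have hl₂ : IsLeastPowC4 (ρ (t * σ * t⁻¹)) 1 :=
    isLeastPowC4_one (by rw [hρσ']; exact g0_cube_mem_C4)
  have h1 : ∀ z : (A0.Adl (fieldL ρ))ˣ, IsUnifIdeleAt w₁ z → (χ z : ℂ) = Complex.I := by
    intro z hz
    rw [hval₁ 1 hl₁ z hz, pow_one, hρσ, _root_.Fermat.Agent.LT.A2.H800.thetaVal_g0]
  have h2 : ∀ z : (A0.Adl (fieldL ρ))ˣ, IsUnifIdeleAt w₂ z → (χ z : ℂ) = -Complex.I := by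
    intro z hz
    rw [hval₂ 1 hl₂ z hz, pow_one, hρσ', _root_.Fermat.Agent.LT.A2.H800.thetaVal_g0_cube]
  have hne : χ z₁ ≠ χ z₂ := by
    intro h
    have h3 : (χ z₁ : ℂ) = (χ z₂ : ℂ) := by rw [h]
    rw [h1 z₁ hz₁, h2 z₂ hz₂] at h3
    exact I_ne_neg_I800 h3
  have hw : w₁ ≠ w₂ := by
    intro h
    have h3 := h1 z₂ (h ▸ hz₂)
    rw [h2 z₂ hz₂] at h3
    exact I_ne_neg_I800 h3.symm
  exact ⟨v, w₁, w₂, z₁, z₂, hw, liesOverPl800 ρ A hw₁ hv, liesOverPl800 ρ (t • A) hw₂ hv',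
    hu₁, hu₂, hz₁, hz₂, hne⟩

end Fermat.Agent.LT.A2.H800

end

end
-- ===== PACK-END LT/A2/H800/NonInv.lean

-- ===== PACK-BEGIN LT/A2/H38/SplitInertBF.lean
section




/-!
# Row LT, tower A2, branch GALSEED: leaf `SplitInertC`, group theory (helper38)

Brute force on `2 × 2` matrices over `ZMod 3` and its consequences in `GL₂(𝔽₃)`:
`ordQ8 g` is the least exponent into `Q8`; the product of two elements of `Q8 ∖ C4` lies in `C4`.
-/

set_option autoImplicit false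

open Matrix

namespace Fermat.Agent.LT.A2.H38.SI

open Fermat.Agent.LT.H130 Fermat.Agent.LT.A2.H38

/-! ## Brute force -/

set_option maxRecDepth 100000 in
theorem bfOrd : ∀ a b c e : ZMod 3, a * e - b * c ≠ 0 →
    q8M ((!![a, b; c, e] : Matrix (Fin 2) (Fin 2) (ZMod 3)) ^ ordM !![a, b; c, e]) ∧
    0 < ordM !![a, b; c, e] ∧
    ∀ k < ordM !![a, b; c, e], 0 < k →
      ¬ q8M ((!![a, b; c, e] : Matrix (Fin 2) (Fin 2) (ZMod 3)) ^ k) := by
  decide

set_option maxRecDepth 100000 in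
theorem bfMul : ∀ a b c e a' b' c' e' : ZMod 3,
    q8M !![a, b; c, e] → ¬ c4M !![a, b; c, e] → q8M !![a', b'; c', e'] →
    ¬ c4M !![a', b'; c', e'] →
    c4M ((!![a, b; c, e] : Matrix (Fin 2) (Fin 2) (ZMod 3)) * !![a', b'; c', e']) := by
  decide

/-! ## Consequences in `GL₂(𝔽₃)` -/

theorem ordQ8_spec (g : GL (Fin 2) (ZMod 3)) :
    InQ8 (g ^ ordQ8 g) ∧ 0 < ordQ8 g ∧ ∀ k < ordQ8 g, 0 < k → ¬ InQ8 (g ^ k) := by
  have key := bfOrd _ _ _ _ (det_ne_zero_val g)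
  rw [← val_eta g, ← ordQ8_eq] at key
  obtain ⟨k1, k2, k3⟩ := key
  refine ⟨?_, k2, fun k hk hk0 hc => k3 k hk hk0 ?_⟩
  · rw [inQ8_iff, Units.val_pow_eq_pow_val]; exact k1
  · have := (inQ8_iff (g ^ k)).mp hc
    rwa [Units.val_pow_eq_pow_val] at this

theorem isLeast_of_mem (g : GL (Fin 2) (ZMod 3)) (hC : g ^ ordQ8 g ∈ C4) :
    IsLeastPowC4 g (ordQ8 g) := by
  have hC' : c4M (g.val ^ ordM g.val) := by
    have := (mem_C4_iff _).mp hC
    rwa [Units.val_pow_eq_pow_val, ordQ8_eq] at this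
  rw [isLeast_iff, ordQ8_eq]
  have := bfIn _ _ _ _ (det_ne_zero_val g) (by rw [← val_eta g]; exact hC')
  rwa [← val_eta g] at this

theorem inQ8_of_mem_C4 {h : GL (Fin 2) (ZMod 3)} (hh : h ∈ C4) : InQ8 h := by
  obtain ⟨k, rfl⟩ := Subgroup.mem_zpowers_iff.mp hh
  refine ⟨?_, ?_⟩
  · rw [map_zpow, det_g0, _root_.one_zpow]
  · rw [← zpow_natCast, ← _root_.zpow_mul, mul_comm, _root_.zpow_mul, zpow_natCast, g0_pow_four,
      _root_.one_zpow]

theorem inQ8_inv {a : GL (Fin 2) (ZMod 3)} (ha : InQ8 a) : InQ8 a⁻¹ :=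
  ⟨by rw [map_inv, ha.1, inv_one], by rw [inv_pow, ha.2, inv_one]⟩

theorem inQ8NotC4_inv {a : GL (Fin 2) (ZMod 3)} (ha : InQ8NotC4 a) : InQ8NotC4 a⁻¹ :=
  ⟨inQ8_inv ha.1, fun h => ha.2 (by simpa using C4.inv_mem h)⟩

theorem mul_mem_C4_of_not {a b : GL (Fin 2) (ZMod 3)} (ha : InQ8NotC4 a) (hb : InQ8NotC4 b) :
    a * b ∈ C4 := by
  have a1 : q8M a.val := (inQ8_iff a).mp ha.1
  have a2 : ¬ c4M a.val := fun h => ha.2 ((mem_C4_iff a).mpr h)
  have b1 : q8M b.val := (inQ8_iff b).mp hb.1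
  have b2 : ¬ c4M b.val := fun h => hb.2 ((mem_C4_iff b).mpr h)
  rw [val_eta a] at a1 a2
  rw [val_eta b] at b1 b2
  have key := bfMul _ _ _ _ _ _ _ _ a1 a2 b1 b2
  rw [← val_eta a, ← val_eta b] at key
  rw [mem_C4_iff, Units.val_mul]
  exact key

theorem t0_notC4 : InQ8NotC4 Fermat.Agent.LT.A2.H800.t0 := by
  refine ⟨⟨Fermat.Agent.LT.A2.H800.det_t0, Fermat.Agent.LT.A2.H800.t0_pow_four⟩, fun h => ?_⟩
  have := (mem_C4_iff _).mp h
  revert this
  decide

end Fermat.Agent.LT.A2.H38.SI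

end
-- ===== PACK-END LT/A2/H38/SplitInertBF.lean

-- ===== PACK-BEGIN LT/A2/H456/Dict.lean
section


/-!
# Row LT, tower A2, leaf A2.02 `TorusCharC` -- top assembly, part 8 (helper456), OFF-MAIN

`χT` is not trivial on `T¹(𝔸_K)`; the dictionary `InducedAtT → InducedAt` at the good places.
-/

set_option autoImplicit false

open IsDedekindDomain NumberField AutomorphicForm
open scoped MatrixGroups

noncomputable section

namespace Fermat.Agent.LT.A2.H456

open Fermat.Agent.LT.H130 Fermat.Agent.LT.H556 Fermat.Agent.LT.A2 Fermat.Agent.LT.A2.H83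

variable {K L : Type} [Field K] [NumberField K] [Field L] [NumberField L] [Algebra K L]
variable {t n : K} {ω : L} {ι : FiniteAdeleRing (𝓞 K) K →+* FiniteAdeleRing (𝓞 L) L}
  {χ : (A0.Adl L)ˣ →* ℂˣ}

/-- The value of `χT` on a torus element supported at `v` with rational component, when exactly
two places `w₁ ≠ w₂` lie over `v` and `χ` is unramified there. -/
theorem chiT_locT_two456 (hrel : ω ^ 2 - algebraMap K L t * ω + algebraMap K L n = 0)
    (hι : IsBC456 ι) {v : HeightOneSpectrum (𝓞 K)} {w₁ w₂ : HeightOneSpectrum (𝓞 L)}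
    (hne : w₁ ≠ w₂) (ho1 : LiesOverPl K w₁ v) (ho2 : LiesOverPl K w₂ v)
    (honly : ∀ w' : HeightOneSpectrum (𝓞 L), LiesOverPl K w' v → w' = w₁ ∨ w' = w₂)
    (hu1 : UnramAt χ w₁) (hu2 : UnramAt χ w₂) (x y : K) (h : nf456 t n x y ≠ 0)
    {z₁ z₂ : (A0.Adl L)ˣ} (hz1 : IsIdeleAt w₁ z₁) (hz2 : IsIdeleAt w₂ z₂)
    (hv1 : val83 w₁ (elt83 ω x y) = Valued.v ((z₁ : A0.Adl L).2 w₁))
    (hv2 : val83 w₂ (elt83 ω x y) = Valued.v ((z₂ : A0.Adl L).2 w₂)) :
    chiT456 ω ι χ (locT456 t n v x y h) = ((χ z₁ * χ z₂ : ℂˣ) : ℂ) := by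
  rw [chiT456_eq hrel hι _ (locT456_inTorus t n v x y h)]
  congr 1
  apply chi_two456 hne hu1 hu2 _ _ _ hz1 hz2
  · rw [unitT456_val, thetaG_locT456_over hι v x y h ho1]
    exact hv1
  · rw [unitT456_val, thetaG_locT456_over hι v x y h ho2]
    exact hv2
  · intro u
    rw [unitT456_val, thetaG_locT456_fst]
    rfl
  · intro w hw1 hw2
    rw [unitT456_val]
    apply thetaG_locT456_not_over hι
    intro ho
    rcases honly w ho with h' | h'
    · exact hw1 h'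
    · exact hw2 h'

/-- The same with one place over `v`. -/
theorem chiT_locT_one456 (hrel : ω ^ 2 - algebraMap K L t * ω + algebraMap K L n = 0)
    (hι : IsBC456 ι) {v : HeightOneSpectrum (𝓞 K)} {w : HeightOneSpectrum (𝓞 L)}
    (ho : LiesOverPl K w v)
    (honly : ∀ w' : HeightOneSpectrum (𝓞 L), LiesOverPl K w' v → w' = w)
    (hu : UnramAt χ w) (x y : K) (h : nf456 t n x y ≠ 0)
    {z : (A0.Adl L)ˣ} (hz : IsIdeleAt w z)
    (hv : val83 w (elt83 ω x y) = Valued.v ((z : A0.Adl L).2 w)) :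
    chiT456 ω ι χ (locT456 t n v x y h) = ((χ z : ℂˣ) : ℂ) := by
  rw [chiT456_eq hrel hι _ (locT456_inTorus t n v x y h)]
  congr 1
  apply chi_one456 hu _ _ _ hz
  · rw [unitT456_val, thetaG_locT456_over hι v x y h ho]
    exact hv
  · intro u
    rw [unitT456_val, thetaG_locT456_fst]
    rfl
  · intro w' hw'
    rw [unitT456_val]
    apply thetaG_locT456_not_over hι
    intro ho'
    exact hw' (honly w' ho')

/-! ## `nontriv` -/

theorem chiT456_nontriv (hfr : Module.finrank K L = 2) (hg : IsGen83 K L t n ω)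
    (hι : IsBC456 ι) (hN : NormOneEltC83) (hng : NotGaloisInvariant K χ) :
    ∃ m : A0.G K, InTorus1 t n m ∧ chiT456 ω ι χ m ≠ 1 := by
  obtain ⟨v, w₁, w₂, z₁, z₂, hne, ho1, ho2, hu1, hu2, hz1, hz2, hχne⟩ := hng
  obtain ⟨honly, a, b, hnorm, hv1, hv2⟩ := hN K L t n ω hfr hg v w₁ w₂ hne ho1 ho2
  have hnf1 : nf456 t n a b = 1 := hnorm
  have hnf : nf456 t n a b ≠ 0 := by rw [hnf1]; exact one_ne_zero
  refine ⟨locT456 t n v a b hnf, ⟨locT456_inTorus t n v a b hnf, ?_⟩, ?_⟩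
  · apply Units.ext
    rw [locT456_det, hnf1, locA456_one, Units.val_one]
  · have hval2 : val83 w₂ (elt83 ω a b)
        = Valued.v (((z₂⁻¹ : (A0.Adl L)ˣ) : A0.Adl L).2 w₂) := by
      rw [val_inv_idele456, hz2.2, hv2, ← WithZero.exp_neg]
      rfl
    rw [chiT_locT_two456 hg.rel hι hne ho1 ho2 honly hu1 hu2 a b hnf hz1.1
      (isIdeleAt_inv456 hz2.1) (hv1.trans hz1.2.symm) hval2]
    intro h1
    apply hχne
    have h2 : (χ z₁ * χ z₂⁻¹ : ℂˣ) = 1 := Units.ext h1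
    rw [map_inv, mul_inv_eq_one] at h2
    exact h2

end Fermat.Agent.LT.A2.H456

end

end
-- ===== PACK-END LT/A2/H456/Dict.lean

-- ===== PACK-BEGIN LT/A2/H456/Dict2.lean
section


/-!
# Row LT, tower A2, leaf A2.02 `TorusCharC` -- top assembly, part 9 (helper456), OFF-MAIN

The dictionary `InducedAtT → InducedAt` at the good places.
-/

set_option autoImplicit false

open IsDedekindDomain NumberField AutomorphicForm
open scoped MatrixGroups

noncomputable section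

namespace Fermat.Agent.LT.A2.H456

open Fermat.Agent.LT.H130 Fermat.Agent.LT.H556 Fermat.Agent.LT.A2 Fermat.Agent.LT.A2.H83

section Val

variable {K : Type} [Field K] [NumberField K]

theorem val83_eq456 (v : HeightOneSpectrum (𝓞 K)) (x : K) :
    val83 v x = v.valuation K x :=
  HeightOneSpectrum.valuedAdicCompletion_eq_valuation' v x

theorem val83_mul456 (v : HeightOneSpectrum (𝓞 K)) (x y : K) :
    val83 v (x * y) = val83 v x * val83 v y := by
  unfold val83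
  rw [map_mul, map_mul]

theorem val83_zero456 (v : HeightOneSpectrum (𝓞 K)) : val83 v (0 : K) = 0 := by
  unfold val83
  rw [map_zero, map_zero]

theorem val83_one456 (v : HeightOneSpectrum (𝓞 K)) : val83 v (1 : K) = 1 := by
  unfold val83
  rw [map_one, map_one]

theorem intAt_of_isIntegral456 (v : HeightOneSpectrum (𝓞 K)) {x : K} (hx : IsIntegral ℤ x) :
    IntAt83 v x := by
  show val83 v x ≤ 1
  rw [val83_eq456]
  exact HeightOneSpectrum.valuation_le_one v (⟨x, hx⟩ : 𝓞 K)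

theorem intAt_add456 (v : HeightOneSpectrum (𝓞 K)) {x y : K} (hx : IntAt83 v x)
    (hy : IntAt83 v y) : IntAt83 v (x + y) := by
  unfold IntAt83 at *
  rw [map_add]
  exact (Valued.v.map_add _ _).trans (max_le hx hy)

theorem intAt_mul456 (v : HeightOneSpectrum (𝓞 K)) {x y : K} (hx : IntAt83 v x)
    (hy : IntAt83 v y) : IntAt83 v (x * y) := by
  unfold IntAt83 at *
  rw [map_mul, map_mul]
  exact mul_le_one' hx hy

end Val

variable {K L : Type} [Field K] [NumberField K] [Field L] [NumberField L] [Algebra K L]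
variable {t n : K} {ω : L} {ι : FiniteAdeleRing (𝓞 K) K →+* FiniteAdeleRing (𝓞 L) L}
  {χ : (A0.Adl L)ˣ →* ℂˣ}

/-- The quotient `(x₂ + y₂ ω) / (x₁ + y₁ ω)` in coordinates. -/
def quo1_456 (t n x₁ y₁ x₂ y₂ : K) : K :=
  tm1_456 n ((x₁ + t * y₁) / nf456 t n x₁ y₁) (-y₁ / nf456 t n x₁ y₁) x₂ y₂

/-- The quotient `(x₂ + y₂ ω) / (x₁ + y₁ ω)` in coordinates. -/
def quo2_456 (t n x₁ y₁ x₂ y₂ : K) : K :=
  tm2_456 t ((x₁ + t * y₁) / nf456 t n x₁ y₁) (-y₁ / nf456 t n x₁ y₁) x₂ y₂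

theorem tm1_quo456 (t n x₁ y₁ x₂ y₂ : K) (h : nf456 t n x₁ y₁ ≠ 0) :
    tm1_456 n x₁ y₁ (quo1_456 t n x₁ y₁ x₂ y₂) (quo2_456 t n x₁ y₁ x₂ y₂) = x₂ := by
  unfold quo1_456 quo2_456 tm1_456 tm2_456
  have hN : nf456 t n x₁ y₁ = x₁ ^ 2 + t * x₁ * y₁ + n * y₁ ^ 2 := rfl
  generalize nf456 t n x₁ y₁ = N at h hN
  field_simp
  linear_combination (-x₂) * hN

theorem tm2_quo456 (t n x₁ y₁ x₂ y₂ : K) (h : nf456 t n x₁ y₁ ≠ 0) :
    tm2_456 t x₁ y₁ (quo1_456 t n x₁ y₁ x₂ y₂) (quo2_456 t n x₁ y₁ x₂ y₂) = y₂ := by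
  unfold quo1_456 quo2_456 tm1_456 tm2_456
  have hN : nf456 t n x₁ y₁ = x₁ ^ 2 + t * x₁ * y₁ + n * y₁ ^ 2 := rfl
  generalize nf456 t n x₁ y₁ = N at h hN
  field_simp
  linear_combination (-y₂) * hN

theorem nf_quo456 (t n x₁ y₁ x₂ y₂ : K) (h : nf456 t n x₁ y₁ ≠ 0) (h' : nf456 t n x₂ y₂ ≠ 0) :
    nf456 t n (quo1_456 t n x₁ y₁ x₂ y₂) (quo2_456 t n x₁ y₁ x₂ y₂) ≠ 0 := by
  intro h0
  have h1 := nf456_mul t n x₁ y₁ (quo1_456 t n x₁ y₁ x₂ y₂) (quo2_456 t n x₁ y₁ x₂ y₂)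
  rw [tm1_quo456 t n x₁ y₁ x₂ y₂ h, tm2_quo456 t n x₁ y₁ x₂ y₂ h, h0, mul_zero] at h1
  exact h' h1

theorem locT_inv_mul456 (v : HeightOneSpectrum (𝓞 K)) (x₁ y₁ x₂ y₂ : K)
    (h : nf456 t n x₁ y₁ ≠ 0) (h' : nf456 t n x₂ y₂ ≠ 0) :
    (locT456 t n v x₁ y₁ h)⁻¹ * locT456 t n v x₂ y₂ h'
      = locT456 t n v (quo1_456 t n x₁ y₁ x₂ y₂) (quo2_456 t n x₁ y₁ x₂ y₂)
          (nf_quo456 t n x₁ y₁ x₂ y₂ h h') := by
  rw [inv_mul_eq_iff_eq_mul]
  have h'' : nf456 t n (tm1_456 n x₁ y₁ (quo1_456 t n x₁ y₁ x₂ y₂) (quo2_456 t n x₁ y₁ x₂ y₂))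
      (tm2_456 t x₁ y₁ (quo1_456 t n x₁ y₁ x₂ y₂) (quo2_456 t n x₁ y₁ x₂ y₂)) ≠ 0 := by
    rw [tm1_quo456 t n x₁ y₁ x₂ y₂ h, tm2_quo456 t n x₁ y₁ x₂ y₂ h]
    exact h'
  rw [locT456_mul t n v _ _ _ _ h (nf_quo456 t n x₁ y₁ x₂ y₂ h h') h'']
  apply Units.ext
  rw [locT456_val, locT456_val, tm1_quo456 t n x₁ y₁ x₂ y₂ h, tm2_quo456 t n x₁ y₁ x₂ y₂ h]

theorem elt_quo456 (hrel : ω ^ 2 - algebraMap K L t * ω + algebraMap K L n = 0)
    (x₁ y₁ x₂ y₂ : K) (h : nf456 t n x₁ y₁ ≠ 0) :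
    elt83 ω x₁ y₁ * elt83 ω (quo1_456 t n x₁ y₁ x₂ y₂) (quo2_456 t n x₁ y₁ x₂ y₂)
      = elt83 ω x₂ y₂ := by
  rw [← elt83_mul456 hrel, tm1_quo456 t n x₁ y₁ x₂ y₂ h, tm2_quo456 t n x₁ y₁ x₂ y₂ h]

end Fermat.Agent.LT.A2.H456

end

end
-- ===== PACK-END LT/A2/H456/Dict2.lean

-- ===== PACK-BEGIN LT/A2/H456/Dict3.lean
section


/-!
# Row LT, tower A2, leaf A2.02 `TorusCharC` -- top assembly, part 10 (helper456), OFF-MAIN

The dictionary `InducedAtT → InducedAt` at the good places.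
-/

set_option autoImplicit false

open IsDedekindDomain NumberField AutomorphicForm
open scoped MatrixGroups

noncomputable section

namespace Fermat.Agent.LT.A2.H456

open Fermat.Agent.LT.H130 Fermat.Agent.LT.H556 Fermat.Agent.LT.A2 Fermat.Agent.LT.A2.H83

variable {K L : Type} [Field K] [NumberField K] [Field L] [NumberField L] [Algebra K L]
variable {t n : K} {ω : L} {ι : FiniteAdeleRing (𝓞 K) K →+* FiniteAdeleRing (𝓞 L) L}
  {χ : (A0.Adl L)ˣ →* ℂˣ}

theorem exp_neg_one_lt_one456 : (WithZero.exp (-1 : ℤ) : WithZero (Multiplicative ℤ)) < 1 := by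
  rw [← WithZero.exp_zero, WithZero.exp_lt_exp]
  norm_num

theorem exp_neg_one_ne_zero456 : (WithZero.exp (-1 : ℤ) : WithZero (Multiplicative ℤ)) ≠ 0 :=
  WithZero.exp_ne_zero

theorem finComp_torus456 (v : HeightOneSpectrum (𝓞 K)) {m : A0.G K} {A B : A0.Adl K}
    (hAB : (m : Matrix (Fin 2) (Fin 2) (A0.Adl K))
      = torMat (algebraMap K (A0.Adl K) t) (algebraMap K (A0.Adl K) n) A B) :
    A0.finComp v m = torMat (algebraMap K (v.adicCompletion K) t)
      (algebraMap K (v.adicCompletion K) n) (A.2 v) (B.2 v) := by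
  refine Matrix.ext fun i j => ?_
  rw [finComp_apply456, hAB]
  fin_cases i <;> fin_cases j
  · show (torMat _ _ A B 0 0).2 v = torMat _ _ (A.2 v) (B.2 v) 0 0
    rw [torMat_apply00_456, torMat_apply00_456]
  · show (torMat _ _ A B 0 1).2 v = torMat _ _ (A.2 v) (B.2 v) 0 1
    rw [torMat_apply01_456, torMat_apply01_456, adl_snd_neg456, adl_snd_mul456, fin_neg_apply456,
      fin_mul_apply456, algebraMap_adl_snd456, fin_algebraMap_apply456]
  · show (torMat _ _ A B 1 0).2 v = torMat _ _ (A.2 v) (B.2 v) 1 0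
    rw [torMat_apply10_456, torMat_apply10_456]
  · show (torMat _ _ A B 1 1).2 v = torMat _ _ (A.2 v) (B.2 v) 1 1
    rw [torMat_apply11_456, torMat_apply11_456, adl_snd_add456, adl_snd_mul456, fin_add_apply456,
      fin_mul_apply456, algebraMap_adl_snd456, fin_algebraMap_apply456]

theorem nf_ne_zero_of_val456 {v : HeightOneSpectrum (𝓞 K)} {x y : K}
    (h : val83 v (x ^ 2 + t * x * y + n * y ^ 2) = WithZero.exp (-1 : ℤ)) :
    nf456 t n x y ≠ 0 := by
  intro h0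
  unfold nf456 at h0
  rw [h0, val83_zero456] at h
  exact exp_neg_one_ne_zero456 h.symm

/-- The split clause of the dictionary. -/
theorem induced_split456 (hfr : Module.finrank K L = 2) (hg : IsGen83 K L t n ω)
    (hι : IsBC456 ι) (hN : NormOneEltC83) (hS : SplitEltC83) (hUp : IntUpC83)
    (v : HeightOneSpectrum (𝓞 K)) (hD : val83 v (t ^ 2 - 4 * n) = 1)
    (hur : ∀ w : HeightOneSpectrum (𝓞 L), LiesOverPl K w v → UnramAt χ w) (a b : ℂ)
    (h : InducedAtT t n (chiT456 ω ι χ) v a b)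
    (w₁ w₂ : HeightOneSpectrum (𝓞 L)) (hne : w₁ ≠ w₂) (ho1 : LiesOverPl K w₁ v)
    (ho2 : LiesOverPl K w₂ v) (z₁ z₂ : (A0.Adl L)ˣ) (hz1 : IsUnifIdeleAt w₁ z₁)
    (hz2 : IsUnifIdeleAt w₂ z₂) :
    a = (χ z₁ : ℂ) + (χ z₂ : ℂ) ∧ b = (χ z₁ : ℂ) * (χ z₂ : ℂ) := by
  obtain ⟨honly, -⟩ := hN K L t n ω hfr hg v w₁ w₂ hne ho1 ho2
  obtain ⟨a₁, b₁, ha₁, hb₁, hNv₁, hv11, hv12⟩ := hS K L t n ω hfr hg v w₁ w₂ hne ho1 ho2 hD
  obtain ⟨a₂, b₂, ha₂, hb₂, hNv₂, hv22, hv21⟩ :=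
    hS K L t n ω hfr hg v w₂ w₁ hne.symm ho2 ho1 hD
  have hnf1 : nf456 t n a₁ b₁ ≠ 0 := nf_ne_zero_of_val456 hNv₁
  have hnf2 : nf456 t n a₂ b₂ ≠ 0 := nf_ne_zero_of_val456 hNv₂
  have ht := intAt_of_isIntegral456 v hg.int_t
  have hn := intAt_of_isIntegral456 v hg.int_n
  have hnotint : ¬ A0.IsIntegralAt v
      ((locT456 t n v a₁ b₁ hnf1)⁻¹ * locT456 t n v a₂ b₂ hnf2) := by
    intro hint
    rw [locT_inv_mul456] at hint
    obtain ⟨hc, hd⟩ := intAt_of_locT456_isIntegralAt t n v _ hint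
    have hc' := hUp K L v w₁ ho1 _ hc
    have hd' := hUp K L v w₁ ho1 _ hd
    have hω := intAt_of_isIntegral456 w₁ hg.int_ω
    have hle : val83 w₁ (elt83 ω (quo1_456 t n a₁ b₁ a₂ b₂) (quo2_456 t n a₁ b₁ a₂ b₂)) ≤ 1 :=
      intAt_add456 w₁ hc' (intAt_mul456 w₁ hd' hω)
    have hmul := congrArg (val83 w₁) (elt_quo456 hg.rel a₁ b₁ a₂ b₂ hnf1)
    rw [val83_mul456, hv11, hv21] at hmul
    have h1 : WithZero.exp (-1 : ℤ) * val83 w₁ (elt83 ω (quo1_456 t n a₁ b₁ a₂ b₂) (quo2_456 t n a₁ b₁ a₂ b₂)) ≤ WithZero.exp (-1 : ℤ) * 1 := mul_le_mul_right hle (WithZero.exp (-1 : ℤ))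
    rw [hmul, mul_one] at h1
    exact absurd h1 (not_le.mpr exp_neg_one_lt_one456)
  have key := h.1 (locT456 t n v a₁ b₁ hnf1) (locT456 t n v a₂ b₂ hnf2)
    (locT456_inTorus t n v a₁ b₁ hnf1) (locT456_inTorus t n v a₂ b₂ hnf2)
    (locT456_isLocalAtFin t n v a₁ b₁ hnf1) (locT456_isLocalAtFin t n v a₂ b₂ hnf2)
    (locT456_isIntegralAt t n v hnf1 ht hn ha₁ hb₁)
    (locT456_isIntegralAt t n v hnf2 ht hn ha₂ hb₂)
    (by rw [locT456_val_det]; exact hNv₁) (by rw [locT456_val_det]; exact hNv₂) hnotint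
  have hone1 : Valued.v (((1 : (A0.Adl L)ˣ) : A0.Adl L).2 w₁) = 1 := by
    rw [Units.val_one, adl_snd_one456, fin_one_apply456, map_one]
  have hone2 : Valued.v (((1 : (A0.Adl L)ˣ) : A0.Adl L).2 w₂) = 1 := by
    rw [Units.val_one, adl_snd_one456, fin_one_apply456, map_one]
  have e1 := chiT_locT_two456 (χ := χ) hg.rel hι hne ho1 ho2 honly (hur w₁ ho1) (hur w₂ ho2)
    a₁ b₁ hnf1 hz1.1 (isIdeleAt_one456 w₂) (hv11.trans hz1.2.symm) (hv12.trans hone2.symm)
  have e2 := chiT_locT_two456 (χ := χ) hg.rel hι hne ho1 ho2 honly (hur w₁ ho1) (hur w₂ ho2)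
    a₂ b₂ hnf2 (isIdeleAt_one456 w₁) hz2.1 (hv21.trans hone1.symm) (hv22.trans hz2.2.symm)
  rw [map_one, mul_one] at e1
  rw [map_one, one_mul] at e2
  rw [e1, e2] at key
  exact key

/-- The inert clause of the dictionary. -/
theorem induced_inert456 (hfr : Module.finrank K L = 2) (hg : IsGen83 K L t n ω)
    (hι : IsBC456 ι) (hI : InertC83)
    (v : HeightOneSpectrum (𝓞 K)) (hD : val83 v (t ^ 2 - 4 * n) = 1)
    (hur : ∀ w : HeightOneSpectrum (𝓞 L), LiesOverPl K w v → UnramAt χ w) (a b : ℂ)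
    (h : InducedAtT t n (chiT456 ω ι χ) v a b)
    (w : HeightOneSpectrum (𝓞 L)) (ho : LiesOverPl K w v)
    (honly : ∀ w' : HeightOneSpectrum (𝓞 L), LiesOverPl K w' v → w' = w)
    (z : (A0.Adl L)ˣ) (hz : IsUnifIdeleAt w z) :
    a = 0 ∧ b = -(χ z : ℂ) := by
  obtain ⟨hno, ϖ, hϖv, hϖw⟩ := hI K L t n ω hfr hg v w ho honly hD
  have hϖ0 : ϖ ≠ 0 := by
    intro h0
    rw [h0, val83_zero456] at hϖv
    exact exp_neg_one_ne_zero456 hϖv.symm
  have hnfe : nf456 t n ϖ 0 = ϖ ^ 2 := by unfold nf456; ring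
  have hnf : nf456 t n ϖ 0 ≠ 0 := by rw [hnfe]; exact pow_ne_zero 2 hϖ0
  have hyp : ∀ m : A0.G K, InTorus t n m → A0.IsLocalAtFin v m → A0.IsIntegralAt v m →
      Valued.v (A0.finComp v m).det ≠ WithZero.exp (-1 : ℤ) := by
    intro m hm _ hint
    obtain ⟨A, B, hAB⟩ := hm
    have h0 := hint 0 0
    have h1 := hint 1 0
    rw [finComp_torus456 v hAB, torMat_apply00_456] at h0
    rw [finComp_torus456 v hAB, torMat_apply10_456] at h1
    rw [finComp_torus456 v hAB, torMat_det456]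
    exact hno _ _ h0 h1
  have hscal : A0.IsScalarUniformizerAt v (locT456 t n v ϖ 0 hnf) := by
    refine ⟨locT456_isLocalAtFin t n v ϖ 0 hnf, algebraMap K (v.adicCompletion K) ϖ, hϖv, ?_⟩
    rw [finComp_locT_same456]
    refine Matrix.ext fun i j => ?_
    fin_cases i <;> fin_cases j
    · show torMat _ _ _ _ 0 0 = Matrix.diagonal _ 0 0
      rw [torMat_apply00_456, Matrix.diagonal_apply_eq]
    · show torMat _ _ _ _ 0 1 = Matrix.diagonal _ 0 1
      rw [torMat_apply01_456, Matrix.diagonal_apply_ne _ (by decide : (0 : Fin 2) ≠ 1),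
        map_zero, mul_zero, neg_zero]
    · show torMat _ _ _ _ 1 0 = Matrix.diagonal _ 1 0
      rw [torMat_apply10_456, Matrix.diagonal_apply_ne _ (by decide : (1 : Fin 2) ≠ 0),
        map_zero]
    · show torMat _ _ _ _ 1 1 = Matrix.diagonal _ 1 1
      rw [torMat_apply11_456, Matrix.diagonal_apply_eq, map_zero, mul_zero, add_zero]
  have key := h.2 hyp (locT456 t n v ϖ 0 hnf) hscal
  have helt : elt83 ω ϖ 0 = algebraMap K L ϖ := by
    unfold elt83
    rw [map_zero, zero_mul, add_zero]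
  have e := chiT_locT_one456 (χ := χ) hg.rel hι ho honly (hur w ho) ϖ 0 hnf hz.1
    (by rw [helt]; exact hϖw.trans hz.2.symm)
  rw [e] at key
  exact key

theorem inducedAt_of456 (hfr : Module.finrank K L = 2) (hg : IsGen83 K L t n ω)
    (hι : IsBC456 ι) (hN : NormOneEltC83) (hS : SplitEltC83) (hI : InertC83) (hUp : IntUpC83)
    (v : HeightOneSpectrum (𝓞 K)) (hD : val83 v (t ^ 2 - 4 * n) = 1)
    (hur : ∀ w : HeightOneSpectrum (𝓞 L), LiesOverPl K w v → UnramAt χ w) (a b : ℂ)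
    (h : InducedAtT t n (chiT456 ω ι χ) v a b) : InducedAt χ v a b :=
  ⟨fun w₁ w₂ hne ho1 ho2 z₁ z₂ hz1 hz2 =>
      induced_split456 hfr hg hι hN hS hUp v hD hur a b h w₁ w₂ hne ho1 ho2 z₁ z₂ hz1 hz2,
    fun w ho honly z hz => induced_inert456 hfr hg hι hI v hD hur a b h w ho honly z hz⟩

end Fermat.Agent.LT.A2.H456

end

end
-- ===== PACK-END LT/A2/H456/Dict3.lean

-- ===== PACK-BEGIN LT/A2/H456/TorusTop.lean
section


/-!
# Row LT, tower A2, leaf A2.02 `TorusCharC` -- THE TOP (helper456), OFF-MAIN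

`torusCharC_of83 : GenC83 → BaseChangeC83 → InfTrivC83 → UnramFiniteC83 → IntUpC83 →
  NormOneEltC83 → SplitEltC83 → InertC83 → A2.TorusCharC`

(cut of helper83, `LT/A2/H83/TorusSpec.lean`; `LocalMapC83` is only needed for `BaseChangeC83`).
-/

set_option autoImplicit false

open IsDedekindDomain NumberField AutomorphicForm
open scoped MatrixGroups

noncomputable section

namespace Fermat.Agent.LT.A2.H456

open Fermat.Agent.LT.H130 Fermat.Agent.LT.H556 Fermat.Agent.LT.A2 Fermat.Agent.LT.A2.H83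

theorem isComplex_of_base456 {K L : Type} [Field K] [NumberField K] [Field L] [NumberField L]
    [Algebra K L] (hcplx : ∀ u : InfinitePlace K, u.IsComplex) (u : InfinitePlace L) :
    u.IsComplex := by
  rw [← InfinitePlace.not_isReal_iff_isComplex]
  intro hr
  have h1 : (u.comap (algebraMap K L)).IsReal := hr.comap _
  exact (InfinitePlace.not_isReal_iff_isComplex.mpr (hcplx _)) h1

theorem disc_ne_zero456 {K : Type} [Field K] [NumberField K] {t n : K}
    (hirr : ∀ x : K, x ^ 2 - t * x + n ≠ 0) : t ^ 2 - 4 * n ≠ 0 := by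
  intro h0
  apply hirr (t / 2)
  field_simp
  linear_combination -h0

theorem disc_isIntegral456 {K : Type} [Field K] [NumberField K] {t n : K}
    (ht : IsIntegral ℤ t) (hn : IsIntegral ℤ n) : IsIntegral ℤ (t ^ 2 - 4 * n) := by
  have h4 : IsIntegral ℤ (4 : K) := by
    have : (4 : K) = algebraMap ℤ K 4 := by simp
    rw [this]
    exact isIntegral_algebraMap
  exact (ht.pow 2).sub (h4.mul hn)

theorem torusCharC_of83 (h1 : GenC83) (h3 : BaseChangeC83) (h4 : InfTrivC83)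
    (h5 : UnramFiniteC83) (h6 : IntUpC83) (h7 : NormOneEltC83) (h8 : SplitEltC83)
    (h9 : InertC83) : TorusCharC := by
  intro K L _ _ _ _ _ hfr hcplx χ hχ hfin hng
  obtain ⟨t, n, ω, hg⟩ := h1 K L hfr
  obtain ⟨ι, hc, hι'⟩ := h3 K L
  have hι : IsBC456 ι := hι'
  obtain ⟨S, hS⟩ := h5 L χ hχ.cont hfin
  have hcL : ∀ u : InfinitePlace L, u.IsComplex := isComplex_of_base456 hcplx
  -- the discriminant
  have hDint : IsIntegral ℤ (t ^ 2 - 4 * n) := disc_isIntegral456 hg.int_t hg.int_n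
  set D' : 𝓞 K := ⟨t ^ 2 - 4 * n, hDint⟩ with hD'
  have hD'0 : D' ≠ 0 := by
    intro h0
    apply disc_ne_zero456 hg.irred
    have := congrArg (algebraMap (𝓞 K) K) h0
    rw [map_zero] at this
    exact this
  set 𝔡 : Ideal (𝓞 K) := Ideal.span {D'} * ∏ w ∈ S, (below456 K w).asIdeal with h𝔡
  have h𝔡0 : 𝔡 ≠ ⊥ := by
    rw [h𝔡, ← Ideal.zero_eq_bot]
    apply mul_ne_zero
    · rw [Ideal.zero_eq_bot, Ne, Ideal.span_singleton_eq_bot]
      exact hD'0
    · rw [Finset.prod_ne_zero_iff]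
      intro w _
      rw [Ideal.zero_eq_bot]
      exact (below456 K w).ne_bot
  obtain ⟨k, hk0, hk⟩ := hfin
  refine ⟨t, n, chiT456 ω ι χ, 𝔡, h𝔡0,
    ⟨hg.irred, fun m m' h h' => chiT456_mul hg.rel hι h h', chiT456_one,
      continuousOn_chiT456 hg.rel hι hc hχ.cont,
      fun m hm => chiT456_rat hg.rel hg.irred hι (h4 L hcL χ ⟨k, hk0, hk⟩) hχ m hm,
      ⟨k, hk0, fun m hm => chiT456_pow hg.rel hι hk m hm⟩,
      chiT456_nontriv hfr hg hι h7 hng⟩, ?_⟩
  intro π hT hlev v hv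
  have hnot : ¬ 𝔡 ≤ v.asIdeal := fun hle => hv (Ideal.dvd_iff_le.mpr (hlev.trans hle))
  refine inducedAt_of456 hfr hg hι h7 h8 h9 h6 v ?_ ?_ _ _ (hT v hv)
  · have hmem : D' ∉ v.asIdeal := by
      intro hmem
      apply hnot
      rw [h𝔡]
      exact Ideal.mul_le_left.trans ((Ideal.span_singleton_le_iff_mem _).mpr hmem)
    rw [val83_eq456]
    have : (t ^ 2 - 4 * n : K) = algebraMap (𝓞 K) K D' := rfl
    rw [this, HeightOneSpectrum.valuation_of_algebraMap,
      HeightOneSpectrum.intValuation_eq_one_iff]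
    exact hmem
  · intro w ho
    apply hS
    intro hwS
    apply hnot
    rw [h𝔡]
    have h1 : (∏ w ∈ S, (below456 K w).asIdeal) ≤ (below456 K w).asIdeal :=
      Ideal.prod_le_inf.trans (Finset.inf_le hwS)
    have h2 : (below456 K w).asIdeal = v.asIdeal := ho
    rw [← h2]
    exact Ideal.mul_le_right.trans h1

end Fermat.Agent.LT.A2.H456

end

end
-- ===== PACK-END LT/A2/H456/TorusTop.lean

-- ===== PACK-BEGIN LT/A2/H456/TorusClosed.lean
section









/-!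
# Row LT, tower A2, leaf A2.02 `TorusCharC` -- CLOSED (helper456, owner; registry row 796), OFF-MAIN

`torusCharC_closed456 : A2.TorusCharC`, UNCONDITIONAL, in ONE import closure:

* top `torusCharC_of83` (helper456, `LT/A2/H456/`), cut of helper83 (`LT/A2/H83/TorusSpec.lean`);
* `GenC83`, `InfTrivC83`, `UnramFiniteC83`, `NormOneEltC83`, `SplitEltC83`: helper83;
* `InertC83`: helper772 (`LT/A2/H772/`);
* `BaseChangeC83`, `IntUpC83` (and `LocalMapC83`): helper456 on the adelic base change of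
  helper743 (`LT/A2/H743/BaseChange.lean`).
-/

set_option autoImplicit false

namespace Fermat.Agent.LT.A2.H456

/-- **A2.02 `TorusCharC`**, unconditional. -/
theorem torusCharC_closed456 : Fermat.Agent.LT.A2.TorusCharC :=
  torusCharC_of83 Fermat.Agent.LT.A2.H83.genC_h83 baseChangeC456
    Fermat.Agent.LT.A2.H83.infTrivC_h83 Fermat.Agent.LT.A2.H83.unramFiniteC_h83 intUpC456
    Fermat.Agent.LT.A2.H83.normOneEltC_h83 Fermat.Agent.LT.A2.H83.splitEltC_h83
    Fermat.Agent.LT.A2.H772.inertC772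

end Fermat.Agent.LT.A2.H456

end
-- ===== PACK-END LT/A2/H456/TorusClosed.lean

-- ===== PACK-BEGIN LT/A2/H79/GaussNorm.lean
section



/-!
# Row LT, tower A2, station A2.03.1.1.06: the Gauss constants and the SIMILITUDES (helper79)

OFF-MAIN.  On `GaussRel.lean`.  Abstract: `k` an ultrametric normed field with a Fourier
certificate and one Schwartz--Bruhat function which is not zero.

A matrix `m` is a similitude of `Q` with multiplier `ν` (`IsSim79`) when `Q(m ξ) = ν Q(ξ)` and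
`det m = ν`.  With `m' = ν⁻¹ m` and `C_m Φ = Φ ∘ m`:
`F C_m = ‖ν‖⁻¹ C_{m'} F`, `F C_{m'} = ‖ν‖ C_m F`, `C_m M_a = M_{a ν} C_m`, hence
`A_{a ν} C_{m'} = C_{m'} A_a` and `U_{a ν} C_{m'} = ‖ν‖ C_{m'} U_a`, so that

* `gaussSim79`:  `‖ν‖ G(a ν) = G(a)`;
* `gaussNorm79`:  `‖Q(x, y)‖ G(a Q(x, y)) = G(a)`                       (`LF54.GaussNormP`).
-/

set_option autoImplicit false
set_option linter.unusedSectionVars false

open IsDedekindDomain NumberField MeasureTheory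
open scoped Topology

noncomputable section

namespace Fermat.Agent.LT.A2.H79

open Fermat.Agent.LT.A2 Fermat.Agent.LT.A2.WX467 Fermat.Agent.LT.A2.LF54 Fermat.Agent.LT.A2.H83

/-! ## 1. Linear substitutions -/

section Lin

variable {k : Type} [NormedField k]

/-- Composition with the linear map of the matrix `m`. -/
def Co79 (m : Matrix (Fin 2) (Fin 2) k) (Φ : k × k → ℂ) : k × k → ℂ := fun ξ => Φ (actL m ξ)

theorem Co_apply79 (m : Matrix (Fin 2) (Fin 2) k) (Φ : k × k → ℂ) (ξ : k × k) :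
    Co79 m Φ ξ = Φ (actL m ξ) := rfl

theorem actL_add79 (m : Matrix (Fin 2) (Fin 2) k) (ξ y : k × k) :
    actL m (ξ + y) = actL m ξ + actL m y := by
  unfold actL
  ext <;> simp only [Prod.fst_add, Prod.snd_add] <;> ring

theorem actL_smul79 (m : Matrix (Fin 2) (Fin 2) k) (e : k) (ξ : k × k) :
    actL m (e • ξ) = e • actL m ξ := by
  unfold actL
  ext <;> simp only [Prod.smul_fst, Prod.smul_snd, smul_eq_mul] <;> ring

theorem actL_smul_left79 (m : Matrix (Fin 2) (Fin 2) k) (e : k) (ξ : k × k) :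
    actL (e • m) ξ = e • actL m ξ := by
  unfold actL
  ext <;> simp only [Prod.smul_fst, Prod.smul_snd, smul_eq_mul, Matrix.smul_apply] <;> ring

theorem actL_mul79 (a b : Matrix (Fin 2) (Fin 2) k) (ξ : k × k) :
    actL (a * b) ξ = actL a (actL b ξ) := by
  unfold actL
  ext <;> simp only [Matrix.mul_apply, Fin.sum_univ_two] <;> ring

theorem actL_one79 (ξ : k × k) : actL (1 : Matrix (Fin 2) (Fin 2) k) ξ = ξ := by
  unfold actL
  ext <;> simp

theorem continuous_actL79 (m : Matrix (Fin 2) (Fin 2) k) : Continuous (actL m) := by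
  unfold actL
  fun_prop

/-- The homeomorphism of an invertible matrix. -/
def actH79 (m : Matrix (Fin 2) (Fin 2) k) (hdet : m.det ≠ 0) : (k × k) ≃ₜ (k × k) where
  toFun := actL m
  invFun := actL m⁻¹
  left_inv ξ := by
    rw [← actL_mul79, Matrix.nonsing_inv_mul _ (isUnit_iff_ne_zero.mpr hdet), actL_one79]
  right_inv ξ := by
    rw [← actL_mul79, Matrix.mul_nonsing_inv _ (isUnit_iff_ne_zero.mpr hdet), actL_one79]
  continuous_toFun := continuous_actL79 m
  continuous_invFun := continuous_actL79 _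

theorem isSB_Co79 {m : Matrix (Fin 2) (Fin 2) k} (hdet : m.det ≠ 0) {Φ : k × k → ℂ}
    (hΦ : IsSB Φ) : IsSB (Co79 m Φ) :=
  ⟨hΦ.1.comp_continuous (continuous_actL79 m), hΦ.2.comp_homeomorph (actH79 m hdet)⟩

theorem Co_So79 (m : Matrix (Fin 2) (Fin 2) k) (s : ℂ) (Φ : k × k → ℂ) :
    Co79 m (So79 s Φ) = So79 s (Co79 m Φ) := rfl

theorem Do_Co79 (m : Matrix (Fin 2) (Fin 2) k) (e : k) (Φ : k × k → ℂ) :
    Do79 e (Co79 m Φ) = Co79 m (Do79 e Φ) := by
  funext ξ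
  simp only [Do_apply79, Co_apply79]
  rw [actL_smul79]

theorem Co_smul79 (m : Matrix (Fin 2) (Fin 2) k) (e : k) (Φ : k × k → ℂ) :
    Co79 (e • m) Φ = Co79 m (Do79 e Φ) := by
  funext ξ
  simp only [Do_apply79, Co_apply79]
  rw [actL_smul_left79]

/-- `m` is a similitude of `Q` with multiplier `ν`. -/
structure IsSim79 (t n : k) (m : Matrix (Fin 2) (Fin 2) k) (ν : k) : Prop where
  q : ∀ ξ : k × k, qfL t n (actL m ξ) = ν * qfL t n ξ
  det : m.det = ν

theorem IsSim79.bf {t n : k} {m : Matrix (Fin 2) (Fin 2) k} {ν : k} (h : IsSim79 t n m ν)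
    (ξ y : k × k) : bfL t n (actL m ξ) (actL m y) = ν * bfL t n ξ y := by
  unfold bfL
  rw [← actL_add79, h.q, h.q, h.q]
  ring

theorem IsSim79.smul_inv {t n : k} {m : Matrix (Fin 2) (Fin 2) k} {ν : k}
    (h : IsSim79 t n m ν) (hν : ν ≠ 0) : IsSim79 t n (ν⁻¹ • m) ν⁻¹ where
  q ξ := by
    rw [actL_smul_left79, qfL_smul83, h.q]
    field_simp
  det := by
    rw [Matrix.det_smul, h.det, Fintype.card_fin]
    field_simp

theorem Co_Mo79 {t n : k} {m : Matrix (Fin 2) (Fin 2) k} {ν : k} (h : IsSim79 t n m ν)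
    (ψ : k → ℂ) (a : k) (Φ : k × k → ℂ) :
    Co79 m (Mo79 t n ψ a Φ) = Mo79 t n ψ (a * ν) (Co79 m Φ) := by
  funext ξ
  simp only [Co_apply79, Mo_apply79]
  rw [h.q, mul_assoc]

/-- The matrix of the multiplication by `x + y ω` is a similitude with multiplier `Q(x, y)`. -/
theorem isSim_torMat79 (t n x y : k) : IsSim79 t n (torMat t n x y) (qfL t n (x, y)) where
  q ξ := by
    unfold actL qfL torMat
    simp only [Matrix.of_apply, Matrix.cons_val', Matrix.cons_val_zero, Matrix.cons_val_one,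
      Matrix.cons_val_fin_one]
    ring
  det := by
    unfold torMat qfL
    rw [Matrix.det_fin_two_of]
    ring

end Lin

/-! ## 2. The Fourier transform and the similitudes -/

section Sim

variable {k : Type} [NormedField k] [IsUltrametricDist k]
variable {t n : k} {ψ : k → ℂ} {μ : @Measure k (borel k)} {c : ℝ} {G : k → ℂ}

/-- `F C_m = ‖det m‖⁻¹ C_{m'} F` when `B(m' ξ, m y) = B(ξ, y)`. -/
theorem ft_Co79 (hψ : IsCharL ψ) (hcov : CovP μ) {m m' : Matrix (Fin 2) (Fin 2) k}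
    (hdet : m.det ≠ 0) (hB : ∀ ξ y : k × k, bfL t n (actL m' ξ) (actL m y) = bfL t n ξ y)
    {Φ : k × k → ℂ} (hΦ : IsSB Φ) :
    ftL t n ψ μ (Co79 m Φ) = So79 ((‖m.det‖⁻¹ : ℝ) : ℂ) (Co79 m' (ftL t n ψ μ Φ)) := by
  funext ξ
  have hf : IsSB (fun y => Φ y * ψ (bfL t n (actL m' ξ) y)) :=
    isSB_mul_right83 hΦ (locConst_psi_comp83 hψ (continuous_bfL_right83 t n _))
  have h := hcov m hdet _ hf
  change intL μ (fun y => Φ (actL m y) * ψ (bfL t n ξ y))
    = _ * intL μ (fun y => Φ y * ψ (bfL t n (actL m' ξ) y))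
  rw [← h]
  apply intL_congr83
  intro y
  rw [hB]

/-- `A_{a ν} C_{m'} = C_{m'} A_a`, `m' = ν⁻¹ m`. -/
theorem Ao_Co79 (hψ : IsCharL ψ) (hF : FourierCert t n ψ μ c G)
    {m : Matrix (Fin 2) (Fin 2) k} {ν : k} (hm : IsSim79 t n m ν) (hν : ν ≠ 0) (a : k)
    {Φ : k × k → ℂ} (hΦ : IsSB Φ) :
    Ao79 t n ψ μ (a * ν) (Co79 (ν⁻¹ • m) Φ) = Co79 (ν⁻¹ • m) (Ao79 t n ψ μ a Φ) := by
  have hm' := hm.smul_inv hν
  have hΘ : IsSB (Mo79 t n ψ a (ftL t n ψ μ Φ)) := isSB_Mo79 t n hψ _ (hF.ft_sb Φ hΦ)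
  have hB1 : ∀ ξ y : k × k, bfL t n (actL m ξ) (actL (ν⁻¹ • m) y) = bfL t n ξ y := by
    intro ξ y
    rw [actL_smul_left79, bfL_smul_right83, hm.bf, ← mul_assoc, inv_mul_cancel₀ hν, one_mul]
  have hB2 : ∀ ξ y : k × k, bfL t n (actL (ν⁻¹ • m) ξ) (actL m y) = bfL t n ξ y := by
    intro ξ y
    rw [actL_smul_left79, bfL_smul_left83, hm.bf, ← mul_assoc, inv_mul_cancel₀ hν, one_mul]
  have hd' : (ν⁻¹ • m).det ≠ 0 := by rw [hm'.det]; exact inv_ne_zero hν
  have hd : m.det ≠ 0 := by rw [hm.det]; exact hν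
  have es : ((‖(ν⁻¹ • m).det‖⁻¹ : ℝ) : ℂ) * ((‖m.det‖⁻¹ : ℝ) : ℂ) = 1 := by
    rw [hm'.det, hm.det, norm_inv, inv_inv, ← Complex.ofReal_mul,
      mul_inv_cancel₀ (norm_ne_zero_iff.mpr hν), Complex.ofReal_one]
  unfold Ao79
  rw [ft_Co79 hψ hF.cov hd' hB1 hΦ, Mo_So79, ← Co_Mo79 hm, ft_So79,
    ft_Co79 hψ hF.cov hd hB2 hΘ, So_So79, So_congr79 es, So_one79]

/-- `U_{a ν} C_{m'} = ‖ν‖ C_{m'} U_a`, `m' = ν⁻¹ m`. -/
theorem Uo_Co79 (hψ : IsCharL ψ) (hF : FourierCert t n ψ μ c G)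
    {m : Matrix (Fin 2) (Fin 2) k} {ν : k} (hm : IsSim79 t n m ν) (hν : ν ≠ 0) {a : k}
    (ha : a ≠ 0) {Φ : k × k → ℂ} (hΦ : IsSB Φ) :
    Uo79 t n ψ μ (a * ν) (Co79 (ν⁻¹ • m) Φ)
      = So79 ((‖ν‖ : ℝ) : ℂ) (Co79 (ν⁻¹ • m) (Uo79 t n ψ μ a Φ)) := by
  have hm' := hm.smul_inv hν
  have hΞ : IsSB (Mo79 t n ψ (-a⁻¹) Φ) := isSB_Mo79 t n hψ _ hΦ
  have hB1 : ∀ ξ y : k × k, bfL t n (actL m ξ) (actL (ν⁻¹ • m) y) = bfL t n ξ y := by
    intro ξ y
    rw [actL_smul_left79, bfL_smul_right83, hm.bf, ← mul_assoc, inv_mul_cancel₀ hν, one_mul]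
  have hd' : (ν⁻¹ • m).det ≠ 0 := by rw [hm'.det]; exact inv_ne_zero hν
  have e1 : -(a * ν)⁻¹ = -a⁻¹ * ν⁻¹ := by
    field_simp
  have es : ((‖(ν⁻¹ • m).det‖⁻¹ : ℝ) : ℂ) = ((‖ν‖ : ℝ) : ℂ) := by
    rw [hm'.det, norm_inv, inv_inv]
  unfold Uo79
  rw [e1, ← Co_Mo79 hm' ψ (-a⁻¹) Φ, ft_Co79 hψ hF.cov hd' hB1 hΞ, Do_So79, Do_Co79,
    ← Do_Do79, ← Co_smul79, Mo_So79, ← Co_Mo79 hm', So_congr79 es]

/-- **`‖ν‖ G(a ν) = G(a)`** for the multiplier `ν ≠ 0` of a similitude. -/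
theorem gaussSim79 (hψ : IsCharL ψ) (hF : FourierCert t n ψ μ c G)
    (hne : ∃ Φ₀ : k × k → ℂ, IsSB Φ₀ ∧ ∃ ξ₀, Φ₀ ξ₀ ≠ 0)
    {m : Matrix (Fin 2) (Fin 2) k} {ν : k} (hm : IsSim79 t n m ν) (hν : ν ≠ 0) {a : k}
    (ha : a ≠ 0) : ((‖ν‖ : ℝ) : ℂ) * G (a * ν) = G a := by
  obtain ⟨Φ₀, hΦ₀, ξ₀, hξ₀⟩ := hne
  obtain ⟨Ψ, hΨ, hU⟩ := exists_Uo_ne_zero79 hψ hF ha hΦ₀ hξ₀
  have hm' := hm.smul_inv hν
  have hd' : (ν⁻¹ • m).det ≠ 0 := by rw [hm'.det]; exact inv_ne_zero hν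
  have h1 := Ao_Co79 hψ hF hm hν a hΨ
  rw [Ao_eq79 hψ hF (mul_ne_zero ha hν) (isSB_Co79 hd' hΨ), Uo_Co79 hψ hF hm hν ha hΨ,
    Ao_eq79 hψ hF ha hΨ, Co_So79, So_So79] at h1
  have h2 := congrFun h1 ((actH79 (ν⁻¹ • m) hd').symm ξ₀)
  rw [So_apply79, So_apply79, Co_apply79] at h2
  have h3 : actL (ν⁻¹ • m) ((actH79 (ν⁻¹ • m) hd').symm ξ₀) = ξ₀ :=
    (actH79 (ν⁻¹ • m) hd').apply_symm_apply ξ₀
  rw [h3] at h2
  have h4 := mul_right_cancel₀ hU h2
  rw [← h4]; ring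

/-- **`‖Q(x, y)‖ G(a Q(x, y)) = G(a)`** (`LF54.GaussNormP`). -/
theorem gaussNorm79 (hψ : IsCharL ψ) (hF : FourierCert t n ψ μ c G)
    (hne : ∃ Φ₀ : k × k → ℂ, IsSB Φ₀ ∧ ∃ ξ₀, Φ₀ ξ₀ ≠ 0) : GaussNormP t n G := by
  intro a ha x y hxy
  exact gaussSim79 hψ hF hne (isSim_torMat79 t n x y) hxy ha

end Sim

end Fermat.Agent.LT.A2.H79

end

end
-- ===== PACK-END LT/A2/H79/GaussNorm.lean

-- ===== PACK-BEGIN LT/A2/H79/GaussSum.lean
section




/-!
# Row LT, tower A2, leaf A2.03.1.1.06.08 `LF54.LeafGaussSum` -- helper79, registry 1585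

OFF-MAIN.  `leafGaussSum_79 : LF54.LeafGaussSum`, VERBATIM against `LT/A2/H54/LocFinSpec.lean`
(helper54@26071c838, sha256 `8ccd9c5c…`).  Spares of the same calculus:
`leafGaussNorm_79 : LF54.LeafGaussNorm` (06), `leafGaussProd_79 : LF54.LeafGaussProd` (07).

## The route (TWO variables only: no Gauss identity on `k⁴`, no Fubini, no measure theory)

Everything is operator calculus on the Schwartz--Bruhat functions of `k²` from the Fourier
certificate (`GaussOps.lean`, `GaussRel.lean`, `GaussNorm.lean`):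

* (P) `‖h‖² G(h) G(-h) = c`                              (`gaussProd79`: `A_h A_{-h} = c²`);
* (W) `c G(a + b) = G(a) G(b) G(-(a + b)/(a b))`          (`gaussAdd79`, Weil's relation:
  `A_a D_{-1} A_b = c A_{a+b}` and `U_a D_{-1} U_b = G(f) U_{a+b}`);
* (N) `‖ν‖ G(a ν) = G(a)` for the multiplier `ν` of a similitude of `Q` (`gaussSim79`).

For `s = N₁ + N₂ ≠ 0`, `N₁, N₂ ≠ 0` values of `Q`: (W) at `(a N₁, a N₂)` gives
`c G(a s) = G(a N₁) G(a N₂) G(f)`, `f = -(a s)/(a² N₁ N₂)`; (N) gives `‖Nᵢ‖ G(a Nᵢ) = G(a)` and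
`‖a² N₁ N₂‖ G(-a s) = G(f)` (`a² N₁ N₂` is the multiplier of `a · m₁ m₂`); (P) at `a s` gives
`‖a s‖² G(a s) G(-a s) = c`.  Hence `c (‖s‖ G(a s))² = c G(a)²`.  If `N₁ = 0` or `N₂ = 0`, `s` is
a value of `Q` and (N) is enough.

The only input on `K_v`: there is a Schwartz--Bruhat function which is not zero (the indicator
function of `𝒪_v²`; `𝒪_v` is compact and open, `LT/H11/LC.lean` of helper11, byte-identical copy).
-/

set_option autoImplicit false
set_option linter.unusedSectionVars false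

open IsDedekindDomain NumberField MeasureTheory
open scoped Topology

noncomputable section

namespace Fermat.Agent.LT.A2.H79

open Fermat.Agent.LT.A2 Fermat.Agent.LT.A2.WX467 Fermat.Agent.LT.A2.LF54 Fermat.Agent.LT.A2.H83

/-! ## 1. Products of similitudes -/

section SimProd

variable {k : Type} [NormedField k]

theorem IsSim79.mul {t n : k} {m₁ m₂ : Matrix (Fin 2) (Fin 2) k} {ν₁ ν₂ : k}
    (h₁ : IsSim79 t n m₁ ν₁) (h₂ : IsSim79 t n m₂ ν₂) : IsSim79 t n (m₁ * m₂) (ν₁ * ν₂) where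
  q ξ := by rw [actL_mul79, h₁.q, h₂.q, mul_assoc]
  det := by rw [Matrix.det_mul, h₁.det, h₂.det]

theorem isSim_scalar79 (t n a : k) :
    IsSim79 t n (a • (1 : Matrix (Fin 2) (Fin 2) k)) (a ^ 2) where
  q ξ := by rw [actL_smul_left79, actL_one79, qfL_smul83]
  det := by rw [Matrix.det_smul, Matrix.det_one, Fintype.card_fin, mul_one]

end SimProd

/-! ## 2. The abstract statement -/

section Abstract

variable {k : Type} [NormedField k] [IsUltrametricDist k]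
variable {t n : k} {ψ : k → ℂ} {μ : @Measure k (borel k)} {c : ℝ} {G : k → ℂ}

/-- **`(‖s‖ G(a s))² = G(a)²`** for a nonzero sum `s` of two values of `Q`. -/
theorem gaussSum79 (hψ : IsCharL ψ) (hF : FourierCert t n ψ μ c G)
    (hne : ∃ Φ₀ : k × k → ℂ, IsSB Φ₀ ∧ ∃ ξ₀, Φ₀ ξ₀ ≠ 0) : GaussSumP t n G := by
  intro a ha x₁ y₁ x₂ y₂ hs
  have hc : (c : ℂ) ≠ 0 := Complex.ofReal_ne_zero.mpr hF.c_pos.ne'
  by_cases h1 : qfL t n (x₁, y₁) = 0
  · rw [h1, zero_add] at hs ⊢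
    rw [gaussNorm79 hψ hF hne a ha x₂ y₂ hs]
  by_cases h2 : qfL t n (x₂, y₂) = 0
  · rw [h2, add_zero] at hs ⊢
    rw [gaussNorm79 hψ hF hne a ha x₁ y₁ hs]
  set N₁ := qfL t n (x₁, y₁) with hN₁
  set N₂ := qfL t n (x₂, y₂) with hN₂
  have ha1 : a * N₁ ≠ 0 := mul_ne_zero ha h1
  have ha2 : a * N₂ ≠ 0 := mul_ne_zero ha h2
  have has : a * N₁ + a * N₂ ≠ 0 := by
    rw [← mul_add]; exact mul_ne_zero ha hs
  have H1 : ((‖N₁‖ : ℝ) : ℂ) * G (a * N₁) = G a := gaussNorm79 hψ hF hne a ha x₁ y₁ h1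
  have H2 : ((‖N₂‖ : ℝ) : ℂ) * G (a * N₂) = G a := gaussNorm79 hψ hF hne a ha x₂ y₂ h2
  have H3 := gaussAdd79 hψ hF hne ha1 ha2 has
  have hsim : IsSim79 t n ((a • (1 : Matrix (Fin 2) (Fin 2) k))
      * (torMat t n x₁ y₁ * torMat t n x₂ y₂)) (a ^ 2 * (N₁ * N₂)) :=
    (isSim_scalar79 t n a).mul ((isSim_torMat79 t n x₁ y₁).mul (isSim_torMat79 t n x₂ y₂))
  have hν : a ^ 2 * (N₁ * N₂) ≠ 0 := mul_ne_zero (pow_ne_zero 2 ha) (mul_ne_zero h1 h2)
  have hf : -(a * N₁ + a * N₂) / (a * N₁ * (a * N₂)) ≠ 0 :=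
    div_ne_zero (neg_ne_zero.mpr has) (mul_ne_zero ha1 ha2)
  have H4 := gaussSim79 hψ hF hne hsim hν hf
  have e4 : -(a * N₁ + a * N₂) / (a * N₁ * (a * N₂)) * (a ^ 2 * (N₁ * N₂))
      = -(a * (N₁ + N₂)) := by
    field_simp
  rw [e4] at H4
  have H5 := gaussProd79 hψ hF hne (mul_ne_zero ha hs)
  rw [← mul_add] at H3 H4
  have n4 : ((‖a ^ 2 * (N₁ * N₂)‖ : ℝ) : ℂ)
      = ((‖a‖ : ℝ) : ℂ) ^ 2 * (((‖N₁‖ : ℝ) : ℂ) * ((‖N₂‖ : ℝ) : ℂ)) := by
    rw [norm_mul, norm_pow, norm_mul]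
    push_cast
    ring
  have n5 : ((‖a * (N₁ + N₂)‖ ^ 2 : ℝ) : ℂ)
      = (((‖a‖ : ℝ) : ℂ) * ((‖N₁ + N₂‖ : ℝ) : ℂ)) ^ 2 := by
    rw [norm_mul]
    push_cast
    ring
  rw [n4] at H4
  rw [n5] at H5
  have e : (c : ℂ) * (((‖N₁ + N₂‖ : ℝ) : ℂ) * G (a * (N₁ + N₂))) ^ 2 = (c : ℂ) * G a ^ 2 := by
    calc (c : ℂ) * (((‖N₁ + N₂‖ : ℝ) : ℂ) * G (a * (N₁ + N₂))) ^ 2
        = ((‖N₁ + N₂‖ : ℝ) : ℂ) ^ 2 * G (a * (N₁ + N₂)) * ((c : ℂ) * G (a * (N₁ + N₂))) := by
          ring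
      _ = ((‖N₁ + N₂‖ : ℝ) : ℂ) ^ 2 * G (a * (N₁ + N₂))
            * (G (a * N₁) * G (a * N₂)
              * (((‖a‖ : ℝ) : ℂ) ^ 2 * (((‖N₁‖ : ℝ) : ℂ) * ((‖N₂‖ : ℝ) : ℂ))
                * G (-(a * (N₁ + N₂))))) := by
          rw [H3, H4]
      _ = (((‖N₁‖ : ℝ) : ℂ) * G (a * N₁)) * (((‖N₂‖ : ℝ) : ℂ) * G (a * N₂))
            * ((((‖a‖ : ℝ) : ℂ) * ((‖N₁ + N₂‖ : ℝ) : ℂ)) ^ 2
              * (G (a * (N₁ + N₂)) * G (-(a * (N₁ + N₂))))) := by
          ring
      _ = G a * G a * (c : ℂ) := by rw [H1, H2, H5]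
      _ = (c : ℂ) * G a ^ 2 := by ring
  exact mul_left_cancel₀ hc e

end Abstract

/-! ## 3. The leaves on `K_v` -/

section Leaves

variable (K : Type) [Field K] [NumberField K] (v : HeightOneSpectrum (𝓞 K))

/-- The indicator function of `𝒪_v²` is a Schwartz--Bruhat function which is not zero. -/
theorem exists_sb_ne_zero79 :
    ∃ Φ₀ : v.adicCompletion K × v.adicCompletion K → ℂ, IsSB Φ₀ ∧ ∃ ξ₀, Φ₀ ξ₀ ≠ 0 := by
  have hO : IsOpen (v.adicCompletionIntegers K : Set (v.adicCompletion K)) :=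
    Valued.isOpen_valuationSubring (v.adicCompletion K)
  have hC : IsCompact (v.adicCompletionIntegers K : Set (v.adicCompletion K)) :=
    Fermat.Agent.LT.H11.LC.isCompact_integers_h11 K v
  have hS : IsClopen ((v.adicCompletionIntegers K : Set (v.adicCompletion K)) ×ˢ
      (v.adicCompletionIntegers K : Set (v.adicCompletion K))) :=
    ⟨(hC.prod hC).isClosed, hO.prod hO⟩
  refine ⟨Set.indicator ((v.adicCompletionIntegers K : Set (v.adicCompletion K)) ×ˢ
      (v.adicCompletionIntegers K : Set (v.adicCompletion K))) 1, ⟨?_, ?_⟩, (0, 0), ?_⟩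
  · have h1 : IsLocallyConstant (⇑(LocallyConstant.charFn ℂ hS)) :=
      (LocallyConstant.charFn ℂ hS).isLocallyConstant
    rwa [LocallyConstant.coe_charFn] at h1
  · exact HasCompactSupport.of_support_subset_isCompact (hC.prod hC)
      Set.support_indicator_subset
  · have hmem : ((0 : v.adicCompletion K), (0 : v.adicCompletion K))
        ∈ (v.adicCompletionIntegers K : Set (v.adicCompletion K)) ×ˢ
          (v.adicCompletionIntegers K : Set (v.adicCompletion K)) :=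
      ⟨zero_mem _, zero_mem _⟩
    rw [Set.indicator_of_mem hmem]
    exact one_ne_zero

end Leaves

/-- **A2.03.1.1.06.08 `LeafGaussSum`** (registry 1585), VERBATIM. -/
theorem leafGaussSum_79 : LF54.LeafGaussSum := by
  intro K _ _ v t n ψ μ c G hctx hF
  exact gaussSum79 hctx.char hF (exists_sb_ne_zero79 K v)

/-- **A2.03.1.1.06.06 `LeafGaussNorm`** (spare), VERBATIM. -/
theorem leafGaussNorm_79 : LF54.LeafGaussNorm := by
  intro K _ _ v t n ψ μ c G hctx hF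
  exact gaussNorm79 hctx.char hF (exists_sb_ne_zero79 K v)

/-- **A2.03.1.1.06.07 `LeafGaussProd`** (spare), VERBATIM. -/
theorem leafGaussProd_79 : LF54.LeafGaussProd := by
  intro K _ _ v t n ψ μ c G hctx hF a ha
  exact gaussProd79 hctx.char hF (exists_sb_ne_zero79 K v) ha

end Fermat.Agent.LT.A2.H79

end

end
-- ===== PACK-END LT/A2/H79/GaussSum.lean

-- ===== PACK-BEGIN LT/A2/H999/LocGood.lean
section



/-!
# Row LT, tower A2, leaf A2.03.1.1.08 `WX467.LocGoodOfRepC` (helper999): THE LEAF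

OFF-MAIN.  `locGoodOfRepC999 : WX467.LocGoodOfRepC`, i.e. `LocRepC → LocUniqC → LocGoodC`
(frozen in `Fermat/Agent/LT/A2/H467/DataSpec.lean`).

Files: `LGLocal` (dictionary local/adelic), `LGMeasure` (integrals, `ft_stdFn`, rescaling),
`LGGen` (`γ = 1`, `SL₂(𝒪_v)`, right invariance), `LGFin` (certificates `FinAt`, `GoodAt`),
`EtaSpec` + `LGEta` (`η_v(ϖ) = -1` at the inert places), `LocGoodAsm` (assembly).
-/

set_option autoImplicit false

namespace Fermat.Agent.LT.A2.H999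

open Fermat.Agent.LT.A2

/-- **A2.03.1.1.08 LOC-GOOD from the local Weil representation.** -/
theorem locGoodOfRepC999 : WX467.LocGoodOfRepC :=
  locGoodOfRepC_of_inertEta999 inertEtaC999

end Fermat.Agent.LT.A2.H999

end
-- ===== PACK-END LT/A2/H999/LocGood.lean

-- ===== PACK-BEGIN LT/CFT/H119/AdmTC.lean
section



/-!
# Row LT, tower CFT (architect helper53), leaf UP-GEN (helper119), part 2:
# the side condition "the base field `L^G` is TOTALLY COMPLEX" and the FIRST INEQUALITY at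
# every prime (in particular `p = 2`)

* `admTC119 G L` : every embedding `φ : L → ℂ` moves, under complex conjugation, the image of
  some `G`-fixed element of `L` (no Mathlib structure on the fixed field is needed to state it);
* `admTC_iff119` : `admTC119 G L ↔ ∀ v : InfinitePlace (L^G), v.IsComplex`
  (= `TotallyComplex (FixedPoints.subfield G L)` of `LT/CFT/Spec.lean`);
* `isStable_admTC119 : IsStable119 admTC119` (subgroups, quotient layers);
* `infDegProd_eq_one_of_admTC119` : no infinite place of `L^G` ramifies in `L`;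
* `firstIneqGen_admTC119 p : FirstIneqGen119 p admTC119`, UNCONDITIONAL, for every `p`
  (from the landed Herbrand form of the first inequality, which carries the factor
  `∏_{v | ∞} n_v`), and the cyclic form `firstIneqCyc_admTC119` for every order `n`;
* `pClassUpper_admTC119` : the upper bound for `p`-groups over a totally complex base from the
  SECOND inequality alone (the only open input at `p = 2`).

Imports: Mathlib + plain files on main only.
-/

set_option autoImplicit false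
set_option linter.style.haveILetI false
set_option linter.unusedSectionVars false

open scoped NumberField TensorProduct Pointwise ComplexConjugate
open IsDedekindDomain CategoryTheory groupCohomology NumberField
open Fermat.Agent.S55 Fermat.Agent.S55.G Fermat.Agent.S55.G.UpH119
open Fermat.Agent.S55.Herbrand

noncomputable section

namespace Fermat.Agent.LT.CFT.H119

/-- **Side condition TC**: the fixed field `L^G` is totally complex, stated on embeddings of
`L`: every `φ : L → ℂ` is non-real on some `G`-fixed element. -/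
def admTC119 : SideCond119 := fun G L _ _ _ _ =>
  ∀ φ : L →+* ℂ, ∃ x : L, (∀ g : G, g • x = x) ∧ conj (φ x) ≠ φ x

section Basic

variable (G L : Type) [Group G] [Field L] [NumberField L] [MulSemiringAction G L]

/-- Under TC every infinite place of the fixed field is complex. -/
theorem isComplex_of_admTC119 (h : admTC119 G L)
    (v : InfinitePlace (FixedPoints.subfield G L)) : v.IsComplex := by
  rw [InfinitePlace.isComplex_iff, ComplexEmbedding.isReal_iff]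
  intro hreal
  obtain ⟨x, hx, hne⟩ := h (ComplexEmbedding.lift L v.embedding)
  apply hne
  have hx' : x ∈ FixedPoints.subfield G L := fun g => hx g
  have e : ComplexEmbedding.lift L v.embedding x = v.embedding ⟨x, hx'⟩ :=
    ComplexEmbedding.lift_algebraMap_apply L v.embedding ⟨x, hx'⟩
  rw [e]
  have := RingHom.congr_fun hreal ⟨x, hx'⟩
  rwa [ComplexEmbedding.conjugate_coe_eq] at this

/-- TC is the total complexity of the fixed field. -/
theorem admTC_iff119 :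
    admTC119 G L ↔ ∀ v : InfinitePlace (FixedPoints.subfield G L), v.IsComplex := by
  refine ⟨isComplex_of_admTC119 G L, fun h φ => ?_⟩
  have hc := h (InfinitePlace.mk (φ.comp (algebraMap (FixedPoints.subfield G L) L)))
  rw [InfinitePlace.isComplex_mk_iff, ComplexEmbedding.isReal_iff] at hc
  by_contra hcon
  push Not at hcon
  apply hc
  refine RingHom.ext fun y => ?_
  rw [ComplexEmbedding.conjugate_coe_eq]
  exact hcon (y : L) (fun g => y.2 g)

/-- Under TC no infinite place of `L^G` ramifies in `L`. -/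
theorem isUnramifiedIn_of_admTC119 (h : admTC119 G L)
    (v : InfinitePlace (FixedPoints.subfield G L)) : v.IsUnramifiedIn L := by
  intro w hw
  rw [InfinitePlace.isUnramified_iff]
  right
  rw [hw]
  exact isComplex_of_admTC119 G L h v

/-- Under TC the product of the local degrees at infinity is `1`. -/
theorem infDegProd_eq_one_of_admTC119 (h : admTC119 G L) :
    infDegProd (FixedPoints.subfield G L) L = 1 := by
  unfold infDegProd
  refine Finset.prod_eq_one fun v _ => ?_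
  rw [if_pos (isUnramifiedIn_of_admTC119 G L h v)]

end Basic

/-! ## Stability -/

/-- **TC is stable** under subgroups and quotient layers. -/
theorem isStable_admTC119 : IsStable119 admTC119 := by
  refine ⟨?_, ?_⟩
  · intro G L _ _ _ _ H h φ
    obtain ⟨x, hx, hne⟩ := h φ
    exact ⟨x, fun g => hx (g : G), hne⟩
  · intro G L _ _ _ _ N _ h
    letI := quotAct G L N
    intro φ'
    obtain ⟨x, hx, hne⟩ := h (ComplexEmbedding.lift L φ')
    have hxN : x ∈ FixedPoints.subfield N L := fun n => hx (n : G)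
    refine ⟨⟨x, hxN⟩, ?_, ?_⟩
    · intro q
      induction q using Quotient.inductionOn' with
      | h g => exact Subtype.ext (hx g)
    · have e : ComplexEmbedding.lift L φ' x = φ' ⟨x, hxN⟩ :=
        ComplexEmbedding.lift_algebraMap_apply L φ' ⟨x, hxN⟩
      rwa [e] at hne

/-! ## The first inequality over a totally complex base, every cyclic order -/

/-- **G-FIc over a totally complex base**: for a cyclic group `G` of ANY order `n` acting
faithfully on `L` with `L^G` totally complex and `S ≠ ∅`: `H¹(G, C_S(L))`, `H²(G, C_S(L))` are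
finite and `|H²(G, C_S(L))| = n · |H¹(G, C_S(L))|`.  Unconditional. -/
theorem firstIneqCyc_admTC119 (n : ℕ) (S : Finset Nat.Primes) (G L : Type) [Group G] [Finite G]
    [IsCyclic G] [Field L] [NumberField L] [MulSemiringAction G L] [FaithfulSMul G L]
    (hA : admTC119 G L) (hS : S.Nonempty) (hcard : Nat.card G = n) :
    Finite (groupCohomology (CRep S G L) 1) ∧ Finite (groupCohomology (CRep S G L) 2) ∧
    Nat.card (groupCohomology (CRep S G L) 2) =
      n * Nat.card (groupCohomology (CRep S G L) 1) := by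
  classical
  have hFI : FIH895.FirstIneqSpec :=
    FIH895.firstIneqSpec_of sUnitsHerbrandSpec FIClosedH604.jHerbrand FIH895.clSFiniteSpec
  letI : Fintype G := Fintype.ofFinite G
  obtain ⟨g, hg⟩ := IsCyclic.exists_generator (α := G)
  have hσ : ∀ τ : L ≃ₐ[FixedPoints.subfield G L] L,
      τ ∈ Subgroup.zpowers (FixedPoints.toAlgAutMulEquiv G L g) := by
    intro τ
    obtain ⟨t, rfl⟩ := (FixedPoints.toAlgAutMulEquiv G L).surjective τ
    obtain ⟨k, rfl⟩ := Subgroup.mem_zpowers_iff.1 (hg t)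
    exact Subgroup.mem_zpowers_iff.2 ⟨k, (map_zpow (FixedPoints.toAlgAutMulEquiv G L) g k).symm⟩
  have hcardeq : Nat.card (L ≃ₐ[FixedPoints.subfield G L] L) = Nat.card G :=
    (Nat.card_congr (FixedPoints.toAlgAutMulEquiv G L).toEquiv).symm
  have hfr : Module.finrank (FixedPoints.subfield G L) L = n := by
    rw [← IsGalois.card_aut_eq_finrank, hcardeq, hcard]
  obtain ⟨c0, c1, hc⟩ := hFI (FixedPoints.subfield G L) L (FixedPoints.toAlgAutMulEquiv G L g)
    hσ S hS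
  have hact : (gAct (CRep S G L) g : AddMonoid.End (CS S L)) =
      gAct (CRep S (L ≃ₐ[FixedPoints.subfield G L] L) L) (FixedPoints.toAlgAutMulEquiv G L g) :=
    FIH895.gAct_CRep_congr S fun _ => rfl
  rw [infDegProd_eq_one_of_admTC119 G L hA, mul_one, hfr] at hc
  have e0 : Nat.card (groupCohomology (CRep S G L) 2) =
      h0 (gAct (CRep S (L ≃ₐ[FixedPoints.subfield G L] L) L)
        (FixedPoints.toAlgAutMulEquiv G L g)) (Nat.card (L ≃ₐ[FixedPoints.subfield G L] L)) := by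
    rw [card_H2_eq_h0 (CRep S G L) g hg, hcardeq]
    exact congrArg (fun s : AddMonoid.End (CS S L) => h0 s (Nat.card G)) hact
  have e1 : Nat.card (groupCohomology (CRep S G L) 1) =
      h1 (gAct (CRep S (L ≃ₐ[FixedPoints.subfield G L] L) L)
        (FixedPoints.toAlgAutMulEquiv G L g)) (Nat.card (L ≃ₐ[FixedPoints.subfield G L] L)) := by
    rw [card_H1_eq_h1 (CRep S G L) g hg, hcardeq]
    exact congrArg (fun s : AddMonoid.End (CS S L) => h1 s (Nat.card G)) hact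
  rw [← e0] at c0 hc
  rw [← e1] at c1 hc
  exact ⟨(Nat.card_ne_zero.1 c1).2, (Nat.card_ne_zero.1 c0).2, by rw [hc, mul_comm]⟩

/-- **G-FI over a totally complex base, every prime `p`** (in particular `p = 2`).
Unconditional. -/
theorem firstIneqGen_admTC119 (p : ℕ) [hp : Fact p.Prime] : FirstIneqGen119 p admTC119 := by
  intro S G L _ _ _ _ _ _ hA hS hcard
  haveI : IsCyclic G := isCyclic_of_prime_card (p := p) hcard
  exact firstIneqCyc_admTC119 p S G L hA hS hcard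

/-! ## The remaining input at `p = 2` is the second inequality -/

/-- The cyclic layer over a totally complex base from the second inequality alone. -/
theorem cyclicLayer_admTC119 (p : ℕ) [hp : Fact p.Prime] (hSI : SecondIneqGen119 p admTC119) :
    CyclicLayerGen119 p admTC119 :=
  cyclicLayerGen_of119 p admTC119 (firstIneqGen_admTC119 p) hSI

/-- **G-UP over a totally complex base, every prime `p`**, from the second inequality and
Galois descent (`DescentSpec`, landed Spec of layer G; its proof on main has no prime in it). -/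
theorem pClassUpper_admTC119 (p : ℕ) [hp : Fact p.Prime] (hSI : SecondIneqGen119 p admTC119)
    (hD : DescentSpec) : PClassUpperGen119 p admTC119 :=
  pClassUpperGen_of119 p admTC119 isStable_admTC119 (cyclicLayer_admTC119 p hSI) hD

end Fermat.Agent.LT.CFT.H119

end
end
-- ===== PACK-END LT/CFT/H119/AdmTC.lean

-- ===== PACK-BEGIN LT/H701/Gal.lean
section







/-!
# Row LT, block IDENT (helper701): the Galois side

`gal_h701`: let `ρ : G_ℚ → GL₂(𝔽₃)` be continuous, surjective, of determinant the mod-3 cyclotomic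
character, `Ψ` a section of the reduction, `f` a weight-one form whose `a_p` equals
`ι (tr Ψ(ρ Frob_p))` at the primes `p ∤ 3N` with `ρ(Frob_p) ∈ Q8`, and `r` the Deligne--Serre
representation of `f` (finite level, trace and determinant at Frobenius).  Then there is a sign
`s ∈ {1, -1}` with `a_p(f) = w(p) ι (tr Ψ(ρ Frob_p))` and `ε(p) = χ₋₃(p)` at ALL primes `p ∤ 3N`.
-/

set_option autoImplicit false

open Matrix FLT.ExplicitLift EisensteinWeightOne WeierstrassCurve CongruenceSubgroup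
open ModularFormClass
open scoped MatrixGroups

noncomputable section

namespace Fermat.Agent.LT.H701

local notation "Γℚ" => (AlgebraicClosure ℚ ≃ₐ[ℚ] AlgebraicClosure ℚ)

/-- A homomorphism factoring through a finite level has values of finite order. -/
theorem exists_pow_eq_one_h701 {M : Type} [Group M] (r : Γℚ →* M)
    (hr : GaloisFactorsThroughFiniteLevel r) (σ : Γℚ) : ∃ n : ℕ, 0 < n ∧ r σ ^ n = 1 := by
  obtain ⟨L, hL, hfix⟩ := hr
  haveI := hL
  let e : ℕ → (L →ₐ[ℚ] AlgebraicClosure ℚ) := fun k =>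
    ((σ ^ k : Γℚ) : AlgebraicClosure ℚ →ₐ[ℚ] AlgebraicClosure ℚ).comp L.val
  have key : ∀ a b : ℕ, a < b → e a = e b → ∃ n : ℕ, 0 < n ∧ r σ ^ n = 1 := by
    intro a b hab he
    refine ⟨b - a, Nat.sub_pos_of_lt hab, ?_⟩
    rw [← map_pow]
    apply hfix
    intro x hx
    have h1 : (σ ^ a) x = (σ ^ b) x := by
      have := congrArg (fun φ : L →ₐ[ℚ] AlgebraicClosure ℚ => φ ⟨x, hx⟩) he
      exact this
    have h2 : σ ^ b = σ ^ a * σ ^ (b - a) := by
      rw [← pow_add, Nat.add_sub_cancel' hab.le]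
    rw [h2, AlgEquiv.mul_apply] at h1
    exact ((σ ^ a).injective h1).symm
  obtain ⟨a, b, hab, he⟩ := Finite.exists_ne_map_eq_of_infinite e
  rcases Nat.lt_or_gt_of_ne hab with h | h
  · exact key a b h he
  · exact key b a h he.symm

/-- A homomorphism factoring through a finite level has an open kernel. -/
theorem isOpen_ker_h701 {M : Type} [Group M] (r : Γℚ →* M)
    (hr : GaloisFactorsThroughFiniteLevel r) : IsOpen (r.ker : Set Γℚ) := by
  obtain ⟨L, hL, hfix⟩ := hr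
  haveI := hL
  have hle : L.fixingSubgroup ≤ r.ker := by
    intro σ hσ
    rw [MonoidHom.mem_ker]
    apply hfix
    intro x hx
    exact (IntermediateField.mem_fixingSubgroup_iff L σ).mp hσ x hx
  exact Subgroup.isOpen_mono hle L.fixingSubgroup_isOpen

/-- The mod-3 cyclotomic character at a Frobenius element over `p ≠ 3`. -/
theorem modThree_frob_h701 {p : ℕ} (hp : p.Prime) (hp3 : p ≠ 3)
    (A : ValuationSubring (AlgebraicClosure ℚ)) (hA : A.LiesOverPrime p) (σ : Γℚ)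
    (hσ : A.IsFrobeniusAt σ p) :
    ((modThreeCyclotomicChar σ : (ZMod 3)ˣ) : ZMod 3) = (p : ZMod 3) := by
  haveI : Fact (Nat.Prime 3) := ⟨Nat.prime_three⟩
  have h := Fermat.Agent.S29.H872.cycloChar_frobenius 3 hp hp3 A hA σ hσ
  exact h

theorem unit_eq_one_iff_h701 (u : (ZMod 3)ˣ) (p : ℕ) (h : (u : ZMod 3) = (p : ZMod 3)) :
    u = 1 ↔ p % 3 = 1 := by
  constructor
  · intro hu
    rw [hu, Units.val_one] at h
    have h2 : ((1 : ℕ) : ZMod 3) = (p : ZMod 3) := by rw [← h]; simp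
    have := (ZMod.natCast_eq_natCast_iff' 1 p 3).mp h2
    omega
  · intro hp
    apply Units.ext
    rw [h, Units.val_one]
    have h2 : ((p : ℕ) : ZMod 3) = ((1 : ℕ) : ZMod 3) :=
      (ZMod.natCast_eq_natCast_iff' p 1 3).mpr (by omega)
    rw [h2]
    simp

theorem chiNegThree_of_prime_h701 {p : ℕ} (hp : p.Prime) (hp3 : p ≠ 3) :
    ((chiNegThree p : ℤ) : ℂ) = if p % 3 = 1 then 1 else -1 := by
  have h3 : ¬ 3 ∣ p := fun h => hp3 ((Nat.prime_dvd_prime_iff_eq Nat.prime_three hp).mp h).symm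
  have hlt : p % 3 < 3 := Nat.mod_lt _ (by norm_num)
  have h0 : p % 3 ≠ 0 := fun h' => h3 (Nat.dvd_of_mod_eq_zero h')
  unfold chiNegThree
  interval_cases h1 : p % 3
  · exact absurd rfl h0
  · simp
  · simp

/-- **The Galois side of IDENT.** -/
theorem gal_h701 (ρ : Γℚ →* GL (Fin 2) (ZMod 3)) (Ψ : GL (Fin 2) (ZMod 3) →* GL (Fin 2) (ℤ√(-2)))
    (hρ : Continuous ρ) (hsurj : Function.Surjective ρ)
    (hdet : ∀ σ : Γℚ, Matrix.GeneralLinearGroup.det (ρ σ) = modThreeCyclotomicChar σ)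
    (hΨ : ∀ g, Matrix.GeneralLinearGroup.map red (Ψ g) = g)
    (N : ℕ) [NeZero N] (ε : DirichletCharacter ℂ N) (f : CuspForm (Gamma1 N) 1)
    (ι : ℤ√(-2) →+* ℂ)
    (hQ8 : ∀ p : ℕ, p.Prime → ¬ p ∣ 3 * N →
      ∀ A : ValuationSubring (AlgebraicClosure ℚ), A.LiesOverPrime p →
        ∀ σ : Γℚ, A.IsFrobeniusAt σ p →
          Matrix.GeneralLinearGroup.det (ρ σ) = 1 → (ρ σ) ^ 4 = 1 →
          qCoeff f p =
            ι (((Ψ (ρ σ) : GL (Fin 2) (ℤ√(-2))) : Matrix (Fin 2) (Fin 2) (ℤ√(-2))).trace))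
    (r : Γℚ →* GL (Fin 2) ℂ) (hr : GaloisFactorsThroughFiniteLevel r)
    (hrF : ∀ p : ℕ, p.Prime → ¬ p ∣ N →
      ∀ A : ValuationSubring (AlgebraicClosure ℚ), A.LiesOverPrime p →
        (∀ σ ∈ A.inertiaSubgroupIn ℚ, r σ = 1) ∧
        ∀ σ : Γℚ, A.IsFrobeniusAt σ p →
          ((r σ : GL (Fin 2) ℂ) : Matrix (Fin 2) (Fin 2) ℂ).trace = qCoeff f p ∧
          ((r σ : GL (Fin 2) ℂ) : Matrix (Fin 2) (Fin 2) ℂ).det = ε (p : ZMod N)) :
    ∃ s : ℂ, (s = 1 ∨ s = -1) ∧ ∀ p : ℕ, p.Prime → ¬ p ∣ 3 * N →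
      ∀ A : ValuationSubring (AlgebraicClosure ℚ), A.LiesOverPrime p →
        ∀ σ : Γℚ, A.IsFrobeniusAt σ p →
          qCoeff f p = wt_h701 s p *
            ι (((Ψ (ρ σ) : GL (Fin 2) (ℤ√(-2))) : Matrix (Fin 2) (Fin 2) (ℤ√(-2))).trace) ∧
          ε (p : ZMod N) = ((chiNegThree p : ℤ) : ℂ) := by
  have h3N : 3 * N ≠ 0 := mul_ne_zero (by norm_num) (NeZero.ne N)
  have hkρ : IsOpen (ρ.ker : Set Γℚ) := Fermat.Agent.Lib.Cheb.H956.isOpen_ker_of_continuous ρ hρ
  have hkr : IsOpen (r.ker : Set Γℚ) := isOpen_ker_h701 r hr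
  -- Chebotarev
  have hcheb : ∀ σ : Γℚ, ∃ (ℓ : ℕ) (A : ValuationSubring (AlgebraicClosure ℚ)) (τ : Γℚ),
      ℓ.Prime ∧ ¬ ℓ ∣ 3 * N ∧ A.LiesOverPrime ℓ ∧ A.IsFrobeniusAt τ ℓ ∧ r τ = r σ ∧
        ρ τ = ρ σ := by
    intro σ
    obtain ⟨ℓ, A, τ, hℓ, hℓS, hA, hτ, -, h1, h2⟩ :=
      Fermat.Agent.Lib.Cheb.H956.chebotarev_hom_pair Fermat.Agent.Lib.Cheb.chebotarev r ρ hkr hkρ
        σ (3 * N).primeFactors
    refine ⟨ℓ, A, τ, hℓ, fun hd => hℓS ?_, hA, hτ, h1, h2⟩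
    exact Nat.mem_primeFactors.mpr ⟨hℓ, hd, h3N⟩
  have hN_of : ∀ ℓ : ℕ, ¬ ℓ ∣ 3 * N → ¬ ℓ ∣ N := fun ℓ h hd => h (Dvd.dvd.mul_left hd 3)
  -- the trace identity on `ρ⁻¹(Q8)`
  have htrQ : ∀ σ : Γℚ, Matrix.GeneralLinearGroup.det (ρ σ) = 1 → (ρ σ) ^ 4 = 1 →
      ((r σ : GL (Fin 2) ℂ) : Matrix (Fin 2) (Fin 2) ℂ).trace =
        (rhom_h701 ι Ψ (ρ σ)).val.trace := by
    intro σ h1 h4
    obtain ⟨ℓ, A, τ, hℓ, hℓN, hA, hτ, e1, e2⟩ := hcheb σ
    rw [trace_rhom_h701, ← e1, ← e2, ((hrF ℓ hℓ (hN_of ℓ hℓN) A hA).2 τ hτ).1]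
    exact hQ8 ℓ hℓ hℓN A hA τ hτ (by rw [e2]; exact h1) (by rw [e2]; exact h4)
  -- the kernel of `ρ` is killed by `r`
  have hker : ∀ σ : Γℚ, ρ σ = 1 → r σ = 1 := by
    intro σ hσ
    obtain ⟨n, hn, hpow⟩ := exists_pow_eq_one_h701 r hr σ
    have ht := htrQ σ (by rw [hσ, map_one]) (by rw [hσ, one_pow])
    rw [hσ, map_one] at ht
    apply Units.ext
    apply eq_one_of_pow_h701 _ n hn
    · rw [← Units.val_pow_eq_pow_val, hpow]
      rfl
    · rw [ht]
      simp [Matrix.trace, Fin.sum_univ_two]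
  -- descent of `r` to `GL₂(𝔽₃)`
  let rbar : GL (Fin 2) (ZMod 3) →* GL (Fin 2) ℂ :=
    ρ.liftOfRightInverse (Function.surjInv hsurj) (Function.rightInverse_surjInv hsurj)
      ⟨r, fun σ hσ => MonoidHom.mem_ker.mpr (hker σ (MonoidHom.mem_ker.mp hσ))⟩
  have hrbar : ∀ σ : Γℚ, rbar (ρ σ) = r σ := fun σ =>
    ρ.liftOfRightInverse_comp_apply (Function.surjInv hsurj)
      (Function.rightInverse_surjInv hsurj) _ σ
  have hR1 := rhom_neg_one_h701 Ψ hΨ ι
  -- `rbar (-1) = -1`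
  have hrb1 : rbar (-1) = -1 := by
    obtain ⟨σ, hσ⟩ := hsurj (-1)
    have hZ : (rbar (-1)).val * (rbar (-1)).val = 1 := by
      rw [← Units.val_mul, ← map_mul, neg_one_sq_h701, map_one]
      rfl
    have ht := htrQ σ (by rw [hσ]; exact det_neg_one_h701) (by rw [hσ]; exact neg_one_pow_four_h701)
    rw [hσ, hR1, ← hrbar σ, hσ] at ht
    apply Units.ext
    apply eq_neg_one_of_sq_h701 (two_ne_zero) _ hZ
    rw [ht]
    simp [Matrix.trace, Fin.sum_univ_two]
  obtain ⟨s, hs, hcore⟩ := core_h701 rbar (rhom_h701 ι Ψ) hrb1 hR1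
  refine ⟨s, hs, fun p hp hpN A hA σ hσ => ?_⟩
  have hp3 : p ≠ 3 := fun h => hpN (h ▸ dvd_mul_right 3 N)
  have hcyc := modThree_frob_h701 hp hp3 A hA σ hσ
  rw [← hdet σ] at hcyc
  have hiff := unit_eq_one_iff_h701 _ p hcyc
  obtain ⟨hF1, hF2⟩ := (hrF p hp (hN_of p hpN) A hA).2 σ hσ
  obtain ⟨hc1, hc2⟩ := hcore (ρ σ)
  rw [hrbar σ] at hc1 hc2
  constructor
  · rw [← hF1, hc1, trace_rhom_h701]
    unfold wt_h701
    by_cases h1 : Matrix.GeneralLinearGroup.det (ρ σ) = 1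
    · rw [if_pos h1, if_pos (hiff.mp h1)]
    · rw [if_neg h1, if_neg (fun h => h1 (hiff.mpr h))]
  · rw [← hF2, hc2, det_rhom_h701 Ψ hΨ ι, chiNegThree_of_prime_h701 hp hp3]
    by_cases h1 : Matrix.GeneralLinearGroup.det (ρ σ) = 1
    · rw [if_pos h1, if_pos (hiff.mp h1)]
    · rw [if_neg h1, if_neg (fun h => h1 (hiff.mpr h))]

end Fermat.Agent.LT.H701

end

end
-- ===== PACK-END LT/H701/Gal.lean

-- ===== PACK-BEGIN LT/H701/Ident.lean
section






/-!
# Row LT, block IDENT (helper701): `LTB.IdentC` from the landed S48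

`identC_of_s48_h701 : S48Statement_h701 → LTB.IdentC`, where `S48Statement_h701` is the frozen
statement S48 (Deligne--Serre) as a Prop, and `LTB.IdentC` is the frozen Prop of the board
`LT/H17/Board.lean` (helper17 @ c7612408b): hypotheses of S47 + output of the wall (a complex
weight-one eigenform matching `Ψ ∘ ρ` at the Frobenius elements in `Q8`) imply the conclusion of
the frozen S47.

Chain: S48 gives `r`; Chebotarev (`Lib.Cheb`, on main) transports the trace identity to all of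
`ρ⁻¹(Q8)`; `r` kills `ker ρ` (finite order + trace 2) and descends to `GL₂(𝔽₃)`;
`core_h701` (Schur/Clifford for `Q8 ◁ GL₂(𝔽₃)`): `r = (ι Ψ ρ) ⊗ χ`, `χ ∈ {1, χ₋₃}`;
`eigen_h701`: twist by `χ`, depletion at `3N`, integrality by the Hecke recursion.
-/

set_option autoImplicit false

open Matrix FLT.ExplicitLift EisensteinWeightOne WeierstrassCurve CongruenceSubgroup
open ModularFormClass
open scoped MatrixGroups

noncomputable section

namespace Fermat.Agent.LT.H701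

local notation "Γℚ" => (AlgebraicClosure ℚ ≃ₐ[ℚ] AlgebraicClosure ℚ)

/-- The frozen S48 (Deligne--Serre) as a Prop. -/
def S48Statement_h701 : Prop :=
  ∀ (N : ℕ) [NeZero N] (ε : DirichletCharacter ℂ N) (f : CuspForm (Gamma1 N) 1)
    (_ : ModularFormClass.qCoeff f 1 = 1)
    (_ : ∀ p : ℕ, p.Prime → ¬ p ∣ N → ∀ n : ℕ,
        ModularFormClass.qCoeff f (p * n) +
            ε (p : ZMod N) * (if p ∣ n then ModularFormClass.qCoeff f (n / p) else 0) =
          ModularFormClass.qCoeff f p * ModularFormClass.qCoeff f n),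
    ∃ ρ : Γℚ →* GL (Fin 2) ℂ, GaloisFactorsThroughFiniteLevel ρ ∧
      (Deformation.matrixRepresentation ρ).IsIrreducible ∧
      ∀ p : ℕ, p.Prime → ¬ p ∣ N →
        ∀ A : ValuationSubring (AlgebraicClosure ℚ), A.LiesOverPrime p →
          (∀ σ ∈ A.inertiaSubgroupIn ℚ, ρ σ = 1) ∧
          ∀ σ : Γℚ, A.IsFrobeniusAt σ p →
            ((ρ σ : GL (Fin 2) ℂ) : Matrix (Fin 2) (Fin 2) ℂ).trace = ModularFormClass.qCoeff f p ∧
            ((ρ σ : GL (Fin 2) ℂ) : Matrix (Fin 2) (Fin 2) ℂ).det = ε (p : ZMod N)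

theorem wt_ne_zero_h701 (s : ℂ) (hs : s = 1 ∨ s = -1) (p : ℕ) : wt_h701 s p ≠ 0 := by
  unfold wt_h701
  split_ifs
  · exact one_ne_zero
  · rcases hs with h | h <;> rw [h] <;> norm_num

/-- **IDENT**: the frozen Prop `LTB.IdentC` from the statement of S48. -/
theorem identC_of_s48_h701 (h48 : S48Statement_h701) : LTB.IdentC := by
  classical
  intro ρ Ψ hyp hwall
  obtain ⟨N, hN, ε, f, ι, hf₁, hT, hQ8⟩ := hwall
  obtain ⟨r, hr, -, hrF⟩ := h48 N ε f hf₁ hT
  obtain ⟨s, hs, hgal⟩ :=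
    gal_h701 ρ Ψ hyp.cont hyp.surj hyp.det hyp.lift N ε f ι hQ8 r hr hrF
  -- a Frobenius element at every prime
  have hfrob : ∀ p : ℕ, ∃ (A : ValuationSubring (AlgebraicClosure ℚ)) (σ : Γℚ),
      p.Prime → A.LiesOverPrime p ∧ A.IsFrobeniusAt σ p := by
    intro p
    by_cases hp : p.Prime
    · obtain ⟨A, σ, hA, hσ⟩ := Fermat.Agent.S54.exists_frobenius p hp
      exact ⟨A, σ, fun _ => ⟨hA, hσ⟩⟩
    · exact ⟨⊤, 1, fun h => absurd h hp⟩
  choose Ap σp hAσ using hfrob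
  let t : ℕ → ℤ√(-2) := fun p =>
    ((Ψ (ρ (σp p)) : GL (Fin 2) (ℤ√(-2))) : Matrix (Fin 2) (Fin 2) (ℤ√(-2))).trace
  have ht : ∀ p : ℕ, p.Prime → ¬ p ∣ 3 * N →
      qCoeff f p = wt_h701 s p * ι (t p) ∧ ε (p : ZMod N) = ((chiNegThree p : ℤ) : ℂ) :=
    fun p hp hpN => hgal p hp hpN (Ap p) (hAσ p hp).1 (σp p) (hAσ p hp).2
  obtain ⟨c, heig, hreal, hc⟩ := eigen_h701 N ε f ι hf₁ hT s hs t ht
  have hN' : NeZero (N * (3 * N) ^ 2) :=
    ⟨mul_ne_zero (NeZero.ne N) (pow_ne_zero 2 (mul_ne_zero (by norm_num) (NeZero.ne N)))⟩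
  refine ⟨N * (3 * N) ^ 2, hN', c, heig, hreal, fun p hp hpN' A hA σ hσ => ?_⟩
  have hpN : ¬ p ∣ 3 * N := fun hd =>
    hpN' (Dvd.dvd.mul_left (Dvd.dvd.mul_left (dvd_pow hd two_ne_zero) N) 3)
  rw [hc p hp hpN]
  apply iota_injective_h701 ι
  have h1 := (ht p hp hpN).1
  have h2 := (hgal p hp hpN A hA σ hσ).1
  rw [h1] at h2
  exact mul_left_cancel₀ (wt_ne_zero_h701 s hs p) h2

end Fermat.Agent.LT.H701

end

end
-- ===== PACK-END LT/H701/Ident.lean

-- ===== PACK-BEGIN LT/H701/IdentTop.lean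
section




/-!
# Row LT, block IDENT (helper701): `LTB.IdentC`, unconditionally

`identC_h701 : LTB.IdentC`, from `identC_of_s48_h701` and the PLAIN chain behind the landed S48
(`S48.Top.result_of_core S48.Red1.core1Top`, both on main).  With `LTB.top47` the frozen S47 now
depends on `LTB.WallC` only.
-/

set_option autoImplicit false

namespace Fermat.Agent.LT.H701

/-- The statement of S48, from the plain chain on main. -/
theorem s48Statement_h701 : S48Statement_h701 :=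
  fun N _ ε f hf hT =>
    Fermat.Agent.S48.Top.result_of_core Fermat.Agent.S48.Red1.core1Top N ε f hf hT

/-- **IDENT**, unconditionally. -/
theorem identC_h701 : LTB.IdentC := identC_of_s48_h701 s48Statement_h701

/-- The frozen S47 from the wall alone. -/
theorem s47_of_wallC_h701 (hW : LTB.WallC) : LTB.S47Statement := LTB.top47 identC_h701 hW

end Fermat.Agent.LT.H701

end
-- ===== PACK-END LT/H701/IdentTop.lean

-- ===== PACK-BEGIN LT/T7/H216/BoxClosed.lean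
section







/-!
# Row LT, tower T7, LEAF `BoxIntC57` (registry 2058) -- CLOSED (helper216), OFF-MAIN

`boxIntC57_closed216 (K) : T1.T1Out K → BoxIntC57 K`, in ONE import closure:

| sub-leaf | proved by |
|---|---|
| B.1 `HaarLogC216`   | helper729 `haarLogC729` (`LT/T7/H729/HaarLog.lean`, `HaarLogCore.lean`) |
| B.2 `IdeleRayC216`  | helper420 `ideleRayC420` (`LT/T7/H420/IdeleRay.lean`) |
| B.3 `NormInvC216`   | helper171 `normInvC216_171` (`LT/T7/H171/NormInv.lean`) |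
| B.4 `NormFinC216`   | helper171 `normFinC216_171` (`LT/T7/H171/NormFin.lean`) |
| B.5 `CalcC216`      | helper171 `calcC216_171` (`LT/T7/H171/Calc.lean`, `CalcCore.lean`) |
| B.6 `BoxFubiniC216` | helper216 `boxFubini216` (`LT/T7/H216/BoxFubini.lean`) |

All files of the other seats are byte-identical copies of their branches.
-/

set_option autoImplicit false

namespace Fermat.Agent.LT.T7.H216

open Fermat.Agent.LT.T7.H57

/-- **`BoxIntC57` is closed** (hypothesis: the output of tower T1, closed by helper54). -/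
theorem boxIntC57_closed216 (K : Type) [Field K] [NumberField K]
    (hT : Fermat.Agent.LT.T1.T1Out K) : BoxIntC57 K :=
  boxInt_of_leaves216 Fermat.Agent.LT.T7.H729.haarLogC729
    (Fermat.Agent.LT.T7.H420.ideleRayC420 (K := K))
    (Fermat.Agent.LT.T7.H171.normInvC216_171 K) (Fermat.Agent.LT.T7.H171.normFinC216_171 K)
    Fermat.Agent.LT.T7.H171.calcC216_171 boxFubini216 hT

end Fermat.Agent.LT.T7.H216

end
-- ===== PACK-END LT/T7/H216/BoxClosed.lean

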