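import Mathlib
import Fermat.Agent.Pack.LT2.E9L3
import Fermat.Agent.Pack.S44C.G0E26L3
import Fermat.Agent.Pack.S59C.E1L2
import Fermat.Agent.Pack.LT2.E19L3
import Fermat.Agent.Pack.S43GC.G0E23L0
import Fermat.Agent.Pack.LT2.E10L1
import Fermat.Agent.Pack.LT2.E19L0
import Fermat.Agent.Pack.LT2.E5L1
import Fermat.Agent.Pack.LT2.E0L1
import Fermat.Agent.Pack.LT2.E2L2
import Fermat.Agent.Pack.LT2.E19L2

set_option linter.all false

-- ===== PACK-BEGIN LT/H91/ChebG0.lean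
section




/-!
# Row LT, tower A2, branch GALSEED, leaf `ChebG0C` (A2.01.18) -- helper91, OFF-MAIN

`chebG0_h91 : Fermat.Agent.LT.A2.H38.ChebG0C`: outside every finite set of primes there are a
prime `p`, a valuation subring `A` of `ℚ̄` over `p` and a Frobenius element `σ` at `A` with
`ρ σ = g0`.

Proof: `ρ` is onto, so `g0 = ρ σ₀`; `ρ` is continuous with discrete target, so its kernel is open;
qualitative Chebotarev over `ℚ̄` (`Fermat.Agent.Lib.Cheb.chebotarev`, ON MAIN) in the form for a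
homomorphism with open kernel (`Lib.Cheb.H956.chebotarev_hom`, ON MAIN).
-/

set_option autoImplicit false

open scoped MatrixGroups

namespace Fermat.Agent.LT.H91

open Fermat.Agent.Lib.Cheb.Spec

/-- General form: every value of a continuous `ρ : G_ℚ → GL₂(𝔽₃)` is attained at a Frobenius
element at a prime outside any given finite set, with inertia killed by `ρ`. -/
theorem exists_frobenius_map_eq_h91 (ρ : GQ →* GL (Fin 2) (ZMod 3)) (hρ : Continuous ρ)
    (σ₀ : GQ) (S : Finset ℕ) :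
    ∃ (p : ℕ) (A : ValuationSubring Qb) (σ : GQ),
      p.Prime ∧ p ∉ S ∧ A.LiesOverPrime p ∧ A.IsFrobeniusAt σ p ∧
      (∀ ι ∈ A.inertiaSubgroupIn ℚ, ρ ι = 1) ∧ ρ σ = ρ σ₀ :=
  Fermat.Agent.Lib.Cheb.H956.chebotarev_hom Fermat.Agent.Lib.Cheb.chebotarev ρ
    (Fermat.Agent.Lib.Cheb.H956.isOpen_ker_of_continuous ρ hρ) σ₀ S

/-- **Leaf `ChebG0C` (A2.01.18).** -/
theorem chebG0_h91 : Fermat.Agent.LT.A2.H38.ChebG0C := by
  intro ρ Ψ hyp S
  obtain ⟨σ₀, hσ₀⟩ := hyp.surj Fermat.Agent.LT.A2.H38.g0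
  obtain ⟨p, A, σ, hp, hpS, hA, hσ, -, h⟩ := exists_frobenius_map_eq_h91 ρ hyp.cont σ₀ S
  exact ⟨p, A, σ, hp, hpS, hA, hσ, h.trans hσ₀⟩

end Fermat.Agent.LT.H91

end
-- ===== PACK-END LT/H91/ChebG0.lean

-- ===== PACK-BEGIN LT/A2/H416/MeanTop.lean
section


/-!
# Row LT, tower A2, leaf A2.03.7 WHIT-MEAN (helper416): THE TOP

OFF-MAIN.

    WL.WhitMeanC ⟸ BesselInvC + EigenOdeC + ArchInvC + IwasawaGL2C        (`whitMean_of_leaves416`)

* `exists_eigen416`: for `g₀` trivial at the complex place `w` the function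
  `(x, y) ↦ W(g₀ · [[y, x], [0, 1]]_w)` is a solution of the hyperbolic Laplace equation of `ℍ³`
  (`H470.EigenData470`): it is `exp(4πi Re(c x)) · y · J(y)` with `J` a solution of the modified
  Bessel equation (`bessel_orbital416`), or `0` if `g₀ ∉ GL₂(𝔸_K)⁺`;
* the top: `g = g₀ · γ_w`, `Ψ M = W(g₀ · M_w) = f(M • j)` (`IwasawaGL2C`, `ArchInvC`), and the
  mean-value property in the frame `γ` (`H470.frameMVP_euler470`).
-/

set_option autoImplicit false
set_option linter.unusedSectionVars false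
set_option linter.style.haveILetI false
open IsDedekindDomain NumberField AutomorphicForm MeasureTheory
open scoped MatrixGroups Topology Classical
noncomputable section
namespace Fermat.Agent.LT.A2.H416
open Fermat.Agent.LT.H130 Fermat.Agent.LT.H556 Fermat.Agent.LT.A2 Fermat.Agent.LT.H470
open Fermat.Agent.LT.T8.H864 Fermat.Agent.LT.H556.T0 Fermat.Agent.LT.A2.H971

variable {K : Type} [Field K] [NumberField K]

/-! ## The eigenfunction attached to `g₀` -/

theorem eigenData_zero416 :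
    EigenData470 (fun _ : E3 => (0 : ℂ)) (fun _ => 0) (fun _ => 0) where
  d1 := fun p _ => hasFDerivAt_const (0 : ℂ) p
  d2 := fun p _ => hasFDerivAt_const (0 : E3 →L[ℝ] ℂ) p
  cont := continuousOn_const
  pde := fun p _ => by simp

/-- **The Whittaker function on the upper half-space at `w`** is a solution of the hyperbolic
Laplace equation. -/
theorem exists_eigen416 (hB : BesselInvC) (hE : EigenOdeC) (D : KData K)
    (η : (A0.Adl K)ˣ → ℂ) (hT1 : T1.T1Out K) (hgood : D.Good) (hstd : WL.IsStd D η)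
    {W : A0.G K → ℂ} (hW : D.IsWhit W) {w : InfinitePlace K} (hw : w.IsComplex)
    (hsc : ∀ z : A0.G K, A0.IsArchPosScalar w z → ∀ g : A0.G K, W (g * z) = W g)
    {g₀ : A0.G K} (hg₀ : A0.TrivAtInf w g₀) :
    ∃ (f : E3 → ℂ) (f' : E3 → E3 →L[ℝ] ℂ) (f'' : E3 → E3 →L[ℝ] E3 →L[ℝ] ℂ),
      EigenData470 f f' f'' ∧ ∀ (x : ℂ) (y : ℝ) (hy : 0 < y),
        W (g₀ * locInfComplex hw (upperU x y hy.ne')) = f (x.re, x.im, y) := by
  by_cases hG : InGPlus D.t D.n g₀
  · obtain ⟨m₀, hadm₀⟩ := hG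
    obtain ⟨m₁, hadm, hm₁⟩ := exists_adm_triv416 w hg₀ hadm₀
    obtain ⟨c, hc0, hψ, hcpx⟩ := hstd.cpx w hw
    obtain ⟨ω₁, ω₂, hs, hp, hne⟩ := exists_roots416 hgood.torus.irred w
    have hc : CpxAt D w c ω₁ ω₂ := hcpx ω₁ ω₂ hs hp
    obtain ⟨J, J1, J2, hJ, h1, h2, hode⟩ :=
      bessel_orbital416 hB D η hT1 hgood hstd hw hc0 hs hp hne hc hg₀ hm₁ hadm
    have hode' : ∀ y : ℝ, 0 < y → (y : ℂ) * J2 y + J1 y
        - (((4 * Real.pi * c.re) ^ 2 + (-(4 * Real.pi * c.im)) ^ 2 : ℝ) : ℂ) * (y : ℂ) * J y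
          = 0 := by
      intro y hy
      have h := hode y hy
      have hn : ‖c‖ ^ 2 = c.re ^ 2 + c.im ^ 2 := by
        rw [Complex.sq_norm, Complex.normSq_apply]; ring
      have e : ((4 * (2 * Real.pi * ‖c‖) ^ 2 * y : ℝ) : ℂ)
          = (((4 * Real.pi * c.re) ^ 2 + (-(4 * Real.pi * c.im)) ^ 2 : ℝ) : ℂ) * (y : ℂ) := by
        rw [← Complex.ofReal_mul]
        congr 1
        have : (2 * Real.pi * ‖c‖) ^ 2 = 4 * Real.pi ^ 2 * ‖c‖ ^ 2 := by ring
        rw [this, hn]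
        ring
      rw [e] at h
      exact h
    obtain ⟨f', f'', hf⟩ := hE (4 * Real.pi * c.re) (-(4 * Real.pi * c.im)) J J1 J2 h1 h2 hode'
    refine ⟨_, f', f'', hf, fun x y hy => ?_⟩
    have hU := whit_upper416 D η hT1 hgood hstd hW hw hsc hg₀ hadm x hy
    have hint : D.intT {m | InTorus1 D.t D.n m}
        (fun m => D.F g₀ (m * m₁)
            ((cIdl hw (sqU y hy) : A0.Adl K) • ((1 : A0.Adl K), (0 : A0.Adl K)))
          * D.χT (m * m₁)) = J y := hJ y hy
    rw [hU, hint, hψ _ (adlAtInf_locAdd w _), locAdd_fst_self, extensionEmbedding_cplxHom]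
    show _ = Complex.exp (Complex.I * (((4 * Real.pi * c.re : ℝ) : ℂ) * ((x.re : ℝ) : ℂ)
      + ((-(4 * Real.pi * c.im) : ℝ) : ℂ) * ((x.im : ℝ) : ℂ))) * (((y : ℝ) : ℂ) * J y)
    congr 2
    rw [Complex.mul_re]
    push_cast
    ring
  · refine ⟨fun _ => 0, fun _ => 0, fun _ => 0, eigenData_zero416, fun x y hy => ?_⟩
    exact hW.off _ (fun h => hG (inGPlus_of_mul_locInfComplex416 hw _ h))


/-! ## The top -/

/-- The complex matrix of `g` at the complex place `w`, as an element of `GL₂(ℂ)`. -/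
def cplxComp {w : InfinitePlace K} (hw : w.IsComplex) : A0.G K →* GL (Fin 2) ℂ :=
  (Matrix.GeneralLinearGroup.map
    (InfinitePlace.Completion.ringEquivComplexOfIsComplex hw).toRingHom).comp (infCompHom w)

theorem locInfComplex_cplxComp {w : InfinitePlace K} (hw : w.IsComplex) (g : A0.G K) :
    (locInfComplex hw (cplxComp hw g) : A0.G K) = locInf w (infCompHom w g) := by
  show locInf w (Matrix.GeneralLinearGroup.map (cplxHom hw) (cplxComp hw g)) = _
  congr 1
  refine Units.ext (Matrix.ext fun i j => ?_)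
  exact (InfinitePlace.Completion.ringEquivComplexOfIsComplex hw).symm_apply_apply _

/-- **A2.03.7 WHIT-MEAN from its sub-leaves.** -/
theorem whitMean_of_leaves416 (hB : BesselInvC) (hE : EigenOdeC) (hA : ArchInvC)
    (hI : IwasawaGL2C) : WL.WhitMeanC := by
  intro K _ _ D η hT1 hgood hstd W hW w hw d hd Y hY g
  obtain ⟨hsc', hk'⟩ := hA K D hT1 hgood W hW
  have hsc := hsc' w
  have hk := hk' w
  -- the component of `g` at `w`
  set γ : GL (Fin 2) ℂ := cplxComp hw g with hγ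
  set g₀ : A0.G K := g * (locInfComplex hw γ)⁻¹ with hg₀def
  have hg : g = g₀ * locInfComplex hw γ := by rw [hg₀def, inv_mul_cancel_right]
  have hg₀ : A0.TrivAtInf w g₀ := by
    rw [trivAtInf_iff_hom, hg₀def, map_mul, map_inv, hγ, locInfComplex_cplxComp,
      infCompHom_locInf_self, mul_inv_cancel]
  obtain ⟨f, f', f'', hf, hfW⟩ := exists_eigen416 hB hE D η hT1 hgood hstd hW hw hsc hg₀
  -- the function on `GL₂(ℂ)`
  set Ψ : Matrix (Fin 2) (Fin 2) ℂ → ℂ := fun M =>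
    if h : M.det ≠ 0 then W (g₀ * locInfComplex hw (Matrix.GeneralLinearGroup.mkOfDetNeZero M h))
    else 0 with hΨdef
  have hΨG : ∀ M : GL (Fin 2) ℂ,
      Ψ (M : Matrix (Fin 2) (Fin 2) ℂ) = W (g₀ * locInfComplex hw M) := by
    intro M
    have hdet : (M : Matrix (Fin 2) (Fin 2) ℂ).det ≠ 0 := by
      have := (Matrix.GeneralLinearGroup.det M).ne_zero
      rwa [Matrix.GeneralLinearGroup.val_det_apply] at this
    rw [hΨdef]
    simp only [dif_pos hdet]
    congr 3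
    exact Units.ext rfl
  have hΨ : ∀ M : Matrix (Fin 2) (Fin 2) ℂ, M.det ≠ 0 → Ψ M = f (jpt M) := by
    intro M hM
    obtain ⟨x, y, ρ, hy, hρ, u, hu, hMeq, hj⟩ := hI (Matrix.GeneralLinearGroup.mkOfDetNeZero M hM)
    have h1 := hΨG (Matrix.GeneralLinearGroup.mkOfDetNeZero M hM)
    have hcoe : ((Matrix.GeneralLinearGroup.mkOfDetNeZero M hM : GL (Fin 2) ℂ) :
        Matrix (Fin 2) (Fin 2) ℂ) = M := rfl
    rw [hcoe] at h1 hj
    rw [h1, hj, hMeq, map_mul, map_mul, ← mul_assoc, ← mul_assoc,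
      hk _ (isArchCompact_locInfComplex hw u hu),
      hsc _ (isArchPosScalar_locInfComplex hw _ ρ hρ (coe_scalarU _ _)), hfW x y hy]
  have hγdet : (γ : Matrix (Fin 2) (Fin 2) ℂ).det ≠ 0 := by
    have := (Matrix.GeneralLinearGroup.det γ).ne_zero
    rwa [Matrix.GeneralLinearGroup.val_det_apply] at this
  have key := frameMVP_euler470 hf Ψ hΨ (γ : Matrix (Fin 2) (Fin 2) ℂ) hγdet hd
  rw [hΨG γ, ← hg] at key
  rw [← key]
  congr 1
  funext α
  congr 1
  funext β
  have hYeq : Y α β = locInfComplex hw (eulerU α β d) :=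
    eq_locInfComplex hw (hY α β).1 (eulerU α β d) ((hY α β).2.trans (coe_eulerU α β d).symm)
  have hmat : (γ : Matrix (Fin 2) (Fin 2) ℂ) * (rotZ470 α * rotY470 β * torus470 d)
      = ((γ * eulerU α β d : GL (Fin 2) ℂ) : Matrix (Fin 2) (Fin 2) ℂ) := by
    rw [Units.val_mul, coe_eulerU]
    rfl
  rw [hmat, hΨG, map_mul, ← mul_assoc, ← hg, hYeq]

end Fermat.Agent.LT.A2.H416
end

end
-- ===== PACK-END LT/A2/H416/MeanTop.lean

-- ===== PACK-BEGIN LT/CFT/H681/EmbRay.lean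
section



/-!
# LT / tower CFT : the EMBEDDED RAY FORM of the reciprocity law  (helper681)

From `∑_v inv_v (a ∪ δχ) = 0` (main: `S55.G.Rec.ReciprocitySpec`) to a statement without
Brauer groups: for an open `U ≤ G_ℚ` (`K = ℚ̄^U`), a continuous character `χ : U → ℤ/n` and
`a ∈ Kˣ` close to `1` at the finitely many bad primes,

  `∑_{q ∉ B} ∑_{r ∈ R q} ord_{(q,r)}(a) • χ(Frob_{(q,r)}) = 0`  in `ℤ/n`.

* `zmodToCircle681 n : ZMod n →+ ℚ/ℤ`, injective.
* `IsLocalTerm681 U χ q g a t` : `t = k • χ(φ)`, `φ` a Frobenius element of the place `(q, g)` of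
  `K` and `f · k = vdeg (a)`, `f` the residue degree (i.e. `k = ord_v (a)`).
* `exists_isLocalTerm681`, `invAt_eq_of_isLocalTerm681`.
* `exists_bad_primes_char681` : `χ` is unramified at all places above `q ∉ B`.
* `embRay_of_sumInv681` : the ray form from `I.sumInv U R (gcc U n χ a) = 0`.
* `embRay_odd681` : unconditional for `n = p ^ k`, `p` an odd prime (main `reciprocityFull`).
-/

set_option autoImplicit false

noncomputable section

namespace Fermat.Agent.LT.CFT.H681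

open Fermat.Agent.S55.G.Rec groupCohomology

local notation "Qb" => AlgebraicClosure ℚ
local notation "GQ" => (AlgebraicClosure ℚ ≃ₐ[ℚ] AlgebraicClosure ℚ)

/-! ## `ℤ/n → ℚ/ℤ` -/

/-- `c ↦ c / n`, `ℤ/n → ℚ/ℤ`. -/
def zmodToCircle681 (n : ℕ) [NeZero n] : ZMod n →+ AddCircle (1 : ℚ) :=
  ZMod.lift n ⟨zmultiplesHom (AddCircle (1 : ℚ)) (((1 / n : ℚ) : ℚ) : AddCircle (1 : ℚ)), by
    have hn : (n : ℚ) ≠ 0 := Nat.cast_ne_zero.mpr (NeZero.ne n)
    show ((n : ℕ) : ℤ) • (((1 / n : ℚ) : ℚ) : AddCircle (1 : ℚ)) = 0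
    rw [← AddCircle.coe_zsmul, zsmul_eq_mul]
    have : (((n : ℕ) : ℤ) : ℚ) * (1 / n) = 1 := by
      push_cast
      field_simp
    rw [this]
    exact AddCircle.coe_period 1⟩

lemma zmodToCircle681_intCast (n : ℕ) [NeZero n] (m : ℤ) :
    zmodToCircle681 n (m : ZMod n) = (((m : ℚ) / n : ℚ) : AddCircle (1 : ℚ)) := by
  unfold zmodToCircle681
  rw [ZMod.lift_coe]
  show m • (((1 / n : ℚ) : ℚ) : AddCircle (1 : ℚ)) = _
  rw [← AddCircle.coe_zsmul, zsmul_eq_mul, mul_one_div]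

lemma zmodToCircle681_apply (n : ℕ) [NeZero n] (c : ZMod n) :
    zmodToCircle681 n c = (((c.val : ℚ) / n : ℚ) : AddCircle (1 : ℚ)) := by
  have h := zmodToCircle681_intCast n (c.val : ℤ)
  rw [Int.cast_natCast, ZMod.natCast_zmod_val] at h
  rw [h]
  norm_num

lemma zmodToCircle681_zsmul (n : ℕ) [NeZero n] (k : ℤ) (c : ZMod n) :
    zmodToCircle681 n (k • c) =
      ((((k : ℚ) * ((c.val : ℕ) : ℚ) / (n : ℚ) : ℚ)) : AddCircle (1 : ℚ)) := by
  rw [map_zsmul, zmodToCircle681_apply, ← AddCircle.coe_zsmul, zsmul_eq_mul, mul_div_assoc]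

lemma zmodToCircle681_injective (n : ℕ) [NeZero n] : Function.Injective (zmodToCircle681 n) := by
  rw [injective_iff_map_eq_zero]
  intro c hc
  rw [zmodToCircle681_apply, AddCircle.coe_eq_zero_iff] at hc
  obtain ⟨m, hm⟩ := hc
  have hn : (n : ℚ) ≠ 0 := Nat.cast_ne_zero.mpr (NeZero.ne n)
  have hn0 : 0 < n := Nat.pos_of_ne_zero (NeZero.ne n)
  have h1 : ((c.val : ℤ) : ℚ) = ((m * n : ℤ) : ℚ) := by
    push_cast
    rw [zsmul_eq_mul, mul_one] at hm
    rw [hm]
    field_simp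
  have h2 : (c.val : ℤ) = m * n := by exact_mod_cast h1
  have h3 : (c.val : ℤ) < n := by exact_mod_cast ZMod.val_lt c
  have h4 : (0 : ℤ) ≤ c.val := Int.natCast_nonneg _
  have hnZ : (0 : ℤ) < n := by exact_mod_cast hn0
  have hm0 : m = 0 := by
    by_contra hne
    rcases lt_or_gt_of_ne hne with hneg | hpos
    · have : m * (n : ℤ) < 0 := mul_neg_of_neg_of_pos hneg hnZ
      omega
    · have : (n : ℤ) ≤ m * n := le_mul_of_one_le_left hnZ.le hpos
      omega
  rw [hm0, zero_mul] at h2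
  have h5 : c.val = 0 := by exact_mod_cast h2
  exact (ZMod.val_eq_zero c).mp h5

/-! ## Local terms -/

/-- `t = ord_v (a) • χ (Frob_v)` at the place `v` of `K = ℚ̄^U` induced by `ι_q ∘ g⁻¹`:
`t = k • χ (φ)` for a Frobenius element `φ` of `locSub q g U` and `vdeg (a) = f · k`,
`f` the residue degree. -/
def IsLocalTerm681 (U : Subgroup GQ) {n : ℕ} (χ : ↥U →* Multiplicative (ZMod n)) (q : ℕ)
    [Fact q.Prime] (g : GQ) (a : Qbˣ) (t : ZMod n) : Prop :=
  ∃ (f : ℕ) (φ : ↥(locSub q g U)) (k : ℤ), IsResidueDegree q (locSub q g U) f ∧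
    (∀ x : PadicAlgCl q, ‖x‖ ≤ 1 →
      ‖(φ : PadicAlgCl q ≃ₐ[ℚ_[q]] PadicAlgCl q) x - x ^ (q ^ f)‖ < 1) ∧
    vdeg q (locSub q g U) (locPushMul q g a) = f * k ∧
    t = k • chiAdd χ (locHom q g U φ)

/-- Local terms exist at every place. -/
theorem exists_isLocalTerm681 {U : Subgroup GQ} (hU : IsOpenQ U) {n : ℕ}
    (χ : ↥U →* Multiplicative (ZMod n)) (q : ℕ) [Fact q.Prime] (g : GQ) (a : Qbˣ)
    (ha : GFixed U a) : ∃ t : ZMod n, IsLocalTerm681 U χ q g a t := by
  obtain ⟨f, φ, π, hf, hφV, hφ, -, -, hdec⟩ :=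
    H931.localStructure q (locSub q g U) (H181.isOpenL_locSub q g hU)
  obtain ⟨k, u, -, -, -, hk⟩ := hdec (locPushMul q g a) (H496.lFixed_locPushMul q g U a ha)
  exact ⟨_, f, ⟨φ, hφV⟩, k, hf, hφ, hk, rfl⟩

/-- The local invariant of a cup class at an unramified place is the local term. -/
theorem inv_eq_of_isLocalTerm681 (I : LocalInvSystem) {U : Subgroup GQ} (hU : IsOpenQ U)
    (n : ℕ) [NeZero n] (χ : ↥U →* Multiplicative (ZMod n)) (hχ : IsLevelConstant₁ U.subtype χ)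
    (q : ℕ) [Fact q.Prime] (g : GQ)
    (hunr : ∀ τ : ↥(locSub q g U),
      IsInertial q (τ : PadicAlgCl q ≃ₐ[ℚ_[q]] PadicAlgCl q) → χ (locHom q g U τ) = 1)
    (a : Qbˣ) (ha : GFixed U a) (t : ZMod n) (ht : IsLocalTerm681 U χ q g a t) :
    I.inv q (locSub q g U) (locBr q g U (gcc U n χ a)) = zmodToCircle681 n t := by
  obtain ⟨f, φ, k, hf, hφ, hk, rfl⟩ := ht
  obtain ⟨⟨h1, h2⟩, h3⟩ := H496.cupLoc q g U n χ a (NeZero.ne n) hχ ha
  rw [h3, zmodToCircle681_zsmul]
  exact unramCup I q (locSub q g U) (H181.isOpenL_locSub q g hU) n (χ.comp (locHom q g U)) h1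
    hunr f hf φ hφ (locPushMul q g a) h2 k hk

/-! ## Bad primes of a character -/

/-- A continuous character of `U` is unramified at all places above almost all primes. -/
theorem exists_bad_primes_char681 (U : Subgroup GQ) {n : ℕ} (χ : ↥U →* Multiplicative (ZMod n))
    (hχ : IsLevelConstant₁ U.subtype χ) :
    ∃ B : Finset ℕ, ∀ (q : ℕ) [Fact q.Prime], q ∉ B → ∀ (g : GQ) (τ : ↥(locSub q g U)),
      IsInertial q (τ : PadicAlgCl q ≃ₐ[ℚ_[q]] PadicAlgCl q) → χ (locHom q g U τ) = 1 := by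
  obtain ⟨F₀, hF₀, h₀⟩ := hχ
  haveI := hF₀
  haveI : Algebra.IsAlgebraic ℚ Qb := AlgebraicClosure.isAlgebraic ℚ
  haveI : IsAlgClosure ℚ Qb := ⟨inferInstance, inferInstance⟩
  haveI : Normal ℚ Qb := IsAlgClosure.normal ℚ Qb
  have hle : F₀ ≤ IntermediateField.normalClosure ℚ ↥F₀ Qb :=
    IntermediateField.le_normalClosure _
  haveI : FiniteDimensional ℚ ↥(IntermediateField.normalClosure ℚ ↥F₀ Qb) :=
    normalClosure.is_finiteDimensional ℚ _ Qb
  haveI : Normal ℚ ↥(IntermediateField.normalClosure ℚ ↥F₀ Qb) := normalClosure.normal ℚ _ Qb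
  obtain ⟨B, hB⟩ := H181.exists_bad_primes_inertial (IntermediateField.normalClosure ℚ ↥F₀ Qb)
  refine ⟨B, fun q _ hq g τ hτ => ?_⟩
  have h1 := hB q hq _ hτ
  have h2 := H181.conj_mem_fixingSubgroup (IntermediateField.normalClosure ℚ ↥F₀ Qb) g h1
  have h3 : U.subtype (locHom q g U τ) ∈ F₀.fixingSubgroup :=
    IntermediateField.fixingSubgroup_antitone hle h2
  have h4 := h₀ 1 (locHom q g U τ) h3
  rw [one_mul, map_one] at h4
  exact h4

/-! ## The embedded ray form -/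

/-- The radius at the prime `q` (junk `1` if `q` is not prime). -/
def eps681 (n : ℕ) (q : ℕ) : ℝ :=
  if h : q.Prime ∧ n ≠ 0 then
    haveI : Fact q.Prime := ⟨h.1⟩
    Classical.choose (locBr_gcc_eq_zero_of_close681 q n h.2)
  else 1

lemma eps681_pos (n q : ℕ) : 0 < eps681 n q := by
  unfold eps681
  split_ifs with h
  · haveI : Fact q.Prime := ⟨h.1⟩
    exact (Classical.choose_spec (locBr_gcc_eq_zero_of_close681 q n h.2)).1
  · exact one_pos

lemma locBr_gcc_eq_zero_of_lt_eps681 (n : ℕ) (hn : n ≠ 0) (q : ℕ) [hq : Fact q.Prime] (g : GQ)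
    (U : Subgroup GQ) (χ : ↥U →* Multiplicative (ZMod n)) (a : Qbˣ)
    (hχ : IsLevelConstant₁ U.subtype χ) (ha : GFixed U a)
    (hlt : ‖padicEmbedding q (g⁻¹ (a : Qb)) - 1‖ < eps681 n q) :
    locBr q g U (gcc U n χ a) = 0 := by
  unfold eps681 at hlt
  rw [dif_pos ⟨hq.out, hn⟩] at hlt
  exact (Classical.choose_spec (locBr_gcc_eq_zero_of_close681 q n hn)).2 g U χ a hχ ha hlt

/-- **Embedded ray form**, from the vanishing of the sum of the local invariants of `a ∪ δχ`. -/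
theorem embRay_of_sumInv681 (I : LocalInvSystem) {U : Subgroup GQ} (hU : IsOpenQ U) (n : ℕ)
    [NeZero n] (χ : ↥U →* Multiplicative (ZMod n)) (hχ : IsLevelConstant₁ U.subtype χ) :
    ∃ B : Finset ℕ, ∀ a : Qbˣ, GFixed U a →
      (∀ q ∈ B, ∀ [Fact q.Prime] (g : GQ), ‖padicEmbedding q (g⁻¹ (a : Qb)) - 1‖ < eps681 n q) →
      ∀ R : Nat.Primes → Finset GQ, I.sumInv U R (gcc U n χ a) = 0 →
      ∀ t : Nat.Primes → GQ → ZMod n,
        (∀ q : Nat.Primes, (q : ℕ) ∉ B → ∀ r ∈ R q,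
          haveI : Fact (q : ℕ).Prime := ⟨q.2⟩
          IsLocalTerm681 U χ (q : ℕ) r a (t q r)) →
        (Function.support fun q : Nat.Primes =>
          ∑ r ∈ R q, if (q : ℕ) ∈ B then 0 else t q r).Finite ∧
        ∑ᶠ q : Nat.Primes, ∑ r ∈ R q, (if (q : ℕ) ∈ B then 0 else t q r) = 0 := by
  obtain ⟨B, hB⟩ := exists_bad_primes_char681 U χ hχ
  refine ⟨B, fun a ha hclose R hsum t ht => ?_⟩
  have hn : n ≠ 0 := NeZero.ne n
  -- termwise comparison
  have hterm : ∀ (q : Nat.Primes), ∀ r ∈ R q,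
      I.invAt q r U (gcc U n χ a) = zmodToCircle681 n (if (q : ℕ) ∈ B then 0 else t q r) := by
    intro q r hr
    haveI : Fact (q : ℕ).Prime := ⟨q.2⟩
    by_cases hq : (q : ℕ) ∈ B
    · rw [if_pos hq, map_zero]
      apply I.invAt_eq_zero
      exact locBr_gcc_eq_zero_of_lt_eps681 n hn (q : ℕ) r U χ a hχ ha (hclose q hq r)
    · rw [if_neg hq]
      exact inv_eq_of_isLocalTerm681 I hU n χ hχ (q : ℕ) r (hB q hq r) a ha (t q r) (ht q hq r hr)
  have hfun : (fun q : Nat.Primes => ∑ r ∈ R q, I.invAt q r U (gcc U n χ a)) =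
      fun q : Nat.Primes =>
        zmodToCircle681 n (∑ r ∈ R q, if (q : ℕ) ∈ B then 0 else t q r) := by
    funext q
    rw [map_sum]
    exact Finset.sum_congr rfl fun r hr => hterm q r hr
  have hfin : (Function.support fun q : Nat.Primes =>
      ∑ r ∈ R q, if (q : ℕ) ∈ B then 0 else t q r).Finite := by
    refine (I.support_finite H181.supportFinite U hU R (gcc U n χ a)).subset ?_
    intro q hq
    rw [Function.mem_support] at hq ⊢
    rw [congrFun hfun q]
    intro h0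
    exact hq (zmodToCircle681_injective n (h0.trans (map_zero _).symm))
  refine ⟨hfin, ?_⟩
  apply zmodToCircle681_injective n
  rw [map_zero, AddMonoidHom.map_finsum _ hfin]
  have : (fun q : Nat.Primes =>
      zmodToCircle681 n (∑ r ∈ R q, if (q : ℕ) ∈ B then 0 else t q r)) =
      fun q : Nat.Primes => ∑ r ∈ R q, I.invAt q r U (gcc U n χ a) := hfun.symm
  rw [this]
  exact hsum

/-- `a ∪ δχ` has `n`-torsion. -/
lemma gcc_torsion681 (U : Subgroup GQ) (n : ℕ) (hn : n ≠ 0) (χ : ↥U →* Multiplicative (ZMod n))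
    (hχ : IsLevelConstant₁ U.subtype χ) (a : Qbˣ) (ha : GFixed U a) :
    n • gcc U n χ a = 0 := by
  have hone : IsLevelConstant₁ U.subtype (1 : ↥U →* Multiplicative (ZMod n)) :=
    ⟨⊥, inferInstance, fun _ _ _ => rfl⟩
  have h1 : gcc U n 1 a = 0 := by
    have h := H496.gcc_mul_char U n 1 1 a hn hone hone ha
    rw [mul_one] at h
    exact left_eq_add.mp h
  have hpow : ∀ k : ℕ, IsLevelConstant₁ U.subtype (χ ^ k : ↥U →* Multiplicative (ZMod n)) ∧
      gcc U n (χ ^ k) a = k • gcc U n χ a := by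
    intro k
    induction k with
    | zero =>
      rw [pow_zero, zero_smul]
      exact ⟨hone, h1⟩
    | succ k ih =>
      rw [pow_succ]
      refine ⟨H496.isLevelConstant₁_mul_char ih.1 hχ, ?_⟩
      rw [H496.gcc_mul_char U n _ _ a hn ih.1 hχ ha, ih.2, succ_nsmul]
  rw [← (hpow n).2, char_pow_card681 n χ, h1]

/-- **Embedded ray form, odd prime powers** (unconditional: main `reciprocityFull`). -/
theorem embRay_odd681 (I : LocalInvSystem) (p : ℕ) [Fact p.Prime] (hp : p ≠ 2) (k : ℕ)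
    {U : Subgroup GQ} (hU : IsOpenQ U) (χ : ↥U →* Multiplicative (ZMod (p ^ k)))
    (hχ : IsLevelConstant₁ U.subtype χ) :
    ∃ B : Finset ℕ, ∀ a : Qbˣ, GFixed U a →
      (∀ q ∈ B, ∀ [Fact q.Prime] (g : GQ),
        ‖padicEmbedding q (g⁻¹ (a : Qb)) - 1‖ < eps681 (p ^ k) q) →
      ∀ R : Nat.Primes → Finset GQ, IsPlaceReps U R →
      ∀ t : Nat.Primes → GQ → ZMod (p ^ k),
        (∀ q : Nat.Primes, (q : ℕ) ∉ B → ∀ r ∈ R q,
          haveI : Fact (q : ℕ).Prime := ⟨q.2⟩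
          IsLocalTerm681 U χ (q : ℕ) r a (t q r)) →
        (Function.support fun q : Nat.Primes =>
          ∑ r ∈ R q, if (q : ℕ) ∈ B then 0 else t q r).Finite ∧
        ∑ᶠ q : Nat.Primes, ∑ r ∈ R q, (if (q : ℕ) ∈ B then 0 else t q r) = 0 := by
  haveI : NeZero (p ^ k) := ⟨pow_ne_zero k (Fact.out : p.Prime).ne_zero⟩
  obtain ⟨B, hB⟩ := embRay_of_sumInv681 I hU (p ^ k) χ hχ
  refine ⟨B, fun a ha hclose R hR t ht => hB a ha hclose R ?_ t ht⟩
  exact (reciprocityFull I p hp U hU (gcc U (p ^ k) χ a)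
    ⟨k, gcc_torsion681 U (p ^ k) (NeZero.ne _) χ hχ a ha⟩ R hR).2

end Fermat.Agent.LT.CFT.H681

end
end
-- ===== PACK-END LT/CFT/H681/EmbRay.lean

-- ===== PACK-BEGIN LT/CFT/H681/Dict1.lean
section


/-!
# LT / tower CFT : dictionary, part 1 — places `(q, g)` of `K ⊆ ℚ̄` as primes of `𝓞 K`  (helper681)

`K` a number field inside `ℚ̄`, `q` a prime, `g ∈ G_ℚ`; the place of `K` induced by
`ι_q ∘ g⁻¹ : ℚ̄ → ℚ̄_q`.

* `pn681 q g x = ‖ι_q (g⁻¹ x)‖`, the norm of the place on `ℚ̄`;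
* `placePrime681 K q g : Ideal (𝓞 K)`, `placeV681 K q g : HeightOneSpectrum (𝓞 K)`;
* `pn_eq_one_of_valuation_eq_one681` : `v x = 1 → ‖x‖ = 1`;
* `pn_eq_zpow681` : `‖x‖ = c ^ m` where `v x = exp (-m)`, `c` the norm of a `v`-uniformizer.
-/

set_option autoImplicit false

noncomputable section

namespace Fermat.Agent.LT.CFT.H681

open Fermat.Agent.S55.G.Rec groupCohomology NumberField IsDedekindDomain
open scoped NumberField WithZero

local notation "Qb" => AlgebraicClosure ℚ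
local notation "GQ" => (AlgebraicClosure ℚ ≃ₐ[ℚ] AlgebraicClosure ℚ)

/-! ## The norm of a place on `ℚ̄` -/

section Norm

variable (q : ℕ) [Fact q.Prime] (g : GQ)

/-- `x ↦ ‖ι_q (g⁻¹ x)‖`. -/
def pn681 (x : Qb) : ℝ := ‖padicEmbedding q (g⁻¹ x)‖

lemma pn681_def (x : Qb) : pn681 q g x = ‖padicEmbedding q (g⁻¹ x)‖ := rfl

lemma pn681_zero : pn681 q g 0 = 0 := by simp [pn681]

lemma pn681_one : pn681 q g 1 = 1 := by simp [pn681]

lemma pn681_mul (x y : Qb) : pn681 q g (x * y) = pn681 q g x * pn681 q g y := by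
  simp [pn681]

lemma pn681_pow (x : Qb) (m : ℕ) : pn681 q g (x ^ m) = pn681 q g x ^ m := by
  simp [pn681]

lemma pn681_inv (x : Qb) : pn681 q g x⁻¹ = (pn681 q g x)⁻¹ := by
  simp [pn681]

lemma pn681_zpow (x : Qb) (m : ℤ) : pn681 q g (x ^ m) = pn681 q g x ^ m := by
  simp [pn681]

lemma pn681_neg (x : Qb) : pn681 q g (-x) = pn681 q g x := by
  simp [pn681]

lemma pn681_nonneg (x : Qb) : 0 ≤ pn681 q g x := norm_nonneg _

lemma pn681_pos {x : Qb} (hx : x ≠ 0) : 0 < pn681 q g x := by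
  unfold pn681
  rw [norm_pos_iff]
  exact (map_ne_zero _).mpr ((map_ne_zero _).mpr hx)

lemma pn681_add_le_max (x y : Qb) : pn681 q g (x + y) ≤ max (pn681 q g x) (pn681 q g y) := by
  unfold pn681
  rw [map_add, map_add]
  exact PadicAlgCl.isNonarchimedean q _ _

lemma pn681_sub_le_max (x y : Qb) : pn681 q g (x - y) ≤ max (pn681 q g x) (pn681 q g y) := by
  have h := pn681_add_le_max q g x (-y)
  rwa [← sub_eq_add_neg, pn681_neg] at h

lemma pn681_le_one_of_isIntegral {x : Qb} (hx : IsIntegral ℤ x) : pn681 q g x ≤ 1 :=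
  H181.norm_padicEmbedding_le_one q (map_isIntegral_int (g⁻¹ : GQ) hx)

lemma pn681_natCast_self : pn681 q g (q : Qb) = (q : ℝ)⁻¹ := by
  unfold pn681
  rw [map_natCast]
  exact Fermat.Agent.S55.Bridge.norm_padicEmbedding_natCast_self q

lemma pn681_natCast_self_lt_one : pn681 q g (q : Qb) < 1 := by
  rw [pn681_natCast_self]
  have hq : (1 : ℝ) < q := by exact_mod_cast (Fact.out : q.Prime).one_lt
  exact inv_lt_one_of_one_lt₀ hq

end Norm

/-! ## The prime of `𝓞 K` at a place -/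

section Prime

variable (K : IntermediateField ℚ Qb) [NumberField K] (q : ℕ) [Fact q.Prime] (g : GQ)

lemma isIntegral_coe681 (x : 𝓞 K) : IsIntegral ℤ (((x : K) : Qb)) :=
  map_isIntegral_int K.val (NumberField.RingOfIntegers.isIntegral_coe x)

lemma pn681_coe_le_one (x : 𝓞 K) : pn681 q g (((x : K) : Qb)) ≤ 1 :=
  pn681_le_one_of_isIntegral q g (isIntegral_coe681 K x)

/-- The prime `{x ∈ 𝓞 K | ‖ι_q (g⁻¹ x)‖ < 1}` of `𝓞 K`. -/
def placePrime681 : Ideal (𝓞 K) where
  carrier := {x | pn681 q g (((x : K) : Qb)) < 1}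
  add_mem' := fun {a b} ha hb => by
    show pn681 q g ((((a + b : 𝓞 K) : K) : Qb)) < 1
    have h : ((((a + b : 𝓞 K) : K) : Qb)) = ((a : K) : Qb) + ((b : K) : Qb) := by
      push_cast
      rfl
    rw [h]
    exact lt_of_le_of_lt (pn681_add_le_max q g _ _) (max_lt ha hb)
  zero_mem' := by
    show pn681 q g ((((0 : 𝓞 K) : K) : Qb)) < 1
    have h : ((((0 : 𝓞 K) : K) : Qb)) = 0 := by
      push_cast
      rfl
    rw [h, pn681_zero]
    exact one_pos
  smul_mem' := fun c x hx => by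
    show pn681 q g ((((c * x : 𝓞 K) : K) : Qb)) < 1
    have h : ((((c * x : 𝓞 K) : K) : Qb)) = ((c : K) : Qb) * ((x : K) : Qb) := by
      push_cast
      rfl
    rw [h, pn681_mul]
    calc pn681 q g ((c : K) : Qb) * pn681 q g ((x : K) : Qb)
        ≤ 1 * pn681 q g ((x : K) : Qb) :=
          mul_le_mul_of_nonneg_right (pn681_coe_le_one K q g c) (pn681_nonneg q g _)
      _ = pn681 q g ((x : K) : Qb) := one_mul _
      _ < 1 := hx

lemma mem_placePrime681 {x : 𝓞 K} :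
    x ∈ placePrime681 K q g ↔ pn681 q g (((x : K) : Qb)) < 1 := Iff.rfl

lemma pn681_eq_one_of_notMem {x : 𝓞 K} (hx : x ∉ placePrime681 K q g) :
    pn681 q g (((x : K) : Qb)) = 1 :=
  le_antisymm (pn681_coe_le_one K q g x) (not_lt.mp hx)

instance placePrime681_isPrime : (placePrime681 K q g).IsPrime := by
  constructor
  · intro h
    have h1 : (1 : 𝓞 K) ∈ placePrime681 K q g := by rw [h]; trivial
    rw [mem_placePrime681] at h1
    have h2 : ((((1 : 𝓞 K) : K) : Qb)) = 1 := by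
      push_cast
      rfl
    rw [h2, pn681_one] at h1
    exact lt_irrefl _ h1
  · intro a b hab
    rw [mem_placePrime681] at hab
    have h : ((((a * b : 𝓞 K) : K) : Qb)) = ((a : K) : Qb) * ((b : K) : Qb) := by
      push_cast
      rfl
    rw [h, pn681_mul] at hab
    by_contra hcon
    rw [not_or] at hcon
    rw [pn681_eq_one_of_notMem K q g hcon.1, pn681_eq_one_of_notMem K q g hcon.2, one_mul] at hab
    exact lt_irrefl _ hab

lemma natCast_mem_placePrime681 : (q : 𝓞 K) ∈ placePrime681 K q g := by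
  rw [mem_placePrime681]
  have h : ((((q : 𝓞 K) : K) : Qb)) = (q : Qb) := by
    push_cast
    rfl
  rw [h]
  exact pn681_natCast_self_lt_one q g

lemma placePrime681_ne_bot : placePrime681 K q g ≠ ⊥ := by
  intro h
  have h1 := natCast_mem_placePrime681 K q g
  rw [h, Ideal.mem_bot] at h1
  have : ((q : ℕ) : 𝓞 K) ≠ 0 := Nat.cast_ne_zero.mpr (Fact.out : q.Prime).ne_zero
  exact this h1

/-- The place as a height-one prime of `𝓞 K`. -/
def placeV681 : HeightOneSpectrum (𝓞 K) :=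
  ⟨placePrime681 K q g, placePrime681_isPrime K q g, placePrime681_ne_bot K q g⟩

@[simp] lemma placeV681_asIdeal : (placeV681 K q g).asIdeal = placePrime681 K q g := rfl

/-- `v x = 1 → ‖x‖ = 1`. -/
theorem pn_eq_one_of_valuation_eq_one681 (x : K)
    (hx : (placeV681 K q g).valuation K x = 1) : pn681 q g (x : Qb) = 1 := by
  set v := placeV681 K q g with hv
  obtain ⟨n, d, hnd⟩ := v.exists_primeCompl_mul_eq_or_mul_eq (K := K) x
  have hd : (d : 𝓞 K) ∉ placePrime681 K q g := d.2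
  have hvd : v.valuation K (algebraMap (𝓞 K) K d) = 1 := by
    rw [HeightOneSpectrum.valuation_of_algebraMap]
    exact (v.intValuation_eq_one_iff_mem_primeCompl _).mpr d.2
  have hpd : pn681 q g ((((d : 𝓞 K) : K)) : Qb) = 1 := pn681_eq_one_of_notMem K q g hd
  have hvn : v.valuation K (algebraMap (𝓞 K) K n) = 1 := by
    rcases hnd with h | h
    · rw [← h, map_mul, hx, hvd, one_mul]
    · have h1 := congrArg (v.valuation K) h
      rw [map_mul, hx, hvd, one_mul] at h1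
      exact h1
  have hn : n ∉ placePrime681 K q g := by
    rw [HeightOneSpectrum.valuation_of_algebraMap] at hvn
    exact (v.intValuation_eq_one_iff_mem_primeCompl _).mp hvn
  have hpn : pn681 q g ((((n : 𝓞 K) : K)) : Qb) = 1 := pn681_eq_one_of_notMem K q g hn
  rcases hnd with h | h
  · have h1 : (x : Qb) * ((((d : 𝓞 K) : K)) : Qb) = ((((n : 𝓞 K) : K)) : Qb) := by
      have := congrArg (fun y : K => (y : Qb)) h
      simpa using this
    have h2 := congrArg (pn681 q g) h1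
    rw [pn681_mul, hpd, hpn, mul_one] at h2
    exact h2
  · have h1 : (x : Qb) * ((((n : 𝓞 K) : K)) : Qb) = ((((d : 𝓞 K) : K)) : Qb) := by
      have := congrArg (fun y : K => (y : Qb)) h
      simpa using this
    have h2 := congrArg (pn681 q g) h1
    rw [pn681_mul, hpd, hpn, mul_one] at h2
    exact h2

/-- A `v`-uniformizer in `𝓞 K`. -/
def unif681 : 𝓞 K := Classical.choose (placeV681 K q g).intValuation_exists_uniformizer

lemma unif681_spec : (placeV681 K q g).intValuation (unif681 K q g) = WithZero.exp (-1 : ℤ) :=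
  Classical.choose_spec (placeV681 K q g).intValuation_exists_uniformizer

lemma unif681_ne_zero : unif681 K q g ≠ 0 := by
  intro h
  have := unif681_spec K q g
  rw [h, map_zero] at this
  exact WithZero.exp_ne_zero.symm this

lemma unif681_mem : unif681 K q g ∈ placePrime681 K q g := by
  have h := unif681_spec K q g
  have h1 : (placeV681 K q g).intValuation (unif681 K q g) < 1 := by
    rw [h, ← WithZero.exp_zero, WithZero.exp_lt_exp]
    norm_num
  exact ((placeV681 K q g).intValuation_lt_one_iff_mem _).mp h1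

/-- The norm of the `v`-uniformizer. -/
def cst681 : ℝ := pn681 q g ((((unif681 K q g : 𝓞 K) : K)) : Qb)

lemma cst681_lt_one : cst681 K q g < 1 := unif681_mem K q g

lemma cst681_pos : 0 < cst681 K q g := by
  apply pn681_pos
  intro h
  apply unif681_ne_zero K q g
  have h1 : (((unif681 K q g : 𝓞 K) : K)) = 0 := by
    apply Subtype.ext
    exact h
  exact_mod_cast h1

/-- `‖x‖ = c ^ m` where `v x = exp (-m)`. -/
theorem pn_eq_zpow681 (x : K) (m : ℤ)
    (hx : (placeV681 K q g).valuation K x = WithZero.exp (-m)) :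
    pn681 q g (x : Qb) = cst681 K q g ^ m := by
  set v := placeV681 K q g with hv
  set t : K := ((unif681 K q g : 𝓞 K) : K) with ht
  have ht0 : t ≠ 0 := by
    rw [ht]
    exact_mod_cast unif681_ne_zero K q g
  have hvt : v.valuation K t = WithZero.exp (-1 : ℤ) := by
    rw [ht, HeightOneSpectrum.valuation_of_algebraMap]
    exact unif681_spec K q g
  have hy : v.valuation K (x / t ^ m) = 1 := by
    rw [map_div₀, map_zpow₀, hvt, hx, ← WithZero.exp_zsmul, smul_eq_mul, mul_neg, mul_one]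
    exact div_self WithZero.exp_ne_zero
  have h1 := pn_eq_one_of_valuation_eq_one681 K q g _ hy
  have h2 : ((x / t ^ m : K) : Qb) = (x : Qb) / (t : Qb) ^ m := by
    push_cast
    rfl
  rw [h2, div_eq_mul_inv, pn681_mul, pn681_inv, pn681_zpow] at h1
  have hc : pn681 q g (t : Qb) ^ m ≠ 0 :=
    zpow_ne_zero _ (cst681_pos K q g).ne'
  have h3 : pn681 q g (x : Qb) = pn681 q g (t : Qb) ^ m := by
    field_simp at h1
    exact h1
  exact h3

end Prime

end Fermat.Agent.LT.CFT.H681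

end
end
-- ===== PACK-END LT/CFT/H681/Dict1.lean

-- ===== PACK-BEGIN LT/CFT/H681/Dict2.lean
section


/-!
# LT / tower CFT : dictionary, part 2 — local data of `locSub q g U` versus `𝓞 K`  (helper681)

`K` a number field inside `ℚ̄`, `U = Gal(ℚ̄/K)`, `V = locSub q g U`, `P = placePrime681 K q g`.

* `exists_close681` : `K` is dense in the fixed field of `V`;
* `cst_eq_norm_unif681` : the norm of a uniformizer of `V` is the norm of a `P`-uniformizer;
* `valuation_eq_of_vdeg681` : `vdeg (a) = f · k`, `f` the residue degree ⇒ `v_P (a) = exp (-k)`;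
* `card_quot_eq681` : `|𝓞 K / P| = q ^ f`, `f` the residue degree of `V`;
* `frob_cong681` : a Frobenius element `φ` of `V` gives `σ = g · loc φ · g⁻¹ ∈ U` with
  `σ x ≡ x ^ |𝓞 K / P|` modulo the place, for all algebraic integers `x`.
-/

set_option autoImplicit false

noncomputable section

namespace Fermat.Agent.LT.CFT.H681

open Fermat.Agent.S55.G.Rec groupCohomology NumberField IsDedekindDomain
open scoped NumberField WithZero

local notation "Qb" => AlgebraicClosure ℚ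
local notation "GQ" => (AlgebraicClosure ℚ ≃ₐ[ℚ] AlgebraicClosure ℚ)

variable (K : IntermediateField ℚ Qb) [NumberField K] (q : ℕ) [Fact q.Prime] (g : GQ)

lemma isOpenQ_fixingSubgroup681 : IsOpenQ K.fixingSubgroup :=
  ⟨K, inferInstance, le_rfl⟩

lemma fixK_fixingSubgroup681 : H742.fixK K.fixingSubgroup = K := by
  haveI := Fermat.Agent.S54.isGalois_algebraicClosure_rat
  exact InfiniteGalois.fixedField_fixingSubgroup K

/-- The image of `K` is fixed by `locSub q g U`. -/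
lemma isFixedBy_emb681 {x : Qb} (hx : x ∈ K) :
    IsFixedBy q (locSub q g K.fixingSubgroup) (padicEmbedding q (g⁻¹ x)) := by
  intro τ hτ
  rw [mem_locSub] at hτ
  rw [← padicEmbedding_localGaloisToGlobal]
  congr 1
  have h1 := (IntermediateField.mem_fixingSubgroup_iff K _).1 hτ x hx
  have h2 : g (localGaloisToGlobal q τ (g⁻¹ x)) = x := h1
  have h3 := congrArg (g⁻¹ : GQ) h2
  rw [show (g⁻¹ : GQ) (g (localGaloisToGlobal q τ (g⁻¹ x))) = localGaloisToGlobal q τ (g⁻¹ x) from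
    AlgEquiv.symm_apply_apply g _] at h3
  exact h3

/-- **Density** of `K` in the fixed field of `locSub q g U`. -/
theorem exists_close681 (y : PadicAlgCl q)
    (hy : IsFixedBy q (locSub q g K.fixingSubgroup) y) {ε : ℝ} (hε : 0 < ε) :
    ∃ x : K, ‖padicEmbedding q (g⁻¹ (x : Qb)) - y‖ < ε := by
  have h1 := H742.mem_adjoin_of_isFixedBy q (isOpenQ_fixingSubgroup681 K) g y hy
  have h2 : y ∈ Algebra.adjoin ℚ_[q]
      ((H742.imK q g K.fixingSubgroup : Subring (PadicAlgCl q)) : Set (PadicAlgCl q)) := by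
    rw [← IntermediateField.adjoin_toSubalgebra]
    exact h1
  have h3 : y ∈ H742.clK q g K.fixingSubgroup := by
    refine (Algebra.adjoin_le (S := H742.clK q g K.fixingSubgroup) ?_) h2
    intro z hz
    exact Subring.le_topologicalClosure _ hz
  rw [H742.mem_clK_iff, Metric.mem_closure_iff] at h3
  obtain ⟨s, hs, hsy⟩ := h3 ε hε
  rw [SetLike.mem_coe, H742.mem_imK_iff] at hs
  obtain ⟨x, hx, rfl⟩ := hs
  rw [fixK_fixingSubgroup681] at hx
  refine ⟨⟨x, hx⟩, ?_⟩
  rw [dist_comm, dist_eq_norm] at hsy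
  exact hsy

/-- The valuation of a nonzero element is `exp (-m)`. -/
lemma exists_valuation_eq_exp681 {x : K} (hx : x ≠ 0) :
    ∃ m : ℤ, (placeV681 K q g).valuation K x = WithZero.exp (-m) := by
  have h0 : (placeV681 K q g).valuation K x ≠ 0 := (Valuation.ne_zero_iff _).mpr hx
  refine ⟨-WithZero.log ((placeV681 K q g).valuation K x), ?_⟩
  rw [neg_neg, WithZero.exp_log h0]

/-- The norm of a uniformizer of `locSub q g U` is the norm of a `P`-uniformizer. -/
theorem cst_eq_norm_unif681 (π : PadicAlgCl q)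
    (hπ : IsUniformizer q (locSub q g K.fixingSubgroup) π) : cst681 K q g = ‖π‖ := by
  apply le_antisymm
  · exact hπ.2.2.2 _ (isFixedBy_emb681 K q g (SetLike.coe_mem _)) (cst681_lt_one K q g)
  · obtain ⟨x, hxK, hx0, hx⟩ :=
      H742.exists_global_norm_eq q (isOpenQ_fixingSubgroup681 K) g π hπ.2.1 hπ.1
    rw [fixK_fixingSubgroup681] at hxK
    have hx0' : (⟨x, hxK⟩ : K) ≠ 0 := fun h => hx0 (congrArg Subtype.val h)
    obtain ⟨m, hm⟩ := exists_valuation_eq_exp681 K q g hx0'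
    have h1 : pn681 q g x = cst681 K q g ^ m := pn_eq_zpow681 K q g ⟨x, hxK⟩ m hm
    have h2 : ‖π‖ = cst681 K q g ^ m := by rw [← hx, ← h1]; rfl
    have hc0 := cst681_pos K q g
    have hc1 := cst681_lt_one K q g
    have hm1 : 1 ≤ m := by
      by_contra hcon
      rw [not_le] at hcon
      have hm0 : m ≤ 0 := by omega
      have : (1 : ℝ) ≤ cst681 K q g ^ m := one_le_zpow_of_nonpos₀ hc0 hc1.le hm0
      rw [← h2] at this
      exact absurd hπ.2.2.1 (not_lt.mpr this)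
    rw [h2]
    calc cst681 K q g ^ m ≤ cst681 K q g ^ (1 : ℤ) :=
          zpow_le_zpow_right_of_le_one₀ hc0 hc1.le hm1
      _ = cst681 K q g := zpow_one _

/-- **Valuations**: if `vdeg (a) = f · k` with `f` the residue degree of `locSub q g U`, then
`v_P (a) = exp (-k)`. -/
theorem valuation_eq_of_vdeg681 (a : Qbˣ) (ha : (a : Qb) ∈ K) (f : ℕ)
    (hf : IsResidueDegree q (locSub q g K.fixingSubgroup) f) (k : ℤ)
    (hk : vdeg q (locSub q g K.fixingSubgroup) (locPushMul q g a) = f * k) :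
    (placeV681 K q g).valuation K ⟨(a : Qb), ha⟩ = WithZero.exp (-k) := by
  have hU := isOpenQ_fixingSubgroup681 K
  obtain ⟨f₀, φ, π, hf₀, -, -, hπ, -, hdec⟩ :=
    H931.localStructure q (locSub q g K.fixingSubgroup) (H181.isOpenL_locSub q g hU)
  have haG : GFixed K.fixingSubgroup a := by
    intro u hu
    apply Units.ext
    exact (IntermediateField.mem_fixingSubgroup_iff K u).1 hu _ ha
  obtain ⟨k₀, u, -, hu1, hau, hk₀⟩ :=
    hdec (locPushMul q g a) (H496.lFixed_locPushMul q g K.fixingSubgroup a haG)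
  have hff : f₀ = f := H900.isResidueDegree_unique q hf₀ hf
  subst hff
  have hkk : k₀ = k := by
    have h1 : (f₀ : ℤ) * k₀ = f₀ * k := hk₀.symm.trans hk
    have hf0 : (f₀ : ℤ) ≠ 0 := by exact_mod_cast hf.1.ne'
    exact mul_left_cancel₀ hf0 h1
  subst hkk
  have hnorm : pn681 q g (a : Qb) = ‖(π : PadicAlgCl q)‖ ^ k₀ := by
    have h1 : ((locPushMul q g a : (PadicAlgCl q)ˣ) : PadicAlgCl q) =
        (π : PadicAlgCl q) ^ k₀ * (u : PadicAlgCl q) := by
      rw [hau, Units.val_mul, Units.val_zpow_eq_zpow_val]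
    show ‖padicEmbedding q (g⁻¹ (a : Qb))‖ = _
    rw [← locPushMul_coe, h1, norm_mul, norm_zpow, hu1, mul_one]
  have ha0 : (⟨(a : Qb), ha⟩ : K) ≠ 0 := fun h => a.ne_zero (congrArg Subtype.val h)
  obtain ⟨m, hm⟩ := exists_valuation_eq_exp681 K q g ha0
  have h2 : pn681 q g (a : Qb) = cst681 K q g ^ m := pn_eq_zpow681 K q g ⟨(a : Qb), ha⟩ m hm
  rw [cst_eq_norm_unif681 K q g π hπ, hnorm] at h2
  have hπ0 : 0 < ‖(π : PadicAlgCl q)‖ := norm_pos_iff.mpr hπ.2.1
  have hπ1 : ‖(π : PadicAlgCl q)‖ ≠ 1 := hπ.2.2.1.ne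
  have hmk : k₀ = m := zpow_right_injective₀ hπ0 hπ1 h2
  rw [hm, hmk]

/-! ## Residue fields -/

/-- Integral approximation: an element of `K` of norm `≤ 1` is congruent to an algebraic
integer of `K`. -/
lemma exists_integer_close681 (y : K) (hy : pn681 q g (y : Qb) ≤ 1) :
    ∃ z : 𝓞 K, pn681 q g ((((z : K)) : Qb) - (y : Qb)) < 1 := by
  by_cases hy0 : y = 0
  · refine ⟨0, ?_⟩
    rw [hy0]
    have : ((((0 : 𝓞 K) : K)) : Qb) - (((0 : K)) : Qb) = 0 := by
      push_cast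
      simp
    rw [this, pn681_zero]
    exact one_pos
  set v := placeV681 K q g with hv
  obtain ⟨m, hm⟩ := exists_valuation_eq_exp681 K q g hy0
  have h1 : pn681 q g (y : Qb) = cst681 K q g ^ m := pn_eq_zpow681 K q g y m hm
  have hc0 := cst681_pos K q g
  have hc1 := cst681_lt_one K q g
  have hm0 : 0 ≤ m := by
    by_contra hcon
    rw [not_le] at hcon
    have : (1 : ℝ) < cst681 K q g ^ m := one_lt_zpow_of_neg₀ hc0 hc1 hcon
    rw [← h1] at this
    exact absurd hy (not_le.mpr this)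
  have hvy : v.valuation K y ≤ 1 := by
    rw [hm, ← WithZero.exp_zero, WithZero.exp_le_exp]
    omega
  obtain ⟨n, d, hnd⟩ := v.exists_primeCompl_mul_eq_of_integer (K := K) y hvy
  have hd : (d : 𝓞 K) ∉ placePrime681 K q g := d.2
  have hmax : (placePrime681 K q g).IsMaximal := v.isMaximal
  obtain ⟨e, i, hi, hei⟩ := hmax.exists_inv hd
  refine ⟨n * e, ?_⟩
  have h2 : ((((n * e : 𝓞 K) : K)) : Qb) - (y : Qb) = -((y : Qb) * ((((i : 𝓞 K) : K)) : Qb)) := by
    have h3 : (((n : 𝓞 K) : K)) = y * (((d : 𝓞 K) : 𝓞 K) : K) := hnd.symm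
    have h4 : ((((e * d + i : 𝓞 K)) : K)) = 1 := by rw [hei]; rfl
    have h5 : ((((n * e : 𝓞 K) : K))) - y = -(y * (((i : 𝓞 K) : K))) := by
      have h6 : (((e : 𝓞 K) : K)) * (((d : 𝓞 K) : 𝓞 K) : K) + (((i : 𝓞 K) : K)) = 1 := by
        rw [← h4]
        push_cast
        rfl
      have h7 : ((((n * e : 𝓞 K) : K))) = (((n : 𝓞 K) : K)) * (((e : 𝓞 K) : K)) := by
        push_cast
        rfl
      rw [h7, h3]
      linear_combination y * h6
    have := congrArg (fun t : K => (t : Qb)) h5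
    simpa using this
  rw [h2, pn681_neg, pn681_mul]
  calc pn681 q g (y : Qb) * pn681 q g ((((i : 𝓞 K) : K)) : Qb)
      ≤ 1 * pn681 q g ((((i : 𝓞 K) : K)) : Qb) :=
        mul_le_mul_of_nonneg_right hy (pn681_nonneg q g _)
    _ = pn681 q g ((((i : 𝓞 K) : K)) : Qb) := one_mul _
    _ < 1 := hi

section Ultra

variable {F : Type*} [NormedField F] [IsUltrametricDist F]

lemma norm_pow_sub_pow_lt_one681 {x w : F} (hx : ‖x‖ ≤ 1) (hw : ‖w‖ ≤ 1) (h : ‖x - w‖ < 1)
    (c : ℕ) : ‖x ^ c - w ^ c‖ < 1 ∨ c = 0 := by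
  induction c with
  | zero => exact Or.inr rfl
  | succ c ih =>
    left
    have h1 : x ^ (c + 1) - w ^ (c + 1) = x * (x ^ c - w ^ c) + (x - w) * w ^ c := by ring
    rw [h1]
    refine lt_of_le_of_lt (IsUltrametricDist.norm_add_le_max _ _) (max_lt ?_ ?_)
    · rcases ih with ih | ih
      · rw [norm_mul]
        calc ‖x‖ * ‖x ^ c - w ^ c‖ ≤ 1 * ‖x ^ c - w ^ c‖ :=
              mul_le_mul_of_nonneg_right hx (norm_nonneg _)
          _ = ‖x ^ c - w ^ c‖ := one_mul _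
          _ < 1 := ih
      · subst ih
        simp
    · rw [norm_mul, norm_pow]
      calc ‖x - w‖ * ‖w‖ ^ c ≤ ‖x - w‖ * 1 :=
            mul_le_mul_of_nonneg_left (pow_le_one₀ (norm_nonneg _) hw) (norm_nonneg _)
        _ = ‖x - w‖ := mul_one _
        _ < 1 := h

end Ultra

/-- Every integral element of the fixed field of `locSub q g U` is congruent to the image of an
algebraic integer of `K`. -/
lemma exists_integer_cong681 (x : PadicAlgCl q)
    (hx : IsFixedBy q (locSub q g K.fixingSubgroup) x) (hx1 : ‖x‖ ≤ 1) :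
    ∃ z : 𝓞 K, ‖padicEmbedding q (g⁻¹ (((z : K)) : Qb)) - x‖ < 1 := by
  obtain ⟨y, hy⟩ := exists_close681 K q g x hx one_pos
  have hy1 : pn681 q g (y : Qb) ≤ 1 := by
    show ‖padicEmbedding q (g⁻¹ (y : Qb))‖ ≤ 1
    have h1 : padicEmbedding q (g⁻¹ (y : Qb)) = (padicEmbedding q (g⁻¹ (y : Qb)) - x) + x := by
      ring
    rw [h1]
    exact (PadicAlgCl.isNonarchimedean q _ _).trans (max_le hy.le hx1)
  obtain ⟨z, hz⟩ := exists_integer_close681 K q g y hy1
  refine ⟨z, ?_⟩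
  have h2 : padicEmbedding q (g⁻¹ (((z : K)) : Qb)) - x =
      padicEmbedding q (g⁻¹ ((((z : K)) : Qb) - (y : Qb))) +
        (padicEmbedding q (g⁻¹ (y : Qb)) - x) := by
    rw [map_sub, map_sub]
    ring
  rw [h2]
  exact lt_of_le_of_lt (PadicAlgCl.isNonarchimedean q _ _) (max_lt hz hy)

/-- **Residue degrees**: `|𝓞 K / P| = q ^ f`, `f` the residue degree of `locSub q g U`. -/
theorem card_quot_eq681 (f : ℕ) (hf : IsResidueDegree q (locSub q g K.fixingSubgroup) f) :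
    Nat.card (𝓞 K ⧸ placePrime681 K q g) = q ^ f := by
  classical
  have hq : q.Prime := Fact.out
  set P := placePrime681 K q g with hP
  haveI hmax : P.IsMaximal := (placeV681 K q g).isMaximal
  letI : Field (𝓞 K ⧸ P) := Ideal.Quotient.field P
  haveI : Finite (𝓞 K ⧸ P) := Ideal.finiteQuotientOfFreeOfNeBot P (placePrime681_ne_bot K q g)
  letI : Fintype (𝓞 K ⧸ P) := Fintype.ofFinite _
  have hq0 : ((q : ℕ) : 𝓞 K ⧸ P) = 0 := by
    have h := natCast_mem_placePrime681 K q g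
    have h1 : (Ideal.Quotient.mk P) ((q : ℕ) : 𝓞 K) = 0 := Ideal.Quotient.eq_zero_iff_mem.mpr h
    rwa [map_natCast] at h1
  haveI : CharP (𝓞 K ⧸ P) q := (CharP.charP_iff_prime_eq_zero hq).mpr hq0
  obtain ⟨n, -, hn⟩ := FiniteField.card (𝓞 K ⧸ P) q
  rw [Nat.card_eq_fintype_card, hn]
  congr 1
  apply le_antisymm
  · -- `n ≤ f` : every element of the residue field is a root of `X ^ (q ^ f) - X`
    have hroot : ∀ z : 𝓞 K ⧸ P, z ^ (q ^ f) = z := by
      intro z
      obtain ⟨z, rfl⟩ := Ideal.Quotient.mk_surjective z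
      rw [← map_pow, ← sub_eq_zero, ← map_sub, Ideal.Quotient.eq_zero_iff_mem, hP,
        mem_placePrime681]
      have h1 := hf.2.1 (padicEmbedding q (g⁻¹ (((z : K)) : Qb)))
        (isFixedBy_emb681 K q g (SetLike.coe_mem _)) (pn681_coe_le_one K q g z)
      have h2 : ((((z ^ (q ^ f) - z : 𝓞 K) : K)) : Qb) =
          ((((z : 𝓞 K) : K)) : Qb) ^ (q ^ f) - ((((z : 𝓞 K) : K)) : Qb) := by
        push_cast
        rfl
      rw [h2]
      show ‖padicEmbedding q (g⁻¹ _)‖ < 1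
      rw [map_sub, map_sub, map_pow, map_pow]
      exact h1
    have h1q : 1 < q ^ f := Nat.one_lt_pow hf.1.ne' hq.one_lt
    have hsub : (Finset.univ : Finset (𝓞 K ⧸ P)).val ⊆
        (Polynomial.X ^ (q ^ f) - Polynomial.X : Polynomial (𝓞 K ⧸ P)).roots := by
      intro z _
      rw [Polynomial.mem_roots (FiniteField.X_pow_card_sub_X_ne_zero (𝓞 K ⧸ P) h1q)]
      simp [Polynomial.IsRoot, hroot z]
    have h3 := Polynomial.card_le_degree_of_subset_roots hsub
    rw [FiniteField.X_pow_card_sub_X_natDegree_eq (𝓞 K ⧸ P) h1q, Finset.card_univ, hn] at h3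
    exact (Nat.pow_le_pow_iff_right hq.one_lt).mp h3
  · -- `f ≤ n` : minimality of `f`
    apply hf.2.2 n n.pos
    intro x hx hx1
    obtain ⟨z, hz⟩ := exists_integer_cong681 K q g x hx hx1
    set w := padicEmbedding q (g⁻¹ (((z : K)) : Qb)) with hw
    have hw1 : ‖w‖ ≤ 1 := pn681_coe_le_one K q g z
    have hzP : z ^ (q ^ (n : ℕ)) - z ∈ P := by
      rw [← Ideal.Quotient.eq_zero_iff_mem, map_sub, map_pow, sub_eq_zero, ← hn]
      exact FiniteField.pow_card _
    rw [hP, mem_placePrime681] at hzP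
    have h2 : ((((z ^ (q ^ (n : ℕ)) - z : 𝓞 K) : K)) : Qb) =
        ((((z : 𝓞 K) : K)) : Qb) ^ (q ^ (n : ℕ)) - ((((z : 𝓞 K) : K)) : Qb) := by
      push_cast
      rfl
    rw [h2] at hzP
    have hzP' : ‖w ^ (q ^ (n : ℕ)) - w‖ < 1 := by
      have : pn681 q g (((((z : 𝓞 K) : K)) : Qb) ^ (q ^ (n : ℕ)) - ((((z : 𝓞 K) : K)) : Qb)) =
          ‖w ^ (q ^ (n : ℕ)) - w‖ := by
        show ‖padicEmbedding q (g⁻¹ _)‖ = _
        rw [map_sub, map_sub, map_pow, map_pow]
      rw [← this]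
      exact hzP
    have hxw : ‖x - w‖ < 1 := by rw [← norm_neg, neg_sub]; exact hz
    have hpow : ‖x ^ (q ^ (n : ℕ)) - w ^ (q ^ (n : ℕ))‖ < 1 := by
      rcases norm_pow_sub_pow_lt_one681 hx1 hw1 hxw (q ^ (n : ℕ)) with h | h
      · exact h
      · exact absurd h (pow_ne_zero _ hq.ne_zero)
    have h5 : x ^ (q ^ (n : ℕ)) - x =
        (x ^ (q ^ (n : ℕ)) - w ^ (q ^ (n : ℕ))) + ((w ^ (q ^ (n : ℕ)) - w) + (w - x)) := by ring
    rw [h5]
    refine lt_of_le_of_lt (PadicAlgCl.isNonarchimedean q _ _) (max_lt hpow ?_)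
    exact lt_of_le_of_lt (PadicAlgCl.isNonarchimedean q _ _) (max_lt hzP' hz)

/-- **Frobenius**: a Frobenius element `φ` of `locSub q g U` induces the Frobenius congruence
`σ x ≡ x ^ |𝓞 K / P|` at the place, `σ = g · loc φ · g⁻¹ ∈ U`, for all algebraic integers `x`. -/
theorem frob_cong681 (f : ℕ) (hf : IsResidueDegree q (locSub q g K.fixingSubgroup) f)
    (φ : ↥(locSub q g K.fixingSubgroup))
    (hφ : ∀ x : PadicAlgCl q, ‖x‖ ≤ 1 →
      ‖(φ : PadicAlgCl q ≃ₐ[ℚ_[q]] PadicAlgCl q) x - x ^ (q ^ f)‖ < 1)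
    (x : Qb) (hx : IsIntegral ℤ x) :
    pn681 q g (((locHom q g K.fixingSubgroup φ : ↥K.fixingSubgroup) : GQ) x -
      x ^ Nat.card (𝓞 K ⧸ placePrime681 K q g)) < 1 := by
  rw [card_quot_eq681 K q g f hf]
  show ‖padicEmbedding q (g⁻¹ _)‖ < 1
  rw [map_sub, map_sub, map_pow, map_pow, locHom_coe]
  have h1 : (g⁻¹ : GQ) ((g * localGaloisToGlobal q φ * g⁻¹) x) =
      localGaloisToGlobal q φ ((g⁻¹ : GQ) x) := by
    show (g⁻¹ : GQ) (g (localGaloisToGlobal q φ ((g⁻¹ : GQ) x))) = _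
    exact AlgEquiv.symm_apply_apply g _
  rw [h1, padicEmbedding_localGaloisToGlobal]
  exact hφ _ (pn681_le_one_of_isIntegral q g hx)

end Fermat.Agent.LT.CFT.H681

end
end
-- ===== PACK-END LT/CFT/H681/Dict2.lean

-- ===== PACK-BEGIN LT/T7/H793/ThetaBorel.lean
section






/-!
# Row LT, tower T7, leaf T7.14.6a-C.4 `ThetaSetC290` (helper793, OFF-MAIN), part 2:
# the Borel coordinates `ι : 𝔸 × 𝔸ˣ × 𝔸ˣ → GL₂(𝔸)` and the cell `Ω = ι(P) 𝒰(𝔪)`

* `continuous_iota793` : `ι = H57.iota57` is continuous;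
* `isClosed_upSet793`, `exists_iota793` : the range of `ι` is the closed set of the upper
  triangular elements;
* `isCompact_iota_preimage793` : the preimage of a compact set under `ι` is compact;
* `inU0_subset_cell793` : `G_∞ × U(𝔪)_f ⊆ ι(P) 𝒰(𝔪)` (archimedean Iwasawa decomposition).
-/

set_option autoImplicit false

open IsDedekindDomain NumberField Topology
open Fermat.Agent.LT.H556.A0
open Fermat.Agent.LT.H11.LC

noncomputable section

namespace Fermat.Agent.LT.T7.H793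

open Fermat.Agent.LT.T1 Fermat.Agent.LT.T1.H793 Fermat.Agent.LT.T3.H57
open Fermat.Agent.LT.T7.Rigid Fermat.Agent.LT.T7.Rigid.H290 Fermat.Agent.LT.T7.H57

variable {K : Type} [Field K] [NumberField K]

/-! ## The entries of `ι(p)` -/

lemma iota_val793 (p : Adl K × (Adl K)ˣ × (Adl K)ˣ) :
    ((iota57 K p : G K) : Matrix (Fin 2) (Fin 2) (Adl K))
      = !![(p.2.1 : Adl K) * (p.2.2 : Adl K), p.1 * (p.2.2 : Adl K); 0, (p.2.2 : Adl K)] := by
  unfold iota57
  rw [Units.val_mul, Units.val_mul]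
  show (!![1, p.1; 0, 1] : Matrix (Fin 2) (Fin 2) (Adl K)) * !![(p.2.1 : Adl K), 0; 0, 1]
      * !![(p.2.2 : Adl K), 0; 0, (p.2.2 : Adl K)] = _
  ext i j
  fin_cases i <;> fin_cases j <;> simp [Matrix.mul_apply, Fin.sum_univ_two]

lemma iota_inv_val793 (p : Adl K × (Adl K)ˣ × (Adl K)ˣ) :
    (((iota57 K p)⁻¹ : G K) : Matrix (Fin 2) (Fin 2) (Adl K))
      = !![((p.2.1⁻¹ : (Adl K)ˣ) : Adl K) * ((p.2.2⁻¹ : (Adl K)ˣ) : Adl K),
            -(p.1 * ((p.2.1⁻¹ : (Adl K)ˣ) : Adl K) * ((p.2.2⁻¹ : (Adl K)ˣ) : Adl K));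
          0, ((p.2.2⁻¹ : (Adl K)ˣ) : Adl K)] := by
  unfold iota57
  rw [mul_inv_rev, mul_inv_rev, Units.val_mul, Units.val_mul]
  show (!![((p.2.2⁻¹ : (Adl K)ˣ) : Adl K), 0; 0, ((p.2.2⁻¹ : (Adl K)ˣ) : Adl K)] :
        Matrix (Fin 2) (Fin 2) (Adl K))
      * (!![((p.2.1⁻¹ : (Adl K)ˣ) : Adl K), 0; 0, 1] * !![1, -p.1; 0, 1]) = _
  ext i j
  fin_cases i <;> fin_cases j <;> simp [Matrix.mul_apply, Fin.sum_univ_two, mul_comm]

/-- `ι` is continuous. -/
theorem continuous_iota793 : Continuous (iota57 K) := by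
  rw [Units.continuous_iff]
  constructor
  · have : (Units.val ∘ iota57 K : Adl K × (Adl K)ˣ × (Adl K)ˣ → Matrix (Fin 2) (Fin 2) (Adl K))
        = fun p => !![(p.2.1 : Adl K) * (p.2.2 : Adl K), p.1 * (p.2.2 : Adl K);
            0, (p.2.2 : Adl K)] := funext iota_val793
    rw [this]
    refine continuous_pi fun i => continuous_pi fun j => ?_
    have h1 : Continuous fun p : Adl K × (Adl K)ˣ × (Adl K)ˣ => (p.2.1 : Adl K) :=
      Units.continuous_val.comp (continuous_fst.comp continuous_snd)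
    have h2 : Continuous fun p : Adl K × (Adl K)ˣ × (Adl K)ˣ => (p.2.2 : Adl K) :=
      Units.continuous_val.comp (continuous_snd.comp continuous_snd)
    fin_cases i <;> fin_cases j
    · exact h1.mul h2
    · exact continuous_fst.mul h2
    · exact continuous_const
    · exact h2
  · have : (fun p : Adl K × (Adl K)ˣ × (Adl K)ˣ =>
        (((iota57 K p)⁻¹ : G K) : Matrix (Fin 2) (Fin 2) (Adl K)))
        = fun p => !![((p.2.1⁻¹ : (Adl K)ˣ) : Adl K) * ((p.2.2⁻¹ : (Adl K)ˣ) : Adl K),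
            -(p.1 * ((p.2.1⁻¹ : (Adl K)ˣ) : Adl K) * ((p.2.2⁻¹ : (Adl K)ˣ) : Adl K));
          0, ((p.2.2⁻¹ : (Adl K)ˣ) : Adl K)] := funext iota_inv_val793
    rw [this]
    refine continuous_pi fun i => continuous_pi fun j => ?_
    have h1 : Continuous fun p : Adl K × (Adl K)ˣ × (Adl K)ˣ =>
        ((p.2.1⁻¹ : (Adl K)ˣ) : Adl K) :=
      Units.continuous_coe_inv.comp (continuous_fst.comp continuous_snd)
    have h2 : Continuous fun p : Adl K × (Adl K)ˣ × (Adl K)ˣ =>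
        ((p.2.2⁻¹ : (Adl K)ˣ) : Adl K) :=
      Units.continuous_coe_inv.comp (continuous_snd.comp continuous_snd)
    fin_cases i <;> fin_cases j
    · exact h1.mul h2
    · exact ((continuous_fst.mul h1).mul h2).neg
    · exact continuous_const
    · exact h2

/-! ## Upper triangular elements -/

/-- The upper triangular elements of `GL₂(𝔸_K)`. -/
def upSet793 (K : Type) [Field K] [NumberField K] : Set (G K) :=
  {g | (g : Matrix (Fin 2) (Fin 2) (Adl K)) 1 0 = 0}

lemma isClosed_upSet793 : IsClosed (upSet793 K) := by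
  have : T2Space (Adl K) := t2Space_adeleRing_h11 K
  exact isClosed_eq (continuous_entry793 1 0) continuous_const

lemma iota_mem_upSet793 (p : Adl K × (Adl K)ˣ × (Adl K)ˣ) : iota57 K p ∈ upSet793 K := by
  show ((iota57 K p : G K) : Matrix (Fin 2) (Fin 2) (Adl K)) 1 0 = 0
  rw [iota_val793]
  rfl

/-- The relations between the entries of an upper triangular `g` and of `g⁻¹`. -/
lemma up_entries793 {g : G K} (hg : g ∈ upSet793 K) :
    (g : Matrix (Fin 2) (Fin 2) (Adl K)) 1 1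
        * ((g⁻¹ : G K) : Matrix (Fin 2) (Fin 2) (Adl K)) 1 1 = 1 ∧
      (g : Matrix (Fin 2) (Fin 2) (Adl K)) 0 0
        * ((g⁻¹ : G K) : Matrix (Fin 2) (Fin 2) (Adl K)) 0 0 = 1 := by
  have hg10 : (g : Matrix (Fin 2) (Fin 2) (Adl K)) 1 0 = 0 := hg
  have h1 : (g : Matrix (Fin 2) (Fin 2) (Adl K)) * ((g⁻¹ : G K) : Matrix (Fin 2) (Fin 2) (Adl K))
      = 1 := by
    rw [← Units.val_mul, mul_inv_cancel, Units.val_one]
  have h2 : ((g⁻¹ : G K) : Matrix (Fin 2) (Fin 2) (Adl K)) * (g : Matrix (Fin 2) (Fin 2) (Adl K))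
      = 1 := by
    rw [← Units.val_mul, inv_mul_cancel, Units.val_one]
  have e11 := congrFun (congrFun h1 1) 1
  rw [Matrix.mul_apply, Fin.sum_univ_two, hg10, zero_mul, zero_add, Matrix.one_apply_eq] at e11
  have f11 := congrFun (congrFun h2 1) 1
  rw [Matrix.mul_apply, Fin.sum_univ_two, Matrix.one_apply_eq] at f11
  have f10 := congrFun (congrFun h2 1) 0
  rw [Matrix.mul_apply, Fin.sum_univ_two, hg10, mul_zero, add_zero,
    Matrix.one_apply_ne (by decide)] at f10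
  -- `(g⁻¹) 1 0 = 0`
  have e10 := congrFun (congrFun h1 1) 0
  rw [Matrix.mul_apply, Fin.sum_univ_two, hg10, zero_mul, zero_add,
    Matrix.one_apply_ne (by decide)] at e10
  have hi10 : ((g⁻¹ : G K) : Matrix (Fin 2) (Fin 2) (Adl K)) 1 0 = 0 := by
    have := congrArg (fun t => ((g⁻¹ : G K) : Matrix (Fin 2) (Fin 2) (Adl K)) 1 1 * t) e10
    simp only [mul_zero] at this
    rw [← mul_assoc, mul_comm (((g⁻¹ : G K) : Matrix (Fin 2) (Fin 2) (Adl K)) 1 1), e11,
      one_mul] at this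
    exact this
  have e00 := congrFun (congrFun h1 0) 0
  rw [Matrix.mul_apply, Fin.sum_univ_two, hi10, mul_zero, add_zero, Matrix.one_apply_eq] at e00
  exact ⟨e11, e00⟩

/-- The Borel coordinates of an upper triangular element. -/
def coord793 (g : upSet793 K) : Adl K × (Adl K)ˣ × (Adl K)ˣ :=
  (((g : G K) : Matrix (Fin 2) (Fin 2) (Adl K)) 0 1
      * (((g : G K)⁻¹ : G K) : Matrix (Fin 2) (Fin 2) (Adl K)) 1 1,
    ⟨((g : G K) : Matrix (Fin 2) (Fin 2) (Adl K)) 0 0
        * (((g : G K)⁻¹ : G K) : Matrix (Fin 2) (Fin 2) (Adl K)) 1 1,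
      ((g : G K) : Matrix (Fin 2) (Fin 2) (Adl K)) 1 1
        * (((g : G K)⁻¹ : G K) : Matrix (Fin 2) (Fin 2) (Adl K)) 0 0,
      by
        have h := up_entries793 g.2
        linear_combination
          (((g : G K) : Matrix (Fin 2) (Fin 2) (Adl K)) 1 1
            * (((g : G K)⁻¹ : G K) : Matrix (Fin 2) (Fin 2) (Adl K)) 1 1) * h.2 + h.1,
      by
        have h := up_entries793 g.2
        linear_combination
          (((g : G K) : Matrix (Fin 2) (Fin 2) (Adl K)) 1 1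
            * (((g : G K)⁻¹ : G K) : Matrix (Fin 2) (Fin 2) (Adl K)) 1 1) * h.2 + h.1⟩,
    ⟨((g : G K) : Matrix (Fin 2) (Fin 2) (Adl K)) 1 1,
      (((g : G K)⁻¹ : G K) : Matrix (Fin 2) (Fin 2) (Adl K)) 1 1,
      (up_entries793 g.2).1,
      by rw [mul_comm]; exact (up_entries793 g.2).1⟩)

lemma continuous_coord793 : Continuous (coord793 (K := K)) := by
  have c (i j : Fin 2) : Continuous fun g : upSet793 K =>
      ((g : G K) : Matrix (Fin 2) (Fin 2) (Adl K)) i j :=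
    (continuous_entry793 i j).comp continuous_subtype_val
  have ci (i j : Fin 2) : Continuous fun g : upSet793 K =>
      (((g : G K)⁻¹ : G K) : Matrix (Fin 2) (Fin 2) (Adl K)) i j :=
    (continuous_entry_inv793 i j).comp continuous_subtype_val
  refine Continuous.prodMk ((c 0 1).mul (ci 1 1)) (Continuous.prodMk ?_ ?_)
  · rw [Units.continuous_iff]
    exact ⟨(c 0 0).mul (ci 1 1), (c 1 1).mul (ci 0 0)⟩
  · rw [Units.continuous_iff]
    exact ⟨c 1 1, ci 1 1⟩

lemma coord_iota793 (p : Adl K × (Adl K)ˣ × (Adl K)ˣ) :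
    coord793 ⟨iota57 K p, iota_mem_upSet793 p⟩ = p := by
  have hz : ((p.2.2 : (Adl K)ˣ) : Adl K) * ((p.2.2⁻¹ : (Adl K)ˣ) : Adl K) = 1 :=
    Units.mul_inv _
  refine Prod.ext ?_ (Prod.ext ?_ ?_)
  · show ((iota57 K p : G K) : Matrix (Fin 2) (Fin 2) (Adl K)) 0 1
        * (((iota57 K p)⁻¹ : G K) : Matrix (Fin 2) (Fin 2) (Adl K)) 1 1 = p.1
    rw [iota_val793, iota_inv_val793]
    show p.1 * (p.2.2 : Adl K) * ((p.2.2⁻¹ : (Adl K)ˣ) : Adl K) = p.1
    rw [mul_assoc, hz, mul_one]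
  · apply Units.ext
    show ((iota57 K p : G K) : Matrix (Fin 2) (Fin 2) (Adl K)) 0 0
        * (((iota57 K p)⁻¹ : G K) : Matrix (Fin 2) (Fin 2) (Adl K)) 1 1 = (p.2.1 : Adl K)
    rw [iota_val793, iota_inv_val793]
    show (p.2.1 : Adl K) * (p.2.2 : Adl K) * ((p.2.2⁻¹ : (Adl K)ˣ) : Adl K) = (p.2.1 : Adl K)
    rw [mul_assoc, hz, mul_one]
  · apply Units.ext
    show ((iota57 K p : G K) : Matrix (Fin 2) (Fin 2) (Adl K)) 1 1 = (p.2.2 : Adl K)
    rw [iota_val793]
    rfl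

/-- Every upper triangular element is `ι(p)`. -/
lemma iota_coord793 (g : upSet793 K) : iota57 K (coord793 g) = (g : G K) := by
  have h := up_entries793 g.2
  have hg10 : ((g : G K) : Matrix (Fin 2) (Fin 2) (Adl K)) 1 0 = 0 := g.2
  apply Units.ext
  rw [iota_val793]
  ext i j
  fin_cases i <;> fin_cases j
  · show ((g : G K) : Matrix (Fin 2) (Fin 2) (Adl K)) 0 0
        * (((g : G K)⁻¹ : G K) : Matrix (Fin 2) (Fin 2) (Adl K)) 1 1
        * ((g : G K) : Matrix (Fin 2) (Fin 2) (Adl K)) 1 1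
        = ((g : G K) : Matrix (Fin 2) (Fin 2) (Adl K)) 0 0
    linear_combination (((g : G K) : Matrix (Fin 2) (Fin 2) (Adl K)) 0 0) * h.1
  · show ((g : G K) : Matrix (Fin 2) (Fin 2) (Adl K)) 0 1
        * (((g : G K)⁻¹ : G K) : Matrix (Fin 2) (Fin 2) (Adl K)) 1 1
        * ((g : G K) : Matrix (Fin 2) (Fin 2) (Adl K)) 1 1
        = ((g : G K) : Matrix (Fin 2) (Fin 2) (Adl K)) 0 1
    linear_combination (((g : G K) : Matrix (Fin 2) (Fin 2) (Adl K)) 0 1) * h.1
  · exact hg10.symm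
  · rfl

lemma exists_iota793 {g : G K} (hg : g ∈ upSet793 K) :
    ∃ p : Adl K × (Adl K)ˣ × (Adl K)ˣ, iota57 K p = g :=
  ⟨coord793 ⟨g, hg⟩, iota_coord793 ⟨g, hg⟩⟩

/-- **The preimage of a compact set under `ι` is compact.** -/
theorem isCompact_iota_preimage793 {C : Set (G K)} (hC : IsCompact C) :
    IsCompact ((iota57 K) ⁻¹' C) := by
  have : T2Space (G K) := t2Space_GL2_adeleRing_h11 K
  have hemb : IsClosedEmbedding (Subtype.val : upSet793 K → G K) :=
    isClosed_upSet793.isClosedEmbedding_subtypeVal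
  have h1 : IsCompact ((Subtype.val : upSet793 K → G K) ⁻¹' C) := hemb.isCompact_preimage hC
  have h2 : IsCompact (coord793 '' ((Subtype.val : upSet793 K → G K) ⁻¹' C)) :=
    h1.image continuous_coord793
  have h3 : (iota57 K) ⁻¹' C = coord793 '' ((Subtype.val : upSet793 K → G K) ⁻¹' C) := by
    ext p
    constructor
    · intro hp
      exact ⟨⟨iota57 K p, iota_mem_upSet793 p⟩, hp, coord_iota793 p⟩
    · rintro ⟨g, hg, rfl⟩
      show iota57 K (coord793 g) ∈ C
      rw [iota_coord793]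
      exact hg
  rw [h3]
  exact h2

/-! ## The cell contains `G_∞ × U(𝔪)_f` -/

/-- **`G_∞ × U(𝔪)_f ⊆ ι(P) 𝒰(𝔪)`** (Iwasawa decomposition at the infinite places). -/
theorem inU0_subset_cell793 {𝔪 : Ideal (𝓞 K)} {g : G K} (hg : InU057 𝔪 g) :
    ∃ (p : Adl K × (Adl K)ˣ × (Adl K)ˣ) (κ : G K), IsCpt290 𝔪 κ ∧ g = iota57 K p * κ := by
  choose kw hkw1 hkw2 hkw3 using fun w : InfinitePlace K => iwasawaInf793 w (glInf793 w g)
  have hint := fun v => inU0_int793 hg v
  have h1 : ∀ v i j, ((glFin793 v g : GL (Fin 2) (v.adicCompletion K)) :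
      Matrix (Fin 2) (Fin 2) (v.adicCompletion K)) i j ∈ v.adicCompletionIntegers K :=
    fun v i j => (hint v).1 i j
  have h2 : ∀ v i j, (((glFin793 v g)⁻¹ : GL (Fin 2) (v.adicCompletion K)) :
      Matrix (Fin 2) (Fin 2) (v.adicCompletion K)) i j ∈ v.adicCompletionIntegers K := by
    intro v i j
    have := (hint v).2 i j
    rw [finComp_eq793, map_inv] at this
    exact this
  set κ : G K := glMk793 kw (fun v => glFin793 v g) h1 h2 with hκ
  have hfin : ∀ v, glFin793 v κ = glFin793 v g := fun v => by rw [hκ, glFin793_glMk]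
  have hinf : ∀ w, glInf793 w κ = kw w := fun w => by rw [hκ, glInf793_glMk]
  have hκcpt : IsCpt290 𝔪 κ := by
    refine ⟨fun v i j => ⟨?_, ?_⟩, fun w => ?_⟩
    · have := (hg v i j).1
      rw [finComp_eq793] at this ⊢
      rw [hfin v]
      exact this
    · have := (hg v i j).2
      rw [finComp_eq793, map_inv] at this ⊢
      rw [hfin v]
      exact this
    · rw [infComp_eq793, hinf w]
      exact ⟨hkw2 w, hkw3 w⟩
  have hb : g * κ⁻¹ ∈ upSet793 K := by
    show ((g * κ⁻¹ : G K) : Matrix (Fin 2) (Fin 2) (Adl K)) 1 0 = 0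
    refine adl_ext793 (fun w => ?_) (fun v => ?_)
    · have e1 : glInf793 w (g * κ⁻¹) = glInf793 w g * (kw w)⁻¹ := by
        rw [map_mul, map_inv, hinf w]
      have e2 : projInf793 w (((g * κ⁻¹ : G K) : Matrix (Fin 2) (Fin 2) (Adl K)) 1 0)
          = ((glInf793 w (g * κ⁻¹) : GL (Fin 2) w.Completion) :
              Matrix (Fin 2) (Fin 2) w.Completion) 1 0 := rfl
      rw [e2, e1, hkw1 w, map_zero]
    · have e1 : glFin793 v (g * κ⁻¹) = 1 := by
        rw [map_mul, map_inv, hfin v, mul_inv_cancel]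
      have e2 : projFin793 v (((g * κ⁻¹ : G K) : Matrix (Fin 2) (Fin 2) (Adl K)) 1 0)
          = ((glFin793 v (g * κ⁻¹) : GL (Fin 2) (v.adicCompletion K)) :
              Matrix (Fin 2) (Fin 2) (v.adicCompletion K)) 1 0 := rfl
      rw [e2, e1, map_zero, Units.val_one, Matrix.one_apply_ne (by decide)]
  obtain ⟨p, hp⟩ := exists_iota793 hb
  exact ⟨p, κ, hκcpt, by rw [hp]; group⟩

end Fermat.Agent.LT.T7.H793

end

end
-- ===== PACK-END LT/T7/H793/ThetaBorel.lean

-- ===== PACK-BEGIN LT/T7/H793/ThetaSet.lean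
section



/-!
# Row LT, tower T7, leaf T7.14.6a-C.4 `H290.ThetaSetC290` (helper793, OFF-MAIN), part 3

On `LT/T7/H290/CoreSpec.lean` (helper290@706aa9d8d, byte-identical copy, sha256 7937517f...).
No hole, nothing assumed.

    thetaSetC793 (K) : Fermat.Agent.LT.T7.Rigid.H290.ThetaSetC290 K

`𝒱 = 𝒱₀ 𝒰(𝔪) ∩ Ω`, `𝒱₀` a compact neighbourhood of `1`, `𝒰(𝔪)` the compact group of
`ThetaCpt.lean`, `Ω = B 𝒰(𝔪)` (`B` = upper triangular elements = range of `ι`): `𝒱` is closed,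
contained in the compact set `𝒱₀ 𝒰(𝔪)`, right invariant under `𝒰(𝔪)`, and contains the open set
`int 𝒱₀ ∩ (G_∞ × U(𝔪)_f)`.  The preimage of a compact set under `ι` is compact
(`isCompact_iota_preimage793`), so `|y|` is bounded on `𝒱` and `W = {q : ι(q)⁻¹ ∈ 𝒱}` lies in a
compact box, of finite measure for `λ = |y|⁻¹ dν dτ dτ`; `W` contains an open box around
`(0, 1, 1)` on which `|y| < 2`, of positive measure.
-/

set_option autoImplicit false
set_option linter.style.haveILetI false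

open IsDedekindDomain NumberField Topology MeasureTheory Filter
open scoped ENNReal Pointwise
open Fermat.Agent.LT.H556.A0 Fermat.Agent.LT.H11.LC Fermat.Agent.LT.H11.SC

noncomputable section

namespace Fermat.Agent.LT.T7.H793

open Fermat.Agent.LT.T1 Fermat.Agent.LT.T1.H793 Fermat.Agent.LT.T3.H57
open Fermat.Agent.LT.T7.Rigid Fermat.Agent.LT.T7.Rigid.H290 Fermat.Agent.LT.T7.H57

attribute [local instance] Fermat.Agent.LT.T5.instMeasurableSpaceG

/-- The Borel σ-algebra of the adeles (local instance of this file). -/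
local instance instMA793 (K : Type) [Field K] [NumberField K] : MeasurableSpace (Adl K) :=
  borel (Adl K)

/-- The Borel σ-algebra of the ideles (local instance of this file). -/
local instance instMI793 (K : Type) [Field K] [NumberField K] : MeasurableSpace (Adl K)ˣ :=
  borel (Adl K)ˣ

variable {K : Type} [Field K] [NumberField K]

/-- `ι(0, 1, 1) = 1`. -/
lemma iota_one793 : iota57 K ((0 : Adl K), (1 : (Adl K)ˣ), (1 : (Adl K)ˣ)) = 1 := by
  apply Units.ext
  rw [iota_val793]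
  ext i j
  fin_cases i <;> fin_cases j <;> simp

/-- The module of `1` is `1`. -/
lemma nrm_one793 (hT1 : T1Out K) : nrm57 K 1 = 1 := by
  have hpos : 0 < nrm57 K 1 := hT1.adNorm.1 1
  have hmul : nrm57 K (1 * 1) = nrm57 K 1 * nrm57 K 1 := hT1.adNorm.2.1 1 1
  rw [mul_one] at hmul
  have : nrm57 K 1 * (nrm57 K 1 - 1) = 0 := by linear_combination -hmul
  rcases mul_eq_zero.mp this with h | h
  · exact absurd h hpos.ne'
  · linarith

/-- **T7.14.6a-C.4 = `H290.ThetaSetC290`**, verbatim. -/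
theorem thetaSetC793 (K : Type) [Field K] [NumberField K] : ThetaSetC290 K := by
  intro hK hT1 μ hμ ν hν τ hτ 𝔪 h𝔪
  haveI := hμ
  haveI := hν
  haveI := hτ
  haveI : T2Space (Adl K) := t2Space_adeleRing_h11 K
  haveI : T2Space (G K) := t2Space_GL2_adeleRing_h11 K
  haveI : LocallyCompactSpace (G K) := locallyCompactSpace_GL2_adeleRing_h11 K
  haveI : LocallyCompactSpace (Adl K) := locallyCompactSpace_adeleRing_h11 K
  haveI : SecondCountableTopology (Adl K) := secondCountableTopology_adeleRing_h11 K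
  haveI : SecondCountableTopology (Adl K)ˣ := secondCountableTopology_units_h11 (Adl K)
  haveI : LocallyCompactSpace (Adl K)ˣ :=
    Units.isClosedEmbedding_embedProduct.locallyCompactSpace
  haveI : BorelSpace (G K) := ⟨rfl⟩
  haveI : BorelSpace (Adl K) := ⟨rfl⟩
  haveI : BorelSpace (Adl K)ˣ := ⟨rfl⟩
  haveI : T2Space (Adl K)ˣ := inferInstance
  haveI : SigmaFinite τ := inferInstance
  haveI : IsTopologicalGroup (G K) := inferInstance
  have hn : Continuous (nrm57 K) := hT1.adNorm.2.2.2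
  have hnpos : ∀ y : (Adl K)ˣ, 0 < nrm57 K y := hT1.adNorm.1
  -- the sets
  obtain ⟨V₀, hV₀c, hV₀n⟩ := exists_compact_mem_nhds (1 : G K)
  set U : Set (G K) := cptSet793 (K := K) 𝔪 with hU
  have hUc : IsCompact U := isCompact_cptSet793 𝔪
  have hU1 : (1 : G K) ∈ U := isCpt_one793 𝔪
  have hUmul : ∀ a ∈ U, ∀ b ∈ U, a * b ∈ U := fun a ha b hb => isCpt_mul793 ha hb
  have hUinv : ∀ a ∈ U, a⁻¹ ∈ U := fun a ha => isCpt_inv793 ha
  set Kc : Set (G K) := V₀ * U with hKc
  have hKcc : IsCompact Kc := hV₀c.mul hUc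
  set Ω : Set (G K) := upSet793 K * U with hΩ
  have hΩcl : IsClosed Ω := isClosed_upSet793.mul_right_of_isCompact hUc
  have hKcU : ∀ a ∈ Kc, ∀ b ∈ U, a * b ∈ Kc := by
    rintro _ ⟨v, hv, u, hu, rfl⟩ b hb
    exact ⟨v, hv, u * b, hUmul u hu b hb, by simp only [mul_assoc]⟩
  have hΩU : ∀ a ∈ Ω, ∀ b ∈ U, a * b ∈ Ω := by
    rintro _ ⟨v, hv, u, hu, rfl⟩ b hb
    exact ⟨v, hv, u * b, hUmul u hu b hb, by simp only [mul_assoc]⟩
  -- the open set inside
  set O : Set (G K) := interior V₀ ∩ {x : G K | InU057 𝔪 x} with hO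
  have hOo : IsOpen O := isOpen_interior.inter (isOpen_inU057 𝔪 h𝔪)
  have hO1 : (1 : G K) ∈ O := ⟨mem_interior_iff_mem_nhds.mpr hV₀n, inU0_one793 𝔪⟩
  have hOV : O ⊆ Kc ∩ Ω := by
    rintro g ⟨hg1, hg2⟩
    refine ⟨⟨g, interior_subset hg1, 1, hU1, mul_one g⟩, ?_⟩
    obtain ⟨p, κ, hκ, hgp⟩ := inU0_subset_cell793 hg2
    exact ⟨iota57 K p, iota_mem_upSet793 p, κ, hκ, hgp.symm⟩
  -- the bound for `|y|`
  have hpre : IsCompact ((iota57 K) ⁻¹' Kc) := isCompact_iota_preimage793 hKcc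
  have hy : Continuous fun p : Adl K × (Adl K)ˣ × (Adl K)ˣ => nrm57 K p.2.1 :=
    hn.comp (continuous_fst.comp continuous_snd)
  obtain ⟨M, hM⟩ := (hpre.image hy).bddAbove
  -- the box containing `W`
  have hKci : IsCompact (Kc⁻¹) := hKcc.inv
  set C : Set (Adl K × (Adl K)ˣ × (Adl K)ˣ) := (iota57 K) ⁻¹' (Kc⁻¹) with hC
  have hCc : IsCompact C := isCompact_iota_preimage793 hKci
  set A : Set (Adl K) := Prod.fst '' C with hA
  set By : Set (Adl K)ˣ := (fun p : Adl K × (Adl K)ˣ × (Adl K)ˣ => p.2.1) '' C with hBy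
  set Bz : Set (Adl K)ˣ := (fun p : Adl K × (Adl K)ˣ × (Adl K)ˣ => p.2.2) '' C with hBz
  have hAc : IsCompact A := hCc.image continuous_fst
  have hByc : IsCompact By := hCc.image (continuous_fst.comp continuous_snd)
  have hBzc : IsCompact Bz := hCc.image (continuous_snd.comp continuous_snd)
  have hCbox : C ⊆ A ×ˢ (By ×ˢ Bz) := fun p hp =>
    ⟨⟨p, hp, rfl⟩, ⟨p, hp, rfl⟩, ⟨p, hp, rfl⟩⟩
  have hinvc : Continuous fun y : (Adl K)ˣ => (nrm57 K y)⁻¹ :=
    hn.inv₀ fun y => (hnpos y).ne'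
  obtain ⟨M', hM'⟩ := (hByc.image hinvc).bddAbove
  -- the open box inside `W`
  have hιinv : Continuous fun q : Adl K × (Adl K)ˣ × (Adl K)ˣ => (iota57 K q)⁻¹ :=
    continuous_iota793.inv
  set W₀ : Set (Adl K × (Adl K)ˣ × (Adl K)ˣ) :=
    (fun q => (iota57 K q)⁻¹) ⁻¹' O with hW₀
  have hW₀o : IsOpen W₀ := hOo.preimage hιinv
  have hW₀1 : ((0 : Adl K), (1 : (Adl K)ˣ), (1 : (Adl K)ˣ)) ∈ W₀ := by
    show (iota57 K ((0 : Adl K), (1 : (Adl K)ˣ), (1 : (Adl K)ˣ)))⁻¹ ∈ O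
    rw [iota_one793, inv_one]
    exact hO1
  obtain ⟨A₀, T₀, hA₀o, hT₀o, hA₀1, hT₀1, hAT⟩ := isOpen_prod_iff.mp hW₀o _ _ hW₀1
  obtain ⟨B₀, C₀, hB₀o, hC₀o, hB₀1, hC₀1, hBC⟩ := isOpen_prod_iff.mp hT₀o _ _ hT₀1
  set B₁ : Set (Adl K)ˣ := B₀ ∩ {y | nrm57 K y < 2} with hB₁
  have hB₁o : IsOpen B₁ := hB₀o.inter (isOpen_lt hn continuous_const)
  have hB₁1 : (1 : (Adl K)ˣ) ∈ B₁ := ⟨hB₀1, by
    show nrm57 K 1 < 2
    rw [nrm_one793 hT1]
    norm_num⟩
  have hbox₀ : A₀ ×ˢ (B₁ ×ˢ C₀) ⊆ W₀ := by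
    rintro ⟨x, y, z⟩ ⟨hx, hy, hz⟩
    exact hAT ⟨hx, hBC ⟨hy.1, hz⟩⟩
  -- the set `V`
  refine ⟨Kc ∩ Ω, (hKcc.isClosed.inter hΩcl).measurableSet, ?_, ?_, ?_, ?_, ?_, ?_, ?_⟩
  · rintro g ⟨-, b, hb, κ, hκ, rfl⟩
    obtain ⟨p, hp⟩ := exists_iota793 hb
    exact ⟨p, κ, hκ, by rw [hp]⟩
  · rintro g ⟨hg1, hg2⟩ κ hκ
    exact ⟨hKcU g hg1 κ hκ, hΩU g hg2 κ hκ⟩
  · exact ((hOo.measure_pos μ ⟨1, hO1⟩).trans_le (measure_mono hOV)).ne'
  · exact ((measure_mono Set.inter_subset_left).trans_lt hKcc.measure_lt_top).ne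
  · refine ⟨M, fun p κ hκ hV => ?_⟩
    have h1 : iota57 K p ∈ Kc := by
      have := hKcU _ hV.1 κ⁻¹ (hUinv κ hκ)
      rwa [mul_inv_cancel_right] at this
    exact hM ⟨p, h1, rfl⟩
  · -- positivity
    have hle : lamB290 ν τ (A₀ ×ˢ (B₁ ×ˢ C₀)) ≤ lamB290 ν τ {q | (iota57 K q)⁻¹ ∈ Kc ∩ Ω} :=
      measure_mono fun q hq => hOV (hbox₀ hq)
    have hms : MeasurableSet (A₀ ×ˢ (B₁ ×ˢ C₀)) :=
      hA₀o.measurableSet.prod (hB₁o.measurableSet.prod hC₀o.measurableSet)
    have hm : (ν.prod (τ.prod τ)) (A₀ ×ˢ (B₁ ×ˢ C₀)) ≠ 0 := by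
      rw [Measure.prod_prod, Measure.prod_prod]
      have h1 : 0 < ν A₀ := hA₀o.measure_pos ν ⟨0, hA₀1⟩
      have h2 : 0 < τ B₁ := hB₁o.measure_pos τ ⟨1, hB₁1⟩
      have h3 : 0 < τ C₀ := hC₀o.measure_pos τ ⟨1, hC₀1⟩
      exact (ENNReal.mul_pos h1.ne' (ENNReal.mul_pos h2.ne' h3.ne').ne').ne'
    have hlow : ENNReal.ofReal (1 / 2) * (ν.prod (τ.prod τ)) (A₀ ×ˢ (B₁ ×ˢ C₀))
        ≤ lamB290 ν τ (A₀ ×ˢ (B₁ ×ˢ C₀)) := by
      unfold lamB290
      rw [withDensity_apply _ hms, ← setLIntegral_const]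
      refine setLIntegral_mono' hms fun q hq => ?_
      have hq2 : nrm57 K q.2.1 < 2 := hq.2.1.2
      have hq0 : 0 < nrm57 K q.2.1 := hnpos _
      apply ENNReal.ofReal_le_ofReal
      rw [one_div]
      exact (inv_le_inv₀ (by norm_num) hq0).mpr hq2.le |>.trans_eq rfl
    have hpos : 0 < ENNReal.ofReal (1 / 2) * (ν.prod (τ.prod τ)) (A₀ ×ˢ (B₁ ×ˢ C₀)) :=
      ENNReal.mul_pos (by simp) hm
    exact ((hpos.trans_le hlow).trans_le hle).ne'
  · -- finiteness
    have hsub : {q | (iota57 K q)⁻¹ ∈ Kc ∩ Ω} ⊆ A ×ˢ (By ×ˢ Bz) := by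
      intro q hq
      apply hCbox
      show iota57 K q ∈ Kc⁻¹
      rw [Set.mem_inv]
      exact hq.1
    have hms : MeasurableSet (A ×ˢ (By ×ˢ Bz)) :=
      hAc.isClosed.measurableSet.prod
        (hByc.isClosed.measurableSet.prod hBzc.isClosed.measurableSet)
    have hfin : (ν.prod (τ.prod τ)) (A ×ˢ (By ×ˢ Bz)) < ⊤ := by
      rw [Measure.prod_prod, Measure.prod_prod]
      exact ENNReal.mul_lt_top hAc.measure_lt_top
        (ENNReal.mul_lt_top hByc.measure_lt_top hBzc.measure_lt_top)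
    have hup : lamB290 ν τ (A ×ˢ (By ×ˢ Bz))
        ≤ ENNReal.ofReal M' * (ν.prod (τ.prod τ)) (A ×ˢ (By ×ˢ Bz)) := by
      unfold lamB290
      rw [withDensity_apply _ hms, ← setLIntegral_const]
      refine setLIntegral_mono' hms fun q hq => ?_
      apply ENNReal.ofReal_le_ofReal
      exact hM' ⟨q.2.1, hq.2.1, rfl⟩
    exact ((measure_mono hsub).trans_lt
      (hup.trans_lt (ENNReal.mul_lt_top ENNReal.ofReal_lt_top hfin))).ne

end Fermat.Agent.LT.T7.H793

end

end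
-- ===== PACK-END LT/T7/H793/ThetaSet.lean

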