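import Fermat.Agent.Pack.LT2.E20L3
import Fermat.Agent.Pack.L1B.E1L2
import Fermat.Agent.Pack.S44C.G0E14L2
import Fermat.Agent.Pack.LT2.E20L0

set_option linter.all false

-- ===== PACK-BEGIN LT/CFT/H681/Dict3.lean
section




/-!
# LT / tower CFT : dictionary, part 3 — places `(q, g)` ↔ primes of `𝓞 K`  (helper681)

* `pn_le_one_iff681` : `‖x‖ ≤ 1 ↔ v_P (x) ≤ 1`;
* `placePrime681_doubleCoset` : the prime of the place `(q, u g d)` is the prime of `(q, g)`
  (`u ∈ U = Gal(ℚ̄/K)`, `d ∈ D_q`);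
* `exists_doubleCoset_of_placePrime_eq681` : same prime ⇒ same double coset `U g D_q`;
* `exists_placePrime_eq681` : every prime of `𝓞 K` above `q` is the prime of a place `(q, g)`;
* `exists_prime_mem681` : every height-one prime of `𝓞 K` lies above a rational prime.
-/

set_option autoImplicit false

noncomputable section

namespace Fermat.Agent.LT.CFT.H681

open Fermat.Agent.S55.G.Rec groupCohomology NumberField IsDedekindDomain
open scoped NumberField WithZero Pointwise

local notation "Qb" => AlgebraicClosure ℚ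
local notation "GQ" => (AlgebraicClosure ℚ ≃ₐ[ℚ] AlgebraicClosure ℚ)

variable (K : IntermediateField ℚ Qb) [NumberField K] (q : ℕ) [Fact q.Prime]

/-- `‖x‖ ≤ 1 ↔ v_P (x) ≤ 1`. -/
theorem pn_le_one_iff681 (g : GQ) (x : K) :
    pn681 q g (x : Qb) ≤ 1 ↔ (placeV681 K q g).valuation K x ≤ 1 := by
  by_cases hx : x = 0
  · subst hx
    have : (((0 : K)) : Qb) = 0 := rfl
    rw [this, pn681_zero, map_zero]
    exact ⟨fun _ => zero_le_one, fun _ => zero_le_one⟩
  obtain ⟨m, hm⟩ := exists_valuation_eq_exp681 K q g hx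
  have h1 : pn681 q g (x : Qb) = cst681 K q g ^ m := pn_eq_zpow681 K q g x m hm
  have hc0 := cst681_pos K q g
  have hc1 := cst681_lt_one K q g
  rw [h1, hm, ← WithZero.exp_zero, WithZero.exp_le_exp]
  constructor
  · intro h
    by_contra hcon
    have hm0 : m < 0 := by omega
    have : (1 : ℝ) < cst681 K q g ^ m := one_lt_zpow_of_neg₀ hc0 hc1 hm0
    exact absurd h (not_le.mpr this)
  · intro h
    have hm0 : 0 ≤ m := by omega
    have h0 : cst681 K q g ^ m ≤ cst681 K q g ^ (0 : ℤ) :=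
      zpow_le_zpow_right_of_le_one₀ hc0 hc1.le hm0
    rwa [zpow_zero] at h0

/-! ## Invariance under the double coset -/

lemma pn681_mul_right (g d : GQ) (hd : d ∈ (localGaloisToGlobal q).range) (x : Qb) :
    pn681 q (g * d) x = pn681 q g x := by
  obtain ⟨τ, rfl⟩ := hd
  unfold pn681
  have h1 : ((g * localGaloisToGlobal q τ)⁻¹ : GQ) x =
      localGaloisToGlobal q τ⁻¹ ((g⁻¹ : GQ) x) := by
    rw [mul_inv_rev, map_inv]
    rfl
  rw [h1, padicEmbedding_localGaloisToGlobal, H854.norm_algEquiv_padicAlgCl]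

lemma pn681_mul_left (u g : GQ) (hu : u ∈ K.fixingSubgroup) {x : Qb} (hx : x ∈ K) :
    pn681 q (u * g) x = pn681 q g x := by
  unfold pn681
  have h1 : ((u * g)⁻¹ : GQ) x = (g⁻¹ : GQ) ((u⁻¹ : GQ) x) := by
    rw [mul_inv_rev]
    rfl
  have h2 : (u⁻¹ : GQ) x = x :=
    (IntermediateField.mem_fixingSubgroup_iff K _).1 (K.fixingSubgroup.inv_mem hu) x hx
  rw [h1, h2]

/-- The prime of a place depends only on the double coset `U g D_q`. -/
theorem placePrime681_doubleCoset (g u d : GQ) (hu : u ∈ K.fixingSubgroup)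
    (hd : d ∈ (localGaloisToGlobal q).range) :
    placePrime681 K q (u * g * d) = placePrime681 K q g := by
  ext x
  rw [mem_placePrime681, mem_placePrime681, pn681_mul_right q (u * g) d hd,
    pn681_mul_left K q u g hu (SetLike.coe_mem _)]

/-! ## Injectivity -/

/-- Two places of `K` with the same prime of `𝓞 K` lie in the same double coset. -/
theorem exists_doubleCoset_of_placePrime_eq681 (g g' : GQ)
    (h : placePrime681 K q g = placePrime681 K q g') :
    ∃ u ∈ K.fixingSubgroup, ∃ d ∈ (localGaloisToGlobal q).range, g' = u * g * d := by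
  apply H742.exists_doubleCoset_of_inter_eq q (isOpenQ_fixingSubgroup681 K) g g'
  intro x hx
  rw [fixK_fixingSubgroup681] at hx
  have hv : placeV681 K q g = placeV681 K q g' := HeightOneSpectrum.ext h
  have h1 := pn_le_one_iff681 K q g ⟨x, hx⟩
  have h2 := pn_le_one_iff681 K q g' ⟨x, hx⟩
  rw [hv] at h1
  exact h1.trans h2.symm

/-! ## Surjectivity -/

lemma mem_nonunits_padicPlace_iff681 (x : Qb) :
    x ∈ (padicPlace q).nonunits ↔ ‖padicEmbedding q x‖ < 1 := by
  rw [ValuationSubring.mem_nonunits_iff_or]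
  by_cases hx : x = 0
  · subst hx
    simp
  · have hne : padicEmbedding q x ≠ 0 := (map_ne_zero (padicEmbedding q)).mpr hx
    have hpos : 0 < ‖padicEmbedding q x‖ := norm_pos_iff.mpr hne
    rw [Fermat.Agent.S55.Bridge.mem_padicPlace_iff_norm, map_inv₀, norm_inv]
    constructor
    · rintro (h | h)
      · exact absurd h hx
      · rw [not_le] at h
        exact (one_lt_inv₀ hpos).mp h
    · intro h
      right
      rw [not_le]
      exact (one_lt_inv₀ hpos).mpr h

/-- Every prime of `𝓞 K` above `q` is the prime of a place `(q, g)`. -/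
theorem exists_placePrime_eq681 (P : Ideal (𝓞 K)) (hP : P.IsPrime) (hq : (q : 𝓞 K) ∈ P) :
    ∃ g : GQ, placePrime681 K q g = P := by
  have hqp : q.Prime := Fact.out
  obtain ⟨A, hA, hAP⟩ := Fermat.Agent.Lib.Cheb.exists_valuationSubring_over956 K hqp P hP hq
  have hpl : (padicPlace q).LiesOverPrime q := by
    show ((q : ℕ) : Qb) ∈ (padicPlace q).nonunits
    rw [mem_nonunits_padicPlace_iff681]
    have h := pn681_natCast_self_lt_one q 1
    unfold pn681 at h
    rw [inv_one] at h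
    exact h
  obtain ⟨g, hg⟩ := Fermat.Agent.Lib.Cheb.H476.exists_smul_eq hqp hpl hA
  refine ⟨g, ?_⟩
  ext x
  rw [mem_placePrime681, ← hAP x, ← hg, Fermat.Agent.Lib.Cheb.H476.mem_nonunits_smul_iff,
    mem_nonunits_padicPlace_iff681]
  rfl

/-! ## The rational prime below -/

lemma exists_prime_of_natCast_mem681 {R : Type*} [CommRing R] (P : Ideal R) [hP : P.IsPrime] :
    ∀ n : ℕ, n ≠ 0 → (n : R) ∈ P → ∃ q : ℕ, q.Prime ∧ (q : R) ∈ P := by
  intro n
  induction n using Nat.strong_induction_on with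
  | _ n ih =>
    intro hn0 hn
    have hn1 : n ≠ 1 := by
      rintro rfl
      rw [Nat.cast_one] at hn
      exact hP.ne_top ((Ideal.eq_top_iff_one P).mpr hn)
    have hmf : (Nat.minFac n).Prime := Nat.minFac_prime hn1
    have hdvd : Nat.minFac n ∣ n := Nat.minFac_dvd n
    obtain ⟨b, hb⟩ := hdvd
    have hcast : (n : R) = (Nat.minFac n : R) * (b : R) := by
      conv_lhs => rw [hb]
      push_cast
      rfl
    rw [hcast] at hn
    rcases hP.mem_or_mem hn with h | h
    · exact ⟨_, hmf, h⟩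
    · have hb0 : b ≠ 0 := by
        rintro rfl
        rw [mul_zero] at hb
        exact hn0 hb
      have hblt : b < n := by
        have h2 : 2 ≤ Nat.minFac n := hmf.two_le
        have hbpos : 0 < b := Nat.pos_of_ne_zero hb0
        calc b < Nat.minFac n * b := by nlinarith
          _ = n := hb.symm
      exact ih b hblt hb0 h

/-- Every height-one prime of `𝓞 K` lies above a rational prime. -/
theorem exists_prime_mem681 (P : HeightOneSpectrum (𝓞 K)) :
    ∃ q : ℕ, q.Prime ∧ (q : 𝓞 K) ∈ P.asIdeal := by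
  haveI := P.isPrime
  refine exists_prime_of_natCast_mem681 P.asIdeal (Ideal.absNorm P.asIdeal) ?_
    (Ideal.absNorm_mem P.asIdeal)
  rw [Ne, Ideal.absNorm_eq_zero_iff]
  exact P.ne_bot

end Fermat.Agent.LT.CFT.H681

end
end
-- ===== PACK-END LT/CFT/H681/Dict3.lean

-- ===== PACK-BEGIN LT/CFT/H681/Artin.lean
section


/-!
# LT / tower CFT : EMBEDDED ARTIN RECIPROCITY, ideal-theoretic form  (helper681)

`K` a number field inside `ℚ̄`, `U = Gal(ℚ̄/K)`, `χ : U → ℤ/n` a continuous character.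

* `fib681 K q` : the finite set of primes of `𝓞 K` above `q`;
* `gAt681 K q P` : a chosen `g ∈ G_ℚ` whose place `(q, g)` has prime `P`;
* `reps681 K` : the system of place representatives `{gAt681 K q P | P ∣ q}`, `isPlaceReps681`;
* `frobAt681 K q g` : a chosen Frobenius element of `locSub q g U`; `FrAt681 K q P ∈ U` the
  Frobenius element at `P` (`frAt_cong681` : the Frobenius congruence modulo a place above `P`);
* `ordP681 P α = v_P (α)`;
* **`artin_of_sumInv681`** : from `∑_v inv_v (a ∪ δχ) = 0` (all `a ∈ Kˣ`), for nonzero `α ∈ 𝓞 K`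
  close to `1` at the bad primes `B`:
  `∑_{q ∉ B} ∑_{P ∣ q} v_P (α) • χ (Frob_P) = 0` in `ℤ/n`;
* **`artin_odd681`** : unconditional for `n = p ^ k`, `p` an odd prime (main `reciprocityFull`).
-/

set_option autoImplicit false

noncomputable section

namespace Fermat.Agent.LT.CFT.H681

open Fermat.Agent.S55.G.Rec groupCohomology NumberField IsDedekindDomain
open scoped NumberField WithZero Pointwise

local notation "Qb" => AlgebraicClosure ℚ
local notation "GQ" => (AlgebraicClosure ℚ ≃ₐ[ℚ] AlgebraicClosure ℚ)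

variable (K : IntermediateField ℚ Qb) [NumberField K]

/-! ## Primes above `q` and place representatives -/

section Reps

variable (q : ℕ) [Fact q.Prime]

lemma span_natCast_ne_zero681 : Ideal.span {((q : ℕ) : 𝓞 K)} ≠ 0 := by
  intro h
  have h1 : ((q : ℕ) : 𝓞 K) = 0 := Ideal.span_singleton_eq_bot.mp h
  exact (Nat.cast_ne_zero.mpr (Fact.out : q.Prime).ne_zero) h1

/-- The primes of `𝓞 K` above `q`. -/
def fib681 : Finset (HeightOneSpectrum (𝓞 K)) :=
  (Ideal.finite_factors (span_natCast_ne_zero681 K q)).toFinset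

lemma mem_fib681 {P : HeightOneSpectrum (𝓞 K)} :
    P ∈ fib681 K q ↔ ((q : ℕ) : 𝓞 K) ∈ P.asIdeal := by
  unfold fib681
  rw [Set.Finite.mem_toFinset, Set.mem_setOf_eq, Ideal.dvd_span_singleton]

lemma placeV_mem_fib681 (g : GQ) : placeV681 K q g ∈ fib681 K q :=
  (mem_fib681 K q).mpr (natCast_mem_placePrime681 K q g)

open Classical in
/-- A chosen `g` whose place `(q, g)` of `K` has prime `P` (junk `1` if `P ∤ q`). -/
def gAt681 (P : HeightOneSpectrum (𝓞 K)) : GQ :=
  if h : ((q : ℕ) : 𝓞 K) ∈ P.asIdeal then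
    Classical.choose (exists_placePrime_eq681 K q P.asIdeal P.isPrime h)
  else 1

lemma placePrime_gAt681 {P : HeightOneSpectrum (𝓞 K)} (h : P ∈ fib681 K q) :
    placePrime681 K q (gAt681 K q P) = P.asIdeal := by
  have h' := (mem_fib681 K q).mp h
  unfold gAt681
  rw [dif_pos h']
  exact Classical.choose_spec (exists_placePrime_eq681 K q P.asIdeal P.isPrime h')

lemma placeV_gAt681 {P : HeightOneSpectrum (𝓞 K)} (h : P ∈ fib681 K q) :
    placeV681 K q (gAt681 K q P) = P :=
  HeightOneSpectrum.ext (placePrime_gAt681 K q h)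

lemma gAt681_injOn : Set.InjOn (gAt681 K q) (fib681 K q : Set (HeightOneSpectrum (𝓞 K))) := by
  intro P hP P' hP' h
  rw [← placeV_gAt681 K q hP, ← placeV_gAt681 K q hP', h]

open Classical in
/-- The place representatives above `q`. -/
def repsAt681 : Finset GQ := (fib681 K q).image (gAt681 K q)

/-- `repsAt681 K q` is a system of representatives of `U \ G_ℚ / D_q`. -/
theorem isDoubleCosetReps681 :
    IsDoubleCosetReps K.fixingSubgroup (localGaloisToGlobal q).range (repsAt681 K q) := by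
  classical
  intro g
  have hP := placeV_mem_fib681 K q g
  refine ⟨gAt681 K q (placeV681 K q g), ⟨Finset.mem_image_of_mem _ hP, ?_⟩, ?_⟩
  · exact exists_doubleCoset_of_placePrime_eq681 K q _ g (placePrime_gAt681 K q hP)
  · rintro r ⟨hr, u, hu, d, hd, rfl⟩
    unfold repsAt681 at hr
    obtain ⟨P', hP', rfl⟩ := Finset.mem_image.mp hr
    have h1 : placePrime681 K q (u * gAt681 K q P' * d) = P'.asIdeal := by
      rw [placePrime681_doubleCoset K q _ u d hu hd, placePrime_gAt681 K q hP']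
    have h2 : placeV681 K q (u * gAt681 K q P' * d) = P' := HeightOneSpectrum.ext h1
    rw [h2]

end Reps

/-- The system of place representatives of `K`. -/
def reps681 : Nat.Primes → Finset GQ := fun q =>
  haveI : Fact (q : ℕ).Prime := ⟨q.2⟩
  repsAt681 K (q : ℕ)

theorem isPlaceReps681 : IsPlaceReps K.fixingSubgroup (reps681 K) := by
  intro q
  haveI : Fact (q : ℕ).Prime := ⟨q.2⟩
  exact isDoubleCosetReps681 K (q : ℕ)

/-! ## Frobenius elements -/

section Frob

variable (q : ℕ) [Fact q.Prime] (g : GQ)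

lemma exists_frob681 :
    ∃ (f : ℕ) (φ : ↥(locSub q g K.fixingSubgroup)),
      IsResidueDegree q (locSub q g K.fixingSubgroup) f ∧
      ∀ x : PadicAlgCl q, ‖x‖ ≤ 1 →
        ‖(φ : PadicAlgCl q ≃ₐ[ℚ_[q]] PadicAlgCl q) x - x ^ (q ^ f)‖ < 1 := by
  obtain ⟨f, φ, π, hf, hφV, hφ, -⟩ := H931.localStructure q (locSub q g K.fixingSubgroup)
    (H181.isOpenL_locSub q g (isOpenQ_fixingSubgroup681 K))
  exact ⟨f, ⟨φ, hφV⟩, hf, hφ⟩

/-- The residue degree of the place `(q, g)`. -/
def fAt681 : ℕ := Classical.choose (exists_frob681 K q g)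

/-- A chosen Frobenius element of the place `(q, g)`. -/
def frobAt681 : ↥(locSub q g K.fixingSubgroup) :=
  Classical.choose (Classical.choose_spec (exists_frob681 K q g))

lemma fAt681_spec : IsResidueDegree q (locSub q g K.fixingSubgroup) (fAt681 K q g) :=
  (Classical.choose_spec (Classical.choose_spec (exists_frob681 K q g))).1

lemma frobAt681_spec : ∀ x : PadicAlgCl q, ‖x‖ ≤ 1 →
    ‖((frobAt681 K q g : ↥(locSub q g K.fixingSubgroup)) :
      PadicAlgCl q ≃ₐ[ℚ_[q]] PadicAlgCl q) x - x ^ (q ^ fAt681 K q g)‖ < 1 :=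
  (Classical.choose_spec (Classical.choose_spec (exists_frob681 K q g))).2

/-- The Frobenius element at the place `(q, g)`, as an element of `U = Gal(ℚ̄/K)`. -/
def frG681 : ↥K.fixingSubgroup := locHom q g K.fixingSubgroup (frobAt681 K q g)

/-- The Frobenius congruence: `σ x ≡ x ^ |𝓞 K / P|` modulo the place `(q, g)` of `ℚ̄`. -/
theorem frG_cong681 (x : Qb) (hx : IsIntegral ℤ x) :
    pn681 q g (((frG681 K q g : ↥K.fixingSubgroup) : GQ) x -
      x ^ Nat.card (𝓞 K ⧸ placePrime681 K q g)) < 1 :=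
  frob_cong681 K q g (fAt681 K q g) (fAt681_spec K q g) (frobAt681 K q g)
    (frobAt681_spec K q g) x hx

/-- The Frobenius element at a prime `P` above `q`. -/
def FrAt681 (P : HeightOneSpectrum (𝓞 K)) : ↥K.fixingSubgroup := frG681 K q (gAt681 K q P)

theorem frAt_cong681 {P : HeightOneSpectrum (𝓞 K)} (hP : P ∈ fib681 K q) (x : Qb)
    (hx : IsIntegral ℤ x) :
    pn681 q (gAt681 K q P) (((FrAt681 K q P : ↥K.fixingSubgroup) : GQ) x -
      x ^ Nat.card (𝓞 K ⧸ P.asIdeal)) < 1 := by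
  have h := frG_cong681 K q (gAt681 K q P) x hx
  rw [placePrime_gAt681 K q hP] at h
  exact h

end Frob

/-! ## Orders -/

/-- `v_P (α)` as an integer (junk `0` at `α = 0`). -/
def ordP681 (P : HeightOneSpectrum (𝓞 K)) (x : K) : ℤ := -WithZero.log (P.valuation K x)

lemma ordP681_eq {P : HeightOneSpectrum (𝓞 K)} {x : K} {k : ℤ}
    (h : P.valuation K x = WithZero.exp (-k)) : ordP681 K P x = k := by
  unfold ordP681
  rw [h, WithZero.log_exp, neg_neg]

/-- The local term at the place `(q, g)`: `v_P (a) • χ (Frob)`. -/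
theorem isLocalTerm681 {n : ℕ} (χ : ↥K.fixingSubgroup →* Multiplicative (ZMod n)) (q : ℕ)
    [Fact q.Prime] (g : GQ) (a : Qbˣ) (ha : (a : Qb) ∈ K) :
    IsLocalTerm681 K.fixingSubgroup χ q g a
      (ordP681 K (placeV681 K q g) ⟨(a : Qb), ha⟩ • chiAdd χ (frG681 K q g)) := by
  have hU := isOpenQ_fixingSubgroup681 K
  have haG : GFixed K.fixingSubgroup a := by
    intro u hu
    apply Units.ext
    exact (IntermediateField.mem_fixingSubgroup_iff K u).1 hu _ ha
  obtain ⟨f₀, φ, π, hf₀, -, -, -, -, hdec⟩ :=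
    H931.localStructure q (locSub q g K.fixingSubgroup) (H181.isOpenL_locSub q g hU)
  obtain ⟨k₀, u, -, -, -, hk₀⟩ :=
    hdec (locPushMul q g a) (H496.lFixed_locPushMul q g K.fixingSubgroup a haG)
  have hff : f₀ = fAt681 K q g := H900.isResidueDegree_unique q hf₀ (fAt681_spec K q g)
  rw [hff] at hk₀
  have hv := valuation_eq_of_vdeg681 K q g a ha (fAt681 K q g) (fAt681_spec K q g) k₀ hk₀
  rw [ordP681_eq K hv]
  exact ⟨fAt681 K q g, frobAt681 K q g, k₀, fAt681_spec K q g, frobAt681_spec K q g, hk₀, rfl⟩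

/-- The contribution of the primes above `q` to the Artin sum of `α`:
`∑_{P ∣ q} v_P (α) • χ (Frob_P)` (`0` if `q ∈ B`). -/
def artinSum681 {n : ℕ} (χ : ↥K.fixingSubgroup →* Multiplicative (ZMod n)) (B : Finset ℕ)
    (α : 𝓞 K) (q : Nat.Primes) : ZMod n :=
  haveI : Fact (q : ℕ).Prime := ⟨q.2⟩
  ∑ P ∈ fib681 K (q : ℕ), if (q : ℕ) ∈ B then 0 else
    ordP681 K P (α : K) • chiAdd χ (FrAt681 K (q : ℕ) P)

/-! ## The theorem -/

/-- **Embedded Artin reciprocity**, ideal-theoretic form, from the vanishing of the sums of the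
local invariants of the cup classes `a ∪ δχ`. -/
theorem artin_of_sumInv681 (I : LocalInvSystem) (n : ℕ) [NeZero n]
    (χ : ↥K.fixingSubgroup →* Multiplicative (ZMod n))
    (hχ : IsLevelConstant₁ K.fixingSubgroup.subtype χ)
    (hrec : ∀ a : Qbˣ, GFixed K.fixingSubgroup a → ∀ R : Nat.Primes → Finset GQ,
      IsPlaceReps K.fixingSubgroup R → I.sumInv K.fixingSubgroup R (gcc K.fixingSubgroup n χ a) = 0) :
    ∃ B : Finset ℕ, ∀ α : 𝓞 K, α ≠ 0 →
      (∀ q ∈ B, ∀ [Fact q.Prime] (g : GQ),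
        pn681 q g ((((α : K)) : Qb) - 1) < eps681 n q) →
      (Function.support (artinSum681 K χ B α)).Finite ∧
      ∑ᶠ q : Nat.Primes, artinSum681 K χ B α q = 0 := by
  classical
  obtain ⟨B, hB⟩ := embRay_of_sumInv681 I (isOpenQ_fixingSubgroup681 K) n χ hχ
  refine ⟨B, fun α hα hclose => ?_⟩
  have hα0 : (((α : K)) : Qb) ≠ 0 := by
    intro h
    apply hα
    have h1 : ((α : K)) = 0 := Subtype.ext h
    exact_mod_cast h1
  set a : Qbˣ := Units.mk0 _ hα0 with ha
  have haK : (a : Qb) ∈ K := SetLike.coe_mem _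
  have haG : GFixed K.fixingSubgroup a := by
    intro u hu
    apply Units.ext
    exact (IntermediateField.mem_fixingSubgroup_iff K u).1 hu _ haK
  have hcl : ∀ q ∈ B, ∀ [Fact q.Prime] (g : GQ),
      ‖padicEmbedding q (g⁻¹ (a : Qb)) - 1‖ < eps681 n q := by
    intro q hq _ g
    have h := hclose q hq g
    unfold pn681 at h
    rw [map_sub, map_sub, map_one, map_one] at h
    exact h
  set t : Nat.Primes → GQ → ZMod n := fun q r =>
    haveI : Fact (q : ℕ).Prime := ⟨q.2⟩
    ordP681 K (placeV681 K (q : ℕ) r) ⟨(a : Qb), haK⟩ • chiAdd χ (frG681 K (q : ℕ) r) with ht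
  have hmain := hB a haG hcl (reps681 K) (hrec a haG (reps681 K) (isPlaceReps681 K)) t
    (fun q _ r _ => by
      haveI : Fact (q : ℕ).Prime := ⟨q.2⟩
      exact isLocalTerm681 K χ (q : ℕ) r a haK)
  have hfun : (fun q : Nat.Primes => ∑ r ∈ reps681 K q, if (q : ℕ) ∈ B then 0 else t q r) =
      artinSum681 K χ B α := by
    funext q
    haveI : Fact (q : ℕ).Prime := ⟨q.2⟩
    show ∑ r ∈ repsAt681 K (q : ℕ), (if (q : ℕ) ∈ B then 0 else t q r) =
      ∑ P ∈ fib681 K (q : ℕ), if (q : ℕ) ∈ B then 0 else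
        ordP681 K P (α : K) • chiAdd χ (FrAt681 K (q : ℕ) P)
    unfold repsAt681
    rw [Finset.sum_image (gAt681_injOn K (q : ℕ))]
    refine Finset.sum_congr rfl fun P hP => ?_
    by_cases hq : (q : ℕ) ∈ B
    · rw [if_pos hq, if_pos hq]
    · rw [if_neg hq, if_neg hq]
      show ordP681 K (placeV681 K (q : ℕ) (gAt681 K (q : ℕ) P)) ⟨(a : Qb), haK⟩ •
          chiAdd χ (frG681 K (q : ℕ) (gAt681 K (q : ℕ) P)) = _
      rw [placeV_gAt681 K (q : ℕ) hP]
      rfl
  rw [hfun] at hmain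
  exact hmain

/-- **Embedded Artin reciprocity, odd prime powers** (unconditional: main `reciprocityFull`). -/
theorem artin_odd681 (I : LocalInvSystem) (p : ℕ) [Fact p.Prime] (hp : p ≠ 2) (k : ℕ)
    (χ : ↥K.fixingSubgroup →* Multiplicative (ZMod (p ^ k)))
    (hχ : IsLevelConstant₁ K.fixingSubgroup.subtype χ) :
    ∃ B : Finset ℕ, ∀ α : 𝓞 K, α ≠ 0 →
      (∀ q ∈ B, ∀ [Fact q.Prime] (g : GQ),
        pn681 q g ((((α : K)) : Qb) - 1) < eps681 (p ^ k) q) →
      (Function.support (artinSum681 K χ B α)).Finite ∧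
      ∑ᶠ q : Nat.Primes, artinSum681 K χ B α q = 0 := by
  haveI : NeZero (p ^ k) := ⟨pow_ne_zero k (Fact.out : p.Prime).ne_zero⟩
  refine artin_of_sumInv681 K I (p ^ k) χ hχ fun a ha R hR => ?_
  exact (reciprocityFull I p hp K.fixingSubgroup (isOpenQ_fixingSubgroup681 K)
    (gcc K.fixingSubgroup (p ^ k) χ a)
    ⟨k, gcc_torsion681 K.fixingSubgroup (p ^ k) (NeZero.ne _) χ hχ a ha⟩ R hR).2

end Fermat.Agent.LT.CFT.H681

end
end
-- ===== PACK-END LT/CFT/H681/Artin.lean

-- ===== PACK-BEGIN LT/CFT/H681/DictSpec.lean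
section



/-!
# LT / tower CFT, leaf DICT (`CFT.14`, sub-architect helper681), OFF-MAIN: the cut

Target: `RayOfCycSumC Iloc : CycSumC Iloc → ArtinRayC` of `LT/CFT/Spec.lean` (helper53, frozen).

PROVED already (`H681/Artin.lean`): `artin_of_sumInv681`, the EMBEDDED Artin reciprocity for a
number field `K ⊆ ℚ̄` and a level-constant `χ : Gal(ℚ̄/K) → ℤ/n`, with the rational primes as index
set, the chosen Frobenius elements `FrAt681 K q P`, and closeness to `1` at a finite set `B`.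

The leaves (all TRUE statements; `CFT.14.1` - `CFT.14.5` in the registry):
* `CharFactorC` (14.1) : a character of finite order with values in `ℂˣ` factors through `ℤ/n`;
* `EntryC` (14.2) : `TotallyComplex K → NoOrderTwo (galOf j)` (Artin-Schreier);
* `EmbedC` (14.3) : transport from `(K, j)` abstract to the embedded field `j K ⊆ ℚ̄`;
* `FrobIndepC` (14.4) : outside a finite set of rational primes, `χ` takes the same value on every
  Prelude Frobenius element at `P` and on `FrAt681 K q P`;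
* `RayOfArtinSumC` (14.5) : conductor `𝔣 = (N)`, `ordAt = ordP681`, and the re-indexing of the sum
  over the rational primes and the primes above them as a `finprod` over all primes of `𝓞 K`.

PROVED here: `galOf_algebraMap681`, `rayOfCycSum_of_leaves`.
-/

set_option autoImplicit false

noncomputable section

namespace Fermat.Agent.LT.CFT.H681

open Fermat.Agent.S55.G.Rec Fermat.Agent.LT.CFT groupCohomology NumberField IsDedekindDomain

local notation "Qb" => AlgebraicClosure ℚ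
local notation "GQ" => (AlgebraicClosure ℚ ≃ₐ[ℚ] AlgebraicClosure ℚ)

/-- For an embedded number field the Galois group of `Spec.lean` is the fixing subgroup. -/
theorem galOf_algebraMap681 (K : IntermediateField ℚ Qb) :
    galOf (algebraMap K Qb) = K.fixingSubgroup := by
  ext σ
  constructor
  · intro h
    rw [IntermediateField.mem_fixingSubgroup_iff]
    intro x hx
    exact h ⟨x, hx⟩
  · intro h x
    exact (IntermediateField.mem_fixingSubgroup_iff K σ).1 h _ x.2

/-- **The ray statement for an embedded number field**, values in a commutative monoid `M`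
(`M = ℂˣ`, `M = Multiplicative (ZMod n)`), with the finiteness of the support. -/
def EmbRayTrivial (K : IntermediateField ℚ Qb) [NumberField K] {M : Type} [CommMonoid M]
    (χ : ↥K.fixingSubgroup →* M) (𝔣 : Ideal (𝓞 K)) : Prop :=
  ∀ frob : HeightOneSpectrum (𝓞 K) → ↥K.fixingSubgroup,
    (∀ v : HeightOneSpectrum (𝓞 K), ¬ 𝔣 ≤ v.asIdeal →
      IsFrobAt (algebraMap K Qb) v (frob v : GQ)) →
    ∀ α : 𝓞 K, α ≠ 0 → α - 1 ∈ 𝔣 →
      (Function.mulSupport fun v : HeightOneSpectrum (𝓞 K) => χ (frob v) ^ ordAt v α).Finite ∧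
        ∏ᶠ v : HeightOneSpectrum (𝓞 K), χ (frob v) ^ ordAt v α = 1

/-! ## The leaves -/

/-- **Leaf 14.1 CHAR**: a character of finite order factors through `ℤ/n`.  (The image of `χ` is a
finite subgroup of `ℂˣ`, hence cyclic of some order `n`, generated by `ζ`; `χ σ = ζ ^ (χ₁ σ)`.) -/
def CharFactorC : Prop :=
  ∀ (U : Subgroup GQ) (χ : ↥U →* ℂˣ),
    (∃ F : IntermediateField ℚ Qb, FiniteDimensional ℚ F ∧
      ∀ σ : ↥U, (σ : GQ) ∈ F.fixingSubgroup → χ σ = 1) →
    ∃ (n : ℕ) (χ₁ : ↥U →* Multiplicative (ZMod n)) (e : Multiplicative (ZMod n) →* ℂˣ),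
      n ≠ 0 ∧ IsLevelConstant₁ U.subtype χ₁ ∧ ∀ σ : ↥U, χ σ = e (χ₁ σ)

/-- **Leaf 14.2 ENTRY** (Artin-Schreier; = `noOrderTwo_galOf701` of helper701). -/
def EntryC : Prop :=
  ∀ (K : Type) [Field K] [NumberField K] (j : K →+* Qb), TotallyComplex K →
    NoOrderTwo (galOf j)

/-- **Leaf 14.3 EMBED** (transport): the ray statement for all embedded totally complex number
fields `K ⊆ ℚ̄` gives `ArtinRayC`.  (`K' = j K`, `e : K ≃+* K'`, `galOf j = K'.fixingSubgroup`,
`𝓞 K ≃+* 𝓞 K'`, primes, `ordAt`, residue cardinalities and `UnderPlace` correspond.) -/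
def EmbedC : Prop :=
  (∀ (K : IntermediateField ℚ Qb) [NumberField K], TotallyComplex K →
    ∀ χ : ↥K.fixingSubgroup →* ℂˣ,
      (∃ F : IntermediateField ℚ Qb, FiniteDimensional ℚ F ∧
        ∀ σ : ↥K.fixingSubgroup, (σ : GQ) ∈ F.fixingSubgroup → χ σ = 1) →
      ∃ 𝔣 : Ideal (𝓞 K), 𝔣 ≠ ⊥ ∧ EmbRayTrivial K χ 𝔣) → ArtinRayC

/-- **Leaf 14.4 FROB**: outside a finite set `B` of rational primes (the primes dividing the
discriminant of an integral generator of the level field of `χ`), `χ` has the same value on every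
Prelude Frobenius element at `P ∣ q` and on the chosen Frobenius element `FrAt681 K q P`.
(Two places of `ℚ̄` above `P` are conjugate under `Gal(ℚ̄/K)`; two Frobenius elements at the same
place differ by an element acting trivially on the residue field, which fixes the level field.) -/
def FrobIndepC : Prop :=
  ∀ (K : IntermediateField ℚ Qb) [NumberField K] (n : ℕ) [NeZero n]
    (χ : ↥K.fixingSubgroup →* Multiplicative (ZMod n)),
    IsLevelConstant₁ K.fixingSubgroup.subtype χ →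
    ∃ B : Finset ℕ, ∀ (q : ℕ) [Fact q.Prime], q ∉ B → ∀ P ∈ fib681 K q,
      ∀ σ : ↥K.fixingSubgroup, IsFrobAt (algebraMap K Qb) P (σ : GQ) →
        χ σ = χ (FrAt681 K q P)

/-- **Leaf 14.5 CONDUCTOR + SUM**: from the conclusion of `artin_of_sumInv681` (bad set `B`) and of
`FrobIndepC` (bad set `B₀`) to the ray statement with values in `ℤ/n`.
(`𝔣 = (N)`, `N = ∏_{q ∈ B ∪ B₀} q ^ e`, `q ^ (-e) < min (eps681 n q) 1`; `α ≡ 1 mod 𝔣` is a unit at
the primes above `B ∪ B₀`; `ordAt P α = ordP681 K P α`; every prime `P` lies above exactly one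
rational prime.) -/
def RayOfArtinSumC : Prop :=
  ∀ (K : IntermediateField ℚ Qb) [NumberField K] (n : ℕ) [NeZero n]
    (χ : ↥K.fixingSubgroup →* Multiplicative (ZMod n)) (B B₀ : Finset ℕ),
    (∀ α : 𝓞 K, α ≠ 0 →
      (∀ q ∈ B, ∀ [Fact q.Prime] (g : GQ),
        pn681 q g ((((α : K)) : Qb) - 1) < eps681 n q) →
      (Function.support (artinSum681 K χ B α)).Finite ∧
        ∑ᶠ q : Nat.Primes, artinSum681 K χ B α q = 0) →
    (∀ (q : ℕ) [Fact q.Prime], q ∉ B₀ → ∀ P ∈ fib681 K q,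
      ∀ σ : ↥K.fixingSubgroup, IsFrobAt (algebraMap K Qb) P (σ : GQ) →
        χ σ = χ (FrAt681 K q P)) →
    ∃ 𝔣 : Ideal (𝓞 K), 𝔣 ≠ ⊥ ∧ EmbRayTrivial K χ 𝔣

/-! ## The top -/

/-- **DICT from its leaves.** -/
theorem rayOfCycSum_of_leaves (h1 : CharFactorC) (h2 : EntryC) (h3 : EmbedC) (h4 : FrobIndepC)
    (h5 : RayOfArtinSumC) : RayOfCycSumC Iloc := by
  intro hcyc
  apply h3
  intro K _ hTC χ hfin
  obtain ⟨n, χ₁, e, hn, hlc, hχ⟩ := h1 K.fixingSubgroup χ hfin
  haveI : NeZero n := ⟨hn⟩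
  have hno : NoOrderTwo K.fixingSubgroup := by
    have h := h2 K (algebraMap K Qb) hTC
    rwa [galOf_algebraMap681] at h
  obtain ⟨B, hB⟩ := artin_of_sumInv681 K Iloc n χ₁ hlc (fun a ha R hR =>
    (hcyc K.fixingSubgroup (isOpenQ_fixingSubgroup681 K) hno n hn χ₁ hlc a ha R hR).2)
  obtain ⟨B₀, hB₀⟩ := h4 K n χ₁ hlc
  obtain ⟨𝔣, h𝔣, hray⟩ := h5 K n χ₁ B B₀ hB hB₀
  refine ⟨𝔣, h𝔣, fun frob hfrob α hα hα1 => ?_⟩
  obtain ⟨hfinS, hprod⟩ := hray frob hfrob α hα hα1
  have hfun : (fun v : HeightOneSpectrum (𝓞 K) => χ (frob v) ^ ordAt v α) =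
      fun v => e (χ₁ (frob v) ^ ordAt v α) := by
    funext v
    rw [hχ, map_pow]
  refine ⟨?_, ?_⟩
  · rw [hfun]
    refine hfinS.subset fun v hv => ?_
    rw [Function.mem_mulSupport] at hv ⊢
    intro h
    apply hv
    rw [h, map_one]
  · rw [hfun, ← MonoidHom.map_finprod e hfinS, hprod, map_one]

end Fermat.Agent.LT.CFT.H681

end
end
-- ===== PACK-END LT/CFT/H681/DictSpec.lean

-- ===== PACK-BEGIN LT/CFT/H5/Entry.lean
section



/-!
# Row LT, tower CFT, leaf CFT.14.2 ENTRY (helper5, registry 1071), OFF-MAIN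

`entryC5 : H681.EntryC` : `TotallyComplex K → NoOrderTwo (galOf j)`, VERBATIM the leaf of the
DICT cut of helper681 (`LT/CFT/H681/DictSpec.lean`).  This is Artin--Schreier, proved by
helper701 (`LT/CFT/H701/{ArtinSchreier,NoOrderTwo}.lean`, vendored byte-identical):
`noOrderTwo_galOf701`.
-/

set_option autoImplicit false

namespace Fermat.Agent.LT.CFT.H5

/-- **Leaf CFT.14.2 ENTRY.** -/
theorem entryC5 : H681.EntryC :=
  fun _ _ _ j hK => H701.noOrderTwo_galOf701 j hK

end Fermat.Agent.LT.CFT.H5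

end
-- ===== PACK-END LT/CFT/H5/Entry.lean

-- ===== PACK-BEGIN LT/CFT/H681/Embed.lean
section


/-!
# LT / tower CFT, leaf `CFT.14.3` : `EmbedC`  (helper681)

Transport of the ray statement from the embedded number field `j K ⊆ ℚ̄` to `(K, j)`.
-/

set_option autoImplicit false

noncomputable section

namespace Fermat.Agent.LT.CFT.H681

open Fermat.Agent.S55.G.Rec Fermat.Agent.LT.CFT groupCohomology NumberField IsDedekindDomain
open scoped NumberField WithZero

local notation "Qb" => AlgebraicClosure ℚ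
local notation "GQ" => (AlgebraicClosure ℚ ≃ₐ[ℚ] AlgebraicClosure ℚ)

/-! ## Primes under a ring isomorphism -/

section Primes

variable {R S : Type*} [CommRing R] [CommRing S] [IsDedekindDomain R] [IsDedekindDomain S]

/-- The image of a prime under a ring isomorphism. -/
def hosMap681 (e : R ≃+* S) (v : HeightOneSpectrum R) : HeightOneSpectrum S where
  asIdeal := Ideal.comap (e.symm : S →+* R) v.asIdeal
  isPrime := Ideal.comap_isPrime _ _
  ne_bot := by
    intro h
    obtain ⟨x, hx, hx0⟩ := Submodule.exists_mem_ne_zero_of_ne_bot v.ne_bot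
    have h1 : e x ∈ Ideal.comap (e.symm : S →+* R) v.asIdeal := by
      rw [Ideal.mem_comap]
      show e.symm (e x) ∈ v.asIdeal
      rw [RingEquiv.symm_apply_apply]
      exact hx
    rw [h, Ideal.mem_bot] at h1
    exact hx0 ((map_eq_zero_iff e e.injective).mp h1)

lemma mem_hosMap681 (e : R ≃+* S) (v : HeightOneSpectrum R) (y : S) :
    y ∈ (hosMap681 e v).asIdeal ↔ e.symm y ∈ v.asIdeal := Iff.rfl

lemma hosMap681_symm (e : R ≃+* S) (v : HeightOneSpectrum R) :
    hosMap681 e.symm (hosMap681 e v) = v := by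
  apply HeightOneSpectrum.ext
  ext x
  rw [mem_hosMap681, mem_hosMap681, RingEquiv.symm_symm, RingEquiv.symm_apply_apply]

/-- The bijection between the primes. -/
def hosEquiv681 (e : R ≃+* S) : HeightOneSpectrum R ≃ HeightOneSpectrum S where
  toFun := hosMap681 e
  invFun := hosMap681 e.symm
  left_inv := hosMap681_symm e
  right_inv := fun w => by
    have h := hosMap681_symm e.symm w
    rwa [RingEquiv.symm_symm] at h

lemma hosMap681_asIdeal_eq_map (e : R ≃+* S) (v : HeightOneSpectrum R) :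
    (hosMap681 e v).asIdeal = v.asIdeal.map (e : R →+* S) :=
  (Ideal.map_comap_of_equiv e).symm

lemma mem_hosMap681_pow (e : R ≃+* S) (v : HeightOneSpectrum R) (k : ℕ) (x : R) :
    e x ∈ (hosMap681 e v).asIdeal ^ k ↔ x ∈ v.asIdeal ^ k := by
  rw [hosMap681_asIdeal_eq_map, ← Ideal.map_pow, Ideal.map_comap_of_equiv, Ideal.mem_comap]
  show e.symm (e x) ∈ _ ↔ _
  rw [RingEquiv.symm_apply_apply]

lemma card_quot_hosMap681 (e : R ≃+* S) (v : HeightOneSpectrum R) :
    Nat.card (S ⧸ (hosMap681 e v).asIdeal) = Nat.card (R ⧸ v.asIdeal) :=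
  (Nat.card_congr (Ideal.quotientEquiv v.asIdeal (hosMap681 e v).asIdeal e
    (hosMap681_asIdeal_eq_map e v)).toEquiv).symm

end Primes

/-! ## Orders -/

lemma le_ordAt_iff681 {K : Type} [Field K] [NumberField K] (v : HeightOneSpectrum (𝓞 K))
    (α : 𝓞 K) (hα : α ≠ 0) (k : ℕ) : k ≤ ordAt v α ↔ α ∈ v.asIdeal ^ k := by
  rw [← v.intValuation_le_pow_iff_mem, v.intValuation_if_neg hα, WithZero.exp_le_exp]
  unfold ordAt
  omega

lemma ordAt_hosMap681 {K L : Type} [Field K] [NumberField K] [Field L] [NumberField L]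
    (e : 𝓞 K ≃+* 𝓞 L) (v : HeightOneSpectrum (𝓞 K)) (α : 𝓞 K) (hα : α ≠ 0) :
    ordAt (hosMap681 e v) (e α) = ordAt v α := by
  have hα' : e α ≠ 0 := fun h => hα ((map_eq_zero_iff e e.injective).mp h)
  apply le_antisymm
  · rw [le_ordAt_iff681 v α hα, ← mem_hosMap681_pow e, ← le_ordAt_iff681 _ _ hα']
  · rw [le_ordAt_iff681 _ _ hα', mem_hosMap681_pow e, ← le_ordAt_iff681 v α hα]

/-! ## The embedded field -/

section Emb

variable {K : Type} [Field K] [NumberField K] (j : K →+* Qb)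

/-- The image of `K` in `ℚ̄`. -/
def embField681 : IntermediateField ℚ Qb := (j.toRatAlgHom).fieldRange

lemma mem_embField681 (y : Qb) : y ∈ embField681 j ↔ ∃ x : K, j x = y := Iff.rfl

instance finiteDimensional_embField681 : FiniteDimensional ℚ (embField681 j) :=
  (LinearMap.finiteDimensional_range (j.toRatAlgHom).toLinearMap :)

instance numberField_embField681 : NumberField (embField681 j) := ⟨⟩

/-- `K → j K`. -/
def embHom681 : K →+* embField681 j where
  toFun x := ⟨j x, ⟨x, rfl⟩⟩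
  map_one' := Subtype.ext (map_one j)
  map_mul' a b := Subtype.ext (map_mul j a b)
  map_zero' := Subtype.ext (map_zero j)
  map_add' a b := Subtype.ext (map_add j a b)

/-- `K ≃ j K`. -/
def embEquiv681 : K ≃+* embField681 j :=
  RingEquiv.ofBijective (embHom681 j)
    ⟨(embHom681 j).injective, fun y => by
      obtain ⟨x, hx⟩ := (mem_embField681 j y.1).mp y.2
      exact ⟨x, Subtype.ext hx⟩⟩

lemma embEquiv681_coe (x : K) : ((embEquiv681 j x : embField681 j) : Qb) = j x := rfl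

/-- `𝓞 K ≃ 𝓞 (j K)`. -/
def embO681 : 𝓞 K ≃+* 𝓞 (embField681 j) := RingOfIntegers.mapRingEquiv (embEquiv681 j)

lemma embO681_coe (x : 𝓞 K) :
    algebraMap (embField681 j) Qb (algebraMap (𝓞 (embField681 j)) (embField681 j)
      (embO681 j x)) = j (algebraMap (𝓞 K) K x) := rfl

lemma galOf_eq681 : galOf j = (embField681 j).fixingSubgroup := by
  ext σ
  constructor
  · intro h
    rw [IntermediateField.mem_fixingSubgroup_iff]
    intro y hy
    obtain ⟨x, rfl⟩ := (mem_embField681 j y).mp hy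
    exact h x
  · intro h x
    exact (IntermediateField.mem_fixingSubgroup_iff _ σ).1 h _ ⟨x, rfl⟩

lemma totallyComplex_embField681 (h : TotallyComplex K) : TotallyComplex (embField681 j) := by
  intro w
  exact InfinitePlace.IsComplex.of_comap ((embEquiv681 j : K ≃+* embField681 j) : K →+* _)
    (h _)

/-- Frobenius elements correspond. -/
lemma isFrobAt_hosMap681 (v : HeightOneSpectrum (𝓞 K)) (σ : GQ) (h : IsFrobAt j v σ) :
    IsFrobAt (algebraMap (embField681 j) Qb) (hosMap681 (embO681 j) v) σ := by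
  obtain ⟨hσ, A, hA, hF⟩ := h
  refine ⟨?_, A, ?_, ?_⟩
  · rw [galOf_algebraMap681, ← galOf_eq681]
    exact hσ
  · intro y
    obtain ⟨x, rfl⟩ := (embO681 j).surjective y
    rw [mem_hosMap681, RingEquiv.symm_apply_apply, hA x, embO681_coe]
  · rw [card_quot_hosMap681]
    exact hF

end Emb

/-! ## The leaf -/

theorem embed681 : EmbedC := by
  intro hyp K _ _ j hTC χ hχ
  obtain ⟨F, hF, hχF⟩ := hχ
  have hU : galOf j = (embField681 j).fixingSubgroup := galOf_eq681 j
  set χ' : ↥(embField681 j).fixingSubgroup →* ℂˣ :=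
    χ.comp (Subgroup.inclusion (le_of_eq hU.symm)) with hχ'
  obtain ⟨𝔣', h𝔣', hray⟩ := hyp (embField681 j) (totallyComplex_embField681 j hTC) χ'
    ⟨F, hF, fun σ hσ => hχF _ hσ⟩
  set e := embO681 j with he
  refine ⟨Ideal.comap (e : 𝓞 K →+* 𝓞 (embField681 j)) 𝔣', ?_, ?_⟩
  · intro h
    obtain ⟨y, hy, hy0⟩ := Submodule.exists_mem_ne_zero_of_ne_bot h𝔣'
    have h1 : e.symm y ∈ Ideal.comap (e : 𝓞 K →+* 𝓞 (embField681 j)) 𝔣' := by
      rw [Ideal.mem_comap]
      show e (e.symm y) ∈ 𝔣'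
      rw [RingEquiv.apply_symm_apply]
      exact hy
    rw [h, Ideal.mem_bot] at h1
    exact hy0 ((map_eq_zero_iff e.symm e.symm.injective).mp h1)
  intro frob hfrob α hα hα1
  set frob' : HeightOneSpectrum (𝓞 (embField681 j)) → ↥(embField681 j).fixingSubgroup :=
    fun w => Subgroup.inclusion (le_of_eq hU) (frob ((hosEquiv681 e).symm w)) with hfrob'
  have hle : ∀ v : HeightOneSpectrum (𝓞 K),
      𝔣' ≤ (hosMap681 e v).asIdeal ↔
        Ideal.comap (e : 𝓞 K →+* 𝓞 (embField681 j)) 𝔣' ≤ v.asIdeal := by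
    intro v
    constructor
    · intro h x hx
      have h1 := h (Ideal.mem_comap.mp hx)
      rw [mem_hosMap681] at h1
      have h2 : e.symm (e x) = x := RingEquiv.symm_apply_apply e x
      have h3 : e.symm ((e : 𝓞 K →+* 𝓞 (embField681 j)) x) = x := h2
      rwa [h3] at h1
    · intro h y hy
      rw [mem_hosMap681]
      apply h
      rw [Ideal.mem_comap]
      show e (e.symm y) ∈ 𝔣'
      rw [RingEquiv.apply_symm_apply]
      exact hy
  have h1 := hray frob' (fun w hw => by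
    have hw' : w = hosMap681 e ((hosEquiv681 e).symm w) := ((hosEquiv681 e).apply_symm_apply w).symm
    have hnot : ¬ Ideal.comap (e : 𝓞 K →+* 𝓞 (embField681 j)) 𝔣' ≤
        ((hosEquiv681 e).symm w).asIdeal := by
      rw [← hle, ← hw']
      exact hw
    have h2 := isFrobAt_hosMap681 j _ _ (hfrob _ hnot)
    rw [← hw'] at h2
    exact h2) (e α) (fun h => hα ((map_eq_zero_iff e e.injective).mp h)) (by
      have h2 : e α - 1 = e (α - 1) := by rw [map_sub, map_one]
      rw [h2]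
      exact Ideal.mem_comap.mp hα1)
  rw [← h1.2, ← finprod_comp_equiv (hosEquiv681 e)]
  refine finprod_congr fun v => ?_
  have h3 : (hosEquiv681 e) v = hosMap681 e v := rfl
  rw [h3, ordAt_hosMap681 e v α hα]
  congr 1
  show χ (frob v) = χ (Subgroup.inclusion (le_of_eq hU.symm)
    (Subgroup.inclusion (le_of_eq hU) (frob ((hosEquiv681 e).symm (hosMap681 e v)))))
  have h4 : (hosEquiv681 e).symm (hosMap681 e v) = v := (hosEquiv681 e).symm_apply_apply v
  rw [h4]
  congr 1

end Fermat.Agent.LT.CFT.H681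

end
end
-- ===== PACK-END LT/CFT/H681/Embed.lean

-- ===== PACK-BEGIN LT/CFT/H681/FrobIndep.lean
section


/-!
# LT / tower CFT, leaf `CFT.14.4` : `FrobIndepC`  (helper681)

Outside the bad primes of the normal closure of the level field of `χ`, the value of `χ` on a
Prelude Frobenius element at `P` is the value on the chosen Frobenius element `FrAt681 K q P`.
-/

set_option autoImplicit false

noncomputable section

namespace Fermat.Agent.LT.CFT.H681

open Fermat.Agent.S55.G.Rec Fermat.Agent.LT.CFT groupCohomology NumberField IsDedekindDomain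
open scoped NumberField Pointwise

local notation "Qb" => AlgebraicClosure ℚ
local notation "GQ" => (AlgebraicClosure ℚ ≃ₐ[ℚ] AlgebraicClosure ℚ)

section Place

variable (q : ℕ) [Fact q.Prime]

/-- The maximal ideal of the place `(q, g)` in terms of the norm. -/
lemma mem_nonunits_smul_padicPlace_iff681 (g : GQ) (x : Qb) :
    x ∈ (g • padicPlace q).nonunits ↔ pn681 q g x < 1 := by
  rw [Fermat.Agent.Lib.Cheb.H476.mem_nonunits_smul_iff, mem_nonunits_padicPlace_iff681]
  rfl

lemma pn681_smul_left (s g : GQ) (x : Qb) :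
    pn681 q (s * g) x = pn681 q g ((s⁻¹ : GQ) x) := by
  unfold pn681
  have h1 : ((s * g)⁻¹ : GQ) x = (g⁻¹ : GQ) ((s⁻¹ : GQ) x) := by
    rw [mul_inv_rev]
    rfl
  rw [h1]

lemma liesOverPrime_padicPlace681 : (padicPlace q).LiesOverPrime q := by
  show ((q : ℕ) : Qb) ∈ (padicPlace q).nonunits
  rw [mem_nonunits_padicPlace_iff681]
  have h := pn681_natCast_self_lt_one q 1
  unfold pn681 at h
  rw [inv_one] at h
  exact h

/-- Every valuation subring of `ℚ̄` over `q` is a place `(q, g)`. -/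
lemma exists_smul_padicPlace_eq681 (A : ValuationSubring Qb) (hA : (q : Qb) ∈ A.nonunits) :
    ∃ g : GQ, g • padicPlace q = A :=
  Fermat.Agent.Lib.Cheb.H476.exists_smul_eq (Fact.out : q.Prime)
    (liesOverPrime_padicPlace681 q) hA

end Place

/-! ## Unpacking the Prelude Frobenius -/

/-- The Frobenius congruence of a Prelude Frobenius element. -/
lemma sub_pow_mem_nonunits_of_isFrobeniusAt681 {A : ValuationSubring Qb} {σ : GQ} {N : ℕ}
    (h : A.IsFrobeniusAt σ N) (x : Qb) (hx : x ∈ A) : σ x - x ^ N ∈ A.nonunits := by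
  have h1 := h.smul_residue_eq (IsLocalRing.residue A ⟨x, hx⟩)
  rw [← IsLocalRing.ResidueField.residue_smul, ← map_pow, ← sub_eq_zero, ← map_sub,
    IsLocalRing.residue_eq_zero_iff, ← ValuationSubring.coe_mem_nonunits_iff] at h1
  exact h1

/-- A Prelude Frobenius element stabilises the valuation subring. -/
lemma smul_eq_of_isFrobeniusAt681 {A : ValuationSubring Qb} {σ : GQ} {N : ℕ}
    (h : A.IsFrobeniusAt σ N) : σ • A = A :=
  MulAction.mem_stabilizer_iff.mp h.mem_decompositionSubgroup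

/-! ## Trivial inertia outside the bad primes -/

/-- Outside a finite set of primes, an automorphism of `ℚ̄` which is congruent to the identity
modulo a place above `q` on the algebraic integers fixes `F`. -/
theorem exists_bad_primes_fix681 (F : IntermediateField ℚ Qb) [FiniteDimensional ℚ F] :
    ∃ B : Finset ℕ, ∀ (q : ℕ) [Fact q.Prime], q ∉ B → ∀ g ρ : GQ,
      (∀ x : Qb, IsIntegral ℤ x → pn681 q g (ρ x - x) < 1) → ρ ∈ F.fixingSubgroup := by
  haveI : Algebra.IsAlgebraic ℚ Qb := AlgebraicClosure.isAlgebraic ℚ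
  haveI : IsAlgClosure ℚ Qb := ⟨inferInstance, inferInstance⟩
  haveI : Normal ℚ Qb := IsAlgClosure.normal ℚ Qb
  set L : IntermediateField ℚ Qb := IntermediateField.normalClosure ℚ F Qb with hL
  have hFL : F ≤ L := IntermediateField.le_normalClosure F
  haveI hLfd : FiniteDimensional ℚ L := normalClosure.is_finiteDimensional ℚ F Qb
  haveI hLn : Normal ℚ L := normalClosure.normal ℚ F Qb
  haveI : NumberField L := Fermat.Agent.Lib.Cheb.numberField_intermediateField956 L
  refine ⟨Fermat.Agent.Lib.Cheb.badPrimes956 L, fun q _ hqB g ρ hρ => ?_⟩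
  have hq : q.Prime := Fact.out
  have h1 : ρ.restrictNormal L = 1 := by
    refine Fermat.Agent.Lib.Cheb.eq_one_of_smul_sub_mem956 hq hqB
      (placePrime681_isPrime L q g) (natCast_mem_placePrime681 L q g) (fun z => ?_)
    rw [mem_placePrime681]
    have h2 : ((((ρ.restrictNormal L • z - z : 𝓞 L) : L)) : Qb) =
        ρ ((z : L) : Qb) - ((z : L) : Qb) := by
      have h3 : (((ρ.restrictNormal L • z : 𝓞 L) : L) : Qb) = ρ ((z : L) : Qb) :=
        AlgEquiv.restrictNormal_commutes ρ L (z : L)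
      rw [← h3]
      simp
    rw [h2]
    exact hρ _ (isIntegral_coe681 L z)
  rw [IntermediateField.mem_fixingSubgroup_iff]
  intro x hx
  have h4 := AlgEquiv.restrictNormal_commutes ρ L ⟨x, hFL hx⟩
  rw [h1] at h4
  exact h4.symm

/-! ## The leaf -/

theorem frobIndep681 : FrobIndepC := by
  intro K _ n _ χ hχ
  obtain ⟨F, hF, hconst⟩ := hχ
  haveI := hF
  obtain ⟨B, hB⟩ := exists_bad_primes_fix681 F
  refine ⟨B, fun q _ hqB P hP σ hσ => ?_⟩
  have hq : q.Prime := Fact.out
  obtain ⟨-, A, hUnder, hFrob⟩ := hσ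
  -- `A` lies over `q`
  have hqP : ((q : ℕ) : 𝓞 K) ∈ P.asIdeal := (mem_fib681 K q).mp hP
  have hqA : (q : Qb) ∈ A.nonunits := by
    have h := (hUnder _).mp hqP
    have h2 : algebraMap K Qb (algebraMap (𝓞 K) K ((q : ℕ) : 𝓞 K)) = (q : Qb) := by
      simp
    rwa [h2] at h
  obtain ⟨g', hg'⟩ := exists_smul_padicPlace_eq681 q A hqA
  have hmemA : ∀ x : Qb, x ∈ A.nonunits ↔ pn681 q g' x < 1 := by
    intro x
    rw [← hg']
    exact mem_nonunits_smul_padicPlace_iff681 q g' x
  -- the prime of the place `(q, g')` is `P`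
  have hPg' : placePrime681 K q g' = P.asIdeal := by
    ext x
    rw [mem_placePrime681, ← hmemA, hUnder x]
    rfl
  set g := gAt681 K q P with hg
  have hPg : placePrime681 K q g = P.asIdeal := placePrime_gAt681 K q hP
  obtain ⟨u, hu, d, hd, hgg⟩ :=
    exists_doubleCoset_of_placePrime_eq681 K q g g' (hPg.trans hPg'.symm)
  -- norms at `g'` in terms of `g`
  have hpn : ∀ x : Qb, pn681 q g' x = pn681 q g ((u⁻¹ : GQ) x) := by
    intro x
    rw [hgg, pn681_mul_right q (u * g) d hd, pn681_smul_left]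
  set N := Nat.card (𝓞 K ⧸ P.asIdeal) with hN
  set Fr : GQ := ((FrAt681 K q P : ↥K.fixingSubgroup) : GQ) with hFr
  have hFrU : Fr ∈ K.fixingSubgroup := (FrAt681 K q P).2
  -- the conjugate of the chosen Frobenius is a Frobenius at `g'`
  have hcongFr : ∀ x : Qb, IsIntegral ℤ x →
      pn681 q g' ((u * Fr * u⁻¹ : GQ) x - x ^ N) < 1 := by
    intro x hx
    rw [hpn]
    have h1 : (u⁻¹ : GQ) ((u * Fr * u⁻¹ : GQ) x - x ^ N) =
        Fr ((u⁻¹ : GQ) x) - ((u⁻¹ : GQ) x) ^ N := by
      rw [map_sub, map_pow]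
      congr 1
      show (u⁻¹ * (u * Fr * u⁻¹) : GQ) x = (Fr * u⁻¹ : GQ) x
      congr 1
      group
    rw [h1]
    exact frAt_cong681 K q hP _ (hx.map (u⁻¹ : GQ))
  -- the Prelude Frobenius
  have hcongσ : ∀ x : Qb, IsIntegral ℤ x → pn681 q g' ((σ : GQ) x - x ^ N) < 1 := by
    intro x hx
    rw [← hmemA]
    exact sub_pow_mem_nonunits_of_isFrobeniusAt681 hFrob x
      (Fermat.Agent.S54.isIntegral_mem_valuationSubring A hx)
  have hstab : ∀ z : Qb, pn681 q g' (((σ : GQ)⁻¹ : GQ) z) < 1 ↔ pn681 q g' z < 1 := by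
    intro z
    rw [← pn681_smul_left, ← mem_nonunits_smul_padicPlace_iff681, mul_smul, hg',
      smul_eq_of_isFrobeniusAt681 hFrob, hmemA]
  -- the quotient is congruent to the identity
  set ρ : GQ := (σ : GQ)⁻¹ * (u * Fr * u⁻¹) with hρ
  have hρcong : ∀ x : Qb, IsIntegral ℤ x → pn681 q g' (ρ x - x) < 1 := by
    intro x hx
    have h1 : ρ x - x = ((σ : GQ)⁻¹ : GQ) ((u * Fr * u⁻¹ : GQ) x - (σ : GQ) x) := by
      rw [map_sub]
      congr 1
      show x = ((σ : GQ)⁻¹ * (σ : GQ) : GQ) x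
      rw [inv_mul_cancel]
      rfl
    rw [h1, hstab]
    have h2 : (u * Fr * u⁻¹ : GQ) x - (σ : GQ) x =
        ((u * Fr * u⁻¹ : GQ) x - x ^ N) - ((σ : GQ) x - x ^ N) := by ring
    rw [h2]
    exact lt_of_le_of_lt (pn681_sub_le_max q g' _ _) (max_lt (hcongFr x hx) (hcongσ x hx))
  have hρF : ρ ∈ F.fixingSubgroup := hB q hqB g' ρ hρcong
  have hconjU : u * Fr * u⁻¹ ∈ K.fixingSubgroup :=
    K.fixingSubgroup.mul_mem (K.fixingSubgroup.mul_mem hu hFrU) (K.fixingSubgroup.inv_mem hu)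
  have hρU : ρ ∈ K.fixingSubgroup :=
    K.fixingSubgroup.mul_mem (K.fixingSubgroup.inv_mem σ.2) hconjU
  -- `χ ρ = 1`
  have hχρ : χ ⟨ρ, hρU⟩ = 1 := by
    have h := hconst 1 ⟨ρ, hρU⟩ hρF
    rw [one_mul, map_one] at h
    exact h
  have hprod : (⟨ρ, hρU⟩ : ↥K.fixingSubgroup) =
      σ⁻¹ * (⟨u, hu⟩ * FrAt681 K q P * ⟨u, hu⟩⁻¹) := by
    apply Subtype.ext
    rfl
  rw [hprod, map_mul, map_mul, map_mul, map_inv, map_inv] at hχρ
  have h3 : χ ⟨u, hu⟩ * χ (FrAt681 K q P) * (χ ⟨u, hu⟩)⁻¹ = χ (FrAt681 K q P) := by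
    rw [mul_comm (χ ⟨u, hu⟩), mul_assoc, mul_inv_cancel, mul_one]
  rw [h3] at hχρ
  exact (inv_mul_eq_one.mp hχρ)

end Fermat.Agent.LT.CFT.H681

end
end
-- ===== PACK-END LT/CFT/H681/FrobIndep.lean

-- ===== PACK-BEGIN LT/CFT/H681/RaySum.lean
section


/-!
# LT / tower CFT, leaf `CFT.14.5` : `RayOfArtinSumC`  (helper681)

Conductor `𝔣 = (N)`, `N = ∏_{q ∈ B ∪ B₀} q ^ (e_q + 1)`; `ordAt = ordP681`; the sum over the rational
primes and the primes above them is the sum over all primes of `𝓞 K`.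
-/

set_option autoImplicit false

noncomputable section

namespace Fermat.Agent.LT.CFT.H681

open Fermat.Agent.S55.G.Rec Fermat.Agent.LT.CFT groupCohomology NumberField IsDedekindDomain
open scoped NumberField WithZero Pointwise

local notation "Qb" => AlgebraicClosure ℚ
local notation "GQ" => (AlgebraicClosure ℚ ≃ₐ[ℚ] AlgebraicClosure ℚ)

variable (K : IntermediateField ℚ Qb) [NumberField K]

/-! ## The rational prime below -/

/-- The rational prime below `P`. -/
def qOf681 (P : HeightOneSpectrum (𝓞 K)) : Nat.Primes :=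
  ⟨Classical.choose (exists_prime_mem681 K P),
    (Classical.choose_spec (exists_prime_mem681 K P)).1⟩

lemma qOf681_mem (P : HeightOneSpectrum (𝓞 K)) :
    (((qOf681 K P : Nat.Primes) : ℕ) : 𝓞 K) ∈ P.asIdeal :=
  (Classical.choose_spec (exists_prime_mem681 K P)).2

lemma prime_below_unique681 (P : HeightOneSpectrum (𝓞 K)) {q q' : ℕ} (hq : q.Prime)
    (hq' : q'.Prime) (h : (q : 𝓞 K) ∈ P.asIdeal) (h' : (q' : 𝓞 K) ∈ P.asIdeal) : q = q' := by
  by_contra hne
  have hcop : IsCoprime (q : ℤ) (q' : ℤ) :=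
    Nat.isCoprime_iff_coprime.mpr ((Nat.coprime_primes hq hq').mpr hne)
  obtain ⟨a, b, hab⟩ := hcop
  have h1 : (1 : 𝓞 K) ∈ P.asIdeal := by
    have h2 : ((a * q + b * q' : ℤ) : 𝓞 K) = 1 := by rw [hab]; simp
    rw [← h2]
    push_cast
    exact P.asIdeal.add_mem (P.asIdeal.mul_mem_left _ h) (P.asIdeal.mul_mem_left _ h')
  exact P.isPrime.ne_top ((Ideal.eq_top_iff_one _).mpr h1)

lemma mem_fib_iff_qOf681 (q : ℕ) [hq : Fact q.Prime] (P : HeightOneSpectrum (𝓞 K)) :
    P ∈ fib681 K q ↔ ((qOf681 K P : Nat.Primes) : ℕ) = q := by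
  rw [mem_fib681]
  constructor
  · intro h
    exact prime_below_unique681 K P (qOf681 K P).2 hq.out (qOf681_mem K P) h
  · intro h
    rw [← h]
    exact qOf681_mem K P

/-! ## Orders -/

lemma ordAt_cast_eq681 (P : HeightOneSpectrum (𝓞 K)) (α : 𝓞 K) (hα : α ≠ 0) :
    ((ordAt P α : ℕ) : ℤ) = ordP681 K P (α : K) := by
  unfold ordP681 ordAt
  have h : ((α : K)) = algebraMap (𝓞 K) K α := rfl
  rw [h, HeightOneSpectrum.valuation_of_algebraMap, P.intValuation_if_neg hα, WithZero.log_exp,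
    neg_neg]

lemma ordAt_eq_zero681 (P : HeightOneSpectrum (𝓞 K)) (α : 𝓞 K) (hα : α ≠ 0)
    (h : α ∉ P.asIdeal) : ordAt P α = 0 := by
  have h1 : P.intValuation α = 1 := by
    by_contra hne
    have hlt : P.intValuation α < 1 := lt_of_le_of_ne (P.intValuation_le_one α) hne
    exact h ((P.intValuation_lt_one_iff_mem α).mp hlt)
  rw [P.intValuation_if_neg hα, ← WithZero.exp_zero] at h1
  have h2 := WithZero.exp_injective h1
  unfold ordAt
  omega

/-! ## Norms of natural numbers -/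

lemma pn681_natCast_le_one (q : ℕ) [Fact q.Prime] (g : GQ) (m : ℕ) :
    pn681 q g (m : Qb) ≤ 1 :=
  pn681_le_one_of_isIntegral q g (isIntegral_algebraMap (R := ℤ) (x := (m : ℤ)) |> fun h => by
    simpa using h)

/-- The norm at `(q, g)` of an element of `N 𝓞 K`, `q ^ (e + 1) ∣ N`. -/
lemma pn681_lt_of_mem_span681 (q : ℕ) [Fact q.Prime] (g : GQ) (N e : ℕ)
    (hdvd : q ^ (e + 1) ∣ N) (x : 𝓞 K) (hx : x ∈ Ideal.span {((N : ℕ) : 𝓞 K)}) :
    pn681 q g (((x : K)) : Qb) ≤ ((q : ℝ)⁻¹) ^ (e + 1) := by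
  obtain ⟨β, hβ⟩ := Ideal.mem_span_singleton'.mp hx
  obtain ⟨M, hM⟩ := hdvd
  have h1 : (((x : K)) : Qb) = (((β : K)) : Qb) * ((q : Qb) ^ (e + 1) * (M : Qb)) := by
    rw [← hβ, hM]
    push_cast
    rfl
  rw [h1, pn681_mul, pn681_mul, pn681_pow, pn681_natCast_self]
  have hb := pn681_coe_le_one K q g β
  have hm := pn681_natCast_le_one q g M
  have hb0 := pn681_nonneg q g (((β : K)) : Qb)
  have hm0 := pn681_nonneg q g (M : Qb)
  have hq0 : (0 : ℝ) ≤ ((q : ℝ)⁻¹) ^ (e + 1) := by positivity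
  calc pn681 q g (((β : K)) : Qb) * (((q : ℝ)⁻¹) ^ (e + 1) * pn681 q g (M : Qb))
      ≤ 1 * (((q : ℝ)⁻¹) ^ (e + 1) * 1) := by
        apply mul_le_mul hb _ (mul_nonneg hq0 hm0) zero_le_one
        exact mul_le_mul_of_nonneg_left hm hq0
    _ = ((q : ℝ)⁻¹) ^ (e + 1) := by ring

lemma exists_exp681 (n : ℕ) : ∀ q : ℕ, ∃ e : ℕ, q.Prime → ((q : ℝ)⁻¹) ^ e < eps681 n q := by
  intro q
  by_cases hq : q.Prime
  · have h1 : ((q : ℝ)⁻¹) < 1 := by
      have h2 : (1 : ℝ) < q := by exact_mod_cast hq.one_lt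
      exact inv_lt_one_of_one_lt₀ h2
    have h0 : (0 : ℝ) ≤ (q : ℝ)⁻¹ := by positivity
    obtain ⟨e, he⟩ := exists_pow_lt_of_lt_one (eps681_pos n q) h1
    exact ⟨e, fun _ => he⟩
  · exact ⟨0, fun h => absurd h hq⟩

/-! ## The leaf -/

theorem rayOfArtinSum681 : RayOfArtinSumC := by
  intro K _ n _ χ B B₀ hart hfrob
  classical
  choose e he using exists_exp681 n
  set S : Finset ℕ := (B ∪ B₀).filter Nat.Prime with hS
  set N : ℕ := ∏ q ∈ S, q ^ (e q + 1) with hN
  have hN0 : N ≠ 0 := by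
    rw [hN]
    refine Finset.prod_ne_zero_iff.mpr fun q hq => ?_
    exact pow_ne_zero _ (Finset.mem_filter.mp hq).2.ne_zero
  have hdvd : ∀ q ∈ B ∪ B₀, q.Prime → q ^ (e q + 1) ∣ N := by
    intro q hq hqp
    exact Finset.dvd_prod_of_mem (fun q => q ^ (e q + 1)) (Finset.mem_filter.mpr ⟨hq, hqp⟩)
  refine ⟨Ideal.span {((N : ℕ) : 𝓞 K)}, ?_, ?_⟩
  · rw [Ne, Ideal.span_singleton_eq_bot]
    exact_mod_cast hN0
  intro frob hfrobAt α hα hα1
  -- closeness at the primes of `B ∪ B₀`
  have hclose : ∀ q ∈ B ∪ B₀, ∀ [Fact q.Prime] (g : GQ),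
      pn681 q g ((((α : K)) : Qb) - 1) ≤ ((q : ℝ)⁻¹) ^ (e q + 1) := by
    intro q hq hqf g
    have h1 : (((α : K)) : Qb) - 1 = ((((α - 1 : 𝓞 K) : K)) : Qb) := by
      push_cast
      rfl
    rw [h1]
    exact pn681_lt_of_mem_span681 K q g N (e q) (hdvd q hq hqf.out) (α - 1) hα1
  have hpowlt : ∀ q : ℕ, q.Prime → ((q : ℝ)⁻¹) ^ (e q + 1) < eps681 n q ∧
      ((q : ℝ)⁻¹) ^ (e q + 1) < 1 := by
    intro q hq
    have h1 : ((q : ℝ)⁻¹) < 1 := by
      have h2 : (1 : ℝ) < q := by exact_mod_cast hq.one_lt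
      exact inv_lt_one_of_one_lt₀ h2
    have h0 : (0 : ℝ) ≤ (q : ℝ)⁻¹ := by positivity
    constructor
    · calc ((q : ℝ)⁻¹) ^ (e q + 1) ≤ ((q : ℝ)⁻¹) ^ (e q) :=
            pow_le_pow_of_le_one h0 h1.le (Nat.le_succ _)
        _ < eps681 n q := he q hq
    · exact pow_lt_one₀ h0 h1 (Nat.succ_ne_zero _)
  obtain ⟨-, hsum⟩ := hart α hα (fun q hq hqf g =>
    lt_of_le_of_lt (hclose q (Finset.mem_union_left _ hq) g) (hpowlt q hqf.out).1)
  -- the primes dividing `α`
  have hα0 : Ideal.span {α} ≠ 0 := by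
    intro h
    exact hα (Ideal.span_singleton_eq_bot.mp h)
  set s : Finset (HeightOneSpectrum (𝓞 K)) := (Ideal.finite_factors hα0).toFinset with hs
  have hsmem : ∀ P : HeightOneSpectrum (𝓞 K), P ∈ s ↔ α ∈ P.asIdeal := by
    intro P
    rw [hs, Set.Finite.mem_toFinset, Set.mem_setOf_eq, Ideal.dvd_span_singleton]
  have hord0 : ∀ P : HeightOneSpectrum (𝓞 K), P ∉ s → ordAt P α = 0 := by
    intro P hP
    exact ordAt_eq_zero681 K P α hα (fun h => hP ((hsmem P).mpr h))
  have hsupp : (Function.mulSupport fun P : HeightOneSpectrum (𝓞 K) =>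
      χ (frob P) ^ ordAt P α) ⊆ ↑s := by
    intro P hP
    by_contra hPs
    apply hP
    show χ (frob P) ^ ordAt P α = 1
    rw [hord0 P hPs, pow_zero]
  refine ⟨s.finite_toSet.subset hsupp, ?_⟩
  rw [finprod_eq_prod_of_mulSupport_subset _ hsupp]
  apply Multiplicative.toAdd.injective
  rw [toAdd_prod, toAdd_one]
  -- the local terms
  set t : Nat.Primes → HeightOneSpectrum (𝓞 K) → ZMod n := fun q P =>
    haveI : Fact (q : ℕ).Prime := ⟨q.2⟩
    if (q : ℕ) ∈ B then 0 else ordP681 K P (α : K) • chiAdd χ (FrAt681 K (q : ℕ) P) with ht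
  have hT : ∀ q : Nat.Primes, artinSum681 K χ B α q =
      haveI : Fact (q : ℕ).Prime := ⟨q.2⟩
      ∑ P ∈ fib681 K (q : ℕ), t q P := fun q => rfl
  -- primes dividing the conductor
  have hunit : ∀ P : HeightOneSpectrum (𝓞 K), Ideal.span {((N : ℕ) : 𝓞 K)} ≤ P.asIdeal →
      ordAt P α = 0 := by
    intro P hP
    refine ordAt_eq_zero681 K P α hα (fun h => ?_)
    have h1 : (1 : 𝓞 K) ∈ P.asIdeal := by
      have h2 : (1 : 𝓞 K) = α - (α - 1) := by ring
      rw [h2]
      exact P.asIdeal.sub_mem h (hP hα1)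
    exact P.isPrime.ne_top ((Ideal.eq_top_iff_one _).mpr h1)
  have hgood : ∀ P : HeightOneSpectrum (𝓞 K), ¬ Ideal.span {((N : ℕ) : 𝓞 K)} ≤ P.asIdeal →
      ((qOf681 K P : Nat.Primes) : ℕ) ∉ B ∪ B₀ := by
    intro P hP hq
    apply hP
    rw [Ideal.span_singleton_le_iff_mem]
    obtain ⟨M, hM⟩ := hdvd _ hq (qOf681 K P).2
    rw [hM]
    push_cast
    apply Ideal.mul_mem_right
    rw [pow_succ]
    exact Ideal.mul_mem_left _ _ (qOf681_mem K P)
  have hterm : ∀ P : HeightOneSpectrum (𝓞 K),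
      Multiplicative.toAdd (χ (frob P) ^ ordAt P α) = t (qOf681 K P) P := by
    intro P
    haveI : Fact ((qOf681 K P : Nat.Primes) : ℕ).Prime := ⟨(qOf681 K P).2⟩
    rw [toAdd_pow]
    show ordAt P α • chiAdd χ (frob P) =
      if ((qOf681 K P : Nat.Primes) : ℕ) ∈ B then 0 else
        ordP681 K P (α : K) • chiAdd χ (FrAt681 K ((qOf681 K P : Nat.Primes) : ℕ) P)
    rw [← ordAt_cast_eq681 K P α hα, natCast_zsmul]
    by_cases hP : Ideal.span {((N : ℕ) : 𝓞 K)} ≤ P.asIdeal
    · rw [hunit P hP, zero_smul, zero_smul, ite_self]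
    · have hq := hgood P hP
      have hqB : ((qOf681 K P : Nat.Primes) : ℕ) ∉ B := fun h => hq (Finset.mem_union_left _ h)
      have hqB₀ : ((qOf681 K P : Nat.Primes) : ℕ) ∉ B₀ :=
        fun h => hq (Finset.mem_union_right _ h)
      rw [if_neg hqB]
      have hPfib : P ∈ fib681 K ((qOf681 K P : Nat.Primes) : ℕ) :=
        (mem_fib_iff_qOf681 K _ P).mpr rfl
      have h1 := hfrob _ hqB₀ P hPfib (frob P) (hfrobAt P hP)
      unfold chiAdd
      rw [h1]
  rw [Finset.sum_congr rfl (fun P _ => hterm P)]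
  -- re-indexing
  have hfib : ∀ (q : Nat.Primes) (P : HeightOneSpectrum (𝓞 K)),
      (haveI : Fact (q : ℕ).Prime := ⟨q.2⟩; P ∈ fib681 K (q : ℕ)) ↔ qOf681 K P = q := by
    intro q P
    haveI : Fact (q : ℕ).Prime := ⟨q.2⟩
    rw [mem_fib_iff_qOf681 K (q : ℕ) P]
    exact ⟨fun h => Subtype.ext h, fun h => congrArg Subtype.val h⟩
  have htzero : ∀ (q : Nat.Primes) (P : HeightOneSpectrum (𝓞 K)), P ∉ s → t q P = 0 := by
    intro q P hP
    show (if (q : ℕ) ∈ B then 0 else ordP681 K P (α : K) • chiAdd χ _) = 0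
    rw [← ordAt_cast_eq681 K P α hα, hord0 P hP]
    simp
  have hsuppT : Function.support (artinSum681 K χ B α) ⊆ ↑(s.image (qOf681 K)) := by
    intro q hq
    by_contra hqs
    apply hq
    rw [hT q]
    refine Finset.sum_eq_zero fun P hP => ?_
    apply htzero
    intro hPs
    apply hqs
    rw [Finset.mem_coe, Finset.mem_image]
    exact ⟨P, hPs, (hfib q P).mp hP⟩
  rw [finsum_eq_sum_of_support_subset _ hsuppT] at hsum
  rw [← hsum]
  symm
  refine Finset.sum_image' (fun P => t (qOf681 K P) P) (fun P₀ hP₀ => ?_)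
  rw [hT]
  have hsub : s.filter (fun P => qOf681 K P = qOf681 K P₀) ⊆
      (haveI : Fact ((qOf681 K P₀ : Nat.Primes) : ℕ).Prime := ⟨(qOf681 K P₀).2⟩;
        fib681 K ((qOf681 K P₀ : Nat.Primes) : ℕ)) := by
    intro P hP
    exact (hfib _ P).mpr (Finset.mem_filter.mp hP).2
  rw [← Finset.sum_subset hsub]
  · refine Finset.sum_congr rfl fun P hP => ?_
    rw [(Finset.mem_filter.mp hP).2]
  · intro P hP hPs
    apply htzero
    intro h
    exact hPs (Finset.mem_filter.mpr ⟨h, (hfib _ P).mp hP⟩)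

end Fermat.Agent.LT.CFT.H681

end
end
-- ===== PACK-END LT/CFT/H681/RaySum.lean

-- ===== PACK-BEGIN LT/CFT/H953/CharFactor.lean
section


/-!
# LT / tower CFT / DICT, leaf `CFT.14.1` `CharFactorC` (helper953, spare)

Proved VERBATIM against `LT/CFT/H681/DictSpec.lean` (helper681@ed6b15c6a, sha256 23c97034…).

A character `χ : U → ℂˣ` which is trivial on `U ∩ Gal(ℚ̄/F)`, `F` a number field, factors through
the restriction map `U → Hom_ℚ (F, ℚ̄)` to a FINITE set; so its image is a finite subgroup of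
`ℂˣ`, hence cyclic of some order `n ≠ 0`, and `χ = e ∘ χ₁` with
`χ₁ : U → image ≃ Multiplicative (ZMod n)` (level-constant, level field `F`).
-/

set_option autoImplicit false

noncomputable section

namespace Fermat.Agent.LT.CFT.H953

open Fermat.Agent.LT.CFT Fermat.Agent.LT.CFT.H681 groupCohomology

local notation "Qb" => AlgebraicClosure ℚ
local notation "GQ" => (AlgebraicClosure ℚ ≃ₐ[ℚ] AlgebraicClosure ℚ)

/-- The image of a character trivial on `U ∩ Gal(ℚ̄/F)` is finite. -/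
theorem finite_range_of_level953 {M : Type*} [Group M] (U : Subgroup GQ) (χ : ↥U →* M)
    (F : IntermediateField ℚ Qb) [FiniteDimensional ℚ F]
    (h : ∀ σ : ↥U, (σ : GQ) ∈ F.fixingSubgroup → χ σ = 1) :
    (Set.range χ).Finite := by
  classical
  -- the restriction map to the finite set `Hom_ℚ (F, ℚ̄)`
  set restr : ↥U → (↥F →ₐ[ℚ] Qb) := fun σ => ((σ : GQ) : Qb →ₐ[ℚ] Qb).comp F.val with hrestr
  have hkey : ∀ σ τ : ↥U, restr σ = restr τ → χ σ = χ τ := by
    intro σ τ hστ
    have h1 : ((σ⁻¹ * τ : ↥U) : GQ) ∈ F.fixingSubgroup := by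
      rw [IntermediateField.mem_fixingSubgroup_iff]
      intro x hx
      have h2 : (σ : GQ) x = (τ : GQ) x := DFunLike.congr_fun hστ ⟨x, hx⟩
      show ((σ : GQ)⁻¹ * (τ : GQ)) x = x
      rw [AlgEquiv.mul_apply, ← h2]
      exact AlgEquiv.symm_apply_apply (σ : GQ) x
    have h3 := h _ h1
    rw [map_mul, map_inv, inv_mul_eq_one] at h3
    exact h3
  have hsub : Set.range χ ⊆
      Set.range (fun r : Set.range restr => χ (Classical.choose r.2)) := by
    rintro _ ⟨σ, rfl⟩
    refine ⟨⟨restr σ, σ, rfl⟩, ?_⟩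
    exact hkey _ _ (Classical.choose_spec (⟨σ, rfl⟩ : ∃ y, restr y = restr σ))
  exact (Set.finite_range _).subset hsub

/-- **Leaf `CFT.14.1` (CHAR) of DICT.** -/
theorem charFactor953 : CharFactorC := by
  intro U χ hfin
  obtain ⟨F, hF, h⟩ := hfin
  have := hF
  have hfinR : (Set.range χ).Finite := finite_range_of_level953 U χ F h
  have : Finite ↥χ.range := by
    have h1 : Finite ↥(Set.range χ) := hfinR.to_subtype
    exact h1
  have hcyc : IsCyclic ↥χ.range := inferInstance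
  set n : ℕ := Nat.card ↥χ.range with hn
  have hn0 : n ≠ 0 := Nat.card_pos.ne'
  set E : Multiplicative (ZMod n) ≃* ↥χ.range := zmodCyclicMulEquiv hcyc with hE
  refine ⟨n, E.symm.toMonoidHom.comp χ.rangeRestrict, χ.range.subtype.comp E.toMonoidHom,
    hn0, ⟨F, hF, fun g s hs => ?_⟩, fun σ => ?_⟩
  · have h1 : χ s = 1 := h s hs
    have h2 : χ.rangeRestrict s = 1 := Subtype.ext h1
    show E.symm (χ.rangeRestrict (g * s)) = E.symm (χ.rangeRestrict g)
    rw [map_mul, h2, mul_one]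
  · show χ σ = ((E (E.symm (χ.rangeRestrict σ)) : ↥χ.range) : ℂˣ)
    rw [MulEquiv.apply_symm_apply]
    rfl

end Fermat.Agent.LT.CFT.H953

end
end
-- ===== PACK-END LT/CFT/H953/CharFactor.lean

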