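import Mathlib
import Fermat.Agent.Pack.LT2.E2L1
import Fermat.Agent.Pack.LT2.E0L0
import Fermat.Agent.Pack.LT2.E4L0

set_option linter.all false

-- ===== PACK-BEGIN LT/T1/H558/FundDom.lean
section




/-!
# Row LT, tower T1, leaf T1.18 `LeafFundDom` (helper558)

OFF-MAIN.  `leafFundDom558 K : T1.LeafFundDom K`, VERBATIM against `LT/T1/Spec.lean`
(origin/helper54@675fbadd3):

`LocCompC K → DiscreteC K → AdNormC K → HeightC K → ReductionC K → SiegelVolC K → FundDomC K`.

Route: the slab `1 ≤ ‖det g‖ < 2` is Borel (continuity of the module on ideles) and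
`GL₂(K)`-invariant (product formula); by `ReductionC` and `SiegelVolC` the Borel set `S` of finite
measure meets every orbit of the slab; `exists_strict_fundDom558` gives the strict Borel
fundamental domain `F ⊆ S`.
-/

set_option autoImplicit false

open IsDedekindDomain NumberField MeasureTheory
open scoped MatrixGroups

noncomputable section

namespace Fermat.Agent.LT.T1.H558

open Fermat.Agent.LT.H556.A0 Fermat.Agent.LT.T1

variable (K : Type) [Field K] [NumberField K]

/-- `ratG` is injective. -/
theorem ratG_injective558 : Function.Injective (ratG K) := by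
  intro a b hab
  have hinj : Function.Injective (algebraMap K (Adl K)) :=
    NumberField.AdeleRing.algebraMap_injective (𝓞 K) K
  apply Units.ext
  ext i j
  have h := congrArg (fun g : G K => (g : Matrix (Fin 2) (Fin 2) (Adl K)) i j) hab
  simp only [ratG, Matrix.GeneralLinearGroup.map_apply] at h
  exact hinj h

/-- The determinant of a rational matrix. -/
theorem det_ratG558 (γ : GL (Fin 2) K) :
    Matrix.det ((ratG K γ : G K) : Matrix (Fin 2) (Fin 2) (Adl K))
      = ((ratUnit K (Matrix.GeneralLinearGroup.det γ) : (Adl K)ˣ) : Adl K) := by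
  simp only [ratG, ratUnit, Units.coe_map, Matrix.GeneralLinearGroup.val_det_apply,
    RingHom.toMonoidHom_eq_coe, MonoidHom.coe_coe]
  rw [RingHom.map_det]
  rfl

/-- The module of the determinant is `GL₂(K)`-invariant. -/
theorem adNorm_det_ratG_mul558 (hN : AdNormC K) (γ : GL (Fin 2) K) (g : G K) :
    adNorm K (Matrix.det ((ratG K γ * g : G K) : Matrix (Fin 2) (Fin 2) (Adl K)))
      = adNorm K (Matrix.det (g : Matrix (Fin 2) (Fin 2) (Adl K))) := by
  obtain ⟨-, hmul, hprod, -⟩ := hN
  have h1 : Matrix.det ((ratG K γ * g : G K) : Matrix (Fin 2) (Fin 2) (Adl K))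
      = ((ratUnit K (Matrix.GeneralLinearGroup.det γ) * Matrix.GeneralLinearGroup.det g :
          (Adl K)ˣ) : Adl K) := by
    rw [Units.val_mul, Matrix.det_mul, det_ratG558, Units.val_mul]
    rfl
  rw [h1, hmul, hprod, one_mul]
  rfl

/-- The slab is invariant. -/
theorem slab_inv558 (hN : AdNormC K) (γ : GL (Fin 2) K) (g : G K) (hg : g ∈ slab K) :
    ratG K γ * g ∈ slab K := by
  unfold slab at hg ⊢
  simp only [Set.mem_ofPred_eq] at hg ⊢
  rw [adNorm_det_ratG_mul558 K hN]
  exact hg

/-- `g ↦ ‖det g‖` is continuous on `GL₂(𝔸_K)`. -/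
theorem continuous_adNorm_det558 (hN : AdNormC K) :
    Continuous fun g : G K => adNorm K (Matrix.det (g : Matrix (Fin 2) (Fin 2) (Adl K))) := by
  obtain ⟨-, -, -, hcont⟩ := hN
  have hdet : Continuous fun g : G K => (Matrix.GeneralLinearGroup.det g : (Adl K)ˣ) := by
    rw [Units.continuous_iff]
    constructor
    · have : Continuous fun g : G K => Matrix.det (g : Matrix (Fin 2) (Fin 2) (Adl K)) :=
        Continuous.matrix_det Units.continuous_val
      exact this
    · have h2 : Continuous fun g : G K =>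
          Matrix.det ((g⁻¹ : G K) : Matrix (Fin 2) (Fin 2) (Adl K)) :=
        Continuous.matrix_det (Units.continuous_val.comp continuous_inv)
      refine h2.congr fun g => ?_
      have : ((Matrix.GeneralLinearGroup.det g)⁻¹ : (Adl K)ˣ)
          = Matrix.GeneralLinearGroup.det g⁻¹ := (map_inv _ g).symm
      rw [this]
      rfl
  exact hcont.comp hdet

/-- `GL₂(K)` is countable as soon as it is discrete in the second countable group
`GL₂(𝔸_K)`. -/
theorem countable_gam558 (hLC : LocCompC K) (hD : DiscreteC K) : Countable (Gam K) := by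
  have : SecondCountableTopology (G K) := hLC.2.2.2
  have : DiscreteTopology (Gam K) := hD.1
  exact TopologicalSpace.separableSpace_iff_countable.mp inferInstance

/-- **T1.18**: strict Borel fundamental domain of finite measure in the slab. -/
theorem leafFundDom558 : LeafFundDom K := by
  intro hLC hD hN _hH hR hSV
  let _ : MeasurableSpace (G K) := borel (G K)
  have : BorelSpace (G K) := ⟨rfl⟩
  intro μ hμ
  have : SecondCountableTopology (G K) := hLC.2.2.2
  have : DiscreteTopology (Gam K) := hD.1
  have : Countable (Gam K) := countable_gam558 K hLC hD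
  obtain ⟨c, hc, hred⟩ := hR
  obtain ⟨S, hSm, hSfin, hScov⟩ := hSV μ hμ c hc
  -- the slab is Borel
  have hXm : MeasurableSet (slab K) := by
    have hcont := continuous_adNorm_det558 K hN
    have : slab K = (fun g : G K =>
        adNorm K (Matrix.det (g : Matrix (Fin 2) (Fin 2) (Adl K)))) ⁻¹' Set.Ico 1 2 := by
      ext g
      simp [slab]
    rw [this]
    exact hcont.measurable measurableSet_Ico
  have hXinv : ∀ γ : Gam K, ∀ g ∈ slab K, (γ : G K) * g ∈ slab K := by
    rintro ⟨_, γ, rfl⟩ g hg
    exact slab_inv558 K hN γ g hg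
  have hcov : ∀ g ∈ slab K, ∃ γ : Gam K, (γ : G K) * g ∈ S := by
    intro g hg
    obtain ⟨γ, t, ht, hct⟩ := hred g
    obtain ⟨β, -, hβ⟩ := hScov (ratG K γ * g) (slab_inv558 K hN γ g hg) t ht hct
    refine ⟨⟨ratG K (β * γ), ⟨β * γ, rfl⟩⟩, ?_⟩
    simpa [map_mul, mul_assoc] using hβ
  obtain ⟨F, hFm, hFsub, hF⟩ :=
    exists_strict_fundDom558 (Gam K) (slab K) S hXm hSm hXinv hcov
  refine ⟨F, hFm, fun g hg => (hFsub hg).2, ?_, ?_⟩
  · intro g hg
    obtain ⟨⟨_, γ, rfl⟩, hγ, huniq⟩ := hF g hg
    refine ⟨γ, hγ, fun δ hδ => ?_⟩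
    have := huniq ⟨ratG K δ, ⟨δ, rfl⟩⟩ hδ
    exact ratG_injective558 K (congrArg Subtype.val this)
  · exact lt_of_le_of_lt (measure_mono fun g hg => (hFsub hg).1) hSfin

example : LeafFundDom K := leafFundDom558 K

end Fermat.Agent.LT.T1.H558

end

end
-- ===== PACK-END LT/T1/H558/FundDom.lean

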